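/- GENERATED FILE (helper35, build-time optimisation, NOTES/ZB.md): verbatim concatenation of the modules
   Fermat.Agent.S24.PlaceBasic
   Fermat.Agent.S24.DegreeCount
   Do not edit; do not import together with these modules. -/
import Fermat.Prelude.Def_AlgebraicCurve_DivisorClassGroup

/-! ### bundled: `Fermat.Agent.S24.PlaceBasic` -/
section ZBS24_007_0

/-!
# S24 / P1 — basic lemmas on `AlgebraicCurve.Place.ord`
-/

set_option autoImplicit false

open AlgebraicCurve IsDedekindDomain WithZero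

namespace Fermat.Agent.S24

variable {K F : Type*} [Field K] [Field F] [Algebra K F]

namespace PlaceAux

variable (v : Place K F)

theorem mem_iff_adicValuation_le_one (f : F) :
    f ∈ v.toValuationSubring ↔ v.adicValuation f ≤ 1 := by
  constructor
  · intro hf
    have := v.heightOneSpectrum.valuation_le_one (K := F) (⟨f, hf⟩ : v.toValuationSubring)
    simpa [Place.adicValuation] using this
  · intro h
    obtain ⟨a, ha⟩ := IsDiscreteValuationRing.exists_lift_of_le_one
      (A := v.toValuationSubring) (K := F) h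
    rw [← ha]; exact a.2

theorem adicValuation_eq_exp_neg_ord {f : F} (hf : f ≠ 0) :
    v.adicValuation f = exp (-(v.ord f)) := by
  have h := v.adicValuation_ne_zero hf
  rw [Place.ord, neg_neg, WithZero.exp_log h]

theorem ord_nonneg_iff {f : F} (hf : f ≠ 0) : 0 ≤ v.ord f ↔ f ∈ v.toValuationSubring := by
  rw [mem_iff_adicValuation_le_one, adicValuation_eq_exp_neg_ord v hf, ← WithZero.exp_zero,
    WithZero.exp_le_exp]
  omega

theorem mem_of_ord_nonneg {f : F} (h : 0 ≤ v.ord f) : f ∈ v.toValuationSubring := by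
  rcases eq_or_ne f 0 with rfl | hf
  · exact zero_mem _
  · exact (ord_nonneg_iff v hf).mp h

theorem ord_pos_iff {f : F} (hf : f ≠ 0) :
    0 < v.ord f ↔ f ∈ v.toValuationSubring ∧ f⁻¹ ∉ v.toValuationSubring := by
  rw [← ord_nonneg_iff v hf, ← ord_nonneg_iff v (inv_ne_zero hf), v.ord_inv]
  omega

theorem ord_pos_iff_mem_nonunits {f : F} (hf : f ≠ 0) :
    0 < v.ord f ↔ f ∈ v.toValuationSubring.nonunits := by
  rw [ord_pos_iff v hf]
  constructor
  · rintro ⟨h1, h2⟩
    rw [ValuationSubring.mem_nonunits_iff_exists_mem_maximalIdeal]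
    refine ⟨h1, ?_⟩
    rw [IsLocalRing.mem_maximalIdeal, mem_nonunits_iff]
    intro hu
    apply h2
    obtain ⟨u, hu⟩ := hu
    have h3 : (f : F) * ((u⁻¹ : (v.toValuationSubring)ˣ) : v.toValuationSubring) = 1 := by
      have : ((u : v.toValuationSubring) : F) = f := by rw [hu]
      rw [← this]
      exact_mod_cast congrArg Subtype.val (u.mul_inv)
    have : f⁻¹ = ((u⁻¹ : (v.toValuationSubring)ˣ) : v.toValuationSubring) :=
      (eq_inv_of_mul_eq_one_right h3).symm
    rw [this]; exact Subtype.mem _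
  · intro h
    rw [ValuationSubring.mem_nonunits_iff_exists_mem_maximalIdeal] at h
    obtain ⟨h1, h2⟩ := h
    refine ⟨h1, fun h3 => ?_⟩
    rw [IsLocalRing.mem_maximalIdeal, mem_nonunits_iff] at h2
    apply h2
    refine isUnit_iff_exists_inv.mpr ⟨⟨f⁻¹, h3⟩, ?_⟩
    ext
    simp [hf]

theorem ord_algebraMap (a : K) : v.ord (algebraMap K F a) = 0 := by
  rcases eq_or_ne a 0 with rfl | ha
  · simp
  · have h0 : algebraMap K F a ≠ 0 := by simpa using ha
    have h1 : 0 ≤ v.ord (algebraMap K F a) := (ord_nonneg_iff v h0).mpr (v.algebraMap_mem' a)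
    have h2 : 0 ≤ v.ord (algebraMap K F a)⁻¹ := by
      rw [← map_inv₀]
      exact (ord_nonneg_iff v (by simpa using ha)).mpr (v.algebraMap_mem' a⁻¹)
    rw [v.ord_inv] at h2
    omega

theorem ord_neg (f : F) : v.ord (-f) = v.ord f := by
  simp [Place.ord]

theorem le_ord_add {f g : F} (hf : f ≠ 0) (hg : g ≠ 0) (hfg : f + g ≠ 0) :
    min (v.ord f) (v.ord g) ≤ v.ord (f + g) := by
  have h := v.adicValuation.map_add f g
  rw [adicValuation_eq_exp_neg_ord v hf, adicValuation_eq_exp_neg_ord v hg,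
    adicValuation_eq_exp_neg_ord v hfg] at h
  rcases le_max_iff.mp h with h | h <;> rw [WithZero.exp_le_exp] at h <;> omega

/-- If `ord f < ord g` then `ord (f + g) = ord f`. -/
theorem ord_add_eq_of_lt {f g : F} (hf : f ≠ 0) (hg : g ≠ 0) (h : v.ord f < v.ord g) :
    v.ord (f + g) = v.ord f := by
  have hfg : f + g ≠ 0 := by
    intro h0
    have : f = -g := eq_neg_of_add_eq_zero_left h0
    rw [this, ord_neg] at h
    exact lt_irrefl _ h
  have h1 := le_ord_add v hf hg hfg
  have h2 : min (v.ord (f + g)) (v.ord (-g)) ≤ v.ord (f + g + -g) :=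
    le_ord_add v hfg (neg_ne_zero.mpr hg) (by simpa using hf)
  rw [ord_neg, add_neg_cancel_right] at h2
  rcases min_le_iff.mp h2 with h3 | h3
  · rw [min_eq_left h.le] at h1; omega
  · omega

/-- **Characterisation of `ord`**: a multiplicative `ℤ`-valued function whose nonnegative locus is
the valuation ring and which takes the value `1` coincides with `ord`. -/
theorem ord_eq_of_hom (ν : F → ℤ)
    (hmul : ∀ f g : F, f ≠ 0 → g ≠ 0 → ν (f * g) = ν f + ν g)
    (hmem : ∀ f : F, f ≠ 0 → (f ∈ v.toValuationSubring ↔ 0 ≤ ν f))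
    (hone : ∃ f : F, f ≠ 0 ∧ ν f = 1) : ∀ f : F, f ≠ 0 → v.ord f = ν f := by
  have hν1 : ν 1 = 0 := by
    have := hmul 1 1 one_ne_zero one_ne_zero
    rw [mul_one] at this; omega
  have hνinv : ∀ f : F, f ≠ 0 → ν f⁻¹ = -ν f := by
    intro f hf
    have := hmul f f⁻¹ hf (inv_ne_zero hf)
    rw [mul_inv_cancel₀ hf, hν1] at this; omega
  have hνpow : ∀ (f : F), f ≠ 0 → ∀ n : ℕ, ν (f ^ n) = n * ν f := by
    intro f hf n
    induction n with
    | zero => simp [hν1]
    | succ n ih => rw [pow_succ, hmul _ _ (pow_ne_zero n hf) hf, ih]; push_cast; ring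
  have hνzpow : ∀ (f : F), f ≠ 0 → ∀ n : ℤ, ν (f ^ n) = n * ν f := by
    intro f hf n
    cases n with
    | ofNat n => simpa using hνpow f hf n
    | negSucc n =>
      rw [zpow_negSucc, hνinv _ (pow_ne_zero _ hf), hνpow f hf, Int.negSucc_eq]
      push_cast; ring
  -- units have ν = 0
  have hunit : ∀ u : (v.toValuationSubring)ˣ, ν ((u : v.toValuationSubring) : F) = 0 := by
    intro u
    have hu0 : ((u : v.toValuationSubring) : F) ≠ 0 := by
      simp [ne_eq, ZeroMemClass.coe_eq_zero]
    have h1 := (hmem _ hu0).mp (u : v.toValuationSubring).2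
    have h2 : (((u : v.toValuationSubring) : F))⁻¹ ∈ v.toValuationSubring := by
      have : (((u : v.toValuationSubring) : F))⁻¹
          = ((u⁻¹ : (v.toValuationSubring)ˣ) : v.toValuationSubring) := by
        refine (eq_inv_of_mul_eq_one_right ?_).symm
        exact_mod_cast congrArg Subtype.val (u.mul_inv)
      rw [this]; exact Subtype.mem _
    have h3 := (hmem _ (inv_ne_zero hu0)).mp h2
    rw [hνinv _ hu0] at h3
    omega
  obtain ⟨π, hπ⟩ := IsDiscreteValuationRing.exists_irreducible v.toValuationSubring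
  have hπ0 : (π : F) ≠ 0 := by
    simpa [ne_eq, ZeroMemClass.coe_eq_zero] using hπ.ne_zero
  have key : ∀ f : F, f ≠ 0 → ν f = v.ord f * ν (π : F) := by
    intro f hf
    obtain ⟨u, hu⟩ := v.exists_unit_mul_zpow hf hπ
    have hu0 : ((u : v.toValuationSubring) : F) ≠ 0 := by
      simp [ne_eq, ZeroMemClass.coe_eq_zero]
    conv_lhs => rw [hu]
    rw [hmul _ _ hu0 (zpow_ne_zero _ hπ0), hunit u, hνzpow _ hπ0, zero_add]
  have hπpos : 0 ≤ ν (π : F) := (hmem _ hπ0).mp π.2
  obtain ⟨g, hg0, hg1⟩ := hone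
  have h1 := key g hg0
  rw [hg1] at h1
  have hπ1 : ν (π : F) = 1 := by
    have : ν (π : F) ∣ 1 := ⟨v.ord g, by rw [h1]; ring⟩
    rcases Int.isUnit_iff.mp (isUnit_of_dvd_one this) with h | h
    · exact h
    · omega
  intro f hf
  rw [key f hf, hπ1, mul_one]

end PlaceAux

end Fermat.Agent.S24


end ZBS24_007_0

/-! ### bundled: `Fermat.Agent.S24.DegreeCount` -/
section ZBS24_007_1

/-!
# S24 / P10a — the degree of `div(dj)` from the local data (pure bookkeeping)
-/

set_option autoImplicit false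

open AlgebraicCurve

namespace Fermat.Agent.S24

variable {K F : Type*} [Field K] [Field F] [Algebra K F]

namespace DegreeCountAux

/-- `degree D` as a sum over any finset containing the support, when all places have degree one. -/
theorem degree_eq_sum (hdeg : ∀ v : Place K F, v.deg = 1) (D : Divisor K F)
    (S : Finset (Place K F)) (hS : D.support ⊆ S) :
    Divisor.degree D = ∑ v ∈ S, D v := by
  have h1 : Divisor.degree D = D.sum fun v n => n * (v.deg : ℤ) := by
    simp [Divisor.degree, Finsupp.liftAddHom_apply]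
  rw [h1, Finsupp.sum_of_support_subset D hS _ (fun v _ => by simp)]
  refine Finset.sum_congr rfl fun v _ => ?_
  rw [hdeg v]; simp

/-- A place cannot be a zero of `j - c` and of `j - c'` for `c ≠ c'`. -/
theorem not_pos_of_pos_of_ne (v : Place K F) (j : F) {c c' : K} (hcc : c ≠ c')
    (h : 0 < v.ord (j - algebraMap K F c)) : ¬ 0 < v.ord (j - algebraMap K F c') := by
  intro h'
  have hf : j - algebraMap K F c ≠ 0 := by
    intro h0; rw [h0] at h; simp at h
  have hg : -(j - algebraMap K F c') ≠ 0 := by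
    intro h0; rw [neg_eq_zero] at h0; rw [h0] at h'; simp at h'
  have hsum : (j - algebraMap K F c) + -(j - algebraMap K F c') = algebraMap K F (c' - c) := by
    rw [map_sub]; ring
  have hne : algebraMap K F (c' - c) ≠ 0 := by
    rw [Ne, map_eq_zero, sub_eq_zero]; exact fun h => hcc h.symm
  have h1 := PlaceAux.le_ord_add v hf hg (by rw [hsum]; exact hne)
  rw [hsum, PlaceAux.ord_algebraMap, PlaceAux.ord_neg] at h1
  rcases min_le_iff.mp h1 with h2 | h2 <;> omega

/-- A pole of `j` is not a zero of `j - c`. -/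
theorem not_pos_of_neg (v : Place K F) (j : F) (c : K) (h : v.ord j < 0) :
    ¬ 0 < v.ord (j - algebraMap K F c) := by
  intro h'
  have hj : j ≠ 0 := by
    intro h0; rw [h0] at h; simp at h
  rcases eq_or_ne c 0 with rfl | hc
  · rw [map_zero, sub_zero] at h'; omega
  · have hg : -algebraMap K F c ≠ 0 := by
      rw [Ne, neg_eq_zero, map_eq_zero]; exact hc
    have h1 : v.ord (j + -algebraMap K F c) = v.ord j :=
      PlaceAux.ord_add_eq_of_lt v hj hg (by rw [PlaceAux.ord_neg, PlaceAux.ord_algebraMap]; exact h)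
    rw [← sub_eq_add_neg] at h1
    omega

/-- `Nat.card` of a subtype cut out by a finset. -/
theorem natCard_eq_card {α : Type*} (p : α → Prop) (S : Finset α) (hS : ∀ v, v ∈ S ↔ p v) :
    Nat.card {v : α // p v} = S.card := by
  classical
  have e : {v : α // p v} ≃ {v : α // v ∈ S} :=
    Equiv.subtypeEquivRight fun v => (hS v).symm
  rw [Nat.card_congr e, Nat.card_eq_fintype_card, Fintype.card_coe]

end DegreeCountAux

open DegreeCountAux in
/-- P10a: the degree of the divisor of `dj` from the local data (pure bookkeeping). -/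
theorem degree_of_local_data (j : F) (n r0 r1728 rinf : ℕ) (c1728 : K) (h1728 : c1728 ≠ 0)
    (od : Place K F → ℤ)
    (hdeg : ∀ v : Place K F, v.deg = 1)
    (hpart : ∀ v : Place K F, (∃ c : K, 0 < v.ord (j - algebraMap K F c)) ∨ v.ord j < 0)
    (hsum : ∀ c : K, ∃ S : Finset (Place K F), (∀ v, v ∈ S ↔ 0 < v.ord (j - algebraMap K F c)) ∧
      ∑ v ∈ S, v.ord (j - algebraMap K F c) = (n : ℤ))
    (hsuminf : ∃ S : Finset (Place K F), (∀ v, v ∈ S ↔ v.ord j < 0) ∧
      ∑ v ∈ S, (- v.ord j) = (n : ℤ))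
    (hod : ∀ (v : Place K F) (c : K), 0 < v.ord (j - algebraMap K F c) →
      od v = v.ord (j - algebraMap K F c) - 1)
    (hodinf : ∀ v : Place K F, v.ord j < 0 → od v = v.ord j - 1)
    (hc0 : Nat.card {v : Place K F // 0 < v.ord (j - algebraMap K F 0)} = r0)
    (hc1728 : Nat.card {v : Place K F // 0 < v.ord (j - algebraMap K F c1728)} = r1728)
    (hcinf : Nat.card {v : Place K F // v.ord j < 0} = rinf)
    (hcgen : ∀ c : K, c ≠ 0 → c ≠ c1728 →
      Nat.card {v : Place K F // 0 < v.ord (j - algebraMap K F c)} = n)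
    (D : Divisor K F) (hD : ∀ v, D v = od v) :
    Divisor.degree D = ((n : ℤ) - r0) + ((n : ℤ) - r1728) - ((n : ℤ) + rinf) := by
  classical
  obtain ⟨S0, hS0, hsum0⟩ := hsum 0
  obtain ⟨S1, hS1, hsum1⟩ := hsum c1728
  obtain ⟨Si, hSi, hsumi⟩ := hsuminf
  -- cardinalities
  have hcard0 : (S0.card : ℤ) = r0 := by
    rw [← hc0, natCard_eq_card _ S0 hS0]
  have hcard1 : (S1.card : ℤ) = r1728 := by
    rw [← hc1728, natCard_eq_card _ S1 hS1]
  have hcardi : (Si.card : ℤ) = rinf := by
    rw [← hcinf, natCard_eq_card _ Si hSi]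
  -- disjointness
  have hd01 : Disjoint S0 S1 := by
    rw [Finset.disjoint_left]
    intro v hv0 hv1
    exact not_pos_of_pos_of_ne v j (Ne.symm h1728) ((hS0 v).mp hv0) ((hS1 v).mp hv1)
  have hd0i : Disjoint S0 Si := by
    rw [Finset.disjoint_left]
    intro v hv0 hvi
    exact not_pos_of_neg v j 0 ((hSi v).mp hvi) ((hS0 v).mp hv0)
  have hd1i : Disjoint S1 Si := by
    rw [Finset.disjoint_left]
    intro v hv1 hvi
    exact not_pos_of_neg v j c1728 ((hSi v).mp hvi) ((hS1 v).mp hv1)
  -- generic places contribute nothing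
  have hgen : ∀ v : Place K F, v ∉ S0 → v ∉ S1 → v ∉ Si → od v = 0 := by
    intro v hv0 hv1 hvi
    rcases hpart v with ⟨c, hc⟩ | hneg
    · have hc0' : c ≠ 0 := by
        rintro rfl; exact hv0 ((hS0 v).mpr hc)
      have hc1' : c ≠ c1728 := by
        rintro rfl; exact hv1 ((hS1 v).mpr hc)
      obtain ⟨Sc, hSc, hsumc⟩ := hsum c
      have hcardc : (Sc.card : ℤ) = n := by
        rw [← hcgen c hc0' hc1', natCard_eq_card _ Sc hSc]
      have hzero : ∑ w ∈ Sc, (w.ord (j - algebraMap K F c) - 1) = 0 := by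
        rw [Finset.sum_sub_distrib, hsumc, Finset.sum_const, nsmul_eq_mul, mul_one, hcardc]
        simp
      have hnonneg : ∀ w ∈ Sc, 0 ≤ w.ord (j - algebraMap K F c) - 1 := by
        intro w hw
        have := (hSc w).mp hw
        omega
      have hall := (Finset.sum_eq_zero_iff_of_nonneg hnonneg).mp hzero v ((hSc v).mpr hc)
      rw [hod v c hc]; exact hall
    · exact absurd ((hSi v).mpr hneg) hvi
  -- the support is contained in the union
  have hsupp : D.support ⊆ S0 ∪ S1 ∪ Si := by
    intro v hv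
    rw [Finsupp.mem_support_iff, hD v] at hv
    by_contra hcon
    simp only [Finset.mem_union, not_or] at hcon
    exact hv (hgen v hcon.1.1 hcon.1.2 hcon.2)
  rw [degree_eq_sum hdeg D _ hsupp,
    Finset.sum_union (Finset.disjoint_union_left.mpr ⟨hd0i, hd1i⟩), Finset.sum_union hd01]
  have e0 : ∑ v ∈ S0, D v = (n : ℤ) - r0 := by
    have : ∑ v ∈ S0, D v = ∑ v ∈ S0, (v.ord (j - algebraMap K F 0) - 1) :=
      Finset.sum_congr rfl fun v hv => by rw [hD v, hod v 0 ((hS0 v).mp hv)]
    rw [this, Finset.sum_sub_distrib, hsum0, Finset.sum_const, nsmul_eq_mul, mul_one, hcard0]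
  have e1 : ∑ v ∈ S1, D v = (n : ℤ) - r1728 := by
    have : ∑ v ∈ S1, D v = ∑ v ∈ S1, (v.ord (j - algebraMap K F c1728) - 1) :=
      Finset.sum_congr rfl fun v hv => by rw [hD v, hod v c1728 ((hS1 v).mp hv)]
    rw [this, Finset.sum_sub_distrib, hsum1, Finset.sum_const, nsmul_eq_mul, mul_one, hcard1]
  have ei : ∑ v ∈ Si, D v = -((n : ℤ) + rinf) := by
    have : ∑ v ∈ Si, D v = ∑ v ∈ Si, (-(-v.ord j) - 1) :=
      Finset.sum_congr rfl fun v hv => by rw [hD v, hodinf v ((hSi v).mp hv)]; ring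
    rw [this, Finset.sum_sub_distrib, Finset.sum_neg_distrib, hsumi, Finset.sum_const,
      nsmul_eq_mul, mul_one, hcardi]
    ring
  rw [e0, e1, ei]; ring

end Fermat.Agent.S24


end ZBS24_007_1
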