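/- GENERATED FILE (helper35, build-time optimisation, NOTES/ZB.md): verbatim concatenation of the modules
   Fermat.Agent.S24.PlaceDict
   Do not edit; do not import together with these modules. -/
import Fermat.Agent.ZB.S24_007
import Mathlib.RingTheory.DedekindDomain.AdicValuation
import Mathlib.RingTheory.Valuation.ValuationSubring

/-! ### bundled: `Fermat.Agent.S24.PlaceDict` -/
section ZBS24_008_0

/-!
# S24 / P1 — dictionary: places of `F` containing a Dedekind domain `R` ↔ nonzero primes of `R`
-/

set_option autoImplicit false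

open AlgebraicCurve IsDedekindDomain WithZero

namespace Fermat.Agent.S24

variable {K F : Type*} [Field K] [Field F] [Algebra K F]
variable {R : Type*} [CommRing R] [IsDedekindDomain R] [Algebra R F] [IsFractionRing R F]

/-- The place of `F` attached to a nonzero prime of a Dedekind domain `R ⊂ F` with `K ⊂ R`. -/
noncomputable def placeOfPrime (hK : ∀ a : K, ∃ r : R, algebraMap R F r = algebraMap K F a)
    (w : HeightOneSpectrum R) : Place K F where
  toValuationSubring := (w.valuation F).valuationSubring
  algebraMap_mem' := fun a => by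
    obtain ⟨r, hr⟩ := hK a
    rw [Valuation.mem_valuationSubring_iff, ← hr]
    exact w.valuation_le_one r
  ne_top' := by
    simp only [ne_eq, Valuation.valuationSubring_eq_top_iff, not_not]
    infer_instance
  isPrincipalIdealRing' := Place.isPrincipalIdealRing_valuationSubring w

@[simp]
theorem placeOfPrime_toValuationSubring
    (hK : ∀ a : K, ∃ r : R, algebraMap R F r = algebraMap K F a) (w : HeightOneSpectrum R) :
    (placeOfPrime hK w).toValuationSubring = (w.valuation F).valuationSubring := rfl

theorem placeOfPrime_ord (hK : ∀ a : K, ∃ r : R, algebraMap R F r = algebraMap K F a)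
    (w : HeightOneSpectrum R) {f : F} (hf : f ≠ 0) :
    (placeOfPrime hK w).ord f = - log (w.valuation F f) := by
  refine PlaceAux.ord_eq_of_hom (placeOfPrime hK w) (fun f => - log (w.valuation F f))
    ?_ ?_ ?_ f hf
  · intro f g hf hg
    have h1 : w.valuation F f ≠ 0 := (Valuation.ne_zero_iff _).mpr hf
    have h2 : w.valuation F g ≠ 0 := (Valuation.ne_zero_iff _).mpr hg
    simp only [map_mul]
    rw [WithZero.log_mul h1 h2]; ring
  · intro f hf
    have h1 : w.valuation F f ≠ 0 := (Valuation.ne_zero_iff _).mpr hf
    rw [placeOfPrime_toValuationSubring, Valuation.mem_valuationSubring_iff]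
    rw [neg_nonneg]
    obtain ⟨n, hn⟩ : ∃ n : ℤ, w.valuation F f = exp n := ⟨log (w.valuation F f), (WithZero.exp_log h1).symm⟩
    rw [hn, WithZero.log_exp, ← WithZero.exp_zero, WithZero.exp_le_exp]
  · obtain ⟨π, hπ⟩ := w.valuation_exists_uniformizer F
    refine ⟨π, ?_, ?_⟩
    · intro h0
      rw [h0, map_zero] at hπ
      exact WithZero.zero_ne_coe hπ |>.elim
    · show - log (w.valuation F π) = 1
      rw [hπ, WithZero.log_exp]
      ring

theorem placeOfPrime_injective (hK : ∀ a : K, ∃ r : R, algebraMap R F r = algebraMap K F a) :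
    Function.Injective (placeOfPrime (K := K) (F := F) (R := R) hK) := by
  intro w₁ w₂ h
  have h' : (w₁.valuation F).valuationSubring = (w₂.valuation F).valuationSubring :=
    congrArg Place.toValuationSubring h
  exact HeightOneSpectrum.eq_of_valuation_isEquiv_valuation
    ((Valuation.isEquiv_iff_valuationSubring _ _).mpr h')

/-- A place of `F` whose valuation ring contains `R` comes from a (unique) nonzero prime of `R`. -/
theorem exists_placeOfPrime_eq (hK : ∀ a : K, ∃ r : R, algebraMap R F r = algebraMap K F a)
    (v : Place K F) (hR : ∀ r : R, algebraMap R F r ∈ v.toValuationSubring) :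
    ∃ w : HeightOneSpectrum R, placeOfPrime hK w = v := by
  classical
  -- the ring hom R → O_v
  let ι : R →+* v.toValuationSubring :=
    (algebraMap R F).codRestrict v.toValuationSubring.toSubring hR
  let P : Ideal R := (IsLocalRing.maximalIdeal v.toValuationSubring).comap ι
  have hPprime : P.IsPrime := Ideal.comap_isPrime ι _
  have hιcoe : ∀ r : R, ((ι r : v.toValuationSubring) : F) = algebraMap R F r := fun _ => rfl
  have hPmem : ∀ r : R, r ∈ P ↔ ¬ IsUnit (ι r) := by
    intro r
    show ι r ∈ IsLocalRing.maximalIdeal _ ↔ _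
    rw [IsLocalRing.mem_maximalIdeal, mem_nonunits_iff]
  have hP0 : P ≠ ⊥ := by
    intro hP
    apply v.ne_top'
    refine SetLike.ext fun f => ⟨fun _ => ValuationSubring.mem_top f, fun _ => ?_⟩
    obtain ⟨a, s, hsmem, hs⟩ := IsFractionRing.div_surjective (A := R) f
    have hs0 : (s : R) ≠ 0 := nonZeroDivisors.ne_zero hsmem
    have hsu : IsUnit (ι s) := by
      by_contra hns
      have : (s : R) ∈ P := (hPmem s).mpr hns
      rw [hP] at this
      exact hs0 this
    obtain ⟨u, hu⟩ := hsu
    have hinv : (algebraMap R F s)⁻¹ = ((u⁻¹ : (v.toValuationSubring)ˣ) : v.toValuationSubring) := by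
      refine (eq_inv_of_mul_eq_one_right ?_).symm
      have h1 : ((u : v.toValuationSubring) : F) = algebraMap R F s := by rw [hu]; rfl
      rw [← h1]
      exact_mod_cast congrArg Subtype.val (u.mul_inv)
    rw [← hs, div_eq_mul_inv, hinv]
    exact mul_mem (hR a) (Subtype.mem _)
  let w : HeightOneSpectrum R := ⟨P, hPprime, hP0⟩
  refine ⟨w, ?_⟩
  apply Place.ext
  rw [placeOfPrime_toValuationSubring]
  have hle : (w.valuation F).valuationSubring ≤ v.toValuationSubring := by
    intro f hf
    rw [Valuation.mem_valuationSubring_iff] at hf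
    obtain ⟨n, d, hnd⟩ := HeightOneSpectrum.exists_primeCompl_mul_eq_of_integer w f hf
    have hdP : (d : R) ∉ P := d.2
    have hdu : IsUnit (ι d) := by
      by_contra hns
      exact hdP ((hPmem d).mpr hns)
    obtain ⟨u, hu⟩ := hdu
    have hd0 : algebraMap R F d ≠ 0 := by
      intro h0
      have : ((u : v.toValuationSubring) : F) = 0 := by rw [hu]; exact h0
      have hu0 : (u : v.toValuationSubring) = 0 := Subtype.ext this
      exact u.ne_zero hu0
    have hinv : (algebraMap R F d)⁻¹ = ((u⁻¹ : (v.toValuationSubring)ˣ) : v.toValuationSubring) := by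
      refine (eq_inv_of_mul_eq_one_right ?_).symm
      have h1 : ((u : v.toValuationSubring) : F) = algebraMap R F d := by rw [hu]; rfl
      rw [← h1]
      exact_mod_cast congrArg Subtype.val (u.mul_inv)
    have : f = algebraMap R F n * (algebraMap R F d)⁻¹ := by
      rw [← hnd]; field_simp
    rw [this, hinv]
    exact mul_mem (hR n) (Subtype.mem _)
  have : IsPrincipalIdealRing (w.valuation F).valuationSubring :=
    Place.isPrincipalIdealRing_valuationSubring w
  exact ValuationSubring.eq_of_le_of_ne_top _ hle v.ne_top'

end Fermat.Agent.S24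


end ZBS24_008_0
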