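/- GENERATED FILE (helper35, build-time optimisation, NOTES/ZB.md): verbatim concatenation of the modules
   Fermat.Agent.S24.PolySetup
   Do not edit; do not import together with these modules. -/
import Fermat.Agent.ZB.S24_007
import Mathlib.RingTheory.RamificationInertia.Basic
import Mathlib.RingTheory.DedekindDomain.IntegralClosure
import Mathlib.FieldTheory.RatFunc.AsPolynomial
import Mathlib.FieldTheory.IsAlgClosed.Basic
import Fermat.Agent.ZB.S24_008

/-! ### bundled: `Fermat.Agent.S24.PolySetup` -/
section ZBS24_009_0

/-!
# S24 / P1 — the polynomial ring `K[X] → F`, `X ↦ x`, and its integral closure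

Shared setup for the dictionary "places of `F` with `0 ≤ ord x` ↔ primes of the integral closure of
`K[x]` in `F`".  `polyAlgebra x` is NOT a global instance: use `letI := polyAlgebra (K := K) x`.
-/

set_option autoImplicit false

open AlgebraicCurve IntermediateField Polynomial

namespace Fermat.Agent.S24

variable {K F : Type*} [Field K] [Field F] [Algebra K F]

/-- The `K[X]`-algebra structure on `F` sending `X` to `x`. -/
@[reducible] noncomputable def polyAlgebra (x : F) : Algebra K[X] F :=
  (Polynomial.aeval (R := K) x).toRingHom.toAlgebra

theorem polyAlgebra_algebraMap_apply (x : F) (p : K[X]) :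
    letI := polyAlgebra (K := K) x
    algebraMap K[X] F p = Polynomial.aeval x p := rfl

theorem polyAlgebra_isScalarTower (x : F) :
    letI := polyAlgebra (K := K) x
    IsScalarTower K K[X] F :=
  letI := polyAlgebra (K := K) x
  IsScalarTower.of_algebraMap_eq fun a => by
    rw [polyAlgebra_algebraMap_apply, Polynomial.algebraMap_apply, Polynomial.aeval_C]
    rfl

/-- The integral closure of `K[x]` in `F`. -/
noncomputable abbrev intClosure (x : F) : @Subalgebra K[X] F _ _ (polyAlgebra (K := K) x) :=
  @integralClosure K[X] F _ _ (polyAlgebra (K := K) x)

end Fermat.Agent.S24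


end ZBS24_009_0
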