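/- GENERATED FILE (helper35, build-time optimisation, NOTES/ZB.md): verbatim concatenation of the modules
   Fermat.Agent.S23.Descent1
   Do not edit; do not import together with these modules. -/
import Mathlib.FieldTheory.IsAlgClosed.Classification
import Mathlib.FieldTheory.Galois.Infinite
import Mathlib.FieldTheory.AlgebraicClosure
import Mathlib.Analysis.Complex.Polynomial.Basic
import Fermat.Agent.ZB.S24_010

/-! ### bundled: `Fermat.Agent.S23.Descent1` -/
section ZBS23_002_0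

/-!
# S23 piece P1 (Descent1): `Fix(Aut ℂ) = ℚ`

* `Fermat.Agent.S23.exists_ringEquiv_apply_ne` : a complex number which is not rational is moved by
  some ring automorphism of `ℂ`.
* `Fermat.Agent.S23.descent1_exists_rat_of_forall_ringEquiv_fixed` : the contrapositive,
  in the shape of the hypothesis `hfix` of piece P2.
-/

set_option autoImplicit false

namespace Fermat.Agent.S23

open MvPolynomial

/-- A transcendental complex number is moved by some ring automorphism of `ℂ`. -/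
theorem descent1_exists_ringEquiv_ne_of_transcendental {z : ℂ} (hz : Transcendental ℚ z) :
    ∃ σ : ℂ ≃+* ℂ, σ z ≠ z := by
  have hs : AlgebraicIndepOn ℚ id ({z} : Set ℂ) :=
    (algebraicIndependent_singleton_iff (⟨z, Set.mem_singleton z⟩ : ({z} : Set ℂ))).mpr hz
  obtain ⟨t, hzt, ht⟩ := exists_isTranscendenceBasis_superset hs
  have hzt' : z ∈ t := hzt (Set.mem_singleton z)
  have := IsAlgClosed.isAlgClosure_of_transcendence_basis ((↑) : t → ℂ) ht
  let φ : MvPolynomial t ℚ ≃ₐ[ℚ] MvPolynomial t ℚ :=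
    AlgEquiv.ofAlgHom (MvPolynomial.aeval fun b => - MvPolynomial.X b)
      (MvPolynomial.aeval fun b => - MvPolynomial.X b) (by ext; simp) (by ext; simp)
  let e : Algebra.adjoin ℚ (Set.range ((↑) : t → ℂ)) ≃+*
      Algebra.adjoin ℚ (Set.range ((↑) : t → ℂ)) :=
    (ht.1.aevalEquiv.symm.trans (φ.trans ht.1.aevalEquiv)).toRingEquiv
  refine ⟨IsAlgClosure.equivOfEquiv ℂ ℂ e, ?_⟩
  have hz0 : z ≠ 0 := by
    rintro rfl
    exact hz isAlgebraic_zero
  have h1 : (ht.1.aevalEquiv (X ⟨z, hzt'⟩) : ℂ) = z := by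
    simp [AlgebraicIndependent.aevalEquiv_apply_coe]
  have h2 : (e (ht.1.aevalEquiv (X ⟨z, hzt'⟩)) : ℂ) = -z := by
    simp [e, φ, AlgebraicIndependent.aevalEquiv_apply_coe]
  have h3 := IsAlgClosure.equivOfEquiv_algebraMap ℂ ℂ e (ht.1.aevalEquiv (X ⟨z, hzt'⟩))
  have h4 : algebraMap (Algebra.adjoin ℚ (Set.range ((↑) : t → ℂ))) ℂ
      (ht.1.aevalEquiv (X ⟨z, hzt'⟩)) = z := h1
  have h5 : algebraMap (Algebra.adjoin ℚ (Set.range ((↑) : t → ℂ))) ℂ
      (e (ht.1.aevalEquiv (X ⟨z, hzt'⟩))) = -z := h2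
  rw [h4, h5] at h3
  rw [h3]
  intro h
  apply hz0
  have : (2 : ℂ) * z = 0 := by linear_combination -h
  simpa using this


/-- An algebraic, non-rational complex number is moved by some ring automorphism of `ℂ`. -/
theorem descent1_exists_ringEquiv_ne_of_isAlgebraic {z : ℂ} (hz : IsAlgebraic ℚ z)
    (hq : ∀ r : ℚ, z ≠ (r : ℂ)) : ∃ σ : ℂ ≃+* ℂ, σ z ≠ z := by
  -- the algebraic closure of `ℚ` in `ℂ`
  have hzQ : z ∈ algebraicClosure ℚ ℂ := (mem_algebraicClosure_iff).mpr hz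
  let z' : algebraicClosure ℚ ℂ := ⟨z, hzQ⟩
  have hcl : IsAlgClosure ℚ (algebraicClosure ℚ ℂ) := algebraicClosure.isAlgClosure ℚ ℂ
  have hnor : Normal ℚ (algebraicClosure ℚ ℂ) := IsAlgClosure.normal ℚ _
  have hsep : Algebra.IsSeparable ℚ (algebraicClosure ℚ ℂ) := IsAlgClosure.separable ℚ _
  have : IsGalois ℚ (algebraicClosure ℚ ℂ) := ⟨⟩
  have hz' : z' ∉ (⊥ : IntermediateField ℚ (algebraicClosure ℚ ℂ)) := by
    intro h
    rw [IntermediateField.mem_bot] at h
    obtain ⟨r, hr⟩ := h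
    apply hq r
    have := congrArg (fun x : algebraicClosure ℚ ℂ => (x : ℂ)) hr
    simpa [z'] using this.symm
  have hτ : ∃ τ : algebraicClosure ℚ ℂ ≃ₐ[ℚ] algebraicClosure ℚ ℂ, τ z' ≠ z' := by
    by_contra hcon
    simp only [not_exists, not_not] at hcon
    exact hz' ((InfiniteGalois.mem_bot_iff_fixed z').mpr hcon)
  obtain ⟨τ, hτ⟩ := hτ
  obtain ⟨s, hs⟩ := exists_isTranscendenceBasis (algebraicClosure ℚ ℂ) ℂ
  have := IsAlgClosed.isAlgClosure_of_transcendence_basis ((↑) : s → ℂ) hs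
  let e : Algebra.adjoin (algebraicClosure ℚ ℂ) (Set.range ((↑) : s → ℂ)) ≃+*
      Algebra.adjoin (algebraicClosure ℚ ℂ) (Set.range ((↑) : s → ℂ)) :=
    hs.1.aevalEquiv.symm.toRingEquiv.trans
      ((MvPolynomial.mapEquiv s (τ : algebraicClosure ℚ ℂ ≃+* algebraicClosure ℚ ℂ)).trans
        hs.1.aevalEquiv.toRingEquiv)
  refine ⟨IsAlgClosure.equivOfEquiv ℂ ℂ e, ?_⟩
  have h1 : (hs.1.aevalEquiv (C z') : ℂ) = z := by
    simp [AlgebraicIndependent.aevalEquiv_apply_coe, z']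
  have h2 : (e (hs.1.aevalEquiv (C z')) : ℂ) = (τ z' : ℂ) := by
    simp [e, AlgebraicIndependent.aevalEquiv_apply_coe]
  have h3 := IsAlgClosure.equivOfEquiv_algebraMap ℂ ℂ e (hs.1.aevalEquiv (C z'))
  have h4 : algebraMap (Algebra.adjoin (algebraicClosure ℚ ℂ) (Set.range ((↑) : s → ℂ))) ℂ
      (hs.1.aevalEquiv (C z')) = z := h1
  have h5 : algebraMap (Algebra.adjoin (algebraicClosure ℚ ℂ) (Set.range ((↑) : s → ℂ))) ℂ
      (e (hs.1.aevalEquiv (C z'))) = (τ z' : ℂ) := h2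
  rw [h4, h5] at h3
  rw [h3]
  intro h
  apply hτ
  exact Subtype.ext h

/-- A non-rational complex number is moved by some ring automorphism of `ℂ`. -/
theorem exists_ringEquiv_apply_ne {x : ℂ} (hx : x ∉ Set.range (algebraMap ℚ ℂ)) :
    ∃ σ : ℂ ≃+* ℂ, σ x ≠ x := by
  have hq : ∀ r : ℚ, x ≠ (r : ℂ) := fun r h => hx ⟨r, by rw [h]; rfl⟩
  by_cases hz : IsAlgebraic ℚ x
  · exact descent1_exists_ringEquiv_ne_of_isAlgebraic hz hq
  · exact descent1_exists_ringEquiv_ne_of_transcendental hz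

/-- `Fix(Aut ℂ) = ℚ`: a complex number fixed by all ring automorphisms of `ℂ` is rational. -/
theorem descent1_exists_rat_of_forall_ringEquiv_fixed (x : ℂ) (h : ∀ σ : ℂ ≃+* ℂ, σ x = x) :
    ∃ r : ℚ, x = (r : ℂ) := by
  by_contra hcon
  have hx : x ∉ Set.range (algebraMap ℚ ℂ) := by
    rintro ⟨r, hr⟩
    exact hcon ⟨r, by rw [← hr]; rfl⟩
  obtain ⟨σ, hσ⟩ := exists_ringEquiv_apply_ne hx
  exact hσ (h σ)

end Fermat.Agent.S23


end ZBS23_002_0
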