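/- GENERATED FILE (helper35, build-time optimisation, NOTES/ZB.md): verbatim concatenation of the modules
   Fermat.Agent.S24.PlaceOfValuation
   Fermat.Agent.ES.RC.OrdVal
   Do not edit; do not import together with these modules. -/
import Fermat.Prelude.Def_AlgebraicCurve_DivisorClassGroup
import Mathlib.RingTheory.Valuation.ValuationSubring
import Fermat.Agent.ZB.S24_013

/-! ### bundled: `Fermat.Agent.S24.PlaceOfValuation` -/
section ZBS24_005_0

/-!
# S24 / P5 — a nontrivial `ℤᵐ⁰`-valued valuation that is trivial on `K` gives a place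

`exists_place_of_valuation`: the valuation subring of `v` is a `Place K M`, and the normalised
order `w.ord` of the prelude is `-(log ∘ v) / e₀` for the positive generator `e₀` of the value group.
-/

set_option autoImplicit false

noncomputable section

open AlgebraicCurve WithZero

namespace Fermat.Agent.S24

variable {K M : Type*} [Field K] [Field M] [Algebra K M]

/-- The additive order attached to a `ℤᵐ⁰`-valued valuation. -/
def vord (v : Valuation M ℤᵐ⁰) (m : M) : ℤ := -(WithZero.log (v m))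

theorem vord_mul (v : Valuation M ℤᵐ⁰) {a b : M} (ha : a ≠ 0) (hb : b ≠ 0) :
    vord v (a * b) = vord v a + vord v b := by
  have ha' : v a ≠ 0 := (Valuation.ne_zero_iff v).mpr ha
  have hb' : v b ≠ 0 := (Valuation.ne_zero_iff v).mpr hb
  simp only [vord, map_mul, WithZero.log_mul ha' hb']
  ring

theorem vord_inv (v : Valuation M ℤᵐ⁰) (a : M) : vord v a⁻¹ = -vord v a := by
  simp only [vord, map_inv₀, WithZero.log_inv]

theorem vord_zpow (v : Valuation M ℤᵐ⁰) (a : M) (n : ℤ) : vord v (a ^ n) = n * vord v a := by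
  simp only [vord, map_zpow₀, WithZero.log_zpow, smul_eq_mul]
  ring

theorem vord_one (v : Valuation M ℤᵐ⁰) : vord v (1 : M) = 0 := by
  simp [vord]

theorem le_one_iff_vord_nonneg (v : Valuation M ℤᵐ⁰) {a : M} (ha : a ≠ 0) :
    v a ≤ 1 ↔ 0 ≤ vord v a := by
  have ha' : v a ≠ 0 := (Valuation.ne_zero_iff v).mpr ha
  rw [vord, neg_nonneg, ← WithZero.exp_log ha', ← WithZero.exp_zero, WithZero.exp_le_exp,
    WithZero.log_exp]

theorem lt_one_iff_vord_pos (v : Valuation M ℤᵐ⁰) {a : M} (ha : a ≠ 0) :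
    v a < 1 ↔ 0 < vord v a := by
  have ha' : v a ≠ 0 := (Valuation.ne_zero_iff v).mpr ha
  rw [vord, neg_pos, ← WithZero.exp_log ha', ← WithZero.exp_zero, WithZero.exp_lt_exp,
    WithZero.log_exp]

theorem eq_one_iff_vord_eq_zero (v : Valuation M ℤᵐ⁰) {a : M} (ha : a ≠ 0) :
    v a = 1 ↔ vord v a = 0 := by
  have ha' : v a ≠ 0 := (Valuation.ne_zero_iff v).mpr ha
  rw [vord, neg_eq_zero, ← WithZero.exp_log ha', ← WithZero.exp_zero, WithZero.exp_inj,
    WithZero.log_exp]


/-- The positive generator of the value group. -/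
theorem exists_min_pos_vord (v : Valuation M ℤᵐ⁰) (hx : ∃ x : M, x ≠ 0 ∧ v x < 1) :
    ∃ (e₀ : ℤ) (π : M), 0 < e₀ ∧ π ≠ 0 ∧ vord v π = e₀ ∧
      ∀ m : M, m ≠ 0 → e₀ ∣ vord v m := by
  classical
  obtain ⟨x, hx0, hx1⟩ := hx
  have hxpos : 0 < vord v x := (lt_one_iff_vord_pos v hx0).mp hx1
  let P : ℕ → Prop := fun n => 0 < n ∧ ∃ m : M, m ≠ 0 ∧ vord v m = (n : ℤ)
  have hP : ∃ n, P n := ⟨(vord v x).toNat, by omega, x, hx0, by omega⟩
  obtain ⟨hn0, π, hπ0, hπ⟩ := Nat.find_spec hP
  have hepos : (0 : ℤ) < (Nat.find hP : ℤ) := Int.natCast_pos.mpr hn0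
  refine ⟨(Nat.find hP : ℤ), π, hepos, hπ0, hπ, fun m hm => ?_⟩
  generalize hed : (Nat.find hP : ℤ) = e at hepos hπ
  -- division with remainder
  have hr0 : 0 ≤ vord v m % e := Int.emod_nonneg _ hepos.ne'
  have hr1 : vord v m % e < e := Int.emod_lt_of_pos _ hepos
  by_contra hdvd
  have hrne : vord v m % e ≠ 0 := fun h => hdvd (Int.dvd_of_emod_eq_zero h)
  have hm' : m * π ^ (-(vord v m / e)) ≠ 0 := mul_ne_zero hm (zpow_ne_zero _ hπ0)
  have hval : vord v (m * π ^ (-(vord v m / e))) = vord v m % e := by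
    rw [vord_mul v hm (zpow_ne_zero _ hπ0), vord_zpow, hπ]
    have h := Int.emod_add_mul_ediv (vord v m) e
    linear_combination (-1 : ℤ) * h
  have hlt : (vord v m % e).toNat < Nat.find hP := by
    have : ((vord v m % e).toNat : ℤ) < (Nat.find hP : ℤ) := by rw [hed]; omega
    exact_mod_cast this
  exact Nat.find_min hP hlt ⟨by omega, _, hm', by rw [hval]; omega⟩

theorem isPrincipalIdealRing_valuationSubring (v : Valuation M ℤᵐ⁰) :
    IsPrincipalIdealRing v.valuationSubring := by
  classical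
  refine ⟨fun I => ?_⟩
  by_cases hI : I = ⊥
  · rw [hI]; exact ⟨⟨0, by simp⟩⟩
  have hex : ∃ a ∈ I, a ≠ 0 := by
    by_contra h
    apply hI
    rw [Submodule.eq_bot_iff]
    intro a ha
    by_contra ha0
    exact h ⟨a, ha, ha0⟩
  let P : ℕ → Prop := fun n => ∃ a ∈ I, a ≠ 0 ∧ vord v (a : M) = (n : ℤ)
  have hnn : ∀ a : v.valuationSubring, a ≠ 0 → 0 ≤ vord v (a : M) := fun a ha =>
    (le_one_iff_vord_nonneg v (by simpa [ne_eq, ZeroMemClass.coe_eq_zero] using ha)).mp
      ((Valuation.mem_valuationSubring_iff v _).mp a.2)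
  have hP : ∃ n, P n := by
    obtain ⟨a, haI, ha0⟩ := hex
    exact ⟨(vord v (a : M)).toNat, a, haI, ha0, by have := hnn a ha0; omega⟩
  obtain ⟨a, haI, ha0, han⟩ := Nat.find_spec hP
  refine ⟨⟨a, le_antisymm (fun b hb => ?_) ?_⟩⟩
  · rw [Submodule.mem_span_singleton]
    by_cases hb0 : b = 0
    · exact ⟨0, by simp [hb0]⟩
    have haM : (a : M) ≠ 0 := by simpa [ne_eq, ZeroMemClass.coe_eq_zero] using ha0
    have hbM : (b : M) ≠ 0 := by simpa [ne_eq, ZeroMemClass.coe_eq_zero] using hb0
    have hle : vord v (a : M) ≤ vord v (b : M) := by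
      by_contra hlt
      have hlt' : vord v (b : M) < vord v (a : M) := not_le.mp hlt
      have hbn := hnn b hb0
      have : (vord v (b : M)).toNat < Nat.find hP := by
        have : ((vord v (b : M)).toNat : ℤ) < (Nat.find hP : ℤ) := by omega
        exact_mod_cast this
      exact Nat.find_min hP this ⟨b, hb, hb0, by omega⟩
    have hq : (b : M) * (a : M)⁻¹ ∈ v.valuationSubring := by
      rw [Valuation.mem_valuationSubring_iff,
        le_one_iff_vord_nonneg v (mul_ne_zero hbM (inv_ne_zero haM)),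
        vord_mul v hbM (inv_ne_zero haM), vord_inv]
      omega
    refine ⟨⟨_, hq⟩, ?_⟩
    ext
    simp only [smul_eq_mul, MulMemClass.coe_mul]
    field_simp
  · rw [Submodule.span_le]
    intro b hb
    rw [Set.mem_singleton_iff] at hb
    rw [SetLike.mem_coe, hb]
    exact haI

/-- For a place `w` whose valuation ring is the valuation ring of `v`, the normalised order `w.ord`
is `vord v / e₀`. -/
theorem vord_eq_mul_ord (v : Valuation M ℤᵐ⁰) (w : Place K M)
    (hw : w.toValuationSubring = v.valuationSubring) {e₀ : ℤ} {π : M} (he₀ : 0 < e₀)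
    (hπ0 : π ≠ 0) (hπ : vord v π = e₀) (hdvd : ∀ m : M, m ≠ 0 → e₀ ∣ vord v m)
    (m : M) (hm : m ≠ 0) : vord v m = e₀ * w.ord m := by
  classical
  have hmemle : ∀ a : w.toValuationSubring, v (a : M) ≤ 1 := fun a => by
    have h : (a : M) ∈ v.valuationSubring := hw ▸ a.2
    exact (Valuation.mem_valuationSubring_iff v _).mp h
  have hunit : ∀ u : (w.toValuationSubring)ˣ, vord v ((u : w.toValuationSubring) : M) = 0 := by
    intro u
    have hu0 : ((u : w.toValuationSubring) : M) ≠ 0 := by
      simp [ne_eq, ZeroMemClass.coe_eq_zero]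
    have hui0 : (((u⁻¹ : (w.toValuationSubring)ˣ) : w.toValuationSubring) : M) ≠ 0 := by
      simp [ne_eq, ZeroMemClass.coe_eq_zero]
    have h1 := (le_one_iff_vord_nonneg v hu0).mp (hmemle u)
    have h2 := (le_one_iff_vord_nonneg v hui0).mp (hmemle (u⁻¹ : (w.toValuationSubring)ˣ))
    have hmul : ((u : w.toValuationSubring) : M) *
        (((u⁻¹ : (w.toValuationSubring)ˣ) : w.toValuationSubring) : M) = 1 := by
      have h := congrArg (fun a : w.toValuationSubring => (a : M)) u.mul_inv
      simp only [MulMemClass.coe_mul, OneMemClass.coe_one] at h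
      exact h
    have h3 := vord_mul v hu0 hui0
    rw [hmul, vord_one] at h3
    omega
  obtain ⟨ϖ, hϖ⟩ := IsDiscreteValuationRing.exists_irreducible w.toValuationSubring
  have hϖ0 : (ϖ : M) ≠ 0 := by
    simpa [ne_eq, ZeroMemClass.coe_eq_zero] using hϖ.ne_zero
  have key : ∀ m : M, m ≠ 0 → vord v m = w.ord m * vord v (ϖ : M) := by
    intro m hm
    obtain ⟨u, hu⟩ := w.exists_unit_mul_zpow hm hϖ
    have hu0 : ((u : w.toValuationSubring) : M) ≠ 0 := by
      simp [ne_eq, ZeroMemClass.coe_eq_zero]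
    conv_lhs => rw [hu]
    rw [vord_mul v hu0 (zpow_ne_zero _ hϖ0), vord_zpow, hunit u, zero_add]
  have hϖnn : 0 ≤ vord v (ϖ : M) := (le_one_iff_vord_nonneg v hϖ0).mp (hmemle ϖ)
  have hϖe : vord v (ϖ : M) = e₀ := by
    have h1 := key π hπ0
    rw [hπ] at h1
    obtain ⟨c, hc⟩ := hdvd (ϖ : M) hϖ0
    rw [hc] at h1 hϖnn
    have hcnn : 0 ≤ c := by
      by_contra hcn
      have hcn' : c < 0 := not_le.mp hcn
      have : e₀ * c < 0 := mul_neg_of_pos_of_neg he₀ hcn'
      omega
    have h2 : e₀ * 1 = e₀ * (w.ord π * c) := by rw [mul_one]; linear_combination h1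
    have h3 : 1 = w.ord π * c := mul_left_cancel₀ he₀.ne' h2
    have hc1 : c = 1 := by
      have hcd : c ∣ 1 := ⟨w.ord π, by rw [h3]; ring⟩
      exact Int.eq_one_of_dvd_one hcnn hcd
    rw [hc, hc1, mul_one]
  rw [key m hm, hϖe, mul_comm]

/-- **A nontrivial `ℤᵐ⁰`-valued valuation which is trivial on `K` defines a place.**
Its normalised order is `vord v / e₀`, `e₀` the positive generator of the value group. -/
theorem exists_place_of_valuation (v : Valuation M ℤᵐ⁰)
    (hK : ∀ a : K, v (algebraMap K M a) ≤ 1) (hx : ∃ x : M, x ≠ 0 ∧ v x < 1) :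
    ∃ (w : Place K M) (e₀ : ℤ), 0 < e₀ ∧ w.toValuationSubring = v.valuationSubring ∧
      ∀ m : M, m ≠ 0 → vord v m = e₀ * w.ord m := by
  classical
  obtain ⟨e₀, π, he₀, hπ0, hπ, hdvd⟩ := exists_min_pos_vord v hx
  have hne : v.valuationSubring ≠ ⊤ := by
    obtain ⟨x, hx0, hx1⟩ := hx
    intro htop
    have hmem : x⁻¹ ∈ v.valuationSubring := by rw [htop]; exact ValuationSubring.mem_top _
    rw [Valuation.mem_valuationSubring_iff, le_one_iff_vord_nonneg v (inv_ne_zero hx0),
      vord_inv] at hmem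
    have := (lt_one_iff_vord_pos v hx0).mp hx1
    omega
  obtain ⟨w, hw⟩ : ∃ w : Place K M, w.toValuationSubring = v.valuationSubring :=
    ⟨{ toValuationSubring := v.valuationSubring
       algebraMap_mem' := fun a => (Valuation.mem_valuationSubring_iff v _).mpr (hK a)
       ne_top' := hne
       isPrincipalIdealRing' := isPrincipalIdealRing_valuationSubring v }, rfl⟩
  exact ⟨w, e₀, he₀, hw, vord_eq_mul_ord v w hw he₀ hπ0 hπ hdvd⟩

end Fermat.Agent.S24

end
end ZBS24_005_0

/-! ### bundled: `Fermat.Agent.ES.RC.OrdVal` -/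
section ZBS24_005_1

/-!
# ESpkg-G1 (RC)(ii) — generic: places of a fraction field from an "order function" on a domain

`IsOrdFun o` : `o : B → ℤ` is additive on products and satisfies the ultrametric inequality on
nonzero elements.  Then `o` extends to a `ℤᵐ⁰`-valued valuation `ordFrac` of any fraction field `F`
of `B`, and (if `o` vanishes on the constants and is positive somewhere) there is a place `w` of
`F` with `o f = e * w.ord f`.
-/

set_option autoImplicit false

noncomputable section

namespace Fermat.Agent.ES.RC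

open AlgebraicCurve WithZero Fermat.Agent.S24

variable {B : Type*} [CommRing B]

/-- An order function on a ring: additive on products of nonzero elements, ultrametric. -/
structure IsOrdFun (o : B → ℤ) : Prop where
  one : o 1 = 0
  mul : ∀ f g : B, f ≠ 0 → g ≠ 0 → f * g ≠ 0 ∧ o (f * g) = o f + o g
  add : ∀ f g : B, f ≠ 0 → g ≠ 0 → f + g ≠ 0 → min (o f) (o g) ≤ o (f + g)

variable [Nontrivial B]

/-- The valuation attached to an order function. -/
def ordVal (o : B → ℤ) (ho : IsOrdFun o) : Valuation B ℤᵐ⁰ where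
  toFun f := open Classical in if f = 0 then 0 else WithZero.exp (-(o f))
  map_zero' := by simp
  map_one' := by simp [ho.one]
  map_mul' f g := by
    rcases eq_or_ne f 0 with rfl | hf
    · simp
    rcases eq_or_ne g 0 with rfl | hg
    · simp
    obtain ⟨h1, h2⟩ := ho.mul f g hf hg
    simp only [hf, hg, h1, if_false, h2, ← WithZero.exp_add]
    congr 1
    ring
  map_add_le_max' f g := by
    rcases eq_or_ne f 0 with rfl | hf
    · rw [zero_add]; exact le_max_right _ _
    rcases eq_or_ne g 0 with rfl | hg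
    · rw [add_zero]; exact le_max_left _ _
    rcases eq_or_ne (f + g) 0 with hfg | hfg
    · simp [hfg]
    simp only [hf, hg, hfg, if_false]
    have h := ho.add f g hf hg hfg
    rcases min_le_iff.mp h with h | h
    · exact le_max_of_le_left (WithZero.exp_le_exp.mpr (by omega))
    · exact le_max_of_le_right (WithZero.exp_le_exp.mpr (by omega))

theorem ordVal_apply (o : B → ℤ) (ho : IsOrdFun o) {f : B} (hf : f ≠ 0) :
    ordVal o ho f = WithZero.exp (-(o f)) := by
  classical
  show (if f = 0 then 0 else WithZero.exp (-(o f))) = _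
  rw [if_neg hf]

theorem ordVal_ne_zero (o : B → ℤ) (ho : IsOrdFun o) {f : B} (hf : f ≠ 0) :
    ordVal o ho f ≠ 0 := by
  rw [ordVal_apply o ho hf]; exact WithZero.exp_ne_zero

theorem nonZeroDivisors_le_ordVal (o : B → ℤ) (ho : IsOrdFun o) :
    nonZeroDivisors B ≤ (ordVal o ho).supp.primeCompl := by
  intro f hf
  have hf0 : f ≠ 0 := nonZeroDivisors.ne_zero hf
  show f ∉ (ordVal o ho).supp
  rw [Valuation.mem_supp_iff]
  exact ordVal_ne_zero o ho hf0

section Frac

variable (F : Type*) [Field F] [Algebra B F] [IsFractionRing B F]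

/-- The valuation on a fraction field attached to an order function. -/
def ordFrac (o : B → ℤ) (ho : IsOrdFun o) : Valuation F ℤᵐ⁰ :=
  (ordVal o ho).extendToLocalization (nonZeroDivisors_le_ordVal o ho) F

theorem ordFrac_algebraMap (o : B → ℤ) (ho : IsOrdFun o) (f : B) :
    ordFrac F o ho (algebraMap B F f) = ordVal o ho f :=
  Valuation.extendToLocalization_apply_map_apply _ _ _ f

omit [Nontrivial B] in
theorem rc_algebraMap_ne_zero {f : B} (hf : f ≠ 0) : algebraMap B F f ≠ 0 := by
  intro h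
  apply hf
  exact (IsFractionRing.injective B F) (by rw [h, map_zero])

theorem vord_ordFrac_algebraMap (o : B → ℤ) (ho : IsOrdFun o) {f : B} (hf : f ≠ 0) :
    vord (ordFrac F o ho) (algebraMap B F f) = o f := by
  rw [vord, ordFrac_algebraMap, ordVal_apply o ho hf, WithZero.log_exp, neg_neg]

theorem vord_ordFrac_div (o : B → ℤ) (ho : IsOrdFun o) {a b : B} (ha : a ≠ 0) (hb : b ≠ 0) :
    vord (ordFrac F o ho) (algebraMap B F a / algebraMap B F b) = o a - o b := by
  rw [div_eq_mul_inv, vord_mul _ (rc_algebraMap_ne_zero F ha)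
    (inv_ne_zero (rc_algebraMap_ne_zero F hb)), vord_inv,
    vord_ordFrac_algebraMap F o ho ha, vord_ordFrac_algebraMap F o ho hb]
  ring

/-- Membership in the valuation ring of `ordFrac`, for a fraction. -/
theorem div_mem_ordFrac_iff (o : B → ℤ) (ho : IsOrdFun o) {a b : B} (ha : a ≠ 0) (hb : b ≠ 0) :
    algebraMap B F a / algebraMap B F b ∈ (ordFrac F o ho).valuationSubring ↔ o b ≤ o a := by
  have hne : algebraMap B F a / algebraMap B F b ≠ 0 :=
    div_ne_zero (rc_algebraMap_ne_zero F ha) (rc_algebraMap_ne_zero F hb)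
  rw [Valuation.mem_valuationSubring_iff, le_one_iff_vord_nonneg _ hne,
    vord_ordFrac_div F o ho ha hb]
  omega

variable {K : Type*} [Field K] [Algebra K B] [Algebra K F] [IsScalarTower K B F]

/-- **The place attached to an order function** which vanishes on the constants and is positive
somewhere. -/
theorem exists_place_of_ordFun (o : B → ℤ) (ho : IsOrdFun o)
    (hK : ∀ a : K, algebraMap K B a ≠ 0 → 0 ≤ o (algebraMap K B a))
    (hpos : ∃ x : B, x ≠ 0 ∧ 0 < o x) :
    ∃ (w : Place K F) (e : ℕ), 0 < e ∧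
      w.toValuationSubring = (ordFrac F o ho).valuationSubring ∧
      ∀ f : B, f ≠ 0 → o f = (e : ℤ) * w.ord (algebraMap B F f) := by
  obtain ⟨x, hx0, hx⟩ := hpos
  obtain ⟨w, e₀, he₀, hw, hord⟩ := exists_place_of_valuation (K := K) (ordFrac F o ho)
    (by
      intro a
      rw [IsScalarTower.algebraMap_apply K B F, ordFrac_algebraMap]
      rcases eq_or_ne (algebraMap K B a) 0 with h | h
      · rw [h, map_zero]; exact zero_le_one
      · rw [ordVal_apply o ho h, ← WithZero.exp_zero, WithZero.exp_le_exp]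
        have := hK a h
        omega)
    ⟨algebraMap B F x, rc_algebraMap_ne_zero F hx0, by
      rw [lt_one_iff_vord_pos _ (rc_algebraMap_ne_zero F hx0),
        vord_ordFrac_algebraMap F o ho hx0]
      exact hx⟩
  lift e₀ to ℕ using he₀.le
  refine ⟨w, e₀, by exact_mod_cast he₀, hw, fun f hf => ?_⟩
  rw [← hord _ (rc_algebraMap_ne_zero F hf), vord_ordFrac_algebraMap F o ho hf]

end Frac

end Fermat.Agent.ES.RC

end
end ZBS24_005_1
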