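/- GENERATED FILE (helper35, build-time optimisation, NOTES/ZB.md): verbatim concatenation of the modules
   Fermat.Agent.S20.PowerSums
   Do not edit; do not import together with these modules. -/
import Mathlib.RingTheory.MvPolynomial.Symmetric.NewtonIdentities
import Mathlib.RingTheory.Polynomial.Vieta
import Fermat.Agent.ZB.INJ_002

/-! ### bundled: `Fermat.Agent.S20.PowerSums` -/
section ZBS20_007_0

set_option autoImplicit false

namespace Fermat.Agent.S20

open MvPolynomial Finset

/-- If all power sums `∑ i, x i ^ n` (`n ≥ 1`) of a finite family in a characteristic-zero domain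
vanish, then all elementary symmetric functions of positive degree vanish. -/
theorem PS_esymm_eq_zero {ι : Type*} [Fintype ι] {R : Type*} [CommRing R] [IsDomain R] [CharZero R]
    (x : ι → R) (h : ∀ n : ℕ, 1 ≤ n → ∑ i, x i ^ n = 0) (k : ℕ) (hk : 1 ≤ k) :
    (Finset.univ.val.map x).esymm k = 0 := by
  have hN := congrArg (aeval x) (mul_esymm_eq_sum ι R k)
  simp only [map_mul, map_natCast, map_pow, map_neg, map_one, map_sum,
    aeval_esymm_eq_multiset_esymm] at hN
  have hsum : ∑ a ∈ antidiagonal k with a.1 < k,
      (-1 : R) ^ a.1 * (Finset.univ.val.map x).esymm a.1 * (aeval x) (psum ι R a.2) = 0 := by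
    refine Finset.sum_eq_zero fun a ha => ?_
    rw [Finset.mem_filter, Finset.mem_antidiagonal] at ha
    have h2 : 1 ≤ a.2 := by omega
    have : (aeval x) (psum ι R a.2) = 0 := by
      simp only [psum, map_sum, map_pow, aeval_X]
      exact h a.2 h2
    rw [this, mul_zero]
  rw [hsum, mul_zero] at hN
  have hk0 : (k : R) ≠ 0 := by exact_mod_cast (by omega : k ≠ 0)
  exact (mul_eq_zero.mp hN).resolve_left hk0

/-- **Power sums.** If all power sums `∑ i, x i ^ n` (`n ≥ 1`) of a finite family in a
characteristic-zero domain vanish, then the family is zero. -/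
theorem eq_zero_of_forall_psum_eq_zero {ι : Type*} [Fintype ι] {R : Type*} [CommRing R]
    [IsDomain R] [CharZero R]
    (x : ι → R) (h : ∀ n : ℕ, 1 ≤ n → ∑ i, x i ^ n = 0) : x = 0 := by
  classical
  funext j
  have hprod := Multiset.prod_X_sub_X_eq_sum_esymm (Finset.univ.val.map x)
  have hcard : Multiset.card (Finset.univ.val.map x) = Fintype.card ι := by simp
  rw [hcard] at hprod
  have hrhs : ∑ j ∈ Finset.range (Fintype.card ι + 1),
      (-1 : Polynomial R) ^ j * (Polynomial.C ((Finset.univ.val.map x).esymm j) *
        Polynomial.X ^ (Fintype.card ι - j)) = Polynomial.X ^ Fintype.card ι := by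
    rw [Finset.sum_eq_single 0]
    · simp [Multiset.esymm]
    · intro b _ hb
      rw [PS_esymm_eq_zero x h b (Nat.one_le_iff_ne_zero.mpr hb)]
      simp
    · intro h0
      exact absurd (Finset.mem_range.mpr (Nat.succ_pos _)) h0
  rw [hrhs] at hprod
  have heval := congrArg (Polynomial.eval (x j)) hprod
  rw [Polynomial.eval_pow, Polynomial.eval_X, Polynomial.eval_multiset_prod] at heval
  have hzero : (Multiset.map (Polynomial.eval (x j))
      (Multiset.map (fun t => Polynomial.X - Polynomial.C t) (Finset.univ.val.map x))).prod = 0 := by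
    apply Multiset.prod_eq_zero
    rw [Multiset.mem_map]
    refine ⟨Polynomial.X - Polynomial.C (x j), ?_, by simp⟩
    rw [Multiset.mem_map]
    exact ⟨x j, Multiset.mem_map.mpr ⟨j, Finset.mem_univ_val j, rfl⟩, rfl⟩
  rw [hzero] at heval
  exact eq_zero_of_pow_eq_zero heval.symm

end Fermat.Agent.S20


end ZBS20_007_0
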