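/- GENERATED FILE (helper35, build-time optimisation, NOTES/ZB.md): verbatim concatenation of the modules
   Fermat.Agent.S20.Basic
   Fermat.Agent.S20.Conj
   Fermat.Agent.S20.Glue0
   Fermat.Agent.S20.MIso
   Fermat.Agent.S20.SIso
   Fermat.Agent.S20.MinHAux
   Fermat.Agent.S20.MinHSplit
   Fermat.Agent.S20.MinHDiv
   Fermat.Agent.S20.MinH
   Fermat.Agent.S20.Replace
   Do not edit; do not import together with these modules. -/
import Mathlib
import Fermat.Agent.ZB.S24_004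
import Fermat.Agent.ZB.S20_007

/-! ### bundled: `Fermat.Agent.S20.Basic` -/
section ZBS20_005_0
/-
S20 (dim S_2(Γ0(N)) = genus formula): shared definitions for the "good frame" route
(see NOTES/S20-route.md).  Only definitions and trivial lemmas here; import this file, do not redefine.
-/

set_option autoImplicit false

open CongruenceSubgroup UpperHalfPlane ModularForm
open scoped MatrixGroups

namespace Fermat.Agent.S20

/-- `Γ0(N)` as a subgroup of `GL(2,ℝ)` (this is what `CuspForm (Gamma0 N) 2` unfolds to). -/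
abbrev G0 (N : ℕ) : Subgroup (GL (Fin 2) ℝ) :=
  (Gamma0 N).map (Matrix.SpecialLinearGroup.mapGL ℝ)

/-- The coset space `SL2(ℤ)/Γ0(N)` in the form used by Mathlib's `ModularForm.trace`. -/
abbrev Q (N : ℕ) : Type := 𝒮ℒ ⧸ (G0 N).subgroupOf 𝒮ℒ

noncomputable instance instFintypeQ (N : ℕ) [NeZero N] : Fintype (Q N) := Fintype.ofFinite _

noncomputable instance instDecEqQ (N : ℕ) : DecidableEq (Q N) := Classical.decEq _

/-- The trivial coset. -/
def q0 (N : ℕ) : Q N := QuotientGroup.mk 1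

/-- The conjugates `F_q = F ∣[k] h⁻¹` (`q = h·Γ0(N)`) of a modular form `F` on `Γ0(N)`. -/
noncomputable def cj {N : ℕ} {k : ℤ} (F : ModularForm (G0 N) k) (q : Q N) : ℍ → ℂ :=
  SlashInvariantForm.quotientFunc F q

/-- A frame: `μ = #Q` modular forms on `Γ0(N)` (indexed by `Q N` for convenience), of weights `wt i`. -/
structure Frame (N : ℕ) where
  /-- the weights -/
  wt : Q N → ℤ
  /-- the forms -/
  f : (i : Q N) → ModularForm (G0 N) (wt i)

/-- The matrix `A(z) = (f_{i,q}(z))_{i,q}` of a frame. -/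
noncomputable def Frame.A {N : ℕ} (Φ : Frame N) (z : ℍ) : Matrix (Q N) (Q N) ℂ :=
  fun i q => cj (Φ.f i) q z

/-- A frame is *nondegenerate* if `det A` is not identically zero. -/
def Frame.Nondeg {N : ℕ} [NeZero N] (Φ : Frame N) : Prop := ∃ z : ℍ, (Φ.A z).det ≠ 0

/-- A frame is *good on ℍ* if `det A(z) ≠ 0` for every `z ∈ ℍ`. -/
def Frame.GoodOnH {N : ℕ} [NeZero N] (Φ : Frame N) : Prop := ∀ z : ℍ, (Φ.A z).det ≠ 0

/-- Total weight of a frame. -/
noncomputable def Frame.totalWt {N : ℕ} [NeZero N] (Φ : Frame N) : ℤ := ∑ i, Φ.wt i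

/-- The permutation of `Q N` induced by `T⁻¹` : `F_q(z+1) = F_{shift q}(z)`. -/
noncomputable def shift (N : ℕ) : Equiv.Perm (Q N) :=
  MulAction.toPerm (⟨Matrix.SpecialLinearGroup.mapGL ℝ ModularGroup.T, ⟨_, rfl⟩⟩ : 𝒮ℒ)⁻¹

/-- Number of cusps = number of `⟨T⟩`-orbits on `Q N` = number of cycles (incl. fixed points) of `shift`. -/
noncomputable def numCusps (N : ℕ) : ℕ :=
  Nat.card (MulAction.orbitRel.Quotient (Subgroup.zpowers (shift N)) (Q N))

/-- A frame is *good at ∞* if `det A(z)^2` is bounded below by a multiple of `|Δ|^(μ-κ)` near `i∞`. -/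
def Frame.GoodAtInfty {N : ℕ} [NeZero N] (Φ : Frame N) : Prop :=
  ∃ c : ℝ, 0 < c ∧ ∃ Y : ℝ, ∀ z : ℍ, Y ≤ z.im →
    c * ‖ModularForm.discriminant z‖ ^ (Fintype.card (Q N) - numCusps N) ≤ ‖(Φ.A z).det‖ ^ 2

end Fermat.Agent.S20


end ZBS20_005_0

/-! ### bundled: `Fermat.Agent.S20.Conj` -/
section ZBS20_005_1
/-
S20: basic API for the conjugates `cj F q` and the matrix `A(z)` of a frame.
-/

set_option autoImplicit false
set_option linter.unusedSectionVars false

open CongruenceSubgroup UpperHalfPlane ModularForm SlashInvariantForm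
open scoped MatrixGroups Manifold

namespace Fermat.Agent.S20

variable {N : ℕ} [NeZero N] {k : ℤ}

/-- The image of `γ : SL(2,ℤ)` in `𝒮ℒ`. -/
def toSL (γ : SL(2, ℤ)) : 𝒮ℒ := ⟨Matrix.SpecialLinearGroup.mapGL ℝ γ, ⟨γ, rfl⟩⟩

lemma toSL_mul (γ δ : SL(2, ℤ)) : toSL (γ * δ) = toSL γ * toSL δ := by
  ext1; simp [toSL]

lemma toSL_inv (γ : SL(2, ℤ)) : toSL γ⁻¹ = (toSL γ)⁻¹ := by
  ext1; simp [toSL]

lemma toSL_one : toSL 1 = 1 := by
  ext1; simp [toSL]

lemma toSL_surjective : Function.Surjective toSL := by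
  rintro ⟨_, γ, rfl⟩; exact ⟨γ, rfl⟩

lemma toSL_injective : Function.Injective toSL := by
  intro a b h
  have := congrArg Subtype.val h
  exact Matrix.SpecialLinearGroup.mapGL_injective this

/-- `toSL` as a group isomorphism. -/
noncomputable def toSLEquiv : SL(2, ℤ) ≃* 𝒮ℒ :=
  MulEquiv.ofBijective (MonoidHom.mk' toSL toSL_mul) ⟨toSL_injective, toSL_surjective⟩

@[simp] lemma toSLEquiv_apply (γ : SL(2, ℤ)) : toSLEquiv γ = toSL γ := rfl

lemma toSL_mem_G0_iff (γ : SL(2, ℤ)) :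
    (toSL γ : GL (Fin 2) ℝ) ∈ G0 N ↔ γ ∈ Gamma0 N := by
  constructor
  · rintro ⟨δ, hδ, h⟩
    have : δ = γ := Matrix.SpecialLinearGroup.mapGL_injective h
    exact this ▸ hδ
  · intro h; exact ⟨γ, h, rfl⟩

/-- The coset of `γ : SL(2,ℤ)` in `Q N`. -/
def mkQ (N : ℕ) (γ : SL(2, ℤ)) : Q N := QuotientGroup.mk (toSL γ)

lemma mkQ_surjective : Function.Surjective (mkQ N) := by
  intro q
  induction q using QuotientGroup.induction_on with
  | H h => obtain ⟨γ, rfl⟩ := toSL_surjective h; exact ⟨γ, rfl⟩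

lemma mkQ_one : mkQ N 1 = q0 N := by
  simp [mkQ, q0, toSL_one]

lemma mkQ_eq_iff (γ δ : SL(2, ℤ)) : mkQ N γ = mkQ N δ ↔ γ⁻¹ * δ ∈ Gamma0 N := by
  rw [mkQ, mkQ, QuotientGroup.eq, Subgroup.mem_subgroupOf, ← toSL_inv, ← toSL_mul, toSL_mem_G0_iff]

lemma smul_mkQ (γ δ : SL(2, ℤ)) : toSL γ • mkQ N δ = mkQ N (γ * δ) := by
  rw [mkQ, mkQ, toSL_mul]; rfl

variable (F : ModularForm (G0 N) k)

lemma cj_mkQ (γ : SL(2, ℤ)) : cj F (mkQ N γ) = (⇑F) ∣[k] γ⁻¹ := by
  rw [cj, mkQ, quotientFunc_mk, SL_slash]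
  congr 1
  simp [toSL, Matrix.SpecialLinearGroup.mapGL]

@[simp] lemma cj_q0 : cj F (q0 N) = ⇑F := by
  rw [← mkQ_one, cj_mkQ, inv_one]
  exact SlashAction.slash_one k (⇑F)

lemma cj_slash (γ : SL(2, ℤ)) (q : Q N) : cj F q ∣[k] γ = cj F ((toSL γ)⁻¹ • q) := by
  rw [SL_slash]
  exact quotientFunc_smul (ℋ := 𝒮ℒ) F (toSL γ).2 q

lemma cj_mdiff (q : Q N) : MDiff (cj F q) := by
  obtain ⟨γ, rfl⟩ := mkQ_surjective q
  rw [cj_mkQ, SL_slash]
  exact (ModularFormClass.holo F).slash k _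

lemma cj_bdd (q : Q N) : IsBoundedAtImInfty (cj F q) := by
  obtain ⟨γ, rfl⟩ := mkQ_surjective q
  rw [cj_mkQ]
  exact ModularFormClass.bdd_at_infty_slash F γ⁻¹

lemma cj_slash_bdd (q : Q N) (γ : SL(2, ℤ)) : IsBoundedAtImInfty (cj F q ∣[k] γ) := by
  rw [cj_slash]; exact cj_bdd F _

lemma cj_mul {k₁ k₂ : ℤ} (F : ModularForm (G0 N) k₁) (G : ModularForm (G0 N) k₂) (q : Q N) :
    cj (F.mul G) q = cj F q * cj G q := by
  obtain ⟨γ, rfl⟩ := mkQ_surjective q
  rw [cj_mkQ, cj_mkQ, cj_mkQ, ModularForm.coe_mul, mul_slash_SL2]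

lemma cj_add (F G : ModularForm (G0 N) k) (q : Q N) :
    cj (F + G) q = cj F q + cj G q := by
  obtain ⟨γ, rfl⟩ := mkQ_surjective q
  rw [cj_mkQ, cj_mkQ, cj_mkQ, FunLike.coe_add, SlashAction.add_slash]

lemma cj_smul (c : ℂ) (F : ModularForm (G0 N) k) (q : Q N) :
    cj (c • F) q = c • cj F q := by
  obtain ⟨γ, rfl⟩ := mkQ_surjective q
  rw [cj_mkQ, cj_mkQ, FunLike.coe_smul, SL_smul_slash]

lemma cj_mcast {a b : ℤ} (h : a = b) (F : ModularForm (G0 N) a) (q : Q N) :
    cj (ModularForm.mcast h F) q = cj F q := by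
  subst h; rfl

lemma cj_cuspForm_zero (f : CuspForm (G0 N) k) (γ : SL(2, ℤ)) :
    IsZeroAtImInfty ((⇑f) ∣[k] γ) := CuspFormClass.zero_at_infty_slash f γ

/-- value of `cj F q` at `γ • z`. -/
lemma cj_smul_apply (γ : SL(2, ℤ)) (q : Q N) (z : ℍ) :
    cj F q (γ • z) = (denom γ z) ^ k * cj F ((toSL γ)⁻¹ • q) z := by
  have h := congrFun (cj_slash F γ q) z
  rw [SL_slash_apply] at h
  rw [← h]
  have hd : denom γ z ≠ 0 := denom_ne_zero _ z
  rw [mul_comm (cj F q (γ • z)), ← mul_assoc, ← zpow_add₀ hd]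
  simp

/-- Restriction of a level-one form to `Γ0(N)`. -/
noncomputable def res (N : ℕ) [NeZero N] {k : ℤ} (r : ModularForm 𝒮ℒ k) : ModularForm (G0 N) k where
  toFun := r
  slash_action_eq' γ hγ := by
    obtain ⟨δ, -, rfl⟩ := hγ
    exact SlashInvariantForm.slash_action_eqn r _ ⟨δ, rfl⟩
  holo' := r.holo'
  bdd_at_cusps' {c} hc := by
    rw [Subgroup.IsArithmetic.isCusp_iff_isCusp_SL2Z] at hc
    exact r.bdd_at_cusps' hc

@[simp] lemma res_apply (r : ModularForm 𝒮ℒ k) (z : ℍ) : res N r z = r z := rfl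

@[simp] lemma coe_res (r : ModularForm 𝒮ℒ k) : ⇑(res N r) = ⇑r := rfl

@[simp] lemma cj_res (r : ModularForm 𝒮ℒ k) (q : Q N) : cj (res N r) q = ⇑r := by
  obtain ⟨γ, rfl⟩ := mkQ_surjective q
  rw [cj_mkQ, coe_res, SL_slash]
  exact SlashInvariantForm.slash_action_eqn r _ ⟨γ⁻¹, rfl⟩

lemma trace_apply (z : ℍ) : ModularForm.trace 𝒮ℒ F z = ∑ q : Q N, cj F q z := by
  rw [ModularForm.coe_trace]
  simp only [cj, Finset.sum_apply]

lemma cuspTrace_apply (f : CuspForm (G0 N) k) (z : ℍ) :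
    CuspForm.trace 𝒮ℒ f z = ∑ q : Q N, (SlashInvariantForm.quotientFunc f q : ℍ → ℂ) z := by
  rw [CuspForm.coe_trace]
  simp only [Finset.sum_apply]

/-- Transformation of the frame matrix under `SL(2,ℤ)`. -/
lemma Frame.A_smul (Φ : Frame N) (γ : SL(2, ℤ)) (z : ℍ) (i q : Q N) :
    Φ.A (γ • z) i q = (denom γ z) ^ (Φ.wt i) * Φ.A z i ((toSL γ)⁻¹ • q) :=
  cj_smul_apply (Φ.f i) γ q z

/-- multiplication by a level-one form commutes with conjugation. -/
lemma cj_res_mul {k₁ k₂ : ℤ} (a : ModularForm 𝒮ℒ k₁) (F : ModularForm (G0 N) k₂) (q : Q N) :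
    cj ((res N a).mul F) q = ⇑a * cj F q := by
  rw [cj_mul, cj_res]

/-- The image of `T` in `𝒮ℒ`. -/
lemma shift_eq_toSL_smul (q : Q N) : shift N q = (toSL ModularGroup.T)⁻¹ • q := rfl

/-- `F_q(z + 1) = F_{shift q}(z)`. -/
lemma cj_shift (q : Q N) (z : ℍ) : cj F (shift N q) z = cj F q ((1 : ℝ) +ᵥ z) := by
  have h := cj_smul_apply F ModularGroup.T q z
  have hd : denom (ModularGroup.T : SL(2, ℤ)) z = 1 := by
    simp [denom, ModularGroup.coe_T]
  rw [hd] at h
  simp only [one_zpow, one_mul] at h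
  rw [shift_eq_toSL_smul, ← h, UpperHalfPlane.modular_T_smul]

/-- A modular form on `Γ0(N)` all of whose conjugates vanish at `i∞` is a cusp form. -/
noncomputable def toCusp (F : ModularForm (G0 N) k) (h : ∀ q, IsZeroAtImInfty (cj F q)) :
    CuspForm (G0 N) k where
  toFun := F
  slash_action_eq' := F.slash_action_eq'
  holo' := F.holo'
  zero_at_cusps' {c} hc := by
    rw [Subgroup.IsArithmetic.isCusp_iff_isCusp_SL2Z] at hc
    rw [OnePoint.isZeroAt_iff_forall_SL2Z hc]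
    intro γ _
    have := h (mkQ N γ⁻¹)
    rwa [cj_mkQ, inv_inv] at this

@[simp] lemma toCusp_apply (F : ModularForm (G0 N) k) (h : ∀ q, IsZeroAtImInfty (cj F q)) (z : ℍ) :
    toCusp F h z = F z := rfl

/-- The modular form underlying a cusp form. -/
noncomputable def ofCusp (f : CuspForm (G0 N) k) : ModularForm (G0 N) k :=
  ModularFormClass.modularForm f

@[simp] lemma ofCusp_apply (f : CuspForm (G0 N) k) (z : ℍ) : ofCusp f z = f z := rfl

lemma cj_ofCusp_zero (f : CuspForm (G0 N) k) (q : Q N) : IsZeroAtImInfty (cj (ofCusp f) q) := by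
  obtain ⟨γ, rfl⟩ := mkQ_surjective q
  rw [cj_mkQ]
  exact CuspFormClass.zero_at_infty_slash f γ⁻¹

end Fermat.Agent.S20


end ZBS20_005_1

/-! ### bundled: `Fermat.Agent.S20.Glue0` -/
section ZBS20_005_2
/-
S20 package GLUE0: small glue lemmas on frames.
-/

set_option autoImplicit false
set_option linter.unusedSectionVars false

open CongruenceSubgroup UpperHalfPlane ModularForm SlashInvariantForm
open scoped MatrixGroups Manifold

namespace Fermat.Agent.S20

variable {N : ℕ} [NeZero N]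

/-- The conjugates of the zero form vanish. -/
lemma glue0_cj_zero {k : ℤ} (q : Q N) : cj (0 : ModularForm (G0 N) k) q = 0 := by
  obtain ⟨γ, rfl⟩ := mkQ_surjective q
  rw [cj_mkQ]
  have : (⇑(0 : ModularForm (G0 N) k) : ℍ → ℂ) = 0 := rfl
  rw [this]
  exact SlashAction.zero_slash _ _

/-- If some form of a frame vanishes, then the frame is degenerate. -/
lemma glue0_det_eq_zero_of_f_eq_zero (Φ : Frame N) (i : Q N) (hi : Φ.f i = 0) (z : ℍ) :
    (Φ.A z).det = 0 := by
  apply Matrix.det_eq_zero_of_row_eq_zero i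
  intro q
  change cj (Φ.f i) q z = 0
  rw [hi, glue0_cj_zero]
  rfl

theorem Frame.wt_nonneg (Φ : Frame N) (h : Φ.Nondeg) (i : Q N) : 0 ≤ Φ.wt i := by
  by_contra hlt
  rw [not_le] at hlt
  obtain ⟨z, hz⟩ := h
  exact hz (glue0_det_eq_zero_of_f_eq_zero Φ i (ModularForm.isZero_of_neg_weight hlt (Φ.f i)) z)

lemma glue0_neg_one_mem_G0 : (-1 : GL (Fin 2) ℝ) ∈ G0 N := by
  refine ⟨-1, ?_, ?_⟩
  · change (-1 : SL(2, ℤ)) ∈ Gamma0 N
    rw [Gamma0_mem]
    simp
  · ext i j
    simp [Matrix.SpecialLinearGroup.mapGL]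

theorem Frame.wt_even (Φ : Frame N) (h : Φ.Nondeg) (i : Q N) : Even (Φ.wt i) := by
  by_contra hodd
  rw [Int.not_even_iff_odd] at hodd
  obtain ⟨z, hz⟩ := h
  exact hz (glue0_det_eq_zero_of_f_eq_zero Φ i
    (ModularForm.eq_zero_of_neg_one_mem glue0_neg_one_mem_G0 hodd (Φ.f i)) z)

lemma Frame.totalWt_nonneg (Φ : Frame N) (h : Φ.Nondeg) : 0 ≤ Φ.totalWt :=
  Finset.sum_nonneg fun i _ => Φ.wt_nonneg h i

theorem exists_good_frame (P1 P2 : Frame N → Prop)
    (hEX : ∃ Φ : Frame N, Φ.Nondeg)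
    (h1 : ∀ Φ : Frame N, Φ.Nondeg → ¬ P1 Φ → ∃ Φ' : Frame N, Φ'.Nondeg ∧ Φ'.totalWt < Φ.totalWt)
    (h2 : ∀ Φ : Frame N, Φ.Nondeg → ¬ P2 Φ → ∃ Φ' : Frame N, Φ'.Nondeg ∧ Φ'.totalWt < Φ.totalWt) :
    ∃ Φ : Frame N, Φ.Nondeg ∧ P1 Φ ∧ P2 Φ := by
  have key : ∀ n : ℕ, ∀ Φ : Frame N, Φ.Nondeg → Φ.totalWt.toNat = n →
      ∃ Ψ : Frame N, Ψ.Nondeg ∧ P1 Ψ ∧ P2 Ψ := by
    intro n
    induction n using Nat.strong_induction_on with
    | _ n ih =>
      intro Φ hΦ hn
      by_cases hP1 : P1 Φ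
      · by_cases hP2 : P2 Φ
        · exact ⟨Φ, hΦ, hP1, hP2⟩
        · obtain ⟨Φ', hΦ', hlt⟩ := h2 Φ hΦ hP2
          have h0 := Φ'.totalWt_nonneg hΦ'
          have h0' := Φ.totalWt_nonneg hΦ
          exact ih Φ'.totalWt.toNat (by omega) Φ' hΦ' rfl
      · obtain ⟨Φ', hΦ', hlt⟩ := h1 Φ hΦ hP1
        have h0 := Φ'.totalWt_nonneg hΦ'
        have h0' := Φ.totalWt_nonneg hΦ
        exact ih Φ'.totalWt.toNat (by omega) Φ' hΦ' rfl
  obtain ⟨Φ, hΦ⟩ := hEX
  exact key _ Φ hΦ rfl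

theorem finrank_M_zero : Module.finrank ℂ (ModularForm (G0 N) 0) = 1 := by
  have hne : (ModularForm.const (1 : ℂ) : ModularForm (G0 N) 0) ≠ 0 := by
    intro h
    have := congrArg (fun f : ModularForm (G0 N) 0 => f I) h
    simp at this
  rw [finrank_eq_one_iff_of_nonzero' _ hne]
  intro f
  obtain ⟨c, hc⟩ := ModularForm.eq_const_of_weight_zero f
  refine ⟨c, ?_⟩
  ext z
  have := congrFun hc z
  simp [this]

end Fermat.Agent.S20


end ZBS20_005_2

/-! ### bundled: `Fermat.Agent.S20.MIso` -/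
section ZBS20_005_3
/-
S20, package M-ISO: for a frame `Φ` which is good on `ℍ` and whose Cramer coefficients are bounded
at `i∞`, `M_l(Γ0(N)) ≃ Π_i M_{l - k_i}(SL2(ℤ))`, hence the dimension formula `finrank_M`.
-/

set_option autoImplicit false
set_option linter.unusedSectionVars false

open CongruenceSubgroup UpperHalfPlane ModularForm SlashInvariantForm
open scoped MatrixGroups Manifold

noncomputable section

namespace Fermat.Agent.S20

variable {N : ℕ} [NeZero N]

/-- The determinant of a matrix of holomorphic functions is holomorphic. -/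
lemma miso_mdiff_det {n : Type} [Fintype n] [DecidableEq n] (M : ℍ → Matrix n n ℂ)
    (h : ∀ i j, MDiff (fun z => M z i j)) : MDiff (fun z => (M z).det) := by
  have : (fun z => (M z).det) =
      ∑ σ : Equiv.Perm n, (fun z => ((Equiv.Perm.sign σ : ℤ) : ℂ) * ∏ i, M z (σ i) i) := by
    funext z
    rw [Matrix.det_apply, Finset.sum_apply]
    refine Finset.sum_congr rfl fun σ _ => ?_
    rw [Units.smul_def, zsmul_eq_mul]
  rw [this]
  refine MDifferentiable.sum fun σ _ => ?_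
  refine MDifferentiable.mul mdifferentiable_const ?_
  have h2 : (fun z => ∏ i, M z (σ i) i) = ∏ i, (fun z => M z (σ i) i) := by
    funext z; rw [Finset.prod_apply]
  rw [h2]
  exact MDifferentiable.prod fun i _ => h (σ i) i

lemma Frame.mdiff_A (Φ : Frame N) (i q : Q N) : MDiff (fun z => Φ.A z i q) :=
  cj_mdiff (Φ.f i) q

lemma Frame.mdiff_det (Φ : Frame N) : MDiff (fun z => (Φ.A z).det) :=
  miso_mdiff_det _ fun i q => Φ.mdiff_A i q

lemma Frame.mdiff_inv (Φ : Frame N) (hH : Φ.GoodOnH) (q i : Q N) :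
    MDiff (fun z => (Φ.A z)⁻¹ q i) := by
  have : (fun z => (Φ.A z)⁻¹ q i) =
      fun z => ((Φ.A z).det)⁻¹ * ((Φ.A z).updateRow i (Pi.single q 1)).det := by
    funext z
    rw [Matrix.inv_def, Matrix.smul_apply, Ring.inverse_eq_inv', Matrix.adjugate_apply,
      smul_eq_mul]
  rw [this]
  refine MDifferentiable.mul (MDifferentiable.inv Φ.mdiff_det hH) ?_
  refine miso_mdiff_det _ fun a b => ?_
  by_cases ha : a = i
  · subst ha
    simp only [Matrix.updateRow_self]
    exact mdifferentiable_const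
  · simp only [Matrix.updateRow_ne ha]
    exact Φ.mdiff_A a b


/-- The Cramer coefficients of `F` with respect to the frame `Φ`:
`coef F i z = ∑_q F_q(z) (A(z)⁻¹)_{q,i}`. -/
def Frame.coef (Φ : Frame N) {l : ℤ} (F : ModularForm (G0 N) l) (i : Q N) : ℍ → ℂ :=
  fun z => ∑ q, cj F q z * (Φ.A z)⁻¹ q i

lemma Frame.coef_apply (Φ : Frame N) {l : ℤ} (F : ModularForm (G0 N) l) (i : Q N) (z : ℍ) :
    Φ.coef F i z = ∑ q, cj F q z * (Φ.A z)⁻¹ q i := rfl

lemma Frame.coef_eq_vecMul (Φ : Frame N) {l : ℤ} (F : ModularForm (G0 N) l) (z : ℍ) :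
    (fun i => Φ.coef F i z) = Matrix.vecMul (fun q => cj F q z) (Φ.A z)⁻¹ := by
  funext i
  simp [Frame.coef, Matrix.vecMul, dotProduct]

lemma Frame.isUnit_det (Φ : Frame N) (hH : Φ.GoodOnH) (z : ℍ) : IsUnit (Φ.A z).det :=
  isUnit_iff_ne_zero.mpr (hH z)

/-- The coefficients solve the linear system `∑_i r_i A_{i,q} = F_q`. -/
lemma Frame.sum_coef_mul (Φ : Frame N) (hH : Φ.GoodOnH) {l : ℤ} (F : ModularForm (G0 N) l)
    (z : ℍ) (q : Q N) : ∑ i, Φ.coef F i z * Φ.A z i q = cj F q z := by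
  have h := congrFun (congrArg (fun v => Matrix.vecMul v (Φ.A z)) (Φ.coef_eq_vecMul F z)) q
  simp only [Matrix.vecMul_vecMul, Matrix.nonsing_inv_mul _ (Φ.isUnit_det hH z),
    Matrix.vecMul_one] at h
  rw [← h]
  simp [Matrix.vecMul, dotProduct]

/-- Uniqueness of the solution of the linear system. -/
lemma Frame.eq_coef_of_sum (Φ : Frame N) (hH : Φ.GoodOnH) {l : ℤ} (F : ModularForm (G0 N) l)
    (z : ℍ) (r : Q N → ℂ) (hr : ∀ q, ∑ i, r i * Φ.A z i q = cj F q z) (i : Q N) :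
    r i = Φ.coef F i z := by
  have h1 : Matrix.vecMul r (Φ.A z) = fun q => cj F q z := by
    funext q
    rw [← hr q]
    simp [Matrix.vecMul, dotProduct]
  have h2 : r = Matrix.vecMul (fun q => cj F q z) (Φ.A z)⁻¹ := by
    rw [← h1, Matrix.vecMul_vecMul, Matrix.mul_nonsing_inv _ (Φ.isUnit_det hH z),
      Matrix.vecMul_one]
  rw [← Φ.coef_eq_vecMul F z] at h2
  exact congrFun h2 i

lemma Frame.coef_mdiff (Φ : Frame N) (hH : Φ.GoodOnH) {l : ℤ} (F : ModularForm (G0 N) l)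
    (i : Q N) : MDiff (Φ.coef F i) := by
  have : Φ.coef F i = ∑ q, (fun z => cj F q z * (Φ.A z)⁻¹ q i) := by
    funext z; rw [Finset.sum_apply]; rfl
  rw [this]
  exact MDifferentiable.sum fun q _ => MDifferentiable.mul (cj_mdiff F q) (Φ.mdiff_inv hH q i)

/-- Transformation law of the coefficients under `SL(2,ℤ)`. -/
lemma Frame.coef_smul (Φ : Frame N) (hH : Φ.GoodOnH) {l : ℤ} (F : ModularForm (G0 N) l)
    (i : Q N) (γ : SL(2, ℤ)) (z : ℍ) :
    Φ.coef F i (γ • z) = (denom γ z) ^ (l - Φ.wt i) * Φ.coef F i z := by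
  have hd : denom γ z ≠ 0 := denom_ne_zero _ z
  have key := Φ.eq_coef_of_sum hH F z
    (fun j => (denom γ z) ^ (Φ.wt j - l) * Φ.coef F j (γ • z)) ?_ i
  · rw [← key, ← mul_assoc, ← zpow_add₀ hd]
    simp
  · intro q
    have h1 := Φ.sum_coef_mul hH F (γ • z) (toSL γ • q)
    rw [cj_smul_apply, inv_smul_smul] at h1
    have h2 : ∀ j, Φ.A (γ • z) j (toSL γ • q) = (denom γ z) ^ (Φ.wt j) * Φ.A z j q := by
      intro j
      rw [Frame.A_smul, inv_smul_smul]
    simp only [h2] at h1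
    have h3 : cj F q z = (denom γ z) ^ (-l) * ((denom γ z) ^ l * cj F q z) := by
      rw [← mul_assoc, ← zpow_add₀ hd]; simp
    rw [h3, ← h1, Finset.mul_sum]
    refine Finset.sum_congr rfl fun j _ => ?_
    rw [sub_eq_add_neg, zpow_add₀ hd]
    ring


lemma Frame.coef_slash (Φ : Frame N) (hH : Φ.GoodOnH) {l : ℤ} (F : ModularForm (G0 N) l)
    (i : Q N) (γ : SL(2, ℤ)) : Φ.coef F i ∣[l - Φ.wt i] γ = Φ.coef F i := by
  funext z
  have hd : denom γ z ≠ 0 := denom_ne_zero _ z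
  rw [SL_slash_apply, Φ.coef_smul hH F i γ z, mul_comm, ← mul_assoc, ← zpow_add₀ hd]
  simp

/-- The hypothesis of `finrank_M`: the Cramer coefficients are bounded at `i∞`. -/
def Frame.CoefBdd (Φ : Frame N) : Prop :=
  ∀ {l : ℤ} (F : ModularForm (G0 N) l) (i : Q N),
    IsBoundedAtImInfty (fun z => ∑ q, cj F q z * (Φ.A z)⁻¹ q i)

/-- The Cramer coefficients as level-one modular forms. -/
def Frame.coefForm (Φ : Frame N) (hH : Φ.GoodOnH) (hB : Φ.CoefBdd) {l : ℤ}
    (F : ModularForm (G0 N) l) (i : Q N) : ModularForm 𝒮ℒ (l - Φ.wt i) where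
  toFun := Φ.coef F i
  slash_action_eq' γ hγ := by
    obtain ⟨g, rfl⟩ := hγ
    exact Φ.coef_slash hH F i g
  holo' := Φ.coef_mdiff hH F i
  bdd_at_cusps' {c} hc := by
    rw [OnePoint.isBoundedAt_iff_forall_SL2Z hc]
    intro γ _
    show IsBoundedAtImInfty (Φ.coef F i ∣[l - Φ.wt i] γ)
    rw [Φ.coef_slash hH F i γ]
    exact hB F i

@[simp] lemma Frame.coefForm_apply (Φ : Frame N) (hH : Φ.GoodOnH) (hB : Φ.CoefBdd) {l : ℤ}
    (F : ModularForm (G0 N) l) (i : Q N) (z : ℍ) :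
    Φ.coefForm hH hB F i z = Φ.coef F i z := rfl


lemma miso_cj_zero {l : ℤ} (q : Q N) : cj (0 : ModularForm (G0 N) l) q = 0 := by
  have := cj_smul (0 : ℂ) (0 : ModularForm (G0 N) l) q
  rw [zero_smul, zero_smul] at this
  exact this

lemma miso_cj_sum {l : ℤ} {ι : Type} (s : Finset ι) (G : ι → ModularForm (G0 N) l) (q : Q N) :
    cj (∑ j ∈ s, G j) q = ∑ j ∈ s, cj (G j) q := by
  classical
  induction s using Finset.induction_on with
  | empty => simp [miso_cj_zero]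
  | insert a s ha ih => rw [Finset.sum_insert ha, Finset.sum_insert ha, cj_add, ih]

/-- The inverse map: `(r_i) ↦ ∑_i r_i f_i`. -/
def Frame.ofCoef (Φ : Frame N) {l : ℤ} (r : (i : Q N) → ModularForm 𝒮ℒ (l - Φ.wt i)) :
    ModularForm (G0 N) l :=
  ∑ i, ModularForm.mcast (sub_add_cancel l (Φ.wt i)) ((res N (r i)).mul (Φ.f i))

lemma Frame.cj_ofCoef (Φ : Frame N) {l : ℤ} (r : (i : Q N) → ModularForm 𝒮ℒ (l - Φ.wt i))
    (q : Q N) (z : ℍ) : cj (Φ.ofCoef r) q z = ∑ i, r i z * Φ.A z i q := by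
  rw [Frame.ofCoef, miso_cj_sum, Finset.sum_apply]
  refine Finset.sum_congr rfl fun i _ => ?_
  rw [cj_mcast, cj_mul, cj_res]
  rfl

lemma Frame.ofCoef_apply (Φ : Frame N) {l : ℤ} (r : (i : Q N) → ModularForm 𝒮ℒ (l - Φ.wt i))
    (z : ℍ) : Φ.ofCoef r z = ∑ i, r i z * Φ.A z i (q0 N) := by
  rw [← Φ.cj_ofCoef r (q0 N) z, cj_q0]

/-- The linear equivalence `M_l(Γ0(N)) ≃ Π_i M_{l-k_i}(SL2(ℤ))` attached to a good frame. -/
def Frame.coefEquiv (Φ : Frame N) (hH : Φ.GoodOnH) (hB : Φ.CoefBdd) (l : ℤ) :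
    ModularForm (G0 N) l ≃ₗ[ℂ] ((i : Q N) → ModularForm 𝒮ℒ (l - Φ.wt i)) where
  toFun F i := Φ.coefForm hH hB F i
  map_add' F G := by
    funext i
    ext z
    simp only [Frame.coefForm_apply, Pi.add_apply, FunLike.coe_add, Frame.coef_apply, cj_add,
      add_mul, Finset.sum_add_distrib]
  map_smul' c F := by
    funext i
    ext z
    simp only [Frame.coefForm_apply, Pi.smul_apply, FunLike.coe_smul, Frame.coef_apply, cj_smul,
      smul_eq_mul, RingHom.id_apply, Finset.mul_sum, mul_assoc]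
  invFun r := Φ.ofCoef r
  left_inv F := by
    ext z
    rw [Φ.ofCoef_apply]
    simp only [Frame.coefForm_apply]
    rw [Φ.sum_coef_mul hH F z (q0 N), cj_q0]
  right_inv r := by
    funext i
    ext z
    rw [Frame.coefForm_apply]
    exact (Φ.eq_coef_of_sum hH (Φ.ofCoef r) z (fun j => r j z)
      (fun q => (Φ.cj_ofCoef r q z).symm) i).symm

/-- **S20 package M-ISO.** -/
theorem finrank_M (Φ : Frame N) (hH : Φ.GoodOnH)
    (hB : ∀ {l : ℤ} (F : ModularForm (G0 N) l) (i : Q N),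
      IsBoundedAtImInfty (fun z => ∑ q, cj F q z * (Φ.A z)⁻¹ q i)) (l : ℤ) :
    Module.finrank ℂ (ModularForm (G0 N) l) =
      ∑ i, Module.finrank ℂ (ModularForm 𝒮ℒ (l - Φ.wt i)) := by
  rw [(Φ.coefEquiv hH (fun F i => hB F i) l).finrank_eq, Module.finrank_pi_fintype]

end Fermat.Agent.S20

end
end ZBS20_005_3

/-! ### bundled: `Fermat.Agent.S20.SIso` -/
section ZBS20_005_4
/-
S20, package S-ISO: for a frame `Φ` which is good on `ℍ` and such that `Δ · A⁻¹` vanishes at `i∞`,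
`S_l(Γ0(N)) ≃ Π_i S_{l + k_i}(SL2(ℤ))`, `g ↦ (Tr (f_i g))_i`, hence the dimension formula
`finrank_S`.
-/

set_option autoImplicit false
set_option linter.unusedSectionVars false

open CongruenceSubgroup UpperHalfPlane ModularForm SlashInvariantForm
open scoped MatrixGroups Manifold

noncomputable section

namespace Fermat.Agent.S20

variable {N : ℕ} [NeZero N]

/-- Reindexing a sum over `Q N` by the action of an element of `𝒮ℒ`. -/
lemma siso_sum_smul (h : 𝒮ℒ) (φ : Q N → ℂ) : ∑ q, φ (h • q) = ∑ q, φ q :=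
  Equiv.sum_comp (MulAction.toPerm h) φ

/-- Transformation law of the inverse of the frame matrix under `SL(2,ℤ)`. -/
lemma Frame.inv_A_smul (Φ : Frame N) (hH : Φ.GoodOnH) (γ : SL(2, ℤ)) (z : ℍ) (q i : Q N) :
    (Φ.A (γ • z))⁻¹ q i = (denom γ z) ^ (-(Φ.wt i)) * (Φ.A z)⁻¹ ((toSL γ)⁻¹ • q) i := by
  have hd : denom γ z ≠ 0 := denom_ne_zero _ z
  have key : Φ.A (γ • z) * (Matrix.of fun q i =>
      (denom γ z) ^ (-(Φ.wt i)) * (Φ.A z)⁻¹ ((toSL γ)⁻¹ • q) i) = 1 := by
    ext i j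
    rw [Matrix.mul_apply]
    simp only [Matrix.of_apply, Frame.A_smul]
    have h1 : ∑ q, (denom γ z) ^ (Φ.wt i) * Φ.A z i ((toSL γ)⁻¹ • q) *
          ((denom γ z) ^ (-(Φ.wt j)) * (Φ.A z)⁻¹ ((toSL γ)⁻¹ • q) j)
        = (denom γ z) ^ (Φ.wt i) * (denom γ z) ^ (-(Φ.wt j)) *
          ∑ q, Φ.A z i q * (Φ.A z)⁻¹ q j := by
      rw [← siso_sum_smul (toSL γ)⁻¹ (fun q => Φ.A z i q * (Φ.A z)⁻¹ q j), Finset.mul_sum]
      refine Finset.sum_congr rfl fun q _ => ?_
      ring
    rw [h1, ← Matrix.mul_apply, Matrix.mul_nonsing_inv _ (Φ.isUnit_det hH z)]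
    by_cases h : i = j
    · subst h
      rw [Matrix.one_apply_eq, mul_one, ← zpow_add₀ hd, add_neg_cancel, zpow_zero]
    · rw [Matrix.one_apply_ne h, mul_zero]
  rw [Matrix.inv_eq_right_inv key]
  rfl

/-- The trace functions `λ_i = ∑_q (f_i)_q g_q` of a cusp form `g` against a frame. -/
def Frame.sTr (Φ : Frame N) {l : ℤ} (g : CuspForm (G0 N) l) (i : Q N) : ℍ → ℂ :=
  fun z => ∑ q, Φ.A z i q * cj (ofCusp g) q z

lemma Frame.sTr_apply (Φ : Frame N) {l : ℤ} (g : CuspForm (G0 N) l) (i : Q N) (z : ℍ) :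
    Φ.sTr g i z = ∑ q, Φ.A z i q * cj (ofCusp g) q z := rfl

lemma Frame.sTr_eq_sum (Φ : Frame N) {l : ℤ} (g : CuspForm (G0 N) l) (i : Q N) :
    Φ.sTr g i = ∑ q, (fun z => Φ.A z i q) * cj (ofCusp g) q := by
  funext z
  rw [Finset.sum_apply]
  rfl

lemma Frame.sTr_mdiff (Φ : Frame N) {l : ℤ} (g : CuspForm (G0 N) l) (i : Q N) :
    MDiff (Φ.sTr g i) := by
  rw [Φ.sTr_eq_sum]
  exact MDifferentiable.sum fun q _ =>
    MDifferentiable.mul (Φ.mdiff_A i q) (cj_mdiff (ofCusp g) q)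

lemma siso_zero_sum {ι : Type} (s : Finset ι) (φ : ι → ℍ → ℂ)
    (h : ∀ j ∈ s, IsZeroAtImInfty (φ j)) : IsZeroAtImInfty (∑ j ∈ s, φ j) := by
  classical
  induction s using Finset.induction_on with
  | empty =>
    rw [Finset.sum_empty]
    exact Filter.zero_zeroAtFilter _
  | insert a s ha ih =>
    rw [Finset.sum_insert ha]
    exact Filter.ZeroAtFilter.add (h a (Finset.mem_insert_self a s))
      (ih fun j hj => h j (Finset.mem_insert_of_mem hj))

lemma Frame.sTr_zero (Φ : Frame N) {l : ℤ} (g : CuspForm (G0 N) l) (i : Q N) :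
    IsZeroAtImInfty (Φ.sTr g i) := by
  rw [Φ.sTr_eq_sum]
  refine siso_zero_sum _ _ fun q _ => ?_
  exact Filter.BoundedAtFilter.mul_zeroAtFilter (cj_bdd (Φ.f i) q) (cj_ofCusp_zero g q)

lemma Frame.sTr_smul (Φ : Frame N) {l : ℤ} (g : CuspForm (G0 N) l) (i : Q N)
    (γ : SL(2, ℤ)) (z : ℍ) :
    Φ.sTr g i (γ • z) = (denom γ z) ^ (l + Φ.wt i) * Φ.sTr g i z := by
  have hd : denom γ z ≠ 0 := denom_ne_zero _ z
  rw [Φ.sTr_apply, Φ.sTr_apply,
    ← siso_sum_smul (toSL γ)⁻¹ (fun q => Φ.A z i q * cj (ofCusp g) q z), Finset.mul_sum]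
  refine Finset.sum_congr rfl fun q _ => ?_
  rw [Frame.A_smul, cj_smul_apply, zpow_add₀ hd]
  ring

lemma Frame.sTr_slash (Φ : Frame N) {l : ℤ} (g : CuspForm (G0 N) l) (i : Q N)
    (γ : SL(2, ℤ)) : Φ.sTr g i ∣[l + Φ.wt i] γ = Φ.sTr g i := by
  funext z
  have hd : denom γ z ≠ 0 := denom_ne_zero _ z
  rw [SL_slash_apply, Φ.sTr_smul g i γ z, mul_comm, ← mul_assoc, ← zpow_add₀ hd]
  simp

/-- The traces as level-one cusp forms. -/
def Frame.sTrForm (Φ : Frame N) {l : ℤ} (g : CuspForm (G0 N) l) (i : Q N) :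
    CuspForm 𝒮ℒ (l + Φ.wt i) where
  toFun := Φ.sTr g i
  slash_action_eq' γ hγ := by
    obtain ⟨δ, rfl⟩ := hγ
    exact Φ.sTr_slash g i δ
  holo' := Φ.sTr_mdiff g i
  zero_at_cusps' {c} hc := by
    rw [OnePoint.isZeroAt_iff_forall_SL2Z hc]
    intro γ _
    show IsZeroAtImInfty (Φ.sTr g i ∣[l + Φ.wt i] γ)
    rw [Φ.sTr_slash g i γ]
    exact Φ.sTr_zero g i

@[simp] lemma Frame.sTrForm_apply (Φ : Frame N) {l : ℤ} (g : CuspForm (G0 N) l) (i : Q N)
    (z : ℍ) : Φ.sTrForm g i z = Φ.sTr g i z := rfl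

/-- The candidate conjugates `g_q = ∑_i (A⁻¹)_{q,i} λ_i` of the preimage of `(λ_i)`. -/
def Frame.sLift (Φ : Frame N) {l : ℤ} (lam : (i : Q N) → CuspForm 𝒮ℒ (l + Φ.wt i)) (q : Q N) :
    ℍ → ℂ :=
  fun z => ∑ i, (Φ.A z)⁻¹ q i * lam i z

lemma Frame.sLift_apply (Φ : Frame N) {l : ℤ} (lam : (i : Q N) → CuspForm 𝒮ℒ (l + Φ.wt i))
    (q : Q N) (z : ℍ) : Φ.sLift lam q z = ∑ i, (Φ.A z)⁻¹ q i * lam i z := rfl

lemma Frame.sLift_mdiff (Φ : Frame N) (hH : Φ.GoodOnH) {l : ℤ}
    (lam : (i : Q N) → CuspForm 𝒮ℒ (l + Φ.wt i)) (q : Q N) : MDiff (Φ.sLift lam q) := by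
  have : Φ.sLift lam q = ∑ i, (fun z => (Φ.A z)⁻¹ q i) * ⇑(lam i) := by
    funext z
    rw [Finset.sum_apply]
    rfl
  rw [this]
  exact MDifferentiable.sum fun i _ =>
    MDifferentiable.mul (Φ.mdiff_inv hH q i) (CuspFormClass.holo (lam i))

lemma Frame.sLift_smul (Φ : Frame N) (hH : Φ.GoodOnH) {l : ℤ}
    (lam : (i : Q N) → CuspForm 𝒮ℒ (l + Φ.wt i)) (q : Q N) (γ : SL(2, ℤ)) (z : ℍ) :
    Φ.sLift lam q (γ • z) = (denom γ z) ^ l * Φ.sLift lam ((toSL γ)⁻¹ • q) z := by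
  have hd : denom γ z ≠ 0 := denom_ne_zero _ z
  rw [Φ.sLift_apply, Φ.sLift_apply, Finset.mul_sum]
  refine Finset.sum_congr rfl fun i _ => ?_
  have h1 : lam i (γ • z) = (denom γ z) ^ (l + Φ.wt i) * lam i z := by
    have h : (⇑(lam i) ∣[l + Φ.wt i] γ) z = lam i z :=
      congrFun (SlashInvariantForm.slash_action_eqn (lam i) _ ⟨γ, rfl⟩) z
    rw [SL_slash_apply] at h
    rw [← h, mul_comm (lam i (γ • z)), ← mul_assoc, ← zpow_add₀ hd]
    simp
  rw [Φ.inv_A_smul hH, h1, zpow_add₀ hd, zpow_neg]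
  field_simp

lemma Frame.sLift_slash (Φ : Frame N) (hH : Φ.GoodOnH) {l : ℤ}
    (lam : (i : Q N) → CuspForm 𝒮ℒ (l + Φ.wt i)) (q : Q N) (γ : SL(2, ℤ)) :
    Φ.sLift lam q ∣[l] γ = Φ.sLift lam ((toSL γ)⁻¹ • q) := by
  funext z
  have hd : denom γ z ≠ 0 := denom_ne_zero _ z
  rw [SL_slash_apply, Φ.sLift_smul hH lam q γ z, mul_comm, ← mul_assoc, ← zpow_add₀ hd]
  simp

lemma Frame.sLift_zero (Φ : Frame N)
    (hZ : ∀ q i : Q N, IsZeroAtImInfty (fun z => ModularForm.discriminant z * (Φ.A z)⁻¹ q i))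
    {l : ℤ} (lam : (i : Q N) → CuspForm 𝒮ℒ (l + Φ.wt i)) (q : Q N) :
    IsZeroAtImInfty (Φ.sLift lam q) := by
  have : Φ.sLift lam q = ∑ i, (fun z => ModularForm.discriminant z * (Φ.A z)⁻¹ q i) *
      ⇑(CuspForm.discriminantEquiv (lam i)) := by
    funext z
    rw [Finset.sum_apply, Φ.sLift_apply]
    refine Finset.sum_congr rfl fun i _ => ?_
    rw [Pi.mul_apply, ← ModularForm.discriminant_mul_discriminantEquiv_apply (lam i) z]
    ring
  rw [this]
  refine siso_zero_sum _ _ fun i _ => ?_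
  exact Filter.ZeroAtFilter.mul_boundedAtFilter (hZ q i)
    (ModularFormClass.bdd_at_infty (CuspForm.discriminantEquiv (lam i)))

lemma siso_smul_q0 (γ : SL(2, ℤ)) (hγ : γ ∈ Gamma0 N) : (toSL γ)⁻¹ • q0 N = q0 N := by
  rw [← mkQ_one, ← toSL_inv, smul_mkQ, mul_one, mkQ_eq_iff, inv_inv]
  simpa using hγ

/-- The preimage of `(λ_i)`, as a cusp form on `Γ0(N)`. -/
def Frame.sLiftForm (Φ : Frame N) (hH : Φ.GoodOnH)
    (hZ : ∀ q i : Q N, IsZeroAtImInfty (fun z => ModularForm.discriminant z * (Φ.A z)⁻¹ q i))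
    {l : ℤ} (lam : (i : Q N) → CuspForm 𝒮ℒ (l + Φ.wt i)) : CuspForm (G0 N) l where
  toFun := Φ.sLift lam (q0 N)
  slash_action_eq' γ hγ := by
    obtain ⟨δ, hδ, rfl⟩ := hγ
    show Φ.sLift lam (q0 N) ∣[l] δ = Φ.sLift lam (q0 N)
    rw [Φ.sLift_slash hH lam (q0 N) δ, siso_smul_q0 δ hδ]
  holo' := Φ.sLift_mdiff hH lam (q0 N)
  zero_at_cusps' {c} hc := by
    rw [Subgroup.IsArithmetic.isCusp_iff_isCusp_SL2Z] at hc
    rw [OnePoint.isZeroAt_iff_forall_SL2Z hc]
    intro γ _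
    show IsZeroAtImInfty (Φ.sLift lam (q0 N) ∣[l] γ)
    rw [Φ.sLift_slash hH lam (q0 N) γ]
    exact Φ.sLift_zero hZ lam _

@[simp] lemma Frame.sLiftForm_apply (Φ : Frame N) (hH : Φ.GoodOnH)
    (hZ : ∀ q i : Q N, IsZeroAtImInfty (fun z => ModularForm.discriminant z * (Φ.A z)⁻¹ q i))
    {l : ℤ} (lam : (i : Q N) → CuspForm 𝒮ℒ (l + Φ.wt i)) (z : ℍ) :
    Φ.sLiftForm hH hZ lam z = Φ.sLift lam (q0 N) z := rfl

/-- The conjugates of the preimage are the `sLift`s. -/
lemma Frame.cj_sLiftForm (Φ : Frame N) (hH : Φ.GoodOnH)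
    (hZ : ∀ q i : Q N, IsZeroAtImInfty (fun z => ModularForm.discriminant z * (Φ.A z)⁻¹ q i))
    {l : ℤ} (lam : (i : Q N) → CuspForm 𝒮ℒ (l + Φ.wt i)) (q : Q N) :
    cj (ofCusp (Φ.sLiftForm hH hZ lam)) q = Φ.sLift lam q := by
  obtain ⟨γ, rfl⟩ := mkQ_surjective q
  rw [cj_mkQ]
  have : (⇑(ofCusp (Φ.sLiftForm hH hZ lam)) : ℍ → ℂ) = Φ.sLift lam (q0 N) := rfl
  rw [this, Φ.sLift_slash hH lam (q0 N) γ⁻¹, toSL_inv, inv_inv, ← mkQ_one, smul_mkQ, mul_one]

/-- The linear equivalence `S_l(Γ0(N)) ≃ Π_i S_{l+k_i}(SL2(ℤ))` attached to a good frame. -/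
def Frame.sEquiv (Φ : Frame N) (hH : Φ.GoodOnH)
    (hZ : ∀ q i : Q N, IsZeroAtImInfty (fun z => ModularForm.discriminant z * (Φ.A z)⁻¹ q i))
    (l : ℤ) : CuspForm (G0 N) l ≃ₗ[ℂ] ((i : Q N) → CuspForm 𝒮ℒ (l + Φ.wt i)) where
  toFun g i := Φ.sTrForm g i
  map_add' g h := by
    funext i
    ext z
    have e : ofCusp (g + h) = ofCusp g + ofCusp h := rfl
    simp only [Frame.sTrForm_apply, Pi.add_apply, FunLike.coe_add, Frame.sTr_apply, e, cj_add,
      mul_add, Finset.sum_add_distrib]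
  map_smul' c g := by
    funext i
    ext z
    have e : ofCusp (c • g) = c • ofCusp g := rfl
    simp only [Frame.sTrForm_apply, Pi.smul_apply, FunLike.coe_smul, Frame.sTr_apply, e, cj_smul,
      smul_eq_mul, RingHom.id_apply, Finset.mul_sum]
    refine Finset.sum_congr rfl fun q _ => ?_
    ring
  invFun lam := Φ.sLiftForm hH hZ lam
  left_inv g := by
    ext z
    rw [Frame.sLiftForm_apply, Frame.sLift_apply]
    simp only [Frame.sTrForm_apply, Frame.sTr_apply]
    have h1 : ∑ i, (Φ.A z)⁻¹ (q0 N) i * ∑ q, Φ.A z i q * cj (ofCusp g) q z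
        = ∑ q, ((Φ.A z)⁻¹ * Φ.A z) (q0 N) q * cj (ofCusp g) q z := by
      simp only [Finset.mul_sum, Matrix.mul_apply, Finset.sum_mul]
      rw [Finset.sum_comm]
      refine Finset.sum_congr rfl fun q _ => Finset.sum_congr rfl fun i _ => ?_
      ring
    rw [h1, Matrix.nonsing_inv_mul _ (Φ.isUnit_det hH z)]
    simp [Matrix.one_apply]
  right_inv lam := by
    funext i
    ext z
    rw [Frame.sTrForm_apply, Frame.sTr_apply]
    simp only [Φ.cj_sLiftForm hH hZ lam, Frame.sLift_apply]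
    have h1 : ∑ q, Φ.A z i q * ∑ j, (Φ.A z)⁻¹ q j * lam j z
        = ∑ j, (Φ.A z * (Φ.A z)⁻¹) i j * lam j z := by
      simp only [Finset.mul_sum, Matrix.mul_apply, Finset.sum_mul]
      rw [Finset.sum_comm]
      refine Finset.sum_congr rfl fun q _ => Finset.sum_congr rfl fun i _ => ?_
      ring
    rw [h1, Matrix.mul_nonsing_inv _ (Φ.isUnit_det hH z)]
    simp [Matrix.one_apply]

/-- **S20 package S-ISO.** -/
theorem finrank_S (Φ : Frame N) (hH : Φ.GoodOnH)
    (hZ : ∀ q i : Q N, IsZeroAtImInfty (fun z => ModularForm.discriminant z * (Φ.A z)⁻¹ q i))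
    (l : ℤ) :
    Module.finrank ℂ (CuspForm (G0 N) l) = ∑ i, Module.finrank ℂ (CuspForm 𝒮ℒ (l + Φ.wt i)) := by
  have : ∀ k : ℤ, Module.Finite ℂ (CuspForm 𝒮ℒ k) := fun k =>
    Module.Finite.equiv (CuspForm.discriminantEquiv (k := k)).symm
  rw [(Φ.sEquiv hH hZ l).finrank_eq, Module.finrank_pi_fintype]

end Fermat.Agent.S20

end
end ZBS20_005_4

/-! ### bundled: `Fermat.Agent.S20.MinHAux` -/
section ZBS20_005_5
/-
S20, package MIN-H (helper83), auxiliary lemmas:
identity-theorem consequences on ℍ, conjugates of powers, traces of powers, holomorphy of `det A`.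
-/

set_option autoImplicit false
set_option linter.unusedSectionVars false

open CongruenceSubgroup UpperHalfPlane ModularForm SlashInvariantForm Filter Topology
open scoped MatrixGroups Manifold

namespace Fermat.Agent.S20

variable {N : ℕ} [NeZero N]

/-- The upper half plane (as a subset of `ℂ`) is preconnected. -/
theorem minH_isPreconnected_upperHalfPlaneSet : IsPreconnected {z : ℂ | 0 < z.im} :=
  (convex_halfSpace_im_gt 0).isPreconnected

/-- A holomorphic function on `ℍ` vanishing on `{im z ≥ Y}` vanishes identically. -/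
theorem minH_eq_zero_of_eventually {u : ℍ → ℂ} (hu : MDiff u) {Y : ℝ}
    (h : ∀ z : ℍ, Y ≤ z.im → u z = 0) : u = 0 := by
  have hd : DifferentiableOn ℂ (u ∘ ofComplex) {z : ℂ | 0 < z.im} :=
    UpperHalfPlane.mdifferentiable_iff.mp hu
  have hopen : IsOpen {z : ℂ | 0 < z.im} := isOpen_upperHalfPlaneSet
  have han : AnalyticOnNhd ℂ (u ∘ ofComplex) {z : ℂ | 0 < z.im} := hd.analyticOnNhd hopen
  set Y' : ℝ := max Y 0 + 1 with hY'
  have hY'pos : 0 < Y' := by positivity
  set w0 : ℂ := ⟨0, Y' + 1⟩ with hw0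
  have hw0mem : w0 ∈ {z : ℂ | 0 < z.im} := by
    show 0 < w0.im
    simp only [hw0]; linarith
  have hev : (u ∘ ofComplex) =ᶠ[𝓝 w0] 0 := by
    have hopen2 : IsOpen {z : ℂ | Y' < z.im} := isOpen_lt continuous_const Complex.continuous_im
    have hmem : w0 ∈ {z : ℂ | Y' < z.im} := by
      show Y' < w0.im
      simp only [hw0]; linarith
    filter_upwards [hopen2.mem_nhds hmem] with w hw
    have hw' : Y' < w.im := hw
    have hwpos : 0 < w.im := hY'pos.trans hw'
    simp only [Function.comp_apply, Pi.zero_apply, ofComplex_apply_of_im_pos hwpos]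
    apply h
    show Y ≤ w.im
    have : Y ≤ Y' := (le_max_left Y 0).trans (by linarith)
    linarith
  have key := han.eqOn_zero_of_preconnected_of_eventuallyEq_zero
    minH_isPreconnected_upperHalfPlaneSet hw0mem hev
  funext z
  have := key (show (z : ℂ) ∈ {z : ℂ | 0 < z.im} from z.im_pos)
  simpa using this

/-- Cancellation: if `P` is bounded below near `i∞` and `P * u = 0` with `u` holomorphic,
then `u = 0`. -/
theorem minH_eq_zero_of_mul_eq_zero {P u : ℍ → ℂ} (hu : MDiff u)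
    (hP : ∃ c : ℝ, 0 < c ∧ ∃ Y : ℝ, ∀ z : ℍ, Y ≤ z.im → c ≤ ‖P z‖)
    (h : ∀ z, P z * u z = 0) : u = 0 := by
  obtain ⟨c, hc, Y, hY⟩ := hP
  refine minH_eq_zero_of_eventually hu (Y := Y) fun z hz => ?_
  have hPz : P z ≠ 0 := by
    intro h0
    have := hY z hz
    rw [h0, norm_zero] at this
    linarith
  exact (mul_eq_zero.mp (h z)).resolve_left hPz

/-- Two holomorphic functions on `ℍ`, neither identically zero, have a common non-zero. -/
theorem minH_exists_mul_ne_zero {u v : ℍ → ℂ} (hu : MDiff u) (hv : MDiff v)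
    (hu0 : ∃ z, u z ≠ 0) (hv0 : ∃ z, v z ≠ 0) : ∃ z, u z * v z ≠ 0 := by
  by_contra hcon
  push Not at hcon
  have hopen : IsOpen {z : ℂ | 0 < z.im} := isOpen_upperHalfPlaneSet
  have hau : AnalyticOnNhd ℂ (u ∘ ofComplex) {z : ℂ | 0 < z.im} :=
    (UpperHalfPlane.mdifferentiable_iff.mp hu).analyticOnNhd hopen
  have hav : AnalyticOnNhd ℂ (v ∘ ofComplex) {z : ℂ | 0 < z.im} :=
    (UpperHalfPlane.mdifferentiable_iff.mp hv).analyticOnNhd hopen
  have hmul : ∀ z ∈ {z : ℂ | 0 < z.im}, (u ∘ ofComplex) z * (v ∘ ofComplex) z = 0 := by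
    intro z hz
    have hz' : 0 < z.im := hz
    simpa [Function.comp_apply, ofComplex_apply_of_im_pos hz'] using hcon ⟨z, hz'⟩
  rcases hau.eq_zero_or_eq_zero_of_mul_eq_zero hav hmul minH_isPreconnected_upperHalfPlaneSet
    with h | h
  · obtain ⟨z, hz⟩ := hu0
    apply hz
    have := h (z : ℂ) z.im_pos
    simpa using this
  · obtain ⟨z, hz⟩ := hv0
    apply hz
    have := h (z : ℂ) z.im_pos
    simpa using this

/-- Slash of a power by an element of `SL(2,ℤ)`. -/
theorem minH_pow_slash (k : ℤ) (n : ℕ) (g : ℍ → ℂ) (A : SL(2, ℤ)) :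
    (g ^ n) ∣[(n : ℤ) * k] A = (g ∣[k] A) ^ n := by
  induction n with
  | zero =>
    simp only [pow_zero, Nat.cast_zero, zero_mul]
    exact ModularForm.is_invariant_one A
  | succ n ih =>
    rw [pow_succ, pow_succ, ← ih]
    have : ((n + 1 : ℕ) : ℤ) * k = (n : ℤ) * k + k := by push_cast; ring
    rw [this]
    exact mul_slash_SL2 _ _ A _ _

variable {k : ℤ}

/-- Conjugates of a power. -/
theorem minH_cj_pow (F : ModularForm (G0 N) k) (n : ℕ) (q : Q N) :
    cj (F.pow n) q = (cj F q) ^ n := by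
  obtain ⟨γ, rfl⟩ := mkQ_surjective q
  rw [cj_mkQ, cj_mkQ, ModularForm.coe_pow, minH_pow_slash]

/-- The trace of the `n`-th power is the `n`-th power sum of the conjugates. -/
theorem trace_pow_apply (F : ModularForm (G0 N) k) (n : ℕ) (z : ℍ) :
    ModularForm.trace 𝒮ℒ (F.pow n) z = ∑ q : Q N, (cj F q z) ^ n := by
  rw [trace_apply]
  refine Finset.sum_congr rfl fun q _ => ?_
  rw [minH_cj_pow]
  rfl

/-- The trace of `F^n * G`. -/
theorem trace_pow_mul_apply {k₁ k₂ : ℤ} (F : ModularForm (G0 N) k₁) (G : ModularForm (G0 N) k₂)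
    (n : ℕ) (z : ℍ) :
    ModularForm.trace 𝒮ℒ ((F.pow n).mul G) z = ∑ q : Q N, (cj F q z) ^ n * cj G q z := by
  rw [trace_apply]
  refine Finset.sum_congr rfl fun q _ => ?_
  rw [cj_mul, minH_cj_pow]
  rfl

/-- `det A(z)` is holomorphic in `z`. -/
theorem Frame.det_A_mdiff (Φ : Frame N) : MDiff (fun z => (Φ.A z).det) := by
  rw [UpperHalfPlane.mdifferentiable_iff]
  have hentry : ∀ i q : Q N, DifferentiableOn ℂ (fun w : ℂ => Φ.A (ofComplex w) i q)
      {z : ℂ | 0 < z.im} := by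
    intro i q
    exact UpperHalfPlane.mdifferentiable_iff.mp (cj_mdiff (Φ.f i) q)
  have : (fun z : ℍ => (Φ.A z).det) ∘ ofComplex
      = fun w : ℂ => ∑ σ : Equiv.Perm (Q N), (Equiv.Perm.sign σ : ℤ) •
          ∏ i, Φ.A (ofComplex w) (σ i) i := by
    funext w
    simp only [Function.comp_apply, Matrix.det_apply]
    rfl
  rw [this]
  refine DifferentiableOn.fun_sum fun σ _ => ?_
  refine DifferentiableOn.const_smul ?_ _
  exact DifferentiableOn.fun_finsetProd fun i _ => hentry (σ i) i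

end Fermat.Agent.S20


end ZBS20_005_5

/-! ### bundled: `Fermat.Agent.S20.MinHSplit` -/
section ZBS20_005_6
/-
S20, package MIN-H (helper83): class splitting at a point `z0` with level-one local datum.
If `∑ i, (g i)_q(z0) = 0` for all conjugates `q`, then the same holds for the sub-sum over each
class of weights modulo `L`.
-/

set_option autoImplicit false
set_option linter.unusedSectionVars false

open CongruenceSubgroup UpperHalfPlane ModularForm SlashInvariantForm Filter Topology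
open scoped MatrixGroups Manifold

namespace Fermat.Agent.S20

variable {N : ℕ} [NeZero N]

theorem minH_cj_zero {k : ℤ} (q : Q N) : cj (0 : ModularForm (G0 N) k) q = 0 := by
  obtain ⟨γ, rfl⟩ := mkQ_surjective q
  rw [cj_mkQ]
  exact SlashAction.zero_slash _ _

theorem minH_cj_sum {k : ℤ} {ι : Type*} (s : Finset ι) (F : ι → ModularForm (G0 N) k) (q : Q N) :
    cj (∑ i ∈ s, F i) q = ∑ i ∈ s, cj (F i) q := by
  classical
  induction s using Finset.induction_on with
  | empty => simp [minH_cj_zero]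
  | insert a s ha ih => rw [Finset.sum_insert ha, Finset.sum_insert ha, cj_add, ih]

/-- Level-one forms of weight not divisible by `L` vanish at `z0`. -/
theorem minH_trace_eq_zero (z0 : ℍ) (L : ℤ)
    (ha : ∀ (w : ℤ) (r : ModularForm 𝒮ℒ w), r z0 ≠ 0 → L ∣ w)
    {w : ℤ} (r : ModularForm 𝒮ℒ w) (hw : ¬ L ∣ w) : r z0 = 0 := by
  by_contra h
  exact hw (ha w r h)

/-- **Class splitting.**  Let `z0 ∈ ℍ` be such that level-one forms not vanishing at `z0` have
weight divisible by `L`, and such that for every weight `w ≥ s` divisible by `L` there is a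
level-one form with value `1` at `z0`.  If forms `g i` of weights `w i` on `Γ0(N)` satisfy
`∑ i, (g i)_q (z0) = 0` for all conjugates, then for each class `ρ` mod `L` the partial sum over
`{i | w i ≡ ρ}` vanishes as well. -/
theorem minH_class_split (z0 : ℍ) (L s : ℤ) (hL : 0 < L)
    (ha : ∀ (w : ℤ) (r : ModularForm 𝒮ℒ w), r z0 ≠ 0 → L ∣ w)
    (hb : ∀ w : ℤ, s ≤ w → L ∣ w → ∃ r : ModularForm 𝒮ℒ w, r z0 = 1)
    {ι : Type} [Fintype ι] (w : ι → ℤ) (g : ∀ i, ModularForm (G0 N) (w i))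
    (hsum : ∀ q : Q N, ∑ i, cj (g i) q z0 = 0) (ρ : ℤ) (q : Q N) :
    ∑ i with L ∣ w i - ρ, cj (g i) q z0 = 0 := by
  classical
  -- canonical residues
  set φ : ι → ℤ := fun i => w i % L with hφ
  have hφ0 : ∀ i, 0 ≤ φ i := fun i => Int.emod_nonneg _ hL.ne'
  have hφL : ∀ i, φ i < L := fun i => Int.emod_lt_of_pos _ hL
  have hφdvd : ∀ i, L ∣ φ i - w i := fun i => by
    have := Int.emod_add_mul_ediv (w i) L
    exact ⟨-(w i / L), by simp only [hφ]; linarith⟩
  -- a big multiple of `L`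
  set W : ℤ := L * (∑ i, |w i| + |s|) with hW
  have hWdvd : L ∣ W := ⟨_, rfl⟩
  have hWge : ∀ i, s ≤ W + φ i - w i := by
    intro i
    have h1 : |w i| ≤ ∑ j, |w j| :=
      Finset.single_le_sum (f := fun j => |w j|) (fun j _ => abs_nonneg _) (Finset.mem_univ i)
    have h2 : ∑ j, |w j| + |s| ≤ W := by
      rw [hW]
      have h3 : 0 ≤ ∑ j, |w j| + |s| := by positivity
      nlinarith
    have h4 := le_abs_self (w i)
    have h5 := le_abs_self s
    have := hφ0 i
    linarith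
  have hWdvd' : ∀ i, L ∣ W + φ i - w i := fun i => by
    have : W + φ i - w i = W + (φ i - w i) := by ring
    rw [this]
    exact dvd_add hWdvd (hφdvd i)
  -- homogenising factors
  choose a ha1 using fun i => hb (W + φ i - w i) (hWge i) (hWdvd' i)
  -- homogenised forms
  set G : ∀ i, ModularForm (G0 N) (W + φ i) := fun i =>
    ModularForm.mcast (by ring) ((res N (a i)).mul (g i)) with hG
  have hGcj : ∀ i q z, cj (G i) q z = a i z * cj (g i) q z := by
    intro i q z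
    simp only [hG]
    rw [cj_mcast, cj_mul, cj_res]
    rfl
  -- class forms
  set H : ∀ r : ℤ, ModularForm (G0 N) (W + r) := fun r =>
    ∑ i, if h : φ i = r then ModularForm.mcast (by rw [h]) (G i) else 0 with hH
  have hHcj : ∀ r q z, cj (H r) q z = ∑ i, if φ i = r then a i z * cj (g i) q z else 0 := by
    intro r q z
    simp only [hH]
    rw [minH_cj_sum, Finset.sum_apply]
    refine Finset.sum_congr rfl fun i _ => ?_
    by_cases h : φ i = r
    · rw [dif_pos h, if_pos h, cj_mcast, hGcj]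
    · rw [dif_neg h, if_neg h, minH_cj_zero]
      rfl
  -- the vectors `u r`
  set u : ℤ → Q N → ℂ := fun r q => cj (H r) q z0 with hu
  have hu_eq : ∀ r q, u r q = ∑ i with φ i = r, cj (g i) q z0 := by
    intro r q
    simp only [hu]
    rw [hHcj, Finset.sum_filter]
    refine Finset.sum_congr rfl fun i _ => ?_
    by_cases h : φ i = r
    · rw [if_pos h, if_pos h, ha1, one_mul]
    · rw [if_neg h, if_neg h]
  set R : Finset ℤ := Finset.univ.image φ with hR
  have hsumR : ∀ q, ∑ r ∈ R, u r q = 0 := by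
    intro q
    rw [← hsum q]
    simp_rw [hu_eq]
    exact Finset.sum_fiberwise_of_maps_to (fun i _ => Finset.mem_image_of_mem φ (Finset.mem_univ i)) _
  have hRmem : ∀ r ∈ R, 0 ≤ r ∧ r < L := by
    intro r hr
    obtain ⟨i, -, rfl⟩ := Finset.mem_image.mp hr
    exact ⟨hφ0 i, hφL i⟩
  -- all power sums of `u r` vanish
  have hps : ∀ r ∈ R, ∀ n : ℕ, 1 ≤ n → ∑ q, (u r q) ^ n = 0 := by
    intro r hr n hn
    by_cases hnr : L ∣ (n : ℤ) * r
    · -- use the relation `u r = - ∑_{r' ≠ r} u r'`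
      obtain ⟨m, rfl⟩ : ∃ m, n = m + 1 := ⟨n - 1, by omega⟩
      have hrel : ∀ q, u r q = - ∑ r' ∈ R.erase r, u r' q := by
        intro q
        have := hsumR q
        rw [← Finset.add_sum_erase R _ hr] at this
        linear_combination this
      have hmix : ∀ r' ∈ R.erase r, ∑ q, (u r q) ^ m * u r' q = 0 := by
        intro r' hr'
        have hne : r' ≠ r := (Finset.mem_erase.mp hr').1
        have hr'R := hRmem r' (Finset.mem_erase.mp hr').2
        have hrR := hRmem r hr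
        have htr := trace_pow_mul_apply (H r) (H r') m z0
        rw [← htr]
        apply minH_trace_eq_zero z0 L ha
        intro hdvd
        -- weight is `m * (W + r) + (W + r')`
        have h1 : (m : ℤ) * (W + r) + (W + r') = ((m : ℤ) + 1) * W + (((m + 1 : ℕ) : ℤ) * r) + (r' - r) := by
          push_cast; ring
        rw [h1] at hdvd
        have h2 : L ∣ ((m : ℤ) + 1) * W := Dvd.dvd.mul_left hWdvd _
        have h3 : L ∣ r' - r := by
          have := (Int.dvd_add_right (dvd_add h2 hnr)).mp hdvd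
          exact this
        obtain ⟨t, ht⟩ := h3
        have : t = 0 := by
          by_contra ht0
          have : 1 ≤ |t| := Int.one_le_abs ht0
          have habs : |r' - r| = L * |t| := by rw [ht, abs_mul, abs_of_pos hL]
          have hlt : |r' - r| < L := by
            rw [abs_lt]; constructor <;> linarith [hr'R.1, hr'R.2, hrR.1, hrR.2]
          nlinarith
        apply hne
        rw [this, mul_zero] at ht
        linarith
      calc ∑ q, (u r q) ^ (m + 1) = ∑ q, (u r q) ^ m * (- ∑ r' ∈ R.erase r, u r' q) := by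
            refine Finset.sum_congr rfl fun q _ => ?_
            rw [pow_succ, ← hrel q]
        _ = - ∑ r' ∈ R.erase r, ∑ q, (u r q) ^ m * u r' q := by
            simp_rw [mul_neg, Finset.mul_sum, Finset.sum_neg_distrib]
            rw [Finset.sum_comm]
        _ = 0 := by rw [Finset.sum_eq_zero hmix, neg_zero]
    · have htr := trace_pow_apply (H r) n z0
      rw [← htr]
      apply minH_trace_eq_zero z0 L ha
      intro hdvd
      apply hnr
      have h1 : (n : ℤ) * (W + r) = (n : ℤ) * W + (n : ℤ) * r := by ring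
      rw [h1] at hdvd
      exact (Int.dvd_add_right (Dvd.dvd.mul_left hWdvd _)).mp hdvd
  have hu0 : ∀ r, u r = 0 := by
    intro r
    by_cases hr : r ∈ R
    · exact eq_zero_of_forall_psum_eq_zero (u r) (hps r hr)
    · funext q
      rw [hu_eq]
      apply Finset.sum_eq_zero
      intro i hi
      exact absurd (Finset.mem_image.mpr ⟨i, Finset.mem_univ i, (Finset.mem_filter.mp hi).2⟩) hr
  -- conclusion
  have hfinal : ∑ i with L ∣ w i - ρ, cj (g i) q z0 = u (ρ % L) q := by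
    rw [hu_eq]
    refine Finset.sum_congr ?_ fun _ _ => rfl
    ext i
    simp only [Finset.mem_filter, Finset.mem_univ, true_and, hφ]
    rw [dvd_sub_comm]
    exact (Int.modEq_iff_dvd (n := L) (a := w i) (b := ρ)).symm
  rw [hfinal, hu0]
  rfl

end Fermat.Agent.S20


end ZBS20_005_6

/-! ### bundled: `Fermat.Agent.S20.MinHDiv` -/
section ZBS20_005_7
/-
S20, package MIN-H (helper83): transfer of vanishing along the zero set of `P`, and division by `P`.
-/

set_option autoImplicit false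
set_option linter.unusedSectionVars false

open CongruenceSubgroup UpperHalfPlane ModularForm SlashInvariantForm Filter Topology
open scoped MatrixGroups Manifold

namespace Fermat.Agent.S20

variable {N : ℕ} [NeZero N] {K : ℤ}

/-- If all conjugates of `h` vanish at `z0`, and level-one forms vanishing at `z0` vanish at `z1`,
then all conjugates of `h` vanish at `z1`. -/
theorem minH_transfer (h : ModularForm (G0 N) K) (z0 z1 : ℍ)
    (hd : ∀ (w : ℤ) (r : ModularForm 𝒮ℒ w), r z0 = 0 → r z1 = 0)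
    (h0 : ∀ q, cj h q z0 = 0) (q : Q N) : cj h q z1 = 0 := by
  have key : (fun q => cj h q z1) = 0 := by
    apply eq_zero_of_forall_psum_eq_zero
    intro n hn
    rw [← trace_pow_apply h n z1]
    apply hd
    rw [trace_pow_apply]
    refine Finset.sum_eq_zero fun q _ => ?_
    rw [h0 q, zero_pow (by omega)]
  exact congrFun key q

/-- **Division.** If `h ∈ M_K(Γ0(N))` vanishes on the zero set of the level-one form `P` (weight `d`),
`P` is bounded below near `i∞` and has the division property, then `h = P · h'` with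
`h' ∈ M_{K-d}(Γ0(N))`. -/
theorem minH_exists_div (h : ModularForm (G0 N) K) {d : ℤ} (P : ModularForm 𝒮ℒ d)
    (hPinf : ∃ c : ℝ, 0 < c ∧ ∃ Y : ℝ, ∀ z : ℍ, Y ≤ z.im → c ≤ ‖P z‖)
    (hdiv : ∀ f : ℍ → ℂ, MDiff f → (∀ z, P z = 0 → f z = 0) →
      ∃ g : ℍ → ℂ, MDiff g ∧ ∀ z, f z = P z * g z)
    (hz : ∀ z, P z = 0 → h z = 0) :
    ∃ h' : ModularForm (G0 N) (K - d), ∀ z, h z = P z * h' z := by
  obtain ⟨g, hg, hgeq⟩ := hdiv h h.holo' hz
  have hfun : (⇑h : ℍ → ℂ) = ⇑P * g := funext hgeq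
  -- slash behaviour of `g`
  have hslash : ∀ γ : SL(2, ℤ), (⇑h) ∣[K] γ = ⇑P * (g ∣[K - d] γ) := by
    intro γ
    have h1 : (⇑P * g) ∣[d + (K - d)] γ = (⇑P) ∣[d] γ * g ∣[K - d] γ := mul_slash_SL2 _ _ γ _ _
    have h2 : (⇑P) ∣[d] γ = ⇑P := SlashInvariantForm.slash_action_eqn P _ ⟨γ, rfl⟩
    have h3 : d + (K - d) = K := by ring
    rw [h3, ← hfun, h2] at h1
    exact h1
  have hgslash_mdiff : ∀ γ : SL(2, ℤ), MDiff (g ∣[K - d] γ) := by
    intro γ
    rw [SL_slash]
    exact hg.slash _ _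
  refine ⟨{ toFun := g
            slash_action_eq' := ?_
            holo' := hg
            bdd_at_cusps' := ?_ }, fun z => hgeq z⟩
  · rintro _ ⟨γ, hγ, rfl⟩
    have h1 := hslash γ
    have h2 : (⇑h) ∣[K] γ = ⇑h :=
      SlashInvariantForm.slash_action_eqn h _ ⟨γ, hγ, rfl⟩
    rw [h2, hfun] at h1
    have h3 : g ∣[K - d] γ - g = 0 := by
      apply minH_eq_zero_of_mul_eq_zero ((hgslash_mdiff γ).sub hg) hPinf
      intro z
      have := congrFun h1 z
      simp only [Pi.mul_apply, Pi.sub_apply] at this ⊢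
      rw [mul_sub, ← this, sub_self]
    exact sub_eq_zero.mp h3
  · intro c hc
    rw [Subgroup.IsArithmetic.isCusp_iff_isCusp_SL2Z] at hc
    rw [OnePoint.isBoundedAt_iff_forall_SL2Z hc]
    intro γ _
    have hb : IsBoundedAtImInfty ((⇑h) ∣[K] γ) := ModularFormClass.bdd_at_infty_slash h γ
    rw [hslash γ] at hb
    obtain ⟨c, hcpos, Y, hY⟩ := hPinf
    rw [isBoundedAtImInfty_iff] at hb ⊢
    obtain ⟨M, A, hMA⟩ := hb
    refine ⟨M / c, max A Y, fun z hz => ?_⟩
    have h1 := hMA z ((le_max_left _ _).trans hz)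
    have h2 := hY z ((le_max_right _ _).trans hz)
    simp only [Pi.mul_apply, norm_mul] at h1
    rw [le_div_iff₀ hcpos]
    calc ‖(g ∣[K - d] γ) z‖ * c ≤ ‖(g ∣[K - d] γ) z‖ * ‖P z‖ :=
          mul_le_mul_of_nonneg_left h2 (norm_nonneg _)
      _ = ‖P z‖ * ‖(g ∣[K - d] γ) z‖ := mul_comm _ _
      _ ≤ M := h1

end Fermat.Agent.S20


end ZBS20_005_7

/-! ### bundled: `Fermat.Agent.S20.MinH` -/
section ZBS20_005_8
/-
S20, package MIN-H (helper83): a nondegenerate frame which is not good on ℍ can be improved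
(strictly smaller total weight), given the level-one local datum (package C) at every point.
-/

set_option autoImplicit false
set_option linter.unusedSectionVars false

open CongruenceSubgroup UpperHalfPlane ModularForm SlashInvariantForm Filter Topology
open scoped MatrixGroups Manifold

namespace Fermat.Agent.S20

variable {N : ℕ} [NeZero N]

/-- The statement of package C (`levelOne_local`) at a point `z0`. -/
def LevelOneLocalAt (z0 : ℍ) : Prop :=
  ∃ (L d s : ℤ) (P : ModularForm 𝒮ℒ d), 0 < L ∧ 0 ≤ s ∧ s < d ∧ L ∣ s ∧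
      (∀ (w : ℤ) (r : ModularForm 𝒮ℒ w), r z0 ≠ 0 → L ∣ w) ∧
      (∀ w : ℤ, s ≤ w → L ∣ w → ∃ r : ModularForm 𝒮ℒ w, r z0 = 1) ∧
      P z0 = 0 ∧ (∀ z : ℍ, P z = 0 → ∀ (w : ℤ) (r : ModularForm 𝒮ℒ w), r z0 = 0 → r z = 0) ∧
      (∃ c : ℝ, 0 < c ∧ ∃ Y : ℝ, ∀ z : ℍ, Y ≤ z.im → c ≤ ‖P z‖) ∧
      (∀ h : ℍ → ℂ, MDiff h → (∀ z, P z = 0 → h z = 0) →
        ∃ g : ℍ → ℂ, MDiff g ∧ ∀ z, h z = P z * g z)

/-- Replace the `i0`-th member of a frame. -/
noncomputable def Frame.replace (Φ : Frame N) (i0 : Q N) {k : ℤ} (h : ModularForm (G0 N) k) :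
    Frame N where
  wt := Function.update Φ.wt i0 k
  f := fun i =>
    if hi : i = i0 then ModularForm.mcast (by rw [hi, Function.update_self]) h
    else ModularForm.mcast (by rw [Function.update_of_ne hi]) (Φ.f i)

theorem Frame.replace_A (Φ : Frame N) (i0 : Q N) {k : ℤ} (h : ModularForm (G0 N) k) (z : ℍ) :
    (Φ.replace i0 h).A z = (Φ.A z).updateRow i0 (fun q => cj h q z) := by
  ext i q
  by_cases hi : i = i0
  · rw [hi, Matrix.updateRow_self]
    show cj ((Φ.replace i0 h).f i0) q z = cj h q z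
    simp only [Frame.replace]
    rw [dif_pos trivial, cj_mcast]
  · rw [Matrix.updateRow_ne hi]
    show cj ((Φ.replace i0 h).f i) q z = cj (Φ.f i) q z
    simp only [Frame.replace]
    rw [dif_neg hi, cj_mcast]

theorem Frame.replace_totalWt (Φ : Frame N) (i0 : Q N) {k : ℤ} (h : ModularForm (G0 N) k) :
    (Φ.replace i0 h).totalWt = Φ.totalWt - Φ.wt i0 + k := by
  classical
  simp only [Frame.totalWt, Frame.replace]
  rw [Finset.sum_update_of_mem (Finset.mem_univ i0)]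
  have := Finset.add_sum_erase Finset.univ Φ.wt (Finset.mem_univ i0)
  have h2 : ∑ x ∈ Finset.univ \ {i0}, Φ.wt x = ∑ x ∈ Finset.univ.erase i0, Φ.wt x := by
    rw [Finset.sdiff_singleton_eq_erase]
  rw [h2]
  linarith

/-- **MIN-H.** A nondegenerate frame which is not good on `ℍ` can be replaced by a nondegenerate
frame of strictly smaller total weight (given the level-one local datum at every point). -/
theorem minH_of_local (hC : ∀ z0 : ℍ, LevelOneLocalAt z0) (Φ : Frame N) (hΦ : Φ.Nondeg)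
    (hbad : ¬ Φ.GoodOnH) : ∃ Φ' : Frame N, Φ'.Nondeg ∧ Φ'.totalWt < Φ.totalWt := by
  classical
  -- the bad point and a left kernel vector
  obtain ⟨z0, hz0⟩ : ∃ z0, (Φ.A z0).det = 0 := by
    by_contra hcon
    exact hbad fun z hz => hcon ⟨z, hz⟩
  obtain ⟨c, hc0, hcA⟩ := Matrix.exists_vecMul_eq_zero_iff.mpr hz0
  have hcA' : ∀ q, ∑ i, c i * Φ.A z0 i q = 0 := by
    intro q
    have := congrFun hcA q
    simpa [Matrix.vecMul, dotProduct] using this
  obtain ⟨L, d, s, P, hL, hs0, hsd, hLs, ha, hb, hPz0, htr, hPinf, hdiv⟩ := hC z0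
  -- splitting into classes
  have hsplit : ∀ (ρ : ℤ) (q : Q N), ∑ i with L ∣ Φ.wt i - ρ, c i * Φ.A z0 i q = 0 := by
    intro ρ q
    have := minH_class_split (N := N) z0 L s hL ha hb Φ.wt (fun i => c i • Φ.f i)
      (fun q => by
        rw [← hcA' q]
        refine Finset.sum_congr rfl fun i _ => ?_
        rw [cj_smul]; rfl) ρ q
    rw [← this]
    refine Finset.sum_congr rfl fun i _ => ?_
    rw [cj_smul]; rfl
  -- choice of `i0`
  obtain ⟨i1, hi1⟩ : ∃ i, c i ≠ 0 := by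
    by_contra hcon
    exact hc0 (funext fun i => by_contra fun h => hcon ⟨i, h⟩)
  set S : Finset (Q N) := Finset.univ.filter (fun i => c i ≠ 0 ∧ L ∣ Φ.wt i - Φ.wt i1) with hS
  have hSne : S.Nonempty := ⟨i1, by simp [hS, hi1]⟩
  obtain ⟨i0, hi0S, hi0max⟩ := S.exists_max_image Φ.wt hSne
  have hi0 : c i0 ≠ 0 ∧ L ∣ Φ.wt i0 - Φ.wt i1 := by simpa [hS] using hi0S
  have hclass : ∀ i, (c i ≠ 0 ∧ L ∣ Φ.wt i - Φ.wt i0) → i ∈ S := by
    intro i hi
    simp only [hS, Finset.mem_filter, Finset.mem_univ, true_and]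
    refine ⟨hi.1, ?_⟩
    have : Φ.wt i - Φ.wt i1 = (Φ.wt i - Φ.wt i0) + (Φ.wt i0 - Φ.wt i1) := by ring
    rw [this]
    exact dvd_add hi.2 hi0.2
  set K : ℤ := Φ.wt i0 + s with hK
  -- homogenising factors
  have hex : ∀ i, (c i ≠ 0 ∧ L ∣ Φ.wt i - Φ.wt i0) →
      ∃ r : ModularForm 𝒮ℒ (K - Φ.wt i), r z0 = 1 := by
    intro i hi
    apply hb
    · have := hi0max i (hclass i hi)
      simp only [hK]; linarith
    · have : K - Φ.wt i = s - (Φ.wt i - Φ.wt i0) := by simp only [hK]; ring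
      rw [this]
      exact dvd_sub hLs hi.2
  choose a ha1 using hex
  set T : Q N → ModularForm (G0 N) K := fun i =>
    if hi : c i ≠ 0 ∧ L ∣ Φ.wt i - Φ.wt i0 then
      ModularForm.mcast (by ring) ((res N (a i hi)).mul (Φ.f i))
    else 0 with hT
  set α : Q N → ℍ → ℂ := fun i =>
    if hi : c i ≠ 0 ∧ L ∣ Φ.wt i - Φ.wt i0 then ⇑(a i hi) else 0 with hα
  have hTcj : ∀ i q z, cj (T i) q z = α i z * Φ.A z i q := by
    intro i q z
    by_cases hi : c i ≠ 0 ∧ L ∣ Φ.wt i - Φ.wt i0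
    · simp only [hT, hα, dif_pos hi]
      rw [cj_mcast, cj_mul, cj_res]
      rfl
    · simp only [hT, hα, dif_neg hi]
      rw [minH_cj_zero]
      simp
  have hα0 : ∀ i, (c i ≠ 0 ∧ L ∣ Φ.wt i - Φ.wt i0) → α i z0 = 1 := by
    intro i hi
    simp only [hα, dif_pos hi]
    exact ha1 i hi
  have hαnot : ∀ i, ¬ (c i ≠ 0 ∧ L ∣ Φ.wt i - Φ.wt i0) → α i = 0 := by
    intro i hi
    simp only [hα, dif_neg hi]
  have hαmdiff : ∀ i, MDiff (α i) := by
    intro i
    by_cases hi : c i ≠ 0 ∧ L ∣ Φ.wt i - Φ.wt i0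
    · simp only [hα, dif_pos hi]
      exact (a i hi).holo'
    · rw [hαnot i hi]
      exact mdifferentiable_const
  -- the form `h`
  set h : ModularForm (G0 N) K := ∑ i, c i • T i with hh
  have hcj : ∀ q z, cj h q z = ∑ i, (c i * α i z) * Φ.A z i q := by
    intro q z
    simp only [hh]
    rw [minH_cj_sum, Finset.sum_apply]
    refine Finset.sum_congr rfl fun i _ => ?_
    rw [cj_smul, Pi.smul_apply, hTcj, smul_eq_mul, mul_assoc]
  have hcj0 : ∀ q, cj h q z0 = 0 := by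
    intro q
    rw [hcj, ← hsplit (Φ.wt i0) q, Finset.sum_filter]
    refine Finset.sum_congr rfl fun i _ => ?_
    by_cases hi : c i ≠ 0 ∧ L ∣ Φ.wt i - Φ.wt i0
    · rw [hα0 i hi, mul_one, if_pos hi.2]
    · rw [hαnot i hi]
      by_cases hi2 : L ∣ Φ.wt i - Φ.wt i0
      · have hci : c i = 0 := by
          by_contra hne
          exact hi ⟨hne, hi2⟩
        rw [if_pos hi2, hci]; simp
      · rw [if_neg hi2]; simp
  -- vanishing on the zero set of `P` and division
  have hvan : ∀ z, P z = 0 → h z = 0 := by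
    intro z hz
    have := minH_transfer h z0 z (htr z hz) hcj0 (q0 N)
    rwa [cj_q0] at this
  obtain ⟨h', hh'⟩ := minH_exists_div h P hPinf hdiv hvan
  have hh'cj : ∀ q z, cj h q z = P z * cj h' q z := by
    intro q z
    have heq : h = ModularForm.mcast (by ring) ((res N P).mul h') := by
      ext w
      rw [hh' w]
      rfl
    rw [heq, cj_mcast, cj_mul, cj_res]
    rfl
  -- the new frame
  refine ⟨Φ.replace i0 h', ?_, ?_⟩
  · -- nondegeneracy
    obtain ⟨z, hz⟩ := minH_exists_mul_ne_zero (hαmdiff i0) Φ.det_A_mdiff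
      ⟨z0, by rw [hα0 i0 ⟨hi0.1, by simp⟩]; exact one_ne_zero⟩ hΦ
    refine ⟨z, ?_⟩
    rw [Frame.replace_A]
    intro hdet
    have h1 : ((Φ.A z).updateRow i0 (P z • fun q => cj h' q z)).det = 0 := by
      rw [Matrix.det_updateRow_smul, hdet, mul_zero]
    have h2 : (P z • fun q => cj h' q z) = ∑ i, (c i * α i z) • Φ.A z i := by
      funext q
      simp only [Pi.smul_apply, smul_eq_mul, Finset.sum_apply]
      rw [← hh'cj, hcj]
    rw [h2, Matrix.det_updateRow_sum] at h1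
    apply hz
    have h3 : c i0 * α i0 z * (Φ.A z).det = 0 := by simpa [smul_eq_mul] using h1
    rcases mul_eq_zero.mp h3 with h4 | h4
    · rcases mul_eq_zero.mp h4 with h5 | h5
      · exact absurd h5 hi0.1
      · rw [h5, zero_mul]
    · rw [h4, mul_zero]
  · -- total weight drops
    rw [Frame.replace_totalWt]
    simp only [hK]
    linarith

end Fermat.Agent.S20


end ZBS20_005_8

/-! ### bundled: `Fermat.Agent.S20.Replace` -/
section ZBS20_005_9
/-
S20 (helper83): the SHARED replacement lemma used by MIN-H and MIN-∞.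
Replacing the member `i0` of a nondegenerate frame by a form `h'` of smaller weight with
`P · h'_q = ∑ i, u_i · f_{i,q}` (`u_{i0} ≢ 0`) gives a nondegenerate frame of smaller total weight.
-/

set_option autoImplicit false
set_option linter.unusedSectionVars false

open CongruenceSubgroup UpperHalfPlane ModularForm SlashInvariantForm Filter Topology
open scoped MatrixGroups Manifold

namespace Fermat.Agent.S20

variable {N : ℕ} [NeZero N]

/-- General replacement lemma (functions `u i`, identity for all conjugates). -/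
theorem Frame.replace_nondeg_of_cj_eq (Φ : Frame N) (hΦ : Φ.Nondeg) (i0 : Q N) {w : ℤ}
    (h' : ModularForm (G0 N) w) (hw : w < Φ.wt i0)
    (P : ℍ → ℂ) (u : Q N → ℍ → ℂ) (hu : MDiff (u i0)) (hu0 : ∃ z, u i0 z ≠ 0)
    (heq : ∀ q z, P z * cj h' q z = ∑ i, u i z * Φ.A z i q) :
    ∃ Φ' : Frame N, Φ'.Nondeg ∧ Φ'.totalWt < Φ.totalWt := by
  classical
  refine ⟨Φ.replace i0 h', ?_, ?_⟩
  · obtain ⟨z, hz⟩ := minH_exists_mul_ne_zero hu Φ.det_A_mdiff hu0 hΦ
    refine ⟨z, ?_⟩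
    rw [Frame.replace_A]
    intro hdet
    have h1 : ((Φ.A z).updateRow i0 (P z • fun q => cj h' q z)).det = 0 := by
      rw [Matrix.det_updateRow_smul, hdet, mul_zero]
    have h2 : (P z • fun q => cj h' q z) = ∑ i, (u i z) • Φ.A z i := by
      funext q
      simp only [Pi.smul_apply, smul_eq_mul, Finset.sum_apply]
      rw [heq]
    rw [h2, Matrix.det_updateRow_sum] at h1
    apply hz
    simpa [smul_eq_mul] using h1
  · rw [Frame.replace_totalWt]
    linarith

/-- Replacement lemma in the form requested for MIN-∞: level-one coefficients `a i`, a level-one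
form `P` of weight `d`, and the identity `P · h' = ∑ i, c_i · a_i · f_i` as functions on `ℍ`. -/
theorem Frame.replace_nondeg_levelOne (Φ : Frame N) (hΦ : Φ.Nondeg) (i0 : Q N) {K d : ℤ}
    (c : Q N → ℂ) (a : ∀ i, ModularForm 𝒮ℒ (K - Φ.wt i)) (P : ModularForm 𝒮ℒ d)
    (h' : ModularForm (G0 N) (K - d))
    (heq : ∀ z, P z * h' z = ∑ i, c i * a i z * Φ.f i z)
    (hc : c i0 ≠ 0) (ha : ∃ z, a i0 z ≠ 0) (hlt : K - d < Φ.wt i0) :
    ∃ Φ' : Frame N, Φ'.Nondeg ∧ Φ'.totalWt < Φ.totalWt := by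
  classical
  -- the identity as an identity of modular forms of weight `K`
  have hform : ModularForm.mcast (show d + (K - d) = K by ring) ((res N P).mul h')
      = ∑ i, c i • ModularForm.mcast (show (K - Φ.wt i) + Φ.wt i = K by ring)
          ((res N (a i)).mul (Φ.f i)) := by
    ext z
    have h1 : (ModularForm.mcast (show d + (K - d) = K by ring) ((res N P).mul h')) z
        = P z * h' z := rfl
    rw [h1, heq z]
    have h2 : ∀ (s : Finset (Q N)),
        (∑ i ∈ s, c i • ModularForm.mcast (show (K - Φ.wt i) + Φ.wt i = K by ring)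
          ((res N (a i)).mul (Φ.f i)) : ModularForm (G0 N) K) z
        = ∑ i ∈ s, c i * a i z * Φ.f i z := by
      intro s
      induction s using Finset.induction_on with
      | empty => simp
      | insert j s hj ih =>
        rw [Finset.sum_insert hj, Finset.sum_insert hj, add_apply, ih]
        congr 1
        show c j * (a j z * Φ.f j z) = c j * a j z * Φ.f j z
        ring
    rw [h2]
  refine Φ.replace_nondeg_of_cj_eq hΦ i0 h' hlt (⇑P) (fun i z => c i * a i z)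
    (mdifferentiable_const.mul (a i0).holo') ?_ ?_
  · obtain ⟨z, hz⟩ := ha
    exact ⟨z, mul_ne_zero hc hz⟩
  · intro q z
    have h3 : cj (ModularForm.mcast (show d + (K - d) = K by ring) ((res N P).mul h')) q z
        = cj (∑ i, c i • ModularForm.mcast (show (K - Φ.wt i) + Φ.wt i = K by ring)
          ((res N (a i)).mul (Φ.f i))) q z := by rw [hform]
    rw [cj_mcast, cj_mul, cj_res, minH_cj_sum, Finset.sum_apply] at h3
    rw [show P z * cj h' q z = (⇑P * cj h' q) z from rfl, h3]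
    refine Finset.sum_congr rfl fun i _ => ?_
    rw [cj_smul, Pi.smul_apply, cj_mcast, cj_mul, cj_res, smul_eq_mul]
    show c i * (a i z * cj (Φ.f i) q z) = c i * a i z * cj (Φ.f i) q z
    rw [mul_assoc]

end Fermat.Agent.S20


end ZBS20_005_9
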