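/- GENERATED FILE (helper35, build-time optimisation, NOTES/ZB.md): verbatim concatenation of the modules
   Fermat.Agent.S22.Decomp
   Fermat.Agent.ES.HeckeHom
   Fermat.Agent.ES.HeckeComm
   Do not edit; do not import together with these modules. -/
import Mathlib
import Fermat.Prelude.Def_ModularForm_HeckeOperator
import Fermat.Agent.ZB.S23_003
import Fermat.Prelude.Def_ModularCurve_PeriodMap

/-! ### bundled: `Fermat.Agent.S22.Decomp` -/
section ZBS22_002_0

/-!
# S22, piece P6 (decomposition): Hermite normal form for `2 × 2` integral matrices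

* `Fermat.Agent.S22.exists_SL2_mul_upper`: an integral matrix of positive determinant is
  `SL₂(ℤ) · (upper triangular with positive diagonal)`.
* `Fermat.Agent.S22.upper_mul_SL2_eq`: the same in `GL (Fin 2) ℝ`, in the form used for Hecke
  operators: `u * δ = δ' * u'`.
-/

set_option autoImplicit false

namespace Fermat.Agent.S22

open scoped MatrixGroups

/-- Hermite normal form: integral matrix of positive determinant = SL₂(ℤ) · upper triangular. -/
theorem exists_SL2_mul_upper (A : Matrix (Fin 2) (Fin 2) ℤ) (hA : 0 < A.det) :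
    ∃ (δ : SL(2, ℤ)) (a b d : ℤ), 0 < a ∧ 0 < d ∧
      A = (δ : Matrix (Fin 2) (Fin 2) ℤ) * !![a, b; 0, d] := by
  rw [Matrix.det_fin_two] at hA
  set a0 := A 0 0 with ha0
  set b0 := A 0 1 with hb0
  set c0 := A 1 0 with hc0
  set d0 := A 1 1 with hd0
  have hg0 : (Int.gcd a0 c0 : ℤ) ≠ 0 := by
    intro h
    have h' : Int.gcd a0 c0 = 0 := by exact_mod_cast h
    rw [Int.gcd_eq_zero_iff] at h'
    rw [h'.1, h'.2] at hA
    simp at hA
  have hgpos : 0 < (Int.gcd a0 c0 : ℤ) := lt_of_le_of_ne (by positivity) (Ne.symm hg0)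
  obtain ⟨a', ha'⟩ : (Int.gcd a0 c0 : ℤ) ∣ a0 := Int.gcd_dvd_left a0 c0
  obtain ⟨c', hc'⟩ : (Int.gcd a0 c0 : ℤ) ∣ c0 := Int.gcd_dvd_right a0 c0
  have hbez := Int.gcd_eq_gcd_ab a0 c0
  set g : ℤ := (Int.gcd a0 c0 : ℤ) with hg
  set x := Int.gcdA a0 c0 with hx
  set y := Int.gcdB a0 c0 with hy
  have h1 : a' * x + c' * y = 1 := by
    have : g * (a' * x + c' * y) = g * 1 := by
      rw [mul_one]
      calc g * (a' * x + c' * y) = (g * a') * x + (g * c') * y := by ring
        _ = a0 * x + c0 * y := by rw [← ha', ← hc']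
        _ = g := hbez.symm
    exact mul_left_cancel₀ hg0 this
  have hdet : (!![a', -y; c', x] : Matrix (Fin 2) (Fin 2) ℤ).det = 1 := by
    rw [Matrix.det_fin_two_of]
    linarith
  refine ⟨⟨!![a', -y; c', x], hdet⟩, g, x * b0 + y * d0, a' * d0 - c' * b0, hgpos, ?_, ?_⟩
  · have : 0 < g * (a' * d0 - c' * b0) := by
      have : g * (a' * d0 - c' * b0) = a0 * d0 - b0 * c0 := by
        rw [ha', hc']; ring
      rw [this]; exact hA
    exact (pos_iff_pos_of_mul_pos this).1 hgpos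
  · ext i j
    fin_cases i <;> fin_cases j
    · simp [Matrix.mul_apply, Fin.sum_univ_two, ← ha0]
      rw [ha']; ring
    · simp [Matrix.mul_apply, Fin.sum_univ_two, ← hb0]
      linear_combination (-b0) * h1
    · simp [Matrix.mul_apply, Fin.sum_univ_two, ← hc0]
      rw [hc']; ring
    · simp [Matrix.mul_apply, Fin.sum_univ_two, ← hd0]
      linear_combination (-d0) * h1

/-- the same in `GL (Fin 2) ℝ`, in the form used for Hecke operators. -/
theorem upper_mul_SL2_eq (a b d : ℤ) (ha : 0 < a) (hd : 0 < d) (δ : SL(2, ℤ)) :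
    ∃ (δ' : SL(2, ℤ)) (a' b' d' : ℤ) (ha' : 0 < a') (hd' : 0 < d'),
      ModularForm.upperTriangularGL a b d (by positivity) * (δ : GL (Fin 2) ℝ) =
        (δ' : GL (Fin 2) ℝ) * ModularForm.upperTriangularGL a' b' d' (by positivity) := by
  have hdet : 0 < ((!![a, b; 0, d] : Matrix (Fin 2) (Fin 2) ℤ) *
      (δ : Matrix (Fin 2) (Fin 2) ℤ)).det := by
    rw [Matrix.det_mul, Matrix.det_fin_two_of, δ.det_coe]
    simp only [mul_zero, sub_zero, mul_one]
    exact mul_pos ha hd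
  obtain ⟨δ', a', b', d', ha', hd', h⟩ := exists_SL2_mul_upper _ hdet
  refine ⟨δ', a', b', d', ha', hd', ?_⟩
  apply Matrix.GeneralLinearGroup.ext
  intro i j
  have h2 := congrArg (fun M : Matrix (Fin 2) (Fin 2) ℤ => ((M i j : ℤ) : ℝ)) h
  simp only [Matrix.mul_apply, Fin.sum_univ_two] at h2
  simp only [Matrix.GeneralLinearGroup.coe_mul, ModularForm.val_upperTriangularGL,
    Matrix.mul_apply, Fin.sum_univ_two]
  fin_cases i <;> fin_cases j <;> simpa using h2

end Fermat.Agent.S22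


end ZBS22_002_0

/-! ### bundled: `Fermat.Agent.ES.HeckeHom` -/
section ZBS22_002_1

/-!
# ESpkg-G1 piece A4, part 1: the Hecke operator `T_n` on `Hom(Γ₀(M), A)`

For `n ≥ 1` coprime to `M`, `HeckeRep n` is the set of matrices `[[a, b], [0, d]]`, `a d = n`,
`0 ≤ b < d`: a full set of representatives of `Γ₀(M) \ Δ_n`.  For `γ ∈ Γ₀(M)` and a representative
`A` there are unique `A' = next A γ` and `γ' = coc A γ ∈ Γ₀(M)` with `A γ = γ' A'`, and

  `(heckeHom n φ)(γ) = ∑_A φ (coc A γ)`.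

* `heckeHom hnM : (Additive (Gamma0 M) →+ B) →+ (Additive (Gamma0 M) →+ B)`
* `heckeHom_comp` (naturality in `B`), `heckeHom_isParabolicHom` (parabolic homs are preserved).
-/

set_option autoImplicit false

noncomputable section

open Matrix CongruenceSubgroup
open scoped MatrixGroups

namespace Fermat.Agent.ES

/-- Representatives `[[a, b], [0, d]]`, `a d = n`, `0 ≤ b < d`. -/
@[ext] structure HeckeRep (n : ℕ) where
  a : ℕ
  b : ℕ
  d : ℕ
  had : a * d = n
  hb : b < d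

namespace HeckeRep

variable {n : ℕ}

/-- The integer matrix of a representative. -/
def mat (A : HeckeRep n) : Matrix (Fin 2) (Fin 2) ℤ := !![(A.a : ℤ), (A.b : ℤ); 0, (A.d : ℤ)]

@[simp] theorem mat_zero_zero (A : HeckeRep n) : A.mat 0 0 = (A.a : ℤ) := rfl
@[simp] theorem mat_zero_one (A : HeckeRep n) : A.mat 0 1 = (A.b : ℤ) := rfl
@[simp] theorem mat_one_zero (A : HeckeRep n) : A.mat 1 0 = 0 := rfl
@[simp] theorem mat_one_one (A : HeckeRep n) : A.mat 1 1 = (A.d : ℤ) := rfl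

theorem d_pos (A : HeckeRep n) : 0 < A.d := by
  have := A.hb; omega

theorem a_pos [NeZero n] (A : HeckeRep n) : 0 < A.a := by
  rcases Nat.eq_zero_or_pos A.a with h | h
  · have := A.had
    rw [h, zero_mul] at this
    exact absurd this.symm (NeZero.ne n)
  · exact h

theorem det_mat (A : HeckeRep n) : A.mat.det = (n : ℤ) := by
  have h := A.had
  rw [mat, Matrix.det_fin_two_of]
  have : ((A.a * A.d : ℕ) : ℤ) = (n : ℤ) := by rw [h]
  push_cast at this
  linarith

theorem a_le [NeZero n] (A : HeckeRep n) : A.a ≤ n := by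
  have := A.had
  have hd := A.d_pos
  calc A.a = A.a * 1 := (mul_one _).symm
    _ ≤ A.a * A.d := Nat.mul_le_mul_left _ hd
    _ = n := this

theorem d_le [NeZero n] (A : HeckeRep n) : A.d ≤ n := by
  have := A.had
  have ha := A.a_pos
  calc A.d = 1 * A.d := (one_mul _).symm
    _ ≤ A.a * A.d := Nat.mul_le_mul_right _ ha
    _ = n := this

instance instFinite [NeZero n] : Finite (HeckeRep n) := by
  refine Finite.of_injective
    (fun A : HeckeRep n => ((⟨A.a, Nat.lt_succ_of_le A.a_le⟩ : Fin (n + 1)),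
      (⟨A.b, Nat.lt_succ_of_le (le_trans A.hb.le A.d_le)⟩ : Fin (n + 1)),
      (⟨A.d, Nat.lt_succ_of_le A.d_le⟩ : Fin (n + 1)))) ?_
  intro A B h
  simp only [Prod.mk.injEq, Fin.mk.injEq] at h
  exact HeckeRep.ext h.1 h.2.1 h.2.2

instance instFintype [NeZero n] : Fintype (HeckeRep n) := Fintype.ofFinite _

/-- Uniqueness of the decomposition `γ A`. -/
theorem decomp_unique [NeZero n] {A₁ A₂ : HeckeRep n} {γ₁ γ₂ : SL(2, ℤ)}
    (h : (γ₁ : Matrix (Fin 2) (Fin 2) ℤ) * A₁.mat = (γ₂ : Matrix (Fin 2) (Fin 2) ℤ) * A₂.mat) :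
    A₁ = A₂ ∧ γ₁ = γ₂ := by
  -- `δ A₁ = A₂` with `δ = γ₂⁻¹ γ₁`
  set δ : SL(2, ℤ) := γ₂⁻¹ * γ₁ with hδ
  have h1 : (δ : Matrix (Fin 2) (Fin 2) ℤ) * A₁.mat = A₂.mat := by
    rw [hδ, Matrix.SpecialLinearGroup.coe_mul, Matrix.mul_assoc, h, ← Matrix.mul_assoc,
      ← Matrix.SpecialLinearGroup.coe_mul, inv_mul_cancel, Matrix.SpecialLinearGroup.coe_one,
      Matrix.one_mul]
  have e00 := congrFun (congrFun h1 0) 0
  have e01 := congrFun (congrFun h1 0) 1
  have e10 := congrFun (congrFun h1 1) 0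
  have e11 := congrFun (congrFun h1 1) 1
  simp only [mat, Matrix.mul_apply, Fin.sum_univ_two, Matrix.of_apply, Matrix.cons_val_zero,
    Matrix.cons_val_one, Matrix.cons_val', Matrix.cons_val_fin_one, mul_zero, add_zero] at e00 e01 e10 e11
  have ha1 : (0 : ℤ) < A₁.a := by exact_mod_cast A₁.a_pos
  have ha2 : (0 : ℤ) < A₂.a := by exact_mod_cast A₂.a_pos
  have hd1 : (0 : ℤ) < A₁.d := by exact_mod_cast A₁.d_pos
  have hd2 : (0 : ℤ) < A₂.d := by exact_mod_cast A₂.d_pos
  have hz : δ 1 0 = 0 := by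
    rcases mul_eq_zero.mp e10 with h0 | h0
    · exact h0
    · exact absurd h0 ha1.ne'
  have hdet := δ.det_coe
  rw [Matrix.det_fin_two, hz, mul_zero, sub_zero] at hdet
  have hx : δ 0 0 = 1 := by
    have hpos : 0 < δ 0 0 := by
      by_contra hneg
      rw [not_lt] at hneg
      have : δ 0 0 * A₁.a ≤ 0 := mul_nonpos_of_nonpos_of_nonneg hneg ha1.le
      rw [e00] at this
      omega
    rcases Int.eq_one_or_neg_one_of_mul_eq_one' hdet with ⟨h1', -⟩ | ⟨h1', -⟩
    · exact h1'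
    · omega
  have hw : δ 1 1 = 1 := by rw [hx, one_mul] at hdet; exact hdet
  rw [hx, one_mul] at e00
  rw [hz, zero_mul, zero_add, hw, one_mul] at e11
  rw [hx, one_mul] at e01
  have hb1 : (A₁.b : ℤ) < A₁.d := by exact_mod_cast A₁.hb
  have hb2 : (A₂.b : ℤ) < A₁.d := by rw [e11]; exact_mod_cast A₂.hb
  have hb1' : (0 : ℤ) ≤ A₁.b := by positivity
  have hb2' : (0 : ℤ) ≤ A₂.b := by positivity
  have hy : δ 0 1 = 0 := by
    by_contra hne
    rcases lt_or_gt_of_ne hne with hlt | hgt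
    · have : δ 0 1 * A₁.d ≤ -A₁.d := by nlinarith
      omega
    · have : (A₁.d : ℤ) ≤ δ 0 1 * A₁.d := by nlinarith
      omega
  rw [hy, zero_mul, add_zero] at e01
  have hA : A₁ = A₂ := HeckeRep.ext (by exact_mod_cast e00) (by exact_mod_cast e01)
    (by exact_mod_cast e11)
  refine ⟨hA, ?_⟩
  have hδ1 : δ = 1 := by
    ext i j
    fin_cases i <;> fin_cases j <;> simp [hx, hy, hz, hw]
  rw [hδ] at hδ1
  have := congrArg (fun t => γ₂ * t) hδ1
  simpa [mul_assoc] using this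

/-- Existence of the decomposition `A γ = γ' A'` with `γ' ∈ Γ₀(M)`. -/
theorem exists_decomp [NeZero n] {M : ℕ} (hnM : Nat.Coprime n M) (A : HeckeRep n)
    (γ : Gamma0 M) :
    ∃ (A' : HeckeRep n) (γ' : Gamma0 M),
      A.mat * ((γ : SL(2, ℤ)) : Matrix (Fin 2) (Fin 2) ℤ)
        = ((γ' : SL(2, ℤ)) : Matrix (Fin 2) (Fin 2) ℤ) * A'.mat := by
  have hn0 : 0 < n := Nat.pos_of_ne_zero (NeZero.ne n)
  set B : Matrix (Fin 2) (Fin 2) ℤ := A.mat * ((γ : SL(2, ℤ)) : Matrix (Fin 2) (Fin 2) ℤ) with hB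
  have hdetB : B.det = (n : ℤ) := by
    rw [hB, Matrix.det_mul, A.det_mat, Matrix.SpecialLinearGroup.det_coe, mul_one]
  have hdetpos : 0 < B.det := by rw [hdetB]; exact_mod_cast hn0
  obtain ⟨δ, a', b', d', ha', hd', hBδ⟩ := Fermat.Agent.S22.exists_SL2_mul_upper B hdetpos
  have had' : a' * d' = (n : ℤ) := by
    have := congrArg Matrix.det hBδ
    rw [hdetB, Matrix.det_mul, Matrix.SpecialLinearGroup.det_coe, one_mul,
      Matrix.det_fin_two_of] at this
    linarith
  -- reduce `b'` modulo `d'`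
  obtain ⟨q, r, hr0, hrd, hbqr⟩ : ∃ q r : ℤ, 0 ≤ r ∧ r < d' ∧ b' = r + q * d' := by
    refine ⟨b' / d', b' % d', Int.emod_nonneg _ hd'.ne', Int.emod_lt_of_pos _ hd', ?_⟩
    have := Int.emod_add_mul_ediv b' d'
    linarith [mul_comm d' (b' / d')]
  -- the new representative
  lift a' to ℕ using ha'.le
  lift d' to ℕ using hd'.le
  lift r to ℕ using hr0
  have hadn : a' * d' = n := by exact_mod_cast had'
  set A' : HeckeRep n := ⟨a', r, d', hadn, by exact_mod_cast hrd⟩ with hA'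
  -- `T ^ q`
  set Tq : SL(2, ℤ) := ⟨!![1, q; 0, 1], by simp [Matrix.det_fin_two_of]⟩ with hTq
  have hsplit : (!![(a' : ℤ), b'; 0, (d' : ℤ)] : Matrix (Fin 2) (Fin 2) ℤ)
      = (Tq : Matrix (Fin 2) (Fin 2) ℤ) * A'.mat := by
    ext i j
    rw [Matrix.mul_apply, Fin.sum_univ_two]
    fin_cases i <;> fin_cases j <;> simp [hTq, hA', hbqr]
  set δ' : SL(2, ℤ) := δ * Tq with hδ'
  have hfinal : B = (δ' : Matrix (Fin 2) (Fin 2) ℤ) * A'.mat := by
    rw [hBδ, hsplit, hδ', Matrix.SpecialLinearGroup.coe_mul, Matrix.mul_assoc]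
  -- membership in `Γ₀(M)`
  have hmem : δ' ∈ Gamma0 M := by
    rw [Gamma0_mem]
    have e10 := congrFun (congrFun hfinal 1) 0
    have hγ := γ.2
    rw [Gamma0_mem] at hγ
    have hB10 : B 1 0 = (A.d : ℤ) * ((γ : SL(2, ℤ)) 1 0) := by
      rw [hB, Matrix.mul_apply, Fin.sum_univ_two, mat_one_zero, mat_one_one, zero_mul, zero_add]
    have hR10 : ((δ' : Matrix (Fin 2) (Fin 2) ℤ) * A'.mat) 1 0 = δ' 1 0 * (a' : ℤ) := by
      rw [Matrix.mul_apply, Fin.sum_univ_two, mat_one_zero, mat_zero_zero, mul_zero, add_zero]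
    rw [hB10, hR10] at e10
    have h1 : ((δ' 1 0 * (a' : ℤ) : ℤ) : ZMod M) = 0 := by
      rw [← e10]; push_cast; rw [hγ, mul_zero]
    have hcop : IsCoprime (a' : ℤ) (M : ℤ) := by
      have h2 : Nat.Coprime a' M := Nat.Coprime.coprime_dvd_left ⟨d', hadn.symm⟩ hnM
      exact Nat.isCoprime_iff_coprime.mpr h2
    have hdvd : (M : ℤ) ∣ δ' 1 0 * (a' : ℤ) := (ZMod.intCast_zmod_eq_zero_iff_dvd _ _).mp h1
    have hdvd' : (M : ℤ) ∣ δ' 1 0 := hcop.symm.dvd_of_dvd_mul_right hdvd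
    exact (ZMod.intCast_zmod_eq_zero_iff_dvd _ _).mpr hdvd'
  exact ⟨A', ⟨δ', hmem⟩, hfinal⟩

variable {M : ℕ}

/-- The representative `A'` with `A γ ∈ Γ₀(M) A'`. -/
def next [NeZero n] (hnM : Nat.Coprime n M) (A : HeckeRep n) (γ : Gamma0 M) : HeckeRep n :=
  (exists_decomp hnM A γ).choose

/-- The element `γ' ∈ Γ₀(M)` with `A γ = γ' (next A γ)`. -/
def coc [NeZero n] (hnM : Nat.Coprime n M) (A : HeckeRep n) (γ : Gamma0 M) : Gamma0 M :=
  (exists_decomp hnM A γ).choose_spec.choose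

theorem mat_mul [NeZero n] (hnM : Nat.Coprime n M) (A : HeckeRep n) (γ : Gamma0 M) :
    A.mat * ((γ : SL(2, ℤ)) : Matrix (Fin 2) (Fin 2) ℤ)
      = (((coc hnM A γ : Gamma0 M) : SL(2, ℤ)) : Matrix (Fin 2) (Fin 2) ℤ) * (next hnM A γ).mat :=
  (exists_decomp hnM A γ).choose_spec.choose_spec

/-- Characterisation of `next` and `coc`. -/
theorem next_coc_unique [NeZero n] (hnM : Nat.Coprime n M) {A A' : HeckeRep n}
    {γ γ' : Gamma0 M}
    (h : A.mat * ((γ : SL(2, ℤ)) : Matrix (Fin 2) (Fin 2) ℤ)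
      = ((γ' : SL(2, ℤ)) : Matrix (Fin 2) (Fin 2) ℤ) * A'.mat) :
    next hnM A γ = A' ∧ coc hnM A γ = γ' := by
  have h2 := (mat_mul hnM A γ).symm.trans h
  obtain ⟨h3, h4⟩ := decomp_unique h2
  exact ⟨h3, Subtype.ext h4⟩

@[simp] theorem next_one [NeZero n] (hnM : Nat.Coprime n M) (A : HeckeRep n) :
    next hnM A (1 : Gamma0 M) = A :=
  (next_coc_unique hnM (A := A) (A' := A) (γ := 1) (γ' := 1) (by simp)).1

@[simp] theorem coc_one [NeZero n] (hnM : Nat.Coprime n M) (A : HeckeRep n) :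
    coc hnM A (1 : Gamma0 M) = 1 :=
  (next_coc_unique hnM (A := A) (A' := A) (γ := 1) (γ' := 1) (by simp)).2

theorem next_coc_mul [NeZero n] (hnM : Nat.Coprime n M) (A : HeckeRep n) (γ δ : Gamma0 M) :
    next hnM A (γ * δ) = next hnM (next hnM A γ) δ ∧
      coc hnM A (γ * δ) = coc hnM A γ * coc hnM (next hnM A γ) δ := by
  apply next_coc_unique hnM
  have e1 : (((γ * δ : Gamma0 M) : SL(2, ℤ)) : Matrix (Fin 2) (Fin 2) ℤ)
      = ((γ : SL(2, ℤ)) : Matrix (Fin 2) (Fin 2) ℤ) * ((δ : SL(2, ℤ)) : Matrix (Fin 2) (Fin 2) ℤ) := by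
    simp
  have e2 : (((coc hnM A γ * coc hnM (next hnM A γ) δ : Gamma0 M) : SL(2, ℤ)) :
      Matrix (Fin 2) (Fin 2) ℤ)
      = (((coc hnM A γ : Gamma0 M) : SL(2, ℤ)) : Matrix (Fin 2) (Fin 2) ℤ) *
        (((coc hnM (next hnM A γ) δ : Gamma0 M) : SL(2, ℤ)) : Matrix (Fin 2) (Fin 2) ℤ) := by
    simp
  rw [e1, e2, ← Matrix.mul_assoc, mat_mul hnM A γ, Matrix.mul_assoc, mat_mul hnM (next hnM A γ) δ,
    Matrix.mul_assoc]

theorem next_mul [NeZero n] (hnM : Nat.Coprime n M) (A : HeckeRep n) (γ δ : Gamma0 M) :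
    next hnM A (γ * δ) = next hnM (next hnM A γ) δ := (next_coc_mul hnM A γ δ).1

theorem coc_mul [NeZero n] (hnM : Nat.Coprime n M) (A : HeckeRep n) (γ δ : Gamma0 M) :
    coc hnM A (γ * δ) = coc hnM A γ * coc hnM (next hnM A γ) δ := (next_coc_mul hnM A γ δ).2

/-- `A ↦ next A γ` as a permutation of the representatives. -/
def perm [NeZero n] (hnM : Nat.Coprime n M) (γ : Gamma0 M) : Equiv.Perm (HeckeRep n) where
  toFun A := next hnM A γ
  invFun A := next hnM A γ⁻¹
  left_inv A := by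
    show next hnM (next hnM A γ) γ⁻¹ = A
    rw [← next_mul, mul_inv_cancel, next_one]
  right_inv A := by
    show next hnM (next hnM A γ⁻¹) γ = A
    rw [← next_mul, inv_mul_cancel, next_one]

@[simp] theorem perm_apply [NeZero n] (hnM : Nat.Coprime n M) (γ : Gamma0 M) (A : HeckeRep n) :
    perm hnM γ A = next hnM A γ := rfl

end HeckeRep

/-! ### The Hecke operator on homomorphisms -/

variable {n M : ℕ} {B : Type*} [AddCommGroup B]

/-- The Hecke operator `T_n` on `Hom(Γ₀(M), B)`: `(T_n φ)(γ) = ∑_A φ (coc A γ)`. -/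
def heckeHomFun [NeZero n] (hnM : Nat.Coprime n M) (φ : Additive (Gamma0 M) →+ B) :
    Additive (Gamma0 M) →+ B where
  toFun γ := ∑ A : HeckeRep n, φ (Additive.ofMul (HeckeRep.coc hnM A (Additive.toMul γ)))
  map_zero' := by
    show ∑ A : HeckeRep n, φ (Additive.ofMul (HeckeRep.coc hnM A 1)) = 0
    simp
  map_add' γ δ := by
    show ∑ A : HeckeRep n, φ (Additive.ofMul (HeckeRep.coc hnM A
      (Additive.toMul γ * Additive.toMul δ))) = _
    simp only [HeckeRep.coc_mul, ofMul_mul, map_add, Finset.sum_add_distrib]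
    congr 1
    exact Equiv.sum_comp (HeckeRep.perm hnM (Additive.toMul γ))
      (fun A => φ (Additive.ofMul (HeckeRep.coc hnM A (Additive.toMul δ))))

theorem heckeHomFun_apply [NeZero n] (hnM : Nat.Coprime n M) (φ : Additive (Gamma0 M) →+ B)
    (γ : Gamma0 M) :
    heckeHomFun hnM φ (Additive.ofMul γ)
      = ∑ A : HeckeRep n, φ (Additive.ofMul (HeckeRep.coc hnM A γ)) := rfl

/-- The Hecke operator `T_n` on `Hom(Γ₀(M), B)`, as an additive endomorphism. -/
def heckeHom [NeZero n] (hnM : Nat.Coprime n M) :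
    (Additive (Gamma0 M) →+ B) →+ (Additive (Gamma0 M) →+ B) where
  toFun := heckeHomFun hnM
  map_zero' := by
    ext γ
    simp [heckeHomFun]
  map_add' φ ψ := by
    ext γ
    simp [heckeHomFun, Finset.sum_add_distrib]

theorem heckeHom_apply [NeZero n] (hnM : Nat.Coprime n M) (φ : Additive (Gamma0 M) →+ B)
    (γ : Gamma0 M) :
    heckeHom hnM φ (Additive.ofMul γ)
      = ∑ A : HeckeRep n, φ (Additive.ofMul (HeckeRep.coc hnM A γ)) := rfl

/-- Naturality in the coefficient group. -/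
theorem heckeHom_comp [NeZero n] (hnM : Nat.Coprime n M) {B' : Type*} [AddCommGroup B']
    (f : B →+ B') (φ : Additive (Gamma0 M) →+ B) :
    heckeHom hnM (f.comp φ) = f.comp (heckeHom hnM φ) := by
  ext γ
  show ∑ A : HeckeRep n, f (φ _) = f (∑ A : HeckeRep n, φ _)
  rw [map_sum]

/-- `heckeHom` is linear for every module structure on the coefficient group. -/
theorem heckeHom_smul [NeZero n] (hnM : Nat.Coprime n M) {R : Type*} [Semiring R] [Module R B]
    (c : R) (φ : Additive (Gamma0 M) →+ B) :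
    heckeHom hnM (c • φ) = c • heckeHom hnM φ := by
  ext γ
  show ∑ A : HeckeRep n, c • (φ _) = c • (∑ A : HeckeRep n, φ _)
  rw [Finset.smul_sum]

end Fermat.Agent.ES

end
end ZBS22_002_1

/-! ### bundled: `Fermat.Agent.ES.HeckeComm` -/
section ZBS22_002_2

/-!
# ESpkg COMM, group side: the Hecke operators on `Hom(Γ₀(M), B)` commute (helper39)

For `m, n` coprime to `M` and to each other, `T_m ∘ T_n = T_{mn}` on `Hom(Γ₀(M), B)`
(`heckeHom_mul`), hence `T_m ∘ T_n = T_n ∘ T_m` (`heckeHom_comm`).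

Proof.  For representatives `A ∈ R_m`, `B ∈ R_n` the product `B A` is upper triangular; reducing
its upper right entry gives `B A = U(A,B) · C(A,B)` with `C(A,B) ∈ R_{mn}` and `U(A,B)` a
translation.  `(A, B) ↦ C(A, B)` is injective (`gcd(m, n) = 1`), hence bijective by counting
(`|R_n| = σ(n)`), and the `φ(U)`-terms telescope.
-/

set_option autoImplicit false

noncomputable section

open Matrix CongruenceSubgroup
open scoped MatrixGroups

namespace Fermat.Agent.ES

namespace HeckeRep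

variable {m n : ℕ}

/-! ### Counting -/

/-- `R_n ≃ Σ_{d ∣ n} Fin d` -/
def equivSigma (n : ℕ) [NeZero n] : HeckeRep n ≃ Σ d : n.divisors, Fin (d : ℕ) where
  toFun A := ⟨⟨A.d, Nat.mem_divisors.mpr ⟨⟨A.a, by rw [mul_comm]; exact A.had.symm⟩, NeZero.ne n⟩⟩,
    ⟨A.b, A.hb⟩⟩
  invFun x := ⟨n / x.1, x.2, x.1, Nat.div_mul_cancel (Nat.dvd_of_mem_divisors x.1.2), x.2.2⟩
  left_inv A := by
    apply HeckeRep.ext
    · show n / A.d = A.a
      exact Nat.div_eq_of_eq_mul_left A.d_pos A.had.symm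
    · rfl
    · rfl
  right_inv x := by
    rcases x with ⟨⟨d, hd⟩, b⟩
    rfl

theorem card_eq_sigma (n : ℕ) [NeZero n] :
    Fintype.card (HeckeRep n) = ArithmeticFunction.sigma 1 n := by
  rw [Fintype.card_congr (equivSigma n), Fintype.card_sigma]
  simp only [Fintype.card_fin]
  rw [ArithmeticFunction.sigma_one_apply]
  exact Finset.sum_coe_sort n.divisors (fun d => d)

theorem card_mul (hmn : Nat.Coprime m n) [NeZero m] [NeZero n] [NeZero (m * n)] :
    Fintype.card (HeckeRep (m * n)) = Fintype.card (HeckeRep m) * Fintype.card (HeckeRep n) := by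
  rw [card_eq_sigma, card_eq_sigma, card_eq_sigma]
  exact ArithmeticFunction.isMultiplicative_sigma.map_mul_of_coprime hmn

/-! ### Composition of representatives -/

/-- the representative of `Γ B A` in `R_{mn}` -/
def comp (A : HeckeRep m) (B : HeckeRep n) : HeckeRep (m * n) where
  a := A.a * B.a
  b := (B.a * A.b + B.b * A.d) % (A.d * B.d)
  d := A.d * B.d
  had := by
    have h1 := A.had
    have h2 := B.had
    calc A.a * B.a * (A.d * B.d) = (A.a * A.d) * (B.a * B.d) := by ring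
      _ = m * n := by rw [h1, h2]
  hb := Nat.mod_lt _ (Nat.mul_pos A.d_pos B.d_pos)

/-- the translation amount in `B A = U C` -/
def shift (A : HeckeRep m) (B : HeckeRep n) : ℕ := (B.a * A.b + B.b * A.d) / (A.d * B.d)

theorem mat_mul_mat (A : HeckeRep m) (B : HeckeRep n) :
    B.mat * A.mat = !![1, (shift A B : ℤ); 0, 1] * (comp A B).mat := by
  have h := Nat.mod_add_div (B.a * A.b + B.b * A.d) (A.d * B.d)
  have h' : ((B.a * A.b + B.b * A.d : ℕ) : ℤ)
      = (((B.a * A.b + B.b * A.d) % (A.d * B.d) : ℕ) : ℤ)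
        + ((A.d * B.d : ℕ) : ℤ) * (((B.a * A.b + B.b * A.d) / (A.d * B.d) : ℕ) : ℤ) := by
    exact_mod_cast h.symm
  push_cast at h'
  ext i j
  fin_cases i <;> fin_cases j
  · simp [mat, comp, Matrix.mul_apply, Fin.sum_univ_two]; ring
  · simp only [mat, comp, shift, Matrix.mul_apply, Fin.sum_univ_two, Fin.zero_eta, Fin.mk_one,
      Matrix.of_apply, Matrix.cons_val_zero, Matrix.cons_val_one, Matrix.cons_val', 
      Matrix.cons_val_fin_one]
    push_cast
    linarith
  · simp [mat, comp, Matrix.mul_apply, Fin.sum_univ_two]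
  · simp [mat, comp, Matrix.mul_apply, Fin.sum_univ_two]; ring

theorem comp_injective (hmn : Nat.Coprime m n) [NeZero m] [NeZero n] :
    Function.Injective (fun x : HeckeRep m × HeckeRep n => comp x.1 x.2) := by
  rintro ⟨A, B⟩ ⟨A', B'⟩ h
  have ha : A.a * B.a = A'.a * B'.a := congrArg HeckeRep.a h
  have hd : A.d * B.d = A'.d * B'.d := congrArg HeckeRep.d h
  have hb : (B.a * A.b + B.b * A.d) % (A.d * B.d) = (B'.a * A'.b + B'.b * A'.d) % (A'.d * B'.d) :=
    congrArg HeckeRep.b h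
  -- divisibility facts
  have hAa : A.a ∣ m := ⟨A.d, A.had.symm⟩
  have hA'a : A'.a ∣ m := ⟨A'.d, A'.had.symm⟩
  have hBa : B.a ∣ n := ⟨B.d, B.had.symm⟩
  have hB'a : B'.a ∣ n := ⟨B'.d, B'.had.symm⟩
  have hAd : A.d ∣ m := ⟨A.a, by rw [mul_comm]; exact A.had.symm⟩
  have hA'd : A'.d ∣ m := ⟨A'.a, by rw [mul_comm]; exact A'.had.symm⟩
  have hBd : B.d ∣ n := ⟨B.a, by rw [mul_comm]; exact B.had.symm⟩
  have hB'd : B'.d ∣ n := ⟨B'.a, by rw [mul_comm]; exact B'.had.symm⟩
  -- `A.a = A'.a`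
  have haA : A.a = A'.a := by
    apply Nat.dvd_antisymm
    · have h1 : A.a ∣ A'.a * B'.a := ⟨B.a, ha.symm⟩
      exact (Nat.Coprime.coprime_dvd_left hAa (Nat.Coprime.coprime_dvd_right hB'a hmn)).dvd_of_dvd_mul_right h1
    · have h1 : A'.a ∣ A.a * B.a := ⟨B'.a, ha⟩
      exact (Nat.Coprime.coprime_dvd_left hA'a (Nat.Coprime.coprime_dvd_right hBa hmn)).dvd_of_dvd_mul_right h1
  have haB : B.a = B'.a := by
    rw [haA] at ha
    exact Nat.eq_of_mul_eq_mul_left A'.a_pos ha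
  have hdA : A.d = A'.d := by
    have h1 := A.had
    have h2 := A'.had
    rw [haA] at h1
    exact Nat.eq_of_mul_eq_mul_left A'.a_pos (h1.trans h2.symm)
  have hdB : B.d = B'.d := by
    have h1 := B.had
    have h2 := B'.had
    rw [haB] at h1
    exact Nat.eq_of_mul_eq_mul_left B'.a_pos (h1.trans h2.symm)
  -- the `b`-entries
  rw [← haB, ← hdA, ← hdB] at hb
  have hmodeq : (B.a * A.b + B.b * A.d) ≡ (B.a * A'.b + B'.b * A.d) [MOD A.d * B.d] := hb
  have hcop : Nat.Coprime B.a A.d :=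
    (Nat.Coprime.coprime_dvd_left hAd (Nat.Coprime.coprime_dvd_right hBa hmn)).symm
  have hbA : A.b = A'.b := by
    have h1 : (B.a * A.b + B.b * A.d) ≡ (B.a * A'.b + B'.b * A.d) [MOD A.d] :=
      hmodeq.of_mul_right B.d
    have h2 : B.a * A.b ≡ B.a * A'.b [MOD A.d] := by
      have e1 : (B.a * A.b + B.b * A.d) ≡ B.a * A.b [MOD A.d] := by
        simp [Nat.ModEq]
      have e2 : (B.a * A'.b + B'.b * A.d) ≡ B.a * A'.b [MOD A.d] := by
        simp [Nat.ModEq]
      exact e1.symm.trans (h1.trans e2)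
    have h3 : A.b ≡ A'.b [MOD A.d] := Nat.ModEq.cancel_left_of_coprime (by
      rw [Nat.coprime_comm] at hcop
      exact hcop) h2
    have h4 := A.hb
    have h5 := A'.hb
    rw [← hdA] at h5
    exact Nat.ModEq.eq_of_lt_of_lt h3 h4 h5
  have hbB : B.b = B'.b := by
    rw [← hbA] at hmodeq
    have h1 : B.b * A.d ≡ B'.b * A.d [MOD A.d * B.d] := Nat.ModEq.add_left_cancel' _ hmodeq
    have h2 : B.b * A.d ≡ B'.b * A.d [MOD B.d * A.d] := by rwa [mul_comm B.d A.d]
    have h3 : B.b ≡ B'.b [MOD B.d] := Nat.ModEq.mul_right_cancel' A.d_pos.ne' h2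
    have h4 := B.hb
    have h5 := B'.hb
    rw [← hdB] at h5
    exact Nat.ModEq.eq_of_lt_of_lt h3 h4 h5
  have eA : A = A' := HeckeRep.ext haA hbA hdA
  have eB : B = B' := HeckeRep.ext haB hbB hdB
  rw [eA, eB]

theorem comp_bijective (hmn : Nat.Coprime m n) [NeZero m] [NeZero n] [NeZero (m * n)] :
    Function.Bijective (fun x : HeckeRep m × HeckeRep n => comp x.1 x.2) := by
  rw [Fintype.bijective_iff_injective_and_card]
  refine ⟨comp_injective hmn, ?_⟩
  rw [Fintype.card_prod, card_mul hmn]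


end HeckeRep

/-! ### The product formula -/

section Product

variable {m n M : ℕ}

/-- the translation `[[1, k], [0, 1]]` in `SL(2, ℤ)` -/
def translSL (k : ℤ) : SL(2, ℤ) := ⟨!![1, k; 0, 1], by simp [Matrix.det_fin_two_of]⟩

theorem translSL_mem (M : ℕ) (k : ℤ) : translSL k ∈ Gamma0 M := by
  rw [Gamma0_mem]
  simp [translSL]

/-- the translation `[[1, k], [0, 1]]` in `Γ₀(M)` -/
def transl (M : ℕ) (k : ℤ) : Gamma0 M := ⟨translSL k, translSL_mem M k⟩

@[simp] theorem transl_coe (k : ℤ) :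
    (((transl M k : Gamma0 M) : SL(2, ℤ)) : Matrix (Fin 2) (Fin 2) ℤ) = !![1, k; 0, 1] := rfl

/-- the matrix of an element of `Γ₀(M)` -/
abbrev cm (g : Gamma0 M) : Matrix (Fin 2) (Fin 2) ℤ := ((g : SL(2, ℤ)) : Matrix (Fin 2) (Fin 2) ℤ)

theorem cm_mul (g h : Gamma0 M) : cm (g * h) = cm g * cm h := by
  simp [cm]

theorem cm_inv_mul (g : Gamma0 M) : cm g⁻¹ * cm g = 1 := by
  rw [← cm_mul, inv_mul_cancel]
  simp [cm]

namespace HeckeRep

theorem next_coc_comp [NeZero m] [NeZero n] [NeZero (m * n)] (hm : Nat.Coprime m M)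
    (hn : Nat.Coprime n M) (hmn' : Nat.Coprime (m * n) M) (A : HeckeRep m) (Bn : HeckeRep n)
    (γ : Gamma0 M) :
    next hmn' (comp A Bn) γ = comp (next hm A γ) (next hn Bn (coc hm A γ)) ∧
      coc hmn' (comp A Bn) γ = (transl M (shift A Bn))⁻¹ * coc hn Bn (coc hm A γ) *
        transl M (shift (next hm A γ) (next hn Bn (coc hm A γ))) := by
  apply next_coc_unique hmn'
  set A' := next hm A γ with hA'
  set cA := coc hm A γ with hcA
  set B' := next hn Bn cA with hB'
  set cB := coc hn Bn cA with hcB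
  have h1 : Bn.mat * A.mat = cm (transl M (shift A Bn)) * (comp A Bn).mat := mat_mul_mat A Bn
  have h2 : B'.mat * A'.mat = cm (transl M (shift A' B')) * (comp A' B').mat := mat_mul_mat A' B'
  have h3 : A.mat * cm γ = cm cA * A'.mat := mat_mul hm A γ
  have h4 : Bn.mat * cm cA = cm cB * B'.mat := mat_mul hn Bn cA
  have key : cm (transl M (shift A Bn)) * ((comp A Bn).mat * cm γ)
      = cm cB * (cm (transl M (shift A' B')) * (comp A' B').mat) := by
    rw [← Matrix.mul_assoc, ← h1, Matrix.mul_assoc, h3, ← Matrix.mul_assoc, h4, Matrix.mul_assoc,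
      h2]
  show (comp A Bn).mat * cm γ
    = cm ((transl M (shift A Bn))⁻¹ * cB * transl M (shift A' B')) * (comp A' B').mat
  rw [cm_mul, cm_mul]
  calc (comp A Bn).mat * cm γ
      = (cm (transl M (shift A Bn))⁻¹ * cm (transl M (shift A Bn))) * ((comp A Bn).mat * cm γ) := by
        rw [cm_inv_mul, Matrix.one_mul]
    _ = cm (transl M (shift A Bn))⁻¹ * (cm (transl M (shift A Bn)) * ((comp A Bn).mat * cm γ)) := by
        rw [Matrix.mul_assoc]
    _ = cm (transl M (shift A Bn))⁻¹ * (cm cB * (cm (transl M (shift A' B')) * (comp A' B').mat)) := by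
        rw [key]
    _ = cm (transl M (shift A Bn))⁻¹ * cm cB * cm (transl M (shift A' B')) * (comp A' B').mat := by
        simp only [Matrix.mul_assoc]

end HeckeRep

variable {Co : Type*} [AddCommGroup Co]

/-- **`T_m ∘ T_n = T_{mn}`** for coprime `m`, `n` (both prime to `M`). -/
theorem heckeHom_mul [NeZero m] [NeZero n] [NeZero (m * n)] (hm : Nat.Coprime m M)
    (hn : Nat.Coprime n M) (hmn : Nat.Coprime m n) (hmn' : Nat.Coprime (m * n) M)
    (φ : Additive (Gamma0 M) →+ Co) :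
    heckeHom hm (heckeHom hn φ) = heckeHom hmn' φ := by
  classical
  refine AddMonoidHom.ext fun γ => ?_
  obtain ⟨γ, rfl⟩ : ∃ γ' : Gamma0 M, Additive.ofMul γ' = γ := ⟨Additive.toMul γ, rfl⟩
  rw [heckeHom_apply, heckeHom_apply]
  simp only [heckeHom_apply]
  -- the bijection `R_m × R_n ≃ R_{mn}`
  let e : HeckeRep m × HeckeRep n ≃ HeckeRep (m * n) :=
    Equiv.ofBijective _ (HeckeRep.comp_bijective hmn)
  have he : ∀ x : HeckeRep m × HeckeRep n, e x = HeckeRep.comp x.1 x.2 := fun _ => rfl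
  -- the permutation of pairs induced by `γ`
  let σ : HeckeRep m × HeckeRep n → HeckeRep m × HeckeRep n := fun x =>
    (HeckeRep.next hm x.1 γ, HeckeRep.next hn x.2 (HeckeRep.coc hm x.1 γ))
  have hσ : ∀ x, e (σ x) = HeckeRep.perm hmn' γ (e x) := by
    intro x
    rw [he, he, HeckeRep.perm_apply]
    exact (HeckeRep.next_coc_comp hm hn hmn' x.1 x.2 γ).1.symm
  let τ : Equiv.Perm (HeckeRep m × HeckeRep n) := (e.trans (HeckeRep.perm hmn' γ)).trans e.symm
  have hτ : ∀ x, τ x = σ x := by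
    intro x
    show e.symm (HeckeRep.perm hmn' γ (e x)) = σ x
    rw [← hσ, Equiv.symm_apply_apply]
  let ψ : HeckeRep m × HeckeRep n → Co := fun x =>
    φ (Additive.ofMul (transl M (HeckeRep.shift x.1 x.2)))
  have hcoc : ∀ x : HeckeRep m × HeckeRep n,
      φ (Additive.ofMul (HeckeRep.coc hmn' (e x) γ))
        = φ (Additive.ofMul (HeckeRep.coc hn x.2 (HeckeRep.coc hm x.1 γ))) + (ψ (τ x) - ψ x) := by
    intro x
    rw [he, (HeckeRep.next_coc_comp hm hn hmn' x.1 x.2 γ).2, hτ]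
    simp only [ofMul_mul, ofMul_inv, map_add, map_neg, ψ, σ]
    abel
  rw [← Equiv.sum_comp e (fun C => φ (Additive.ofMul (HeckeRep.coc hmn' C γ)))]
  rw [Finset.sum_congr rfl (fun x _ => hcoc x), Finset.sum_add_distrib, Finset.sum_sub_distrib,
    Equiv.sum_comp τ ψ, sub_self, add_zero, Fintype.sum_prod_type]

/-- `T_n` does not depend on the way `n` is written -/
theorem heckeHom_congr {n n' : ℕ} [NeZero n] [NeZero n'] (h : n = n') (hn : Nat.Coprime n M)
    (hn' : Nat.Coprime n' M) (φ : Additive (Gamma0 M) →+ Co) :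
    heckeHom hn φ = heckeHom hn' φ := by
  subst h
  rfl

/-- **The Hecke operators on `Hom(Γ₀(M), Co)` commute** (coprime indices). -/
theorem heckeHom_comm [NeZero m] [NeZero n] (hm : Nat.Coprime m M) (hn : Nat.Coprime n M)
    (hmn : Nat.Coprime m n) (φ : Additive (Gamma0 M) →+ Co) :
    heckeHom hm (heckeHom hn φ) = heckeHom hn (heckeHom hm φ) := by
  have : NeZero (m * n) := ⟨Nat.mul_ne_zero (NeZero.ne m) (NeZero.ne n)⟩
  have : NeZero (n * m) := ⟨Nat.mul_ne_zero (NeZero.ne n) (NeZero.ne m)⟩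
  rw [heckeHom_mul hm hn hmn (Nat.Coprime.mul_left hm hn),
    heckeHom_mul hn hm hmn.symm (Nat.Coprime.mul_left hn hm)]
  exact heckeHom_congr (mul_comm m n) _ _ φ

end Product

end Fermat.Agent.ES

end
end ZBS22_002_2
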