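/- GENERATED FILE (helper35, build-time optimisation, NOTES/ZB.md): verbatim concatenation of the modules
   Fermat.Agent.S23.Descent2
   Fermat.Agent.S23.Descent
   Do not edit; do not import together with these modules. -/
import Mathlib
import Fermat.Agent.ZB.S23_002

/-! ### bundled: `Fermat.Agent.S23.Descent2` -/
section ZBS23_004_0

/-!
# S23 piece P2: echelon descent

`Fermat.Agent.S23.le_span_rational_of_stable` : a finite-dimensional subspace of `ℂ⟦X⟧` which is stable
under all coefficientwise ring automorphisms of `ℂ` is spanned by its elements with rational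
coefficients (given that the fixed field of `Aut ℂ` is `ℚ`, which is piece P1).
-/

set_option autoImplicit false

noncomputable section

namespace Fermat.Agent.S23

open Module

theorem le_span_rational_of_stable
    (hfix : ∀ x : ℂ, (∀ σ : ℂ ≃+* ℂ, σ x = x) → ∃ r : ℚ, x = (r : ℂ))
    (V : Submodule ℂ (PowerSeries ℂ)) [FiniteDimensional ℂ V]
    (hV : ∀ (σ : ℂ ≃+* ℂ), ∀ F ∈ V, PowerSeries.map (σ : ℂ →+* ℂ) F ∈ V) :
    V ≤ Submodule.span ℂ {F | F ∈ V ∧ ∀ n, ∃ r : ℚ, PowerSeries.coeff n F = (r : ℂ)} := by
  classical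
  -- the coefficient functionals on `V`
  let c : ℕ → Module.Dual ℂ V := fun n => (PowerSeries.coeff (R := ℂ) n).comp V.subtype
  have hc : ∀ n (f : V), c n f = PowerSeries.coeff n (f : PowerSeries ℂ) := fun n f => rfl
  -- they span the dual
  have hspan : (⊤ : Submodule ℂ (Module.Dual ℂ V)) ≤ Submodule.span ℂ (Set.range c) := by
    have h0 : (Submodule.span ℂ (Set.range c)).dualCoannihilator = ⊥ := by
      rw [eq_bot_iff]
      intro f hf
      rw [Submodule.mem_dualCoannihilator] at hf
      rw [Submodule.mem_bot]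
      apply Subtype.ext
      ext n
      have := hf (c n) (Submodule.subset_span ⟨n, rfl⟩)
      simpa [hc] using this
    have h1 := Subspace.dualCoannihilator_dualAnnihilator_eq
      (W := Submodule.span ℂ (Set.range c))
    rw [h0, Submodule.dualAnnihilator_bot] at h1
    exact h1.le
  -- a basis of the dual consisting of coefficient functionals
  let β := Module.Basis.ofSpan hspan
  have hβc : ∀ i, ∃ n, c n = β i := fun i => Module.Basis.ofSpan_subset hspan ⟨i, rfl⟩
  have : Finite _ := Module.Finite.finite_basis β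
  -- the dual basis of `V`
  let b := β.dualBasis.map (Module.evalEquiv ℂ V).symm
  have hb : ∀ i j, β i (b j) = if i = j then 1 else 0 := by
    intro i j
    simp only [b, Module.Basis.map_apply, Module.apply_evalEquiv_symm_apply]
    exact β.dualBasis_apply_self j i
  -- a vector killed by all `β i` is zero
  have hzero : ∀ f : V, (∀ i, β i f = 0) → f = 0 := by
    intro f hf
    have : Module.evalEquiv ℂ V f = 0 := by
      apply β.ext
      intro i
      simpa using hf i
    exact (LinearEquiv.map_eq_zero_iff (Module.evalEquiv ℂ V)).mp this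
  -- each `b j` is fixed by all automorphisms
  have hfixed : ∀ (σ : ℂ ≃+* ℂ) j,
      PowerSeries.map (σ : ℂ →+* ℂ) (b j : PowerSeries ℂ) = (b j : PowerSeries ℂ) := by
    intro σ j
    have hmem := hV σ _ (b j).2
    have : (⟨_, hmem⟩ : V) - b j = 0 := by
      apply hzero
      intro i
      obtain ⟨n, hn⟩ := hβc i
      have h1 : β i (b j) = PowerSeries.coeff n (b j : PowerSeries ℂ) := by rw [← hn, hc]
      rw [map_sub, sub_eq_zero, ← hn, hc, hc]
      simp only [PowerSeries.coeff_map, RingHom.coe_coe]
      rw [← h1, hb]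
      split_ifs <;> simp
    exact congrArg Subtype.val (sub_eq_zero.mp this)
  -- conclude
  intro f hf
  have hmemspan : (⟨f, hf⟩ : V) ∈ Submodule.span ℂ (Set.range b) := by
    rw [b.span_eq]; exact Submodule.mem_top
  have := Submodule.mem_map_of_mem (f := V.subtype) hmemspan
  rw [Submodule.map_span] at this
  refine Submodule.span_mono ?_ this
  rintro _ ⟨_, ⟨j, rfl⟩, rfl⟩
  refine ⟨(b j).2, fun n => hfix _ fun σ => ?_⟩
  have := congrArg (PowerSeries.coeff n) (hfixed σ j)
  simpa using this

end Fermat.Agent.S23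

end
end ZBS23_004_0

/-! ### bundled: `Fermat.Agent.S23.Descent` -/
section ZBS23_004_1

/-!
# S23 pieces P1 + P2 combined

`Fermat.Agent.S23.descent_le_span_rational` : a finite-dimensional subspace of `ℂ⟦X⟧` which is stable
under all coefficientwise ring automorphisms of `ℂ` is spanned by its elements with rational
coefficients.
-/

set_option autoImplicit false

noncomputable section

namespace Fermat.Agent.S23

/-- P1 in the contrapositive form used by P2. -/
theorem descent_exists_rat_of_fixed (x : ℂ) (h : ∀ σ : ℂ ≃+* ℂ, σ x = x) : ∃ r : ℚ, x = (r : ℂ) := by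
  by_contra hx
  have hx' : x ∉ Set.range (algebraMap ℚ ℂ) := by
    rintro ⟨r, hr⟩
    exact hx ⟨r, by rw [← hr]; rfl⟩
  obtain ⟨σ, hσ⟩ := exists_ringEquiv_apply_ne hx'
  exact hσ (h σ)

theorem descent_le_span_rational
    (V : Submodule ℂ (PowerSeries ℂ)) [FiniteDimensional ℂ V]
    (hV : ∀ (σ : ℂ ≃+* ℂ), ∀ F ∈ V, PowerSeries.map (σ : ℂ →+* ℂ) F ∈ V) :
    V ≤ Submodule.span ℂ {F | F ∈ V ∧ ∀ n, ∃ r : ℚ, PowerSeries.coeff n F = (r : ℂ)} :=
  le_span_rational_of_stable descent_exists_rat_of_fixed V hV

end Fermat.Agent.S23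

end
end ZBS23_004_1
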