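/- GENERATED FILE (helper35, build-time optimisation, NOTES/ZB.md): verbatim concatenation of the modules
   Fermat.Agent.S23.Basic
   Fermat.Agent.S23.Interface
   Fermat.Agent.S23.Esymm
   Fermat.Agent.S23.MFClosure
   Fermat.Agent.S23.NormPoly
   Fermat.Agent.S23.ThetaSlash
   Fermat.Agent.S23.ThetaAlg
   Fermat.Agent.S23.LevelOneInt
   Fermat.Agent.S23.Theta
   Fermat.Agent.S23.QRing
   Fermat.Agent.S23.DfunLemma
   Fermat.Agent.S23.AlmostIntegral
   Fermat.Agent.S23.Removable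
   Fermat.Agent.S23.LevelOneSpanAlt
   Fermat.Agent.S23.LevelOne
   Fermat.Agent.S23.SigmaStable
   Fermat.Agent.S23.FinDim
   Fermat.Agent.S23.RatSpan
   Fermat.Agent.S23.Glue0
   Fermat.Agent.S23.RationalSolve
   Fermat.Agent.S23.BddTools
   Fermat.Agent.S23.BddMonic
   Fermat.Agent.S23.BddGlue
   Fermat.Agent.S23.BddFraction
   Fermat.Agent.S23.Main
   Do not edit; do not import together with these modules. -/
import Fermat.Statements.S23
import Fermat.Prelude.Thm_ModularForm_sturm_bound_Gamma0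
import Fermat.Prelude.Thm_CongruenceSubgroup_one_mem_strictPeriods_Gamma0
import Fermat.Prelude.Thm_UpperHalfPlane_qExpansion_coeff_nat_mul
import Mathlib.NumberTheory.ModularForms.LevelOne.GradedRing
import Mathlib.NumberTheory.ModularForms.LevelOne.DimensionFormula
import Fermat.Prelude.Thm_UpperHalfPlane_qExpansion_prod
import Mathlib
import Fermat.Agent.ZB.S23_003
import Fermat.Agent.ZB.S23_004

/-! ### bundled: `Fermat.Agent.S23.Basic` -/
section ZBS23_001_0

/-!
# S23 — basic definitions shared by all modules of the S23 development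

* `G0 N` : `Γ₀(N)` as a subgroup of `GL(2, ℝ)` (this is what `CuspForm (CongruenceSubgroup.Gamma0 N) k` unfolds to).
* `IsMF Γ κ g`, `IsCF Γ κ g` : the function `g : ℍ → ℂ` is (the underlying function of) a modular / cusp form
  of weight `κ` and level `Γ`. Using predicates on functions avoids all dependent-type weight casts.
* `Coset N` : the finite coset space `SL(2,ℤ) / Γ₀(N)` used by Mathlib's `SlashInvariantForm.quotientFunc`,
  `cosetFinset N` : its universal finset (with a fixed `Fintype` instance).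
* `scaleN N z = N z`, `deltaNFun N z = Δ(N z)`, `thetaFun N z = Δ(z)^N / Δ(N z)`.
-/

set_option autoImplicit false

noncomputable section

namespace Fermat.Agent.S23

open UpperHalfPlane ModularForm
open scoped MatrixGroups ModularForm Manifold

/-- `Γ₀(N)` as a subgroup of `GL(2, ℝ)`. -/
abbrev G0 (N : ℕ) : Subgroup (GL (Fin 2) ℝ) :=
  Subgroup.map (Matrix.SpecialLinearGroup.mapGL ℝ) (CongruenceSubgroup.Gamma0 N)

/-- `g` is the underlying function of a modular form of weight `κ` and level `Γ`. -/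
def IsMF (Γ : Subgroup (GL (Fin 2) ℝ)) (κ : ℤ) (g : ℍ → ℂ) : Prop :=
  ∃ F : ModularForm Γ κ, (⇑F : ℍ → ℂ) = g

/-- `g` is the underlying function of a cusp form of weight `κ` and level `Γ`. -/
def IsCF (Γ : Subgroup (GL (Fin 2) ℝ)) (κ : ℤ) (g : ℍ → ℂ) : Prop :=
  ∃ F : CuspForm Γ κ, (⇑F : ℍ → ℂ) = g

/-- The coset space `SL(2,ℤ) / Γ₀(N)` (as used by `SlashInvariantForm.quotientFunc`). -/
abbrev Coset (N : ℕ) : Type := 𝒮ℒ ⧸ (G0 N).subgroupOf 𝒮ℒ

/-- The universal finset of `Coset N` (for a fixed choice of `Fintype` instance). -/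
def cosetFinset (N : ℕ) [NeZero N] : Finset (Coset N) :=
  @Finset.univ (Coset N) (Fintype.ofFinite (Coset N))

@[simp] theorem mem_cosetFinset {N : ℕ} [NeZero N] (q : Coset N) : q ∈ cosetFinset N :=
  @Finset.mem_univ (Coset N) (Fintype.ofFinite (Coset N)) q

/-- `z ↦ N z` on the upper half plane. -/
def scaleN (N : ℕ) [NeZero N] (z : ℍ) : ℍ :=
  ⟨(N : ℂ) * (z : ℂ), by
    have hN : (0 : ℝ) < (N : ℝ) := Nat.cast_pos.mpr (Nat.pos_of_ne_zero (NeZero.ne N))
    have : ((N : ℂ) * (z : ℂ)).im = (N : ℝ) * z.im := by simp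
    rw [this]
    exact mul_pos hN z.im_pos⟩

@[simp] theorem coe_scaleN (N : ℕ) [NeZero N] (z : ℍ) : ((scaleN N z : ℍ) : ℂ) = (N : ℂ) * (z : ℂ) := rfl

/-- `z ↦ Δ(N z)`. -/
def deltaNFun (N : ℕ) [NeZero N] : ℍ → ℂ := fun z => discriminant (scaleN N z)

/-- `Θ(z) = Δ(z)^N / Δ(N z)`. -/
def thetaFun (N : ℕ) [NeZero N] : ℍ → ℂ := fun z => discriminant z ^ N / discriminant (scaleN N z)

/-- the weight of `thetaFun N`. -/
def thetaWeight (N : ℕ) : ℤ := 12 * ((N : ℤ) - 1)

/-- The power series has integer coefficients. -/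
def IsIntPS (F : PowerSeries ℂ) : Prop := ∀ n, ∃ z : ℤ, PowerSeries.coeff n F = (z : ℂ)

/-- The power series has rational coefficients. -/
def IsRatPS (F : PowerSeries ℂ) : Prop := ∀ n, ∃ r : ℚ, PowerSeries.coeff n F = (r : ℂ)

end Fermat.Agent.S23

end
end ZBS23_001_0

/-! ### bundled: `Fermat.Agent.S23.Interface` -/
section ZBS23_001_1

/-!
# S23 — the statements of the pieces, as `Prop`-valued definitions

Every piece of the S23 development is a theorem whose statement is one of the `Stmt…` propositions below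
(or an implication between them). Downstream pieces take the upstream statements as HYPOTHESES, so that
all pieces can be developed, built and landed independently; `Fermat/Agent/S23.lean` glues them.
-/

set_option autoImplicit false

noncomputable section

namespace Fermat.Agent.S23

open UpperHalfPlane ModularForm SlashInvariantForm
open scoped MatrixGroups ModularForm Manifold

/-- The identity coset of `Coset N`. -/
def coset1 (N : ℕ) : Coset N := QuotientGroup.mk 1

/-- The index `n = [SL(2,ℤ) : Γ₀(N)]`, as the cardinality of `cosetFinset N`. -/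
def cosetCard (N : ℕ) [NeZero N] : ℕ := (cosetFinset N).card

open scoped Classical in
/-- `D_Θ(z) = ∏_{q ≠ ⟦1⟧} (Θ(z) − Θ_q(z))`, where `Θ_q` are the translates of `Θ` (`quotientFunc`). -/
def Dfun {N : ℕ} [NeZero N] {w : ℤ} (Θ : ModularForm (G0 N) w) : ℍ → ℂ :=
  fun z => ∏ q ∈ (cosetFinset N).erase (coset1 N), (Θ z - quotientFunc Θ q z)

/-- (P5/L1) q-expansions of level-one modular forms are stable under ring homs `σ : ℂ →+* ℂ`. -/
def StmtL1 : Prop :=
  ∀ (σ : ℂ →+* ℂ) (m : ℤ) (a : ModularForm 𝒮ℒ m),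
    ∃ a' : ModularForm 𝒮ℒ m, qExpansion 1 a' = PowerSeries.map σ (qExpansion 1 a)

/-- (P4) level-one modular forms are in the `ℂ`-span of those with integral q-expansion. -/
def StmtP4 : Prop :=
  ∀ (m : ℤ) (a : ModularForm 𝒮ℒ m),
    a ∈ Submodule.span ℂ {b : ModularForm 𝒮ℒ m | IsIntPS (qExpansion 1 b)}

/-- (P6/B) algebraic ⇒ analytic. -/
def StmtB (N : ℕ) [NeZero N] : Prop :=
  ∀ (k W : ℤ) (n : ℕ), 1 ≤ n → ∀ (G D : ℍ → ℂ), IsMF (G0 N) (W + k) G → IsMF (G0 N) W D → D ≠ 0 →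
    ∀ (a : ℕ → ℍ → ℂ), (∀ m : ℕ, 1 ≤ m → m ≤ n → IsCF 𝒮ℒ ((m : ℤ) * k) (a m)) →
    (∀ z, G z ^ n + ∑ m ∈ Finset.Icc 1 n, a m z * G z ^ (n - m) * D z ^ m = 0) →
    ∃ f : CuspForm (G0 N) k, ∀ z, f z * D z = G z

/-- (P7 + P8) the form `Θ`: a modular form for `Γ₀(N)` with integral q-expansion, value `1` at `i∞`,
all of whose translates by `γ ∈ SL(2,ℤ) \ Γ₀(N)` vanish at `i∞`. (Any such `Θ` works; P7/P8 take
`Θ = Δ(z)^N / Δ(Nz)`.) -/
def StmtTheta (N : ℕ) [NeZero N] : Prop :=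
  ∃ (w : ℤ) (Θ : ModularForm (G0 N) w), IsIntPS (qExpansion 1 Θ) ∧ (qExpansion 1 Θ).coeff 0 = 1 ∧
    ∀ γ : SL(2, ℤ), γ ∉ CongruenceSubgroup.Gamma0 N → IsZeroAtImInfty ((⇑Θ : ℍ → ℂ) ∣[w] γ)

open scoped Classical in
/-- (P9) elementary symmetric functions of the translates are level-one forms. -/
def StmtEsymm (N : ℕ) [NeZero N] : Prop :=
  (∀ (k : ℤ) (f : ModularForm (G0 N) k) (m : ℕ),
    IsMF 𝒮ℒ ((m : ℤ) * k) (fun z => ∑ S ∈ Finset.powersetCard m (cosetFinset N),
      ∏ q ∈ S, quotientFunc f q z)) ∧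
  (∀ (k : ℤ) (f : CuspForm (G0 N) k) (m : ℕ), 1 ≤ m →
    IsCF 𝒮ℒ ((m : ℤ) * k) (fun z => ∑ S ∈ Finset.powersetCard m (cosetFinset N),
      ∏ q ∈ S, quotientFunc f q z)) ∧
  (∀ (k w : ℤ) (f : ModularForm (G0 N) k) (Θ : ModularForm (G0 N) w) (j : ℕ),
    IsMF 𝒮ℒ (k + (j : ℤ) * w) (fun z => ∑ q ∈ cosetFinset N, quotientFunc f q z *
      ∑ S ∈ Finset.powersetCard j ((cosetFinset N).erase q), ∏ q' ∈ S, quotientFunc Θ q' z))

/-- (P15a) the norm relation: a cusp form for `Γ₀(N)` is a root of a monic polynomial of degree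
`n = cosetCard N` whose lower coefficients are level-one cusp forms. -/
def StmtNormRel (N : ℕ) [NeZero N] : Prop :=
  ∀ (k : ℤ) (f : CuspForm (G0 N) k), ∃ a : ℕ → ℍ → ℂ,
    (∀ m : ℕ, 1 ≤ m → IsCF 𝒮ℒ ((m : ℤ) * k) (a m)) ∧
    ∀ z, f z ^ cosetCard N + ∑ m ∈ Finset.Icc 1 (cosetCard N), a m z * f z ^ (cosetCard N - m) = 0

/-- (P15b) the Lagrange relation: `f · D_Θ` is a polynomial in `Θ` of degree `< n` with level-one coefficients. -/
def StmtLagrangeRel (N : ℕ) [NeZero N] : Prop :=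
  ∀ (k w : ℤ) (f : ModularForm (G0 N) k) (Θ : ModularForm (G0 N) w), ∃ l : ℕ → ℍ → ℂ,
    (∀ j : ℕ, IsMF 𝒮ℒ (k + (j : ℤ) * w) (l j)) ∧
    ∀ z, f z * Dfun Θ z = ∑ j ∈ Finset.range (cosetCard N), l j z * Θ z ^ (cosetCard N - 1 - j)

/-- (N') almost integral ⇒ integral, for power series. -/
def StmtAlmostIntegral : Prop :=
  ∀ (x P Q : PowerSeries ℂ) (n : ℕ) (c : ℕ → PowerSeries ℂ),
    IsRatPS x → IsIntPS P → IsIntPS Q → Q ≠ 0 → Q * x = P →
    (∀ m : ℕ, 1 ≤ m → m ≤ n → IsIntPS (c m)) → 1 ≤ n →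
    x ^ n + ∑ m ∈ Finset.Icc 1 n, c m * x ^ (n - m) = 0 → IsIntPS x

/-- (P16) q-expansions of cusp forms of weight `k` for `Γ₀(N)` are stable under ring homs `σ : ℂ →+* ℂ`. -/
def StmtSigma (N : ℕ) [NeZero N] (k : ℤ) : Prop :=
  ∀ (σ : ℂ →+* ℂ) (f : CuspForm (G0 N) k),
    ∃ g : CuspForm (G0 N) k, qExpansion 1 g = PowerSeries.map σ (qExpansion 1 f)

/-- (P17) cusp forms with rational q-expansion span. -/
def StmtRatSpan (N : ℕ) [NeZero N] (k : ℤ) : Prop :=
  Submodule.span ℂ {f : CuspForm (G0 N) k | IsRatPS (qExpansion 1 f)} = ⊤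

/-- (P18) bounded denominators. -/
def StmtBdd (N : ℕ) [NeZero N] (k : ℤ) : Prop :=
  ∀ f : CuspForm (G0 N) k, IsRatPS (qExpansion 1 f) →
    ∃ M : ℕ, M ≠ 0 ∧ IsIntPS ((M : ℂ) • qExpansion 1 f)

end Fermat.Agent.S23

end
end ZBS23_001_1

/-! ### bundled: `Fermat.Agent.S23.Esymm` -/
section ZBS23_001_2

/-!
# S23, piece P9: symmetric functions of the `SL(2,ℤ)`-translates of a level `Γ₀(N)` form

For `f` a modular form of level `Γ₀(N)` and weight `k`, the elementary symmetric functions of the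
translates `f_q = f ∣[k] h⁻¹` (`q = ⟦h⟧ ∈ SL(2,ℤ)/Γ₀(N)`) are modular forms of level one
(`isMF_esymm`), cusp forms if `f` is (`isCF_esymm`), and so are the "Lagrange coefficients"
`∑_q f_q · e_j(Θ_{q'} : q' ≠ q)` (`isMF_lagrange`).
-/

set_option autoImplicit false
set_option linter.unusedSectionVars false

noncomputable section

namespace Fermat.Agent.S23

open UpperHalfPlane ModularForm SlashInvariantForm Filter
open scoped MatrixGroups ModularForm Manifold

section general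

variable {𝒢 : Subgroup (GL (Fin 2) ℝ)} [𝒢.IsFiniteRelIndex 𝒮ℒ]

local notation "𝒬" => 𝒮ℒ ⧸ (𝒢.subgroupOf 𝒮ℒ)

omit [𝒢.IsFiniteRelIndex 𝒮ℒ] in
/-- The translates of a modular form are holomorphic. -/
theorem esymm_mdiff_quotientFunc {k : ℤ} (f : ModularForm 𝒢 k) (q : 𝒬) :
    MDiff (quotientFunc f q) := by
  induction q using Quotient.inductionOn with
  | h r => exact (ModularForm.translate f r.val⁻¹).holo'

/-- The translates of a modular form are bounded at all cusps of `SL(2,ℤ)`. -/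
theorem esymm_isBoundedAt_quotientFunc {k : ℤ} (f : ModularForm 𝒢 k) (q : 𝒬)
    {c : OnePoint ℝ} (hc : IsCusp c 𝒮ℒ) (γ : GL (Fin 2) ℝ) (hγ : γ • OnePoint.infty = c) :
    IsBoundedAtImInfty (quotientFunc f q ∣[k] γ) := by
  induction q using Quotient.inductionOn with
  | h r =>
    obtain ⟨r, hr⟩ := r
    refine (ModularForm.translate f r⁻¹).bdd_at_cusps' ?_ γ hγ
    simpa using hc.of_isFiniteRelIndex_conj hr

/-- The translates of a cusp form vanish at all cusps of `SL(2,ℤ)`. -/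
theorem esymm_isZeroAt_quotientFunc {k : ℤ} (f : CuspForm 𝒢 k) (q : 𝒬)
    {c : OnePoint ℝ} (hc : IsCusp c 𝒮ℒ) (γ : GL (Fin 2) ℝ) (hγ : γ • OnePoint.infty = c) :
    IsZeroAtImInfty (quotientFunc f q ∣[k] γ) := by
  induction q using Quotient.inductionOn with
  | h r =>
    obtain ⟨r, hr⟩ := r
    refine (CuspForm.translate f r⁻¹).zero_at_cusps' ?_ γ hγ
    simpa using hc.of_isFiniteRelIndex_conj hr

end general

section sums

/-- A finite sum of holomorphic functions, each bounded at the cusps, whose sum is invariant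
under `SL(2,ℤ)`, is a modular form of level one. -/
theorem esymm_isMF_sum {ι : Type} (s : Finset ι) (g : ι → ℍ → ℂ) (κ : ℤ)
    (hol : ∀ t ∈ s, MDiff (g t))
    (bdd : ∀ t ∈ s, ∀ {c : OnePoint ℝ}, IsCusp c 𝒮ℒ → ∀ γ : GL (Fin 2) ℝ,
      γ • OnePoint.infty = c → IsBoundedAtImInfty (g t ∣[κ] γ))
    (inv : ∀ h ∈ 𝒮ℒ, (∑ t ∈ s, g t ∣[κ] h) = ∑ t ∈ s, g t) :
    IsMF 𝒮ℒ κ (fun z => ∑ t ∈ s, g t z) := by
  have hfun : (fun z => ∑ t ∈ s, g t z) = ∑ t ∈ s, g t := by
    ext z; simp [Finset.sum_apply]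
  rw [hfun]
  refine ⟨{ toFun := ∑ t ∈ s, g t
            slash_action_eq' := fun h hh => by
              rw [SlashAction.sum_slash]; exact inv h hh
            holo' := by
              change MDiff (∑ t ∈ s, g t)
              exact MDifferentiable.sum hol
            bdd_at_cusps' := fun {c} hc γ hγ => by
              rw [SlashAction.sum_slash, IsBoundedAtImInfty, BoundedAtFilter]
              exact Asymptotics.IsBigO.sum fun t ht => bdd t ht hc γ hγ }, rfl⟩

/-- A finite sum of holomorphic functions, each vanishing at the cusps, whose sum is invariant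
under `SL(2,ℤ)`, is a cusp form of level one. -/
theorem esymm_isCF_sum {ι : Type} (s : Finset ι) (g : ι → ℍ → ℂ) (κ : ℤ)
    (hol : ∀ t ∈ s, MDiff (g t))
    (zero : ∀ t ∈ s, ∀ {c : OnePoint ℝ}, IsCusp c 𝒮ℒ → ∀ γ : GL (Fin 2) ℝ,
      γ • OnePoint.infty = c → IsZeroAtImInfty (g t ∣[κ] γ))
    (inv : ∀ h ∈ 𝒮ℒ, (∑ t ∈ s, g t ∣[κ] h) = ∑ t ∈ s, g t) :
    IsCF 𝒮ℒ κ (fun z => ∑ t ∈ s, g t z) := by
  have hfun : (fun z => ∑ t ∈ s, g t z) = ∑ t ∈ s, g t := by
    ext z; simp [Finset.sum_apply]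
  rw [hfun]
  refine ⟨{ toFun := ∑ t ∈ s, g t
            slash_action_eq' := fun h hh => by
              rw [SlashAction.sum_slash]; exact inv h hh
            holo' := by
              change MDiff (∑ t ∈ s, g t)
              exact MDifferentiable.sum hol
            zero_at_cusps' := fun {c} hc γ hγ => by
              change IsZeroAtImInfty ((∑ t ∈ s, g t) ∣[κ] γ)
              rw [SlashAction.sum_slash, IsZeroAtImInfty, ZeroAtFilter]
              have h0 : (0 : ℂ) = ∑ _t ∈ s, (0 : ℂ) := by simp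
              rw [h0]
              have : (∑ t ∈ s, g t ∣[κ] γ) = fun z => ∑ t ∈ s, (g t ∣[κ] γ) z := by
                ext z; simp [Finset.sum_apply]
              rw [this]
              exact tendsto_finsetSum _ fun t ht => zero t ht hc γ hγ }, rfl⟩

end sums

section esymm

variable {𝒢 : Subgroup (GL (Fin 2) ℝ)} [𝒢.IsFiniteRelIndex 𝒮ℒ]

local notation "𝒬" => 𝒮ℒ ⧸ (𝒢.subgroupOf 𝒮ℒ)

omit [𝒢.IsFiniteRelIndex 𝒮ℒ] in
/-- Slash of a product of `m` translates by an arbitrary matrix. -/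
theorem esymm_prod_slash {k : ℤ} {F : Type*} [FunLike F ℍ ℂ] [SlashInvariantFormClass F 𝒢 k]
    (f : F) {m : ℕ} {S : Finset 𝒬} (hS : S.card = m) (γ : GL (Fin 2) ℝ) :
    (fun z => ∏ q ∈ S, quotientFunc f q z) ∣[(m : ℤ) * k] γ =
      |γ.det.val| ^ ((m : ℤ) - 1) • ∏ q ∈ S, (quotientFunc f q ∣[k] γ) := by
  have h1 : (fun z => ∏ q ∈ S, quotientFunc f q z) = ∏ q ∈ S, quotientFunc f q := by
    ext z; simp [Finset.prod_apply]
  rw [h1, mul_comm, ← hS]
  exact ModularForm.prod_slash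

/-- Slash of a product of translates by an element of `SL(2,ℤ)`: the translates are permuted. -/
theorem esymm_prod_slash_of_mem {k : ℤ} {F : Type*} [FunLike F ℍ ℂ]
    [SlashInvariantFormClass F 𝒢 k]
    (f : F) {m : ℕ} {S : Finset 𝒬} (hS : S.card = m) {h : GL (Fin 2) ℝ} (hh : h ∈ 𝒮ℒ) :
    (fun z => ∏ q ∈ S, quotientFunc f q z) ∣[(m : ℤ) * k] h =
      fun z => ∏ q ∈ S.map (MulAction.toPerm (⟨h, hh⟩ : 𝒮ℒ)⁻¹ : 𝒬 ≃ 𝒬).toEmbedding,
        quotientFunc f q z := by
  rw [esymm_prod_slash f hS h, Subgroup.HasDetPlusMinusOne.abs_det hh, one_zpow, one_smul]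
  ext z
  simp [Finset.prod_apply, quotientFunc_smul f hh]

/-- Reindexing a sum over `m`-subsets of a fintype along a permutation. -/
theorem esymm_sum_powersetCard_map {α : Type*} [Fintype α] {M : Type*} [AddCommMonoid M]
    (m : ℕ) (σ : α ≃ α) (G : Finset α → M) :
    ∑ S ∈ Finset.powersetCard m (Finset.univ : Finset α), G (S.map σ.toEmbedding) =
      ∑ S ∈ Finset.powersetCard m (Finset.univ : Finset α), G S := by
  have h1 : (Finset.univ : Finset α) = (Finset.univ : Finset α).map σ.toEmbedding := by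
    simp
  conv_rhs => rw [h1, Finset.powersetCard_map, Finset.sum_map]
  rfl

/-- Elementary symmetric functions of the translates of a modular form are level-one modular
forms (general finite-index subgroup, arbitrary `Fintype` instance on the coset space). -/
theorem esymm_isMF_esymm_aux [Fintype 𝒬] {k : ℤ} (f : ModularForm 𝒢 k) (m : ℕ) :
    IsMF 𝒮ℒ (m * k) (fun z => ∑ S ∈ Finset.powersetCard m (Finset.univ : Finset 𝒬),
      ∏ q ∈ S, quotientFunc f q z) := by
  refine esymm_isMF_sum (Finset.powersetCard m (Finset.univ : Finset 𝒬))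
    (fun S z => ∏ q ∈ S, quotientFunc f q z) (m * k) ?_ ?_ ?_
  · intro S _
    have h1 : (fun z => ∏ q ∈ S, quotientFunc f q z) = ∏ q ∈ S, quotientFunc f q := by
      ext z; simp [Finset.prod_apply]
    rw [h1]
    exact MDifferentiable.prod fun q _ => esymm_mdiff_quotientFunc f q
  · intro S hS c hc γ hγ
    rw [esymm_prod_slash f (Finset.mem_powersetCard.mp hS).2 γ, IsBoundedAtImInfty]
    refine BoundedAtFilter.smul _ (BoundedAtFilter.prod (s := S) ?_)
    intro q _
    exact esymm_isBoundedAt_quotientFunc f q hc γ hγ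
  · intro h hh
    rw [Finset.sum_congr rfl fun S hS =>
      esymm_prod_slash_of_mem f (Finset.mem_powersetCard.mp hS).2 hh]
    exact esymm_sum_powersetCard_map m _ (fun S z => ∏ q ∈ S, quotientFunc f q z)

/-- Elementary symmetric functions (of positive degree) of the translates of a cusp form are
level-one cusp forms. -/
theorem esymm_isCF_esymm_aux [Fintype 𝒬] {k : ℤ} (f : CuspForm 𝒢 k) (m : ℕ) (hm : 1 ≤ m) :
    IsCF 𝒮ℒ (m * k) (fun z => ∑ S ∈ Finset.powersetCard m (Finset.univ : Finset 𝒬),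
      ∏ q ∈ S, quotientFunc f q z) := by
  classical
  refine esymm_isCF_sum (Finset.powersetCard m (Finset.univ : Finset 𝒬))
    (fun S z => ∏ q ∈ S, quotientFunc f q z) (m * k) ?_ ?_ ?_
  · intro S _
    have h1 : (fun z => ∏ q ∈ S, quotientFunc f q z) = ∏ q ∈ S, quotientFunc f q := by
      ext z; simp [Finset.prod_apply]
    rw [h1]
    exact MDifferentiable.prod fun q _ =>
      esymm_mdiff_quotientFunc (f : ModularForm 𝒢 k) q
  · intro S hS c hc γ hγ
    have hcard := (Finset.mem_powersetCard.mp hS).2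
    rw [esymm_prod_slash f hcard γ, IsZeroAtImInfty]
    refine ZeroAtFilter.smul _ ?_
    have hne : S.Nonempty := by
      rw [← Finset.card_pos]; omega
    obtain ⟨q₀, hq₀⟩ := hne
    rw [← Finset.mul_prod_erase S _ hq₀]
    refine ZeroAtFilter.mul_boundedAtFilter ?_ (BoundedAtFilter.prod (s := S.erase q₀) ?_)
    · exact esymm_isZeroAt_quotientFunc f q₀ hc γ hγ
    · intro q _
      exact esymm_isBoundedAt_quotientFunc (f : ModularForm 𝒢 k) q hc γ hγ
  · intro h hh
    rw [Finset.sum_congr rfl fun S hS =>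
      esymm_prod_slash_of_mem f (Finset.mem_powersetCard.mp hS).2 hh]
    exact esymm_sum_powersetCard_map m _ (fun S z => ∏ q ∈ S, quotientFunc f q z)

/-- Slash of an elementary symmetric function of a subfamily of translates by an element of
`SL(2,ℤ)`. -/
theorem esymm_sub_slash_of_mem {w : ℤ} {F : Type*} [FunLike F ℍ ℂ]
    [SlashInvariantFormClass F 𝒢 w] (Θ : F) (j : ℕ) (A : Finset 𝒬)
    {h : GL (Fin 2) ℝ} (hh : h ∈ 𝒮ℒ) :
    (fun z => ∑ S ∈ Finset.powersetCard j A, ∏ q ∈ S, quotientFunc Θ q z) ∣[(j : ℤ) * w] h =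
      fun z => ∑ S ∈ Finset.powersetCard j
        (A.map (MulAction.toPerm (⟨h, hh⟩ : 𝒮ℒ)⁻¹ : 𝒬 ≃ 𝒬).toEmbedding),
          ∏ q ∈ S, quotientFunc Θ q z := by
  have h1 : (fun z => ∑ S ∈ Finset.powersetCard j A, ∏ q ∈ S, quotientFunc Θ q z) =
      ∑ S ∈ Finset.powersetCard j A, fun z => ∏ q ∈ S, quotientFunc Θ q z := by
    ext z; simp [Finset.sum_apply]
  rw [h1, SlashAction.sum_slash, Finset.sum_congr rfl fun S hS =>
      esymm_prod_slash_of_mem Θ (Finset.mem_powersetCard.mp hS).2 hh,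
    Finset.powersetCard_map]
  ext z
  simp [Finset.sum_apply, Finset.sum_map]

/-- An elementary symmetric function of a subfamily of translates is holomorphic. -/
theorem esymm_sub_mdiff {w : ℤ} (Θ : ModularForm 𝒢 w) (j : ℕ) (A : Finset 𝒬) :
    MDiff (fun z => ∑ S ∈ Finset.powersetCard j A, ∏ q ∈ S, quotientFunc Θ q z) := by
  have h1 : (fun z => ∑ S ∈ Finset.powersetCard j A, ∏ q ∈ S, quotientFunc Θ q z) =
      ∑ S ∈ Finset.powersetCard j A, ∏ q ∈ S, quotientFunc Θ q := by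
    ext z; simp [Finset.sum_apply, Finset.prod_apply]
  rw [h1]
  exact MDifferentiable.sum fun S _ =>
    MDifferentiable.prod fun q _ => esymm_mdiff_quotientFunc Θ q

/-- An elementary symmetric function of a subfamily of translates is bounded at the cusps. -/
theorem esymm_sub_isBoundedAt {w : ℤ} (Θ : ModularForm 𝒢 w) (j : ℕ) (A : Finset 𝒬)
    {c : OnePoint ℝ} (hc : IsCusp c 𝒮ℒ) (γ : GL (Fin 2) ℝ) (hγ : γ • OnePoint.infty = c) :
    IsBoundedAtImInfty
      ((fun z => ∑ S ∈ Finset.powersetCard j A, ∏ q ∈ S, quotientFunc Θ q z) ∣[(j : ℤ) * w] γ) := by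
  have h1 : (fun z => ∑ S ∈ Finset.powersetCard j A, ∏ q ∈ S, quotientFunc Θ q z) =
      ∑ S ∈ Finset.powersetCard j A, fun z => ∏ q ∈ S, quotientFunc Θ q z := by
    ext z; simp [Finset.sum_apply]
  rw [h1, SlashAction.sum_slash, IsBoundedAtImInfty, BoundedAtFilter]
  refine Asymptotics.IsBigO.sum fun S hS => ?_
  rw [esymm_prod_slash Θ (Finset.mem_powersetCard.mp hS).2 γ]
  refine BoundedAtFilter.smul _ (BoundedAtFilter.prod (s := S) ?_)
  intro q _
  exact esymm_isBoundedAt_quotientFunc Θ q hc γ hγ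

/-- The "Lagrange coefficients" `∑_q f_q · e_j(Θ_{q'} : q' ≠ q)` are level-one modular forms
(general finite-index subgroup, arbitrary `Fintype` and `DecidableEq` instances). -/
theorem esymm_isMF_lagrange_aux [Fintype 𝒬] [DecidableEq 𝒬] {k w : ℤ} (f : ModularForm 𝒢 k)
    (Θ : ModularForm 𝒢 w) (j : ℕ) :
    IsMF 𝒮ℒ (k + j * w) (fun z => ∑ q ∈ (Finset.univ : Finset 𝒬), quotientFunc f q z *
      ∑ S ∈ Finset.powersetCard j ((Finset.univ : Finset 𝒬).erase q),
        ∏ q' ∈ S, quotientFunc Θ q' z) := by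
  set E : 𝒬 → ℍ → ℂ := fun q z =>
    ∑ S ∈ Finset.powersetCard j ((Finset.univ : Finset 𝒬).erase q),
      ∏ q' ∈ S, quotientFunc Θ q' z with hE
  have hterm : ∀ q : 𝒬, (fun z => quotientFunc f q z * E q z) = quotientFunc f q * E q :=
    fun q => rfl
  refine esymm_isMF_sum (Finset.univ : Finset 𝒬)
    (fun q z => quotientFunc f q z * E q z) (k + j * w) ?_ ?_ ?_
  · intro q _
    rw [hterm]
    exact (esymm_mdiff_quotientFunc f q).mul (esymm_sub_mdiff Θ j _)
  · intro q _ c hc γ hγ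
    rw [hterm, ModularForm.mul_slash, IsBoundedAtImInfty]
    refine BoundedAtFilter.smul _ (BoundedAtFilter.mul ?_ ?_)
    · exact esymm_isBoundedAt_quotientFunc f q hc γ hγ
    · exact esymm_sub_isBoundedAt Θ j _ hc γ hγ
  · intro h hh
    have key : ∀ q : 𝒬, (fun z => quotientFunc f q z * E q z) ∣[k + j * w] h =
        (fun q z => quotientFunc f q z * E q z)
          ((MulAction.toPerm (⟨h, hh⟩ : 𝒮ℒ)⁻¹ : 𝒬 ≃ 𝒬) q) := by
      intro q
      rw [hterm, ModularForm.mul_slash, Subgroup.HasDetPlusMinusOne.abs_det hh, one_smul,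
        quotientFunc_smul f hh, hE]
      simp only
      rw [esymm_sub_slash_of_mem Θ j _ hh, Finset.map_erase]
      simp only [Finset.map_univ_equiv]
      rfl
    rw [Finset.sum_congr rfl fun q _ => key q]
    exact Equiv.sum_comp (MulAction.toPerm (⟨h, hh⟩ : 𝒮ℒ)⁻¹ : 𝒬 ≃ 𝒬)
      (fun q z => quotientFunc f q z * E q z)

end esymm

section interface

open scoped Classical in
/-- P9, first statement: elementary symmetric functions of the translates of a modular form of
level `Γ₀(N)` are modular forms of level one. -/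
theorem isMF_esymm {N : ℕ} [NeZero N] {k : ℤ} (f : ModularForm (G0 N) k) (m : ℕ) :
    IsMF 𝒮ℒ (m * k) (fun z => ∑ S ∈ Finset.powersetCard m (cosetFinset N),
      ∏ q ∈ S, quotientFunc f q z) :=
  @esymm_isMF_esymm_aux (G0 N) _ (Fintype.ofFinite (Coset N)) k f m

open scoped Classical in
/-- P9, second statement: elementary symmetric functions of positive degree of the translates of
a cusp form of level `Γ₀(N)` are cusp forms of level one. -/
theorem isCF_esymm {N : ℕ} [NeZero N] {k : ℤ} (f : CuspForm (G0 N) k) (m : ℕ) (hm : 1 ≤ m) :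
    IsCF 𝒮ℒ (m * k) (fun z => ∑ S ∈ Finset.powersetCard m (cosetFinset N),
      ∏ q ∈ S, quotientFunc f q z) :=
  @esymm_isCF_esymm_aux (G0 N) _ (Fintype.ofFinite (Coset N)) k f m hm

open scoped Classical in
/-- P9, third statement: the Lagrange coefficients are modular forms of level one. -/
theorem isMF_lagrange {N : ℕ} [NeZero N] {k w : ℤ} (f : ModularForm (G0 N) k)
    (Θ : ModularForm (G0 N) w) (j : ℕ) :
    IsMF 𝒮ℒ (k + j * w) (fun z => ∑ q ∈ cosetFinset N, quotientFunc f q z *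
      ∑ S ∈ Finset.powersetCard j ((cosetFinset N).erase q), ∏ q' ∈ S, quotientFunc Θ q' z) :=
  @esymm_isMF_lagrange_aux (G0 N) _ (Fintype.ofFinite (Coset N)) _ k w f Θ j

end interface

end Fermat.Agent.S23

end
end ZBS23_001_2

/-! ### bundled: `Fermat.Agent.S23.MFClosure` -/
section ZBS23_001_3

/-!
# S23 piece P12: closure properties of `IsMF` / `IsCF` and q-expansion lemmas
-/

set_option autoImplicit false

noncomputable section

namespace Fermat.Agent.S23

open UpperHalfPlane ModularForm SlashInvariantForm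
open scoped MatrixGroups ModularForm Manifold

variable {Γ : Subgroup (GL (Fin 2) ℝ)} {N : ℕ} [NeZero N] {κ κ₁ κ₂ : ℤ} {f g : ℍ → ℂ}

theorem IsCF.isMF (h : IsCF Γ κ f) : IsMF Γ κ f := by
  obtain ⟨F, rfl⟩ := h
  exact ⟨ModularFormClass.modularForm F, rfl⟩

theorem IsMF.of_weight_eq (h : IsMF Γ κ₁ f) (e : κ₁ = κ₂) : IsMF Γ κ₂ f := e ▸ h

theorem IsCF.of_weight_eq (h : IsCF Γ κ₁ f) (e : κ₁ = κ₂) : IsCF Γ κ₂ f := e ▸ h

theorem IsMF.zero : IsMF Γ κ (0 : ℍ → ℂ) := ⟨0, rfl⟩

theorem IsCF.zero : IsCF Γ κ (0 : ℍ → ℂ) := ⟨0, rfl⟩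

theorem IsMF.add (hf : IsMF Γ κ f) (hg : IsMF Γ κ g) : IsMF Γ κ (f + g) := by
  obtain ⟨F, rfl⟩ := hf
  obtain ⟨G, rfl⟩ := hg
  exact ⟨F + G, rfl⟩

theorem IsCF.add (hf : IsCF Γ κ f) (hg : IsCF Γ κ g) : IsCF Γ κ (f + g) := by
  obtain ⟨F, rfl⟩ := hf
  obtain ⟨G, rfl⟩ := hg
  exact ⟨F + G, rfl⟩

theorem IsMF.neg (hf : IsMF Γ κ f) : IsMF Γ κ (-f) := by
  obtain ⟨F, rfl⟩ := hf
  exact ⟨-F, rfl⟩

theorem IsCF.neg (hf : IsCF Γ κ f) : IsCF Γ κ (-f) := by
  obtain ⟨F, rfl⟩ := hf
  exact ⟨-F, rfl⟩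

theorem IsMF.sub (hf : IsMF Γ κ f) (hg : IsMF Γ κ g) : IsMF Γ κ (f - g) := by
  obtain ⟨F, rfl⟩ := hf
  obtain ⟨G, rfl⟩ := hg
  exact ⟨F - G, rfl⟩

theorem IsCF.sub (hf : IsCF Γ κ f) (hg : IsCF Γ κ g) : IsCF Γ κ (f - g) := by
  obtain ⟨F, rfl⟩ := hf
  obtain ⟨G, rfl⟩ := hg
  exact ⟨F - G, rfl⟩

theorem IsMF.const_smul [Γ.HasDetOne] (c : ℂ) (hf : IsMF Γ κ f) : IsMF Γ κ (c • f) := by
  obtain ⟨F, rfl⟩ := hf
  exact ⟨c • F, rfl⟩

theorem IsCF.const_smul [Γ.HasDetOne] (c : ℂ) (hf : IsCF Γ κ f) : IsCF Γ κ (c • f) := by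
  obtain ⟨F, rfl⟩ := hf
  exact ⟨c • F, rfl⟩

theorem IsMF.mul [Γ.HasDetPlusMinusOne] (hf : IsMF Γ κ₁ f) (hg : IsMF Γ κ₂ g) :
    IsMF Γ (κ₁ + κ₂) (f * g) := by
  obtain ⟨F, rfl⟩ := hf
  obtain ⟨G, rfl⟩ := hg
  exact ⟨F.mul G, rfl⟩

theorem IsCF.mul_isMF [Γ.HasDetPlusMinusOne] (hf : IsCF Γ κ₁ f) (hg : IsMF Γ κ₂ g) :
    IsCF Γ (κ₁ + κ₂) (f * g) := by
  obtain ⟨F, rfl⟩ := hf
  obtain ⟨G, rfl⟩ := hg
  exact ⟨F.mulModularForm G, rfl⟩

theorem IsMF.one [Γ.HasDetPlusMinusOne] : IsMF Γ 0 (1 : ℍ → ℂ) :=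
  ⟨1, ModularForm.one_coe_eq_one⟩

theorem IsMF.pow [Γ.HasDetPlusMinusOne] (hf : IsMF Γ κ f) (n : ℕ) : IsMF Γ (n * κ) (f ^ n) := by
  obtain ⟨F, rfl⟩ := hf
  exact ⟨F.pow n, ModularForm.coe_pow F n⟩

theorem IsMF.sum {ι : Type*} (s : Finset ι) (F : ι → ℍ → ℂ) (hF : ∀ i ∈ s, IsMF Γ κ (F i)) :
    IsMF Γ κ (∑ i ∈ s, F i) := by
  classical
  induction s using Finset.induction_on with
  | empty => simpa using (IsMF.zero : IsMF Γ κ (0 : ℍ → ℂ))
  | insert a s ha ih =>
    rw [Finset.sum_insert ha]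
    exact (hF a (Finset.mem_insert_self a s)).add
      (ih fun i hi => hF i (Finset.mem_insert_of_mem hi))

theorem IsCF.sum {ι : Type*} (s : Finset ι) (F : ι → ℍ → ℂ) (hF : ∀ i ∈ s, IsCF Γ κ (F i)) :
    IsCF Γ κ (∑ i ∈ s, F i) := by
  classical
  induction s using Finset.induction_on with
  | empty => simpa using (IsCF.zero : IsCF Γ κ (0 : ℍ → ℂ))
  | insert a s ha ih =>
    rw [Finset.sum_insert ha]
    exact (hF a (Finset.mem_insert_self a s)).add
      (ih fun i hi => hF i (Finset.mem_insert_of_mem hi))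

theorem mfclosure_G0_le (N : ℕ) : G0 N ≤ 𝒮ℒ := by
  rintro _ ⟨γ, -, rfl⟩
  exact ⟨γ, rfl⟩

/-- restriction of the level: level one ⇒ level `Γ₀(N)`. -/
theorem IsMF.of_levelOne (hf : IsMF 𝒮ℒ κ f) : IsMF (G0 N) κ f := by
  obtain ⟨F, rfl⟩ := hf
  exact ⟨{ toFun := F
           slash_action_eq' := fun A hA => F.slash_action_eq' A (mfclosure_G0_le N hA)
           holo' := F.holo'
           bdd_at_cusps' := fun hc => F.bdd_at_cusps' (hc.mono (mfclosure_G0_le N)) }, rfl⟩

theorem IsCF.of_levelOne (hf : IsCF 𝒮ℒ κ f) : IsCF (G0 N) κ f := by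
  obtain ⟨F, rfl⟩ := hf
  exact ⟨{ toFun := F
           slash_action_eq' := fun A hA => F.slash_action_eq' A (mfclosure_G0_le N hA)
           holo' := F.holo'
           zero_at_cusps' := fun hc => F.zero_at_cusps' (hc.mono (mfclosure_G0_le N)) }, rfl⟩

theorem mfclosure_one_mem_strictPeriods (N : ℕ) : (1 : ℝ) ∈ (G0 N).strictPeriods :=
  CongruenceSubgroup.one_mem_strictPeriods_Gamma0 N

theorem IsMF.analyticAt_cuspFunction (hf : IsMF (G0 N) κ f) :
    AnalyticAt ℂ (cuspFunction 1 f) 0 := by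
  obtain ⟨F, rfl⟩ := hf
  exact ModularFormClass.analyticAt_cuspFunction_zero F one_pos (mfclosure_one_mem_strictPeriods N)

theorem IsMF.qExpansion_add (hf : IsMF (G0 N) κ₁ f) (hg : IsMF (G0 N) κ₂ g) :
    qExpansion 1 (f + g) = qExpansion 1 f + qExpansion 1 g :=
  UpperHalfPlane.qExpansion_add hf.analyticAt_cuspFunction hg.analyticAt_cuspFunction

theorem IsMF.qExpansion_sub (hf : IsMF (G0 N) κ₁ f) (hg : IsMF (G0 N) κ₂ g) :
    qExpansion 1 (f - g) = qExpansion 1 f - qExpansion 1 g :=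
  UpperHalfPlane.qExpansion_sub hf.analyticAt_cuspFunction hg.analyticAt_cuspFunction

theorem IsMF.qExpansion_neg (hf : IsMF (G0 N) κ f) :
    qExpansion 1 (-f) = -qExpansion 1 f :=
  UpperHalfPlane.qExpansion_neg hf.analyticAt_cuspFunction

theorem IsMF.qExpansion_mul (hf : IsMF (G0 N) κ₁ f) (hg : IsMF (G0 N) κ₂ g) :
    qExpansion 1 (f * g) = qExpansion 1 f * qExpansion 1 g :=
  UpperHalfPlane.qExpansion_mul hf.analyticAt_cuspFunction hg.analyticAt_cuspFunction

theorem IsMF.qExpansion_smul (c : ℂ) (hf : IsMF (G0 N) κ f) :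
    qExpansion 1 (c • f) = c • qExpansion 1 f :=
  UpperHalfPlane.qExpansion_smul hf.analyticAt_cuspFunction c

theorem IsMF.qExpansion_pow (hf : IsMF (G0 N) κ f) (n : ℕ) :
    qExpansion 1 (f ^ n) = qExpansion 1 f ^ n := by
  induction n with
  | zero => simpa using UpperHalfPlane.qExpansion_one 1
  | succ n ih =>
    rw [pow_succ, pow_succ, (hf.pow n).qExpansion_mul hf, ih]

theorem IsMF.qExpansion_sum {ι : Type*} (s : Finset ι) (F : ι → ℍ → ℂ) (κs : ι → ℤ)
    (hF : ∀ i ∈ s, IsMF (G0 N) (κs i) (F i)) :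
    qExpansion 1 (∑ i ∈ s, F i) = ∑ i ∈ s, qExpansion 1 (F i) := by
  classical
  -- analyticity of the cusp function of a finite sum
  have key : ∀ t : Finset ι, (∀ i ∈ t, IsMF (G0 N) (κs i) (F i)) →
      AnalyticAt ℂ (cuspFunction 1 (∑ i ∈ t, F i)) 0 ∧
        qExpansion 1 (∑ i ∈ t, F i) = ∑ i ∈ t, qExpansion 1 (F i) := by
    intro t
    induction t using Finset.induction_on with
    | empty =>
      intro _
      refine ⟨?_, by simpa using UpperHalfPlane.qExpansion_zero 1⟩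
      simpa using (IsMF.zero : IsMF (G0 N) 0 (0 : ℍ → ℂ)).analyticAt_cuspFunction
    | insert a t ha ih =>
      intro h
      obtain ⟨h1, h2⟩ := ih fun i hi => h i (Finset.mem_insert_of_mem hi)
      have ha' := (h a (Finset.mem_insert_self a t)).analyticAt_cuspFunction
      rw [Finset.sum_insert ha, Finset.sum_insert ha]
      refine ⟨?_, ?_⟩
      · rw [UpperHalfPlane.cuspFunction_add ha'.continuousAt h1.continuousAt]
        exact ha'.add h1
      · rw [UpperHalfPlane.qExpansion_add ha' h1, h2]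
  exact (key s hF).2

theorem IsMF.eq_zero_of_qExpansion_eq_zero (hf : IsMF (G0 N) κ f) (h : qExpansion 1 f = 0) :
    f = 0 := by
  obtain ⟨F, rfl⟩ := hf
  have : Fact (IsCusp OnePoint.infty (G0 N)) :=
    ⟨(G0 N).isCusp_of_mem_strictPeriods one_pos (mfclosure_one_mem_strictPeriods N)⟩
  exact (UpperHalfPlane.qExpansion_eq_zero_iff one_pos
    (SlashInvariantFormClass.periodic_comp_ofComplex F (mfclosure_one_mem_strictPeriods N))
    (ModularFormClass.holo F) (ModularFormClass.bdd_at_infty F)).mp h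

/-- value at `i∞` = constant coefficient -/
theorem IsMF.tendsto_coeff_zero (hf : IsMF (G0 N) κ f) :
    Filter.Tendsto f atImInfty (nhds ((qExpansion 1 f).coeff 0)) := by
  have han := hf.analyticAt_cuspFunction
  obtain ⟨F, rfl⟩ := hf
  have hper := SlashInvariantFormClass.periodic_comp_ofComplex F
    (mfclosure_one_mem_strictPeriods N)
  have h0 : (qExpansion 1 F).coeff 0 = cuspFunction 1 F 0 := by
    simp [UpperHalfPlane.qExpansion_coeff]
  rw [h0]
  have : (cuspFunction 1 F ∘ fun τ : ℍ ↦ Function.Periodic.qParam 1 τ : ℍ → ℂ) = F := by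
    funext τ
    simpa using UpperHalfPlane.eq_cuspFunction τ one_ne_zero hper
  have h2 := han.continuousAt.tendsto.comp (UpperHalfPlane.qParam_tendsto_atImInfty one_pos)
  rw [this] at h2
  exact h2

/-- a level-one modular form with vanishing constant coefficient is a cusp form -/
theorem IsMF.isCF_levelOne_of_coeff_zero (hf : IsMF 𝒮ℒ κ f) (h : (qExpansion 1 f).coeff 0 = 0) :
    IsCF 𝒮ℒ κ f := by
  obtain ⟨F, rfl⟩ := hf
  exact ⟨ModularForm.toCuspForm F h, funext fun z => ModularForm.toCuspForm_apply F h z⟩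

theorem IsCF.coeff_zero (hf : IsCF (G0 N) κ f) : (qExpansion 1 f).coeff 0 = 0 := by
  obtain ⟨F, rfl⟩ := hf
  exact CuspFormClass.qExpansion_coeff_zero F one_pos (mfclosure_one_mem_strictPeriods N)

end Fermat.Agent.S23

end
end ZBS23_001_3

/-! ### bundled: `Fermat.Agent.S23.NormPoly` -/
section ZBS23_001_4

/-!
# S23, piece P15: the norm relation and the Lagrange relation

* `Fermat.Agent.S23.esymm_stmt : StmtEsymm N` (packaging of `Esymm.lean`);
* `Fermat.Agent.S23.normPoly_of_esymm : StmtEsymm N → StmtNormRel N ∧ StmtLagrangeRel N`.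
-/

set_option autoImplicit false

noncomputable section

namespace Fermat.Agent.S23

open UpperHalfPlane ModularForm SlashInvariantForm
open scoped MatrixGroups ModularForm Manifold

/-- Vieta's formula for a finite product `∏ (X - x i)`, in an arbitrary commutative ring. -/
theorem normPoly_vieta {R : Type*} [CommRing R] {ι : Type*} (s : Finset ι) (x : ι → R) (X : R) :
    ∏ i ∈ s, (X - x i) = ∑ j ∈ Finset.range (s.card + 1),
      (-1) ^ j * (∑ t ∈ Finset.powersetCard j s, ∏ i ∈ t, x i) * X ^ (s.card - j) := by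
  have h := congrArg (Polynomial.eval X) (Multiset.prod_X_sub_X_eq_sum_esymm (s.val.map x))
  simp only [Multiset.map_map, Function.comp_def, Multiset.card_map, Finset.card_val,
    Finset.esymm_map_val, Polynomial.eval_finsetSum, Polynomial.eval_mul, Polynomial.eval_pow,
    Polynomial.eval_neg, Polynomial.eval_one, Polynomial.eval_C, Polynomial.eval_X] at h
  have h2 : Polynomial.eval X
      (Multiset.map (fun i => Polynomial.X - Polynomial.C (x i)) s.val).prod =
      ∏ i ∈ s, (X - x i) := by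
    rw [Polynomial.eval_multiset_prod, Multiset.map_map]
    simp only [Function.comp_def, Polynomial.eval_sub, Polynomial.eval_X, Polynomial.eval_C]
    rfl
  rw [← h2, h]
  exact Finset.sum_congr rfl fun j _ => by ring

/-- P9 packaged as the statement `StmtEsymm N` of the interface. -/
theorem esymm_stmt (N : ℕ) [NeZero N] : StmtEsymm N :=
  ⟨fun _ f m => isMF_esymm f m, fun _ f m hm => isCF_esymm f m hm,
    fun _ _ f Θ j => isMF_lagrange f Θ j⟩

/-- The translate attached to the identity coset is the form itself. -/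
theorem normPoly_quotientFunc_coset1 {N : ℕ} {k : ℤ} {F : Type*} [FunLike F ℍ ℂ]
    [SlashInvariantFormClass F (G0 N) k] (f : F) (z : ℍ) :
    quotientFunc f (coset1 N) z = f z := by
  have h : quotientFunc f (coset1 N) = (f : ℍ → ℂ) ∣[k] ((1 : 𝒮ℒ) : GL (Fin 2) ℝ)⁻¹ :=
    quotientFunc_mk f (1 : 𝒮ℒ)
  rw [h]
  simp

/-- `cosetCard N` is positive. -/
theorem normPoly_cosetCard_pos (N : ℕ) [NeZero N] : 0 < cosetCard N :=
  Finset.card_pos.mpr ⟨coset1 N, mem_cosetFinset _⟩

/-- Sum over `Icc 1 n` as a shifted sum over `range n`. -/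
theorem normPoly_sum_Icc {M : Type*} [AddCommMonoid M] (n : ℕ) (G : ℕ → M) :
    ∑ m ∈ Finset.Icc 1 n, G m = ∑ j ∈ Finset.range n, G (j + 1) := by
  rw [← Finset.Ico_add_one_right_eq_Icc, Finset.sum_Ico_eq_sum_range]
  simp [add_comm]

/-- (P15a) the norm relation. -/
theorem normPoly_normRel (N : ℕ) [NeZero N] (h : StmtEsymm N) : StmtNormRel N := by
  intro k f
  refine ⟨fun m z => (-1 : ℂ) ^ m * ∑ S ∈ Finset.powersetCard m (cosetFinset N),
      ∏ q ∈ S, quotientFunc f q z, fun m hm => ?_, fun z => ?_⟩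
  · exact (h.2.1 k f m hm).const_smul ((-1 : ℂ) ^ m)
  · have hv := normPoly_vieta (cosetFinset N) (fun q => quotientFunc f q z) (f z)
    have h0 : ∏ q ∈ cosetFinset N, (f z - quotientFunc f q z) = 0 :=
      Finset.prod_eq_zero (mem_cosetFinset (coset1 N))
        (by rw [normPoly_quotientFunc_coset1]; exact sub_self _)
    rw [h0, Finset.sum_range_succ'] at hv
    rw [normPoly_sum_Icc, cosetCard]
    simp only [pow_zero, one_mul, Finset.powersetCard_zero, Finset.sum_singleton,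
      Finset.prod_empty, Nat.sub_zero] at hv
    rw [hv, add_comm]

open scoped Classical in
/-- (P15b) the Lagrange relation. -/
theorem normPoly_lagrangeRel (N : ℕ) [NeZero N] (h : StmtEsymm N) : StmtLagrangeRel N := by
  intro k w f Θ
  refine ⟨fun j z => (-1 : ℂ) ^ j * ∑ q ∈ cosetFinset N, quotientFunc f q z *
      ∑ S ∈ Finset.powersetCard j ((cosetFinset N).erase q), ∏ q' ∈ S, quotientFunc Θ q' z,
    fun j => ?_, fun z => ?_⟩
  · exact (h.2.2 k w f Θ j).const_smul ((-1 : ℂ) ^ j)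
  · have hcard : ∀ q : Coset N, ((cosetFinset N).erase q).card + 1 = cosetCard N := fun q => by
      rw [Finset.card_erase_of_mem (mem_cosetFinset q), cosetCard]
      exact Nat.sub_add_cancel (normPoly_cosetCard_pos N)
    have hcard' : ∀ q : Coset N, ((cosetFinset N).erase q).card = cosetCard N - 1 := fun q => by
      have := hcard q; omega
    -- each `∏_{q' ≠ q} (Θ - Θ_{q'})` expanded by Vieta
    have hv : ∀ q : Coset N, ∏ q' ∈ (cosetFinset N).erase q, (Θ z - quotientFunc Θ q' z) =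
        ∑ j ∈ Finset.range (cosetCard N), (-1 : ℂ) ^ j *
          (∑ S ∈ Finset.powersetCard j ((cosetFinset N).erase q), ∏ q' ∈ S, quotientFunc Θ q' z) *
            Θ z ^ (cosetCard N - 1 - j) := fun q => by
      rw [normPoly_vieta ((cosetFinset N).erase q) (fun q' => quotientFunc Θ q' z) (Θ z),
        hcard q, hcard' q]
    -- the sum over `q` of `f_q ∏_{q' ≠ q} (Θ - Θ_{q'})` reduces to the term `q = ⟦1⟧`
    have hsum : ∑ q ∈ cosetFinset N, quotientFunc f q z *
        ∏ q' ∈ (cosetFinset N).erase q, (Θ z - quotientFunc Θ q' z) = f z * Dfun Θ z := by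
      rw [Finset.sum_eq_single (coset1 N)]
      · rw [normPoly_quotientFunc_coset1]; rfl
      · intro q _ hq
        have hmem : coset1 N ∈ (cosetFinset N).erase q :=
          Finset.mem_erase.mpr ⟨fun e => hq e.symm, mem_cosetFinset _⟩
        rw [Finset.prod_eq_zero hmem (by rw [normPoly_quotientFunc_coset1]; exact sub_self _),
          mul_zero]
      · intro hne; exact absurd (mem_cosetFinset _) hne
    rw [← hsum]
    simp only [hv, Finset.mul_sum, Finset.sum_mul]
    rw [Finset.sum_comm]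
    refine Finset.sum_congr rfl fun j _ => Finset.sum_congr rfl fun q _ => ?_
    refine Finset.sum_congr rfl fun S _ => ?_
    ring

/-- (P15) the norm relation and the Lagrange relation, from the symmetric-function statement. -/
theorem normPoly_of_esymm (N : ℕ) [NeZero N] : StmtEsymm N → StmtNormRel N ∧ StmtLagrangeRel N :=
  fun h => ⟨normPoly_normRel N h, normPoly_lagrangeRel N h⟩

end Fermat.Agent.S23

end
end ZBS23_001_4

/-! ### bundled: `Fermat.Agent.S23.ThetaSlash` -/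
section ZBS23_001_5

/-!
# S23, piece P8: the translates `Θ ∣[w] γ` of `Θ = Δ^N / Δ(N z)` under `γ ∈ SL(2, ℤ)`

* `P8_exists_hermite` : Hermite decomposition `[[N,0],[0,1]] γ = γ' [[A,B],[0,D]]`.
* `P8_thetaFun_slash_apply` : `(Θ ∣[w] γ) z = D^12 Δ(z)^N / Δ((A z + B) / D)`.
* `thetaFun_slash_isBoundedAtImInfty`, `thetaFun_slash_isZeroAtImInfty`.
-/

set_option autoImplicit false

noncomputable section

namespace Fermat.Agent.S23

open UpperHalfPlane ModularForm Filter Asymptotics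
open scoped MatrixGroups ModularForm Manifold Topology Real

/-- Hermite decomposition over `ℤ`: `[[N,0],[0,1]] * γ = γ' * [[A,B],[0,D]]`, entrywise. -/
theorem P8_exists_hermite (N : ℕ) [NeZero N] (γ : SL(2, ℤ)) :
    ∃ (γ' : SL(2, ℤ)) (A B D : ℤ), 0 < A ∧ 0 < D ∧ A * D = N ∧
      (N : ℤ) * γ 0 0 = γ' 0 0 * A ∧ (N : ℤ) * γ 0 1 = γ' 0 0 * B + γ' 0 1 * D ∧
      γ 1 0 = γ' 1 0 * A ∧ γ 1 1 = γ' 1 0 * B + γ' 1 1 * D ∧
      (A = N → γ ∈ CongruenceSubgroup.Gamma0 N) := by
  have hN : (N : ℤ) ≠ 0 := by exact_mod_cast NeZero.ne N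
  have hNpos : (0 : ℤ) < N := by exact_mod_cast Nat.pos_of_ne_zero (NeZero.ne N)
  have hdet : γ 0 0 * γ 1 1 - γ 0 1 * γ 1 0 = 1 := by
    have := γ.2
    rw [Matrix.det_fin_two] at this
    exact this
  set a := γ 0 0 with ha
  set b := γ 0 1 with hb
  set c := γ 1 0 with hc
  set d := γ 1 1 with hd
  -- A = gcd(N, c)
  set g : ℕ := Int.gcd (N : ℤ) c with hg
  have hgpos : 0 < g := Int.gcd_pos_of_ne_zero_left _ hN
  obtain ⟨D, hD⟩ : (g : ℤ) ∣ (N : ℤ) := Int.gcd_dvd_left _ _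
  obtain ⟨c₁, hc₁⟩ : (g : ℤ) ∣ c := Int.gcd_dvd_right _ _
  have hgpos' : (0 : ℤ) < g := by exact_mod_cast hgpos
  have hDpos : 0 < D := by
    by_contra h
    rw [not_lt] at h
    have : (g : ℤ) * D ≤ 0 := mul_nonpos_of_nonneg_of_nonpos hgpos'.le h
    omega
  -- D and c₁ are coprime
  have hcop1 : IsCoprime D c₁ := by
    have h := Int.isCoprime_iff_gcd_eq_one.mpr (Int.gcd_div_gcd_div_gcd (i := (N : ℤ)) (j := c) hgpos)
    have e1 : (N : ℤ) / (g : ℤ) = D := by
      rw [hD]; exact Int.mul_ediv_cancel_left _ hgpos'.ne'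
    have e2 : c / (g : ℤ) = c₁ := by
      rw [hc₁]; exact Int.mul_ediv_cancel_left _ hgpos'.ne'
    rwa [← hg, e1, e2] at h
  -- a and c₁ are coprime
  have hcop2 : IsCoprime a c₁ := by
    refine ⟨d, -b * g, ?_⟩
    rw [hc₁] at hdet
    linear_combination hdet
  have hcop : IsCoprime (D * a) c₁ := hcop1.mul_left hcop2
  obtain ⟨x, y, hxy⟩ := hcop
  -- γ' = [[D a, -y], [c₁, x]]
  refine ⟨⟨!![D * a, -y; c₁, x], ?_⟩, g, x * N * b + y * d, D, hgpos', hDpos, hD.symm, ?_, ?_, ?_, ?_, ?_⟩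
  · rw [Matrix.det_fin_two_of]
    linear_combination hxy
  · show (N : ℤ) * a = D * a * g
    rw [hD]; ring
  · show (N : ℤ) * b = D * a * (x * N * b + y * d) + (-y) * D
    rw [hc₁] at hdet
    rw [hD]
    linear_combination (-(g : ℤ) * D * b) * hxy - (D * y) * hdet
  · show c = c₁ * g
    rw [hc₁]; ring
  · show d = c₁ * (x * N * b + y * d) + x * D
    rw [hc₁] at hdet
    rw [hD]
    linear_combination (-d) * hxy + (D * x) * hdet
  · intro hgN
    rw [CongruenceSubgroup.Gamma0_mem]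
    show ((c : ℤ) : ZMod N) = 0
    rw [ZMod.intCast_zmod_eq_zero_iff_dvd]
    rw [← hgN]
    exact Int.gcd_dvd_right _ _


/-- The point `(A z + B) / D` of the upper half plane. -/
def P8_betaPt (A B D : ℤ) (hA : 0 < A) (hD : 0 < D) (z : ℍ) : ℍ :=
  ⟨((A : ℂ) * (z : ℂ) + (B : ℂ)) / (D : ℂ), by
    have hA' : (0 : ℝ) < (A : ℝ) := by exact_mod_cast hA
    have hD' : (0 : ℝ) < (D : ℝ) := by exact_mod_cast hD
    have h1 : (((A : ℂ) * (z : ℂ) + (B : ℂ)) / (D : ℂ)) = (((A : ℝ) * (z : ℂ) + (B : ℝ)) / ((D : ℝ) : ℂ)) := by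
      push_cast; ring
    rw [h1, Complex.div_ofReal_im]
    have h2 : (((A : ℝ) : ℂ) * (z : ℂ) + ((B : ℝ) : ℂ)).im = (A : ℝ) * z.im := by
      simp
    rw [h2]
    exact div_pos (mul_pos hA' z.im_pos) hD'⟩

theorem P8_coe_betaPt (A B D : ℤ) (hA : 0 < A) (hD : 0 < D) (z : ℍ) :
    ((P8_betaPt A B D hA hD z : ℍ) : ℂ) = ((A : ℂ) * (z : ℂ) + (B : ℂ)) / (D : ℂ) := rfl

theorem P8_im_betaPt (A B D : ℤ) (hA : 0 < A) (hD : 0 < D) (z : ℍ) :
    (P8_betaPt A B D hA hD z).im = (A : ℝ) / (D : ℝ) * z.im := by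
  have h1 : (((A : ℂ) * (z : ℂ) + (B : ℂ)) / (D : ℂ)) = (((A : ℝ) * (z : ℂ) + (B : ℝ)) / ((D : ℝ) : ℂ)) := by
    push_cast; ring
  show (((A : ℂ) * (z : ℂ) + (B : ℂ)) / (D : ℂ)).im = _
  rw [h1, Complex.div_ofReal_im]
  have h2 : (((A : ℝ) : ℂ) * (z : ℂ) + ((B : ℝ) : ℂ)).im = (A : ℝ) * z.im := by
    simp
  rw [h2]
  ring

/-- `Δ(γ z) = (c z + d)^12 Δ(z)`. -/
theorem P8_discriminant_smul (γ : SL(2, ℤ)) (z : ℍ) :
    discriminant (γ • z) = ((γ 1 0 : ℂ) * z + (γ 1 1 : ℂ)) ^ (12 : ℕ) * discriminant z := by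
  have h : (discriminant ∣[(12 : ℤ)] γ) z = discriminant z := by
    have h1 := SlashInvariantForm.slash_action_eqn CuspForm.discriminant
      (γ : GL (Fin 2) ℝ) ⟨γ, rfl⟩
    exact congrFun h1 z
  have := (ModularForm.slash_action_eq'_iff 12 discriminant γ z).mp h
  rw [this]
  norm_cast


theorem P8_denom_ne_zero (γ : SL(2, ℤ)) (z : ℍ) : ((γ 1 0 : ℂ) * z + (γ 1 1 : ℂ)) ≠ 0 := by
  have := UpperHalfPlane.denom_ne_zero (γ : GL (Fin 2) ℝ) z
  simpa [UpperHalfPlane.denom] using this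

theorem P8_coe_smul (γ : SL(2, ℤ)) (z : ℍ) :
    ((γ • z : ℍ) : ℂ) = ((γ 0 0 : ℂ) * z + (γ 0 1 : ℂ)) / ((γ 1 0 : ℂ) * z + (γ 1 1 : ℂ)) := by
  rw [UpperHalfPlane.coe_specialLinearGroup_apply]
  simp

section Formula

variable (N : ℕ) [NeZero N] (γ γ' : SL(2, ℤ)) (A B D : ℤ) (hA : 0 < A) (hD : 0 < D)

include hA hD in
theorem P8_denom_eq
    (h10 : γ 1 0 = γ' 1 0 * A) (h11 : γ 1 1 = γ' 1 0 * B + γ' 1 1 * D) (z : ℍ) :
    ((γ' 1 0 : ℂ) * (P8_betaPt A B D hA hD z : ℍ) + (γ' 1 1 : ℂ)) =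
      ((γ 1 0 : ℂ) * z + (γ 1 1 : ℂ)) / (D : ℂ) := by
  have hD' : (D : ℂ) ≠ 0 := by exact_mod_cast hD.ne'
  rw [P8_coe_betaPt, h10, h11]
  push_cast
  field_simp
  ring

theorem P8_scaleN_smul
    (h00 : (N : ℤ) * γ 0 0 = γ' 0 0 * A)
    (h01 : (N : ℤ) * γ 0 1 = γ' 0 0 * B + γ' 0 1 * D)
    (h10 : γ 1 0 = γ' 1 0 * A) (h11 : γ 1 1 = γ' 1 0 * B + γ' 1 1 * D) (z : ℍ) :
    scaleN N (γ • z) = γ' • (P8_betaPt A B D hA hD z) := by
  have hD' : (D : ℂ) ≠ 0 := by exact_mod_cast hD.ne'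
  have hden := P8_denom_ne_zero γ z
  have hden' := P8_denom_ne_zero γ' (P8_betaPt A B D hA hD z)
  have hdeq := P8_denom_eq γ γ' A B D hA hD h10 h11 z
  apply UpperHalfPlane.ext
  rw [coe_scaleN, P8_coe_smul, P8_coe_smul, hdeq]
  have hnum : ((γ' 0 0 : ℂ) * (P8_betaPt A B D hA hD z : ℍ) + (γ' 0 1 : ℂ)) =
      (N : ℂ) * ((γ 0 0 : ℂ) * z + (γ 0 1 : ℂ)) / (D : ℂ) := by
    have e00 : ((N : ℂ)) * (γ 0 0 : ℂ) = (γ' 0 0 : ℂ) * (A : ℂ) := by exact_mod_cast h00
    have e01 : ((N : ℂ)) * (γ 0 1 : ℂ) = (γ' 0 0 : ℂ) * (B : ℂ) + (γ' 0 1 : ℂ) * (D : ℂ) := by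
      exact_mod_cast h01
    rw [P8_coe_betaPt]
    field_simp
    linear_combination (-(z : ℂ)) * e00 - e01
  rw [hnum]
  field_simp

end Formula


theorem P8_thetaWeight_eq (N : ℕ) [NeZero N] : thetaWeight N = ((12 * (N - 1) : ℕ) : ℤ) := by
  have hN : 1 ≤ N := Nat.pos_of_ne_zero (NeZero.ne N)
  unfold thetaWeight
  push_cast [Nat.cast_sub hN]
  ring

/-- The explicit formula `(Θ ∣[w] γ) z = D^12 Δ(z)^N / Δ((A z + B) / D)`. -/
theorem P8_thetaFun_slash_apply (N : ℕ) [NeZero N] (γ γ' : SL(2, ℤ)) (A B D : ℤ)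
    (hA : 0 < A) (hD : 0 < D)
    (h00 : (N : ℤ) * γ 0 0 = γ' 0 0 * A)
    (h01 : (N : ℤ) * γ 0 1 = γ' 0 0 * B + γ' 0 1 * D)
    (h10 : γ 1 0 = γ' 1 0 * A) (h11 : γ 1 1 = γ' 1 0 * B + γ' 1 1 * D) (z : ℍ) :
    (thetaFun N ∣[thetaWeight N] γ) z =
      (D : ℂ) ^ 12 * discriminant z ^ N / discriminant (P8_betaPt A B D hA hD z) := by
  have hN : 1 ≤ N := Nat.pos_of_ne_zero (NeZero.ne N)
  have hD' : (D : ℂ) ≠ 0 := by exact_mod_cast hD.ne'
  have hden := P8_denom_ne_zero γ z
  have hΔ := discriminant_ne_zero (P8_betaPt A B D hA hD z)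
  rw [ModularForm.SL_slash_apply]
  have hdenom : UpperHalfPlane.denom (γ : GL (Fin 2) ℝ) z = (γ 1 0 : ℂ) * z + (γ 1 1 : ℂ) := by
    simp [UpperHalfPlane.denom]
  rw [hdenom]
  unfold thetaFun
  rw [P8_scaleN_smul N γ γ' A B D hA hD h00 h01 h10 h11 z, P8_discriminant_smul γ z,
    P8_discriminant_smul γ' _, P8_denom_eq γ γ' A B D hA hD h10 h11 z, P8_thetaWeight_eq,
    zpow_neg, zpow_natCast]
  set u := ((γ 1 0 : ℂ) * z + (γ 1 1 : ℂ)) with hu
  have hpow : (u ^ 12 * discriminant z) ^ N = u ^ (12 * (N - 1)) * (u ^ 12 * discriminant z ^ N) := by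
    rw [mul_pow, ← pow_mul, ← mul_assoc, ← pow_add]
    congr 2
    omega
  rw [hpow]
  field_simp


section Asymptotics

theorem P8_tendsto_im_atImInfty : Tendsto (fun z : ℍ => z.im) atImInfty atTop :=
  tendsto_comap

theorem P8_tendsto_betaPt (A B D : ℤ) (hA : 0 < A) (hD : 0 < D) :
    Tendsto (P8_betaPt A B D hA hD) atImInfty atImInfty := by
  have hA' : (0 : ℝ) < (A : ℝ) := by exact_mod_cast hA
  have hD' : (0 : ℝ) < (D : ℝ) := by exact_mod_cast hD
  rw [atImInfty, tendsto_comap_iff]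
  have : (UpperHalfPlane.im ∘ P8_betaPt A B D hA hD) = fun z : ℍ => (A : ℝ) / (D : ℝ) * z.im := by
    funext z
    exact P8_im_betaPt A B D hA hD z
  rw [this]
  exact Tendsto.const_mul_atTop (div_pos hA' hD') P8_tendsto_im_atImInfty

theorem P8_discriminant_isBigO_exp :
    (discriminant : ℍ → ℂ) =O[atImInfty] fun τ : ℍ => Real.exp (-2 * π * τ.im) := by
  have h := CuspFormClass.exp_decay_atImInfty (h := 1) CuspForm.discriminant one_pos
    one_mem_strictPeriods_SL
  simpa using h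

/-- The basic estimate: `Θ ∣[w] γ = O(exp (-2π (N - A/D) Im z))`. -/
theorem P8_thetaFun_slash_isBigO (N : ℕ) [NeZero N] (γ γ' : SL(2, ℤ)) (A B D : ℤ)
    (hA : 0 < A) (hD : 0 < D)
    (h00 : (N : ℤ) * γ 0 0 = γ' 0 0 * A)
    (h01 : (N : ℤ) * γ 0 1 = γ' 0 0 * B + γ' 0 1 * D)
    (h10 : γ 1 0 = γ' 1 0 * A) (h11 : γ 1 1 = γ' 1 0 * B + γ' 1 1 * D) :
    (thetaFun N ∣[thetaWeight N] γ) =O[atImInfty]
      fun z : ℍ => Real.exp (-(2 * π * ((N : ℝ) - (A : ℝ) / (D : ℝ))) * z.im) := by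
  have h1 : (fun z : ℍ => discriminant z ^ N) =O[atImInfty]
      (fun z : ℍ => (Real.exp (-2 * π * z.im)) ^ N) := P8_discriminant_isBigO_exp.pow N
  have h2 : (fun z : ℍ => Real.exp (-2 * π * (P8_betaPt A B D hA hD z).im)) =O[atImInfty]
      (fun z : ℍ => discriminant (P8_betaPt A B D hA hD z)) :=
    exp_isBigO_discriminant.comp_tendsto (P8_tendsto_betaPt A B D hA hD)
  have h3 : (fun z : ℍ => (discriminant (P8_betaPt A B D hA hD z))⁻¹) =O[atImInfty]
      (fun z : ℍ => (Real.exp (-2 * π * (P8_betaPt A B D hA hD z).im))⁻¹) :=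
    h2.inv_rev (Eventually.of_forall fun z h => absurd h (Real.exp_pos _).ne')
  have h4 := (h1.mul h3).const_mul_left ((D : ℂ) ^ 12)
  refine (h4.congr' ?_ ?_)
  · refine Eventually.of_forall fun z => ?_
    rw [P8_thetaFun_slash_apply N γ γ' A B D hA hD h00 h01 h10 h11 z]
    simp only [div_eq_mul_inv, mul_assoc]
  · refine Eventually.of_forall fun z => ?_
    simp only
    rw [P8_im_betaPt, ← Real.exp_nat_mul, ← Real.exp_neg, ← Real.exp_add]
    congr 1
    ring

end Asymptotics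

/-- `Θ ∣[w] γ` is bounded at `i∞` for every `γ ∈ SL(2, ℤ)`. -/
theorem thetaFun_slash_isBoundedAtImInfty (N : ℕ) [NeZero N] (γ : SL(2, ℤ)) :
    IsBoundedAtImInfty (thetaFun N ∣[thetaWeight N] γ) := by
  obtain ⟨γ', A, B, D, hA, hD, hAD, h00, h01, h10, h11, -⟩ := P8_exists_hermite N γ
  have hA' : (0 : ℝ) < (A : ℝ) := by exact_mod_cast hA
  have hD' : (0 : ℝ) < (D : ℝ) := by exact_mod_cast hD
  have hD1 : (1 : ℝ) ≤ (D : ℝ) := by exact_mod_cast hD
  have hAD' : (A : ℝ) * (D : ℝ) = (N : ℝ) := by exact_mod_cast hAD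
  have hc : 0 ≤ (N : ℝ) - (A : ℝ) / (D : ℝ) := by
    rw [sub_nonneg, div_le_iff₀ hD', ← hAD']
    nlinarith
  have h := P8_thetaFun_slash_isBigO N γ γ' A B D hA hD h00 h01 h10 h11
  refine h.trans ?_
  refine IsBigO.of_bound 1 (Eventually.of_forall fun z => ?_)
  rw [Real.norm_of_nonneg (Real.exp_pos _).le, Pi.one_apply, norm_one, mul_one,
    Real.exp_le_one_iff]
  have : 0 ≤ (2 * π * ((N : ℝ) - (A : ℝ) / (D : ℝ))) * z.im :=
    mul_nonneg (mul_nonneg (by positivity) hc) z.im_pos.le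
  linarith

/-- `Θ ∣[w] γ` vanishes at `i∞` for every `γ ∈ SL(2, ℤ)` outside `Γ₀(N)`. -/
theorem thetaFun_slash_isZeroAtImInfty (N : ℕ) [NeZero N] (γ : SL(2, ℤ))
    (hγ : γ ∉ CongruenceSubgroup.Gamma0 N) :
    IsZeroAtImInfty (thetaFun N ∣[thetaWeight N] γ) := by
  obtain ⟨γ', A, B, D, hA, hD, hAD, h00, h01, h10, h11, hmem⟩ := P8_exists_hermite N γ
  have hA' : (0 : ℝ) < (A : ℝ) := by exact_mod_cast hA
  have hD' : (0 : ℝ) < (D : ℝ) := by exact_mod_cast hD
  have hAD' : (A : ℝ) * (D : ℝ) = (N : ℝ) := by exact_mod_cast hAD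
  have hAN : A ≠ N := fun h => hγ (hmem h)
  have hD2 : (2 : ℤ) ≤ D := by
    by_contra h
    have hD1 : D = 1 := by omega
    rw [hD1, mul_one] at hAD
    exact hAN hAD
  have hD2' : (2 : ℝ) ≤ (D : ℝ) := by exact_mod_cast hD2
  have hc : 0 < (N : ℝ) - (A : ℝ) / (D : ℝ) := by
    rw [sub_pos, div_lt_iff₀ hD', ← hAD']
    nlinarith
  have h := P8_thetaFun_slash_isBigO N γ γ' A B D hA hD h00 h01 h10 h11
  refine h.trans_tendsto ?_
  have hc' : 0 < 2 * π * ((N : ℝ) - (A : ℝ) / (D : ℝ)) := by positivity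
  have h1 : Tendsto (fun z : ℍ => (2 * π * ((N : ℝ) - (A : ℝ) / (D : ℝ))) * z.im) atImInfty atTop :=
    Tendsto.const_mul_atTop hc' P8_tendsto_im_atImInfty
  have h2 := Real.tendsto_exp_neg_atTop_nhds_zero.comp h1
  refine h2.congr fun z => ?_
  simp only [Function.comp_apply]
  congr 1
  ring

end Fermat.Agent.S23

end
end ZBS23_001_5

/-! ### bundled: `Fermat.Agent.S23.ThetaAlg` -/
section ZBS23_001_6

/-!
# S23 piece (Ee): power-series division algebra

If `P * Q = R` in `ℂ⟦X⟧` where `Q` and `R` have integer coefficients, and `Q = X ^ a * (1 + ⋯)`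
(i.e. the coefficients of `Q` of index `< a` vanish and the coefficient of index `a` is `1`),
then `P` has integer coefficients, and `coeff 0 P = coeff a R`.
-/

set_option autoImplicit false

namespace Fermat.Agent.S23

open PowerSeries

/-- The key coefficient identity: if `Q` has order `≥ a`, then
`coeff (n + a) (P * Q) = coeff n P * coeff a Q + ∑_{i < n} coeff i P * coeff (n + a - i) Q`. -/
theorem thetaAlg_coeff_mul {P Q : PowerSeries ℂ} (a : ℕ)
    (hQa : ∀ i < a, PowerSeries.coeff i Q = 0) (n : ℕ) :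
    PowerSeries.coeff (n + a) (P * Q) = PowerSeries.coeff n P * PowerSeries.coeff a Q +
      ∑ i ∈ Finset.range n, PowerSeries.coeff i P * PowerSeries.coeff (n + a - i) Q := by
  rw [PowerSeries.coeff_mul, Finset.Nat.sum_antidiagonal_eq_sum_range_succ
    (fun i j => PowerSeries.coeff i P * PowerSeries.coeff j Q)]
  -- split `range (n + a + 1)` into `range n`, `{n}` and the rest
  have hsplit : Finset.range (n + a + 1) =
      (Finset.range (n + 1)) ∪ (Finset.Ico (n + 1) (n + a + 1)) := by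
    ext i
    simp only [Finset.mem_range, Finset.mem_union, Finset.mem_Ico]
    omega
  have hdisj : Disjoint (Finset.range (n + 1)) (Finset.Ico (n + 1) (n + a + 1)) := by
    rw [Finset.disjoint_left]
    intro i hi hi'
    simp only [Finset.mem_range, Finset.mem_Ico] at hi hi'
    omega
  rw [hsplit, Finset.sum_union hdisj, Finset.sum_range_succ]
  have hzero : ∑ i ∈ Finset.Ico (n + 1) (n + a + 1),
      PowerSeries.coeff i P * PowerSeries.coeff (n + a - i) Q = 0 := by
    apply Finset.sum_eq_zero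
    intro i hi
    simp only [Finset.mem_Ico] at hi
    rw [hQa (n + a - i) (by omega), mul_zero]
  rw [hzero, add_zero, Nat.add_sub_cancel_left, add_comm]

/-- **(Ee)**: division by a power series of the form `X ^ a * (1 + ⋯)` preserves integrality. -/
theorem thetaAlg_isIntPS_of_mul_eq {P Q R : PowerSeries ℂ} (a : ℕ) (hQ : IsIntPS Q)
    (hR : IsIntPS R) (hQa : ∀ i < a, PowerSeries.coeff i Q = 0)
    (hQ1 : PowerSeries.coeff a Q = 1) (h : P * Q = R) : IsIntPS P := by
  intro n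
  induction n using Nat.strong_induction_on with
  | _ n ih =>
    have key := thetaAlg_coeff_mul (P := P) a hQa n
    rw [h, hQ1, mul_one] at key
    have hP : PowerSeries.coeff n P = PowerSeries.coeff (n + a) R -
        ∑ i ∈ Finset.range n, PowerSeries.coeff i P * PowerSeries.coeff (n + a - i) Q := by
      rw [key]; ring
    -- everything on the right lies in the subring of integers
    have hmem : PowerSeries.coeff (n + a) R -
        ∑ i ∈ Finset.range n, PowerSeries.coeff i P * PowerSeries.coeff (n + a - i) Q ∈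
        (Int.castRingHom ℂ).range := by
      apply Subring.sub_mem
      · obtain ⟨z, hz⟩ := hR (n + a)
        exact ⟨z, by simp [hz]⟩
      · apply Subring.sum_mem
        intro i hi
        rw [Finset.mem_range] at hi
        apply Subring.mul_mem
        · obtain ⟨z, hz⟩ := ih i hi
          exact ⟨z, by simp [hz]⟩
        · obtain ⟨z, hz⟩ := hQ (n + a - i)
          exact ⟨z, by simp [hz]⟩
    obtain ⟨z, hz⟩ := hmem
    exact ⟨z, by rw [hP, ← hz]; simp⟩

/-- The constant coefficient of the quotient. -/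
theorem thetaAlg_coeff_zero_of_mul_eq {P Q R : PowerSeries ℂ} (a : ℕ)
    (hQa : ∀ i < a, PowerSeries.coeff i Q = 0)
    (hQ1 : PowerSeries.coeff a Q = 1) (h : P * Q = R) :
    PowerSeries.coeff 0 P = PowerSeries.coeff a R := by
  have key := thetaAlg_coeff_mul (P := P) a hQa 0
  rw [h, hQ1, mul_one] at key
  simpa using key.symm

/-- Substitution `X ↦ X ^ N` on coefficients: the series `∑ c_n X^(N n)`. -/
noncomputable def thetaAlg_subst (N : ℕ) (F : PowerSeries ℂ) : PowerSeries ℂ :=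
  PowerSeries.mk fun n => if N ∣ n then PowerSeries.coeff (n / N) F else 0

theorem thetaAlg_subst_coeff (N : ℕ) (F : PowerSeries ℂ) (n : ℕ) :
    PowerSeries.coeff n (thetaAlg_subst N F) =
      if N ∣ n then PowerSeries.coeff (n / N) F else 0 := by
  simp [thetaAlg_subst]

theorem thetaAlg_subst_isIntPS (N : ℕ) {F : PowerSeries ℂ} (hF : IsIntPS F) :
    IsIntPS (thetaAlg_subst N F) := by
  intro n
  rw [thetaAlg_subst_coeff]
  split_ifs
  · exact hF _
  · exact ⟨0, by simp⟩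

/-- If `F = X * (1 + ⋯)` then `F(X^N) = X^N * (1 + ⋯)`. -/
theorem thetaAlg_subst_low {N : ℕ} (_hN : 0 < N) {F : PowerSeries ℂ}
    (hF0 : PowerSeries.coeff 0 F = 0) :
    ∀ i < N, PowerSeries.coeff i (thetaAlg_subst N F) = 0 := by
  intro i hi
  rw [thetaAlg_subst_coeff]
  split_ifs with hdvd
  · have : i = 0 := Nat.eq_zero_of_dvd_of_lt hdvd hi
    subst this
    simpa using hF0
  · rfl

theorem thetaAlg_subst_lead {N : ℕ} (hN : 0 < N) {F : PowerSeries ℂ}
    (hF1 : PowerSeries.coeff 1 F = 1) :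
    PowerSeries.coeff N (thetaAlg_subst N F) = 1 := by
  rw [thetaAlg_subst_coeff, if_pos dvd_rfl, Nat.div_self hN, hF1]

end Fermat.Agent.S23


end ZBS23_001_6

/-! ### bundled: `Fermat.Agent.S23.LevelOneInt` -/
section ZBS23_001_7

/-!
# S23 piece (L): level-one modular forms and integrality of q-expansions

All names live in `Fermat.Agent.S23` and are prefixed `levelOneInt_` / `levelOneInt_psCoeffsIn`.
-/

set_option autoImplicit false

open UpperHalfPlane ModularForm ModularFormClass MatrixGroups EisensteinSeries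

namespace Fermat.Agent.S23

/-- The subring of `PowerSeries ℂ` of power series all of whose coefficients lie in a subring `R`. -/
def levelOneInt_psCoeffsIn (R : Subring ℂ) : Subring (PowerSeries ℂ) where
  carrier := {P | ∀ n, P.coeff n ∈ R}
  mul_mem' := by
    intro P Q hP hQ n
    rw [PowerSeries.coeff_mul]
    exact Subring.sum_mem _ fun x _ => R.mul_mem (hP _) (hQ _)
  one_mem' := by
    intro n
    rw [PowerSeries.coeff_one]
    split_ifs
    · exact R.one_mem
    · exact R.zero_mem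
  add_mem' := by
    intro P Q hP hQ n
    rw [map_add]
    exact R.add_mem (hP _) (hQ _)
  zero_mem' := by
    intro n
    rw [map_zero]
    exact R.zero_mem
  neg_mem' := by
    intro P hP n
    rw [map_neg]
    exact R.neg_mem (hP _)

theorem levelOneInt_mem_psCoeffsIn {R : Subring ℂ} {P : PowerSeries ℂ} :
    P ∈ levelOneInt_psCoeffsIn R ↔ ∀ n, P.coeff n ∈ R := Iff.rfl

theorem levelOneInt_psCoeffsIn_mono {R S : Subring ℂ} (h : R ≤ S) : levelOneInt_psCoeffsIn R ≤ levelOneInt_psCoeffsIn S :=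
  fun _ hP n => h (hP n)

theorem levelOneInt_C_mem_psCoeffsIn {R : Subring ℂ} {c : ℂ} (hc : c ∈ R) :
    PowerSeries.C c ∈ levelOneInt_psCoeffsIn R := by
  intro n
  rw [PowerSeries.coeff_C]
  split_ifs
  · exact hc
  · exact R.zero_mem

theorem levelOneInt_smul_mem_psCoeffsIn {R : Subring ℂ} {c : ℂ} (hc : c ∈ R) {P : PowerSeries ℂ}
    (hP : P ∈ levelOneInt_psCoeffsIn R) : c • P ∈ levelOneInt_psCoeffsIn R := by
  intro n
  rw [PowerSeries.coeff_smul, smul_eq_mul]
  exact R.mul_mem hc (hP n)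

theorem levelOneInt_intCast_mem_subring (R : Subring ℂ) (m : ℤ) : (m : ℂ) ∈ R :=
  intCast_mem R m

theorem levelOneInt_natCast_mem_subring (R : Subring ℂ) (m : ℕ) : (m : ℂ) ∈ R :=
  natCast_mem R m

/-- `E₄` has q-expansion `1 + 240 ∑ σ₃(n) qⁿ`. -/
theorem levelOneInt_E4_coeff (m : ℕ) :
    (qExpansion 1 E₄).coeff m = if m = 0 then 1 else 240 * (ArithmeticFunction.sigma 3 m : ℂ) := by
  rw [E_qExpansion_coeff _ ⟨2, rfl⟩]
  norm_num [show bernoulli 4 = -1 / 30 by decide +kernel]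

/-- `E₆` has q-expansion `1 - 504 ∑ σ₅(n) qⁿ`. -/
theorem levelOneInt_E6_coeff (m : ℕ) :
    (qExpansion 1 E₆).coeff m = if m = 0 then 1 else -504 * (ArithmeticFunction.sigma 5 m : ℂ) := by
  rw [E_qExpansion_coeff _ ⟨3, rfl⟩]
  norm_num [show bernoulli 6 = 1 / 42 by decide +kernel]

theorem levelOneInt_E4_mem (R : Subring ℂ) : qExpansion 1 E₄ ∈ levelOneInt_psCoeffsIn R := by
  intro n
  rw [levelOneInt_E4_coeff]
  split_ifs
  · exact R.one_mem
  · exact R.mul_mem (by exact_mod_cast levelOneInt_natCast_mem_subring R 240) (levelOneInt_natCast_mem_subring R _)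

theorem levelOneInt_E6_mem (R : Subring ℂ) : qExpansion 1 E₆ ∈ levelOneInt_psCoeffsIn R := by
  intro n
  rw [levelOneInt_E6_coeff]
  split_ifs
  · exact R.one_mem
  · exact R.mul_mem (by exact_mod_cast levelOneInt_intCast_mem_subring R (-504)) (levelOneInt_natCast_mem_subring R _)


/-! ### Integrality of the q-expansion of `Δ` -/

theorem levelOneInt_twelve_dvd_aux (d : ℕ) : 12 ∣ 5 * d ^ 3 + 7 * d ^ 5 := by
  have h : ∀ x : ZMod 12, 5 * x ^ 3 + 7 * x ^ 5 = 0 := by decide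
  have := h (d : ZMod 12)
  rw [← (ZMod.natCast_eq_zero_iff _ 12)]
  push_cast
  exact this

theorem levelOneInt_twelve_dvd_sigma (n : ℕ) :
    12 ∣ 5 * ArithmeticFunction.sigma 3 n + 7 * ArithmeticFunction.sigma 5 n := by
  rw [ArithmeticFunction.sigma_apply, ArithmeticFunction.sigma_apply, Finset.mul_sum,
    Finset.mul_sum, ← Finset.sum_add_distrib]
  exact Finset.dvd_sum fun d _ => levelOneInt_twelve_dvd_aux d

/-- The power series `∑ σ₃(n) qⁿ`. -/
noncomputable def levelOneInt_A : PowerSeries ℂ := PowerSeries.mk fun n => (ArithmeticFunction.sigma 3 n : ℂ)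

/-- The power series `∑ σ₅(n) qⁿ`. -/
noncomputable def levelOneInt_B : PowerSeries ℂ := PowerSeries.mk fun n => (ArithmeticFunction.sigma 5 n : ℂ)

/-- The power series `∑ (5σ₃(n) + 7σ₅(n))/12 qⁿ`. -/
noncomputable def levelOneInt_C : PowerSeries ℂ :=
  PowerSeries.mk fun n =>
    (((5 * ArithmeticFunction.sigma 3 n + 7 * ArithmeticFunction.sigma 5 n) / 12 : ℕ) : ℂ)

theorem levelOneInt_A_mem (R : Subring ℂ) : levelOneInt_A ∈ levelOneInt_psCoeffsIn R := fun n => by
  rw [levelOneInt_A, PowerSeries.coeff_mk]; exact levelOneInt_natCast_mem_subring R _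

theorem levelOneInt_B_mem (R : Subring ℂ) : levelOneInt_B ∈ levelOneInt_psCoeffsIn R := fun n => by
  rw [levelOneInt_B, PowerSeries.coeff_mk]; exact levelOneInt_natCast_mem_subring R _

theorem levelOneInt_C_mem (R : Subring ℂ) : levelOneInt_C ∈ levelOneInt_psCoeffsIn R := fun n => by
  rw [levelOneInt_C, PowerSeries.coeff_mk]; exact levelOneInt_natCast_mem_subring R _

theorem levelOneInt_E4_eq : qExpansion 1 E₄ = 1 + PowerSeries.C 240 * levelOneInt_A := by
  ext n
  rw [levelOneInt_E4_coeff, map_add, PowerSeries.coeff_one, PowerSeries.coeff_C_mul, levelOneInt_A,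
    PowerSeries.coeff_mk]
  split_ifs with h
  · subst h; simp
  · simp

theorem levelOneInt_E6_eq : qExpansion 1 E₆ = 1 - PowerSeries.C 504 * levelOneInt_B := by
  ext n
  rw [levelOneInt_E6_coeff, map_sub, PowerSeries.coeff_one, PowerSeries.coeff_C_mul, levelOneInt_B,
    PowerSeries.coeff_mk]
  split_ifs with h
  · subst h; simp
  · simp

theorem levelOneInt_AB_eq_C :
    PowerSeries.C 5 * levelOneInt_A + PowerSeries.C 7 * levelOneInt_B = PowerSeries.C 12 * levelOneInt_C := by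
  ext n
  rw [map_add, PowerSeries.coeff_C_mul, PowerSeries.coeff_C_mul, PowerSeries.coeff_C_mul,
    levelOneInt_A, levelOneInt_B, levelOneInt_C, PowerSeries.coeff_mk, PowerSeries.coeff_mk,
    PowerSeries.coeff_mk]
  obtain ⟨c, hc⟩ := levelOneInt_twelve_dvd_sigma n
  rw [hc, Nat.mul_div_cancel_left c (by norm_num : 0 < 12)]
  have : ((5 * ArithmeticFunction.sigma 3 n + 7 * ArithmeticFunction.sigma 5 n : ℕ) : ℂ)
      = ((12 * c : ℕ) : ℂ) := by rw [hc]
  push_cast at this
  linear_combination this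


/-- `1728 Δ = E₄³ - E₆²` on q-expansions. -/
theorem levelOneInt_discriminant_qExpansion_mul :
    PowerSeries.C (1728 : ℂ) * qExpansion 1 ModularForm.discriminant =
      qExpansion 1 E₄ ^ 3 - qExpansion 1 E₆ ^ 2 := by
  set G : ModularForm 𝒮ℒ 12 :=
    ModularForm.mcast (by decide) (E₄.pow 3) - ModularForm.mcast (by decide) (E₆.pow 2) with hG
  have hGq : qExpansion 1 G = qExpansion 1 E₄ ^ 3 - qExpansion 1 E₆ ^ 2 := by
    simp only [hG, FunLike.coe_sub, coe_mcast,
      ModularForm.qExpansion_sub one_pos one_mem_strictPeriods_SL,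
      ModularForm.qExpansion_pow one_pos one_mem_strictPeriods_SL]
  have hfun : (G : ℍ → ℂ) = (1728 : ℂ) • (CuspForm.discriminant : ℍ → ℂ) := by
    funext z
    have h := ModularForm.discriminant_eq_E₄_cube_sub_E₆_sq z
    have hGz : G z = E₄ z ^ 3 - E₆ z ^ 2 := by
      simp only [hG, coe_mcast, coe_pow, sub_apply, Pi.pow_apply]
    rw [hGz, Pi.smul_apply, smul_eq_mul, CuspForm.coe_discriminant, h]
    ring
  have hsm := ModularForm.qExpansion_smul one_pos one_mem_strictPeriods_SL (1728 : ℂ)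
    CuspForm.discriminant
  rw [← hfun, hGq, CuspForm.coe_discriminant] at hsm
  rw [hsm, PowerSeries.smul_eq_C_mul]

/-- The q-expansion of `Δ` as an explicit integral power series. -/
theorem levelOneInt_discriminant_qExpansion_eq :
    qExpansion 1 ModularForm.discriminant =
      PowerSeries.C 100 * levelOneInt_A ^ 2 + PowerSeries.C 8000 * levelOneInt_A ^ 3
        - PowerSeries.C 147 * levelOneInt_B ^ 2 + levelOneInt_C := by
  have h := levelOneInt_discriminant_qExpansion_mul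
  rw [levelOneInt_E4_eq, levelOneInt_E6_eq] at h
  have h1728 : PowerSeries.C (1728 : ℂ) ≠ 0 := by
    rw [Ne, map_eq_zero_iff _ PowerSeries.C_injective]
    norm_num
  apply mul_left_cancel₀ h1728
  rw [h]
  have hC := levelOneInt_AB_eq_C
  have e1 : (PowerSeries.C (1728 : ℂ)) = 1728 := map_ofNat _ _
  have e2 : (PowerSeries.C (240 : ℂ)) = 240 := map_ofNat _ _
  have e3 : (PowerSeries.C (504 : ℂ)) = 504 := map_ofNat _ _
  have e4 : (PowerSeries.C (100 : ℂ)) = 100 := map_ofNat _ _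
  have e5 : (PowerSeries.C (8000 : ℂ)) = 8000 := map_ofNat _ _
  have e6 : (PowerSeries.C (147 : ℂ)) = 147 := map_ofNat _ _
  have e7 : (PowerSeries.C (5 : ℂ)) = 5 := map_ofNat _ _
  have e8 : (PowerSeries.C (7 : ℂ)) = 7 := map_ofNat _ _
  have e9 : (PowerSeries.C (12 : ℂ)) = 12 := map_ofNat _ _
  rw [e7, e8, e9] at hC
  rw [e1, e2, e3, e4, e5, e6]
  linear_combination (144 : PowerSeries ℂ) * hC

/-- The q-expansion of `Δ` has coefficients in every subring of `ℂ` (i.e. in `ℤ`). -/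
theorem levelOneInt_discriminant_mem (R : Subring ℂ) :
    qExpansion 1 ModularForm.discriminant ∈ levelOneInt_psCoeffsIn R := by
  rw [levelOneInt_discriminant_qExpansion_eq]
  have hA := levelOneInt_A_mem R
  have hB := levelOneInt_B_mem R
  have hC := levelOneInt_C_mem R
  have hc : ∀ m : ℕ, PowerSeries.C (m : ℂ) ∈ levelOneInt_psCoeffsIn R :=
    fun m => levelOneInt_C_mem_psCoeffsIn (levelOneInt_natCast_mem_subring R m)
  refine Subring.add_mem _ (Subring.sub_mem _ (Subring.add_mem _ ?_ ?_) ?_) hC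
  · exact Subring.mul_mem _ (by exact_mod_cast hc 100) (Subring.pow_mem _ hA 2)
  · exact Subring.mul_mem _ (by exact_mod_cast hc 8000) (Subring.pow_mem _ hA 3)
  · exact Subring.mul_mem _ (by exact_mod_cast hc 147) (Subring.pow_mem _ hB 2)

theorem levelOneInt_discriminant_coeff_zero : (qExpansion 1 ModularForm.discriminant).coeff 0 = 0 := by
  simpa using CuspFormClass.qExpansion_coeff_zero CuspForm.discriminant one_pos
    one_mem_strictPeriods_SL

theorem levelOneInt_discriminant_coeff_one : (qExpansion 1 ModularForm.discriminant).coeff 1 = 1 :=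
  ModularForm.discriminant_qExpansion_coeff_one


/-! ### Interface theorems of piece P3 -/

theorem levelOneInt_exists_int_of_mem_bot {x : ℂ} (hx : x ∈ (⊥ : Subring ℂ)) :
    ∃ z : ℤ, x = (z : ℂ) := by
  obtain ⟨z, hz⟩ := Subring.mem_bot.mp hx
  exact ⟨z, hz.symm⟩

theorem E4_qExpansion_int (n : ℕ) : ∃ z : ℤ, (qExpansion 1 E₄).coeff n = (z : ℂ) :=
  levelOneInt_exists_int_of_mem_bot (levelOneInt_E4_mem ⊥ n)

theorem E6_qExpansion_int (n : ℕ) : ∃ z : ℤ, (qExpansion 1 E₆).coeff n = (z : ℂ) :=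
  levelOneInt_exists_int_of_mem_bot (levelOneInt_E6_mem ⊥ n)

theorem discriminant_qExpansion_int (n : ℕ) :
    ∃ z : ℤ, (qExpansion 1 discriminant).coeff n = (z : ℂ) :=
  levelOneInt_exists_int_of_mem_bot (levelOneInt_discriminant_mem ⊥ n)

end Fermat.Agent.S23


end ZBS23_001_7

/-! ### bundled: `Fermat.Agent.S23.Theta` -/
section ZBS23_001_8

/-!
# S23, piece P7: `Θ = Δ(z)^N / Δ(N z)` is a modular form for `Γ₀(N)` with integral q-expansion

Main results (all for `N : ℕ` with `[NeZero N]`):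
* `isMF_thetaFun` : `Θ` is (the function of) a modular form of weight `12 (N - 1)` for `Γ₀(N)`;
* `thetaFun_qExpansion_int` : the q-expansion of `Θ` at `∞` has integer coefficients;
* `thetaFun_qExpansion_coeff_zero` : its constant coefficient is `1`.

Auxiliary results that may be reused: `P7_deltaNFun_slash`, `P7_thetaFun_slash` (slash invariance
under `Γ₀(N)`), `P7_mdiff_deltaNFun`, `P7_mdiff_thetaFun`, `P7_tendsto_thetaFun` (`Θ → 1` at `i∞`),
`P7_qExpansion_deltaNFun` (q-expansion of `Δ(N z)`), `P7_qExpansion_mul_eq`.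
-/

set_option autoImplicit false

noncomputable section

namespace Fermat.Agent.S23

open UpperHalfPlane ModularForm SlashInvariantForm Filter
open scoped MatrixGroups ModularForm Manifold Topology

local notation "𝕢" => Function.Periodic.qParam

/-- Level-one slash invariance of `Δ`. -/
theorem P7_theta_discriminant_slash (γ : SL(2, ℤ)) :
    (discriminant ∣[(12 : ℤ)] γ) = discriminant := by
  have := SlashInvariantForm.slash_action_eqn CuspForm.discriminant
    (Matrix.SpecialLinearGroup.mapGL ℝ γ) ⟨γ, rfl⟩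
  rw [SL_slash]
  exact this

/-- The companion matrix `[[a, N b], [c / N, d]]` of `γ = [[a, b], [c, d]] ∈ Γ₀(N)`. -/
def P7_thetaCompanion (N : ℕ) [NeZero N] (γ : SL(2, ℤ)) (h : (N : ℤ) ∣ γ 1 0) : SL(2, ℤ) :=
  ⟨!![γ 0 0, N * γ 0 1; γ 1 0 / N, γ 1 1], by
    have hdet := γ.det_coe
    rw [Matrix.det_fin_two] at hdet
    rw [Matrix.det_fin_two_of]
    obtain ⟨c, hc⟩ := h
    have hN : (N : ℤ) ≠ 0 := by exact_mod_cast NeZero.ne N
    rw [hc, Int.mul_ediv_cancel_left _ hN]
    rw [hc] at hdet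
    linear_combination hdet⟩

theorem P7_thetaCompanion_denom (N : ℕ) [NeZero N] (γ : SL(2, ℤ)) (h : (N : ℤ) ∣ γ 1 0) (z : ℍ) :
    denom (P7_thetaCompanion N γ h) (scaleN N z) = denom γ z := by
  rw [ModularGroup.denom_apply, ModularGroup.denom_apply]
  obtain ⟨c, hc⟩ := h
  have hN : (N : ℤ) ≠ 0 := by exact_mod_cast NeZero.ne N
  simp only [P7_thetaCompanion, coe_scaleN]
  simp [hc, Int.mul_ediv_cancel_left _ hN]
  ring

theorem P7_thetaCompanion_smul (N : ℕ) [NeZero N] (γ : SL(2, ℤ)) (h : (N : ℤ) ∣ γ 1 0) (z : ℍ) :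
    scaleN N (γ • z) = P7_thetaCompanion N γ h • scaleN N z := by
  ext1
  have hd1 := denom_ne_zero γ z
  have hd2 := denom_ne_zero (P7_thetaCompanion N γ h) (scaleN N z)
  have hden := P7_thetaCompanion_denom N γ h z
  rw [ModularGroup.denom_apply] at hd1 hd2 hden
  rw [ModularGroup.denom_apply] at hden
  rw [coe_scaleN, coe_specialLinearGroup_apply, coe_specialLinearGroup_apply]
  simp only [eq_intCast, Complex.ofReal_intCast]
  rw [hden, mul_div_assoc', div_left_inj' hd1]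
  simp only [P7_thetaCompanion, coe_scaleN]
  simp
  ring

/-- `Δ(N z)` is slash-invariant of weight 12 under `Γ₀(N)`. -/
theorem P7_deltaNFun_slash (N : ℕ) [NeZero N] (γ : SL(2, ℤ)) (h : γ ∈ CongruenceSubgroup.Gamma0 N) :
    (deltaNFun N ∣[(12 : ℤ)] γ) = deltaNFun N := by
  have hdvd : (N : ℤ) ∣ γ 1 0 := by
    rw [CongruenceSubgroup.Gamma0_mem] at h
    exact (ZMod.intCast_zmod_eq_zero_iff_dvd _ _).mp h
  ext z
  rw [SL_slash_apply]
  have h1 := congrFun (P7_theta_discriminant_slash (P7_thetaCompanion N γ hdvd)) (scaleN N z)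
  rw [SL_slash_apply, P7_thetaCompanion_denom, ← P7_thetaCompanion_smul] at h1
  exact h1


theorem P7_theta_pow_slash (f : ℍ → ℂ) (k : ℤ) (γ : SL(2, ℤ)) (n : ℕ) :
    (f ^ n) ∣[(n : ℤ) * k] γ = (f ∣[k] γ) ^ n := by
  ext z
  simp only [SL_slash_apply, Pi.pow_apply, mul_pow]
  congr 1
  rw [← zpow_natCast (denom γ z ^ (-k)) n, ← zpow_mul, mul_comm, neg_mul]

theorem P7_thetaFun_eq (N : ℕ) [NeZero N] :
    thetaFun N = (discriminant ^ N) / deltaNFun N := rfl

theorem P7_thetaWeight_eq (N : ℕ) : thetaWeight N = (N : ℤ) * 12 - 12 := by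
  unfold thetaWeight; ring

/-- `Θ` is slash-invariant of weight `12 (N - 1)` under `Γ₀(N)`. -/
theorem P7_thetaFun_slash (N : ℕ) [NeZero N] (γ : SL(2, ℤ)) (h : γ ∈ CongruenceSubgroup.Gamma0 N) :
    (thetaFun N ∣[thetaWeight N] γ) = thetaFun N := by
  rw [P7_thetaFun_eq, P7_thetaWeight_eq, div_slash_SL2, P7_theta_pow_slash, P7_theta_discriminant_slash,
    P7_deltaNFun_slash N γ h]

theorem P7_deltaNFun_ne_zero (N : ℕ) [NeZero N] (z : ℍ) : deltaNFun N z ≠ 0 :=
  discriminant_ne_zero _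

theorem P7_mdiff_discriminant : MDiff (discriminant : ℍ → ℂ) :=
  CuspForm.discriminant.holo'

theorem P7_mdiff_deltaNFun (N : ℕ) [NeZero N] : MDiff (deltaNFun N) := by
  rw [UpperHalfPlane.mdifferentiable_iff]
  have hΔ := UpperHalfPlane.mdifferentiable_iff.mp P7_mdiff_discriminant
  have hN : (0 : ℝ) < (N : ℝ) := Nat.cast_pos.mpr (Nat.pos_of_ne_zero (NeZero.ne N))
  have hmaps : Set.MapsTo (fun w : ℂ => (N : ℂ) * w) {z | 0 < z.im} {z | 0 < z.im} := by
    intro w hw
    simp only [Set.mem_ofPred_eq, Complex.mul_im, Complex.natCast_re, Complex.natCast_im,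
      zero_mul, add_zero] at hw ⊢
    exact mul_pos hN hw
  have hcomp : DifferentiableOn ℂ ((discriminant ∘ ofComplex) ∘ (fun w : ℂ => (N : ℂ) * w))
      {z | 0 < z.im} :=
    hΔ.comp (by fun_prop) hmaps
  refine hcomp.congr ?_
  intro w hw
  have hw' : 0 < ((N : ℂ) * w).im := hmaps hw
  simp only [Function.comp_apply, deltaNFun]
  rw [ofComplex_apply_of_im_pos hw, ofComplex_apply_of_im_pos hw']
  rfl

theorem P7_mdiff_thetaFun (N : ℕ) [NeZero N] : MDiff (thetaFun N) := by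
  rw [P7_thetaFun_eq]
  have h1 : MDiff (discriminant ^ N : ℍ → ℂ) := by
    rw [UpperHalfPlane.mdifferentiable_iff]
    have hΔ := UpperHalfPlane.mdifferentiable_iff.mp P7_mdiff_discriminant
    exact (hΔ.pow N)
  have h2 := P7_mdiff_deltaNFun N
  rw [UpperHalfPlane.mdifferentiable_iff] at h1 h2 ⊢
  refine (h1.div h2 ?_)
  intro w hw
  exact P7_deltaNFun_ne_zero N _


/-- `Θ` is a modular form for `Γ₀(N)` as soon as all its `SL(2,ℤ)`-translates are bounded at `i∞`. -/
theorem P7_isMF_thetaFun_of_bdd (N : ℕ) [NeZero N]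
    (hb : ∀ γ : SL(2, ℤ), IsBoundedAtImInfty (thetaFun N ∣[thetaWeight N] γ)) :
    IsMF (G0 N) (thetaWeight N) (thetaFun N) := by
  refine ⟨{ toFun := thetaFun N
            slash_action_eq' := ?_
            holo' := P7_mdiff_thetaFun N
            bdd_at_cusps' := ?_ }, rfl⟩
  · rintro γ ⟨γ', hγ', rfl⟩
    exact P7_thetaFun_slash N γ' hγ'
  · intro c hc
    rw [Subgroup.IsArithmetic.isCusp_iff_isCusp_SL2Z] at hc
    rw [OnePoint.isBoundedAt_iff_forall_SL2Z hc]
    intro γ _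
    exact hb γ



theorem P7_im_scaleN (N : ℕ) [NeZero N] (z : ℍ) : (scaleN N z).im = (N : ℝ) * z.im := by
  change ((N : ℂ) * (z : ℂ)).im = _
  simp

theorem P7_tendsto_scaleN_atImInfty (N : ℕ) [NeZero N] :
    Tendsto (scaleN N) atImInfty atImInfty := by
  rw [atImInfty, tendsto_comap_iff]
  have hN : (0 : ℝ) < (N : ℝ) := Nat.cast_pos.mpr (Nat.pos_of_ne_zero (NeZero.ne N))
  have : (UpperHalfPlane.im ∘ scaleN N) = fun z : ℍ => (N : ℝ) * z.im := by
    funext z; exact P7_im_scaleN N z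
  rw [this]
  exact (tendsto_comap (f := UpperHalfPlane.im) (x := atTop)).const_mul_atTop hN

/-- The infinite product factor of `Δ`. -/
def P7_thetaProd (z : ℍ) : ℂ := ∏' n : ℕ, (1 - eta_q n z) ^ 24

theorem P7_discriminant_eq_qParam_mul_thetaProd (z : ℍ) :
    discriminant z = 𝕢 1 z * P7_thetaProd z := discriminant_eq_q_prod z

theorem P7_thetaProd_ne_zero (z : ℍ) : P7_thetaProd z ≠ 0 := by
  have h := discriminant_ne_zero z
  rw [P7_discriminant_eq_qParam_mul_thetaProd] at h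
  exact right_ne_zero_of_mul h

theorem P7_tendsto_thetaProd : Tendsto P7_thetaProd atImInfty (𝓝 1) :=
  tendsto_atImInfty_tprod_one_sub_eta_q_pow

theorem P7_qParam_scaleN (N : ℕ) [NeZero N] (z : ℍ) :
    𝕢 1 (scaleN N z : ℂ) = 𝕢 1 (z : ℂ) ^ N := by
  simp only [Function.Periodic.qParam, coe_scaleN, ← Complex.exp_nat_mul]
  congr 1
  simp
  ring

theorem P7_thetaFun_eq_thetaProd (N : ℕ) [NeZero N] (z : ℍ) :
    thetaFun N z = P7_thetaProd z ^ N / P7_thetaProd (scaleN N z) := by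
  unfold thetaFun
  rw [P7_discriminant_eq_qParam_mul_thetaProd, P7_discriminant_eq_qParam_mul_thetaProd, P7_qParam_scaleN,
    mul_pow]
  have hq : 𝕢 1 (z : ℂ) ^ N ≠ 0 := pow_ne_zero _ (Function.Periodic.qParam_ne_zero _)
  rw [mul_div_mul_left _ _ hq]

/-- `Θ → 1` at `i∞`. -/
theorem P7_tendsto_thetaFun (N : ℕ) [NeZero N] : Tendsto (thetaFun N) atImInfty (𝓝 1) := by
  have h1 : Tendsto (fun z => P7_thetaProd z ^ N) atImInfty (𝓝 1) := by
    simpa using P7_tendsto_thetaProd.pow N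
  have h2 : Tendsto (fun z => P7_thetaProd (scaleN N z)) atImInfty (𝓝 1) :=
    P7_tendsto_thetaProd.comp (P7_tendsto_scaleN_atImInfty N)
  have h3 := h1.div h2 one_ne_zero
  simp only [div_one] at h3
  exact h3.congr fun z => (P7_thetaFun_eq_thetaProd N z).symm

theorem P7_isBoundedAtImInfty_thetaFun (N : ℕ) [NeZero N] : IsBoundedAtImInfty (thetaFun N) :=
  (P7_tendsto_thetaFun N).isBigO_one ℝ



/-- `Θ` is a modular form of weight `12 (N - 1)` for `Γ₀(N)`. -/
theorem isMF_thetaFun (N : ℕ) [NeZero N] : IsMF (G0 N) (thetaWeight N) (thetaFun N) :=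
  P7_isMF_thetaFun_of_bdd N (thetaFun_slash_isBoundedAtImInfty N)

/-- `Δ` is 1-periodic. -/
theorem P7_periodic_discriminant : Function.Periodic (discriminant ∘ ofComplex) (1 : ℝ) :=
  SlashInvariantFormClass.periodic_comp_ofComplex CuspForm.discriminant
    one_mem_strictPeriods_SL

theorem P7_isBoundedAtImInfty_discriminant : IsBoundedAtImInfty (discriminant : ℍ → ℂ) :=
  discriminant_isZeroAtImInfty.isBoundedAtImInfty

theorem P7_periodic_thetaFun (N : ℕ) [NeZero N] :
    Function.Periodic (thetaFun N ∘ ofComplex) (1 : ℝ) := by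
  obtain ⟨F, hF⟩ := isMF_thetaFun N
  rw [← hF]
  exact SlashInvariantFormClass.periodic_comp_ofComplex F
    (CongruenceSubgroup.one_mem_strictPeriods_Gamma0 N)

theorem P7_periodic_deltaNFun (N : ℕ) [NeZero N] :
    Function.Periodic (deltaNFun N ∘ ofComplex) (1 : ℝ) := by
  let F : SlashInvariantForm (G0 N) 12 :=
    { toFun := deltaNFun N
      slash_action_eq' := by
        rintro γ ⟨γ', hγ', rfl⟩
        exact P7_deltaNFun_slash N γ' hγ' }
  exact SlashInvariantFormClass.periodic_comp_ofComplex F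
    (CongruenceSubgroup.one_mem_strictPeriods_Gamma0 N)

theorem P7_isZeroAtImInfty_deltaNFun (N : ℕ) [NeZero N] : IsZeroAtImInfty (deltaNFun N) :=
  (discriminant_isZeroAtImInfty : Tendsto discriminant atImInfty (𝓝 0)).comp
    (P7_tendsto_scaleN_atImInfty N)

theorem P7_analyticAt_discriminant : AnalyticAt ℂ (cuspFunction 1 discriminant) 0 :=
  analyticAt_cuspFunction_zero one_pos P7_periodic_discriminant P7_mdiff_discriminant
    P7_isBoundedAtImInfty_discriminant

theorem P7_analyticAt_deltaNFun (N : ℕ) [NeZero N] :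
    AnalyticAt ℂ (cuspFunction 1 (deltaNFun N)) 0 :=
  analyticAt_cuspFunction_zero one_pos (P7_periodic_deltaNFun N) (P7_mdiff_deltaNFun N)
    (P7_isZeroAtImInfty_deltaNFun N).isBoundedAtImInfty

theorem P7_analyticAt_thetaFun (N : ℕ) [NeZero N] :
    AnalyticAt ℂ (cuspFunction 1 (thetaFun N)) 0 :=
  analyticAt_cuspFunction_zero one_pos (P7_periodic_thetaFun N) (P7_mdiff_thetaFun N)
    (P7_isBoundedAtImInfty_thetaFun N)

/-- q-expansion of `z ↦ Δ (N z)`: the coefficient of `q^n` is `τ(n/N)` if `N ∣ n`, else `0`. -/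
theorem P7_qExpansion_deltaNFun (N : ℕ) [NeZero N] :
    qExpansion 1 (deltaNFun N) = thetaAlg_subst N (qExpansion 1 discriminant) := by
  have hN : N ≠ 0 := NeZero.ne N
  ext n
  rw [thetaAlg_subst_coeff]
  set c : ℕ → ℂ := fun n => if N ∣ n then (qExpansion 1 discriminant).coeff (n / N) else 0
    with hc
  have hcont : Continuous (deltaNFun N) := (P7_mdiff_deltaNFun N).continuous
  refine (UpperHalfPlane.qExpansion_coeff_unique (c := c) (ContinuousMap.mk (deltaNFun N) hcont)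
    one_pos (P7_analyticAt_deltaNFun N) ?_ n).symm
  intro τ
  have h1 := hasSum_qExpansion (h := 1) one_pos P7_periodic_discriminant P7_mdiff_discriminant
    P7_isBoundedAtImInfty_discriminant (scaleN N τ)
  rw [P7_qParam_scaleN] at h1
  have hinj : Function.Injective (fun m : ℕ => N * m) := fun a b hab =>
    Nat.eq_of_mul_eq_mul_left (Nat.pos_of_ne_zero hN) hab
  change HasSum (fun m ↦ c m • 𝕢 1 τ ^ m) (discriminant (scaleN N τ))
  rw [← hinj.hasSum_iff]
  · convert h1 using 2 with m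
    simp only [Function.comp_apply, hc, dvd_mul_right, if_true, Nat.mul_div_cancel_left _
      (Nat.pos_of_ne_zero hN), pow_mul]
  · intro x hx
    have : ¬ N ∣ x := fun ⟨k, hk⟩ => hx ⟨k, hk.symm⟩
    simp [hc, this]

theorem P7_thetaFun_mul_deltaNFun (N : ℕ) [NeZero N] :
    thetaFun N * deltaNFun N = ∏ _i ∈ Finset.range N, (discriminant : ℍ → ℂ) := by
  funext z
  simp only [Pi.mul_apply, Finset.prod_const, Finset.card_range, Pi.pow_apply, thetaFun, deltaNFun]
  exact div_mul_cancel₀ _ (discriminant_ne_zero _)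

/-- The key power series identity `qExp Θ * qExp Δ(N·) = (qExp Δ)^N`. -/
theorem P7_qExpansion_mul_eq (N : ℕ) [NeZero N] :
    qExpansion 1 (thetaFun N) * thetaAlg_subst N (qExpansion 1 discriminant) =
      (qExpansion 1 discriminant) ^ N := by
  rw [← P7_qExpansion_deltaNFun, ← qExpansion_mul (P7_analyticAt_thetaFun N)
    (P7_analyticAt_deltaNFun N), P7_thetaFun_mul_deltaNFun,
    UpperHalfPlane.qExpansion_prod _ (fun _ _ => P7_analyticAt_discriminant)]
  simp

theorem P7_isIntPS_discriminant : IsIntPS (qExpansion 1 discriminant) :=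
  discriminant_qExpansion_int

theorem P7_coeff_zero_discriminant : (qExpansion 1 discriminant).coeff 0 = 0 := by
  have := CuspFormClass.qExpansion_coeff_zero (h := 1) CuspForm.discriminant one_pos
    one_mem_strictPeriods_SL
  simpa using this

theorem P7_isIntPS_pow {F : PowerSeries ℂ} (hF : IsIntPS F) (n : ℕ) : IsIntPS (F ^ n) := by
  -- `F` is the image of an integral power series
  have key : ∀ G : PowerSeries ℂ, IsIntPS G ↔
      ∃ G' : PowerSeries ℤ, PowerSeries.map (Int.castRingHom ℂ) G' = G := by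
    intro G
    constructor
    · intro hG
      choose z hz using hG
      exact ⟨PowerSeries.mk z, by ext n; simp [hz]⟩
    · rintro ⟨G', rfl⟩ n
      exact ⟨PowerSeries.coeff n G', by simp⟩
  obtain ⟨F', rfl⟩ := (key F).mp hF
  exact (key _).mpr ⟨F' ^ n, by simp⟩

theorem thetaFun_qExpansion_int (N : ℕ) [NeZero N] (n : ℕ) :
    ∃ z : ℤ, (qExpansion 1 (thetaFun N)).coeff n = (z : ℂ) := by
  have hN : 0 < N := Nat.pos_of_ne_zero (NeZero.ne N)
  exact thetaAlg_isIntPS_of_mul_eq N (thetaAlg_subst_isIntPS N P7_isIntPS_discriminant)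
    (P7_isIntPS_pow P7_isIntPS_discriminant N)
    (thetaAlg_subst_low hN P7_coeff_zero_discriminant)
    (thetaAlg_subst_lead hN discriminant_qExpansion_coeff_one)
    (P7_qExpansion_mul_eq N) n

theorem thetaFun_qExpansion_coeff_zero (N : ℕ) [NeZero N] :
    (qExpansion 1 (thetaFun N)).coeff 0 = 1 := by
  rw [qExpansion_coeff_zero one_pos (P7_analyticAt_thetaFun N) (P7_periodic_thetaFun N)]
  exact (P7_tendsto_thetaFun N).limUnder_eq

end Fermat.Agent.S23

end
end ZBS23_001_8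

/-! ### bundled: `Fermat.Agent.S23.QRing` -/
section ZBS23_001_9

/-!
# S23, piece P14 — the ring of holomorphic, `1`-periodic functions bounded at `i∞`

`HPB` is the subalgebra of `ℍ → ℂ` of holomorphic, `1`-periodic functions bounded at `i∞`;
`qExpHom : HPB →ₐ[ℂ] PowerSeries ℂ` (the `q`-expansion) is an injective algebra homomorphism.
-/

set_option autoImplicit false

noncomputable section

namespace Fermat.Agent.S23

open UpperHalfPlane ModularForm Filter Function
open scoped MatrixGroups ModularForm Manifold Topology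

/-- holomorphic on `ℍ`, `1`-periodic and bounded at `i∞` -/
def IsHPB (f : ℍ → ℂ) : Prop :=
  MDiff f ∧ Function.Periodic (f ∘ ofComplex) 1 ∧ IsBoundedAtImInfty f

theorem IsHPB.analyticAt {f : ℍ → ℂ} (hf : IsHPB f) : AnalyticAt ℂ (cuspFunction 1 f) 0 :=
  analyticAt_cuspFunction_zero one_pos hf.2.1 hf.1 hf.2.2

theorem qring_isHPB_const (c : ℂ) : IsHPB (fun _ : ℍ => c) := by
  refine ⟨mdifferentiable_const, fun _ => rfl, ?_⟩
  exact Filter.const_boundedAtFilter _ c

theorem IsHPB.add {f g : ℍ → ℂ} (hf : IsHPB f) (hg : IsHPB g) : IsHPB (f + g) := by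
  refine ⟨hf.1.add hg.1, ?_, hf.2.2.add hg.2.2⟩
  intro x
  have h1 := hf.2.1 x
  have h2 := hg.2.1 x
  simp only [Function.comp_apply, Pi.add_apply] at h1 h2 ⊢
  rw [h1, h2]

theorem IsHPB.mul {f g : ℍ → ℂ} (hf : IsHPB f) (hg : IsHPB g) : IsHPB (f * g) := by
  refine ⟨hf.1.mul hg.1, ?_, hf.2.2.mul hg.2.2⟩
  intro x
  have h1 := hf.2.1 x
  have h2 := hg.2.1 x
  simp only [Function.comp_apply, Pi.mul_apply] at h1 h2 ⊢
  rw [h1, h2]

/-- The subalgebra of holomorphic, `1`-periodic functions on `ℍ` that are bounded at `i∞`. -/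
def HPB : Subalgebra ℂ (ℍ → ℂ) where
  carrier := {f | IsHPB f}
  mul_mem' := fun hf hg => IsHPB.mul hf hg
  add_mem' := fun hf hg => IsHPB.add hf hg
  algebraMap_mem' := fun c => qring_isHPB_const c

theorem mem_HPB {f : ℍ → ℂ} : f ∈ HPB ↔ IsHPB f := Iff.rfl

/-- The `q`-expansion as an algebra homomorphism on `HPB`. -/
def qExpHom : HPB →ₐ[ℂ] PowerSeries ℂ where
  toFun f := qExpansion 1 (f : ℍ → ℂ)
  map_one' := qExpansion_one 1
  map_mul' f g := qExpansion_mul (IsHPB.analyticAt f.2) (IsHPB.analyticAt g.2)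
  map_zero' := qExpansion_zero 1
  map_add' f g := qExpansion_add (IsHPB.analyticAt f.2) (IsHPB.analyticAt g.2)
  commutes' c := by
    have h1 : ((algebraMap ℂ HPB c : HPB) : ℍ → ℂ) = c • (1 : ℍ → ℂ) := by
      ext z
      simp [Algebra.algebraMap_eq_smul_one]
    have h2 : AnalyticAt ℂ (cuspFunction 1 (1 : ℍ → ℂ)) 0 :=
      IsHPB.analyticAt (qring_isHPB_const 1)
    show qExpansion 1 ((algebraMap ℂ HPB c : HPB) : ℍ → ℂ) = _
    rw [h1, qExpansion_smul h2, qExpansion_one, Algebra.algebraMap_eq_smul_one]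

@[simp] theorem qExpHom_apply (f : HPB) : qExpHom f = qExpansion 1 (f : ℍ → ℂ) := rfl

theorem qExpHom_injective : Function.Injective qExpHom := by
  rw [injective_iff_map_eq_zero]
  intro f hf
  have := (qExpansion_eq_zero_iff one_pos f.2.2.1 f.2.1 f.2.2.2).mp hf
  exact Subtype.ext this

theorem IsHPB.tendsto_coeff_zero {f : ℍ → ℂ} (hf : IsHPB f) :
    Filter.Tendsto f atImInfty (nhds ((qExpansion 1 f).coeff 0)) := by
  have han := hf.analyticAt
  have h0 : (qExpansion 1 f).coeff 0 = cuspFunction 1 f 0 := by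
    simp [qExpansion_coeff]
  rw [h0]
  have : (cuspFunction 1 f ∘ fun τ : ℍ ↦ Periodic.qParam 1 τ : ℍ → ℂ) = f := by
    funext τ
    simpa using eq_cuspFunction τ one_ne_zero hf.2.1
  simpa [this] using han.continuousAt.tendsto.comp (qParam_tendsto_atImInfty one_pos)

theorem IsHPB.coeff_zero_of_tendsto {f : ℍ → ℂ} (hf : IsHPB f) {c : ℂ}
    (h : Filter.Tendsto f atImInfty (nhds c)) : (qExpansion 1 f).coeff 0 = c :=
  tendsto_nhds_unique hf.tendsto_coeff_zero h

theorem IsMF.isHPB {N : ℕ} [NeZero N] {κ : ℤ} {f : ℍ → ℂ} (hf : IsMF (G0 N) κ f) : IsHPB f := by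
  obtain ⟨F, rfl⟩ := hf
  have h1 : (1 : ℝ) ∈ (G0 N).strictPeriods := CongruenceSubgroup.one_mem_strictPeriods_Gamma0 N
  have : Fact (IsCusp OnePoint.infty (G0 N)) :=
    ⟨(G0 N).isCusp_of_mem_strictPeriods one_pos h1⟩
  exact ⟨ModularFormClass.holo F, SlashInvariantFormClass.periodic_comp_ofComplex F h1,
    ModularFormClass.bdd_at_infty F⟩

end Fermat.Agent.S23

end
end ZBS23_001_9

/-! ### bundled: `Fermat.Agent.S23.DfunLemma` -/
section ZBS23_001_10

/-!
# S23, piece P20: the function `D_Θ = ∏_{q ≠ ⟦1⟧} (Θ − Θ_q)` tends to `1` at `i∞`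

If `Θ` has constant coefficient `1` and all translates `Θ ∣ γ`, `γ ∉ Γ₀(N)`, vanish at `i∞`, then
`Dfun Θ → 1` at `i∞`; in particular `Dfun Θ ≠ 0`.  Helper names are prefixed `dfun_`.
-/

set_option autoImplicit false

noncomputable section

namespace Fermat.Agent.S23

open UpperHalfPlane ModularForm SlashInvariantForm
open scoped MatrixGroups ModularForm Manifold

variable {N : ℕ} [NeZero N] {w : ℤ}

/-- a translate by a coset different from `⟦1⟧` tends to `0` at `i∞`. -/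
theorem dfun_quotientFunc_tendsto_zero (Θ : ModularForm (G0 N) w)
    (hz : ∀ γ : SL(2, ℤ), γ ∉ CongruenceSubgroup.Gamma0 N → IsZeroAtImInfty ((⇑Θ : ℍ → ℂ) ∣[w] γ))
    (q : Coset N) (hq : q ≠ coset1 N) :
    Filter.Tendsto (quotientFunc Θ q) atImInfty (nhds 0) := by
  induction q using Quotient.inductionOn with
  | h r =>
    obtain ⟨g, hg⟩ := r
    obtain ⟨γ, rfl⟩ := hg
    have hγ : γ⁻¹ ∉ CongruenceSubgroup.Gamma0 N := by
      intro hmem
      apply hq
      have hmem' : γ ∈ CongruenceSubgroup.Gamma0 N := by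
        have := inv_mem hmem
        simpa using this
      symm
      show (QuotientGroup.mk 1 : Coset N) = QuotientGroup.mk _
      rw [QuotientGroup.eq, Subgroup.mem_subgroupOf]
      simp only [inv_one, one_mul]
      exact ⟨γ, hmem', rfl⟩
    have key : quotientFunc Θ (⟦⟨Matrix.SpecialLinearGroup.mapGL ℝ γ, ⟨γ, rfl⟩⟩⟧ : Coset N)
        = (⇑Θ : ℍ → ℂ) ∣[w] γ⁻¹ := by
      rw [quotientFunc_mk]
      show (⇑Θ : ℍ → ℂ) ∣[w] (Matrix.SpecialLinearGroup.mapGL ℝ γ)⁻¹ = _
      rw [← map_inv]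
      rfl
    rw [key]
    exact hz γ⁻¹ hγ

/-- **P20.** `Dfun Θ → 1` at `i∞`. -/
theorem Dfun_tendsto_one (Θ : ModularForm (G0 N) w)
    (h0 : (qExpansion 1 Θ).coeff 0 = 1)
    (hz : ∀ γ : SL(2, ℤ), γ ∉ CongruenceSubgroup.Gamma0 N → IsZeroAtImInfty ((⇑Θ : ℍ → ℂ) ∣[w] γ)) :
    Filter.Tendsto (Dfun Θ) atImInfty (nhds 1) := by
  classical
  have hΘ : Filter.Tendsto (⇑Θ : ℍ → ℂ) atImInfty (nhds 1) := by
    have := IsMF.tendsto_coeff_zero (N := N) (κ := w) (f := ⇑Θ) ⟨Θ, rfl⟩
    rwa [h0] at this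
  have hfac : ∀ q ∈ (cosetFinset N).erase (coset1 N),
      Filter.Tendsto (fun z => Θ z - quotientFunc Θ q z) atImInfty (nhds (1 : ℂ)) := by
    intro q hq
    have hq' : q ≠ coset1 N := (Finset.mem_erase.mp hq).1
    have := hΘ.sub (dfun_quotientFunc_tendsto_zero Θ hz q hq')
    simpa using this
  have := tendsto_finset_prod ((cosetFinset N).erase (coset1 N)) hfac
  simp only [Finset.prod_const_one] at this
  exact this

/-- **P20.** `Dfun Θ ≠ 0`. -/
theorem Dfun_ne_zero (Θ : ModularForm (G0 N) w)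
    (h0 : (qExpansion 1 Θ).coeff 0 = 1)
    (hz : ∀ γ : SL(2, ℤ), γ ∉ CongruenceSubgroup.Gamma0 N → IsZeroAtImInfty ((⇑Θ : ℍ → ℂ) ∣[w] γ)) :
    Dfun Θ ≠ 0 := by
  intro h
  have h1 := Dfun_tendsto_one Θ h0 hz
  rw [h] at h1
  have h2 : Filter.Tendsto (0 : ℍ → ℂ) atImInfty (nhds 0) := tendsto_const_nhds
  exact zero_ne_one (tendsto_nhds_unique h2 h1)

end Fermat.Agent.S23

end
end ZBS23_001_10

/-! ### bundled: `Fermat.Agent.S23.AlmostIntegral` -/
section ZBS23_001_11

/-!
# S23 piece (N'): bounded denominators, pure algebra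

`ℤ⟦X⟧` is completely integrally closed, in the following concrete sense: a power series `x` with
rational coefficients such that `d * x ^ j` has integer coefficients for all `j` (for one fixed
nonzero integral `d`) has integer coefficients (`isIntPS_of_forall_mul_pow`).  Consequently a
rational power series which is a fraction of integral power series and satisfies a monic equation
with integral coefficients is integral (`isIntPS_of_monic_of_fraction`).
-/

set_option autoImplicit false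

namespace Fermat.Agent.S23

open PowerSeries

/-- A rational number `x` such that `d * x ^ j` is an integer for all `j` (with `d ≠ 0` a fixed
integer) is an integer. -/
theorem almostInt_rat_isInt {d : ℤ} (hd : d ≠ 0) {x : ℚ}
    (h : ∀ j : ℕ, ∃ a : ℤ, (d : ℚ) * x ^ j = a) : ∃ y : ℤ, x = y := by
  -- `den ^ j ∣ d` for all `j`
  have hdvd : ∀ j : ℕ, ((x.den : ℤ)) ^ j ∣ d := by
    intro j
    obtain ⟨a, ha⟩ := h j
    have key : x ^ j * (x.den : ℚ) ^ j = (x.num : ℚ) ^ j := by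
      rw [← mul_pow, Rat.mul_den_eq_num]
    have h1 : (d : ℚ) * (x.num : ℚ) ^ j = (a : ℚ) * (x.den : ℚ) ^ j := by
      rw [← ha, ← key]
      ring
    have h2 : d * x.num ^ j = a * (x.den : ℤ) ^ j := by exact_mod_cast h1
    have hcop : IsCoprime ((x.den : ℤ) ^ j) (x.num ^ j) := by
      apply IsCoprime.pow
      rw [Int.isCoprime_iff_gcd_eq_one]
      have := x.reduced
      rw [Int.gcd_comm]
      simpa [Int.gcd, Nat.Coprime] using this
    have h3 : (x.den : ℤ) ^ j ∣ d * x.num ^ j := ⟨a, by rw [h2]; ring⟩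
    exact hcop.dvd_of_dvd_mul_right h3
  have hden1 : x.den = 1 := by
    by_contra hne
    have h2 : 2 ≤ x.den := by
      have := x.den_pos
      omega
    have hle : ∀ j : ℕ, (2 : ℤ) ^ j ≤ |d| := by
      intro j
      have h3 : ((x.den : ℤ)) ^ j ≤ |d| :=
        Int.le_of_dvd (abs_pos.mpr hd) ((dvd_abs _ _).mpr (hdvd j))
      have h4 : (2 : ℤ) ^ j ≤ (x.den : ℤ) ^ j := by
        apply pow_le_pow_left₀ (by norm_num)
        exact_mod_cast h2
      exact h4.trans h3
    have hlt : ∀ j : ℕ, (j : ℤ) < 2 ^ j := by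
      intro j
      exact_mod_cast Nat.lt_two_pow_self
    have := hle (|d|).toNat
    have h5 := hlt (|d|).toNat
    have h6 : ((|d|).toNat : ℤ) = |d| := Int.toNat_of_nonneg (abs_nonneg d)
    omega
  refine ⟨x.num, ?_⟩
  have := Rat.num_div_den x
  rw [hden1] at this
  simpa using this.symm

/-- Complex version of `almostInt_rat_isInt`. -/
theorem almostInt_complex_isInt {d : ℤ} (hd : d ≠ 0) {x : ℂ} (hx : ∃ r : ℚ, x = (r : ℂ))
    (h : ∀ j : ℕ, ∃ a : ℤ, (d : ℂ) * x ^ j = a) : ∃ y : ℤ, x = (y : ℂ) := by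
  obtain ⟨r, rfl⟩ := hx
  have h' : ∀ j : ℕ, ∃ a : ℤ, (d : ℚ) * r ^ j = a := by
    intro j
    obtain ⟨a, ha⟩ := h j
    refine ⟨a, ?_⟩
    have : (((d : ℚ) * r ^ j : ℚ) : ℂ) = ((a : ℚ) : ℂ) := by
      push_cast
      exact ha
    exact_mod_cast this
  obtain ⟨y, hy⟩ := almostInt_rat_isInt hd h'
  exact ⟨y, by rw [hy]; norm_cast⟩

/-! ### The subring of integral power series -/

/-- The subring of `ℂ⟦X⟧` of power series with integer coefficients. -/
noncomputable def almostInt_intPSSubring : Subring (PowerSeries ℂ) := (PowerSeries.map (Int.castRingHom ℂ)).range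

theorem almostInt_isIntPS_iff_mem {F : PowerSeries ℂ} : IsIntPS F ↔ F ∈ almostInt_intPSSubring := by
  constructor
  · intro h
    choose a ha using h
    refine ⟨PowerSeries.mk a, ?_⟩
    ext n
    simp [ha n]
  · rintro ⟨G, rfl⟩ n
    exact ⟨PowerSeries.coeff n G, by simp⟩

theorem almostInt_isIntPS_mul {F G : PowerSeries ℂ} (hF : IsIntPS F) (hG : IsIntPS G) : IsIntPS (F * G) :=
  almostInt_isIntPS_iff_mem.2
    (almostInt_intPSSubring.mul_mem (almostInt_isIntPS_iff_mem.1 hF) (almostInt_isIntPS_iff_mem.1 hG))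

theorem almostInt_isIntPS_add {F G : PowerSeries ℂ} (hF : IsIntPS F) (hG : IsIntPS G) : IsIntPS (F + G) :=
  almostInt_isIntPS_iff_mem.2
    (almostInt_intPSSubring.add_mem (almostInt_isIntPS_iff_mem.1 hF) (almostInt_isIntPS_iff_mem.1 hG))

theorem almostInt_isIntPS_neg {F : PowerSeries ℂ} (hF : IsIntPS F) : IsIntPS (-F) :=
  almostInt_isIntPS_iff_mem.2 (almostInt_intPSSubring.neg_mem (almostInt_isIntPS_iff_mem.1 hF))

theorem almostInt_isIntPS_pow {F : PowerSeries ℂ} (hF : IsIntPS F) (n : ℕ) : IsIntPS (F ^ n) :=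
  almostInt_isIntPS_iff_mem.2 (almostInt_intPSSubring.pow_mem (almostInt_isIntPS_iff_mem.1 hF) n)

theorem almostInt_isIntPS_sum {ι : Type*} (s : Finset ι) (F : ι → PowerSeries ℂ)
    (hF : ∀ i ∈ s, IsIntPS (F i)) : IsIntPS (∑ i ∈ s, F i) :=
  almostInt_isIntPS_iff_mem.2
    (almostInt_intPSSubring.sum_mem fun i hi => almostInt_isIntPS_iff_mem.1 (hF i hi))

theorem almostInt_isIntPS_one : IsIntPS (1 : PowerSeries ℂ) :=
  almostInt_isIntPS_iff_mem.2 almostInt_intPSSubring.one_mem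

theorem almostInt_isIntPS_zero : IsIntPS (0 : PowerSeries ℂ) :=
  almostInt_isIntPS_iff_mem.2 almostInt_intPSSubring.zero_mem

theorem almostInt_isIntPS_C_int (z : ℤ) : IsIntPS (PowerSeries.C (z : ℂ)) :=
  almostInt_isIntPS_iff_mem.2 ⟨PowerSeries.C z, by simp⟩

theorem almostInt_isIntPS_natCast (m : ℕ) : IsIntPS ((m : PowerSeries ℂ)) :=
  almostInt_isIntPS_iff_mem.2 (natCast_mem almostInt_intPSSubring m)

theorem almostInt_isIntPS_X : IsIntPS (PowerSeries.X : PowerSeries ℂ) :=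
  almostInt_isIntPS_iff_mem.2 ⟨PowerSeries.X, by simp⟩

theorem almostInt_isIntPS_isRatPS {F : PowerSeries ℂ} (hF : IsIntPS F) : IsRatPS F := fun n => by
  obtain ⟨z, hz⟩ := hF n
  exact ⟨z, by rw [hz]; norm_cast⟩

/-! ### The main lemma -/

/-- coefficient of lowest order of a product `d * y`. -/
theorem almostInt_coeff_order_mul {d : PowerSeries ℂ} (hd : d ≠ 0) (y : PowerSeries ℂ) :
    PowerSeries.coeff d.order.toNat (d * y) =
      PowerSeries.coeff d.order.toNat d * PowerSeries.coeff 0 y := by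
  rw [PowerSeries.coeff_mul]
  apply Finset.sum_eq_single (d.order.toNat, 0)
  · rintro ⟨i, j⟩ hij hne
    have hij : i + j = d.order.toNat := by simpa using hij
    have hi : i < d.order.toNat := by
      rcases Nat.eq_zero_or_pos j with hj | hj
      · exfalso
        apply hne
        subst hj
        simp at hij
        simp [hij]
      · omega
    have : PowerSeries.coeff i d = 0 := by
      apply PowerSeries.coeff_of_lt_order
      have := PowerSeries.coe_toNat_order hd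
      rw [← this]
      exact_mod_cast hi
    simp [this]
  · intro h
    exact absurd (by simp) h

/-- **Lemma (N)**, one coefficient at a time. -/
theorem almostInt_coeff {d : PowerSeries ℂ} (hd : d ≠ 0) (hdint : IsIntPS d) :
    ∀ (n : ℕ) (x : PowerSeries ℂ), IsRatPS x → (∀ j : ℕ, IsIntPS (d * x ^ j)) →
      ∃ z : ℤ, PowerSeries.coeff n x = (z : ℂ) := by
  -- the constant coefficient
  have h0 : ∀ (x : PowerSeries ℂ), IsRatPS x → (∀ j : ℕ, IsIntPS (d * x ^ j)) →
      ∃ z : ℤ, PowerSeries.coeff 0 x = (z : ℂ) := by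
    intro x hx h
    obtain ⟨ds, hds⟩ := hdint d.order.toNat
    have hds0 : ds ≠ 0 := by
      intro h0
      have : PowerSeries.coeff d.order.toNat d = 0 := by rw [hds, h0]; simp
      exact PowerSeries.coeff_order hd this
    apply almostInt_complex_isInt hds0 (hx 0)
    intro j
    obtain ⟨a, ha⟩ := h j d.order.toNat
    refine ⟨a, ?_⟩
    rw [← ha, almostInt_coeff_order_mul hd, hds]
    congr 1
    simp [PowerSeries.coeff_zero_eq_constantCoeff]
  intro n
  induction n with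
  | zero => exact h0
  | succ n ih =>
    intro x hx h
    obtain ⟨z0, hz0⟩ := h0 x hx h
    -- the shifted series
    set x' : PowerSeries ℂ := PowerSeries.mk fun p => PowerSeries.coeff (p + 1) x with hx'
    have hxdec : x = PowerSeries.X * x' + PowerSeries.C (z0 : ℂ) := by
      have := PowerSeries.eq_X_mul_shift_add_const x
      rw [← PowerSeries.coeff_zero_eq_constantCoeff_apply, hz0] at this
      exact this
    have hx'rat : IsRatPS x' := fun p => by
      simpa [hx'] using hx (p + 1)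
    have hx'int : ∀ j : ℕ, IsIntPS (d * x' ^ j) := by
      intro j
      -- `X ^ j * (d * x' ^ j) = d * (x - C z0) ^ j`
      have h1 : PowerSeries.X ^ j * (d * x' ^ j) = d * (x + -PowerSeries.C (z0 : ℂ)) ^ j := by
        have : x + -PowerSeries.C (z0 : ℂ) = PowerSeries.X * x' := by
          rw [hxdec]; ring
        rw [this, mul_pow]; ring
      have h2 : IsIntPS (d * (x + -PowerSeries.C (z0 : ℂ)) ^ j) := by
        rw [add_pow, Finset.mul_sum]
        apply almostInt_isIntPS_sum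
        intro m _
        have : d * (x ^ m * (-PowerSeries.C (z0 : ℂ)) ^ (j - m) * (j.choose m : PowerSeries ℂ)) =
            (d * x ^ m) * ((-PowerSeries.C (z0 : ℂ)) ^ (j - m) * (j.choose m : PowerSeries ℂ)) := by
          ring
        rw [this]
        exact almostInt_isIntPS_mul (h m) (almostInt_isIntPS_mul (almostInt_isIntPS_pow (almostInt_isIntPS_neg (almostInt_isIntPS_C_int z0)) _) (almostInt_isIntPS_natCast _))
      rw [← h1] at h2
      intro p
      obtain ⟨a, ha⟩ := h2 (p + j)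
      refine ⟨a, ?_⟩
      rw [← ha, PowerSeries.coeff_X_pow_mul]
    obtain ⟨z, hz⟩ := ih x' hx'rat hx'int
    refine ⟨z, ?_⟩
    rw [← hz, hx']
    simp

/-- **Lemma (N)**: `ℤ⟦X⟧` is completely integrally closed in `ℚ⟦X⟧`. -/
theorem isIntPS_of_forall_mul_pow {d x : PowerSeries ℂ} (hd : d ≠ 0) (hdint : IsIntPS d)
    (hx : IsRatPS x) (h : ∀ j : ℕ, IsIntPS (d * x ^ j)) : IsIntPS x :=
  fun n => almostInt_coeff hd hdint n x hx h

/-- **Lemma (N')**: a rational power series which is a fraction of integral power series and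
satisfies a monic equation with integral coefficients is integral. -/
theorem isIntPS_of_monic_of_fraction {x P Q : PowerSeries ℂ} {n : ℕ} (c : ℕ → PowerSeries ℂ)
    (hx : IsRatPS x) (hP : IsIntPS P) (hQ : IsIntPS Q) (hQ0 : Q ≠ 0) (hQx : Q * x = P)
    (hc : ∀ m, 1 ≤ m → m ≤ n → IsIntPS (c m)) (hn : 1 ≤ n)
    (hrel : x ^ n + ∑ m ∈ Finset.Icc 1 n, c m * x ^ (n - m) = 0) : IsIntPS x := by
  apply isIntPS_of_forall_mul_pow (d := Q ^ (n - 1)) (pow_ne_zero _ hQ0) (almostInt_isIntPS_pow hQ _) hx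
  intro j
  induction j using Nat.strong_induction_on with
  | _ j ih =>
    rcases Nat.lt_or_ge j n with hj | hj
    · -- `Q ^ (n-1) * x ^ j = Q ^ (n-1-j) * P ^ j`
      have : Q ^ (n - 1) * x ^ j = Q ^ (n - 1 - j) * P ^ j := by
        rw [← hQx, mul_pow, ← mul_assoc, ← pow_add]
        congr 2
        omega
      rw [this]
      exact almostInt_isIntPS_mul (almostInt_isIntPS_pow hQ _) (almostInt_isIntPS_pow hP _)
    · -- use the monic relation
      have hxn : x ^ n = -∑ m ∈ Finset.Icc 1 n, c m * x ^ (n - m) := by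
        rw [eq_neg_iff_add_eq_zero]; exact hrel
      have hxj : Q ^ (n - 1) * x ^ j =
          -∑ m ∈ Finset.Icc 1 n, c m * (Q ^ (n - 1) * x ^ (j - m)) := by
        have hj' : x ^ j = x ^ (j - n) * x ^ n := by
          rw [← pow_add]; congr 1; omega
        rw [hj', hxn, mul_neg, mul_neg, Finset.mul_sum, Finset.mul_sum]
        congr 1
        apply Finset.sum_congr rfl
        intro m hm
        rw [Finset.mem_Icc] at hm
        have : x ^ (j - m) = x ^ (j - n) * x ^ (n - m) := by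
          rw [← pow_add]; congr 1; omega
        rw [this]; ring
      rw [hxj]
      apply almostInt_isIntPS_neg
      apply almostInt_isIntPS_sum
      intro m hm
      rw [Finset.mem_Icc] at hm
      exact almostInt_isIntPS_mul (hc m hm.1 hm.2) (ih (j - m) (by omega))

end Fermat.Agent.S23


end ZBS23_001_11

/-! ### bundled: `Fermat.Agent.S23.Removable` -/
section ZBS23_001_12

/-!
# S23 piece (B): "algebraic ⇒ analytic" (removable singularities)

If `G`, `D` are holomorphic on `ℍ`, `D ≠ 0`, and `G / D` satisfies a monic polynomial equation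
with holomorphic coefficients, then `G / D` extends to a holomorphic function on `ℍ`.
-/

set_option autoImplicit false

open Complex Filter Topology Set

namespace Fermat.Agent.S23

/-- Cauchy-type bound for the roots of a monic polynomial. -/
lemma rem_norm_le_of_monic_eq {n : ℕ} (x : ℂ) (c : ℕ → ℂ)
    (h : x ^ n + ∑ m ∈ Finset.range n, c (m + 1) * x ^ (n - (m + 1)) = 0) :
    ‖x‖ ≤ max 1 (∑ m ∈ Finset.range n, ‖c (m + 1)‖) := by
  rcases le_or_gt ‖x‖ 1 with h1 | h1
  · exact le_max_of_le_left h1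
  · apply le_max_of_le_right
    rcases Nat.eq_zero_or_pos n with rfl | hn
    · simp at h
    have hx0 : 0 < ‖x‖ := lt_trans one_pos h1
    have hxn : x ^ n = - ∑ m ∈ Finset.range n, c (m + 1) * x ^ (n - (m + 1)) :=
      eq_neg_of_add_eq_zero_left h
    have h2 : ‖x‖ ^ n ≤ (∑ m ∈ Finset.range n, ‖c (m + 1)‖) * ‖x‖ ^ (n - 1) := by
      calc ‖x‖ ^ n = ‖x ^ n‖ := (norm_pow x n).symm
        _ = ‖∑ m ∈ Finset.range n, c (m + 1) * x ^ (n - (m + 1))‖ := by rw [hxn, norm_neg]
        _ ≤ ∑ m ∈ Finset.range n, ‖c (m + 1) * x ^ (n - (m + 1))‖ := norm_sum_le _ _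
        _ ≤ ∑ m ∈ Finset.range n, ‖c (m + 1)‖ * ‖x‖ ^ (n - 1) := by
            apply Finset.sum_le_sum
            intro m _
            rw [norm_mul, norm_pow]
            apply mul_le_mul_of_nonneg_left _ (norm_nonneg _)
            exact pow_le_pow_right₀ h1.le (by omega)
        _ = (∑ m ∈ Finset.range n, ‖c (m + 1)‖) * ‖x‖ ^ (n - 1) := by
            rw [Finset.sum_mul]
    have h3 : ‖x‖ ^ n = ‖x‖ * ‖x‖ ^ (n - 1) := by
      rw [← pow_succ']; congr 1; omega
    rw [h3] at h2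
    exact le_of_mul_le_mul_right h2 (pow_pos hx0 _)

/-- If the coefficients are small, the roots are small. -/
lemma rem_norm_pow_le_of_monic_eq {n : ℕ} (x : ℂ) (c : ℕ → ℂ)
    (h : x ^ n + ∑ m ∈ Finset.range n, c (m + 1) * x ^ (n - (m + 1)) = 0)
    (hS : ∑ m ∈ Finset.range n, ‖c (m + 1)‖ ≤ 1) :
    ‖x‖ ^ n ≤ ∑ m ∈ Finset.range n, ‖c (m + 1)‖ := by
  have h1 : ‖x‖ ≤ 1 := (rem_norm_le_of_monic_eq x c h).trans (max_le le_rfl hS)
  have hxn : x ^ n = - ∑ m ∈ Finset.range n, c (m + 1) * x ^ (n - (m + 1)) :=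
    eq_neg_of_add_eq_zero_left h
  calc ‖x‖ ^ n = ‖x ^ n‖ := (norm_pow x n).symm
    _ = ‖∑ m ∈ Finset.range n, c (m + 1) * x ^ (n - (m + 1))‖ := by rw [hxn, norm_neg]
    _ ≤ ∑ m ∈ Finset.range n, ‖c (m + 1) * x ^ (n - (m + 1))‖ := norm_sum_le _ _
    _ ≤ ∑ m ∈ Finset.range n, ‖c (m + 1)‖ := by
        apply Finset.sum_le_sum
        intro m _
        rw [norm_mul, norm_pow]
        exact mul_le_of_le_one_right (norm_nonneg _) (pow_le_one₀ (norm_nonneg _) h1)


/-- Zeros of a holomorphic function which is not identically zero on a preconnected open set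
are isolated. -/
lemma rem_eventually_ne_zero {U : Set ℂ} (hUo : IsOpen U) (hUc : IsPreconnected U)
    {d : ℂ → ℂ} (hd : DifferentiableOn ℂ d U) (hd0 : ∃ z ∈ U, d z ≠ 0)
    {z₀ : ℂ} (hz₀ : z₀ ∈ U) : ∀ᶠ z in 𝓝[≠] z₀, d z ≠ 0 := by
  have hdA : AnalyticOnNhd ℂ d U := hd.analyticOnNhd hUo
  rcases (hdA z₀ hz₀).eventually_eq_zero_or_eventually_ne_zero with h | h
  · exfalso
    obtain ⟨z, hz, hdz⟩ := hd0
    exact hdz (hdA.eqOn_zero_of_preconnected_of_eventuallyEq_zero hUc hz₀ h hz)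
  · exact h

/-- If `h` is continuous at `z₀` and vanishes on a punctured neighbourhood, it vanishes at `z₀`. -/
lemma rem_eq_zero_of_eventually_punctured {h : ℂ → ℂ} {z₀ : ℂ} (hc : ContinuousAt h z₀)
    (h0 : ∀ᶠ z in 𝓝[≠] z₀, h z = 0) : h z₀ = 0 := by
  have h1 : Tendsto h (𝓝[≠] z₀) (𝓝 (h z₀)) := hc.tendsto.mono_left nhdsWithin_le_nhds
  have h2 : Tendsto h (𝓝[≠] z₀) (𝓝 0) :=
    tendsto_const_nhds.congr' (h0.mono fun z hz => hz.symm)
  exact tendsto_nhds_unique h1 h2

/-- **Lemma A** (removable singularities): if `g`, `d` are holomorphic on a preconnected open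
set `U`, `d` is not identically zero on `U`, and `g / d` satisfies a monic equation with continuous
coefficients (written after clearing denominators), then there is a holomorphic `F` on `U` with
`F * d = g`. -/
theorem rem_exists_holo_quotient {U : Set ℂ} (hUo : IsOpen U) (hUc : IsPreconnected U)
    {n : ℕ} (g d : ℂ → ℂ) (α : ℕ → ℂ → ℂ)
    (hg : DifferentiableOn ℂ g U) (hd : DifferentiableOn ℂ d U)
    (hα : ∀ m, ContinuousOn (α m) U)
    (hd0 : ∃ z ∈ U, d z ≠ 0)
    (heq : ∀ z ∈ U, g z ^ n +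
      ∑ m ∈ Finset.range n, α (m + 1) z * g z ^ (n - (m + 1)) * d z ^ (m + 1) = 0) :
    ∃ F : ℂ → ℂ, DifferentiableOn ℂ F U ∧ (∀ z ∈ U, F z * d z = g z) ∧
      (∀ z ∈ U, F z ^ n + ∑ m ∈ Finset.range n, α (m + 1) z * F z ^ (n - (m + 1)) = 0) := by
  classical
  set q : ℂ → ℂ := fun z => g z / d z with hq
  -- the monic equation for q
  have hqeq : ∀ z ∈ U, d z ≠ 0 →
      q z ^ n + ∑ m ∈ Finset.range n, α (m + 1) z * q z ^ (n - (m + 1)) = 0 := by
    intro z hz hdz
    have h := heq z hz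
    have hdn : d z ^ n ≠ 0 := pow_ne_zero _ hdz
    have key : (q z ^ n + ∑ m ∈ Finset.range n, α (m + 1) z * q z ^ (n - (m + 1))) * d z ^ n
        = g z ^ n +
      ∑ m ∈ Finset.range n, α (m + 1) z * g z ^ (n - (m + 1)) * d z ^ (m + 1) := by
      rw [add_mul, Finset.sum_mul]
      congr 1
      · simp only [hq, div_pow]; field_simp
      · apply Finset.sum_congr rfl
        intro m hm
        have hmn : m + 1 ≤ n := Finset.mem_range.mp hm
        have : d z ^ n = d z ^ (n - (m + 1)) * d z ^ (m + 1) := by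
          rw [← pow_add]; congr 1; omega
        rw [this]
        simp only [hq, div_pow]
        field_simp
    rw [h] at key
    exact (mul_eq_zero.mp key).resolve_right hdn
  have hqdiff : ∀ z ∈ U, d z ≠ 0 → DifferentiableAt ℂ q z := by
    intro z hz hdz
    exact (hg.differentiableAt (hUo.mem_nhds hz)).div (hd.differentiableAt (hUo.mem_nhds hz)) hdz
  set F : ℂ → ℂ := fun z => limUnder (𝓝[≠] z) q with hF
  have hFq : ∀ z ∈ U, d z ≠ 0 → F z = q z := by
    intro z hz hdz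
    have : Tendsto q (𝓝[≠] z) (𝓝 (q z)) :=
      (hqdiff z hz hdz).continuousAt.tendsto.mono_left nhdsWithin_le_nhds
    exact this.limUnder_eq
  have hiso : ∀ z₀ ∈ U, ∀ᶠ z in 𝓝[≠] z₀, d z ≠ 0 := fun z₀ hz₀ =>
    rem_eventually_ne_zero hUo hUc hd hd0 hz₀
  -- differentiability of F at each point
  have hFdiff : ∀ z₀ ∈ U, DifferentiableAt ℂ F z₀ := by
    intro z₀ hz₀
    set S : ℂ → ℝ := fun z => ∑ m ∈ Finset.range n, ‖α (m + 1) z‖ with hS
    have hScont : ContinuousAt S z₀ := by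
      apply tendsto_finsetSum
      intro m _
      exact ((hα (m + 1)).continuousAt (hUo.mem_nhds hz₀)).norm
    have h1 : ∀ᶠ z in 𝓝 z₀, z ∈ U := hUo.mem_nhds hz₀
    have h2 : ∀ᶠ z in 𝓝 z₀, z ≠ z₀ → d z ≠ 0 := by
      have := hiso z₀ hz₀
      rw [eventually_nhdsWithin_iff] at this
      exact this.mono fun z hz hne => hz hne
    have h3 : ∀ᶠ z in 𝓝 z₀, S z < S z₀ + 1 :=
      hScont.eventually (gt_mem_nhds (lt_add_one _))
    have h123 := h1.and (h2.and h3)
    obtain ⟨s, hsub, hso, hz₀s⟩ := eventually_nhds_iff.mp h123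
    have hs_nhds : s ∈ 𝓝 z₀ := hso.mem_nhds hz₀s
    have hdq : DifferentiableOn ℂ q (s \ {z₀}) := by
      intro z hz
      have hzs := hsub z hz.1
      exact (hqdiff z hzs.1 (hzs.2.1 hz.2)).differentiableWithinAt
    have hbd : BddAbove (norm ∘ q '' (s \ {z₀})) := by
      refine ⟨max 1 (S z₀ + 1), ?_⟩
      rintro _ ⟨z, hz, rfl⟩
      have hzs := hsub z hz.1
      have := rem_norm_le_of_monic_eq (q z) (fun m => α m z) (hqeq z hzs.1 (hzs.2.1 hz.2))
      exact this.trans (max_le_max le_rfl hzs.2.2.le)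
    have hupd := differentiableOn_update_limUnder_of_bddAbove hs_nhds hdq hbd
    have hEq : F =ᶠ[𝓝 z₀] Function.update q z₀ (limUnder (𝓝[≠] z₀) q) := by
      filter_upwards [hs_nhds] with z hz
      by_cases hzz : z = z₀
      · subst hzz; simp [hF]
      · rw [Function.update_of_ne hzz]
        have hzs := hsub z hz
        exact hFq z hzs.1 (hzs.2.1 hzz)
    exact (hupd.differentiableAt hs_nhds).congr_of_eventuallyEq hEq
  refine ⟨F, fun z hz => (hFdiff z hz).differentiableWithinAt, ?_, ?_⟩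
  swap
  · intro z₀ hz₀
    by_cases hdz : d z₀ = 0
    · have hc : ContinuousAt
          (fun z => F z ^ n + ∑ m ∈ Finset.range n, α (m + 1) z * F z ^ (n - (m + 1))) z₀ := by
        apply ContinuousAt.add
        · exact ((hFdiff z₀ hz₀).continuousAt).pow n
        · apply tendsto_finsetSum
          intro m _
          exact ((hα (m + 1)).continuousAt (hUo.mem_nhds hz₀)).mul
            (((hFdiff z₀ hz₀).continuousAt).pow _)
      have h0 : ∀ᶠ z in 𝓝[≠] z₀,
          F z ^ n + ∑ m ∈ Finset.range n, α (m + 1) z * F z ^ (n - (m + 1)) = 0 := by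
        have hU' : ∀ᶠ z in 𝓝[≠] z₀, z ∈ U :=
          eventually_nhdsWithin_of_eventually_nhds (hUo.mem_nhds hz₀)
        filter_upwards [hiso z₀ hz₀, hU'] with z hz hzU
        rw [hFq z hzU hz]
        exact hqeq z hzU hz
      exact rem_eq_zero_of_eventually_punctured
        (h := fun z => F z ^ n + ∑ m ∈ Finset.range n, α (m + 1) z * F z ^ (n - (m + 1))) hc h0
    · rw [hFq z₀ hz₀ hdz]
      exact hqeq z₀ hz₀ hdz
  intro z₀ hz₀
  by_cases hdz : d z₀ = 0
  · have hc : ContinuousAt (fun z => F z * d z - g z) z₀ :=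
      (((hFdiff z₀ hz₀).mul (hd.differentiableAt (hUo.mem_nhds hz₀))).sub
        (hg.differentiableAt (hUo.mem_nhds hz₀))).continuousAt
    have h0 : ∀ᶠ z in 𝓝[≠] z₀, F z * d z - g z = 0 := by
      have hU' : ∀ᶠ z in 𝓝[≠] z₀, z ∈ U :=
        eventually_nhdsWithin_of_eventually_nhds (hUo.mem_nhds hz₀)
      filter_upwards [hiso z₀ hz₀, hU'] with z hz hzU
      rw [hFq z hzU hz, hq]
      field_simp
      ring
    have := rem_eq_zero_of_eventually_punctured hc h0
    exact sub_eq_zero.mp this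
  · rw [hFq z₀ hz₀ hdz, hq]
    field_simp


open UpperHalfPlane ModularForm
open scoped MatrixGroups Manifold

lemma rem_isPreconnected_upperHalfPlaneSet : IsPreconnected {z : ℂ | 0 < z.im} :=
  (convex_halfSpace_im_gt 0).isPreconnected

/-- If `D` is holomorphic on `ℍ` and not identically zero, `h` is continuous and `h * D = 0`,
then `h = 0`. -/
lemma rem_eq_zero_of_mul_eq_zero {D h : ℍ → ℂ} (hD : MDiff D) (hD0 : D ≠ 0)
    (hh : Continuous h) (hmul : ∀ z, h z * D z = 0) : h = 0 := by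
  funext z₀
  have hd : DifferentiableOn ℂ (D ∘ ofComplex) {z : ℂ | 0 < z.im} :=
    UpperHalfPlane.mdifferentiable_iff.mp hD
  have hd0 : ∃ z ∈ {z : ℂ | 0 < z.im}, (D ∘ ofComplex) z ≠ 0 := by
    by_contra hcon
    push Not at hcon
    apply hD0
    funext z
    have := hcon (z : ℂ) z.im_pos
    simpa using this
  have hiso := rem_eventually_ne_zero isOpen_upperHalfPlaneSet
    rem_isPreconnected_upperHalfPlaneSet hd hd0 (z₀ := (z₀ : ℂ)) z₀.im_pos
  have hc : ContinuousAt (h ∘ ofComplex) (z₀ : ℂ) := by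
    have h1 : ContinuousAt ofComplex (z₀ : ℂ) :=
      (mdifferentiableAt_ofComplex z₀.im_pos).continuousAt
    exact hh.continuousAt.comp h1
  have h0 : ∀ᶠ z in 𝓝[≠] (z₀ : ℂ), (h ∘ ofComplex) z = 0 := by
    filter_upwards [hiso] with z hz
    have := hmul (ofComplex z)
    exact (mul_eq_zero.mp this).resolve_right hz
  have := rem_eq_zero_of_eventually_punctured hc h0
  simpa using this

/-- **Lemma A on `ℍ`**: holomorphic quotient `f = G / D` on `ℍ`, satisfying the monic equation. -/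
theorem rem_exists_mdiff_quotient {n : ℕ} (G D : ℍ → ℂ) (a : ℕ → ℍ → ℂ)
    (hG : MDiff G) (hD : MDiff D) (ha : ∀ m, m < n → MDiff (a (m + 1)))
    (hD0 : D ≠ 0)
    (heq : ∀ z, G z ^ n +
      ∑ m ∈ Finset.range n, a (m + 1) z * G z ^ (n - (m + 1)) * D z ^ (m + 1) = 0) :
    ∃ f : ℍ → ℂ, MDiff f ∧ (∀ z, f z * D z = G z) ∧
      (∀ z, f z ^ n + ∑ m ∈ Finset.range n, a (m + 1) z * f z ^ (n - (m + 1)) = 0) := by
  classical
  set α : ℕ → ℂ → ℂ := fun m => if m - 1 < n ∧ 1 ≤ m then (a m) ∘ ofComplex else 0 with hα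
  have hαa : ∀ m, m < n → α (m + 1) = (a (m + 1)) ∘ ofComplex := by
    intro m hm
    simp [hα, hm]
  have hg : DifferentiableOn ℂ (G ∘ ofComplex) {z : ℂ | 0 < z.im} :=
    UpperHalfPlane.mdifferentiable_iff.mp hG
  have hd : DifferentiableOn ℂ (D ∘ ofComplex) {z : ℂ | 0 < z.im} :=
    UpperHalfPlane.mdifferentiable_iff.mp hD
  have hαc : ∀ m, ContinuousOn (α m) {z : ℂ | 0 < z.im} := by
    intro m
    by_cases hm : m - 1 < n ∧ 1 ≤ m
    · have h1 : m = (m - 1) + 1 := by omega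
      have : α m = (a m) ∘ ofComplex := by simp [hα, hm]
      rw [this]
      have h2 : MDiff (a m) := by rw [h1]; exact ha (m - 1) hm.1
      exact (UpperHalfPlane.mdifferentiable_iff.mp h2).continuousOn
    · have : α m = 0 := by simp [hα, hm]
      rw [this]
      exact continuousOn_const
  have hd0 : ∃ z ∈ {z : ℂ | 0 < z.im}, (D ∘ ofComplex) z ≠ 0 := by
    by_contra hcon
    push Not at hcon
    apply hD0
    funext z
    have := hcon (z : ℂ) z.im_pos
    simpa using this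
  have heq' : ∀ z ∈ {z : ℂ | 0 < z.im}, (G ∘ ofComplex) z ^ n +
      ∑ m ∈ Finset.range n, α (m + 1) z * (G ∘ ofComplex) z ^ (n - (m + 1)) *
        (D ∘ ofComplex) z ^ (m + 1) = 0 := by
    intro z _
    have := heq (ofComplex z)
    rw [← this]
    congr 1
    apply Finset.sum_congr rfl
    intro m hm
    rw [hαa m (Finset.mem_range.mp hm)]
    rfl
  obtain ⟨F, hFd, hFmul, hFeq⟩ := rem_exists_holo_quotient isOpen_upperHalfPlaneSet
    rem_isPreconnected_upperHalfPlaneSet (G ∘ ofComplex) (D ∘ ofComplex) α hg hd hαc hd0 heq'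
  refine ⟨fun z => F (z : ℂ), ?_, ?_, ?_⟩
  · rw [UpperHalfPlane.mdifferentiable_iff]
    apply hFd.congr
    intro z hz
    simp only [Function.comp_apply, ofComplex_apply_of_im_pos hz]
  · intro z
    have := hFmul (z : ℂ) z.im_pos
    simpa using this
  · intro z
    have := hFeq (z : ℂ) z.im_pos
    rw [← this]
    congr 1
    apply Finset.sum_congr rfl
    intro m hm
    rw [hαa m (Finset.mem_range.mp hm)]
    simp only [Function.comp_apply, ofComplex_apply]


/-- The weight-`k` slash of `f` by `γ ∈ SL(2,ℤ)` satisfies the same monic equation, when the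
coefficients `a m` are slash-invariant of weight `m * k` under `γ`. -/
lemma rem_slash_monic_eq {k : ℤ} {n : ℕ} (f : ℍ → ℂ) (a : ℕ → ℍ → ℂ) (γ : SL(2, ℤ))
    (haSL : ∀ m, m < n → a (m + 1) ∣[((m + 1 : ℕ) : ℤ) * k] γ = a (m + 1))
    (hf : ∀ z, f z ^ n + ∑ m ∈ Finset.range n, a (m + 1) z * f z ^ (n - (m + 1)) = 0) (z : ℍ) :
    (f ∣[k] γ) z ^ n +
      ∑ m ∈ Finset.range n, a (m + 1) z * (f ∣[k] γ) z ^ (n - (m + 1)) = 0 := by
  set w : ℍ := γ • z with hw
  set u : ℂ := denom γ z ^ (-k) with hu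
  have hfz : (f ∣[k] γ) z = f w * u := by rw [SL_slash_apply]
  have haz : ∀ m, m < n → a (m + 1) z = a (m + 1) w * u ^ (m + 1) := by
    intro m hm
    have h1 := congrFun (haSL m hm) z
    rw [SL_slash_apply] at h1
    rw [← h1, hu, ← zpow_natCast, ← zpow_mul]
    congr 2
    push_cast
    ring
  have key : (f ∣[k] γ) z ^ n +
      ∑ m ∈ Finset.range n, a (m + 1) z * (f ∣[k] γ) z ^ (n - (m + 1)) =
      u ^ n * (f w ^ n + ∑ m ∈ Finset.range n, a (m + 1) w * f w ^ (n - (m + 1))) := by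
    rw [mul_add, Finset.mul_sum, hfz]
    congr 1
    · ring
    · apply Finset.sum_congr rfl
      intro m hm
      have hmn : m < n := Finset.mem_range.mp hm
      rw [haz m hmn]
      have : u ^ n = u ^ (m + 1) * u ^ (n - (m + 1)) := by
        rw [← pow_add]; congr 1; omega
      rw [this]
      ring
  rw [key, hf w, mul_zero]

/-- A function satisfying a monic equation whose coefficients tend to `0` at `i∞` tends to `0`
at `i∞`. -/
lemma rem_isZeroAtImInfty_of_monic_eq {n : ℕ} (f : ℍ → ℂ) (a : ℕ → ℍ → ℂ)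
    (ha0 : ∀ m, m < n → IsZeroAtImInfty (a (m + 1)))
    (hf : ∀ z, f z ^ n + ∑ m ∈ Finset.range n, a (m + 1) z * f z ^ (n - (m + 1)) = 0) :
    IsZeroAtImInfty f := by
  rcases Nat.eq_zero_or_pos n with rfl | hn
  · exfalso
    have := hf UpperHalfPlane.I
    simp at this
  set S : ℍ → ℝ := fun z => ∑ m ∈ Finset.range n, ‖a (m + 1) z‖ with hS
  have hS0 : Tendsto S atImInfty (𝓝 0) := by
    have : Tendsto S atImInfty (𝓝 (∑ m ∈ Finset.range n, (0 : ℝ))) := by
      apply tendsto_finsetSum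
      intro m hm
      have := ha0 m (Finset.mem_range.mp hm)
      exact tendsto_zero_iff_norm_tendsto_zero.mp this
    simpa using this
  rw [IsZeroAtImInfty, ZeroAtFilter, Metric.tendsto_nhds]
  intro ε hε
  have hεn : 0 < min 1 (ε ^ n) := lt_min one_pos (pow_pos hε n)
  have hev : ∀ᶠ z in atImInfty, S z < min 1 (ε ^ n) := by
    have := (Metric.tendsto_nhds.mp hS0) (min 1 (ε ^ n)) hεn
    filter_upwards [this] with z hz
    rw [Real.dist_eq, sub_zero] at hz
    exact (le_abs_self _).trans_lt hz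
  filter_upwards [hev] with z hz
  rw [dist_zero_right]
  have h1 : S z ≤ 1 := (hz.trans_le (min_le_left _ _)).le
  have h2 : ‖f z‖ ^ n ≤ S z :=
    rem_norm_pow_le_of_monic_eq (f z) (fun m => a m z) (hf z) h1
  have h3 : ‖f z‖ ^ n < ε ^ n := h2.trans_lt (hz.trans_le (min_le_right _ _))
  exact lt_of_pow_lt_pow_left₀ n hε.le h3

/-- **(B), function form.** -/
theorem rem_exists_cuspForm (Γ : Subgroup SL(2, ℤ)) {k W : ℤ} {n : ℕ}
    (G D : ℍ → ℂ) (a : ℕ → ℍ → ℂ)
    (hG : MDiff G) (hD : MDiff D) (ha : ∀ m, m < n → MDiff (a (m + 1)))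
    (hGΓ : ∀ γ ∈ Γ, G ∣[W + k] γ = G) (hDΓ : ∀ γ ∈ Γ, D ∣[W] γ = D)
    (haSL : ∀ m, m < n → ∀ γ : SL(2, ℤ), a (m + 1) ∣[((m + 1 : ℕ) : ℤ) * k] γ = a (m + 1))
    (ha0 : ∀ m, m < n → IsZeroAtImInfty (a (m + 1)))
    (hD0 : D ≠ 0)
    (heq : ∀ z, G z ^ n +
      ∑ m ∈ Finset.range n, a (m + 1) z * G z ^ (n - (m + 1)) * D z ^ (m + 1) = 0) :
    ∃ f : CuspForm (Γ.map (Matrix.SpecialLinearGroup.mapGL ℝ)) k, ∀ z, f z * D z = G z := by
  obtain ⟨f, hfd, hfmul, hfeq⟩ := rem_exists_mdiff_quotient G D a hG hD ha hD0 heq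
  have hslash : ∀ γ ∈ Γ, f ∣[k] γ = f := by
    intro γ hγ
    have hc : Continuous (f ∣[k] γ - f) := by
      have h1 : MDiff (f ∣[k] γ) := hfd.slash k _
      exact h1.continuous.sub hfd.continuous
    have hmul : ∀ z, (f ∣[k] γ - f) z * D z = 0 := by
      intro z
      have hGz := congrFun (hGΓ γ hγ) z
      have hDz := congrFun (hDΓ γ hγ) z
      rw [SL_slash_apply] at hGz hDz
      have hδ : denom γ z ≠ 0 := denom_ne_zero _ z
      rw [Pi.sub_apply, sub_mul, hfmul z, SL_slash_apply]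
      nth_rewrite 1 [← hDz]
      rw [← hGz, ← hfmul (γ • z), neg_add, zpow_add₀ hδ]
      ring
    have := rem_eq_zero_of_mul_eq_zero hD hD0 hc hmul
    exact sub_eq_zero.mp this
  have hzero : ∀ γ : SL(2, ℤ), IsZeroAtImInfty (f ∣[k] γ) := by
    intro γ
    apply rem_isZeroAtImInfty_of_monic_eq (f ∣[k] γ) a ha0
    intro z
    exact rem_slash_monic_eq f a γ (fun m hm => haSL m hm γ) hfeq z
  refine ⟨{ toFun := f
            slash_action_eq' := ?_
            holo' := hfd
            zero_at_cusps' := ?_ }, fun z => hfmul z⟩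
  · intro γ hγ
    obtain ⟨γ₀, hγ₀, rfl⟩ := Subgroup.mem_map.mp hγ
    exact hslash γ₀ hγ₀
  · intro c hc
    have hc' : IsCusp c 𝒮ℒ := hc.mono (Subgroup.map_le_range _ _)
    rw [OnePoint.isZeroAt_iff_forall_SL2Z hc']
    intro γ _
    exact hzero γ


lemma rem_sum_Icc_eq_sum_range {M : Type*} [AddCommMonoid M] (F : ℕ → M) (n : ℕ) :
    ∑ m ∈ Finset.Icc 1 n, F m = ∑ m ∈ Finset.range n, F (m + 1) := by
  induction n with
  | zero => simp
  | succ n ih =>
    rw [Finset.sum_range_succ, ← ih, ← Finset.insert_Icc_right_eq_Icc_add_one (by omega),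
      Finset.sum_insert (by simp), add_comm]

/-- **P6 = (B), algebraic ⇒ analytic** (interface of NOTES/S23.md). -/
theorem exists_cuspForm_of_monic_relation {N : ℕ} [NeZero N] {k W : ℤ} {n : ℕ} (hn : 1 ≤ n)
    (G D : ℍ → ℂ) (hG : IsMF (G0 N) (W + k) G) (hD : IsMF (G0 N) W D) (hD0 : D ≠ 0)
    (a : ℕ → ℍ → ℂ) (ha : ∀ m, 1 ≤ m → m ≤ n → IsCF 𝒮ℒ (m * k) (a m))
    (h : ∀ z, G z ^ n + ∑ m ∈ Finset.Icc 1 n, a m z * G z ^ (n - m) * D z ^ m = 0) :
    ∃ f : CuspForm (G0 N) k, ∀ z, f z * D z = G z := by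
  have _ := hn
  obtain ⟨FG, rfl⟩ := hG
  obtain ⟨FD, rfl⟩ := hD
  have hcusp : IsCusp OnePoint.infty 𝒮ℒ := by
    rw [isCusp_SL2Z_iff']
    exact ⟨1, by simp⟩
  apply rem_exists_cuspForm (n := n) (W := W) (k := k) (CongruenceSubgroup.Gamma0 N) (⇑FG) (⇑FD) a
    (ModularFormClass.holo FG) (ModularFormClass.holo FD)
  · intro m hm
    obtain ⟨F, hF⟩ := ha (m + 1) (by omega) (by omega)
    rw [← hF]
    exact CuspFormClass.holo F
  · intro γ hγ
    exact SlashInvariantFormClass.slash_action_eq FG _ (Subgroup.mem_map_of_mem _ hγ)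
  · intro γ hγ
    exact SlashInvariantFormClass.slash_action_eq FD _ (Subgroup.mem_map_of_mem _ hγ)
  · intro m hm γ
    obtain ⟨F, hF⟩ := ha (m + 1) (by omega) (by omega)
    rw [← hF]
    exact SlashInvariantFormClass.slash_action_eq F _ ⟨γ, rfl⟩
  · intro m hm
    obtain ⟨F, hF⟩ := ha (m + 1) (by omega) (by omega)
    rw [← hF]
    exact OnePoint.isZeroAt_infty_iff.mp (CuspFormClass.zero_at_cusps F hcusp)
  · exact hD0
  · intro z
    rw [← h z, rem_sum_Icc_eq_sum_range]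

end Fermat.Agent.S23


end ZBS23_001_12

/-! ### bundled: `Fermat.Agent.S23.LevelOneSpanAlt` -/
section ZBS23_001_13

/-!
# S23, piece P4 (fallback version by helper60): level-one forms are spanned by integral forms

`p4x_levelOne_mem_span_int` : every `a : ModularForm 𝒮ℒ m` lies in the `ℂ`-span of the level-one
forms of weight `m` with integral `q`-expansion.  All names are prefixed `p4x_`.
-/

set_option autoImplicit false

open UpperHalfPlane ModularForm ModularFormClass MatrixGroups EisensteinSeries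

namespace Fermat.Agent.S23

/-- the set of level-one forms of weight `m` with integral `q`-expansion -/
def p4x_intForms (m : ℤ) : Set (ModularForm 𝒮ℒ m) :=
  {b | ∀ n, ∃ z : ℤ, (qExpansion 1 b).coeff n = (z : ℂ)}

theorem p4x_coeff_smul {m : ℤ} (c : ℂ) (a : ModularForm 𝒮ℒ m) (n : ℕ) :
    (qExpansion 1 (⇑(c • a : ModularForm 𝒮ℒ m))).coeff n = c * (qExpansion 1 a).coeff n := by
  have h := ModularForm.qExpansion_smul (h := 1) one_pos one_mem_strictPeriods_SL c a
  have h' : qExpansion 1 (⇑(c • a : ModularForm 𝒮ℒ m)) = c • qExpansion 1 (⇑a) := by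
    simpa using h
  rw [h', PowerSeries.coeff_smul, smul_eq_mul]

theorem p4x_coeff_sub {m : ℤ} (a b : ModularForm 𝒮ℒ m) (n : ℕ) :
    (qExpansion 1 (⇑(a - b : ModularForm 𝒮ℒ m))).coeff n =
      (qExpansion 1 a).coeff n - (qExpansion 1 b).coeff n := by
  have h := ModularForm.qExpansion_sub (h := 1) one_pos one_mem_strictPeriods_SL a b
  have h' : qExpansion 1 (⇑(a - b : ModularForm 𝒮ℒ m)) = qExpansion 1 (⇑a) - qExpansion 1 (⇑b) := by
    simpa using h
  rw [h', map_sub]

/-- For even `k ≥ 4` there is a level-one form of weight `k` with integral `q`-expansion and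
nonzero constant term (a multiple of the Eisenstein series). -/
theorem p4x_exists_int_eisenstein {k : ℕ} (hk : 3 ≤ k) (hk2 : Even k) :
    ∃ G : ModularForm 𝒮ℒ k, G ∈ p4x_intForms k ∧ (qExpansion 1 G).coeff 0 ≠ 0 := by
  by_cases hB : bernoulli k = 0
  · refine ⟨E hk, fun n => ?_, ?_⟩
    · rw [E_qExpansion_coeff hk hk2]
      split_ifs
      · exact ⟨1, by simp⟩
      · exact ⟨0, by simp [hB]⟩
    · rw [E_qExpansion_coeff_zero hk hk2]
      exact one_ne_zero
  · have hnum : (bernoulli k).num ≠ 0 := Rat.num_ne_zero.mpr hB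
    have hBC : ((bernoulli k : ℚ) : ℂ) ≠ 0 := by exact_mod_cast hB
    have hnd : (((bernoulli k).num : ℤ) : ℂ) = ((bernoulli k : ℚ) : ℂ) * ((bernoulli k).den : ℂ) := by
      have := Rat.mul_den_eq_num (bernoulli k)
      exact_mod_cast (congrArg (fun q : ℚ => (q : ℂ)) this).symm
    refine ⟨(((bernoulli k).num : ℤ) : ℂ) • E hk, fun n => ?_, ?_⟩
    · rw [p4x_coeff_smul, E_qExpansion_coeff hk hk2]
      split_ifs
      · exact ⟨(bernoulli k).num, by simp⟩
      · refine ⟨-(2 * k * (bernoulli k).den * (ArithmeticFunction.sigma (k - 1) n : ℤ)), ?_⟩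
        rw [hnd]
        push_cast
        field_simp
    · rw [p4x_coeff_smul, E_qExpansion_coeff_zero hk hk2, mul_one]
      exact_mod_cast hnum

/-- multiplication by `Δ` as a linear map `M_{k-12} → M_k`. -/
noncomputable def p4x_mulDelta (k : ℤ) : ModularForm 𝒮ℒ (k - 12) →ₗ[ℂ] ModularForm 𝒮ℒ k :=
  CuspForm.toModularFormₗ ∘ₗ (CuspForm.discriminantEquiv (k := k)).symm.toLinearMap

theorem p4x_mulDelta_apply (k : ℤ) (h : ModularForm 𝒮ℒ (k - 12)) (z : ℍ) :
    p4x_mulDelta k h z = ModularForm.discriminant z * h z := rfl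

theorem p4x_qExpansion_mulDelta (k : ℤ) (h : ModularForm 𝒮ℒ (k - 12)) :
    qExpansion 1 (p4x_mulDelta k h) = qExpansion 1 ModularForm.discriminant * qExpansion 1 h := by
  have h1 : (⇑(p4x_mulDelta k h) : ℍ → ℂ) = (⇑CuspForm.discriminant : ℍ → ℂ) * ⇑h := by
    ext z
    rfl
  rw [h1, ← CuspForm.coe_discriminant]
  exact ModularForm.qExpansion_mul_coe one_pos one_mem_strictPeriods_SL _ _

theorem p4x_mulDelta_mem (k : ℤ) {h : ModularForm 𝒮ℒ (k - 12)} (hh : h ∈ p4x_intForms (k - 12)) :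
    p4x_mulDelta k h ∈ p4x_intForms k := by
  have hΔ : qExpansion 1 ModularForm.discriminant ∈ levelOneInt_psCoeffsIn ⊥ :=
    levelOneInt_discriminant_mem ⊥
  have hh' : qExpansion 1 h ∈ levelOneInt_psCoeffsIn ⊥ := fun n => by
    obtain ⟨z, hz⟩ := hh n
    rw [hz]
    exact intCast_mem _ z
  have := (levelOneInt_psCoeffsIn ⊥).mul_mem hΔ hh'
  intro n
  rw [p4x_qExpansion_mulDelta]
  exact levelOneInt_exists_int_of_mem_bot (this n)

/-- a level-one form with vanishing constant term is `Δ` times a form of weight `k - 12`. -/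
theorem p4x_exists_eq_mulDelta {k : ℤ} (a : ModularForm 𝒮ℒ k)
    (h0 : (qExpansion 1 a).coeff 0 = 0) : ∃ h : ModularForm 𝒮ℒ (k - 12), p4x_mulDelta k h = a := by
  refine ⟨CuspForm.discriminantEquiv (toCuspForm a h0), ?_⟩
  ext z
  rw [p4x_mulDelta_apply, CuspForm.discriminantEquiv_apply, toCuspForm_apply]
  exact mul_div_cancel₀ _ (discriminant_ne_zero z)

theorem p4x_zero_mem_span (m : ℤ) {a : ModularForm 𝒮ℒ m} (ha : a = 0) :
    a ∈ Submodule.span ℂ (p4x_intForms m) := by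
  rw [ha]
  exact Submodule.zero_mem _

theorem p4x_levelOne_mem_span_aux (n : ℕ) : ∀ k : ℤ, k < n → ∀ a : ModularForm 𝒮ℒ k,
    a ∈ Submodule.span ℂ (p4x_intForms k) := by
  induction n with
  | zero =>
    intro k hk a
    refine p4x_zero_mem_span k ?_
    have := levelOne_neg_weight_eq_zero (by exact_mod_cast hk) a
    exact DFunLike.coe_injective this
  | succ n ih =>
    intro k hk a
    rcases lt_or_ge k (n : ℤ) with hlt | hge
    · exact ih k hlt a
    have hkn : k = (n : ℤ) := by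
      have : k < (n : ℤ) + 1 := by exact_mod_cast hk
      omega
    subst hkn
    rcases Nat.even_or_odd n with hev | hodd
    · -- even weight
      rcases Nat.lt_or_ge n 3 with h3 | h3
      · -- n = 0 or n = 2
        have hn02 : n = 0 ∨ n = 2 := by
          obtain ⟨r, hr⟩ := hev
          omega
        rcases hn02 with rfl | rfl
        · -- weight 0 : constants
          obtain ⟨c, hc⟩ := levelOne_weight_zero_const (F := ModularForm 𝒮ℒ ((0 : ℕ) : ℤ)) a
          have h1 : (1 : ModularForm 𝒮ℒ 0) ∈ p4x_intForms 0 := by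
            intro n
            rw [ModularForm.qExpansion_one, PowerSeries.coeff_one]
            split_ifs
            · exact ⟨1, by simp⟩
            · exact ⟨0, by simp⟩
          have ha : a = c • (1 : ModularForm 𝒮ℒ 0) := by
            apply DFunLike.coe_injective
            rw [hc]
            ext z
            simp
          rw [ha]
          exact Submodule.smul_mem _ _ (Submodule.subset_span h1)
        · -- weight 2 : zero
          refine p4x_zero_mem_span _ ?_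
          exact rank_zero_iff_forall_zero.mp levelOne_weight_two_rank_zero a
      · -- even n ≥ 4
        obtain ⟨G, hG, hG0⟩ := p4x_exists_int_eisenstein h3 hev
        set c : ℂ := (qExpansion 1 a).coeff 0 / (qExpansion 1 G).coeff 0 with hc
        have h0 : (qExpansion 1 (⇑(a - c • G : ModularForm 𝒮ℒ (n : ℤ)))).coeff 0 = 0 := by
          rw [p4x_coeff_sub, p4x_coeff_smul, hc, div_mul_cancel₀ _ hG0, sub_self]
        obtain ⟨h, hh⟩ := p4x_exists_eq_mulDelta (a - c • G) h0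
        have hmem : h ∈ Submodule.span ℂ (p4x_intForms ((n : ℤ) - 12)) :=
          ih _ (by omega) h
        have hmap : p4x_mulDelta (n : ℤ) h ∈ Submodule.span ℂ (p4x_intForms (n : ℤ)) := by
          have := Submodule.mem_map_of_mem (f := p4x_mulDelta (n : ℤ)) hmem
          rw [Submodule.map_span] at this
          refine Submodule.span_mono ?_ this
          rintro _ ⟨b, hb, rfl⟩
          exact p4x_mulDelta_mem _ hb
        have ha : a = p4x_mulDelta (n : ℤ) h + c • G := by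
          rw [hh]
          abel
        rw [ha]
        exact Submodule.add_mem _ hmap (Submodule.smul_mem _ _ (Submodule.subset_span hG))
    · -- odd weight
      refine p4x_zero_mem_span _ ?_
      exact levelOne_odd_weight_eq_zero (by exact_mod_cast hodd) a

/-- **P4 (fallback).** Every level-one modular form is a `ℂ`-combination of forms with integral
`q`-expansion. -/
theorem p4x_levelOne_mem_span_int {m : ℤ} (a : ModularForm 𝒮ℒ m) :
    a ∈ Submodule.span ℂ
      {b : ModularForm 𝒮ℒ m | ∀ n, ∃ z : ℤ, (qExpansion 1 b).coeff n = (z : ℂ)} :=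
  p4x_levelOne_mem_span_aux (m.toNat + 1) m (by omega) a

end Fermat.Agent.S23


end ZBS23_001_13

/-! ### bundled: `Fermat.Agent.S23.LevelOne` -/
section ZBS23_001_14

/-!
# S23, piece P5: σ-stability and bounded denominators at level one

Interface theorems `levelOne_exists_map`, `levelOne_bdd_denom`, and the packaged statements
`p5_stmtL1 : StmtL1`, `p4x_stmtP4 : StmtP4`.
-/

set_option autoImplicit false

open UpperHalfPlane ModularForm ModularFormClass MatrixGroups

namespace Fermat.Agent.S23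

/-- **P5 (σ-stability).** -/
theorem levelOne_exists_map (σ : ℂ →+* ℂ) {m : ℤ} (a : ModularForm 𝒮ℒ m) :
    ∃ a' : ModularForm 𝒮ℒ m, qExpansion 1 a' = PowerSeries.map σ (qExpansion 1 a) :=
  p5_exists_map_of_mem_span σ a (p4x_levelOne_mem_span_int a)

/-- **P5 (bounded denominators).** -/
theorem levelOne_bdd_denom {m : ℤ} (a : ModularForm 𝒮ℒ m)
    (h : ∀ n, ∃ r : ℚ, (qExpansion 1 a).coeff n = (r : ℂ)) :
    ∃ D : ℕ, D ≠ 0 ∧ ∀ n, ∃ z : ℤ, (D : ℂ) * (qExpansion 1 a).coeff n = (z : ℂ) :=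
  p5_bdd_denom_of_mem_span a (p4x_levelOne_mem_span_int a) h

/-- the packaged statement `StmtL1` of `Interface.lean`. -/
theorem p5_stmtL1 : StmtL1 := fun σ _ a => levelOne_exists_map σ a

/-- the packaged statement `StmtP4` of `Interface.lean` (fallback proof). -/
theorem p4x_stmtP4 : StmtP4 := fun _ a => p4x_levelOne_mem_span_int a

end Fermat.Agent.S23


end ZBS23_001_14

/-! ### bundled: `Fermat.Agent.S23.SigmaStable` -/
section ZBS23_001_15

/-!
# S23 piece P16: σ-stability of the q-expansions of cusp forms for `Γ₀(N)`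

`sigma_stable N k : StmtL1 → StmtB N → StmtTheta N → StmtNormRel N → StmtLagrangeRel N → StmtSigma N k`
-/

set_option autoImplicit false

noncomputable section

namespace Fermat.Agent.S23

open UpperHalfPlane ModularForm SlashInvariantForm
open scoped MatrixGroups ModularForm Manifold

lemma sigma_map_injective (σ : ℂ →+* ℂ) : Function.Injective (PowerSeries.map σ) := by
  intro F G h
  ext n
  have := congrArg (PowerSeries.coeff n) h
  rw [PowerSeries.coeff_map, PowerSeries.coeff_map] at this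
  exact σ.injective this

lemma sigma_map_of_isIntPS (σ : ℂ →+* ℂ) {F : PowerSeries ℂ} (hF : IsIntPS F) :
    PowerSeries.map σ F = F := by
  ext n
  obtain ⟨z, hz⟩ := hF n
  rw [PowerSeries.coeff_map, hz, map_intCast]

lemma sigma_levelOne_isMF (hL1 : StmtL1) (σ : ℂ →+* ℂ) {m : ℤ} {a : ℍ → ℂ}
    (ha : IsMF 𝒮ℒ m a) :
    ∃ a' : ℍ → ℂ, IsMF 𝒮ℒ m a' ∧ qExpansion 1 a' = PowerSeries.map σ (qExpansion 1 a) := by
  obtain ⟨A, rfl⟩ := ha
  obtain ⟨A', hA'⟩ := hL1 σ m A
  exact ⟨A', ⟨A', rfl⟩, hA'⟩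

lemma sigma_levelOne_isCF (hL1 : StmtL1) (σ : ℂ →+* ℂ) {m : ℤ} {a : ℍ → ℂ}
    (ha : IsCF 𝒮ℒ m a) :
    ∃ a' : ℍ → ℂ, IsCF 𝒮ℒ m a' ∧ qExpansion 1 a' = PowerSeries.map σ (qExpansion 1 a) := by
  obtain ⟨a', ha', hq⟩ := sigma_levelOne_isMF hL1 σ ha.isMF
  refine ⟨a', ha'.isCF_levelOne_of_coeff_zero ?_, hq⟩
  rw [hq, PowerSeries.coeff_map, (ha.of_levelOne (N := 1)).coeff_zero, map_zero]


lemma sigma_quotientFunc_isZero {N : ℕ} [NeZero N] {w : ℤ} (Θ : ModularForm (G0 N) w)
    (hΘ : ∀ γ : SL(2, ℤ), γ ∉ CongruenceSubgroup.Gamma0 N →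
      IsZeroAtImInfty ((⇑Θ : ℍ → ℂ) ∣[w] γ))
    (q : Coset N) (hq : q ≠ coset1 N) : IsZeroAtImInfty (quotientFunc Θ q) := by
  induction q using QuotientGroup.induction_on with
  | H h =>
    obtain ⟨γ, hγ⟩ : ∃ γ : SL(2, ℤ), Matrix.SpecialLinearGroup.mapGL ℝ γ = h.val := h.property
    have hγN : γ⁻¹ ∉ CongruenceSubgroup.Gamma0 N := by
      intro hmem
      apply hq
      have hγ' : γ ∈ CongruenceSubgroup.Gamma0 N := by
        have := inv_mem hmem
        simpa using this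
      rw [coset1, QuotientGroup.eq]
      rw [Subgroup.mem_subgroupOf]
      have hh : h.val ∈ G0 N := by
        rw [← hγ]
        exact Subgroup.mem_map_of_mem _ hγ'
      simpa using inv_mem hh
    have key : quotientFunc Θ (QuotientGroup.mk h : Coset N) = (⇑Θ : ℍ → ℂ) ∣[w] γ⁻¹ := by
      have h1 : quotientFunc Θ (QuotientGroup.mk h : Coset N) = (⇑Θ : ℍ → ℂ) ∣[w] h.val⁻¹ := rfl
      rw [h1, ← hγ, ← map_inv]
      rfl
    rw [key]
    exact hΘ _ hγN

open scoped Classical in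
lemma sigma_Dfun_tendsto {N : ℕ} [NeZero N] {w : ℤ} (Θ : ModularForm (G0 N) w)
    (h0 : (qExpansion 1 Θ).coeff 0 = 1)
    (hΘ : ∀ γ : SL(2, ℤ), γ ∉ CongruenceSubgroup.Gamma0 N →
      IsZeroAtImInfty ((⇑Θ : ℍ → ℂ) ∣[w] γ)) :
    Filter.Tendsto (Dfun Θ) atImInfty (nhds 1) := by
  have hΘ1 : Filter.Tendsto (⇑Θ : ℍ → ℂ) atImInfty (nhds 1) := by
    have hmf : IsMF (G0 N) w (⇑Θ : ℍ → ℂ) := ⟨Θ, rfl⟩
    have := hmf.tendsto_coeff_zero
    rwa [h0] at this
  have : Filter.Tendsto (Dfun Θ) atImInfty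
      (nhds (∏ q ∈ (cosetFinset N).erase (coset1 N), (1 - 0 : ℂ))) := by
    unfold Dfun
    apply tendsto_finsetProd
    intro q hq
    have hq1 : q ≠ coset1 N := (Finset.mem_erase.mp hq).1
    exact hΘ1.sub (sigma_quotientFunc_isZero Θ hΘ q hq1)
  simpa using this

open scoped Classical in
lemma sigma_Dfun_ne_zero {N : ℕ} [NeZero N] {w : ℤ} (Θ : ModularForm (G0 N) w)
    (h0 : (qExpansion 1 Θ).coeff 0 = 1)
    (hΘ : ∀ γ : SL(2, ℤ), γ ∉ CongruenceSubgroup.Gamma0 N →
      IsZeroAtImInfty ((⇑Θ : ℍ → ℂ) ∣[w] γ)) :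
    Dfun Θ ≠ 0 := by
  intro h
  have h1 := sigma_Dfun_tendsto Θ h0 hΘ
  rw [h] at h1
  have h2 : Filter.Tendsto (0 : ℍ → ℂ) atImInfty (nhds 0) := tendsto_const_nhds
  exact one_ne_zero (tendsto_nhds_unique h1 h2)

lemma sigma_cosetCard_pos (N : ℕ) [NeZero N] : 1 ≤ cosetCard N :=
  Finset.card_pos.mpr ⟨coset1 N, mem_cosetFinset _⟩


/-- pure algebra: multiply the norm relation by `Dq ^ n`. -/
lemma sigma_rel_mul {R : Type*} [CommRing R] (n : ℕ) (F Dq : R) (A : ℕ → R)
    (h : F ^ n + ∑ m ∈ Finset.Icc 1 n, A m * F ^ (n - m) = 0) :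
    (F * Dq) ^ n + ∑ m ∈ Finset.Icc 1 n, A m * (F * Dq) ^ (n - m) * Dq ^ m = 0 := by
  have key : (F * Dq) ^ n + ∑ m ∈ Finset.Icc 1 n, A m * (F * Dq) ^ (n - m) * Dq ^ m =
      Dq ^ n * (F ^ n + ∑ m ∈ Finset.Icc 1 n, A m * F ^ (n - m)) := by
    rw [mul_add, Finset.mul_sum, mul_pow]
    congr 1
    · ring
    · apply Finset.sum_congr rfl
      intro m hm
      have hmn : m ≤ n := (Finset.mem_Icc.mp hm).2
      have : Dq ^ n = Dq ^ (n - m) * Dq ^ m := by
        rw [← pow_add]; congr 1; omega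
      rw [this, mul_pow]
      ring
  rw [key, h, mul_zero]

/-- the polynomial `∑_{j<n} c_j Θ^(n-1-j)` with level-one coefficients is a form for `Γ₀(N)`. -/
lemma sigma_isMF_poly {N : ℕ} [NeZero N] {w κ : ℤ} {Θf : ℍ → ℂ} (hΘ : IsMF (G0 N) w Θf)
    (n : ℕ) (c : ℕ → ℍ → ℂ) (hc : ∀ j : ℕ, IsMF 𝒮ℒ (κ + (j : ℤ) * w) (c j)) :
    IsMF (G0 N) (((n : ℤ) - 1) * w + κ) (∑ j ∈ Finset.range n, c j * Θf ^ (n - 1 - j)) := by
  apply IsMF.sum
  intro j hj
  have hjn : j < n := Finset.mem_range.mp hj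
  have h1 : IsMF (G0 N) (κ + (j : ℤ) * w) (c j) := (hc j).of_levelOne
  have h2 := h1.mul (hΘ.pow (n - 1 - j))
  refine h2.of_weight_eq ?_
  have : ((n - 1 - j : ℕ) : ℤ) = (n : ℤ) - 1 - j := by omega
  rw [this]
  ring

/-- q-expansion of the polynomial `∑_{j<n} c_j Θ^(n-1-j)`. -/
lemma sigma_qExpansion_poly {N : ℕ} [NeZero N] {w κ : ℤ} {Θf : ℍ → ℂ} (hΘ : IsMF (G0 N) w Θf)
    (n : ℕ) (c : ℕ → ℍ → ℂ) (hc : ∀ j : ℕ, IsMF 𝒮ℒ (κ + (j : ℤ) * w) (c j)) :
    qExpansion 1 (∑ j ∈ Finset.range n, c j * Θf ^ (n - 1 - j)) =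
      ∑ j ∈ Finset.range n, qExpansion 1 (c j) * qExpansion 1 Θf ^ (n - 1 - j) := by
  rw [IsMF.qExpansion_sum (N := N) (Finset.range n) (fun j => c j * Θf ^ (n - 1 - j))
    (fun j => (κ + (j : ℤ) * w) + ((n - 1 - j : ℕ) : ℤ) * w)
    (fun j _ => ((hc j).of_levelOne).mul (hΘ.pow (n - 1 - j)))]
  apply Finset.sum_congr rfl
  intro j _
  rw [((hc j).of_levelOne (N := N)).qExpansion_mul (hΘ.pow (n - 1 - j)), hΘ.qExpansion_pow]


open scoped Classical in
/-- **P16**: σ-stability of the q-expansions of cusp forms of weight `k` for `Γ₀(N)`. -/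
theorem sigma_stable (N : ℕ) [NeZero N] (k : ℤ) :
    StmtL1 → StmtB N → StmtTheta N → StmtNormRel N → StmtLagrangeRel N → StmtSigma N k := by
  intro hL1 hB hTheta hNorm hLag σ f
  obtain ⟨w, Θ, hΘint, hΘ0, hΘz⟩ := hTheta
  have hn1 : 1 ≤ cosetCard N := sigma_cosetCard_pos N
  obtain ⟨a, ha, hrel⟩ := hNorm k f
  obtain ⟨l, hl, hlrel⟩ := hLag k w (ModularFormClass.modularForm f) Θ
  obtain ⟨lam, hlam, hlamrel⟩ := hLag 0 w (1 : ModularForm (G0 N) 0) Θ
  set n := cosetCard N with hn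
  -- basic objects
  have hf : IsCF (G0 N) k (⇑f : ℍ → ℂ) := ⟨f, rfl⟩
  have hfM : IsMF (G0 N) k (⇑f : ℍ → ℂ) := hf.isMF
  have hΘmf : IsMF (G0 N) w (⇑Θ : ℍ → ℂ) := ⟨Θ, rfl⟩
  set W : ℤ := ((n : ℤ) - 1) * w with hW
  -- Dfun as a polynomial in Θ
  have hDfun : Dfun Θ = ∑ j ∈ Finset.range n, lam j * (⇑Θ : ℍ → ℂ) ^ (n - 1 - j) := by
    funext z
    have := hlamrel z
    rw [ModularForm.one_coe_eq_one, Pi.one_apply, one_mul] at this
    rw [this, Finset.sum_apply]
    rfl
  have hfD : (⇑f : ℍ → ℂ) * Dfun Θ = ∑ j ∈ Finset.range n, l j * (⇑Θ : ℍ → ℂ) ^ (n - 1 - j) := by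
    funext z
    have := hlrel z
    rw [Pi.mul_apply, Finset.sum_apply]
    exact this
  have hDmf : IsMF (G0 N) W (Dfun Θ) := by
    rw [hDfun]
    exact (sigma_isMF_poly hΘmf n lam hlam).of_weight_eq (by ring)
  have hD0 : Dfun Θ ≠ 0 := sigma_Dfun_ne_zero Θ hΘ0 hΘz
  -- power series
  set F := qExpansion 1 (⇑f : ℍ → ℂ) with hF
  set T := qExpansion 1 (⇑Θ : ℍ → ℂ) with hT
  set Dq := qExpansion 1 (Dfun Θ) with hDq
  have hDq0 : Dq ≠ 0 := fun h => hD0 (hDmf.eq_zero_of_qExpansion_eq_zero h)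
  have hFDq : F * Dq = ∑ j ∈ Finset.range n, qExpansion 1 (l j) * T ^ (n - 1 - j) := by
    rw [hF, hDq, ← hfM.qExpansion_mul hDmf, hfD, sigma_qExpansion_poly hΘmf n l hl]
  have hDqpoly : Dq = ∑ j ∈ Finset.range n, qExpansion 1 (lam j) * T ^ (n - 1 - j) := by
    rw [hDq, hDfun, sigma_qExpansion_poly hΘmf n lam hlam]
  -- the norm relation for power series
  have hrelq : F ^ n + ∑ m ∈ Finset.Icc 1 n, qExpansion 1 (a m) * F ^ (n - m) = 0 := by
    have hfun : (⇑f : ℍ → ℂ) ^ n + ∑ m ∈ Finset.Icc 1 n, a m * (⇑f : ℍ → ℂ) ^ (n - m) = 0 := by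
      funext z
      have := hrel z
      rw [Pi.add_apply, Finset.sum_apply]
      exact this
    have hterm : ∀ m ∈ Finset.Icc 1 n,
        IsMF (G0 N) ((m : ℤ) * k + ((n - m : ℕ) : ℤ) * k) (a m * (⇑f : ℍ → ℂ) ^ (n - m)) := by
      intro m hm
      exact ((ha m (Finset.mem_Icc.mp hm).1).isMF.of_levelOne).mul (hfM.pow (n - m))
    have hsum : IsMF (G0 N) ((n : ℤ) * k)
        (∑ m ∈ Finset.Icc 1 n, a m * (⇑f : ℍ → ℂ) ^ (n - m)) := by
      apply IsMF.sum
      intro m hm
      refine (hterm m hm).of_weight_eq ?_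
      have hmn : m ≤ n := (Finset.mem_Icc.mp hm).2
      have : ((n - m : ℕ) : ℤ) = (n : ℤ) - m := by omega
      rw [this]; ring
    have h1 := congrArg (qExpansion 1) hfun
    rw [(hfM.pow n).qExpansion_add hsum, hfM.qExpansion_pow,
      IsMF.qExpansion_sum (N := N) (Finset.Icc 1 n) _ _ hterm, UpperHalfPlane.qExpansion_zero] at h1
    rw [← h1]
    congr 1
    apply Finset.sum_congr rfl
    intro m hm
    rw [((ha m (Finset.mem_Icc.mp hm).1).isMF.of_levelOne (N := N)).qExpansion_mul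
      (hfM.pow (n - m)), hfM.qExpansion_pow]
  -- σ-conjugates of the level-one data
  have hl' : ∀ j : ℕ, ∃ c : ℍ → ℂ, IsMF 𝒮ℒ (k + (j : ℤ) * w) c ∧
      qExpansion 1 c = PowerSeries.map σ (qExpansion 1 (l j)) :=
    fun j => sigma_levelOne_isMF hL1 σ (hl j)
  choose l' hl'mf hl'q using hl'
  have hlam' : ∀ j : ℕ, ∃ c : ℍ → ℂ, IsMF 𝒮ℒ (0 + (j : ℤ) * w) c ∧
      qExpansion 1 c = PowerSeries.map σ (qExpansion 1 (lam j)) :=
    fun j => sigma_levelOne_isMF hL1 σ (hlam j)
  choose lam' hlam'mf hlam'q using hlam'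
  have ha' : ∀ m : ℕ, ∃ c : ℍ → ℂ, 1 ≤ m → (IsCF 𝒮ℒ ((m : ℤ) * k) c ∧
      qExpansion 1 c = PowerSeries.map σ (qExpansion 1 (a m))) := by
    intro m
    by_cases hm : 1 ≤ m
    · obtain ⟨c, hc1, hc2⟩ := sigma_levelOne_isCF hL1 σ (ha m hm)
      exact ⟨c, fun _ => ⟨hc1, hc2⟩⟩
    · exact ⟨0, fun h => absurd h hm⟩
  choose a' ha'prop using ha'
  -- the conjugate forms G', D'
  set G' : ℍ → ℂ := ∑ j ∈ Finset.range n, l' j * (⇑Θ : ℍ → ℂ) ^ (n - 1 - j) with hG'
  set D' : ℍ → ℂ := ∑ j ∈ Finset.range n, lam' j * (⇑Θ : ℍ → ℂ) ^ (n - 1 - j) with hD'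
  have hG'mf : IsMF (G0 N) (W + k) G' := sigma_isMF_poly hΘmf n l' hl'mf
  have hD'mf : IsMF (G0 N) W D' :=
    (sigma_isMF_poly hΘmf n lam' hlam'mf).of_weight_eq (by ring)
  have hσT : PowerSeries.map σ T = T := sigma_map_of_isIntPS σ hΘint
  have hG'q : qExpansion 1 G' = PowerSeries.map σ (F * Dq) := by
    rw [hG', sigma_qExpansion_poly hΘmf n l' hl'mf, hFDq, map_sum]
    apply Finset.sum_congr rfl
    intro j _
    rw [map_mul, map_pow, hσT, hl'q j]
  have hD'q : qExpansion 1 D' = PowerSeries.map σ Dq := by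
    rw [hD', sigma_qExpansion_poly hΘmf n lam' hlam'mf, hDqpoly, map_sum]
    apply Finset.sum_congr rfl
    intro j _
    rw [map_mul, map_pow, hσT, hlam'q j]
  have hD'q0 : qExpansion 1 D' ≠ 0 := by
    rw [hD'q]
    intro h
    apply hDq0
    apply sigma_map_injective σ
    rw [h, map_zero]
  have hD'0 : D' ≠ 0 := by
    intro h
    apply hD'q0
    rw [h, UpperHalfPlane.qExpansion_zero]
  -- the relation for G', D'
  have hterm' : ∀ m ∈ Finset.Icc 1 n,
      IsMF (G0 N) (((m : ℤ) * k + ((n - m : ℕ) : ℤ) * (W + k)) + (m : ℤ) * W)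
        (a' m * G' ^ (n - m) * D' ^ m) := by
    intro m hm
    exact ((((ha'prop m (Finset.mem_Icc.mp hm).1).1).isMF.of_levelOne).mul
      (hG'mf.pow (n - m))).mul (hD'mf.pow m)
  have hsum' : IsMF (G0 N) ((n : ℤ) * (W + k))
      (∑ m ∈ Finset.Icc 1 n, a' m * G' ^ (n - m) * D' ^ m) := by
    apply IsMF.sum
    intro m hm
    refine (hterm' m hm).of_weight_eq ?_
    have hmn : m ≤ n := (Finset.mem_Icc.mp hm).2
    have : ((n - m : ℕ) : ℤ) = (n : ℤ) - m := by omega
    rw [this]; ring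
  have hR'mf : IsMF (G0 N) ((n : ℤ) * (W + k))
      (G' ^ n + ∑ m ∈ Finset.Icc 1 n, a' m * G' ^ (n - m) * D' ^ m) :=
    (hG'mf.pow n).add hsum'
  have hR'q : qExpansion 1 (G' ^ n + ∑ m ∈ Finset.Icc 1 n, a' m * G' ^ (n - m) * D' ^ m) = 0 := by
    rw [(hG'mf.pow n).qExpansion_add hsum', hG'mf.qExpansion_pow,
      IsMF.qExpansion_sum (N := N) (Finset.Icc 1 n) _ _ hterm']
    have hrel2 := sigma_rel_mul n F Dq (fun m => qExpansion 1 (a m)) hrelq
    have h3 := congrArg (PowerSeries.map σ) hrel2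
    rw [map_add, map_pow, map_sum, map_zero] at h3
    rw [← h3, hG'q]
    congr 1
    apply Finset.sum_congr rfl
    intro m hm
    have hm1 := (Finset.mem_Icc.mp hm).1
    rw [((((ha'prop m hm1).1).isMF.of_levelOne (N := N)).mul (hG'mf.pow (n - m))).qExpansion_mul
      (hD'mf.pow m), (((ha'prop m hm1).1).isMF.of_levelOne (N := N)).qExpansion_mul
      (hG'mf.pow (n - m)), hG'mf.qExpansion_pow, hD'mf.qExpansion_pow, hG'q, hD'q,
      (ha'prop m hm1).2]
    simp only [map_mul, map_pow]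
  have hR'0 := hR'mf.eq_zero_of_qExpansion_eq_zero hR'q
  have hrel' : ∀ z, G' z ^ n + ∑ m ∈ Finset.Icc 1 n, a' m z * G' z ^ (n - m) * D' z ^ m = 0 := by
    intro z
    have := congrFun hR'0 z
    simpa [Finset.sum_apply] using this
  -- apply (B)
  obtain ⟨g, hg⟩ := hB k W n hn1 G' D' hG'mf hD'mf hD'0 a'
    (fun m h1 _ => (ha'prop m h1).1) hrel'
  refine ⟨g, ?_⟩
  have hgC : IsCF (G0 N) k (⇑g : ℍ → ℂ) := ⟨g, rfl⟩
  have hgM : IsMF (G0 N) k (⇑g : ℍ → ℂ) := hgC.isMF
  have hgD : (⇑g : ℍ → ℂ) * D' = G' := funext hg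
  have h4 := congrArg (qExpansion 1) hgD
  rw [hgM.qExpansion_mul hD'mf, hG'q, map_mul, ← hD'q] at h4
  exact mul_right_cancel₀ hD'q0 h4

end Fermat.Agent.S23

end
end ZBS23_001_15

/-! ### bundled: `Fermat.Agent.S23.FinDim` -/
section ZBS23_001_16

/-!
# S23, piece P13: finite-dimensionality of `S_k(Γ₀(N))` and the `q`-expansion as an injective
linear map.
-/

set_option autoImplicit false

noncomputable section

namespace Fermat.Agent.S23

open UpperHalfPlane ModularForm
open scoped MatrixGroups ModularForm Manifold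

theorem findim_one_mem_strictPeriods (N : ℕ) : (1 : ℝ) ∈ (G0 N).strictPeriods :=
  CongruenceSubgroup.one_mem_strictPeriods_Gamma0 N

/-- The `q`-expansion (period `1`) as a linear map on cusp forms of level `Γ₀(N)`. -/
def qExpLin (N : ℕ) [NeZero N] (k : ℤ) : CuspForm (G0 N) k →ₗ[ℂ] PowerSeries ℂ where
  toFun f := qExpansion 1 f
  map_add' f g := by
    rw [FunLike.coe_add]
    exact ModularForm.qExpansion_add one_pos (findim_one_mem_strictPeriods N) f g
  map_smul' c f := by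
    have h1 : (⇑(c • f) : ℍ → ℂ) = c • ⇑f := by
      ext z
      simp
    rw [h1]
    exact ModularForm.qExpansion_smul one_pos (findim_one_mem_strictPeriods N) c f

@[simp] theorem qExpLin_apply (N : ℕ) [NeZero N] (k : ℤ) (f : CuspForm (G0 N) k) :
    qExpLin N k f = qExpansion 1 f := rfl

theorem qExpLin_injective (N : ℕ) [NeZero N] (k : ℤ) : Function.Injective (qExpLin N k) := by
  rw [← LinearMap.ker_eq_bot, LinearMap.ker_eq_bot']
  intro f hf
  have hmf : (ModularFormClass.modularForm f : ModularForm (G0 N) k) = 0 := by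
    rw [← ModularForm.qExpansion_eq_zero_iff one_pos (findim_one_mem_strictPeriods N)]
    exact hf
  have hcoe : (⇑f : ℍ → ℂ) = 0 := by
    have := congrArg (fun F : ModularForm (G0 N) k ↦ (⇑F : ℍ → ℂ)) hmf
    simpa using this
  exact DFunLike.coe_injective (hcoe.trans (FunLike.coe_zero (F := CuspForm (G0 N) k)).symm)

theorem exists_qExpLin (N : ℕ) [NeZero N] (k : ℤ) :
    ∃ L : CuspForm (G0 N) k →ₗ[ℂ] PowerSeries ℂ, Function.Injective L ∧
      ∀ f, L f = qExpansion 1 f :=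
  ⟨qExpLin N k, qExpLin_injective N k, fun _ => rfl⟩

/-- The Sturm bound index. -/
def findimB (N : ℕ) (k : ℤ) : ℕ := (k * (CongruenceSubgroup.Gamma0 N).index).toNat / 12

/-- truncation of the `q`-expansion at the Sturm bound. -/
def findimTrunc (N : ℕ) [NeZero N] (k : ℤ) :
    CuspForm (G0 N) k →ₗ[ℂ] (Fin (findimB N k + 1) → ℂ) where
  toFun f i := (qExpansion 1 f).coeff i
  map_add' f g := by
    funext i
    have h := (qExpLin N k).map_add f g
    simp only [qExpLin_apply] at h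
    simp only [Pi.add_apply]
    rw [h, map_add]
  map_smul' c f := by
    funext i
    have h := (qExpLin N k).map_smul c f
    simp only [qExpLin_apply] at h
    simp only [Pi.smul_apply, RingHom.id_apply]
    rw [h, PowerSeries.coeff_smul]

theorem findimTrunc_injective (N : ℕ) [NeZero N] (k : ℤ) :
    Function.Injective (findimTrunc N k) := by
  rw [← LinearMap.ker_eq_bot, LinearMap.ker_eq_bot']
  intro f hf
  have hmf : (ModularFormClass.modularForm f : ModularForm (G0 N) k) = 0 := by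
    refine ModularForm.sturm_bound_Gamma0 N _ fun n hn ↦ ?_
    have := congrFun hf ⟨n, Nat.lt_succ_of_le hn⟩
    simpa [findimTrunc] using this
  have hcoe : (⇑f : ℍ → ℂ) = 0 := by
    have := congrArg (fun F : ModularForm (G0 N) k ↦ (⇑F : ℍ → ℂ)) hmf
    simpa using this
  exact DFunLike.coe_injective (hcoe.trans (FunLike.coe_zero (F := CuspForm (G0 N) k)).symm)

theorem cuspForm_finiteDimensional (N : ℕ) [NeZero N] (k : ℤ) :
    FiniteDimensional ℂ (CuspForm (G0 N) k) :=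
  FiniteDimensional.of_injective (findimTrunc N k) (findimTrunc_injective N k)

end Fermat.Agent.S23

end
end ZBS23_001_16

/-! ### bundled: `Fermat.Agent.S23.RatSpan` -/
section ZBS23_001_17

/-!
# S23, piece P17: σ-stability of the q-expansions ⇒ cusp forms with rational q-expansion span.
-/

set_option autoImplicit false

noncomputable section

namespace Fermat.Agent.S23

open UpperHalfPlane ModularForm
open scoped MatrixGroups ModularForm Manifold

theorem ratSpan_of_sigma (N : ℕ) [NeZero N] (k : ℤ) : StmtSigma N k → StmtRatSpan N k := by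
  intro hσ
  haveI : FiniteDimensional ℂ (CuspForm (G0 N) k) := cuspForm_finiteDimensional N k
  -- the image of the q-expansion map
  set L := qExpLin N k with hL
  have hLinj : Function.Injective L := qExpLin_injective N k
  set W : Submodule ℂ (PowerSeries ℂ) := LinearMap.range L with hW
  haveI : FiniteDimensional ℂ W := by
    rw [hW]
    infer_instance
  have hstab : ∀ (σ : ℂ ≃+* ℂ), ∀ F ∈ W, PowerSeries.map (σ : ℂ →+* ℂ) F ∈ W := by
    rintro σ F ⟨f, rfl⟩
    obtain ⟨g, hg⟩ := hσ (σ : ℂ →+* ℂ) f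
    exact ⟨g, hg⟩
  have hdesc := descent_le_span_rational W hstab
  -- the rational elements of `W` are images of rational cusp forms
  have hsub : {F | F ∈ W ∧ ∀ n, ∃ r : ℚ, PowerSeries.coeff n F = (r : ℂ)} ⊆
      L '' {f : CuspForm (G0 N) k | IsRatPS (qExpansion 1 f)} := by
    rintro F ⟨⟨f, rfl⟩, hF⟩
    exact ⟨f, hF, rfl⟩
  unfold StmtRatSpan
  rw [eq_top_iff]
  intro f _
  have hf : L f ∈ W := ⟨f, rfl⟩
  have h1 : L f ∈ Submodule.span ℂ (L '' {f : CuspForm (G0 N) k | IsRatPS (qExpansion 1 f)}) :=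
    Submodule.span_mono hsub (hdesc hf)
  rw [← Submodule.map_span] at h1
  obtain ⟨g, hg, hgf⟩ := h1
  rw [← hLinj hgf]
  exact hg

end Fermat.Agent.S23

end


end ZBS23_001_17

/-! ### bundled: `Fermat.Agent.S23.Glue0` -/
section ZBS23_001_18

/-!
# S23 — P19: rational span + bounded denominators ⇒ `CuspForm.HasIntegralStructure N k`
-/

set_option autoImplicit false

noncomputable section

namespace Fermat.Agent.S23

open UpperHalfPlane ModularForm SlashInvariantForm
open scoped MatrixGroups ModularForm Manifold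

theorem glue0_qExpansion_smul (N : ℕ) [NeZero N] (k : ℤ) (c : ℂ) (f : CuspForm (G0 N) k) :
    qExpansion 1 (⇑(c • f) : ℍ → ℂ) = c • qExpansion 1 (⇑f : ℍ → ℂ) := by
  obtain ⟨L, -, hL⟩ := exists_qExpLin N k
  have h2 := L.map_smul c f
  rw [hL, hL] at h2
  exact h2

theorem hasIntegralStructure_of (N : ℕ) [NeZero N] (k : ℤ) :
    StmtRatSpan N k → StmtBdd N k → CuspForm.HasIntegralStructure N k := by
  intro hRat hBdd
  unfold CuspForm.HasIntegralStructure
  rw [eq_top_iff, ← hRat]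
  apply Submodule.span_le.mpr
  intro f hf
  obtain ⟨M, hM0, hM⟩ := hBdd f hf
  have hMc : (M : ℂ) ≠ 0 := Nat.cast_ne_zero.mpr hM0
  have hmem : (M : ℂ) • f ∈ (CuspForm.intLattice N k : Set (CuspForm (CongruenceSubgroup.Gamma0 N) k)) := by
    apply Submodule.subset_span
    intro n
    obtain ⟨z, hz⟩ := hM n
    refine ⟨z, ?_⟩
    show (qExpansion 1 (⇑((M : ℂ) • f) : ℍ → ℂ)).coeff n = (z : ℂ)
    rw [glue0_qExpansion_smul N k (M : ℂ) f]
    exact hz
  have hf' : f = (M : ℂ)⁻¹ • ((M : ℂ) • f) := by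
    rw [smul_smul, inv_mul_cancel₀ hMc, one_smul]
  rw [hf']
  exact Submodule.smul_mem _ _ (Submodule.subset_span hmem)

end Fermat.Agent.S23

end
end ZBS23_001_18

/-! ### bundled: `Fermat.Agent.S23.RationalSolve` -/
section ZBS23_001_19

/-!
# S23, piece (Q): a rational linear system with a complex solution has a rational solution

`exists_rat_coeffs`: if finitely many power series `R i` with rational coefficients satisfy
`∑ i, c i • R i = Y` for complex scalars `c i` and `Y` has rational coefficients, then the `c i`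
can be replaced by rational numbers.
-/

set_option autoImplicit false

noncomputable section

namespace Fermat.Agent.S23

/-- There is a `ℚ`-linear retraction `ℂ → ℚ` of the inclusion `ℚ → ℂ`. -/
theorem rationalSolve_exists_retraction :
    ∃ π : ℂ →ₗ[ℚ] ℚ, ∀ r : ℚ, π (r : ℂ) = r := by
  have hinj : Function.Injective (Algebra.linearMap ℚ ℂ) := by
    intro a b hab
    have : ((a : ℚ) : ℂ) = ((b : ℚ) : ℂ) := by simpa using hab
    exact_mod_cast this
  obtain ⟨g, hg⟩ := LinearMap.exists_leftInverse_of_injective (Algebra.linearMap ℚ ℂ)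
    (LinearMap.ker_eq_bot.2 hinj)
  refine ⟨g, fun r => ?_⟩
  have := LinearMap.congr_fun hg r
  simpa using this

theorem exists_rat_coeffs {ι : Type*} [Fintype ι] (R : ι → PowerSeries ℂ) (hR : ∀ i, IsRatPS (R i))
    (Y : PowerSeries ℂ) (hY : IsRatPS Y) (c : ι → ℂ) (h : ∑ i, c i • R i = Y) :
    ∃ c' : ι → ℚ, ∑ i, (c' i : ℂ) • R i = Y := by
  classical
  obtain ⟨π, hπ⟩ := rationalSolve_exists_retraction
  refine ⟨fun i => π (c i), ?_⟩
  ext n
  have hn := congrArg (PowerSeries.coeff n) h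
  simp only [map_sum, PowerSeries.coeff_smul, smul_eq_mul] at hn ⊢
  choose r hr using fun i => hR i n
  obtain ⟨y, hy⟩ := hY n
  rw [hy] at hn ⊢
  simp only [hr] at hn ⊢
  -- apply `π` to `hn`
  have h1 : π (∑ i, c i * (r i : ℂ)) = ∑ i, π (c i) * r i := by
    rw [map_sum]
    refine Finset.sum_congr rfl fun i _ => ?_
    have : c i * (r i : ℂ) = (r i : ℚ) • c i := by
      rw [Algebra.smul_def]
      simp [mul_comm]
    rw [this, map_smul, smul_eq_mul, mul_comm]
  have h2 : π (∑ i, c i * (r i : ℂ)) = y := by rw [hn, hπ]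
  have h3 : (∑ i, π (c i) * r i : ℚ) = y := by rw [← h1, h2]
  have := congrArg (fun q : ℚ => (q : ℂ)) h3
  simpa using this

/-- The coefficientwise `ℚ`-linear retraction, as an additive map on power series. -/
def rationalSolve_proj (π : ℂ →ₗ[ℚ] ℚ) : PowerSeries ℂ →+ PowerSeries ℂ where
  toFun x := PowerSeries.mk fun n => ((π (PowerSeries.coeff n x) : ℚ) : ℂ)
  map_zero' := by
    ext n
    simp
  map_add' x y := by
    ext n
    simp

@[simp] theorem rationalSolve_coeff_proj (π : ℂ →ₗ[ℚ] ℚ) (x : PowerSeries ℂ) (n : ℕ) :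
    PowerSeries.coeff n (rationalSolve_proj π x) = ((π (PowerSeries.coeff n x) : ℚ) : ℂ) := by
  simp [rationalSolve_proj]

theorem rationalSolve_map_mul_rat (π : ℂ →ₗ[ℚ] ℚ) (c : ℂ) (r : ℚ) :
    π (c * (r : ℂ)) = π c * r := by
  have : c * (r : ℂ) = (r : ℚ) • c := by
    rw [Algebra.smul_def]
    simp [mul_comm]
  rw [this, map_smul, smul_eq_mul, mul_comm]

/-- A `ℚ⟦X⟧`-linear retraction of `ℂ⟦X⟧` onto the rational power series
(coefficientwise a `ℚ`-linear retraction `π : ℂ → ℚ` with `π 1 = 1`). -/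
theorem exists_ratProj : ∃ P : PowerSeries ℂ →+ PowerSeries ℂ,
    (∀ x, IsRatPS (P x)) ∧ (∀ R, IsRatPS R → P R = R) ∧
    (∀ x R, IsRatPS R → P (x * R) = P x * R) ∧
    (∀ (c : ℂ) (R : PowerSeries ℂ), IsRatPS R → ∃ r : ℚ, P (c • R) = (r : ℂ) • R) := by
  classical
  obtain ⟨π, hπ⟩ := rationalSolve_exists_retraction
  refine ⟨rationalSolve_proj π, ?_, ?_, ?_, ?_⟩
  · intro x n
    exact ⟨π (PowerSeries.coeff n x), rationalSolve_coeff_proj π x n⟩
  · intro R hR
    ext n
    obtain ⟨r, hr⟩ := hR n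
    rw [rationalSolve_coeff_proj, hr, hπ]
  · intro x R hR
    ext n
    choose r hr using hR
    rw [rationalSolve_coeff_proj, PowerSeries.coeff_mul, PowerSeries.coeff_mul, map_sum]
    push_cast
    refine Finset.sum_congr rfl fun ij _ => ?_
    rw [rationalSolve_coeff_proj, hr ij.2, rationalSolve_map_mul_rat]
    push_cast
    rfl
  · intro c R hR
    refine ⟨π c, ?_⟩
    ext n
    obtain ⟨r, hr⟩ := hR n
    rw [rationalSolve_coeff_proj, PowerSeries.coeff_smul, PowerSeries.coeff_smul, hr, smul_eq_mul,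
      smul_eq_mul, rationalSolve_map_mul_rat]
    push_cast
    rfl

end Fermat.Agent.S23

end
end ZBS23_001_19

/-! ### bundled: `Fermat.Agent.S23.BddTools` -/
section ZBS23_001_20

/-!
# S23, piece P18 (tools): rational power series, bounded denominators, the concrete retraction

* `bddTools_isRatPS_*` : closure properties of `IsRatPS`.
* `HasBddDenom x` : some nonzero natural multiple of `x` has integer coefficients.
* `bddTools_proj_*` : properties of the concrete coefficientwise retraction `rationalSolve_proj π`.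
* `bddTools_levelOne` : the retraction of the `q`-expansion of a level-one modular form has bounded
  denominators (from `StmtP4`).
* `bddTools_isHPB_levelOne`, `bddTools_isHPB_cuspForm` : membership in the ring `HPB`.
-/

set_option autoImplicit false

noncomputable section

namespace Fermat.Agent.S23

open UpperHalfPlane ModularForm
open scoped MatrixGroups ModularForm Manifold

/-! ### Rational power series -/

/-- The subring of `ℂ⟦X⟧` of power series with rational coefficients. -/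
def bddTools_ratSubring : Subring (PowerSeries ℂ) := (PowerSeries.map (algebraMap ℚ ℂ)).range

theorem bddTools_isRatPS_iff_mem {F : PowerSeries ℂ} : IsRatPS F ↔ F ∈ bddTools_ratSubring := by
  constructor
  · intro h
    choose a ha using h
    refine ⟨PowerSeries.mk a, ?_⟩
    ext n
    simp [ha n]
  · rintro ⟨G, rfl⟩ n
    exact ⟨PowerSeries.coeff n G, by simp⟩

theorem bddTools_isRatPS_mul {F G : PowerSeries ℂ} (hF : IsRatPS F) (hG : IsRatPS G) :
    IsRatPS (F * G) :=
  bddTools_isRatPS_iff_mem.2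
    (bddTools_ratSubring.mul_mem (bddTools_isRatPS_iff_mem.1 hF) (bddTools_isRatPS_iff_mem.1 hG))

theorem bddTools_isRatPS_add {F G : PowerSeries ℂ} (hF : IsRatPS F) (hG : IsRatPS G) :
    IsRatPS (F + G) :=
  bddTools_isRatPS_iff_mem.2
    (bddTools_ratSubring.add_mem (bddTools_isRatPS_iff_mem.1 hF) (bddTools_isRatPS_iff_mem.1 hG))

theorem bddTools_isRatPS_pow {F : PowerSeries ℂ} (hF : IsRatPS F) (n : ℕ) : IsRatPS (F ^ n) :=
  bddTools_isRatPS_iff_mem.2 (bddTools_ratSubring.pow_mem (bddTools_isRatPS_iff_mem.1 hF) n)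

theorem bddTools_isRatPS_sum {ι : Type*} (s : Finset ι) (F : ι → PowerSeries ℂ)
    (hF : ∀ i ∈ s, IsRatPS (F i)) : IsRatPS (∑ i ∈ s, F i) :=
  bddTools_isRatPS_iff_mem.2
    (bddTools_ratSubring.sum_mem fun i hi => bddTools_isRatPS_iff_mem.1 (hF i hi))

theorem bddTools_isRatPS_one : IsRatPS (1 : PowerSeries ℂ) :=
  bddTools_isRatPS_iff_mem.2 bddTools_ratSubring.one_mem

theorem bddTools_isRatPS_zero : IsRatPS (0 : PowerSeries ℂ) :=
  bddTools_isRatPS_iff_mem.2 bddTools_ratSubring.zero_mem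

theorem bddTools_isRatPS_smul_rat (r : ℚ) {F : PowerSeries ℂ} (hF : IsRatPS F) :
    IsRatPS ((r : ℂ) • F) := fun n => by
  obtain ⟨s, hs⟩ := hF n
  exact ⟨r * s, by rw [PowerSeries.coeff_smul, hs, smul_eq_mul]; push_cast; rfl⟩

theorem bddTools_isRatPS_smul_nat (M : ℕ) {F : PowerSeries ℂ} (hF : IsRatPS F) :
    IsRatPS ((M : ℂ) • F) := fun n => by
  obtain ⟨s, hs⟩ := hF n
  exact ⟨M * s, by rw [PowerSeries.coeff_smul, hs, smul_eq_mul]; push_cast; rfl⟩

/-! ### Integral power series: scalar multiples -/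

theorem bddTools_isIntPS_smul_nat (M : ℕ) {F : PowerSeries ℂ} (hF : IsIntPS F) :
    IsIntPS ((M : ℂ) • F) := fun n => by
  obtain ⟨s, hs⟩ := hF n
  exact ⟨M * s, by rw [PowerSeries.coeff_smul, hs, smul_eq_mul]; push_cast; rfl⟩

theorem bddTools_isIntPS_smul_int (M : ℤ) {F : PowerSeries ℂ} (hF : IsIntPS F) :
    IsIntPS ((M : ℂ) • F) := fun n => by
  obtain ⟨s, hs⟩ := hF n
  exact ⟨M * s, by rw [PowerSeries.coeff_smul, hs, smul_eq_mul]; push_cast; rfl⟩

/-! ### Bounded denominators -/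

/-- Some nonzero natural multiple of `x` has integer coefficients. -/
def HasBddDenom (x : PowerSeries ℂ) : Prop := ∃ M : ℕ, M ≠ 0 ∧ IsIntPS ((M : ℂ) • x)

theorem HasBddDenom.of_isIntPS {x : PowerSeries ℂ} (hx : IsIntPS x) : HasBddDenom x :=
  ⟨1, one_ne_zero, by simpa using hx⟩

theorem HasBddDenom.isRatPS {x : PowerSeries ℂ} (hx : HasBddDenom x) : IsRatPS x := by
  obtain ⟨M, hM, h⟩ := hx
  intro n
  obtain ⟨z, hz⟩ := h n
  refine ⟨(z : ℚ) / M, ?_⟩
  have hM' : (M : ℂ) ≠ 0 := Nat.cast_ne_zero.mpr hM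
  rw [PowerSeries.coeff_smul, smul_eq_mul] at hz
  push_cast
  field_simp
  rw [← hz]
  ring

theorem HasBddDenom.zero : HasBddDenom (0 : PowerSeries ℂ) :=
  HasBddDenom.of_isIntPS almostInt_isIntPS_zero

theorem HasBddDenom.add {x y : PowerSeries ℂ} (hx : HasBddDenom x) (hy : HasBddDenom y) :
    HasBddDenom (x + y) := by
  obtain ⟨M₁, hM₁, h₁⟩ := hx
  obtain ⟨M₂, hM₂, h₂⟩ := hy
  refine ⟨M₁ * M₂, mul_ne_zero hM₁ hM₂, ?_⟩
  have : (((M₁ * M₂ : ℕ) : ℂ)) • (x + y) =
      (M₂ : ℂ) • ((M₁ : ℂ) • x) + (M₁ : ℂ) • ((M₂ : ℂ) • y) := by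
    rw [smul_add, smul_smul, smul_smul]
    push_cast
    rw [mul_comm (M₂ : ℂ) (M₁ : ℂ)]
  rw [this]
  exact almostInt_isIntPS_add (bddTools_isIntPS_smul_nat _ h₁) (bddTools_isIntPS_smul_nat _ h₂)

theorem HasBddDenom.mul {x y : PowerSeries ℂ} (hx : HasBddDenom x) (hy : HasBddDenom y) :
    HasBddDenom (x * y) := by
  obtain ⟨M₁, hM₁, h₁⟩ := hx
  obtain ⟨M₂, hM₂, h₂⟩ := hy
  refine ⟨M₁ * M₂, mul_ne_zero hM₁ hM₂, ?_⟩
  have : (((M₁ * M₂ : ℕ) : ℂ)) • (x * y) = ((M₁ : ℂ) • x) * ((M₂ : ℂ) • y) := by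
    rw [smul_mul_smul_comm]
    push_cast
    rfl
  rw [this]
  exact almostInt_isIntPS_mul h₁ h₂

theorem HasBddDenom.sum {ι : Type*} (s : Finset ι) (F : ι → PowerSeries ℂ)
    (hF : ∀ i ∈ s, HasBddDenom (F i)) : HasBddDenom (∑ i ∈ s, F i) := by
  classical
  induction s using Finset.induction_on with
  | empty => simpa using HasBddDenom.zero
  | insert a s ha ih =>
    rw [Finset.sum_insert ha]
    exact (hF a (Finset.mem_insert_self a s)).add
      (ih fun i hi => hF i (Finset.mem_insert_of_mem hi))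

theorem HasBddDenom.smul_rat (r : ℚ) {x : PowerSeries ℂ} (hx : HasBddDenom x) :
    HasBddDenom ((r : ℂ) • x) := by
  obtain ⟨M, hM, h⟩ := hx
  refine ⟨r.den * M, mul_ne_zero r.den_nz hM, ?_⟩
  have h1 : (((r.den : ℕ) : ℂ)) * ((r : ℚ) : ℂ) = ((r.num : ℤ) : ℂ) := by
    have := Rat.den_mul_eq_num r
    exact_mod_cast congrArg (fun q : ℚ => (q : ℂ)) this
  have : (((r.den * M : ℕ) : ℂ)) • ((r : ℂ) • x) = ((r.num : ℤ) : ℂ) • ((M : ℂ) • x) := by
    rw [smul_smul, smul_smul, ← h1]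
    push_cast
    ring_nf
  rw [this]
  exact bddTools_isIntPS_smul_int _ h

/-- A finite family of power series with bounded denominators has a common denominator. -/
theorem HasBddDenom.common {ι : Type*} (s : Finset ι) (F : ι → PowerSeries ℂ)
    (hF : ∀ i ∈ s, HasBddDenom (F i)) : ∃ M : ℕ, M ≠ 0 ∧ ∀ i ∈ s, IsIntPS ((M : ℂ) • F i) := by
  classical
  induction s using Finset.induction_on with
  | empty => exact ⟨1, one_ne_zero, fun i hi => absurd hi (Finset.notMem_empty i)⟩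
  | insert a s ha ih =>
    obtain ⟨M₁, hM₁, h₁⟩ := hF a (Finset.mem_insert_self a s)
    obtain ⟨M₂, hM₂, h₂⟩ := ih fun i hi => hF i (Finset.mem_insert_of_mem hi)
    refine ⟨M₁ * M₂, mul_ne_zero hM₁ hM₂, fun i hi => ?_⟩
    rcases Finset.mem_insert.1 hi with rfl | hi
    · have : (((M₁ * M₂ : ℕ) : ℂ)) • F i = (M₂ : ℂ) • ((M₁ : ℂ) • F i) := by
        rw [smul_smul]
        push_cast
        rw [mul_comm]
      rw [this]
      exact bddTools_isIntPS_smul_nat _ h₁
    · have : (((M₁ * M₂ : ℕ) : ℂ)) • F i = (M₁ : ℂ) • ((M₂ : ℂ) • F i) := by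
        rw [smul_smul]
        push_cast
        rfl
      rw [this]
      exact bddTools_isIntPS_smul_nat _ (h₂ i hi)

/-! ### The concrete retraction -/

theorem bddTools_proj_isRatPS (π : ℂ →ₗ[ℚ] ℚ) (x : PowerSeries ℂ) :
    IsRatPS (rationalSolve_proj π x) := fun n =>
  ⟨π (PowerSeries.coeff n x), rationalSolve_coeff_proj π x n⟩

theorem bddTools_proj_of_isRatPS {π : ℂ →ₗ[ℚ] ℚ} (hπ : ∀ r : ℚ, π (r : ℂ) = r)
    {R : PowerSeries ℂ} (hR : IsRatPS R) : rationalSolve_proj π R = R := by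
  ext n
  obtain ⟨r, hr⟩ := hR n
  rw [rationalSolve_coeff_proj, hr, hπ]

theorem bddTools_proj_mul (π : ℂ →ₗ[ℚ] ℚ) (x : PowerSeries ℂ) {R : PowerSeries ℂ}
    (hR : IsRatPS R) : rationalSolve_proj π (x * R) = rationalSolve_proj π x * R := by
  ext n
  choose r hr using hR
  rw [rationalSolve_coeff_proj, PowerSeries.coeff_mul, PowerSeries.coeff_mul, map_sum]
  push_cast
  refine Finset.sum_congr rfl fun ij _ => ?_
  rw [rationalSolve_coeff_proj, hr ij.2, rationalSolve_map_mul_rat]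
  push_cast
  rfl

theorem bddTools_proj_sum (π : ℂ →ₗ[ℚ] ℚ) {ι : Type*} (s : Finset ι) (F : ι → PowerSeries ℂ) :
    rationalSolve_proj π (∑ i ∈ s, F i) = ∑ i ∈ s, rationalSolve_proj π (F i) :=
  map_sum (rationalSolve_proj π) F s

/-! ### Level one -/

theorem bddTools_isHPB_levelOne {m : ℤ} {g : ℍ → ℂ} (h : IsMF 𝒮ℒ m g) : IsHPB g :=
  IsMF.isHPB (N := 1) (IsMF.of_levelOne h)

theorem bddTools_isHPB_modularForm {N : ℕ} [NeZero N] {k : ℤ} (f : ModularForm (G0 N) k) :
    IsHPB (⇑f : ℍ → ℂ) :=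
  IsMF.isHPB (N := N) ⟨f, rfl⟩

theorem bddTools_isHPB_cuspForm {N : ℕ} [NeZero N] {k : ℤ} (f : CuspForm (G0 N) k) :
    IsHPB (⇑f : ℍ → ℂ) :=
  IsMF.isHPB (N := N) (IsCF.isMF ⟨f, rfl⟩)

/-- The retraction of the `q`-expansion of a level-one modular form has bounded denominators. -/
theorem bddTools_levelOne (hP4 : StmtP4) (π : ℂ →ₗ[ℚ] ℚ) {m : ℤ} (a : ModularForm 𝒮ℒ m) :
    HasBddDenom (rationalSolve_proj π (qExpansion 1 a)) := by
  obtain ⟨y, ⟨D, hD, hy1⟩, hy2⟩ := p5_exists_functional_of_mem_span a (hP4 m a) π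
  have : rationalSolve_proj π (qExpansion 1 a) = qExpansion 1 y := by
    ext n
    rw [rationalSolve_coeff_proj, hy2]
  rw [this]
  refine ⟨D, hD, fun n => ?_⟩
  obtain ⟨z, hz⟩ := hy1 n
  exact ⟨z, by rw [PowerSeries.coeff_smul, smul_eq_mul, hz]⟩

/-- Function version of `bddTools_levelOne`. -/
theorem bddTools_levelOne' (hP4 : StmtP4) (π : ℂ →ₗ[ℚ] ℚ) {m : ℤ} {g : ℍ → ℂ}
    (hg : IsMF 𝒮ℒ m g) : HasBddDenom (rationalSolve_proj π (qExpansion 1 g)) := by
  obtain ⟨a, rfl⟩ := hg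
  exact bddTools_levelOne hP4 π a

end Fermat.Agent.S23

end
end ZBS23_001_20

/-! ### bundled: `Fermat.Agent.S23.BddMonic` -/
section ZBS23_001_21

/-!
# S23, piece P18 part (1): the monic relation over `ℤ⟦X⟧`

For a cusp form `f` of level `Γ₀(N)` with rational `q`-expansion `F`, some nonzero multiple `M • F`
satisfies a monic equation of degree `cosetCard N` with coefficients in `ℤ⟦X⟧`
(`bdd_monic_relation`).
-/

set_option autoImplicit false

noncomputable section

namespace Fermat.Agent.S23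

open UpperHalfPlane ModularForm
open scoped MatrixGroups ModularForm Manifold

theorem bddMonic_cosetCard_pos (N : ℕ) [NeZero N] : 1 ≤ cosetCard N :=
  Finset.card_pos.mpr ⟨coset1 N, mem_cosetFinset _⟩

/-- The `q`-expansion of a monic relation between functions in `HPB`. -/
theorem bddMonic_qExp_relation (n : ℕ) (f : ℍ → ℂ) (hf : IsHPB f)
    (a : ℕ → ℍ → ℂ) (ha : ∀ m, 1 ≤ m → IsHPB (a m))
    (h : ∀ z, f z ^ n + ∑ m ∈ Finset.Icc 1 n, a m z * f z ^ (n - m) = 0) :
    qExpansion 1 f ^ n +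
      ∑ m ∈ Finset.Icc 1 n, qExpansion 1 (a m) * qExpansion 1 f ^ (n - m) = 0 := by
  classical
  set fH : HPB := ⟨f, hf⟩ with hfH
  set A : ℕ → HPB := fun m => if hm : 1 ≤ m then ⟨a m, ha m hm⟩ else 0 with hA
  have hAcoe : ∀ m, 1 ≤ m → ((A m : HPB) : ℍ → ℂ) = a m := by
    intro m hm
    simp only [hA, dif_pos hm]
  have key : fH ^ n + ∑ m ∈ Finset.Icc 1 n, A m * fH ^ (n - m) = 0 := by
    apply Subtype.ext
    funext z
    have h1 : ((fH ^ n + ∑ m ∈ Finset.Icc 1 n, A m * fH ^ (n - m) : HPB) : ℍ → ℂ) z =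
        f z ^ n + ∑ m ∈ Finset.Icc 1 n, ((A m : HPB) : ℍ → ℂ) z * f z ^ (n - m) := by
      simp [hfH, Finset.sum_apply]
    rw [h1]
    have h2 : ∑ m ∈ Finset.Icc 1 n, ((A m : HPB) : ℍ → ℂ) z * f z ^ (n - m) =
        ∑ m ∈ Finset.Icc 1 n, a m z * f z ^ (n - m) := by
      refine Finset.sum_congr rfl fun m hm => ?_
      rw [hAcoe m (Finset.mem_Icc.1 hm).1]
    rw [h2, h z]
    rfl
  have h3 := congrArg qExpHom key
  simp only [map_add, map_pow, map_sum, map_mul, map_zero] at h3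
  have h4 : ∑ m ∈ Finset.Icc 1 n, qExpHom (A m) * qExpHom fH ^ (n - m) =
      ∑ m ∈ Finset.Icc 1 n, qExpansion 1 (a m) * qExpansion 1 f ^ (n - m) := by
    refine Finset.sum_congr rfl fun m hm => ?_
    rw [qExpHom_apply, qExpHom_apply, hAcoe m (Finset.mem_Icc.1 hm).1]
  rw [h4] at h3
  exact h3

/-- **P18, part (1).** A nonzero multiple of a rational `q`-expansion of a cusp form for `Γ₀(N)`
is integral over `ℤ⟦X⟧`. -/
theorem bdd_monic_relation (N : ℕ) [NeZero N] (k : ℤ) (hP4 : StmtP4) (hNR : StmtNormRel N)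
    (f : CuspForm (G0 N) k) (hf : IsRatPS (qExpansion 1 f)) :
    ∃ (M : ℕ) (c : ℕ → PowerSeries ℂ), M ≠ 0 ∧
      (∀ m, 1 ≤ m → m ≤ cosetCard N → IsIntPS (c m)) ∧
      ((M : ℂ) • qExpansion 1 f) ^ cosetCard N +
        ∑ m ∈ Finset.Icc 1 (cosetCard N),
          c m * ((M : ℂ) • qExpansion 1 f) ^ (cosetCard N - m) = 0 := by
  classical
  obtain ⟨π, hπ⟩ := rationalSolve_exists_retraction
  obtain ⟨a, ha, hrel⟩ := hNR k f
  set n := cosetCard N with hn
  set F := qExpansion 1 f with hF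
  have hq := bddMonic_qExp_relation n f (bddTools_isHPB_cuspForm f) a
    (fun m hm => bddTools_isHPB_levelOne (ha m hm).isMF) hrel
  -- apply the retraction
  have hq' : F ^ n +
      ∑ m ∈ Finset.Icc 1 n, rationalSolve_proj π (qExpansion 1 (a m)) * F ^ (n - m) = 0 := by
    have h1 := congrArg (rationalSolve_proj π) hq
    rw [map_add, map_sum, map_zero, bddTools_proj_of_isRatPS hπ (bddTools_isRatPS_pow hf n)] at h1
    rw [← h1]
    congr 1
    refine Finset.sum_congr rfl fun m _ => ?_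
    rw [bddTools_proj_mul π _ (bddTools_isRatPS_pow hf _)]
  -- common denominator
  obtain ⟨M, hM, hMint⟩ := HasBddDenom.common (Finset.Icc 1 n)
    (fun m => rationalSolve_proj π (qExpansion 1 (a m)))
    (fun m hm => bddTools_levelOne' hP4 π (ha m (Finset.mem_Icc.1 hm).1).isMF)
  refine ⟨M, fun m => ((M : ℂ) ^ m) • rationalSolve_proj π (qExpansion 1 (a m)), hM, ?_, ?_⟩
  · intro m hm1 hmn
    have h1 := hMint m (Finset.mem_Icc.2 ⟨hm1, hmn⟩)
    have h2 : ((M : ℂ) ^ m) • rationalSolve_proj π (qExpansion 1 (a m)) =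
        (((M ^ (m - 1) : ℕ) : ℂ)) • ((M : ℂ) • rationalSolve_proj π (qExpansion 1 (a m))) := by
      rw [smul_smul]
      congr 1
      push_cast
      rw [← pow_succ]
      congr 1
      omega
    show IsIntPS (((M : ℂ) ^ m) • rationalSolve_proj π (qExpansion 1 (a m)))
    rw [h2]
    exact bddTools_isIntPS_smul_nat _ h1
  · show ((M : ℂ) • F) ^ n +
        ∑ m ∈ Finset.Icc 1 n, ((M : ℂ) ^ m • rationalSolve_proj π (qExpansion 1 (a m))) *
          ((M : ℂ) • F) ^ (n - m) = 0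
    have h1 : ((M : ℂ) • F) ^ n +
        ∑ m ∈ Finset.Icc 1 n, ((M : ℂ) ^ m • rationalSolve_proj π (qExpansion 1 (a m))) *
          ((M : ℂ) • F) ^ (n - m) =
        ((M : ℂ) ^ n) • (F ^ n +
          ∑ m ∈ Finset.Icc 1 n, rationalSolve_proj π (qExpansion 1 (a m)) * F ^ (n - m)) := by
      rw [smul_add, Finset.smul_sum, smul_pow]
      congr 1
      refine Finset.sum_congr rfl fun m hm => ?_
      have hmn : m ≤ n := (Finset.mem_Icc.1 hm).2
      rw [smul_pow, smul_mul_smul_comm, ← pow_add]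
      congr 2
      omega
    rw [h1, hq', smul_zero]

end Fermat.Agent.S23

end
end ZBS23_001_21

/-! ### bundled: `Fermat.Agent.S23.BddGlue` -/
section ZBS23_001_22

/-!
# S23, piece P18 (glue): bounded denominators from the monic relation and the fraction

`bdd_of_parts`: if every rational `q`-expansion `F` of a cusp form has a nonzero multiple `M • F`
integral over `ℤ⟦X⟧` (part (1)) and is a fraction `P / Q` of integral power series (part (2)), then
`M • F` is integral (`StmtAlmostIntegral`), i.e. `StmtBdd N k` holds.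
-/

set_option autoImplicit false

noncomputable section

namespace Fermat.Agent.S23

open UpperHalfPlane ModularForm
open scoped MatrixGroups ModularForm Manifold

theorem bdd_of_parts (N : ℕ) [NeZero N] (k : ℤ) (hAI : StmtAlmostIntegral)
    (h1 : ∀ f : CuspForm (G0 N) k, IsRatPS (qExpansion 1 f) →
      ∃ (M : ℕ) (c : ℕ → PowerSeries ℂ), M ≠ 0 ∧
        (∀ m, 1 ≤ m → m ≤ cosetCard N → IsIntPS (c m)) ∧
        ((M : ℂ) • qExpansion 1 f) ^ cosetCard N +
          ∑ m ∈ Finset.Icc 1 (cosetCard N),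
            c m * ((M : ℂ) • qExpansion 1 f) ^ (cosetCard N - m) = 0)
    (h2 : ∀ f : CuspForm (G0 N) k, IsRatPS (qExpansion 1 f) →
      ∃ P Q : PowerSeries ℂ, IsIntPS P ∧ IsIntPS Q ∧ Q ≠ 0 ∧ Q * qExpansion 1 f = P) :
    StmtBdd N k := by
  intro f hf
  obtain ⟨M, c, hM, hc, hrel⟩ := h1 f hf
  obtain ⟨P, Q, hP, hQ, hQ0, hQF⟩ := h2 f hf
  refine ⟨M, hM, hAI ((M : ℂ) • qExpansion 1 f) ((M : ℂ) • P) Q (cosetCard N) c
    (bddTools_isRatPS_smul_nat M hf) (bddTools_isIntPS_smul_nat M hP) hQ hQ0 ?_ hc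
    (bddMonic_cosetCard_pos N) hrel⟩
  rw [mul_smul_comm, hQF]

end Fermat.Agent.S23

end
end ZBS23_001_22

/-! ### bundled: `Fermat.Agent.S23.BddFraction` -/
section ZBS23_001_23

/-!
# S23 piece P18, part (2): the q-expansion of a rational cusp form is a fraction of integral series

`bddFrac_exists`: for a cusp form `f` for `Γ₀(N)` with rational `q`-expansion `F` there are power
series `P`, `Q` with integer coefficients, `Q ≠ 0`, with `Q * F = P`.

Proof: Lagrange relation `f · D_Θ = ∑ l_j Θ^(n-1-j)`, `D_Θ = ∑ λ_j Θ^(n-1-j)` with level-one `l_j`, `λ_j`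
(`StmtLagrangeRel` for `f` and for the constant form `1`), `StmtP4` for `l_j`, `λ_j`, and the
`ℚ⟦X⟧`-linear retraction `exists_ratProj`.

All names are prefixed `bddFrac` / `BddFracPS`.
-/

set_option autoImplicit false

noncomputable section

namespace Fermat.Agent.S23

open UpperHalfPlane ModularForm SlashInvariantForm
open scoped MatrixGroups ModularForm Manifold

/-- The power series has bounded denominators: a nonzero integer multiple is integral. -/
def BddFracPS (x : PowerSeries ℂ) : Prop := ∃ M : ℕ, M ≠ 0 ∧ IsIntPS ((M : ℂ) • x)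

theorem bddFrac_natCast_smul {x : PowerSeries ℂ} (m : ℕ) (hx : IsIntPS x) :
    IsIntPS ((m : ℂ) • x) := by
  have : (m : ℂ) • x = (m : PowerSeries ℂ) * x := by
    rw [PowerSeries.smul_eq_C_mul]
    simp
  rw [this]
  exact almostInt_isIntPS_mul (almostInt_isIntPS_natCast m) hx

theorem BddFracPS.of_isIntPS {x : PowerSeries ℂ} (h : IsIntPS x) : BddFracPS x :=
  ⟨1, one_ne_zero, by simpa using h⟩

theorem BddFracPS.zero : BddFracPS 0 := BddFracPS.of_isIntPS almostInt_isIntPS_zero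

theorem BddFracPS.add {x y : PowerSeries ℂ} (hx : BddFracPS x) (hy : BddFracPS y) :
    BddFracPS (x + y) := by
  obtain ⟨M₁, h₁, hx⟩ := hx
  obtain ⟨M₂, h₂, hy⟩ := hy
  refine ⟨M₁ * M₂, Nat.mul_ne_zero h₁ h₂, ?_⟩
  have : ((M₁ * M₂ : ℕ) : ℂ) • (x + y)
      = (M₂ : ℂ) • ((M₁ : ℂ) • x) + (M₁ : ℂ) • ((M₂ : ℂ) • y) := by
    push_cast
    rw [smul_add, smul_smul, smul_smul, mul_comm (M₂ : ℂ) (M₁ : ℂ)]
  rw [this]
  exact almostInt_isIntPS_add (bddFrac_natCast_smul M₂ hx) (bddFrac_natCast_smul M₁ hy)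

theorem BddFracPS.mul_isIntPS {x T : PowerSeries ℂ} (hx : BddFracPS x) (hT : IsIntPS T) :
    BddFracPS (x * T) := by
  obtain ⟨M, hM, hx⟩ := hx
  refine ⟨M, hM, ?_⟩
  rw [← smul_mul_assoc]
  exact almostInt_isIntPS_mul hx hT

theorem BddFracPS.rat_smul (r : ℚ) {x : PowerSeries ℂ} (hx : IsIntPS x) :
    BddFracPS ((r : ℂ) • x) := by
  refine ⟨r.den, r.den_nz, ?_⟩
  have h1 : ((r.den : ℕ) : ℂ) * (r : ℂ) = (r.num : ℂ) := by
    have := Rat.den_mul_eq_num r
    exact_mod_cast this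
  have : ((r.den : ℕ) : ℂ) • ((r : ℂ) • x) = PowerSeries.C (r.num : ℂ) * x := by
    rw [smul_smul, PowerSeries.smul_eq_C_mul, h1]
  rw [this]
  exact almostInt_isIntPS_mul (almostInt_isIntPS_C_int _) hx

theorem BddFracPS.sum {ι : Type*} (s : Finset ι) (F : ι → PowerSeries ℂ)
    (h : ∀ i ∈ s, BddFracPS (F i)) : BddFracPS (∑ i ∈ s, F i) := by
  classical
  induction s using Finset.induction_on with
  | empty => simpa using BddFracPS.zero
  | insert a s ha ih =>
    rw [Finset.sum_insert ha]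
    exact (h a (Finset.mem_insert_self a s)).add (ih fun i hi => h i (Finset.mem_insert_of_mem hi))

/-- The projection of the `q`-expansion of a level-one form has bounded denominators. -/
theorem bddFrac_proj_levelOne (hP4 : StmtP4) (P : PowerSeries ℂ →+ PowerSeries ℂ)
    (hPsmul : ∀ (c : ℂ) (R : PowerSeries ℂ), IsRatPS R → ∃ r : ℚ, P (c • R) = (r : ℂ) • R)
    {κ : ℤ} {l : ℍ → ℂ} (hl : IsMF 𝒮ℒ κ l) : BddFracPS (P (qExpansion 1 l)) := by
  obtain ⟨L, rfl⟩ := hl
  have key : ∀ c : ℂ, BddFracPS (P (c • qExpansion 1 L)) := by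
    have hmem := hP4 κ L
    induction hmem using Submodule.span_induction with
    | mem b hb =>
      intro c
      obtain ⟨r, hr⟩ := hPsmul c _ (almostInt_isIntPS_isRatPS hb)
      rw [hr]
      exact BddFracPS.rat_smul r hb
    | zero =>
      intro c
      have : qExpansion 1 (⇑(0 : ModularForm 𝒮ℒ κ)) = 0 := by
        rw [FunLike.coe_zero]
        exact qExpansion_zero 1
      rw [this, smul_zero, map_zero]
      exact BddFracPS.zero
    | add a b _ _ iha ihb =>
      intro c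
      rw [FunLike.coe_add, ModularForm.qExpansion_add one_pos one_mem_strictPeriods_SL,
        smul_add, map_add]
      exact (iha c).add (ihb c)
    | smul c' a _ iha =>
      intro c
      rw [FunLike.coe_smul, ModularForm.qExpansion_smul one_pos one_mem_strictPeriods_SL,
        smul_smul]
      exact iha (c * c')
  simpa using key 1

/-- **P18, part (2).** The `q`-expansion of a cusp form for `Γ₀(N)` with rational coefficients is a
quotient of two power series with integer coefficients. -/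
theorem bddFrac_exists (N : ℕ) [NeZero N] (k : ℤ) (hP4 : StmtP4) (hΘ : StmtTheta N)
    (hL : StmtLagrangeRel N) (f : CuspForm (G0 N) k) (hf : IsRatPS (qExpansion 1 f)) :
    ∃ P Q : PowerSeries ℂ, IsIntPS P ∧ IsIntPS Q ∧ Q ≠ 0 ∧ Q * qExpansion 1 f = P := by
  classical
  obtain ⟨w, Θ, hTint, hT0, hz⟩ := hΘ
  obtain ⟨Pr, hPrat, hPid, hPmul, hPsmul⟩ := exists_ratProj
  obtain ⟨l, hl, hrel⟩ := hL k w (ModularFormClass.modularForm f) Θ
  obtain ⟨lam, hlam, hrel1⟩ := hL 0 w 1 Θ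
  set n : ℕ := cosetCard N with hn
  set T : PowerSeries ℂ := qExpansion 1 Θ with hT
  set F : PowerSeries ℂ := qExpansion 1 f with hF
  have hΘMF : IsMF (G0 N) w (⇑Θ) := ⟨Θ, rfl⟩
  have hfMF : IsMF (G0 N) k (⇑f) := IsCF.isMF ⟨f, rfl⟩
  have hΘHPB : IsHPB (⇑Θ) := hΘMF.isHPB
  have hfHPB : IsHPB (⇑f) := hfMF.isHPB
  have hlMF : ∀ j : ℕ, IsMF (G0 N) (k + (j : ℤ) * w) (l j) := fun j => IsMF.of_levelOne (hl j)
  have hlamMF : ∀ j : ℕ, IsMF (G0 N) (0 + (j : ℤ) * w) (lam j) := fun j => IsMF.of_levelOne (hlam j)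
  -- the two Lagrange relations as identities of functions
  have hDfun : Dfun Θ = ∑ j ∈ Finset.range n, lam j * (⇑Θ) ^ (n - 1 - j) := by
    funext z
    have := hrel1 z
    rw [ModularForm.one_coe_eq_one, Pi.one_apply, one_mul] at this
    rw [this, Finset.sum_apply]
    rfl
  have hfD : (⇑f) * Dfun Θ = ∑ j ∈ Finset.range n, l j * (⇑Θ) ^ (n - 1 - j) := by
    funext z
    have := hrel z
    rw [Finset.sum_apply]
    exact this
  have hDHPB : IsHPB (Dfun Θ) := by
    rw [hDfun]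
    exact HPB.sum_mem fun j _ => HPB.mul_mem (hlamMF j).isHPB (HPB.pow_mem hΘHPB _)
  -- q-expansions
  have hqD : qExpansion 1 (Dfun Θ)
      = ∑ j ∈ Finset.range n, qExpansion 1 (lam j) * T ^ (n - 1 - j) := by
    rw [hDfun, IsMF.qExpansion_sum (N := N) _ _
      (fun j : ℕ => (0 + (j : ℤ) * w) + ((n - 1 - j : ℕ) : ℤ) * w)
      (fun j _ => (hlamMF j).mul (hΘMF.pow _))]
    refine Finset.sum_congr rfl fun j _ => ?_
    rw [(hlamMF j).qExpansion_mul (hΘMF.pow _), hΘMF.qExpansion_pow]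
  have hqG : F * qExpansion 1 (Dfun Θ)
      = ∑ j ∈ Finset.range n, qExpansion 1 (l j) * T ^ (n - 1 - j) := by
    rw [hF, ← UpperHalfPlane.qExpansion_mul hfHPB.analyticAt hDHPB.analyticAt, hfD,
      IsMF.qExpansion_sum (N := N) _ _
      (fun j : ℕ => (k + (j : ℤ) * w) + ((n - 1 - j : ℕ) : ℤ) * w)
      (fun j _ => (hlMF j).mul (hΘMF.pow _))]
    refine Finset.sum_congr rfl fun j _ => ?_
    rw [(hlMF j).qExpansion_mul (hΘMF.pow _), hΘMF.qExpansion_pow]
  have hD0 : (qExpansion 1 (Dfun Θ)).coeff 0 = 1 :=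
    hDHPB.coeff_zero_of_tendsto (Dfun_tendsto_one Θ hT0 hz)
  -- apply the projection
  have hTint' : ∀ m : ℕ, IsIntPS (T ^ m) := fun m => almostInt_isIntPS_pow hTint m
  have hTrat : ∀ m : ℕ, IsRatPS (T ^ m) := fun m => almostInt_isIntPS_isRatPS (hTint' m)
  have hD'bdd : BddFracPS (Pr (qExpansion 1 (Dfun Θ))) := by
    rw [hqD, map_sum]
    refine BddFracPS.sum _ _ fun j _ => ?_
    rw [hPmul _ _ (hTrat _)]
    exact (bddFrac_proj_levelOne hP4 Pr hPsmul (hlam j)).mul_isIntPS (hTint' _)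
  have hG'bdd : BddFracPS (Pr (F * qExpansion 1 (Dfun Θ))) := by
    rw [hqG, map_sum]
    refine BddFracPS.sum _ _ fun j _ => ?_
    rw [hPmul _ _ (hTrat _)]
    exact (bddFrac_proj_levelOne hP4 Pr hPsmul (hl j)).mul_isIntPS (hTint' _)
  have hG'eq : Pr (F * qExpansion 1 (Dfun Θ)) = Pr (qExpansion 1 (Dfun Θ)) * F := by
    rw [mul_comm, hPmul _ _ hf]
  have hD'0 : Pr (qExpansion 1 (Dfun Θ)) ≠ 0 := by
    have h1 := PowerSeries.eq_shift_mul_X_add_const (qExpansion 1 (Dfun Θ))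
    have hone : IsRatPS (1 : PowerSeries ℂ) := almostInt_isIntPS_isRatPS almostInt_isIntPS_one
    have hX : IsRatPS (PowerSeries.X : PowerSeries ℂ) := almostInt_isIntPS_isRatPS almostInt_isIntPS_X
    have h2 : (PowerSeries.coeff 0) (Pr (qExpansion 1 (Dfun Θ))) = 1 := by
      rw [← PowerSeries.coeff_zero_eq_constantCoeff_apply, hD0, map_one] at h1
      rw [h1, map_add, hPid _ hone, hPmul _ _ hX]
      simp
    intro h0
    rw [h0] at h2
    simp at h2
  obtain ⟨M₁, hM₁, hQ⟩ := hD'bdd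
  obtain ⟨M₂, hM₂, hP⟩ := hG'bdd
  refine ⟨(M₁ : ℂ) • ((M₂ : ℂ) • Pr (F * qExpansion 1 (Dfun Θ))),
    (M₂ : ℂ) • ((M₁ : ℂ) • Pr (qExpansion 1 (Dfun Θ))),
    bddFrac_natCast_smul M₁ hP, bddFrac_natCast_smul M₂ hQ, ?_, ?_⟩
  · refine smul_ne_zero (Nat.cast_ne_zero.mpr hM₂) (smul_ne_zero (Nat.cast_ne_zero.mpr hM₁) hD'0)
  · rw [hG'eq, smul_mul_assoc, smul_mul_assoc, smul_comm]

set_option linter.unusedVariables false in
/-- **P18, part (2)**, in the exact form of the P18 split (P20 `Dfun_tendsto_one` is accepted as a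
hypothesis `hD1` but not needed: `DfunLemma` is imported). -/
theorem bdd_fraction (N : ℕ) [NeZero N] (k : ℤ) (hP4 : StmtP4) (hΘ : StmtTheta N)
    (hLR : StmtLagrangeRel N)
    (hD1 : ∀ (w : ℤ) (Θ : ModularForm (G0 N) w), (qExpansion 1 Θ).coeff 0 = 1 →
      (∀ γ : SL(2, ℤ), γ ∉ CongruenceSubgroup.Gamma0 N → IsZeroAtImInfty ((⇑Θ : ℍ → ℂ) ∣[w] γ)) →
      Filter.Tendsto (Dfun Θ) atImInfty (nhds 1))
    (f : CuspForm (G0 N) k) (hf : IsRatPS (qExpansion 1 f)) :
    ∃ P Q : PowerSeries ℂ, IsIntPS P ∧ IsIntPS Q ∧ Q ≠ 0 ∧ Q * qExpansion 1 f = P :=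
  bddFrac_exists N k hP4 hΘ hLR f hf

end Fermat.Agent.S23

end
end ZBS23_001_23

/-! ### bundled: `Fermat.Agent.S23.Main` -/
section ZBS23_001_24

/-!
# S23 — glue: `CuspForm.HasIntegralStructure N k` for all `N ≥ 1` and all `k`

Route (see `NOTES/S23.md`): norm polynomial over the level-one ring + removable singularities
⇒ q-expansions of `S_k(Γ₀(N))` are stable under `Aut(ℂ)` ⇒ rational basis (Galois descent);
bounded denominators via `Θ = Δ(z)^N/Δ(Nz)`, the Lagrange identity and "almost integral ⇒ integral"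
for `ℤ⟦X⟧`.
-/

set_option autoImplicit false

noncomputable section

namespace Fermat.Agent.S23

open UpperHalfPlane ModularForm SlashInvariantForm
open scoped MatrixGroups ModularForm Manifold

theorem main_stmtB (N : ℕ) [NeZero N] : StmtB N :=
  fun _ _ _ hn G D hG hD hD0 a ha h => exists_cuspForm_of_monic_relation hn G D hG hD hD0 a ha h

theorem main_stmtAlmostIntegral : StmtAlmostIntegral :=
  fun _ _ _ _ c hx hP hQ hQ0 hQx hc hn hrel =>
    isIntPS_of_monic_of_fraction c hx hP hQ hQ0 hQx hc hn hrel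

theorem main_stmtTheta (N : ℕ) [NeZero N] : StmtTheta N := by
  obtain ⟨Θ, hΘ⟩ := isMF_thetaFun N
  refine ⟨thetaWeight N, Θ, ?_, ?_, ?_⟩
  · rw [hΘ]; exact fun n => thetaFun_qExpansion_int N n
  · rw [hΘ]; exact thetaFun_qExpansion_coeff_zero N
  · intro γ hγ
    rw [hΘ]
    exact thetaFun_slash_isZeroAtImInfty N γ hγ

theorem main_stmtNormRel (N : ℕ) [NeZero N] : StmtNormRel N :=
  (normPoly_of_esymm N (esymm_stmt N)).1

theorem main_stmtLagrangeRel (N : ℕ) [NeZero N] : StmtLagrangeRel N :=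
  (normPoly_of_esymm N (esymm_stmt N)).2

theorem main_stmtSigma (N : ℕ) [NeZero N] (k : ℤ) : StmtSigma N k :=
  sigma_stable N k p5_stmtL1 (main_stmtB N) (main_stmtTheta N) (main_stmtNormRel N)
    (main_stmtLagrangeRel N)

theorem main_stmtRatSpan (N : ℕ) [NeZero N] (k : ℤ) : StmtRatSpan N k :=
  ratSpan_of_sigma N k (main_stmtSigma N k)

theorem main_stmtBdd (N : ℕ) [NeZero N] (k : ℤ) : StmtBdd N k :=
  bdd_of_parts N k main_stmtAlmostIntegral
    (fun f hf => bdd_monic_relation N k p4x_stmtP4 (main_stmtNormRel N) f hf)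
    (fun f hf => bddFrac_exists N k p4x_stmtP4 (main_stmtTheta N) (main_stmtLagrangeRel N) f hf)

/-- **Integral structure**: for every level `N ≥ 1` and every weight `k`, the space of cusp forms
`S_k(Γ₀(N))` is spanned over `ℂ` by the forms whose `q`-expansion has integer coefficients. -/
theorem hasIntegralStructure (N : ℕ) [NeZero N] (k : ℤ) : CuspForm.HasIntegralStructure N k :=
  hasIntegralStructure_of N k (main_stmtRatSpan N k) (main_stmtBdd N k)

end Fermat.Agent.S23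

end
end ZBS23_001_24
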