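/- GENERATED FILE (helper35, build-time optimisation, NOTES/ZB.md): verbatim concatenation of the modules
   Fermat.Agent.S24.QDisc
   Fermat.Agent.S24.EtaExp
   Fermat.Agent.S28.DerivBridge
   Fermat.Agent.INJ.HMTables
   Do not edit; do not import together with these modules. -/
import Mathlib
import Fermat.Prelude.Def_ModularCurve_X0
import Fermat.Agent.ZB.S23_001
import Fermat.Agent.ZB.INJ_006

/-! ### bundled: `Fermat.Agent.S24.QDisc` -/
section ZBS24_002_0

/-!
# S24 / P6a — functions on `ℍ` of the form `g ∘ q`, `g` holomorphic on the unit disc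

For `g : ℂ → ℂ` differentiable on the open unit disc, `f τ = g (q τ)` (`q = exp (2πiτ)`) is
`1`-periodic, holomorphic, bounded at `i∞`, its cusp function is `g` and its `q`-expansion is the
Taylor series of `g` at `0`.  Also: Taylor coefficients pass to locally uniform limits.
-/

set_option autoImplicit false

noncomputable section

open UpperHalfPlane Function Filter Complex
open scoped Manifold Topology

namespace Fermat.Agent.S24

local notation "𝕢" => Function.Periodic.qParam

/-- The function `τ ↦ g (q τ)` on the upper half plane. -/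
def ofDisc (g : ℂ → ℂ) : ℍ → ℂ := fun τ => g (𝕢 1 τ)

@[simp] lemma ofDisc_apply (g : ℂ → ℂ) (τ : ℍ) : ofDisc g τ = g (𝕢 1 τ) := rfl

lemma norm_qParam_lt_one' (τ : ℍ) : ‖𝕢 1 (τ : ℂ)‖ < 1 :=
  Function.Periodic.norm_qParam_lt_one one_pos τ.im_pos

lemma qParam_mem_ball (τ : ℍ) : 𝕢 1 (τ : ℂ) ∈ Metric.ball (0 : ℂ) 1 := by
  simpa using norm_qParam_lt_one' τ

lemma qParam_one_add_one (w : ℂ) : 𝕢 1 (w + 1) = 𝕢 1 w := by
  simp only [Function.Periodic.qParam, ofReal_one, div_one]
  rw [mul_add, mul_one, Complex.exp_add, Complex.exp_two_pi_mul_I, mul_one]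

lemma ofDisc_periodic (g : ℂ → ℂ) : Function.Periodic (ofDisc g ∘ ofComplex) (1 : ℝ) := by
  intro w
  by_cases hw : 0 < w.im
  · have hw' : 0 < (w + (1 : ℝ)).im := by simpa using hw
    simp only [Function.comp_apply, ofComplex_apply_of_im_pos hw', ofComplex_apply_of_im_pos hw,
      ofDisc_apply]
    congr 1
    simpa using qParam_one_add_one w
  · have hw' : ¬ 0 < (w + (1 : ℝ)).im := by simpa using hw
    simp only [Function.comp_apply]
    rw [ofComplex_apply_eq_of_im_nonpos (not_lt.mp hw') (not_lt.mp hw)]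

/-- On the unit disc, the cusp function of `g ∘ q` is `g` (if `g` is continuous at `0`). -/
lemma cuspFunction_ofDisc {g : ℂ → ℂ} (hg : ContinuousAt g 0) {q : ℂ} (hq : ‖q‖ < 1) :
    cuspFunction 1 (ofDisc g) q = g q := by
  have hne : ∀ {r : ℂ}, r ≠ 0 → ‖r‖ < 1 → cuspFunction 1 (ofDisc g) r = g r := by
    intro r hr hr1
    have him : 0 < (Function.Periodic.invQParam 1 r).im :=
      Function.Periodic.im_invQParam_pos_of_norm_lt_one one_pos hr1 hr
    rw [cuspFunction, Function.Periodic.cuspFunction_eq_of_nonzero _ _ hr, Function.comp_apply,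
      ofComplex_apply_of_im_pos him, ofDisc_apply]
    rw [Function.Periodic.qParam_right_inv one_ne_zero hr]
  rcases eq_or_ne q 0 with rfl | hq0
  · rw [cuspFunction, Function.Periodic.cuspFunction_zero_eq_limUnder_nhds_ne]
    refine Tendsto.limUnder_eq ?_
    have h1 : Tendsto g (𝓝[≠] 0) (𝓝 (g 0)) := hg.tendsto.mono_left nhdsWithin_le_nhds
    refine h1.congr' ?_
    have hball : Metric.ball (0 : ℂ) 1 ∈ 𝓝[≠] (0 : ℂ) :=
      mem_nhdsWithin_of_mem_nhds (Metric.ball_mem_nhds _ one_pos)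
    filter_upwards [hball, self_mem_nhdsWithin] with r hr hr0
    exact (hne hr0 (by simpa using hr)).symm
  · exact hne hq0 hq

lemma cuspFunction_ofDisc_eventuallyEq {g : ℂ → ℂ} (hg : ContinuousAt g 0) :
    cuspFunction 1 (ofDisc g) =ᶠ[𝓝 0] g := by
  filter_upwards [Metric.ball_mem_nhds (0 : ℂ) one_pos] with q hq
  exact cuspFunction_ofDisc hg (by simpa using hq)

lemma continuousAt_zero_of_differentiableOn {g : ℂ → ℂ}
    (hg : DifferentiableOn ℂ g (Metric.ball 0 1)) : ContinuousAt g 0 :=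
  (hg.differentiableAt (Metric.ball_mem_nhds _ one_pos)).continuousAt

lemma analyticAt_of_differentiableOn_ball {g : ℂ → ℂ}
    (hg : DifferentiableOn ℂ g (Metric.ball 0 1)) : AnalyticAt ℂ g 0 :=
  hg.analyticAt (Metric.ball_mem_nhds _ one_pos)

lemma analyticAt_cuspFunction_ofDisc {g : ℂ → ℂ}
    (hg : DifferentiableOn ℂ g (Metric.ball 0 1)) :
    AnalyticAt ℂ (cuspFunction 1 (ofDisc g)) 0 :=
  (analyticAt_of_differentiableOn_ball hg).congr
    (cuspFunction_ofDisc_eventuallyEq (continuousAt_zero_of_differentiableOn hg)).symm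

/-- The `q`-expansion of `g ∘ q` is the Taylor series of `g`. -/
lemma qExpansion_ofDisc_coeff {g : ℂ → ℂ} (hg : DifferentiableOn ℂ g (Metric.ball 0 1))
    (m : ℕ) :
    (qExpansion 1 (ofDisc g)).coeff m = (↑m.factorial)⁻¹ * iteratedDeriv m g 0 := by
  rw [qExpansion_coeff]
  congr 1
  exact (cuspFunction_ofDisc_eventuallyEq
    (continuousAt_zero_of_differentiableOn hg)).iteratedDeriv_eq m

lemma ofDisc_mdifferentiable {g : ℂ → ℂ} (hg : DifferentiableOn ℂ g (Metric.ball 0 1)) :
    MDiff (ofDisc g) := by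
  rw [UpperHalfPlane.mdifferentiable_iff]
  intro z hz
  have hz' : 0 < z.im := hz
  have h1 : DifferentiableAt ℂ (fun w : ℂ => g (𝕢 1 w)) z := by
    have hq : 𝕢 1 z ∈ Metric.ball (0 : ℂ) 1 := by
      simpa using Function.Periodic.norm_qParam_lt_one one_pos hz'
    exact (hg.differentiableAt (Metric.isOpen_ball.mem_nhds hq)).comp z
      (Function.Periodic.differentiable_qParam z)
  refine (h1.differentiableWithinAt).congr_of_eventuallyEq ?_ ?_
  · filter_upwards [self_mem_nhdsWithin] with w hw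
    have hw' : 0 < w.im := hw
    simp [Function.comp_apply, ofComplex_apply_of_im_pos hw']
  · simp [Function.comp_apply, ofComplex_apply_of_im_pos hz']

lemma ofDisc_tendsto_atImInfty {g : ℂ → ℂ} (hg : ContinuousAt g 0) :
    Tendsto (ofDisc g) atImInfty (𝓝 (g 0)) :=
  hg.tendsto.comp (UpperHalfPlane.qParam_tendsto_atImInfty one_pos)

lemma ofDisc_isBoundedAtImInfty {g : ℂ → ℂ} (hg : ContinuousAt g 0) :
    IsBoundedAtImInfty (ofDisc g) :=
  (ofDisc_tendsto_atImInfty hg).isBigO_one ℝ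

/-- Every holomorphic periodic bounded function is of the form `ofDisc g`. -/
lemma eq_ofDisc_cuspFunction {f : ℍ → ℂ} (hper : Function.Periodic (f ∘ ofComplex) (1 : ℝ)) :
    f = ofDisc (cuspFunction 1 f) := by
  funext τ
  exact (UpperHalfPlane.eq_cuspFunction τ one_ne_zero hper).symm

/-- Weierstrass: Taylor coefficients at `0` pass to locally uniform limits of holomorphic
functions. -/
lemma tendsto_iteratedDeriv_of_tendstoLocallyUniformlyOn {ι : Type*} {φ : Filter ι} [φ.NeBot]
    {U : Set ℂ} (hU : IsOpen U) {z : ℂ} (hz : z ∈ U) (m : ℕ) :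
    ∀ {F : ι → ℂ → ℂ} {f : ℂ → ℂ}, TendstoLocallyUniformlyOn F f φ U →
      (∀ᶠ i in φ, DifferentiableOn ℂ (F i) U) →
      Tendsto (fun i => iteratedDeriv m (F i) z) φ (𝓝 (iteratedDeriv m f z)) := by
  induction m with
  | zero =>
    intro F f hF _
    simpa using hF.tendsto_at hz
  | succ m ih =>
    intro F f hF hdiff
    simp only [iteratedDeriv_succ']
    refine ih (F := fun i => deriv (F i)) (f := deriv f) (hF.deriv hdiff hU) ?_
    filter_upwards [hdiff] with i hi
    exact hi.deriv hU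

end Fermat.Agent.S24

end
end ZBS24_002_0

/-! ### bundled: `Fermat.Agent.S24.EtaExp` -/
section ZBS24_002_1

/-!
# S24 / P6a — the analytic eta product has the formal eta product as Taylor series

* `qExpansion_coeff_unique_fun` : uniqueness of `q`-expansion coefficients for plain functions.
* `etaDisc q = ∏' n, (1 - q^(n+1))` on the unit disc; `qExpansion_etaDisc` identifies the
  `q`-expansion of `etaDisc ∘ q` with the image of the formal product `ModularCurve.etaProd`.
* `qExpansion_etaDisc_pow24` : the same for the 24-th power and `ModularCurve.dedekindEtaUnit`.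
-/

set_option autoImplicit false

noncomputable section

open UpperHalfPlane Function Filter Complex
open scoped Manifold Topology PowerSeries.WithPiTopology

namespace Fermat.Agent.S24

local notation "𝕢" => Function.Periodic.qParam

/-- `UpperHalfPlane.qExpansion_coeff_unique` for plain functions. -/
lemma qExpansion_coeff_unique_fun {h : ℝ} {f : ℍ → ℂ} {c : ℕ → ℂ} (hh : 0 < h)
    (han : AnalyticAt ℂ (cuspFunction h f) 0)
    (hf : ∀ τ : ℍ, HasSum (fun m => c m * 𝕢 h τ ^ m) (f τ)) (m : ℕ) :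
    (qExpansion h f).coeff m = c m := by
  let _i : FunLike (ℍ → ℂ) ℍ ℂ := ⟨fun f => f, fun _ _ h => h⟩
  exact (UpperHalfPlane.qExpansion_coeff_unique (F := ℍ → ℂ) f hh han hf m).symm

/-- The `q`-expansion of `g ∘ q` converges to `g ∘ q`. -/
lemma hasSum_qExpansion_ofDisc {g : ℂ → ℂ} (hg : DifferentiableOn ℂ g (Metric.ball 0 1))
    (τ : ℍ) :
    HasSum (fun m : ℕ => (qExpansion (1 : ℝ) (ofDisc g)).coeff m * 𝕢 1 τ ^ m) (g (𝕢 1 τ)) := by
  have := UpperHalfPlane.hasSum_qExpansion (h := 1) (f := ofDisc g) one_pos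
    (by simpa using ofDisc_periodic g) (ofDisc_mdifferentiable hg)
    (ofDisc_isBoundedAtImInfty (continuousAt_zero_of_differentiableOn hg)) τ
  simpa [smul_eq_mul] using this

lemma ofDisc_mul (g₁ g₂ : ℂ → ℂ) : ofDisc (g₁ * g₂) = ofDisc g₁ * ofDisc g₂ := rfl

lemma ofDisc_pow (g : ℂ → ℂ) (n : ℕ) : ofDisc (g ^ n) = ofDisc g ^ n := rfl

lemma ofDisc_one : ofDisc (1 : ℂ → ℂ) = 1 := rfl

lemma qExpansion_ofDisc_mul {g₁ g₂ : ℂ → ℂ} (h₁ : DifferentiableOn ℂ g₁ (Metric.ball 0 1))
    (h₂ : DifferentiableOn ℂ g₂ (Metric.ball 0 1)) :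
    qExpansion (1 : ℝ) (ofDisc (g₁ * g₂)) =
      qExpansion (1 : ℝ) (ofDisc g₁) * qExpansion (1 : ℝ) (ofDisc g₂) := by
  rw [ofDisc_mul]
  exact UpperHalfPlane.qExpansion_mul (analyticAt_cuspFunction_ofDisc h₁)
    (analyticAt_cuspFunction_ofDisc h₂)

lemma qExpansion_ofDisc_pow {g : ℂ → ℂ} (hg : DifferentiableOn ℂ g (Metric.ball 0 1)) (n : ℕ) :
    qExpansion (1 : ℝ) (ofDisc (g ^ n)) = qExpansion (1 : ℝ) (ofDisc g) ^ n := by
  induction n with
  | zero =>
    rw [pow_zero, pow_zero, ofDisc_one]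
    exact UpperHalfPlane.qExpansion_one 1
  | succ n ih =>
    rw [pow_succ, pow_succ, qExpansion_ofDisc_mul (hg.pow n) hg, ih]

lemma hasSum_polynomial_eval (p : Polynomial ℂ) (q : ℂ) :
    HasSum (fun m : ℕ => p.coeff m * q ^ m) (p.eval q) := by
  rw [Polynomial.eval_eq_sum_range]
  refine hasSum_sum_of_ne_finset_zero ?_
  intro b hb
  have : p.natDegree < b := by
    simpa [Finset.mem_range, Nat.lt_succ_iff] using hb
  rw [Polynomial.coeff_eq_zero_of_natDegree_lt this, zero_mul]

/-- `q`-expansion of a polynomial in `q`. -/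
lemma qExpansion_ofDisc_polynomial (p : Polynomial ℂ) :
    qExpansion (1 : ℝ) (ofDisc (fun q : ℂ => Polynomial.eval q p)) =
      Polynomial.toPowerSeries p := by
  have hdiff : DifferentiableOn ℂ (fun q : ℂ => Polynomial.eval q p) (Metric.ball 0 1) :=
    p.differentiable.differentiableOn
  ext m
  rw [Polynomial.coeff_coe]
  exact qExpansion_coeff_unique_fun one_pos (analyticAt_cuspFunction_ofDisc hdiff)
    (fun τ => hasSum_polynomial_eval p _) m

/-- Taylor coefficients of a polynomial function. -/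
lemma iteratedDeriv_polynomial (p : Polynomial ℂ) (m : ℕ) :
    (↑m.factorial : ℂ)⁻¹ * iteratedDeriv m (fun q : ℂ => Polynomial.eval q p) 0 = p.coeff m := by
  rw [← qExpansion_ofDisc_coeff p.differentiable.differentiableOn, qExpansion_ofDisc_polynomial,
    Polynomial.coeff_coe]

/-- The analytic eta product `∏ (1 - q^(n+1))` on the unit disc. -/
def etaDisc (q : ℂ) : ℂ := ∏' n : ℕ, (1 - q ^ (n + 1))

lemma differentiableOn_etaDisc : DifferentiableOn ℂ etaDisc (Metric.ball 0 1) :=
  ModularForm.differentiableOn_tprod_one_sub_pow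

lemma etaDisc_ne_zero {q : ℂ} (hq : ‖q‖ < 1) : etaDisc q ≠ 0 := by
  have hsum : Summable fun n : ℕ => ‖-q ^ (n + 1)‖ := by
    simpa using (summable_nat_add_iff 1).mpr
      (summable_geometric_of_lt_one (norm_nonneg q) hq)
  have := tprod_one_add_ne_zero_of_summable (f := fun n : ℕ => -q ^ (n + 1)) ?_ hsum
  · simpa [etaDisc, sub_eq_add_neg] using this
  · intro n h0
    have h1 : q ^ (n + 1) = 1 := by
      have : 1 + -q ^ (n + 1) = 0 := h0
      linear_combination -this
    have h2 : ‖q‖ ^ (n + 1) = 1 := by rw [← norm_pow, h1, norm_one]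
    have h3 : ‖q‖ ^ (n + 1) < 1 := pow_lt_one₀ (norm_nonneg q) hq (Nat.succ_ne_zero n)
    exact absurd h2 h3.ne

/-- Finite partial products of the eta product, as integer polynomials. -/
def etaPolyZ (N : ℕ) : Polynomial ℤ := ∏ n ∈ Finset.range N, (1 - Polynomial.X ^ (n + 1))

lemma etaPolyZ_toPowerSeries (N : ℕ) :
    ((etaPolyZ N : Polynomial ℤ) : PowerSeries ℤ) =
      ∏ n ∈ Finset.range N, (1 - PowerSeries.X ^ (n + 1)) := by
  rw [etaPolyZ, ← Polynomial.coeToPowerSeries.ringHom_apply, map_prod]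
  simp

lemma etaPolyZ_map_eval (N : ℕ) (q : ℂ) :
    ((etaPolyZ N).map (Int.castRingHom ℂ)).eval q = ∏ n ∈ Finset.range N, (1 - q ^ (n + 1)) := by
  simp [etaPolyZ, Polynomial.map_prod, Polynomial.eval_prod]

lemma tendsto_coeff_etaPolyZ (m : ℕ) :
    Tendsto (fun N : ℕ => (etaPolyZ N).coeff m) atTop
      (𝓝 (ModularCurve.etaProd.coeff m)) := by
  have h := (PowerSeries.WithPiTopology.multipliable_one_sub_X_pow ℤ).hasProd.tendsto_prod_nat
  have h2 := ((PowerSeries.WithPiTopology.continuous_coeff ℤ m).tendsto _).comp h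
  refine h2.congr ?_
  intro s
  simp only [Function.comp_apply]
  rw [← etaPolyZ_toPowerSeries, Polynomial.coeff_coe]

lemma tendsto_taylor_etaPoly (m : ℕ) :
    Tendsto (fun N : ℕ => (((etaPolyZ N).coeff m : ℤ) : ℂ)) atTop
      (𝓝 ((↑m.factorial : ℂ)⁻¹ * iteratedDeriv m etaDisc 0)) := by
  have hloc : TendstoLocallyUniformlyOn
      (fun (N : ℕ) (q : ℂ) => ∏ n ∈ Finset.range N, (1 - q ^ (n + 1))) etaDisc atTop
      (Metric.ball (0 : ℂ) 1) :=
    ModularForm.multipliableLocallyUniformlyOn_one_sub_pow.hasProdLocallyUniformlyOn.tendstoLocallyUniformlyOn_finsetRange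
  have hW := tendsto_iteratedDeriv_of_tendstoLocallyUniformlyOn Metric.isOpen_ball
    (Metric.mem_ball_self one_pos) m hloc
    (Eventually.of_forall fun N => by
      have := ((etaPolyZ N).map (Int.castRingHom ℂ)).differentiable.differentiableOn
        (s := Metric.ball (0 : ℂ) 1)
      simpa only [etaPolyZ_map_eval] using this)
  have hW2 := hW.const_mul ((↑m.factorial : ℂ)⁻¹)
  refine hW2.congr ?_
  intro N
  have := iteratedDeriv_polynomial ((etaPolyZ N).map (Int.castRingHom ℂ)) m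
  simp only [etaPolyZ_map_eval] at this
  rw [this, Polynomial.coeff_map]
  simp

/-- The Taylor coefficients of the analytic eta product are those of the formal one. -/
lemma qExpansion_etaDisc_coeff (m : ℕ) :
    (qExpansion (1 : ℝ) (ofDisc etaDisc)).coeff m = ((ModularCurve.etaProd.coeff m : ℤ) : ℂ) := by
  rw [qExpansion_ofDisc_coeff differentiableOn_etaDisc]
  refine tendsto_nhds_unique (tendsto_taylor_etaPoly m) ?_
  exact ((continuous_of_discreteTopology (f := fun z : ℤ => (z : ℂ))).tendsto _).comp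
    (tendsto_coeff_etaPolyZ m)

/-- The `q`-expansion of the analytic eta product is the formal eta product. -/
theorem qExpansion_etaDisc :
    qExpansion (1 : ℝ) (ofDisc etaDisc) = ModularCurve.etaProd.map (Int.castRingHom ℂ) := by
  ext m
  rw [qExpansion_etaDisc_coeff, PowerSeries.coeff_map]
  rfl

/-- The `q`-expansion of `∏ (1 - q^n)^24` is the formal `dedekindEtaUnit`. -/
theorem qExpansion_etaDisc_pow24 :
    qExpansion (1 : ℝ) (ofDisc (etaDisc ^ 24)) =
      ModularCurve.dedekindEtaUnit.map (Int.castRingHom ℂ) := by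
  rw [qExpansion_ofDisc_pow differentiableOn_etaDisc, qExpansion_etaDisc,
    ModularCurve.dedekindEtaUnit, map_pow]

/-- `Δ = q · etaDisc(q)^24`. -/
theorem discriminant_eq_qParam_mul_etaDisc (τ : ℍ) :
    ModularForm.discriminant τ = 𝕢 1 τ * etaDisc (𝕢 1 τ) ^ 24 := by
  rw [ModularForm.discriminant_eq_q_prod, etaDisc]
  congr 1
  exact (ModularForm.multipliable_one_sub_pow (norm_qParam_lt_one' τ)).tprod_pow 24

end Fermat.Agent.S24

end
end ZBS24_002_1

/-! ### bundled: `Fermat.Agent.S28.DerivBridge` -/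
section ZBS24_002_2

/-!
# S28 — the `q`-expansion of the derivative: `qExp (D f) = θ (qExp f)`

`D = (2πi)⁻¹ d/dτ` (`Derivative.normalizedDerivOfComplex`), `θ = q d/dq`.

* `D_ofDisc` : `D (g ∘ q) = (q ↦ q · g'(q)) ∘ q` for `g` holomorphic on the unit disc.
* `isHPB_D` : `D` preserves holomorphic, `1`-periodic functions bounded at `i∞`.
* `qExpansion_D_coeff` : `(qExpansion 1 (D f)).coeff n = n * (qExpansion 1 f).coeff n`.
-/

set_option autoImplicit false

noncomputable section

namespace Fermat.Agent.S28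

open UpperHalfPlane ModularForm Filter Function Derivative
open Fermat.Agent.S23 Fermat.Agent.S24
open scoped Manifold Topology

local notation "𝕢" => Function.Periodic.qParam

/-- derivative of `q = exp(2πiz)`. -/
theorem hasDerivAt_qParam_one (z : ℂ) :
    HasDerivAt (𝕢 1) (2 * Real.pi * Complex.I * 𝕢 1 z) z := by
  have h1 : HasDerivAt (fun w : ℂ => 2 * Real.pi * Complex.I * w / ((1 : ℝ) : ℂ))
      (2 * Real.pi * Complex.I) z := by
    have := (hasDerivAt_id z).const_mul (2 * Real.pi * Complex.I)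
    simpa using this
  have h2 := h1.cexp
  have e : (𝕢 1) = fun w : ℂ => Complex.exp (2 * Real.pi * Complex.I * w / ((1 : ℝ) : ℂ)) := by
    funext w
    rfl
  rw [e]
  refine h2.congr_deriv ?_
  simp only []
  ring

/-- The cusp function of a holomorphic periodic bounded function is holomorphic on the disc. -/
theorem isHPB_differentiableOn_cuspFunction {f : ℍ → ℂ} (hf : IsHPB f) :
    DifferentiableOn ℂ (cuspFunction 1 f) (Metric.ball 0 1) := by
  intro q hq
  have hq' : ‖q‖ < 1 := by simpa using hq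
  exact (differentiableAt_cuspFunction one_pos hf.2.1 hf.1 hf.2.2 hq').differentiableWithinAt

theorem isHPB_eq_ofDisc {f : ℍ → ℂ} (hf : IsHPB f) : f = ofDisc (cuspFunction 1 f) :=
  eq_ofDisc_cuspFunction hf.2.1

theorem isHPB_ofDisc {g : ℂ → ℂ} (hg : DifferentiableOn ℂ g (Metric.ball 0 1)) :
    IsHPB (ofDisc g) :=
  ⟨ofDisc_mdifferentiable hg, ofDisc_periodic g,
    ofDisc_isBoundedAtImInfty (continuousAt_zero_of_differentiableOn hg)⟩

/-- `D (g ∘ q) = (q · g') ∘ q`. -/
theorem D_ofDisc {g : ℂ → ℂ} (hg : DifferentiableOn ℂ g (Metric.ball 0 1)) :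
    D (ofDisc g) = ofDisc (fun q => q * deriv g q) := by
  funext τ
  have hτ : 0 < (τ : ℂ).im := τ.im_pos
  have hopen : IsOpen {z : ℂ | 0 < z.im} := isOpen_lt continuous_const Complex.continuous_im
  have hev : (ofDisc g ∘ ofComplex) =ᶠ[𝓝 (τ : ℂ)] (g ∘ 𝕢 1) := by
    filter_upwards [hopen.mem_nhds hτ] with w hw
    have hw' : 0 < w.im := hw
    simp only [Function.comp_apply, ofComplex_apply_of_im_pos hw', ofDisc_apply]
  have hq : 𝕢 1 (τ : ℂ) ∈ Metric.ball (0 : ℂ) 1 := qParam_mem_ball τ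
  have hgd : HasDerivAt g (deriv g (𝕢 1 (τ : ℂ))) (𝕢 1 (τ : ℂ)) :=
    (hg.differentiableAt (Metric.isOpen_ball.mem_nhds hq)).hasDerivAt
  have hcomp : HasDerivAt (g ∘ 𝕢 1)
      (deriv g (𝕢 1 (τ : ℂ)) * (2 * Real.pi * Complex.I * 𝕢 1 (τ : ℂ))) (τ : ℂ) :=
    hgd.comp (τ : ℂ) (hasDerivAt_qParam_one (τ : ℂ))
  have hderiv : deriv (ofDisc g ∘ ofComplex) (τ : ℂ) =
      deriv g (𝕢 1 (τ : ℂ)) * (2 * Real.pi * Complex.I * 𝕢 1 (τ : ℂ)) := by
    rw [hev.deriv_eq]
    exact hcomp.deriv
  have hpi : (2 * (Real.pi : ℂ) * Complex.I) ≠ 0 := by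
    simp [Real.pi_ne_zero, Complex.I_ne_zero]
  simp only [normalizedDerivOfComplex, ofDisc_apply]
  rw [hderiv]
  field_simp

theorem differentiableOn_mul_deriv {g : ℂ → ℂ} (hg : DifferentiableOn ℂ g (Metric.ball 0 1)) :
    DifferentiableOn ℂ (fun q => q * deriv g q) (Metric.ball 0 1) :=
  differentiableOn_id.mul (hg.deriv Metric.isOpen_ball)

/-- `D` preserves holomorphic `1`-periodic functions bounded at `i∞`. -/
theorem isHPB_D {f : ℍ → ℂ} (hf : IsHPB f) : IsHPB (D f) := by
  have hg := isHPB_differentiableOn_cuspFunction hf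
  have e : D f = ofDisc (fun q => q * deriv (cuspFunction 1 f) q) := by
    conv_lhs => rw [isHPB_eq_ofDisc hf]
    exact D_ofDisc hg
  rw [e]
  exact isHPB_ofDisc (differentiableOn_mul_deriv hg)

/-- Taylor coefficients of `q · g'(q)`. -/
theorem iteratedDeriv_mul_deriv {g : ℂ → ℂ} (hg : DifferentiableOn ℂ g (Metric.ball 0 1))
    (m : ℕ) :
    iteratedDeriv m (fun q => q * deriv g q) 0 = m * iteratedDeriv m g 0 := by
  have hball : Metric.ball (0 : ℂ) 1 ∈ 𝓝 (0 : ℂ) := Metric.ball_mem_nhds 0 one_pos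
  have hga : AnalyticAt ℂ g 0 := analyticAt_of_differentiableOn_ball hg
  have hda : AnalyticAt ℂ (deriv g) 0 := hga.deriv
  have h1 : ContDiffAt ℂ m (fun q : ℂ => q) 0 := contDiffAt_id
  have h2 : ContDiffAt ℂ m (deriv g) 0 := hda.contDiffAt
  have e : (fun q => q * deriv g q) = (fun q : ℂ => q) * deriv g := rfl
  rw [e, iteratedDeriv_mul h1 h2]
  rcases m with _ | m
  · simp [iteratedDeriv_fun_id_zero]
  · rw [Finset.sum_eq_single 1]
    · rw [iteratedDeriv_fun_id_zero, if_pos rfl, Nat.choose_one_right, mul_one,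
        Nat.add_sub_cancel, ← iteratedDeriv_succ']
    · intro i _ hi
      rw [iteratedDeriv_fun_id_zero, if_neg hi, mul_zero, zero_mul]
    · intro h
      exact absurd (Finset.mem_range.mpr (by omega)) h

/-- **`q`-expansion of the derivative.** -/
theorem qExpansion_D_coeff {f : ℍ → ℂ} (hf : IsHPB f) (n : ℕ) :
    (qExpansion (1 : ℝ) (D f)).coeff n = n * (qExpansion (1 : ℝ) f).coeff n := by
  have hg := isHPB_differentiableOn_cuspFunction hf
  have e : D f = ofDisc (fun q => q * deriv (cuspFunction 1 f) q) := by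
    conv_lhs => rw [isHPB_eq_ofDisc hf]
    exact D_ofDisc hg
  have e2 : (qExpansion (1 : ℝ) f).coeff n =
      (↑n.factorial)⁻¹ * iteratedDeriv n (cuspFunction 1 f) 0 := by
    conv_lhs => rw [isHPB_eq_ofDisc hf]
    exact qExpansion_ofDisc_coeff hg n
  rw [e, qExpansion_ofDisc_coeff (differentiableOn_mul_deriv hg), iteratedDeriv_mul_deriv hg, e2]
  ring

end Fermat.Agent.S28

end
end ZBS24_002_2

/-! ### bundled: `Fermat.Agent.INJ.HMTables` -/
section ZBS24_002_3

/-!
# INJ / B-I3 — coefficient tables for the prelude's formal series `eisenstein4`, `etaProd`,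
`dedekindEtaUnit`, in the list calculus of `HMList`.
-/

set_option autoImplicit false

namespace Fermat.Agent.INJ.HM

open PowerSeries Filter Topology Fermat.Agent.S24

/-- coefficient list of `1 - X^(k+1)`. -/
def hmFactor (n k : ℕ) : List ℤ :=
  (List.range n).map fun i => if i = 0 then 1 else if i = k + 1 then -1 else 0

/-- coefficient list of `∏_{j<k} (1 - X^(j+1))`. -/
def hmEta (n : ℕ) : ℕ → List ℤ
  | 0 => hmShift n 0 [1]
  | (k + 1) => hmMul n (hmEta n k) (hmFactor n k)

theorem hmTr_factor (n k : ℕ) :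
    HMTr n (1 - (X : PowerSeries ℤ) ^ (k + 1)) (hmFactor n k) := by
  intro i hi
  rw [hmFactor, hm_getD_map_range n _ hi, map_sub, coeff_one, coeff_X_pow]
  by_cases h0 : i = 0
  · subst h0; simp
  · by_cases h1 : i = k + 1
    · subst h1; simp
    · simp [h0, h1]

theorem hmTr_etaFin (n k : ℕ) :
    HMTr n (∏ j ∈ Finset.range k, (1 - (X : PowerSeries ℤ) ^ (j + 1))) (hmEta n k) := by
  induction k with
  | zero => simpa [hmEta] using HMTr.one n
  | succ k ih =>
    rw [Finset.prod_range_succ]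
    exact ih.mul (hmTr_factor n k)

theorem hm_coeff_etaPolyZ_succ {N m : ℕ} (h : m ≤ N) :
    (etaPolyZ (N + 1)).coeff m = (etaPolyZ N).coeff m := by
  have e : etaPolyZ (N + 1) = etaPolyZ N - etaPolyZ N * Polynomial.X ^ (N + 1) := by
    rw [etaPolyZ, Finset.prod_range_succ, ← etaPolyZ]; ring
  rw [e, Polynomial.coeff_sub, Polynomial.coeff_mul_X_pow', if_neg (by omega), sub_zero]

theorem hm_coeff_etaPolyZ_of_le {N m : ℕ} (h : m ≤ N) (M : ℕ) (hM : N ≤ M) :
    (etaPolyZ M).coeff m = (etaPolyZ N).coeff m := by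
  induction M, hM using Nat.le_induction with
  | base => rfl
  | succ M hM ih => rw [hm_coeff_etaPolyZ_succ (le_trans h hM), ih]

theorem hm_coeff_etaProd {N m : ℕ} (h : m ≤ N) :
    ModularCurve.etaProd.coeff m = (etaPolyZ N).coeff m := by
  have h1 := tendsto_coeff_etaPolyZ m
  have h2 : Tendsto (fun M : ℕ => (etaPolyZ M).coeff m) atTop (𝓝 ((etaPolyZ N).coeff m)) := by
    refine tendsto_atTop_of_eventually_const (i₀ := N) fun M hM => ?_
    exact hm_coeff_etaPolyZ_of_le h M hM
  exact tendsto_nhds_unique h1 h2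

theorem hmTr_etaProd (n : ℕ) : HMTr n ModularCurve.etaProd (hmEta n n) := by
  intro i hi
  have h1 : coeff i ModularCurve.etaProd = (etaPolyZ n).coeff i := hm_coeff_etaProd hi.le
  rw [h1, ← Polynomial.coeff_coe, etaPolyZ_toPowerSeries]
  exact hmTr_etaFin n n i hi

theorem hmTr_D (n : ℕ) : HMTr n ModularCurve.dedekindEtaUnit (hmPow n (hmEta n n) 24) :=
  (hmTr_etaProd n).pow 24

/-- `σ₃`-table entry, kernel-friendly. -/
def hmSigma3Aux (k : ℕ) : ℕ → ℤ
  | 0 => 0
  | (d + 1) => hmSigma3Aux k d + if k % (d + 1) = 0 then ((d + 1 : ℕ) : ℤ) ^ 3 else 0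

/-- coefficient list of `eisenstein4`. -/
def hmE4 (n : ℕ) : List ℤ :=
  (List.range n).map fun k => if k = 0 then 1 else 240 * hmSigma3Aux k k

theorem hmSigma3Aux_eq (k D : ℕ) :
    hmSigma3Aux k D = ∑ d ∈ (Finset.range (D + 1)).filter (fun d => d ≠ 0 ∧ d ∣ k), (d : ℤ) ^ 3 := by
  induction D with
  | zero =>
    rw [hmSigma3Aux]
    symm
    apply Finset.sum_eq_zero
    intro d hd
    simp only [Finset.mem_filter, Finset.mem_range] at hd
    omega
  | succ D ih =>
    rw [hmSigma3Aux, ih, Finset.range_add_one (n := D + 1), Finset.filter_insert]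
    by_cases h : k % (D + 1) = 0
    · have hdvd : (D + 1) ∣ k := Nat.dvd_of_mod_eq_zero h
      rw [if_pos h, if_pos ⟨Nat.succ_ne_zero D, hdvd⟩, Finset.sum_insert, add_comm]
      simp
    · have hdvd : ¬ (D + 1) ∣ k := fun h' => h (Nat.mod_eq_zero_of_dvd h')
      rw [if_neg h, if_neg (fun h' => hdvd h'.2), add_zero]

theorem hm_divisors_eq (k : ℕ) (hk : k ≠ 0) :
    k.divisors = (Finset.range (k + 1)).filter (fun d => d ≠ 0 ∧ d ∣ k) := by
  ext d
  simp only [Nat.mem_divisors, Finset.mem_filter, Finset.mem_range]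
  constructor
  · rintro ⟨h1, h2⟩
    refine ⟨?_, ?_, h1⟩
    · exact Nat.lt_succ_of_le (Nat.le_of_dvd (Nat.pos_of_ne_zero hk) h1)
    · rintro rfl
      exact hk (Nat.eq_zero_of_zero_dvd h1)
  · rintro ⟨-, -, h3⟩
    exact ⟨h3, hk⟩

theorem hmTr_E4 (n : ℕ) : HMTr n ModularCurve.eisenstein4 (hmE4 n) := by
  intro i hi
  rw [hmE4, hm_getD_map_range n _ hi, ModularCurve.eisenstein4, coeff_mk]
  by_cases h0 : i = 0
  · rw [if_pos h0, if_pos h0]
  · rw [if_neg h0, if_neg h0, hmSigma3Aux_eq, hm_divisors_eq i h0]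

end Fermat.Agent.INJ.HM


end ZBS24_002_3
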