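/- GENERATED FILE (helper35, build-time optimisation, NOTES/ZB.md): verbatim concatenation of the modules
   Fermat.Agent.S22.Defs
   Fermat.Agent.S22.Moebius
   Fermat.Agent.S22.UpperTri
   Fermat.Agent.S22.Primitive
   Fermat.Agent.S22.KernelAlg
   Fermat.Agent.S22.KernelInt
   Fermat.Agent.S22.Vanish
   Fermat.Agent.S22.KernelDeriv
   Fermat.Agent.S22.Period
   Fermat.Agent.S22.Hecke
   Fermat.Agent.S22.FromIntegral
   Fermat.Agent.S22.Final
   Do not edit; do not import together with these modules. -/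
import Mathlib
import Fermat.Prelude.Def_CuspForm_HeckeAlgebra
import Fermat.Agent.ZB.S22_003
import Fermat.Agent.ZB.S22_002
import Fermat.Prelude.Def_CuspForm_IntegralStructure
import Fermat.Prelude.Thm_CuspForm_mem_intLattice_of_mem_heckeAlgebra
import Fermat.Prelude.Thm_CuspForm_intLattice_fg
import Fermat.Agent.ZB.S22_004

/-! ### bundled: `Fermat.Agent.S22.Defs` -/
section ZBS22_001_0

/-!
# S22: shared definitions (Eichler kernel route)

See `NOTES/S22.md`.  All declarations live in `Fermat.Agent.S22`.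
-/

set_option autoImplicit false

namespace Fermat.Agent.S22

open UpperHalfPlane Filter Topology
open scoped MatrixGroups ModularForm

/-- `G` is a holomorphic primitive of `g` on `ℍ`. -/
def HasDerivH (G g : ℍ → ℂ) : Prop :=
  ∀ τ : ℍ, HasDerivAt (G ∘ ofComplex) (g τ) (τ : ℂ)

/-- A chain of iterated primitives `G 0 = g, G 1, G 2, …` with `(G (i+1))' = G i`,
all `G (i+1)` vanishing at `i∞`. -/
structure IsChain (G : ℕ → ℍ → ℂ) : Prop where
  hasDeriv : ∀ i, HasDerivH (G (i + 1)) (G i)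
  zero : ∀ i, IsZeroAtImInfty (G (i + 1))

/-- The Eichler kernel of depth `m` attached to a chain `G`:
`ker G m τ x y = ∑_{i ≤ m} m!/(m-i)! * G (i+1) τ * (x - τ y)^(m-i) * y^i`
(morally `∫_{i∞}^τ g(z) (x - z y)^m dz`). -/
noncomputable def ker (G : ℕ → ℍ → ℂ) : ℕ → ℍ → ℂ → ℂ → ℂ
  | 0, τ, _, _ => G 1 τ
  | (m + 1), τ, x, y =>
      G 1 τ * (x - τ * y) ^ (m + 1) + (m + 1) * y * ker (fun i => G (i + 1)) m τ x y

@[simp] theorem ker_zero (G : ℕ → ℍ → ℂ) (τ : ℍ) (x y : ℂ) : ker G 0 τ x y = G 1 τ := rfl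

theorem ker_succ (G : ℕ → ℍ → ℂ) (m : ℕ) (τ : ℍ) (x y : ℂ) :
    ker G (m + 1) τ x y =
      G 1 τ * (x - τ * y) ^ (m + 1) + (m + 1) * y * ker (fun i => G (i + 1)) m τ x y := rfl

end Fermat.Agent.S22


end ZBS22_001_0

/-! ### bundled: `Fermat.Agent.S22.Moebius` -/
section ZBS22_001_1

/-!
# S22, piece P3: calculus of `HasDerivH` (primitives on the upper half-plane) and the
Möbius chain rule.  (helper21)
-/

set_option autoImplicit false

namespace Fermat.Agent.S22

open UpperHalfPlane Filter Topology CongruenceSubgroup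
open scoped MatrixGroups ModularForm Manifold

theorem HasDerivH.comp_smul {G g : ℍ → ℂ} (h : HasDerivH G g) (M : GL (Fin 2) ℝ)
    (hM : 0 < M.det.val) :
    HasDerivH (fun τ => G (M • τ))
      (fun τ => g (M • τ) * ((M.det.val : ℝ) : ℂ) / (denom M τ) ^ 2) := fun τ => by
  have hdet : M.det.val = M.val.det := Matrix.GeneralLinearGroup.val_det_apply M
  have hM' : 0 < M.val.det := hdet ▸ hM
  have h_smul : HasDerivAt (fun w ↦ ↑(M • ofComplex w) : ℂ → ℂ)
      ((M.val.det : ℂ) / denom M τ ^ 2) ↑τ := (hasStrictDerivAt_smul hM' τ).hasDerivAt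
  have h_F : HasDerivAt (G ∘ ofComplex) (g (M • τ))
      ((fun w ↦ ↑(M • ofComplex w) : ℂ → ℂ) ↑τ) := by
    simpa using h (M • τ)
  have := h_F.comp (τ : ℂ) h_smul
  have e : g (M • τ) * ((M.det.val : ℝ) : ℂ) / (denom M τ) ^ 2
      = g (M • τ) * ((M.val.det : ℂ) / denom M τ ^ 2) := by
    rw [hdet, mul_div_assoc]
  show HasDerivAt _ (g (M • τ) * ((M.det.val : ℝ) : ℂ) / (denom M τ) ^ 2) _
  rw [e]
  refine this.congr_of_eventuallyEq ?_
  filter_upwards with w
  simp [Function.comp]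

theorem hasDerivH_coe : HasDerivH (fun τ : ℍ => (τ : ℂ)) (fun _ => 1) := fun τ => by
  have h1 : HasDerivAt (fun z : ℂ => z) 1 (τ : ℂ) := hasDerivAt_id _
  refine h1.congr_of_eventuallyEq ?_
  filter_upwards [isOpen_upperHalfPlaneSet.mem_nhds τ.im_pos] with w hw
  simp [Function.comp, ofComplex_apply_of_im_pos hw]

theorem hasDerivH_const (c : ℂ) : HasDerivH (fun _ : ℍ => c) (fun _ => 0) := fun τ => by
  have : HasDerivAt (fun _ : ℂ => c) 0 (τ : ℂ) := hasDerivAt_const _ _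
  exact this

theorem HasDerivH.add {F f G g : ℍ → ℂ} (hF : HasDerivH F f) (hG : HasDerivH G g) :
    HasDerivH (fun τ => F τ + G τ) (fun τ => f τ + g τ) := fun τ => by
  have := (hF τ).add (hG τ)
  exact this

theorem HasDerivH.sub {F f G g : ℍ → ℂ} (hF : HasDerivH F f) (hG : HasDerivH G g) :
    HasDerivH (fun τ => F τ - G τ) (fun τ => f τ - g τ) := fun τ => by
  have := (hF τ).sub (hG τ)
  exact this

theorem HasDerivH.mul {F f G g : ℍ → ℂ} (hF : HasDerivH F f) (hG : HasDerivH G g) :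
    HasDerivH (fun τ => F τ * G τ) (fun τ => f τ * G τ + F τ * g τ) := fun τ => by
  have := (hF τ).mul (hG τ)
  simp only [Function.comp_apply, ofComplex_apply] at this
  exact this

theorem HasDerivH.const_mul {F f : ℍ → ℂ} (c : ℂ) (hF : HasDerivH F f) :
    HasDerivH (fun τ => c * F τ) (fun τ => c * f τ) := fun τ => by
  have := (hF τ).const_mul c
  exact this

theorem HasDerivH.pow {F f : ℍ → ℂ} (hF : HasDerivH F f) (n : ℕ) :
    HasDerivH (fun τ => F τ ^ (n + 1)) (fun τ => (n + 1) * F τ ^ n * f τ) := fun τ => by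
  have := (hF τ).pow (n + 1)
  have e : ((n + 1 : ℕ) : ℂ) * (F ∘ ofComplex) (τ : ℂ) ^ (n + 1 - 1) * f τ
      = (n + 1) * F τ ^ n * f τ := by
    simp
  rw [e] at this
  exact this

theorem HasDerivH.differentiableOn {F f : ℍ → ℂ} (hF : HasDerivH F f) :
    DifferentiableOn ℂ (F ∘ ofComplex) upperHalfPlaneSet := fun z hz => by
  have := hF ⟨z, hz⟩
  exact this.differentiableAt.differentiableWithinAt

theorem HasDerivH.mdifferentiable {F f : ℍ → ℂ} (hF : HasDerivH F f) : MDiff F :=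
  UpperHalfPlane.mdifferentiable_iff.mpr hF.differentiableOn

theorem HasDerivH.continuous {F f : ℍ → ℂ} (hF : HasDerivH F f) : Continuous F :=
  hF.mdifferentiable.continuous

theorem HasDerivH.neg {F f : ℍ → ℂ} (hF : HasDerivH F f) :
    HasDerivH (fun τ => -F τ) (fun τ => -f τ) := fun τ => by
  have := (hF τ).neg
  exact this

theorem HasDerivH.congr {F f g : ℍ → ℂ} (hF : HasDerivH F f) (h : ∀ τ, f τ = g τ) :
    HasDerivH F g := fun τ => h τ ▸ hF τ

/-- Chain rule for the action of `SL(2, ℤ)` on `ℍ`: if `F' = f` then `(F ∘ γ)' = f ∣[2] γ`. -/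
theorem HasDerivH.comp_smul_SL {F f : ℍ → ℂ} (hF : HasDerivH F f) (γ : SL(2, ℤ)) :
    HasDerivH (fun w => F (γ • w)) (f ∣[(2 : ℤ)] γ) := by
  have hdet : (γ : GL (Fin 2) ℝ).det.val = 1 := by simp
  have h := hF.comp_smul (γ : GL (Fin 2) ℝ) (by rw [hdet]; exact one_pos)
  refine h.congr (fun τ => ?_)
  rw [ModularForm.SL_slash_apply, hdet]
  simp only [Complex.ofReal_one, mul_one]
  rw [zpow_neg, div_eq_mul_inv]
  rfl

end Fermat.Agent.S22


end ZBS22_001_1

/-! ### bundled: `Fermat.Agent.S22.UpperTri` -/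
section ZBS22_001_2

/-!
# S22, piece P9: upper triangular matrices  (helper6)

Formulas for `ModularForm.upperTriangularGL a b d` (`a, d > 0`): action on `ℍ`, slash action,
transport of chains of primitives, and the Hecke matrices as instances.
-/

set_option autoImplicit false

namespace Fermat.Agent.S22

open UpperHalfPlane Filter Topology CongruenceSubgroup
open scoped MatrixGroups ModularForm Manifold

theorem det_upperTriangularGL (a b d : ℝ) (had : a * d ≠ 0) :
    ((ModularForm.upperTriangularGL a b d had).det : ℝ) = a * d := by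
  rw [Matrix.GeneralLinearGroup.val_det_apply, ModularForm.val_upperTriangularGL,
    Matrix.det_fin_two_of]
  ring

theorem det_upperTriangularGL_pos (a b d : ℝ) (ha : 0 < a) (hd : 0 < d) :
    0 < ((ModularForm.upperTriangularGL a b d (mul_pos ha hd).ne').det : ℝ) := by
  rw [det_upperTriangularGL]; exact mul_pos ha hd

theorem denom_upperTriangularGL (a b d : ℝ) (had : a * d ≠ 0) (τ : ℍ) :
    denom (ModularForm.upperTriangularGL a b d had) τ = d := by
  simp [UpperHalfPlane.denom, ModularForm.val_upperTriangularGL]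

theorem num_upperTriangularGL (a b d : ℝ) (had : a * d ≠ 0) (τ : ℍ) :
    num (ModularForm.upperTriangularGL a b d had) τ = a * τ + b := by
  simp [UpperHalfPlane.num, ModularForm.val_upperTriangularGL]

theorem σ_upperTriangularGL (a b d : ℝ) (ha : 0 < a) (hd : 0 < d) :
    UpperHalfPlane.σ (ModularForm.upperTriangularGL a b d (mul_pos ha hd).ne') = .refl ℝ ℂ := by
  rw [UpperHalfPlane.σ, if_pos (det_upperTriangularGL_pos a b d ha hd)]

theorem coe_upperTriangularGL_smul (a b d : ℝ) (ha : 0 < a) (hd : 0 < d) (τ : ℍ) :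
    ((ModularForm.upperTriangularGL a b d (mul_pos ha hd).ne' • τ : ℍ) : ℂ) = (a * τ + b) / d := by
  rw [UpperHalfPlane.coe_smul_of_det_pos (det_upperTriangularGL_pos a b d ha hd),
    num_upperTriangularGL, denom_upperTriangularGL]

theorem im_upperTriangularGL_smul (a b d : ℝ) (ha : 0 < a) (hd : 0 < d) (τ : ℍ) :
    (ModularForm.upperTriangularGL a b d (mul_pos ha hd).ne' • τ : ℍ).im = a / d * τ.im := by
  have h := coe_upperTriangularGL_smul a b d ha hd τ
  have h2 : ((ModularForm.upperTriangularGL a b d (mul_pos ha hd).ne' • τ : ℍ) : ℂ).im =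
      (((a : ℂ) * τ + b) / d).im := by rw [h]
  rw [UpperHalfPlane.coe_im] at h2
  rw [h2]
  have hd' : (d : ℂ) ≠ 0 := by exact_mod_cast hd.ne'
  have : ((a : ℂ) * τ + b) / d = ((a / d : ℝ) : ℂ) * τ + ((b / d : ℝ) : ℂ) := by
    push_cast; field_simp
  rw [this]
  simp [Complex.add_im, Complex.mul_im]

theorem slash_upperTriangularGL (k : ℤ) (a b d : ℝ) (ha : 0 < a) (hd : 0 < d) (f : ℍ → ℂ)
    (τ : ℍ) :
    (f ∣[k] ModularForm.upperTriangularGL a b d (mul_pos ha hd).ne') τ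
      = (a : ℂ) ^ (k - 1) * (d : ℂ)⁻¹ *
          f (ModularForm.upperTriangularGL a b d (mul_pos ha hd).ne' • τ) := by
  have ha' : (a : ℂ) ≠ 0 := by exact_mod_cast ha.ne'
  have hd' : (d : ℂ) ≠ 0 := by exact_mod_cast hd.ne'
  rw [ModularForm.slash_apply, σ_upperTriangularGL a b d ha hd, det_upperTriangularGL,
    denom_upperTriangularGL]
  simp only [ContinuousAlgEquiv.refl_apply]
  rw [abs_of_pos (mul_pos ha hd)]
  push_cast
  have hdd : (d : ℂ) ^ (k - 1) * (d : ℂ) ^ (-k) = (d : ℂ)⁻¹ := by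
    rw [← zpow_add₀ hd', show k - 1 + -k = -1 by ring, zpow_neg_one]
  rw [mul_zpow]
  calc f (ModularForm.upperTriangularGL a b d (mul_pos ha hd).ne' • τ) *
        ((a : ℂ) ^ (k - 1) * (d : ℂ) ^ (k - 1)) * (d : ℂ) ^ (-k)
      = (a : ℂ) ^ (k - 1) * ((d : ℂ) ^ (k - 1) * (d : ℂ) ^ (-k)) *
          f (ModularForm.upperTriangularGL a b d (mul_pos ha hd).ne' • τ) := by ring
    _ = _ := by rw [hdd]

/-- transport of a chain along an upper triangular matrix: this is the chain of `G 0 ∣[k] u`. -/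
theorem IsChain.upper {G : ℕ → ℍ → ℂ} (hG : IsChain G) (k : ℤ) (a b d : ℝ) (ha : 0 < a)
    (hd : 0 < d) :
    IsChain (fun i τ => (a : ℂ) ^ (k - 1) * (d : ℂ)⁻¹ * ((d : ℂ) / a) ^ i *
      G i (ModularForm.upperTriangularGL a b d (mul_pos ha hd).ne' • τ)) where
  hasDeriv i := by
    have ha' : (a : ℂ) ≠ 0 := by exact_mod_cast ha.ne'
    have hd' : (d : ℂ) ≠ 0 := by exact_mod_cast hd.ne'
    have h1 := (hG.hasDeriv i).comp_smul (ModularForm.upperTriangularGL a b d (mul_pos ha hd).ne')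
      (det_upperTriangularGL_pos a b d ha hd)
    have h2 := h1.const_mul ((a : ℂ) ^ (k - 1) * (d : ℂ)⁻¹ * ((d : ℂ) / a) ^ (i + 1))
    refine h2.congr (fun τ => ?_)
    rw [det_upperTriangularGL, denom_upperTriangularGL]
    push_cast
    rw [pow_succ]
    field_simp
  zero i := by
    have h0 : IsZeroAtImInfty (G (i + 1)) := hG.zero i
    have hmap : Tendsto (fun τ : ℍ => ModularForm.upperTriangularGL a b d (mul_pos ha hd).ne' • τ)
        atImInfty atImInfty := by
      rw [atImInfty, tendsto_comap_iff]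
      have : (UpperHalfPlane.im ∘ fun τ : ℍ =>
          ModularForm.upperTriangularGL a b d (mul_pos ha hd).ne' • τ)
          = fun τ : ℍ => a / d * τ.im := by
        funext τ
        exact im_upperTriangularGL_smul a b d ha hd τ
      rw [this]
      exact (tendsto_comap).const_mul_atTop (div_pos ha hd)
    have h1 : Tendsto (fun τ : ℍ =>
        G (i + 1) (ModularForm.upperTriangularGL a b d (mul_pos ha hd).ne' • τ))
        atImInfty (𝓝 0) := h0.comp hmap
    have h2 := h1.const_mul ((a : ℂ) ^ (k - 1) * (d : ℂ)⁻¹ * ((d : ℂ) / a) ^ (i + 1))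
    rw [mul_zero] at h2
    exact h2

theorem heckeMatrix_eq_upperTriangularGL {p : ℕ} (hp : 0 < p) (j : ℕ) :
    ModularForm.heckeMatrix p j =
      ModularForm.upperTriangularGL 1 j p (mul_pos one_pos (Nat.cast_pos.mpr hp)).ne' := by
  rw [ModularForm.heckeMatrix, dif_neg hp.ne']

theorem heckeDiagMatrix_eq_upperTriangularGL {p : ℕ} (hp : 0 < p) :
    ModularForm.heckeDiagMatrix p =
      ModularForm.upperTriangularGL p 0 1 (mul_pos (Nat.cast_pos.mpr hp) one_pos).ne' := by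
  rw [ModularForm.heckeDiagMatrix, dif_neg hp.ne']

end Fermat.Agent.S22


end ZBS22_001_2

/-! ### bundled: `Fermat.Agent.S22.Primitive` -/
section ZBS22_001_3

/-!
# S22, pieces P1+P2: primitives in the class {holomorphic, `h`-periodic, zero at `i∞`}

Main declarations (all in namespace `Fermat.Agent.S22`):

* `CuspClass h g` : `g : ℍ → ℂ` is holomorphic, `h`-periodic and zero at `i∞`.
* `CuspClass.exists_primitive` : existence of a primitive in the same class.
* `CuspClass.exists_isChain` : existence of a chain of primitives.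
* `exists_isChain_of_cuspForm` : chains exist for cusp forms on arithmetic subgroups.
* `HasDerivH.eq_of_deriv_zero`, `IsChain.eq_of_zero_eq` : uniqueness.
* `IsChain.add`, `IsChain.const_smul`, `IsChain.sum`, `IsChain.shift`.
-/

set_option autoImplicit false

open Complex Filter Function Metric Set
open UpperHalfPlane hiding I
open scoped Real Topology Manifold MatrixGroups ModularForm

noncomputable section

namespace Fermat.Agent.S22

/-- The class of functions on `ℍ` which are holomorphic, `h`-periodic and zero at `i∞`. -/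
structure CuspClass (h : ℝ) (g : ℍ → ℂ) : Prop where
  holo : MDiff g
  periodic : Function.Periodic (g ∘ ofComplex) h
  zero : IsZeroAtImInfty g

theorem HasDerivH.mdiff_aux {G g : ℍ → ℂ} (hG : HasDerivH G g) : MDiff G :=
  fun τ => UpperHalfPlane.mdifferentiableAt_iff.mpr (hG τ).differentiableAt

/-- Auxiliary: the function `τ ↦ Ψ (qParam h τ)` on `ℍ`. -/
def compQ (h : ℝ) (Ψ : ℂ → ℂ) (τ : ℍ) : ℂ := Ψ (Function.Periodic.qParam h τ)

theorem compQ_comp_ofComplex_eventuallyEq (h : ℝ) (Ψ : ℂ → ℂ) (τ : ℍ) :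
    (compQ h Ψ ∘ ofComplex) =ᶠ[𝓝 (τ : ℂ)] fun z => Ψ (Function.Periodic.qParam h z) := by
  filter_upwards [isOpen_upperHalfPlaneSet.mem_nhds τ.im_pos] with z hz
  simp only [Function.comp_apply, compQ]
  rw [ofComplex_apply_of_im_pos hz]

theorem periodic_compQ (h : ℝ) (hh : h ≠ 0) (Ψ : ℂ → ℂ) :
    Function.Periodic (compQ h Ψ ∘ ofComplex) h := by
  intro w
  by_cases hw : 0 < im w
  · have hw' : 0 < im (w + h) := by simpa using hw
    simp only [Function.comp_apply, compQ]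
    rw [ofComplex_apply_of_im_pos hw, ofComplex_apply_of_im_pos hw']
    congr 1
    simp only [Function.Periodic.qParam]
    rw [mul_add, add_div, Complex.exp_add]
    have hh' : (h : ℂ) ≠ 0 := by exact_mod_cast hh
    have : (2 * (π : ℂ) * I * (h : ℂ) / (h : ℂ)) = 2 * π * I := by
      field_simp
    rw [this, Complex.exp_two_pi_mul_I, mul_one]
  · have hw1 : im w ≤ 0 := not_lt.mp hw
    have hw' : im (w + h) ≤ 0 := by simpa using hw1
    simp only [Function.comp_apply]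
    rw [ofComplex_apply_eq_of_im_nonpos hw' hw1]

theorem hasDerivAt_compQ {h : ℝ} {Ψ : ℂ → ℂ} {ψ : ℂ → ℂ}
    (hΨ : ∀ q ∈ ball (0 : ℂ) 1, HasDerivAt Ψ (ψ q) q) (hh : 0 < h) (τ : ℍ) :
    HasDerivAt (compQ h Ψ ∘ ofComplex)
      (ψ (Function.Periodic.qParam h τ) * (Function.Periodic.qParam h τ * (2 * π * I / h)))
      (τ : ℂ) := by
  have hq : Function.Periodic.qParam h (τ : ℂ) ∈ ball (0 : ℂ) 1 := by
    rw [mem_ball_zero_iff]
    exact Function.Periodic.norm_qParam_lt_one hh τ.im_pos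
  have qdiff : HasDerivAt (Function.Periodic.qParam h)
      (Function.Periodic.qParam h τ * (2 * π * I / h)) (τ : ℂ) := by
    simpa only [id_eq, mul_one] using! (((hasDerivAt_id (τ : ℂ)).const_mul _).div_const _).cexp
  have := (hΨ _ hq).comp (τ : ℂ) qdiff
  exact this.congr_of_eventuallyEq (compQ_comp_ofComplex_eventuallyEq h Ψ τ)

theorem isZeroAtImInfty_compQ {h : ℝ} (hh : 0 < h) {Ψ : ℂ → ℂ} (hΨ : ContinuousAt Ψ 0)
    (h0 : Ψ 0 = 0) : IsZeroAtImInfty (compQ h Ψ) := by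
  have h1 : Tendsto (fun τ : ℍ => Function.Periodic.qParam h τ) atImInfty (𝓝 0) :=
    UpperHalfPlane.qParam_tendsto_atImInfty hh
  have h2 : Tendsto Ψ (𝓝 0) (𝓝 0) := by simpa [h0] using hΨ.tendsto
  exact h2.comp h1

/-- **P1 (existence).** A function in the cusp class has a primitive in the cusp class. -/
theorem CuspClass.exists_primitive {h : ℝ} (hh : 0 < h) {g : ℍ → ℂ} (hg : CuspClass h g) :
    ∃ G : ℍ → ℂ, CuspClass h G ∧ HasDerivH G g := by
  set φ : ℂ → ℂ := cuspFunction h g with hφ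
  have hφd : DifferentiableOn ℂ φ (ball 0 1) :=
    differentiableOn_cuspFunction_ball hh hg.periodic hg.holo hg.zero.isBoundedAtImInfty
  have hφ0 : φ 0 = 0 := hg.zero.cuspFunction_apply_zero hh
  have hball : ball (0 : ℂ) 1 ∈ 𝓝 (0 : ℂ) := ball_mem_nhds 0 one_pos
  have hψd : DifferentiableOn ℂ (dslope φ 0) (ball 0 1) :=
    (Complex.differentiableOn_dslope hball).mpr hφd
  obtain ⟨Ψ, hΨ0, hΨ⟩ := (hψd.isExactOn_ball).with_val_at 0 0
  have hΨc : ContinuousAt Ψ 0 := (hΨ 0 (mem_ball_self one_pos)).continuousAt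
  have hc : (h : ℂ) ≠ 0 := by exact_mod_cast hh.ne'
  have hder : ∀ τ : ℍ, HasDerivAt (compQ h (fun q => (h / (2 * π * I)) * Ψ q) ∘ ofComplex)
      (g τ) (τ : ℂ) := by
    intro τ
    have hΨ' : ∀ q ∈ ball (0 : ℂ) 1,
        HasDerivAt (fun q => (h / (2 * π * I)) * Ψ q) ((h / (2 * π * I)) * dslope φ 0 q) q :=
      fun q hq => (hΨ q hq).const_mul _
    have := hasDerivAt_compQ hΨ' hh τ
    convert this using 1
    have hq0 : Function.Periodic.qParam h (τ : ℂ) ≠ 0 := Function.Periodic.qParam_ne_zero _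
    rw [dslope_of_ne _ hq0, slope_def_field, hφ0, sub_zero, sub_zero]
    have : φ (Function.Periodic.qParam h τ) = g τ :=
      eq_cuspFunction τ hh.ne' hg.periodic
    rw [this]
    field_simp
  refine ⟨compQ h (fun q => (h / (2 * π * I)) * Ψ q), ⟨?_, ?_, ?_⟩, hder⟩
  · exact HasDerivH.mdiff_aux hder
  · exact periodic_compQ h hh.ne' _
  · refine isZeroAtImInfty_compQ hh (continuousAt_const.mul hΨc) ?_
    simp [hΨ0]

/-- Constancy of a function with zero derivative on `ℍ`. -/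
theorem HasDerivH.eq_of_deriv_zero {F : ℍ → ℂ} (h : HasDerivH F 0) (τ τ' : ℍ) : F τ = F τ' := by
  have hopen : IsOpen {z : ℂ | 0 < z.im} := isOpen_upperHalfPlaneSet
  have hconn : IsPreconnected {z : ℂ | 0 < z.im} := (convex_halfSpace_im_gt 0).isPreconnected
  have hd : DifferentiableOn ℂ (F ∘ ofComplex) {z : ℂ | 0 < z.im} := fun z hz =>
    ((h ⟨z, hz⟩).differentiableAt).differentiableWithinAt
  have hd' : Set.EqOn (deriv (F ∘ ofComplex)) 0 {z : ℂ | 0 < z.im} := fun z hz =>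
    (h ⟨z, hz⟩).deriv
  have := hopen.is_const_of_deriv_eq_zero hconn hd hd' (x := (τ : ℂ)) (y := (τ' : ℂ))
    τ.im_pos τ'.im_pos
  simpa using this

theorem HasDerivH.sub_aux {F f G g : ℍ → ℂ} (hF : HasDerivH F f) (hG : HasDerivH G g) :
    HasDerivH (F - G) (f - g) := fun τ => by
  have := (hF τ).sub (hG τ)
  exact this

theorem HasDerivH.add_aux {F f G g : ℍ → ℂ} (hF : HasDerivH F f) (hG : HasDerivH G g) :
    HasDerivH (F + G) (f + g) := fun τ => by
  have := (hF τ).add (hG τ)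
  exact this

theorem HasDerivH.const_smul_aux {F f : ℍ → ℂ} (hF : HasDerivH F f) (c : ℂ) :
    HasDerivH (c • F) (c • f) := fun τ => by
  have := (hF τ).const_smul c
  exact this

/-- **P2 (uniqueness).** Two primitives of the same function which both vanish at `i∞`
are equal. -/
theorem HasDerivH.unique {G₁ G₂ g : ℍ → ℂ} (h₁ : HasDerivH G₁ g) (h₂ : HasDerivH G₂ g)
    (z₁ : IsZeroAtImInfty G₁) (z₂ : IsZeroAtImInfty G₂) : G₁ = G₂ := by
  have hd : HasDerivH (G₁ - G₂) 0 := by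
    have := h₁.sub_aux h₂
    simpa using this
  have hz : Tendsto (G₁ - G₂) atImInfty (𝓝 0) := by
    have := Tendsto.sub z₁ z₂
    rw [sub_zero] at this
    exact this
  funext τ
  have hconst : (G₁ - G₂) = fun _ => (G₁ - G₂) τ := by
    funext τ'
    exact hd.eq_of_deriv_zero τ' τ
  rw [hconst] at hz
  have h0 : (G₁ - G₂) τ = 0 := tendsto_nhds_unique tendsto_const_nhds hz
  simpa [sub_eq_zero] using h0

theorem IsChain.eq_of_zero_eq {G G' : ℕ → ℍ → ℂ} (hG : IsChain G) (hG' : IsChain G')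
    (h : G 0 = G' 0) : G = G' := by
  funext i
  induction i with
  | zero => exact h
  | succ n ih =>
    have h1 := hG.hasDeriv n
    have h2 := hG'.hasDeriv n
    rw [← ih] at h2
    exact h1.unique h2 (hG.zero n) (hG'.zero n)

theorem IsChain.add {G G' : ℕ → ℍ → ℂ} (hG : IsChain G) (hG' : IsChain G') :
    IsChain (fun i => G i + G' i) where
  hasDeriv i := (hG.hasDeriv i).add_aux (hG'.hasDeriv i)
  zero i := by
    have := Tendsto.add (hG.zero i) (hG'.zero i)
    rw [add_zero] at this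
    exact this

theorem IsChain.const_smul {G : ℕ → ℍ → ℂ} (hG : IsChain G) (c : ℂ) :
    IsChain (fun i => c • G i) where
  hasDeriv i := (hG.hasDeriv i).const_smul_aux c
  zero i := by
    have := Tendsto.const_smul (hG.zero i) c
    rw [smul_zero] at this
    exact this

theorem isChain_zero : IsChain (fun _ => (0 : ℍ → ℂ)) where
  hasDeriv i := fun τ => by
    have : ((0 : ℍ → ℂ) ∘ ofComplex) = fun _ => (0 : ℂ) := rfl
    rw [this]
    exact hasDerivAt_const _ _
  zero i := tendsto_const_nhds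

theorem IsChain.sum {ι : Type*} (s : Finset ι) {G : ι → ℕ → ℍ → ℂ}
    (hG : ∀ j ∈ s, IsChain (G j)) :
    IsChain (fun i => ∑ j ∈ s, G j i) := by
  classical
  induction s using Finset.induction_on with
  | empty => simpa using isChain_zero
  | insert a s ha ih =>
    have h1 : IsChain (G a) := hG a (Finset.mem_insert_self a s)
    have h2 : IsChain (fun i => ∑ j ∈ s, G j i) :=
      ih (fun j hj => hG j (Finset.mem_insert_of_mem hj))
    have := h1.add h2
    simpa [Finset.sum_insert ha] using this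

theorem IsChain.shift {G : ℕ → ℍ → ℂ} (hG : IsChain G) : IsChain (fun i => G (i + 1)) where
  hasDeriv i := hG.hasDeriv (i + 1)
  zero i := hG.zero (i + 1)

/-- Existence of a chain starting from a function in the cusp class; all members of the chain
are again in the cusp class. -/
theorem CuspClass.exists_isChain {h : ℝ} (hh : 0 < h) {g : ℍ → ℂ} (hg : CuspClass h g) :
    ∃ G : ℕ → ℍ → ℂ, IsChain G ∧ G 0 = g ∧ ∀ i, CuspClass h (G i) := by
  classical
  -- build the sequence in the subtype of cusp class functions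
  let step : {f : ℍ → ℂ // CuspClass h f} → {f : ℍ → ℂ // CuspClass h f} := fun f =>
    ⟨(f.2.exists_primitive hh).choose, (f.2.exists_primitive hh).choose_spec.1⟩
  have hstep : ∀ f : {f : ℍ → ℂ // CuspClass h f}, HasDerivH (step f).1 f.1 := fun f =>
    (f.2.exists_primitive hh).choose_spec.2
  let seq : ℕ → {f : ℍ → ℂ // CuspClass h f} := fun n => step^[n] ⟨g, hg⟩
  refine ⟨fun n => (seq n).1, ⟨fun i => ?_, fun i => ?_⟩, rfl, fun i => (seq i).2⟩
  · have : seq (i + 1) = step (seq i) := Function.iterate_succ_apply' step i _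
    show HasDerivH (seq (i + 1)).1 (seq i).1
    rw [this]
    exact hstep _
  · exact (seq (i + 1)).2.zero

/-- A cusp form on an arithmetic subgroup is in the cusp class for some positive period. -/
theorem exists_cuspClass_of_cuspForm {Γ : Subgroup (GL (Fin 2) ℝ)} [Γ.IsArithmetic] {k : ℤ}
    (f : CuspForm Γ k) : ∃ h : ℝ, 0 < h ∧ CuspClass h ⇑f := by
  have hh : 0 < Γ.strictWidthInfty := Γ.strictWidthInfty_pos_iff.mpr Fact.out
  have hΓ : Γ.strictWidthInfty ∈ Γ.strictPeriods := Γ.strictWidthInfty_mem_strictPeriods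
  refine ⟨Γ.strictWidthInfty, hh, ⟨CuspFormClass.holo f, ?_, CuspFormClass.zero_at_infty f⟩⟩
  exact SlashInvariantFormClass.periodic_comp_ofComplex f hΓ

theorem exists_isChain_of_cuspForm {Γ : Subgroup (GL (Fin 2) ℝ)} [Γ.IsArithmetic] {k : ℤ}
    (f : CuspForm Γ k) : ∃ G : ℕ → ℍ → ℂ, IsChain G ∧ G 0 = ⇑f := by
  obtain ⟨h, hh, hf⟩ := exists_cuspClass_of_cuspForm f
  obtain ⟨G, hG, hG0, -⟩ := hf.exists_isChain hh
  exact ⟨G, hG, hG0⟩

end Fermat.Agent.S22

end
end ZBS22_001_3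

/-! ### bundled: `Fermat.Agent.S22.KernelAlg` -/
section ZBS22_001_4

/-!
# S22: algebraic properties of the Eichler kernel
-/

set_option autoImplicit false

namespace Fermat.Agent.S22

open UpperHalfPlane
open scoped Nat

section kerV

variable {W W' : Type*} [AddCommGroup W] [Module ℂ W] [AddCommGroup W'] [Module ℂ W']

/-- Vector-valued (pointwise) version of the Eichler kernel. -/
noncomputable def kerV (g : ℕ → W) : ℕ → ℂ → ℂ → ℂ → W
  | 0, _, _, _ => g 1
  | (m + 1), τ, x, y =>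
      (x - τ * y) ^ (m + 1) • g 1 + (((m : ℂ) + 1) * y) • kerV (fun i => g (i + 1)) m τ x y

@[simp] theorem kerV_zero (g : ℕ → W) (τ x y : ℂ) : kerV g 0 τ x y = g 1 := rfl

theorem kerV_succ (g : ℕ → W) (m : ℕ) (τ x y : ℂ) :
    kerV g (m + 1) τ x y =
      (x - τ * y) ^ (m + 1) • g 1 + (((m : ℂ) + 1) * y) • kerV (fun i => g (i + 1)) m τ x y :=
  rfl

theorem map_kerV (L : W →ₗ[ℂ] W') (g : ℕ → W) (m : ℕ) (τ x y : ℂ) :
    L (kerV g m τ x y) = kerV (fun i => L (g i)) m τ x y := by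
  induction m generalizing g with
  | zero => rfl
  | succ m ih => simp only [kerV_succ, map_add, map_smul, ih]

theorem kerV_add (g g' : ℕ → W) (m : ℕ) (τ x y : ℂ) :
    kerV (fun i => g i + g' i) m τ x y = kerV g m τ x y + kerV g' m τ x y := by
  induction m generalizing g g' with
  | zero => rfl
  | succ m ih =>
    simp only [kerV_succ, ih, smul_add]
    abel

theorem kerV_smul (c : ℂ) (g : ℕ → W) (m : ℕ) (τ x y : ℂ) :
    kerV (fun i => c • g i) m τ x y = c • kerV g m τ x y := by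
  induction m generalizing g with
  | zero => rfl
  | succ m ih =>
    simp only [kerV_succ, ih, smul_add]
    rw [smul_comm c, smul_comm c]

theorem kerV_sub (g g' : ℕ → W) (m : ℕ) (τ x y : ℂ) :
    kerV (fun i => g i - g' i) m τ x y = kerV g m τ x y - kerV g' m τ x y := by
  induction m generalizing g g' with
  | zero => rfl
  | succ m ih =>
    simp only [kerV_succ, ih, smul_sub]
    abel

theorem kerV_sum {ι : Type*} (s : Finset ι) (g : ι → ℕ → W) (m : ℕ) (τ x y : ℂ) :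
    kerV (fun i => ∑ j ∈ s, g j i) m τ x y = ∑ j ∈ s, kerV (g j) m τ x y := by
  induction m generalizing g with
  | zero => rfl
  | succ m ih =>
    simp only [kerV_succ, ih, Finset.smul_sum, Finset.sum_add_distrib]

theorem kerV_homog (g : ℕ → W) (m : ℕ) (τ x y c : ℂ) :
    kerV g m τ (c * x) (c * y) = c ^ m • kerV g m τ x y := by
  induction m generalizing g with
  | zero => simp
  | succ m ih =>
    have e : c * x - τ * (c * y) = c * (x - τ * y) := by ring
    simp only [kerV_succ, ih, smul_add, smul_smul, e, mul_pow]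
    congr 1
    congr 1; ring

theorem kerV_diag (g : ℕ → W) (m : ℕ) (τ : ℂ) :
    kerV g m τ τ 1 = ((m ! : ℕ) : ℂ) • g (m + 1) := by
  induction m generalizing g with
  | zero => simp
  | succ m ih =>
    rw [kerV_succ, ih]
    simp only [mul_one, sub_self, ne_eq, Nat.add_eq_zero_iff, one_ne_zero, and_false,
      not_false_eq_true, zero_pow, zero_smul, zero_add, smul_smul]
    congr 1
    rw [Nat.factorial_succ]
    push_cast
    ring

/-- Transport along an upper triangular substitution: if `d * u = a * τ + b` and `B * a = d`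
then the kernel of the rescaled chain is the kernel at the transformed arguments. -/
theorem kerV_upper (g h : ℕ → W) (m : ℕ) (τ u x y a b d B C : ℂ)
    (hu : d * u = a * τ + b) (hB : B * a = d)
    (hgh : ∀ i, h i = (C * B ^ i) • g i) :
    a ^ m • kerV h m τ x y = (C * B) • kerV g m u (a * x + b * y) (d * y) := by
  induction m generalizing g h C with
  | zero => simp [hgh 1, smul_smul]
  | succ m ih =>
    have key : a * x + b * y - u * (d * y) = a * (x - τ * y) := by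
      have : u * (d * y) = (d * u) * y := by ring
      rw [this, hu]; ring
    have ih' := ih (fun i => g (i + 1)) (fun i => h (i + 1)) (C * B) (fun i => by
      rw [hgh (i + 1), pow_succ]; congr 1; ring)
    rw [kerV_succ, kerV_succ, key, mul_pow, smul_add, smul_add, smul_smul, smul_smul, smul_smul,
      smul_smul, hgh 1, smul_smul]
    congr 1
    · congr 1; ring
    · have e1 : a ^ (m + 1) * ((↑m + 1) * y) = (((m : ℂ) + 1) * y * a) * a ^ m := by ring
      rw [e1, mul_smul, ih', smul_smul]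
      congr 1
      rw [← hB]; ring

end kerV

theorem ker_eq_kerV (G : ℕ → ℍ → ℂ) (m : ℕ) (τ : ℍ) (x y : ℂ) :
    ker G m τ x y = kerV (fun i => G i τ) m (τ : ℂ) x y := by
  induction m generalizing G with
  | zero => rfl
  | succ m ih =>
    rw [ker_succ, kerV_succ, ih]
    simp only [smul_eq_mul]
    ring

/-- polynomiality of the kernel along an affine line `(x, y) = (α t + β, γ t + δ)`. -/
theorem kerV_poly (g : ℕ → ℂ) (m : ℕ) (τ α β γ δ : ℂ) :
    ∃ p : Polynomial ℂ, ∀ t : ℂ, p.eval t = kerV g m τ (α * t + β) (γ * t + δ) := by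
  induction m generalizing g with
  | zero => exact ⟨Polynomial.C (g 1), fun t => by simp⟩
  | succ m ih =>
    obtain ⟨p, hp⟩ := ih (fun i => g (i + 1))
    refine ⟨((Polynomial.C α * Polynomial.X + Polynomial.C β) -
        Polynomial.C τ * (Polynomial.C γ * Polynomial.X + Polynomial.C δ)) ^ (m + 1) *
          Polynomial.C (g 1) +
        Polynomial.C ((m : ℂ) + 1) * (Polynomial.C γ * Polynomial.X + Polynomial.C δ) * p,
      fun t => ?_⟩
    simp only [Polynomial.eval_add, Polynomial.eval_mul, Polynomial.eval_pow, Polynomial.eval_sub,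
      Polynomial.eval_C, Polynomial.eval_X, hp, kerV_succ, smul_eq_mul]

end Fermat.Agent.S22


end ZBS22_001_4

/-! ### bundled: `Fermat.Agent.S22.KernelInt` -/
section ZBS22_001_5

/-!
# S22: integrality of the Eichler kernel at integral arguments
-/

set_option autoImplicit false

namespace Fermat.Agent.S22

open Polynomial

section

variable {W : Type*} [AddCommGroup W] [Module ℂ W]

/-- The finite set of vectors `τ ^ l • g (i + 1)`, `i, l ≤ m`. -/
def kerBasis (g : ℕ → W) (m : ℕ) (τ : ℂ) : Set W :=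
  (fun p : ℕ × ℕ => τ ^ p.2 • g (p.1 + 1)) ''
    ((Finset.range (m + 1) ×ˢ Finset.range (m + 1) : Finset (ℕ × ℕ)) : Set (ℕ × ℕ))

theorem kerBasis_finite (g : ℕ → W) (m : ℕ) (τ : ℂ) : (kerBasis g m τ).Finite :=
  (Finset.finite_toSet _).image _

theorem mem_kerBasis {g : ℕ → W} {m : ℕ} {τ : ℂ} {i l : ℕ} (hi : i ≤ m) (hl : l ≤ m) :
    τ ^ l • g (i + 1) ∈ kerBasis g m τ :=
  ⟨(i, l), by simp [Nat.lt_succ_of_le hi, Nat.lt_succ_of_le hl], rfl⟩

theorem kerBasis_shift_subset (g : ℕ → W) (m : ℕ) (τ : ℂ) :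
    kerBasis (fun i => g (i + 1)) m τ ⊆ kerBasis g (m + 1) τ := by
  rintro w ⟨⟨i, l⟩, hp, rfl⟩
  simp only [Finset.coe_product, Finset.coe_range, Set.mem_prod, Set.mem_Iio] at hp
  exact mem_kerBasis (g := g) (i := i + 1) (by omega) (by omega)

/-- integer-coefficient expansion of `(X - τ Y)^n`. -/
theorem int_sub_mul_pow_eq_sum (τ : ℂ) (X Y : ℤ) (n : ℕ) :
    ∃ c : ℕ → ℤ, ((X : ℂ) - τ * Y) ^ n = ∑ l ∈ Finset.range (n + 1), (c l : ℂ) * τ ^ l := by
  let p : ℤ[X] := (C X - Polynomial.X * C Y) ^ n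
  have hdeg : p.natDegree < n + 1 := by
    have h1 : (C X - Polynomial.X * C Y : ℤ[X]).natDegree ≤ 1 := by
      refine (natDegree_sub_le _ _).trans ?_
      rw [natDegree_C]
      refine max_le (Nat.zero_le _) ?_
      refine (natDegree_mul_le).trans ?_
      rw [natDegree_C, add_zero]
      exact natDegree_X_le
    have : p.natDegree ≤ n * 1 := natDegree_pow_le_of_le n h1
    omega
  refine ⟨fun l => p.coeff l, ?_⟩
  have h := Polynomial.aeval_eq_sum_range' (R := ℤ) (S := ℂ) hdeg τ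
  have hp : Polynomial.aeval τ p = ((X : ℂ) - τ * Y) ^ n := by
    simp [p]
  rw [← hp, h]
  refine Finset.sum_congr rfl fun l _ => ?_
  rw [zsmul_eq_mul]

theorem kerV_mem_span (g : ℕ → W) (m : ℕ) (τ : ℂ) (X Y : ℤ) :
    kerV g m τ X Y ∈ Submodule.span ℤ (kerBasis g m τ) := by
  induction m generalizing g with
  | zero =>
    refine Submodule.subset_span ?_
    have := mem_kerBasis (g := g) (m := 0) (τ := τ) (i := 0) (l := 0) le_rfl le_rfl
    simpa using this
  | succ m ih =>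
    rw [kerV_succ]
    refine Submodule.add_mem _ ?_ ?_
    · obtain ⟨c, hc⟩ := int_sub_mul_pow_eq_sum τ X Y (m + 1)
      rw [hc, Finset.sum_smul]
      refine Submodule.sum_mem _ fun l hl => ?_
      rw [mul_smul, Int.cast_smul_eq_zsmul]
      refine Submodule.smul_mem _ _ (Submodule.subset_span ?_)
      exact mem_kerBasis (g := g) (i := 0) (Nat.zero_le _)
        (Nat.lt_succ_iff.mp (Finset.mem_range.mp hl))
    · have h1 : (((m : ℂ) + 1) * (Y : ℂ)) = (((m + 1 : ℤ) * Y : ℤ) : ℂ) := by push_cast; ring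
      rw [h1, Int.cast_smul_eq_zsmul]
      refine Submodule.smul_mem _ _ ?_
      exact Submodule.span_mono (kerBasis_shift_subset g m τ) (ih _)

end

end Fermat.Agent.S22


end ZBS22_001_5

/-! ### bundled: `Fermat.Agent.S22.Vanish` -/
section ZBS22_001_6

/-!
# S22 helper: vanishing statements

* cusp forms of weight `≤ 1` on `Γ₀(N)` vanish;
* a holomorphic function of weight `-m ≤ 0`, invariant under `Γ₀(N)` and vanishing at all cusps, is zero.
-/

set_option autoImplicit false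

namespace Fermat.Agent.S22

open UpperHalfPlane Filter Topology CongruenceSubgroup
open scoped MatrixGroups ModularForm Manifold

/-- `-1 ∈ Γ₀(N)` (as a subgroup of `GL₂(ℝ)`). -/
theorem neg_one_mem_Gamma0 (N : ℕ) : (-1 : GL (Fin 2) ℝ) ∈ (Gamma0 N : Subgroup (GL (Fin 2) ℝ)) := by
  refine ⟨-1, ?_, by ext; simp⟩
  show (-1 : SL(2, ℤ)) ∈ Gamma0 N
  rw [Gamma0_mem]
  simp

/-- A modular form of weight `≤ 0` on `Γ₀(N)` that is zero at `i∞` vanishes. -/
theorem modularForm_eq_zero_of_weight_nonpos (N : ℕ) [NeZero N] {k : ℤ} (hk : k ≤ 0)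
    (f : ModularForm (Gamma0 N) k) (h0 : IsZeroAtImInfty (f : ℍ → ℂ)) : f = 0 := by
  rcases hk.lt_or_eq with hk | rfl
  · exact ModularForm.isZero_of_neg_weight hk f
  · obtain ⟨c, hc⟩ := ModularForm.eq_const_of_weight_zero f
    have hc0 : c = 0 := by
      have h1 : Tendsto (f : ℍ → ℂ) atImInfty (𝓝 0) := h0
      rw [hc] at h1
      have h2 : Tendsto (Function.const ℍ c) atImInfty (𝓝 c) := tendsto_const_nhds
      exact tendsto_nhds_unique h2 h1
    ext z
    rw [hc, hc0]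
    rfl

/-- weight ≤ 1 cusp forms on Γ₀(N) vanish (k ≤ 0: Mathlib; k = 1: `-1 ∈ Γ₀(N)`). -/
theorem cuspForm_eq_zero_of_weight_le_one (N : ℕ) [NeZero N] {k : ℤ} (hk : k ≤ 1)
    (f : CuspForm (Gamma0 N) k) : f = 0 := by
  have key : (CuspForm.toModularFormₗ f : ModularForm (Gamma0 N) k) = 0 := by
    rcases hk.lt_or_eq with hk | rfl
    · refine modularForm_eq_zero_of_weight_nonpos N (by omega) _ ?_
      have := f.zero_at_cusps' (c := OnePoint.infty) ?_
      · exact OnePoint.isZeroAt_infty_iff.mp this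
      · exact (Subgroup.IsArithmetic.isCusp_iff_isCusp_SL2Z _).mpr
          (isCusp_SL2Z_iff'.mpr ⟨1, by simp⟩)
    · exact ModularForm.eq_zero_of_neg_one_mem (neg_one_mem_Gamma0 N) odd_one _
  ext z
  have := DFunLike.congr_fun key z
  simpa using this

/-- separation core: a holomorphic weight `-m` invariant function vanishing at all cusps is zero. -/
theorem eq_zero_of_invariant_of_isZeroAtImInfty (N : ℕ) [NeZero N] (m : ℕ) (E : ℍ → ℂ)
    (hol : MDiff E) (hinv : ∀ γ ∈ Gamma0 N, E ∣[(-(m : ℤ))] γ = E)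
    (hzero : ∀ δ : SL(2, ℤ), IsZeroAtImInfty (E ∣[(-(m : ℤ))] δ)) : E = 0 := by
  let F : ModularForm (Gamma0 N) (-(m : ℤ)) :=
    { toFun := E
      slash_action_eq' := by
        rintro γ ⟨g, hg, rfl⟩
        exact hinv g hg
      holo' := hol
      bdd_at_cusps' := by
        intro c hc
        have hc' : IsCusp c 𝒮ℒ := (Subgroup.IsArithmetic.isCusp_iff_isCusp_SL2Z _).mp hc
        rw [OnePoint.isBoundedAt_iff_forall_SL2Z hc']
        intro γ _
        exact (hzero γ).isBoundedAtImInfty }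
  have h0 : IsZeroAtImInfty (F : ℍ → ℂ) := by
    have := hzero 1
    show IsZeroAtImInfty E
    simpa using this
  have hF : F = 0 := modularForm_eq_zero_of_weight_nonpos N (by omega) F h0
  funext z
  exact DFunLike.congr_fun hF z

end Fermat.Agent.S22


end ZBS22_001_6

/-! ### bundled: `Fermat.Agent.S22.KernelDeriv` -/
section ZBS22_001_7

/-!
# S22, piece P10: derivative of the Eichler kernel, independence of the base point, separation.
(helper21)
-/

set_option autoImplicit false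

namespace Fermat.Agent.S22

open UpperHalfPlane Filter Topology CongruenceSubgroup
open scoped MatrixGroups ModularForm Manifold

/-- K1: τ-derivative of the kernel. -/
theorem ker_hasDerivH {G : ℕ → ℍ → ℂ} (hG : IsChain G) (m : ℕ) (x y : ℂ) :
    HasDerivH (fun τ => ker G m τ x y) (fun τ => G 0 τ * (x - τ * y) ^ m) := by
  induction m generalizing G with
  | zero =>
    refine (hG.hasDeriv 0).congr (fun τ => ?_)
    simp
  | succ m ih =>
    have h1 : HasDerivH (G 1) (G 0) := hG.hasDeriv 0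
    have hlin : HasDerivH (fun τ : ℍ => x - (τ : ℂ) * y) (fun _ => 0 - 1 * y) := by
      have h2 : HasDerivH (fun τ : ℍ => (τ : ℂ) * y) (fun τ => 1 * y + (τ : ℂ) * 0) :=
        hasDerivH_coe.mul (hasDerivH_const y)
      have h3 := (hasDerivH_const x).sub h2
      refine h3.congr (fun τ => ?_)
      ring
    have hpow := hlin.pow m
    have hA := h1.mul hpow
    have hB := (ih hG.shift).const_mul (((m : ℂ) + 1) * y)
    have hsum := hA.add hB
    have hfin := hsum.congr (g := fun τ => G 0 τ * (x - τ * y) ^ (m + 1)) (fun τ => by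
      simp only [zero_add]
      ring)
    exact hfin

/-- Auxiliary identity: `x' - (δ τ) y' = (x - τ y) / (c τ + d)`. -/
theorem smul_linear_identity (δ : SL(2, ℤ)) (τ : ℍ) (x y : ℂ) :
    ((δ 0 0 : ℂ) * x + (δ 0 1 : ℂ) * y) - ((δ • τ : ℍ) : ℂ) * ((δ 1 0 : ℂ) * x + (δ 1 1 : ℂ) * y)
      = (x - τ * y) / denom (δ : GL (Fin 2) ℝ) τ := by
  have hden : denom (δ : GL (Fin 2) ℝ) τ ≠ 0 := denom_ne_zero _ _
  have hdet : (δ 0 0 : ℂ) * (δ 1 1 : ℂ) - (δ 0 1 : ℂ) * (δ 1 0 : ℂ) = 1 := by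
    have := δ.det_coe
    rw [Matrix.det_fin_two] at this
    exact_mod_cast this
  have hsm : ((δ • τ : ℍ) : ℂ)
      = ((δ 0 0 : ℂ) * τ + (δ 0 1 : ℂ)) / ((δ 1 0 : ℂ) * τ + (δ 1 1 : ℂ)) := by
    rw [UpperHalfPlane.specialLinearGroup_apply]
    simp
  have hd : denom (δ : GL (Fin 2) ℝ) τ = (δ 1 0 : ℂ) * τ + (δ 1 1 : ℂ) := by
    simp [denom]
  rw [hsm, hd]
  rw [hd] at hden
  rw [div_mul_eq_mul_div, eq_div_iff hden, sub_mul, div_mul_cancel₀ _ hden]
  linear_combination (x - τ * y) * hdet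

/-- K7: transformation law under `SL(2, ℤ)`: the "period" is independent of the base point. -/
theorem ker_SL_sub_eq {G G' : ℕ → ℍ → ℂ} (hG : IsChain G) (hG' : IsChain G') (m : ℕ)
    (δ : SL(2, ℤ)) (h0 : G' 0 = G 0 ∣[(m : ℤ) + 2] δ) (x y : ℂ) (τ τ' : ℍ) :
    ker G m (δ • τ) ((δ 0 0 : ℂ) * x + (δ 0 1 : ℂ) * y) ((δ 1 0 : ℂ) * x + (δ 1 1 : ℂ) * y)
        - ker G' m τ x y
      = ker G m (δ • τ') ((δ 0 0 : ℂ) * x + (δ 0 1 : ℂ) * y) ((δ 1 0 : ℂ) * x + (δ 1 1 : ℂ) * y)
        - ker G' m τ' x y := by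
  set x' : ℂ := (δ 0 0 : ℂ) * x + (δ 0 1 : ℂ) * y with hx'
  set y' : ℂ := (δ 1 0 : ℂ) * x + (δ 1 1 : ℂ) * y with hy'
  have hdet : (δ : GL (Fin 2) ℝ).det.val = 1 := by simp
  have h1 := (ker_hasDerivH hG m x' y').comp_smul (δ : GL (Fin 2) ℝ) (by rw [hdet]; exact one_pos)
  have h2 := ker_hasDerivH hG' m x y
  have h3 := h1.sub h2
  have h4 : HasDerivH (fun τ => ker G m ((δ : GL (Fin 2) ℝ) • τ) x' y' - ker G' m τ x y) 0 := by
    refine h3.congr (fun τ => ?_)
    have hden : denom (δ : GL (Fin 2) ℝ) τ ≠ 0 := denom_ne_zero _ _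
    have hid := smul_linear_identity δ τ x y
    rw [← hx', ← hy'] at hid
    have hsl : (G 0 ∣[(m : ℤ) + 2] δ) τ
        = G 0 (δ • τ) * denom (δ : GL (Fin 2) ℝ) τ ^ (-((m : ℤ) + 2)) :=
      ModularForm.SL_slash_apply _ _ _
    simp only [Pi.zero_apply]
    rw [h0, hsl, hdet]
    have hid' : x' - (((δ : GL (Fin 2) ℝ) • τ : ℍ) : ℂ) * y'
        = (x - τ * y) / denom (δ : GL (Fin 2) ℝ) τ := hid
    rw [hid']
    have hz : denom (δ : GL (Fin 2) ℝ) τ ^ (-((m : ℤ) + 2))
        = (denom (δ : GL (Fin 2) ℝ) τ ^ m * denom (δ : GL (Fin 2) ℝ) τ ^ 2)⁻¹ := by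
      rw [zpow_neg, ← pow_add]
      norm_cast
    rw [hz]
    have e : G 0 ((δ : GL (Fin 2) ℝ) • τ) = G 0 (δ • τ) := rfl
    rw [e, div_pow]
    simp only [Complex.ofReal_one, mul_one]
    field_simp
    ring
  exact h4.eq_of_deriv_zero τ τ'

/-- A polynomial function vanishing at all integers vanishes identically. -/
theorem eq_zero_of_forall_int_eq_zero {F : ℂ → ℂ} (hp : ∃ p : Polynomial ℂ, ∀ t : ℂ, p.eval t = F t)
    (hF : ∀ n : ℤ, F (n : ℂ) = 0) (t : ℂ) : F t = 0 := by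
  obtain ⟨p, hp⟩ := hp
  have hp0 : p = 0 := by
    refine Polynomial.eq_zero_of_infinite_isRoot p ?_
    have hinf : (Set.range (fun n : ℤ => (n : ℂ))).Infinite :=
      Set.infinite_range_of_injective Int.cast_injective
    refine hinf.mono ?_
    rintro _ ⟨n, rfl⟩
    show p.IsRoot (n : ℂ)
    rw [Polynomial.IsRoot, hp, hF]
  rw [← hp, hp0, Polynomial.eval_zero]

/-- the difference of two polynomial functions is a polynomial function -/
theorem exists_poly_sub {F₁ F₂ : ℂ → ℂ} (h₁ : ∃ p : Polynomial ℂ, ∀ t : ℂ, p.eval t = F₁ t)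
    (h₂ : ∃ p : Polynomial ℂ, ∀ t : ℂ, p.eval t = F₂ t) :
    ∃ p : Polynomial ℂ, ∀ t : ℂ, p.eval t = F₁ t - F₂ t := by
  obtain ⟨p₁, hp₁⟩ := h₁
  obtain ⟨p₂, hp₂⟩ := h₂
  exact ⟨p₁ - p₂, fun t => by rw [Polynomial.eval_sub, hp₁, hp₂]⟩

/-- polynomial identity principle for the period: vanishing for integral `(X, Y)` implies
vanishing for all complex `(x, y)`. -/
theorem ker_period_eq_zero_of_int {G G' : ℕ → ℍ → ℂ} (m : ℕ) (δ : SL(2, ℤ)) (τ₁ τ₂ : ℍ)
    (hc : ∀ X Y : ℤ,
      ker G m τ₁ ((δ 0 0 : ℂ) * X + (δ 0 1 : ℂ) * Y) ((δ 1 0 : ℂ) * X + (δ 1 1 : ℂ) * Y)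
        - ker G' m τ₂ X Y = 0) (x y : ℂ) :
    ker G m τ₁ ((δ 0 0 : ℂ) * x + (δ 0 1 : ℂ) * y) ((δ 1 0 : ℂ) * x + (δ 1 1 : ℂ) * y)
        - ker G' m τ₂ x y = 0 := by
  -- first: all complex `x`, integral `Y`
  have step1 : ∀ (Y : ℤ) (x : ℂ),
      ker G m τ₁ ((δ 0 0 : ℂ) * x + (δ 0 1 : ℂ) * Y) ((δ 1 0 : ℂ) * x + (δ 1 1 : ℂ) * Y)
        - ker G' m τ₂ x Y = 0 := by
    intro Y x
    refine eq_zero_of_forall_int_eq_zero
      (F := fun t => ker G m τ₁ ((δ 0 0 : ℂ) * t + (δ 0 1 : ℂ) * Y)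
        ((δ 1 0 : ℂ) * t + (δ 1 1 : ℂ) * Y) - ker G' m τ₂ t Y) ?_ (fun n => hc n Y) x
    refine exists_poly_sub ?_ ?_
    · obtain ⟨p, hp⟩ := kerV_poly (fun i => G i τ₁) m (τ₁ : ℂ) (δ 0 0 : ℂ) ((δ 0 1 : ℂ) * Y)
        (δ 1 0 : ℂ) ((δ 1 1 : ℂ) * Y)
      exact ⟨p, fun t => by rw [hp, ker_eq_kerV]⟩
    · obtain ⟨p, hp⟩ := kerV_poly (fun i => G' i τ₂) m (τ₂ : ℂ) 1 0 0 (Y : ℂ)
      refine ⟨p, fun t => ?_⟩
      rw [hp, ker_eq_kerV]
      simp
  refine eq_zero_of_forall_int_eq_zero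
    (F := fun t => ker G m τ₁ ((δ 0 0 : ℂ) * x + (δ 0 1 : ℂ) * t)
      ((δ 1 0 : ℂ) * x + (δ 1 1 : ℂ) * t) - ker G' m τ₂ x t) ?_ (fun n => step1 n x) y
  refine exists_poly_sub ?_ ?_
  · obtain ⟨p, hp⟩ := kerV_poly (fun i => G i τ₁) m (τ₁ : ℂ) (δ 0 1 : ℂ) ((δ 0 0 : ℂ) * x)
      (δ 1 1 : ℂ) ((δ 1 0 : ℂ) * x)
    refine ⟨p, fun t => ?_⟩
    rw [hp, ker_eq_kerV]
    congr 1 <;> ring
  · obtain ⟨p, hp⟩ := kerV_poly (fun i => G' i τ₂) m (τ₂ : ℂ) 0 x 1 0
    refine ⟨p, fun t => ?_⟩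
    rw [hp, ker_eq_kerV]
    simp

/-- SEP: if all integral periods of `f` vanish then `f = 0`. -/
theorem eq_zero_of_periods_eq_zero (N : ℕ) [NeZero N] (m : ℕ)
    (f : CuspForm (Gamma0 N) ((m : ℤ) + 2)) (G : SL(2, ℤ) → ℕ → ℍ → ℂ)
    (hG : ∀ δ, IsChain (G δ)) (h0 : ∀ δ, G δ 0 = ⇑f ∣[(m : ℤ) + 2] δ)
    (hc : ∀ (δ : SL(2, ℤ)) (X Y : ℤ),
      ker (G 1) m (δ • UpperHalfPlane.I) ((δ 0 0 : ℂ) * X + (δ 0 1 : ℂ) * Y)
          ((δ 1 0 : ℂ) * X + (δ 1 1 : ℂ) * Y)
        - ker (G δ) m UpperHalfPlane.I X Y = 0) : f = 0 := by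
  have hG10 : G 1 0 = ⇑f := by
    rw [h0 1]
    exact SlashAction.slash_one _ _
  -- periods vanish for all complex arguments and all base points
  have hper : ∀ (δ : SL(2, ℤ)) (τ : ℍ) (x y : ℂ),
      ker (G 1) m (δ • τ) ((δ 0 0 : ℂ) * x + (δ 0 1 : ℂ) * y) ((δ 1 0 : ℂ) * x + (δ 1 1 : ℂ) * y)
        = ker (G δ) m τ x y := by
    intro δ τ x y
    have h1 := ker_period_eq_zero_of_int (G := G 1) (G' := G δ) m δ (δ • UpperHalfPlane.I)
      UpperHalfPlane.I (hc δ) x y
    have h2 := ker_SL_sub_eq (hG 1) (hG δ) m δ (by rw [h0 δ, hG10]) x y τ UpperHalfPlane.I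
    rw [h1] at h2
    exact sub_eq_zero.mp h2
  -- the top primitive
  set E : ℍ → ℂ := G 1 (m + 1) with hE
  have hfact : ((m.factorial : ℕ) : ℂ) ≠ 0 := by
    exact_mod_cast Nat.factorial_ne_zero m
  have hEslash : ∀ δ : SL(2, ℤ), E ∣[(-(m : ℤ))] δ = G δ (m + 1) := by
    intro δ
    funext τ
    have h := hper δ τ (τ : ℂ) 1
    have hd : denom (δ : GL (Fin 2) ℝ) τ = (δ 1 0 : ℂ) * τ + (δ 1 1 : ℂ) := by
      simp [denom]
    have hden : denom (δ : GL (Fin 2) ℝ) τ ≠ 0 := denom_ne_zero _ _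
    have hsm : ((δ • τ : ℍ) : ℂ)
        = ((δ 0 0 : ℂ) * τ + (δ 0 1 : ℂ)) / ((δ 1 0 : ℂ) * τ + (δ 1 1 : ℂ)) := by
      rw [UpperHalfPlane.specialLinearGroup_apply]
      simp
    have e1 : (δ 0 0 : ℂ) * τ + (δ 0 1 : ℂ) * 1
        = denom (δ : GL (Fin 2) ℝ) τ * ((δ • τ : ℍ) : ℂ) := by
      rw [hsm, hd, mul_one]
      rw [hd] at hden
      rw [mul_div_assoc', mul_div_cancel_left₀ _ hden]
    have e2 : (δ 1 0 : ℂ) * τ + (δ 1 1 : ℂ) * 1 = denom (δ : GL (Fin 2) ℝ) τ * 1 := by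
      rw [hd]; ring
    rw [e1, e2, ker_eq_kerV, ker_eq_kerV, kerV_homog, kerV_diag, kerV_diag] at h
    simp only [smul_eq_mul] at h
    rw [ModularForm.SL_slash_apply]
    have h' : denom (δ : GL (Fin 2) ℝ) τ ^ m * G 1 (m + 1) (δ • τ) = G δ (m + 1) τ := by
      have : ((m.factorial : ℕ) : ℂ) * (denom (δ : GL (Fin 2) ℝ) τ ^ m * G 1 (m + 1) (δ • τ))
          = ((m.factorial : ℕ) : ℂ) * G δ (m + 1) τ := by
        rw [← h]; ring
      exact mul_left_cancel₀ hfact this
    rw [← h', neg_neg, zpow_natCast, mul_comm]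
  have hGγ : ∀ γ ∈ Gamma0 N, G γ = G 1 := by
    intro γ hγ
    refine (hG γ).eq_of_zero_eq (hG 1) ?_
    rw [h0 γ, hG10]
    exact SlashInvariantFormClass.slash_action_eq f _ ⟨γ, hγ, rfl⟩
  have hEzero : E = 0 := by
    refine eq_zero_of_invariant_of_isZeroAtImInfty N m E ((hG 1).hasDeriv m).mdifferentiable
      (fun γ hγ => ?_) (fun δ => ?_)
    · rw [hEslash γ, hGγ γ hγ]
    · rw [hEslash δ]
      exact (hG δ).zero m
  -- descend along the chain
  have hdesc : ∀ i : ℕ, i ≤ m + 1 → G 1 (m + 1 - i) = 0 := by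
    intro i
    induction i with
    | zero => intro _; simpa using hEzero
    | succ i ih =>
      intro hi
      have hprev := ih (by omega)
      have hd := (hG 1).hasDeriv (m + 1 - (i + 1))
      have e : m + 1 - (i + 1) + 1 = m + 1 - i := by omega
      rw [e, hprev] at hd
      funext τ
      have h1 : HasDerivAt ((0 : ℍ → ℂ) ∘ ofComplex) (G 1 (m + 1 - (i + 1)) τ) (τ : ℂ) := hd τ
      have h2 : HasDerivAt ((0 : ℍ → ℂ) ∘ ofComplex) 0 (τ : ℂ) := by
        have : ((0 : ℍ → ℂ) ∘ ofComplex) = fun _ => (0 : ℂ) := rfl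
        rw [this]
        exact hasDerivAt_const _ _
      exact h1.unique h2
  have hf0 : G 1 0 = 0 := by
    have := hdesc (m + 1) le_rfl
    simpa using this
  rw [hG10] at hf0
  exact DFunLike.coe_injective hf0

end Fermat.Agent.S22


end ZBS22_001_7

/-! ### bundled: `Fermat.Agent.S22.Period` -/
section ZBS22_001_8

/-!
# S22: the period functionals and the period lattice
-/

set_option autoImplicit false

namespace Fermat.Agent.S22

open UpperHalfPlane Filter Topology CongruenceSubgroup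
open scoped MatrixGroups ModularForm Manifold

section chain

variable {N : ℕ} [NeZero N] {k : ℤ}

open ConjAct Pointwise in
theorem exists_isChain_slash (f : CuspForm (Gamma0 N) k) (δ : SL(2, ℤ)) :
    ∃ G : ℕ → ℍ → ℂ, IsChain G ∧ G 0 = ⇑f ∣[k] δ := by
  have : ((toConjAct (δ : GL (Fin 2) ℝ)⁻¹) •
      ((Gamma0 N : Subgroup SL(2, ℤ)) : Subgroup (GL (Fin 2) ℝ))).IsArithmetic := by
    simpa [(show Rat.castHom ℝ = algebraMap ℚ ℝ by rfl), map_inv,
      Matrix.SpecialLinearGroup.map_mapGL]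
      using! Subgroup.IsArithmetic.conj
        ((Gamma0 N : Subgroup SL(2, ℤ)) : Subgroup (GL (Fin 2) ℝ))
        (Matrix.SpecialLinearGroup.mapGL ℚ δ)⁻¹
  obtain ⟨G, hG, h0⟩ := exists_isChain_of_cuspForm (CuspForm.translate f (δ : GL (Fin 2) ℝ))
  exact ⟨G, hG, h0⟩

/-- The chosen chain of iterated primitives of `f ∣[k] δ`. -/
noncomputable def chainOf (f : CuspForm (Gamma0 N) k) (δ : SL(2, ℤ)) : ℕ → ℍ → ℂ :=
  (exists_isChain_slash f δ).choose

theorem chainOf_isChain (f : CuspForm (Gamma0 N) k) (δ : SL(2, ℤ)) : IsChain (chainOf f δ) :=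
  (exists_isChain_slash f δ).choose_spec.1

theorem chainOf_zero (f : CuspForm (Gamma0 N) k) (δ : SL(2, ℤ)) :
    chainOf f δ 0 = ⇑f ∣[k] δ :=
  (exists_isChain_slash f δ).choose_spec.2

theorem chainOf_eq_of_isChain (f : CuspForm (Gamma0 N) k) (δ : SL(2, ℤ)) {G : ℕ → ℍ → ℂ}
    (hG : IsChain G) (h0 : G 0 = ⇑f ∣[k] δ) : chainOf f δ = G :=
  (chainOf_isChain f δ).eq_of_zero_eq hG ((chainOf_zero f δ).trans h0.symm)

theorem chainOf_add (f g : CuspForm (Gamma0 N) k) (δ : SL(2, ℤ)) :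
    chainOf (f + g) δ = fun i => chainOf f δ i + chainOf g δ i := by
  refine chainOf_eq_of_isChain _ _ ((chainOf_isChain f δ).add (chainOf_isChain g δ)) ?_
  simp only [chainOf_zero, CuspForm.coe_add, SlashAction.add_slash]

theorem chainOf_smul (c : ℂ) (f : CuspForm (Gamma0 N) k) (δ : SL(2, ℤ)) :
    chainOf (c • f) δ = fun i => c • chainOf f δ i := by
  refine chainOf_eq_of_isChain _ _ ((chainOf_isChain f δ).const_smul c) ?_
  simp only [chainOf_zero]
  rw [show (⇑(c • f) : ℍ → ℂ) = c • ⇑f from rfl, ModularForm.SL_smul_slash]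

theorem slash_mul_of_mem (f : CuspForm (Gamma0 N) k) {γ : SL(2, ℤ)} (hγ : γ ∈ Gamma0 N)
    (δ : SL(2, ℤ)) : ⇑f ∣[k] (γ * δ) = ⇑f ∣[k] δ := by
  rw [SlashAction.slash_mul]
  congr 1
  have := SlashInvariantFormClass.slash_action_eq f (γ : GL (Fin 2) ℝ)
    (Subgroup.mem_map_of_mem _ hγ)
  exact this

theorem chainOf_mul_of_mem (f : CuspForm (Gamma0 N) k) {γ : SL(2, ℤ)} (hγ : γ ∈ Gamma0 N)
    (δ : SL(2, ℤ)) : chainOf f (γ * δ) = chainOf f δ := by
  refine chainOf_eq_of_isChain _ _ (chainOf_isChain f δ) ?_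
  rw [chainOf_zero, slash_mul_of_mem f hγ]

/-- The value functional `f ↦ chainOf f δ i τ`. -/
noncomputable def chainL (N : ℕ) [NeZero N] (k : ℤ) (δ : SL(2, ℤ)) (i : ℕ) (τ : ℍ) :
    Module.Dual ℂ (CuspForm (Gamma0 N) k) where
  toFun f := chainOf f δ i τ
  map_add' f g := by rw [chainOf_add]; rfl
  map_smul' c f := by rw [chainOf_smul]; rfl

@[simp] theorem chainL_apply (δ : SL(2, ℤ)) (i : ℕ) (τ : ℍ) (f : CuspForm (Gamma0 N) k) :
    chainL N k δ i τ f = chainOf f δ i τ := rfl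

end chain

section period

variable (N : ℕ) [NeZero N] (m : ℕ)

/-- The first component of `δ · (X, Y)`. -/
def actX (δ : SL(2, ℤ)) (X Y : ℤ) : ℤ := δ 0 0 * X + δ 0 1 * Y
/-- The second component of `δ · (X, Y)`. -/
def actY (δ : SL(2, ℤ)) (X Y : ℤ) : ℤ := δ 1 0 * X + δ 1 1 * Y

theorem actX_mul (γ δ : SL(2, ℤ)) (X Y : ℤ) :
    actX (γ * δ) X Y = actX γ (actX δ X Y) (actY δ X Y) := by
  simp only [actX, actY, Matrix.SpecialLinearGroup.coe_mul, Matrix.mul_apply, Fin.sum_univ_two]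
  ring

theorem actY_mul (γ δ : SL(2, ℤ)) (X Y : ℤ) :
    actY (γ * δ) X Y = actY γ (actX δ X Y) (actY δ X Y) := by
  simp only [actX, actY, Matrix.SpecialLinearGroup.coe_mul, Matrix.mul_apply, Fin.sum_univ_two]
  ring

/-- The period functional `f ↦ c_f(δ; (X, Y))`. -/
noncomputable def period (δ : SL(2, ℤ)) (X Y : ℤ) :
    Module.Dual ℂ (CuspForm (Gamma0 N) ((m : ℤ) + 2)) :=
  kerV (fun i => chainL N ((m : ℤ) + 2) 1 i (δ • UpperHalfPlane.I)) m
      ((δ • UpperHalfPlane.I : ℍ) : ℂ) (actX δ X Y) (actY δ X Y)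
    - kerV (fun i => chainL N ((m : ℤ) + 2) δ i UpperHalfPlane.I) m
      (UpperHalfPlane.I : ℂ) X Y

variable {N m}

theorem period_apply_I (δ : SL(2, ℤ)) (X Y : ℤ) (f : CuspForm (Gamma0 N) ((m : ℤ) + 2)) :
    period N m δ X Y f =
      ker (chainOf f 1) m (δ • UpperHalfPlane.I) (actX δ X Y) (actY δ X Y)
        - ker (chainOf f δ) m UpperHalfPlane.I X Y := by
  have h1 := map_kerV (LinearMap.applyₗ f : Module.Dual ℂ _ →ₗ[ℂ] ℂ)
    (fun i => chainL N ((m : ℤ) + 2) 1 i (δ • UpperHalfPlane.I)) m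
      ((δ • UpperHalfPlane.I : ℍ) : ℂ) (actX δ X Y) (actY δ X Y)
  have h2 := map_kerV (LinearMap.applyₗ f : Module.Dual ℂ _ →ₗ[ℂ] ℂ)
    (fun i => chainL N ((m : ℤ) + 2) δ i UpperHalfPlane.I) m
      (UpperHalfPlane.I : ℂ) X Y
  simp only [LinearMap.applyₗ_apply_apply] at h1 h2
  rw [period, LinearMap.sub_apply, h1, h2, ker_eq_kerV, ker_eq_kerV]
  rfl

theorem period_apply (δ : SL(2, ℤ)) (X Y : ℤ) (f : CuspForm (Gamma0 N) ((m : ℤ) + 2)) (τ : ℍ) :
    period N m δ X Y f =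
      ker (chainOf f 1) m (δ • τ) (actX δ X Y) (actY δ X Y) - ker (chainOf f δ) m τ X Y := by
  rw [period_apply_I]
  have h0 : chainOf f δ 0 = chainOf f 1 0 ∣[(m : ℤ) + 2] δ := by
    rw [chainOf_zero, chainOf_zero, SlashAction.slash_one]
  have := ker_SL_sub_eq (chainOf_isChain f 1) (chainOf_isChain f δ) m δ h0 X Y
    UpperHalfPlane.I τ
  simpa [actX, actY] using this

/-- cocycle relation for `γ ∈ Γ₀(N)`. -/
theorem period_mul_of_mem {γ : SL(2, ℤ)} (hγ : γ ∈ Gamma0 N) (δ : SL(2, ℤ)) (X Y : ℤ) :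
    period N m (γ * δ) X Y = period N m γ (actX δ X Y) (actY δ X Y) + period N m δ X Y := by
  ext f
  rw [LinearMap.add_apply, period_apply (γ * δ) X Y f UpperHalfPlane.I,
    period_apply γ _ _ f (δ • UpperHalfPlane.I), period_apply δ X Y f UpperHalfPlane.I,
    chainOf_mul_of_mem f hγ, actX_mul, actY_mul, mul_smul]
  have : chainOf f γ = chainOf f 1 := by
    have := chainOf_mul_of_mem f hγ 1
    rwa [mul_one] at this
  rw [this]
  ring

/-- each period functional lies in an explicit finitely generated lattice. -/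
def periodBasis (N : ℕ) [NeZero N] (m : ℕ) (δ : SL(2, ℤ)) :
    Set (Module.Dual ℂ (CuspForm (Gamma0 N) ((m : ℤ) + 2))) :=
  kerBasis (fun i => chainL N ((m : ℤ) + 2) 1 i (δ • UpperHalfPlane.I)) m
      ((δ • UpperHalfPlane.I : ℍ) : ℂ) ∪
    kerBasis (fun i => chainL N ((m : ℤ) + 2) δ i UpperHalfPlane.I) m (UpperHalfPlane.I : ℂ)

theorem periodBasis_finite (δ : SL(2, ℤ)) : (periodBasis N m δ).Finite :=
  (kerBasis_finite _ _ _).union (kerBasis_finite _ _ _)

theorem period_mem_span_periodBasis (δ : SL(2, ℤ)) (X Y : ℤ) :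
    period N m δ X Y ∈ Submodule.span ℤ (periodBasis N m δ) := by
  refine Submodule.sub_mem _ ?_ ?_
  · exact Submodule.span_mono Set.subset_union_left (kerV_mem_span _ m _ _ _)
  · exact Submodule.span_mono Set.subset_union_right (kerV_mem_span _ m _ _ _)

variable (N m)

/-- The period lattice. -/
def periodLattice : Submodule ℤ (Module.Dual ℂ (CuspForm (Gamma0 N) ((m : ℤ) + 2))) :=
  Submodule.span ℤ {l | ∃ (δ : SL(2, ℤ)) (X Y : ℤ), l = period N m δ X Y}

theorem period_mem_periodLattice (δ : SL(2, ℤ)) (X Y : ℤ) :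
    period N m δ X Y ∈ periodLattice N m :=
  Submodule.subset_span ⟨δ, X, Y, rfl⟩

/-- The period lattice is contained in a finitely generated `ℤ`-module. -/
theorem exists_fg_periodLattice_le :
    ∃ Λ' : Submodule ℤ (Module.Dual ℂ (CuspForm (Gamma0 N) ((m : ℤ) + 2))),
      Λ'.FG ∧ periodLattice N m ≤ Λ' := by
  classical
  obtain ⟨G, R, hG, hind⟩ := sl2Z_induction_gamma0 N
  let B : Set (Module.Dual ℂ (CuspForm (Gamma0 N) ((m : ℤ) + 2))) :=
    ⋃ s ∈ (G ∪ R : Finset SL(2, ℤ)), periodBasis N m s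
  have hB : B.Finite := Set.Finite.biUnion (Finset.finite_toSet _) fun s _ => periodBasis_finite s
  refine ⟨Submodule.span ℤ B, Submodule.fg_span hB, ?_⟩
  have hsub : ∀ s ∈ (G ∪ R : Finset SL(2, ℤ)), ∀ X Y : ℤ,
      period N m s X Y ∈ Submodule.span ℤ B := fun s hs X Y =>
    Submodule.span_mono (Set.subset_biUnion_of_mem (u := fun s => periodBasis N m s) hs)
      (period_mem_span_periodBasis s X Y)
  have key : ∀ δ : SL(2, ℤ), ∀ X Y : ℤ, period N m δ X Y ∈ Submodule.span ℤ B := by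
    refine hind _ (fun ρ hρ X Y => hsub ρ (Finset.mem_union_right _ hρ) X Y) ?_
    intro g hg δ ih X Y
    rw [period_mul_of_mem (hG g hg)]
    exact Submodule.add_mem _ (hsub g (Finset.mem_union_left _ hg) _ _) (ih X Y)
  refine Submodule.span_le.mpr ?_
  rintro l ⟨δ, X, Y, rfl⟩
  exact key δ X Y

end period

end Fermat.Agent.S22


end ZBS22_001_8

/-! ### bundled: `Fermat.Agent.S22.Hecke` -/
section ZBS22_001_9

/-!
# S22: Hecke stability of the period lattice
-/

set_option autoImplicit false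

namespace Fermat.Agent.S22

open UpperHalfPlane Filter Topology CongruenceSubgroup
open scoped MatrixGroups ModularForm Manifold

section upperChain

/-- The upper triangular matrix with integer entries `a, b, d` (`a, d > 0`) in `GL (Fin 2) ℝ`. -/
noncomputable def upperZ (a b d : ℤ) (ha : 0 < a) (hd : 0 < d) : GL (Fin 2) ℝ :=
  ModularForm.upperTriangularGL (a : ℝ) (b : ℝ) (d : ℝ)
    (mul_pos (Int.cast_pos.mpr ha) (Int.cast_pos.mpr hd)).ne'

/-- The chain transported along an upper triangular matrix. -/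
noncomputable def upperChain (k : ℤ) (a b d : ℤ) (ha : 0 < a) (hd : 0 < d) (G : ℕ → ℍ → ℂ) :
    ℕ → ℍ → ℂ :=
  fun i τ => (((a : ℝ) : ℂ)) ^ (k - 1) * (((d : ℝ) : ℂ))⁻¹ * ((((d : ℝ) : ℂ)) / ((a : ℝ) : ℂ)) ^ i *
    G i (upperZ a b d ha hd • τ)

theorem upperChain_isChain (k : ℤ) (a b d : ℤ) (ha : 0 < a) (hd : 0 < d) {G : ℕ → ℍ → ℂ}
    (hG : IsChain G) : IsChain (upperChain k a b d ha hd G) :=
  hG.upper k (a : ℝ) (b : ℝ) (d : ℝ) (Int.cast_pos.mpr ha) (Int.cast_pos.mpr hd)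

theorem upperChain_zero (k : ℤ) (a b d : ℤ) (ha : 0 < a) (hd : 0 < d) (G : ℕ → ℍ → ℂ) :
    upperChain k a b d ha hd G 0 = G 0 ∣[k] upperZ a b d ha hd := by
  funext τ
  rw [upperZ, slash_upperTriangularGL k (a : ℝ) (b : ℝ) (d : ℝ) (Int.cast_pos.mpr ha)
    (Int.cast_pos.mpr hd)]
  simp [upperChain, upperZ]

theorem ker_upperChain (m : ℕ) (a b d : ℤ) (ha : 0 < a) (hd : 0 < d) (G : ℕ → ℍ → ℂ)
    (τ : ℍ) (x y : ℂ) :
    ker (upperChain ((m : ℤ) + 2) a b d ha hd G) m τ x y =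
      ker G m (upperZ a b d ha hd • τ) ((a : ℂ) * x + (b : ℂ) * y) ((d : ℂ) * y) := by
  have ha' : ((a : ℝ) : ℂ) ≠ 0 := by exact_mod_cast ha.ne'
  have hd' : ((d : ℝ) : ℂ) ≠ 0 := by exact_mod_cast hd.ne'
  have hcoe : ((upperZ a b d ha hd • τ : ℍ) : ℂ) = (((a : ℝ) : ℂ) * τ + ((b : ℝ) : ℂ)) / ((d : ℝ) : ℂ) :=
    coe_upperTriangularGL_smul (a : ℝ) (b : ℝ) (d : ℝ) (Int.cast_pos.mpr ha)
      (Int.cast_pos.mpr hd) τ
  have hu : ((d : ℝ) : ℂ) * ((upperZ a b d ha hd • τ : ℍ) : ℂ) =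
      ((a : ℝ) : ℂ) * τ + ((b : ℝ) : ℂ) := by
    rw [hcoe]; field_simp
  have hB : (((d : ℝ) : ℂ) / ((a : ℝ) : ℂ)) * ((a : ℝ) : ℂ) = ((d : ℝ) : ℂ) := by field_simp
  have key := kerV_upper (W := ℂ) (fun i => G i (upperZ a b d ha hd • τ))
    (fun i => upperChain ((m : ℤ) + 2) a b d ha hd G i τ) m (τ : ℂ)
    ((upperZ a b d ha hd • τ : ℍ) : ℂ) x y ((a : ℝ) : ℂ) ((b : ℝ) : ℂ) ((d : ℝ) : ℂ)
    (((d : ℝ) : ℂ) / ((a : ℝ) : ℂ))
    ((((a : ℝ) : ℂ)) ^ ((m : ℤ) + 2 - 1) * (((d : ℝ) : ℂ))⁻¹) hu hB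
    (fun i => by simp only [upperChain, smul_eq_mul])
  have hCB : (((a : ℝ) : ℂ)) ^ ((m : ℤ) + 2 - 1) * (((d : ℝ) : ℂ))⁻¹ *
      (((d : ℝ) : ℂ) / ((a : ℝ) : ℂ)) = ((a : ℝ) : ℂ) ^ m := by
    have : ((m : ℤ) + 2 - 1) = ((m + 1 : ℕ) : ℤ) := by push_cast; ring
    rw [this, zpow_natCast, pow_succ]
    field_simp
  rw [hCB, smul_eq_mul, smul_eq_mul] at key
  have key' := mul_left_cancel₀ (pow_ne_zero m ha') key
  rw [ker_eq_kerV, ker_eq_kerV, key']
  simp only [Complex.ofReal_intCast]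

end upperChain

section decomp

theorem upper_mul_SL2_decomp (a b d : ℤ) (ha : 0 < a) (hd : 0 < d) (δ : SL(2, ℤ)) :
    ∃ (δ' : SL(2, ℤ)) (a' b' d' : ℤ), 0 < a' ∧ 0 < d' ∧
      (!![a, b; 0, d] : Matrix (Fin 2) (Fin 2) ℤ) * (δ : Matrix (Fin 2) (Fin 2) ℤ) =
        (δ' : Matrix (Fin 2) (Fin 2) ℤ) * !![a', b'; 0, d'] := by
  have hdet : 0 < ((!![a, b; 0, d] : Matrix (Fin 2) (Fin 2) ℤ) *
      (δ : Matrix (Fin 2) (Fin 2) ℤ)).det := by
    rw [Matrix.det_mul, Matrix.det_fin_two_of, δ.det_coe]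
    simp only [mul_zero, sub_zero, mul_one]
    exact mul_pos ha hd
  obtain ⟨δ', a', b', d', ha', hd', h⟩ := exists_SL2_mul_upper _ hdet
  exact ⟨δ', a', b', d', ha', hd', h⟩

/-- The data of a decomposition `u * δ = δ' * u'`. -/
structure UpperDecomp (a b d : ℤ) (δ : SL(2, ℤ)) where
  δ' : SL(2, ℤ)
  a' : ℤ
  b' : ℤ
  d' : ℤ
  ha' : 0 < a'
  hd' : 0 < d'
  eq : (!![a, b; 0, d] : Matrix (Fin 2) (Fin 2) ℤ) * (δ : Matrix (Fin 2) (Fin 2) ℤ) =
        (δ' : Matrix (Fin 2) (Fin 2) ℤ) * !![a', b'; 0, d']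

noncomputable def upperDecomp (a b d : ℤ) (ha : 0 < a) (hd : 0 < d) (δ : SL(2, ℤ)) :
    UpperDecomp a b d δ :=
  Classical.choice <| by
    obtain ⟨δ', a', b', d', ha', hd', h⟩ := upper_mul_SL2_decomp a b d ha hd δ
    exact ⟨⟨δ', a', b', d', ha', hd', h⟩⟩

variable {a b d : ℤ} {δ : SL(2, ℤ)}

theorem UpperDecomp.gl_eq (D : UpperDecomp a b d δ) (ha : 0 < a) (hd : 0 < d) :
    upperZ a b d ha hd * (δ : GL (Fin 2) ℝ) =
      (D.δ' : GL (Fin 2) ℝ) * upperZ D.a' D.b' D.d' D.ha' D.hd' := by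
  apply Matrix.GeneralLinearGroup.ext
  intro i j
  have h2 := congrArg (fun M : Matrix (Fin 2) (Fin 2) ℤ => ((M i j : ℤ) : ℝ)) D.eq
  simp only [Matrix.mul_apply, Fin.sum_univ_two] at h2
  simp only [upperZ, Matrix.GeneralLinearGroup.coe_mul, ModularForm.val_upperTriangularGL,
    Matrix.mul_apply, Fin.sum_univ_two]
  fin_cases i <;> fin_cases j <;> simpa using h2

theorem UpperDecomp.smul_eq (D : UpperDecomp a b d δ) (ha : 0 < a) (hd : 0 < d) (τ : ℍ) :
    upperZ a b d ha hd • (δ • τ) = D.δ' • (upperZ D.a' D.b' D.d' D.ha' D.hd' • τ) := by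
  have h := congrArg (fun g : GL (Fin 2) ℝ => g • τ) (D.gl_eq ha hd)
  simp only [mul_smul] at h
  exact h

theorem UpperDecomp.slash_eq (D : UpperDecomp a b d δ) (ha : 0 < a) (hd : 0 < d) (k : ℤ)
    (f : ℍ → ℂ) :
    (f ∣[k] upperZ a b d ha hd) ∣[k] δ = (f ∣[k] D.δ') ∣[k] upperZ D.a' D.b' D.d' D.ha' D.hd' := by
  rw [ModularForm.SL_slash, ModularForm.SL_slash, ← SlashAction.slash_mul, ← SlashAction.slash_mul,
    D.gl_eq ha hd]

theorem UpperDecomp.actX_eq (D : UpperDecomp a b d δ) (X Y : ℤ) :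
    a * actX δ X Y + b * actY δ X Y = actX D.δ' (D.a' * X + D.b' * Y) (D.d' * Y) := by
  have h00 := congrArg (fun M : Matrix (Fin 2) (Fin 2) ℤ => M 0 0) D.eq
  have h01 := congrArg (fun M : Matrix (Fin 2) (Fin 2) ℤ => M 0 1) D.eq
  simp [Matrix.mul_apply, Fin.sum_univ_two] at h00 h01
  simp only [actX, actY]
  linear_combination X * h00 + Y * h01

theorem UpperDecomp.actY_eq (D : UpperDecomp a b d δ) (X Y : ℤ) :
    d * actY δ X Y = actY D.δ' (D.a' * X + D.b' * Y) (D.d' * Y) := by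
  have h10 := congrArg (fun M : Matrix (Fin 2) (Fin 2) ℤ => M 1 0) D.eq
  have h11 := congrArg (fun M : Matrix (Fin 2) (Fin 2) ℤ => M 1 1) D.eq
  simp [Matrix.mul_apply, Fin.sum_univ_two] at h10 h11
  simp only [actY]
  linear_combination X * h10 + Y * h11

end decomp

section hecke

variable {N : ℕ} [NeZero N] {m : ℕ}

/-- Key computation: the periods of `f' = ∑ᵢ f ∣ uᵢ` are sums of periods of `f`. -/
theorem period_apply_of_coe_eq_sum {ι : Type*} (s : Finset ι) (a b d : ι → ℤ)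
    (ha : ∀ i, 0 < a i) (hd : ∀ i, 0 < d i)
    (f f' : CuspForm (Gamma0 N) ((m : ℤ) + 2))
    (hff' : (⇑f' : ℍ → ℂ) = ∑ i ∈ s, ⇑f ∣[(m : ℤ) + 2] upperZ (a i) (b i) (d i) (ha i) (hd i))
    (δ : SL(2, ℤ)) (X Y : ℤ) :
    period N m δ X Y f' = ∑ i ∈ s,
      period N m (upperDecomp (a i) (b i) (d i) (ha i) (hd i) δ).δ'
        ((upperDecomp (a i) (b i) (d i) (ha i) (hd i) δ).a' * X +
          (upperDecomp (a i) (b i) (d i) (ha i) (hd i) δ).b' * Y)
        ((upperDecomp (a i) (b i) (d i) (ha i) (hd i) δ).d' * Y) f := by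
  classical
  -- the chain of `f'` at `1`
  have h1 : chainOf f' 1 = fun n => ∑ i ∈ s,
      upperChain ((m : ℤ) + 2) (a i) (b i) (d i) (ha i) (hd i) (chainOf f 1) n := by
    refine chainOf_eq_of_isChain _ _
      (IsChain.sum s fun i _ => upperChain_isChain ((m : ℤ) + 2) _ _ _ _ _ (chainOf_isChain f 1)) ?_
    rw [SlashAction.slash_one, hff']
    refine Finset.sum_congr rfl fun i _ => ?_
    rw [upperChain_zero, chainOf_zero, SlashAction.slash_one]
  -- the chain of `f'` at `δ`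
  have h2 : chainOf f' δ = fun n => ∑ i ∈ s,
      upperChain ((m : ℤ) + 2) (upperDecomp (a i) (b i) (d i) (ha i) (hd i) δ).a'
        (upperDecomp (a i) (b i) (d i) (ha i) (hd i) δ).b'
        (upperDecomp (a i) (b i) (d i) (ha i) (hd i) δ).d'
        (upperDecomp (a i) (b i) (d i) (ha i) (hd i) δ).ha'
        (upperDecomp (a i) (b i) (d i) (ha i) (hd i) δ).hd'
        (chainOf f (upperDecomp (a i) (b i) (d i) (ha i) (hd i) δ).δ') n := by
    refine chainOf_eq_of_isChain _ _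
      (IsChain.sum s fun i _ => upperChain_isChain ((m : ℤ) + 2) _ _ _ _ _ (chainOf_isChain f _)) ?_
    rw [hff', SlashAction.sum_slash]
    refine Finset.sum_congr rfl fun i _ => ?_
    rw [upperChain_zero, chainOf_zero,
      (upperDecomp (a i) (b i) (d i) (ha i) (hd i) δ).slash_eq (ha i) (hd i)]
  rw [period_apply_I, h1, h2, ker_eq_kerV, ker_eq_kerV]
  simp only [Finset.sum_apply]
  rw [kerV_sum, kerV_sum, ← Finset.sum_sub_distrib]
  refine Finset.sum_congr rfl fun i _ => ?_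
  set D := upperDecomp (a i) (b i) (d i) (ha i) (hd i) δ with hD
  rw [← ker_eq_kerV, ← ker_eq_kerV, ker_upperChain, ker_upperChain,
    period_apply D.δ' _ _ f (upperZ D.a' D.b' D.d' D.ha' D.hd' • UpperHalfPlane.I),
    D.smul_eq (ha i) (hd i)]
  have e1 := D.actX_eq X Y
  have e2 := D.actY_eq X Y
  have e1' : ((a i : ℤ) : ℂ) * (actX δ X Y : ℂ) + ((b i : ℤ) : ℂ) * (actY δ X Y : ℂ) =
      ((actX D.δ' (D.a' * X + D.b' * Y) (D.d' * Y) : ℤ) : ℂ) := by exact_mod_cast e1
  have e2' : ((d i : ℤ) : ℂ) * (actY δ X Y : ℂ) =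
      ((actY D.δ' (D.a' * X + D.b' * Y) (D.d' * Y) : ℤ) : ℂ) := by exact_mod_cast e2
  rw [e1', e2']
  push_cast
  rfl

end hecke

end Fermat.Agent.S22


end ZBS22_001_9

/-! ### bundled: `Fermat.Agent.S22.FromIntegral` -/
section ZBS22_001_10

/-!
# S22 from the integral structure (route via S23 for all weights)

`moduleFinite_heckeAlgebra_of_hasIntegralStructure`:
if `S_k(Γ₀(N))` has an integral structure (for the given `k ≥ 1`), then the Hecke algebra is a
finite `ℤ`-module.  Also the trivial case where the space of cusp forms is zero.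
-/

set_option autoImplicit false

open CongruenceSubgroup

noncomputable section

namespace Fermat.Agent.S22

/-- If all cusp forms vanish, the Hecke algebra is (trivially) finite over `ℤ`. -/
theorem moduleFinite_heckeAlgebra_of_forall_eq_zero (N : ℕ) [NeZero N] (k : ℤ) (S : Set ℕ)
    (h : ∀ f : CuspForm (Gamma0 N) k, f = 0) :
    Module.Finite ℤ (CuspForm.heckeAlgebra N k S) := by
  have : Subsingleton (CuspForm (Gamma0 N) k) := ⟨fun a b => by rw [h a, h b]⟩
  have : Subsingleton (Module.End ℂ (CuspForm (Gamma0 N) k)) :=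
    ⟨fun a b => LinearMap.ext fun x => Subsingleton.elim _ _⟩
  have : Subsingleton (CuspForm.heckeAlgebra N k S) :=
    ⟨fun a b => Subtype.ext (Subsingleton.elim _ _)⟩
  exact Module.Finite.of_surjective (0 : ℤ →ₗ[ℤ] CuspForm.heckeAlgebra N k S)
    fun y => ⟨0, Subsingleton.elim _ _⟩

/-- The Hecke algebra is finite over `ℤ` in weight `≤ 1`. -/
theorem moduleFinite_heckeAlgebra_of_weight_le_one (N : ℕ) [NeZero N] {k : ℤ} (hk : k ≤ 1)
    (S : Set ℕ) : Module.Finite ℤ (CuspForm.heckeAlgebra N k S) :=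
  moduleFinite_heckeAlgebra_of_forall_eq_zero N k S
    fun f => cuspForm_eq_zero_of_weight_le_one N hk f

/-- The restriction of a Hecke operator to the integral lattice. -/
def latticeRestrictK (N : ℕ) [NeZero N] {k : ℤ} (hk : 1 ≤ k) (S : Set ℕ) :
    CuspForm.heckeAlgebra N k S →ₗ[ℤ] Module.End ℤ ↥(CuspForm.intLattice N k) where
  toFun t := LinearMap.restrict ((t : Module.End ℂ (CuspForm (Gamma0 N) k)).restrictScalars ℤ)
    (fun _f hf => CuspForm.mem_intLattice_of_mem_heckeAlgebra hk t.2 hf)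
  map_add' _ _ := LinearMap.ext fun _ => Subtype.ext rfl
  map_smul' _ _ := LinearMap.ext fun _ => Subtype.ext rfl

theorem latticeRestrictK_injective (N : ℕ) [NeZero N] {k : ℤ} (hk : 1 ≤ k) (S : Set ℕ)
    (hint : CuspForm.HasIntegralStructure N k) :
    Function.Injective (latticeRestrictK N hk S) := by
  rw [← LinearMap.ker_eq_bot, LinearMap.ker_eq_bot']
  intro t ht
  refine Subtype.ext (LinearMap.ext_on hint fun f hf => ?_)
  exact congrArg Subtype.val (LinearMap.congr_fun ht ⟨f, hf⟩)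

/-- **S22 from the integral structure.** -/
theorem moduleFinite_heckeAlgebra_of_hasIntegralStructure (N : ℕ) [NeZero N] {k : ℤ}
    (hk : 1 ≤ k) (S : Set ℕ) (hint : CuspForm.HasIntegralStructure N k) :
    Module.Finite ℤ (CuspForm.heckeAlgebra N k S) := by
  have : Module.Finite ℤ ↥(CuspForm.intLattice N k) :=
    Module.Finite.iff_fg.mpr (CuspForm.intLattice_fg N k)
  have : IsAddTorsionFree (CuspForm (Gamma0 N) k) := .of_isTorsionFree ℂ _
  have : Module.Free ℤ ↥(CuspForm.intLattice N k) := Module.free_of_finite_type_torsion_free'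
  exact Module.Finite.of_injective (latticeRestrictK N hk S)
    (latticeRestrictK_injective N hk S hint)

end Fermat.Agent.S22

end
end ZBS22_001_10

/-! ### bundled: `Fermat.Agent.S22.Final` -/
section ZBS22_001_11

/-!
# S22: the period lattice is Hecke stable and separating; the Hecke algebra is finite over `ℤ`.
-/

set_option autoImplicit false

namespace Fermat.Agent.S22

open UpperHalfPlane Filter Topology CongruenceSubgroup
open scoped MatrixGroups ModularForm Manifold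

section

variable {N : ℕ} [NeZero N] {m : ℕ}

theorem upperZ_eq (a b d : ℤ) (ha : 0 < a) (hd : 0 < d) (x y z : ℝ) (h : x * z ≠ 0)
    (hx : (a : ℝ) = x) (hy : (b : ℝ) = y) (hz : (d : ℝ) = z) :
    upperZ a b d ha hd = ModularForm.upperTriangularGL x y z h := by
  subst hx hy hz
  rfl

/-- Index data for the Hecke operator `T_p`: `i < p ↦ [1, i; 0, p]`, `i = p ↦ [p, 0; 0, 1]`. -/
def heckeA (p i : ℕ) : ℤ := if i < p then 1 else p
def heckeB (p i : ℕ) : ℤ := if i < p then i else 0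
def heckeD (p i : ℕ) : ℤ := if i < p then p else 1

theorem heckeA_pos {p : ℕ} (hp : 0 < p) (i : ℕ) : 0 < heckeA p i := by
  unfold heckeA; split_ifs <;> simp [hp]

theorem heckeD_pos {p : ℕ} (hp : 0 < p) (i : ℕ) : 0 < heckeD p i := by
  unfold heckeD; split_ifs <;> simp [hp]

theorem upperZ_hecke_of_lt {p : ℕ} (hp : 0 < p) {i : ℕ} (hi : i < p) :
    upperZ (heckeA p i) (heckeB p i) (heckeD p i) (heckeA_pos hp i) (heckeD_pos hp i) =
      ModularForm.heckeMatrix p i := by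
  rw [heckeMatrix_eq_upperTriangularGL hp]
  apply upperZ_eq <;> simp [heckeA, heckeB, heckeD, hi]

theorem upperZ_hecke_self {p : ℕ} (hp : 0 < p) :
    upperZ (heckeA p p) (heckeB p p) (heckeD p p) (heckeA_pos hp p) (heckeD_pos hp p) =
      ModularForm.heckeDiagMatrix p := by
  rw [heckeDiagMatrix_eq_upperTriangularGL hp]
  apply upperZ_eq <;> simp [heckeA, heckeB, heckeD]

theorem heckeU_eq_sum (k : ℤ) {p : ℕ} (hp : 0 < p) (f : ℍ → ℂ) :
    ModularForm.heckeU k p f = ∑ i ∈ Finset.range p,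
      f ∣[k] upperZ (heckeA p i) (heckeB p i) (heckeD p i) (heckeA_pos hp i) (heckeD_pos hp i) := by
  rw [ModularForm.heckeU_def]
  refine Finset.sum_congr rfl fun i hi => ?_
  rw [upperZ_hecke_of_lt hp (Finset.mem_range.mp hi)]

theorem heckeT_eq_sum (k : ℤ) {p : ℕ} (hp : 0 < p) (f : ℍ → ℂ) :
    ModularForm.heckeT k p f = ∑ i ∈ Finset.range (p + 1),
      f ∣[k] upperZ (heckeA p i) (heckeB p i) (heckeD p i) (heckeA_pos hp i) (heckeD_pos hp i) := by
  rw [ModularForm.heckeT_eq_heckeU_add, Finset.sum_range_succ, heckeU_eq_sum k hp,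
    upperZ_hecke_self hp]

/-- Hecke stability on generators of the lattice. -/
theorem period_comp_mem_of_coe_eq_sum {ι : Type*} (s : Finset ι) (a b d : ι → ℤ)
    (ha : ∀ i, 0 < a i) (hd : ∀ i, 0 < d i)
    (t : Module.End ℂ (CuspForm (Gamma0 N) ((m : ℤ) + 2)))
    (ht : ∀ f : CuspForm (Gamma0 N) ((m : ℤ) + 2), (⇑(t f) : ℍ → ℂ) =
      ∑ i ∈ s, ⇑f ∣[(m : ℤ) + 2] upperZ (a i) (b i) (d i) (ha i) (hd i))
    (l : Module.Dual ℂ (CuspForm (Gamma0 N) ((m : ℤ) + 2))) (hl : l ∈ periodLattice N m) :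
    l ∘ₗ t ∈ periodLattice N m := by
  induction hl using Submodule.span_induction with
  | mem l hl =>
    obtain ⟨δ, X, Y, rfl⟩ := hl
    have : period N m δ X Y ∘ₗ t = ∑ i ∈ s,
        period N m (upperDecomp (a i) (b i) (d i) (ha i) (hd i) δ).δ'
          ((upperDecomp (a i) (b i) (d i) (ha i) (hd i) δ).a' * X +
            (upperDecomp (a i) (b i) (d i) (ha i) (hd i) δ).b' * Y)
          ((upperDecomp (a i) (b i) (d i) (ha i) (hd i) δ).d' * Y) := by
      ext f
      rw [LinearMap.comp_apply, period_apply_of_coe_eq_sum s a b d ha hd f (t f) (ht f) δ X Y,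
        LinearMap.sum_apply]
    rw [this]
    exact Submodule.sum_mem _ fun i _ => period_mem_periodLattice N m _ _ _
  | zero => simp
  | add x y _ _ hx hy =>
    rw [LinearMap.add_comp]
    exact Submodule.add_mem _ hx hy
  | smul c x _ hx =>
    have : (c • x) ∘ₗ t = c • (x ∘ₗ t) := by
      ext f; simp
    rw [this]
    exact Submodule.smul_mem _ _ hx

theorem periodLattice_stable (S : Set ℕ) (t : Module.End ℂ (CuspForm (Gamma0 N) ((m : ℤ) + 2)))
    (ht : t ∈ CuspForm.heckeGenerators N ((m : ℤ) + 2) S)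
    (l : Module.Dual ℂ (CuspForm (Gamma0 N) ((m : ℤ) + 2))) (hl : l ∈ periodLattice N m) :
    l ∘ₗ t ∈ periodLattice N m := by
  rcases ht with ⟨ℓ, hℓ, hℓN, -, rfl⟩ | ⟨q, hqN, hq, -, rfl⟩
  · exact period_comp_mem_of_coe_eq_sum (Finset.range (ℓ + 1)) (heckeA ℓ) (heckeB ℓ) (heckeD ℓ)
      (heckeA_pos hℓ.pos) (heckeD_pos hℓ.pos) _
      (fun f => by rw [CuspForm.coe_heckeTLin_apply, heckeT_eq_sum _ hℓ.pos]) l hl
  · exact period_comp_mem_of_coe_eq_sum (Finset.range q) (heckeA q) (heckeB q) (heckeD q)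
      (heckeA_pos hq.pos) (heckeD_pos hq.pos) _
      (fun f => by rw [CuspForm.coe_heckeULin_apply, heckeU_eq_sum _ hq.pos]) l hl

theorem periodLattice_separating (f : CuspForm (Gamma0 N) ((m : ℤ) + 2))
    (hf : ∀ l ∈ periodLattice N m, l f = 0) : f = 0 := by
  refine eq_zero_of_periods_eq_zero N m f (fun δ => chainOf f δ) (fun δ => chainOf_isChain f δ)
    (fun δ => chainOf_zero f δ) (fun δ X Y => ?_)
  have := hf _ (period_mem_periodLattice N m δ X Y)
  rw [period_apply_I] at this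
  simpa [actX, actY] using this

end

/-- **S22**: the Hecke algebra is a finitely generated `ℤ`-module. -/
theorem moduleFinite_heckeAlgebra (N : ℕ) [NeZero N] (k : ℤ) (S : Set ℕ) :
    Module.Finite ℤ (CuspForm.heckeAlgebra N k S) := by
  by_cases hk : k ≤ 1
  · exact moduleFinite_heckeAlgebra_of_weight_le_one N hk S
  · obtain ⟨m, rfl⟩ : ∃ m : ℕ, k = (m : ℤ) + 2 :=
      ⟨(k - 2).toNat, by rw [Int.toNat_of_nonneg (by omega)]; ring⟩
    obtain ⟨Λ', hfg, hle⟩ := exists_fg_periodLattice_le N m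
    exact moduleFinite_adjoin_of_dual_lattice' (CuspForm.heckeGenerators N ((m : ℤ) + 2) S)
      (periodLattice N m) Λ' hle hfg (periodLattice_stable S) periodLattice_separating

end Fermat.Agent.S22


end ZBS22_001_11
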