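/- GENERATED FILE (helper35, build-time optimisation, NOTES/ZB.md): verbatim concatenation of the modules
   Fermat.Agent.S24.Defs
   Fermat.Agent.S24.AnalyticDefs
   Fermat.Agent.S24.Model
   Fermat.Agent.S24.ModelGamma
   Fermat.Agent.S24.Realization
   Fermat.Agent.S24.RealizationGlue
   Fermat.Agent.S24.BridgeAn
   Fermat.Agent.S24.FFGen
   Fermat.Agent.S24.BridgeAlg
   Fermat.Agent.S24.Invariants
   Fermat.Agent.S24.StabCore
   Fermat.Agent.S24.Stab
   Fermat.Agent.S24.Transc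
   Fermat.Agent.ES.HPrincipal
   Do not edit; do not import together with these modules. -/
import Fermat.Statements.S24
import Fermat.Prelude.Def_ModularForm_HeckeOperator
import Mathlib.NumberTheory.ModularForms.QExpansion
import Mathlib.FieldTheory.IntermediateField.Adjoin.Algebra
import Mathlib.RingTheory.Localization.FractionRing
import Mathlib.RingTheory.MvPolynomial.Basic
import Mathlib.RingTheory.Adjoin.Polynomial.Basic
import Fermat.Agent.ZB.S22_002
import Fermat.Agent.ZB.S24_011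
import Fermat.Agent.ZB.S24_012
import Fermat.Agent.ZB.S24_013

/-! ### bundled: `Fermat.Agent.S24.Defs` -/
section ZBS24_001_0

/-!
# S24 — basic definitions and the top-level reduction

`K = ℚ̄`, `F = modularFunctionFieldBar N ⊂ ℚ̄((q))`, `jF N : F` the element `j(q)`.
-/

set_option autoImplicit false

noncomputable section

open AlgebraicCurve ModularCurve KaehlerDifferential

namespace Fermat.Agent.S24

/-- The base field `ℚ̄`. -/
abbrev Kb : Type := AlgebraicClosure ℚ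

/-- The function field of `X₀(N)` over `ℚ̄` (as a type). -/
abbrev FF (N : ℕ) : Type := ↥(ModularCurve.modularFunctionFieldBar N)

/-- `j(q)` with coefficients in `ℚ̄`. -/
def jBar : LaurentSeries Kb := coeffEmb Kb jq

theorem jBar_mem (N : ℕ) [NeZero N] : jBar ∈ ModularCurve.modularFunctionFieldBar N := by
  refine coeffEmb_mem_laurentBaseChange Kb ?_
  have h := jqd_mem_full N (one_dvd N)
  rwa [qExpand_one_apply] at h

/-- `j` as an element of the function field. -/
def jF (N : ℕ) [NeZero N] : FF N := ⟨jBar, jBar_mem N⟩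

end Fermat.Agent.S24

end
end ZBS24_001_0

/-! ### bundled: `Fermat.Agent.S24.AnalyticDefs` -/
section ZBS24_001_1

/-!
# S24 — shared analytic definitions (used by P4, P5, P6, P7)

* `embC : ℚ̄ →+* ℂ` a fixed embedding, `algKbC : Algebra ℚ̄ ℂ` (NOT a global instance; use
  `attribute [local instance] Fermat.Agent.S24.algKbC`).
* `Jfun : ℍ → ℂ`, the analytic `j = E₄³/Δ` (so `Jfun = q⁻¹ + 744 + …`).
* `IsLevelMatrix N g`: `g : GL (Fin 2) ℝ` is an integer matrix with positive determinant dividing `N`.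
* `gens N`: the functions `τ ↦ Jfun (g • τ)`, `g` a level matrix.
* `Ban N = ℚ̄[gens N] ⊂ (ℍ → ℂ)`, `Man N = FractionRing (Ban N)`.
-/

set_option autoImplicit false

noncomputable section

open UpperHalfPlane
open scoped MatrixGroups

namespace Fermat.Agent.S24

/-- A fixed embedding `ℚ̄ → ℂ`. -/
def embC : Kb →+* ℂ :=
  letI : Algebra ℚ Kb := AlgebraicClosure.instAlgebra (k := ℚ) (R := ℚ)
  haveI : Algebra.IsAlgebraic ℚ Kb := AlgebraicClosure.isAlgebraic ℚ
  (IsAlgClosed.lift (R := ℚ) (S := Kb) (M := ℂ)).toRingHom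

/-- The `ℚ̄`-algebra structure on `ℂ` given by `embC`. Not a global instance. -/
@[reducible] def algKbC : Algebra Kb ℂ := embC.toAlgebra

attribute [local instance] algKbC

theorem algebraMap_Kb_C (a : Kb) : algebraMap Kb ℂ a = embC a := rfl

/-- The analytic `j`-function `E₄³/Δ` on the upper half plane. -/
def Jfun (τ : ℍ) : ℂ := (ModularForm.E₄ τ) ^ 3 / ModularForm.discriminant τ

/-- `g` is (the image in `GL₂(ℝ)` of) an integer matrix with positive determinant dividing `N`. -/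
def IsLevelMatrix (N : ℕ) (g : GL (Fin 2) ℝ) : Prop :=
  ∃ A : Matrix (Fin 2) (Fin 2) ℤ, 0 < A.det ∧ A.det.natAbs ∣ N ∧
    (g : Matrix (Fin 2) (Fin 2) ℝ) = A.map (Int.cast : ℤ → ℝ)

/-- The function `τ ↦ J(g τ)`. -/
def Jcomp (g : GL (Fin 2) ℝ) : ℍ → ℂ := fun τ => Jfun (g • τ)

/-- The generators `J ∘ g`, `g` an integer matrix of positive determinant dividing `N`. -/
def gens (N : ℕ) : Set (ℍ → ℂ) := {f | ∃ g, IsLevelMatrix N g ∧ f = Jcomp g}

/-- The `ℚ̄`-algebra generated by the `J ∘ g`. -/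
def Ban (N : ℕ) : Subalgebra Kb (ℍ → ℂ) := Algebra.adjoin Kb (gens N)

/-- `J(dτ)` for `d : ℕ`, as a function on `ℍ` (junk `Jfun` if `d = 0`). -/
def Jd (d : ℕ) : ℍ → ℂ := Jcomp (ModularForm.heckeDiagMatrix d)

/-- The field `M` of the realization: the fraction field of `Ban N`
(`Ban N` is a domain: its elements are holomorphic on the connected `ℍ`; to be proved in P5a). -/
abbrev Man (N : ℕ) : Type := FractionRing (Ban N)

end Fermat.Agent.S24

end
end ZBS24_001_1

/-! ### bundled: `Fermat.Agent.S24.Model` -/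
section ZBS24_001_2

/-!
# S24 piece P5a — the analytic model: `Ban N` is a domain of holomorphic functions,
the `SL(2,ℤ)`-action on `Man N = FractionRing (Ban N)`.
-/

set_option autoImplicit false

noncomputable section

open UpperHalfPlane
open scoped MatrixGroups Manifold ModularForm

namespace Fermat.Agent.S24

attribute [local instance] algKbC

/-! ### `Jfun` -/

/-- `Jfun` is holomorphic on `ℍ`. -/
theorem mdifferentiable_Jfun : MDiff Jfun := by
  have h4 : MDiff (ModularForm.E₄ : ℍ → ℂ) := ModularFormClass.holo ModularForm.E₄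
  have hΔ : MDiff (CuspForm.discriminant : ℍ → ℂ) :=
    ModularFormClass.holo CuspForm.discriminant
  rw [UpperHalfPlane.mdifferentiable_iff] at h4 hΔ ⊢
  have : (Jfun ∘ ofComplex) =
      fun z => ((ModularForm.E₄ : ℍ → ℂ) ∘ ofComplex) z ^ 3 /
        ((CuspForm.discriminant : ℍ → ℂ) ∘ ofComplex) z := by
    ext z; simp [Jfun, CuspForm.coe_discriminant]
  rw [this]
  refine DifferentiableOn.div (h4.pow 3) hΔ (fun z _ => ?_)
  exact ModularForm.discriminant_ne_zero _

/-- `Jfun` is `SL(2,ℤ)`-invariant. -/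
theorem Jfun_smul_SL (γ : SL(2, ℤ)) (τ : ℍ) : Jfun (γ • τ) = Jfun τ := by
  have hγ : (γ : GL (Fin 2) ℝ) ∈ 𝒮ℒ := ⟨γ, rfl⟩
  have h4 : ModularForm.E₄ (γ • τ) = (denom γ τ) ^ (4 : ℤ) * ModularForm.E₄ τ :=
    SlashInvariantForm.slash_action_eqn'' ModularForm.E₄ hγ τ
  have hΔ : CuspForm.discriminant (γ • τ) =
      (denom γ τ) ^ (12 : ℤ) * CuspForm.discriminant τ :=
    SlashInvariantForm.slash_action_eqn'' CuspForm.discriminant hγ τ
  have hd : denom γ τ ≠ 0 := denom_ne_zero _ _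
  have hne : ModularForm.discriminant τ ≠ 0 := ModularForm.discriminant_ne_zero τ
  rw [CuspForm.coe_discriminant] at hΔ
  simp only [Jfun]
  rw [h4, hΔ]
  have e1 : (denom γ τ) ^ (4 : ℤ) = (denom γ τ) ^ 4 := zpow_ofNat _ 4
  have e2 : (denom γ τ) ^ (12 : ℤ) = (denom γ τ) ^ 12 := zpow_ofNat _ 12
  rw [e1, e2]
  field_simp

/-! ### Level matrices -/

theorem IsLevelMatrix.det_pos {N : ℕ} {g : GL (Fin 2) ℝ} (h : IsLevelMatrix N g) :
    0 < g.det.val := by
  obtain ⟨A, hA, -, hg⟩ := h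
  rw [Matrix.GeneralLinearGroup.val_det_apply, hg]
  have : (A.map (Int.cast : ℤ → ℝ)).det = ((A.det : ℤ) : ℝ) := by
    have := (Int.castRingHom ℝ).map_det A
    simpa [RingHom.mapMatrix_apply] using this.symm
  rw [this]
  exact_mod_cast hA

theorem isLevelMatrix_one (N : ℕ) : IsLevelMatrix N 1 :=
  ⟨1, by simp, by simp, by simp⟩

/-- Right multiplication by an element of `SL(2,ℤ)` preserves level matrices. -/
theorem IsLevelMatrix.mul_SL {N : ℕ} {g : GL (Fin 2) ℝ} (h : IsLevelMatrix N g)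
    (γ : SL(2, ℤ)) : IsLevelMatrix N (g * (γ : GL (Fin 2) ℝ)) := by
  obtain ⟨A, hA, hAN, hg⟩ := h
  refine ⟨A * (γ : Matrix (Fin 2) (Fin 2) ℤ), ?_, ?_, ?_⟩
  · rw [Matrix.det_mul, γ.det_coe, mul_one]; exact hA
  · rw [Matrix.det_mul, γ.det_coe, mul_one]; exact hAN
  · rw [Matrix.GeneralLinearGroup.coe_mul, hg, Matrix.map_mul_intCast]
    congr 1

/-- Left multiplication by an element of `SL(2,ℤ)` preserves level matrices. -/
theorem IsLevelMatrix.SL_mul {N : ℕ} {g : GL (Fin 2) ℝ} (h : IsLevelMatrix N g)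
    (γ : SL(2, ℤ)) : IsLevelMatrix N ((γ : GL (Fin 2) ℝ) * g) := by
  obtain ⟨A, hA, hAN, hg⟩ := h
  refine ⟨(γ : Matrix (Fin 2) (Fin 2) ℤ) * A, ?_, ?_, ?_⟩
  · rw [Matrix.det_mul, γ.det_coe, one_mul]; exact hA
  · rw [Matrix.det_mul, γ.det_coe, one_mul]; exact hAN
  · rw [Matrix.GeneralLinearGroup.coe_mul, hg, Matrix.map_mul_intCast]
    congr 1


/-! ### Holomorphy of the elements of `Ban N` -/

theorem mdifferentiable_Jcomp {g : GL (Fin 2) ℝ} (hg : 0 < g.det.val) : MDiff (Jcomp g) :=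
  mdifferentiable_Jfun.comp (mdifferentiable_smul hg)

theorem mdifferentiable_of_mem_gens {N : ℕ} {f : ℍ → ℂ} (hf : f ∈ gens N) : MDiff f := by
  obtain ⟨g, hg, rfl⟩ := hf
  exact mdifferentiable_Jcomp hg.det_pos

/-- Every element of `Ban N` is a holomorphic function on `ℍ`. -/
theorem mdifferentiable_of_mem_Ban {N : ℕ} {f : ℍ → ℂ} (hf : f ∈ Ban N) : MDiff f := by
  induction hf using Algebra.adjoin_induction with
  | mem x hx => exact mdifferentiable_of_mem_gens hx
  | algebraMap r => exact mdifferentiable_const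
  | add x y _ _ hx hy => exact hx.add hy
  | mul x y _ _ hx hy => exact hx.mul hy

theorem Jcomp_mem_Ban {N : ℕ} {g : GL (Fin 2) ℝ} (hg : IsLevelMatrix N g) :
    Jcomp g ∈ Ban N :=
  Algebra.subset_adjoin ⟨g, hg, rfl⟩

theorem Jcomp_one : Jcomp 1 = Jfun := by
  funext τ; simp [Jcomp]

theorem Jfun_mem_Ban (N : ℕ) : Jfun ∈ Ban N := by
  rw [← Jcomp_one]; exact Jcomp_mem_Ban (isLevelMatrix_one N)

instance instNoZeroDivisorsBan (N : ℕ) : NoZeroDivisors (Ban N) where
  eq_zero_or_eq_zero_of_mul_eq_zero := by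
    rintro ⟨f, hf⟩ ⟨g, hg⟩ h
    have h' : f * g = 0 := congrArg Subtype.val h
    rcases (UpperHalfPlane.mul_eq_zero_iff (mdifferentiable_of_mem_Ban hf)
      (mdifferentiable_of_mem_Ban hg)).mp h' with h0 | h0
    · exact Or.inl (Subtype.ext h0)
    · exact Or.inr (Subtype.ext h0)

instance instNontrivialBan (N : ℕ) : Nontrivial (Ban N) :=
  ⟨⟨0, 1, fun h => by
    have h' : (0 : ℍ → ℂ) = 1 := congrArg Subtype.val h
    have := congrFun h' UpperHalfPlane.I
    simp at this⟩⟩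

instance instIsDomainBan (N : ℕ) : IsDomain (Ban N) := NoZeroDivisors.to_isDomain _


/-! ### The action of `SL(2,ℤ)` -/

/-- Precomposition with `γ⁻¹`, as a `ℚ̄`-algebra endomorphism of `ℍ → ℂ`:
`(precomp γ f) τ = f (γ⁻¹ • τ)`. -/
def precomp (γ : SL(2, ℤ)) : (ℍ → ℂ) →ₐ[Kb] (ℍ → ℂ) where
  toFun f := fun τ => f (γ⁻¹ • τ)
  map_one' := rfl
  map_mul' _ _ := rfl
  map_zero' := rfl
  map_add' _ _ := rfl
  commutes' _ := rfl

@[simp] theorem precomp_apply (γ : SL(2, ℤ)) (f : ℍ → ℂ) (τ : ℍ) :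
    precomp γ f τ = f (γ⁻¹ • τ) := rfl

theorem precomp_one (f : ℍ → ℂ) : precomp 1 f = f := by
  funext τ; simp

theorem precomp_mul (γ δ : SL(2, ℤ)) (f : ℍ → ℂ) :
    precomp (γ * δ) f = precomp γ (precomp δ f) := by
  funext τ; simp [mul_smul]

theorem precomp_Jcomp (γ : SL(2, ℤ)) (g : GL (Fin 2) ℝ) :
    precomp γ (Jcomp g) = Jcomp (g * ((γ⁻¹ : SL(2, ℤ)) : GL (Fin 2) ℝ)) := by
  funext τ
  simp only [precomp_apply, Jcomp, mul_smul]
  rfl

theorem precomp_mem_gens {N : ℕ} {f : ℍ → ℂ} (hf : f ∈ gens N) (γ : SL(2, ℤ)) :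
    precomp γ f ∈ gens N := by
  obtain ⟨g, hg, rfl⟩ := hf
  exact ⟨_, hg.mul_SL γ⁻¹, precomp_Jcomp γ g⟩

theorem precomp_mem_Ban {N : ℕ} {f : ℍ → ℂ} (hf : f ∈ Ban N) (γ : SL(2, ℤ)) :
    precomp γ f ∈ Ban N := by
  induction hf using Algebra.adjoin_induction with
  | mem x hx => exact Algebra.subset_adjoin (precomp_mem_gens hx γ)
  | algebraMap r => rw [AlgHom.commutes]; exact Subalgebra.algebraMap_mem _ r
  | add x y _ _ hx hy => rw [map_add]; exact Subalgebra.add_mem _ hx hy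
  | mul x y _ _ hx hy => rw [map_mul]; exact Subalgebra.mul_mem _ hx hy

/-- The action of `γ` on `Ban N`, as an algebra endomorphism. -/
def actBanHom (N : ℕ) (γ : SL(2, ℤ)) : Ban N →ₐ[Kb] Ban N :=
  ((precomp γ).comp (Ban N).val).codRestrict (Ban N) (fun f => precomp_mem_Ban f.2 γ)

@[simp] theorem actBanHom_coe (N : ℕ) (γ : SL(2, ℤ)) (f : Ban N) :
    ((actBanHom N γ f : Ban N) : ℍ → ℂ) = precomp γ (f : ℍ → ℂ) := rfl

theorem actBanHom_apply_apply (N : ℕ) (γ : SL(2, ℤ)) (f : Ban N) (τ : ℍ) :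
    (actBanHom N γ f : ℍ → ℂ) τ = (f : ℍ → ℂ) (γ⁻¹ • τ) := rfl

theorem actBanHom_one (N : ℕ) : actBanHom N 1 = AlgHom.id Kb (Ban N) := by
  ext f : 1
  exact Subtype.ext (precomp_one _)

theorem actBanHom_mul (N : ℕ) (γ δ : SL(2, ℤ)) :
    actBanHom N (γ * δ) = (actBanHom N γ).comp (actBanHom N δ) := by
  ext f : 1
  exact Subtype.ext (precomp_mul γ δ _)

/-- The action of `γ` on `Ban N`, as an algebra automorphism. -/
def actBan (N : ℕ) (γ : SL(2, ℤ)) : Ban N ≃ₐ[Kb] Ban N :=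
  AlgEquiv.ofAlgHom (actBanHom N γ) (actBanHom N γ⁻¹)
    (by rw [← actBanHom_mul, mul_inv_cancel, actBanHom_one])
    (by rw [← actBanHom_mul, inv_mul_cancel, actBanHom_one])

@[simp] theorem actBan_coe (N : ℕ) (γ : SL(2, ℤ)) (f : Ban N) :
    ((actBan N γ f : Ban N) : ℍ → ℂ) = precomp γ (f : ℍ → ℂ) := rfl

theorem actBan_apply_apply (N : ℕ) (γ : SL(2, ℤ)) (f : Ban N) (τ : ℍ) :
    (actBan N γ f : ℍ → ℂ) τ = (f : ℍ → ℂ) (γ⁻¹ • τ) := rfl

theorem actBan_one (N : ℕ) : actBan N 1 = AlgEquiv.refl := by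
  ext f : 1
  exact Subtype.ext (precomp_one _)

theorem actBan_mul (N : ℕ) (γ δ : SL(2, ℤ)) :
    actBan N (γ * δ) = (actBan N δ).trans (actBan N γ) := by
  ext f : 1
  exact Subtype.ext (precomp_mul γ δ _)

/-- The action of `SL(2,ℤ)` on `Man N`: `act N γ (f / g) = (f ∘ γ⁻¹) / (g ∘ γ⁻¹)`. -/
def act (N : ℕ) : SL(2, ℤ) →* (Man N ≃ₐ[Kb] Man N) where
  toFun γ := IsFractionRing.algEquivOfAlgEquiv (actBan N γ)
  map_one' := by
    ext x
    obtain ⟨a, b, hb, rfl⟩ := IsFractionRing.div_surjective (A := Ban N) x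
    simp [actBan_one]
  map_mul' γ δ := by
    ext x
    obtain ⟨a, b, hb, rfl⟩ := IsFractionRing.div_surjective (A := Ban N) x
    simp [actBan_mul]

@[simp] theorem act_algebraMap (N : ℕ) (γ : SL(2, ℤ)) (f : Ban N) :
    act N γ (algebraMap (Ban N) (Man N) f) = algebraMap (Ban N) (Man N) (actBan N γ f) :=
  IsFractionRing.algEquivOfAlgEquiv_algebraMap _ _

end Fermat.Agent.S24

end
end ZBS24_001_2

/-! ### bundled: `Fermat.Agent.S24.ModelGamma` -/
section ZBS24_001_3

/-!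
# S24 piece P5a, part 2 — `Γ(N)` acts trivially on `Ban N` and `Man N`; `finite_range`; `act_j`.
-/

set_option autoImplicit false

noncomputable section

open UpperHalfPlane
open scoped MatrixGroups Manifold ModularForm

namespace Fermat.Agent.S24

attribute [local instance] algKbC

/-! ### Conjugating `Γ(N)` by a level matrix -/

/-- For `γ ∈ Γ(N)` there is an integer matrix `X` with `γ = 1 + N • X`. -/
theorem exists_eq_one_add_of_mem_Gamma {N : ℕ} {γ : SL(2, ℤ)}
    (hγ : γ ∈ CongruenceSubgroup.Gamma N) :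
    ∃ X : Matrix (Fin 2) (Fin 2) ℤ, (γ : Matrix (Fin 2) (Fin 2) ℤ) = 1 + (N : ℤ) • X := by
  rw [CongruenceSubgroup.Gamma_mem] at hγ
  obtain ⟨h00, h01, h10, h11⟩ := hγ
  have d00 : (N : ℤ) ∣ γ 0 0 - 1 := by
    rw [← ZMod.intCast_zmod_eq_zero_iff_dvd]; push_cast; rw [h00]; ring
  have d01 : (N : ℤ) ∣ γ 0 1 := by
    rw [← ZMod.intCast_zmod_eq_zero_iff_dvd]; exact h01
  have d10 : (N : ℤ) ∣ γ 1 0 := by
    rw [← ZMod.intCast_zmod_eq_zero_iff_dvd]; exact h10
  have d11 : (N : ℤ) ∣ γ 1 1 - 1 := by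
    rw [← ZMod.intCast_zmod_eq_zero_iff_dvd]; push_cast; rw [h11]; ring
  obtain ⟨a, ha⟩ := d00
  obtain ⟨b, hb⟩ := d01
  obtain ⟨c, hc⟩ := d10
  obtain ⟨d, hd⟩ := d11
  refine ⟨!![a, b; c, d], ?_⟩
  ext i j
  fin_cases i <;> fin_cases j <;> simp <;> linarith

/-- For a level matrix `A` (`det A ∣ N`, `det A > 0`) and `γ ∈ Γ(N)`, `A γ = γ' A` for some
`γ' ∈ SL(2,ℤ)`. -/
theorem exists_SL_mul_eq_mul_of_mem_Gamma {N : ℕ} {γ : SL(2, ℤ)}
    (hγ : γ ∈ CongruenceSubgroup.Gamma N) (A : Matrix (Fin 2) (Fin 2) ℤ) (hA : 0 < A.det)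
    (hAN : A.det.natAbs ∣ N) :
    ∃ γ' : SL(2, ℤ), A * (γ : Matrix (Fin 2) (Fin 2) ℤ) = (γ' : Matrix (Fin 2) (Fin 2) ℤ) * A := by
  obtain ⟨X, hX⟩ := exists_eq_one_add_of_mem_Gamma hγ
  obtain ⟨k, hk⟩ := hAN
  have hdet : (A.det.natAbs : ℤ) = A.det := Int.natAbs_of_nonneg hA.le
  have hN : (N : ℤ) = A.det * k := by rw [hk]; push_cast; rw [abs_of_pos hA]
  set B : Matrix (Fin 2) (Fin 2) ℤ := 1 + (k : ℤ) • (A * X * A.adjugate) with hB
  have hBA : B * A = A * (γ : Matrix (Fin 2) (Fin 2) ℤ) := by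
    rw [hB, hX, add_mul, one_mul, mul_add, mul_one, Matrix.smul_mul, Matrix.mul_assoc (A * X),
      Matrix.adjugate_mul, Matrix.mul_smul, Matrix.mul_smul, Matrix.mul_one, smul_smul, hN,
      mul_comm (k : ℤ)]
  have hdetB : B.det = 1 := by
    have h1 : B.det * A.det = A.det := by
      rw [← Matrix.det_mul, hBA, Matrix.det_mul, γ.det_coe, mul_one]
    have h2 : A.det ≠ 0 := hA.ne'
    exact mul_right_cancel₀ h2 (by rw [h1, one_mul])
  exact ⟨⟨B, hdetB⟩, hBA.symm⟩

/-- For a level matrix `g` and `γ ∈ Γ(N)`: `g γ = γ' g` in `GL₂(ℝ)` for some `γ' ∈ SL(2,ℤ)`. -/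
theorem IsLevelMatrix.exists_SL_mul_eq {N : ℕ} {g : GL (Fin 2) ℝ} (hg : IsLevelMatrix N g)
    {γ : SL(2, ℤ)} (hγ : γ ∈ CongruenceSubgroup.Gamma N) :
    ∃ γ' : SL(2, ℤ), g * (γ : GL (Fin 2) ℝ) = (γ' : GL (Fin 2) ℝ) * g := by
  obtain ⟨A, hA, hAN, hgA⟩ := hg
  obtain ⟨γ', h⟩ := exists_SL_mul_eq_mul_of_mem_Gamma hγ A hA hAN
  refine ⟨γ', ?_⟩
  apply Matrix.GeneralLinearGroup.ext
  intro i j
  have e1 : ((g * (γ : GL (Fin 2) ℝ) : GL (Fin 2) ℝ) : Matrix (Fin 2) (Fin 2) ℝ) =
      (A * (γ : Matrix (Fin 2) (Fin 2) ℤ)).map (Int.cast : ℤ → ℝ) := by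
    rw [Matrix.GeneralLinearGroup.coe_mul, hgA, Matrix.map_mul_intCast]
    congr 1
  have e2 : (((γ' : GL (Fin 2) ℝ) * g : GL (Fin 2) ℝ) : Matrix (Fin 2) (Fin 2) ℝ) =
      ((γ' : Matrix (Fin 2) (Fin 2) ℤ) * A).map (Int.cast : ℤ → ℝ) := by
    rw [Matrix.GeneralLinearGroup.coe_mul, hgA, Matrix.map_mul_intCast]
    congr 1
  rw [e1, e2, h]

/-! ### `Γ(N)`-invariance -/

/-- `Jcomp g` is `Γ(N)`-invariant for every level matrix `g`. -/
theorem Jcomp_smul_of_mem_Gamma {N : ℕ} {g : GL (Fin 2) ℝ} (hg : IsLevelMatrix N g)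
    {γ : SL(2, ℤ)} (hγ : γ ∈ CongruenceSubgroup.Gamma N) (τ : ℍ) :
    Jcomp g (γ • τ) = Jcomp g τ := by
  obtain ⟨γ', h⟩ := hg.exists_SL_mul_eq hγ
  have : g • (γ • τ) = γ' • (g • τ) := by
    change g • ((γ : GL (Fin 2) ℝ) • τ) = (γ' : GL (Fin 2) ℝ) • (g • τ)
    rw [← mul_smul, ← mul_smul, h]
  simp only [Jcomp, this, Jfun_smul_SL]

/-- Every element of `Ban N` is `Γ(N)`-invariant. -/
theorem smul_of_mem_Ban_of_mem_Gamma {N : ℕ} {f : ℍ → ℂ} (hf : f ∈ Ban N)
    {γ : SL(2, ℤ)} (hγ : γ ∈ CongruenceSubgroup.Gamma N) (τ : ℍ) :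
    f (γ • τ) = f τ := by
  induction hf using Algebra.adjoin_induction with
  | mem x hx =>
    obtain ⟨g, hg, rfl⟩ := hx
    exact Jcomp_smul_of_mem_Gamma hg hγ τ
  | algebraMap r => rfl
  | add x y _ _ hx hy => simp only [Pi.add_apply, hx, hy]
  | mul x y _ _ hx hy => simp only [Pi.mul_apply, hx, hy]

theorem precomp_of_mem_Ban_of_mem_Gamma {N : ℕ} {f : ℍ → ℂ} (hf : f ∈ Ban N)
    {γ : SL(2, ℤ)} (hγ : γ ∈ CongruenceSubgroup.Gamma N) : precomp γ f = f := by
  funext τ
  exact smul_of_mem_Ban_of_mem_Gamma hf (inv_mem hγ) τ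

theorem actBan_of_mem_Gamma {N : ℕ} {γ : SL(2, ℤ)} (hγ : γ ∈ CongruenceSubgroup.Gamma N) :
    actBan N γ = AlgEquiv.refl := by
  ext f : 1
  exact Subtype.ext (precomp_of_mem_Ban_of_mem_Gamma f.2 hγ)

/-- `Γ(N)` acts trivially on `Man N`. -/
theorem act_of_mem_Gamma {N : ℕ} {γ : SL(2, ℤ)} (hγ : γ ∈ CongruenceSubgroup.Gamma N) :
    act N γ = 1 := by
  have h1 : act N γ = act N 1 := by
    ext x
    obtain ⟨a, b, hb, rfl⟩ := IsFractionRing.div_surjective (A := Ban N) x
    simp only [map_div₀, act_algebraMap, actBan_of_mem_Gamma hγ, actBan_one]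
  rw [h1, map_one]

theorem Gamma_le_ker_act (N : ℕ) : CongruenceSubgroup.Gamma N ≤ (act N).ker :=
  fun _ hγ => MonoidHom.mem_ker.mpr (act_of_mem_Gamma hγ)

/-- `finite_range` of the realization. -/
theorem finite_range_act (N : ℕ) [NeZero N] : Finite (act N).range := by
  have : (act N).ker.FiniteIndex := Subgroup.finiteIndex_of_le (Gamma_le_ker_act N)
  have : Finite (SL(2, ℤ) ⧸ (act N).ker) := Subgroup.finite_quotient_of_finiteIndex
  exact Finite.of_equiv _ (QuotientGroup.quotientKerEquivRange (act N)).toEquiv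

/-! ### `j` is fixed -/

/-- The element `j` of `Ban N`. -/
def jBan (N : ℕ) : Ban N := ⟨Jfun, Jfun_mem_Ban N⟩

/-- The element `j` of `Man N`. -/
def jMan (N : ℕ) : Man N := algebraMap (Ban N) (Man N) (jBan N)

@[simp] theorem jBan_coe (N : ℕ) : ((jBan N : Ban N) : ℍ → ℂ) = Jfun := rfl

theorem actBan_jBan (N : ℕ) (γ : SL(2, ℤ)) : actBan N γ (jBan N) = jBan N := by
  apply Subtype.ext
  funext τ
  exact Jfun_smul_SL γ⁻¹ τ

/-- `act_j` of the realization (with `φ (jF N) = jMan N`). -/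
theorem act_jMan (N : ℕ) (γ : SL(2, ℤ)) : act N γ (jMan N) = jMan N := by
  rw [jMan, act_algebraMap, actBan_jBan]

/-! ### The elements `Jd d` -/

theorem isLevelMatrix_heckeDiagMatrix {N d : ℕ} (hd : d ∣ N) (hd0 : 0 < d) :
    IsLevelMatrix N (ModularForm.heckeDiagMatrix d) := by
  refine ⟨!![(d : ℤ), 0; 0, 1], ?_, ?_, ?_⟩
  · simp [Matrix.det_fin_two_of]; exact hd0
  · simpa [Matrix.det_fin_two_of] using hd
  · rw [ModularForm.val_heckeDiagMatrix hd0.ne']
    ext i j
    fin_cases i <;> fin_cases j <;> simp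

theorem Jd_mem_Ban {N d : ℕ} (hd : d ∣ N) (hd0 : 0 < d) : Jd d ∈ Ban N :=
  Jcomp_mem_Ban (isLevelMatrix_heckeDiagMatrix hd hd0)

theorem Jd_one : Jd 1 = Jfun := by
  funext τ
  have : ModularForm.heckeDiagMatrix 1 • τ = τ := by
    apply UpperHalfPlane.ext
    rw [ModularForm.coe_heckeDiagMatrix_smul one_ne_zero]; simp
  simp [Jd, Jcomp, this]

/-- `Jd d` as an element of `Ban N` (for `d ∣ N`, `N ≠ 0`). -/
def JdBan (N : ℕ) [NeZero N] (d : ℕ) (hd : d ∣ N) : Ban N :=
  ⟨Jd d, Jd_mem_Ban hd (Nat.pos_of_dvd_of_pos hd (NeZero.pos N))⟩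

/-- `Jd d` as an element of `Man N`. -/
def JdMan (N : ℕ) [NeZero N] (d : ℕ) (hd : d ∣ N) : Man N :=
  algebraMap (Ban N) (Man N) (JdBan N d hd)

theorem JdMan_one (N : ℕ) [NeZero N] : JdMan N 1 (one_dvd N) = jMan N := by
  simp only [JdMan, jMan]
  congr 1
  exact Subtype.ext Jd_one

end Fermat.Agent.S24

end
end ZBS24_001_3

/-! ### bundled: `Fermat.Agent.S24.Realization` -/
section ZBS24_001_4

/-!
# S24 — the interface between analysis and algebra: `Realization N`

A `Realization N` is a field `M ⊇ F = ℚ̄(j(q^d) : d ∣ N)` with an action of `SL(2,ℤ)` through a finite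
quotient, with fixed field `ℚ̄(j)`, such that `F` is the fixed field of `Γ₀(N)`, together with, over
every point `c` of the `j`-line, one place `w` of `M` stable under `ε_c` (`ε_c = T` at `∞`, `S*T` at
`j = 0`, `S` at `j = 1728`, `1` elsewhere) with property (L): an `ε_c^k`-invariant element `m` has
`ord_w (j - c) ∣ k * ord_w m`.

Analytic model (pieces P5–P7): `M = Man N`, `(γ • f)(τ) = f(γ⁻¹ τ)`, `w` = order at `ρ`, `i`, a point
`τ₀` with `J(τ₀) = c`, resp. the order in `q_N` at `i∞`.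
-/

set_option autoImplicit false

noncomputable section

open AlgebraicCurve ModularCurve IntermediateField
open scoped MatrixGroups

namespace Fermat.Agent.S24

/-- Property (L) of a place `w` of `M` with respect to an automorphism `σ` and an element `x`. -/
def LocalProp {M : Type*} [Field M] [Algebra Kb M] (x : M) (σ : M ≃ₐ[Kb] M) (w : Place Kb M) : Prop :=
  0 < w.ord x ∧ σ • w = w ∧ ∀ (m : M) (k : ℕ), (σ ^ k) m = m → w.ord x ∣ (k : ℤ) * w.ord m

/-- The interface between the analytic pieces (P5–P7) and the algebraic pieces (P1–P3, P10). -/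
structure Realization (N : ℕ) [NeZero N] where
  /-- the big field -/
  M : Type
  [instField : Field M]
  [instAlgebra : Algebra Kb M]
  /-- the embedding of the function field of `X₀(N)` -/
  φ : FF N →ₐ[Kb] M
  /-- the action of `SL(2,ℤ)` -/
  act : SL(2, ℤ) →* (M ≃ₐ[Kb] M)
  finite_range : Finite act.range
  act_j : ∀ γ, act γ (φ (jF N)) = φ (jF N)
  fixed : ∀ m : M, (∀ γ, act γ m = m) → m ∈ Kb⟮φ (jF N)⟯
  stab_iff : ∀ γ, (∀ f, act γ (φ f) = φ f) ↔ γ ∈ CongruenceSubgroup.Gamma0 N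
  loc_inf : ∃ w : Place Kb M, LocalProp (φ (jF N)⁻¹) (act ModularGroup.T) w
  loc_zero : ∃ w : Place Kb M, LocalProp (φ (jF N)) (act (ModularGroup.S * ModularGroup.T)) w
  loc_1728 : ∃ w : Place Kb M,
    LocalProp (φ (jF N - algebraMap Kb (FF N) 1728)) (act ModularGroup.S) w
  loc_gen : ∀ c : Kb, c ≠ 0 → c ≠ 1728 → ∃ w : Place Kb M,
    LocalProp (φ (jF N - algebraMap Kb (FF N) c)) (act 1) w

attribute [instance] Realization.instField Realization.instAlgebra

end Fermat.Agent.S24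

end
end ZBS24_001_4

/-! ### bundled: `Fermat.Agent.S24.RealizationGlue` -/
section ZBS24_001_5

/-!
# S24 — assembling the analytic realization from the pieces P5a/b/c, P6b, P7a/b

`realization_of_pieces` takes the deliverables of the pieces as hypotheses, stated for the model
`Man N`, `act N`, `jMan N` of `Model.lean` / `ModelGamma.lean`.
-/

set_option autoImplicit false

noncomputable section

open AlgebraicCurve ModularCurve IntermediateField UpperHalfPlane
open scoped MatrixGroups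

namespace Fermat.Agent.S24

attribute [local instance] algKbC

/-- The realization, from the pieces. -/
theorem realization_of_pieces (N : ℕ) [NeZero N]
    (φ : FF N →ₐ[Kb] Man N) (hφj : φ (jF N) = jMan N)
    (hfixed : ∀ m : Man N, (∀ γ, act N γ m = m) → m ∈ Kb⟮jMan N⟯)
    (hstab : ∀ γ, (∀ f, act N γ (φ f) = φ f) ↔ γ ∈ CongruenceSubgroup.Gamma0 N)
    (hinf : ∃ w : Place Kb (Man N), LocalProp (jMan N)⁻¹ (act N ModularGroup.T) w)
    (hzero : ∃ w : Place Kb (Man N),
      LocalProp (jMan N) (act N (ModularGroup.S * ModularGroup.T)) w)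
    (h1728 : ∃ w : Place Kb (Man N),
      LocalProp (jMan N - algebraMap Kb (Man N) 1728) (act N ModularGroup.S) w)
    (hgen : ∀ c : Kb, c ≠ 0 → c ≠ 1728 → ∃ w : Place Kb (Man N),
      LocalProp (jMan N - algebraMap Kb (Man N) c) (act N 1) w) :
    Nonempty (Realization N) := by
  refine ⟨{
    M := Man N
    φ := φ
    act := act N
    finite_range := finite_range_act N
    act_j := fun γ => by rw [hφj]; exact act_jMan N γ
    fixed := fun m hm => by rw [hφj]; exact hfixed m hm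
    stab_iff := hstab
    loc_inf := by rw [map_inv₀, hφj]; exact hinf
    loc_zero := by rw [hφj]; exact hzero
    loc_1728 := by
      rw [map_sub, hφj, AlgHom.commutes]; exact h1728
    loc_gen := fun c hc0 hc1 => by
      rw [map_sub, hφj, AlgHom.commutes]; exact hgen c hc0 hc1 }⟩

end Fermat.Agent.S24

end
end ZBS24_001_5

/-! ### bundled: `Fermat.Agent.S24.BridgeAn` -/
section ZBS24_001_6

/-!
# S24 piece P6b, analytic half: Laurent expansion at `i∞` as a relation

`BrHPB f`  : `f : ℍ → ℂ` is holomorphic, `1`-periodic and bounded at `i∞`.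
`Lrel f x` : the function `f` has the Laurent series `x : LaurentSeries ℂ` at `i∞`, i.e. for some `n`
             the function `q^n · f` is `BrHPB` with `q`-expansion `X^n · x`.

`Lrel` is closed under `+`, `*`, constants, and `Lrel f x → (f = 0 ↔ x = 0)`.
-/

set_option autoImplicit false

noncomputable section

open UpperHalfPlane
open scoped Manifold

namespace Fermat.Agent.S24

local notation "𝕢" => Function.Periodic.qParam

/-- holomorphic on `ℍ`, `1`-periodic and bounded at `i∞`. -/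
structure BrHPB (f : ℍ → ℂ) : Prop where
  mdiff : MDiff f
  periodic : Function.Periodic (f ∘ ofComplex) 1
  bdd : IsBoundedAtImInfty f

namespace BrHPB

variable {f g : ℍ → ℂ}

theorem analyticAt (hf : BrHPB f) : AnalyticAt ℂ (cuspFunction 1 f) 0 :=
  analyticAt_cuspFunction_zero one_pos hf.periodic hf.mdiff hf.bdd

theorem hasSum (hf : BrHPB f) (τ : ℍ) :
    HasSum (fun m : ℕ ↦ (qExpansion 1 f).coeff m • 𝕢 1 τ ^ m) (f τ) :=
  hasSum_qExpansion one_pos hf.periodic hf.mdiff hf.bdd τ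

theorem add (hf : BrHPB f) (hg : BrHPB g) : BrHPB (f + g) where
  mdiff := hf.mdiff.add hg.mdiff
  periodic := fun z => by
    have h1 := hf.periodic z
    have h2 := hg.periodic z
    simp only [Function.comp_apply, Pi.add_apply] at h1 h2 ⊢
    rw [h1, h2]
  bdd := hf.bdd.add hg.bdd

theorem mul (hf : BrHPB f) (hg : BrHPB g) : BrHPB (f * g) where
  mdiff := hf.mdiff.mul hg.mdiff
  periodic := fun z => by
    have h1 := hf.periodic z
    have h2 := hg.periodic z
    simp only [Function.comp_apply, Pi.mul_apply] at h1 h2 ⊢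
    rw [h1, h2]
  bdd := hf.bdd.mul hg.bdd

theorem const (c : ℂ) : BrHPB (fun _ : ℍ => c) where
  mdiff := mdifferentiable_const
  periodic := fun _ => rfl
  bdd := Filter.const_boundedAtFilter _ c

theorem qExpansion_add (hf : BrHPB f) (hg : BrHPB g) :
    qExpansion 1 (f + g) = qExpansion 1 f + qExpansion 1 g :=
  UpperHalfPlane.qExpansion_add hf.analyticAt hg.analyticAt

theorem qExpansion_mul (hf : BrHPB f) (hg : BrHPB g) :
    qExpansion 1 (f * g) = qExpansion 1 f * qExpansion 1 g :=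
  UpperHalfPlane.qExpansion_mul hf.analyticAt hg.analyticAt

theorem qExpansion_eq_zero_iff (hf : BrHPB f) : qExpansion 1 f = 0 ↔ f = 0 :=
  UpperHalfPlane.qExpansion_eq_zero_iff one_pos hf.periodic hf.mdiff hf.bdd

end BrHPB

/-- Uniqueness of `q`-expansion coefficients (for plain functions). -/
theorem brCoeff_unique (f : ℍ → ℂ) (c : ℕ → ℂ) (h1 : AnalyticAt ℂ (cuspFunction 1 f) 0)
    (hs : ∀ τ : ℍ, HasSum (fun m : ℕ ↦ c m • 𝕢 1 τ ^ m) (f τ)) (m : ℕ) :
    (qExpansion 1 f).coeff m = c m := by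
  have e1 := (hasFPowerSeriesOnBall_cuspFunction one_pos h1 hs).hasFPowerSeriesAt
  have e2 := h1.hasFPowerSeriesAt
  have e3 := congr_arg (FormalMultilinearSeries.coeff · m) (e1.eq_formalMultilinearSeries e2)
  simp only [FormalMultilinearSeries.coeff_ofScalars] at e3
  rw [qExpansion_coeff, e3]
  ring

/-- The function `q^n` on `ℍ`. -/
def qpowFun (n : ℕ) : ℍ → ℂ := fun τ => 𝕢 1 τ ^ n

theorem qpowFun_apply (n : ℕ) (τ : ℍ) : qpowFun n τ = 𝕢 1 τ ^ n := rfl

theorem qpowFun_ne_zero (n : ℕ) (τ : ℍ) : qpowFun n τ ≠ 0 :=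
  pow_ne_zero _ (Function.Periodic.qParam_ne_zero _)

theorem qpowFun_zero : qpowFun 0 = 1 := by
  funext τ
  simp [qpowFun]

theorem qpowFun_add (n m : ℕ) : qpowFun (n + m) = qpowFun n * qpowFun m := by
  funext τ
  simp [qpowFun, pow_add]

/-- coefficient sequence of `X^n` -/
def qpowCoeff (n : ℕ) : ℕ → ℂ := fun m => if m = n then 1 else 0

theorem qpowFun_hasSum (n : ℕ) (τ : ℍ) :
    HasSum (fun m : ℕ ↦ qpowCoeff n m • 𝕢 1 τ ^ m) (qpowFun n τ) := by
  have h := hasSum_ite_eq n (𝕢 1 τ ^ n)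
  rw [qpowFun_apply]
  convert h using 2 with m
  unfold qpowCoeff
  split_ifs with hm
  · subst hm; simp
  · simp

theorem brQParam_one_add_one (w : ℂ) : 𝕢 1 (w + 1) = 𝕢 1 w := by
  simp only [Function.Periodic.qParam, Complex.ofReal_one, div_one, mul_add, mul_one,
    Complex.exp_add, Complex.exp_two_pi_mul_I]

theorem brHPB_qpowFun (n : ℕ) : BrHPB (qpowFun n) where
  mdiff := by
    rw [UpperHalfPlane.mdifferentiable_iff]
    have h : DifferentiableOn ℂ (fun z : ℂ => 𝕢 1 z ^ n) {z | 0 < z.im} :=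
      ((Function.Periodic.differentiable_qParam (h := 1)).pow n).differentiableOn
    refine h.congr ?_
    intro z hz
    simp only [Function.comp_apply, qpowFun]
    rw [ofComplex_apply_of_im_pos hz]
  periodic := by
    intro w
    by_cases! hw : 0 < Complex.im w
    · have h1 : 0 < Complex.im (w + 1) := by simpa using hw
      simp only [Function.comp_apply, ofComplex_apply_of_im_pos h1, ofComplex_apply_of_im_pos hw,
        qpowFun]
      rw [brQParam_one_add_one]
    · have h1 : Complex.im (w + 1) ≤ 0 := by simpa using hw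
      simp only [Function.comp_apply]
      rw [ofComplex_apply_of_im_nonpos h1, ofComplex_apply_of_im_nonpos hw]
  bdd := isBoundedAtImInfty_of_hasSum_qExpansion (c := qpowCoeff n) one_pos (qpowFun_hasSum n)

theorem br_qExpansion_qpowFun (n : ℕ) : qExpansion 1 (qpowFun n) = PowerSeries.X ^ n := by
  ext m
  rw [brCoeff_unique (qpowFun n) (qpowCoeff n) (brHPB_qpowFun n).analyticAt (qpowFun_hasSum n) m,
    PowerSeries.coeff_X_pow]
  rfl

theorem br_qExpansion_constFun (c : ℂ) : qExpansion 1 (fun _ : ℍ => c) = PowerSeries.C c := by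
  have h1 : (fun _ : ℍ => c) = c • (1 : ℍ → ℂ) := by
    funext τ
    simp
  have h2 : BrHPB (1 : ℍ → ℂ) := BrHPB.const 1
  rw [h1, UpperHalfPlane.qExpansion_smul h2.analyticAt, qExpansion_one]
  ext m
  simp [PowerSeries.coeff_C, PowerSeries.coeff_one]

/-! ### The Laurent expansion relation -/

/-- `f` has the Laurent expansion `x` at `i∞`: for some `n`, `q^n f` is holomorphic, periodic and
bounded at `i∞`, with `q`-expansion `X^n x`. -/
def Lrel (f : ℍ → ℂ) (x : LaurentSeries ℂ) : Prop :=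
  ∃ n : ℕ, BrHPB (qpowFun n * f) ∧
    HahnSeries.ofPowerSeries ℤ ℂ (qExpansion 1 (qpowFun n * f)) = HahnSeries.single (n : ℤ) 1 * x

theorem lrel_shift {f : ℍ → ℂ} {x : LaurentSeries ℂ} {n : ℕ} (hb : BrHPB (qpowFun n * f))
    (hx : HahnSeries.ofPowerSeries ℤ ℂ (qExpansion 1 (qpowFun n * f)) =
      HahnSeries.single (n : ℤ) 1 * x) (k : ℕ) :
    BrHPB (qpowFun (k + n) * f) ∧
      HahnSeries.ofPowerSeries ℤ ℂ (qExpansion 1 (qpowFun (k + n) * f)) =
        HahnSeries.single ((k + n : ℕ) : ℤ) 1 * x := by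
  have h1 : qpowFun (k + n) * f = qpowFun k * (qpowFun n * f) := by
    rw [qpowFun_add, mul_assoc]
  have h2 : BrHPB (qpowFun k * (qpowFun n * f)) := (brHPB_qpowFun k).mul hb
  refine ⟨h1 ▸ h2, ?_⟩
  rw [h1, (brHPB_qpowFun k).qExpansion_mul hb, map_mul, hx, br_qExpansion_qpowFun,
    HahnSeries.ofPowerSeries_X_pow, ← mul_assoc, HahnSeries.single_mul_single, mul_one]
  push_cast
  rfl

theorem Lrel.add {f g : ℍ → ℂ} {x y : LaurentSeries ℂ} (hf : Lrel f x) (hg : Lrel g y) :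
    Lrel (f + g) (x + y) := by
  obtain ⟨n, hfb, hfx⟩ := hf
  obtain ⟨m, hgb, hgy⟩ := hg
  obtain ⟨hfb', hfx'⟩ := lrel_shift hfb hfx m
  obtain ⟨hgb', hgy'⟩ := lrel_shift hgb hgy n
  rw [add_comm n m] at hgb' hgy'
  refine ⟨m + n, ?_, ?_⟩
  · rw [mul_add]
    exact hfb'.add hgb'
  · rw [mul_add, hfb'.qExpansion_add hgb', map_add, hfx', hgy', mul_add]

theorem Lrel.mul {f g : ℍ → ℂ} {x y : LaurentSeries ℂ} (hf : Lrel f x) (hg : Lrel g y) :
    Lrel (f * g) (x * y) := by
  obtain ⟨n, hfb, hfx⟩ := hf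
  obtain ⟨m, hgb, hgy⟩ := hg
  have h1 : qpowFun (n + m) * (f * g) = (qpowFun n * f) * (qpowFun m * g) := by
    rw [qpowFun_add]
    ring
  refine ⟨n + m, h1 ▸ hfb.mul hgb, ?_⟩
  rw [h1, hfb.qExpansion_mul hgb, map_mul, hfx, hgy]
  have h2 : HahnSeries.single ((n + m : ℕ) : ℤ) (1 : ℂ) =
      HahnSeries.single (n : ℤ) 1 * HahnSeries.single (m : ℤ) 1 := by
    rw [HahnSeries.single_mul_single, mul_one]
    push_cast
    rfl
  rw [h2]
  ring

theorem Lrel.const (c : ℂ) : Lrel (fun _ : ℍ => c) (HahnSeries.C c) := by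
  have h1 : qpowFun 0 * (fun _ : ℍ => c) = fun _ : ℍ => c := by
    rw [qpowFun_zero, one_mul]
  refine ⟨0, h1.symm ▸ BrHPB.const c, ?_⟩
  rw [h1, br_qExpansion_constFun, HahnSeries.ofPowerSeries_C]
  simp

theorem Lrel.eq_zero_iff {f : ℍ → ℂ} {x : LaurentSeries ℂ} (hf : Lrel f x) : f = 0 ↔ x = 0 := by
  obtain ⟨n, hfb, hfx⟩ := hf
  constructor
  · intro h
    subst h
    rw [mul_zero, qExpansion_zero, map_zero] at hfx
    rcases mul_eq_zero.mp hfx.symm with h | h
    · exact absurd h (by simp)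
    · exact h
  · intro h
    subst h
    rw [mul_zero] at hfx
    have h2 : qExpansion 1 (qpowFun n * f) = 0 := by
      apply HahnSeries.ofPowerSeries_injective (Γ := ℤ) (R := ℂ)
      rw [hfx, map_zero]
    have h3 := hfb.qExpansion_eq_zero_iff.mp h2
    funext τ
    have h4 := congrFun h3 τ
    simp only [Pi.mul_apply, Pi.zero_apply, mul_eq_zero] at h4
    rcases h4 with h4 | h4
    · exact absurd h4 (qpowFun_ne_zero n τ)
    · exact h4

end Fermat.Agent.S24

end
end ZBS24_001_6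

/-! ### bundled: `Fermat.Agent.S24.FFGen` -/
section ZBS24_001_7

/-!
# S24 — generators of the function field `FF N = ℚ̄(j(q^d) : d ∣ N)`

* `jdF N d hd : FF N` — the element `j(q^d)` (`d ∣ N`), `jdF_one : jdF N 1 _ = jF N`.
* `FF_induction` — induction principle for `FF N` from the generators `jdF N d hd`.
* `FF_algHom_ext` — two `ℚ̄`-algebra maps out of `FF N` agreeing on all `jdF N d hd` are equal.
-/

set_option autoImplicit false

noncomputable section

open AlgebraicCurve ModularCurve IntermediateField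

namespace Fermat.Agent.S24

/-- `j(q^d)` with coefficients in `ℚ̄`, as a Laurent series. -/
def jdBar (d : ℕ) [NeZero d] : LaurentSeries Kb := coeffEmb Kb (qExpand ℚ d jq)

theorem jdBar_mem (N : ℕ) [NeZero N] (d : ℕ) [NeZero d] (hd : d ∣ N) :
    jdBar d ∈ ModularCurve.modularFunctionFieldBar N :=
  coeffEmb_mem_laurentBaseChange Kb (jqd_mem_full N hd)

/-- `j(q^d)`, `d ∣ N`, as an element of the function field `FF N`. -/
def jdF (N : ℕ) [NeZero N] (d : ℕ) (hd : d ∣ N) : FF N :=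
  haveI : NeZero d := ⟨fun h => NeZero.ne N (by subst h; simpa using hd)⟩
  ⟨jdBar d, jdBar_mem N d hd⟩

theorem jdF_coe (N : ℕ) [NeZero N] (d : ℕ) [NeZero d] (hd : d ∣ N) :
    ((jdF N d hd : FF N) : LaurentSeries Kb) = coeffEmb Kb (qExpand ℚ d jq) := rfl

theorem jdF_one (N : ℕ) [NeZero N] : jdF N 1 (one_dvd N) = jF N := by
  apply Subtype.ext
  show coeffEmb Kb (qExpand ℚ 1 jq) = coeffEmb Kb jq
  rw [qExpand_one_apply]

theorem coeffEmb_algebraMap_rat (r : ℚ) :
    coeffEmb Kb (algebraMap ℚ (LaurentSeries ℚ) r) =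
      algebraMap Kb (LaurentSeries Kb) (algebraMap ℚ Kb r) := by
  rw [algebraMap_laurentSeries_eq_single, algebraMap_laurentSeries_eq_single]
  exact coeffMap_single _ _ _

theorem FF_induction_aux {N : ℕ} [NeZero N] {p : FF N → Prop}
    (gen : ∀ (d : ℕ) (hd : d ∣ N), p (jdF N d hd))
    (const : ∀ a : Kb, p (algebraMap Kb (FF N) a))
    (add : ∀ x y, p x → p y → p (x + y))
    (mul : ∀ x y, p x → p y → p (x * y))
    (inv : ∀ x, p x → p x⁻¹) (y : LaurentSeries ℚ) (hy : y ∈ modularFunctionFieldFull N) :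
    p ⟨coeffEmb Kb y, coeffEmb_mem_laurentBaseChange Kb hy⟩ := by
  unfold modularFunctionFieldFull at hy
  induction hy using IntermediateField.adjoin_induction with
  | mem y hy =>
    obtain ⟨d, hne, hd, rfl⟩ := hy
    exact gen d hd
  | algebraMap r =>
    have h := const (algebraMap ℚ Kb r)
    have e : (algebraMap Kb (FF N) (algebraMap ℚ Kb r) : FF N) =
        ⟨coeffEmb Kb (algebraMap ℚ (LaurentSeries ℚ) r),
          coeffEmb_mem_laurentBaseChange Kb (IntermediateField.algebraMap_mem _ r)⟩ := by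
      apply Subtype.ext
      exact (coeffEmb_algebraMap_rat r).symm
    rw [e] at h
    exact h
  | add a b ha hb iha ihb =>
    have h := add _ _ iha ihb
    have e : (⟨coeffEmb Kb a, coeffEmb_mem_laurentBaseChange Kb ha⟩ : FF N) +
        ⟨coeffEmb Kb b, coeffEmb_mem_laurentBaseChange Kb hb⟩ =
        ⟨coeffEmb Kb (a + b), coeffEmb_mem_laurentBaseChange Kb (add_mem ha hb)⟩ := by
      apply Subtype.ext
      exact (map_add (coeffEmb Kb) a b).symm
    rw [e] at h
    exact h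
  | inv a ha iha =>
    have h := inv _ iha
    have e : (⟨coeffEmb Kb a, coeffEmb_mem_laurentBaseChange Kb ha⟩ : FF N)⁻¹ =
        ⟨coeffEmb Kb a⁻¹, coeffEmb_mem_laurentBaseChange Kb (inv_mem ha)⟩ := by
      apply Subtype.ext
      exact (map_inv₀ (coeffEmb Kb) a).symm
    rw [e] at h
    exact h
  | mul a b ha hb iha ihb =>
    have h := mul _ _ iha ihb
    have e : (⟨coeffEmb Kb a, coeffEmb_mem_laurentBaseChange Kb ha⟩ : FF N) *
        ⟨coeffEmb Kb b, coeffEmb_mem_laurentBaseChange Kb hb⟩ =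
        ⟨coeffEmb Kb (a * b), coeffEmb_mem_laurentBaseChange Kb (mul_mem ha hb)⟩ := by
      apply Subtype.ext
      exact (map_mul (coeffEmb Kb) a b).symm
    rw [e] at h
    exact h

/-- Induction principle for `FF N`: a property that holds for the generators `j(q^d)`, `d ∣ N`,
for constants, and is stable under `+`, `*`, `⁻¹`, holds everywhere. -/
theorem FF_induction {N : ℕ} [NeZero N] {p : FF N → Prop}
    (gen : ∀ (d : ℕ) (hd : d ∣ N), p (jdF N d hd))
    (const : ∀ a : Kb, p (algebraMap Kb (FF N) a))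
    (add : ∀ x y, p x → p y → p (x + y))
    (mul : ∀ x y, p x → p y → p (x * y))
    (inv : ∀ x, p x → p x⁻¹) (x : FF N) : p x := by
  obtain ⟨x, hx⟩ := x
  induction hx using IntermediateField.adjoin_induction with
  | mem x hx =>
    obtain ⟨y, hy, rfl⟩ := hx
    exact FF_induction_aux gen const add mul inv y hy
  | algebraMap a =>
    have h := const a
    have e : (algebraMap Kb (FF N) a : FF N) =
        ⟨algebraMap Kb (LaurentSeries Kb) a, IntermediateField.algebraMap_mem _ a⟩ :=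
      Subtype.ext rfl
    rw [e] at h
    exact h
  | add a b ha hb iha ihb =>
    have h := add _ _ iha ihb
    have e : (⟨a, ha⟩ : FF N) + ⟨b, hb⟩ = ⟨a + b, add_mem ha hb⟩ := Subtype.ext rfl
    rw [e] at h
    exact h
  | inv a ha iha =>
    have h := inv _ iha
    have e : (⟨a, ha⟩ : FF N)⁻¹ = ⟨a⁻¹, inv_mem ha⟩ := Subtype.ext rfl
    rw [e] at h
    exact h
  | mul a b ha hb iha ihb =>
    have h := mul _ _ iha ihb
    have e : (⟨a, ha⟩ : FF N) * ⟨b, hb⟩ = ⟨a * b, mul_mem ha hb⟩ := Subtype.ext rfl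
    rw [e] at h
    exact h

/-- Generic: the locus where two algebra maps of fields agree is closed under the field
operations (stated for generic fields, so that instances are found by unification). -/
theorem algHom_eqLocus_closed {K F M : Type*} [Field K] [Field F] [Field M] [Algebra K F]
    [Algebra K M] (φ ψ : F →ₐ[K] M) :
    (∀ a : K, φ (algebraMap K F a) = ψ (algebraMap K F a)) ∧
    (∀ x y, φ x = ψ x → φ y = ψ y → φ (x + y) = ψ (x + y)) ∧
    (∀ x y, φ x = ψ x → φ y = ψ y → φ (x * y) = ψ (x * y)) ∧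
    (∀ x, φ x = ψ x → φ x⁻¹ = ψ x⁻¹) := by
  refine ⟨fun a => ?_, fun x y hx hy => ?_, fun x y hx hy => ?_, fun x hx => ?_⟩
  · rw [AlgHom.commutes, AlgHom.commutes]
  · rw [map_add, map_add, hx, hy]
  · rw [map_mul, map_mul, hx, hy]
  · rw [map_inv₀, map_inv₀, hx]

/-- Two `ℚ̄`-algebra maps out of `FF N` which agree on the generators `j(q^d)`, `d ∣ N`, are
equal. -/
theorem FF_algHom_ext {N : ℕ} [NeZero N] {M : Type*} [Field M] [Algebra Kb M]
    (φ ψ : FF N →ₐ[Kb] M) (h : ∀ (d : ℕ) (hd : d ∣ N), φ (jdF N d hd) = ψ (jdF N d hd)) :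
    φ = ψ := by
  obtain ⟨h1, h2, h3, h4⟩ := algHom_eqLocus_closed φ ψ
  exact AlgHom.ext fun x => FF_induction (p := fun x => φ x = ψ x) h h1 h2 h3 h4 x

end Fermat.Agent.S24

end
end ZBS24_001_7

/-! ### bundled: `Fermat.Agent.S24.BridgeAlg` -/
section ZBS24_001_8

/-!
# S24 piece P6b, algebraic half

* `FF_eq_adjoin` : `FF N` is generated over `ℚ̄` by the `j(q^d)`, `d ∣ N` (`jdF N d hd` of `FFGen.lean`).
* `br_exists_algHom_adjoin_of_relations` (generic): a family `y_i` in a field `M` satisfying exactly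
  the same polynomial relations over `K` as the family `x_i` in `L` defines
  `φ : K(x_i) →ₐ[K] M` with `φ x_i = y_i`.
* `exists_algHom_FF_of_relations` : the same for `FF N` and the family `j(q^d)`.
-/

set_option autoImplicit false

noncomputable section

open ModularCurve IntermediateField
open scoped IntermediateField.algebraAdjoinAdjoin

namespace Fermat.Agent.S24

/-- The index type: divisors of `N`. -/
abbrev Dv (N : ℕ) : Type := {d : ℕ // d ∣ N}

/-- The family `d ↦ j(q^d)` in `FF N`. -/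
def jFfam (N : ℕ) [NeZero N] : Dv N → FF N := fun d => jdF N d.1 d.2

/-- The family `d ↦ j(q^d)` in `ℚ̄((q))`. -/
def jBfam (N : ℕ) [NeZero N] : Dv N → LaurentSeries Kb := fun d => (jFfam N d : FF N)

theorem jBfam_apply (N : ℕ) [NeZero N] (d : Dv N) :
    jBfam N d = ((jdF N d.1 d.2 : FF N) : LaurentSeries Kb) := rfl

theorem jBfam_eq (N : ℕ) [NeZero N] (d : ℕ) [NeZero d] (hd : d ∣ N) :
    jBfam N ⟨d, hd⟩ = coeffEmb Kb (qExpand ℚ d jq) := rfl

theorem br_coeffEmb_mem_adjoin_jBfam (N : ℕ) [NeZero N] {x : LaurentSeries ℚ}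
    (hx : x ∈ IntermediateField.adjoin ℚ (divisorExpansions N)) :
    coeffEmb Kb x ∈ IntermediateField.adjoin Kb (Set.range (jBfam N)) := by
  induction hx using IntermediateField.adjoin_induction with
  | mem x hx =>
    obtain ⟨d, hne, hd, rfl⟩ := hx
    exact IntermediateField.subset_adjoin Kb _ ⟨⟨d, hd⟩, rfl⟩
  | algebraMap r =>
    rw [coeffEmb_algebraMap_rat]
    exact IntermediateField.algebraMap_mem _ _
  | add x y _ _ hx hy =>
    rw [map_add]
    exact add_mem hx hy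
  | inv x _ hx =>
    rw [map_inv₀]
    exact inv_mem hx
  | mul x y _ _ hx hy =>
    rw [map_mul]
    exact mul_mem hx hy

theorem br_modularFunctionFieldBar_eq_adjoin (N : ℕ) [NeZero N] :
    ModularCurve.modularFunctionFieldBar N = IntermediateField.adjoin Kb (Set.range (jBfam N)) := by
  apply le_antisymm
  · show laurentBaseChange Kb (modularFunctionFieldFull N) ≤ _
    rw [laurentBaseChange, IntermediateField.adjoin_le_iff]
    rintro _ ⟨x, hx, rfl⟩
    exact br_coeffEmb_mem_adjoin_jBfam N hx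
  · rw [IntermediateField.adjoin_le_iff]
    rintro _ ⟨d, rfl⟩
    exact (jdF N d.1 d.2).2

theorem FF_eq_adjoin_range (N : ℕ) [NeZero N] :
    (⊤ : IntermediateField Kb (FF N)) = IntermediateField.adjoin Kb (Set.range (jFfam N)) := by
  apply IntermediateField.lift_injective
  rw [IntermediateField.lift_top, IntermediateField.lift_adjoin]
  refine (br_modularFunctionFieldBar_eq_adjoin N).trans ?_
  congr 1
  ext x
  constructor
  · rintro ⟨d, rfl⟩
    exact ⟨jFfam N d, ⟨d, rfl⟩, rfl⟩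
  · rintro ⟨_, ⟨d, rfl⟩, rfl⟩
    exact ⟨d, rfl⟩

/-- `FF N` is generated, as a field over `ℚ̄`, by the `j(q^d)`, `d ∣ N`. -/
theorem FF_eq_adjoin (N : ℕ) [NeZero N] :
    (⊤ : IntermediateField Kb (FF N)) =
      IntermediateField.adjoin Kb {x | ∃ d hd, x = jdF N d hd} := by
  rw [FF_eq_adjoin_range]
  congr 1
  ext x
  constructor
  · rintro ⟨d, rfl⟩
    exact ⟨d.1, d.2, rfl⟩
  · rintro ⟨d, hd, rfl⟩
    exact ⟨⟨d, hd⟩, rfl⟩

section generic

variable {K L M ι : Type*} [Field K] [Field L] [Algebra K L] [Field M] [Algebra K M]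

/-- If the families `x : ι → L` and `y : ι → M` satisfy the same polynomial relations over `K`,
there is a `K`-algebra map `K(x) → M` sending `x i` to `y i`. -/
theorem br_exists_algHom_adjoin_of_relations (x : ι → L) (y : ι → M)
    (h : ∀ P : MvPolynomial ι K, MvPolynomial.aeval x P = 0 ↔ MvPolynomial.aeval y P = 0) :
    ∃ φ : IntermediateField.adjoin K (Set.range x) →ₐ[K] M,
      ∀ i, φ ⟨x i, IntermediateField.subset_adjoin K _ ⟨i, rfl⟩⟩ = y i := by
  classical
  have hA : ∀ P : MvPolynomial ι K,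
      MvPolynomial.aeval x P ∈ Algebra.adjoin K (Set.range x) := fun P => by
    rw [Algebra.adjoin_range_eq_range_aeval]; exact ⟨P, rfl⟩
  let ax : MvPolynomial ι K →ₐ[K] Algebra.adjoin K (Set.range x) :=
    (MvPolynomial.aeval x).codRestrict _ hA
  have hax : Function.Surjective ax := by
    rintro ⟨a, ha⟩
    have ha' : a ∈ (MvPolynomial.aeval x : MvPolynomial ι K →ₐ[K] L).range := by
      rw [← Algebra.adjoin_range_eq_range_aeval]; exact ha
    obtain ⟨P, rfl⟩ := ha'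
    exact ⟨P, rfl⟩
  have hker : RingHom.ker ax.toRingHom ≤
      RingHom.ker (MvPolynomial.aeval y : MvPolynomial ι K →ₐ[K] M).toRingHom := by
    intro P hP
    rw [RingHom.mem_ker] at hP ⊢
    have h1 : MvPolynomial.aeval x P = 0 := congrArg Subtype.val hP
    exact (h P).mp h1
  let ψ : Algebra.adjoin K (Set.range x) →ₐ[K] M :=
    AlgHom.liftOfSurjective ax hax (MvPolynomial.aeval y) hker
  have hψ : ∀ P, ψ (ax P) = MvPolynomial.aeval y P :=
    AlgHom.liftOfSurjective_apply ax hax _ hker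
  have hψinj : Function.Injective ψ := by
    rw [injective_iff_map_eq_zero]
    intro a ha
    obtain ⟨P, rfl⟩ := hax a
    rw [hψ] at ha
    exact Subtype.ext ((h P).mpr ha)
  let φ : IntermediateField.adjoin K (Set.range x) →ₐ[K] M :=
    IsFractionRing.liftAlgHom (K := IntermediateField.adjoin K (Set.range x)) hψinj
  refine ⟨φ, fun i => ?_⟩
  have h2 : (⟨x i, IntermediateField.subset_adjoin K _ ⟨i, rfl⟩⟩ :
      IntermediateField.adjoin K (Set.range x)) =
      algebraMap (Algebra.adjoin K (Set.range x)) _ (ax (MvPolynomial.X i)) := by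
    apply Subtype.ext
    show x i = ((ax (MvPolynomial.X i) : Algebra.adjoin K (Set.range x)) : L)
    show x i = MvPolynomial.aeval x (MvPolynomial.X i)
    rw [MvPolynomial.aeval_X]
  rw [h2]
  show IsFractionRing.lift hψinj _ = _
  rw [IsFractionRing.lift_algebraMap]
  exact (hψ _).trans (MvPolynomial.aeval_X y i)

/-- Transport of an algebra map along an equality of intermediate fields. -/
theorem br_exists_algHom_of_eq_adjoin (S : IntermediateField K L) (x : ι → L)
    (hS : S = IntermediateField.adjoin K (Set.range x)) (y : ι → M)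
    (h : ∀ P : MvPolynomial ι K, MvPolynomial.aeval x P = 0 ↔ MvPolynomial.aeval y P = 0) :
    ∃ φ : S →ₐ[K] M, ∀ (i : ι) (hi : x i ∈ S), φ ⟨x i, hi⟩ = y i := by
  subst hS
  obtain ⟨φ, hφ⟩ := br_exists_algHom_adjoin_of_relations x y h
  exact ⟨φ, fun i _ => hφ i⟩

end generic

/-- A family `y_d` (`d ∣ N`) in a field `M` satisfying exactly the same polynomial relations over
`ℚ̄` as the `j(q^d)` defines `φ : FF N →ₐ[ℚ̄] M` with `φ (j(q^d)) = y_d`. -/
theorem exists_algHom_FF_of_relations (N : ℕ) [NeZero N] {M : Type*} [Field M] [Algebra Kb M]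
    (y : Dv N → M)
    (h : ∀ P : MvPolynomial (Dv N) Kb,
      MvPolynomial.aeval (jBfam N) P = 0 ↔ MvPolynomial.aeval y P = 0) :
    ∃ φ : FF N →ₐ[Kb] M, ∀ (d : ℕ) (hd : d ∣ N), φ (jdF N d hd) = y ⟨d, hd⟩ := by
  obtain ⟨φ, hφ⟩ := br_exists_algHom_of_eq_adjoin (ModularCurve.modularFunctionFieldBar N)
    (jBfam N) (br_modularFunctionFieldBar_eq_adjoin N) y h
  exact ⟨φ, fun d hd => hφ ⟨d, hd⟩ (jdF N d hd).2⟩

end Fermat.Agent.S24

end
end ZBS24_001_8

/-! ### bundled: `Fermat.Agent.S24.Invariants` -/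
section ZBS24_001_9

/-!
# S24 / P7a — invariant functions are polynomials in `J`

Core level-one input: every modular form `h` of weight `12 m` for `SL(2,ℤ)` is
`Δ ^ m * p(E₄³ / Δ)` for a polynomial `p` of degree `≤ m`; consequently every holomorphic
`SL(2,ℤ)`-invariant function `f` on `ℍ` with `Δ ^ m * f` bounded at `i∞` is a polynomial in
`Jfun = E₄³ / Δ`.
-/

set_option autoImplicit false

noncomputable section

open UpperHalfPlane ModularForm SlashInvariantForm SlashInvariantFormClass ModularFormClass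
  CuspFormClass MatrixGroups OnePoint Filter EisensteinSeries Asymptotics Polynomial

open scoped Topology Manifold

namespace Fermat.Agent.S24

local notation "Δ" => ModularForm.discriminant

theorem Jfun_def (τ : ℍ) : Jfun τ = E₄ τ ^ 3 / Δ τ := rfl

/-- `E₄ ^ (3 m)` as a modular form of weight `k = 12 m`. -/
def E4pow (m : ℕ) (k : ℤ) (hk : k = 12 * m) : ModularForm 𝒮ℒ k :=
  ModularForm.mcast (by rw [hk]; push_cast; ring) (E₄.pow (3 * m))

theorem E4pow_apply (m : ℕ) (k : ℤ) (hk : k = 12 * m) (τ : ℍ) :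
    E4pow m k hk τ = E₄ τ ^ (3 * m) := by
  change (E₄.pow (3 * m)) τ = _
  rw [ModularForm.coe_pow]
  rfl

theorem E4pow_qExpansion_coeff_zero (m : ℕ) (k : ℤ) (hk : k = 12 * m) :
    (qExpansion 1 (E4pow m k hk)).coeff 0 = 1 := by
  have h1 : (E4pow m k hk : ℍ → ℂ) = ((E₄.pow (3 * m) : ModularForm 𝒮ℒ _) : ℍ → ℂ) := rfl
  rw [h1, ModularForm.qExpansion_pow one_pos one_mem_strictPeriods_SL]
  rw [PowerSeries.coeff_zero_eq_constantCoeff, map_pow,
    ← PowerSeries.coeff_zero_eq_constantCoeff]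
  rw [show (qExpansion 1 (E₄ : ℍ → ℂ)).coeff 0 = 1 from
    E_qExpansion_coeff_zero (by norm_num) ⟨2, rfl⟩, one_pow]

/-- Every level-one modular form of weight `12 m` is `Δ ^ m * p(J)` with `deg p ≤ m`. -/
theorem exists_poly_of_modularForm (m : ℕ) :
    ∀ (k : ℤ) (_ : k = 12 * m) (h : ModularForm 𝒮ℒ k),
      ∃ p : ℂ[X], p.natDegree ≤ m ∧ ∀ τ : ℍ, h τ = Δ τ ^ m * p.eval (Jfun τ) := by
  induction m with
  | zero =>
    intro k hk h
    have hk0 : k = 0 := by simpa using hk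
    subst hk0
    obtain ⟨c, hc⟩ := levelOne_weight_zero_const h
    refine ⟨C c, by simp, fun τ => ?_⟩
    simp [hc]
  | succ m ih =>
    intro k hk h
    set c : ℂ := (qExpansion 1 h).coeff 0 with hc
    set g : ModularForm 𝒮ℒ k := h - c • E4pow (m + 1) k hk with hg
    have hg0 : (qExpansion 1 g).coeff 0 = 0 := by
      have h1 : (g : ℍ → ℂ) = (h : ℍ → ℂ) - ((c • E4pow (m + 1) k hk : ModularForm 𝒮ℒ k) : ℍ → ℂ) :=
        rfl
      rw [h1, ModularForm.qExpansion_sub one_pos one_mem_strictPeriods_SL]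
      have h2 : ((c • E4pow (m + 1) k hk : ModularForm 𝒮ℒ k) : ℍ → ℂ)
          = c • (E4pow (m + 1) k hk : ℍ → ℂ) := rfl
      rw [h2, ModularForm.qExpansion_smul one_pos one_mem_strictPeriods_SL, map_sub,
        PowerSeries.coeff_smul, E4pow_qExpansion_coeff_zero, smul_eq_mul, mul_one, sub_self]
    set h' : ModularForm 𝒮ℒ (k - 12) := CuspForm.discriminantEquiv (toCuspForm g hg0) with hh'
    have hk' : k - 12 = 12 * (m : ℤ) := by rw [hk]; push_cast; ring
    obtain ⟨p', hp'deg, hp'⟩ := ih (k - 12) hk' h'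
    refine ⟨C c * X ^ (m + 1) + p', ?_, fun τ => ?_⟩
    · refine (natDegree_add_le _ _).trans (max_le ?_ (hp'deg.trans (Nat.le_succ m)))
      exact (natDegree_C_mul_le _ _).trans (natDegree_X_pow_le _)
    · have hΔ : Δ τ ≠ 0 := discriminant_ne_zero τ
      have h1 : Δ τ * h' τ = g τ := by
        rw [hh']
        exact ModularForm.discriminant_mul_discriminantEquiv_apply (toCuspForm g hg0) τ
      have h2 : g τ = h τ - c * E₄ τ ^ (3 * (m + 1)) := by
        rw [hg]
        change h τ - c • (E4pow (m + 1) k hk) τ = _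
        rw [E4pow_apply, smul_eq_mul]
      have h3 : h τ = c * E₄ τ ^ (3 * (m + 1)) + Δ τ * h' τ := by rw [h1, h2]; ring
      have hJ : (E₄ τ ^ 3 / Δ τ) ^ (m + 1) * Δ τ ^ (m + 1) = E₄ τ ^ (3 * (m + 1)) := by
        rw [div_pow, div_mul_cancel₀ _ (pow_ne_zero _ hΔ), ← pow_mul]
      rw [h3, hp' τ, eval_add, eval_mul, eval_C, eval_pow, eval_X, ← hJ, Jfun_def]
      ring

/-- `Δ ^ m * f` is slash-invariant of weight `12 m` if `f` is `SL(2,ℤ)`-invariant. -/
theorem discPow_mul_slash (f : ℍ → ℂ) (inv : ∀ (γ : SL(2, ℤ)) (τ : ℍ), f (γ • τ) = f τ) (m : ℕ)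
    (γ : SL(2, ℤ)) :
    (fun τ => Δ τ ^ m * f τ) ∣[(12 * m : ℤ)] γ = fun τ => Δ τ ^ m * f τ := by
  ext τ
  rw [SL_slash_apply]
  have hγ : (γ : GL (Fin 2) ℝ) ∈ 𝒮ℒ := ⟨γ, rfl⟩
  have h := SlashInvariantForm.slash_action_eqn'' CuspForm.discriminant hγ τ
  have hd : denom (γ : GL (Fin 2) ℝ) τ ≠ 0 := denom_ne_zero _ _
  have h' : Δ (γ • τ) = denom (γ : GL (Fin 2) ℝ) τ ^ (12 : ℤ) * Δ τ := h
  rw [inv γ τ, h', mul_pow, ← zpow_natCast (denom (γ : GL (Fin 2) ℝ) τ ^ (12 : ℤ)) m, ← zpow_mul,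
    zpow_neg]
  field_simp

/-- The modular form `Δ ^ m * f` attached to a holomorphic invariant function `f` with
`Δ ^ m * f` bounded at `i∞`. -/
def mfOfInvariant (f : ℍ → ℂ) (hol : MDiff f)
    (inv : ∀ (γ : SL(2, ℤ)) (τ : ℍ), f (γ • τ) = f τ) (m : ℕ)
    (bdd : IsBoundedAtImInfty (fun τ => Δ τ ^ m * f τ)) : ModularForm 𝒮ℒ (12 * m) where
  toFun τ := Δ τ ^ m * f τ
  slash_action_eq' := fun _ ⟨γ, hγ⟩ ↦ hγ ▸ discPow_mul_slash f inv m γ
  holo' := (CuspForm.discriminant.holo'.pow m).mul hol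
  bdd_at_cusps' {c} hc := by
    rw [Subgroup.IsArithmetic.isCusp_iff_isCusp_SL2Z] at hc
    rw [isBoundedAt_iff_forall_SL2Z hc]
    intro γ _
    rw [discPow_mul_slash f inv m γ]
    exact bdd

/-- A holomorphic `SL(2,ℤ)`-invariant function on `ℍ` with at most a pole of order `m` at `i∞`
is a polynomial of degree `≤ m` in `Jfun`. -/
theorem exists_poly_of_invariant (f : ℍ → ℂ) (hol : MDiff f)
    (inv : ∀ (γ : SL(2, ℤ)) (τ : ℍ), f (γ • τ) = f τ) (m : ℕ)
    (bdd : IsBoundedAtImInfty (fun τ => Δ τ ^ m * f τ)) :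
    ∃ p : ℂ[X], p.natDegree ≤ m ∧ ∀ τ : ℍ, f τ = p.eval (Jfun τ) := by
  obtain ⟨p, hp, h⟩ := exists_poly_of_modularForm m (12 * m) rfl (mfOfInvariant f hol inv m bdd)
  refine ⟨p, hp, fun τ => ?_⟩
  have h1 : Δ τ ^ m * f τ = Δ τ ^ m * p.eval (Jfun τ) := h τ
  exact mul_left_cancel₀ (pow_ne_zero m (discriminant_ne_zero τ)) h1

end Fermat.Agent.S24

end
end ZBS24_001_9

/-! ### bundled: `Fermat.Agent.S24.StabCore` -/
section ZBS24_001_10

/-!
# S24 piece P7b (core): `J(N·γτ) = J(Nτ)` for all `τ` iff `γ ∈ Γ₀(N)`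

* `stab_Jfun_SL_smul` : `Jfun` is `SL(2,ℤ)`-invariant.
* `stab_tendsto_qParam_mul_Jfun` : `q · J → 1` at `i∞`.
* `stab_tendsto_norm_Jfun_mul_exp` : `‖J τ‖ · exp (-2π im τ) → 1` at `i∞`.
* `Jd_smul_of_mem_Gamma0` : `J(d·γτ) = J(dτ)` for `γ ∈ Γ₀(N)`, `d ∣ N`.
* `mem_Gamma0_of_Jd_smul` : if `J(N·γτ) = J(Nτ)` for all `τ` then `γ ∈ Γ₀(N)`.
* `Jd_smul_iff` : the equivalence.
-/

set_option autoImplicit false

noncomputable section

open UpperHalfPlane Filter Topology
open scoped MatrixGroups Real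

namespace Fermat.Agent.S24

open ModularForm EisensteinSeries

/-! ### invariance -/

theorem stab_mem_SL_range (γ : SL(2, ℤ)) :
    ((γ : GL (Fin 2) ℝ)) ∈ (Matrix.SpecialLinearGroup.mapGL ℝ : SL(2, ℤ) →* GL (Fin 2) ℝ).range :=
  ⟨γ, rfl⟩

theorem stab_levelOne_smul {F : Type*} [FunLike F ℍ ℂ] {k : ℤ}
    [SlashInvariantFormClass F (Matrix.SpecialLinearGroup.mapGL ℝ : SL(2, ℤ) →* GL (Fin 2) ℝ).range k]
    (f : F) (γ : SL(2, ℤ)) (τ : ℍ) :
    f (γ • τ) = (denom (γ : GL (Fin 2) ℝ) τ) ^ k * f τ :=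
  SlashInvariantForm.slash_action_eqn'' f (stab_mem_SL_range γ) τ

/-- `Jfun` is invariant under `SL(2, ℤ)`. -/
theorem stab_Jfun_SL_smul (γ : SL(2, ℤ)) (τ : ℍ) : Jfun (γ • τ) = Jfun τ := by
  have h4 := stab_levelOne_smul E₄ γ τ
  have hΔ := stab_levelOne_smul CuspForm.discriminant γ τ
  rw [CuspForm.coe_discriminant] at hΔ
  have hd : denom (γ : GL (Fin 2) ℝ) τ ≠ 0 := denom_ne_zero _ _
  unfold Jfun
  rw [h4, hΔ]
  generalize denom (γ : GL (Fin 2) ℝ) τ = d at hd
  have h1 : (d ^ (4 : ℤ)) ^ 3 = d ^ (12 : ℤ) := by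
    rw [← zpow_natCast, ← zpow_mul]; norm_num
  rw [mul_pow, h1, mul_div_mul_left _ _ (zpow_ne_zero _ hd)]

/-- `Jfun` is invariant under `SL(2, ℤ)` (action through `GL (Fin 2) ℝ`). -/
theorem stab_Jfun_GL_smul (γ : SL(2, ℤ)) (τ : ℍ) : Jfun ((γ : GL (Fin 2) ℝ) • τ) = Jfun τ :=
  stab_Jfun_SL_smul γ τ

/-! ### asymptotics at `i∞` -/

theorem stab_one_mem_strictPeriods : (1 : ℝ) ∈ (𝒮ℒ : Subgroup (GL (Fin 2) ℝ)).strictPeriods := by
  simp

theorem stab_tendsto_E₄_atImInfty : Tendsto (fun τ : ℍ => E₄ τ) atImInfty (𝓝 1) := by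
  have hper : Function.Periodic ((E₄ : ℍ → ℂ) ∘ ofComplex) 1 :=
    SlashInvariantFormClass.periodic_comp_ofComplex E₄ stab_one_mem_strictPeriods
  have han : AnalyticAt ℂ (cuspFunction 1 (E₄ : ℍ → ℂ)) 0 :=
    ModularFormClass.analyticAt_cuspFunction_zero E₄ one_pos stab_one_mem_strictPeriods
  have h0 : cuspFunction 1 (E₄ : ℍ → ℂ) 0 = 1 := by
    have := E_qExpansion_coeff_zero (k := 4) (by norm_num) ⟨2, rfl⟩
    rw [qExpansion_coeff] at this
    simpa using this
  have ht := han.continuousAt.tendsto.comp (qParam_tendsto_atImInfty one_pos)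
  rw [h0] at ht
  refine ht.congr fun τ => ?_
  simp only [Function.comp_apply]
  exact eq_cuspFunction τ one_ne_zero hper

/-- `q · J → 1` at `i∞`. -/
theorem stab_tendsto_qParam_mul_Jfun :
    Tendsto (fun τ : ℍ => Function.Periodic.qParam 1 τ * Jfun τ) atImInfty (𝓝 1) := by
  have h1 : Tendsto (fun τ : ℍ => (E₄ τ) ^ 3 / ∏' (n : ℕ), (1 - eta_q n τ) ^ 24) atImInfty
      (𝓝 (1 ^ 3 / 1)) :=
    (stab_tendsto_E₄_atImInfty.pow 3).div tendsto_atImInfty_tprod_one_sub_eta_q_pow one_ne_zero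
  simp only [one_pow, div_one] at h1
  refine h1.congr fun τ => ?_
  unfold Jfun
  have hq : Function.Periodic.qParam 1 (τ : ℂ) ≠ 0 := Function.Periodic.qParam_ne_zero _
  have hΔ := discriminant_eq_q_prod τ
  have hΔ0 : ModularForm.discriminant τ ≠ 0 := discriminant_ne_zero τ
  have hp0 : ∏' (n : ℕ), (1 - eta_q n τ) ^ 24 ≠ 0 := by
    intro h
    rw [h, mul_zero] at hΔ
    exact hΔ0 hΔ
  rw [hΔ]
  field_simp

/-- `‖J τ‖ · exp (-2π im τ) → 1` at `i∞`. -/
theorem stab_tendsto_norm_Jfun_mul_exp :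
    Tendsto (fun τ : ℍ => ‖Jfun τ‖ * Real.exp (-2 * π * τ.im)) atImInfty (𝓝 1) := by
  have h := stab_tendsto_qParam_mul_Jfun.norm
  rw [norm_one] at h
  refine h.congr fun τ => ?_
  rw [norm_mul, Function.Periodic.norm_qParam, mul_comm]
  simp


/-! ### upper triangular matrices -/

theorem stab_det_upper_pos (a b d : ℝ) (ha : 0 < a) (hd : 0 < d) :
    0 < ((ModularForm.upperTriangularGL a b d (mul_pos ha hd).ne').det : ℝ) := by
  rw [Matrix.GeneralLinearGroup.val_det_apply, ModularForm.val_upperTriangularGL,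
    Matrix.det_fin_two_of]
  simpa using mul_pos ha hd

theorem stab_coe_upper_smul (a b d : ℝ) (ha : 0 < a) (hd : 0 < d) (τ : ℍ) :
    ((ModularForm.upperTriangularGL a b d (mul_pos ha hd).ne' • τ : ℍ) : ℂ) = (a * τ + b) / d := by
  rw [UpperHalfPlane.coe_smul_of_det_pos (stab_det_upper_pos a b d ha hd)]
  simp [UpperHalfPlane.num, UpperHalfPlane.denom, ModularForm.val_upperTriangularGL]

theorem stab_im_upper_smul (a b d : ℝ) (ha : 0 < a) (hd : 0 < d) (τ : ℍ) :
    (ModularForm.upperTriangularGL a b d (mul_pos ha hd).ne' • τ : ℍ).im = a / d * τ.im := by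
  have h := stab_coe_upper_smul a b d ha hd τ
  have h2 : ((ModularForm.upperTriangularGL a b d (mul_pos ha hd).ne' • τ : ℍ) : ℂ).im =
      (((a : ℂ) * τ + b) / d).im := by rw [h]
  rw [UpperHalfPlane.coe_im] at h2
  rw [h2]
  have hd' : (d : ℂ) ≠ 0 := by exact_mod_cast hd.ne'
  have : ((a : ℂ) * τ + b) / d = ((a / d : ℝ) : ℂ) * τ + ((b / d : ℝ) : ℂ) := by
    push_cast; field_simp
  rw [this]
  simp [Complex.add_im, Complex.mul_im]

theorem stab_tendsto_upper_smul (a b d : ℝ) (ha : 0 < a) (hd : 0 < d) :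
    Tendsto (fun τ : ℍ => ModularForm.upperTriangularGL a b d (mul_pos ha hd).ne' • τ)
      atImInfty atImInfty := by
  rw [atImInfty, tendsto_comap_iff]
  have h : (UpperHalfPlane.im ∘ fun τ : ℍ =>
      ModularForm.upperTriangularGL a b d (mul_pos ha hd).ne' • τ) = fun τ : ℍ => a / d * τ.im := by
    funext τ
    exact stab_im_upper_smul a b d ha hd τ
  rw [h]
  exact (tendsto_comap (f := UpperHalfPlane.im) (x := atTop)).const_mul_atTop (div_pos ha hd)

/-- `‖J (u τ)‖ · exp (-2π (a/d) im τ) → 1` at `i∞`, for `u = [a b; 0 d]`. -/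
theorem stab_tendsto_norm_Jfun_upper (a b d : ℝ) (ha : 0 < a) (hd : 0 < d) :
    Tendsto (fun τ : ℍ => ‖Jfun (ModularForm.upperTriangularGL a b d (mul_pos ha hd).ne' • τ)‖ *
      Real.exp (-2 * π * (a / d * τ.im))) atImInfty (𝓝 1) := by
  have h := stab_tendsto_norm_Jfun_mul_exp.comp (stab_tendsto_upper_smul a b d ha hd)
  refine h.congr fun τ => ?_
  simp only [Function.comp_apply]
  rw [stab_im_upper_smul a b d ha hd τ]

/-- If `J ∘ u = J ∘ u'` for upper triangular `u = [a b; 0 d]`, `u' = [a' b'; 0 d']`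
then `a / d = a' / d'`. -/
theorem stab_ratio_eq_of_Jfun_upper_eq (a b d a' b' d' : ℝ) (ha : 0 < a) (hd : 0 < d)
    (ha' : 0 < a') (hd' : 0 < d')
    (h : ∀ τ : ℍ, Jfun (ModularForm.upperTriangularGL a b d (mul_pos ha hd).ne' • τ) =
      Jfun (ModularForm.upperTriangularGL a' b' d' (mul_pos ha' hd').ne' • τ)) :
    a / d = a' / d' := by
  have h1 := stab_tendsto_norm_Jfun_upper a b d ha hd
  have h2 := stab_tendsto_norm_Jfun_upper a' b' d' ha' hd'
  -- the quotient of the two tends to `1`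
  have h3 := h1.div h2 one_ne_zero
  simp only [div_one] at h3
  have hJ : ∀ᶠ τ : ℍ in atImInfty,
      ‖Jfun (ModularForm.upperTriangularGL a' b' d' (mul_pos ha' hd').ne' • τ)‖ ≠ 0 := by
    have := h2.eventually_ne one_ne_zero
    filter_upwards [this] with τ hτ h0
    apply hτ
    rw [h0, zero_mul]
  have h4 : Tendsto (fun τ : ℍ => Real.exp (2 * π * (a' / d' - a / d) * τ.im)) atImInfty (𝓝 1) := by
    refine h3.congr' ?_
    filter_upwards [hJ] with τ hτ
    simp only [Pi.div_apply]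
    rw [h τ]
    have he : Real.exp (-2 * π * (a' / d' * τ.im)) ≠ 0 := (Real.exp_pos _).ne'
    rw [mul_div_mul_left _ _ hτ, ← Real.exp_sub]
    congr 1
    ring
  -- hence the exponent is zero
  by_contra hne
  rcases lt_or_gt_of_ne hne with hlt | hgt
  · -- a/d < a'/d' : exponent → +∞
    have hc : 0 < 2 * π * (a' / d' - a / d) := by
      have : 0 < a' / d' - a / d := sub_pos.mpr hlt
      positivity
    have h5 : Tendsto (fun τ : ℍ => Real.exp (2 * π * (a' / d' - a / d) * τ.im)) atImInfty atTop :=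
      Real.tendsto_exp_atTop.comp
        ((tendsto_comap (f := UpperHalfPlane.im) (x := atTop)).const_mul_atTop hc)
    exact not_tendsto_nhds_of_tendsto_atTop h5 1 h4
  · -- a/d > a'/d' : exponent → -∞, limit 0
    have hc : 2 * π * (a' / d' - a / d) < 0 := by
      have : a' / d' - a / d < 0 := sub_neg.mpr hgt
      have hpi : 0 < 2 * π := by positivity
      exact mul_neg_of_pos_of_neg hpi this
    have h5 : Tendsto (fun τ : ℍ => Real.exp (2 * π * (a' / d' - a / d) * τ.im)) atImInfty (𝓝 0) :=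
      Real.tendsto_exp_atBot.comp
        ((tendsto_comap (f := UpperHalfPlane.im) (x := atTop)).const_mul_atTop_of_neg hc)
    exact zero_ne_one (tendsto_nhds_unique h5 h4)


/-! ### the stabiliser of `J(N·)` -/

theorem stab_heckeDiagMatrix_eq {N : ℕ} (hN : 0 < N) :
    ModularForm.heckeDiagMatrix N =
      ModularForm.upperTriangularGL N 0 1 (mul_pos (Nat.cast_pos.mpr hN) one_pos).ne' := by
  unfold ModularForm.heckeDiagMatrix
  rw [dif_neg hN.ne']

theorem stab_Jd_apply (d : ℕ) (τ : ℍ) : Jd d τ = Jfun (ModularForm.heckeDiagMatrix d • τ) := rfl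

theorem stab_SL_det_eq (g : SL(2, ℤ)) : g 0 0 * g 1 1 - g 0 1 * g 1 0 = 1 := by
  have h := g.det_coe
  rwa [Matrix.det_fin_two] at h

theorem stab_mapGL_apply (g : SL(2, ℤ)) (i j : Fin 2) :
    ((g : GL (Fin 2) ℝ) : Matrix (Fin 2) (Fin 2) ℝ) i j = ((g i j : ℤ) : ℝ) := by
  simp

/-- commutation of `diag(d, 1)` with `γ ∈ Γ₀(d)`. -/
theorem stab_heckeDiagMatrix_mul {d : ℕ} (hd : d ≠ 0) (g : SL(2, ℤ)) (e : ℤ)
    (he : g 1 0 = d * e) :
    ∃ g' : SL(2, ℤ),
      ModularForm.heckeDiagMatrix d * (g : GL (Fin 2) ℝ) =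
        (g' : GL (Fin 2) ℝ) * ModularForm.heckeDiagMatrix d := by
  have hdet := stab_SL_det_eq g
  have hdet' : (!![g 0 0, d * g 0 1; e, g 1 1] : Matrix (Fin 2) (Fin 2) ℤ).det = 1 := by
    rw [Matrix.det_fin_two_of]
    linear_combination hdet + (g 0 1) * he
  obtain ⟨g', e00, e01, e10, e11⟩ : ∃ g' : SL(2, ℤ), g' 0 0 = g 0 0 ∧ g' 0 1 = d * g 0 1 ∧
      g' 1 0 = e ∧ g' 1 1 = g 1 1 := ⟨⟨!![g 0 0, d * g 0 1; e, g 1 1], hdet'⟩, rfl, rfl, rfl, rfl⟩
  refine ⟨g', ?_⟩
  apply Matrix.GeneralLinearGroup.ext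
  intro i j
  simp only [Matrix.GeneralLinearGroup.coe_mul, Matrix.mul_apply, Fin.sum_univ_two,
    stab_mapGL_apply, ModularForm.val_heckeDiagMatrix hd]
  have he' := congrArg (Int.cast : ℤ → ℝ) he
  push_cast at he'
  fin_cases i <;> fin_cases j <;> simp [e00, e01, e10, e11, he'] <;> ring

/-- `J(d·γτ) = J(dτ)` for `γ ∈ Γ₀(N)`, `d ∣ N`. -/
theorem Jd_smul_of_mem_Gamma0 {N d : ℕ} [NeZero N] (hd : d ∣ N) {γ : SL(2, ℤ)}
    (hγ : γ ∈ CongruenceSubgroup.Gamma0 N) (τ : ℍ) : Jd d (γ • τ) = Jd d τ := by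
  have hd0 : d ≠ 0 := fun h => NeZero.ne N (by rw [h, zero_dvd_iff] at hd; exact hd)
  have hN : ((γ 1 0 : ℤ) : ZMod N) = 0 := CongruenceSubgroup.Gamma0_mem.mp hγ
  have hNdvd : (N : ℤ) ∣ γ 1 0 := (ZMod.intCast_zmod_eq_zero_iff_dvd _ _).mp hN
  have hddvd : (d : ℤ) ∣ γ 1 0 := (Int.natCast_dvd_natCast.mpr hd).trans hNdvd
  obtain ⟨e, he⟩ := hddvd
  obtain ⟨g', hg'⟩ := stab_heckeDiagMatrix_mul hd0 γ e he
  rw [stab_Jd_apply, stab_Jd_apply]
  have h1 : ModularForm.heckeDiagMatrix d • (γ • τ) =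
      (g' : GL (Fin 2) ℝ) • (ModularForm.heckeDiagMatrix d • τ) := by
    have : ModularForm.heckeDiagMatrix d • (γ • τ) =
        (ModularForm.heckeDiagMatrix d * (γ : GL (Fin 2) ℝ)) • τ := by
      rw [mul_smul]; rfl
    rw [this, hg', mul_smul]
  rw [h1, stab_Jfun_GL_smul]

/-- If `J(N·γτ) = J(Nτ)` for all `τ` then `γ ∈ Γ₀(N)`. -/
theorem mem_Gamma0_of_Jd_smul {N : ℕ} [NeZero N] {γ : SL(2, ℤ)}
    (h : ∀ τ : ℍ, Jd N (γ • τ) = Jd N τ) : γ ∈ CongruenceSubgroup.Gamma0 N := by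
  have hN : 0 < N := Nat.pos_of_ne_zero (NeZero.ne N)
  have hNZ : (0 : ℤ) < (N : ℤ) := by exact_mod_cast hN
  have hNR : (0 : ℝ) < (N : ℝ) := by exact_mod_cast hN
  obtain ⟨δ', a', b', d', ha', hd', hmat⟩ :=
    Fermat.Agent.S22.upper_mul_SL2_eq (N : ℤ) 0 1 hNZ one_pos γ
  have ha'R : (0 : ℝ) < (a' : ℝ) := by exact_mod_cast ha'
  have hd'R : (0 : ℝ) < (d' : ℝ) := by exact_mod_cast hd'
  -- rewrite the left factor as `heckeDiagMatrix N`
  have hdiag : ModularForm.upperTriangularGL ((N : ℤ) : ℝ) ((0 : ℤ) : ℝ) ((1 : ℤ) : ℝ)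
      (by positivity) = ModularForm.heckeDiagMatrix N := by
    rw [stab_heckeDiagMatrix_eq hN]
    apply Matrix.GeneralLinearGroup.ext
    intro i j
    simp [ModularForm.val_upperTriangularGL]
  rw [hdiag] at hmat
  -- entries of the matrix identity
  have hval := congrArg (fun M : GL (Fin 2) ℝ => (M : Matrix (Fin 2) (Fin 2) ℝ)) hmat
  simp only [Matrix.GeneralLinearGroup.coe_mul, ModularForm.val_upperTriangularGL,
    ModularForm.val_heckeDiagMatrix hN.ne'] at hval
  have h10 := congrFun (congrFun hval 1) 0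
  have h11 := congrFun (congrFun hval 1) 1
  have h00 := congrFun (congrFun hval 0) 0
  have h01 := congrFun (congrFun hval 0) 1
  simp [Matrix.mul_apply, Fin.sum_univ_two] at h10 h11 h00 h01
  -- the analytic input : a' / d' = N
  have hJ : ∀ τ : ℍ, Jfun (ModularForm.upperTriangularGL (a' : ℝ) (b' : ℝ) (d' : ℝ)
      (mul_pos ha'R hd'R).ne' • τ) =
      Jfun (ModularForm.upperTriangularGL (N : ℝ) 0 1 (mul_pos hNR one_pos).ne' • τ) := by
    intro τ
    have h1 := h τ
    rw [stab_Jd_apply, stab_Jd_apply] at h1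
    have h2 : ModularForm.heckeDiagMatrix N • (γ • τ) =
        (δ' : GL (Fin 2) ℝ) • (ModularForm.upperTriangularGL (a' : ℝ) (b' : ℝ) (d' : ℝ)
          (mul_pos ha'R hd'R).ne' • τ) := by
      have : ModularForm.heckeDiagMatrix N • (γ • τ) =
          (ModularForm.heckeDiagMatrix N * (γ : GL (Fin 2) ℝ)) • τ := by
        rw [mul_smul]; rfl
      rw [this, hmat, mul_smul]
    rw [h2, stab_Jfun_GL_smul, stab_heckeDiagMatrix_eq hN] at h1
    exact h1
  have hratio := stab_ratio_eq_of_Jfun_upper_eq (a' : ℝ) (b' : ℝ) (d' : ℝ) (N : ℝ) 0 1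
    ha'R hd'R hNR one_pos hJ
  rw [div_one] at hratio
  -- determinant : a' * d' = N
  have hdetSL := stab_SL_det_eq γ
  have hdetSL' := stab_SL_det_eq δ'
  have hdetR : (a' : ℝ) * d' = N := by
    have e1 := congrArg (Int.cast : ℤ → ℝ) hdetSL
    have e2 := congrArg (Int.cast : ℤ → ℝ) hdetSL'
    push_cast at e1 e2
    -- N = N * det γ = (N γ00)(γ11) - (N γ01)(γ10) = (δ00 a')(δ10 b' + δ11 d') - (δ00 b' + δ01 d')(δ10 a')
    have : (N : ℝ) = (N * (γ 0 0 : ℝ)) * (γ 1 1 : ℝ) - (N * (γ 0 1 : ℝ)) * (γ 1 0 : ℝ) := by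
      linear_combination (-(N : ℝ)) * e1
    rw [this, h00, h01, h10, h11]
    linear_combination (-(a' : ℝ) * d') * e2
  have hd'1 : (d' : ℝ) = 1 := by
    have hsq : (d' : ℝ) ^ 2 = 1 := by
      have h1 : (a' : ℝ) = N * d' := by
        field_simp at hratio
        linarith
      rw [h1] at hdetR
      have : (N : ℝ) * ((d' : ℝ) ^ 2 - 1) = 0 := by linarith
      rcases mul_eq_zero.mp this with h0 | h0
      · exact absurd h0 hNR.ne'
      · linarith
    nlinarith [hd'R]
  have ha'N : (a' : ℝ) = N := by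
    rw [hd'1, mul_one] at hdetR
    exact hdetR
  -- entry (1,0) : γ 1 0 = δ' 1 0 * N
  rw [CongruenceSubgroup.Gamma0_mem]
  have hint : (γ 1 0 : ℤ) = δ' 1 0 * N := by
    have : ((γ 1 0 : ℤ) : ℝ) = ((δ' 1 0 * N : ℤ) : ℝ) := by
      push_cast
      rw [h10, ha'N]
    exact_mod_cast this
  rw [hint]
  simp

/-- **P7b core.** `J(N·γτ) = J(Nτ)` for all `τ` iff `γ ∈ Γ₀(N)`. -/
theorem Jd_smul_iff {N : ℕ} [NeZero N] (γ : SL(2, ℤ)) :
    (∀ τ : ℍ, Jd N (γ • τ) = Jd N τ) ↔ γ ∈ CongruenceSubgroup.Gamma0 N :=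
  ⟨mem_Gamma0_of_Jd_smul, fun hγ τ => Jd_smul_of_mem_Gamma0 (dvd_refl N) hγ τ⟩

/-- `γ ∈ Γ₀(N)` iff `γ` fixes all `J(d·)`, `d ∣ N`. -/
theorem forall_Jd_smul_iff {N : ℕ} [NeZero N] (γ : SL(2, ℤ)) :
    (∀ d : ℕ, d ∣ N → ∀ τ : ℍ, Jd d (γ • τ) = Jd d τ) ↔ γ ∈ CongruenceSubgroup.Gamma0 N :=
  ⟨fun h => mem_Gamma0_of_Jd_smul (h N (dvd_refl N)),
    fun hγ _ hd τ => Jd_smul_of_mem_Gamma0 hd hγ τ⟩

end Fermat.Agent.S24

end
end ZBS24_001_10

/-! ### bundled: `Fermat.Agent.S24.Stab` -/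
section ZBS24_001_11

/-!
# S24 P7b — `stab_iff` for the analytic model

`stab_iff_of_phi`: for every `φ : FF N →ₐ[ℚ̄] Man N` with `φ (j(q^d)) = JdMan N d hd` for all `d ∣ N`
(this is what P6b provides), `act N γ` fixes `φ(FF N)` pointwise iff `γ ∈ Γ₀(N)`.
This is exactly the field `stab_iff` of `Realization N`.
-/

set_option autoImplicit false

noncomputable section

open UpperHalfPlane
open scoped MatrixGroups

namespace Fermat.Agent.S24

attribute [local instance] algKbC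

theorem actBan_JdBan_iff (N : ℕ) [NeZero N] (γ : SL(2, ℤ)) (d : ℕ) (hd : d ∣ N) :
    actBan N γ (JdBan N d hd) = JdBan N d hd ↔ ∀ τ : ℍ, Jd d (γ⁻¹ • τ) = Jd d τ := by
  rw [Subtype.ext_iff, actBan_coe]
  show precomp γ (Jd d) = Jd d ↔ _
  constructor
  · intro h τ
    exact congrFun h τ
  · intro h
    funext τ
    exact h τ

theorem act_JdMan_iff (N : ℕ) [NeZero N] (γ : SL(2, ℤ)) (d : ℕ) (hd : d ∣ N) :
    act N γ (JdMan N d hd) = JdMan N d hd ↔ ∀ τ : ℍ, Jd d (γ⁻¹ • τ) = Jd d τ := by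
  rw [JdMan, act_algebraMap, (IsFractionRing.injective (Ban N) (Man N)).eq_iff,
    actBan_JdBan_iff]

/-- `act N γ` fixes `J(Nτ)` iff `γ ∈ Γ₀(N)`. -/
theorem act_JdMan_self_iff (N : ℕ) [NeZero N] (γ : SL(2, ℤ)) :
    act N γ (JdMan N N dvd_rfl) = JdMan N N dvd_rfl ↔ γ ∈ CongruenceSubgroup.Gamma0 N := by
  rw [act_JdMan_iff, Jd_smul_iff, inv_mem_iff]

/-- `act N γ` fixes all `J(dτ)`, `d ∣ N`, iff `γ ∈ Γ₀(N)`. -/
theorem forall_act_JdMan_iff (N : ℕ) [NeZero N] (γ : SL(2, ℤ)) :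
    (∀ (d : ℕ) (hd : d ∣ N), act N γ (JdMan N d hd) = JdMan N d hd) ↔
      γ ∈ CongruenceSubgroup.Gamma0 N := by
  constructor
  · intro h
    exact (act_JdMan_self_iff N γ).mp (h N dvd_rfl)
  · intro h d hd
    rw [act_JdMan_iff]
    exact (forall_Jd_smul_iff (N := N) γ⁻¹).mpr (inv_mem h) d hd

/-- **`stab_iff`** of the realization: if `φ (j(q^d)) = J(dτ)` for all `d ∣ N`, then `act N γ`
fixes `φ(FF N)` pointwise iff `γ ∈ Γ₀(N)`. -/
theorem stab_iff_of_phi (N : ℕ) [NeZero N] (φ : FF N →ₐ[Kb] Man N)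
    (hφ : ∀ (d : ℕ) (hd : d ∣ N), φ (jdF N d hd) = JdMan N d hd) (γ : SL(2, ℤ)) :
    (∀ f, act N γ (φ f) = φ f) ↔ γ ∈ CongruenceSubgroup.Gamma0 N := by
  rw [← forall_act_JdMan_iff]
  constructor
  · intro h d hd
    rw [← hφ d hd]
    exact h _
  · intro h
    have key : (AlgEquiv.toAlgHom (act N γ)).comp φ = φ :=
      FF_algHom_ext _ _ fun d hd => by
        rw [AlgHom.comp_apply, hφ d hd]
        exact h d hd
    intro f
    exact DFunLike.congr_fun key f

/-- `act_j` of the realization, for `φ` as in `stab_iff_of_phi`. -/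
theorem act_j_of_phi (N : ℕ) [NeZero N] (φ : FF N →ₐ[Kb] Man N)
    (hφ : ∀ (d : ℕ) (hd : d ∣ N), φ (jdF N d hd) = JdMan N d hd) (γ : SL(2, ℤ)) :
    act N γ (φ (jF N)) = φ (jF N) := by
  rw [← jdF_one, hφ 1 (one_dvd N), JdMan_one]
  exact act_jMan N γ

end Fermat.Agent.S24

end
end ZBS24_001_11

/-! ### bundled: `Fermat.Agent.S24.Transc` -/
section ZBS24_001_12

/-!
# S24 piece P1-fin — transcendence of `j`, adjoin / finrank equalities, Artin finiteness

* `transcendental_jF` : `j` is transcendental over `ℚ̄`; also `j - c` and `j⁻¹`.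
* `adjoin_jF_sub_eq`, `adjoin_jF_inv_eq` : `ℚ̄(j - c) = ℚ̄(j) = ℚ̄(j⁻¹)`, with the `finrank` and
  `FiniteDimensional` transfers.
* `finiteDimensional_adjoin_of_fixed` : generic Artin lemma — if a finite group acts on a field
  `M ⊇ φ(F)` with fixed field inside `K(φ j)` then `F` is finite over `K(j)`.
-/

set_option autoImplicit false

noncomputable section

open IntermediateField

namespace Fermat.Agent.S24

/-! ### (a) transcendence -/

theorem jBar_coeff_neg_one : jBar.coeff (-1 : ℤ) = 1 := by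
  rw [jBar, ModularCurve.coeffEmb_coeff, ModularCurve.coeff_jq_neg_one, map_one]

theorem jBar_coeff_of_lt {k : ℤ} (hk : k < -1) : jBar.coeff k = 0 := by
  rw [jBar, ModularCurve.coeffEmb_coeff, ModularCurve.coeff_jq_of_lt hk, map_zero]

theorem jBar_ne_zero : jBar ≠ 0 := fun h => by
  have := jBar_coeff_neg_one
  rw [h] at this
  simp at this

/-- An element of a field extension of an algebraically closed field `k` that is algebraic
over `k` lies in `k`. -/
theorem mem_range_algebraMap_of_isAlgebraic {k L : Type*} [Field k] [IsAlgClosed k] [Field L]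
    [Algebra k L] {x : L} (hx : IsAlgebraic k x) : x ∈ (algebraMap k L).range := by
  have hint : IsIntegral k x := hx.isIntegral
  exact minpoly.mem_range_of_degree_eq_one k x
    (IsAlgClosed.degree_eq_one_of_irreducible k (minpoly.irreducible hint))

theorem transcendental_jBar : Transcendental Kb jBar := by
  intro halg
  obtain ⟨c, hc⟩ := mem_range_algebraMap_of_isAlgebraic halg
  have h1 := jBar_coeff_neg_one
  rw [← hc, ModularCurve.algebraMap_laurentSeries_eq_single] at h1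
  rw [HahnSeries.coeff_single_of_ne (by decide)] at h1
  exact zero_ne_one h1

theorem coe_jF (N : ℕ) [NeZero N] : ((jF N : FF N) : LaurentSeries Kb) = jBar := rfl

theorem jF_ne_zero (N : ℕ) [NeZero N] : jF N ≠ 0 := fun h => by
  apply jBar_ne_zero
  rw [← coe_jF N, h]
  rfl

/-- (a) `j` is transcendental over `ℚ̄`. -/
theorem transcendental_jF (N : ℕ) [NeZero N] : Transcendental Kb (jF N) := by
  intro halg
  apply transcendental_jBar
  have := (isAlgebraic_algHom_iff (ModularCurve.modularFunctionFieldBar N).val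
    (Subtype.val_injective)).mpr halg
  exact this

/-- Generic: `x` transcendental ⇒ `x - c` transcendental. -/
theorem transcendental_sub_algebraMap {K F : Type*} [Field K] [Field F] [Algebra K F] {x : F}
    (hx : Transcendental K x) (c : K) : Transcendental K (x - algebraMap K F c) := by
  intro halg
  apply hx
  have := halg.add (isAlgebraic_algebraMap (R := K) (A := F) c)
  simpa using this

/-- Generic: `x` transcendental ⇒ `x⁻¹` transcendental. -/
theorem transcendental_inv {K F : Type*} [Field K] [Field F] [Algebra K F] {x : F}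
    (hx : Transcendental K x) : Transcendental K x⁻¹ := by
  intro halg
  apply hx
  simpa using halg.inv

/-- (a') `j - c` is transcendental over `ℚ̄`. -/
theorem transcendental_jF_sub (N : ℕ) [NeZero N] (c : Kb) :
    Transcendental Kb (jF N - algebraMap Kb (FF N) c) :=
  transcendental_sub_algebraMap (transcendental_jF N) c

/-- (a') `j⁻¹` is transcendental over `ℚ̄`. -/
theorem transcendental_jF_inv (N : ℕ) [NeZero N] : Transcendental Kb (jF N)⁻¹ :=
  transcendental_inv (transcendental_jF N)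

theorem jF_sub_ne_zero (N : ℕ) [NeZero N] (c : Kb) : jF N - algebraMap Kb (FF N) c ≠ 0 :=
  fun h => transcendental_jF_sub N c (h ▸ isAlgebraic_zero)

theorem jF_inv_ne_zero (N : ℕ) [NeZero N] : (jF N)⁻¹ ≠ 0 :=
  inv_ne_zero (jF_ne_zero N)

/-! ### (b) adjoin equalities -/

section Adjoin

variable {K F : Type*} [Field K] [Field F] [Algebra K F]

theorem sub_algebraMap_mem_adjoin (x : F) (c : K) : x - algebraMap K F c ∈ K⟮x⟯ :=
  sub_mem (mem_adjoin_simple_self K x) (K⟮x⟯.algebraMap_mem c)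

theorem mem_adjoin_sub_algebraMap (x : F) (c : K) : x ∈ K⟮x - algebraMap K F c⟯ := by
  have h := add_mem (mem_adjoin_simple_self K (x - algebraMap K F c))
    (K⟮x - algebraMap K F c⟯.algebraMap_mem c)
  simpa using h

theorem inv_mem_adjoin (x : F) : x⁻¹ ∈ K⟮x⟯ :=
  inv_mem (mem_adjoin_simple_self K x)

theorem mem_adjoin_inv (x : F) : x ∈ K⟮x⁻¹⟯ := by
  have h := inv_mem (mem_adjoin_simple_self K x⁻¹)
  simpa using h

theorem adjoin_sub_algebraMap_eq (x : F) (c : K) : K⟮x - algebraMap K F c⟯ = K⟮x⟯ :=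
  le_antisymm (adjoin_simple_le_iff.mpr (sub_algebraMap_mem_adjoin x c))
    (adjoin_simple_le_iff.mpr (mem_adjoin_sub_algebraMap x c))

theorem adjoin_inv_eq (x : F) : K⟮x⁻¹⟯ = K⟮x⟯ :=
  le_antisymm (adjoin_simple_le_iff.mpr (inv_mem_adjoin x))
    (adjoin_simple_le_iff.mpr (mem_adjoin_inv x))

theorem finrank_eq_of_intermediateField_eq {A B : IntermediateField K F} (h : A = B) :
    Module.finrank A F = Module.finrank B F := by
  subst h; rfl

theorem finiteDimensional_of_intermediateField_eq {A B : IntermediateField K F} (h : A = B)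
    (hA : FiniteDimensional A F) : FiniteDimensional B F := by
  subst h; exact hA

theorem finrank_adjoin_sub_algebraMap (x : F) (c : K) :
    Module.finrank K⟮x - algebraMap K F c⟯ F = Module.finrank K⟮x⟯ F :=
  finrank_eq_of_intermediateField_eq (adjoin_sub_algebraMap_eq x c)

theorem finrank_adjoin_inv (x : F) :
    Module.finrank K⟮x⁻¹⟯ F = Module.finrank K⟮x⟯ F :=
  finrank_eq_of_intermediateField_eq (adjoin_inv_eq x)

theorem finiteDimensional_adjoin_sub_algebraMap (x : F) (c : K)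
    (h : FiniteDimensional K⟮x⟯ F) : FiniteDimensional K⟮x - algebraMap K F c⟯ F :=
  finiteDimensional_of_intermediateField_eq (adjoin_sub_algebraMap_eq x c).symm h

theorem finiteDimensional_adjoin_inv (x : F)
    (h : FiniteDimensional K⟮x⟯ F) : FiniteDimensional K⟮x⁻¹⟯ F :=
  finiteDimensional_of_intermediateField_eq (adjoin_inv_eq x).symm h

end Adjoin

/-! Specialisations to `jF N`. -/

theorem jF_sub_mem_adjoin (N : ℕ) [NeZero N] (c : Kb) :
    jF N - algebraMap Kb (FF N) c ∈ Kb⟮jF N⟯ := sub_algebraMap_mem_adjoin _ c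

theorem jF_mem_adjoin_sub (N : ℕ) [NeZero N] (c : Kb) :
    jF N ∈ Kb⟮jF N - algebraMap Kb (FF N) c⟯ := mem_adjoin_sub_algebraMap _ c

theorem jF_inv_mem_adjoin (N : ℕ) [NeZero N] : (jF N)⁻¹ ∈ Kb⟮jF N⟯ := inv_mem_adjoin _

theorem jF_mem_adjoin_inv (N : ℕ) [NeZero N] : jF N ∈ Kb⟮(jF N)⁻¹⟯ := mem_adjoin_inv _

theorem adjoin_jF_sub_eq (N : ℕ) [NeZero N] (c : Kb) :
    Kb⟮jF N - algebraMap Kb (FF N) c⟯ = Kb⟮jF N⟯ := adjoin_sub_algebraMap_eq _ c

theorem adjoin_jF_inv_eq (N : ℕ) [NeZero N] : Kb⟮(jF N)⁻¹⟯ = Kb⟮jF N⟯ := adjoin_inv_eq _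

theorem finrank_adjoin_jF_sub (N : ℕ) [NeZero N] (c : Kb) :
    Module.finrank Kb⟮jF N - algebraMap Kb (FF N) c⟯ (FF N) = Module.finrank Kb⟮jF N⟯ (FF N) :=
  finrank_adjoin_sub_algebraMap _ c

theorem finrank_adjoin_jF_inv (N : ℕ) [NeZero N] :
    Module.finrank Kb⟮(jF N)⁻¹⟯ (FF N) = Module.finrank Kb⟮jF N⟯ (FF N) :=
  finrank_adjoin_inv _

theorem finiteDimensional_adjoin_jF_sub (N : ℕ) [NeZero N] (c : Kb)
    (h : FiniteDimensional Kb⟮jF N⟯ (FF N)) :
    FiniteDimensional Kb⟮jF N - algebraMap Kb (FF N) c⟯ (FF N) :=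
  finiteDimensional_adjoin_sub_algebraMap _ c h

theorem finiteDimensional_adjoin_jF_inv (N : ℕ) [NeZero N]
    (h : FiniteDimensional Kb⟮jF N⟯ (FF N)) :
    FiniteDimensional Kb⟮(jF N)⁻¹⟯ (FF N) :=
  finiteDimensional_adjoin_inv _ h

/-! ### (c) Artin finiteness -/

section Artin

variable {K F M Γ : Type*} [Field K] [Field F] [Field M] [Algebra K F] [Algebra K M] [Group Γ]

/-- If `E₀ ≤ E₁` are intermediate fields and `M` is finite over `E₀` then it is finite over
`E₁`. -/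
theorem finiteDimensional_of_intermediateField_le {E₀ E₁ : IntermediateField K M} (h : E₀ ≤ E₁)
    (hfin : FiniteDimensional E₀ M) : FiniteDimensional E₁ M := by
  let _ : Algebra E₀ E₁ := (IntermediateField.inclusion h).toRingHom.toAlgebra
  have : IsScalarTower E₀ E₁ M := IsScalarTower.of_algebraMap_eq (fun x => rfl)
  exact Module.Finite.of_restrictScalars_finite E₀ E₁ M

/-- `M` is finite over the fixed field of a finite subgroup of `M ≃ₐ[K] M`. -/
theorem finiteDimensional_fixedField (H : Subgroup (M ≃ₐ[K] M)) [Finite H] :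
    FiniteDimensional (IntermediateField.fixedField H) M := by
  have h : FiniteDimensional (FixedPoints.subfield H M) M := inferInstance
  exact h

/-- Generic Artin lemma: a finite group acting on `M ⊇ φ(F)` with fixed field inside `K(φ j)`
forces `[F : K(j)] < ∞`. -/
theorem finiteDimensional_adjoin_of_fixed (φ : F →ₐ[K] M) (act : Γ →* (M ≃ₐ[K] M))
    [Finite act.range] (j : F)
    (fixed : ∀ m : M, (∀ γ, act γ m = m) → m ∈ K⟮φ j⟯) :
    FiniteDimensional K⟮j⟯ F := by
  -- Step 1: `M` is finite over `K(φ j)`.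
  have hle : IntermediateField.fixedField act.range ≤ K⟮φ j⟯ := by
    intro m hm
    rw [IntermediateField.mem_fixedField_iff] at hm
    exact fixed m (fun γ => hm (act γ) ⟨γ, rfl⟩)
  have hM : FiniteDimensional K⟮φ j⟯ M :=
    finiteDimensional_of_intermediateField_le hle (finiteDimensional_fixedField act.range)
  -- Step 2: transfer along `φ`.
  have hmap : (K⟮j⟯).map φ = K⟮φ j⟯ := by
    rw [IntermediateField.adjoin_map, Set.image_singleton]
  have hmem : ∀ x : K⟮j⟯, φ x ∈ K⟮φ j⟯ := fun x => by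
    rw [← hmap]
    exact ⟨x, x.2, rfl⟩
  let g : K⟮j⟯ →+* K⟮φ j⟯ :=
    { toFun := fun x => ⟨φ x, hmem x⟩
      map_one' := by ext; simp
      map_mul' := fun x y => by ext; simp
      map_zero' := by ext; simp
      map_add' := fun x y => by ext; simp }
  have hg : Function.Surjective g := by
    rintro ⟨y, hy⟩
    rw [← hmap] at hy
    obtain ⟨x, hx, rfl⟩ := hy
    exact ⟨⟨x, hx⟩, rfl⟩
  let _ : Algebra K⟮j⟯ K⟮φ j⟯ := g.toAlgebra
  let _ : Algebra K⟮j⟯ M := ((algebraMap K⟮φ j⟯ M).comp g).toAlgebra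
  have : IsScalarTower K⟮j⟯ K⟮φ j⟯ M := IsScalarTower.of_algebraMap_eq (fun x => rfl)
  have : Module.Finite K⟮j⟯ K⟮φ j⟯ :=
    Module.Finite.of_surjective (Algebra.linearMap K⟮j⟯ K⟮φ j⟯) hg
  have : Module.Finite K⟮j⟯ M := Module.Finite.trans K⟮φ j⟯ M
  let ψ : F →ₗ[K⟮j⟯] M :=
    { toFun := φ
      map_add' := map_add φ
      map_smul' := fun r f => by
        show φ (r • f) = (φ (r : F)) * φ f
        rw [IntermediateField.smul_def, smul_eq_mul, map_mul] }
  exact FiniteDimensional.of_injective ψ φ.injective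

end Artin

end Fermat.Agent.S24

end
end ZBS24_001_12

/-! ### bundled: `Fermat.Agent.ES.HPrincipal` -/
section ZBS24_001_13

/-!
# ESpkg, piece (H), part (a): principal divisors

For a function field `F` of one variable over an algebraically closed field `K` of characteristic
zero (`F` finite over `K(x)`, `x` transcendental), every nonzero `f ∈ F` has a divisor, of
degree `0`: `AlgebraicCurve.HasPrincipalDivisors K F`.
-/

set_option autoImplicit false

noncomputable section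

open AlgebraicCurve IntermediateField

namespace Fermat.Agent.ES.H

open Fermat.Agent.S24

variable {K F : Type*} [Field K] [Field F] [Algebra K F]

/-- Every place of a function field over an algebraically closed field has degree one. -/
theorem place_deg_eq_one [IsAlgClosed K] (x : F) (hx : Transcendental K x)
    [FiniteDimensional K⟮x⟯ F] (v : Place K F) : v.deg = 1 :=
  deg_eq_one x hx (Algebra.IsAlgebraic.of_finite _ _) v

/-- The divisor of a nonzero function exists (finitely many zeros and poles). -/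
theorem exists_divisor_of_ne_zero [IsAlgClosed K] [CharZero K] (x : F) (hx : Transcendental K x)
    [FiniteDimensional K⟮x⟯ F] (g : F) (hg : g ≠ 0) :
    ∃ D : Divisor K F, ∀ v : Place K F, D v = v.ord g := by
  classical
  by_cases hgt : Transcendental K g
  · have hfd : FiniteDimensional K⟮g⟯ F := pd_finiteDimensional_adjoin_of_transcendental x hx g hgt
    have hgt' : Transcendental K g⁻¹ := pd_transcendental_inv hgt
    have hfd' : FiniteDimensional K⟮g⁻¹⟯ F :=
      pd_finiteDimensional_adjoin_of_transcendental x hx g⁻¹ hgt'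
    obtain ⟨V₁, hV₁, -⟩ := sum_ord_eq_finrank g hgt
    obtain ⟨V₂, hV₂, -⟩ := sum_ord_eq_finrank g⁻¹ hgt'
    refine ⟨Finsupp.onFinset (V₁ ∪ V₂) (fun v => v.ord g) ?_, fun v => rfl⟩
    intro v hv
    rw [Finset.mem_union, hV₁, hV₂, Place.ord_inv]
    rcases lt_or_gt_of_ne hv with h | h
    · right; omega
    · left; exact h
  · have halg : IsAlgebraic K g := not_not.mp hgt
    obtain ⟨c, rfl⟩ := mem_range_algebraMap_of_isAlgebraic halg
    exact ⟨0, fun v => by simp [PlaceAux.ord_algebraMap]⟩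

/-- Function fields of one variable over an algebraically closed field of characteristic zero
have principal divisors. -/
theorem hasPrincipalDivisors_of_transcendental [IsAlgClosed K] [CharZero K] (x : F)
    (hx : Transcendental K x) [FiniteDimensional K⟮x⟯ F] : HasPrincipalDivisors K F where
  exists_divisor g hg := by
    obtain ⟨D, hD⟩ := exists_divisor_of_ne_zero x hx g hg
    refine ⟨D, hD, ?_⟩
    exact degree_principal_eq_zero x hx (fun v => place_deg_eq_one x hx v)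
      (fun y hy hfy => by have := hfy; exact sum_ord_eq_finrank y hy) g hg D hD

end Fermat.Agent.ES.H

end
end ZBS24_001_13
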