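/- GENERATED FILE (helper35, build-time optimisation, NOTES/ZB.md): verbatim concatenation of the modules
   Fermat.Agent.S24.PolyClosure
   Fermat.Agent.S24.Places
   Fermat.Agent.INJ.PlaceBridge
   Fermat.Agent.UNIP.UnitCrit
   Fermat.Agent.DEU.ResFund
   Do not edit; do not import together with these modules. -/
import Fermat.Agent.ZB.S24_009
import Mathlib
import Fermat.Agent.ZB.S24_010
import Fermat.Agent.ZB.S24_008

/-! ### bundled: `Fermat.Agent.S24.PolyClosure` -/
section ZBS24_011_0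

/-!
# S24 / P1-mathlib — the integral closure of `K[x]` in `F`
-/

set_option autoImplicit false
set_option linter.style.haveILetI false

open AlgebraicCurve IntermediateField Polynomial

namespace Fermat.Agent.S24

variable {K F : Type*} [Field K] [Field F] [Algebra K F]

/-- The `K[X]`-algebra structure on `K⟮x⟯` sending `X` to `x`. -/
@[reducible] noncomputable def polyAlgebraAdjoin (x : F) : Algebra K[X] K⟮x⟯ :=
  (Polynomial.aeval (R := K) (AdjoinSimple.gen K x)).toRingHom.toAlgebra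

theorem polyAlgebraAdjoin_tower (x : F) :
    letI := polyAlgebra (K := K) x
    letI := polyAlgebraAdjoin (K := K) x
    IsScalarTower K[X] K⟮x⟯ F := by
  letI := polyAlgebra (K := K) x
  letI := polyAlgebraAdjoin (K := K) x
  refine IsScalarTower.of_algebraMap_eq fun p => ?_
  change Polynomial.aeval x p = ((Polynomial.aeval (AdjoinSimple.gen K x) p : K⟮x⟯) : F)
  rw [← IntermediateField.coe_val, ← Polynomial.aeval_algHom_apply]
  simp

theorem polyAlgebraAdjoin_isFractionRing (x : F) (hx : Transcendental K x) :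
    letI := polyAlgebraAdjoin (K := K) x
    IsFractionRing K[X] K⟮x⟯ := by
  letI := polyAlgebraAdjoin (K := K) x
  let e : RatFunc K ≃ₐ[K[X]] K⟮x⟯ :=
    AlgEquiv.ofRingEquiv (f := (RatFunc.algEquivOfTranscendental x hx).toRingEquiv) (fun g => by
      change RatFunc.algEquivOfTranscendental x hx (algebraMap K[X] (RatFunc K) g) = _
      rw [RatFunc.algEquivOfTranscendental_algebraMap]
      rfl)
  exact IsLocalization.isLocalization_of_algEquiv (nonZeroDivisors K[X]) e

theorem intClosure_facts [CharZero K] (x : F) (hx : Transcendental K x) [FiniteDimensional K⟮x⟯ F] :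
    letI := polyAlgebra (K := K) x
    IsDedekindDomain (intClosure (K := K) x) ∧ IsFractionRing (intClosure (K := K) x) F ∧
      Module.Finite K[X] (intClosure (K := K) x) := by
  letI := polyAlgebra (K := K) x
  letI := polyAlgebraAdjoin (K := K) x
  haveI := polyAlgebraAdjoin_tower (K := K) x
  haveI := polyAlgebraAdjoin_isFractionRing (K := K) x hx
  haveI : CharZero K⟮x⟯ := charZero_of_injective_algebraMap (algebraMap K K⟮x⟯).injective
  refine ⟨?_, ?_, ?_⟩
  · exact integralClosure.isDedekindDomain K[X] K⟮x⟯ F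
  · exact integralClosure.isFractionRing_of_finite_extension K⟮x⟯ F
  · exact IsIntegralClosure.finite K[X] K⟮x⟯ F (integralClosure K[X] F)

/-- A finite field extension of an algebraically closed field has degree one
(version for a domain that is module-finite over a field isomorphic to an algebraically closed one). -/
theorem polyClosure_finrank_eq_one {k k' L : Type*} [Field k] [IsAlgClosed k] [CommRing k']
    [CommRing L] [IsDomain L] [Algebra k' L] [Module.Finite k' L] (hk' : IsField k') (e : k ≃+* k') :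
    Module.finrank k' L = 1 := by
  letI : Field k' := hk'.toField
  letI : Algebra k L := ((algebraMap k' L).comp e.toRingHom).toAlgebra
  haveI : Algebra.IsIntegral k' L := Algebra.IsIntegral.of_finite k' L
  haveI : Algebra.IsIntegral k L := by
    refine ⟨fun y => ?_⟩
    obtain ⟨p, hp, hpy⟩ := Algebra.IsIntegral.isIntegral (R := k') y
    refine ⟨p.map e.symm.toRingHom, hp.map _, ?_⟩
    rw [← hpy, Polynomial.eval₂_map]
    congr 1
    ext a
    simp [RingHom.algebraMap_toAlgebra]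
  have hbij : Function.Bijective (algebraMap k L) := IsAlgClosed.algebraMap_bijective_of_isIntegral
  have hsurj : Function.Surjective (algebraMap k' L) := by
    intro y
    obtain ⟨a, ha⟩ := hbij.2 y
    exact ⟨e a, ha⟩
  have hinj : Function.Injective (algebraMap k' L) := (algebraMap k' L).injective
  have : Module.finrank k' L = Module.finrank k' k' :=
    (LinearEquiv.ofBijective (Algebra.linearMap k' L) ⟨hinj, hsurj⟩).finrank_eq.symm
  rw [this, Module.finrank_self]

theorem sum_ramificationIdx_eq_finrank [IsAlgClosed K] [CharZero K] (x : F) (hx : Transcendental K x)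
    [FiniteDimensional K⟮x⟯ F] :
    letI := polyAlgebra (K := K) x
    ∃ (_ : Fintype ((Ideal.span {(X : K[X])}).primesOver (intClosure (K := K) x))),
      ∑ P : (Ideal.span {(X : K[X])}).primesOver (intClosure (K := K) x),
        P.1.ramificationIdx K[X] = Module.finrank K⟮x⟯ F := by
  letI := polyAlgebra (K := K) x
  letI := polyAlgebraAdjoin (K := K) x
  haveI := polyAlgebraAdjoin_tower (K := K) x
  haveI := polyAlgebraAdjoin_isFractionRing (K := K) x hx
  obtain ⟨hD, hF, hfin⟩ := intClosure_facts (K := K) x hx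
  haveI := hD
  haveI := hF
  haveI := hfin
  haveI hpmax : (Ideal.span {(X : K[X])}).IsMaximal :=
    PrincipalIdealRing.isMaximal_of_irreducible Polynomial.irreducible_X
  let ft : Fintype ((Ideal.span {(X : K[X])}).primesOver (intClosure (K := K) x)) :=
    (Algebra.QuasiFinite.finite_primesOver _).fintype
  refine ⟨ft, ?_⟩
  haveI hTF : Module.IsTorsionFree K[X] F :=
    Module.isTorsionFree_iff_algebraMap_injective.mpr
      (fun p q hpq => (transcendental_iff_injective.mp hx) hpq)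
  haveI hTB : Module.IsTorsionFree K[X] (intClosure (K := K) x) :=
    IsIntegralClosure.isTorsionFree K[X] F
  haveI hflat : Module.Flat K[X] (intClosure (K := K) x) :=
    (IsDedekindDomain.flat_iff_torsion_eq_bot).mpr (Submodule.isTorsionFree_iff_torsion_eq_bot.mp hTB)
  have key := Ideal.sum_ramification_inertia_eq_finrank (Ideal.span {(X : K[X])})
    (intClosure (K := K) x)
  rw [IsFractionRing.finrank_eq K[X] K⟮x⟯ (intClosure (K := K) x) F, ← key]
  refine Finset.sum_congr rfl fun P _ => ?_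
  haveI : P.1.IsPrime := P.2.1
  haveI : P.1.LiesOver (Ideal.span {(X : K[X])}) := P.2.2
  haveI : P.1.IsMaximal := Ideal.IsMaximal.of_liesOver_isMaximal P.1 (Ideal.span {(X : K[X])})
  rw [Ideal.inertiaDeg_eq_of_isMaximal (Ideal.span {(X : K[X])}) P.1]
  have e : K ≃+* (K[X] ⧸ Ideal.span {(X : K[X])}) :=
    ((Polynomial.quotientSpanXSubCAlgEquiv (0 : K)).symm.toRingEquiv).trans
      (Ideal.quotEquivOfEq (by rw [map_zero, sub_zero]))
  have h1 : Module.finrank (K[X] ⧸ Ideal.span {(X : K[X])}) ((intClosure (K := K) x) ⧸ P.1) = 1 :=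
    polyClosure_finrank_eq_one (k' := K[X] ⧸ Ideal.span {(X : K[X])})
      (L := (intClosure (K := K) x) ⧸ P.1)
      ((Ideal.Quotient.maximal_ideal_iff_isField_quotient _).mp hpmax) e
  rw [h1, mul_one]

end Fermat.Agent.S24


end ZBS24_011_0

/-! ### bundled: `Fermat.Agent.S24.Places` -/
section ZBS24_011_1

/-!
# S24 / P1-app — places over `x = 0` and primes of the integral closure of `K[x]`

* `sum_ord_eq_finrank` : `Σ_{v, ord_v x > 0} ord_v x = [F : K(x)]`.
* `exists_ord_neg` : approximation (prime avoidance) among the places with `ord_v x > 0`.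

Both are exactly the hypotheses `hsum`/`hV` and `happrox` of `card_places_eq_card_orbits`
(`GaloisCount.lean`).
-/

set_option autoImplicit false

open AlgebraicCurve IntermediateField Polynomial

namespace Fermat.Agent.S24

variable {K F : Type*} [Field K] [Field F] [Algebra K F]

/-- The sum of the orders of `x` over the places where `x` vanishes is `[F : K(x)]`. -/
theorem sum_ord_eq_finrank [IsAlgClosed K] [CharZero K] (x : F) (hx : Transcendental K x)
    [FiniteDimensional K⟮x⟯ F] :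
    ∃ V : Finset (Place K F), (∀ v, v ∈ V ↔ 0 < v.ord x) ∧
      ∑ v ∈ V, v.ord x = (Module.finrank K⟮x⟯ F : ℤ) :=
  sum_ord_eq_finrank_of x hx (intClosure_facts x hx) (sum_ramificationIdx_eq_finrank x hx)

/-- Approximation among the places where `x` vanishes: a function with a pole at `v` and regular
at the finitely many other places `u ∈ S`. -/
theorem exists_ord_neg [CharZero K] (x : F) (hx : Transcendental K x) [FiniteDimensional K⟮x⟯ F]
    (v : Place K F) (S : Finset (Place K F)) (hvx : 0 < v.ord x) (hv : v ∉ S)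
    (hS : ∀ u ∈ S, 0 < u.ord x) :
    ∃ h : F, v.ord h < 0 ∧ ∀ u ∈ S, 0 ≤ u.ord h :=
  exists_ord_neg_of x (intClosure_facts x hx) v S hvx hv hS

end Fermat.Agent.S24


end ZBS24_011_1

/-! ### bundled: `Fermat.Agent.INJ.PlaceBridge` -/
section ZBS24_011_2

/-!
# (INJ) glue piece T2: bridge "places → ring form" of unramifiedness

`A₀` a DVR with uniformizer `π`, `E = Frac A₀` of characteristic `0`, `Lf / E(τ)` finite,
`R = A₀[τ] = Algebra.adjoin A₀ {τ}`, `C = integralClosure R Lf`.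
If `f ∈ R` has order `≤ 1` at every place `P` of `Lf / E` with `0 ≤ ord_P τ`, then the fibre of
`C[1/π]` over `f` is reduced, in the elementwise form used by A3 (`hunr` of `INJ/Disc.lean`):
`f ∣ x ^ 2` in `C`  ⇒  `f ∣ π ^ k • x` in `C` for some `k`.
-/

set_option autoImplicit false
set_option linter.style.haveILetI false
set_option linter.unusedSectionVars false

namespace Fermat.Agent.INJ

open AlgebraicCurve IntermediateField Polynomial Fermat.Agent.S24

section S1

variable {E Lf : Type*} [Field E] [CharZero E] [Field Lf] [Algebra E Lf]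

/-- An element lying in the valuation ring of every place with `0 ≤ ord τ` is integral over
`E[τ]`. -/
theorem isIntegral_of_forall_place (τ : Lf) (hτ : Transcendental E τ)
    [FiniteDimensional E⟮τ⟯ Lf]
    (z : Lf) (hz : ∀ P : Place E Lf, 0 ≤ P.ord τ → z ∈ P.toValuationSubring) :
    letI := polyAlgebra (K := E) τ
    IsIntegral E[X] z := by
  letI := polyAlgebra (K := E) τ
  obtain ⟨hDed, hFrac, -⟩ := intClosure_facts (K := E) τ hτ
  haveI := hDed
  haveI := hFrac
  have hK : ∀ a : E, ∃ r : intClosure (K := E) τ,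
      algebraMap (intClosure (K := E) τ) Lf r = algebraMap E Lf a := by
    intro a
    refine ⟨algebraMap E[X] (intClosure (K := E) τ) (C a), ?_⟩
    rw [← IsScalarTower.algebraMap_apply E[X] (intClosure (K := E) τ) Lf,
      polyAlgebra_algebraMap_apply, aeval_C]
  have hτ0 : τ ≠ 0 := fun h => hτ (h ▸ isAlgebraic_zero)
  have hτB : ∀ w : IsDedekindDomain.HeightOneSpectrum (intClosure (K := E) τ),
      w.valuation Lf τ ≤ 1 := by
    intro w
    have : algebraMap (intClosure (K := E) τ) Lf (algebraMap E[X] (intClosure (K := E) τ) X) = τ := by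
      rw [← IsScalarTower.algebraMap_apply E[X] (intClosure (K := E) τ) Lf,
        polyAlgebra_algebraMap_apply, aeval_X]
    have h := w.valuation_le_one (K := Lf) (algebraMap E[X] (intClosure (K := E) τ) X)
    exact le_of_eq_of_le (congrArg (w.valuation Lf) this.symm) h
  have h := IsDedekindDomain.HeightOneSpectrum.mem_integers_of_valuation_le_one
    (R := intClosure (K := E) τ) Lf z (fun w => by
      have h1 : 0 ≤ (placeOfPrime (K := E) hK w).ord τ := by
        rw [PlaceAux.ord_nonneg_iff _ hτ0, placeOfPrime_toValuationSubring,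
          Valuation.mem_valuationSubring_iff]
        exact hτB w
      have := hz (placeOfPrime (K := E) hK w) h1
      rwa [placeOfPrime_toValuationSubring, Valuation.mem_valuationSubring_iff] at this)
  obtain ⟨r, hr⟩ := h
  rw [← hr]
  exact r.2

end S1

end Fermat.Agent.INJ

namespace Fermat.Agent.INJ

open AlgebraicCurve IntermediateField Polynomial Fermat.Agent.S24

section S2

variable {A₀ E Lf : Type*} [CommRing A₀] [IsDomain A₀] [IsDiscreteValuationRing A₀]
  [Field E] [Algebra A₀ E] [IsFractionRing A₀ E]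
  [Field Lf] [Algebra E Lf] [Algebra A₀ Lf] [IsScalarTower A₀ E Lf]

/-- integrality over `A₀[X]` (acting through `X ↦ τ`) is integrality over `A₀[τ]` -/
theorem isIntegral_adjoin_of_isIntegral_poly (τ w : Lf)
    (hw : letI : Algebra A₀[X] Lf := (Polynomial.aeval (R := A₀) τ).toRingHom.toAlgebra
      IsIntegral A₀[X] w) :
    IsIntegral (Algebra.adjoin A₀ {τ}) w := by
  letI iA : Algebra A₀[X] Lf := (Polynomial.aeval (R := A₀) τ).toRingHom.toAlgebra
  obtain ⟨p, hp, hpw⟩ := hw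
  have hmem : ∀ g : A₀[X], aeval τ g ∈ Algebra.adjoin A₀ {τ} := fun g => by
    rw [Algebra.adjoin_singleton_eq_range_aeval]
    exact ⟨g, rfl⟩
  let φ : A₀[X] →+* Algebra.adjoin A₀ {τ} :=
    (Polynomial.aeval (R := A₀) τ).toRingHom.codRestrict (Algebra.adjoin A₀ {τ}).toSubring hmem
  refine ⟨p.map φ, hp.map φ, ?_⟩
  rw [Polynomial.eval₂_map]
  exact hpw

/-- **Clearing denominators**: an element integral over `E[τ]` becomes integral over `A₀[τ]`
after multiplication by a power of `π`. -/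
theorem exists_pow_mul_isIntegral {π : A₀} (hπ : Irreducible π) (τ z : Lf)
    (hz : letI := polyAlgebra (K := E) τ
      IsIntegral E[X] z) :
    ∃ k : ℕ, IsIntegral (Algebra.adjoin A₀ {τ}) (algebraMap A₀ Lf π ^ k * z) := by
  letI iE : Algebra E[X] Lf := polyAlgebra (K := E) τ
  letI iA : Algebra A₀[X] Lf := (Polynomial.aeval (R := A₀) τ).toRingHom.toAlgebra
  letI iAE : Algebra A₀[X] E[X] := Polynomial.algebra A₀ E
  haveI : IsScalarTower A₀[X] E[X] Lf := IsScalarTower.of_algebraMap_eq fun p => by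
    change aeval τ p = aeval τ (p.map (algebraMap A₀ E))
    rw [aeval_map_algebraMap]
  haveI : IsLocalization ((nonZeroDivisors A₀).map (C : A₀ →+* A₀[X])) E[X] :=
    Polynomial.isLocalization (nonZeroDivisors A₀) E
  obtain ⟨⟨m, hm⟩, hmz⟩ := IsIntegral.exists_multiple_integral_of_isLocalization
    ((nonZeroDivisors A₀).map (C : A₀ →+* A₀[X])) z hz
  obtain ⟨a, ha, rfl⟩ := hm
  have ha0 : a ≠ 0 := nonZeroDivisors.ne_zero ha
  obtain ⟨k, hk⟩ := IsDiscreteValuationRing.associated_pow_irreducible ha0 hπ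
  obtain ⟨u, hu⟩ := hk
  refine ⟨k, isIntegral_adjoin_of_isIntegral_poly τ _ ?_⟩
  have h1 : algebraMap A₀ Lf π ^ k * z = algebraMap A₀[X] Lf (C (u : A₀)) * ((C a : A₀[X]) • z) := by
    change _ = aeval τ (C (u : A₀)) * (aeval τ (C a) * z)
    rw [aeval_C, aeval_C, ← mul_assoc, ← map_mul, mul_comm (u : A₀) a, hu, map_pow]
  rw [h1]
  exact IsIntegral.mul isIntegral_algebraMap hmz

end S2

end Fermat.Agent.INJ

namespace Fermat.Agent.INJ

open AlgebraicCurve IntermediateField Polynomial Fermat.Agent.S24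

section S3

variable {A₀ E Lf : Type*} [CommRing A₀]
  [Field E] [Algebra A₀ E]
  [Field Lf] [Algebra E Lf] [Algebra A₀ Lf] [IsScalarTower A₀ E Lf]

/-- `A₀[τ]` lies in the valuation ring of every place with `0 ≤ ord τ`. -/
theorem adjoin_le_place (τ : Lf) (P : Place E Lf) (hP : 0 ≤ P.ord τ) :
    ∀ r ∈ Algebra.adjoin A₀ {τ}, r ∈ P.toValuationSubring := by
  intro r hr
  induction hr using Algebra.adjoin_induction with
  | mem x hx =>
    rw [Set.mem_singleton_iff] at hx
    rw [hx]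
    exact PlaceAux.mem_of_ord_nonneg P hP
  | algebraMap a =>
    rw [IsScalarTower.algebraMap_apply A₀ E Lf]
    exact P.algebraMap_mem' _
  | add x y _ _ hx hy => exact P.toValuationSubring.add_mem _ _ hx hy
  | mul x y _ _ hx hy => exact P.toValuationSubring.mul_mem _ _ hx hy

/-- elements integral over `A₀[τ]` lie in the valuation ring of every place with `0 ≤ ord τ` -/
theorem mem_place_of_isIntegral (τ : Lf) (P : Place E Lf) (hP : 0 ≤ P.ord τ) {x : Lf}
    (hx : IsIntegral (Algebra.adjoin A₀ {τ}) x) : x ∈ P.toValuationSubring := by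
  obtain ⟨p, hp, hpx⟩ := hx
  let ι : Algebra.adjoin A₀ {τ} →+* P.toValuationSubring :=
    (algebraMap (Algebra.adjoin A₀ {τ}) Lf).codRestrict P.toValuationSubring.toSubring
      (fun r => adjoin_le_place τ P hP r.1 r.2)
  have hint : IsIntegral P.toValuationSubring x := by
    refine ⟨p.map ι, hp.map ι, ?_⟩
    rw [Polynomial.eval₂_map]
    exact hpx
  obtain ⟨y, hy⟩ := (IsIntegrallyClosed.isIntegral_iff (R := P.toValuationSubring) (K := Lf)).mp hint
  rw [← hy]
  exact y.2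

end S3

section core

variable {A₀ E Lf : Type*} [CommRing A₀] [IsDomain A₀] [IsDiscreteValuationRing A₀]
  [Field E] [Algebra A₀ E] [IsFractionRing A₀ E] [CharZero E]
  [Field Lf] [Algebra E Lf] [Algebra A₀ Lf] [IsScalarTower A₀ E Lf]

/-- **T2, core (elements of `Lf`).** -/
theorem place_bridge_core {π : A₀} (hπ : Irreducible π) (τ : Lf) (hτ : Transcendental E τ)
    [FiniteDimensional E⟮τ⟯ Lf] {f : Lf} (hfR : f ∈ Algebra.adjoin A₀ {τ})
    (hf : ∀ P : Place E Lf, 0 ≤ P.ord τ → 0 < P.ord f → P.ord f = 1)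
    {x y : Lf} (hx : IsIntegral (Algebra.adjoin A₀ {τ}) x)
    (hy : IsIntegral (Algebra.adjoin A₀ {τ}) y) (hxy : x ^ 2 = f * y) :
    ∃ (k : ℕ) (w : Lf), IsIntegral (Algebra.adjoin A₀ {τ}) w ∧
      algebraMap A₀ Lf π ^ k * x = f * w := by
  by_cases hx0 : x = 0
  · exact ⟨0, 0, isIntegral_zero, by rw [hx0]; simp⟩
  have hf0 : f ≠ 0 := fun h => by
    rw [h, zero_mul] at hxy
    exact hx0 (pow_eq_zero_iff (by norm_num) |>.mp hxy)
  have hy0 : y ≠ 0 := fun h => by
    rw [h, mul_zero] at hxy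
    exact hx0 (pow_eq_zero_iff (by norm_num) |>.mp hxy)
  -- `z = x / f` lies in every valuation ring
  have hz : ∀ P : Place E Lf, 0 ≤ P.ord τ → x / f ∈ P.toValuationSubring := by
    intro P hP
    have hxP : 0 ≤ P.ord x :=
      (PlaceAux.ord_nonneg_iff P hx0).mpr (mem_place_of_isIntegral τ P hP hx)
    have hyP : 0 ≤ P.ord y :=
      (PlaceAux.ord_nonneg_iff P hy0).mpr (mem_place_of_isIntegral τ P hP hy)
    have hfP : 0 ≤ P.ord f :=
      (PlaceAux.ord_nonneg_iff P hf0).mpr (adjoin_le_place τ P hP f hfR)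
    have h2 : 2 * P.ord x = P.ord f + P.ord y := by
      have := congrArg P.ord hxy
      rw [pow_two, Place.ord_mul P hx0 hx0, Place.ord_mul P hf0 hy0] at this
      omega
    have hord : 0 ≤ P.ord (x / f) := by
      rw [div_eq_mul_inv, Place.ord_mul P hx0 (inv_ne_zero hf0), Place.ord_inv]
      rcases hfP.eq_or_lt with h0 | hpos
      · omega
      · have := hf P hP hpos
        omega
    exact PlaceAux.mem_of_ord_nonneg P hord
  have hzint := isIntegral_of_forall_place τ hτ (x / f) hz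
  obtain ⟨k, hk⟩ := exists_pow_mul_isIntegral hπ τ (x / f) hzint
  refine ⟨k, _, hk, ?_⟩
  field_simp

end core

end Fermat.Agent.INJ

namespace Fermat.Agent.INJ

open AlgebraicCurve IntermediateField Polynomial Fermat.Agent.S24

section wrapper

variable {A₀ E Lf : Type*} [CommRing A₀] [IsDomain A₀] [IsDiscreteValuationRing A₀]
  [Field E] [Algebra A₀ E] [IsFractionRing A₀ E] [CharZero E]
  [Field Lf] [Algebra E Lf] [Algebra A₀ Lf] [IsScalarTower A₀ E Lf]

/-- **T2 (bridge places → ring form).**  `R = A₀[τ]`, `C = integralClosure R Lf`, `f ∈ R` with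
order `≤ 1` at every place `P` with `0 ≤ ord_P τ`.  Then `f ∣ x ^ 2` in `C` implies
`f ∣ π ^ k • x` in `C` for some `k`. -/
theorem place_bridge {π : A₀} (hπ : Irreducible π) (τ : Lf) (hτ : Transcendental E τ)
    [FiniteDimensional E⟮τ⟯ Lf] (f : Algebra.adjoin A₀ {τ})
    (hf : ∀ P : Place E Lf, 0 ≤ P.ord τ → 0 < P.ord (f : Lf) → P.ord (f : Lf) = 1)
    (x : integralClosure (Algebra.adjoin A₀ {τ}) Lf)
    (hx : algebraMap (Algebra.adjoin A₀ {τ}) (integralClosure (Algebra.adjoin A₀ {τ}) Lf) f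
      ∣ x ^ 2) :
    ∃ k : ℕ, algebraMap (Algebra.adjoin A₀ {τ}) (integralClosure (Algebra.adjoin A₀ {τ}) Lf) f ∣
      (algebraMap A₀ (Algebra.adjoin A₀ {τ}) π ^ k) • x := by
  obtain ⟨y, hy⟩ := hx
  have hxy : (x : Lf) ^ 2 = (f : Lf) * (y : Lf) := by
    have := congrArg (Subtype.val) hy
    simpa using this
  obtain ⟨k, w, hw, hkw⟩ := place_bridge_core hπ τ hτ f.2 hf x.2 y.2 hxy
  refine ⟨k, ⟨w, hw⟩, Subtype.ext ?_⟩
  have h1 : (((algebraMap A₀ (Algebra.adjoin A₀ {τ}) π ^ k) • x :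
      integralClosure (Algebra.adjoin A₀ {τ}) Lf) : Lf) = algebraMap A₀ Lf π ^ k * (x : Lf) := by
    rw [Algebra.smul_def]
    simp only [map_pow, MulMemClass.coe_mul, SubmonoidClass.coe_pow]
    rfl
  rw [h1, hkw]
  rfl

/-- **T2 in the exact shape of `hunr` of A3** (`INJ/Disc.lean`), for one prime `f` of `R`. -/
theorem hunr_of_places {π : A₀} (hπ : Irreducible π) (τ : Lf) (hτ : Transcendental E τ)
    [FiniteDimensional E⟮τ⟯ Lf]
    (hπR : Irreducible (algebraMap A₀ (Algebra.adjoin A₀ {τ}) π))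
    (f : Algebra.adjoin A₀ {τ}) (hfp : Prime f)
    (hfπ : ¬ Associated f (algebraMap A₀ (Algebra.adjoin A₀ {τ}) π))
    (hf : ∀ P : Place E Lf, 0 ≤ P.ord τ → 0 < P.ord (f : Lf) → P.ord (f : Lf) = 1) :
    (∀ m : ℕ, m ≠ 0 → ¬ f ∣ (m : Algebra.adjoin A₀ {τ})) ∧
    ∀ x : integralClosure (Algebra.adjoin A₀ {τ}) Lf,
      algebraMap (Algebra.adjoin A₀ {τ}) (integralClosure (Algebra.adjoin A₀ {τ}) Lf) f ∣ x ^ 2 →
      ∃ a : Algebra.adjoin A₀ {τ}, ¬ f ∣ a ∧
        algebraMap (Algebra.adjoin A₀ {τ}) (integralClosure (Algebra.adjoin A₀ {τ}) Lf) f ∣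
          a • x := by
  have hfπ' : ¬ f ∣ algebraMap A₀ (Algebra.adjoin A₀ {τ}) π := by
    rintro ⟨c, hc⟩
    rcases hπR.isUnit_or_isUnit hc with h | h
    · exact hfp.not_unit h
    · exact hfπ ⟨h.unit, by rw [hc]; rfl⟩
  have hpow : ∀ k : ℕ, ¬ f ∣ algebraMap A₀ (Algebra.adjoin A₀ {τ}) π ^ k := fun k h =>
    hfπ' (hfp.dvd_of_dvd_pow h)
  haveI : CharZero A₀ := (algebraMap A₀ E).charZero
  refine ⟨fun m hm hdvd => ?_, fun x hx => ?_⟩
  · have hm0 : (m : A₀) ≠ 0 := Nat.cast_ne_zero.mpr hm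
    obtain ⟨k, hk⟩ := IsDiscreteValuationRing.associated_pow_irreducible hm0 hπ
    obtain ⟨u, hu⟩ := hk.symm
    apply hpow k
    have h1 : (m : Algebra.adjoin A₀ {τ}) = algebraMap A₀ (Algebra.adjoin A₀ {τ}) (m : A₀) := by
      rw [map_natCast]
    rw [h1, ← hu, map_mul, map_pow] at hdvd
    have hunit : IsUnit (algebraMap A₀ (Algebra.adjoin A₀ {τ}) (u : A₀)) := u.isUnit.map _
    exact (hunit.dvd_mul_right).mp hdvd
  · obtain ⟨k, hk⟩ := place_bridge hπ τ hτ f hf x hx
    exact ⟨_, hpow k, hk⟩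

end wrapper

end Fermat.Agent.INJ


end ZBS24_011_2

/-! ### bundled: `Fermat.Agent.UNIP.UnitCrit` -/
section ZBS24_011_3

/-!
# UNIP / D2 — Lemma U (unit criterion on a normal arithmetic surface chart)

Setting of `INJ/PlaceBridge.lean`: `A₀` a DVR with uniformizer `π`, `E = Frac A₀` of characteristic
`0`, `Lf / E(τ)` finite, and `B` *any* commutative ring with an injective `algebraMap B Lf` whose
image is the integral closure of `A₀[τ]` in `Lf` (e.g. `integralClosure (Algebra.adjoin A₀ {τ}) Lf`,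
`INJ.zchClosure {τ}`, or a tensor product that has been shown to be normal).

`𝔫` a prime of `B`, `vert` a finite set of primes of `B` containing `π` with `πB = ⋂ vert`
(the vertical primes, (SS1)).

**Lemma U (one-sided)** `unip_unitCrit_mem`: if `ε ∈ Lf` has `ord_P ε ≥ 0` at every place `P` of
`Lf / E` with `ord_P τ ≥ 0` whose centre on `B` lies in `𝔫` (horizontal primes through `𝔫`), and
`ε ∈ B_𝔭` for every `𝔭 ∈ vert` with `𝔭 ≤ 𝔫`, then `ε ∈ B_𝔫`, i.e. `s ε ∈ B` for some `s ∉ 𝔫`.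

**Lemma U (units)** `unip_unitCrit_unit`: if moreover the orders are `0` and `ε` is a unit of `B_𝔭`,
then `s ε = t` with `s, t ∈ B ∖ 𝔫`.
-/

set_option autoImplicit false
set_option linter.style.haveILetI false
set_option linter.unusedSectionVars false

namespace Fermat.Agent.UNIP

open AlgebraicCurve IntermediateField Polynomial Fermat.Agent.S24 Fermat.Agent.INJ

section Dedekind

variable {R F : Type*} [CommRing R] [IsDedekindDomain R] [Field F] [Algebra R F]
  [IsFractionRing R F]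

/-- **Denominators avoid a multiplicative set.**  `R` Dedekind with fraction field `F`, `S` a
submonoid of `R`.  If `ε ∈ F` is integral at every nonzero prime of `R` that is disjoint from `S`,
then `s ε ∈ R` for some `s ∈ S`. -/
theorem unip_exists_mem_submonoid_mul_mem (S : Submonoid R) (ε : F)
    (h : ∀ w : IsDedekindDomain.HeightOneSpectrum R, Disjoint (w.asIdeal : Set R) S →
      w.valuation F ε ≤ 1) :
    ∃ s ∈ S, ∃ r : R, algebraMap R F s * ε = algebraMap R F r := by
  classical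
  -- the denominator ideal
  let D : Ideal R :=
    { carrier := {x | ∃ r : R, algebraMap R F x * ε = algebraMap R F r}
      add_mem' := by
        rintro a b ⟨r₁, h₁⟩ ⟨r₂, h₂⟩
        exact ⟨r₁ + r₂, by rw [map_add, add_mul, h₁, h₂, map_add]⟩
      zero_mem' := ⟨0, by simp⟩
      smul_mem' := by
        rintro c a ⟨r, hr⟩
        exact ⟨c * r, by rw [smul_eq_mul, map_mul, mul_assoc, hr, map_mul]⟩ }
  have hD : ∀ x : R, x ∈ D ↔ ∃ r : R, algebraMap R F x * ε = algebraMap R F r := fun _ => Iff.rfl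
  by_contra hcon
  have hdisj : Disjoint (D : Set R) S := by
    rw [Set.disjoint_left]
    intro x hxD hxS
    obtain ⟨r, hr⟩ := (hD x).mp hxD
    exact hcon ⟨x, hxS, r, hr⟩
  obtain ⟨p, hp, hDp, hpS⟩ := Ideal.exists_le_prime_disjoint D S hdisj
  -- `D ≠ ⊥`
  obtain ⟨a, d, hdmem, hd⟩ := IsFractionRing.div_surjective (A := R) ε
  have hd0 : (d : R) ≠ 0 := nonZeroDivisors.ne_zero hdmem
  have hdF : algebraMap R F d ≠ 0 := by
    intro h0
    exact hd0 ((IsFractionRing.injective R F) (by rw [h0, map_zero]))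
  have hdD : d ∈ D := (hD d).mpr ⟨a, by rw [← hd]; field_simp⟩
  have hp0 : p ≠ ⊥ := by
    rintro rfl
    exact hd0 (by simpa using hDp hdD)
  let w : IsDedekindDomain.HeightOneSpectrum R := ⟨p, hp, hp0⟩
  obtain ⟨n, ⟨x, hx⟩, hnx⟩ := w.exists_primeCompl_mul_eq_of_integer (K := F) ε (h w hpS)
  have hxD : x ∈ D := (hD x).mpr ⟨n, by rw [mul_comm]; exact hnx⟩
  exact hx (hDp hxD)

end Dedekind

section Horizontal

variable {A₀ E Lf B : Type*} [CommRing A₀] [IsDomain A₀] [IsDiscreteValuationRing A₀]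
  [Field E] [CharZero E] [Algebra A₀ E] [IsFractionRing A₀ E]
  [Field Lf] [Algebra E Lf] [Algebra A₀ Lf] [IsScalarTower A₀ E Lf]
  [CommRing B] [Algebra B Lf]

/-- `A₀[τ]` is contained in the integral closure of `E[τ]`. -/
theorem unip_adjoin_le_intClosure (τ : Lf) :
    ∀ r ∈ Algebra.adjoin A₀ {τ}, r ∈ intClosure (K := E) τ := by
  letI := polyAlgebra (K := E) τ
  intro r hr
  induction hr using Algebra.adjoin_induction with
  | mem x hx =>
    rw [Set.mem_singleton_iff] at hx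
    rw [hx]
    have h := (intClosure (K := E) τ).algebraMap_mem (X : E[X])
    rwa [polyAlgebra_algebraMap_apply, aeval_X] at h
  | algebraMap a =>
    have h := (intClosure (K := E) τ).algebraMap_mem (C (algebraMap A₀ E a) : E[X])
    rwa [polyAlgebra_algebraMap_apply, aeval_C, ← IsScalarTower.algebraMap_apply A₀ E Lf] at h
  | add x y _ _ hx hy => exact Subalgebra.add_mem _ hx hy
  | mul x y _ _ hx hy => exact Subalgebra.mul_mem _ hx hy

/-- integrality over `A₀[τ]` implies integrality over `E[X]` (acting through `X ↦ τ`). -/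
theorem unip_isIntegral_poly_of_adjoin (τ x : Lf)
    (hx : IsIntegral (Algebra.adjoin A₀ {τ}) x) :
    letI := polyAlgebra (K := E) τ
    IsIntegral E[X] x := by
  letI := polyAlgebra (K := E) τ
  obtain ⟨p, hp, hpx⟩ := hx
  let ι : Algebra.adjoin A₀ {τ} →+* intClosure (K := E) τ :=
    (algebraMap (Algebra.adjoin A₀ {τ}) Lf).codRestrict (intClosure (K := E) τ).toSubring
      (fun r => unip_adjoin_le_intClosure (E := E) τ r.1 r.2)
  have hint : IsIntegral (intClosure (K := E) τ) x := by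
    refine ⟨p.map ι, hp.map ι, ?_⟩
    rw [Polynomial.eval₂_map]
    exact hpx
  have h2 : x ∈ integralClosure (intClosure (K := E) τ) Lf := hint
  rw [integralClosure_idem] at h2
  obtain ⟨y, hy⟩ := Algebra.mem_bot.mp h2
  rw [← hy]
  exact y.2

/-- **Lemma U, horizontal step.**  If `ε` has nonnegative order at all places with `0 ≤ ord τ`
centred in `𝔫`, then `π ^ k * (s * ε) ∈ B` for some `s ∉ 𝔫` and some `k`. -/
theorem unip_unitCrit_horizontal {π : A₀} (hπ : Irreducible π) (τ : Lf)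
    (hτ : Transcendental E τ) [FiniteDimensional E⟮τ⟯ Lf]
    (hB : ∀ x : Lf, x ∈ (algebraMap B Lf).range ↔ IsIntegral (Algebra.adjoin A₀ {τ}) x)
    (𝔫 : Ideal B) [𝔫.IsPrime] (ε : Lf)
    (hH : ∀ P : Place E Lf, 0 ≤ P.ord τ →
      (∀ b : B, 0 < P.ord (algebraMap B Lf b) → b ∈ 𝔫) → 0 ≤ P.ord ε) :
    ∃ (s : B) (k : ℕ), s ∉ 𝔫 ∧
      algebraMap A₀ Lf π ^ k * (algebraMap B Lf s * ε) ∈ (algebraMap B Lf).range := by
  classical
  letI := polyAlgebra (K := E) τ
  obtain ⟨hDed, hFrac, -⟩ := intClosure_facts (K := E) τ hτ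
  haveI := hDed
  haveI := hFrac
  have hK : ∀ a : E, ∃ r : intClosure (K := E) τ,
      algebraMap (intClosure (K := E) τ) Lf r = algebraMap E Lf a := by
    intro a
    refine ⟨algebraMap E[X] (intClosure (K := E) τ) (C a), ?_⟩
    rw [← IsScalarTower.algebraMap_apply E[X] (intClosure (K := E) τ) Lf,
      polyAlgebra_algebraMap_apply, aeval_C]
  have hτ0 : τ ≠ 0 := fun h => hτ (h ▸ isAlgebraic_zero)
  have hτB : ∀ w : IsDedekindDomain.HeightOneSpectrum (intClosure (K := E) τ),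
      w.valuation Lf τ ≤ 1 := by
    intro w
    have : algebraMap (intClosure (K := E) τ) Lf
        (algebraMap E[X] (intClosure (K := E) τ) X) = τ := by
      rw [← IsScalarTower.algebraMap_apply E[X] (intClosure (K := E) τ) Lf,
        polyAlgebra_algebraMap_apply, aeval_X]
    have h := w.valuation_le_one (K := Lf) (algebraMap E[X] (intClosure (K := E) τ) X)
    exact le_of_eq_of_le (congrArg (w.valuation Lf) this.symm) h
  -- the multiplicative set `B ∖ 𝔫` inside the integral closure of `E[τ]`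
  let S : Submonoid (intClosure (K := E) τ) :=
    { carrier := {x | ∃ b : B, b ∉ 𝔫 ∧
        algebraMap B Lf b = algebraMap (intClosure (K := E) τ) Lf x}
      one_mem' := ⟨1, fun h => (Ideal.IsPrime.ne_top inferInstance)
        ((Ideal.eq_top_iff_one 𝔫).mpr h), by simp⟩
      mul_mem' := by
        rintro x y ⟨b, hb, hbx⟩ ⟨c, hc, hcy⟩
        refine ⟨b * c, fun h => ?_, by rw [map_mul, map_mul, hbx, hcy]⟩
        rcases Ideal.IsPrime.mem_or_mem inferInstance h with h | h
        · exact hb h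
        · exact hc h }
  have hS : ∀ x : intClosure (K := E) τ, x ∈ S ↔ ∃ b : B, b ∉ 𝔫 ∧
      algebraMap B Lf b = algebraMap (intClosure (K := E) τ) Lf x := fun _ => Iff.rfl
  obtain ⟨s, hsS, r, hsr⟩ := unip_exists_mem_submonoid_mul_mem (F := Lf) S ε (fun w hw => by
    have h1 : 0 ≤ (placeOfPrime (K := E) hK w).ord τ := by
      rw [PlaceAux.ord_nonneg_iff _ hτ0, placeOfPrime_toValuationSubring,
        Valuation.mem_valuationSubring_iff]
      exact hτB w
    have h2 : ∀ b : B, 0 < (placeOfPrime (K := E) hK w).ord (algebraMap B Lf b) → b ∈ 𝔫 := by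
      intro b hb
      by_contra hbn
      have hb0 : algebraMap B Lf b ≠ 0 := by
        intro h0
        rw [h0, Place.ord_zero] at hb
        exact lt_irrefl _ hb
      have hbint : algebraMap B Lf b ∈ intClosure (K := E) τ :=
        unip_isIntegral_poly_of_adjoin (E := E) τ _ ((hB _).mp ⟨b, rfl⟩)
      let x : intClosure (K := E) τ := ⟨algebraMap B Lf b, hbint⟩
      have hxS : x ∈ S := (hS x).mpr ⟨b, hbn, rfl⟩
      have hxw : x ∈ w.asIdeal := by
        rw [← w.valuation_lt_one_iff_mem (K := Lf)]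
        change w.valuation Lf (algebraMap B Lf b) < 1
        obtain ⟨-, h4⟩ := (PlaceAux.ord_pos_iff _ hb0).mp hb
        rw [placeOfPrime_toValuationSubring, Valuation.mem_valuationSubring_iff, map_inv₀,
          not_le] at h4
        have hv0 : 0 < w.valuation Lf (algebraMap B Lf b) :=
          zero_lt_iff.mpr ((Valuation.ne_zero_iff _).mpr hb0)
        exact (one_lt_inv₀ hv0).mp h4
      exact Set.disjoint_left.mp hw hxw hxS
    have h3 := hH _ h1 h2
    have h4 := PlaceAux.mem_of_ord_nonneg _ h3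
    rwa [placeOfPrime_toValuationSubring, Valuation.mem_valuationSubring_iff] at h4)
  obtain ⟨b, hbn, hbs⟩ := (hS s).mp hsS
  have hint : IsIntegral E[X] (algebraMap B Lf b * ε) := by
    rw [hbs, hsr]
    exact r.2
  obtain ⟨k, hk⟩ := exists_pow_mul_isIntegral hπ τ _ hint
  exact ⟨b, k, hbn, (hB _).mpr hk⟩

end Horizontal

section Vertical

variable {A₀ Lf B : Type*} [CommRing A₀] [Field Lf] [Algebra A₀ Lf] [CommRing B] [Algebra B Lf]

/-- A multiplier outside the prime `𝔫` lying in every member of `vert` that is not contained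
in `𝔫`. -/
theorem unip_exists_multiplier (𝔫 : Ideal B) [𝔫.IsPrime] (vert : Finset (Ideal B)) :
    ∃ c : B, c ∉ 𝔫 ∧ ∀ 𝔭 ∈ vert, ¬ 𝔭 ≤ 𝔫 → c ∈ 𝔭 := by
  classical
  have h1 : (1 : B) ∉ 𝔫 := fun h =>
    (Ideal.IsPrime.ne_top inferInstance) ((Ideal.eq_top_iff_one 𝔫).mpr h)
  induction vert using Finset.induction_on with
  | empty => exact ⟨1, h1, fun 𝔭 h𝔭 => absurd h𝔭 (Finset.notMem_empty 𝔭)⟩
  | insert 𝔮 s _ ih =>
    obtain ⟨c, hc, hcs⟩ := ih
    by_cases h : 𝔮 ≤ 𝔫
    · refine ⟨c, hc, fun 𝔭 h𝔭 hn => ?_⟩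
      rcases Finset.mem_insert.mp h𝔭 with rfl | h'
      · exact absurd h hn
      · exact hcs 𝔭 h' hn
    · obtain ⟨d, hd𝔮, hd𝔫⟩ := SetLike.not_le_iff_exists.mp h
      refine ⟨c * d, fun hcd => ?_, fun 𝔭 h𝔭 hn => ?_⟩
      · rcases Ideal.IsPrime.mem_or_mem inferInstance hcd with h' | h'
        · exact hc h'
        · exact hd𝔫 h'
      · rcases Finset.mem_insert.mp h𝔭 with rfl | h'
        · exact Ideal.mul_mem_left _ _ hd𝔮
        · exact Ideal.mul_mem_right _ _ (hcs 𝔭 h' hn)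

/-- **Lemma U, vertical step.**  Under (SS1) `πB = ⋂ vert`, an element `x` with `π ^ k x ∈ B`
which lies in `B_𝔭` for every vertical prime `𝔭 ≤ 𝔫` lies in `B_𝔫`. -/
theorem unip_unitCrit_vertical (hinj : Function.Injective (algebraMap B Lf))
    {π : A₀} (hπ0 : algebraMap A₀ Lf π ≠ 0) (ϖ : B) (hϖ : algebraMap B Lf ϖ = algebraMap A₀ Lf π)
    (𝔫 : Ideal B) [𝔫.IsPrime]
    (vert : Finset (Ideal B)) (hprime : ∀ 𝔭 ∈ vert, 𝔭.IsPrime) (hϖv : ∀ 𝔭 ∈ vert, ϖ ∈ 𝔭)
    (hSS1 : ∀ y : B, (∀ 𝔭 ∈ vert, y ∈ 𝔭) → ϖ ∣ y) :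
    ∀ (k : ℕ) (x : Lf),
      (∀ 𝔭 ∈ vert, 𝔭 ≤ 𝔫 → ∃ s : B, s ∉ 𝔭 ∧ algebraMap B Lf s * x ∈ (algebraMap B Lf).range) →
      algebraMap A₀ Lf π ^ k * x ∈ (algebraMap B Lf).range →
      ∃ c : B, c ∉ 𝔫 ∧ algebraMap B Lf c * x ∈ (algebraMap B Lf).range := by
  classical
  have h1 : (1 : B) ∉ 𝔫 := fun h =>
    (Ideal.IsPrime.ne_top inferInstance) ((Ideal.eq_top_iff_one 𝔫).mpr h)
  obtain ⟨c₀, hc₀, hc₀v⟩ := unip_exists_multiplier 𝔫 vert
  intro k
  induction k with
  | zero =>
    intro x _ hx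
    refine ⟨1, h1, ?_⟩
    simpa using hx
  | succ k ih =>
    intro x hV hx
    obtain ⟨y, hy⟩ := hx
    -- `c₀ * y` lies in every vertical prime
    have hmem : ∀ 𝔭 ∈ vert, c₀ * y ∈ 𝔭 := by
      intro 𝔭 h𝔭
      by_cases hle : 𝔭 ≤ 𝔫
      · obtain ⟨s, hs, b, hb⟩ := hV 𝔭 h𝔭 hle
        have hsy : s * y = ϖ ^ (k + 1) * b := by
          apply hinj
          rw [map_mul, map_mul, map_pow, hy, hϖ, hb]
          ring
        have h2 : s * y ∈ 𝔭 := by
          rw [hsy, pow_succ]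
          exact Ideal.mul_mem_right _ _ (Ideal.mul_mem_left _ _ (hϖv 𝔭 h𝔭))
        have hy𝔭 : y ∈ 𝔭 :=
          (Ideal.IsPrime.mem_or_mem (hprime 𝔭 h𝔭) h2).resolve_left hs
        exact Ideal.mul_mem_left _ _ hy𝔭
      · exact Ideal.mul_mem_right _ _ (hc₀v 𝔭 h𝔭 hle)
    obtain ⟨z, hz⟩ := hSS1 _ hmem
    -- `π ^ k * (c₀ x) = z`
    have hz' : algebraMap A₀ Lf π ^ k * (algebraMap B Lf c₀ * x) = algebraMap B Lf z := by
      have h3 := congrArg (algebraMap B Lf) hz
      rw [map_mul, map_mul, hy, hϖ] at h3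
      apply mul_left_cancel₀ hπ0
      rw [← h3, pow_succ]
      ring
    obtain ⟨c, hc, hcx⟩ := ih (algebraMap B Lf c₀ * x) (fun 𝔭 h𝔭 hle => by
      obtain ⟨s, hs, b, hb⟩ := hV 𝔭 h𝔭 hle
      exact ⟨s, hs, c₀ * b, by rw [map_mul, hb]; ring⟩) ⟨z, hz'.symm⟩
    refine ⟨c * c₀, fun h => ?_, ?_⟩
    · rcases Ideal.IsPrime.mem_or_mem inferInstance h with h' | h'
      · exact hc h'
      · exact hc₀ h'
    · rw [map_mul, mul_assoc]
      exact hcx

end Vertical

section Main

variable {A₀ E Lf B : Type*} [CommRing A₀] [IsDomain A₀] [IsDiscreteValuationRing A₀]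
  [Field E] [CharZero E] [Algebra A₀ E] [IsFractionRing A₀ E]
  [Field Lf] [Algebra E Lf] [Algebra A₀ Lf] [IsScalarTower A₀ E Lf]
  [CommRing B] [Algebra B Lf]

/-- `π ≠ 0` in `Lf`. -/
theorem unip_algebraMap_irreducible_ne_zero (E : Type*) {A₀ Lf : Type*} [CommRing A₀]
    [Field E] [Algebra A₀ E] [IsFractionRing A₀ E]
    [Field Lf] [Algebra E Lf] [Algebra A₀ Lf] [IsScalarTower A₀ E Lf]
    {π : A₀} (hπ : Irreducible π) :
    algebraMap A₀ Lf π ≠ 0 := by
  rw [IsScalarTower.algebraMap_apply A₀ E Lf]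
  intro h
  have h1 : algebraMap A₀ E π = 0 := (algebraMap E Lf).injective (by rw [h, map_zero])
  exact hπ.ne_zero ((IsFractionRing.injective A₀ E) (by rw [h1, map_zero]))

/-- **Lemma U (one-sided).**  `B` the integral closure of `A₀[τ]` in `Lf`, `𝔫` a prime of `B`,
`vert` the vertical primes ((SS1): `πB = ⋂ vert`).  If `ε` has nonnegative order at every
horizontal place through `𝔫` and lies in `B_𝔭` for every vertical prime `𝔭 ≤ 𝔫`, then
`ε ∈ B_𝔫`. -/
theorem unip_unitCrit_mem {π : A₀} (hπ : Irreducible π) (τ : Lf)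
    (hτ : Transcendental E τ) [FiniteDimensional E⟮τ⟯ Lf]
    (hinj : Function.Injective (algebraMap B Lf))
    (hB : ∀ x : Lf, x ∈ (algebraMap B Lf).range ↔ IsIntegral (Algebra.adjoin A₀ {τ}) x)
    (ϖ : B) (hϖ : algebraMap B Lf ϖ = algebraMap A₀ Lf π)
    (𝔫 : Ideal B) [𝔫.IsPrime]
    (vert : Finset (Ideal B)) (hprime : ∀ 𝔭 ∈ vert, 𝔭.IsPrime) (hϖv : ∀ 𝔭 ∈ vert, ϖ ∈ 𝔭)
    (hSS1 : ∀ y : B, (∀ 𝔭 ∈ vert, y ∈ 𝔭) → ϖ ∣ y)
    (ε : Lf)
    (hH : ∀ P : Place E Lf, 0 ≤ P.ord τ →
      (∀ b : B, 0 < P.ord (algebraMap B Lf b) → b ∈ 𝔫) → 0 ≤ P.ord ε)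
    (hV : ∀ 𝔭 ∈ vert, 𝔭 ≤ 𝔫 →
      ∃ s : B, s ∉ 𝔭 ∧ algebraMap B Lf s * ε ∈ (algebraMap B Lf).range) :
    ∃ s : B, s ∉ 𝔫 ∧ algebraMap B Lf s * ε ∈ (algebraMap B Lf).range := by
  obtain ⟨s, k, hs, hsk⟩ := unip_unitCrit_horizontal hπ τ hτ hB 𝔫 ε hH
  obtain ⟨c, hc, hcx⟩ := unip_unitCrit_vertical hinj
    (unip_algebraMap_irreducible_ne_zero E hπ) ϖ hϖ 𝔫 vert hprime hϖv hSS1 k
    (algebraMap B Lf s * ε) (fun 𝔭 h𝔭 hle => by
      obtain ⟨s', hs', b, hb⟩ := hV 𝔭 h𝔭 hle
      exact ⟨s', hs', s * b, by rw [map_mul, hb]; ring⟩) hsk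
  refine ⟨c * s, fun h => ?_, ?_⟩
  · rcases Ideal.IsPrime.mem_or_mem inferInstance h with h' | h'
    · exact hc h'
    · exact hs h'
  · rw [map_mul, mul_assoc]
    exact hcx

/-- **Lemma U (units).**  If `ε ≠ 0` has order `0` at every horizontal place through `𝔫` and is a
unit of `B_𝔭` for every vertical prime `𝔭 ≤ 𝔫`, then `ε` is a unit of `B_𝔫`:
`s ε = t` with `s, t ∈ B ∖ 𝔫`. -/
theorem unip_unitCrit_unit {π : A₀} (hπ : Irreducible π) (τ : Lf)
    (hτ : Transcendental E τ) [FiniteDimensional E⟮τ⟯ Lf]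
    (hinj : Function.Injective (algebraMap B Lf))
    (hB : ∀ x : Lf, x ∈ (algebraMap B Lf).range ↔ IsIntegral (Algebra.adjoin A₀ {τ}) x)
    (ϖ : B) (hϖ : algebraMap B Lf ϖ = algebraMap A₀ Lf π)
    (𝔫 : Ideal B) [𝔫.IsPrime]
    (vert : Finset (Ideal B)) (hprime : ∀ 𝔭 ∈ vert, 𝔭.IsPrime) (hϖv : ∀ 𝔭 ∈ vert, ϖ ∈ 𝔭)
    (hSS1 : ∀ y : B, (∀ 𝔭 ∈ vert, y ∈ 𝔭) → ϖ ∣ y)
    (ε : Lf) (hε : ε ≠ 0)
    (hH : ∀ P : Place E Lf, 0 ≤ P.ord τ →
      (∀ b : B, 0 < P.ord (algebraMap B Lf b) → b ∈ 𝔫) → P.ord ε = 0)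
    (hV : ∀ 𝔭 ∈ vert, 𝔭 ≤ 𝔫 →
      ∃ s t : B, s ∉ 𝔭 ∧ t ∉ 𝔭 ∧ algebraMap B Lf s * ε = algebraMap B Lf t) :
    ∃ s t : B, s ∉ 𝔫 ∧ t ∉ 𝔫 ∧ algebraMap B Lf s * ε = algebraMap B Lf t := by
  obtain ⟨s₁, hs₁, b₁, hb₁⟩ := unip_unitCrit_mem hπ τ hτ hinj hB ϖ hϖ 𝔫 vert hprime hϖv hSS1 ε
    (fun P hP hc => (hH P hP hc).ge)
    (fun 𝔭 h𝔭 hle => by
      obtain ⟨s, t, hs, -, hst⟩ := hV 𝔭 h𝔭 hle
      exact ⟨s, hs, t, hst.symm⟩)
  obtain ⟨s₂, hs₂, b₂, hb₂⟩ := unip_unitCrit_mem hπ τ hτ hinj hB ϖ hϖ 𝔫 vert hprime hϖv hSS1 ε⁻¹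
    (fun P hP hc => by rw [Place.ord_inv, hH P hP hc]; simp)
    (fun 𝔭 h𝔭 hle => by
      obtain ⟨s, t, -, ht, hst⟩ := hV 𝔭 h𝔭 hle
      refine ⟨t, ht, s, ?_⟩
      rw [← hst]
      field_simp)
  refine ⟨s₁, b₁, hs₁, fun hb => ?_, hb₁.symm⟩
  have hprod : b₁ * b₂ = s₁ * s₂ := by
    apply hinj
    rw [map_mul, map_mul, hb₁, hb₂]
    field_simp
  have h3 : s₁ * s₂ ∈ 𝔫 := by
    rw [← hprod]
    exact Ideal.mul_mem_right _ _ hb
  rcases Ideal.IsPrime.mem_or_mem inferInstance h3 with h' | h'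
  · exact hs₁ h'
  · exact hs₂ h'

/-- The hypothesis `hB` for `B = integralClosure A₀[τ] Lf`. -/
theorem unip_range_integralClosure_iff (τ x : Lf) :
    x ∈ (algebraMap (integralClosure (Algebra.adjoin A₀ {τ}) Lf) Lf).range ↔
      IsIntegral (Algebra.adjoin A₀ {τ}) x :=
  ⟨fun ⟨b, hb⟩ => hb ▸ b.2, fun h => ⟨⟨x, h⟩, rfl⟩⟩

/-- The hypothesis `hB` for `B` an `A₀`-subalgebra of `Lf` whose elements are exactly the elements
integral over `A₀[τ]` (e.g. `INJ.zchClosure {τ}`). -/
theorem unip_range_subalgebra_iff (τ : Lf) (C : Subalgebra A₀ Lf)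
    (hC : ∀ x : Lf, x ∈ C ↔ IsIntegral (Algebra.adjoin A₀ {τ}) x) (x : Lf) :
    x ∈ (algebraMap C Lf).range ↔ IsIntegral (Algebra.adjoin A₀ {τ}) x :=
  ⟨fun ⟨b, hb⟩ => hb ▸ (hC _).mp b.2, fun h => ⟨⟨x, (hC _).mpr h⟩, rfl⟩⟩

/-- **Lemma U (units)** for the concrete chart `B = integralClosure A₀[τ] Lf`, `ϖ = π`. -/
theorem unip_unitCrit_unit_integralClosure {π : A₀} (hπ : Irreducible π) (τ : Lf)
    (hτ : Transcendental E τ) [FiniteDimensional E⟮τ⟯ Lf]
    (𝔫 : Ideal (integralClosure (Algebra.adjoin A₀ {τ}) Lf)) [𝔫.IsPrime]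
    (vert : Finset (Ideal (integralClosure (Algebra.adjoin A₀ {τ}) Lf)))
    (hprime : ∀ 𝔭 ∈ vert, 𝔭.IsPrime)
    (hϖv : ∀ 𝔭 ∈ vert, algebraMap A₀ (integralClosure (Algebra.adjoin A₀ {τ}) Lf) π ∈ 𝔭)
    (hSS1 : ∀ y : integralClosure (Algebra.adjoin A₀ {τ}) Lf, (∀ 𝔭 ∈ vert, y ∈ 𝔭) →
      algebraMap A₀ (integralClosure (Algebra.adjoin A₀ {τ}) Lf) π ∣ y)
    (ε : Lf) (hε : ε ≠ 0)
    (hH : ∀ P : Place E Lf, 0 ≤ P.ord τ →
      (∀ b : integralClosure (Algebra.adjoin A₀ {τ}) Lf, 0 < P.ord (b : Lf) → b ∈ 𝔫) →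
        P.ord ε = 0)
    (hV : ∀ 𝔭 ∈ vert, 𝔭 ≤ 𝔫 →
      ∃ s t : integralClosure (Algebra.adjoin A₀ {τ}) Lf, s ∉ 𝔭 ∧ t ∉ 𝔭 ∧ (s : Lf) * ε = t) :
    ∃ s t : integralClosure (Algebra.adjoin A₀ {τ}) Lf, s ∉ 𝔫 ∧ t ∉ 𝔫 ∧ (s : Lf) * ε = t :=
  unip_unitCrit_unit hπ τ hτ Subtype.val_injective (unip_range_integralClosure_iff τ)
    (algebraMap A₀ (integralClosure (Algebra.adjoin A₀ {τ}) Lf) π) rfl 𝔫 vert hprime hϖv hSS1
    ε hε hH hV

end Main

end Fermat.Agent.UNIP


end ZBS24_011_3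

/-! ### bundled: `Fermat.Agent.DEU.ResFund` -/
section ZBS24_011_4

/-!
# DEU / MPR-res, step 4: the fundamental identity for a SEPARATING element, any characteristic

`S24/PolyClosure.lean` proves `Σ_{v, ord_v x > 0} ord_v x = [F : K(x)]` in characteristic `0`.  The
only use of the characteristic is the separability of `F / K(x)`.  Here the same with
`[Algebra.IsSeparable K⟮x⟯ F]` as a hypothesis.
-/

set_option autoImplicit false
set_option linter.style.haveILetI false

open AlgebraicCurve IntermediateField Polynomial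

namespace Fermat.Agent.DEU

open Fermat.Agent.S24

variable {K F : Type*} [Field K] [Field F] [Algebra K F]

theorem resFund_intClosure_facts (x : F) (hx : Transcendental K x) [FiniteDimensional K⟮x⟯ F]
    [Algebra.IsSeparable K⟮x⟯ F] :
    letI := polyAlgebra (K := K) x
    IsDedekindDomain (intClosure (K := K) x) ∧ IsFractionRing (intClosure (K := K) x) F ∧
      Module.Finite K[X] (intClosure (K := K) x) := by
  letI := polyAlgebra (K := K) x
  letI := polyAlgebraAdjoin (K := K) x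
  haveI := polyAlgebraAdjoin_tower (K := K) x
  haveI := polyAlgebraAdjoin_isFractionRing (K := K) x hx
  refine ⟨?_, ?_, ?_⟩
  · exact integralClosure.isDedekindDomain K[X] K⟮x⟯ F
  · exact integralClosure.isFractionRing_of_finite_extension K⟮x⟯ F
  · exact IsIntegralClosure.finite K[X] K⟮x⟯ F (integralClosure K[X] F)

theorem resFund_sum_ramificationIdx_eq_finrank [IsAlgClosed K] (x : F) (hx : Transcendental K x)
    [FiniteDimensional K⟮x⟯ F] [Algebra.IsSeparable K⟮x⟯ F] :
    letI := polyAlgebra (K := K) x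
    ∃ (_ : Fintype ((Ideal.span {(X : K[X])}).primesOver (intClosure (K := K) x))),
      ∑ P : (Ideal.span {(X : K[X])}).primesOver (intClosure (K := K) x),
        P.1.ramificationIdx K[X] = Module.finrank K⟮x⟯ F := by
  letI := polyAlgebra (K := K) x
  letI := polyAlgebraAdjoin (K := K) x
  haveI := polyAlgebraAdjoin_tower (K := K) x
  haveI := polyAlgebraAdjoin_isFractionRing (K := K) x hx
  obtain ⟨hD, hF, hfin⟩ := resFund_intClosure_facts (K := K) x hx
  haveI := hD
  haveI := hF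
  haveI := hfin
  haveI hpmax : (Ideal.span {(X : K[X])}).IsMaximal :=
    PrincipalIdealRing.isMaximal_of_irreducible Polynomial.irreducible_X
  let ft : Fintype ((Ideal.span {(X : K[X])}).primesOver (intClosure (K := K) x)) :=
    (Algebra.QuasiFinite.finite_primesOver _).fintype
  refine ⟨ft, ?_⟩
  haveI hTF : Module.IsTorsionFree K[X] F :=
    Module.isTorsionFree_iff_algebraMap_injective.mpr
      (fun p q hpq => (transcendental_iff_injective.mp hx) hpq)
  haveI hTB : Module.IsTorsionFree K[X] (intClosure (K := K) x) :=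
    IsIntegralClosure.isTorsionFree K[X] F
  haveI hflat : Module.Flat K[X] (intClosure (K := K) x) :=
    (IsDedekindDomain.flat_iff_torsion_eq_bot).mpr (Submodule.isTorsionFree_iff_torsion_eq_bot.mp hTB)
  have key := Ideal.sum_ramification_inertia_eq_finrank (Ideal.span {(X : K[X])})
    (intClosure (K := K) x)
  rw [IsFractionRing.finrank_eq K[X] K⟮x⟯ (intClosure (K := K) x) F, ← key]
  refine Finset.sum_congr rfl fun P _ => ?_
  haveI : P.1.IsPrime := P.2.1
  haveI : P.1.LiesOver (Ideal.span {(X : K[X])}) := P.2.2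
  haveI : P.1.IsMaximal := Ideal.IsMaximal.of_liesOver_isMaximal P.1 (Ideal.span {(X : K[X])})
  rw [Ideal.inertiaDeg_eq_of_isMaximal (Ideal.span {(X : K[X])}) P.1]
  have e : K ≃+* (K[X] ⧸ Ideal.span {(X : K[X])}) :=
    ((Polynomial.quotientSpanXSubCAlgEquiv (0 : K)).symm.toRingEquiv).trans
      (Ideal.quotEquivOfEq (by rw [map_zero, sub_zero]))
  have h1 : Module.finrank (K[X] ⧸ Ideal.span {(X : K[X])}) ((intClosure (K := K) x) ⧸ P.1) = 1 :=
    polyClosure_finrank_eq_one (k' := K[X] ⧸ Ideal.span {(X : K[X])})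
      (L := (intClosure (K := K) x) ⧸ P.1)
      ((Ideal.Quotient.maximal_ideal_iff_isField_quotient _).mp hpmax) e
  rw [h1, mul_one]

/-- The sum of the orders of a separating element `x` over the places where `x` vanishes is
`[F : K(x)]` (any characteristic). -/
theorem resFund_sum_ord_eq_finrank [IsAlgClosed K] (x : F) (hx : Transcendental K x)
    [FiniteDimensional K⟮x⟯ F] [Algebra.IsSeparable K⟮x⟯ F] :
    ∃ V : Finset (Place K F), (∀ v, v ∈ V ↔ 0 < v.ord x) ∧
      ∑ v ∈ V, v.ord x = (Module.finrank K⟮x⟯ F : ℤ) :=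
  sum_ord_eq_finrank_of x hx (resFund_intClosure_facts x hx)
    (resFund_sum_ramificationIdx_eq_finrank x hx)

/-- Approximation among the zeros of a separating element. -/
theorem resFund_exists_ord_neg (x : F) (hx : Transcendental K x) [FiniteDimensional K⟮x⟯ F]
    [Algebra.IsSeparable K⟮x⟯ F]
    (v : Place K F) (S : Finset (Place K F)) (hvx : 0 < v.ord x) (hv : v ∉ S)
    (hS : ∀ u ∈ S, 0 < u.ord x) :
    ∃ h : F, v.ord h < 0 ∧ ∀ u ∈ S, 0 ≤ u.ord h :=
  exists_ord_neg_of x (resFund_intClosure_facts x hx) v S hvx hv hS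

end Fermat.Agent.DEU


end ZBS24_011_4
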