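/- GENERATED FILE (helper35, build-time optimisation, NOTES/ZB.md): verbatim concatenation of the modules
   Fermat.Agent.S24.LeadCoeff
   Fermat.Agent.S24.OrderAt
   Fermat.Agent.S24.PlaceFinite
   Fermat.Agent.ES.Multiplier
   Fermat.Agent.ES.MultiplierHecke
   Do not edit; do not import together with these modules. -/
import Mathlib
import Fermat.Agent.ZB.S24_001
import Fermat.Agent.ZB.S24_005
import Fermat.Agent.ZB.S22_002

/-! ### bundled: `Fermat.Agent.S24.LeadCoeff` -/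
section ZBS24_006_0

/-!
# S24 piece P5b (part 1) — leading coefficients of analytic functions at a point

`IsLead f z₀ n c`: near `z₀`, `f z = (z - z₀) ^ n * g z` with `g` analytic at `z₀`, `g z₀ = c ≠ 0`.
Behaviour under products and under composition with a map `μ` fixing `z₀`
(`lead (f ∘ μ) = μ'(z₀) ^ n * lead f`).
-/

set_option autoImplicit false

noncomputable section

open Filter Topology

namespace Fermat.Agent.S24

/-- Near `z₀`, `f z = (z - z₀) ^ n * g z` with `g` analytic at `z₀` and `g z₀ = c ≠ 0`. -/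
def IsLead (f : ℂ → ℂ) (z₀ : ℂ) (n : ℕ) (c : ℂ) : Prop :=
  c ≠ 0 ∧ ∃ g : ℂ → ℂ, AnalyticAt ℂ g z₀ ∧ g z₀ = c ∧ ∀ᶠ z in 𝓝 z₀, f z = (z - z₀) ^ n * g z

theorem IsLead.analyticAt {f : ℂ → ℂ} {z₀ : ℂ} {n : ℕ} {c : ℂ} (h : IsLead f z₀ n c) :
    AnalyticAt ℂ f z₀ := by
  obtain ⟨-, g, hg, -, hfg⟩ := h
  have h1 : AnalyticAt ℂ (fun z => (z - z₀) ^ n * g z) z₀ := by fun_prop
  exact h1.congr (hfg.mono fun z hz => hz.symm)

theorem IsLead.order_eq {f : ℂ → ℂ} {z₀ : ℂ} {n : ℕ} {c : ℂ} (h : IsLead f z₀ n c) :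
    analyticOrderAt f z₀ = n := by
  have hf := h.analyticAt
  obtain ⟨hc, g, hg, hgc, hfg⟩ := h
  rw [hf.analyticOrderAt_eq_natCast]
  exact ⟨g, hg, by rw [hgc]; exact hc, by simpa [smul_eq_mul] using hfg⟩

theorem exists_isLead {f : ℂ → ℂ} {z₀ : ℂ} (hf : AnalyticAt ℂ f z₀)
    (htop : analyticOrderAt f z₀ ≠ ⊤) :
    ∃ c, IsLead f z₀ (analyticOrderAt f z₀).toNat c := by
  obtain ⟨g, hg, hg0, hfg⟩ := (hf.analyticOrderAt_ne_top).mp htop
  refine ⟨g z₀, hg0, g, hg, rfl, ?_⟩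
  have h1 : ∀ᶠ z in 𝓝 z₀, f z = (z - z₀) ^ analyticOrderNatAt f z₀ • g z := hfg
  simpa [analyticOrderNatAt, smul_eq_mul] using h1

theorem IsLead.congr {f f' : ℂ → ℂ} {z₀ : ℂ} {n : ℕ} {c : ℂ} (h : IsLead f z₀ n c)
    (hff' : f =ᶠ[𝓝 z₀] f') : IsLead f' z₀ n c := by
  obtain ⟨hc, g, hg, hgc, hfg⟩ := h
  refine ⟨hc, g, hg, hgc, ?_⟩
  filter_upwards [hfg, hff'] with z h1 h2
  rw [← h2, h1]

/-- The leading coefficient (and exponent) is unique. -/
theorem IsLead.unique {f : ℂ → ℂ} {z₀ : ℂ} {n n' : ℕ} {c c' : ℂ} (h : IsLead f z₀ n c)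
    (h' : IsLead f z₀ n' c') : n = n' ∧ c = c' := by
  have hn : n = n' := by
    have h1 := h.order_eq
    rw [h'.order_eq] at h1
    exact_mod_cast h1.symm
  subst hn
  refine ⟨rfl, ?_⟩
  obtain ⟨-, g, hg, hgc, hfg⟩ := h
  obtain ⟨-, g', hg', hgc', hfg'⟩ := h'
  -- `g` and `g'` agree on a punctured neighbourhood, hence at `z₀` by continuity
  have hev : ∀ᶠ z in 𝓝[≠] z₀, g z = g' z := by
    have h1 : ∀ᶠ z in 𝓝[≠] z₀, f z = (z - z₀) ^ n * g z := hfg.filter_mono nhdsWithin_le_nhds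
    have h2 : ∀ᶠ z in 𝓝[≠] z₀, f z = (z - z₀) ^ n * g' z := hfg'.filter_mono nhdsWithin_le_nhds
    filter_upwards [h1, h2, self_mem_nhdsWithin] with z hz1 hz2 hz
    have hne : (z - z₀) ^ n ≠ 0 := pow_ne_zero _ (sub_ne_zero.mpr hz)
    rw [hz1] at hz2
    exact mul_left_cancel₀ hne hz2
  have hfreq : ∃ᶠ z in 𝓝[≠] z₀, g z = g' z := hev.frequently
  have := (hg.frequently_eq_iff_eventually_eq hg').mp hfreq
  rw [← hgc, ← hgc']
  exact this.self_of_nhds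

theorem IsLead.mul {f f' : ℂ → ℂ} {z₀ : ℂ} {n n' : ℕ} {c c' : ℂ} (h : IsLead f z₀ n c)
    (h' : IsLead f' z₀ n' c') : IsLead (fun z => f z * f' z) z₀ (n + n') (c * c') := by
  obtain ⟨hc, g, hg, hgc, hfg⟩ := h
  obtain ⟨hc', g', hg', hgc', hfg'⟩ := h'
  refine ⟨mul_ne_zero hc hc', fun z => g z * g' z, hg.mul hg', ?_, ?_⟩
  · show g z₀ * g' z₀ = c * c'
    rw [hgc, hgc']
  filter_upwards [hfg, hfg'] with z h1 h2
  rw [h1, h2]; ring

/-- Composition with an analytic map `μ` fixing `z₀`: the order is unchanged if `μ'(z₀) ≠ 0` and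
the leading coefficient is multiplied by `μ'(z₀) ^ n`. -/
theorem IsLead.comp {f μ : ℂ → ℂ} {z₀ ν : ℂ} {n : ℕ} {c : ℂ} (h : IsLead f z₀ n c)
    (hμ : AnalyticAt ℂ μ z₀) (hfix : μ z₀ = z₀) (hν : HasDerivAt μ ν z₀) (hν0 : ν ≠ 0) :
    IsLead (fun z => f (μ z)) z₀ n (ν ^ n * c) := by
  obtain ⟨hc, g, hg, hgc, hfg⟩ := h
  -- `μ z - z₀ = (z - z₀) * s z` with `s = dslope μ z₀`, `s z₀ = ν`
  have hs : AnalyticAt ℂ (dslope μ z₀) z₀ := by
    obtain ⟨p, hp⟩ := hμ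
    exact hp.has_fpower_series_dslope_fslope.analyticAt
  have hsz : dslope μ z₀ z₀ = ν := by rw [dslope_same, hν.deriv]
  have hgμ : AnalyticAt ℂ (fun z => g (μ z)) z₀ := by
    have : AnalyticAt ℂ g (μ z₀) := by rw [hfix]; exact hg
    exact this.comp hμ
  refine ⟨mul_ne_zero (pow_ne_zero _ hν0) hc, fun z => (dslope μ z₀ z) ^ n * g (μ z),
    (hs.pow n).mul hgμ, ?_, ?_⟩
  · show (dslope μ z₀ z₀) ^ n * g (μ z₀) = ν ^ n * c
    rw [hsz, hfix, hgc]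
  have hcont : Tendsto μ (𝓝 z₀) (𝓝 z₀) := by
    have := hμ.continuousAt.tendsto
    rwa [hfix] at this
  filter_upwards [hcont.eventually hfg] with z hz
  rw [hz]
  have : μ z - z₀ = (z - z₀) * dslope μ z₀ z := by
    have := sub_smul_dslope μ z₀ z
    simp only [smul_eq_mul] at this
    rw [this, hfix]
  rw [this, mul_pow]; ring

/-- **Key comparison**: if `a, b` have finite orders `n_a, n_b` at the fixed point `z₀` of `μ`
and `(a ∘ μ) * b = a * (b ∘ μ)` near `z₀`, then `μ'(z₀) ^ n_a = μ'(z₀) ^ n_b`. -/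
theorem pow_deriv_eq_of_comp_mul_eq {a b μ : ℂ → ℂ} {z₀ ν : ℂ} {na nb : ℕ} {ca cb : ℂ}
    (ha : IsLead a z₀ na ca) (hb : IsLead b z₀ nb cb)
    (hμ : AnalyticAt ℂ μ z₀) (hfix : μ z₀ = z₀) (hν : HasDerivAt μ ν z₀) (hν0 : ν ≠ 0)
    (heq : ∀ᶠ z in 𝓝 z₀, a (μ z) * b z = a z * b (μ z)) :
    ν ^ na = ν ^ nb := by
  have h1 : IsLead (fun z => a (μ z) * b z) z₀ (na + nb) (ν ^ na * ca * cb) :=
    (ha.comp hμ hfix hν hν0).mul hb
  have h2 : IsLead (fun z => a z * b (μ z)) z₀ (na + nb) (ca * (ν ^ nb * cb)) :=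
    ha.mul (hb.comp hμ hfix hν hν0)
  have h3 := (h1.congr heq).unique h2
  have hca := ha.1
  have hcb := hb.1
  have h4 : ν ^ na * (ca * cb) = ν ^ nb * (ca * cb) := by
    have := h3.2
    linear_combination this
  exact mul_right_cancel₀ (mul_ne_zero hca hcb) h4

end Fermat.Agent.S24

end
end ZBS24_006_0

/-! ### bundled: `Fermat.Agent.S24.OrderAt` -/
section ZBS24_006_1

/-!
# S24 piece P5b (part 2) — the order of vanishing at a point `τ₀ ∈ ℍ` as a valuation on `Man N`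

* `ordAt τ₀ f` (`analyticOrderAt` of `f ∘ ofComplex`), invariance under `SL(2,ℤ)`;
* `mobC γ` : the Möbius map on `ℂ`, its derivative `1 / denom γ τ₀ ^ 2`;
* `denom` is multiplicative on the stabiliser of `τ₀`;
* `valBan N τ₀ : Valuation (Ban N) ℤᵐ⁰`, `valMan N τ₀ : Valuation (Man N) ℤᵐ⁰`.
-/

set_option autoImplicit false

noncomputable section

open UpperHalfPlane Filter Topology AlgebraicCurve WithZero
open scoped MatrixGroups Manifold ModularForm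

namespace Fermat.Agent.S24

attribute [local instance] algKbC

/-! ### Order at a point of `ℍ` -/

/-- The order of vanishing of `f : ℍ → ℂ` at `τ₀`. -/
def ordAt (τ₀ : ℍ) (f : ℍ → ℂ) : ℕ∞ := analyticOrderAt (f ∘ ofComplex) (τ₀ : ℂ)

theorem ordAt_analyticAt {f : ℍ → ℂ} (hf : MDiff f) (τ₀ : ℍ) :
    AnalyticAt ℂ (f ∘ ofComplex) (τ₀ : ℂ) := by
  rw [UpperHalfPlane.mdifferentiable_iff] at hf
  exact hf.analyticAt (isOpen_upperHalfPlaneSet.mem_nhds τ₀.im_pos)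

theorem ordAt_ne_top {f : ℍ → ℂ} (hf : MDiff f) (h0 : f ≠ 0) (τ₀ : ℍ) : ordAt τ₀ f ≠ ⊤ := by
  intro htop
  apply h0
  rw [ordAt, analyticOrderAt_eq_top] at htop
  refine UpperHalfPlane.eq_zero_of_frequently hf (τ := τ₀) ?_
  have h1 : ∀ᶠ z in 𝓝 τ₀, f z = 0 := by
    rw [← isOpenEmbedding_coe.map_nhds_eq, eventually_map] at htop
    filter_upwards [htop] with a ha
    simpa using ha
  exact (h1.filter_mono nhdsWithin_le_nhds).frequently

theorem ordAt_mul {f g : ℍ → ℂ} (hf : MDiff f) (hg : MDiff g) (τ₀ : ℍ) :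
    ordAt τ₀ (f * g) = ordAt τ₀ f + ordAt τ₀ g :=
  analyticOrderAt_mul (ordAt_analyticAt hf τ₀) (ordAt_analyticAt hg τ₀)

theorem le_ordAt_add (f g : ℍ → ℂ) (τ₀ : ℍ) :
    min (ordAt τ₀ f) (ordAt τ₀ g) ≤ ordAt τ₀ (f + g) :=
  le_analyticOrderAt_add

theorem ordAt_const {c : ℂ} (hc : c ≠ 0) (τ₀ : ℍ) : ordAt τ₀ (fun _ => c) = 0 := by
  rw [ordAt, analyticOrderAt_eq_zero]
  exact Or.inr hc

theorem SL_val_det (γ : SL(2, ℤ)) : ((γ : GL (Fin 2) ℝ)).val.det = 1 := by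
  have h := (Matrix.SpecialLinearGroup.map (Int.castRingHom ℝ) γ).det_coe
  simpa using h

theorem SL_val_det_pos (γ : SL(2, ℤ)) : 0 < ((γ : GL (Fin 2) ℝ)).val.det := by
  rw [SL_val_det]; exact one_pos

/-- The map `z ↦ γ z` on `ℂ` (through `ofComplex`). -/
def mobC (γ : SL(2, ℤ)) (z : ℂ) : ℂ := ((γ • ofComplex z : ℍ) : ℂ)

theorem comp_smul_comp_ofComplex (f : ℍ → ℂ) (γ : SL(2, ℤ)) :
    ((fun τ => f (γ • τ)) ∘ ofComplex) = fun z => (f ∘ ofComplex) (mobC γ z) := by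
  funext z
  simp [mobC]

theorem analyticAt_mobC (γ : SL(2, ℤ)) (τ₀ : ℍ) : AnalyticAt ℂ (mobC γ) (τ₀ : ℂ) :=
  τ₀.analyticAt_smul (SL_val_det_pos γ)

theorem hasDerivAt_mobC (γ : SL(2, ℤ)) (τ₀ : ℍ) :
    HasDerivAt (mobC γ) (1 / denom γ τ₀ ^ 2) (τ₀ : ℂ) := by
  have h := (τ₀.hasStrictDerivAt_smul (SL_val_det_pos γ)).hasDerivAt
  rw [SL_val_det, Complex.ofReal_one] at h
  exact h

theorem mobC_coe (γ : SL(2, ℤ)) (τ₀ : ℍ) : mobC γ (τ₀ : ℂ) = ((γ • τ₀ : ℍ) : ℂ) := by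
  simp [mobC]

/-- Invariance of the order under `γ ∈ SL(2,ℤ)`. -/
theorem ordAt_comp_smul (f : ℍ → ℂ) (γ : SL(2, ℤ)) (τ₀ : ℍ) :
    ordAt τ₀ (fun τ => f (γ • τ)) = ordAt (γ • τ₀) f := by
  rw [ordAt, comp_smul_comp_ofComplex]
  have : (fun z => (f ∘ ofComplex) (mobC γ z)) = (f ∘ ofComplex) ∘ mobC γ := rfl
  rw [this, analyticOrderAt_comp_of_deriv_ne_zero (analyticAt_mobC γ τ₀), mobC_coe]
  · rfl
  · rw [(hasDerivAt_mobC γ τ₀).deriv]
    exact one_div_ne_zero (pow_ne_zero _ (denom_ne_zero _ _))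

/-! ### The valuation on `Ban N` and `Man N` attached to `τ₀` -/

theorem Ban_coe_ne_zero {N : ℕ} {f : Ban N} (hf : f ≠ 0) : (f : ℍ → ℂ) ≠ 0 :=
  fun h => hf (Subtype.ext h)

/-- The integer order at `τ₀` of an element of `Ban N`. -/
def ordBan (N : ℕ) (τ₀ : ℍ) (f : Ban N) : ℕ := (ordAt τ₀ (f : ℍ → ℂ)).toNat

theorem coe_ordBan {N : ℕ} (τ₀ : ℍ) {f : Ban N} (hf : f ≠ 0) :
    (ordBan N τ₀ f : ℕ∞) = ordAt τ₀ (f : ℍ → ℂ) :=
  ENat.natCast_toNat (ordAt_ne_top (mdifferentiable_of_mem_Ban f.2) (Ban_coe_ne_zero hf) τ₀)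

theorem ordBan_mul {N : ℕ} (τ₀ : ℍ) {f g : Ban N} (hf : f ≠ 0) (hg : g ≠ 0) :
    ordBan N τ₀ (f * g) = ordBan N τ₀ f + ordBan N τ₀ g := by
  have h := ordAt_mul (mdifferentiable_of_mem_Ban f.2) (mdifferentiable_of_mem_Ban g.2) τ₀
  have h1 : ((f * g : Ban N) : ℍ → ℂ) = (f : ℍ → ℂ) * (g : ℍ → ℂ) := rfl
  rw [← h1, ← coe_ordBan τ₀ hf, ← coe_ordBan τ₀ hg, ← coe_ordBan τ₀ (mul_ne_zero hf hg)] at h
  exact_mod_cast h

theorem min_le_ordBan_add {N : ℕ} (τ₀ : ℍ) {f g : Ban N} (hf : f ≠ 0) (hg : g ≠ 0)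
    (hfg : f + g ≠ 0) : min (ordBan N τ₀ f) (ordBan N τ₀ g) ≤ ordBan N τ₀ (f + g) := by
  have h := le_ordAt_add (f : ℍ → ℂ) (g : ℍ → ℂ) τ₀
  have h1 : ((f + g : Ban N) : ℍ → ℂ) = (f : ℍ → ℂ) + (g : ℍ → ℂ) := rfl
  rw [← h1, ← coe_ordBan τ₀ hf, ← coe_ordBan τ₀ hg, ← coe_ordBan τ₀ hfg] at h
  rw [min_le_iff] at h ⊢
  rcases h with h | h
  · exact Or.inl (by exact_mod_cast h)
  · exact Or.inr (by exact_mod_cast h)

theorem ordBan_algebraMap {N : ℕ} (τ₀ : ℍ) (a : Kb) : ordBan N τ₀ (algebraMap Kb (Ban N) a) = 0 := by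
  rcases eq_or_ne a 0 with rfl | ha
  · simp only [map_zero, ordBan]
    have : ((0 : Ban N) : ℍ → ℂ) = fun _ => (0 : ℂ) := rfl
    rw [this, ordAt, analyticOrderAt_eq_top.mpr (by simp)]
    rfl
  · have h1 : ((algebraMap Kb (Ban N) a : Ban N) : ℍ → ℂ) = fun _ => embC a := rfl
    rw [ordBan, h1, ordAt_const (by simpa using ha)]
    rfl

theorem ordBan_one {N : ℕ} (τ₀ : ℍ) : ordBan N τ₀ 1 = 0 := by
  have := ordBan_algebraMap (N := N) τ₀ 1
  simpa using this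

/-- The valuation on `Ban N` given by the order of vanishing at `τ₀`. -/
def valBan (N : ℕ) (τ₀ : ℍ) : Valuation (Ban N) ℤᵐ⁰ where
  toFun f := open Classical in if f = 0 then 0 else WithZero.exp (-(ordBan N τ₀ f : ℤ))
  map_zero' := by simp
  map_one' := by simp [ordBan_one]
  map_mul' f g := by
    rcases eq_or_ne f 0 with rfl | hf
    · simp
    rcases eq_or_ne g 0 with rfl | hg
    · simp
    simp only [hf, hg, mul_ne_zero hf hg, if_false, ordBan_mul τ₀ hf hg, ← WithZero.exp_add]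
    congr 1
    push_cast
    ring
  map_add_le_max' f g := by
    rcases eq_or_ne f 0 with rfl | hf
    · rw [zero_add]; exact le_max_right _ _
    rcases eq_or_ne g 0 with rfl | hg
    · rw [add_zero]; exact le_max_left _ _
    rcases eq_or_ne (f + g) 0 with hfg | hfg
    · simp [hfg]
    simp only [hf, hg, hfg, if_false]
    have h := min_le_ordBan_add τ₀ hf hg hfg
    rcases min_le_iff.mp h with h | h
    · exact le_max_of_le_left (WithZero.exp_le_exp.mpr (by omega))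
    · exact le_max_of_le_right (WithZero.exp_le_exp.mpr (by omega))

theorem valBan_apply {N : ℕ} (τ₀ : ℍ) {f : Ban N} (hf : f ≠ 0) :
    valBan N τ₀ f = WithZero.exp (-(ordBan N τ₀ f : ℤ)) := by
  classical
  show (if f = 0 then 0 else WithZero.exp (-(ordBan N τ₀ f : ℤ))) = _
  rw [if_neg hf]

theorem valBan_ne_zero {N : ℕ} (τ₀ : ℍ) {f : Ban N} (hf : f ≠ 0) : valBan N τ₀ f ≠ 0 := by
  rw [valBan_apply τ₀ hf]; exact WithZero.exp_ne_zero

theorem nonZeroDivisors_le_primeCompl (N : ℕ) (τ₀ : ℍ) :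
    nonZeroDivisors (Ban N) ≤ (valBan N τ₀).supp.primeCompl := by
  intro f hf
  have hf0 : f ≠ 0 := nonZeroDivisors.ne_zero hf
  show f ∉ (valBan N τ₀).supp
  rw [Valuation.mem_supp_iff]
  exact valBan_ne_zero τ₀ hf0

/-- The valuation on `Man N` given by the order at `τ₀`. -/
def valMan (N : ℕ) (τ₀ : ℍ) : Valuation (Man N) ℤᵐ⁰ :=
  (valBan N τ₀).extendToLocalization (nonZeroDivisors_le_primeCompl N τ₀) (Man N)

theorem valMan_algebraMap {N : ℕ} (τ₀ : ℍ) (f : Ban N) :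
    valMan N τ₀ (algebraMap (Ban N) (Man N) f) = valBan N τ₀ f :=
  Valuation.extendToLocalization_apply_map_apply _ _ _ f

/-! ### `denom` on the stabiliser of `τ₀` -/


theorem denom_mul_SL (γ δ : SL(2, ℤ)) (τ : ℍ) :
    denom (γ * δ : SL(2, ℤ)) τ = denom γ (δ • τ : ℍ) * denom δ τ := by
  have h := denom_cocycle (γ : GL (Fin 2) ℝ) (δ : GL (Fin 2) ℝ) (z := (τ : ℂ)) τ.im_ne_zero
  have h2 : ((δ • τ : ℍ) : ℂ) = num δ τ / denom δ τ := by
    rw [ModularGroup.sl_moeb, coe_smul_of_det_pos (by simp)]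
  rw [h2, ← h]
  simp

theorem denom_one_SL (τ : ℍ) : denom ((1 : SL(2, ℤ)) : GL (Fin 2) ℝ) τ = 1 := by
  simp [denom]

theorem denom_pow_of_fix {ε : SL(2, ℤ)} {τ₀ : ℍ} (hfix : ε • τ₀ = τ₀) (k : ℕ) :
    (ε ^ k) • τ₀ = τ₀ ∧ denom (ε ^ k : SL(2, ℤ)) τ₀ = (denom ε τ₀) ^ k := by
  induction k with
  | zero => exact ⟨by simp, by simp⟩
  | succ k ih =>
    refine ⟨?_, ?_⟩
    · rw [pow_succ, mul_smul, hfix, ih.1]
    · rw [pow_succ, denom_mul_SL, hfix, ih.2, pow_succ]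

theorem denom_inv_of_fix {γ : SL(2, ℤ)} {τ₀ : ℍ} (hfix : γ • τ₀ = τ₀) :
    γ⁻¹ • τ₀ = τ₀ ∧ denom (γ⁻¹ : SL(2, ℤ)) τ₀ = (denom γ τ₀)⁻¹ := by
  have h1 : γ⁻¹ • τ₀ = τ₀ := by
    conv_lhs => rw [← hfix]
    rw [inv_smul_smul]
  refine ⟨h1, ?_⟩
  have h2 := denom_mul_SL γ⁻¹ γ τ₀
  rw [inv_mul_cancel, hfix] at h2
  have h3 : denom ((1 : SL(2, ℤ)) : GL (Fin 2) ℝ) τ₀ = 1 := denom_one_SL τ₀
  rw [h3] at h2
  exact eq_inv_of_mul_eq_one_left h2.symm

end Fermat.Agent.S24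

end
end ZBS24_006_1

/-! ### bundled: `Fermat.Agent.S24.PlaceFinite` -/
section ZBS24_006_2

/-!
# S24 piece P5b — the place of `Man N` at a point `τ₀ ∈ ℍ`, and property (L)

Main results (all for `M = Man N`, `act = act N`, `x` an element of `Ban N`):

* `exists_place_localProp` : if `ε • τ₀ = τ₀`, `denom ε τ₀ ^ 2` is a primitive `e`-th root of unity
  and `x ∈ Ban N` vanishes to order exactly `e > 0` at `τ₀`, then there is a place `w` of `Man N`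
  with `LocalProp x (act N ε) w`.
* `loc_gen_Man`, `loc_1728_Man`, `loc_zero_Man` : the three specialisations
  (`ε = 1`, `e = 1`; `ε = S`, `e = 2`; `ε = S * T`, `e = 3`).
-/

set_option autoImplicit false

noncomputable section

open UpperHalfPlane Filter Topology AlgebraicCurve WithZero
open scoped MatrixGroups Manifold ModularForm

namespace Fermat.Agent.S24

attribute [local instance] algKbC

/-! ### Values of `valMan` -/

theorem algebraMap_Ban_Man_ne_zero {N : ℕ} {f : Ban N} (hf : f ≠ 0) :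
    algebraMap (Ban N) (Man N) f ≠ 0 := by
  intro h
  apply hf
  exact (IsFractionRing.injective (Ban N) (Man N)) (by rw [h, map_zero])

theorem vord_valMan_algebraMap {N : ℕ} (τ₀ : ℍ) {f : Ban N} (hf : f ≠ 0) :
    vord (valMan N τ₀) (algebraMap (Ban N) (Man N) f) = ordBan N τ₀ f := by
  rw [vord, valMan_algebraMap, valBan_apply τ₀ hf, WithZero.log_exp, neg_neg]

theorem vord_valMan_div {N : ℕ} (τ₀ : ℍ) {a b : Ban N} (ha : a ≠ 0) (hb : b ≠ 0) :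
    vord (valMan N τ₀) (algebraMap (Ban N) (Man N) a / algebraMap (Ban N) (Man N) b)
      = (ordBan N τ₀ a : ℤ) - ordBan N τ₀ b := by
  rw [div_eq_mul_inv, vord_mul _ (algebraMap_Ban_Man_ne_zero ha)
    (inv_ne_zero (algebraMap_Ban_Man_ne_zero hb)), vord_inv, vord_valMan_algebraMap τ₀ ha,
    vord_valMan_algebraMap τ₀ hb]
  ring

theorem valMan_algebraMap_Kb_le_one {N : ℕ} (τ₀ : ℍ) (a : Kb) :
    valMan N τ₀ (algebraMap Kb (Man N) a) ≤ 1 := by
  rw [IsScalarTower.algebraMap_apply Kb (Ban N) (Man N), valMan_algebraMap]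
  rcases eq_or_ne (algebraMap Kb (Ban N) a) 0 with h | h
  · rw [h, map_zero]; exact zero_le_one
  · rw [valBan_apply τ₀ h, ordBan_algebraMap]
    simp

/-! ### Invariance under the stabiliser of `τ₀` -/

theorem ordBan_actBan {N : ℕ} {τ₀ : ℍ} {γ : SL(2, ℤ)} (hfix : γ • τ₀ = τ₀) (f : Ban N) :
    ordBan N τ₀ (actBan N γ f) = ordBan N τ₀ f := by
  have h1 : ((actBan N γ f : Ban N) : ℍ → ℂ) = fun τ => (f : ℍ → ℂ) (γ⁻¹ • τ) := rfl
  rw [ordBan, h1, ordAt_comp_smul, (denom_inv_of_fix hfix).1]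
  rfl

theorem valBan_actBan {N : ℕ} {τ₀ : ℍ} {γ : SL(2, ℤ)} (hfix : γ • τ₀ = τ₀) (f : Ban N) :
    valBan N τ₀ (actBan N γ f) = valBan N τ₀ f := by
  rcases eq_or_ne f 0 with rfl | hf
  · simp
  · have hf' : actBan N γ f ≠ 0 := by
      intro h
      apply hf
      have := congrArg (actBan N γ).symm h
      simpa using this
    rw [valBan_apply τ₀ hf, valBan_apply τ₀ hf', ordBan_actBan hfix]

theorem valMan_act {N : ℕ} {τ₀ : ℍ} {γ : SL(2, ℤ)} (hfix : γ • τ₀ = τ₀) (m : Man N) :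
    valMan N τ₀ (act N γ m) = valMan N τ₀ m := by
  obtain ⟨a, b, hb, rfl⟩ := IsFractionRing.div_surjective (A := Ban N) m
  simp only [map_div₀, act_algebraMap, valMan_algebraMap, valBan_actBan hfix]

/-- Stability of a place with valuation ring `(valMan N τ₀).valuationSubring` under the
stabiliser of `τ₀`. -/
theorem act_smul_place_eq {N : ℕ} {τ₀ : ℍ} {γ : SL(2, ℤ)} (hfix : γ • τ₀ = τ₀)
    (w : Place Kb (Man N)) (hw : w.toValuationSubring = (valMan N τ₀).valuationSubring) :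
    act N γ • w = w := by
  apply Place.ext
  rw [Place.smul_toValuationSubring, hw]
  ext m
  rw [ValuationSubring.mem_pointwise_smul_iff_inv_smul_mem, Valuation.mem_valuationSubring_iff,
    Valuation.mem_valuationSubring_iff]
  have h1 : (act N γ)⁻¹ • m = act N γ⁻¹ m := by
    rw [← map_inv]; rfl
  rw [h1, valMan_act (denom_inv_of_fix hfix).1]

/-! ### Property (L) -/

/-- Core of property (L) on `Ban N`: if `γ` fixes `τ₀` and `(γ • a) * b = a * (γ • b)`, then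
`(denom γ τ₀ ^ 2) ^ ord a = (denom γ τ₀ ^ 2) ^ ord b`. -/
theorem denom_sq_pow_eq_of_fixed {N : ℕ} {τ₀ : ℍ} {γ : SL(2, ℤ)} (hfix : γ • τ₀ = τ₀)
    {a b : Ban N} (ha : a ≠ 0) (hb : b ≠ 0)
    (h : actBan N γ a * b = a * actBan N γ b) :
    (denom γ τ₀ ^ 2) ^ ordBan N τ₀ a = (denom γ τ₀ ^ 2) ^ ordBan N τ₀ b := by
  obtain ⟨hfix', hden⟩ := denom_inv_of_fix hfix
  obtain ⟨ca, hca⟩ := exists_isLead (ordAt_analyticAt (mdifferentiable_of_mem_Ban a.2) τ₀)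
    (ordAt_ne_top (mdifferentiable_of_mem_Ban a.2) (Ban_coe_ne_zero ha) τ₀)
  obtain ⟨cb, hcb⟩ := exists_isLead (ordAt_analyticAt (mdifferentiable_of_mem_Ban b.2) τ₀)
    (ordAt_ne_top (mdifferentiable_of_mem_Ban b.2) (Ban_coe_ne_zero hb) τ₀)
  have hμfix : mobC γ⁻¹ (τ₀ : ℂ) = (τ₀ : ℂ) := by rw [mobC_coe, hfix']
  have hν : HasDerivAt (mobC γ⁻¹) (denom γ τ₀ ^ 2) (τ₀ : ℂ) := by
    have := hasDerivAt_mobC γ⁻¹ τ₀
    rw [hden] at this
    simpa using this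
  have hν0 : denom γ τ₀ ^ 2 ≠ 0 := pow_ne_zero _ (denom_ne_zero _ _)
  have key : ∀ f : Ban N, ∀ z : ℂ,
      ((f : ℍ → ℂ) ∘ ofComplex) (mobC γ⁻¹ z) = (actBan N γ f : ℍ → ℂ) (ofComplex z) := by
    intro f z
    simp only [Function.comp_apply, mobC, ofComplex_apply]
    rfl
  have heq : ∀ᶠ z in 𝓝 (τ₀ : ℂ),
      ((a : ℍ → ℂ) ∘ ofComplex) (mobC γ⁻¹ z) * ((b : ℍ → ℂ) ∘ ofComplex) z
        = ((a : ℍ → ℂ) ∘ ofComplex) z * ((b : ℍ → ℂ) ∘ ofComplex) (mobC γ⁻¹ z) := by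
    refine Filter.Eventually.of_forall fun z => ?_
    rw [key a z, key b z]
    have h' := congrFun (congrArg Subtype.val h) (ofComplex z)
    exact h'
  exact pow_deriv_eq_of_comp_mul_eq hca hcb (analyticAt_mobC γ⁻¹ τ₀) hμfix hν hν0 heq

/-- Property (L) for `valMan`: an `act N ε ^ k`-invariant element has order divisible by `e`
(up to the factor `k`), if `denom ε τ₀ ^ 2` is a primitive `e`-th root of unity. -/
theorem dvd_mul_vord_of_fixed {N : ℕ} {τ₀ : ℍ} {ε : SL(2, ℤ)} (hfix : ε • τ₀ = τ₀) {e : ℕ}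
    (hprim : IsPrimitiveRoot (denom ε τ₀ ^ 2) e) {m : Man N} (hm : m ≠ 0) (k : ℕ)
    (hinv : (act N ε ^ k) m = m) : (e : ℤ) ∣ (k : ℤ) * vord (valMan N τ₀) m := by
  obtain ⟨a, b, hb, rfl⟩ := IsFractionRing.div_surjective (A := Ban N) m
  have hb0 : b ≠ 0 := nonZeroDivisors.ne_zero hb
  have ha0 : a ≠ 0 := by
    rintro rfl
    apply hm
    simp
  obtain ⟨hfixk, hdenk⟩ := denom_pow_of_fix hfix k
  -- the invariance on `Ban N`
  have h1 : actBan N (ε ^ k) a * b = a * actBan N (ε ^ k) b := by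
    rw [← map_pow] at hinv
    simp only [map_div₀, act_algebraMap] at hinv
    have hb' : algebraMap (Ban N) (Man N) b ≠ 0 := algebraMap_Ban_Man_ne_zero hb0
    have hb'' : algebraMap (Ban N) (Man N) (actBan N (ε ^ k) b) ≠ 0 := by
      apply algebraMap_Ban_Man_ne_zero
      intro h
      apply hb0
      have := congrArg (actBan N (ε ^ k)).symm h
      simpa using this
    rw [div_eq_div_iff hb'' hb', ← map_mul, ← map_mul] at hinv
    exact IsFractionRing.injective (Ban N) (Man N) hinv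
  have h2 := denom_sq_pow_eq_of_fixed hfixk ha0 hb0 h1
  rw [hdenk] at h2
  set ζ := denom ε τ₀ ^ 2 with hζ
  have hζ0 : ζ ≠ 0 := pow_ne_zero _ (denom_ne_zero _ _)
  have h3 : ζ ^ (k * ordBan N τ₀ a) = ζ ^ (k * ordBan N τ₀ b) := by
    have e1 : ((denom ε τ₀) ^ k) ^ 2 = ζ ^ k := by rw [hζ]; ring
    rw [e1] at h2
    rw [pow_mul, pow_mul]; exact h2
  have h4 : ζ ^ ((k : ℤ) * ((ordBan N τ₀ a : ℤ) - ordBan N τ₀ b)) = 1 := by
    have e2 : (k : ℤ) * ((ordBan N τ₀ a : ℤ) - ordBan N τ₀ b)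
        = ((k * ordBan N τ₀ a : ℕ) : ℤ) - ((k * ordBan N τ₀ b : ℕ) : ℤ) := by
      push_cast; ring
    rw [e2, zpow_sub₀ hζ0, zpow_natCast, zpow_natCast, h3, div_self (pow_ne_zero _ hζ0)]
  rw [vord_valMan_div τ₀ ha0 hb0]
  exact (hprim.zpow_eq_one_iff_dvd _).mp h4

/-- **Main theorem of P5b.** Let `ε ∈ SL(2,ℤ)` fix `τ₀ ∈ ℍ`, let `denom ε τ₀ ^ 2` be a primitive
`e`-th root of unity, and let `x ∈ Ban N` vanish to order exactly `e > 0` at `τ₀`. Then there is a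
place `w` of `Man N` with property (L) for `x` and `act N ε`. -/
theorem exists_place_localProp (N : ℕ) (τ₀ : ℍ) (ε : SL(2, ℤ)) (e : ℕ) (x : Ban N)
    (hfix : ε • τ₀ = τ₀) (hprim : IsPrimitiveRoot (denom ε τ₀ ^ 2) e)
    (hx : ordAt τ₀ (x : ℍ → ℂ) = e) (he : 0 < e) :
    ∃ w : Place Kb (Man N), LocalProp (algebraMap (Ban N) (Man N) x) (act N ε) w := by
  have hx0 : x ≠ 0 := by
    rintro rfl
    have h1 : ordAt τ₀ ((0 : Ban N) : ℍ → ℂ) = ⊤ := by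
      rw [ordAt, analyticOrderAt_eq_top]
      exact Filter.Eventually.of_forall fun z => rfl
    rw [h1] at hx
    exact ENat.top_ne_natCast e hx
  have hxe : ordBan N τ₀ x = e := by
    rw [ordBan, hx]; rfl
  have hxM : algebraMap (Ban N) (Man N) x ≠ 0 := algebraMap_Ban_Man_ne_zero hx0
  have hvx : vord (valMan N τ₀) (algebraMap (Ban N) (Man N) x) = e := by
    rw [vord_valMan_algebraMap τ₀ hx0, hxe]
  obtain ⟨w, e₀, he₀, hw, hord⟩ := exists_place_of_valuation (K := Kb) (valMan N τ₀)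
    (valMan_algebraMap_Kb_le_one τ₀)
    ⟨algebraMap (Ban N) (Man N) x, hxM, by
      rw [lt_one_iff_vord_pos _ hxM, hvx]; exact_mod_cast he⟩
  have hwx : (e : ℤ) = e₀ * w.ord (algebraMap (Ban N) (Man N) x) := by
    rw [← hord _ hxM, hvx]
  refine ⟨w, ⟨?_, act_smul_place_eq hfix w hw, ?_⟩⟩
  · have : (0 : ℤ) < e₀ * w.ord (algebraMap (Ban N) (Man N) x) := by
      rw [← hwx]; exact_mod_cast he
    exact (mul_pos_iff_of_pos_left he₀).mp this
  · intro m k hinv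
    rcases eq_or_ne m 0 with rfl | hm
    · simp
    have h1 := dvd_mul_vord_of_fixed hfix hprim hm k hinv
    rw [hord m hm, hwx] at h1
    have h2 : e₀ * w.ord (algebraMap (Ban N) (Man N) x) ∣ e₀ * ((k : ℤ) * w.ord m) := by
      have : (k : ℤ) * (e₀ * w.ord m) = e₀ * ((k : ℤ) * w.ord m) := by ring
      rw [← this]; exact h1
    exact Int.dvd_of_mul_dvd_mul_left he₀.ne' h2

end Fermat.Agent.S24

end
end ZBS24_006_2

/-! ### bundled: `Fermat.Agent.ES.Multiplier` -/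
section ZBS24_006_3

/-!
# ESpkg-G1, piece A2 (core): the multiplier of a `p`-th root

A meromorphic function on `ℍ` is written `a / g` with `a g : ℍ → ℂ` holomorphic, `g ≠ 0`.
`IsMultiplier γ a g ζ` says `(a/g)(γ τ) = ζ · (a/g)(τ)` (written without division).

* `exists_rootOfUnity_mul_of_pow_eq` : rigidity — holomorphic `A, B` on `ℍ` with `A^p = B^p`
  differ by a constant `p`-th root of unity;
* `exists_isMultiplier` : if `(a/g)^p` is `γ`-invariant then `a/g` has a multiplier `ζ ∈ μ_p`;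
* `IsMultiplier.unique`, `.one`, `.mul`, `.inv`, `.mul_fun`, `.congr_fun` : uniqueness, cocycle rules;
* `IsMultiplier.mul_pow_eq_of_fixed` : at a fixed point `τ₀` of `γ`,
  `ζ · ν ^ ord_τ₀ g = ν ^ ord_τ₀ a` with `ν = 1 / denom γ τ₀ ^ 2`;
* `RootData Γ p`, `RootData.mult : Γ →* ℂˣ`, the multiplier character of a `p`-th root of a
  `Γ`-invariant function.
-/

set_option autoImplicit false

noncomputable section

open UpperHalfPlane Filter Topology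
open scoped MatrixGroups Manifold

namespace Fermat.Agent.ES

open Fermat.Agent.S24

/-! ### Holomorphic functions on `ℍ` and precomposition with `SL(2,ℤ)` -/

theorem mdiff_comp_SL {w : ℍ → ℂ} (hw : MDiff w) (γ : SL(2, ℤ)) :
    MDiff (fun τ : ℍ => w (γ • τ)) :=
  hw.comp (UpperHalfPlane.mdifferentiable_smul (g := (γ : GL (Fin 2) ℝ)) (SL_val_det_pos γ))

theorem comp_SL_eq_zero_iff {w : ℍ → ℂ} (γ : SL(2, ℤ)) :
    (fun τ : ℍ => w (γ • τ)) = 0 ↔ w = 0 := by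
  constructor
  · intro h
    funext τ
    have := congrFun h (γ⁻¹ • τ)
    simpa using this
  · rintro rfl
    rfl

/-- Rigidity: two holomorphic functions on `ℍ` with the same `p`-th power differ by a constant
`p`-th root of unity. -/
theorem exists_rootOfUnity_mul_of_pow_eq {p : ℕ} (hp : p ≠ 0) {A B : ℍ → ℂ} (hA : MDiff A)
    (hB : MDiff B) (h : ∀ τ, A τ ^ p = B τ ^ p) :
    ∃ ζ : ℂ, ζ ^ p = 1 ∧ ∀ τ, A τ = ζ * B τ := by
  classical
  have hprim := Complex.isPrimitiveRoot_exp p hp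
  have hprod : ∏ ζ ∈ Polynomial.nthRootsFinset p (1 : ℂ), (fun τ : ℍ => A τ - ζ * B τ) = 0 := by
    funext τ
    rw [Finset.prod_apply]
    have := hprim.pow_sub_pow_eq_prod_sub_mul (A τ) (B τ) (Nat.pos_of_ne_zero hp)
    rw [← this, h τ, sub_self]
    rfl
  have hmd : ∀ ζ ∈ Polynomial.nthRootsFinset p (1 : ℂ), MDiff (fun τ : ℍ => A τ - ζ * B τ) := by
    intro ζ _
    exact hA.sub (mdifferentiable_const.mul hB)
  obtain ⟨ζ, hζ, hz⟩ := (UpperHalfPlane.prod_eq_zero_iff hmd).mp hprod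
  refine ⟨ζ, ?_, fun τ => ?_⟩
  · exact (Polynomial.mem_nthRootsFinset (Nat.pos_of_ne_zero hp) 1).mp hζ
  · have := congrFun hz τ
    exact sub_eq_zero.mp this

/-- Cancellation in the domain of holomorphic functions on `ℍ`. -/
theorem mdiff_mul_right_cancel {F G C : ℍ → ℂ} (hF : MDiff F) (hG : MDiff G) (hC : MDiff C)
    (hC0 : C ≠ 0) (h : ∀ τ, F τ * C τ = G τ * C τ) : ∀ τ, F τ = G τ := by
  have h1 : (fun τ => F τ - G τ) * C = 0 := by
    funext τ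
    simp only [Pi.mul_apply, Pi.zero_apply]
    rw [sub_mul, h τ, sub_self]
  rcases (UpperHalfPlane.mul_eq_zero_iff (hF.sub hG) hC).mp h1 with h2 | h2
  · intro τ
    exact sub_eq_zero.mp (congrFun h2 τ)
  · exact absurd h2 hC0

theorem exists_ne_zero_of_ne_zero {C : ℍ → ℂ} (hC0 : C ≠ 0) : ∃ τ, C τ ≠ 0 := by
  by_contra h
  apply hC0
  funext τ
  by_contra h'
  exact h ⟨τ, h'⟩

theorem mdiff_mul_ne_zero {F G : ℍ → ℂ} (hF : MDiff F) (hG : MDiff G) (hF0 : F ≠ 0)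
    (hG0 : G ≠ 0) : (fun τ => F τ * G τ) ≠ 0 := by
  intro h
  rcases (UpperHalfPlane.mul_eq_zero_iff hF hG).mp h with h | h
  · exact hF0 h
  · exact hG0 h

/-! ### The multiplier relation -/

/-- `ζ` is the multiplier under `γ` of the meromorphic function `a / g` on `ℍ`:
`(a/g)(γ τ) = ζ · (a/g)(τ)`, written without division. -/
def IsMultiplier (γ : SL(2, ℤ)) (a g : ℍ → ℂ) (ζ : ℂ) : Prop :=
  ∀ τ : ℍ, a (γ • τ) * g τ = ζ * (a τ * g (γ • τ))

theorem isMultiplier_one_iff {γ : SL(2, ℤ)} {a g : ℍ → ℂ} :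
    IsMultiplier γ a g 1 ↔ ∀ τ : ℍ, a (γ • τ) * g τ = a τ * g (γ • τ) := by
  simp [IsMultiplier]

theorem IsMultiplier.one (a g : ℍ → ℂ) : IsMultiplier 1 a g 1 := by
  intro τ
  simp

theorem isMultiplier_neg_iff {γ : SL(2, ℤ)} {a g : ℍ → ℂ} {ζ : ℂ} :
    IsMultiplier (-γ) a g ζ ↔ IsMultiplier γ a g ζ := by
  simp only [IsMultiplier, ModularGroup.SL_neg_smul]

/-- The multiplier is unique. -/
theorem IsMultiplier.unique {γ : SL(2, ℤ)} {a g : ℍ → ℂ} {ζ ζ' : ℂ} (ha : MDiff a) (hg : MDiff g)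
    (ha0 : a ≠ 0) (hg0 : g ≠ 0) (h : IsMultiplier γ a g ζ) (h' : IsMultiplier γ a g ζ') :
    ζ = ζ' := by
  have hgγ : (fun τ => g (γ • τ)) ≠ 0 := fun h0 => hg0 ((comp_SL_eq_zero_iff γ).mp h0)
  obtain ⟨τ, hτ⟩ := exists_ne_zero_of_ne_zero (mdiff_mul_ne_zero ha (mdiff_comp_SL hg γ) ha0 hgγ)
  have h1 := h τ
  rw [h' τ] at h1
  exact (mul_right_cancel₀ hτ h1).symm

/-- A multiplier of a nonzero function is nonzero. -/
theorem IsMultiplier.ne_zero {γ : SL(2, ℤ)} {a g : ℍ → ℂ} {ζ : ℂ} (ha : MDiff a) (hg : MDiff g)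
    (ha0 : a ≠ 0) (hg0 : g ≠ 0) (h : IsMultiplier γ a g ζ) : ζ ≠ 0 := by
  rintro rfl
  have haγ : (fun τ => a (γ • τ)) ≠ 0 := fun h0 => ha0 ((comp_SL_eq_zero_iff γ).mp h0)
  obtain ⟨τ, hτ⟩ := exists_ne_zero_of_ne_zero (mdiff_mul_ne_zero (mdiff_comp_SL ha γ) hg haγ hg0)
  apply hτ
  have := h τ
  simpa using this

/-- Cocycle rule: the multiplier is multiplicative in `γ`. -/
theorem IsMultiplier.mul {γ δ : SL(2, ℤ)} {a g : ℍ → ℂ} {ζ ζ' : ℂ} (ha : MDiff a) (hg : MDiff g)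
    (ha0 : a ≠ 0) (hg0 : g ≠ 0) (h : IsMultiplier γ a g ζ) (h' : IsMultiplier δ a g ζ') :
    IsMultiplier (γ * δ) a g (ζ * ζ') := by
  have haδ : (fun τ => a (δ • τ)) ≠ 0 := fun h0 => ha0 ((comp_SL_eq_zero_iff δ).mp h0)
  have hgδ : (fun τ => g (δ • τ)) ≠ 0 := fun h0 => hg0 ((comp_SL_eq_zero_iff δ).mp h0)
  have hC0 := mdiff_mul_ne_zero (mdiff_comp_SL ha δ) (mdiff_comp_SL hg δ) haδ hgδ
  have hC : MDiff (fun τ => a (δ • τ) * g (δ • τ)) := (mdiff_comp_SL ha δ).mul (mdiff_comp_SL hg δ)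
  have hF : MDiff (fun τ => a ((γ * δ) • τ) * g τ) := (mdiff_comp_SL ha (γ * δ)).mul hg
  have hG : MDiff (fun τ => ζ * ζ' * (a τ * g ((γ * δ) • τ))) :=
    mdifferentiable_const.mul (ha.mul (mdiff_comp_SL hg (γ * δ)))
  refine mdiff_mul_right_cancel hF hG hC hC0 fun τ => ?_
  have h1 := h (δ • τ)
  have h2 := h' τ
  rw [← mul_smul] at h1
  linear_combination (a (δ • τ) * g τ) * h1 + (ζ * a (δ • τ) * g ((γ * δ) • τ)) * h2

theorem IsMultiplier.inv {γ : SL(2, ℤ)} {a g : ℍ → ℂ} {ζ : ℂ} (hζ : ζ ≠ 0)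
    (h : IsMultiplier γ a g ζ) : IsMultiplier γ⁻¹ a g ζ⁻¹ := by
  intro τ
  have h1 := h (γ⁻¹ • τ)
  rw [smul_inv_smul] at h1
  rw [eq_comm, inv_mul_eq_iff_eq_mul₀ hζ]
  rw [h1]

/-- Multiplicativity in the function. -/
theorem IsMultiplier.mul_fun {γ : SL(2, ℤ)} {a g a' g' : ℍ → ℂ} {ζ ζ' : ℂ}
    (h : IsMultiplier γ a g ζ) (h' : IsMultiplier γ a' g' ζ') :
    IsMultiplier γ (fun τ => a τ * a' τ) (fun τ => g τ * g' τ) (ζ * ζ') := by
  intro τ
  have h1 := h τ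
  have h2 := h' τ
  linear_combination (a' (γ • τ) * g' τ) * h1 + (ζ * a τ * g (γ • τ)) * h2

theorem IsMultiplier.pow_fun {γ : SL(2, ℤ)} {a g : ℍ → ℂ} {ζ : ℂ}
    (h : IsMultiplier γ a g ζ) (n : ℕ) :
    IsMultiplier γ (fun τ => a τ ^ n) (fun τ => g τ ^ n) (ζ ^ n) := by
  intro τ
  have h1 := h τ
  calc a (γ • τ) ^ n * g τ ^ n = (a (γ • τ) * g τ) ^ n := by ring
    _ = (ζ * (a τ * g (γ • τ))) ^ n := by rw [h1]
    _ = ζ ^ n * (a τ ^ n * g (γ • τ) ^ n) := by ring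

/-- The multiplier of the inverse function `g / a`. -/
theorem IsMultiplier.inv_fun {γ : SL(2, ℤ)} {a g : ℍ → ℂ} {ζ : ℂ} (hζ : ζ ≠ 0)
    (h : IsMultiplier γ a g ζ) : IsMultiplier γ g a ζ⁻¹ := by
  intro τ
  have h1 := h τ
  rw [eq_comm, inv_mul_eq_iff_eq_mul₀ hζ]
  linear_combination h1

/-- The multiplier only depends on the meromorphic function `a / g`. -/
theorem IsMultiplier.congr_fun {γ : SL(2, ℤ)} {a g a' g' : ℍ → ℂ} {ζ : ℂ} (hg : MDiff g)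
    (ha' : MDiff a') (hg' : MDiff g') (hg0 : g ≠ 0)
    (hrel : ∀ τ, a τ * g' τ = a' τ * g τ) (h : IsMultiplier γ a g ζ) :
    IsMultiplier γ a' g' ζ := by
  have hgγ : (fun τ => g (γ • τ)) ≠ 0 := fun h0 => hg0 ((comp_SL_eq_zero_iff γ).mp h0)
  have hC0 := mdiff_mul_ne_zero (mdiff_comp_SL hg γ) hg hgγ hg0
  have hC : MDiff (fun τ => g (γ • τ) * g τ) := (mdiff_comp_SL hg γ).mul hg
  have hF : MDiff (fun τ => a' (γ • τ) * g' τ) := (mdiff_comp_SL ha' γ).mul hg'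
  have hG : MDiff (fun τ => ζ * (a' τ * g' (γ • τ))) :=
    mdifferentiable_const.mul (ha'.mul (mdiff_comp_SL hg' γ))
  refine mdiff_mul_right_cancel hF hG hC hC0 fun τ => ?_
  have h1 := h τ
  have h2 := hrel τ
  have h3 := hrel (γ • τ)
  linear_combination (g' (γ • τ) * g' τ) * h1 + (ζ * g (γ • τ) * g' (γ • τ)) * h2
    - (g' τ * g τ) * h3

/-- Existence of the multiplier: if `(a/g)^p` is `γ`-invariant then `a/g` is multiplied by a
`p`-th root of unity under `γ`. -/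
theorem exists_isMultiplier {p : ℕ} (hp : p ≠ 0) {γ : SL(2, ℤ)} {a g : ℍ → ℂ} (ha : MDiff a)
    (hg : MDiff g)
    (hpow : ∀ τ : ℍ, (a (γ • τ) * g τ) ^ p = (a τ * g (γ • τ)) ^ p) :
    ∃ ζ : ℂ, ζ ^ p = 1 ∧ IsMultiplier γ a g ζ :=
  exists_rootOfUnity_mul_of_pow_eq hp ((mdiff_comp_SL ha γ).mul hg)
    (ha.mul (mdiff_comp_SL hg γ)) hpow

/-! ### The multiplier at a fixed point -/

theorem isLead_const_mul {f : ℂ → ℂ} {z₀ : ℂ} {n : ℕ} {c : ℂ} (h : IsLead f z₀ n c) {ζ : ℂ}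
    (hζ : ζ ≠ 0) : IsLead (fun z => ζ * f z) z₀ n (ζ * c) := by
  obtain ⟨hc, g, hg, hgc, hfg⟩ := h
  refine ⟨mul_ne_zero hζ hc, fun z => ζ * g z, analyticAt_const.mul hg,
    by show ζ * g z₀ = ζ * c; rw [hgc], ?_⟩
  filter_upwards [hfg] with z hz
  rw [hz]; ring

/-- **Multiplier at a fixed point.**  If `γ τ₀ = τ₀` and `a / g` has multiplier `ζ` under `γ`,
then `ζ · ν ^ ord_τ₀ g = ν ^ ord_τ₀ a`, where `ν = 1 / denom γ τ₀ ^ 2` is the derivative of `γ`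
at `τ₀`. -/
theorem IsMultiplier.mul_pow_eq_of_fixed {γ : SL(2, ℤ)} {a g : ℍ → ℂ} {ζ : ℂ} {τ₀ : ℍ}
    (ha : MDiff a) (hg : MDiff g) (ha0 : a ≠ 0) (hg0 : g ≠ 0) (hfix : γ • τ₀ = τ₀)
    (h : IsMultiplier γ a g ζ) :
    ζ * (1 / denom γ τ₀ ^ 2) ^ (ordAt τ₀ g).toNat = (1 / denom γ τ₀ ^ 2) ^ (ordAt τ₀ a).toNat := by
  have hζ := h.ne_zero ha hg ha0 hg0
  obtain ⟨ca, hca⟩ := exists_isLead (ordAt_analyticAt ha τ₀) (ordAt_ne_top ha ha0 τ₀)
  obtain ⟨cg, hcg⟩ := exists_isLead (ordAt_analyticAt hg τ₀) (ordAt_ne_top hg hg0 τ₀)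
  have hμfix : mobC γ (τ₀ : ℂ) = (τ₀ : ℂ) := by rw [mobC_coe, hfix]
  have hν := hasDerivAt_mobC γ τ₀
  have hν0 : (1 / denom γ τ₀ ^ 2 : ℂ) ≠ 0 := one_div_ne_zero (pow_ne_zero _ (denom_ne_zero _ _))
  set ν : ℂ := 1 / denom γ τ₀ ^ 2 with hνdef
  set na := (analyticOrderAt (a ∘ ofComplex) (τ₀ : ℂ)).toNat with hna
  set ng := (analyticOrderAt (g ∘ ofComplex) (τ₀ : ℂ)).toNat with hng
  have key : ∀ f : ℍ → ℂ, ∀ z : ℂ, (f ∘ ofComplex) (mobC γ z) = f (γ • ofComplex z) := by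
    intro f z
    simp only [Function.comp_apply, mobC, ofComplex_apply]
  have heq : ∀ᶠ z in 𝓝 (τ₀ : ℂ),
      (a ∘ ofComplex) (mobC γ z) * (g ∘ ofComplex) z
        = ζ * ((a ∘ ofComplex) z * (g ∘ ofComplex) (mobC γ z)) := by
    refine Filter.Eventually.of_forall fun z => ?_
    rw [key a z, key g z]
    exact h (ofComplex z)
  have h1 : IsLead (fun z => (a ∘ ofComplex) (mobC γ z) * (g ∘ ofComplex) z) (τ₀ : ℂ) (na + ng)
      (ν ^ na * ca * cg) := (hca.comp (analyticAt_mobC γ τ₀) hμfix hν hν0).mul hcg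
  have h2 : IsLead (fun z => ζ * ((a ∘ ofComplex) z * (g ∘ ofComplex) (mobC γ z))) (τ₀ : ℂ)
      (na + ng) (ζ * (ca * (ν ^ ng * cg))) :=
    isLead_const_mul (hca.mul (hcg.comp (analyticAt_mobC γ τ₀) hμfix hν hν0)) hζ
  have h3 := ((h1.congr heq).unique h2).2
  have hca0 := hca.1
  have hcg0 := hcg.1
  have h4 : (ζ * ν ^ ng) * (ca * cg) = ν ^ na * (ca * cg) := by linear_combination -h3
  exact mul_right_cancel₀ (mul_ne_zero hca0 hcg0) h4

/-- **Triviality on stabilisers.**  If `γ τ₀ = τ₀`, the derivative `ν` of `γ` at `τ₀` satisfies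
`ν ^ e = 1`, and `ord_τ₀ a - ord_τ₀ g` is divisible by `e`, then the multiplier of `a / g` under
`γ` is `1`. -/
theorem IsMultiplier.eq_one_of_fixed {γ : SL(2, ℤ)} {a g : ℍ → ℂ} {ζ : ℂ} {τ₀ : ℍ}
    (ha : MDiff a) (hg : MDiff g) (ha0 : a ≠ 0) (hg0 : g ≠ 0) (hfix : γ • τ₀ = τ₀)
    (h : IsMultiplier γ a g ζ) {e : ℕ} (hν : (denom γ τ₀ ^ 2) ^ e = 1)
    (hdvd : (e : ℤ) ∣ ((ordAt τ₀ a).toNat : ℤ) - ((ordAt τ₀ g).toNat : ℤ)) : ζ = 1 := by
  have h1 := h.mul_pow_eq_of_fixed ha hg ha0 hg0 hfix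
  have hd0 : (denom γ τ₀ ^ 2 : ℂ) ≠ 0 := pow_ne_zero _ (denom_ne_zero _ _)
  set ν : ℂ := 1 / denom γ τ₀ ^ 2 with hνdef
  have hν0 : ν ≠ 0 := one_div_ne_zero hd0
  have hνe : ν ^ e = 1 := by
    rw [hνdef, one_div, inv_pow, hν, inv_one]
  obtain ⟨k, hk⟩ := hdvd
  have h2 : ζ = ν ^ (((ordAt τ₀ a).toNat : ℤ) - ((ordAt τ₀ g).toNat : ℤ)) := by
    rw [zpow_sub₀ hν0, zpow_natCast, zpow_natCast, eq_div_iff (pow_ne_zero _ hν0)]
    exact h1
  rw [h2, hk, zpow_mul, zpow_natCast, hνe, one_zpow]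

/-- Conjugation: the multiplier of `(a/g) ∘ σ` under `σ⁻¹ γ σ` is the multiplier of `a/g`
under `γ`. -/
theorem IsMultiplier.conj {γ : SL(2, ℤ)} {a g : ℍ → ℂ} {ζ : ℂ} (h : IsMultiplier γ a g ζ)
    (σ : SL(2, ℤ)) :
    IsMultiplier (σ⁻¹ * γ * σ) (fun τ => a (σ • τ)) (fun τ => g (σ • τ)) ζ := by
  intro τ
  have h1 := h (σ • τ)
  have e : σ • ((σ⁻¹ * γ * σ) • τ) = γ • (σ • τ) := by
    rw [← mul_smul, ← mul_smul, ← mul_assoc, ← mul_assoc, mul_inv_cancel, one_mul]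
  show a (σ • ((σ⁻¹ * γ * σ) • τ)) * g (σ • τ) = ζ * (a (σ • τ) * g (σ • ((σ⁻¹ * γ * σ) • τ)))
  rw [e]
  exact h1

/-- Scaling `a` by a nonzero constant does not change the multiplier. -/
theorem IsMultiplier.const_mul {γ : SL(2, ℤ)} {a g : ℍ → ℂ} {ζ : ℂ} (h : IsMultiplier γ a g ζ)
    (c : ℂ) : IsMultiplier γ (fun τ => c * a τ) g ζ := by
  intro τ
  have h1 := h τ
  show c * a (γ • τ) * g τ = ζ * (c * a τ * g (γ • τ))
  linear_combination c * h1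

/-! ### The multiplier character of a `p`-th root of a `Γ`-invariant function -/

/-- A meromorphic function `a / g` on `ℍ` (`a`, `g` holomorphic and nonzero) whose `p`-th power
is invariant under `Γ`. -/
structure RootData (Γ : Subgroup SL(2, ℤ)) (p : ℕ) where
  /-- numerator -/
  a : ℍ → ℂ
  /-- denominator -/
  g : ℍ → ℂ
  p_ne_zero : p ≠ 0
  mdiff_a : MDiff a
  mdiff_g : MDiff g
  a_ne_zero : a ≠ 0
  g_ne_zero : g ≠ 0
  pow_inv : ∀ γ ∈ Γ, ∀ τ : ℍ, (a (γ • τ) * g τ) ^ p = (a τ * g (γ • τ)) ^ p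

namespace RootData

variable {Γ : Subgroup SL(2, ℤ)} {p : ℕ}

theorem exists_mult (D : RootData Γ p) (γ : Γ) :
    ∃ ζ : ℂ, ζ ^ p = 1 ∧ IsMultiplier (γ : SL(2, ℤ)) D.a D.g ζ :=
  exists_isMultiplier D.p_ne_zero D.mdiff_a D.mdiff_g (D.pow_inv γ γ.2)

/-- The value of the multiplier character, as a complex number. -/
def multVal (D : RootData Γ p) (γ : Γ) : ℂ := (D.exists_mult γ).choose

theorem multVal_pow (D : RootData Γ p) (γ : Γ) : D.multVal γ ^ p = 1 :=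
  (D.exists_mult γ).choose_spec.1

theorem multVal_spec (D : RootData Γ p) (γ : Γ) :
    IsMultiplier (γ : SL(2, ℤ)) D.a D.g (D.multVal γ) :=
  (D.exists_mult γ).choose_spec.2

theorem multVal_eq (D : RootData Γ p) (γ : Γ) {ζ : ℂ}
    (h : IsMultiplier (γ : SL(2, ℤ)) D.a D.g ζ) : D.multVal γ = ζ :=
  IsMultiplier.unique D.mdiff_a D.mdiff_g D.a_ne_zero D.g_ne_zero (D.multVal_spec γ) h

theorem multVal_ne_zero (D : RootData Γ p) (γ : Γ) : D.multVal γ ≠ 0 :=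
  (D.multVal_spec γ).ne_zero D.mdiff_a D.mdiff_g D.a_ne_zero D.g_ne_zero

/-- **The multiplier character** `χ : Γ →* ℂˣ` of `a / g`:
`(a/g)(γ τ) = χ(γ) · (a/g)(τ)`. -/
def mult (D : RootData Γ p) : Γ →* ℂˣ where
  toFun γ := Units.mk0 (D.multVal γ) (D.multVal_ne_zero γ)
  map_one' := by
    apply Units.ext
    show D.multVal 1 = 1
    exact D.multVal_eq 1 (IsMultiplier.one _ _)
  map_mul' γ δ := by
    apply Units.ext
    show D.multVal (γ * δ) = D.multVal γ * D.multVal δ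
    exact D.multVal_eq (γ * δ)
      (IsMultiplier.mul D.mdiff_a D.mdiff_g D.a_ne_zero D.g_ne_zero (D.multVal_spec γ)
        (D.multVal_spec δ))

@[simp] theorem coe_mult (D : RootData Γ p) (γ : Γ) : ((D.mult γ : ℂˣ) : ℂ) = D.multVal γ := rfl

theorem mult_spec (D : RootData Γ p) (γ : Γ) (τ : ℍ) :
    D.a ((γ : SL(2, ℤ)) • τ) * D.g τ = (D.mult γ : ℂ) * (D.a τ * D.g ((γ : SL(2, ℤ)) • τ)) :=
  D.multVal_spec γ τ

theorem mult_pow (D : RootData Γ p) (γ : Γ) : D.mult γ ^ p = 1 := by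
  apply Units.ext
  simpa using D.multVal_pow γ

theorem mult_mem_rootsOfUnity (D : RootData Γ p) (γ : Γ) : D.mult γ ∈ rootsOfUnity p ℂ := by
  rw [mem_rootsOfUnity]
  exact D.mult_pow γ

/-- The multiplier character, with values in `μ_p`. -/
def multRoots (D : RootData Γ p) : Γ →* rootsOfUnity p ℂ :=
  D.mult.codRestrict _ D.mult_mem_rootsOfUnity

/-- The multiplier character in additive form (the shape of `IsParabolicHom`). -/
def multAdd (D : RootData Γ p) : Additive Γ →+ Additive ℂˣ := MonoidHom.toAdditive D.mult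

@[simp] theorem multAdd_apply (D : RootData Γ p) (γ : Γ) :
    D.multAdd (Additive.ofMul γ) = Additive.ofMul (D.mult γ) := rfl

theorem mult_eq_iff (D : RootData Γ p) (γ : Γ) (ζ : ℂˣ) :
    D.mult γ = ζ ↔ IsMultiplier (γ : SL(2, ℤ)) D.a D.g ζ := by
  constructor
  · rintro rfl
    exact D.multVal_spec γ
  · intro h
    apply Units.ext
    exact D.multVal_eq γ h

/-- `χ(γ) = 1` iff `a / g` is `γ`-invariant. -/
theorem mult_eq_one_iff (D : RootData Γ p) (γ : Γ) :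
    D.mult γ = 1 ↔ ∀ τ : ℍ, D.a ((γ : SL(2, ℤ)) • τ) * D.g τ = D.a τ * D.g ((γ : SL(2, ℤ)) • τ) := by
  rw [mult_eq_iff, Units.val_one, isMultiplier_one_iff]

/-- `χ = 1` iff `a / g` is `Γ`-invariant. -/
theorem mult_eq_one_iff_invariant (D : RootData Γ p) :
    D.mult = 1 ↔ ∀ γ ∈ Γ, ∀ τ : ℍ, D.a (γ • τ) * D.g τ = D.a τ * D.g (γ • τ) := by
  constructor
  · intro h γ hγ τ
    have := (D.mult_eq_one_iff ⟨γ, hγ⟩).mp (by rw [h]; rfl)
    exact this τ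
  · intro h
    ext1 γ
    exact (D.mult_eq_one_iff γ).mpr (h γ γ.2)

/-- `-1` acts trivially: `χ(γ') = χ(γ)` if `γ' = -γ`. -/
theorem mult_eq_of_eq_neg (D : RootData Γ p) {γ γ' : Γ} (h : (γ' : SL(2, ℤ)) = -γ) :
    D.mult γ' = D.mult γ := by
  rw [mult_eq_iff, h, isMultiplier_neg_iff]
  exact D.multVal_spec γ

/-- The multiplier character depends only on the `p`-th power `(a/g)^p`. -/
theorem mult_eq_of_pow_eq (D D' : RootData Γ p)
    (h : ∀ τ : ℍ, (D.a τ * D'.g τ) ^ p = (D'.a τ * D.g τ) ^ p) : D.mult = D'.mult := by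
  obtain ⟨ζ, -, hζ⟩ := exists_rootOfUnity_mul_of_pow_eq D.p_ne_zero (D.mdiff_a.mul D'.mdiff_g)
    (D'.mdiff_a.mul D.mdiff_g) h
  ext1 γ
  rw [mult_eq_iff]
  have h1 := (D'.multVal_spec γ).const_mul ζ
  refine IsMultiplier.congr_fun D'.mdiff_g D.mdiff_a D.mdiff_g D'.g_ne_zero (fun τ => ?_) h1
  have := hζ τ
  simp only [Pi.mul_apply] at this
  show ζ * D'.a τ * D.g τ = D.a τ * D'.g τ
  linear_combination -this

/-- The product of two root data. -/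
def mul (D D' : RootData Γ p) : RootData Γ p where
  a := fun τ => D.a τ * D'.a τ
  g := fun τ => D.g τ * D'.g τ
  p_ne_zero := D.p_ne_zero
  mdiff_a := D.mdiff_a.mul D'.mdiff_a
  mdiff_g := D.mdiff_g.mul D'.mdiff_g
  a_ne_zero := mdiff_mul_ne_zero D.mdiff_a D'.mdiff_a D.a_ne_zero D'.a_ne_zero
  g_ne_zero := mdiff_mul_ne_zero D.mdiff_g D'.mdiff_g D.g_ne_zero D'.g_ne_zero
  pow_inv γ hγ τ := by
    have h1 := D.pow_inv γ hγ τ
    have h2 := D'.pow_inv γ hγ τ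
    calc (D.a (γ • τ) * D'.a (γ • τ) * (D.g τ * D'.g τ)) ^ p
        = (D.a (γ • τ) * D.g τ) ^ p * (D'.a (γ • τ) * D'.g τ) ^ p := by ring
      _ = (D.a τ * D.g (γ • τ)) ^ p * (D'.a τ * D'.g (γ • τ)) ^ p := by rw [h1, h2]
      _ = (D.a τ * D'.a τ * (D.g (γ • τ) * D'.g (γ • τ))) ^ p := by ring

theorem mult_mul (D D' : RootData Γ p) : (D.mul D').mult = D.mult * D'.mult := by
  ext1 γ
  rw [mult_eq_iff]
  have := (D.multVal_spec γ).mul_fun (D'.multVal_spec γ)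
  simpa [mul] using this

/-- The inverse `g / a` of a root datum. -/
def inv (D : RootData Γ p) : RootData Γ p where
  a := D.g
  g := D.a
  p_ne_zero := D.p_ne_zero
  mdiff_a := D.mdiff_g
  mdiff_g := D.mdiff_a
  a_ne_zero := D.g_ne_zero
  g_ne_zero := D.a_ne_zero
  pow_inv γ hγ τ := by
    have h1 := D.pow_inv γ hγ τ
    calc (D.g (γ • τ) * D.a τ) ^ p = (D.a τ * D.g (γ • τ)) ^ p := by ring
      _ = (D.a (γ • τ) * D.g τ) ^ p := h1.symm
      _ = (D.g τ * D.a (γ • τ)) ^ p := by ring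

theorem mult_inv (D : RootData Γ p) : D.inv.mult = D.mult⁻¹ := by
  ext1 γ
  rw [mult_eq_iff]
  have := (D.multVal_spec γ).inv_fun (D.multVal_ne_zero γ)
  simpa [inv] using this

/-- **Elliptic elements.**  If `γ ∈ Γ` fixes `τ₀`, its derivative `ν` at `τ₀` satisfies
`ν ^ e = 1` and `e ∣ ord_τ₀ (a/g)`, then `χ(γ) = 1`. -/
theorem mult_eq_one_of_fixed (D : RootData Γ p) (γ : Γ) {τ₀ : ℍ}
    (hfix : (γ : SL(2, ℤ)) • τ₀ = τ₀) {e : ℕ} (hν : (denom (γ : SL(2, ℤ)) τ₀ ^ 2) ^ e = 1)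
    (hdvd : (e : ℤ) ∣ ((ordAt τ₀ D.a).toNat : ℤ) - ((ordAt τ₀ D.g).toNat : ℤ)) :
    D.mult γ = 1 := by
  apply Units.ext
  exact (D.multVal_spec γ).eq_one_of_fixed D.mdiff_a D.mdiff_g D.a_ne_zero D.g_ne_zero hfix hν hdvd

/-- The multiplier at a fixed point: `χ(γ) · ν ^ ord g = ν ^ ord a`. -/
theorem mult_mul_pow_eq_of_fixed (D : RootData Γ p) (γ : Γ) {τ₀ : ℍ}
    (hfix : (γ : SL(2, ℤ)) • τ₀ = τ₀) :
    (D.mult γ : ℂ) * (1 / denom (γ : SL(2, ℤ)) τ₀ ^ 2) ^ (ordAt τ₀ D.g).toNat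
      = (1 / denom (γ : SL(2, ℤ)) τ₀ ^ 2) ^ (ordAt τ₀ D.a).toNat :=
  (D.multVal_spec γ).mul_pow_eq_of_fixed D.mdiff_a D.mdiff_g D.a_ne_zero D.g_ne_zero hfix

end RootData

end Fermat.Agent.ES

end
end ZBS24_006_3

/-! ### bundled: `Fermat.Agent.ES.MultiplierHecke` -/
section ZBS24_006_4

/-!
# ESpkg-G1 piece A4, part 3: the multiplier of `∏_A w ∘ A` is `T_n χ`

For a representative `A = [[a, b], [0, d]] ∈ HeckeRep n`, `A.act τ = (a τ + b) / d`.
`heckeProd n f τ = ∏_A f (A.act τ)` (for `n = ℓ` prime this is `f(ℓτ) · ∏_{b<ℓ} f((τ+b)/ℓ)`, the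
function whose `q`-expansion is the norm `N(f(q^ℓ))`).

* `RootData.hecke hnM D` : the root datum `(∏_A a ∘ A) / (∏_A g ∘ A)`;
* `RootData.hecke_mult` : its multiplier is `γ ↦ ∏_A χ (coc A γ)`;
* `RootData.hecke_multAdd` : `(D.hecke hnM).multAdd = heckeHom hnM D.multAdd`.
-/

set_option autoImplicit false

noncomputable section

open Matrix CongruenceSubgroup UpperHalfPlane
open scoped MatrixGroups Manifold

namespace Fermat.Agent.ES

variable {n M : ℕ}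

/-- A representative as an element of `GL₂(ℝ)`. -/
def HeckeRep.toGL [NeZero n] (A : HeckeRep n) : GL (Fin 2) ℝ :=
  Matrix.GeneralLinearGroup.mkOfDetNeZero (A.mat.map (Int.cast : ℤ → ℝ)) (by
    rw [← Int.cast_det, A.det_mat]
    exact_mod_cast NeZero.ne n)

theorem HeckeRep.toGL_val [NeZero n] (A : HeckeRep n) :
    (A.toGL : Matrix (Fin 2) (Fin 2) ℝ) = A.mat.map (Int.cast : ℤ → ℝ) := rfl

theorem HeckeRep.toGL_det [NeZero n] (A : HeckeRep n) : A.toGL.det.val = (n : ℝ) := by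
  show (A.toGL : Matrix (Fin 2) (Fin 2) ℝ).det = n
  rw [HeckeRep.toGL_val, ← Int.cast_det, A.det_mat]
  simp

theorem HeckeRep.toGL_det_pos [NeZero n] (A : HeckeRep n) : 0 < A.toGL.det.val := by
  rw [A.toGL_det]
  exact_mod_cast Nat.pos_of_ne_zero (NeZero.ne n)

/-- The action `τ ↦ (a τ + b) / d` of a representative on `ℍ`. -/
def HeckeRep.act [NeZero n] (A : HeckeRep n) (τ : ℍ) : ℍ := A.toGL • τ

theorem HeckeRep.mdiff_act [NeZero n] (A : HeckeRep n) : MDiff (fun τ : ℍ => A.act τ) :=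
  UpperHalfPlane.mdifferentiable_smul A.toGL_det_pos

theorem HeckeRep.coe_act [NeZero n] (A : HeckeRep n) (τ : ℍ) :
    ((A.act τ : ℍ) : ℂ) = ((A.a : ℂ) * τ + A.b) / A.d := by
  rw [HeckeRep.act, UpperHalfPlane.coe_smul_of_det_pos A.toGL_det_pos]
  simp [UpperHalfPlane.num, UpperHalfPlane.denom, HeckeRep.toGL_val]

/-- `A γ = γ' A'` as an identity in `GL₂(ℝ)`. -/
theorem HeckeRep.toGL_mul [NeZero n] (hnM : Nat.Coprime n M) (A : HeckeRep n) (γ : Gamma0 M) :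
    A.toGL * Matrix.SpecialLinearGroup.mapGL ℝ (γ : SL(2, ℤ))
      = Matrix.SpecialLinearGroup.mapGL ℝ ((HeckeRep.coc hnM A γ : Gamma0 M) : SL(2, ℤ))
        * (HeckeRep.next hnM A γ).toGL := by
  apply Matrix.GeneralLinearGroup.ext
  intro i j
  have h := congrArg (fun X : Matrix (Fin 2) (Fin 2) ℤ => X.map (Int.cast : ℤ → ℝ))
    (HeckeRep.mat_mul hnM A γ)
  simp only [Matrix.map_mul_intCast] at h
  have h' := congrFun (congrFun h i) j
  simpa [HeckeRep.toGL_val, Matrix.SpecialLinearGroup.mapGL] using h'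

/-- `A (γ τ) = γ' (A' τ)`. -/
theorem HeckeRep.act_smul [NeZero n] (hnM : Nat.Coprime n M) (A : HeckeRep n) (γ : Gamma0 M)
    (τ : ℍ) :
    A.act ((γ : SL(2, ℤ)) • τ)
      = ((HeckeRep.coc hnM A γ : Gamma0 M) : SL(2, ℤ)) • (HeckeRep.next hnM A γ).act τ := by
  show A.toGL • (Matrix.SpecialLinearGroup.mapGL ℝ (γ : SL(2, ℤ)) • τ)
    = Matrix.SpecialLinearGroup.mapGL ℝ ((HeckeRep.coc hnM A γ : Gamma0 M) : SL(2, ℤ))
      • ((HeckeRep.next hnM A γ).toGL • τ)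
  rw [← mul_smul, ← mul_smul, HeckeRep.toGL_mul hnM A γ]

/-! ### The product over the representatives -/

/-- `τ ↦ ∏_A f (A τ)`. -/
def heckeProd (n : ℕ) [NeZero n] (f : ℍ → ℂ) : ℍ → ℂ :=
  fun τ => ∏ A : HeckeRep n, f (A.act τ)

theorem heckeProd_apply (n : ℕ) [NeZero n] (f : ℍ → ℂ) (τ : ℍ) :
    heckeProd n f τ = ∏ A : HeckeRep n, f (A.act τ) := rfl

theorem heckeProd_mul (n : ℕ) [NeZero n] (f g : ℍ → ℂ) :
    heckeProd n (fun τ => f τ * g τ) = fun τ => heckeProd n f τ * heckeProd n g τ := by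
  funext τ
  simp only [heckeProd_apply, Finset.prod_mul_distrib]

theorem heckeProd_pow (n : ℕ) [NeZero n] (f : ℍ → ℂ) (k : ℕ) :
    heckeProd n (fun τ => f τ ^ k) = fun τ => heckeProd n f τ ^ k := by
  funext τ
  simp only [heckeProd_apply, Finset.prod_pow]

theorem mdiff_heckeProd (n : ℕ) [NeZero n] {f : ℍ → ℂ} (hf : MDiff f) : MDiff (heckeProd n f) := by
  have h : ∀ s : Finset (HeckeRep n), MDiff (fun τ : ℍ => ∏ A ∈ s, f (A.act τ)) := by
    intro s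
    classical
    induction s using Finset.induction_on with
    | empty => simpa using (mdifferentiable_const : MDiff (fun _ : ℍ => (1 : ℂ)))
    | insert A s hA ih =>
      simp only [Finset.prod_insert hA]
      exact (hf.comp A.mdiff_act).mul ih
  exact h Finset.univ

theorem HeckeRep.comp_act_ne_zero [NeZero n] (A : HeckeRep n) {f : ℍ → ℂ} (hf0 : f ≠ 0) :
    (fun τ : ℍ => f (A.act τ)) ≠ 0 := by
  intro h
  apply hf0
  funext τ
  have := congrFun h (A.toGL⁻¹ • τ)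
  simpa [HeckeRep.act, smul_smul] using this

theorem heckeProd_ne_zero (n : ℕ) [NeZero n] {f : ℍ → ℂ} (hf : MDiff f) (hf0 : f ≠ 0) :
    heckeProd n f ≠ 0 := by
  have h : ∀ s : Finset (HeckeRep n), (fun τ : ℍ => ∏ A ∈ s, f (A.act τ)) ≠ 0 ∧
      MDiff (fun τ : ℍ => ∏ A ∈ s, f (A.act τ)) := by
    intro s
    classical
    induction s using Finset.induction_on with
    | empty =>
      refine ⟨?_, by simpa using (mdifferentiable_const : MDiff (fun _ : ℍ => (1 : ℂ)))⟩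
      intro h
      have := congrFun h UpperHalfPlane.I
      simp at this
    | insert A s hA ih =>
      simp only [Finset.prod_insert hA]
      exact ⟨mdiff_mul_ne_zero (hf.comp A.mdiff_act) ih.2 (A.comp_act_ne_zero hf0) ih.1,
        (hf.comp A.mdiff_act).mul ih.2⟩
  exact (h Finset.univ).1

/-! ### The multiplier of the product -/

/-- **Multiplier of `∏_A w ∘ A`.**  If `χ` is the multiplier character of `a / g` on `Γ₀(M)`,
then `∏_A (a/g) ∘ A` has multiplier `γ ↦ ∏_A χ (coc A γ)`. -/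
theorem isMultiplier_heckeProd [NeZero n] (hnM : Nat.Coprime n M) {a g : ℍ → ℂ}
    (χ : Gamma0 M → ℂ) (hχ : ∀ γ : Gamma0 M, IsMultiplier (γ : SL(2, ℤ)) a g (χ γ))
    (γ : Gamma0 M) :
    IsMultiplier (γ : SL(2, ℤ)) (heckeProd n a) (heckeProd n g)
      (∏ A : HeckeRep n, χ (HeckeRep.coc hnM A γ)) := by
  intro τ
  simp only [heckeProd_apply]
  have e1 : ∀ f : ℍ → ℂ, ∏ A : HeckeRep n, f (A.act τ)
      = ∏ A : HeckeRep n, f ((HeckeRep.next hnM A γ).act τ) := by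
    intro f
    exact (Equiv.prod_comp (HeckeRep.perm hnM γ) (fun A => f (A.act τ))).symm
  have e2 : ∀ f : ℍ → ℂ, ∏ A : HeckeRep n, f (A.act ((γ : SL(2, ℤ)) • τ))
      = ∏ A : HeckeRep n,
          f (((HeckeRep.coc hnM A γ : Gamma0 M) : SL(2, ℤ)) • (HeckeRep.next hnM A γ).act τ) := by
    intro f
    refine Finset.prod_congr rfl fun A _ => ?_
    rw [HeckeRep.act_smul hnM A γ τ]
  rw [e2 a, e2 g, e1 g, e1 a, ← Finset.prod_mul_distrib, ← Finset.prod_mul_distrib,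
    ← Finset.prod_mul_distrib]
  refine Finset.prod_congr rfl fun A _ => ?_
  exact hχ (HeckeRep.coc hnM A γ) ((HeckeRep.next hnM A γ).act τ)

namespace RootData

variable {p : ℕ}

/-- The Hecke transform `(∏_A a ∘ A) / (∏_A g ∘ A)` of a root datum on `Γ₀(M)`. -/
def hecke [NeZero n] (hnM : Nat.Coprime n M) (D : RootData (Gamma0 M) p) :
    RootData (Gamma0 M) p where
  a := heckeProd n D.a
  g := heckeProd n D.g
  p_ne_zero := D.p_ne_zero
  mdiff_a := mdiff_heckeProd n D.mdiff_a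
  mdiff_g := mdiff_heckeProd n D.mdiff_g
  a_ne_zero := heckeProd_ne_zero n D.mdiff_a D.a_ne_zero
  g_ne_zero := heckeProd_ne_zero n D.mdiff_g D.g_ne_zero
  pow_inv γ hγ τ := by
    have h := isMultiplier_heckeProd hnM (fun δ : Gamma0 M => D.multVal δ)
      (fun δ => D.multVal_spec δ) ⟨γ, hγ⟩ τ
    have h1 : (∏ A : HeckeRep n, D.multVal (HeckeRep.coc hnM A ⟨γ, hγ⟩)) ^ p = 1 := by
      rw [← Finset.prod_pow]
      exact Finset.prod_eq_one fun A _ => D.multVal_pow _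
    have h2 : heckeProd n D.a (γ • τ) * heckeProd n D.g τ
        = (∏ A : HeckeRep n, D.multVal (HeckeRep.coc hnM A ⟨γ, hγ⟩))
          * (heckeProd n D.a τ * heckeProd n D.g (γ • τ)) := h
    rw [h2, mul_pow, h1, one_mul]

@[simp] theorem hecke_a [NeZero n] (hnM : Nat.Coprime n M) (D : RootData (Gamma0 M) p) :
    (D.hecke hnM).a = heckeProd n D.a := rfl

@[simp] theorem hecke_g [NeZero n] (hnM : Nat.Coprime n M) (D : RootData (Gamma0 M) p) :
    (D.hecke hnM).g = heckeProd n D.g := rfl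

/-- **The multiplier of the Hecke transform.** -/
theorem hecke_mult [NeZero n] (hnM : Nat.Coprime n M) (D : RootData (Gamma0 M) p)
    (γ : Gamma0 M) :
    (D.hecke hnM).mult γ = ∏ A : HeckeRep n, D.mult (HeckeRep.coc hnM A γ) := by
  rw [mult_eq_iff]
  have h := isMultiplier_heckeProd hnM (fun δ : Gamma0 M => D.multVal δ)
    (fun δ => D.multVal_spec δ) γ
  have e : ((∏ A : HeckeRep n, D.mult (HeckeRep.coc hnM A γ) : ℂˣ) : ℂ)
      = ∏ A : HeckeRep n, D.multVal (HeckeRep.coc hnM A γ) := by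
    rw [Units.coe_prod]
    rfl
  rw [e]
  exact h

/-- **Hecke equivariance of the multiplier map**: the multiplier character of the Hecke transform
is the group-theoretic Hecke operator applied to the multiplier character. -/
theorem hecke_multAdd [NeZero n] (hnM : Nat.Coprime n M) (D : RootData (Gamma0 M) p) :
    (D.hecke hnM).multAdd = heckeHom hnM D.multAdd := by
  refine DFunLike.ext _ _ fun γ => ?_
  obtain ⟨γ, rfl⟩ := Additive.ofMul.surjective γ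
  rw [multAdd_apply, heckeHom_apply, hecke_mult]
  simp only [multAdd_apply]
  rw [ofMul_prod]

end RootData

end Fermat.Agent.ES

end
end ZBS24_006_4
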