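/- GENERATED FILE (helper35, build-time optimisation, NOTES/ZB.md): verbatim concatenation of the modules
   Fermat.Agent.S24.JDef
   Fermat.Agent.S24.QExpJ
   Fermat.Agent.S24.Bridge
   Fermat.Agent.S24.LevelOneA
   Fermat.Agent.S24.KExp
   Fermat.Agent.S24.Fixed
   Fermat.Agent.S24.CuspBan
   Fermat.Agent.S24.PlaceCusp
   Fermat.Agent.S24.JOrder
   Fermat.Agent.S24.LocFinite
   Fermat.Agent.S24.RealizationExists
   Fermat.Agent.S28.NormPoly
   Fermat.Agent.ES.RC.PlacePlan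
   Fermat.Agent.ES.RC.PlacePt
   Fermat.Agent.ES.RootModFun
   Fermat.Agent.ES.RC.CuspVal
   Fermat.Agent.ES.RC.PlaceCusp
   Fermat.Agent.ES.G2.SwapAnalytic
   Fermat.Agent.ES.G2.Swap
   Fermat.Agent.ES.RC.PlaceAllAlg
   Fermat.Agent.ES.RC.PlaceAllConj
   Fermat.Agent.S20.LevelOneSimple
   Do not edit; do not import together with these modules. -/
import Mathlib
import Fermat.Agent.ZB.S24_002
import Fermat.Agent.ZB.S24_001
import Fermat.Agent.ZB.S22_001
import Fermat.Agent.ZB.S22_002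
import Fermat.Agent.ZB.S24_004
import Fermat.Agent.ZB.S24_005
import Fermat.Agent.ZB.S24_006
import Fermat.Agent.ZB.S23_001
import Fermat.Prelude.Def_ModularCurve_HeckeOperator
import Fermat.Prelude.Def_ModularCurve_ArithmeticGalois
import Fermat.Prelude.Thm_ModularCurve_coeffMap_qExpand

/-! ### bundled: `Fermat.Agent.S24.JDef` -/
section ZBS24_003_0

/-!
# S24 piece P4 (part 1): the analytic `j`-function `J = E₄³ / Δ` on the upper half plane

* `Fermat.Agent.S24.J : ℍ → ℂ`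
* `J_mdifferentiable`, `J_differentiableOn` : holomorphy
* `J_smul` : invariance under `SL(2, ℤ)`
-/

set_option autoImplicit false

noncomputable section

open UpperHalfPlane ModularForm ModularFormClass MatrixGroups EisensteinSeries
open scoped Manifold

namespace Fermat.Agent.S24

/-- The analytic `j`-function `E₄³ / Δ` (so `J = q⁻¹ + 744 + …`, `J(i) = 1728`, `J(ρ) = 0`). -/
def J (τ : ℍ) : ℂ := E₄ τ ^ 3 / ModularForm.discriminant τ

lemma J_def (τ : ℍ) : J τ = E₄ τ ^ 3 / ModularForm.discriminant τ := rfl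

lemma J_mul_discriminant (τ : ℍ) : J τ * ModularForm.discriminant τ = E₄ τ ^ 3 := by
  rw [J_def, div_mul_cancel₀ _ (discriminant_ne_zero τ)]

lemma J_eq_iff (τ : ℍ) (c : ℂ) : J τ = c ↔ E₄ τ ^ 3 = c * ModularForm.discriminant τ := by
  rw [J_def, div_eq_iff (discriminant_ne_zero τ)]

lemma J_eq_zero_iff (τ : ℍ) : J τ = 0 ↔ E₄ τ = 0 := by
  rw [J_eq_iff, zero_mul, pow_eq_zero_iff (by norm_num)]

/-- `J - 1728 = E₆² / Δ`. -/
lemma J_sub (τ : ℍ) : J τ - 1728 = E₆ τ ^ 2 / ModularForm.discriminant τ := by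
  rw [J_def, eq_div_iff (discriminant_ne_zero τ), sub_mul,
    div_mul_cancel₀ _ (discriminant_ne_zero τ), discriminant_eq_E₄_cube_sub_E₆_sq]
  ring

lemma J_eq_1728_iff (τ : ℍ) : J τ = 1728 ↔ E₆ τ = 0 := by
  rw [← sub_eq_zero, J_sub, div_eq_zero_iff, pow_eq_zero_iff (by norm_num)]
  simp [discriminant_ne_zero τ]

lemma discriminant_mdifferentiable : MDiff ModularForm.discriminant :=
  CuspForm.discriminant.holo'

/-- `J` is holomorphic on `ℍ`. -/
theorem J_mdifferentiable : MDiff J := by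
  have h4 : MDiff (fun τ : ℍ => E₄ τ ^ 3) := (E₄.holo').pow 3
  have hΔ : MDiff ModularForm.discriminant := discriminant_mdifferentiable
  rw [UpperHalfPlane.mdifferentiable_iff] at h4 hΔ ⊢
  refine (h4.div hΔ ?_).congr ?_
  · intro z hz
    simp only [Function.comp_apply]
    exact discriminant_ne_zero _
  · intro z hz
    simp [J_def, Function.comp_apply]

theorem J_differentiableOn : DifferentiableOn ℂ (J ∘ ofComplex) {z | 0 < z.im} :=
  UpperHalfPlane.mdifferentiable_iff.mp J_mdifferentiable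

lemma mem_SL_range (γ : SL(2, ℤ)) :
    ((γ : GL (Fin 2) ℝ)) ∈ (Matrix.SpecialLinearGroup.mapGL ℝ : SL(2, ℤ) →* GL (Fin 2) ℝ).range :=
  ⟨γ, rfl⟩

/-- Transformation law of a level one form under `SL(2, ℤ)`. -/
lemma levelOne_smul {F : Type*} [FunLike F ℍ ℂ] {k : ℤ}
    [SlashInvariantFormClass F (Matrix.SpecialLinearGroup.mapGL ℝ : SL(2, ℤ) →* GL (Fin 2) ℝ).range k]
    (f : F) (γ : SL(2, ℤ)) (τ : ℍ) :
    f (γ • τ) = (denom (γ : GL (Fin 2) ℝ) τ) ^ k * f τ := by
  exact SlashInvariantForm.slash_action_eqn'' f (mem_SL_range γ) τ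

/-- `J` is invariant under `SL(2, ℤ)`. -/
theorem J_smul (γ : SL(2, ℤ)) (τ : ℍ) : J (γ • τ) = J τ := by
  have h4 := levelOne_smul E₄ γ τ
  have hΔ := levelOne_smul CuspForm.discriminant γ τ
  rw [CuspForm.coe_discriminant] at hΔ
  have hd : denom (γ : GL (Fin 2) ℝ) τ ≠ 0 := denom_ne_zero _ _
  rw [J_def, J_def, h4, hΔ]
  generalize denom (γ : GL (Fin 2) ℝ) τ = d at hd
  have h1 : (d ^ (4 : ℤ)) ^ 3 = d ^ (12 : ℤ) := by
    rw [← zpow_natCast, ← zpow_mul]; norm_num
  rw [mul_pow, h1, mul_div_mul_left _ _ (zpow_ne_zero _ hd)]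

end Fermat.Agent.S24

end
end ZBS24_003_0

/-! ### bundled: `Fermat.Agent.S24.QExpJ` -/
section ZBS24_003_1

/-!
# S24 / P6a — the `q`-expansion of `J(dτ)` is the formal series `qExpand ℚ d jq`

Main results (interface of `NOTES/S24-P6a.md`):

* `JdShift d τ = q^d · J(dτ)`;
* `JdShift_periodic`, `JdShift_mdifferentiable`, `JdShift_isBoundedAtImInfty`,
  `analyticAt_cuspFunction_JdShift`;
* `qExpansion_JdShift_coeff`, `hasSum_JdShift`: the `q`-expansion of `q^d · J(dτ)` has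
  `n`-th coefficient `(qExpand ℚ d jq).coeff (n - d)`.

By-products: `qExpansion_E₄_eq`, `qExpansion_discriminant_eq`, `qExpansion_gJ`.
-/

set_option autoImplicit false

noncomputable section

open UpperHalfPlane Function Filter Complex ModularForm EisensteinSeries
open scoped Manifold Topology MatrixGroups

namespace Fermat.Agent.S24

local notation "𝕢" => Function.Periodic.qParam

/-! ### `E₄` -/

/-- The `q`-expansion of `E₄` is the formal series `eisenstein4`. -/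
theorem qExpansion_E₄_eq :
    qExpansion (1 : ℝ) E₄ = ModularCurve.eisenstein4.map (Int.castRingHom ℂ) := by
  ext m
  rw [E_qExpansion_coeff _ ⟨2, rfl⟩, PowerSeries.coeff_map, ModularCurve.eisenstein4,
    PowerSeries.coeff_mk]
  split_ifs with h
  · simp
  · norm_num [show bernoulli 4 = -1 / 30 by decide +kernel, ArithmeticFunction.sigma_apply]

/-- The cusp function of `E₄` (a holomorphic function on the unit disc). -/
def gE4 : ℂ → ℂ := cuspFunction 1 E₄

lemma differentiableOn_gE4 : DifferentiableOn ℂ gE4 (Metric.ball 0 1) := by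
  intro q hq
  have hq' : ‖q‖ < 1 := by simpa using hq
  exact (ModularFormClass.differentiableAt_cuspFunction E₄ one_pos one_mem_strictPeriods_SL
    hq').differentiableWithinAt

lemma E₄_periodic : Function.Periodic ((E₄ : ℍ → ℂ) ∘ ofComplex) (1 : ℝ) :=
  SlashInvariantFormClass.periodic_comp_ofComplex E₄ one_mem_strictPeriods_SL

lemma discriminant_periodic :
    Function.Periodic ((ModularForm.discriminant : ℍ → ℂ) ∘ ofComplex) (1 : ℝ) := by
  have := SlashInvariantFormClass.periodic_comp_ofComplex CuspForm.discriminant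
    one_mem_strictPeriods_SL
  rwa [CuspForm.coe_discriminant] at this

lemma E₄_eq_ofDisc : (E₄ : ℍ → ℂ) = ofDisc gE4 :=
  eq_ofDisc_cuspFunction E₄_periodic

lemma gE4_qParam (τ : ℍ) : gE4 (𝕢 1 τ) = E₄ τ := by
  have := congrFun E₄_eq_ofDisc τ
  rw [ofDisc_apply] at this
  exact this.symm

/-! ### `q · J` as a function of `q` -/

/-- `q · J` as a function of `q` on the unit disc. -/
def gJ : ℂ → ℂ := fun q => gE4 q ^ 3 / etaDisc q ^ 24

lemma differentiableOn_gJ : DifferentiableOn ℂ gJ (Metric.ball 0 1) := by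
  refine (differentiableOn_gE4.pow 3).div (differentiableOn_etaDisc.pow 24) ?_
  intro q hq
  exact pow_ne_zero _ (etaDisc_ne_zero (by simpa using hq))

lemma gJ_mul_etaDisc {q : ℂ} (hq : ‖q‖ < 1) : gJ q * etaDisc q ^ 24 = gE4 q ^ 3 := by
  rw [gJ, div_mul_cancel₀ _ (pow_ne_zero _ (etaDisc_ne_zero hq))]

lemma qParam_ne_zero' (z : ℂ) : 𝕢 1 z ≠ 0 := by
  simp [Function.Periodic.qParam]

/-- `q · J(τ) = gJ(q)`. -/
lemma qParam_mul_Jfun (τ : ℍ) : 𝕢 1 τ * Jfun τ = gJ (𝕢 1 τ) := by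
  have hq : 𝕢 1 (τ : ℂ) ≠ 0 := qParam_ne_zero' _
  have he : etaDisc (𝕢 1 τ) ≠ 0 := etaDisc_ne_zero (norm_qParam_lt_one' τ)
  rw [Jfun, discriminant_eq_qParam_mul_etaDisc, gJ, gE4_qParam]
  field_simp

/-- The `q`-expansion of `q · J` is `jNum`. -/
theorem qExpansion_gJ :
    qExpansion (1 : ℝ) (ofDisc gJ) = ModularCurve.jNum.map (Int.castRingHom ℂ) := by
  have h1 : ofDisc (gJ * etaDisc ^ 24) = ofDisc (gE4 ^ 3) := by
    funext τ
    simp only [ofDisc_apply, Pi.mul_apply, Pi.pow_apply]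
    exact gJ_mul_etaDisc (norm_qParam_lt_one' τ)
  have h2 : qExpansion (1 : ℝ) (ofDisc gJ) *
      ModularCurve.dedekindEtaUnit.map (Int.castRingHom ℂ) =
      (ModularCurve.eisenstein4.map (Int.castRingHom ℂ)) ^ 3 := by
    rw [← qExpansion_etaDisc_pow24,
      ← qExpansion_ofDisc_mul differentiableOn_gJ (differentiableOn_etaDisc.pow 24), h1,
      qExpansion_ofDisc_pow differentiableOn_gE4, ← E₄_eq_ofDisc, qExpansion_E₄_eq]
  have h3 : ModularCurve.dedekindEtaUnit.map (Int.castRingHom ℂ) *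
      ModularCurve.dedekindEtaUnitInv.map (Int.castRingHom ℂ) = 1 := by
    rw [← map_mul, ModularCurve.dedekindEtaUnit_mul_inv, map_one]
  calc qExpansion (1 : ℝ) (ofDisc gJ)
      = qExpansion (1 : ℝ) (ofDisc gJ) * (ModularCurve.dedekindEtaUnit.map (Int.castRingHom ℂ) *
          ModularCurve.dedekindEtaUnitInv.map (Int.castRingHom ℂ)) := by rw [h3, mul_one]
    _ = (ModularCurve.eisenstein4.map (Int.castRingHom ℂ)) ^ 3 *
          ModularCurve.dedekindEtaUnitInv.map (Int.castRingHom ℂ) := by rw [← mul_assoc, h2]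
    _ = ModularCurve.jNum.map (Int.castRingHom ℂ) := by
        rw [ModularCurve.jNum, map_mul, map_pow]

/-- The `q`-expansion of `Δ` is `q · dedekindEtaUnit`. -/
theorem qExpansion_discriminant_eq :
    qExpansion (1 : ℝ) ModularForm.discriminant =
      PowerSeries.X * ModularCurve.dedekindEtaUnit.map (Int.castRingHom ℂ) := by
  have hfun : (ModularForm.discriminant : ℍ → ℂ) = ofDisc ((fun q => q) * etaDisc ^ 24) := by
    funext τ
    simp only [ofDisc_apply, Pi.mul_apply, Pi.pow_apply]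
    exact discriminant_eq_qParam_mul_etaDisc τ
  have hid : DifferentiableOn ℂ (fun q : ℂ => q) (Metric.ball 0 1) := differentiableOn_id
  have hX : qExpansion (1 : ℝ) (ofDisc (fun q : ℂ => q)) = PowerSeries.X := by
    have := qExpansion_ofDisc_polynomial (Polynomial.X)
    simpa using this
  rw [hfun, qExpansion_ofDisc_mul hid (differentiableOn_etaDisc.pow 24), hX,
    qExpansion_etaDisc_pow24]

/-! ### `J(dτ)` -/

/-- `q^d · J(dτ)` -/
def JdShift (d : ℕ) : ℍ → ℂ := fun τ => 𝕢 1 τ ^ d * Jd d τ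

lemma JdShift_apply (d : ℕ) (τ : ℍ) : JdShift d τ = 𝕢 1 τ ^ d * Jd d τ := rfl

/-- `q^d · J(dτ)` as a function of `q`. -/
def gJd (d : ℕ) : ℂ → ℂ := fun q => gJ (q ^ d)

lemma differentiableOn_gJd (d : ℕ) [NeZero d] : DifferentiableOn ℂ (gJd d) (Metric.ball 0 1) := by
  have hmaps : Set.MapsTo (fun q : ℂ => q ^ d) (Metric.ball 0 1) (Metric.ball 0 1) := by
    intro q hq
    have hq' : ‖q‖ < 1 := by simpa using hq
    have : ‖q ^ d‖ < 1 := by
      rw [norm_pow]
      exact pow_lt_one₀ (norm_nonneg q) hq' (NeZero.ne d)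
    simpa using this
  exact differentiableOn_gJ.comp (differentiableOn_id.pow d) hmaps

lemma qParam_heckeDiagMatrix_smul (d : ℕ) [NeZero d] (τ : ℍ) :
    𝕢 1 ((ModularForm.heckeDiagMatrix d • τ : ℍ) : ℂ) = 𝕢 1 τ ^ d := by
  rw [ModularForm.coe_heckeDiagMatrix_smul (NeZero.ne d)]
  simp only [Function.Periodic.qParam, ofReal_one, div_one]
  rw [← Complex.exp_nat_mul]
  congr 1
  ring

lemma JdShift_eq_ofDisc (d : ℕ) [NeZero d] : JdShift d = ofDisc (gJd d) := by
  funext τ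
  rw [JdShift_apply, ofDisc_apply, gJd, Jd, Jcomp, ← qParam_heckeDiagMatrix_smul,
    qParam_mul_Jfun]

lemma JdShift_zero : JdShift 0 = Jfun := by
  funext τ
  simp [JdShift_apply, Jd, Jcomp]

lemma Jfun_periodic : Function.Periodic (Jfun ∘ ofComplex) (1 : ℝ) := by
  intro w
  have h4 := E₄_periodic w
  have hΔ := discriminant_periodic w
  simp only [Function.comp_apply] at h4 hΔ ⊢
  rw [Jfun, Jfun, h4, hΔ]

theorem JdShift_periodic (d : ℕ) : Function.Periodic (JdShift d ∘ ofComplex) (1 : ℝ) := by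
  rcases Nat.eq_zero_or_pos d with rfl | hd
  · rw [JdShift_zero]
    exact Jfun_periodic
  · have : NeZero d := ⟨hd.ne'⟩
    rw [JdShift_eq_ofDisc]
    exact ofDisc_periodic _

theorem JdShift_mdifferentiable (d : ℕ) : MDiff (JdShift d) := by
  rcases Nat.eq_zero_or_pos d with rfl | hd
  · rw [JdShift_zero]
    exact J_mdifferentiable
  · have : NeZero d := ⟨hd.ne'⟩
    rw [JdShift_eq_ofDisc]
    exact ofDisc_mdifferentiable (differentiableOn_gJd d)

theorem JdShift_isBoundedAtImInfty (d : ℕ) [NeZero d] : IsBoundedAtImInfty (JdShift d) := by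
  rw [JdShift_eq_ofDisc]
  exact ofDisc_isBoundedAtImInfty (continuousAt_zero_of_differentiableOn (differentiableOn_gJd d))

theorem analyticAt_cuspFunction_JdShift (d : ℕ) [NeZero d] :
    AnalyticAt ℂ (cuspFunction 1 (JdShift d)) 0 := by
  rw [JdShift_eq_ofDisc]
  exact analyticAt_cuspFunction_ofDisc (differentiableOn_gJd d)

/-- The coefficients of the formal series `qExpand ℚ d jq`, shifted by `d`. -/
lemma qExpand_jq_coeff (d : ℕ) [NeZero d] (n : ℕ) :
    (ModularCurve.qExpand ℚ d ModularCurve.jq).coeff ((n : ℤ) - d) =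
      if d ∣ n then ((ModularCurve.jNum.coeff (n / d) : ℤ) : ℚ) else 0 := by
  have hd : d ≠ 0 := NeZero.ne d
  split_ifs with h
  · obtain ⟨k, rfl⟩ := h
    rw [Nat.mul_div_cancel_left _ (Nat.pos_of_ne_zero hd)]
    have : ((d * k : ℕ) : ℤ) - d = (d : ℤ) * ((k : ℤ) - 1) := by push_cast; ring
    rw [this, ModularCurve.qExpand_coeff_mul, ModularCurve.jq, HahnSeries.coeff_single_mul,
      one_mul, show (k : ℤ) - 1 - (-1) = (k : ℤ) by ring, HahnSeries.ofPowerSeries_apply_coeff,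
      ModularCurve.jNumQ, PowerSeries.coeff_map]
    rfl
  · refine ModularCurve.qExpand_coeff_of_not_dvd d _ ?_
    intro hdvd
    apply h
    have h2 : (d : ℤ) ∣ (n : ℤ) := by
      have := dvd_add hdvd (dvd_refl (d : ℤ))
      simpa using this
    exact_mod_cast h2

/-- Power series expansion of `q^d · J(dτ)` with explicit coefficients. -/
lemma hasSum_gJd (d : ℕ) [NeZero d] (τ : ℍ) :
    HasSum (fun n : ℕ => (if d ∣ n then ((ModularCurve.jNum.coeff (n / d) : ℤ) : ℂ) else 0) *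
      𝕢 1 τ ^ n) (gJd d (𝕢 1 τ)) := by
  have hd : d ≠ 0 := NeZero.ne d
  have h := hasSum_qExpansion_ofDisc differentiableOn_gJ (ModularForm.heckeDiagMatrix d • τ)
  rw [qParam_heckeDiagMatrix_smul, qExpansion_gJ] at h
  have hinj : Function.Injective (fun k : ℕ => d * k) :=
    fun a b hab => Nat.eq_of_mul_eq_mul_left (Nat.pos_of_ne_zero hd) hab
  refine (hinj.hasSum_iff ?_).mp ?_
  · intro n hn
    have : ¬ d ∣ n := by
      rintro ⟨k, rfl⟩
      exact hn ⟨k, rfl⟩
    simp [this]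
  · have hfun : ((fun n : ℕ =>
        (if d ∣ n then ((ModularCurve.jNum.coeff (n / d) : ℤ) : ℂ) else 0) * 𝕢 1 τ ^ n) ∘
        fun k : ℕ => d * k) = fun m : ℕ => (PowerSeries.coeff m)
          ((PowerSeries.map (Int.castRingHom ℂ)) ModularCurve.jNum) * (𝕢 1 ↑τ ^ d) ^ m := by
      funext k
      simp only [Function.comp_apply, dvd_mul_right, if_true,
        Nat.mul_div_cancel_left _ (Nat.pos_of_ne_zero hd), PowerSeries.coeff_map, pow_mul]
      rfl
    rw [hfun]
    exact h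

/-- The `n`-th `q`-expansion coefficient of `q^d · J(dτ)` is the `(n - d)`-th coefficient of
the formal series `qExpand ℚ d jq = j(q^d)`. -/
theorem qExpansion_JdShift_coeff (d : ℕ) [NeZero d] (n : ℕ) :
    (qExpansion (1 : ℝ) (JdShift d)).coeff n =
      (((ModularCurve.qExpand ℚ d ModularCurve.jq).coeff ((n : ℤ) - d) : ℚ) : ℂ) := by
  rw [JdShift_eq_ofDisc, qExpand_jq_coeff,
    qExpansion_coeff_unique_fun one_pos (analyticAt_cuspFunction_ofDisc (differentiableOn_gJd d))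
      (fun τ => hasSum_gJd d τ) n]
  split_ifs <;> simp

/-- The convergent `q`-expansion of `q^d · J(dτ)`. -/
theorem hasSum_JdShift (d : ℕ) [NeZero d] (τ : ℍ) :
    HasSum (fun n : ℕ =>
      (((ModularCurve.qExpand ℚ d ModularCurve.jq).coeff ((n : ℤ) - d) : ℚ) : ℂ) * 𝕢 1 τ ^ n)
      (𝕢 1 τ ^ d * Jd d τ) := by
  have h := hasSum_gJd d τ
  have hval : gJd d (𝕢 1 τ) = 𝕢 1 τ ^ d * Jd d τ := by
    rw [← JdShift_apply, JdShift_eq_ofDisc, ofDisc_apply]
  rw [hval] at h
  convert h using 2 with n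
  rw [qExpand_jq_coeff]
  split_ifs <;> simp

/-- Special case `d = 1`: `q · J(τ) = ∑ c_n q^n` with `c_n = jq.coeff (n - 1) ∈ ℚ`. -/
theorem hasSum_qParam_mul_Jfun (τ : ℍ) :
    HasSum (fun n : ℕ => ((ModularCurve.jq.coeff ((n : ℤ) - 1) : ℚ) : ℂ) * 𝕢 1 τ ^ n)
      (𝕢 1 τ * Jfun τ) := by
  have h := hasSum_JdShift 1 τ
  simp only [ModularCurve.qExpand_one_apply, pow_one, Nat.cast_one] at h
  have hJ : Jd 1 τ = Jfun τ := by
    have hcoe : ((ModularForm.heckeDiagMatrix 1 • τ : ℍ) : ℂ) = (τ : ℂ) := by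
      rw [ModularForm.coe_heckeDiagMatrix_smul one_ne_zero]; simp
    rw [Jd, Jcomp, UpperHalfPlane.ext hcoe]
  rwa [hJ] at h

/-- The coefficients of `q · J` are integers: `jq.coeff (n - 1) = jNum.coeff n`. -/
theorem jq_coeff_sub_one (n : ℕ) :
    ModularCurve.jq.coeff ((n : ℤ) - 1) = ((ModularCurve.jNum.coeff n : ℤ) : ℚ) := by
  have h := qExpand_jq_coeff 1 n
  simpa [ModularCurve.qExpand_one_apply] using h

end Fermat.Agent.S24

end
end ZBS24_003_1

/-! ### bundled: `Fermat.Agent.S24.Bridge` -/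
section ZBS24_003_2

/-!
# S24 piece P6b — the bridge `phi N : FF N →ₐ[ℚ̄] Man N`

`phi N` sends the formal `j(q^d)` (`jdF N d hd`) to the analytic `J(dτ)` (`JdMan N d hd`), `d ∣ N`.

* `lrel_Jd` : the Laurent expansion of `J(dτ)` at `i∞` is `j(q^d)` (from P6a).
* `bridge_iff` : `P(j(q^d))_d = 0` in `ℚ̄((q))` iff `P(J(dτ))_d = 0` on `ℍ`, for
  `P : MvPolynomial (Dv N) ℚ̄`.
* `phi`, `phi_jdF`, `phi_jF`, `phi_fieldRange`.
-/

set_option autoImplicit false

noncomputable section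

open UpperHalfPlane ModularCurve
open scoped Manifold

namespace Fermat.Agent.S24

attribute [local instance] algKbC

local notation "𝕢" => Function.Periodic.qParam

/-! ### The Laurent expansion of `J(dτ)` -/

/-- `j(q^d)` with complex coefficients. -/
def jCd (d : ℕ) [NeZero d] : LaurentSeries ℂ := coeffMap (algebraMap ℚ ℂ) (qExpand ℚ d jq)

theorem br_qExpand_jq_coeff_of_neg (d : ℕ) [NeZero d] {k : ℤ} (hk : k < 0) :
    (qExpand ℚ d jq).coeff (k - d) = 0 := by
  by_cases hdvd : (d : ℤ) ∣ k - d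
  · obtain ⟨m, hm⟩ := hdvd
    rw [hm, qExpand_coeff_mul]
    apply coeff_jq_of_lt
    have hd : (0 : ℤ) < d := by exact_mod_cast Nat.pos_of_ne_zero (NeZero.ne d)
    by_contra hcon
    have hcon := not_lt.mp hcon
    have h1 : (d : ℤ) * (-1) ≤ d * m := mul_le_mul_of_nonneg_left hcon hd.le
    rw [← hm] at h1
    linarith
  · exact qExpand_coeff_of_not_dvd d jq hdvd

theorem brHPB_JdShift (d : ℕ) [NeZero d] : BrHPB (JdShift d) where
  mdiff := JdShift_mdifferentiable d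
  periodic := JdShift_periodic d
  bdd := JdShift_isBoundedAtImInfty d

theorem qpowFun_mul_Jd (d : ℕ) : qpowFun d * Jd d = JdShift d := rfl

theorem lrel_Jd (d : ℕ) [NeZero d] : Lrel (Jd d) (jCd d) := by
  refine ⟨d, qpowFun_mul_Jd d ▸ brHPB_JdShift d, ?_⟩
  rw [qpowFun_mul_Jd]
  ext k
  rw [HahnSeries.coeff_single_mul, one_mul, jCd, coeffMap_coeff]
  rcases lt_or_ge k 0 with hk | hk
  · rw [ofPowerSeries_coeff_of_neg _ hk, br_qExpand_jq_coeff_of_neg d hk, map_zero]
  · obtain ⟨n, rfl⟩ := Int.eq_ofNat_of_zero_le hk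
    rw [HahnSeries.ofPowerSeries_apply_coeff, qExpansion_JdShift_coeff, eq_ratCast]

/-! ### Polynomial relations -/

/-- The family `d ↦ J(dτ)` of functions on `ℍ`. -/
def Jdfam (N : ℕ) : Dv N → (ℍ → ℂ) := fun d => Jd d.1

/-- The family `d ↦ j(q^d)` with complex coefficients. -/
def jCfam (N : ℕ) [NeZero N] : Dv N → LaurentSeries ℂ := fun d => coeffMap embC (jBfam N d)

theorem jCfam_eq (N : ℕ) [NeZero N] (d : ℕ) [NeZero d] (hd : d ∣ N) :
    jCfam N ⟨d, hd⟩ = jCd d := by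
  rw [jCfam, jBfam_eq, coeffEmb, coeffMap_coeffMap, jCd]
  exact coeffMap_congr (Subsingleton.elim _ _) _

theorem lrel_fam (N : ℕ) [NeZero N] (d : Dv N) : Lrel (Jdfam N d) (jCfam N d) := by
  obtain ⟨d, hd⟩ := d
  have : NeZero d := ⟨ne_zero_of_dvd_ne_zero (NeZero.ne N) hd⟩
  rw [jCfam_eq]
  exact lrel_Jd d

theorem lrel_aeval (N : ℕ) [NeZero N] (P : MvPolynomial (Dv N) ℂ) :
    Lrel (MvPolynomial.aeval (Jdfam N) P) (MvPolynomial.aeval (jCfam N) P) := by
  induction P using MvPolynomial.induction_on with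
  | C a =>
    rw [MvPolynomial.aeval_C, MvPolynomial.aeval_C, algebraMap_laurentSeries_eq_single]
    exact Lrel.const a
  | add p q hp hq =>
    rw [map_add, map_add]
    exact hp.add hq
  | mul_X p i hp =>
    rw [map_mul, map_mul, MvPolynomial.aeval_X, MvPolynomial.aeval_X]
    exact hp.mul (lrel_fam N i)

theorem br_aeval_Jdfam_map (N : ℕ) (P : MvPolynomial (Dv N) Kb) :
    MvPolynomial.aeval (R := ℂ) (Jdfam N) (MvPolynomial.map embC P) =
      MvPolynomial.aeval (R := Kb) (Jdfam N) P := by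
  rw [MvPolynomial.aeval_def, MvPolynomial.eval₂_map, MvPolynomial.aeval_def]
  rfl

theorem br_coeffMap_aeval_jBfam (N : ℕ) [NeZero N] (P : MvPolynomial (Dv N) Kb) :
    coeffMap embC (MvPolynomial.aeval (jBfam N) P) =
      MvPolynomial.aeval (jCfam N) (MvPolynomial.map embC P) := by
  rw [MvPolynomial.aeval_def, MvPolynomial.aeval_def, MvPolynomial.eval₂_map,
    MvPolynomial.hom_eval₂]
  congr 1
  ext c : 1
  simp only [RingHom.comp_apply, algebraMap_laurentSeries_eq_single, coeffMap_single]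

theorem br_coeffMap_embC_injective : Function.Injective (coeffMap embC) := by
  intro x y h
  ext k
  have h1 := congrArg (fun z => z.coeff k) h
  simp only [coeffMap_coeff] at h1
  exact embC.injective h1

/-- **Bridge**: a polynomial relation between the formal `j(q^d)` over `ℚ̄` holds iff it holds
between the analytic functions `J(dτ)`. -/
theorem bridge_iff (N : ℕ) [NeZero N] (P : MvPolynomial (Dv N) Kb) :
    MvPolynomial.aeval (jBfam N) P = 0 ↔ MvPolynomial.aeval (R := Kb) (Jdfam N) P = 0 := by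
  rw [← br_aeval_Jdfam_map, (lrel_aeval N (MvPolynomial.map embC P)).eq_zero_iff,
    ← br_coeffMap_aeval_jBfam]
  constructor
  · intro h
    rw [h, map_zero]
  · intro h
    exact br_coeffMap_embC_injective (h.trans (map_zero _).symm)

/-! ### The map `phi` -/

/-- The family `d ↦ J(dτ)` in `Ban N`. -/
def JdBanfam (N : ℕ) [NeZero N] : Dv N → Ban N := fun d => JdBan N d.1 d.2

/-- The family `d ↦ J(dτ)` in `Man N`. -/
def JdManfam (N : ℕ) [NeZero N] : Dv N → Man N := fun d => JdMan N d.1 d.2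

theorem coe_aeval_JdBanfam (N : ℕ) [NeZero N] (P : MvPolynomial (Dv N) Kb) :
    ((MvPolynomial.aeval (JdBanfam N) P : Ban N) : ℍ → ℂ) =
      MvPolynomial.aeval (R := Kb) (Jdfam N) P := by
  have h := MvPolynomial.comp_aeval_apply (JdBanfam N) (Ban N).val P
  exact h

theorem aeval_JdManfam (N : ℕ) [NeZero N] (P : MvPolynomial (Dv N) Kb) :
    MvPolynomial.aeval (JdManfam N) P =
      algebraMap (Ban N) (Man N) (MvPolynomial.aeval (JdBanfam N) P) := by
  have h := MvPolynomial.comp_aeval_apply (JdBanfam N) (IsScalarTower.toAlgHom Kb (Ban N) (Man N)) P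
  exact h.symm

theorem aeval_JdManfam_eq_zero_iff (N : ℕ) [NeZero N] (P : MvPolynomial (Dv N) Kb) :
    MvPolynomial.aeval (JdManfam N) P = 0 ↔ MvPolynomial.aeval (R := Kb) (Jdfam N) P = 0 := by
  rw [aeval_JdManfam, map_eq_zero_iff _ (IsFractionRing.injective (Ban N) (Man N)),
    ← coe_aeval_JdBanfam, ZeroMemClass.coe_eq_zero]

theorem exists_phi (N : ℕ) [NeZero N] :
    ∃ φ : FF N →ₐ[Kb] Man N, ∀ (d : ℕ) (hd : d ∣ N), φ (jdF N d hd) = JdMan N d hd :=
  exists_algHom_FF_of_relations N (JdManfam N) fun P =>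
    (bridge_iff N P).trans (aeval_JdManfam_eq_zero_iff N P).symm

/-- **The bridge**: the embedding of the function field `FF N = ℚ̄(j(q^d) : d ∣ N)` into the
analytic model `Man N`, sending `j(q^d)` to `J(dτ)`. -/
def phi (N : ℕ) [NeZero N] : FF N →ₐ[Kb] Man N := (exists_phi N).choose

theorem phi_jdF (N : ℕ) [NeZero N] (d : ℕ) (hd : d ∣ N) : phi N (jdF N d hd) = JdMan N d hd :=
  (exists_phi N).choose_spec d hd

theorem phi_jF (N : ℕ) [NeZero N] : phi N (jF N) = jMan N := by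
  rw [← jdF_one, phi_jdF, JdMan_one]

theorem phi_injective (N : ℕ) [NeZero N] : Function.Injective (phi N) :=
  (phi N).toRingHom.injective

/-- The image of `phi N` is the subfield of `Man N` generated by the `J(dτ)`, `d ∣ N`. -/
theorem phi_fieldRange (N : ℕ) [NeZero N] :
    (phi N).fieldRange = IntermediateField.adjoin Kb {y | ∃ d hd, y = JdMan N d hd} := by
  rw [AlgHom.fieldRange_eq_map, FF_eq_adjoin, IntermediateField.adjoin_map]
  congr 1
  ext y
  constructor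
  · rintro ⟨_, ⟨d, hd, rfl⟩, rfl⟩
    exact ⟨d, hd, phi_jdF N d hd⟩
  · rintro ⟨d, hd, rfl⟩
    exact ⟨jdF N d hd, ⟨d, hd, rfl⟩, (phi_jdF N d hd)⟩

end Fermat.Agent.S24

end
end ZBS24_003_2

/-! ### bundled: `Fermat.Agent.S24.LevelOneA` -/
section ZBS24_003_3

/-!
# S24 piece P4a: `Jfun` is holomorphic, `SL(2, ℤ)`-invariant, `q · Jfun → 1` at `i∞`, surjective
-/

set_option autoImplicit false

noncomputable section

open UpperHalfPlane ModularForm ModularFormClass MatrixGroups EisensteinSeries Filter Topology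
open scoped Manifold

namespace Fermat.Agent.S24

theorem Jfun_eq_J : Jfun = J := rfl

theorem Jfun_mdifferentiable : MDiff Jfun := J_mdifferentiable

theorem Jfun_differentiableOn : DifferentiableOn ℂ (Jfun ∘ ofComplex) {z | 0 < z.im} :=
  J_differentiableOn

theorem Jfun_smul (γ : SL(2, ℤ)) (τ : ℍ) : Jfun (γ • τ) = Jfun τ := J_smul γ τ

/-- `E₄ → 1` at `i∞`. -/
theorem E₄_tendsto_atImInfty : Tendsto (fun τ : ℍ => E₄ τ) atImInfty (𝓝 1) := by
  have hper : Function.Periodic (⇑E₄ ∘ ofComplex) 1 :=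
    SlashInvariantFormClass.periodic_comp_ofComplex E₄ one_mem_strictPeriods_SL
  have han : AnalyticAt ℂ (cuspFunction 1 ⇑E₄) 0 :=
    ModularFormClass.analyticAt_cuspFunction_zero E₄ one_pos one_mem_strictPeriods_SL
  have h0 : cuspFunction 1 ⇑E₄ 0 = 1 := by
    have := E_qExpansion_coeff_zero (k := 4) (by norm_num) ⟨2, rfl⟩
    simpa [qExpansion_coeff] using this
  have : (cuspFunction 1 ⇑E₄ ∘ fun τ : ℍ ↦ Function.Periodic.qParam 1 τ : ℍ → ℂ) = ⇑E₄ := by
    funext τ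
    simpa using UpperHalfPlane.eq_cuspFunction (f := ⇑E₄) τ one_ne_zero hper
  have h := han.continuousAt.tendsto.comp (qParam_tendsto_atImInfty (h := 1) one_pos)
  rw [this, h0] at h
  exact h

/-- `q · J → 1` at `i∞`. -/
theorem tendsto_qParam_mul_Jfun :
    Tendsto (fun τ : ℍ => Function.Periodic.qParam 1 τ * Jfun τ) atImInfty (𝓝 1) := by
  have h1 : Tendsto (fun τ : ℍ => E₄ τ ^ 3 / ∏' n, (1 - eta_q n τ) ^ 24) atImInfty (𝓝 (1 ^ 3 / 1)) :=
    (E₄_tendsto_atImInfty.pow 3).div tendsto_atImInfty_tprod_one_sub_eta_q_pow one_ne_zero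
  simp only [one_pow, div_one] at h1
  refine h1.congr fun τ => ?_
  have hq : Function.Periodic.qParam 1 (τ : ℂ) ≠ 0 := by
    simp [Function.Periodic.qParam]
  rw [Jfun, discriminant_eq_q_prod]
  field_simp

/-- `Δ → 0` at `i∞`. -/
theorem discriminant_tendsto_atImInfty :
    Tendsto (fun τ : ℍ => ModularForm.discriminant τ) atImInfty (𝓝 0) :=
  discriminant_isZeroAtImInfty

/-- The level one form `E₄³ - cΔ` transforms with weight 12. -/
lemma E₄_cube_sub_smul (c : ℂ) (γ : SL(2, ℤ)) (τ : ℍ) :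
    E₄ (γ • τ) ^ 3 - c * ModularForm.discriminant (γ • τ) =
      (denom (γ : GL (Fin 2) ℝ) τ) ^ (12 : ℤ) * (E₄ τ ^ 3 - c * ModularForm.discriminant τ) := by
  have h4 := levelOne_smul E₄ γ τ
  have hΔ := levelOne_smul CuspForm.discriminant γ τ
  rw [CuspForm.coe_discriminant] at hΔ
  rw [h4, hΔ]
  generalize denom (γ : GL (Fin 2) ℝ) τ = d
  have h1 : (d ^ (4 : ℤ)) ^ 3 = d ^ (12 : ℤ) := by
    rw [← zpow_natCast, ← zpow_mul]; norm_num
  rw [mul_pow, h1]
  ring

/-- `Jfun` is surjective: otherwise `1 / (E₄³ - cΔ)` would be a nonzero modular form of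
weight `-12`. -/
theorem Jfun_surjective : Function.Surjective Jfun := by
  intro c
  by_contra hne
  simp only [not_exists] at hne
  have hnz : ∀ τ : ℍ, E₄ τ ^ 3 - c * ModularForm.discriminant τ ≠ 0 := by
    intro τ h
    apply hne τ
    rw [Jfun_eq_J, J_eq_iff]
    exact sub_eq_zero.mp h
  set g : ℍ → ℂ := fun τ => (E₄ τ ^ 3 - c * ModularForm.discriminant τ)⁻¹ with hg
  -- invariance of weight -12
  have hinv : ∀ γ : SL(2, ℤ), g ∣[(-12 : ℤ)] γ = g := by
    intro γ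
    ext τ
    rw [ModularForm.SL_slash_apply]
    simp only [hg]
    rw [E₄_cube_sub_smul c γ τ, mul_inv, neg_neg]
    have hd : denom (γ : GL (Fin 2) ℝ) τ ≠ 0 := denom_ne_zero _ _
    rw [mul_comm, ← mul_assoc, mul_inv_cancel₀ (zpow_ne_zero _ hd), one_mul]
  -- holomorphy
  have hholo : MDiff g := by
    have h4 : MDiff (fun τ : ℍ => E₄ τ ^ 3) := (E₄.holo').pow 3
    have hΔ : MDiff ModularForm.discriminant := discriminant_mdifferentiable
    rw [UpperHalfPlane.mdifferentiable_iff] at h4 hΔ ⊢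
    refine ((h4.sub (hΔ.const_mul c)).inv ?_).congr ?_
    · intro z hz
      simp only [Function.comp_apply]
      exact hnz _
    · intro z hz
      simp [hg, Function.comp_apply]
  -- boundedness at `i∞`
  have htend : Tendsto g atImInfty (𝓝 1) := by
    have h1 : Tendsto (fun τ : ℍ => E₄ τ ^ 3 - c * ModularForm.discriminant τ) atImInfty
        (𝓝 (1 ^ 3 - c * 0)) :=
      (E₄_tendsto_atImInfty.pow 3).sub (discriminant_tendsto_atImInfty.const_mul c)
    have h2 := h1.inv₀ (by norm_num)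
    simpa using h2
  have hbdd : IsBoundedAtImInfty g := htend.isBigO_one ℝ
  let G : ModularForm (Matrix.SpecialLinearGroup.mapGL ℝ : SL(2, ℤ) →* GL (Fin 2) ℝ).range (-12) :=
    { toFun := g
      slash_action_eq' := by
        rintro _ ⟨γ, rfl⟩
        exact hinv γ
      holo' := hholo
      bdd_at_cusps' := by
        intro c hc
        rw [OnePoint.isBoundedAt_iff_forall_SL2Z hc]
        intro γ _
        rw [hinv γ]
        exact hbdd }
  have hG : (⇑G : ℍ → ℂ) = 0 := levelOne_neg_weight_eq_zero (by norm_num) G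
  have := congrFun hG UpperHalfPlane.I
  exact inv_ne_zero (hnz UpperHalfPlane.I) this

end Fermat.Agent.S24

end
end ZBS24_003_3

/-! ### bundled: `Fermat.Agent.S24.KExp` -/
section ZBS24_003_4

/-!
# S24 piece P7a (part 2): `q`-expansions at `i∞` with coefficients in `ℚ̄`

* `IsNice h F`: `F : ℍ → ℂ` is `h`-periodic, holomorphic and bounded at `i∞`
  (so it has a `q_h`-expansion, `UpperHalfPlane.hasSum_qExpansion`).
* `KSer`: the subring of `ℂ⟦X⟧` of power series with coefficients in `embC ℚ̄`.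
* `IsKNice N F`: nice at level `N` with `qExpansion N F ∈ KSer`.
* `HasKExp N f`: some `q_N ^ m * f` is `IsKNice` (finite-tailed Laurent expansion in `q_N` with
  coefficients in `ℚ̄`).
* `hasKExp_of_mem_Ban`: every element of `Ban N` has such an expansion.
* `HasKExp.exists_isBoundedAtImInfty`: `Δ ^ M * f` is bounded at `i∞` for some `M`.
* `poly_descent`: if `f = p (Jfun)` with `p : ℂ[X]` and `HasKExp N f` then `p` has coefficients
  in `ℚ̄`.
-/

set_option autoImplicit false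

noncomputable section

open UpperHalfPlane Filter Topology Function
open scoped MatrixGroups Manifold ModularForm

namespace Fermat.Agent.S24.KExp

attribute [local instance] algKbC

local notation "𝕢" => Function.Periodic.qParam

/-! ### Nice functions -/

/-- `F` is `h`-periodic, holomorphic and bounded at `i∞`. -/
structure IsNice (h : ℝ) (F : ℍ → ℂ) : Prop where
  per : Function.Periodic (F ∘ ofComplex) h
  hol : MDiff F
  bdd : IsBoundedAtImInfty F

theorem IsNice.analyticAt {h : ℝ} {F : ℍ → ℂ} (hh : 0 < h) (hF : IsNice h F) :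
    AnalyticAt ℂ (cuspFunction h F) 0 :=
  analyticAt_cuspFunction_zero hh hF.per hF.hol hF.bdd

theorem IsNice.hasSum {h : ℝ} {F : ℍ → ℂ} (hh : 0 < h) (hF : IsNice h F) (τ : ℍ) :
    HasSum (fun m : ℕ ↦ (qExpansion h F).coeff m • 𝕢 h τ ^ m) (F τ) :=
  hasSum_qExpansion hh hF.per hF.hol hF.bdd τ

theorem IsNice.mul {h : ℝ} {F G : ℍ → ℂ} (hF : IsNice h F) (hG : IsNice h G) :
    IsNice h (F * G) where
  per := fun z => by
    have h1 := hF.per z
    have h2 := hG.per z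
    simp only [Function.comp_apply, Pi.mul_apply] at h1 h2 ⊢
    rw [h1, h2]
  hol := hF.hol.mul hG.hol
  bdd := hF.bdd.mul hG.bdd

theorem IsNice.add {h : ℝ} {F G : ℍ → ℂ} (hF : IsNice h F) (hG : IsNice h G) :
    IsNice h (F + G) where
  per := fun z => by
    have h1 := hF.per z
    have h2 := hG.per z
    simp only [Function.comp_apply, Pi.add_apply] at h1 h2 ⊢
    rw [h1, h2]
  hol := hF.hol.add hG.hol
  bdd := hF.bdd.add hG.bdd

theorem isNice_const (h : ℝ) (c : ℂ) : IsNice h (fun _ => c) where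
  per := fun _ => rfl
  hol := mdifferentiable_const
  bdd := Filter.const_boundedAtFilter _ c

theorem IsNice.neg {h : ℝ} {F : ℍ → ℂ} (hF : IsNice h F) : IsNice h (-F) := by
  have := (isNice_const h (-1)).mul hF
  convert this using 1
  funext τ
  simp

theorem IsNice.pow {h : ℝ} {F : ℍ → ℂ} (hF : IsNice h F) (k : ℕ) : IsNice h (F ^ k) := by
  induction k with
  | zero =>
    have := isNice_const h 1
    convert this using 1
    funext τ
    simp
  | succ k ih =>
    rw [pow_succ]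
    exact ih.mul hF

/-- The function `q_h : τ ↦ exp (2πiτ/h)` on `ℍ`. -/
def qH (h : ℝ) : ℍ → ℂ := fun τ => 𝕢 h τ

theorem qH_apply (h : ℝ) (τ : ℍ) : qH h τ = 𝕢 h τ := rfl

theorem qH_ne_zero (h : ℝ) (τ : ℍ) : qH h τ ≠ 0 := Function.Periodic.qParam_ne_zero _

theorem qH_comp_ofComplex {h : ℝ} {z : ℂ} (hz : 0 < z.im) : qH h (ofComplex z) = 𝕢 h z := by
  rw [qH_apply, ofComplex_apply_of_im_pos hz]

theorem qParam_add_period {h : ℝ} (hh : h ≠ 0) (z : ℂ) : 𝕢 h (z + h) = 𝕢 h z := by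
  simp only [Function.Periodic.qParam]
  have : 2 * ↑Real.pi * Complex.I * (z + h) / h
      = 2 * ↑Real.pi * Complex.I * z / h + 2 * ↑Real.pi * Complex.I := by
    have hh' : (h : ℂ) ≠ 0 := by exact_mod_cast hh
    field_simp
  rw [this, Complex.exp_add, Complex.exp_two_pi_mul_I, mul_one]

theorem isNice_qH {h : ℝ} (hh : 0 < h) : IsNice h (qH h) where
  per := fun w => by
    by_cases hw : 0 < w.im
    · have hw' : 0 < (w + h).im := by simpa using hw
      simp only [Function.comp_apply, qH_comp_ofComplex hw, qH_comp_ofComplex hw']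
      exact qParam_add_period hh.ne' w
    · have hw1 : w.im ≤ 0 := not_lt.mp hw
      have hw2 : (w + h).im ≤ 0 := by simpa using hw1
      simp [ofComplex_apply_of_im_nonpos hw1, ofComplex_apply_of_im_nonpos hw2]
  hol := by
    rw [UpperHalfPlane.mdifferentiable_iff]
    have hd : DifferentiableOn ℂ (𝕢 h) {z : ℂ | 0 < z.im} :=
      (Function.Periodic.differentiable_qParam (h := h)).differentiableOn
    refine hd.congr fun z hz => ?_
    simp only [Function.comp_apply]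
    exact qH_comp_ofComplex hz
  bdd := (qParam_tendsto_atImInfty hh).isBigO_one ℝ

theorem tendsto_qH {h : ℝ} (hh : 0 < h) : Tendsto (qH h) atImInfty (𝓝 0) :=
  qParam_tendsto_atImInfty hh

theorem norm_qH_lt_one {h : ℝ} (hh : 0 < h) (τ : ℍ) : ‖qH h τ‖ < 1 :=
  Function.Periodic.norm_qParam_lt_one hh τ.im_pos

/-- Uniqueness of `q`-expansion coefficients, for plain functions. -/
theorem qExpansion_coeff_unique_fun {h : ℝ} {f : ℍ → ℂ} {c : ℕ → ℂ} (hh : 0 < h)
    (hfanalytic : AnalyticAt ℂ (cuspFunction h f) 0)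
    (hf : ∀ τ : ℍ, HasSum (fun m ↦ c m • 𝕢 h τ ^ m) (f τ)) (m : ℕ) :
    c m = (qExpansion h f).coeff m := by
  let _ : FunLike (ℍ → ℂ) ℍ ℂ := ⟨id, fun _ _ h => h⟩
  exact UpperHalfPlane.qExpansion_coeff_unique (F := ℍ → ℂ) f hh hfanalytic hf m

theorem qExpansion_qH_pow {h : ℝ} (hh : 0 < h) (k : ℕ) :
    qExpansion h (qH h ^ k) = (PowerSeries.X : PowerSeries ℂ) ^ k := by
  ext m
  have hn : IsNice h (qH h ^ k) := (isNice_qH hh).pow k
  have key := qExpansion_coeff_unique_fun (f := qH h ^ k)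
    (c := fun m => if m = k then (1 : ℂ) else 0) hh (hn.analyticAt hh) (fun τ => ?_) m
  · rw [← key, PowerSeries.coeff_X_pow]
  · have := hasSum_ite_eq k (qH h τ ^ k)
    simp only [Pi.pow_apply]
    convert this using 2 with n
    by_cases hnk : n = k
    · subst hnk; simp [qH_apply]
    · simp [hnk]

theorem qExpansion_const {h : ℝ} (hh : 0 < h) (c : ℂ) :
    qExpansion h (fun _ => c) = PowerSeries.C c := by
  ext m
  have key := qExpansion_coeff_unique_fun (f := fun _ => c)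
    (c := fun m => if m = 0 then c else 0) hh ((isNice_const h c).analyticAt hh) (fun τ => ?_) m
  · rw [← key, PowerSeries.coeff_C]
  · have := hasSum_ite_eq 0 c
    convert this using 2 with n
    by_cases hn : n = 0
    · subst hn; simp
    · simp [hn]

/-! ### Power series with coefficients in `ℚ̄` -/

/-- Power series with coefficients in `embC ℚ̄`. -/
def KSer : Subring (PowerSeries ℂ) := (PowerSeries.map embC).range

theorem mem_KSer_iff {P : PowerSeries ℂ} : P ∈ KSer ↔ ∀ n, P.coeff n ∈ Set.range embC := by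
  constructor
  · rintro ⟨Q, rfl⟩ n
    exact ⟨Q.coeff n, by simp⟩
  · intro hP
    choose c hc using hP
    refine ⟨PowerSeries.mk c, ?_⟩
    ext n
    simp [hc]

theorem X_mem_KSer : (PowerSeries.X : PowerSeries ℂ) ∈ KSer :=
  ⟨PowerSeries.X, by simp⟩

theorem C_mem_KSer (c : Kb) : PowerSeries.C (embC c) ∈ KSer :=
  ⟨PowerSeries.C c, by simp⟩

/-- Every complex number algebraic over `ℚ` is in the image of `embC`. -/
theorem mem_range_embC_of_isAlgebraic {z : ℂ} (hz : IsAlgebraic ℚ z) : z ∈ Set.range embC := by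
  let g : Kb →ₐ[ℚ] ℂ := embC.toRatAlgHom
  have hp : minpoly ℚ z ≠ 0 := minpoly.ne_zero hz.isIntegral
  have hsplit : ((minpoly ℚ z).map (algebraMap ℚ Kb)).Splits := IsAlgClosed.splits _
  have himg := hsplit.image_rootSet g
  have hzroot : z ∈ (minpoly ℚ z).rootSet ℂ := by
    rw [Polynomial.mem_rootSet]
    exact ⟨hp, minpoly.aeval ℚ z⟩
  rw [← himg] at hzroot
  obtain ⟨r, -, hr⟩ := hzroot
  exact ⟨r, hr⟩

theorem ratCast_mem_range_embC (r : ℚ) : (r : ℂ) ∈ Set.range embC :=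
  ⟨(r : Kb), map_ratCast embC r⟩

/-- Nice at level `h`, with `q_h`-expansion coefficients in `ℚ̄`. -/
def IsKNice (h : ℝ) (F : ℍ → ℂ) : Prop := IsNice h F ∧ qExpansion h F ∈ KSer

theorem natCast_pos_of_neZero (N : ℕ) [NeZero N] : (0 : ℝ) < (N : ℝ) :=
  Nat.cast_pos.mpr (Nat.pos_of_ne_zero (NeZero.ne N))

section

variable {h : ℝ}

theorem IsKNice.mul {F G : ℍ → ℂ} (hh : 0 < h) (hF : IsKNice h F) (hG : IsKNice h G) :
    IsKNice h (F * G) := by
  refine ⟨hF.1.mul hG.1, ?_⟩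
  rw [qExpansion_mul (hF.1.analyticAt hh) (hG.1.analyticAt hh)]
  exact KSer.mul_mem hF.2 hG.2

theorem IsKNice.add {F G : ℍ → ℂ} (hh : 0 < h) (hF : IsKNice h F) (hG : IsKNice h G) :
    IsKNice h (F + G) := by
  refine ⟨hF.1.add hG.1, ?_⟩
  rw [qExpansion_add (hF.1.analyticAt hh) (hG.1.analyticAt hh)]
  exact KSer.add_mem hF.2 hG.2

theorem isKNice_const (hh : 0 < h) (c : Kb) : IsKNice h (fun _ => embC c) := by
  refine ⟨isNice_const _ _, ?_⟩
  rw [qExpansion_const hh]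
  exact C_mem_KSer c

theorem isKNice_qH_pow (hh : 0 < h) (k : ℕ) : IsKNice h (qH h ^ k) := by
  refine ⟨(isNice_qH hh).pow k, ?_⟩
  rw [qExpansion_qH_pow hh]
  exact KSer.pow_mem X_mem_KSer k

theorem IsKNice.pow {F : ℍ → ℂ} (hh : 0 < h) (hF : IsKNice h F) (k : ℕ) :
    IsKNice h (F ^ k) := by
  induction k with
  | zero =>
    have := isKNice_const hh 1
    convert this using 1
    funext τ
    simp
  | succ k ih =>
    rw [pow_succ]
    exact ih.mul hh hF

theorem IsKNice.smul {F : ℍ → ℂ} (hh : 0 < h) (hF : IsKNice h F) (c : Kb) :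
    IsKNice h (fun τ => embC c * F τ) :=
  (isKNice_const hh c).mul hh hF

theorem IsKNice.neg {F : ℍ → ℂ} (hh : 0 < h) (hF : IsKNice h F) : IsKNice h (-F) := by
  have := hF.smul hh (-1)
  convert this using 1
  funext τ
  simp

theorem IsKNice.sub {F G : ℍ → ℂ} (hh : 0 < h) (hF : IsKNice h F) (hG : IsKNice h G) :
    IsKNice h (F - G) := by
  rw [sub_eq_add_neg]
  exact hF.add hh (hG.neg hh)

end

/-! ### Finite-tailed Laurent expansions -/

section

variable {N : ℕ} [NeZero N]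

/-- `f` has a finite-tailed Laurent expansion in `q_N` at `i∞` with coefficients in `ℚ̄`. -/
def HasKExp (N : ℕ) (f : ℍ → ℂ) : Prop := ∃ m : ℕ, IsKNice N (qH N ^ m * f)

omit [NeZero N] in
theorem IsKNice.hasKExp {F : ℍ → ℂ} (hF : IsKNice N F) : HasKExp N F :=
  ⟨0, by simpa using hF⟩

theorem HasKExp.mul {f g : ℍ → ℂ} (hf : HasKExp N f) (hg : HasKExp N g) : HasKExp N (f * g) := by
  obtain ⟨m₁, h₁⟩ := hf
  obtain ⟨m₂, h₂⟩ := hg
  refine ⟨m₁ + m₂, ?_⟩
  have := h₁.mul (natCast_pos_of_neZero N) h₂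
  convert this using 1
  ring

theorem HasKExp.add {f g : ℍ → ℂ} (hf : HasKExp N f) (hg : HasKExp N g) : HasKExp N (f + g) := by
  obtain ⟨m₁, h₁⟩ := hf
  obtain ⟨m₂, h₂⟩ := hg
  refine ⟨m₁ + m₂, ?_⟩
  have hN := natCast_pos_of_neZero N
  have := ((isKNice_qH_pow hN m₂).mul hN h₁).add hN ((isKNice_qH_pow hN m₁).mul hN h₂)
  convert this using 1
  ring

theorem hasKExp_const (c : Kb) : HasKExp N (fun _ => embC c) :=
  (isKNice_const (natCast_pos_of_neZero N) c).hasKExp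

theorem hasKExp_algebraMap (c : Kb) : HasKExp N (algebraMap Kb (ℍ → ℂ) c) :=
  hasKExp_const c

theorem HasKExp.smul {f : ℍ → ℂ} (hf : HasKExp N f) (c : Kb) :
    HasKExp N (fun τ => embC c * f τ) :=
  (hasKExp_const (N := N) c).mul hf

theorem HasKExp.neg {f : ℍ → ℂ} (hf : HasKExp N f) : HasKExp N (-f) := by
  have := hf.smul (-1)
  convert this using 1
  funext τ
  simp

theorem HasKExp.sub {f g : ℍ → ℂ} (hf : HasKExp N f) (hg : HasKExp N g) : HasKExp N (f - g) := by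
  rw [sub_eq_add_neg]
  exact hf.add hg.neg

theorem HasKExp.pow {f : ℍ → ℂ} (hf : HasKExp N f) (k : ℕ) : HasKExp N (f ^ k) := by
  induction k with
  | zero =>
    have := hasKExp_const (N := N) 1
    convert this using 1
    funext τ
    simp
  | succ k ih =>
    rw [pow_succ]
    exact ih.mul hf

end

/-! ### Level one: the expansion of `q · J` -/

section LevelOne

open ModularForm EisensteinSeries SlashInvariantFormClass ModularFormClass

local notation "Δ" => ModularForm.discriminant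

theorem isNice_of_modularForm {k : ℤ} (f : ModularForm 𝒮ℒ k) : IsNice 1 (f : ℍ → ℂ) where
  per := periodic_comp_ofComplex f one_mem_strictPeriods_SL
  hol := ModularFormClass.holo f
  bdd :=
    have : Fact (IsCusp OnePoint.infty 𝒮ℒ) :=
      ⟨Subgroup.isCusp_of_mem_strictPeriods one_pos one_mem_strictPeriods_SL⟩
    ModularFormClass.bdd_at_infty f

theorem isKNice_E {k : ℕ} (hk : 3 ≤ k) (hk2 : Even k) : IsKNice 1 (E hk : ℍ → ℂ) := by
  refine ⟨isNice_of_modularForm _, ?_⟩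
  rw [mem_KSer_iff]
  intro n
  rw [E_qExpansion_coeff hk hk2]
  split_ifs with hn
  · exact ⟨1, map_one _⟩
  · have := ratCast_mem_range_embC (-(2 * k / bernoulli k) * (ArithmeticFunction.sigma (k - 1) n))
    convert this using 1
    push_cast
    ring

theorem isKNice_E₄ : IsKNice 1 (E₄ : ℍ → ℂ) := isKNice_E (by norm_num) ⟨2, rfl⟩

theorem isKNice_E₆ : IsKNice 1 (E₆ : ℍ → ℂ) := isKNice_E (by norm_num) ⟨3, rfl⟩

theorem isKNice_discriminant : IsKNice 1 (Δ : ℍ → ℂ) := by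
  have h := ((isKNice_E₄.pow one_pos 3).sub one_pos (isKNice_E₆.pow one_pos 2)).smul one_pos
    ((1728 : Kb)⁻¹)
  convert h using 1
  funext τ
  rw [discriminant_eq_E₄_cube_sub_E₆_sq]
  simp only [Pi.sub_apply, Pi.pow_apply, map_inv₀, map_ofNat]
  ring

/-- `Δ / q`. -/
def discOverQ : ℍ → ℂ := fun τ => Δ τ / qH 1 τ

theorem discOverQ_eq (τ : ℍ) : discOverQ τ = ∏' n, (1 - eta_q n τ) ^ 24 := by
  rw [discOverQ, discriminant_eq_q_prod, qH_apply]
  field_simp [Function.Periodic.qParam_ne_zero]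

theorem tendsto_discOverQ : Tendsto discOverQ atImInfty (𝓝 1) :=
  tendsto_atImInfty_tprod_one_sub_eta_q_pow.congr fun τ => (discOverQ_eq τ).symm

theorem qH_mul_discOverQ : qH 1 * discOverQ = (Δ : ℍ → ℂ) := by
  funext τ
  simp only [Pi.mul_apply, discOverQ]
  field_simp [qH_ne_zero]

theorem discOverQ_ne_zero (τ : ℍ) : discOverQ τ ≠ 0 :=
  div_ne_zero (discriminant_ne_zero τ) (qH_ne_zero 1 τ)

theorem isNice_discOverQ : IsNice 1 discOverQ where
  per := fun w => by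
    have h1 := isKNice_discriminant.1.per w
    have h2 := (isNice_qH one_pos).per w
    simp only [Function.comp_apply, discOverQ] at h1 h2 ⊢
    rw [h1, h2]
  hol := by
    have hΔ := isKNice_discriminant.1.hol
    have hq := (isNice_qH (h := 1) one_pos).hol
    rw [UpperHalfPlane.mdifferentiable_iff] at hΔ hq ⊢
    exact DifferentiableOn.div hΔ hq (fun z _ => qH_ne_zero 1 _)
  bdd := tendsto_discOverQ.isBigO_one ℝ

theorem valueAtInfty_eq_of_tendsto {F : ℍ → ℂ} {c : ℂ} (hF : Tendsto F atImInfty (𝓝 c)) :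
    valueAtInfty F = c :=
  hF.limUnder_eq

theorem IsNice.coeff_zero_eq_of_tendsto {h : ℝ} (hh : 0 < h) {F : ℍ → ℂ} (hF : IsNice h F) {c : ℂ}
    (hc : Tendsto F atImInfty (𝓝 c)) : (qExpansion h F).coeff 0 = c := by
  rw [qExpansion_coeff_zero hh (hF.analyticAt hh) hF.per, valueAtInfty_eq_of_tendsto hc]

/-- If `X * Q ∈ KSer` then `Q ∈ KSer`. -/
theorem mem_KSer_of_X_mul {Q : PowerSeries ℂ} (hQ : PowerSeries.X * Q ∈ KSer) : Q ∈ KSer := by
  rw [mem_KSer_iff] at hQ ⊢
  intro n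
  have := hQ (n + 1)
  rwa [PowerSeries.coeff_succ_X_mul] at this

/-- If `X ^ k * Q ∈ KSer` then `Q ∈ KSer`. -/
theorem mem_KSer_of_X_pow_mul {Q : PowerSeries ℂ} (k : ℕ)
    (hQ : PowerSeries.X ^ k * Q ∈ KSer) : Q ∈ KSer := by
  induction k with
  | zero => simpa using hQ
  | succ k ih =>
    apply ih
    apply mem_KSer_of_X_mul
    rwa [← mul_assoc, ← pow_succ']

/-- Division by a power series in `KSer` with constant coefficient `1`. -/
theorem mem_KSer_of_mul {P Q : PowerSeries ℂ} (hQ : Q ∈ KSer) (hQ0 : Q.coeff 0 = 1)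
    (hPQ : P * Q ∈ KSer) : P ∈ KSer := by
  obtain ⟨Q₀, rfl⟩ := hQ
  have h0 : PowerSeries.constantCoeff Q₀ ≠ 0 := by
    intro h
    rw [PowerSeries.coeff_map, PowerSeries.coeff_zero_eq_constantCoeff_apply, h, map_zero] at hQ0
    exact zero_ne_one hQ0
  have hinv : Q₀ * Q₀⁻¹ = 1 := PowerSeries.mul_inv_cancel _ h0
  have h1 : PowerSeries.map embC Q₀ * PowerSeries.map embC Q₀⁻¹ = 1 := by
    rw [← map_mul, hinv, map_one]
  have : P = P * PowerSeries.map embC Q₀ * PowerSeries.map embC Q₀⁻¹ := by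
    rw [mul_assoc, h1, mul_one]
  rw [this]
  exact KSer.mul_mem hPQ ⟨_, rfl⟩

theorem isKNice_discOverQ : IsKNice 1 discOverQ := by
  refine ⟨isNice_discOverQ, ?_⟩
  apply mem_KSer_of_X_mul
  have h1 := qExpansion_mul ((isNice_qH (h := 1) one_pos).analyticAt one_pos)
    (isNice_discOverQ.analyticAt one_pos)
  have h2 := qExpansion_qH_pow (h := 1) one_pos 1
  simp only [pow_one] at h2
  rw [h2, qH_mul_discOverQ] at h1
  rw [← h1]
  exact isKNice_discriminant.2

/-- `q · J`. -/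
def qJ : ℍ → ℂ := qH 1 * Jfun

theorem qJ_apply (τ : ℍ) : qJ τ = qH 1 τ * Jfun τ := rfl

theorem tendsto_qJ : Tendsto qJ atImInfty (𝓝 1) := tendsto_qParam_mul_Jfun

theorem qJ_mul_discOverQ : qJ * discOverQ = (E₄ : ℍ → ℂ) ^ 3 := by
  funext τ
  simp only [Pi.mul_apply, Pi.pow_apply, qJ, discOverQ, Jfun]
  field_simp [qH_ne_zero, discriminant_ne_zero]

theorem Jfun_periodic : Function.Periodic (Jfun ∘ ofComplex) 1 := fun w => by
  have h1 := isKNice_E₄.1.per w
  have h2 := isKNice_discriminant.1.per w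
  simp only [Function.comp_apply, Jfun, Complex.ofReal_one] at h1 h2 ⊢
  rw [h1, h2]

theorem isNice_qJ : IsNice 1 qJ where
  per := fun w => by
    have h1 := Jfun_periodic w
    have h2 := (isNice_qH one_pos).per w
    simp only [Function.comp_apply, qJ, Pi.mul_apply, Complex.ofReal_one] at h1 h2 ⊢
    rw [h1, h2]
  hol := (isNice_qH (h := 1) one_pos).hol.mul mdifferentiable_Jfun
  bdd := tendsto_qJ.isBigO_one ℝ

theorem isKNice_qJ : IsKNice 1 qJ := by
  refine ⟨isNice_qJ, ?_⟩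
  have h1 := qExpansion_mul (isNice_qJ.analyticAt one_pos) (isNice_discOverQ.analyticAt one_pos)
  rw [qJ_mul_discOverQ] at h1
  refine mem_KSer_of_mul isKNice_discOverQ.2
    (isNice_discOverQ.coeff_zero_eq_of_tendsto one_pos tendsto_discOverQ) ?_
  rw [← h1]
  exact (isKNice_E₄.pow one_pos 3).2

end LevelOne

/-! ### The generators `J ∘ g` -/

section Generators

theorem Jcomp_upper (a b d : ℝ) (ha : 0 < a) (hd : 0 < d) (τ : ℍ) :
    Jcomp (ModularForm.upperTriangularGL a b d (mul_pos ha hd).ne') τ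
      = (Jfun ∘ ofComplex) ((a * τ + b) / d) := by
  simp only [Jcomp, Function.comp_apply]
  rw [← Fermat.Agent.S22.coe_upperTriangularGL_smul a b d ha hd τ, ofComplex_apply]

theorem tendsto_upper_smul (a b d : ℝ) (had : a * d ≠ 0) :
    Tendsto (fun τ : ℍ => ModularForm.upperTriangularGL a b d had • τ) atImInfty atImInfty :=
  tendsto_smul_atImInfty (by simp [ModularForm.val_upperTriangularGL])

/-- The root of unity `exp (2πi b / d)`. -/
def zetaBD (b : ℤ) (d : ℕ) : ℂ := Complex.exp (2 * Real.pi * Complex.I * b / d)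

theorem zetaBD_ne_zero (b : ℤ) (d : ℕ) : zetaBD b d ≠ 0 := Complex.exp_ne_zero _

theorem zetaBD_pow (b : ℤ) {d : ℕ} (hd : 0 < d) : zetaBD b d ^ d = 1 := by
  rw [zetaBD, ← Complex.exp_nat_mul]
  have hd' : (d : ℂ) ≠ 0 := by exact_mod_cast hd.ne'
  have : (d : ℂ) * (2 * Real.pi * Complex.I * b / d) = b * (2 * Real.pi * Complex.I) := by
    field_simp
  rw [this, Complex.exp_int_mul_two_pi_mul_I]

theorem zetaBD_mem_range (b : ℤ) {d : ℕ} (hd : 0 < d) : zetaBD b d ∈ Set.range embC := by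
  apply mem_range_embC_of_isAlgebraic
  apply IsIntegral.isAlgebraic
  apply IsIntegral.of_pow hd
  rw [zetaBD_pow b hd]
  exact isIntegral_one

/-- `q₁((aτ + b)/d) = ζ · q_N(τ) ^ (a · k)` if `N = d · k`. -/
theorem qParam_upper (a d k : ℕ) (b : ℤ) (hd : 0 < d) (hk : 0 < k) (z : ℂ) :
    𝕢 1 (((a : ℝ) * z + (b : ℝ)) / (d : ℝ)) = zetaBD b d * 𝕢 ((d * k : ℕ) : ℝ) z ^ (a * k) := by
  simp only [Function.Periodic.qParam, zetaBD]
  rw [← Complex.exp_nat_mul, ← Complex.exp_add]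
  congr 1
  have hd' : (d : ℂ) ≠ 0 := by exact_mod_cast hd.ne'
  have hk' : (k : ℂ) ≠ 0 := by exact_mod_cast hk.ne'
  push_cast
  field_simp
  ring

theorem Jcomp_upper_periodic (a d k : ℕ) (b : ℤ) (ha : 0 < a) (hd : 0 < d) :
    Function.Periodic
      (Jcomp (ModularForm.upperTriangularGL (a : ℝ) (b : ℝ) (d : ℝ) (by positivity)) ∘ ofComplex)
      (((d * k : ℕ) : ℝ) : ℂ) := fun w => by
  have ha' : (0 : ℝ) < a := by exact_mod_cast ha
  have hd' : (0 : ℝ) < d := by exact_mod_cast hd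
  by_cases hw : 0 < w.im
  · have hw' : 0 < (w + (((d * k : ℕ) : ℝ) : ℂ)).im := by simpa using hw
    simp only [Function.comp_apply, ofComplex_apply_of_im_pos hw, ofComplex_apply_of_im_pos hw']
    rw [Jcomp_upper _ _ _ ha' hd', Jcomp_upper _ _ _ ha' hd']
    have hper := Jfun_periodic.nat_mul (a * k)
    have hdc : (d : ℂ) ≠ 0 := by exact_mod_cast hd.ne'
    have : (((a : ℝ) : ℂ) * ((⟨w + (((d * k : ℕ) : ℝ) : ℂ), hw'⟩ : ℍ) : ℂ) + ((b : ℝ) : ℂ)) /
        ((d : ℝ) : ℂ) =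
        (((a : ℝ) : ℂ) * ((⟨w, hw⟩ : ℍ) : ℂ) + ((b : ℝ) : ℂ)) / ((d : ℝ) : ℂ)
          + ((a * k : ℕ) : ℂ) * 1 := by
      push_cast
      field_simp
      ring
    rw [this]
    exact hper _
  · have hw1 : w.im ≤ 0 := not_lt.mp hw
    have hw2 : (w + (((d * k : ℕ) : ℝ) : ℂ)).im ≤ 0 := by simpa using hw1
    simp only [Function.comp_apply]
    rw [ofComplex_apply_of_im_nonpos hw1, ofComplex_apply_of_im_nonpos hw2]

theorem qH_pow_mul_Jcomp_upper (a d k : ℕ) (b : ℤ) (ha : 0 < a) (hd : 0 < d) (hk : 0 < k)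
    (τ : ℍ) :
    (qH ((d * k : ℕ) : ℝ) ^ (a * k) *
      Jcomp (ModularForm.upperTriangularGL (a : ℝ) (b : ℝ) (d : ℝ) (by positivity))) τ
      = (zetaBD b d)⁻¹ *
        qJ (ModularForm.upperTriangularGL (a : ℝ) (b : ℝ) (d : ℝ) (by positivity) • τ) := by
  have ha' : (0 : ℝ) < a := by exact_mod_cast ha
  have hd' : (0 : ℝ) < d := by exact_mod_cast hd
  have hq := qParam_upper a d k b hd hk (τ : ℂ)
  simp only [Pi.mul_apply, Pi.pow_apply, qJ, qH_apply, Jcomp]
  rw [Fermat.Agent.S22.coe_upperTriangularGL_smul _ _ _ ha' hd', hq]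
  field_simp [zetaBD_ne_zero]

theorem isNice_upper (a d k : ℕ) (b : ℤ) (ha : 0 < a) (hd : 0 < d) (hk : 0 < k) :
    IsNice ((d * k : ℕ) : ℝ) (qH ((d * k : ℕ) : ℝ) ^ (a * k) *
      Jcomp (ModularForm.upperTriangularGL (a : ℝ) (b : ℝ) (d : ℝ) (by positivity))) := by
  have ha' : (0 : ℝ) < a := by exact_mod_cast ha
  have hd' : (0 : ℝ) < d := by exact_mod_cast hd
  have hh : (0 : ℝ) < ((d * k : ℕ) : ℝ) := by exact_mod_cast Nat.mul_pos hd hk
  have hqn := (isNice_qH hh).pow (a * k)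
  refine ⟨fun w => ?_, hqn.hol.mul (mdifferentiable_Jcomp
    (Fermat.Agent.S22.det_upperTriangularGL_pos _ _ _ ha' hd')), ?_⟩
  · have h1 := hqn.per w
    have h2 := Jcomp_upper_periodic a d k b ha hd w
    simp only [Function.comp_apply, Pi.mul_apply] at h1 h2 ⊢
    rw [h1, h2]
  · have hb : IsBoundedAtImInfty qJ := isNice_qJ.bdd
    have hb2 := (hb.comp_tendsto (tendsto_upper_smul (a : ℝ) (b : ℝ) (d : ℝ)
      (mul_pos ha' hd').ne')).const_mul_left (zetaBD b d)⁻¹
    refine hb2.congr_left fun τ => ?_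
    rw [qH_pow_mul_Jcomp_upper a d k b ha hd hk τ]
    rfl

theorem isKNice_upper (a d k : ℕ) (b : ℤ) (ha : 0 < a) (hd : 0 < d) (hk : 0 < k) :
    IsKNice ((d * k : ℕ) : ℝ) (qH ((d * k : ℕ) : ℝ) ^ (a * k) *
      Jcomp (ModularForm.upperTriangularGL (a : ℝ) (b : ℝ) (d : ℝ) (by positivity))) := by
  have ha' : (0 : ℝ) < a := by exact_mod_cast ha
  have hd' : (0 : ℝ) < d := by exact_mod_cast hd
  have hh : (0 : ℝ) < ((d * k : ℕ) : ℝ) := by exact_mod_cast Nat.mul_pos hd hk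
  have hnice := isNice_upper a d k b ha hd hk
  refine ⟨hnice, ?_⟩
  set e := a * k with he
  have he0 : 0 < e := Nat.mul_pos ha hk
  set ζ := zetaBD b d with hζ
  set c : ℕ → ℂ := fun n => (qExpansion 1 qJ).coeff n with hc
  set c' : ℕ → ℂ := fun n => if e ∣ n then ζ⁻¹ * c (n / e) * ζ ^ (n / e) else 0 with hc'
  have hinj : Function.Injective (fun n : ℕ => e * n) := fun x y hxy =>
    Nat.eq_of_mul_eq_mul_left he0 hxy
  have key : ∀ n, c' n = (qExpansion ((d * k : ℕ) : ℝ) (qH ((d * k : ℕ) : ℝ) ^ e *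
      Jcomp (ModularForm.upperTriangularGL (a : ℝ) (b : ℝ) (d : ℝ) (by positivity)))).coeff n := by
    refine qExpansion_coeff_unique_fun hh (hnice.analyticAt hh) (fun τ => ?_)
    rw [qH_pow_mul_Jcomp_upper a d k b ha hd hk τ]
    have hs := (isNice_qJ.hasSum one_pos
      (ModularForm.upperTriangularGL (a : ℝ) (b : ℝ) (d : ℝ) (mul_pos ha' hd').ne' • τ)).mul_left
      ζ⁻¹
    rw [← hinj.hasSum_iff]
    · have hfun : ((fun n : ℕ => c' n • 𝕢 ((d * k : ℕ) : ℝ) (τ : ℂ) ^ n) ∘ fun n : ℕ => e * n) =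
          fun i => ζ⁻¹ * ((qExpansion 1 qJ).coeff i • 𝕢 1 ((ModularForm.upperTriangularGL
            (a : ℝ) (b : ℝ) (d : ℝ) (mul_pos ha' hd').ne' • τ : ℍ) : ℂ) ^ i) := by
        funext n
        have h1 : e * n / e = n := Nat.mul_div_cancel_left n he0
        have hq := qParam_upper a d k b hd hk (τ : ℂ)
        rw [← Fermat.Agent.S22.coe_upperTriangularGL_smul _ _ _ ha' hd'] at hq
        simp only [Function.comp_apply, hc', hc, dvd_mul_right, if_true, h1, smul_eq_mul]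
        rw [hq, mul_pow, pow_mul]
        ring
      rw [hfun]
      exact hs
    · intro n hn
      have : ¬ e ∣ n := fun ⟨m, hm⟩ => hn ⟨m, hm.symm⟩
      simp [hc', this]
  rw [mem_KSer_iff]
  intro n
  rw [← key n]
  simp only [hc']
  split_ifs with hdiv
  · have hmem : ∀ m, c m ∈ Set.range embC := mem_KSer_iff.mp isKNice_qJ.2
    have hζmem : ζ ∈ embC.fieldRange := zetaBD_mem_range b hd
    have hcm : c (n / e) ∈ embC.fieldRange := hmem _
    exact Subfield.mul_mem _ (Subfield.mul_mem _ (Subfield.inv_mem _ hζmem) hcm)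
      (Subfield.pow_mem _ hζmem _)
  · exact ⟨0, map_zero _⟩

/-- Hermite normal form of a level matrix, in `GL (Fin 2) ℝ`. -/
theorem exists_upper_of_isLevelMatrix {N : ℕ} [NeZero N] {g : GL (Fin 2) ℝ}
    (hg : IsLevelMatrix N g) :
    ∃ (δ : SL(2, ℤ)) (a d k : ℕ) (b : ℤ) (ha : 0 < a) (hd : 0 < d) (_ : 0 < k), N = d * k ∧
      g = (δ : GL (Fin 2) ℝ) *
        ModularForm.upperTriangularGL (a : ℝ) (b : ℝ) (d : ℝ) (by positivity) := by
  obtain ⟨A, hA, hAN, hgA⟩ := hg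
  obtain ⟨δ, a, b, d, ha, hd, hAeq⟩ := Fermat.Agent.S22.exists_SL2_mul_upper A hA
  have hdet : A.det = a * d := by
    rw [hAeq, Matrix.det_mul, δ.det_coe, Matrix.det_fin_two_of]
    ring
  lift a to ℕ using ha.le
  lift d to ℕ using hd.le
  have ha' : 0 < a := by exact_mod_cast ha
  have hd' : 0 < d := by exact_mod_cast hd
  rw [hdet] at hAN
  have hAN' : a * d ∣ N := by
    have : ((a : ℤ) * (d : ℤ)).natAbs = a * d := by
      rw [Int.natAbs_mul, Int.natAbs_natCast, Int.natAbs_natCast]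
    rwa [this] at hAN
  obtain ⟨m, hm⟩ := hAN'
  have hm0 : 0 < m := by
    rcases Nat.eq_zero_or_pos m with h | h
    · exfalso
      rw [h, mul_zero] at hm
      exact NeZero.ne N hm
    · exact h
  refine ⟨δ, a, d, a * m, b, ha', hd', Nat.mul_pos ha' hm0, by rw [hm]; ring, ?_⟩
  apply Matrix.GeneralLinearGroup.ext
  intro i j
  have h2 := congrArg (fun M : Matrix (Fin 2) (Fin 2) ℤ => ((M i j : ℤ) : ℝ)) hAeq
  simp only [Matrix.mul_apply, Fin.sum_univ_two] at h2
  have h3 : (g : Matrix (Fin 2) (Fin 2) ℝ) i j = ((A i j : ℤ) : ℝ) := by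
    rw [hgA]; rfl
  rw [h3, h2]
  simp only [Matrix.GeneralLinearGroup.coe_mul, ModularForm.val_upperTriangularGL,
    Matrix.mul_apply, Fin.sum_univ_two]
  fin_cases i <;> fin_cases j <;> simp

theorem Jcomp_SL_mul (δ : SL(2, ℤ)) (g : GL (Fin 2) ℝ) :
    Jcomp ((δ : GL (Fin 2) ℝ) * g) = Jcomp g := by
  funext τ
  simp only [Jcomp, mul_smul]
  exact Jfun_smul_SL δ (g • τ)

/-- Each generator `J ∘ g` of `Ban N` has a finite-tailed `q_N`-expansion over `ℚ̄`. -/
theorem hasKExp_Jcomp {N : ℕ} [NeZero N] {g : GL (Fin 2) ℝ} (hg : IsLevelMatrix N g) :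
    HasKExp N (Jcomp g) := by
  obtain ⟨δ, a, d, k, b, ha, hd, hk, hN, rfl⟩ := exists_upper_of_isLevelMatrix hg
  rw [Jcomp_SL_mul]
  subst hN
  exact ⟨a * k, isKNice_upper a d k b ha hd hk⟩

/-- Every element of `Ban N` has a finite-tailed `q_N`-expansion over `ℚ̄`. -/
theorem hasKExp_of_mem_Ban {N : ℕ} [NeZero N] {f : ℍ → ℂ} (hf : f ∈ Ban N) : HasKExp N f := by
  induction hf using Algebra.adjoin_induction with
  | mem x hx =>
    obtain ⟨g, hg, rfl⟩ := hx
    exact hasKExp_Jcomp hg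
  | algebraMap r => exact hasKExp_algebraMap r
  | add x y _ _ hx hy => exact hx.add hy
  | mul x y _ _ hx hy => exact hx.mul hy

end Generators

/-! ### Consequences: boundedness of `Δ ^ M * f`, descent of coefficients -/

section Descent

open Polynomial

local notation "Δ" => ModularForm.discriminant

variable {N : ℕ} [NeZero N]

theorem qH_one_eq (N : ℕ) [NeZero N] : qH 1 = qH N ^ N := by
  funext τ
  simp only [Pi.pow_apply, qH_apply, Function.Periodic.qParam]
  rw [← Complex.exp_nat_mul]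
  congr 1
  have hN : (N : ℂ) ≠ 0 := by exact_mod_cast NeZero.ne N
  push_cast
  field_simp

theorem discriminant_eq_discOverQ_mul : (Δ : ℍ → ℂ) = discOverQ * qH N ^ N := by
  rw [← qH_one_eq N, mul_comm, qH_mul_discOverQ]

/-- If `f` has a finite-tailed expansion then `Δ ^ M * f` is bounded at `i∞` for some `M`. -/
theorem HasKExp.exists_isBoundedAtImInfty {f : ℍ → ℂ} (hf : HasKExp N f) :
    ∃ M : ℕ, IsBoundedAtImInfty (fun τ => Δ τ ^ M * f τ) := by
  obtain ⟨m, hm⟩ := hf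
  refine ⟨m, ?_⟩
  have hN := natCast_pos_of_neZero N
  have hNm : m ≤ N * m := Nat.le_mul_of_pos_left m (Nat.pos_of_ne_zero (NeZero.ne N))
  have h1 : IsBoundedAtImInfty (discOverQ ^ m * qH N ^ (N * m - m) * (qH N ^ m * f)) :=
    (((isNice_discOverQ.pow m).bdd).mul (((isNice_qH hN).pow _).bdd)).mul hm.1.bdd
  convert h1 using 1
  funext τ
  have h2 : Δ τ = discOverQ τ * qH N τ ^ N := congrFun (discriminant_eq_discOverQ_mul (N := N)) τ
  simp only [Pi.mul_apply, Pi.pow_apply]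
  rw [h2, mul_pow, ← pow_mul]
  have h3 : qH (N : ℝ) τ ^ (N * m) = qH (N : ℝ) τ ^ (N * m - m) * qH (N : ℝ) τ ^ m := by
    rw [← pow_add, Nat.sub_add_cancel hNm]
  rw [h3]
  ring

theorem hasKExp_Jfun (N : ℕ) [NeZero N] : HasKExp N Jfun := by
  rw [← Jcomp_one]
  exact hasKExp_Jcomp (isLevelMatrix_one N)

theorem mdifferentiable_eval_Jfun (p : ℂ[X]) : MDiff (fun τ => p.eval (Jfun τ)) := by
  have hJ := mdifferentiable_Jfun
  rw [UpperHalfPlane.mdifferentiable_iff] at hJ ⊢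
  exact p.differentiable.comp_differentiableOn hJ

theorem periodic_eval_Jfun (p : ℂ[X]) (N : ℕ) :
    Function.Periodic ((fun τ => p.eval (Jfun τ)) ∘ ofComplex) ((N : ℝ) : ℂ) := fun w => by
  have h := Jfun_periodic.nat_mul N w
  simp only [Function.comp_apply, mul_one] at h ⊢
  rw [Complex.ofReal_natCast, h]

/-- `q ^ d * p(J) → leadingCoeff p` at `i∞`, `d = natDegree p`. -/
theorem tendsto_qH_pow_mul_eval (p : ℂ[X]) :
    Tendsto (fun τ => qH 1 τ ^ p.natDegree * p.eval (Jfun τ)) atImInfty (𝓝 p.leadingCoeff) := by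
  set d := p.natDegree with hd
  have hfun : (fun τ => qH 1 τ ^ d * p.eval (Jfun τ)) =
      fun τ => ∑ i ∈ Finset.range (d + 1), p.coeff i * (qH 1 τ ^ (d - i) * qJ τ ^ i) := by
    funext τ
    rw [Polynomial.eval_eq_sum_range, Finset.mul_sum]
    refine Finset.sum_congr rfl fun i hi => ?_
    have hi' : i ≤ d := Nat.lt_succ_iff.mp (Finset.mem_range.mp hi)
    rw [qJ_apply, mul_pow]
    have : qH 1 τ ^ d = qH 1 τ ^ (d - i) * qH 1 τ ^ i := by
      rw [← pow_add, Nat.sub_add_cancel hi']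
    rw [this]
    ring
  rw [hfun]
  have hterm : ∀ i ∈ Finset.range (d + 1),
      Tendsto (fun τ => p.coeff i * (qH 1 τ ^ (d - i) * qJ τ ^ i)) atImInfty
        (𝓝 (p.coeff i * ((0 : ℂ) ^ (d - i) * 1 ^ i))) := fun i _ =>
    (((tendsto_qH one_pos).pow (d - i)).mul (tendsto_qJ.pow i)).const_mul _
  have hsum := tendsto_finsetSum (Finset.range (d + 1)) hterm
  convert hsum using 2
  rw [Finset.sum_eq_single d]
  · rw [Nat.sub_self, pow_zero, one_pow, mul_one, mul_one]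
    rfl
  · intro i hi hid
    have hi' : i ≤ d := Nat.lt_succ_iff.mp (Finset.mem_range.mp hi)
    have : d - i ≠ 0 := Nat.sub_ne_zero_of_lt (lt_of_le_of_ne hi' hid)
    simp [this]
  · intro h
    exact absurd (Finset.mem_range.mpr (Nat.lt_succ_self d)) h

/-- The leading coefficient of `p` lies in `ℚ̄` if `p(J)` has an expansion over `ℚ̄`. -/
theorem leadingCoeff_mem_range (p : ℂ[X]) (hp : HasKExp N (fun τ => p.eval (Jfun τ))) :
    p.leadingCoeff ∈ Set.range embC := by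
  obtain ⟨m, hm⟩ := hp
  have hN := natCast_pos_of_neZero N
  obtain ⟨f, hf⟩ : ∃ f : ℍ → ℂ, f = fun τ => p.eval (Jfun τ) := ⟨_, rfl⟩
  rw [← hf] at hm
  obtain ⟨G, hG⟩ : ∃ G : ℍ → ℂ, G = qH N ^ (N * p.natDegree) * f := ⟨_, rfl⟩
  have hGeq : G = fun τ => qH 1 τ ^ p.natDegree * p.eval (Jfun τ) := by
    funext τ
    simp only [hG, hf, Pi.mul_apply, Pi.pow_apply, qH_one_eq N, ← pow_mul]
  have htend : Tendsto G atImInfty (𝓝 p.leadingCoeff) := by
    rw [hGeq]; exact tendsto_qH_pow_mul_eval p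
  have hGnice : IsNice N G := by
    refine ⟨fun w => ?_, ?_, htend.isBigO_one ℝ⟩
    swap
    · rw [hG, hf]
      exact (((isNice_qH hN).pow _).hol).mul (mdifferentiable_eval_Jfun p)
    have h1 := ((isNice_qH hN).pow (N * p.natDegree)).per w
    have h2 := periodic_eval_Jfun p N w
    simp only [Function.comp_apply, hG, hf, Pi.mul_apply] at h1 h2 ⊢
    rw [h1, h2]
  have hrel : qH N ^ m * G = qH N ^ (N * p.natDegree) * (qH N ^ m * f) := by
    rw [hG]; ring
  have hq1 := qExpansion_mul (((isNice_qH hN).pow m).analyticAt hN) (hGnice.analyticAt hN)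
  have hq2 := qExpansion_mul (((isNice_qH hN).pow (N * p.natDegree)).analyticAt hN)
    (hm.1.analyticAt hN)
  rw [hrel, hq2, qExpansion_qH_pow hN, qExpansion_qH_pow hN] at hq1
  have hmem : PowerSeries.X ^ m * qExpansion N G ∈ KSer := by
    rw [← hq1]
    exact KSer.mul_mem (KSer.pow_mem X_mem_KSer _) hm.2
  have hGK := mem_KSer_of_X_pow_mul m hmem
  have h0 := hGnice.coeff_zero_eq_of_tendsto hN htend
  rw [← h0]
  exact mem_KSer_iff.mp hGK 0

/-- Descent: if `p(J)` has an expansion over `ℚ̄` then `p` has coefficients in `ℚ̄`. -/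
theorem poly_descent : ∀ (n : ℕ) (p : ℂ[X]), p.natDegree ≤ n →
    HasKExp N (fun τ => p.eval (Jfun τ)) → ∃ p₀ : Kb[X], p₀.map embC = p := by
  intro n
  induction n with
  | zero =>
    intro p hdeg hp
    obtain ⟨c, hc⟩ := leadingCoeff_mem_range p hp
    have h0 : p.natDegree = 0 := Nat.le_zero.mp hdeg
    have hpC : p = C (p.coeff 0) := Polynomial.eq_C_of_natDegree_le_zero hdeg
    have hlead : p.leadingCoeff = p.coeff 0 := by rw [Polynomial.leadingCoeff, h0]
    refine ⟨C c, ?_⟩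
    rw [Polynomial.map_C, hc, hlead]
    exact hpC.symm
  | succ n ih =>
    intro p hdeg hp
    obtain ⟨c, hc⟩ := leadingCoeff_mem_range p hp
    have hsplit := Polynomial.eraseLead_add_monomial_natDegree_leadingCoeff p
    have hdeg' : p.eraseLead.natDegree ≤ n :=
      (Polynomial.eraseLead_natDegree_le p).trans (by omega)
    have hK : HasKExp N (fun τ => p.eraseLead.eval (Jfun τ)) := by
      have h1 := hp.sub (((hasKExp_Jfun N).pow p.natDegree).smul c)
      convert h1 using 1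
      funext τ
      have h2 := congrArg (fun q : ℂ[X] => q.eval (Jfun τ)) hsplit
      simp only [Polynomial.eval_add, Polynomial.eval_monomial] at h2
      simp only [Pi.sub_apply, Pi.pow_apply, hc]
      rw [← h2]
      ring
    obtain ⟨p₀, hp₀⟩ := ih p.eraseLead hdeg' hK
    refine ⟨p₀ + Polynomial.monomial p.natDegree c, ?_⟩
    rw [Polynomial.map_add, hp₀, Polynomial.map_monomial, hc, hsplit]

/-- An `SL(2,ℤ)`-invariant element of `Ban N` is a polynomial in `Jfun` with coefficients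
in `ℚ̄`. -/
theorem exists_poly_of_mem_Ban_of_invariant {f : ℍ → ℂ} (hf : f ∈ Ban N)
    (hinv : ∀ γ : SL(2, ℤ), ∀ τ : ℍ, f (γ • τ) = f τ) :
    ∃ p₀ : Kb[X], ∀ τ, f τ = (p₀.map embC).eval (Jfun τ) := by
  have hK := hasKExp_of_mem_Ban hf
  obtain ⟨M, hM⟩ := hK.exists_isBoundedAtImInfty
  obtain ⟨p, -, hp⟩ := exists_poly_of_invariant f (mdifferentiable_of_mem_Ban hf) hinv M hM
  have hfp : f = fun τ => p.eval (Jfun τ) := funext hp
  rw [hfp] at hK
  obtain ⟨p₀, hp₀⟩ := poly_descent p.natDegree p le_rfl hK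
  exact ⟨p₀, fun τ => by rw [hp₀]; exact hp τ⟩

end Descent

end Fermat.Agent.S24.KExp

end
end ZBS24_003_4

/-! ### bundled: `Fermat.Agent.S24.Fixed` -/
section ZBS24_003_5

/-!
# S24 piece P7a (part 3): the field of `SL(2,ℤ)`-invariants of `Man N` is `ℚ̄(j)`

* `actBan_fixed_eq_aeval`: an element of `Ban N` fixed by all `actBan N γ` is a polynomial in
  `jBan N` with coefficients in `ℚ̄`.
* `fixed_mem_adjoin_jMan`: an element of `Man N` fixed by all `act N γ` lies in `ℚ̄(jMan N)`.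
  This is the field `fixed` of `Realization N` (see `realization_of_pieces`).
-/

set_option autoImplicit false

noncomputable section

open UpperHalfPlane IntermediateField
open scoped MatrixGroups Polynomial

namespace Fermat.Agent.S24

attribute [local instance] algKbC

/-- Evaluation at `τ`, as a `ℚ̄`-algebra homomorphism `Ban N → ℂ`. -/
def evalBan (N : ℕ) (τ : ℍ) : Ban N →ₐ[Kb] ℂ :=
  (Pi.evalAlgHom Kb (fun _ : ℍ => ℂ) τ).comp (Ban N).val

theorem evalBan_apply (N : ℕ) (τ : ℍ) (f : Ban N) : evalBan N τ f = (f : ℍ → ℂ) τ := rfl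

theorem aeval_jBan_apply (N : ℕ) (p : Kb[X]) (τ : ℍ) :
    ((Polynomial.aeval (jBan N) p : Ban N) : ℍ → ℂ) τ = (p.map embC).eval (Jfun τ) := by
  rw [← evalBan_apply, ← Polynomial.aeval_algHom_apply, evalBan_apply, jBan_coe,
    Polynomial.aeval_def, Polynomial.eval_map]
  rfl

/-- An element of `Ban N` fixed by `SL(2,ℤ)` is a polynomial in `j` over `ℚ̄`. -/
theorem actBan_fixed_eq_aeval (N : ℕ) [NeZero N] (f : Ban N) (hf : ∀ γ, actBan N γ f = f) :
    ∃ p : Kb[X], f = Polynomial.aeval (jBan N) p := by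
  have hinv : ∀ γ : SL(2, ℤ), ∀ τ : ℍ, (f : ℍ → ℂ) (γ • τ) = (f : ℍ → ℂ) τ := by
    intro γ τ
    have h := congrArg (fun g : Ban N => (g : ℍ → ℂ) τ) (hf γ⁻¹)
    simp only [actBan_apply_apply, inv_inv] at h
    exact h
  obtain ⟨p, hp⟩ := KExp.exists_poly_of_mem_Ban_of_invariant f.2 hinv
  refine ⟨p, Subtype.ext (funext fun τ => ?_)⟩
  rw [aeval_jBan_apply]
  exact hp τ

theorem algebraMap_aeval_jBan (N : ℕ) (p : Kb[X]) :
    algebraMap (Ban N) (Man N) (Polynomial.aeval (jBan N) p) = Polynomial.aeval (jMan N) p := by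
  rw [jMan, ← Polynomial.aeval_algebraMap_apply]

/-- The field of invariants of `SL(2,ℤ)` on `Man N` is `ℚ̄(j)`. -/
theorem fixed_mem_adjoin_jMan (N : ℕ) [NeZero N] (m : Man N) (hm : ∀ γ, act N γ m = m) :
    m ∈ Kb⟮jMan N⟯ := by
  classical
  have : Finite (act N).range := finite_range_act N
  have : Fintype (act N).range := Fintype.ofFinite _
  obtain ⟨a, b, hb, rfl⟩ := IsFractionRing.div_surjective (A := Ban N) m
  have hb0 : b ≠ 0 := nonZeroDivisors.ne_zero hb
  have hbM : algebraMap (Ban N) (Man N) b ≠ 0 := by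
    rwa [Ne, IsFractionRing.to_map_eq_zero_iff]
  -- the image of `Ban N` in `Man N`
  set B' : Subring (Man N) := (algebraMap (Ban N) (Man N)).range with hB'
  have hstable : ∀ σ : (act N).range, ∀ x ∈ B', (σ : Man N ≃ₐ[Kb] Man N) x ∈ B' := by
    rintro ⟨_, γ, rfl⟩ _ ⟨y, rfl⟩
    exact ⟨actBan N γ y, (act_algebraMap N γ y).symm⟩
  set bM := algebraMap (Ban N) (Man N) b with hbMdef
  set P : Man N := ∏ σ : (act N).range, (σ : Man N ≃ₐ[Kb] Man N) bM with hP
  set Q : Man N := ∏ σ ∈ (Finset.univ.erase (1 : (act N).range)),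
    (σ : Man N ≃ₐ[Kb] Man N) bM with hQ
  have hPQ : bM * Q = P := by
    have := Finset.mul_prod_erase (Finset.univ : Finset (act N).range)
      (fun σ => (σ : Man N ≃ₐ[Kb] Man N) bM) (Finset.mem_univ 1)
    simpa using this
  have hQmem : Q ∈ B' :=
    Subring.prod_mem _ fun σ _ => hstable σ _ ⟨b, rfl⟩
  have hPmem : P ∈ B' := by
    rw [← hPQ]; exact Subring.mul_mem _ ⟨b, rfl⟩ hQmem
  have hP0 : P ≠ 0 := by
    rw [hP, Finset.prod_ne_zero_iff]
    intro σ _
    exact (map_ne_zero_iff _ (AlgEquiv.injective _)).mpr hbM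
  have hPinv : ∀ γ, act N γ P = P := by
    intro γ
    rw [hP, map_prod]
    let τ : (act N).range := ⟨act N γ, γ, rfl⟩
    refine Fintype.prod_equiv (Equiv.mulLeft τ) _ _ fun σ => ?_
    rfl
  -- numerator
  set n : Man N := algebraMap (Ban N) (Man N) a * Q with hn
  have hnmem : n ∈ B' := Subring.mul_mem _ ⟨a, rfl⟩ hQmem
  have hmn : algebraMap (Ban N) (Man N) a / bM = n / P := by
    rw [hn, ← hPQ]
    have hQ0 : Q ≠ 0 := by
      intro h
      rw [← hPQ, h, mul_zero] at hP0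
      exact hP0 rfl
    field_simp
  have hninv : ∀ γ, act N γ n = n := by
    intro γ
    have h1 : n = (algebraMap (Ban N) (Man N) a / bM) * P := by
      rw [hmn]; field_simp
    rw [h1, map_mul, hm γ, hPinv γ]
  obtain ⟨n₀, hn₀⟩ := hnmem
  obtain ⟨P₀, hP₀⟩ := hPmem
  have hinj : Function.Injective (algebraMap (Ban N) (Man N)) := IsFractionRing.injective _ _
  have hn₀inv : ∀ γ, actBan N γ n₀ = n₀ := fun γ => hinj <| by
    rw [← act_algebraMap, hn₀, hninv γ]
  have hP₀inv : ∀ γ, actBan N γ P₀ = P₀ := fun γ => hinj <| by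
    rw [← act_algebraMap, hP₀, hPinv γ]
  obtain ⟨p, hp⟩ := actBan_fixed_eq_aeval N n₀ hn₀inv
  obtain ⟨q, hq⟩ := actBan_fixed_eq_aeval N P₀ hP₀inv
  rw [hmn, ← hn₀, ← hP₀, hp, hq, algebraMap_aeval_jBan, algebraMap_aeval_jBan]
  have hj : jMan N ∈ Kb⟮jMan N⟯ := IntermediateField.mem_adjoin_simple_self Kb (jMan N)
  have haeval : ∀ r : Kb[X], Polynomial.aeval (jMan N) r ∈ Kb⟮jMan N⟯ := fun r => by
    have := Polynomial.aeval_mem_adjoin_singleton Kb (jMan N) (p := r)
    exact IntermediateField.algebra_adjoin_le_adjoin Kb _ this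
  exact div_mem (haeval p) (haeval q)

end Fermat.Agent.S24

end
end ZBS24_003_5

/-! ### bundled: `Fermat.Agent.S24.CuspBan` -/
section ZBS24_003_6

/-!
# S24 piece P5c, part 2: the elements of `Ban N` at the cusp `i∞`

Every `b ∈ Ban N` is `N`-periodic and its cusp function `cuspFn N b` is meromorphic at `0`;
it is not identically zero near `0` unless `b = 0`.  The cusp function of `Jfun` has order `-N`.
-/

set_option autoImplicit false

noncomputable section

open Complex Filter Topology UpperHalfPlane Function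
open scoped MatrixGroups Manifold

namespace Fermat.Agent.S24

attribute [local instance] algKbC

/-! ### `Jfun` at the cusp -/

theorem isPer_one_Jfun : IsPer 1 Jfun := by
  intro τ
  have := Jfun_smul ModularGroup.T τ
  rw [modular_T_smul] at this
  simpa using this

/-- The cusp function of `Jfun` (in `q = q_1`) is `q⁻¹ · g` with `g` analytic, `g 0 = 1`. -/
theorem exists_analyticAt_cuspFn_Jfun :
    ∃ g : ℂ → ℂ, AnalyticAt ℂ g 0 ∧ g 0 = 1 ∧
      ∀ᶠ q in 𝓝[≠] (0 : ℂ), cuspFn 1 Jfun q = q ^ (-(1 : ℤ)) * g q := by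
  have h := exists_analyticAt_cuspFn (N := 1) one_pos Jfun_mdifferentiable isPer_one_Jfun 1 1
    (by simpa using tendsto_qParam_mul_Jfun)
  simpa using h

theorem meromorphicAt_cuspFn_one_Jfun : MeromorphicAt (cuspFn 1 Jfun) 0 := by
  obtain ⟨g, hg, -, h⟩ := exists_analyticAt_cuspFn_Jfun
  exact meromorphicAt_of_eventually_eq_zpow_mul hg h

theorem meromorphicOrderAt_cuspFn_one_Jfun :
    meromorphicOrderAt (cuspFn 1 Jfun) 0 = ((-1 : ℤ) : WithTop ℤ) := by
  obtain ⟨g, hg, hg0, h⟩ := exists_analyticAt_cuspFn_Jfun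
  exact meromorphicOrderAt_of_eventually_eq_zpow_mul hg (by rw [hg0]; exact one_ne_zero) h

/-! ### Upper triangular matrices -/

theorem coe_upperTri_smul (a b d : ℝ) (ha : 0 < a) (hd : 0 < d) (τ : ℍ) :
    ((ModularForm.upperTriangularGL a b d (mul_pos ha hd).ne' • τ : ℍ) : ℂ) = (a * τ + b) / d := by
  have hdet : 0 < ((ModularForm.upperTriangularGL a b d (mul_pos ha hd).ne').det : ℝ) := by
    rw [Matrix.GeneralLinearGroup.val_det_apply, ModularForm.val_upperTriangularGL,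
      Matrix.det_fin_two_of]
    simpa using mul_pos ha hd
  rw [UpperHalfPlane.coe_smul_of_det_pos hdet]
  simp [UpperHalfPlane.num, UpperHalfPlane.denom, ModularForm.val_upperTriangularGL]

/-- `q_1((aτ+b)/d) = ζ · q_N(τ)^(a k)` if `N = d k`. -/
theorem qParam_one_upperTri {N : ℕ} (a d k : ℕ) (b : ℤ) (hd : 0 < d) (hN : N = d * k)
    (hN0 : 0 < N) (z : ℂ) :
    Function.Periodic.qParam (1 : ℝ) (((a : ℝ) * z + (b : ℝ)) / (d : ℝ))
      = Function.Periodic.qParam (1 : ℝ) (((b : ℝ) : ℂ) / (d : ℝ)) *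
          Function.Periodic.qParam (N : ℝ) z ^ (a * k) := by
  have hd' : (d : ℂ) ≠ 0 := by exact_mod_cast hd.ne'
  have hk : 0 < k := by
    rcases Nat.eq_zero_or_pos k with h | h
    · rw [h, mul_zero] at hN; omega
    · exact h
  have hk' : (k : ℂ) ≠ 0 := by exact_mod_cast hk.ne'
  simp only [Function.Periodic.qParam]
  rw [← Complex.exp_nat_mul, ← Complex.exp_add]
  congr 1
  rw [hN]
  push_cast
  field_simp
  ring

/-- Hermite normal form of a level matrix. -/
theorem IsLevelMatrix.exists_upperTri {N : ℕ} (hN : 0 < N) {g : GL (Fin 2) ℝ}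
    (hg : IsLevelMatrix N g) :
    ∃ (δ : SL(2, ℤ)) (a d k : ℕ) (b : ℤ) (ha : 0 < a) (hd : 0 < d), 0 < k ∧ N = d * k ∧
      g = (δ : GL (Fin 2) ℝ) * ModularForm.upperTriangularGL (a : ℝ) (b : ℝ) (d : ℝ)
        (mul_pos (Nat.cast_pos.mpr ha) (Nat.cast_pos.mpr hd)).ne' := by
  obtain ⟨A, hA, hAN, hgA⟩ := hg
  obtain ⟨δ, a, b, d, ha, hd, h⟩ := Fermat.Agent.S22.exists_SL2_mul_upper A hA
  lift a to ℕ using ha.le
  lift d to ℕ using hd.le
  have ha' : 0 < a := by exact_mod_cast ha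
  have hd' : 0 < d := by exact_mod_cast hd
  have hdet : A.det = (a : ℤ) * d := by
    rw [h, Matrix.det_mul, δ.det_coe, Matrix.det_fin_two_of]; ring
  have hdvd : a * d ∣ N := by
    have : A.det.natAbs = a * d := by
      rw [hdet]; simp [Int.natAbs_mul]
    rwa [this] at hAN
  obtain ⟨k', hk'⟩ := hdvd
  have hk0 : 0 < a * k' := by
    rcases Nat.eq_zero_or_pos (a * k') with h0 | h0
    · have : N = 0 := by rw [hk', mul_right_comm, h0, zero_mul]
      omega
    · exact h0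
  refine ⟨δ, a, d, a * k', b, ha', hd', hk0, by rw [hk']; ring, ?_⟩
  apply Matrix.GeneralLinearGroup.ext
  intro i j
  have h1 : (g : Matrix (Fin 2) (Fin 2) ℝ) i j = ((A i j : ℤ) : ℝ) := by
    rw [hgA]; rfl
  have h2 := congrArg (fun M : Matrix (Fin 2) (Fin 2) ℤ => ((M i j : ℤ) : ℝ)) h
  simp only [Matrix.mul_apply, Fin.sum_univ_two] at h2
  rw [h1, h2]
  simp only [Matrix.GeneralLinearGroup.coe_mul, ModularForm.val_upperTriangularGL,
    Matrix.mul_apply, Fin.sum_univ_two]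
  fin_cases i <;> fin_cases j <;> simp

/-- Near `0`, the cusp function of `Jcomp g` is `G (ζ q ^ e)`, `G` the cusp function of `Jfun`. -/
theorem cuspFn_Jcomp_eventually {N : ℕ} (hN : 0 < N) {g : GL (Fin 2) ℝ}
    (hg : IsLevelMatrix N g) :
    ∃ (ζ : ℂ) (e : ℕ), 0 < e ∧ ζ ≠ 0 ∧
      ∀ᶠ q in 𝓝[≠] (0 : ℂ), cuspFn N (Jcomp g) q = cuspFn 1 Jfun (ζ * q ^ e) := by
  obtain ⟨δ, a, d, k, b, ha, hd, hk, hNdk, hgu⟩ := hg.exists_upperTri hN
  refine ⟨Function.Periodic.qParam (1 : ℝ) (((b : ℝ) : ℂ) / (d : ℝ)), a * k, Nat.mul_pos ha hk,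
    Function.Periodic.qParam_ne_zero _, ?_⟩
  filter_upwards [eventually_punctured_disc] with q hq
  set τ : ℍ := ofComplex (Function.Periodic.invQParam (N : ℝ) q) with hτ
  have hqτ : Function.Periodic.qParam (N : ℝ) (τ : ℂ) = q :=
    qParam_ofComplex_invQParam hN hq.1 hq.2
  set u : GL (Fin 2) ℝ := ModularForm.upperTriangularGL (a : ℝ) (b : ℝ) (d : ℝ)
        (mul_pos (Nat.cast_pos.mpr ha) (Nat.cast_pos.mpr hd)).ne' with hu
  have e1 : cuspFn N (Jcomp g) q = Jfun (u • τ) := by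
    rw [cuspFn_apply, ← hτ, Jcomp, hgu, mul_smul]
    exact Jfun_smul δ (u • τ)
  have e2 : Jfun (u • τ) = cuspFn 1 Jfun (Function.Periodic.qParam ((1 : ℕ) : ℝ) (u • τ : ℍ)) :=
    (cuspFn_qParam one_pos isPer_one_Jfun (u • τ)).symm
  rw [e1, e2, Nat.cast_one, hu, coe_upperTri_smul _ _ _ (Nat.cast_pos.mpr ha) (Nat.cast_pos.mpr hd),
    qParam_one_upperTri a d k b hd hNdk hN, hqτ]

theorem isPer_of_mem_Ban {N : ℕ} {f : ℍ → ℂ} (hf : f ∈ Ban N) : IsPer N f := by
  intro τ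
  have hT : ModularGroup.T ^ (N : ℤ) ∈ CongruenceSubgroup.Gamma N := by
    simpa using CongruenceSubgroup.ModularGroup_T_pow_mem_Gamma (N : ℤ) (N : ℤ) dvd_rfl
  have := smul_of_mem_Ban_of_mem_Gamma hf hT τ
  rw [modular_T_zpow_smul] at this
  simpa using this

theorem meromorphicAt_cuspFn_Jcomp {N : ℕ} (hN : 0 < N) {g : GL (Fin 2) ℝ}
    (hg : IsLevelMatrix N g) : MeromorphicAt (cuspFn N (Jcomp g)) 0 := by
  obtain ⟨ζ, e, he, -, h⟩ := cuspFn_Jcomp_eventually hN hg
  exact (meromorphicAt_comp_mul_pow meromorphicAt_cuspFn_one_Jfun ζ he).congr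
    (h.mono fun q hq => hq.symm)

/-- The cusp function of every element of `Ban N` is meromorphic at `0`. -/
theorem meromorphicAt_cuspFn_of_mem_Ban {N : ℕ} (hN : 0 < N) {f : ℍ → ℂ} (hf : f ∈ Ban N) :
    MeromorphicAt (cuspFn N f) 0 := by
  induction hf using Algebra.adjoin_induction with
  | mem x hx =>
    obtain ⟨g, hg, rfl⟩ := hx
    exact meromorphicAt_cuspFn_Jcomp hN hg
  | algebraMap r => exact MeromorphicAt.const _ _
  | add x y _ _ hx hy => exact hx.add hy
  | mul x y _ _ hx hy => exact hx.mul hy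

/-- The cusp function of a nonzero element of `Ban N` does not vanish identically near `0`. -/
theorem meromorphicOrderAt_cuspFn_ne_top {N : ℕ} (hN : 0 < N) {f : ℍ → ℂ} (hf : f ∈ Ban N)
    (hf0 : f ≠ 0) : meromorphicOrderAt (cuspFn N f) 0 ≠ ⊤ := by
  intro h
  rw [meromorphicOrderAt_eq_top_iff] at h
  exact hf0 (eq_zero_of_cuspFn_eventually_zero hN (mdifferentiable_of_mem_Ban hf)
    (isPer_of_mem_Ban hf) h)

/-- The cusp function of `Jfun` in `q_N` has order `-N` at `0`. -/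
theorem meromorphicOrderAt_cuspFn_Jfun {N : ℕ} (hN : 0 < N) :
    meromorphicOrderAt (cuspFn N Jfun) 0 = ((-(N : ℤ) : ℤ) : WithTop ℤ) := by
  have h : ∀ᶠ q in 𝓝[≠] (0 : ℂ), cuspFn N Jfun q = cuspFn 1 Jfun (1 * q ^ N) := by
    filter_upwards [eventually_punctured_disc] with q hq
    set τ : ℍ := ofComplex (Function.Periodic.invQParam (N : ℝ) q) with hτ
    have hqτ : Function.Periodic.qParam (N : ℝ) (τ : ℂ) = q :=
      qParam_ofComplex_invQParam hN hq.1 hq.2
    have e2 : Jfun τ = cuspFn 1 Jfun (Function.Periodic.qParam ((1 : ℕ) : ℝ) (τ : ℂ)) :=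
      (cuspFn_qParam one_pos isPer_one_Jfun τ).symm
    rw [cuspFn_apply, ← hτ, e2, one_mul, ← hqτ]
    congr 1
    simp only [Function.Periodic.qParam, Nat.cast_one]
    rw [← Complex.exp_nat_mul]
    congr 1
    have : (N : ℂ) ≠ 0 := by exact_mod_cast hN.ne'
    push_cast
    field_simp
  rw [meromorphicOrderAt_congr h,
    meromorphicOrderAt_comp_mul_pow meromorphicAt_cuspFn_one_Jfun one_ne_zero hN,
    meromorphicOrderAt_cuspFn_one_Jfun]
  norm_cast
  simp

end Fermat.Agent.S24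

end
end ZBS24_003_6

/-! ### bundled: `Fermat.Agent.S24.PlaceCusp` -/
section ZBS24_003_7

/-!
# S24 piece P5c, part 3: the place of `Man N` at the cusp `i∞`

`exists_place_inf`: there is a place `w` of `Man N` with `LocalProp (jMan N)⁻¹ (act N T) w`, i.e.
`0 < w.ord (1/j)`, `T • w = w`, and `T^k`-invariant elements have `w.ord (1/j) ∣ k * w.ord m`.
-/

set_option autoImplicit false

noncomputable section

open Complex Filter Topology UpperHalfPlane Function AlgebraicCurve WithZero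
open scoped MatrixGroups Manifold

namespace Fermat.Agent.S24

attribute [local instance] algKbC

/-! ### From an order function to a valuation -/

/-- `⊤ ↦ 0`, `n ↦ exp (-n)`. -/
def expNegTop (x : WithTop ℤ) : ℤᵐ⁰ := if x = ⊤ then 0 else WithZero.exp (-(x.untop₀))

@[simp] theorem expNegTop_top : expNegTop ⊤ = 0 := by simp [expNegTop]

@[simp] theorem expNegTop_coe (n : ℤ) : expNegTop (n : WithTop ℤ) = WithZero.exp (-n) := by
  simp [expNegTop]

theorem expNegTop_add (x y : WithTop ℤ) : expNegTop (x + y) = expNegTop x * expNegTop y := by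
  induction x using WithTop.recTopCoe with
  | top => simp
  | coe a =>
    induction y using WithTop.recTopCoe with
    | top => simp
    | coe b =>
      rw [← WithTop.coe_add, expNegTop_coe, expNegTop_coe, expNegTop_coe, ← WithZero.exp_add]
      congr 1
      ring

theorem expNegTop_antitone {x y : WithTop ℤ} (h : x ≤ y) : expNegTop y ≤ expNegTop x := by
  induction y using WithTop.recTopCoe with
  | top => simp
  | coe b =>
    induction x using WithTop.recTopCoe with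
    | top => simp at h
    | coe a =>
      rw [expNegTop_coe, expNegTop_coe, WithZero.exp_le_exp]
      have : a ≤ b := by exact_mod_cast h
      omega

theorem expNegTop_eq_zero_iff {x : WithTop ℤ} : expNegTop x = 0 ↔ x = ⊤ := by
  induction x using WithTop.recTopCoe with
  | top => simp
  | coe a => simp

/-- A `WithTop ℤ`-valued order function gives a `ℤᵐ⁰`-valued valuation. -/
def valuationOfOrd {R : Type*} [CommRing R] (ν : R → WithTop ℤ) (h0 : ν 0 = ⊤) (h1 : ν 1 = 0)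
    (hmul : ∀ a b, ν (a * b) = ν a + ν b) (hadd : ∀ a b, min (ν a) (ν b) ≤ ν (a + b)) :
    Valuation R ℤᵐ⁰ where
  toFun r := expNegTop (ν r)
  map_zero' := by simp [h0]
  map_one' := by
    rw [h1]
    have : ((0 : ℤ) : WithTop ℤ) = 0 := rfl
    rw [← this, expNegTop_coe]
    simp
  map_mul' a b := by rw [hmul, expNegTop_add]
  map_add_le_max' a b := by
    have h := expNegTop_antitone (hadd a b)
    rcases le_total (ν a) (ν b) with hab | hab
    · rw [min_eq_left hab] at h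
      exact le_max_of_le_left h
    · rw [min_eq_right hab] at h
      exact le_max_of_le_right h

@[simp] theorem valuationOfOrd_apply {R : Type*} [CommRing R] (ν : R → WithTop ℤ) (h0 : ν 0 = ⊤)
    (h1 : ν 1 = 0) (hmul : ∀ a b, ν (a * b) = ν a + ν b)
    (hadd : ∀ a b, min (ν a) (ν b) ≤ ν (a + b)) (r : R) :
    valuationOfOrd ν h0 h1 hmul hadd r = expNegTop (ν r) := rfl

/-! ### The order at `i∞` on `Ban N` -/

/-- The order at `i∞` (in `q_N`) of `b ∈ Ban N`. -/
def ordInf (N : ℕ) (b : Ban N) : WithTop ℤ := meromorphicOrderAt (cuspFn N (b : ℍ → ℂ)) 0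

theorem ordInf_zero (N : ℕ) : ordInf N 0 = ⊤ := by
  rw [ordInf, meromorphicOrderAt_eq_top_iff]
  exact Eventually.of_forall fun q => rfl

theorem ordInf_one (N : ℕ) : ordInf N 1 = 0 := by
  have h : cuspFn N ((1 : Ban N) : ℍ → ℂ) = fun _ => (1 : ℂ) := rfl
  rw [ordInf, h]
  classical
  rw [meromorphicOrderAt_const]
  simp

theorem ordInf_mul {N : ℕ} (hN : 0 < N) (a b : Ban N) :
    ordInf N (a * b) = ordInf N a + ordInf N b := by
  have h : cuspFn N ((a * b : Ban N) : ℍ → ℂ) = cuspFn N a * cuspFn N b := rfl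
  rw [ordInf, h]
  exact meromorphicOrderAt_mul (meromorphicAt_cuspFn_of_mem_Ban hN a.2)
    (meromorphicAt_cuspFn_of_mem_Ban hN b.2)

theorem ordInf_add {N : ℕ} (hN : 0 < N) (a b : Ban N) :
    min (ordInf N a) (ordInf N b) ≤ ordInf N (a + b) := by
  have h : cuspFn N ((a + b : Ban N) : ℍ → ℂ) = cuspFn N a + cuspFn N b := rfl
  rw [ordInf, ordInf, ordInf, h]
  exact meromorphicOrderAt_add (meromorphicAt_cuspFn_of_mem_Ban hN a.2)
    (meromorphicAt_cuspFn_of_mem_Ban hN b.2)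

theorem ordInf_ne_top {N : ℕ} (hN : 0 < N) {b : Ban N} (hb : b ≠ 0) : ordInf N b ≠ ⊤ :=
  meromorphicOrderAt_cuspFn_ne_top hN b.2 (fun h => hb (Subtype.ext h))

theorem ordInf_algebraMap {N : ℕ} (c : Kb) (hc : c ≠ 0) :
    ordInf N (algebraMap Kb (Ban N) c) = 0 := by
  have h : cuspFn N ((algebraMap Kb (Ban N) c : Ban N) : ℍ → ℂ) = fun _ => embC c := rfl
  rw [ordInf, h]
  classical
  rw [meromorphicOrderAt_const]
  have : embC c ≠ 0 := by simpa using hc
  simp [this]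

theorem ordInf_jBan {N : ℕ} (hN : 0 < N) : ordInf N (jBan N) = ((-(N : ℤ) : ℤ) : WithTop ℤ) :=
  meromorphicOrderAt_cuspFn_Jfun hN

/-- The valuation at `i∞` on `Ban N`. -/
def vBan (N : ℕ) [NeZero N] : Valuation (Ban N) ℤᵐ⁰ :=
  valuationOfOrd (ordInf N) (ordInf_zero N) (ordInf_one N)
    (ordInf_mul (Nat.pos_of_ne_zero (NeZero.ne N))) (ordInf_add (Nat.pos_of_ne_zero (NeZero.ne N)))

theorem vBan_apply (N : ℕ) [NeZero N] (b : Ban N) : vBan N b = expNegTop (ordInf N b) := rfl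

theorem vBan_ne_zero (N : ℕ) [NeZero N] {b : Ban N} (hb : b ≠ 0) : vBan N b ≠ 0 := by
  rw [vBan_apply, Ne, expNegTop_eq_zero_iff]
  exact ordInf_ne_top (Nat.pos_of_ne_zero (NeZero.ne N)) hb

theorem nonZeroDivisors_le_supp_vBan (N : ℕ) [NeZero N] :
    nonZeroDivisors (Ban N) ≤ (vBan N).supp.primeCompl := by
  intro b hb
  have hb0 : b ≠ 0 := nonZeroDivisors.ne_zero hb
  show b ∉ (vBan N).supp
  rw [Valuation.mem_supp_iff]
  exact vBan_ne_zero N hb0

/-- The valuation at `i∞` on `Man N`. -/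
def vInf (N : ℕ) [NeZero N] : Valuation (Man N) ℤᵐ⁰ :=
  (vBan N).extendToLocalization (nonZeroDivisors_le_supp_vBan N) (Man N)

@[simp] theorem vInf_algebraMap (N : ℕ) [NeZero N] (b : Ban N) :
    vInf N (algebraMap (Ban N) (Man N) b) = vBan N b :=
  Valuation.extendToLocalization_apply_map_apply _ _ _ b

theorem vord_vInf_algebraMap (N : ℕ) [NeZero N] {b : Ban N} (hb : b ≠ 0) :
    vord (vInf N) (algebraMap (Ban N) (Man N) b) = (ordInf N b).untop₀ := by
  rw [vord, vInf_algebraMap, vBan_apply]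
  obtain ⟨n, hn⟩ := WithTop.ne_top_iff_exists.mp
    (ordInf_ne_top (Nat.pos_of_ne_zero (NeZero.ne N)) hb)
  rw [← hn]
  simp

theorem vInf_algebraMap_Kb_le (N : ℕ) [NeZero N] (c : Kb) :
    vInf N (algebraMap Kb (Man N) c) ≤ 1 := by
  rw [IsScalarTower.algebraMap_apply Kb (Ban N) (Man N), vInf_algebraMap, vBan_apply]
  rcases eq_or_ne c 0 with rfl | hc
  · rw [map_zero, ordInf_zero, expNegTop_top]
    exact zero_le_one
  · rw [ordInf_algebraMap c hc]
    have : ((0 : ℤ) : WithTop ℤ) = 0 := rfl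
    rw [← this, expNegTop_coe]
    simp

theorem jBan_ne_zero (N : ℕ) [NeZero N] : jBan N ≠ 0 := by
  intro h
  have h1 := ordInf_jBan (N := N) (Nat.pos_of_ne_zero (NeZero.ne N))
  rw [h, ordInf_zero] at h1
  exact WithTop.top_ne_coe h1

theorem jMan_ne_zero (N : ℕ) [NeZero N] : jMan N ≠ 0 := by
  rw [jMan, Ne, map_eq_zero_iff _ (IsFractionRing.injective (Ban N) (Man N))]
  exact jBan_ne_zero N

theorem vord_vInf_jMan (N : ℕ) [NeZero N] : vord (vInf N) (jMan N) = -(N : ℤ) := by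
  rw [jMan, vord_vInf_algebraMap N (jBan_ne_zero N),
    ordInf_jBan (Nat.pos_of_ne_zero (NeZero.ne N))]
  simp

theorem vord_vInf_jMan_inv (N : ℕ) [NeZero N] : vord (vInf N) (jMan N)⁻¹ = (N : ℤ) := by
  rw [vord_inv, vord_vInf_jMan, neg_neg]

/-! ### The action of `T` -/

theorem qParam_add (h : ℝ) (x y : ℂ) :
    Function.Periodic.qParam h (x + y) = Function.Periodic.qParam h x * Function.Periodic.qParam h y := by
  simp only [Function.Periodic.qParam]
  rw [← Complex.exp_add]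
  congr 1
  ring

/-- The rotation factor of `T ^ k`: `exp (- 2 π i k / N)`. -/
def rotT (N k : ℕ) : ℂ := Function.Periodic.qParam (N : ℝ) (-(k : ℂ))

theorem rotT_ne_zero (N k : ℕ) : rotT N k ≠ 0 := Function.Periodic.qParam_ne_zero _

theorem cuspFn_precomp_T_pow {N : ℕ} (hN : 0 < N) {f : ℍ → ℂ} (hf : IsPer N f) (k : ℕ) :
    ∀ᶠ q in 𝓝[≠] (0 : ℂ),
      cuspFn N (precomp (ModularGroup.T ^ k) f) q = cuspFn N f (rotT N k * q) := by
  filter_upwards [eventually_punctured_disc] with q hq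
  set τ : ℍ := ofComplex (Function.Periodic.invQParam (N : ℝ) q) with hτ
  have hqτ : Function.Periodic.qParam (N : ℝ) (τ : ℂ) = q :=
    qParam_ofComplex_invQParam hN hq.1 hq.2
  have e1 : ((ModularGroup.T ^ k : SL(2, ℤ)))⁻¹ • τ = ((-(k : ℤ) : ℤ) : ℝ) +ᵥ τ := by
    rw [← modular_T_zpow_smul, zpow_neg, zpow_natCast]
  have e2 : rotT N k * q
      = Function.Periodic.qParam (N : ℝ) ((((-(k : ℤ) : ℤ) : ℝ) +ᵥ τ : ℍ) : ℂ) := by
    rw [coe_vadd, qParam_add, hqτ, rotT]
    congr 2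
    push_cast
    rfl
  rw [cuspFn_apply, ← hτ, precomp_apply, e1, e2, cuspFn_qParam hN hf]

theorem ordInf_actBan_T_pow (N : ℕ) [NeZero N] (k : ℕ) (b : Ban N) :
    ordInf N (actBan N (ModularGroup.T ^ k) b) = ordInf N b := by
  have hN : 0 < N := Nat.pos_of_ne_zero (NeZero.ne N)
  have h := cuspFn_precomp_T_pow hN (isPer_of_mem_Ban b.2) k
  rw [ordInf, ordInf, actBan_coe, meromorphicOrderAt_congr h,
    meromorphicOrderAt_comp_mul_zero _ (rotT_ne_zero N k)]

theorem vInf_act_T_pow (N : ℕ) [NeZero N] (k : ℕ) (m : Man N) :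
    vInf N (act N (ModularGroup.T ^ k) m) = vInf N m := by
  obtain ⟨a, b, hb, rfl⟩ := IsFractionRing.div_surjective (A := Ban N) m
  simp only [map_div₀, act_algebraMap, vInf_algebraMap, vBan_apply, ordInf_actBan_T_pow]

theorem vInf_act_T (N : ℕ) [NeZero N] (m : Man N) :
    vInf N (act N ModularGroup.T m) = vInf N m := by
  simpa using vInf_act_T_pow N 1 m

/-! ### Property (L) -/

theorem dvd_of_rotT_zpow_eq_one {N : ℕ} (hN : 0 < N) (k : ℕ) (n : ℤ) (h : rotT N k ^ n = 1) :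
    (N : ℤ) ∣ (k : ℤ) * n := by
  rw [rotT, Function.Periodic.qParam, ← Complex.exp_int_mul, Complex.exp_eq_one_iff] at h
  obtain ⟨m, hm⟩ := h
  have hN' : ((N : ℝ) : ℂ) ≠ 0 := by exact_mod_cast hN.ne'
  have h2 : (2 * (Real.pi : ℂ) * Complex.I) ≠ 0 := Complex.two_pi_I_ne_zero
  have h3 : ((n : ℂ) * (-(k : ℂ))) = (m : ℂ) * (N : ℂ) := by
    have hN'' : (N : ℂ) ≠ 0 := by exact_mod_cast hN.ne'
    have e : (n : ℂ) * (2 * (Real.pi : ℂ) * Complex.I * (-(k : ℂ)) / ((N : ℝ) : ℂ))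
        = ((n : ℂ) * (-(k : ℂ)) / (N : ℂ)) * (2 * (Real.pi : ℂ) * Complex.I) := by
      push_cast; ring
    rw [e] at hm
    have := mul_right_cancel₀ h2 hm
    field_simp at this
    linear_combination this
  have h4 : n * (-(k : ℤ)) = m * (N : ℤ) := by exact_mod_cast h3
  exact ⟨-m, by linear_combination -h4⟩

/-- Analytic core of (L): a `T^k`-invariant element of `Man N` has order at `i∞` with
`N ∣ k · ord`. -/
theorem dvd_vord_of_act_T_pow_eq (N : ℕ) [NeZero N] (k : ℕ) {m : Man N} (hm : m ≠ 0)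
    (h : act N (ModularGroup.T ^ k) m = m) : (N : ℤ) ∣ (k : ℤ) * vord (vInf N) m := by
  have hN : 0 < N := Nat.pos_of_ne_zero (NeZero.ne N)
  obtain ⟨a, b, hb, rfl⟩ := IsFractionRing.div_surjective (A := Ban N) m
  have hb0 : b ≠ 0 := nonZeroDivisors.ne_zero hb
  have ha0 : a ≠ 0 := by
    rintro rfl
    simp at hm
  have hinj := IsFractionRing.injective (Ban N) (Man N)
  have hb' : algebraMap (Ban N) (Man N) b ≠ 0 := by
    rwa [Ne, map_eq_zero_iff _ hinj]
  have ha' : algebraMap (Ban N) (Man N) a ≠ 0 := by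
    rwa [Ne, map_eq_zero_iff _ hinj]
  have hTb0 : actBan N (ModularGroup.T ^ k) b ≠ 0 := by
    rw [Ne, map_eq_zero_iff _ (actBan N (ModularGroup.T ^ k)).injective]
    exact hb0
  have hTb' : algebraMap (Ban N) (Man N) (actBan N (ModularGroup.T ^ k) b) ≠ 0 := by
    rwa [Ne, map_eq_zero_iff _ hinj]
  -- the relation in `Ban N`
  have hrel : actBan N (ModularGroup.T ^ k) a * b = a * actBan N (ModularGroup.T ^ k) b := by
    apply hinj
    rw [map_div₀, act_algebraMap, act_algebraMap, div_eq_div_iff hTb' hb'] at h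
    rw [map_mul, map_mul, h]
  -- as functions of `q`
  set A : ℂ → ℂ := cuspFn N (a : ℍ → ℂ) with hA
  set B : ℂ → ℂ := cuspFn N (b : ℍ → ℂ) with hB
  set c : ℂ := rotT N k with hc
  have hc0 : c ≠ 0 := rotT_ne_zero N k
  have hAm : MeromorphicAt A 0 := meromorphicAt_cuspFn_of_mem_Ban hN a.2
  have hBm : MeromorphicAt B 0 := meromorphicAt_cuspFn_of_mem_Ban hN b.2
  have hAtop : meromorphicOrderAt A 0 ≠ ⊤ := ordInf_ne_top hN ha0
  have hBtop : meromorphicOrderAt B 0 ≠ ⊤ := ordInf_ne_top hN hb0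
  have hrelq : ∀ q, cuspFn N (precomp (ModularGroup.T ^ k) (a : ℍ → ℂ)) q * B q
      = A q * cuspFn N (precomp (ModularGroup.T ^ k) (b : ℍ → ℂ)) q := by
    intro q
    have := congrArg (fun f : Ban N => cuspFn N (f : ℍ → ℂ) q) hrel
    exact this
  have hA' := cuspFn_precomp_T_pow hN (isPer_of_mem_Ban a.2) k
  have hB' := cuspFn_precomp_T_pow hN (isPer_of_mem_Ban b.2) k
  have hBne : ∀ᶠ q in 𝓝[≠] (0 : ℂ), B q ≠ 0 :=
    (meromorphicOrderAt_ne_top_iff_eventually_ne_zero hBm).mp hBtop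
  have hBcm : MeromorphicAt (fun q => B (c * q)) 0 := meromorphicAt_comp_mul_zero hBm c
  have hBcne : ∀ᶠ q in 𝓝[≠] (0 : ℂ), B (c * q) ≠ 0 := by
    have : meromorphicOrderAt (fun q => B (c * q)) 0 ≠ ⊤ := by
      rw [meromorphicOrderAt_comp_mul_zero _ hc0]; exact hBtop
    exact (meromorphicOrderAt_ne_top_iff_eventually_ne_zero hBcm).mp this
  -- the quotient
  set Φ : ℂ → ℂ := A / B with hΦ
  have hΦm : MeromorphicAt Φ 0 := hAm.div hBm
  obtain ⟨na, hna⟩ := WithTop.ne_top_iff_exists.mp hAtop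
  obtain ⟨nb, hnb⟩ := WithTop.ne_top_iff_exists.mp hBtop
  have hΦord : meromorphicOrderAt Φ 0 = ((na - nb : ℤ) : WithTop ℤ) := by
    rw [hΦ, meromorphicOrderAt_div hAm hBm, ← hna, ← hnb]
    rfl
  have hΦtop : meromorphicOrderAt Φ 0 ≠ ⊤ := by
    rw [hΦord]; exact WithTop.coe_ne_top
  have hinv : ∀ᶠ q in 𝓝[≠] (0 : ℂ), Φ (c * q) = Φ q := by
    filter_upwards [hA', hB', hBne, hBcne] with q h1 h2 h3 h4
    have := hrelq q
    rw [h1, h2] at this
    simp only [hΦ, Pi.div_apply]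
    rw [div_eq_div_iff h4 h3]
    exact this
  have key := zpow_order_eq_one_of_comp_mul hc0 hΦm hΦtop hinv
  rw [hΦord, WithTop.untop₀_coe] at key
  have hdvd := dvd_of_rotT_zpow_eq_one hN k (na - nb) key
  have hv : vord (vInf N) (algebraMap (Ban N) (Man N) a / algebraMap (Ban N) (Man N) b)
      = na - nb := by
    rw [div_eq_mul_inv, vord_mul _ ha' (inv_ne_zero hb'), vord_inv,
      vord_vInf_algebraMap N ha0, vord_vInf_algebraMap N hb0]
    have e1 : ordInf N a = (na : WithTop ℤ) := hna.symm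
    have e2 : ordInf N b = (nb : WithTop ℤ) := hnb.symm
    rw [e1, e2]
    simp
    ring
  rw [hv]
  exact hdvd

/-- **P5c**: the place of `Man N` at the cusp `i∞`, with property (L) for `T`. -/
theorem exists_place_inf (N : ℕ) [NeZero N] :
    ∃ w : Place Kb (Man N), LocalProp (jMan N)⁻¹ (act N ModularGroup.T) w := by
  have hN : 0 < N := Nat.pos_of_ne_zero (NeZero.ne N)
  have hx0 : (jMan N)⁻¹ ≠ 0 := inv_ne_zero (jMan_ne_zero N)
  have hxv : vord (vInf N) (jMan N)⁻¹ = (N : ℤ) := vord_vInf_jMan_inv N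
  have hxlt : vInf N (jMan N)⁻¹ < 1 := by
    rw [lt_one_iff_vord_pos _ hx0, hxv]
    exact_mod_cast hN
  obtain ⟨w, e₀, he₀, hw, hord⟩ := exists_place_of_valuation (K := Kb) (vInf N)
    (vInf_algebraMap_Kb_le N) ⟨_, hx0, hxlt⟩
  have hwx : (N : ℤ) = e₀ * w.ord (jMan N)⁻¹ := by rw [← hord _ hx0, hxv]
  refine ⟨w, ?_, ?_, ?_⟩
  · -- positivity
    have : 0 < e₀ * w.ord (jMan N)⁻¹ := by rw [← hwx]; exact_mod_cast hN
    exact (mul_pos_iff_of_pos_left he₀).mp this
  · -- `T`-stability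
    apply Place.ext
    rw [Place.smul_toValuationSubring, hw]
    ext x
    rw [ValuationSubring.mem_pointwise_smul_iff_inv_smul_mem, Valuation.mem_valuationSubring_iff,
      Valuation.mem_valuationSubring_iff]
    have h1 := vInf_act_T N ((act N ModularGroup.T)⁻¹ • x)
    have h2 : act N ModularGroup.T ((act N ModularGroup.T)⁻¹ • x) = x := by
      show (act N ModularGroup.T) ((act N ModularGroup.T)⁻¹ x) = x
      rw [← AlgEquiv.mul_apply, mul_inv_cancel, AlgEquiv.one_apply]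
    rw [h2] at h1
    rw [h1]
  · -- (L)
    intro m k hk
    rcases eq_or_ne m 0 with rfl | hm
    · simp
    · rw [← map_pow] at hk
      have h1 := dvd_vord_of_act_T_pow_eq N k hm hk
      rw [hord m hm, hwx] at h1
      have h2 : e₀ * w.ord (jMan N)⁻¹ ∣ e₀ * ((k : ℤ) * w.ord m) := by
        convert h1 using 1; ring
      exact Int.dvd_of_mul_dvd_mul_left he₀.ne' h2

end Fermat.Agent.S24

end
end ZBS24_003_7

/-! ### bundled: `Fermat.Agent.S24.JOrder` -/
section ZBS24_003_8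

/-!
# S24 piece P4b: analytic order of `J - c`

* `isZeroAtImInfty_D` : the normalised derivative of a holomorphic function with a limit at `i∞`
  tends to `0` at `i∞` (Cauchy estimate).
* `bracket_eq` : `2 E₄ D E₆ - 3 D E₄ E₆ = c Δ` with `c ≠ 0`.
* orders of `J - c`.
-/

set_option autoImplicit false

noncomputable section

open UpperHalfPlane ModularForm ModularFormClass MatrixGroups EisensteinSeries Derivative Filter
open scoped Manifold Topology

namespace Fermat.Agent.S24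

/-- **Cauchy estimate at `i∞`.** If `f` is holomorphic on `ℍ` and tends to a limit at `i∞`, then
its normalised derivative tends to `0` at `i∞`. -/
theorem isZeroAtImInfty_D {f : ℍ → ℂ} (hf : MDiff f) {a : ℂ} (ha : Tendsto f atImInfty (𝓝 a)) :
    IsZeroAtImInfty (D f) := by
  rw [IsZeroAtImInfty, ZeroAtFilter, Metric.tendsto_nhds]
  intro ε hε
  have h1 := (Metric.tendsto_nhds.mp ha) ε hε
  rw [Filter.Eventually, atImInfty_mem] at h1 ⊢
  obtain ⟨A, hA⟩ := h1
  refine ⟨max A 0 + 1, fun τ hτ => ?_⟩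
  have hτA : A + 1 ≤ τ.im := le_trans (by gcongr; exact le_max_left _ _) hτ
  have hτ0 : 1 ≤ τ.im := le_trans (by linarith [le_max_right A 0]) hτ
  -- the function `g = f ∘ ofComplex - a` on the ball of radius 1/2 around τ
  have hdiff : DifferentiableOn ℂ (f ∘ ofComplex) {z | 0 < z.im} :=
    UpperHalfPlane.mdifferentiable_iff.mp hf
  have hsub : Metric.closedBall (τ : ℂ) (1 / 2) ⊆ {z : ℂ | 0 < z.im} := by
    intro z hz
    rw [Metric.mem_closedBall, Complex.dist_eq] at hz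
    have h2 : |(z - τ).im| ≤ ‖z - (τ : ℂ)‖ := Complex.abs_im_le_norm _
    have h3 : (z - (τ : ℂ)).im = z.im - τ.im := by simp
    rw [h3] at h2
    have := abs_le.mp (h2.trans hz)
    simp only [Set.mem_ofPred_eq]
    linarith [this.1]
  have hg : DiffContOnCl ℂ (fun z => (f ∘ ofComplex) z - a) (Metric.ball (τ : ℂ) (1 / 2)) := by
    have hd : DifferentiableOn ℂ (fun z => (f ∘ ofComplex) z - a)
        (Metric.closedBall (τ : ℂ) (1 / 2)) :=
      (hdiff.mono hsub).sub_const a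
    exact hd.diffContOnCl_ball (subset_refl _)
  have hbound : ∀ z ∈ Metric.sphere (τ : ℂ) (1 / 2), ‖(f ∘ ofComplex) z - a‖ ≤ ε := by
    intro z hz
    have hzmem : z ∈ Metric.closedBall (τ : ℂ) (1 / 2) := Metric.sphere_subset_closedBall hz
    have hzpos : 0 < z.im := hsub hzmem
    rw [Metric.mem_closedBall, Complex.dist_eq] at hzmem
    have h2 : |(z - τ).im| ≤ ‖z - (τ : ℂ)‖ := Complex.abs_im_le_norm _
    have h3 : (z - (τ : ℂ)).im = z.im - τ.im := by simp
    rw [h3] at h2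
    have h4 := abs_le.mp (h2.trans hzmem)
    have hzA : A ≤ (⟨z, hzpos⟩ : ℍ).im := by
      change A ≤ z.im
      linarith [h4.1]
    have := hA ⟨z, hzpos⟩ hzA
    simp only [Set.mem_ofPred_eq, dist_eq_norm] at this
    rw [Function.comp_apply, ofComplex_apply_of_im_pos hzpos]
    exact this.le
  have hC := Complex.norm_deriv_le_of_forall_mem_sphere_norm_le (by norm_num : (0:ℝ) < 1 / 2)
    hg hbound
  have hderiv : deriv (fun z => (f ∘ ofComplex) z - a) (τ : ℂ) = deriv (f ∘ ofComplex) (τ : ℂ) := by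
    rw [deriv_sub_const]
  rw [hderiv] at hC
  have h2pi : ‖(2 * (Real.pi : ℂ) * Complex.I)‖ = 2 * Real.pi := by
    simp [abs_of_pos Real.pi_pos]
  simp only [Set.mem_ofPred_eq, dist_zero_right, normalizedDerivOfComplex]
  rw [norm_mul, norm_inv, h2pi]
  have hpi : (3 : ℝ) < Real.pi := Real.pi_gt_three
  calc (2 * Real.pi)⁻¹ * ‖deriv (f ∘ ofComplex) (τ : ℂ)‖
      ≤ (2 * Real.pi)⁻¹ * (ε / (1 / 2)) := by gcongr
    _ = ε / Real.pi := by field_simp
    _ < ε := by
        rw [div_lt_iff₀ Real.pi_pos]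
        nlinarith

/-- A level one modular form tends to the constant term of its `q`-expansion at `i∞`. -/
theorem tendsto_levelOne_atImInfty {k : ℤ} (f : ModularForm 𝒮ℒ k) :
    Tendsto f atImInfty (𝓝 ((qExpansion 1 f).coeff 0)) := by
  have hanal := ModularFormClass.analyticAt_cuspFunction_zero f one_pos one_mem_strictPeriods_SL
  have hper := SlashInvariantFormClass.periodic_comp_ofComplex f one_mem_strictPeriods_SL
  rw [qExpansion_coeff_zero one_pos hanal hper, ← cuspFunction_apply_zero one_pos hanal hper]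
  exact (hanal.continuousAt.tendsto.comp (qParam_tendsto_atImInfty one_pos)).congr
    (fun τ ↦ SlashInvariantFormClass.eq_cuspFunction f τ one_mem_strictPeriods_SL one_ne_zero)

theorem tendsto_E₄_atImInfty : Tendsto E₄ atImInfty (𝓝 1) := by
  have h := tendsto_levelOne_atImInfty E₄
  rwa [E_qExpansion_coeff_zero _ ⟨2, rfl⟩] at h

theorem tendsto_E₆_atImInfty : Tendsto E₆ atImInfty (𝓝 1) := by
  have h := tendsto_levelOne_atImInfty E₆
  rwa [E_qExpansion_coeff_zero _ ⟨3, rfl⟩] at h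

/-- The bracket `2 E₄ · D E₆ - 3 D E₄ · E₆` as a function on `ℍ`. -/
def bracketFun (τ : ℍ) : ℂ := 2 * E₄ τ * D E₆ τ - 3 * D E₄ τ * E₆ τ

/-- Transformation of `D f` for a level one form `f` of weight `k`. -/
theorem D_levelOne_smul {k : ℤ} (f : ModularForm 𝒮ℒ k) (γ : SL(2, ℤ)) (τ : ℍ) :
    D f (γ • τ) = (denom (γ : GL (Fin 2) ℝ) τ) ^ (k + 2) *
      (D f τ + (k : ℂ) * (2 * Real.pi * Complex.I)⁻¹ *
        ((γ 1 0 : ℂ) / denom (γ : GL (Fin 2) ℝ) τ) * f τ) := by
  have hinv : (⇑f) ∣[k] γ = ⇑f := by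
    have := SlashInvariantForm.slash_action_eqn f (γ : GL (Fin 2) ℝ) (mem_SL_range γ)
    rwa [← ModularForm.SL_slash] at this
  have h := congrFun (normalizedDerivOfComplex_SL_slash (k := k) (F := ⇑f) f.holo' (γ := γ)) τ
  rw [hinv] at h
  simp only [Pi.sub_apply, ModularForm.SL_slash_apply] at h
  have hd : denom (γ : GL (Fin 2) ℝ) τ ≠ 0 := denom_ne_zero _ _
  have hd' : denom (Matrix.SpecialLinearGroup.toGL
      ((Matrix.SpecialLinearGroup.map (Int.castRingHom ℝ)) γ)) ↑τ ≠ 0 := hd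
  have hz : (denom (γ : GL (Fin 2) ℝ) τ) ^ (k + 2) * (denom (γ : GL (Fin 2) ℝ) τ) ^ (-(k + 2)) = 1 := by
    rw [← zpow_add₀ hd]; simp
  have h' : D f (γ • τ) * (denom (γ : GL (Fin 2) ℝ) τ) ^ (-(k + 2)) =
      D f τ + (k : ℂ) * (2 * Real.pi * Complex.I)⁻¹ *
        ((γ 1 0 : ℂ) / denom (γ : GL (Fin 2) ℝ) τ) * f τ := by
    have h2 : D (⇑f) τ = D (⇑f) (γ • τ) * (denom (γ : GL (Fin 2) ℝ) τ) ^ (-(k + 2)) -
        (k : ℂ) * (2 * Real.pi * Complex.I)⁻¹ *
          ((γ 1 0 : ℂ) / denom (γ : GL (Fin 2) ℝ) τ) * f τ := by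
      convert h using 2
    rw [h2]; ring
  calc D f (γ • τ) = D f (γ • τ) * ((denom (γ : GL (Fin 2) ℝ) τ) ^ (k + 2) *
        (denom (γ : GL (Fin 2) ℝ) τ) ^ (-(k + 2))) := by rw [hz, mul_one]
    _ = (denom (γ : GL (Fin 2) ℝ) τ) ^ (k + 2) *
        (D f (γ • τ) * (denom (γ : GL (Fin 2) ℝ) τ) ^ (-(k + 2))) := by ring
    _ = _ := by rw [h']

theorem bracketFun_smul (γ : SL(2, ℤ)) (τ : ℍ) :
    bracketFun (γ • τ) = (denom (γ : GL (Fin 2) ℝ) τ) ^ (12 : ℤ) * bracketFun τ := by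
  have h4 := levelOne_smul E₄ γ τ
  have h6 := levelOne_smul E₆ γ τ
  have hD4 := D_levelOne_smul E₄ γ τ
  have hD6 := D_levelOne_smul E₆ γ τ
  have hd : denom (γ : GL (Fin 2) ℝ) τ ≠ 0 := denom_ne_zero _ _
  simp only [bracketFun]
  rw [h4, h6, hD4, hD6]
  generalize denom (γ : GL (Fin 2) ℝ) τ = d at hd
  have e12 : d ^ (12 : ℤ) = d ^ 12 := by norm_cast
  have e4 : d ^ (4 : ℤ) = d ^ 4 := by norm_cast
  have e6 : d ^ (6 : ℤ) = d ^ 6 := by norm_cast
  have e8 : d ^ ((6 : ℤ) + 2) = d ^ 8 := by norm_cast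
  have e6' : d ^ ((4 : ℤ) + 2) = d ^ 6 := by norm_cast
  rw [e12, e4, e6, e8, e6']
  push_cast
  field_simp
  ring

theorem bracketFun_mdifferentiable : MDiff bracketFun := by
  have h4 : MDiff (⇑E₄) := E₄.holo'
  have h6 : MDiff (⇑E₆) := E₆.holo'
  have hD4 : MDiff (D (⇑E₄)) := normalizedDerivOfComplex_mdifferentiable h4
  have hD6 : MDiff (D (⇑E₆)) := normalizedDerivOfComplex_mdifferentiable h6
  have : bracketFun = (fun _ => (2 : ℂ)) * ⇑E₄ * D (⇑E₆) - (fun _ => (3 : ℂ)) * D (⇑E₄) * ⇑E₆ := by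
    funext τ; simp [bracketFun]
  rw [this]
  exact ((mdifferentiable_const.mul h4).mul hD6).sub ((mdifferentiable_const.mul hD4).mul h6)

theorem bracketFun_isZeroAtImInfty : IsZeroAtImInfty bracketFun := by
  have hD4 : Tendsto (D (⇑E₄)) atImInfty (𝓝 0) := isZeroAtImInfty_D E₄.holo' tendsto_E₄_atImInfty
  have hD6 : Tendsto (D (⇑E₆)) atImInfty (𝓝 0) := isZeroAtImInfty_D E₆.holo' tendsto_E₆_atImInfty
  have h := ((tendsto_const_nhds (x := (2 : ℂ))).mul tendsto_E₄_atImInfty |>.mul hD6).sub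
    ((tendsto_const_nhds (x := (3 : ℂ))).mul hD4 |>.mul tendsto_E₆_atImInfty)
  simp only [mul_zero, mul_one, sub_zero] at h
  exact h

theorem bracketFun_slash (γ : SL(2, ℤ)) : bracketFun ∣[(12 : ℤ)] γ = bracketFun := by
  funext τ
  rw [ModularForm.SL_slash_apply]
  have h := bracketFun_smul γ τ
  have hd : denom (γ : GL (Fin 2) ℝ) τ ≠ 0 := denom_ne_zero _ _
  change bracketFun (γ • τ) * (denom (γ : GL (Fin 2) ℝ) τ) ^ (-(12 : ℤ)) = bracketFun τ
  rw [h, mul_comm, ← mul_assoc, ← zpow_add₀ hd]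
  simp

/-- The bracket `2 E₄ · D E₆ - 3 D E₄ · E₆` as a cusp form of weight 12. -/
def bracketForm : CuspForm 𝒮ℒ 12 where
  toFun := bracketFun
  slash_action_eq' A hA := by
    obtain ⟨γ, rfl⟩ := hA
    exact bracketFun_slash γ
  holo' := bracketFun_mdifferentiable
  zero_at_cusps' hc := by
    rw [Subgroup.IsArithmetic.isCusp_iff_isCusp_SL2Z] at hc
    rw [OnePoint.isZeroAt_iff_forall_SL2Z hc]
    intro γ _
    rw [bracketFun_slash]
    exact bracketFun_isZeroAtImInfty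

theorem bracketForm_apply (τ : ℍ) : bracketForm τ = bracketFun τ := rfl

/-- `D (1728 Δ) = 3 E₄² D E₄ - 2 E₆ D E₆`. -/
theorem D_discriminant (τ : ℍ) :
    1728 * D ModularForm.discriminant τ = 3 * E₄ τ ^ 2 * D E₄ τ - 2 * E₆ τ * D E₆ τ := by
  have h4 : MDiff (⇑E₄) := E₄.holo'
  have h6 : MDiff (⇑E₆) := E₆.holo'
  have hΔ : (ModularForm.discriminant : ℍ → ℂ) = (1728 : ℂ)⁻¹ • ((⇑E₄) ^ 3 - (⇑E₆) ^ 2) := by
    funext τ
    rw [discriminant_eq_E₄_cube_sub_E₆_sq]
    simp [div_eq_inv_mul]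
  rw [hΔ, normalizedDerivOfComplex_smul _ _ ((h4.pow 3).sub (h6.pow 2)),
    normalizedDerivOfComplex_sub _ _ (h4.pow 3) (h6.pow 2),
    normalizedDerivOfComplex_pow _ _ h4, normalizedDerivOfComplex_pow _ _ h6]
  simp only [Pi.smul_apply, Pi.sub_apply, Pi.mul_apply, Pi.pow_apply, smul_eq_mul,
    Pi.natCast_apply]
  push_cast
  ring

/-- The derivative of `J`: `1728 Δ² · D J = E₄² E₆ · (2 E₄ D E₆ - 3 D E₄ E₆)`. -/
theorem D_J_mul (τ : ℍ) :
    D J τ * (1728 * ModularForm.discriminant τ ^ 2) = E₄ τ ^ 2 * E₆ τ * bracketFun τ := by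
  have h4 : MDiff (⇑E₄) := E₄.holo'
  have hΔ : MDiff (ModularForm.discriminant : ℍ → ℂ) := discriminant_mdifferentiable
  have hJ : MDiff J := J_mdifferentiable
  have hprod : J * (ModularForm.discriminant : ℍ → ℂ) = (⇑E₄) ^ 3 := by
    funext τ
    simp [J_mul_discriminant]
  have h1 := congrArg (fun F => D F τ) hprod
  rw [normalizedDerivOfComplex_mul _ _ hJ hΔ, normalizedDerivOfComplex_pow _ _ h4] at h1
  simp only [Pi.add_apply, Pi.mul_apply, Pi.pow_apply, Pi.natCast_apply] at h1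
  have h2 := D_discriminant τ
  have h3 := J_mul_discriminant τ
  have h5 := discriminant_eq_E₄_cube_sub_E₆_sq τ
  have hΔne := discriminant_ne_zero τ
  simp only [bracketFun]
  push_cast at h1
  have h1' : D J τ * ModularForm.discriminant τ =
      3 * E₄ τ ^ 2 * D E₄ τ - J τ * D ModularForm.discriminant τ := by
    linear_combination h1
  have h6 : 1728 * ModularForm.discriminant τ = E₄ τ ^ 3 - E₆ τ ^ 2 := by
    rw [h5]; ring
  calc D J τ * (1728 * ModularForm.discriminant τ ^ 2)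
      = (D J τ * ModularForm.discriminant τ) * (1728 * ModularForm.discriminant τ) := by ring
    _ = (3 * E₄ τ ^ 2 * D E₄ τ - J τ * D ModularForm.discriminant τ) *
          (1728 * ModularForm.discriminant τ) := by rw [h1']
    _ = 3 * E₄ τ ^ 2 * D E₄ τ * (1728 * ModularForm.discriminant τ) -
          (J τ * ModularForm.discriminant τ) * (1728 * D ModularForm.discriminant τ) := by ring
    _ = 3 * E₄ τ ^ 2 * D E₄ τ * (E₄ τ ^ 3 - E₆ τ ^ 2) -
          E₄ τ ^ 3 * (3 * E₄ τ ^ 2 * D E₄ τ - 2 * E₆ τ * D E₆ τ) := by rw [h6, h3, h2]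
    _ = _ := by ring

theorem D_eq_zero_iff_deriv {F : ℍ → ℂ} (τ : ℍ) :
    D F τ = 0 ↔ deriv (F ∘ ofComplex) (τ : ℂ) = 0 := by
  simp only [normalizedDerivOfComplex, mul_eq_zero, inv_eq_zero, Complex.ofReal_eq_zero,
    Real.pi_ne_zero, Complex.I_ne_zero, OfNat.ofNat_ne_zero, or_self, false_or]

/-- The bracket is a nonzero multiple of `Δ`. -/
theorem bracket_eq : ∃ c : ℂ, c ≠ 0 ∧ ∀ τ : ℍ, bracketFun τ = c * ModularForm.discriminant τ := by
  obtain ⟨c, hc⟩ := CuspForm.exists_smul_discriminant_of_weight_eq_twelve bracketForm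
  have hc' : ∀ τ : ℍ, bracketFun τ = c * ModularForm.discriminant τ := by
    intro τ
    have := congrArg (fun f : CuspForm 𝒮ℒ 12 => f τ) hc
    simp only [smul_apply, smul_eq_mul] at this
    rw [bracketForm_apply] at this
    rw [← this]
    rfl
  refine ⟨c, ?_, hc'⟩
  rintro rfl
  -- then `D J = 0`, so `J` is constant, contradicting surjectivity
  have hDJ : ∀ τ : ℍ, D J τ = 0 := by
    intro τ
    have h := D_J_mul τ
    rw [hc' τ, zero_mul, mul_zero] at h
    have hne : (1728 : ℂ) * ModularForm.discriminant τ ^ 2 ≠ 0 :=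
      mul_ne_zero (by norm_num) (pow_ne_zero _ (discriminant_ne_zero τ))
    exact (mul_eq_zero.mp h).resolve_right hne
  have hopen : IsOpen {z : ℂ | 0 < z.im} := isOpen_lt continuous_const Complex.continuous_im
  have hconv : Convex ℝ {z : ℂ | 0 < z.im} := by
    intro x hx y hy a b ha hb hab
    simp only [Set.mem_ofPred_eq, Complex.add_im, Complex.smul_im, smul_eq_mul] at hx hy ⊢
    rcases eq_or_lt_of_le ha with rfl | ha'
    · simp only [zero_add] at hab; subst hab; simpa using hy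
    · have : 0 < a * x.im := mul_pos ha' hx
      have : 0 ≤ b * y.im := mul_nonneg hb hy.le
      linarith
  have hconst : ∀ τ₁ τ₂ : ℍ, J τ₁ = J τ₂ := by
    intro τ₁ τ₂
    have := hopen.is_const_of_deriv_eq_zero hconv.isPreconnected J_differentiableOn
      (fun z hz => by
        have := (D_eq_zero_iff_deriv (F := J) ⟨z, hz⟩).mp (hDJ ⟨z, hz⟩)
        simpa using this) τ₁.2 τ₂.2
    simpa [Function.comp_apply] using this
  obtain ⟨τ₀, h0⟩ := Jfun_surjective 0
  obtain ⟨τ₁, h1⟩ := Jfun_surjective 1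
  rw [Jfun_eq_J] at h0 h1
  have := hconst τ₀ τ₁
  rw [h0, h1] at this
  exact zero_ne_one this

theorem bracketFun_ne_zero (τ : ℍ) : bracketFun τ ≠ 0 := by
  obtain ⟨c, hc, h⟩ := bracket_eq
  rw [h τ]
  exact mul_ne_zero hc (discriminant_ne_zero τ)

theorem analyticAt_comp_ofComplex {F : ℍ → ℂ} (hF : MDiff F) (τ : ℍ) :
    AnalyticAt ℂ (F ∘ ofComplex) (τ : ℂ) :=
  (UpperHalfPlane.mdifferentiable_iff.mp hF).analyticAt
    ((isOpen_lt continuous_const Complex.continuous_im).mem_nhds τ.2)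

theorem D_E₄_ne_zero {τ : ℍ} (h : E₄ τ = 0) : D E₄ τ ≠ 0 := by
  have hb := bracketFun_ne_zero τ
  intro h0
  apply hb
  simp [bracketFun, h, h0]

theorem D_E₆_ne_zero {τ : ℍ} (h : E₆ τ = 0) : D E₆ τ ≠ 0 := by
  have hb := bracketFun_ne_zero τ
  intro h0
  apply hb
  simp [bracketFun, h, h0]

/-- `E₄` has only simple zeros. -/
theorem analyticOrderAt_E₄ {τ : ℍ} (h : E₄ τ = 0) :
    analyticOrderAt (⇑E₄ ∘ ofComplex) (τ : ℂ) = 1 := by
  refine (analyticAt_comp_ofComplex E₄.holo' τ).analyticOrderAt_eq_one_of_zero_deriv_ne_zero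
    (by simpa using h) ?_
  exact fun h0 => D_E₄_ne_zero h ((D_eq_zero_iff_deriv τ).mpr h0)

/-- `E₆` has only simple zeros. -/
theorem analyticOrderAt_E₆ {τ : ℍ} (h : E₆ τ = 0) :
    analyticOrderAt (⇑E₆ ∘ ofComplex) (τ : ℂ) = 1 := by
  refine (analyticAt_comp_ofComplex E₆.holo' τ).analyticOrderAt_eq_one_of_zero_deriv_ne_zero
    (by simpa using h) ?_
  exact fun h0 => D_E₆_ne_zero h ((D_eq_zero_iff_deriv τ).mpr h0)

theorem analyticAt_inv_discriminant (τ : ℍ) :
    AnalyticAt ℂ ((ModularForm.discriminant ∘ ofComplex)⁻¹) (τ : ℂ) :=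
  (analyticAt_comp_ofComplex discriminant_mdifferentiable τ).inv
    (by simpa using discriminant_ne_zero τ)

theorem analyticOrderAt_inv_discriminant (τ : ℍ) :
    analyticOrderAt ((ModularForm.discriminant ∘ ofComplex)⁻¹) (τ : ℂ) = 0 := by
  rw [(analyticAt_inv_discriminant τ).analyticOrderAt_eq_zero]
  simpa using discriminant_ne_zero τ

/-- **Order 3 at the zeros of `J`** (the orbit of `ρ`). -/
theorem analyticOrderAt_Jfun_of_eq_zero {τ₀ : ℍ} (h : Jfun τ₀ = 0) :
    analyticOrderAt (fun z : ℂ => Jfun (ofComplex z)) (τ₀ : ℂ) = 3 := by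
  have h4 : E₄ τ₀ = 0 := (J_eq_zero_iff τ₀).mp (by rwa [Jfun_eq_J] at h)
  have hfun : (fun z : ℂ => Jfun (ofComplex z)) =
      (⇑E₄ ∘ ofComplex) ^ 3 * (ModularForm.discriminant ∘ ofComplex)⁻¹ := by
    funext z
    simp [Jfun, div_eq_mul_inv]
  have han : AnalyticAt ℂ (⇑E₄ ∘ ofComplex) (τ₀ : ℂ) := analyticAt_comp_ofComplex E₄.holo' τ₀
  rw [hfun, analyticOrderAt_mul (han.pow 3) (analyticAt_inv_discriminant τ₀),
    analyticOrderAt_pow han, analyticOrderAt_E₄ h4, analyticOrderAt_inv_discriminant]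
  rfl

/-- **Order 2 at the points where `J = 1728`** (the orbit of `i`). -/
theorem analyticOrderAt_Jfun_sub_1728 {τ₀ : ℍ} (h : Jfun τ₀ = 1728) :
    analyticOrderAt (fun z : ℂ => Jfun (ofComplex z) - 1728) (τ₀ : ℂ) = 2 := by
  have h6 : E₆ τ₀ = 0 := (J_eq_1728_iff τ₀).mp (by rwa [Jfun_eq_J] at h)
  have hfun : (fun z : ℂ => Jfun (ofComplex z) - 1728) =
      (⇑E₆ ∘ ofComplex) ^ 2 * (ModularForm.discriminant ∘ ofComplex)⁻¹ := by
    funext z
    have := J_sub (ofComplex z)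
    simp only [Pi.mul_apply, Pi.pow_apply, Function.comp_apply, Pi.inv_apply]
    rw [Jfun_eq_J, this, div_eq_mul_inv]
  have han : AnalyticAt ℂ (⇑E₆ ∘ ofComplex) (τ₀ : ℂ) := analyticAt_comp_ofComplex E₆.holo' τ₀
  rw [hfun, analyticOrderAt_mul (han.pow 2) (analyticAt_inv_discriminant τ₀),
    analyticOrderAt_pow han, analyticOrderAt_E₆ h6, analyticOrderAt_inv_discriminant]
  rfl

theorem D_J_ne_zero {τ₀ : ℍ} (h0 : Jfun τ₀ ≠ 0) (h1 : Jfun τ₀ ≠ 1728) : D J τ₀ ≠ 0 := by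
  have h4 : E₄ τ₀ ≠ 0 := fun h => h0 (by rw [Jfun_eq_J]; exact (J_eq_zero_iff τ₀).mpr h)
  have h6 : E₆ τ₀ ≠ 0 := fun h => h1 (by rw [Jfun_eq_J]; exact (J_eq_1728_iff τ₀).mpr h)
  intro hD
  have := D_J_mul τ₀
  rw [hD, zero_mul] at this
  exact mul_ne_zero (mul_ne_zero (pow_ne_zero 2 h4) h6) (bracketFun_ne_zero τ₀) this.symm

/-- **Order 1 at all other points.** -/
theorem analyticOrderAt_Jfun_sub_of_ne {τ₀ : ℍ} (h0 : Jfun τ₀ ≠ 0) (h1 : Jfun τ₀ ≠ 1728) :
    analyticOrderAt (fun z : ℂ => Jfun (ofComplex z) - Jfun τ₀) (τ₀ : ℂ) = 1 := by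
  have han : AnalyticAt ℂ (J ∘ ofComplex) (τ₀ : ℂ) := analyticAt_comp_ofComplex J_mdifferentiable τ₀
  have hd : deriv (J ∘ ofComplex) (τ₀ : ℂ) ≠ 0 :=
    fun h => D_J_ne_zero h0 h1 ((D_eq_zero_iff_deriv τ₀).mpr h)
  have := han.analyticOrderAt_sub_eq_one_of_deriv_ne_zero hd
  simpa [Function.comp_apply, Jfun_eq_J] using this

/-! ### The elliptic points `i` and `ρ` -/

theorem S_smul_I : ModularGroup.S • UpperHalfPlane.I = UpperHalfPlane.I :=
  ModularGroup.stabilizer_I.mpr (by simp)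

theorem ST_smul_ρ : (ModularGroup.S * ModularGroup.T) • UpperHalfPlane.ρ = UpperHalfPlane.ρ :=
  ModularGroup.stabilizer_ρ.mpr (by simp)

theorem E₆_I : E₆ UpperHalfPlane.I = 0 := by
  have h := levelOne_smul E₆ ModularGroup.S UpperHalfPlane.I
  rw [S_smul_I] at h
  have hd : denom (ModularGroup.S : GL (Fin 2) ℝ) UpperHalfPlane.I = Complex.I := by
    have := ModularGroup.denom_apply (g := ModularGroup.S) (z := UpperHalfPlane.I)
    rw [this]
    simp [ModularGroup.S]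
  rw [hd] at h
  have h6 : (Complex.I : ℂ) ^ (6 : ℤ) = -1 := by
    have : (Complex.I : ℂ) ^ (6 : ℤ) = (Complex.I ^ 2) ^ 3 := by norm_cast; ring
    rw [this, Complex.I_sq]; norm_num
  rw [h6] at h
  have : (2 : ℂ) * E₆ UpperHalfPlane.I = 0 := by linear_combination h
  simpa using this

theorem E₄_ρ : E₄ UpperHalfPlane.ρ = 0 := by
  have h := levelOne_smul E₄ (ModularGroup.S * ModularGroup.T) UpperHalfPlane.ρ
  rw [ST_smul_ρ] at h
  have hd : denom ((ModularGroup.S * ModularGroup.T : SL(2, ℤ)) : GL (Fin 2) ℝ) UpperHalfPlane.ρ =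
      (UpperHalfPlane.ρ : ℂ) + 1 := by
    have := ModularGroup.denom_apply (g := ModularGroup.S * ModularGroup.T)
      (z := UpperHalfPlane.ρ)
    rw [this]
    have e10 : ((ModularGroup.S * ModularGroup.T : SL(2, ℤ)) : Matrix (Fin 2) (Fin 2) ℤ) 1 0 = 1 := by
      rw [Matrix.SpecialLinearGroup.coe_mul, ModularGroup.coe_S, ModularGroup.coe_T]
      simp [Matrix.mul_apply, Fin.sum_univ_two]
    have e11 : ((ModularGroup.S * ModularGroup.T : SL(2, ℤ)) : Matrix (Fin 2) (Fin 2) ℤ) 1 1 = 1 := by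
      rw [Matrix.SpecialLinearGroup.coe_mul, ModularGroup.coe_S, ModularGroup.coe_T]
      simp [Matrix.mul_apply, Fin.sum_univ_two]
    rw [e10, e11]
    simp
  rw [hd] at h
  have hsq := UpperHalfPlane.ρ_sq
  have h4 : ((UpperHalfPlane.ρ : ℂ) + 1) ^ (4 : ℤ) = -(UpperHalfPlane.ρ : ℂ) - 1 := by
    have e : ((UpperHalfPlane.ρ : ℂ) + 1) ^ (4 : ℤ) = ((UpperHalfPlane.ρ : ℂ) + 1) ^ 4 := by
      norm_cast
    rw [e]
    have h2 : ((UpperHalfPlane.ρ : ℂ) + 1) ^ 2 = (UpperHalfPlane.ρ : ℂ) := by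
      linear_combination hsq
    calc ((UpperHalfPlane.ρ : ℂ) + 1) ^ 4 = (((UpperHalfPlane.ρ : ℂ) + 1) ^ 2) ^ 2 := by ring
      _ = (UpperHalfPlane.ρ : ℂ) ^ 2 := by rw [h2]
      _ = _ := hsq
  rw [h4] at h
  have hne : (UpperHalfPlane.ρ : ℂ) + 2 ≠ 0 := by
    intro h0
    have := congrArg Complex.im h0
    simp only [Complex.add_im, Complex.zero_im] at this
    have hpos : 0 < (UpperHalfPlane.ρ : ℂ).im := UpperHalfPlane.ρ.2
    have h2im : (2 : ℂ).im = 0 := by simp
    rw [h2im, add_zero] at this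
    exact hpos.ne' this
  have : ((UpperHalfPlane.ρ : ℂ) + 2) * E₄ UpperHalfPlane.ρ = 0 := by linear_combination h
  exact (mul_eq_zero.mp this).resolve_left hne

theorem Jfun_I : Jfun UpperHalfPlane.I = 1728 := by
  rw [Jfun_eq_J]; exact (J_eq_1728_iff _).mpr E₆_I

theorem Jfun_ρ : Jfun UpperHalfPlane.ρ = 0 := by
  rw [Jfun_eq_J]; exact (J_eq_zero_iff _).mpr E₄_ρ

/-- The analytic order of `J - 1728` at `i` is `2`. -/
theorem analyticOrderAt_Jfun_I :
    analyticOrderAt (fun z : ℂ => Jfun (ofComplex z) - 1728) (UpperHalfPlane.I : ℂ) = 2 :=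
  analyticOrderAt_Jfun_sub_1728 Jfun_I

/-- The analytic order of `J` at `ρ` is `3`. -/
theorem analyticOrderAt_Jfun_ρ :
    analyticOrderAt (fun z : ℂ => Jfun (ofComplex z)) (UpperHalfPlane.ρ : ℂ) = 3 :=
  analyticOrderAt_Jfun_of_eq_zero Jfun_ρ

end Fermat.Agent.S24

end
end ZBS24_003_8

/-! ### bundled: `Fermat.Agent.S24.LocFinite` -/
section ZBS24_003_9

/-!
# S24 piece P5b — the three finite local fields of `Realization N` for `M = Man N`

* `loc_zero_Man N    : ∃ w, LocalProp (jMan N) (act N (S * T)) w`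
* `loc_1728_Man N    : ∃ w, LocalProp (jMan N - algebraMap Kb (Man N) 1728) (act N S) w`
* `loc_gen_Man N c … : ∃ w, LocalProp (jMan N - algebraMap Kb (Man N) c) (act N 1) w`
-/

set_option autoImplicit false

noncomputable section

open UpperHalfPlane Filter Topology AlgebraicCurve WithZero
open scoped MatrixGroups Manifold ModularForm

namespace Fermat.Agent.S24

attribute [local instance] algKbC

theorem algebraMap_jBan_sub (N : ℕ) (c : Kb) :
    algebraMap (Ban N) (Man N) (jBan N - algebraMap Kb (Ban N) c)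
      = jMan N - algebraMap Kb (Man N) c := by
  rw [map_sub, ← IsScalarTower.algebraMap_apply Kb (Ban N) (Man N)]
  rfl

theorem coe_jBan_sub (N : ℕ) (c : Kb) :
    ((jBan N - algebraMap Kb (Ban N) c : Ban N) : ℍ → ℂ) = fun τ => Jfun τ - embC c := rfl

/-- The place over a generic point `c ≠ 0, 1728` of the `j`-line. -/
theorem loc_gen_Man (N : ℕ) (c : Kb) (hc0 : c ≠ 0) (hc : c ≠ 1728) :
    ∃ w : Place Kb (Man N), LocalProp (jMan N - algebraMap Kb (Man N) c) (act N 1) w := by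
  obtain ⟨τ₀, hτ₀⟩ := Jfun_surjective (embC c)
  have h0 : Jfun τ₀ ≠ 0 := by
    rw [hτ₀]
    intro h
    exact hc0 (by simpa using h)
  have h1 : Jfun τ₀ ≠ 1728 := by
    rw [hτ₀]
    intro h
    apply hc
    have h2 : embC c = embC 1728 := by rw [h, map_ofNat]
    exact embC.injective h2
  have hord := analyticOrderAt_Jfun_sub_of_ne h0 h1
  rw [hτ₀] at hord
  have hprim : IsPrimitiveRoot (denom ((1 : SL(2, ℤ)) : GL (Fin 2) ℝ) τ₀ ^ 2) 1 := by
    rw [denom_one_SL, one_pow]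
    exact IsPrimitiveRoot.one
  have := exists_place_localProp N τ₀ 1 1 (jBan N - algebraMap Kb (Ban N) c) (one_smul _ _)
    hprim (by rw [coe_jBan_sub]; exact hord) one_pos
  rwa [algebraMap_jBan_sub] at this

/-- The place over `j = 1728` (the point `i`). -/
theorem loc_1728_Man (N : ℕ) :
    ∃ w : Place Kb (Man N),
      LocalProp (jMan N - algebraMap Kb (Man N) 1728) (act N ModularGroup.S) w := by
  have hden : denom (ModularGroup.S : GL (Fin 2) ℝ) UpperHalfPlane.I ^ 2 = -1 := by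
    have : denom (ModularGroup.S : GL (Fin 2) ℝ) UpperHalfPlane.I = Complex.I := by
      have := ModularGroup.denom_apply (g := ModularGroup.S) (z := UpperHalfPlane.I)
      rw [this]
      simp [ModularGroup.S]
    rw [this, Complex.I_sq]
  have hprim : IsPrimitiveRoot (denom (ModularGroup.S : GL (Fin 2) ℝ) UpperHalfPlane.I ^ 2) 2 := by
    rw [hden]
    exact IsPrimitiveRoot.neg_one 0 (by norm_num)
  have hord : ordAt UpperHalfPlane.I
      ((jBan N - algebraMap Kb (Ban N) 1728 : Ban N) : ℍ → ℂ) = (2 : ℕ) := by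
    rw [coe_jBan_sub, map_ofNat]
    exact analyticOrderAt_Jfun_I
  have := exists_place_localProp N UpperHalfPlane.I ModularGroup.S 2
    (jBan N - algebraMap Kb (Ban N) 1728) S_smul_I hprim hord (by norm_num)
  rwa [algebraMap_jBan_sub] at this

/-- The place over `j = 0` (the point `ρ`). -/
theorem loc_zero_Man (N : ℕ) :
    ∃ w : Place Kb (Man N),
      LocalProp (jMan N) (act N (ModularGroup.S * ModularGroup.T)) w := by
  have hd : denom ((ModularGroup.S * ModularGroup.T : SL(2, ℤ)) : GL (Fin 2) ℝ) UpperHalfPlane.ρ =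
      (UpperHalfPlane.ρ : ℂ) + 1 := by
    have := ModularGroup.denom_apply (g := ModularGroup.S * ModularGroup.T)
      (z := UpperHalfPlane.ρ)
    rw [this]
    have e10 : ((ModularGroup.S * ModularGroup.T : SL(2, ℤ)) : Matrix (Fin 2) (Fin 2) ℤ) 1 0 = 1 := by
      rw [Matrix.SpecialLinearGroup.coe_mul, ModularGroup.coe_S, ModularGroup.coe_T]
      simp [Matrix.mul_apply, Fin.sum_univ_two]
    have e11 : ((ModularGroup.S * ModularGroup.T : SL(2, ℤ)) : Matrix (Fin 2) (Fin 2) ℤ) 1 1 = 1 := by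
      rw [Matrix.SpecialLinearGroup.coe_mul, ModularGroup.coe_S, ModularGroup.coe_T]
      simp [Matrix.mul_apply, Fin.sum_univ_two]
    rw [e10, e11]
    simp
  have hsq := UpperHalfPlane.ρ_sq
  have hden : denom ((ModularGroup.S * ModularGroup.T : SL(2, ℤ)) : GL (Fin 2) ℝ)
      UpperHalfPlane.ρ ^ 2 = (UpperHalfPlane.ρ : ℂ) := by
    rw [hd]; linear_combination hsq
  have hρ3 : (UpperHalfPlane.ρ : ℂ) ^ 3 = 1 := by
    linear_combination ((UpperHalfPlane.ρ : ℂ) - 1) * hsq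
  have hρ1 : (UpperHalfPlane.ρ : ℂ) ≠ 1 := by
    intro h
    have := congrArg Complex.im h
    have hpos : 0 < (UpperHalfPlane.ρ : ℂ).im := UpperHalfPlane.ρ.2
    rw [Complex.one_im] at this
    exact hpos.ne' this
  have hprim : IsPrimitiveRoot (denom ((ModularGroup.S * ModularGroup.T : SL(2, ℤ)) :
      GL (Fin 2) ℝ) UpperHalfPlane.ρ ^ 2) 3 := by
    rw [hden]
    refine IsPrimitiveRoot.mk_of_lt _ (by norm_num) hρ3 ?_
    intro l hl0 hl3 hl
    interval_cases l
    · exact hρ1 (by simpa using hl)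
    · apply hρ1
      have h2 : (UpperHalfPlane.ρ : ℂ) ^ 3 = (UpperHalfPlane.ρ : ℂ) ^ 2 * (UpperHalfPlane.ρ : ℂ) := by
        ring
      rw [hl, one_mul] at h2
      rw [← h2, hρ3]
  have hord : ordAt UpperHalfPlane.ρ ((jBan N : Ban N) : ℍ → ℂ) = (3 : ℕ) :=
    analyticOrderAt_Jfun_ρ
  exact exists_place_localProp N UpperHalfPlane.ρ (ModularGroup.S * ModularGroup.T) 3
    (jBan N) ST_smul_ρ hprim hord (by norm_num)

end Fermat.Agent.S24

end
end ZBS24_003_9

/-! ### bundled: `Fermat.Agent.S24.RealizationExists` -/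
section ZBS24_003_10

/-!
# S24 — a `Realization N` exists (analytic pieces P5–P7 glued)
-/

set_option autoImplicit false

noncomputable section

open AlgebraicCurve ModularCurve IntermediateField
open scoped MatrixGroups

namespace Fermat.Agent.S24

theorem exists_realization (N : ℕ) [NeZero N] : Nonempty (Realization N) :=
  realization_of_pieces N (phi N) (phi_jF N) (fixed_mem_adjoin_jMan N)
    (stab_iff_of_phi N (phi N) (phi_jdF N)) (exists_place_inf N) (loc_zero_Man N)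
    (loc_1728_Man N) (loc_gen_Man N)

end Fermat.Agent.S24

end
end ZBS24_003_10

/-! ### bundled: `Fermat.Agent.S28.NormPoly` -/
section ZBS24_003_11

/-!
# S28 — the generic norm polynomial over `ℂ[J]`

`IsModFun N f` : `f : ℍ → ℂ` is a "modular function" for `Γ₀(N)`, holomorphic on `ℍ` and
meromorphic at the cusps: `f · Δ ^ m` is a modular form of weight `12 m` for `Γ₀(N)` for some `m`.
These functions form a `ℂ`-subalgebra `modFunAlg N` of `ℍ → ℂ`.

Main results:
* `IsModFun.exists_normPoly` : every such `f` is a root of a monic polynomial of degree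
  `cosetCard N = [SL(2,ℤ) : Γ₀(N)]` with coefficients in `ℂ[J]`, `J = Jfun = E₄³/Δ`;
* `IsModFun.exists_normPoly_of_ne_zero` : if moreover `f` has no zero on `ℍ` and `1/f` is again
  such a function, the constant coefficient is a nonzero constant.
-/

set_option autoImplicit false

noncomputable section

namespace Fermat.Agent.S28

open UpperHalfPlane ModularForm SlashInvariantForm Polynomial
open Fermat.Agent.S23 Fermat.Agent.S24
open scoped MatrixGroups ModularForm Manifold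

local notation "Δ" => ModularForm.discriminant

/-- `f` is a holomorphic modular function for `Γ₀(N)`, meromorphic at the cusps. -/
def IsModFun (N : ℕ) (f : ℍ → ℂ) : Prop :=
  ∃ m : ℕ, IsMF (G0 N) (12 * (m : ℤ)) (fun z => f z * Δ z ^ m)

/-- `Δ` as a form of level `Γ₀(N)`. -/
theorem isMF_discriminant (N : ℕ) [NeZero N] : IsMF (G0 N) 12 (Δ : ℍ → ℂ) :=
  IsMF.of_levelOne ⟨(CuspForm.discriminant : CuspForm 𝒮ℒ 12), by
    ext z; simp [CuspForm.coe_discriminant]⟩

theorem IsModFun.succ {N : ℕ} [NeZero N] {f : ℍ → ℂ} {m : ℕ}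
    (h : IsMF (G0 N) (12 * (m : ℤ)) (fun z => f z * Δ z ^ m)) :
    IsMF (G0 N) (12 * ((m + 1 : ℕ) : ℤ)) (fun z => f z * Δ z ^ (m + 1)) := by
  have h1 := (h.mul (isMF_discriminant N)).of_weight_eq
    (show 12 * (m : ℤ) + 12 = 12 * ((m + 1 : ℕ) : ℤ) by push_cast; ring)
  convert h1 using 1
  ext z
  simp only [Pi.mul_apply, pow_succ]
  ring

theorem IsModFun.raise {N : ℕ} [NeZero N] {f : ℍ → ℂ} {m : ℕ}
    (h : IsMF (G0 N) (12 * (m : ℤ)) (fun z => f z * Δ z ^ m)) (k : ℕ) :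
    IsMF (G0 N) (12 * ((m + k : ℕ) : ℤ)) (fun z => f z * Δ z ^ (m + k)) := by
  induction k with
  | zero => simpa using h
  | succ k ih => exact IsModFun.succ ih

theorem IsModFun.raise_le {N : ℕ} [NeZero N] {f : ℍ → ℂ} {m m' : ℕ}
    (h : IsMF (G0 N) (12 * (m : ℤ)) (fun z => f z * Δ z ^ m)) (hm : m ≤ m') :
    IsMF (G0 N) (12 * (m' : ℤ)) (fun z => f z * Δ z ^ m') := by
  obtain ⟨k, rfl⟩ := Nat.exists_eq_add_of_le hm
  exact IsModFun.raise h k

theorem isModFun_const (N : ℕ) (c : ℂ) : IsModFun N (fun _ => c) := by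
  refine ⟨0, ?_⟩
  have h : IsMF (G0 N) 0 (c • (1 : ℍ → ℂ)) := IsMF.const_smul c IsMF.one
  have h2 := h.of_weight_eq (show (0 : ℤ) = 12 * ((0 : ℕ) : ℤ) by simp)
  convert h2 using 1
  ext z
  simp

theorem IsModFun.add {N : ℕ} [NeZero N] {f g : ℍ → ℂ} (hf : IsModFun N f) (hg : IsModFun N g) :
    IsModFun N (f + g) := by
  obtain ⟨m, hm⟩ := hf
  obtain ⟨n, hn⟩ := hg
  refine ⟨max m n, ?_⟩
  have h1 := IsModFun.raise_le hm (le_max_left m n)
  have h2 := IsModFun.raise_le hn (le_max_right m n)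
  convert h1.add h2 using 1
  ext z
  simp only [Pi.add_apply]
  ring

theorem IsModFun.mul {N : ℕ} {f g : ℍ → ℂ} (hf : IsModFun N f) (hg : IsModFun N g) :
    IsModFun N (f * g) := by
  obtain ⟨m, hm⟩ := hf
  obtain ⟨n, hn⟩ := hg
  refine ⟨m + n, ?_⟩
  have h := (hm.mul hn).of_weight_eq
    (show 12 * (m : ℤ) + 12 * (n : ℤ) = 12 * ((m + n : ℕ) : ℤ) by push_cast; ring)
  convert h using 1
  ext z
  simp only [Pi.mul_apply, pow_add]
  ring

/-- The `ℂ`-algebra of holomorphic modular functions for `Γ₀(N)`, meromorphic at the cusps. -/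
def modFunAlg (N : ℕ) [NeZero N] : Subalgebra ℂ (ℍ → ℂ) where
  carrier := {f | IsModFun N f}
  mul_mem' := fun hf hg => IsModFun.mul hf hg
  add_mem' := fun hf hg => IsModFun.add hf hg
  algebraMap_mem' := fun c => isModFun_const N c

theorem mem_modFunAlg {N : ℕ} [NeZero N] {f : ℍ → ℂ} : f ∈ modFunAlg N ↔ IsModFun N f := Iff.rfl

theorem IsModFun.neg {N : ℕ} [NeZero N] {f : ℍ → ℂ} (hf : IsModFun N f) : IsModFun N (-f) :=
  (modFunAlg N).neg_mem hf

theorem IsModFun.sub {N : ℕ} [NeZero N] {f g : ℍ → ℂ} (hf : IsModFun N f) (hg : IsModFun N g) :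
    IsModFun N (f - g) :=
  (modFunAlg N).sub_mem hf hg

theorem IsModFun.pow {N : ℕ} [NeZero N] {f : ℍ → ℂ} (hf : IsModFun N f) (n : ℕ) : IsModFun N (f ^ n) :=
  (modFunAlg N).pow_mem hf n

theorem IsModFun.smul {N : ℕ} [NeZero N] {f : ℍ → ℂ} (c : ℂ) (hf : IsModFun N f) : IsModFun N (c • f) :=
  (modFunAlg N).smul_mem hf c

/-- A quotient `G / Δ ^ m` of a modular form of weight `12 m` is a modular function. -/
theorem isModFun_div {N : ℕ} {G : ℍ → ℂ} {m : ℕ} (hG : IsMF (G0 N) (12 * (m : ℤ)) G) :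
    IsModFun N (fun z => G z / Δ z ^ m) := by
  refine ⟨m, ?_⟩
  convert hG using 1
  ext z
  rw [div_mul_cancel₀ _ (pow_ne_zero m (discriminant_ne_zero z))]

/-- `Jfun` is a modular function (of any level). -/
theorem isModFun_Jfun (N : ℕ) [NeZero N] : IsModFun N Jfun := by
  refine ⟨1, ?_⟩
  have h4 : IsMF (G0 N) 4 (E₄ : ℍ → ℂ) := IsMF.of_levelOne ⟨E₄, rfl⟩
  have h := (h4.pow 3).of_weight_eq (show ((3 : ℕ) : ℤ) * 4 = 12 * ((1 : ℕ) : ℤ) by norm_num)
  convert h using 1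
  ext z
  simp only [Pi.pow_apply, pow_one, Jfun_def]
  rw [div_mul_cancel₀ _ (discriminant_ne_zero z)]

section normPoly

variable {N : ℕ} [NeZero N]

open scoped Classical in
/-- The elementary symmetric functions of the translates of a form of weight `12 m` are
`Δ ^ (m j)` times a polynomial in `Jfun`. -/
theorem normPoly_coeff_exists (m : ℕ) (F : ModularForm (G0 N) (12 * (m : ℤ))) (j : ℕ) :
    ∃ P : ℂ[X], P.natDegree ≤ m * j ∧ ∀ τ : ℍ,
      (∑ S ∈ Finset.powersetCard j (cosetFinset N), ∏ q ∈ S, quotientFunc F q τ) =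
        Δ τ ^ (m * j) * P.eval (Jfun τ) := by
  obtain ⟨E, hE⟩ := isMF_esymm F j
  obtain ⟨P, hPdeg, hP⟩ := exists_poly_of_modularForm (m * j) ((j : ℤ) * (12 * (m : ℤ)))
    (by push_cast; ring) E
  refine ⟨P, hPdeg, fun τ => ?_⟩
  rw [← hP τ]
  exact (congrFun hE τ).symm

/-- Vieta + symmetric functions: the basic relation. -/
theorem normPoly_relation (m : ℕ) (F : ModularForm (G0 N) (12 * (m : ℤ)))
    (P : ℕ → ℂ[X])
    (hP : ∀ j (τ : ℍ), (∑ S ∈ Finset.powersetCard j (cosetFinset N),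
      ∏ q ∈ S, quotientFunc F q τ) = Δ τ ^ (m * j) * (P j).eval (Jfun τ)) (τ : ℍ) :
    ∑ j ∈ Finset.range (cosetCard N + 1),
      (-1 : ℂ) ^ j * (P j).eval (Jfun τ) * (F τ / Δ τ ^ m) ^ (cosetCard N - j) = 0 := by
  have hv := normPoly_vieta (cosetFinset N) (fun q => quotientFunc F q τ) (F τ)
  have h0 : ∏ q ∈ cosetFinset N, (F τ - quotientFunc F q τ) = 0 :=
    Finset.prod_eq_zero (mem_cosetFinset (coset1 N))
      (by rw [normPoly_quotientFunc_coset1]; exact sub_self _)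
  rw [h0] at hv
  have hΔ : Δ τ ≠ 0 := discriminant_ne_zero τ
  have hΔn : Δ τ ^ (m * cosetCard N) ≠ 0 := pow_ne_zero _ hΔ
  have key : Δ τ ^ (m * cosetCard N) * ∑ j ∈ Finset.range (cosetCard N + 1),
      (-1 : ℂ) ^ j * (P j).eval (Jfun τ) * (F τ / Δ τ ^ m) ^ (cosetCard N - j) = 0 := by
    rw [hv, Finset.mul_sum]
    refine Finset.sum_congr rfl fun j hj => ?_
    have hj' : j ≤ cosetCard N := Nat.lt_succ_iff.mp (Finset.mem_range.mp hj)
    have hcard : (cosetFinset N).card = cosetCard N := rfl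
    rw [hcard, hP j τ, div_pow, ← pow_mul]
    have hsplit : m * cosetCard N = m * j + m * (cosetCard N - j) := by
      rw [← Nat.mul_add, Nat.add_sub_cancel' hj']
    rw [hsplit, pow_add]
    field_simp
  exact (mul_eq_zero.mp key).resolve_left hΔn

/-- the zeroth symmetric function is `1`. -/
theorem normPoly_coeff_zero (m : ℕ) (F : ModularForm (G0 N) (12 * (m : ℤ)))
    (P : ℂ[X]) (hdeg : P.natDegree ≤ m * 0)
    (hP : ∀ (τ : ℍ), (∑ S ∈ Finset.powersetCard 0 (cosetFinset N),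
      ∏ q ∈ S, quotientFunc F q τ) = Δ τ ^ (m * 0) * P.eval (Jfun τ)) : P = 1 := by
  have h1 : P.natDegree = 0 := by simpa using hdeg
  obtain ⟨c, rfl⟩ : ∃ c, P = C c := ⟨P.coeff 0, eq_C_of_natDegree_eq_zero h1⟩
  have h2 := hP I
  simp only [Finset.powersetCard_zero, Finset.sum_singleton, Finset.prod_empty, mul_zero,
    pow_zero, one_mul, eval_C] at h2
  rw [← h2, map_one]

/-- **Norm polynomial**: a modular form `F` of weight `12 m` for `Γ₀(N)` gives a monic polynomial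
of degree `[SL(2,ℤ) : Γ₀(N)]` over `ℂ[J]` with root `F / Δ ^ m`. -/
theorem normPoly_of_modularForm (m : ℕ) (F : ModularForm (G0 N) (12 * (m : ℤ))) :
    ∃ Φ : (ℂ[X])[X], Φ.Monic ∧ Φ.natDegree = cosetCard N ∧
      (∀ i, (Φ.coeff i).natDegree ≤ m * (cosetCard N - i)) ∧
      (∀ τ : ℍ, (Φ.coeff 0).eval (Jfun τ) * Δ τ ^ (m * cosetCard N) =
        (-1) ^ cosetCard N * ∏ q ∈ cosetFinset N, quotientFunc F q τ) ∧
      ∀ τ : ℍ, Φ.eval₂ (evalRingHom (Jfun τ)) (F τ / Δ τ ^ m) = 0 := by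
  classical
  choose P hPdeg hP using normPoly_coeff_exists m F
  have hP0 : P 0 = 1 := normPoly_coeff_zero m F (P 0) (hPdeg 0) (hP 0)
  set n := cosetCard N with hn
  have hnpos : 0 < n := normPoly_cosetCard_pos N
  set r : (ℂ[X])[X] := ∑ i : Fin n, C ((-1 : ℂ[X]) ^ (n - (i : ℕ)) * P (n - (i : ℕ))) * X ^ (i : ℕ)
    with hr
  have hrdeg : r.degree < (n : WithBot ℕ) := degree_sum_fin_lt _
  have hcoeff_lt : ∀ i : ℕ, ∀ hi : i < n,
      (X ^ n + r).coeff i = (-1 : ℂ[X]) ^ (n - i) * P (n - i) := by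
    intro i hi
    rw [coeff_add, coeff_X_pow, if_neg (Nat.ne_of_lt hi), zero_add, hr, finsetSum_coeff]
    rw [Finset.sum_eq_single (⟨i, hi⟩ : Fin n)]
    · rw [coeff_C_mul, coeff_X_pow, if_pos rfl, mul_one]
    · intro b _ hb
      rw [coeff_C_mul, coeff_X_pow, if_neg, mul_zero]
      intro h
      exact hb (Fin.ext h.symm)
    · intro h
      exact absurd (Finset.mem_univ _) h
  have hmonic : (X ^ n + r).Monic := monic_X_pow_add hrdeg
  have hnat : (X ^ n + r).natDegree = n := by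
    rw [natDegree_add_eq_left_of_degree_lt (by rwa [degree_X_pow]), natDegree_X_pow]
  refine ⟨X ^ n + r, hmonic, hnat, ?_, ?_, ?_⟩
  · intro i
    rcases lt_trichotomy i n with hi | hi | hi
    · rw [hcoeff_lt i hi]
      have h1 : ((-1 : ℂ[X]) ^ (n - i) * P (n - i)).natDegree ≤ (P (n - i)).natDegree := by
        have : ((-1 : ℂ[X]) ^ (n - i)) = C ((-1 : ℂ) ^ (n - i)) := by simp
        rw [this]
        exact natDegree_C_mul_le _ _
      exact h1.trans (hPdeg (n - i))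
    · have h1 := hmonic.coeff_natDegree
      rw [hnat] at h1
      rw [hi, h1]
      simp
    · rw [coeff_eq_zero_of_natDegree_lt (by rw [hnat]; exact hi)]
      simp
  · intro τ
    rw [hcoeff_lt 0 hnpos, Nat.sub_zero, eval_mul, eval_pow, eval_neg, eval_one]
    have h := hP n τ
    have hcard : Finset.powersetCard n (cosetFinset N) = {cosetFinset N} := by
      rw [hn]; exact Finset.powersetCard_self _
    rw [hcard, Finset.sum_singleton] at h
    rw [h]
    ring
  · intro τ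
    have hrel := normPoly_relation m F P hP τ
    rw [eval₂_add, eval₂_X_pow, hr, eval₂_finsetSum]
    simp only [eval₂_mul, eval₂_C, eval₂_X_pow, coe_evalRingHom, eval_mul, eval_pow, eval_neg,
      eval_one]
    rw [Finset.sum_range_succ'] at hrel
    simp only [pow_zero, one_mul, Nat.sub_zero, hP0, eval_one] at hrel
    rw [← Finset.sum_range_reflect] at hrel
    rw [Fin.sum_univ_eq_sum_range
      (fun i => (-1 : ℂ) ^ (n - i) * eval (Jfun τ) (P (n - i)) * (F τ / Δ τ ^ m) ^ i) n]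
    rw [add_comm]
    convert hrel using 2
    refine Finset.sum_congr rfl fun i hi => ?_
    have hi' : i < n := Finset.mem_range.mp hi
    have e1 : n - 1 - i + 1 = n - i := by omega
    have e2 : n - (n - i) = i := by omega
    rw [e1, e2]

/-- Every modular function for `Γ₀(N)` is a root of a monic polynomial of degree
`[SL(2,ℤ) : Γ₀(N)]` over `ℂ[J]`. -/
theorem IsModFun.exists_normPoly {f : ℍ → ℂ} (hf : IsModFun N f) :
    ∃ Φ : (ℂ[X])[X], Φ.Monic ∧ Φ.natDegree = cosetCard N ∧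
      ∀ τ : ℍ, Φ.eval₂ (evalRingHom (Jfun τ)) (f τ) = 0 := by
  obtain ⟨m, F, hF⟩ := hf
  obtain ⟨Φ, h1, h2, -, -, h5⟩ := normPoly_of_modularForm m F
  refine ⟨Φ, h1, h2, fun τ => ?_⟩
  have h := h5 τ
  have hFτ : F τ = f τ * Δ τ ^ m := congrFun hF τ
  rwa [hFτ, mul_div_assoc, div_self (pow_ne_zero m (discriminant_ne_zero τ)), mul_one] at h

end normPoly

end Fermat.Agent.S28

end
end ZBS24_003_11

/-! ### bundled: `Fermat.Agent.ES.RC.PlacePlan` -/
section ZBS24_003_12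

/-!
# ESpkg-G1, piece (RC)(ii): places of `K_ℂ = Frac (modFunAlg M)` ↔ analytic orders — interface

`F` is any field of fractions of `modFunAlg M` (the holomorphic modular functions of level `Γ₀(M)`,
meromorphic at the cusps); by (RC)(i) (`Fermat.Agent.ES.RC.rc_isFractionRing`) this applies to
`K_ℂ = modularFunctionFieldFullC ℂ M`.

* `ordPt τ f`      : the order of vanishing of `f` at `τ ∈ ℍ` (an integer);
* `IsCuspPeriod M h g` : `0 < h` and `g T^h g⁻¹ ∈ Γ₀(M)`, so `f ∘ g` is `h`-periodic for `f` of level `M`;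
* `ordCusp h g f`  : the order of `f ∘ g` at `i∞` in the local parameter `q_h = exp (2πi z / h)`.

Statements (each is proved in its own file, see `NOTES/ES-RC2.md`):
* `StmtPt M F`       : every `τ` gives a place `v` with `ordPt τ f = e * v.ord f`, `0 < e`;
* `StmtPtExact M F`  : moreover `e` is the order of the multiplier of some `ε ∈ Γ₀(M)` fixing `τ`;
* `StmtCusp M F`     : every cusp `g∞` and period `h` give a place `v` with `ordCusp h g f = e * v.ord f`;
* `StmtCuspExact M F`: for every `g` there is a period `h` with `ordCusp h g f = v.ord f`;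
* `StmtAll M F`      : every place of `F / ℂ` is one of those.
-/

set_option autoImplicit false

noncomputable section

namespace Fermat.Agent.ES.RC

open UpperHalfPlane AlgebraicCurve
open Fermat.Agent.S24 Fermat.Agent.S28
open scoped MatrixGroups

/-- The (integer) order of vanishing of `f : ℍ → ℂ` at `τ` (`0` if `f` vanishes identically
near `τ`). -/
def ordPt (τ : ℍ) (f : ℍ → ℂ) : ℤ := ((ordAt τ f).toNat : ℤ)

/-- `h` is a period of the cusp `g∞` of `Γ₀(M)`. -/
def IsCuspPeriod (M h : ℕ) (g : SL(2, ℤ)) : Prop :=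
  0 < h ∧ g * ModularGroup.T ^ h * g⁻¹ ∈ CongruenceSubgroup.Gamma0 M

/-- The order of `f ∘ g` at `i∞` in the parameter `q_h` (`0` if not meromorphic or if `f = 0`). -/
def ordCusp (h : ℕ) (g : SL(2, ℤ)) (f : ℍ → ℂ) : ℤ :=
  (meromorphicOrderAt (cuspFn h (fun τ => f (g • τ))) 0).untop₀

section Statements

variable (M : ℕ) [NeZero M] (F : Type) [Field F] [Algebra ℂ F] [Algebra (modFunAlg M) F]

/-- The order at `τ` is, on `modFunAlg M`, a positive multiple of the order at a place of `F`. -/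
def StmtPt : Prop :=
  ∀ τ : ℍ, ∃ (v : Place ℂ F) (e : ℕ), 0 < e ∧ ∀ f : modFunAlg M, f ≠ 0 →
    ordPt τ (f : ℍ → ℂ) = (e : ℤ) * v.ord (algebraMap (modFunAlg M) F f)

/-- Exact form: the ramification index `e` is the order of the multiplier `denom ε τ ^ 2` of an
element `ε ∈ Γ₀(M)` fixing `τ` (so `e = 1` unless `τ` is an elliptic point of `Γ₀(M)`). -/
def StmtPtExact : Prop :=
  ∀ τ : ℍ, ∃ (v : Place ℂ F) (e : ℕ) (ε : SL(2, ℤ)), ε ∈ CongruenceSubgroup.Gamma0 M ∧
    ε • τ = τ ∧ IsPrimitiveRoot (denom ε τ ^ 2) e ∧ ∀ f : modFunAlg M, f ≠ 0 →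
      ordPt τ (f : ℍ → ℂ) = (e : ℤ) * v.ord (algebraMap (modFunAlg M) F f)

/-- The order at a cusp, in `q_h` for a period `h`, is a positive multiple of the order at a
place of `F`. -/
def StmtCusp : Prop :=
  ∀ (g : SL(2, ℤ)) (h : ℕ), IsCuspPeriod M h g → ∃ (v : Place ℂ F) (e : ℕ), 0 < e ∧
    ∀ f : modFunAlg M, f ≠ 0 →
      ordCusp h g (f : ℍ → ℂ) = (e : ℤ) * v.ord (algebraMap (modFunAlg M) F f)

/-- Exact form: for the right period `h` (the width of the cusp), `q_h` is a uniformiser. -/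
def StmtCuspExact : Prop :=
  ∀ g : SL(2, ℤ), ∃ (v : Place ℂ F) (h : ℕ), IsCuspPeriod M h g ∧
    ∀ f : modFunAlg M, f ≠ 0 →
      ordCusp h g (f : ℍ → ℂ) = v.ord (algebraMap (modFunAlg M) F f)

/-- Every place of `F` over `ℂ` is the order at a point of `ℍ` or at a cusp. -/
def StmtAll : Prop :=
  ∀ v : Place ℂ F,
    (∃ (τ : ℍ) (e : ℕ), 0 < e ∧ ∀ f : modFunAlg M, f ≠ 0 →
      ordPt τ (f : ℍ → ℂ) = (e : ℤ) * v.ord (algebraMap (modFunAlg M) F f)) ∨
    (∃ (g : SL(2, ℤ)) (h e : ℕ), IsCuspPeriod M h g ∧ 0 < e ∧ ∀ f : modFunAlg M, f ≠ 0 →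
      ordCusp h g (f : ℍ → ℂ) = (e : ℤ) * v.ord (algebraMap (modFunAlg M) F f))

end Statements

end Fermat.Agent.ES.RC

end
end ZBS24_003_12

/-! ### bundled: `Fermat.Agent.ES.RC.PlacePt` -/
section ZBS24_003_13

/-!
# ESpkg-G1 (RC)(ii), piece P-pt: the place of `Frac (modFunAlg M)` at a point `τ ∈ ℍ`

* `IsModFun.mdiff` : modular functions are holomorphic on `ℍ`;
* `isOrdFun_ordPt` : `f ↦ ordPt τ f` is an order function on `modFunAlg M`;
* `valPt M F τ` : the corresponding valuation of `F`;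
* `exists_place_pt` : the place at `τ`, with its valuation ring;
* `stmtPt : StmtPt M F`.
-/

set_option autoImplicit false

noncomputable section

namespace Fermat.Agent.ES.RC

open UpperHalfPlane AlgebraicCurve ModularForm WithZero
open Fermat.Agent.S23 Fermat.Agent.S24 Fermat.Agent.S28
open scoped MatrixGroups Manifold ModularForm

local notation "Δ" => ModularForm.discriminant

/-- Modular functions are holomorphic. -/
theorem rc_mdiff_of_isModFun {M : ℕ} {f : ℍ → ℂ} (hf : IsModFun M f) : MDiff f := by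
  obtain ⟨m, G, hG⟩ := hf
  have hGd : MDiff (G : ℍ → ℂ) := ModularFormClass.holo G
  have hΔ : MDiff (CuspForm.discriminant : ℍ → ℂ) := ModularFormClass.holo CuspForm.discriminant
  rw [UpperHalfPlane.mdifferentiable_iff] at hGd hΔ ⊢
  have h1 : (f ∘ ofComplex) = fun z => ((G : ℍ → ℂ) ∘ ofComplex) z /
      (((CuspForm.discriminant : ℍ → ℂ) ∘ ofComplex) z) ^ m := by
    ext z
    have := congrFun hG (ofComplex z)
    simp only [Function.comp_apply, CuspForm.coe_discriminant]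
    rw [this, mul_div_assoc, div_self (pow_ne_zero m (discriminant_ne_zero _)), mul_one]
  rw [h1]
  exact hGd.div (hΔ.pow m) fun z _ => pow_ne_zero m (by
    simp only [Function.comp_apply, CuspForm.coe_discriminant]
    exact discriminant_ne_zero _)

variable (M : ℕ) [NeZero M]

theorem rc_mdiff (f : modFunAlg M) : MDiff (f : ℍ → ℂ) := rc_mdiff_of_isModFun f.2

theorem rc_coe_ne_zero {f : modFunAlg M} (hf : f ≠ 0) : (f : ℍ → ℂ) ≠ 0 :=
  fun h => hf (Subtype.ext h)

instance rc_noZeroDivisors : NoZeroDivisors (modFunAlg M) where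
  eq_zero_or_eq_zero_of_mul_eq_zero := by
    rintro ⟨f, hf⟩ ⟨g, hg⟩ h
    have h' : f * g = 0 := congrArg Subtype.val h
    rcases (UpperHalfPlane.mul_eq_zero_iff (rc_mdiff_of_isModFun hf)
      (rc_mdiff_of_isModFun hg)).mp h' with h0 | h0
    · exact Or.inl (Subtype.ext h0)
    · exact Or.inr (Subtype.ext h0)

instance rc_nontrivial : Nontrivial (modFunAlg M) :=
  ⟨⟨0, 1, fun h => by
    have h' : (0 : ℍ → ℂ) = 1 := congrArg Subtype.val h
    have := congrFun h' UpperHalfPlane.I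
    simp at this⟩⟩

instance rc_isDomain : IsDomain (modFunAlg M) := NoZeroDivisors.to_isDomain _

/-! ### The order at a point as an order function -/

theorem rc_coe_ordPt (τ : ℍ) {f : modFunAlg M} (hf : f ≠ 0) :
    (((ordAt τ (f : ℍ → ℂ)).toNat : ℕ) : ℕ∞) = ordAt τ (f : ℍ → ℂ) :=
  ENat.natCast_toNat (ordAt_ne_top (rc_mdiff M f) (rc_coe_ne_zero M hf) τ)

theorem isOrdFun_ordPt (τ : ℍ) : IsOrdFun (fun f : modFunAlg M => ordPt τ (f : ℍ → ℂ)) where
  one := by
    have h1 : ((1 : modFunAlg M) : ℍ → ℂ) = fun _ => (1 : ℂ) := rfl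
    simp only [ordPt, h1, ordAt_const one_ne_zero]
    rfl
  mul f g hf hg := by
    refine ⟨mul_ne_zero hf hg, ?_⟩
    have h := ordAt_mul (rc_mdiff M f) (rc_mdiff M g) τ
    have h1 : ((f * g : modFunAlg M) : ℍ → ℂ) = (f : ℍ → ℂ) * (g : ℍ → ℂ) := rfl
    rw [← h1, ← rc_coe_ordPt M τ hf, ← rc_coe_ordPt M τ hg,
      ← rc_coe_ordPt M τ (mul_ne_zero hf hg)] at h
    simp only [ordPt]
    exact_mod_cast h
  add f g hf hg hfg := by
    have h := le_ordAt_add (f : ℍ → ℂ) (g : ℍ → ℂ) τ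
    have h1 : ((f + g : modFunAlg M) : ℍ → ℂ) = (f : ℍ → ℂ) + (g : ℍ → ℂ) := rfl
    rw [← h1, ← rc_coe_ordPt M τ hf, ← rc_coe_ordPt M τ hg, ← rc_coe_ordPt M τ hfg] at h
    simp only [ordPt]
    rw [min_le_iff] at h ⊢
    rcases h with h | h
    · exact Or.inl (by exact_mod_cast h)
    · exact Or.inr (by exact_mod_cast h)

theorem ordPt_algebraMap (τ : ℍ) (a : ℂ) :
    ordPt τ ((algebraMap ℂ (modFunAlg M) a : modFunAlg M) : ℍ → ℂ) = 0 := by
  rcases eq_or_ne a 0 with rfl | ha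
  · simp only [map_zero, ordPt]
    have : ((0 : modFunAlg M) : ℍ → ℂ) = fun _ => (0 : ℂ) := rfl
    rw [this, ordAt, analyticOrderAt_eq_top.mpr (by simp)]
    rfl
  · have h1 : ((algebraMap ℂ (modFunAlg M) a : modFunAlg M) : ℍ → ℂ) = fun _ => a := rfl
    rw [ordPt, h1, ordAt_const ha]
    rfl

/-- `J - J(τ)` as an element of `modFunAlg M`. -/
def jSub (c : ℂ) : modFunAlg M :=
  ⟨Jfun, isModFun_Jfun M⟩ - algebraMap ℂ (modFunAlg M) c

theorem jSub_apply (c : ℂ) (z : ℍ) : (jSub M c : ℍ → ℂ) z = Jfun z - c := rfl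

theorem jSub_ne_zero (c : ℂ) : jSub M c ≠ 0 := by
  intro h
  obtain ⟨z, hz⟩ := Jfun_surjective (c + 1)
  have h1 := congrFun (congrArg Subtype.val h) z
  rw [jSub_apply, hz] at h1
  simp at h1

theorem ordPt_jSub_pos (τ : ℍ) : 0 < ordPt τ (jSub M (Jfun τ) : ℍ → ℂ) := by
  have hne : ordAt τ (jSub M (Jfun τ) : ℍ → ℂ) ≠ 0 := by
    rw [ordAt, Ne, analyticOrderAt_eq_zero]
    push Not
    refine ⟨ordAt_analyticAt (rc_mdiff M _) τ, ?_⟩
    simp [jSub_apply]
  have h2 := rc_coe_ordPt M τ (jSub_ne_zero M (Jfun τ))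
  rw [ordPt]
  have h3 : (ordAt τ (jSub M (Jfun τ) : ℍ → ℂ)).toNat ≠ 0 := by
    intro h0
    rw [h0] at h2
    exact hne h2.symm
  exact_mod_cast Nat.pos_of_ne_zero h3

section Place

variable (F : Type*) [Field F] [Algebra ℂ F] [Algebra (modFunAlg M) F]
  [IsScalarTower ℂ (modFunAlg M) F] [IsFractionRing (modFunAlg M) F]

/-- The valuation of `F` given by the order at `τ`. -/
def valPt (τ : ℍ) : Valuation F ℤᵐ⁰ :=
  ordFrac F (fun f : modFunAlg M => ordPt τ (f : ℍ → ℂ)) (isOrdFun_ordPt M τ)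

/-- The place of `F` at `τ`. -/
theorem exists_place_pt (τ : ℍ) :
    ∃ (w : Place ℂ F) (e : ℕ), 0 < e ∧
      w.toValuationSubring = (valPt M F τ).valuationSubring ∧
      ∀ f : modFunAlg M, f ≠ 0 →
        ordPt τ (f : ℍ → ℂ) = (e : ℤ) * w.ord (algebraMap (modFunAlg M) F f) :=
  exists_place_of_ordFun (K := ℂ) F (fun f : modFunAlg M => ordPt τ (f : ℍ → ℂ))
    (isOrdFun_ordPt M τ) (fun a _ => (ordPt_algebraMap M τ a).ge)
    ⟨jSub M (Jfun τ), jSub_ne_zero M _, ordPt_jSub_pos M τ⟩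

end Place

/-- **P-pt.** -/
theorem stmtPt (F : Type) [Field F] [Algebra ℂ F] [Algebra (modFunAlg M) F]
    [IsScalarTower ℂ (modFunAlg M) F] [IsFractionRing (modFunAlg M) F] : StmtPt M F := by
  intro τ
  obtain ⟨w, e, he, -, h⟩ := exists_place_pt M F τ
  exact ⟨w, e, he, h⟩

end Fermat.Agent.ES.RC

end
end ZBS24_003_13

/-! ### bundled: `Fermat.Agent.ES.RootModFun` -/
section ZBS24_003_14

/-!
# ESpkg-G1, piece A2 (kernel): a `p`-th root of a modular function is a modular function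

* `isModFun_of_pow` : `a` holomorphic on `ℍ`, `Γ₀(M)`-invariant, `a ^ p` a modular function
  (`IsModFun M`, i.e. meromorphic at the cusps) ⟹ `a` is a modular function.
* `RootData.isModFun_a` : if the multiplier character of `a / g` is trivial, `g` is a modular
  function and `a ^ p` is one, then `a` is a modular function.  Hence `u = (a/g)^p` is a `p`-th
  power in `Frac (modFunAlg M)`: the multiplier map is injective.
-/

set_option autoImplicit false

noncomputable section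

open UpperHalfPlane ModularForm CongruenceSubgroup Filter Topology
open scoped MatrixGroups Manifold

namespace Fermat.Agent.ES

open Fermat.Agent.S23 Fermat.Agent.S28

local notation "Δ" => ModularForm.discriminant

/-- The slash action of weight `12 m` on `f · Δ ^ m` is precomposition on `f`. -/
theorem slash_mul_discPow (f : ℍ → ℂ) (m : ℕ) (γ : SL(2, ℤ)) :
    (fun τ => f τ * Δ τ ^ m) ∣[(12 * (m : ℤ))] γ = fun τ => f (γ • τ) * Δ τ ^ m := by
  ext τ
  rw [SL_slash_apply]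
  have hγ : (γ : GL (Fin 2) ℝ) ∈ 𝒮ℒ := ⟨γ, rfl⟩
  have h := SlashInvariantForm.slash_action_eqn'' CuspForm.discriminant hγ τ
  have hd : denom (γ : GL (Fin 2) ℝ) τ ≠ 0 := denom_ne_zero _ _
  have h' : Δ (γ • τ) = denom (γ : GL (Fin 2) ℝ) τ ^ (12 : ℤ) * Δ τ := h
  rw [h', mul_pow, ← zpow_natCast (denom (γ : GL (Fin 2) ℝ) τ ^ (12 : ℤ)) m, ← zpow_mul,
    zpow_neg]
  field_simp

/-- A function whose `p`-th power is bounded at `i∞` is bounded at `i∞`. -/
theorem isBoundedAtImInfty_of_pow {p : ℕ} (hp : p ≠ 0) {H : ℍ → ℂ}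
    (h : IsBoundedAtImInfty (fun z => H z ^ p)) : IsBoundedAtImInfty H := by
  rw [UpperHalfPlane.isBoundedAtImInfty_iff] at h ⊢
  obtain ⟨C, A, hCA⟩ := h
  refine ⟨max 1 C, A, fun z hz => ?_⟩
  have h1 := hCA z hz
  rw [norm_pow] at h1
  by_cases h2 : ‖H z‖ ≤ 1
  · exact h2.trans (le_max_left _ _)
  · push Not at h2
    have h3 : ‖H z‖ ≤ ‖H z‖ ^ p := le_self_pow₀ h2.le hp
    exact (h3.trans h1).trans (le_max_right _ _)

theorem isBoundedAtImInfty_discPow (n : ℕ) : IsBoundedAtImInfty (fun z : ℍ => Δ z ^ n) := by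
  have h1 : IsBoundedAtImInfty (fun z : ℍ => Δ z) :=
    (discriminant_isZeroAtImInfty : Tendsto (fun τ : ℍ => Δ τ) atImInfty (𝓝 0)).isBigO_one ℝ
  induction n with
  | zero =>
    simp only [pow_zero]
    exact Filter.const_boundedAtFilter _ (1 : ℂ)
  | succ n ih =>
    have := ih.mul h1
    have e : ((fun z : ℍ => Δ z ^ n) * fun z : ℍ => Δ z) = fun z : ℍ => Δ z ^ (n + 1) := by
      funext z
      simp [pow_succ]
    rwa [e] at this

/-- **A `p`-th root of a modular function is a modular function.**  If `a` is holomorphic on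
`ℍ` and `Γ₀(M)`-invariant and `a ^ p` is a modular function for `Γ₀(M)` (meromorphic at the
cusps), then so is `a`. -/
theorem isModFun_of_pow {M p : ℕ} [NeZero M] (hp : p ≠ 0) {a : ℍ → ℂ} (ha : MDiff a)
    (hinv : ∀ γ ∈ Gamma0 M, ∀ τ : ℍ, a (γ • τ) = a τ)
    (hpow : IsModFun M (fun z => a z ^ p)) : IsModFun M a := by
  obtain ⟨m, F, hF⟩ := hpow
  have hΔ : MDiff (fun z : ℍ => Δ z ^ m) := by
    have h : MDiff (CuspForm.discriminant : ℍ → ℂ) := CuspForm.discriminant.holo'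
    exact h.pow m
  refine ⟨m, ⟨{ toFun := fun z => a z * Δ z ^ m
                slash_action_eq' := ?_
                holo' := ha.mul hΔ
                bdd_at_cusps' := ?_ }, rfl⟩⟩
  · rintro _ ⟨γ, hγ, rfl⟩
    have h1 := slash_mul_discPow a m γ
    rw [SL_slash] at h1
    refine h1.trans ?_
    funext τ
    rw [hinv γ hγ τ]
  · intro c hc
    rw [Subgroup.IsArithmetic.isCusp_iff_isCusp_SL2Z] at hc
    rw [OnePoint.isBoundedAt_iff_forall_SL2Z hc]
    intro γ _
    rw [slash_mul_discPow]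
    apply isBoundedAtImInfty_of_pow hp
    -- `(a∘γ · Δ^m)^p = (F ∣ γ) · Δ^((p-1) m)`
    have h1 : IsBoundedAtImInfty ((F : ℍ → ℂ) ∣[(12 * (m : ℤ))] γ) :=
      ModularFormClass.bdd_at_infty_slash F γ
    rw [hF, slash_mul_discPow] at h1
    have h2 := h1.mul (isBoundedAtImInfty_discPow ((p - 1) * m))
    refine h2.congr_left fun z => ?_
    obtain ⟨n, rfl⟩ : ∃ n, p = n + 1 := Nat.exists_eq_succ_of_ne_zero hp
    simp only [Pi.mul_apply, Nat.add_sub_cancel]
    ring

/-- A modular function for `Γ₀(M)` is `Γ₀(M)`-invariant. -/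
theorem isModFun_comp_smul {M : ℕ} {f : ℍ → ℂ} (hf : IsModFun M f) {γ : SL(2, ℤ)}
    (hγ : γ ∈ Gamma0 M) (τ : ℍ) : f (γ • τ) = f τ := by
  obtain ⟨m, F, hF⟩ := hf
  have h1 : (F : ℍ → ℂ) ∣[(12 * (m : ℤ))] (Matrix.SpecialLinearGroup.mapGL ℝ γ) = F :=
    F.slash_action_eq' _ ⟨γ, hγ, rfl⟩
  have h2 := slash_mul_discPow f m γ
  rw [SL_slash, ← hF] at h2
  have h3 : (F : ℍ → ℂ) τ = f (γ • τ) * Δ τ ^ m := by
    have := congrFun (h1.symm.trans h2) τ
    exact this
  rw [hF] at h3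
  exact (mul_right_cancel₀ (pow_ne_zero m (discriminant_ne_zero τ)) h3).symm

namespace RootData

variable {M p : ℕ}

/-- **Kernel of the multiplier map.**  Let `a / g` be a root datum for `Γ₀(M)` with trivial
multiplier character, `g` a modular function and `a ^ p` a modular function.  Then `a` is a
modular function (so `(a/g)^p` is a `p`-th power in `Frac (modFunAlg M)`). -/
theorem isModFun_a_of_mult_eq_one [NeZero M] (D : RootData (Gamma0 M) p) (hmult : D.mult = 1)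
    (hg : IsModFun M D.g) (hpow : IsModFun M (fun z => D.a z ^ p)) : IsModFun M D.a := by
  refine isModFun_of_pow D.p_ne_zero D.mdiff_a (fun γ hγ => ?_) hpow
  have h1 := (D.mult_eq_one_iff_invariant).mp hmult γ hγ
  have hgγ : MDiff (fun τ => D.g (γ • τ)) := mdiff_comp_SL D.mdiff_g γ
  refine mdiff_mul_right_cancel (mdiff_comp_SL D.mdiff_a γ) D.mdiff_a D.mdiff_g D.g_ne_zero
    fun τ => ?_
  rw [h1 τ, isModFun_comp_smul hg hγ τ]

/-- The same, for the root datum of `u = f / g` with `a ^ p = f * g ^ (p - 1)`, `f`, `g`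
modular functions: trivial multiplier ⟹ `a` is a modular function, and `u = (a / g) ^ p`. -/
theorem isModFun_a_of_pow_eq [NeZero M] (D : RootData (Gamma0 M) p) (hmult : D.mult = 1)
    {f : ℍ → ℂ} (hf : IsModFun M f) (hg : IsModFun M D.g)
    (hpow : ∀ τ, D.a τ ^ p = f τ * D.g τ ^ (p - 1)) : IsModFun M D.a := by
  refine D.isModFun_a_of_mult_eq_one hmult hg ?_
  have h1 : IsModFun M (f * D.g ^ (p - 1)) := hf.mul (hg.pow (p - 1))
  have e : (fun z => D.a z ^ p) = f * D.g ^ (p - 1) := by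
    funext z
    simpa using hpow z
  rw [e]
  exact h1

/-- **`p`-th powers have trivial multiplier.**  If `(a/g)^p = (b/c)^p` with `b / c` invariant
under `Γ`, then the multiplier character of `a / g` is trivial. -/
theorem mult_eq_one_of_pow_eq_invariant {Γ : Subgroup SL(2, ℤ)} (D : RootData Γ p)
    {b c : ℍ → ℂ} (hb : MDiff b) (hc : MDiff c) (hb0 : b ≠ 0) (hc0 : c ≠ 0)
    (hinv : ∀ γ ∈ Γ, ∀ τ : ℍ, b (γ • τ) * c τ = b τ * c (γ • τ))
    (h : ∀ τ : ℍ, (D.a τ * c τ) ^ p = (b τ * D.g τ) ^ p) : D.mult = 1 := by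
  let D' : RootData Γ p :=
    { a := b
      g := c
      p_ne_zero := D.p_ne_zero
      mdiff_a := hb
      mdiff_g := hc
      a_ne_zero := hb0
      g_ne_zero := hc0
      pow_inv := fun γ hγ τ => by rw [hinv γ hγ τ] }
  have h1 : D'.mult = 1 := (D'.mult_eq_one_iff_invariant).mpr hinv
  rw [← h1]
  exact D.mult_eq_of_pow_eq D' h

end RootData

end Fermat.Agent.ES

end
end ZBS24_003_14

/-! ### bundled: `Fermat.Agent.ES.RC.CuspVal` -/
section ZBS24_003_15

/-!
# ESpkg-G1 (RC)(ii): the order at a cusp as an order function on `modFunAlg M`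

For `g : SL(2, ℤ)` and a period `h` of the cusp `g∞` of `Γ₀(M)`:

* `rc_isModFun_smul` : modular functions are `Γ₀(M)`-invariant;
* `rc_isPer_comp` : `f ∘ g` is `h`-periodic;
* `rc_meromorphicAt_cuspFn_comp` : the cusp function of `f ∘ g` (in `q_h`) is meromorphic at `0`;
* `rc_meromorphicOrderAt_comp_ne_top` : it has finite order if `f ≠ 0`;
* `isOrdFun_ordCusp` : `f ↦ ordCusp h g f` is an order function on `modFunAlg M`;
* `ordCusp_Jfun` : `ordCusp h g J = -h`.
-/

set_option autoImplicit false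

noncomputable section

namespace Fermat.Agent.ES.RC

open UpperHalfPlane AlgebraicCurve ModularForm WithZero Filter Topology
open Fermat.Agent.S23 Fermat.Agent.S24 Fermat.Agent.S28
open scoped MatrixGroups Manifold ModularForm

local notation "Δ" => ModularForm.discriminant

/-! ### Generalities -/

/-- A bounded holomorphic periodic function has a meromorphic (even analytic) cusp function. -/
theorem rc_meromorphicAt_cuspFn_of_bdd {N : ℕ} (hN : 0 < N) {f : ℍ → ℂ} (hf : MDiff f)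
    (hper : IsPer N f) (hbdd : IsBoundedAtImInfty f) : MeromorphicAt (cuspFn N f) 0 := by
  have hN' : (0 : ℝ) < N := by exact_mod_cast hN
  have han : AnalyticAt ℂ (UpperHalfPlane.cuspFunction (N : ℝ) f) 0 :=
    UpperHalfPlane.analyticAt_cuspFunction_zero hN' hper.periodic_comp_ofComplex hf hbdd
  refine han.meromorphicAt.congr ?_
  filter_upwards [eventually_punctured_disc] with q hq
  rw [UpperHalfPlane.cuspFunction, Function.Periodic.cuspFunction_eq_of_nonzero _ _ hq.1]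
  rfl

theorem rc_discriminant_smul (γ : SL(2, ℤ)) (τ : ℍ) :
    Δ (γ • τ) = (denom γ τ) ^ (12 : ℤ) * Δ τ := by
  have hγ : (γ : GL (Fin 2) ℝ) ∈ 𝒮ℒ := ⟨γ, rfl⟩
  have hΔ : CuspForm.discriminant (γ • τ) =
      (denom γ τ) ^ (12 : ℤ) * CuspForm.discriminant τ :=
    SlashInvariantForm.slash_action_eqn'' CuspForm.discriminant hγ τ
  rwa [CuspForm.coe_discriminant] at hΔ

theorem rc_mdiff_discriminant : MDiff (Δ : ℍ → ℂ) := by
  have hΔ : MDiff (CuspForm.discriminant : ℍ → ℂ) := ModularFormClass.holo CuspForm.discriminant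
  rwa [CuspForm.coe_discriminant] at hΔ

theorem rc_isBounded_discriminant : IsBoundedAtImInfty (Δ : ℍ → ℂ) := by
  have h : IsBoundedAtImInfty (CuspForm.discriminant : ℍ → ℂ) :=
    ModularFormClass.bdd_at_infty CuspForm.discriminant
  rwa [CuspForm.coe_discriminant] at h

theorem rc_isPer_one_discriminant : IsPer 1 (Δ : ℍ → ℂ) := by
  intro τ
  have hper : Function.Periodic ((CuspForm.discriminant : ℍ → ℂ) ∘ ofComplex) 1 :=
    SlashInvariantFormClass.periodic_comp_ofComplex CuspForm.discriminant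
      one_mem_strictPeriods_SL
  have h1 := hper (τ : ℂ)
  simp only [Function.comp_apply, CuspForm.coe_discriminant, ofComplex_apply] at h1
  rw [← h1]
  congr 1
  apply UpperHalfPlane.ext
  have him : 0 < ((τ : ℂ) + 1).im := by simpa using τ.im_pos
  rw [ofComplex_apply_of_im_pos him, coe_vadd]
  push_cast
  ring

theorem rc_isPer_discriminant (h : ℕ) : IsPer h (Δ : ℍ → ℂ) := by
  intro τ
  have := rc_isPer_one_discriminant.nat_mul h τ
  simpa using this

theorem rc_isPer_pow {N : ℕ} {f : ℍ → ℂ} (hf : IsPer N f) (m : ℕ) : IsPer N (fun τ => f τ ^ m) :=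
  fun τ => by simp only [hf τ]

theorem rc_isBounded_pow {f : ℍ → ℂ} (hf : IsBoundedAtImInfty f) (m : ℕ) :
    IsBoundedAtImInfty (fun τ => f τ ^ m) := by
  induction m with
  | zero =>
    simp only [pow_zero]
    exact Filter.const_boundedAtFilter _ (1 : ℂ)
  | succ m ih =>
    simp only [pow_succ]
    exact ih.mul hf

/-! ### Modular functions at a cusp -/

variable {M : ℕ}

/-- Modular functions for `Γ₀(M)` are `Γ₀(M)`-invariant. -/
theorem rc_isModFun_smul {f : ℍ → ℂ} (hf : IsModFun M f) {γ : SL(2, ℤ)}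
    (hγ : γ ∈ CongruenceSubgroup.Gamma0 M) (τ : ℍ) : f (γ • τ) = f τ := by
  obtain ⟨m, G, hG⟩ := hf
  have hγ' : (γ : GL (Fin 2) ℝ) ∈ G0 M := ⟨γ, hγ, rfl⟩
  have h1 : G (γ • τ) = (denom γ τ) ^ (12 * (m : ℤ)) * G τ :=
    SlashInvariantForm.slash_action_eqn'' G hγ' τ
  have hΔ := rc_discriminant_smul γ τ
  have e1 := congrFun hG (γ • τ)
  have e2 := congrFun hG τ
  rw [e1, e2, hΔ, mul_pow] at h1
  have hd : denom γ τ ≠ 0 := denom_ne_zero _ _
  have e3 : ((denom γ τ) ^ (12 : ℤ)) ^ m = (denom γ τ) ^ (12 * (m : ℤ)) := by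
    rw [← zpow_natCast, ← zpow_mul]
  rw [e3] at h1
  have hne : (denom γ τ) ^ (12 * (m : ℤ)) * Δ τ ^ m ≠ 0 :=
    mul_ne_zero (zpow_ne_zero _ hd) (pow_ne_zero m (discriminant_ne_zero τ))
  have h2 : f (γ • τ) * ((denom γ τ) ^ (12 * (m : ℤ)) * Δ τ ^ m)
      = f τ * ((denom γ τ) ^ (12 * (m : ℤ)) * Δ τ ^ m) := by
    linear_combination h1
  exact mul_right_cancel₀ hne h2

theorem rc_T_pow_smul (h : ℕ) (τ : ℍ) : (ModularGroup.T ^ h) • τ = ((h : ℝ) +ᵥ τ : ℍ) := by
  have := modular_T_zpow_smul τ (h : ℤ)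
  simpa using this

/-- `f ∘ g` is `h`-periodic if `g T^h g⁻¹ ∈ Γ₀(M)`. -/
theorem rc_isPer_comp {f : ℍ → ℂ} (hf : IsModFun M f) {h : ℕ} {g : SL(2, ℤ)}
    (hp : IsCuspPeriod M h g) : IsPer h (fun τ => f (g • τ)) := by
  intro τ
  have h1 := rc_isModFun_smul hf hp.2 (g • τ)
  rw [← mul_smul, inv_mul_cancel_right, mul_smul, rc_T_pow_smul] at h1
  exact h1

/-- `f ∘ g = B / Δ ^ m` with `B` holomorphic and bounded at `i∞`. -/
theorem rc_exists_bdd_repr [NeZero M] {f : ℍ → ℂ} (hf : IsModFun M f) (g : SL(2, ℤ)) :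
    ∃ (m : ℕ) (B : ℍ → ℂ), MDiff B ∧ IsBoundedAtImInfty B ∧
      ∀ τ, B τ = f (g • τ) * Δ τ ^ m := by
  have hfd : MDiff f := rc_mdiff_of_isModFun hf
  obtain ⟨m, G, hG⟩ := hf
  have hB : ∀ τ, ((G : ℍ → ℂ) ∣[12 * (m : ℤ)] g) τ = f (g • τ) * Δ τ ^ m := by
    intro τ
    rw [ModularForm.SL_slash_apply, congrFun hG (g • τ)]
    rw [rc_discriminant_smul g τ, mul_pow]
    have hd : denom g τ ≠ 0 := denom_ne_zero _ _
    have e3 : ((denom g τ) ^ (12 : ℤ)) ^ m = (denom g τ) ^ (12 * (m : ℤ)) := by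
      rw [← zpow_natCast, ← zpow_mul]
    rw [e3, zpow_neg]
    field_simp
  refine ⟨m, (G : ℍ → ℂ) ∣[12 * (m : ℤ)] g, ?_, ModularFormClass.bdd_at_infty_slash G g, hB⟩
  have h1 : ((G : ℍ → ℂ) ∣[12 * (m : ℤ)] g) = fun τ => f (g • τ) * Δ τ ^ m := funext hB
  rw [h1]
  exact (hfd.comp (UpperHalfPlane.mdifferentiable_smul (g := (g : GL (Fin 2) ℝ))
    (SL_val_det_pos g))).mul (rc_mdiff_discriminant.pow m)

/-- The cusp function of `f ∘ g` in `q_h` is meromorphic at `0`. -/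
theorem rc_meromorphicAt_cuspFn_comp [NeZero M] {f : ℍ → ℂ} (hf : IsModFun M f) {h : ℕ}
    {g : SL(2, ℤ)} (hp : IsCuspPeriod M h g) :
    MeromorphicAt (cuspFn h (fun τ => f (g • τ))) 0 := by
  obtain ⟨m, B, hBd, hBb, hB⟩ := rc_exists_bdd_repr hf g
  have hper : IsPer h (fun τ => f (g • τ)) := rc_isPer_comp hf hp
  have hΔper : IsPer h (fun τ => Δ τ ^ m) := rc_isPer_pow (rc_isPer_discriminant h) m
  have hBper : IsPer h B := by
    intro τ
    have e1 : f (g • ((h : ℝ) +ᵥ τ)) = f (g • τ) := hper τ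
    have e2 : Δ ((h : ℝ) +ᵥ τ) ^ m = Δ τ ^ m := hΔper τ
    rw [hB, hB, e1, e2]
  have h1 := rc_meromorphicAt_cuspFn_of_bdd hp.1 hBd hBper hBb
  have h2 := rc_meromorphicAt_cuspFn_of_bdd hp.1 (rc_mdiff_discriminant.pow m) hΔper
    (rc_isBounded_pow rc_isBounded_discriminant m)
  have e : cuspFn h (fun τ => f (g • τ)) = cuspFn h B * (cuspFn h (fun τ => Δ τ ^ m))⁻¹ := by
    funext q
    simp only [cuspFn_apply, Pi.mul_apply, Pi.inv_apply, hB]
    rw [mul_assoc, mul_inv_cancel₀ (pow_ne_zero m (discriminant_ne_zero _)), mul_one]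
  rw [e]
  exact h1.mul h2.inv

/-- The cusp function of `f ∘ g` has finite order if `f ≠ 0`. -/
theorem rc_meromorphicOrderAt_comp_ne_top {f : ℍ → ℂ} (hf : IsModFun M f) (hf0 : f ≠ 0) {h : ℕ}
    {g : SL(2, ℤ)} (hp : IsCuspPeriod M h g) :
    meromorphicOrderAt (cuspFn h (fun τ => f (g • τ))) 0 ≠ ⊤ := by
  intro htop
  rw [meromorphicOrderAt_eq_top_iff] at htop
  have hfd : MDiff f := rc_mdiff_of_isModFun hf
  have h0 := eq_zero_of_cuspFn_eventually_zero hp.1
    (hfd.comp (UpperHalfPlane.mdifferentiable_smul (g := (g : GL (Fin 2) ℝ))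
      (SL_val_det_pos g))) (rc_isPer_comp hf hp) htop
  apply hf0
  funext τ
  have := congrFun h0 (g⁻¹ • τ)
  simpa using this

variable (M) [NeZero M]

theorem rc_coe_ordCusp {h : ℕ} {g : SL(2, ℤ)} (hp : IsCuspPeriod M h g) {f : modFunAlg M}
    (hf : f ≠ 0) :
    ((ordCusp h g (f : ℍ → ℂ) : ℤ) : WithTop ℤ)
      = meromorphicOrderAt (cuspFn h (fun τ => (f : ℍ → ℂ) (g • τ))) 0 := by
  rw [ordCusp]
  exact WithTop.coe_untop₀_of_ne_top
    (rc_meromorphicOrderAt_comp_ne_top f.2 (rc_coe_ne_zero M hf) hp)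

/-- The order at a cusp is an order function on `modFunAlg M`. -/
theorem isOrdFun_ordCusp {h : ℕ} {g : SL(2, ℤ)} (hp : IsCuspPeriod M h g) :
    IsOrdFun (fun f : modFunAlg M => ordCusp h g (f : ℍ → ℂ)) where
  one := by
    have h1 : cuspFn h (fun τ => ((1 : modFunAlg M) : ℍ → ℂ) (g • τ)) = fun _ => (1 : ℂ) := rfl
    simp only [ordCusp, h1]
    classical
    rw [meromorphicOrderAt_const]
    simp
  mul f f' hf hf' := by
    refine ⟨mul_ne_zero hf hf', ?_⟩
    have h1 : cuspFn h (fun τ => ((f * f' : modFunAlg M) : ℍ → ℂ) (g • τ))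
        = cuspFn h (fun τ => (f : ℍ → ℂ) (g • τ)) * cuspFn h (fun τ => (f' : ℍ → ℂ) (g • τ)) :=
      rfl
    have h2 := meromorphicOrderAt_mul (rc_meromorphicAt_cuspFn_comp f.2 hp)
      (rc_meromorphicAt_cuspFn_comp f'.2 hp)
    rw [← h1, ← rc_coe_ordCusp M hp hf, ← rc_coe_ordCusp M hp hf',
      ← rc_coe_ordCusp M hp (mul_ne_zero hf hf')] at h2
    exact_mod_cast h2
  add f f' hf hf' hff' := by
    have h1 : cuspFn h (fun τ => ((f + f' : modFunAlg M) : ℍ → ℂ) (g • τ))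
        = cuspFn h (fun τ => (f : ℍ → ℂ) (g • τ)) + cuspFn h (fun τ => (f' : ℍ → ℂ) (g • τ)) :=
      rfl
    have h2 := meromorphicOrderAt_add (rc_meromorphicAt_cuspFn_comp f.2 hp)
      (rc_meromorphicAt_cuspFn_comp f'.2 hp)
    rw [← h1, ← rc_coe_ordCusp M hp hf, ← rc_coe_ordCusp M hp hf',
      ← rc_coe_ordCusp M hp hff'] at h2
    rw [min_le_iff] at h2 ⊢
    rcases h2 with h2 | h2
    · exact Or.inl (by exact_mod_cast h2)
    · exact Or.inr (by exact_mod_cast h2)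

theorem ordCusp_algebraMap (h : ℕ) (g : SL(2, ℤ)) (a : ℂ) :
    ordCusp h g ((algebraMap ℂ (modFunAlg M) a : modFunAlg M) : ℍ → ℂ) = 0 := by
  have h1 : cuspFn h (fun τ => ((algebraMap ℂ (modFunAlg M) a : modFunAlg M) : ℍ → ℂ) (g • τ))
      = fun _ => a := rfl
  rw [ordCusp, h1]
  classical
  rw [meromorphicOrderAt_const]
  split_ifs <;> simp

/-- `J` as an element of `modFunAlg M`. -/
def jElt : modFunAlg M := ⟨Jfun, isModFun_Jfun M⟩

theorem jElt_ne_zero : jElt M ≠ 0 := by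
  intro h
  obtain ⟨z, hz⟩ := Jfun_surjective 1
  have h1 := congrFun (congrArg Subtype.val h) z
  have h2 : (jElt M : ℍ → ℂ) z = Jfun z := rfl
  rw [h2, hz] at h1
  simp at h1

/-- `ordCusp h g J = -h`. -/
theorem ordCusp_Jfun {h : ℕ} (hh : 0 < h) (g : SL(2, ℤ)) :
    ordCusp h g Jfun = -(h : ℤ) := by
  have h1 : (fun τ => Jfun (g • τ)) = Jfun := funext fun τ => Jfun_smul g τ
  rw [ordCusp, h1, meromorphicOrderAt_cuspFn_Jfun hh]
  rfl

end Fermat.Agent.ES.RC

end
end ZBS24_003_15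

/-! ### bundled: `Fermat.Agent.ES.RC.PlaceCusp` -/
section ZBS24_003_16

/-!
# ESpkg-G1 (RC)(ii), piece P-cusp: the place of `Frac (modFunAlg M)` at a cusp

* `exists_place_of_ordFun_neg` : variant of `exists_place_of_ordFun` for an order function which
  is negative somewhere (at a cusp every nonconstant element of `modFunAlg 1 = ℂ[J]` has a pole);
* `valCusp M F hp` : the valuation of `F` given by the order at the cusp `g∞` in `q_h`;
* `exists_place_cusp` : the place at the cusp, with its valuation ring;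
* `stmtCusp : StmtCusp M F`.
-/

set_option autoImplicit false

noncomputable section

namespace Fermat.Agent.ES.RC

open UpperHalfPlane AlgebraicCurve ModularForm WithZero
open Fermat.Agent.S23 Fermat.Agent.S24 Fermat.Agent.S28
open scoped MatrixGroups Manifold ModularForm

section Generic

variable {B : Type*} [CommRing B] [Nontrivial B]
variable (F : Type*) [Field F] [Algebra B F] [IsFractionRing B F]
variable {K : Type*} [Field K] [Algebra K B] [Algebra K F] [IsScalarTower K B F]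

/-- **The place attached to an order function** which vanishes on the constants and is negative
somewhere. -/
theorem exists_place_of_ordFun_neg (o : B → ℤ) (ho : IsOrdFun o)
    (hK : ∀ a : K, algebraMap K B a ≠ 0 → 0 ≤ o (algebraMap K B a))
    (hneg : ∃ x : B, x ≠ 0 ∧ o x < 0) :
    ∃ (w : Place K F) (e : ℕ), 0 < e ∧
      w.toValuationSubring = (ordFrac F o ho).valuationSubring ∧
      ∀ f : B, f ≠ 0 → o f = (e : ℤ) * w.ord (algebraMap B F f) := by
  obtain ⟨x, hx0, hx⟩ := hneg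
  obtain ⟨w, e₀, he₀, hw, hord⟩ := exists_place_of_valuation (K := K) (ordFrac F o ho)
    (by
      intro a
      rw [IsScalarTower.algebraMap_apply K B F, ordFrac_algebraMap]
      rcases eq_or_ne (algebraMap K B a) 0 with h | h
      · rw [h, map_zero]; exact zero_le_one
      · rw [ordVal_apply o ho h, ← WithZero.exp_zero, WithZero.exp_le_exp]
        have := hK a h
        omega)
    ⟨(algebraMap B F x)⁻¹, inv_ne_zero (rc_algebraMap_ne_zero F hx0), by
      rw [lt_one_iff_vord_pos _ (inv_ne_zero (rc_algebraMap_ne_zero F hx0)), vord_inv,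
        vord_ordFrac_algebraMap F o ho hx0]
      omega⟩
  lift e₀ to ℕ using he₀.le
  refine ⟨w, e₀, by exact_mod_cast he₀, hw, fun f hf => ?_⟩
  rw [← hord _ (rc_algebraMap_ne_zero F hf), vord_ordFrac_algebraMap F o ho hf]

end Generic

variable (M : ℕ) [NeZero M]

section Place

variable (F : Type*) [Field F] [Algebra ℂ F] [Algebra (modFunAlg M) F]
  [IsScalarTower ℂ (modFunAlg M) F] [IsFractionRing (modFunAlg M) F]

/-- The valuation of `F` given by the order at the cusp `g∞` in the parameter `q_h`. -/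
def valCusp {h : ℕ} {g : SL(2, ℤ)} (hp : IsCuspPeriod M h g) : Valuation F ℤᵐ⁰ :=
  ordFrac F (fun f : modFunAlg M => ordCusp h g (f : ℍ → ℂ)) (isOrdFun_ordCusp M hp)

/-- The place of `F` at the cusp `g∞`. -/
theorem exists_place_cusp {h : ℕ} {g : SL(2, ℤ)} (hp : IsCuspPeriod M h g) :
    ∃ (w : Place ℂ F) (e : ℕ), 0 < e ∧
      w.toValuationSubring = (valCusp M F hp).valuationSubring ∧
      ∀ f : modFunAlg M, f ≠ 0 →
        ordCusp h g (f : ℍ → ℂ) = (e : ℤ) * w.ord (algebraMap (modFunAlg M) F f) :=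
  exists_place_of_ordFun_neg (K := ℂ) F (fun f : modFunAlg M => ordCusp h g (f : ℍ → ℂ))
    (isOrdFun_ordCusp M hp) (fun a _ => (ordCusp_algebraMap M h g a).ge)
    ⟨jElt M, jElt_ne_zero M, by
      show ordCusp h g Jfun < 0
      rw [ordCusp_Jfun hp.1 g]
      have : (0 : ℤ) < h := by exact_mod_cast hp.1
      omega⟩

end Place

/-- **P-cusp.** -/
theorem stmtCusp (F : Type) [Field F] [Algebra ℂ F] [Algebra (modFunAlg M) F]
    [IsScalarTower ℂ (modFunAlg M) F] [IsFractionRing (modFunAlg M) F] : StmtCusp M F := by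
  intro g h hp
  obtain ⟨w, e, he, -, hw⟩ := exists_place_cusp M F hp
  exact ⟨w, e, he, hw⟩

end Fermat.Agent.ES.RC

end
end ZBS24_003_16

/-! ### bundled: `Fermat.Agent.ES.G2.SwapAnalytic` -/
section ZBS24_003_17

/-!
# ES / G2, piece HN, part SWAP (analytic half): the Atkin–Lehner substitution

For `a ℓ - b N = 1` put `γ₁ = [[a, b], [N, ℓ]] ∈ SL₂(ℤ)` and `W τ = γ₁ • (ℓ τ)`.  Then for `d ∣ N`

* `swap_Jdm_W` : `J(d m · W τ) = J(d m' τ)` for `m m' = ℓ`
  (`m = 1`: `J(d · W τ) = J(d ℓ τ)`; `m = ℓ`: `J(d ℓ · W τ) = J(d τ)`).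
-/

set_option autoImplicit false

noncomputable section

namespace Fermat.Agent.ES.G2

open UpperHalfPlane Fermat.Agent.S24
open scoped MatrixGroups

/-- The matrix `[[a, b], [c, d]]` of determinant one. -/
def swapMat (a b c d : ℤ) (h : a * d - b * c = 1) : SL(2, ℤ) :=
  ⟨!![a, b; c, d], by rw [Matrix.det_fin_two_of]; exact h⟩

theorem coe_swapMat_smul (a b c d : ℤ) (h : a * d - b * c = 1) (z : ℍ) :
    ((swapMat a b c d h • z : ℍ) : ℂ) = ((a : ℂ) * z + b) / ((c : ℂ) * z + d) := by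
  rw [coe_specialLinearGroup_apply]
  simp [swapMat]

/-- `τ ↦ d τ` on `ℍ` (through the prelude's `heckeDiagMatrix`). -/
theorem swap_coe_diag {d : ℕ} (hd : d ≠ 0) (τ : ℍ) :
    ((ModularForm.heckeDiagMatrix d • τ : ℍ) : ℂ) = (d : ℂ) * (τ : ℂ) :=
  ModularForm.coe_heckeDiagMatrix_smul hd τ

theorem swap_Jd_eq {d : ℕ} (hd : d ≠ 0) (τ w : ℍ) (hw : (w : ℂ) = (d : ℂ) * (τ : ℂ)) :
    Jd d τ = Jfun w := by
  have : ModularForm.heckeDiagMatrix d • τ = w := by
    apply UpperHalfPlane.ext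
    rw [swap_coe_diag hd, hw]
  simp only [Jd, Jcomp, this]

/-- The Atkin–Lehner substitution `W τ = γ₁ • (ℓ τ)`, `γ₁ = [[a, b], [N, ℓ]]`. -/
def swapW (N ℓ : ℕ) (a b : ℤ) (h : a * (ℓ : ℤ) - b * (N : ℤ) = 1) (τ : ℍ) : ℍ :=
  swapMat a b N ℓ h • (ModularForm.heckeDiagMatrix ℓ • τ)

theorem coe_swapW {N ℓ : ℕ} (hℓ : ℓ ≠ 0) (a b : ℤ) (h : a * (ℓ : ℤ) - b * (N : ℤ) = 1) (τ : ℍ) :
    ((swapW N ℓ a b h τ : ℍ) : ℂ) =
      ((a : ℂ) * ((ℓ : ℂ) * τ) + b) / ((N : ℂ) * ((ℓ : ℂ) * τ) + ℓ) := by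
  rw [swapW, coe_swapMat_smul, swap_coe_diag hℓ]
  push_cast
  rfl

theorem swap_denom_ne_zero {N : ℕ} (hN : N ≠ 0) (τ : ℍ) : (N : ℂ) * (τ : ℂ) + 1 ≠ 0 := by
  intro h0
  have h1 := congrArg Complex.im h0
  simp only [Complex.add_im, Complex.mul_im, Complex.natCast_re, Complex.natCast_im,
    Complex.one_im, Complex.zero_im, zero_mul, add_zero, coe_im] at h1
  rcases mul_eq_zero.mp h1 with h2 | h2
  · exact hN (by exact_mod_cast h2)
  · exact τ.im_pos.ne' h2

/-- `J(d m · W τ) = J(d m' τ)` for `d ∣ N`, `m m' = ℓ`. -/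
theorem swap_Jdm_W {N ℓ : ℕ} (hN : N ≠ 0) (hℓ : ℓ ≠ 0) (a b : ℤ)
    (h : a * (ℓ : ℤ) - b * (N : ℤ) = 1) {d m m' : ℕ} (hd : d ∣ N) (hm : m * m' = ℓ) (τ : ℍ) :
    Jd (d * m) (swapW N ℓ a b h τ) = Jd (d * m') τ := by
  obtain ⟨e, rfl⟩ := hd
  subst hm
  have hd0 : d ≠ 0 := fun h0 => hN (by rw [h0, zero_mul])
  have hm0 : m ≠ 0 := fun h0 => hℓ (by rw [h0, zero_mul])
  have hm'0 : m' ≠ 0 := fun h0 => hℓ (by rw [h0, mul_zero])
  have hdet : ((m : ℤ) * a) * (m' : ℤ) - ((d : ℤ) * b) * (e : ℤ) = 1 := by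
    push_cast at h ⊢; linear_combination h
  -- `γ'' = [[m a, d b], [e, m']]`
  set z : ℍ := ModularForm.heckeDiagMatrix (d * m') • τ with hz
  have hzc : (z : ℂ) = ((d * m' : ℕ) : ℂ) * τ := swap_coe_diag (Nat.mul_ne_zero hd0 hm'0) τ
  rw [swap_Jd_eq (Nat.mul_ne_zero hd0 hm0) (swapW (d * e) (m * m') a b h τ)
    (swapMat ((m : ℤ) * a) ((d : ℤ) * b) e m' hdet • z)]
  · rw [Jfun_smul_SL]
    simp only [Jd, Jcomp, hz]
  · rw [coe_swapMat_smul, coe_swapW hℓ, hzc]
    have hmC : (m : ℂ) ≠ 0 := Nat.cast_ne_zero.mpr hm0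
    have hm'C : (m' : ℂ) ≠ 0 := Nat.cast_ne_zero.mpr hm'0
    have hden := swap_denom_ne_zero hN τ
    push_cast at hden ⊢
    have hden2 : (e : ℂ) * ((d : ℂ) * (m' : ℂ) * (τ : ℂ)) + (m' : ℂ) ≠ 0 := by
      intro h0
      apply hden
      have : (m' : ℂ) * ((d : ℂ) * (e : ℂ) * (τ : ℂ) + 1) = 0 := by rw [← h0]; ring
      exact (mul_eq_zero.mp this).resolve_left hm'C
    have hden3 : (d : ℂ) * (e : ℂ) * ((m : ℂ) * (m' : ℂ) * (τ : ℂ)) + (m : ℂ) * (m' : ℂ) ≠ 0 := by
      intro h0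
      apply hden
      have : ((m : ℂ) * (m' : ℂ)) * ((d : ℂ) * (e : ℂ) * (τ : ℂ) + 1) = 0 := by
        rw [← h0]; ring
      exact (mul_eq_zero.mp this).resolve_left (mul_ne_zero hmC hm'C)
    rw [mul_div_assoc', div_eq_div_iff hden2 hden3]
    ring

end Fermat.Agent.ES.G2

end
end ZBS24_003_17

/-! ### bundled: `Fermat.Agent.ES.G2.Swap` -/
section ZBS24_003_18

/-!
# ES / G2, piece HN, part SWAP: the Atkin–Lehner involution on `F_{Nℓ}`

For `ℓ` prime to `N` there is a `ℚ̄`-algebra endomorphism `w` of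
`F_{Nℓ} = ℚ̄(j(q^d) : d ∣ Nℓ)` with `w ∘ α = β` and `w ∘ β = α`, where
`α = heckeAlphaBar` (inclusion of `F_N`) and `β = heckeBetaBar` (`q ↦ q^ℓ`):

* `exists_swap`.

Route: a polynomial relation between the `j(q^d)` over `ℚ̄` is a relation between the functions
`J(dτ)` on `ℍ` (`S24.bridge_iff`); substitute `τ ↦ W τ` (`SwapAnalytic.lean`).
-/

set_option autoImplicit false

noncomputable section

namespace Fermat.Agent.ES.G2

open UpperHalfPlane ModularCurve Fermat.Agent.S24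

attribute [local instance] algKbC

variable {N ℓ : ℕ}

/-- The swap `d m ↦ d (ℓ / m)` (`d ∣ N`, `m ∣ ℓ`) on the divisors of `N ℓ`. -/
def swapDv (d : Dv (N * ℓ)) : Dv (N * ℓ) :=
  ⟨Nat.gcd d.1 N * (ℓ / Nat.gcd d.1 ℓ),
    mul_dvd_mul (Nat.gcd_dvd_right _ _) (Nat.div_dvd_of_dvd (Nat.gcd_dvd_right _ _))⟩

theorem swapDv_val (d : Dv (N * ℓ)) :
    (swapDv d).1 = Nat.gcd d.1 N * (ℓ / Nat.gcd d.1 ℓ) := rfl

theorem swap_dv_eq (hcop : Nat.Coprime ℓ N) (d : Dv (N * ℓ)) :
    d.1 = Nat.gcd d.1 N * Nat.gcd d.1 ℓ := by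
  rw [← Nat.Coprime.gcd_mul d.1 hcop.symm, Nat.gcd_eq_left d.2]

theorem swap_gcd_mul_div (c : ℕ) : Nat.gcd c ℓ * (ℓ / Nat.gcd c ℓ) = ℓ :=
  Nat.mul_div_cancel' (Nat.gcd_dvd_right c ℓ)

theorem swapDv_swapDv (hℓ : ℓ ≠ 0) (hcop : Nat.Coprime ℓ N) (d : Dv (N * ℓ)) :
    swapDv (swapDv d) = d := by
  apply Subtype.ext
  set c := Nat.gcd d.1 N with hc
  set m := Nat.gcd d.1 ℓ with hm
  set m' := ℓ / m with hm'
  have hmm' : m * m' = ℓ := swap_gcd_mul_div d.1
  have hm0 : 0 < m := Nat.pos_of_ne_zero fun h0 => hℓ (by rw [← hmm', h0, zero_mul])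
  have hcN : c ∣ N := Nat.gcd_dvd_right _ _
  have hm'ℓ : m' ∣ ℓ := ⟨m, by rw [← hmm', mul_comm]⟩
  have h1 : (swapDv d).1 = c * m' := rfl
  have hcop1 : Nat.Coprime m' N := Nat.Coprime.coprime_dvd_left hm'ℓ hcop
  have hcop2 : Nat.Coprime c ℓ := (Nat.Coprime.coprime_dvd_left hcN hcop.symm)
  have h2 : Nat.gcd (c * m') N = c := by
    rw [Nat.Coprime.gcd_mul_right_cancel c hcop1, Nat.gcd_eq_left hcN]
  have h3 : Nat.gcd (c * m') ℓ = m' := by
    rw [Nat.Coprime.gcd_mul_left_cancel m' hcop2, Nat.gcd_eq_left hm'ℓ]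
  have h4 : ℓ / m' = m := by
    have hm'0 : 0 < m' := Nat.pos_of_ne_zero fun h0 => hℓ (by rw [← hmm', h0, mul_zero])
    exact Nat.div_eq_of_eq_mul_left hm'0 hmm'.symm
  rw [swapDv_val, h1, h2, h3, h4]
  exact (swap_dv_eq hcop d).symm

/-- The analytic swap: `J(d · Wτ) = J(s(d) τ)` for all `d ∣ N ℓ`. -/
theorem swap_Jdfam [NeZero N] (hℓ : ℓ ≠ 0) (hcop : Nat.Coprime ℓ N) (a b : ℤ)
    (h : a * (ℓ : ℤ) - b * (N : ℤ) = 1) (d : Dv (N * ℓ)) (τ : ℍ) :
    Jdfam (N * ℓ) d (swapW N ℓ a b h τ) = Jdfam (N * ℓ) (swapDv d) τ := by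
  have hN0 : N ≠ 0 := NeZero.ne N
  show Jd d.1 _ = Jd (swapDv d).1 τ
  rw [swapDv_val]
  have h1 := swap_Jdm_W hN0 hℓ a b h (d := Nat.gcd d.1 N) (m := Nat.gcd d.1 ℓ)
    (m' := ℓ / Nat.gcd d.1 ℓ) (Nat.gcd_dvd_right _ _) (swap_gcd_mul_div d.1) τ
  rw [← swap_dv_eq hcop d] at h1
  exact h1

theorem swap_aeval_apply {ι : Type*} (F : ι → ℍ → ℂ) (P : MvPolynomial ι Kb) (τ : ℍ) :
    (MvPolynomial.aeval (R := Kb) F P) τ = MvPolynomial.aeval (R := Kb) (fun i => F i τ) P :=
  MvPolynomial.comp_aeval_apply F (Pi.evalAlgHom Kb (fun _ : ℍ => ℂ) τ) P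

/-- One direction of the transfer of relations. -/
theorem swap_rel [NeZero N] [NeZero ℓ] (hcop : Nat.Coprime ℓ N)
    (P : MvPolynomial (Dv (N * ℓ)) Kb)
    (hP : MvPolynomial.aeval (jBfam (N * ℓ)) P = 0) :
    MvPolynomial.aeval (jBfam (N * ℓ) ∘ swapDv) P = 0 := by
  obtain ⟨u, v, huv⟩ := Nat.Coprime.isCoprime hcop
  have hab : u * (ℓ : ℤ) - (-v) * (N : ℤ) = 1 := by linear_combination huv
  have h1 := (bridge_iff (N * ℓ) P).mp hP
  have h3 : ∀ τ : ℍ, MvPolynomial.aeval (R := Kb)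
      (fun d => Jdfam (N * ℓ) d (swapW N ℓ u (-v) hab τ)) P = 0 := by
    intro τ
    rw [← swap_aeval_apply (Jdfam (N * ℓ)) P (swapW N ℓ u (-v) hab τ), h1]
    rfl
  have h2 : MvPolynomial.aeval (R := Kb) (Jdfam (N * ℓ))
      (MvPolynomial.rename swapDv P) = 0 := by
    rw [MvPolynomial.aeval_rename]
    funext τ
    rw [swap_aeval_apply (Jdfam (N * ℓ) ∘ swapDv) P τ]
    have h5 : (fun i => (Jdfam (N * ℓ) ∘ swapDv) i τ) =
        fun d => Jdfam (N * ℓ) d (swapW N ℓ u (-v) hab τ) :=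
      funext fun d => (swap_Jdfam (NeZero.ne ℓ) hcop u (-v) hab d τ).symm
    rw [h5, h3 τ]
    rfl
  have h4 := (bridge_iff (N * ℓ) _).mpr h2
  rwa [MvPolynomial.aeval_rename] at h4

theorem swap_rel_iff [NeZero N] [NeZero ℓ] (hcop : Nat.Coprime ℓ N)
    (P : MvPolynomial (Dv (N * ℓ)) Kb) :
    MvPolynomial.aeval (jBfam (N * ℓ)) P = 0 ↔
      MvPolynomial.aeval (jBfam (N * ℓ) ∘ swapDv) P = 0 := by
  refine ⟨swap_rel hcop P, fun h => ?_⟩
  have h1 : MvPolynomial.aeval (jBfam (N * ℓ)) (MvPolynomial.rename swapDv P) = 0 := by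
    rw [MvPolynomial.aeval_rename]; exact h
  have h2 := swap_rel hcop _ h1
  rw [MvPolynomial.aeval_rename] at h2
  have h3 : (jBfam (N * ℓ) ∘ swapDv) ∘ swapDv = jBfam (N * ℓ) := by
    funext d
    simp only [Function.comp_apply, swapDv_swapDv (NeZero.ne ℓ) hcop]
  rwa [h3] at h2

/-- The Atkin–Lehner involution on generators. -/
theorem exists_swap_gen [NeZero N] [NeZero ℓ] (hcop : Nat.Coprime ℓ N) :
    ∃ w : FF (N * ℓ) →ₐ[Kb] FF (N * ℓ),
      ∀ d : Dv (N * ℓ), w (jFfam (N * ℓ) d) = jFfam (N * ℓ) (swapDv d) := by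
  obtain ⟨w, hw⟩ := exists_algHom_FF_of_relations (N * ℓ) (M := FF (N * ℓ))
    (fun d => jFfam (N * ℓ) (swapDv d)) (fun P => by
      rw [swap_rel_iff hcop P]
      have h := MvPolynomial.comp_aeval_apply (fun d => jFfam (N * ℓ) (swapDv d))
        (IntermediateField.val (modularFunctionFieldBar (N * ℓ))) P
      have h' : MvPolynomial.aeval (jBfam (N * ℓ) ∘ swapDv) P =
          ((MvPolynomial.aeval (fun d => jFfam (N * ℓ) (swapDv d)) P : FF (N * ℓ)) :
            LaurentSeries Kb) := h.symm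
      rw [h']
      exact ⟨fun h0 => Subtype.ext h0, fun h0 => congrArg Subtype.val h0⟩)
  exact ⟨w, fun d => hw d.1 d.2⟩

/-! ### `w ∘ α = β`, `w ∘ β = α` -/

theorem swap_jFfam_coe (M : ℕ) [NeZero M] (d : Dv M) (c : ℕ) [NeZero c] (hc : d.1 = c) :
    ((jFfam M d : FF M) : LaurentSeries Kb) = coeffEmb Kb (qExpand ℚ c jq) := by
  obtain ⟨d, hd⟩ := d
  subst hc
  rfl

theorem swap_jFfam_congr (M : ℕ) [NeZero M] (d₁ d₂ : Dv M) (h : d₁.1 = d₂.1) :
    jFfam M d₁ = jFfam M d₂ := by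
  rw [Subtype.ext h]

/-- **SWAP**: the Atkin–Lehner involution `w` of `F_{Nℓ}` exchanges the two degeneracy maps
`α` (inclusion) and `β` (`q ↦ q^ℓ`) of `F_N`. -/
theorem exists_swap (N ℓ : ℕ) [NeZero N] [NeZero ℓ] (hcop : Nat.Coprime ℓ N) :
    ∃ w : modularFunctionFieldBar (N * ℓ) →ₐ[Kb] modularFunctionFieldBar (N * ℓ),
      (∀ v : modularFunctionFieldBar N, w (heckeAlphaBar Kb N ℓ v) = heckeBetaBar Kb N ℓ v) ∧
      (∀ v : modularFunctionFieldBar N, w (heckeBetaBar Kb N ℓ v) = heckeAlphaBar Kb N ℓ v) := by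
  obtain ⟨w, hw⟩ := exists_swap_gen (N := N) (ℓ := ℓ) hcop
  have hℓ0 : ℓ ≠ 0 := NeZero.ne ℓ
  -- values of the degeneracy maps on the generators
  have hα : ∀ (d : ℕ) (hd : d ∣ N),
      heckeAlphaBar Kb N ℓ (jdF N d hd) = jFfam (N * ℓ) ⟨d, hd.trans (dvd_mul_right N ℓ)⟩ := by
    intro d hd
    apply Subtype.ext
    rfl
  have hβ : ∀ (d : ℕ) (hd : d ∣ N),
      heckeBetaBar Kb N ℓ (jdF N d hd) = jFfam (N * ℓ) ⟨d * ℓ, mul_dvd_mul_right hd ℓ⟩ := by
    intro d hd
    have hd0 : d ≠ 0 := fun h0 => NeZero.ne N (by rw [h0, zero_dvd_iff] at hd; exact hd)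
    have : NeZero d := ⟨hd0⟩
    have : NeZero (d * ℓ) := ⟨Nat.mul_ne_zero hd0 hℓ0⟩
    apply Subtype.ext
    rw [swap_jFfam_coe (N * ℓ) ⟨d * ℓ, mul_dvd_mul_right hd ℓ⟩ (d * ℓ) rfl]
    show qExpand Kb ℓ (coeffEmb Kb (qExpand ℚ d jq)) = _
    rw [coeffEmb, ← coeffMap_qExpand, qExpand_qExpand]
    exact congrArg _ (qExpand_congr (mul_comm ℓ d) jq)
  have hs1 : ∀ (d : ℕ) (hd : d ∣ N),
      (swapDv (⟨d, hd.trans (dvd_mul_right N ℓ)⟩ : Dv (N * ℓ))).1 = d * ℓ := by
    intro d hd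
    have hcopd : Nat.Coprime d ℓ := Nat.Coprime.coprime_dvd_left hd hcop.symm
    rw [swapDv_val]
    show Nat.gcd d N * (ℓ / Nat.gcd d ℓ) = d * ℓ
    rw [Nat.gcd_eq_left hd, hcopd, Nat.div_one]
  have hs2 : ∀ (d : ℕ) (hd : d ∣ N),
      (swapDv (⟨d * ℓ, mul_dvd_mul_right hd ℓ⟩ : Dv (N * ℓ))).1 = d := by
    intro d hd
    have hcopd : Nat.Coprime d ℓ := Nat.Coprime.coprime_dvd_left hd hcop.symm
    rw [swapDv_val]
    show Nat.gcd (d * ℓ) N * (ℓ / Nat.gcd (d * ℓ) ℓ) = d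
    rw [Nat.Coprime.gcd_mul_right_cancel d hcop, Nat.gcd_eq_left hd,
      Nat.gcd_eq_right (Dvd.intro_left d rfl), Nat.div_self (Nat.pos_of_ne_zero hℓ0), mul_one]
  refine ⟨w, fun v => ?_, fun v => ?_⟩
  · have h : w.comp (heckeAlphaBar Kb N ℓ) = heckeBetaBar Kb N ℓ := by
      apply FF_algHom_ext
      intro d hd
      rw [AlgHom.comp_apply, hα d hd, hw, hβ d hd]
      exact swap_jFfam_congr _ _ _ (hs1 d hd)
    exact congrArg (fun f => f v) h
  · have h : w.comp (heckeBetaBar Kb N ℓ) = heckeAlphaBar Kb N ℓ := by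
      apply FF_algHom_ext
      intro d hd
      rw [AlgHom.comp_apply, hβ d hd, hw, hα d hd]
      exact swap_jFfam_congr _ _ _ (hs2 d hd)
    exact congrArg (fun f => f v) h

end Fermat.Agent.ES.G2

end
end ZBS24_003_18

/-! ### bundled: `Fermat.Agent.ES.RC.PlaceAllAlg` -/
section ZBS24_003_19

/-!
# ESpkg-G1 (RC)(ii), piece P-all, algebraic part

`F` a fraction field of `A = modFunAlg M`, `J = jMod M ∈ A`.
* `aeval_jMod_apply`, `aeval_jMod_ne_zero`, `transcendental_jF`;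
* `rc_isRoot_normPoly` : every `b ∈ A` is a root of a monic polynomial of degree
  `cosetCard M` over `ℂ[J]`;
* `rc_exists_frac_poly` : every `x ∈ F` is `a / d(J)`, `a ∈ A`, `0 ≠ d ∈ ℂ[X]`;
* `rc_finiteDimensional` : `F` is finite over `ℂ(J)`.
-/

set_option autoImplicit false
set_option linter.style.haveILetI false

noncomputable section

namespace Fermat.Agent.ES.RC

open UpperHalfPlane AlgebraicCurve ModularForm Polynomial IntermediateField Module
open Fermat.Agent.S23 Fermat.Agent.S24 Fermat.Agent.S28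
open scoped MatrixGroups Manifold ModularForm

/-- An algebraic extension of bounded degree in characteristic zero is finite. -/
theorem rc_finiteDimensional_of_natDegree_le {K L : Type*} [Field K] [Field L] [Algebra K L]
    [CharZero K] (n : ℕ) (h : ∀ x : L, IsIntegral K x ∧ (minpoly K x).natDegree ≤ n) :
    FiniteDimensional K L := by
  classical
  haveI : Algebra.IsAlgebraic K L := ⟨fun x => (h x).1.isAlgebraic⟩
  haveI : Algebra.IsSeparable K L := inferInstance
  obtain ⟨x, hx⟩ : ∃ x : L, ∀ y : L, (minpoly K y).natDegree ≤ (minpoly K x).natDegree := by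
    by_contra hcon
    push Not at hcon
    have key : ∀ k : ℕ, ∃ y : L, k ≤ (minpoly K y).natDegree := by
      intro k
      induction k with
      | zero => exact ⟨0, Nat.zero_le _⟩
      | succ k ih =>
        obtain ⟨y, hy⟩ := ih
        obtain ⟨z, hz⟩ := hcon y
        exact ⟨z, by omega⟩
    obtain ⟨y, hy⟩ := key (n + 1)
    have := (h y).2
    omega
  have htop : K⟮x⟯ = ⊤ := by
    rw [eq_top_iff]
    intro y _
    obtain ⟨z, hz⟩ := Field.primitive_element_inf_aux K x y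
    have h1 : K⟮x⟯ ≤ K⟮z⟯ := by
      rw [← hz, adjoin_simple_le_iff]
      exact subset_adjoin K _ (by simp)
    haveI : FiniteDimensional K K⟮z⟯ := adjoin.finiteDimensional (h z).1
    have h2 : finrank K K⟮z⟯ ≤ finrank K K⟮x⟯ := by
      rw [adjoin.finrank (h z).1, adjoin.finrank (h x).1]
      exact hx z
    have h3 : K⟮x⟯ = K⟮z⟯ := IntermediateField.eq_of_le_of_finrank_le h1 h2
    rw [h3, ← hz]
    exact subset_adjoin K _ (by simp)
  haveI : FiniteDimensional K K⟮x⟯ := adjoin.finiteDimensional (h x).1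
  have h4 : FiniteDimensional K (⊤ : IntermediateField K L) := htop ▸ this
  exact (IntermediateField.topEquiv (F := K) (E := L)).toLinearEquiv.finiteDimensional

variable (M : ℕ) [NeZero M]

/-- `J` as an element of `modFunAlg M`. -/
def jMod : modFunAlg M := ⟨Jfun, isModFun_Jfun M⟩

theorem jMod_coe : ((jMod M : modFunAlg M) : ℍ → ℂ) = Jfun := rfl

/-- Evaluation at a point of `ℍ`. -/
def evPt (τ : ℍ) : modFunAlg M →ₐ[ℂ] ℂ :=
  (Pi.evalAlgHom ℂ (fun _ : ℍ => ℂ) τ).comp (modFunAlg M).val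

theorem evPt_apply (τ : ℍ) (f : modFunAlg M) : evPt M τ f = (f : ℍ → ℂ) τ := rfl

theorem aeval_jMod_apply (P : ℂ[X]) (τ : ℍ) :
    ((aeval (jMod M) P : modFunAlg M) : ℍ → ℂ) τ = P.eval (Jfun τ) := by
  have h := Polynomial.aeval_algHom_apply (evPt M τ) (jMod M) P
  rw [evPt_apply, evPt_apply] at h
  rw [← h, Polynomial.coe_aeval_eq_eval]
  rfl

theorem aeval_jMod_ne_zero {P : ℂ[X]} (hP : P ≠ 0) : aeval (jMod M) P ≠ 0 := by
  intro h
  apply hP
  refine Polynomial.funext fun c => ?_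
  obtain ⟨τ, hτ⟩ := Jfun_surjective c
  have h1 := congrFun (congrArg Subtype.val h) τ
  rw [aeval_jMod_apply, hτ] at h1
  rw [h1, Polynomial.eval_zero]
  rfl

/-- The `ℂ[X]`-algebra structure `P ↦ P(J)` on `modFunAlg M` (not an instance). -/
@[reducible] def polyAlg : Algebra ℂ[X] (modFunAlg M) := (aeval (jMod M)).toRingHom.toAlgebra

theorem polyAlg_algebraMap (P : ℂ[X]) :
    letI := polyAlg M
    algebraMap ℂ[X] (modFunAlg M) P = aeval (jMod M) P := rfl

/-- Every modular function is a root of a monic polynomial of degree `cosetCard M` over `ℂ[J]`. -/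
theorem rc_isRoot_normPoly (b : modFunAlg M) :
    ∃ Φ : (ℂ[X])[X], Φ.Monic ∧ Φ.natDegree = cosetCard M ∧
      Φ.eval₂ (aeval (jMod M)).toRingHom b = 0 := by
  obtain ⟨Φ, hmon, hdeg, hroot⟩ := IsModFun.exists_normPoly (N := M) b.2
  refine ⟨Φ, hmon, hdeg, ?_⟩
  apply Subtype.ext
  funext τ
  have h1 : ((Φ.eval₂ (aeval (jMod M)).toRingHom b : modFunAlg M) : ℍ → ℂ) τ
      = evPt M τ (Φ.eval₂ (aeval (jMod M)).toRingHom b) := rfl
  rw [h1, ← AlgHom.coe_toRingHom (evPt M τ), Polynomial.hom_eval₂]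
  have h2 : (((evPt M τ : modFunAlg M →ₐ[ℂ] ℂ) : modFunAlg M →+* ℂ).comp
      (aeval (jMod M)).toRingHom) = evalRingHom (Jfun τ) := by
    apply Polynomial.ringHom_ext
    · intro a
      simp
    · simp [evPt_apply, jMod_coe]
  rw [h2]
  exact hroot τ

section Field

variable (F : Type*) [Field F] [Algebra ℂ F] [Algebra (modFunAlg M) F]
  [IsScalarTower ℂ (modFunAlg M) F] [IsFractionRing (modFunAlg M) F]

/-- `J` as an element of `F`. -/
def jF : F := algebraMap (modFunAlg M) F (jMod M)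

theorem aeval_jF (P : ℂ[X]) : aeval (jF M F) P = algebraMap (modFunAlg M) F (aeval (jMod M) P) := by
  have h := Polynomial.aeval_algHom_apply (IsScalarTower.toAlgHom ℂ (modFunAlg M) F) (jMod M) P
  simpa [jF] using h

theorem transcendental_jF : Transcendental ℂ (jF M F) := by
  rw [Transcendental, IsAlgebraic]
  push Not
  intro P hP h
  rw [aeval_jF] at h
  exact rc_algebraMap_ne_zero F (aeval_jMod_ne_zero M hP) h

/-- Every element of `F` is `a / d(J)`. -/
theorem rc_exists_frac_poly (x : F) :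
    ∃ (a : modFunAlg M) (d : ℂ[X]), d ≠ 0 ∧
      x * algebraMap (modFunAlg M) F (aeval (jMod M) d) = algebraMap (modFunAlg M) F a := by
  letI := polyAlg M
  obtain ⟨a₀, b₀, hb₀, rfl⟩ := IsFractionRing.div_surjective (A := modFunAlg M) x
  have hb0 : b₀ ≠ 0 := nonZeroDivisors.ne_zero hb₀
  have halg : IsAlgebraic ℂ[X] b₀ := by
    obtain ⟨Φ, hmon, -, hroot⟩ := rc_isRoot_normPoly M b₀
    exact ⟨Φ, hmon.ne_zero, hroot⟩
  obtain ⟨c, d, hd, h⟩ := halg.exists_smul_eq_mul a₀ hb₀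
  refine ⟨c, d, hd, ?_⟩
  rw [Algebra.smul_def, polyAlg_algebraMap] at h
  have hb' : algebraMap (modFunAlg M) F b₀ ≠ 0 := rc_algebraMap_ne_zero F hb0
  rw [div_mul_eq_mul_div, div_eq_iff hb', ← map_mul, ← map_mul, mul_comm a₀, h, mul_comm]

/-- Every element of `F` is algebraic over `ℂ(J)` of degree at most `cosetCard M`. -/
theorem rc_isIntegral_natDegree_le (x : F) :
    IsIntegral ℂ⟮jF M F⟯ x ∧ (minpoly ℂ⟮jF M F⟯ x).natDegree ≤ cosetCard M := by
  obtain ⟨a, d, hd, hx⟩ := rc_exists_frac_poly M F x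
  obtain ⟨Φ, hmon, hdeg, hroot⟩ := rc_isRoot_normPoly M a
  -- the coefficient map `ℂ[X] → ℂ(J)`
  let ρ : ℂ[X] →+* ℂ⟮jF M F⟯ :=
    ((aeval (⟨jF M F, mem_adjoin_simple_self ℂ _⟩ : ℂ⟮jF M F⟯)) : ℂ[X] →ₐ[ℂ] ℂ⟮jF M F⟯).toRingHom
  have hρ : ∀ P : ℂ[X], ((ρ P : ℂ⟮jF M F⟯) : F) = algebraMap (modFunAlg M) F (aeval (jMod M) P) := by
    intro P
    have h := Polynomial.aeval_algHom_apply (ℂ⟮jF M F⟯.val)
      (⟨jF M F, mem_adjoin_simple_self ℂ _⟩ : ℂ⟮jF M F⟯) P
    rw [← aeval_jF]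
    exact h.symm
  have hcomp : (algebraMap ℂ⟮jF M F⟯ F).comp ρ =
      (algebraMap (modFunAlg M) F).comp (aeval (jMod M)).toRingHom := by
    ext P
    · simp [ρ, ← IsScalarTower.algebraMap_apply]
    · simp only [RingHom.coe_comp, Function.comp_apply]
      exact hρ X
  -- `a` is integral of degree `≤ n`
  have haroot : (Φ.map ρ).eval₂ (algebraMap ℂ⟮jF M F⟯ F) (algebraMap (modFunAlg M) F a) = 0 := by
    rw [Polynomial.eval₂_map, hcomp, ← Polynomial.hom_eval₂, hroot, map_zero]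
  have hmon' : (Φ.map ρ).Monic := hmon.map ρ
  have haint : IsIntegral ℂ⟮jF M F⟯ (algebraMap (modFunAlg M) F a) := ⟨Φ.map ρ, hmon', haroot⟩
  have hadeg : (minpoly ℂ⟮jF M F⟯ (algebraMap (modFunAlg M) F a)).natDegree ≤ cosetCard M := by
    have h1 := Polynomial.natDegree_le_of_dvd
      (minpoly.dvd ℂ⟮jF M F⟯ (algebraMap (modFunAlg M) F a) haroot) hmon'.ne_zero
    rw [hmon.natDegree_map] at h1
    rw [← hdeg]
    exact h1
  -- `x ∈ ℂ(J)(a)`
  have hdne : algebraMap (modFunAlg M) F (aeval (jMod M) d) ≠ 0 :=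
    rc_algebraMap_ne_zero F (aeval_jMod_ne_zero M hd)
  have hxa : x = algebraMap (modFunAlg M) F a * (algebraMap ℂ⟮jF M F⟯ F (ρ d))⁻¹ := by
    have : algebraMap ℂ⟮jF M F⟯ F (ρ d) = algebraMap (modFunAlg M) F (aeval (jMod M) d) := hρ d
    rw [this, ← hx, mul_assoc, mul_inv_cancel₀ hdne, mul_one]
  have hxint : IsIntegral ℂ⟮jF M F⟯ x := by
    rw [hxa]
    exact haint.mul (isIntegral_algebraMap.inv)
  refine ⟨hxint, ?_⟩
  have hle : ℂ⟮jF M F⟯⟮x⟯ ≤ ℂ⟮jF M F⟯⟮algebraMap (modFunAlg M) F a⟯ := by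
    rw [adjoin_simple_le_iff, hxa]
    refine mul_mem (mem_adjoin_simple_self _ _) (inv_mem ?_)
    exact IntermediateField.algebraMap_mem _ _
  haveI : FiniteDimensional ℂ⟮jF M F⟯ ℂ⟮jF M F⟯⟮algebraMap (modFunAlg M) F a⟯ :=
    adjoin.finiteDimensional haint
  have h2 := IntermediateField.finrank_le_of_le_right hle
  rw [adjoin.finrank hxint, adjoin.finrank haint] at h2
  exact h2.trans hadeg

instance rc_finiteDimensional : FiniteDimensional ℂ⟮jF M F⟯ F :=
  rc_finiteDimensional_of_natDegree_le (cosetCard M) (rc_isIntegral_natDegree_le M F)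

theorem rc_isAlgebraic : Algebra.IsAlgebraic ℂ⟮jF M F⟯ F := inferInstance

end Field

end Fermat.Agent.ES.RC

end
end ZBS24_003_19

/-! ### bundled: `Fermat.Agent.ES.RC.PlaceAllConj` -/
section ZBS24_003_20

/-!
# ESpkg-G1 (RC)(ii), piece P-all: symmetric functions of the conjugates of a modular function

For `a ∈ modFunAlg M` there are representatives `g q ∈ SL(2,ℤ)` (`q ∈ SL(2,ℤ)/Γ₀(M)`) and
polynomials `P j` with `P j (J) = e_j (a ∘ g q)_q`, `P 0 = 1` and
`Σ_j (-1)^j P_j(J) a^(n-j) = 0`  (`rc_conj_core`).  Consequently, if all conjugates vanish to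
order `≥ k` at `τ₁`, then `P j (J)` vanishes to order `≥ j k` at `τ₁` (`rc_conj_ordAt`).
-/

set_option autoImplicit false
set_option linter.style.haveILetI false
set_option linter.unusedSectionVars false

noncomputable section

namespace Fermat.Agent.ES.RC

open UpperHalfPlane AlgebraicCurve ModularForm Polynomial SlashInvariantForm
open Fermat.Agent.S23 Fermat.Agent.S24 Fermat.Agent.S28
open scoped MatrixGroups Manifold ModularForm

local notation "Δ" => ModularForm.discriminant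

/-- The weight `12 m` slash of `f · Δ ^ m` by `γ ∈ SL(2,ℤ)` is `(f ∘ γ) · Δ ^ m`. -/
theorem rc_slash_mul_disc (f : ℍ → ℂ) (m : ℕ) (γ : SL(2, ℤ)) (τ : ℍ) :
    ((fun z => f z * Δ z ^ m) ∣[(12 * m : ℤ)] γ) τ = f (γ • τ) * Δ τ ^ m := by
  rw [SL_slash_apply]
  have hγ : (γ : GL (Fin 2) ℝ) ∈ 𝒮ℒ := ⟨γ, rfl⟩
  have h := SlashInvariantForm.slash_action_eqn'' CuspForm.discriminant hγ τ
  have hd : denom (γ : GL (Fin 2) ℝ) τ ≠ 0 := denom_ne_zero _ _
  have h' : Δ (γ • τ) = denom (γ : GL (Fin 2) ℝ) τ ^ (12 : ℤ) * Δ τ := h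
  rw [h', mul_pow, ← zpow_natCast (denom (γ : GL (Fin 2) ℝ) τ ^ (12 : ℤ)) m, ← zpow_mul, zpow_neg]
  field_simp

variable {M : ℕ} [NeZero M]

/-- The translates of `a · Δ ^ m` are the `(a ∘ γ) · Δ ^ m`. -/
theorem rc_quotientFunc {a : ℍ → ℂ} {m : ℕ} (G : ModularForm (G0 M) (12 * (m : ℤ)))
    (hG : (⇑G : ℍ → ℂ) = fun z => a z * Δ z ^ m) (q : Coset M) :
    ∃ γ : SL(2, ℤ), ∀ τ : ℍ, quotientFunc G q τ = a (γ • τ) * Δ τ ^ m := by
  induction q using Quotient.inductionOn with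
  | h r =>
    obtain ⟨r, γ, rfl⟩ := r
    refine ⟨γ⁻¹, fun τ => ?_⟩
    have h1 : quotientFunc G (⟦⟨Matrix.SpecialLinearGroup.mapGL ℝ γ, ⟨γ, rfl⟩⟩⟧ : Coset M)
        = (G : ℍ → ℂ) ∣[(12 * (m : ℤ))] (Matrix.SpecialLinearGroup.mapGL ℝ γ)⁻¹ :=
      quotientFunc_mk G _
    rw [h1, hG]
    have h2 : (Matrix.SpecialLinearGroup.mapGL ℝ γ)⁻¹ = ((γ⁻¹ : SL(2, ℤ)) : GL (Fin 2) ℝ) := by
      rw [← map_inv]; rfl
    rw [h2, ← ModularForm.SL_slash]
    exact rc_slash_mul_disc a m γ⁻¹ τ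

variable (M)

open scoped Classical in
/-- **Conjugates.** -/
theorem rc_conj_core (a : modFunAlg M) :
    ∃ (g : Coset M → SL(2, ℤ)) (P : ℕ → ℂ[X]), P 0 = 1 ∧
      (∀ τ : ℍ, ∑ j ∈ Finset.range (cosetCard M + 1),
        (-1 : ℂ) ^ j * (P j).eval (Jfun τ) * (a : ℍ → ℂ) τ ^ (cosetCard M - j) = 0) ∧
      ∀ (j : ℕ) (τ : ℍ), (P j).eval (Jfun τ) =
        ∑ S ∈ Finset.powersetCard j (cosetFinset M), ∏ q ∈ S, (a : ℍ → ℂ) (g q • τ) := by
  obtain ⟨m, G, hG⟩ := a.2
  choose P hPdeg hP using normPoly_coeff_exists m G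
  have hP0 : P 0 = 1 := normPoly_coeff_zero m G (P 0) (hPdeg 0) (hP 0)
  choose g hg using rc_quotientFunc G hG
  refine ⟨g, P, hP0, fun τ => ?_, fun j τ => ?_⟩
  · have h := normPoly_relation m G P hP τ
    have hGτ : G τ = (a : ℍ → ℂ) τ * Δ τ ^ m := congrFun hG τ
    rwa [hGτ, mul_div_assoc, div_self (pow_ne_zero m (discriminant_ne_zero τ)), mul_one] at h
  · have h := hP j τ
    have hΔ : Δ τ ^ (m * j) ≠ 0 := pow_ne_zero _ (discriminant_ne_zero τ)
    have h2 : (∑ S ∈ Finset.powersetCard j (cosetFinset M), ∏ q ∈ S, quotientFunc G q τ)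
        = Δ τ ^ (m * j) * ∑ S ∈ Finset.powersetCard j (cosetFinset M),
            ∏ q ∈ S, (a : ℍ → ℂ) (g q • τ) := by
      rw [Finset.mul_sum]
      refine Finset.sum_congr rfl fun S hS => ?_
      have hcard : S.card = j := (Finset.mem_powersetCard.mp hS).2
      rw [Finset.prod_congr rfl fun q _ => hg q τ, Finset.prod_mul_distrib, Finset.prod_const,
        hcard, ← pow_mul, mul_comm]
    rw [h2] at h
    exact (mul_left_cancel₀ hΔ h).symm

end Fermat.Agent.ES.RC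

end
end ZBS24_003_20

/-! ### bundled: `Fermat.Agent.S20.LevelOneSimple` -/
section ZBS24_003_21
/-
S20, package C (helper88): the zeros of `E₄`, `E₆` and of the pencil `E₄³ - c E₆²` (`c ≠ 0`) are
simple.  Uses helper67's bracket `2 E₄ D E₆ - 3 D E₄ E₆ ≠ 0` (`Fermat.Agent.S24.JOrder`).
-/

set_option autoImplicit false

open UpperHalfPlane ModularForm ModularFormClass MatrixGroups EisensteinSeries Derivative Filter
open scoped Manifold Topology

namespace Fermat.Agent.S20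

theorem levelOne_simple_zero_E4 (z : ℍ) (h : E₄ z = 0) :
    deriv (⇑E₄ ∘ UpperHalfPlane.ofComplex) z ≠ 0 := fun h0 =>
  Fermat.Agent.S24.D_E₄_ne_zero h ((Fermat.Agent.S24.D_eq_zero_iff_deriv z).mpr h0)

theorem levelOne_simple_zero_E6 (z : ℍ) (h : E₆ z = 0) :
    deriv (⇑E₆ ∘ UpperHalfPlane.ofComplex) z ≠ 0 := fun h0 =>
  Fermat.Agent.S24.D_E₆_ne_zero h ((Fermat.Agent.S24.D_eq_zero_iff_deriv z).mpr h0)

theorem levelOne_D_pencil (c : ℂ) (z : ℍ) :
    D (fun w : ℍ => E₄ w ^ 3 - c * E₆ w ^ 2) z =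
      3 * E₄ z ^ 2 * D E₄ z - c * (2 * E₆ z * D E₆ z) := by
  have h4 : MDiff (⇑E₄) := E₄.holo'
  have h6 : MDiff (⇑E₆) := E₆.holo'
  have hP : (fun w : ℍ => E₄ w ^ 3 - c * E₆ w ^ 2) = (⇑E₄) ^ 3 - c • (⇑E₆) ^ 2 := by
    funext w
    simp
  rw [hP, normalizedDerivOfComplex_sub _ _ (h4.pow 3) ((h6.pow 2).const_smul c),
    normalizedDerivOfComplex_smul _ _ (h6.pow 2),
    normalizedDerivOfComplex_pow _ _ h4, normalizedDerivOfComplex_pow _ _ h6]
  simp only [Pi.smul_apply, Pi.sub_apply, Pi.mul_apply, Pi.pow_apply, smul_eq_mul,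
    Pi.natCast_apply]
  push_cast
  ring

theorem levelOne_simple_zero_pencil (c : ℂ) (hc0 : c ≠ 0) (z : ℍ)
    (h : E₄ z ^ 3 - c * E₆ z ^ 2 = 0) :
    deriv ((fun w : ℍ => E₄ w ^ 3 - c * E₆ w ^ 2) ∘ UpperHalfPlane.ofComplex) z ≠ 0 := by
  intro h0
  have hD := (Fermat.Agent.S24.D_eq_zero_iff_deriv (F := fun w : ℍ => E₄ w ^ 3 - c * E₆ w ^ 2) z).mpr h0
  rw [levelOne_D_pencil] at hD
  have hB := Fermat.Agent.S24.bracketFun_ne_zero z
  have hΔ : ModularForm.discriminant z ≠ 0 := ModularForm.discriminant_ne_zero z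
  rw [discriminant_eq_E₄_cube_sub_E₆_sq] at hΔ
  have h6 : E₆ z ≠ 0 := by
    intro h6
    rw [h6] at h
    have h4 : E₄ z = 0 := by
      have : E₄ z ^ 3 = 0 := by simpa using h
      exact pow_eq_zero_iff (by norm_num) |>.mp this
    apply hΔ
    simp [h4, h6]
  apply hB
  unfold Fermat.Agent.S24.bracketFun
  -- E₄ · DP = -c · E₆ · B
  have key : c * E₆ z * (2 * E₄ z * D E₆ z - 3 * D E₄ z * E₆ z) = 0 := by
    have h3 : E₄ z ^ 3 = c * E₆ z ^ 2 := by linear_combination h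
    linear_combination (-(E₄ z)) * hD + 3 * D E₄ z * h3
  rcases mul_eq_zero.mp key with hk | hk
  · exact absurd hk (mul_ne_zero hc0 h6)
  · exact hk

end Fermat.Agent.S20


end ZBS24_003_21
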