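/- GENERATED FILE (helper35, build-time optimisation, NOTES/ZB.md): verbatim concatenation of the modules
   Fermat.Agent.S20.FixedEll
   Fermat.Agent.S20.Index
   Fermat.Agent.S28.ScaleForm
   Fermat.Agent.S28.Bridge
   Fermat.Agent.S28.Fricke
   Fermat.Agent.S28.ModEq
   Fermat.Agent.S34.ALAnalytic
   Fermat.Agent.ES.RC.CuspExact
   Fermat.Agent.ES.RC.PlaceAllCusp
   Fermat.Agent.ES.RC.PlaceAll
   Fermat.Agent.S20.Glue
   Fermat.Agent.S20.Ell
   Fermat.Agent.S20.ShiftAlg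
   Fermat.Agent.INJ.HMSturm
   Fermat.Agent.INJ.HMScale
   Fermat.Agent.INJ.Hauptmodul2Formal
   Fermat.Agent.INJ.Hauptmodul3Formal
   Fermat.Agent.INJ.Hauptmodul
   Fermat.Agent.ES.M.FrickeAut
   Fermat.Agent.S36.ALQAnalytic
   Do not edit; do not import together with these modules. -/
import Mathlib
import Fermat.Prelude.Def_ModularCurve_GenusNumerics
import Fermat.Agent.ZB.S24_003
import Fermat.Agent.ZB.S23_001
import Fermat.Prelude.Def_ModularCurve_JqCoeff
import Fermat.Prelude.Def_ModularCurve_LaurentCoeff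
import Fermat.Agent.ZB.S22_002
import Fermat.Agent.ZB.S24_017
import Fermat.Agent.ZB.S20_005
import Fermat.Agent.ZB.S24_002
import Fermat.Prelude.Thm_ModularForm_sturm_bound_Gamma0
import Mathlib.RingTheory.PowerSeries.Expand
import Fermat.Prelude.Thm_ModularCurve_coeffMap_qExpand

/-! ### bundled: `Fermat.Agent.S20.FixedEll` -/
section ZBS20_001_0

/-!
# S20 packages B2, B3: fixed points of `S` and `S * T` on `SL(2,ℤ) ⧸ Γ₀(N)`

For `e : ℤ` let `M_e = [[0,-1],[1,e]]` (`S = M_0`, `S * T = M_1`).  The coset `g Γ₀(N)` with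
first column `(a, c)` is fixed by `M_e` iff `a² + e a c + c² ≡ 0 mod N`; then `c` is a unit mod `N`
and `x = a / c` is a root of `x² + e x + 1`.  Conversely the root `x` gives the coset of
`[[x,-1],[1,0]]`.
-/

set_option autoImplicit false

open Matrix Matrix.SpecialLinearGroup CongruenceSubgroup ModularGroup
open scoped MatrixGroups

namespace Fermat.Agent.S20

/-- The matrix `[[0,-1],[1,e]]`. -/
def ellMat (e : ℤ) : SL(2, ℤ) := ⟨!![0, -1; 1, e], by simp [Matrix.det_fin_two_of]⟩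

/-- The matrix `[[x,-1],[1,0]]`, with first column `(x, 1)`. -/
def repMat (x : ℤ) : SL(2, ℤ) := ⟨!![x, -1; 1, 0], by simp [Matrix.det_fin_two_of]⟩

theorem ellMat_zero : ellMat 0 = ModularGroup.S := rfl

theorem ellMat_one : ellMat 1 = ModularGroup.S * ModularGroup.T := by
  ext i j
  fin_cases i <;> fin_cases j <;>
    simp [ellMat, ModularGroup.S, ModularGroup.T, Matrix.mul_apply, Fin.sum_univ_two]

/-- Lower-left entry of `g⁻¹ * h`. -/
theorem lowerLeft_inv_mul (g h : SL(2, ℤ)) :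
    (g⁻¹ * h : SL(2, ℤ)) 1 0 = -(g 1 0) * h 0 0 + g 0 0 * h 1 0 := by
  rw [Matrix.SpecialLinearGroup.SL2_inv_expl]
  simp [Matrix.mul_apply, Fin.sum_univ_two]

theorem ellMat_mul_apply_zero_zero (e : ℤ) (g : SL(2, ℤ)) :
    (ellMat e * g : SL(2, ℤ)) 0 0 = -(g 1 0) := by
  simp [ellMat, Matrix.mul_apply, Fin.sum_univ_two]

theorem ellMat_mul_apply_one_zero (e : ℤ) (g : SL(2, ℤ)) :
    (ellMat e * g : SL(2, ℤ)) 1 0 = g 0 0 + e * g 1 0 := by
  simp [ellMat, Matrix.mul_apply, Fin.sum_univ_two]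

/-- Lower-left entry of `g⁻¹ * M_e * g` is the value of the quadratic form at the first column. -/
theorem lowerLeft_conj_ellMat (e : ℤ) (g : SL(2, ℤ)) :
    (g⁻¹ * (ellMat e * g) : SL(2, ℤ)) 1 0 = g 0 0 ^ 2 + e * g 0 0 * g 1 0 + g 1 0 ^ 2 := by
  rw [lowerLeft_inv_mul, ellMat_mul_apply_zero_zero, ellMat_mul_apply_one_zero]
  ring

theorem repMat_apply_zero_zero (x : ℤ) : (repMat x) 0 0 = x := rfl

theorem repMat_apply_one_zero (x : ℤ) : (repMat x) 1 0 = 1 := rfl

/-- The first column of an element of `SL(2,ℤ)` is coprime. -/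
theorem isCoprime_firstCol (g : SL(2, ℤ)) : IsCoprime (g 0 0) (g 1 0) := by
  have h := g.det_coe
  rw [Matrix.det_fin_two] at h
  exact ⟨g 1 1, -(g 0 1), by linarith⟩

/-- If `N ∣ a² + e a c + c²` with `(a, c)` the first column of `g`, then `c` is a unit mod `N`. -/
theorem isUnit_of_quadForm_eq_zero (N : ℕ) (e : ℤ) (g : SL(2, ℤ))
    (h : (((g 0 0 ^ 2 + e * g 0 0 * g 1 0 + g 1 0 ^ 2 : ℤ)) : ZMod N) = 0) :
    IsUnit ((g 1 0 : ℤ) : ZMod N) := by
  rw [ZMod.coe_int_isUnit_iff_isCoprime]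
  rw [ZMod.intCast_zmod_eq_zero_iff_dvd] at h
  have h1 : IsCoprime (g 0 0 ^ 2 + e * g 0 0 * g 1 0 + g 1 0 ^ 2) (g 1 0) := by
    have h2 : IsCoprime (g 0 0 ^ 2) (g 1 0) := (isCoprime_firstCol g).pow_left
    have h3 : g 0 0 ^ 2 + e * g 0 0 * g 1 0 + g 1 0 ^ 2 =
        g 0 0 ^ 2 + g 1 0 * (e * g 0 0 + g 1 0) := by ring
    rw [h3]
    exact h2.add_mul_left_left _
  exact h1.of_isCoprime_of_dvd_left h

/-- Main bijection statement: fixed cosets of `M_e` are counted by roots of `x² + e x + 1`. -/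
theorem card_fixed_ellMat (N : ℕ) [NeZero N] (e : ℤ) :
    Nat.card {q : SL(2, ℤ) ⧸ Gamma0 N // ellMat e • q = q} =
      Nat.card {x : ZMod N // x ^ 2 + (e : ZMod N) * x + 1 = 0} := by
  symm
  -- the map from roots to fixed cosets
  have hfix : ∀ x : {x : ZMod N // x ^ 2 + (e : ZMod N) * x + 1 = 0},
      ellMat e • ((repMat (x.1.val : ℤ) : SL(2, ℤ)) : SL(2, ℤ) ⧸ Gamma0 N) =
        ((repMat (x.1.val : ℤ) : SL(2, ℤ)) : SL(2, ℤ) ⧸ Gamma0 N) := by
    intro x
    rw [MulAction.Quotient.smul_mk, smul_eq_mul, eq_comm, QuotientGroup.eq, Gamma0_mem,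
      lowerLeft_conj_ellMat, repMat_apply_zero_zero, repMat_apply_one_zero]
    push_cast
    rw [ZMod.natCast_zmod_val]
    have := x.2
    linear_combination this
  refine Nat.card_eq_of_bijective
    (fun x => (⟨((repMat (x.1.val : ℤ) : SL(2, ℤ)) : SL(2, ℤ) ⧸ Gamma0 N), hfix x⟩ :
      {q : SL(2, ℤ) ⧸ Gamma0 N // ellMat e • q = q})) ⟨?_, ?_⟩
  · -- injective
    intro x y hxy
    have h := congrArg Subtype.val hxy
    simp only at h
    rw [QuotientGroup.eq, Gamma0_mem, lowerLeft_inv_mul, repMat_apply_zero_zero,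
      repMat_apply_one_zero, repMat_apply_zero_zero, repMat_apply_one_zero] at h
    push_cast at h
    rw [ZMod.natCast_zmod_val, ZMod.natCast_zmod_val] at h
    apply Subtype.ext
    linear_combination h
  · -- surjective
    rintro ⟨q, hq⟩
    obtain ⟨g, rfl⟩ := QuotientGroup.mk_surjective q
    rw [MulAction.Quotient.smul_mk, smul_eq_mul, eq_comm, QuotientGroup.eq, Gamma0_mem,
      lowerLeft_conj_ellMat] at hq
    have hu := isUnit_of_quadForm_eq_zero N e g hq
    push_cast at hq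
    have hcc : ((g 1 0 : ℤ) : ZMod N) * ((g 1 0 : ℤ) : ZMod N)⁻¹ = 1 :=
      ZMod.mul_inv_of_unit _ hu
    have hroot : (((g 0 0 : ℤ) : ZMod N) * ((g 1 0 : ℤ) : ZMod N)⁻¹) ^ 2 +
        (e : ZMod N) * (((g 0 0 : ℤ) : ZMod N) * ((g 1 0 : ℤ) : ZMod N)⁻¹) + 1 = 0 := by
      linear_combination (((g 1 0 : ℤ) : ZMod N)⁻¹ ^ 2) * hq +
        (-(e : ZMod N) * ((g 0 0 : ℤ) : ZMod N) * ((g 1 0 : ℤ) : ZMod N)⁻¹ -
          (1 + ((g 1 0 : ℤ) : ZMod N) * ((g 1 0 : ℤ) : ZMod N)⁻¹)) * hcc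
    refine ⟨⟨((g 0 0 : ℤ) : ZMod N) * ((g 1 0 : ℤ) : ZMod N)⁻¹, hroot⟩, ?_⟩
    apply Subtype.ext
    simp only
    rw [QuotientGroup.eq, Gamma0_mem, lowerLeft_inv_mul, repMat_apply_zero_zero,
      repMat_apply_one_zero]
    push_cast
    rw [ZMod.natCast_zmod_val]
    linear_combination ((g 0 0 : ℤ) : ZMod N) * hcc

/-- Package B2: the number of fixed points of `S` on `SL(2,ℤ) ⧸ Γ₀(N)` is `ν₂(N)`. -/
theorem card_fixed_S (N : ℕ) [NeZero N] :
    Nat.card {q : SL(2, ℤ) ⧸ Gamma0 N // (ModularGroup.S) • q = q} = ModularCurve.nuTwo N := by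
  rw [← ellMat_zero, card_fixed_ellMat, ModularCurve.nuTwo]
  refine Nat.card_congr (Equiv.subtypeEquivRight fun x => ?_)
  simp

/-- Package B3: the number of fixed points of `S * T` on `SL(2,ℤ) ⧸ Γ₀(N)` is `ν₃(N)`. -/
theorem card_fixed_ST (N : ℕ) [NeZero N] :
    Nat.card {q : SL(2, ℤ) ⧸ Gamma0 N // (ModularGroup.S * ModularGroup.T) • q = q} =
      ModularCurve.nuThree N := by
  rw [← ellMat_one, card_fixed_ellMat, ModularCurve.nuThree]
  refine Nat.card_congr (Equiv.subtypeEquivRight fun x => ?_)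
  simp

end Fermat.Agent.S20


end ZBS20_001_0

/-! ### bundled: `Fermat.Agent.S20.Index` -/
section ZBS20_001_1

/-!
# S20 package B1: the index of `Γ₀(N)` in `SL(2,ℤ)` is the Dedekind psi function

Induction on primes: `[Γ₀(a) : Γ₀(p a)]` is `p` if `p ∣ a` and `p + 1` otherwise, by explicit
coset representatives, and the same recursion holds for `ψ`.
-/

set_option autoImplicit false

open Matrix Matrix.SpecialLinearGroup CongruenceSubgroup ModularGroup
open scoped MatrixGroups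

namespace Fermat.Agent.S20

/-! ### The recursion for `ψ` -/

/-- Indicator of squarefree numbers as an arithmetic function. -/
def sqfAF : ArithmeticFunction ℕ :=
  ⟨fun n => if Squarefree n then 1 else 0, by simp⟩

theorem sqfAF_apply (n : ℕ) : sqfAF n = if Squarefree n then 1 else 0 := rfl

theorem sqfAF_isMultiplicative : sqfAF.IsMultiplicative := by
  refine ⟨by simp [sqfAF_apply], fun {m n} h => ?_⟩
  simp only [sqfAF_apply, Nat.squarefree_mul h]
  by_cases hm : Squarefree m <;> by_cases hn : Squarefree n <;> simp [hm, hn]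

theorem dedekindPsi_eq_mul_apply (n : ℕ) :
    ModularCurve.dedekindPsi n = (sqfAF * ArithmeticFunction.id) n := by
  rw [ArithmeticFunction.mul_apply,
    Nat.sum_divisorsAntidiagonal (fun d e => sqfAF d * ArithmeticFunction.id e),
    ModularCurve.dedekindPsi, Finset.sum_filter]
  refine Finset.sum_congr rfl fun d _ => ?_
  by_cases hd : Squarefree d <;> simp [sqfAF_apply, hd]

theorem dedekindPsi_prime {p : ℕ} (hp : p.Prime) : ModularCurve.dedekindPsi p = p + 1 := by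
  rw [ModularCurve.dedekindPsi, hp.divisors, Finset.sum_filter,
    Finset.sum_pair hp.one_lt.ne, if_pos squarefree_one, if_pos hp.squarefree, Nat.div_one,
    Nat.div_self hp.pos]

theorem dedekindPsi_mul_of_not_dvd {p a : ℕ} (hp : p.Prime) (hpa : ¬ p ∣ a) :
    ModularCurve.dedekindPsi (p * a) = (p + 1) * ModularCurve.dedekindPsi a := by
  have hcop : Nat.gcd p a = 1 := (Nat.Prime.coprime_iff_not_dvd hp).mpr hpa
  rw [dedekindPsi_eq_mul_apply,
    (sqfAF_isMultiplicative.mul ArithmeticFunction.isMultiplicative_id).map_mul_of_coprime hcop,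
    ← dedekindPsi_eq_mul_apply, ← dedekindPsi_eq_mul_apply, dedekindPsi_prime hp]

theorem dedekindPsi_mul_of_dvd {p a : ℕ} (hp : p.Prime) (hpa : p ∣ a) (ha : a ≠ 0) :
    ModularCurve.dedekindPsi (p * a) = p * ModularCurve.dedekindPsi a := by
  rw [ModularCurve.dedekindPsi, ModularCurve.dedekindPsi, Finset.mul_sum]
  have hset : (p * a).divisors.filter (fun d => Squarefree d) =
      a.divisors.filter (fun d => Squarefree d) := by
    ext d
    simp only [Finset.mem_filter, Nat.mem_divisors]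
    constructor
    · rintro ⟨⟨hd, -⟩, hsq⟩
      refine ⟨⟨?_, ha⟩, hsq⟩
      by_cases hpd : p ∣ d
      · obtain ⟨d', rfl⟩ := hpd
        have hd' : d' ∣ a := (mul_dvd_mul_iff_left hp.ne_zero).mp hd
        have hcop : Nat.Coprime p d' := by
          rw [Nat.Prime.coprime_iff_not_dvd hp]
          intro h
          obtain ⟨e, rfl⟩ := h
          have := hsq p ⟨e, by ring⟩
          exact hp.one_lt.ne' (Nat.isUnit_iff.mp this)
        exact hcop.mul_dvd_of_dvd_of_dvd hpa hd'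
      · have hcop : Nat.Coprime d p := ((Nat.Prime.coprime_iff_not_dvd hp).mpr hpd).symm
        exact hcop.dvd_of_dvd_mul_left hd
    · rintro ⟨⟨hd, -⟩, hsq⟩
      exact ⟨⟨hd.mul_left p, mul_ne_zero hp.ne_zero ha⟩, hsq⟩
  rw [hset]
  refine Finset.sum_congr rfl fun d hd => ?_
  simp only [Finset.mem_filter, Nat.mem_divisors] at hd
  exact Nat.mul_div_assoc p hd.1.1


/-! ### Coset representatives -/

theorem mem_Gamma0_iff_dvd (N : ℕ) (g : SL(2, ℤ)) : g ∈ Gamma0 N ↔ (N : ℤ) ∣ g 1 0 := by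
  rw [Gamma0_mem, ZMod.intCast_zmod_eq_zero_iff_dvd]

theorem Gamma0_mul_le (p a : ℕ) : Gamma0 (p * a) ≤ Gamma0 a := by
  intro g hg
  rw [mem_Gamma0_iff_dvd] at hg ⊢
  refine dvd_trans ?_ hg
  exact ⟨(p : ℤ), by push_cast; ring⟩

/-- The lower unipotent matrix `[[1,0],[t,1]]`. -/
def lowMat (t : ℤ) : SL(2, ℤ) := ⟨!![1, 0; t, 1], by simp [Matrix.det_fin_two_of]⟩

/-- The matrix `[[1 + a j, j],[a, 1]]`. -/
def repB (a j : ℤ) : SL(2, ℤ) :=
  ⟨!![1 + a * j, j; a, 1], by rw [Matrix.det_fin_two_of]; ring⟩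

theorem lowMat_apply_zero_zero (t : ℤ) : (lowMat t) 0 0 = 1 := rfl
theorem lowMat_apply_one_zero (t : ℤ) : (lowMat t) 1 0 = t := rfl
theorem repB_apply_zero_zero (a j : ℤ) : (repB a j) 0 0 = 1 + a * j := rfl
theorem repB_apply_one_zero (a j : ℤ) : (repB a j) 1 0 = a := rfl

theorem one_apply_zero_zero : ((1 : SL(2, ℤ)) : Matrix (Fin 2) (Fin 2) ℤ) 0 0 = 1 := by simp
theorem one_apply_one_zero : ((1 : SL(2, ℤ)) : Matrix (Fin 2) (Fin 2) ℤ) 1 0 = 0 := by simp

theorem mul_dvd_mul_cast_iff {p a : ℕ} (ha : a ≠ 0) {s : ℤ} :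
    ((p * a : ℕ) : ℤ) ∣ (a : ℤ) * s ↔ (p : ℤ) ∣ s := by
  push_cast
  rw [mul_comm (p : ℤ) (a : ℤ)]
  exact mul_dvd_mul_iff_left (by exact_mod_cast ha)

theorem lowMat_mem (a : ℕ) (t : ℤ) : lowMat ((a : ℤ) * t) ∈ Gamma0 a := by
  rw [mem_Gamma0_iff_dvd, lowMat_apply_one_zero]
  exact ⟨t, rfl⟩

theorem repB_mem (a : ℕ) (j : ℤ) : repB (a : ℤ) j ∈ Gamma0 a := by
  rw [mem_Gamma0_iff_dvd, repB_apply_one_zero]

/-- Membership of `g⁻¹ * h` in `Γ₀(p a)` for `g, h ∈ Γ₀(a)`, in terms of the first columns. -/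
theorem quot_eq_iff {p a : ℕ} (g h : Gamma0 a) :
    ((g : (Gamma0 a) ⧸ (Gamma0 (p * a)).subgroupOf (Gamma0 a)) = h) ↔
      ((p * a : ℕ) : ℤ) ∣ -((g : SL(2, ℤ)) 1 0) * (h : SL(2, ℤ)) 0 0 +
        (g : SL(2, ℤ)) 0 0 * (h : SL(2, ℤ)) 1 0 := by
  rw [QuotientGroup.eq, Subgroup.mem_subgroupOf, Subgroup.coe_mul, Subgroup.coe_inv,
    mem_Gamma0_iff_dvd, lowerLeft_inv_mul]

theorem relIndex_Gamma0_of_dvd {p a : ℕ} (hp : p.Prime) (hpa : p ∣ a) (ha : a ≠ 0) :
    (Gamma0 (p * a)).relIndex (Gamma0 a) = p := by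
  have : Fact p.Prime := ⟨hp⟩
  rw [Subgroup.relIndex, Subgroup.index]
  conv_rhs => rw [← Nat.card_zmod p]
  symm
  refine Nat.card_eq_of_bijective
    (fun t : ZMod p => ((⟨lowMat ((a : ℤ) * (t.val : ℤ)), lowMat_mem a _⟩ : Gamma0 a) :
      (Gamma0 a) ⧸ (Gamma0 (p * a)).subgroupOf (Gamma0 a))) ⟨?_, ?_⟩
  · intro t t' h
    simp only at h
    rw [quot_eq_iff] at h
    simp only [lowMat_apply_zero_zero, lowMat_apply_one_zero] at h
    have h2 : ((p * a : ℕ) : ℤ) ∣ (a : ℤ) * ((t'.val : ℤ) - (t.val : ℤ)) := by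
      convert h using 1
      ring
    rw [mul_dvd_mul_cast_iff ha, ← ZMod.intCast_zmod_eq_zero_iff_dvd] at h2
    push_cast at h2
    rw [ZMod.natCast_zmod_val, ZMod.natCast_zmod_val] at h2
    exact (sub_eq_zero.mp h2).symm
  · intro q
    obtain ⟨⟨g, hg⟩, rfl⟩ := QuotientGroup.mk_surjective q
    have hg' := (mem_Gamma0_iff_dvd a g).mp hg
    obtain ⟨γ, hγ⟩ := hg'
    have hpg : (p : ℤ) ∣ g 1 0 := by
      rw [hγ]
      exact Dvd.dvd.mul_right (by exact_mod_cast hpa) γ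
    have hα : ((g 0 0 : ℤ) : ZMod p) ≠ 0 := by
      intro h0
      rw [ZMod.intCast_zmod_eq_zero_iff_dvd] at h0
      have hcop := isCoprime_firstCol g
      have : IsUnit (p : ℤ) := hcop.isUnit_of_dvd' h0 hpg
      rw [Int.isUnit_iff] at this
      rcases this with h | h
      · exact hp.one_lt.ne' (by exact_mod_cast h)
      · have : (0 : ℤ) ≤ (p : ℤ) := Int.natCast_nonneg p
        omega
    refine ⟨(γ : ZMod p) * ((g 0 0 : ℤ) : ZMod p)⁻¹, ?_⟩
    simp only
    rw [quot_eq_iff]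
    simp only [lowMat_apply_zero_zero, lowMat_apply_one_zero]
    have h2 : -((a : ℤ) * ((((γ : ZMod p) * ((g 0 0 : ℤ) : ZMod p)⁻¹).val : ℕ) : ℤ)) * g 0 0 +
        1 * g 1 0 = (a : ℤ) * (γ - ((((γ : ZMod p) * ((g 0 0 : ℤ) : ZMod p)⁻¹).val : ℕ) : ℤ) *
          g 0 0) := by
      rw [hγ]; ring
    rw [h2, mul_dvd_mul_cast_iff ha, ← ZMod.intCast_zmod_eq_zero_iff_dvd]
    push_cast
    rw [ZMod.natCast_zmod_val]
    field_simp
    ring

theorem relIndex_Gamma0_of_not_dvd {p a : ℕ} (hp : p.Prime) (hpa : ¬ p ∣ a) (ha : a ≠ 0) :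
    (Gamma0 (p * a)).relIndex (Gamma0 a) = p + 1 := by
  have : Fact p.Prime := ⟨hp⟩
  have ha0 : ((a : ℕ) : ZMod p) ≠ 0 := by
    rw [Ne, ZMod.natCast_eq_zero_iff]
    exact hpa
  rw [Subgroup.relIndex, Subgroup.index]
  have hcard : Nat.card (Option (ZMod p)) = p + 1 := by
    rw [Finite.card_option, Nat.card_zmod]
  rw [← hcard]
  symm
  -- the representative attached to `x`
  let j : ZMod p → ℤ := fun x => ((((x - 1) * ((a : ℕ) : ZMod p)⁻¹).val : ℕ) : ℤ)
  have hj : ∀ x : ZMod p, ((j x : ℤ) : ZMod p) = (x - 1) * ((a : ℕ) : ZMod p)⁻¹ := fun x => by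
    simp only [j]
    push_cast
    rw [ZMod.natCast_zmod_val]
  let rep : Option (ZMod p) → Gamma0 a := fun o =>
    match o with
    | none => 1
    | some x => ⟨repB (a : ℤ) (j x), repB_mem a _⟩
  refine Nat.card_eq_of_bijective
    (fun o : Option (ZMod p) => ((rep o : Gamma0 a) :
      (Gamma0 a) ⧸ (Gamma0 (p * a)).subgroupOf (Gamma0 a))) ⟨?_, ?_⟩
  · intro o o' h
    simp only at h
    rw [quot_eq_iff] at h
    rcases o with _ | x <;> rcases o' with _ | x'
    · rfl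
    · exfalso
      simp only [rep, Subgroup.coe_one, one_apply_zero_zero, one_apply_one_zero,
        repB_apply_zero_zero, repB_apply_one_zero] at h
      have h2 : ((p * a : ℕ) : ℤ) ∣ (a : ℤ) * 1 := by
        convert h using 1
        ring
      rw [mul_dvd_mul_cast_iff ha] at h2
      have := Int.eq_one_of_dvd_one (Int.natCast_nonneg p) h2
      exact hp.one_lt.ne' (by exact_mod_cast this)
    · exfalso
      simp only [rep, Subgroup.coe_one, one_apply_zero_zero, one_apply_one_zero,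
        repB_apply_zero_zero, repB_apply_one_zero] at h
      have h2 : ((p * a : ℕ) : ℤ) ∣ (a : ℤ) * (-1) := by
        convert h using 1
        ring
      rw [mul_dvd_mul_cast_iff ha, dvd_neg] at h2
      have := Int.eq_one_of_dvd_one (Int.natCast_nonneg p) h2
      exact hp.one_lt.ne' (by exact_mod_cast this)
    · simp only [rep, repB_apply_zero_zero, repB_apply_one_zero] at h
      have h2 : ((p * a : ℕ) : ℤ) ∣ (a : ℤ) * ((a : ℤ) * (j x - j x')) := by
        convert h using 1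
        ring
      rw [mul_dvd_mul_cast_iff ha, ← ZMod.intCast_zmod_eq_zero_iff_dvd] at h2
      push_cast at h2
      rw [hj, hj] at h2
      have h3 : (x - 1) * ((a : ℕ) : ZMod p)⁻¹ - (x' - 1) * ((a : ℕ) : ZMod p)⁻¹ = 0 := by
        rcases mul_eq_zero.mp h2 with h | h
        · exact absurd h ha0
        · exact h
      congr 1
      field_simp at h3
      linear_combination h3
  · intro q
    obtain ⟨⟨g, hg⟩, rfl⟩ := QuotientGroup.mk_surjective q
    have hg' := (mem_Gamma0_iff_dvd a g).mp hg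
    obtain ⟨γ, hγ⟩ := hg'
    by_cases hpγ : (p : ℤ) ∣ γ
    · refine ⟨none, ?_⟩
      simp only
      rw [quot_eq_iff]
      simp only [rep, Subgroup.coe_one, one_apply_zero_zero, one_apply_one_zero]
      have h2 : -(0 : ℤ) * g 0 0 + 1 * g 1 0 = (a : ℤ) * γ := by rw [hγ]; ring
      rw [h2, mul_dvd_mul_cast_iff ha]
      exact hpγ
    · have hγ0 : ((γ : ℤ) : ZMod p) ≠ 0 := by
        rwa [Ne, ZMod.intCast_zmod_eq_zero_iff_dvd]
      refine ⟨some (((g 0 0 : ℤ) : ZMod p) * ((γ : ℤ) : ZMod p)⁻¹), ?_⟩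
      simp only
      rw [quot_eq_iff]
      simp only [rep, repB_apply_zero_zero, repB_apply_one_zero]
      have h2 : -(a : ℤ) * g 0 0 +
          (1 + (a : ℤ) * j (((g 0 0 : ℤ) : ZMod p) * ((γ : ℤ) : ZMod p)⁻¹)) * g 1 0 =
          (a : ℤ) * (-(g 0 0) +
            (1 + (a : ℤ) * j (((g 0 0 : ℤ) : ZMod p) * ((γ : ℤ) : ZMod p)⁻¹)) * γ) := by
        rw [hγ]; ring
      rw [h2, mul_dvd_mul_cast_iff ha, ← ZMod.intCast_zmod_eq_zero_iff_dvd]
      push_cast
      rw [hj]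
      field_simp
      ring

/-- Package B1: the index of `Γ₀(N)` is `ψ(N)`. -/
theorem index_Gamma0 (n : ℕ) (hn : n ≠ 0) :
    (Gamma0 n).index = ModularCurve.dedekindPsi n := by
  induction n using induction_on_primes with
  | zero => exact absurd rfl hn
  | one =>
    have : Gamma0 1 = ⊤ := by
      ext g
      simp only [Subgroup.mem_top, iff_true]
      rw [Gamma0_mem]
      exact Subsingleton.elim _ _
    rw [this, Subgroup.index_top, ModularCurve.dedekindPsi_one]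
  | prime_mul p a hp ih =>
    have ha : a ≠ 0 := right_ne_zero_of_mul hn
    rw [← Subgroup.relIndex_mul_index (Gamma0_mul_le p a), ih ha]
    by_cases h : p ∣ a
    · rw [relIndex_Gamma0_of_dvd hp h ha, dedekindPsi_mul_of_dvd hp h ha]
    · rw [relIndex_Gamma0_of_not_dvd hp h ha, dedekindPsi_mul_of_not_dvd hp h]

theorem card_quot_Gamma0 (N : ℕ) [NeZero N] :
    Nat.card (SL(2, ℤ) ⧸ Gamma0 N) = ModularCurve.dedekindPsi N :=
  index_Gamma0 N (NeZero.ne N)

end Fermat.Agent.S20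


end ZBS20_001_1

/-! ### bundled: `Fermat.Agent.S28.ScaleForm` -/
section ZBS20_001_2

/-!
# S28 — `f(Nτ)` is a modular form for `Γ₀(N)`; `J(pτ)` is a modular function for `Γ₀(p)`

* `cosetCard_eq_dedekindPsi`, `cosetCard_prime` : `[SL(2,ℤ) : Γ₀(N)] = ψ(N)`, `= p + 1` for `N = p`.
* `isMF_comp_scaleN` : for a level-one modular form `f` of weight `k`, `τ ↦ f (N τ)` is a modular
  form of weight `k` for `Γ₀(N)`.
* `isModFun_Jfun_scaleN` : `τ ↦ J(Nτ)` is a modular function for `Γ₀(N)`.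
* `isModFun_unit`, `isModFun_unit_inv` : `Δ(Nτ)/Δ(τ)` and `Δ(τ)/Δ(Nτ)` are modular functions
  for `Γ₀(N)`.
-/

set_option autoImplicit false

noncomputable section

namespace Fermat.Agent.S28

open UpperHalfPlane ModularForm SlashInvariantForm Polynomial Filter
open Fermat.Agent.S23 Fermat.Agent.S24
open scoped MatrixGroups ModularForm Manifold Topology

local notation "Δ" => ModularForm.discriminant

/-- `[SL(2,ℤ) : Γ₀(N)] = ψ(N)`, for the coset space used by `quotientFunc`. -/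
theorem cosetCard_eq_dedekindPsi (N : ℕ) [NeZero N] :
    cosetCard N = ModularCurve.dedekindPsi N := by
  have h1 : cosetCard N = Nat.card (Coset N) := by
    let _ : Fintype (Coset N) := Fintype.ofFinite (Coset N)
    unfold cosetCard cosetFinset
    rw [Finset.card_univ, Nat.card_eq_fintype_card]
  rw [h1]
  have h2 : Nat.card (Coset N) = ((G0 N).subgroupOf 𝒮ℒ).index := rfl
  rw [h2]
  have h3 : ((G0 N).subgroupOf 𝒮ℒ).index = (G0 N).relIndex 𝒮ℒ := rfl
  rw [h3, MonoidHom.range_eq_map,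
    Subgroup.relIndex_map_map_of_injective _ _ Matrix.SpecialLinearGroup.mapGL_injective,
    Subgroup.relIndex_top_right]
  exact Fermat.Agent.S20.index_Gamma0 N (NeZero.ne N)

theorem cosetCard_prime {p : ℕ} [NeZero p] (hp : p.Prime) : cosetCard p = p + 1 := by
  rw [cosetCard_eq_dedekindPsi, Fermat.Agent.S20.dedekindPsi_prime hp]

/-- `τ ↦ f (N τ)` is holomorphic if `f` is. -/
theorem mdiff_comp_scaleN (N : ℕ) [NeZero N] {f : ℍ → ℂ} (hf : MDiff f) :
    MDiff (fun z => f (scaleN N z)) := by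
  rw [UpperHalfPlane.mdifferentiable_iff] at hf ⊢
  have hN : (0 : ℝ) < (N : ℝ) := Nat.cast_pos.mpr (Nat.pos_of_ne_zero (NeZero.ne N))
  have hmaps : Set.MapsTo (fun w : ℂ => (N : ℂ) * w) {z | 0 < z.im} {z | 0 < z.im} := by
    intro w hw
    simp only [Set.mem_ofPred_eq, Complex.mul_im, Complex.natCast_re, Complex.natCast_im,
      zero_mul, add_zero] at hw ⊢
    exact mul_pos hN hw
  have hcomp : DifferentiableOn ℂ ((f ∘ ofComplex) ∘ (fun w : ℂ => (N : ℂ) * w))
      {z | 0 < z.im} :=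
    hf.comp (by fun_prop) hmaps
  refine hcomp.congr ?_
  intro w hw
  have hw' : 0 < ((N : ℂ) * w).im := hmaps hw
  simp only [Function.comp_apply]
  rw [ofComplex_apply_of_im_pos hw, ofComplex_apply_of_im_pos hw']
  rfl

/-- `τ ↦ f (N τ)` is slash-invariant under `Γ₀(N)` if `f` is of level one. -/
theorem comp_scaleN_slash (N : ℕ) [NeZero N] {k : ℤ} (f : ModularForm 𝒮ℒ k) (γ : SL(2, ℤ))
    (h : γ ∈ CongruenceSubgroup.Gamma0 N) :
    ((fun z => f (scaleN N z)) ∣[k] γ) = fun z => f (scaleN N z) := by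
  have hdvd : (N : ℤ) ∣ γ 1 0 := by
    rw [CongruenceSubgroup.Gamma0_mem] at h
    exact (ZMod.intCast_zmod_eq_zero_iff_dvd _ _).mp h
  ext z
  rw [SL_slash_apply]
  have h1 := levelOne_smul f (P7_thetaCompanion N γ hdvd) (scaleN N z)
  have h2 := P7_thetaCompanion_denom N γ hdvd z
  have h3 := P7_thetaCompanion_smul N γ hdvd z
  have hd : denom (γ : GL (Fin 2) ℝ) z ≠ 0 := denom_ne_zero _ _
  rw [h3, h1]
  have h2' : denom ((P7_thetaCompanion N γ hdvd : SL(2, ℤ)) : GL (Fin 2) ℝ) (scaleN N z)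
      = denom (γ : GL (Fin 2) ℝ) z := h2
  rw [h2', zpow_neg]
  field_simp

/-- The translates of `τ ↦ f (N τ)` are bounded at `i∞`. -/
theorem comp_scaleN_slash_isBoundedAtImInfty (N : ℕ) [NeZero N] {k : ℤ} (f : ModularForm 𝒮ℒ k)
    (γ : SL(2, ℤ)) : IsBoundedAtImInfty ((fun z => f (scaleN N z)) ∣[k] γ) := by
  obtain ⟨γ', A, B, D, hA, hD, hAD, h00, h01, h10, h11, -⟩ := P8_exists_hermite N γ
  have hD' : (D : ℂ) ≠ 0 := by exact_mod_cast hD.ne'
  have hform : ((fun z => f (scaleN N z)) ∣[k] γ) =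
      fun z => ((D : ℂ) ^ k)⁻¹ * f (P8_betaPt A B D hA hD z) := by
    ext z
    rw [SL_slash_apply]
    rw [P8_scaleN_smul N γ γ' A B D hA hD h00 h01 h10 h11 z, levelOne_smul f γ' _]
    have hd1 : denom (γ : GL (Fin 2) ℝ) z = (γ 1 0 : ℂ) * z + (γ 1 1 : ℂ) := by
      simp [UpperHalfPlane.denom]
    have hd2 : denom (γ' : GL (Fin 2) ℝ) (P8_betaPt A B D hA hD z) =
        (γ' 1 0 : ℂ) * (P8_betaPt A B D hA hD z : ℍ) + (γ' 1 1 : ℂ) := by
      simp [UpperHalfPlane.denom]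
    rw [hd1, hd2, P8_denom_eq γ γ' A B D hA hD h10 h11 z, div_zpow, zpow_neg]
    have hne : ((γ 1 0 : ℂ) * z + (γ 1 1 : ℂ)) ^ k ≠ 0 := zpow_ne_zero _ (P8_denom_ne_zero γ z)
    field_simp
  rw [hform]
  have hb : IsBoundedAtImInfty (f : ℍ → ℂ) := ModularFormClass.bdd_at_infty f
  have hb2 : IsBoundedAtImInfty (fun z => f (P8_betaPt A B D hA hD z)) :=
    hb.comp_tendsto (P8_tendsto_betaPt A B D hA hD)
  exact (Filter.const_boundedAtFilter _ (((D : ℂ) ^ k)⁻¹)).mul hb2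

/-- **`V_N`**: for a level-one modular form `f`, `τ ↦ f (N τ)` is a modular form for `Γ₀(N)`. -/
theorem isMF_comp_scaleN (N : ℕ) [NeZero N] {k : ℤ} (f : ModularForm 𝒮ℒ k) :
    IsMF (G0 N) k (fun z => f (scaleN N z)) := by
  refine ⟨{ toFun := fun z => f (scaleN N z)
            slash_action_eq' := ?_
            holo' := mdiff_comp_scaleN N f.holo'
            bdd_at_cusps' := ?_ }, rfl⟩
  · rintro γ ⟨γ', hγ', rfl⟩
    exact comp_scaleN_slash N f γ' hγ'
  · intro c hc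
    rw [Subgroup.IsArithmetic.isCusp_iff_isCusp_SL2Z] at hc
    rw [OnePoint.isBoundedAt_iff_forall_SL2Z hc]
    intro γ _
    exact comp_scaleN_slash_isBoundedAtImInfty N f γ

/-- `J(Nτ) · Δ(τ)^N = E₄(Nτ)³ · Θ_N(τ)`. -/
theorem Jfun_scaleN_mul (N : ℕ) [NeZero N] (z : ℍ) :
    Jfun (scaleN N z) * Δ z ^ N = E₄ (scaleN N z) ^ 3 * thetaFun N z := by
  rw [Jfun_def]
  unfold thetaFun
  field_simp

/-- `τ ↦ J(Nτ)` is a modular function for `Γ₀(N)`. -/
theorem isModFun_Jfun_scaleN (N : ℕ) [NeZero N] : IsModFun N (fun z => Jfun (scaleN N z)) := by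
  refine ⟨N, ?_⟩
  have h4 : IsMF (G0 N) 4 (fun z => E₄ (scaleN N z)) := isMF_comp_scaleN N E₄
  have h := ((h4.pow 3).mul (isMF_thetaFun N)).of_weight_eq
    (show ((3 : ℕ) : ℤ) * 4 + thetaWeight N = 12 * (N : ℤ) by unfold thetaWeight; push_cast; ring)
  convert h using 1
  ext z
  simp only [Pi.mul_apply, Pi.pow_apply]
  exact Jfun_scaleN_mul N z

/-- `τ ↦ Δ(Nτ)/Δ(τ)` is a modular function for `Γ₀(N)`. -/
theorem isModFun_unit (N : ℕ) [NeZero N] : IsModFun N (fun z => Δ (scaleN N z) / Δ z) := by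
  refine ⟨1, ?_⟩
  have h : IsMF (G0 N) 12 (fun z => Δ (scaleN N z)) := by
    have := isMF_comp_scaleN N ((CuspForm.discriminant : CuspForm 𝒮ℒ 12) : ModularForm 𝒮ℒ 12)
    convert this using 1
    ext z
    exact (congrFun CuspForm.coe_discriminant (scaleN N z)).symm
  have h2 := h.of_weight_eq (show (12 : ℤ) = 12 * ((1 : ℕ) : ℤ) by norm_num)
  convert h2 using 1
  ext z
  rw [pow_one, div_mul_cancel₀ _ (discriminant_ne_zero z)]

/-- `τ ↦ Δ(τ)/Δ(Nτ)` is a modular function for `Γ₀(N)`. -/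
theorem isModFun_unit_inv (N : ℕ) [NeZero N] : IsModFun N (fun z => Δ z / Δ (scaleN N z)) := by
  have hN : 1 ≤ N := Nat.pos_of_ne_zero (NeZero.ne N)
  refine ⟨N - 1, ?_⟩
  have h := (isMF_thetaFun N).of_weight_eq
    (show thetaWeight N = 12 * ((N - 1 : ℕ) : ℤ) by
      unfold thetaWeight; push_cast [Nat.cast_sub hN]; ring)
  convert h using 1
  ext z
  unfold thetaFun
  have e : Δ z ^ N = Δ z * Δ z ^ (N - 1) := by
    rw [← pow_succ', Nat.sub_add_cancel hN]
  rw [e]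
  field_simp

end Fermat.Agent.S28

end
end ZBS20_001_2

/-! ### bundled: `Fermat.Agent.S28.Bridge` -/
section ZBS20_001_3

/-!
# S28 — the bridge: analytic functions on `ℍ` ⇒ formal Laurent series in `q`

* `IsMerInf f` : `f · Δ ^ m` is holomorphic, `1`-periodic and bounded at `i∞` for some `m`
  ("holomorphic on `ℍ`, periodic, meromorphic at `i∞`"); `merInf` is the `ℂ`-subalgebra of these.
* `laurentOf f : LaurentSeries ℂ` : the Laurent expansion at `i∞`;
  `laurentExp : merInf →ₐ[ℂ] LaurentSeries ℂ` is an injective algebra homomorphism.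
* `laurentOf_Jfun : laurentOf Jfun = jqModC ℂ`, `laurentOf_discriminant : laurentOf Δ = deltaL`,
  `laurentOf_comp_scaleN : laurentOf (f (N ·)) = qExpand ℂ N (laurentOf f)`.
* `laurentOf_eval₂` : a polynomial relation `Φ(f, g) = 0` between functions gives the same relation
  between their Laurent expansions.
-/

set_option autoImplicit false

noncomputable section

namespace Fermat.Agent.S28

open UpperHalfPlane ModularForm
open Fermat.Agent.S23 Fermat.Agent.S24
open scoped MatrixGroups ModularForm Manifold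

local notation "Δ" => ModularForm.discriminant

/-! ### The Laurent expansion of holomorphic periodic bounded functions -/

/-- The Laurent series (in fact a power series) of a function in `HPB`. -/
def bridge_L : HPB →+* LaurentSeries ℂ :=
  (HahnSeries.ofPowerSeries ℤ ℂ).comp (qExpHom : HPB →+* PowerSeries ℂ)

theorem bridge_L_apply (f : HPB) :
    bridge_L f = HahnSeries.ofPowerSeries ℤ ℂ (qExpansion 1 (f : ℍ → ℂ)) := rfl

theorem bridge_L_algebraMap (c : ℂ) :
    bridge_L (algebraMap ℂ HPB c) = HahnSeries.C c := by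
  rw [bridge_L_apply]
  have h : qExpansion 1 ((algebraMap ℂ HPB c : HPB) : ℍ → ℂ) = algebraMap ℂ (PowerSeries ℂ) c :=
    qExpHom.commutes c
  rw [h]
  simp

theorem bridge_L_injective : Function.Injective bridge_L := by
  intro f g h
  apply qExpHom_injective
  exact HahnSeries.ofPowerSeries_injective h

/-- `ofPowerSeries` turns the substitution `X ↦ X ^ N` into `qExpand`. -/
theorem bridge_ofPowerSeries_subst (N : ℕ) [NeZero N] (F : PowerSeries ℂ) :
    HahnSeries.ofPowerSeries ℤ ℂ (thetaAlg_subst N F) =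
      ModularCurve.qExpand ℂ N (HahnSeries.ofPowerSeries ℤ ℂ F) := by
  have hNpos : (0 : ℤ) < N := Nat.cast_pos.mpr (Nat.pos_of_ne_zero (NeZero.ne N))
  ext k
  by_cases hk : (N : ℤ) ∣ k
  · obtain ⟨m, rfl⟩ := hk
    rw [ModularCurve.qExpand_coeff_mul]
    rcases le_or_gt 0 m with hm | hm
    · lift m to ℕ using hm
      rw [show (N : ℤ) * (m : ℤ) = ((N * m : ℕ) : ℤ) by push_cast; ring,
        HahnSeries.ofPowerSeries_apply_coeff, HahnSeries.ofPowerSeries_apply_coeff,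
        thetaAlg_subst_coeff, if_pos (dvd_mul_right N m),
        Nat.mul_div_cancel_left _ (Nat.pos_of_ne_zero (NeZero.ne N))]
    · rw [ModularCurve.ofPowerSeries_coeff_of_neg _ hm,
        ModularCurve.ofPowerSeries_coeff_of_neg _ (mul_neg_of_pos_of_neg hNpos hm)]
  · rw [ModularCurve.qExpand_coeff_of_not_dvd N _ hk]
    rcases le_or_gt 0 k with hk0 | hk0
    · lift k to ℕ using hk0
      rw [HahnSeries.ofPowerSeries_apply_coeff, thetaAlg_subst_coeff, if_neg]
      intro h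
      exact hk (Int.natCast_dvd_natCast.mpr h)
    · exact ModularCurve.ofPowerSeries_coeff_of_neg _ hk0

/-- `τ ↦ f (N τ)` is in `HPB` if `f` is. -/
theorem bridge_isHPB_comp_scaleN (N : ℕ) [NeZero N] {f : ℍ → ℂ} (hf : IsHPB f) :
    IsHPB (fun τ => f (scaleN N τ)) := by
  have hN : (0 : ℝ) < (N : ℝ) := Nat.cast_pos.mpr (Nat.pos_of_ne_zero (NeZero.ne N))
  have hmaps : Set.MapsTo (fun w : ℂ => (N : ℂ) * w) {z | 0 < z.im} {z | 0 < z.im} := by
    intro w hw
    simp only [Set.mem_ofPred_eq, Complex.mul_im, Complex.natCast_re, Complex.natCast_im,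
      zero_mul, add_zero] at hw ⊢
    exact mul_pos hN hw
  refine ⟨mdiff_comp_scaleN N hf.1, ?_, ?_⟩
  · intro w
    simp only [Function.comp_apply]
    by_cases hw : 0 < w.im
    · have hw1 : 0 < (w + 1).im := by simpa using hw
      rw [ofComplex_apply_of_im_pos hw, ofComplex_apply_of_im_pos hw1]
      have hper := (hf.2.1.nat_mul N) ((N : ℂ) * w)
      simp only [Function.comp_apply] at hper
      have hw' : 0 < ((N : ℂ) * w).im := hmaps hw
      have hw1' : 0 < ((N : ℂ) * w + (N : ℂ) * 1).im := by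
        have : ((N : ℂ) * w + (N : ℂ) * 1) = (N : ℂ) * (w + 1) := by ring
        rw [this]
        exact hmaps hw1
      rw [ofComplex_apply_of_im_pos hw1', ofComplex_apply_of_im_pos hw'] at hper
      have e1 : scaleN N ⟨w + 1, hw1⟩ = ⟨(N : ℂ) * w + (N : ℂ) * 1, hw1'⟩ := by
        apply UpperHalfPlane.ext
        simp only [coe_scaleN]
        ring
      have e2 : scaleN N ⟨w, hw⟩ = ⟨(N : ℂ) * w, hw'⟩ := by
        apply UpperHalfPlane.ext
        simp only [coe_scaleN]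
      rw [e1, e2]
      exact hper
    · have hw1 : ¬ 0 < (w + 1).im := by simpa using hw
      rw [ofComplex_apply_of_im_nonpos (not_lt.mp hw), ofComplex_apply_of_im_nonpos (not_lt.mp hw1)]
  · exact hf.2.2.comp_tendsto (P7_tendsto_scaleN_atImInfty N)

/-- q-expansion of `τ ↦ f (N τ)`. -/
theorem bridge_qExpansion_comp_scaleN (N : ℕ) [NeZero N] {f : ℍ → ℂ} (hf : IsHPB f) :
    qExpansion 1 (fun τ => f (scaleN N τ)) = thetaAlg_subst N (qExpansion 1 f) := by
  have hN : N ≠ 0 := NeZero.ne N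
  have hg := bridge_isHPB_comp_scaleN N hf
  ext n
  rw [thetaAlg_subst_coeff]
  set c : ℕ → ℂ := fun n => if N ∣ n then (qExpansion 1 f).coeff (n / N) else 0
    with hc
  have hcont : Continuous (fun τ => f (scaleN N τ)) := hg.1.continuous
  refine (UpperHalfPlane.qExpansion_coeff_unique (c := c)
    (ContinuousMap.mk (fun τ => f (scaleN N τ)) hcont)
    one_pos hg.analyticAt ?_ n).symm
  intro τ
  have h1 := hasSum_qExpansion (h := 1) one_pos hf.2.1 hf.1 hf.2.2 (scaleN N τ)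
  rw [P7_qParam_scaleN] at h1
  have hinj : Function.Injective (fun m : ℕ => N * m) := fun a b hab =>
    Nat.eq_of_mul_eq_mul_left (Nat.pos_of_ne_zero hN) hab
  change HasSum (fun m ↦ c m • Function.Periodic.qParam 1 τ ^ m) (f (scaleN N τ))
  rw [← hinj.hasSum_iff]
  · convert h1 using 2 with m
    simp only [Function.comp_apply, hc, dvd_mul_right, if_true, Nat.mul_div_cancel_left _
      (Nat.pos_of_ne_zero hN), pow_mul]
  · intro x hx
    have : ¬ N ∣ x := fun ⟨k, hk⟩ => hx ⟨k, hk.symm⟩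
    simp [hc, this]

/-- The Laurent series of `τ ↦ f (N τ)`. -/
theorem bridge_ofPowerSeries_comp_scaleN (N : ℕ) [NeZero N] {f : ℍ → ℂ} (hf : IsHPB f) :
    HahnSeries.ofPowerSeries ℤ ℂ (qExpansion 1 (fun τ => f (scaleN N τ))) =
      ModularCurve.qExpand ℂ N (HahnSeries.ofPowerSeries ℤ ℂ (qExpansion 1 f)) := by
  rw [bridge_qExpansion_comp_scaleN N hf, bridge_ofPowerSeries_subst]

/-! ### The formal discriminant -/

/-- The formal `Δ = q ∏ (1 - qⁿ)²⁴` as a Laurent series over `ℂ`. -/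
def deltaL : LaurentSeries ℂ :=
  HahnSeries.single (1 : ℤ) (1 : ℂ) *
    HahnSeries.ofPowerSeries ℤ ℂ (ModularCurve.dedekindEtaUnit.map (Int.castRingHom ℂ))

theorem bridge_isHPB_discriminant : IsHPB (Δ : ℍ → ℂ) :=
  (isMF_discriminant 1).isHPB

theorem bridge_ofPowerSeries_discriminant :
    HahnSeries.ofPowerSeries ℤ ℂ (qExpansion 1 (Δ : ℍ → ℂ)) = deltaL := by
  rw [qExpansion_discriminant_eq, map_mul, HahnSeries.ofPowerSeries_X, deltaL]

theorem deltaL_ne_zero : deltaL ≠ 0 := by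
  rw [← bridge_ofPowerSeries_discriminant]
  intro h
  have h0 : qExpansion 1 (Δ : ℍ → ℂ) = 0 :=
    HahnSeries.ofPowerSeries_injective (by rw [h, map_zero])
  have h1 := (qExpansion_eq_zero_iff one_pos bridge_isHPB_discriminant.2.1
    bridge_isHPB_discriminant.1 bridge_isHPB_discriminant.2.2).mp h0
  exact discriminant_ne_zero UpperHalfPlane.I (congrFun h1 UpperHalfPlane.I)

/-! ### Functions meromorphic at `i∞` -/

/-- `f` is holomorphic on `ℍ`, `1`-periodic and meromorphic at `i∞`: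
`f · Δ ^ m` is holomorphic, periodic and bounded at `i∞` for some `m`. -/
def IsMerInf (f : ℍ → ℂ) : Prop := ∃ m : ℕ, IsHPB (fun z => f z * Δ z ^ m)

theorem bridge_isHPB_pow {f : ℍ → ℂ} (hf : IsHPB f) (n : ℕ) : IsHPB (fun z => f z ^ n) := by
  induction n with
  | zero => simpa using qring_isHPB_const 1
  | succ n ih =>
    have := ih.mul hf
    convert this using 1
    funext z
    simp only [Pi.mul_apply, pow_succ]

theorem bridge_isHPB_raise {f : ℍ → ℂ} {m : ℕ} (h : IsHPB (fun z => f z * Δ z ^ m)) (k : ℕ) :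
    IsHPB (fun z => f z * Δ z ^ (m + k)) := by
  have := h.mul (bridge_isHPB_pow bridge_isHPB_discriminant k)
  convert this using 1
  funext z
  simp only [Pi.mul_apply, pow_add]
  ring

theorem IsHPB.isMerInf {f : ℍ → ℂ} (hf : IsHPB f) : IsMerInf f :=
  ⟨0, by simpa using hf⟩

theorem IsModFun.isMerInf {N : ℕ} [NeZero N] {f : ℍ → ℂ} (hf : IsModFun N f) : IsMerInf f := by
  obtain ⟨m, hm⟩ := hf
  exact ⟨m, hm.isHPB⟩

theorem isMerInf_const (c : ℂ) : IsMerInf (fun _ => c) :=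
  IsHPB.isMerInf (qring_isHPB_const c)

theorem IsMerInf.add {f g : ℍ → ℂ} (hf : IsMerInf f) (hg : IsMerInf g) : IsMerInf (f + g) := by
  obtain ⟨m, hm⟩ := hf
  obtain ⟨n, hn⟩ := hg
  refine ⟨m + n, ?_⟩
  have h1 := bridge_isHPB_raise hm n
  have h2 := bridge_isHPB_raise hn m
  have := h1.add h2
  convert this using 1
  funext z
  simp only [Pi.add_apply, add_comm n m]
  ring

theorem IsMerInf.mul {f g : ℍ → ℂ} (hf : IsMerInf f) (hg : IsMerInf g) : IsMerInf (f * g) := by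
  obtain ⟨m, hm⟩ := hf
  obtain ⟨n, hn⟩ := hg
  refine ⟨m + n, ?_⟩
  have := hm.mul hn
  convert this using 1
  funext z
  simp only [Pi.mul_apply, pow_add]
  ring

/-- The subalgebra of functions holomorphic on `ℍ`, periodic and meromorphic at `i∞`. -/
def merInf : Subalgebra ℂ (ℍ → ℂ) where
  carrier := {f | IsMerInf f}
  mul_mem' := fun hf hg => IsMerInf.mul hf hg
  add_mem' := fun hf hg => IsMerInf.add hf hg
  algebraMap_mem' := fun c => isMerInf_const c

theorem mem_merInf {f : ℍ → ℂ} : f ∈ merInf ↔ IsMerInf f := Iff.rfl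

/-! ### The Laurent expansion -/

open Classical in
/-- The Laurent expansion at `i∞` of a function meromorphic at `i∞` (and `0` for other
functions). -/
def laurentOf (f : ℍ → ℂ) : LaurentSeries ℂ :=
  if h : IsMerInf f then
    HahnSeries.ofPowerSeries ℤ ℂ (qExpansion 1 (fun z => f z * Δ z ^ h.choose)) *
      (deltaL ^ h.choose)⁻¹
  else 0

theorem bridge_ofPowerSeries_mul {f g : ℍ → ℂ} (hf : IsHPB f) (hg : IsHPB g) :
    HahnSeries.ofPowerSeries ℤ ℂ (qExpansion 1 (fun z => f z * g z)) =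
      HahnSeries.ofPowerSeries ℤ ℂ (qExpansion 1 f) * HahnSeries.ofPowerSeries ℤ ℂ (qExpansion 1 g) := by
  rw [← map_mul]
  congr 1
  exact qExpansion_mul hf.analyticAt hg.analyticAt

theorem bridge_ofPowerSeries_add {f g : ℍ → ℂ} (hf : IsHPB f) (hg : IsHPB g) :
    HahnSeries.ofPowerSeries ℤ ℂ (qExpansion 1 (fun z => f z + g z)) =
      HahnSeries.ofPowerSeries ℤ ℂ (qExpansion 1 f) + HahnSeries.ofPowerSeries ℤ ℂ (qExpansion 1 g) := by
  rw [← map_add]
  congr 1
  exact qExpansion_add hf.analyticAt hg.analyticAt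

theorem bridge_ofPowerSeries_pow {f : ℍ → ℂ} (hf : IsHPB f) (n : ℕ) :
    HahnSeries.ofPowerSeries ℤ ℂ (qExpansion 1 (fun z => f z ^ n)) =
      HahnSeries.ofPowerSeries ℤ ℂ (qExpansion 1 f) ^ n := by
  induction n with
  | zero =>
    simp only [pow_zero]
    have : qExpansion 1 (fun _ : ℍ => (1 : ℂ)) = 1 := qExpansion_one 1
    rw [this, map_one]
  | succ n ih =>
    have h := bridge_ofPowerSeries_mul (bridge_isHPB_pow hf n) hf
    simp only [pow_succ]
    rw [h, ih]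

theorem bridge_ofPowerSeries_raise {f : ℍ → ℂ} {m : ℕ} (h : IsHPB (fun z => f z * Δ z ^ m))
    (k : ℕ) :
    HahnSeries.ofPowerSeries ℤ ℂ (qExpansion 1 (fun z => f z * Δ z ^ (m + k))) =
      HahnSeries.ofPowerSeries ℤ ℂ (qExpansion 1 (fun z => f z * Δ z ^ m)) * deltaL ^ k := by
  have h1 := bridge_ofPowerSeries_mul h (bridge_isHPB_pow bridge_isHPB_discriminant k)
  rw [bridge_ofPowerSeries_pow bridge_isHPB_discriminant, bridge_ofPowerSeries_discriminant] at h1
  rw [← h1]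
  congr 2
  funext z
  rw [pow_add]
  ring

/-- The Laurent expansion can be computed with any admissible exponent `m`. -/
theorem laurentOf_eq {f : ℍ → ℂ} {m : ℕ} (h : IsHPB (fun z => f z * Δ z ^ m)) :
    laurentOf f =
      HahnSeries.ofPowerSeries ℤ ℂ (qExpansion 1 (fun z => f z * Δ z ^ m)) * (deltaL ^ m)⁻¹ := by
  have hf : IsMerInf f := ⟨m, h⟩
  rw [laurentOf, dif_pos hf]
  have h0 := hf.choose_spec
  set m₀ := hf.choose
  have e1 := bridge_ofPowerSeries_raise h0 m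
  have e2 := bridge_ofPowerSeries_raise h m₀
  rw [add_comm m m₀, e1] at e2
  have hD : ∀ k : ℕ, deltaL ^ k ≠ 0 := fun k => pow_ne_zero k deltaL_ne_zero
  rw [eq_mul_inv_iff_mul_eq₀ (hD m), mul_assoc, mul_comm _ (deltaL ^ m), ← mul_assoc, e2,
    mul_assoc, mul_inv_cancel₀ (hD m₀), mul_one]

theorem laurentOf_of_isHPB {f : ℍ → ℂ} (hf : IsHPB f) :
    laurentOf f = HahnSeries.ofPowerSeries ℤ ℂ (qExpansion 1 f) := by
  have h : IsHPB (fun z => f z * Δ z ^ 0) := by simpa using hf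
  rw [laurentOf_eq h]
  simp

theorem laurentOf_mul_deltaL_pow {f : ℍ → ℂ} {m : ℕ} (h : IsHPB (fun z => f z * Δ z ^ m)) :
    laurentOf f * deltaL ^ m =
      HahnSeries.ofPowerSeries ℤ ℂ (qExpansion 1 (fun z => f z * Δ z ^ m)) := by
  rw [laurentOf_eq h, mul_assoc, inv_mul_cancel₀ (pow_ne_zero m deltaL_ne_zero), mul_one]

theorem laurentOf_const (c : ℂ) : laurentOf (fun _ => c) = HahnSeries.C c := by
  rw [laurentOf_of_isHPB (qring_isHPB_const c)]
  have := bridge_L_algebraMap c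
  rw [bridge_L_apply] at this
  convert this using 3
  funext z
  simp [Algebra.algebraMap_eq_smul_one]

theorem laurentOf_add {f g : ℍ → ℂ} (hf : IsMerInf f) (hg : IsMerInf g) :
    laurentOf (f + g) = laurentOf f + laurentOf g := by
  obtain ⟨m, hm⟩ := hf
  obtain ⟨n, hn⟩ := hg
  have h1 := bridge_isHPB_raise hm n
  have h2 := bridge_isHPB_raise hn m
  have h3 : IsHPB (fun z => (f + g) z * Δ z ^ (m + n)) := by
    have := h1.add h2
    convert this using 1
    funext z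
    simp only [Pi.add_apply, add_comm n m]
    ring
  have hD : deltaL ^ (m + n) ≠ 0 := pow_ne_zero _ deltaL_ne_zero
  apply mul_right_cancel₀ hD
  rw [laurentOf_mul_deltaL_pow h3, add_mul]
  have e1 : laurentOf f * deltaL ^ (m + n) =
      HahnSeries.ofPowerSeries ℤ ℂ (qExpansion 1 (fun z => f z * Δ z ^ (m + n))) :=
    laurentOf_mul_deltaL_pow h1
  have e2 : laurentOf g * deltaL ^ (m + n) =
      HahnSeries.ofPowerSeries ℤ ℂ (qExpansion 1 (fun z => g z * Δ z ^ (n + m))) := by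
    rw [add_comm m n]
    exact laurentOf_mul_deltaL_pow h2
  rw [e1, e2, ← bridge_ofPowerSeries_add h1 h2]
  congr 2
  funext z
  simp only [Pi.add_apply, add_comm n m]
  ring

theorem laurentOf_mul {f g : ℍ → ℂ} (hf : IsMerInf f) (hg : IsMerInf g) :
    laurentOf (f * g) = laurentOf f * laurentOf g := by
  obtain ⟨m, hm⟩ := hf
  obtain ⟨n, hn⟩ := hg
  have h3 : IsHPB (fun z => (f * g) z * Δ z ^ (m + n)) := by
    have := hm.mul hn
    convert this using 1
    funext z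
    simp only [Pi.mul_apply, pow_add]
    ring
  have hD : deltaL ^ (m + n) ≠ 0 := pow_ne_zero _ deltaL_ne_zero
  apply mul_right_cancel₀ hD
  rw [laurentOf_mul_deltaL_pow h3, pow_add,
    show laurentOf f * laurentOf g * (deltaL ^ m * deltaL ^ n) =
      (laurentOf f * deltaL ^ m) * (laurentOf g * deltaL ^ n) by ring,
    laurentOf_mul_deltaL_pow hm, laurentOf_mul_deltaL_pow hn, ← bridge_ofPowerSeries_mul hm hn]
  congr 2
  funext z
  simp only [Pi.mul_apply, pow_add]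
  ring

theorem laurentOf_one : laurentOf (1 : ℍ → ℂ) = 1 := by
  have h := laurentOf_const 1
  rw [map_one] at h
  exact h

theorem laurentOf_zero : laurentOf (0 : ℍ → ℂ) = 0 := by
  have h := laurentOf_const 0
  rw [map_zero] at h
  exact h

/-- The Laurent expansion at `i∞`, as an algebra homomorphism. -/
def laurentExp : merInf →ₐ[ℂ] LaurentSeries ℂ where
  toFun f := laurentOf (f : ℍ → ℂ)
  map_one' := laurentOf_one
  map_mul' f g := laurentOf_mul f.2 g.2
  map_zero' := laurentOf_zero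
  map_add' f g := laurentOf_add f.2 g.2
  commutes' c := by
    have h := laurentOf_const c
    rw [ModularCurve.algebraMap_laurentSeries_eq_single, ← HahnSeries.C_apply]
    convert h using 2
    funext z
    simp [Algebra.algebraMap_eq_smul_one]

@[simp] theorem laurentExp_apply (f : merInf) : laurentExp f = laurentOf (f : ℍ → ℂ) := rfl

theorem laurentOf_eq_zero_iff {f : ℍ → ℂ} (hf : IsMerInf f) : laurentOf f = 0 ↔ f = 0 := by
  constructor
  · intro h
    obtain ⟨m, hm⟩ := hf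
    have h1 := laurentOf_mul_deltaL_pow hm
    rw [h, zero_mul] at h1
    have h0 : qExpansion 1 (fun z => f z * Δ z ^ m) = 0 :=
      HahnSeries.ofPowerSeries_injective (by rw [← h1, map_zero])
    have h2 := (qExpansion_eq_zero_iff one_pos hm.2.1 hm.1 hm.2.2).mp h0
    funext z
    have h3 := congrFun h2 z
    simp only [Pi.zero_apply] at h3
    rcases mul_eq_zero.mp h3 with h4 | h4
    · exact h4
    · exact absurd h4 (pow_ne_zero m (discriminant_ne_zero z))
  · rintro rfl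
    exact laurentOf_zero

theorem laurentExp_injective : Function.Injective laurentExp := by
  rw [injective_iff_map_eq_zero]
  intro f hf
  exact Subtype.ext ((laurentOf_eq_zero_iff f.2).mp hf)

/-- Transfer of identities: equal functions have equal expansions (trivial), and conversely. -/
theorem laurentOf_injective {f g : ℍ → ℂ} (hf : IsMerInf f) (hg : IsMerInf g)
    (h : laurentOf f = laurentOf g) : f = g := by
  have := @laurentExp_injective ⟨f, hf⟩ ⟨g, hg⟩ h
  exact congrArg Subtype.val this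

/-! ### Special values -/

theorem isMerInf_discriminant : IsMerInf (Δ : ℍ → ℂ) := IsHPB.isMerInf bridge_isHPB_discriminant

theorem laurentOf_discriminant : laurentOf (Δ : ℍ → ℂ) = deltaL := by
  rw [laurentOf_of_isHPB bridge_isHPB_discriminant, bridge_ofPowerSeries_discriminant]

theorem bridge_isHPB_E4 : IsHPB (E₄ : ℍ → ℂ) := by
  have h : IsMF (G0 1) 4 (E₄ : ℍ → ℂ) := IsMF.of_levelOne ⟨E₄, rfl⟩
  exact h.isHPB

theorem laurentOf_E4 : laurentOf (E₄ : ℍ → ℂ) =
    HahnSeries.ofPowerSeries ℤ ℂ (ModularCurve.eisenstein4.map (Int.castRingHom ℂ)) := by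
  rw [laurentOf_of_isHPB bridge_isHPB_E4, qExpansion_E₄_eq]

theorem bridge_Jfun_mul (z : ℍ) : Jfun z * Δ z ^ 1 = E₄ z ^ 3 := by
  rw [pow_one, Jfun_def, div_mul_cancel₀ _ (discriminant_ne_zero z)]

theorem isMerInf_Jfun : IsMerInf Jfun := by
  refine ⟨1, ?_⟩
  have h := bridge_isHPB_pow bridge_isHPB_E4 3
  convert h using 1
  funext z
  exact bridge_Jfun_mul z

/-- the formal `j`-invariant times the formal discriminant is `E₄³`. -/
theorem bridge_jq_mul_deltaL :
    ModularCurve.jqModC ℂ * deltaL =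
      HahnSeries.ofPowerSeries ℤ ℂ (ModularCurve.eisenstein4.map (Int.castRingHom ℂ)) ^ 3 := by
  rw [ModularCurve.jqModC, deltaL]
  have h1 : (HahnSeries.single (-1 : ℤ) (1 : ℂ)) * HahnSeries.single (1 : ℤ) (1 : ℂ) = 1 := by
    rw [HahnSeries.single_mul_single]
    simp
  have h2 : ModularCurve.jNum * ModularCurve.dedekindEtaUnit = ModularCurve.eisenstein4 ^ 3 := by
    rw [ModularCurve.jNum, mul_assoc, mul_comm ModularCurve.dedekindEtaUnitInv,
      ModularCurve.dedekindEtaUnit_mul_inv, mul_one]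
  calc HahnSeries.single (-1 : ℤ) (1 : ℂ) *
        HahnSeries.ofPowerSeries ℤ ℂ (ModularCurve.jNum.map (Int.castRingHom ℂ)) *
      (HahnSeries.single (1 : ℤ) (1 : ℂ) *
        HahnSeries.ofPowerSeries ℤ ℂ (ModularCurve.dedekindEtaUnit.map (Int.castRingHom ℂ)))
      = (HahnSeries.single (-1 : ℤ) (1 : ℂ) * HahnSeries.single (1 : ℤ) (1 : ℂ)) *
        (HahnSeries.ofPowerSeries ℤ ℂ (ModularCurve.jNum.map (Int.castRingHom ℂ)) *
          HahnSeries.ofPowerSeries ℤ ℂ (ModularCurve.dedekindEtaUnit.map (Int.castRingHom ℂ))) := by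
        ring
    _ = HahnSeries.ofPowerSeries ℤ ℂ (ModularCurve.eisenstein4.map (Int.castRingHom ℂ)) ^ 3 := by
        rw [h1, one_mul, ← map_mul, ← map_mul, h2, map_pow, map_pow]

theorem laurentOf_Jfun : laurentOf Jfun = ModularCurve.jqModC ℂ := by
  have hJ : IsHPB (fun z => Jfun z * Δ z ^ 1) := by
    have h := bridge_isHPB_pow bridge_isHPB_E4 3
    convert h using 1
    funext z
    exact bridge_Jfun_mul z
  have h1 := laurentOf_mul_deltaL_pow hJ
  have h2 : (fun z => Jfun z * Δ z ^ 1) = fun z => (E₄ : ℍ → ℂ) z ^ 3 := by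
    funext z
    exact bridge_Jfun_mul z
  rw [h2, bridge_ofPowerSeries_pow bridge_isHPB_E4, qExpansion_E₄_eq, pow_one,
    ← bridge_jq_mul_deltaL] at h1
  exact mul_right_cancel₀ deltaL_ne_zero h1

/-! ### Compatibility with `τ ↦ N τ` -/

theorem bridge_isHPB_thetaFun (N : ℕ) [NeZero N] : IsHPB (thetaFun N) := (isMF_thetaFun N).isHPB

theorem bridge_comp_scaleN_mul (N : ℕ) [NeZero N] (f : ℍ → ℂ) (m : ℕ) (z : ℍ) :
    f (scaleN N z) * Δ z ^ (N * m) =
      (f (scaleN N z) * Δ (scaleN N z) ^ m) * thetaFun N z ^ m := by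
  have h : Δ (scaleN N z) ≠ 0 := discriminant_ne_zero _
  simp only [thetaFun]
  rw [div_pow, pow_mul]
  field_simp

theorem bridge_isHPB_comp_scaleN_mul (N : ℕ) [NeZero N] {f : ℍ → ℂ} {m : ℕ}
    (hm : IsHPB (fun z => f z * Δ z ^ m)) :
    IsHPB (fun z => f (scaleN N z) * Δ z ^ (N * m)) := by
  have h1 := bridge_isHPB_comp_scaleN N hm
  have h2 := bridge_isHPB_pow (bridge_isHPB_thetaFun N) m
  have := h1.mul h2
  convert this using 1
  funext z
  exact bridge_comp_scaleN_mul N f m z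

theorem isMerInf_comp_scaleN (N : ℕ) [NeZero N] {f : ℍ → ℂ} (hf : IsMerInf f) :
    IsMerInf (fun z => f (scaleN N z)) := by
  obtain ⟨m, hm⟩ := hf
  exact ⟨N * m, bridge_isHPB_comp_scaleN_mul N hm⟩

/-- `Θ_N · Δ(N ·) = Δ ^ N` on Laurent series. -/
theorem bridge_thetaL_mul (N : ℕ) [NeZero N] :
    HahnSeries.ofPowerSeries ℤ ℂ (qExpansion 1 (thetaFun N)) * ModularCurve.qExpand ℂ N deltaL =
      deltaL ^ N := by
  have h1 := bridge_ofPowerSeries_mul (bridge_isHPB_thetaFun N)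
    (bridge_isHPB_comp_scaleN N bridge_isHPB_discriminant)
  rw [bridge_ofPowerSeries_comp_scaleN N bridge_isHPB_discriminant,
    bridge_ofPowerSeries_discriminant] at h1
  rw [← h1, ← bridge_ofPowerSeries_discriminant,
    ← bridge_ofPowerSeries_pow bridge_isHPB_discriminant]
  congr 2
  funext z
  simp only [thetaFun]
  exact div_mul_cancel₀ _ (discriminant_ne_zero _)

/-- The Laurent expansion of `τ ↦ f (N τ)` is `qExpand N` of the Laurent expansion of `f`. -/
theorem laurentOf_comp_scaleN (N : ℕ) [NeZero N] {f : ℍ → ℂ} (hf : IsMerInf f) :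
    laurentOf (fun z => f (scaleN N z)) = ModularCurve.qExpand ℂ N (laurentOf f) := by
  obtain ⟨m, hm⟩ := hf
  have hD : deltaL ^ (N * m) ≠ 0 := pow_ne_zero _ deltaL_ne_zero
  apply mul_right_cancel₀ hD
  rw [laurentOf_mul_deltaL_pow (bridge_isHPB_comp_scaleN_mul N hm)]
  have e1 : (fun z => f (scaleN N z) * Δ z ^ (N * m)) =
      fun z => (fun w => f w * Δ w ^ m) (scaleN N z) * (fun w => thetaFun N w ^ m) z := by
    funext z
    exact bridge_comp_scaleN_mul N f m z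
  rw [e1, bridge_ofPowerSeries_mul (bridge_isHPB_comp_scaleN N hm)
    (bridge_isHPB_pow (bridge_isHPB_thetaFun N) m),
    bridge_ofPowerSeries_comp_scaleN N hm, bridge_ofPowerSeries_pow (bridge_isHPB_thetaFun N),
    ← laurentOf_mul_deltaL_pow hm, map_mul, map_pow, mul_assoc, ← mul_pow,
    mul_comm (ModularCurve.qExpand ℂ N deltaL), bridge_thetaL_mul, ← pow_mul]

theorem laurentOf_Jfun_scaleN (N : ℕ) [NeZero N] :
    laurentOf (fun z => Jfun (scaleN N z)) = ModularCurve.jqNModC ℂ N := by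
  rw [laurentOf_comp_scaleN N isMerInf_Jfun, laurentOf_Jfun]
  rfl

theorem laurentOf_discriminant_scaleN (N : ℕ) [NeZero N] :
    laurentOf (fun z => Δ (scaleN N z)) = ModularCurve.qExpand ℂ N deltaL := by
  rw [laurentOf_comp_scaleN N isMerInf_discriminant, laurentOf_discriminant]

theorem qExpand_deltaL_ne_zero (N : ℕ) [NeZero N] : ModularCurve.qExpand ℂ N deltaL ≠ 0 := by
  intro h
  apply deltaL_ne_zero
  apply ModularCurve.qExpand_injective (R := ℂ) N
  rw [h, map_zero]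

/-- The Laurent expansion of the modular unit `Δ(Nτ)/Δ(τ)`. -/
theorem laurentOf_unit (N : ℕ) [NeZero N] :
    laurentOf (fun z => Δ (scaleN N z) / Δ z) = ModularCurve.qExpand ℂ N deltaL * deltaL⁻¹ := by
  have h1 : IsMerInf (fun z => Δ (scaleN N z) / Δ z) := (isModFun_unit N).isMerInf
  have h2 := laurentOf_mul h1 isMerInf_discriminant
  have e : ((fun z => Δ (scaleN N z) / Δ z) * (Δ : ℍ → ℂ)) = fun z => Δ (scaleN N z) := by
    funext z
    simp only [Pi.mul_apply]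
    exact div_mul_cancel₀ _ (discriminant_ne_zero z)
  rw [e, laurentOf_discriminant_scaleN, laurentOf_discriminant] at h2
  rw [eq_mul_inv_iff_mul_eq₀ deltaL_ne_zero]
  exact h2.symm

/-- The Laurent expansion of the inverse modular unit `Δ(τ)/Δ(Nτ)`. -/
theorem laurentOf_unit_inv (N : ℕ) [NeZero N] :
    laurentOf (fun z => Δ z / Δ (scaleN N z)) = deltaL * (ModularCurve.qExpand ℂ N deltaL)⁻¹ := by
  have h1 : IsMerInf (fun z => Δ z / Δ (scaleN N z)) := (isModFun_unit_inv N).isMerInf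
  have h2 := laurentOf_mul h1 (isMerInf_comp_scaleN N isMerInf_discriminant)
  have e : ((fun z => Δ z / Δ (scaleN N z)) * (fun z => Δ (scaleN N z))) = (Δ : ℍ → ℂ) := by
    funext z
    simp only [Pi.mul_apply]
    exact div_mul_cancel₀ _ (discriminant_ne_zero _)
  rw [e, laurentOf_discriminant_scaleN, laurentOf_discriminant] at h2
  rw [eq_mul_inv_iff_mul_eq₀ (qExpand_deltaL_ne_zero N)]
  exact h2.symm

/-! ### Transfer of polynomial relations -/

theorem laurentOf_smul (c : ℂ) {f : ℍ → ℂ} (hf : IsMerInf f) :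
    laurentOf (c • f) = HahnSeries.C c * laurentOf f := by
  have h := laurentOf_mul (isMerInf_const c) hf
  rw [laurentOf_const] at h
  rw [← h]
  congr 1

theorem laurentOf_pow {f : ℍ → ℂ} (hf : IsMerInf f) (n : ℕ) :
    laurentOf (f ^ n) = laurentOf f ^ n :=
  map_pow laurentExp (⟨f, hf⟩ : merInf) n

open Polynomial in
/-- A polynomial relation `Φ(f, g) = 0` between functions (`Φ ∈ ℂ[Y][X]`, `X ↦ f`, `Y ↦ g`)
gives the same relation between the Laurent expansions. -/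
theorem laurentExp_eval₂ (Φ : (ℂ[X])[X]) (f g : merInf)
    (h : ∀ τ, Φ.eval₂ (Polynomial.evalRingHom ((g : ℍ → ℂ) τ)) ((f : ℍ → ℂ) τ) = 0) :
    Φ.eval₂ (Polynomial.aeval (laurentExp g)).toRingHom (laurentExp f) = 0 := by
  have hF : Φ.eval₂ (Polynomial.aeval (R := ℂ) g).toRingHom f = 0 := by
    apply Subtype.ext
    funext τ
    let ev : merInf →+* ℂ := (Pi.evalRingHom (fun _ : ℍ => ℂ) τ).comp merInf.val.toRingHom
    have h1 : ev (Φ.eval₂ (Polynomial.aeval (R := ℂ) g).toRingHom f) =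
        Φ.eval₂ (ev.comp (Polynomial.aeval (R := ℂ) g).toRingHom) (ev f) :=
      Polynomial.hom_eval₂ _ _ _ _
    have h2 : ev.comp (Polynomial.aeval (R := ℂ) g).toRingHom =
        Polynomial.evalRingHom ((g : ℍ → ℂ) τ) := by
      apply Polynomial.ringHom_ext
      · intro a
        simp [ev, Algebra.algebraMap_eq_smul_one]
      · simp [ev]
    rw [h2] at h1
    exact h1.trans (h τ)
  have h3 := congrArg laurentExp hF
  rw [map_zero] at h3
  have h4 : laurentExp.toRingHom (Φ.eval₂ (Polynomial.aeval (R := ℂ) g).toRingHom f) =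
      Φ.eval₂ (laurentExp.toRingHom.comp (Polynomial.aeval (R := ℂ) g).toRingHom)
        (laurentExp.toRingHom f) := Polynomial.hom_eval₂ _ _ _ _
  have h5 : laurentExp.toRingHom.comp (Polynomial.aeval (R := ℂ) g).toRingHom =
      (Polynomial.aeval (R := ℂ) (laurentExp g)).toRingHom := by
    apply Polynomial.ringHom_ext
    · intro a
      simp
    · simp
  rw [h5] at h4
  exact h4.symm.trans h3

open Polynomial in
/-- Function form of `laurentExp_eval₂`. -/
theorem laurentOf_eval₂ (Φ : (ℂ[X])[X]) {f g : ℍ → ℂ} (hf : IsMerInf f) (hg : IsMerInf g)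
    (h : ∀ τ, Φ.eval₂ (Polynomial.evalRingHom (g τ)) (f τ) = 0) :
    Φ.eval₂ (Polynomial.aeval (laurentOf g)).toRingHom (laurentOf f) = 0 :=
  laurentExp_eval₂ Φ ⟨f, hf⟩ ⟨g, hg⟩ h

end Fermat.Agent.S28

end
end ZBS20_001_3

/-! ### bundled: `Fermat.Agent.S28.Fricke` -/
section ZBS20_001_4

/-!
# S28 — the Fricke substitution `τ ↦ -1/(Nτ)` and the analytic modular equation

* `fricke N τ = S • (N τ) = -1/(Nτ)`; `scaleN_fricke : N · fricke N τ = S • τ`; `fricke_fricke`.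
* `Jfun_fricke : J(fricke N τ) = J(Nτ)`, `Jfun_scaleN_fricke : J(N · fricke N τ) = J(τ)`.
* `unit_fricke : Δ(N·w)/Δ(w) = N^(-12) · Δ(τ)/Δ(Nτ)` for `w = fricke N τ`.
* `fricke_transfer` : a polynomial relation `Φ(f(τ), J(τ)) = 0` gives `Φ(f(w τ), J(Nτ)) = 0`.
* `modEq_analytic` : the modular equation `Φ(J(pτ), J(τ)) = 0 = Φ(J(τ), J(pτ))`, `Φ` monic of
  degree `p + 1` over `ℂ[Y]`.
* `Jfun_scaleN_not_poly` : `J(Nτ)` is not a polynomial in `J(τ)` (`N ≥ 2`).
-/

set_option autoImplicit false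

noncomputable section

namespace Fermat.Agent.S28

open UpperHalfPlane ModularForm SlashInvariantForm Polynomial Filter
open Fermat.Agent.S23 Fermat.Agent.S24
open scoped MatrixGroups ModularForm Manifold Topology

local notation "Δ" => ModularForm.discriminant
local notation "𝕢" => Function.Periodic.qParam

/-- The Fricke substitution `τ ↦ -1/(Nτ)`. -/
def fricke (N : ℕ) [NeZero N] (τ : ℍ) : ℍ := ModularGroup.S • scaleN N τ

theorem coe_S_smul (z : ℍ) : ((ModularGroup.S • z : ℍ) : ℂ) = (-(z : ℂ))⁻¹ := by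
  rw [UpperHalfPlane.modular_S_smul]

theorem coe_fricke (N : ℕ) [NeZero N] (τ : ℍ) :
    ((fricke N τ : ℍ) : ℂ) = (-((N : ℂ) * (τ : ℂ)))⁻¹ := by
  rw [fricke, coe_S_smul, coe_scaleN]

theorem scaleN_fricke (N : ℕ) [NeZero N] (τ : ℍ) :
    scaleN N (fricke N τ) = ModularGroup.S • τ := by
  apply UpperHalfPlane.ext
  have hN : (N : ℂ) ≠ 0 := by exact_mod_cast NeZero.ne N
  have hτ : (τ : ℂ) ≠ 0 := UpperHalfPlane.ne_zero τ
  rw [coe_scaleN, coe_fricke, coe_S_smul]
  field_simp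

theorem fricke_fricke (N : ℕ) [NeZero N] (τ : ℍ) : fricke N (fricke N τ) = τ := by
  apply UpperHalfPlane.ext
  have hN : (N : ℂ) ≠ 0 := by exact_mod_cast NeZero.ne N
  have hτ : (τ : ℂ) ≠ 0 := UpperHalfPlane.ne_zero τ
  rw [coe_fricke, coe_fricke]
  field_simp

theorem S_smul_S_smul (τ : ℍ) : ModularGroup.S • (ModularGroup.S • τ) = τ := by
  apply UpperHalfPlane.ext
  have hτ : (τ : ℂ) ≠ 0 := UpperHalfPlane.ne_zero τ
  rw [coe_S_smul, coe_S_smul]
  field_simp

theorem S_smul_fricke (N : ℕ) [NeZero N] (τ : ℍ) :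
    ModularGroup.S • fricke N τ = scaleN N τ := by
  rw [fricke, S_smul_S_smul]

theorem Jfun_fricke (N : ℕ) [NeZero N] (τ : ℍ) : Jfun (fricke N τ) = Jfun (scaleN N τ) := by
  rw [fricke, Jfun_smul]

theorem Jfun_scaleN_fricke (N : ℕ) [NeZero N] (τ : ℍ) :
    Jfun (scaleN N (fricke N τ)) = Jfun τ := by
  rw [scaleN_fricke, Jfun_smul]

/-- `Δ(-1/z) = z^12 Δ(z)`. -/
theorem discriminant_S_smul (z : ℍ) : Δ (ModularGroup.S • z) = (z : ℂ) ^ 12 * Δ z := by
  have h := P8_discriminant_smul ModularGroup.S z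
  rw [h]
  simp [ModularGroup.S]

/-- The modular unit `Δ(Nτ)/Δ(τ)` is inverted (up to `N^(-12)`) by the Fricke substitution. -/
theorem unit_fricke (N : ℕ) [NeZero N] (τ : ℍ) :
    Δ (scaleN N (fricke N τ)) / Δ (fricke N τ) =
      ((N : ℂ) ^ 12)⁻¹ * (Δ τ / Δ (scaleN N τ)) := by
  have hN : (N : ℂ) ≠ 0 := by exact_mod_cast NeZero.ne N
  have hτ : (τ : ℂ) ≠ 0 := UpperHalfPlane.ne_zero τ
  have h1 : Δ τ ≠ 0 := discriminant_ne_zero τ
  have h2 : Δ (scaleN N τ) ≠ 0 := discriminant_ne_zero _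
  rw [scaleN_fricke, fricke, discriminant_S_smul, discriminant_S_smul, coe_scaleN]
  field_simp

/-- **Fricke transfer**: a relation `Φ(f(τ), J(τ)) = 0` on `ℍ` gives
`Φ(f(-1/(Nτ)), J(Nτ)) = 0` on `ℍ`. -/
theorem fricke_transfer (N : ℕ) [NeZero N] (f : ℍ → ℂ) (Φ : (ℂ[X])[X])
    (h : ∀ τ : ℍ, Φ.eval₂ (evalRingHom (Jfun τ)) (f τ) = 0) (τ : ℍ) :
    Φ.eval₂ (evalRingHom (Jfun (scaleN N τ))) (f (fricke N τ)) = 0 := by
  have := h (fricke N τ)
  rwa [Jfun_fricke] at this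

/-- **The modular equation (analytic form)**: there is `Φ ∈ ℂ[Y][X]`, monic of degree `p + 1`
in `X`, with `Φ(J(pτ), J(τ)) = 0` and `Φ(J(τ), J(pτ)) = 0`. -/
theorem modEq_analytic (p : ℕ) [NeZero p] (hp : p.Prime) :
    ∃ Φ : (ℂ[X])[X], Φ.Monic ∧ Φ.natDegree = p + 1 ∧
      (∀ τ : ℍ, Φ.eval₂ (evalRingHom (Jfun τ)) (Jfun (scaleN p τ)) = 0) ∧
      (∀ τ : ℍ, Φ.eval₂ (evalRingHom (Jfun (scaleN p τ))) (Jfun τ) = 0) := by
  obtain ⟨Φ, hmonic, hdeg, hΦ⟩ := (isModFun_Jfun_scaleN p).exists_normPoly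
  refine ⟨Φ, hmonic, by rw [hdeg, cosetCard_prime hp], hΦ, fun τ => ?_⟩
  have := fricke_transfer p (fun z => Jfun (scaleN p z)) Φ hΦ τ
  rwa [Jfun_scaleN_fricke] at this

theorem qParam_scaleN (N : ℕ) [NeZero N] (z : ℍ) :
    𝕢 1 (scaleN N z : ℂ) = 𝕢 1 (z : ℂ) ^ N := P7_qParam_scaleN N z

/-- `J(Mτ) = J(τ)` for all `τ` is impossible for `M ≥ 2`. -/
theorem Jfun_scaleN_ne (M : ℕ) [NeZero M] (hM : 2 ≤ M) :
    ¬ ∀ τ : ℍ, Jfun (scaleN M τ) = Jfun τ := by
  intro h
  have h1 : Tendsto (fun τ : ℍ => 𝕢 1 τ * Jfun τ) atImInfty (𝓝 1) := tendsto_qParam_mul_Jfun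
  have h2 : Tendsto (fun τ : ℍ => 𝕢 1 (scaleN M τ) * Jfun (scaleN M τ)) atImInfty (𝓝 1) :=
    h1.comp (P7_tendsto_scaleN_atImInfty M)
  have hq : Tendsto (fun τ : ℍ => 𝕢 1 (τ : ℂ)) atImInfty (𝓝 0) :=
    UpperHalfPlane.qParam_tendsto_atImInfty one_pos
  have hq' : Tendsto (fun τ : ℍ => 𝕢 1 (τ : ℂ) ^ (M - 1)) atImInfty (𝓝 0) := by
    have := hq.pow (M - 1)
    rwa [zero_pow (by omega)] at this
  have h3 : Tendsto (fun τ : ℍ => 𝕢 1 (τ : ℂ) ^ (M - 1) * (𝕢 1 τ * Jfun τ)) atImInfty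
      (𝓝 (0 * 1)) := hq'.mul h1
  have e : (fun τ : ℍ => 𝕢 1 (scaleN M τ) * Jfun (scaleN M τ)) =
      fun τ : ℍ => 𝕢 1 (τ : ℂ) ^ (M - 1) * (𝕢 1 τ * Jfun τ) := by
    funext τ
    rw [qParam_scaleN, h τ, ← mul_assoc, ← pow_succ, Nat.sub_add_cancel (by omega)]
  rw [e] at h2
  rw [zero_mul] at h3
  exact zero_ne_one (tendsto_nhds_unique h3 h2)

/-- **(P3), analytic form**: `J(Nτ)` is not a polynomial in `J(τ)` (`N ≥ 2`). -/
theorem Jfun_scaleN_not_poly (N : ℕ) [NeZero N] (hN : 2 ≤ N) (P : ℂ[X]) :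
    ¬ ∀ τ : ℍ, Jfun (scaleN N τ) = P.eval (Jfun τ) := by
  intro h
  have : NeZero (N * N) := ⟨Nat.mul_ne_zero (NeZero.ne N) (NeZero.ne N)⟩
  refine Jfun_scaleN_ne (N * N) (by nlinarith) fun σ => ?_
  -- `J(N·(S•τ)) = J(Nτ)` for all `τ`
  have hS : ∀ τ : ℍ, Jfun (scaleN N (ModularGroup.S • τ)) = Jfun (scaleN N τ) := by
    intro τ
    rw [h, h, Jfun_smul]
  have h1 := hS (fricke N σ)
  rw [S_smul_fricke, Jfun_scaleN_fricke] at h1
  have e : scaleN (N * N) σ = scaleN N (scaleN N σ) := by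
    apply UpperHalfPlane.ext
    simp only [coe_scaleN]
    push_cast
    ring
  rw [e, h1]

end Fermat.Agent.S28

end
end ZBS20_001_4

/-! ### bundled: `Fermat.Agent.S28.ModEq` -/
section ZBS20_001_5

/-!
# S28 — the modular equation in Laurent form over `ℂ` ((P1) and (P3))

* `modEq_exists` : for `p` prime there is `Φ ∈ ℂ[Y][X]`, monic of degree `p + 1` in `X`, with
  `Φ(j(q^p), j(q)) = 0` and `Φ(j(q), j(q^p)) = 0` in `ℂ((q))`.
* `jp_not_poly` : `j(q^N)` is not a polynomial in `j(q)` over `ℂ` (`N ≥ 2`).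
* `jp_not_mem_adjoin` : `j(q^p) ∉ ℂ(j(q))` (`p` prime).
-/

set_option autoImplicit false

noncomputable section

namespace Fermat.Agent.S28

open UpperHalfPlane ModularForm Polynomial
open Fermat.Agent.S23 Fermat.Agent.S24
open scoped MatrixGroups ModularForm Manifold Topology

/-- **(P1)** the modular equation of prime level `p`, in Laurent form over `ℂ`. -/
theorem modEq_exists (p : ℕ) [NeZero p] (hp : p.Prime) :
    ∃ Φ : Polynomial (Polynomial ℂ), Φ.Monic ∧ Φ.natDegree = p + 1 ∧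
      Φ.eval₂ (Polynomial.aeval (ModularCurve.jqModC ℂ)).toRingHom
        (ModularCurve.qExpand ℂ p (ModularCurve.jqModC ℂ)) = 0 ∧
      Φ.eval₂ (Polynomial.aeval (ModularCurve.qExpand ℂ p (ModularCurve.jqModC ℂ))).toRingHom
        (ModularCurve.jqModC ℂ) = 0 := by
  obtain ⟨Φ, hmonic, hdeg, h1, h2⟩ := modEq_analytic p hp
  have hJ : IsMerInf Jfun := isMerInf_Jfun
  have hJp : IsMerInf (fun z => Jfun (scaleN p z)) := isMerInf_comp_scaleN p hJ
  have e1 : laurentOf Jfun = ModularCurve.jqModC ℂ := laurentOf_Jfun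
  have e2 : laurentOf (fun z => Jfun (scaleN p z)) =
      ModularCurve.qExpand ℂ p (ModularCurve.jqModC ℂ) := by
    rw [laurentOf_comp_scaleN p hJ, laurentOf_Jfun]
  refine ⟨Φ, hmonic, hdeg, ?_, ?_⟩
  · have := laurentOf_eval₂ Φ hJp hJ h1
    rwa [e1, e2] at this
  · have := laurentOf_eval₂ Φ hJ hJp h2
    rwa [e1, e2] at this

/-- **(P3)** `j(q^N)` is not a polynomial in `j(q)` (`N ≥ 2`), in Laurent form over `ℂ`. -/
theorem jp_not_poly (N : ℕ) [NeZero N] (hN : 2 ≤ N) (P : Polynomial ℂ) :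
    Polynomial.aeval (ModularCurve.jqModC ℂ) P ≠
      ModularCurve.qExpand ℂ N (ModularCurve.jqModC ℂ) := by
  intro h
  have hJ : IsMerInf Jfun := isMerInf_Jfun
  have hJp : IsMerInf (fun z => Jfun (scaleN N z)) := isMerInf_comp_scaleN N hJ
  have e1 : laurentOf Jfun = ModularCurve.jqModC ℂ := laurentOf_Jfun
  have e2 : laurentOf (fun z => Jfun (scaleN N z)) =
      ModularCurve.qExpand ℂ N (ModularCurve.jqModC ℂ) := by
    rw [laurentOf_comp_scaleN N hJ, laurentOf_Jfun]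
  -- the function `P(J)`
  have hPJ : IsMerInf (fun z => P.eval (Jfun z)) := by
    have : (Polynomial.aeval (⟨Jfun, hJ⟩ : merInf) P : merInf).1 = fun z => P.eval (Jfun z) := by
      funext z
      let ev : merInf →ₐ[ℂ] ℂ := (Pi.evalAlgHom ℂ (fun _ : ℍ => ℂ) z).comp merInf.val
      have h1 : ev (Polynomial.aeval (⟨Jfun, hJ⟩ : merInf) P) =
          Polynomial.aeval (ev ⟨Jfun, hJ⟩) P := (Polynomial.aeval_algHom_apply ev _ P).symm
      have h2 : ev ⟨Jfun, hJ⟩ = Jfun z := rfl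
      rw [h2] at h1
      rw [← Polynomial.coe_aeval_eq_eval]
      exact h1
    rw [← this]
    exact (Polynomial.aeval (⟨Jfun, hJ⟩ : merInf) P).2
  have e3 : laurentOf (fun z => P.eval (Jfun z)) =
      Polynomial.aeval (ModularCurve.jqModC ℂ) P := by
    have h1 : laurentExp (Polynomial.aeval (⟨Jfun, hJ⟩ : merInf) P) =
        Polynomial.aeval (laurentExp ⟨Jfun, hJ⟩) P := (Polynomial.aeval_algHom_apply laurentExp _ P).symm
    rw [laurentExp_apply, laurentExp_apply] at h1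
    have h2 : ((Polynomial.aeval (⟨Jfun, hJ⟩ : merInf) P : merInf) : ℍ → ℂ) =
        fun z => P.eval (Jfun z) := by
      funext z
      let ev : merInf →ₐ[ℂ] ℂ := (Pi.evalAlgHom ℂ (fun _ : ℍ => ℂ) z).comp merInf.val
      have h1 : ev (Polynomial.aeval (⟨Jfun, hJ⟩ : merInf) P) =
          Polynomial.aeval (ev ⟨Jfun, hJ⟩) P := (Polynomial.aeval_algHom_apply ev _ P).symm
      have h2 : ev ⟨Jfun, hJ⟩ = Jfun z := rfl
      rw [h2] at h1
      rw [← Polynomial.coe_aeval_eq_eval]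
      exact h1
    rw [h2] at h1
    rw [h1]
    show Polynomial.aeval (laurentOf Jfun) P = _
    rw [e1]
  have hfun : (fun z => Jfun (scaleN N z)) = fun z => P.eval (Jfun z) :=
    laurentOf_injective hJp hPJ (by rw [e2, e3, h])
  exact Jfun_scaleN_not_poly N hN P (fun τ => congrFun hfun τ)

end Fermat.Agent.S28

end
end ZBS20_001_5

/-! ### bundled: `Fermat.Agent.S34.ALAnalytic` -/
section ZBS20_001_6

/-!
# Atkin–Lehner at an exact prime divisor: the analytic substitution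

`N = q · M`, `gcd(q, M) = 1`, `q a - M b = 1`.  The substitution
`W τ = (q a τ + b) / (N τ + q) = γ₁ • (q τ)`, `γ₁ = [[a, b], [M, q]] ∈ SL₂(ℤ)`, satisfies for `d ∣ M`

* `alW_J_low  : J (d · W τ) = J (q d · τ)`,
* `alW_J_high : J (q d · W τ) = J (d · τ)`.
-/

set_option autoImplicit false
set_option linter.unusedSectionVars false

noncomputable section

namespace Fermat.Agent.AL

open UpperHalfPlane ModularForm
open Fermat.Agent.S23 Fermat.Agent.S24
open scoped MatrixGroups ModularForm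

/-- `γ₁ = [[a, b], [M, q]]`. -/
def alGamma1 (q M : ℕ) (a b : ℤ) (h : (q : ℤ) * a - (M : ℤ) * b = 1) : SL(2, ℤ) :=
  ⟨!![a, b; (M : ℤ), (q : ℤ)], by
    rw [Matrix.det_fin_two_of]; linear_combination h⟩

/-- `γ₂ = [[q a, b], [M, 1]]`. -/
def alGamma2 (q M : ℕ) (a b : ℤ) (h : (q : ℤ) * a - (M : ℤ) * b = 1) : SL(2, ℤ) :=
  ⟨!![(q : ℤ) * a, b; (M : ℤ), 1], by
    rw [Matrix.det_fin_two_of]; linear_combination h⟩

variable (q M : ℕ) [NeZero q] [NeZero M] (a b : ℤ) (h : (q : ℤ) * a - (M : ℤ) * b = 1)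

/-- The Atkin–Lehner substitution `τ ↦ γ₁ • (q τ)`. -/
def alW (τ : ℍ) : ℍ := alGamma1 q M a b h • scaleN q τ

theorem scaleN_scaleN (m n : ℕ) [NeZero m] [NeZero n] [NeZero (m * n)] (τ : ℍ) :
    scaleN m (scaleN n τ) = scaleN (m * n) τ := by
  ext1
  simp only [coe_scaleN]
  push_cast
  ring

theorem scaleN_alW (τ : ℍ) : scaleN q (alW q M a b h τ) = alGamma2 q M a b h • τ := by
  ext1
  have hd1 := denom_ne_zero (alGamma1 q M a b h) (scaleN q τ)
  have hd2 := denom_ne_zero (alGamma2 q M a b h) τ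
  rw [ModularGroup.denom_apply] at hd1 hd2
  rw [alW, coe_scaleN, coe_specialLinearGroup_apply, coe_specialLinearGroup_apply]
  simp only [alGamma1, alGamma2, coe_scaleN] at hd1 hd2 ⊢
  simp at hd1 hd2 ⊢
  have hq : (q : ℂ) ≠ 0 := by exact_mod_cast NeZero.ne q
  field_simp

theorem alGamma1_dvd {d : ℕ} (hd : d ∣ M) : (d : ℤ) ∣ (alGamma1 q M a b h) 1 0 := by
  simp only [alGamma1]
  simpa using Int.natCast_dvd_natCast.mpr hd

theorem alGamma2_dvd {d : ℕ} (hd : d ∣ M) : (d : ℤ) ∣ (alGamma2 q M a b h) 1 0 := by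
  simp only [alGamma2]
  simpa using Int.natCast_dvd_natCast.mpr hd

/-- `J (d · W τ) = J (d q · τ)` for `d ∣ M`. -/
theorem alW_J_low {d : ℕ} [NeZero d] [NeZero (d * q)] (hd : d ∣ M) (τ : ℍ) :
    Jfun (scaleN d (alW q M a b h τ)) = Jfun (scaleN (d * q) τ) := by
  rw [alW, P7_thetaCompanion_smul d _ (alGamma1_dvd q M a b h hd), Jfun_smul, scaleN_scaleN]

/-- `J (d q · W τ) = J (d · τ)` for `d ∣ M`. -/
theorem alW_J_high {d : ℕ} [NeZero d] [NeZero (d * q)] (hd : d ∣ M) (τ : ℍ) :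
    Jfun (scaleN (d * q) (alW q M a b h τ)) = Jfun (scaleN d τ) := by
  rw [← scaleN_scaleN d q, scaleN_alW, P7_thetaCompanion_smul d _ (alGamma2_dvd q M a b h hd),
    Jfun_smul]

end Fermat.Agent.AL

end


end ZBS20_001_6

/-! ### bundled: `Fermat.Agent.ES.RC.CuspExact` -/
section ZBS20_001_7

/-!
# ESpkg-G1 (RC)(ii), piece P-cuspX: `q_h` is a uniformiser for the right period `h`

For `g ∈ SL₂(ℤ)` write `[[M, 0], [0, 1]] · g = δ · [[a, b], [0, d]]` (Hermite normal form,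
`a d = M`) and put `t = gcd a d`, `h = d / t`, `e = a / t`.  Then `h` is a period of the cusp `g∞`
of `Γ₀(M)`, `ordCusp h g J = -h` and `ordCusp h g J(M ·) = -e`, with `gcd h e = 1`.  Hence the
ramification index of `q_h` is `1`.

* `stmtCuspExact : StmtCuspExact M F`.
-/

set_option autoImplicit false

noncomputable section

namespace Fermat.Agent.ES.RC

open UpperHalfPlane AlgebraicCurve ModularForm WithZero Filter Topology Matrix
open Fermat.Agent.S23 Fermat.Agent.S24 Fermat.Agent.S28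
open scoped MatrixGroups Manifold ModularForm

/-- `q_1((a z + b) / d) = ζ · q_h(z) ^ e` if `a h = d e`. -/
theorem rc_qParam_one_upperTri (a d e h : ℕ) (b : ℤ) (hd : 0 < d) (hh : 0 < h)
    (hah : a * h = d * e) (z : ℂ) :
    Function.Periodic.qParam (1 : ℝ) (((a : ℝ) * z + (b : ℝ)) / (d : ℝ))
      = Function.Periodic.qParam (1 : ℝ) (((b : ℝ) : ℂ) / (d : ℝ)) *
          Function.Periodic.qParam (h : ℝ) z ^ e := by
  have hd' : (d : ℂ) ≠ 0 := by exact_mod_cast hd.ne'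
  have hh' : (h : ℂ) ≠ 0 := by exact_mod_cast hh.ne'
  have hah' : (a : ℂ) * h = d * e := by exact_mod_cast hah
  simp only [Function.Periodic.qParam]
  rw [← Complex.exp_nat_mul, ← Complex.exp_add]
  congr 1
  push_cast
  field_simp
  linear_combination z * hah'

variable (M : ℕ) [NeZero M]

/-- The matrix `[[M, 0], [0, 1]]` in `GL₂(ℝ)`. -/
def scaleGL : GL (Fin 2) ℝ :=
  ModularForm.upperTriangularGL (M : ℝ) 0 1 (by
    rw [mul_one]
    exact_mod_cast NeZero.ne M)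

theorem scaleGL_smul (z : ℍ) : scaleGL M • z = scaleN M z := by
  apply UpperHalfPlane.ext
  have hM : (0 : ℝ) < M := by exact_mod_cast Nat.pos_of_ne_zero (NeZero.ne M)
  have := coe_upperTri_smul (M : ℝ) 0 1 hM one_pos z
  rw [scaleGL, this, coe_scaleN]
  simp

variable {M}

/-- `J(M · g τ) = J((a τ + b) / d)` if `[[M, 0], [0, 1]] g = δ [[a, b], [0, d]]`. -/
theorem rc_Jfun_scaleN_smul (g δ : SL(2, ℤ)) {a d : ℕ} {b : ℤ} (ha : 0 < a) (hd : 0 < d)
    (hmat : !![(M : ℤ), 0; 0, 1] * (g : Matrix (Fin 2) (Fin 2) ℤ)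
      = (δ : Matrix (Fin 2) (Fin 2) ℤ) * !![(a : ℤ), b; 0, (d : ℤ)]) (τ : ℍ) :
    Jfun (scaleN M (g • τ)) = Jfun (ModularForm.upperTriangularGL (a : ℝ) (b : ℝ) (d : ℝ)
      (mul_pos (Nat.cast_pos.mpr ha) (Nat.cast_pos.mpr hd)).ne' • τ) := by
  set U : GL (Fin 2) ℝ := ModularForm.upperTriangularGL (a : ℝ) (b : ℝ) (d : ℝ)
      (mul_pos (Nat.cast_pos.mpr ha) (Nat.cast_pos.mpr hd)).ne' with hU
  have hGL : scaleGL M * Matrix.SpecialLinearGroup.mapGL ℝ g
      = Matrix.SpecialLinearGroup.mapGL ℝ δ * U := by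
    apply Matrix.GeneralLinearGroup.ext
    intro i j
    have h := congrArg (fun X : Matrix (Fin 2) (Fin 2) ℤ => X.map (Int.cast : ℤ → ℝ)) hmat
    simp only [Matrix.map_mul_intCast] at h
    have h' := congrFun (congrFun h i) j
    simp only [Matrix.mul_apply, Fin.sum_univ_two, Matrix.map_apply] at h'
    simp only [Matrix.GeneralLinearGroup.coe_mul, Matrix.mul_apply, Fin.sum_univ_two, scaleGL, hU,
      ModularForm.val_upperTriangularGL, Matrix.SpecialLinearGroup.mapGL_coe_matrix,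
      Matrix.SpecialLinearGroup.map_apply_coe, RingHom.mapMatrix_apply, Matrix.map_apply,
      Int.coe_castRingHom, algebraMap_int_eq]
    fin_cases i <;> fin_cases j <;> simpa using h'
  have h1 : scaleN M (g • τ) = δ • (U • τ) := by
    rw [← scaleGL_smul]
    show scaleGL M • (Matrix.SpecialLinearGroup.mapGL ℝ g • τ)
      = Matrix.SpecialLinearGroup.mapGL ℝ δ • (U • τ)
    rw [← mul_smul, ← mul_smul, hGL]
  rw [h1, Jfun_smul]

/-- Near `0`, the cusp function of `J(M · g τ)` in `q_h` is `G (ζ q ^ e)`, `G` the cusp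
function of `J`. -/
theorem rc_cuspFn_Jscale_eventually (g δ : SL(2, ℤ)) {a d : ℕ} {b : ℤ} (ha : 0 < a) (hd : 0 < d)
    (hmat : !![(M : ℤ), 0; 0, 1] * (g : Matrix (Fin 2) (Fin 2) ℤ)
      = (δ : Matrix (Fin 2) (Fin 2) ℤ) * !![(a : ℤ), b; 0, (d : ℤ)])
    {h e : ℕ} (hh : 0 < h) (hah : a * h = d * e) :
    ∀ᶠ q in 𝓝[≠] (0 : ℂ), cuspFn h (fun τ => Jfun (scaleN M (g • τ))) q
      = cuspFn 1 Jfun (Function.Periodic.qParam (1 : ℝ) (((b : ℝ) : ℂ) / (d : ℝ)) * q ^ e) := by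
  filter_upwards [eventually_punctured_disc] with q hq
  set τ : ℍ := ofComplex (Function.Periodic.invQParam (h : ℝ) q) with hτ
  have hqτ : Function.Periodic.qParam (h : ℝ) (τ : ℂ) = q :=
    qParam_ofComplex_invQParam hh hq.1 hq.2
  set U : GL (Fin 2) ℝ := ModularForm.upperTriangularGL (a : ℝ) (b : ℝ) (d : ℝ)
      (mul_pos (Nat.cast_pos.mpr ha) (Nat.cast_pos.mpr hd)).ne' with hU
  have e1 : cuspFn h (fun τ => Jfun (scaleN M (g • τ))) q = Jfun (U • τ) := by
    rw [cuspFn_apply, ← hτ]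
    exact rc_Jfun_scaleN_smul g δ ha hd hmat τ
  have e2 : Jfun (U • τ) = cuspFn 1 Jfun (Function.Periodic.qParam ((1 : ℕ) : ℝ) (U • τ : ℍ)) :=
    (cuspFn_qParam one_pos isPer_one_Jfun (U • τ)).symm
  rw [e1, e2, Nat.cast_one, hU, coe_upperTri_smul _ _ _ (Nat.cast_pos.mpr ha) (Nat.cast_pos.mpr hd),
    rc_qParam_one_upperTri a d e h b hd hh hah, hqτ]

/-- `ordCusp h g J(M ·) = -e`. -/
theorem ordCusp_Jscale (g δ : SL(2, ℤ)) {a d : ℕ} {b : ℤ} (ha : 0 < a) (hd : 0 < d)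
    (hmat : !![(M : ℤ), 0; 0, 1] * (g : Matrix (Fin 2) (Fin 2) ℤ)
      = (δ : Matrix (Fin 2) (Fin 2) ℤ) * !![(a : ℤ), b; 0, (d : ℤ)])
    {h e : ℕ} (hh : 0 < h) (he : 0 < e) (hah : a * h = d * e) :
    ordCusp h g (fun z => Jfun (scaleN M z)) = -(e : ℤ) := by
  rw [ordCusp, meromorphicOrderAt_congr (rc_cuspFn_Jscale_eventually g δ ha hd hmat hh hah),
    meromorphicOrderAt_comp_mul_pow meromorphicAt_cuspFn_one_Jfun
      (Function.Periodic.qParam_ne_zero _) he, meromorphicOrderAt_cuspFn_one_Jfun]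
  have : ((-1 : ℤ) : WithTop ℤ) * ((e : ℤ) : WithTop ℤ) = ((-(e : ℤ) : ℤ) : WithTop ℤ) := by
    norm_cast
    simp
  rw [this]
  rfl

/-- The lower left entry of `g T^h g⁻¹` is `-c² h`. -/
theorem rc_conj_T_pow_apply (g : SL(2, ℤ)) (h : ℕ) :
    ((g * ModularGroup.T ^ h * g⁻¹ : SL(2, ℤ)) : Matrix (Fin 2) (Fin 2) ℤ) 1 0
      = -(g 1 0 * g 1 0 * (h : ℤ)) := by
  have hT : ((ModularGroup.T ^ h : SL(2, ℤ)) : Matrix (Fin 2) (Fin 2) ℤ) = !![1, (h : ℤ); 0, 1] := by
    have := ModularGroup.coe_T_zpow (h : ℤ)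
    rwa [zpow_natCast] at this
  rw [Matrix.SpecialLinearGroup.coe_mul, Matrix.SpecialLinearGroup.coe_mul,
    Matrix.SpecialLinearGroup.coe_inv, hT, Matrix.adjugate_fin_two]
  simp only [Matrix.mul_apply, Fin.sum_univ_two, Matrix.of_apply, Matrix.cons_val_zero,
    Matrix.cons_val_one, Matrix.cons_val', Matrix.cons_val_fin_one]
  ring

/-- The data of the cusp `g∞`: a period `h` and two modular functions whose orders at the cusp
are `-h` and `-e` with `gcd h e = 1`. -/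
theorem rc_exists_cusp_data (M : ℕ) [NeZero M] (g : SL(2, ℤ)) :
    ∃ h e : ℕ, IsCuspPeriod M h g ∧ Nat.Coprime h e ∧
      ordCusp h g Jfun = -(h : ℤ) ∧ ordCusp h g (fun z => Jfun (scaleN M z)) = -(e : ℤ) := by
  have hM : 0 < M := Nat.pos_of_ne_zero (NeZero.ne M)
  set P : Matrix (Fin 2) (Fin 2) ℤ := !![(M : ℤ), 0; 0, 1] with hP
  have hdetP : (P * (g : Matrix (Fin 2) (Fin 2) ℤ)).det = (M : ℤ) := by
    rw [Matrix.det_mul, g.det_coe, mul_one, hP, Matrix.det_fin_two_of]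
    ring
  obtain ⟨δ, a, b, d, ha, hd, hmat⟩ := Fermat.Agent.S22.exists_SL2_mul_upper
    (P * (g : Matrix (Fin 2) (Fin 2) ℤ)) (by rw [hdetP]; exact_mod_cast hM)
  lift a to ℕ using ha.le
  lift d to ℕ using hd.le
  have ha' : 0 < a := by exact_mod_cast ha
  have hd' : 0 < d := by exact_mod_cast hd
  -- `a d = M`
  have had : a * d = M := by
    have h1 := congrArg Matrix.det hmat
    rw [hdetP, Matrix.det_mul, δ.det_coe, one_mul, Matrix.det_fin_two_of] at h1
    have : (M : ℤ) = (a : ℤ) * d := by linarith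
    exact_mod_cast this.symm
  -- `c = δ₁₀ a`
  have hc : g 1 0 = δ 1 0 * (a : ℤ) := by
    have h1 := congrFun (congrFun hmat 1) 0
    simp only [hP, Matrix.mul_apply, Fin.sum_univ_two, Matrix.of_apply, Matrix.cons_val_zero,
      Matrix.cons_val_one, Matrix.cons_val', Matrix.cons_val_fin_one] at h1
    linarith
  set t := Nat.gcd a d with ht
  have htpos : 0 < t := Nat.gcd_pos_of_pos_left d ha'
  obtain ⟨e, hae⟩ : t ∣ a := Nat.gcd_dvd_left a d
  obtain ⟨h, hdh⟩ : t ∣ d := Nat.gcd_dvd_right a d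
  have he : 0 < e := by
    rcases Nat.eq_zero_or_pos e with h0 | h0
    · rw [h0, mul_zero] at hae; omega
    · exact h0
  have hh : 0 < h := by
    rcases Nat.eq_zero_or_pos h with h0 | h0
    · rw [h0, mul_zero] at hdh; omega
    · exact h0
  have hcop : Nat.Coprime h e := by
    have h1 : Nat.gcd (t * e) (t * h) = t := by rw [← hae, ← hdh]
    rw [Nat.gcd_mul_left] at h1
    have h2 : Nat.gcd e h = 1 := by
      have : t * Nat.gcd e h = t * 1 := by rw [h1, mul_one]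
      exact Nat.eq_of_mul_eq_mul_left htpos this
    exact Nat.Coprime.symm h2
  have hah : a * h = d * e := by rw [hae, hdh]; ring
  refine ⟨h, e, ⟨hh, ?_⟩, hcop, ordCusp_Jfun hh g, ordCusp_Jscale g δ ha' hd' hmat hh he hah⟩
  rw [CongruenceSubgroup.Gamma0_mem, rc_conj_T_pow_apply, hc]
  have h1 : -(δ 1 0 * (a : ℤ) * (δ 1 0 * (a : ℤ)) * (h : ℤ))
      = (M : ℤ) * (-(δ 1 0 * δ 1 0 * (e : ℤ))) := by
    have hah' : (a : ℤ) * h = d * e := by exact_mod_cast hah
    have had' : (a : ℤ) * d = M := by exact_mod_cast had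
    rw [← had']
    linear_combination (-(δ 1 0 * δ 1 0 * (a : ℤ))) * hah'
  rw [h1]
  push_cast
  simp

variable (M)

/-- **P-cuspX**: for the right period `h`, `q_h` is a uniformiser at the cusp `g∞`. -/
theorem stmtCuspExact (F : Type) [Field F] [Algebra ℂ F] [Algebra (modFunAlg M) F]
    [IsScalarTower ℂ (modFunAlg M) F] [IsFractionRing (modFunAlg M) F] : StmtCuspExact M F := by
  intro g
  obtain ⟨h, e, hp, hcop, hJ, hJM⟩ := rc_exists_cusp_data M g
  obtain ⟨w, e₀, he₀, -, hw⟩ := exists_place_cusp M F hp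
  refine ⟨w, h, hp, ?_⟩
  -- `e₀ ∣ h` and `e₀ ∣ e`
  have h1 := hw (jElt M) (jElt_ne_zero M)
  have h1' : ordCusp h g ((jElt M : modFunAlg M) : ℍ → ℂ) = -(h : ℤ) := hJ
  rw [h1'] at h1
  set jM : modFunAlg M := ⟨fun z => Jfun (scaleN M z), isModFun_Jfun_scaleN M⟩ with hjM
  have hjM0 : jM ≠ 0 := by
    intro h0
    have h2 : ordCusp h g ((jM : modFunAlg M) : ℍ → ℂ) = -(e : ℤ) := hJM
    rw [h0] at h2
    have h3 : ordCusp h g (((0 : modFunAlg M) : modFunAlg M) : ℍ → ℂ) = 0 := by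
      have := ordCusp_algebraMap M h g 0
      simpa using this
    rw [h3] at h2
    have he : 0 < e := by
      rcases Nat.eq_zero_or_pos e with he0 | he0
      · rw [he0, Nat.coprime_zero_right] at hcop
        -- then `h = 1`, and `ordCusp = 0 = -e` is consistent: use `J(M·)` is not constant
        exfalso
        have h4 := congrFun (congrArg Subtype.val h0) 
        obtain ⟨z, hz⟩ := Jfun_surjective 1
        have hMpos : (0 : ℝ) < M := by exact_mod_cast Nat.pos_of_ne_zero (NeZero.ne M)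
        have h5 := h4 ⟨(z : ℂ) / M, by
          rw [Complex.div_natCast_im]
          exact div_pos z.im_pos hMpos⟩
        have h6 : scaleN M ⟨(z : ℂ) / M, by
          rw [Complex.div_natCast_im]
          exact div_pos z.im_pos hMpos⟩ = z := by
          apply UpperHalfPlane.ext
          rw [coe_scaleN]
          have : (M : ℂ) ≠ 0 := by exact_mod_cast NeZero.ne M
          show (M : ℂ) * ((z : ℂ) / M) = z
          field_simp
        have h7 : (jM : ℍ → ℂ) ⟨(z : ℂ) / M, by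
          rw [Complex.div_natCast_im]
          exact div_pos z.im_pos hMpos⟩ = Jfun z := by
          show Jfun (scaleN M _) = Jfun z
          rw [h6]
        rw [h7, hz] at h5
        simp at h5
      · exact he0
    omega
  have h2 := hw jM hjM0
  have h2' : ordCusp h g ((jM : modFunAlg M) : ℍ → ℂ) = -(e : ℤ) := hJM
  rw [h2'] at h2
  have hd1 : (e₀ : ℤ) ∣ (h : ℤ) := ⟨-w.ord (algebraMap (modFunAlg M) F (jElt M)), by linarith⟩
  have hd2 : (e₀ : ℤ) ∣ (e : ℤ) := ⟨-w.ord (algebraMap (modFunAlg M) F jM), by linarith⟩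
  have hd1' : e₀ ∣ h := by exact_mod_cast hd1
  have hd2' : e₀ ∣ e := by exact_mod_cast hd2
  have he1 : e₀ = 1 := Nat.eq_one_of_dvd_coprimes hcop hd1' hd2'
  intro f hf
  rw [hw f hf, he1]
  simp

end Fermat.Agent.ES.RC

end
end ZBS20_001_7

/-! ### bundled: `Fermat.Agent.ES.RC.PlaceAllCusp` -/
section ZBS20_001_8

/-!
# ESpkg-G1 (RC)(ii), piece P-all, the places at the cusps

`rc_place_cusp_of_ord_neg` : a place `v` of `F = Frac (modFunAlg M)` at which `J` has a pole is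
the place at a cusp `g∞`.

Proof (mirror of `rc_place_pt_of_ord_nonneg` with `x = 1 / J`): if `v` is none of the places at
the cusps, weak approximation gives `h` with a pole at `v`, regular at the cusps; `h = a / d(J)`;
the conjugates of `a` have poles of order `≤ δ M` in `q_M` at `i∞` (`δ = deg d`), so the `j`-th
coefficient of the norm polynomial of `a` is a polynomial in `J` of degree `≤ j δ`, and
`a / J ^ δ` is integral over `O_v`: contradiction.
-/

set_option autoImplicit false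
set_option linter.style.haveILetI false
set_option linter.unusedSectionVars false

noncomputable section

namespace Fermat.Agent.ES.RC

open UpperHalfPlane AlgebraicCurve ModularForm Polynomial IntermediateField
open Fermat.Agent.S23 Fermat.Agent.S24 Fermat.Agent.S28
open scoped MatrixGroups Manifold ModularForm

/-! ### Generalities -/

/-- `P(z) = (reflect N P)(1/z) · z ^ N` for `deg P ≤ N`. -/
theorem rc_aeval_eq_reflect {F : Type*} [Field F] [Algebra ℂ F] {z : F} (hz : z ≠ 0) (N : ℕ)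
    (P : ℂ[X]) (hP : P.natDegree ≤ N) :
    aeval z P = aeval z⁻¹ (P.reflect N) * z ^ N := by
  letI := invertibleOfNonzero hz
  have h := Polynomial.eval₂_reflect_mul_pow (algebraMap ℂ F) z N P hP
  rw [invOf_eq_inv] at h
  rw [Polynomial.aeval_def, Polynomial.aeval_def, h]

/-- The order of `P(z)` at a pole of `z`. -/
theorem rc_place_ord_aeval_pole {F : Type*} [Field F] [Algebra ℂ F] (u : Place ℂ F) {z : F}
    (hz0 : z ≠ 0) (hz : u.ord z < 0) (P : ℂ[X]) (hP : P ≠ 0) :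
    aeval z P ≠ 0 ∧ u.ord (aeval z P) = (P.natDegree : ℤ) * u.ord z := by
  have hzi : 0 < u.ord z⁻¹ := by
    rw [u.ord_inv]
    omega
  have hc : (P.reverse).coeff 0 ≠ 0 := by
    rw [Polynomial.coeff_zero_reverse]
    exact Polynomial.leadingCoeff_ne_zero.mpr hP
  obtain ⟨h1, h2⟩ := place_ord_aeval_of_coeff_zero_ne u hzi P.reverse hc
  have h3 : aeval z P = aeval z⁻¹ P.reverse * z ^ P.natDegree :=
    rc_aeval_eq_reflect hz0 P.natDegree P le_rfl
  refine ⟨?_, ?_⟩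
  · rw [h3]
    exact mul_ne_zero h1 (pow_ne_zero _ hz0)
  · rw [h3, u.ord_mul h1 (pow_ne_zero _ hz0), h2, place_ord_pow, zero_add]

theorem rc_le_merOrd_sum {ι : Type*} (s : Finset ι) (f : ι → ℂ → ℂ)
    (hf : ∀ i ∈ s, MeromorphicAt (f i) 0) (c : WithTop ℤ)
    (h : ∀ i ∈ s, c ≤ meromorphicOrderAt (f i) 0) :
    MeromorphicAt (fun z => ∑ i ∈ s, f i z) 0 ∧
      c ≤ meromorphicOrderAt (fun z => ∑ i ∈ s, f i z) 0 := by
  classical
  induction s using Finset.induction_on with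
  | empty =>
    refine ⟨by simp, ?_⟩
    have h0 : meromorphicOrderAt (fun z : ℂ => ∑ i ∈ (∅ : Finset ι), f i z) 0 = ⊤ := by
      rw [meromorphicOrderAt_eq_top_iff]
      exact Filter.Eventually.of_forall fun z => by simp
    rw [h0]
    exact le_top
  | insert a s ha ih =>
    obtain ⟨ih1, ih2⟩ := ih (fun i hi => hf i (Finset.mem_insert_of_mem hi))
      (fun i hi => h i (Finset.mem_insert_of_mem hi))
    have h1 : (fun z => ∑ i ∈ insert a s, f i z) = f a + fun z => ∑ i ∈ s, f i z := by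
      funext z
      simp [Finset.sum_insert ha]
    rw [h1]
    have hfa := hf a (Finset.mem_insert_self a s)
    refine ⟨hfa.add ih1, le_trans ?_ (meromorphicOrderAt_add hfa ih1)⟩
    exact le_min (h a (Finset.mem_insert_self a s)) ih2

theorem rc_le_merOrd_prod {ι : Type*} (s : Finset ι) (f : ι → ℂ → ℂ)
    (hf : ∀ i ∈ s, MeromorphicAt (f i) 0) (k : ℤ)
    (h : ∀ i ∈ s, (k : WithTop ℤ) ≤ meromorphicOrderAt (f i) 0) :
    MeromorphicAt (fun z => ∏ i ∈ s, f i z) 0 ∧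
      (((s.card : ℤ) * k : ℤ) : WithTop ℤ) ≤ meromorphicOrderAt (fun z => ∏ i ∈ s, f i z) 0 := by
  classical
  induction s using Finset.induction_on with
  | empty =>
    refine ⟨by simp, ?_⟩
    have h0 : meromorphicOrderAt (fun z : ℂ => ∏ i ∈ (∅ : Finset ι), f i z) 0 = 0 := by
      simp only [Finset.prod_empty]
      rw [meromorphicOrderAt_const]
      simp
    rw [h0]
    simp
  | insert a s ha ih =>
    obtain ⟨ih1, ih2⟩ := ih (fun i hi => hf i (Finset.mem_insert_of_mem hi))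
      (fun i hi => h i (Finset.mem_insert_of_mem hi))
    have h1 : (fun z => ∏ i ∈ insert a s, f i z) = f a * fun z => ∏ i ∈ s, f i z := by
      funext z
      simp [Finset.prod_insert ha]
    rw [h1]
    have hfa := hf a (Finset.mem_insert_self a s)
    refine ⟨hfa.mul ih1, ?_⟩
    rw [meromorphicOrderAt_mul hfa ih1, Finset.card_insert_of_notMem ha]
    have h2 := h a (Finset.mem_insert_self a s)
    calc ((((s.card + 1 : ℕ) : ℤ) * k : ℤ) : WithTop ℤ)
        = (k : WithTop ℤ) + (((s.card : ℤ) * k : ℤ) : WithTop ℤ) := by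
          rw [← WithTop.coe_add]
          congr 1
          push_cast
          ring
      _ ≤ _ := add_le_add h2 ih2

variable (M : ℕ) [NeZero M]

/-- `M` is a period of every cusp of `Γ₀(M)`. -/
theorem rc_isCuspPeriod_level (g : SL(2, ℤ)) : IsCuspPeriod M M g := by
  refine ⟨Nat.pos_of_ne_zero (NeZero.ne M), ?_⟩
  rw [CongruenceSubgroup.Gamma0_mem, rc_conj_T_pow_apply]
  push_cast
  simp

section Field

variable (F : Type*) [Field F] [Algebra ℂ F] [Algebra (modFunAlg M) F]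
  [IsScalarTower ℂ (modFunAlg M) F] [IsFractionRing (modFunAlg M) F]

theorem algebraMap_jSub_zero : algebraMap (modFunAlg M) F (jSub M 0) = jF M F := by
  rw [algebraMap_jSub, map_zero, sub_zero]

/-- **Places at which `J` has a pole are cusps.** -/
theorem rc_place_cusp_of_ord_neg (v : Place ℂ F) (hv : v.ord (jF M F) < 0) :
    ∃ (g : SL(2, ℤ)) (h e : ℕ), IsCuspPeriod M h g ∧ 0 < e ∧ ∀ f : modFunAlg M, f ≠ 0 →
      ordCusp h g (f : ℍ → ℂ) = (e : ℤ) * v.ord (algebraMap (modFunAlg M) F f) := by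
  classical
  have hMpos : 0 < M := Nat.pos_of_ne_zero (NeZero.ne M)
  have htr := transcendental_jF M F
  have hj0 : jF M F ≠ 0 := by
    intro h0
    apply htr
    rw [h0]
    exact isAlgebraic_zero
  set x : F := (jF M F)⁻¹ with hx
  have hx0 : x ≠ 0 := inv_ne_zero hj0
  have hxj : jF M F * x = 1 := mul_inv_cancel₀ hj0
  have hvx : 0 < v.ord x := by
    rw [hx, v.ord_inv]
    omega
  have hper : ∀ g : SL(2, ℤ), IsCuspPeriod M M g := rc_isCuspPeriod_level M
  by_contra hcon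
  push Not at hcon
  -- the places at the cusps
  have hcp : ∀ g : SL(2, ℤ), ∃ (w : Place ℂ F) (e : ℕ), 0 < e ∧
      w.toValuationSubring = (valCusp M F (hper g)).valuationSubring ∧
      ∀ f : modFunAlg M, f ≠ 0 →
        ordCusp M g (f : ℍ → ℂ) = (e : ℤ) * w.ord (algebraMap (modFunAlg M) F f) :=
    fun g => exists_place_cusp M F (hper g)
  have hvne : ∀ (g : SL(2, ℤ)) (w : Place ℂ F),
      w.toValuationSubring = (valCusp M F (hper g)).valuationSubring → w ≠ v := by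
    rintro g w hw rfl
    obtain ⟨w', e, he, hw', hord⟩ := hcp g
    have hww : w' = w := Place.ext (hw'.trans hw.symm)
    subst hww
    obtain ⟨f, hf, hne⟩ := hcon g M e (hper g) he
    exact hne (hord f hf)
  -- the order of `J` at the cusps
  have hJcusp : ∀ g : SL(2, ℤ), ordCusp M g ((jMod M : modFunAlg M) : ℍ → ℂ) = -(M : ℤ) :=
    fun g => ordCusp_Jfun hMpos g
  have hjM0 : jMod M ≠ 0 := jElt_ne_zero M
  have hwj : ∀ (g : SL(2, ℤ)) (w : Place ℂ F) (e : ℕ), 0 < e →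
      (∀ f : modFunAlg M, f ≠ 0 →
        ordCusp M g (f : ℍ → ℂ) = (e : ℤ) * w.ord (algebraMap (modFunAlg M) F f)) →
      w.ord (jF M F) < 0 := by
    intro g w e he hord
    have h1 := hord (jMod M) hjM0
    rw [hJcusp g] at h1
    have he' : (0 : ℤ) < e := by exact_mod_cast he
    have hM' : (0 : ℤ) < M := by exact_mod_cast hMpos
    by_contra hge
    push Not at hge
    have : 0 ≤ (e : ℤ) * w.ord (algebraMap (modFunAlg M) F (jMod M)) := mul_nonneg he'.le hge
    omega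
  -- transcendence and finiteness over `ℂ(x)`
  have hKeq : ℂ⟮x⟯ = ℂ⟮jF M F⟯ := by
    apply le_antisymm
    · rw [adjoin_simple_le_iff, hx]
      exact inv_mem (mem_adjoin_simple_self ℂ _)
    · rw [adjoin_simple_le_iff]
      have : jF M F = x⁻¹ := by rw [hx, inv_inv]
      rw [this]
      exact inv_mem (mem_adjoin_simple_self ℂ _)
  have hxtr : Transcendental ℂ x := by
    intro halg
    apply htr
    have : jF M F = x⁻¹ := by rw [hx, inv_inv]
    rw [this]
    exact halg.inv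
  haveI hfd : FiniteDimensional ℂ⟮x⟯ F := hKeq ▸ rc_finiteDimensional M F
  obtain ⟨V, hV, -⟩ := sum_ord_eq_finrank x hxtr
  set S : Finset (Place ℂ F) :=
    V.filter (fun u => ∃ g : SL(2, ℤ),
      u.toValuationSubring = (valCusp M F (hper g)).valuationSubring) with hS
  have hvS : v ∉ S := by
    intro hmem
    obtain ⟨g, hg⟩ := (Finset.mem_filter.mp hmem).2
    exact hvne g v hg rfl
  obtain ⟨h, hvh, hSh⟩ := exists_ord_neg x hxtr v S hvx hvS
    (fun u hu => (hV u).mp (Finset.mem_filter.mp hu).1)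
  have hh0 : h ≠ 0 := by
    rintro rfl
    simp at hvh
  -- `h = a / d(J)`
  obtain ⟨a, d, hd, hha⟩ := rc_exists_frac_poly M F h
  rw [← aeval_jF] at hha
  set δ : ℕ := d.natDegree with hδ
  have ha0 : a ≠ 0 := by
    rintro rfl
    rw [map_zero] at hha
    have hdne : aeval (jF M F) d ≠ 0 := by
      rw [aeval_jF]
      exact rc_algebraMap_ne_zero F (aeval_jMod_ne_zero M hd)
    exact (mul_ne_zero hh0 hdne) hha
  have haF : algebraMap (modFunAlg M) F a ≠ 0 := rc_algebraMap_ne_zero F ha0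
  -- regularity of `h` at all cusps
  have hreg : ∀ g : SL(2, ℤ), -((δ : ℤ) * M) ≤ ordCusp M g (a : ℍ → ℂ) := by
    intro g
    obtain ⟨w, e, he, hw, hord⟩ := hcp g
    have hwj' := hwj g w e he hord
    have hwx : 0 < w.ord x := by
      rw [hx, w.ord_inv]
      omega
    have hwS : w ∈ S := Finset.mem_filter.mpr ⟨(hV w).mpr hwx, g, hw⟩
    have hwh := hSh w hwS
    obtain ⟨hdne, hwd⟩ := rc_place_ord_aeval_pole w hj0 hwj' d hd
    have h3 : w.ord (algebraMap (modFunAlg M) F a) = w.ord h + (δ : ℤ) * w.ord (jF M F) := by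
      rw [← hha, w.ord_mul hh0 hdne, hwd]
    have h4 := hord (jMod M) hjM0
    rw [hJcusp g] at h4
    have h4' : (e : ℤ) * w.ord (jF M F) = -(M : ℤ) := h4.symm
    rw [hord a ha0, h3]
    have he' : (0 : ℤ) ≤ e := by exact_mod_cast he.le
    nlinarith [mul_nonneg he' hwh]
  -- the norm polynomial
  obtain ⟨g, P, hP0, hrel, hsym⟩ := rc_conj_core_c M 0 a
  have hPdeg : ∀ j, (P j).natDegree ≤ j * δ := by
    intro j
    rcases eq_or_ne (P j) 0 with h0 | h0
    · rw [h0]; simp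
    have hne : aeval (jSub M 0) (P j) ≠ 0 := aeval_jSub_ne_zero M 0 h0
    -- the analytic bound
    have han : (((-((j : ℤ) * ((δ : ℤ) * M)) : ℤ)) : WithTop ℤ) ≤
        meromorphicOrderAt (cuspFn M (fun τ =>
          ((aeval (jSub M 0) (P j) : modFunAlg M) : ℍ → ℂ) ((1 : SL(2, ℤ)) • τ))) 0 := by
      have e1 : cuspFn M (fun τ =>
          ((aeval (jSub M 0) (P j) : modFunAlg M) : ℍ → ℂ) ((1 : SL(2, ℤ)) • τ))
          = fun z => ∑ S ∈ Finset.powersetCard j (cosetFinset M),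
              ∏ q ∈ S, cuspFn M (fun τ => (a : ℍ → ℂ) (g q • τ)) z := by
        funext z
        rw [cuspFn_apply, one_smul, hsym j]
        rfl
      rw [e1]
      have hprod : ∀ S ∈ Finset.powersetCard j (cosetFinset M),
          MeromorphicAt (fun z => ∏ q ∈ S, cuspFn M (fun τ => (a : ℍ → ℂ) (g q • τ)) z) 0 ∧
          (((-((j : ℤ) * ((δ : ℤ) * M)) : ℤ)) : WithTop ℤ) ≤ meromorphicOrderAt
            (fun z => ∏ q ∈ S, cuspFn M (fun τ => (a : ℍ → ℂ) (g q • τ)) z) 0 := by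
        intro S hS
        have hcard : S.card = j := (Finset.mem_powersetCard.mp hS).2
        have h1 := rc_le_merOrd_prod S (fun q => cuspFn M (fun τ => (a : ℍ → ℂ) (g q • τ)))
          (fun q _ => rc_meromorphicAt_cuspFn_comp a.2 (hper (g q))) (-((δ : ℤ) * M))
          (fun q _ => by
            rw [← rc_coe_ordCusp M (hper (g q)) ha0]
            exact_mod_cast hreg (g q))
        refine ⟨h1.1, ?_⟩
        have h2 := h1.2
        rw [hcard] at h2
        have e2 : (j : ℤ) * -((δ : ℤ) * M) = -((j : ℤ) * ((δ : ℤ) * M)) := by ring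
        rwa [e2] at h2
      exact (rc_le_merOrd_sum _ _ (fun S hS => (hprod S hS).1) _ (fun S hS => (hprod S hS).2)).2
    rw [← rc_coe_ordCusp M (hper 1) hne] at han
    have han' : -((j : ℤ) * ((δ : ℤ) * M)) ≤
        ordCusp M 1 ((aeval (jSub M 0) (P j) : modFunAlg M) : ℍ → ℂ) := by
      exact_mod_cast han
    -- the algebraic value
    obtain ⟨w, e, he, hw, hord⟩ := hcp 1
    have hwj' := hwj 1 w e he hord
    obtain ⟨-, hwP⟩ := rc_place_ord_aeval_pole w hj0 hwj' (P j) h0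
    have h4 := hord (jMod M) hjM0
    rw [hJcusp 1] at h4
    have h4' : (e : ℤ) * w.ord (jF M F) = -(M : ℤ) := h4.symm
    rw [hord _ hne, algebraMap_aeval_jSub, algebraMap_jSub_zero, hwP] at han'
    have h5 : (e : ℤ) * (((P j).natDegree : ℤ) * w.ord (jF M F))
        = -(((P j).natDegree : ℤ) * M) := by
      rw [mul_left_comm, h4']; ring
    rw [h5] at han'
    have hM' : (0 : ℤ) < M := by exact_mod_cast hMpos
    have h6 : ((P j).natDegree : ℤ) * M ≤ ((j : ℤ) * δ) * M := by linarith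
    have h7 : ((P j).natDegree : ℤ) ≤ (j : ℤ) * δ := le_of_mul_le_mul_right h6 hM'
    exact_mod_cast h7
  -- the relation for `y = a / J ^ δ`
  set α : F := algebraMap (modFunAlg M) F a with hα
  set y : F := α * x ^ δ with hy
  have hαy : α = y * jF M F ^ δ := by
    rw [hy, mul_assoc, ← mul_pow, mul_comm x, hxj, one_pow, mul_one]
  have hxmem : x ∈ v.toValuationSubring := (place_mem_iff v hx0).mpr hvx.le
  have hrelF : ∑ j ∈ Finset.range (cosetCard M + 1),
      ((-1 : F) ^ j * aeval x ((P j).reflect (j * δ))) * y ^ (cosetCard M - j) = 0 := by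
    have h1 := congrArg (algebraMap (modFunAlg M) F) hrel
    rw [map_sum, map_zero] at h1
    have h2 : ∀ j ∈ Finset.range (cosetCard M + 1),
        algebraMap (modFunAlg M) F ((-1 : modFunAlg M) ^ j * aeval (jSub M 0) (P j) *
          a ^ (cosetCard M - j))
        = jF M F ^ (δ * cosetCard M) *
          (((-1 : F) ^ j * aeval x ((P j).reflect (j * δ))) * y ^ (cosetCard M - j)) := by
      intro j hj
      have hj' : j ≤ cosetCard M := Nat.lt_succ_iff.mp (Finset.mem_range.mp hj)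
      rw [map_mul, map_mul, map_pow, map_pow, map_neg, map_one, algebraMap_aeval_jSub,
        algebraMap_jSub_zero, ← hα, hαy, rc_aeval_eq_reflect hj0 (j * δ) (P j) (hPdeg j),
        ← hx, mul_pow, ← pow_mul]
      have e1 : δ * cosetCard M = j * δ + δ * (cosetCard M - j) := by
        have : cosetCard M = j + (cosetCard M - j) := by omega
        conv_lhs => rw [this]
        ring
      rw [e1, pow_add]
      ring
    rw [Finset.sum_congr rfl h2, ← Finset.mul_sum] at h1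
    exact (mul_eq_zero.mp h1).resolve_left (pow_ne_zero _ hj0)
  have hymem : y ∈ v.toValuationSubring := by
    refine rc_mem_of_relation v.toValuationSubring (cosetCard M)
      (fun j => (-1 : F) ^ j * aeval x ((P j).reflect (j * δ))) (by simp [hP0]) (fun j => ?_) y
      hrelF
    refine mul_mem (pow_mem (neg_mem (one_mem _)) j) (place_aeval_mem v hxmem _)
  -- conclusion
  have hc : (d.reverse).coeff 0 ≠ 0 := by
    rw [Polynomial.coeff_zero_reverse]
    exact Polynomial.leadingCoeff_ne_zero.mpr hd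
  obtain ⟨hqx0, hqord⟩ := place_ord_aeval_of_coeff_zero_ne v hvx d.reverse hc
  have hdj : aeval (jF M F) d = aeval x d.reverse * jF M F ^ δ :=
    rc_aeval_eq_reflect hj0 δ d le_rfl
  have hyq : y = h * aeval x d.reverse := by
    have e1 : α = h * (aeval x d.reverse * jF M F ^ δ) := by
      rw [← hdj]
      exact hha.symm
    calc y = α * x ^ δ := rfl
      _ = h * (aeval x d.reverse * jF M F ^ δ) * x ^ δ := by rw [← e1]
      _ = h * aeval x d.reverse * (jF M F * x) ^ δ := by rw [mul_pow]; ring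
      _ = h * aeval x d.reverse := by rw [hxj, one_pow, mul_one]
  have hy0 : y ≠ 0 := by
    rw [hyq]; exact mul_ne_zero hh0 hqx0
  have hyord : v.ord y = v.ord h := by
    rw [hyq, v.ord_mul hh0 hqx0, hqord, add_zero]
  have := (place_mem_iff v hy0).mp hymem
  omega

end Field

end Fermat.Agent.ES.RC

end
end ZBS20_001_8

/-! ### bundled: `Fermat.Agent.ES.RC.PlaceAll` -/
section ZBS20_001_9

/-!
# ESpkg-G1 (RC)(ii), piece P-all: every place of `Frac (modFunAlg M)` is a point or a cusp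

`stmtAll : StmtAll M F` — every place `v` of `F / ℂ` is the order at a point `τ ∈ ℍ`
(if `J` is regular at `v`, `rc_place_pt_of_ord_nonneg`) or at a cusp `g∞`
(if `J` has a pole at `v`, `rc_place_cusp_of_ord_neg`), up to the ramification index.
-/

set_option autoImplicit false

noncomputable section

namespace Fermat.Agent.ES.RC

open UpperHalfPlane AlgebraicCurve
open Fermat.Agent.S24 Fermat.Agent.S28
open scoped MatrixGroups

variable (M : ℕ) [NeZero M]

/-- **P-all.** -/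
theorem stmtAll (F : Type) [Field F] [Algebra ℂ F] [Algebra (modFunAlg M) F]
    [IsScalarTower ℂ (modFunAlg M) F] [IsFractionRing (modFunAlg M) F] : StmtAll M F := by
  intro v
  rcases le_or_gt 0 (v.ord (jF M F)) with hv | hv
  · exact Or.inl (rc_place_pt_of_ord_nonneg M F v hv)
  · exact Or.inr (rc_place_cusp_of_ord_neg M F v hv)

end Fermat.Agent.ES.RC

end
end ZBS20_001_9

/-! ### bundled: `Fermat.Agent.S20.Glue` -/
section ZBS20_001_10

/-!
# S20 package BG: transport of the combinatorics from `SL(2,ℤ) ⧸ Γ₀(N)` to `Q N`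
-/

set_option autoImplicit false

open Matrix Matrix.SpecialLinearGroup CongruenceSubgroup ModularGroup
open scoped MatrixGroups

namespace Fermat.Agent.S20

/-- The image of `g : SL(2,ℤ)` in `𝒮ℒ ≤ GL(2,ℝ)`. -/
def sigma (g : SL(2, ℤ)) : 𝒮ℒ := ⟨mapGL ℝ g, ⟨g, rfl⟩⟩

theorem sigma_mul (g h : SL(2, ℤ)) : sigma (g * h) = sigma g * sigma h :=
  Subtype.ext (map_mul (mapGL ℝ) g h)

theorem sigma_one : sigma 1 = 1 := Subtype.ext (map_one (mapGL ℝ))

theorem sigma_inv (g : SL(2, ℤ)) : sigma g⁻¹ = (sigma g)⁻¹ :=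
  Subtype.ext (map_inv (mapGL ℝ) g)

/-- `sigma` as a monoid homomorphism. -/
def sigmaHom : SL(2, ℤ) →* 𝒮ℒ where
  toFun := sigma
  map_one' := sigma_one
  map_mul' := sigma_mul

theorem sigma_zpow (g : SL(2, ℤ)) (n : ℤ) : sigma (g ^ n) = sigma g ^ n :=
  map_zpow sigmaHom g n

theorem sigma_surjective : Function.Surjective sigma := by
  rintro ⟨_, g, rfl⟩
  exact ⟨g, rfl⟩

theorem sigma_injective : Function.Injective sigma := fun _ _ hgh =>
  mapGL_injective (congrArg Subtype.val hgh)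

theorem sigma_mem_iff (N : ℕ) (g : SL(2, ℤ)) :
    sigma g ∈ (G0 N).subgroupOf 𝒮ℒ ↔ g ∈ Gamma0 N := by
  rw [Subgroup.mem_subgroupOf]
  exact Subgroup.mem_map_iff_mem mapGL_injective

/-- The map `SL(2,ℤ) ⧸ Γ₀(N) → Q N`. -/
def toQ (N : ℕ) : SL(2, ℤ) ⧸ Gamma0 N → Q N :=
  Quotient.map' sigma (fun _ _ h => by
    rw [QuotientGroup.leftRel_apply] at h ⊢
    rw [← sigma_inv, ← sigma_mul, sigma_mem_iff]
    exact h)

theorem toQ_mk (N : ℕ) (g : SL(2, ℤ)) :
    toQ N (g : SL(2, ℤ) ⧸ Gamma0 N) = ((sigma g : 𝒮ℒ) : Q N) := rfl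

theorem toQ_bijective (N : ℕ) : Function.Bijective (toQ N) := by
  constructor
  · intro a b hab
    obtain ⟨g, rfl⟩ := QuotientGroup.mk_surjective a
    obtain ⟨h, rfl⟩ := QuotientGroup.mk_surjective b
    rw [toQ_mk, toQ_mk, QuotientGroup.eq, ← sigma_inv, ← sigma_mul, sigma_mem_iff] at hab
    exact QuotientGroup.eq.mpr hab
  · intro q
    obtain ⟨s, rfl⟩ := QuotientGroup.mk_surjective q
    obtain ⟨g, rfl⟩ := sigma_surjective s
    exact ⟨(g : SL(2, ℤ) ⧸ Gamma0 N), rfl⟩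

/-- The equivalence `SL(2,ℤ) ⧸ Γ₀(N) ≃ Q N`. -/
noncomputable def equivQ (N : ℕ) : SL(2, ℤ) ⧸ Gamma0 N ≃ Q N :=
  Equiv.ofBijective (toQ N) (toQ_bijective N)

theorem equivQ_apply (N : ℕ) (q : SL(2, ℤ) ⧸ Gamma0 N) : equivQ N q = toQ N q := rfl

/-- Equivariance of `toQ`. -/
theorem toQ_smul (N : ℕ) (g : SL(2, ℤ)) (q : SL(2, ℤ) ⧸ Gamma0 N) :
    toQ N (g • q) = sigma g • toQ N q := by
  obtain ⟨h, rfl⟩ := QuotientGroup.mk_surjective q
  rw [MulAction.Quotient.smul_mk, smul_eq_mul, toQ_mk, toQ_mk, MulAction.Quotient.smul_mk,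
    smul_eq_mul, sigma_mul]

/-- BG1: `#Q N = ψ(N)`. -/
theorem card_Q (N : ℕ) [NeZero N] : Fintype.card (Q N) = ModularCurve.dedekindPsi N := by
  rw [← Nat.card_eq_fintype_card, ← Nat.card_congr (equivQ N), card_quot_Gamma0]

theorem natCard_Q (N : ℕ) [NeZero N] : Nat.card (Q N) = ModularCurve.dedekindPsi N := by
  rw [← Nat.card_congr (equivQ N), card_quot_Gamma0]

/-- Fixed points correspond. -/
theorem card_fixed_sigma (N : ℕ) (g : SL(2, ℤ)) :
    Nat.card {q : Q N // sigma g • q = q} =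
      Nat.card {q : SL(2, ℤ) ⧸ Gamma0 N // g • q = q} := by
  refine (Nat.card_congr (Equiv.subtypeEquiv (equivQ N) fun q => ?_)).symm
  rw [equivQ_apply, ← toQ_smul]
  exact ((toQ_bijective N).1.eq_iff).symm

/-- BG3: the number of fixed points of `σ S` on `Q N` is `ν₂(N)`. -/
theorem card_fixed_sigma_S (N : ℕ) [NeZero N] :
    Nat.card {q : Q N // sigma ModularGroup.S • q = q} = ModularCurve.nuTwo N := by
  rw [card_fixed_sigma, card_fixed_S]

/-- BG4: the number of fixed points of `σ (S T)` on `Q N` is `ν₃(N)`. -/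
theorem card_fixed_sigma_ST (N : ℕ) [NeZero N] :
    Nat.card {q : Q N // sigma (ModularGroup.S * ModularGroup.T) • q = q} =
      ModularCurve.nuThree N := by
  rw [card_fixed_sigma, card_fixed_ST]

/-- The shift of `Basic.lean` is the action of `σ(T)⁻¹`. -/
theorem shift_apply (N : ℕ) (q : Q N) : shift N q = (sigma ModularGroup.T)⁻¹ • q := rfl

theorem shift_zpow_apply (N : ℕ) (n : ℤ) (q : Q N) :
    (shift N ^ n) q = (sigma ModularGroup.T)⁻¹ ^ n • q := by
  have h : shift N = MulAction.toPermHom 𝒮ℒ (Q N) (sigma ModularGroup.T)⁻¹ := rfl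
  rw [h, ← map_zpow]
  rfl

theorem shift_zpow_toQ (N : ℕ) (n : ℤ) (q : SL(2, ℤ) ⧸ Gamma0 N) :
    (shift N ^ n) (toQ N q) = toQ N (ModularGroup.T⁻¹ ^ n • q) := by
  rw [shift_zpow_apply, toQ_smul, sigma_zpow, sigma_inv]

/-- The orbit spaces of `⟨shift⟩` on `Q N` and of `⟨T⟩` on `SL(2,ℤ) ⧸ Γ₀(N)` are in bijection. -/
theorem numCusps_eq_card_orbits (N : ℕ) :
    numCusps N = Nat.card (MulAction.orbitRel.Quotient (Subgroup.zpowers ModularGroup.T)
      (SL(2, ℤ) ⧸ Gamma0 N)) := by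
  rw [numCusps]
  refine (Nat.card_congr (Quotient.congr (equivQ N) fun a b => ?_)).symm
  rw [MulAction.orbitRel_apply, MulAction.orbitRel_apply, MulAction.mem_orbit_iff,
    MulAction.mem_orbit_iff]
  constructor
  · rintro ⟨⟨t, ht⟩, h⟩
    obtain ⟨n, rfl⟩ := Subgroup.mem_zpowers_iff.mp ht
    refine ⟨⟨shift N ^ (-n), Subgroup.zpow_mem_zpowers _ _⟩, ?_⟩
    change (shift N ^ (-n)) (equivQ N b) = equivQ N a
    rw [equivQ_apply, equivQ_apply, shift_zpow_toQ]
    congr 1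
    rw [← h]
    change _ = ModularGroup.T ^ n • b
    rw [_root_.inv_zpow', neg_neg]
  · rintro ⟨⟨t, ht⟩, h⟩
    obtain ⟨n, rfl⟩ := Subgroup.mem_zpowers_iff.mp ht
    refine ⟨⟨ModularGroup.T ^ (-n), Subgroup.zpow_mem_zpowers _ _⟩, ?_⟩
    change (shift N ^ n) (equivQ N b) = equivQ N a at h
    rw [equivQ_apply, equivQ_apply, shift_zpow_toQ] at h
    have h2 := (toQ_bijective N).1 h
    change ModularGroup.T ^ (-n) • b = a
    rw [← h2, _root_.inv_zpow']

end Fermat.Agent.S20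


end ZBS20_001_10

/-! ### bundled: `Fermat.Agent.S20.Ell` -/
section ZBS20_001_11
/-
S20, package ELL: for a frame that is good on `ℍ`, evaluation at the elliptic points `i` and `ρ`
gives `∑ i, (-1)^(wt i / 2) = #Fix(S)` and `∑ i, ω^(wt i / 2) = #Fix(S T)`.
-/

set_option autoImplicit false

open CongruenceSubgroup UpperHalfPlane ModularForm SlashInvariantForm
open scoped MatrixGroups Manifold

namespace Fermat.Agent.S20

variable {N : ℕ} [NeZero N]

/-! ### Linear algebra: a matrix intertwining a permutation with a diagonal matrix -/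

/-- If `A` is invertible and `A i q = c i * A i (σ q)` for a permutation `σ` of the columns,
then the number of fixed points of `σ` is `∑ i, (c i)⁻¹`. -/
theorem ell_trace_perm {ι : Type*} [Fintype ι] [DecidableEq ι] (A : Matrix ι ι ℂ)
    (hA : A.det ≠ 0) (σ : Equiv.Perm ι) (c : ι → ℂ) (hc : ∀ i, c i ≠ 0)
    (h : ∀ i q, A i q = c i * A i (σ q)) :
    ∑ i, (c i)⁻¹ = (Fintype.card {q : ι // σ q = q} : ℂ) := by
  classical
  -- the permutation matrix
  set P : Matrix ι ι ℂ := Matrix.of (fun r q => if r = σ q then (1 : ℂ) else 0) with hP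
  have hPapp : ∀ r q, P r q = if r = σ q then (1 : ℂ) else 0 := fun r q => rfl
  have hAP : A * P = Matrix.diagonal (fun i => (c i)⁻¹) * A := by
    ext i q
    rw [Matrix.mul_apply, Matrix.diagonal_mul]
    simp only [hPapp, mul_ite, mul_one, mul_zero, Finset.sum_ite_eq', Finset.mem_univ, if_true]
    rw [h i q, ← mul_assoc, inv_mul_cancel₀ (hc i), one_mul]
  have hAu : IsUnit A.det := isUnit_iff_ne_zero.mpr hA
  have hPeq : P = A⁻¹ * (Matrix.diagonal (fun i => (c i)⁻¹) * A) := by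
    rw [← hAP, ← Matrix.mul_assoc, Matrix.nonsing_inv_mul _ hAu, Matrix.one_mul]
  have htr : P.trace = ∑ i, (c i)⁻¹ := by
    rw [hPeq, Matrix.trace_mul_comm, Matrix.mul_assoc, Matrix.mul_nonsing_inv _ hAu,
      Matrix.mul_one, Matrix.trace_diagonal]
  rw [← htr, Matrix.trace]
  simp only [Matrix.diag_apply, hPapp]
  rw [Finset.sum_ite, Finset.sum_const_zero, add_zero, Finset.sum_const, nsmul_eq_mul, mul_one,
    Fintype.card_subtype]
  congr 2
  ext q
  simp [eq_comm]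

/-! ### The fixed point formula for a good frame -/

/-- Fixed points of `g⁻¹` and of `g` on `Q N` are the same. -/
theorem ell_card_fixed_inv (g : 𝒮ℒ) :
    Fintype.card {q : Q N // (MulAction.toPerm g⁻¹ : Equiv.Perm (Q N)) q = q} =
      Nat.card {q : Q N // g • q = q} := by
  rw [← Nat.card_eq_fintype_card]
  refine Nat.card_congr (Equiv.subtypeEquivRight fun q => ?_)
  rw [MulAction.toPerm_apply, inv_smul_eq_iff, eq_comm]

/-- **Fixed point formula.** If `γ` fixes `z₀` and `Φ` is good on `ℍ`, then the number of fixed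
points of `γ` on `Q N` is `∑ i, (denom γ z₀)^(-wt i)`. -/
theorem ell_fixed (Φ : Frame N) (hΦ : Φ.GoodOnH) (γ : SL(2, ℤ)) (z₀ : ℍ) (hz : γ • z₀ = z₀) :
    ∑ i, ((denom γ z₀) ^ (Φ.wt i))⁻¹ = (Nat.card {q : Q N // toSL γ • q = q} : ℂ) := by
  have hd : denom γ z₀ ≠ 0 := denom_ne_zero _ z₀
  have key := ell_trace_perm (Φ.A z₀) (hΦ z₀) (MulAction.toPerm (toSL γ)⁻¹ : Equiv.Perm (Q N))
    (fun i => (denom γ z₀) ^ (Φ.wt i)) (fun i => zpow_ne_zero _ hd) (fun i q => by
      have := Φ.A_smul γ z₀ i q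
      rw [hz] at this
      rw [this]
      rfl)
  rw [key, ell_card_fixed_inv]

/-- For a frame that is good on `ℍ` all weights are even (because `-1 ∈ Γ₀(N)`). -/
theorem ell_even_wt (Φ : Frame N) (hΦ : Φ.GoodOnH) (i : Q N) : Even (Φ.wt i) := by
  by_contra hodd
  rw [Int.not_even_iff_odd] at hodd
  apply hΦ UpperHalfPlane.I
  refine Matrix.det_eq_zero_of_row_eq_zero i (fun q => ?_)
  have h := Φ.A_smul (-1 : SL(2, ℤ)) UpperHalfPlane.I i q
  have hneg : ((-1 : SL(2, ℤ)) • (UpperHalfPlane.I : ℍ)) = UpperHalfPlane.I :=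
    ModularGroup.SL_neg_smul 1 _ ▸ one_smul _ _
  have hden : denom ((-1 : SL(2, ℤ))) (UpperHalfPlane.I : ℍ) = -1 := by
    simp [denom]
  have hq : (toSL (-1 : SL(2, ℤ)))⁻¹ • q = q := by
    obtain ⟨δ, rfl⟩ := mkQ_surjective q
    rw [← toSL_inv, smul_mkQ, mkQ_eq_iff]
    have : ((-1 : SL(2, ℤ))⁻¹ * δ)⁻¹ * δ = -1 := by
      rw [mul_inv_rev, inv_inv, mul_neg, mul_one, neg_mul, inv_mul_cancel]
    rw [this]
    simp [CongruenceSubgroup.Gamma0_mem]
  rw [hneg, hden, hq, hodd.neg_one_zpow] at h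
  have h2 : (2 : ℂ) * Φ.A UpperHalfPlane.I i q = 0 := by linear_combination h
  simpa using h2

/-! ### The elliptic point `i` -/

theorem ell_S_smul_I : ModularGroup.S • (UpperHalfPlane.I : ℍ) = UpperHalfPlane.I := by
  rw [UpperHalfPlane.ext_iff, modular_S_smul, UpperHalfPlane.coe_mk, UpperHalfPlane.coe_I,
    ← Complex.inv_I, inv_inv]

/-- `∑ i, (-1)^(wt i / 2) = #Fix(S)` for a frame that is good on `ℍ`. -/
theorem ell_S (Φ : Frame N) (hΦ : Φ.GoodOnH) :
    ∑ i, (-1 : ℂ) ^ (Φ.wt i / 2) =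
      (Nat.card {q : Q N // toSL ModularGroup.S • q = q} : ℂ) := by
  rw [← ell_fixed Φ hΦ ModularGroup.S UpperHalfPlane.I ell_S_smul_I]
  refine Finset.sum_congr rfl fun i _ => ?_
  obtain ⟨m, hm⟩ := ell_even_wt Φ hΦ i
  have h2 : Φ.wt i / 2 = m := by omega
  rw [ModularGroup.denom_S, h2, hm, UpperHalfPlane.coe_I, ← two_mul, zpow_mul, zpow_two,
    Complex.I_mul_I, ← inv_zpow, inv_neg, inv_one]

/-! ### The elliptic point `ρ` -/

theorem ell_ST_smul_rho : (ModularGroup.S * ModularGroup.T) • (UpperHalfPlane.ρ : ℍ) = ρ := by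
  rw [mul_smul, ← ModularGroup.SL_neg_smul ModularGroup.S, ← ModularGroup.S_inv,
    inv_smul_eq_iff, eq_comm, UpperHalfPlane.ext_iff,
    modular_S_smul, modular_T_smul, UpperHalfPlane.coe_mk, coe_vadd,
    ← mul_one (_ : ℂ)⁻¹, inv_mul_eq_iff_eq_mul₀ (neg_ne_zero.mpr ρ.ne_zero)]
  grind [ρ_sq, Complex.ofReal_one]

theorem ell_denom_ST_rho :
    denom ((ModularGroup.S * ModularGroup.T : SL(2, ℤ)) : GL (Fin 2) ℝ) (UpperHalfPlane.ρ : ℍ) =
      (ρ : ℂ) + 1 := by
  simp [denom, ModularGroup.coe_S, ModularGroup.coe_T, Matrix.mul_apply, Fin.sum_univ_two]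

theorem ell_rho_inv : ((ρ : ℍ) : ℂ)⁻¹ = -(ρ : ℂ) - 1 := by
  have h : ((ρ : ℍ) : ℂ) * (-(ρ : ℂ) - 1) = 1 := by linear_combination -ρ_sq
  exact inv_eq_of_mul_eq_one_right h

/-- `∑ i, (ρ⁻¹)^(wt i / 2) = #Fix(S T)` for a frame that is good on `ℍ`. -/
theorem ell_ST_rho_inv (Φ : Frame N) (hΦ : Φ.GoodOnH) :
    ∑ i, ((ρ : ℍ) : ℂ)⁻¹ ^ (Φ.wt i / 2) =
      (Nat.card {q : Q N // toSL (ModularGroup.S * ModularGroup.T) • q = q} : ℂ) := by
  rw [← ell_fixed Φ hΦ (ModularGroup.S * ModularGroup.T) ρ ell_ST_smul_rho]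
  refine Finset.sum_congr rfl fun i _ => ?_
  obtain ⟨m, hm⟩ := ell_even_wt Φ hΦ i
  have h2 : Φ.wt i / 2 = m := by omega
  have hsq : ((ρ : ℂ) + 1) ^ (2 : ℤ) = ρ := by
    rw [zpow_two]; linear_combination ρ_sq
  rw [ell_denom_ST_rho, h2, hm, ← two_mul, zpow_mul, hsq, inv_zpow]

theorem ell_conj_rho : (starRingEnd ℂ) ((ρ : ℍ) : ℂ) = ((ρ : ℍ) : ℂ)⁻¹ := by
  rw [ell_rho_inv]
  apply Complex.ext <;> simp [ρ]
  ring

/-- `∑ i, ρ^(wt i / 2) = #Fix(S T)` for a frame that is good on `ℍ`. -/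
theorem ell_ST_rho (Φ : Frame N) (hΦ : Φ.GoodOnH) :
    ∑ i, ((ρ : ℍ) : ℂ) ^ (Φ.wt i / 2) =
      (Nat.card {q : Q N // toSL (ModularGroup.S * ModularGroup.T) • q = q} : ℂ) := by
  have h := congrArg (starRingEnd ℂ) (ell_ST_rho_inv Φ hΦ)
  rw [map_sum, map_natCast] at h
  rw [← h]
  refine Finset.sum_congr rfl fun i _ => ?_
  rw [map_zpow₀, map_inv₀, ell_conj_rho, inv_inv]

/-- A primitive cube root of unity is `ρ` or `ρ⁻¹`. -/
theorem ell_cube_root (ω : ℂ) (hω : ω ^ 3 = 1) (hω1 : ω ≠ 1) :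
    ω = ((ρ : ℍ) : ℂ) ∨ ω = ((ρ : ℍ) : ℂ)⁻¹ := by
  have h1 : ω ^ 2 + ω + 1 = 0 := by
    have : (ω - 1) * (ω ^ 2 + ω + 1) = 0 := by linear_combination hω
    rcases mul_eq_zero.mp this with h | h
    · exact absurd (sub_eq_zero.mp h) hω1
    · exact h
  have h2 : (ω - (ρ : ℂ)) * (ω - ((ρ : ℍ) : ℂ)⁻¹) = 0 := by
    rw [ell_rho_inv]
    linear_combination h1 - ρ_sq
  rcases mul_eq_zero.mp h2 with h | h
  · exact Or.inl (sub_eq_zero.mp h)
  · exact Or.inr (sub_eq_zero.mp h)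

/-- **ELL at `ρ`**: `∑ i, ω^(wt i / 2) = #Fix(S T)` for every primitive cube root of unity `ω`. -/
theorem ell_ST (Φ : Frame N) (hΦ : Φ.GoodOnH) (ω : ℂ) (hω : ω ^ 3 = 1) (hω1 : ω ≠ 1) :
    ∑ i, ω ^ (Φ.wt i / 2) =
      (Nat.card {q : Q N // toSL (ModularGroup.S * ModularGroup.T) • q = q} : ℂ) := by
  rcases ell_cube_root ω hω hω1 with rfl | rfl
  · exact ell_ST_rho Φ hΦ
  · exact ell_ST_rho_inv Φ hΦ

/-! ### The same statements with `sigma` of `Glue.lean`, and with `ν₂`, `ν₃` -/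

theorem ell_toSL_eq_sigma (g : SL(2, ℤ)) : toSL g = sigma g := rfl

/-- **ELL at `i`** in the form used by `assemble`. -/
theorem ell_sigma_S (Φ : Frame N) (hΦ : Φ.GoodOnH) :
    ∑ i, (-1 : ℂ) ^ (Φ.wt i / 2) =
      (Nat.card {q : Q N // sigma ModularGroup.S • q = q} : ℂ) :=
  ell_S Φ hΦ

/-- **ELL at `ρ`** in the form used by `assemble`. -/
theorem ell_sigma_ST (Φ : Frame N) (hΦ : Φ.GoodOnH) (ω : ℂ) (hω : ω ^ 3 = 1) (hω1 : ω ≠ 1) :
    ∑ i, ω ^ (Φ.wt i / 2) =
      (Nat.card {q : Q N // sigma (ModularGroup.S * ModularGroup.T) • q = q} : ℂ) :=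
  ell_ST Φ hΦ ω hω hω1

theorem ell_nuTwo (Φ : Frame N) (hΦ : Φ.GoodOnH) :
    ∑ i, (-1 : ℂ) ^ (Φ.wt i / 2) = (ModularCurve.nuTwo N : ℂ) := by
  rw [ell_sigma_S Φ hΦ, card_fixed_sigma_S]

theorem ell_nuThree (Φ : Frame N) (hΦ : Φ.GoodOnH) (ω : ℂ) (hω : ω ^ 3 = 1) (hω1 : ω ≠ 1) :
    ∑ i, ω ^ (Φ.wt i / 2) = (ModularCurve.nuThree N : ℂ) := by
  rw [ell_sigma_ST Φ hΦ ω hω hω1, card_fixed_sigma_ST]

end Fermat.Agent.S20


end ZBS20_001_11

/-! ### bundled: `Fermat.Agent.S20.ShiftAlg` -/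
section ZBS20_001_12

/-!
# S20 cusp package, pure algebra: SA1, SA2, SA3

* `shift_pow_level` : `(shift N) ^ N = 1`
* `eigen_separation` : eigenvectors of `shift` for distinct `N`-th roots of unity are independent
* `finrank_shift_invariants` : the space of `shift`-invariant functions on `Q N` has dimension
  `numCusps N`
-/

set_option autoImplicit false

open Matrix Matrix.SpecialLinearGroup CongruenceSubgroup ModularGroup
open scoped MatrixGroups

namespace Fermat.Agent.S20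

/-! ### SA1 -/

theorem T_zpow_smul (N : ℕ) (n : ℤ) (hn : (N : ℤ) ∣ n) (q : SL(2, ℤ) ⧸ Gamma0 N) :
    ModularGroup.T ^ n • q = q := by
  obtain ⟨g, rfl⟩ := QuotientGroup.mk_surjective q
  rw [MulAction.Quotient.smul_mk, smul_eq_mul, eq_comm, QuotientGroup.eq, Gamma0_mem,
    lowerLeft_inv_mul]
  have h00 : ((ModularGroup.T ^ n * g : SL(2, ℤ)) : Matrix (Fin 2) (Fin 2) ℤ) 0 0 =
      g 0 0 + n * g 1 0 := by
    rw [Matrix.SpecialLinearGroup.coe_mul, ModularGroup.coe_T_zpow]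
    simp [Matrix.mul_apply, Fin.sum_univ_two]
  have h10 : ((ModularGroup.T ^ n * g : SL(2, ℤ)) : Matrix (Fin 2) (Fin 2) ℤ) 1 0 = g 1 0 := by
    rw [Matrix.SpecialLinearGroup.coe_mul, ModularGroup.coe_T_zpow]
    simp [Matrix.mul_apply, Fin.sum_univ_two]
  rw [h00, h10, ZMod.intCast_zmod_eq_zero_iff_dvd]
  obtain ⟨m, rfl⟩ := hn
  exact ⟨-(m * g 1 0 ^ 2), by ring⟩

/-- SA1: the `N`-th power of the shift is trivial. -/
theorem shift_pow_level (N : ℕ) [NeZero N] : (shift N) ^ N = 1 := by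
  ext q
  obtain ⟨q, rfl⟩ := (toQ_bijective N).2 q
  rw [← zpow_natCast, shift_zpow_toQ, Equiv.Perm.coe_one, id_eq, _root_.inv_zpow']
  congr 1
  exact T_zpow_smul N _ (Dvd.intro_left (-1) (by ring)) q

/-! ### SA2 -/

theorem shift_pow_eigen (N : ℕ) (c : ℂ) (w : Q N → ℂ)
    (hw : ∀ q, w (shift N q) = c * w q) (a : ℕ) (q : Q N) :
    w ((shift N ^ a) q) = c ^ a * w q := by
  induction a generalizing q with
  | zero => simp
  | succ a ih =>
    rw [pow_succ, Equiv.Perm.coe_mul, Function.comp_apply, ih, hw, pow_succ]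
    ring

/-- SA2: eigen-separation for the shift. -/
theorem eigen_separation (N : ℕ) [NeZero N] (ζ : ℂ) (hζ : IsPrimitiveRoot ζ N)
    (v : ℕ → Q N → ℂ)
    (hv : ∀ r < N, ∀ q, v r (shift N q) = ζ ^ r * v r q)
    (hsum : ∀ q, ∑ r ∈ Finset.range N, v r q = 0) :
    ∀ r < N, ∀ q, v r q = 0 := by
  intro s hs q
  have hN : N ≠ 0 := NeZero.ne N
  -- the averaged identity
  have h1 : ∑ a ∈ Finset.range N, ζ ^ ((N - s) * a) *
      ∑ r ∈ Finset.range N, v r ((shift N ^ a) q) = 0 := by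
    refine Finset.sum_eq_zero fun a _ => ?_
    rw [hsum, mul_zero]
  have h2 : ∑ a ∈ Finset.range N, ζ ^ ((N - s) * a) *
      ∑ r ∈ Finset.range N, v r ((shift N ^ a) q) =
      ∑ r ∈ Finset.range N, (∑ a ∈ Finset.range N, (ζ ^ (r + (N - s))) ^ a) * v r q := by
    simp_rw [Finset.mul_sum, Finset.sum_mul]
    rw [Finset.sum_comm]
    refine Finset.sum_congr rfl fun r hr => Finset.sum_congr rfl fun a _ => ?_
    rw [shift_pow_eigen N (ζ ^ r) (v r) (hv r (Finset.mem_range.mp hr)) a q]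
    rw [← pow_mul, ← pow_mul, ← mul_assoc, ← pow_add]
    congr 2
    ring
  have h3 : ∀ r ∈ Finset.range N, r ≠ s →
      (∑ a ∈ Finset.range N, (ζ ^ (r + (N - s))) ^ a) * v r q = 0 := by
    intro r hr hrs
    have hr' := Finset.mem_range.mp hr
    have hne : ζ ^ (r + (N - s)) ≠ 1 := by
      intro h
      have hdvd := (hζ.pow_eq_one_iff_dvd _).mp h
      have : N ∣ r + (N - s) := hdvd
      obtain ⟨k, hk⟩ := this
      have hk1 : k = 1 := by
        have h1 : 0 < k := Nat.pos_of_ne_zero (by rintro rfl; omega)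
        have h2 : k < 2 := by
          by_contra h
          have : N * 2 ≤ N * k := Nat.mul_le_mul_left N (by omega)
          omega
        omega
      subst hk1
      omega
    have hpow : (ζ ^ (r + (N - s))) ^ N = 1 := by
      rw [← pow_mul, mul_comm, pow_mul, hζ.pow_eq_one, one_pow]
    rw [geom_sum_eq hne, hpow, sub_self, zero_div, zero_mul]
  rw [h2, Finset.sum_eq_single_of_mem s (Finset.mem_range.mpr hs) h3] at h1
  have h4 : ζ ^ (s + (N - s)) = 1 := by
    rw [Nat.add_sub_cancel' hs.le, hζ.pow_eq_one]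
  rw [h4] at h1
  simp only [one_pow, Finset.sum_const, Finset.card_range, nsmul_eq_mul, mul_one] at h1
  rcases mul_eq_zero.mp h1 with h | h
  · exact absurd h (Nat.cast_ne_zero.mpr hN)
  · exact h

/-! ### SA3 -/

/-- The submodule of `shift`-invariant functions on `Q N`. -/
def shiftInvariants (N : ℕ) : Submodule ℂ (Q N → ℂ) where
  carrier := {v | ∀ q, v (shift N q) = v q}
  add_mem' := fun {v w} hv hw q => by simp only [Pi.add_apply, hv q, hw q]
  zero_mem' := fun q => rfl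
  smul_mem' := fun c v hv q => by simp only [Pi.smul_apply, hv q]

theorem mem_shiftInvariants (N : ℕ) (v : Q N → ℂ) :
    v ∈ shiftInvariants N ↔ ∀ q, v (shift N q) = v q := Iff.rfl

theorem invariant_zpow (N : ℕ) (v : Q N → ℂ) (hv : ∀ q, v (shift N q) = v q) (n : ℤ)
    (q : Q N) : v ((shift N ^ n) q) = v q := by
  induction n using Int.induction_on generalizing q with
  | zero => simp
  | succ n ih =>
    rw [_root_.zpow_add_one, Equiv.Perm.coe_mul, Function.comp_apply, ih, hv]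
  | pred n ih =>
    rw [_root_.zpow_sub_one, Equiv.Perm.coe_mul, Function.comp_apply, ih]
    have := hv ((shift N)⁻¹ q)
    simpa using this.symm

/-- SA3: the dimension of the space of shift-invariant functions is the number of cusps. -/
theorem finrank_shift_invariants (N : ℕ) [NeZero N] :
    Module.finrank ℂ (shiftInvariants N) = numCusps N := by
  classical
  let Ω := MulAction.orbitRel.Quotient (Subgroup.zpowers (shift N)) (Q N)
  let mk : Q N → Ω := Quotient.mk''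
  have hmk : Function.Surjective mk := Quotient.mk''_surjective
  have : Finite Ω := Finite.of_surjective mk hmk
  haveI : Fintype Ω := Fintype.ofFinite Ω
  let Φ : (Ω → ℂ) →ₗ[ℂ] (Q N → ℂ) := LinearMap.funLeft ℂ ℂ mk
  have hΦinj : Function.Injective Φ := LinearMap.funLeft_injective_of_surjective ℂ ℂ mk hmk
  have hrange : LinearMap.range Φ = shiftInvariants N := by
    ext v
    constructor
    · rintro ⟨f, rfl⟩ q
      change f (mk (shift N q)) = f (mk q)
      congr 1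
      apply Quotient.sound'
      rw [MulAction.orbitRel_apply, MulAction.mem_orbit_iff]
      exact ⟨⟨shift N, Subgroup.mem_zpowers _⟩, rfl⟩
    · intro hv
      refine ⟨Quotient.lift v (fun a b hab => ?_), ?_⟩
      · have hab' : a ∈ MulAction.orbit (Subgroup.zpowers (shift N)) b := hab
        rw [MulAction.mem_orbit_iff] at hab'
        obtain ⟨⟨t, ht⟩, rfl⟩ := hab'
        obtain ⟨n, rfl⟩ := Subgroup.mem_zpowers_iff.mp ht
        exact invariant_zpow N v hv n b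
      · ext q
        rfl
  rw [← hrange, LinearMap.finrank_range_of_inj hΦinj, Module.finrank_fintype_fun_eq_card,
    numCusps, Nat.card_eq_fintype_card]

end Fermat.Agent.S20


end ZBS20_001_12

/-! ### bundled: `Fermat.Agent.INJ.HMSturm` -/
section ZBS20_001_13

/-!
# INJ / B-I3 — the Sturm bound in the form used for the Hauptmodul identities

* `hm_sturm` : a form `f` with `IsMF (G0 N) k f` whose first `B+1` `q`-coefficients vanish
  (`B ≥ k·ψ(N)/12`) has `qExpansion 1 f = 0`.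
* `hm_qExp_E4`, `hm_qExp_Delta`, `hm_qExp_DeltaN` : `q`-expansions of `E₄`, `Δ`, `Δ(N·)` as images
  of the prelude's formal integral series.
* `hm_isMF_DeltaN`, `hm_isMF_of_dvd`.
-/

set_option autoImplicit false

noncomputable section

namespace Fermat.Agent.INJ.HM

open UpperHalfPlane ModularForm PowerSeries
open Fermat.Agent.S23 Fermat.Agent.S24 Fermat.Agent.S28
open scoped MatrixGroups ModularForm Manifold

local notation "Δ" => ModularForm.discriminant

/-- the coefficient embedding `ℤ[[q]] → ℂ[[q]]`. -/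
abbrev hmC : PowerSeries ℤ →+* PowerSeries ℂ := PowerSeries.map (Int.castRingHom ℂ)

theorem hmC_injective : Function.Injective hmC := by
  intro F G h
  ext n
  have := congrArg (PowerSeries.coeff n) h
  simpa [hmC, PowerSeries.coeff_map] using this

/-- Sturm bound for `Γ₀(N)`, `IsMF` form. -/
theorem hm_sturm (N : ℕ) [NeZero N] {k : ℤ} {f : ℍ → ℂ} (hf : IsMF (G0 N) k f) (B : ℕ)
    (hB : (k * (CongruenceSubgroup.Gamma0 N).index).toNat / 12 ≤ B)
    (h : ∀ n : ℕ, n ≤ B → (qExpansion 1 f).coeff n = 0) : qExpansion 1 f = 0 := by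
  obtain ⟨F, rfl⟩ := hf
  have hF : F = 0 := ModularForm.sturm_bound_Gamma0 N F fun n hn => h n (hn.trans hB)
  rw [hF]
  simpa using UpperHalfPlane.qExpansion_zero 1

theorem hm_index2 : (CongruenceSubgroup.Gamma0 2).index = 3 := by
  rw [Fermat.Agent.S20.index_Gamma0 2 (by norm_num), Fermat.Agent.S20.dedekindPsi_prime Nat.prime_two]

theorem hm_index3 : (CongruenceSubgroup.Gamma0 3).index = 4 := by
  rw [Fermat.Agent.S20.index_Gamma0 3 (by norm_num),
    Fermat.Agent.S20.dedekindPsi_prime Nat.prime_three]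

theorem hm_index4 : (CongruenceSubgroup.Gamma0 4).index = 6 := by
  rw [Fermat.Agent.S20.index_Gamma0 4 (by norm_num), show (4 : ℕ) = 2 * 2 from rfl,
    Fermat.Agent.S20.dedekindPsi_mul_of_dvd Nat.prime_two (dvd_refl 2) (by norm_num),
    Fermat.Agent.S20.dedekindPsi_prime Nat.prime_two]

theorem hm_qExp_E4 : qExpansion 1 E₄ = hmC ModularCurve.eisenstein4 := qExpansion_E₄_eq

theorem hm_qExp_Delta :
    qExpansion 1 (Δ : ℍ → ℂ) = PowerSeries.X * hmC ModularCurve.dedekindEtaUnit :=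
  qExpansion_discriminant_eq

theorem hm_subst_eq (N : ℕ) (hN : 0 < N) (F : PowerSeries ℤ) :
    thetaAlg_subst N (PowerSeries.X * hmC F) = PowerSeries.X ^ N * hmC (hmDilPS N F) := by
  ext n
  rw [thetaAlg_subst_coeff, PowerSeries.coeff_X_pow_mul']
  by_cases h : N ∣ n
  · rw [if_pos h]
    obtain ⟨m, rfl⟩ := h
    rw [Nat.mul_div_cancel_left _ hN]
    rcases m with _ | m
    · simp only [mul_zero, PowerSeries.coeff_zero_eq_constantCoeff, map_mul,
        PowerSeries.constantCoeff_X, zero_mul]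
      rw [if_neg (by omega)]
    · rw [if_pos (Nat.le_mul_of_pos_right N (Nat.succ_pos m)), PowerSeries.coeff_succ_X_mul]
      have e : N * (m + 1) - N = N * m := by
        rw [Nat.mul_succ, Nat.add_sub_cancel]
      rw [e, hmC, PowerSeries.coeff_map, PowerSeries.coeff_map, coeff_hmDilPS,
        if_pos (dvd_mul_right N m), Nat.mul_div_cancel_left _ hN]
  · rw [if_neg h]
    split_ifs with h2
    · have h3 : ¬ N ∣ n - N := fun h' => h ((Nat.dvd_sub_iff_left h2 (dvd_refl N)).mp h')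
      rw [hmC, PowerSeries.coeff_map, coeff_hmDilPS, if_neg h3]
      simp
    · rfl

theorem hm_qExp_DeltaN (N : ℕ) [NeZero N] :
    qExpansion 1 (deltaNFun N) =
      PowerSeries.X ^ N * hmC (hmDilPS N ModularCurve.dedekindEtaUnit) := by
  rw [P7_qExpansion_deltaNFun, hm_qExp_Delta, hm_subst_eq N (Nat.pos_of_ne_zero (NeZero.ne N))]

theorem hm_isMF_DeltaN (N : ℕ) [NeZero N] : IsMF (G0 N) 12 (deltaNFun N) := by
  have := isMF_comp_scaleN N ((CuspForm.discriminant : CuspForm 𝒮ℒ 12) : ModularForm 𝒮ℒ 12)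
  convert this using 1
  ext z
  exact (congrFun CuspForm.coe_discriminant (scaleN N z)).symm

theorem hm_G0_le {d N : ℕ} (h : d ∣ N) : G0 N ≤ G0 d := by
  rintro _ ⟨γ, hγ, rfl⟩
  refine ⟨γ, ?_, rfl⟩
  have hγ' : γ ∈ CongruenceSubgroup.Gamma0 N := hγ
  show γ ∈ CongruenceSubgroup.Gamma0 d
  rw [CongruenceSubgroup.Gamma0_mem] at hγ' ⊢
  have hγ := hγ'
  have h1 : (N : ℤ) ∣ γ 1 0 := (ZMod.intCast_zmod_eq_zero_iff_dvd _ _).mp hγ
  exact (ZMod.intCast_zmod_eq_zero_iff_dvd _ _).mpr (dvd_trans (Int.natCast_dvd_natCast.mpr h) h1)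

/-- restriction of the level `Γ₀(d) ⊇ Γ₀(N)` for `d ∣ N`. -/
theorem hm_isMF_of_dvd {d N : ℕ} (h : d ∣ N) {k : ℤ} {f : ℍ → ℂ} (hf : IsMF (G0 d) k f) :
    IsMF (G0 N) k f := by
  obtain ⟨F, rfl⟩ := hf
  exact ⟨{ toFun := F
           slash_action_eq' := fun A hA => F.slash_action_eq' A (hm_G0_le h hA)
           holo' := F.holo'
           bdd_at_cusps' := fun hc => F.bdd_at_cusps' (hc.mono (hm_G0_le h)) }, rfl⟩

theorem hm_isMF_E4 (N : ℕ) [NeZero N] : IsMF (G0 N) 4 (E₄ : ℍ → ℂ) :=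
  IsMF.of_levelOne ⟨E₄, rfl⟩

end Fermat.Agent.INJ.HM

end
end ZBS20_001_13

/-! ### bundled: `Fermat.Agent.INJ.HMScale` -/
section ZBS20_001_14

/-!
# INJ / B-I3 — `q`-expansion of `f(Nz)` for a level-one form `f`; `hmDilPS` is multiplicative
-/

set_option autoImplicit false

noncomputable section

namespace Fermat.Agent.INJ.HM

open UpperHalfPlane ModularForm PowerSeries
open Fermat.Agent.S23 Fermat.Agent.S24 Fermat.Agent.S28
open scoped MatrixGroups ModularForm Manifold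

local notation "𝕢" => Function.Periodic.qParam

/-- `q`-expansion of `z ↦ f (N z)`. -/
theorem hm_qExp_comp_scaleN (N : ℕ) [NeZero N] {k : ℤ} (f : ModularForm 𝒮ℒ k) :
    qExpansion 1 (fun z => f (scaleN N z)) = thetaAlg_subst N (qExpansion 1 f) := by
  have hN : N ≠ 0 := NeZero.ne N
  ext n
  rw [thetaAlg_subst_coeff]
  set c : ℕ → ℂ := fun n => if N ∣ n then (qExpansion 1 f).coeff (n / N) else 0 with hc
  have hmf : IsMF (G0 N) k (fun z => f (scaleN N z)) := isMF_comp_scaleN N f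
  have hcont : Continuous (fun z => f (scaleN N z)) := (mdiff_comp_scaleN N f.holo').continuous
  refine (UpperHalfPlane.qExpansion_coeff_unique (c := c) (ContinuousMap.mk _ hcont)
    one_pos hmf.analyticAt_cuspFunction ?_ n).symm
  intro τ
  have h1 := hasSum_qExpansion (h := 1) one_pos
    (SlashInvariantFormClass.periodic_comp_ofComplex f one_mem_strictPeriods_SL)
    f.holo' (ModularFormClass.bdd_at_infty f) (scaleN N τ)
  rw [P7_qParam_scaleN] at h1
  have hinj : Function.Injective (fun m : ℕ => N * m) := fun a b hab =>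
    Nat.eq_of_mul_eq_mul_left (Nat.pos_of_ne_zero hN) hab
  change HasSum (fun m ↦ c m • 𝕢 1 τ ^ m) (f (scaleN N τ))
  rw [← hinj.hasSum_iff]
  · convert h1 using 2 with m
    simp only [Function.comp_apply, hc, dvd_mul_right, if_true, Nat.mul_div_cancel_left _
      (Nat.pos_of_ne_zero hN), pow_mul]
  · intro x hx
    have : ¬ N ∣ x := fun ⟨k, hk⟩ => hx ⟨k, hk.symm⟩
    simp [hc, this]

theorem hm_subst_eq0 (N : ℕ) (F : PowerSeries ℤ) :
    thetaAlg_subst N (hmC F) = hmC (hmDilPS N F) := by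
  ext n
  rw [thetaAlg_subst_coeff, hmC, PowerSeries.coeff_map, PowerSeries.coeff_map, coeff_hmDilPS]
  split_ifs <;> simp

/-- `E₄(N z)` as a function. -/
def hmE4N (N : ℕ) [NeZero N] : ℍ → ℂ := fun z => E₄ (scaleN N z)

theorem hm_isMF_E4N (N : ℕ) [NeZero N] : IsMF (G0 N) 4 (hmE4N N) := isMF_comp_scaleN N E₄

theorem hm_qExp_E4N (N : ℕ) [NeZero N] :
    qExpansion 1 (hmE4N N) = hmC (hmDilPS N ModularCurve.eisenstein4) := by
  unfold hmE4N
  rw [hm_qExp_comp_scaleN, hm_qExp_E4, hm_subst_eq0]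

/-! ### `hmDilPS` is a ring homomorphism -/

theorem hmDilPS_eq_expand (N : ℕ) (hN : N ≠ 0) (F : PowerSeries ℤ) :
    hmDilPS N F = PowerSeries.expand N hN F := by
  ext n
  rw [coeff_hmDilPS, PowerSeries.coeff_expand]

theorem hmDilPS_one (N : ℕ) (hN : N ≠ 0) : hmDilPS N (1 : PowerSeries ℤ) = 1 := by
  rw [hmDilPS_eq_expand N hN, map_one]

theorem hmDilPS_add (N : ℕ) (hN : N ≠ 0) (F G : PowerSeries ℤ) :
    hmDilPS N (F + G) = hmDilPS N F + hmDilPS N G := by
  simp only [hmDilPS_eq_expand N hN, map_add]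

theorem hmDilPS_mul (N : ℕ) (hN : N ≠ 0) (F G : PowerSeries ℤ) :
    hmDilPS N (F * G) = hmDilPS N F * hmDilPS N G := by
  simp only [hmDilPS_eq_expand N hN, map_mul]

theorem hmDilPS_pow (N : ℕ) (hN : N ≠ 0) (F : PowerSeries ℤ) (k : ℕ) :
    hmDilPS N (F ^ k) = hmDilPS N F ^ k := by
  simp only [hmDilPS_eq_expand N hN, map_pow]

end Fermat.Agent.INJ.HM

end
end ZBS20_001_14

/-! ### bundled: `Fermat.Agent.INJ.Hauptmodul2Formal` -/
section ZBS20_001_15

/-!
# INJ / B-I3 — the level-2 Hauptmodul identity, formal power series form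

With `E = eisenstein4`, `D = dedekindEtaUnit` (`Δ = q·D`), `D₂ = D(q²)`:

  `E³ · D · D₂ = (D + 256 q D₂)³`   in `ℤ[[q]]`,

i.e. `j · h² = (h + 256)³` for `h = Δ(z)/Δ(2z)`.  Proof: Sturm bound for the weight-36 form
`E₄³ Δ Δ(2·) − (Δ + 256 Δ(2·))³` on `Γ₀(2)` (10 coefficients).
-/

set_option autoImplicit false

noncomputable section

namespace Fermat.Agent.INJ.HM

open UpperHalfPlane ModularForm PowerSeries
open Fermat.Agent.S23 Fermat.Agent.S24 Fermat.Agent.S28
open scoped MatrixGroups ModularForm Manifold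

local notation "Δ" => ModularForm.discriminant

/-- the formal series `E³ D D₂ − (D + 256 q D₂)³`. -/
def hmF2 : PowerSeries ℤ :=
  ModularCurve.eisenstein4 ^ 3 * ModularCurve.dedekindEtaUnit *
      hmDilPS 2 ModularCurve.dedekindEtaUnit -
    (ModularCurve.dedekindEtaUnit +
      C (256 : ℤ) * (X ^ 1 * hmDilPS 2 ModularCurve.dedekindEtaUnit)) ^ 3

/-- the table of `D = ∏(1-qⁿ)^24` up to `q⁶`. -/
def hmDtab7 : List ℤ := [1, -24, 252, -1472, 4830, -6048, -16744]

theorem hmTr_D7 : HMTr 7 ModularCurve.dedekindEtaUnit hmDtab7 :=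
  (hmTr_D 7).congr (by decide +kernel)

theorem hmF2_trunc : ∀ i, i < 7 → coeff i hmF2 = 0 := by
  have hE := hmTr_E4 7
  have hD := hmTr_D7
  have hD2 := hD.dil (d := 2) (by norm_num)
  have h1 := ((hE.pow 3).mul hD).mul hD2
  have h2 := (hD.add ((hD2.shift 1).smul 256)).pow 3
  have h3 := h1.sub h2
  exact HMTr.eq_zero (h3.congr (by decide +kernel))

/-- the analytic form `E₄³ Δ Δ(2·) − (Δ + 256 Δ(2·))³`. -/
def hmG2 : ℍ → ℂ :=
  (E₄ : ℍ → ℂ) ^ 3 * (Δ : ℍ → ℂ) * deltaNFun 2 - ((Δ : ℍ → ℂ) + (256 : ℂ) • deltaNFun 2) ^ 3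

theorem hm_isMF_G2 : IsMF (G0 2) 36 hmG2 := by
  have hE : IsMF (G0 2) 4 (E₄ : ℍ → ℂ) := hm_isMF_E4 2
  have hΔ : IsMF (G0 2) 12 (Δ : ℍ → ℂ) := isMF_discriminant 2
  have hΔ2 : IsMF (G0 2) 12 (deltaNFun 2) := hm_isMF_DeltaN 2
  have h1 := (((hE.pow 3).mul hΔ).mul hΔ2).of_weight_eq
    (show ((3 : ℕ) : ℤ) * 4 + 12 + 12 = 36 by norm_num)
  have h2 := ((hΔ.add (hΔ2.const_smul 256)).pow 3).of_weight_eq
    (show ((3 : ℕ) : ℤ) * 12 = 36 by norm_num)
  exact h1.sub h2

theorem hm_qExp_G2 : qExpansion 1 hmG2 = X ^ 3 * hmC hmF2 := by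
  have hE : IsMF (G0 2) 4 (E₄ : ℍ → ℂ) := hm_isMF_E4 2
  have hΔ : IsMF (G0 2) 12 (Δ : ℍ → ℂ) := isMF_discriminant 2
  have hΔ2 : IsMF (G0 2) 12 (deltaNFun 2) := hm_isMF_DeltaN 2
  have h1 := ((hE.pow 3).mul hΔ).mul hΔ2
  have h2 := (hΔ.add (hΔ2.const_smul 256)).pow 3
  rw [hmG2, h1.qExpansion_sub h2, ((hE.pow 3).mul hΔ).qExpansion_mul hΔ2,
    (hE.pow 3).qExpansion_mul hΔ, hE.qExpansion_pow,
    (hΔ.add (hΔ2.const_smul 256)).qExpansion_pow, hΔ.qExpansion_add (hΔ2.const_smul 256),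
    hΔ2.qExpansion_smul, hm_qExp_E4, hm_qExp_Delta, hm_qExp_DeltaN, hmF2]
  rw [PowerSeries.smul_eq_C_mul]
  simp only [map_sub, map_mul, map_pow, map_add, PowerSeries.map_X, map_ofNat]
  ring

/-- **Level 2 Hauptmodul identity**, formal form: `E³ D D₂ = (D + 256 q D₂)³`. -/
theorem hmF2_eq_zero : hmF2 = 0 := by
  have hq : qExpansion 1 hmG2 = 0 := by
    refine hm_sturm 2 hm_isMF_G2 9 ?_ ?_
    · rw [hm_index2]; decide
    · intro n hn
      rw [hm_qExp_G2, PowerSeries.coeff_X_pow_mul']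
      split_ifs with h
      · rw [hmC, PowerSeries.coeff_map, hmF2_trunc _ (by omega)]
        simp
      · rfl
  rw [hm_qExp_G2] at hq
  have h2 : hmC hmF2 = 0 := by
    rcases mul_eq_zero.mp hq with h | h
    · exact absurd h (pow_ne_zero 3 PowerSeries.X_ne_zero)
    · exact h
  exact hmC_injective (by rw [h2, map_zero])

theorem hm_level2_formal :
    ModularCurve.eisenstein4 ^ 3 * ModularCurve.dedekindEtaUnit *
        hmDilPS 2 ModularCurve.dedekindEtaUnit =
      (ModularCurve.dedekindEtaUnit +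
        C (256 : ℤ) * (X ^ 1 * hmDilPS 2 ModularCurve.dedekindEtaUnit)) ^ 3 :=
  sub_eq_zero.mp hmF2_eq_zero

/-! ### the second identity `j(2z) · h = (h + 16)³` -/

/-- the formal series `E(q²)³ D D₂ − (D + 16 q D₂)³`. -/
def hmF2b : PowerSeries ℤ :=
  hmDilPS 2 ModularCurve.eisenstein4 ^ 3 * ModularCurve.dedekindEtaUnit *
      hmDilPS 2 ModularCurve.dedekindEtaUnit -
    (ModularCurve.dedekindEtaUnit +
      C (16 : ℤ) * (X ^ 1 * hmDilPS 2 ModularCurve.dedekindEtaUnit)) ^ 3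

theorem hmF2b_trunc : ∀ i, i < 7 → coeff i hmF2b = 0 := by
  have hE := (hmTr_E4 7).dil (d := 2) (by norm_num)
  have hD := hmTr_D7
  have hD2 := hD.dil (d := 2) (by norm_num)
  have h1 := ((hE.pow 3).mul hD).mul hD2
  have h2 := (hD.add ((hD2.shift 1).smul 16)).pow 3
  have h3 := h1.sub h2
  exact HMTr.eq_zero (h3.congr (by decide +kernel))

/-- the analytic form `E₄(2·)³ Δ Δ(2·) − (Δ + 16 Δ(2·))³`. -/
def hmG2b : ℍ → ℂ :=
  hmE4N 2 ^ 3 * (Δ : ℍ → ℂ) * deltaNFun 2 - ((Δ : ℍ → ℂ) + (16 : ℂ) • deltaNFun 2) ^ 3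

theorem hm_isMF_G2b : IsMF (G0 2) 36 hmG2b := by
  have hE : IsMF (G0 2) 4 (hmE4N 2) := hm_isMF_E4N 2
  have hΔ : IsMF (G0 2) 12 (Δ : ℍ → ℂ) := isMF_discriminant 2
  have hΔ2 : IsMF (G0 2) 12 (deltaNFun 2) := hm_isMF_DeltaN 2
  have h1 := (((hE.pow 3).mul hΔ).mul hΔ2).of_weight_eq
    (show ((3 : ℕ) : ℤ) * 4 + 12 + 12 = 36 by norm_num)
  have h2 := ((hΔ.add (hΔ2.const_smul 16)).pow 3).of_weight_eq
    (show ((3 : ℕ) : ℤ) * 12 = 36 by norm_num)
  exact h1.sub h2

theorem hm_qExp_G2b : qExpansion 1 hmG2b = X ^ 3 * hmC hmF2b := by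
  have hE : IsMF (G0 2) 4 (hmE4N 2) := hm_isMF_E4N 2
  have hΔ : IsMF (G0 2) 12 (Δ : ℍ → ℂ) := isMF_discriminant 2
  have hΔ2 : IsMF (G0 2) 12 (deltaNFun 2) := hm_isMF_DeltaN 2
  have h1 := ((hE.pow 3).mul hΔ).mul hΔ2
  have h2 := (hΔ.add (hΔ2.const_smul 16)).pow 3
  rw [hmG2b, h1.qExpansion_sub h2, ((hE.pow 3).mul hΔ).qExpansion_mul hΔ2,
    (hE.pow 3).qExpansion_mul hΔ, hE.qExpansion_pow,
    (hΔ.add (hΔ2.const_smul 16)).qExpansion_pow, hΔ.qExpansion_add (hΔ2.const_smul 16),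
    hΔ2.qExpansion_smul, hm_qExp_E4N, hm_qExp_Delta, hm_qExp_DeltaN, hmF2b]
  rw [PowerSeries.smul_eq_C_mul]
  simp only [map_sub, map_mul, map_pow, map_add, PowerSeries.map_X, map_ofNat]
  ring

/-- a form of weight 36 on `Γ₀(2)` of the shape `q³ · F` vanishes as soon as `F ≡ 0 mod q⁷`. -/
theorem hm_level2_vanish {G : ℍ → ℂ} {F : PowerSeries ℤ} (hG : IsMF (G0 2) 36 G)
    (hq : qExpansion 1 G = X ^ 3 * hmC F) (hF : ∀ i, i < 7 → coeff i F = 0) : F = 0 := by
  have hq0 : qExpansion 1 G = 0 := by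
    refine hm_sturm 2 hG 9 ?_ ?_
    · rw [hm_index2]; decide
    · intro n hn
      rw [hq, PowerSeries.coeff_X_pow_mul']
      split_ifs with h
      · rw [hmC, PowerSeries.coeff_map, hF _ (by omega)]
        simp
      · rfl
  rw [hq] at hq0
  have h2 : hmC F = 0 := by
    rcases mul_eq_zero.mp hq0 with h | h
    · exact absurd h (pow_ne_zero 3 PowerSeries.X_ne_zero)
    · exact h
  exact hmC_injective (by rw [h2, map_zero])

theorem hm_level2b_formal :
    hmDilPS 2 ModularCurve.eisenstein4 ^ 3 * ModularCurve.dedekindEtaUnit *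
        hmDilPS 2 ModularCurve.dedekindEtaUnit =
      (ModularCurve.dedekindEtaUnit +
        C (16 : ℤ) * (X ^ 1 * hmDilPS 2 ModularCurve.dedekindEtaUnit)) ^ 3 :=
  sub_eq_zero.mp (hm_level2_vanish hm_isMF_G2b hm_qExp_G2b hmF2b_trunc)

end Fermat.Agent.INJ.HM

end
end ZBS20_001_15

/-! ### bundled: `Fermat.Agent.INJ.Hauptmodul3Formal` -/
section ZBS20_001_16

/-!
# INJ / B-I3 — the level-3 Hauptmodul identities, formal power series form (norm form)

With `E = eisenstein4`, `D = dedekindEtaUnit` (`Δ = q·D`), `D₃ = D(q³)`, `E₃ = E(q³)`, the two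
"norm" identities (the product of the wanted relation for `h` and for `-h`, `h² = Δ(z)/Δ(3z)`,
cleared of denominators) hold in `ℤ[[q]]`:

* `hm_level3_formal`  (from `j h³ = (h+27)(h+243)³`),
* `hm_level3b_formal` (from `j(3z) h = (h+27)(h+3)³`).

Proof: Sturm bound for weight 48 on `Γ₀(3)` (17 coefficients).
-/

set_option autoImplicit false

noncomputable section

namespace Fermat.Agent.INJ.HM

open UpperHalfPlane ModularForm PowerSeries
open Fermat.Agent.S23 Fermat.Agent.S24 Fermat.Agent.S28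
open scoped MatrixGroups ModularForm Manifold

local notation "Δ" => ModularForm.discriminant

/-- the table of `D = ∏(1-qⁿ)^24` up to `q¹²`. -/
def hmDtab13 : List ℤ :=
  [1, -24, 252, -1472, 4830, -6048, -16744, 84480, -113643, -115920, 534612, -370944, -577738]

theorem hmTr_D13 : HMTr 13 ModularCurve.dedekindEtaUnit hmDtab13 :=
  (hmTr_D 13).congr (by decide +kernel)

/-- generic norm form: `-J² D D₃ + 2 q J M₁ + M₂² - q² D D₃ M₃²`. -/
def hmNorm3 (J M₁ M₂ M₃ : PowerSeries ℤ) : PowerSeries ℤ :=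
  X ^ 1 * (C (2 : ℤ) * (J * M₁)) + M₂ ^ 2 -
    (J ^ 2 * (ModularCurve.dedekindEtaUnit * hmDilPS 3 ModularCurve.dedekindEtaUnit) +
      X ^ 2 * (ModularCurve.dedekindEtaUnit * hmDilPS 3 ModularCurve.dedekindEtaUnit * M₃ ^ 2))

/-- the formal series of the first level-3 norm identity. -/
def hmF3 : PowerSeries ℤ :=
  hmNorm3 (ModularCurve.eisenstein4 ^ 3)
    (C (756 : ℤ) * (ModularCurve.dedekindEtaUnit ^ 2 * hmDilPS 3 ModularCurve.dedekindEtaUnit) +
      X ^ 2 * (C (19131876 : ℤ) *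
        (ModularCurve.dedekindEtaUnit * hmDilPS 3 ModularCurve.dedekindEtaUnit ^ 2)))
    (ModularCurve.dedekindEtaUnit ^ 2 +
      (X ^ 2 * (C (196830 : ℤ) *
          (ModularCurve.dedekindEtaUnit * hmDilPS 3 ModularCurve.dedekindEtaUnit)) +
        X ^ 4 * (C (387420489 : ℤ) * hmDilPS 3 ModularCurve.dedekindEtaUnit ^ 2)))
    (C (756 : ℤ) * ModularCurve.dedekindEtaUnit +
      X ^ 2 * (C (19131876 : ℤ) * hmDilPS 3 ModularCurve.dedekindEtaUnit))

/-- the formal series of the second level-3 norm identity. -/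
def hmF3b : PowerSeries ℤ :=
  hmNorm3 (hmDilPS 3 ModularCurve.eisenstein4 ^ 3)
    (ModularCurve.dedekindEtaUnit * hmDilPS 3 ModularCurve.dedekindEtaUnit *
      (C (36 : ℤ) * ModularCurve.dedekindEtaUnit +
        X ^ 2 * (C (756 : ℤ) * hmDilPS 3 ModularCurve.dedekindEtaUnit)))
    (ModularCurve.dedekindEtaUnit ^ 2 +
      (X ^ 2 * (C (270 : ℤ) *
          (ModularCurve.dedekindEtaUnit * hmDilPS 3 ModularCurve.dedekindEtaUnit)) +
        X ^ 4 * (C (729 : ℤ) * hmDilPS 3 ModularCurve.dedekindEtaUnit ^ 2)))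
    (C (36 : ℤ) * ModularCurve.dedekindEtaUnit +
      X ^ 2 * (C (756 : ℤ) * hmDilPS 3 ModularCurve.dedekindEtaUnit))

theorem hmTr_norm3 {n : ℕ} {J M₁ M₂ M₃ : PowerSeries ℤ} {lJ l₁ l₂ l₃ lD lD3 : List ℤ}
    (hD : HMTr n ModularCurve.dedekindEtaUnit lD)
    (hD3 : HMTr n (hmDilPS 3 ModularCurve.dedekindEtaUnit) lD3)
    (hJ : HMTr n J lJ) (h₁ : HMTr n M₁ l₁) (h₂ : HMTr n M₂ l₂) (h₃ : HMTr n M₃ l₃) :
    HMTr n (hmNorm3 J M₁ M₂ M₃)
      (hmSub n (hmAdd n (hmShift n 1 (hmSmul n 2 (hmMul n lJ l₁))) (hmPow n l₂ 2))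
        (hmAdd n (hmMul n (hmPow n lJ 2) (hmMul n lD lD3))
          (hmShift n 2 (hmMul n (hmMul n lD lD3) (hmPow n l₃ 2))))) :=
  ((((hJ.mul h₁).smul 2).shift 1).add (h₂.pow 2)).sub
    (((hJ.pow 2).mul (hD.mul hD3)).add ((((hD.mul hD3).mul (h₃.pow 2))).shift 2))

theorem hmF3_trunc : ∀ i, i < 13 → coeff i hmF3 = 0 := by
  have hE := hmTr_E4 13
  have hD := hmTr_D13
  have hD3 := hD.dil (d := 3) (by norm_num)
  have hJ := hE.pow 3
  have h₁ := (((hD.pow 2).mul hD3).smul 756).add ((((hD.mul (hD3.pow 2))).smul 19131876).shift 2)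
  have h₂ := (hD.pow 2).add ((((hD.mul hD3).smul 196830).shift 2).add
    (((hD3.pow 2).smul 387420489).shift 4))
  have h₃ := (hD.smul 756).add ((hD3.smul 19131876).shift 2)
  exact HMTr.eq_zero ((hmTr_norm3 hD hD3 hJ h₁ h₂ h₃).congr (by decide +kernel))

theorem hmF3b_trunc : ∀ i, i < 13 → coeff i hmF3b = 0 := by
  have hE := (hmTr_E4 13).dil (d := 3) (by norm_num)
  have hD := hmTr_D13
  have hD3 := hD.dil (d := 3) (by norm_num)
  have hJ := hE.pow 3
  have h₃ := (hD.smul 36).add ((hD3.smul 756).shift 2)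
  have h₁ := (hD.mul hD3).mul h₃
  have h₂ := (hD.pow 2).add ((((hD.mul hD3).smul 270).shift 2).add
    (((hD3.pow 2).smul 729).shift 4))
  exact HMTr.eq_zero ((hmTr_norm3 hD hD3 hJ h₁ h₂ h₃).congr (by decide +kernel))

/-! ### the analytic side -/

/-- analytic norm form. -/
def hmNorm3a (Ja M1a M2a M3a : ℍ → ℂ) : ℍ → ℂ :=
  (2 : ℂ) • (Ja * M1a) + M2a ^ 2 -
    (Ja ^ 2 * ((Δ : ℍ → ℂ) * deltaNFun 3) + (Δ : ℍ → ℂ) * deltaNFun 3 * M3a ^ 2)

theorem hm_isMF_norm3a {Ja M1a M2a M3a : ℍ → ℂ} (hJ : IsMF (G0 3) 12 Ja)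
    (h1 : IsMF (G0 3) 36 M1a) (h2 : IsMF (G0 3) 24 M2a) (h3 : IsMF (G0 3) 12 M3a) :
    IsMF (G0 3) 48 (hmNorm3a Ja M1a M2a M3a) := by
  have hΔ : IsMF (G0 3) 12 (Δ : ℍ → ℂ) := isMF_discriminant 3
  have hΔ3 : IsMF (G0 3) 12 (deltaNFun 3) := hm_isMF_DeltaN 3
  have a1 := ((hJ.mul h1).const_smul 2).of_weight_eq (show (12 : ℤ) + 36 = 48 by norm_num)
  have a2 := (h2.pow 2).of_weight_eq (show ((2 : ℕ) : ℤ) * 24 = 48 by norm_num)
  have a3 := ((hJ.pow 2).mul (hΔ.mul hΔ3)).of_weight_eq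
    (show ((2 : ℕ) : ℤ) * 12 + (12 + 12) = 48 by norm_num)
  have a4 := ((hΔ.mul hΔ3).mul (h3.pow 2)).of_weight_eq
    (show (12 : ℤ) + 12 + ((2 : ℕ) : ℤ) * 12 = 48 by norm_num)
  exact (a1.add a2).sub (a3.add a4)

theorem hm_qExp_norm3a {Ja M1a M2a M3a : ℍ → ℂ} {J M₁ M₂ M₃ : PowerSeries ℤ}
    (hJ : IsMF (G0 3) 12 Ja) (h1 : IsMF (G0 3) 36 M1a) (h2 : IsMF (G0 3) 24 M2a)
    (h3 : IsMF (G0 3) 12 M3a)
    (qJ : qExpansion 1 Ja = hmC J) (q1 : qExpansion 1 M1a = X ^ 5 * hmC M₁)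
    (q2 : qExpansion 1 M2a = X ^ 2 * hmC M₂) (q3 : qExpansion 1 M3a = X ^ 1 * hmC M₃) :
    qExpansion 1 (hmNorm3a Ja M1a M2a M3a) = X ^ 4 * hmC (hmNorm3 J M₁ M₂ M₃) := by
  have hΔ : IsMF (G0 3) 12 (Δ : ℍ → ℂ) := isMF_discriminant 3
  have hΔ3 : IsMF (G0 3) 12 (deltaNFun 3) := hm_isMF_DeltaN 3
  have a1 := (hJ.mul h1).const_smul 2
  have a2 := h2.pow 2
  have a3 := (hJ.pow 2).mul (hΔ.mul hΔ3)
  have a4 := (hΔ.mul hΔ3).mul (h3.pow 2)
  rw [hmNorm3a, (a1.add a2).qExpansion_sub (a3.add a4), a1.qExpansion_add a2,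
    a3.qExpansion_add a4, (hJ.mul h1).qExpansion_smul, hJ.qExpansion_mul h1,
    h2.qExpansion_pow, (hJ.pow 2).qExpansion_mul (hΔ.mul hΔ3), hJ.qExpansion_pow,
    hΔ.qExpansion_mul hΔ3, (hΔ.mul hΔ3).qExpansion_mul (h3.pow 2), hΔ.qExpansion_mul hΔ3,
    h3.qExpansion_pow, qJ, q1, q2, q3, hm_qExp_Delta, hm_qExp_DeltaN, hmNorm3]
  rw [PowerSeries.smul_eq_C_mul]
  simp only [map_sub, map_mul, map_pow, map_add, PowerSeries.map_X, map_ofNat]
  ring

/-- a form of weight 48 on `Γ₀(3)` of the shape `q⁴ · F` vanishes as soon as `F ≡ 0 mod q¹³`. -/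
theorem hm_level3_vanish {G : ℍ → ℂ} {F : PowerSeries ℤ} (hG : IsMF (G0 3) 48 G)
    (hq : qExpansion 1 G = X ^ 4 * hmC F) (hF : ∀ i, i < 13 → coeff i F = 0) : F = 0 := by
  have hq0 : qExpansion 1 G = 0 := by
    refine hm_sturm 3 hG 16 ?_ ?_
    · rw [hm_index3]; decide
    · intro n hn
      rw [hq, PowerSeries.coeff_X_pow_mul']
      split_ifs with h
      · rw [hmC, PowerSeries.coeff_map, hF _ (by omega)]
        simp
      · rfl
  rw [hq] at hq0
  have h2 : hmC F = 0 := by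
    rcases mul_eq_zero.mp hq0 with h | h
    · exact absurd h (pow_ne_zero 4 PowerSeries.X_ne_zero)
    · exact h
  exact hmC_injective (by rw [h2, map_zero])

/-- the monomial `c Δ^i Δ(3·)^j`. -/
def hmMono3 (c : ℤ) (i j : ℕ) : ℍ → ℂ := (c : ℂ) • ((Δ : ℍ → ℂ) ^ i * deltaNFun 3 ^ j)

theorem hm_isMF_mono3 (c : ℤ) (i j : ℕ) {k : ℤ} (hk : 12 * ((i : ℤ) + j) = k) :
    IsMF (G0 3) k (hmMono3 c i j) := by
  have hΔ : IsMF (G0 3) 12 (Δ : ℍ → ℂ) := isMF_discriminant 3
  have hΔ3 : IsMF (G0 3) 12 (deltaNFun 3) := hm_isMF_DeltaN 3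
  exact (((hΔ.pow i).mul (hΔ3.pow j)).const_smul c).of_weight_eq (by rw [← hk]; ring)

theorem hm_qExp_mono3 (c : ℤ) (i j : ℕ) :
    qExpansion 1 (hmMono3 c i j) =
      X ^ (i + 3 * j) * ((c : PowerSeries ℂ) * (hmC ModularCurve.dedekindEtaUnit ^ i *
        hmC (hmDilPS 3 ModularCurve.dedekindEtaUnit) ^ j)) := by
  have hΔ : IsMF (G0 3) 12 (Δ : ℍ → ℂ) := isMF_discriminant 3
  have hΔ3 : IsMF (G0 3) 12 (deltaNFun 3) := hm_isMF_DeltaN 3
  have a := (hΔ.pow i).mul (hΔ3.pow j)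
  rw [hmMono3, a.qExpansion_smul, (hΔ.pow i).qExpansion_mul (hΔ3.pow j), hΔ.qExpansion_pow,
    hΔ3.qExpansion_pow, hm_qExp_Delta, hm_qExp_DeltaN, PowerSeries.smul_eq_C_mul]
  have hc : (C (c : ℂ) : PowerSeries ℂ) = (c : PowerSeries ℂ) := by
    simp
  rw [hc]
  ring

/-! ### first identity -/

def hmM1a : ℍ → ℂ := hmMono3 756 2 1 + hmMono3 19131876 1 2
def hmM2a : ℍ → ℂ := hmMono3 1 2 0 + (hmMono3 196830 1 1 + hmMono3 387420489 0 2)
def hmM3a : ℍ → ℂ := hmMono3 756 1 0 + hmMono3 19131876 0 1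

/-- the analytic form of the first level-3 norm identity. -/
def hmG3 : ℍ → ℂ := hmNorm3a ((E₄ : ℍ → ℂ) ^ 3) hmM1a hmM2a hmM3a

theorem hm_isMF_M1a : IsMF (G0 3) 36 hmM1a :=
  (hm_isMF_mono3 _ _ _ (by norm_num)).add (hm_isMF_mono3 _ _ _ (by norm_num))

theorem hm_isMF_M2a : IsMF (G0 3) 24 hmM2a :=
  (hm_isMF_mono3 _ _ _ (by norm_num)).add
    ((hm_isMF_mono3 _ _ _ (by norm_num)).add (hm_isMF_mono3 _ _ _ (by norm_num)))

theorem hm_isMF_M3a : IsMF (G0 3) 12 hmM3a :=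
  (hm_isMF_mono3 _ _ _ (by norm_num)).add (hm_isMF_mono3 _ _ _ (by norm_num))

theorem hm_isMF_E4cube3 : IsMF (G0 3) 12 ((E₄ : ℍ → ℂ) ^ 3) :=
  ((hm_isMF_E4 3).pow 3).of_weight_eq (by norm_num)

theorem hm_qExp_G3 : qExpansion 1 hmG3 = X ^ 4 * hmC hmF3 := by
  refine hm_qExp_norm3a hm_isMF_E4cube3 hm_isMF_M1a hm_isMF_M2a hm_isMF_M3a ?_ ?_ ?_ ?_
  · rw [(hm_isMF_E4 3).qExpansion_pow, hm_qExp_E4, map_pow]
  · rw [hmM1a, (hm_isMF_mono3 756 2 1 (k := 36) (by norm_num)).qExpansion_add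
      (hm_isMF_mono3 19131876 1 2 (k := 36) (by norm_num)), hm_qExp_mono3, hm_qExp_mono3]
    simp only [map_mul, map_pow, map_add, PowerSeries.map_X, map_ofNat, Int.cast_ofNat]
    ring
  · rw [hmM2a, (hm_isMF_mono3 1 2 0 (k := 24) (by norm_num)).qExpansion_add
      ((hm_isMF_mono3 196830 1 1 (k := 24) (by norm_num)).add
        (hm_isMF_mono3 387420489 0 2 (k := 24) (by norm_num))),
      (hm_isMF_mono3 196830 1 1 (k := 24) (by norm_num)).qExpansion_add
        (hm_isMF_mono3 387420489 0 2 (k := 24) (by norm_num)),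
      hm_qExp_mono3, hm_qExp_mono3, hm_qExp_mono3]
    simp only [map_mul, map_pow, map_add, PowerSeries.map_X, map_ofNat, Int.cast_ofNat,
      Int.cast_one]
    ring
  · rw [hmM3a, (hm_isMF_mono3 756 1 0 (k := 12) (by norm_num)).qExpansion_add
      (hm_isMF_mono3 19131876 0 1 (k := 12) (by norm_num)), hm_qExp_mono3, hm_qExp_mono3]
    simp only [map_mul, map_pow, map_add, PowerSeries.map_X, map_ofNat, Int.cast_ofNat]
    ring

/-- **Level 3, first norm identity** (formal). -/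
theorem hm_level3_formal : hmF3 = 0 :=
  hm_level3_vanish
    (hm_isMF_norm3a hm_isMF_E4cube3 hm_isMF_M1a hm_isMF_M2a hm_isMF_M3a) hm_qExp_G3 hmF3_trunc

/-! ### second identity -/

def hmM1b : ℍ → ℂ := hmMono3 36 2 1 + hmMono3 756 1 2
def hmM2b : ℍ → ℂ := hmMono3 1 2 0 + (hmMono3 270 1 1 + hmMono3 729 0 2)
def hmM3b : ℍ → ℂ := hmMono3 36 1 0 + hmMono3 756 0 1

/-- the analytic form of the second level-3 norm identity. -/
def hmG3b : ℍ → ℂ := hmNorm3a (hmE4N 3 ^ 3) hmM1b hmM2b hmM3b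

theorem hm_isMF_M1b : IsMF (G0 3) 36 hmM1b :=
  (hm_isMF_mono3 _ _ _ (by norm_num)).add (hm_isMF_mono3 _ _ _ (by norm_num))

theorem hm_isMF_M2b : IsMF (G0 3) 24 hmM2b :=
  (hm_isMF_mono3 _ _ _ (by norm_num)).add
    ((hm_isMF_mono3 _ _ _ (by norm_num)).add (hm_isMF_mono3 _ _ _ (by norm_num)))

theorem hm_isMF_M3b : IsMF (G0 3) 12 hmM3b :=
  (hm_isMF_mono3 _ _ _ (by norm_num)).add (hm_isMF_mono3 _ _ _ (by norm_num))

theorem hm_isMF_E4Ncube3 : IsMF (G0 3) 12 (hmE4N 3 ^ 3) :=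
  ((hm_isMF_E4N 3).pow 3).of_weight_eq (by norm_num)

theorem hm_qExp_G3b : qExpansion 1 hmG3b = X ^ 4 * hmC hmF3b := by
  refine hm_qExp_norm3a hm_isMF_E4Ncube3 hm_isMF_M1b hm_isMF_M2b hm_isMF_M3b ?_ ?_ ?_ ?_
  · rw [(hm_isMF_E4N 3).qExpansion_pow, hm_qExp_E4N, map_pow]
  · rw [hmM1b, (hm_isMF_mono3 36 2 1 (k := 36) (by norm_num)).qExpansion_add
      (hm_isMF_mono3 756 1 2 (k := 36) (by norm_num)), hm_qExp_mono3, hm_qExp_mono3]
    simp only [map_mul, map_pow, map_add, PowerSeries.map_X, map_ofNat, Int.cast_ofNat]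
    ring
  · rw [hmM2b, (hm_isMF_mono3 1 2 0 (k := 24) (by norm_num)).qExpansion_add
      ((hm_isMF_mono3 270 1 1 (k := 24) (by norm_num)).add
        (hm_isMF_mono3 729 0 2 (k := 24) (by norm_num))),
      (hm_isMF_mono3 270 1 1 (k := 24) (by norm_num)).qExpansion_add
        (hm_isMF_mono3 729 0 2 (k := 24) (by norm_num)),
      hm_qExp_mono3, hm_qExp_mono3, hm_qExp_mono3]
    simp only [map_mul, map_pow, map_add, PowerSeries.map_X, map_ofNat, Int.cast_ofNat,
      Int.cast_one]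
    ring
  · rw [hmM3b, (hm_isMF_mono3 36 1 0 (k := 12) (by norm_num)).qExpansion_add
      (hm_isMF_mono3 756 0 1 (k := 12) (by norm_num)), hm_qExp_mono3, hm_qExp_mono3]
    simp only [map_mul, map_pow, map_add, PowerSeries.map_X, map_ofNat, Int.cast_ofNat]
    ring

/-- **Level 3, second norm identity** (formal). -/
theorem hm_level3b_formal : hmF3b = 0 :=
  hm_level3_vanish
    (hm_isMF_norm3a hm_isMF_E4Ncube3 hm_isMF_M1b hm_isMF_M2b hm_isMF_M3b) hm_qExp_G3b hmF3b_trunc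

end Fermat.Agent.INJ.HM

end
end ZBS20_001_16

/-! ### bundled: `Fermat.Agent.INJ.Hauptmodul` -/
section ZBS20_001_17

/-!
# INJ / B-I3 — the Hauptmoduln of `X₀(2)` and `X₀(3)` as Laurent series over any commutative ring

* `hm2 K = q⁻¹ ∏ ((1-qⁿ)/(1-q²ⁿ))²⁴`, `hm3 K = q⁻¹ ∏ ((1-qⁿ)/(1-q³ⁿ))¹²`  (`K` any commutative ring),
  `hm2_eq`, `hm3_eq` : `hmN K = single (-1) 1 * ofPowerSeries (unit with constant coefficient 1)`,
  `hm2_map`, `hm3_map` : compatibility with `coeffMap`.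
* `hm2_j  : jqModC K * hm2 K ^ 2 = (hm2 K + 256) ^ 3`
* `hm2_j2 : jqNModC K 2 * hm2 K = (hm2 K + 16) ^ 3`
* `hm3_j  : jqModC K * hm3 K ^ 3 = (hm3 K + 27) * (hm3 K + 243) ^ 3`
* `hm3_j3 : jqNModC K 3 * hm3 K = (hm3 K + 27) * (hm3 K + 3) ^ 3`
-/

set_option autoImplicit false

noncomputable section

namespace Fermat.Agent.INJ

open PowerSeries HahnSeries ModularCurve Fermat.Agent.INJ.HM

/-! ### power series preliminaries -/

theorem hm_constantCoeff_dil (N : ℕ) (F : PowerSeries ℤ) :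
    PowerSeries.constantCoeff (hmDilPS N F) = PowerSeries.constantCoeff F := by
  rw [← PowerSeries.coeff_zero_eq_constantCoeff_apply, coeff_hmDilPS, if_pos (dvd_zero N),
    Nat.zero_div, PowerSeries.coeff_zero_eq_constantCoeff_apply]

/-- the inverse of `F(q^N)` for a series `F` with constant coefficient `1`. -/
def hmInvDil (N : ℕ) (F : PowerSeries ℤ) : PowerSeries ℤ := (hmDilPS N F).invOfUnit 1

theorem hm_dil_mul_inv (N : ℕ) {F : PowerSeries ℤ} (hF : PowerSeries.constantCoeff F = 1) :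
    hmDilPS N F * hmInvDil N F = 1 :=
  PowerSeries.mul_invOfUnit _ _ (by rw [hm_constantCoeff_dil, hF]; rfl)

theorem hm_constantCoeff_invDil (N : ℕ) {F : PowerSeries ℤ}
    (hF : PowerSeries.constantCoeff F = 1) : PowerSeries.constantCoeff (hmInvDil N F) = 1 := by
  have h := congrArg (PowerSeries.constantCoeff (R := ℤ)) (hm_dil_mul_inv N hF)
  rwa [map_mul, hm_constantCoeff_dil, hF, one_mul, map_one] at h

/-- unit part of the Hauptmodul of level 2: `D(q)/D(q²)`. -/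
def hm2U : PowerSeries ℤ := dedekindEtaUnit * hmInvDil 2 dedekindEtaUnit

/-- unit part of the Hauptmodul of level 3: `(e(q)/e(q³))¹²`, `e = ∏ (1 - qⁿ)`. -/
def hm3U : PowerSeries ℤ := etaProd ^ 12 * hmInvDil 3 etaProd ^ 12

theorem constantCoeff_hm2U : PowerSeries.constantCoeff hm2U = 1 := by
  rw [hm2U, map_mul, constantCoeff_dedekindEtaUnit,
    hm_constantCoeff_invDil 2 constantCoeff_dedekindEtaUnit, one_mul]

theorem constantCoeff_hm3U : PowerSeries.constantCoeff hm3U = 1 := by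
  rw [hm3U, map_mul, map_pow, map_pow, constantCoeff_etaProd,
    hm_constantCoeff_invDil 3 constantCoeff_etaProd, one_pow, one_mul]

/-! ### commutative algebra -/

theorem hm_alg2 {R : Type*} [CommRing R] [IsDomain R] (J E3 D D2 u c0 : R)
    (hJ : E3 = J * D) (hu : D = u * D2) (h3 : E3 * D * D2 = (D + c0 * D2) ^ 3) (hD2 : D2 ≠ 0) :
    J * u ^ 2 = (u + c0) ^ 3 := by
  subst hJ
  subst hu
  have h : (J * u ^ 2 - (u + c0) ^ 3) * D2 ^ 3 = 0 := by linear_combination h3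
  rcases mul_eq_zero.mp h with h | h
  · exact sub_eq_zero.mp h
  · exact absurd h (pow_ne_zero 3 hD2)

theorem hm_alg2b {R : Type*} [CommRing R] [IsDomain R] (J2 E3 D D2 u c0 : R)
    (hJ : E3 = J2 * D2) (hu : D = u * D2) (h3 : E3 * D * D2 = (D + c0 * D2) ^ 3) (hD2 : D2 ≠ 0) :
    J2 * u = (u + c0) ^ 3 := by
  subst hJ
  subst hu
  have h : (J2 * u - (u + c0) ^ 3) * D2 ^ 3 = 0 := by linear_combination h3
  rcases mul_eq_zero.mp h with h | h
  · exact sub_eq_zero.mp h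
  · exact absurd h (pow_ne_zero 3 hD2)

/-- the norm trick: `P₊ · P₋ = 0`, `P₋ ≠ 0` ⇒ `P₊ = 0`. -/
theorem hm_alg3 {R : Type*} [CommRing R] [IsDomain R] (J E3 D D3 u X : R)
    (a b c d e : R) (hJ : E3 = J * D) (hu : D = u ^ 2 * D3)
    (hB : ∀ t : R, (u + 27 * t) * (u + 243 * t) ^ 3 =
      u ^ 4 + a * t * u ^ 3 + c * t ^ 2 * u ^ 2 + b * t ^ 3 * u + d * t ^ 4)
    (hF : X * (2 * (E3 * (a * (D ^ 2 * D3) + X ^ 2 * (b * (D * D3 ^ 2))))) +
        (D ^ 2 + (X ^ 2 * (c * (D * D3)) + X ^ 4 * (d * D3 ^ 2))) ^ 2 -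
        (E3 ^ 2 * (D * D3) + X ^ 2 * (D * D3 * (a * D + X ^ 2 * (b * D3)) ^ 2)) = e)
    (he : e = 0) (hD3 : D3 ≠ 0)
    (hm : -(J * u ^ 3) - (u - 27 * X) * (u - 243 * X) ^ 3 ≠ 0) :
    J * u ^ 3 = (u + 27 * X) * (u + 243 * X) ^ 3 := by
  subst hJ
  subst hu
  subst he
  have h1 := hB X
  have h2 := hB (-X)
  have h : (J * u ^ 3 - (u + 27 * X) * (u + 243 * X) ^ 3) *
      (-(J * u ^ 3) - (u - 27 * X) * (u - 243 * X) ^ 3) * D3 ^ 4 = 0 := by
    have e1 : (u - 27 * X) * (u - 243 * X) ^ 3 =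
        u ^ 4 - a * X * u ^ 3 + c * X ^ 2 * u ^ 2 - b * X ^ 3 * u + d * X ^ 4 := by
      linear_combination h2
    rw [h1, e1]
    linear_combination hF
  rcases mul_eq_zero.mp h with h | h
  · rcases mul_eq_zero.mp h with h | h
    · exact sub_eq_zero.mp h
    · exact absurd h hm
  · exact absurd h (pow_ne_zero 4 hD3)

theorem hm_alg3b {R : Type*} [CommRing R] [IsDomain R] (J3 E3 D D3 u X : R)
    (a b c d e : R) (hJ : E3 = J3 * D3) (hu : D = u ^ 2 * D3)
    (hB : ∀ t : R, (u + 27 * t) * (u + 3 * t) ^ 3 =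
      u ^ 4 + a * t * u ^ 3 + c * t ^ 2 * u ^ 2 + b * t ^ 3 * u + d * t ^ 4)
    (hF : X * (2 * (E3 * (D * D3 * (a * D + X ^ 2 * (b * D3))))) +
        (D ^ 2 + (X ^ 2 * (c * (D * D3)) + X ^ 4 * (d * D3 ^ 2))) ^ 2 -
        (E3 ^ 2 * (D * D3) + X ^ 2 * (D * D3 * (a * D + X ^ 2 * (b * D3)) ^ 2)) = e)
    (he : e = 0) (hD3 : D3 ≠ 0)
    (hm : -(J3 * u) - (u - 27 * X) * (u - 3 * X) ^ 3 ≠ 0) :
    J3 * u = (u + 27 * X) * (u + 3 * X) ^ 3 := by
  subst hJ
  subst hu
  subst he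
  have h1 := hB X
  have h2 := hB (-X)
  have h : (J3 * u - (u + 27 * X) * (u + 3 * X) ^ 3) *
      (-(J3 * u) - (u - 27 * X) * (u - 3 * X) ^ 3) * D3 ^ 4 = 0 := by
    have e1 : (u - 27 * X) * (u - 3 * X) ^ 3 =
        u ^ 4 - a * X * u ^ 3 + c * X ^ 2 * u ^ 2 - b * X ^ 3 * u + d * X ^ 4 := by
      linear_combination h2
    rw [h1, e1]
    linear_combination hF
  rcases mul_eq_zero.mp h with h | h
  · rcases mul_eq_zero.mp h with h | h
    · exact sub_eq_zero.mp h
    · exact absurd h hm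
  · exact absurd h (pow_ne_zero 4 hD3)

/-! ### the power series identities -/

theorem hm_ne_zero_of_constantCoeff {F : PowerSeries ℤ} {c : ℤ} (hc : c ≠ 0)
    (hF : PowerSeries.constantCoeff F = c) : F ≠ 0 := by
  rintro rfl
  exact hc (by rw [← hF, map_zero])

theorem hm_E_eq : eisenstein4 ^ 3 = jNum * dedekindEtaUnit := by
  rw [jNum, mul_assoc, mul_comm dedekindEtaUnitInv, dedekindEtaUnit_mul_inv, mul_one]

theorem hm_D_eq2 : dedekindEtaUnit = hm2U * hmDilPS 2 dedekindEtaUnit := by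
  rw [hm2U, mul_assoc, mul_comm (hmInvDil 2 _), hm_dil_mul_inv 2 constantCoeff_dedekindEtaUnit,
    mul_one]

theorem hm_dil_E_eq (N : ℕ) (hN : N ≠ 0) :
    hmDilPS N eisenstein4 ^ 3 = hmDilPS N jNum * hmDilPS N dedekindEtaUnit := by
  rw [← hmDilPS_pow N hN, ← hmDilPS_mul N hN, hm_E_eq]

theorem hm_D_eq3 : dedekindEtaUnit = hm3U ^ 2 * hmDilPS 3 dedekindEtaUnit := by
  have h1 : hmDilPS 3 dedekindEtaUnit = hmDilPS 3 etaProd ^ 24 := by
    rw [dedekindEtaUnit, hmDilPS_pow 3 (by norm_num)]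
  have h2 := hm_dil_mul_inv 3 constantCoeff_etaProd
  rw [h1, hm3U, dedekindEtaUnit]
  calc etaProd ^ 24 = etaProd ^ 24 * (hmDilPS 3 etaProd * hmInvDil 3 etaProd) ^ 24 := by
        rw [h2, one_pow, mul_one]
    _ = (etaProd ^ 12 * hmInvDil 3 etaProd ^ 12) ^ 2 * hmDilPS 3 etaProd ^ 24 := by ring

/-- level 2, `d = 1`, power series form. -/
theorem hm2U_j : jNum * hm2U ^ 2 = (hm2U + PowerSeries.C (256 : ℤ) * X) ^ 3 := by
  refine hm_alg2 jNum (eisenstein4 ^ 3) dedekindEtaUnit (hmDilPS 2 dedekindEtaUnit) hm2U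
    (PowerSeries.C (256 : ℤ) * X) hm_E_eq hm_D_eq2 ?_ ?_
  · have := hm_level2_formal
    rw [this]; ring
  · exact hm_ne_zero_of_constantCoeff one_ne_zero
      (by rw [hm_constantCoeff_dil, constantCoeff_dedekindEtaUnit])

/-- level 2, `d = 2`, power series form. -/
theorem hm2U_j2 : hmDilPS 2 jNum * hm2U = (hm2U + PowerSeries.C (16 : ℤ) * X) ^ 3 := by
  refine hm_alg2b (hmDilPS 2 jNum) (hmDilPS 2 eisenstein4 ^ 3) dedekindEtaUnit
    (hmDilPS 2 dedekindEtaUnit) hm2U (PowerSeries.C (16 : ℤ) * X) (hm_dil_E_eq 2 (by norm_num)) hm_D_eq2 ?_ ?_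
  · have := hm_level2b_formal
    rw [this]; ring
  · exact hm_ne_zero_of_constantCoeff one_ne_zero
      (by rw [hm_constantCoeff_dil, constantCoeff_dedekindEtaUnit])

theorem hm_constantCoeff_X_mul (c : ℤ) :
    PowerSeries.constantCoeff (PowerSeries.C c * (X : PowerSeries ℤ)) = 0 := by
  simp

/-- level 3, `d = 1`, power series form. -/
theorem hm3U_j :
    jNum * hm3U ^ 3 = (hm3U + PowerSeries.C (27 : ℤ) * X) * (hm3U + PowerSeries.C (243 : ℤ) * X) ^ 3 := by
  have key := hm_alg3 jNum (eisenstein4 ^ 3) dedekindEtaUnit (hmDilPS 3 dedekindEtaUnit) hm3U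
    (X : PowerSeries ℤ) 756 19131876 196830 387420489 hmF3 hm_E_eq hm_D_eq3
    (fun t => by ring) ?_ hm_level3_formal ?_ ?_
  · rw [key]
    simp only [map_ofNat]
  · rw [hmF3, hmNorm3]
    simp only [map_ofNat]
    ring
  · exact hm_ne_zero_of_constantCoeff one_ne_zero
      (by rw [hm_constantCoeff_dil, constantCoeff_dedekindEtaUnit])
  · refine hm_ne_zero_of_constantCoeff (c := -2) (by norm_num) ?_
    simp [constantCoeff_hm3U]

/-- level 3, `d = 3`, power series form. -/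
theorem hm3U_j3 :
    hmDilPS 3 jNum * hm3U = (hm3U + PowerSeries.C (27 : ℤ) * X) * (hm3U + PowerSeries.C (3 : ℤ) * X) ^ 3 := by
  have key := hm_alg3b (hmDilPS 3 jNum) (hmDilPS 3 eisenstein4 ^ 3) dedekindEtaUnit
    (hmDilPS 3 dedekindEtaUnit) hm3U
    (X : PowerSeries ℤ) 36 756 270 729 hmF3b (hm_dil_E_eq 3 (by norm_num)) hm_D_eq3
    (fun t => by ring) ?_ hm_level3b_formal ?_ ?_
  · rw [key]
    simp only [map_ofNat]
  · rw [hmF3b, hmNorm3]
    simp only [map_ofNat]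
    ring
  · exact hm_ne_zero_of_constantCoeff one_ne_zero
      (by rw [hm_constantCoeff_dil, constantCoeff_dedekindEtaUnit])
  · refine hm_ne_zero_of_constantCoeff (c := -2) (by norm_num) ?_
    simp [constantCoeff_hm3U, hm_constantCoeff_dil]

/-! ### Laurent series over `ℤ` -/

/-- `q⁻¹` in `ℤ((q))`. -/
def hmQinv : LaurentSeries ℤ := HahnSeries.single (-1 : ℤ) (1 : ℤ)

/-- the embedding `ℤ[[q]] → ℤ((q))`. -/
abbrev hmPhi : PowerSeries ℤ →+* LaurentSeries ℤ := HahnSeries.ofPowerSeries ℤ ℤ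

theorem hmQinv_mul_X : hmQinv * hmPhi PowerSeries.X = 1 := by
  rw [hmQinv, hmPhi, HahnSeries.ofPowerSeries_X, HahnSeries.single_mul_single]
  simp

theorem hm_jqModC_int : jqModC ℤ = hmQinv * hmPhi jNum := by
  rw [jqModC, hmQinv, hmPhi]
  congr 2

theorem hm_qExpand_phi (N : ℕ) [NeZero N] (u : PowerSeries ℤ) :
    qExpand ℤ N (hmPhi u) = hmPhi (hmDilPS N u) := by
  have hN : (N : ℤ) ≠ 0 := by exact_mod_cast NeZero.ne N
  have hNpos : (0 : ℤ) < N := by exact_mod_cast Nat.pos_of_ne_zero (NeZero.ne N)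
  ext k
  by_cases hk : (N : ℤ) ∣ k
  · obtain ⟨m, rfl⟩ := hk
    rw [qExpand_coeff_mul]
    rcases le_or_gt 0 m with hm | hm
    · lift m to ℕ using hm
      rw [hmPhi, HahnSeries.ofPowerSeries_apply_coeff,
        show (N : ℤ) * (m : ℤ) = ((N * m : ℕ) : ℤ) by push_cast; ring,
        HahnSeries.ofPowerSeries_apply_coeff, coeff_hmDilPS, if_pos (dvd_mul_right N m),
        Nat.mul_div_cancel_left _ (Nat.pos_of_ne_zero (NeZero.ne N))]
    · rw [hmPhi, ofPowerSeries_coeff_of_neg _ hm,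
        ofPowerSeries_coeff_of_neg _ (mul_neg_of_pos_of_neg hNpos hm)]
  · rw [qExpand_coeff_of_not_dvd N _ hk]
    rcases le_or_gt 0 k with hk0 | hk0
    · lift k to ℕ using hk0
      have hk' : ¬ N ∣ k := fun h => hk (Int.natCast_dvd_natCast.mpr h)
      rw [hmPhi, HahnSeries.ofPowerSeries_apply_coeff, coeff_hmDilPS, if_neg hk']
    · rw [hmPhi, ofPowerSeries_coeff_of_neg _ hk0]

theorem hm_qExpand_qinv (N : ℕ) [NeZero N] : qExpand ℤ N hmQinv = hmQinv ^ N := by
  rw [hmQinv, qExpand_single, HahnSeries.single_pow, one_pow]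
  congr 1

theorem hm_jqNModC_int (N : ℕ) [NeZero N] :
    jqNModC ℤ N = hmQinv ^ N * hmPhi (hmDilPS N jNum) := by
  rw [jqNModC, hm_jqModC_int, map_mul, hm_qExpand_qinv, hm_qExpand_phi]

/-- the Hauptmodul of `X₀(2)` over `ℤ`: `q⁻¹ ∏ ((1-qⁿ)/(1-q²ⁿ))²⁴`. -/
def hm2Z : LaurentSeries ℤ := hmQinv * hmPhi hm2U

/-- the Hauptmodul of `X₀(3)` over `ℤ`: `q⁻¹ ∏ ((1-qⁿ)/(1-q³ⁿ))¹²`. -/
def hm3Z : LaurentSeries ℤ := hmQinv * hmPhi hm3U

theorem hm2Z_j : jqModC ℤ * hm2Z ^ 2 = (hm2Z + 256) ^ 3 := by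
  have key := congrArg hmPhi hm2U_j
  simp only [map_mul, map_pow, map_add, map_ofNat] at key
  rw [hm_jqModC_int, hm2Z]
  calc hmQinv * hmPhi jNum * (hmQinv * hmPhi hm2U) ^ 2
      = hmQinv ^ 3 * (hmPhi jNum * hmPhi hm2U ^ 2) := by ring
    _ = (hmQinv * hmPhi hm2U + 256 * (hmQinv * hmPhi PowerSeries.X)) ^ 3 := by rw [key]; ring
    _ = _ := by rw [hmQinv_mul_X, mul_one]

theorem hm2Z_j2 : jqNModC ℤ 2 * hm2Z = (hm2Z + 16) ^ 3 := by
  have key := congrArg hmPhi hm2U_j2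
  simp only [map_mul, map_pow, map_add, map_ofNat] at key
  rw [hm_jqNModC_int, hm2Z]
  calc hmQinv ^ 2 * hmPhi (hmDilPS 2 jNum) * (hmQinv * hmPhi hm2U)
      = hmQinv ^ 3 * (hmPhi (hmDilPS 2 jNum) * hmPhi hm2U) := by ring
    _ = (hmQinv * hmPhi hm2U + 16 * (hmQinv * hmPhi PowerSeries.X)) ^ 3 := by rw [key]; ring
    _ = _ := by rw [hmQinv_mul_X, mul_one]

theorem hm3Z_j : jqModC ℤ * hm3Z ^ 3 = (hm3Z + 27) * (hm3Z + 243) ^ 3 := by
  have key := congrArg hmPhi hm3U_j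
  simp only [map_mul, map_pow, map_add, map_ofNat] at key
  rw [hm_jqModC_int, hm3Z]
  calc hmQinv * hmPhi jNum * (hmQinv * hmPhi hm3U) ^ 3
      = hmQinv ^ 4 * (hmPhi jNum * hmPhi hm3U ^ 3) := by ring
    _ = (hmQinv * hmPhi hm3U + 27 * (hmQinv * hmPhi PowerSeries.X)) *
          (hmQinv * hmPhi hm3U + 243 * (hmQinv * hmPhi PowerSeries.X)) ^ 3 := by rw [key]; ring
    _ = _ := by rw [hmQinv_mul_X, mul_one, mul_one]

theorem hm3Z_j3 : jqNModC ℤ 3 * hm3Z = (hm3Z + 27) * (hm3Z + 3) ^ 3 := by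
  have key := congrArg hmPhi hm3U_j3
  simp only [map_mul, map_pow, map_add, map_ofNat] at key
  rw [hm_jqNModC_int, hm3Z]
  calc hmQinv ^ 3 * hmPhi (hmDilPS 3 jNum) * (hmQinv * hmPhi hm3U)
      = hmQinv ^ 4 * (hmPhi (hmDilPS 3 jNum) * hmPhi hm3U) := by ring
    _ = (hmQinv * hmPhi hm3U + 27 * (hmQinv * hmPhi PowerSeries.X)) *
          (hmQinv * hmPhi hm3U + 3 * (hmQinv * hmPhi PowerSeries.X)) ^ 3 := by rw [key]; ring
    _ = _ := by rw [hmQinv_mul_X, mul_one, mul_one]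

/-! ### any coefficient ring -/

section General

variable (K : Type*) [CommRing K]

/-- the Hauptmodul of `X₀(2)`, `q⁻¹ ∏ ((1-qⁿ)/(1-q²ⁿ))²⁴`, as a Laurent series over `K`. -/
def hm2 : LaurentSeries K := coeffMap (Int.castRingHom K) hm2Z

/-- the Hauptmodul of `X₀(3)`, `q⁻¹ ∏ ((1-qⁿ)/(1-q³ⁿ))¹²`, as a Laurent series over `K`. -/
def hm3 : LaurentSeries K := coeffMap (Int.castRingHom K) hm3Z

theorem hm_coeffMap_jqModC : coeffMap (Int.castRingHom K) (jqModC ℤ) = jqModC K :=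
  map_jqModC (Int.castRingHom K)

theorem hm_coeffMap_jqNModC (N : ℕ) [NeZero N] :
    coeffMap (Int.castRingHom K) (jqNModC ℤ N) = jqNModC K N := by
  rw [jqNModC, ModularCurve.coeffMap_qExpand, hm_coeffMap_jqModC, jqNModC]

/-- **Level 2**: `j · h² = (h + 256)³`. -/
theorem hm2_j : jqModC K * hm2 K ^ 2 = (hm2 K + 256) ^ 3 := by
  have := congrArg (coeffMap (Int.castRingHom K)) hm2Z_j
  simpa only [map_mul, map_pow, map_add, map_ofNat, hm_coeffMap_jqModC, hm2] using this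

/-- **Level 2**: `j(q²) · h = (h + 16)³`. -/
theorem hm2_j2 : jqNModC K 2 * hm2 K = (hm2 K + 16) ^ 3 := by
  have := congrArg (coeffMap (Int.castRingHom K)) hm2Z_j2
  simpa only [map_mul, map_pow, map_add, map_ofNat, hm_coeffMap_jqNModC, hm2] using this

/-- **Level 3**: `j · h³ = (h + 27)(h + 243)³`. -/
theorem hm3_j : jqModC K * hm3 K ^ 3 = (hm3 K + 27) * (hm3 K + 243) ^ 3 := by
  have := congrArg (coeffMap (Int.castRingHom K)) hm3Z_j
  simpa only [map_mul, map_pow, map_add, map_ofNat, hm_coeffMap_jqModC, hm3] using this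

/-- **Level 3**: `j(q³) · h = (h + 27)(h + 3)³`. -/
theorem hm3_j3 : jqNModC K 3 * hm3 K = (hm3 K + 27) * (hm3 K + 3) ^ 3 := by
  have := congrArg (coeffMap (Int.castRingHom K)) hm3Z_j3
  simpa only [map_mul, map_pow, map_add, map_ofNat, hm_coeffMap_jqNModC, hm3] using this

variable {K}

theorem hm2_map {K' : Type*} [CommRing K'] (f : K →+* K') : coeffMap f (hm2 K) = hm2 K' := by
  rw [hm2, hm2, coeffMap_coeffMap]
  exact coeffMap_congr (RingHom.ext_int _ _) _

theorem hm3_map {K' : Type*} [CommRing K'] (f : K →+* K') : coeffMap f (hm3 K) = hm3 K' := by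
  rw [hm3, hm3, coeffMap_coeffMap]
  exact coeffMap_congr (RingHom.ext_int _ _) _

variable (K)

theorem hm_coeffMap_phi (u : PowerSeries ℤ) :
    coeffMap (Int.castRingHom K) (hmPhi u) =
      HahnSeries.ofPowerSeries ℤ K (u.map (Int.castRingHom K)) := by
  ext k
  rw [coeffMap_coeff]
  rcases le_or_gt 0 k with hk | hk
  · lift k to ℕ using hk
    rw [hmPhi, HahnSeries.ofPowerSeries_apply_coeff, HahnSeries.ofPowerSeries_apply_coeff,
      PowerSeries.coeff_map]
  · rw [hmPhi, ofPowerSeries_coeff_of_neg _ hk, ofPowerSeries_coeff_of_neg _ hk, map_zero]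

/-- `hm2 K = q⁻¹ · (unit power series with integral coefficients, constant coefficient 1)`. -/
theorem hm2_eq : hm2 K = HahnSeries.single (-1 : ℤ) 1 *
    HahnSeries.ofPowerSeries ℤ K (hm2U.map (Int.castRingHom K)) := by
  rw [hm2, hm2Z, map_mul, hm_coeffMap_phi, hmQinv, coeffMap_single, map_one]

/-- `hm3 K = q⁻¹ · (unit power series with integral coefficients, constant coefficient 1)`. -/
theorem hm3_eq : hm3 K = HahnSeries.single (-1 : ℤ) 1 *
    HahnSeries.ofPowerSeries ℤ K (hm3U.map (Int.castRingHom K)) := by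
  rw [hm3, hm3Z, map_mul, hm_coeffMap_phi, hmQinv, coeffMap_single, map_one]

end General

end Fermat.Agent.INJ

end
end ZBS20_001_17

/-! ### bundled: `Fermat.Agent.ES.M.FrickeAut` -/
section ZBS20_001_18
/-
ES / M (route 2), piece `StmtFricke`, part A (helper83): the Fricke involution of
`F_N = ℚ̄(j(q^d) : d ∣ N)`.

`frickeAut N : FF N ≃ₐ[Kb] FF N` with `frickeAut N (j(q^d)) = j(q^(N/d))`, an involution.

Route (as in `ES/G2/Swap.lean`): a polynomial relation between the `j(q^d)` over `ℚ̄` is a relation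
between the functions `J(dτ)` on `ℍ` (`S24.bridge_iff`); substitute `τ ↦ -1/(Nτ)`.
-/

set_option autoImplicit false

noncomputable section

namespace Fermat.Agent.ES.M

open UpperHalfPlane ModularCurve Fermat.Agent.S24 Fermat.Agent.S23 Fermat.Agent.S28
open Fermat.Agent.ES.G2

attribute [local instance] algKbC

variable {N : ℕ}

/-- `d ↦ N / d` on the divisors of `N`. -/
def frDv (d : Dv N) : Dv N := ⟨N / d.1, Nat.div_dvd_of_dvd d.2⟩

theorem frDv_val (d : Dv N) : (frDv d).1 = N / d.1 := rfl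

theorem frDv_frDv [NeZero N] (d : Dv N) : frDv (frDv d) = d := by
  apply Subtype.ext
  show N / (N / d.1) = d.1
  exact Nat.div_div_self d.2 (NeZero.ne N)

theorem frDv_mul [NeZero N] (d : Dv N) : d.1 * (frDv d).1 = N :=
  Nat.mul_div_cancel' d.2

/-- The analytic Fricke substitution: `J(d · (-1/(Nτ))) = J((N/d) τ)`. -/
theorem fr_Jdfam [NeZero N] (d : Dv N) (τ : ℍ) :
    Jdfam N d (fricke N τ) = Jdfam N (frDv d) τ := by
  have hN0 : N ≠ 0 := NeZero.ne N
  have hd0 : d.1 ≠ 0 := fun h0 => hN0 (by have := frDv_mul d; rw [h0, zero_mul] at this; exact this.symm)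
  have he0 : (frDv d).1 ≠ 0 := fun h0 => hN0 (by
    have := frDv_mul d; rw [h0, mul_zero] at this; exact this.symm)
  have : NeZero (frDv d).1 := ⟨he0⟩
  show Jd d.1 (fricke N τ) = Jd (frDv d).1 τ
  have hτ : (τ : ℂ) ≠ 0 := UpperHalfPlane.ne_zero τ
  -- the point `S • ((N/d) τ)`
  have h1 : Jd d.1 (fricke N τ) = Jfun (ModularGroup.S • scaleN (frDv d).1 τ) := by
    apply swap_Jd_eq hd0
    rw [coe_S_smul, coe_scaleN, coe_fricke]
    have hNe : (N : ℂ) = (d.1 : ℂ) * ((frDv d).1 : ℂ) := by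
      exact_mod_cast (frDv_mul d).symm
    have hdC : (d.1 : ℂ) ≠ 0 := by exact_mod_cast hd0
    have heC : ((frDv d).1 : ℂ) ≠ 0 := by exact_mod_cast he0
    rw [hNe]
    field_simp
  have h2 : Jd (frDv d).1 τ = Jfun (scaleN (frDv d).1 τ) := by
    apply swap_Jd_eq he0
    rw [coe_scaleN]
  rw [h1, h2, Jfun_smul]

/-- One direction of the transfer of relations. -/
theorem fr_rel [NeZero N] (P : MvPolynomial (Dv N) Kb)
    (hP : MvPolynomial.aeval (jBfam N) P = 0) :
    MvPolynomial.aeval (jBfam N ∘ frDv) P = 0 := by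
  have h1 := (bridge_iff N P).mp hP
  have h3 : ∀ τ : ℍ, MvPolynomial.aeval (R := Kb)
      (fun d => Jdfam N d (fricke N τ)) P = 0 := by
    intro τ
    rw [← swap_aeval_apply (Jdfam N) P (fricke N τ), h1]
    rfl
  have h2 : MvPolynomial.aeval (R := Kb) (Jdfam N) (MvPolynomial.rename frDv P) = 0 := by
    rw [MvPolynomial.aeval_rename]
    funext τ
    rw [swap_aeval_apply (Jdfam N ∘ frDv) P τ]
    have h5 : (fun i => (Jdfam N ∘ frDv) i τ) = fun d => Jdfam N d (fricke N τ) :=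
      funext fun d => (fr_Jdfam d τ).symm
    rw [h5, h3 τ]
    rfl
  have h4 := (bridge_iff N _).mpr h2
  rwa [MvPolynomial.aeval_rename] at h4

theorem fr_rel_iff [NeZero N] (P : MvPolynomial (Dv N) Kb) :
    MvPolynomial.aeval (jBfam N) P = 0 ↔ MvPolynomial.aeval (jBfam N ∘ frDv) P = 0 := by
  refine ⟨fr_rel P, fun h => ?_⟩
  have h1 : MvPolynomial.aeval (jBfam N) (MvPolynomial.rename frDv P) = 0 := by
    rw [MvPolynomial.aeval_rename]; exact h
  have h2 := fr_rel _ h1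
  rw [MvPolynomial.aeval_rename] at h2
  have h3 : (jBfam N ∘ frDv) ∘ frDv = jBfam N := by
    funext d
    simp only [Function.comp_apply, frDv_frDv]
  rwa [h3] at h2

/-- The Fricke involution on generators, as an algebra endomorphism. -/
theorem exists_fricke_gen (N : ℕ) [NeZero N] :
    ∃ w : FF N →ₐ[Kb] FF N, ∀ d : Dv N, w (jFfam N d) = jFfam N (frDv d) := by
  obtain ⟨w, hw⟩ := exists_algHom_FF_of_relations N (M := FF N)
    (fun d => jFfam N (frDv d)) (fun P => by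
      rw [fr_rel_iff P]
      have h := MvPolynomial.comp_aeval_apply (fun d => jFfam N (frDv d))
        (IntermediateField.val (modularFunctionFieldBar N)) P
      have h' : MvPolynomial.aeval (jBfam N ∘ frDv) P =
          ((MvPolynomial.aeval (fun d => jFfam N (frDv d)) P : FF N) : LaurentSeries Kb) :=
        h.symm
      rw [h']
      exact ⟨fun h0 => Subtype.ext h0, fun h0 => congrArg Subtype.val h0⟩)
  exact ⟨w, fun d => hw d.1 d.2⟩

/-- The Fricke endomorphism (a choice). -/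
def frickeHom (N : ℕ) [NeZero N] : FF N →ₐ[Kb] FF N := (exists_fricke_gen N).choose

theorem frickeHom_jFfam (N : ℕ) [NeZero N] (d : Dv N) :
    frickeHom N (jFfam N d) = jFfam N (frDv d) := (exists_fricke_gen N).choose_spec d

theorem frickeHom_comp_self (N : ℕ) [NeZero N] :
    (frickeHom N).comp (frickeHom N) = AlgHom.id Kb (FF N) := by
  apply FF_algHom_ext
  intro d hd
  have h1 : jdF N d hd = jFfam N ⟨d, hd⟩ := rfl
  rw [AlgHom.comp_apply, h1, frickeHom_jFfam, frickeHom_jFfam, frDv_frDv]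
  rfl

theorem frickeHom_frickeHom (N : ℕ) [NeZero N] (x : FF N) :
    frickeHom N (frickeHom N x) = x := by
  have h := congrArg (fun f => f x) (frickeHom_comp_self N)
  exact h

/-- **The Fricke involution** `w_N` of `F_N`. -/
def frickeAut (N : ℕ) [NeZero N] : FF N ≃ₐ[Kb] FF N :=
  AlgEquiv.ofAlgHom (frickeHom N) (frickeHom N) (frickeHom_comp_self N) (frickeHom_comp_self N)

@[simp] theorem frickeAut_apply (N : ℕ) [NeZero N] (x : FF N) :
    frickeAut N x = frickeHom N x := rfl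

theorem frickeAut_frickeAut (N : ℕ) [NeZero N] (x : FF N) :
    frickeAut N (frickeAut N x) = x := frickeHom_frickeHom N x

theorem frickeAut_symm_apply (N : ℕ) [NeZero N] (x : FF N) :
    (frickeAut N).symm x = frickeAut N x := rfl

theorem frickeAut_jdF (N : ℕ) [NeZero N] (d : ℕ) (hd : d ∣ N) :
    frickeAut N (jdF N d hd) = jdF N (N / d) (Nat.div_dvd_of_dvd hd) :=
  frickeHom_jFfam N ⟨d, hd⟩

/-- `w_N (j) = j(q^N)`. -/
theorem frickeAut_jF (N : ℕ) [NeZero N] :
    frickeAut N (jF N) = jdF N N dvd_rfl := by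
  rw [← jdF_one, frickeAut_jdF]
  congr 1
  exact Nat.div_one N

end Fermat.Agent.ES.M

end
end ZBS20_001_18

/-! ### bundled: `Fermat.Agent.S36.ALQAnalytic` -/
section ZBS20_001_19

/-!
# Atkin–Lehner at an exact divisor `Q ∥ N`: the analytic substitution (helper92)

`N = M · Q`, `gcd(Q, M) = 1`, `Q a - M b = 1`.  The substitution `W τ = γ₁ • (Q τ)`,
`γ₁ = [[a, b], [M, Q]] ∈ SL₂(ℤ)` (`AL.alW Q M a b h`, no primality is used there), satisfies for
`c ∣ Q`, `c c' = Q`, `d ∣ M`: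

* `alq_J : J (c d · W τ) = J (c' d · τ)`.
-/

set_option autoImplicit false
set_option linter.unusedSectionVars false

noncomputable section

namespace Fermat.Agent.S36

open UpperHalfPlane ModularForm
open Fermat.Agent.S23 Fermat.Agent.S24 Fermat.Agent.AL
open scoped MatrixGroups ModularForm

/-- `γ_c = [[a c, b], [M, c']]`, `c c' = Q`. -/
def alqGamma (Q M : ℕ) (a b : ℤ) (h : (Q : ℤ) * a - (M : ℤ) * b = 1) (c c' : ℕ)
    (hc : c * c' = Q) : SL(2, ℤ) :=
  ⟨!![a * (c : ℤ), b; (M : ℤ), (c' : ℤ)], by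
    rw [Matrix.det_fin_two_of]
    have hQ : (Q : ℤ) = (c : ℤ) * (c' : ℤ) := by exact_mod_cast hc.symm
    rw [hQ] at h
    linear_combination h⟩

variable (Q M : ℕ) [NeZero Q] [NeZero M] (a b : ℤ) (h : (Q : ℤ) * a - (M : ℤ) * b = 1)

/-- `c · W τ = γ_c • (c' τ)` -/
theorem alq_scaleN_alW (c c' : ℕ) [NeZero c] [NeZero c'] (hc : c * c' = Q) (τ : ℍ) :
    scaleN c (alW Q M a b h τ) = alqGamma Q M a b h c c' hc • scaleN c' τ := by
  ext1
  have hd1 := denom_ne_zero (alGamma1 Q M a b h) (scaleN Q τ)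
  have hd2 := denom_ne_zero (alqGamma Q M a b h c c' hc) (scaleN c' τ)
  rw [ModularGroup.denom_apply] at hd1 hd2
  rw [alW, coe_scaleN, coe_specialLinearGroup_apply, coe_specialLinearGroup_apply]
  simp only [alGamma1, alqGamma, coe_scaleN] at hd1 hd2 ⊢
  simp at hd1 hd2 ⊢
  have hQ : (Q : ℂ) = (c : ℂ) * (c' : ℂ) := by exact_mod_cast hc.symm
  have hc0 : (c : ℂ) ≠ 0 := by exact_mod_cast NeZero.ne c
  have hc'0 : (c' : ℂ) ≠ 0 := by exact_mod_cast NeZero.ne c'
  rw [hQ] at hd1 ⊢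
  field_simp

theorem alqGamma_dvd (c c' : ℕ) (hc : c * c' = Q) {d : ℕ} (hd : d ∣ M) :
    (d : ℤ) ∣ (alqGamma Q M a b h c c' hc) 1 0 := by
  simp only [alqGamma]
  simpa using Int.natCast_dvd_natCast.mpr hd

/-- **`J (c d · W τ) = J (c' d · τ)`** for `c c' = Q`, `d ∣ M`. -/
theorem alq_J (c c' : ℕ) [NeZero c] [NeZero c'] (hc : c * c' = Q) {d : ℕ} [NeZero d]
    [NeZero (c * d)] [NeZero (c' * d)] (hd : d ∣ M) (τ : ℍ) :
    Jfun (scaleN (c * d) (alW Q M a b h τ)) = Jfun (scaleN (c' * d) τ) := by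
  have h1 : scaleN (c * d) (alW Q M a b h τ) = scaleN d (scaleN c (alW Q M a b h τ)) := by
    rw [scaleN_scaleN d c]
    ext1
    simp only [coe_scaleN]
    push_cast
    ring
  have h2 : scaleN (c' * d) τ = scaleN d (scaleN c' τ) := by
    rw [scaleN_scaleN d c']
    ext1
    simp only [coe_scaleN]
    push_cast
    ring
  rw [h1, h2, alq_scaleN_alW Q M a b h c c' hc,
    P7_thetaCompanion_smul d _ (alqGamma_dvd Q M a b h c c' hc hd), Jfun_smul]

end Fermat.Agent.S36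

end


end ZBS20_001_19
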