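/- GENERATED FILE (helper35, build-time optimisation, NOTES/ZB.md): verbatim concatenation of the modules
   Fermat.Agent.S28.IntegralJd
   Do not edit; do not import together with these modules. -/
import Mathlib
import Fermat.Prelude.Def_ModularCurve_IgusaScheme
import Fermat.Prelude.Def_ModularCurve_JqCoeff
import Fermat.Prelude.Thm_ModularCurve_coeffMap_qExpand
import Fermat.Agent.ZB.S22_001

/-! ### bundled: `Fermat.Agent.S28.IntegralJd` -/
section ZBS28_006_0

/-!
# S28, piece INT: `j(q^d)` is integral over `ℤ_(ℓ)[j]` for `d ∣ N`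

Input: for every prime `p ∣ N` an INTEGRAL modular equation (`IntModEq p`): a monic
`Φ ∈ ℤ[Y][X]` with `Φ(j(q^p), j(q)) = 0` in `ℤ((q))`.

Output: for `d ∣ N` the element `j(q^d)` of the function field `F_N = modularFunctionFieldFull N`
lies in the prelude's chart algebra `chartAlgFin N ℓ` (the integral closure of `ℤ_(ℓ)[j]` in `F_N`),
and so does the image of every element of the subring of `ℤ((q))` generated by the `j(q^d)`, `d ∣ N`.

* `intJd R d` : `j(q^d)` over a commutative ring `R`, as a total function of `d` (junk `0` at `d = 0`).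
* `IntModEq p`, `IntModEq.of_neZero`.
* `intJd_mem_full`, `intJd_mem_chartAlgFin`, `intJdRing`, `coeffMap_mem_chartAlgFin`.
-/

set_option autoImplicit false

noncomputable section

namespace Fermat.Agent.S28

open HahnSeries ModularCurve ModularCurve.IgusaScheme Polynomial

/-- `j(q^d)` over a commutative ring, as a total function of `d` (junk value `0` at `d = 0`). -/
def intJd (R : Type*) [CommRing R] (d : ℕ) : LaurentSeries R :=
  if h : d = 0 then 0 else @qExpand R _ d ⟨h⟩ (jqModC R)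

theorem intJd_eq (R : Type*) [CommRing R] (d : ℕ) [hd : NeZero d] :
    intJd R d = qExpand R d (jqModC R) := by
  rw [intJd, dif_neg hd.out]

theorem intJd_one (R : Type*) [CommRing R] : intJd R 1 = jqModC R := by
  rw [intJd_eq, qExpand_one_apply]

theorem intJd_rat_one : intJd ℚ 1 = jq := intJd_one ℚ

theorem qExpand_intJd (R : Type*) [CommRing R] (m : ℕ) [NeZero m] {d : ℕ} (hd : d ≠ 0) :
    qExpand R m (intJd R d) = intJd R (d * m) := by
  have : NeZero d := ⟨hd⟩
  have : NeZero (m * d) := ⟨Nat.mul_ne_zero (NeZero.ne m) hd⟩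
  have : NeZero (d * m) := ⟨Nat.mul_ne_zero hd (NeZero.ne m)⟩
  rw [intJd_eq, intJd_eq, qExpand_qExpand]
  exact qExpand_congr (Nat.mul_comm m d) _

theorem coeffMap_intJd {R S : Type*} [CommRing R] [CommRing S] (f : R →+* S) (d : ℕ) :
    coeffMap f (intJd R d) = intJd S d := by
  rcases eq_or_ne d 0 with rfl | hd
  · simp [intJd]
  · have : NeZero d := ⟨hd⟩
    rw [intJd_eq, intJd_eq, coeffMap_qExpand]
    congr 1
    exact map_jqModC f

/-- Evaluation `ℤ[Y] →+* A`, `Y ↦ x` (no choice of a `ℤ`-algebra structure involved). -/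
def evalInt {A : Type*} [CommRing A] (x : A) : Polynomial ℤ →+* A :=
  Polynomial.eval₂RingHom (Int.castRingHom A) x

@[simp] theorem evalInt_X {A : Type*} [CommRing A] (x : A) : evalInt x Polynomial.X = x := by
  simp [evalInt]

/-- A ring homomorphism out of `ℤ[Y]` is determined by the image of `Y`. -/
theorem ringHom_eq_evalInt {A : Type*} [CommRing A] (f : Polynomial ℤ →+* A) :
    f = evalInt (f Polynomial.X) := by
  refine Polynomial.ringHom_ext (fun a => ?_) ?_
  · rw [show (Polynomial.C a : Polynomial ℤ) = ((a : ℤ) : Polynomial ℤ) from by simp,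
      map_intCast, map_intCast]
  · simp

theorem comp_evalInt {A B : Type*} [CommRing A] [CommRing B] (g : A →+* B) (x : A) :
    g.comp (evalInt x) = evalInt (g x) := by
  rw [ringHom_eq_evalInt (g.comp (evalInt x))]
  simp

/-- Ring homomorphisms commute with `P ↦ P(y, x)` for `P ∈ ℤ[Y][X]`. -/
theorem map_eval₂_evalInt {A B : Type*} [CommRing A] [CommRing B] (g : A →+* B)
    (Φ : Polynomial (Polynomial ℤ)) (x y : A) :
    g (Φ.eval₂ (evalInt x) y) = Φ.eval₂ (evalInt (g x)) (g y) := by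
  rw [Polynomial.hom_eval₂, comp_evalInt]

/-- The INTEGRAL modular equation at `p`: a monic `Φ ∈ ℤ[Y][X]` with `Φ(j(q^p), j(q)) = 0` in `ℤ((q))`
(`Φ.eval₂ (evalInt y) x = Φ(x, y)`: outer variable `↦ x`, inner variable `↦ y`). -/
def IntModEq (p : ℕ) : Prop :=
  ∃ Φ : Polynomial (Polynomial ℤ), Φ.Monic ∧ Φ.eval₂ (evalInt (intJd ℤ 1)) (intJd ℤ p) = 0

/-- `IntModEq` from a relation written with any ring homomorphism `f : ℤ[Y] →+* ℤ((q))`, `f Y = j`
(for instance `f = (Polynomial.aeval (jqModC ℤ)).toRingHom` for any `ℤ`-algebra structure). -/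
theorem IntModEq.of_ringHom {p : ℕ} [NeZero p] {Φ : Polynomial (Polynomial ℤ)} (hΦ : Φ.Monic)
    (f : Polynomial ℤ →+* LaurentSeries ℤ) (hf : f Polynomial.X = jqModC ℤ)
    (h : Φ.eval₂ f (qExpand ℤ p (jqModC ℤ)) = 0) : IntModEq p :=
  ⟨Φ, hΦ, by
    have hfe := ringHom_eq_evalInt f
    rw [hf] at hfe
    rw [intJd_one, intJd_eq, ← hfe]
    exact h⟩

/-- The modular equation shifted by `q ↦ q^d` and transported to any coefficient ring. -/
theorem IntModEq.shift {p : ℕ} {Φ : Polynomial (Polynomial ℤ)}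
    (h : Φ.eval₂ (evalInt (intJd ℤ 1)) (intJd ℤ p) = 0)
    (S : Type*) [CommRing S] {d : ℕ} (hd : d ≠ 0) (hp : p ≠ 0) :
    Φ.eval₂ (evalInt (intJd S d)) (intJd S (p * d)) = 0 := by
  have : NeZero d := ⟨hd⟩
  have h1 := congrArg (qExpand ℤ d) h
  rw [map_eval₂_evalInt, map_zero, qExpand_intJd ℤ d one_ne_zero, qExpand_intJd ℤ d hp,
    one_mul] at h1
  have h2 := congrArg (coeffMap (Int.castRingHom S)) h1
  rw [map_eval₂_evalInt, map_zero, coeffMap_intJd, coeffMap_intJd] at h2
  exact h2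

section FunctionField

variable (N : ℕ) [NeZero N] (ℓ : ℕ) [Fact ℓ.Prime]

theorem intJd_mem_full {d : ℕ} (hd : d ∣ N) : intJd ℚ d ∈ modularFunctionFieldFull N := by
  have hd0 : d ≠ 0 := fun h => NeZero.ne N (by rw [h] at hd; exact Nat.eq_zero_of_zero_dvd hd)
  have : NeZero d := ⟨hd0⟩
  rw [intJd_eq, jqModC_rat]
  exact jqd_mem_full N hd

/-- `j(q^d)` as an element of the function field `F_N`. -/
def intJdF {d : ℕ} (hd : d ∣ N) : ↥(modularFunctionFieldFull N) := ⟨intJd ℚ d, intJd_mem_full N hd⟩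

@[simp] theorem coe_intJdF {d : ℕ} (hd : d ∣ N) :
    ((intJdF N hd : ↥(modularFunctionFieldFull N)) : LaurentSeries ℚ) = intJd ℚ d := rfl

theorem intJdF_one : intJdF N (one_dvd N) = jFull N :=
  Subtype.ext (by rw [coe_intJdF, coe_jFull, intJd_rat_one])

set_option synthInstance.maxHeartbeats 400000 in
set_option maxHeartbeats 1600000 in
/-- One step: if `y` is in the chart algebra and `x` is a root of a monic `Φ(X, y)`, `Φ ∈ ℤ[Y][X]`,
then `x` is in the chart algebra. -/
theorem mem_chartAlg_of_eval₂ {S : Set ↥(modularFunctionFieldFull N)}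
    {x y : ↥(modularFunctionFieldFull N)} (hy : y ∈ chartAlg N ℓ S)
    {Φ : Polynomial (Polynomial ℤ)} (hΦ : Φ.Monic)
    (h : Φ.eval₂ (evalInt y) x = 0) : x ∈ chartAlg N ℓ S := by
  rw [mem_chartAlg_iff] at hy ⊢
  have hyA : y ∈ integralClosure (Algebra.adjoin ↥(GaloisRep.ratLocalizedAt ℓ) S)
      ↥(modularFunctionFieldFull N) := hy
  have hcomp : (algebraMap (integralClosure (Algebra.adjoin ↥(GaloisRep.ratLocalizedAt ℓ) S)
      ↥(modularFunctionFieldFull N)) ↥(modularFunctionFieldFull N)).comp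
        (evalInt (⟨y, hyA⟩ : integralClosure (Algebra.adjoin ↥(GaloisRep.ratLocalizedAt ℓ) S)
          ↥(modularFunctionFieldFull N))) = evalInt y := by
    refine Polynomial.ringHom_ext (fun a => ?_) ?_
    · simp [evalInt]
    · simp [evalInt]
  have hx : IsIntegral (integralClosure (Algebra.adjoin ↥(GaloisRep.ratLocalizedAt ℓ) S)
      ↥(modularFunctionFieldFull N)) x := by
    refine ⟨Φ.map (evalInt ⟨y, hyA⟩), hΦ.map _, ?_⟩
    rw [Polynomial.eval₂_map, hcomp]
    exact h
  exact isIntegral_trans x hx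

/-- INT: for `d ∣ N`, `j(q^d)` is integral over `ℤ_(ℓ)[j]`, given the integral modular equations at
the primes dividing `N`. -/
theorem intJd_mem_chartAlgFin (hΦ : ∀ p : ℕ, p.Prime → p ∣ N → IntModEq p) :
    ∀ {d : ℕ} (hd : d ∣ N), intJdF N hd ∈ chartAlgFin N ℓ := by
  intro d
  induction d using Nat.strong_induction_on with
  | _ d ih =>
    intro hd
    have hd0 : d ≠ 0 := fun h => NeZero.ne N (by rw [h] at hd; exact Nat.eq_zero_of_zero_dvd hd)
    rcases eq_or_ne d 1 with rfl | hd1
    · rw [intJdF_one]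
      exact subset_chartAlg N ℓ _ rfl
    · -- `d = p * d'` with `p = minFac d`
      set p := d.minFac with hp
      have hpp : p.Prime := Nat.minFac_prime hd1
      obtain ⟨d', hd'⟩ : p ∣ d := Nat.minFac_dvd d
      have hd'0 : d' ≠ 0 := by
        rintro rfl
        exact hd0 (by rw [hd', mul_zero])
      have hd'lt : d' < d := by
        rw [hd']
        exact lt_mul_of_one_lt_left (Nat.pos_of_ne_zero hd'0) hpp.one_lt
      have hd'N : d' ∣ N := (Dvd.intro_left p hd'.symm).trans hd
      have hpN : p ∣ N := (Dvd.intro d' hd'.symm).trans hd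
      obtain ⟨Φ, hΦm, hΦ0⟩ := hΦ p hpp hpN
      have hy := ih d' hd'lt hd'N
      refine mem_chartAlg_of_eval₂ N ℓ hy hΦm ?_
      apply Subtype.val_injective
      have hsh := IntModEq.shift hΦ0 ℚ hd'0 hpp.ne_zero
      rw [← hd'] at hsh
      have hmap := map_eval₂_evalInt
        (algebraMap ↥(modularFunctionFieldFull N) (LaurentSeries ℚ)) Φ (intJdF N hd'N) (intJdF N hd)
      rw [show ((0 : ↥(modularFunctionFieldFull N)) : LaurentSeries ℚ) = 0 from rfl]
      exact hmap.trans hsh

/-- The subring of `ℤ((q))` generated by the `j(q^d)`, `d ∣ N`. -/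
def intJdRing : Subring (LaurentSeries ℤ) :=
  Subring.closure {y | ∃ d : ℕ, d ∣ N ∧ y = intJd ℤ d}

omit [NeZero N] in
theorem intJd_mem_intJdRing {d : ℕ} (hd : d ∣ N) : intJd ℤ d ∈ intJdRing N :=
  Subring.subset_closure ⟨d, hd, rfl⟩

/-- Every element of `ℤ[j(q^d) : d ∣ N] ⊆ ℤ((q))` lies, after the coefficient change `ℤ → ℚ`,
in the function field `F_N` and in the chart algebra `chartAlgFin N ℓ`. -/
theorem coeffMap_mem_chartAlgFin (hΦ : ∀ p : ℕ, p.Prime → p ∣ N → IntModEq p)
    {x : LaurentSeries ℤ} (hx : x ∈ intJdRing N) :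
    ∃ h : coeffMap (Int.castRingHom ℚ) x ∈ modularFunctionFieldFull N,
      (⟨coeffMap (Int.castRingHom ℚ) x, h⟩ : ↥(modularFunctionFieldFull N)) ∈ chartAlgFin N ℓ := by
  induction hx using Subring.closure_induction with
  | mem y hy =>
    obtain ⟨d, hd, rfl⟩ := hy
    refine ⟨by rw [coeffMap_intJd]; exact intJd_mem_full N hd, ?_⟩
    have := intJd_mem_chartAlgFin N ℓ hΦ hd
    convert this using 1
    exact Subtype.ext (coeffMap_intJd _ d)
  | zero =>
    refine ⟨by rw [map_zero]; exact zero_mem _, ?_⟩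
    convert zero_mem (chartAlgFin N ℓ) using 1
    exact Subtype.ext (map_zero _)
  | one =>
    refine ⟨by rw [map_one]; exact one_mem _, ?_⟩
    convert one_mem (chartAlgFin N ℓ) using 1
    exact Subtype.ext (map_one _)
  | add y z _ _ hy hz =>
    obtain ⟨hy1, hy2⟩ := hy
    obtain ⟨hz1, hz2⟩ := hz
    refine ⟨by rw [map_add]; exact add_mem hy1 hz1, ?_⟩
    convert add_mem hy2 hz2 using 1
    exact Subtype.ext (map_add _ y z)
  | neg y _ hy =>
    obtain ⟨hy1, hy2⟩ := hy
    refine ⟨by rw [map_neg]; exact neg_mem hy1, ?_⟩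
    convert neg_mem hy2 using 1
    exact Subtype.ext (map_neg _ y)
  | mul y z _ _ hy hz =>
    obtain ⟨hy1, hy2⟩ := hy
    obtain ⟨hz1, hz2⟩ := hz
    refine ⟨by rw [map_mul]; exact mul_mem hy1 hz1, ?_⟩
    convert mul_mem hy2 hz2 using 1
    exact Subtype.ext (map_mul _ y z)

end FunctionField

end Fermat.Agent.S28

end


end ZBS28_006_0
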