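/- GENERATED FILE (helper35, build-time optimisation, NOTES/ZB.md): verbatim concatenation of the modules
   Fermat.Agent.S28.RatLoc
   Fermat.Agent.S28.LocInt
   Fermat.Agent.S28.KeyDataDef
   Fermat.Agent.W1.RatLocPID
   Do not edit; do not import together with these modules. -/
import Mathlib
import Fermat.Prelude.Def_GaloisRep_Flat
import Fermat.Agent.ZB.S28_006
import Fermat.Prelude.Def_ModularCurve_LaurentCoeff
import Fermat.Prelude.Def_ModularCurve_IgusaScheme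

/-! ### bundled: `Fermat.Agent.S28.RatLoc` -/
section ZBS28_005_0

/-!
# S28: basic facts about `R₀ = GaloisRep.ratLocalizedAt ℓ = ℤ_(ℓ)`

* `resMap ℓ : R₀ →+* ZMod ℓ`, the residue map, with kernel `ℓ R₀` (`resMap_eq_zero_iff`), surjective;
* `R₀` is integrally closed with fraction field `ℚ`;
* every ring hom from `R₀` to a field of characteristic `ℓ` factors through `resMap`
  (`ringHom_eq_comp_resMap`, `algebraMap_eq_comp_resMap`).
-/

set_option autoImplicit false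

noncomputable section

namespace Fermat.Agent.S28

open GaloisRep

variable (ℓ : ℕ) [Fact ℓ.Prime]

theorem mem_ratLocalizedAt_iff {x : ℚ} : x ∈ ratLocalizedAt ℓ ↔ ¬ ℓ ∣ x.den := by
  show x.den.Coprime ℓ ↔ _
  rw [Nat.coprime_comm]
  exact (Fact.out : ℓ.Prime).coprime_iff_not_dvd

theorem ratLoc_den_ne_zero (x : ratLocalizedAt ℓ) : (((x : ℚ).den : ℕ) : ZMod ℓ) ≠ 0 := by
  rw [Ne, ZMod.natCast_eq_zero_iff]
  exact (mem_ratLocalizedAt_iff ℓ).mp x.2

/-- The residue map `ℤ_(ℓ) → 𝔽_ℓ`. -/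
def resMap : ratLocalizedAt ℓ →+* ZMod ℓ where
  toFun x := (((x : ℚ) : ℚ) : ZMod ℓ)
  map_zero' := by simp
  map_one' := by simp
  map_add' x y := Rat.cast_add_of_ne_zero (ratLoc_den_ne_zero ℓ x) (ratLoc_den_ne_zero ℓ y)
  map_mul' x y := Rat.cast_mul_of_ne_zero (ratLoc_den_ne_zero ℓ x) (ratLoc_den_ne_zero ℓ y)

theorem resMap_apply (x : ratLocalizedAt ℓ) : resMap ℓ x = (((x : ℚ) : ℚ) : ZMod ℓ) := rfl

theorem intCast_mem_ratLocalizedAt (n : ℤ) : (n : ℚ) ∈ ratLocalizedAt ℓ := by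
  rw [mem_ratLocalizedAt_iff]
  simpa using (Fact.out : ℓ.Prime).one_lt.ne'

theorem natCast_mem_ratLocalizedAt (n : ℕ) : (n : ℚ) ∈ ratLocalizedAt ℓ := by
  exact_mod_cast intCast_mem_ratLocalizedAt ℓ (n : ℤ)

theorem resMap_surjective : Function.Surjective (resMap ℓ) := by
  intro a
  obtain ⟨n, rfl⟩ := ZMod.intCast_surjective a
  exact ⟨(n : ratLocalizedAt ℓ), by simp⟩

theorem resMap_natCast_self : resMap ℓ (ℓ : ratLocalizedAt ℓ) = 0 := by
  simp

theorem resMap_eq_zero_iff (x : ratLocalizedAt ℓ) :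
    resMap ℓ x = 0 ↔ ∃ y : ratLocalizedAt ℓ, x = (ℓ : ratLocalizedAt ℓ) * y := by
  constructor
  · intro h
    have hden := ratLoc_den_ne_zero ℓ x
    rw [resMap_apply, Rat.cast_def, div_eq_zero_iff] at h
    have hnum : ((x : ℚ).num : ZMod ℓ) = 0 := h.resolve_right hden
    rw [ZMod.intCast_zmod_eq_zero_iff_dvd] at hnum
    obtain ⟨m, hm⟩ := hnum
    have hy : ((m : ℚ) / ((x : ℚ).den : ℚ)) ∈ ratLocalizedAt ℓ := by
      rw [mem_ratLocalizedAt_iff]
      intro hdvd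
      have h1 : ((m : ℚ) / ((x : ℚ).den : ℚ)).den ∣ (x : ℚ).den := by
        have := Rat.den_dvd m ((x : ℚ).den : ℤ)
        rw [Rat.divInt_eq_div] at this
        exact_mod_cast this
      exact (mem_ratLocalizedAt_iff ℓ).mp x.2 (hdvd.trans h1)
    refine ⟨⟨_, hy⟩, Subtype.ext ?_⟩
    have hd0 : (((x : ℚ).den : ℕ) : ℚ) ≠ 0 := by exact_mod_cast (x : ℚ).den_nz
    have hx : (x : ℚ) = (((ℓ : ℤ) * m : ℤ) : ℚ) / ((x : ℚ).den : ℚ) := by
      rw [← hm]; exact (Rat.num_div_den _).symm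
    show (x : ℚ) = ((ℓ : ratLocalizedAt ℓ) : ℚ) * ((m : ℚ) / ((x : ℚ).den : ℚ))
    have hℓ : ((ℓ : ratLocalizedAt ℓ) : ℚ) = (ℓ : ℚ) := by push_cast; rfl
    rw [hℓ]
    conv_lhs => rw [hx]
    push_cast
    ring
  · rintro ⟨y, rfl⟩
    rw [map_mul, resMap_natCast_self, zero_mul]

/-- `ℤ_(ℓ)` is the valuation ring of the `ℓ`-adic valuation on `ℚ`. -/
theorem ratLoc_integers : (Rat.padicValuation ℓ).Integers (ratLocalizedAt ℓ) where
  hom_inj := Subtype.coe_injective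
  map_le_one x := Rat.padicValuation_le_one_iff.mpr ((mem_ratLocalizedAt_iff ℓ).mp x.2)
  exists_of_le_one r hr :=
    ⟨⟨r, (mem_ratLocalizedAt_iff ℓ).mpr (Rat.padicValuation_le_one_iff.mp hr)⟩, rfl⟩

instance ratLoc_isIntegrallyClosed : IsIntegrallyClosed (ratLocalizedAt ℓ) :=
  (ratLoc_integers ℓ).isIntegrallyClosed

instance ratLoc_isFractionRing : IsFractionRing (ratLocalizedAt ℓ) ℚ :=
  (ratLoc_integers ℓ).isFractionRing

/-- Any ring hom from `ℤ_(ℓ)` to a field of characteristic `ℓ` factors through the residue map. -/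
theorem ringHom_eq_comp_resMap (K : Type*) [Field K] [CharP K ℓ] (f : ratLocalizedAt ℓ →+* K) :
    f = (ZMod.castHom (dvd_refl ℓ) K).comp (resMap ℓ) := by
  ext x
  have hden : (((x : ℚ).den : ℕ) : ratLocalizedAt ℓ) * x = (((x : ℚ).num : ℤ) : ratLocalizedAt ℓ) := by
    apply Subtype.ext
    push_cast
    exact Rat.den_mul_eq_num _
  have hdK : (((x : ℚ).den : ℕ) : K) ≠ 0 := by
    rw [Ne, CharP.cast_eq_zero_iff K ℓ]
    exact (mem_ratLocalizedAt_iff ℓ).mp x.2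
  have h1 := congrArg f hden
  have h2 := congrArg ((ZMod.castHom (dvd_refl ℓ) K).comp (resMap ℓ)) hden
  rw [map_mul, map_natCast, map_intCast] at h1 h2
  exact mul_left_cancel₀ hdK (h1.trans h2.symm)

theorem algebraMap_eq_comp_resMap (K : Type*) [Field K] [CharP K ℓ]
    [Algebra (ratLocalizedAt ℓ) K] :
    algebraMap (ratLocalizedAt ℓ) K = (ZMod.castHom (dvd_refl ℓ) K).comp (resMap ℓ) :=
  ringHom_eq_comp_resMap ℓ K _

end Fermat.Agent.S28

end


end ZBS28_005_0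

/-! ### bundled: `Fermat.Agent.S28.LocInt` -/
section ZBS28_005_1

/-!
# S28, Part R1a: the local ring of `ℤ_(ℓ)((q))` at `(ℓ)` inside `ℚ((q))` and its residue map

`Λ = LaurentSeries ℤ_(ℓ)`, `lamIncl : Λ →+* ℚ((q))` (injective), `lamRed : Λ →+* 𝔽_ℓ((q))`.
`locInt ℓ` is the subring of `ℚ((q))` of all `x` with `b x = T` for some `T, b ∈ Λ`, `b ≢ 0 mod ℓ`;
`redLoc ℓ : locInt ℓ →+* 𝔽_ℓ((q))` sends such an `x` to `red T / red b` (`redLoc_eq`).
-/

set_option autoImplicit false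

noncomputable section

namespace Fermat.Agent.S28

open ModularCurve

variable (ℓ : ℕ) [Fact ℓ.Prime]

/-- The inclusion `ℤ_(ℓ)((q)) → ℚ((q))`. -/
def lamIncl : LaurentSeries ↥(GaloisRep.ratLocalizedAt ℓ) →+* LaurentSeries ℚ :=
  coeffMap (algebraMap ↥(GaloisRep.ratLocalizedAt ℓ) ℚ)

/-- The reduction `ℤ_(ℓ)((q)) → 𝔽_ℓ((q))`. -/
def lamRed : LaurentSeries ↥(GaloisRep.ratLocalizedAt ℓ) →+* LaurentSeries (ZMod ℓ) :=
  coeffMap (resMap ℓ)

@[simp] theorem lamIncl_coeff (x : LaurentSeries ↥(GaloisRep.ratLocalizedAt ℓ)) (n : ℤ) :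
    (lamIncl ℓ x).coeff n = ((x.coeff n : ↥(GaloisRep.ratLocalizedAt ℓ)) : ℚ) := rfl

@[simp] theorem lamRed_coeff (x : LaurentSeries ↥(GaloisRep.ratLocalizedAt ℓ)) (n : ℤ) :
    (lamRed ℓ x).coeff n = resMap ℓ (x.coeff n) := rfl

theorem lamIncl_injective : Function.Injective (lamIncl ℓ) := by
  intro x y h
  ext n
  have h1 := congrArg (fun z : LaurentSeries ℚ => z.coeff n) h
  simp only [lamIncl_coeff] at h1
  exact_mod_cast h1

/-- `x ∈ ℚ((q))` is integral at `ℓ` up to a denominator that is nonzero mod `ℓ`. -/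
def IsLocInt (x : LaurentSeries ℚ) : Prop :=
  ∃ T b : LaurentSeries ↥(GaloisRep.ratLocalizedAt ℓ),
    lamRed ℓ b ≠ 0 ∧ lamIncl ℓ b * x = lamIncl ℓ T

/-- The localisation of `ℤ_(ℓ)((q))` at the prime `(ℓ)`, as a subring of `ℚ((q))`. -/
def locInt : Subring (LaurentSeries ℚ) where
  carrier := {x | IsLocInt ℓ x}
  zero_mem' := ⟨0, 1, by simp, by simp⟩
  one_mem' := ⟨1, 1, by simp, by simp⟩
  add_mem' := by
    rintro x y ⟨T, b, hb, h⟩ ⟨T', b', hb', h'⟩
    refine ⟨T * b' + T' * b, b * b', ?_, ?_⟩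
    · rw [map_mul]; exact mul_ne_zero hb hb'
    · rw [map_mul, map_add, map_mul, map_mul, ← h, ← h']; ring
  neg_mem' := by
    rintro x ⟨T, b, hb, h⟩
    exact ⟨-T, b, hb, by rw [map_neg, ← h]; ring⟩
  mul_mem' := by
    rintro x y ⟨T, b, hb, h⟩ ⟨T', b', hb', h'⟩
    refine ⟨T * T', b * b', ?_, ?_⟩
    · rw [map_mul]; exact mul_ne_zero hb hb'
    · rw [map_mul, map_mul, ← h, ← h']; ring

theorem mem_locInt_iff {x : LaurentSeries ℚ} : x ∈ locInt ℓ ↔ IsLocInt ℓ x := Iff.rfl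

theorem lamIncl_mem_locInt (T : LaurentSeries ↥(GaloisRep.ratLocalizedAt ℓ)) :
    lamIncl ℓ T ∈ locInt ℓ :=
  ⟨T, 1, by simp, by simp⟩

/-- The residue map of `locInt`, as a function (choice of a representation). -/
def redLocFun (x : locInt ℓ) : LaurentSeries (ZMod ℓ) :=
  lamRed ℓ (Classical.choose x.2) / lamRed ℓ (Classical.choose (Classical.choose_spec x.2))

theorem redLocFun_eq (x : locInt ℓ) (T b : LaurentSeries ↥(GaloisRep.ratLocalizedAt ℓ))
    (hb : lamRed ℓ b ≠ 0) (h : lamIncl ℓ b * (x : LaurentSeries ℚ) = lamIncl ℓ T) :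
    redLocFun ℓ x = lamRed ℓ T / lamRed ℓ b := by
  obtain ⟨hb₁, h₁⟩ := Classical.choose_spec (Classical.choose_spec x.2)
  set T₁ := Classical.choose x.2
  set b₁ := Classical.choose (Classical.choose_spec x.2)
  have key : b₁ * T = b * T₁ := by
    apply lamIncl_injective ℓ
    rw [map_mul, map_mul, ← h, ← h₁]; ring
  have key' := congrArg (lamRed ℓ) key
  rw [map_mul, map_mul] at key'
  show lamRed ℓ T₁ / lamRed ℓ b₁ = lamRed ℓ T / lamRed ℓ b
  rw [div_eq_div_iff hb₁ hb]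
  rw [mul_comm, ← key', mul_comm]

/-- The residue map `locInt ℓ → 𝔽_ℓ((q))`. -/
def redLoc : locInt ℓ →+* LaurentSeries (ZMod ℓ) where
  toFun := redLocFun ℓ
  map_zero' := by
    rw [redLocFun_eq ℓ 0 0 1 (by simp) (by simp)]; simp
  map_one' := by
    rw [redLocFun_eq ℓ 1 1 1 (by simp) (by simp)]; simp
  map_add' := by
    intro x y
    obtain ⟨T, b, hb, h⟩ := x.2
    obtain ⟨T', b', hb', h'⟩ := y.2
    show redLocFun ℓ (x + y) = redLocFun ℓ x + redLocFun ℓ y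
    rw [redLocFun_eq ℓ x T b hb h, redLocFun_eq ℓ y T' b' hb' h',
      redLocFun_eq ℓ (x + y) (T * b' + T' * b) (b * b')
        (by rw [map_mul]; exact mul_ne_zero hb hb')
        (by
          rw [Subring.coe_add, map_mul, map_add, map_mul, map_mul, ← h, ← h']; ring)]
    rw [map_add, map_mul, map_mul, map_mul]
    field_simp
  map_mul' := by
    intro x y
    obtain ⟨T, b, hb, h⟩ := x.2
    obtain ⟨T', b', hb', h'⟩ := y.2
    show redLocFun ℓ (x * y) = redLocFun ℓ x * redLocFun ℓ y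
    rw [redLocFun_eq ℓ x T b hb h, redLocFun_eq ℓ y T' b' hb' h',
      redLocFun_eq ℓ (x * y) (T * T') (b * b')
        (by rw [map_mul]; exact mul_ne_zero hb hb')
        (by
          rw [Subring.coe_mul, map_mul, map_mul, ← h, ← h']; ring)]
    rw [map_mul, map_mul]
    field_simp

theorem redLoc_eq (x : locInt ℓ) (T b : LaurentSeries ↥(GaloisRep.ratLocalizedAt ℓ))
    (hb : lamRed ℓ b ≠ 0) (h : lamIncl ℓ b * (x : LaurentSeries ℚ) = lamIncl ℓ T) :
    redLoc ℓ x = lamRed ℓ T / lamRed ℓ b :=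
  redLocFun_eq ℓ x T b hb h

theorem redLoc_lamIncl (T : LaurentSeries ↥(GaloisRep.ratLocalizedAt ℓ)) :
    redLoc ℓ ⟨lamIncl ℓ T, lamIncl_mem_locInt ℓ T⟩ = lamRed ℓ T := by
  rw [redLoc_eq ℓ _ T 1 (by simp) (by simp)]; simp

theorem redLoc_eq_zero_iff (x : locInt ℓ) (T b : LaurentSeries ↥(GaloisRep.ratLocalizedAt ℓ))
    (hb : lamRed ℓ b ≠ 0) (h : lamIncl ℓ b * (x : LaurentSeries ℚ) = lamIncl ℓ T) :
    redLoc ℓ x = 0 ↔ lamRed ℓ T = 0 := by
  rw [redLoc_eq ℓ x T b hb h, div_eq_zero_iff]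
  exact ⟨fun h => h.resolve_right hb, Or.inl⟩

end Fermat.Agent.S28

end


end ZBS28_005_1

/-! ### bundled: `Fermat.Agent.S28.KeyDataDef` -/
section ZBS28_005_2

/-!
# S28: the interface `IsKeyData` between Part Q (degrees) and Part R (reduction of the chart algebras)

`IsKeyData N ℓ t₀ x` for a coordinate `t₀ ∈ Λ = ℤ_(ℓ)((q))` (`t₀ = j` or `j⁻¹`) and a finite family
`x : Fin n → Λ`: the `x i` lie in the function field `F_N`, are integral over `ℤ_(ℓ)[t]`, span `F_N` over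
`ℚ(t)`, and their reductions mod `ℓ` are linearly independent over `𝔽_ℓ(t̄)`; `t̄` is transcendental.
-/

set_option autoImplicit false

noncomputable section

namespace Fermat.Agent.S28

open ModularCurve ModularCurve.IgusaScheme

/-- Key data (KD) for the chart with coordinate `t = lamIncl ℓ t₀`. -/
structure IsKeyData (N : ℕ) [NeZero N] (ℓ : ℕ) [Fact ℓ.Prime]
    (t₀ : LaurentSeries ↥(GaloisRep.ratLocalizedAt ℓ)) {n : ℕ}
    (x : Fin n → LaurentSeries ↥(GaloisRep.ratLocalizedAt ℓ)) : Prop where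
  /-- the coordinate lies in the function field -/
  t_mem : lamIncl ℓ t₀ ∈ modularFunctionFieldFull N
  /-- the family lies in the function field -/
  mem : ∀ i, lamIncl ℓ (x i) ∈ modularFunctionFieldFull N
  /-- the family is integral over `ℤ_(ℓ)[t]` (membership in the prelude's chart algebra) -/
  integral : ∀ i, (⟨lamIncl ℓ (x i), mem i⟩ : ↥(modularFunctionFieldFull N)) ∈
    chartAlg N ℓ {(⟨lamIncl ℓ t₀, t_mem⟩ : ↥(modularFunctionFieldFull N))}
  /-- the family spans the function field over `ℚ(t)` -/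
  span : ∀ f ∈ modularFunctionFieldFull N, ∃ c : Fin n → LaurentSeries ℚ,
    (∀ i, c i ∈ IntermediateField.adjoin ℚ {lamIncl ℓ t₀}) ∧ f = ∑ i, c i * lamIncl ℓ (x i)
  /-- the reductions are linearly independent over `𝔽_ℓ(t̄)` -/
  indep : ∀ c : Fin n → LaurentSeries (ZMod ℓ),
    (∀ i, c i ∈ IntermediateField.adjoin (ZMod ℓ) {lamRed ℓ t₀}) →
      ∑ i, c i * lamRed ℓ (x i) = 0 → ∀ i, c i = 0
  /-- the reduced coordinate is transcendental -/
  transc : Transcendental (ZMod ℓ) (lamRed ℓ t₀)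

end Fermat.Agent.S28

end


end ZBS28_005_2

/-! ### bundled: `Fermat.Agent.W1.RatLocPID` -/
section ZBS28_005_3

/-!
# W1: `ℤ_(ℓ) = GaloisRep.ratLocalizedAt ℓ` is a principal ideal domain

Needed to apply `hasFiniteFlatModel_of_isHopfLattice` / `IsHopfLattice.of_core` with
`R = GaloisRep.ratLocalizedAt ℓ`.

* `ratLoc_dvd_of_padicValRat_le` : divisibility in `ℤ_(ℓ)` from the `ℓ`-adic valuation;
* `ratLoc_isPrincipalIdealRing` : the instance.
-/

set_option autoImplicit false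

namespace Fermat.Agent.W1

open GaloisRep

variable (ℓ : ℕ) [Fact ℓ.Prime]

/-- In `ℤ_(ℓ)`: if `v_ℓ(x) ≤ v_ℓ(y)` and `x ≠ 0`, then `x ∣ y`. -/
theorem ratLoc_dvd_of_padicValRat_le {x y : ratLocalizedAt ℓ} (hx : x ≠ 0)
    (h : padicValRat ℓ (x : ℚ) ≤ padicValRat ℓ (y : ℚ)) : x ∣ y := by
  by_cases hy : y = 0
  · subst hy; exact dvd_zero x
  apply (Fermat.Agent.S28.ratLoc_integers ℓ).dvd_of_le
  have hx' : (x : ℚ) ≠ 0 := fun h0 => hx (Subtype.ext h0)
  have hy' : (y : ℚ) ≠ 0 := fun h0 => hy (Subtype.ext h0)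
  show Rat.padicValuation ℓ (y : ℚ) ≤ Rat.padicValuation ℓ (x : ℚ)
  simp only [Rat.padicValuation, Valuation.coe_mk, MonoidWithZeroHom.coe_mk, ZeroHom.coe_mk,
    hx', hy', if_false]
  rw [WithZero.exp_le_exp]
  omega

/-- The `ℓ`-adic valuation is nonnegative on `ℤ_(ℓ)`. -/
theorem ratLoc_padicValRat_nonneg (x : ratLocalizedAt ℓ) : 0 ≤ padicValRat ℓ (x : ℚ) := by
  by_cases hx : (x : ℚ) = 0
  · rw [hx]; simp
  have h1 := (Fermat.Agent.S28.ratLoc_integers ℓ).map_le_one x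
  have h2 : Rat.padicValuation ℓ (x : ℚ) ≤ 1 := h1
  simp only [Rat.padicValuation, Valuation.coe_mk, MonoidWithZeroHom.coe_mk, ZeroHom.coe_mk,
    hx, if_false] at h2
  rw [← WithZero.exp_zero, WithZero.exp_le_exp] at h2
  omega

/-- `ℤ_(ℓ)` is a principal ideal ring. -/
instance ratLoc_isPrincipalIdealRing : IsPrincipalIdealRing (ratLocalizedAt ℓ) := by
  classical
  refine ⟨fun I => ?_⟩
  by_cases hI : I = ⊥
  · subst hI; exact ⟨⟨0, by simp⟩⟩
  obtain ⟨x₁, hx₁, hx₁0⟩ := Submodule.exists_mem_ne_zero_of_ne_bot hI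
  -- the set of valuations of nonzero elements of `I`
  have hex : ∃ n : ℕ, ∃ x ∈ I, x ≠ 0 ∧ padicValRat ℓ ((x : ratLocalizedAt ℓ) : ℚ) = (n : ℤ) :=
    ⟨(padicValRat ℓ (x₁ : ℚ)).toNat, x₁, hx₁, hx₁0,
      (Int.toNat_of_nonneg (ratLoc_padicValRat_nonneg ℓ x₁)).symm⟩
  obtain ⟨x₀, hx₀, hx₀0, hv₀⟩ := Nat.find_spec hex
  refine ⟨⟨x₀, le_antisymm (fun y hy => ?_) ?_⟩⟩
  · rw [Submodule.mem_span_singleton]
    by_cases hy0 : y = 0
    · exact ⟨0, by simp [hy0]⟩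
    have hmin : Nat.find hex ≤ (padicValRat ℓ (y : ℚ)).toNat :=
      Nat.find_min' hex ⟨y, hy, hy0,
        (Int.toNat_of_nonneg (ratLoc_padicValRat_nonneg ℓ y)).symm⟩
    have hle : padicValRat ℓ (x₀ : ℚ) ≤ padicValRat ℓ (y : ℚ) := by
      have := ratLoc_padicValRat_nonneg ℓ y
      omega
    obtain ⟨c, hc⟩ := ratLoc_dvd_of_padicValRat_le ℓ hx₀0 hle
    exact ⟨c, by rw [hc, smul_eq_mul, mul_comm]⟩
  · rw [Submodule.span_le]
    intro y hy
    rw [Set.mem_singleton_iff.mp hy]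
    exact hx₀

end Fermat.Agent.W1


end ZBS28_005_3
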