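/- GENERATED FILE (helper35, build-time optimisation, NOTES/ZB.md): verbatim concatenation of the modules
   Fermat.Agent.Common.FrobGlue
   Fermat.Agent.Common.FrobExists
   Fermat.Agent.ES.G2.Glue
   Fermat.Agent.Common.InertiaLift
   Fermat.Agent.S13.Minkowski
   Do not edit; do not import together with these modules. -/
import Mathlib
import Fermat.Prelude.Def_EllipticCurve_FrobeniusTrace
import Fermat.Agent.ZB.Common_001
import Fermat.Agent.ZB.Common_002
import Fermat.Prelude.Def_ModularCurve_HeckeModule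
import Fermat.Prelude.Def_FLTPrelim_Ramification

/-! ### bundled: `Fermat.Agent.Common.FrobGlue` -/
section ZBCommon_003_0

/-!
# Frobenius glue (part P3 of `exists_isFrobeniusAt`)

If `σ` acts as `b ↦ b ^ q` modulo the maximal ideal of a valuation subring `A` on the
Galois-stable subring `R' = {b | ∀ g, g b ∈ A}`, and every element of `A` is a fraction `b / s`
with `b, s ∈ R'`, `s` a unit of `A`, then `σ` is a Frobenius element at `A`.
-/

set_option autoImplicit false

open scoped Pointwise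

namespace Fermat.Agent.Common

section General

variable {K L : Type*} [Field K] [Field L] [Algebra K L]

/-- An element of `A` that is not a nonunit has valuation one. -/
theorem frobGlue_valuation_eq_one (A : ValuationSubring L) {s : L} (hs : s ∈ A)
    (hsu : s ∉ A.nonunits) : A.valuation s = 1 := by
  have h1 : A.valuation s ≤ 1 := (A.valuation_le_one_iff s).mpr hs
  have h2 : ¬ A.valuation s < 1 := fun h => hsu (A.mem_nonunits_iff.mpr h)
  exact le_antisymm h1 (not_lt.mp h2)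

/-- `A.nonunits` absorbs multiplication by elements of `A`. -/
theorem frobGlue_mul_mem_nonunits (A : ValuationSubring L) {a m : L} (ha : a ∈ A)
    (hm : m ∈ A.nonunits) : a * m ∈ A.nonunits := by
  rw [A.mem_nonunits_iff] at hm ⊢
  rw [map_mul]
  have h1 : A.valuation a ≤ 1 := (A.valuation_le_one_iff a).mpr ha
  calc A.valuation a * A.valuation m ≤ 1 * A.valuation m := by gcongr
    _ = A.valuation m := one_mul _
    _ < 1 := hm

theorem frobGlue_pow_mem_nonunits (A : ValuationSubring L) {t : L} (ht : t ∈ A.nonunits)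
    {q : ℕ} (hq : q ≠ 0) : t ^ q ∈ A.nonunits := by
  obtain ⟨n, rfl⟩ := Nat.exists_eq_succ_of_ne_zero hq
  rw [pow_succ]
  exact frobGlue_mul_mem_nonunits A (pow_mem (A.nonunits_subset ht) n) ht

theorem frobGlue_not_mem_nonunits_of_pow (A : ValuationSubring L) {s : L} (hs : s ∈ A)
    (hsu : s ∉ A.nonunits) (q : ℕ) : s ^ q ∉ A.nonunits := by
  rw [A.mem_nonunits_iff, map_pow, frobGlue_valuation_eq_one A hs hsu, one_pow]
  exact lt_irrefl _

/-- General form of the glue lemma. -/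
theorem frob_glue_general (q : ℕ) (A : ValuationSubring L) (σ : L ≃ₐ[K] L)
    (hσ : ∀ b : L, (∀ g : L ≃ₐ[K] L, g b ∈ A) → σ b - b ^ q ∈ A.nonunits)
    (hX : ∀ x ∈ A, ∃ s b : L, (∀ g : L ≃ₐ[K] L, g s ∈ A) ∧ (∀ g : L ≃ₐ[K] L, g b ∈ A) ∧
      s ∉ A.nonunits ∧ x * s = b) :
    A.IsFrobeniusAt σ q := by
  -- `q ≠ 0`
  have hq : q ≠ 0 := by
    rintro rfl
    have h0 := hσ 0 (fun g => by rw [map_zero]; exact A.zero_mem)
    rw [map_zero, pow_zero, zero_sub] at h0
    have h1 : (1 : L) ∈ A.nonunits := by simpa using A.nonunits.neg_mem h0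
    rw [A.mem_nonunits_iff, map_one] at h1
    exact lt_irrefl _ h1
  -- images of units of `R'` are units
  have key1 : ∀ s : L, (∀ g : L ≃ₐ[K] L, g s ∈ A) → s ∉ A.nonunits →
      σ s ∉ A.nonunits ∧ σ.symm s ∉ A.nonunits := by
    intro s hs hsu
    have hsA : s ∈ A := by simpa using hs 1
    refine ⟨fun h => ?_, fun h => ?_⟩
    · have h2 : s ^ q ∈ A.nonunits := by
        have := A.nonunits.sub_mem h (hσ s hs)
        simpa using this
      exact frobGlue_not_mem_nonunits_of_pow A hsA hsu q h2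
    · have ht : ∀ g : L ≃ₐ[K] L, g (σ.symm s) ∈ A := fun g => by
        have := hs (σ.symm.trans g)
        simpa using this
      have h2 := hσ (σ.symm s) ht
      rw [AlgEquiv.apply_symm_apply] at h2
      have h3 : s ∈ A.nonunits := by
        have := A.nonunits.add_mem h2 (frobGlue_pow_mem_nonunits A h hq)
        simpa using this
      exact hsu h3
  -- main computation
  have key2 : ∀ x ∈ A, σ x ∈ A ∧ σ.symm x ∈ A ∧ σ x - x ^ q ∈ A.nonunits := by
    intro x hx
    obtain ⟨s, b, hs, hb, hsu, hxs⟩ := hX x hx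
    have hsA : s ∈ A := by simpa using hs 1
    have hbA : b ∈ A := by simpa using hb 1
    obtain ⟨hσs, hσs'⟩ := key1 s hs hsu
    have hσsA : σ s ∈ A := hs σ
    have hσs'A : σ.symm s ∈ A := hs σ.symm
    have hv1 : A.valuation (σ s) = 1 := frobGlue_valuation_eq_one A hσsA hσs
    have hv2 : A.valuation (σ.symm s) = 1 := frobGlue_valuation_eq_one A hσs'A hσs'
    have hv0 : A.valuation s = 1 := frobGlue_valuation_eq_one A hsA hsu
    have e1 : σ x * σ s = σ b := by rw [← map_mul, hxs]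
    have e2 : σ.symm x * σ.symm s = σ.symm b := by rw [← map_mul, hxs]
    refine ⟨?_, ?_, ?_⟩
    · rw [← A.valuation_le_one_iff]
      have : A.valuation (σ x) * A.valuation (σ s) = A.valuation (σ b) := by
        rw [← map_mul, e1]
      rw [hv1, mul_one] at this
      rw [this]
      exact (A.valuation_le_one_iff _).mpr (hb σ)
    · rw [← A.valuation_le_one_iff]
      have : A.valuation (σ.symm x) * A.valuation (σ.symm s) = A.valuation (σ.symm b) := by
        rw [← map_mul, e2]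
      rw [hv2, mul_one] at this
      rw [this]
      exact (A.valuation_le_one_iff _).mpr (hb σ.symm)
    · have e3 : (σ x - x ^ q) * (σ s * s ^ q) =
          s ^ q * (σ b - b ^ q) - b ^ q * (σ s - s ^ q) := by
        have hb' : b ^ q = x ^ q * s ^ q := by rw [← hxs, mul_pow]
        rw [hb', ← e1]
        ring
      have h4 : (σ x - x ^ q) * (σ s * s ^ q) ∈ A.nonunits := by
        rw [e3]
        exact A.nonunits.sub_mem
          (frobGlue_mul_mem_nonunits A (pow_mem hsA q) (hσ b hb))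
          (frobGlue_mul_mem_nonunits A (pow_mem hbA q) (hσ s hs))
      rw [A.mem_nonunits_iff, map_mul, map_mul, map_pow, hv1, hv0, one_pow, mul_one,
        mul_one] at h4
      exact A.mem_nonunits_iff.mpr h4
  -- `σ` lies in the decomposition group
  have hmem : σ ∈ A.decompositionSubgroup K := by
    rw [MulAction.mem_stabilizer_iff]
    ext x
    rw [ValuationSubring.mem_pointwise_smul_iff_inv_smul_mem]
    constructor
    · intro h
      have := (key2 _ h).1
      simpa [AlgEquiv.smul_def] using this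
    · intro h
      have := (key2 _ h).2.1
      simpa [AlgEquiv.smul_def] using this
  refine ⟨hmem, fun x => ?_⟩
  obtain ⟨x, rfl⟩ := IsLocalRing.residue_surjective x
  rw [← IsLocalRing.ResidueField.residue_smul, ← map_pow, ← sub_eq_zero, ← map_sub,
    IsLocalRing.residue_eq_zero_iff, ← ValuationSubring.coe_mem_nonunits_iff]
  exact (key2 x x.2).2.2

end General

/-- Part P3: the glue lemma in the form used for `exists_isFrobeniusAt`. -/
theorem frob_glue (ℓ : ℕ) (_hℓ : ℓ.Prime) (A : ValuationSubring (AlgebraicClosure ℚ))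
    (_hA : A.LiesOverPrime ℓ) (σ : AlgebraicClosure ℚ ≃ₐ[ℚ] AlgebraicClosure ℚ)
    (hσ : ∀ b : AlgebraicClosure ℚ,
      (∀ g : AlgebraicClosure ℚ ≃ₐ[ℚ] AlgebraicClosure ℚ, g b ∈ A) → σ b - b ^ ℓ ∈ A.nonunits)
    (hX : ∀ x ∈ A, ∃ s b : AlgebraicClosure ℚ,
      (∀ g : AlgebraicClosure ℚ ≃ₐ[ℚ] AlgebraicClosure ℚ, g s ∈ A) ∧
      (∀ g : AlgebraicClosure ℚ ≃ₐ[ℚ] AlgebraicClosure ℚ, g b ∈ A) ∧
      s ∉ A.nonunits ∧ x * s = b) :
    A.IsFrobeniusAt σ ℓ :=
  frob_glue_general ℓ A σ hσ hX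

end Fermat.Agent.Common


end ZBCommon_003_0

/-! ### bundled: `Fermat.Agent.Common.FrobExists` -/
section ZBCommon_003_1

/-!
# Existence of Frobenius elements

For every prime `ℓ` there are a valuation subring `A` of `ℚ̄` lying over `ℓ` and an element
`σ` of the absolute Galois group of `ℚ` which is a Frobenius element at `A`.
-/

set_option autoImplicit false

namespace Fermat.Agent.Common

/-- Every valuation subring of `ℚ̄` over a prime `ℓ` has a Frobenius element. -/
theorem exists_isFrobeniusAt_of_liesOverPrime (ℓ : ℕ) (hℓ : ℓ.Prime)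
    (A : ValuationSubring (AlgebraicClosure ℚ)) (hA : A.LiesOverPrime ℓ) :
    ∃ σ : AlgebraicClosure ℚ ≃ₐ[ℚ] AlgebraicClosure ℚ, A.IsFrobeniusAt σ ℓ := by
  obtain ⟨σ, hσ⟩ := frob_profinite ℓ hℓ A hA
  exact ⟨σ, frob_glue ℓ hℓ A hA σ hσ (fun x hx => lemmaX_frob ℓ hℓ A hA x hx)⟩

/-- For every prime `ℓ` there is a Frobenius element at some valuation subring over `ℓ`. -/
theorem exists_isFrobeniusAt (ℓ : ℕ) (hℓ : ℓ.Prime) :
    ∃ (A : ValuationSubring (AlgebraicClosure ℚ))
      (σ : AlgebraicClosure ℚ ≃ₐ[ℚ] AlgebraicClosure ℚ),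
      A.LiesOverPrime ℓ ∧ A.IsFrobeniusAt σ ℓ := by
  obtain ⟨A, hA⟩ := exists_liesOverPrime ℓ hℓ
  obtain ⟨σ, hσ⟩ := exists_isFrobeniusAt_of_liesOverPrime ℓ hℓ A hA
  exact ⟨A, σ, hA, hσ⟩

end Fermat.Agent.Common


end ZBCommon_003_1

/-! ### bundled: `Fermat.Agent.ES.G2.Glue` -/
section ZBCommon_003_2

/-!
# S37 glue: `SpecializationExists` from one additive "reduction" map

Abstract form of §1 of `NOTES/ESpkg.md`.  Let `J` be a Hecke module with a commuting Galois action
and let `sp₀ : J →+ J''`, `F₀ : J'' →+ J''` satisfy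

* (R1a) `sp₀ (σ x) = sp₀ x` for `σ` in the inertia group of `A`;
* (R1b) `sp₀ (φ x) = F₀ (sp₀ x)` for every Frobenius `φ` at `A`;
* (R2)  `sp₀` is injective on `p`-power torsion;
* (R3)  `F₀ (F₀ (sp₀ x)) - F₀ (sp₀ (T_ℓ x)) + ℓ • sp₀ x = 0`
        (the Eichler–Shimura congruence `sp₀ ∘ T_ℓ = (F₀ + ℓ F₀⁻¹) ∘ sp₀` after applying `F₀`).

Then `J' := J ⧸ K'`, with `K'` the largest Hecke-stable subgroup of `ker sp₀`, is a
specialization of `J` in the sense of the prelude, and Frobenius on `J'` satisfies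
`F² - T_ℓ F + ℓ = 0`.  No Hecke-equivariance of `sp₀` is needed.
-/

set_option autoImplicit false

namespace Fermat.Agent.ES.G2

open ModularCurve

section Abstract

variable {K L : Type*} [Field K] [Field L] [Algebra K L]
variable (p : ℕ) (J : Type) [AddCommGroup J] [Module HeckeAlg J]
  [DistribMulAction (L ≃ₐ[K] L) J] [SMulCommClass (L ≃ₐ[K] L) HeckeAlg J]

/-- The input of the glue: one additive map `sp₀` to an abelian group with an endomorphism `F₀`,
compatible with inertia and Frobenius at `A`, injective on `p`-power torsion, and satisfying the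
Eichler–Shimura congruence for the single Hecke operator `T_ℓ`. -/
structure GlueInput (A : ValuationSubring L) (ℓ : ℕ) (hℓ : ℓ.Prime)
    {J'' : Type*} [AddCommGroup J''] (sp₀ : J →+ J'') (F₀ : J'' →+ J'') : Prop where
  inertia : ∀ σ ∈ A.inertiaSubgroupIn K, ∀ x : J, sp₀ (σ • x) = sp₀ x
  frobenius : ∀ σ : L ≃ₐ[K] L, A.IsFrobeniusAt σ ℓ → ∀ x : J, sp₀ (σ • x) = F₀ (sp₀ x)
  injective_torsion : ∀ x : J, (∃ n : ℕ, p ^ n • x = 0) → sp₀ x = 0 → x = 0
  congruence : ∀ x : J,
    F₀ (F₀ (sp₀ x)) - F₀ (sp₀ (heckeGen ⟨ℓ, hℓ⟩ • x)) + ℓ • sp₀ x = 0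

variable {p J}

/-- The largest Hecke-stable subgroup of `ker sp₀`. -/
def glueKer {J'' : Type*} [AddCommGroup J''] (sp₀ : J →+ J'') : Submodule HeckeAlg J where
  carrier := {x | ∀ T : HeckeAlg, sp₀ (T • x) = 0}
  zero_mem' := fun T => by simp
  add_mem' := fun {x y} hx hy T => by
    have hx' : sp₀ (T • x) = 0 := hx T
    have hy' : sp₀ (T • y) = 0 := hy T
    rw [smul_add, map_add, hx', hy', add_zero]
  smul_mem' := fun c x hx T => by
    rw [smul_smul]
    exact hx (T * c)

theorem mem_glueKer {J'' : Type*} [AddCommGroup J''] (sp₀ : J →+ J'') (x : J) :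
    x ∈ glueKer sp₀ ↔ ∀ T : HeckeAlg, sp₀ (T • x) = 0 := Iff.rfl

theorem glueKer_le_ker {J'' : Type*} [AddCommGroup J''] (sp₀ : J →+ J'') {x : J}
    (hx : x ∈ glueKer sp₀) : sp₀ x = 0 := by
  have := hx 1
  rwa [one_smul] at this

omit [Module HeckeAlg J] [SMulCommClass (L ≃ₐ[K] L) HeckeAlg J] in
/-- The action of a Galois element as an additive endomorphism of `J`. -/
def glueGal (σ : L ≃ₐ[K] L) : J →+ J := DistribSMul.toAddMonoidHom J σ

omit [Module HeckeAlg J] [SMulCommClass (L ≃ₐ[K] L) HeckeAlg J] in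
@[simp] theorem glueGal_apply (σ : L ≃ₐ[K] L) (x : J) : glueGal (K := K) (L := L) σ x = σ • x :=
  rfl

/-- The abstract glue theorem. -/
theorem specialization_of_glueInput (A : ValuationSubring L) (ℓ : ℕ) (hℓ : ℓ.Prime)
    (hfrob : ∃ φ : L ≃ₐ[K] L, A.IsFrobeniusAt φ ℓ)
    {J'' : Type*} [AddCommGroup J''] (sp₀ : J →+ J'') (F₀ : J'' →+ J'')
    (h : GlueInput (K := K) p J A ℓ hℓ sp₀ F₀) :
    ∃ (J' : Type) (_ : AddCommGroup J') (_ : Module HeckeAlg J') (sp : J →+ J')
      (F : J' →+ J'),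
      IsSpecialization (K := K) p J J' A ℓ sp F ∧ SpecialFibreRelation J' ℓ hℓ F := by
  classical
  obtain ⟨φ, hφ⟩ := hfrob
  set K' : Submodule HeckeAlg J := glueKer sp₀ with hK'
  -- Frobenius preserves K'
  have hφK : ∀ x ∈ K', φ • x ∈ K' := by
    intro x hx T
    rw [← smul_comm φ T x, h.frobenius φ hφ, hx T, map_zero]
  -- the induced map on the quotient
  let Fq : (J ⧸ K') →+ (J ⧸ K') :=
    QuotientAddGroup.map K'.toAddSubgroup K'.toAddSubgroup (glueGal (K := K) (L := L) φ)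
      (fun x hx => hφK x hx)
  have hFq : ∀ x : J, Fq (K'.mkQ x) = K'.mkQ (φ • x) := fun x => rfl
  refine ⟨J ⧸ K', inferInstance, inferInstance, K'.mkQ.toAddMonoidHom, Fq, ⟨?_, ?_, ?_, ?_⟩, ?_⟩
  · -- hecke_comm
    intro T x
    rfl
  · -- inertia_comm
    intro σ hσ x
    show K'.mkQ (σ • x) = K'.mkQ x
    rw [← sub_eq_zero, ← map_sub, Submodule.mkQ_apply, Submodule.Quotient.mk_eq_zero]
    intro T
    rw [smul_sub, map_sub, ← smul_comm σ T x, h.inertia σ hσ, sub_self]
  · -- frobenius_comm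
    intro σ hσ x
    show K'.mkQ (σ • x) = Fq (K'.mkQ x)
    rw [hFq, ← sub_eq_zero, ← map_sub, Submodule.mkQ_apply, Submodule.Quotient.mk_eq_zero]
    intro T
    rw [smul_sub, map_sub, ← smul_comm σ T x, ← smul_comm φ T x, h.frobenius σ hσ,
      h.frobenius φ hφ, sub_self]
  · -- injective_torsion
    intro x hx hsp
    have hxK : x ∈ K' := by
      have : K'.mkQ x = 0 := hsp
      rwa [Submodule.mkQ_apply, Submodule.Quotient.mk_eq_zero] at this
    exact h.injective_torsion x hx (glueKer_le_ker sp₀ hxK)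
  · -- SpecialFibreRelation
    intro y
    obtain ⟨x, rfl⟩ := K'.mkQ_surjective y
    rw [hFq, hFq]
    have e1 : heckeGen ⟨ℓ, hℓ⟩ • K'.mkQ (φ • x) = K'.mkQ (heckeGen ⟨ℓ, hℓ⟩ • (φ • x)) := rfl
    have e2 : (ℓ : ℕ) • K'.mkQ x = K'.mkQ (ℓ • x) := (map_nsmul _ _ _).symm
    rw [e1, e2, ← map_sub, ← map_add, Submodule.mkQ_apply, Submodule.Quotient.mk_eq_zero]
    intro T
    -- move `T` inside
    have hT : T • (φ • φ • x - heckeGen ⟨ℓ, hℓ⟩ • (φ • x) + ℓ • x)
        = φ • φ • (T • x) - φ • (heckeGen ⟨ℓ, hℓ⟩ • (T • x)) + ℓ • (T • x) := by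
      rw [smul_add, smul_sub]
      congr 1
      · congr 1
        · rw [← smul_comm φ T (φ • x), ← smul_comm φ T x]
        · rw [smul_comm T (heckeGen ⟨ℓ, hℓ⟩) (φ • x), ← smul_comm φ T x,
            ← smul_comm φ (heckeGen ⟨ℓ, hℓ⟩) (T • x)]
      · rw [smul_comm T ℓ x]
    rw [hT, map_add, map_sub, h.frobenius φ hφ, h.frobenius φ hφ, h.frobenius φ hφ, map_nsmul]
    exact h.congruence (T • x)

end Abstract

section JZero

variable (N p : ℕ) [NeZero N]

/-- The hypothesis that S37 needs, for all primes `ℓ ∤ N p` and all valuation rings over `ℓ`: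
an additive map out of `J₀(N)` with (R1)–(R3). -/
def GlueInputsJZero : Prop :=
  letI := heckeModuleBar N
  ∀ (_ : SMulCommClass (AlgebraicClosure ℚ ≃ₐ[ℚ] AlgebraicClosure ℚ) HeckeAlg (JZero N)),
    ∀ ℓ : ℕ, (hℓ : ℓ.Prime) → ¬ ℓ ∣ N * p →
      ∀ A : ValuationSubring (AlgebraicClosure ℚ), A.LiesOverPrime ℓ →
        ∃ (J'' : Type) (_ : AddCommGroup J'') (sp₀ : JZero N →+ J'') (F₀ : J'' →+ J''),
          GlueInput (K := ℚ) p (JZero N) A ℓ hℓ sp₀ F₀

/-- S37 from the glue inputs. -/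
theorem specializationExists_JZero_of_glueInputs (h : GlueInputsJZero N p) :
    letI := heckeModuleBar N
    ∀ (_ : SMulCommClass (AlgebraicClosure ℚ ≃ₐ[ℚ] AlgebraicClosure ℚ) HeckeAlg (JZero N)),
      SpecializationExists (K := ℚ) (L := AlgebraicClosure ℚ) N p (JZero N) := by
  letI := heckeModuleBar N
  intro hsmul ℓ hℓ hℓN A hA
  obtain ⟨J'', _, sp₀, F₀, hin⟩ := h hsmul ℓ hℓ hℓN A hA
  exact specialization_of_glueInput A ℓ hℓ
    (Fermat.Agent.Common.exists_isFrobeniusAt_of_liesOverPrime ℓ hℓ A hA) sp₀ F₀ hin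

end JZero

end Fermat.Agent.ES.G2


end ZBCommon_003_2

/-! ### bundled: `Fermat.Agent.Common.InertiaLift` -/
section ZBCommon_003_3

/-!
# Lifting inertia from finite level to `Gal(ℚ̄/ℚ)`

* `Fermat.Agent.Common.exists_int_mul_isIntegral_of_forall_mem`: if all conjugates of `x` lie in a
  valuation ring `A` of `ℚ̄` over `q`, then `s * x` is an algebraic integer for some integer `s`
  prime to `q`.
* `Fermat.Agent.Common.exists_mem_inertiaSubgroupIn_of_congr`: if `σ ∈ Gal(ℚ̄/ℚ)` is congruent to the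
  identity modulo `𝔪_A` on the algebraic integers of a normal subfield `F` of `ℚ̄`, then there is
  `σ'` in the inertia group of `A` with `σ' = σ` on `F`.
-/

set_option autoImplicit false
set_option linter.style.haveILetI false

namespace Fermat.Agent.Common

open scoped Pointwise
open Polynomial

/-- An integer lying in the maximal ideal of a valuation ring over `q` is divisible by `q`. -/
theorem int_dvd_of_mem_nonunits {q : ℕ} (hq : q.Prime)
    (A : ValuationSubring (AlgebraicClosure ℚ)) (hA : ((q : ℕ) : AlgebraicClosure ℚ) ∈ A.nonunits)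
    (z : ℤ) (hz : (z : AlgebraicClosure ℚ) ∈ A.nonunits) : (q : ℤ) ∣ z := by
  by_contra h
  exact intCast_not_mem_nonunits hq A hA z h hz

/-- If all conjugates of `x` lie in a valuation ring `A` of `ℚ̄` over `q`, then `s * x` is an
algebraic integer for some integer `s` prime to `q`. -/
theorem exists_int_mul_isIntegral_of_forall_mem {q : ℕ} (hq : q.Prime)
    (A : ValuationSubring (AlgebraicClosure ℚ)) (hA : ((q : ℕ) : AlgebraicClosure ℚ) ∈ A.nonunits)
    (x : AlgebraicClosure ℚ)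
    (hx : ∀ g : AlgebraicClosure ℚ ≃ₐ[ℚ] AlgebraicClosure ℚ, g x ∈ A) :
    ∃ s : ℤ, ¬ (q : ℤ) ∣ s ∧ IsIntegral ℤ ((s : AlgebraicClosure ℚ) * x) := by
  classical
  haveI := isAlgClosure_rat_qbar
  have halg : IsAlgebraic ℚ x := (AlgebraicClosure.isAlgebraic ℚ).isAlgebraic x
  have hint : IsIntegral ℚ x := halg.isIntegral
  set f : ℚ[X] := minpoly ℚ x with hf
  have hf0 : f ≠ 0 := minpoly.ne_zero hint
  obtain ⟨b, hbM, hb⟩ := IsLocalization.integerNormalization_spec (nonZeroDivisors ℤ) f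
  set g : ℤ[X] := IsLocalization.integerNormalization (nonZeroDivisors ℤ) f with hg
  have hb0 : b ≠ 0 := nonZeroDivisors.ne_zero hbM
  have hg0 : g ≠ 0 := by
    intro h0
    rw [h0, Polynomial.map_zero] at hb
    have : b • f ≠ 0 := by
      rw [Ne, smul_eq_zero, not_or]
      exact ⟨hb0, hf0⟩
    exact this hb.symm
  -- roots of `g` in `ℚ̄` are roots of `f`, hence conjugates of `x`, hence in `A`
  have hroot : ∀ r : AlgebraicClosure ℚ, aeval r g = 0 → r ∈ A := by
    intro r hr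
    have h1 : aeval r (g.map (algebraMap ℤ ℚ)) = 0 := by
      rw [aeval_map_algebraMap]; exact hr
    rw [hb, zsmul_eq_mul, map_mul, map_intCast, mul_eq_zero] at h1
    have h2 : aeval r f = 0 := h1.resolve_left (by exact_mod_cast hb0)
    obtain ⟨σ, hσ⟩ := minpoly.exists_algEquiv_of_root' (K := ℚ) halg h2
    rw [← hσ]
    exact hx σ
  have hxg : aeval x g = 0 := by
    have h1 : aeval x (g.map (algebraMap ℤ ℚ)) = 0 := by
      rw [hb, zsmul_eq_mul, map_mul, hf, minpoly.aeval, mul_zero]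
    rwa [aeval_map_algebraMap] at h1
  -- the primitive part
  set p : ℤ[X] := g.primPart with hp
  have hgp : g = C g.content * p := g.eq_C_content_mul_primPart
  have hc0 : g.content ≠ 0 := by rwa [Ne, Polynomial.content_eq_zero_iff]
  have hc0' : ((g.content : ℤ) : AlgebraicClosure ℚ) ≠ 0 := by exact_mod_cast hc0
  have haeval : ∀ r : AlgebraicClosure ℚ, aeval r p = 0 ↔ aeval r g = 0 := by
    intro r
    rw [hgp, map_mul, aeval_C, mul_eq_zero]
    constructor
    · intro h; exact Or.inr h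
    · rintro (h | h)
      · exact absurd (by simpa using h) hc0'
      · exact h
  have hp0 : p ≠ 0 := Polynomial.primPart_ne_zero g
  have hprim : p.IsPrimitive := g.isPrimitive_primPart
  -- factorisation over `ℚ̄`
  set P : (AlgebraicClosure ℚ)[X] := p.map (algebraMap ℤ (AlgebraicClosure ℚ)) with hP
  have hinj : Function.Injective (algebraMap ℤ (AlgebraicClosure ℚ)) :=
    (algebraMap ℤ (AlgebraicClosure ℚ)).injective_int
  have hsplit : P.Splits := IsAlgClosed.splits P
  have hfac := hsplit.eq_prod_roots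
  have hlead : P.leadingCoeff = ((p.leadingCoeff : ℤ) : AlgebraicClosure ℚ) := by
    rw [hP, Polynomial.leadingCoeff_map_of_injective hinj]
    simp
  have hP0 : P ≠ 0 := (Polynomial.map_ne_zero_iff hinj).mpr hp0
  -- the monic factor has coefficients in `A`
  have hlift : (P.roots.map fun r => X - C r).prod ∈ Polynomial.lifts A.subtype := by
    refine Subsemiring.multiset_prod_mem _ _ ?_
    intro t ht
    obtain ⟨r, hr, rfl⟩ := Multiset.mem_map.mp ht
    have hrA : r ∈ A := by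
      apply hroot
      rw [← haeval]
      have := (Polynomial.mem_roots hP0).mp hr
      rw [Polynomial.IsRoot.def, hP, Polynomial.eval_map_algebraMap] at this
      exact this
    rw [Polynomial.lifts_iff_coeff_lifts]
    intro n
    rw [Polynomial.coeff_sub, Polynomial.coeff_X, Polynomial.coeff_C]
    refine ⟨(if 1 = n then 1 else 0) - (if n = 0 then ⟨r, hrA⟩ else 0), ?_⟩
    split_ifs <;> simp
  have hcoeffA : ∀ n, (P.roots.map fun r => X - C r).prod.coeff n ∈ A := by
    intro n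
    obtain ⟨y, hy⟩ := (Polynomial.lifts_iff_coeff_lifts _).mp hlift n
    rw [← hy]
    exact y.2
  refine ⟨p.leadingCoeff, ?_, ?_⟩
  · intro hdvd
    have hmem : ((p.leadingCoeff : ℤ) : AlgebraicClosure ℚ) ∈ A.nonunits := by
      obtain ⟨w, hw⟩ := hdvd
      rw [hw]
      push_cast
      exact lemmaX_nonunits_mul A hA (intCast_mem A w)
    have hall : ∀ n, (q : ℤ) ∣ p.coeff n := by
      intro n
      apply int_dvd_of_mem_nonunits hq A hA
      have h1 : ((p.coeff n : ℤ) : AlgebraicClosure ℚ) = P.coeff n := by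
        rw [hP, Polynomial.coeff_map]; simp
      rw [h1, hfac, Polynomial.coeff_C_mul, hlead]
      exact lemmaX_nonunits_mul A hmem (hcoeffA n)
    have hCdvd : C (q : ℤ) ∣ p := (Polynomial.C_dvd_iff_dvd_coeff _ _).mpr hall
    have hu := hprim _ hCdvd
    have := Int.isUnit_iff.mp hu
    have h2 := hq.two_le
    omega
  · have h1 : aeval x p = 0 := (haeval x).mpr hxg
    have h2 := isIntegral_leadingCoeff_smul (R := ℤ) p x h1
    rwa [Algebra.smul_def, eq_intCast] at h2

/-- A congruence `σ ≡ id mod 𝔪_A` on the algebraic integers of `F` extends to all elements of `F`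
all of whose conjugates lie in `A`. -/
theorem congr_on_galStable_of_congr_on_integers {q : ℕ} (hq : q.Prime)
    (A : ValuationSubring (AlgebraicClosure ℚ)) (hA : ((q : ℕ) : AlgebraicClosure ℚ) ∈ A.nonunits)
    (F : IntermediateField ℚ (AlgebraicClosure ℚ))
    (σ : AlgebraicClosure ℚ ≃ₐ[ℚ] AlgebraicClosure ℚ)
    (hσ : ∀ x ∈ F, IsIntegral ℤ x → σ x - x ∈ A.nonunits)
    (x : AlgebraicClosure ℚ) (hxF : x ∈ F)
    (hx : ∀ g : AlgebraicClosure ℚ ≃ₐ[ℚ] AlgebraicClosure ℚ, g x ∈ A) :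
    σ x - x ∈ A.nonunits := by
  obtain ⟨s, hs, hsx⟩ := exists_int_mul_isIntegral_of_forall_mem hq A hA x hx
  have hsF : (s : AlgebraicClosure ℚ) * x ∈ F := F.mul_mem (intCast_mem F s) hxF
  have h1 := hσ _ hsF hsx
  have h2 : σ ((s : AlgebraicClosure ℚ) * x) - (s : AlgebraicClosure ℚ) * x =
      (s : AlgebraicClosure ℚ) * (σ x - x) := by
    rw [map_mul, map_intCast]; ring
  rw [h2, ValuationSubring.mem_nonunits_iff, map_mul] at h1
  have hsu : A.valuation (s : AlgebraicClosure ℚ) = 1 :=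
    frobGlue_valuation_eq_one A (intCast_mem A s) (intCast_not_mem_nonunits hq A hA s hs)
  rw [hsu, one_mul] at h1
  rwa [ValuationSubring.mem_nonunits_iff]

/-- A normal subfield is stable under every automorphism. -/
theorem apply_mem_of_normal (F : IntermediateField ℚ (AlgebraicClosure ℚ)) [Normal ℚ F]
    (σ : AlgebraicClosure ℚ ≃ₐ[ℚ] AlgebraicClosure ℚ) {x : AlgebraicClosure ℚ} (hx : x ∈ F) :
    σ x ∈ F := by
  haveI := isAlgClosure_rat_qbar
  have h := IntermediateField.normal_iff_forall_map_le'.mp (inferInstance : Normal ℚ F) σ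
  exact h ⟨x, hx, rfl⟩

/-- The profinite step: if `σ ≡ id mod 𝔪_A` on the Galois-stable elements of the normal subfield
`F`, then some `σ'` agreeing with `σ` on `F` is `≡ id mod 𝔪_A` on all Galois-stable elements. -/
theorem exists_congr_one_on_galStable (F : IntermediateField ℚ (AlgebraicClosure ℚ)) [Normal ℚ F]
    (A : ValuationSubring (AlgebraicClosure ℚ))
    (σ : AlgebraicClosure ℚ ≃ₐ[ℚ] AlgebraicClosure ℚ)
    (hσ : ∀ x ∈ F, (∀ g : AlgebraicClosure ℚ ≃ₐ[ℚ] AlgebraicClosure ℚ, g x ∈ A) →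
      σ x - x ∈ A.nonunits) :
    ∃ σ' : AlgebraicClosure ℚ ≃ₐ[ℚ] AlgebraicClosure ℚ, (∀ x ∈ F, σ' x = σ x) ∧
      ∀ b : AlgebraicClosure ℚ,
        (∀ g : AlgebraicClosure ℚ ≃ₐ[ℚ] AlgebraicClosure ℚ, g b ∈ A) → σ' b - b ∈ A.nonunits := by
  classical
  haveI := isAlgClosure_rat_qbar
  let U : Subgroup (AlgebraicClosure ℚ ≃ₐ[ℚ] AlgebraicClosure ℚ) := F.fixingSubgroup
  have hclosed : IsClosed (U : Set (AlgebraicClosure ℚ ≃ₐ[ℚ] AlgebraicClosure ℚ)) :=
    InfiniteGalois.fixingSubgroup_isClosed F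
  haveI : CompactSpace U := isCompact_iff_compactSpace.mp hclosed.isCompact
  letI : TopologicalSpace (galStableSubring A) := ⊥
  haveI : DiscreteTopology (galStableSubring A) := ⟨rfl⟩
  haveI : ContinuousSMul (AlgebraicClosure ℚ ≃ₐ[ℚ] AlgebraicClosure ℚ) (galStableSubring A) := by
    rw [continuousSMul_iff_stabilizer_isOpen]
    intro b
    have h := stabilizer_isOpen_of_isIntegral (K := ℚ) (b : AlgebraicClosure ℚ)
    convert h using 1
    ext g
    simp only [SetLike.mem_coe, MulAction.mem_stabilizer_iff, Subtype.ext_iff]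
    rfl
  haveI : Algebra.IsInvariant (FixedPoints.subring (galStableSubring A) U) (galStableSubring A) U :=
    ⟨fun b hb => ⟨⟨b, hb⟩, rfl⟩⟩
  haveI : Algebra.IsInvariant (FixedPoints.subring (galStableSubring A)
      (AlgebraicClosure ℚ ≃ₐ[ℚ] AlgebraicClosure ℚ)) (galStableSubring A)
      (AlgebraicClosure ℚ ≃ₐ[ℚ] AlgebraicClosure ℚ) := ⟨fun b hb => ⟨⟨b, hb⟩, rfl⟩⟩
  -- basic facts on `U`
  have hUfix : ∀ u : U, ∀ x ∈ F, (u : AlgebraicClosure ℚ ≃ₐ[ℚ] AlgebraicClosure ℚ) x = x := by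
    intro u x hx
    exact (IntermediateField.mem_fixingSubgroup_iff F _).mp u.2 x hx
  have hfixedF : ∀ a : FixedPoints.subring (galStableSubring A) U,
      ((a : galStableSubring A) : AlgebraicClosure ℚ) ∈ F := by
    intro a
    have h1 : ((a : galStableSubring A) : AlgebraicClosure ℚ) ∈
        IntermediateField.fixedField F.fixingSubgroup := by
      rw [IntermediateField.mem_fixedField_iff]
      intro g hg
      have := a.2 ⟨g, hg⟩
      exact congrArg Subtype.val this
    rwa [InfiniteGalois.fixedField_fixingSubgroup] at h1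
  -- the prime `Q`
  let incl : galStableSubring A →+* A := Subring.inclusion (galStableSubring_le A)
  let Q : Ideal (galStableSubring A) := (IsLocalRing.maximalIdeal A).comap incl
  have hQmem : ∀ b : galStableSubring A, b ∈ Q ↔ (b : AlgebraicClosure ℚ) ∈ A.nonunits := by
    intro b
    rw [Ideal.mem_comap, ← ValuationSubring.coe_mem_nonunits_iff]
    rfl
  haveI : Q.IsPrime := Ideal.comap_isPrime _ _
  -- the congruence for `σ` and `σ⁻¹` on the fixed ring
  have hcongr : ∀ a : FixedPoints.subring (galStableSubring A) U,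
      σ • (a : galStableSubring A) - (a : galStableSubring A) ∈ Q := by
    intro a
    rw [hQmem]
    exact hσ _ (hfixedF a) (a : galStableSubring A).2
  have hcongr' : ∀ a : FixedPoints.subring (galStableSubring A) U,
      σ⁻¹ • (a : galStableSubring A) - (a : galStableSubring A) ∈ Q := by
    intro a
    rw [hQmem]
    have hF' : σ⁻¹ ((a : galStableSubring A) : AlgebraicClosure ℚ) ∈ F :=
      apply_mem_of_normal F σ⁻¹ (hfixedF a)
    have hB' : ∀ g : AlgebraicClosure ℚ ≃ₐ[ℚ] AlgebraicClosure ℚ,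
        g (σ⁻¹ ((a : galStableSubring A) : AlgebraicClosure ℚ)) ∈ A := fun g =>
      (σ⁻¹ • (a : galStableSubring A)).2 g
    have h1 := hσ _ hF' hB'
    have h2 : σ (σ⁻¹ ((a : galStableSubring A) : AlgebraicClosure ℚ)) =
        ((a : galStableSubring A) : AlgebraicClosure ℚ) := by
      show (σ * σ⁻¹) _ = _
      rw [mul_inv_cancel]; rfl
    rw [h2] at h1
    have h3 := A.nonunits.neg_mem h1
    rw [neg_sub] at h3
    exact h3
  -- the second prime `Q₁ = σ • Q`
  let Q₁ : Ideal (galStableSubring A) := σ • Q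
  have hQ₁mem : ∀ b : galStableSubring A, b ∈ Q₁ ↔ σ⁻¹ • b ∈ Q := fun b =>
    Ideal.mem_pointwise_smul_iff_inv_smul_mem
  haveI : Q₁.IsPrime := by
    have : Q₁ = Q.comap (MulSemiringAction.toRingHom
        (AlgebraicClosure ℚ ≃ₐ[ℚ] AlgebraicClosure ℚ) (galStableSubring A) σ⁻¹) := by
      ext b
      rw [hQ₁mem, Ideal.mem_comap]
      rfl
    rw [this]
    exact Ideal.comap_isPrime _ _
  have hunder : Q₁.under (FixedPoints.subring (galStableSubring A) U) =
      Q.under (FixedPoints.subring (galStableSubring A) U) := by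
    ext a
    rw [Ideal.mem_comap, Ideal.mem_comap]
    show (a : galStableSubring A) ∈ Q₁ ↔ (a : galStableSubring A) ∈ Q
    rw [hQ₁mem]
    constructor
    · intro h
      have := Q.sub_mem h (hcongr' a)
      simpa using this
    · intro h
      have := Q.add_mem (hcongr' a) h
      simpa using this
  obtain ⟨τ, hτ⟩ := Algebra.IsInvariant.exists_smul_of_under_eq_of_profinite
    (A := FixedPoints.subring (galStableSubring A) U) (G := U) Q₁ Q hunder
  -- `σ₂ = τ σ` stabilises `Q`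
  set σ₂ : AlgebraicClosure ℚ ≃ₐ[ℚ] AlgebraicClosure ℚ :=
    (τ : AlgebraicClosure ℚ ≃ₐ[ℚ] AlgebraicClosure ℚ) * σ with hσ₂
  have hstab : σ₂ ∈ MulAction.stabilizer (AlgebraicClosure ℚ ≃ₐ[ℚ] AlgebraicClosure ℚ) Q := by
    rw [MulAction.mem_stabilizer_iff]
    ext b
    rw [Ideal.mem_pointwise_smul_iff_inv_smul_mem]
    have h1 : b ∈ Q ↔ τ⁻¹ • b ∈ Q₁ := by
      conv_lhs => rw [hτ]
      exact Ideal.mem_pointwise_smul_iff_inv_smul_mem
    rw [h1, hQ₁mem]
    have h2 : σ₂⁻¹ • b = σ⁻¹ • (τ⁻¹ • b) := by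
      rw [hσ₂, mul_inv_rev, mul_smul]
      rfl
    rw [h2]
  -- the automorphism of `B ⧸ Q` induced by `σ₂`
  let PG : Ideal (FixedPoints.subring (galStableSubring A)
      (AlgebraicClosure ℚ ≃ₐ[ℚ] AlgebraicClosure ℚ)) := Q.under _
  haveI : Q.LiesOver PG := ⟨rfl⟩
  let PU : Ideal (FixedPoints.subring (galStableSubring A) U) := Q.under _
  haveI : Q.LiesOver PU := ⟨rfl⟩
  let ψ := Ideal.Quotient.stabilizerHom Q PG (AlgebraicClosure ℚ ≃ₐ[ℚ] AlgebraicClosure ℚ)
    ⟨σ₂, hstab⟩
  have hψ : ∀ b : galStableSubring A, ψ (Ideal.Quotient.mk Q b) = Ideal.Quotient.mk Q (σ₂ • b) :=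
    fun b => rfl
  have hσ₂F : ∀ x ∈ F, σ₂ x = σ x := by
    intro x hx
    show (τ : AlgebraicClosure ℚ ≃ₐ[ℚ] AlgebraicClosure ℚ) (σ x) = σ x
    exact hUfix τ _ (apply_mem_of_normal F σ hx)
  have hcomm : ∀ r : (FixedPoints.subring (galStableSubring A) U) ⧸ PU,
      ψ.toRingEquiv (algebraMap _ (galStableSubring A ⧸ Q) r) =
        algebraMap _ (galStableSubring A ⧸ Q) r := by
    intro r
    obtain ⟨a, rfl⟩ := Ideal.Quotient.mk_surjective r
    have e1 : algebraMap ((FixedPoints.subring (galStableSubring A) U) ⧸ PU)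
        (galStableSubring A ⧸ Q) (Ideal.Quotient.mk PU a) =
          Ideal.Quotient.mk Q (a : galStableSubring A) := rfl
    rw [e1]
    show ψ (Ideal.Quotient.mk Q (a : galStableSubring A)) = _
    rw [hψ, Ideal.Quotient.eq, hQmem]
    have h1 : ((σ₂ • (a : galStableSubring A) - (a : galStableSubring A) : galStableSubring A) :
        AlgebraicClosure ℚ) = σ ((a : galStableSubring A) : AlgebraicClosure ℚ) -
          ((a : galStableSubring A) : AlgebraicClosure ℚ) := by
      have h0 : ((σ₂ • (a : galStableSubring A) - (a : galStableSubring A) : galStableSubring A) :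
          AlgebraicClosure ℚ) = σ₂ ((a : galStableSubring A) : AlgebraicClosure ℚ) -
            ((a : galStableSubring A) : AlgebraicClosure ℚ) := rfl
      rw [h0, hσ₂F _ (hfixedF a)]
    rw [h1]
    exact hσ _ (hfixedF a) (a : galStableSubring A).2
  let φ : (galStableSubring A ⧸ Q) ≃ₐ[(FixedPoints.subring (galStableSubring A) U) ⧸ PU]
      (galStableSubring A ⧸ Q) := AlgEquiv.ofRingEquiv (f := ψ.toRingEquiv) hcomm
  obtain ⟨ρ, hρ⟩ := Ideal.Quotient.stabilizerHom_surjective_of_profinite (G := U) PU Q φ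
  -- the corrected element
  refine ⟨σ₂ * ((ρ : U) : AlgebraicClosure ℚ ≃ₐ[ℚ] AlgebraicClosure ℚ)⁻¹, ?_, ?_⟩
  · intro x hx
    have h1 : (((ρ : U) : AlgebraicClosure ℚ ≃ₐ[ℚ] AlgebraicClosure ℚ)⁻¹) x = x := by
      have := hUfix (ρ : U)⁻¹ x hx
      simpa using this
    show σ₂ ((((ρ : U) : AlgebraicClosure ℚ ≃ₐ[ℚ] AlgebraicClosure ℚ)⁻¹) x) = σ x
    rw [h1, hσ₂F x hx]
  · intro b hb
    set b₀ : galStableSubring A := ⟨b, hb⟩ with hb₀
    set b' : galStableSubring A := (ρ : U)⁻¹ • b₀ with hb'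
    have h1 : φ (Ideal.Quotient.mk Q b') = Ideal.Quotient.mk Q (σ₂ • b') := hψ b'
    have h2 : (Ideal.Quotient.stabilizerHom Q PU U ρ) (Ideal.Quotient.mk Q b') =
        Ideal.Quotient.mk Q ((ρ : U) • b') := rfl
    rw [← hρ, h2] at h1
    have h3 : (ρ : U) • b' = b₀ := by
      rw [hb', smul_smul, mul_inv_cancel, one_smul]
    rw [h3, Ideal.Quotient.eq, hQmem] at h1
    have h4 := A.nonunits.neg_mem h1
    have h5 : ((b₀ - σ₂ • b' : galStableSubring A) : AlgebraicClosure ℚ) =
        b - (σ₂ * ((ρ : U) : AlgebraicClosure ℚ ≃ₐ[ℚ] AlgebraicClosure ℚ)⁻¹) b := rfl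
    rw [h5, neg_sub] at h4
    exact h4

/-- An element that is a "Frobenius for `q = 1`" lies in the inertia group. -/
theorem mem_inertiaSubgroupIn_of_isFrobeniusAt_one (A : ValuationSubring (AlgebraicClosure ℚ))
    (σ : AlgebraicClosure ℚ ≃ₐ[ℚ] AlgebraicClosure ℚ) (h : A.IsFrobeniusAt σ 1) :
    σ ∈ A.inertiaSubgroupIn ℚ := by
  obtain ⟨hD, hres⟩ := h
  refine ⟨⟨σ, hD⟩, ?_, rfl⟩
  show (⟨σ, hD⟩ : A.decompositionSubgroup ℚ) ∈ A.inertiaSubgroup ℚ
  rw [ValuationSubring.inertiaSubgroup, MonoidHom.mem_ker]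
  ext x
  have := hres x
  rw [pow_one] at this
  exact this

/-- **Inertia lifting.** Let `F` be a normal subfield of `ℚ̄`, `A` a valuation subring of `ℚ̄` over
the prime `q`, and `σ ∈ Gal(ℚ̄/ℚ)` with `σ x ≡ x mod 𝔪_A` for every algebraic integer `x ∈ F`
(i.e. `σ|F` lies in the inertia group of the prime `𝔪_A ∩ 𝓞_F`).  Then there is `σ'` in the inertia
group of `A` with `σ' = σ` on `F`. -/
theorem exists_mem_inertiaSubgroupIn_of_congr
    (F : IntermediateField ℚ (AlgebraicClosure ℚ)) [Normal ℚ F]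
    (q : ℕ) (hq : q.Prime) (A : ValuationSubring (AlgebraicClosure ℚ)) (hA : A.LiesOverPrime q)
    (σ : AlgebraicClosure ℚ ≃ₐ[ℚ] AlgebraicClosure ℚ)
    (hσ : ∀ x ∈ F, IsIntegral ℤ x → σ x - x ∈ A.nonunits) :
    ∃ σ' ∈ A.inertiaSubgroupIn ℚ, ∀ x ∈ F, σ' x = σ x := by
  have hA' : ((q : ℕ) : AlgebraicClosure ℚ) ∈ A.nonunits := hA
  obtain ⟨σ', hσ'F, hσ'B⟩ := exists_congr_one_on_galStable F A σ
    (fun x hxF hx => congr_on_galStable_of_congr_on_integers hq A hA' F σ hσ x hxF hx)
  have hfrob : A.IsFrobeniusAt σ' 1 :=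
    frob_glue_general 1 A σ' (fun b hb => by simpa using hσ'B b hb)
      (fun x hx => lemmaX_frob q hq A hA' x hx)
  exact ⟨σ', mem_inertiaSubgroupIn_of_isFrobeniusAt_one A σ' hfrob, hσ'F⟩

/-- The decomposition-group version: same hypothesis, conclusion in terms of the action on the
residue field. -/
theorem exists_mem_inertiaSubgroupIn_of_congr'
    (F : IntermediateField ℚ (AlgebraicClosure ℚ)) [Normal ℚ F]
    (q : ℕ) (hq : q.Prime) (A : ValuationSubring (AlgebraicClosure ℚ)) (hA : A.LiesOverPrime q)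
    (σ : AlgebraicClosure ℚ ≃ₐ[ℚ] AlgebraicClosure ℚ)
    (hσ : ∀ x ∈ F, IsIntegral ℤ x → σ x - x ∈ A.nonunits) :
    ∃ σ' ∈ A.inertiaSubgroupIn ℚ, ∀ x : F, σ' (x : AlgebraicClosure ℚ) = σ (x : AlgebraicClosure ℚ) := by
  obtain ⟨σ', h1, h2⟩ := exists_mem_inertiaSubgroupIn_of_congr F q hq A hA σ hσ
  exact ⟨σ', h1, fun x => h2 x x.2⟩

end Fermat.Agent.Common


end ZBCommon_003_3

/-! ### bundled: `Fermat.Agent.S13.Minkowski` -/
section ZBCommon_003_4

/-!
# S13, piece P7: Minkowski glue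

A normal subgroup `K` of `Gal(ℚ̄/ℚ)` which contains the fixing subgroup of a finite-dimensional
intermediate field and, for every prime `q`, the inertia subgroup (in the prelude's sense
`A.inertiaSubgroupIn ℚ`) of SOME valuation subring `A` of `ℚ̄` over `q`, is everything.

Route: the fixed field `L` of `K` is a finite Galois extension of `ℚ`.  If `L ≠ ℚ`, Mathlib's
`NumberField.exists_not_isUnramifiedAt_int_of_isGalois` (Hermite–Minkowski) gives a prime `ℓ` all
of whose primes in `L` are ramified, so that for every place `A | ℓ` the inertia group of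
`A ∩ 𝓞 L` in `Gal(L/ℚ)` is nontrivial (`Ideal.card_inertia_eq_ramificationIdxIn`); a nontrivial
element lifts to the inertia group of `A` in `Gal(ℚ̄/ℚ)` (`exists_inertia_lift`, by the profinite
transitivity and `stabilizerHom` surjectivity of `Mathlib.RingTheory.Invariant.Profinite` applied
to `Gal(ℚ̄/L)`), which contradicts `I_A ≤ K = Gal(ℚ̄/L)`.

Main statements (namespace `Fermat.Agent.S13.Minkowski`):
* `mem_inertiaSubgroupIn_of_forall` : `σ b - b ∈ 𝔪_A` on the Galois-stable ring ⇒ `σ ∈ I_A`;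
* `exists_int_mul_isIntegral` : elements of the Galois-stable ring are `ℓ`-integral;
* `exists_prime_forall_exists_inert` : the finite level;
* `exists_inertia_lift` : lifting of inertia from `Gal(L/ℚ)` to `Gal(ℚ̄/ℚ)`;
* `eq_top_of_inertia_le`, `minkowski_glue` : the glue.
-/

set_option autoImplicit false
set_option linter.style.haveILetI false

open scoped Pointwise NumberField
open Polynomial

namespace Fermat.Agent.S13.Minkowski

open Fermat.Agent.Common

/-- Inertia glue: an automorphism acting trivially modulo `𝔪_A` on the Galois-stable ring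
lies in the inertia subgroup of `A`. -/
theorem mem_inertiaSubgroupIn_of_forall {ℓ : ℕ} (hℓ : ℓ.Prime)
    (A : ValuationSubring (AlgebraicClosure ℚ)) (hA : A.LiesOverPrime ℓ)
    (σ : AlgebraicClosure ℚ ≃ₐ[ℚ] AlgebraicClosure ℚ)
    (hσ : ∀ b : AlgebraicClosure ℚ,
      (∀ g : AlgebraicClosure ℚ ≃ₐ[ℚ] AlgebraicClosure ℚ, g b ∈ A) → σ b - b ∈ A.nonunits) :
    σ ∈ A.inertiaSubgroupIn ℚ := by
  have h := frob_glue_general (K := ℚ) 1 A σ
    (fun b hb => by simpa using hσ b hb)
    (fun x hx => lemmaX_frob ℓ hℓ A hA x hx)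
  obtain ⟨hmem, hres⟩ := h
  refine ⟨⟨σ, hmem⟩, ?_, rfl⟩
  show (⟨σ, hmem⟩ : A.decompositionSubgroup ℚ) ∈ A.inertiaSubgroup ℚ
  rw [ValuationSubring.inertiaSubgroup, MonoidHom.mem_ker]
  ext x
  simpa using hres x

/-- Clearing denominators: if `f` is monic over `S`, `f(b) = 0` and `n • (coeff f i)` lies in the
range of `algebraMap R S` for `i < natDegree f`, then `n • b` is integral over `R`. -/
theorem isIntegral_smul_of_coeff_mem {R S : Type*} [CommRing R] [CommRing S] [Algebra R S]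
    (f : S[X]) (hf : f.Monic) (b : S) (hb : f.eval b = 0) (n : R)
    (hn : ∀ i < f.natDegree, algebraMap R S n * f.coeff i ∈ (algebraMap R S).range) :
    IsIntegral R (algebraMap R S n * b) := by
  set g : S[X] := scaleRoots f (algebraMap R S n) with hg
  have hgm : g.Monic := (monic_scaleRoots_iff _).mpr hf
  have hlift : g ∈ Polynomial.lifts (algebraMap R S) := by
    rw [Polynomial.lifts_iff_coeff_lifts]
    intro i
    rw [hg, coeff_scaleRoots]
    rcases lt_trichotomy i f.natDegree with h | h | h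
    · obtain ⟨k, hk⟩ : ∃ k, f.natDegree - i = k + 1 := ⟨f.natDegree - i - 1, by omega⟩
      obtain ⟨m, hm⟩ := hn i h
      refine ⟨m * n ^ k, ?_⟩
      rw [map_mul, map_pow, hm, hk, pow_succ]
      ring
    · subst h
      rw [Nat.sub_self, pow_zero, mul_one, hf.coeff_natDegree]
      exact ⟨1, map_one _⟩
    · rw [coeff_eq_zero_of_natDegree_lt h, zero_mul]
      exact ⟨0, map_zero _⟩
  obtain ⟨g', hg'map, -, hg'monic⟩ := Polynomial.lifts_and_natDegree_eq_and_monic hlift hgm
  refine ⟨g', hg'monic, ?_⟩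
  rw [Polynomial.eval₂_eq_eval_map, hg'map, hg]
  have := scaleRoots_eval₂_eq_zero (p := f) (RingHom.id S) (r := b) (s := algebraMap R S n)
    (by simpa [eval₂_id] using hb)
  simpa [eval₂_id] using this

/-- A rational number lying in a valuation subring of `ℚ̄` over `ℓ` has denominator prime
to `ℓ`. -/
theorem not_dvd_den_of_mem {ℓ : ℕ} (hℓ : ℓ.Prime)
    (A : ValuationSubring (AlgebraicClosure ℚ)) (hA : A.LiesOverPrime ℓ)
    (q : ℚ) (hq : algebraMap ℚ (AlgebraicClosure ℚ) q ∈ A) : ¬ (ℓ : ℤ) ∣ (q.den : ℤ) := by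
  have hA' : ((ℓ : ℕ) : AlgebraicClosure ℚ) ∈ A.nonunits := hA
  intro hdvd
  set m : ℤ := q.num with hm
  set n : ℕ := q.den with hn
  have hn0 : (n : AlgebraicClosure ℚ) ≠ 0 := by
    have : n ≠ 0 := q.den_nz
    exact_mod_cast this
  have hqdef : algebraMap ℚ (AlgebraicClosure ℚ) q =
      (m : AlgebraicClosure ℚ) / (n : AlgebraicClosure ℚ) := by
    rw [eq_ratCast, Rat.cast_def]
  have hmq : (m : AlgebraicClosure ℚ) =
      algebraMap ℚ (AlgebraicClosure ℚ) q * (n : AlgebraicClosure ℚ) := by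
    rw [hqdef]; field_simp
  have hℓm : ¬ (ℓ : ℤ) ∣ m := by
    intro hdvd'
    have h1 : ℓ ∣ m.natAbs := Int.natCast_dvd.mp hdvd'
    have h2 : ℓ ∣ n := Int.natCast_dvd_natCast.mp hdvd
    have h3 : Nat.Coprime m.natAbs n := q.reduced
    have := Nat.dvd_gcd h1 h2
    rw [h3] at this
    exact hℓ.one_lt.ne' (Nat.dvd_one.mp this)
  have hnmem : ((n : ℤ) : AlgebraicClosure ℚ) ∈ A.nonunits := by
    obtain ⟨w, hw⟩ := hdvd
    rw [hw]
    push_cast
    exact lemmaX_nonunits_mul A hA' (intCast_mem A w)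
  have hmmem : (m : AlgebraicClosure ℚ) ∈ A.nonunits := by
    rw [hmq, mul_comm]
    exact lemmaX_nonunits_mul A (by simpa using hnmem) hq
  exact intCast_not_mem_nonunits hℓ A hA' m hℓm hmmem

/-- Bridging: an element of `ℚ̄` all of whose conjugates lie in a valuation subring over `ℓ`
becomes integral over `ℤ` after multiplication by an integer prime to `ℓ`. -/
theorem exists_int_mul_isIntegral {ℓ : ℕ} (hℓ : ℓ.Prime)
    (A : ValuationSubring (AlgebraicClosure ℚ)) (hA : A.LiesOverPrime ℓ)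
    (b : AlgebraicClosure ℚ)
    (hb : ∀ g : AlgebraicClosure ℚ ≃ₐ[ℚ] AlgebraicClosure ℚ, g b ∈ A) :
    ∃ n : ℤ, ¬ (ℓ : ℤ) ∣ n ∧ IsIntegral ℤ ((n : AlgebraicClosure ℚ) * b) := by
  classical
  haveI := isAlgClosure_rat_qbar
  letI : TopologicalSpace (galStableSubring A) := ⊥
  haveI : DiscreteTopology (galStableSubring A) := ⟨rfl⟩
  haveI : ContinuousSMul (AlgebraicClosure ℚ ≃ₐ[ℚ] AlgebraicClosure ℚ) (galStableSubring A) := by
    rw [continuousSMul_iff_stabilizer_isOpen]
    intro b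
    have h := stabilizer_isOpen_of_isIntegral (K := ℚ) (b : AlgebraicClosure ℚ)
    convert h using 1
    ext g
    simp only [SetLike.mem_coe, MulAction.mem_stabilizer_iff, Subtype.ext_iff]
    rfl
  haveI : Algebra.IsInvariant (FixedPoints.subring (galStableSubring A)
      (AlgebraicClosure ℚ ≃ₐ[ℚ] AlgebraicClosure ℚ)) (galStableSubring A)
      (AlgebraicClosure ℚ ≃ₐ[ℚ] AlgebraicClosure ℚ) := ⟨fun b hb => ⟨⟨b, hb⟩, rfl⟩⟩
  have hint : Algebra.IsIntegral (FixedPoints.subring (galStableSubring A)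
      (AlgebraicClosure ℚ ≃ₐ[ℚ] AlgebraicClosure ℚ)) (galStableSubring A) :=
    Algebra.IsInvariant.isIntegral_of_profinite
      (G := AlgebraicClosure ℚ ≃ₐ[ℚ] AlgebraicClosure ℚ)
  obtain ⟨f₀, hf₀m, hf₀⟩ := hint.isIntegral (⟨b, hb⟩ : galStableSubring A)
  -- the inclusion of the fixed ring into `ℚ̄`
  let ι : (FixedPoints.subring (galStableSubring A)
      (AlgebraicClosure ℚ ≃ₐ[ℚ] AlgebraicClosure ℚ)) →+* AlgebraicClosure ℚ :=
    (galStableSubring A).subtype.comp (Subring.subtype _)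
  have hι : ∀ c, ∃ q : ℚ, algebraMap ℚ (AlgebraicClosure ℚ) q = ι c ∧ ¬ (ℓ : ℤ) ∣ (q.den : ℤ) := by
    intro c
    have hfix : ∀ g : AlgebraicClosure ℚ ≃ₐ[ℚ] AlgebraicClosure ℚ, g (ι c) = ι c := by
      intro g
      have := c.2 g
      exact congrArg Subtype.val this
    obtain ⟨q, hq⟩ := exists_rat_of_fixed _ hfix
    refine ⟨q, hq, not_dvd_den_of_mem hℓ A hA q ?_⟩
    rw [hq]
    exact galStableSubring_le A (c : galStableSubring A).2
  choose qc hqc hqden using hι
  set f : (AlgebraicClosure ℚ)[X] := f₀.map ι with hf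
  have hfm : f.Monic := hf₀m.map ι
  have hfb : f.eval b = 0 := by
    rw [hf, Polynomial.eval_map]
    have h1 := congrArg (galStableSubring A).subtype hf₀
    rw [map_zero, Polynomial.hom_eval₂] at h1
    exact h1
  set n : ℤ := ∏ i ∈ Finset.range f.natDegree, ((qc (f₀.coeff i)).den : ℤ) with hn
  have hℓn : ¬ (ℓ : ℤ) ∣ n := by
    rw [hn, Prime.dvd_finsetProd_iff (Nat.prime_iff_prime_int.mp hℓ)]
    rintro ⟨i, -, hi⟩
    exact hqden _ hi
  refine ⟨n, hℓn, ?_⟩
  have := isIntegral_smul_of_coeff_mem (R := ℤ) f hfm b hfb n ?_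
  · simpa using this
  intro i hi
  have hdvd : ((qc (f₀.coeff i)).den : ℤ) ∣ n :=
    Finset.dvd_prod_of_mem _ (Finset.mem_range.mpr hi)
  obtain ⟨w, hw⟩ := hdvd
  refine ⟨w * (qc (f₀.coeff i)).num, ?_⟩
  rw [hf, Polynomial.coeff_map, ← hqc, hw]
  have hden0 : (((qc (f₀.coeff i)).den : ℤ) : AlgebraicClosure ℚ) ≠ 0 := by
    have : (qc (f₀.coeff i)).den ≠ 0 := (qc (f₀.coeff i)).den_nz
    exact_mod_cast this
  rw [eq_ratCast (algebraMap ℚ (AlgebraicClosure ℚ)), Rat.cast_def]
  simp only [eq_intCast, Int.cast_mul, Int.cast_natCast]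
  field_simp

theorem mem_of_isIntegral_int (A : ValuationSubring (AlgebraicClosure ℚ))
    (x : AlgebraicClosure ℚ) (hx : IsIntegral ℤ x) : x ∈ A := by
  have h1 : IsIntegral A x := hx.tower_top
  obtain ⟨y, hy⟩ := (IsIntegrallyClosed.isIntegral_iff (R := A) (K := AlgebraicClosure ℚ)).mp h1
  rw [← hy]
  exact y.2

/-- Finite level: a finite Galois extension `L ≠ ℚ` inside `ℚ̄` has a prime `ℓ` such that for
every place `A` of `ℚ̄` over `ℓ` some nontrivial element of `Gal(L/ℚ)` acts trivially modulo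
`𝔪_A` on the `ℓ`-integral elements of `L`. -/
theorem exists_prime_forall_exists_inert (L : IntermediateField ℚ (AlgebraicClosure ℚ))
    [FiniteDimensional ℚ L] [IsGalois ℚ L] (hL : L ≠ ⊥) :
    ∃ ℓ : ℕ, ℓ.Prime ∧ ∀ A : ValuationSubring (AlgebraicClosure ℚ), A.LiesOverPrime ℓ →
      ∃ s : L ≃ₐ[ℚ] L, s ≠ 1 ∧ ∀ x : L,
        (∀ g : AlgebraicClosure ℚ ≃ₐ[ℚ] AlgebraicClosure ℚ, g (x : AlgebraicClosure ℚ) ∈ A) →
          ((s x : L) : AlgebraicClosure ℚ) - (x : AlgebraicClosure ℚ) ∈ A.nonunits := by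
  classical
  haveI : NumberField L := { to_charZero := inferInstance, to_finiteDimensional := inferInstance }
  have hrank : 1 < Module.finrank ℚ L := by
    have h0 : 0 < Module.finrank ℚ L := Module.finrank_pos
    have h1 : Module.finrank ℚ L ≠ 1 := fun h => hL (IntermediateField.finrank_eq_one_iff.mp h)
    omega
  obtain ⟨ℓ, hℓ, hram⟩ :=
    NumberField.exists_not_isUnramifiedAt_int_of_isGalois (K := L) (𝒪 := 𝓞 L) hrank
  refine ⟨ℓ, hℓ, fun A hA => ?_⟩
  have hA' : ((ℓ : ℕ) : AlgebraicClosure ℚ) ∈ A.nonunits := hA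
  -- the ring hom `𝓞 L → A`
  let ψ : 𝓞 L →+* AlgebraicClosure ℚ :=
    (algebraMap L (AlgebraicClosure ℚ)).comp (algebraMap (𝓞 L) L)
  have hψ : ∀ x : 𝓞 L, ψ x ∈ A := fun x =>
    mem_of_isIntegral_int A _ ((NumberField.RingOfIntegers.isIntegral x).map
      ((algebraMap L (AlgebraicClosure ℚ)).comp (algebraMap (𝓞 L) L)).toIntAlgHom)
  let φ : 𝓞 L →+* A := ψ.codRestrict A hψ
  let P : Ideal (𝓞 L) := (IsLocalRing.maximalIdeal A).comap φ
  have hPmem : ∀ y : 𝓞 L, y ∈ P ↔ ψ y ∈ A.nonunits := by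
    intro y
    rw [Ideal.mem_comap, ← ValuationSubring.coe_mem_nonunits_iff]
    rfl
  haveI : P.IsPrime := Ideal.comap_isPrime _ _
  have hℓP : ((ℓ : ℕ) : 𝓞 L) ∈ P := by
    rw [hPmem]
    simpa using hA'
  have hnr : ¬ Algebra.IsUnramifiedAt ℤ P := hram P inferInstance (by simpa using hℓP)
  have := IsGaloisGroup.of_isFractionRing (L ≃ₐ[ℚ] L) ℤ (𝓞 L) ℚ L
  have he : P.ramificationIdx ℤ ≠ 1 := by
    rwa [Ne, Ideal.ramificationIdx_eq_one_iff]
  have hcard : Nat.card (P.inertia (L ≃ₐ[ℚ] L)) ≠ 1 := by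
    rw [Ideal.card_inertia_eq_ramificationIdxIn (P.under ℤ) P,
      Ideal.ramificationIdxIn_eq_ramificationIdx (P.under ℤ) P (L ≃ₐ[ℚ] L)]
    exact he
  obtain ⟨s, hs, hs1⟩ : ∃ s ∈ P.inertia (L ≃ₐ[ℚ] L), s ≠ 1 := by
    by_contra hcon
    push Not at hcon
    apply hcard
    rw [Nat.card_eq_one_iff_unique]
    refine ⟨⟨fun a b => ?_⟩, ⟨1⟩⟩
    ext1
    rw [hcon a.1 a.2, hcon b.1 b.2]
  refine ⟨s, hs1, fun x hx => ?_⟩
  obtain ⟨n, hn, hint⟩ := exists_int_mul_isIntegral hℓ A hA (x : AlgebraicClosure ℚ) hx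
  have hintL : IsIntegral ℤ ((n : L) * x) := by
    have : algebraMap L (AlgebraicClosure ℚ) ((n : L) * x) = (n : AlgebraicClosure ℚ) * x := by
      simp
    rw [← this] at hint
    exact (isIntegral_algebraMap_iff (algebraMap L (AlgebraicClosure ℚ)).injective).mp hint
  let y : 𝓞 L := ⟨(n : L) * x, hintL⟩
  have hy : s • y - y ∈ P := hs y
  rw [hPmem] at hy
  have hv : A.valuation ((n : ℤ) : AlgebraicClosure ℚ) = 1 :=
    frobGlue_valuation_eq_one A (intCast_mem A n) (intCast_not_mem_nonunits hℓ A hA' n hn)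
  have e1 : ψ (s • y - y) = (n : AlgebraicClosure ℚ) *
      (((s x : L) : AlgebraicClosure ℚ) - (x : AlgebraicClosure ℚ)) := by
    have e2 : algebraMap (𝓞 L) L (s • y) = s ((n : L) * x) := by
      rw [algebraMap.smul']
      rfl
    have e3 : algebraMap (𝓞 L) L y = (n : L) * x := rfl
    simp only [ψ, map_sub, RingHom.comp_apply, e2, e3, map_mul, map_intCast]
    simp only [IntermediateField.algebraMap_apply]
    ring
  rw [e1, ValuationSubring.mem_nonunits_iff, map_mul, hv, one_mul] at hy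
  exact (ValuationSubring.mem_nonunits_iff A).mpr hy

set_option synthInstance.maxHeartbeats 200000 in
set_option maxHeartbeats 1000000 in
/-- Lifting of inertia: an automorphism `s` of a finite Galois `L ⊆ ℚ̄` acting trivially modulo
`𝔪_A` on the `ℓ`-integral elements of `L` is the restriction of an element of the inertia
group of `A`. -/
theorem exists_inertia_lift {ℓ : ℕ} (hℓ : ℓ.Prime)
    (A : ValuationSubring (AlgebraicClosure ℚ)) (hA : A.LiesOverPrime ℓ)
    (L : IntermediateField ℚ (AlgebraicClosure ℚ)) [FiniteDimensional ℚ L] [IsGalois ℚ L]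
    (s : L ≃ₐ[ℚ] L)
    (hs : ∀ x : L,
      (∀ g : AlgebraicClosure ℚ ≃ₐ[ℚ] AlgebraicClosure ℚ, g (x : AlgebraicClosure ℚ) ∈ A) →
        ((s x : L) : AlgebraicClosure ℚ) - (x : AlgebraicClosure ℚ) ∈ A.nonunits) :
    ∃ σ ∈ A.inertiaSubgroupIn ℚ, ∀ x : L, σ (x : AlgebraicClosure ℚ) = ((s x : L) : AlgebraicClosure ℚ) := by
  classical
  haveI := isAlgClosure_rat_qbar
  -- Step 1: lift `s` to `τ`
  obtain ⟨τ, hτ⟩ := AlgEquiv.restrictNormalHom_surjective (F := ℚ) (K₁ := L) (AlgebraicClosure ℚ) s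
  have hτx : ∀ x : L, τ (x : AlgebraicClosure ℚ) = ((s x : L) : AlgebraicClosure ℚ) := by
    intro x
    rw [← hτ]
    exact (AlgEquiv.restrictNormal_commutes τ L x).symm
  have hτinv : ∀ x : L, τ⁻¹ (x : AlgebraicClosure ℚ) = ((s⁻¹ x : L) : AlgebraicClosure ℚ) := by
    intro x
    have := hτx (s⁻¹ x)
    have h2 : s (s⁻¹ x) = x := by simp
    rw [h2] at this
    rw [← this]
    simp
  -- set-up of the profinite action of `H = Gal(ℚ̄/L)` on `B`
  letI : TopologicalSpace (galStableSubring A) := ⊥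
  haveI : DiscreteTopology (galStableSubring A) := ⟨rfl⟩
  haveI : ContinuousSMul (AlgebraicClosure ℚ ≃ₐ[ℚ] AlgebraicClosure ℚ) (galStableSubring A) := by
    rw [continuousSMul_iff_stabilizer_isOpen]
    intro b
    have h := stabilizer_isOpen_of_isIntegral (K := ℚ) (b : AlgebraicClosure ℚ)
    convert h using 1
    ext g
    simp only [SetLike.mem_coe, MulAction.mem_stabilizer_iff, Subtype.ext_iff]
    rfl
  haveI : CompactSpace L.fixingSubgroup :=
    isCompact_iff_compactSpace.mp (L.fixingSubgroup_isClosed.isCompact)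
  haveI : ContinuousSMul L.fixingSubgroup (galStableSubring A) :=
    ⟨(continuous_smul (M := AlgebraicClosure ℚ ≃ₐ[ℚ] AlgebraicClosure ℚ)
      (X := galStableSubring A)).comp
      ((continuous_subtype_val.comp continuous_fst).prodMk continuous_snd)⟩
  haveI : SMulCommClass L.fixingSubgroup
      (FixedPoints.subring (galStableSubring A) L.fixingSubgroup) (galStableSubring A) :=
    inferInstance
  haveI : Algebra.IsInvariant (FixedPoints.subring (galStableSubring A) L.fixingSubgroup)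
      (galStableSubring A) L.fixingSubgroup := ⟨fun b hb => ⟨⟨b, hb⟩, rfl⟩⟩
  -- the prime `Q`
  let incl : galStableSubring A →+* A := Subring.inclusion (galStableSubring_le A)
  let Q : Ideal (galStableSubring A) := (IsLocalRing.maximalIdeal A).comap incl
  have hQmem : ∀ b : galStableSubring A, b ∈ Q ↔ (b : AlgebraicClosure ℚ) ∈ A.nonunits := by
    intro b
    rw [Ideal.mem_comap, ← ValuationSubring.coe_mem_nonunits_iff]
    rfl
  haveI : Q.IsPrime := Ideal.comap_isPrime _ _
  -- elements of `B` fixed by `H` lie in `L`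
  have hfixL : ∀ b : FixedPoints.subring (galStableSubring A) L.fixingSubgroup,
      ((b : galStableSubring A) : AlgebraicClosure ℚ) ∈ L := by
    intro b
    have h1 : ((b : galStableSubring A) : AlgebraicClosure ℚ) ∈
        IntermediateField.fixedField L.fixingSubgroup := by
      rw [IntermediateField.mem_fixedField_iff]
      intro g hg
      have := b.2 ⟨g, hg⟩
      exact congrArg Subtype.val this
    rwa [InfiniteGalois.fixedField_fixingSubgroup L] at h1
  -- elements of `H` fix `L`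
  have hHfix : ∀ (h : L.fixingSubgroup) (x : AlgebraicClosure ℚ), x ∈ L →
      (h : AlgebraicClosure ℚ ≃ₐ[ℚ] AlgebraicClosure ℚ) x = x := by
    intro h x hx
    exact (IntermediateField.mem_fixingSubgroup_iff L h.1).mp h.2 x hx
  -- `τ⁻¹` is inert on the fixed ring
  have hinert_inv : ∀ b : FixedPoints.subring (galStableSubring A) L.fixingSubgroup,
      τ⁻¹ • (b : galStableSubring A) - (b : galStableSubring A) ∈ Q := by
    intro b
    rw [hQmem]
    have hconj : ∀ g : AlgebraicClosure ℚ ≃ₐ[ℚ] AlgebraicClosure ℚ,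
        g ((s⁻¹ ⟨_, hfixL b⟩ : L) : AlgebraicClosure ℚ) ∈ A := by
      intro g
      rw [← hτinv]
      exact (b : galStableSubring A).2 (g * τ⁻¹)
    have h1 := hs (s⁻¹ ⟨_, hfixL b⟩) hconj
    have h2 : s (s⁻¹ ⟨_, hfixL b⟩) = ⟨_, hfixL b⟩ := by simp
    rw [h2, ← hτinv] at h1
    have h3 : ((τ⁻¹ • (b : galStableSubring A) - (b : galStableSubring A) : galStableSubring A) :
        AlgebraicClosure ℚ) = -(((b : galStableSubring A) : AlgebraicClosure ℚ) -
          τ⁻¹ ((b : galStableSubring A) : AlgebraicClosure ℚ)) := by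
      rw [neg_sub]; rfl
    rw [h3]
    exact neg_mem h1
  -- Step 2: move `τ • Q` back to `Q` by an element of `H`
  have hunder : (τ • Q).under (FixedPoints.subring (galStableSubring A) L.fixingSubgroup) =
      Q.under (FixedPoints.subring (galStableSubring A) L.fixingSubgroup) := by
    ext b
    rw [Ideal.under_def, Ideal.under_def, Ideal.mem_comap, Ideal.mem_comap]
    change (b : galStableSubring A) ∈ τ • Q ↔ (b : galStableSubring A) ∈ Q
    rw [Ideal.mem_pointwise_smul_iff_inv_smul_mem]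
    have := hinert_inv b
    constructor
    · intro h
      have h2 := Q.sub_mem h this
      simpa using h2
    · intro h
      have h2 := Q.add_mem this h
      simpa using h2
  obtain ⟨h, hh⟩ := Algebra.IsInvariant.exists_smul_of_under_eq_of_profinite
    (A := FixedPoints.subring (galStableSubring A) L.fixingSubgroup)
    (G := L.fixingSubgroup) (τ • Q) Q hunder
  -- Step 3: `τ' = h τ` stabilises `Q`
  set τ' : AlgebraicClosure ℚ ≃ₐ[ℚ] AlgebraicClosure ℚ :=
    (h : AlgebraicClosure ℚ ≃ₐ[ℚ] AlgebraicClosure ℚ) * τ with hτ'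
  have hτ'Q : τ' • Q = Q := by
    rw [hτ', mul_smul]
    exact hh.symm
  have hτ'L : ∀ x : L, τ' (x : AlgebraicClosure ℚ) = ((s x : L) : AlgebraicClosure ℚ) := by
    intro x
    rw [hτ', AlgEquiv.mul_apply, hτx]
    exact hHfix h _ (s x).2
  have hinert : ∀ b : FixedPoints.subring (galStableSubring A) L.fixingSubgroup,
      τ' • (b : galStableSubring A) - (b : galStableSubring A) ∈ Q := by
    intro b
    rw [hQmem]
    have h1 := hs ⟨_, hfixL b⟩ (fun g' => (b : galStableSubring A).2 g')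
    rw [← hτ'L] at h1
    exact h1
  let P' : Ideal (FixedPoints.subring (galStableSubring A) L.fixingSubgroup) := Q.under _
  haveI : Q.LiesOver P' := ⟨rfl⟩
  let e : galStableSubring A ≃+* galStableSubring A :=
    MulSemiringAction.toRingEquiv (AlgebraicClosure ℚ ≃ₐ[ℚ] AlgebraicClosure ℚ)
      (galStableSubring A) τ'
  have he : Q = Q.map (e : galStableSubring A →+* galStableSubring A) := by
    conv_lhs => rw [← hτ'Q]
    rfl
  let φ : (galStableSubring A ⧸ Q) ≃ₐ[(FixedPoints.subring (galStableSubring A)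
      L.fixingSubgroup) ⧸ P'] (galStableSubring A ⧸ Q) :=
    { Ideal.quotientEquiv Q Q e he with
      commutes' := by
        intro r
        obtain ⟨b, rfl⟩ := Ideal.Quotient.mk_surjective r
        change Ideal.Quotient.mk Q (τ' • (b : galStableSubring A)) =
          Ideal.Quotient.mk Q (b : galStableSubring A)
        rw [Ideal.Quotient.eq]
        exact hinert b }
  obtain ⟨h₂, hh₂⟩ := Ideal.Quotient.stabilizerHom_surjective_of_profinite
    (G := L.fixingSubgroup) P' Q φ
  have hcmp : ∀ c : galStableSubring A,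
      τ' • c - (h₂ : L.fixingSubgroup) • c ∈ Q := by
    intro c
    have h1 := congrArg (fun f => f (Ideal.Quotient.mk Q c)) hh₂
    simp only [Ideal.Quotient.stabilizerHom_apply] at h1
    have h2 : φ (Ideal.Quotient.mk Q c) = Ideal.Quotient.mk Q (τ' • c) := rfl
    rw [h2, Ideal.Quotient.eq] at h1
    have h3 : τ' • c - (h₂ : L.fixingSubgroup) • c = -(h₂ • c - τ' • c) := by
      rw [neg_sub]; rfl
    rw [h3]
    exact Q.neg_mem h1
  -- Step 4
  refine ⟨τ' * ((h₂ : L.fixingSubgroup) : AlgebraicClosure ℚ ≃ₐ[ℚ] AlgebraicClosure ℚ)⁻¹,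
    ?_, ?_⟩
  · apply mem_inertiaSubgroupIn_of_forall hℓ A hA
    intro b hb
    have hc := hcmp ((h₂ : L.fixingSubgroup)⁻¹ • (⟨b, hb⟩ : galStableSubring A))
    rw [smul_inv_smul, hQmem] at hc
    exact hc
  · intro x
    rw [AlgEquiv.mul_apply]
    have h1 : ((h₂ : L.fixingSubgroup) : AlgebraicClosure ℚ ≃ₐ[ℚ] AlgebraicClosure ℚ)⁻¹
        (x : AlgebraicClosure ℚ) = x := hHfix ((h₂ : L.fixingSubgroup)⁻¹) _ x.2
    rw [h1, hτ'L]

/-- **Minkowski glue**, subgroup form with an open-ness witness given by a finite-dimensional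
intermediate field. -/
theorem eq_top_of_inertia_le (K : Subgroup (AlgebraicClosure ℚ ≃ₐ[ℚ] AlgebraicClosure ℚ))
    (hKn : K.Normal)
    (F : IntermediateField ℚ (AlgebraicClosure ℚ)) [FiniteDimensional ℚ F]
    (hF : F.fixingSubgroup ≤ K)
    (hI : ∀ q : ℕ, q.Prime → ∃ A : ValuationSubring (AlgebraicClosure ℚ), A.LiesOverPrime q ∧
      A.inertiaSubgroupIn ℚ ≤ K) :
    K = ⊤ := by
  classical
  haveI := isAlgClosure_rat_qbar
  have hKopen : IsOpen (K : Set (AlgebraicClosure ℚ ≃ₐ[ℚ] AlgebraicClosure ℚ)) :=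
    Subgroup.isOpen_mono hF F.fixingSubgroup_isOpen
  have hKclosed : IsClosed (K : Set (AlgebraicClosure ℚ ≃ₐ[ℚ] AlgebraicClosure ℚ)) :=
    Subgroup.isClosed_of_isOpen K hKopen
  let Kc : ClosedSubgroup (AlgebraicClosure ℚ ≃ₐ[ℚ] AlgebraicClosure ℚ) := ⟨K, hKclosed⟩
  set L : IntermediateField ℚ (AlgebraicClosure ℚ) := IntermediateField.fixedField K with hLdef
  have hLK : L.fixingSubgroup = K := InfiniteGalois.fixingSubgroup_fixedField Kc
  have hLF : L ≤ F := by
    have h1 : IntermediateField.fixedField K ≤ IntermediateField.fixedField F.fixingSubgroup :=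
      IntermediateField.fixedField_antitone hF
    rwa [InfiniteGalois.fixedField_fixingSubgroup F] at h1
  haveI : FiniteDimensional ℚ L :=
    Module.Finite.of_injective (IntermediateField.inclusion hLF).toLinearMap
      (IntermediateField.inclusion hLF).injective
  haveI : IsGalois ℚ L := by
    have h1 : L.fixingSubgroup.Normal := hLK ▸ hKn
    exact (InfiniteGalois.normal_iff_isGalois L).mp h1
  by_contra hK
  have hL : L ≠ ⊥ := by
    intro hbot
    apply hK
    rw [← hLK, hbot]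
    exact IntermediateField.fixingSubgroup_bot
  obtain ⟨ℓ, hℓ, hex⟩ := exists_prime_forall_exists_inert L hL
  obtain ⟨A, hA, hAK⟩ := hI ℓ hℓ
  obtain ⟨s, hs1, hs⟩ := hex A hA
  obtain ⟨σ, hσI, hσs⟩ := exists_inertia_lift hℓ A hA L s hs
  have hσK : σ ∈ L.fixingSubgroup := by
    rw [hLK]; exact hAK hσI
  apply hs1
  ext x
  have h1 := (IntermediateField.mem_fixingSubgroup_iff L σ).mp hσK x x.2
  rw [hσs] at h1
  simpa using h1

/-- P7 in the interface form (`StmtMinkowski` of `Fermat/Agent/S13/Interface.lean`). -/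
theorem minkowski_glue (K : Subgroup (AlgebraicClosure ℚ ≃ₐ[ℚ] AlgebraicClosure ℚ))
    (hKn : K.Normal)
    (hS : ∃ S : Finset (AlgebraicClosure ℚ),
      ∀ σ : AlgebraicClosure ℚ ≃ₐ[ℚ] AlgebraicClosure ℚ, (∀ s ∈ S, σ s = s) → σ ∈ K)
    (hI : ∀ q : ℕ, q.Prime → ∃ A : ValuationSubring (AlgebraicClosure ℚ), A.LiesOverPrime q ∧
      A.inertiaSubgroupIn ℚ ≤ K) :
    K = ⊤ := by
  obtain ⟨S, hS⟩ := hS
  haveI := isAlgClosure_rat_qbar
  haveI : FiniteDimensional ℚ (IntermediateField.adjoin ℚ (S : Set (AlgebraicClosure ℚ))) :=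
    IntermediateField.finiteDimensional_adjoin (fun x _ =>
      (Algebra.IsIntegral.isIntegral (R := ℚ) x))
  refine eq_top_of_inertia_le K hKn (IntermediateField.adjoin ℚ (S : Set (AlgebraicClosure ℚ)))
    ?_ hI
  intro σ hσ
  apply hS
  intro s hs
  exact (IntermediateField.mem_fixingSubgroup_iff _ σ).mp hσ s
    (IntermediateField.subset_adjoin ℚ _ (Finset.mem_coe.mpr hs))

end Fermat.Agent.S13.Minkowski


end ZBCommon_003_4
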