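/- GENERATED FILE (helper35, build-time optimisation, NOTES/ZB.md): verbatim concatenation of the modules
   Fermat.Agent.S18.CuspPlace
   Fermat.Agent.INJ.BGConst
   Do not edit; do not import together with these modules. -/
import Mathlib.RingTheory.LaurentSeries
import Fermat.Prelude.Def_AlgebraicCurve_DivisorClassGroup
import Fermat.Agent.ZB.S24_007
import Fermat.Agent.ZB.S24_005
import Fermat.Agent.ZB.S20_007

/-! ### bundled: `Fermat.Agent.S18.CuspPlace` -/
section ZBS18_001_0

/-!
# S18, step 0 — the `q`-adic place of a subfield of `k((q))`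

For a field `k` and an intermediate field `E` of `k((q))/k` containing an element with a pole
(at `q = 0`), the `q`-adic valuation restricts to a place `cuspPlace` of `E/k`.
It has degree one, `0 ≤ ord f` iff `f` has no pole, and `0 < ord f` iff `f` has no pole and
constant term `0`.
-/

set_option autoImplicit false

noncomputable section

open AlgebraicCurve HahnSeries WithZero

namespace Fermat.Agent.S18

open Fermat.Agent.S24

variable {k : Type*} [Field k] (E : IntermediateField k (LaurentSeries k))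

/-- the restriction of the `q`-adic valuation to `E` -/
def qVal : Valuation E ℤᵐ⁰ :=
  (Valued.v : Valuation (LaurentSeries k) ℤᵐ⁰).comap (algebraMap E (LaurentSeries k))

theorem qVal_apply (f : E) : qVal E f = Valued.v (f : LaurentSeries k) := rfl

theorem qVal_le_one_iff (f : E) :
    qVal E f ≤ 1 ↔ ∀ n : ℤ, n < 0 → (f : LaurentSeries k).coeff n = 0 := by
  rw [qVal_apply]
  have h := LaurentSeries.valuation_le_iff_coeff_lt_eq_zero (K := k) (D := 0)
    (f := (f : LaurentSeries k))
  simpa using h

theorem qVal_lt_one_iff (f : E) :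
    qVal E f < 1 ↔ ∀ n : ℤ, n ≤ 0 → (f : LaurentSeries k).coeff n = 0 := by
  rw [qVal_apply]
  have h := LaurentSeries.valuation_le_iff_coeff_lt_eq_zero (K := k) (D := 1)
    (f := (f : LaurentSeries k))
  have h2 : (Valued.v (f : LaurentSeries k) : ℤᵐ⁰) < 1 ↔
      Valued.v (f : LaurentSeries k) ≤ exp (-(1 : ℤ)) := by
    rw [← WithZero.exp_zero]
    rcases eq_or_ne (Valued.v (f : LaurentSeries k) : ℤᵐ⁰) 0 with h0 | h0
    · rw [h0]; simp
    · obtain ⟨n, hn⟩ : ∃ n : ℤ, (Valued.v (f : LaurentSeries k) : ℤᵐ⁰) = exp n :=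
        ⟨WithZero.log _, (WithZero.exp_log h0).symm⟩
      rw [hn, WithZero.exp_lt_exp, WithZero.exp_le_exp]
      omega
  rw [h2, h]
  constructor
  · intro h n hn; exact h n (by omega)
  · intro h n hn; exact h n (by omega)

theorem qVal_algebraMap_le (a : k) : qVal E (algebraMap k E a) ≤ 1 := by
  rw [qVal_le_one_iff]
  intro n hn
  have : ((algebraMap k E a : E) : LaurentSeries k) = HahnSeries.C a := by
    rw [← LaurentSeries.algebraMap_apply]; rfl
  rw [this, HahnSeries.C_apply, HahnSeries.coeff_single_of_ne hn.ne]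

theorem coe_algebraMap_eq_C (a : k) :
    ((algebraMap k E a : E) : LaurentSeries k) = HahnSeries.C a := by
  rw [← LaurentSeries.algebraMap_apply]; rfl

variable {E}

/-- **The cusp place.**  If `E ⊆ k((q))` contains a nonzero element vanishing at `q = 0`, the
`q`-adic valuation defines a place of `E/k` of degree one. -/
theorem exists_cuspPlace (hpole : ∃ x : E, x ≠ 0 ∧ qVal E x < 1) :
    ∃ w : Place k E, w.deg = 1 ∧
      (∀ f : E, f ≠ 0 → (0 ≤ w.ord f ↔ ∀ n : ℤ, n < 0 → (f : LaurentSeries k).coeff n = 0)) ∧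
      (∀ f : E, f ≠ 0 → (0 < w.ord f ↔ ∀ n : ℤ, n ≤ 0 → (f : LaurentSeries k).coeff n = 0)) := by
  classical
  obtain ⟨w, e₀, he₀, hw, hord⟩ :=
    exists_place_of_valuation (K := k) (qVal E) (qVal_algebraMap_le E) hpole
  have hnn : ∀ f : E, f ≠ 0 →
      (0 ≤ w.ord f ↔ ∀ n : ℤ, n < 0 → (f : LaurentSeries k).coeff n = 0) := by
    intro f hf
    rw [PlaceAux.ord_nonneg_iff w hf, hw, Valuation.mem_valuationSubring_iff, qVal_le_one_iff]
  have hpos : ∀ f : E, f ≠ 0 →
      (0 < w.ord f ↔ ∀ n : ℤ, n ≤ 0 → (f : LaurentSeries k).coeff n = 0) := by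
    intro f hf
    rw [← qVal_lt_one_iff, lt_one_iff_vord_pos (qVal E) hf, hord f hf]
    constructor
    · intro h; exact Int.mul_pos he₀ h
    · intro h
      by_contra hle
      have : e₀ * w.ord f ≤ 0 := Int.mul_nonpos_of_nonneg_of_nonpos he₀.le (not_lt.mp hle)
      omega
  refine ⟨w, ?_, hnn, hpos⟩
  -- the residue field is `k`
  have hsub : ∀ a : w.toValuationSubring,
      a - algebraMap k w.toValuationSubring (((a : E) : LaurentSeries k).coeff 0) ∈
        IsLocalRing.maximalIdeal w.toValuationSubring := by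
    intro a
    set c : k := ((a : E) : LaurentSeries k).coeff 0 with hc
    rcases eq_or_ne ((a : E) - algebraMap k E c) 0 with h0 | h0
    · have : a - algebraMap k w.toValuationSubring c = 0 := Subtype.ext h0
      rw [this]; exact zero_mem _
    · have ha : ∀ n : ℤ, n < 0 → ((a : E) : LaurentSeries k).coeff n = 0 := by
        rcases eq_or_ne (a : E) 0 with ha0 | ha0
        · intro n _; rw [ha0]; simp
        · exact (hnn _ ha0).mp ((PlaceAux.ord_nonneg_iff w ha0).mpr a.2)
      have h1 : 0 < w.ord ((a : E) - algebraMap k E c) := by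
        rw [hpos _ h0]
        intro n hn
        rw [AddSubgroupClass.coe_sub, coe_algebraMap_eq_C, HahnSeries.coeff_sub,
          HahnSeries.C_apply]
        rcases hn.lt_or_eq with hlt | heq
        · rw [ha n hlt, HahnSeries.coeff_single_of_ne hlt.ne, sub_zero]
        · rw [heq, HahnSeries.coeff_single_same, hc, sub_self]
      have h2 := (PlaceAux.ord_pos_iff_mem_nonunits w h0).mp h1
      rw [ValuationSubring.mem_nonunits_iff_exists_mem_maximalIdeal] at h2
      obtain ⟨hm, h3⟩ := h2
      exact h3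
  have hb : Function.Bijective (algebraMap k w.ResidueField) := by
    refine ⟨(algebraMap k w.ResidueField).injective, fun y => ?_⟩
    obtain ⟨a, rfl⟩ := IsLocalRing.residue_surjective y
    refine ⟨((a : E) : LaurentSeries k).coeff 0, ?_⟩
    have h0 : IsLocalRing.residue w.toValuationSubring
        (a - algebraMap k w.toValuationSubring (((a : E) : LaurentSeries k).coeff 0)) = 0 := by
      rw [IsLocalRing.residue]; exact Ideal.Quotient.eq_zero_iff_mem.mpr (hsub a)
    rw [map_sub, sub_eq_zero] at h0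
    rw [h0]
    rfl
  let e : k ≃ₗ[k] w.ResidueField :=
    LinearEquiv.ofBijective (Algebra.linearMap k w.ResidueField) hb
  unfold AlgebraicCurve.Place.deg
  rw [← e.finrank_eq, Module.finrank_self]

end Fermat.Agent.S18

end
end ZBS18_001_0

/-! ### bundled: `Fermat.Agent.INJ.BGConst` -/
section ZBS18_001_1

/-!
# INJ B-glue, piece BG-const: constants and the cusp place of a subfield of `E((q))`

`E` a field, `Lf` an intermediate field of `E((q)) / E`.

* `bgConst_mem_range_of_isAlgebraic` : an element of `Lf` algebraic over `E` is a constant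
  (hypothesis `(d)` of `TameSpecStmt`);
* `bgConst_transcendental` : an element of order `≠ 0` is transcendental over `E`;
* `bgConst_exists_place` : if `t ∈ Lf` has order `-1`, there is a place `P₀` of `Lf / E` with
  `P₀.ord x = x.order` for all `x ≠ 0`  (hypothesis `(∞)` of `TameSpecStmt`: `P₀.ord t = -1`).
-/

set_option autoImplicit false

noncomputable section

open AlgebraicCurve HahnSeries WithZero Polynomial

namespace Fermat.Agent.INJ

open Fermat.Agent.S24 Fermat.Agent.S18

variable {E : Type*} [Field E] (Lf : IntermediateField E (LaurentSeries E))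

/-- the `q`-adic valuation of a nonzero Laurent series is `exp (-order)`. -/
theorem bgConst_vord_eq_order {x : Lf} (hx : x ≠ 0) :
    vord (qVal Lf) x = (x : LaurentSeries E).order := by
  have hx' : (x : LaurentSeries E) ≠ 0 := fun h => hx (Subtype.ext h)
  have hv0 : qVal Lf x ≠ 0 := (Valuation.ne_zero_iff _).mpr hx
  have hexp : qVal Lf x = exp (-(vord (qVal Lf) x)) := by
    rw [vord, neg_neg, WithZero.exp_log hv0]
  have key : ∀ D : ℤ, D ≤ vord (qVal Lf) x ↔ D ≤ (x : LaurentSeries E).order := by
    intro D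
    rw [HahnSeries.le_order_iff_forall hx',
      ← LaurentSeries.valuation_le_iff_coeff_lt_eq_zero (K := E) (D := D)
        (f := (x : LaurentSeries E)), ← qVal_apply, hexp, WithZero.exp_le_exp]
    omega
  exact le_antisymm ((key _).mp le_rfl) ((key _).mpr le_rfl)

theorem bgConst_qVal_lt_one_iff {x : Lf} (hx : x ≠ 0) :
    qVal Lf x < 1 ↔ 0 < (x : LaurentSeries E).order := by
  rw [lt_one_iff_vord_pos (qVal Lf) hx, bgConst_vord_eq_order Lf hx]

theorem bgConst_qVal_le_one_iff {x : Lf} (hx : x ≠ 0) :
    qVal Lf x ≤ 1 ↔ 0 ≤ (x : LaurentSeries E).order := by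
  rw [le_one_iff_vord_nonneg (qVal Lf) hx, bgConst_vord_eq_order Lf hx]

theorem bgConst_qVal_algebraMap {a : E} (ha : a ≠ 0) : qVal Lf (algebraMap E Lf a) = 1 := by
  have h0 : algebraMap E Lf a ≠ 0 := by simpa using ha
  have h1 : qVal Lf (algebraMap E Lf a) ≤ 1 := qVal_algebraMap_le Lf a
  have h2 : qVal Lf (algebraMap E Lf a⁻¹) ≤ 1 := qVal_algebraMap_le Lf a⁻¹
  rw [map_inv₀, map_inv₀] at h2
  have h3 : 1 ≤ qVal Lf (algebraMap E Lf a) := by
    have hpos : 0 < qVal Lf (algebraMap E Lf a) :=
      zero_lt_iff.mpr ((Valuation.ne_zero_iff _).mpr h0)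
    exact (inv_le_one₀ hpos).mp h2
  exact le_antisymm h1 h3

/-- an algebraic element which vanishes at `q = 0` is zero -/
theorem bgConst_eq_zero_of_isAlgebraic_of_lt_one {z : Lf} (hz : IsAlgebraic E z)
    (hv : qVal Lf z < 1) : z = 0 := by
  by_contra hz0
  have hint : IsIntegral E z := hz.isIntegral
  set P := minpoly E z with hP
  have hPz : aeval z P = 0 := minpoly.aeval E z
  have hP0 : P.coeff 0 ≠ 0 := minpoly.coeff_zero_ne_zero hint hz0
  -- `P = divX P * X + C (P.coeff 0)`
  have hdec : aeval z P = aeval z P.divX * z + algebraMap E Lf (P.coeff 0) := by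
    conv_lhs => rw [← Polynomial.divX_mul_X_add P]
    rw [map_add, map_mul, aeval_X, aeval_C]
  have hQ : qVal Lf (aeval z P.divX) ≤ 1 := by
    have hzmem : z ∈ (qVal Lf).valuationSubring :=
      (Valuation.mem_valuationSubring_iff _ _).mpr hv.le
    have : aeval z P.divX ∈ (qVal Lf).valuationSubring := by
      rw [aeval_eq_sum_range]
      refine Subring.sum_mem _ fun i _ => ?_
      rw [Algebra.smul_def]
      refine Subring.mul_mem _ ?_ (Subring.pow_mem _ hzmem i)
      exact (Valuation.mem_valuationSubring_iff _ _).mpr (qVal_algebraMap_le Lf _)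
    exact (Valuation.mem_valuationSubring_iff _ _).mp this
  have hlt : qVal Lf (aeval z P.divX * z) < 1 := by
    rw [map_mul]
    calc qVal Lf (aeval z P.divX) * qVal Lf z ≤ 1 * qVal Lf z :=
          mul_le_mul' hQ le_rfl
      _ = qVal Lf z := one_mul _
      _ < 1 := hv
  have hc : algebraMap E Lf (P.coeff 0) = -(aeval z P.divX * z) := by
    rw [hPz] at hdec
    exact eq_neg_of_add_eq_zero_right hdec.symm
  have h1 := bgConst_qVal_algebraMap Lf hP0
  rw [hc, Valuation.map_neg] at h1
  rw [h1] at hlt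
  exact lt_irrefl _ hlt

/-- **(d)**: the field of constants of `Lf ⊆ E((q))` is `E`. -/
theorem bgConst_mem_range_of_isAlgebraic (x : Lf) (hx : IsAlgebraic E x) :
    x ∈ (algebraMap E Lf).range := by
  rcases eq_or_ne x 0 with rfl | hx0
  · exact ⟨0, map_zero _⟩
  -- no pole
  have hle : qVal Lf x ≤ 1 := by
    by_contra hgt
    have hinv : qVal Lf x⁻¹ < 1 := by
      rw [map_inv₀]
      exact inv_lt_one_of_one_lt₀ (not_le.mp hgt)
    exact inv_ne_zero hx0 (bgConst_eq_zero_of_isAlgebraic_of_lt_one Lf hx.inv hinv)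
  set a : E := (x : LaurentSeries E).coeff 0 with ha
  have hz : IsAlgebraic E (x - algebraMap E Lf a) := hx.sub (isAlgebraic_algebraMap a)
  have hv : qVal Lf (x - algebraMap E Lf a) < 1 := by
    rw [qVal_lt_one_iff]
    intro n hn
    rw [AddSubgroupClass.coe_sub, coe_algebraMap_eq_C, HahnSeries.coeff_sub, HahnSeries.C_apply]
    rcases hn.lt_or_eq with hlt | heq
    · rw [(qVal_le_one_iff Lf x).mp hle n hlt, HahnSeries.coeff_single_of_ne hlt.ne, sub_zero]
    · rw [heq, HahnSeries.coeff_single_same, ha, sub_self]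
  have h0 := bgConst_eq_zero_of_isAlgebraic_of_lt_one Lf hz hv
  exact ⟨a, (sub_eq_zero.mp h0).symm⟩

/-- an element of `Lf` of nonzero order is transcendental over `E`. -/
theorem bgConst_transcendental (t : Lf) (ht : (t : LaurentSeries E).order ≠ 0) :
    Transcendental E t := by
  intro halg
  obtain ⟨a, ha⟩ := bgConst_mem_range_of_isAlgebraic Lf t halg
  apply ht
  rw [← ha, coe_algebraMap_eq_C]
  rcases eq_or_ne a 0 with rfl | ha0
  · simp
  · rw [HahnSeries.C_apply, HahnSeries.order_single ha0]

/-- **(∞)**: the cusp place.  If `t ∈ Lf` has order `-1` the `q`-adic valuation is a place of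
`Lf / E` with `ord = order`; it has degree one. -/
theorem bgConst_exists_place (t : Lf) (ht : (t : LaurentSeries E).order = -1) :
    ∃ P₀ : Place E Lf, (∀ x : Lf, x ≠ 0 → P₀.ord x = (x : LaurentSeries E).order) ∧
      P₀.ord t = -1 ∧ P₀.toValuationSubring = (qVal Lf).valuationSubring := by
  have ht0 : t ≠ 0 := by
    rintro rfl
    simp at ht
  have hpole : ∃ x : Lf, x ≠ 0 ∧ qVal Lf x < 1 := by
    refine ⟨t⁻¹, inv_ne_zero ht0, ?_⟩
    rw [lt_one_iff_vord_pos (qVal Lf) (inv_ne_zero ht0), vord_inv,
      bgConst_vord_eq_order Lf ht0, ht]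
    norm_num
  obtain ⟨w, e₀, he₀, hw, hord⟩ :=
    exists_place_of_valuation (K := E) (qVal Lf) (qVal_algebraMap_le Lf) hpole
  have h1 := hord t ht0
  rw [bgConst_vord_eq_order Lf ht0, ht] at h1
  have he1 : e₀ = 1 := by
    have hdvd : e₀ ∣ 1 := ⟨-(w.ord t), by linarith⟩
    exact Int.eq_one_of_dvd_one he₀.le hdvd
  have hall : ∀ x : Lf, x ≠ 0 → w.ord x = (x : LaurentSeries E).order := by
    intro x hx
    have h2 := hord x hx
    rw [bgConst_vord_eq_order Lf hx, he1, one_mul] at h2
    exact h2.symm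
  exact ⟨w, hall, by rw [hall t ht0, ht], hw⟩

end Fermat.Agent.INJ

end
end ZBS18_001_1
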