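/- GENERATED FILE (helper35, build-time optimisation, NOTES/ZB.md): verbatim concatenation of the modules
   Fermat.Agent.ES.RiemannGeneric
   Fermat.Agent.W1.GenPos
   Fermat.Agent.W1.PlanGeo
   Fermat.Agent.DEU.Defs
   Fermat.Agent.DEU.RedSpace
   Fermat.Agent.DEU.Dv
   Fermat.Agent.DEU.Rho
   Fermat.Agent.DEU.Main1
   Fermat.Agent.DEU.Main2
   Fermat.Agent.DEU.Main3
   Fermat.Agent.W1.GeoEval
   Do not edit; do not import together with these modules. -/
import Fermat.Agent.ZB.S24_007
import Fermat.Prelude.Def_AlgebraicCurve_Repartitions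
import Fermat.Agent.ZB.ES_025

/-! ### bundled: `Fermat.Agent.ES.RiemannGeneric` -/
section ZBES_020_0

/-!
# ES shared input (R), generic part (ES-R1): Riemann's inequality by transfer

`K` a field, `F/K` a field with the prelude's places; all residue fields equal to `K`
(`Function.Bijective (algebraMap K v.ResidueField)`), principal divisors of degree `0`
(`HasPrincipalDivisors`).  Then

* `rr_eq_bot_of_degree_neg`   : `deg D < 0 → L(D) = ⊥`;
* `rr_finite`                 : `L(D)` is finite-dimensional;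
* `rr_finrank_le_of_le`       : `A ≤ B → dim L(B) ≤ dim L(A) + (deg B − deg A)`;
* `rr_finrank_eq_of_principal`: `dim L(D) = dim L(D − div z)`;
* `riemann_transfer`          : if for every `m` there is a divisor `B` with `m ≤ deg B` and
  `deg B + 1 − g ≤ dim L(B)`, then `deg A + 1 − g ≤ dim L(A)` for EVERY divisor `A`.

(Stichtenoth, *Algebraic function fields and codes*, 1.4.8 and 1.4.14.)
-/

set_option autoImplicit false

open AlgebraicCurve Module

namespace Fermat.Agent.ES.R

open Fermat.Agent.S24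

variable {K F : Type*} [Field K] [Field F] [Algebra K F]

/-! ### Degrees -/

theorem place_deg_eq_one (v : Place K F)
    (hres : Function.Bijective (algebraMap K v.ResidueField)) : v.deg = 1 := by
  unfold Place.deg
  have e : K ≃ₗ[K] v.ResidueField :=
    LinearEquiv.ofBijective (Algebra.linearMap K v.ResidueField) hres
  rw [← e.finrank_eq, Module.finrank_self]

theorem degree_eq_sum (D : Divisor K F) :
    Divisor.degree D = D.sum fun v n => n * (v.deg : ℤ) := by
  simp [Divisor.degree, Finsupp.liftAddHom_apply, Finsupp.sum]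

theorem degree_nonneg {D : Divisor K F} (h : 0 ≤ D) : 0 ≤ Divisor.degree D := by
  rw [degree_eq_sum]
  refine Finsupp.sum_nonneg fun v _ => ?_
  have : 0 ≤ D v := by simpa using Finsupp.le_def.mp h v
  positivity

theorem degree_mono {A B : Divisor K F} (h : A ≤ B) :
    Divisor.degree A ≤ Divisor.degree B := by
  have h1 : 0 ≤ B - A := sub_nonneg.mpr h
  have h2 := degree_nonneg h1
  rw [map_sub] at h2
  linarith

/-! ### The residue trick -/

theorem exists_sub_smul_ord_gt (v : Place K F)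
    (hres : Function.Bijective (algebraMap K v.ResidueField)) {f g : F} (hf : f ≠ 0)
    (hg : g ≠ 0) (h : v.ord f = v.ord g) :
    ∃ c : K, f - c • g = 0 ∨ v.ord g < v.ord (f - c • g) := by
  set u : F := f * g⁻¹ with hu
  have hu0 : u ≠ 0 := mul_ne_zero hf (inv_ne_zero hg)
  have hordu : v.ord u = 0 := by
    rw [hu, v.ord_mul hf (inv_ne_zero hg), v.ord_inv, h]; ring
  have humem : u ∈ v.toValuationSubring := PlaceAux.mem_of_ord_nonneg v hordu.ge
  obtain ⟨c, hc⟩ := hres.2 (IsLocalRing.residue v.toValuationSubring ⟨u, humem⟩)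
  refine ⟨c, ?_⟩
  have hfg : f - c • g = g * (u - algebraMap K F c) := by
    rw [hu, Algebra.smul_def]; field_simp
  by_cases h0 : u - algebraMap K F c = 0
  · left; rw [hfg, h0, mul_zero]
  · right
    rw [hfg, v.ord_mul hg h0]
    have hmem : (⟨u, humem⟩ : v.toValuationSubring) - algebraMap K v.toValuationSubring c ∈
        IsLocalRing.maximalIdeal v.toValuationSubring := by
      rw [← Ideal.Quotient.eq_zero_iff_mem]
      have h1 : algebraMap K v.ResidueField c =
          IsLocalRing.residue v.toValuationSubring (algebraMap K v.toValuationSubring c) := rfl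
      rw [h1] at hc
      rw [map_sub]
      exact sub_eq_zero.mpr hc.symm
    have hpos : 0 < v.ord (u - algebraMap K F c) := by
      rw [PlaceAux.ord_pos_iff_mem_nonunits v h0,
        ValuationSubring.mem_nonunits_iff_exists_mem_maximalIdeal]
      exact ⟨v.toValuationSubring.sub_mem humem (v.algebraMap_mem' c), hmem⟩
    linarith

/-! ### `L(D + v)` versus `L(D)` -/

theorem rr_mono {D D' : Divisor K F} (h : D ≤ D') :
    riemannRochSpace D ≤ riemannRochSpace D' := fun f hf => by
  rw [mem_riemannRochSpace_iff] at hf ⊢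
  intro v
  rcases hf v with h0 | h1
  · exact Or.inl h0
  · right
    have := Finsupp.le_def.mp h v
    linarith

theorem rr_add_single_le (D : Divisor K F) (v : Place K F)
    (hres : Function.Bijective (algebraMap K v.ResidueField)) :
    ∃ g : F, riemannRochSpace (D + Finsupp.single v 1) ≤
      riemannRochSpace D ⊔ Submodule.span K {g} := by
  classical
  by_cases hle : riemannRochSpace (D + Finsupp.single v 1) ≤ riemannRochSpace D
  · exact ⟨0, hle.trans le_sup_left⟩
  obtain ⟨g, hg1, hg2⟩ := SetLike.not_le_iff_exists.mp hle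
  refine ⟨g, fun f hf => ?_⟩
  -- elements of `L(D+v)` not in `L(D)` have `ord_v = -D v - 1`
  have key : ∀ x : F, x ∈ riemannRochSpace (D + Finsupp.single v 1) →
      x ∉ riemannRochSpace D → x ≠ 0 ∧ v.ord x = -D v - 1 := by
    intro x hx1 hx2
    have hx0 : x ≠ 0 := fun h0 => hx2 (h0 ▸ Submodule.zero_mem _)
    refine ⟨hx0, ?_⟩
    rw [mem_riemannRochSpace_iff] at hx1 hx2
    have hv := (hx1 v).resolve_left hx0
    simp only [Finsupp.coe_add, Pi.add_apply, Finsupp.single_eq_same] at hv
    by_contra hne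
    apply hx2
    intro w
    right
    by_cases hw : w = v
    · subst hw; omega
    · have hw' := (hx1 w).resolve_left hx0
      simp only [Finsupp.coe_add, Pi.add_apply] at hw'
      rw [Finsupp.single_eq_of_ne (Ne.symm (Ne.symm hw)), add_zero] at hw'
      exact hw'
  by_cases hfD : f ∈ riemannRochSpace D
  · exact Submodule.mem_sup_left hfD
  obtain ⟨hf0, hfo⟩ := key f hf hfD
  obtain ⟨hg0, hgo⟩ := key g hg1 hg2
  obtain ⟨c, hc⟩ := exists_sub_smul_ord_gt v hres hf0 hg0 (hfo.trans hgo.symm)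
  have hmem : f - c • g ∈ riemannRochSpace D := by
    rcases hc with hc | hc
    · rw [hc]; exact Submodule.zero_mem _
    · have hx1 : f - c • g ∈ riemannRochSpace (D + Finsupp.single v 1) :=
        Submodule.sub_mem _ hf (Submodule.smul_mem _ c hg1)
      by_contra hx2
      have := (key _ hx1 hx2).2
      omega
  have : f = (f - c • g) + c • g := by ring
  rw [this]
  exact Submodule.add_mem_sup hmem
    (Submodule.smul_mem _ c (Submodule.mem_span_singleton_self g))

/-! ### Negative degree -/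

theorem rr_eq_bot_of_degree_neg [HasPrincipalDivisors K F] {D : Divisor K F}
    (hD : Divisor.degree D < 0) : riemannRochSpace D = ⊥ := by
  rw [eq_bot_iff]
  intro f hf
  rw [Submodule.mem_bot]
  by_contra hf0
  obtain ⟨Z, hZ, hZdeg⟩ := HasPrincipalDivisors.exists_divisor (K := K) f hf0
  rw [mem_riemannRochSpace_iff] at hf
  have hnn : 0 ≤ Z + D := by
    rw [Finsupp.le_def]
    intro v
    have := (hf v).resolve_left hf0
    simp only [Finsupp.coe_zero, Pi.zero_apply, Finsupp.coe_add, Pi.add_apply, hZ v]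
    linarith
  have := degree_nonneg hnn
  rw [map_add, hZdeg] at this
  linarith

/-! ### Finite-dimensionality -/

theorem rr_finite_aux [HasPrincipalDivisors K F] (v₀ : Place K F)
    (hres : ∀ v : Place K F, Function.Bijective (algebraMap K v.ResidueField)) :
    ∀ (n : ℕ) (D : Divisor K F), Divisor.degree D < n →
      Module.Finite K ↥(riemannRochSpace D) := by
  intro n
  induction n with
  | zero =>
    intro D hD
    rw [rr_eq_bot_of_degree_neg (by simpa using hD)]
    infer_instance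
  | succ n ih =>
    intro D hD
    set D' : Divisor K F := D - Finsupp.single v₀ 1 with hD'
    have hdeg : Divisor.degree D' < n := by
      rw [hD', map_sub, Divisor.degree_single, place_deg_eq_one v₀ (hres v₀)]
      push_cast at hD ⊢
      linarith
    have := ih D' hdeg
    obtain ⟨g, hg⟩ := rr_add_single_le D' v₀ (hres v₀)
    have hDD : D' + Finsupp.single v₀ 1 = D := by rw [hD']; abel
    rw [hDD] at hg
    exact Submodule.finiteDimensional_of_le hg

theorem rr_finite [HasPrincipalDivisors K F] (v₀ : Place K F)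
    (hres : ∀ v : Place K F, Function.Bijective (algebraMap K v.ResidueField))
    (D : Divisor K F) : Module.Finite K ↥(riemannRochSpace D) := by
  obtain ⟨n, hn⟩ : ∃ n : ℕ, Divisor.degree D < n :=
    ⟨(Divisor.degree D).toNat + 1, by push_cast; have := Int.self_le_toNat (Divisor.degree D); omega⟩
  exact rr_finite_aux v₀ hres n D hn

/-! ### `dim L(B) ≤ dim L(A) + deg (B − A)` -/

theorem rr_finrank_add_single_le [HasPrincipalDivisors K F]
    (hres : ∀ v : Place K F, Function.Bijective (algebraMap K v.ResidueField))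
    (D : Divisor K F) (v : Place K F) :
    finrank K ↥(riemannRochSpace (D + Finsupp.single v 1)) ≤
      finrank K ↥(riemannRochSpace D) + 1 := by
  have := rr_finite v hres D
  obtain ⟨g, hg⟩ := rr_add_single_le D v (hres v)
  calc finrank K ↥(riemannRochSpace (D + Finsupp.single v 1))
      ≤ finrank K ↥(riemannRochSpace D ⊔ Submodule.span K {g}) := Submodule.finrank_mono hg
    _ ≤ finrank K ↥(riemannRochSpace D) + finrank K ↥(Submodule.span K {g}) :=
        Submodule.finrank_add_le_finrank_add_finrank _ _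
    _ ≤ finrank K ↥(riemannRochSpace D) + 1 := by
        have h1 : finrank K ↥(Submodule.span K {g}) ≤ 1 := by
          rcases eq_or_ne g 0 with rfl | hg0
          · rw [Submodule.span_zero_singleton, finrank_bot]; exact Nat.zero_le _
          · exact (finrank_span_singleton hg0).le
        omega

theorem rr_finrank_le_of_le [HasPrincipalDivisors K F]
    (hres : ∀ v : Place K F, Function.Bijective (algebraMap K v.ResidueField)) :
    ∀ (n : ℕ) (A B : Divisor K F), A ≤ B → Divisor.degree B - Divisor.degree A ≤ n →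
      (finrank K ↥(riemannRochSpace B) : ℤ) ≤
        finrank K ↥(riemannRochSpace A) + (Divisor.degree B - Divisor.degree A) := by
  intro n
  induction n with
  | zero =>
    intro A B hAB hdeg
    by_cases hEq : A = B
    · subst hEq; simp
    exfalso
    obtain ⟨v, hv⟩ : ∃ v, A v < B v := by
      by_contra hcon
      exact hEq (le_antisymm hAB (Finsupp.le_def.mpr fun w =>
        not_lt.mp fun hw => hcon ⟨w, hw⟩))
    have h1 : A ≤ B - Finsupp.single v 1 := by
      rw [Finsupp.le_def]
      intro w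
      by_cases hw : w = v
      · subst hw; simp; omega
      · have := Finsupp.le_def.mp hAB w
        simp [Finsupp.single_eq_of_ne (Ne.symm (Ne.symm hw)), this]
    have h2 := degree_mono h1
    rw [map_sub, Divisor.degree_single, place_deg_eq_one v (hres v)] at h2
    push_cast at h2 hdeg
    linarith
  | succ n ih =>
    intro A B hAB hdeg
    by_cases hEq : A = B
    · subst hEq; simp
    obtain ⟨v, hv⟩ : ∃ v, A v < B v := by
      by_contra hcon
      exact hEq (le_antisymm hAB (Finsupp.le_def.mpr fun w =>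
        not_lt.mp fun hw => hcon ⟨w, hw⟩))
    set B' : Divisor K F := B - Finsupp.single v 1 with hB'
    have h1 : A ≤ B' := by
      rw [Finsupp.le_def]
      intro w
      by_cases hw : w = v
      · subst hw; simp [hB']; omega
      · have := Finsupp.le_def.mp hAB w
        simp [hB', Finsupp.single_eq_of_ne (Ne.symm (Ne.symm hw)), this]
    have hdB : Divisor.degree B' = Divisor.degree B - 1 := by
      rw [hB', map_sub, Divisor.degree_single, place_deg_eq_one v (hres v)]; simp
    have h3 := ih A B' h1 (by rw [hdB]; push_cast at hdeg; linarith)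
    have h4 := rr_finrank_add_single_le hres B' v
    have hBB : B' + Finsupp.single v 1 = B := by rw [hB']; abel
    rw [hBB] at h4
    rw [hdB] at h3
    have h5 : (finrank K ↥(riemannRochSpace B) : ℤ) ≤
        finrank K ↥(riemannRochSpace B') + 1 := by exact_mod_cast h4
    linarith

theorem rr_finrank_le [HasPrincipalDivisors K F]
    (hres : ∀ v : Place K F, Function.Bijective (algebraMap K v.ResidueField))
    {A B : Divisor K F} (hAB : A ≤ B) :
    (finrank K ↥(riemannRochSpace B) : ℤ) ≤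
      finrank K ↥(riemannRochSpace A) + (Divisor.degree B - Divisor.degree A) := by
  have h0 := degree_mono hAB
  refine rr_finrank_le_of_le hres (Divisor.degree B - Divisor.degree A).toNat A B hAB ?_
  exact Int.self_le_toNat _

/-! ### Multiplication by a function -/

theorem rr_finrank_eq_of_principal {D D' : Divisor K F} {z : F} (hz : z ≠ 0)
    (h : ∀ v : Place K F, D' v = D v - v.ord z) :
    finrank K ↥(riemannRochSpace D') = finrank K ↥(riemannRochSpace D) := by
  let e : F ≃ₗ[K] F := LinearEquiv.ofLinearMap (LinearMap.mulLeft K z) (LinearMap.mulLeft K z⁻¹)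
    (by ext x; simp [hz]) (by ext x; simp [hz])
  have hmap : riemannRochSpace D' = (riemannRochSpace D).map (e : F →ₗ[K] F) := by
    ext y
    rw [Submodule.mem_map]
    constructor
    · intro hy
      refine ⟨z⁻¹ * y, ?_, by simp [e, hz]⟩
      rw [mem_riemannRochSpace_iff] at hy ⊢
      intro v
      rcases eq_or_ne y 0 with rfl | hy0
      · left; simp
      right
      have := (hy v).resolve_left hy0
      rw [v.ord_mul (inv_ne_zero hz) hy0, v.ord_inv, h v] at *
      linarith
    · rintro ⟨x, hx, rfl⟩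
      rw [mem_riemannRochSpace_iff] at hx ⊢
      intro v
      rcases eq_or_ne x 0 with rfl | hx0
      · left; simp
      right
      have := (hx v).resolve_left hx0
      show -D' v ≤ v.ord (z * x)
      rw [v.ord_mul hz hx0, h v]
      linarith
  rw [hmap]
  exact LinearEquiv.finrank_map_eq e _

/-! ### Riemann's inequality by transfer -/

/-- **Riemann's inequality, transfer form.**  If there are divisors `B` of arbitrarily large degree
with `deg B + 1 − g ≤ dim L(B)`, then `deg A + 1 − g ≤ dim L(A)` for every divisor `A`. -/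
theorem riemann_transfer [HasPrincipalDivisors K F]
    (hres : ∀ v : Place K F, Function.Bijective (algebraMap K v.ResidueField)) (g : ℤ)
    (hB : ∀ m : ℤ, ∃ B : Divisor K F, m ≤ Divisor.degree B ∧
      Divisor.degree B + 1 - g ≤ (finrank K ↥(riemannRochSpace B) : ℤ))
    (A : Divisor K F) :
    Divisor.degree A + 1 - g ≤ (finrank K ↥(riemannRochSpace A) : ℤ) := by
  classical
  -- the positive part of `A`
  set A₁ : Divisor K F := A ⊔ 0 with hA₁
  have hAA₁ : A ≤ A₁ := le_sup_left
  have h0A₁ : 0 ≤ A₁ := le_sup_right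
  have h1 := rr_finrank_le hres hAA₁
  obtain ⟨B, hBdeg, hBdim⟩ := hB (Divisor.degree A₁ + g)
  -- a nonzero function in `L(B − A₁)`
  have hBA : B - A₁ ≤ B := sub_le_self B h0A₁
  have h2 := rr_finrank_le hres hBA
  rw [map_sub] at h2
  have hpos : 0 < finrank K ↥(riemannRochSpace (B - A₁)) := by
    have : (0 : ℤ) < finrank K ↥(riemannRochSpace (B - A₁)) := by linarith
    exact_mod_cast this
  have := Module.nontrivial_of_finrank_pos hpos
  obtain ⟨⟨z, hzmem⟩, hz0'⟩ := exists_ne (0 : ↥(riemannRochSpace (B - A₁)))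
  have hz0 : z ≠ 0 := fun h => hz0' (Subtype.ext h)
  obtain ⟨Z, hZ, hZdeg⟩ := HasPrincipalDivisors.exists_divisor (K := K) z hz0
  set D : Divisor K F := A₁ - Z with hD
  have hDB : D ≤ B := by
    rw [Finsupp.le_def]
    intro v
    rw [mem_riemannRochSpace_iff] at hzmem
    have := (hzmem v).resolve_left hz0
    simp only [hD, Finsupp.coe_sub, Pi.sub_apply, hZ v] at this ⊢
    linarith
  have hDdeg : Divisor.degree D = Divisor.degree A₁ := by
    rw [hD, map_sub, hZdeg, sub_zero]
  have hDdim : finrank K ↥(riemannRochSpace D) = finrank K ↥(riemannRochSpace A₁) :=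
    rr_finrank_eq_of_principal hz0 (fun v => by simp [hD, hZ v])
  have h3 := rr_finrank_le hres hDB
  rw [hDdim, hDdeg] at h3
  linarith

end Fermat.Agent.ES.R


end ZBES_020_0

/-! ### bundled: `Fermat.Agent.W1.GenPos` -/
section ZBES_020_1

/-!
# W1-GP: general position from Riemann's theorem (no differentials, no duality)

`K` a field, `F/K` a field with the prelude's places, all residue fields equal to `K`,
principal divisors of degree `0`.  `L(D) := riemannRochSpace D`.

Hypotheses used (as explicit `Prop`s, to be supplied by the good-reduction package):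

* `GPRiemannUpper K F g` : `∃ c, ∀ A, c ≤ deg A → dim L(A) ≤ deg A + 1 − g`;
* `GPRiemannLower K F g` : `∀ A, deg A + 1 − g ≤ dim L(A)`.

Results (`gpSum T := Σ_{Q ∈ T} Q` for a finite set `T` of places):

* `gp_finite_bad` (GP1): `L(B) = 0`, `deg B ≤ g − 2` ⇒ `L(B + Q) = 0` for all but finitely many `Q`;
* `gp_exists_points` : the same for a finite family of divisors, `j` points at once, avoiding a
  finite set `S`;
* `gp_exists_chart` (GP2): there are `g` distinct places outside `S` with `dim L(ΣQ_i) = 1`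
  (a NON-SPECIAL chart);
* `gp_exists_moving` (GP3): for `X₀` of degree `0` there is a non-special chart `T` outside `S`
  with `dim L(X₀ + ΣT) = 1` and `L(X₀ + ΣT − s) = 0` for all `s ∈ S`
  (so the effective divisor of the class avoids `S`: `gp_effective_avoids`);
* `gp_finrank_chart_add` (GP4): `dim L(ΣT + A) = deg A + 1` for a non-special chart `T`, `A ≥ 0`
  (surjectivity onto principal parts).
-/

set_option autoImplicit false

open AlgebraicCurve Module

namespace Fermat.Agent.W1

open Fermat.Agent.ES.R Fermat.Agent.S24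

variable {K F : Type*} [Field K] [Field F] [Algebra K F]

/-- The reduced effective divisor `Σ_{Q ∈ T} Q`. -/
noncomputable def gpSum (T : Finset (Place K F)) : Divisor K F :=
  ∑ Q ∈ T, Finsupp.single Q 1

@[simp] theorem gpSum_empty : gpSum (∅ : Finset (Place K F)) = 0 := by
  simp [gpSum]

theorem gpSum_insert [DecidableEq (Place K F)] {T : Finset (Place K F)} {Q : Place K F}
    (hQ : Q ∉ T) : gpSum (insert Q T) = gpSum T + Finsupp.single Q 1 := by
  simp [gpSum, Finset.sum_insert hQ, add_comm]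

theorem gpSum_apply_of_not_mem {T : Finset (Place K F)} {v : Place K F} (hv : v ∉ T) :
    gpSum T v = 0 := by
  classical
  induction T using Finset.induction_on with
  | empty => simp
  | insert Q T hQ ih =>
    rw [Finset.mem_insert, not_or] at hv
    rw [gpSum_insert hQ, Finsupp.add_apply, ih hv.2, Finsupp.single_eq_of_ne hv.1, add_zero]

theorem gpSum_apply_of_mem {T : Finset (Place K F)} {v : Place K F} (hv : v ∈ T) :
    gpSum T v = 1 := by
  classical
  induction T using Finset.induction_on with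
  | empty => simp at hv
  | insert Q T hQ ih =>
    rw [gpSum_insert hQ, Finsupp.add_apply]
    rcases Finset.mem_insert.mp hv with rfl | hvT
    · rw [gpSum_apply_of_not_mem hQ, Finsupp.single_eq_same, zero_add]
    · have hne : v ≠ Q := fun h => hQ (h ▸ hvT)
      rw [ih hvT, Finsupp.single_eq_of_ne hne, add_zero]

theorem gpSum_nonneg (T : Finset (Place K F)) : 0 ≤ gpSum T := by
  classical
  rw [Finsupp.le_def]
  intro v
  by_cases hv : v ∈ T
  · rw [gpSum_apply_of_mem hv]; simp
  · rw [gpSum_apply_of_not_mem hv]; simp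

theorem degree_gpSum (hres : ∀ v : Place K F, Function.Bijective (algebraMap K v.ResidueField))
    (T : Finset (Place K F)) : Divisor.degree (gpSum T) = T.card := by
  rw [gpSum, map_sum]
  simp only [Divisor.degree_single, place_deg_eq_one _ (hres _)]
  simp

variable (K F) in
/-- Riemann's theorem, upper half: `dim L(A) ≤ deg A + 1 − g` for divisors of large degree. -/
def GPRiemannUpper (g : ℕ) : Prop :=
  ∃ c : ℤ, ∀ A : Divisor K F, c ≤ Divisor.degree A →
    (finrank K ↥(riemannRochSpace A) : ℤ) ≤ Divisor.degree A + 1 - g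

variable (K F) in
/-- Riemann's inequality: `deg A + 1 − g ≤ dim L(A)` for every divisor. -/
def GPRiemannLower (g : ℕ) : Prop :=
  ∀ A : Divisor K F, Divisor.degree A + 1 - g ≤ (finrank K ↥(riemannRochSpace A) : ℤ)

/-! ### Elementary facts on `L(D)` -/

theorem gp_one_mem_rr {D : Divisor K F} (hD : 0 ≤ D) : (1 : F) ∈ riemannRochSpace D := by
  rw [mem_riemannRochSpace_iff]
  intro v
  right
  rw [Place.ord_one]
  have := Finsupp.le_def.mp hD v
  simp only [Finsupp.coe_zero, Pi.zero_apply] at this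
  linarith

theorem gp_rr_inf_le {A B C : Divisor K F} (h : ∀ v, C v = A v ∨ C v = B v) :
    riemannRochSpace A ⊓ riemannRochSpace B ≤ riemannRochSpace C := by
  rintro f ⟨hA, hB⟩
  have hA' := mem_riemannRochSpace_iff.mp hA
  have hB' := mem_riemannRochSpace_iff.mp hB
  rw [mem_riemannRochSpace_iff]
  intro v
  rcases h v with hv | hv
  · rw [hv]; exact hA' v
  · rw [hv]; exact hB' v

theorem gp_one_le_finrank_rr [HasPrincipalDivisors K F]
    (hres : ∀ v : Place K F, Function.Bijective (algebraMap K v.ResidueField))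
    (v₀ : Place K F) {D : Divisor K F} (hD : 0 ≤ D) :
    1 ≤ finrank K ↥(riemannRochSpace D) := by
  have := rr_finite v₀ hres D
  rw [Nat.succ_le_iff, Module.finrank_pos_iff_exists_ne_zero]
  exact ⟨⟨1, gp_one_mem_rr hD⟩, fun h => one_ne_zero (congrArg Subtype.val h)⟩

theorem gp_rr_eq_bot_iff_finrank [HasPrincipalDivisors K F]
    (hres : ∀ v : Place K F, Function.Bijective (algebraMap K v.ResidueField))
    (v₀ : Place K F) (D : Divisor K F) :
    riemannRochSpace D = ⊥ ↔ finrank K ↥(riemannRochSpace D) = 0 := by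
  have := rr_finite v₀ hres D
  exact (Submodule.finrank_eq_zero (R := K) (S := riemannRochSpace D)).symm

/-! ### GP1 -/

/-- Counting step: `#T ≤ dim L(B + ΣT)` if `L(B) = 0` and `L(B + Q) ≠ 0` for all `Q ∈ T`. -/
theorem gp_card_le [HasPrincipalDivisors K F]
    (hres : ∀ v : Place K F, Function.Bijective (algebraMap K v.ResidueField))
    {B : Divisor K F} (hB : riemannRochSpace B = ⊥) (T : Finset (Place K F))
    (hT : ∀ Q ∈ T, riemannRochSpace (B + Finsupp.single Q 1) ≠ ⊥) :
    T.card ≤ finrank K ↥(riemannRochSpace (B + gpSum T)) := by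
  classical
  induction T using Finset.induction_on with
  | empty => simp
  | insert Q T hQ ih =>
    have ih' := ih fun Q' hQ' => hT Q' (Finset.mem_insert_of_mem hQ')
    rw [Finset.card_insert_of_notMem hQ]
    have hfin := rr_finite Q hres (B + gpSum (insert Q T))
    have hle : B + gpSum T ≤ B + gpSum (insert Q T) := by
      rw [gpSum_insert hQ, ← add_assoc]
      exact le_add_of_nonneg_right (by
        rw [Finsupp.le_def]; intro v
        by_cases hv : v = Q
        · subst hv; simp
        · simp [Finsupp.single_eq_of_ne (Ne.symm (Ne.symm hv))])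
    obtain ⟨f, hf, hf0⟩ := (Submodule.ne_bot_iff _).mp (hT Q (Finset.mem_insert_self Q T))
    have hf1 : f ∈ riemannRochSpace (B + gpSum (insert Q T)) := by
      refine rr_mono ?_ hf
      rw [gpSum_insert hQ, add_comm (gpSum T), ← add_assoc]
      exact le_add_of_nonneg_right (gpSum_nonneg T)
    have hf2 : f ∉ riemannRochSpace (B + gpSum T) := by
      intro hmem
      have hinf : f ∈ riemannRochSpace B := by
        refine gp_rr_inf_le (A := B + gpSum T) (B := B + Finsupp.single Q 1) (C := B) ?_ ⟨hmem, hf⟩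
        intro v
        by_cases hv : v = Q
        · left; subst hv; simp [gpSum_apply_of_not_mem hQ]
        · right; simp [Finsupp.single_eq_of_ne (Ne.symm (Ne.symm hv))]
      rw [hB] at hinf
      exact hf0 ((Submodule.mem_bot K).mp hinf)
    have hlt : riemannRochSpace (B + gpSum T) < riemannRochSpace (B + gpSum (insert Q T)) :=
      lt_of_le_of_ne (rr_mono hle) fun h => hf2 (h ▸ hf1)
    have := Submodule.finrank_lt_finrank_of_lt hlt
    omega

/-- **GP1.** If `L(B) = 0` and `deg B ≤ g − 2`, then `L(B + Q) = 0` for all but finitely many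
places `Q`. -/
theorem gp_finite_bad [HasPrincipalDivisors K F]
    (hres : ∀ v : Place K F, Function.Bijective (algebraMap K v.ResidueField))
    {g : ℕ} (hR : GPRiemannUpper K F g) {B : Divisor K F} (hB : riemannRochSpace B = ⊥)
    (hdeg : Divisor.degree B ≤ (g : ℤ) - 2) :
    {Q : Place K F | riemannRochSpace (B + Finsupp.single Q 1) ≠ ⊥}.Finite := by
  by_contra hinf
  obtain ⟨c, hc⟩ := hR
  set m : ℕ := (c - Divisor.degree B).toNat with hm
  obtain ⟨T, hTsub, hTcard⟩ := Set.Infinite.exists_subset_card_eq hinf m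
  have h1 := gp_card_le hres hB T fun Q hQ => hTsub hQ
  have hdegT : Divisor.degree (B + gpSum T) = Divisor.degree B + m := by
    rw [map_add, degree_gpSum hres, hTcard]
  have h2 := hc (B + gpSum T) (by
    rw [hdegT, hm]
    have := Int.self_le_toNat (c - Divisor.degree B)
    linarith)
  rw [hdegT] at h2
  have h3 : (T.card : ℤ) ≤ finrank K ↥(riemannRochSpace (B + gpSum T)) := by exact_mod_cast h1
  rw [hTcard] at h3
  linarith

/-! ### Several points, several divisors -/

/-- `j` points in general position for a finite family of divisors, avoiding a finite set. -/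
theorem gp_exists_points [HasPrincipalDivisors K F]
    (hres : ∀ v : Place K F, Function.Bijective (algebraMap K v.ResidueField))
    {g : ℕ} (hR : GPRiemannUpper K F g) (hinf : (Set.univ : Set (Place K F)).Infinite)
    (𝓑 : Finset (Divisor K F)) (S : Finset (Place K F)) :
    ∀ j : ℕ, (∀ B ∈ 𝓑, riemannRochSpace B = ⊥ ∧ Divisor.degree B + j ≤ (g : ℤ) - 1) →
      ∃ T : Finset (Place K F), T.card = j ∧ Disjoint T S ∧
        ∀ B ∈ 𝓑, riemannRochSpace (B + gpSum T) = ⊥ := by
  classical
  intro j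
  induction j with
  | zero =>
    intro h
    exact ⟨∅, rfl, Finset.disjoint_empty_left S, fun B hB => by simpa using (h B hB).1⟩
  | succ j ih =>
    intro h
    obtain ⟨T, hTcard, hTS, hT⟩ := ih fun B hB =>
      ⟨(h B hB).1, by have := (h B hB).2; push_cast at this; linarith⟩
    have hbad : ∀ B ∈ 𝓑,
        {Q : Place K F | riemannRochSpace (B + gpSum T + Finsupp.single Q 1) ≠ ⊥}.Finite := by
      intro B hB
      refine gp_finite_bad hres hR (hT B hB) ?_
      rw [map_add, degree_gpSum hres, hTcard]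
      have := (h B hB).2
      push_cast at this
      linarith
    have hfin : ((⋃ B ∈ 𝓑,
        {Q : Place K F | riemannRochSpace (B + gpSum T + Finsupp.single Q 1) ≠ ⊥}) ∪
        (↑S ∪ ↑T) : Set (Place K F)).Finite :=
      (Set.Finite.biUnion 𝓑.finite_toSet hbad).union
        (S.finite_toSet.union T.finite_toSet)
    obtain ⟨Q, -, hQ⟩ := (hinf.sdiff hfin).nonempty
    simp only [Set.mem_union, Set.mem_iUnion, Set.mem_ofPred_eq, Finset.mem_coe, not_or,
      not_exists, not_not, exists_prop, not_and] at hQ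
    obtain ⟨hQbad, hQS, hQT⟩ := hQ
    refine ⟨insert Q T, by rw [Finset.card_insert_of_notMem hQT, hTcard], ?_, ?_⟩
    · rw [Finset.disjoint_insert_left]
      exact ⟨hQS, hTS⟩
    · intro B hB
      rw [gpSum_insert hQT, ← add_assoc]
      exact hQbad B hB

/-! ### GP2: the non-special chart -/

/-- **GP2.** There are `g` distinct places outside a given finite set `S` with
`dim L(Q₁ + … + Q_g) = 1`. -/
theorem gp_exists_chart [HasPrincipalDivisors K F]
    (hres : ∀ v : Place K F, Function.Bijective (algebraMap K v.ResidueField))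
    {g : ℕ} (hR : GPRiemannUpper K F g) (hinf : (Set.univ : Set (Place K F)).Infinite)
    (S : Finset (Place K F)) :
    ∃ T : Finset (Place K F), T.card = g ∧ Disjoint T S ∧
      finrank K ↥(riemannRochSpace (gpSum T)) = 1 := by
  classical
  obtain ⟨P, -⟩ := hinf.nonempty
  have hP : riemannRochSpace (-Finsupp.single P 1 : Divisor K F) = ⊥ :=
    rr_eq_bot_of_degree_neg (by
      rw [map_neg, Divisor.degree_single, place_deg_eq_one P (hres P)]; simp)
  obtain ⟨T, hTcard, hTS, hT⟩ := gp_exists_points hres hR hinf {-Finsupp.single P 1}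
    (insert P S) g (by
      intro B hB
      rw [Finset.mem_singleton] at hB
      subst hB
      refine ⟨hP, ?_⟩
      rw [map_neg, Divisor.degree_single, place_deg_eq_one P (hres P)]
      simp)
  have hT' := hT _ (Finset.mem_singleton_self _)
  refine ⟨T, hTcard, Finset.disjoint_of_subset_right (Finset.subset_insert P S) hTS, ?_⟩
  have h1 := rr_finrank_add_single_le hres (-Finsupp.single P 1 + gpSum T) P
  have h2 : -Finsupp.single P 1 + gpSum T + Finsupp.single P 1 = gpSum T := by abel
  rw [h2, (gp_rr_eq_bot_iff_finrank hres P _).mp hT'] at h1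
  have h3 := gp_one_le_finrank_rr hres P (gpSum_nonneg T)
  omega

/-! ### GP3: the moving lemma -/

/-- **GP3.** For a divisor `X₀` of degree `0` and a finite set `S` there is a non-special chart
`T` outside `S` such that `dim L(X₀ + ΣT) = 1` and `L(X₀ + ΣT − s) = 0` for every `s ∈ S`. -/
theorem gp_exists_moving [HasPrincipalDivisors K F]
    (hres : ∀ v : Place K F, Function.Bijective (algebraMap K v.ResidueField))
    {g : ℕ} (hR : GPRiemannUpper K F g) (hL : GPRiemannLower K F g)
    (hinf : (Set.univ : Set (Place K F)).Infinite)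
    (X₀ : Divisor K F) (hX : Divisor.degree X₀ = 0) (S : Finset (Place K F)) :
    ∃ T : Finset (Place K F), T.card = g ∧ Disjoint T S ∧
      finrank K ↥(riemannRochSpace (gpSum T)) = 1 ∧
      finrank K ↥(riemannRochSpace (X₀ + gpSum T)) = 1 ∧
      ∀ s ∈ S, riemannRochSpace (X₀ + gpSum T - Finsupp.single s 1) = ⊥ := by
  classical
  obtain ⟨P, -⟩ := hinf.nonempty
  have hdegneg : ∀ (Y : Divisor K F) (s : Place K F), Divisor.degree Y = 0 →
      Divisor.degree (Y - Finsupp.single s 1) = -1 := by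
    intro Y s hY
    rw [map_sub, Divisor.degree_single, place_deg_eq_one s (hres s), hY]; simp
  set 𝓑 : Finset (Divisor K F) :=
    insert (0 - Finsupp.single P 1) ((insert P S).image fun s => X₀ - Finsupp.single s 1) with h𝓑
  have h𝓑deg : ∀ B ∈ 𝓑, Divisor.degree B = -1 := by
    intro B hB
    rw [h𝓑, Finset.mem_insert, Finset.mem_image] at hB
    rcases hB with rfl | ⟨s, -, rfl⟩
    · exact hdegneg 0 P (map_zero _)
    · exact hdegneg X₀ s hX
  obtain ⟨T, hTcard, hTS, hT⟩ := gp_exists_points hres hR hinf 𝓑 (insert P S) g (by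
    intro B hB
    refine ⟨rr_eq_bot_of_degree_neg (by rw [h𝓑deg B hB]; norm_num), ?_⟩
    rw [h𝓑deg B hB]; linarith)
  have hT0 : riemannRochSpace (0 - Finsupp.single P 1 + gpSum T) = ⊥ :=
    hT _ (by rw [h𝓑]; exact Finset.mem_insert_self _ _)
  have hTs : ∀ s ∈ insert P S, riemannRochSpace (X₀ - Finsupp.single s 1 + gpSum T) = ⊥ :=
    fun s hs => hT _ (by
      rw [h𝓑]; exact Finset.mem_insert_of_mem (Finset.mem_image_of_mem _ hs))
  refine ⟨T, hTcard, Finset.disjoint_of_subset_right (Finset.subset_insert P S) hTS, ?_, ?_, ?_⟩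
  · have h1 := rr_finrank_add_single_le hres (0 - Finsupp.single P 1 + gpSum T) P
    have h2 : 0 - Finsupp.single P 1 + gpSum T + Finsupp.single P 1 = gpSum T := by abel
    rw [h2, (gp_rr_eq_bot_iff_finrank hres P _).mp hT0] at h1
    have h3 := gp_one_le_finrank_rr hres P (gpSum_nonneg T)
    omega
  · have h1 := rr_finrank_add_single_le hres (X₀ - Finsupp.single P 1 + gpSum T) P
    have h2 : X₀ - Finsupp.single P 1 + gpSum T + Finsupp.single P 1 = X₀ + gpSum T := by abel
    rw [h2, (gp_rr_eq_bot_iff_finrank hres P _).mp (hTs P (Finset.mem_insert_self P S))] at h1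
    have h3 := hL (X₀ + gpSum T)
    rw [map_add, degree_gpSum hres, hTcard, hX] at h3
    have h4 : (1 : ℤ) ≤ finrank K ↥(riemannRochSpace (X₀ + gpSum T)) := by linarith
    have h5 : 1 ≤ finrank K ↥(riemannRochSpace (X₀ + gpSum T)) := by exact_mod_cast h4
    omega
  · intro s hs
    have h2 : X₀ + gpSum T - Finsupp.single s 1 = X₀ - Finsupp.single s 1 + gpSum T := by abel
    rw [h2]
    exact hTs s (Finset.mem_insert_of_mem hs)

/-- The effective divisor `D + div f` of a nonzero `f ∈ L(D)`; it avoids every place `s` with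
`L(D − s) = 0`. -/
theorem gp_effective_avoids {D Z : Divisor K F} {f : F} (hf0 : f ≠ 0)
    (hf : f ∈ riemannRochSpace D) (hZ : ∀ v : Place K F, Z v = v.ord f) :
    0 ≤ D + Z ∧ ∀ s : Place K F, riemannRochSpace (D - Finsupp.single s 1) = ⊥ →
      (D + Z) s = 0 := by
  have hf' := mem_riemannRochSpace_iff.mp hf
  have hnn : ∀ v : Place K F, 0 ≤ (D + Z) v := by
    intro v
    have := (hf' v).resolve_left hf0
    simp only [Finsupp.coe_add, Pi.add_apply, hZ v]
    linarith
  refine ⟨Finsupp.le_def.mpr fun v => by simpa using hnn v, fun s hs => ?_⟩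
  by_contra hne
  have hpos : 1 ≤ (D + Z) s := by
    have := hnn s
    omega
  have hmem : f ∈ riemannRochSpace (D - Finsupp.single s 1) := by
    rw [mem_riemannRochSpace_iff]
    intro v
    right
    by_cases hv : v = s
    · subst hv
      simp only [Finsupp.coe_add, Pi.add_apply, hZ v] at hpos
      simp only [Finsupp.coe_sub, Pi.sub_apply, Finsupp.single_eq_same]
      linarith
    · have := (hf' v).resolve_left hf0
      simp only [Finsupp.coe_sub, Pi.sub_apply,
        Finsupp.single_eq_of_ne (Ne.symm (Ne.symm hv)), sub_zero]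
      exact this
  rw [hs] at hmem
  exact hf0 ((Submodule.mem_bot K).mp hmem)

/-! ### GP4: principal parts -/

/-- **GP4.** For a non-special chart `T` (`#T = g`, `dim L(ΣT) = 1`) and `A ≥ 0`:
`dim L(ΣT + A) = deg A + 1`. -/
theorem gp_finrank_chart_add [HasPrincipalDivisors K F]
    (hres : ∀ v : Place K F, Function.Bijective (algebraMap K v.ResidueField))
    {g : ℕ} (hL : GPRiemannLower K F g) {T : Finset (Place K F)} (hTcard : T.card = g)
    (hT : finrank K ↥(riemannRochSpace (gpSum T)) = 1) {A : Divisor K F} (hA : 0 ≤ A) :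
    (finrank K ↥(riemannRochSpace (gpSum T + A)) : ℤ) = Divisor.degree A + 1 := by
  have h1 := rr_finrank_le hres (A := gpSum T) (B := gpSum T + A) (le_add_of_nonneg_right hA)
  have h2 := hL (gpSum T + A)
  rw [map_add, degree_gpSum hres, hTcard] at h1 h2
  rw [hT] at h1
  push_cast at h1
  linarith

end Fermat.Agent.W1


end ZBES_020_1

/-! ### bundled: `Fermat.Agent.W1.PlanGeo` -/
section ZBES_020_2

/-!
# W1-geo: the abstract reduction package (PR) and the first geometric pieces — exact statements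

Plan: `NOTES/W1-geo.md`.  `K ⊃ A` a valuation ring with residue map `res : A → k`; `F/K`, `Fk/k`
function fields; `O ⊂ F` the Gauss valuation ring with residue map `red : O → Fk`;
`r : Place K F → Place k Fk` the reduction of places.

* `PRData`, `PRData.IsPR` : the package; the key field is `r_div` : `r_*(div u) = div(ū)`.
* `IsNiceCurve K F g` : places of degree one, principal divisors, Riemann with genus `g`.
* `PRData.Semicont` : `dim L(D) ≤ dim L̄(r_* D)`.
* `PRData.GoodFn t` : `t ∈ O` and the poles of `t` reduce to poles of `t̄`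
  (for `t = j` this is `[F : K(j)] = [Fk : k(j̄)]`, S28; by `StmtEval` the zeros of `t - c`
  then reduce to zeros of `t̄ - c̄`).
* `HasValueAt P f a` : `f(P) = a`.

Pieces (Props): `StmtEval` (E2), `StmtOnto` (E1), `StmtDisc` (L1).
-/

set_option autoImplicit false

open AlgebraicCurve Module

namespace Fermat.Agent.W1

variable {K F k Fk : Type} [Field K] [Field F] [Algebra K F] [Field k] [Field Fk] [Algebra k Fk]

/-- `f(P) = a` : the function `f` is regular at the place `P` with value `a`. -/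
def HasValueAt (P : Place K F) (f : F) (a : K) : Prop :=
  f - algebraMap K F a ∈ P.toValuationSubring.nonunits

variable (K F k Fk) in
/-- The data of a reduction: residue map of `A`, Gauss valuation ring of `F` with its residue map
to `Fk`, and the reduction of places. -/
structure PRData (A : ValuationSubring K) where
  res : A →+* k
  O : ValuationSubring F
  red : O →+* Fk
  r : Place K F → Place k Fk

variable {A : ValuationSubring K}

/-- The axioms of a reduction of places. -/
structure PRData.IsPR (R : PRData K F k Fk A) : Prop where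
  res_surjective : Function.Surjective R.res
  res_eq_zero_iff : ∀ a : A, R.res a = 0 ↔ (a : K) ∈ A.nonunits
  algebraMap_mem_iff : ∀ a : K, algebraMap K F a ∈ R.O ↔ a ∈ A
  red_surjective : Function.Surjective R.red
  red_eq_zero_iff : ∀ x : R.O, R.red x = 0 ↔ (x : F) ∈ R.O.nonunits
  red_algebraMap : ∀ (a : A) (h : algebraMap K F (a : K) ∈ R.O),
    R.red ⟨algebraMap K F (a : K), h⟩ = algebraMap k Fk (R.res a)
  prim : ∀ f : F, f ≠ 0 → ∃ a : K, a ≠ 0 ∧ ∃ h : algebraMap K F a * f ∈ R.O,
    R.red ⟨algebraMap K F a * f, h⟩ ≠ 0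
  r_div : ∀ u : R.O, R.red u ≠ 0 → ∀ D : Divisor K F, (∀ P, D P = P.ord (u : F)) →
    ∀ Q : Place k Fk, Finsupp.mapDomain R.r D Q = Q.ord (R.red u)

variable (K F) in
/-- A function field of one variable over an algebraically closed constant field, of genus `g`,
in the prelude's language. -/
structure IsNiceCurve (g : ℕ) : Prop where
  hres : ∀ v : Place K F, Function.Bijective (algebraMap K v.ResidueField)
  hpd : HasPrincipalDivisors K F
  upper : GPRiemannUpper K F g
  lower : GPRiemannLower K F g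
  infinite : (Set.univ : Set (Place K F)).Infinite

/-- semicontinuity: `dim L(D) ≤ dim L̄(r_* D)` -/
def PRData.Semicont (R : PRData K F k Fk A) : Prop :=
  ∀ D : Divisor K F,
    finrank K ↥(riemannRochSpace D) ≤ finrank k ↥(riemannRochSpace (Finsupp.mapDomain R.r D))

/-- `t` has good reduction as a map to the projective line. -/
def PRData.GoodFn (R : PRData K F k Fk A) (t : F) : Prop :=
  ∃ ht : t ∈ R.O, ∀ P : Place K F, P.ord t < 0 → (R.r P).ord (R.red ⟨t, ht⟩) < 0

/-- **(E2) evaluation**: if `f ∈ O` and no pole of `f` reduces to `r P`, then `f(P) ∈ A` and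
`f(P)‾ = f̄(r P)`. -/
def StmtEval : Prop :=
  ∀ (K F k Fk : Type) [Field K] [Field F] [Algebra K F] [Field k] [Field Fk] [Algebra k Fk]
    (A : ValuationSubring K) (R : PRData K F k Fk A) (g : ℕ),
    R.IsPR → IsNiceCurve K F g → IsNiceCurve k Fk g →
    ∀ (f : R.O) (P : Place K F), (∀ P' : Place K F, P'.ord (f : F) < 0 → R.r P' ≠ R.r P) →
      ∃ a : A, HasValueAt P (f : F) (a : K) ∧ HasValueAt (R.r P) (R.red f) (R.res a)

/-- **(E1)**: `r` is onto. -/
def StmtOnto : Prop :=
  ∀ (K F k Fk : Type) [Field K] [Field F] [Algebra K F] [Field k] [Field Fk] [Algebra k Fk]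
    (A : ValuationSubring K) (R : PRData K F k Fk A) (g : ℕ),
    R.IsPR → IsNiceCurve K F g → IsNiceCurve k Fk g → Function.Surjective R.r

/-- **(L1) the disc**: if `t` is a good function and `t̄ - c̄` has a simple zero at `Q`, then
`P ↦ t(P) - c` is a bijection from `r⁻¹(Q)` to `𝔪_A`. -/
def StmtDisc : Prop :=
  ∀ (K F k Fk : Type) [Field K] [Field F] [Algebra K F] [Field k] [Field Fk] [Algebra k Fk]
    (A : ValuationSubring K) (R : PRData K F k Fk A) (g : ℕ),
    R.IsPR → IsNiceCurve K F g → IsNiceCurve k Fk g →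
    ∀ (t : F) (ht : t ∈ R.O), R.GoodFn t → ∀ (c : A) (Q : Place k Fk),
      Q.ord (R.red ⟨t, ht⟩ - algebraMap k Fk (R.res c)) = 1 →
      (∀ P : Place K F, R.r P = Q →
        ∃ z : K, z ∈ A.nonunits ∧ HasValueAt P t ((c : K) + z)) ∧
      (∀ z : K, z ∈ A.nonunits →
        ∃! P : Place K F, R.r P = Q ∧ HasValueAt P t ((c : K) + z))

end Fermat.Agent.W1


end ZBES_020_2

/-! ### bundled: `Fermat.Agent.DEU.Defs` -/
section ZBES_020_3

/-!
# DEU — reduction of divisors by Deuring's dimension count: definitions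

`F/K` and `Fb/k` are function fields (in the sense of the prelude's `Place`s), `R : RedData K F k Fb`
is a "constant reduction": a subring `O ⊆ F` (the valuation ring of a Gauss-type valuation of `F`
extending the valuation ring `A` of `K`) with a ring homomorphism `red : O → Fb` such that

* `A → k` is onto and `red` is compatible with it on constants;
* every `f ≠ 0` of `F` can be scaled by a constant into `O` with nonzero reduction
  (the value group of the valuation of `F` is the value group of `A`);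
* an element of `O` with nonzero reduction is a unit of `O`.

For a `K`-subspace `V ⊆ F` the reduction `R.redSpace V = {red f | f ∈ V ∩ O}` is a `k`-subspace
of `Fb` with `dim_k (R.redSpace V) ≤ dim_K V` (`finrank_redSpace_le`).
-/

set_option autoImplicit false

open AlgebraicCurve Module

namespace Fermat.Agent.DEU

variable (K F k Fb : Type*) [Field K] [Field F] [Algebra K F] [Field k] [Field Fb] [Algebra k Fb]

/-- A constant reduction of `F/K` to `Fb/k`. -/
structure RedData where
  /-- the valuation ring of the constant field -/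
  A : ValuationSubring K
  /-- the residue map on constants -/
  res : A →+* k
  res_surjective : Function.Surjective res
  /-- the integral elements of `F` -/
  O : Subring F
  /-- the reduction map -/
  red : O →+* Fb
  algebraMap_mem : ∀ a : A, algebraMap K F (a : K) ∈ O
  red_algebraMap : ∀ a : A,
    red ⟨algebraMap K F (a : K), algebraMap_mem a⟩ = algebraMap k Fb (res a)
  inv_mem : ∀ f : O, red f ≠ 0 → ((f : F))⁻¹ ∈ O
  exists_scale : ∀ f : F, f ≠ 0 →
    ∃ c : K, c ≠ 0 ∧ ∃ h : algebraMap K F c * f ∈ O, red ⟨algebraMap K F c * f, h⟩ ≠ 0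

variable {K F k Fb}

namespace RedData

variable (R : RedData K F k Fb)

/-- A constant of `A`, as an element of `O`. -/
def const (a : R.A) : R.O := ⟨algebraMap K F (a : K), R.algebraMap_mem a⟩

@[simp] theorem coe_const (a : R.A) : ((R.const a : R.O) : F) = algebraMap K F (a : K) := rfl

@[simp] theorem red_const (a : R.A) : R.red (R.const a) = algebraMap k Fb (R.res a) :=
  R.red_algebraMap a

/-- The inverse of an element with nonzero reduction. -/
def inv (f : R.O) (hf : R.red f ≠ 0) : R.O := ⟨((f : F))⁻¹, R.inv_mem f hf⟩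

@[simp] theorem coe_inv (f : R.O) (hf : R.red f ≠ 0) : ((R.inv f hf : R.O) : F) = ((f : F))⁻¹ :=
  rfl

theorem coe_ne_zero_of_red_ne_zero {f : R.O} (hf : R.red f ≠ 0) : (f : F) ≠ 0 := by
  intro h
  apply hf
  have : f = 0 := Subtype.ext h
  rw [this, map_zero]

theorem mul_inv_cancel (f : R.O) (hf : R.red f ≠ 0) : f * R.inv f hf = 1 := by
  apply Subtype.ext
  rw [Subring.coe_mul, coe_inv, Subring.coe_one]
  exact mul_inv_cancel₀ (R.coe_ne_zero_of_red_ne_zero hf)

theorem red_inv (f : R.O) (hf : R.red f ≠ 0) : R.red (R.inv f hf) = (R.red f)⁻¹ := by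
  have h := congrArg R.red (R.mul_inv_cancel f hf)
  rw [map_mul, map_one] at h
  exact eq_inv_of_mul_eq_one_right h

/-- The reduction of a `K`-subspace of `F`. -/
def redSpace (V : Submodule K F) : Submodule k Fb where
  carrier := {w | ∃ f : R.O, (f : F) ∈ V ∧ R.red f = w}
  zero_mem' := ⟨0, by simp, map_zero _⟩
  add_mem' := by
    rintro _ _ ⟨f, hf, rfl⟩ ⟨g, hg, rfl⟩
    exact ⟨f + g, by rw [Subring.coe_add]; exact V.add_mem hf hg, map_add _ _ _⟩
  smul_mem' := by
    rintro c _ ⟨f, hf, rfl⟩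
    obtain ⟨a, rfl⟩ := R.res_surjective c
    refine ⟨R.const a * f, ?_, ?_⟩
    · rw [Subring.coe_mul, coe_const, ← Algebra.smul_def]
      exact V.smul_mem _ hf
    · rw [map_mul, red_const, Algebra.smul_def]

theorem mem_redSpace {V : Submodule K F} {w : Fb} :
    w ∈ R.redSpace V ↔ ∃ f : R.O, (f : F) ∈ V ∧ R.red f = w := Iff.rfl

theorem red_mem_redSpace {V : Submodule K F} (f : R.O) (hf : (f : F) ∈ V) :
    R.red f ∈ R.redSpace V := ⟨f, hf, rfl⟩

theorem redSpace_mono {V W : Submodule K F} (h : V ≤ W) : R.redSpace V ≤ R.redSpace W := by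
  rintro _ ⟨f, hf, rfl⟩
  exact ⟨f, h hf, rfl⟩

theorem redSpace_ne_bot {V : Submodule K F} (hV : V ≠ ⊥) : R.redSpace V ≠ ⊥ := by
  obtain ⟨f, hfV, hf0⟩ := (Submodule.ne_bot_iff V).mp hV
  obtain ⟨c, -, h, hred⟩ := R.exists_scale f hf0
  intro hbot
  have hmem : R.red ⟨algebraMap K F c * f, h⟩ ∈ R.redSpace V := by
    refine R.red_mem_redSpace _ ?_
    show algebraMap K F c * f ∈ V
    rw [← Algebra.smul_def]
    exact V.smul_mem _ hfV
  rw [hbot, Submodule.mem_bot] at hmem
  exact hred hmem

end RedData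

end Fermat.Agent.DEU


end ZBES_020_3

/-! ### bundled: `Fermat.Agent.DEU.RedSpace` -/
section ZBES_020_4

/-!
# DEU — the reduction of a finite-dimensional subspace

`dim_k (R.redSpace V) ≤ dim_K V`: lifts of `k`-linearly independent reductions are `K`-linearly
independent (scale a relation by its coefficient of largest absolute value and reduce).
-/

set_option autoImplicit false

open AlgebraicCurve Module

namespace Fermat.Agent.DEU

variable {K F k Fb : Type*} [Field K] [Field F] [Algebra K F] [Field k] [Field Fb] [Algebra k Fb]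

namespace RedData

variable (R : RedData K F k Fb)

/-- Lifts of linearly independent reductions are linearly independent. -/
theorem linearIndependent_of_red {ι : Type*} [Finite ι] (f : ι → R.O)
    (h : LinearIndependent k (fun i => R.red (f i))) :
    LinearIndependent K (fun i => ((f i : R.O) : F)) := by
  classical
  have : Fintype ι := Fintype.ofFinite ι
  rw [Fintype.linearIndependent_iff]
  intro c hc
  by_contra hne
  push Not at hne
  obtain ⟨j, hj⟩ := hne
  -- the coefficient of largest absolute value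
  obtain ⟨i₀, -, hi₀⟩ := Finset.exists_max_image (Finset.univ : Finset ι)
    (fun i => R.A.valuation (c i)) ⟨j, Finset.mem_univ j⟩
  have hci₀ : c i₀ ≠ 0 := by
    intro h0
    have h1 := hi₀ j (Finset.mem_univ j)
    rw [h0, map_zero] at h1
    exact hj ((Valuation.zero_iff _).mp (le_antisymm h1 zero_le))
  have hv0 : R.A.valuation (c i₀) ≠ 0 := (Valuation.ne_zero_iff _).mpr hci₀
  have hmem : ∀ i, c i / c i₀ ∈ R.A := by
    intro i
    rw [← ValuationSubring.valuation_le_one_iff, map_div₀]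
    exact div_le_one_of_le₀ (hi₀ i (Finset.mem_univ i)) zero_le
  let a : ι → R.A := fun i => ⟨c i / c i₀, hmem i⟩
  have hsum : ∑ i, R.const (a i) * f i = 0 := by
    apply Subtype.ext
    rw [Subring.coe_zero]
    have h1 : ((∑ i, R.const (a i) * f i : R.O) : F) =
        ∑ i, algebraMap K F (c i / c i₀) * (f i : F) := by
      rw [← Subring.coe_subtype, map_sum]
      rfl
    rw [h1]
    have h2 : ∀ i, algebraMap K F (c i / c i₀) * (f i : F) =
        algebraMap K F (c i₀)⁻¹ * (c i • (f i : F)) := by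
      intro i
      rw [Algebra.smul_def, ← mul_assoc, ← map_mul, inv_mul_eq_div]
    simp_rw [h2]
    rw [← Finset.mul_sum, hc, mul_zero]
  have hred := congrArg R.red hsum
  rw [map_sum, map_zero] at hred
  have hred' : ∑ i, R.res (a i) • R.red (f i) = 0 := by
    rw [← hred]
    refine Finset.sum_congr rfl fun i _ => ?_
    rw [map_mul, red_const, Algebra.smul_def]
  have h3 := (Fintype.linearIndependent_iff.mp h) (fun i => R.res (a i)) hred' i₀
  have h4 : a i₀ = 1 := by
    apply Subtype.ext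
    show c i₀ / c i₀ = 1
    exact div_self hci₀
  rw [h4, map_one] at h3
  exact one_ne_zero h3

/-- `dim (reduction of V) ≤ dim V` (as cardinals bounded by a natural number). -/
theorem rank_redSpace_le (V : Submodule K F) [Module.Finite K V] :
    Module.rank k ↥(R.redSpace V) ≤ (finrank K V : ℕ) := by
  classical
  refine rank_le fun s hs => ?_
  -- lift the elements of `s`
  have hex : ∀ w : ↥(R.redSpace V), ∃ f : R.O, (f : F) ∈ V ∧ R.red f = (w : Fb) := fun w => w.2
  choose lift hliftV hliftred using hex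
  have hli : LinearIndependent k (fun i : s => R.red (lift (i : ↥(R.redSpace V)))) := by
    have h1 : LinearIndependent k (fun i : s => (((i : ↥(R.redSpace V)) : Fb))) := by
      have := hs.map' (R.redSpace V).subtype (Submodule.ker_subtype _)
      exact this
    convert h1 using 2
    exact hliftred _
  have hK := R.linearIndependent_of_red (fun i : s => lift (i : ↥(R.redSpace V))) hli
  -- as a family in `V`
  have hKV : LinearIndependent K (fun i : s => (⟨(lift (i : ↥(R.redSpace V)) : F),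
      hliftV _⟩ : V)) := by
    refine LinearIndependent.of_comp V.subtype ?_
    exact hK
  have := hKV.fintype_card_le_finrank
  simpa using this

instance finite_redSpace (V : Submodule K F) [Module.Finite K V] :
    Module.Finite k ↥(R.redSpace V) :=
  Module.rank_lt_aleph0_iff.mp
    (lt_of_le_of_lt (R.rank_redSpace_le V) Cardinal.natCast_lt_aleph0)

theorem finrank_redSpace_le (V : Submodule K F) [Module.Finite K V] :
    finrank k ↥(R.redSpace V) ≤ finrank K V :=
  finrank_le_of_rank_le (R.rank_redSpace_le V)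

end RedData

end Fermat.Agent.DEU


end ZBES_020_4

/-! ### bundled: `Fermat.Agent.DEU.Dv` -/
section ZBES_020_5

/-!
# DEU — the divisor of a finite-dimensional space of functions

`F/K` a function field in the prelude's language, all places of degree one
(`hres`), principal divisors of degree `0`.  For a nonzero finite-dimensional `K`-subspace
`M ⊆ F` there is a LEAST divisor `D` with `M ≤ L(D)` (`exists_isLeast_bound`), written `dv M`;
at every place its coefficient is attained (`exists_ord_eq_neg_dv`), hence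
`dv M + dv M' ≤ dv M''` whenever `M · M' ⊆ M''` (`dv_add_le`) and `dv (h • M) = dv M - div h`.
-/

set_option autoImplicit false

open AlgebraicCurve Module

namespace Fermat.Agent.DEU

open Fermat.Agent.ES.R

variable {K F : Type*} [Field K] [Field F] [Algebra K F]

/-! ### Degrees and order -/

theorem dv_eq_zero_of_nonneg_of_degree_le
    (hres : ∀ v : Place K F, Function.Bijective (algebraMap K v.ResidueField))
    {E : Divisor K F} (h0 : 0 ≤ E) (hdeg : Divisor.degree E ≤ 0) : E = 0 := by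
  classical
  rw [degree_eq_sum] at hdeg
  have hnn : ∀ v ∈ E.support, 0 ≤ E v * (v.deg : ℤ) := by
    intro v _
    have : 0 ≤ E v := by simpa using Finsupp.le_def.mp h0 v
    positivity
  have hsum : E.sum (fun v n => n * (v.deg : ℤ)) = 0 :=
    le_antisymm hdeg (Finset.sum_nonneg hnn)
  have hall := (Finset.sum_eq_zero_iff_of_nonneg hnn).mp hsum
  ext v
  by_cases hv : v ∈ E.support
  · have h1 := hall v hv
    rw [place_deg_eq_one v (hres v)] at h1
    simpa using h1
  · simpa using Finsupp.notMem_support_iff.mp hv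

/-- `X ≤ D` and `deg D ≤ deg X` force `X = D`. -/
theorem dv_eq_of_le_of_degree_le
    (hres : ∀ v : Place K F, Function.Bijective (algebraMap K v.ResidueField))
    {X D : Divisor K F} (h : X ≤ D) (hdeg : Divisor.degree D ≤ Divisor.degree X) : X = D := by
  have h1 : D - X = 0 := by
    refine dv_eq_zero_of_nonneg_of_degree_le hres (sub_nonneg.mpr h) ?_
    rw [map_sub]
    linarith
  exact (sub_eq_zero.mp h1).symm

/-! ### Bounds of a subspace -/

/-- The divisors `D` with `M ≤ L(D)`. -/
def bounds (M : Submodule K F) : Set (Divisor K F) := {D | M ≤ riemannRochSpace D}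

theorem mem_bounds {M : Submodule K F} {D : Divisor K F} :
    D ∈ bounds M ↔ M ≤ riemannRochSpace D := Iff.rfl

theorem rr_inf_le (D D' : Divisor K F) :
    riemannRochSpace D ⊓ riemannRochSpace D' ≤ riemannRochSpace (D ⊓ D') := by
  rintro f ⟨hf, hf'⟩
  rw [SetLike.mem_coe, mem_riemannRochSpace_iff] at hf hf'
  rw [mem_riemannRochSpace_iff]
  intro v
  rcases hf v with h0 | h1
  · exact Or.inl h0
  rcases hf' v with h0 | h2
  · exact Or.inl h0
  right
  rw [Finsupp.inf_apply]
  rcases inf_le_iff.mp (le_refl (D v ⊓ D' v)) with h | h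
  · linarith
  · linarith

theorem inf_mem_bounds {M : Submodule K F} {D D' : Divisor K F} (h : D ∈ bounds M)
    (h' : D' ∈ bounds M) : D ⊓ D' ∈ bounds M :=
  (le_inf h h').trans (rr_inf_le D D')

theorem bounds_mono {M : Submodule K F} {D D' : Divisor K F} (h : D ∈ bounds M)
    (hle : D ≤ D') : D' ∈ bounds M :=
  h.trans (rr_mono hle)

/-- A function lies in `L(D)` for some `D`. -/
theorem exists_mem_rr [HasPrincipalDivisors K F] (f : F) : ∃ D : Divisor K F,
    f ∈ riemannRochSpace D := by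
  rcases eq_or_ne f 0 with rfl | hf
  · exact ⟨0, zero_mem _⟩
  obtain ⟨Z, hZ, -⟩ := HasPrincipalDivisors.exists_divisor (K := K) f hf
  refine ⟨-Z, ?_⟩
  rw [mem_riemannRochSpace_iff]
  intro v
  right
  rw [Finsupp.neg_apply, neg_neg, hZ v]

theorem exists_bound_span [HasPrincipalDivisors K F] (s : Finset F) :
    ∃ D : Divisor K F, Submodule.span K (s : Set F) ≤ riemannRochSpace D := by
  classical
  induction s using Finset.induction_on with
  | empty => exact ⟨0, by simp⟩
  | insert a s _ ih =>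
    obtain ⟨D, hD⟩ := ih
    obtain ⟨D', hD'⟩ := exists_mem_rr (K := K) a
    refine ⟨D ⊔ D', ?_⟩
    rw [Finset.coe_insert, Submodule.span_insert, sup_le_iff]
    constructor
    · rw [Submodule.span_singleton_le_iff_mem]
      exact rr_mono le_sup_right hD'
    · exact hD.trans (rr_mono le_sup_left)

theorem bounds_nonempty [HasPrincipalDivisors K F] (M : Submodule K F) [Module.Finite K M] :
    (bounds M).Nonempty := by
  obtain ⟨s, hs⟩ := (Submodule.fg_iff_finiteDimensional M).mpr inferInstance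
  obtain ⟨D, hD⟩ := exists_bound_span (K := K) s
  exact ⟨D, by rw [mem_bounds, ← hs]; exact hD⟩

theorem degree_nonneg_of_mem_bounds [HasPrincipalDivisors K F] {M : Submodule K F} (hM : M ≠ ⊥)
    {D : Divisor K F} (hD : D ∈ bounds M) : 0 ≤ Divisor.degree D := by
  by_contra hneg
  push Not at hneg
  apply hM
  rw [eq_bot_iff]
  exact (mem_bounds.mp hD).trans (le_of_eq (rr_eq_bot_of_degree_neg hneg))

/-- **The least bound exists.** -/
theorem exists_isLeast_bound [HasPrincipalDivisors K F]
    (hres : ∀ v : Place K F, Function.Bijective (algebraMap K v.ResidueField))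
    (M : Submodule K F) (hM : M ≠ ⊥) [Module.Finite K M] :
    ∃ D : Divisor K F, IsLeast (bounds M) D := by
  classical
  -- a bound of minimal degree
  have hne : ∃ n : ℕ, ∃ D ∈ bounds M, Divisor.degree D = n := by
    obtain ⟨D, hD⟩ := bounds_nonempty M
    exact ⟨(Divisor.degree D).toNat, D, hD,
      (Int.toNat_of_nonneg (degree_nonneg_of_mem_bounds hM hD)).symm⟩
  obtain ⟨D, hD, hdeg⟩ := Nat.find_spec hne
  refine ⟨D, hD, fun D' hD' => ?_⟩
  have hinf := inf_mem_bounds hD hD'
  have h1 : Divisor.degree D ≤ Divisor.degree (D ⊓ D') := by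
    have h0 := degree_nonneg_of_mem_bounds hM hinf
    by_contra hlt
    push Not at hlt
    have hmem : ∃ D'' ∈ bounds M, Divisor.degree D'' = ((Divisor.degree (D ⊓ D')).toNat : ℕ) :=
      ⟨D ⊓ D', hinf, (Int.toNat_of_nonneg h0).symm⟩
    have := Nat.find_min' hne hmem
    have h2 : (Nat.find hne : ℤ) ≤ ((Divisor.degree (D ⊓ D')).toNat : ℤ) := by exact_mod_cast this
    rw [Int.toNat_of_nonneg h0, ← hdeg] at h2
    linarith
  have h2 : D ⊓ D' = D := dv_eq_of_le_of_degree_le hres inf_le_left h1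
  rw [← h2]
  exact inf_le_right

/-- The least divisor `D` with `M ≤ L(D)` (`0` if there is none). -/
noncomputable def dv (M : Submodule K F) : Divisor K F :=
  open Classical in if h : ∃ D : Divisor K F, IsLeast (bounds M) D then h.choose else 0

theorem dv_isLeast [HasPrincipalDivisors K F]
    (hres : ∀ v : Place K F, Function.Bijective (algebraMap K v.ResidueField))
    (M : Submodule K F) (hM : M ≠ ⊥) [Module.Finite K M] : IsLeast (bounds M) (dv M) := by
  have h := exists_isLeast_bound hres M hM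
  rw [dv, dif_pos h]
  exact h.choose_spec

theorem le_rr_dv [HasPrincipalDivisors K F]
    (hres : ∀ v : Place K F, Function.Bijective (algebraMap K v.ResidueField))
    (M : Submodule K F) (hM : M ≠ ⊥) [Module.Finite K M] : M ≤ riemannRochSpace (dv M) :=
  (dv_isLeast hres M hM).1

theorem dv_le_of_le_rr [HasPrincipalDivisors K F]
    (hres : ∀ v : Place K F, Function.Bijective (algebraMap K v.ResidueField))
    (M : Submodule K F) (hM : M ≠ ⊥) [Module.Finite K M] {D : Divisor K F}
    (hD : M ≤ riemannRochSpace D) : dv M ≤ D :=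
  (dv_isLeast hres M hM).2 hD

theorem dv_eq_of_isLeast {M : Submodule K F} {D : Divisor K F} (hD : IsLeast (bounds M) D) :
    dv M = D := by
  have h : ∃ D : Divisor K F, IsLeast (bounds M) D := ⟨D, hD⟩
  rw [dv, dif_pos h]
  exact h.choose_spec.unique hD

theorem degree_dv_nonneg [HasPrincipalDivisors K F]
    (hres : ∀ v : Place K F, Function.Bijective (algebraMap K v.ResidueField))
    (M : Submodule K F) (hM : M ≠ ⊥) [Module.Finite K M] : 0 ≤ Divisor.degree (dv M) :=
  degree_nonneg_of_mem_bounds hM (dv_isLeast hres M hM).1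

theorem dv_mono [HasPrincipalDivisors K F]
    (hres : ∀ v : Place K F, Function.Bijective (algebraMap K v.ResidueField))
    {M M' : Submodule K F} (hM : M ≠ ⊥) [Module.Finite K M] (hM' : M' ≠ ⊥)
    [Module.Finite K M'] (h : M ≤ M') : dv M ≤ dv M' :=
  dv_le_of_le_rr hres M hM (h.trans (le_rr_dv hres M' hM'))

/-! ### The coefficient is attained -/

theorem exists_ord_eq_neg_of_isLeast {M : Submodule K F} {D : Divisor K F}
    (hD : IsLeast (bounds M) D) (Q : Place K F) :
    ∃ w ∈ M, w ≠ 0 ∧ Q.ord w = -D Q := by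
  classical
  by_contra hcon
  push Not at hcon
  have hb : D - Finsupp.single Q 1 ∈ bounds M := by
    intro w hw
    have hwD := hD.1 hw
    rw [mem_riemannRochSpace_iff] at hwD ⊢
    intro v
    rcases eq_or_ne w 0 with rfl | hw0
    · exact Or.inl rfl
    right
    have h1 := (hwD v).resolve_left hw0
    rw [Finsupp.sub_apply]
    by_cases hv : v = Q
    · subst hv
      rw [Finsupp.single_eq_same]
      have h2 := hcon w hw hw0
      omega
    · rw [Finsupp.single_eq_of_ne hv]
      linarith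
  have h3 := hD.2 hb
  have h4 := Finsupp.le_def.mp h3 Q
  rw [Finsupp.sub_apply, Finsupp.single_eq_same] at h4
  linarith

theorem exists_ord_eq_neg_dv [HasPrincipalDivisors K F]
    (hres : ∀ v : Place K F, Function.Bijective (algebraMap K v.ResidueField))
    (M : Submodule K F) (hM : M ≠ ⊥) [Module.Finite K M] (Q : Place K F) :
    ∃ w ∈ M, w ≠ 0 ∧ Q.ord w = -(dv M) Q :=
  exists_ord_eq_neg_of_isLeast (dv_isLeast hres M hM) Q

/-- If `M · M' ⊆ M''` then `dv M + dv M' ≤ dv M''`. -/
theorem dv_add_le [HasPrincipalDivisors K F]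
    (hres : ∀ v : Place K F, Function.Bijective (algebraMap K v.ResidueField))
    {M M' M'' : Submodule K F} (hM : M ≠ ⊥) [Module.Finite K M] (hM' : M' ≠ ⊥)
    [Module.Finite K M'] (hM'' : M'' ≠ ⊥) [Module.Finite K M'']
    (hmul : ∀ w ∈ M, ∀ w' ∈ M', w * w' ∈ M'') : dv M + dv M' ≤ dv M'' := by
  rw [Finsupp.le_def]
  intro Q
  obtain ⟨w, hw, hw0, hwQ⟩ := exists_ord_eq_neg_dv hres M hM Q
  obtain ⟨w', hw', hw'0, hw'Q⟩ := exists_ord_eq_neg_dv hres M' hM' Q
  have h1 := le_rr_dv hres M'' hM'' (hmul w hw w' hw')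
  rw [mem_riemannRochSpace_iff] at h1
  have h2 := (h1 Q).resolve_left (mul_ne_zero hw0 hw'0)
  rw [Q.ord_mul hw0 hw'0, hwQ, hw'Q] at h2
  rw [Finsupp.add_apply]
  linarith

end Fermat.Agent.DEU


end ZBES_020_5

/-! ### bundled: `Fermat.Agent.DEU.Rho` -/
section ZBES_020_6

/-!
# DEU — the reduction `ρ 𝔞 = dv (reduction of L(𝔞))` of a divisor

Basic properties: `ρ 𝔞 + ρ 𝔟 ≤ ρ (𝔞 + 𝔟)`, monotonicity, `ρ (𝔞 + div u) = ρ 𝔞 + div ū`.
-/

set_option autoImplicit false

open AlgebraicCurve Module

namespace Fermat.Agent.DEU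

open Fermat.Agent.ES.R

variable {K F k Fb : Type*} [Field K] [Field F] [Algebra K F] [Field k] [Field Fb] [Algebra k Fb]

/-! ### Generic facts on `L(𝔞)` -/

theorem rr_mul_mem {𝔞 𝔟 : Divisor K F} {f f' : F} (hf : f ∈ riemannRochSpace 𝔞)
    (hf' : f' ∈ riemannRochSpace 𝔟) : f * f' ∈ riemannRochSpace (𝔞 + 𝔟) := by
  rw [mem_riemannRochSpace_iff] at hf hf' ⊢
  intro v
  rcases eq_or_ne f 0 with rfl | h0
  · left; simp
  rcases eq_or_ne f' 0 with rfl | h0'
  · left; simp
  right
  have h1 := (hf v).resolve_left h0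
  have h2 := (hf' v).resolve_left h0'
  rw [v.ord_mul h0 h0', Finsupp.add_apply]
  linarith

/-- `f ∈ L(𝔞 + div u) ↔ f u ∈ L(𝔞)`. -/
theorem mem_rr_add_div {𝔞 Z : Divisor K F} {u : F} (hu : u ≠ 0)
    (hZ : ∀ v : Place K F, Z v = v.ord u) {f : F} :
    f ∈ riemannRochSpace (𝔞 + Z) ↔ f * u ∈ riemannRochSpace 𝔞 := by
  rw [mem_riemannRochSpace_iff, mem_riemannRochSpace_iff]
  refine forall_congr' fun v => ?_
  rcases eq_or_ne f 0 with rfl | h0
  · simp
  have h1 : f * u ≠ 0 := mul_ne_zero h0 hu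
  simp only [h0, h1, false_or]
  rw [v.ord_mul h0 hu, Finsupp.add_apply, hZ v]
  constructor <;> intro h <;> linarith

/-- `f ∈ L(𝔞 - div u) ↔ f / u ∈ L(𝔞)` in the form with an inverse. -/
theorem mem_rr_add_div_inv {𝔞 Z : Divisor K F} {u : F} (hu : u ≠ 0)
    (hZ : ∀ v : Place K F, Z v = v.ord u) {f : F} (hf : f ∈ riemannRochSpace 𝔞) :
    f * u⁻¹ ∈ riemannRochSpace (𝔞 + Z) := by
  rw [mem_rr_add_div hu hZ, mul_assoc, inv_mul_cancel₀ hu, mul_one]
  exact hf

namespace RedData

variable (R : RedData K F k Fb)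

/-- The reduction of a divisor `𝔞`: the least divisor `𝔟` of `Fb` such that the reduction of
`L(𝔞)` lies in `L(𝔟)`. -/
noncomputable def rho (𝔞 : Divisor K F) : Divisor k Fb := dv (R.redSpace (riemannRochSpace 𝔞))

variable (hresF : ∀ v : Place K F, Function.Bijective (algebraMap K v.ResidueField))
  (hresk : ∀ v : Place k Fb, Function.Bijective (algebraMap k v.ResidueField))
  [HasPrincipalDivisors K F] [HasPrincipalDivisors k Fb] (P₀ : Place K F)

omit [HasPrincipalDivisors k Fb] in
include hresF P₀ in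
theorem finite_redSpace_rr (𝔞 : Divisor K F) :
    Module.Finite k ↥(R.redSpace (riemannRochSpace 𝔞)) := by
  have := rr_finite P₀ hresF 𝔞
  infer_instance

include hresF hresk P₀ in
theorem redSpace_rr_le_rr_rho {𝔞 : Divisor K F} (h𝔞 : riemannRochSpace 𝔞 ≠ ⊥) :
    R.redSpace (riemannRochSpace 𝔞) ≤ riemannRochSpace (R.rho 𝔞) := by
  have := R.finite_redSpace_rr hresF P₀ 𝔞
  exact le_rr_dv hresk _ (R.redSpace_ne_bot h𝔞)

include hresF hresk P₀ in
theorem rho_le_of_le_rr {𝔞 : Divisor K F} (h𝔞 : riemannRochSpace 𝔞 ≠ ⊥) {𝔟 : Divisor k Fb}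
    (h : R.redSpace (riemannRochSpace 𝔞) ≤ riemannRochSpace 𝔟) : R.rho 𝔞 ≤ 𝔟 := by
  have := R.finite_redSpace_rr hresF P₀ 𝔞
  exact dv_le_of_le_rr hresk _ (R.redSpace_ne_bot h𝔞) h

include hresF hresk P₀ in
theorem degree_rho_nonneg {𝔞 : Divisor K F} (h𝔞 : riemannRochSpace 𝔞 ≠ ⊥) :
    0 ≤ Divisor.degree (R.rho 𝔞) := by
  have := R.finite_redSpace_rr hresF P₀ 𝔞
  exact degree_dv_nonneg hresk _ (R.redSpace_ne_bot h𝔞)

include hresF hresk P₀ in
theorem rho_mono {𝔞 𝔟 : Divisor K F} (h𝔞 : riemannRochSpace 𝔞 ≠ ⊥) (h : 𝔞 ≤ 𝔟) :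
    R.rho 𝔞 ≤ R.rho 𝔟 := by
  have h𝔟 : riemannRochSpace 𝔟 ≠ ⊥ := fun hb => h𝔞 (eq_bot_iff.mpr (hb ▸ rr_mono h))
  have := R.finite_redSpace_rr hresF P₀ 𝔞
  have := R.finite_redSpace_rr hresF P₀ 𝔟
  exact dv_mono hresk (R.redSpace_ne_bot h𝔞) (R.redSpace_ne_bot h𝔟)
    (R.redSpace_mono (rr_mono h))

include hresF hresk P₀ in
/-- `ρ 𝔞 + ρ 𝔟 ≤ ρ (𝔞 + 𝔟)`. -/
theorem rho_add_le {𝔞 𝔟 : Divisor K F} (h𝔞 : riemannRochSpace 𝔞 ≠ ⊥)
    (h𝔟 : riemannRochSpace 𝔟 ≠ ⊥) : R.rho 𝔞 + R.rho 𝔟 ≤ R.rho (𝔞 + 𝔟) := by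
  have h𝔞𝔟 : riemannRochSpace (𝔞 + 𝔟) ≠ ⊥ := by
    obtain ⟨f, hf, hf0⟩ := (Submodule.ne_bot_iff _).mp h𝔞
    obtain ⟨f', hf', hf'0⟩ := (Submodule.ne_bot_iff _).mp h𝔟
    exact (Submodule.ne_bot_iff _).mpr ⟨f * f', rr_mul_mem hf hf', mul_ne_zero hf0 hf'0⟩
  have := R.finite_redSpace_rr hresF P₀ 𝔞
  have := R.finite_redSpace_rr hresF P₀ 𝔟
  have := R.finite_redSpace_rr hresF P₀ (𝔞 + 𝔟)
  refine dv_add_le hresk (R.redSpace_ne_bot h𝔞) (R.redSpace_ne_bot h𝔟)
    (R.redSpace_ne_bot h𝔞𝔟) ?_
  rintro _ ⟨f, hf, rfl⟩ _ ⟨f', hf', rfl⟩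
  refine ⟨f * f', ?_, map_mul _ _ _⟩
  rw [Subring.coe_mul]
  exact rr_mul_mem hf hf'

include hresF hresk P₀ in
/-- `ρ (𝔞 + div u) = ρ 𝔞 + div ū` for `u ∈ O` with nonzero reduction. -/
theorem rho_add_principal {𝔞 : Divisor K F} (h𝔞 : riemannRochSpace 𝔞 ≠ ⊥)
    (u : R.O) (hu : R.red u ≠ 0) {Z : Divisor K F} (hZ : ∀ v : Place K F, Z v = v.ord (u : F))
    {Z' : Divisor k Fb} (hZ' : ∀ v : Place k Fb, Z' v = v.ord (R.red u)) :
    R.rho (𝔞 + Z) = R.rho 𝔞 + Z' := by
  have hu0 : (u : F) ≠ 0 := R.coe_ne_zero_of_red_ne_zero hu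
  have := R.finite_redSpace_rr hresF P₀ 𝔞
  have hne := R.redSpace_ne_bot (k := k) (Fb := Fb) h𝔞
  have hleast := dv_isLeast hresk _ hne
  -- membership transfer
  have key : ∀ w : Fb, w ∈ R.redSpace (riemannRochSpace (𝔞 + Z)) ↔
      w * R.red u ∈ R.redSpace (riemannRochSpace 𝔞) := by
    intro w
    constructor
    · rintro ⟨f, hf, rfl⟩
      refine ⟨f * u, ?_, map_mul _ _ _⟩
      rw [Subring.coe_mul]
      exact (mem_rr_add_div hu0 hZ).mp hf
    · rintro ⟨f, hf, hfw⟩
      refine ⟨f * R.inv u hu, ?_, ?_⟩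
      · rw [Subring.coe_mul, R.coe_inv]
        exact mem_rr_add_div_inv hu0 hZ hf
      · rw [map_mul, R.red_inv, hfw, mul_assoc, mul_inv_cancel₀ hu, mul_one]
  have hb : ∀ D : Divisor k Fb, D ∈ bounds (R.redSpace (riemannRochSpace (𝔞 + Z))) ↔
      D - Z' ∈ bounds (R.redSpace (riemannRochSpace 𝔞)) := by
    intro D
    constructor
    · intro hD w hw
      have h1 : w * (R.red u)⁻¹ ∈ R.redSpace (riemannRochSpace (𝔞 + Z)) := by
        rw [key, mul_assoc, inv_mul_cancel₀ hu, mul_one]
        exact hw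
      have h2 := hD h1
      have h3 : w * (R.red u)⁻¹ * R.red u ∈ riemannRochSpace (D - Z') := by
        have hZn : ∀ v : Place k Fb, (-Z') v = v.ord (R.red u)⁻¹ := by
          intro v
          rw [Finsupp.neg_apply, hZ' v, v.ord_inv]
        have := mem_rr_add_div_inv (inv_ne_zero hu) hZn h2
        rwa [inv_inv, ← sub_eq_add_neg] at this
      rwa [mul_assoc, inv_mul_cancel₀ hu, mul_one] at h3
    · intro hD w hw
      have h1 := hD ((key w).mp hw)
      have h2 := mem_rr_add_div_inv hu hZ' h1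
      rwa [mul_assoc, mul_inv_cancel₀ hu, mul_one, sub_add_cancel] at h2
  refine dv_eq_of_isLeast ⟨?_, ?_⟩
  · rw [hb, add_sub_cancel_right]
    exact hleast.1
  · intro D hD
    have := hleast.2 ((hb D).mp hD)
    exact le_sub_iff_add_le.mp this

end RedData

end Fermat.Agent.DEU


end ZBES_020_6

/-! ### bundled: `Fermat.Agent.DEU.Main1` -/
section ZBES_020_7

/-!
# DEU — Deuring's dimension count, part 1: Riemann's theorem on the residue side

Hypotheses `Hyp` : Riemann's inequality for `F` with constant `g`, orthonormal bases (`q2`),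
the anchor `red (L(m·Pinf)) ⊆ L̄(m·Qinf)` and ONE bound `dim L̄(n₀·Qinf) ≤ n₀ + 1 − g`.
Conclusions of this file:

* `finrank_redSpace_rr` : `dim red(L(𝔞)) = dim L(𝔞)`;
* `riemann_lower_res` : Riemann's inequality for `Fb` with the same `g`;
* `riemann_upper_res` : `dim L̄(𝔟) ≤ deg 𝔟 + 1 − g` for `deg 𝔟 ≥ n₀ + g`;
* `degree_le_degree_rho` : `deg 𝔞 ≤ deg ρ(𝔞)` for `deg 𝔞 ≥ n₀ + 2g`.
-/

set_option autoImplicit false

open AlgebraicCurve Module

namespace Fermat.Agent.DEU

open Fermat.Agent.ES.R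

variable {K F k Fb : Type*} [Field K] [Field F] [Algebra K F] [Field k] [Field Fb] [Algebra k Fb]

/-- The multiple `m · P` of a place, as a divisor. -/
noncomputable def mulPlace (P : Place K F) (m : ℤ) : Divisor K F := Finsupp.single P m

@[simp] theorem degree_mulPlace
    (hres : ∀ v : Place K F, Function.Bijective (algebraMap K v.ResidueField))
    (P : Place K F) (m : ℤ) : Divisor.degree (mulPlace P m) = m := by
  rw [mulPlace, Divisor.degree_single, place_deg_eq_one P (hres P)]
  simp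

theorem mulPlace_add (P : Place K F) (m n : ℤ) :
    mulPlace P (m + n) = mulPlace P m + mulPlace P n := by
  rw [mulPlace, mulPlace, mulPlace, Finsupp.single_add]

/-- The hypotheses of Deuring's dimension count. -/
structure Hyp (R : RedData K F k Fb) (Pinf : Place K F) (Qinf : Place k Fb) (g n₀ : ℕ) : Prop where
  hresF : ∀ v : Place K F, Function.Bijective (algebraMap K v.ResidueField)
  hresk : ∀ v : Place k Fb, Function.Bijective (algebraMap k v.ResidueField)
  hpdF : HasPrincipalDivisors K F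
  hpdk : HasPrincipalDivisors k Fb
  riemann : ∀ 𝔞 : Divisor K F,
    Divisor.degree 𝔞 + 1 - g ≤ (finrank K ↥(riemannRochSpace 𝔞) : ℤ)
  q2 : ∀ V : Submodule K F, Module.Finite K V → finrank K V ≤ finrank k ↥(R.redSpace V)
  anchor : ∀ m : ℕ, R.redSpace (riemannRochSpace (mulPlace Pinf m)) ≤
    riemannRochSpace (mulPlace Qinf m)
  bound : (finrank k ↥(riemannRochSpace (mulPlace Qinf n₀)) : ℤ) + g ≤ n₀ + 1

/-! ### Generic: `dim L(B) ≤ deg B + 1` -/

theorem rr_finrank_le_degree_add_one [HasPrincipalDivisors K F]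
    (hres : ∀ v : Place K F, Function.Bijective (algebraMap K v.ResidueField))
    (P₀ : Place K F) (B : Divisor K F) (hB : 0 ≤ Divisor.degree B + 1) :
    (finrank K ↥(riemannRochSpace B) : ℤ) ≤ Divisor.degree B + 1 := by
  set A : Divisor K F := B - mulPlace P₀ (Divisor.degree B + 1) with hA
  have hAB : A ≤ B := by
    rw [hA, sub_le_self_iff, mulPlace]
    intro v
    by_cases hv : v = P₀
    · subst hv; simpa using hB
    · rw [Finsupp.single_eq_of_ne hv]; simp
  have hdegA : Divisor.degree A = -1 := by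
    rw [hA, map_sub, degree_mulPlace hres]; ring
  have hbot : riemannRochSpace A = ⊥ := rr_eq_bot_of_degree_neg (by rw [hdegA]; norm_num)
  have h1 := rr_finrank_le hres hAB
  rw [hbot, finrank_bot, hdegA] at h1
  push_cast at h1
  linarith

theorem rr_ne_bot_of_finrank_pos {D : Divisor K F}
    (h : 0 < finrank K ↥(riemannRochSpace D)) : riemannRochSpace D ≠ ⊥ := by
  intro hb
  rw [hb, finrank_bot] at h
  exact lt_irrefl _ h

namespace Hyp

variable {R : RedData K F k Fb} {Pinf : Place K F} {Qinf : Place k Fb} {g n₀ : ℕ}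
  (H : Hyp R Pinf Qinf g n₀)

include H

theorem finite_rr (𝔞 : Divisor K F) : Module.Finite K ↥(riemannRochSpace 𝔞) :=
  have := H.hpdF
  rr_finite Pinf H.hresF 𝔞

theorem finite_rr_res (𝔟 : Divisor k Fb) : Module.Finite k ↥(riemannRochSpace 𝔟) :=
  have := H.hpdk
  rr_finite Qinf H.hresk 𝔟

/-- `dim red(L(𝔞)) = dim L(𝔞)`. -/
theorem finrank_redSpace_rr (𝔞 : Divisor K F) :
    finrank k ↥(R.redSpace (riemannRochSpace 𝔞)) = finrank K ↥(riemannRochSpace 𝔞) := by
  have := H.finite_rr 𝔞
  exact le_antisymm (R.finrank_redSpace_le _) (H.q2 _ inferInstance)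

theorem rr_ne_bot_of_degree {𝔞 : Divisor K F} (h : (g : ℤ) ≤ Divisor.degree 𝔞) :
    riemannRochSpace 𝔞 ≠ ⊥ := by
  refine rr_ne_bot_of_finrank_pos ?_
  have := H.riemann 𝔞
  have h2 : (0 : ℤ) < (finrank K ↥(riemannRochSpace 𝔞) : ℤ) := by linarith
  exact_mod_cast h2

/-- `dim L(𝔞) ≤ dim L̄(ρ 𝔞)`. -/
theorem finrank_rr_le_rho {𝔞 : Divisor K F} (h𝔞 : riemannRochSpace 𝔞 ≠ ⊥) :
    finrank K ↥(riemannRochSpace 𝔞) ≤ finrank k ↥(riemannRochSpace (R.rho 𝔞)) := by
  have := H.hpdF
  have := H.hpdk
  have := H.finite_rr_res (R.rho 𝔞)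
  rw [← H.finrank_redSpace_rr 𝔞]
  exact Submodule.finrank_mono (R.redSpace_rr_le_rr_rho H.hresF H.hresk Pinf h𝔞)

/-- The anchor: `ρ (m·Pinf) ≤ m·Qinf`. -/
theorem rho_mulPlace_le (m : ℕ) (hm : g ≤ m) : R.rho (mulPlace Pinf m) ≤ mulPlace Qinf m := by
  have := H.hpdF
  have := H.hpdk
  refine R.rho_le_of_le_rr H.hresF H.hresk Pinf (H.rr_ne_bot_of_degree ?_) (H.anchor m)
  rw [degree_mulPlace H.hresF]
  exact_mod_cast hm

/-- **Riemann's inequality on the residue side, with the same `g`.** -/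
theorem riemann_lower_res (𝔟 : Divisor k Fb) :
    Divisor.degree 𝔟 + 1 - g ≤ (finrank k ↥(riemannRochSpace 𝔟) : ℤ) := by
  have := H.hpdF
  have := H.hpdk
  refine riemann_transfer H.hresk g (fun M => ?_) 𝔟
  -- `B = ρ (m·Pinf)`, `m = max (M + g) g`
  set m : ℕ := (M + g).toNat + g with hm
  have hmg : g ≤ m := Nat.le_add_left _ _
  have hmM : M + g ≤ m := by
    have := Int.self_le_toNat (M + g)
    rw [hm]; push_cast; linarith
  have hne : riemannRochSpace (mulPlace Pinf (m : ℤ)) ≠ ⊥ := by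
    refine H.rr_ne_bot_of_degree ?_
    rw [degree_mulPlace H.hresF]; exact_mod_cast hmg
  have h1 := H.rho_mulPlace_le m hmg
  have hdeg : Divisor.degree (R.rho (mulPlace Pinf (m : ℤ))) ≤ m := by
    have := degree_mono h1
    rwa [degree_mulPlace H.hresk] at this
  have h2 := H.riemann (mulPlace Pinf (m : ℤ))
  rw [degree_mulPlace H.hresF] at h2
  have h3 : (finrank K ↥(riemannRochSpace (mulPlace Pinf (m : ℤ))) : ℤ) ≤
      finrank k ↥(riemannRochSpace (R.rho (mulPlace Pinf (m : ℤ)))) := by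
    exact_mod_cast H.finrank_rr_le_rho hne
  have h0 := R.degree_rho_nonneg H.hresF H.hresk Pinf hne
  have h4 := rr_finrank_le_degree_add_one H.hresk Qinf (R.rho (mulPlace Pinf (m : ℤ)))
    (by linarith)
  refine ⟨R.rho (mulPlace Pinf (m : ℤ)), ?_, ?_⟩
  · linarith
  · linarith

/-- **The upper bound on the residue side**: `dim L̄(𝔟) ≤ deg 𝔟 + 1 − g` for
`deg 𝔟 ≥ n₀ + g`. -/
theorem riemann_upper_res (𝔟 : Divisor k Fb) (h𝔟 : (n₀ : ℤ) + g ≤ Divisor.degree 𝔟) :
    (finrank k ↥(riemannRochSpace 𝔟) : ℤ) ≤ Divisor.degree 𝔟 + 1 - g := by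
  have := H.hpdk
  -- a nonzero element of `L̄(𝔟 - n₀ Qinf)`
  have h1 := H.riemann_lower_res (𝔟 - mulPlace Qinf n₀)
  rw [map_sub, degree_mulPlace H.hresk] at h1
  have hpos : 0 < finrank k ↥(riemannRochSpace (𝔟 - mulPlace Qinf n₀)) := by
    have : (0 : ℤ) < finrank k ↥(riemannRochSpace (𝔟 - mulPlace Qinf n₀)) := by linarith
    exact_mod_cast this
  obtain ⟨h, hh, hh0⟩ := (Submodule.ne_bot_iff _).mp (rr_ne_bot_of_finrank_pos hpos)
  obtain ⟨Z, hZ, hZdeg⟩ := HasPrincipalDivisors.exists_divisor (K := k) h hh0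
  -- `𝔟' = 𝔟 + div h ≥ n₀ Qinf`
  have hle : mulPlace Qinf n₀ ≤ 𝔟 + Z := by
    rw [Finsupp.le_def]
    intro v
    rw [mem_riemannRochSpace_iff] at hh
    have := (hh v).resolve_left hh0
    rw [Finsupp.sub_apply] at this
    rw [Finsupp.add_apply, hZ v]
    linarith
  have h2 := rr_finrank_le H.hresk hle
  rw [map_add, hZdeg, add_zero, degree_mulPlace H.hresk] at h2
  have h3 : finrank k ↥(riemannRochSpace (𝔟 + Z)) = finrank k ↥(riemannRochSpace 𝔟) := by
    refine rr_finrank_eq_of_principal (z := h⁻¹) (inv_ne_zero hh0) (fun v => ?_)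
    rw [Finsupp.add_apply, hZ v, v.ord_inv]
    ring
  rw [h3] at h2
  have h4 := H.bound
  linarith

/-- **The lower bound**: `deg 𝔞 ≤ deg ρ(𝔞)` for `deg 𝔞 ≥ n₀ + 2g`. -/
theorem degree_le_degree_rho (𝔞 : Divisor K F) (h𝔞 : (n₀ : ℤ) + 2 * g ≤ Divisor.degree 𝔞) :
    Divisor.degree 𝔞 ≤ Divisor.degree (R.rho 𝔞) := by
  have := H.hpdF
  have := H.hpdk
  have hne : riemannRochSpace 𝔞 ≠ ⊥ := H.rr_ne_bot_of_degree (by linarith)
  have h1 := H.riemann 𝔞
  have h2 : (finrank K ↥(riemannRochSpace 𝔞) : ℤ) ≤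
      finrank k ↥(riemannRochSpace (R.rho 𝔞)) := by
    exact_mod_cast H.finrank_rr_le_rho hne
  have h0 := R.degree_rho_nonneg H.hresF H.hresk Pinf hne
  by_cases hbig : (n₀ : ℤ) + g ≤ Divisor.degree (R.rho 𝔞)
  · have h3 := H.riemann_upper_res (R.rho 𝔞) hbig
    linarith
  · push Not at hbig
    have h3 := rr_finrank_le_degree_add_one H.hresk Qinf (R.rho 𝔞) (by linarith)
    linarith

end Hyp

end Fermat.Agent.DEU


end ZBES_020_7

/-! ### bundled: `Fermat.Agent.DEU.Main2` -/
section ZBES_020_8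

/-!
# DEU — Deuring's dimension count, part 2: additivity and the homomorphism `ρ̃`

* `degree_rho` : `deg ρ(𝔞) = deg 𝔞` for `deg 𝔞 ≥ n₀ + 2g`;
* `rho_add` : `ρ(𝔞 + 𝔟) = ρ(𝔞) + ρ(𝔟)` for `deg 𝔞, deg 𝔟 ≥ n₀ + 2g`;
* `rhoExt` : the extension `ρ̃(𝔡) = ρ(𝔡 + c·P∞) − ρ(c·P∞)` to all divisors; it is additive,
  degree preserving, monotone, equal to `ρ` in large degree, and `ρ̃(div u) = div(ū)`.
-/

set_option autoImplicit false

open AlgebraicCurve Module

namespace Fermat.Agent.DEU

open Fermat.Agent.ES.R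

variable {K F k Fb : Type*} [Field K] [Field F] [Algebra K F] [Field k] [Field Fb] [Algebra k Fb]

namespace RedData

variable (R : RedData K F k Fb)

/-- The shift used in the definition of `rhoExt`. -/
noncomputable def shift (d₀ : ℕ) (𝔡 : Divisor K F) : ℕ := d₀ + (Divisor.degree 𝔡).natAbs

/-- The extension of `ρ` to all divisors. -/
noncomputable def rhoExt (Pinf : Place K F) (d₀ : ℕ) (𝔡 : Divisor K F) : Divisor k Fb :=
  R.rho (𝔡 + mulPlace Pinf (shift d₀ 𝔡)) - R.rho (mulPlace Pinf (shift d₀ 𝔡))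

end RedData

theorem shift_ge (d₀ : ℕ) (𝔡 : Divisor K F) : (d₀ : ℤ) ≤ RedData.shift d₀ 𝔡 := by
  rw [RedData.shift]; push_cast; linarith [abs_nonneg (Divisor.degree 𝔡)]

theorem shift_ge' (d₀ : ℕ) (𝔡 : Divisor K F) :
    (d₀ : ℤ) ≤ Divisor.degree 𝔡 + RedData.shift d₀ 𝔡 := by
  rw [RedData.shift]; push_cast
  have := neg_abs_le (Divisor.degree 𝔡)
  linarith

namespace Hyp

variable {R : RedData K F k Fb} {Pinf : Place K F} {Qinf : Place k Fb} {g n₀ : ℕ}
  (H : Hyp R Pinf Qinf g n₀)

include H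

/-- `deg ρ(𝔞) = deg 𝔞` in large degree. -/
theorem degree_rho (𝔞 : Divisor K F) (h𝔞 : (n₀ : ℤ) + 2 * g ≤ Divisor.degree 𝔞) :
    Divisor.degree (R.rho 𝔞) = Divisor.degree 𝔞 := by
  have := H.hpdF
  have := H.hpdk
  refine le_antisymm ?_ (H.degree_le_degree_rho 𝔞 h𝔞)
  set m : ℕ := (Divisor.degree 𝔞 + n₀ + 2 * g).toNat + g with hm
  have hmg : g ≤ m := Nat.le_add_left _ _
  have hm1 : Divisor.degree 𝔞 + n₀ + 2 * g ≤ m := by
    have := Int.self_le_toNat (Divisor.degree 𝔞 + n₀ + 2 * g)
    rw [hm]; push_cast; linarith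
  set 𝔟 : Divisor K F := mulPlace Pinf m - 𝔞 with h𝔟
  have hdeg𝔟 : Divisor.degree 𝔟 = m - Divisor.degree 𝔞 := by
    rw [h𝔟, map_sub, degree_mulPlace H.hresF]
  have h𝔟big : (n₀ : ℤ) + 2 * g ≤ Divisor.degree 𝔟 := by rw [hdeg𝔟]; linarith
  have hne𝔞 : riemannRochSpace 𝔞 ≠ ⊥ := H.rr_ne_bot_of_degree (by linarith)
  have hne𝔟 : riemannRochSpace 𝔟 ≠ ⊥ := H.rr_ne_bot_of_degree (by linarith)
  have h1 := R.rho_add_le H.hresF H.hresk Pinf hne𝔞 hne𝔟
  have h2 : 𝔞 + 𝔟 = mulPlace Pinf m := by rw [h𝔟]; abel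
  rw [h2] at h1
  have h3 := h1.trans (H.rho_mulPlace_le m hmg)
  have h4 := degree_mono h3
  rw [map_add, degree_mulPlace H.hresk] at h4
  have h5 := H.degree_le_degree_rho 𝔟 h𝔟big
  linarith

/-- `ρ` is additive in large degree. -/
theorem rho_add (𝔞 𝔟 : Divisor K F) (h𝔞 : (n₀ : ℤ) + 2 * g ≤ Divisor.degree 𝔞)
    (h𝔟 : (n₀ : ℤ) + 2 * g ≤ Divisor.degree 𝔟) : R.rho (𝔞 + 𝔟) = R.rho 𝔞 + R.rho 𝔟 := by
  have := H.hpdF
  have := H.hpdk
  have hne𝔞 : riemannRochSpace 𝔞 ≠ ⊥ := H.rr_ne_bot_of_degree (by linarith)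
  have hne𝔟 : riemannRochSpace 𝔟 ≠ ⊥ := H.rr_ne_bot_of_degree (by linarith)
  have h1 := R.rho_add_le H.hresF H.hresk Pinf hne𝔞 hne𝔟
  have hsum : (n₀ : ℤ) + 2 * g ≤ Divisor.degree (𝔞 + 𝔟) := by
    rw [map_add]; linarith
  refine (dv_eq_of_le_of_degree_le H.hresk h1 ?_).symm
  rw [H.degree_rho _ hsum, map_add, map_add, H.degree_rho _ h𝔞, H.degree_rho _ h𝔟]

/-- Independence of the shift. -/
theorem rhoExt_eq (𝔡 : Divisor K F) (c : ℕ) (hc : (n₀ : ℤ) + 2 * g ≤ c)
    (hc' : (n₀ : ℤ) + 2 * g ≤ Divisor.degree 𝔡 + c) :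
    R.rhoExt Pinf (n₀ + 2 * g) 𝔡 = R.rho (𝔡 + mulPlace Pinf c) - R.rho (mulPlace Pinf c) := by
  set c' : ℕ := RedData.shift (n₀ + 2 * g) 𝔡 with hc'def
  have hs1 : (n₀ : ℤ) + 2 * g ≤ c' := by
    have := shift_ge (n₀ + 2 * g) 𝔡
    push_cast at this; exact this
  have hs2 : (n₀ : ℤ) + 2 * g ≤ Divisor.degree 𝔡 + c' := by
    have := shift_ge' (n₀ + 2 * g) 𝔡
    push_cast at this; exact this
  have hd1 : (n₀ : ℤ) + 2 * g ≤ Divisor.degree (𝔡 + mulPlace Pinf c) := by
    rw [map_add, degree_mulPlace H.hresF]; exact hc'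
  have hd2 : (n₀ : ℤ) + 2 * g ≤ Divisor.degree (𝔡 + mulPlace Pinf c') := by
    rw [map_add, degree_mulPlace H.hresF]; exact hs2
  have hd3 : (n₀ : ℤ) + 2 * g ≤ Divisor.degree (mulPlace Pinf (c : ℤ)) := by
    rw [degree_mulPlace H.hresF]; exact hc
  have hd4 : (n₀ : ℤ) + 2 * g ≤ Divisor.degree (mulPlace Pinf (c' : ℤ)) := by
    rw [degree_mulPlace H.hresF]; exact hs1
  have e1 := H.rho_add _ _ hd1 hd4
  have e2 := H.rho_add _ _ hd2 hd3
  have e3 : 𝔡 + mulPlace Pinf (c : ℤ) + mulPlace Pinf (c' : ℤ) =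
      𝔡 + mulPlace Pinf (c' : ℤ) + mulPlace Pinf (c : ℤ) := by abel
  rw [e3, e2] at e1
  rw [RedData.rhoExt, ← hc'def]
  rw [sub_eq_sub_iff_add_eq_add]
  exact e1

/-- `ρ̃` is additive. -/
theorem rhoExt_add (𝔡 𝔡' : Divisor K F) :
    R.rhoExt Pinf (n₀ + 2 * g) (𝔡 + 𝔡') =
      R.rhoExt Pinf (n₀ + 2 * g) 𝔡 + R.rhoExt Pinf (n₀ + 2 * g) 𝔡' := by
  set c : ℕ := RedData.shift (n₀ + 2 * g) 𝔡 with hc
  set c' : ℕ := RedData.shift (n₀ + 2 * g) 𝔡' with hc'
  have hs1 : (n₀ : ℤ) + 2 * g ≤ c := by
    have := shift_ge (n₀ + 2 * g) 𝔡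
    push_cast at this; exact this
  have hs2 : (n₀ : ℤ) + 2 * g ≤ Divisor.degree 𝔡 + c := by
    have := shift_ge' (n₀ + 2 * g) 𝔡
    push_cast at this; exact this
  have hs1' : (n₀ : ℤ) + 2 * g ≤ c' := by
    have := shift_ge (n₀ + 2 * g) 𝔡'
    push_cast at this; exact this
  have hs2' : (n₀ : ℤ) + 2 * g ≤ Divisor.degree 𝔡' + c' := by
    have := shift_ge' (n₀ + 2 * g) 𝔡'
    push_cast at this; exact this
  have hpos : (0 : ℤ) ≤ (n₀ : ℤ) + 2 * g := by positivity
  rw [H.rhoExt_eq (𝔡 + 𝔡') (c + c') (by push_cast; linarith)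
    (by rw [map_add]; push_cast; linarith)]
  have hd1 : (n₀ : ℤ) + 2 * g ≤ Divisor.degree (𝔡 + mulPlace Pinf c) := by
    rw [map_add, degree_mulPlace H.hresF]; exact hs2
  have hd2 : (n₀ : ℤ) + 2 * g ≤ Divisor.degree (𝔡' + mulPlace Pinf c') := by
    rw [map_add, degree_mulPlace H.hresF]; exact hs2'
  have hd3 : (n₀ : ℤ) + 2 * g ≤ Divisor.degree (mulPlace Pinf (c : ℤ)) := by
    rw [degree_mulPlace H.hresF]; exact hs1
  have hd4 : (n₀ : ℤ) + 2 * g ≤ Divisor.degree (mulPlace Pinf (c' : ℤ)) := by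
    rw [degree_mulPlace H.hresF]; exact hs1'
  have e1 : 𝔡 + 𝔡' + mulPlace Pinf ((c + c' : ℕ) : ℤ) =
      (𝔡 + mulPlace Pinf (c : ℤ)) + (𝔡' + mulPlace Pinf (c' : ℤ)) := by
    push_cast
    rw [mulPlace_add]; abel
  have e2 : mulPlace Pinf ((c + c' : ℕ) : ℤ) = mulPlace Pinf (c : ℤ) + mulPlace Pinf (c' : ℤ) := by
    push_cast
    rw [mulPlace_add]
  rw [e1, e2, H.rho_add _ _ hd1 hd2, H.rho_add _ _ hd3 hd4, RedData.rhoExt, RedData.rhoExt,
    ← hc, ← hc']
  abel

/-- `ρ̃ = ρ` in large degree. -/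
theorem rhoExt_eq_rho (𝔞 : Divisor K F) (h𝔞 : (n₀ : ℤ) + 2 * g ≤ Divisor.degree 𝔞) :
    R.rhoExt Pinf (n₀ + 2 * g) 𝔞 = R.rho 𝔞 := by
  set c : ℕ := RedData.shift (n₀ + 2 * g) 𝔞 with hc
  have hs1 : (n₀ : ℤ) + 2 * g ≤ c := by
    have := shift_ge (n₀ + 2 * g) 𝔞
    push_cast at this; exact this
  have hd3 : (n₀ : ℤ) + 2 * g ≤ Divisor.degree (mulPlace Pinf (c : ℤ)) := by
    rw [degree_mulPlace H.hresF]; exact hs1
  rw [RedData.rhoExt, ← hc, H.rho_add _ _ h𝔞 hd3]
  abel

/-- `ρ̃` preserves degrees. -/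
theorem degree_rhoExt (𝔡 : Divisor K F) :
    Divisor.degree (R.rhoExt Pinf (n₀ + 2 * g) 𝔡) = Divisor.degree 𝔡 := by
  set c : ℕ := RedData.shift (n₀ + 2 * g) 𝔡 with hc
  have hs1 : (n₀ : ℤ) + 2 * g ≤ c := by
    have := shift_ge (n₀ + 2 * g) 𝔡
    push_cast at this; exact this
  have hs2 : (n₀ : ℤ) + 2 * g ≤ Divisor.degree 𝔡 + c := by
    have := shift_ge' (n₀ + 2 * g) 𝔡
    push_cast at this; exact this
  have hd1 : (n₀ : ℤ) + 2 * g ≤ Divisor.degree (𝔡 + mulPlace Pinf c) := by
    rw [map_add, degree_mulPlace H.hresF]; exact hs2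
  have hd3 : (n₀ : ℤ) + 2 * g ≤ Divisor.degree (mulPlace Pinf (c : ℤ)) := by
    rw [degree_mulPlace H.hresF]; exact hs1
  rw [RedData.rhoExt, ← hc, map_sub, H.degree_rho _ hd1, H.degree_rho _ hd3, map_add]
  ring

/-- `ρ̃` is monotone. -/
theorem rhoExt_mono {𝔡 𝔡' : Divisor K F} (h : 𝔡 ≤ 𝔡') :
    R.rhoExt Pinf (n₀ + 2 * g) 𝔡 ≤ R.rhoExt Pinf (n₀ + 2 * g) 𝔡' := by
  have := H.hpdF
  have := H.hpdk
  set c : ℕ := RedData.shift (n₀ + 2 * g) 𝔡 + RedData.shift (n₀ + 2 * g) 𝔡' with hc
  have hpos : (0 : ℤ) ≤ (n₀ : ℤ) + 2 * g := by positivity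
  have h1 := shift_ge (n₀ + 2 * g) 𝔡
  have h2 := shift_ge' (n₀ + 2 * g) 𝔡
  have h1' := shift_ge (n₀ + 2 * g) 𝔡'
  have h2' := shift_ge' (n₀ + 2 * g) 𝔡'
  push_cast at h1 h2 h1' h2'
  have hc1 : (n₀ : ℤ) + 2 * g ≤ c := by rw [hc]; push_cast; linarith
  have hc2 : (n₀ : ℤ) + 2 * g ≤ Divisor.degree 𝔡 + c := by rw [hc]; push_cast; linarith
  have hc2' : (n₀ : ℤ) + 2 * g ≤ Divisor.degree 𝔡' + c := by rw [hc]; push_cast; linarith
  rw [H.rhoExt_eq 𝔡 c hc1 hc2, H.rhoExt_eq 𝔡' c hc1 hc2']
  refine sub_le_sub_right ?_ _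
  refine R.rho_mono H.hresF H.hresk Pinf (H.rr_ne_bot_of_degree ?_) (add_le_add_left h _)
  rw [map_add, degree_mulPlace H.hresF]
  linarith

theorem rhoExt_zero : R.rhoExt Pinf (n₀ + 2 * g) (0 : Divisor K F) = 0 := by
  have h := H.rhoExt_add 0 0
  rw [add_zero] at h
  exact left_eq_add.mp h

theorem rhoExt_nonneg {𝔡 : Divisor K F} (h : 0 ≤ 𝔡) : 0 ≤ R.rhoExt Pinf (n₀ + 2 * g) 𝔡 := by
  have := H.rhoExt_mono h
  rwa [H.rhoExt_zero] at this

/-- `ρ̃ (div u) = div ū`. -/
theorem rhoExt_principal (u : R.O) (hu : R.red u ≠ 0) {Z : Divisor K F}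
    (hZ : ∀ v : Place K F, Z v = v.ord (u : F)) {Z' : Divisor k Fb}
    (hZ' : ∀ v : Place k Fb, Z' v = v.ord (R.red u)) :
    R.rhoExt Pinf (n₀ + 2 * g) Z = Z' := by
  have := H.hpdF
  have := H.hpdk
  set c : ℕ := RedData.shift (n₀ + 2 * g) Z with hc
  have hs1 : (n₀ : ℤ) + 2 * g ≤ c := by
    have := shift_ge (n₀ + 2 * g) Z
    push_cast at this; exact this
  have hne : riemannRochSpace (mulPlace Pinf (c : ℤ)) ≠ ⊥ := by
    refine H.rr_ne_bot_of_degree ?_
    rw [degree_mulPlace H.hresF]; linarith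
  rw [RedData.rhoExt, ← hc, add_comm Z, R.rho_add_principal H.hresF H.hresk Pinf hne u hu hZ hZ']
  abel

/-- `ρ ≤ ρ̃` wherever `ρ` is defined. -/
theorem rho_le_rhoExt {𝔡 : Divisor K F} (h𝔡 : riemannRochSpace 𝔡 ≠ ⊥) :
    R.rho 𝔡 ≤ R.rhoExt Pinf (n₀ + 2 * g) 𝔡 := by
  have := H.hpdF
  have := H.hpdk
  set c : ℕ := RedData.shift (n₀ + 2 * g) 𝔡 with hc
  have hs1 : (n₀ : ℤ) + 2 * g ≤ c := by
    have := shift_ge (n₀ + 2 * g) 𝔡
    push_cast at this; exact this
  have hne : riemannRochSpace (mulPlace Pinf (c : ℤ)) ≠ ⊥ := by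
    refine H.rr_ne_bot_of_degree ?_
    rw [degree_mulPlace H.hresF]; linarith
  rw [RedData.rhoExt, ← hc, le_sub_iff_add_le]
  exact R.rho_add_le H.hresF H.hresk Pinf h𝔡 hne

/-- The reduction of `L(𝔡)` lies in `L̄(ρ̃ 𝔡)`. -/
theorem redSpace_rr_le_rr_rhoExt (𝔡 : Divisor K F) :
    R.redSpace (riemannRochSpace 𝔡) ≤ riemannRochSpace (R.rhoExt Pinf (n₀ + 2 * g) 𝔡) := by
  have := H.hpdF
  have := H.hpdk
  by_cases h𝔡 : riemannRochSpace 𝔡 = ⊥
  · rintro _ ⟨f, hf, rfl⟩
    rw [h𝔡, Submodule.mem_bot] at hf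
    have : f = 0 := Subtype.ext hf
    rw [this, map_zero]
    exact zero_mem _
  · exact (R.redSpace_rr_le_rr_rho H.hresF H.hresk Pinf h𝔡).trans
      (rr_mono (H.rho_le_rhoExt h𝔡))

/-- **Semicontinuity.** -/
theorem finrank_rr_le_rhoExt (𝔡 : Divisor K F) :
    finrank K ↥(riemannRochSpace 𝔡) ≤
      finrank k ↥(riemannRochSpace (R.rhoExt Pinf (n₀ + 2 * g) 𝔡)) := by
  have := H.finite_rr_res (R.rhoExt Pinf (n₀ + 2 * g) 𝔡)
  rw [← H.finrank_redSpace_rr 𝔡]
  exact Submodule.finrank_mono (H.redSpace_rr_le_rr_rhoExt 𝔡)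

/-- **Lifting of sections** in large degree: the reduction of `L(𝔞)` is all of `L̄(ρ̃ 𝔞)`. -/
theorem redSpace_rr_eq (𝔞 : Divisor K F) (h𝔞 : (n₀ : ℤ) + 2 * g ≤ Divisor.degree 𝔞) :
    R.redSpace (riemannRochSpace 𝔞) = riemannRochSpace (R.rhoExt Pinf (n₀ + 2 * g) 𝔞) := by
  have := H.finite_rr_res (R.rhoExt Pinf (n₀ + 2 * g) 𝔞)
  refine Submodule.eq_of_le_of_finrank_le (H.redSpace_rr_le_rr_rhoExt 𝔞) ?_
  rw [H.finrank_redSpace_rr 𝔞]
  have h1 := H.riemann 𝔞
  have h2 := H.riemann_upper_res (R.rhoExt Pinf (n₀ + 2 * g) 𝔞)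
    (by rw [H.degree_rhoExt]; linarith)
  rw [H.degree_rhoExt] at h2
  have h3 : (finrank k ↥(riemannRochSpace (R.rhoExt Pinf (n₀ + 2 * g) 𝔞)) : ℤ) ≤
      finrank K ↥(riemannRochSpace 𝔞) := by linarith
  exact_mod_cast h3

end Hyp

end Fermat.Agent.DEU


end ZBES_020_8

/-! ### bundled: `Fermat.Agent.DEU.Main3` -/
section ZBES_020_9

/-!
# DEU — Deuring's dimension count, part 3: the reduction of places

`Hyp.exists_reduction` : under the hypotheses `Hyp` there is a map
`r : Place K F → Place k Fb` with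

* `r_* (div u) = div ū` for every `u ∈ O` with nonzero reduction;
* `red (L(D)) ⊆ L̄(r_* D)` and `dim L(D) ≤ dim L̄(r_* D)` (semicontinuity);
* `red (L(D)) = L̄(r_* D)` for `deg D ≥ n₀ + 2g` (lifting of sections);
* `r_* D = ρ D = dv (red (L(D)))` for `deg D ≥ n₀ + 2g` (so `r` is canonical);
* orthonormal bases (`Hyp.exists_orth`).
-/

set_option autoImplicit false

open AlgebraicCurve Module

namespace Fermat.Agent.DEU

open Fermat.Agent.ES.R

variable {K F k Fb : Type*} [Field K] [Field F] [Algebra K F] [Field k] [Field Fb] [Algebra k Fb]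

/-- An effective divisor of degree one is a place. -/
theorem exists_single_of_degree_one
    (hres : ∀ v : Place K F, Function.Bijective (algebraMap K v.ResidueField))
    {E : Divisor K F} (h0 : 0 ≤ E) (hdeg : Divisor.degree E = 1) :
    ∃ Q : Place K F, E = Finsupp.single Q 1 := by
  classical
  have hE : E ≠ 0 := by
    intro h
    rw [h, map_zero] at hdeg
    exact zero_ne_one hdeg
  obtain ⟨Q, hQ⟩ := Finsupp.ne_iff.mp hE
  rw [Finsupp.zero_apply] at hQ
  have hQ0 : 0 ≤ E Q := by simpa using Finsupp.le_def.mp h0 Q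
  have hQ1 : 1 ≤ E Q := by omega
  refine ⟨Q, ?_⟩
  have h1 : E - Finsupp.single Q 1 = 0 := by
    refine dv_eq_zero_of_nonneg_of_degree_le hres ?_ ?_
    · rw [Finsupp.le_def]
      intro v
      rw [Finsupp.zero_apply, Finsupp.sub_apply]
      by_cases hv : v = Q
      · subst hv
        rw [Finsupp.single_eq_same]
        linarith
      · rw [Finsupp.single_eq_of_ne hv]
        have : 0 ≤ E v := by simpa using Finsupp.le_def.mp h0 v
        linarith
    · rw [map_sub, hdeg, Divisor.degree_single, place_deg_eq_one Q (hres Q)]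
      simp
  exact sub_eq_zero.mp h1

namespace Hyp

variable {R : RedData K F k Fb} {Pinf : Place K F} {Qinf : Place k Fb} {g n₀ : ℕ}
  (H : Hyp R Pinf Qinf g n₀)

/-- `ρ̃` as a homomorphism. -/
noncomputable def rhoHom : Divisor K F →+ Divisor k Fb :=
  AddMonoidHom.mk' (R.rhoExt Pinf (n₀ + 2 * g)) H.rhoExt_add

@[simp] theorem rhoHom_apply (D : Divisor K F) : H.rhoHom D = R.rhoExt Pinf (n₀ + 2 * g) D := rfl

include H in
theorem exists_place (P : Place K F) :
    ∃ Q : Place k Fb, R.rhoExt Pinf (n₀ + 2 * g) (Finsupp.single P 1) = Finsupp.single Q 1 := by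
  refine exists_single_of_degree_one H.hresk (H.rhoExt_nonneg ?_) ?_
  · rw [Finsupp.le_def]
    intro v
    classical
    by_cases hv : v = P
    · subst hv; simp
    · rw [Finsupp.single_eq_of_ne hv]; simp
  · rw [H.degree_rhoExt, Divisor.degree_single, place_deg_eq_one P (H.hresF P)]
    simp

/-- **The reduction of places.** -/
noncomputable def r (P : Place K F) : Place k Fb := (H.exists_place P).choose

theorem rhoExt_single (P : Place K F) :
    R.rhoExt Pinf (n₀ + 2 * g) (Finsupp.single P 1) = Finsupp.single (H.r P) 1 :=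
  (H.exists_place P).choose_spec

theorem rhoHom_eq_mapDomain : H.rhoHom = Finsupp.mapDomain.addMonoidHom H.r := by
  refine Finsupp.addHom_ext fun P n => ?_
  rw [Finsupp.mapDomain.addMonoidHom_apply, Finsupp.mapDomain_single]
  have h1 : (Finsupp.single P n : Divisor K F) = n • Finsupp.single P 1 := by
    rw [Finsupp.smul_single, smul_eq_mul, mul_one]
  rw [h1, map_zsmul, rhoHom_apply, H.rhoExt_single, Finsupp.smul_single, smul_eq_mul, mul_one]

theorem rhoExt_eq_mapDomain (D : Divisor K F) :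
    R.rhoExt Pinf (n₀ + 2 * g) D = Finsupp.mapDomain H.r D := by
  rw [← rhoHom_apply, rhoHom_eq_mapDomain]
  rfl

theorem deg_r (P : Place K F) : (H.r P).deg = P.deg := by
  rw [place_deg_eq_one _ (H.hresk _), place_deg_eq_one _ (H.hresF _)]

/-- `r_* (div u) = div ū`. -/
theorem mapDomain_r_principal (u : R.O) (hu : R.red u ≠ 0) (D : Divisor K F)
    (hD : ∀ P : Place K F, D P = P.ord (u : F)) (Q : Place k Fb) :
    Finsupp.mapDomain H.r D Q = Q.ord (R.red u) := by
  have := H.hpdk
  obtain ⟨Z', hZ', -⟩ := HasPrincipalDivisors.exists_divisor (K := k) (R.red u) hu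
  rw [← H.rhoExt_eq_mapDomain, H.rhoExt_principal u hu hD hZ', hZ']

/-- `red (L(D)) ⊆ L̄(r_* D)`. -/
theorem redSpace_rr_le_mapDomain (D : Divisor K F) :
    R.redSpace (riemannRochSpace D) ≤ riemannRochSpace (Finsupp.mapDomain H.r D) := by
  rw [← H.rhoExt_eq_mapDomain]
  exact H.redSpace_rr_le_rr_rhoExt D

/-- semicontinuity -/
theorem finrank_rr_le_mapDomain (D : Divisor K F) :
    finrank K ↥(riemannRochSpace D) ≤ finrank k ↥(riemannRochSpace (Finsupp.mapDomain H.r D)) := by
  rw [← H.rhoExt_eq_mapDomain]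
  exact H.finrank_rr_le_rhoExt D

/-- lifting of sections in large degree -/
theorem redSpace_rr_eq_mapDomain (D : Divisor K F)
    (hD : (n₀ : ℤ) + 2 * g ≤ Divisor.degree D) :
    R.redSpace (riemannRochSpace D) = riemannRochSpace (Finsupp.mapDomain H.r D) := by
  rw [← H.rhoExt_eq_mapDomain]
  exact H.redSpace_rr_eq D hD

/-- `r_* D` is the least divisor bounding the reduction of `L(D)`, in large degree. -/
theorem mapDomain_r_eq_rho (D : Divisor K F) (hD : (n₀ : ℤ) + 2 * g ≤ Divisor.degree D) :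
    Finsupp.mapDomain H.r D = R.rho D := by
  rw [← H.rhoExt_eq_mapDomain]
  exact H.rhoExt_eq_rho D hD

theorem isLeast_mapDomain_r (D : Divisor K F) (hD : (n₀ : ℤ) + 2 * g ≤ Divisor.degree D) :
    IsLeast (bounds (R.redSpace (riemannRochSpace D))) (Finsupp.mapDomain H.r D) := by
  have := H.hpdF
  have := H.hpdk
  rw [H.mapDomain_r_eq_rho D hD]
  have hne : riemannRochSpace D ≠ ⊥ := H.rr_ne_bot_of_degree (by linarith)
  have := R.finite_redSpace_rr H.hresF Pinf D
  exact dv_isLeast H.hresk _ (R.redSpace_ne_bot hne)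

/-- **Orthonormal bases** of the spaces `L(D)`. -/
theorem exists_orth (D : Divisor K F) :
    ∃ (n : ℕ) (e : Fin n → F) (he : ∀ i, e i ∈ R.O),
      Submodule.span K (Set.range e) = riemannRochSpace D ∧
      LinearIndependent k (fun i => R.red ⟨e i, he i⟩) ∧
      ∀ i, R.red ⟨e i, he i⟩ ∈ riemannRochSpace (Finsupp.mapDomain H.r D) := by
  classical
  have hfin := H.finite_rr D
  have hfin' : Module.Finite k ↥(R.redSpace (riemannRochSpace D)) := inferInstance
  set n := finrank K ↥(riemannRochSpace D) with hn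
  have hn' : finrank k ↥(R.redSpace (riemannRochSpace D)) = n := H.finrank_redSpace_rr D
  let b := Module.finBasisOfFinrankEq k ↥(R.redSpace (riemannRochSpace D)) hn'
  have hex : ∀ i : Fin n, ∃ f : R.O, (f : F) ∈ riemannRochSpace D ∧ R.red f = (b i : Fb) :=
    fun i => (b i).2
  choose f hfD hfred using hex
  have hlik : LinearIndependent k (fun i => R.red (f i)) := by
    have h1 : LinearIndependent k (fun i => ((b i : ↥(R.redSpace (riemannRochSpace D))) : Fb)) :=
      b.linearIndependent.map' (R.redSpace (riemannRochSpace D)).subtype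
        (Submodule.ker_subtype _)
    convert h1 using 2
    exact hfred _
  have hliK := R.linearIndependent_of_red f hlik
  let e' : Fin n → ↥(riemannRochSpace D) := fun i => ⟨(f i : F), hfD i⟩
  have hliK' : LinearIndependent K e' :=
    LinearIndependent.of_comp (riemannRochSpace D).subtype hliK
  have hspan' : Submodule.span K (Set.range e') = ⊤ :=
    hliK'.span_eq_top_of_card_eq_finrank' (by rw [Fintype.card_fin])
  refine ⟨n, fun i => (f i : F), fun i => (f i).2, ?_, ?_, ?_⟩
  · have h2 : Set.range (fun i => (f i : F)) = (riemannRochSpace D).subtype '' Set.range e' := by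
      rw [← Set.range_comp]
      rfl
    rw [h2, Submodule.span_image, hspan', Submodule.map_subtype_top]
  · exact hlik
  · intro i
    exact H.redSpace_rr_le_mapDomain D (R.red_mem_redSpace (f i) (hfD i))

/-- **Deuring's reduction of places** (summary). -/
theorem exists_reduction (H : Hyp R Pinf Qinf g n₀) :
    ∃ r : Place K F → Place k Fb,
      (∀ P, (r P).deg = P.deg) ∧
      (∀ u : R.O, R.red u ≠ 0 → ∀ D : Divisor K F, (∀ P : Place K F, D P = P.ord (u : F)) →
        ∀ Q : Place k Fb, Finsupp.mapDomain r D Q = Q.ord (R.red u)) ∧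
      (∀ D : Divisor K F,
        R.redSpace (riemannRochSpace D) ≤ riemannRochSpace (Finsupp.mapDomain r D)) ∧
      (∀ D : Divisor K F, (n₀ : ℤ) + 2 * g ≤ Divisor.degree D →
        IsLeast (bounds (R.redSpace (riemannRochSpace D))) (Finsupp.mapDomain r D)) ∧
      (∀ D : Divisor K F, (n₀ : ℤ) + 2 * g ≤ Divisor.degree D →
        R.redSpace (riemannRochSpace D) = riemannRochSpace (Finsupp.mapDomain r D)) ∧
      (∀ D : Divisor K F, ∃ (n : ℕ) (e : Fin n → F) (he : ∀ i, e i ∈ R.O),
        Submodule.span K (Set.range e) = riemannRochSpace D ∧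
        LinearIndependent k (fun i => R.red ⟨e i, he i⟩) ∧
        ∀ i, R.red ⟨e i, he i⟩ ∈ riemannRochSpace (Finsupp.mapDomain r D)) :=
  ⟨H.r, H.deg_r, H.mapDomain_r_principal, H.redSpace_rr_le_mapDomain, H.isLeast_mapDomain_r,
    H.redSpace_rr_eq_mapDomain, H.exists_orth⟩

end Hyp

end Fermat.Agent.DEU


end ZBES_020_9

/-! ### bundled: `Fermat.Agent.W1.GeoEval` -/
section ZBES_020_10

/-!
# W1 GEO-E: evaluation, surjectivity of the reduction of places, and the disc

Proofs of `StmtEval` (E2), `StmtOnto` (E1) and `StmtDisc` (L1) of `PlanGeo.lean`.  Everything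
comes out of the single identity `r_*(div u) = div(ū)` (`PRData.IsPR.r_div`).

Main auxiliary results (for the later GEO pieces):

* `ge_mapDomain_apply` : `(r_* D)(Q) = Σ_{P ∈ supp D} [r P = Q] D(P)`;
* `ge_sum_ord_le` : if no pole of `u ∈ O`, `ū ≠ 0`, reduces to `Q`, then
  `Σ_{P ∈ T} ord_P u ≤ ord_Q ū` for every finite set `T` of places reducing to `Q`;
* `ge_exists_ord_ne_zero` : if `ord_Q ū ≠ 0` then some `P` with `ord_P u ≠ 0` reduces to `Q`;
* `ge_exists_value` : a function regular at a place of degree one has a value there;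
* `hasValueAt_unique`, `hasValueAt_iff_ord_pos`.
-/

set_option autoImplicit false

open AlgebraicCurve Module

namespace Fermat.Agent.W1

open Fermat.Agent.S24

/-! ### Values -/

section Values

variable {K F : Type} [Field K] [Field F] [Algebra K F]

theorem ge_nonunits_sub {B : ValuationSubring F} {x y : F} (hx : x ∈ B.nonunits)
    (hy : y ∈ B.nonunits) : x - y ∈ B.nonunits := by
  rw [ValuationSubring.mem_nonunits_iff_exists_mem_maximalIdeal] at hx hy ⊢
  obtain ⟨hx1, hx2⟩ := hx
  obtain ⟨hy1, hy2⟩ := hy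
  exact ⟨sub_mem hx1 hy1, (IsLocalRing.maximalIdeal B).sub_mem hx2 hy2⟩

theorem ge_nonunits_mul_mem {B : ValuationSubring F} {x y : F} (hx : x ∈ B)
    (hy : y ∈ B.nonunits) : x * y ∈ B.nonunits := by
  rw [ValuationSubring.mem_nonunits_iff_exists_mem_maximalIdeal] at hy ⊢
  obtain ⟨hy1, hy2⟩ := hy
  exact ⟨mul_mem hx hy1, (IsLocalRing.maximalIdeal B).mul_mem_left ⟨x, hx⟩ hy2⟩

theorem ge_nonunits_mem {B : ValuationSubring F} {x : F} (hx : x ∈ B.nonunits) : x ∈ B := by
  rw [ValuationSubring.mem_nonunits_iff_exists_mem_maximalIdeal] at hx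
  exact hx.1

theorem ge_zero_mem_nonunits (B : ValuationSubring F) : (0 : F) ∈ B.nonunits := by
  rw [ValuationSubring.mem_nonunits_iff_or]
  exact Or.inl rfl

/-- A constant lies in the maximal ideal of a place only if it is zero. -/
theorem ge_algebraMap_mem_nonunits_iff (P : Place K F) (a : K) :
    algebraMap K F a ∈ P.toValuationSubring.nonunits ↔ a = 0 := by
  constructor
  · intro h
    by_contra ha
    rw [ValuationSubring.mem_nonunits_iff_or] at h
    rcases h with h | h
    · exact ha ((map_eq_zero _).mp h)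
    · apply h
      rw [← map_inv₀]
      exact P.algebraMap_mem' _
  · rintro rfl
    rw [map_zero]
    exact ge_zero_mem_nonunits _

theorem hasValueAt_iff_ord_pos (P : Place K F) {f : F} {a : K}
    (h : f - algebraMap K F a ≠ 0) :
    HasValueAt P f a ↔ 0 < P.ord (f - algebraMap K F a) :=
  (PlaceAux.ord_pos_iff_mem_nonunits P h).symm

theorem hasValueAt_of_eq (P : Place K F) {f : F} {a : K} (h : f - algebraMap K F a = 0) :
    HasValueAt P f a := by
  unfold HasValueAt
  rw [h]
  exact ge_zero_mem_nonunits _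

theorem hasValueAt_unique (P : Place K F) {f : F} {a b : K} (ha : HasValueAt P f a)
    (hb : HasValueAt P f b) : a = b := by
  have h := ge_nonunits_sub hb ha
  have h2 : f - algebraMap K F b - (f - algebraMap K F a) = algebraMap K F (a - b) := by
    rw [map_sub]; ring
  rw [h2, ge_algebraMap_mem_nonunits_iff] at h
  exact sub_eq_zero.mp h

theorem HasValueAt.mem (P : Place K F) {f : F} {a : K} (h : HasValueAt P f a) :
    f ∈ P.toValuationSubring := by
  have h1 := ge_nonunits_mem h
  have h2 := add_mem h1 (P.algebraMap_mem' a)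
  simpa using h2

/-- A function which is regular at a place with residue field `K` has a value there. -/
theorem ge_exists_value (P : Place K F)
    (hres : Function.Bijective (algebraMap K P.ResidueField)) {f : F}
    (hf : f ∈ P.toValuationSubring) : ∃ a : K, HasValueAt P f a := by
  obtain ⟨a, ha⟩ := hres.2 (IsLocalRing.residue P.toValuationSubring ⟨f, hf⟩)
  refine ⟨a, ?_⟩
  unfold HasValueAt
  rw [ValuationSubring.mem_nonunits_iff_exists_mem_maximalIdeal]
  refine ⟨sub_mem hf (P.algebraMap_mem' a), ?_⟩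
  rw [← IsLocalRing.residue_eq_zero_iff]
  have h1 : (⟨f - algebraMap K F a, sub_mem hf (P.algebraMap_mem' a)⟩ :
      P.toValuationSubring) = ⟨f, hf⟩ - algebraMap K P.toValuationSubring a := rfl
  rw [h1, map_sub, sub_eq_zero]
  rw [← ha]
  rfl

/-- regularity in terms of `ord` (including `f = 0`). -/
theorem ge_mem_of_not_ord_neg (P : Place K F) {f : F} (h : ¬ P.ord f < 0) :
    f ∈ P.toValuationSubring :=
  PlaceAux.mem_of_ord_nonneg P (not_lt.mp h)

theorem ge_ord_nonneg_of_mem (P : Place K F) {f : F} (h : f ∈ P.toValuationSubring) :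
    0 ≤ P.ord f := by
  rcases eq_or_ne f 0 with rfl | hf
  · simp
  · exact (PlaceAux.ord_nonneg_iff P hf).mpr h

end Values

/-! ### The push-forward of a divisor, pointwise -/

section MapDomain

variable {α β : Type} 

theorem ge_mapDomain_apply [DecidableEq β] (r : α → β) (D : α →₀ ℤ) (Q : β) :
    Finsupp.mapDomain r D Q = ∑ P ∈ D.support, if r P = Q then D P else 0 := by
  rw [Finsupp.mapDomain, Finsupp.sum, Finsupp.finsetSum_apply]
  refine Finset.sum_congr rfl fun P _ => ?_
  rw [Finsupp.single_apply]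

end MapDomain

/-! ### Consequences of `r_*(div u) = div(ū)` -/

section PR

variable {K F k Fk : Type} [Field K] [Field F] [Algebra K F] [Field k] [Field Fk] [Algebra k Fk]
variable {A : ValuationSubring K} {R : PRData K F k Fk A}

theorem ge_coe_ne_zero {u : R.O} (hu : R.red u ≠ 0) : (u : F) ≠ 0 := by
  intro h
  apply hu
  have : u = 0 := Subtype.ext h
  rw [this, map_zero]

/-- If no pole of `u` reduces to `Q`, then `Σ_{P ∈ T} ord_P u ≤ ord_Q ū` for every finite set `T`
of places reducing to `Q`. -/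
theorem ge_sum_ord_le (hR : R.IsPR) (hpd : HasPrincipalDivisors K F) {u : R.O}
    (hu : R.red u ≠ 0) (Q : Place k Fk)
    (hno : ∀ P' : Place K F, P'.ord (u : F) < 0 → R.r P' ≠ Q)
    (T : Finset (Place K F)) (hT : ∀ P ∈ T, R.r P = Q) :
    ∑ P ∈ T, P.ord (u : F) ≤ Q.ord (R.red u) := by
  classical
  obtain ⟨D, hD, -⟩ := hpd.exists_divisor (u : F) (ge_coe_ne_zero hu)
  rw [← hR.r_div u hu D hD Q, ge_mapDomain_apply]
  have h1 : ∑ P ∈ T, P.ord (u : F) = ∑ P ∈ T ∩ D.support, (if R.r P = Q then D P else 0) := by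
    rw [← Finset.sum_filter_add_sum_filter_not T (fun P => P ∈ D.support)]
    have h2 : ∑ P ∈ T.filter (fun P => ¬ P ∈ D.support), P.ord (u : F) = 0 := by
      refine Finset.sum_eq_zero fun P hP => ?_
      rw [Finset.mem_filter, Finsupp.notMem_support_iff] at hP
      rw [← hD P, hP.2]
    rw [h2, add_zero, Finset.filter_mem_eq_inter]
    refine Finset.sum_congr rfl fun P hP => ?_
    rw [if_pos (hT P (Finset.mem_inter.mp hP).1), hD P]
  rw [h1]
  refine Finset.sum_le_sum_of_subset_of_nonneg Finset.inter_subset_right fun P _ _ => ?_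
  split_ifs with h
  · rw [hD P]
    by_contra hneg
    exact hno P (not_le.mp hneg) h
  · exact le_rfl

/-- If `ord_Q ū ≠ 0`, some zero or pole of `u` reduces to `Q`. -/
theorem ge_exists_ord_ne_zero (hR : R.IsPR) (hpd : HasPrincipalDivisors K F) {u : R.O}
    (hu : R.red u ≠ 0) (Q : Place k Fk) (hQ : Q.ord (R.red u) ≠ 0) :
    ∃ P : Place K F, R.r P = Q ∧ P.ord (u : F) ≠ 0 := by
  classical
  obtain ⟨D, hD, -⟩ := hpd.exists_divisor (u : F) (ge_coe_ne_zero hu)
  rw [← hR.r_div u hu D hD Q, ge_mapDomain_apply] at hQ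
  obtain ⟨P, hP, hP2⟩ := Finset.exists_ne_zero_of_sum_ne_zero hQ
  by_cases h : R.r P = Q
  · rw [if_pos h] at hP2
    exact ⟨P, h, by rwa [← hD P]⟩
  · rw [if_neg h] at hP2
    exact absurd rfl hP2

theorem PRData.IsPR.algebraMap_mem (hR : R.IsPR) (a : A) : algebraMap K F (a : K) ∈ R.O :=
  (hR.algebraMap_mem_iff _).mpr a.2

/-- `O ∩ K = A`: the constants of `O` and their reductions. -/
theorem PRData.IsPR.red_const (hR : R.IsPR) (a : A) :
    R.red ⟨algebraMap K F (a : K), hR.algebraMap_mem a⟩ = algebraMap k Fk (R.res a) :=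
  hR.red_algebraMap a _

end PR

/-! ### (E1): `r` is onto -/

theorem stmtOnto : StmtOnto := by
  intro K F k Fk _ _ _ _ _ _ A R g hR hF _ Q
  -- a uniformiser at `Q`
  obtain ⟨π, hπ⟩ := IsDiscreteValuationRing.exists_irreducible Q.toValuationSubring
  have hord : Q.ord (π : Fk) = 1 := Q.ord_coe_irreducible hπ
  obtain ⟨u, hu⟩ := hR.red_surjective (π : Fk)
  have hu0 : R.red u ≠ 0 := by
    rw [hu]
    intro h0
    rw [h0, Place.ord_zero] at hord
    exact zero_ne_one hord
  obtain ⟨P, hP, -⟩ := ge_exists_ord_ne_zero hR hF.hpd hu0 Q (by rw [hu, hord]; exact one_ne_zero)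
  exact ⟨P, hP⟩

/-! ### (E2): evaluation -/

theorem stmtEval : StmtEval := by
  intro K F k Fk _ _ _ _ _ _ A R g hR hF _ f P hno
  -- `f` is regular at `P`
  have hreg : f.1 ∈ P.toValuationSubring :=
    ge_mem_of_not_ord_neg P fun h => hno P h rfl
  obtain ⟨a, ha⟩ := ge_exists_value P (hF.hres P) hreg
  -- the value lies in `A`
  have haA : a ∈ A := by
    by_contra haA
    have ha0 : a ≠ 0 := fun h => haA (h ▸ A.zero_mem)
    have hbA : a⁻¹ ∈ A := (A.mem_or_inv_mem a).resolve_left haA
    have hbnon : a⁻¹ ∈ A.nonunits := by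
      rw [ValuationSubring.mem_nonunits_iff_or]
      right
      rwa [inv_inv]
    have hbO : algebraMap K F a⁻¹ ∈ R.O := (hR.algebraMap_mem_iff _).mpr hbA
    -- `u = a⁻¹ f - 1`
    set u : R.O := ⟨algebraMap K F a⁻¹, hbO⟩ * f - 1 with hu
    have hured : R.red u = -1 := by
      rw [hu, map_sub, map_mul, map_one]
      have h1 : R.red ⟨algebraMap K F a⁻¹, hbO⟩ = 0 := by
        have h2 := hR.red_algebraMap ⟨a⁻¹, hbA⟩ hbO
        rw [h2, (hR.res_eq_zero_iff ⟨a⁻¹, hbA⟩).mpr hbnon, map_zero]
      rw [h1, zero_mul, zero_sub]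
    have hu0 : R.red u ≠ 0 := by rw [hured]; exact neg_ne_zero.mpr one_ne_zero
    have hucoe : (u : F) = algebraMap K F a⁻¹ * (f : F) - 1 := rfl
    have hno' : ∀ P' : Place K F, P'.ord (u : F) < 0 → R.r P' ≠ R.r P := by
      intro P' hP'
      apply hno P'
      by_contra hnn
      have hfm : (f : F) ∈ P'.toValuationSubring := ge_mem_of_not_ord_neg P' hnn
      have hum : (u : F) ∈ P'.toValuationSubring := by
        rw [hucoe]
        exact sub_mem (mul_mem (P'.algebraMap_mem' _) hfm) (one_mem _)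
      exact absurd (ge_ord_nonneg_of_mem P' hum) (not_le.mpr hP')
    have hupos : 0 < P.ord (u : F) := by
      rw [PlaceAux.ord_pos_iff_mem_nonunits P (ge_coe_ne_zero hu0)]
      have h3 : (u : F) = algebraMap K F a⁻¹ * ((f : F) - algebraMap K F a) := by
        rw [hucoe, mul_sub, ← map_mul, inv_mul_cancel₀ ha0, map_one]
      rw [h3]
      exact ge_nonunits_mul_mem (P.algebraMap_mem' _) ha
    have hle := ge_sum_ord_le hR hF.hpd hu0 (R.r P) hno' {P} (by simp)
    rw [Finset.sum_singleton, hured, PlaceAux.ord_neg, Place.ord_one] at hle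
    omega
  refine ⟨⟨a, haA⟩, ha, ?_⟩
  -- the reduction of the value
  set u : R.O := f - ⟨algebraMap K F a, hR.algebraMap_mem ⟨a, haA⟩⟩ with hu
  have hured : R.red u = R.red f - algebraMap k Fk (R.res ⟨a, haA⟩) := by
    rw [hu, map_sub, hR.red_const ⟨a, haA⟩]
  have hucoe : (u : F) = (f : F) - algebraMap K F a := rfl
  by_cases hu0 : R.red u = 0
  · apply hasValueAt_of_eq
    rw [← hured, hu0]
  · have hno' : ∀ P' : Place K F, P'.ord (u : F) < 0 → R.r P' ≠ R.r P := by
      intro P' hP'
      apply hno P'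
      by_contra hnn
      have hfm : (f : F) ∈ P'.toValuationSubring := ge_mem_of_not_ord_neg P' hnn
      have hum : (u : F) ∈ P'.toValuationSubring := by
        rw [hucoe]
        exact sub_mem hfm (P'.algebraMap_mem' _)
      exact absurd (ge_ord_nonneg_of_mem P' hum) (not_le.mpr hP')
    have hupos : 0 < P.ord (u : F) := by
      rw [PlaceAux.ord_pos_iff_mem_nonunits P (ge_coe_ne_zero hu0)]
      exact ha
    have hle := ge_sum_ord_le hR hF.hpd hu0 (R.r P) hno' {P} (by simp)
    rw [Finset.sum_singleton] at hle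
    have hpos : 0 < (R.r P).ord (R.red u) := lt_of_lt_of_le hupos hle
    rw [PlaceAux.ord_pos_iff_mem_nonunits (R.r P) hu0, hured] at hpos
    exact hpos

/-! ### (L1): the disc -/

theorem stmtDisc : StmtDisc := by
  classical
  intro K F k Fk _ _ _ _ _ _ A R g hR hF hFk t ht hgood c Q hQ
  obtain ⟨ht', hpoles⟩ := hgood
  set tb : Fk := R.red ⟨t, ht⟩ with htb
  have htb0 : tb - algebraMap k Fk (R.res c) ≠ 0 := by
    intro h0
    rw [h0, Place.ord_zero] at hQ
    exact zero_ne_one hQ
  have hcQ : HasValueAt Q tb (R.res c) := by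
    rw [hasValueAt_iff_ord_pos Q htb0, hQ]
    exact one_pos
  -- no pole of `t` reduces to `Q`
  have hnoPole : ∀ P' : Place K F, P'.ord t < 0 → R.r P' ≠ Q := by
    intro P' hP' hrP'
    have h1 := hpoles P' hP'
    rw [hrP'] at h1
    exact absurd (ge_ord_nonneg_of_mem Q (hcQ.mem Q)) (not_le.mpr h1)
  refine ⟨fun P hP => ?_, fun z hz => ?_⟩
  · -- values on the disc lie in `c + 𝔪`
    obtain ⟨a, ha1, ha2⟩ := stmtEval K F k Fk A R g hR hF hFk ⟨t, ht⟩ P
      (fun P' hP' => by rw [hP]; exact hnoPole P' hP')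
    rw [hP] at ha2
    have hac : R.res a = R.res c := hasValueAt_unique Q ha2 hcQ
    refine ⟨(a : K) - (c : K), ?_, ?_⟩
    · have h1 : R.res (a - c) = 0 := by rw [map_sub, hac, sub_self]
      exact (hR.res_eq_zero_iff (a - c)).mp h1
    · have h2 : (c : K) + ((a : K) - (c : K)) = (a : K) := by ring
      rw [h2]
      exact ha1
  · -- exactly one point of the disc with `t = c + z`
    have hzA : z ∈ A := ge_nonunits_mem hz
    set w : A := c + ⟨z, hzA⟩ with hw
    have hwres : R.res w = R.res c := by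
      rw [hw, map_add, (hR.res_eq_zero_iff ⟨z, hzA⟩).mpr hz, add_zero]
    set u : R.O := ⟨t, ht⟩ - ⟨algebraMap K F (w : K), hR.algebraMap_mem w⟩ with hu
    have hured : R.red u = tb - algebraMap k Fk (R.res c) := by
      rw [hu, map_sub, hR.red_const w, hwres]
    have hu0 : R.red u ≠ 0 := by rw [hured]; exact htb0
    have hucoe : (u : F) = t - algebraMap K F ((c : K) + z) := rfl
    have hno' : ∀ P' : Place K F, P'.ord (u : F) < 0 → R.r P' ≠ Q := by
      intro P' hP'
      apply hnoPole P'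
      by_contra hnn
      have hfm : t ∈ P'.toValuationSubring := ge_mem_of_not_ord_neg P' hnn
      have hum : (u : F) ∈ P'.toValuationSubring := by
        rw [hucoe]
        exact sub_mem hfm (P'.algebraMap_mem' _)
      exact absurd (ge_ord_nonneg_of_mem P' hum) (not_le.mpr hP')
    have hval : ∀ P : Place K F, HasValueAt P t ((c : K) + z) ↔ 0 < P.ord (u : F) := by
      intro P
      rw [hucoe]
      exact hasValueAt_iff_ord_pos P (ge_coe_ne_zero hu0)
    obtain ⟨P, hP1, hP2⟩ := ge_exists_ord_ne_zero hR hF.hpd hu0 Q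
      (by rw [hured, hQ]; exact one_ne_zero)
    have hPpos : 0 < P.ord (u : F) := by
      rcases lt_trichotomy (P.ord (u : F)) 0 with h | h | h
      · exact absurd hP1 (hno' P h)
      · exact absurd h hP2
      · exact h
    refine ⟨P, ⟨hP1, (hval P).mpr hPpos⟩, ?_⟩
    rintro P' ⟨hP'1, hP'2⟩
    by_contra hne
    have hP'pos : 0 < P'.ord (u : F) := (hval P').mp hP'2
    have hle := ge_sum_ord_le hR hF.hpd hu0 Q hno' {P', P} (by
      intro x hx
      rcases Finset.mem_insert.mp hx with rfl | hx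
      · exact hP'1
      · rw [Finset.mem_singleton.mp hx]; exact hP1)
    rw [Finset.sum_pair hne, hured, hQ] at hle
    omega

end Fermat.Agent.W1


end ZBES_020_10
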