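/- GENERATED FILE (helper35, build-time optimisation, NOTES/ZB.md): verbatim concatenation of the modules
   Fermat.Agent.STB.DescentNorm
   Do not edit; do not import together with these modules. -/
import Mathlib.RingTheory.Norm.Basic
import Mathlib.LinearAlgebra.FiniteDimensional.Lemmas
import Mathlib.LinearAlgebra.Dimension.Free
import Mathlib.FieldTheory.Tower
import Mathlib.LinearAlgebra.Dimension.OrzechProperty
import Fermat.Agent.ZB.ES_020

/-! ### bundled: `Fermat.Agent.STB.DescentNorm` -/
section ZBSTB_005_0
/-
S35 phase 2 (plan "STB", NOTES/S35-plan.md), piece STB-D, generic part (helper18).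

Base change of norms in a commutative square of fields with COPRIME degrees:

      L  --ι₂-->  L'
      ^           ^
    φ |           | φ'
      K  --ι₁-->  K'          [L : K] = [L' : K'] = d,  [K' : K] = d',  gcd(d, d') = 1

then `N_{L'/K'} (ι₂ u) = ι₁ (N_{L/K} u)` for all `u : L`.

* `stb_d_norm_square` : the same with the hypothesis `L' = K'·L` instead of coprimality;
* `stb_d_adjoin_eq_top` : `L' = K'·L` from the degree count;
* `stb_d_norm_square_coprime` : the statement above (instances form);
* `stbdNorm φ` : the norm along a ring homomorphism, `stb_d_norm_square_hom` : ring hom form.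
-/

set_option autoImplicit false

noncomputable section

namespace Fermat.Agent.STB

open Module

section Instances

variable {K L K' L' : Type*} [Field K] [Field L] [Field K'] [Field L']
  [Algebra K L] [Algebra K K'] [Algebra K' L'] [Algebra L L'] [Algebra K L']
  [IsScalarTower K L L'] [IsScalarTower K K' L']

/-- the image of `x = ∑ cᵢ bᵢ` in `L'` is `∑ cᵢ • ι₂ bᵢ` -/
theorem stb_d_map_eq_sum {ι : Type*} [Fintype ι] (b : Basis ι K L) (x : L) :
    algebraMap L L' x = ∑ i, (algebraMap K K' (b.repr x i)) • algebraMap L L' (b i) := by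
  conv_lhs => rw [← b.sum_repr x]
  rw [map_sum]
  refine Finset.sum_congr rfl fun i _ => ?_
  rw [Algebra.smul_def, map_mul, Algebra.smul_def, ← IsScalarTower.algebraMap_apply K L L',
    ← IsScalarTower.algebraMap_apply K K' L']

/-- **Norm square**, generation form. -/
theorem stb_d_norm_square [FiniteDimensional K L]
    (hdeg : finrank K' L' = finrank K L)
    (hgen : Algebra.adjoin K' (Set.range (algebraMap L L')) = ⊤) (u : L) :
    Algebra.norm K' (algebraMap L L' u) = algebraMap K K' (Algebra.norm K u) := by
  classical
  set b : Basis (Fin (finrank K L)) K L := Module.finBasis K L with hb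
  set v : Fin (finrank K L) → L' := fun i => algebraMap L L' (b i) with hv
  have hspan : ⊤ ≤ Submodule.span K' (Set.range v) := by
    have h1 : (Algebra.adjoin K' (Set.range (algebraMap L L'))).toSubmodule
        ≤ Submodule.span K' (Set.range v) := by
      rw [Algebra.adjoin_eq_span]
      have hcl : (Submonoid.closure (Set.range (algebraMap L L')) : Set L')
          = Set.range (algebraMap L L') := by
        have : Set.range (algebraMap L L')
            = (MonoidHom.mrange (algebraMap L L' : L →* L') : Set L') := rfl
        rw [this, Submonoid.closure_eq]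
      rw [hcl, Submodule.span_le]
      rintro _ ⟨x, rfl⟩
      rw [stb_d_map_eq_sum (K' := K') b x]
      exact Submodule.sum_mem _ fun i _ =>
        Submodule.smul_mem _ _ (Submodule.subset_span ⟨i, rfl⟩)
    rw [hgen] at h1
    simpa using h1
  have hcard : Fintype.card (Fin (finrank K L)) = finrank K' L' := by
    rw [Fintype.card_fin, hdeg]
  set b' : Basis (Fin (finrank K L)) K' L' := basisOfTopLeSpanOfCardEqFinrank v hspan hcard
    with hb'
  have hb'v : ∀ i, b' i = algebraMap L L' (b i) := fun i => by
    rw [hb', coe_basisOfTopLeSpanOfCardEqFinrank]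
  have hrepr : ∀ (x : L) (i : Fin (finrank K L)),
      b'.repr (algebraMap L L' x) i = algebraMap K K' (b.repr x i) := by
    intro x i
    have h1 : algebraMap L L' x = ∑ j, (algebraMap K K' (b.repr x j)) • b' j := by
      rw [stb_d_map_eq_sum (K' := K') b x]
      exact Finset.sum_congr rfl fun j _ => by rw [hb'v]
    rw [h1, Basis.repr_sum_self]
  rw [Algebra.norm_eq_matrix_det b', Algebra.norm_eq_matrix_det b, RingHom.map_det]
  congr 1
  ext i j
  rw [Algebra.leftMulMatrix_eq_repr_mul, RingHom.mapMatrix_apply, Matrix.map_apply,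
    Algebra.leftMulMatrix_eq_repr_mul, hb'v, ← map_mul, hrepr]

/-- `L' = K'·L` when `[L' : K'] = [L : K]` is prime to `[K' : K]`. -/
theorem stb_d_adjoin_eq_top [FiniteDimensional K L] [FiniteDimensional K K']
    (hdeg : finrank K' L' = finrank K L)
    (hcop : Nat.Coprime (finrank K L) (finrank K K')) :
    Algebra.adjoin K' (Set.range (algebraMap L L')) = ⊤ := by
  have hdpos : 0 < finrank K L := Module.finrank_pos
  have hfinL' : FiniteDimensional K' L' :=
    Module.finite_of_finrank_pos (by rw [hdeg]; exact hdpos)
  set C : Subalgebra K' L' := Algebra.adjoin K' (Set.range (algebraMap L L')) with hC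
  let f : L →+* C := (algebraMap L L').codRestrict C fun x => Algebra.subset_adjoin ⟨x, rfl⟩
  let _ : Algebra L C := f.toAlgebra
  have htower : IsScalarTower K L C :=
    IsScalarTower.of_algebraMap_eq fun x => Subtype.ext (by
      show algebraMap K L' x = algebraMap L L' (algebraMap K L x)
      exact IsScalarTower.algebraMap_apply K L L' x)
  have h1 : finrank K K' * finrank K' C = finrank K C := Module.finrank_mul_finrank K K' C
  have h2 : finrank K L * finrank L C = finrank K C := Module.finrank_mul_finrank K L C
  have hle : finrank K' C ≤ finrank K' L' := Submodule.finrank_le C.toSubmodule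
  have hdvd : finrank K L ∣ finrank K' C := by
    have : finrank K L ∣ finrank K K' * finrank K' C := by
      rw [h1, ← h2]
      exact Dvd.intro _ rfl
    exact hcop.dvd_of_dvd_mul_left this
  have hCpos : 0 < finrank K' C := Module.finrank_pos
  have hge : finrank K L ≤ finrank K' C := Nat.le_of_dvd hCpos hdvd
  have heq : finrank K' C.toSubmodule = finrank K' L' := le_antisymm hle (by rw [hdeg]; exact hge)
  have htop : C.toSubmodule = ⊤ := Submodule.eq_top_of_finrank_eq heq
  exact Algebra.toSubmodule_eq_top.mp htop

/-- **Norm square**, coprime degrees. -/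
theorem stb_d_norm_square_coprime [FiniteDimensional K L] [FiniteDimensional K K']
    (hdeg : finrank K' L' = finrank K L)
    (hcop : Nat.Coprime (finrank K L) (finrank K K')) (u : L) :
    Algebra.norm K' (algebraMap L L' u) = algebraMap K K' (Algebra.norm K u) :=
  stb_d_norm_square hdeg (stb_d_adjoin_eq_top hdeg hcop) u

end Instances

section Hom

variable {K L K' L' : Type*} [Field K] [Field L] [Field K'] [Field L']

/-- the norm along a ring homomorphism -/
def stbdNorm (φ : K →+* L) (y : L) : K :=
  letI := φ.toAlgebra
  Algebra.norm K y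

/-- the degree along a ring homomorphism -/
def stbdDeg (φ : K →+* L) : ℕ :=
  letI := φ.toAlgebra
  finrank K L

theorem stbdNorm_mul (φ : K →+* L) (x y : L) :
    stbdNorm φ (x * y) = stbdNorm φ x * stbdNorm φ y := by
  let _ := φ.toAlgebra
  exact map_mul (Algebra.norm K) x y

theorem stbdNorm_one (φ : K →+* L) : stbdNorm φ (1 : L) = 1 := by
  let _ := φ.toAlgebra
  exact map_one (Algebra.norm K)

/-- **Norm square**, ring homomorphism form: `φ' ∘ ι₁ = ι₂ ∘ φ`, `deg φ' = deg φ` prime to
`deg ι₁` ⇒ `N_{φ'} (ι₂ u) = ι₁ (N_φ u)`. -/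
theorem stb_d_norm_square_hom (φ : K →+* L) (ι₁ : K →+* K') (φ' : K' →+* L') (ι₂ : L →+* L')
    (hsq : ∀ x, φ' (ι₁ x) = ι₂ (φ x))
    (hdpos : stbdDeg φ ≠ 0) (hd1pos : stbdDeg ι₁ ≠ 0)
    (hdeg : stbdDeg φ' = stbdDeg φ)
    (hcop : Nat.Coprime (stbdDeg φ) (stbdDeg ι₁)) (u : L) :
    stbdNorm φ' (ι₂ u) = ι₁ (stbdNorm φ u) := by
  let a1 : Algebra K L := φ.toAlgebra
  let a2 : Algebra K K' := ι₁.toAlgebra
  let a3 : Algebra K' L' := φ'.toAlgebra
  let a4 : Algebra L L' := ι₂.toAlgebra
  let a5 : Algebra K L' := (ι₂.comp φ).toAlgebra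
  have t1 : IsScalarTower K L L' := IsScalarTower.of_algebraMap_eq fun x => rfl
  have t2 : IsScalarTower K K' L' := IsScalarTower.of_algebraMap_eq fun x => (hsq x).symm
  have f1 : FiniteDimensional K L := Module.finite_of_finrank_pos (Nat.pos_of_ne_zero hdpos)
  have f2 : FiniteDimensional K K' := Module.finite_of_finrank_pos (Nat.pos_of_ne_zero hd1pos)
  exact stb_d_norm_square_coprime (K := K) (L := L) (K' := K') (L' := L') hdeg hcop u

end Hom

end Fermat.Agent.STB

end
end ZBSTB_005_0
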