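/- GENERATED FILE (helper35, build-time optimisation, NOTES/ZB.md): verbatim concatenation of the modules
   Fermat.Agent.INJ.TorsionFree
   Do not edit; do not import together with these modules. -/
import Mathlib.FieldTheory.Minpoly.IsIntegrallyClosed
import Mathlib.RingTheory.Polynomial.ScaleRoots
import Mathlib.RingTheory.IntegralClosure.IntegrallyClosed
import Fermat.Agent.ZB.INJ_028

/-! ### bundled: `Fermat.Agent.INJ.TorsionFree` -/
section ZBINJ_017_0
/-
INJ / Part A, piece A1 (generic commutative algebra, no modular forms).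

`R` an integrally closed domain, `π ∈ R` a prime element, `f ∈ R` not divisible by `π`,
`L` a field containing `R`.  If `x, y ∈ L` are integral over `R` and `f x = π y`, then `x / π`
is integral over `R`.  Consequently, for the integral closure `C` of `R` in `L`, the quotient
`C / π C` is torsion-free over `R / π R`.

In the application `R = A₀[t]` (`A₀` a discrete valuation ring with uniformizer `π`), `L` a finite
extension of `Frac R`, and `C / π C` is torsion-free over `k₀[t]`.
-/

set_option autoImplicit false

open Polynomial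

namespace Fermat.Agent.INJ

variable {R L : Type*} [CommRing R] [IsDomain R] [IsIntegrallyClosed R]
  [Field L] [Algebra R L] [Module.IsTorsionFree R L]

/-- Key lemma: `f x = π y`, `x y` integral, `π` prime, `π ∤ f` ⇒ `x / π` integral. -/
theorem isIntegral_inv_mul_of_smul_eq {π f : R} (hπ : Prime π) (hf : ¬ π ∣ f) {x y : L}
    (hx : IsIntegral R x) (hy : IsIntegral R y) (h : f • x = π • y) :
    IsIntegral R ((algebraMap R L π)⁻¹ * x) := by
  have hf0 : f ≠ 0 := fun h0 => hf (h0 ▸ dvd_zero π)
  have hπ0 : π ≠ 0 := hπ.ne_zero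
  have hinj : Function.Injective (algebraMap R L) := FaithfulSMul.algebraMap_injective R L
  have hπL : algebraMap R L π ≠ 0 := fun h0 => hπ0 (hinj (by rw [h0, map_zero]))
  set z : L := (algebraMap R L π)⁻¹ * x with hz
  have hzx : algebraMap R L π * z = x := by rw [hz, mul_inv_cancel_left₀ hπL]
  set P := minpoly R x with hP
  set Q := minpoly R y with hQ
  have hPQ : P.scaleRoots f = Q.scaleRoots π := by
    rw [hP, hQ, ← IsIntegrallyClosed.minpoly_smul hf0 hx, ← IsIntegrallyClosed.minpoly_smul hπ0 hy,
      h]
  have hdeg : P.natDegree = Q.natDegree := by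
    have := congrArg natDegree hPQ
    rwa [natDegree_scaleRoots, natDegree_scaleRoots] at this
  have hPmonic : P.Monic := minpoly.monic hx
  -- divisibility of the coefficients
  have hcoeff : ∀ i, π ^ (P.natDegree - i) ∣ P.coeff i := by
    intro i
    have h1 := congrArg (fun p => p.coeff i) hPQ
    simp only [coeff_scaleRoots] at h1
    have h2 : π ^ (P.natDegree - i) ∣ P.coeff i * f ^ (P.natDegree - i) := by
      rw [h1, hdeg]; exact dvd_mul_left _ _
    exact hπ.pow_dvd_of_dvd_mul_right _ (fun hd => hf (hπ.dvd_of_dvd_pow hd)) h2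
  -- the polynomial `P(π X)`
  set p : R[X] := P.comp (C π * X) with hp
  have hpz : aeval z p = 0 := by
    rw [hp, aeval_comp, map_mul, aeval_C, aeval_X, hzx, hP, minpoly.aeval]
  have hpcoeff : ∀ i, p.coeff i = P.coeff i * π ^ i := by
    intro i; rw [hp, comp_C_mul_X_coeff]
  have hnd : (C π * X : R[X]).natDegree = 1 := by
    rw [natDegree_C_mul_X π hπ0]
  have hpdeg : p.natDegree = P.natDegree := by
    rw [hp, natDegree_comp, hnd, mul_one]
  have hplead : p.leadingCoeff = π ^ P.natDegree := by
    rw [leadingCoeff, hpdeg, hpcoeff, ← leadingCoeff, hPmonic.leadingCoeff, one_mul]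
  have hp0 : p ≠ 0 := by
    intro h0
    have := hplead
    rw [h0, leadingCoeff_zero] at this
    exact pow_ne_zero _ hπ0 this.symm
  refine (minpoly.IsIntegrallyClosed.isIntegral_iff_leadingCoeff_dvd hpz hp0 ?_).mpr ?_
  · -- minimality of the degree
    intro q hq hqz
    have hq' : aeval x (q.scaleRoots π) = 0 := by
      rw [← hzx]; exact scaleRoots_aeval_eq_zero hqz
    have hdvd := minpoly.isIntegrallyClosed_dvd hx hq'
    have hq0 : q.scaleRoots π ≠ 0 := scaleRoots_ne_zero hq.ne_zero π
    have h3 : P.natDegree ≤ q.natDegree := by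
      have := natDegree_le_of_dvd hdvd hq0
      rwa [natDegree_scaleRoots] at this
    rw [degree_eq_natDegree hp0, degree_eq_natDegree hq.ne_zero, hpdeg]
    exact_mod_cast h3
  · rw [hplead, C_dvd_iff_dvd_coeff]
    intro i
    rw [hpcoeff]
    rcases le_or_gt i P.natDegree with hi | hi
    · obtain ⟨c, hc⟩ := hcoeff i
      refine ⟨c, ?_⟩
      rw [hc]
      have : P.natDegree = (P.natDegree - i) + i := (Nat.sub_add_cancel hi).symm
      conv_rhs => rw [this, pow_add]
      ring
    · rw [coeff_eq_zero_of_natDegree_lt hi, zero_mul]; exact dvd_zero _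

/-- Version with a witness. -/
theorem exists_isIntegral_smul_eq {π f : R} (hπ : Prime π) (hf : ¬ π ∣ f) {x y : L}
    (hx : IsIntegral R x) (hy : IsIntegral R y) (h : f • x = π • y) :
    ∃ z : L, IsIntegral R z ∧ x = π • z := by
  have hπL : algebraMap R L π ≠ 0 := fun h0 =>
    hπ.ne_zero (FaithfulSMul.algebraMap_injective R L (by rw [h0, map_zero]))
  refine ⟨_, isIntegral_inv_mul_of_smul_eq hπ hf hx hy h, ?_⟩
  rw [Algebra.smul_def, mul_inv_cancel_left₀ hπL]

/-- A1 for the integral closure `C` of `R` in `L`: `π ∣ f • c` and `π ∤ f` imply `π ∣ c` in `C`. -/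
theorem integralClosure_dvd_of_dvd_smul {π f : R} (hπ : Prime π) (hf : ¬ π ∣ f)
    (c : integralClosure R L)
    (h : algebraMap R (integralClosure R L) π ∣ f • c) :
    algebraMap R (integralClosure R L) π ∣ c := by
  obtain ⟨d, hd⟩ := h
  have h' : f • (c : L) = π • (d : L) := by
    have := congrArg (Subtype.val) hd
    simpa [Algebra.smul_def] using this
  obtain ⟨z, hz, hxz⟩ := exists_isIntegral_smul_eq hπ hf c.2 d.2 h'
  refine ⟨⟨z, hz⟩, Subtype.ext ?_⟩
  simpa [Algebra.smul_def] using hxz

/-- A1, ideal form: `C / π C` has no `R / π`-torsion: if `f ∉ (π)` and `f • c ∈ π C` then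
`c ∈ π C`. -/
theorem mem_span_of_smul_mem_span {π f : R} (hπ : Prime π) (hf : f ∉ Ideal.span {π})
    (c : integralClosure R L)
    (h : f • c ∈ Ideal.span {algebraMap R (integralClosure R L) π}) :
    c ∈ Ideal.span {algebraMap R (integralClosure R L) π} := by
  rw [Ideal.mem_span_singleton] at h ⊢
  exact integralClosure_dvd_of_dvd_smul hπ (fun hd => hf (Ideal.mem_span_singleton.mpr hd)) c h

end Fermat.Agent.INJ


end ZBINJ_017_0
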