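/- GENERATED FILE (helper35, build-time optimisation, NOTES/ZB.md): verbatim concatenation of the modules
   Fermat.Agent.S14.Plan
   Fermat.Agent.S14.Euler
   Fermat.Agent.S14.GoodPrime
   Fermat.Agent.S14.EulerAux
   Do not edit; do not import together with these modules. -/
import Mathlib
import Fermat.Prelude.Def_ExtCitation_AdmissibleExtension_v2
import Fermat.Prelude.Def_ClassGroup_GaloisAction
import Fermat.Prelude.Def_Stickelberger_Basic
import Fermat.Agent.ZB.INJ_001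

/-! ### bundled: `Fermat.Agent.S14.Plan` -/
section ZBS14_001_0

/-!
# S14 (ExtVanishingCts): interface file of the class-field-theory-free route

Route (see NOTES/S14.md): Kummer theory + Thaine's relation (cyclotomic units) + a density
comparison for a class group character (needs only "L(s,χ) bounded near 1") + the equivariant
unit theorem + a local computation at the prime above `p`.

This file only contains DEFINITIONS (statements of the pieces as `Prop`s). Each piece is proved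
in its own file `Fermat/Agent/S14/<Piece>.lean`; the wiring is in `Assembly*.lean`.
-/

set_option autoImplicit false

open NumberField IsDedekindDomain

namespace Fermat.Agent.S14

/-! ## Basic predicates -/

/-- `p ∣ ord_v(α)`. -/
def PDvdOrd (p : ℕ) {K : Type} [Field K] [NumberField K]
    (v : HeightOneSpectrum (𝓞 K)) (α : K) : Prop :=
  ∃ n : ℤ, v.valuation K α = WithZero.exp ((p : ℤ) * n)

/-- `α` is a `p`-th power modulo `v^3` (multiplicatively): `ord_v(α / b^p - 1) ≥ 3`. -/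
def LocPow (p : ℕ) {K : Type} [Field K] [NumberField K]
    (v : HeightOneSpectrum (𝓞 K)) (α : K) : Prop :=
  ∃ b : K, b ≠ 0 ∧ v.valuation K (α / b ^ p - 1) ≤ WithZero.exp (-3 : ℤ)

/-- `α` lies in the `ω²`-eigenspace of `K^× / (K^×)^p`: if `σ ζ = ζ^k` then `σ α ≡ α^(k²)`. -/
def IsOmegaSqEigen (p : ℕ) {K : Type} [Field K] [NumberField K] (ζ α : K) : Prop :=
  ∀ (σ : K ≃ₐ[ℚ] K) (k : ℕ), σ ζ = ζ ^ k → ∃ γ : K, σ α = α ^ (k ^ 2) * γ ^ p

/-- The class of a height one prime in the class group. -/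
noncomputable def primeClass {K : Type} [Field K] [NumberField K]
    (v : HeightOneSpectrum (𝓞 K)) : ClassGroup (𝓞 K) :=
  ClassGroup.mk0 ⟨v.asIdeal, mem_nonZeroDivisors_iff_ne_zero.mpr v.ne_bot⟩

/-- `x` is a `p`-th power residue modulo the prime `v`. -/
def IsPowMod (p : ℕ) {K : Type} [Field K] [NumberField K]
    (v : HeightOneSpectrum (𝓞 K)) (x : 𝓞 K) : Prop :=
  ∃ y : 𝓞 K, x - y ^ p ∈ v.asIdeal

/-- `v` is a prime of degree one, not above `p`. -/
def IsDegOne (p : ℕ) {K : Type} [Field K] [NumberField K]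
    (v : HeightOneSpectrum (𝓞 K)) : Prop :=
  (Ideal.absNorm v.asIdeal).Prime ∧ Ideal.absNorm v.asIdeal ≠ p

/-- The `ω²`-component of the cyclotomic unit `1 + ζ`:
`∏_e (1 + ζ^e)^((e⁻¹)²)`, `e` running over `(ℤ/p)^×`. -/
noncomputable def thaineElt (p : ℕ) [NeZero p] {K : Type} [Field K] [NumberField K]
    (ζ : 𝓞 K) : 𝓞 K :=
  ∏ e : (ZMod p)ˣ, (1 + ζ ^ (e : ZMod p).val) ^ (((e⁻¹ : (ZMod p)ˣ) : ZMod p).val ^ 2)

section ClassGroupSide

open JacobiSumStickelberger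

variable (p : ℕ) [NeZero p] (K : Type) [Field K] [NumberField K] [IsCyclotomicExtension {p} ℚ K]

/-- `∑_d d⁻² · [σ_d]` on `Cl(K)/p` (a multiple of the projector onto the `ω²`-eigenspace). -/
noncomputable def proj2 : Module.End (ZMod p) (ClGalModule p (𝓞 K)) :=
  ∑ d : (ZMod p)ˣ, ((((d⁻¹ : (ZMod p)ˣ) : ZMod p)) ^ 2) • clGalAction p K d

/-- The `ω²`-eigenspace of `Cl(K)/p` vanishes. -/
def EigenQuotTrivial : Prop :=
  ∀ a : ClGalModule p (𝓞 K), Stickelberger.IsOmegaEigenvector (clGalAction p K) 2 a → a = 0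

/-- A class killed by `p` on which `σ_d` acts as `d²` is trivial. -/
def ClassEigenTrivial : Prop :=
  ∀ c : ClassGroup (𝓞 K), c ^ p = 1 →
    (∀ d : (ZMod p)ˣ,
      ClassGroup.mulEquiv (clRingAction p K d) c = c ^ ((d : ZMod p).val ^ 2)) → c = 1

end ClassGroupSide

/-! ## The pieces of the core (number field side) -/

/-- **Core**: an `ω²`-eigen element of `ℚ(ζ_p)^×` whose ideal is a `p`-th power and which is a
local `p`-th power at the prime above `p` is a `p`-th power. -/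
def Core (p : ℕ) : Prop :=
  ∀ (K : Type) [Field K] [NumberField K] [IsCyclotomicExtension {p} ℚ K]
    (ζ : K), IsPrimitiveRoot ζ p → ∀ α : K, α ≠ 0 →
    IsOmegaSqEigen p ζ α →
    (∀ v : HeightOneSpectrum (𝓞 K), PDvdOrd p v α) →
    (∀ v : HeightOneSpectrum (𝓞 K), (p : 𝓞 K) ∈ v.asIdeal → LocPow p v α) →
    ∃ δ : K, α = δ ^ p

/-- **N2+N3 (Thaine)**: at a degree one prime where `thaineElt` is not a `p`-th power residue,
the `ω²`-component of the class of the prime in `Cl/p` vanishes. -/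
def ThaineStatement (p : ℕ) [NeZero p] : Prop :=
  ∀ (K : Type) [Field K] [NumberField K] [IsCyclotomicExtension {p} ℚ K]
    (ζ : 𝓞 K), IsPrimitiveRoot ζ p →
    ∀ v : HeightOneSpectrum (𝓞 K), IsDegOne p v → ¬ IsPowMod p v (thaineElt p ζ) →
      proj2 p K (JacobiSumStickelberger.clProj p (𝓞 K) (Additive.ofMul (primeClass v))) = 0

/-- **N4 (good prime)**: for a nontrivial class group character `χ` and a unit `ε` which is not a
`p`-th power, some degree one prime `v` has `χ(v) ≠ 1` and `ε` not a `p`-th power residue. -/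
def GoodPrimeStatement (p : ℕ) : Prop :=
  ∀ (K : Type) [Field K] [NumberField K] [IsCyclotomicExtension {p} ℚ K]
    (ε : 𝓞 K), IsUnit ε → (¬ ∃ y : K, (ε : K) = y ^ p) →
    ∀ χ : ClassGroup (𝓞 K) →* ℂˣ, χ ≠ 1 →
    ∃ v : HeightOneSpectrum (𝓞 K), IsDegOne p v ∧ χ (primeClass v) ≠ 1 ∧ ¬ IsPowMod p v ε

/-- **N4c**: the `L`-series of a nontrivial class group character is bounded on `(1, 2]`. -/
def LBoundedStatement : Prop :=
  ∀ (K : Type) [Field K] [NumberField K] (χ : ClassGroup (𝓞 K) →* ℂˣ), χ ≠ 1 →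
    ∃ C : ℝ, ∀ s : ℝ, 1 < s → s ≤ 2 →
      ‖∑' I : nonZeroDivisors (Ideal (𝓞 K)),
        ((χ (ClassGroup.mk0 I) : ℂˣ) : ℂ) *
          ((Ideal.absNorm (I : Ideal (𝓞 K)) : ℝ) ^ (-s) : ℝ)‖ ≤ C

/-- **N4b**: the primes of degree one at which the unit `ε` (not a `p`-th power) is a `p`-th
power residue have "density at most `1/p`", in product form. -/
def SplitBoundStatement (p : ℕ) : Prop :=
  ∀ (K : Type) [Field K] [NumberField K] [IsCyclotomicExtension {p} ℚ K]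
    (ε : 𝓞 K), IsUnit ε → (¬ ∃ y : K, (ε : K) = y ^ p) →
    ∃ C : ℝ, ∀ s : ℝ, 1 < s → s ≤ 2 →
      ∀ F : Finset (HeightOneSpectrum (𝓞 K)), (∀ v ∈ F, IsDegOne p v ∧ IsPowMod p v ε) →
        ∏ v ∈ F, (1 - (Ideal.absNorm v.asIdeal : ℝ) ^ (-s))⁻¹ ≤ C * (s - 1) ^ (-(1 : ℝ) / p)

/-- **N6+N7 (units)**: a unit in the `ω²`-eigenspace which is a local `p`-th power at the prime
above `p` is a `p`-th power. -/
def UnitsStatement (p : ℕ) : Prop :=
  ∀ (K : Type) [Field K] [NumberField K] [IsCyclotomicExtension {p} ℚ K]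
    (ζ : K), IsPrimitiveRoot ζ p → ∀ u : (𝓞 K)ˣ,
    IsOmegaSqEigen p ζ ((u : 𝓞 K) : K) →
    (∀ v : HeightOneSpectrum (𝓞 K), (p : 𝓞 K) ∈ v.asIdeal → LocPow p v ((u : 𝓞 K) : K)) →
    ∃ w : K, ((u : 𝓞 K) : K) = w ^ p

/-- **N6 (equivariant unit theorem, mod `p`)**: the `ω²`-eigenspace of `E/E^p` has dimension
at most one. -/
def UnitsDimStatement (p : ℕ) : Prop :=
  ∀ (K : Type) [Field K] [NumberField K] [IsCyclotomicExtension {p} ℚ K]
    (ζ : K), IsPrimitiveRoot ζ p → ∀ u₁ u₂ : (𝓞 K)ˣ,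
    IsOmegaSqEigen p ζ ((u₁ : 𝓞 K) : K) → IsOmegaSqEigen p ζ ((u₂ : 𝓞 K) : K) →
    ∃ (i j : ℕ) (w : (𝓞 K)ˣ), (¬ (p ∣ i) ∨ ¬ (p ∣ j)) ∧ u₁ ^ i = u₂ ^ j * w ^ p

/-- **N7 (local computation)**: `thaineElt` is a unit in the `ω²`-eigenspace, and no power
`thaineElt^k` with `p ∤ k` is a local `p`-th power at the prime above `p` (in particular
`thaineElt` is not a `p`-th power). -/
def ThaineLocalStatement (p : ℕ) [NeZero p] : Prop :=
  ∀ (K : Type) [Field K] [NumberField K] [IsCyclotomicExtension {p} ℚ K]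
    (ζ : 𝓞 K), IsPrimitiveRoot ζ p →
    IsUnit (thaineElt p ζ) ∧ IsOmegaSqEigen p (ζ : K) ((thaineElt p ζ : 𝓞 K) : K) ∧
    ∀ (k : ℕ) (w : K), ¬ (p ∣ k) → w ≠ 0 →
      ∀ v : HeightOneSpectrum (𝓞 K), (p : 𝓞 K) ∈ v.asIdeal →
        ¬ LocPow p v (((thaineElt p ζ : 𝓞 K) : K) ^ k * w ^ p)

/-- **N1 (ideal step)**: if all valuations of the eigen element `α` are divisible by `p` and
eigen classes killed by `p` are trivial, then `α` is a unit times a `p`-th power. -/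
def IdealStatement (p : ℕ) [NeZero p] : Prop :=
  ∀ (K : Type) [Field K] [NumberField K] [IsCyclotomicExtension {p} ℚ K]
    (ζ : K), IsPrimitiveRoot ζ p → ∀ α : K, α ≠ 0 →
    IsOmegaSqEigen p ζ α →
    (∀ v : HeightOneSpectrum (𝓞 K), PDvdOrd p v α) →
    ClassEigenTrivial p K →
    ∃ (u : (𝓞 K)ˣ) (δ : K), δ ≠ 0 ∧ α = ((u : 𝓞 K) : K) * δ ^ p

/-! ## The pieces of the glue (inside `AlgebraicClosure ℚ`) -/

/-- **G1**: if every `τ` with trivial cyclotomic character acts trivially, the extension splits. -/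
def SplitStatement (p : ℕ) [Fact p.Prime] : Prop :=
  ∀ (V : Type) [AddCommGroup V] [Module (ZMod p) V]
    [DistribMulAction (AlgebraicClosure ℚ ≃ₐ[ℚ] AlgebraicClosure ℚ) V]
    [SMulCommClass (AlgebraicClosure ℚ ≃ₐ[ℚ] AlgebraicClosure ℚ) (ZMod p) V]
    (C : Submodule (ZMod p) V), ExtCitation.IsAdmissibleExtension p V C →
    (∀ τ : AlgebraicClosure ℚ ≃ₐ[ℚ] AlgebraicClosure ℚ,
      (ExtCitation.cycloExp p τ : ZMod p) = 1 → ∀ x : V, τ • x = x) →
    ExtCitation.SplitsGlobally C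

/-- **G2**: Kummer generator of the field cut out by a non-split admissible extension. -/
def KummerStatement (p : ℕ) [Fact p.Prime] : Prop :=
  ∀ (V : Type) [AddCommGroup V] [Module (ZMod p) V]
    [DistribMulAction (AlgebraicClosure ℚ ≃ₐ[ℚ] AlgebraicClosure ℚ) V]
    [SMulCommClass (AlgebraicClosure ℚ ≃ₐ[ℚ] AlgebraicClosure ℚ) (ZMod p) V]
    (C : Submodule (ZMod p) V), ExtCitation.IsAdmissibleExtensionCts p V C →
    (∃ τ : AlgebraicClosure ℚ ≃ₐ[ℚ] AlgebraicClosure ℚ,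
      (ExtCitation.cycloExp p τ : ZMod p) = 1 ∧ ∃ x : V, τ • x ≠ x) →
    ∀ ζ : AlgebraicClosure ℚ, IsPrimitiveRoot ζ p →
    ∃ a : AlgebraicClosure ℚ, a ≠ 0 ∧ a ^ p ∈ IntermediateField.adjoin ℚ {ζ} ∧
      a ∉ IntermediateField.adjoin ℚ {ζ} ∧
      (∀ σ : AlgebraicClosure ℚ ≃ₐ[ℚ] AlgebraicClosure ℚ, (∀ x : V, σ • x = x) → σ a = a) ∧
      (∀ σ : AlgebraicClosure ℚ ≃ₐ[ℚ] AlgebraicClosure ℚ,
        ∃ γ ∈ IntermediateField.adjoin ℚ {ζ}, σ a = a ^ ((ExtCitation.cycloExp p σ) ^ 2) * γ)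

/-- **G3**: if the inertia groups above `ℓ` fix a `p`-th root `a` of `α ∈ ℚ(ζ)`, then
`p ∣ ord_v(α)` for the primes `v ∣ ℓ` of `ℚ(ζ)` (`ℓ ≠ p`). -/
def InertiaStatement (p : ℕ) : Prop :=
  ∀ (ζ : AlgebraicClosure ℚ), IsPrimitiveRoot ζ p →
    ∀ [NumberField (IntermediateField.adjoin ℚ {ζ})]
    (α : IntermediateField.adjoin ℚ {ζ}) (a : AlgebraicClosure ℚ), a ≠ 0 →
    a ^ p = (α : AlgebraicClosure ℚ) →
    ∀ ℓ : ℕ, ℓ.Prime → ℓ ≠ p →
    (∀ A : ValuationSubring (AlgebraicClosure ℚ), A.LiesOverPrime ℓ →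
      ∀ σ ∈ A.inertiaSubgroupIn ℚ, σ a = a) →
    ∀ v : HeightOneSpectrum (𝓞 (IntermediateField.adjoin ℚ {ζ})),
      (ℓ : 𝓞 (IntermediateField.adjoin ℚ {ζ})) ∈ v.asIdeal → PDvdOrd p v α

/-- **G4**: if the elements of the decomposition groups above `p` that fix `ζ` also fix a `p`-th
root `a` of `α ∈ ℚ(ζ)`, then `p ∣ ord_v(α)` and `α` is a local `p`-th power at the prime
`v ∣ p` of `ℚ(ζ)`. -/
def DecompStatement (p : ℕ) : Prop :=
  ∀ (ζ : AlgebraicClosure ℚ), IsPrimitiveRoot ζ p →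
    ∀ [NumberField (IntermediateField.adjoin ℚ {ζ})]
    (α : IntermediateField.adjoin ℚ {ζ}) (a : AlgebraicClosure ℚ), a ≠ 0 →
    a ^ p = (α : AlgebraicClosure ℚ) →
    (∀ A : ValuationSubring (AlgebraicClosure ℚ), A.LiesOverPrime p →
      ∀ σ ∈ A.decompositionSubgroup ℚ, σ ζ = ζ → σ a = a) →
    ∀ v : HeightOneSpectrum (𝓞 (IntermediateField.adjoin ℚ {ζ})),
      (p : 𝓞 (IntermediateField.adjoin ℚ {ζ})) ∈ v.asIdeal → PDvdOrd p v α ∧ LocPow p v α

end Fermat.Agent.S14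


end ZBS14_001_0

/-! ### bundled: `Fermat.Agent.S14.Euler` -/
section ZBS14_001_1

/-!
# S14, piece N4a: Euler products over the prime ideals of a Dedekind domain / number field

* abstract Euler product for a multiplicative function on the nonzero ideals of a Dedekind domain
  (`eulerHasProd`);
* `E1`: `∑_I N(I)^(-s)` over nonzero ideals is summable for `s > 1` and equals `dedekindZeta`;
  two-sided bounds `c/(s-1) ≤ ζ_K(s) ≤ C/(s-1)` on `(1,2]`;
* `E2`: finite Euler products are bounded by the zeta sum;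
* `E3`: Euler product for the `L`-series of a class group character.
-/

set_option autoImplicit false

open NumberField IsDedekindDomain Filter Topology

namespace Fermat.Agent.S14

section EulerAbstract

variable {R : Type*} [CommRing R] [IsDedekindDomain R]

/-- The nonzero ideal attached to a height one prime. -/
noncomputable def primeIdeal₀ (v : HeightOneSpectrum R) : nonZeroDivisors (Ideal R) :=
  ⟨v.asIdeal, mem_nonZeroDivisors_iff_ne_zero.mpr v.ne_bot⟩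

@[simp] lemma coe_primeIdeal₀ (v : HeightOneSpectrum R) :
    ((primeIdeal₀ v : nonZeroDivisors (Ideal R)) : Ideal R) = v.asIdeal := rfl

/-- The nonzero ideals all of whose prime factors lie in `T`. -/
def eulerSmooth (T : Finset (HeightOneSpectrum R)) : Set (nonZeroDivisors (Ideal R)) :=
  {I | ∀ v : HeightOneSpectrum R, v.asIdeal ∣ (I : Ideal R) → v ∈ T}

lemma eulerSmooth_empty :
    eulerSmooth (∅ : Finset (HeightOneSpectrum R)) = {1} := by
  ext I
  simp only [eulerSmooth, Finset.notMem_empty, imp_false, Set.mem_ofPred_eq, Set.mem_singleton_iff]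
  constructor
  · intro h
    by_contra hI
    have hI' : (I : Ideal R) ≠ ⊤ := fun h1 => hI (Subtype.ext (by simpa using h1))
    obtain ⟨m, hm, hIm⟩ := Ideal.exists_le_maximal _ hI'
    have hm0 : m ≠ ⊥ := by
      rintro rfl
      exact (mem_nonZeroDivisors_iff_ne_zero.mp I.2) (le_bot_iff.mp hIm)
    exact h ⟨m, hm.isPrime, hm0⟩ (Ideal.dvd_iff_le.mpr hIm)
  · rintro rfl v hv
    have : v.asIdeal = ⊤ := by
      have := Ideal.dvd_iff_le.mp hv
      simpa using this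
    exact v.isPrime.ne_top this

lemma heightOne_eq_of_dvd {v w : HeightOneSpectrum R} (h : v.asIdeal ∣ w.asIdeal) : v = w := by
  have hle : w.asIdeal ≤ v.asIdeal := Ideal.dvd_iff_le.mp h
  have hw : w.asIdeal.IsMaximal := w.isMaximal
  exact HeightOneSpectrum.ext (hw.eq_of_le v.isPrime.ne_top hle).symm

omit [IsDedekindDomain R] in
lemma primeIdeal₀_not_isUnit (v : HeightOneSpectrum R) : ¬ IsUnit v.asIdeal := by
  intro h
  exact v.isPrime.ne_top (by simpa using h)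

/-- The bijection `(k, J) ↦ a^k * J` between `ℕ × (T-smooth ideals)` and
`(insert a T)-smooth ideals`, for `a ∉ T`. -/
lemma eulerMap_bijective [DecidableEq (HeightOneSpectrum R)]
    (a : HeightOneSpectrum R) (T : Finset (HeightOneSpectrum R))
    (ha : a ∉ T) :
    ∃ e : ℕ × eulerSmooth T ≃ eulerSmooth (insert a T),
      ∀ p, ((e p : eulerSmooth (insert a T)) : nonZeroDivisors (Ideal R)) =
        primeIdeal₀ a ^ p.1 * (p.2 : nonZeroDivisors (Ideal R)) := by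
  have hprime : Prime a.asIdeal := a.prime
  have hnotdvd : ∀ J : eulerSmooth T, ¬ a.asIdeal ∣ ((J : nonZeroDivisors (Ideal R)) : Ideal R) :=
    fun J h => ha (J.2 a h)
  let g : ℕ × eulerSmooth T → eulerSmooth (insert a T) := fun p =>
    ⟨primeIdeal₀ a ^ p.1 * (p.2 : nonZeroDivisors (Ideal R)), by
      intro v hv
      simp only [Submonoid.coe_mul, SubmonoidClass.coe_pow, coe_primeIdeal₀] at hv
      rcases v.prime.dvd_or_dvd hv with h | h
      · have := v.prime.dvd_of_dvd_pow h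
        rw [heightOne_eq_of_dvd this]
        exact Finset.mem_insert_self _ _
      · exact Finset.mem_insert_of_mem (p.2.2 v h)⟩
  have hg : Function.Bijective g := by
    constructor
    · rintro ⟨k, J⟩ ⟨k', J'⟩ h
      have h1 : a.asIdeal ^ k * ((J : nonZeroDivisors (Ideal R)) : Ideal R) =
          a.asIdeal ^ k' * ((J' : nonZeroDivisors (Ideal R)) : Ideal R) := by
        have := congrArg (fun x : eulerSmooth (insert a T) =>
          ((x : nonZeroDivisors (Ideal R)) : Ideal R)) h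
        simpa [g] using this
      have hJ0 : ((J : nonZeroDivisors (Ideal R)) : Ideal R) ≠ 0 :=
        mem_nonZeroDivisors_iff_ne_zero.mp J.1.2
      have hJ'0 : ((J' : nonZeroDivisors (Ideal R)) : Ideal R) ≠ 0 :=
        mem_nonZeroDivisors_iff_ne_zero.mp J'.1.2
      have hk : k = k' := by
        have e1 : emultiplicity a.asIdeal
            (a.asIdeal ^ k * ((J : nonZeroDivisors (Ideal R)) : Ideal R)) = k := by
          rw [emultiplicity_mul hprime, emultiplicity_pow_self hprime.ne_zero hprime.not_isUnit,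
            emultiplicity_eq_zero.mpr (hnotdvd J), add_zero]
        have e2 : emultiplicity a.asIdeal
            (a.asIdeal ^ k' * ((J' : nonZeroDivisors (Ideal R)) : Ideal R)) = k' := by
          rw [emultiplicity_mul hprime, emultiplicity_pow_self hprime.ne_zero hprime.not_isUnit,
            emultiplicity_eq_zero.mpr (hnotdvd J'), add_zero]
        rw [h1, e2] at e1
        exact_mod_cast e1.symm
      subst hk
      have h2 : ((J : nonZeroDivisors (Ideal R)) : Ideal R) =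
          ((J' : nonZeroDivisors (Ideal R)) : Ideal R) :=
        mul_left_cancel₀ (pow_ne_zero _ hprime.ne_zero) h1
      have : J = J' := Subtype.ext (Subtype.ext h2)
      rw [this]
    · rintro ⟨I, hI⟩
      have hI0 : (I : Ideal R) ≠ 0 := mem_nonZeroDivisors_iff_ne_zero.mp I.2
      obtain ⟨n, J, hJ, hIJ⟩ := WfDvdMonoid.max_power_factor hI0 hprime.irreducible
      have hJ0 : J ≠ 0 := by
        rintro rfl
        simp at hIJ
        exact hI0 hIJ
      have hJs : (⟨J, mem_nonZeroDivisors_iff_ne_zero.mpr hJ0⟩ : nonZeroDivisors (Ideal R)) ∈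
          eulerSmooth T := by
        intro v hv
        have hvI : v.asIdeal ∣ (I : Ideal R) := by
          rw [hIJ]; exact Dvd.dvd.mul_left hv _
        rcases Finset.mem_insert.mp (hI v hvI) with h | h
        · subst h; exact absurd hv hJ
        · exact h
      refine ⟨⟨n, ⟨⟨J, mem_nonZeroDivisors_iff_ne_zero.mpr hJ0⟩, hJs⟩⟩, ?_⟩
      apply Subtype.ext
      apply Subtype.ext
      simp [g, hIJ]
  exact ⟨Equiv.ofBijective g hg, fun p => rfl⟩


variable {F : Type*} [NormedField F] [CompleteSpace F]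

/-- Finite Euler product = sum over smooth ideals. -/
lemma eulerSmooth_summable_hasSum (f : nonZeroDivisors (Ideal R) →* F)
    (hsum : Summable (fun I => ‖f I‖)) (hlt : ∀ v : HeightOneSpectrum R, ‖f (primeIdeal₀ v)‖ < 1)
    (T : Finset (HeightOneSpectrum R)) :
    HasSum (fun I : eulerSmooth T => f (I : nonZeroDivisors (Ideal R)))
      (∏ v ∈ T, (1 - f (primeIdeal₀ v))⁻¹) := by
  classical
  induction T using Finset.induction with
  | empty =>
    rw [eulerSmooth_empty, Finset.prod_empty]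
    have := hasSum_singleton (1 : nonZeroDivisors (Ideal R)) (fun I => f I)
    rw [map_one] at this
    exact this
  | insert a T ha ih =>
    obtain ⟨e, he⟩ := eulerMap_bijective a T ha
    rw [Finset.prod_insert ha, ← e.hasSum_iff]
    have hfun : ((fun I : eulerSmooth (insert a T) => f (I : nonZeroDivisors (Ideal R))) ∘ e) =
        fun p : ℕ × eulerSmooth T => f (primeIdeal₀ a) ^ p.1 * f (p.2 : nonZeroDivisors (Ideal R)) := by
      funext p
      simp [he p]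
    rw [hfun]
    have h1 : HasSum (fun k : ℕ => f (primeIdeal₀ a) ^ k) (1 - f (primeIdeal₀ a))⁻¹ :=
      hasSum_geometric_of_norm_lt_one (hlt a)
    have h1n : Summable (fun k : ℕ => ‖f (primeIdeal₀ a) ^ k‖) := by
      simp_rw [norm_pow]
      exact summable_geometric_of_lt_one (norm_nonneg _) (hlt a)
    have h2n : Summable (fun I : eulerSmooth T => ‖f (I : nonZeroDivisors (Ideal R))‖) :=
      hsum.subtype _
    apply h1.mul ih
    apply summable_mul_of_summable_norm h1n h2n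

/-- Every finite set of nonzero ideals is contained in the `T`-smooth ideals for `T` large. -/
lemma exists_finset_subset_eulerSmooth (A : Finset (nonZeroDivisors (Ideal R))) :
    ∃ T₀ : Finset (HeightOneSpectrum R), ∀ T : Finset (HeightOneSpectrum R), T₀ ⊆ T →
      (A : Set (nonZeroDivisors (Ideal R))) ⊆ eulerSmooth T := by
  classical
  refine ⟨A.biUnion fun I =>
    (Ideal.finite_factors (mem_nonZeroDivisors_iff_ne_zero.mp I.2)).toFinset, ?_⟩
  intro T hT I hI v hv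
  apply hT
  rw [Finset.mem_biUnion]
  exact ⟨I, hI, by simpa using hv⟩

/-- **Euler product** for a multiplicative function on the nonzero ideals of a Dedekind
domain. -/
theorem eulerHasProd (f : nonZeroDivisors (Ideal R) →* F)
    (hsum : Summable (fun I => ‖f I‖)) (hlt : ∀ v : HeightOneSpectrum R, ‖f (primeIdeal₀ v)‖ < 1) :
    HasProd (fun v : HeightOneSpectrum R => (1 - f (primeIdeal₀ v))⁻¹) (∑' I, f I) := by
  classical
  rw [HasProd, SummationFilter.unconditional, Metric.tendsto_atTop]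
  intro ε hε
  have hsum' : Summable (fun I => f I) := hsum.of_norm
  obtain ⟨A, hA⟩ := summable_iff_tsum_vanishing.mp hsum' (Metric.ball 0 ε)
    (Metric.ball_mem_nhds 0 hε)
  obtain ⟨T₀, hT₀⟩ := exists_finset_subset_eulerSmooth A
  refine ⟨T₀, fun T hT => ?_⟩
  have hdisj : Disjoint ((eulerSmooth T)ᶜ : Set (nonZeroDivisors (Ideal R))) (A : Set _) :=
    Set.disjoint_left.mpr fun I hI hIA => hI (hT₀ T hT hIA)
  have h3 := hA _ hdisj
  rw [mem_ball_zero_iff] at h3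
  rw [dist_eq_norm, ← (eulerSmooth_summable_hasSum f hsum hlt T).tsum_eq, norm_sub_rev,
    ← hsum'.tsum_subtype_add_tsum_subtype_compl (eulerSmooth T), add_sub_cancel_left]
  exact h3

end EulerAbstract

section NumberFieldEuler

variable (K : Type) [Field K] [NumberField K]

/-- The coefficient sequence of the Dedekind zeta function has a convergent `L`-series for
`re s > 1`. -/
theorem lseriesSummable_cardNorm {s : ℂ} (hs : 1 < s.re) :
    LSeriesSummable (fun n ↦ ((Nat.card {I : Ideal (𝓞 K) // Ideal.absNorm I = n} : ℝ) : ℂ)) s := by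
  have hlim : Tendsto (fun n : ℕ ↦ (∑ k ∈ Finset.Icc 1 n,
      (Nat.card {I : Ideal (𝓞 K) // Ideal.absNorm I = k} : ℝ)) / (n : ℝ)) atTop
      (𝓝 (dedekindZeta_residue K)) := by
    refine ((Ideal.tendsto_norm_le_div_atTop₀ K).comp tendsto_natCast_atTop_atTop).congr fun n ↦ ?_
    simp only [Function.comp_apply, Nat.cast_le, ← Nat.cast_sum]
    congr
    rw [← add_left_inj 1, ← Ideal.card_norm_le_eq_card_norm_le_add_one,
      show Finset.Icc 1 n = Finset.Ioc 0 n from Finset.Icc_succ_left_eq_Ioc _ _,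
      show 1 = Nat.card {I : Ideal (𝓞 K) // Ideal.absNorm I = 0} by
        simp [Ideal.absNorm_eq_zero_iff],
      Finset.sum_Ioc_add_eq_sum_Icc (n.zero_le),
      ← Finset.card_preimage_eq_sum_card_image_eq
        (fun k _ ↦ Ideal.finite_setOfPred_absNorm_eq k)]
    simp [Set.coe_eq_subtype]
  exact LSeriesSummable_of_sum_norm_bigO_and_nonneg
    (f := fun n ↦ (Nat.card {I : Ideal (𝓞 K) // Ideal.absNorm I = n} : ℝ))
    (Asymptotics.isBigO_atTop_natCast_rpow_of_tendsto_div_rpow (by simpa using hlim))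
    (fun _ ↦ Nat.cast_nonneg _) zero_le_one hs

/-- The norm map on nonzero ideals. -/
noncomputable def normFib : nonZeroDivisors (Ideal (𝓞 K)) → ℕ :=
  fun I ↦ Ideal.absNorm (I : Ideal (𝓞 K))

instance normFib_finite (n : ℕ) :
    Finite {I : nonZeroDivisors (Ideal (𝓞 K)) // normFib K I = n} := by
  have h := Ideal.finite_setOfPred_absNorm_eq (S := 𝓞 K) n
  have : Finite {I : Ideal (𝓞 K) // Ideal.absNorm I = n} := h.to_subtype
  exact Finite.of_injective
    (fun I : {I : nonZeroDivisors (Ideal (𝓞 K)) // normFib K I = n} ↦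
      (⟨(I.1 : Ideal (𝓞 K)), I.2⟩ : {I : Ideal (𝓞 K) // Ideal.absNorm I = n}))
    (fun I J h ↦ by
      have h' := congrArg (fun x : {I : Ideal (𝓞 K) // Ideal.absNorm I = n} ↦ x.1) h
      exact Subtype.ext (Subtype.ext h'))

lemma normFib_card {n : ℕ} (hn : n ≠ 0) :
    Nat.card {I : nonZeroDivisors (Ideal (𝓞 K)) // normFib K I = n} =
      Nat.card {I : Ideal (𝓞 K) // Ideal.absNorm I = n} := by
  refine Nat.card_congr
    { toFun := fun I ↦ ⟨(I.1 : Ideal (𝓞 K)), I.2⟩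
      invFun := fun I ↦ ⟨⟨I.1, mem_nonZeroDivisors_iff_ne_zero.mpr ?_⟩, I.2⟩
      left_inv := fun I ↦ rfl
      right_inv := fun I ↦ rfl }
  rintro h
  have h2 := I.2
  rw [h] at h2
  simp at h2
  exact hn h2.symm

lemma normFib_tsum (s : ℝ) (n : ℕ) :
    ∑' I : {I : nonZeroDivisors (Ideal (𝓞 K)) // normFib K I = n},
      (Ideal.absNorm ((I : nonZeroDivisors (Ideal (𝓞 K))) : Ideal (𝓞 K)) : ℝ) ^ (-s) =
    ‖LSeries.term (fun n ↦ ((Nat.card {I : Ideal (𝓞 K) // Ideal.absNorm I = n} : ℝ) : ℂ)) s n‖ := by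
  have h1 : ∀ I : {I : nonZeroDivisors (Ideal (𝓞 K)) // normFib K I = n},
      (Ideal.absNorm ((I : nonZeroDivisors (Ideal (𝓞 K))) : Ideal (𝓞 K)) : ℝ) ^ (-s) =
        (n : ℝ) ^ (-s) := fun I ↦ by
    have := I.2
    simp only [normFib] at this
    rw [this]
  simp_rw [h1]
  rw [tsum_const]
  rcases eq_or_ne n 0 with rfl | hn
  · have : IsEmpty {I : nonZeroDivisors (Ideal (𝓞 K)) // normFib K I = 0} := by
      refine ⟨fun I ↦ ?_⟩
      have h2 := I.2
      simp only [normFib, Ideal.absNorm_eq_zero_iff] at h2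
      exact (mem_nonZeroDivisors_iff_ne_zero.mp I.1.2) h2
    simp
  · rw [normFib_card K hn, LSeries.term_of_ne_zero hn, norm_div, Complex.norm_real,
      Complex.norm_natCast_cpow_of_pos (Nat.pos_of_ne_zero hn), Complex.ofReal_re,
      Real.rpow_neg (Nat.cast_nonneg _), nsmul_eq_mul, div_eq_mul_inv]
    simp

/-- **E1a**: `∑_I N(I)^(-s)` over the nonzero ideals converges for `s > 1`. -/
theorem summable_absNorm_rpow {s : ℝ} (hs : 1 < s) :
    Summable fun I : nonZeroDivisors (Ideal (𝓞 K)) ↦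
      (Ideal.absNorm (I : Ideal (𝓞 K)) : ℝ) ^ (-s) := by
  rw [← (Equiv.sigmaFiberEquiv (normFib K)).summable_iff]
  refine (summable_sigma_of_nonneg (fun _ ↦ Real.rpow_nonneg (Nat.cast_nonneg _) _)).mpr
    ⟨fun n ↦ Summable.of_finite, ?_⟩
  have hL := (lseriesSummable_cardNorm K (s := (s : ℂ)) (by simpa using hs)).norm
  refine hL.congr fun n ↦ ?_
  rw [← normFib_tsum K s n]
  rfl

/-- **E1b**: the sum over nonzero ideals is the Dedekind zeta function. -/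
theorem tsum_absNorm_rpow_eq_dedekindZeta {s : ℝ} (hs : 1 < s) :
    ((∑' I : nonZeroDivisors (Ideal (𝓞 K)),
      (Ideal.absNorm (I : Ideal (𝓞 K)) : ℝ) ^ (-s) : ℝ) : ℂ) = dedekindZeta K s := by
  have hsum := summable_absNorm_rpow K hs
  have hsum' : Summable (fun p : (Σ n, {I : nonZeroDivisors (Ideal (𝓞 K)) // normFib K I = n}) ↦
      (Ideal.absNorm ((Equiv.sigmaFiberEquiv (normFib K) p :
        nonZeroDivisors (Ideal (𝓞 K))) : Ideal (𝓞 K)) : ℝ) ^ (-s)) :=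
    (Equiv.sigmaFiberEquiv (normFib K)).summable_iff.mpr hsum
  rw [← (Equiv.sigmaFiberEquiv (normFib K)).tsum_eq, hsum'.tsum_sigma' (fun n ↦ Summable.of_finite)]
  have h1 : ∀ n, ∑' I : {I : nonZeroDivisors (Ideal (𝓞 K)) // normFib K I = n},
      (Ideal.absNorm ((Equiv.sigmaFiberEquiv (normFib K) ⟨n, I⟩ :
        nonZeroDivisors (Ideal (𝓞 K))) : Ideal (𝓞 K)) : ℝ) ^ (-s) =
      ‖LSeries.term (fun n ↦ ((Nat.card {I : Ideal (𝓞 K) // Ideal.absNorm I = n} : ℝ) : ℂ)) s n‖ :=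
    fun n ↦ normFib_tsum K s n
  simp_rw [h1]
  rw [Complex.ofReal_tsum, dedekindZeta, LSeries]
  congr 1
  funext n
  rcases eq_or_ne n 0 with rfl | hn
  · simp
  · rw [LSeries.term_of_ne_zero hn, LSeries.term_of_ne_zero hn, norm_div, Complex.norm_real,
      Complex.norm_natCast_cpow_of_pos (Nat.pos_of_ne_zero hn), Complex.ofReal_re]
    simp only [Real.norm_natCast, Complex.ofReal_div, Complex.ofReal_natCast]
    congr 1
    rw [Complex.ofReal_cpow (Nat.cast_nonneg _)]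
    simp

/-- **E1b'**: the same with the coercion inside the sum. -/
theorem tsum_absNorm_rpow_complex {s : ℝ} (hs : 1 < s) :
    ∑' I : nonZeroDivisors (Ideal (𝓞 K)),
      (((Ideal.absNorm (I : Ideal (𝓞 K)) : ℝ) ^ (-s) : ℝ) : ℂ) = dedekindZeta K s := by
  rw [← tsum_absNorm_rpow_eq_dedekindZeta K hs, Complex.ofReal_tsum]

/-- Norms of prime ideals are at least `2`. -/
theorem two_le_absNorm (v : HeightOneSpectrum (𝓞 K)) : 2 ≤ Ideal.absNorm v.asIdeal := by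
  have h0 : Ideal.absNorm v.asIdeal ≠ 0 := by
    rw [Ne, Ideal.absNorm_eq_zero_iff]; exact v.ne_bot
  have h1 : Ideal.absNorm v.asIdeal ≠ 1 := by
    rw [Ne, Ideal.absNorm_eq_one_iff]; exact v.isPrime.ne_top
  omega

lemma absNorm_rpow_nonneg (v : HeightOneSpectrum (𝓞 K)) (s : ℝ) :
    0 ≤ (Ideal.absNorm v.asIdeal : ℝ) ^ (-s) :=
  Real.rpow_nonneg (Nat.cast_nonneg _) _

lemma absNorm_rpow_lt_one (v : HeightOneSpectrum (𝓞 K)) {s : ℝ} (hs : 0 < s) :
    (Ideal.absNorm v.asIdeal : ℝ) ^ (-s) < 1 :=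
  Real.rpow_lt_one_of_one_lt_of_neg (by exact_mod_cast (two_le_absNorm K v)) (neg_neg_of_pos hs)

/-- The values of a class group character have norm `1`. -/
lemma norm_classChar (χ : ClassGroup (𝓞 K) →* ℂˣ) (c : ClassGroup (𝓞 K)) :
    ‖((χ c : ℂˣ) : ℂ)‖ = 1 := by
  have h : ((χ c : ℂˣ) : ℂ) ^ (orderOf c) = 1 := by
    rw [← Units.val_pow_eq_pow_val, ← map_pow, pow_orderOf_eq_one, map_one, Units.val_one]
  exact Complex.norm_eq_one_of_pow_eq_one h (orderOf_pos c).ne'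

/-- The multiplicative function `I ↦ N(I)^(-s)`. -/
noncomputable def zTerm (s : ℝ) : nonZeroDivisors (Ideal (𝓞 K)) →* ℝ where
  toFun I := (Ideal.absNorm (I : Ideal (𝓞 K)) : ℝ) ^ (-s)
  map_one' := by simp
  map_mul' I J := by
    simp only [Submonoid.coe_mul, map_mul, Nat.cast_mul]
    rw [Real.mul_rpow (Nat.cast_nonneg _) (Nat.cast_nonneg _)]

/-- The multiplicative function `I ↦ χ(I) N(I)^(-s)`. -/
noncomputable def lTerm (χ : ClassGroup (𝓞 K) →* ℂˣ) (s : ℝ) :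
    nonZeroDivisors (Ideal (𝓞 K)) →* ℂ where
  toFun I := ((χ (ClassGroup.mk0 I) : ℂˣ) : ℂ) *
    ((Ideal.absNorm (I : Ideal (𝓞 K)) : ℝ) ^ (-s) : ℝ)
  map_one' := by simp
  map_mul' I J := by
    simp only [Submonoid.coe_mul, map_mul, Nat.cast_mul, Units.val_mul]
    rw [Real.mul_rpow (Nat.cast_nonneg _) (Nat.cast_nonneg _)]
    push_cast
    ring

lemma norm_lTerm (χ : ClassGroup (𝓞 K) →* ℂˣ) (s : ℝ) (I : nonZeroDivisors (Ideal (𝓞 K))) :
    ‖lTerm K χ s I‖ = (Ideal.absNorm (I : Ideal (𝓞 K)) : ℝ) ^ (-s) := by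
  simp only [lTerm, MonoidHom.coe_mk, OneHom.coe_mk, norm_mul, norm_classChar, one_mul,
    Complex.norm_real, Real.norm_eq_abs]
  exact abs_of_nonneg (Real.rpow_nonneg (Nat.cast_nonneg _) _)

lemma zTerm_summable_norm {s : ℝ} (hs : 1 < s) : Summable (fun I ↦ ‖zTerm K s I‖) := by
  refine (summable_absNorm_rpow K hs).congr fun I ↦ ?_
  simp only [zTerm, MonoidHom.coe_mk, OneHom.coe_mk, Real.norm_eq_abs]
  exact (abs_of_nonneg (Real.rpow_nonneg (Nat.cast_nonneg _) _)).symm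

lemma zTerm_norm_lt_one {s : ℝ} (hs : 1 < s) (v : HeightOneSpectrum (𝓞 K)) :
    ‖zTerm K s (primeIdeal₀ v)‖ < 1 := by
  simp only [zTerm, MonoidHom.coe_mk, OneHom.coe_mk, Real.norm_eq_abs, coe_primeIdeal₀]
  rw [abs_of_nonneg (absNorm_rpow_nonneg K v s)]
  exact absNorm_rpow_lt_one K v (by linarith)

/-- **E3 (zeta)**: Euler product of the Dedekind zeta function, real form. -/
theorem hasProd_zeta {s : ℝ} (hs : 1 < s) :
    HasProd (fun v : HeightOneSpectrum (𝓞 K) ↦ (1 - (Ideal.absNorm v.asIdeal : ℝ) ^ (-s))⁻¹)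
      (∑' I : nonZeroDivisors (Ideal (𝓞 K)), (Ideal.absNorm (I : Ideal (𝓞 K)) : ℝ) ^ (-s)) :=
  eulerHasProd (zTerm K s) (zTerm_summable_norm K hs) (zTerm_norm_lt_one K hs)

/-- **E3**: Euler product for the `L`-series of a class group character. -/
theorem hasProd_classChar {s : ℝ} (hs : 1 < s) (χ : ClassGroup (𝓞 K) →* ℂˣ) :
    HasProd (fun v : HeightOneSpectrum (𝓞 K) ↦
        (1 - ((χ (primeClass v) : ℂˣ) : ℂ) * ((Ideal.absNorm v.asIdeal : ℝ) ^ (-s) : ℝ))⁻¹)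
      (∑' I : nonZeroDivisors (Ideal (𝓞 K)),
        ((χ (ClassGroup.mk0 I) : ℂˣ) : ℂ) *
          ((Ideal.absNorm (I : Ideal (𝓞 K)) : ℝ) ^ (-s) : ℝ)) := by
  have hsum : Summable (fun I ↦ ‖lTerm K χ s I‖) := by
    simp_rw [norm_lTerm]
    exact summable_absNorm_rpow K hs
  have hlt : ∀ v : HeightOneSpectrum (𝓞 K), ‖lTerm K χ s (primeIdeal₀ v)‖ < 1 := fun v ↦ by
    rw [norm_lTerm]
    exact absNorm_rpow_lt_one K v (by linarith)
  exact eulerHasProd (lTerm K χ s) hsum hlt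

/-- **E3 (norm form)**, in the shape consumed by N4d. -/
theorem tendsto_prod_norm_classChar (χ : ClassGroup (𝓞 K) →* ℂˣ) (s : ℝ) (hs : 1 < s) :
    Filter.Tendsto (fun T : Finset (HeightOneSpectrum (𝓞 K)) =>
        ∏ v ∈ T, ‖(1 : ℂ) - ((χ (primeClass v) : ℂˣ) : ℂ) *
          (((Ideal.absNorm v.asIdeal : ℝ) ^ (-s) : ℝ) : ℂ)‖⁻¹)
      Filter.atTop
      (nhds ‖∑' I : nonZeroDivisors (Ideal (𝓞 K)),
          ((χ (ClassGroup.mk0 I) : ℂˣ) : ℂ) *
            (((Ideal.absNorm (I : Ideal (𝓞 K)) : ℝ) ^ (-s) : ℝ) : ℂ)‖) := by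
  have h := (hasProd_classChar K hs χ).norm
  simp only [norm_inv] at h
  exact h

/-- **E2**: finite Euler products are bounded by the zeta sum. -/
theorem prod_one_sub_inv_le_zeta {s : ℝ} (hs : 1 < s) (T : Finset (HeightOneSpectrum (𝓞 K))) :
    ∏ v ∈ T, (1 - (Ideal.absNorm v.asIdeal : ℝ) ^ (-s))⁻¹ ≤
      ∑' I : nonZeroDivisors (Ideal (𝓞 K)), (Ideal.absNorm (I : Ideal (𝓞 K)) : ℝ) ^ (-s) := by
  have h := eulerSmooth_summable_hasSum (zTerm K s) (zTerm_summable_norm K hs)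
    (zTerm_norm_lt_one K hs) T
  have h2 : ∏ v ∈ T, (1 - (Ideal.absNorm v.asIdeal : ℝ) ^ (-s))⁻¹ =
      ∑' I : eulerSmooth T, (Ideal.absNorm ((I : nonZeroDivisors (Ideal (𝓞 K))) :
        Ideal (𝓞 K)) : ℝ) ^ (-s) := h.tsum_eq.symm
  rw [h2]
  exact (summable_absNorm_rpow K hs).tsum_subtype_le _ (eulerSmooth T)
    (fun _ ↦ Real.rpow_nonneg (Nat.cast_nonneg _) _)

end NumberFieldEuler

end Fermat.Agent.S14


end ZBS14_001_1

/-! ### bundled: `Fermat.Agent.S14.GoodPrime` -/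
section ZBS14_001_2

/-!
# S14, piece N4d: the good prime

From "`L(s,χ)` is bounded on `(1,2]`" (N4c), the split bound (N4b) and the Euler products (N4a)
we deduce: for a nontrivial class group character `χ` and a unit `ε` which is not a `p`-th power
there is a prime `v` of degree one with `χ(v) ≠ 1` at which `ε` is not a `p`-th power residue.

The Euler product inputs are taken as hypotheses `EulerE1`, `EulerE3`, `EulerE4` (exact shapes
below); `goodPrimeStatement_of_euler` is the piece.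
-/

set_option autoImplicit false

open NumberField IsDedekindDomain Filter Topology

namespace Fermat.Agent.S14

/-! ## The Euler product inputs (N4a), in the shape consumed here -/

/-- (E1) for real `s > 1` the sum of `N(I)^(-s)` over the nonzero ideals is `ζ_K(s)`. -/
def EulerE1 : Prop :=
  ∀ (K : Type) [Field K] [NumberField K] (s : ℝ), 1 < s →
    ∑' I : nonZeroDivisors (Ideal (𝓞 K)),
      (((Ideal.absNorm (I : Ideal (𝓞 K)) : ℝ) ^ (-s) : ℝ) : ℂ) = dedekindZeta K s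

/-- (E3) Euler product for the norm of the `L`-series of a class group character. -/
def EulerE3 : Prop :=
  ∀ (K : Type) [Field K] [NumberField K] (χ : ClassGroup (𝓞 K) →* ℂˣ) (s : ℝ), 1 < s →
    Tendsto (fun T : Finset (HeightOneSpectrum (𝓞 K)) =>
        ∏ v ∈ T, ‖(1 : ℂ) - ((χ (primeClass v) : ℂˣ) : ℂ) *
          (((Ideal.absNorm v.asIdeal : ℝ) ^ (-s) : ℝ) : ℂ)‖⁻¹)
      atTop
      (𝓝 ‖∑' I : nonZeroDivisors (Ideal (𝓞 K)),
          ((χ (ClassGroup.mk0 I) : ℂˣ) : ℂ) *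
            (((Ideal.absNorm (I : Ideal (𝓞 K)) : ℝ) ^ (-s) : ℝ) : ℂ)‖)

/-- (E4) the primes whose norm is not a prime number contribute a bounded amount. -/
def EulerE4 : Prop :=
  ∀ (K : Type) [Field K] [NumberField K], ∃ C : ℝ, ∀ s : ℝ, 1 < s →
    ∀ T : Finset (HeightOneSpectrum (𝓞 K)),
      (∀ v ∈ T, ¬ (Ideal.absNorm v.asIdeal).Prime) →
      ∑ v ∈ T, (Ideal.absNorm v.asIdeal : ℝ) ^ (-s) ≤ C

/-! ## Elementary estimates -/

section Estimates

theorem gp_two_le_absNorm {K : Type} [Field K] [NumberField K]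
    (v : HeightOneSpectrum (𝓞 K)) : 2 ≤ Ideal.absNorm v.asIdeal := by
  have h0 : Ideal.absNorm v.asIdeal ≠ 0 := by
    rw [Ne, Ideal.absNorm_eq_zero_iff]
    exact v.ne_bot
  have h1 : Ideal.absNorm v.asIdeal ≠ 1 := by
    rw [Ne, Ideal.absNorm_eq_one_iff]
    exact v.isPrime.ne_top
  omega

/-- `x_v = N(v)^(-s)` lies in `(0, 1/2]` for `s ≥ 1`. -/
theorem gp_x_pos {K : Type} [Field K] [NumberField K]
    (v : HeightOneSpectrum (𝓞 K)) (s : ℝ) : 0 < (Ideal.absNorm v.asIdeal : ℝ) ^ (-s) := by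
  have h2 := gp_two_le_absNorm v
  have : (0 : ℝ) < (Ideal.absNorm v.asIdeal : ℝ) := by
    have : (2 : ℝ) ≤ (Ideal.absNorm v.asIdeal : ℝ) := by exact_mod_cast h2
    linarith
  exact Real.rpow_pos_of_pos this _

theorem gp_x_le_half {K : Type} [Field K] [NumberField K]
    (v : HeightOneSpectrum (𝓞 K)) {s : ℝ} (hs : 1 ≤ s) :
    (Ideal.absNorm v.asIdeal : ℝ) ^ (-s) ≤ 1 / 2 := by
  have h2 : (2 : ℝ) ≤ (Ideal.absNorm v.asIdeal : ℝ) := by exact_mod_cast gp_two_le_absNorm v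
  have hpos : (0 : ℝ) < (Ideal.absNorm v.asIdeal : ℝ) := by linarith
  calc (Ideal.absNorm v.asIdeal : ℝ) ^ (-s)
      ≤ (2 : ℝ) ^ (-s) := Real.rpow_le_rpow_of_nonpos (by norm_num) h2 (by linarith)
    _ ≤ (2 : ℝ) ^ (-1 : ℝ) := Real.rpow_le_rpow_of_exponent_le (by norm_num) (by linarith)
    _ = 1 / 2 := by rw [Real.rpow_neg_one]; norm_num

/-- `(1 - x)⁻¹ ≤ exp (2 x)` on `[0, 1/2]`. -/
theorem gp_inv_le_exp {x : ℝ} (h0 : 0 ≤ x) (h1 : x ≤ 1 / 2) :
    (1 - x)⁻¹ ≤ Real.exp (2 * x) := by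
  have hpos : 0 < 1 - x := by linarith
  have h : (1 - x)⁻¹ ≤ 1 + 2 * x := by
    rw [inv_le_iff_one_le_mul₀ hpos]
    nlinarith
  have h' : 1 + 2 * x ≤ Real.exp (2 * x) := by
    have := Real.add_one_le_exp (2 * x)
    linarith
  linarith

/-- the basic local comparison: `(1-x)⁻¹ ≤ ‖1 - z x‖⁻¹ * ((1-x)⁻¹)²` for `‖z‖ ≤ 1`. -/
theorem gp_local {x : ℝ} (h0 : 0 < x) (h1 : x ≤ 1 / 2) {z : ℂ} (hz : ‖z‖ ≤ 1) :
    (1 - x)⁻¹ ≤ ‖(1 : ℂ) - z * (x : ℂ)‖⁻¹ * ((1 - x)⁻¹) ^ 2 := by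
  have hpos : 0 < 1 - x := by linarith
  have hzx : ‖z * (x : ℂ)‖ ≤ x := by
    rw [norm_mul, Complex.norm_real, Real.norm_of_nonneg h0.le]
    calc ‖z‖ * x ≤ 1 * x := by gcongr
      _ = x := one_mul x
  have hle : ‖(1 : ℂ) - z * (x : ℂ)‖ ≤ 1 + x := by
    calc ‖(1 : ℂ) - z * (x : ℂ)‖ ≤ ‖(1 : ℂ)‖ + ‖z * (x : ℂ)‖ := norm_sub_le _ _
      _ ≤ 1 + x := by rw [norm_one]; linarith
  have hge : 1 - x ≤ ‖(1 : ℂ) - z * (x : ℂ)‖ := by
    calc 1 - x ≤ ‖(1 : ℂ)‖ - ‖z * (x : ℂ)‖ := by rw [norm_one]; linarith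
      _ ≤ ‖(1 : ℂ) - z * (x : ℂ)‖ := norm_sub_norm_le _ _
  have hnpos : 0 < ‖(1 : ℂ) - z * (x : ℂ)‖ := by linarith
  have hinv : (1 + x)⁻¹ ≤ ‖(1 : ℂ) - z * (x : ℂ)‖⁻¹ := by
    rw [inv_le_inv₀ (by linarith) hnpos]
    exact hle
  have hb : 0 < (1 - x)⁻¹ := inv_pos.mpr hpos
  have key : (1 - x)⁻¹ ≤ (1 + x)⁻¹ * ((1 - x)⁻¹) ^ 2 := by
    have h1x : 0 < 1 + x := by linarith
    rw [pow_two, ← mul_assoc]
    have : 1 ≤ (1 + x)⁻¹ * (1 - x)⁻¹ := by
      rw [← mul_inv, one_le_inv₀ (by positivity)]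
      nlinarith
    calc (1 - x)⁻¹ = 1 * (1 - x)⁻¹ := (one_mul _).symm
      _ ≤ ((1 + x)⁻¹ * (1 - x)⁻¹) * (1 - x)⁻¹ := by gcongr
  calc (1 - x)⁻¹ ≤ (1 + x)⁻¹ * ((1 - x)⁻¹) ^ 2 := key
    _ ≤ ‖(1 : ℂ) - z * (x : ℂ)‖⁻¹ * ((1 - x)⁻¹) ^ 2 := by gcongr

/-- values of a character of a finite group have norm one. -/
theorem gp_norm_char {G : Type*} [Group G] [Finite G] (χ : G →* ℂˣ) (g : G) :
    ‖((χ g : ℂˣ) : ℂ)‖ = 1 := by
  have h : (χ g) ^ (Nat.card G) = 1 := by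
    rw [← map_pow, pow_card_eq_one', map_one]
  have h' : ((χ g : ℂˣ) : ℂ) ^ (Nat.card G) = 1 := by
    rw [← Units.val_pow_eq_pow_val, h, Units.val_one]
  exact Complex.norm_eq_one_of_pow_eq_one h' Nat.card_pos.ne'

end Estimates

/-! ## Bounds over the primes which are not of degree one -/

section NotDegOne

variable {K : Type} [Field K] [NumberField K]

theorem gp_finite_norm_eq (n : ℕ) :
    {v : HeightOneSpectrum (𝓞 K) | Ideal.absNorm v.asIdeal = n}.Finite := by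
  have h := Ideal.finite_setOfPred_absNorm_eq (S := 𝓞 K) n
  refine Set.Finite.of_finite_image (f := fun v : HeightOneSpectrum (𝓞 K) => v.asIdeal)
    (h.subset ?_) ?_
  · rintro _ ⟨v, hv, rfl⟩
    exact hv
  · intro v _ w _ hvw
    exact HeightOneSpectrum.ext hvw

theorem gp_sum_not_degOne (p : ℕ) (hE4 : EulerE4) :
    ∃ C : ℝ, ∀ s : ℝ, 1 < s → ∀ T : Finset (HeightOneSpectrum (𝓞 K)),
      (∀ v ∈ T, ¬ IsDegOne p v) →
      ∑ v ∈ T, (Ideal.absNorm v.asIdeal : ℝ) ^ (-s) ≤ C := by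
  classical
  obtain ⟨C4, hC4⟩ := hE4 K
  set Sp : Finset (HeightOneSpectrum (𝓞 K)) := (gp_finite_norm_eq (K := K) p).toFinset with hSp
  refine ⟨C4 + (Sp.card : ℝ) * (1 / 2), fun s hs T hT => ?_⟩
  rw [← Finset.sum_filter_add_sum_filter_not T
    (fun v : HeightOneSpectrum (𝓞 K) => ¬ (Ideal.absNorm v.asIdeal).Prime)]
  have h1 : ∑ v ∈ T.filter (fun v : HeightOneSpectrum (𝓞 K) =>
      ¬ (Ideal.absNorm v.asIdeal).Prime), (Ideal.absNorm v.asIdeal : ℝ) ^ (-s) ≤ C4 :=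
    hC4 s hs _ (fun v hv => (Finset.mem_filter.mp hv).2)
  have hsub : T.filter (fun v : HeightOneSpectrum (𝓞 K) =>
      ¬ ¬ (Ideal.absNorm v.asIdeal).Prime) ⊆ Sp := by
    intro v hv
    obtain ⟨hvT, hvp⟩ := Finset.mem_filter.mp hv
    rw [not_not] at hvp
    rw [hSp, Set.Finite.mem_toFinset]
    show Ideal.absNorm v.asIdeal = p
    by_contra hne
    exact hT v hvT ⟨hvp, hne⟩
  have h2 : ∑ v ∈ T.filter (fun v : HeightOneSpectrum (𝓞 K) =>
      ¬ ¬ (Ideal.absNorm v.asIdeal).Prime), (Ideal.absNorm v.asIdeal : ℝ) ^ (-s)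
      ≤ (Sp.card : ℝ) * (1 / 2) := by
    calc ∑ v ∈ T.filter (fun v : HeightOneSpectrum (𝓞 K) =>
          ¬ ¬ (Ideal.absNorm v.asIdeal).Prime), (Ideal.absNorm v.asIdeal : ℝ) ^ (-s)
        ≤ ∑ v ∈ Sp, (Ideal.absNorm v.asIdeal : ℝ) ^ (-s) :=
          Finset.sum_le_sum_of_subset_of_nonneg hsub (fun v _ _ => (gp_x_pos v s).le)
      _ ≤ ∑ _v ∈ Sp, (1 / 2 : ℝ) := Finset.sum_le_sum (fun v _ => gp_x_le_half v hs.le)
      _ = (Sp.card : ℝ) * (1 / 2) := by rw [Finset.sum_const, nsmul_eq_mul]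
  linarith

theorem gp_prod_not_degOne (p : ℕ) (hE4 : EulerE4) :
    ∃ M : ℝ, 0 < M ∧ ∀ s : ℝ, 1 < s → ∀ T : Finset (HeightOneSpectrum (𝓞 K)),
      (∀ v ∈ T, ¬ IsDegOne p v) →
      ∏ v ∈ T, (1 - (Ideal.absNorm v.asIdeal : ℝ) ^ (-s))⁻¹ ≤ M := by
  obtain ⟨C, hC⟩ := gp_sum_not_degOne (K := K) p hE4
  refine ⟨Real.exp (2 * C), Real.exp_pos _, fun s hs T hT => ?_⟩
  calc ∏ v ∈ T, (1 - (Ideal.absNorm v.asIdeal : ℝ) ^ (-s))⁻¹
      ≤ ∏ v ∈ T, Real.exp (2 * (Ideal.absNorm v.asIdeal : ℝ) ^ (-s)) := by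
        refine Finset.prod_le_prod (fun v _ => ?_) (fun v _ => ?_)
        · have := gp_x_le_half v hs.le
          exact inv_nonneg.mpr (by linarith)
        · exact gp_inv_le_exp (gp_x_pos v s).le (gp_x_le_half v hs.le)
    _ = Real.exp (2 * ∑ v ∈ T, (Ideal.absNorm v.asIdeal : ℝ) ^ (-s)) := by
        rw [← Real.exp_sum, Finset.mul_sum]
    _ ≤ Real.exp (2 * C) := by
        apply Real.exp_le_exp.mpr
        have := hC s hs T hT
        linarith

end NotDegOne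

/-! ## The main comparison -/

section Main

variable {K : Type} [Field K] [NumberField K]

/-- Finite form of the comparison between the Euler products of `ζ_K` and of `L(s,χ)`. -/
theorem gp_finite_compare (p : ℕ) (χ : ClassGroup (𝓞 K) →* ℂˣ) {s : ℝ} (hs : 1 < s)
    {B M : ℝ}
    (hD : ∀ F : Finset (HeightOneSpectrum (𝓞 K)),
      (∀ v ∈ F, IsDegOne p v ∧ χ (primeClass v) ≠ 1) →
      ∏ v ∈ F, (1 - (Ideal.absNorm v.asIdeal : ℝ) ^ (-s))⁻¹ ≤ B)
    (hO : ∀ F : Finset (HeightOneSpectrum (𝓞 K)), (∀ v ∈ F, ¬ IsDegOne p v) →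
      ∏ v ∈ F, (1 - (Ideal.absNorm v.asIdeal : ℝ) ^ (-s))⁻¹ ≤ M)
    (T : Finset (HeightOneSpectrum (𝓞 K))) :
    ∏ v ∈ T, (1 - (Ideal.absNorm v.asIdeal : ℝ) ^ (-s))⁻¹ ≤
      (∏ v ∈ T, ‖(1 : ℂ) - ((χ (primeClass v) : ℂˣ) : ℂ) *
          (((Ideal.absNorm v.asIdeal : ℝ) ^ (-s) : ℝ) : ℂ)‖⁻¹) * (B * M) ^ 2 := by
  classical
  have hbpos : ∀ v : HeightOneSpectrum (𝓞 K),
      0 < (1 - (Ideal.absNorm v.asIdeal : ℝ) ^ (-s))⁻¹ := fun v => by
    have := gp_x_le_half v hs.le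
    exact inv_pos.mpr (by linarith)
  have hb1 : ∀ v : HeightOneSpectrum (𝓞 K),
      1 ≤ (1 - (Ideal.absNorm v.asIdeal : ℝ) ^ (-s))⁻¹ := fun v => by
    have h1 := gp_x_le_half v hs.le
    have h2 := gp_x_pos v s
    rw [one_le_inv₀ (by linarith)]
    linarith
  have hB : 1 ≤ B := by simpa using hD ∅ (by simp)
  -- termwise comparison
  have hterm : ∀ v ∈ T, (1 - (Ideal.absNorm v.asIdeal : ℝ) ^ (-s))⁻¹ ≤
      ‖(1 : ℂ) - ((χ (primeClass v) : ℂˣ) : ℂ) *
          (((Ideal.absNorm v.asIdeal : ℝ) ^ (-s) : ℝ) : ℂ)‖⁻¹ *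
        (if χ (primeClass v) = 1 then 1
          else ((1 - (Ideal.absNorm v.asIdeal : ℝ) ^ (-s))⁻¹) ^ 2) := by
    intro v _
    split_ifs with h
    · rw [h, Units.val_one, one_mul, mul_one, ← Complex.ofReal_one, ← Complex.ofReal_sub,
        Complex.norm_real, Real.norm_of_nonneg]
      have := gp_x_le_half v hs.le
      linarith
    · exact gp_local (gp_x_pos v s) (gp_x_le_half v hs.le) (gp_norm_char χ _).le
  have hanonneg : ∀ v ∈ T, 0 ≤ (1 - (Ideal.absNorm v.asIdeal : ℝ) ^ (-s))⁻¹ :=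
    fun v _ => (hbpos v).le
  refine (Finset.prod_le_prod hanonneg hterm).trans ?_
  rw [Finset.prod_mul_distrib]
  refine mul_le_mul_of_nonneg_left ?_ (Finset.prod_nonneg fun v _ => inv_nonneg.mpr (norm_nonneg _))
  rw [Finset.prod_ite, Finset.prod_const_one, one_mul, Finset.prod_pow]
  have hTB : ∏ v ∈ T.filter (fun v : HeightOneSpectrum (𝓞 K) => ¬ χ (primeClass v) = 1),
      (1 - (Ideal.absNorm v.asIdeal : ℝ) ^ (-s))⁻¹ ≤ B * M := by
    rw [← Finset.prod_filter_mul_prod_filter_not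
      (T.filter (fun v : HeightOneSpectrum (𝓞 K) => ¬ χ (primeClass v) = 1))
      (fun v : HeightOneSpectrum (𝓞 K) => IsDegOne p v)]
    refine mul_le_mul ?_ ?_ (Finset.prod_nonneg fun v _ => (hbpos v).le) (by linarith)
    · refine hD _ (fun v hv => ?_)
      obtain ⟨hv1, hv2⟩ := Finset.mem_filter.mp hv
      exact ⟨hv2, (Finset.mem_filter.mp hv1).2⟩
    · exact hO _ (fun v hv => (Finset.mem_filter.mp hv).2)
  exact pow_le_pow_left₀ (Finset.prod_nonneg fun v _ => (hbpos v).le) hTB 2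

/-- The comparison after passing to the limit over all primes. -/
theorem gp_zeta_le (hE1 : EulerE1) (hE3 : EulerE3) (p : ℕ) (χ : ClassGroup (𝓞 K) →* ℂˣ)
    {s : ℝ} (hs : 1 < s) {B M : ℝ}
    (hD : ∀ F : Finset (HeightOneSpectrum (𝓞 K)),
      (∀ v ∈ F, IsDegOne p v ∧ χ (primeClass v) ≠ 1) →
      ∏ v ∈ F, (1 - (Ideal.absNorm v.asIdeal : ℝ) ^ (-s))⁻¹ ≤ B)
    (hO : ∀ F : Finset (HeightOneSpectrum (𝓞 K)), (∀ v ∈ F, ¬ IsDegOne p v) →
      ∏ v ∈ F, (1 - (Ideal.absNorm v.asIdeal : ℝ) ^ (-s))⁻¹ ≤ M) :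
    ‖dedekindZeta K s‖ ≤
      ‖∑' I : nonZeroDivisors (Ideal (𝓞 K)),
          ((χ (ClassGroup.mk0 I) : ℂˣ) : ℂ) *
            (((Ideal.absNorm (I : Ideal (𝓞 K)) : ℝ) ^ (-s) : ℝ) : ℂ)‖ * (B * M) ^ 2 := by
  have h1 := hE3 K 1 s hs
  have h2 := (hE3 K χ s hs).mul_const ((B * M) ^ 2)
  have hz : ‖∑' I : nonZeroDivisors (Ideal (𝓞 K)),
      (((1 : ClassGroup (𝓞 K) →* ℂˣ) (ClassGroup.mk0 I) : ℂˣ) : ℂ) *
        (((Ideal.absNorm (I : Ideal (𝓞 K)) : ℝ) ^ (-s) : ℝ) : ℂ)‖ = ‖dedekindZeta K s‖ := by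
    rw [← hE1 K s hs]
    congr 1
    refine tsum_congr (fun I => ?_)
    rw [MonoidHom.one_apply, Units.val_one, one_mul]
  rw [hz] at h1
  refine le_of_tendsto_of_tendsto' h1 h2 (fun T => ?_)
  have hcmp := gp_finite_compare p χ hs hD hO T
  refine le_trans (le_of_eq ?_) hcmp
  refine Finset.prod_congr rfl (fun v _ => ?_)
  rw [MonoidHom.one_apply, Units.val_one, one_mul, ← Complex.ofReal_one, ← Complex.ofReal_sub,
    Complex.norm_real, Real.norm_of_nonneg]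
  have := gp_x_le_half v hs.le
  linarith

/-- `(s-1)^(1-2/p) → 0` as `s → 1⁺`, in the shape produced by the comparison. -/
theorem gp_tendsto_zero {p : ℕ} (h3 : 3 ≤ p) (A : ℝ) :
    Tendsto (fun s : ℝ => A * ((s - 1) * ((s - 1) ^ (-(1 : ℝ) / p)) ^ 2)) (𝓝[>] 1) (𝓝 0) := by
  have hp : (0 : ℝ) < p := by
    have : (3 : ℝ) ≤ p := by exact_mod_cast h3
    linarith
  have hexp : (0 : ℝ) < 1 - 2 / p := by
    have : (3 : ℝ) ≤ p := by exact_mod_cast h3
    rw [sub_pos, div_lt_one hp]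
    linarith
  have h1 : Tendsto (fun s : ℝ => (s - 1) ^ (1 - 2 / (p : ℝ))) (𝓝 1) (𝓝 0) := by
    have hc : ContinuousAt (fun x : ℝ => x ^ (1 - 2 / (p : ℝ))) 0 :=
      Real.continuousAt_rpow_const 0 _ (Or.inr hexp.le)
    have hsub : Tendsto (fun s : ℝ => s - 1) (𝓝 1) (𝓝 0) := by
      have : Tendsto (fun s : ℝ => s - 1) (𝓝 1) (𝓝 (1 - 1)) :=
        (continuous_id.sub continuous_const).tendsto 1
      simpa using this
    have := hc.tendsto.comp hsub
    rwa [Real.zero_rpow hexp.ne'] at this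
  have h2 : Tendsto (fun s : ℝ => A * (s - 1) ^ (1 - 2 / (p : ℝ))) (𝓝[>] 1) (𝓝 0) := by
    have := (h1.const_mul A).mono_left (nhdsWithin_le_nhds (s := Set.Ioi (1 : ℝ)))
    simpa using this
  refine h2.congr' ?_
  filter_upwards [self_mem_nhdsWithin] with s hs
  have hs' : 0 < s - 1 := sub_pos.mpr hs
  congr 1
  rw [← Real.rpow_natCast ((s - 1) ^ (-(1 : ℝ) / p)) 2, ← Real.rpow_mul hs'.le]
  nth_rewrite 2 [← Real.rpow_one (s - 1)]
  rw [← Real.rpow_add hs']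
  congr 1
  push_cast
  ring

end Main

/-- **N4d (good prime)**, with the Euler product inputs as hypotheses. -/
theorem goodPrimeStatement_of_euler {p : ℕ} [Fact p.Prime] (h3 : 3 ≤ p)
    (hE1 : EulerE1) (hE3 : EulerE3) (hE4 : EulerE4) :
    LBoundedStatement → SplitBoundStatement p → GoodPrimeStatement p := by
  intro hL hS K _ _ _ ε hε hεpow χ hχ
  by_contra hcon
  replace hcon : ∀ v : HeightOneSpectrum (𝓞 K), IsDegOne p v → χ (primeClass v) ≠ 1 →
      IsPowMod p v ε := by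
    intro v h1 h2
    by_contra h3
    exact hcon ⟨v, h1, h2, h3⟩
  obtain ⟨CL, hCL⟩ := hL K χ hχ
  obtain ⟨CS, hCS⟩ := hS K ε hε hεpow
  obtain ⟨M, hM, hMb⟩ := gp_prod_not_degOne (K := K) p hE4
  -- the inequality for every `s ∈ (1, 2]`
  have hineq : ∀ s : ℝ, 1 < s → s ≤ 2 →
      ‖((s : ℂ) - 1) * dedekindZeta K s‖ ≤
        (CL * (CS * M) ^ 2) * ((s - 1) * ((s - 1) ^ (-(1 : ℝ) / p)) ^ 2) := by
    intro s hs hs2
    have hD : ∀ F : Finset (HeightOneSpectrum (𝓞 K)),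
        (∀ v ∈ F, IsDegOne p v ∧ χ (primeClass v) ≠ 1) →
        ∏ v ∈ F, (1 - (Ideal.absNorm v.asIdeal : ℝ) ^ (-s))⁻¹ ≤
          CS * (s - 1) ^ (-(1 : ℝ) / p) :=
      fun F hF => hCS s hs hs2 F (fun v hv => ⟨(hF v hv).1, hcon v (hF v hv).1 (hF v hv).2⟩)
    have hz := gp_zeta_le hE1 hE3 p χ hs hD (hMb s hs)
    have hLs := hCL s hs hs2
    have hs' : 0 < s - 1 := sub_pos.mpr hs
    have hnorm : ‖((s : ℂ) - 1)‖ = s - 1 := by
      rw [← Complex.ofReal_one, ← Complex.ofReal_sub, Complex.norm_real,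
        Real.norm_of_nonneg hs'.le]
    rw [norm_mul, hnorm]
    have hsq : 0 ≤ (CS * (s - 1) ^ (-(1 : ℝ) / p) * M) ^ 2 := sq_nonneg _
    calc (s - 1) * ‖dedekindZeta K s‖
        ≤ (s - 1) * (CL * (CS * (s - 1) ^ (-(1 : ℝ) / p) * M) ^ 2) := by
          refine mul_le_mul_of_nonneg_left (hz.trans ?_) hs'.le
          exact mul_le_mul_of_nonneg_right hLs hsq
      _ = (CL * (CS * M) ^ 2) * ((s - 1) * ((s - 1) ^ (-(1 : ℝ) / p)) ^ 2) := by ring
  -- pass to the limit `s → 1⁺`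
  have h1 : Tendsto (fun s : ℝ => ‖((s : ℂ) - 1) * dedekindZeta K s‖) (𝓝[>] 1)
      (𝓝 ‖((dedekindZeta_residue K : ℝ) : ℂ)‖) :=
    (tendsto_sub_one_mul_dedekindZeta_nhdsGT K).norm
  have h2 := gp_tendsto_zero h3 (CL * (CS * M) ^ 2)
  have hev : ∀ᶠ s : ℝ in 𝓝[>] (1 : ℝ), ‖((s : ℂ) - 1) * dedekindZeta K s‖ ≤
      (CL * (CS * M) ^ 2) * (((s : ℝ) - 1) * (((s : ℝ) - 1) ^ (-(1 : ℝ) / p)) ^ 2) := by
    filter_upwards [Ioc_mem_nhdsGT (show (1 : ℝ) < 2 by norm_num)] with s hs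
    exact hineq s hs.1 hs.2
  have hle := le_of_tendsto_of_tendsto h1 h2 hev
  rw [Complex.norm_real, Real.norm_of_nonneg (dedekindZeta_residue_pos K).le] at hle
  exact absurd hle (not_le.mpr (dedekindZeta_residue_pos K))

end Fermat.Agent.S14


end ZBS14_001_2

/-! ### bundled: `Fermat.Agent.S14.EulerAux` -/
section ZBS14_001_3

/-!
# S14, piece N4a (part): auxiliary bounds for the Euler products

* `exists_sum_not_prime_le` (E4): the primes of a number field whose norm is not a prime number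
  contribute a bounded amount to `∑ N(v)^(-s)`, uniformly in `s ≥ 1`.
* `exists_prod_not_prime_le` (E4p): the same for the Euler factors.
* `exists_zeta_le_of`, `exists_le_zeta_of` (E1c, E1d): `ζ_K(s) ≍ 1/(s-1)` on `(1, 2]`, given
  that `ζ_K(s)` is the sum of `N(I)^(-s)` over the nonzero ideals (E1a, E1b).
-/

set_option autoImplicit false

open NumberField IsDedekindDomain Filter Topology

namespace Fermat.Agent.S14

section NotPrime

variable (K : Type) [Field K] [NumberField K]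

/-- The rational prime below a prime of `K`. -/
noncomputable def primeBelow {K : Type} [Field K] [NumberField K]
    (v : HeightOneSpectrum (𝓞 K)) : ℕ :=
  Ideal.absNorm (Ideal.under ℤ v.asIdeal)

theorem primeBelow_prime {K : Type} [Field K] [NumberField K]
    (v : HeightOneSpectrum (𝓞 K)) : (primeBelow v).Prime := by
  have : NeZero v.asIdeal := ⟨v.ne_bot⟩
  have := v.isPrime
  exact Nat.absNorm_under_prime v.asIdeal

theorem absNorm_eq_primeBelow_pow {K : Type} [Field K] [NumberField K]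
    (v : HeightOneSpectrum (𝓞 K)) : ∃ f : ℕ, Ideal.absNorm v.asIdeal = primeBelow v ^ f := by
  have := v.isPrime
  have : v.asIdeal.LiesOver (Ideal.span {((primeBelow v : ℕ) : ℤ)}) :=
    Int.liesOver_span_absNorm v.asIdeal
  exact ⟨_, Ideal.absNorm_eq_pow_inertiaDeg' v.asIdeal (primeBelow_prime v)⟩

theorem primeBelow_sq_le {K : Type} [Field K] [NumberField K]
    (v : HeightOneSpectrum (𝓞 K)) (hv : ¬ (Ideal.absNorm v.asIdeal).Prime) :
    primeBelow v ^ 2 ≤ Ideal.absNorm v.asIdeal := by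
  obtain ⟨f, hf⟩ := absNorm_eq_primeBelow_pow v
  have h2 := gp_two_le_absNorm v
  have hp := primeBelow_prime v
  rw [hf]
  refine Nat.pow_le_pow_right hp.pos ?_
  by_contra hlt
  have hf01 : f = 0 ∨ f = 1 := by omega
  rcases hf01 with h | h
  · rw [h, pow_zero] at hf
    omega
  · rw [h, pow_one] at hf
    exact hv (hf ▸ hp)

theorem card_filter_primeBelow_le (F : Finset (HeightOneSpectrum (𝓞 K))) (ℓ : ℕ)
    [DecidablePred fun v : HeightOneSpectrum (𝓞 K) => primeBelow v = ℓ] :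
    (F.filter (fun v => primeBelow v = ℓ)).card ≤ Module.finrank ℚ K := by
  classical
  by_cases hne : (F.filter (fun v => primeBelow v = ℓ)).Nonempty
  swap
  · rw [Finset.not_nonempty_iff_eq_empty] at hne
    rw [hne, Finset.card_empty]
    exact Nat.zero_le _
  obtain ⟨v₀, hv₀⟩ := hne
  have hℓ : ℓ.Prime := (Finset.mem_filter.mp hv₀).2 ▸ primeBelow_prime v₀
  have hp0 : (Ideal.span {(ℓ : ℤ)} : Ideal ℤ) ≠ ⊥ := by
    rw [Ne, Ideal.span_singleton_eq_bot]
    exact_mod_cast hℓ.ne_zero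
  have hfact : Fact ℓ.Prime := ⟨hℓ⟩
  have : (Ideal.span {(ℓ : ℤ)} : Ideal ℤ).IsMaximal := Int.ideal_span_isMaximal_of_prime ℓ
  have hcard := Ideal.card_primesOverFinset_le_finrank (R := ℤ) (S := 𝓞 K) (K := ℚ) (L := K)
    (p := Ideal.span {(ℓ : ℤ)}) hp0
  refine le_trans ?_ hcard
  refine Finset.card_le_card_of_injOn (fun v => v.asIdeal) ?_ ?_
  · intro v hv
    have hvℓ : primeBelow v = ℓ := (Finset.mem_filter.mp hv).2
    rw [Finset.mem_coe, IsDedekindDomain.mem_primesOverFinset_iff hp0]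
    refine ⟨v.isPrime, ?_⟩
    have := Int.liesOver_span_absNorm v.asIdeal
    rw [show Ideal.absNorm (Ideal.under ℤ v.asIdeal) = ℓ from hvℓ] at this
    exact this
  · intro v _ w _ hvw
    exact HeightOneSpectrum.ext hvw

/-- (E4) the primes whose norm is not a prime number contribute a bounded amount. -/
theorem exists_sum_not_prime_le :
    ∃ C : ℝ, ∀ s : ℝ, 1 ≤ s → ∀ F : Finset (HeightOneSpectrum (𝓞 K)),
      (∀ v ∈ F, ¬ (Ideal.absNorm v.asIdeal).Prime) →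
      ∑ v ∈ F, (Ideal.absNorm v.asIdeal : ℝ) ^ (-s) ≤ C := by
  classical
  refine ⟨(Module.finrank ℚ K : ℝ) * (Real.pi ^ 2 / 6), fun s hs F hF => ?_⟩
  -- termwise bound by `1 / ℓ_v ^ 2`
  have hterm : ∀ v ∈ F, (Ideal.absNorm v.asIdeal : ℝ) ^ (-s) ≤ 1 / ((primeBelow v : ℕ) : ℝ) ^ 2 := by
    intro v hv
    have h2 : (2 : ℝ) ≤ (Ideal.absNorm v.asIdeal : ℝ) := by exact_mod_cast gp_two_le_absNorm v
    have hpos : (0 : ℝ) < (Ideal.absNorm v.asIdeal : ℝ) := by linarith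
    have hsq : ((primeBelow v : ℕ) : ℝ) ^ 2 ≤ (Ideal.absNorm v.asIdeal : ℝ) := by
      exact_mod_cast primeBelow_sq_le v (hF v hv)
    have hℓpos : (0 : ℝ) < ((primeBelow v : ℕ) : ℝ) ^ 2 := by
      have : (0 : ℝ) < ((primeBelow v : ℕ) : ℝ) := by exact_mod_cast (primeBelow_prime v).pos
      positivity
    calc (Ideal.absNorm v.asIdeal : ℝ) ^ (-s)
        ≤ (Ideal.absNorm v.asIdeal : ℝ) ^ (-1 : ℝ) :=
          Real.rpow_le_rpow_of_exponent_le (by linarith) (by linarith)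
      _ = 1 / (Ideal.absNorm v.asIdeal : ℝ) := by rw [Real.rpow_neg_one, one_div]
      _ ≤ 1 / ((primeBelow v : ℕ) : ℝ) ^ 2 := one_div_le_one_div_of_le hℓpos hsq
  refine (Finset.sum_le_sum hterm).trans ?_
  rw [Finset.sum_comp (fun ℓ : ℕ => 1 / ((ℓ : ℕ) : ℝ) ^ 2) primeBelow]
  calc ∑ ℓ ∈ F.image primeBelow,
        (F.filter (fun v => primeBelow v = ℓ)).card • (1 / ((ℓ : ℕ) : ℝ) ^ 2)
      ≤ ∑ ℓ ∈ F.image primeBelow, (Module.finrank ℚ K : ℝ) * (1 / ((ℓ : ℕ) : ℝ) ^ 2) := by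
        refine Finset.sum_le_sum (fun ℓ _ => ?_)
        rw [nsmul_eq_mul]
        refine mul_le_mul_of_nonneg_right ?_ (by positivity)
        exact_mod_cast card_filter_primeBelow_le K F ℓ
    _ = (Module.finrank ℚ K : ℝ) * ∑ ℓ ∈ F.image primeBelow, 1 / ((ℓ : ℕ) : ℝ) ^ 2 := by
        rw [Finset.mul_sum]
    _ ≤ (Module.finrank ℚ K : ℝ) * (Real.pi ^ 2 / 6) := by
        refine mul_le_mul_of_nonneg_left ?_ (by positivity)
        exact sum_le_hasSum _ (fun ℓ _ => by positivity) hasSum_zeta_two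

/-- (E4p) the Euler factors at the primes whose norm is not a prime number have bounded
products. -/
theorem exists_prod_not_prime_le :
    ∃ C : ℝ, ∀ s : ℝ, 1 ≤ s → ∀ F : Finset (HeightOneSpectrum (𝓞 K)),
      (∀ v ∈ F, ¬ (Ideal.absNorm v.asIdeal).Prime) →
      ∏ v ∈ F, (1 - (Ideal.absNorm v.asIdeal : ℝ) ^ (-s))⁻¹ ≤ C := by
  obtain ⟨C, hC⟩ := exists_sum_not_prime_le K
  refine ⟨Real.exp (2 * C), fun s hs F hF => ?_⟩
  calc ∏ v ∈ F, (1 - (Ideal.absNorm v.asIdeal : ℝ) ^ (-s))⁻¹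
      ≤ ∏ v ∈ F, Real.exp (2 * (Ideal.absNorm v.asIdeal : ℝ) ^ (-s)) := by
        refine Finset.prod_le_prod (fun v _ => ?_) (fun v _ => ?_)
        · have := gp_x_le_half v hs
          exact inv_nonneg.mpr (by linarith)
        · exact gp_inv_le_exp (gp_x_pos v s).le (gp_x_le_half v hs)
    _ = Real.exp (2 * ∑ v ∈ F, (Ideal.absNorm v.asIdeal : ℝ) ^ (-s)) := by
        rw [← Real.exp_sum, Finset.mul_sum]
    _ ≤ Real.exp (2 * C) := by
        apply Real.exp_le_exp.mpr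
        have := hC s hs F hF
        linarith

end NotPrime

/-! ## `ζ_K(s) ≍ 1/(s-1)` on `(1, 2]` -/

section Zeta

variable (K : Type) [Field K] [NumberField K]

/-- `(s - 1) * ∑ N(I)^(-s)` tends to the residue as `s → 1⁺` (real form of Mathlib's class
number formula), given (E1b). -/
theorem tendsto_sub_one_mul_idealSum
    (hzeta : ∀ s : ℝ, 1 < s →
      ((∑' I : nonZeroDivisors (Ideal (𝓞 K)),
        (Ideal.absNorm (I : Ideal (𝓞 K)) : ℝ) ^ (-s) : ℝ) : ℂ) = dedekindZeta K s) :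
    Tendsto (fun s : ℝ => (s - 1) * ∑' I : nonZeroDivisors (Ideal (𝓞 K)),
        (Ideal.absNorm (I : Ideal (𝓞 K)) : ℝ) ^ (-s)) (𝓝[>] 1) (𝓝 (dedekindZeta_residue K)) := by
  have h := tendsto_sub_one_mul_dedekindZeta_nhdsGT K
  have h' : Tendsto (fun s : ℝ => (((s : ℂ) - 1) * dedekindZeta K s).re) (𝓝[>] 1)
      (𝓝 ((dedekindZeta_residue K : ℝ) : ℂ).re) :=
    (Complex.continuous_re.tendsto _).comp h
  rw [Complex.ofReal_re] at h'
  refine h'.congr' ?_
  filter_upwards [self_mem_nhdsWithin] with s hs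
  rw [← hzeta s hs, ← Complex.ofReal_one, ← Complex.ofReal_sub, ← Complex.ofReal_mul,
    Complex.ofReal_re]

theorem idealSum_antitone
    (hsum : ∀ s : ℝ, 1 < s → Summable fun I : nonZeroDivisors (Ideal (𝓞 K)) =>
      (Ideal.absNorm (I : Ideal (𝓞 K)) : ℝ) ^ (-s))
    {s t : ℝ} (hs : 1 < s) (hst : s ≤ t) :
    ∑' I : nonZeroDivisors (Ideal (𝓞 K)), (Ideal.absNorm (I : Ideal (𝓞 K)) : ℝ) ^ (-t) ≤
      ∑' I : nonZeroDivisors (Ideal (𝓞 K)), (Ideal.absNorm (I : Ideal (𝓞 K)) : ℝ) ^ (-s) := by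
  refine (hsum t (lt_of_lt_of_le hs hst)).tsum_le_tsum (fun I => ?_) (hsum s hs)
  have h1 : (1 : ℝ) ≤ (Ideal.absNorm (I : Ideal (𝓞 K)) : ℝ) := by
    have : Ideal.absNorm (I : Ideal (𝓞 K)) ≠ 0 := by
      rw [Ne, Ideal.absNorm_eq_zero_iff]
      exact nonZeroDivisors.coe_ne_zero I
    exact_mod_cast Nat.one_le_iff_ne_zero.mpr this
  exact Real.rpow_le_rpow_of_exponent_le h1 (by linarith)

theorem one_le_idealSum
    (hsum : ∀ s : ℝ, 1 < s → Summable fun I : nonZeroDivisors (Ideal (𝓞 K)) =>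
      (Ideal.absNorm (I : Ideal (𝓞 K)) : ℝ) ^ (-s))
    {s : ℝ} (hs : 1 < s) :
    1 ≤ ∑' I : nonZeroDivisors (Ideal (𝓞 K)), (Ideal.absNorm (I : Ideal (𝓞 K)) : ℝ) ^ (-s) := by
  have h := (hsum s hs).le_tsum (⟨⊤, mem_nonZeroDivisors_iff_ne_zero.mpr (by
    rw [Ne, Ideal.zero_eq_bot]; exact top_ne_bot)⟩ : nonZeroDivisors (Ideal (𝓞 K)))
    (fun I _ => Real.rpow_nonneg (Nat.cast_nonneg _) _)
  simpa using h

/-- (E1c) `ζ_K(s) ≤ C / (s - 1)` on `(1, 2]`, given (E1a), (E1b). -/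
theorem exists_zeta_le_of
    (hsum : ∀ s : ℝ, 1 < s → Summable fun I : nonZeroDivisors (Ideal (𝓞 K)) =>
      (Ideal.absNorm (I : Ideal (𝓞 K)) : ℝ) ^ (-s))
    (hzeta : ∀ s : ℝ, 1 < s →
      ((∑' I : nonZeroDivisors (Ideal (𝓞 K)),
        (Ideal.absNorm (I : Ideal (𝓞 K)) : ℝ) ^ (-s) : ℝ) : ℂ) = dedekindZeta K s) :
    ∃ C : ℝ, 0 < C ∧ ∀ s : ℝ, 1 < s → s ≤ 2 →
      ∑' I : nonZeroDivisors (Ideal (𝓞 K)), (Ideal.absNorm (I : Ideal (𝓞 K)) : ℝ) ^ (-s) ≤
        C / (s - 1) := by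
  have hκ := dedekindZeta_residue_pos K
  have hlim := tendsto_sub_one_mul_idealSum K hzeta
  have hev : ∀ᶠ s in 𝓝[>] (1 : ℝ), (s - 1) * ∑' I : nonZeroDivisors (Ideal (𝓞 K)),
      (Ideal.absNorm (I : Ideal (𝓞 K)) : ℝ) ^ (-s) < dedekindZeta_residue K + 1 :=
    (tendsto_order.1 hlim).2 _ (by linarith)
  obtain ⟨u, hu, hsub⟩ := mem_nhdsGT_iff_exists_Ioo_subset.mp hev
  rw [Set.mem_Ioi] at hu
  set s₀ : ℝ := (1 + u) / 2 with hs₀
  have hs₀1 : 1 < s₀ := by rw [hs₀]; linarith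
  have hs₀u : s₀ < u := by rw [hs₀]; linarith
  set Z₀ : ℝ := ∑' I : nonZeroDivisors (Ideal (𝓞 K)),
    (Ideal.absNorm (I : Ideal (𝓞 K)) : ℝ) ^ (-s₀) with hZ₀
  have hZ₀1 : 1 ≤ Z₀ := one_le_idealSum K hsum hs₀1
  refine ⟨max (dedekindZeta_residue K + 1) Z₀, lt_max_of_lt_left (by linarith),
    fun s hs hs2 => ?_⟩
  have hs' : 0 < s - 1 := sub_pos.mpr hs
  rw [le_div_iff₀ hs', mul_comm]
  by_cases hsu : s < u
  · exact (hsub ⟨hs, hsu⟩).le.trans (le_max_left _ _)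
  · have hge : s₀ ≤ s := by linarith [not_lt.mp hsu]
    have hZ := idealSum_antitone K hsum hs₀1 hge
    have hZnn : 0 ≤ ∑' I : nonZeroDivisors (Ideal (𝓞 K)),
        (Ideal.absNorm (I : Ideal (𝓞 K)) : ℝ) ^ (-s) := by
      linarith [one_le_idealSum K hsum hs]
    calc (s - 1) * ∑' I : nonZeroDivisors (Ideal (𝓞 K)),
          (Ideal.absNorm (I : Ideal (𝓞 K)) : ℝ) ^ (-s)
        ≤ 1 * Z₀ := mul_le_mul (by linarith) hZ hZnn (by norm_num)
      _ = Z₀ := one_mul _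
      _ ≤ max (dedekindZeta_residue K + 1) Z₀ := le_max_right _ _

/-- (E1d) `c / (s - 1) ≤ ζ_K(s)` on `(1, 2]`, given (E1a), (E1b). -/
theorem exists_le_zeta_of
    (hsum : ∀ s : ℝ, 1 < s → Summable fun I : nonZeroDivisors (Ideal (𝓞 K)) =>
      (Ideal.absNorm (I : Ideal (𝓞 K)) : ℝ) ^ (-s))
    (hzeta : ∀ s : ℝ, 1 < s →
      ((∑' I : nonZeroDivisors (Ideal (𝓞 K)),
        (Ideal.absNorm (I : Ideal (𝓞 K)) : ℝ) ^ (-s) : ℝ) : ℂ) = dedekindZeta K s) :
    ∃ c : ℝ, 0 < c ∧ ∀ s : ℝ, 1 < s → s ≤ 2 →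
      c / (s - 1) ≤
        ∑' I : nonZeroDivisors (Ideal (𝓞 K)), (Ideal.absNorm (I : Ideal (𝓞 K)) : ℝ) ^ (-s) := by
  have hκ := dedekindZeta_residue_pos K
  have hlim := tendsto_sub_one_mul_idealSum K hzeta
  have hev : ∀ᶠ s in 𝓝[>] (1 : ℝ), dedekindZeta_residue K / 2 <
      (s - 1) * ∑' I : nonZeroDivisors (Ideal (𝓞 K)),
        (Ideal.absNorm (I : Ideal (𝓞 K)) : ℝ) ^ (-s) :=
    (tendsto_order.1 hlim).1 _ (by linarith)
  obtain ⟨u, hu, hsub⟩ := mem_nhdsGT_iff_exists_Ioo_subset.mp hev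
  rw [Set.mem_Ioi] at hu
  refine ⟨min (dedekindZeta_residue K / 2) (u - 1), lt_min (by linarith) (by linarith),
    fun s hs hs2 => ?_⟩
  have hs' : 0 < s - 1 := sub_pos.mpr hs
  rw [div_le_iff₀ hs', mul_comm]
  by_cases hsu : s < u
  · exact (min_le_left _ _).trans (hsub ⟨hs, hsu⟩).le
  · have h1 := one_le_idealSum K hsum hs
    calc min (dedekindZeta_residue K / 2) (u - 1) ≤ u - 1 := min_le_right _ _
      _ ≤ s - 1 := by linarith [not_lt.mp hsu]
      _ = (s - 1) * 1 := (mul_one _).symm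
      _ ≤ (s - 1) * ∑' I : nonZeroDivisors (Ideal (𝓞 K)),
          (Ideal.absNorm (I : Ideal (𝓞 K)) : ℝ) ^ (-s) := by gcongr

end Zeta

end Fermat.Agent.S14


end ZBS14_001_3
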