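/- GENERATED FILE (helper35, build-time optimisation, NOTES/ZB.md): verbatim concatenation of the modules
   Fermat.Agent.INJ.Concrete
   Do not edit; do not import together with these modules. -/
import Mathlib
import Fermat.Prelude.Def_ModularCurve_ReductionModL
import Fermat.Agent.ZB.S14_001

/-! ### bundled: `Fermat.Agent.INJ.Concrete` -/
section ZBINJ_004_0

/-!
# (INJ) B-glue: the concrete Kummer field `Lf = F_N(h) ⊆ E((q))`

`E` a field, `F = modularFunctionFieldFullC E N ⊆ E((q))`, `h ∈ E((q))`.
* `kumField E N h : IntermediateField E (LaurentSeries E)` is `E(F ∪ {h})`;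
* `kumIncl : F →ₐ[E] kumField`, the algebra structure `kumAlgebra` of `kumField` over `F`
  (a `def`, to be installed with `letI`), `kumGen : kumField` the element `h`;
* `kumField_adjoin_gen` : `F⟮h⟯ = ⊤` in `kumField`.
-/

set_option autoImplicit false

open ModularCurve IntermediateField

namespace Fermat.Agent.INJ

variable (E : Type*) [Field E] (N : ℕ) (h : LaurentSeries E)

/-- the field `F_N(h)` inside `E((q))` -/
noncomputable def kumField : IntermediateField E (LaurentSeries E) :=
  IntermediateField.adjoin E
    (((modularFunctionFieldFullC E N : IntermediateField E (LaurentSeries E)) :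
      Set (LaurentSeries E)) ∪ {h})

theorem le_kumField : modularFunctionFieldFullC E N ≤ kumField E N h := by
  intro x hx
  exact IntermediateField.subset_adjoin E _ (Or.inl hx)

theorem mem_kumField_self : h ∈ kumField E N h :=
  IntermediateField.subset_adjoin E _ (Or.inr rfl)

/-- the inclusion `F_N → F_N(h)` -/
noncomputable def kumIncl : modularFunctionFieldFullC E N →ₐ[E] kumField E N h :=
  IntermediateField.inclusion (le_kumField E N h)

theorem coe_kumIncl (x : modularFunctionFieldFullC E N) :
    ((kumIncl E N h x : kumField E N h) : LaurentSeries E) = (x : LaurentSeries E) :=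
  IntermediateField.coe_inclusion _ _

theorem kumIncl_injective : Function.Injective (kumIncl E N h) :=
  (kumIncl E N h).toRingHom.injective

/-- the generator `h` of `F_N(h)` -/
noncomputable def kumGen : kumField E N h := ⟨h, mem_kumField_self E N h⟩

@[simp] theorem coe_kumGen : ((kumGen E N h : kumField E N h) : LaurentSeries E) = h := rfl

/-- `F_N(h)` as an algebra over `F_N` -/
@[reducible] noncomputable def kumAlgebra :
    Algebra (modularFunctionFieldFullC E N) (kumField E N h) :=
  (kumIncl E N h).toRingHom.toAlgebra

theorem kum_algebraMap_eq (x : modularFunctionFieldFullC E N) :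
    letI := kumAlgebra E N h
    algebraMap (modularFunctionFieldFullC E N) (kumField E N h) x = kumIncl E N h x := rfl

theorem kum_isScalarTower :
    letI := kumAlgebra E N h
    IsScalarTower E (modularFunctionFieldFullC E N) (kumField E N h) := by
  letI := kumAlgebra E N h
  refine IsScalarTower.of_algebraMap_eq fun c => ?_
  rw [kum_algebraMap_eq]
  exact ((kumIncl E N h).commutes c).symm

/-- `F_N(h)` is generated by `h` over `F_N`. -/
theorem kumField_adjoin_gen :
    letI := kumAlgebra E N h
    IntermediateField.adjoin (modularFunctionFieldFullC E N) {kumGen E N h} = ⊤ := by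
  letI := kumAlgebra E N h
  haveI := kum_isScalarTower E N h
  rw [eq_top_iff]
  rintro ⟨x, hx⟩ -
  let M : IntermediateField E (LaurentSeries E) :=
    IntermediateField.lift
      ((IntermediateField.adjoin (modularFunctionFieldFullC E N)
        {kumGen E N h}).restrictScalars E)
  have hM : kumField E N h ≤ M := by
    rw [kumField, IntermediateField.adjoin_le_iff]
    rintro y (hy | hy)
    · refine ⟨kumIncl E N h ⟨y, hy⟩, ?_, ?_⟩
      · have : kumIncl E N h ⟨y, hy⟩ =
            algebraMap (modularFunctionFieldFullC E N) (kumField E N h) ⟨y, hy⟩ :=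
          (kum_algebraMap_eq E N h _).symm
        rw [this]
        exact IntermediateField.algebraMap_mem
          (IntermediateField.adjoin (modularFunctionFieldFullC E N) {kumGen E N h}) _
      · show ((kumIncl E N h ⟨y, hy⟩ : kumField E N h) : LaurentSeries E) = y
        exact coe_kumIncl E N h _
    · rw [Set.mem_singleton_iff] at hy
      subst hy
      exact ⟨kumGen E N y, IntermediateField.mem_adjoin_simple_self _ _, rfl⟩
  obtain ⟨z, hz, hzx⟩ := hM hx
  have : z = ⟨x, hx⟩ := Subtype.ext hzx
  rw [← this]
  exact hz

end Fermat.Agent.INJ


end ZBINJ_004_0
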