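/- GENERATED FILE (helper35, build-time optimisation, NOTES/ZB.md): verbatim concatenation of the modules
   Fermat.Agent.S24.GenusOfDegree
   Do not edit; do not import together with these modules. -/
import Fermat.Prelude.Def_AlgebraicCurve_CanonicalDivisor
import Fermat.Agent.ZB.S24_007
import Fermat.Agent.ZB.INJ_004

/-! ### bundled: `Fermat.Agent.S24.GenusOfDegree` -/
section ZBS24_014_0

/-!
# S24 / F1 — the genus from the degree of the divisor of one differential `dj`
-/

set_option autoImplicit false

open AlgebraicCurve KaehlerDifferential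

namespace Fermat.Agent.S24

variable {K F : Type*} [Field K] [Field F] [Algebra K F]

/-- The degree of the divisor of any nonzero differential, from the degree of `div(dj)`. -/
theorem degree_canonicalDivisorOf [HasCanonicalDivisor (K := K) (F := F)] (j : F) (d : ℤ)
    (hdj : KaehlerDifferential.D K F j ≠ 0)
    (hspan : ∀ ω : Ω[F⁄K], ∃ g : F, ω = g • KaehlerDifferential.D K F j)
    (hgen : ∀ v : Place K F, v.DCoordGenerates)
    (hprinc : ∀ (g : F), g ≠ 0 → ∀ D : Divisor K F, (∀ v, D v = v.ord g) → Divisor.degree D = 0)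
    (hdeg : ∀ D : Divisor K F, (∀ v, D v = v.ordDifferential (KaehlerDifferential.D K F j)) →
      Divisor.degree D = d)
    (ω : Ω[F⁄K]) (hω : ω ≠ 0) :
    Divisor.degree (canonicalDivisorOf hω) = d := by
  have : Nontrivial Ω[F⁄K] := ⟨⟨_, _, hdj⟩⟩
  obtain ⟨g, hg⟩ := hspan ω
  have hg0 : g ≠ 0 := by
    rintro rfl
    rw [zero_smul] at hg
    exact hω hg
  have hcoeff : ∀ v : Place K F, v.differentialCoeff (KaehlerDifferential.D K F j) ≠ 0 := by
    intro v h0
    have := hgen v
    have := v.differentialCoeff_smul_dCoord (KaehlerDifferential.D K F j)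
    rw [h0, zero_smul] at this
    exact hdj this.symm
  have h1 : ∀ v : Place K F,
      (canonicalDivisorOf hω - canonicalDivisorOf hdj : Divisor K F) v = v.ord g := by
    intro v
    have := hgen v
    rw [Finsupp.sub_apply, canonicalDivisorOf_apply, canonicalDivisorOf_apply]
    have : v.ordDifferential ω = v.ord g + v.ordDifferential (KaehlerDifferential.D K F j) := by
      conv_lhs => rw [hg]
      exact v.ordDifferential_smul hg0 (hcoeff v)
    rw [this]; ring
  have h2 := hprinc g hg0 _ h1
  have h3 := hdeg (canonicalDivisorOf hdj) (fun v => canonicalDivisorOf_apply hdj v)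
  rw [map_sub, h3] at h2
  linarith

/-- F1: the genus from the degree of the divisor of one differential `dj`. -/
theorem genus_eq_of_degree [HasCanonicalDivisor (K := K) (F := F)] (j : F) (G : ℕ)
    (hdj : KaehlerDifferential.D K F j ≠ 0)
    (hspan : ∀ ω : Ω[F⁄K], ∃ g : F, ω = g • KaehlerDifferential.D K F j)
    (hgen : ∀ v : Place K F, v.DCoordGenerates)
    (hprinc : ∀ (g : F), g ≠ 0 → ∀ D : Divisor K F, (∀ v, D v = v.ord g) → Divisor.degree D = 0)
    (hdeg : ∀ D : Divisor K F, (∀ v, D v = v.ordDifferential (KaehlerDifferential.D K F j)) →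
      Divisor.degree D = 2 * (G : ℤ) - 2) :
    genus K F = G := by
  have hex : ∃ ω : Ω[F⁄K], ω ≠ 0 := ⟨_, hdj⟩
  unfold genus
  rw [dif_pos hex,
    degree_canonicalDivisorOf j (2 * (G : ℤ) - 2) hdj hspan hgen hprinc hdeg _ hex.choose_spec]
  omega

end Fermat.Agent.S24


end ZBS24_014_0
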