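/- GENERATED FILE (helper35, build-time optimisation, NOTES/ZB.md): verbatim concatenation of the modules
   Fermat.Agent.S24.DiffSpan
   Fermat.Agent.S24.Assembly
   Do not edit; do not import together with these modules. -/
import Mathlib
import Fermat.Prelude.Def_AlgebraicCurve_CanonicalDivisor
import Fermat.Agent.ZB.S24_001
import Fermat.Agent.ZB.S24_007
import Fermat.Agent.ZB.S24_014

/-! ### bundled: `Fermat.Agent.S24.DiffSpan` -/
section ZBS24_015_0

/-!
# S24, piece P3a — `Ω[F⁄K] = F · dπ` for a function field of one variable in characteristic zero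

Generic statements (no modular input). `K` a field of characteristic zero, `F ⊇ K` a field,
`x : F` transcendental over `K` with `F` algebraic over `K⟮x⟯`.

Main results (namespace `Fermat.Agent.S24.DiffSpan`):
* `exists_dCoord_eq`       : the prelude's `v.dCoord` is `D K F π₀` for some `π₀` with `v.ord π₀ = 1`;
* `isAlgebraic_adjoin_simple_of_transcendental` : exchange (`F` is algebraic over `K⟮π⟯` for every transcendental `π`);
* `exists_polynomial_adjoin` : every `a : F` is a root of a polynomial over `K[π]` whose derivative does not vanish at `a`;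
* `span_D_eq_top`          : `span F {D K F π} = ⊤`;
* `D_ne_zero_of_transcendental` : `D K F π ≠ 0`;
* `nontrivial_kaehler`, `dCoordGenerates`, `ord_eq_zero_of_isAlgebraic`, `transcendental_of_ord_ne_zero`.
-/

set_option autoImplicit false

noncomputable section

open AlgebraicCurve KaehlerDifferential Polynomial IntermediateField

namespace Fermat.Agent.S24.DiffSpan

universe u v

variable {K : Type u} {F : Type v} [Field K] [Field F] [Algebra K F]

/-! ### 0. The uniformizer hidden in `Place.dCoord` -/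

/-- The prelude's `v.dCoord` is the differential of an element of order one. -/
theorem exists_dCoord_eq (v : Place K F) :
    ∃ π₀ : F, v.ord π₀ = 1 ∧ v.dCoord = D K F π₀ := by
  refine ⟨_, ?_, rfl⟩
  exact v.ord_coe_irreducible
    (IsDiscreteValuationRing.exists_irreducible v.toValuationSubring).choose_spec

/-! ### 1. Elements algebraic over `K` have order zero -/

theorem mem_toValuationSubring_of_isAlgebraic (v : Place K F) {a : F} (ha : IsAlgebraic K a) :
    a ∈ v.toValuationSubring := by
  have hint : IsIntegral K a := ha.isIntegral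
  have hA : IsIntegral v.toValuationSubring a := hint.tower_top
  obtain ⟨y, hy⟩ := (IsIntegrallyClosed.isIntegral_iff (R := v.toValuationSubring) (K := F)).1 hA
  rw [← hy]
  exact y.2

theorem ord_eq_zero_of_isAlgebraic (v : Place K F) {a : F} (ha : IsAlgebraic K a) :
    v.ord a = 0 := by
  rcases eq_or_ne a 0 with rfl | h0
  · exact v.ord_zero
  have h1 : a ∈ v.toValuationSubring := mem_toValuationSubring_of_isAlgebraic v ha
  have h2 : a⁻¹ ∈ v.toValuationSubring := mem_toValuationSubring_of_isAlgebraic v ha.inv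
  let u : (v.toValuationSubring)ˣ :=
    ⟨⟨a, h1⟩, ⟨a⁻¹, h2⟩, Subtype.ext (mul_inv_cancel₀ h0), Subtype.ext (inv_mul_cancel₀ h0)⟩
  exact v.ord_coe_unit u

theorem transcendental_of_ord_ne_zero (v : Place K F) {a : F} (h : v.ord a ≠ 0) :
    Transcendental K a :=
  fun ha => h (ord_eq_zero_of_isAlgebraic v ha)

/-! ### 2. Exchange -/

open scoped IntermediateField.algebraAdjoinAdjoin in
/-- If `F` is algebraic over `K⟮x⟯` with `x` transcendental, then `F` is algebraic over `K⟮π⟯`
for every transcendental `π`. -/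
theorem isAlgebraic_adjoin_simple_of_transcendental {x π : F} (hx : Transcendental K x)
    (halg : Algebra.IsAlgebraic K⟮x⟯ F) (hπ : Transcendental K π) :
    Algebra.IsAlgebraic K⟮π⟯ F := by
  have hxi : AlgebraicIndependent K (fun _ : PUnit.{v + 1} => x) :=
    algebraicIndependent_unique_type_iff.2 hx
  have hπi : AlgebraicIndependent K (fun _ : PUnit.{v + 1} => π) :=
    algebraicIndependent_unique_type_iff.2 hπ
  have hrange : ∀ y : F, Set.range (fun _ : PUnit.{v + 1} => y) = {y} := fun y => Set.range_const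
  have hxb : IsTranscendenceBasis K (fun _ : PUnit.{v + 1} => x) := by
    rw [hxi.isTranscendenceBasis_iff_isAlgebraic, hrange]
    exact Algebra.IsAlgebraic.trans (Algebra.adjoin K {x}) K⟮x⟯ F
  have htr := hxb.cardinalMk_eq_trdeg
  have hπb : IsTranscendenceBasis K (fun _ : PUnit.{v + 1} => π) :=
    hπi.isTranscendenceBasis_of_trdeg_le (by rw [← htr]; simp) (by rw [← htr])
  have := hπb.isAlgebraic_field
  rwa [hrange] at this

/-! ### 3. A polynomial over `K[π]` with non-vanishing derivative -/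

open scoped IntermediateField.algebraAdjoinAdjoin in
theorem isAlgebraic_adjoin_of_isAlgebraic_adjoin_simple {π : F}
    (halg : Algebra.IsAlgebraic K⟮π⟯ F) (a : F) : IsAlgebraic (Algebra.adjoin K {π}) a :=
  (IsFractionRing.isAlgebraic_iff (Algebra.adjoin K {π}) K⟮π⟯ F).2 (halg.isAlgebraic a)

/-- Every `a : F` is a root of a polynomial `G` with coefficients in `K[π]` such that `G'(a) ≠ 0`
(characteristic zero). -/
theorem exists_polynomial_adjoin [CharZero K] {π : F} (halg : Algebra.IsAlgebraic K⟮π⟯ F) (a : F) :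
    ∃ G : (Algebra.adjoin K {π})[X], aeval a G = 0 ∧ aeval a (derivative G) ≠ 0 := by
  have : CharZero F := charZero_of_injective_algebraMap (algebraMap K F).injective
  have : CharZero (Algebra.adjoin K {π}) :=
    charZero_of_injective_algebraMap (R := K) (A := Algebra.adjoin K {π})
      (FaithfulSMul.algebraMap_injective K _)
  have key : ∀ n : ℕ, ∀ G : (Algebra.adjoin K {π})[X], G.natDegree = n → G ≠ 0 → aeval a G = 0 →
      ∃ G' : (Algebra.adjoin K {π})[X], aeval a G' = 0 ∧ aeval a (derivative G') ≠ 0 := by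
    intro n
    induction n using Nat.strong_induction_on with
    | _ n ih =>
      intro G hn hG0 hGa
      by_cases hd : aeval a (derivative G) = 0
      · have hdeg : G.natDegree ≠ 0 := by
          intro h0
          obtain ⟨g, rfl⟩ := natDegree_eq_zero.1 h0
          rw [aeval_C] at hGa
          have hg : g = 0 := by
            have : algebraMap (Algebra.adjoin K {π}) F g = algebraMap (Algebra.adjoin K {π}) F 0 := by
              rw [hGa, map_zero]
            exact (FaithfulSMul.algebraMap_injective (Algebra.adjoin K {π}) F) this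
          exact hG0 (by rw [hg, map_zero])
        have hne : derivative G ≠ 0 := fun h => hdeg (Polynomial.derivative_eq_zero.1 h)
        have hlt : (derivative G).natDegree < n := by
          rw [← hn]
          exact natDegree_derivative_lt hdeg
        exact ih _ hlt (derivative G) rfl hne hd
      · exact ⟨G, hGa, hd⟩
  obtain ⟨G, hG0, hGa⟩ := isAlgebraic_adjoin_of_isAlgebraic_adjoin_simple halg a
  exact key _ G rfl hG0 hGa

/-! ### 4. `Ω[F⁄K]` is spanned by `dπ` -/

theorem D_mem_span_of_mem_adjoin {π g : F} (hg : g ∈ Algebra.adjoin K {π}) :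
    D K F g ∈ Submodule.span F {D K F π} := by
  induction hg using Algebra.adjoin_induction with
  | mem x hx =>
    rw [Set.mem_singleton_iff] at hx
    rw [hx]
    exact Submodule.mem_span_singleton_self _
  | algebraMap r =>
    rw [Derivation.map_algebraMap]
    exact Submodule.zero_mem _
  | add x y _ _ hx hy =>
    rw [map_add]
    exact Submodule.add_mem _ hx hy
  | mul x y _ _ hx hy =>
    rw [Derivation.leibniz]
    exact Submodule.add_mem _ (Submodule.smul_mem _ _ hy) (Submodule.smul_mem _ _ hx)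

/-- The "chain rule modulo `dπ`": for `G` with coefficients in `K[π]`,
`d(G(a)) - G'(a) • da ∈ F · dπ`. -/
theorem D_aeval_sub_mem_span {π : F} (a : F) (G : (Algebra.adjoin K {π})[X]) :
    D K F (aeval a G) - aeval a (derivative G) • D K F a ∈ Submodule.span F {D K F π} := by
  induction G using Polynomial.induction_on' with
  | add p q hp hq =>
    have : D K F (aeval a (p + q)) - aeval a (derivative (p + q)) • D K F a =
        (D K F (aeval a p) - aeval a (derivative p) • D K F a) +
        (D K F (aeval a q) - aeval a (derivative q) • D K F a) := by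
      simp only [map_add, add_smul]
      abel
    rw [this]
    exact Submodule.add_mem _ hp hq
  | monomial n g =>
    have h1 : aeval a (monomial n g) = (g : F) * a ^ n := by
      rw [aeval_monomial]; rfl
    have h2 : aeval a (derivative (monomial n g)) = ((g : F) * (n : F)) * a ^ (n - 1) := by
      rw [derivative_monomial, aeval_monomial, map_mul, map_natCast]
      rfl
    have h3 : D K F ((g : F) * a ^ n) - (((g : F) * (n : F)) * a ^ (n - 1)) • D K F a =
        a ^ n • D K F (g : F) := by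
      rw [Derivation.leibniz, Derivation.leibniz_pow]
      have e : (g : F) • n • a ^ (n - 1) • D K F a =
          ((g : F) * (n : F) * a ^ (n - 1)) • D K F a := by
        rw [← Nat.cast_smul_eq_nsmul F n, smul_smul, smul_smul, mul_assoc]
      rw [e]
      abel
    rw [h1, h2, h3]
    exact Submodule.smul_mem _ _ (D_mem_span_of_mem_adjoin g.2)

/-- `Ω[F⁄K] = F · dπ`. -/
theorem span_D_eq_top [CharZero K] {π : F} (halg : Algebra.IsAlgebraic K⟮π⟯ F) :
    Submodule.span F {D K F π} = ⊤ := by
  rw [eq_top_iff, ← span_range_derivation K F, Submodule.span_le]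
  rintro _ ⟨a, rfl⟩
  obtain ⟨G, hG0, hG1⟩ := exists_polynomial_adjoin halg a
  have h := D_aeval_sub_mem_span (K := K) a G
  rw [hG0, map_zero, zero_sub] at h
  have h' : aeval a (derivative G) • D K F a ∈ Submodule.span F {D K F π} := by
    have := Submodule.neg_mem _ h
    rwa [neg_neg] at this
  have := Submodule.smul_mem _ (aeval a (derivative G))⁻¹ h'
  rwa [smul_smul, inv_mul_cancel₀ hG1, one_smul] at this

/-! ### 5. `dπ ≠ 0` for transcendental `π` -/

/-- In `Ω[K⟮π⟯⁄K]` every differential is a multiple of `d(gen)`. -/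
theorem D_adjoinSimple_mem_span (π : F) (y : K⟮π⟯) :
    D K K⟮π⟯ y ∈ Submodule.span K⟮π⟯ {D K K⟮π⟯ (AdjoinSimple.gen K π)} := by
  obtain ⟨y, hy⟩ := y
  induction hy using IntermediateField.adjoin_induction with
  | mem x hx =>
    rw [Set.mem_singleton_iff] at hx
    subst hx
    exact Submodule.mem_span_singleton_self _
  | algebraMap r =>
    have : (⟨algebraMap K F r, IntermediateField.algebraMap_mem _ _⟩ : K⟮π⟯) =
        algebraMap K K⟮π⟯ r := rfl
    rw [this, Derivation.map_algebraMap]
    exact Submodule.zero_mem _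
  | add x y hx hy ihx ihy =>
    have : (⟨x + y, add_mem hx hy⟩ : K⟮π⟯) = ⟨x, hx⟩ + ⟨y, hy⟩ := rfl
    rw [this, map_add]
    exact Submodule.add_mem _ ihx ihy
  | inv x hx ih =>
    have : (⟨x⁻¹, inv_mem hx⟩ : K⟮π⟯) = (⟨x, hx⟩ : K⟮π⟯)⁻¹ := rfl
    rw [this, Derivation.leibniz_inv]
    exact Submodule.smul_mem _ _ ih
  | mul x y hx hy ihx ihy =>
    have : (⟨x * y, mul_mem hx hy⟩ : K⟮π⟯) = ⟨x, hx⟩ * ⟨y, hy⟩ := rfl
    rw [this, Derivation.leibniz]
    exact Submodule.add_mem _ (Submodule.smul_mem _ _ ihy) (Submodule.smul_mem _ _ ihx)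

theorem D_gen_ne_zero {π : F} (hπ : Transcendental K π) :
    D K K⟮π⟯ (AdjoinSimple.gen K π) ≠ 0 := by
  intro h0
  have hsub : Subsingleton Ω[K⟮π⟯⁄K] := by
    have htop : (⊤ : Submodule K⟮π⟯ Ω[K⟮π⟯⁄K]) = ⊥ := by
      rw [eq_bot_iff, ← span_range_derivation K K⟮π⟯, Submodule.span_le]
      rintro _ ⟨y, rfl⟩
      have := D_adjoinSimple_mem_span (K := K) π y
      rw [h0, Submodule.span_singleton_eq_bot.2 rfl] at this
      exact this
    refine ⟨fun a b => ?_⟩
    have ha : a ∈ (⊥ : Submodule K⟮π⟯ Ω[K⟮π⟯⁄K]) := htop ▸ Submodule.mem_top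
    have hb : b ∈ (⊥ : Submodule K⟮π⟯ Ω[K⟮π⟯⁄K]) := htop ▸ Submodule.mem_top
    rw [Submodule.mem_bot] at ha hb
    rw [ha, hb]
  have : Algebra.FormallyUnramified K K⟮π⟯ := ⟨hsub⟩
  have : Algebra.EssFiniteType K K⟮π⟯ :=
    IntermediateField.essFiniteType_iff.2 (by
      have := IntermediateField.fg_adjoin_finset (F := K) ({π} : Finset F)
      simpa using this)
  have hsep : Algebra.IsSeparable K K⟮π⟯ := Algebra.FormallyUnramified.isSeparable K K⟮π⟯
  have h1 : IsIntegral K (AdjoinSimple.gen K π) :=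
    (Algebra.IsSeparable.isSeparable K (AdjoinSimple.gen K π)).isIntegral
  exact hπ ((AdjoinSimple.isIntegral_gen K π).1 h1).isAlgebraic

/-- `dπ ≠ 0` in `Ω[F⁄K]` for `π` transcendental over `K` (characteristic zero, `F` algebraic
over `K⟮π⟯`). -/
theorem D_ne_zero_of_transcendental [CharZero K] {π : F} (hπ : Transcendental K π)
    (halg : Algebra.IsAlgebraic K⟮π⟯ F) : D K F π ≠ 0 := by
  intro h0
  have : CharZero K⟮π⟯ :=
    charZero_of_injective_algebraMap (R := K) (A := K⟮π⟯) (algebraMap K K⟮π⟯).injective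
  have : Algebra.IsSeparable K⟮π⟯ F := Algebra.IsAlgebraic.isSeparable_of_perfectField
  have : Algebra.FormallyEtale K⟮π⟯ F := Algebra.FormallyEtale.of_isSeparable K⟮π⟯ F
  have h1 := tensorKaehlerEquivOfFormallyEtale_symm_D_algebraMap K K⟮π⟯ F (AdjoinSimple.gen K π)
  rw [AdjoinSimple.algebraMap_gen, h0, map_zero] at h1
  have hinj := Module.FaithfullyFlat.tensorProduct_mk_injective (A := K⟮π⟯) (B := F) Ω[K⟮π⟯⁄K]
  have h2 : D K K⟮π⟯ (AdjoinSimple.gen K π) = 0 := by
    apply hinj
    rw [TensorProduct.mk_apply, ← h1, map_zero]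
  exact D_gen_ne_zero hπ h2

/-! ### 6. Consequences for places -/

theorem nontrivial_kaehler [CharZero K] {x : F} (hx : Transcendental K x)
    (halg : Algebra.IsAlgebraic K⟮x⟯ F) : Nontrivial Ω[F⁄K] :=
  ⟨⟨D K F x, 0, D_ne_zero_of_transcendental hx halg⟩⟩

/-- For every element `π` of non-zero order at some place, `dπ` is a basis of `Ω[F⁄K]`. -/
theorem span_D_eq_top_of_ord_ne_zero [CharZero K] {x : F} (hx : Transcendental K x)
    (halg : Algebra.IsAlgebraic K⟮x⟯ F) (v : Place K F) {π : F} (hπ : v.ord π ≠ 0) :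
    Submodule.span F {D K F π} = ⊤ :=
  span_D_eq_top
    (isAlgebraic_adjoin_simple_of_transcendental hx halg (transcendental_of_ord_ne_zero v hπ))

theorem D_ne_zero_of_ord_ne_zero [CharZero K] {x : F} (hx : Transcendental K x)
    (halg : Algebra.IsAlgebraic K⟮x⟯ F) (v : Place K F) {π : F} (hπ : v.ord π ≠ 0) :
    D K F π ≠ 0 :=
  D_ne_zero_of_transcendental (transcendental_of_ord_ne_zero v hπ)
    (isAlgebraic_adjoin_simple_of_transcendental hx halg (transcendental_of_ord_ne_zero v hπ))

/-- Every place satisfies the prelude's `DCoordGenerates`. -/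
theorem dCoordGenerates [CharZero K] {x : F} (hx : Transcendental K x)
    (halg : Algebra.IsAlgebraic K⟮x⟯ F) (v : Place K F) : v.DCoordGenerates := by
  obtain ⟨π₀, h1, h2⟩ := exists_dCoord_eq v
  refine ⟨?_⟩
  rw [h2]
  exact span_D_eq_top_of_ord_ne_zero hx halg v (by rw [h1]; exact one_ne_zero)

theorem dCoord_ne_zero' [CharZero K] {x : F} (hx : Transcendental K x)
    (halg : Algebra.IsAlgebraic K⟮x⟯ F) (v : Place K F) : v.dCoord ≠ 0 := by
  obtain ⟨π₀, h1, h2⟩ := exists_dCoord_eq v
  rw [h2]
  exact D_ne_zero_of_ord_ne_zero hx halg v (by rw [h1]; exact one_ne_zero)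

/-- Every differential is a unique multiple of `dπ` as soon as `π` has non-zero order somewhere. -/
theorem exists_eq_smul_D [CharZero K] {x : F} (hx : Transcendental K x)
    (halg : Algebra.IsAlgebraic K⟮x⟯ F) (v : Place K F) {π : F} (hπ : v.ord π ≠ 0)
    (ω : Ω[F⁄K]) : ∃ f : F, ω = f • D K F π := by
  have hω : ω ∈ (⊤ : Submodule F Ω[F⁄K]) := Submodule.mem_top
  rw [← span_D_eq_top_of_ord_ne_zero hx halg v hπ, Submodule.mem_span_singleton] at hω
  exact hω.imp fun _ hf => hf.symm

/-! ### 7. The polynomial relation in bivariate form `K[X][Y]` -/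

/-- The surjection `K[X] → K[π]`. -/
def toAdjoin (π : F) : K[X] →+* Algebra.adjoin K {π} :=
  (aeval (⟨π, Algebra.self_mem_adjoin_singleton K π⟩ : Algebra.adjoin K {π})).toRingHom

theorem coe_toAdjoin (π : F) (q : K[X]) : ((toAdjoin (K := K) π q : Algebra.adjoin K {π}) : F) =
    aeval π q := by
  change (Algebra.adjoin K {π}).val (aeval _ q) = _
  rw [← aeval_algHom_apply]
  rfl

theorem algebraMap_comp_toAdjoin (π : F) :
    (algebraMap (Algebra.adjoin K {π}) F).comp (toAdjoin (K := K) π) = (aeval π).toRingHom := by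
  ext q
  · simp [toAdjoin]
  · simp [toAdjoin]

theorem toAdjoin_surjective (π : F) : Function.Surjective (toAdjoin (K := K) π) := by
  rintro ⟨y, hy⟩
  rw [Algebra.adjoin_singleton_eq_range_aeval] at hy
  obtain ⟨q, rfl⟩ := hy
  exact ⟨q, Subtype.ext (coe_toAdjoin π q)⟩

/-- Bivariate form: every `a : F` satisfies `G(π, a) = 0` for some `G ≠ 0` in `K[X][Y]`. -/
theorem exists_bivariate {π : F} (halg : Algebra.IsAlgebraic K⟮π⟯ F) (a : F) :
    ∃ G : K[X][X], G ≠ 0 ∧ G.eval₂ (aeval π).toRingHom a = 0 := by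
  obtain ⟨p, hp0, hpa⟩ := isAlgebraic_adjoin_of_isAlgebraic_adjoin_simple halg a
  obtain ⟨G, rfl⟩ := Polynomial.map_surjective _ (toAdjoin_surjective (K := K) π) p
  refine ⟨G, fun h => hp0 (by rw [h, Polynomial.map_zero]), ?_⟩
  rw [← algebraMap_comp_toAdjoin, ← eval₂_map]
  exact hpa

/-- Bivariate form with non-vanishing `∂G/∂Y` at `(π, a)`. -/
theorem exists_bivariate_separable [CharZero K] {π : F} (halg : Algebra.IsAlgebraic K⟮π⟯ F)
    (a : F) :
    ∃ G : K[X][X], G.eval₂ (aeval π).toRingHom a = 0 ∧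
      (derivative G).eval₂ (aeval π).toRingHom a ≠ 0 := by
  obtain ⟨p, hpa, hpd⟩ := exists_polynomial_adjoin halg a
  obtain ⟨G, rfl⟩ := Polynomial.map_surjective _ (toAdjoin_surjective (K := K) π) p
  refine ⟨G, ?_, ?_⟩
  · rw [← algebraMap_comp_toAdjoin, ← eval₂_map]
    exact hpa
  · rw [← algebraMap_comp_toAdjoin, ← eval₂_map, ← derivative_map]
    exact hpd

/-! ### 8. Versions with `FiniteDimensional K⟮x⟯ F` (the form used by the other S24 pieces) -/

section Finite

variable [CharZero K] (x : F) (hx : Transcendental K x) [FiniteDimensional K⟮x⟯ F]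

include hx

theorem dCoordGenerates_of_finite (v : Place K F) : v.DCoordGenerates :=
  dCoordGenerates hx (Algebra.IsAlgebraic.of_finite K⟮x⟯ F) v

theorem nontrivial_kaehler_of_finite : Nontrivial Ω[F⁄K] :=
  nontrivial_kaehler hx (Algebra.IsAlgebraic.of_finite K⟮x⟯ F)

theorem D_ne_zero_of_finite : D K F x ≠ 0 :=
  D_ne_zero_of_transcendental hx (Algebra.IsAlgebraic.of_finite K⟮x⟯ F)

omit hx in
theorem span_D_eq_top_of_finite : Submodule.span F {D K F x} = ⊤ :=
  span_D_eq_top (Algebra.IsAlgebraic.of_finite K⟮x⟯ F)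

theorem finrank_kaehler_of_finite : Module.finrank F Ω[F⁄K] = 1 := by
  rw [finrank_eq_one_iff_of_nonzero (D K F x) (D_ne_zero_of_finite x hx)]
  exact span_D_eq_top_of_finite x

end Finite

end Fermat.Agent.S24.DiffSpan

end
end ZBS24_015_0

/-! ### bundled: `Fermat.Agent.S24.Assembly` -/
section ZBS24_015_1

/-!
# S24 — final assembly (P10), with the remaining pieces as hypotheses

`genus_of_inputs` derives the genus formula from a `Realization N`, the place counts (P10b),
the residue field statement (P1-res), principal divisors having degree `0` (F2), the formula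
`ord_v(dy) = ord_v y - 1` (P3b) and the combinatorial count (GC).
-/

set_option autoImplicit false

noncomputable section

open AlgebraicCurve ModularCurve IntermediateField KaehlerDifferential
open scoped MatrixGroups

namespace Fermat.Agent.S24

/-- Number of orbits of `⟨g⟩` on `SL(2,ℤ) ⧸ Γ₀(N)`. -/
abbrev zOrb (N : ℕ) (g : SL(2, ℤ)) : ℕ :=
  Nat.card (MulAction.orbitRel.Quotient (Subgroup.zpowers g)
    (SL(2, ℤ) ⧸ CongruenceSubgroup.Gamma0 N))

/-- `ψ(N)` as the cardinality of the coset space. -/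
abbrev nQ (N : ℕ) : ℕ := Nat.card (SL(2, ℤ) ⧸ CongruenceSubgroup.Gamma0 N)

theorem genus_of_inputs (N : ℕ) [NeZero N] [HasCanonicalDivisor (K := Kb) (F := FF N)]
    (R : Realization N)
    (hfin : FiniteDimensional Kb⟮jF N⟯ (FF N))
    -- P10b
    (hcount : ∀ (x : FF N), Transcendental Kb x → x ∈ Kb⟮jF N⟯ → jF N ∈ Kb⟮x⟯ →
      ∀ ε : SL(2, ℤ), (∃ w : Place Kb R.M, LocalProp (R.φ x) (R.act ε) w) →
      Nat.card {v : Place Kb (FF N) // 0 < v.ord x} = zOrb N ε ∧
      ∃ S : Finset (Place Kb (FF N)), (∀ v, v ∈ S ↔ 0 < v.ord x) ∧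
        ∑ v ∈ S, v.ord x = (nQ N : ℤ))
    -- P1-res
    (hres : ∀ (v : Place Kb (FF N)) (a : FF N), a ∈ v.toValuationSubring →
      ∃ c : Kb, a - algebraMap Kb (FF N) c ∈ v.toValuationSubring.nonunits)
    (hdeg1 : ∀ v : Place Kb (FF N), v.deg = 1)
    -- F2
    (hprinc : ∀ g : FF N, g ≠ 0 → ∀ D : Divisor Kb (FF N), (∀ v, D v = v.ord g) →
      Divisor.degree D = 0)
    -- P3b
    (hdiff : ∀ (v : Place Kb (FF N)) (y : FF N), v.ord y ≠ 0 →
      v.ordDifferential (D Kb (FF N) y) = v.ord y - 1)
    -- GC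
    (G : ℕ) (hG : (G : ℚ) = genusFormula N)
    (hGz : ((nQ N : ℤ) - zOrb N (ModularGroup.S * ModularGroup.T))
        + ((nQ N : ℤ) - zOrb N ModularGroup.S)
        - ((nQ N : ℤ) + zOrb N ModularGroup.T) = 2 * (G : ℤ) - 2)
    (hz1 : zOrb N 1 = nQ N) :
    (genus Kb (FF N) : ℚ) = genusFormula N := by
  have htr := transcendental_jF N
  have hj0 : jF N - algebraMap Kb (FF N) 0 = jF N := by simp
  -- the counts
  have hC : ∀ (c : Kb) (ε : SL(2, ℤ)),
      (∃ w : Place Kb R.M, LocalProp (R.φ (jF N - algebraMap Kb (FF N) c)) (R.act ε) w) →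
      Nat.card {v : Place Kb (FF N) // 0 < v.ord (jF N - algebraMap Kb (FF N) c)} = zOrb N ε ∧
      ∃ S : Finset (Place Kb (FF N)),
        (∀ v, v ∈ S ↔ 0 < v.ord (jF N - algebraMap Kb (FF N) c)) ∧
        ∑ v ∈ S, v.ord (jF N - algebraMap Kb (FF N) c) = (nQ N : ℤ) := fun c ε h =>
    hcount _ (transcendental_jF_sub N c) (jF_sub_mem_adjoin N c) (jF_mem_adjoin_sub N c) ε h
  have h0 := hC 0 (ModularGroup.S * ModularGroup.T) (by rw [hj0]; exact R.loc_zero)
  have h1728 := hC 1728 ModularGroup.S R.loc_1728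
  have hgen := fun c (hc0 : c ≠ 0) (hc : c ≠ 1728) => hC c 1 (R.loc_gen c hc0 hc)
  have hinf := hcount _ (transcendental_jF_inv N) (jF_inv_mem_adjoin N) (jF_mem_adjoin_inv N)
    ModularGroup.T R.loc_inf
  -- poles of `j` = zeros of `j⁻¹`
  have hpole : ∀ v : Place Kb (FF N), 0 < v.ord (jF N)⁻¹ ↔ v.ord (jF N) < 0 := by
    intro v
    rw [v.ord_inv]
    omega
  have hcinf : Nat.card {v : Place Kb (FF N) // v.ord (jF N) < 0} = zOrb N ModularGroup.T := by
    rw [← hinf.1]
    exact Nat.card_congr (Equiv.subtypeEquivRight fun v => (hpole v).symm)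
  have hsuminf : ∃ S : Finset (Place Kb (FF N)), (∀ v, v ∈ S ↔ v.ord (jF N) < 0) ∧
      ∑ v ∈ S, (- v.ord (jF N)) = (nQ N : ℤ) := by
    obtain ⟨S, hS, hsum⟩ := hinf.2
    refine ⟨S, fun v => (hS v).trans (hpole v), ?_⟩
    rw [← hsum]
    exact Finset.sum_congr rfl fun v _ => (v.ord_inv _).symm
  -- every place lies over some point of the `j`-line
  have hpart : ∀ v : Place Kb (FF N),
      (∃ c : Kb, 0 < v.ord (jF N - algebraMap Kb (FF N) c)) ∨ v.ord (jF N) < 0 := by
    intro v
    by_cases hv : v.ord (jF N) < 0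
    · exact Or.inr hv
    · left
      have hmem : jF N ∈ v.toValuationSubring := PlaceAux.mem_of_ord_nonneg v (not_lt.mp hv)
      obtain ⟨c, hc⟩ := hres v _ hmem
      exact ⟨c, (PlaceAux.ord_pos_iff_mem_nonunits v (jF_sub_ne_zero N c)).mpr hc⟩
  -- differentials
  have hod : ∀ (v : Place Kb (FF N)) (c : Kb), 0 < v.ord (jF N - algebraMap Kb (FF N) c) →
      v.ordDifferential (D Kb (FF N) (jF N)) = v.ord (jF N - algebraMap Kb (FF N) c) - 1 := by
    intro v c hv
    have := hdiff v (jF N - algebraMap Kb (FF N) c) hv.ne'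
    rwa [map_sub, Derivation.map_algebraMap, sub_zero] at this
  have hodinf : ∀ v : Place Kb (FF N), v.ord (jF N) < 0 →
      v.ordDifferential (D Kb (FF N) (jF N)) = v.ord (jF N) - 1 :=
    fun v hv => hdiff v (jF N) hv.ne
  have hspan : ∀ ω : Ω[FF N⁄Kb], ∃ g : FF N, ω = g • D Kb (FF N) (jF N) := by
    intro ω
    have hω : ω ∈ Submodule.span (FF N) {D Kb (FF N) (jF N)} := by
      rw [DiffSpan.span_D_eq_top_of_finite (K := Kb) (jF N)]
      trivial
    obtain ⟨g, hg⟩ := Submodule.mem_span_singleton.mp hω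
    exact ⟨g, hg.symm⟩
  have hgenus : genus Kb (FF N) = G := by
    refine genus_eq_of_degree (jF N) G (DiffSpan.D_ne_zero_of_finite (jF N) htr) hspan
      (fun v => DiffSpan.dCoordGenerates_of_finite (jF N) htr v) hprinc ?_
    intro Dv hDv
    have key := degree_of_local_data (K := Kb) (F := FF N) (jF N) (nQ N)
      (zOrb N (ModularGroup.S * ModularGroup.T)) (zOrb N ModularGroup.S) (zOrb N ModularGroup.T)
      (1728 : Kb) (by norm_num) (fun v => v.ordDifferential (D Kb (FF N) (jF N)))
      hdeg1 hpart (fun c => ?_) hsuminf hod hodinf h0.1 h1728.1 hcinf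
      (fun c hc0 hc => by rw [(hgen c hc0 hc).1, hz1]) Dv hDv
    · rw [key, hGz]
    · by_cases hc0 : c = 0
      · subst hc0; exact h0.2
      · by_cases hc : c = 1728
        · subst hc; exact h1728.2
        · exact (hgen c hc0 hc).2
  rw [hgenus, hG]

end Fermat.Agent.S24

end
end ZBS24_015_1
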