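/- GENERATED FILE (helper35, build-time optimisation, NOTES/ZB.md): verbatim concatenation of the modules
   Fermat.Agent.INJ.GaussDisc
   Do not edit; do not import together with these modules. -/
import Mathlib
import Fermat.Agent.ZB.S24_015

/-! ### bundled: `Fermat.Agent.INJ.GaussDisc` -/
section ZBINJ_008_0

/-!
# INJ B-I1 (DISC), abstract part: discriminant and integrality from a multiplication table

* `discr_eq_map_det_of_table` : if a basis `B` of `L / K` has a multiplication table
  `B j * B l = ∑ i, φ (c j l i) • B i` with structure constants `c` in a ring `R`, `φ : R →+* K`,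
  then `discr K B = φ (det τ)`, `τ j k = ∑ i l, c j l i * c k i l`.
* `isIntegral_of_table` : the members of a finite family with a multiplication table over `R`
  are integral over `R`.
* `map_det_tableTrace_ne_zero` : if `y` is linearly independent over `K` inside a field `Ω`, spans
  `1`, has a multiplication table over `K` and every element of `Ω` integral over `K` is
  separable, then the discriminant `φ (det τ)` of the table is nonzero.
-/

set_option autoImplicit false

namespace Fermat.Agent.INJ

open Matrix

section Table

variable {R K L : Type*} [CommRing R] [Field K] [Field L] [Algebra K L] {n : ℕ}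

/-- The trace matrix attached to a table of structure constants. -/
def tableTrace (c : Fin n → Fin n → Fin n → R) : Matrix (Fin n) (Fin n) R :=
  fun j k => ∑ i, ∑ l, c j l i * c k i l

theorem leftMulMatrix_of_table (φ : R →+* K) (B : Module.Basis (Fin n) K L)
    (c : Fin n → Fin n → Fin n → R)
    (htab : ∀ j l, B j * B l = ∑ i, φ (c j l i) • B i) (j : Fin n) :
    Algebra.leftMulMatrix B (B j) = Matrix.of fun i l => φ (c j l i) := by
  ext i l
  rw [Algebra.leftMulMatrix_eq_repr_mul, htab, Matrix.of_apply]
  rw [map_sum]
  simp only [map_smul, Module.Basis.repr_self, Finsupp.coe_finsetSum, Finsupp.coe_smul,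
    Finset.sum_apply, Pi.smul_apply, Finsupp.single_apply, smul_eq_mul, mul_ite, mul_one,
    mul_zero, Finset.sum_ite_eq', Finset.mem_univ, if_true]

/-- The discriminant of a basis with a multiplication table over `R`. -/
theorem discr_eq_map_det_of_table (φ : R →+* K) (B : Module.Basis (Fin n) K L)
    (c : Fin n → Fin n → Fin n → R)
    (htab : ∀ j l, B j * B l = ∑ i, φ (c j l i) • B i) :
    Algebra.discr K B = φ (tableTrace c).det := by
  rw [Algebra.discr_def, RingHom.map_det]
  congr 1
  ext j k
  rw [Algebra.traceMatrix_apply, Algebra.traceForm_apply, Algebra.trace_eq_matrix_trace B,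
    map_mul, leftMulMatrix_of_table φ B c htab, leftMulMatrix_of_table φ B c htab,
    Matrix.trace, RingHom.mapMatrix_apply, Matrix.map_apply, tableTrace, map_sum]
  refine Finset.sum_congr rfl fun i _ => ?_
  rw [Matrix.diag_apply, Matrix.mul_apply, map_sum]
  refine Finset.sum_congr rfl fun l _ => ?_
  rw [Matrix.of_apply, Matrix.of_apply, map_mul]

end Table

section Integral

variable {R L : Type*} [CommRing R] [CommRing L] [Algebra R L] {n : ℕ}

/-- The members of a finite family with a multiplication table over `R` are integral over `R`. -/
theorem isIntegral_of_table (y : Fin n → L) (c : Fin n → Fin n → Fin n → R)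
    (htab : ∀ j l, y j * y l = ∑ i, c j l i • y i) (i : Fin n) : IsIntegral R (y i) := by
  classical
  set V : Submodule R L := Submodule.span R (insert 1 (Set.range y)) with hV
  have h1 : (1 : L) ∈ V := Submodule.subset_span (Set.mem_insert _ _)
  have hy : ∀ i, y i ∈ V := fun i => Submodule.subset_span (Set.mem_insert_of_mem _ ⟨i, rfl⟩)
  have hmul : ∀ a b, a ∈ V → b ∈ V → a * b ∈ V := by
    intro a b ha hb
    induction ha using Submodule.span_induction with
    | mem a ha =>
      induction hb using Submodule.span_induction with
      | mem b hb =>
        rcases ha with rfl | ⟨j, rfl⟩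
        · rw [one_mul]; exact Submodule.subset_span hb
        · rcases hb with rfl | ⟨l, rfl⟩
          · rw [mul_one]; exact hy j
          · rw [htab]
            exact Submodule.sum_mem _ fun i _ => Submodule.smul_mem _ _ (hy i)
      | zero => rw [mul_zero]; exact zero_mem _
      | add b b' _ _ hb hb' => rw [mul_add]; exact add_mem hb hb'
      | smul r b _ hb => rw [mul_smul_comm]; exact Submodule.smul_mem _ _ hb
    | zero => rw [zero_mul]; exact zero_mem _
    | add a a' _ _ ha ha' => rw [add_mul]; exact add_mem ha ha'
    | smul r a _ ha => rw [smul_mul_assoc]; exact Submodule.smul_mem _ _ ha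
  set S : Subalgebra R L := V.toSubalgebra h1 hmul with hS
  have hfg : (Subalgebra.toSubmodule S).FG := by
    have : Subalgebra.toSubmodule S = V := by
      ext z; rfl
    rw [this]
    exact Submodule.fg_span ((Set.finite_range y).insert 1)
  exact IsIntegral.of_mem_of_fg S hfg (y i) (hy i)

end Integral

section NonDegenerate

variable {R K Ω : Type*} [CommRing R] [Field K] [Field Ω] [Algebra K Ω] {n : ℕ}

/-- The discriminant of a multiplication table of a separable extension is nonzero. -/
theorem map_det_tableTrace_ne_zero (φ : R →+* K) (y : Fin n → Ω)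
    (hli : LinearIndependent K y) (h1 : (1 : Ω) ∈ Submodule.span K (Set.range y))
    (c : Fin n → Fin n → Fin n → R)
    (htab : ∀ j l, y j * y l = ∑ i, φ (c j l i) • y i)
    (hsep : ∀ z : Ω, IsIntegral K z → IsSeparable K z) :
    φ (tableTrace c).det ≠ 0 := by
  classical
  set V : Submodule K Ω := Submodule.span K (Set.range y) with hV
  have hy : ∀ i, y i ∈ V := fun i => Submodule.subset_span ⟨i, rfl⟩
  have hmul : ∀ a b, a ∈ V → b ∈ V → a * b ∈ V := by
    intro a b ha hb
    induction ha using Submodule.span_induction with
    | mem a ha =>
      induction hb using Submodule.span_induction with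
      | mem b hb =>
        obtain ⟨j, rfl⟩ := ha
        obtain ⟨l, rfl⟩ := hb
        rw [htab]
        exact Submodule.sum_mem _ fun i _ => Submodule.smul_mem _ _ (hy i)
      | zero => rw [mul_zero]; exact zero_mem _
      | add b b' _ _ hb hb' => rw [mul_add]; exact add_mem hb hb'
      | smul r b _ hb => rw [mul_smul_comm]; exact Submodule.smul_mem _ _ hb
    | zero => rw [zero_mul]; exact zero_mem _
    | add a a' _ _ ha ha' => rw [add_mul]; exact add_mem ha ha'
    | smul r a _ ha => rw [smul_mul_assoc]; exact Submodule.smul_mem _ _ ha
  set S : Subalgebra K Ω := V.toSubalgebra h1 hmul with hS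
  have hSV : Subalgebra.toSubmodule S = V := by
    ext z; rfl
  have hfg : (Subalgebra.toSubmodule S).FG := by
    rw [hSV]
    exact Submodule.fg_span (Set.finite_range y)
  have : Module.Finite K S := Module.Finite.iff_fg.mpr hfg
  have : Algebra.IsIntegral K S := Algebra.IsIntegral.of_finite K S
  have hfield : IsField S := isField_of_isIntegral_of_isField' (Field.toIsField K)
  set L : IntermediateField K Ω := S.toIntermediateField' hfield with hL
  have hyL : ∀ i, y i ∈ L := fun i => hy i
  set y' : Fin n → L := fun i => ⟨y i, hyL i⟩ with hy'
  have hli' : LinearIndependent K y' := by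
    apply LinearIndependent.of_comp L.val.toLinearMap
    exact hli
  have hsp' : ⊤ ≤ Submodule.span K (Set.range y') := by
    intro z _
    have h2 : (Submodule.span K (Set.range y')).map L.val.toLinearMap = V := by
      rw [Submodule.map_span, ← Set.range_comp]
      rfl
    have h3 : (z : Ω) ∈ V := z.2
    rw [← h2] at h3
    obtain ⟨w, hw, hwz⟩ := h3
    have : w = z := Subtype.ext hwz
    rwa [← this]
  set B : Module.Basis (Fin n) K L := Module.Basis.mk hli' hsp' with hB
  have hBy : ∀ i, B i = y' i := fun i => by rw [hB, Module.Basis.mk_apply]
  have : Module.Finite K L := Module.Finite.of_basis B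
  have : Algebra.IsSeparable K L := by
    refine ⟨fun z => ?_⟩
    have h4 : IsIntegral K z := IsIntegral.of_finite K z
    have h5 : IsIntegral K (z : Ω) := by
      have := h4.map L.val
      simpa using this
    have h6 := hsep _ h5
    unfold IsSeparable at h6 ⊢
    rwa [IntermediateField.minpoly_eq]
  have htab' : ∀ j l, B j * B l = ∑ i, φ (c j l i) • B i := by
    intro j l
    simp_rw [hBy]
    apply Subtype.ext
    rw [IntermediateField.coe_mul, IntermediateField.coe_sum]
    simp_rw [IntermediateField.coe_smul]
    exact htab j l
  have h7 := Algebra.discr_not_zero_of_basis K B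
  rwa [discr_eq_map_det_of_table φ B c htab'] at h7

end NonDegenerate

end Fermat.Agent.INJ


end ZBINJ_008_0
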