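/- GENERATED FILE (helper35, build-time optimisation, NOTES/ZB.md): verbatim concatenation of the modules
   Fermat.Agent.S20.OrbitsT
   Fermat.Agent.S20.Assemble
   Do not edit; do not import together with these modules. -/
import Mathlib
import Fermat.Prelude.Def_ModularCurve_GenusNumerics
import Fermat.Agent.ZB.S24_016
import Fermat.Agent.ZB.S20_005
import Fermat.Agent.ZB.S20_001

/-! ### bundled: `Fermat.Agent.S20.OrbitsT` -/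
section ZBS20_003_0

set_option autoImplicit false

open CongruenceSubgroup Matrix MatrixGroups ModularGroup

namespace Fermat.Agent.S20
namespace OrbitsT

theorem isUnit_intCast_of_isCoprime {n : ℕ} {e : ℤ} (h : IsCoprime e (n : ℤ)) :
    IsUnit ((e : ℤ) : ZMod n) := by
  obtain ⟨u, v, huv⟩ := h
  have := congrArg (fun x : ℤ => (x : ZMod n)) huv
  simp only [Int.cast_add, Int.cast_mul, Int.cast_natCast, ZMod.natCast_self, mul_zero, add_zero,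
    Int.cast_one] at this
  exact IsUnit.of_mul_eq_one _ (by rw [mul_comm]; exact this)

/-- pure form of the second invariant -/
theorem val_mul_inv_eq_iff (G' : ℕ) [NeZero G'] (a₁ e₁ a₂ e₂ : ℤ)
    (h₁ : IsCoprime e₁ (G' : ℤ)) (h₂ : IsCoprime e₂ (G' : ℤ)) :
    ((a₁ : ZMod G') * ((e₁ : ℤ) : ZMod G')⁻¹).val = ((a₂ : ZMod G') * ((e₂ : ℤ) : ZMod G')⁻¹).val ↔
      (G' : ℤ) ∣ a₁ * e₂ - a₂ * e₁ := by
  have hu₁ := isUnit_intCast_of_isCoprime h₁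
  have hu₂ := isUnit_intCast_of_isCoprime h₂
  have i₁ : ((e₁ : ℤ) : ZMod G') * ((e₁ : ℤ) : ZMod G')⁻¹ = 1 := ZMod.mul_inv_of_unit _ hu₁
  have i₂ : ((e₂ : ℤ) : ZMod G') * ((e₂ : ℤ) : ZMod G')⁻¹ = 1 := ZMod.mul_inv_of_unit _ hu₂
  rw [(ZMod.val_injective G').eq_iff, ← ZMod.intCast_zmod_eq_zero_iff_dvd]
  push_cast
  constructor
  · intro h
    linear_combination ((e₁ : ZMod G') * e₂) * h - a₁ * e₂ * i₁ + a₂ * e₁ * i₂
  · intro h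
    linear_combination (((e₁ : ℤ) : ZMod G')⁻¹ * ((e₂ : ℤ) : ZMod G')⁻¹) * h
      - a₁ * ((e₁ : ℤ) : ZMod G')⁻¹ * i₂ + a₂ * ((e₂ : ℤ) : ZMod G')⁻¹ * i₁

/-- entries of a matrix in SL(2,ℤ): first column is coprime -/
theorem isCoprime_col (g : SL(2,ℤ)) : IsCoprime (g 0 0) (g 1 0) := by
  have h := Matrix.SpecialLinearGroup.det_coe g
  rw [Matrix.det_fin_two] at h
  exact ⟨g 1 1, -(g 0 1), by linarith⟩

/-- data attached to an integer `c` and a level `N ≠ 0`: `c = d * e` with `d = gcd(c,N)`,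
`e` coprime to `N / d`. -/
theorem exists_factor {N : ℕ} (hN : N ≠ 0) (c : ℤ) (d : ℕ) (hd : Int.gcd c N = d) :
    d ∣ N ∧ d ≠ 0 ∧ ∃ e : ℤ, c = d * e ∧ c / (d : ℤ) = e ∧ IsCoprime e ((N / d : ℕ) : ℤ) := by
  have hdN : d ∣ N := by rw [← hd]; exact Int.natCast_dvd_natCast.mp (Int.gcd_dvd_right _ _)
  have hd0 : d ≠ 0 := fun h0 => hN (by simpa [h0] using hdN)
  have hdpos : 0 < d := Nat.pos_of_ne_zero hd0
  have hd1 : (d : ℤ) ∣ c := by rw [← hd]; exact Int.gcd_dvd_left _ _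
  refine ⟨hdN, hd0, ?_⟩
  obtain ⟨e, he⟩ := hd1
  refine ⟨e, he, ?_, ?_⟩
  · rw [he]; exact Int.mul_ediv_cancel_left e (by exact_mod_cast hd0)
  · obtain ⟨M, hM⟩ := hdN
    have hMdiv : N / d = M := by rw [hM]; exact Nat.mul_div_cancel_left M hdpos
    rw [hMdiv]
    rw [he, hM] at hd
    push_cast at hd
    rw [Int.gcd_mul_left] at hd
    simp only [Int.natAbs_natCast] at hd
    have : Int.gcd e M = 1 := by
      have h1 : d * Int.gcd e M = d * 1 := by rw [hd, mul_one]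
      exact Nat.eq_of_mul_eq_mul_left hdpos h1
    exact Int.isCoprime_iff_gcd_eq_one.mpr this

/-- divisor invariant -/
def dInv (N : ℕ) (g : SL(2,ℤ)) : ℕ := Int.gcd (g 1 0) N

/-- modulus of the second invariant -/
def gInv (N : ℕ) (g : SL(2,ℤ)) : ℕ := Nat.gcd (dInv N g) (N / dInv N g)

/-- unit invariant -/
noncomputable def rInv (N : ℕ) (g : SL(2,ℤ)) : ℕ :=
  (((g 0 0 : ℤ) : ZMod (gInv N g)) * (((g 1 0 / (dInv N g : ℤ) : ℤ)) : ZMod (gInv N g))⁻¹).val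

/-- The divisor invariant agrees on two coprime pairs related by the orbit congruence. -/
theorem gcd_dvd_of_rel {N : ℕ} {a₁ c₁ a₂ c₂ k : ℤ} (h₁ : IsCoprime a₁ c₁)
    (h : (N : ℤ) ∣ a₂ * c₁ - a₁ * c₂ - k * c₁ * c₂) :
    Int.gcd c₁ N ∣ Int.gcd c₂ N := by
  have hd1 : ((Int.gcd c₁ N : ℕ) : ℤ) ∣ c₁ := Int.gcd_dvd_left _ _
  have hdN : ((Int.gcd c₁ N : ℕ) : ℤ) ∣ (N : ℤ) := Int.gcd_dvd_right _ _
  have h1 : ((Int.gcd c₁ N : ℕ) : ℤ) ∣ a₁ * c₂ := by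
    have h2 : ((Int.gcd c₁ N : ℕ) : ℤ) ∣ a₂ * c₁ - a₁ * c₂ - k * c₁ * c₂ := hdN.trans h
    have h3 : ((Int.gcd c₁ N : ℕ) : ℤ) ∣ a₂ * c₁ - k * c₁ * c₂ := by
      have : a₂ * c₁ - k * c₁ * c₂ = c₁ * (a₂ - k * c₂) := by ring
      rw [this]
      exact hd1.mul_right _
    have h4 := dvd_sub h3 h2
    have : a₂ * c₁ - k * c₁ * c₂ - (a₂ * c₁ - a₁ * c₂ - k * c₁ * c₂) = a₁ * c₂ := by ring
    rwa [this] at h4
  have hcop : IsCoprime ((Int.gcd c₁ N : ℕ) : ℤ) a₁ :=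
    (IsCoprime.of_isCoprime_of_dvd_right h₁ hd1).symm
  have h5 : ((Int.gcd c₁ N : ℕ) : ℤ) ∣ c₂ := hcop.dvd_of_dvd_mul_left h1
  have := Int.dvd_gcd h5 hdN
  exact_mod_cast this

theorem gcd_eq_of_rel {N : ℕ} {a₁ c₁ a₂ c₂ k : ℤ} (h₁ : IsCoprime a₁ c₁) (h₂ : IsCoprime a₂ c₂)
    (h : (N : ℤ) ∣ a₂ * c₁ - a₁ * c₂ - k * c₁ * c₂) :
    Int.gcd c₁ N = Int.gcd c₂ N := by
  apply Nat.dvd_antisymm (gcd_dvd_of_rel h₁ h)
  apply gcd_dvd_of_rel (k := -k) h₂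
  have : a₁ * c₂ - a₂ * c₁ - -k * c₂ * c₁ = -(a₂ * c₁ - a₁ * c₂ - k * c₁ * c₂) := by ring
  rw [this]
  exact (dvd_neg).mpr h

/-- forward direction, second invariant -/
theorem mul_gcd_dvd_of_rel {N : ℕ} {a₁ c₁ a₂ c₂ k : ℤ} (d : ℕ)
    (hd₁ : Int.gcd c₁ N = d) (hd₂ : Int.gcd c₂ N = d)
    (h : (N : ℤ) ∣ a₂ * c₁ - a₁ * c₂ - k * c₁ * c₂) :
    ((d * Nat.gcd d (N / d) : ℕ) : ℤ) ∣ a₁ * c₂ - a₂ * c₁ := by
  have hdN : d ∣ N := by rw [← hd₁]; exact Int.natCast_dvd_natCast.mp (Int.gcd_dvd_right _ _)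
  have hd1 : (d : ℤ) ∣ c₁ := by rw [← hd₁]; exact Int.gcd_dvd_left _ _
  have hd2 : (d : ℤ) ∣ c₂ := by rw [← hd₂]; exact Int.gcd_dvd_left _ _
  have hgN : d * Nat.gcd d (N / d) ∣ N := by
    conv_rhs => rw [← Nat.mul_div_cancel' hdN]
    exact Nat.mul_dvd_mul_left d (Nat.gcd_dvd_right _ _)
  have hgd : ((Nat.gcd d (N / d) : ℕ) : ℤ) ∣ c₂ :=
    (Int.natCast_dvd_natCast.mpr (Nat.gcd_dvd_left _ _)).trans hd2
  have hcc : ((d * Nat.gcd d (N / d) : ℕ) : ℤ) ∣ c₁ * c₂ := by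
    push_cast
    exact mul_dvd_mul hd1 hgd
  have h1 : ((d * Nat.gcd d (N / d) : ℕ) : ℤ) ∣ a₂ * c₁ - a₁ * c₂ - k * c₁ * c₂ :=
    (Int.natCast_dvd_natCast.mpr hgN).trans h
  have h2 : ((d * Nat.gcd d (N / d) : ℕ) : ℤ) ∣ k * (c₁ * c₂) := hcc.mul_left k
  have h3 := (dvd_add h1 h2)
  have : a₂ * c₁ - a₁ * c₂ - k * c₁ * c₂ + k * (c₁ * c₂) = -(a₁ * c₂ - a₂ * c₁) := by ring
  rw [this] at h3
  exact (dvd_neg).mp h3

/-- backward direction -/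
theorem exists_rel_of_mul_gcd_dvd {N : ℕ} (hN : N ≠ 0) {a₁ c₁ a₂ c₂ : ℤ} (d : ℕ)
    (hd₁ : Int.gcd c₁ N = d) (hd₂ : Int.gcd c₂ N = d)
    (h : ((d * Nat.gcd d (N / d) : ℕ) : ℤ) ∣ a₁ * c₂ - a₂ * c₁) :
    ∃ k : ℤ, (N : ℤ) ∣ a₂ * c₁ - a₁ * c₂ - k * c₁ * c₂ := by
  have hdN : d ∣ N := by rw [← hd₁]; exact Int.natCast_dvd_natCast.mp (Int.gcd_dvd_right _ _)
  have hd0 : d ≠ 0 := fun h0 => hN (by simpa [h0] using hdN)
  have hdpos : 0 < d := Nat.pos_of_ne_zero hd0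
  have hd1 : (d : ℤ) ∣ c₁ := by rw [← hd₁]; exact Int.gcd_dvd_left _ _
  have hd2 : (d : ℤ) ∣ c₂ := by rw [← hd₂]; exact Int.gcd_dvd_left _ _
  obtain ⟨M, hM⟩ := hdN
  have hMdiv : N / d = M := by rw [hM]; exact Nat.mul_div_cancel_left M hdpos
  rw [hMdiv] at h
  obtain ⟨e₁, he₁⟩ := hd1
  obtain ⟨e₂, he₂⟩ := hd2
  -- coprimality of e_i with M
  have hcop : ∀ e : ℤ, Int.gcd ((d : ℤ) * e) N = d → IsCoprime e (M : ℤ) := by
    intro e he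
    rw [hM] at he
    push_cast at he
    rw [Int.gcd_mul_left] at he
    simp only [Int.natAbs_natCast] at he
    have : Int.gcd e M = 1 := by
      have h1 : d * Int.gcd e M = d * 1 := by rw [he, mul_one]
      exact Nat.eq_of_mul_eq_mul_left hdpos h1
    exact Int.isCoprime_iff_gcd_eq_one.mpr this
  have hc1 : IsCoprime e₁ (M : ℤ) := hcop e₁ (by rw [← he₁]; exact hd₁)
  have hc2 : IsCoprime e₂ (M : ℤ) := hcop e₂ (by rw [← he₂]; exact hd₂)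
  have hc12 : IsCoprime (e₁ * e₂) (M : ℤ) := hc1.mul_left hc2
  obtain ⟨u, v, huv⟩ := hc12
  -- g ∣ a₁ e₂ - a₂ e₁
  have hg : ((Nat.gcd d M : ℕ) : ℤ) ∣ a₁ * e₂ - a₂ * e₁ := by
    have h' : (d : ℤ) * ((Nat.gcd d M : ℕ) : ℤ) ∣ (d : ℤ) * (a₁ * e₂ - a₂ * e₁) := by
      have : (d : ℤ) * (a₁ * e₂ - a₂ * e₁) = a₁ * c₂ - a₂ * c₁ := by rw [he₁, he₂]; ring
      rw [this]
      exact_mod_cast h
    exact (mul_dvd_mul_iff_left (by exact_mod_cast hd0)).mp h'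
  obtain ⟨q, hq⟩ := hg
  -- Bezout for gcd d M
  have hbez : ((Nat.gcd d M : ℕ) : ℤ) = d * Nat.gcdA d M + M * Nat.gcdB d M := Nat.gcd_eq_gcd_ab d M
  refine ⟨-(Nat.gcdA d M * q * u), ?_⟩
  rw [hM, he₁, he₂]
  push_cast
  refine ⟨-(Nat.gcdB d M * q) + -(Nat.gcdA d M * q * d * v), ?_⟩
  have hq' : a₂ * e₁ - a₁ * e₂ = -(((Nat.gcd d M : ℕ) : ℤ) * q) := by rw [← hq]; ring
  have e1 : a₂ * (↑d * e₁) - a₁ * (↑d * e₂) - -(Nat.gcdA d M * q * u) * (↑d * e₁) * (↑d * e₂)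
      = (d : ℤ) * ((a₂ * e₁ - a₁ * e₂) + (Nat.gcdA d M * q * d) * (u * (e₁ * e₂))) := by ring
  rw [e1, hq', hbez]
  have huv' : u * (e₁ * e₂) = 1 - v * M := by rw [← huv]; ring
  rw [huv']
  ring

/-- The basic translation: `T^k • g₁Γ = g₂Γ` iff a congruence on the first columns. -/
theorem T_zpow_smul_eq_iff (N : ℕ) (g₁ g₂ : SL(2,ℤ)) (k : ℤ) :
    ((T ^ k) • (g₁ : SL(2,ℤ) ⧸ Gamma0 N) = (g₂ : SL(2,ℤ) ⧸ Gamma0 N)) ↔
      (N : ℤ) ∣ g₂ 0 0 * g₁ 1 0 - g₁ 0 0 * g₂ 1 0 - k * g₁ 1 0 * g₂ 1 0 := by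
  rw [MulAction.Quotient.smul_mk, QuotientGroup.eq, Gamma0_mem,
    ZMod.intCast_zmod_eq_zero_iff_dvd, smul_eq_mul]
  have key : ((T ^ k * g₁)⁻¹ * g₂) 1 0
      = -(g₂ 0 0 * g₁ 1 0 - g₁ 0 0 * g₂ 1 0 - k * g₁ 1 0 * g₂ 1 0) := by
    rw [_root_.mul_inv_rev, ← _root_.zpow_neg, Matrix.SpecialLinearGroup.coe_mul,
      Matrix.SpecialLinearGroup.coe_mul, coe_T_zpow, Matrix.SpecialLinearGroup.coe_inv,
      Matrix.adjugate_fin_two]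
    simp [Matrix.mul_apply, Fin.sum_univ_two]
    ring
  rw [key, dvd_neg]

theorem gcd_div_ne_zero {N d : ℕ} (hd0 : d ≠ 0) : Nat.gcd d (N / d) ≠ 0 :=
  Nat.gcd_ne_zero_left hd0

theorem rInv_eq_iff {N : ℕ} (hN : N ≠ 0) (g₁ g₂ : SL(2,ℤ)) (d : ℕ) (hd₁ : dInv N g₁ = d)
    (hd₂ : dInv N g₂ = d) :
    rInv N g₁ = rInv N g₂ ↔
      ((d * Nat.gcd d (N / d) : ℕ) : ℤ) ∣ g₁ 0 0 * g₂ 1 0 - g₂ 0 0 * g₁ 1 0 := by
  obtain ⟨hdN, hd0, e₁, he₁, hq₁, hc₁⟩ := exists_factor hN (g₁ 1 0) d hd₁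
  obtain ⟨-, -, e₂, he₂, hq₂, hc₂⟩ := exists_factor hN (g₂ 1 0) d hd₂
  unfold rInv gInv
  rw [hd₁, hd₂, hq₁, hq₂]
  have : NeZero (Nat.gcd d (N / d)) := ⟨gcd_div_ne_zero hd0⟩
  have hG : ((Nat.gcd d (N / d) : ℕ) : ℤ) ∣ ((N / d : ℕ) : ℤ) :=
    Int.natCast_dvd_natCast.mpr (Nat.gcd_dvd_right _ _)
  have hc₁' : IsCoprime e₁ ((Nat.gcd d (N / d) : ℕ) : ℤ) :=
    IsCoprime.of_isCoprime_of_dvd_right hc₁ hG
  have hc₂' : IsCoprime e₂ ((Nat.gcd d (N / d) : ℕ) : ℤ) :=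
    IsCoprime.of_isCoprime_of_dvd_right hc₂ hG
  rw [val_mul_inv_eq_iff _ _ _ _ _ hc₁' hc₂', he₁, he₂]
  have : g₁ 0 0 * ((d : ℤ) * e₂) - g₂ 0 0 * ((d : ℤ) * e₁)
      = (d : ℤ) * (g₁ 0 0 * e₂ - g₂ 0 0 * e₁) := by ring
  rw [this]
  push_cast
  rw [mul_dvd_mul_iff_left (by exact_mod_cast hd0 : (d : ℤ) ≠ 0)]

/-- The index set: pairs `(d, r)` with `d ∣ N` and `r` a reduced residue mod `gcd(d, N/d)`. -/
def indexSet (N : ℕ) : Finset (Σ _ : ℕ, ℕ) :=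
  N.divisors.sigma fun d =>
    (Finset.range (Nat.gcd d (N / d))).filter fun r => (Nat.gcd d (N / d)).Coprime r

theorem card_indexSet (N : ℕ) : (indexSet N).card = ModularCurve.cuspCount N := by
  unfold indexSet ModularCurve.cuspCount
  rw [Finset.card_sigma]
  rfl

/-- the invariant map -/
noncomputable def inv (N : ℕ) (g : SL(2,ℤ)) : Σ _ : ℕ, ℕ := ⟨dInv N g, rInv N g⟩

theorem inv_eq_iff {N : ℕ} (hN : N ≠ 0) (g₁ g₂ : SL(2,ℤ)) :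
    inv N g₁ = inv N g₂ ↔
      ∃ k : ℤ, (N : ℤ) ∣ g₂ 0 0 * g₁ 1 0 - g₁ 0 0 * g₂ 1 0 - k * g₁ 1 0 * g₂ 1 0 := by
  constructor
  · intro h
    have hd : dInv N g₁ = dInv N g₂ := congrArg Sigma.fst h
    have hr : rInv N g₁ = rInv N g₂ := by
      have := congrArg Sigma.snd h
      exact this
    have := (rInv_eq_iff hN g₁ g₂ (dInv N g₂) hd rfl).mp hr
    exact exists_rel_of_mul_gcd_dvd hN (dInv N g₂) hd rfl this
  · rintro ⟨k, hk⟩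
    have hd : dInv N g₁ = dInv N g₂ := gcd_eq_of_rel (isCoprime_col g₁) (isCoprime_col g₂) hk
    have h2 := mul_gcd_dvd_of_rel (dInv N g₂) hd rfl hk
    have hr : rInv N g₁ = rInv N g₂ := (rInv_eq_iff hN g₁ g₂ (dInv N g₂) hd rfl).mpr h2
    unfold inv
    rw [hd, hr]

theorem inv_mem {N : ℕ} (hN : N ≠ 0) (g : SL(2,ℤ)) : inv N g ∈ indexSet N := by
  obtain ⟨hdN, hd0, e, he, hq, hc⟩ := exists_factor hN (g 1 0) (dInv N g) rfl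
  have hG0 : Nat.gcd (dInv N g) (N / dInv N g) ≠ 0 := gcd_div_ne_zero hd0
  have : NeZero (gInv N g) := ⟨hG0⟩
  unfold indexSet inv
  rw [Finset.mem_sigma, Finset.mem_filter, Finset.mem_range, Nat.mem_divisors]
  refine ⟨⟨hdN, hN⟩, ZMod.val_lt _, ?_⟩
  -- the element is a unit
  have hG : ((gInv N g : ℕ) : ℤ) ∣ ((N / dInv N g : ℕ) : ℤ) :=
    Int.natCast_dvd_natCast.mpr (Nat.gcd_dvd_right _ _)
  have hGd : ((gInv N g : ℕ) : ℤ) ∣ g 1 0 :=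
    (Int.natCast_dvd_natCast.mpr (Nat.gcd_dvd_left _ _)).trans (Int.gcd_dvd_left _ _)
  have hce : IsCoprime e ((gInv N g : ℕ) : ℤ) := IsCoprime.of_isCoprime_of_dvd_right hc hG
  have hca : IsCoprime (g 0 0) ((gInv N g : ℕ) : ℤ) :=
    IsCoprime.of_isCoprime_of_dvd_right (isCoprime_col g) hGd
  have hu : IsUnit (((g 0 0 : ℤ) : ZMod (gInv N g)) *
      (((g 1 0 / (dInv N g : ℤ) : ℤ)) : ZMod (gInv N g))⁻¹) := by
    rw [hq]
    have hue := isUnit_intCast_of_isCoprime hce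
    have hua := isUnit_intCast_of_isCoprime hca
    refine hua.mul ?_
    exact IsUnit.of_mul_eq_one _ (ZMod.inv_mul_of_unit _ hue)
  obtain ⟨u, hu'⟩ := hu
  have := ZMod.val_coe_unit_coprime u
  rw [hu'] at this
  exact this.symm

theorem inv_surj {N : ℕ} (hN : N ≠ 0) (x : Σ _ : ℕ, ℕ) (hx : x ∈ indexSet N) :
    ∃ g : SL(2,ℤ), inv N g = x := by
  obtain ⟨d, r⟩ := x
  unfold indexSet at hx
  rw [Finset.mem_sigma, Finset.mem_filter, Finset.mem_range, Nat.mem_divisors] at hx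
  obtain ⟨⟨hdN, -⟩, hr, hcop⟩ := hx
  have hd0 : d ≠ 0 := fun h0 => hN (by simpa [h0] using hdN)
  have : NeZero d := ⟨hd0⟩
  have : NeZero (Nat.gcd d (N / d)) := ⟨gcd_div_ne_zero hd0⟩
  -- lift the unit
  obtain ⟨u, hu⟩ := ZMod.unitsMap_surjective (Nat.gcd_dvd_left d (N / d))
    (ZMod.unitOfCoprime r hcop.symm)
  have hacop : IsCoprime (((u : ZMod d).val : ℕ) : ℤ) (d : ℤ) :=
    Nat.isCoprime_iff_coprime.mpr (ZMod.val_coe_unit_coprime u)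
  obtain ⟨g, hg0, hg1⟩ := hacop.exists_SL2_col 0
  refine ⟨g, ?_⟩
  have hd : dInv N g = d := by
    unfold dInv
    rw [hg1]
    exact_mod_cast Nat.gcd_eq_left hdN
  have hr' : rInv N g = r := by
    unfold rInv gInv
    rw [hd, hg0, hg1, Int.ediv_self (by exact_mod_cast hd0)]
    simp only [Int.cast_natCast, Int.cast_one]
    have h1 : (((u : ZMod d).val : ℕ) : ZMod (Nat.gcd d (N / d))) = (r : ZMod (Nat.gcd d (N / d))) := by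
      have h2 := congrArg (fun v : (ZMod (Nat.gcd d (N / d)))ˣ => (v : ZMod (Nat.gcd d (N / d)))) hu
      simp only [ZMod.unitsMap, Units.coe_map, MonoidHom.coe_coe, ZMod.coe_unitOfCoprime] at h2
      rw [← h2, ZMod.castHom_apply, ZMod.natCast_val]
    rw [h1, ZMod.inv_one, mul_one, ZMod.val_natCast, Nat.mod_eq_of_lt hr]
  unfold inv
  rw [hd, hr']

/-- A generic counting principle. -/
theorem card_eq_of_surjective {G A B : Type*} (π : G → A) (F : G → B)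
    (hπ : Function.Surjective π) (hF : Function.Surjective F)
    (h : ∀ x y, π x = π y ↔ F x = F y) : Nat.card A = Nat.card B := by
  refine Nat.card_congr (Equiv.ofBijective (fun a => F (Function.surjInv hπ a)) ⟨?_, ?_⟩)
  · intro a b hab
    have := (h _ _).mpr hab
    rw [Function.surjInv_eq hπ, Function.surjInv_eq hπ] at this
    exact this
  · intro b
    obtain ⟨g, rfl⟩ := hF b
    refine ⟨π g, ?_⟩
    exact (h _ _).mp (Function.surjInv_eq hπ (π g))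

end OrbitsT

open OrbitsT in
/-- **S20 package B4**: the number of `⟨T⟩`-orbits on `SL(2,ℤ) ⧸ Γ₀(N)` is `cuspCount N`. -/
theorem card_orbits_T (N : ℕ) [NeZero N] :
    Nat.card (MulAction.orbitRel.Quotient (Subgroup.zpowers (ModularGroup.T))
      (SL(2,ℤ) ⧸ Gamma0 N)) = ModularCurve.cuspCount N := by
  have hN : N ≠ 0 := NeZero.ne N
  rw [← card_indexSet N, ← Nat.card_eq_finsetCard]
  refine card_eq_of_surjective
    (fun g : SL(2,ℤ) => (Quotient.mk'' (g : SL(2,ℤ) ⧸ Gamma0 N) :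
      MulAction.orbitRel.Quotient (Subgroup.zpowers (ModularGroup.T)) (SL(2,ℤ) ⧸ Gamma0 N)))
    (fun g : SL(2,ℤ) => (⟨OrbitsT.inv N g, inv_mem hN g⟩ : ↥(indexSet N))) ?_ ?_ ?_
  · intro x
    induction x using Quotient.inductionOn' with
    | h q =>
      induction q using QuotientGroup.induction_on with
      | H g => exact ⟨g, rfl⟩
  · rintro ⟨x, hx⟩
    obtain ⟨g, hg⟩ := inv_surj hN x hx
    exact ⟨g, Subtype.ext hg⟩
  · intro g₁ g₂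
    rw [Subtype.mk.injEq, inv_eq_iff hN, Quotient.eq'', MulAction.orbitRel_apply,
      MulAction.mem_orbit_iff]
    constructor
    · rintro ⟨⟨t, ht⟩, h⟩
      obtain ⟨k, rfl⟩ := Subgroup.mem_zpowers_iff.mp ht
      have h' : (T ^ k) • (g₂ : SL(2,ℤ) ⧸ Gamma0 N) = (g₁ : SL(2,ℤ) ⧸ Gamma0 N) := h
      have := (T_zpow_smul_eq_iff N g₂ g₁ k).mp h'
      refine ⟨-k, ?_⟩
      have e : g₂ 0 0 * g₁ 1 0 - g₁ 0 0 * g₂ 1 0 - -k * g₁ 1 0 * g₂ 1 0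
          = -(g₁ 0 0 * g₂ 1 0 - g₂ 0 0 * g₁ 1 0 - k * g₂ 1 0 * g₁ 1 0) := by ring
      rw [e, dvd_neg]
      exact this
    · rintro ⟨k, hk⟩
      refine ⟨⟨T ^ (-k), Subgroup.zpow_mem_zpowers T (-k)⟩, ?_⟩
      show (T ^ (-k)) • (g₂ : SL(2,ℤ) ⧸ Gamma0 N) = (g₁ : SL(2,ℤ) ⧸ Gamma0 N)
      rw [T_zpow_smul_eq_iff]
      have e : g₁ 0 0 * g₂ 1 0 - g₂ 0 0 * g₁ 1 0 - -k * g₂ 1 0 * g₁ 1 0
          = -(g₂ 0 0 * g₁ 1 0 - g₁ 0 0 * g₂ 1 0 - k * g₁ 1 0 * g₂ 1 0) := by ring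
      rw [e, dvd_neg]
      exact hk

end Fermat.Agent.S20


end ZBS20_003_0

/-! ### bundled: `Fermat.Agent.S20.Assemble` -/
section ZBS20_003_1
/-
S20: final assembly, stated against the package interfaces (all packages enter as hypotheses here,
so that this file builds independently; `Fermat/Agent/S20.lean` plugs in the landed theorems).
-/

set_option autoImplicit false

open CongruenceSubgroup UpperHalfPlane ModularForm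
open scoped MatrixGroups Manifold

namespace Fermat.Agent.S20

/-- The statement of package COUNT (pure arithmetic), as a proposition. -/
def CountCore : Prop :=
  ∀ {ι : Type} [Fintype ι] (wt : ι → ℤ) (_hwt0 : ∀ i, 0 ≤ wt i) (_hev : ∀ i, Even (wt i))
    (f2 f3 κ s2 : ℕ) (ω : ℂ) (_hω : ω ^ 3 = 1) (_hω1 : ω ≠ 1)
    (_hS2 : s2 = ∑ i, Module.finrank ℂ (CuspForm 𝒮ℒ (2 + wt i)))
    (_hMS : ∃ l : ℤ, (∀ i, wt i + 4 ≤ l) ∧ (12 : ℤ) ∣ l ∧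
        ∑ i, Module.finrank ℂ (ModularForm 𝒮ℒ (l - wt i))
          = ∑ i, Module.finrank ℂ (CuspForm 𝒮ℒ (l + wt i)) + κ)
    (_hM0 : ∑ i, Module.finrank ℂ (ModularForm 𝒮ℒ (0 - wt i)) = 1)
    (_hf2 : ∑ i, (-1 : ℂ) ^ (wt i / 2) = f2) (_hf3 : ∑ i, ω ^ (wt i / 2) = f3),
    (s2 : ℚ) = 1 + (Fintype.card ι : ℚ) / 12 - (f2 : ℚ) / 4 - (f3 : ℚ) / 3 - (κ : ℚ) / 2

theorem assemble (N : ℕ) [NeZero N] (CuspGood : Frame N → Prop)
    (hEX : ∃ Φ : Frame N, Φ.Nondeg)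
    (hMINH : ∀ Φ : Frame N, Φ.Nondeg → ¬ Φ.GoodOnH →
      ∃ Φ' : Frame N, Φ'.Nondeg ∧ Φ'.totalWt < Φ.totalWt)
    (hMINC : ∀ Φ : Frame N, Φ.Nondeg → ¬ CuspGood Φ →
      ∃ Φ' : Frame N, Φ'.Nondeg ∧ Φ'.totalWt < Φ.totalWt)
    (hGood : ∀ (P1 P2 : Frame N → Prop), (∃ Φ : Frame N, Φ.Nondeg) →
      (∀ Φ : Frame N, Φ.Nondeg → ¬ P1 Φ → ∃ Φ' : Frame N, Φ'.Nondeg ∧ Φ'.totalWt < Φ.totalWt) →
      (∀ Φ : Frame N, Φ.Nondeg → ¬ P2 Φ → ∃ Φ' : Frame N, Φ'.Nondeg ∧ Φ'.totalWt < Φ.totalWt) →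
      ∃ Φ : Frame N, Φ.Nondeg ∧ P1 Φ ∧ P2 Φ)
    (hnonneg : ∀ Φ : Frame N, Φ.Nondeg → ∀ i, 0 ≤ Φ.wt i)
    (heven : ∀ Φ : Frame N, Φ.Nondeg → ∀ i, Even (Φ.wt i))
    (hM0 : Module.finrank ℂ (ModularForm (G0 N) 0) = 1)
    (hC2 : ∀ Φ : Frame N, Φ.GoodOnH → CuspGood Φ → ∀ {l : ℤ} (F : ModularForm (G0 N) l) (i : Q N),
      IsBoundedAtImInfty (fun z => ∑ q, cj F q z * (Φ.A z)⁻¹ q i))
    (hC3 : ∀ Φ : Frame N, Φ.GoodOnH → CuspGood Φ → ∀ q i : Q N,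
      IsZeroAtImInfty (fun z => ModularForm.discriminant z * (Φ.A z)⁻¹ q i))
    (hC4 : ∀ Φ : Frame N, Φ.GoodOnH → CuspGood Φ → ∀ l : ℤ, (∀ i, Φ.wt i + 4 ≤ l) → Even l →
      Module.finrank ℂ (ModularForm (G0 N) l)
        = Module.finrank ℂ (CuspForm (G0 N) l) + numCusps N)
    (hM : ∀ Φ : Frame N, Φ.GoodOnH →
      (∀ {l : ℤ} (F : ModularForm (G0 N) l) (i : Q N),
        IsBoundedAtImInfty (fun z => ∑ q, cj F q z * (Φ.A z)⁻¹ q i)) → ∀ l : ℤ,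
      Module.finrank ℂ (ModularForm (G0 N) l)
        = ∑ i, Module.finrank ℂ (ModularForm 𝒮ℒ (l - Φ.wt i)))
    (hS : ∀ Φ : Frame N, Φ.GoodOnH →
      (∀ q i : Q N, IsZeroAtImInfty (fun z => ModularForm.discriminant z * (Φ.A z)⁻¹ q i)) →
      ∀ l : ℤ, Module.finrank ℂ (CuspForm (G0 N) l)
        = ∑ i, Module.finrank ℂ (CuspForm 𝒮ℒ (l + Φ.wt i)))
    (ω : ℂ) (hω : ω ^ 3 = 1) (hω1 : ω ≠ 1)
    (hELL2 : ∀ Φ : Frame N, Φ.GoodOnH → (∀ i, Even (Φ.wt i)) →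
      ∑ i, (-1 : ℂ) ^ (Φ.wt i / 2) = (Nat.card {q : Q N // sigma ModularGroup.S • q = q} : ℂ))
    (hELL3 : ∀ Φ : Frame N, Φ.GoodOnH → (∀ i, Even (Φ.wt i)) →
      ∑ i, ω ^ (Φ.wt i / 2)
        = (Nat.card {q : Q N // sigma (ModularGroup.S * ModularGroup.T) • q = q} : ℂ))
    (hCOUNT : CountCore) :
    (Module.finrank ℂ (CuspForm (G0 N) 2) : ℚ) = ModularCurve.genusFormula N := by
  obtain ⟨Φ, hnd, hH, hC⟩ := hGood (fun Φ => Φ.GoodOnH) CuspGood hEX hMINH hMINC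
  have hZ := hC3 Φ hH hC
  have hMl := hM Φ hH (fun {l} F i => hC2 Φ hH hC F i)
  have hSl := hS Φ hH hZ
  -- a large weight divisible by 12
  obtain ⟨l, hl4, hl12⟩ : ∃ l : ℤ, (∀ i, Φ.wt i + 4 ≤ l) ∧ (12 : ℤ) ∣ l := by
    obtain ⟨B, hB⟩ : ∃ B : ℤ, ∀ i, Φ.wt i ≤ B := by
      refine ⟨∑ i, |Φ.wt i|, fun i => ?_⟩
      calc Φ.wt i ≤ |Φ.wt i| := le_abs_self _
        _ ≤ ∑ j, |Φ.wt j| :=
          Finset.single_le_sum (f := fun j => |Φ.wt j|) (fun j _ => abs_nonneg _)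
            (Finset.mem_univ i)
    refine ⟨12 * (|B| + 1), fun i => ?_, dvd_mul_right _ _⟩
    have h1 := hB i
    have h2 := le_abs_self B
    have h3 := abs_nonneg B
    linarith
  have hl_even : Even l := by
    obtain ⟨m, rfl⟩ := hl12
    exact ⟨6 * m, by ring⟩
  have h4 := hC4 Φ hH hC l hl4 hl_even
  rw [hMl l, hSl l] at h4
  have h0 : ∑ i, Module.finrank ℂ (ModularForm 𝒮ℒ (0 - Φ.wt i)) = 1 := by
    rw [← hMl 0, hM0]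
  have key := hCOUNT (ι := Q N) Φ.wt (hnonneg Φ hnd) (heven Φ hnd)
    (Nat.card {q : Q N // sigma ModularGroup.S • q = q})
    (Nat.card {q : Q N // sigma (ModularGroup.S * ModularGroup.T) • q = q})
    (numCusps N) (Module.finrank ℂ (CuspForm (G0 N) 2)) ω hω hω1
    (hSl 2) ⟨l, hl4, hl12, h4⟩ h0 (hELL2 Φ hH (heven Φ hnd)) (hELL3 Φ hH (heven Φ hnd))
  rw [key, card_Q, card_fixed_sigma_S, card_fixed_sigma_ST, numCusps_eq_card_orbits,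
    card_orbits_T, ModularCurve.genusFormula]

end Fermat.Agent.S20


end ZBS20_003_1
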