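/- GENERATED FILE (helper35, build-time optimisation, NOTES/ZB.md): verbatim concatenation of the modules
   Fermat.Agent.S24.Scott
   Fermat.Agent.S24.OrbitCount
   Fermat.Agent.S24.GenusCount
   Fermat.Agent.S24.PreFinal
   Fermat.Agent.INJ.RamJ
   Fermat.Agent.INJ.RamJLine
   Fermat.Agent.INJ.RamHRel
   Do not edit; do not import together with these modules. -/
import Mathlib
import Fermat.Agent.ZB.S20_002
import Fermat.Agent.ZB.S20_001
import Fermat.Agent.ZB.S20_003
import Fermat.Agent.ZB.S24_015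
import Fermat.Agent.ZB.S24_013
import Fermat.Agent.ZB.S24_016
import Fermat.Agent.ZB.S24_017
import Fermat.Agent.ZB.S24_011
import Fermat.Agent.ZB.S24_003

/-! ### bundled: `Fermat.Agent.S24.Scott` -/
section ZBS24_018_0

/-!
# Scott's lemma for permutation representations (piece P9 of S24)

For a group `G = ⟨a, b⟩` acting transitively on a finite set `Q`, with `z g` the number of orbits
of the cyclic group generated by `g`:

* `z a + z b + z (a * b) ≤ card Q + 2`;
* `card Q + z a + z b + z (a * b)` is even.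
-/

set_option autoImplicit false
set_option linter.style.haveILetI false

namespace Fermat.Agent.S24

open Module LinearMap

section Abstract

variable {k V : Type*} [Field k] [AddCommGroup V] [Module k V] [FiniteDimensional k V]

/-- Scott's lemma, abstract linear-algebra form (no invertibility needed). -/
theorem scott_abstract (g₁ g₂ : V →ₗ[k] V) :
    finrank k V + finrank k ↥(range (1 - g₁) ⊔ range (1 - g₂)) ≤
      finrank k ↥(range (1 - g₁)) + finrank k ↥(range (1 - g₂)) +
        finrank k ↥(range (1 - g₁ * g₂)) +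
        finrank k ↥(ker (1 - g₁) ⊓ ker (1 - g₂)) := by
  -- the middle term of the complex
  let β : V →ₗ[k] ((↥(range (1 - g₁)) × ↥(range (1 - g₂))) × ↥(range (1 - g₁ * g₂))) :=
    ((1 - g₁).rangeRestrict.prod (1 - g₂).rangeRestrict).prod (1 - g₁ * g₂).rangeRestrict
  have hβ_apply : ∀ v, β v = ((⟨(1 - g₁) v, LinearMap.mem_range_self _ v⟩,
        ⟨(1 - g₂) v, LinearMap.mem_range_self _ v⟩),
        ⟨(1 - g₁ * g₂) v, LinearMap.mem_range_self _ v⟩) := fun v => rfl
  let δ : ((↥(range (1 - g₁)) × ↥(range (1 - g₂))) × ↥(range (1 - g₁ * g₂))) →ₗ[k] V :=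
    { toFun := fun c => (c.1.1 : V) + g₁ (c.1.2 : V) - (c.2 : V)
      map_add' := by
        intro x y
        simp only [Prod.fst_add, Prod.snd_add, Submodule.coe_add, map_add]
        abel
      map_smul' := by
        intro r x
        simp only [Prod.smul_fst, Prod.smul_snd, Submodule.coe_smul, map_smul, RingHom.id_apply,
          smul_sub, smul_add] }
  have hδβ : ∀ v, δ (β v) = 0 := by
    intro v
    rw [hβ_apply]
    show ((1 - g₁) v : V) + g₁ ((1 - g₂) v) - (1 - g₁ * g₂) v = 0
    simp only [LinearMap.sub_apply, Module.End.one_apply, Module.End.mul_apply, map_sub]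
    abel
  have hβker : ker β = ker (1 - g₁) ⊓ ker (1 - g₂) := by
    ext v
    simp only [LinearMap.mem_ker, Submodule.mem_inf]
    constructor
    · intro h
      have h' : ((⟨(1 - g₁) v, LinearMap.mem_range_self _ v⟩,
        ⟨(1 - g₂) v, LinearMap.mem_range_self _ v⟩), ⟨(1 - g₁ * g₂) v,
          LinearMap.mem_range_self _ v⟩) = (0 : ((↥(range (1 - g₁)) × ↥(range (1 - g₂))) × ↥(range (1 - g₁ * g₂)))) := by rw [← hβ_apply]; exact h
      rw [Prod.ext_iff, Prod.ext_iff] at h'
      exact ⟨congrArg Subtype.val h'.1.1, congrArg Subtype.val h'.1.2⟩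
    · rintro ⟨h1, h2⟩
      have e1 : g₁ v = v := by
        have := h1; simp only [LinearMap.sub_apply, Module.End.one_apply, sub_eq_zero] at this
        exact this.symm
      have e2 : g₂ v = v := by
        have := h2; simp only [LinearMap.sub_apply, Module.End.one_apply, sub_eq_zero] at this
        exact this.symm
      rw [hβ_apply]
      refine Prod.ext (Prod.ext ?_ ?_) ?_
      · apply Subtype.ext; exact h1
      · apply Subtype.ext; exact h2
      · apply Subtype.ext
        show (1 - g₁ * g₂) v = 0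
        simp [Module.End.mul_apply, e1, e2]
  have hrange : range (1 - g₁) ⊔ range (1 - g₂) ≤ range δ := by
    refine sup_le ?_ ?_
    · rintro x hx
      refine ⟨((⟨x, hx⟩, 0), 0), ?_⟩
      show (x : V) + g₁ ((0 : ↥(range (1 - g₂))) : V) - ((0 : ↥(range (1 - g₁ * g₂))) : V) = x
      simp
    · rintro y hy
      refine ⟨((⟨(1 - g₁) y, LinearMap.mem_range_self _ y⟩, ⟨y, hy⟩), 0), ?_⟩
      show ((1 - g₁) y : V) + g₁ y - ((0 : ↥(range (1 - g₁ * g₂))) : V) = y
      simp
  have h1 : finrank k ↥(range β) ≤ finrank k ↥(ker δ) := by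
    apply Submodule.finrank_mono
    rintro _ ⟨v, rfl⟩
    exact hδβ v
  have h2 := LinearMap.finrank_range_add_finrank_ker β
  have h3 := LinearMap.finrank_range_add_finrank_ker δ
  have h4 : finrank k ↥(range (1 - g₁) ⊔ range (1 - g₂)) ≤ finrank k ↥(range δ) :=
    Submodule.finrank_mono hrange
  have h5 : finrank k ((↥(range (1 - g₁)) × ↥(range (1 - g₂))) × ↥(range (1 - g₁ * g₂))) = finrank k ↥(range (1 - g₁)) + finrank k ↥(range (1 - g₂)) +
      finrank k ↥(range (1 - g₁ * g₂)) := by
    simp only [Module.finrank_prod]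
  rw [hβker] at h2
  omega

end Abstract

section Perm

variable {G : Type*} [Group G] {Q : Type*} [MulAction G Q]

/-- The operator `f ↦ f ∘ (g • ·)` on `Q → ℚ`. -/
noncomputable def permOp (g : G) : (Q → ℚ) →ₗ[ℚ] (Q → ℚ) :=
  LinearMap.funLeft ℚ ℚ (fun x : Q => g • x)

theorem permOp_apply (g : G) (f : Q → ℚ) (x : Q) : permOp g f x = f (g • x) := rfl

theorem permOp_mul (a b : G) : permOp (Q := Q) (a * b) = permOp b * permOp a := by
  apply LinearMap.ext
  intro f
  funext x
  simp only [Module.End.mul_apply, permOp_apply, mul_smul]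

theorem mem_ker_one_sub_permOp (g : G) (f : Q → ℚ) :
    f ∈ ker (1 - permOp (Q := Q) g) ↔ ∀ x, f (g • x) = f x := by
  rw [LinearMap.mem_ker, LinearMap.sub_apply, Module.End.one_apply, sub_eq_zero]
  constructor
  · intro h x
    have := congrFun h x
    rw [permOp_apply] at this
    exact this.symm
  · intro h
    funext x
    rw [permOp_apply]
    exact (h x).symm

theorem zpow_invariant_of_invariant (g : G) (f : Q → ℚ) (h : ∀ x, f (g • x) = f x)
    (n : ℤ) (x : Q) : f (g ^ n • x) = f x := by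
  have hinv : ∀ x, f (g⁻¹ • x) = f x := by
    intro x
    have := h (g⁻¹ • x)
    rw [smul_inv_smul] at this
    exact this.symm
  induction n using Int.induction_on generalizing x with
  | zero => simp
  | succ m ih =>
    rw [zpow_add_one, mul_smul, ih, h]
  | pred m ih =>
    rw [zpow_sub_one, mul_smul, ih, hinv]

/-- The fixed space of `permOp g` has dimension the number of `⟨g⟩`-orbits. -/
theorem finrank_ker_one_sub_permOp [Finite Q] (g : G) :
    finrank ℚ ↥(ker (1 - permOp (Q := Q) g)) =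
      Nat.card (MulAction.orbitRel.Quotient (Subgroup.zpowers g) Q) := by
  classical
  haveI := Fintype.ofFinite Q
  let π : Q → MulAction.orbitRel.Quotient (Subgroup.zpowers g) Q := Quotient.mk''
  have hπ : Function.Surjective π := Quotient.mk''_surjective
  have hΦinj : Function.Injective (LinearMap.funLeft ℚ ℚ π) :=
    LinearMap.funLeft_injective_of_surjective ℚ ℚ π hπ
  have hrange : range (LinearMap.funLeft ℚ ℚ π) = ker (1 - permOp (Q := Q) g) := by
    ext f
    rw [mem_ker_one_sub_permOp]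
    constructor
    · rintro ⟨h, rfl⟩ x
      simp only [LinearMap.funLeft_apply]
      congr 1
      apply Quotient.sound'
      exact ⟨⟨g, Subgroup.mem_zpowers g⟩, rfl⟩
    · intro hf
      refine ⟨fun o => Quotient.liftOn' o f ?_, ?_⟩
      · rintro x y ⟨⟨t, ht⟩, hxy⟩
        obtain ⟨n, rfl⟩ := Subgroup.mem_zpowers_iff.mp ht
        have hxy' : g ^ n • y = x := hxy
        rw [← hxy', zpow_invariant_of_invariant g f hf]
      · funext x
        rfl
  rw [← hrange, LinearMap.finrank_range_of_inj hΦinj, Module.finrank_fintype_fun_eq_card,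
    Nat.card_eq_fintype_card]

theorem finrank_range_one_sub_permOp [Finite Q] (g : G) :
    finrank ℚ ↥(range (1 - permOp (Q := Q) g)) +
      Nat.card (MulAction.orbitRel.Quotient (Subgroup.zpowers g) Q) = Nat.card Q := by
  classical
  haveI := Fintype.ofFinite Q
  have h := LinearMap.finrank_range_add_finrank_ker (1 - permOp (Q := Q) g)
  rw [finrank_ker_one_sub_permOp, Module.finrank_fintype_fun_eq_card] at h
  rw [h, Nat.card_eq_fintype_card]

/-- A function invariant under two generators of a transitive group is constant. -/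
theorem const_of_invariant [MulAction.IsPretransitive G Q] (a b : G)
    (hab : Subgroup.closure {a, b} = ⊤) (f : Q → ℚ)
    (ha : ∀ x, f (a • x) = f x) (hb : ∀ x, f (b • x) = f x) (x y : Q) : f x = f y := by
  let H : Subgroup G :=
    { carrier := {g | ∀ x, f (g • x) = f x}
      one_mem' := fun x => by rw [one_smul]
      mul_mem' := fun {g h} hg hh x => by rw [mul_smul, hg, hh]
      inv_mem' := fun {g} hg x => by
        have := hg (g⁻¹ • x)
        rw [smul_inv_smul] at this
        exact this.symm }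
  have hH : Subgroup.closure {a, b} ≤ H := by
    rw [Subgroup.closure_le]
    rintro g (rfl | rfl)
    · exact ha
    · exact hb
  rw [hab] at hH
  obtain ⟨g, rfl⟩ := MulAction.exists_smul_eq G x y
  exact ((hH (Subgroup.mem_top g)) x).symm

theorem finrank_common_fixed_le_one [Finite Q] [MulAction.IsPretransitive G Q] (a b : G)
    (hab : Subgroup.closure {a, b} = ⊤) :
    finrank ℚ ↥(ker (1 - permOp (Q := Q) b) ⊓ ker (1 - permOp (Q := Q) a)) ≤ 1 := by
  classical
  have hle : ker (1 - permOp (Q := Q) b) ⊓ ker (1 - permOp (Q := Q) a) ≤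
      Submodule.span ℚ {(fun _ : Q => (1 : ℚ))} := by
    intro f hf
    rw [Submodule.mem_inf, mem_ker_one_sub_permOp, mem_ker_one_sub_permOp] at hf
    rcases isEmpty_or_nonempty Q with hQ | ⟨⟨x₀⟩⟩
    · have : f = 0 := funext fun x => (hQ.false x).elim
      rw [this]; exact Submodule.zero_mem _
    · rw [Submodule.mem_span_singleton]
      refine ⟨f x₀, ?_⟩
      funext x
      simp only [Pi.smul_apply, smul_eq_mul, mul_one]
      exact const_of_invariant a b hab f hf.2 hf.1 x₀ x
  calc finrank ℚ ↥(ker (1 - permOp (Q := Q) b) ⊓ ker (1 - permOp (Q := Q) a))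
      ≤ finrank ℚ ↥(Submodule.span ℚ {(fun _ : Q => (1 : ℚ))}) := Submodule.finrank_mono hle
    _ ≤ 1 := by
      have := finrank_span_le_card (R := ℚ) ({(fun _ : Q => (1 : ℚ))} : Set (Q → ℚ))
      simpa using this

/-- The indicator function of a point. -/
noncomputable def dirac [DecidableEq Q] (x : Q) : Q → ℚ := Pi.single x 1

theorem dirac_apply [DecidableEq Q] (x t : Q) : dirac x t = if t = x then 1 else 0 := by
  unfold dirac
  rw [Pi.single_apply]

theorem one_sub_permOp_single [DecidableEq Q] (g : G) (x : Q) :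
    (1 - permOp (Q := Q) g) (dirac (g • x)) = dirac (g • x) - dirac x := by
  funext t
  simp only [LinearMap.sub_apply, Module.End.one_apply, Pi.sub_apply, permOp_apply]
  congr 1
  rw [dirac_apply, dirac_apply]
  by_cases h : t = x
  · subst h; simp
  · have h' : g • t ≠ g • x := fun e => h (MulAction.injective g e)
    simp [h, h']

theorem card_le_finrank_range_sup_add_one [Finite Q] [MulAction.IsPretransitive G Q] (a b : G)
    (hab : Subgroup.closure {a, b} = ⊤) :
    Nat.card Q ≤
      finrank ℚ ↥(range (1 - permOp (Q := Q) b) ⊔ range (1 - permOp (Q := Q) a)) + 1 := by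
  classical
  haveI := Fintype.ofFinite Q
  rcases isEmpty_or_nonempty Q with hQ | ⟨⟨x₀⟩⟩
  · simp
  set I : Submodule ℚ (Q → ℚ) := range (1 - permOp (Q := Q) b) ⊔ range (1 - permOp (Q := Q) a)
    with hI
  let H : Subgroup G :=
    { carrier := {g | ∀ x : Q, dirac (g • x) - dirac x ∈ I}
      one_mem' := fun x => by rw [one_smul, sub_self]; exact I.zero_mem
      mul_mem' := fun {g h} hg hh x => by
        have e : dirac ((g * h) • x) - dirac x =
            (dirac (g • (h • x)) - dirac (h • x)) +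
              (dirac (h • x) - dirac x) := by
          rw [mul_smul]; abel
        rw [e]
        exact I.add_mem (hg (h • x)) (hh x)
      inv_mem' := fun {g} hg x => by
        have e : dirac (g⁻¹ • x) - dirac x =
            -(dirac (g • (g⁻¹ • x)) - dirac (g⁻¹ • x)) := by
          rw [smul_inv_smul]; abel
        rw [e]
        exact I.neg_mem (hg (g⁻¹ • x)) }
  have hH : Subgroup.closure {a, b} ≤ H := by
    rw [Subgroup.closure_le]
    rintro g (rfl | rfl)
    · intro x
      rw [← one_sub_permOp_single]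
      exact (le_sup_right : range (1 - permOp (Q := Q) g) ≤ I) (LinearMap.mem_range_self _ _)
    · intro x
      rw [← one_sub_permOp_single]
      exact (le_sup_left : range (1 - permOp (Q := Q) g) ≤ I) (LinearMap.mem_range_self _ _)
  rw [hab] at hH
  have hsingle : ∀ x : Q, dirac x ∈ I ⊔ Submodule.span ℚ {dirac x₀} := by
    intro x
    obtain ⟨g, rfl⟩ := MulAction.exists_smul_eq G x₀ x
    have h1 := (hH (Subgroup.mem_top g)) x₀
    have e : dirac (g • x₀) =
        (dirac (g • x₀) - dirac x₀) + dirac x₀ := by abel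
    rw [e]
    exact Submodule.add_mem _ (Submodule.mem_sup_left h1)
      (Submodule.mem_sup_right (Submodule.mem_span_singleton_self _))
  have htop : (⊤ : Submodule ℚ (Q → ℚ)) ≤ I ⊔ Submodule.span ℚ {dirac x₀} := by
    intro f _
    have hf : f = ∑ x, f x • dirac x := by
      funext t
      simp [Finset.sum_apply, dirac_apply]
    rw [hf]
    exact Submodule.sum_mem _ fun x _ => Submodule.smul_mem _ _ (hsingle x)
  have h1 : finrank ℚ (Q → ℚ) ≤ finrank ℚ ↥(I ⊔ Submodule.span ℚ {dirac x₀}) := by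
    rw [← finrank_top ℚ (Q → ℚ)]
    exact Submodule.finrank_mono htop
  have h2 := Submodule.finrank_add_le_finrank_add_finrank I
    (Submodule.span ℚ {dirac x₀})
  have h3 : finrank ℚ ↥(Submodule.span ℚ {dirac x₀}) ≤ 1 := by
    have := finrank_span_le_card (R := ℚ) ({dirac x₀} : Set (Q → ℚ))
    simpa using this
  rw [Module.finrank_fintype_fun_eq_card] at h1
  rw [Nat.card_eq_fintype_card]
  omega

/-- **Scott's inequality** for a transitive permutation action of a two-generator group. -/
theorem scott_orbit_bound [Finite Q] [MulAction.IsPretransitive G Q] (a b : G)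
    (hab : Subgroup.closure {a, b} = ⊤) :
    Nat.card (MulAction.orbitRel.Quotient (Subgroup.zpowers a) Q) +
      Nat.card (MulAction.orbitRel.Quotient (Subgroup.zpowers b) Q) +
      Nat.card (MulAction.orbitRel.Quotient (Subgroup.zpowers (a * b)) Q) ≤ Nat.card Q + 2 := by
  classical
  haveI := Fintype.ofFinite Q
  have h := scott_abstract (k := ℚ) (permOp (Q := Q) b) (permOp (Q := Q) a)
  rw [← permOp_mul] at h
  have ha := finrank_range_one_sub_permOp (Q := Q) a
  have hb := finrank_range_one_sub_permOp (Q := Q) b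
  have hc := finrank_range_one_sub_permOp (Q := Q) (a * b)
  have h2 := finrank_common_fixed_le_one (Q := Q) a b hab
  have h3 := card_le_finrank_range_sup_add_one (Q := Q) a b hab
  rw [Module.finrank_fintype_fun_eq_card, ← Nat.card_eq_fintype_card] at h
  omega

end Perm

section Parity

open Equiv Equiv.Perm

variable {Q : Type*} [Fintype Q] [DecidableEq Q]

/-- The number of cycles (including fixed points) of a permutation. -/
theorem card_quotient_sameCycle (σ : Equiv.Perm Q) :
    Nat.card (Quotient (Equiv.Perm.SameCycle.setoid σ)) + σ.cycleType.sum =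
      Fintype.card Q + Multiset.card σ.cycleType := by
  classical
  let φ : Q → (Function.fixedPoints σ) ⊕ σ.cycleFactorsFinset := fun x =>
    if h : σ x = x then Sum.inl ⟨x, h⟩
    else Sum.inr ⟨σ.cycleOf x,
      Equiv.Perm.cycleOf_mem_cycleFactorsFinset_iff.mpr (Equiv.Perm.mem_support.mpr h)⟩
  have hφ : ∀ x y, σ.SameCycle x y ↔ φ x = φ y := by
    intro x y
    constructor
    · intro h
      by_cases hx : σ x = x
      · have hxy : x = y := h.eq_of_left hx
        subst hxy
        rfl
      · have hy : σ y ≠ y := fun hy => hx (h.apply_eq_self_iff.mpr hy)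
        simp only [φ, dif_neg hx, dif_neg hy]
        congr 2
        exact h.cycleOf_eq
    · intro h
      by_cases hx : σ x = x
      · by_cases hy : σ y = y
        · simp only [φ, dif_pos hx, dif_pos hy, Sum.inl.injEq, Subtype.mk.injEq] at h
          subst h
          exact Equiv.Perm.SameCycle.refl σ x
        · simp only [φ, dif_pos hx, dif_neg hy] at h
          exact absurd h (by simp)
      · by_cases hy : σ y = y
        · simp only [φ, dif_neg hx, dif_pos hy] at h
          exact absurd h (by simp)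
        · simp only [φ, dif_neg hx, dif_neg hy, Sum.inr.injEq, Subtype.mk.injEq] at h
          exact (Equiv.Perm.sameCycle_iff_cycleOf_eq_of_mem_support
            (Equiv.Perm.mem_support.mpr hx) (Equiv.Perm.mem_support.mpr hy)).mpr h
  have hsurj : Function.Surjective φ := by
    rintro (⟨x, hx⟩ | ⟨c, hc⟩)
    · refine ⟨x, ?_⟩
      have hx' : σ x = x := hx
      simp only [φ, dif_pos hx']
    · have hcyc : c.IsCycle := (Equiv.Perm.mem_cycleFactorsFinset_iff.mp hc).1
      obtain ⟨x, hx, -⟩ := hcyc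
      have hxs : x ∈ c.support := Equiv.Perm.mem_support.mpr hx
      have hxσ : σ x ≠ x :=
        Equiv.Perm.mem_support.mp (Equiv.Perm.mem_cycleFactorsFinset_support_le hc hxs)
      refine ⟨x, ?_⟩
      simp only [φ, dif_neg hxσ]
      congr 2
      exact (Equiv.Perm.cycle_is_cycleOf hxs hc).symm
  have hker : Equiv.Perm.SameCycle.setoid σ = Setoid.ker φ := by
    ext x y
    exact hφ x y
  have hcard : Nat.card (Quotient (Equiv.Perm.SameCycle.setoid σ)) =
      Fintype.card (Function.fixedPoints σ) + σ.cycleFactorsFinset.card := by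
    rw [hker, Nat.card_congr (Setoid.quotientKerEquivOfSurjective φ hsurj),
      Nat.card_eq_fintype_card, Fintype.card_sum, Fintype.card_coe]
  have h1 := Equiv.Perm.card_fixedPoints σ
  have h2 := Equiv.Perm.sum_cycleType_le σ
  have h3 : Multiset.card σ.cycleType = σ.cycleFactorsFinset.card := by
    rw [Equiv.Perm.cycleType_def, Multiset.card_map]
    rfl
  rw [hcard, h1, h3]
  omega

variable {G : Type*} [Group G] [MulAction G Q]

omit [Fintype Q] [DecidableEq Q] in
theorem toPerm_zpow_apply (g : G) (n : ℤ) (x : Q) :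
    ((MulAction.toPerm g : Equiv.Perm Q) ^ n) x = g ^ n • x := by
  have h : (MulAction.toPerm g : Equiv.Perm Q) ^ n = MulAction.toPerm (g ^ n) := by
    rw [← MulAction.coe_toPermHom, ← map_zpow]
  rw [h]
  rfl

omit [Fintype Q] [DecidableEq Q] in
/-- Orbits of `⟨g⟩` are the cycles of the permutation induced by `g`. -/
theorem card_orbits_zpowers_eq (g : G) :
    Nat.card (MulAction.orbitRel.Quotient (Subgroup.zpowers g) Q) =
      Nat.card (Quotient (Equiv.Perm.SameCycle.setoid (MulAction.toPerm g : Equiv.Perm Q))) := by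
  apply Nat.card_congr
  refine Quotient.congr (Equiv.refl Q) ?_
  intro x y
  show x ∈ MulAction.orbit (Subgroup.zpowers g) y ↔
    (MulAction.toPerm g : Equiv.Perm Q).SameCycle x y
  constructor
  · rintro ⟨⟨t, ht⟩, hxy⟩
    obtain ⟨n, rfl⟩ := Subgroup.mem_zpowers_iff.mp ht
    have hxy' : g ^ n • y = x := hxy
    refine (Equiv.Perm.SameCycle.symm ?_)
    exact ⟨n, by rw [toPerm_zpow_apply, hxy']⟩
  · intro h
    obtain ⟨n, hn⟩ := h.symm
    rw [toPerm_zpow_apply] at hn
    exact ⟨⟨g ^ n, Subgroup.zpow_mem_zpowers g n⟩, hn⟩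

theorem sign_toPerm (g : G) :
    ((Equiv.Perm.sign (MulAction.toPerm g : Equiv.Perm Q) : ℤˣ) : ℤ) =
      (-1 : ℤ) ^ (Nat.card Q + Nat.card (MulAction.orbitRel.Quotient (Subgroup.zpowers g) Q)) := by
  have h := card_quotient_sameCycle (MulAction.toPerm g : Equiv.Perm Q)
  rw [← card_orbits_zpowers_eq] at h
  rw [Equiv.Perm.sign_of_cycleType, Nat.card_eq_fintype_card]
  have h2 := Equiv.Perm.sum_cycleType_le (MulAction.toPerm g : Equiv.Perm Q)
  set z := Nat.card (MulAction.orbitRel.Quotient (Subgroup.zpowers g) Q)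
  set s := (MulAction.toPerm g : Equiv.Perm Q).cycleType.sum
  set c := Multiset.card (MulAction.toPerm g : Equiv.Perm Q).cycleType
  set n := Fintype.card Q
  push_cast
  have e : n + z = (s + c) + 2 * (n - s) := by omega
  rw [e, pow_add (-1 : ℤ) (s + c), pow_mul, pow_add]
  simp

/-- Parity statement accompanying Scott's inequality. -/
theorem scott_orbit_parity (a b : G) :
    Even (Nat.card Q + Nat.card (MulAction.orbitRel.Quotient (Subgroup.zpowers a) Q) +
      Nat.card (MulAction.orbitRel.Quotient (Subgroup.zpowers b) Q) +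
      Nat.card (MulAction.orbitRel.Quotient (Subgroup.zpowers (a * b)) Q)) := by
  have hmul : (MulAction.toPerm (a * b) : Equiv.Perm Q) =
      MulAction.toPerm a * MulAction.toPerm b := by
    ext x
    simp [mul_smul]
  have h := sign_toPerm (Q := Q) (a * b)
  rw [hmul, map_mul, Units.val_mul, sign_toPerm a, sign_toPerm b, ← pow_add] at h
  set n := Nat.card Q
  set za := Nat.card (MulAction.orbitRel.Quotient (Subgroup.zpowers a) Q)
  set zb := Nat.card (MulAction.orbitRel.Quotient (Subgroup.zpowers b) Q)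
  set zc := Nat.card (MulAction.orbitRel.Quotient (Subgroup.zpowers (a * b)) Q)
  have h1 : (-1 : ℤ) ^ ((n + za + (n + zb)) + (n + zc)) = 1 := by
    rw [pow_add, ← h, ← pow_add, ← two_mul, pow_mul]
    simp
  have h2 : Even ((n + za + (n + zb)) + (n + zc)) :=
    (neg_one_pow_eq_one_iff_even (by norm_num)).mp h1
  rcases h2 with ⟨m, hm⟩
  exact ⟨m - n, by omega⟩

end Parity

section Final

variable {G : Type*} [Group G] {Q : Type*} [MulAction G Q]

/-- **Scott's lemma with parity** (piece P9 of S24): for a group `G = ⟨a, b⟩` acting transitively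
on a finite set `Q`, with `z g` the number of orbits of `⟨g⟩` on `Q`,
`z a + z b + z (a * b) ≤ card Q + 2` and `card Q + z a + z b + z (a * b)` is even. -/
theorem scott_orbit_bound_and_parity [Finite Q] [MulAction.IsPretransitive G Q] (a b : G)
    (hab : Subgroup.closure {a, b} = ⊤) :
    Nat.card (MulAction.orbitRel.Quotient (Subgroup.zpowers a) Q) +
        Nat.card (MulAction.orbitRel.Quotient (Subgroup.zpowers b) Q) +
        Nat.card (MulAction.orbitRel.Quotient (Subgroup.zpowers (a * b)) Q) ≤ Nat.card Q + 2 ∧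
      Even (Nat.card Q + Nat.card (MulAction.orbitRel.Quotient (Subgroup.zpowers a) Q) +
        Nat.card (MulAction.orbitRel.Quotient (Subgroup.zpowers b) Q) +
        Nat.card (MulAction.orbitRel.Quotient (Subgroup.zpowers (a * b)) Q)) := by
  classical
  haveI := Fintype.ofFinite Q
  exact ⟨scott_orbit_bound a b hab, scott_orbit_parity a b⟩

/-- Consequence: the "genus" `(card Q + 2 - z a - z b - z (a * b)) / 2` is a natural number `γ`. -/
theorem scott_exists_genus [Finite Q] [MulAction.IsPretransitive G Q] (a b : G)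
    (hab : Subgroup.closure {a, b} = ⊤) :
    ∃ γ : ℕ, Nat.card (MulAction.orbitRel.Quotient (Subgroup.zpowers a) Q) +
        Nat.card (MulAction.orbitRel.Quotient (Subgroup.zpowers b) Q) +
        Nat.card (MulAction.orbitRel.Quotient (Subgroup.zpowers (a * b)) Q) + 2 * γ =
      Nat.card Q + 2 := by
  obtain ⟨h1, ⟨m, hm⟩⟩ := scott_orbit_bound_and_parity (Q := Q) a b hab
  exact ⟨Nat.card Q + 1 - m, by omega⟩

/-- Scott's lemma for finite transitive `SL(2,ℤ)`-sets and the standard generators `S`, `T`. -/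
theorem scott_SL2Z {Q : Type*} [MulAction (Matrix.SpecialLinearGroup (Fin 2) ℤ) Q] [Finite Q]
    [MulAction.IsPretransitive (Matrix.SpecialLinearGroup (Fin 2) ℤ) Q] :
    Nat.card (MulAction.orbitRel.Quotient (Subgroup.zpowers ModularGroup.S) Q) +
        Nat.card (MulAction.orbitRel.Quotient (Subgroup.zpowers ModularGroup.T) Q) +
        Nat.card (MulAction.orbitRel.Quotient
          (Subgroup.zpowers (ModularGroup.S * ModularGroup.T)) Q) ≤ Nat.card Q + 2 ∧
      Even (Nat.card Q +
        Nat.card (MulAction.orbitRel.Quotient (Subgroup.zpowers ModularGroup.S) Q) +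
        Nat.card (MulAction.orbitRel.Quotient (Subgroup.zpowers ModularGroup.T) Q) +
        Nat.card (MulAction.orbitRel.Quotient
          (Subgroup.zpowers (ModularGroup.S * ModularGroup.T)) Q)) :=
  scott_orbit_bound_and_parity ModularGroup.S ModularGroup.T
    SpecialLinearGroup.SL2Z_generators

end Final

end Fermat.Agent.S24


end ZBS24_018_0

/-! ### bundled: `Fermat.Agent.S24.OrbitCount` -/
section ZBS24_018_1

/-!
# Orbit counting for elements of prime order (follow-up to P9 of S24)

For a finite `G`-set `Q`, `g : G`, `p` prime with `g ^ p` acting trivially on `Q`: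
`p * z(g) = card Q + (p - 1) * #Fix(g)`, where `z(g)` is the number of orbits of `⟨g⟩` on `Q`.
Also `z(1) = card Q`.
-/

set_option autoImplicit false
set_option linter.style.haveILetI false

namespace Fermat.Agent.S24

section OrbitCount

open Equiv Equiv.Perm

/-- A permutation with `σ ^ p = 1`, `p` prime, has cycle type `p, p, …, p`. -/
theorem cycleType_eq_replicate_of_pow_prime_eq_one {Q : Type*} [Fintype Q] [DecidableEq Q]
    (σ : Equiv.Perm Q) (p : ℕ) (hp : p.Prime) (hσ : σ ^ p = 1) :
    σ.cycleType = Multiset.replicate (Multiset.card σ.cycleType) p := by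
  refine Multiset.eq_replicate.mpr ⟨rfl, ?_⟩
  intro n hn
  have h1 : n ∣ orderOf σ := Equiv.Perm.dvd_of_mem_cycleType hn
  have h2 : orderOf σ ∣ p := orderOf_dvd_of_pow_eq_one hσ
  have h3 : 2 ≤ n := Equiv.Perm.two_le_of_mem_cycleType hn
  rcases (Nat.dvd_prime hp).mp (h1.trans h2) with h | h
  · omega
  · exact h

/-- Number of fixed points plus the size of the support is the cardinality. -/
theorem card_fixed_add_sum_cycleType {Q : Type*} [Fintype Q] [DecidableEq Q]
    (σ : Equiv.Perm Q) :
    Nat.card {q : Q // σ q = q} + σ.cycleType.sum = Fintype.card Q := by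
  classical
  rw [Equiv.Perm.sum_cycleType, Nat.card_eq_fintype_card]
  have h1 : Fintype.card {q : Q // σ q = q} = (Finset.univ.filter fun q : Q => σ q = q).card :=
    Fintype.card_subtype _
  have h2 : σ.support = Finset.univ.filter fun q : Q => ¬ σ q = q := by
    ext q
    simp [Equiv.Perm.mem_support]
  rw [h1, h2]
  have := Finset.card_filter_add_card_filter_not (s := (Finset.univ : Finset Q))
    (fun q : Q => σ q = q)
  simpa using this

/-- **Orbit count for an element of prime order.** If `g ^ p` acts trivially on the finite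
`G`-set `Q` (`p` prime), then `p * #(orbits of ⟨g⟩) = #Q + (p - 1) * #Fix(g)`. -/
theorem orbitCount_prime {G : Type*} [Group G] {Q : Type*} [MulAction G Q] [Finite Q]
    (g : G) (p : ℕ) (hp : p.Prime) (hg : ∀ q : Q, g ^ p • q = q) :
    p * Nat.card (MulAction.orbitRel.Quotient (Subgroup.zpowers g) Q) =
      Nat.card Q + (p - 1) * Nat.card {q : Q // g • q = q} := by
  classical
  haveI : Fintype Q := Fintype.ofFinite Q
  set σ : Equiv.Perm Q := MulAction.toPerm g with hσdef
  have hσ : σ ^ p = 1 := by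
    ext q
    have := toPerm_zpow_apply (Q := Q) g (p : ℤ) q
    rw [zpow_natCast, zpow_natCast] at this
    rw [this, hg q]
    rfl
  have h1 := card_quotient_sameCycle σ
  rw [← card_orbits_zpowers_eq] at h1
  have h2 := card_fixed_add_sum_cycleType σ
  have h3 := cycleType_eq_replicate_of_pow_prime_eq_one σ p hp hσ
  have h4 : σ.cycleType.sum = Multiset.card σ.cycleType * p := by
    conv_lhs => rw [h3]
    rw [Multiset.sum_replicate, smul_eq_mul]
  have h5 : Nat.card {q : Q // σ q = q} = Nat.card {q : Q // g • q = q} := rfl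
  rw [h5] at h2
  rw [Nat.card_eq_fintype_card (α := Q)]
  set z := Nat.card (MulAction.orbitRel.Quotient (Subgroup.zpowers g) Q)
  set c := Multiset.card σ.cycleType
  set s := σ.cycleType.sum
  set F := Nat.card {q : Q // g • q = q}
  set n := Fintype.card Q
  -- z + s = n + c, F + s = n, s = c * p  ⇒  z = F + c,  p z = p F + p c = n + (p-1) F
  have hz : z = F + c := by omega
  obtain ⟨k, rfl⟩ : ∃ k, p = k + 1 := ⟨p - 1, by have := hp.pos; omega⟩
  rw [hz, ← h2, h4]
  simp only [Nat.add_sub_cancel]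
  ring

/-- The trivial element has `card Q` orbits. -/
theorem orbitCount_one {G : Type*} [Group G] {Q : Type*} [MulAction G Q] :
    Nat.card (MulAction.orbitRel.Quotient (Subgroup.zpowers (1 : G)) Q) = Nat.card Q := by
  apply Nat.card_congr
  refine
    { toFun := Quotient.lift (fun q : Q => q) ?_
      invFun := fun q => Quotient.mk _ q
      left_inv := ?_
      right_inv := fun q => rfl }
  · intro a b hab
    obtain ⟨⟨t, ht⟩, hxy⟩ := hab
    rw [Subgroup.zpowers_one_eq_bot, Subgroup.mem_bot] at ht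
    subst ht
    have : (1 : G) • b = a := hxy
    rw [one_smul] at this
    exact this.symm
  · intro x
    induction x using Quotient.inductionOn with
    | _ q => rfl

/-- Special case `p = 2`: `2 * z(g) = card Q + #Fix(g)` for an involution. -/
theorem orbitCount_two {G : Type*} [Group G] {Q : Type*} [MulAction G Q] [Finite Q]
    (g : G) (hg : ∀ q : Q, g ^ 2 • q = q) :
    2 * Nat.card (MulAction.orbitRel.Quotient (Subgroup.zpowers g) Q) =
      Nat.card Q + Nat.card {q : Q // g • q = q} := by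
  have := orbitCount_prime g 2 Nat.prime_two hg
  simpa using this

/-- Special case `p = 3`: `3 * z(g) = card Q + 2 * #Fix(g)`. -/
theorem orbitCount_three {G : Type*} [Group G] {Q : Type*} [MulAction G Q] [Finite Q]
    (g : G) (hg : ∀ q : Q, g ^ 3 • q = q) :
    3 * Nat.card (MulAction.orbitRel.Quotient (Subgroup.zpowers g) Q) =
      Nat.card Q + 2 * Nat.card {q : Q // g • q = q} := by
  have := orbitCount_prime g 3 Nat.prime_three hg
  simpa using this

end OrbitCount

end Fermat.Agent.S24


end ZBS24_018_1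

/-! ### bundled: `Fermat.Agent.S24.GenusCount` -/
section ZBS24_018_2

/-!
# S24 piece GC: the orbit counts on `SL(2,ℤ) ⧸ Γ₀(N)` give the genus formula

With `Q = SL(2,ℤ) ⧸ Γ₀(N)`, `n = card Q = ψ(N)` and `z g` the number of orbits of `⟨g⟩` on `Q`:
`(n − z(ST)) + (n − z(S)) − (n + z(T)) = 2G − 2` for a natural number `G` with
`G = genusFormula N` in `ℚ`.
-/

set_option autoImplicit false
set_option linter.style.haveILetI false

open scoped MatrixGroups
open CongruenceSubgroup

namespace Fermat.Agent.S24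

section GenusCount

theorem S_sq_eq_neg_one : (ModularGroup.S) ^ 2 = (-1 : SL(2, ℤ)) := by
  ext i j
  fin_cases i <;> fin_cases j <;>
    simp [ModularGroup.S, pow_two, Matrix.mul_apply, Fin.sum_univ_two]

theorem ST_cube_eq_neg_one : (ModularGroup.S * ModularGroup.T) ^ 3 = (-1 : SL(2, ℤ)) := by
  ext i j
  fin_cases i <;> fin_cases j <;>
    simp [ModularGroup.S, ModularGroup.T, pow_succ, Matrix.mul_apply, Fin.sum_univ_two]

/-- `-1` acts trivially on `SL(2,ℤ) ⧸ Γ₀(N)`. -/
theorem neg_one_smul_quot_Gamma0 (N : ℕ) (q : SL(2, ℤ) ⧸ Gamma0 N) :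
    (-1 : SL(2, ℤ)) • q = q := by
  induction q using QuotientGroup.induction_on with
  | H g =>
    rw [MulAction.Quotient.smul_coe, smul_eq_mul, QuotientGroup.eq]
    have : ((-1 : SL(2, ℤ)) * g)⁻¹ * g = -1 := by
      rw [neg_one_mul, inv_neg, neg_mul, inv_mul_cancel]
    rw [this, CongruenceSubgroup.Gamma0_mem]
    simp

/-- `z(1) = card Q` on `Q = SL(2,ℤ) ⧸ Γ₀(N)`. -/
theorem card_orbits_one (N : ℕ) [NeZero N] :
    Nat.card (MulAction.orbitRel.Quotient (Subgroup.zpowers (1 : SL(2, ℤ)))
        (SL(2, ℤ) ⧸ Gamma0 N))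
      = Nat.card (SL(2, ℤ) ⧸ Gamma0 N) :=
  orbitCount_one

/-- `2 z(S) = ψ(N) + ν₂(N)`. -/
theorem two_mul_card_orbits_S (N : ℕ) [NeZero N] :
    2 * Nat.card (MulAction.orbitRel.Quotient (Subgroup.zpowers ModularGroup.S)
        (SL(2, ℤ) ⧸ Gamma0 N)) =
      ModularCurve.dedekindPsi N + ModularCurve.nuTwo N := by
  haveI : Finite (SL(2, ℤ) ⧸ Gamma0 N) := Subgroup.finite_quotient_of_finiteIndex
  have h := orbitCount_two (Q := SL(2, ℤ) ⧸ Gamma0 N) ModularGroup.S (fun q => by
    rw [S_sq_eq_neg_one]; exact neg_one_smul_quot_Gamma0 N q)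
  rw [Fermat.Agent.S20.card_quot_Gamma0, Fermat.Agent.S20.card_fixed_S] at h
  exact h

/-- `3 z(ST) = ψ(N) + 2 ν₃(N)`. -/
theorem three_mul_card_orbits_ST (N : ℕ) [NeZero N] :
    3 * Nat.card (MulAction.orbitRel.Quotient
        (Subgroup.zpowers (ModularGroup.S * ModularGroup.T)) (SL(2, ℤ) ⧸ Gamma0 N)) =
      ModularCurve.dedekindPsi N + 2 * ModularCurve.nuThree N := by
  haveI : Finite (SL(2, ℤ) ⧸ Gamma0 N) := Subgroup.finite_quotient_of_finiteIndex
  have h := orbitCount_three (Q := SL(2, ℤ) ⧸ Gamma0 N) (ModularGroup.S * ModularGroup.T)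
    (fun q => by rw [ST_cube_eq_neg_one]; exact neg_one_smul_quot_Gamma0 N q)
  rw [Fermat.Agent.S20.card_quot_Gamma0, Fermat.Agent.S20.card_fixed_ST] at h
  exact h

/-- **S24 piece GC.** The Riemann–Hurwitz count on `Q = SL(2,ℤ) ⧸ Γ₀(N)` equals `2G − 2` with
`G` a natural number equal to `genusFormula N`. -/
theorem exists_genus_count (N : ℕ) [NeZero N] :
    ∃ G : ℕ, (G : ℚ) = ModularCurve.genusFormula N ∧
      ((Nat.card (SL(2, ℤ) ⧸ Gamma0 N) : ℤ)
          - Nat.card (MulAction.orbitRel.Quotient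
              (Subgroup.zpowers (ModularGroup.S * ModularGroup.T)) (SL(2, ℤ) ⧸ Gamma0 N)))
        + ((Nat.card (SL(2, ℤ) ⧸ Gamma0 N) : ℤ)
          - Nat.card (MulAction.orbitRel.Quotient (Subgroup.zpowers ModularGroup.S)
              (SL(2, ℤ) ⧸ Gamma0 N)))
        - ((Nat.card (SL(2, ℤ) ⧸ Gamma0 N) : ℤ)
          + Nat.card (MulAction.orbitRel.Quotient (Subgroup.zpowers ModularGroup.T)
              (SL(2, ℤ) ⧸ Gamma0 N)))
      = 2 * (G : ℤ) - 2 := by
  haveI : Finite (SL(2, ℤ) ⧸ Gamma0 N) := Subgroup.finite_quotient_of_finiteIndex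
  obtain ⟨γ, hγ⟩ := scott_exists_genus (Q := SL(2, ℤ) ⧸ Gamma0 N) ModularGroup.S ModularGroup.T
    SpecialLinearGroup.SL2Z_generators
  have hS := two_mul_card_orbits_S N
  have hST := three_mul_card_orbits_ST N
  have hT := Fermat.Agent.S20.card_orbits_T N
  have hn := Fermat.Agent.S20.card_quot_Gamma0 N
  set zS := Nat.card (MulAction.orbitRel.Quotient (Subgroup.zpowers ModularGroup.S)
    (SL(2, ℤ) ⧸ Gamma0 N)) with hzS
  set zT := Nat.card (MulAction.orbitRel.Quotient (Subgroup.zpowers ModularGroup.T)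
    (SL(2, ℤ) ⧸ Gamma0 N)) with hzT
  set zST := Nat.card (MulAction.orbitRel.Quotient
    (Subgroup.zpowers (ModularGroup.S * ModularGroup.T)) (SL(2, ℤ) ⧸ Gamma0 N)) with hzST
  set n := Nat.card (SL(2, ℤ) ⧸ Gamma0 N) with hndef
  refine ⟨γ, ?_, ?_⟩
  · rw [ModularCurve.genusFormula]
    have e1 : (2 : ℚ) * zS = ModularCurve.dedekindPsi N + ModularCurve.nuTwo N := by
      exact_mod_cast hS
    have e2 : (3 : ℚ) * zST = ModularCurve.dedekindPsi N + 2 * ModularCurve.nuThree N := by
      exact_mod_cast hST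
    have e3 : (zT : ℚ) = ModularCurve.cuspCount N := by exact_mod_cast hT
    have e4 : (zS : ℚ) + zT + zST + 2 * γ = n + 2 := by exact_mod_cast hγ
    have e5 : (n : ℚ) = ModularCurve.dedekindPsi N := by exact_mod_cast hn
    linarith
  · have e4 : (zS : ℤ) + zT + zST + 2 * γ = n + 2 := by exact_mod_cast hγ
    linarith

end GenusCount

end Fermat.Agent.S24


end ZBS24_018_2

/-! ### bundled: `Fermat.Agent.S24.PreFinal` -/
section ZBS24_018_3

/-!
# S24 — final assembly, all algebraic pieces wired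

`genus_of_realization`: the genus formula from a `Realization N` and the statement that principal
divisors have degree `0` (piece F2, stated here as a hypothesis in the exact shape of
`degree_principal_eq_zero`).
-/

set_option autoImplicit false

noncomputable section

open AlgebraicCurve ModularCurve IntermediateField KaehlerDifferential
open scoped MatrixGroups

namespace Fermat.Agent.S24

theorem genus_of_realization (N : ℕ) [NeZero N] [HasCanonicalDivisor (K := Kb) (F := FF N)]
    (R : Realization N)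
    (hprinc : ∀ g : FF N, g ≠ 0 → ∀ D : Divisor Kb (FF N), (∀ v, D v = v.ord g) →
      Divisor.degree D = 0) :
    (genus Kb (FF N) : ℚ) = genusFormula N := by
  haveI := R.finite_range
  have hfin : FiniteDimensional Kb⟮jF N⟯ (FF N) :=
    finiteDimensional_adjoin_of_fixed R.φ R.act (jF N) R.fixed
  have htr := transcendental_jF N
  have halg : Algebra.IsAlgebraic Kb⟮jF N⟯ (FF N) := Algebra.IsAlgebraic.of_finite _ _
  obtain ⟨G, hG, hGz⟩ := exists_genus_count N
  exact genus_of_inputs N R hfin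
    (fun x hx hxj hjx ε h => card_places_of_loc N R x hx hxj hjx ε h)
    (fun v a ha => exists_sub_mem_nonunits (jF N) htr halg v a ha)
    (fun v => deg_eq_one (jF N) htr halg v)
    hprinc
    (fun v y hy => DerivLemma.ordDifferential_D_eq htr halg v
      (fun a ha => exists_sub_mem_nonunits (jF N) htr halg v a ha) hy)
    G hG hGz (card_orbits_one N)

/-- The hypotheses of F2 (`degree_principal_eq_zero`) for `FF N`, from a realization. -/
theorem principal_inputs (N : ℕ) [NeZero N] (R : Realization N) :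
    Transcendental Kb (jF N) ∧ FiniteDimensional Kb⟮jF N⟯ (FF N) ∧
      (∀ v : Place Kb (FF N), v.deg = 1) ∧
      (∀ y : FF N, Transcendental Kb y → FiniteDimensional Kb⟮y⟯ (FF N) →
        ∃ V : Finset (Place Kb (FF N)), (∀ v, v ∈ V ↔ 0 < v.ord y) ∧
          ∑ v ∈ V, v.ord y = (Module.finrank Kb⟮y⟯ (FF N) : ℤ)) := by
  haveI := R.finite_range
  have hfin : FiniteDimensional Kb⟮jF N⟯ (FF N) :=
    finiteDimensional_adjoin_of_fixed R.φ R.act (jF N) R.fixed
  have htr := transcendental_jF N
  have halg : Algebra.IsAlgebraic Kb⟮jF N⟯ (FF N) := Algebra.IsAlgebraic.of_finite _ _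
  exact ⟨htr, hfin, fun v => deg_eq_one (jF N) htr halg v,
    fun y hy hfy => by haveI := hfy; exact sum_ord_eq_finrank y hy⟩

end Fermat.Agent.S24

end
end ZBS24_018_3

/-! ### bundled: `Fermat.Agent.INJ.RamJ` -/
section ZBS24_018_4

/-!
# (INJ) piece B-I2, part 1: ramification of `F_N = ℚ̄(j(q^d) : d ∣ N)` over the `j`-line

For EVERY place `v` of `FF N` (over `ℚ̄`):
* `0 < ord_v (j)        → ord_v (j) ∣ 3`;
* `0 < ord_v (j - 1728) → ord_v (j - 1728) ∣ 2`;
* `0 < ord_v (j - c)    → ord_v (j - c) = 1`   (`c ≠ 0, 1728`);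
* `0 < ord_v (j⁻¹)      → ord_v (j⁻¹) ∣ N`.
All four come from S24's `Realization` (`restrPlace_ord_dvd`, `exists_restrPlace_eq`).
-/

set_option autoImplicit false

open AlgebraicCurve IntermediateField
open scoped MatrixGroups

namespace Fermat.Agent.INJ

open Fermat.Agent.S24

/-- Generic form: if `g⁻¹ ε ^ k g ∈ Γ₀(N)` for all `g`, every place over `x = 0` has
`ord_v x ∣ k`. -/
theorem ramJ_ord_dvd_of_loc (N : ℕ) [NeZero N] (R : Realization N)
    (x : FF N) (hx : Transcendental Kb x) (hxj : x ∈ Kb⟮jF N⟯) (hjx : jF N ∈ Kb⟮x⟯)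
    (ε : SL(2, ℤ)) (hloc : ∃ w : Place Kb R.M, LocalProp (R.φ x) (R.act ε) w)
    (k : ℕ) (hk : ∀ g : SL(2, ℤ), g⁻¹ * ε ^ k * g ∈ CongruenceSubgroup.Gamma0 N)
    (v : Place Kb (FF N)) (hv : 0 < v.ord x) : v.ord x ∣ (k : ℤ) := by
  classical
  obtain ⟨w, hw, -, hL⟩ := hloc
  have : Finite R.act.range := R.finite_range
  have hKeq : Kb⟮x⟯ = Kb⟮jF N⟯ := by
    apply le_antisymm
    · rw [IntermediateField.adjoin_simple_le_iff]; exact hxj
    · rw [IntermediateField.adjoin_simple_le_iff]; exact hjx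
  have hfdj : FiniteDimensional Kb⟮jF N⟯ (FF N) := (principal_inputs N R).2.1
  have hfd : FiniteDimensional Kb⟮x⟯ (FF N) := by
    rw [hKeq]; exact hfdj
  have hfix : ∀ γ, R.act γ (R.φ x) = R.φ x :=
    fun γ => act_fix_of_mem_adjoin R.φ R.act R.act_j hxj γ
  have hfacts := intClosure_facts (K := Kb) x hx
  obtain ⟨g, rfl⟩ := exists_restrPlace_eq R.φ R.act R.fixed w hjx hw hfix
    (fun v S' hv hvS hS' => exists_ord_neg_of x hfacts v S' hv hvS hS') v hv
  exact restrPlace_ord_dvd R.φ R.act w hw hfix ε g hL k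
    (fun f => (R.stab_iff _).mpr (hk g) f)

/-- conjugates of `-1` lie in `Γ₀(N)`. -/
theorem ramJ_conj_neg_one_mem (N : ℕ) (g : SL(2, ℤ)) :
    g⁻¹ * (-1 : SL(2, ℤ)) * g ∈ CongruenceSubgroup.Gamma0 N := by
  have h : g⁻¹ * (-1 : SL(2, ℤ)) * g = -1 := by
    rw [mul_neg, mul_one, neg_mul, inv_mul_cancel]
  rw [h, CongruenceSubgroup.Gamma0_mem]
  simp

/-- conjugates of `T ^ N` lie in `Γ₀(N)`. -/
theorem ramJ_conj_T_pow_mem (N : ℕ) (g : SL(2, ℤ)) :
    g⁻¹ * ModularGroup.T ^ N * g ∈ CongruenceSubgroup.Gamma0 N := by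
  have hT : ModularGroup.T ^ N ∈ CongruenceSubgroup.Gamma N := by
    have := CongruenceSubgroup.ModularGroup_T_pow_mem_Gamma (N : ℤ) (N : ℤ) dvd_rfl
    simpa using this
  have hn := (CongruenceSubgroup.Gamma_normal N).conj_mem _ hT g⁻¹
  rw [inv_inv] at hn
  have hle : CongruenceSubgroup.Gamma N ≤ CongruenceSubgroup.Gamma0 N := by
    intro γ hγ
    rw [CongruenceSubgroup.Gamma_mem] at hγ
    rw [CongruenceSubgroup.Gamma0_mem]
    exact hγ.2.2.1
  exact hle hn

variable (N : ℕ) [NeZero N]

/-- Over `j = 0`: the ramification index divides `3`. -/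
theorem ramJ_zero (v : Place Kb (FF N)) (hv : 0 < v.ord (jF N)) : v.ord (jF N) ∣ 3 := by
  obtain ⟨R⟩ := exists_realization N
  have hj0 : jF N - algebraMap Kb (FF N) 0 = jF N := by simp
  have h := ramJ_ord_dvd_of_loc N R (jF N - algebraMap Kb (FF N) 0) (transcendental_jF_sub N 0)
    (jF_sub_mem_adjoin N 0) (jF_mem_adjoin_sub N 0) (ModularGroup.S * ModularGroup.T)
    (by rw [hj0]; exact R.loc_zero) 3
    (fun g => by rw [ST_cube_eq_neg_one]; exact ramJ_conj_neg_one_mem N g) v (by rwa [hj0])
  rw [hj0] at h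
  exact_mod_cast h

/-- Over `j = 1728`: the ramification index divides `2`. -/
theorem ramJ_1728 (v : Place Kb (FF N))
    (hv : 0 < v.ord (jF N - algebraMap Kb (FF N) 1728)) :
    v.ord (jF N - algebraMap Kb (FF N) 1728) ∣ 2 := by
  obtain ⟨R⟩ := exists_realization N
  have h := ramJ_ord_dvd_of_loc N R (jF N - algebraMap Kb (FF N) 1728)
    (transcendental_jF_sub N 1728)
    (jF_sub_mem_adjoin N 1728) (jF_mem_adjoin_sub N 1728) ModularGroup.S R.loc_1728 2
    (fun g => by rw [S_sq_eq_neg_one]; exact ramJ_conj_neg_one_mem N g) v hv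
  exact_mod_cast h

/-- Over `j = c`, `c ≠ 0, 1728`: unramified. -/
theorem ramJ_gen (c : Kb) (hc0 : c ≠ 0) (hc : c ≠ 1728) (v : Place Kb (FF N))
    (hv : 0 < v.ord (jF N - algebraMap Kb (FF N) c)) :
    v.ord (jF N - algebraMap Kb (FF N) c) = 1 := by
  obtain ⟨R⟩ := exists_realization N
  have h := ramJ_ord_dvd_of_loc N R (jF N - algebraMap Kb (FF N) c)
    (transcendental_jF_sub N c)
    (jF_sub_mem_adjoin N c) (jF_mem_adjoin_sub N c) 1 (R.loc_gen c hc0 hc) 1
    (fun g => by simp) v hv
  have h1 : v.ord (jF N - algebraMap Kb (FF N) c) ∣ 1 := by exact_mod_cast h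
  exact Int.eq_one_of_dvd_one hv.le h1

/-- Over `j = ∞`: the ramification index divides `N`. -/
theorem ramJ_inf (v : Place Kb (FF N)) (hv : v.ord (jF N) < 0) :
    v.ord (jF N)⁻¹ ∣ (N : ℤ) := by
  obtain ⟨R⟩ := exists_realization N
  have hpos : 0 < v.ord (jF N)⁻¹ := by rw [v.ord_inv]; omega
  exact ramJ_ord_dvd_of_loc N R (jF N)⁻¹ (transcendental_jF_inv N)
    (jF_inv_mem_adjoin N) (jF_mem_adjoin_inv N) ModularGroup.T R.loc_inf N
    (fun g => ramJ_conj_T_pow_mem N g) v hpos

/-- Every place lies over exactly one point of the `j`-line (`c : ℚ̄` or `∞`). -/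
theorem ramJ_cases (v : Place Kb (FF N)) :
    (∃ c : Kb, 0 < v.ord (jF N - algebraMap Kb (FF N) c)) ∨ v.ord (jF N) < 0 := by
  by_cases hv : v.ord (jF N) < 0
  · exact Or.inr hv
  · left
    have hmem : jF N ∈ v.toValuationSubring := PlaceAux.mem_of_ord_nonneg v (not_lt.mp hv)
    obtain ⟨R⟩ := exists_realization N
    have htr := transcendental_jF N
    have hfin : FiniteDimensional Kb⟮jF N⟯ (FF N) := (principal_inputs N R).2.1
    have halg : Algebra.IsAlgebraic Kb⟮jF N⟯ (FF N) := Algebra.IsAlgebraic.of_finite _ _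
    obtain ⟨c, hc⟩ := exists_sub_mem_nonunits (jF N) htr halg v _ hmem
    exact ⟨c, (PlaceAux.ord_pos_iff_mem_nonunits v (jF_sub_ne_zero N c)).mpr hc⟩

end Fermat.Agent.INJ


end ZBS24_018_4

/-! ### bundled: `Fermat.Agent.INJ.RamJLine` -/
section ZBS24_018_5

/-!
# (INJ) piece B2-b for the `j`-line (`ℓ ≥ 5`): `Σ = {0, 1728}`, `6 ∣ e`, `N ∣ e`

`ramB_jline`: for `F₀ ⊆ FF N` over `E ⊆ ℚ̄`, `Lf / F₀`, `t = j`, the hypotheses `(b)` and `(b')` of
the tame specialization theorem hold as soon as places restrict from `Lf` to `F₀` (B2-kum) and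
extend from `F₀` to `FF N` (B2-ext) with the same `ord`.
-/

set_option autoImplicit false

namespace Fermat.Agent.INJ

open Polynomial IntermediateField AlgebraicCurve Fermat.Agent.S24

section JLine

variable {A₀ E Lf : Type} {F₀ : Type*}
  [CommRing A₀] [Field E] [Algebra A₀ E] [Field Lf] [Algebra E Lf] [Algebra A₀ Lf]
  [IsScalarTower A₀ E Lf]
  [Algebra E Kb] [Field F₀] [Algebra E F₀] [Algebra F₀ Lf] [IsScalarTower E F₀ Lf]
  (N : ℕ) [NeZero N]
  [Algebra F₀ (FF N)] [Algebra E (FF N)] [IsScalarTower E F₀ (FF N)]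
  [IsScalarTower E Kb (FF N)]

/-- **B2-b over the `j`-line.** -/
theorem ramB_jline [CharZero E] [Algebra.IsAlgebraic E Kb]
    (t₀ : F₀) (ht₀ : algebraMap F₀ (FF N) t₀ = jF N) (S : Finset A₀)
    (hS : ∀ c ∈ S, algebraMap E Kb (algebraMap A₀ E c) = 0 ∨
      algebraMap E Kb (algebraMap A₀ E c) = 1728)
    (h0 : ∃ c ∈ S, algebraMap E Kb (algebraMap A₀ E c) = 0)
    (h1728 : ∃ c ∈ S, algebraMap E Kb (algebraMap A₀ E c) = 1728)
    (e : ℕ) (h6 : 6 ∣ e) (hN : N ∣ e)
    (hkum : ∀ P : Place E Lf, ∃ Q : Place E F₀,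
      ∀ y : F₀, P.ord (algebraMap F₀ Lf y) = Q.ord y)
    (hext : ∀ Q : Place E F₀, ∃ v : Place Kb (FF N),
      ∀ y : F₀, v.ord (algebraMap F₀ (FF N) y) = Q.ord y) :
    TSUnramified (E := E) (algebraMap F₀ Lf t₀) S ∧
      TSTame (E := E) (algebraMap F₀ Lf t₀) S e := by
  refine ramB_assemble A₀ E Kb t₀ S e hkum hext ?_ ?_ ?_ ?_
  · intro v hv
    rw [ht₀] at hv ⊢
    rcases ramJ_cases N v with h | h
    · exact h
    · omega
  · intro v c₀ hc₀ hv
    rw [ht₀] at hv ⊢
    obtain ⟨c, hc, hc0⟩ := h0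
    obtain ⟨c', hc', hc1728⟩ := h1728
    refine ramJ_gen N c₀ ?_ ?_ v hv
    · rw [← hc0]; exact hc₀ c hc
    · rw [← hc1728]; exact hc₀ c' hc'
  · intro v c hc hv
    rw [ht₀] at hv ⊢
    rcases hS c hc with h | h
    · rw [h] at hv ⊢
      rw [map_zero, sub_zero] at hv ⊢
      exact (ramJ_zero N v hv).trans (by exact_mod_cast (by omega : 3 ∣ e))
    · rw [h] at hv ⊢
      exact (ramJ_1728 N v hv).trans (by exact_mod_cast (by omega : 2 ∣ e))
  · intro v hv
    rw [ht₀] at hv ⊢
    have h := ramJ_inf N v hv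
    rw [v.ord_inv, neg_dvd] at h
    exact h.trans (by exact_mod_cast hN)

end JLine

end Fermat.Agent.INJ


end ZBS24_018_5

/-! ### bundled: `Fermat.Agent.INJ.RamHRel` -/
section ZBS24_018_6

/-!
# (INJ) B2-T: the generic fibre of `F_N` over a line `x` with `j · A(x) = B(x)`

`x : FF N`, `A B : ℚ̄[X]` with `j · A(x) = B(x)`.  At a place `v` with `0 < ord_v (x - c₀)` where
`A(c₀) ≠ 0`, `B(c₀) ≠ 0`, `B(c₀) ≠ 1728 · A(c₀)` (i.e. `j(c₀) ≠ ∞, 0, 1728`), `ord_v (x - c₀) = 1`.
Also: `x` is not constant.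
-/

set_option autoImplicit false

namespace Fermat.Agent.INJ

open Polynomial AlgebraicCurve IntermediateField Fermat.Agent.S24

section Rel

variable (N : ℕ) [NeZero N]

/-- `x` with `j · A(x) = B(x)`, `A(x) ≠ 0` is not a constant. -/
theorem ramH_rel_sub_ne_zero (x : FF N) (A B : Kb[X])
    (hrel : jF N * aeval x A = aeval x B) (hA : aeval x A ≠ 0) (c : Kb) :
    x - algebraMap Kb (FF N) c ≠ 0 := by
  intro h0
  have hx : x = algebraMap Kb (FF N) c := sub_eq_zero.mp h0
  rw [hx, aeval_algebraMap_apply_eq_algebraMap_eval,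
    aeval_algebraMap_apply_eq_algebraMap_eval] at hrel
  rw [hx, aeval_algebraMap_apply_eq_algebraMap_eval] at hA
  have hj : jF N - algebraMap Kb (FF N) (B.eval c / A.eval c) = 0 := by
    rw [map_div₀, sub_eq_zero, eq_div_iff hA]
    exact hrel
  exact jF_sub_ne_zero N _ hj

/-- The order of `j - c` at a place over `x = c₀`, `c = B(c₀)/A(c₀)`. -/
theorem ramH_rel_ord (x : FF N) (A B : Kb[X])
    (hrel : jF N * aeval x A = aeval x B) (v : Place Kb (FF N)) (c₀ : Kb)
    (hv : 0 < v.ord (x - algebraMap Kb (FF N) c₀))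
    (hA : A.eval c₀ ≠ 0) :
    ∃ m : ℕ, 0 < m ∧ v.ord (jF N - algebraMap Kb (FF N) (B.eval c₀ / A.eval c₀))
      = (m : ℤ) * v.ord (x - algebraMap Kb (FF N) c₀) := by
  set c : Kb := B.eval c₀ / A.eval c₀ with hc
  have hA0 : A ≠ 0 := by
    rintro rfl
    simp at hA
  obtain ⟨hAx, hAord⟩ := ramH_ord_aeval v x c₀ hv A hA0
  have hmA : A.rootMultiplicity c₀ = 0 := rootMultiplicity_eq_zero hA
  rw [hmA, Nat.cast_zero, zero_mul] at hAord
  set Φ : Kb[X] := B - C c * A with hΦ
  have hΦx : (jF N - algebraMap Kb (FF N) c) * aeval x A = aeval x Φ := by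
    rw [hΦ, map_sub, map_mul, aeval_C, sub_mul, hrel]
  have hΦ0 : Φ ≠ 0 := by
    intro h
    rw [h, map_zero] at hΦx
    rcases mul_eq_zero.mp hΦx with h1 | h1
    · exact jF_sub_ne_zero N c h1
    · exact hAx h1
  have hroot : Φ.IsRoot c₀ := by
    rw [IsRoot, hΦ, eval_sub, eval_mul, eval_C, hc, div_mul_cancel₀ _ hA, sub_self]
  obtain ⟨hΦne, hΦord⟩ := ramH_ord_aeval v x c₀ hv Φ hΦ0
  refine ⟨Φ.rootMultiplicity c₀, (rootMultiplicity_pos hΦ0).mpr hroot, ?_⟩
  have h1 := congrArg v.ord hΦx
  rw [v.ord_mul (jF_sub_ne_zero N c) hAx, hAord, add_zero, hΦord] at h1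
  exact h1

/-- **Generic fibre**: unramified. -/
theorem ramH_rel_gen (x : FF N) (A B : Kb[X])
    (hrel : jF N * aeval x A = aeval x B) (v : Place Kb (FF N)) (c₀ : Kb)
    (hv : 0 < v.ord (x - algebraMap Kb (FF N) c₀))
    (hA : A.eval c₀ ≠ 0) (hB0 : B.eval c₀ ≠ 0) (hB1728 : B.eval c₀ ≠ 1728 * A.eval c₀) :
    v.ord (x - algebraMap Kb (FF N) c₀) = 1 := by
  obtain ⟨m, hm, hord⟩ := ramH_rel_ord N x A B hrel v c₀ hv hA
  have hc0 : B.eval c₀ / A.eval c₀ ≠ 0 := div_ne_zero hB0 hA
  have hc1728 : B.eval c₀ / A.eval c₀ ≠ 1728 := by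
    intro h
    rw [div_eq_iff hA] at h
    exact hB1728 h
  have hpos : 0 < v.ord (jF N - algebraMap Kb (FF N) (B.eval c₀ / A.eval c₀)) := by
    rw [hord]
    exact mul_pos (by exact_mod_cast hm) hv
  have h1 := ramJ_gen N _ hc0 hc1728 v hpos
  rw [hord] at h1
  exact ramH_eq_one_of_mul_eq_one hv h1

/-- Every place with `0 ≤ ord x` lies over a finite point of the `x`-line. -/
theorem ramH_rel_cases (x : FF N) (hx : ∀ c : Kb, x - algebraMap Kb (FF N) c ≠ 0)
    (v : Place Kb (FF N)) (hv : 0 ≤ v.ord x) :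
    ∃ c₀ : Kb, 0 < v.ord (x - algebraMap Kb (FF N) c₀) := by
  have hmem : x ∈ v.toValuationSubring := PlaceAux.mem_of_ord_nonneg v hv
  obtain ⟨R⟩ := exists_realization N
  have htr := transcendental_jF N
  have hfin : FiniteDimensional Kb⟮jF N⟯ (FF N) := (principal_inputs N R).2.1
  have halg : Algebra.IsAlgebraic Kb⟮jF N⟯ (FF N) := Algebra.IsAlgebraic.of_finite _ _
  obtain ⟨c, hc⟩ := exists_sub_mem_nonunits (jF N) htr halg v _ hmem
  exact ⟨c, (PlaceAux.ord_pos_iff_mem_nonunits v (hx c)).mpr hc⟩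

end Rel

end Fermat.Agent.INJ


end ZBS24_018_6
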