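/- GENERATED FILE (helper35, build-time optimisation, NOTES/ZB.md): verbatim concatenation of the modules
   Fermat.Agent.INJ.ChartBasics
   Fermat.Agent.INJ.TSLocal
   Do not edit; do not import together with these modules. -/
import Mathlib
import Fermat.Agent.ZB.ES_004
import Fermat.Agent.ZB.INJ_027
import Fermat.Agent.ZB.INJ_028

/-! ### bundled: `Fermat.Agent.INJ.ChartBasics` -/
section ZBINJ_019_0

/-!
# (INJ) glue piece T1: basics of the chart ring `R = A₀[τ]`, `τ` transcendental

Setting: `A₀` a DVR with fraction field `E` (char 0), `Lf ⊇ E` a field, `τ : Lf` transcendental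
over `E`, `R := Algebra.adjoin A₀ {τ}`.

* (1) `chartEquiv hτ : A₀[X] ≃ₐ[A₀] R`, `chartEquiv_X`, `chartEquiv_C`, `chartEquiv_coe`.
* (2) `chart_ufm`, `chart_isIntegrallyClosed`, `chart_isNoetherianRing`, `chart_prime`,
      `chart_quotient_isPrincipalIdealRing`.
* (3) `chart_isFractionRing` (for `E⟮τ⟯`), `chart_finite`, `chart_closure_isNoetherianRing`.
* (6) `chart_exists_pow_mul_integral`.
-/

set_option autoImplicit false
set_option linter.style.haveILetI false
set_option linter.unusedSectionVars false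

namespace Fermat.Agent.INJ

open Polynomial

section ChartBasics

variable {A₀ E Lf : Type*} [CommRing A₀] [IsDomain A₀] [IsDiscreteValuationRing A₀]
  [Field E] [Algebra A₀ E] [IsFractionRing A₀ E] [CharZero E]
  [Field Lf] [Algebra E Lf] [Algebra A₀ Lf] [IsScalarTower A₀ E Lf]
  {π : A₀} {τ : Lf}

theorem chart_transcendental (hτ : Transcendental E τ) : Transcendental A₀ τ :=
  hτ.restrictScalars (IsFractionRing.injective A₀ E)

theorem chart_aeval_injective (hτ : Transcendental E τ) :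
    Function.Injective (aeval (R := A₀) τ) :=
  transcendental_iff_injective.mp (chart_transcendental hτ)

/-- (1) `A₀[X] ≃ₐ[A₀] A₀[τ]`. -/
noncomputable def chartEquiv (hτ : Transcendental E τ) :
    A₀[X] ≃ₐ[A₀] ↥(Algebra.adjoin A₀ {τ}) :=
  (AlgEquiv.ofInjective (aeval (R := A₀) τ) (chart_aeval_injective hτ)).trans
    (Subalgebra.equivOfEq _ _ (Algebra.adjoin_singleton_eq_range_aeval A₀ τ).symm)

theorem chartEquiv_coe (hτ : Transcendental E τ) (f : A₀[X]) :
    ((chartEquiv hτ f : ↥(Algebra.adjoin A₀ {τ})) : Lf) = aeval τ f := rfl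

@[simp] theorem chartEquiv_X (hτ : Transcendental E τ) :
    ((chartEquiv hτ X : ↥(Algebra.adjoin A₀ {τ})) : Lf) = τ := by
  rw [chartEquiv_coe, aeval_X]

theorem chartEquiv_C (hτ : Transcendental E τ) (a : A₀) :
    chartEquiv hτ (C a) = algebraMap A₀ ↥(Algebra.adjoin A₀ {τ}) a := by
  rw [← Polynomial.algebraMap_eq, AlgEquiv.commutes]

/-- (2a) -/
theorem chart_ufm (hτ : Transcendental E τ) :
    UniqueFactorizationMonoid ↥(Algebra.adjoin A₀ {τ}) :=
  (chartEquiv hτ).toMulEquiv.uniqueFactorizationMonoid inferInstance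

/-- (2b) -/
theorem chart_isIntegrallyClosed (hτ : Transcendental E τ) :
    IsIntegrallyClosed ↥(Algebra.adjoin A₀ {τ}) :=
  IsIntegrallyClosed.of_equiv (chartEquiv hτ).toRingEquiv

/-- (2c) -/
theorem chart_isNoetherianRing (hτ : Transcendental E τ) :
    IsNoetherianRing ↥(Algebra.adjoin A₀ {τ}) :=
  isNoetherianRing_of_ringEquiv A₀[X] (chartEquiv hτ).toRingEquiv

/-- (2d) -/
theorem chart_prime (hτ : Transcendental E τ) (hπ : Irreducible π) :
    Prime (algebraMap A₀ ↥(Algebra.adjoin A₀ {τ}) π) := by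
  have h1 : Prime π := hπ.prime
  have h2 : Prime (C π : A₀[X]) := Polynomial.prime_C_iff.mpr h1
  have h3 := (MulEquiv.prime_iff (chartEquiv hτ).toMulEquiv).mpr h2
  rw [← chartEquiv_C hτ]
  exact h3

/-- (2e) `R ⧸ π ≃ (A₀ ⧸ π)[X]` is a principal ideal ring. -/
theorem chart_quotient_isPrincipalIdealRing (hτ : Transcendental E τ) (hπ : Irreducible π) :
    IsPrincipalIdealRing (↥(Algebra.adjoin A₀ {τ}) ⧸
      Ideal.span {algebraMap A₀ ↥(Algebra.adjoin A₀ {τ}) π}) := by
  haveI hmax : (Ideal.span {π} : Ideal A₀).IsMaximal := by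
    rw [← hπ.maximalIdeal_eq]
    infer_instance
  letI : Field (A₀ ⧸ (Ideal.span {π} : Ideal A₀)) := Ideal.Quotient.field _
  -- `(A₀ ⧸ π)[X] ≃ A₀[X] ⧸ (C π)`
  let e1 := Ideal.polynomialQuotientEquivQuotientPolynomial (Ideal.span {π} : Ideal A₀)
  have hmap : Ideal.span {algebraMap A₀ ↥(Algebra.adjoin A₀ {τ}) π} =
      Ideal.map (((chartEquiv hτ).toRingEquiv :
          A₀[X] ≃+* ↥(Algebra.adjoin A₀ {τ})) : A₀[X] →+* ↥(Algebra.adjoin A₀ {τ}))
        (Ideal.map C (Ideal.span {π} : Ideal A₀)) := by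
    rw [Ideal.map_span, Ideal.map_span, Set.image_singleton, Set.image_singleton]
    congr 2
    exact (chartEquiv_C hτ π).symm
  let e2 := Ideal.quotientEquiv (Ideal.map C (Ideal.span {π} : Ideal A₀))
    (Ideal.span {algebraMap A₀ ↥(Algebra.adjoin A₀ {τ}) π}) (chartEquiv hτ).toRingEquiv hmap
  exact IsPrincipalIdealRing.of_surjective (e1.trans e2).toRingHom (e1.trans e2).surjective

end ChartBasics

end Fermat.Agent.INJ


end ZBINJ_019_0

/-! ### bundled: `Fermat.Agent.INJ.TSLocal` -/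
section ZBINJ_019_1

/-!
# (INJ) A5 glue, local part: the hypotheses of (N-good) / (N-tame) from the global ones

For the chart `τ = t` at every maximal ideal `m ∋ π`, and for the chart `τ = t⁻¹` at the maximal
ideals `m ∋ π, t⁻¹`, we derive `LocDomainAt` from `NGoodStmt`, `NTameStmt` and the global
hypotheses `(b)`, `(b')`, `(c)`, `(∞)` of the tame specialization theorem.
-/

set_option autoImplicit false
set_option linter.unusedSectionVars false
set_option linter.style.haveILetI false

namespace Fermat.Agent.INJ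

open Polynomial IntermediateField AlgebraicCurve Fermat.Agent.S24

universe u

section Local

variable {A₀ E Lf : Type u} [CommRing A₀] [IsDomain A₀] [IsDiscreteValuationRing A₀]
  [Field E] [Algebra A₀ E] [IsFractionRing A₀ E] [CharZero E]
  [Field Lf] [Algebra E Lf] [Algebra A₀ Lf] [IsScalarTower A₀ E Lf]
  {π : A₀} {τ : Lf}

/-- the element `f(τ)` of the chart, as an element of the integral closure -/
noncomputable def chartElt (hτ : Transcendental E τ) (f : A₀[X]) :
    integralClosure (Algebra.adjoin A₀ {τ}) Lf :=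
  algebraMap (Algebra.adjoin A₀ {τ}) (integralClosure (Algebra.adjoin A₀ {τ}) Lf)
    (chartEquiv hτ f)

theorem chartElt_coe (hτ : Transcendental E τ) (f : A₀[X]) :
    ((chartElt hτ f : integralClosure (Algebra.adjoin A₀ {τ}) Lf) : Lf) = aeval τ f := rfl

theorem chartElt_mul (hτ : Transcendental E τ) (f g : A₀[X]) :
    chartElt hτ (f * g) = chartElt hτ f * chartElt hτ g := by
  simp only [chartElt, map_mul]

theorem chartElt_sub (hτ : Transcendental E τ) (f g : A₀[X]) :
    chartElt hτ (f - g) = chartElt hτ f - chartElt hτ g := by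
  simp only [chartElt, map_sub]

theorem chartElt_C (hτ : Transcendental E τ) (a : A₀) :
    chartElt hτ (C a) = algebraMap A₀ (integralClosure (Algebra.adjoin A₀ {τ}) Lf) a := by
  rw [chartElt, chartEquiv_C, ← IsScalarTower.algebraMap_apply]

theorem chartElt_one (hτ : Transcendental E τ) : chartElt hτ (1 : A₀[X]) = 1 := by
  simp only [chartElt, map_one]

/-- divisibility passes to membership in an ideal -/
theorem chartElt_mem_of_dvd (hτ : Transcendental E τ) {f h : A₀[X]} (hfh : f ∣ h)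
    (m : Ideal (integralClosure (Algebra.adjoin A₀ {τ}) Lf)) (hf : chartElt hτ f ∈ m) :
    chartElt hτ h ∈ m := by
  obtain ⟨q, rfl⟩ := hfh
  rw [chartElt_mul]
  exact m.mul_mem_right _ hf

/-- every irreducible element of the chart ring is `f(τ)` for an irreducible polynomial `f` -/
theorem exists_irreducible_poly (hτ : Transcendental E τ) {r : Algebra.adjoin A₀ {τ}}
    (hr : Irreducible r) : ∃ f : A₀[X], Irreducible f ∧ chartEquiv hτ f = r := by
  refine ⟨(chartEquiv hτ).symm r, ?_, by simp⟩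
  exact (MulEquiv.irreducible_iff (chartEquiv hτ).symm.toMulEquiv).mpr hr

/-- an element of `A₀` which lies in a proper ideal of the chart is divisible by `π` -/
theorem dvd_of_algebraMap_mem (hπ : Irreducible π)
    (m : Ideal (integralClosure (Algebra.adjoin A₀ {τ}) Lf)) (hm : m ≠ ⊤) {a : A₀}
    (ha : algebraMap A₀ (integralClosure (Algebra.adjoin A₀ {τ}) Lf) a ∈ m) : π ∣ a := by
  by_contra hna
  have hunit : IsUnit a := by
    have h1 : a ∉ IsLocalRing.maximalIdeal A₀ := by
      rw [hπ.maximalIdeal_eq, Ideal.mem_span_singleton]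
      exact hna
    exact (IsLocalRing.notMem_maximalIdeal).mp h1
  exact hm (Ideal.eq_top_of_isUnit_mem _ ha (hunit.map _))

/-- `ord_P (τ - c) ≥ 0` when `τ` is `P`-integral -/
theorem ord_sub_const_nonneg (P : Place E Lf) (hτP : 0 ≤ P.ord τ) (c : A₀) :
    0 ≤ P.ord (τ - algebraMap A₀ Lf c) := by
  have h := centre_ord_aeval_nonneg P hτP (X - C (algebraMap A₀ E c))
  rwa [map_sub, aeval_X, aeval_C, ← IsScalarTower.algebraMap_apply] at h

/-- **Unramifiedness at the irreducible elements of `m`**, from the global hypothesis `(b)`.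
`hexc`: the only branch points whose centre lies in `m` are not under `P`. -/
theorem ord_eq_one_of_unramified (hτ : Transcendental E τ) (S : Finset A₀)
    (hb : TSUnramified (E := E) τ S)
    (m : Ideal (integralClosure (Algebra.adjoin A₀ {τ}) Lf))
    (P : Place E Lf) (r : Algebra.adjoin A₀ {τ}) (hr : Irreducible r)
    (hrm : algebraMap (Algebra.adjoin A₀ {τ}) (integralClosure (Algebra.adjoin A₀ {τ}) Lf) r ∈ m)
    (hrP : 0 < P.ord (r : Lf))
    (hexc : ∀ c ∈ S, chartElt hτ (X - C c) ∈ m → P.ord (τ - algebraMap A₀ Lf c) = 0) :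
    P.ord (r : Lf) = 1 := by
  obtain ⟨f, hf, rfl⟩ := exists_irreducible_poly hτ hr
  rw [chartEquiv_coe] at hrP ⊢
  have hfP : 0 < P.ord (aeval τ (f.map (algebraMap A₀ E))) := by
    rw [centre_aeval_map]; exact hrP
  have hτP : 0 ≤ P.ord τ := centre_ord_nonneg P τ _ hfP
  have hall : ∀ c ∈ S, P.ord (τ - algebraMap A₀ Lf c) = 0 := by
    intro c hc
    by_contra hne
    have hpos : 0 < P.ord (τ - algebraMap A₀ Lf c) :=
      lt_of_le_of_ne (ord_sub_const_nonneg P hτP c) (Ne.symm hne)
    have hpos' : 0 < P.ord (aeval τ (X - C c : A₀[X])) := by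
      rwa [map_sub, aeval_X, aeval_C]
    have hdvd : f ∣ (X - C c) := centre_dvd_int P τ hf hrP hpos'
    exact hne (hexc c hc (chartElt_mem_of_dvd hτ hdvd m hrm))
  obtain ⟨g, hg⟩ := hb P hτP hall
  exact centre_ord_eq_one_int P τ hf hrP hg

/-- **Chart `τ`, all points**: `LocDomainAt` at every maximal ideal containing `π`. -/
theorem chart_locDomainAt (hG : NGoodStmt.{u}) (hT : NTameStmt.{u})
    (hπ : Irreducible π) (hτ : Transcendental E τ) [FiniteDimensional E⟮τ⟯ Lf]
    (hgood : TSGoodBasis (E := E) π τ)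
    (S : Finset A₀) (hS : ∀ c ∈ S, ∀ c' ∈ S, c ≠ c' → ¬ π ∣ c - c')
    (hb : TSUnramified (E := E) τ S)
    (e : ℕ) (he : IsUnit (e : A₀)) (hζ : ∃ ζ : A₀, IsPrimitiveRoot ζ e)
    (htame : ∀ P : Place E Lf, ∀ c ∈ S, 0 < P.ord (τ - algebraMap A₀ Lf c) →
      P.ord (τ - algebraMap A₀ Lf c) ∣ (e : ℤ))
    (hP₀ : ∀ c ∈ S, ∃ P₀ : Place E Lf, P₀.ord (τ - algebraMap A₀ Lf c) = 1 ∨
      P₀.ord (τ - algebraMap A₀ Lf c) = -1)
    (m : Ideal (integralClosure (Algebra.adjoin A₀ {τ}) Lf)) (hm : m.IsMaximal)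
    (hπm : algebraMap A₀ (integralClosure (Algebra.adjoin A₀ {τ}) Lf) π ∈ m) :
    LocDomainAt (integralClosure (Algebra.adjoin A₀ {τ}) Lf)
      (algebraMap A₀ (integralClosure (Algebra.adjoin A₀ {τ}) Lf) π) m := by
  by_cases hc : ∃ c ∈ S, chartElt hτ (X - C c) ∈ m
  · obtain ⟨c, hcS, hcm⟩ := hc
    refine hT A₀ E Lf π hπ τ hτ hgood c e he hζ (fun P hP => htame P c hcS hP) (hP₀ c hcS)
      m hm hπm ?_ ?_
    · intro r₀ hr₀
      have : r₀ = chartEquiv hτ (X - C c) := by
        apply Subtype.ext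
        rw [hr₀, chartEquiv_coe, map_sub, aeval_X, aeval_C]
      rw [this]
      exact hcm
    · intro P r hr hrm hrP hPc
      refine ord_eq_one_of_unramified hτ S hb m P r hr hrm hrP ?_
      intro c' hc'S hc'm
      by_cases hcc : c = c'
      · rw [← hcc]; exact hPc
      · exfalso
        have hsub : chartElt hτ (C (c' - c)) ∈ m := by
          have : (C (c' - c) : A₀[X]) = (X - C c) - (X - C c') := by
            rw [C_sub]; ring
          rw [this, chartElt_sub]
          exact m.sub_mem hcm hc'm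
        rw [chartElt_C] at hsub
        have hdvd : π ∣ c' - c := dvd_of_algebraMap_mem hπ m hm.ne_top hsub
        exact hS c' hc'S c hcS (Ne.symm hcc) hdvd
  · refine hG A₀ E Lf π hπ τ hτ hgood m hm hπm ?_
    intro P r hr hrm hrP
    refine ord_eq_one_of_unramified hτ S hb m P r hr hrm hrP ?_
    intro c' hc'S hc'm
    exact absurd ⟨c', hc'S, hc'm⟩ hc

/-- a uniformizer which is a polynomial in `t` gives one which is a polynomial in `t⁻¹`,
at the places where `t` is a unit -/
theorem exists_poly_inv_ord_eq_one (P : Place E Lf) {t : Lf} (ht0 : t ≠ 0) (htP : P.ord t = 0)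
    {g : E[X]} (hg : P.ord (aeval t g) = 1) : ∃ g' : E[X], P.ord (aeval t⁻¹ g') = 1 := by
  refine ⟨reflect g.natDegree g, ?_⟩
  let _ : Invertible t := invertibleOfNonzero ht0
  have key := eval₂_reflect_mul_pow (algebraMap E Lf) t g.natDegree g le_rfl
  rw [invOf_eq_inv] at key
  have hne : aeval t g ≠ 0 := by
    intro h0; rw [h0] at hg; simp at hg
  have hne' : eval₂ (algebraMap E Lf) t⁻¹ (reflect g.natDegree g) ≠ 0 := by
    intro h0
    rw [h0, zero_mul] at key
    exact hne (by rw [aeval_def, ← key])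
  have h1 : P.ord (aeval t g) = P.ord (eval₂ (algebraMap E Lf) t⁻¹ (reflect g.natDegree g))
      + P.ord (t ^ g.natDegree) := by
    rw [aeval_def, ← key, P.ord_mul hne' (pow_ne_zero _ ht0)]
  rw [← zpow_natCast, P.ord_zpow, htP, mul_zero, add_zero, hg] at h1
  rw [aeval_def]
  exact h1.symm

/-- **Chart `t⁻¹`, points at infinity**: `LocDomainAt` at the maximal ideals containing
`π` and `t⁻¹`. -/
theorem chart_inv_locDomainAt (hT : NTameStmt.{u})
    (hπ : Irreducible π) {t : Lf} (ht : Transcendental E t) (hinv : Transcendental E t⁻¹)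
    [FiniteDimensional E⟮t⁻¹⟯ Lf]
    (hgood : TSGoodBasis (E := E) π t⁻¹)
    (S : Finset A₀) (hb : TSUnramified (E := E) t S)
    (e : ℕ) (he : IsUnit (e : A₀)) (hζ : ∃ ζ : A₀, IsPrimitiveRoot ζ e)
    (htame : ∀ P : Place E Lf, P.ord t < 0 → P.ord t ∣ (e : ℤ))
    (hP₀ : ∃ P₀ : Place E Lf, P₀.ord t = -1)
    (m : Ideal (integralClosure (Algebra.adjoin A₀ {t⁻¹}) Lf)) (hm : m.IsMaximal)
    (hπm : algebraMap A₀ (integralClosure (Algebra.adjoin A₀ {t⁻¹}) Lf) π ∈ m)
    (hσm : chartElt hinv X ∈ m) :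
    LocDomainAt (integralClosure (Algebra.adjoin A₀ {t⁻¹}) Lf)
      (algebraMap A₀ (integralClosure (Algebra.adjoin A₀ {t⁻¹}) Lf) π) m := by
  have ht0 : t ≠ 0 := by
    rintro rfl
    exact ht isAlgebraic_zero
  have hsub0 : ∀ x : Lf, x - algebraMap A₀ Lf 0 = x := fun x => by rw [map_zero, sub_zero]
  refine hT A₀ E Lf π hπ t⁻¹ hinv hgood 0 e he hζ ?_ ?_ m hm hπm ?_ ?_
  · intro P hP
    rw [hsub0] at hP ⊢
    rw [P.ord_inv] at hP ⊢
    exact (Int.neg_dvd).mpr (htame P (by omega))
  · obtain ⟨P₀, hP₀⟩ := hP₀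
    refine ⟨P₀, Or.inl ?_⟩
    rw [hsub0, P₀.ord_inv, hP₀]; rfl
  · intro r₀ hr₀
    have : r₀ = chartEquiv hinv X := by
      apply Subtype.ext
      rw [hr₀, hsub0, chartEquiv_coe, aeval_X]
    rw [this]
    exact hσm
  · intro P r hr hrm hrP hPc
    rw [hsub0, P.ord_inv] at hPc
    have htP : P.ord t = 0 := by omega
    obtain ⟨f, hf, rfl⟩ := exists_irreducible_poly hinv hr
    rw [chartEquiv_coe] at hrP ⊢
    have hall : ∀ c ∈ S, P.ord (t - algebraMap A₀ Lf c) = 0 := by
      intro c hc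
      by_contra hne
      have hpos : 0 < P.ord (t - algebraMap A₀ Lf c) :=
        lt_of_le_of_ne (ord_sub_const_nonneg P htP.ge c) (Ne.symm hne)
      -- the polynomial `c X - 1` vanishes at the centre
      have hval : aeval t⁻¹ (C c * X - 1 : A₀[X]) = - (t⁻¹ * (t - algebraMap A₀ Lf c)) := by
        rw [map_sub, map_mul, aeval_C, aeval_X, map_one]
        field_simp
        ring
      have hne0 : t - algebraMap A₀ Lf c ≠ 0 := by
        intro h0; rw [h0] at hpos; simp at hpos
      have hpos' : 0 < P.ord (aeval t⁻¹ (C c * X - 1 : A₀[X])) := by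
        rw [hval, PlaceAux.ord_neg, P.ord_mul (inv_ne_zero ht0) hne0, P.ord_inv, htP]
        simpa using hpos
      have hdvd : f ∣ (C c * X - 1) := centre_dvd_int P t⁻¹ hf hrP hpos'
      have hmem : chartElt hinv (C c * X - 1) ∈ m := chartElt_mem_of_dvd hinv hdvd m hrm
      rw [chartElt_sub, chartElt_mul, chartElt_one] at hmem
      have h1 : (1 : integralClosure (Algebra.adjoin A₀ {t⁻¹}) Lf) ∈ m := by
        have h2 := m.sub_mem (m.mul_mem_left (chartElt hinv (C c)) hσm) hmem
        simpa using h2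
      exact hm.ne_top ((Ideal.eq_top_iff_one m).mpr h1)
    obtain ⟨g, hg⟩ := hb P htP.ge hall
    obtain ⟨g', hg'⟩ := exists_poly_inv_ord_eq_one P ht0 htP hg
    exact centre_ord_eq_one_int P t⁻¹ hf hrP hg'

end Local

end Fermat.Agent.INJ


end ZBINJ_019_1
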