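/- GENERATED FILE (helper35, build-time optimisation, NOTES/ZB.md): verbatim concatenation of the modules
   Fermat.Agent.S28.Defs
   Fermat.Agent.S28.ModUnit
   Fermat.Agent.ES.RC.ModFunField
   Fermat.Agent.ES.RiemannNorm
   Do not edit; do not import together with these modules. -/
import Mathlib
import Fermat.Prelude.Def_ModularCurve_IgusaScheme
import Fermat.Prelude.Def_ModularCurve_X0ModL
import Fermat.Agent.ZB.S20_005
import Fermat.Agent.ZB.S20_001
import Fermat.Prelude.Thm_ModularCurve_coeffMap_qExpand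
import Fermat.Agent.ZB.S23_001
import Fermat.Agent.ZB.S24_003
import Fermat.Agent.ZB.S24_001

/-! ### bundled: `Fermat.Agent.S28.Defs` -/
section ZBS28_001_0

/-!
# S28 (Igusa) — shared definitions and interfaces (helper90)

Everything is phrased with formal Laurent series `LaurentSeries R` (`R = ℤ, ℚ, ℂ, ℤ_(ℓ)`, or a field).
* `jqModC R` (prelude) is the formal `j`, `qExpand R d` (prelude) is `q ↦ q^d`, `coeffMap f` (prelude) changes
  coefficients.
* `deltaS R` is the formal `Δ = q ∏ (1 - q^n)^24`, `uS R p = Δ(q^p)/Δ(q)`.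
-/

set_option autoImplicit false

noncomputable section

open HahnSeries ModularCurve

namespace Fermat.Agent.S28

/-- The formal discriminant `Δ = q ∏ (1 - q^n)^24` with integer coefficients. -/
def deltaZ : LaurentSeries ℤ :=
  HahnSeries.single (1 : ℤ) (1 : ℤ) * HahnSeries.ofPowerSeries ℤ ℤ dedekindEtaUnit

/-- The formal `Δ⁻¹ = q⁻¹ ∏ (1 - q^n)^(-24)` with integer coefficients. -/
def deltaInvZ : LaurentSeries ℤ :=
  HahnSeries.single (-1 : ℤ) (1 : ℤ) * HahnSeries.ofPowerSeries ℤ ℤ dedekindEtaUnitInv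

/-- The formal modular unit `u_p = Δ(q^p)/Δ(q)` with integer coefficients. -/
def uZ (p : ℕ) [NeZero p] : LaurentSeries ℤ := qExpand ℤ p deltaZ * deltaInvZ

/-- The formal discriminant over a commutative ring `R`. -/
def deltaS (R : Type*) [CommRing R] : LaurentSeries R := coeffMap (Int.castRingHom R) deltaZ

/-- The formal `Δ⁻¹` over a commutative ring `R`. -/
def deltaInvS (R : Type*) [CommRing R] : LaurentSeries R := coeffMap (Int.castRingHom R) deltaInvZ

/-- The formal modular unit `u_p = Δ(q^p)/Δ(q)` over a commutative ring `R`. -/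
def uS (R : Type*) [CommRing R] (p : ℕ) [NeZero p] : LaurentSeries R :=
  coeffMap (Int.castRingHom R) (uZ p)

/-- `P(x, y)` for `P ∈ R[Y][X]` (outer variable `X ↦ x`, inner variable `Y ↦ y`), in a commutative `R`-algebra. -/
def eval2 {R A : Type*} [CommRing R] [CommRing A] [Algebra R A] (P : Polynomial (Polynomial R)) (x y : A) : A :=
  P.eval₂ (Polynomial.aeval y : Polynomial R →ₐ[R] A).toRingHom x

end Fermat.Agent.S28

end
end ZBS28_001_0

/-! ### bundled: `Fermat.Agent.S28.ModUnit` -/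
section ZBS28_001_1

/-!
# S28 (P2): the modular unit `u_p = Δ(q^p)/Δ(q)`

For a prime `p` there is a monic `U ∈ ℂ[Y][X]` of `X`-degree `p + 1` with `U(u_p, j) = 0` and
`U(p⁻¹² / u_p, j(q^p)) = 0`:

* `modUnit_analytic` : the two relations for the functions `Δ(pτ)/Δ(τ)`, `J(τ)`, `J(pτ)` on `ℍ`;
* `modUnit_laurent`, `modUnit_exists` : the same relations for formal Laurent series
  (`jqModC ℂ`, `uS ℂ p` of `S28/Defs.lean`).
-/

set_option autoImplicit false

noncomputable section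

namespace Fermat.Agent.S28

open UpperHalfPlane ModularForm Polynomial ModularCurve
open Fermat.Agent.S23 Fermat.Agent.S24
open scoped MatrixGroups ModularForm Manifold

local notation "Δ" => ModularForm.discriminant

/-- **(P2), analytic form.** -/
theorem modUnit_analytic (p : ℕ) [NeZero p] (hp : p.Prime) :
    ∃ U : (ℂ[X])[X], U.Monic ∧ U.natDegree = p + 1 ∧
      (∀ τ : ℍ, U.eval₂ (evalRingHom (Jfun τ)) (Δ (scaleN p τ) / Δ τ) = 0) ∧
      (∀ τ : ℍ, U.eval₂ (evalRingHom (Jfun (scaleN p τ)))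
        (((p : ℂ) ^ 12)⁻¹ * (Δ τ / Δ (scaleN p τ))) = 0) := by
  obtain ⟨U, hmonic, hdeg, hU⟩ := (isModFun_unit p).exists_normPoly
  refine ⟨U, hmonic, by rw [hdeg, cosetCard_prime hp], hU, fun τ => ?_⟩
  have := fricke_transfer p (fun z => Δ (scaleN p z) / Δ z) U hU τ
  rwa [unit_fricke] at this

/-- **(P2), Laurent form** (with the formal discriminant `deltaL` of `Bridge.lean`). -/
theorem modUnit_laurent (p : ℕ) [NeZero p] (hp : p.Prime) :
    ∃ U : (ℂ[X])[X], U.Monic ∧ U.natDegree = p + 1 ∧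
      U.eval₂ (aeval (R := ℂ) (jqModC ℂ)).toRingHom (qExpand ℂ p deltaL * deltaL⁻¹) = 0 ∧
      U.eval₂ (aeval (R := ℂ) (qExpand ℂ p (jqModC ℂ))).toRingHom
        (HahnSeries.C (((p : ℂ) ^ 12)⁻¹) * (deltaL * (qExpand ℂ p deltaL)⁻¹)) = 0 := by
  obtain ⟨U, hmonic, hdeg, h1, h2⟩ := modUnit_analytic p hp
  refine ⟨U, hmonic, hdeg, ?_, ?_⟩
  · have := laurentOf_eval₂ U (isModFun_unit p).isMerInf isMerInf_Jfun h1
    rwa [laurentOf_Jfun, laurentOf_unit] at this
  · have hinv : IsMerInf (fun z => Δ z / Δ (scaleN p z)) := (isModFun_unit_inv p).isMerInf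
    have hc : IsMerInf ((((p : ℂ) ^ 12)⁻¹) • fun z => Δ z / Δ (scaleN p z)) :=
      (isMerInf_const _).mul hinv
    have := laurentOf_eval₂ U hc (isMerInf_comp_scaleN p isMerInf_Jfun) h2
    rwa [laurentOf_Jfun_scaleN, laurentOf_smul _ hinv, laurentOf_unit_inv] at this

/-! ### Identification with the formal series of `Defs.lean` -/

theorem modUnit_deltaInvZ_mul_deltaZ : deltaInvZ * deltaZ = 1 := by
  rw [deltaInvZ, deltaZ]
  have h1 : (HahnSeries.single (-1 : ℤ) (1 : ℤ)) * HahnSeries.single (1 : ℤ) (1 : ℤ) = 1 := by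
    rw [HahnSeries.single_mul_single]
    simp
  calc HahnSeries.single (-1 : ℤ) (1 : ℤ) * HahnSeries.ofPowerSeries ℤ ℤ dedekindEtaUnitInv *
        (HahnSeries.single (1 : ℤ) (1 : ℤ) * HahnSeries.ofPowerSeries ℤ ℤ dedekindEtaUnit)
      = (HahnSeries.single (-1 : ℤ) (1 : ℤ) * HahnSeries.single (1 : ℤ) (1 : ℤ)) *
        (HahnSeries.ofPowerSeries ℤ ℤ dedekindEtaUnit *
          HahnSeries.ofPowerSeries ℤ ℤ dedekindEtaUnitInv) := by ring
    _ = 1 := by rw [h1, one_mul, ← map_mul, dedekindEtaUnit_mul_inv, map_one]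

theorem deltaInvS_mul_deltaS (R : Type*) [CommRing R] : deltaInvS R * deltaS R = 1 := by
  rw [deltaInvS, deltaS, ← map_mul, modUnit_deltaInvZ_mul_deltaZ, map_one]

theorem uS_eq (R : Type*) [CommRing R] (p : ℕ) [NeZero p] :
    uS R p = qExpand R p (deltaS R) * deltaInvS R := by
  rw [uS, uZ, map_mul, coeffMap_qExpand]
  rfl

theorem deltaS_complex : deltaS ℂ = deltaL := by
  rw [deltaS, deltaZ, map_mul, coeffMap_single, map_one, coeffMap_ofPowerSeries, deltaL]

theorem deltaInvS_complex : deltaInvS ℂ = deltaL⁻¹ := by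
  have h := deltaInvS_mul_deltaS ℂ
  rw [deltaS_complex] at h
  exact eq_inv_of_mul_eq_one_left h

theorem uS_complex (p : ℕ) [NeZero p] : uS ℂ p = qExpand ℂ p deltaL * deltaL⁻¹ := by
  rw [uS_eq, deltaS_complex, deltaInvS_complex]

theorem uS_complex_ne_zero (p : ℕ) [NeZero p] : uS ℂ p ≠ 0 := by
  rw [uS_complex]
  exact mul_ne_zero (qExpand_deltaL_ne_zero p) (inv_ne_zero deltaL_ne_zero)

theorem uS_complex_inv (p : ℕ) [NeZero p] : (uS ℂ p)⁻¹ = deltaL * (qExpand ℂ p deltaL)⁻¹ := by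
  rw [uS_complex, mul_inv, inv_inv, mul_comm]

/-- The Laurent expansion of `Δ(pτ)/Δ(τ)` is the formal unit `uS ℂ p`. -/
theorem laurentOf_unit_eq_uS (p : ℕ) [NeZero p] :
    laurentOf (fun z => Δ (scaleN p z) / Δ z) = uS ℂ p := by
  rw [laurentOf_unit, uS_complex]

/-- The Laurent expansion of `Δ` is the formal `deltaS ℂ`. -/
theorem laurentOf_discriminant_eq_deltaS : laurentOf (Δ : ℍ → ℂ) = deltaS ℂ := by
  rw [laurentOf_discriminant, deltaS_complex]

/-- **(P2), Laurent form** with the formal unit `uS ℂ p` of `Defs.lean`: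
`U(u, j) = 0` and `U(p⁻¹² · u⁻¹, j(q^p)) = 0`. -/
theorem modUnit_exists (p : ℕ) [NeZero p] (hp : p.Prime) :
    ∃ U : (ℂ[X])[X], U.Monic ∧ U.natDegree = p + 1 ∧
      U.eval₂ (aeval (R := ℂ) (jqModC ℂ)).toRingHom (uS ℂ p) = 0 ∧
      U.eval₂ (aeval (R := ℂ) (qExpand ℂ p (jqModC ℂ))).toRingHom
        (HahnSeries.C (((p : ℂ) ^ 12)⁻¹) * (uS ℂ p)⁻¹) = 0 := by
  obtain ⟨U, hmonic, hdeg, h1, h2⟩ := modUnit_laurent p hp
  refine ⟨U, hmonic, hdeg, ?_, ?_⟩
  · rwa [uS_complex]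
  · rwa [uS_complex_inv]

/-- `modUnit_exists` in terms of `eval2` of `Defs.lean`. -/
theorem modUnit_exists_eval2 (p : ℕ) [NeZero p] (hp : p.Prime) :
    ∃ U : (ℂ[X])[X], U.Monic ∧ U.natDegree = p + 1 ∧
      eval2 U (uS ℂ p) (jqModC ℂ) = 0 ∧
      eval2 U (HahnSeries.C (((p : ℂ) ^ 12)⁻¹) * (uS ℂ p)⁻¹) (qExpand ℂ p (jqModC ℂ)) = 0 :=
  modUnit_exists p hp

end Fermat.Agent.S28

end
end ZBS28_001_1

/-! ### bundled: `Fermat.Agent.ES.RC.ModFunField` -/
section ZBS28_001_2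

/-!
# ESpkg-G1, piece (RC)(i): modular functions for `Γ₀(N)` lie in the formal function field

`IsModFun N f` (`f · Δ ^ m` is a modular form of weight `12 m` for `Γ₀(N)`) implies that the Laurent
expansion `laurentOf f` lies in `ℂ(j, u_N⁻¹)`, `u_N = Δ(q^N)/Δ(q)`:

* `rc_laurentOf_mem_adjoin` : `laurentOf f ∈ ℂ⟮jqModC ℂ, (uS ℂ N)⁻¹⟯`.

Route: the Lagrange relation of S23 (`normPoly_lagrangeRel`) for `Θ = Δ^N/Δ(N·)`,
`F · D_Θ = ∑_j l_j Θ^(n-1-j)` with level-one coefficients `l_j = Δ^a · P_j(J)`.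
-/

set_option autoImplicit false

noncomputable section

namespace Fermat.Agent.ES.RC

open UpperHalfPlane ModularForm Polynomial ModularCurve
open Fermat.Agent.S23 Fermat.Agent.S24 Fermat.Agent.S28
open scoped MatrixGroups ModularForm Manifold

local notation "Δ" => ModularForm.discriminant

/-! ### Generalities on `laurentOf` -/

theorem rc_isMerInf_of_isMF {N : ℕ} [NeZero N] {κ : ℤ} {f : ℍ → ℂ} (hf : IsMF (G0 N) κ f) :
    IsMerInf f := IsHPB.isMerInf hf.isHPB

theorem rc_isMerInf_of_levelOne {κ : ℤ} {f : ℍ → ℂ} (hf : IsMF 𝒮ℒ κ f) : IsMerInf f :=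
  rc_isMerInf_of_isMF (N := 1) hf.of_levelOne

theorem rc_isMerInf_pow {f : ℍ → ℂ} (hf : IsMerInf f) (n : ℕ) : IsMerInf (f ^ n) :=
  merInf.pow_mem (mem_merInf.mpr hf) n

theorem rc_isMerInf_sum {ι : Type*} (s : Finset ι) (F : ι → ℍ → ℂ) (hF : ∀ i ∈ s, IsMerInf (F i)) :
    IsMerInf (∑ i ∈ s, F i) :=
  merInf.sum_mem hF

theorem rc_laurentOf_sum {ι : Type*} (s : Finset ι) (F : ι → ℍ → ℂ) (hF : ∀ i ∈ s, IsMerInf (F i)) :
    laurentOf (∑ i ∈ s, F i) = ∑ i ∈ s, laurentOf (F i) := by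
  classical
  induction s using Finset.induction_on with
  | empty => simpa using laurentOf_zero
  | insert a s ha ih =>
    rw [Finset.sum_insert ha, Finset.sum_insert ha,
      laurentOf_add (hF a (Finset.mem_insert_self a s))
        (rc_isMerInf_sum s F fun i hi => hF i (Finset.mem_insert_of_mem hi)),
      ih fun i hi => hF i (Finset.mem_insert_of_mem hi)]

/-- evaluation at a point, as an algebra homomorphism on `merInf`. -/
def rc_ev (τ : ℍ) : merInf →ₐ[ℂ] ℂ :=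
  (Pi.evalAlgHom ℂ (fun _ : ℍ => ℂ) τ).comp merInf.val

theorem rc_ev_apply (τ : ℍ) (f : merInf) : rc_ev τ f = (f : ℍ → ℂ) τ := rfl

theorem rc_aeval_coe (g : merInf) (P : ℂ[X]) :
    ((Polynomial.aeval g P : merInf) : ℍ → ℂ) = fun τ => P.eval ((g : ℍ → ℂ) τ) := by
  funext τ
  have h := Polynomial.aeval_algHom_apply (rc_ev τ) g P
  rw [rc_ev_apply, rc_ev_apply] at h
  rw [← h, Polynomial.coe_aeval_eq_eval]

theorem rc_isMerInf_eval {g : ℍ → ℂ} (hg : IsMerInf g) (P : ℂ[X]) :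
    IsMerInf (fun τ => P.eval (g τ)) := by
  have h := (Polynomial.aeval (⟨g, hg⟩ : merInf) P).2
  rwa [rc_aeval_coe] at h

/-- `laurentOf (P ∘ g) = P (laurentOf g)` for a polynomial `P`. -/
theorem rc_laurentOf_eval {g : ℍ → ℂ} (hg : IsMerInf g) (P : ℂ[X]) :
    laurentOf (fun τ => P.eval (g τ)) = Polynomial.aeval (laurentOf g) P := by
  have h := Polynomial.aeval_algHom_apply laurentExp (⟨g, hg⟩ : merInf) P
  rw [laurentExp_apply, laurentExp_apply, rc_aeval_coe] at h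
  exact h.symm

/-- The Laurent expansion of a level-one modular form of weight `12 a` is `Δ^a · P(j)`. -/
theorem rc_laurentOf_levelOne (a : ℕ) {κ : ℤ} (hκ : κ = 12 * (a : ℤ)) {h : ℍ → ℂ}
    (hh : IsMF 𝒮ℒ κ h) :
    ∃ P : ℂ[X], laurentOf h = deltaL ^ a * Polynomial.aeval (jqModC ℂ) P := by
  obtain ⟨H, rfl⟩ := hh
  obtain ⟨P, -, hP⟩ := exists_poly_of_modularForm a κ hκ H
  refine ⟨P, ?_⟩
  have e : (⇑H : ℍ → ℂ) = (Δ : ℍ → ℂ) ^ a * fun τ => P.eval (Jfun τ) := by
    funext τ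
    simp only [Pi.mul_apply, Pi.pow_apply]
    exact hP τ
  rw [e, laurentOf_mul (rc_isMerInf_pow isMerInf_discriminant a) (rc_isMerInf_eval isMerInf_Jfun P),
    laurentOf_pow isMerInf_discriminant, laurentOf_discriminant,
    rc_laurentOf_eval isMerInf_Jfun, laurentOf_Jfun]

/-! ### The Lagrange relation on Laurent series -/

/-- pure algebra: collect the powers of `D`. -/
theorem rc_collect {R : Type*} [CommRing R] (D v : R) (a b n : ℕ) (c x : ℕ → R)
    (hc : ∀ j, c j = D ^ (a + j * b) * x j) :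
    ∑ j ∈ Finset.range n, c j * (D ^ b * v) ^ (n - 1 - j) =
      D ^ (a + (n - 1) * b) * ∑ j ∈ Finset.range n, x j * v ^ (n - 1 - j) := by
  rw [Finset.mul_sum]
  refine Finset.sum_congr rfl fun j hj => ?_
  have hjn : j < n := Finset.mem_range.mp hj
  rw [hc j, mul_pow, ← pow_mul]
  have h1 : n - 1 = j + (n - 1 - j) := by omega
  have h2 : a + (n - 1) * b = (a + j * b) + b * (n - 1 - j) := by
    conv_lhs => rw [h1]
    ring
  rw [h2, pow_add]
  ring

theorem rc_aeval_mem {E : IntermediateField ℂ (LaurentSeries ℂ)} {x : LaurentSeries ℂ}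
    (hx : x ∈ E) (P : ℂ[X]) : Polynomial.aeval x P ∈ E := by
  rw [Polynomial.aeval_eq_sum_range]
  refine E.sum_mem fun i _ => ?_
  exact E.smul_mem (pow_mem hx i)

theorem rc_sum_mem {E : IntermediateField ℂ (LaurentSeries ℂ)} {x v : LaurentSeries ℂ}
    (hx : x ∈ E) (hv : v ∈ E) (n : ℕ) (P : ℕ → ℂ[X]) :
    ∑ j ∈ Finset.range n, Polynomial.aeval x (P j) * v ^ (n - 1 - j) ∈ E :=
  E.sum_mem fun j _ => E.mul_mem (rc_aeval_mem hx (P j)) (pow_mem hv _)

/-- The Laurent expansion of `Θ = Δ^N/Δ(N·)`. -/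
theorem rc_laurentOf_thetaFun (N : ℕ) [NeZero N] :
    laurentOf (thetaFun N) = deltaL ^ (N - 1) * (uS ℂ N)⁻¹ := by
  have h := bridge_thetaL_mul N
  rw [← laurentOf_of_isHPB (bridge_isHPB_thetaFun N)] at h
  rw [uS_complex_inv, ← mul_assoc, ← pow_succ,
    Nat.sub_add_cancel (Nat.pos_of_ne_zero (NeZero.ne N)),
    eq_mul_inv_iff_mul_eq₀ (qExpand_deltaL_ne_zero N)]
  exact h

/-- **(RC)(i), first form**: the Laurent expansion of a modular function for `Γ₀(N)` lies in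
`ℂ(j, u_N⁻¹)`, `u_N = Δ(q^N)/Δ(q)`. -/
theorem rc_laurentOf_mem_adjoin (N : ℕ) [NeZero N] {f : ℍ → ℂ} (hf : IsModFun N f) :
    laurentOf f ∈
      IntermediateField.adjoin ℂ ({jqModC ℂ, (uS ℂ N)⁻¹} : Set (LaurentSeries ℂ)) := by
  classical
  set E := IntermediateField.adjoin ℂ ({jqModC ℂ, (uS ℂ N)⁻¹} : Set (LaurentSeries ℂ)) with hE
  have hjE : jqModC ℂ ∈ E := IntermediateField.subset_adjoin ℂ _ (by simp)
  have hvE : (uS ℂ N)⁻¹ ∈ E := IntermediateField.subset_adjoin ℂ _ (by simp)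
  have hfM : IsMerInf f := hf.isMerInf
  obtain ⟨m, F, hF⟩ := hf
  obtain ⟨Θ, hΘ⟩ := isMF_thetaFun N
  have hΘ0 : (qExpansion 1 Θ).coeff 0 = 1 := by rw [hΘ]; exact thetaFun_qExpansion_coeff_zero N
  have hΘz : ∀ γ : SL(2, ℤ), γ ∉ CongruenceSubgroup.Gamma0 N →
      IsZeroAtImInfty ((⇑Θ : ℍ → ℂ) ∣[thetaWeight N] γ) := by
    intro γ hγ
    rw [hΘ]
    exact thetaFun_slash_isZeroAtImInfty N γ hγ
  have hLag := normPoly_lagrangeRel N (esymm_stmt N)
  obtain ⟨l, hl, hlrel⟩ := hLag (12 * (m : ℤ)) (thetaWeight N) F Θ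
  obtain ⟨lam, hlam, hlamrel⟩ := hLag 0 (thetaWeight N) (1 : ModularForm (G0 N) 0) Θ
  set n := cosetCard N with hn
  have hD0 : Dfun Θ ≠ 0 := Dfun_ne_zero Θ hΘ0 hΘz
  have hN1 : 1 ≤ N := Nat.pos_of_ne_zero (NeZero.ne N)
  -- Laurent expansions of the level-one coefficients
  have hlL : ∀ j, ∃ P : ℂ[X],
      laurentOf (l j) = deltaL ^ (m + j * (N - 1)) * Polynomial.aeval (jqModC ℂ) P := fun j =>
    rc_laurentOf_levelOne (m + j * (N - 1))
      (by unfold thetaWeight; push_cast [Nat.cast_sub hN1]; ring) (hl j)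
  have hlamL : ∀ j, ∃ P : ℂ[X],
      laurentOf (lam j) = deltaL ^ (0 + j * (N - 1)) * Polynomial.aeval (jqModC ℂ) P := fun j =>
    rc_laurentOf_levelOne (0 + j * (N - 1))
      (by unfold thetaWeight; push_cast [Nat.cast_sub hN1]; ring) (hlam j)
  choose P hP using hlL
  choose Q hQ using hlamL
  -- the functions
  have hΘM : IsMerInf (thetaFun N) := IsHPB.isMerInf (bridge_isHPB_thetaFun N)
  have hlM : ∀ j, IsMerInf (l j) := fun j => rc_isMerInf_of_levelOne (hl j)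
  have hlamM : ∀ j, IsMerInf (lam j) := fun j => rc_isMerInf_of_levelOne (hlam j)
  have hfun2 : Dfun Θ = ∑ j ∈ Finset.range n, lam j * (thetaFun N) ^ (n - 1 - j) := by
    funext z
    have := hlamrel z
    rw [ModularForm.one_coe_eq_one, Pi.one_apply, one_mul] at this
    rw [this, Finset.sum_apply, hΘ]
    rfl
  have hfun1 : (f * (Δ : ℍ → ℂ) ^ m) * Dfun Θ =
      ∑ j ∈ Finset.range n, l j * (thetaFun N) ^ (n - 1 - j) := by
    funext z
    have := hlrel z
    rw [hF] at this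
    rw [Finset.sum_apply]
    simp only [Pi.mul_apply, Pi.pow_apply]
    rw [this, hΘ]
  have hDM : IsMerInf (Dfun Θ) := by
    rw [hfun2]
    exact rc_isMerInf_sum _ _ fun j _ => (hlamM j).mul (rc_isMerInf_pow hΘM _)
  -- Laurent side
  have hL2 : laurentOf (Dfun Θ) = deltaL ^ (0 + (n - 1) * (N - 1)) *
      ∑ j ∈ Finset.range n, Polynomial.aeval (jqModC ℂ) (Q j) * ((uS ℂ N)⁻¹) ^ (n - 1 - j) := by
    rw [hfun2, rc_laurentOf_sum _ _ fun j _ => (hlamM j).mul (rc_isMerInf_pow hΘM _)]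
    rw [← rc_collect deltaL ((uS ℂ N)⁻¹) 0 (N - 1) n (fun j => laurentOf (lam j)) _ hQ]
    refine Finset.sum_congr rfl fun j _ => ?_
    rw [laurentOf_mul (hlamM j) (rc_isMerInf_pow hΘM _), laurentOf_pow hΘM,
      rc_laurentOf_thetaFun]
  have hL1 : laurentOf ((f * (Δ : ℍ → ℂ) ^ m) * Dfun Θ) = deltaL ^ (m + (n - 1) * (N - 1)) *
      ∑ j ∈ Finset.range n, Polynomial.aeval (jqModC ℂ) (P j) * ((uS ℂ N)⁻¹) ^ (n - 1 - j) := by
    rw [hfun1, rc_laurentOf_sum _ _ fun j _ => (hlM j).mul (rc_isMerInf_pow hΘM _)]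
    rw [← rc_collect deltaL ((uS ℂ N)⁻¹) m (N - 1) n (fun j => laurentOf (l j)) _ hP]
    refine Finset.sum_congr rfl fun j _ => ?_
    rw [laurentOf_mul (hlM j) (rc_isMerInf_pow hΘM _), laurentOf_pow hΘM,
      rc_laurentOf_thetaFun]
  set A := ∑ j ∈ Finset.range n, Polynomial.aeval (jqModC ℂ) (Q j) * ((uS ℂ N)⁻¹) ^ (n - 1 - j)
    with hA
  set B := ∑ j ∈ Finset.range n, Polynomial.aeval (jqModC ℂ) (P j) * ((uS ℂ N)⁻¹) ^ (n - 1 - j)
    with hB
  have hAE : A ∈ E := rc_sum_mem hjE hvE n Q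
  have hBE : B ∈ E := rc_sum_mem hjE hvE n P
  have hΔm : IsMerInf ((Δ : ℍ → ℂ) ^ m) := rc_isMerInf_pow isMerInf_discriminant m
  have hA0 : A ≠ 0 := by
    intro h0
    apply hD0
    rw [← laurentOf_eq_zero_iff hDM, hL2, h0, mul_zero]
  have key : laurentOf f * A = B := by
    have h1 := hL1
    rw [laurentOf_mul (hfM.mul hΔm) hDM, laurentOf_mul hfM hΔm,
      laurentOf_pow isMerInf_discriminant, laurentOf_discriminant, hL2, zero_add, pow_add] at h1
    have hDc : deltaL ^ m * deltaL ^ ((n - 1) * (N - 1)) ≠ 0 :=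
      mul_ne_zero (pow_ne_zero _ deltaL_ne_zero) (pow_ne_zero _ deltaL_ne_zero)
    apply mul_left_cancel₀ hDc
    rw [← h1]
    ring
  have : laurentOf f = B * A⁻¹ := by
    rw [eq_mul_inv_iff_mul_eq₀ hA0]
    exact key
  rw [this]
  exact E.mul_mem hBE (E.inv_mem hAE)

end Fermat.Agent.ES.RC

end
end ZBS28_001_2

/-! ### bundled: `Fermat.Agent.ES.RiemannNorm` -/
section ZBS28_001_3

/-!
# ES shared input (R), piece R2a: the norm relation of a cusp form, with sharp degree bounds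

For a cusp form `F` of weight `12 m` (`m ≥ 1`) on `Γ₀(N)` the function `f = F / Δ ^ m` satisfies

  `f ^ d + ∑_{j = 1}^{d} (∑_{i < m j} c_{j,i} J ^ i) f ^ (d - j) = 0`,   `d = [SL₂(ℤ) : Γ₀(N)]`,

(`c_{j,i} ∈ ℂ`): the `j`-th elementary symmetric function of the translates of `F` is a level-one
CUSP form of weight `12 m j`, hence `Δ ^ (m j)` times a polynomial in `J` of degree `≤ m j - 1`.
The same relation holds for the Laurent expansions (`cusp_laurent_relation`).
-/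

set_option autoImplicit false

noncomputable section

namespace Fermat.Agent.ES.R

open UpperHalfPlane ModularForm SlashInvariantForm Polynomial
open Fermat.Agent.S23 Fermat.Agent.S24 Fermat.Agent.S28 Fermat.Agent.ES.RC
open scoped MatrixGroups ModularForm Manifold

local notation "Δ" => ModularForm.discriminant

variable {N : ℕ} [NeZero N]

omit [NeZero N] in
theorem quotientFunc_congr' {k : ℤ} (F₁ : CuspForm (G0 N) k) (F₂ : ModularForm (G0 N) k)
    (h : (⇑F₂ : ℍ → ℂ) = ⇑F₁) (q : Coset N) : quotientFunc F₂ q = quotientFunc F₁ q := by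
  induction q using Quotient.inductionOn with
  | h g =>
    rw [SlashInvariantForm.quotientFunc_mk, SlashInvariantForm.quotientFunc_mk, h]

open scoped Classical in
/-- The elementary symmetric functions of positive degree of the translates of a cusp form of
weight `12 m` are `Δ ^ (m j)` times a polynomial in `Jfun` of degree `< m j`. -/
theorem cusp_coeff_exists (m : ℕ) (hm : 1 ≤ m) (F : CuspForm (G0 N) (12 * (m : ℤ))) (j : ℕ)
    (hj : 1 ≤ j) :
    ∃ P : ℂ[X], P.natDegree + 1 ≤ m * j ∧ ∀ τ : ℍ,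
      (∑ S ∈ Finset.powersetCard j (cosetFinset N), ∏ q ∈ S, quotientFunc F q τ) =
        Δ τ ^ (m * j) * P.eval (Jfun τ) := by
  obtain ⟨E, hE⟩ := isCF_esymm F j hj
  have hmj : 1 ≤ m * j := Nat.one_le_iff_ne_zero.mpr (Nat.mul_ne_zero (by omega) (by omega))
  set E' : ModularForm 𝒮ℒ ((j : ℤ) * (12 * (m : ℤ)) - 12) := CuspForm.discriminantEquiv E with hE'
  have h1 : ∀ τ, Δ τ * E' τ = E τ := fun τ =>
    ModularForm.discriminant_mul_discriminantEquiv_apply E τ
  obtain ⟨p, hpdeg, hp⟩ := exists_poly_of_modularForm (m * j - 1)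
    ((j : ℤ) * (12 * (m : ℤ)) - 12) (by push_cast [Nat.cast_sub hmj]; ring) E'
  refine ⟨p, by omega, fun τ => ?_⟩
  have h2 := congrFun hE τ
  rw [← h2, ← h1 τ, hp τ, ← mul_assoc, ← pow_succ', Nat.sub_add_cancel hmj]

open scoped Classical in
/-- **R2a, function form.** -/
theorem cusp_norm_relation (m : ℕ) (hm : 1 ≤ m) (F : CuspForm (G0 N) (12 * (m : ℤ))) :
    ∃ P : ℕ → ℂ[X], P 0 = 1 ∧ (∀ j, 1 ≤ j → (P j).natDegree + 1 ≤ m * j) ∧
      ∀ τ : ℍ, ∑ j ∈ Finset.range (cosetCard N + 1),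
        (-1 : ℂ) ^ j * (P j).eval (Jfun τ) * (F τ / Δ τ ^ m) ^ (cosetCard N - j) = 0 := by
  obtain ⟨F', hF'⟩ := IsCF.isMF (⟨F, rfl⟩ : IsCF (G0 N) (12 * (m : ℤ)) ⇑F)
  have hq : ∀ q, quotientFunc F' q = quotientFunc F q := quotientFunc_congr' F F' hF'
  choose! P hPdeg hP using fun j (hj : 1 ≤ j) => cusp_coeff_exists m hm F j hj
  set P' : ℕ → ℂ[X] := fun j => if j = 0 then 1 else P j with hP'
  have hP'0 : P' 0 = 1 := by simp [hP']
  have hP'j : ∀ j, 1 ≤ j → P' j = P j := fun j hj => by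
    simp [hP', Nat.one_le_iff_ne_zero.mp hj]
  refine ⟨P', hP'0, fun j hj => by rw [hP'j j hj]; exact hPdeg j hj, fun τ => ?_⟩
  have hrel := normPoly_relation m F' P' (fun j τ => ?_) τ
  · rw [← congrFun hF' τ]
    exact hrel
  · rcases Nat.eq_zero_or_pos j with rfl | hj
    · simp [hP'0]
    · rw [hP'j j hj, ← hP j hj τ]
      exact Finset.sum_congr rfl fun S _ => Finset.prod_congr rfl fun q _ => by rw [hq]

/-- **R2a, Laurent form.**  The Laurent expansion `y` of `F / Δ ^ m` satisfies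
`y ^ d + ∑_{j=1}^{d} (∑_{i < m j} C (c j i) * j(q) ^ i) * y ^ (d - j) = 0`. -/
theorem cusp_laurent_relation (m : ℕ) (hm : 1 ≤ m) (F : CuspForm (G0 N) (12 * (m : ℤ))) :
    ∃ c : ℕ → ℕ → ℂ,
      laurentOf (fun τ => F τ / Δ τ ^ m) ^ cosetCard N +
        ∑ j ∈ Finset.Icc 1 (cosetCard N),
          (∑ i ∈ Finset.range (m * j), HahnSeries.C (c j i) * ModularCurve.jqModC ℂ ^ i) *
            laurentOf (fun τ => F τ / Δ τ ^ m) ^ (cosetCard N - j) = 0 := by
  obtain ⟨P, hP0, hPdeg, hrel⟩ := cusp_norm_relation m hm F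
  set d := cosetCard N with hd
  set f : ℍ → ℂ := fun τ => F τ / Δ τ ^ m with hf
  have hfM : IsMerInf f := by
    have : IsModFun N f := isModFun_div (IsCF.isMF ⟨F, rfl⟩)
    exact this.isMerInf
  -- the relation in the algebra `merInf`
  set fm : merInf := ⟨f, hfM⟩ with hfm
  set Jm : merInf := ⟨Jfun, isMerInf_Jfun⟩ with hJm
  have hrelM : ∑ j ∈ Finset.range (d + 1),
      algebraMap ℂ merInf ((-1 : ℂ) ^ j) * (Polynomial.aeval Jm (P j) * fm ^ (d - j)) = 0 := by
    apply Subtype.ext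
    funext τ
    have h1 : ∀ x : merInf, ((x : ℍ → ℂ)) τ = rc_ev τ x := fun x => rfl
    rw [h1, map_sum]
    simp only [map_mul, map_pow, AlgHom.commutes]
    have h2 : ∀ j, rc_ev τ (Polynomial.aeval Jm (P j)) = (P j).eval (Jfun τ) := fun j => by
      rw [rc_ev_apply, rc_aeval_coe]
    simp only [h2, rc_ev_apply]
    have h3 := hrel τ
    simp only [mul_assoc] at h3
    exact h3
  have hrelL := congrArg laurentExp hrelM
  rw [map_sum, map_zero] at hrelL
  have hJL : laurentExp Jm = ModularCurve.jqModC ℂ := by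
    rw [laurentExp_apply]; exact laurentOf_Jfun
  have hfL : laurentExp fm = laurentOf f := laurentExp_apply fm
  have hterm : ∀ x, laurentExp (algebraMap ℂ merInf ((-1 : ℂ) ^ x) *
        ((aeval Jm) (P x) * fm ^ (d - x))) =
      HahnSeries.C ((-1 : ℂ) ^ x) * ((aeval (ModularCurve.jqModC ℂ)) (P x) *
        laurentOf f ^ (d - x)) := fun x => by
    rw [map_mul, AlgHom.commutes, map_mul, map_pow laurentExp fm,
      ← Polynomial.aeval_algHom_apply, hJL, hfL, LaurentSeries.algebraMap_apply]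
  rw [Finset.sum_congr rfl fun x _ => hterm x] at hrelL
  refine ⟨fun j i => (-1 : ℂ) ^ j * (P j).coeff i, ?_⟩
  rw [Finset.range_eq_Ico, Finset.sum_eq_sum_Ico_succ_bot (Nat.succ_pos d)] at hrelL
  simp only [pow_zero, hP0, map_one, one_mul, Nat.sub_zero] at hrelL
  rw [← hrelL]
  congr 1
  have hIcc : Finset.Ico (0 + 1) (d + 1) = Finset.Icc 1 d := by
    ext x; simp [Finset.mem_Ico, Finset.mem_Icc]
  rw [hIcc]
  refine Finset.sum_congr rfl fun j hj => ?_
  have hj1 : 1 ≤ j := (Finset.mem_Icc.mp hj).1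
  rw [← mul_assoc]
  congr 1
  rw [Polynomial.aeval_eq_sum_range' (show (P j).natDegree < m * j from hPdeg j hj1),
    Finset.mul_sum]
  refine Finset.sum_congr rfl fun i _ => ?_
  rw [Algebra.smul_def, LaurentSeries.algebraMap_apply, ← mul_assoc, ← map_mul]

end Fermat.Agent.ES.R

end
end ZBS28_001_3
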