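/- GENERATED FILE (helper35, build-time optimisation, NOTES/ZB.md): verbatim concatenation of the modules
   Fermat.Agent.S28.Deriv
   Fermat.Agent.S28.DerivLaurent
   Fermat.Agent.INJ.GaussSep
   Fermat.Agent.R38.HolCuspAbs
   Fermat.Agent.ES.I2aux.Residue
   Do not edit; do not import together with these modules. -/
import Mathlib
import Fermat.Prelude.Def_ModularCurve_X0
import Fermat.Prelude.Def_ModularCurve_LaurentCoeff
import Fermat.Prelude.Def_ModularCurve_JqCoeff
import Fermat.Prelude.Thm_ModularCurve_coeffMap_qExpand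
import Fermat.Agent.ZB.S20_001
import Fermat.Agent.ZB.S24_002

/-! ### bundled: `Fermat.Agent.S28.Deriv` -/
section ZBS28_003_0

/-!
# S28, prime level: the derivative trick  `J_p ∉ k(j)`

`θ = q d/dq` on Laurent series (`thetaFun`), Leibniz rule, chain rule `θ (σ_p x) = p • σ_p (θ x)`,
and the abstract statement `qExpand_not_mem_adjoin_of_theta`:

if `(θ j)^6 = G(j) · Δ`, `a · σ_p Δ = u · Δ` (`a ≠ 0`), `u` is a root of a monic polynomial over
`k[j]` with constant term a unit of `k`, `u` is not a constant and `p ≠ 0` in `k`,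
then `σ_p j ∉ k(j)`.
-/

set_option autoImplicit false

namespace Fermat.Agent.S28.Deriv

open HahnSeries ModularCurve Polynomial

open scoped nonZeroDivisors

section Theta

variable {R : Type*} [CommRing R]

/-- `θ = q d/dq` on Laurent series: `(θ x)_n = n * x_n`. -/
noncomputable def thetaFun (x : LaurentSeries R) : LaurentSeries R where
  coeff n := (n : R) * x.coeff n
  isPWO_support' := x.isPWO_support.mono (fun n hn => by
    simp only [Function.mem_support, ne_eq] at hn ⊢
    intro h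
    exact hn (by rw [h, mul_zero]))

@[simp]
theorem thetaFun_coeff (x : LaurentSeries R) (n : ℤ) :
    (thetaFun x).coeff n = (n : R) * x.coeff n := rfl

theorem thetaFun_support_subset (x : LaurentSeries R) : (thetaFun x).support ⊆ x.support := by
  intro n hn
  simp only [HahnSeries.mem_support, thetaFun_coeff, ne_eq] at hn ⊢
  intro h
  exact hn (by rw [h, mul_zero])

@[simp]
theorem thetaFun_zero : thetaFun (0 : LaurentSeries R) = 0 := by
  ext n
  simp

theorem thetaFun_add (x y : LaurentSeries R) : thetaFun (x + y) = thetaFun x + thetaFun y := by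
  ext n
  simp [mul_add]

theorem thetaFun_neg (x : LaurentSeries R) : thetaFun (-x) = -thetaFun x := by
  ext n
  simp

theorem thetaFun_sub (x y : LaurentSeries R) : thetaFun (x - y) = thetaFun x - thetaFun y := by
  ext n
  simp [mul_sub]

/-- Leibniz rule. -/
theorem thetaFun_mul (x y : LaurentSeries R) :
    thetaFun (x * y) = x * thetaFun y + y * thetaFun x := by
  ext n
  rw [thetaFun_coeff, HahnSeries.coeff_add, HahnSeries.coeff_mul,
    HahnSeries.coeff_mul_right' y.isPWO_support (thetaFun_support_subset y), mul_comm y,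
    HahnSeries.coeff_mul_left' x.isPWO_support (thetaFun_support_subset x),
    Finset.mul_sum, ← Finset.sum_add_distrib]
  refine Finset.sum_congr rfl fun ij hij => ?_
  obtain ⟨-, -, h⟩ := Finset.mem_antidiagonal.mp hij
  rw [thetaFun_coeff, thetaFun_coeff, ← h]
  push_cast
  ring

theorem thetaFun_single_zero (r : R) : thetaFun (HahnSeries.single (0 : ℤ) r) = 0 := by
  ext n
  rw [thetaFun_coeff, HahnSeries.coeff_single, HahnSeries.coeff_zero]
  split_ifs with h
  · simp [h]
  · simp

theorem thetaFun_C (r : R) : thetaFun (HahnSeries.C r : LaurentSeries R) = 0 :=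
  thetaFun_single_zero r

@[simp]
theorem thetaFun_one : thetaFun (1 : LaurentSeries R) = 0 :=
  thetaFun_single_zero 1

theorem thetaFun_pow (x : LaurentSeries R) (n : ℕ) :
    thetaFun (x ^ n) = (n : LaurentSeries R) * x ^ (n - 1) * thetaFun x := by
  induction n with
  | zero => simp
  | succ n ih =>
    rw [pow_succ, thetaFun_mul, ih]
    rcases Nat.eq_zero_or_pos n with rfl | hn
    · simp
    · have h1 : x ^ (n + 1 - 1) = x ^ (n - 1) * x := by
        rw [Nat.add_sub_cancel, ← pow_succ, Nat.sub_add_cancel hn]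
      have h2 : x ^ n = x ^ (n - 1) * x := by
        rw [← pow_succ, Nat.sub_add_cancel hn]
      rw [h1]
      push_cast
      rw [h2]
      ring

/-- chain rule for `q ↦ q ^ p`. -/
theorem thetaFun_qExpand (p : ℕ) [NeZero p] (x : LaurentSeries R) :
    thetaFun (qExpand R p x) = HahnSeries.C (p : R) * qExpand R p (thetaFun x) := by
  ext n
  rw [thetaFun_coeff, HahnSeries.C_mul_eq_smul, HahnSeries.coeff_smul, smul_eq_mul]
  by_cases hn : (p : ℤ) ∣ n
  · obtain ⟨m, rfl⟩ := hn
    rw [qExpand_coeff_mul, qExpand_coeff_mul, thetaFun_coeff]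
    push_cast
    ring
  · rw [qExpand_coeff_of_not_dvd p _ hn, qExpand_coeff_of_not_dvd p _ hn]
    simp

theorem thetaFun_coeffMap {S : Type*} [CommRing S] (f : R →+* S) (x : LaurentSeries R) :
    thetaFun (coeffMap f x) = coeffMap f (thetaFun x) := by
  ext n
  simp

end Theta

section Field

variable {k : Type*} [Field k]

theorem algebraMap_eq_C (a : k) :
    algebraMap k (LaurentSeries k) a = (HahnSeries.C a : LaurentSeries k) := by
  rw [algebraMap_laurentSeries_eq_single]
  rfl

theorem thetaFun_algebraMap (a : k) : thetaFun (algebraMap k (LaurentSeries k) a) = 0 := by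
  rw [algebraMap_eq_C]
  exact thetaFun_C a

theorem thetaFun_aeval (j : LaurentSeries k) (A : k[X]) :
    thetaFun (aeval j A) = aeval j (derivative A) * thetaFun j := by
  induction A using Polynomial.induction_on' with
  | add P Q hP hQ => rw [map_add, thetaFun_add, hP, hQ, derivative_add, map_add, add_mul]
  | monomial n a =>
    rw [aeval_monomial, thetaFun_mul, thetaFun_algebraMap, mul_zero, add_zero, thetaFun_pow,
      derivative_monomial, aeval_monomial, map_mul, map_natCast]
    ring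

theorem qExpand_aeval (p : ℕ) [NeZero p] (j : LaurentSeries k) (A : k[X]) :
    qExpand k p (aeval j A) = aeval (qExpand k p j) A := by
  rw [aeval_def, aeval_def, hom_eval₂]
  congr 1
  ext a
  simp only [RingHom.comp_apply, algebraMap_eq_C, qExpand_C]

theorem aeval_mem_of_mem (E : IntermediateField k (LaurentSeries k)) {x : LaurentSeries k}
    (hx : x ∈ E) (P : k[X]) : aeval x P ∈ E := by
  induction P using Polynomial.induction_on' with
  | add P Q hP hQ => rw [map_add]; exact add_mem hP hQ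
  | monomial n a =>
    rw [aeval_monomial]
    exact mul_mem (E.algebraMap_mem a) (pow_mem hx n)

/-- For `x ∈ k(j)`: `θ x = r · θ j` with `r ∈ k(j)`. -/
theorem exists_thetaFun_eq_mul_of_mem_adjoin (j : LaurentSeries k) {x : LaurentSeries k}
    (hx : x ∈ IntermediateField.adjoin k {j}) :
    ∃ r ∈ IntermediateField.adjoin k {j}, thetaFun x = r * thetaFun j := by
  obtain ⟨A, B, rfl⟩ := (IntermediateField.mem_adjoin_simple_iff k x).mp hx
  have hmemA : ∀ P : k[X], aeval j P ∈ IntermediateField.adjoin k {j} := fun P =>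
    (IntermediateField.mem_adjoin_simple_iff k _).mpr ⟨P, 1, by simp⟩
  by_cases hB : aeval j B = 0
  · refine ⟨0, zero_mem _, ?_⟩
    rw [hB, div_zero, thetaFun_zero, zero_mul]
  · refine ⟨(aeval j (derivative A) - aeval j A / aeval j B * aeval j (derivative B)) / aeval j B,
      div_mem (sub_mem (hmemA _) (mul_mem (div_mem (hmemA _) (hmemA _)) (hmemA _))) (hmemA _), ?_⟩
    have h1 : aeval j A / aeval j B * aeval j B = aeval j A := div_mul_cancel₀ _ hB
    have h2 := congrArg thetaFun h1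
    rw [thetaFun_mul, thetaFun_aeval, thetaFun_aeval] at h2
    apply mul_left_cancel₀ hB
    have h3 : aeval j B * ((aeval j (derivative A) - aeval j A / aeval j B * aeval j (derivative B))
        / aeval j B * thetaFun j)
        = (aeval j (derivative A) - aeval j A / aeval j B * aeval j (derivative B))
          * thetaFun j := by
      rw [← mul_assoc, mul_div_cancel₀ _ hB]
    rw [h3]
    linear_combination h2

/-- Integral closedness of `k[j]` in `k(j)`, in Laurent form: an element of `k(j)` that is a root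
of a monic polynomial over `k[j]` is a polynomial in `j`. -/
theorem exists_aeval_eq_of_mem_adjoin_of_monic {j : LaurentSeries k} (hjt : Transcendental k j)
    {u : LaurentSeries k} (humem : u ∈ IntermediateField.adjoin k {j})
    {U : (k[X])[X]} (hUm : U.Monic)
    (hU : U.eval₂ (aeval j : k[X] →ₐ[k] LaurentSeries k).toRingHom u = 0) :
    ∃ a₁ : k[X], u = aeval j a₁ ∧ U.eval a₁ = 0 := by
  have hinj : Function.Injective (aeval j : k[X] →ₐ[k] LaurentSeries k) :=
    transcendental_iff_injective.mp hjt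
  obtain ⟨A, B, hAB⟩ := (IntermediateField.mem_adjoin_simple_iff k u).mp humem
  have hφ' : k[X]⁰ ≤ (LaurentSeries k)⁰.comap (aeval j : k[X] →ₐ[k] LaurentSeries k) :=
    nonZeroDivisors_le_comap_nonZeroDivisors_of_injective _ hinj
  set φ : RatFunc k →ₐ[k] LaurentSeries k := RatFunc.liftAlgHom (aeval j) hφ' with hφdef
  have hφinj : Function.Injective φ := RatFunc.liftAlgHom_injective _ hinj hφ'
  have hφalg : ∀ P : k[X], φ (algebraMap k[X] (RatFunc k) P) = aeval j P := by
    intro P
    have := RatFunc.liftAlgHom_apply_div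
      (φ := (aeval j : k[X] →ₐ[k] LaurentSeries k)) (hφ := hφ') P 1
    simpa using this
  set ρ : RatFunc k := algebraMap k[X] (RatFunc k) A / algebraMap k[X] (RatFunc k) B with hρ
  have hφρ : φ ρ = u := by
    rw [hρ, hφdef, RatFunc.liftAlgHom_apply_div, hAB]
  have hint : IsIntegral k[X] ρ := by
    refine ⟨U, hUm, ?_⟩
    apply hφinj
    rw [map_zero, ← hU, ← AlgHom.coe_toRingHom, Polynomial.hom_eval₂, AlgHom.coe_toRingHom, hφρ]
    congr 1
    exact RingHom.ext hφalg
  obtain ⟨a₁, ha₁⟩ := IsIntegrallyClosed.isIntegral_iff.mp hint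
  have hu1 : u = aeval j a₁ := by rw [← hφρ, ← ha₁, hφalg]
  refine ⟨a₁, hu1, ?_⟩
  apply hinj
  rw [map_zero, ← hU, hu1, Polynomial.eval, ← AlgHom.coe_toRingHom, Polynomial.hom_eval₂]
  simp

/-- **The derivative trick**, first half: if `σ_p j ∈ k(j)` then `u = a·σ_p Δ / Δ ∈ k(j)`. -/
theorem mem_adjoin_of_theta (p : ℕ) [NeZero p] (hp : (p : k) ≠ 0)
    (j Δ u : LaurentSeries k) (hjt : Transcendental k j) (hΔ : Δ ≠ 0)
    (a : k) (hu : HahnSeries.C a * qExpand k p Δ = u * Δ)
    (G : k[X]) (hG0 : G ≠ 0) (hG : thetaFun j ^ 6 = aeval j G * Δ)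
    (hmem : qExpand k p j ∈ IntermediateField.adjoin k {j}) :
    u ∈ IntermediateField.adjoin k {j} := by
  have hmemA : ∀ P : k[X], aeval j P ∈ IntermediateField.adjoin k {j} := fun P =>
    (IntermediateField.mem_adjoin_simple_iff k _).mpr ⟨P, 1, by simp⟩
  have hinj : Function.Injective (aeval j : k[X] →ₐ[k] LaurentSeries k) :=
    transcendental_iff_injective.mp hjt
  obtain ⟨r, hr, hθ⟩ := exists_thetaFun_eq_mul_of_mem_adjoin j hmem
  rw [thetaFun_qExpand] at hθ
  have hGj : aeval j G ≠ 0 := fun h => hG0 (hinj (by rw [h, map_zero]))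
  have hGσ : aeval (qExpand k p j) G ≠ 0 := by
    rw [← qExpand_aeval]
    exact fun h => hGj (qExpand_injective p (by rw [h, map_zero]))
  have hCp : (HahnSeries.C (p : k) : LaurentSeries k) ≠ 0 := HahnSeries.C_ne_zero hp
  have h6 : (HahnSeries.C (p : k)) ^ 6 * (aeval (qExpand k p j) G * qExpand k p Δ)
      = r ^ 6 * (aeval j G * Δ) := by
    rw [← qExpand_aeval, ← map_mul, ← hG, map_pow, ← mul_pow, hθ, mul_pow]
  have h7 : (HahnSeries.C (p : k)) ^ 6 * aeval (qExpand k p j) G * u
      = HahnSeries.C a * r ^ 6 * aeval j G := by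
    apply mul_right_cancel₀ hΔ
    linear_combination (HahnSeries.C (p : k)) ^ 6 * aeval (qExpand k p j) G * (-hu)
      + HahnSeries.C a * h6
  have hmemC : ∀ b : k, (HahnSeries.C b : LaurentSeries k) ∈ IntermediateField.adjoin k {j} := by
    intro b
    rw [← algebraMap_eq_C]
    exact IntermediateField.algebraMap_mem _ b
  have : u = HahnSeries.C a * r ^ 6 * aeval j G /
      ((HahnSeries.C (p : k)) ^ 6 * aeval (qExpand k p j) G) := by
    rw [eq_div_iff (mul_ne_zero (pow_ne_zero _ hCp) hGσ)]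
    linear_combination h7
  rw [this]
  exact div_mem (mul_mem (mul_mem (hmemC a) (pow_mem hr 6)) (hmemA G))
    (mul_mem (pow_mem (hmemC _) 6) (aeval_mem_of_mem _ hmem G))

/-- **The derivative trick**, version with a unit constant term:
if `(θ j)^6 = G(j)·Δ`, `a·σ_p Δ = u·Δ`, `u` is a root of a monic polynomial over `k[j]` whose
constant term is a unit of `k`, and `u` is not constant, then `σ_p j ∉ k(j)`. -/
theorem qExpand_not_mem_adjoin_of_theta (p : ℕ) [NeZero p] (hp : (p : k) ≠ 0)
    (j Δ u : LaurentSeries k) (hjt : Transcendental k j) (hΔ : Δ ≠ 0)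
    (a : k) (hu : HahnSeries.C a * qExpand k p Δ = u * Δ)
    (hun : ∃ n : ℤ, n ≠ 0 ∧ u.coeff n ≠ 0)
    (G : k[X]) (hG0 : G ≠ 0) (hG : thetaFun j ^ 6 = aeval j G * Δ)
    (U : (k[X])[X]) (hUm : U.Monic) (c : k) (hc : c ≠ 0) (hU0 : U.coeff 0 = C c)
    (hU : U.eval₂ (aeval j : k[X] →ₐ[k] LaurentSeries k).toRingHom u = 0) :
    qExpand k p j ∉ IntermediateField.adjoin k {j} := by
  intro hmem
  have humem := mem_adjoin_of_theta p hp j Δ u hjt hΔ a hu G hG0 hG hmem
  obtain ⟨a₁, hu1, hUa⟩ := exists_aeval_eq_of_mem_adjoin_of_monic hjt humem hUm hU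
  have hdvd : a₁ ∣ C c := by
    have h := Polynomial.divX_mul_X_add U
    have := congrArg (Polynomial.eval a₁) h
    rw [eval_add, eval_mul, eval_X, eval_C, hUa, hU0] at this
    exact ⟨-(U.divX.eval a₁), by linear_combination this⟩
  have hunit : IsUnit a₁ := isUnit_of_dvd_unit hdvd (Polynomial.isUnit_C.mpr (Ne.isUnit hc))
  obtain ⟨b, hb, rfl⟩ := Polynomial.isUnit_iff.mp hunit
  obtain ⟨n, hn0, hn⟩ := hun
  apply hn
  rw [hu1, aeval_C, algebraMap_eq_C, HahnSeries.C_apply, HahnSeries.coeff_single_of_ne hn0]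

/-- **The derivative trick**, version with the two relations of the unit (shape of `(P1)`, `(P2)`):
`Φ(σ_p j, j) = 0`, `W(u, j) = 0`, `W'(u', σ_p j) = 0` with `Φ, W, W'` monic, `u·u' = c₀ ≠ 0`. -/
theorem qExpand_not_mem_adjoin_of_theta' (p : ℕ) [NeZero p] (hp : (p : k) ≠ 0)
    (j Δ u u' : LaurentSeries k) (hjt : Transcendental k j) (hΔ : Δ ≠ 0)
    (a : k) (hu : HahnSeries.C a * qExpand k p Δ = u * Δ)
    (hun : ∃ n : ℤ, n ≠ 0 ∧ u.coeff n ≠ 0)
    (c₀ : k) (hc₀ : c₀ ≠ 0) (huu' : u * u' = HahnSeries.C c₀)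
    (G : k[X]) (hG0 : G ≠ 0) (hG : thetaFun j ^ 6 = aeval j G * Δ)
    (Φ : (k[X])[X]) (hΦm : Φ.Monic)
    (hΦ : Φ.eval₂ (aeval j : k[X] →ₐ[k] LaurentSeries k).toRingHom (qExpand k p j) = 0)
    (W : (k[X])[X]) (hWm : W.Monic)
    (hW : W.eval₂ (aeval j : k[X] →ₐ[k] LaurentSeries k).toRingHom u = 0)
    (W' : (k[X])[X]) (hWm' : W'.Monic)
    (hW' : W'.eval₂ (aeval (qExpand k p j) : k[X] →ₐ[k] LaurentSeries k).toRingHom u' = 0) :
    qExpand k p j ∉ IntermediateField.adjoin k {j} := by
  intro hmem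
  have hinj : Function.Injective (aeval j : k[X] →ₐ[k] LaurentSeries k) :=
    transcendental_iff_injective.mp hjt
  have humem := mem_adjoin_of_theta p hp j Δ u hjt hΔ a hu G hG0 hG hmem
  obtain ⟨a₁, hu1, -⟩ := exists_aeval_eq_of_mem_adjoin_of_monic hjt humem hWm hW
  obtain ⟨R, hR, -⟩ := exists_aeval_eq_of_mem_adjoin_of_monic hjt hmem hΦm hΦ
  -- `u' ∈ k(j)` and integral over `k[j]`
  have hu0 : u ≠ 0 := by
    obtain ⟨n, -, hn⟩ := hun
    intro h
    simp [h] at hn
  have hu'eq : u' = HahnSeries.C c₀ / u := by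
    rw [eq_div_iff hu0, mul_comm, huu']
  have hu'mem : u' ∈ IntermediateField.adjoin k {j} := by
    rw [hu'eq]
    refine div_mem ?_ humem
    rw [← algebraMap_eq_C]
    exact IntermediateField.algebraMap_mem _ c₀
  -- transport `W'` along `X ↦ R`
  have hcomp : (aeval (qExpand k p j) : k[X] →ₐ[k] LaurentSeries k).toRingHom
      = (aeval j : k[X] →ₐ[k] LaurentSeries k).toRingHom.comp (Polynomial.compRingHom R) := by
    refine Polynomial.ringHom_ext (fun b => ?_) ?_
    · simp
    · simp [hR]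
  have hW'' : (W'.map (Polynomial.compRingHom R)).eval₂
      (aeval j : k[X] →ₐ[k] LaurentSeries k).toRingHom u' = 0 := by
    rw [Polynomial.eval₂_map, ← hcomp]
    exact hW'
  obtain ⟨b₁, hb1, -⟩ := exists_aeval_eq_of_mem_adjoin_of_monic hjt hu'mem
    (hWm'.map (Polynomial.compRingHom R)) hW''
  have hab : a₁ * b₁ = C c₀ := by
    apply hinj
    rw [map_mul, ← hu1, ← hb1, huu', aeval_C, algebraMap_eq_C]
  have hunit : IsUnit a₁ :=
    isUnit_of_dvd_unit ⟨b₁, hab.symm⟩ (Polynomial.isUnit_C.mpr (Ne.isUnit hc₀))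
  obtain ⟨b, hb, rfl⟩ := Polynomial.isUnit_iff.mp hunit
  obtain ⟨n, hn0, hn⟩ := hun
  apply hn
  rw [hu1, aeval_C, algebraMap_eq_C, HahnSeries.C_apply, HahnSeries.coeff_single_of_ne hn0]

end Field

end Fermat.Agent.S28.Deriv


end ZBS28_003_0

/-! ### bundled: `Fermat.Agent.S28.DerivLaurent` -/
section ZBS28_003_1

/-!
# S28 — the Laurent expansion of the derivative: `laurentOf (D f) = θ (laurentOf f)`

`D = (2πi)⁻¹ d/dτ`, `θ = q d/dq = Deriv.thetaFun`.

* `IsMerInf.mdiff` : a function of `merInf` is holomorphic on `ℍ`.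
* `isMerInf_D` : `D` preserves `IsMerInf`.
* `laurentOf_D` : `laurentOf (D f) = Deriv.thetaFun (laurentOf f)`.
-/

set_option autoImplicit false

noncomputable section

namespace Fermat.Agent.S28

open UpperHalfPlane ModularForm Filter Function Derivative
open Fermat.Agent.S23 Fermat.Agent.S24
open scoped Manifold Topology

local notation "Δ" => ModularForm.discriminant

/-- HPB level: the Laurent expansion of `D f` is `θ` of the Laurent expansion of `f`. -/
theorem laurentOf_D_of_isHPB {f : ℍ → ℂ} (hf : IsHPB f) :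
    laurentOf (D f) = Deriv.thetaFun (laurentOf f) := by
  rw [laurentOf_of_isHPB (isHPB_D hf), laurentOf_of_isHPB hf]
  ext n
  rw [Deriv.thetaFun_coeff]
  rcases lt_or_ge n 0 with hn | hn
  · rw [ModularCurve.ofPowerSeries_coeff_of_neg _ hn, ModularCurve.ofPowerSeries_coeff_of_neg _ hn,
      mul_zero]
  · lift n to ℕ using hn
    rw [HahnSeries.ofPowerSeries_apply_coeff, HahnSeries.ofPowerSeries_apply_coeff,
      qExpansion_D_coeff hf]
    simp

theorem isHPB_mdiff {f : ℍ → ℂ} (hf : IsHPB f) : MDiff f := hf.1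

theorem mdiff_discriminant_pow (m : ℕ) : MDiff (fun z : ℍ => Δ z ^ m) := by
  have h : MDiff (Δ : ℍ → ℂ) := bridge_isHPB_discriminant.1
  have := h.pow m
  exact this

/-- A function of `merInf` is holomorphic. -/
theorem IsMerInf.mdiff {f : ℍ → ℂ} (hf : IsMerInf f) : MDiff f := by
  obtain ⟨m, hm⟩ := hf
  have h1 : MDiff (fun z : ℍ => f z * Δ z ^ m) := hm.1
  have h2 : MDiff (fun z : ℍ => Δ z ^ m) := mdiff_discriminant_pow m
  rw [UpperHalfPlane.mdifferentiable_iff] at h1 h2 ⊢
  refine (h1.div h2 ?_).congr ?_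
  · intro z hz
    simp only [Function.comp_apply]
    exact pow_ne_zero m (discriminant_ne_zero _)
  · intro z hz
    simp only [Function.comp_apply, Pi.div_apply]
    rw [mul_div_assoc, div_self (pow_ne_zero m (discriminant_ne_zero _)), mul_one]

/-- The key identity `D f · (Δ^m)² = D (f Δ^m) · Δ^m - (f Δ^m) · D (Δ^m)`. -/
theorem D_mul_sq {f : ℍ → ℂ} (hf : MDiff f) (m : ℕ) (z : ℍ) :
    D f z * (Δ z ^ m * Δ z ^ m) =
      D (fun z : ℍ => f z * Δ z ^ m) z * Δ z ^ m -
        (f z * Δ z ^ m) * D (fun z : ℍ => Δ z ^ m) z := by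
  have h2 : MDiff (fun z : ℍ => Δ z ^ m) := mdiff_discriminant_pow m
  have h := normalizedDerivOfComplex_mul f (fun z : ℍ => Δ z ^ m) hf h2
  have hz := congrFun h z
  simp only [Pi.add_apply, Pi.mul_apply] at hz
  have e : (f * fun z : ℍ => Δ z ^ m) = fun z : ℍ => f z * Δ z ^ m := rfl
  rw [e] at hz
  rw [hz]
  ring

/-- `D` preserves `IsMerInf`. -/
theorem isMerInf_D {f : ℍ → ℂ} (hf : IsMerInf f) : IsMerInf (D f) := by
  have hmd := hf.mdiff
  obtain ⟨m, hm⟩ := hf
  have hΔm : IsHPB (fun z : ℍ => Δ z ^ m) := bridge_isHPB_pow bridge_isHPB_discriminant m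
  refine ⟨m + m, ?_⟩
  have h1 : IsHPB (D (fun z : ℍ => f z * Δ z ^ m)) := isHPB_D hm
  have h2 : IsHPB (D (fun z : ℍ => Δ z ^ m)) := isHPB_D hΔm
  have h3 : IsHPB ((D (fun z : ℍ => f z * Δ z ^ m)) * (fun z : ℍ => Δ z ^ m) +
      (-((fun z : ℍ => f z * Δ z ^ m) * D (fun z : ℍ => Δ z ^ m)))) :=
    (h1.mul hΔm).add (HPB.neg_mem (hm.mul h2))
  convert h3 using 1
  funext z
  simp only [Pi.add_apply, Pi.mul_apply, Pi.neg_apply]
  rw [pow_add, D_mul_sq hmd m z]
  ring

/-- **Laurent expansion of the derivative.** -/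
theorem laurentOf_D {f : ℍ → ℂ} (hf : IsMerInf f) :
    laurentOf (D f) = Deriv.thetaFun (laurentOf f) := by
  have hmd := hf.mdiff
  have hDf := isMerInf_D hf
  obtain ⟨m, hm⟩ := id hf
  have hΔm : IsHPB (fun z : ℍ => Δ z ^ m) := bridge_isHPB_pow bridge_isHPB_discriminant m
  -- Laurent expansions of the pieces
  set g : ℍ → ℂ := fun z : ℍ => f z * Δ z ^ m with hg
  set e : ℍ → ℂ := fun z : ℍ => Δ z ^ m with he
  have hgM : IsMerInf g := IsHPB.isMerInf hm
  have heM : IsMerInf e := IsHPB.isMerInf hΔm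
  have hfe : g = f * e := rfl
  have Lg : laurentOf g = laurentOf f * laurentOf e := by rw [hfe, laurentOf_mul hf heM]
  have hfun : D f * (e * e) = D g * e - g * D e := by
    funext z
    simp only [Pi.mul_apply, Pi.sub_apply]
    exact D_mul_sq hmd m z
  have hDg : IsMerInf (D g) := IsHPB.isMerInf (isHPB_D hm)
  have hDe : IsMerInf (D e) := IsHPB.isMerInf (isHPB_D hΔm)
  have hL := congrArg laurentOf hfun
  have hsub : laurentOf (D g * e - g * D e) = laurentOf (D g * e) - laurentOf (g * D e) := by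
    have h1 := map_sub laurentExp (⟨D g * e, hDg.mul heM⟩ : merInf) ⟨g * D e, hgM.mul hDe⟩
    exact h1
  rw [laurentOf_mul hDf (heM.mul heM), laurentOf_mul heM heM, hsub, laurentOf_mul hDg heM,
    laurentOf_mul hgM hDe, laurentOf_D_of_isHPB hm, laurentOf_D_of_isHPB hΔm, Lg,
    Deriv.thetaFun_mul] at hL
  have hne : laurentOf e ≠ 0 := by
    rw [Ne, laurentOf_eq_zero_iff heM]
    intro h0
    have := congrFun h0 UpperHalfPlane.I
    simp only [he, Pi.zero_apply] at this
    exact pow_ne_zero m (discriminant_ne_zero _) this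
  have hne2 : laurentOf e * laurentOf e ≠ 0 := mul_ne_zero hne hne
  have hfin : laurentOf (D f) * (laurentOf e * laurentOf e) =
      Deriv.thetaFun (laurentOf f) * (laurentOf e * laurentOf e) := by
    rw [hL]; ring
  exact mul_right_cancel₀ hne2 hfin

end Fermat.Agent.S28

end
end ZBS28_003_1

/-! ### bundled: `Fermat.Agent.INJ.GaussSep` -/
section ZBS28_003_2

/-!
# INJ B-I1 (SEP): separability from a derivation

* `isSeparable_of_derivation` (abstract): `K ⊆ Ω` fields of characteristic `ℓ`, `D` a derivation of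
  `Ω` preserving `K` with `ker (D|K) = K^ℓ`.  Then every element of `Ω` algebraic over `K` is
  separable over `K`.
* `isSeparable_of_theta` : for `k` perfect of characteristic `ℓ` and `t ∈ k((q))` with `θ t ≠ 0`,
  every element of `k((q))` algebraic over `k(t)` is separable over `k(t)`.
-/

set_option autoImplicit false

namespace Fermat.Agent.INJ

open Polynomial

section AbstractSep

variable {K Ω : Type*} [Field K] [Field Ω] [Algebra K Ω]

/-- If a derivation `D` of `Ω` restricts to `K` with kernel `K^ℓ`, every algebraic element of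
`Ω` is separable over `K`. -/
theorem isSeparable_of_derivation (ℓ : ℕ) [hℓ : Fact ℓ.Prime] [CharP K ℓ]
    (D : Ω → Ω) (hadd : ∀ a b, D (a + b) = D a + D b)
    (hmul : ∀ a b, D (a * b) = D a * b + a * D b)
    (DK : K → K) (hDK : ∀ c, D (algebraMap K Ω c) = algebraMap K Ω (DK c))
    (hker : ∀ c, DK c = 0 → ∃ e, c = e ^ ℓ)
    {y : Ω} (hy : IsIntegral K y) : IsSeparable K y := by
  classical
  have hirr := minpoly.irreducible hy
  rcases Polynomial.separable_or ℓ hirr with h | ⟨_, g, hg, hgf⟩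
  · exact h
  exfalso
  have hchar : CharP Ω ℓ := charP_of_injective_algebraMap (algebraMap K Ω).injective ℓ
  have hD0 : D 0 = 0 := by
    have := hadd 0 0
    rw [add_zero] at this
    exact left_eq_add.mp this
  let Dh : Ω →+ Ω := AddMonoidHom.mk' D hadd
  have hDh : ∀ a, Dh a = D a := fun _ => rfl
  have hD1 : D 1 = 0 := by
    have := hmul 1 1
    rw [mul_one, mul_one, one_mul] at this
    exact left_eq_add.mp this
  have hDpow : ∀ (w : Ω) (n : ℕ), D (w ^ (n + 1)) = ((n + 1 : ℕ) : Ω) * w ^ n * D w := by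
    intro w n
    induction n with
    | zero => simp
    | succ n ih =>
      rw [pow_succ, hmul, ih]
      push_cast
      ring
  have hDpow0 : ∀ (w : Ω), D w = 0 → ∀ n : ℕ, D (w ^ n) = 0 := by
    intro w hw n
    cases n with
    | zero => rw [pow_zero]; exact hD1
    | succ n => rw [hDpow, hw, mul_zero]
  set z := y ^ ℓ with hz
  have hDz : D z = 0 := by
    obtain ⟨m, hm⟩ : ∃ m, ℓ = m + 1 := ⟨ℓ - 1, (Nat.succ_pred_eq_of_pos hℓ.out.pos).symm⟩
    rw [hz]
    have h1 := hDpow y m
    rw [← hm] at h1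
    rw [h1, CharP.cast_eq_zero, zero_mul, zero_mul]
  have hgz : aeval z g = 0 := by
    rw [hz, ← expand_aeval, hgf, minpoly.aeval]
  have hgmonic : g.Monic := by
    have := minpoly.monic hy
    rw [← hgf] at this
    exact (monic_expand_iff hℓ.out.pos).mp this
  have hDK0 : DK 0 = 0 := by
    apply (algebraMap K Ω).injective
    rw [← hDK, map_zero, hD0]
  have hDK1 : DK 1 = 0 := by
    apply (algebraMap K Ω).injective
    rw [← hDK, map_one, hD1, map_zero]
  set gD : K[X] := ∑ i ∈ g.support, monomial i (DK (g.coeff i)) with hgD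
  have hcoeff : ∀ i, gD.coeff i = DK (g.coeff i) := by
    intro i
    rw [hgD, finsetSum_coeff]
    simp only [coeff_monomial]
    rw [Finset.sum_ite_eq' g.support i]
    split_ifs with h
    · rfl
    · rw [notMem_support_iff.mp h, hDK0]
  have hg0 : g ≠ 0 := hgmonic.ne_zero
  have hgDz : aeval z gD = 0 := by
    have h1 : D (aeval z g) = aeval z gD := by
      rw [aeval_def, eval₂_eq_sum, sum_def, ← hDh, map_sum, hgD, map_sum]
      refine Finset.sum_congr rfl fun i _ => ?_
      rw [hDh, hmul, hDK, hDpow0 z hDz, mul_zero, add_zero, aeval_monomial]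
    rw [← h1, hgz, hD0]
  have hdeg : gD.degree < g.degree := by
    rw [degree_eq_natDegree hg0, degree_lt_iff_coeff_zero]
    intro m hm
    rw [hcoeff]
    rcases (le_iff_lt_or_eq.mp hm) with h | h
    · rw [coeff_eq_zero_of_natDegree_lt h, hDK0]
    · rw [← h, coeff_natDegree, hgmonic.leadingCoeff, hDK1]
  have hgmin : g = minpoly K z := minpoly.eq_of_irreducible_of_monic hg hgz hgmonic
  have hgD0 : gD = 0 := by
    by_contra hne
    have h1 := minpoly.degree_le_of_ne_zero K z hne hgDz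
    rw [← hgmin] at h1
    exact absurd hdeg (not_lt.mpr h1)
  have hcoeffs : ∀ i, ∃ e, g.coeff i = e ^ ℓ := fun i =>
    hker _ (by rw [← hcoeff, hgD0, coeff_zero])
  choose e he using hcoeffs
  set h : K[X] := ∑ i ∈ g.support, monomial i (e i) with hh
  have hhcoeff : ∀ i, h.coeff i = if i ∈ g.support then e i else 0 := by
    intro i
    rw [hh, finsetSum_coeff]
    simp only [coeff_monomial]
    rw [Finset.sum_ite_eq' g.support i]
  have hmap : h.map (frobenius K ℓ) = g := by
    ext i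
    rw [coeff_map, hhcoeff]
    split_ifs with hi
    · rw [frobenius_def, ← he]
    · rw [map_zero, notMem_support_iff.mp hi]
  have hf : minpoly K y = h ^ ℓ := by
    rw [← hgf, ← hmap, ← map_expand, map_frobenius_expand]
  rw [hf] at hirr
  exact not_irreducible_pow hℓ.out.ne_one hirr

end AbstractSep

section ThetaSep

open Fermat.Agent.S28.Deriv IntermediateField

variable {k : Type*} [Field k]

/-- `θ` kills `ℓ`-th powers in characteristic `ℓ`. -/
theorem thetaFun_pow_char (ℓ : ℕ) [hℓ : Fact ℓ.Prime] [CharP k ℓ] (x : LaurentSeries k) :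
    thetaFun (x ^ ℓ) = 0 := by
  have hchar : CharP (LaurentSeries k) ℓ :=
    charP_of_injective_algebraMap (algebraMap k (LaurentSeries k)).injective ℓ
  rw [thetaFun_pow, CharP.cast_eq_zero, zero_mul, zero_mul]

/-- The kernel of `θ` on `k(t)` is `k(t)^ℓ` (for `k` perfect, `θ t ≠ 0`). -/
theorem exists_pow_eq_of_thetaFun_eq_zero (ℓ : ℕ) [hℓ : Fact ℓ.Prime] [CharP k ℓ]
    [PerfectRing k ℓ] {t : LaurentSeries k} (ht : Transcendental k t) (hθ : thetaFun t ≠ 0)
    {c : LaurentSeries k} (hc : c ∈ adjoin k {t}) (h0 : thetaFun c = 0) :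
    ∃ e ∈ adjoin k {t}, c = e ^ ℓ := by
  obtain ⟨a, b, rfl⟩ := (mem_adjoin_simple_iff k c).mp hc
  have hmem : ∀ P : k[X], aeval t P ∈ adjoin k {t} := fun P =>
    (mem_adjoin_simple_iff k _).mpr ⟨P, 1, by simp⟩
  by_cases hb : aeval t b = 0
  · refine ⟨0, zero_mem _, ?_⟩
    rw [hb, div_zero, zero_pow hℓ.out.ne_zero]
  obtain ⟨m, hm⟩ : ∃ m, ℓ = m + 1 := ⟨ℓ - 1, (Nat.succ_pred_eq_of_pos hℓ.out.pos).symm⟩
  set P : k[X] := a * b ^ m with hP
  have h1 : aeval t P = aeval t a / aeval t b * (aeval t b) ^ ℓ := by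
    rw [hP, map_mul, map_pow, hm, pow_succ]
    field_simp
  have h2 : thetaFun (aeval t P) = 0 := by
    rw [h1, thetaFun_mul, h0, mul_zero, thetaFun_pow_char, mul_zero, add_zero]
  rw [thetaFun_aeval] at h2
  have h3 : aeval t (derivative P) = 0 := (mul_eq_zero.mp h2).resolve_right hθ
  have h4 : derivative P = 0 := by
    by_contra hne
    exact (transcendental_iff.mp ht (derivative P) h3 |> hne)
  have h5 : expand k ℓ (contract ℓ P) = P := expand_contract ℓ h4 hℓ.out.ne_zero
  set P₂ : k[X] := (contract ℓ P).map ((frobeniusEquiv k ℓ).symm : k →+* k) with hP₂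
  have h6 : P₂ ^ ℓ = P := by
    rw [← map_frobenius_expand, map_expand, hP₂, Polynomial.map_map]
    have : (frobenius k ℓ).comp ((frobeniusEquiv k ℓ).symm : k →+* k) = RingHom.id k := by
      ext x
      simp
    rw [this, Polynomial.map_id, h5]
  refine ⟨aeval t P₂ / aeval t b, div_mem (hmem _) (hmem _), ?_⟩
  rw [div_pow, ← map_pow, h6, h1]
  field_simp

/-- **SEP**: for `k` perfect of characteristic `ℓ` and `t ∈ k((q))` transcendental with `θ t ≠ 0`,
every element of `k((q))` algebraic over `k(t)` is separable over `k(t)`. -/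
theorem isSeparable_of_theta (ℓ : ℕ) [hℓ : Fact ℓ.Prime] [CharP k ℓ] [PerfectRing k ℓ]
    {t : LaurentSeries k} (ht : Transcendental k t) (hθ : thetaFun t ≠ 0)
    {y : LaurentSeries k} (hy : IsIntegral (adjoin k {t}) y) :
    IsSeparable (adjoin k {t}) y := by
  haveI : CharP (adjoin k {t}) ℓ :=
    charP_of_injective_algebraMap (algebraMap k (adjoin k {t})).injective ℓ
  have hDmem : ∀ c : adjoin k {t}, thetaFun (c : LaurentSeries k) / thetaFun t ∈ adjoin k {t} := by
    intro c
    obtain ⟨r, hr, h⟩ := exists_thetaFun_eq_mul_of_mem_adjoin t c.2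
    rw [h, mul_div_assoc, div_self hθ, mul_one]
    exact hr
  refine isSeparable_of_derivation ℓ (fun x => thetaFun x / thetaFun t) ?_ ?_
    (fun c => ⟨_, hDmem c⟩) (fun c => rfl) ?_ hy
  · intro a b
    show thetaFun (a + b) / thetaFun t = thetaFun a / thetaFun t + thetaFun b / thetaFun t
    rw [thetaFun_add, add_div]
  · intro a b
    show thetaFun (a * b) / thetaFun t = thetaFun a / thetaFun t * b + a * (thetaFun b / thetaFun t)
    rw [thetaFun_mul]
    field_simp
    ring
  · intro c hc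
    have h0 : thetaFun (c : LaurentSeries k) = 0 := by
      have h1 := congrArg Subtype.val hc
      simp only [ZeroMemClass.coe_zero] at h1
      rcases div_eq_zero_iff.mp h1 with h | h
      · exact h
      · exact absurd h hθ
    obtain ⟨e, he, hce⟩ := exists_pow_eq_of_thetaFun_eq_zero ℓ ht hθ c.2 h0
    exact ⟨⟨e, he⟩, Subtype.ext hce⟩

end ThetaSep

end Fermat.Agent.INJ


end ZBS28_003_2

/-! ### bundled: `Fermat.Agent.R38.HolCuspAbs` -/
section ZBS28_003_3
/-
ROW 38, PKG-TRES, route HOL-dlog (sub-captain helper83), piece **HOL-CUSP**, abstract part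
(helper55): orders of logarithmic derivatives in `k((Q))`, characteristic `p`.

* `r38hcusp_order_eq`, `r38hcusp_order_inv`, `r38hcusp_order_sub_C`, `r38hcusp_order_theta`;
* `r38hcusp_theta_order` : `p ∣ ord R`, `θ R ≠ 0` ⇒ `ord (θ R) ≥ ord R + 1`;
* `r38hcusp_dlog_coeff` : `p ∣ ord R` ⇒ `θ R / R ∈ Q k[[Q]]`;
* `r38hcusp_abs` : `ord J = −N < 0`, `N ≠ 0` in `k`, `p ∣ ord R` ⇒
  `J (J − c) (θ R / θ J) / R` has order `≥ 1 − N`.
-/

set_option autoImplicit false

namespace Fermat.Agent.R38

open Fermat.Agent.S28.Deriv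

section Laurent

variable {k : Type*} [Field k]

theorem r38hcusp_coeff_order_ne_zero {x : LaurentSeries k} (hx : x ≠ 0) :
    x.coeff x.order ≠ 0 := fun h => hx (HahnSeries.coeff_order_eq_zero.mp h)

/-- characterisation of the order of a Laurent series -/
theorem r38hcusp_order_eq {x : LaurentSeries k} {a : ℤ} (h1 : ∀ n < a, x.coeff n = 0)
    (h2 : x.coeff a ≠ 0) : x.order = a := by
  have hx : x ≠ 0 := fun h => h2 (by rw [h, HahnSeries.coeff_zero])
  apply le_antisymm
  · exact HahnSeries.order_le_of_coeff_ne_zero h2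
  · by_contra hlt
    push Not at hlt
    exact r38hcusp_coeff_order_ne_zero hx (h1 _ hlt)

theorem r38hcusp_order_inv {x : LaurentSeries k} (hx : x ≠ 0) : (x⁻¹).order = -x.order := by
  have h := HahnSeries.order_mul hx (inv_ne_zero hx)
  rw [mul_inv_cancel₀ hx, HahnSeries.order_one] at h
  omega

/-- subtracting a constant does not change a negative order -/
theorem r38hcusp_order_sub_C {x : LaurentSeries k} (hx : x ≠ 0) (hneg : x.order < 0) (c : k) :
    (x - HahnSeries.C c).order = x.order := by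
  apply r38hcusp_order_eq
  · intro n hn
    rw [HahnSeries.coeff_sub, HahnSeries.coeff_eq_zero_of_lt_order hn, HahnSeries.C_apply,
      HahnSeries.coeff_single_of_ne (by omega), sub_zero]
  · rw [HahnSeries.coeff_sub, HahnSeries.C_apply, HahnSeries.coeff_single_of_ne (by omega),
      sub_zero]
    exact r38hcusp_coeff_order_ne_zero hx

/-- `θ` does not change an order which is nonzero in `k` -/
theorem r38hcusp_order_theta {x : LaurentSeries k} (hx : x ≠ 0)
    (ha : ((x.order : ℤ) : k) ≠ 0) : (thetaFun x).order = x.order := by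
  apply r38hcusp_order_eq
  · intro n hn
    rw [thetaFun_coeff, HahnSeries.coeff_eq_zero_of_lt_order hn, mul_zero]
  · rw [thetaFun_coeff]
    exact mul_ne_zero ha (r38hcusp_coeff_order_ne_zero hx)

/-- `θ R` has order `> ord R` if `p ∣ ord R` (characteristic `p`). -/
theorem r38hcusp_theta_order (p : ℕ) [CharP k p] {R : LaurentSeries k}
    (hp : (p : ℤ) ∣ R.order) (hθ : thetaFun R ≠ 0) : R.order + 1 ≤ (thetaFun R).order := by
  by_contra hlt
  push Not at hlt
  have hle : (thetaFun R).order ≤ R.order := by omega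
  have h0 : (thetaFun R).coeff (thetaFun R).order = 0 := by
    rw [thetaFun_coeff]
    rcases lt_or_eq_of_le hle with h | h
    · rw [HahnSeries.coeff_eq_zero_of_lt_order h, mul_zero]
    · rw [h]
      obtain ⟨c, hc⟩ := hp
      have h1 : ((R.order : ℤ) : k) = 0 := by
        rw [hc, Int.cast_mul, Int.cast_natCast, CharP.cast_eq_zero, zero_mul]
      rw [h1, zero_mul]
  exact r38hcusp_coeff_order_ne_zero hθ h0

/-- the logarithmic derivative `θ R / R` lies in `Q k[[Q]]` if `p ∣ ord R` -/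
theorem r38hcusp_dlog_coeff (p : ℕ) [CharP k p] {R : LaurentSeries k} (hR : R ≠ 0)
    (hp : (p : ℤ) ∣ R.order) (m : ℤ) (hm : m ≤ 0) : (thetaFun R * R⁻¹).coeff m = 0 := by
  by_cases hθ : thetaFun R = 0
  · rw [hθ, zero_mul, HahnSeries.coeff_zero]
  · apply HahnSeries.coeff_eq_zero_of_lt_order
    rw [HahnSeries.order_mul hθ (inv_ne_zero hR), r38hcusp_order_inv hR]
    have := r38hcusp_theta_order p hp hθ
    omega

/-- **HOL-CUSP, abstract form**: for `J` of order `−N < 0` (`N ≠ 0` in `k`) and `R ≠ 0` with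
`p ∣ ord R`, the series `J (J − c) (θ R / θ J) / R` has order `≥ 1 − N`. -/
theorem r38hcusp_abs (p : ℕ) [CharP k p] {J R : LaurentSeries k} {N : ℕ} (hN : 0 < N)
    (hNk : ((N : ℕ) : k) ≠ 0) (hJ0 : J ≠ 0) (hJ : J.order = -(N : ℤ)) (c : k) (hR : R ≠ 0)
    (hp : (p : ℤ) ∣ R.order) (m : ℤ) (hm : m ≤ -(N : ℤ)) :
    (J * (J - HahnSeries.C c) * (thetaFun R * (thetaFun J)⁻¹) * R⁻¹).coeff m = 0 := by
  have hJneg : J.order < 0 := by rw [hJ]; omega
  have hJc : (J - HahnSeries.C c).order = -(N : ℤ) := by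
    rw [r38hcusp_order_sub_C hJ0 hJneg, hJ]
  have hJc0 : J - HahnSeries.C c ≠ 0 := by
    intro h
    rw [h, HahnSeries.order_zero] at hJc
    omega
  have hak : ((J.order : ℤ) : k) ≠ 0 := by
    rw [hJ, Int.cast_neg, Int.cast_natCast]
    exact neg_ne_zero.mpr hNk
  have hθJ : (thetaFun J).order = -(N : ℤ) := by
    rw [r38hcusp_order_theta hJ0 hak, hJ]
  have hθJ0 : thetaFun J ≠ 0 := by
    intro h
    rw [h, HahnSeries.order_zero] at hθJ
    omega
  by_cases hθ : thetaFun R = 0
  · rw [hθ, zero_mul, mul_zero, zero_mul, HahnSeries.coeff_zero]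
  · apply HahnSeries.coeff_eq_zero_of_lt_order
    have h1 := r38hcusp_theta_order p hp hθ
    rw [HahnSeries.order_mul (mul_ne_zero (mul_ne_zero hJ0 hJc0)
        (mul_ne_zero hθ (inv_ne_zero hθJ0))) (inv_ne_zero hR),
      HahnSeries.order_mul (mul_ne_zero hJ0 hJc0) (mul_ne_zero hθ (inv_ne_zero hθJ0)),
      HahnSeries.order_mul hJ0 hJc0, HahnSeries.order_mul hθ (inv_ne_zero hθJ0),
      r38hcusp_order_inv hθJ0, r38hcusp_order_inv hR, hJ, hJc, hθJ]
    omega

end Laurent

end Fermat.Agent.R38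


end ZBS28_003_3

/-! ### bundled: `Fermat.Agent.ES.I2aux.Residue` -/
section ZBS28_003_4

/-!
# ES / I2aux: formal residues

`θ = q d/dq` on Laurent series (`Fermat.Agent.S28.Deriv.thetaFun`).  For a nonzero Laurent series
`τ` over a field `k` of ANY characteristic and `n : ℤ`:

  `(τ ^ n * θ τ).coeff 0 = 0` for `n ≠ -1`,   `(τ⁻¹ * θ τ).coeff 0 = ord τ`.

(`res_zpow_mul_theta`.)  In characteristic `0` this is `(n + 1) τ^n θτ = θ (τ^(n+1))`; in
characteristic `p` we lift the coefficients to the torsion-free ring `MvPolynomial k ℤ`.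
-/

set_option autoImplicit false

noncomputable section

namespace Fermat.Agent.ES.I2aux

open HahnSeries ModularCurve Fermat.Agent.S28.Deriv

section Ring

variable {R : Type*} [CommRing R]

theorem res_coeff_zero_thetaFun (x : LaurentSeries R) : (thetaFun x).coeff 0 = 0 := by
  rw [thetaFun_coeff]
  simp

theorem res_coeff_intCast_mul (N : ℤ) (x : LaurentSeries R) (i : ℤ) :
    ((N : LaurentSeries R) * x).coeff i = (N : R) * x.coeff i := by
  have h : (N : LaurentSeries R) = HahnSeries.C (N : R) := (map_intCast HahnSeries.C N).symm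
  rw [h, HahnSeries.C_mul_eq_smul, HahnSeries.coeff_smul, smul_eq_mul]

/-- `θ (W⁻¹) = - W⁻¹ W⁻¹ θ W` for a unit `W`. -/
theorem res_thetaFun_inv (W : (LaurentSeries R)ˣ) :
    thetaFun ((W⁻¹ : (LaurentSeries R)ˣ) : LaurentSeries R) =
      -(((W⁻¹ : (LaurentSeries R)ˣ) : LaurentSeries R) * ((W⁻¹ : (LaurentSeries R)ˣ) : LaurentSeries R)
        * thetaFun (W : LaurentSeries R)) := by
  have h1 : thetaFun ((W : LaurentSeries R) * ((W⁻¹ : (LaurentSeries R)ˣ) : LaurentSeries R)) = 0 := by
    rw [Units.mul_inv, thetaFun_one]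
  rw [thetaFun_mul] at h1
  have h2 : ((W⁻¹ : (LaurentSeries R)ˣ) : LaurentSeries R) *
      ((W : LaurentSeries R) * thetaFun ((W⁻¹ : (LaurentSeries R)ˣ) : LaurentSeries R) +
        ((W⁻¹ : (LaurentSeries R)ˣ) : LaurentSeries R) * thetaFun (W : LaurentSeries R)) = 0 := by
    rw [h1, mul_zero]
  rw [mul_add, ← mul_assoc, Units.inv_mul, one_mul] at h2
  rw [eq_neg_iff_add_eq_zero, ← h2]
  ring

/-- Leibniz rule for integer powers of a unit. -/
theorem res_thetaFun_zpow (W : (LaurentSeries R)ˣ) (N : ℤ) :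
    thetaFun ((W ^ N : (LaurentSeries R)ˣ) : LaurentSeries R) =
      (N : LaurentSeries R) * ((W ^ (N - 1) : (LaurentSeries R)ˣ) : LaurentSeries R) *
        thetaFun (W : LaurentSeries R) := by
  induction N using Int.induction_on with
  | zero => simp
  | succ n ih =>
    have e1 : ((W ^ ((n : ℤ) + 1) : (LaurentSeries R)ˣ) : LaurentSeries R) =
        ((W ^ (n : ℤ) : (LaurentSeries R)ˣ) : LaurentSeries R) * (W : LaurentSeries R) := by
      rw [zpow_add_one, Units.val_mul]
    have e2 : ((W ^ (n : ℤ) : (LaurentSeries R)ˣ) : LaurentSeries R) =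
        ((W ^ ((n : ℤ) - 1) : (LaurentSeries R)ˣ) : LaurentSeries R) * (W : LaurentSeries R) := by
      rw [← Units.val_mul, ← zpow_add_one, sub_add_cancel]
    rw [e1, thetaFun_mul, ih, add_sub_cancel_right]
    push_cast
    rw [e2]
    ring
  | pred n ih =>
    have e1 : ((W ^ (-(n : ℤ) - 1) : (LaurentSeries R)ˣ) : LaurentSeries R) =
        ((W ^ (-(n : ℤ)) : (LaurentSeries R)ˣ) : LaurentSeries R) *
          ((W⁻¹ : (LaurentSeries R)ˣ) : LaurentSeries R) := by
      rw [← Units.val_mul, ← zpow_sub_one]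
    have e2 : ((W ^ (-(n : ℤ) - 1 - 1) : (LaurentSeries R)ˣ) : LaurentSeries R) =
        ((W ^ (-(n : ℤ)) : (LaurentSeries R)ˣ) : LaurentSeries R) *
          ((W⁻¹ : (LaurentSeries R)ˣ) : LaurentSeries R) *
          ((W⁻¹ : (LaurentSeries R)ˣ) : LaurentSeries R) := by
      rw [← Units.val_mul, ← Units.val_mul, ← zpow_sub_one, ← zpow_sub_one]
    rw [e1] at ih
    rw [e2, e1, thetaFun_mul, ih, res_thetaFun_inv]
    push_cast
    ring

/-- over a torsion-free ring, `a₀ (W ^ n θ W) = 0` for `n ≠ -1` -/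
theorem res_unit_of_torsionFree (htf : ∀ (N : ℤ) (s : R), N ≠ 0 → (N : R) * s = 0 → s = 0)
    (W : (LaurentSeries R)ˣ) (n : ℤ) (hn : n ≠ -1) :
    (((W ^ n : (LaurentSeries R)ˣ) : LaurentSeries R) * thetaFun (W : LaurentSeries R)).coeff 0
      = 0 := by
  have h := res_thetaFun_zpow W (n + 1)
  rw [add_sub_cancel_right] at h
  have h0 := congrArg (fun x : LaurentSeries R => x.coeff 0) h
  simp only [res_coeff_zero_thetaFun] at h0
  rw [mul_assoc, res_coeff_intCast_mul] at h0
  refine htf (n + 1) _ ?_ h0.symm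
  intro h1
  apply hn
  omega

end Ring

section Lift

open scoped Classical

variable {k : Type*} [Field k]

/-- the specialisation `MvPolynomial k ℤ → k`, `X a ↦ a` -/
def resLiftHom (k : Type*) [Field k] : MvPolynomial k ℤ →+* k :=
  MvPolynomial.eval₂Hom (Int.castRingHom k) id

theorem resLiftHom_X (a : k) : resLiftHom k (MvPolynomial.X a) = a := by
  simp [resLiftHom]

omit [Field k] in
theorem resLift_torsionFree (N : ℤ) (s : MvPolynomial k ℤ) (hN : N ≠ 0)
    (h : (N : MvPolynomial k ℤ) * s = 0) : s = 0 := by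
  rcases mul_eq_zero.1 h with h | h
  · exact absurd (Int.cast_eq_zero.1 h) hN
  · exact h

/-- a coefficientwise lift of `τ` to `MvPolynomial k ℤ` with leading coefficient `1` -/
def resLiftSeries (τ : LaurentSeries k) : LaurentSeries (MvPolynomial k ℤ) where
  coeff i := if i = τ.order then 1 else if τ.coeff i = 0 then 0 else MvPolynomial.X (τ.coeff i)
  isPWO_support' := by
    refine (τ.isPWO_support.union (Set.isPWO_singleton τ.order)).mono ?_
    intro i hi
    simp only [Function.mem_support, ne_eq] at hi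
    by_cases h1 : i = τ.order
    · exact Or.inr h1
    · refine Or.inl ?_
      rw [HahnSeries.mem_support]
      intro h2
      apply hi
      rw [if_neg h1, if_pos h2]

theorem resLiftSeries_coeff (τ : LaurentSeries k) (i : ℤ) :
    (resLiftSeries τ).coeff i =
      if i = τ.order then 1 else if τ.coeff i = 0 then 0 else MvPolynomial.X (τ.coeff i) := rfl

theorem resLiftSeries_order (τ : LaurentSeries k) : (resLiftSeries τ).order = τ.order := by
  have h1 : (resLiftSeries τ).coeff τ.order ≠ 0 := by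
    rw [resLiftSeries_coeff, if_pos rfl]
    exact one_ne_zero
  refine le_antisymm (HahnSeries.order_le_of_coeff_ne_zero h1) ?_
  by_contra hlt
  rw [not_le] at hlt
  have h2 : (resLiftSeries τ).coeff (resLiftSeries τ).order ≠ 0 := fun h =>
    (HahnSeries.ne_zero_of_coeff_ne_zero h1) (HahnSeries.coeff_order_eq_zero.1 h)
  apply h2
  rw [resLiftSeries_coeff, if_neg hlt.ne, if_pos (HahnSeries.coeff_eq_zero_of_lt_order hlt)]

theorem resLiftSeries_isUnit (τ : LaurentSeries k) : IsUnit (resLiftSeries τ) := by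
  refine HahnSeries.isUnit_of_isUnit_leadingCoeff_AddUnitOrder ?_ ?_
  · rw [HahnSeries.leadingCoeff_eq, resLiftSeries_order, resLiftSeries_coeff, if_pos rfl]
    exact isUnit_one
  · exact AddGroup.isAddUnit _

theorem coeffMap_resLiftSeries (τ : LaurentSeries k) (h1 : τ.coeff τ.order = 1) :
    coeffMap (resLiftHom k) (resLiftSeries τ) = τ := by
  ext i
  rw [coeffMap_coeff, resLiftSeries_coeff]
  split_ifs with h2 h3
  · rw [map_one, h2, h1]
  · rw [map_zero, h3]
  · rw [resLiftHom_X]

/-- `a₀ (τ ^ n θ τ) = 0` for `n ≠ -1`, normalised case -/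
theorem res_zpow_mul_theta_of_monic (τ : LaurentSeries k) (h1 : τ.coeff τ.order = 1) (n : ℤ)
    (hn : n ≠ -1) : (τ ^ n * thetaFun τ).coeff 0 = 0 := by
  set W : (LaurentSeries (MvPolynomial k ℤ))ˣ := (resLiftSeries_isUnit τ).unit with hW
  have hWv : (W : LaurentSeries (MvPolynomial k ℤ)) = resLiftSeries τ := IsUnit.unit_spec _
  have h2 := res_unit_of_torsionFree (R := MvPolynomial k ℤ)
    (fun N s hN h => resLift_torsionFree N s hN h) W n hn
  have h3 := congrArg (resLiftHom k) h2
  rw [map_zero, ← coeffMap_coeff, map_mul, ← thetaFun_coeffMap, hWv, coeffMap_resLiftSeries τ h1]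
    at h3
  have h4 : coeffMap (resLiftHom k) ((W ^ n : (LaurentSeries (MvPolynomial k ℤ))ˣ) :
      LaurentSeries (MvPolynomial k ℤ)) = τ ^ n := by
    have h5 : (Units.map (coeffMap (resLiftHom k)).toMonoidHom W : LaurentSeries k) = τ := by
      rw [Units.coe_map]
      show coeffMap (resLiftHom k) (W : LaurentSeries (MvPolynomial k ℤ)) = τ
      rw [hWv, coeffMap_resLiftSeries τ h1]
    have h6 : coeffMap (resLiftHom k) ((W ^ n : (LaurentSeries (MvPolynomial k ℤ))ˣ) :
        LaurentSeries (MvPolynomial k ℤ)) =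
        ((Units.map (coeffMap (resLiftHom k)).toMonoidHom W ^ n : (LaurentSeries k)ˣ) :
          LaurentSeries k) := by
      rw [← map_zpow, Units.coe_map]
      rfl
    rw [h6, Units.val_zpow_eq_zpow_val, h5]
  rw [h4] at h3
  exact h3

end Lift

section Field

variable {k : Type*} [Field k]

theorem res_coeff_C_mul (c : k) (x : LaurentSeries k) (i : ℤ) :
    ((HahnSeries.C c : LaurentSeries k) * x).coeff i = c * x.coeff i := by
  rw [HahnSeries.C_mul_eq_smul, HahnSeries.coeff_smul, smul_eq_mul]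

/-- `a₀ (τ ^ n θ τ) = 0` for `n ≠ -1`, any characteristic. -/
theorem res_zpow_mul_theta_of_ne (τ : LaurentSeries k) (hτ : τ ≠ 0) (n : ℤ) (hn : n ≠ -1) :
    (τ ^ n * thetaFun τ).coeff 0 = 0 := by
  set c := τ.coeff τ.order with hc
  have hc0 : c ≠ 0 := fun h => hτ (HahnSeries.coeff_order_eq_zero.1 h)
  set τ₁ : LaurentSeries k := HahnSeries.C c⁻¹ * τ with hτ₁
  have hτeq : τ = HahnSeries.C c * τ₁ := by
    rw [hτ₁, ← mul_assoc, ← map_mul, mul_inv_cancel₀ hc0, map_one, one_mul]
  have hτ₁0 : τ₁ ≠ 0 := by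
    intro h
    apply hτ
    rw [hτeq, h, mul_zero]
  have hco : ∀ i, τ₁.coeff i = c⁻¹ * τ.coeff i := fun i => res_coeff_C_mul _ _ _
  have ho : τ₁.order = τ.order := by
    refine le_antisymm (HahnSeries.order_le_of_coeff_ne_zero ?_)
      (HahnSeries.order_le_of_coeff_ne_zero ?_)
    · rw [hco, ← hc, inv_mul_cancel₀ hc0]
      exact one_ne_zero
    · intro h
      have h2 : τ₁.coeff τ₁.order = 0 := by rw [hco, h, mul_zero]
      exact hτ₁0 (HahnSeries.coeff_order_eq_zero.1 h2)
  have h1 : τ₁.coeff τ₁.order = 1 := by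
    rw [ho, hco, ← hc, inv_mul_cancel₀ hc0]
  have key := res_zpow_mul_theta_of_monic τ₁ h1 n hn
  have h2 : τ ^ n * thetaFun τ =
      HahnSeries.C (c ^ n * c) * (τ₁ ^ n * thetaFun τ₁) := by
    conv_lhs => rw [hτeq]
    rw [mul_zpow, thetaFun_mul, thetaFun_C, mul_zero, add_zero, map_mul, map_zpow₀]
    ring
  rw [h2, res_coeff_C_mul, key, mul_zero]

/-- `a₀ (τ⁻¹ θ τ) = ord τ`. -/
theorem res_inv_mul_theta (τ : LaurentSeries k) (hτ : τ ≠ 0) :
    (τ⁻¹ * thetaFun τ).coeff 0 = ((τ.order : ℤ) : k) := by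
  set m : k := ((τ.order : ℤ) : k) with hm
  set ρ : LaurentSeries k := thetaFun τ - HahnSeries.C m * τ with hρ
  have hρco : ∀ i, ρ.coeff i = ((i : k) - m) * τ.coeff i := by
    intro i
    rw [hρ, HahnSeries.coeff_sub, thetaFun_coeff, res_coeff_C_mul]
    ring
  have hθ : thetaFun τ = HahnSeries.C m * τ + ρ := by rw [hρ]; ring
  have h1 : τ⁻¹ * thetaFun τ = HahnSeries.C m + τ⁻¹ * ρ := by
    rw [hθ, mul_add, ← mul_assoc, mul_comm τ⁻¹ (HahnSeries.C m), mul_assoc, inv_mul_cancel₀ hτ,
      mul_one]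
  have h2 : (τ⁻¹ * ρ).coeff 0 = 0 := by
    by_cases hρ0 : ρ = 0
    · rw [hρ0, mul_zero, HahnSeries.coeff_zero]
    · have hlt : τ.order < ρ.order := by
        by_contra hle
        rw [not_lt] at hle
        have h3 : ρ.coeff ρ.order ≠ 0 := fun h => hρ0 (HahnSeries.coeff_order_eq_zero.1 h)
        apply h3
        rw [hρco]
        rcases lt_or_eq_of_le hle with h | h
        · rw [HahnSeries.coeff_eq_zero_of_lt_order h, mul_zero]
        · rw [h, hm, sub_self, zero_mul]
      have hinv0 : τ⁻¹ ≠ 0 := inv_ne_zero hτ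
      have ho1 : τ.order + (τ⁻¹).order = 0 := by
        rw [← HahnSeries.order_mul hτ hinv0, mul_inv_cancel₀ hτ, HahnSeries.order_one]
      have ho2 : (τ⁻¹ * ρ).order = (τ⁻¹).order + ρ.order := HahnSeries.order_mul hinv0 hρ0
      refine HahnSeries.coeff_eq_zero_of_lt_order ?_
      rw [ho2]
      omega
  rw [h1, HahnSeries.coeff_add, h2, add_zero]
  exact HahnSeries.coeff_single_same 0 m

/-- **Formal residues.**  For `τ ≠ 0` in `k((q))` (any characteristic) and `n : ℤ`:
`a₀ (τ ^ n · θ τ) = ord τ` if `n = -1` and `0` otherwise. -/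
theorem res_zpow_mul_theta (τ : LaurentSeries k) (hτ : τ ≠ 0) (n : ℤ) :
    (τ ^ n * thetaFun τ).coeff 0 = if n = -1 then ((τ.order : ℤ) : k) else 0 := by
  split_ifs with h
  · rw [h, zpow_neg_one]
    exact res_inv_mul_theta τ hτ
  · exact res_zpow_mul_theta_of_ne τ hτ n h

/-- residues of a Laurent polynomial in `τ`: `a₀ ((Σ cₙ τⁿ) · θ τ) = c₋₁ · ord τ`. -/
theorem res_laurentPoly_mul_theta (τ : LaurentSeries k) (hτ : τ ≠ 0) (c : ℤ →₀ k) :
    ((∑ n ∈ c.support, HahnSeries.C (c n) * τ ^ n) * thetaFun τ).coeff 0 =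
      c (-1) * ((τ.order : ℤ) : k) := by
  classical
  rw [Finset.sum_mul, HahnSeries.coeff_sum]
  have h1 : ∀ n ∈ c.support, (HahnSeries.C (c n) * τ ^ n * thetaFun τ).coeff 0 =
      if n = -1 then c (-1) * ((τ.order : ℤ) : k) else 0 := by
    intro n _
    rw [mul_assoc, res_coeff_C_mul, res_zpow_mul_theta τ hτ n]
    split_ifs with h
    · rw [h]
    · rw [mul_zero]
  rw [Finset.sum_congr rfl h1, Finset.sum_ite_eq' c.support (-1)]
  split_ifs with h
  · rfl
  · rw [Finsupp.notMem_support_iff.1 h, zero_mul]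

end Field

end Fermat.Agent.ES.I2aux

end
end ZBS28_003_4
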