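/- GENERATED FILE (helper35, build-time optimisation, NOTES/ZB.md): verbatim concatenation of the modules
   Fermat.Agent.S28.LaurentRank
   Fermat.Agent.S28.PrimeLevel
   Fermat.Agent.S28.Descent
   Fermat.Agent.S28.InductionLaurent
   Fermat.Agent.S28.Transfer
   Fermat.Agent.S28.CPrimeLaurent
   Fermat.Agent.S28.UpperBound
   Fermat.Agent.S28.PrimeHypMain
   Fermat.Agent.ES.G2.HeckeDeg
   Fermat.Agent.ES.RC.UnitField
   Fermat.Agent.ES.RC.FracField
   Fermat.Agent.ES.IotaC
   Fermat.Agent.ES.BaseChangeDown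
   Fermat.Agent.ES.DescentHyp
   Fermat.Agent.S28.Red
   Fermat.Agent.S28.RedDVR
   Fermat.Agent.S28.KeyMon
   Fermat.Agent.S28.KeyDataJ
   Fermat.Agent.S28.IntModEqMain
   Fermat.Agent.INJ.BGFin
   Fermat.Agent.INJ.BGFinH
   Do not edit; do not import together with these modules. -/
import Mathlib
import Fermat.Prelude.Def_ModularCurve_X0
import Fermat.Prelude.Def_ModularCurve_LaurentCoeff
import Fermat.Prelude.Thm_ModularCurve_coeffMap_qExpand
import Fermat.Agent.ZB.S28_004
import Fermat.Agent.ZB.S20_001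
import Fermat.Prelude.Def_ModularCurve_X0ModL
import Fermat.Agent.ZB.S28_001
import Fermat.Agent.ZB.S28_003
import Fermat.Agent.ZB.S20_002
import Fermat.Agent.ZB.S24_002
import Fermat.Prelude.Def_ModularCurve_HeckeOperator
import Fermat.Prelude.Def_ModularCurve_ArithmeticGalois
import Fermat.Agent.ZB.S24_001
import Fermat.Agent.ZB.S24_005
import Fermat.Agent.ZB.S28_005
import Fermat.Agent.ZB.S28_006

/-! ### bundled: `Fermat.Agent.S28.LaurentRank` -/
section ZBS28_002_0

/-!
# S28, formal prime-level block: `R((q))` over `R((q^p))`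

`σ = ModularCurve.qExpand R p : R((q)) → R((q))`, `q ↦ q ^ p`.

## General commutative ring `R`
* `comp p r z` : the series `∑ₙ z_{pn+r} qⁿ`; `sum_single_mul_qExpand_comp`:
  `z = ∑_{r<p} q^r · σ (comp p r z)` (so `1, q, …, q^(p-1)` generate `R((q))` over `σ(R((q)))`).
* `mulMatrix p y` : matrix of multiplication by `y` in that basis (entries pulled back along `σ`).
* `charpolyσ p y` : its characteristic polynomial: monic of degree `p`, `eval₂ σ y = 0`,
  compatible with coefficient maps (`charpolyσ_map`).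

## Field `k`
If `y ≠ 0` and `y.order` is coprime to `p`:
* `eq_zero_of_sum_qExpand_mul_pow_eq_zero` : `1, y, …, y^(p-1)` are linearly independent over `σ(k((q)))`;
* `le_natDegree_of_eval₂_eq_zero`, `charpolyσ_dvd_of_eval₂_eq_zero`, `irreducible_charpolyσ`,
  `eq_charpolyσ_of_monic`.
-/

set_option autoImplicit false

namespace Fermat.Agent.S28

open HahnSeries ModularCurve Polynomial

section Ring

variable {R : Type*} [CommRing R] (p : ℕ) [NeZero p]

theorem natCast_pos_of_neZero : (0 : ℤ) < (p : ℤ) := by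
  exact_mod_cast Nat.pos_of_ne_zero (NeZero.ne p)

theorem bddBelow_support_comp (r : ℤ) (z : LaurentSeries R) :
    BddBelow (Function.support fun n : ℤ => z.coeff ((p : ℤ) * n + r)) := by
  have hp := natCast_pos_of_neZero p
  rcases eq_or_ne z 0 with rfl | hz
  · simp
  refine ⟨(z.order - r) / p, ?_⟩
  intro n hn
  rw [Function.mem_support] at hn
  have h1 : z.order ≤ (p : ℤ) * n + r := HahnSeries.order_le_of_coeff_ne_zero hn
  have h2 : z.order - r ≤ n * (p : ℤ) := by linarith
  exact Int.ediv_le_of_le_mul hp h2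

/-- The series `∑ₙ z_{pn+r} qⁿ`. -/
noncomputable def comp (r : ℤ) (z : LaurentSeries R) : LaurentSeries R :=
  HahnSeries.ofSuppBddBelow (fun n => z.coeff ((p : ℤ) * n + r)) (bddBelow_support_comp p r z)

@[simp]
theorem comp_coeff (r : ℤ) (z : LaurentSeries R) (n : ℤ) :
    (comp p r z).coeff n = z.coeff ((p : ℤ) * n + r) := rfl

theorem coeff_single_mul_qExpand (r : ℤ) (x : LaurentSeries R) (m : ℤ) :
    (HahnSeries.single r (1 : R) * qExpand R p x).coeff m =
      if (p : ℤ) ∣ m - r then x.coeff ((m - r) / p) else 0 := by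
  have hp := natCast_pos_of_neZero p
  rw [HahnSeries.coeff_single_mul, one_mul]
  split_ifs with h
  · obtain ⟨c, hc⟩ := h
    rw [hc, qExpand_coeff_mul, Int.mul_ediv_cancel_left _ hp.ne']
  · exact qExpand_coeff_of_not_dvd p x h

/-- `1, q, …, q^(p-1)` generate `R((q))` over `σ(R((q)))`. -/
theorem sum_single_mul_qExpand_comp (z : LaurentSeries R) :
    z = ∑ r ∈ Finset.range p, HahnSeries.single (r : ℤ) (1 : R) * qExpand R p (comp p r z) := by
  have hp := natCast_pos_of_neZero p
  ext m
  rw [HahnSeries.coeff_sum]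
  simp only [coeff_single_mul_qExpand, comp_coeff]
  have hr0 : 0 ≤ m % (p : ℤ) := Int.emod_nonneg m hp.ne'
  have hrp : m % (p : ℤ) < p := Int.emod_lt_of_pos m hp
  rw [Finset.sum_eq_single (m % (p : ℤ)).toNat]
  · have h1 : (((m % (p : ℤ)).toNat : ℕ) : ℤ) = m % (p : ℤ) := Int.toNat_of_nonneg hr0
    have hdvd : (p : ℤ) ∣ m - m % (p : ℤ) :=
      ⟨m / (p : ℤ), by have := Int.emod_add_mul_ediv m (p : ℤ); linarith⟩
    rw [h1, if_pos hdvd]
    congr 1
    have := Int.mul_ediv_cancel' hdvd
    linarith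
  · intro r hr hne
    rw [if_neg]
    intro hdvd
    apply hne
    have hrlt : (r : ℤ) < p := by exact_mod_cast Finset.mem_range.mp hr
    have h2 : m % (p : ℤ) = (r : ℤ) := by
      have := Int.emod_emod_of_dvd m (dvd_refl (p : ℤ))
      obtain ⟨c, hc⟩ := hdvd
      have hm : m = (r : ℤ) + (p : ℤ) * c := by linarith
      rw [hm, Int.add_mul_emod_self_left, Int.emod_eq_of_lt (by positivity) hrlt]
    rw [h2]
    simp
  · intro h
    exfalso
    apply h
    rw [Finset.mem_range]
    have : (((m % (p : ℤ)).toNat : ℕ) : ℤ) < p := by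
      rw [Int.toNat_of_nonneg hr0]; exact hrp
    exact_mod_cast this

/-- Matrix of multiplication by `y` on `R((q))` in the basis `1, q, …, q^(p-1)` over
`σ(R((q)))`, with entries pulled back along `σ`: `y q^s = ∑_r q^r σ(M r s)`. -/
noncomputable def mulMatrix (y : LaurentSeries R) : Matrix (Fin p) (Fin p) (LaurentSeries R) :=
  fun r s => comp p ((r : ℕ) - (s : ℕ) : ℤ) y

theorem mul_single_eq_sum (y : LaurentSeries R) (s : Fin p) :
    y * HahnSeries.single ((s : ℕ) : ℤ) (1 : R) =
      ∑ r : Fin p, HahnSeries.single ((r : ℕ) : ℤ) (1 : R) * qExpand R p (mulMatrix p y r s) := by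
  have hp := natCast_pos_of_neZero p
  have key : ∀ r : ℕ, comp p (r : ℤ) (y * HahnSeries.single ((s : ℕ) : ℤ) (1 : R)) =
      comp p ((r : ℤ) - ((s : ℕ) : ℤ)) y := by
    intro r
    ext n
    simp only [comp_coeff]
    rw [HahnSeries.coeff_mul_single, mul_one]
    congr 1
    ring
  conv_lhs => rw [sum_single_mul_qExpand_comp p (y * HahnSeries.single ((s : ℕ) : ℤ) (1 : R))]
  rw [Finset.sum_range]
  refine Finset.sum_congr rfl fun r _ => ?_
  rw [key]
  rfl

/-- The characteristic polynomial of multiplication by `y` on `R((q))` over `R((q^p))`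
(coefficients pulled back along `σ`). -/
noncomputable def charpolyσ (y : LaurentSeries R) : Polynomial (LaurentSeries R) :=
  (mulMatrix p y).charpoly

theorem charpolyσ_monic (y : LaurentSeries R) : (charpolyσ p y).Monic :=
  Matrix.charpoly_monic _

theorem charpolyσ_natDegree [Nontrivial R] (y : LaurentSeries R) :
    (charpolyσ p y).natDegree = p := by
  rw [charpolyσ, Matrix.charpoly_natDegree_eq_dim, Fintype.card_fin]

/-- Cayley–Hamilton: `y` is a root of its characteristic polynomial over `R((q^p))`. -/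
theorem eval₂_charpolyσ (y : LaurentSeries R) :
    (charpolyσ p y).eval₂ (qExpand R p) y = 0 := by
  classical
  rw [Polynomial.eval₂_eq_eval_map, charpolyσ, ← Matrix.charpoly_map,
    ← Matrix.charpoly_transpose, Matrix.eval_charpoly]
  set A : Matrix (Fin p) (Fin p) (LaurentSeries R) :=
    Matrix.scalar (Fin p) y - ((mulMatrix p y).map (qExpand R p)).transpose with hA
  set v : Fin p → LaurentSeries R := fun s => HahnSeries.single ((s : ℕ) : ℤ) (1 : R) with hv
  have hAv : A.mulVec v = 0 := by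
    funext s
    simp only [hA, Matrix.sub_mulVec, Pi.sub_apply, Pi.zero_apply]
    rw [sub_eq_zero]
    have h1 : (Matrix.scalar (Fin p) y).mulVec v s = y * v s := by
      simp [Matrix.mulVec, dotProduct, Matrix.scalar_apply, Matrix.diagonal_apply]
    rw [h1, hv]
    simp only
    rw [mul_single_eq_sum p y s]
    simp only [Matrix.mulVec, dotProduct, Matrix.transpose_apply, Matrix.map_apply]
    refine Finset.sum_congr rfl fun r _ => ?_
    rw [mul_comm]
  have h2 : A.det • v = 0 := by
    have := congrArg (fun B : Matrix (Fin p) (Fin p) (LaurentSeries R) => B.mulVec v)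
      (Matrix.adjugate_mul A)
    simp only [← Matrix.mulVec_mulVec, hAv, Matrix.mulVec_zero, Matrix.smul_mulVec,
      Matrix.one_mulVec] at this
    exact this.symm
  have h3 := congrFun h2 ⟨0, Nat.pos_of_ne_zero (NeZero.ne p)⟩
  simpa [hv] using h3

variable {p}

theorem comp_coeffMap {S : Type*} [CommRing S] (f : R →+* S) (r : ℤ) (z : LaurentSeries R) :
    comp p r (coeffMap f z) = coeffMap f (comp p r z) := by
  ext n
  simp

theorem mulMatrix_coeffMap {S : Type*} [CommRing S] (f : R →+* S) (y : LaurentSeries R) :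
    mulMatrix p (coeffMap f y) = (mulMatrix p y).map (coeffMap f) := by
  ext r s : 1
  simp only [mulMatrix, Matrix.map_apply]
  exact comp_coeffMap f _ y

/-- Reduction of coefficients commutes with the characteristic polynomial. -/
theorem charpolyσ_map {S : Type*} [CommRing S] (f : R →+* S) (y : LaurentSeries R) :
    (charpolyσ p y).map (coeffMap f) = charpolyσ p (coeffMap f y) := by
  rw [charpolyσ, charpolyσ, mulMatrix_coeffMap, Matrix.charpoly_map]

end Ring

section Field

variable {k : Type*} [Field k] {p : ℕ} [NeZero p]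

theorem qExpand_ne_zero {x : LaurentSeries k} (hx : x ≠ 0) : qExpand k p x ≠ 0 := by
  intro h
  exact hx (qExpand_injective p (by rw [h, map_zero]))

theorem order_qExpand (x : LaurentSeries k) :
    (qExpand k p x).order = (p : ℤ) * x.order := by
  rcases eq_or_ne x 0 with rfl | hx
  · simp
  have hpos : (0 : ℤ) < p := natCast_pos_of_neZero p
  have hσ : qExpand k p x ≠ 0 := qExpand_ne_zero hx
  apply le_antisymm
  · apply HahnSeries.order_le_of_coeff_ne_zero
    rw [qExpand_coeff_mul]
    exact HahnSeries.coeff_order_eq_zero.not.mpr hx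
  · have h1 : (qExpand k p x).coeff (qExpand k p x).order ≠ 0 :=
      HahnSeries.coeff_order_eq_zero.not.mpr hσ
    have hdvd : (p : ℤ) ∣ (qExpand k p x).order := by
      by_contra hnd
      exact h1 (qExpand_coeff_of_not_dvd p x hnd)
    obtain ⟨m, hm⟩ := hdvd
    rw [hm, qExpand_coeff_mul] at h1
    rw [hm]
    exact mul_le_mul_of_nonneg_left (HahnSeries.order_le_of_coeff_ne_zero h1) hpos.le

/-- A finite sum of nonzero Laurent series with pairwise distinct orders is nonzero. -/
theorem sum_ne_zero_of_injOn_order {ι : Type*} (s : Finset ι) (hs : s.Nonempty)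
    (f : ι → LaurentSeries k) (hf : ∀ i ∈ s, f i ≠ 0)
    (hinj : Set.InjOn (fun i => (f i).order) (s : Set ι)) : ∑ i ∈ s, f i ≠ 0 := by
  obtain ⟨i0, hi0, hmin⟩ := s.exists_min_image (fun i => (f i).order) hs
  intro h
  have hc := congrArg (fun z : LaurentSeries k => z.coeff (f i0).order) h
  simp only [HahnSeries.coeff_sum, HahnSeries.coeff_zero] at hc
  rw [Finset.sum_eq_single i0] at hc
  · exact (HahnSeries.coeff_order_eq_zero.not.mpr (hf i0 hi0)) hc
  · intro i hi hne
    apply HahnSeries.coeff_eq_zero_of_lt_order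
    exact lt_of_le_of_ne (hmin i hi) (fun heq => hne (hinj hi hi0 heq.symm))
  · intro h'
    exact absurd hi0 h'

theorem order_qExpand_mul_pow {y : LaurentSeries k} (hy : y ≠ 0) {a : LaurentSeries k}
    (ha : a ≠ 0) (i : ℕ) :
    (qExpand k p a * y ^ i).order = (p : ℤ) * a.order + (i : ℤ) * y.order := by
  rw [HahnSeries.order_mul (qExpand_ne_zero ha) (pow_ne_zero _ hy), order_qExpand,
    HahnSeries.order_pow, nsmul_eq_mul]

/-- Arithmetic core: if `p ∣ (i - j) * n` with `n` coprime to `p` and `|i - j| < p`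
then `i = j`. -/
theorem eq_of_mul_order_eq {n : ℤ} (hcop : IsCoprime n (p : ℤ)) {i j : ℕ} {u v : ℤ}
    (hij : (i : ℤ) - j < p) (hji : (j : ℤ) - i < p)
    (h : (p : ℤ) * u + (i : ℤ) * n = (p : ℤ) * v + (j : ℤ) * n) : i = j := by
  have h1 : (p : ℤ) ∣ ((i : ℤ) - j) * n := ⟨v - u, by linarith⟩
  have h2 : (p : ℤ) ∣ (i : ℤ) - j := (hcop.symm.dvd_of_dvd_mul_right h1)
  obtain ⟨c, hc⟩ := h2
  have hp := natCast_pos_of_neZero p
  have hc0 : c = 0 := by
    by_contra hne
    rcases lt_or_gt_of_ne hne with hneg | hpos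
    · have : (p : ℤ) * c ≤ (p : ℤ) * (-1) := mul_le_mul_of_nonneg_left (by omega) hp.le
      linarith
    · have : (p : ℤ) * 1 ≤ (p : ℤ) * c := mul_le_mul_of_nonneg_left (by omega) hp.le
      linarith
  rw [hc0, mul_zero] at hc
  have : (i : ℤ) = j := by linarith
  exact_mod_cast this

/-- `1, y, …, y^(p-1)` are linearly independent over `σ(k((q)))` when `ord y` is coprime
to `p`. -/
theorem eq_zero_of_sum_qExpand_mul_pow_eq_zero {y : LaurentSeries k} (hy : y ≠ 0)
    (hcop : IsCoprime y.order (p : ℤ)) (a : ℕ → LaurentSeries k)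
    (h : ∑ i ∈ Finset.range p, qExpand k p (a i) * y ^ i = 0) : ∀ i < p, a i = 0 := by
  classical
  by_contra hne
  push Not at hne
  obtain ⟨i1, hi1, hai1⟩ := hne
  set s := (Finset.range p).filter (fun i => a i ≠ 0) with hs
  have hsne : s.Nonempty := ⟨i1, by simp [hs, hi1, hai1]⟩
  have hsum : ∑ i ∈ s, qExpand k p (a i) * y ^ i = 0 := by
    rw [← h, hs, Finset.sum_filter]
    refine Finset.sum_congr rfl fun i _ => ?_
    split_ifs with hi
    · rfl
    · push Not at hi
      rw [hi, map_zero, zero_mul]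
  refine sum_ne_zero_of_injOn_order s hsne _ ?_ ?_ hsum
  · intro i hi
    have : a i ≠ 0 := (Finset.mem_filter.mp hi).2
    exact mul_ne_zero (qExpand_ne_zero this) (pow_ne_zero _ hy)
  · intro i hi j hj hij
    have hi' := Finset.mem_filter.mp hi
    have hj' := Finset.mem_filter.mp hj
    simp only at hij
    rw [order_qExpand_mul_pow hy hi'.2, order_qExpand_mul_pow hy hj'.2] at hij
    have hip : i < p := Finset.mem_range.mp hi'.1
    have hjp : j < p := Finset.mem_range.mp hj'.1
    exact eq_of_mul_order_eq hcop (by omega) (by omega) hij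

/-- A nonzero polynomial over `k((q^p))` vanishing at `y` has degree at least `p`. -/
theorem le_natDegree_of_eval₂_eq_zero {y : LaurentSeries k} (hy : y ≠ 0)
    (hcop : IsCoprime y.order (p : ℤ)) {Q : Polynomial (LaurentSeries k)} (hQ : Q ≠ 0)
    (h : Q.eval₂ (qExpand k p) y = 0) : p ≤ Q.natDegree := by
  by_contra hlt
  push Not at hlt
  have hsum : ∑ i ∈ Finset.range p, qExpand k p (Q.coeff i) * y ^ i = 0 := by
    rw [← h, Polynomial.eval₂_eq_sum_range' _ hlt]
  have hz := eq_zero_of_sum_qExpand_mul_pow_eq_zero hy hcop (fun i => Q.coeff i) hsum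
  apply hQ
  refine Polynomial.ext fun i => ?_
  rw [Polynomial.coeff_zero]
  by_cases hi : i < p
  · exact hz i hi
  · exact Polynomial.coeff_eq_zero_of_natDegree_lt (by omega)

/-- `charpolyσ p y` divides every polynomial over `k((q^p))` vanishing at `y`. -/
theorem charpolyσ_dvd_of_eval₂_eq_zero {y : LaurentSeries k} (hy : y ≠ 0)
    (hcop : IsCoprime y.order (p : ℤ)) {Q : Polynomial (LaurentSeries k)}
    (h : Q.eval₂ (qExpand k p) y = 0) : charpolyσ p y ∣ Q := by
  have hP := charpolyσ_monic p y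
  have hPd := charpolyσ_natDegree p y
  rw [← Polynomial.modByMonic_eq_zero_iff_dvd hP]
  by_contra hne
  have hmod : (Q %ₘ charpolyσ p y).eval₂ (qExpand k p) y = 0 := by
    have h1 := Polynomial.modByMonic_add_div Q (charpolyσ p y)
    have h2 := congrArg (Polynomial.eval₂ (qExpand k p) y) h1
    rw [Polynomial.eval₂_add, Polynomial.eval₂_mul, eval₂_charpolyσ, zero_mul, add_zero, h] at h2
    exact h2
  have h3 := le_natDegree_of_eval₂_eq_zero hy hcop hne hmod
  have hp1 : charpolyσ p y ≠ 1 := by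
    intro h1
    have := hPd
    rw [h1, Polynomial.natDegree_one] at this
    exact NeZero.ne p this.symm
  have h4 := Polynomial.natDegree_modByMonic_lt Q hP hp1
  omega

/-- Uniqueness of the monic degree-`p` relation. -/
theorem eq_charpolyσ_of_monic {y : LaurentSeries k} (hy : y ≠ 0)
    (hcop : IsCoprime y.order (p : ℤ)) {Q : Polynomial (LaurentSeries k)} (hQ : Q.Monic)
    (hdeg : Q.natDegree = p) (h : Q.eval₂ (qExpand k p) y = 0) : Q = charpolyσ p y := by
  apply Polynomial.eq_of_monic_of_dvd_of_natDegree_le (charpolyσ_monic p y) hQ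
    (charpolyσ_dvd_of_eval₂_eq_zero hy hcop h)
  rw [hdeg, charpolyσ_natDegree]

/-- The minimal polynomial of `y` over `k((q^p))` is irreducible of degree `p`. -/
theorem irreducible_charpolyσ {y : LaurentSeries k} (hy : y ≠ 0)
    (hcop : IsCoprime y.order (p : ℤ)) : Irreducible (charpolyσ p y) := by
  have hP := charpolyσ_monic p y
  have hPd := charpolyσ_natDegree p y
  have hp0 : p ≠ 0 := NeZero.ne p
  refine ⟨?_, ?_⟩
  · intro hu
    have := Polynomial.natDegree_eq_zero_of_isUnit hu
    omega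
  · intro A B hAB
    have hA0 : A ≠ 0 := by
      rintro rfl
      rw [zero_mul] at hAB
      exact hP.ne_zero hAB
    have hB0 : B ≠ 0 := by
      rintro rfl
      rw [mul_zero] at hAB
      exact hP.ne_zero hAB
    have hdeg : A.natDegree + B.natDegree = p := by
      rw [← Polynomial.natDegree_mul hA0 hB0, ← hAB, hPd]
    have hev : A.eval₂ (qExpand k p) y * B.eval₂ (qExpand k p) y = 0 := by
      rw [← Polynomial.eval₂_mul, ← hAB, eval₂_charpolyσ]
    rcases mul_eq_zero.mp hev with hA | hB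
    · right
      have := le_natDegree_of_eval₂_eq_zero hy hcop hA0 hA
      have hB' : B.natDegree = 0 := by omega
      obtain ⟨c, hc⟩ := Polynomial.natDegree_eq_zero.mp hB'
      rw [← hc]
      refine Polynomial.isUnit_C.mpr (isUnit_iff_ne_zero.mpr ?_)
      rintro rfl
      exact hB0 (by rw [← hc, map_zero])
    · left
      have := le_natDegree_of_eval₂_eq_zero hy hcop hB0 hB
      have hA' : A.natDegree = 0 := by omega
      obtain ⟨c, hc⟩ := Polynomial.natDegree_eq_zero.mp hA'
      rw [← hc]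
      refine Polynomial.isUnit_C.mpr (isUnit_iff_ne_zero.mpr ?_)
      rintro rfl
      exact hA0 (by rw [← hc, map_zero])

/-- For `p ≥ 2`, `charpolyσ p y` has no root (it is irreducible of degree `p ≥ 2`). -/
theorem charpolyσ_eval_ne_zero {y : LaurentSeries k} (hy : y ≠ 0)
    (hcop : IsCoprime y.order (p : ℤ)) (hp2 : 2 ≤ p) (c : LaurentSeries k) :
    (charpolyσ p y).eval c ≠ 0 := by
  intro h
  have hirr := irreducible_charpolyσ hy hcop
  have hdvd : (Polynomial.X - Polynomial.C c) ∣ charpolyσ p y :=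
    Polynomial.dvd_iff_isRoot.mpr h
  obtain ⟨B, hB⟩ := hdvd
  have hPd := charpolyσ_natDegree p y
  rcases hirr.isUnit_or_isUnit hB with hu | hu
  · have := Polynomial.natDegree_eq_zero_of_isUnit hu
    rw [Polynomial.natDegree_X_sub_C] at this
    omega
  · have hB0 := Polynomial.natDegree_eq_zero_of_isUnit hu
    have hne : B ≠ 0 := hu.ne_zero
    have : (charpolyσ p y).natDegree = 1 + 0 := by
      rw [hB, Polynomial.natDegree_mul (Polynomial.X_sub_C_ne_zero c) hne,
        Polynomial.natDegree_X_sub_C, hB0]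
    omega

/-- Newton polygon: the constant coefficient of a monic degree-`p` polynomial over `k((q^p))`
vanishing at `y` is nonzero and has the same order as `y` (so the norm of `y` has order
`p * ord y` in `q`). -/
theorem order_coeff_zero_of_monic {y : LaurentSeries k} (hy : y ≠ 0)
    (hcop : IsCoprime y.order (p : ℤ)) {Q : Polynomial (LaurentSeries k)} (hQ : Q.Monic)
    (hdeg : Q.natDegree = p) (h : Q.eval₂ (qExpand k p) y = 0) :
    Q.coeff 0 ≠ 0 ∧ (Q.coeff 0).order = y.order := by
  classical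
  by_contra hcon
  have hp := natCast_pos_of_neZero p
  have hp0 : p ≠ 0 := NeZero.ne p
  have hlead : Q.coeff p = 1 := by
    have := hQ.coeff_natDegree
    rwa [hdeg] at this
  set s := (Finset.range (p + 1)).filter (fun i => Q.coeff i ≠ 0) with hs
  have hps : p ∈ s := by
    simp [hs, hlead]
  have hsum : ∑ i ∈ s, qExpand k p (Q.coeff i) * y ^ i = 0 := by
    rw [← h, Polynomial.eval₂_eq_sum_range' (qExpand k p) (n := p + 1) (by omega), hs,
      Finset.sum_filter]
    refine Finset.sum_congr rfl fun i _ => ?_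
    split_ifs with hi
    · rfl
    · push Not at hi
      rw [hi, map_zero, zero_mul]
  refine sum_ne_zero_of_injOn_order s ⟨p, hps⟩ _ ?_ ?_ hsum
  · intro i hi
    have : Q.coeff i ≠ 0 := (Finset.mem_filter.mp hi).2
    exact mul_ne_zero (qExpand_ne_zero this) (pow_ne_zero _ hy)
  · -- injectivity of orders, using the negation of the conclusion
    have key : ∀ i ∈ s, ∀ j ∈ s, i ≤ j →
        (qExpand k p (Q.coeff i) * y ^ i).order = (qExpand k p (Q.coeff j) * y ^ j).order →
        i = j := by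
      intro i hi j hj hle hij
      have hi' := Finset.mem_filter.mp hi
      have hj' := Finset.mem_filter.mp hj
      rw [order_qExpand_mul_pow hy hi'.2, order_qExpand_mul_pow hy hj'.2] at hij
      have hip : i < p + 1 := Finset.mem_range.mp hi'.1
      have hjp : j < p + 1 := Finset.mem_range.mp hj'.1
      by_cases hcase : i = 0 ∧ j = p
      · exfalso
        obtain ⟨rfl, rfl⟩ := hcase
        apply hcon
        refine ⟨hi'.2, ?_⟩
        rw [hlead] at hij
        have h1 : (1 : LaurentSeries k).order = 0 := HahnSeries.order_one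
        rw [h1] at hij
        simp only [Nat.cast_zero, zero_mul, add_zero, mul_zero, zero_add] at hij
        exact mul_left_cancel₀ hp.ne' hij
      · exact eq_of_mul_order_eq hcop (by omega) (by omega) hij
    intro i hi j hj hij
    rcases le_total i j with hle | hle
    · exact key i hi j hj hle hij
    · exact (key j hj i hi hle hij.symm).symm

theorem order_coeff_zero_charpolyσ {y : LaurentSeries k} (hy : y ≠ 0)
    (hcop : IsCoprime y.order (p : ℤ)) :
    (charpolyσ p y).coeff 0 ≠ 0 ∧ ((charpolyσ p y).coeff 0).order = y.order :=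
  order_coeff_zero_of_monic hy hcop (charpolyσ_monic p y) (charpolyσ_natDegree p y)
    (eval₂_charpolyσ p y)

end Field

end Fermat.Agent.S28


end ZBS28_002_0

/-! ### bundled: `Fermat.Agent.S28.PrimeLevel` -/
section ZBS28_002_1

/-!
# S28 — prime level: formal consequences of the two modular relations

Setting: `k` a field, `L = k((q))`, `σ = qExpand k p` (`q ↦ q^p`).  Everything here is pure algebra on
Laurent series; the modular relations enter as hypotheses.

* `eq_X_sub_C_mul_charpolyσ` : a monic `Q ∈ L[X]` of degree `p + 1` with a root `c` and with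
  `σ(Q)(y) = 0` (`ord y` prime to `p`, `p ≥ 2`) is `(X - c) * charpolyσ p y`.
* `aeval_ne_zero_of_order_neg`, `order_aeval_of_order_neg` : for `ord j < 0`, `f ↦ f(j)` is
  injective on `k[Y]` and `ord f(j) = deg f * ord j`.
* `natDegree_minpoly_of_map_eq` : abstract dichotomy.  If `Q₀ ∈ E[X]` is monic and becomes
  `(X - u) * P` over `L ⊇ E` with `P` irreducible over `L`, then `u ∈ E` or `minpoly E u = Q₀`.
* `le_natDegree_of_eval₂_aeval_eq_zero` : the Igusa step at prime level.
-/

set_option autoImplicit false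

namespace Fermat.Agent.S28

open ModularCurve Polynomial

section Factor

variable {k : Type*} [Field k] {p : ℕ} [NeZero p]

/-- (A) Factorisation.  A monic polynomial `Q` of degree `p + 1` over `k((q))` which has a root
`c` and whose `σ`-twist vanishes at `y` (with `ord y` prime to `p`, `p ≥ 2`) is
`(X - c) * charpolyσ p y`. -/
theorem eq_X_sub_C_mul_charpolyσ {y : LaurentSeries k} (hy : y ≠ 0)
    (hcop : IsCoprime y.order (p : ℤ)) (hp2 : 2 ≤ p)
    {Q : Polynomial (LaurentSeries k)} (hQ : Q.Monic) (hdeg : Q.natDegree = p + 1)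
    (h : Q.eval₂ (qExpand k p) y = 0) {c : LaurentSeries k} (hc : Q.eval c = 0) :
    Q = (X - C c) * charpolyσ p y := by
  obtain ⟨B, hB⟩ := charpolyσ_dvd_of_eval₂_eq_zero hy hcop h
  have hP := charpolyσ_monic p y
  have hPd := charpolyσ_natDegree p y
  have hBm : B.Monic := hP.of_mul_monic_left (hB ▸ hQ)
  have hBd : B.natDegree = 1 := by
    have := congrArg Polynomial.natDegree hB
    rw [hP.natDegree_mul hBm, hdeg, hPd] at this
    omega
  have hBX : B = X + C (B.coeff 0) := hBm.eq_X_add_C hBd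
  have hev : (charpolyσ p y).eval c * B.eval c = 0 := by
    rw [← Polynomial.eval_mul, ← hB, hc]
  have hBc : B.eval c = 0 := by
    rcases mul_eq_zero.mp hev with h1 | h1
    · exact absurd h1 (charpolyσ_eval_ne_zero hy hcop hp2 c)
    · exact h1
  have hb : B.coeff 0 = -c := by
    rw [hBX] at hBc
    simp only [eval_add, eval_X, eval_C] at hBc
    exact eq_neg_of_add_eq_zero_right hBc
  rw [hB, mul_comm, hBX, hb, map_neg, sub_eq_add_neg]

end Factor

section OrderAeval

variable {k : Type*} [Field k]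

theorem algebraMap_eq_hahnC (c : k) :
    algebraMap k (LaurentSeries k) c = (HahnSeries.C c : LaurentSeries k) := by
  rw [ModularCurve.algebraMap_laurentSeries_eq_single, HahnSeries.C_apply]

/-- For `ord j < 0` and `f ≠ 0`: `f(j) ≠ 0`, `ord f(j) = deg f * ord j` and the leading
coefficient of `f(j)` is `lc(f) * lc(j) ^ deg f`. -/
theorem aeval_ne_zero_and_order {j : LaurentSeries k} (hj : j.order < 0) :
    ∀ (n : ℕ) (f : Polynomial k), f.natDegree = n → f ≠ 0 →
      Polynomial.aeval j f ≠ 0 ∧ (Polynomial.aeval j f).order = (n : ℤ) * j.order ∧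
      (Polynomial.aeval j f).leadingCoeff = f.leadingCoeff * j.leadingCoeff ^ n := by
  have hj0 : j ≠ 0 := by
    rintro rfl
    simp at hj
  intro n
  induction n with
  | zero =>
    intro f hf hf0
    obtain ⟨c, rfl⟩ := Polynomial.natDegree_eq_zero.mp hf
    have hc : c ≠ 0 := by
      rintro rfl
      exact hf0 (map_zero _)
    rw [Polynomial.aeval_C, algebraMap_eq_hahnC]
    refine ⟨HahnSeries.C_ne_zero hc, by rw [HahnSeries.order_C]; simp, ?_⟩
    rw [HahnSeries.C_apply, HahnSeries.leadingCoeff_of_single, Polynomial.leadingCoeff_C,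
      pow_zero, mul_one]
  | succ n ih =>
    intro f hf hf0
    have hdiv : f.divX.natDegree = n := by
      rw [Polynomial.natDegree_divX_eq_natDegree_tsub_one, hf]
      rfl
    have hdiv0 : f.divX ≠ 0 := by
      intro h0
      have := Polynomial.divX_mul_X_add f
      rw [h0, zero_mul, zero_add] at this
      rw [← this, Polynomial.natDegree_C] at hf
      omega
    obtain ⟨h1, h2, h2'⟩ := ih f.divX hdiv hdiv0
    have hsplit : Polynomial.aeval j f =
        Polynomial.aeval j f.divX * j + HahnSeries.C (f.coeff 0) := by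
      conv_lhs => rw [← Polynomial.divX_mul_X_add f]
      rw [map_add, map_mul, Polynomial.aeval_X, Polynomial.aeval_C, algebraMap_eq_hahnC]
    have hA : Polynomial.aeval j f.divX * j ≠ 0 := mul_ne_zero h1 hj0
    have hAo : (Polynomial.aeval j f.divX * j).order = ((n + 1 : ℕ) : ℤ) * j.order := by
      rw [HahnSeries.order_mul h1 hj0, h2]
      push_cast
      ring
    have hAneg : (Polynomial.aeval j f.divX * j).order < 0 := by
      rw [hAo]
      have : (0 : ℤ) < ((n + 1 : ℕ) : ℤ) := by positivity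
      exact mul_neg_of_pos_of_neg this hj
    have hlt : (Polynomial.aeval j f.divX * j).orderTop <
        (HahnSeries.C (f.coeff 0) : LaurentSeries k).orderTop := by
      by_cases hc : f.coeff 0 = 0
      · rw [hc, map_zero, HahnSeries.orderTop_zero]
        exact WithTop.lt_top_iff_ne_top.mpr (HahnSeries.orderTop_ne_top.mpr hA)
      · rw [HahnSeries.orderTop_of_ne_zero hA,
          HahnSeries.orderTop_of_ne_zero (HahnSeries.C_ne_zero hc), WithTop.coe_lt_coe,
          ← HahnSeries.order_of_ne hA, ← HahnSeries.order_of_ne (HahnSeries.C_ne_zero hc),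
          HahnSeries.order_C]
        exact hAneg
    have htop := HahnSeries.orderTop_add_eq_left hlt
    have hne : Polynomial.aeval j f ≠ 0 := by
      rw [hsplit]
      intro h0
      rw [h0, HahnSeries.orderTop_zero] at htop
      exact HahnSeries.orderTop_ne_top.mpr hA htop.symm
    refine ⟨hne, ?_, ?_⟩
    · rw [← hAo]
      have h3 : ((Polynomial.aeval j f).order : WithTop ℤ) =
          ((Polynomial.aeval j f.divX * j).order : WithTop ℤ) := by
        rw [HahnSeries.order_eq_orderTop_of_ne_zero hne,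
          HahnSeries.order_eq_orderTop_of_ne_zero hA, hsplit]
        exact htop
      exact_mod_cast h3
    · have hlc : f.divX.leadingCoeff = f.leadingCoeff := by
        rw [Polynomial.leadingCoeff, Polynomial.leadingCoeff, hdiv, hf, Polynomial.coeff_divX]
      rw [hsplit, HahnSeries.leadingCoeff_add_eq_left hlt, HahnSeries.leadingCoeff_mul, h2', hlc,
        pow_succ, mul_assoc]

theorem aeval_ne_zero_of_order_neg {j : LaurentSeries k} (hj : j.order < 0)
    {f : Polynomial k} (hf : f ≠ 0) : Polynomial.aeval j f ≠ 0 :=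
  (aeval_ne_zero_and_order hj f.natDegree f rfl hf).1

theorem order_aeval_of_order_neg {j : LaurentSeries k} (hj : j.order < 0)
    {f : Polynomial k} (hf : f ≠ 0) :
    (Polynomial.aeval j f).order = (f.natDegree : ℤ) * j.order :=
  (aeval_ne_zero_and_order hj f.natDegree f rfl hf).2.1

theorem leadingCoeff_aeval_of_order_neg {j : LaurentSeries k} (hj : j.order < 0)
    {f : Polynomial k} (hf : f ≠ 0) :
    (Polynomial.aeval j f).leadingCoeff = f.leadingCoeff * j.leadingCoeff ^ f.natDegree :=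
  (aeval_ne_zero_and_order hj f.natDegree f rfl hf).2.2

theorem aeval_injective_of_order_neg {j : LaurentSeries k} (hj : j.order < 0) :
    Function.Injective (Polynomial.aeval (R := k) j) := by
  rw [injective_iff_map_eq_zero]
  intro f hf
  by_contra h
  exact aeval_ne_zero_of_order_neg hj h hf

/-- A polynomial in `j` (`ord j < 0`) has order `≤ 0`. -/
theorem order_aeval_nonpos {j : LaurentSeries k} (hj : j.order < 0) (f : Polynomial k) :
    (Polynomial.aeval j f).order ≤ 0 := by
  rcases eq_or_ne f 0 with rfl | hf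
  · simp
  rw [order_aeval_of_order_neg hj hf]
  exact mul_nonpos_of_nonneg_of_nonpos (by positivity) hj.le

end OrderAeval

section Dichotomy

variable {E L : Type*} [Field E] [Field L] [Algebra E L]

/-- Abstract dichotomy.  If the monic `Q₀ ∈ E[X]` becomes `(X - u) * P` over `L ⊇ E` with `P`
irreducible over `L`, then `u ∈ E` or `Q₀` is the minimal polynomial of `u` over `E`. -/
theorem mem_range_or_minpoly_eq {Q₀ : Polynomial E} (hQ₀ : Q₀.Monic) {u : L}
    {P : Polynomial L} (hP : Irreducible P)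
    (hfac : Q₀.map (algebraMap E L) = (X - Polynomial.C u) * P) :
    u ∈ Set.range (algebraMap E L) ∨ minpoly E u = Q₀ := by
  have hu : Polynomial.aeval u Q₀ = 0 := by
    rw [Polynomial.aeval_def, Polynomial.eval₂_eq_eval_map, hfac]
    simp
  have hint : IsIntegral E u := ⟨Q₀, hQ₀, hu⟩
  have hdvd : minpoly E u ∣ Q₀ := minpoly.dvd E u hu
  have hm := minpoly.monic hint
  have hroot : ((minpoly E u).map (algebraMap E L)).IsRoot u := by
    rw [Polynomial.IsRoot, Polynomial.eval_map, ← Polynomial.aeval_def]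
    exact minpoly.aeval E u
  obtain ⟨B, hB⟩ := Polynomial.dvd_iff_isRoot.mpr hroot
  have hdvd' : (minpoly E u).map (algebraMap E L) ∣ (X - Polynomial.C u) * P :=
    hfac ▸ Polynomial.map_dvd _ hdvd
  rw [hB] at hdvd'
  have hBP : B ∣ P := (mul_dvd_mul_iff_left (Polynomial.X_sub_C_ne_zero u)).mp hdvd'
  have hBm : B.Monic :=
    (Polynomial.monic_X_sub_C u).of_mul_monic_left (hB ▸ hm.map (algebraMap E L))
  have hdegm : (minpoly E u).natDegree = 1 + B.natDegree := by
    have := congrArg Polynomial.natDegree hB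
    rwa [Polynomial.natDegree_map, (Polynomial.monic_X_sub_C u).natDegree_mul hBm,
      Polynomial.natDegree_X_sub_C] at this
  rcases hP.dvd_iff.mp hBP with hunit | hassoc
  · left
    have hB1 : B = 1 := hBm.eq_one_of_isUnit hunit
    have hd1 : (minpoly E u).natDegree = 1 := by
      rw [hdegm, hB1, Polynomial.natDegree_one]
    have hd1' : (minpoly E u).degree = 1 := by
      rw [Polynomial.degree_eq_natDegree hm.ne_zero, hd1]
      rfl
    exact minpoly.mem_range_of_degree_eq_one E u hd1'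
  · right
    have hPB : P.natDegree = B.natDegree := Polynomial.natDegree_eq_of_degree_eq
      (Polynomial.degree_eq_degree_of_associated hassoc)
    have hQd : Q₀.natDegree = 1 + P.natDegree := by
      have := congrArg Polynomial.natDegree hfac
      rwa [Polynomial.natDegree_map, Polynomial.natDegree_mul (Polynomial.X_sub_C_ne_zero u)
        hP.ne_zero, Polynomial.natDegree_X_sub_C] at this
    exact (Polynomial.eq_of_monic_of_dvd_of_natDegree_le hm hQ₀ hdvd (by omega)).symm

end Dichotomy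

section Igusa

variable {k : Type*} [Field k] {p : ℕ} [NeZero p]

theorem qExpand_algebraMap (c : k) :
    qExpand k p (algebraMap k (LaurentSeries k) c) = algebraMap k (LaurentSeries k) c := by
  rw [algebraMap_eq_hahnC, qExpand_C]

/-- `f(σ j) = σ(f(j))`. -/
theorem aeval_qExpand (j : LaurentSeries k) (f : Polynomial k) :
    Polynomial.aeval (qExpand k p j) f = qExpand k p (Polynomial.aeval j f) := by
  rw [Polynomial.aeval_def, Polynomial.aeval_def, Polynomial.hom_eval₂]
  congr 1
  ext c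
  exact congrArg (fun z : LaurentSeries k => z.coeff _) (qExpand_algebraMap c).symm

theorem aeval_qExpand_ringHom (j : LaurentSeries k) :
    (Polynomial.aeval (R := k) (qExpand k p j)).toRingHom =
      (qExpand k p).comp (Polynomial.aeval (R := k) j).toRingHom := by
  ext f
  · simp only [AlgHom.toRingHom_eq_coe, RingHom.coe_comp, RingHom.coe_coe, Function.comp_apply,
      Polynomial.aeval_C]
    rw [qExpand_algebraMap]
  · simp only [AlgHom.toRingHom_eq_coe, RingHom.coe_comp, RingHom.coe_coe, Function.comp_apply,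
      Polynomial.aeval_X]

/-- General form over an arbitrary subfield `E` of `k((q))` (any field `E` with an algebra
structure on `k((q))`): if the monic `Q₀ ∈ E[X]` of degree `p + 1` has the root `c ∉ E` and its
`σ`-twist vanishes at `y` (`ord y` prime to `p`), then `Q₀` is the minimal polynomial of `c`
over `E`. -/
theorem minpoly_eq_of_not_mem_range {E : Type*} [Field E] [Algebra E (LaurentSeries k)]
    {y c : LaurentSeries k} (hy : y ≠ 0) (hcop : IsCoprime y.order (p : ℤ)) (hp2 : 2 ≤ p)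
    {Q₀ : Polynomial E} (hQ₀ : Q₀.Monic) (hdeg : Q₀.natDegree = p + 1)
    (hc : Polynomial.aeval c Q₀ = 0)
    (hyσ : (Q₀.map (algebraMap E (LaurentSeries k))).eval₂ (qExpand k p) y = 0)
    (hnot : c ∉ Set.range (algebraMap E (LaurentSeries k))) :
    minpoly E c = Q₀ := by
  have hfac := eq_X_sub_C_mul_charpolyσ hy hcop hp2 (hQ₀.map (algebraMap E (LaurentSeries k)))
    (by rw [Polynomial.natDegree_map, hdeg]) hyσ (c := c)
    (by rw [Polynomial.eval_map, ← Polynomial.aeval_def]; exact hc)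
  rcases mem_range_or_minpoly_eq hQ₀ (irreducible_charpolyσ hy hcop) hfac with h | h
  · exact absurd h hnot
  · exact h

/-- **Igusa step at prime level.**  Let `ord j < 0`, `ord u > 0`, `ord u'` prime to `p ≥ 2`,
and let `W ∈ k[Y][X]` be monic of `X`-degree `p + 1` with `W(u, j) = 0` and `W(u', σ j) = 0`.
Then every nonzero `G ∈ k[Y][X]` with `G(u, j) = 0` has `X`-degree at least `p + 1`, i.e.
`[k(j, u) : k(j)] = p + 1`. -/
theorem le_natDegree_of_eval₂_aeval_eq_zero {j u u' : LaurentSeries k} (hj : j.order < 0)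
    (hu : 0 < u.order) (hu' : u' ≠ 0) (hcop : IsCoprime u'.order (p : ℤ)) (hp2 : 2 ≤ p)
    {W : Polynomial (Polynomial k)} (hW : W.Monic) (hWd : W.natDegree = p + 1)
    (h1 : W.eval₂ (Polynomial.aeval (R := k) j).toRingHom u = 0)
    (h2 : W.eval₂ (Polynomial.aeval (R := k) (qExpand k p j)).toRingHom u' = 0)
    {G : Polynomial (Polynomial k)} (hG : G ≠ 0)
    (hGu : G.eval₂ (Polynomial.aeval (R := k) j).toRingHom u = 0) :
    p + 1 ≤ G.natDegree := by
  classical
  set g : Polynomial k →+* LaurentSeries k := (Polynomial.aeval (R := k) j).toRingHom with hg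
  have hginj : Function.Injective g := aeval_injective_of_order_neg hj
  let φ : RatFunc k →+* LaurentSeries k := IsFractionRing.lift (K := RatFunc k) hginj
  have hφ : ∀ f : Polynomial k, φ (algebraMap (Polynomial k) (RatFunc k) f) = g f :=
    fun f => IsFractionRing.lift_algebraMap hginj f
  have hφc : φ.comp (algebraMap (Polynomial k) (RatFunc k)) = g := RingHom.ext hφ
  let _ : Algebra (RatFunc k) (LaurentSeries k) := φ.toAlgebra
  have halg : algebraMap (RatFunc k) (LaurentSeries k) = φ := rfl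
  set Q₀ : Polynomial (RatFunc k) := W.map (algebraMap (Polynomial k) (RatFunc k)) with hQ₀
  have hQ₀m : Q₀.Monic := hW.map _
  have hQ₀d : Q₀.natDegree = p + 1 := by
    rw [hQ₀, hW.natDegree_map, hWd]
  have hmap : Q₀.map (algebraMap (RatFunc k) (LaurentSeries k)) = W.map g := by
    rw [hQ₀, Polynomial.map_map, halg, hφc]
  have hc : Polynomial.aeval u Q₀ = 0 := by
    rw [Polynomial.aeval_def, Polynomial.eval₂_eq_eval_map, hmap, Polynomial.eval_map]
    exact h1
  have hyσ : (Q₀.map (algebraMap (RatFunc k) (LaurentSeries k))).eval₂ (qExpand k p) u' = 0 := by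
    rw [hmap, Polynomial.eval₂_map, hg, ← aeval_qExpand_ringHom]
    exact h2
  have hnot : u ∉ Set.range (algebraMap (RatFunc k) (LaurentSeries k)) := by
    rintro ⟨r, hr⟩
    have hrint : IsIntegral (Polynomial k) r := by
      refine ⟨W, hW, ?_⟩
      have hinj : Function.Injective φ := φ.injective
      apply hinj
      rw [map_zero, Polynomial.hom_eval₂, hφc, ← halg, hr]
      exact h1
    obtain ⟨f, hf⟩ := IsIntegrallyClosed.isIntegral_iff.mp hrint
    have huf : u = Polynomial.aeval j f := by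
      rw [← hr, ← hf, halg, hφ]
      rfl
    have := order_aeval_nonpos hj f
    rw [← huf] at this
    omega
  have hmin := minpoly_eq_of_not_mem_range hu' hcop hp2 hQ₀m hQ₀d hc hyσ hnot
  have hG0 : G.map (algebraMap (Polynomial k) (RatFunc k)) ≠ 0 := by
    rw [Ne, Polynomial.map_eq_zero_iff (IsFractionRing.injective (Polynomial k) (RatFunc k))]
    exact hG
  have hGroot : Polynomial.aeval u (G.map (algebraMap (Polynomial k) (RatFunc k))) = 0 := by
    rw [Polynomial.aeval_def, Polynomial.eval₂_map, halg, hφc]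
    exact hGu
  have hdvd := minpoly.dvd (RatFunc k) u hGroot
  rw [hmin] at hdvd
  have := Polynomial.natDegree_le_of_dvd hdvd hG0
  rw [hQ₀d] at this
  exact this.trans Polynomial.natDegree_map_le

end Igusa

end Fermat.Agent.S28


end ZBS28_002_1

/-! ### bundled: `Fermat.Agent.S28.Descent` -/
section ZBS28_002_2

/-!
# S28 — descent of the modular relations to a subring and transfer to any coefficient ring

`ι : R →+* k₀` injective (`R ⊂ ℂ`), `j, u, u' ∈ R((q))`, the lowest coefficient of `j` a unit of `R`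
in negative degree.  A monic `W ∈ k₀[Y][X]` of `X`-degree `p + 1` with `W(u, j) = 0` and
`W(u', σ j) = 0` over `k₀((q))` has coefficients in `R[Y]`, and the same relations hold over
`R((q))`, hence over `S((q))` for every ring hom `R →+* S`.
-/

set_option autoImplicit false

namespace Fermat.Agent.S28

open ModularCurve Polynomial

section CoeffMapAeval

variable {R S : Type*} [CommRing R] [CommRing S]

theorem algebraMap_eq_hahnC' (c : R) :
    algebraMap R (LaurentSeries R) c = (HahnSeries.C c : LaurentSeries R) := by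
  rw [HahnSeries.algebraMap_apply']
  simp

theorem coeffMap_hahnC (g : R →+* S) (c : R) :
    coeffMap g (HahnSeries.C c : LaurentSeries R) = (HahnSeries.C (g c) : LaurentSeries S) := by
  rw [HahnSeries.C_apply, HahnSeries.C_apply, coeffMap_single]

theorem coeffMap_comp_algebraMap (g : R →+* S) :
    (coeffMap g).comp (algebraMap R (LaurentSeries R)) =
      (algebraMap S (LaurentSeries S)).comp g := by
  ext c : 1
  simp only [RingHom.coe_comp, Function.comp_apply]
  rw [algebraMap_eq_hahnC', algebraMap_eq_hahnC', coeffMap_hahnC]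

theorem coeffMap_aeval (g : R →+* S) (j : LaurentSeries R) (f : Polynomial R) :
    coeffMap g (Polynomial.aeval j f) = Polynomial.aeval (coeffMap g j) (f.map g) := by
  rw [Polynomial.aeval_def, Polynomial.aeval_def, Polynomial.hom_eval₂, Polynomial.eval₂_map,
    coeffMap_comp_algebraMap]

theorem coeffMap_comp_aeval (g : R →+* S) (j : LaurentSeries R) :
    (coeffMap g).comp (Polynomial.aeval (R := R) j).toRingHom =
      (Polynomial.aeval (R := S) (coeffMap g j)).toRingHom.comp (Polynomial.mapRingHom g) := by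
  refine RingHom.ext fun f => ?_
  simp only [RingHom.coe_comp, Function.comp_apply, AlgHom.toRingHom_eq_coe, RingHom.coe_coe,
    Polynomial.coe_mapRingHom]
  exact coeffMap_aeval g j f

/-- Transfer of a two-variable relation along a coefficient map. -/
theorem coeffMap_eval₂_aeval (g : R →+* S) (j u : LaurentSeries R)
    (W : Polynomial (Polynomial R)) :
    coeffMap g (W.eval₂ (Polynomial.aeval (R := R) j).toRingHom u) =
      (W.map (Polynomial.mapRingHom g)).eval₂
        (Polynomial.aeval (R := S) (coeffMap g j)).toRingHom (coeffMap g u) := by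
  rw [Polynomial.hom_eval₂, Polynomial.eval₂_map, coeffMap_comp_aeval]

theorem coeffMap_injective {g : R →+* S} (hg : Function.Injective g) :
    Function.Injective (coeffMap g) := by
  intro x y h
  ext n
  apply hg
  have := congrArg (fun z : LaurentSeries S => z.coeff n) h
  simpa using this

end CoeffMapAeval

section Descent

variable {R k : Type*} [CommRing R] [Field k]

/-- Order and leading coefficient of the image of `j` when its lowest coefficient is a unit. -/
theorem order_coeffMap_of_isUnit (ι : R →+* k) {j : LaurentSeries R} {m : ℤ}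
    (hlow : ∀ i < m, j.coeff i = 0) (hunit : IsUnit (j.coeff m)) :
    coeffMap ι j ≠ 0 ∧ (coeffMap ι j).order = m ∧ (coeffMap ι j).leadingCoeff = ι (j.coeff m) := by
  have hne : ι (j.coeff m) ≠ 0 := (hunit.map ι).ne_zero
  have hc : (coeffMap ι j).coeff m ≠ 0 := by
    rw [coeffMap_coeff]
    exact hne
  have h0 : coeffMap ι j ≠ 0 := by
    intro h
    rw [h] at hc
    exact hc rfl
  have hord : (coeffMap ι j).order = m := by
    apply le_antisymm (HahnSeries.order_le_of_coeff_ne_zero hc)
    by_contra hlt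
    push Not at hlt
    have := HahnSeries.coeff_order_eq_zero.not.mpr h0
    apply this
    rw [coeffMap_coeff, hlow _ hlt, map_zero]
  refine ⟨h0, hord, ?_⟩
  rw [HahnSeries.leadingCoeff_eq, hord, coeffMap_coeff]

/-- Descent for polynomials in `j`: if `f ∈ k[Y]` and `f(ι j) ∈ ι(R((q)))` then `f ∈ ι(R[Y])`. -/
theorem exists_map_eq_of_aeval_mem_range_aux (ι : R →+* k) {j : LaurentSeries R} {m : ℤ}
    (hm : m < 0) (hlow : ∀ i < m, j.coeff i = 0) (hunit : IsUnit (j.coeff m)) :
    ∀ (n : ℕ) (f : Polynomial k), f.natDegree < n →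
      (∃ z : LaurentSeries R, coeffMap ι z = Polynomial.aeval (coeffMap ι j) f) →
      ∃ f' : Polynomial R, f'.map ι = f := by
  obtain ⟨hj0, hjo, hjl⟩ := order_coeffMap_of_isUnit ι hlow hunit
  have hjneg : (coeffMap ι j).order < 0 := by rw [hjo]; exact hm
  obtain ⟨v, hv⟩ := hunit.exists_left_inv
  intro n
  induction n with
  | zero => intro f hf; omega
  | succ n ih =>
    intro f hf ⟨z, hz⟩
    rcases eq_or_ne f 0 with rfl | hf0
    · exact ⟨0, Polynomial.map_zero _⟩
    set d := f.natDegree with hd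
    set a' : R := z.coeff ((d : ℤ) * m) * v ^ d with ha'
    have hlead : ι a' = f.leadingCoeff := by
      have h1 := leadingCoeff_aeval_of_order_neg hjneg hf0
      have h2 := order_aeval_of_order_neg hjneg hf0
      rw [HahnSeries.leadingCoeff_eq, h2, ← hz, coeffMap_coeff, hjl, hjo, ← hd] at h1
      rw [ha', map_mul, map_pow, h1, mul_assoc, ← mul_pow, ← map_mul, mul_comm (j.coeff m), hv,
        map_one, one_pow, mul_one]
    have herase : ∃ f₁' : Polynomial R, f₁'.map ι = f.eraseLead := by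
      rcases Polynomial.eraseLead_natDegree_lt_or_eraseLead_eq_zero f with hlt | h0
      · apply ih f.eraseLead (by omega)
        refine ⟨z - HahnSeries.C a' * j ^ d, ?_⟩
        rw [map_sub, map_mul, map_pow, coeffMap_hahnC, hz, hlead]
        have h3 := Polynomial.eraseLead_add_monomial_natDegree_leadingCoeff f
        have h4 := congrArg (Polynomial.aeval (coeffMap ι j)) h3
        rw [map_add, Polynomial.aeval_monomial, algebraMap_eq_hahnC, ← hd] at h4
        rw [← h4]
        ring
      · exact ⟨0, by rw [h0, Polynomial.map_zero]⟩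
    obtain ⟨f₁', hf₁'⟩ := herase
    refine ⟨f₁' + Polynomial.monomial d a', ?_⟩
    rw [Polynomial.map_add, Polynomial.map_monomial, hf₁', hlead]
    exact Polynomial.eraseLead_add_monomial_natDegree_leadingCoeff f

theorem exists_map_eq_of_aeval_mem_range (ι : R →+* k) {j : LaurentSeries R} {m : ℤ}
    (hm : m < 0) (hlow : ∀ i < m, j.coeff i = 0) (hunit : IsUnit (j.coeff m))
    (f : Polynomial k) (z : LaurentSeries R)
    (hz : coeffMap ι z = Polynomial.aeval (coeffMap ι j) f) :
    ∃ f' : Polynomial R, f'.map ι = f :=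
  exists_map_eq_of_aeval_mem_range_aux ι hm hlow hunit (f.natDegree + 1) f (Nat.lt_succ_self _)
    ⟨z, hz⟩

/-- Descent for two-variable polynomials: if `W(X, ι j) ∈ k((q))[X]` has all coefficients in
`ι(R((q)))` then `W ∈ ι(R[Y][X])`. -/
theorem exists_map_eq_of_map_aeval_eq (ι : R →+* k) {j : LaurentSeries R} {m : ℤ}
    (hm : m < 0) (hlow : ∀ i < m, j.coeff i = 0) (hunit : IsUnit (j.coeff m))
    (W : Polynomial (Polynomial k)) (Z : Polynomial (LaurentSeries R))
    (h : W.map (Polynomial.aeval (R := k) (coeffMap ι j)).toRingHom = Z.map (coeffMap ι)) :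
    W ∈ Polynomial.lifts (Polynomial.mapRingHom ι) := by
  rw [Polynomial.lifts_iff_coeff_lifts]
  intro i
  have hi := congrArg (fun P : Polynomial (LaurentSeries k) => P.coeff i) h
  simp only [Polynomial.coeff_map] at hi
  obtain ⟨f', hf'⟩ := exists_map_eq_of_aeval_mem_range ι hm hlow hunit (W.coeff i) (Z.coeff i)
    hi.symm
  exact ⟨f', hf'⟩

end Descent

section Transfer

variable {R k₀ : Type*} [CommRing R] [Field k₀] {p : ℕ} [NeZero p]

/-- **Descent of the prime-level relation.**  `ι : R →+* k₀` injective, `j, u, u' ∈ R((q))`, the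
lowest coefficient of `j` a unit in degree `m < 0`, `ord (ι u')` prime to `p ≥ 2`.  A monic
`W ∈ k₀[Y][X]` of degree `p + 1` with `W(ι u, ι j) = 0` and `W(ι u', σ (ι j)) = 0` comes from a monic
`W' ∈ R[Y][X]` of degree `p + 1` with `W'(u, j) = 0` and `W'(u', σ j) = 0` in `R((q))`. -/
theorem exists_descent (ι : R →+* k₀) (hι : Function.Injective ι) (hp2 : 2 ≤ p)
    {j u u' : LaurentSeries R} {m : ℤ} (hm : m < 0) (hlow : ∀ i < m, j.coeff i = 0)
    (hunit : IsUnit (j.coeff m))
    (hu' : coeffMap ι u' ≠ 0) (hcop : IsCoprime (coeffMap ι u').order (p : ℤ))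
    {W : Polynomial (Polynomial k₀)} (hW : W.Monic) (hWd : W.natDegree = p + 1)
    (h1 : W.eval₂ (Polynomial.aeval (R := k₀) (coeffMap ι j)).toRingHom (coeffMap ι u) = 0)
    (h2 : W.eval₂ (Polynomial.aeval (R := k₀) (qExpand k₀ p (coeffMap ι j))).toRingHom
      (coeffMap ι u') = 0) :
    ∃ W' : Polynomial (Polynomial R), W'.Monic ∧ W'.natDegree = p + 1 ∧
      W'.map (Polynomial.mapRingHom ι) = W ∧
      W'.eval₂ (Polynomial.aeval (R := R) j).toRingHom u = 0 ∧
      W'.eval₂ (Polynomial.aeval (R := R) (qExpand R p j)).toRingHom u' = 0 := by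
  set g : Polynomial k₀ →+* LaurentSeries k₀ :=
    (Polynomial.aeval (R := k₀) (coeffMap ι j)).toRingHom with hg
  have hfac := eq_X_sub_C_mul_charpolyσ hu' hcop hp2 (Q := W.map g) (hW.map g)
    (by rw [hW.natDegree_map, hWd])
    (by rw [Polynomial.eval₂_map, hg, ← aeval_qExpand_ringHom]; exact h2)
    (c := coeffMap ι u) (by rw [Polynomial.eval_map]; exact h1)
  have hZ : W.map g = ((X - Polynomial.C u) * charpolyσ p u').map (coeffMap ι) := by
    rw [hfac, Polynomial.map_mul, Polynomial.map_sub, Polynomial.map_X, Polynomial.map_C,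
      charpolyσ_map]
  have hlift := exists_map_eq_of_map_aeval_eq ι hm hlow hunit W _ hZ
  obtain ⟨W', hW'map, hW'deg, hW'm⟩ := Polynomial.lifts_and_natDegree_eq_and_monic hlift hW
  refine ⟨W', hW'm, by rw [hW'deg, hWd], hW'map, ?_, ?_⟩
  · apply coeffMap_injective hι
    rw [coeffMap_eval₂_aeval, map_zero]
    rw [show Polynomial.map (Polynomial.mapRingHom ι) W' = W from hW'map]
    exact h1
  · apply coeffMap_injective hι
    rw [coeffMap_eval₂_aeval, map_zero, coeffMap_qExpand]
    rw [show Polynomial.map (Polynomial.mapRingHom ι) W' = W from hW'map]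
    exact h2

/-- **Prime-level Igusa, packaged.**  From the relation `W` over a field `k₀ ⊇ R` (e.g. `ℂ`) to the
degree statement over any field `k` with a ring hom `g : R →+* k` (e.g. `ℤ_(ℓ) → 𝔽_ℓ`):
every nonzero `G ∈ k[Y][X]` with `G(ū, j̄) = 0` has `X`-degree `≥ p + 1`. -/
theorem le_natDegree_of_descent {k : Type*} [Field k] (ι : R →+* k₀)
    (hι : Function.Injective ι) (g : R →+* k) (hp2 : 2 ≤ p)
    {j u u' : LaurentSeries R} {m : ℤ} (hm : m < 0) (hlow : ∀ i < m, j.coeff i = 0)
    (hunit : IsUnit (j.coeff m))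
    (hu'₀ : coeffMap ι u' ≠ 0) (hcop₀ : IsCoprime (coeffMap ι u').order (p : ℤ))
    {W : Polynomial (Polynomial k₀)} (hW : W.Monic) (hWd : W.natDegree = p + 1)
    (h1 : W.eval₂ (Polynomial.aeval (R := k₀) (coeffMap ι j)).toRingHom (coeffMap ι u) = 0)
    (h2 : W.eval₂ (Polynomial.aeval (R := k₀) (qExpand k₀ p (coeffMap ι j))).toRingHom
      (coeffMap ι u') = 0)
    (hu : 0 < (coeffMap g u).order) (hu' : coeffMap g u' ≠ 0)
    (hcop : IsCoprime (coeffMap g u').order (p : ℤ))
    {G : Polynomial (Polynomial k)} (hG : G ≠ 0)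
    (hGu : G.eval₂ (Polynomial.aeval (R := k) (coeffMap g j)).toRingHom (coeffMap g u) = 0) :
    p + 1 ≤ G.natDegree := by
  obtain ⟨W', hW'm, hW'd, -, hr1, hr2⟩ :=
    exists_descent ι hι hp2 hm hlow hunit hu'₀ hcop₀ hW hWd h1 h2
  obtain ⟨-, hjo, -⟩ := order_coeffMap_of_isUnit g hlow hunit
  have hjneg : (coeffMap g j).order < 0 := by rw [hjo]; exact hm
  have hWk : (W'.map (Polynomial.mapRingHom g)).Monic := hW'm.map _
  have hWkd : (W'.map (Polynomial.mapRingHom g)).natDegree = p + 1 := by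
    rw [hW'm.natDegree_map, hW'd]
  have e1 := coeffMap_eval₂_aeval g j u W'
  rw [hr1, map_zero] at e1
  have e2 := coeffMap_eval₂_aeval g (qExpand R p j) u' W'
  rw [hr2, map_zero, coeffMap_qExpand] at e2
  exact le_natDegree_of_eval₂_aeval_eq_zero hjneg hu hu' hcop hp2 hWk hWkd e1.symm e2.symm hG hGu

end Transfer

end Fermat.Agent.S28


end ZBS28_002_2

/-! ### bundled: `Fermat.Agent.S28.InductionLaurent` -/
section ZBS28_002_3

/-!
# S28, Part Q2: the Igusa induction for `k((q))`

Instantiation of `Fermat.Agent.S28.Induction` with `L = k((q))`, `σ d = (q ↦ q ^ d)`,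
`y = j̄ = jqModC k`:

`dedekindPsi N ≤ [k(j̄(q^d) : d ∣ N) : k(j̄)]`, given for every prime `p ∣ N` the (symmetric)
modular equation `Φ_p` over `k` and `j̄(q^p) ∉ k(j̄)`.
-/

set_option autoImplicit false

namespace Fermat.Agent.S28

open ModularCurve Polynomial IntermediateField

section Instantiate

variable (k : Type*) [Field k]

/-- `q ↦ q ^ d` as a `k`-algebra endomorphism of `k((q))`, total in `d` (identity for `d = 0`). -/
noncomputable def sig (d : ℕ) : LaurentSeries k →ₐ[k] LaurentSeries k :=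
  if h : d = 0 then AlgHom.id k _ else haveI : NeZero d := ⟨h⟩; qExpandAlgHomC k d

theorem sig_eq (d : ℕ) [NeZero d] : sig k d = qExpandAlgHomC k d := by
  rw [sig, dif_neg (NeZero.ne d)]

theorem sig_apply (d : ℕ) [NeZero d] (x : LaurentSeries k) : sig k d x = qExpand k d x := by
  rw [sig_eq]; rfl

theorem sig_coe (d : ℕ) [NeZero d] :
    ((sig k d : LaurentSeries k →ₐ[k] LaurentSeries k) : LaurentSeries k →+* LaurentSeries k) =
      qExpand k d := by
  ext x : 1
  exact sig_apply k d x

theorem sig_one : sig k 1 = AlgHom.id k _ := by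
  ext x : 1
  rw [sig_apply, qExpand_one_apply]
  rfl

theorem sig_mul (m n : ℕ) (hm : m ≠ 0) (hn : n ≠ 0) :
    (sig k m).comp (sig k n) = sig k (m * n) := by
  have : NeZero m := ⟨hm⟩
  have : NeZero n := ⟨hn⟩
  have : NeZero (m * n) := ⟨Nat.mul_ne_zero hm hn⟩
  ext x : 1
  rw [AlgHom.comp_apply, sig_apply, sig_apply, sig_apply, qExpand_qExpand]

theorem jqModC_ne_zero : jqModC k ≠ 0 := jqModC_ne_zero_of_nontrivial k

theorem order_jqModC : (jqModC k).order = -1 := by
  have h1 : (jqModC k).coeff (-1) ≠ 0 := by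
    rw [coeff_jqModC_neg_one]; exact one_ne_zero
  apply le_antisymm (HahnSeries.order_le_of_coeff_ne_zero h1)
  by_contra hlt
  push Not at hlt
  have h2 : (jqModC k).coeff (jqModC k).order = 0 := coeff_jqModC_of_lt k hlt
  exact (HahnSeries.coeff_order_eq_zero.not.mpr (jqModC_ne_zero k)) h2

theorem lowDeg_sig : LowDeg (sig k) (jqModC k) := by
  intro p d hp hd hpd Q hQ h
  have : NeZero p := ⟨hp.ne_zero⟩
  have : NeZero d := ⟨hd⟩
  rw [sig_coe, sig_apply] at h
  have hy : qExpand k d (jqModC k) ≠ 0 := qExpand_ne_zero (jqModC_ne_zero k)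
  have hcop : IsCoprime (qExpand k d (jqModC k)).order (p : ℤ) := by
    rw [order_qExpand, order_jqModC, mul_neg, mul_one]
    apply IsCoprime.neg_left
    rw [Nat.isCoprime_iff_coprime]
    exact ((Nat.Prime.coprime_iff_not_dvd hp).mpr hpd).symm
  exact le_natDegree_of_eval₂_eq_zero hy hcop hQ h

theorem Fbar_sig_eq (N : ℕ) [NeZero N] :
    Fbar (sig k) (jqModC k) N = modularFunctionFieldFullC k N := by
  rw [Fbar, modularFunctionFieldFullC]
  congr 1
  ext x
  constructor
  · rintro ⟨d, hd, rfl⟩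
    have hd0 : d ≠ 0 := fun h => NeZero.ne N (by rw [h] at hd; exact zero_dvd_iff.mp hd)
    have : NeZero d := ⟨hd0⟩
    exact ⟨d, ⟨hd0⟩, hd, sig_apply k d _⟩
  · rintro ⟨d, hne, hd, rfl⟩
    have := hne
    exact ⟨d, hd, (sig_apply k d _).symm⟩

/-- The hypotheses at a prime `p`: the symmetric modular equation over `k`, and `j̄(q^p) ∉ k(j̄)`. -/
def PrimeHyp (p : ℕ) [NeZero p] : Prop :=
  (∃ Φ : (k[X])[X], Φ.Monic ∧ Φ.natDegree = p + 1 ∧
      Φ.eval₂ (aeval (jqModC k) : k[X] →ₐ[k] LaurentSeries k).toRingHom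
        (qExpand k p (jqModC k)) = 0 ∧
      Φ.eval₂ (aeval (qExpand k p (jqModC k)) : k[X] →ₐ[k] LaurentSeries k).toRingHom
        (jqModC k) = 0) ∧
    qExpand k p (jqModC k) ∉ adjoin k {jqModC k}

theorem primeHyp_iff (p : ℕ) [NeZero p] :
    PrimeHyp k p ↔ (∃ Φ : (k[X])[X], ModEq (sig k) (jqModC k) p Φ) ∧
      sig k p (jqModC k) ∉ adjoin k {jqModC k} := by
  simp only [PrimeHyp, ModEq, sig_apply]

variable {k}

theorem primeData_of_primeHyp (N : ℕ)
    (h : ∀ p : ℕ, p.Prime → p ∣ N → ∀ [NeZero p], PrimeHyp k p) :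
    ∀ p, p.Prime → p ∣ N → (∃ Φ : (k[X])[X], ModEq (sig k) (jqModC k) p Φ) ∧
      sig k p (jqModC k) ∉ adjoin k {jqModC k} := by
  intro p hp hpN
  have : NeZero p := ⟨hp.ne_zero⟩
  exact (primeHyp_iff k p).mp (h p hp hpN)

/-- **Q2, cardinal form.** -/
theorem natCast_dedekindPsi_le_relrank (N : ℕ) [NeZero N]
    (h : ∀ p : ℕ, p.Prime → p ∣ N → ∀ [NeZero p], PrimeHyp k p) :
    (dedekindPsi N : Cardinal) ≤
      (adjoin k {jqModC k}).relrank (modularFunctionFieldFullC k N) := by
  rw [← Fbar_sig_eq]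
  exact natCast_le_relrank_Fbar (sig_one k) (sig_mul k) (lowDeg_sig k) dedekindPsi
    dedekindPsi_one
    (fun p a hp ha hpa => Fermat.Agent.S20.dedekindPsi_mul_of_dvd hp hpa ha)
    (fun p a hp _ hpa => Fermat.Agent.S20.dedekindPsi_mul_of_not_dvd hp hpa)
    N (NeZero.ne N) (primeData_of_primeHyp N h)

/-- Finiteness of `k(j̄(q^d) : d ∣ N)` over `k(j̄)` (needs only the modular equations). -/
theorem relrank_full_lt_aleph0 (N : ℕ) [NeZero N]
    (h : ∀ p : ℕ, p.Prime → p ∣ N → ∀ [NeZero p], PrimeHyp k p) :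
    (adjoin k {jqModC k}).relrank (modularFunctionFieldFullC k N) < Cardinal.aleph0 := by
  rw [← Fbar_sig_eq]
  exact relrank_Fbar_lt_aleph0 (sig_one k) (sig_mul k) N (NeZero.ne N)
    (fun p hp hpN => (primeData_of_primeHyp N h p hp hpN).1)

/-- **Q2** (Igusa, lower bound): `ψ(N) ≤ [k(j̄(q^d) : d ∣ N) : k(j̄)]`. -/
theorem dedekindPsi_le_relfinrank (N : ℕ) [NeZero N]
    (h : ∀ p : ℕ, p.Prime → p ∣ N → ∀ [NeZero p], PrimeHyp k p) :
    dedekindPsi N ≤ (adjoin k {jqModC k}).relfinrank (modularFunctionFieldFullC k N) := by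
  rw [← Fbar_sig_eq]
  exact le_relfinrank_Fbar (sig_one k) (sig_mul k) (lowDeg_sig k) dedekindPsi
    dedekindPsi_one
    (fun p a hp ha hpa => Fermat.Agent.S20.dedekindPsi_mul_of_dvd hp hpa ha)
    (fun p a hp _ hpa => Fermat.Agent.S20.dedekindPsi_mul_of_not_dvd hp hpa)
    N (NeZero.ne N) (primeData_of_primeHyp N h)

end Instantiate

end Fermat.Agent.S28


end ZBS28_002_3

/-! ### bundled: `Fermat.Agent.S28.Transfer` -/
section ZBS28_002_4

/-!
# S28 — transfer: Laurent relations over a field `k₀ ⊇ R` ⟹ `PrimeHyp k p` for fields `k` receiving `R`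

`uS R p = Δ(q^p)/Δ(q)`, `uInvS R p = Δ(q)/Δ(q^p)` (formal).  Inputs over `k₀` (think `ℂ`):
* (P1) the symmetric modular equation,
* (P2) `U(u_p, j) = 0`, `U(p⁻¹² u_p⁻¹, σ_p j) = 0`,
* (c') `(θ j)^6 = G(j) Δ`.
Output: `PrimeHyp k p` (modular equation over `k` and `σ_p j ∉ k(j)`) for every field `k` in which
`p ≠ 0`.
-/

set_option autoImplicit false

namespace Fermat.Agent.S28

open ModularCurve Polynomial

section UnitSeries

theorem deltaZ_mul_deltaInvZ : deltaZ * deltaInvZ = 1 := by
  rw [deltaZ, deltaInvZ, mul_mul_mul_comm, HahnSeries.single_mul_single, ← map_mul,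
    dedekindEtaUnit_mul_inv, map_one, mul_one, add_neg_cancel, mul_one]
  rfl

variable (R : Type*) [CommRing R]

theorem deltaS_mul_deltaInvS : deltaS R * deltaInvS R = 1 := by
  rw [deltaS, deltaInvS, ← map_mul, deltaZ_mul_deltaInvZ, map_one]

/-- The formal inverse unit `Δ(q)/Δ(q^p)`. -/
noncomputable def uInvS (p : ℕ) [NeZero p] : LaurentSeries R :=
  coeffMap (Int.castRingHom R) (deltaZ * qExpand ℤ p deltaInvZ)

variable (p : ℕ) [NeZero p]

theorem uS_eq_qExpand_mul : uS R p = qExpand R p (deltaS R) * deltaInvS R := by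
  rw [uS, uZ, map_mul, coeffMap_qExpand]
  rfl

theorem uInvS_eq_mul_qExpand : uInvS R p = deltaS R * qExpand R p (deltaInvS R) := by
  rw [uInvS, map_mul, coeffMap_qExpand]
  rfl

theorem uS_mul_uInvS : uS R p * uInvS R p = 1 := by
  have h1 : qExpand R p (deltaS R) * qExpand R p (deltaInvS R) = 1 := by
    rw [← map_mul, deltaS_mul_deltaInvS, map_one]
  have h2 := deltaS_mul_deltaInvS R
  rw [uS_eq_qExpand_mul, uInvS_eq_mul_qExpand]
  calc qExpand R p (deltaS R) * deltaInvS R * (deltaS R * qExpand R p (deltaInvS R))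
      = (qExpand R p (deltaS R) * qExpand R p (deltaInvS R)) * (deltaS R * deltaInvS R) := by ring
    _ = 1 := by rw [h1, h2, mul_one]

theorem qExpand_deltaS_eq : qExpand R p (deltaS R) = uS R p * deltaS R := by
  rw [uS_eq_qExpand_mul, mul_assoc, mul_comm (deltaInvS R), deltaS_mul_deltaInvS, mul_one]

variable {R}

theorem coeffMap_deltaS {S : Type*} [CommRing S] (g : R →+* S) :
    coeffMap g (deltaS R) = deltaS S := by
  rw [deltaS, deltaS, coeffMap_coeffMap]
  exact coeffMap_congr (RingHom.ext_int _ _) _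

theorem coeffMap_deltaInvS {S : Type*} [CommRing S] (g : R →+* S) :
    coeffMap g (deltaInvS R) = deltaInvS S := by
  rw [deltaInvS, deltaInvS, coeffMap_coeffMap]
  exact coeffMap_congr (RingHom.ext_int _ _) _

theorem coeffMap_uS {S : Type*} [CommRing S] (g : R →+* S) :
    coeffMap g (uS R p) = uS S p := by
  rw [uS, uS, coeffMap_coeffMap]
  exact coeffMap_congr (RingHom.ext_int _ _) _

theorem coeffMap_uInvS {S : Type*} [CommRing S] (g : R →+* S) :
    coeffMap g (uInvS R p) = uInvS S p := by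
  rw [uInvS, uInvS, coeffMap_coeffMap]
  exact coeffMap_congr (RingHom.ext_int _ _) _

theorem deltaS_eq (R : Type*) [CommRing R] :
    deltaS R = HahnSeries.single (1 : ℤ) (1 : R) *
      HahnSeries.ofPowerSeries ℤ R (dedekindEtaUnit.map (Int.castRingHom R)) := by
  rw [deltaS, deltaZ, map_mul, coeffMap_single, coeffMap_ofPowerSeries, map_one]

theorem deltaInvS_eq (R : Type*) [CommRing R] :
    deltaInvS R = HahnSeries.single (-1 : ℤ) (1 : R) *
      HahnSeries.ofPowerSeries ℤ R (dedekindEtaUnitInv.map (Int.castRingHom R)) := by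
  rw [deltaInvS, deltaInvZ, map_mul, coeffMap_single, coeffMap_ofPowerSeries, map_one]

section FieldFacts

variable (k : Type*) [Field k]

theorem deltaS_ne_zero : deltaS k ≠ 0 := by
  intro h
  have := deltaS_mul_deltaInvS k
  rw [h, zero_mul] at this
  exact zero_ne_one this

theorem deltaInvS_ne_zero : deltaInvS k ≠ 0 := by
  intro h
  have := deltaS_mul_deltaInvS k
  rw [h, mul_zero] at this
  exact zero_ne_one this

theorem deltaInvS_eq_inv : deltaInvS k = (deltaS k)⁻¹ :=
  eq_inv_of_mul_eq_one_right (deltaS_mul_deltaInvS k)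

theorem uS_ne_zero : uS k p ≠ 0 := by
  intro h
  have := uS_mul_uInvS k p
  rw [h, zero_mul] at this
  exact zero_ne_one this

theorem uInvS_ne_zero : uInvS k p ≠ 0 := by
  intro h
  have := uS_mul_uInvS k p
  rw [h, mul_zero] at this
  exact zero_ne_one this

theorem uInvS_eq_inv : uInvS k p = (uS k p)⁻¹ :=
  eq_inv_of_mul_eq_one_right (uS_mul_uInvS k p)

theorem uS_eq_div : uS k p = qExpand k p (deltaS k) * (deltaS k)⁻¹ := by
  rw [uS_eq_qExpand_mul, deltaInvS_eq_inv]

theorem uInvS_eq_div : uInvS k p = deltaS k * (qExpand k p (deltaS k))⁻¹ := by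
  rw [uInvS_eq_mul_qExpand, deltaInvS_eq_inv, map_inv₀]

theorem coeff_deltaS_one : (deltaS k).coeff 1 = 1 := by
  rw [deltaS_eq, HahnSeries.coeff_single_mul, one_mul, sub_self]
  have := HahnSeries.ofPowerSeries_apply_coeff (Γ := ℤ)
    (dedekindEtaUnit.map (Int.castRingHom k)) 0
  simp only [Nat.cast_zero] at this
  rw [this, PowerSeries.coeff_map, PowerSeries.coeff_zero_eq_constantCoeff,
    constantCoeff_dedekindEtaUnit]
  simp

theorem coeff_deltaS_of_lt {n : ℤ} (hn : n < 1) : (deltaS k).coeff n = 0 := by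
  rw [deltaS_eq, HahnSeries.coeff_single_mul, one_mul]
  exact ofPowerSeries_coeff_of_neg _ (by omega)

theorem order_deltaS : (deltaS k).order = 1 := by
  have h1 : (deltaS k).coeff 1 ≠ 0 := by
    rw [coeff_deltaS_one]; exact one_ne_zero
  apply le_antisymm (HahnSeries.order_le_of_coeff_ne_zero h1)
  by_contra hlt
  push Not at hlt
  exact (HahnSeries.coeff_order_eq_zero.not.mpr (deltaS_ne_zero k)) (coeff_deltaS_of_lt k hlt)

theorem order_deltaInvS : (deltaInvS k).order = -1 := by
  have h := congrArg HahnSeries.order (deltaS_mul_deltaInvS k)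
  rw [HahnSeries.order_mul (deltaS_ne_zero k) (deltaInvS_ne_zero k), order_deltaS,
    HahnSeries.order_one] at h
  omega

theorem order_uS : (uS k p).order = (p : ℤ) - 1 := by
  rw [uS_eq_qExpand_mul, HahnSeries.order_mul (qExpand_ne_zero (deltaS_ne_zero k)) (deltaInvS_ne_zero k),
    order_qExpand, order_deltaS, order_deltaInvS]
  ring

theorem order_uInvS : (uInvS k p).order = 1 - (p : ℤ) := by
  rw [uInvS_eq_mul_qExpand, HahnSeries.order_mul (deltaS_ne_zero k) (qExpand_ne_zero (deltaInvS_ne_zero k)),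
    order_qExpand, order_deltaS, order_deltaInvS]
  ring

end FieldFacts

end UnitSeries

section Hyps

/-- (P1) in Laurent form over a field: the symmetric modular equation of level `p`. -/
def ModEqHyp (k : Type*) [Field k] (p : ℕ) [NeZero p] : Prop :=
  ∃ Φ : Polynomial (Polynomial k), Φ.Monic ∧ Φ.natDegree = p + 1 ∧
    Φ.eval₂ (Polynomial.aeval (R := k) (jqModC k)).toRingHom (qExpand k p (jqModC k)) = 0 ∧
    Φ.eval₂ (Polynomial.aeval (R := k) (qExpand k p (jqModC k))).toRingHom (jqModC k) = 0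

/-- (P2) in Laurent form over a field: the two relations of the modular unit
`u_p = Δ(q^p)/Δ(q)`. -/
def UnitHyp (k : Type*) [Field k] (p : ℕ) [NeZero p] : Prop :=
  ∃ U : Polynomial (Polynomial k), U.Monic ∧ U.natDegree = p + 1 ∧
    U.eval₂ (Polynomial.aeval (R := k) (jqModC k)).toRingHom (uS k p) = 0 ∧
    U.eval₂ (Polynomial.aeval (R := k) (qExpand k p (jqModC k))).toRingHom
      (HahnSeries.C (((p : k)⁻¹) ^ 12) * uInvS k p) = 0

/-- (c') in Laurent form over a field: `(θ j)^6 = G(j) Δ`. -/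
def ThetaHyp (k : Type*) [Field k] : Prop :=
  ∃ G : Polynomial k, G ≠ 0 ∧
    Deriv.thetaFun (jqModC k) ^ 6 = Polynomial.aeval (jqModC k) G * deltaS k

end Hyps

section Main

variable {R k₀ k : Type*} [CommRing R] [Field k₀] [Field k] {p : ℕ} [NeZero p]

/-- Transfer of a pair of relations from `k₀` to `k` through `R`. -/
theorem exists_transfer (ι : R →+* k₀) (hι : Function.Injective ι) (g : R →+* k) (hp2 : 2 ≤ p)
    {j u u' : LaurentSeries R} {m : ℤ} (hm : m < 0) (hlow : ∀ i < m, j.coeff i = 0)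
    (hunit : IsUnit (j.coeff m))
    (hu' : coeffMap ι u' ≠ 0) (hcop : IsCoprime (coeffMap ι u').order (p : ℤ))
    (h : ∃ W : Polynomial (Polynomial k₀), W.Monic ∧ W.natDegree = p + 1 ∧
      W.eval₂ (Polynomial.aeval (R := k₀) (coeffMap ι j)).toRingHom (coeffMap ι u) = 0 ∧
      W.eval₂ (Polynomial.aeval (R := k₀) (qExpand k₀ p (coeffMap ι j))).toRingHom
        (coeffMap ι u') = 0) :
    ∃ W : Polynomial (Polynomial k), W.Monic ∧ W.natDegree = p + 1 ∧
      W.eval₂ (Polynomial.aeval (R := k) (coeffMap g j)).toRingHom (coeffMap g u) = 0 ∧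
      W.eval₂ (Polynomial.aeval (R := k) (qExpand k p (coeffMap g j))).toRingHom
        (coeffMap g u') = 0 := by
  obtain ⟨W, hW, hWd, h1, h2⟩ := h
  obtain ⟨W', hW'm, hW'd, -, hr1, hr2⟩ :=
    exists_descent ι hι hp2 hm hlow hunit hu' hcop hW hWd h1 h2
  refine ⟨W'.map (Polynomial.mapRingHom g), hW'm.map _, by rw [hW'm.natDegree_map, hW'd], ?_, ?_⟩
  · have e1 := coeffMap_eval₂_aeval g j u W'
    rw [hr1, map_zero] at e1
    exact e1.symm
  · have e2 := coeffMap_eval₂_aeval g (qExpand R p j) u' W'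
    rw [hr2, map_zero, coeffMap_qExpand] at e2
    exact e2.symm

theorem jqModC_lowest (R : Type*) [CommRing R] :
    (∀ i < (-1 : ℤ), (jqModC R).coeff i = 0) ∧ IsUnit ((jqModC R).coeff (-1)) := by
  refine ⟨fun i hi => coeff_jqModC_of_lt R hi, ?_⟩
  rw [coeff_jqModC_neg_one]
  exact isUnit_one

theorem isCoprime_neg_one_natCast (p : ℕ) : IsCoprime (-1 : ℤ) (p : ℤ) :=
  isCoprime_one_left.neg_left

/-- (P1) transfers from `k₀` to `k` through any `R ⊆ k₀`. -/
theorem modEqHyp_transfer (ι : R →+* k₀) (hι : Function.Injective ι) (g : R →+* k)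
    (hp2 : 2 ≤ p) (h : ModEqHyp k₀ p) : ModEqHyp k p := by
  obtain ⟨hlow, hunit⟩ := jqModC_lowest R
  have hjι : coeffMap ι (jqModC R) = jqModC k₀ := coeffMap_jqModC ι
  have hjg : coeffMap g (jqModC R) = jqModC k := coeffMap_jqModC g
  have hu' : coeffMap ι (jqModC R) ≠ 0 := by rw [hjι]; exact jqModC_ne_zero k₀
  have hcop : IsCoprime (coeffMap ι (jqModC R)).order (p : ℤ) := by
    rw [hjι, order_jqModC]; exact isCoprime_neg_one_natCast p
  have := exists_transfer ι hι g hp2 (j := jqModC R) (u := qExpand R p (jqModC R))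
    (u' := jqModC R) (by norm_num) hlow hunit hu' hcop
    (by rw [coeffMap_qExpand, hjι]; exact h)
  rw [coeffMap_qExpand, hjg] at this
  exact this

omit [NeZero p] in
theorem map_inv_natCast (f : R →+* k) {v : R} (hv : v * (p : R) = 1) : f v = ((p : k))⁻¹ := by
  have h := congrArg f hv
  rw [map_mul, map_natCast, map_one] at h
  exact eq_inv_of_mul_eq_one_left h

omit [NeZero p] in
theorem natCast_ne_zero_of_inv (f : R →+* k) {v : R} (hv : v * (p : R) = 1) : (p : k) ≠ 0 := by
  have h := congrArg f hv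
  rw [map_mul, map_natCast, map_one] at h
  intro h0
  rw [h0, mul_zero] at h
  exact zero_ne_one h

theorem isCoprime_one_sub_natCast (p : ℕ) : IsCoprime (1 - (p : ℤ)) (p : ℤ) :=
  ⟨1, 1, by ring⟩

/-- (P2) transfers from `k₀` to `k` through any `R ⊆ k₀` in which `p` is invertible. -/
theorem unitHyp_transfer (ι : R →+* k₀) (hι : Function.Injective ι) (g : R →+* k)
    (hp2 : 2 ≤ p) {v : R} (hv : v * (p : R) = 1) (h : UnitHyp k₀ p) : UnitHyp k p := by
  obtain ⟨hlow, hunit⟩ := jqModC_lowest R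
  have hjι : coeffMap ι (jqModC R) = jqModC k₀ := coeffMap_jqModC ι
  have hjg : coeffMap g (jqModC R) = jqModC k := coeffMap_jqModC g
  have hp0 : (p : k₀) ≠ 0 := natCast_ne_zero_of_inv ι hv
  have hu'ι : coeffMap ι (HahnSeries.C (v ^ 12) * uInvS R p) =
      HahnSeries.C (((p : k₀)⁻¹) ^ 12) * uInvS k₀ p := by
    rw [map_mul, coeffMap_hahnC, coeffMap_uInvS, map_pow, map_inv_natCast ι hv]
  have hu'g : coeffMap g (HahnSeries.C (v ^ 12) * uInvS R p) =
      HahnSeries.C (((p : k)⁻¹) ^ 12) * uInvS k p := by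
    rw [map_mul, coeffMap_hahnC, coeffMap_uInvS, map_pow, map_inv_natCast g hv]
  have hC : (HahnSeries.C (((p : k₀)⁻¹) ^ 12) : LaurentSeries k₀) ≠ 0 :=
    HahnSeries.C_ne_zero (pow_ne_zero _ (inv_ne_zero hp0))
  have hu' : coeffMap ι (HahnSeries.C (v ^ 12) * uInvS R p) ≠ 0 := by
    rw [hu'ι]
    exact mul_ne_zero hC (uInvS_ne_zero p k₀)
  have hcop : IsCoprime (coeffMap ι (HahnSeries.C (v ^ 12) * uInvS R p)).order (p : ℤ) := by
    rw [hu'ι, HahnSeries.order_mul hC (uInvS_ne_zero p k₀), HahnSeries.order_C, zero_add,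
      order_uInvS]
    exact isCoprime_one_sub_natCast p
  have := exists_transfer ι hι g hp2 (j := jqModC R) (u := uS R p)
    (u' := HahnSeries.C (v ^ 12) * uInvS R p) (by norm_num) hlow hunit hu' hcop
    (by rw [hu'ι, coeffMap_uS, hjι]; exact h)
  rw [hu'g, coeffMap_uS, hjg] at this
  exact this

/-- (c') transfers from `k₀` to `k` through any `R ⊆ k₀`. -/
theorem thetaHyp_transfer (ι : R →+* k₀) (hι : Function.Injective ι) (g : R →+* k)
    (h : ThetaHyp k₀) : ThetaHyp k := by
  obtain ⟨hlow, hunit⟩ := jqModC_lowest R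
  have hjι : coeffMap ι (jqModC R) = jqModC k₀ := coeffMap_jqModC ι
  have hjg : coeffMap g (jqModC R) = jqModC k := coeffMap_jqModC g
  obtain ⟨G, -, hG⟩ := h
  -- descent of `G`
  have hz : coeffMap ι (Deriv.thetaFun (jqModC R) ^ 6 * deltaInvS R) =
      Polynomial.aeval (coeffMap ι (jqModC R)) G := by
    rw [map_mul, map_pow, ← Deriv.thetaFun_coeffMap, hjι, coeffMap_deltaInvS, hG, mul_assoc,
      deltaS_mul_deltaInvS, mul_one]
  obtain ⟨G', hG'⟩ := exists_map_eq_of_aeval_mem_range ι (by norm_num : (-1 : ℤ) < 0) hlow hunit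
    G _ hz
  -- the relation over `R`
  have hR : Deriv.thetaFun (jqModC R) ^ 6 = Polynomial.aeval (jqModC R) G' * deltaS R := by
    apply coeffMap_injective hι
    rw [map_mul, map_pow, ← Deriv.thetaFun_coeffMap, coeffMap_aeval, hjι, hG', coeffMap_deltaS]
    exact hG
  -- the relation over `k`
  have hk : Deriv.thetaFun (jqModC k) ^ 6 =
      Polynomial.aeval (jqModC k) (G'.map g) * deltaS k := by
    have := congrArg (coeffMap g) hR
    rwa [map_mul, map_pow, ← Deriv.thetaFun_coeffMap, coeffMap_aeval, hjg, coeffMap_deltaS]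
      at this
  refine ⟨G'.map g, ?_, hk⟩
  intro h0
  rw [h0, map_zero, zero_mul] at hk
  have hθ : Deriv.thetaFun (jqModC k) = 0 := by
    exact pow_eq_zero_iff (n := 6) (by norm_num) |>.mp hk
  have hc := congrArg (fun z : LaurentSeries k => z.coeff (-1)) hθ
  simp only [Deriv.thetaFun_coeff, HahnSeries.coeff_zero] at hc
  rw [coeff_jqModC_neg_one] at hc
  simp at hc

/-- **Prime level, packaged.**  If (P1), (P2), (c') hold over a field `k₀ ⊇ R` and `p ≥ 2` is
invertible in `R`, then for every field `k` with a ring hom `R →+* k`: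
the modular equation holds over `k` and `j(q^p) ∉ k(j)`. -/
theorem primeHyp_of_hyps (ι : R →+* k₀) (hι : Function.Injective ι) (g : R →+* k)
    (hp2 : 2 ≤ p) {v : R} (hv : v * (p : R) = 1)
    (h1 : ModEqHyp k₀ p) (h2 : UnitHyp k₀ p) (h3 : ThetaHyp k₀) : PrimeHyp k p := by
  have hΦ := modEqHyp_transfer ι hι g hp2 h1
  obtain ⟨U, hUm, -, hU1, hU2⟩ := unitHyp_transfer ι hι g hp2 hv h2
  obtain ⟨G, hG0, hG⟩ := thetaHyp_transfer ι hι g h3
  refine ⟨hΦ, ?_⟩
  obtain ⟨Φ, hΦm, -, hΦ1, -⟩ := hΦ
  have hpk : (p : k) ≠ 0 := natCast_ne_zero_of_inv g hv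
  have hjneg : (jqModC k).order < 0 := by rw [order_jqModC]; norm_num
  have hjt : Transcendental k (jqModC k) :=
    transcendental_iff_injective.mpr (aeval_injective_of_order_neg hjneg)
  have hc₀ : (((p : k)⁻¹) ^ 12) ≠ 0 := pow_ne_zero _ (inv_ne_zero hpk)
  have hun : ∃ n : ℤ, n ≠ 0 ∧ (uS k p).coeff n ≠ 0 := by
    refine ⟨(uS k p).order, ?_, HahnSeries.coeff_order_eq_zero.not.mpr (uS_ne_zero p k)⟩
    rw [order_uS]
    have : (2 : ℤ) ≤ (p : ℤ) := by exact_mod_cast hp2
    omega
  have huu' : uS k p * (HahnSeries.C (((p : k)⁻¹) ^ 12) * uInvS k p) =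
      HahnSeries.C (((p : k)⁻¹) ^ 12) := by
    rw [mul_left_comm, uS_mul_uInvS, mul_one]
  have hu : HahnSeries.C (1 : k) * qExpand k p (deltaS k) = uS k p * deltaS k := by
    rw [map_one, one_mul, qExpand_deltaS_eq]
  exact Deriv.qExpand_not_mem_adjoin_of_theta' p hpk (jqModC k) (deltaS k) (uS k p)
    (HahnSeries.C (((p : k)⁻¹) ^ 12) * uInvS k p) hjt (deltaS_ne_zero k) 1 hu hun
    (((p : k)⁻¹) ^ 12) hc₀ huu' G hG0 hG Φ hΦm hΦ1 U hUm hU1 U hUm hU2

end Main

section AwayInstance

variable {k₀ k : Type*} [Field k₀] [Field k] {p : ℕ} [NeZero p]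

omit [NeZero p] in
theorem isUnit_intCast_powers {F : Type*} [Field F] (hp : (p : F) ≠ 0)
    (y : Submonoid.powers (p : ℤ)) : IsUnit (Int.castRingHom F y) := by
  obtain ⟨n, hn⟩ := y.2
  rw [← hn, map_pow]
  refine (IsUnit.pow n ?_)
  rw [eq_intCast, Int.cast_natCast]
  exact isUnit_iff_ne_zero.mpr hp

/-- **Prime level, final form.**  (P1), (P2), (c') over a field of characteristic zero imply
`PrimeHyp k p` for every field `k` in which the prime `p` is nonzero. -/
theorem primeHyp_of_charZero [CharZero k₀] (hpk : (p : k) ≠ 0) (hp2 : 2 ≤ p)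
    (h1 : ModEqHyp k₀ p) (h2 : UnitHyp k₀ p) (h3 : ThetaHyp k₀) : PrimeHyp k p := by
  have hp0 : (p : k₀) ≠ 0 := Nat.cast_ne_zero.mpr (NeZero.ne p)
  have hpz : (p : ℤ) ≠ 0 := Nat.cast_ne_zero.mpr (NeZero.ne p)
  let ι : Localization.Away (p : ℤ) →+* k₀ :=
    IsLocalization.lift (M := Submonoid.powers (p : ℤ)) (isUnit_intCast_powers hp0)
  let g : Localization.Away (p : ℤ) →+* k :=
    IsLocalization.lift (M := Submonoid.powers (p : ℤ)) (isUnit_intCast_powers hpk)
  have hM : Submonoid.powers (p : ℤ) ≤ nonZeroDivisors ℤ :=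
    Submonoid.powers_le.mpr (mem_nonZeroDivisors_of_ne_zero hpz)
  have hι : Function.Injective ι := by
    rw [IsLocalization.lift_injective_iff]
    intro x y
    rw [(IsLocalization.injective (Localization.Away (p : ℤ)) hM).eq_iff]
    exact (Int.cast_injective (α := k₀)).eq_iff.symm
  have hv : IsLocalization.Away.invSelf (S := Localization.Away (p : ℤ)) (p : ℤ) *
      ((p : ℕ) : Localization.Away (p : ℤ)) = 1 := by
    have := IsLocalization.Away.mul_invSelf (S := Localization.Away (p : ℤ)) (p : ℤ)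
    rw [mul_comm] at this
    rw [← this]
    congr 1
    rw [eq_intCast, Int.cast_natCast]
  exact primeHyp_of_hyps ι hι g hp2 hv h1 h2 h3

/-- (P1) over a field of characteristic zero implies (P1) over every field. -/
theorem modEqHyp_of_charZero [CharZero k₀] (hp2 : 2 ≤ p) (h1 : ModEqHyp k₀ p) : ModEqHyp k p :=
  modEqHyp_transfer (Int.castRingHom k₀) Int.cast_injective (Int.castRingHom k) hp2 h1

end AwayInstance

end Fermat.Agent.S28


end ZBS28_002_4

/-! ### bundled: `Fermat.Agent.S28.CPrimeLaurent` -/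
section ZBS28_002_5

/-!
# S28 (c'), Laurent form: `(θ j)^6 = A(j) · Δ` in `ℂ((q))`
-/

set_option autoImplicit false

noncomputable section

namespace Fermat.Agent.S28.CPrime

open UpperHalfPlane ModularForm Derivative Polynomial EisensteinSeries
open Fermat.Agent.S23 Fermat.Agent.S24 Fermat.Agent.S20 Fermat.Agent.S28
open scoped MatrixGroups ModularForm Manifold

local notation "Δ" => ModularForm.discriminant

/-- The derivative bridge (statement): `q`-expansion of `D g` is `θ` of the `q`-expansion of `g`. -/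
def DerivBridgeStmt : Prop :=
  ∀ g : ℍ → ℂ, IsHPB g →
    IsHPB (D g) ∧ ∀ n : ℕ, (qExpansion 1 (D g)).coeff n = (n : ℂ) * (qExpansion 1 g).coeff n

theorem thetaFun_ofPowerSeries (P : PowerSeries ℂ) (Q : PowerSeries ℂ)
    (h : ∀ n : ℕ, Q.coeff n = (n : ℂ) * P.coeff n) :
    Deriv.thetaFun (HahnSeries.ofPowerSeries ℤ ℂ P) = HahnSeries.ofPowerSeries ℤ ℂ Q := by
  ext n
  rw [Deriv.thetaFun_coeff]
  rcases le_or_gt 0 n with hn | hn
  · lift n to ℕ using hn
    rw [HahnSeries.ofPowerSeries_apply_coeff, HahnSeries.ofPowerSeries_apply_coeff, h]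
    simp
  · rw [ModularCurve.ofPowerSeries_coeff_of_neg _ hn, ModularCurve.ofPowerSeries_coeff_of_neg _ hn,
      mul_zero]

theorem laurentOf_D (hDB : DerivBridgeStmt) {g : ℍ → ℂ} (hg : IsHPB g) :
    laurentOf (D g) = Deriv.thetaFun (laurentOf g) := by
  obtain ⟨h1, h2⟩ := hDB g hg
  rw [laurentOf_of_isHPB h1, laurentOf_of_isHPB hg]
  exact (thetaFun_ofPowerSeries _ _ h2).symm

theorem isHPB_E4_cube : IsHPB (fun z : ℍ => E₄ z ^ 3) :=
  (IsMF.of_levelOne (N := 1) isMF_E4_cube).isHPB

theorem isHPB_hTwo : IsHPB hTwo := (IsMF.of_levelOne (N := 1) isMF_hTwo).isHPB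

theorem isMerInf_DJ : IsMerInf (D Jfun) := by
  refine ⟨2, ?_⟩
  convert isHPB_hTwo using 1
  ext z
  simp only [hTwo]
  ring

/-- `Δ² · D J = Δ · D(E₄³) − E₄³ · D Δ`. -/
theorem hTwo_eq' : hTwo = (Δ : ℍ → ℂ) * D (fun z : ℍ => E₄ z ^ 3)
    - (fun z : ℍ => E₄ z ^ 3) * D (Δ : ℍ → ℂ) := by
  rw [hTwo_eq]
  ext z
  simp only [Pi.sub_apply, Pi.mul_apply, serreDerivative_apply]
  ring

theorem laurentOf_E4_cube :
    laurentOf (fun z : ℍ => E₄ z ^ 3) = ModularCurve.jqModC ℂ * deltaL := by
  have hE : (fun z : ℍ => E₄ z ^ 3) = Jfun * (Δ : ℍ → ℂ) := by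
    ext z
    simp only [Pi.mul_apply]
    rw [Jfun_def, div_mul_cancel₀ _ (discriminant_ne_zero z)]
  rw [hE, laurentOf_mul isMerInf_Jfun isMerInf_discriminant, laurentOf_Jfun,
    laurentOf_discriminant]

theorem laurentOf_sub' {f g : ℍ → ℂ} (hf : IsMerInf f) (hg : IsMerInf g) :
    laurentOf (f - g) = laurentOf f - laurentOf g :=
  map_sub laurentExp (⟨f, hf⟩ : merInf) (⟨g, hg⟩ : merInf)

/-- The Laurent expansion of `D J` is `θ j`. -/
theorem laurentOf_DJ (hDB : DerivBridgeStmt) :
    laurentOf (D Jfun) = Deriv.thetaFun (ModularCurve.jqModC ℂ) := by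
  have hΔ : IsHPB (Δ : ℍ → ℂ) := bridge_isHPB_discriminant
  have hE := isHPB_E4_cube
  have hDΔ := (hDB _ hΔ).1
  have hDE := (hDB _ hE).1
  -- expansion of `hTwo` in two ways
  have h1 : laurentOf hTwo = deltaL ^ 2 * laurentOf (D Jfun) := by
    have : hTwo = ((Δ : ℍ → ℂ) ^ 2) * D Jfun := by
      ext z
      simp [hTwo]
    have hΔ2 : IsMerInf ((Δ : ℍ → ℂ) ^ 2) :=
      Subalgebra.pow_mem merInf (x := (Δ : ℍ → ℂ)) isMerInf_discriminant 2
    rw [this, laurentOf_mul hΔ2 isMerInf_DJ,
      laurentOf_pow isMerInf_discriminant, laurentOf_discriminant]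
  have h2 : laurentOf hTwo = deltaL * Deriv.thetaFun (ModularCurve.jqModC ℂ * deltaL)
      - ModularCurve.jqModC ℂ * deltaL * Deriv.thetaFun deltaL := by
    have mΔ := IsHPB.isMerInf hΔ
    have mE := IsHPB.isMerInf hE
    have mDΔ := IsHPB.isMerInf hDΔ
    have mDE := IsHPB.isMerInf hDE
    rw [hTwo_eq', laurentOf_sub' (mΔ.mul mDE) (mE.mul mDΔ),
      laurentOf_mul mΔ mDE, laurentOf_mul mE mDΔ,
      laurentOf_D hDB hE, laurentOf_D hDB hΔ, laurentOf_E4_cube, laurentOf_discriminant]
  have h3 : deltaL ^ 2 * laurentOf (D Jfun)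
      = deltaL ^ 2 * Deriv.thetaFun (ModularCurve.jqModC ℂ) := by
    rw [← h1, h2, Deriv.thetaFun_mul]
    ring
  exact mul_left_cancel₀ (pow_ne_zero 2 deltaL_ne_zero) h3

/-- **(c') in Laurent form over `ℂ`.** -/
theorem exists_poly_theta (hDB : DerivBridgeStmt) :
    ∃ A : ℂ[X], Deriv.thetaFun (ModularCurve.jqModC ℂ) ^ 6
      = aeval (ModularCurve.jqModC ℂ) A * deltaL := by
  obtain ⟨A, hA⟩ := exists_poly_DJ
  refine ⟨A, ?_⟩
  have hfun : (D Jfun) ^ 6 = (fun τ : ℍ => A.eval (Jfun τ)) * (Δ : ℍ → ℂ) := by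
    ext τ
    simpa using hA τ
  have hAJ : IsMerInf (fun τ : ℍ => A.eval (Jfun τ)) := by
    have : (fun τ : ℍ => A.eval (Jfun τ)) = fun τ => D Jfun τ ^ 6 / Δ τ := by
      ext τ
      rw [hA τ, mul_div_assoc, div_self (discriminant_ne_zero τ), mul_one]
    rw [this]
    exact isModFun_DJ.isMerInf
  have h1 := congrArg laurentOf hfun
  rw [laurentOf_pow isMerInf_DJ, laurentOf_DJ hDB, laurentOf_mul hAJ isMerInf_discriminant,
    laurentOf_discriminant] at h1
  rw [h1]
  congr 1
  -- `laurentOf (A ∘ J) = A(jq)`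
  have h2 := laurentOf_eval₂ (X - C A) hAJ isMerInf_Jfun (fun τ => by simp)
  rw [eval₂_sub, eval₂_X, eval₂_C, laurentOf_Jfun] at h2
  exact sub_eq_zero.mp h2

theorem derivBridgeStmt : DerivBridgeStmt := fun _ hg =>
  ⟨isHPB_D hg, fun n => qExpansion_D_coeff hg n⟩

/-- **(c') in Laurent form over `ℂ`**: `(θ j)^6 = A(j) · Δ` in `ℂ((q))`, `θ = q d/dq`. -/
theorem cprime_complex :
    ∃ A : ℂ[X], Deriv.thetaFun (ModularCurve.jqModC ℂ) ^ 6
      = aeval (ModularCurve.jqModC ℂ) A * deltaS ℂ := by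
  rw [deltaS_complex]
  exact exists_poly_theta derivBridgeStmt

end Fermat.Agent.S28.CPrime

namespace Fermat.Agent.S28.CPrime

open HahnSeries ModularCurve Polynomial
open Fermat.Agent.S28

theorem coeffMap_deltaZ (R : Type*) [CommRing R] :
    coeffMap (Int.castRingHom R) deltaZ = deltaS R := rfl

theorem cprime_jq_low : ∀ i < (-1 : ℤ), (jqModC ℤ).coeff i = 0 := fun _ hi =>
  coeff_jqModC_of_lt ℤ hi

theorem cprime_jq_unit : IsUnit ((jqModC ℤ).coeff (-1)) := by
  rw [coeff_jqModC_neg_one]
  exact isUnit_one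

/-- **(c') over `ℤ`**: `(θ j)^6 = G(j) · Δ` in `ℤ((q))` with `G ∈ ℤ[X]`. -/
theorem cprime_int :
    ∃ G : ℤ[X], Deriv.thetaFun (jqModC ℤ) ^ 6 = aeval (jqModC ℤ) G * deltaZ := by
  obtain ⟨A, hA⟩ := cprime_complex
  set ι : ℤ →+* ℂ := Int.castRingHom ℂ with hι
  have hιinj : Function.Injective ι := Int.cast_injective
  have hj : coeffMap ι (jqModC ℤ) = jqModC ℂ := coeffMap_jqModC ι
  -- `A(j) = ι (θ(j)^6 · Δ⁻¹)`
  have hz : coeffMap ι (Deriv.thetaFun (jqModC ℤ) ^ 6 * deltaInvZ)
      = aeval (coeffMap ι (jqModC ℤ)) A := by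
    rw [map_mul, map_pow, ← Deriv.thetaFun_coeffMap, hj, hA]
    have h1 : coeffMap ι deltaInvZ = deltaInvS ℂ := rfl
    rw [h1, mul_assoc, mul_comm (deltaS ℂ), deltaInvS_mul_deltaS, mul_one]
  obtain ⟨G, hG⟩ := exists_map_eq_of_aeval_mem_range ι (by norm_num) cprime_jq_low
    cprime_jq_unit A _ hz
  refine ⟨G, ?_⟩
  apply coeffMap_injective hιinj
  rw [map_mul, coeffMap_aeval, hG, hj, map_pow, ← Deriv.thetaFun_coeffMap, hj, hA]
  rfl

/-- **(c') over a field `k`**: `(θ j)^6 = G(j) · Δ` in `k((q))` with `0 ≠ G ∈ k[X]`. -/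
theorem cprime_field (k : Type*) [Field k] :
    ∃ G : k[X], G ≠ 0 ∧ Deriv.thetaFun (jqModC k) ^ 6 = aeval (jqModC k) G * deltaS k := by
  obtain ⟨G, hG⟩ := cprime_int
  set g : ℤ →+* k := Int.castRingHom k with hg
  have hj : coeffMap g (jqModC ℤ) = jqModC k := coeffMap_jqModC g
  have h := congrArg (coeffMap g) hG
  rw [map_mul, coeffMap_aeval, hj, map_pow, ← Deriv.thetaFun_coeffMap, hj] at h
  refine ⟨G.map g, ?_, h⟩
  intro h0
  rw [h0, map_zero, zero_mul] at h
  have h1 : Deriv.thetaFun (jqModC k) = 0 := pow_eq_zero_iff (by norm_num) |>.mp h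
  have h2 := congrArg (fun x : LaurentSeries k => x.coeff (-1)) h1
  simp only [Deriv.thetaFun_coeff, coeff_jqModC_neg_one, HahnSeries.coeff_zero] at h2
  simp at h2

end Fermat.Agent.S28.CPrime

end
end ZBS28_002_5

/-! ### bundled: `Fermat.Agent.S28.UpperBound` -/
section ZBS28_002_6

/-!
# S28, Part Q1: the degree of `k(j(q^d) : d ∣ N)` over `k(j)` is at most `ψ(N)`

`k` any field, `L = k((q))`, `σ_d = qExpand k d`, `j = jqModC k`, `j_d = σ_d j`.

Hypothesis at a prime `p` (`UB.ModEq k p`): a monic `Φ ∈ k[Y][X]` of `X`-degree `p + 1` with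
`Φ(j_p, j) = 0` and `Φ(j, j_p) = 0`.

Main result: `UB.relrank_full_le`.
-/

set_option autoImplicit false

namespace Fermat.Agent.S28.UB

open HahnSeries ModularCurve Polynomial IntermediateField

variable (k : Type*) [Field k]

/-- `j(q^d)` as a total function of `d` (junk value `0` at `d = 0`). -/
noncomputable def jd (d : ℕ) : LaurentSeries k :=
  if h : d = 0 then 0 else @qExpand k _ d ⟨h⟩ (jqModC k)

theorem jd_eq (d : ℕ) [hd : NeZero d] : jd k d = qExpand k d (jqModC k) := by
  rw [jd, dif_neg hd.out]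

theorem jd_one : jd k 1 = jqModC k := by
  rw [jd_eq, qExpand_one_apply]

theorem qExpand_jd (m d : ℕ) [NeZero m] (hd : d ≠ 0) : qExpand k m (jd k d) = jd k (m * d) := by
  have : NeZero d := ⟨hd⟩
  have : NeZero (m * d) := ⟨Nat.mul_ne_zero (NeZero.ne m) hd⟩
  rw [jd_eq, jd_eq, qExpand_qExpand]

theorem jqModC_order : (jqModC k).order = -1 := by
  have h1 : (jqModC k).coeff (-1) = 1 := coeff_jqModC_neg_one k
  have hne : jqModC k ≠ 0 := jqModC_ne_zero_of_nontrivial k
  apply le_antisymm
  · exact HahnSeries.order_le_of_coeff_ne_zero (by rw [h1]; exact one_ne_zero)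
  · by_contra hlt
    rw [not_le] at hlt
    exact hne (HahnSeries.coeff_order_eq_zero.mp (coeff_jqModC_of_lt k hlt))

theorem jd_ne_zero {d : ℕ} (hd : d ≠ 0) : jd k d ≠ 0 := by
  have : NeZero d := ⟨hd⟩
  rw [jd_eq]
  exact qExpand_ne_zero (jqModC_ne_zero_of_nontrivial k)

theorem jd_order {d : ℕ} (hd : d ≠ 0) : (jd k d).order = -(d : ℤ) := by
  have : NeZero d := ⟨hd⟩
  rw [jd_eq, order_qExpand, jqModC_order]
  ring

theorem jd_injective {d e : ℕ} (hd : d ≠ 0) (he : e ≠ 0) (h : jd k d = jd k e) : d = e := by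
  have := congrArg HahnSeries.order h
  rw [jd_order k hd, jd_order k he] at this
  omega

/-- The modular equation of prime level `p` in Laurent form. -/
def ModEq (p : ℕ) [NeZero p] : Prop :=
  ∃ Φ : Polynomial (Polynomial k), Φ.Monic ∧ Φ.natDegree = p + 1 ∧
    Φ.eval₂ (Polynomial.aeval (jqModC k)).toRingHom (qExpand k p (jqModC k)) = 0 ∧
    Φ.eval₂ (Polynomial.aeval (qExpand k p (jqModC k))).toRingHom (jqModC k) = 0

theorem qExpand_comp_aeval (m : ℕ) [NeZero m] (x : LaurentSeries k) :
    (qExpand k m).comp (Polynomial.aeval (R := k) x).toRingHom =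
      (Polynomial.aeval (R := k) (qExpand k m x)).toRingHom := by
  refine Polynomial.ringHom_ext (fun a => ?_) ?_
  · simp only [RingHom.comp_apply, AlgHom.toRingHom_eq_coe, RingHom.coe_coe, Polynomial.aeval_C]
    exact (qExpandAlgHomC k m).commutes a
  · simp

/-- The modular equation shifted by `σ_d`. -/
theorem ModEq.shift {p : ℕ} [NeZero p] {Φ : Polynomial (Polynomial k)}
    (h1 : Φ.eval₂ (Polynomial.aeval (jqModC k)).toRingHom (qExpand k p (jqModC k)) = 0)
    (h2 : Φ.eval₂ (Polynomial.aeval (qExpand k p (jqModC k))).toRingHom (jqModC k) = 0)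
    {d : ℕ} (hd : d ≠ 0) :
    Φ.eval₂ (Polynomial.aeval (jd k d)).toRingHom (jd k (p * d)) = 0 ∧
    Φ.eval₂ (Polynomial.aeval (jd k (p * d))).toRingHom (jd k d) = 0 := by
  have : NeZero d := ⟨hd⟩
  have : NeZero (p * d) := ⟨Nat.mul_ne_zero (NeZero.ne p) hd⟩
  have : NeZero (d * p) := ⟨Nat.mul_ne_zero hd (NeZero.ne p)⟩
  have e1 : qExpand k d (qExpand k p (jqModC k)) = jd k (p * d) := by
    rw [qExpand_qExpand, jd_eq]
    exact qExpand_congr (Nat.mul_comm d p) _
  have e2 : qExpand k d (jqModC k) = jd k d := (jd_eq k d).symm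
  constructor
  · have := congrArg (qExpand k d) h1
    rw [Polynomial.hom_eval₂, map_zero, qExpand_comp_aeval, e1, e2] at this
    exact this
  · have := congrArg (qExpand k d) h2
    rw [Polynomial.hom_eval₂, map_zero, qExpand_comp_aeval, e1, e2] at this
    exact this


/-! ### Factorisation of a relation of degree `p + 1` with a root in `k((q))` -/

variable {k}

theorem factor {p : ℕ} [NeZero p] (hp2 : 2 ≤ p) {y c : LaurentSeries k} (hy : y ≠ 0)
    (hcop : IsCoprime y.order (p : ℤ)) {Q : Polynomial (LaurentSeries k)} (hQ : Q.Monic)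
    (hdeg : Q.natDegree = p + 1) (h1 : Q.eval₂ (qExpand k p) y = 0) (h2 : Q.eval c = 0) :
    Q = (Polynomial.X - Polynomial.C c) * charpolyσ p y := by
  obtain ⟨T, hT⟩ := charpolyσ_dvd_of_eval₂_eq_zero hy hcop h1
  have hP := charpolyσ_monic p y
  have hPd := charpolyσ_natDegree p y
  have hTm : T.Monic := hP.of_mul_monic_left (hT ▸ hQ)
  have hTd : T.natDegree = 1 := by
    have := congrArg Polynomial.natDegree hT
    rw [hP.natDegree_mul hTm, hdeg, hPd] at this
    omega
  have hTc : T.eval c = 0 := by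
    have := congrArg (Polynomial.eval c) hT
    rw [h2, Polynomial.eval_mul] at this
    rcases mul_eq_zero.mp this.symm with h | h
    · exact absurd h (charpolyσ_eval_ne_zero hy hcop hp2 c)
    · exact h
  have hTX := hTm.eq_X_add_C hTd
  have hc0 : T.coeff 0 = -c := by
    have h := hTc
    rw [hTX, Polynomial.eval_add, Polynomial.eval_X, Polynomial.eval_C] at h
    exact eq_neg_of_add_eq_zero_right h
  rw [hT, mul_comm]
  congr 1
  rw [hTX, hc0, map_neg, ← sub_eq_add_neg]


/-! ### The two-prime lemma -/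

/-- If `c` is a common root of two polynomials with coefficients in an intermediate field `T`
which factor over the big field as `(X - c) * P` and `(X - c) * R` with `P`, `R` coprime,
then `c ∈ T`. -/
theorem mem_of_common_root {L : Type*} [Field L] [Algebra k L] (T : IntermediateField k L)
    (c : L) (A₀ B₀ : Polynomial T) (hA₀ : A₀.Monic) (P R : Polynomial L)
    (hA : A₀.map (algebraMap T L) = (Polynomial.X - Polynomial.C c) * P)
    (hB : B₀.map (algebraMap T L) = (Polynomial.X - Polynomial.C c) * R)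
    (hPR : IsCoprime P R) : c ∈ T := by
  have hAc : Polynomial.aeval c A₀ = 0 := by
    rw [Polynomial.aeval_def, Polynomial.eval₂_eq_eval_map, hA]
    simp
  have hBc : Polynomial.aeval c B₀ = 0 := by
    rw [Polynomial.aeval_def, Polynomial.eval₂_eq_eval_map, hB]
    simp
  have hint : IsIntegral T c := ⟨A₀, hA₀, hAc⟩
  have hmA : (minpoly T c).map (algebraMap T L) ∣ (Polynomial.X - Polynomial.C c) * P := by
    rw [← hA]
    exact Polynomial.map_dvd _ (minpoly.dvd T c hAc)
  have hmB : (minpoly T c).map (algebraMap T L) ∣ (Polynomial.X - Polynomial.C c) * R := by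
    rw [← hB]
    exact Polynomial.map_dvd _ (minpoly.dvd T c hBc)
  obtain ⟨u, v, huv⟩ := hPR
  have hm : (minpoly T c).map (algebraMap T L) ∣ (Polynomial.X - Polynomial.C c) := by
    have e : (Polynomial.X - Polynomial.C c : Polynomial L) =
        u * ((Polynomial.X - Polynomial.C c) * P) + v * ((Polynomial.X - Polynomial.C c) * R) := by
      linear_combination (-(Polynomial.X - Polynomial.C c)) * huv
    rw [e]
    exact dvd_add (dvd_mul_of_dvd_right hmA _) (dvd_mul_of_dvd_right hmB _)
  have hdeg : (minpoly T c).natDegree ≤ 1 := by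
    have := Polynomial.natDegree_le_of_dvd hm (Polynomial.X_sub_C_ne_zero c)
    rwa [Polynomial.natDegree_map, Polynomial.natDegree_X_sub_C] at this
  have hpos := minpoly.natDegree_pos hint
  have h1 : (minpoly T c).natDegree = 1 := le_antisymm hdeg hpos
  obtain ⟨t, ht⟩ := minpoly.natDegree_eq_one_iff.mp h1
  rw [← ht]
  exact t.2

theorem charpolyσ_coprime {p r : ℕ} [NeZero p] [NeZero r] (hpr : p ≠ r)
    {y z : LaurentSeries k} (hy : y ≠ 0) (hz : z ≠ 0)
    (hcy : IsCoprime y.order (p : ℤ)) (hcz : IsCoprime z.order (r : ℤ)) :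
    IsCoprime (charpolyσ p y) (charpolyσ r z) := by
  have h1 := irreducible_charpolyσ hy hcy
  have h2 := irreducible_charpolyσ hz hcz
  rw [h1.coprime_iff_not_dvd]
  intro hdvd
  have hass := h1.associated_of_dvd h2 hdvd
  have heq := Polynomial.eq_of_monic_of_associated (charpolyσ_monic p y) (charpolyσ_monic r z) hass
  have := congrArg Polynomial.natDegree heq
  rw [charpolyσ_natDegree, charpolyσ_natDegree] at this
  exact hpr this

theorem isCoprime_order_jd {p r : ℕ} (hp : p.Prime) (hr : r.Prime) (hpr : p ≠ r) :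
    IsCoprime (jd k r).order (p : ℤ) := by
  rw [jd_order k hr.ne_zero]
  have : Nat.Coprime r p := (Nat.coprime_primes hr hp).mpr (Ne.symm hpr)
  exact (Nat.isCoprime_iff_coprime.mpr this).neg_left

theorem algebraMap_comp_aeval {L : Type*} [Field L] [Algebra k L] (T : IntermediateField k L)
    (x : T) :
    (algebraMap T L).comp (Polynomial.aeval (R := k) x).toRingHom =
      (Polynomial.aeval (R := k) (x : L)).toRingHom := by
  refine Polynomial.ringHom_ext (fun a => ?_) ?_
  · simp only [RingHom.comp_apply, AlgHom.toRingHom_eq_coe, RingHom.coe_coe, Polynomial.aeval_C]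
    rfl
  · simp

/-- Shape of `Φ(X, y)` for `y = j_d` with `d` prime to `p`. -/
theorem map_aeval_eq_factor {p : ℕ} [NeZero p] (hp : p.Prime) {Φ : Polynomial (Polynomial k)}
    (hΦm : Φ.Monic) (hΦd : Φ.natDegree = p + 1) {y c : LaurentSeries k} (hy : y ≠ 0)
    (hcop : IsCoprime y.order (p : ℤ))
    (h1 : Φ.eval₂ (Polynomial.aeval (R := k) y).toRingHom c = 0)
    (h2 : Φ.eval₂ (Polynomial.aeval (R := k) (qExpand k p y)).toRingHom y = 0) :
    Φ.map (Polynomial.aeval (R := k) y).toRingHom =
      (Polynomial.X - Polynomial.C c) * charpolyσ p y := by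
  refine factor hp.two_le hy hcop (hΦm.map _) ?_ ?_ ?_
  · rw [hΦm.natDegree_map, hΦd]
  · rw [Polynomial.eval₂_map, qExpand_comp_aeval]
    exact h2
  · rw [Polynomial.eval_map]
    exact h1

theorem two_prime {p r : ℕ} (hp : p.Prime) (hr : r.Prime) (hpr : p ≠ r) [NeZero p] [NeZero r]
    (hΦp : ModEq k p) (hΦr : ModEq k r) :
    jd k (p * r) ∈
      IntermediateField.adjoin k ({jd k 1, jd k p, jd k r} : Set (LaurentSeries k)) := by
  set T := IntermediateField.adjoin k ({jd k 1, jd k p, jd k r} : Set (LaurentSeries k)) with hT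
  obtain ⟨Φp, hΦpm, hΦpd, hp1, hp2⟩ := hΦp
  obtain ⟨Φr, hΦrm, hΦrd, hr1, hr2⟩ := hΦr
  obtain ⟨sp1, sp2⟩ := ModEq.shift k hp1 hp2 (d := r) hr.ne_zero
  obtain ⟨sr1, sr2⟩ := ModEq.shift k hr1 hr2 (d := p) hp.ne_zero
  rw [Nat.mul_comm r p] at sr1 sr2
  have hjr : jd k r ∈ T := IntermediateField.subset_adjoin k _ (by simp)
  have hjp : jd k p ∈ T := IntermediateField.subset_adjoin k _ (by simp)
  have eA : qExpand k p (jd k r) = jd k (p * r) := qExpand_jd k p r hr.ne_zero
  have eB : qExpand k r (jd k p) = jd k (p * r) := by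
    rw [qExpand_jd k r p hp.ne_zero, Nat.mul_comm]
  have hA := map_aeval_eq_factor hp hΦpm hΦpd (jd_ne_zero k hr.ne_zero)
    (isCoprime_order_jd hp hr hpr) sp1 (by rw [eA]; exact sp2)
  have hB := map_aeval_eq_factor hr hΦrm hΦrd (jd_ne_zero k hp.ne_zero)
    (isCoprime_order_jd hr hp (Ne.symm hpr)) sr1 (by rw [eB]; exact sr2)
  refine mem_of_common_root T (jd k (p * r))
    (Φp.map (Polynomial.aeval (R := k) (⟨jd k r, hjr⟩ : T)).toRingHom)
    (Φr.map (Polynomial.aeval (R := k) (⟨jd k p, hjp⟩ : T)).toRingHom)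
    (hΦpm.map _) _ _ ?_ ?_
    (charpolyσ_coprime hpr (jd_ne_zero k hr.ne_zero) (jd_ne_zero k hp.ne_zero)
      (isCoprime_order_jd hp hr hpr) (isCoprime_order_jd hr hp (Ne.symm hpr)))
  · rw [Polynomial.map_map, algebraMap_comp_aeval]
    exact hA
  · rw [Polynomial.map_map, algebraMap_comp_aeval]
    exact hB


variable (k)

theorem two_prime_shift {p r : ℕ} (hp : p.Prime) (hr : r.Prime) (hpr : p ≠ r)
    (hΦp : @ModEq k _ p ⟨hp.ne_zero⟩) (hΦr : @ModEq k _ r ⟨hr.ne_zero⟩) {s : ℕ} (hs : s ≠ 0) :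
    jd k (s * (p * r)) ∈
      IntermediateField.adjoin k ({jd k s, jd k (s * p), jd k (s * r)} :
        Set (LaurentSeries k)) := by
  have : NeZero p := ⟨hp.ne_zero⟩
  have : NeZero r := ⟨hr.ne_zero⟩
  have : NeZero s := ⟨hs⟩
  have h := two_prime hp hr hpr hΦp hΦr
  have h2 : qExpandAlgHomC k s (jd k (p * r)) ∈
      (IntermediateField.adjoin k ({jd k 1, jd k p, jd k r} :
        Set (LaurentSeries k))).map (qExpandAlgHomC k s) :=
    (IntermediateField.mem_map _).mpr ⟨_, h, rfl⟩
  rw [IntermediateField.adjoin_map, Set.image_insert_eq, Set.image_insert_eq,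
    Set.image_singleton] at h2
  simp only [qExpandAlgHomC_apply] at h2
  rw [qExpand_jd k s _ (Nat.mul_ne_zero hp.ne_zero hr.ne_zero), qExpand_jd k s _ one_ne_zero,
    qExpand_jd k s _ hp.ne_zero, qExpand_jd k s _ hr.ne_zero, Nat.mul_one] at h2
  exact h2

/-! ### Generalities on `relrank` -/

section Relrank

variable {k}
variable {L : Type*} [Field L] [Algebra k L]

theorem relrank_ne_zero (A B : IntermediateField k L) : A.relrank B ≠ 0 := by
  unfold IntermediateField.relrank Subfield.relrank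
  exact (rank_pos).ne'

theorem relrank_mono_right {A B C : IntermediateField k L} (h1 : A ≤ B) (h2 : B ≤ C) :
    A.relrank B ≤ A.relrank C := by
  rw [← IntermediateField.relrank_mul_relrank h1 h2]
  exact Cardinal.le_mul_right (relrank_ne_zero B C)

theorem relrank_sup_simple_le (A : IntermediateField k L) (x : L) (Q : Polynomial A)
    (hQ : Q.Monic) (hx : Polynomial.aeval x Q = 0) :
    A.relrank (A ⊔ IntermediateField.adjoin k {x}) ≤ (Q.natDegree : Cardinal) := by
  have hint : IsIntegral A x := ⟨Q, hQ, hx⟩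
  have hle : A ≤ A ⊔ IntermediateField.adjoin k {x} := le_sup_left
  rw [IntermediateField.relrank_eq_rank_of_le hle]
  have e : IntermediateField.extendScalars hle = IntermediateField.adjoin A {x} := by
    apply IntermediateField.restrictScalars_injective k
    rw [IntermediateField.extendScalars_restrictScalars,
      IntermediateField.restrictScalars_adjoin_eq_sup]
  rw [e]
  have := IntermediateField.adjoin.finiteDimensional hint
  rw [← Module.finrank_eq_rank, IntermediateField.adjoin.finrank hint]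
  exact_mod_cast Polynomial.natDegree_le_natDegree (minpoly.min A x hQ hx)

end Relrank

/-! ### The fields `E N = k(j_d : d ∣ N)` -/

theorem jd_mem_full {N d : ℕ} (hd : d ∣ N) (hd0 : d ≠ 0) :
    jd k d ∈ modularFunctionFieldFullC k N := by
  have : NeZero d := ⟨hd0⟩
  rw [jd_eq]
  exact jqModCd_mem_full k N hd

theorem full_le_iff {N : ℕ} {F : IntermediateField k (LaurentSeries k)} :
    modularFunctionFieldFullC k N ≤ F ↔ ∀ d, d ∣ N → d ≠ 0 → jd k d ∈ F := by
  rw [modularFunctionFieldFullC, IntermediateField.adjoin_le_iff]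
  constructor
  · intro h d hd hd0
    have : NeZero d := ⟨hd0⟩
    exact h ⟨d, ⟨hd0⟩, hd, jd_eq k d⟩
  · rintro h x ⟨d, hne, hd, rfl⟩
    have := h d hd hne.out
    rwa [jd_eq] at this

theorem full_mono {M N : ℕ} (h : M ∣ N) :
    modularFunctionFieldFullC k M ≤ modularFunctionFieldFullC k N := by
  rw [full_le_iff]
  intro d hd hd0
  exact jd_mem_full k (hd.trans h) hd0

/-- `k(j)`. -/
noncomputable def K0 : IntermediateField k (LaurentSeries k) :=
  IntermediateField.adjoin k {jqModC k}

theorem K0_le_full (N : ℕ) : K0 k ≤ modularFunctionFieldFullC k N := by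
  rw [K0, IntermediateField.adjoin_le_iff, Set.singleton_subset_iff]
  have := jd_mem_full k (one_dvd N) one_ne_zero
  rwa [jd_one] at this

theorem full_one : modularFunctionFieldFullC k 1 = K0 k := by
  apply le_antisymm
  · rw [full_le_iff]
    intro d hd _
    rw [Nat.dvd_one] at hd
    subst hd
    rw [jd_one]
    exact IntermediateField.subset_adjoin k _ rfl
  · exact K0_le_full k 1

/-! ### New generators are generated by one of them -/

theorem new_gen_mem {p : ℕ} (hp : p.Prime) (a M' : ℕ) (hM' : M' ≠ 0) (hpM' : ¬ p ∣ M')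
    (hΦ : ∀ r (hr : r.Prime), r ∣ p * M' → @ModEq k _ r ⟨hr.ne_zero⟩) :
    ∀ d', d' ∣ M' → jd k (p ^ (a + 1) * d') ∈
      modularFunctionFieldFullC k (p ^ a * M') ⊔
        IntermediateField.adjoin k {jd k (p ^ (a + 1))} := by
  intro d'
  induction d' using Nat.strong_induction_on with
  | _ d' ih =>
    intro hd'
    have hd'0 : d' ≠ 0 := fun h => hM' (by rw [h] at hd'; exact Nat.eq_zero_of_zero_dvd hd')
    rcases eq_or_ne d' 1 with rfl | hd'1
    · rw [Nat.mul_one]
      exact (le_sup_right : _ ≤ modularFunctionFieldFullC k (p ^ a * M') ⊔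
        IntermediateField.adjoin k {jd k (p ^ (a + 1))})
        (IntermediateField.subset_adjoin k _ rfl)
    · set r := d'.minFac with hr
      have hrp : r.Prime := Nat.minFac_prime hd'1
      have hrd : r ∣ d' := Nat.minFac_dvd d'
      obtain ⟨d'', hd''⟩ := hrd
      have hd''0 : d'' ≠ 0 := by
        rintro rfl
        exact hd'0 (by rw [hd'', Nat.mul_zero])
      have hd''dvd : d'' ∣ M' := (Dvd.intro_left r hd''.symm).trans hd'
      have hd''lt : d'' < d' := by
        rw [hd'']
        exact lt_mul_of_one_lt_left (Nat.pos_of_ne_zero hd''0) hrp.one_lt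
      have hrM' : r ∣ M' := (Dvd.intro d'' hd''.symm).trans hd'
      have hpr : p ≠ r := by
        rintro rfl
        exact hpM' hrM'
      have hΦp := hΦ p hp (Dvd.intro _ rfl)
      have hΦr := hΦ r hrp (hrM'.mul_left p)
      have hs0 : p ^ a * d'' ≠ 0 := Nat.mul_ne_zero (pow_ne_zero _ hp.ne_zero) hd''0
      have key := two_prime_shift k hp hrp hpr hΦp hΦr hs0
      have e1 : p ^ a * d'' * (p * r) = p ^ (a + 1) * d' := by
        rw [hd'']; ring
      have e2 : p ^ a * d'' * p = p ^ (a + 1) * d'' := by ring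
      have e3 : p ^ a * d'' * r = p ^ a * d' := by
        rw [hd'']; ring
      rw [e1, e2, e3] at key
      refine (IntermediateField.adjoin_le_iff.mpr ?_ : IntermediateField.adjoin k _ ≤
        modularFunctionFieldFullC k (p ^ a * M') ⊔
          IntermediateField.adjoin k {jd k (p ^ (a + 1))}) key
      intro x hx
      rcases hx with rfl | rfl | rfl
      · exact (le_sup_left : modularFunctionFieldFullC k (p ^ a * M') ≤ _)
          (jd_mem_full k (Nat.mul_dvd_mul_left _ hd''dvd) hs0)
      · exact ih d'' hd''lt hd''dvd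
      · exact (le_sup_left : modularFunctionFieldFullC k (p ^ a * M') ≤ _)
          (jd_mem_full k (Nat.mul_dvd_mul_left _ hd')
            (Nat.mul_ne_zero (pow_ne_zero _ hp.ne_zero) hd'0))

theorem full_mul_le {p : ℕ} (hp : p.Prime) (a M' : ℕ) (hM' : M' ≠ 0) (hpM' : ¬ p ∣ M')
    (hΦ : ∀ r (hr : r.Prime), r ∣ p * M' → @ModEq k _ r ⟨hr.ne_zero⟩) :
    modularFunctionFieldFullC k (p ^ (a + 1) * M') ≤
      modularFunctionFieldFullC k (p ^ a * M') ⊔
        IntermediateField.adjoin k {jd k (p ^ (a + 1))} := by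
  rw [full_le_iff]
  intro d hd hd0
  obtain ⟨d₁, d₂, h1, h2, rfl⟩ := (Nat.dvd_mul).mp hd
  obtain ⟨b, hb, rfl⟩ := (Nat.dvd_prime_pow hp).mp h1
  rcases Nat.lt_or_ge b (a + 1) with hlt | hge
  · refine (le_sup_left : modularFunctionFieldFullC k (p ^ a * M') ≤ _)
      (jd_mem_full k (Nat.mul_dvd_mul ?_ h2) hd0)
    exact pow_dvd_pow p (by omega)
  · have hba : b = a + 1 := le_antisymm hb hge
    subst hba
    exact new_gen_mem k hp a M' hM' hpM' hΦ d₂ h2


/-! ### Degree of the new generator -/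

theorem aeval_map_aeval {L : Type*} [Field L] [Algebra k L] (T : IntermediateField k L)
    (Φ : Polynomial (Polynomial k)) (y : T) (x : L) :
    Polynomial.aeval x (Φ.map (Polynomial.aeval (R := k) y).toRingHom) =
      Φ.eval₂ (Polynomial.aeval (R := k) (y : L)).toRingHom x := by
  rw [Polynomial.aeval_def, Polynomial.eval₂_map, algebraMap_comp_aeval]

theorem relrank_step_zero {p : ℕ} (hp : p.Prime) (M : ℕ)
    (hΦp : @ModEq k _ p ⟨hp.ne_zero⟩) :
    (modularFunctionFieldFullC k M).relrank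
      (modularFunctionFieldFullC k M ⊔ IntermediateField.adjoin k {jd k p}) ≤
      ((p + 1 : ℕ) : Cardinal) := by
  have : NeZero p := ⟨hp.ne_zero⟩
  obtain ⟨Φ, hΦm, hΦd, h1, -⟩ := hΦp
  have hj : jd k 1 ∈ modularFunctionFieldFullC k M := jd_mem_full k (one_dvd M) one_ne_zero
  have h := relrank_sup_simple_le (modularFunctionFieldFullC k M) (jd k p)
    (Φ.map (Polynomial.aeval (R := k)
      (⟨jd k 1, hj⟩ : modularFunctionFieldFullC k M)).toRingHom) (hΦm.map _) (by
      rw [aeval_map_aeval]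
      show Φ.eval₂ (Polynomial.aeval (R := k) (jd k 1)).toRingHom (jd k p) = 0
      rw [jd_one, jd_eq]
      exact h1)
  rwa [hΦm.natDegree_map, hΦd] at h

theorem relrank_step_succ {p : ℕ} (hp : p.Prime) (b M' : ℕ)
    (hΦp : @ModEq k _ p ⟨hp.ne_zero⟩) :
    (modularFunctionFieldFullC k (p ^ (b + 1) * M')).relrank
      (modularFunctionFieldFullC k (p ^ (b + 1) * M') ⊔
        IntermediateField.adjoin k {jd k (p ^ (b + 1 + 1))}) ≤ ((p : ℕ) : Cardinal) := by
  have : NeZero p := ⟨hp.ne_zero⟩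
  obtain ⟨Φ, hΦm, hΦd, h1, h2⟩ := hΦp
  set E := modularFunctionFieldFullC k (p ^ (b + 1) * M') with hE
  have hpb : p ^ b ≠ 0 := pow_ne_zero _ hp.ne_zero
  have hpb1 : p ^ (b + 1) ≠ 0 := pow_ne_zero _ hp.ne_zero
  have hy : jd k (p ^ (b + 1)) ∈ E := jd_mem_full k (Dvd.intro _ rfl) hpb1
  have hc : jd k (p ^ b) ∈ E :=
    jd_mem_full k ((pow_dvd_pow p (Nat.le_succ b)).trans (Dvd.intro _ rfl)) hpb
  obtain ⟨-, s2⟩ := ModEq.shift k h1 h2 (d := p ^ b) hpb
  obtain ⟨s1', -⟩ := ModEq.shift k h1 h2 (d := p ^ (b + 1)) hpb1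
  have e1 : p * p ^ b = p ^ (b + 1) := by ring
  have e2 : p * p ^ (b + 1) = p ^ (b + 1 + 1) := by ring
  rw [e1] at s2
  rw [e2] at s1'
  set Q₀ : Polynomial E := Φ.map (Polynomial.aeval (R := k) (⟨jd k (p ^ (b + 1)), hy⟩ : E)).toRingHom
    with hQ₀
  have hQ₀m : Q₀.Monic := hΦm.map _
  have hQ₀d : Q₀.natDegree = p + 1 := by rw [hQ₀, hΦm.natDegree_map, hΦd]
  have hroot : Q₀.IsRoot (⟨jd k (p ^ b), hc⟩ : E) := by
    rw [Polynomial.IsRoot.def]
    apply (algebraMap E (LaurentSeries k)).injective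
    rw [map_zero, ← Polynomial.aeval_algebraMap_apply_eq_algebraMap_eval, hQ₀, aeval_map_aeval]
    exact s2
  have hfac := Polynomial.mul_divByMonic_eq_iff_isRoot.mpr hroot
  set Q := Q₀ /ₘ (Polynomial.X - Polynomial.C (⟨jd k (p ^ b), hc⟩ : E)) with hQ
  have hQm : Q.Monic := (Polynomial.monic_X_sub_C _).of_mul_monic_left (hfac ▸ hQ₀m)
  have hQd : Q.natDegree = p := by
    rw [hQ, Polynomial.natDegree_divByMonic _ (Polynomial.monic_X_sub_C _), hQ₀d,
      Polynomial.natDegree_X_sub_C]
    omega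
  have hg : Polynomial.aeval (jd k (p ^ (b + 1 + 1))) Q = 0 := by
    have h0 : Polynomial.aeval (jd k (p ^ (b + 1 + 1))) Q₀ = 0 := by
      rw [hQ₀, aeval_map_aeval]
      exact s1'
    rw [← hfac, map_mul, map_sub, Polynomial.aeval_X, Polynomial.aeval_C] at h0
    rcases mul_eq_zero.mp h0 with h | h
    · exfalso
      have h' : jd k (p ^ (b + 1 + 1)) = jd k (p ^ b) := sub_eq_zero.mp h
      have := jd_injective k (pow_ne_zero _ hp.ne_zero) hpb h'
      have h3 := Nat.pow_right_injective hp.two_le this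
      omega
    · exact h
  have h := relrank_sup_simple_le E (jd k (p ^ (b + 1 + 1))) Q hQm hg
  rwa [hQd] at h

/-! ### The recursion for `ψ` -/

/-- Indicator of squarefree numbers as an arithmetic function. -/
def sqfInd : ArithmeticFunction ℕ :=
  ⟨fun n => if Squarefree n then 1 else 0, by simp⟩

theorem sqfInd_apply (n : ℕ) : sqfInd n = if Squarefree n then 1 else 0 := rfl

theorem sqfInd_isMultiplicative : sqfInd.IsMultiplicative := by
  refine ⟨by simp [sqfInd_apply], fun {m n} h => ?_⟩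
  simp only [sqfInd_apply, Nat.squarefree_mul h]
  by_cases hm : Squarefree m <;> by_cases hn : Squarefree n <;> simp [hm, hn]

theorem psi_eq_mul_apply (n : ℕ) :
    ModularCurve.dedekindPsi n = (sqfInd * ArithmeticFunction.id) n := by
  rw [ArithmeticFunction.mul_apply,
    Nat.sum_divisorsAntidiagonal (fun d e => sqfInd d * ArithmeticFunction.id e),
    ModularCurve.dedekindPsi, Finset.sum_filter]
  refine Finset.sum_congr rfl fun d _ => ?_
  by_cases hd : Squarefree d <;> simp [sqfInd_apply, hd]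

theorem psi_prime {p : ℕ} (hp : p.Prime) : ModularCurve.dedekindPsi p = p + 1 := by
  rw [ModularCurve.dedekindPsi, hp.divisors, Finset.sum_filter,
    Finset.sum_pair hp.one_lt.ne, if_pos squarefree_one, if_pos hp.squarefree, Nat.div_one,
    Nat.div_self hp.pos]

theorem psi_mul_of_not_dvd {p a : ℕ} (hp : p.Prime) (hpa : ¬ p ∣ a) :
    ModularCurve.dedekindPsi (p * a) = (p + 1) * ModularCurve.dedekindPsi a := by
  have hcop : Nat.gcd p a = 1 := (Nat.Prime.coprime_iff_not_dvd hp).mpr hpa
  rw [psi_eq_mul_apply,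
    (sqfInd_isMultiplicative.mul ArithmeticFunction.isMultiplicative_id).map_mul_of_coprime hcop,
    ← psi_eq_mul_apply, ← psi_eq_mul_apply, psi_prime hp]

theorem psi_mul_of_dvd {p a : ℕ} (hp : p.Prime) (hpa : p ∣ a) (ha : a ≠ 0) :
    ModularCurve.dedekindPsi (p * a) = p * ModularCurve.dedekindPsi a := by
  rw [ModularCurve.dedekindPsi, ModularCurve.dedekindPsi, Finset.mul_sum]
  have hset : (p * a).divisors.filter (fun d => Squarefree d) =
      a.divisors.filter (fun d => Squarefree d) := by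
    ext d
    simp only [Finset.mem_filter, Nat.mem_divisors]
    constructor
    · rintro ⟨⟨hd, -⟩, hsq⟩
      refine ⟨⟨?_, ha⟩, hsq⟩
      by_cases hpd : p ∣ d
      · obtain ⟨d', rfl⟩ := hpd
        have hd' : d' ∣ a := (mul_dvd_mul_iff_left hp.ne_zero).mp hd
        have hcop : Nat.Coprime p d' := by
          rw [Nat.Prime.coprime_iff_not_dvd hp]
          intro h
          obtain ⟨e, rfl⟩ := h
          have := hsq p ⟨e, by ring⟩
          exact hp.one_lt.ne' (Nat.isUnit_iff.mp this)
        exact hcop.mul_dvd_of_dvd_of_dvd hpa hd'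
      · have hcop : Nat.Coprime d p := ((Nat.Prime.coprime_iff_not_dvd hp).mpr hpd).symm
        exact hcop.dvd_of_dvd_mul_left hd
    · rintro ⟨⟨hd, -⟩, hsq⟩
      exact ⟨⟨hd.mul_left p, mul_ne_zero hp.ne_zero ha⟩, hsq⟩
  rw [hset]
  refine Finset.sum_congr rfl fun d hd => ?_
  simp only [Finset.mem_filter, Nat.mem_divisors] at hd
  exact Nat.mul_div_assoc p hd.1.1

/-! ### The induction -/

theorem relrank_step {p : ℕ} (hp : p.Prime) {M : ℕ} (hM : M ≠ 0)
    (hΦ : ∀ r (hr : r.Prime), r ∣ p * M → @ModEq k _ r ⟨hr.ne_zero⟩) :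
    ((modularFunctionFieldFullC k M).relrank (modularFunctionFieldFullC k (p * M)) : Cardinal) *
      (ModularCurve.dedekindPsi M : Cardinal) ≤ (ModularCurve.dedekindPsi (p * M) : Cardinal) := by
  obtain ⟨a, M', hpM', rfl⟩ := Nat.exists_eq_pow_mul_and_not_dvd hM p hp.ne_one
  have hM'0 : M' ≠ 0 := fun h => hM (by rw [h, Nat.mul_zero])
  have hΦ' : ∀ r (hr : r.Prime), r ∣ p * M' → @ModEq k _ r ⟨hr.ne_zero⟩ := by
    intro r hr hdvd
    refine hΦ r hr (hdvd.trans ?_)
    exact Nat.mul_dvd_mul_left p (Dvd.intro_left _ rfl)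
  have hΦp := hΦ p hp (Dvd.intro _ rfl)
  have e : p * (p ^ a * M') = p ^ (a + 1) * M' := by ring
  have hle := full_mul_le k hp a M' hM'0 hpM' hΦ'
  have hmono : modularFunctionFieldFullC k (p ^ a * M') ≤
      modularFunctionFieldFullC k (p ^ (a + 1) * M') :=
    full_mono k (Nat.mul_dvd_mul_right (pow_dvd_pow p (Nat.le_succ a)) M')
  have h1 := relrank_mono_right hmono hle
  rw [e]
  rcases Nat.eq_zero_or_pos a with rfl | ha
  · -- `p ∤ M`
    have h2 := relrank_step_zero k hp (p ^ 0 * M') hΦp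
    rw [zero_add, pow_one] at h1 hle ⊢
    have h3 := h1.trans h2
    have hψ : ModularCurve.dedekindPsi (p * M') = (p + 1) * ModularCurve.dedekindPsi M' :=
      psi_mul_of_not_dvd hp hpM'
    rw [pow_zero, one_mul] at h3 ⊢
    rw [hψ, Nat.cast_mul]
    exact mul_le_mul_left h3 _
  · obtain ⟨b, rfl⟩ := Nat.exists_eq_add_of_le' ha
    have h2 := relrank_step_succ k hp b M' hΦp
    have h3 := h1.trans h2
    have hψ : ModularCurve.dedekindPsi (p ^ (b + 1 + 1) * M') =
        p * ModularCurve.dedekindPsi (p ^ (b + 1) * M') := by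
      rw [← psi_mul_of_dvd hp (Dvd.intro _ (by ring : p * (p ^ b * M') = p ^ (b + 1) * M')) hM]
      congr 1
      ring
    rw [hψ, Nat.cast_mul]
    exact mul_le_mul_left h3 _

/-- **Q1.** If the modular equation holds at every prime dividing `N`, then the degree of
`k(j(q^d) : d ∣ N)` over `k(j)` is at most `ψ(N)` (in particular it is finite). -/
theorem relrank_full_le {N : ℕ} (hN : N ≠ 0)
    (hΦ : ∀ r (hr : r.Prime), r ∣ N → @ModEq k _ r ⟨hr.ne_zero⟩) :
    (K0 k).relrank (modularFunctionFieldFullC k N) ≤ (ModularCurve.dedekindPsi N : Cardinal) := by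
  induction N using Nat.strong_induction_on with
  | _ N ih =>
    rcases eq_or_ne N 1 with rfl | hN1
    · rw [full_one, IntermediateField.relrank_self, ModularCurve.dedekindPsi_one]
      simp
    · set p := N.minFac with hp
      have hpp : p.Prime := Nat.minFac_prime hN1
      obtain ⟨M, hM⟩ : p ∣ N := Nat.minFac_dvd N
      have hM0 : M ≠ 0 := by
        rintro rfl
        exact hN (by rw [hM, Nat.mul_zero])
      have hMlt : M < N := by
        rw [hM]
        exact lt_mul_of_one_lt_left (Nat.pos_of_ne_zero hM0) hpp.one_lt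
      have hMdvd : M ∣ N := Dvd.intro_left _ hM.symm
      have ihM := ih M hMlt hM0 (fun r hr hdvd => hΦ r hr (hdvd.trans hMdvd))
      have hstep := relrank_step k hpp hM0 (fun r hr hdvd => hΦ r hr (by rw [hM]; exact hdvd))
      rw [← hM] at hstep
      rw [← IntermediateField.relrank_mul_relrank (K0_le_full k M) (full_mono k hMdvd)]
      calc (K0 k).relrank (modularFunctionFieldFullC k M) *
            (modularFunctionFieldFullC k M).relrank (modularFunctionFieldFullC k N)
          ≤ (ModularCurve.dedekindPsi M : Cardinal) *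
            (modularFunctionFieldFullC k M).relrank (modularFunctionFieldFullC k N) :=
            mul_le_mul_left ihM _
        _ = (modularFunctionFieldFullC k M).relrank (modularFunctionFieldFullC k N) *
            (ModularCurve.dedekindPsi M : Cardinal) := mul_comm _ _
        _ ≤ _ := hstep


theorem relrank_full_lt_aleph0 {N : ℕ} (hN : N ≠ 0)
    (hΦ : ∀ r (hr : r.Prime), r ∣ N → @ModEq k _ r ⟨hr.ne_zero⟩) :
    (K0 k).relrank (modularFunctionFieldFullC k N) < Cardinal.aleph0 :=
  (relrank_full_le k hN hΦ).trans_lt Cardinal.natCast_lt_aleph0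

/-- **Q1**, `relfinrank` form. -/
theorem relfinrank_full_le {N : ℕ} (hN : N ≠ 0)
    (hΦ : ∀ r (hr : r.Prime), r ∣ N → @ModEq k _ r ⟨hr.ne_zero⟩) :
    (K0 k).relfinrank (modularFunctionFieldFullC k N) ≤ ModularCurve.dedekindPsi N := by
  rw [IntermediateField.relfinrank_eq_toNat_relrank]
  exact (Cardinal.toNat_le_toNat (relrank_full_le k hN hΦ)
    Cardinal.natCast_lt_aleph0).trans_eq (Cardinal.toNat_natCast _)

/-- **Q1**, as a statement about the `k(j)`-vector space `k(j(q^d) : d ∣ N)`: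
it is finite-dimensional of dimension at most `ψ(N)`. -/
theorem finrank_full_le {N : ℕ} (hN : N ≠ 0)
    (hΦ : ∀ r (hr : r.Prime), r ∣ N → @ModEq k _ r ⟨hr.ne_zero⟩) :
    FiniteDimensional (K0 k) (IntermediateField.extendScalars (K0_le_full k N)) ∧
      Module.finrank (K0 k) (IntermediateField.extendScalars (K0_le_full k N)) ≤
        ModularCurve.dedekindPsi N := by
  have h1 := relrank_full_lt_aleph0 k hN hΦ
  have h2 := relfinrank_full_le k hN hΦ
  rw [IntermediateField.relrank_eq_rank_of_le (K0_le_full k N)] at h1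
  rw [IntermediateField.relfinrank_eq_finrank_of_le (K0_le_full k N)] at h2
  exact ⟨IsNoetherian.iff_fg.mp (IsNoetherian.iff_rank_lt_aleph0.mpr h1), h2⟩

end Fermat.Agent.S28.UB


end ZBS28_002_6

/-! ### bundled: `Fermat.Agent.S28.PrimeHypMain` -/
section ZBS28_002_7

/-!
# S28 — prime level, unconditional

* `primeHyp k p` : for a prime `p` and a field `k` with `(p : k) ≠ 0`: the modular equation holds
  over `k` and `j(q^p) ∉ k(j)`.
* `dedekindPsi_le_relfinrank_full` : **Igusa's lower bound (Q2)**,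
  `ψ(N) ≤ [k(j(q^d) : d ∣ N) : k(j)]` for every field `k` with `(N : k) ≠ 0`.
-/

set_option autoImplicit false

namespace Fermat.Agent.S28

open ModularCurve Polynomial IntermediateField

theorem modEqHyp_complex (p : ℕ) [NeZero p] (hp : p.Prime) : ModEqHyp ℂ p :=
  modEq_exists p hp

theorem unitHyp_complex (p : ℕ) [NeZero p] (hp : p.Prime) : UnitHyp ℂ p := by
  obtain ⟨U, hm, hd, h1, h2⟩ := modUnit_exists p hp
  refine ⟨U, hm, hd, h1, ?_⟩
  rwa [uInvS_eq_inv, inv_pow]

theorem thetaHyp_complex : ThetaHyp ℂ := CPrime.cprime_field ℂ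

/-- (P1) over every field. -/
theorem modEqHyp (k : Type*) [Field k] (p : ℕ) [NeZero p] (hp : p.Prime) : ModEqHyp k p :=
  modEqHyp_of_charZero (k₀ := ℂ) hp.two_le (modEqHyp_complex p hp)

/-- **Prime level (Igusa)**: for a prime `p` and a field `k` in which `p ≠ 0`, the modular
equation holds over `k` and `j(q^p) ∉ k(j)`. -/
theorem primeHyp (k : Type*) [Field k] (p : ℕ) [NeZero p] (hp : p.Prime) (hpk : (p : k) ≠ 0) :
    PrimeHyp k p :=
  primeHyp_of_charZero (k₀ := ℂ) hpk hp.two_le (modEqHyp_complex p hp) (unitHyp_complex p hp)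
    thetaHyp_complex

theorem primeHyp_of_dvd (k : Type*) [Field k] (N : ℕ) (hN : (N : k) ≠ 0) :
    ∀ p : ℕ, p.Prime → p ∣ N → ∀ [NeZero p], PrimeHyp k p := by
  intro p hp hpN _
  refine primeHyp k p hp ?_
  intro h0
  obtain ⟨c, rfl⟩ := hpN
  rw [Nat.cast_mul, h0, zero_mul] at hN
  exact hN rfl

/-- **Igusa's lower bound (Q2)**: `ψ(N) ≤ [k(j(q^d) : d ∣ N) : k(j)]` when `N ≠ 0` in `k`. -/
theorem dedekindPsi_le_relfinrank_full (k : Type*) [Field k] (N : ℕ) [NeZero N]
    (hN : (N : k) ≠ 0) :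
    dedekindPsi N ≤ (adjoin k {jqModC k}).relfinrank (modularFunctionFieldFullC k N) :=
  dedekindPsi_le_relfinrank N (primeHyp_of_dvd k N hN)

theorem relrank_full_lt_aleph0_of_ne_zero (k : Type*) [Field k] (N : ℕ) [NeZero N]
    (hN : (N : k) ≠ 0) :
    (adjoin k {jqModC k}).relrank (modularFunctionFieldFullC k N) < Cardinal.aleph0 :=
  relrank_full_lt_aleph0 N (primeHyp_of_dvd k N hN)

/-- **The integral modular equation**: a monic `Φ ∈ ℤ[Y][X]` of `X`-degree `p + 1` with
`Φ(j(q^p), j) = 0` and `Φ(j, j(q^p)) = 0` in `ℤ((q))`. -/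
theorem modEq_int (p : ℕ) [NeZero p] (hp : p.Prime) :
    ∃ Φ : Polynomial (Polynomial ℤ), Φ.Monic ∧ Φ.natDegree = p + 1 ∧
      Φ.eval₂ (Polynomial.aeval (R := ℤ) (jqModC ℤ)).toRingHom (qExpand ℤ p (jqModC ℤ)) = 0 ∧
      Φ.eval₂ (Polynomial.aeval (R := ℤ) (qExpand ℤ p (jqModC ℤ))).toRingHom (jqModC ℤ) = 0 := by
  obtain ⟨Φ, hm, hd, h1, h2⟩ := modEqHyp_complex p hp
  obtain ⟨hlow, hunit⟩ := jqModC_lowest ℤ
  have hjι : coeffMap (Int.castRingHom ℂ) (jqModC ℤ) = jqModC ℂ := coeffMap_jqModC _
  have hu' : coeffMap (Int.castRingHom ℂ) (jqModC ℤ) ≠ 0 := by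
    rw [hjι]; exact jqModC_ne_zero ℂ
  have hcop : IsCoprime (coeffMap (Int.castRingHom ℂ) (jqModC ℤ)).order (p : ℤ) := by
    rw [hjι, order_jqModC]; exact isCoprime_neg_one_natCast p
  obtain ⟨W', hW'm, hW'd, -, hr1, hr2⟩ :=
    exists_descent (Int.castRingHom ℂ) Int.cast_injective hp.two_le (j := jqModC ℤ)
      (u := qExpand ℤ p (jqModC ℤ)) (u' := jqModC ℤ) (by norm_num) hlow hunit hu' hcop hm hd
      (by rw [coeffMap_qExpand, hjι]; exact h1) (by rw [hjι]; exact h2)
  exact ⟨W', hW'm, hW'd, hr1, hr2⟩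

/-- The modular equation over an arbitrary commutative ring (image of the integral one). -/
theorem modEq_ring (R : Type*) [CommRing R] [Nontrivial R] (p : ℕ) [NeZero p] (hp : p.Prime) :
    ∃ Φ : Polynomial (Polynomial R), Φ.Monic ∧ Φ.natDegree = p + 1 ∧
      Φ.eval₂ (Polynomial.aeval (R := R) (jqModC R)).toRingHom (qExpand R p (jqModC R)) = 0 ∧
      Φ.eval₂ (Polynomial.aeval (R := R) (qExpand R p (jqModC R))).toRingHom (jqModC R) = 0 := by
  obtain ⟨Φ, hm, hd, h1, h2⟩ := modEq_int p hp
  have hj : coeffMap (Int.castRingHom R) (jqModC ℤ) = jqModC R := coeffMap_jqModC _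
  refine ⟨Φ.map (Polynomial.mapRingHom (Int.castRingHom R)), hm.map _,
    by rw [hm.natDegree_map, hd], ?_, ?_⟩
  · have e1 := coeffMap_eval₂_aeval (Int.castRingHom R) (jqModC ℤ) (qExpand ℤ p (jqModC ℤ)) Φ
    rw [h1, map_zero, coeffMap_qExpand, hj] at e1
    exact e1.symm
  · have e2 := coeffMap_eval₂_aeval (Int.castRingHom R) (qExpand ℤ p (jqModC ℤ)) (jqModC ℤ) Φ
    rw [h2, map_zero, coeffMap_qExpand, hj] at e2
    exact e2.symm

/-- (P1) in the form used by `UpperBound.lean`. -/
theorem ub_modEq (k : Type*) [Field k] (p : ℕ) [NeZero p] (hp : p.Prime) : UB.ModEq k p :=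
  modEqHyp k p hp

/-- **Q1, unconditional**: `[k(j(q^d) : d ∣ N) : k(j)] ≤ ψ(N)` over every field. -/
theorem relfinrank_full_le_dedekindPsi (k : Type*) [Field k] (N : ℕ) [NeZero N] :
    (UB.K0 k).relfinrank (modularFunctionFieldFullC k N) ≤ dedekindPsi N :=
  UB.relfinrank_full_le k (NeZero.ne N) (fun r hr _ => @ub_modEq k _ r ⟨hr.ne_zero⟩ hr)

/-- **Igusa's theorem on degrees**: `[k(j(q^d) : d ∣ N) : k(j)] = ψ(N)` for every field `k`
with `(N : k) ≠ 0`. -/
theorem relfinrank_full_eq_dedekindPsi (k : Type*) [Field k] (N : ℕ) [NeZero N]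
    (hN : (N : k) ≠ 0) :
    (adjoin k {jqModC k}).relfinrank (modularFunctionFieldFullC k N) = dedekindPsi N :=
  le_antisymm (relfinrank_full_le_dedekindPsi k N) (dedekindPsi_le_relfinrank_full k N hN)

end Fermat.Agent.S28


end ZBS28_002_7

/-! ### bundled: `Fermat.Agent.ES.G2.HeckeDeg` -/
section ZBS28_002_8

/-!
# ES / G2, piece HN-DEG: `[F_{Nℓ} : F_N] = ℓ + 1` for a prime `ℓ ∤ N`

`F_N = modularFunctionFieldBar N = ℚ̄(j(q^d) : d ∣ N) ⊂ ℚ̄((q))`, and `F_{Nℓ}` is an `F_N`-algebra
through `heckeAlphaBar` (the inclusion).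

* `hdeg_laurentBaseChange_full` : `laurentBaseChange L (modularFunctionFieldFull N) =
  modularFunctionFieldFullC L N` (the two descriptions of `L(j(q^d) : d ∣ N)`).
* `hdeg_relfinrank` : `relfinrank F_N F_{Nℓ} = ℓ + 1` over any field `L` of characteristic `0`.
* `hdeg_finrank`, `hdeg_finiteDimensional` : the same for the algebra structure
  `(heckeAlphaBar ℚ̄ N ℓ).toRingHom.toAlgebra`.

Source: Igusa's degree theorem `Fermat.Agent.S28.relfinrank_full_eq_dedekindPsi` and the tower law.
-/

set_option autoImplicit false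

noncomputable section

namespace Fermat.Agent.ES.G2

open ModularCurve IntermediateField

section BaseChange

variable (L : Type*) [Field L] [Algebra ℚ L]

/-- `coeffEmb` sends `j(q^d)` to `j(q^d)`. -/
theorem hdeg_coeffEmb_gen (d : ℕ) [NeZero d] :
    coeffEmb L (qExpand ℚ d (jqModC ℚ)) = qExpand L d (jqModC L) := by
  rw [coeffEmb, coeffMap_qExpand, coeffMap_jqModC]

/-- `coeffEmb` of a rational constant. -/
theorem hdeg_coeffEmb_algebraMap (r : ℚ) :
    coeffEmb L (algebraMap ℚ (LaurentSeries ℚ) r) =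
      algebraMap L (LaurentSeries L) (algebraMap ℚ L r) := by
  rw [algebraMap_laurentSeries_eq_single, algebraMap_laurentSeries_eq_single, coeffEmb,
    coeffMap_single]

theorem hdeg_coeffEmb_mem_full (N : ℕ) {x : LaurentSeries ℚ}
    (hx : x ∈ modularFunctionFieldFull N) :
    coeffEmb L x ∈ modularFunctionFieldFullC L N := by
  rw [← modularFunctionFieldFullC_rat] at hx
  unfold modularFunctionFieldFullC at hx
  induction hx using IntermediateField.adjoin_induction with
  | mem x hx =>
    obtain ⟨d, hne, hd, rfl⟩ := hx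
    rw [hdeg_coeffEmb_gen]
    exact jqModCd_mem_full L N hd
  | algebraMap r =>
    rw [hdeg_coeffEmb_algebraMap]
    exact IntermediateField.algebraMap_mem _ _
  | add x y _ _ hx hy =>
    rw [map_add]
    exact add_mem hx hy
  | inv x _ hx =>
    rw [map_inv₀]
    exact inv_mem hx
  | mul x y _ _ hx hy =>
    rw [map_mul]
    exact mul_mem hx hy

/-- The two descriptions of `L(j(q^d) : d ∣ N) ⊂ L((q))` agree. -/
theorem hdeg_laurentBaseChange_full (N : ℕ) :
    laurentBaseChange L (modularFunctionFieldFull N) = modularFunctionFieldFullC L N := by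
  apply le_antisymm
  · rw [laurentBaseChange, IntermediateField.adjoin_le_iff]
    rintro _ ⟨x, hx, rfl⟩
    exact hdeg_coeffEmb_mem_full L N hx
  · rw [modularFunctionFieldFullC, IntermediateField.adjoin_le_iff]
    rintro _ ⟨d, hne, hd, rfl⟩
    rw [← hdeg_coeffEmb_gen]
    refine coeffEmb_mem_laurentBaseChange L ?_
    rw [← modularFunctionFieldFullC_rat]
    exact jqModCd_mem_full ℚ N hd

end BaseChange

section Degree

variable (L : Type*) [Field L] [CharZero L]

/-- Igusa + tower law: `[L(j(q^d) : d ∣ Nℓ) : L(j(q^d) : d ∣ N)] = ℓ + 1` for a prime `ℓ ∤ N`. -/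
theorem hdeg_relfinrank_fullC (N ℓ : ℕ) [NeZero N] [NeZero ℓ] (hℓ : ℓ.Prime) (hℓN : ¬ ℓ ∣ N) :
    (modularFunctionFieldFullC L N).relfinrank (modularFunctionFieldFullC L (N * ℓ)) = ℓ + 1 := by
  have hN : ((N : ℕ) : L) ≠ 0 := Nat.cast_ne_zero.mpr (NeZero.ne N)
  have hNℓ : ((N * ℓ : ℕ) : L) ≠ 0 := Nat.cast_ne_zero.mpr (NeZero.ne (N * ℓ))
  have h1 := Fermat.Agent.S28.relfinrank_full_eq_dedekindPsi L N hN
  have h2 := Fermat.Agent.S28.relfinrank_full_eq_dedekindPsi L (N * ℓ) hNℓ
  have hle1 : adjoin L {jqModC L} ≤ modularFunctionFieldFullC L N :=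
    Fermat.Agent.S28.UB.K0_le_full L N
  have hle2 : modularFunctionFieldFullC L N ≤ modularFunctionFieldFullC L (N * ℓ) :=
    Fermat.Agent.S28.UB.full_mono L (Dvd.intro _ rfl)
  have h3 := relfinrank_mul_relfinrank hle1 hle2
  have hψ : dedekindPsi (N * ℓ) = (ℓ + 1) * dedekindPsi N := by
    rw [Nat.mul_comm]
    exact Fermat.Agent.S28.UB.psi_mul_of_not_dvd hℓ hℓN
  rw [h1, h2, hψ] at h3
  have hpos : dedekindPsi N ≠ 0 := by
    intro h0
    rw [h0] at h1
    have hfin := Fermat.Agent.S28.relrank_full_lt_aleph0_of_ne_zero L N hN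
    have hne := Fermat.Agent.S28.UB.relrank_ne_zero (adjoin L {jqModC L})
      (modularFunctionFieldFullC L N)
    rw [relfinrank_eq_toNat_relrank, Cardinal.toNat_eq_zero] at h1
    rcases h1 with h1 | h1
    · exact hne h1
    · exact absurd hfin (not_lt.mpr h1)
  have h4 : dedekindPsi N * (modularFunctionFieldFullC L N).relfinrank
      (modularFunctionFieldFullC L (N * ℓ)) = dedekindPsi N * (ℓ + 1) := by
    rw [h3, Nat.mul_comm]
  exact Nat.eq_of_mul_eq_mul_left (Nat.pos_of_ne_zero hpos) h4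

end Degree

section Inclusion

variable {k E : Type*} [Field k] [Field E] [Algebra k E]

/-- For `A ≤ B` the identity `B → B` is linear from the `A`-module `extendScalars` to `B` with the
`A`-algebra structure given by the inclusion. -/
def hdegEquiv {A B : IntermediateField k E} (h : A ≤ B) :
    letI := (IntermediateField.inclusion h).toRingHom.toAlgebra
    ↥(extendScalars h) ≃ₗ[A] B :=
  letI := (IntermediateField.inclusion h).toRingHom.toAlgebra
  { toFun := fun x => ⟨x.1, x.2⟩
    invFun := fun x => ⟨x.1, x.2⟩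
    left_inv := fun _ => rfl
    right_inv := fun _ => rfl
    map_add' := fun _ _ => rfl
    map_smul' := fun _ _ => rfl }

/-- `finrank` for the inclusion algebra structure is `relfinrank`. -/
theorem hdeg_finrank_inclusion {A B : IntermediateField k E} (h : A ≤ B) :
    letI := (IntermediateField.inclusion h).toRingHom.toAlgebra
    Module.finrank A B = A.relfinrank B := by
  let _ := (IntermediateField.inclusion h).toRingHom.toAlgebra
  rw [relfinrank_eq_finrank_of_le h]
  exact (LinearEquiv.finrank_eq (hdegEquiv h)).symm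

/-- Finite-dimensionality for the inclusion algebra structure. -/
theorem hdeg_finite_inclusion {A B : IntermediateField k E} (h : A ≤ B)
    (hfin : A.relfinrank B ≠ 0) :
    letI := (IntermediateField.inclusion h).toRingHom.toAlgebra
    FiniteDimensional A B := by
  let _ := (IntermediateField.inclusion h).toRingHom.toAlgebra
  have h1 : A.relrank B < Cardinal.aleph0 := by
    by_contra hge
    exact hfin (by
      rw [relfinrank_eq_toNat_relrank, Cardinal.toNat_eq_zero]
      exact Or.inr (not_lt.mp hge))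
  rw [relrank_eq_rank_of_le h] at h1
  have h2 : Module.Finite A (extendScalars h) := Module.rank_lt_aleph0_iff.mp h1
  exact Module.Finite.equiv (hdegEquiv h)

end Inclusion

section Bar

/-- `F_N ≤ F_{Nℓ}`. -/
theorem hdeg_bar_le (N ℓ : ℕ) :
    modularFunctionFieldBar N ≤ modularFunctionFieldBar (N * ℓ) := by
  show laurentBaseChange (AlgebraicClosure ℚ) (modularFunctionFieldFull N) ≤
    laurentBaseChange (AlgebraicClosure ℚ) (modularFunctionFieldFull (N * ℓ))
  rw [hdeg_laurentBaseChange_full, hdeg_laurentBaseChange_full]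
  exact Fermat.Agent.S28.UB.full_mono (AlgebraicClosure ℚ) (Dvd.intro _ rfl)

/-- `relfinrank F_N F_{Nℓ} = ℓ + 1`. -/
theorem hdeg_relfinrank (N ℓ : ℕ) [NeZero N] [NeZero ℓ] (hℓ : ℓ.Prime) (hℓN : ¬ ℓ ∣ N) :
    (modularFunctionFieldBar N).relfinrank (modularFunctionFieldBar (N * ℓ)) = ℓ + 1 := by
  show (laurentBaseChange (AlgebraicClosure ℚ) (modularFunctionFieldFull N)).relfinrank
    (laurentBaseChange (AlgebraicClosure ℚ) (modularFunctionFieldFull (N * ℓ))) = ℓ + 1
  rw [hdeg_laurentBaseChange_full, hdeg_laurentBaseChange_full]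
  exact hdeg_relfinrank_fullC (AlgebraicClosure ℚ) N ℓ hℓ hℓN

/-- **DEG**: `[F_{Nℓ} : F_N] = ℓ + 1` for the algebra structure given by `heckeAlphaBar`. -/
theorem hdeg_finrank (N ℓ : ℕ) [NeZero N] [NeZero ℓ] (hℓ : ℓ.Prime) (hℓN : ¬ ℓ ∣ N) :
    letI := (heckeAlphaBar (AlgebraicClosure ℚ) N ℓ).toRingHom.toAlgebra
    Module.finrank (modularFunctionFieldBar N) (modularFunctionFieldBar (N * ℓ)) = ℓ + 1 := by
  have h := hdeg_finrank_inclusion (hdeg_bar_le N ℓ)
  rw [hdeg_relfinrank N ℓ hℓ hℓN] at h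
  exact h

/-- **DEG**: `F_{Nℓ}` is finite-dimensional over `F_N` (algebra structure `heckeAlphaBar`). -/
theorem hdeg_finiteDimensional (N ℓ : ℕ) [NeZero N] [NeZero ℓ] (hℓ : ℓ.Prime) (hℓN : ¬ ℓ ∣ N) :
    letI := (heckeAlphaBar (AlgebraicClosure ℚ) N ℓ).toRingHom.toAlgebra
    FiniteDimensional (modularFunctionFieldBar N) (modularFunctionFieldBar (N * ℓ)) := by
  refine hdeg_finite_inclusion (hdeg_bar_le N ℓ) ?_
  rw [hdeg_relfinrank N ℓ hℓ hℓN]
  exact Nat.succ_ne_zero ℓ

end Bar

end Fermat.Agent.ES.G2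

end
end ZBS28_002_8

/-! ### bundled: `Fermat.Agent.ES.RC.UnitField` -/
section ZBS28_002_9

/-!
# ESpkg-G1, piece (RC)(i), second part: the modular unit lies in `ℂ(j(q^d) : d ∣ N)`

* `rc_uS_mem_prime` : for a prime `p`, `u_p = Δ(q^p)/Δ(q) ∈ ℂ(j, j(q^p))` (derivative trick:
  `(θ j)^6 = A(j) Δ` and `θ(j_p) = -Φ_Y/Φ_X · θ j`).
-/

set_option autoImplicit false

noncomputable section

namespace Fermat.Agent.ES.RC

open Polynomial ModularCurve
open Fermat.Agent.S28

/-! ### `θ` of an algebraic relation -/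

/-- `θ` applied to `Φ(x, j)`: it is `Φ_X(x, j) · θ x + B · θ j` with `B` in any intermediate field
containing `x` and `j`. -/
theorem rc_theta_eval₂ {k : Type*} [Field k] (E : IntermediateField k (LaurentSeries k))
    {x j : LaurentSeries k} (hx : x ∈ E) (hj : j ∈ E) (Φ : (k[X])[X]) :
    ∃ B ∈ E, Deriv.thetaFun (Φ.eval₂ (aeval (R := k) j).toRingHom x) =
      (derivative Φ).eval₂ (aeval (R := k) j).toRingHom x * Deriv.thetaFun x +
        B * Deriv.thetaFun j := by
  induction Φ using Polynomial.induction_on' with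
  | add P Q hP hQ =>
    obtain ⟨B1, hB1, h1⟩ := hP
    obtain ⟨B2, hB2, h2⟩ := hQ
    refine ⟨B1 + B2, E.add_mem hB1 hB2, ?_⟩
    rw [eval₂_add, Deriv.thetaFun_add, h1, h2, derivative_add, eval₂_add]
    ring
  | monomial n a =>
    refine ⟨x ^ n * aeval j (derivative a), E.mul_mem (pow_mem hx n)
      (Deriv.aeval_mem_of_mem E hj _), ?_⟩
    rw [eval₂_monomial, Deriv.thetaFun_mul, Deriv.thetaFun_pow, derivative_monomial,
      eval₂_monomial]
    simp only [AlgHom.toRingHom_eq_coe, RingHom.coe_coe, map_mul, map_natCast]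
    rw [Deriv.thetaFun_aeval]
    ring

/-! ### Prime level -/

theorem rc_thetaFun_jqModC_ne_zero : Deriv.thetaFun (jqModC ℂ) ≠ 0 := by
  intro h
  have h1 := congrArg (fun x : LaurentSeries ℂ => x.coeff (-1)) h
  simp only [Deriv.thetaFun_coeff, HahnSeries.coeff_zero] at h1
  rw [coeff_jqModC_neg_one] at h1
  norm_num at h1

/-- The derivative trick at prime level: `u_p = Δ(q^p)/Δ(q) ∈ ℂ(j, j(q^p))`. -/
theorem rc_uS_mem_prime (p : ℕ) [NeZero p] (hp : p.Prime) :
    uS ℂ p ∈ IntermediateField.adjoin ℂ {jqModC ℂ, qExpand ℂ p (jqModC ℂ)} := by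
  set j := jqModC ℂ with hj
  set jp := qExpand ℂ p j with hjp
  set E := IntermediateField.adjoin ℂ {j, jp} with hE
  have hjE : j ∈ E := IntermediateField.subset_adjoin _ _ (by simp)
  have hjpE : jp ∈ E := IntermediateField.subset_adjoin _ _ (by simp)
  obtain ⟨Φ, hΦm, hΦd, h1, h2⟩ := modEq_exists p hp
  set Q : Polynomial (LaurentSeries ℂ) := Φ.map (aeval (R := ℂ) j).toRingHom with hQ
  have hQm : Q.Monic := hΦm.map _
  have hQd : Q.natDegree = p + 1 := by rw [hQ, hΦm.natDegree_map, hΦd]
  have hQc : Q.eval jp = 0 := by rw [hQ, Polynomial.eval_map]; exact h1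
  have hQσ : Q.eval₂ (qExpand ℂ p) j = 0 := by
    rw [hQ, Polynomial.eval₂_map, ← aeval_qExpand_ringHom]
    exact h2
  have hcop : IsCoprime (j.order) (p : ℤ) := by
    rw [hj, order_jqModC]; exact isCoprime_neg_one_natCast p
  have hfac := eq_X_sub_C_mul_charpolyσ (jqModC_ne_zero ℂ) hcop hp.two_le hQm hQd hQσ hQc
  have hder : (derivative Q).eval jp = (charpolyσ p j).eval jp := by
    rw [hfac, derivative_mul]
    simp [hj]
  have hne : (derivative Φ).eval₂ (aeval (R := ℂ) j).toRingHom jp ≠ 0 := by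
    rw [← Polynomial.eval_map, ← derivative_map, ← hQ, hder]
    exact charpolyσ_eval_ne_zero (jqModC_ne_zero ℂ) hcop hp.two_le jp
  obtain ⟨B, hB, hθ⟩ := rc_theta_eval₂ E hjpE hjE Φ
  rw [h1, Deriv.thetaFun_zero] at hθ
  set D := (derivative Φ).eval₂ (aeval (R := ℂ) j).toRingHom jp with hD
  have hDE : D ∈ E := by
    rw [hD, Polynomial.eval₂_eq_sum_range]
    refine sum_mem fun i _ => E.mul_mem ?_ (pow_mem hjpE i)
    exact Deriv.aeval_mem_of_mem E hjE _
  -- `θ(j_p) = r · θ j`
  set r := -B / D with hr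
  have hrE : r ∈ E := E.div_mem (E.neg_mem hB) hDE
  have hθ' : Deriv.thetaFun jp = r * Deriv.thetaFun j := by
    rw [hr, div_mul_eq_mul_div, eq_div_iff hne]
    linear_combination -hθ
  obtain ⟨A, hA⟩ := CPrime.cprime_complex
  have hΔ : deltaS ℂ ≠ 0 := deltaS_ne_zero ℂ
  have hAj : aeval j A ≠ 0 := by
    intro h
    rw [h, zero_mul] at hA
    exact rc_thetaFun_jqModC_ne_zero (pow_eq_zero_iff (by norm_num) |>.mp hA)
  have hAjp : aeval jp A ≠ 0 := by
    rw [hjp, ← Deriv.qExpand_aeval]
    exact fun h => hAj (qExpand_injective p (by rw [h, map_zero]))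
  have hpC : (HahnSeries.C (p : ℂ) : LaurentSeries ℂ) ≠ 0 :=
    HahnSeries.C_ne_zero (Nat.cast_ne_zero.mpr hp.ne_zero)
  have hθσ : Deriv.thetaFun jp = HahnSeries.C (p : ℂ) * qExpand ℂ p (Deriv.thetaFun j) :=
    Deriv.thetaFun_qExpand p j
  have h6 : (HahnSeries.C (p : ℂ)) ^ 6 * (aeval jp A * qExpand ℂ p (deltaS ℂ))
      = r ^ 6 * (aeval j A * deltaS ℂ) := by
    rw [hjp, ← Deriv.qExpand_aeval, ← map_mul, ← hA, map_pow, ← mul_pow, ← hθσ, hθ', mul_pow]
  have h7 : (HahnSeries.C (p : ℂ)) ^ 6 * aeval jp A * uS ℂ p = r ^ 6 * aeval j A := by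
    apply mul_right_cancel₀ hΔ
    rw [qExpand_deltaS_eq] at h6
    linear_combination h6
  have hmemC : ∀ b : ℂ, (HahnSeries.C b : LaurentSeries ℂ) ∈ E := by
    intro b
    rw [← Deriv.algebraMap_eq_C]
    exact IntermediateField.algebraMap_mem _ b
  have : uS ℂ p = r ^ 6 * aeval j A / ((HahnSeries.C (p : ℂ)) ^ 6 * aeval jp A) := by
    rw [eq_div_iff (mul_ne_zero (pow_ne_zero _ hpC) hAjp)]
    linear_combination h7
  rw [this]
  exact E.div_mem (E.mul_mem (pow_mem hrE 6) (Deriv.aeval_mem_of_mem E hjE A))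
    (E.mul_mem (pow_mem (hmemC _) 6) (Deriv.aeval_mem_of_mem E hjpE A))

/-! ### General level -/

/-- `u_{Mℓ} = σ_ℓ(u_M) · u_ℓ`. -/
theorem rc_uS_mul (R : Type*) [CommRing R] (M ℓ : ℕ) [NeZero M] [NeZero ℓ] :
    uS R (M * ℓ) = qExpand R ℓ (uS R M) * uS R ℓ := by
  rw [uS_eq, uS_eq R M, uS_eq R ℓ, map_mul, qExpand_qExpand]
  have h1 : qExpand R ℓ (deltaInvS R) * qExpand R ℓ (deltaS R) = 1 := by
    rw [← map_mul, mul_comm, deltaS_mul_deltaInvS, map_one]
  have h2 : qExpand R (M * ℓ) (deltaS R) = qExpand R (ℓ * M) (deltaS R) :=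
    qExpand_congr (mul_comm _ _) _
  rw [h2]
  linear_combination -(qExpand R (ℓ * M) (deltaS R) * deltaInvS R) * h1

theorem rc_uS_one (R : Type*) [CommRing R] : uS R 1 = 1 := by
  rw [uS_eq, qExpand_one_apply, deltaS_mul_deltaInvS]

/-- The modular unit `u_N = Δ(q^N)/Δ(q)` lies in `ℂ(j(q^d) : d ∣ N)`. -/
theorem rc_uS_mem_full : ∀ (N : ℕ) [NeZero N], uS ℂ N ∈ modularFunctionFieldFullC ℂ N := by
  intro N
  induction N using Nat.strong_induction_on with
  | _ N ih =>
    intro hN
    by_cases h1 : N = 1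
    · subst h1
      rw [rc_uS_one]
      exact one_mem _
    · obtain ⟨ℓ, hℓ, hdvd⟩ := Nat.exists_prime_and_dvd h1
      obtain ⟨M, hM⟩ := hdvd
      have hNM : N = M * ℓ := by rw [hM, mul_comm]
      subst hNM
      have hM0 : M ≠ 0 := fun h => hN.out (by rw [h, zero_mul])
      have : NeZero M := ⟨hM0⟩
      have : NeZero ℓ := ⟨hℓ.ne_zero⟩
      have hlt : M < M * ℓ := by
        have := hℓ.two_le
        nlinarith [Nat.pos_of_ne_zero hM0]
      have hMmem := ih M hlt
      rw [rc_uS_mul]
      refine mul_mem ?_ ?_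
      · apply full_degeneracyC_map_le ℂ M ℓ
        exact ⟨uS ℂ M, hMmem, rfl⟩
      · have hle : IntermediateField.adjoin ℂ {jqModC ℂ, qExpand ℂ ℓ (jqModC ℂ)} ≤
            modularFunctionFieldFullC ℂ (M * ℓ) := by
          rw [IntermediateField.adjoin_le_iff]
          rintro x (rfl | rfl)
          · exact jqModC_mem_full ℂ _
          · exact jqModCd_mem_full ℂ _ (Dvd.intro_left M rfl)
        exact hle (rc_uS_mem_prime ℓ hℓ)

/-- **(RC)(i)**: a modular function for `Γ₀(N)` (holomorphic on `ℍ`, meromorphic at the cusps) has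
its `q`-expansion in the formal function field `K_ℂ = ℂ(j(q^d) : d ∣ N)`. -/
theorem rc_laurentOf_mem_full (N : ℕ) [NeZero N] {f : UpperHalfPlane → ℂ} (hf : IsModFun N f) :
    laurentOf f ∈ modularFunctionFieldFullC ℂ N := by
  have h := rc_laurentOf_mem_adjoin N hf
  have hle : IntermediateField.adjoin ℂ {jqModC ℂ, (uS ℂ N)⁻¹} ≤
      modularFunctionFieldFullC ℂ N := by
    rw [IntermediateField.adjoin_le_iff]
    rintro x (rfl | rfl)
    · exact jqModC_mem_full ℂ N
    · exact inv_mem (rc_uS_mem_full N)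
  exact hle h

end Fermat.Agent.ES.RC

end
end ZBS28_002_9

/-! ### bundled: `Fermat.Agent.ES.RC.FracField` -/
section ZBS28_002_10

/-!
# ESpkg-G1, piece (RC)(i'): the formal function field is the fraction field of `modFunAlg N`

* `rc_isModFun_of_dvd` : `IsModFun d f → IsModFun N f` for `d ∣ N`.
* `rc_exists_frac` : every `x ∈ K_ℂ = modularFunctionFieldFullC ℂ N` is `laurentOf a / laurentOf b`
  with `a`, `b` modular functions for `Γ₀(N)` (holomorphic on `ℍ`, meromorphic at the cusps).
* `rc_toField N : modFunAlg N →ₐ[ℂ] K_ℂ` (the `q`-expansion), `rc_toField_injective`,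
  `rc_algebra N`, `rc_isScalarTower N`, `rc_isFractionRing N`.
-/

set_option autoImplicit false
set_option linter.style.haveILetI false

noncomputable section

namespace Fermat.Agent.ES.RC

open UpperHalfPlane ModularForm Polynomial ModularCurve
open Fermat.Agent.S23 Fermat.Agent.S24 Fermat.Agent.S28
open scoped MatrixGroups ModularForm Manifold

local notation "Δ" => ModularForm.discriminant

/-! ### Lowering the level -/

theorem rc_Gamma0_le_of_dvd {d N : ℕ} (h : d ∣ N) :
    CongruenceSubgroup.Gamma0 N ≤ CongruenceSubgroup.Gamma0 d := by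
  intro A hA
  rw [CongruenceSubgroup.Gamma0_mem] at hA ⊢
  rw [ZMod.intCast_zmod_eq_zero_iff_dvd] at hA ⊢
  exact (Int.natCast_dvd_natCast.mpr h).trans hA

theorem rc_G0_le_of_dvd {d N : ℕ} (h : d ∣ N) : G0 N ≤ G0 d :=
  Subgroup.map_mono (rc_Gamma0_le_of_dvd h)

theorem rc_isMF_of_dvd {d N : ℕ} (h : d ∣ N) {κ : ℤ} {f : ℍ → ℂ} (hf : IsMF (G0 d) κ f) :
    IsMF (G0 N) κ f := by
  obtain ⟨F, rfl⟩ := hf
  exact ⟨{ toFun := F
           slash_action_eq' := fun A hA => F.slash_action_eq' A (rc_G0_le_of_dvd h hA)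
           holo' := F.holo'
           bdd_at_cusps' := fun hc => F.bdd_at_cusps' (hc.mono (rc_G0_le_of_dvd h)) }, rfl⟩

theorem rc_isModFun_of_dvd {d N : ℕ} (h : d ∣ N) {f : ℍ → ℂ} (hf : IsModFun d f) :
    IsModFun N f := by
  obtain ⟨m, hm⟩ := hf
  exact ⟨m, rc_isMF_of_dvd h hm⟩

theorem rc_isModFun_Jfun_scaleN {d N : ℕ} [NeZero d] (h : d ∣ N) :
    IsModFun N (fun z => Jfun (scaleN d z)) :=
  rc_isModFun_of_dvd h (isModFun_Jfun_scaleN d)

theorem rc_isModFun_one (N : ℕ) : IsModFun N (1 : ℍ → ℂ) := isModFun_const N 1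

theorem rc_isModFun_zero (N : ℕ) : IsModFun N (0 : ℍ → ℂ) := isModFun_const N 0

/-! ### Every element of `K_ℂ` is a quotient of modular functions -/

/-- **(RC)(i')**: every element of the formal function field `K_ℂ = ℂ(j(q^d) : d ∣ N)` is a
quotient of `q`-expansions of modular functions for `Γ₀(N)`. -/
theorem rc_exists_frac (N : ℕ) [NeZero N] {x : LaurentSeries ℂ}
    (hx : x ∈ modularFunctionFieldFullC ℂ N) :
    ∃ a b : ℍ → ℂ, IsModFun N a ∧ IsModFun N b ∧ laurentOf b ≠ 0 ∧
      x * laurentOf b = laurentOf a := by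
  unfold modularFunctionFieldFullC at hx
  induction hx using IntermediateField.adjoin_induction with
  | mem x hx =>
    obtain ⟨d, hne, hd, rfl⟩ := hx
    refine ⟨fun z => Jfun (scaleN d z), 1, rc_isModFun_Jfun_scaleN hd, rc_isModFun_one N, ?_, ?_⟩
    · rw [laurentOf_one]; exact one_ne_zero
    · rw [laurentOf_one, mul_one, laurentOf_Jfun_scaleN]; rfl
  | algebraMap c =>
    refine ⟨fun _ => c, 1, isModFun_const N c, rc_isModFun_one N, ?_, ?_⟩
    · rw [laurentOf_one]; exact one_ne_zero
    · rw [laurentOf_one, mul_one, laurentOf_const, Deriv.algebraMap_eq_C]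
  | add x y _ _ ihx ihy =>
    obtain ⟨a1, b1, ha1, hb1, hb1', h1⟩ := ihx
    obtain ⟨a2, b2, ha2, hb2, hb2', h2⟩ := ihy
    refine ⟨a1 * b2 + a2 * b1, b1 * b2, (ha1.mul hb2).add (ha2.mul hb1), hb1.mul hb2, ?_, ?_⟩
    · rw [laurentOf_mul hb1.isMerInf hb2.isMerInf]; exact mul_ne_zero hb1' hb2'
    · rw [laurentOf_mul hb1.isMerInf hb2.isMerInf,
        laurentOf_add (ha1.mul hb2).isMerInf (ha2.mul hb1).isMerInf,
        laurentOf_mul ha1.isMerInf hb2.isMerInf, laurentOf_mul ha2.isMerInf hb1.isMerInf,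
        ← h1, ← h2]
      ring
  | inv x _ ih =>
    obtain ⟨a, b, ha, hb, hb', h⟩ := ih
    by_cases ha0 : laurentOf a = 0
    · have hx0 : x = 0 := by
        rw [ha0] at h
        exact (mul_eq_zero.mp h).resolve_right hb'
      refine ⟨0, 1, rc_isModFun_zero N, rc_isModFun_one N, ?_, ?_⟩
      · rw [laurentOf_one]; exact one_ne_zero
      · rw [hx0, inv_zero, zero_mul, laurentOf_zero]
    · refine ⟨b, a, hb, ha, ha0, ?_⟩
      have hx0 : x ≠ 0 := by
        rintro rfl
        rw [zero_mul] at h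
        exact ha0 h.symm
      rw [← h]
      field_simp
  | mul x y _ _ ihx ihy =>
    obtain ⟨a1, b1, ha1, hb1, hb1', h1⟩ := ihx
    obtain ⟨a2, b2, ha2, hb2, hb2', h2⟩ := ihy
    refine ⟨a1 * a2, b1 * b2, ha1.mul ha2, hb1.mul hb2, ?_, ?_⟩
    · rw [laurentOf_mul hb1.isMerInf hb2.isMerInf]; exact mul_ne_zero hb1' hb2'
    · rw [laurentOf_mul hb1.isMerInf hb2.isMerInf, laurentOf_mul ha1.isMerInf ha2.isMerInf,
        ← h1, ← h2]
      ring

/-- Converse of `rc_exists_frac`: a quotient of `q`-expansions of modular functions lies in `K_ℂ`. -/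
theorem rc_mem_full_of_frac (N : ℕ) [NeZero N] {x : LaurentSeries ℂ} {a b : ℍ → ℂ}
    (ha : IsModFun N a) (hb : IsModFun N b) (hb' : laurentOf b ≠ 0)
    (h : x * laurentOf b = laurentOf a) : x ∈ modularFunctionFieldFullC ℂ N := by
  have hx : x = laurentOf a / laurentOf b := by rw [eq_div_iff hb']; exact h
  rw [hx]
  exact div_mem (rc_laurentOf_mem_full N ha) (rc_laurentOf_mem_full N hb)

theorem rc_mem_full_iff (N : ℕ) [NeZero N] {x : LaurentSeries ℂ} :
    x ∈ modularFunctionFieldFullC ℂ N ↔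
      ∃ a b : ℍ → ℂ, IsModFun N a ∧ IsModFun N b ∧ laurentOf b ≠ 0 ∧
        x * laurentOf b = laurentOf a :=
  ⟨rc_exists_frac N, fun ⟨_, _, ha, hb, hb', h⟩ => rc_mem_full_of_frac N ha hb hb' h⟩

/-! ### `K_ℂ` as the fraction field of `modFunAlg N` -/

/-- The `q`-expansion, as a `ℂ`-algebra map from the modular functions for `Γ₀(N)` to the formal
function field `K_ℂ`. -/
def rc_toField (N : ℕ) [NeZero N] : modFunAlg N →ₐ[ℂ] modularFunctionFieldFullC ℂ N where
  toFun f := ⟨laurentOf (f : ℍ → ℂ), rc_laurentOf_mem_full N f.2⟩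
  map_one' := Subtype.ext laurentOf_one
  map_mul' f g := Subtype.ext (laurentOf_mul (IsModFun.isMerInf f.2) (IsModFun.isMerInf g.2))
  map_zero' := Subtype.ext laurentOf_zero
  map_add' f g := Subtype.ext (laurentOf_add (IsModFun.isMerInf f.2) (IsModFun.isMerInf g.2))
  commutes' c := Subtype.ext (by
    show laurentOf (fun _ => c) = algebraMap ℂ (LaurentSeries ℂ) c
    rw [laurentOf_const, Deriv.algebraMap_eq_C])

@[simp]
theorem rc_toField_coe (N : ℕ) [NeZero N] (f : modFunAlg N) :
    ((rc_toField N f : modularFunctionFieldFullC ℂ N) : LaurentSeries ℂ) =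
      laurentOf (f : ℍ → ℂ) := rfl

theorem rc_toField_injective (N : ℕ) [NeZero N] : Function.Injective (rc_toField N) := by
  intro f g h
  have h1 : laurentOf (f : ℍ → ℂ) = laurentOf (g : ℍ → ℂ) := congrArg Subtype.val h
  exact Subtype.ext (laurentOf_injective (IsModFun.isMerInf f.2) (IsModFun.isMerInf g.2) h1)

/-- The algebra structure of `K_ℂ` over the ring of modular functions (via `q`-expansion). -/
@[reducible]
def rc_algebra (N : ℕ) [NeZero N] : Algebra (modFunAlg N) (modularFunctionFieldFullC ℂ N) :=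
  (rc_toField N).toRingHom.toAlgebra

theorem rc_algebraMap_apply (N : ℕ) [NeZero N] (f : modFunAlg N) :
    letI := rc_algebra N
    algebraMap (modFunAlg N) (modularFunctionFieldFullC ℂ N) f = rc_toField N f := rfl

theorem rc_isScalarTower (N : ℕ) [NeZero N] :
    letI := rc_algebra N
    IsScalarTower ℂ (modFunAlg N) (modularFunctionFieldFullC ℂ N) := by
  letI := rc_algebra N
  refine IsScalarTower.of_algebraMap_eq fun c => ?_
  rw [rc_algebraMap_apply]
  exact ((rc_toField N).commutes c).symm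

/-- **`K_ℂ = Frac(modFunAlg N)`**. -/
theorem rc_isFractionRing (N : ℕ) [NeZero N] :
    letI := rc_algebra N
    IsFractionRing (modFunAlg N) (modularFunctionFieldFullC ℂ N) := by
  letI := rc_algebra N
  haveI : FaithfulSMul (modFunAlg N) (modularFunctionFieldFullC ℂ N) :=
    (faithfulSMul_iff_algebraMap_injective _ _).mpr (rc_toField_injective N)
  refine IsFractionRing.of_field _ _ fun z => ?_
  obtain ⟨a, b, ha, hb, hb', h⟩ := rc_exists_frac N z.2
  refine ⟨⟨a, ha⟩, ⟨b, hb⟩, ?_⟩
  have hb0 : algebraMap (modFunAlg N) (modularFunctionFieldFullC ℂ N) ⟨b, hb⟩ ≠ 0 := by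
    intro h0
    exact hb' (congrArg Subtype.val h0)
  rw [eq_div_iff hb0]
  exact Subtype.ext h

end Fermat.Agent.ES.RC

end
end ZBS28_002_10

/-! ### bundled: `Fermat.Agent.ES.IotaC` -/
section ZBS28_002_11

/-!
# ESpkg-G1: the coefficient embedding `ι : K_ℚ̄ → K_ℂ`

`K_ℚ̄ = modularFunctionFieldBar M ⊂ ℚ̄((q))`, `K_ℂ = modularFunctionFieldFullC ℂ M ⊂ ℂ((q))`,
`ι = coeffMap embC` (`embC : ℚ̄ → ℂ` the fixed embedding of S24).
-/

set_option autoImplicit false

noncomputable section

namespace Fermat.Agent.ES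

open ModularCurve IntermediateField Fermat.Agent.S24

variable (M : ℕ) [NeZero M]

theorem iotaC_coeffMap_coeffEmb (x : LaurentSeries ℚ) :
    coeffMap embC (coeffEmb (AlgebraicClosure ℚ) x) = coeffEmb ℂ x := by
  rw [coeffEmb, coeffEmb, coeffMap_coeffMap]
  exact coeffMap_congr (Subsingleton.elim _ _) x

theorem iotaC_coeffMap_algebraMap (a : AlgebraicClosure ℚ) :
    coeffMap embC (algebraMap (AlgebraicClosure ℚ) (LaurentSeries (AlgebraicClosure ℚ)) a) =
      algebraMap ℂ (LaurentSeries ℂ) (embC a) := by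
  rw [LaurentSeries.algebraMap_apply, LaurentSeries.algebraMap_apply, HahnSeries.C_apply,
    coeffMap_single, HahnSeries.C_apply]

/-- `coeffMap embC` maps `K_ℚ̄` into `K_ℂ`. -/
theorem coeffMap_embC_mem {x : LaurentSeries (AlgebraicClosure ℚ)}
    (hx : x ∈ modularFunctionFieldBar M) : coeffMap embC x ∈ modularFunctionFieldFullC ℂ M := by
  have key : ∀ z ∈ IntermediateField.adjoin (AlgebraicClosure ℚ)
      (⇑(coeffEmb (AlgebraicClosure ℚ)) '' (modularFunctionFieldFull M : Set (LaurentSeries ℚ))),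
      coeffMap embC z ∈ modularFunctionFieldFullC ℂ M := by
    intro z hz
    induction hz using IntermediateField.adjoin_induction with
    | mem z hz =>
      obtain ⟨y, hy, rfl⟩ := hz
      rw [iotaC_coeffMap_coeffEmb, ← Fermat.Agent.ES.G2.hdeg_laurentBaseChange_full ℂ M]
      exact coeffEmb_mem_laurentBaseChange ℂ hy
    | algebraMap a =>
      rw [iotaC_coeffMap_algebraMap]
      exact IntermediateField.algebraMap_mem _ _
    | add z w _ _ ihz ihw =>
      rw [map_add]
      exact add_mem ihz ihw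
    | inv z _ ihz =>
      rw [map_inv₀]
      exact inv_mem ihz
    | mul z w _ _ ihz ihw =>
      rw [map_mul]
      exact mul_mem ihz ihw
  exact key x hx

/-- the coefficient embedding `ι : K_ℚ̄ → K_ℂ` -/
def iotaC : modularFunctionFieldBar M →+* modularFunctionFieldFullC ℂ M where
  toFun x := ⟨coeffMap embC (x : LaurentSeries (AlgebraicClosure ℚ)), coeffMap_embC_mem M x.2⟩
  map_one' := Subtype.ext (map_one _)
  map_mul' x y := Subtype.ext (map_mul _ _ _)
  map_zero' := Subtype.ext (map_zero _)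
  map_add' x y := Subtype.ext (map_add _ _ _)

@[simp] theorem iotaC_coe (x : modularFunctionFieldBar M) :
    ((iotaC M x : modularFunctionFieldFullC ℂ M) : LaurentSeries ℂ) =
      coeffMap embC (x : LaurentSeries (AlgebraicClosure ℚ)) := rfl

theorem iotaC_injective : Function.Injective (iotaC M) := (iotaC M).injective

theorem iotaC_algebraMap (a : AlgebraicClosure ℚ) :
    iotaC M (algebraMap (AlgebraicClosure ℚ) (modularFunctionFieldBar M) a) =
      algebraMap ℂ (modularFunctionFieldFullC ℂ M) (embC a) :=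
  Subtype.ext (iotaC_coeffMap_algebraMap a)

end Fermat.Agent.ES

end
end ZBS28_002_11

/-! ### bundled: `Fermat.Agent.ES.BaseChangeDown` -/
section ZBS28_002_12

/-!
# ESpkg-G1, piece BCd: places of `K_ℂ` restrict to places of `K_ℚ̄`

Generic form (`place_restrict_along`): `F / K`, `F' / K'` function fields, `ι : F →+* F'` a ring
homomorphism mapping `K` into `K'`.  Every place `w` of `F' / K'` is either trivial on `ι F`, or
there are a place `v` of `F / K` and `e > 0` with `w.ord (ι f) = e * v.ord f` for all `f`.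

Modular form (`baseChangeDown`): `ι = iotaC M : K_ℚ̄ → K_ℂ` (`ES/IotaC.lean`), the coefficientwise
embedding `modularFunctionFieldBar M → modularFunctionFieldFullC ℂ M` induced by
`S24.embC : ℚ̄ → ℂ`.
-/

set_option autoImplicit false
set_option linter.style.haveILetI false
set_option linter.unusedSectionVars false

noncomputable section

namespace Fermat.Agent.ES

open AlgebraicCurve ModularCurve Fermat.Agent.S24 WithZero

section Generic

variable {K K' F F' : Type*} [Field K] [Field K'] [Field F] [Field F'] [Algebra K F]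
  [Algebra K' F']

/-- **BCd, generic.** -/
theorem place_restrict_along (ι : F →+* F') (j : K →+* K')
    (hι : ∀ a : K, ι (algebraMap K F a) = algebraMap K' F' (j a)) (w : Place K' F') :
    (∀ f : F, w.ord (ι f) = 0) ∨
      ∃ (v : Place K F) (e : ℤ), 0 < e ∧ ∀ f : F, w.ord (ι f) = e * v.ord f := by
  classical
  set v₀ : Valuation F ℤᵐ⁰ := w.adicValuation.comap ι with hv₀
  have hord : ∀ f : F, w.ord (ι f) = vord v₀ f := fun f => rfl
  have hK : ∀ a : K, v₀ (algebraMap K F a) ≤ 1 := by
    intro a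
    show w.adicValuation (ι (algebraMap K F a)) ≤ 1
    rw [hι a]
    have h1 := w.adicValuation_coe (algebraMap K' w.toValuationSubring (j a))
    rw [Place.coe_algebraMap] at h1
    rw [h1]
    exact (w.heightOneSpectrum.intValuation_le_one _)
  by_cases hx : ∃ x : F, x ≠ 0 ∧ v₀ x < 1
  · right
    obtain ⟨v, e₀, he₀, -, hv⟩ := exists_place_of_valuation (K := K) v₀ hK hx
    refine ⟨v, e₀, he₀, fun f => ?_⟩
    rcases eq_or_ne f 0 with rfl | hf
    · simp
    · rw [hord, hv f hf]
  · left
    intro f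
    rcases eq_or_ne f 0 with rfl | hf
    · simp
    · rw [hord]
      have h1 : ¬ v₀ f < 1 := fun h => hx ⟨f, hf, h⟩
      have h2 : ¬ v₀ f⁻¹ < 1 := fun h => hx ⟨f⁻¹, inv_ne_zero hf, h⟩
      rw [lt_one_iff_vord_pos v₀ hf] at h1
      rw [lt_one_iff_vord_pos v₀ (inv_ne_zero hf), vord_inv] at h2
      omega

end Generic

section Modular

attribute [local instance] algKbC

variable (M : ℕ) [NeZero M]

/-- **BCd**: a place of `K_ℂ` is trivial on `K_ℚ̄` or restricts to a place of `K_ℚ̄`. -/
theorem baseChangeDown (w : Place ℂ (modularFunctionFieldFullC ℂ M)) :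
    (∀ f : modularFunctionFieldBar M, w.ord (iotaC M f) = 0) ∨
      ∃ (v : Place Kb (modularFunctionFieldBar M)) (e : ℤ), 0 < e ∧
        ∀ f : modularFunctionFieldBar M, w.ord (iotaC M f) = e * v.ord f :=
  place_restrict_along (iotaC M) embC (iotaC_algebraMap M) w

end Modular

end Fermat.Agent.ES

end
end ZBS28_002_12

/-! ### bundled: `Fermat.Agent.ES.DescentHyp` -/
section ZBS28_002_13

/-!
# ESpkg-G1, piece A6-surj: the hypotheses H1–H5 of helper10's descent theorem for the real
`K = modularFunctionFieldFullC ℂ N`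

* H1 `one_lt_val_jqModC`
* H2 `coeffMap_mem_full`
* H3 `relfinrank_full_ne_zero`
* H4 `exists_coeffMap_eq_of_algebraic`
* H5 `exists_ringEquiv_extends`

`ℚ̄ → ℂ` is `Fermat.Agent.S24.embC` (`algebraMap Kb ℂ` for the local instance `S24.algKbC`).
-/

set_option autoImplicit false

noncomputable section

namespace Fermat.Agent.ES.RRFin

open ModularCurve IntermediateField Fermat.Agent.S24

attribute [local instance] algKbC

/-- H1: `j` has a pole at `q = 0`. -/
theorem one_lt_val_jqModC : 1 < Valued.v (jqModC ℂ) := by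
  rw [← not_le]
  intro h
  have h0 : Valued.v (jqModC ℂ) ≤ WithZero.exp (-(0 : ℤ)) := by simpa using h
  have := (LaurentSeries.valuation_le_iff_coeff_lt_eq_zero ℂ).1 h0 (-1) (by norm_num)
  rw [coeff_jqModC_neg_one] at this
  exact one_ne_zero this

/-- H2: the level-`N` function field over `ℂ` is stable under coefficientwise automorphisms. -/
theorem coeffMap_mem_full (σ : ℂ ≃+* ℂ) (N : ℕ) [NeZero N] {y : LaurentSeries ℂ}
    (hy : y ∈ modularFunctionFieldFullC ℂ N) :
    coeffMap (σ : ℂ →+* ℂ) y ∈ modularFunctionFieldFullC ℂ N := by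
  have hy' : y ∈ Subfield.closure (Set.range (algebraMap ℂ (LaurentSeries ℂ)) ∪
      divisorExpansionsC ℂ N) := hy
  clear hy
  induction hy' using Subfield.closure_induction with
  | mem z hz =>
      rcases hz with ⟨a, rfl⟩ | ⟨d, hd, hdN, rfl⟩
      · rw [coeffMap_algebraMap]
        exact (modularFunctionFieldFullC ℂ N).algebraMap_mem _
      · have h1 : coeffMap (σ : ℂ →+* ℂ) (qExpand ℂ d (jqModC ℂ)) = qExpand ℂ d (jqModC ℂ) :=
          coeffMap_jqNModC (σ : ℂ →+* ℂ) d
        rw [h1]
        exact jqModCd_mem_full ℂ N hdN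
  | one => simp
  | add x y _ _ hx hy => simpa using add_mem hx hy
  | neg x _ hx => simpa using neg_mem hx
  | inv x _ hx => simpa using inv_mem hx
  | mul x y _ _ hx hy => simpa using mul_mem hx hy

theorem DescentHypAux.dedekindPsi_ne_zero (N : ℕ) [NeZero N] : dedekindPsi N ≠ 0 := by
  unfold dedekindPsi
  have h1 : (1 : ℕ) ∈ N.divisors.filter (fun d => Squarefree d) := by
    simp [NeZero.ne N]
  have := Finset.single_le_sum (f := fun d => N / d) (fun _ _ => Nat.zero_le _) h1
  have hN : 0 < N := Nat.pos_of_ne_zero (NeZero.ne N)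
  simp only [Nat.div_one] at this
  omega

/-- H3: `[ℂ(j(q^d) : d ∣ N) : ℂ(j)]` is finite (and nonzero). -/
theorem relfinrank_full_ne_zero (N : ℕ) [NeZero N] :
    (adjoin ℂ {jqModC ℂ}).relfinrank (modularFunctionFieldFullC ℂ N) ≠ 0 := by
  rw [Fermat.Agent.S28.relfinrank_full_eq_dedekindPsi ℂ N (Nat.cast_ne_zero.2 (NeZero.ne N))]
  exact DescentHypAux.dedekindPsi_ne_zero N

/-- every algebraic complex number is in the image of `ℚ̄`. -/
theorem DescentHypAux.mem_range_embC_of_isAlgebraic {z : ℂ} (hz : IsAlgebraic ℚ z) :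
    z ∈ Set.range (algebraMap Kb ℂ) := by
  obtain ⟨P, hP0, hPz⟩ := hz
  have hroot : ((P.map (algebraMap ℚ Kb)).map (algebraMap Kb ℂ)).IsRoot z := by
    rw [Polynomial.IsRoot, Polynomial.map_map, Polynomial.eval_map]
    have : (algebraMap Kb ℂ).comp (algebraMap ℚ Kb) = algebraMap ℚ ℂ := Subsingleton.elim _ _
    rw [this]
    exact hPz
  have hne : P.map (algebraMap ℚ Kb) ≠ 0 :=
    (Polynomial.map_ne_zero_iff (algebraMap ℚ Kb).injective).2 hP0
  exact (IsAlgClosed.splits _).mem_range_of_isRoot hne hroot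

/-- H4: a Laurent series over `ℂ` with algebraic coefficients comes from `ℚ̄((q))`. -/
theorem exists_coeffMap_eq_of_algebraic (y : LaurentSeries ℂ)
    (h : ∀ m, IsAlgebraic ℚ (y.coeff m)) :
    ∃ y' : LaurentSeries Kb, coeffMap (algebraMap Kb ℂ) y' = y := by
  have hex : ∀ m, ∃ a : Kb, algebraMap Kb ℂ a = y.coeff m := fun m =>
    DescentHypAux.mem_range_embC_of_isAlgebraic (h m)
  choose c hc using hex
  have hsupp : Function.support c ⊆ Function.support y.coeff := by
    intro m hm hy0
    apply hm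
    have : algebraMap Kb ℂ (c m) = 0 := by rw [hc]; exact hy0
    exact (map_eq_zero_iff _ (algebraMap Kb ℂ).injective).1 this
  refine ⟨⟨c, y.isPWO_support.mono hsupp⟩, ?_⟩
  ext m
  rw [coeffMap_coeff]
  exact hc m

/-- H5: every automorphism of `ℚ̄` extends to a ring automorphism of `ℂ`. -/
theorem exists_ringEquiv_extends (τ : Kb ≃ₐ[ℚ] Kb) :
    ∃ σ : ℂ ≃+* ℂ, ∀ a, σ (algebraMap Kb ℂ a) = algebraMap Kb ℂ (τ a) := by
  obtain ⟨s, hs⟩ := exists_isTranscendenceBasis Kb ℂ
  have := IsAlgClosed.isAlgClosure_of_transcendence_basis ((↑) : s → ℂ) hs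
  let e : Algebra.adjoin Kb (Set.range ((↑) : s → ℂ)) ≃+*
      Algebra.adjoin Kb (Set.range ((↑) : s → ℂ)) :=
    hs.1.aevalEquiv.symm.toRingEquiv.trans
      ((MvPolynomial.mapEquiv s (τ : Kb ≃+* Kb)).trans hs.1.aevalEquiv.toRingEquiv)
  refine ⟨IsAlgClosure.equivOfEquiv ℂ ℂ e, fun a => ?_⟩
  have h1 : (hs.1.aevalEquiv (MvPolynomial.C a) : ℂ) = algebraMap Kb ℂ a := by
    simp [AlgebraicIndependent.aevalEquiv_apply_coe]
  have h2 : (e (hs.1.aevalEquiv (MvPolynomial.C a)) : ℂ) = algebraMap Kb ℂ (τ a) := by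
    simp [e, AlgebraicIndependent.aevalEquiv_apply_coe]
  have h3 := IsAlgClosure.equivOfEquiv_algebraMap ℂ ℂ e (hs.1.aevalEquiv (MvPolynomial.C a))
  have h4 : algebraMap (Algebra.adjoin Kb (Set.range ((↑) : s → ℂ))) ℂ
      (hs.1.aevalEquiv (MvPolynomial.C a)) = algebraMap Kb ℂ a := h1
  have h5 : algebraMap (Algebra.adjoin Kb (Set.range ((↑) : s → ℂ))) ℂ
      (e (hs.1.aevalEquiv (MvPolynomial.C a))) = algebraMap Kb ℂ (τ a) := h2
  rw [h4, h5] at h3
  exact h3

end Fermat.Agent.ES.RRFin

end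
end ZBS28_002_13

/-! ### bundled: `Fermat.Agent.S28.Red` -/
section ZBS28_002_14

/-!
# S28: RED — independent reductions mod `ℓ` give independence over `ℚ(t)`

`x i ∈ ℤ((q))`, `t ∈ ℤ((q))` with `t mod ℓ` transcendental over `𝔽_ℓ`.  If the reductions of the
`x i` are linearly independent over `𝔽_ℓ(t̄)`, the images of the `x i` in `ℚ((q))` are linearly
independent over `ℚ(t)`.

Proof: a relation over `ℚ(t)` is scaled to a relation `∑ P i (t) x i = 0` with `P i ∈ ℤ[X]`
(it holds in `ℤ((q))`, which embeds into `ℚ((q))`); reducing mod `ℓ` shows that `ℓ` divides every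
`P i`; `ℤ((q))` has no `ℓ`-torsion, so the relation can be divided by `ℓ`; descent on the absolute
value of a nonzero coefficient.

* `red_integral_relation` : no nontrivial relation with coefficients in `ℤ[t]`.
* `red_indep` : membership form (the form of `IsKeyData.indep`).
* `red_linearIndependent` : `LinearIndependent` form.
* `red_indep_jq`, `red_linearIndependent_jq` : the case `t = j`.
-/

set_option autoImplicit false

namespace Fermat.Agent.S28

open ModularCurve Polynomial IntermediateField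

section RedAbstract

/-- `coeffMap` commutes with the evaluation of integer polynomials. -/
theorem red_coeffMap_eval₂ {S : Type*} [CommRing S] (f : ℤ →+* S) (t : LaurentSeries ℤ)
    (P : Polynomial ℤ) :
    coeffMap f (eval₂ (Int.castRingHom (LaurentSeries ℤ)) t P) =
      eval₂ (Int.castRingHom (LaurentSeries S)) (coeffMap f t) P := by
  rw [Polynomial.hom_eval₂]
  congr 1
  exact RingHom.ext_int _ _

/-- Evaluation of the image of an integer polynomial over a field. -/
theorem red_aeval_map {k : Type*} [Field k] (y : LaurentSeries k) (P : Polynomial ℤ) :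
    aeval y (P.map (Int.castRingHom k)) = eval₂ (Int.castRingHom (LaurentSeries k)) y P := by
  rw [aeval_def, eval₂_map]
  congr 1
  exact RingHom.ext_int _ _

/-- `ℤ((q)) → ℚ((q))` is injective. -/
theorem red_coeffMap_rat_injective :
    Function.Injective (coeffMap (Int.castRingHom ℚ)) := by
  intro x y h
  ext n
  have h1 := congrArg (fun z : LaurentSeries ℚ => z.coeff n) h
  simp only [coeffMap_coeff, eq_intCast] at h1
  exact_mod_cast h1

/-- `ℤ((q))` has no `ℓ`-torsion. -/
theorem red_eq_zero_of_intCast_mul {a : ℤ} (ha : a ≠ 0) {y : LaurentSeries ℤ}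
    (h : Int.castRingHom (LaurentSeries ℤ) a * y = 0) : y = 0 := by
  ext n
  have h1 := congrArg (fun z : LaurentSeries ℤ => z.coeff n) h
  have h2 : Int.castRingHom (LaurentSeries ℤ) a = HahnSeries.C a := by
    rw [eq_intCast, ← map_intCast (HahnSeries.C : ℤ →+* LaurentSeries ℤ)]
    simp
  simp only [h2, HahnSeries.coeff_zero] at h1
  rw [HahnSeries.C_mul_eq_smul, HahnSeries.coeff_smul] at h1
  simpa [ha] using h1

end RedAbstract

section RedCore

variable (ℓ : ℕ) [Fact ℓ.Prime] {ι : Type*} [Fintype ι]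

/-- One step of the descent: a relation with coefficients in `ℤ[t]` is divisible by `ℓ`. -/
theorem red_step (x : ι → LaurentSeries ℤ) (t : LaurentSeries ℤ)
    (ht : Transcendental (ZMod ℓ) (coeffMap (Int.castRingHom (ZMod ℓ)) t))
    (hind : ∀ c : ι → LaurentSeries (ZMod ℓ),
      (∀ i, c i ∈ adjoin (ZMod ℓ) {coeffMap (Int.castRingHom (ZMod ℓ)) t}) →
      ∑ i, c i * coeffMap (Int.castRingHom (ZMod ℓ)) (x i) = 0 → ∀ i, c i = 0)
    (P : ι → Polynomial ℤ)
    (hP : ∑ i, eval₂ (Int.castRingHom (LaurentSeries ℤ)) t (P i) * x i = 0) :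
    ∃ P' : ι → Polynomial ℤ, (∀ i, P i = C (ℓ : ℤ) * P' i) ∧
      ∑ i, eval₂ (Int.castRingHom (LaurentSeries ℤ)) t (P' i) * x i = 0 := by
  have hℓ : (ℓ : ℤ) ≠ 0 := by
    exact_mod_cast (Fact.out : ℓ.Prime).ne_zero
  -- reduce the relation mod `ℓ`
  have h1 := congrArg (coeffMap (Int.castRingHom (ZMod ℓ))) hP
  rw [map_sum, map_zero] at h1
  simp_rw [map_mul, red_coeffMap_eval₂, ← red_aeval_map] at h1
  have h2 := hind (fun i => aeval (coeffMap (Int.castRingHom (ZMod ℓ)) t)
      ((P i).map (Int.castRingHom (ZMod ℓ)))) (fun i => ?_) h1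
  · have h3 : ∀ i, (P i).map (Int.castRingHom (ZMod ℓ)) = 0 := fun i =>
      transcendental_iff.mp ht _ (h2 i)
    have h4 : ∀ i, C (ℓ : ℤ) ∣ P i := by
      intro i
      rw [Polynomial.C_dvd_iff_dvd_coeff]
      intro k
      have h5 := congrArg (fun q : Polynomial (ZMod ℓ) => q.coeff k) (h3 i)
      simp only [Polynomial.coeff_map, Polynomial.coeff_zero, eq_intCast] at h5
      exact (ZMod.intCast_zmod_eq_zero_iff_dvd _ ℓ).mp h5
    choose P' hP' using h4
    refine ⟨P', hP', ?_⟩
    apply red_eq_zero_of_intCast_mul hℓ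
    rw [← hP, Finset.mul_sum]
    refine Finset.sum_congr rfl fun i _ => ?_
    rw [hP' i, eval₂_mul, eval₂_C, mul_assoc]
  · exact IntermediateField.algebra_adjoin_le_adjoin _ _
      (Polynomial.aeval_mem_adjoin_singleton _ _)

/-- The descent. -/
theorem red_core (x : ι → LaurentSeries ℤ) (t : LaurentSeries ℤ)
    (ht : Transcendental (ZMod ℓ) (coeffMap (Int.castRingHom (ZMod ℓ)) t))
    (hind : ∀ c : ι → LaurentSeries (ZMod ℓ),
      (∀ i, c i ∈ adjoin (ZMod ℓ) {coeffMap (Int.castRingHom (ZMod ℓ)) t}) →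
      ∑ i, c i * coeffMap (Int.castRingHom (ZMod ℓ)) (x i) = 0 → ∀ i, c i = 0) :
    ∀ (m : ℕ) (P : ι → Polynomial ℤ) (i₀ : ι) (k₀ : ℕ),
      ((P i₀).coeff k₀).natAbs = m → m ≠ 0 →
      ∑ i, eval₂ (Int.castRingHom (LaurentSeries ℤ)) t (P i) * x i = 0 → False := by
  intro m
  induction m using Nat.strong_induction_on with
  | _ m ih =>
    intro P i₀ k₀ hm hm0 hP
    obtain ⟨P', hP', hrel⟩ := red_step ℓ x t ht hind P hP
    have hℓ2 : 2 ≤ ℓ := (Fact.out : ℓ.Prime).two_le
    have h1 : (P i₀).coeff k₀ = (ℓ : ℤ) * (P' i₀).coeff k₀ := by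
      rw [hP' i₀, Polynomial.coeff_C_mul]
    have h2 : m = ℓ * ((P' i₀).coeff k₀).natAbs := by
      rw [← hm, h1, Int.natAbs_mul, Int.natAbs_natCast]
    have h3 : ((P' i₀).coeff k₀).natAbs ≠ 0 := by
      intro h0
      rw [h0, mul_zero] at h2
      exact hm0 h2
    have h4 : ((P' i₀).coeff k₀).natAbs < m := by
      rw [h2]
      nlinarith [Nat.pos_of_ne_zero h3]
    exact ih _ h4 P' i₀ k₀ rfl h3 hrel

/-- **RED, integral form**: if the reductions mod `ℓ` of the `x i` are linearly independent over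
`𝔽_ℓ(t̄)` (and `t̄` is transcendental), there is no nontrivial relation `∑ P i (t) x i = 0` with
`P i ∈ ℤ[X]`. -/
theorem red_integral_relation (x : ι → LaurentSeries ℤ) (t : LaurentSeries ℤ)
    (ht : Transcendental (ZMod ℓ) (coeffMap (Int.castRingHom (ZMod ℓ)) t))
    (hind : ∀ c : ι → LaurentSeries (ZMod ℓ),
      (∀ i, c i ∈ adjoin (ZMod ℓ) {coeffMap (Int.castRingHom (ZMod ℓ)) t}) →
      ∑ i, c i * coeffMap (Int.castRingHom (ZMod ℓ)) (x i) = 0 → ∀ i, c i = 0)
    (P : ι → Polynomial ℤ)
    (hP : ∑ i, eval₂ (Int.castRingHom (LaurentSeries ℤ)) t (P i) * x i = 0) :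
    ∀ i, P i = 0 := by
  intro i₀
  by_contra h
  obtain ⟨k₀, hk₀⟩ : ∃ k₀, (P i₀).coeff k₀ ≠ 0 := by
    by_contra hne
    simp only [not_exists, not_not] at hne
    exact h (Polynomial.ext fun k => by rw [hne k, Polynomial.coeff_zero])
  exact red_core ℓ x t ht hind _ P i₀ k₀ rfl (Int.natAbs_ne_zero.mpr hk₀) hP

end RedCore

section RedFrac

/-- Every element of `ℚ(α)` is a quotient of values at `α` of integer polynomials. -/
theorem red_exists_int_frac (α c : LaurentSeries ℚ) (hc : c ∈ adjoin ℚ {α}) :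
    ∃ D P : Polynomial ℤ, eval₂ (Int.castRingHom (LaurentSeries ℚ)) α D ≠ 0 ∧
      c * eval₂ (Int.castRingHom (LaurentSeries ℚ)) α D =
        eval₂ (Int.castRingHom (LaurentSeries ℚ)) α P := by
  obtain ⟨r, s, rfl⟩ := (mem_adjoin_simple_iff ℚ c).mp hc
  by_cases hs : aeval α s = 0
  · refine ⟨1, 0, ?_, ?_⟩
    · rw [eval₂_one]; exact one_ne_zero
    · rw [hs, div_zero, zero_mul, eval₂_zero]
  · obtain ⟨b₁, hb₁, h₁⟩ := IsLocalization.integerNormalization_spec (nonZeroDivisors ℤ) r
    obtain ⟨b₂, hb₂, h₂⟩ := IsLocalization.integerNormalization_spec (nonZeroDivisors ℤ) s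
    set R := IsLocalization.integerNormalization (nonZeroDivisors ℤ) r
    set S := IsLocalization.integerNormalization (nonZeroDivisors ℤ) s
    have hb₁0 : (b₁ : ℚ) ≠ 0 := by
      exact_mod_cast nonZeroDivisors.ne_zero hb₁
    have hb₂0 : (b₂ : ℚ) ≠ 0 := by
      exact_mod_cast nonZeroDivisors.ne_zero hb₂
    have e₁ : eval₂ (Int.castRingHom (LaurentSeries ℚ)) α R =
        algebraMap ℚ (LaurentSeries ℚ) (b₁ : ℚ) * aeval α r := by
      have h : R.map (Int.castRingHom ℚ) = C (b₁ : ℚ) * r := by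
        rw [← algebraMap_int_eq, h₁, zsmul_eq_mul, ← Polynomial.C_eq_intCast]
      rw [← red_aeval_map, h, map_mul, aeval_C]
    have e₂ : eval₂ (Int.castRingHom (LaurentSeries ℚ)) α S =
        algebraMap ℚ (LaurentSeries ℚ) (b₂ : ℚ) * aeval α s := by
      have h : S.map (Int.castRingHom ℚ) = C (b₂ : ℚ) * s := by
        rw [← algebraMap_int_eq, h₂, zsmul_eq_mul, ← Polynomial.C_eq_intCast]
      rw [← red_aeval_map, h, map_mul, aeval_C]
    have c₁ : Int.castRingHom (LaurentSeries ℚ) b₁ = algebraMap ℚ (LaurentSeries ℚ) (b₁ : ℚ) := by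
      simp
    have c₂ : Int.castRingHom (LaurentSeries ℚ) b₂ = algebraMap ℚ (LaurentSeries ℚ) (b₂ : ℚ) := by
      simp
    have n₁ : algebraMap ℚ (LaurentSeries ℚ) (b₁ : ℚ) ≠ 0 := (_root_.map_ne_zero _).mpr hb₁0
    have n₂ : algebraMap ℚ (LaurentSeries ℚ) (b₂ : ℚ) ≠ 0 := (_root_.map_ne_zero _).mpr hb₂0
    refine ⟨C b₁ * S, C b₂ * R, ?_, ?_⟩
    · rw [eval₂_mul, eval₂_C, e₂, c₁]
      exact mul_ne_zero n₁ (mul_ne_zero n₂ hs)
    · rw [eval₂_mul, eval₂_C, eval₂_mul, eval₂_C, e₁, e₂, c₁, c₂]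
      field_simp

/-- Common denominator. -/
theorem red_exists_common_denominator {ι : Type*} (α : LaurentSeries ℚ)
    (c : ι → LaurentSeries ℚ) (hc : ∀ i, c i ∈ adjoin ℚ {α}) (s : Finset ι) :
    ∃ D : Polynomial ℤ, eval₂ (Int.castRingHom (LaurentSeries ℚ)) α D ≠ 0 ∧
      ∀ i ∈ s, ∃ P : Polynomial ℤ, c i * eval₂ (Int.castRingHom (LaurentSeries ℚ)) α D =
        eval₂ (Int.castRingHom (LaurentSeries ℚ)) α P := by
  classical
  induction s using Finset.induction_on with
  | empty => exact ⟨1, by rw [eval₂_one]; exact one_ne_zero, fun i hi => by simp at hi⟩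
  | insert a s _ ih =>
    obtain ⟨D, hD, hDs⟩ := ih
    obtain ⟨Da, Pa, hDa, hPa⟩ := red_exists_int_frac α (c a) (hc a)
    refine ⟨D * Da, ?_, ?_⟩
    · rw [eval₂_mul]; exact mul_ne_zero hD hDa
    · intro i hi
      rcases Finset.mem_insert.mp hi with rfl | hi
      · refine ⟨D * Pa, ?_⟩
        rw [eval₂_mul, eval₂_mul, ← hPa]; ring
      · obtain ⟨P, hP⟩ := hDs i hi
        refine ⟨P * Da, ?_⟩
        rw [eval₂_mul, eval₂_mul, ← hP]; ring

end RedFrac

section RedMain

variable (ℓ : ℕ) [Fact ℓ.Prime] {ι : Type*} [Fintype ι]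

/-- **RED** (membership form, as in `IsKeyData.indep`): if the reductions mod `ℓ` of the
`x i ∈ ℤ((q))` are linearly independent over `𝔽_ℓ(t̄)` and `t̄` is transcendental over `𝔽_ℓ`, the
images of the `x i` in `ℚ((q))` are linearly independent over `ℚ(t)`. -/
theorem red_indep (x : ι → LaurentSeries ℤ) (t : LaurentSeries ℤ)
    (ht : Transcendental (ZMod ℓ) (coeffMap (Int.castRingHom (ZMod ℓ)) t))
    (hind : ∀ c : ι → LaurentSeries (ZMod ℓ),
      (∀ i, c i ∈ adjoin (ZMod ℓ) {coeffMap (Int.castRingHom (ZMod ℓ)) t}) →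
      ∑ i, c i * coeffMap (Int.castRingHom (ZMod ℓ)) (x i) = 0 → ∀ i, c i = 0) :
    ∀ c : ι → LaurentSeries ℚ,
      (∀ i, c i ∈ adjoin ℚ {coeffMap (Int.castRingHom ℚ) t}) →
      ∑ i, c i * coeffMap (Int.castRingHom ℚ) (x i) = 0 → ∀ i, c i = 0 := by
  intro c hc hrel
  obtain ⟨D, hD, hDP⟩ := red_exists_common_denominator (coeffMap (Int.castRingHom ℚ) t) c hc
    Finset.univ
  choose P hP using fun i => hDP i (Finset.mem_univ i)
  have h1 : ∑ i, eval₂ (Int.castRingHom (LaurentSeries ℤ)) t (P i) * x i = 0 := by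
    apply red_coeffMap_rat_injective
    rw [map_sum, map_zero]
    simp_rw [map_mul, red_coeffMap_eval₂, ← hP]
    have : ∑ i, c i * eval₂ (Int.castRingHom (LaurentSeries ℚ)) (coeffMap (Int.castRingHom ℚ) t) D *
        coeffMap (Int.castRingHom ℚ) (x i) =
        eval₂ (Int.castRingHom (LaurentSeries ℚ)) (coeffMap (Int.castRingHom ℚ) t) D *
          ∑ i, c i * coeffMap (Int.castRingHom ℚ) (x i) := by
      rw [Finset.mul_sum]
      exact Finset.sum_congr rfl fun i _ => by ring
    rw [this, hrel, mul_zero]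
  have h2 := red_integral_relation ℓ x t ht hind P h1
  intro i
  have h3 := hP i
  rw [h2 i, eval₂_zero] at h3
  exact (mul_eq_zero.mp h3).resolve_right hD

/-- **RED**, `LinearIndependent` form. -/
theorem red_linearIndependent (x : ι → LaurentSeries ℤ) (t : LaurentSeries ℤ)
    (ht : Transcendental (ZMod ℓ) (coeffMap (Int.castRingHom (ZMod ℓ)) t))
    (hli : LinearIndependent (adjoin (ZMod ℓ) {coeffMap (Int.castRingHom (ZMod ℓ)) t})
      (fun i => coeffMap (Int.castRingHom (ZMod ℓ)) (x i))) :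
    LinearIndependent (adjoin ℚ {coeffMap (Int.castRingHom ℚ) t})
      (fun i => coeffMap (Int.castRingHom ℚ) (x i)) := by
  rw [Fintype.linearIndependent_iff] at hli ⊢
  intro g hg i
  have h1 := red_indep ℓ x t ht (fun c hc hrel j => ?_) (fun i => (g i : LaurentSeries ℚ))
    (fun i => (g i).2) (by simpa [IntermediateField.smul_def] using hg) i
  · exact Subtype.ext h1
  · have h2 := hli (fun i => ⟨c i, hc i⟩) (by simpa [IntermediateField.smul_def] using hrel) j
    exact congrArg Subtype.val h2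

end RedMain

section RedJ

variable (ℓ : ℕ) [Fact ℓ.Prime]

/-- `j̄` is transcendental over any field. -/
theorem red_transcendental_jqModC (k : Type*) [Field k] : Transcendental k (jqModC k) := by
  rw [transcendental_iff_injective]
  exact aeval_injective_of_order_neg (by rw [order_jqModC]; norm_num)

/-- **RED** for `t = j`, membership form. -/
theorem red_indep_jq {ι : Type*} [Fintype ι] (x : ι → LaurentSeries ℤ)
    (hind : ∀ c : ι → LaurentSeries (ZMod ℓ),
      (∀ i, c i ∈ adjoin (ZMod ℓ) {jqModC (ZMod ℓ)}) →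
      ∑ i, c i * coeffMap (Int.castRingHom (ZMod ℓ)) (x i) = 0 → ∀ i, c i = 0) :
    ∀ c : ι → LaurentSeries ℚ,
      (∀ i, c i ∈ adjoin ℚ {jqModC ℚ}) →
      ∑ i, c i * coeffMap (Int.castRingHom ℚ) (x i) = 0 → ∀ i, c i = 0 := by
  have hL : coeffMap (Int.castRingHom (ZMod ℓ)) (jqModC ℤ) = jqModC (ZMod ℓ) :=
    coeffMap_jqModC _
  have hQ : coeffMap (Int.castRingHom ℚ) (jqModC ℤ) = jqModC ℚ := coeffMap_jqModC _
  have h := red_indep ℓ x (jqModC ℤ) (by rw [hL]; exact red_transcendental_jqModC _)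
    (by rw [hL]; exact hind)
  rw [hQ] at h
  exact h

/-- **RED** for `t = j`, `LinearIndependent` form, general finite index type. -/
theorem red_linearIndependent_jq {ι : Type*} [Fintype ι] (x : ι → LaurentSeries ℤ)
    (h : LinearIndependent ↥(IntermediateField.adjoin (ZMod ℓ) {jqModC (ZMod ℓ)})
      (fun i => coeffMap (Int.castRingHom (ZMod ℓ)) (x i))) :
    LinearIndependent ↥(IntermediateField.adjoin ℚ {jqModC ℚ})
      (fun i => coeffMap (Int.castRingHom ℚ) (x i)) := by
  have hL : coeffMap (Int.castRingHom (ZMod ℓ)) (jqModC ℤ) = jqModC (ZMod ℓ) :=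
    coeffMap_jqModC _
  have hQ : coeffMap (Int.castRingHom ℚ) (jqModC ℤ) = jqModC ℚ := coeffMap_jqModC _
  have h' := red_linearIndependent ℓ x (jqModC ℤ) (by rw [hL]; exact red_transcendental_jqModC _)
    (by rw [hL]; exact h)
  rw [hQ] at h'
  exact h'

/-- **RED** (the statement consumed by `KeyDataJ.lean`): if the reductions mod `ℓ` of
`x i ∈ ℤ((q))` are linearly independent over `𝔽_ℓ(j̄)`, their images in `ℚ((q))` are linearly
independent over `ℚ(j)`. -/
theorem linearIndependent_rat_of_zmod (ℓ : ℕ) [Fact ℓ.Prime] {n : ℕ}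
    (x : Fin n → LaurentSeries ℤ)
    (h : LinearIndependent ↥(IntermediateField.adjoin (ZMod ℓ) {jqModC (ZMod ℓ)})
      (fun i => coeffMap (Int.castRingHom (ZMod ℓ)) (x i))) :
    LinearIndependent ↥(IntermediateField.adjoin ℚ {jqModC ℚ})
      (fun i => coeffMap (Int.castRingHom ℚ) (x i)) :=
  red_linearIndependent_jq ℓ x h

end RedJ

end Fermat.Agent.S28


end ZBS28_002_14

/-! ### bundled: `Fermat.Agent.S28.RedDVR` -/
section ZBS28_002_15

/-!
# S28: RED over a general base — independent reductions mod `π` give independence over `E(t)`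

Generalisation of `Red.lean` from `(ℤ, ℓ, ℚ, 𝔽_ℓ)` to `(A, π, E, k)`:
`A` a domain in which divisibility is well founded (e.g. a DVR, or any noetherian domain),
`π ∈ A` nonzero and not a unit, `E = Frac A`, `r : A →+* k` a ring hom to a field with
`ker r ⊆ (π)`.

`x i, t ∈ A((q))` with `t̄ = coeffMap r t` transcendental over `k`.  If the reductions
`coeffMap r (x i)` are linearly independent over `k(t̄)`, then the images of the `x i` in `E((q))`
are linearly independent over `E(t)`.

* `redDVR_integral_relation` : no nontrivial relation with coefficients in `A[t]`.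
* `redDVR_indep` : membership form (as in `IsKeyData.indep`).
* `redDVR_linearIndependent` : `LinearIndependent` form.
* `redDVR_indep_jq_int`, `redDVR_linearIndependent_jq_int` : the case `t = j` and `x i ∈ ℤ((q))`
  (monomials in the `j(q^d)`), the form needed over a number field `E` with a place over `ℓ`.
-/

set_option autoImplicit false

namespace Fermat.Agent.S28

open ModularCurve Polynomial IntermediateField

section RedDVRAbstract

variable {A S : Type*} [CommRing A] [Field S]

/-- Constants of `A((q))`. -/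
theorem redDVR_algebraMap_eq_single {B : Type*} [CommRing B] (c : B) :
    algebraMap B (LaurentSeries B) c = HahnSeries.single 0 c := by
  have h1 : algebraMap B (PowerSeries B) c = PowerSeries.C c := by
    simp
  rw [HahnSeries.algebraMap_apply', h1, HahnSeries.ofPowerSeries_C]
  rfl

/-- `coeffMap` commutes with constants. -/
theorem redDVR_coeffMap_algebraMap (f : A →+* S) (a : A) :
    coeffMap f (algebraMap A (LaurentSeries A) a) = algebraMap S (LaurentSeries S) (f a) := by
  rw [redDVR_algebraMap_eq_single, redDVR_algebraMap_eq_single, coeffMap_single]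

/-- `coeffMap` commutes with the evaluation of polynomials. -/
theorem redDVR_coeffMap_aeval (f : A →+* S) (t : LaurentSeries A) (P : Polynomial A) :
    coeffMap f (aeval t P) = aeval (coeffMap f t) (P.map f) := by
  rw [aeval_def, aeval_def, Polynomial.hom_eval₂, eval₂_map]
  congr 1
  ext a : 1
  exact redDVR_coeffMap_algebraMap f a

/-- `coeffMap` of an injective map is injective. -/
theorem redDVR_coeffMap_injective {B : Type*} [CommRing B] (f : A →+* B)
    (hf : Function.Injective f) : Function.Injective (coeffMap f) := by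
  intro x y h
  ext n
  have h1 := congrArg (fun z : LaurentSeries B => z.coeff n) h
  simp only [coeffMap_coeff] at h1
  exact hf h1

/-- `A((q))` has no `π`-torsion. -/
theorem redDVR_eq_zero_of_mul [IsDomain A] {a : A} (ha : a ≠ 0) {y : LaurentSeries A}
    (h : algebraMap A (LaurentSeries A) a * y = 0) : y = 0 := by
  ext n
  have h1 := congrArg (fun z : LaurentSeries A => z.coeff n) h
  rw [redDVR_algebraMap_eq_single] at h1
  simp only [HahnSeries.coeff_zero] at h1
  rw [← HahnSeries.C_apply, HahnSeries.C_mul_eq_smul, HahnSeries.coeff_smul] at h1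
  simpa [ha] using h1

end RedDVRAbstract

section RedDVRCore

variable {A k : Type*} [CommRing A] [IsDomain A] [Field k]
  (r : A →+* k) (π : A) {ι : Type*} [Fintype ι]

/-- One step of the descent: a relation with coefficients in `A[t]` is divisible by `π`. -/
theorem redDVR_step (hπ0 : π ≠ 0) (hr : ∀ a, r a = 0 → π ∣ a)
    (x : ι → LaurentSeries A) (t : LaurentSeries A)
    (ht : Transcendental k (coeffMap r t))
    (hind : ∀ c : ι → LaurentSeries k,
      (∀ i, c i ∈ adjoin k {coeffMap r t}) →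
      ∑ i, c i * coeffMap r (x i) = 0 → ∀ i, c i = 0)
    (P : ι → Polynomial A) (hP : ∑ i, aeval t (P i) * x i = 0) :
    ∃ P' : ι → Polynomial A, (∀ i, P i = C π * P' i) ∧ ∑ i, aeval t (P' i) * x i = 0 := by
  have h1 := congrArg (coeffMap r) hP
  rw [map_sum, map_zero] at h1
  simp_rw [map_mul, redDVR_coeffMap_aeval] at h1
  have h2 := hind (fun i => aeval (coeffMap r t) ((P i).map r)) (fun i => ?_) h1
  · have h3 : ∀ i, (P i).map r = 0 := fun i => transcendental_iff.mp ht _ (h2 i)
    have h4 : ∀ i, C π ∣ P i := by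
      intro i
      rw [Polynomial.C_dvd_iff_dvd_coeff]
      intro n
      have h5 := congrArg (fun q : Polynomial k => q.coeff n) (h3 i)
      simp only [Polynomial.coeff_map, Polynomial.coeff_zero] at h5
      exact hr _ h5
    choose P' hP' using h4
    refine ⟨P', hP', ?_⟩
    apply redDVR_eq_zero_of_mul hπ0
    rw [← hP, Finset.mul_sum]
    refine Finset.sum_congr rfl fun i _ => ?_
    rw [hP' i, map_mul, aeval_C, mul_assoc]
  · exact IntermediateField.algebra_adjoin_le_adjoin _ _
      (Polynomial.aeval_mem_adjoin_singleton _ _)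

/-- The descent: every coefficient of a relation is divisible by every power of `π`. -/
theorem redDVR_pow_dvd (hπ0 : π ≠ 0) (hr : ∀ a, r a = 0 → π ∣ a)
    (x : ι → LaurentSeries A) (t : LaurentSeries A)
    (ht : Transcendental k (coeffMap r t))
    (hind : ∀ c : ι → LaurentSeries k,
      (∀ i, c i ∈ adjoin k {coeffMap r t}) →
      ∑ i, c i * coeffMap r (x i) = 0 → ∀ i, c i = 0) :
    ∀ (n : ℕ) (P : ι → Polynomial A), ∑ i, aeval t (P i) * x i = 0 →
      ∀ i m, π ^ n ∣ (P i).coeff m := by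
  intro n
  induction n with
  | zero => intro P _ i m; simp
  | succ n ih =>
    intro P hP i m
    obtain ⟨P', hP', hrel⟩ := redDVR_step r π hπ0 hr x t ht hind P hP
    rw [hP' i, Polynomial.coeff_C_mul, pow_succ']
    exact mul_dvd_mul_left π (ih P' hrel i m)

/-- **RED, integral form** over a general base. -/
theorem redDVR_integral_relation [WfDvdMonoid A] (hπ0 : π ≠ 0) (hπ : ¬ IsUnit π)
    (hr : ∀ a, r a = 0 → π ∣ a)
    (x : ι → LaurentSeries A) (t : LaurentSeries A)
    (ht : Transcendental k (coeffMap r t))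
    (hind : ∀ c : ι → LaurentSeries k,
      (∀ i, c i ∈ adjoin k {coeffMap r t}) →
      ∑ i, c i * coeffMap r (x i) = 0 → ∀ i, c i = 0)
    (P : ι → Polynomial A) (hP : ∑ i, aeval t (P i) * x i = 0) :
    ∀ i, P i = 0 := by
  intro i
  ext m
  rw [Polynomial.coeff_zero]
  by_contra h
  obtain ⟨n, hn⟩ := FiniteMultiplicity.of_not_isUnit hπ h
  exact hn (redDVR_pow_dvd r π hπ0 hr x t ht hind (n + 1) P hP i m)

end RedDVRCore

section RedDVRFrac

variable {A E : Type*} [CommRing A] [IsDomain A] [Field E] [Algebra A E] [IsFractionRing A E]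

/-- Every element of `E(α)` is a quotient of values at `α` of polynomials over `A`. -/
theorem redDVR_exists_frac (α c : LaurentSeries E) (hc : c ∈ adjoin E {α}) :
    ∃ D P : Polynomial A, aeval α (D.map (algebraMap A E)) ≠ 0 ∧
      c * aeval α (D.map (algebraMap A E)) = aeval α (P.map (algebraMap A E)) := by
  obtain ⟨p, s, rfl⟩ := (mem_adjoin_simple_iff E c).mp hc
  by_cases hs : aeval α s = 0
  · refine ⟨1, 0, ?_, ?_⟩
    · rw [Polynomial.map_one, map_one]; exact one_ne_zero
    · rw [hs, div_zero, zero_mul, Polynomial.map_zero, map_zero]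
  · obtain ⟨b₁, hb₁, h₁⟩ := IsLocalization.integerNormalization_spec (nonZeroDivisors A) p
    obtain ⟨b₂, hb₂, h₂⟩ := IsLocalization.integerNormalization_spec (nonZeroDivisors A) s
    set R := IsLocalization.integerNormalization (nonZeroDivisors A) p
    set S := IsLocalization.integerNormalization (nonZeroDivisors A) s
    have hb₁0 : algebraMap A E b₁ ≠ 0 :=
      IsFractionRing.to_map_ne_zero_of_mem_nonZeroDivisors hb₁
    have hb₂0 : algebraMap A E b₂ ≠ 0 :=
      IsFractionRing.to_map_ne_zero_of_mem_nonZeroDivisors hb₂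
    have e₁ : aeval α (R.map (algebraMap A E)) =
        algebraMap E (LaurentSeries E) (algebraMap A E b₁) * aeval α p := by
      have h : R.map (algebraMap A E) = C (algebraMap A E b₁) * p := by
        rw [h₁, ← Polynomial.smul_eq_C_mul, algebraMap_smul]
      rw [h, map_mul, aeval_C]
    have e₂ : aeval α (S.map (algebraMap A E)) =
        algebraMap E (LaurentSeries E) (algebraMap A E b₂) * aeval α s := by
      have h : S.map (algebraMap A E) = C (algebraMap A E b₂) * s := by
        rw [h₂, ← Polynomial.smul_eq_C_mul, algebraMap_smul]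
      rw [h, map_mul, aeval_C]
    have n₁ : algebraMap E (LaurentSeries E) (algebraMap A E b₁) ≠ 0 :=
      (_root_.map_ne_zero _).mpr hb₁0
    have n₂ : algebraMap E (LaurentSeries E) (algebraMap A E b₂) ≠ 0 :=
      (_root_.map_ne_zero _).mpr hb₂0
    refine ⟨C b₁ * S, C b₂ * R, ?_, ?_⟩
    · rw [Polynomial.map_mul, Polynomial.map_C, map_mul, aeval_C, e₂]
      exact mul_ne_zero n₁ (mul_ne_zero n₂ hs)
    · rw [Polynomial.map_mul, Polynomial.map_C, map_mul, aeval_C, e₂,
        Polynomial.map_mul, Polynomial.map_C, map_mul, aeval_C, e₁]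
      field_simp

/-- Common denominator. -/
theorem redDVR_exists_common_denominator {ι : Type*} (α : LaurentSeries E)
    (c : ι → LaurentSeries E) (hc : ∀ i, c i ∈ adjoin E {α}) (s : Finset ι) :
    ∃ D : Polynomial A, aeval α (D.map (algebraMap A E)) ≠ 0 ∧
      ∀ i ∈ s, ∃ P : Polynomial A, c i * aeval α (D.map (algebraMap A E)) =
        aeval α (P.map (algebraMap A E)) := by
  classical
  induction s using Finset.induction_on with
  | empty =>
    exact ⟨1, by rw [Polynomial.map_one, map_one]; exact one_ne_zero, fun i hi => by simp at hi⟩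
  | insert a s _ ih =>
    obtain ⟨D, hD, hDs⟩ := ih
    obtain ⟨Da, Pa, hDa, hPa⟩ := redDVR_exists_frac (A := A) α (c a) (hc a)
    refine ⟨D * Da, ?_, ?_⟩
    · rw [Polynomial.map_mul, map_mul]; exact mul_ne_zero hD hDa
    · intro i hi
      rcases Finset.mem_insert.mp hi with rfl | hi
      · refine ⟨D * Pa, ?_⟩
        rw [Polynomial.map_mul, map_mul, Polynomial.map_mul, map_mul, ← hPa]; ring
      · obtain ⟨P, hP⟩ := hDs i hi
        refine ⟨P * Da, ?_⟩
        rw [Polynomial.map_mul, map_mul, Polynomial.map_mul, map_mul, ← hP]; ring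

end RedDVRFrac

section RedDVRMain

variable {A E k : Type*} [CommRing A] [IsDomain A] [WfDvdMonoid A] [Field E] [Algebra A E]
  [IsFractionRing A E] [Field k] (r : A →+* k) (π : A) {ι : Type*} [Fintype ι]

/-- **RED over a general base** (membership form): if the reductions mod `π` of the
`x i ∈ A((q))` are linearly independent over `k(t̄)` and `t̄` is transcendental over `k`, the images
of the `x i` in `E((q))`, `E = Frac A`, are linearly independent over `E(t)`. -/
theorem redDVR_indep (hπ0 : π ≠ 0) (hπ : ¬ IsUnit π) (hr : ∀ a, r a = 0 → π ∣ a)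
    (x : ι → LaurentSeries A) (t : LaurentSeries A)
    (ht : Transcendental k (coeffMap r t))
    (hind : ∀ c : ι → LaurentSeries k,
      (∀ i, c i ∈ adjoin k {coeffMap r t}) →
      ∑ i, c i * coeffMap r (x i) = 0 → ∀ i, c i = 0) :
    ∀ c : ι → LaurentSeries E,
      (∀ i, c i ∈ adjoin E {coeffMap (algebraMap A E) t}) →
      ∑ i, c i * coeffMap (algebraMap A E) (x i) = 0 → ∀ i, c i = 0 := by
  intro c hc hrel
  obtain ⟨D, hD, hDP⟩ := redDVR_exists_common_denominator (A := A)
    (coeffMap (algebraMap A E) t) c hc Finset.univ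
  choose P hP using fun i => hDP i (Finset.mem_univ i)
  have h1 : ∑ i, aeval t (P i) * x i = 0 := by
    apply redDVR_coeffMap_injective (algebraMap A E) (IsFractionRing.injective A E)
    rw [map_sum, map_zero]
    simp_rw [map_mul, redDVR_coeffMap_aeval, ← hP]
    have : ∑ i, c i * aeval (coeffMap (algebraMap A E) t) (D.map (algebraMap A E)) *
        coeffMap (algebraMap A E) (x i) =
        aeval (coeffMap (algebraMap A E) t) (D.map (algebraMap A E)) *
          ∑ i, c i * coeffMap (algebraMap A E) (x i) := by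
      rw [Finset.mul_sum]
      exact Finset.sum_congr rfl fun i _ => by ring
    rw [this, hrel, mul_zero]
  have h2 := redDVR_integral_relation r π hπ0 hπ hr x t ht hind P h1
  intro i
  have h3 := hP i
  rw [h2 i, Polynomial.map_zero, map_zero] at h3
  exact (mul_eq_zero.mp h3).resolve_right hD

/-- **RED over a general base**, `LinearIndependent` form. -/
theorem redDVR_linearIndependent (hπ0 : π ≠ 0) (hπ : ¬ IsUnit π) (hr : ∀ a, r a = 0 → π ∣ a)
    (x : ι → LaurentSeries A) (t : LaurentSeries A)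
    (ht : Transcendental k (coeffMap r t))
    (hli : LinearIndependent (adjoin k {coeffMap r t}) (fun i => coeffMap r (x i))) :
    LinearIndependent (adjoin E {coeffMap (algebraMap A E) t})
      (fun i => coeffMap (algebraMap A E) (x i)) := by
  rw [Fintype.linearIndependent_iff] at hli ⊢
  intro g hg i
  have h1 := redDVR_indep (E := E) r π hπ0 hπ hr x t ht (fun c hc hrel j => ?_)
    (fun i => (g i : LaurentSeries E))
    (fun i => (g i).2) (by simpa [IntermediateField.smul_def] using hg) i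
  · exact Subtype.ext h1
  · have h2 := hli (fun i => ⟨c i, hc i⟩) (by simpa [IntermediateField.smul_def] using hrel) j
    exact congrArg Subtype.val h2

/-- **RED over a general base** for `t = j` and `x i ∈ ℤ((q))`, membership form. -/
theorem redDVR_indep_jq_int (hπ0 : π ≠ 0) (hπ : ¬ IsUnit π) (hr : ∀ a, r a = 0 → π ∣ a)
    (x : ι → LaurentSeries ℤ)
    (hind : ∀ c : ι → LaurentSeries k,
      (∀ i, c i ∈ adjoin k {jqModC k}) →
      ∑ i, c i * coeffMap (Int.castRingHom k) (x i) = 0 → ∀ i, c i = 0) :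
    ∀ c : ι → LaurentSeries E,
      (∀ i, c i ∈ adjoin E {jqModC E}) →
      ∑ i, c i * coeffMap (Int.castRingHom E) (x i) = 0 → ∀ i, c i = 0 := by
  have hk : coeffMap r (jqModC A) = jqModC k := coeffMap_jqModC _
  have hE : coeffMap (algebraMap A E) (jqModC A) = jqModC E := coeffMap_jqModC _
  have hxk : ∀ i, coeffMap r (coeffMap (Int.castRingHom A) (x i)) =
      coeffMap (Int.castRingHom k) (x i) := fun i => by
    rw [coeffMap_coeffMap]
    exact coeffMap_congr (RingHom.ext_int _ _) _
  have hxE : ∀ i, coeffMap (algebraMap A E) (coeffMap (Int.castRingHom A) (x i)) =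
      coeffMap (Int.castRingHom E) (x i) := fun i => by
    rw [coeffMap_coeffMap]
    exact coeffMap_congr (RingHom.ext_int _ _) _
  have h := redDVR_indep (E := E) r π hπ0 hπ hr (fun i => coeffMap (Int.castRingHom A) (x i))
    (jqModC A) (by rw [hk]; exact red_transcendental_jqModC k)
    (by rw [hk]; simp_rw [hxk]; exact hind)
  rw [hE] at h
  simp_rw [hxE] at h
  exact h

/-- **RED over a general base** for `t = j` and `x i ∈ ℤ((q))`, `LinearIndependent` form. -/
theorem redDVR_linearIndependent_jq_int (hπ0 : π ≠ 0) (hπ : ¬ IsUnit π)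
    (hr : ∀ a, r a = 0 → π ∣ a) (x : ι → LaurentSeries ℤ)
    (hli : LinearIndependent (adjoin k {jqModC k})
      (fun i => coeffMap (Int.castRingHom k) (x i))) :
    LinearIndependent (adjoin E {jqModC E})
      (fun i => coeffMap (Int.castRingHom E) (x i)) := by
  rw [Fintype.linearIndependent_iff] at hli ⊢
  intro g hg i
  have h1 := redDVR_indep_jq_int (E := E) r π hπ0 hπ hr x (fun c hc hrel j => ?_)
    (fun i => (g i : LaurentSeries E))
    (fun i => (g i).2) (by simpa [IntermediateField.smul_def] using hg) i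
  · exact Subtype.ext h1
  · have h2 := hli (fun i => ⟨c i, hc i⟩) (by simpa [IntermediateField.smul_def] using hrel) j
    exact congrArg Subtype.val h2

end RedDVRMain

section RedDVRLocal

variable {A E : Type*} [CommRing A] [IsDomain A] [IsDiscreteValuationRing A] [Field E]
  [Algebra A E] [IsFractionRing A E] {ι : Type*} [Fintype ι]

/-- **RED over a DVR** `A` with fraction field `E` and residue field `κ`: monomials
`x i ∈ ℤ((q))` whose images over `κ` are linearly independent over `κ(j̄)` have images over `E`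
which are linearly independent over `E(j)`. -/
theorem redDVR_linearIndependent_jq_int_of_dvr (x : ι → LaurentSeries ℤ)
    (hli : LinearIndependent (adjoin (IsLocalRing.ResidueField A)
        {jqModC (IsLocalRing.ResidueField A)})
      (fun i => coeffMap (Int.castRingHom (IsLocalRing.ResidueField A)) (x i))) :
    LinearIndependent (adjoin E {jqModC E})
      (fun i => coeffMap (Int.castRingHom E) (x i)) := by
  obtain ⟨π, hπ⟩ := IsDiscreteValuationRing.exists_irreducible A
  refine redDVR_linearIndependent_jq_int (E := E) (IsLocalRing.residue A) π hπ.ne_zero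
    hπ.not_isUnit (fun a ha => ?_) x hli
  have h1 : a ∈ IsLocalRing.maximalIdeal A := (IsLocalRing.residue_eq_zero_iff a).mp ha
  rw [hπ.maximalIdeal_eq] at h1
  exact Ideal.mem_span_singleton.mp h1

/-- **RED over a DVR**, membership form. -/
theorem redDVR_indep_jq_int_of_dvr (x : ι → LaurentSeries ℤ)
    (hind : ∀ c : ι → LaurentSeries (IsLocalRing.ResidueField A),
      (∀ i, c i ∈ adjoin (IsLocalRing.ResidueField A) {jqModC (IsLocalRing.ResidueField A)}) →
      ∑ i, c i * coeffMap (Int.castRingHom (IsLocalRing.ResidueField A)) (x i) = 0 →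
        ∀ i, c i = 0) :
    ∀ c : ι → LaurentSeries E,
      (∀ i, c i ∈ adjoin E {jqModC E}) →
      ∑ i, c i * coeffMap (Int.castRingHom E) (x i) = 0 → ∀ i, c i = 0 := by
  obtain ⟨π, hπ⟩ := IsDiscreteValuationRing.exists_irreducible A
  refine redDVR_indep_jq_int (E := E) (IsLocalRing.residue A) π hπ.ne_zero
    hπ.not_isUnit (fun a ha => ?_) x hind
  have h1 : a ∈ IsLocalRing.maximalIdeal A := (IsLocalRing.residue_eq_zero_iff a).mp ha
  rw [hπ.maximalIdeal_eq] at h1
  exact Ideal.mem_span_singleton.mp h1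

end RedDVRLocal

end Fermat.Agent.S28


end ZBS28_002_15

/-! ### bundled: `Fermat.Agent.S28.KeyMon` -/
section ZBS28_002_16

/-!
# S28: MON — monomials in the `j(q^d)` with independent reductions (for KD)

* `exists_monomials_linearIndependent` (abstract): if `n ≤ [k(S) : E]` and the elements of `S` are
  integral over `E ≤ k(S)`, there are `n` monomials in the elements of `S` which are linearly
  independent over `E`.
-/

set_option autoImplicit false

namespace Fermat.Agent.S28

open ModularCurve Polynomial IntermediateField Cardinal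

section Abstract

variable {k L : Type*} [Field k] [Field L] [Algebra k L]

/-- Monomials span: if `n ≤ [k(S) : E]`, there are `n` monomials in `S`, independent over `E`. -/
theorem exists_monomials_linearIndependent (E : IntermediateField k L) (S : Set L)
    (hS : ∀ x ∈ S, IsIntegral E x) (hES : E ≤ adjoin k S) (n : ℕ)
    (hn : (n : Cardinal) ≤ E.relrank (adjoin k S)) :
    ∃ m : Fin n → L, (∀ i, m i ∈ Submonoid.closure S) ∧ LinearIndependent E m := by
  classical
  -- the `E`-span of the monomials is `k(S)`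
  have h1 : E.relrank (adjoin k S) = Module.rank E (extendScalars hES) :=
    relrank_eq_rank_of_le hES
  have h2 : extendScalars hES = adjoin E S := by
    have h3 : (adjoin E S).restrictScalars k = adjoin k S := by
      rw [restrictScalars_adjoin_eq_sup]
      exact sup_eq_right.mpr hES
    ext z
    rw [mem_extendScalars, ← h3]
    rfl
  have h4 : (adjoin E S).toSubalgebra = Algebra.adjoin E S :=
    adjoin_toSubalgebra_of_isAlgebraic (fun x hx => (hS x hx).isAlgebraic)
  have h5 : Subalgebra.toSubmodule (adjoin E S).toSubalgebra =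
      Submodule.span E (Submonoid.closure S : Set L) := by
    rw [h4, Algebra.adjoin_eq_span]
  obtain ⟨b, hbsub, hbspan, hbli⟩ := exists_linearIndependent E (Submonoid.closure S : Set L)
  have h6 : Module.rank E (Submodule.span E b) = #b := rank_span_set hbli
  have h7 : Module.rank E (adjoin E S) = #b := by
    rw [← h6, hbspan, ← h5]
    rfl
  have h8 : (n : Cardinal) ≤ #b := by
    rw [← h7, ← h2, ← h1]; exact hn
  have h9 : Nonempty (Fin n ↪ b) := by
    rw [← Cardinal.lift_mk_le', Cardinal.mk_fin]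
    simpa using h8
  obtain ⟨e⟩ := h9
  refine ⟨fun i => (e i : L), fun i => hbsub (e i).2, ?_⟩
  exact hbli.comp e e.injective

/-- Elements of a finite extension are integral. -/
theorem isIntegral_of_relrank_lt (E F : IntermediateField k L) (hEF : E ≤ F)
    (hfin : E.relrank F < ℵ₀) {x : L} (hx : x ∈ F) : IsIntegral E x := by
  rw [relrank_eq_rank_of_le hEF] at hfin
  have hfd : Module.Finite E (extendScalars hEF) := Module.rank_lt_aleph0_iff.mp hfin
  have h1 : IsIntegral E (⟨x, hx⟩ : extendScalars hEF) := IsIntegral.of_finite _ _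
  exact h1.map (extendScalars hEF).val

end Abstract

section Concrete

variable (k : Type*) [Field k]

/-- The generators `j(q^d)`, `d ∣ N`, with integer coefficients. -/
def gensZ (N : ℕ) : Set (LaurentSeries ℤ) :=
  {z | ∃ (d : ℕ) (_ : NeZero d), d ∣ N ∧ z = qExpand ℤ d (jqModC ℤ)}

theorem coeffMap_image_gensZ (N : ℕ) :
    (coeffMap (Int.castRingHom k)) '' gensZ N = divisorExpansionsC k N := by
  ext z
  constructor
  · rintro ⟨w, ⟨d, hne, hd, rfl⟩, rfl⟩
    refine ⟨d, hne, hd, ?_⟩
    exact coeffMap_jqNModC (Int.castRingHom k) d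
  · rintro ⟨d, hne, hd, rfl⟩
    refine ⟨qExpand ℤ d (jqModC ℤ), ⟨d, hne, hd, rfl⟩, ?_⟩
    exact coeffMap_jqNModC (Int.castRingHom k) d

variable {k}

/-- Every element of `k(j̄(q^d) : d ∣ N)` is integral over `k(j̄)`. -/
theorem isIntegral_of_mem_full (N : ℕ) [NeZero N]
    (h : ∀ p : ℕ, p.Prime → p ∣ N → ∀ [NeZero p], PrimeHyp k p) {x : LaurentSeries k}
    (hx : x ∈ modularFunctionFieldFullC k N) : IsIntegral (adjoin k {jqModC k}) x := by
  have hle : adjoin k {jqModC k} ≤ modularFunctionFieldFullC k N := by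
    rw [adjoin_le_iff]
    rintro z rfl
    exact jqModC_mem_full k N
  exact isIntegral_of_relrank_lt _ _ hle (relrank_full_lt_aleph0 N h) hx

/-- **KD, mod `ℓ` half**: `ψ(N)` monomials in the `j(q^d)` (integer coefficients) whose images over
`k` are linearly independent over `k(j̄)`. -/
theorem exists_monomials_full (N : ℕ) [NeZero N]
    (h : ∀ p : ℕ, p.Prime → p ∣ N → ∀ [NeZero p], PrimeHyp k p) :
    ∃ x : Fin (dedekindPsi N) → LaurentSeries ℤ,
      (∀ i, x i ∈ Submonoid.closure (gensZ N)) ∧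
      LinearIndependent (adjoin k {jqModC k})
        (fun i => coeffMap (Int.castRingHom k) (x i)) := by
  have hle : adjoin k {jqModC k} ≤ adjoin k (divisorExpansionsC k N) := by
    rw [adjoin_le_iff]
    rintro z rfl
    exact jqModC_mem_full k N
  have hint : ∀ z ∈ divisorExpansionsC k N, IsIntegral (adjoin k {jqModC k}) z :=
    fun z hz => isIntegral_of_mem_full N h (subset_adjoin k _ hz)
  obtain ⟨m, hm, hli⟩ := exists_monomials_linearIndependent (adjoin k {jqModC k})
    (divisorExpansionsC k N) hint hle (dedekindPsi N) (natCast_dedekindPsi_le_relrank N h)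
  have hcl : ∀ i, ∃ w ∈ Submonoid.closure (gensZ N), coeffMap (Int.castRingHom k) w = m i := by
    intro i
    have h1 := hm i
    rw [← coeffMap_image_gensZ, ← MonoidHom.map_mclosure] at h1
    exact h1
  choose x hx hxm using hcl
  refine ⟨x, hx, ?_⟩
  have : (fun i => coeffMap (Int.castRingHom k) (x i)) = m := funext hxm
  rw [this]
  exact hli

end Concrete

end Fermat.Agent.S28


end ZBS28_002_16

/-! ### bundled: `Fermat.Agent.S28.KeyDataJ` -/
section ZBS28_002_17

/-!
# S28: KD(j) — assembly of the key data for the chart with coordinate `j`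

`isKeyData_j_of` : from

* (Q2) `PrimeHyp (ZMod ℓ) p` for the primes `p ∣ N`,
* (Q1) `UB.ModEq ℚ p` for the primes `p ∣ N`,
* (INT) `IntModEq p` for the primes `p ∣ N`,
* (RED) independence mod `ℓ` over `𝔽_ℓ(j̄)` ⇒ independence over `ℚ(j)`,

there are `ψ(N)` elements `x i ∈ ℤ_(ℓ)((q))` with `IsKeyData N ℓ (jqModC ℤ_(ℓ)) x`.

`exists_keyData_j` : the unconditional statement for `ℓ ∤ N` (inputs: `PrimeHypMain.lean`,
`IntegralJd.lean`, `Red.lean`).
-/

set_option autoImplicit false

noncomputable section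

namespace Fermat.Agent.S28

open ModularCurve ModularCurve.IgusaScheme Polynomial IntermediateField

section Abstract

variable {k L : Type*} [Field k] [Field L] [Algebra k L]

/-- `n` independent elements of an extension of degree `≤ n` span it. -/
theorem exists_coeffs_of_linearIndependent (E F : IntermediateField k L) (hEF : E ≤ F) {n : ℕ}
    (hfd : FiniteDimensional E (extendScalars hEF))
    (hfin : Module.finrank E (extendScalars hEF) ≤ n) (m : Fin n → L) (hm : ∀ i, m i ∈ F)
    (hli : LinearIndependent E m) :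
    ∀ f ∈ F, ∃ c : Fin n → L, (∀ i, c i ∈ E) ∧ f = ∑ i, c i * m i := by
  intro f hf
  let m' : Fin n → extendScalars hEF := fun i => ⟨m i, hm i⟩
  have hli' : LinearIndependent E m' := by
    refine LinearIndependent.of_comp ((extendScalars hEF).val.toLinearMap) ?_
    exact hli
  have hcard : Fintype.card (Fin n) = Module.finrank E (extendScalars hEF) := by
    apply le_antisymm
    · exact hli'.fintype_card_le_finrank
    · simpa using hfin
  have hspan := hli'.span_eq_top_of_card_eq_finrank' hcard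
  have hmem : (⟨f, hf⟩ : extendScalars hEF) ∈ Submodule.span E (Set.range m') := by
    rw [hspan]; exact Submodule.mem_top
  obtain ⟨c, hc⟩ := (Submodule.mem_span_range_iff_exists_fun E).mp hmem
  refine ⟨fun i => (c i : L), fun i => (c i).2, ?_⟩
  have h1 := congrArg (fun z : extendScalars hEF => (z : L)) hc
  simp only at h1
  rw [← h1]
  rw [← IntermediateField.coe_val, map_sum]
  refine Finset.sum_congr rfl fun i _ => ?_
  rfl

end Abstract

section Lam

variable (ℓ : ℕ) [Fact ℓ.Prime]

/-- Integer coefficients to `ℤ_(ℓ)`-coefficients. -/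
def zToLam : LaurentSeries ℤ →+* LaurentSeries ↥(GaloisRep.ratLocalizedAt ℓ) :=
  coeffMap (Int.castRingHom ↥(GaloisRep.ratLocalizedAt ℓ))

omit [Fact ℓ.Prime] in
theorem lamIncl_zToLam (x : LaurentSeries ℤ) :
    lamIncl ℓ (zToLam ℓ x) = coeffMap (Int.castRingHom ℚ) x := by
  rw [lamIncl, zToLam, coeffMap_coeffMap]
  exact coeffMap_congr (RingHom.ext_int _ _) x

theorem lamRed_zToLam (x : LaurentSeries ℤ) :
    lamRed ℓ (zToLam ℓ x) = coeffMap (Int.castRingHom (ZMod ℓ)) x := by
  rw [lamRed, zToLam, coeffMap_coeffMap]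
  exact coeffMap_congr (RingHom.ext_int _ _) x

omit [Fact ℓ.Prime] in
theorem lamIncl_jqModC : lamIncl ℓ (jqModC ↥(GaloisRep.ratLocalizedAt ℓ)) = jq := by
  rw [lamIncl, coeffMap_jqModC, jqModC_rat]

theorem lamRed_jqModC :
    lamRed ℓ (jqModC ↥(GaloisRep.ratLocalizedAt ℓ)) = jqModC (ZMod ℓ) := by
  rw [lamRed, coeffMap_jqModC]

theorem kdj_transcendental_jqModC (k : Type*) [Field k] : Transcendental k (jqModC k) := by
  rw [transcendental_iff_injective]
  exact aeval_injective_of_order_neg (by rw [order_jqModC]; norm_num)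

end Lam

section Main

variable (N : ℕ) [NeZero N] (ℓ : ℕ) [Fact ℓ.Prime]

omit [NeZero N] in
theorem gensZ_subset_intJdRing : gensZ N ⊆ (intJdRing N : Set (LaurentSeries ℤ)) := by
  rintro z ⟨d, hne, hd, rfl⟩
  have := intJd_mem_intJdRing N hd
  rwa [intJd_eq] at this

omit [NeZero N] in
theorem closure_gensZ_le_intJdRing :
    Submonoid.closure (gensZ N) ≤ (intJdRing N).toSubmonoid :=
  Submonoid.closure_le.mpr (gensZ_subset_intJdRing N)

/-- **KD(j)** from the inputs (Q2 mod `ℓ`), (Q1 over `ℚ`), (INT), (RED). -/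
theorem isKeyData_j_of
    (hQ2 : ∀ p : ℕ, p.Prime → p ∣ N → ∀ [NeZero p], PrimeHyp (ZMod ℓ) p)
    (hQ1 : ∀ r (hr : r.Prime), r ∣ N → @UB.ModEq ℚ _ r ⟨hr.ne_zero⟩)
    (hINT : ∀ p : ℕ, p.Prime → p ∣ N → IntModEq p)
    (hRED : ∀ x : Fin (dedekindPsi N) → LaurentSeries ℤ,
      LinearIndependent ↥(adjoin (ZMod ℓ) {jqModC (ZMod ℓ)})
        (fun i => coeffMap (Int.castRingHom (ZMod ℓ)) (x i)) →
      LinearIndependent ↥(adjoin ℚ {jqModC ℚ})
        (fun i => coeffMap (Int.castRingHom ℚ) (x i))) :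
    ∃ x : Fin (dedekindPsi N) → LaurentSeries ↥(GaloisRep.ratLocalizedAt ℓ),
      IsKeyData N ℓ (jqModC ↥(GaloisRep.ratLocalizedAt ℓ)) x := by
  obtain ⟨x, hx, hli⟩ := exists_monomials_full (k := ZMod ℓ) N hQ2
  have hliQ := hRED x hli
  have hint : ∀ i, ∃ h : coeffMap (Int.castRingHom ℚ) (x i) ∈ modularFunctionFieldFull N,
      (⟨coeffMap (Int.castRingHom ℚ) (x i), h⟩ : ↥(modularFunctionFieldFull N)) ∈
        chartAlgFin N ℓ :=
    fun i => coeffMap_mem_chartAlgFin N ℓ hINT (closure_gensZ_le_intJdRing N (hx i))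
  have htmem : lamIncl ℓ (jqModC ↥(GaloisRep.ratLocalizedAt ℓ)) ∈ modularFunctionFieldFull N := by
    rw [lamIncl_jqModC]
    exact (jFull N).2
  have hmem : ∀ i, lamIncl ℓ (zToLam ℓ (x i)) ∈ modularFunctionFieldFull N := by
    intro i
    rw [lamIncl_zToLam]
    exact (hint i).1
  have hset : ({(⟨lamIncl ℓ (jqModC ↥(GaloisRep.ratLocalizedAt ℓ)), htmem⟩ :
      ↥(modularFunctionFieldFull N))} : Set ↥(modularFunctionFieldFull N)) = {jFull N} := by
    congr 1
    exact Subtype.ext (lamIncl_jqModC ℓ)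
  refine ⟨fun i => zToLam ℓ (x i), ⟨htmem, hmem, ?_, ?_, ?_, ?_⟩⟩
  · -- integral
    intro i
    rw [hset]
    have := (hint i).2
    convert this using 1
    exact Subtype.ext (lamIncl_zToLam ℓ (x i))
  · -- span
    intro f hf
    have hfin := UB.finrank_full_le ℚ (NeZero.ne N) hQ1
    have hm : ∀ i, coeffMap (Int.castRingHom ℚ) (x i) ∈ modularFunctionFieldFullC ℚ N :=
      fun i => (hint i).1
    obtain ⟨c, hc, hfc⟩ := exists_coeffs_of_linearIndependent (UB.K0 ℚ)
      (modularFunctionFieldFullC ℚ N) (UB.K0_le_full ℚ N) hfin.1 hfin.2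
      (fun i => coeffMap (Int.castRingHom ℚ) (x i)) hm hliQ f hf
    refine ⟨c, fun i => ?_, ?_⟩
    · rw [lamIncl_jqModC]
      exact hc i
    · rw [hfc]
      refine Finset.sum_congr rfl fun i _ => ?_
      rw [lamIncl_zToLam]
  · -- indep
    intro c hc hsum
    rw [lamRed_jqModC] at hc
    have h0 := Fintype.linearIndependent_iff.mp hli (fun i => ⟨c i, hc i⟩) (by
      rw [← hsum]
      refine Finset.sum_congr rfl fun i _ => ?_
      rw [lamRed_zToLam]
      rfl)
    intro i
    have := h0 i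
    exact congrArg Subtype.val this
  · -- transc
    rw [lamRed_jqModC]
    exact kdj_transcendental_jqModC (ZMod ℓ)

/-- The integral modular equation in the form of `IntegralJd.lean`. -/
theorem kdj_intModEq (p : ℕ) (hp : p.Prime) : IntModEq p := by
  have : NeZero p := ⟨hp.ne_zero⟩
  obtain ⟨Φ, hm, -, h1, -⟩ := modEq_int p hp
  exact IntModEq.of_ringHom hm _ (by simp) h1

/-- **KD(j)**: key data for the chart with coordinate `j`, for `ℓ ∤ N`. -/
theorem exists_keyData_j (hℓN : ¬ ℓ ∣ N) :
    ∃ (n : ℕ) (x : Fin n → LaurentSeries ↥(GaloisRep.ratLocalizedAt ℓ)),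
      IsKeyData N ℓ (jqModC ↥(GaloisRep.ratLocalizedAt ℓ)) x := by
  have hN : ((N : ℕ) : ZMod ℓ) ≠ 0 := by
    rw [Ne, ZMod.natCast_eq_zero_iff]; exact hℓN
  obtain ⟨x, hx⟩ := isKeyData_j_of N ℓ (primeHyp_of_dvd (ZMod ℓ) N hN)
    (fun r hr _ => @ub_modEq ℚ _ r ⟨hr.ne_zero⟩ hr) (fun p hp _ => kdj_intModEq p hp)
    (fun x h => linearIndependent_rat_of_zmod ℓ x h)
  exact ⟨_, x, hx⟩

end Main

end Fermat.Agent.S28

end



end ZBS28_002_17

/-! ### bundled: `Fermat.Agent.S28.IntModEqMain` -/
section ZBS28_002_18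

/-!
# S28, piece INT, unconditional form

* `intModEq p hp : IntModEq p` for every prime `p`: the modular equation of level `p` has a monic
  solution `Φ ∈ ℤ[Y][X]` in `ℤ((q))` (descent of the complex modular equation).
* `intJd_mem_chartAlgFin_main`, `coeffMap_mem_chartAlgFin_main`: `j(q^d)`, `d ∣ N`, and every element
  of `ℤ[j(q^d) : d ∣ N]` is integral over `ℤ_(ℓ)[j]` (lies in `chartAlgFin N ℓ`).
-/

set_option autoImplicit false

noncomputable section

namespace Fermat.Agent.S28

open ModularCurve ModularCurve.IgusaScheme Polynomial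

/-- The integral modular equation of prime level `p`. -/
theorem intModEq (p : ℕ) (hp : p.Prime) : IntModEq p := by
  have : NeZero p := ⟨hp.ne_zero⟩
  obtain ⟨W, hW, hWd, h1, h2⟩ := modEqHyp_complex p hp
  obtain ⟨hlow, hunit⟩ := jqModC_lowest ℤ
  have hjι : coeffMap (Int.castRingHom ℂ) (jqModC ℤ) = jqModC ℂ := coeffMap_jqModC _
  have hu' : coeffMap (Int.castRingHom ℂ) (jqModC ℤ) ≠ 0 := by
    rw [hjι]; exact jqModC_ne_zero ℂ
  have hcop : IsCoprime (coeffMap (Int.castRingHom ℂ) (jqModC ℤ)).order (p : ℤ) := by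
    rw [hjι, order_jqModC]; exact isCoprime_neg_one_natCast p
  obtain ⟨W', hW'm, -, -, hr1, -⟩ :=
    exists_descent (Int.castRingHom ℂ) Int.cast_injective hp.two_le
      (j := jqModC ℤ) (u := qExpand ℤ p (jqModC ℤ)) (u' := jqModC ℤ) (m := -1)
      (by norm_num) hlow hunit hu' hcop hW hWd
      (by rw [coeffMap_qExpand, hjι]; exact h1)
      (by rw [hjι]; exact h2)
  exact IntModEq.of_ringHom hW'm _ (by simp) hr1

variable (N : ℕ) [NeZero N] (ℓ : ℕ) [Fact ℓ.Prime]

/-- **INT**: for `d ∣ N`, `j(q^d)` is integral over `ℤ_(ℓ)[j]`. -/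
theorem intJd_mem_chartAlgFin_main {d : ℕ} (hd : d ∣ N) : intJdF N hd ∈ chartAlgFin N ℓ :=
  intJd_mem_chartAlgFin N ℓ (fun p hp _ => intModEq p hp) hd

/-- **INT**: every element of `ℤ[j(q^d) : d ∣ N] ⊆ ℤ((q))` lies in `F_N` and is integral over
`ℤ_(ℓ)[j]`. -/
theorem coeffMap_mem_chartAlgFin_main {x : LaurentSeries ℤ} (hx : x ∈ intJdRing N) :
    ∃ h : coeffMap (Int.castRingHom ℚ) x ∈ modularFunctionFieldFull N,
      (⟨coeffMap (Int.castRingHom ℚ) x, h⟩ : ↥(modularFunctionFieldFull N)) ∈ chartAlgFin N ℓ :=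
  coeffMap_mem_chartAlgFin N ℓ (fun p hp _ => intModEq p hp) hx

end Fermat.Agent.S28

end


end ZBS28_002_18

/-! ### bundled: `Fermat.Agent.INJ.BGFin` -/
section ZBS28_002_19

/-!
# (INJ) B-glue, piece BG-fin: finiteness over `E(j)`

For any field `E` the modular function field `F = modularFunctionFieldFullC E N = E(j(q^d) : d ∣ N)`
is finite over `E(j)` (each `j(q^d)` is integral over `ℤ[j]` by the integral modular equations of
`S28`), and so is every intermediate field `Lf` of `E((q))/E` generated over `F` by one element `h`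
with `h ^ p ∈ F`.

The abstract part (`bgFin_of_generators`, `bgFin_isAlgebraic_jd`, `bgFin_finite_of_rel`,
`bgFin_adjoin_subtype_eq_top`) is stated for abstract fields, the modular instantiation is at the
end of the file.
-/

set_option autoImplicit false

noncomputable section

open IntermediateField Polynomial

namespace Fermat.Agent.INJ

open Fermat.Agent.S28

section Abstract

variable {K L : Type*} [Field K] [Field L] [Algebra K L]

/-- A field `L/K` generated over `K` by `t` and a finite set of elements algebraic over `K(t)` is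
finite over `K(t)`. -/
theorem bgFin_of_generators (t : L) (T : Set L)
    (hT : T.Finite) (halg : ∀ y ∈ T, IsAlgebraic K⟮t⟯ y)
    (hgen : IntermediateField.adjoin K (insert t T) = ⊤) : FiniteDimensional K⟮t⟯ L := by
  have : Finite T := hT
  have hfd : FiniteDimensional K⟮t⟯ (IntermediateField.adjoin K⟮t⟯ T) :=
    IntermediateField.finiteDimensional_adjoin (K := K⟮t⟯) (L := L) (S := T)
      (fun y hy => (halg y hy).isIntegral)
  have h1 : (IntermediateField.adjoin K⟮t⟯ T).restrictScalars K =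
      IntermediateField.adjoin K ({t} ∪ T) :=
    IntermediateField.adjoin_adjoin_left K ({t} : Set L) T
  have htop : IntermediateField.adjoin K⟮t⟯ T = ⊤ := by
    rw [← IntermediateField.restrictScalars_eq_top_iff (K := K), h1, Set.singleton_union]
    exact hgen
  rw [htop] at hfd
  exact (IntermediateField.topEquiv (F := K⟮t⟯) (E := L)).toLinearEquiv.finiteDimensional

/-- If `jd (p * a)` is a root of a monic polynomial with coefficients in `ℤ[jd a]` whenever
`p` is prime and `p * a ∣ N`, then every `jd d`, `d ∣ N`, is algebraic over `K(jd 1)`. -/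
theorem bgFin_isAlgebraic_jd (jd : ℕ → L) (N : ℕ) (hN : N ≠ 0)
    (hrel : ∀ p : ℕ, p.Prime → ∀ a : ℕ, p * a ∣ N → ∃ Φ : Polynomial (Polynomial ℤ), Φ.Monic ∧
      Φ.eval₂ (evalInt (jd a)) (jd (p * a)) = 0) :
    ∀ d : ℕ, d ∣ N → IsAlgebraic K⟮jd 1⟯ (jd d) := by
  intro d
  induction d using induction_on_primes with
  | zero => intro h; exact absurd (Nat.eq_zero_of_zero_dvd h) hN
  | one =>
    intro _
    exact isAlgebraic_algebraMap
      (⟨jd 1, IntermediateField.mem_adjoin_simple_self K _⟩ : K⟮jd 1⟯)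
  | prime_mul p a hp ih =>
    intro hd
    have ha : a ∣ N := (Dvd.intro_left p rfl).trans hd
    have iha := ih ha
    obtain ⟨Φ, hΦm, hΦ⟩ := hrel p hp a hd
    have haA : jd a ∈ algebraicClosure K⟮jd 1⟯ L := mem_algebraicClosure_iff.mpr iha
    have hcomp : (algebraMap (algebraicClosure K⟮jd 1⟯ L) L).comp
        (evalInt (⟨jd a, haA⟩ : algebraicClosure K⟮jd 1⟯ L)) = evalInt (jd a) :=
      comp_evalInt _ _
    have hint : IsIntegral (algebraicClosure K⟮jd 1⟯ L) (jd (p * a)) := by
      refine ⟨Φ.map (evalInt (⟨jd a, haA⟩ : algebraicClosure K⟮jd 1⟯ L)), hΦm.map _, ?_⟩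
      rw [Polynomial.eval₂_map, hcomp]
      exact hΦ
    have h2 : IsIntegral K⟮jd 1⟯ (jd (p * a)) := isIntegral_trans _ hint
    exact h2.isAlgebraic

/-- Finiteness over `K(j)` of a field generated by the `jd d`, `d ∣ N`, and one more element `h`
with `h ^ p` in the field generated by the `jd d`. -/
theorem bgFin_finite_of_rel (jd : ℕ → L) (N : ℕ) (hN : N ≠ 0)
    (hrel : ∀ p : ℕ, p.Prime → ∀ a : ℕ, p * a ∣ N → ∃ Φ : Polynomial (Polynomial ℤ), Φ.Monic ∧
      Φ.eval₂ (evalInt (jd a)) (jd (p * a)) = 0)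
    (h : L) (p : ℕ) (hp : p ≠ 0)
    (hw : h ^ p ∈ IntermediateField.adjoin K (jd '' (N.divisors : Set ℕ)))
    (hgen : IntermediateField.adjoin K (insert h (jd '' (N.divisors : Set ℕ))) = ⊤) :
    FiniteDimensional K⟮jd 1⟯ L := by
  have hjd : ∀ d ∈ (N.divisors : Set ℕ), IsAlgebraic K⟮jd 1⟯ (jd d) := fun d hd =>
    bgFin_isAlgebraic_jd jd N hN hrel d (Nat.dvd_of_mem_divisors hd)
  have hle : IntermediateField.adjoin K (jd '' (N.divisors : Set ℕ)) ≤
      (algebraicClosure K⟮jd 1⟯ L).restrictScalars K := by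
    rw [IntermediateField.adjoin_le_iff]
    rintro _ ⟨d, hd, rfl⟩
    exact mem_algebraicClosure_iff.mpr (hjd d hd)
  have hwA : h ^ p ∈ algebraicClosure K⟮jd 1⟯ L := hle hw
  have hint : IsIntegral (algebraicClosure K⟮jd 1⟯ L) h := by
    refine ⟨X ^ p - C (⟨h ^ p, hwA⟩ : algebraicClosure K⟮jd 1⟯ L), monic_X_pow_sub_C _ hp, ?_⟩
    rw [eval₂_sub, eval₂_pow, eval₂_X, eval₂_C]
    exact sub_self _
  have hh : IsAlgebraic K⟮jd 1⟯ h := (isIntegral_trans _ hint).isAlgebraic
  refine bgFin_of_generators (jd 1) (insert h (jd '' (N.divisors : Set ℕ)))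
    (((Finset.finite_toSet _).image jd).insert h) ?_ ?_
  · rintro y (rfl | ⟨d, hd, rfl⟩)
    · exact hh
    · exact hjd d hd
  · rw [eq_top_iff, ← hgen]
    exact IntermediateField.adjoin.mono K _ _ (Set.subset_insert _ _)

/-- Elements of `adjoin K S`, `S ⊆ Lf`, seen inside the field `Lf` itself. -/
theorem bgFin_mem_adjoin_subtype {M : Type*} [Field M] [Algebra K M]
    (Lf : IntermediateField K M) (S : Set M) (hS : S ⊆ Lf)
    (y : M) (hy : y ∈ IntermediateField.adjoin K S) (hyL : y ∈ Lf) :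
    (⟨y, hyL⟩ : Lf) ∈ IntermediateField.adjoin K {x : Lf | (x : M) ∈ S} := by
  have hS' : IntermediateField.adjoin K S ≤ Lf := IntermediateField.adjoin_le_iff.mpr hS
  suffices h : ∀ (y : M) (hy : y ∈ IntermediateField.adjoin K S),
      (⟨y, hS' hy⟩ : Lf) ∈ IntermediateField.adjoin K {x : Lf | (x : M) ∈ S} from h y hy
  intro y hy
  induction hy using IntermediateField.adjoin_induction with
  | mem z hz => exact IntermediateField.subset_adjoin K _ hz
  | algebraMap c => exact IntermediateField.algebraMap_mem _ c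
  | add a b ha hb iha ihb => exact add_mem iha ihb
  | inv a ha iha => exact inv_mem iha
  | mul a b ha hb iha ihb => exact mul_mem iha ihb

/-- Generators of an intermediate field, seen inside the field itself. -/
theorem bgFin_adjoin_subtype_eq_top {M : Type*} [Field M] [Algebra K M]
    (Lf : IntermediateField K M) (S : Set M) (hS : S ⊆ Lf)
    (hle : Lf ≤ IntermediateField.adjoin K S) :
    IntermediateField.adjoin K {x : Lf | (x : M) ∈ S} = ⊤ := by
  rw [eq_top_iff]
  intro x _
  exact bgFin_mem_adjoin_subtype Lf S hS x.1 (hle x.2) x.2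

end Abstract

section Modular

open ModularCurve

variable (E : Type*) [Field E] (N : ℕ) [NeZero N]

omit [NeZero N] in
/-- `j(q^d) ∈ F_N` for `d ∣ N`, in the `intJd` form. -/
theorem bgFin_intJd_mem_full {d : ℕ} (hd : d ∣ N) (hN : N ≠ 0) :
    intJd E d ∈ modularFunctionFieldFullC E N := by
  have hd0 : d ≠ 0 := fun h => hN (Nat.eq_zero_of_zero_dvd (h ▸ hd))
  have : NeZero d := ⟨hd0⟩
  rw [intJd_eq]
  exact jqModCd_mem_full E N hd

omit [NeZero N] in
/-- The generators of `F_N` are the `intJd E d`, `d ∣ N`. -/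
theorem bgFin_mem_divisorExpansionsC {x : LaurentSeries E} (hx : x ∈ divisorExpansionsC E N) :
    ∃ d : ℕ, d ∣ N ∧ x = intJd E d := by
  obtain ⟨d, hd0, hd, rfl⟩ := hx
  exact ⟨d, hd, (intJd_eq E d).symm⟩

set_option maxHeartbeats 1600000 in
set_option synthInstance.maxHeartbeats 400000 in
/-- **BG-fin, general form.** An intermediate field `Lf` of `E((q))/E` containing
`F_N = E(j(q^d) : d ∣ N)` and generated over it by one element `h` with `h ^ p ∈ F_N` is finite
over `E(j)`. -/
theorem bgFin_finiteDimensional_of_root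
    (Lf : IntermediateField E (LaurentSeries E))
    (hle : modularFunctionFieldFullC E N ≤ Lf)
    (h : LaurentSeries E) (hh : h ∈ Lf) (p : ℕ) (hp : p ≠ 0)
    (hw : h ^ p ∈ modularFunctionFieldFullC E N)
    (hgen : Lf ≤ IntermediateField.adjoin E (insert h (divisorExpansionsC E N)))
    (j : Lf) (hj : (j : LaurentSeries E) = jqModC E) :
    FiniteDimensional E⟮j⟯ Lf := by
  have hN : N ≠ 0 := NeZero.ne N
  have hmem : ∀ d : ℕ, d ∣ N → intJd E d ∈ Lf := fun d hd =>
    hle (bgFin_intJd_mem_full E N hd hN)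
  -- the generators inside `Lf`
  let jd : ℕ → Lf := fun d => if hd : d ∣ N then ⟨intJd E d, hmem d hd⟩ else 0
  have hjd : ∀ d : ℕ, d ∣ N → ((jd d : Lf) : LaurentSeries E) = intJd E d := by
    intro d hd
    simp only [jd, dif_pos hd]
  have hj1 : jd 1 = j := by
    apply Subtype.ext
    rw [hjd 1 (one_dvd N), hj, intJd_one]
  have hS : divisorExpansionsC E N ⊆ (Lf : Set (LaurentSeries E)) := fun x hx =>
    hle (IntermediateField.subset_adjoin E _ hx)
  have hsub : {x : Lf | (x : LaurentSeries E) ∈ divisorExpansionsC E N} ⊆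
      jd '' (N.divisors : Set ℕ) := by
    intro x hx
    obtain ⟨d, hd, hxd⟩ := bgFin_mem_divisorExpansionsC E N hx
    refine ⟨d, ?_, ?_⟩
    · exact Finset.mem_coe.mpr (Nat.mem_divisors.mpr ⟨hd, hN⟩)
    · apply Subtype.ext
      rw [hjd d hd, hxd]
  have hrel : ∀ q : ℕ, q.Prime → ∀ a : ℕ, q * a ∣ N →
      ∃ Φ : Polynomial (Polynomial ℤ), Φ.Monic ∧ Φ.eval₂ (evalInt (jd a)) (jd (q * a)) = 0 := by
    intro q hq a hqa
    obtain ⟨Φ, hΦm, hΦ⟩ := intModEq q hq
    refine ⟨Φ, hΦm, ?_⟩
    have ha : a ∣ N := (Dvd.intro_left q rfl).trans hqa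
    have ha0 : a ≠ 0 := fun h0 => hN (Nat.eq_zero_of_zero_dvd (h0 ▸ ha))
    have h1 := map_eval₂_evalInt (algebraMap Lf (LaurentSeries E)) Φ (jd a) (jd (q * a))
    have h2 : algebraMap Lf (LaurentSeries E) (jd a) = intJd E a := hjd a ha
    have h3 : algebraMap Lf (LaurentSeries E) (jd (q * a)) = intJd E (q * a) := hjd (q * a) hqa
    rw [h2, h3, IntModEq.shift hΦ E ha0 hq.ne_zero] at h1
    exact (algebraMap Lf (LaurentSeries E)).injective (h1.trans (map_zero _).symm)
  have hw' : (⟨h, hh⟩ : Lf) ^ p ∈ IntermediateField.adjoin E (jd '' (N.divisors : Set ℕ)) := by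
    have h1 := bgFin_mem_adjoin_subtype Lf (divisorExpansionsC E N) hS (h ^ p) hw
      (pow_mem hh p)
    exact IntermediateField.adjoin.mono E _ _ hsub h1
  have hS2 : insert h (divisorExpansionsC E N) ⊆ (Lf : Set (LaurentSeries E)) :=
    Set.insert_subset hh hS
  have hsub2 : {x : Lf | (x : LaurentSeries E) ∈ insert h (divisorExpansionsC E N)} ⊆
      insert (⟨h, hh⟩ : Lf) (jd '' (N.divisors : Set ℕ)) := by
    intro x hx
    rcases hx with hx | hx
    · exact Or.inl (Subtype.ext hx)
    · exact Or.inr (hsub hx)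
  have hgen' : IntermediateField.adjoin E
      (insert (⟨h, hh⟩ : Lf) (jd '' (N.divisors : Set ℕ))) = ⊤ := by
    rw [eq_top_iff, ← bgFin_adjoin_subtype_eq_top Lf _ hS2 hgen]
    exact IntermediateField.adjoin.mono E _ _ hsub2
  have key := bgFin_finite_of_rel (K := E) (L := Lf) jd N hN hrel ⟨h, hh⟩ p hp hw' hgen'
  rw [hj1] at key
  exact key

/-- **BG-fin for `F_N`.** For any field `E`, the modular function field
`F_N = E(j(q^d) : d ∣ N)` is finite over `E(j)`. -/
theorem bgFin_finiteDimensional_full :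
    FiniteDimensional
      E⟮(⟨jqModC E, jqModC_mem_full E N⟩ : ↥(modularFunctionFieldFullC E N))⟯
      ↥(modularFunctionFieldFullC E N) := by
  refine bgFin_finiteDimensional_of_root E N (modularFunctionFieldFullC E N) le_rfl 1
    (one_mem _) 1 one_ne_zero (by rw [pow_one]; exact one_mem _) ?_ _ rfl
  exact IntermediateField.adjoin.mono E _ _ (Set.subset_insert _ _)

/-- **BG-fin, `⊔` form.** Same as `bgFin_finiteDimensional_of_root` with the generation
hypothesis in the form `Lf ≤ F_N ⊔ E(h)`. -/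
theorem bgFin_finiteDimensional_of_root_sup
    (Lf : IntermediateField E (LaurentSeries E))
    (hle : modularFunctionFieldFullC E N ≤ Lf)
    (h : LaurentSeries E) (hh : h ∈ Lf) (p : ℕ) (hp : p ≠ 0)
    (hw : h ^ p ∈ modularFunctionFieldFullC E N)
    (hgen : Lf ≤ modularFunctionFieldFullC E N ⊔ E⟮h⟯)
    (j : Lf) (hj : (j : LaurentSeries E) = jqModC E) :
    FiniteDimensional E⟮j⟯ Lf := by
  refine bgFin_finiteDimensional_of_root E N Lf hle h hh p hp hw (hgen.trans ?_) j hj
  refine sup_le ?_ ?_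
  · exact IntermediateField.adjoin.mono E _ _ (Set.subset_insert _ _)
  · rw [IntermediateField.adjoin_simple_le_iff]
    exact IntermediateField.subset_adjoin E _ (Set.mem_insert _ _)

end Modular

end Fermat.Agent.INJ

end
end ZBS28_002_19

/-! ### bundled: `Fermat.Agent.INJ.BGFinH` -/
section ZBS28_002_20

/-!
# (INJ) B-glue, piece BG-fin-h: finiteness over `E(t)`, `t` a Hauptmodul of `X₀(2)` or `X₀(3)`

The analogue of `bgFin_finiteDimensional_of_root_sup` for the coordinate `t = hm2 E` (`2 ∣ N`)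
resp. `t = hm3 E` (`3 ∣ N`) instead of `j`: since `j = (t + 256)³ / t²` resp.
`j = (t + 27)(t + 243)³ / t³`, we have `E(j) ≤ E(t)`, and a field finite over `E(j)` is finite
over `E(t)`.
-/

set_option autoImplicit false

noncomputable section

open IntermediateField Polynomial

namespace Fermat.Agent.INJ

open ModularCurve

section Abstract

variable {K L : Type*} [Field K] [Field L] [Algebra K L]

/-- If `j ∈ K(t)` and `L` is finite over `K(j)`, then `L` is finite over `K(t)`. -/
theorem bgFinH_of_mem (j t : L) (hjt : j ∈ K⟮t⟯) [FiniteDimensional K⟮j⟯ L] :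
    FiniteDimensional K⟮t⟯ L := by
  have hle : K⟮j⟯ ≤ K⟮t⟯ := by
    rw [IntermediateField.adjoin_simple_le_iff]
    exact hjt
  obtain ⟨s, hs⟩ := (Module.finite_def (R := K⟮j⟯) (M := L)).mp inferInstance
  refine (Module.finite_def (R := K⟮t⟯) (M := L)).mpr ⟨s, ?_⟩
  rw [eq_top_iff]
  intro y hy'
  clear hy'
  have hy : y ∈ Submodule.span K⟮j⟯ (s : Set L) := by rw [hs]; trivial
  induction hy using Submodule.span_induction with
  | mem z hz => exact Submodule.subset_span hz
  | zero => exact zero_mem _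
  | add a b _ _ ha hb => exact add_mem ha hb
  | smul a b _ hb =>
    have h1 : a • b = (⟨(a : L), hle a.2⟩ : K⟮t⟯) • b := rfl
    rw [h1]
    exact Submodule.smul_mem _ _ hb

end Abstract

section Modular

variable (E : Type*) [Field E]

theorem bgFinH_hm_unit_ne_zero {u : PowerSeries ℤ} (hu : PowerSeries.constantCoeff u = 1) :
    HahnSeries.single (-1 : ℤ) (1 : E) *
      HahnSeries.ofPowerSeries ℤ E (u.map (Int.castRingHom E)) ≠ 0 := by
  refine mul_ne_zero (HahnSeries.single_ne_zero one_ne_zero) ?_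
  intro h0
  have h1 : u.map (Int.castRingHom E) = 0 :=
    HahnSeries.ofPowerSeries_injective (by rw [h0, map_zero])
  have h2 := congrArg PowerSeries.constantCoeff h1
  rw [← PowerSeries.coeff_zero_eq_constantCoeff_apply, PowerSeries.coeff_map,
    PowerSeries.coeff_zero_eq_constantCoeff_apply, hu] at h2
  simp at h2

theorem bgFinH_hm2_ne_zero : hm2 E ≠ 0 := by
  rw [hm2_eq]; exact bgFinH_hm_unit_ne_zero E constantCoeff_hm2U

theorem bgFinH_hm3_ne_zero : hm3 E ≠ 0 := by
  rw [hm3_eq]; exact bgFinH_hm_unit_ne_zero E constantCoeff_hm3U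

/-- `j = (t + 256)³ / t²` for `t = hm2 E`. -/
theorem bgFinH_j_eq_hm2 : jqModC E = (hm2 E + 256) ^ 3 / hm2 E ^ 2 := by
  rw [eq_div_iff (pow_ne_zero 2 (bgFinH_hm2_ne_zero E))]
  exact hm2_j E

/-- `j = (t + 27)(t + 243)³ / t³` for `t = hm3 E`. -/
theorem bgFinH_j_eq_hm3 : jqModC E = (hm3 E + 27) * (hm3 E + 243) ^ 3 / hm3 E ^ 3 := by
  rw [eq_div_iff (pow_ne_zero 3 (bgFinH_hm3_ne_zero E))]
  exact hm3_j E

set_option maxHeartbeats 1600000 in
set_option synthInstance.maxHeartbeats 400000 in
/-- A rational expression in `t` with integer coefficients lies in `E(t)` (inside the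
subtype of an intermediate field of `E((q))/E`): level 2. -/
theorem bgFinH_j_mem_adjoin_hm2 (Lf : IntermediateField E (LaurentSeries E))
    (j t : Lf) (hj : (j : LaurentSeries E) = jqModC E) (ht : (t : LaurentSeries E) = hm2 E) :
    j ∈ E⟮t⟯ := by
  have h : j = (t + 256) ^ 3 / t ^ 2 := by
    apply Subtype.ext
    have h1 : (((t + 256) ^ 3 / t ^ 2 : Lf) : LaurentSeries E) =
        ((t : LaurentSeries E) + 256) ^ 3 / (t : LaurentSeries E) ^ 2 := by
      push_cast
      rfl
    rw [h1, hj, ht]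
    exact bgFinH_j_eq_hm2 E
  rw [h]
  have htm : t ∈ E⟮t⟯ := IntermediateField.mem_adjoin_simple_self E t
  have h256 : (256 : Lf) ∈ E⟮t⟯ := by
    have := (E⟮t⟯).natCast_mem 256
    exact_mod_cast this
  exact div_mem (pow_mem (add_mem htm h256) 3) (pow_mem htm 2)

set_option maxHeartbeats 1600000 in
set_option synthInstance.maxHeartbeats 400000 in
/-- Level 3. -/
theorem bgFinH_j_mem_adjoin_hm3 (Lf : IntermediateField E (LaurentSeries E))
    (j t : Lf) (hj : (j : LaurentSeries E) = jqModC E) (ht : (t : LaurentSeries E) = hm3 E) :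
    j ∈ E⟮t⟯ := by
  have h : j = (t + 27) * (t + 243) ^ 3 / t ^ 3 := by
    apply Subtype.ext
    have h1 : (((t + 27) * (t + 243) ^ 3 / t ^ 3 : Lf) : LaurentSeries E) =
        ((t : LaurentSeries E) + 27) * ((t : LaurentSeries E) + 243) ^ 3 /
          (t : LaurentSeries E) ^ 3 := by
      push_cast
      rfl
    rw [h1, hj, ht]
    exact bgFinH_j_eq_hm3 E
  rw [h]
  have htm : t ∈ E⟮t⟯ := IntermediateField.mem_adjoin_simple_self E t
  have h27 : (27 : Lf) ∈ E⟮t⟯ := by
    have := (E⟮t⟯).natCast_mem 27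
    exact_mod_cast this
  have h243 : (243 : Lf) ∈ E⟮t⟯ := by
    have := (E⟮t⟯).natCast_mem 243
    exact_mod_cast this
  exact div_mem (mul_mem (add_mem htm h27) (pow_mem (add_mem htm h243) 3)) (pow_mem htm 3)

variable (N : ℕ) [NeZero N]

set_option maxHeartbeats 1600000 in
set_option synthInstance.maxHeartbeats 400000 in
/-- **BG-fin-h, level 2.** `Lf = F_N(h)`, `h ^ p ∈ F_N`, is finite over `E(t)`, `t = hm2 E`. -/
theorem bgFinH_finiteDimensional_hm2
    (Lf : IntermediateField E (LaurentSeries E))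
    (hle : modularFunctionFieldFullC E N ≤ Lf)
    (h : LaurentSeries E) (hh : h ∈ Lf) (p : ℕ) (hp : p ≠ 0)
    (hw : h ^ p ∈ modularFunctionFieldFullC E N)
    (hgen : Lf ≤ modularFunctionFieldFullC E N ⊔ E⟮h⟯)
    (t : Lf) (ht : (t : LaurentSeries E) = hm2 E) :
    FiniteDimensional E⟮t⟯ Lf := by
  let j : Lf := ⟨jqModC E, hle (jqModC_mem_full E N)⟩
  have hfin : FiniteDimensional E⟮j⟯ Lf :=
    bgFin_finiteDimensional_of_root_sup E N Lf hle h hh p hp hw hgen j rfl
  exact bgFinH_of_mem j t (bgFinH_j_mem_adjoin_hm2 E Lf j t rfl ht)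

set_option maxHeartbeats 1600000 in
set_option synthInstance.maxHeartbeats 400000 in
/-- **BG-fin-h, level 3.** `Lf = F_N(h)`, `h ^ p ∈ F_N`, is finite over `E(t)`, `t = hm3 E`. -/
theorem bgFinH_finiteDimensional_hm3
    (Lf : IntermediateField E (LaurentSeries E))
    (hle : modularFunctionFieldFullC E N ≤ Lf)
    (h : LaurentSeries E) (hh : h ∈ Lf) (p : ℕ) (hp : p ≠ 0)
    (hw : h ^ p ∈ modularFunctionFieldFullC E N)
    (hgen : Lf ≤ modularFunctionFieldFullC E N ⊔ E⟮h⟯)
    (t : Lf) (ht : (t : LaurentSeries E) = hm3 E) :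
    FiniteDimensional E⟮t⟯ Lf := by
  let j : Lf := ⟨jqModC E, hle (jqModC_mem_full E N)⟩
  have hfin : FiniteDimensional E⟮j⟯ Lf :=
    bgFin_finiteDimensional_of_root_sup E N Lf hle h hh p hp hw hgen j rfl
  exact bgFinH_of_mem j t (bgFinH_j_mem_adjoin_hm3 E Lf j t rfl ht)

set_option maxHeartbeats 1600000 in
set_option synthInstance.maxHeartbeats 400000 in
/-- **BG-fin-h for `F_N` itself**, level 2. -/
theorem bgFinH_finiteDimensional_full_hm2
    (t : ↥(modularFunctionFieldFullC E N)) (ht : (t : LaurentSeries E) = hm2 E) :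
    FiniteDimensional E⟮t⟯ ↥(modularFunctionFieldFullC E N) := by
  have hfin := bgFin_finiteDimensional_full E N
  exact bgFinH_of_mem (⟨jqModC E, jqModC_mem_full E N⟩ : ↥(modularFunctionFieldFullC E N)) t
    (bgFinH_j_mem_adjoin_hm2 E _ ⟨jqModC E, jqModC_mem_full E N⟩ t rfl ht)

set_option maxHeartbeats 1600000 in
set_option synthInstance.maxHeartbeats 400000 in
/-- **BG-fin-h for `F_N` itself**, level 3. -/
theorem bgFinH_finiteDimensional_full_hm3
    (t : ↥(modularFunctionFieldFullC E N)) (ht : (t : LaurentSeries E) = hm3 E) :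
    FiniteDimensional E⟮t⟯ ↥(modularFunctionFieldFullC E N) := by
  have hfin := bgFin_finiteDimensional_full E N
  exact bgFinH_of_mem (⟨jqModC E, jqModC_mem_full E N⟩ : ↥(modularFunctionFieldFullC E N)) t
    (bgFinH_j_mem_adjoin_hm3 E _ ⟨jqModC E, jqModC_mem_full E N⟩ t rfl ht)

end Modular

end Fermat.Agent.INJ

end
end ZBS28_002_20
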