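/- GENERATED FILE (helper35, build-time optimisation, NOTES/ZB.md): verbatim concatenation of the modules
   Fermat.Agent.ES.Kronecker
   Fermat.Agent.ES.RC.ShiftLaurent
   Fermat.Agent.S33.NormAlg
   Fermat.Agent.ES.LR.Core
   Fermat.Agent.ES.LR.Arch
   Fermat.Agent.UNIP.FrobLift
   Fermat.Agent.R38.TresDlog
   Fermat.Agent.R38.TresDlogHecke
   Fermat.Agent.R38.TresDlogAlg
   Fermat.Agent.R38.HolDer
   Fermat.Agent.DEU.ResLaurent
   Fermat.Agent.R38.TresRed
   Fermat.Agent.R38.TresRedHecke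
   Fermat.Agent.ES.KroneckerComm
   Fermat.Agent.R38.TresEisOgg
   Fermat.Agent.R38.TresEisOggInv
   Do not edit; do not import together with these modules. -/
import Mathlib
import Fermat.Prelude.Def_ModularCurve_LaurentCoeff
import Fermat.Prelude.Def_ModularCurve_X0
import Fermat.Prelude.Thm_ModularCurve_coeffMap_qExpand
import Fermat.Prelude.Def_EllipticCurve_FrobeniusTrace
import Fermat.Prelude.Def_FLTPrelim_Ramification
import Fermat.Agent.ZB.S20_001
import Fermat.Agent.ZB.S28_003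
import Fermat.Agent.ZB.S23_001
import Fermat.Agent.ZB.S28_001
import Fermat.Agent.ZB.S24_003
import Mathlib.RingTheory.Algebraic.Integral
import Mathlib.RingTheory.Localization.Integral
import Mathlib.FieldTheory.IsAlgClosed.AlgebraicClosure
import Fermat.Agent.ZB.S28_002

/-! ### bundled: `Fermat.Agent.ES.Kronecker` -/
section ZBES_002_0

/-!
# Kronecker's congruence on Laurent series (piece KRON of the Eichler–Shimura package)

`L` a field, `A` a valuation subring of `L` over the prime `ℓ`, `τ` a Frobenius element at `A`,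
`ζ` an `ℓ`-th root of unity of `L`.  For `f : LaurentSeries L`:

* `KronInt A f`     : all coefficients of `f` lie in `A`;
* `KronPrim A f`    : moreover some coefficient is a unit of `A`;
* `KronCongr A f g` : `f ≡ g` coefficientwise modulo the maximal ideal of `A`;
* `kronRot c f`     : `f(c q)` (a ring homomorphism);
* `kronNorm ℓ ζ f`  : `∏_{b<ℓ} f(ζ^b q^{1/ℓ})`  (`qExpand_kronNorm_field`);
* `kronHecke ℓ ζ f` : `f(q^ℓ) · ∏_{b<ℓ} f(ζ^b q^{1/ℓ})`, the multiplicative Hecke operator `T_ℓ`.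

Main results: `kronNorm_congr` (K2), `kron_qExpand_congr` (K3), `kronHecke_congr` (K4),
`kron_inertia_congr` (K5), `kronHecke_frob_congr` + `kronPrim_frob_rhs` (K6), and the algebra of
`kronNorm`, `kronHecke` (K1: `kronHecke_mul`, `coeffMap_kronHecke_algEquiv`,
`kronHecke_eq_of_isPrimitiveRoot`, `KronInt.kronHecke`).
-/

set_option autoImplicit false

noncomputable section

namespace Fermat.Agent.ES

open ModularCurve HahnSeries

/-! ## 1. The rotation `f(q) ↦ f(c q)` -/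

section Rot

variable {R S : Type*} [CommRing R] [CommRing S]

/-- The series `f(c q)`: coefficient `n` is `c ^ n * a_n`. -/
def kronRotFun (c : Rˣ) (f : LaurentSeries R) : LaurentSeries R where
  coeff n := ((c ^ n : Rˣ) : R) * f.coeff n
  isPWO_support' := f.isPWO_support.mono (by
    intro n hn
    simp only [Function.mem_support, ne_eq] at hn ⊢
    intro h
    exact hn (by rw [h, mul_zero]))

@[simp]
theorem kronRotFun_coeff (c : Rˣ) (f : LaurentSeries R) (n : ℤ) :
    (kronRotFun c f).coeff n = ((c ^ n : Rˣ) : R) * f.coeff n := rfl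

theorem kronRotFun_support (c : Rˣ) (f : LaurentSeries R) :
    (kronRotFun c f).support = f.support := by
  ext n
  simp only [HahnSeries.mem_support, kronRotFun_coeff, ne_eq]
  rw [Units.mul_right_eq_zero]

theorem kronRotFun_mul (c : Rˣ) (f g : LaurentSeries R) :
    kronRotFun c (f * g) = kronRotFun c f * kronRotFun c g := by
  ext n
  rw [kronRotFun_coeff, HahnSeries.coeff_mul, HahnSeries.coeff_mul, Finset.mul_sum]
  have hs : Finset.antidiagonal (kronRotFun c f).isPWO_support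
      (kronRotFun c g).isPWO_support n
      = Finset.antidiagonal f.isPWO_support g.isPWO_support n := by
    ext ij
    simp only [Finset.mem_antidiagonal, kronRotFun_support]
  rw [hs]
  refine Finset.sum_congr rfl fun ij hij => ?_
  have hn : ij.1 + ij.2 = n := (Finset.mem_antidiagonal.1 hij).2.2
  rw [kronRotFun_coeff, kronRotFun_coeff, ← hn, zpow_add, Units.val_mul]
  ring

/-- The rotation `f(q) ↦ f(c q)` as a ring homomorphism. -/
def kronRot (c : Rˣ) : LaurentSeries R →+* LaurentSeries R where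
  toFun := kronRotFun c
  map_zero' := by
    ext n
    simp
  map_one' := by
    ext n
    rw [kronRotFun_coeff, HahnSeries.coeff_one]
    split_ifs with h
    · subst h
      simp
    · simp
  map_add' f g := by
    ext n
    simp [mul_add]
  map_mul' := kronRotFun_mul c

@[simp]
theorem kronRot_coeff (c : Rˣ) (f : LaurentSeries R) (n : ℤ) :
    (kronRot c f).coeff n = ((c ^ n : Rˣ) : R) * f.coeff n := rfl

@[simp]
theorem kronRot_one (f : LaurentSeries R) : kronRot (1 : Rˣ) f = f := by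
  ext n
  simp

theorem kronRot_kronRot (c d : Rˣ) (f : LaurentSeries R) :
    kronRot c (kronRot d f) = kronRot (c * d) f := by
  ext n
  simp only [kronRot_coeff, mul_zpow, Units.val_mul]
  ring

/-- naturality of the rotation in the coefficient ring -/
theorem coeffMap_kronRot (φ : R →+* S) (c : Rˣ) (f : LaurentSeries R) :
    coeffMap φ (kronRot c f) = kronRot (Units.map (φ : R →* S) c) (coeffMap φ f) := by
  ext n
  simp only [coeffMap_coeff, kronRot_coeff, map_mul]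
  congr 1
  rw [← map_zpow]
  rfl

theorem qExpand_kronRot_pow (N : ℕ) [NeZero N] (c : Rˣ) (f : LaurentSeries R) :
    kronRot c (qExpand R N f) = qExpand R N (kronRot (c ^ N) f) := by
  ext n
  by_cases hn : (N : ℤ) ∣ n
  · obtain ⟨m, rfl⟩ := hn
    rw [kronRot_coeff, qExpand_coeff_mul, qExpand_coeff_mul, kronRot_coeff, zpow_mul,
      zpow_natCast]
  · rw [kronRot_coeff, qExpand_coeff_of_not_dvd N _ hn, qExpand_coeff_of_not_dvd N _ hn,
      mul_zero]

end Rot

/-! ## 2. Compression `q^N ↦ q`, the product over the rotations, and the norm -/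

section Compress

variable {R S : Type*} [CommRing R] [CommRing S]

theorem kron_bddBelow_compress (N : ℕ) [NeZero N] (f : LaurentSeries R) :
    BddBelow (Function.support fun n : ℤ => f.coeff ((N : ℤ) * n)) := by
  refine ⟨min f.order 0, fun n hn => ?_⟩
  by_contra hlt
  rw [not_le, lt_min_iff] at hlt
  apply hn
  apply HahnSeries.coeff_eq_zero_of_lt_order
  have hN : (1 : ℤ) ≤ (N : ℤ) := by
    exact_mod_cast Nat.one_le_iff_ne_zero.2 (NeZero.ne N)
  nlinarith [hlt.1, hlt.2]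

/-- `kronCompress N f` has `n`-th coefficient `f.coeff (N * n)`; a left inverse of `qExpand`. -/
def kronCompress (N : ℕ) [NeZero N] (f : LaurentSeries R) : LaurentSeries R :=
  HahnSeries.ofSuppBddBelow (fun n : ℤ => f.coeff ((N : ℤ) * n)) (kron_bddBelow_compress N f)

@[simp]
theorem kronCompress_coeff (N : ℕ) [NeZero N] (f : LaurentSeries R) (n : ℤ) :
    (kronCompress N f).coeff n = f.coeff ((N : ℤ) * n) := rfl

@[simp]
theorem kronCompress_qExpand (N : ℕ) [NeZero N] (f : LaurentSeries R) :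
    kronCompress N (qExpand R N f) = f := by
  ext n
  rw [kronCompress_coeff, qExpand_coeff_mul]

theorem qExpand_kronCompress (N : ℕ) [NeZero N] (f : LaurentSeries R)
    (h : ∀ n : ℤ, ¬ (N : ℤ) ∣ n → f.coeff n = 0) :
    qExpand R N (kronCompress N f) = f := by
  ext n
  by_cases hn : (N : ℤ) ∣ n
  · obtain ⟨m, rfl⟩ := hn
    rw [qExpand_coeff_mul, kronCompress_coeff]
  · rw [qExpand_coeff_of_not_dvd N _ hn, h n hn]

theorem coeffMap_kronCompress (φ : R →+* S) (N : ℕ) [NeZero N] (f : LaurentSeries R) :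
    coeffMap φ (kronCompress N f) = kronCompress N (coeffMap φ f) := by
  ext n
  simp

/-- `∏_{b < ℓ} f(ζ^b q)` -/
def kronRotProd (ℓ : ℕ) (ζ : Rˣ) (f : LaurentSeries R) : LaurentSeries R :=
  ∏ b ∈ Finset.range ℓ, kronRot (ζ ^ b) f

theorem kronRotProd_one_right (ℓ : ℕ) (ζ : Rˣ) : kronRotProd ℓ ζ (1 : LaurentSeries R) = 1 := by
  simp [kronRotProd]

theorem kronRotProd_mul (ℓ : ℕ) (ζ : Rˣ) (f g : LaurentSeries R) :
    kronRotProd ℓ ζ (f * g) = kronRotProd ℓ ζ f * kronRotProd ℓ ζ g := by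
  simp [kronRotProd, Finset.prod_mul_distrib]

theorem kronRotProd_one_left (ℓ : ℕ) (f : LaurentSeries R) :
    kronRotProd ℓ (1 : Rˣ) f = f ^ ℓ := by
  simp [kronRotProd]

theorem coeffMap_kronRotProd (φ : R →+* S) (ℓ : ℕ) (ζ : Rˣ) (f : LaurentSeries R) :
    coeffMap φ (kronRotProd ℓ ζ f)
      = kronRotProd ℓ (Units.map (φ : R →* S) ζ) (coeffMap φ f) := by
  simp only [kronRotProd, map_prod, coeffMap_kronRot, map_pow]

theorem kronRot_kronRotProd (ℓ : ℕ) (ζ : Rˣ) (hζ : ζ ^ ℓ = 1) (f : LaurentSeries R) :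
    kronRot ζ (kronRotProd ℓ ζ f) = kronRotProd ℓ ζ f := by
  rcases ℓ with _ | m
  · simp [kronRotProd]
  · have h1 : kronRot ζ (kronRotProd (m + 1) ζ f)
        = ∏ b ∈ Finset.range (m + 1), kronRot (ζ ^ (b + 1)) f := by
      simp only [kronRotProd, map_prod, kronRot_kronRot]
      refine Finset.prod_congr rfl fun b _ => ?_
      rw [pow_succ']
    rw [h1, Finset.prod_range_succ, hζ]
    simp only [kronRotProd]
    rw [Finset.prod_range_succ', pow_zero]

/-- the coefficients of `∏_b f(ζ^b q)` vanish outside the multiples of `ℓ` -/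
theorem kronRotProd_coeff_of_not_dvd [IsDomain R] (ℓ : ℕ) (ζ : Rˣ) (hζ : IsPrimitiveRoot ζ ℓ)
    (f : LaurentSeries R) {n : ℤ} (hn : ¬ (ℓ : ℤ) ∣ n) : (kronRotProd ℓ ζ f).coeff n = 0 := by
  have h1 := congrArg (fun g : LaurentSeries R => g.coeff n)
    (kronRot_kronRotProd ℓ ζ hζ.pow_eq_one f)
  simp only [kronRot_coeff] at h1
  have h2 : (((ζ ^ n : Rˣ) : R) - 1) * (kronRotProd ℓ ζ f).coeff n = 0 := by
    rw [sub_mul, h1, one_mul, sub_self]
  rcases mul_eq_zero.1 h2 with h3 | h3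
  · exfalso
    apply hn
    rw [← hζ.zpow_eq_one_iff_dvd]
    apply Units.ext
    rw [Units.val_one]
    exact sub_eq_zero.1 h3
  · exact h3

/-- The norm `f ↦ ∏_{b<ℓ} f(ζ^b q^{1/ℓ})`. -/
def kronNorm (ℓ : ℕ) [NeZero ℓ] (ζ : Rˣ) (f : LaurentSeries R) : LaurentSeries R :=
  kronCompress ℓ (kronRotProd ℓ ζ f)

theorem qExpand_kronNorm [IsDomain R] (ℓ : ℕ) [NeZero ℓ] (ζ : Rˣ) (hζ : IsPrimitiveRoot ζ ℓ)
    (f : LaurentSeries R) : qExpand R ℓ (kronNorm ℓ ζ f) = kronRotProd ℓ ζ f :=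
  qExpand_kronCompress ℓ _ fun _ hn => kronRotProd_coeff_of_not_dvd ℓ ζ hζ f hn

theorem kronNorm_unique (ℓ : ℕ) [NeZero ℓ] (ζ : Rˣ)
    (f g : LaurentSeries R) (h : qExpand R ℓ g = kronRotProd ℓ ζ f) : kronNorm ℓ ζ f = g := by
  rw [kronNorm, ← h, kronCompress_qExpand]

theorem kronNorm_one (ℓ : ℕ) [NeZero ℓ] (ζ : Rˣ) :
    kronNorm ℓ ζ (1 : LaurentSeries R) = 1 :=
  kronNorm_unique ℓ ζ _ _ (by rw [map_one, kronRotProd_one_right])

theorem kronNorm_mul [IsDomain R] (ℓ : ℕ) [NeZero ℓ] (ζ : Rˣ) (hζ : IsPrimitiveRoot ζ ℓ)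
    (f g : LaurentSeries R) : kronNorm ℓ ζ (f * g) = kronNorm ℓ ζ f * kronNorm ℓ ζ g :=
  kronNorm_unique ℓ ζ _ _ (by
    rw [map_mul, qExpand_kronNorm ℓ ζ hζ, qExpand_kronNorm ℓ ζ hζ, kronRotProd_mul])

theorem kron_pow_mod (ℓ : ℕ) (ζ : Rˣ) (hζ : ζ ^ ℓ = 1) (m : ℕ) : ζ ^ (m % ℓ) = ζ ^ m := by
  conv_rhs => rw [← Nat.div_add_mod m ℓ, _root_.pow_add, pow_mul, hζ, one_pow, one_mul]

/-- replacing `ζ` by `ζ ^ a` with `a` prime to `ℓ` permutes the factors -/
theorem kronRotProd_pow_left (ℓ : ℕ) (ζ : Rˣ) (hζ : ζ ^ ℓ = 1) (a : ℕ) (ha : a.Coprime ℓ)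
    (f : LaurentSeries R) : kronRotProd ℓ (ζ ^ a) f = kronRotProd ℓ ζ f := by
  have hinj : Set.InjOn (fun b : ℕ => (a * b) % ℓ) (Finset.range ℓ : Set ℕ) := by
    intro b hb b' hb' h
    have hb1 : b < ℓ := Finset.mem_range.1 hb
    have hb2 : b' < ℓ := Finset.mem_range.1 hb'
    have h1 : a * b ≡ a * b' [MOD ℓ] := h
    have h2 : b ≡ b' [MOD ℓ] :=
      Nat.ModEq.cancel_left_of_coprime (by rw [Nat.gcd_comm]; exact ha) h1
    exact Nat.ModEq.eq_of_lt_of_lt h2 hb1 hb2
  have himg : (Finset.range ℓ).image (fun b : ℕ => (a * b) % ℓ) = Finset.range ℓ := by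
    apply Finset.eq_of_subset_of_card_le
    · intro c hc
      obtain ⟨b, hb, rfl⟩ := Finset.mem_image.1 hc
      have hℓ : 0 < ℓ := lt_of_le_of_lt (Nat.zero_le _) (Finset.mem_range.1 hb)
      exact Finset.mem_range.2 (Nat.mod_lt _ hℓ)
    · rw [Finset.card_image_of_injOn hinj]
  have h1 : kronRotProd ℓ ζ f
      = ∏ c ∈ (Finset.range ℓ).image (fun b : ℕ => (a * b) % ℓ), kronRot (ζ ^ c) f := by
    rw [himg, kronRotProd]
  rw [h1, Finset.prod_image hinj, kronRotProd]
  refine Finset.prod_congr rfl fun b _ => ?_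
  rw [kron_pow_mod ℓ ζ hζ, pow_mul]

/-- `∏_b f(ζ^b q)` does not depend on the primitive `ℓ`-th root of unity `ζ` -/
theorem kronRotProd_eq_of_isPrimitiveRoot [IsDomain R] (ℓ : ℕ) [NeZero ℓ] (ζ ζ' : Rˣ)
    (hζ : IsPrimitiveRoot ζ ℓ) (hζ' : IsPrimitiveRoot ζ' ℓ) (f : LaurentSeries R) :
    kronRotProd ℓ ζ' f = kronRotProd ℓ ζ f := by
  have h1 : IsPrimitiveRoot (ζ : R) ℓ := IsPrimitiveRoot.coe_units_iff.2 hζ
  have h2 : ((ζ' : Rˣ) : R) ^ ℓ = 1 := by
    rw [← Units.val_pow_eq_pow_val, hζ'.pow_eq_one, Units.val_one]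
  obtain ⟨i, _, hi⟩ := h1.eq_pow_of_pow_eq_one h2
  have h3 : ζ' = ζ ^ i := by
    apply Units.ext
    rw [Units.val_pow_eq_pow_val, hi]
  have h4 : i.Coprime ℓ := by
    rw [← hζ.pow_iff_coprime (Nat.pos_of_ne_zero (NeZero.ne ℓ)), ← h3]
    exact hζ'
  rw [h3]
  exact kronRotProd_pow_left ℓ ζ hζ.pow_eq_one i h4 f

theorem kronNorm_eq_of_isPrimitiveRoot [IsDomain R] (ℓ : ℕ) [NeZero ℓ] (ζ ζ' : Rˣ)
    (hζ : IsPrimitiveRoot ζ ℓ) (hζ' : IsPrimitiveRoot ζ' ℓ) (f : LaurentSeries R) :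
    kronNorm ℓ ζ' f = kronNorm ℓ ζ f := by
  rw [kronNorm, kronNorm, kronRotProd_eq_of_isPrimitiveRoot ℓ ζ ζ' hζ hζ']

theorem coeffMap_kronNorm (φ : R →+* S) (ℓ : ℕ) [NeZero ℓ] (ζ : Rˣ) (f : LaurentSeries R) :
    coeffMap φ (kronNorm ℓ ζ f) = kronNorm ℓ (Units.map (φ : R →* S) ζ) (coeffMap φ f) := by
  rw [kronNorm, coeffMap_kronCompress, coeffMap_kronRotProd, kronNorm]

end Compress

/-! ## 3. Frobenius on Laurent series in characteristic `ℓ` -/

section Frobenius

variable {k : Type*} [CommRing k] (ℓ : ℕ) [NeZero ℓ] [ExpChar k ℓ]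

theorem kron_powerSeries_pow (G : PowerSeries k) (n : ℕ) :
    PowerSeries.coeff n (G ^ ℓ)
      = if ℓ ∣ n then frobenius k ℓ (PowerSeries.coeff (n / ℓ) G) else 0 := by
  have h := MvPowerSeries.map_frobenius_expand (σ := Unit) ℓ (NeZero.ne ℓ) (f := G)
  have h2 : G ^ ℓ = PowerSeries.map (frobenius k ℓ) (PowerSeries.expand ℓ (NeZero.ne ℓ) G) :=
    h.symm
  rw [h2, PowerSeries.coeff_map, PowerSeries.coeff_expand]
  split_ifs
  · rfl
  · simp

theorem kron_ofPowerSeries_pow (G : PowerSeries k) :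
    (HahnSeries.ofPowerSeries ℤ k G) ^ ℓ
      = qExpand k ℓ (coeffMap (frobenius k ℓ) (HahnSeries.ofPowerSeries ℤ k G)) := by
  rw [← map_pow]
  ext m
  have hℓ : (0 : ℤ) < (ℓ : ℤ) := by exact_mod_cast Nat.pos_of_ne_zero (NeZero.ne ℓ)
  by_cases hm : (ℓ : ℤ) ∣ m
  · obtain ⟨m', rfl⟩ := hm
    rw [qExpand_coeff_mul, coeffMap_coeff]
    rcases lt_or_ge m' 0 with h0 | h0
    · have h1 : (ℓ : ℤ) * m' < 0 := mul_neg_of_pos_of_neg hℓ h0
      rw [show HahnSeries.ofPowerSeries ℤ k (G ^ ℓ) = ((G ^ ℓ : PowerSeries k) : LaurentSeries k)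
        from rfl, show HahnSeries.ofPowerSeries ℤ k G = ((G : PowerSeries k) : LaurentSeries k)
        from rfl, PowerSeries.coeff_coe, PowerSeries.coeff_coe, if_pos h1, if_pos h0, map_zero]
    · obtain ⟨n, rfl⟩ := Int.eq_ofNat_of_zero_le h0
      rw [show (ℓ : ℤ) * (n : ℤ) = ((ℓ * n : ℕ) : ℤ) by push_cast; ring,
        HahnSeries.ofPowerSeries_apply_coeff, HahnSeries.ofPowerSeries_apply_coeff,
        kron_powerSeries_pow, if_pos (dvd_mul_right ℓ n),
        Nat.mul_div_cancel_left n (Nat.pos_of_ne_zero (NeZero.ne ℓ))]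
  · rw [qExpand_coeff_of_not_dvd ℓ _ hm]
    rcases lt_or_ge m 0 with h0 | h0
    · rw [show HahnSeries.ofPowerSeries ℤ k (G ^ ℓ) = ((G ^ ℓ : PowerSeries k) : LaurentSeries k)
        from rfl, PowerSeries.coeff_coe, if_pos h0]
    · obtain ⟨n, rfl⟩ := Int.eq_ofNat_of_zero_le h0
      rw [HahnSeries.ofPowerSeries_apply_coeff, kron_powerSeries_pow, if_neg]
      intro hdvd
      exact hm (by exact_mod_cast hdvd)

/-- In characteristic `ℓ`: `F(q)^ℓ = F^{(ℓ)}(q^ℓ)`. -/
theorem kron_frobenius_pow (F : LaurentSeries k) :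
    F ^ ℓ = qExpand k ℓ (coeffMap (frobenius k ℓ) F) := by
  conv_lhs => rw [← LaurentSeries.single_order_mul_powerSeriesPart F]
  conv_rhs => rw [← LaurentSeries.single_order_mul_powerSeriesPart F]
  rw [mul_pow, map_mul, map_mul, HahnSeries.single_pow, one_pow, coeffMap_single, qExpand_single,
    map_one (frobenius k ℓ), nsmul_eq_mul]
  congr 1
  exact kron_ofPowerSeries_pow ℓ _

/-- the norm for `ζ = 1` in characteristic `ℓ` is the Frobenius twist -/
theorem kronNorm_one_left (F : LaurentSeries k) :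
    kronNorm ℓ (1 : kˣ) F = coeffMap (frobenius k ℓ) F := by
  rw [kronNorm, kronRotProd_one_left, kron_frobenius_pow, kronCompress_qExpand]

end Frobenius

/-! ## 4. Integrality and congruences modulo the maximal ideal of a valuation subring -/

section Valuation

variable {L : Type*} [Field L] (A : ValuationSubring L)

/-- all coefficients lie in the valuation subring `A` -/
def KronInt (f : LaurentSeries L) : Prop := ∀ n : ℤ, f.coeff n ∈ A

/-- coefficientwise congruence modulo the maximal ideal of `A` -/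
def KronCongr (f g : LaurentSeries L) : Prop := ∀ n : ℤ, f.coeff n - g.coeff n ∈ A.nonunits

/-- integral with at least one unit coefficient (Gauss norm `1`) -/
def KronPrim (f : LaurentSeries L) : Prop := KronInt A f ∧ ∃ n : ℤ, f.coeff n ∉ A.nonunits

/-- series over `A` as series over `L` -/
abbrev kronIncl : LaurentSeries A →+* LaurentSeries L := coeffMap A.subtype

/-- reduction of series over `A` modulo the maximal ideal -/
abbrev kronRed : LaurentSeries A →+* LaurentSeries (IsLocalRing.ResidueField A) :=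
  coeffMap (IsLocalRing.residue A)

variable {A}

theorem kronIncl_injective : Function.Injective (kronIncl A) := by
  intro F G h
  ext n
  have := congrArg (fun g : LaurentSeries L => g.coeff n) h
  exact this

theorem kronInt_kronIncl (F : LaurentSeries A) : KronInt A (kronIncl A F) :=
  fun n => (F.coeff n).2

/-- an integral series comes from a series over `A` -/
theorem KronInt.exists_lift {f : LaurentSeries L} (hf : KronInt A f) :
    ∃ F : LaurentSeries A, kronIncl A F = f := by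
  refine ⟨⟨fun n => ⟨f.coeff n, hf n⟩, f.isPWO_support.mono ?_⟩, ?_⟩
  · intro n hn
    simp only [Function.mem_support, ne_eq] at hn
    simp only [HahnSeries.mem_support, ne_eq]
    intro h
    apply hn
    exact Subtype.ext h
  · ext n
    rfl

theorem kronInt_iff {f : LaurentSeries L} : KronInt A f ↔ ∃ F : LaurentSeries A, kronIncl A F = f :=
  ⟨fun h => h.exists_lift, fun ⟨F, hF⟩ => hF ▸ kronInt_kronIncl F⟩

theorem kronCongr_kronIncl_iff (F G : LaurentSeries A) :
    KronCongr A (kronIncl A F) (kronIncl A G) ↔ kronRed A F = kronRed A G := by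
  constructor
  · intro h
    ext n
    have h1 := h n
    have h2 : ((F.coeff n - G.coeff n : A) : L) ∈ A.nonunits := h1
    rw [ValuationSubring.coe_mem_nonunits_iff, ← IsLocalRing.residue_eq_zero_iff, map_sub,
      sub_eq_zero] at h2
    exact h2
  · intro h n
    have h1 := congrArg (fun g : LaurentSeries (IsLocalRing.ResidueField A) => g.coeff n) h
    simp only [coeffMap_coeff] at h1
    have h2 : ((F.coeff n - G.coeff n : A) : L) ∈ A.nonunits := by
      rw [ValuationSubring.coe_mem_nonunits_iff, ← IsLocalRing.residue_eq_zero_iff, map_sub,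
        sub_eq_zero]
      exact h1
    exact h2

theorem kronPrim_kronIncl_iff (F : LaurentSeries A) :
    KronPrim A (kronIncl A F) ↔ kronRed A F ≠ 0 := by
  constructor
  · rintro ⟨_, n, hn⟩ h
    apply hn
    have h1 := congrArg (fun g : LaurentSeries (IsLocalRing.ResidueField A) => g.coeff n) h
    simp only [coeffMap_coeff, HahnSeries.coeff_zero] at h1
    have h2 : ((F.coeff n : A) : L) ∈ A.nonunits := by
      rw [ValuationSubring.coe_mem_nonunits_iff, ← IsLocalRing.residue_eq_zero_iff]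
      exact h1
    exact h2
  · intro h
    refine ⟨kronInt_kronIncl F, ?_⟩
    by_contra hcon
    simp only [not_exists, not_not] at hcon
    apply h
    ext n
    have h2 : ((F.coeff n : A) : L) ∈ A.nonunits := hcon n
    rw [ValuationSubring.coe_mem_nonunits_iff, ← IsLocalRing.residue_eq_zero_iff] at h2
    simpa using h2

theorem KronCongr.refl (f : LaurentSeries L) : KronCongr A f f := fun n => by
  rw [sub_self]
  exact A.nonunits.zero_mem

theorem KronCongr.symm {f g : LaurentSeries L} (h : KronCongr A f g) : KronCongr A g f := fun n => by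
  have h1 := h n
  rw [ValuationSubring.mem_nonunits_iff] at h1 ⊢
  rwa [← neg_sub, Valuation.map_neg]

theorem KronCongr.trans {f g h : LaurentSeries L} (h1 : KronCongr A f g) (h2 : KronCongr A g h) :
    KronCongr A f h := fun n => by
  have h3 := h1 n
  have h4 := h2 n
  rw [ValuationSubring.mem_nonunits_iff] at h3 h4 ⊢
  have : f.coeff n - h.coeff n = (f.coeff n - g.coeff n) + (g.coeff n - h.coeff n) := by ring
  rw [this]
  exact Valuation.map_add_lt _ h3 h4

theorem KronCongr.of_eq {f g : LaurentSeries L} (h : f = g) : KronCongr A f g :=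
  h ▸ KronCongr.refl f

theorem KronInt.mul {f g : LaurentSeries L} (hf : KronInt A f) (hg : KronInt A g) :
    KronInt A (f * g) := by
  obtain ⟨F, rfl⟩ := hf.exists_lift
  obtain ⟨G, rfl⟩ := hg.exists_lift
  rw [← map_mul]
  exact kronInt_kronIncl _

theorem KronInt.one : KronInt A (1 : LaurentSeries L) := by
  rw [← map_one (kronIncl A)]
  exact kronInt_kronIncl _

theorem KronInt.pow {f : LaurentSeries L} (hf : KronInt A f) (n : ℕ) : KronInt A (f ^ n) := by
  obtain ⟨F, rfl⟩ := hf.exists_lift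
  rw [← map_pow]
  exact kronInt_kronIncl _

theorem KronInt.qExpand {f : LaurentSeries L} (hf : KronInt A f) (N : ℕ) [NeZero N] :
    KronInt A (qExpand L N f) := by
  obtain ⟨F, rfl⟩ := hf.exists_lift
  rw [← coeffMap_qExpand]
  exact kronInt_kronIncl _

/-- congruences of integral series can be multiplied -/
theorem KronCongr.mul {f f' g g' : LaurentSeries L} (hf : KronInt A f) (hf' : KronInt A f')
    (hg : KronInt A g) (hg' : KronInt A g') (h1 : KronCongr A f f') (h2 : KronCongr A g g') :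
    KronCongr A (f * g) (f' * g') := by
  obtain ⟨F, rfl⟩ := hf.exists_lift
  obtain ⟨F', rfl⟩ := hf'.exists_lift
  obtain ⟨G, rfl⟩ := hg.exists_lift
  obtain ⟨G', rfl⟩ := hg'.exists_lift
  rw [kronCongr_kronIncl_iff] at h1 h2
  rw [← map_mul, ← map_mul, kronCongr_kronIncl_iff, map_mul, map_mul, h1, h2]

/-- Gauss' lemma: products of primitive series are primitive -/
theorem KronPrim.mul {f g : LaurentSeries L} (hf : KronPrim A f) (hg : KronPrim A g) :
    KronPrim A (f * g) := by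
  obtain ⟨F, rfl⟩ := hf.1.exists_lift
  obtain ⟨G, rfl⟩ := hg.1.exists_lift
  rw [kronPrim_kronIncl_iff] at hf hg
  rw [← map_mul, kronPrim_kronIncl_iff, map_mul]
  exact mul_ne_zero hf hg

theorem KronPrim.pow {f : LaurentSeries L} (hf : KronPrim A f) (n : ℕ) : KronPrim A (f ^ n) := by
  obtain ⟨F, rfl⟩ := hf.1.exists_lift
  rw [kronPrim_kronIncl_iff] at hf
  rw [← map_pow, kronPrim_kronIncl_iff, map_pow]
  exact pow_ne_zero n hf

/-- a series congruent to a primitive series is primitive -/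
theorem KronPrim.of_congr {f g : LaurentSeries L} (hf : KronPrim A f) (hg : KronInt A g)
    (h : KronCongr A f g) : KronPrim A g := by
  obtain ⟨F, rfl⟩ := hf.1.exists_lift
  obtain ⟨G, rfl⟩ := hg.exists_lift
  rw [kronCongr_kronIncl_iff] at h
  rw [kronPrim_kronIncl_iff] at hf ⊢
  rwa [← h]

end Valuation

/-! ## 5. The decomposition group acting on series over `A`; Frobenius and inertia -/

section Galois

variable {K L : Type*} [Field K] [Field L] [Algebra K L] {A : ValuationSubring L}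

/-- an element of the decomposition group as a ring endomorphism of `A` -/
def kronDecompHom (σ : L ≃ₐ[K] L) (hσ : σ ∈ A.decompositionSubgroup K) : A →+* A :=
  MulSemiringAction.toRingHom (A.decompositionSubgroup K) A ⟨σ, hσ⟩

theorem kronDecompHom_coe (σ : L ≃ₐ[K] L) (hσ : σ ∈ A.decompositionSubgroup K) (a : A) :
    ((kronDecompHom σ hσ a : A) : L) = σ a := rfl

theorem kronIncl_coeffMap_kronDecompHom (σ : L ≃ₐ[K] L) (hσ : σ ∈ A.decompositionSubgroup K)
    (F : LaurentSeries A) :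
    kronIncl A (coeffMap (kronDecompHom σ hσ) F) = coeffMap (σ : L →+* L) (kronIncl A F) := by
  ext n
  rfl

theorem KronInt.coeffMap_of_mem_decomposition {f : LaurentSeries L} (hf : KronInt A f)
    (σ : L ≃ₐ[K] L) (hσ : σ ∈ A.decompositionSubgroup K) :
    KronInt A (coeffMap (σ : L →+* L) f) := by
  obtain ⟨F, rfl⟩ := hf.exists_lift
  rw [← kronIncl_coeffMap_kronDecompHom σ hσ]
  exact kronInt_kronIncl _

theorem kron_residue_frobenius {ℓ : ℕ} (τ : L ≃ₐ[K] L) (hτ : A.IsFrobeniusAt τ ℓ) (a : A) :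
    IsLocalRing.residue A (kronDecompHom τ hτ.mem_decompositionSubgroup a)
      = (IsLocalRing.residue A a) ^ ℓ := by
  have h1 := hτ.smul_residue_eq (IsLocalRing.residue A a)
  rw [← IsLocalRing.ResidueField.residue_smul] at h1
  exact h1

theorem kron_mem_decomposition_of_mem_inertia {σ : L ≃ₐ[K] L} (hσ : σ ∈ A.inertiaSubgroupIn K) :
    σ ∈ A.decompositionSubgroup K := by
  obtain ⟨τ, _, rfl⟩ := hσ
  exact τ.2

theorem kron_residue_inertia {σ : L ≃ₐ[K] L} (hσ : σ ∈ A.inertiaSubgroupIn K) (a : A) :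
    IsLocalRing.residue A (kronDecompHom σ (kron_mem_decomposition_of_mem_inertia hσ) a)
      = IsLocalRing.residue A a := by
  obtain ⟨τ, hτ, rfl⟩ := hσ
  have h1 : MulSemiringAction.toRingAut (A.decompositionSubgroup K) (IsLocalRing.ResidueField A) τ
      = 1 := hτ
  have h2 : τ • (IsLocalRing.residue A a) = IsLocalRing.residue A a := by
    have := congrArg (fun f : RingAut (IsLocalRing.ResidueField A) =>
      f (IsLocalRing.residue A a)) h1
    simpa using this
  rw [← IsLocalRing.ResidueField.residue_smul] at h2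
  exact h2

/-- the residue field of a valuation subring over `ℓ` has characteristic `ℓ` -/
theorem kron_charP_residueField {ℓ : ℕ} (hℓ : ℓ.Prime) (hA : A.LiesOverPrime ℓ) :
    CharP (IsLocalRing.ResidueField A) ℓ := by
  rw [CharP.charP_iff_prime_eq_zero hℓ]
  have h1 : (((ℓ : A) : A) : L) ∈ A.nonunits := by
    have : (((ℓ : A) : A) : L) = (ℓ : L) := by simp
    rw [this]
    exact hA
  rw [ValuationSubring.coe_mem_nonunits_iff, ← IsLocalRing.residue_eq_zero_iff, map_natCast] at h1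
  exact h1

/-- a root of unity of `L` is a unit of every valuation subring -/
theorem kron_exists_unit_lift (A : ValuationSubring L) {ℓ : ℕ} (hℓ : ℓ ≠ 0) (ζ : Lˣ)
    (hζ : ζ ^ ℓ = 1) : ∃ ζA : Aˣ, Units.map (A.subtype : A →* L) ζA = ζ := by
  have h1 : A.valuation (ζ : L) ^ ℓ = 1 := by
    rw [← map_pow, ← Units.val_pow_eq_pow_val, hζ, Units.val_one, map_one]
  have h2 : A.valuation (ζ : L) = 1 := (pow_eq_one_iff.1 h1).resolve_right hℓ
  have h3 : ζ ∈ A.unitGroup := (A.mem_unitGroup_iff ζ).2 h2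
  refine ⟨A.unitGroupMulEquiv ⟨ζ, h3⟩, ?_⟩
  apply Units.ext
  rfl

end Galois

/-! ## 6. Kronecker's congruence -/

section Main

variable {K L : Type*} [Field K] [Field L] [Algebra K L] {A : ValuationSubring L}
variable {ℓ : ℕ} [NeZero ℓ]

theorem kron_symm_mem_decomposition {τ : L ≃ₐ[K] L} (hτ : τ ∈ A.decompositionSubgroup K) :
    τ.symm ∈ A.decompositionSubgroup K :=
  (A.decompositionSubgroup K).inv_mem hτ

/-- `ρ(τF)(q^ℓ) = ρ(F)^ℓ` for a Frobenius element `τ` -/
theorem kron_qExpand_red_frob (hℓ : ℓ.Prime) (hA : A.LiesOverPrime ℓ) (τ : L ≃ₐ[K] L)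
    (hτ : A.IsFrobeniusAt τ ℓ) (F : LaurentSeries A) :
    qExpand (IsLocalRing.ResidueField A) ℓ
        (kronRed A (coeffMap (kronDecompHom τ hτ.mem_decompositionSubgroup) F))
      = (kronRed A F) ^ ℓ := by
  have : Fact ℓ.Prime := ⟨hℓ⟩
  have : CharP (IsLocalRing.ResidueField A) ℓ := kron_charP_residueField hℓ hA
  rw [kron_frobenius_pow ℓ]
  congr 1
  ext n
  simp only [coeffMap_coeff, kron_residue_frobenius τ hτ, frobenius_def]

/-- the reduction of a root of unity of order dividing `ℓ` is `1` -/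
theorem kron_unit_red_eq_one (hℓ : ℓ.Prime) (hA : A.LiesOverPrime ℓ) (ζA : Aˣ)
    (hζ : ζA ^ ℓ = 1) : Units.map (IsLocalRing.residue A : A →* IsLocalRing.ResidueField A) ζA = 1 := by
  have : Fact ℓ.Prime := ⟨hℓ⟩
  have : CharP (IsLocalRing.ResidueField A) ℓ := kron_charP_residueField hℓ hA
  apply Units.ext
  rw [Units.val_one, Units.coe_map]
  have h1 : (IsLocalRing.residue A (ζA : A)) ^ ℓ = 1 := by
    rw [← map_pow, ← Units.val_pow_eq_pow_val, hζ, Units.val_one, map_one]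
  have h2 : (IsLocalRing.residue A (ζA : A) - 1) ^ ℓ = 0 := by
    rw [sub_pow_char, h1, one_pow, sub_self]
  exact sub_eq_zero.1 (pow_eq_zero_iff (NeZero.ne ℓ) |>.1 h2)

theorem kronRed_kronNorm (hℓ : ℓ.Prime) (hA : A.LiesOverPrime ℓ) (ζA : Aˣ) (hζ : ζA ^ ℓ = 1)
    (F : LaurentSeries A) :
    kronRed A (kronNorm ℓ ζA F) = kronCompress ℓ ((kronRed A F) ^ ℓ) := by
  rw [kronRed, coeffMap_kronNorm, kron_unit_red_eq_one hℓ hA ζA hζ, kronNorm,
    kronRotProd_one_left]

/-- **K2 over `A`.** -/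
theorem kronRed_kronNorm_eq (hℓ : ℓ.Prime) (hA : A.LiesOverPrime ℓ) (ζA : Aˣ) (hζ : ζA ^ ℓ = 1)
    (τ : L ≃ₐ[K] L) (hτ : A.IsFrobeniusAt τ ℓ) (F : LaurentSeries A) :
    kronRed A (kronNorm ℓ ζA F)
      = kronRed A (coeffMap (kronDecompHom τ hτ.mem_decompositionSubgroup) F) := by
  rw [kronRed_kronNorm hℓ hA ζA hζ, ← kron_qExpand_red_frob hℓ hA τ hτ, kronCompress_qExpand]

/-- **K3 over `A`.** -/
theorem kronRed_qExpand_eq (hℓ : ℓ.Prime) (hA : A.LiesOverPrime ℓ)
    (τ : L ≃ₐ[K] L) (hτ : A.IsFrobeniusAt τ ℓ) (F : LaurentSeries A) :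
    kronRed A (qExpand A ℓ F)
      = (kronRed A (coeffMap (kronDecompHom τ.symm
          (kron_symm_mem_decomposition hτ.mem_decompositionSubgroup)) F)) ^ ℓ := by
  rw [← kron_qExpand_red_frob hℓ hA τ hτ, kronRed, coeffMap_qExpand]
  congr 2
  ext n
  simp only [coeffMap_coeff, kronDecompHom_coe, AlgEquiv.apply_symm_apply]

/-- **K2 (Kronecker, first factor).** For a Frobenius element `τ` at `A` over `ℓ`:
`∏_{b<ℓ} f(ζ^b q^{1/ℓ}) ≡ (τ f)(q)` modulo the maximal ideal of `A`. -/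
theorem kronNorm_congr (hℓ : ℓ.Prime) (hA : A.LiesOverPrime ℓ) (ζ : Lˣ) (hζ : ζ ^ ℓ = 1)
    (τ : L ≃ₐ[K] L) (hτ : A.IsFrobeniusAt τ ℓ) {f : LaurentSeries L} (hf : KronInt A f) :
    KronCongr A (kronNorm ℓ ζ f) (coeffMap (τ : L →+* L) f) := by
  obtain ⟨F, rfl⟩ := hf.exists_lift
  obtain ⟨ζA, rfl⟩ := kron_exists_unit_lift A (NeZero.ne ℓ) ζ hζ
  have hζA : ζA ^ ℓ = 1 := by
    apply Units.map_injective (f := (A.subtype : A →* L)) Subtype.val_injective
    rw [map_pow, hζ, map_one]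
  rw [← kronIncl_coeffMap_kronDecompHom τ hτ.mem_decompositionSubgroup]
  have h1 : kronNorm ℓ (Units.map (A.subtype : A →* L) ζA) (kronIncl A F)
      = kronIncl A (kronNorm ℓ ζA F) := (coeffMap_kronNorm A.subtype ℓ ζA F).symm
  rw [h1, kronCongr_kronIncl_iff]
  exact kronRed_kronNorm_eq hℓ hA ζA hζA τ hτ F

theorem KronInt.kronNorm (ζ : Lˣ) (hζ : ζ ^ ℓ = 1) {f : LaurentSeries L} (hf : KronInt A f) :
    KronInt A (kronNorm ℓ ζ f) := by
  obtain ⟨F, rfl⟩ := hf.exists_lift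
  obtain ⟨ζA, rfl⟩ := kron_exists_unit_lift A (NeZero.ne ℓ) ζ hζ
  have h1 : Fermat.Agent.ES.kronNorm ℓ (Units.map (A.subtype : A →* L) ζA) (kronIncl A F)
      = kronIncl A (Fermat.Agent.ES.kronNorm ℓ ζA F) := (coeffMap_kronNorm A.subtype ℓ ζA F).symm
  rw [h1]
  exact kronInt_kronIncl _

/-- **K3 (Kronecker, second factor).** `f(q^ℓ) ≡ ((τ⁻¹ f)(q))^ℓ` modulo the maximal ideal. -/
theorem kron_qExpand_congr (hℓ : ℓ.Prime) (hA : A.LiesOverPrime ℓ)
    (τ : L ≃ₐ[K] L) (hτ : A.IsFrobeniusAt τ ℓ) {f : LaurentSeries L} (hf : KronInt A f) :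
    KronCongr A (qExpand L ℓ f) ((coeffMap ((τ.symm : L ≃ₐ[K] L) : L →+* L) f) ^ ℓ) := by
  obtain ⟨F, rfl⟩ := hf.exists_lift
  rw [← kronIncl_coeffMap_kronDecompHom τ.symm
    (kron_symm_mem_decomposition hτ.mem_decompositionSubgroup), ← map_pow]
  have h1 : qExpand L ℓ (kronIncl A F) = kronIncl A (qExpand A ℓ F) :=
    (coeffMap_qExpand A.subtype ℓ F).symm
  rw [h1, kronCongr_kronIncl_iff, map_pow]
  exact kronRed_qExpand_eq hℓ hA τ hτ F

/-- The multiplicative Hecke operator on `q`-expansions: `f(q^ℓ) · ∏_{b<ℓ} f(ζ^b q^{1/ℓ})`. -/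
def kronHecke (ℓ : ℕ) [NeZero ℓ] (ζ : Lˣ) (f : LaurentSeries L) : LaurentSeries L :=
  qExpand L ℓ f * kronNorm ℓ ζ f

theorem KronInt.kronHecke (ζ : Lˣ) (hζ : ζ ^ ℓ = 1) {f : LaurentSeries L} (hf : KronInt A f) :
    KronInt A (kronHecke ℓ ζ f) :=
  (hf.qExpand ℓ).mul (hf.kronNorm ζ hζ)

/-- **K4 (Kronecker's congruence `T_ℓ ≡ Ver + Frob`).**
`f(q^ℓ) · ∏_{b<ℓ} f(ζ^b q^{1/ℓ}) ≡ (τ⁻¹ f)^ℓ · τ f` modulo the maximal ideal of `A`. -/
theorem kronHecke_congr (hℓ : ℓ.Prime) (hA : A.LiesOverPrime ℓ) (ζ : Lˣ) (hζ : ζ ^ ℓ = 1)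
    (τ : L ≃ₐ[K] L) (hτ : A.IsFrobeniusAt τ ℓ) {f : LaurentSeries L} (hf : KronInt A f) :
    KronCongr A (kronHecke ℓ ζ f)
      ((coeffMap ((τ.symm : L ≃ₐ[K] L) : L →+* L) f) ^ ℓ * coeffMap (τ : L →+* L) f) :=
  KronCongr.mul (hf.qExpand ℓ)
    ((hf.coeffMap_of_mem_decomposition τ.symm
      (kron_symm_mem_decomposition hτ.mem_decompositionSubgroup)).pow ℓ)
    (hf.kronNorm ζ hζ) (hf.coeffMap_of_mem_decomposition τ hτ.mem_decompositionSubgroup)
    (kron_qExpand_congr hℓ hA τ hτ hf) (kronNorm_congr hℓ hA ζ hζ τ hτ hf)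

/-- **K5 (inertia).** Inertia acts trivially modulo the maximal ideal. -/
theorem kron_inertia_congr {σ : L ≃ₐ[K] L} (hσ : σ ∈ A.inertiaSubgroupIn K)
    {f : LaurentSeries L} (hf : KronInt A f) :
    KronCongr A (coeffMap (σ : L →+* L) f) f := by
  obtain ⟨F, rfl⟩ := hf.exists_lift
  rw [← kronIncl_coeffMap_kronDecompHom σ (kron_mem_decomposition_of_mem_inertia hσ),
    kronCongr_kronIncl_iff]
  ext n
  simp only [coeffMap_coeff, kron_residue_inertia hσ]

theorem kron_coeffMap_symm_coeffMap (τ : L ≃ₐ[K] L) (f : LaurentSeries L) :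
    coeffMap ((τ.symm : L ≃ₐ[K] L) : L →+* L) (coeffMap (τ : L →+* L) f) = f := by
  ext n
  simp only [coeffMap_coeff]
  exact τ.symm_apply_apply _

/-- **K6 (Eichler–Shimura on `q`-expansions, multiplicative form).**
`T_ℓ(τ f) ≡ f^ℓ · τ² f` modulo the maximal ideal of `A`, for every Frobenius element `τ` at `A`. -/
theorem kronHecke_frob_congr (hℓ : ℓ.Prime) (hA : A.LiesOverPrime ℓ) (ζ : Lˣ) (hζ : ζ ^ ℓ = 1)
    (τ : L ≃ₐ[K] L) (hτ : A.IsFrobeniusAt τ ℓ) {f : LaurentSeries L} (hf : KronInt A f) :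
    KronCongr A (kronHecke ℓ ζ (coeffMap (τ : L →+* L) f))
      (f ^ ℓ * coeffMap (τ : L →+* L) (coeffMap (τ : L →+* L) f)) := by
  have h := kronHecke_congr hℓ hA ζ hζ τ hτ
    (hf.coeffMap_of_mem_decomposition τ hτ.mem_decompositionSubgroup)
  rwa [kron_coeffMap_symm_coeffMap] at h

theorem KronPrim.coeffMap_of_mem_decomposition {f : LaurentSeries L} (hf : KronPrim A f)
    (σ : L ≃ₐ[K] L) (hσ : σ ∈ A.decompositionSubgroup K) :
    KronPrim A (coeffMap (σ : L →+* L) f) := by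
  refine ⟨hf.1.coeffMap_of_mem_decomposition σ hσ, ?_⟩
  obtain ⟨n, hn⟩ := hf.2
  refine ⟨n, fun h => hn ?_⟩
  have h1 := hf.1 n
  have h2 : ((kronDecompHom σ hσ ⟨f.coeff n, h1⟩ : A) : L) ∈ A.nonunits := h
  rw [ValuationSubring.coe_mem_nonunits_iff] at h2
  have h3 : (⟨f.coeff n, h1⟩ : A) ∈ IsLocalRing.maximalIdeal A := by
    by_contra hu
    have hu' : IsUnit (⟨f.coeff n, h1⟩ : A) := by
      by_contra hnu
      exact hu ((IsLocalRing.mem_maximalIdeal _).2 hnu)
    exact (IsLocalRing.mem_maximalIdeal _).1 h2 (hu'.map (kronDecompHom σ hσ))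
  exact ValuationSubring.coe_mem_nonunits_iff.2 h3

omit [NeZero ℓ] in
/-- the right-hand side of K6 is primitive when `f` is: so K6 says `T_ℓ(τ f)/(f^ℓ·τ²f) ≡ 1`. -/
theorem kronPrim_frob_rhs (τ : L ≃ₐ[K] L) (hτ : A.IsFrobeniusAt τ ℓ) {f : LaurentSeries L}
    (hf : KronPrim A f) :
    KronPrim A (f ^ ℓ * coeffMap (τ : L →+* L) (coeffMap (τ : L →+* L) f)) :=
  (hf.pow ℓ).mul ((hf.coeffMap_of_mem_decomposition τ hτ.mem_decompositionSubgroup
    ).coeffMap_of_mem_decomposition τ hτ.mem_decompositionSubgroup)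

theorem kronPrim_kronHecke_frob (hℓ : ℓ.Prime) (hA : A.LiesOverPrime ℓ) (ζ : Lˣ) (hζ : ζ ^ ℓ = 1)
    (τ : L ≃ₐ[K] L) (hτ : A.IsFrobeniusAt τ ℓ) {f : LaurentSeries L} (hf : KronPrim A f) :
    KronPrim A (kronHecke ℓ ζ (coeffMap (τ : L →+* L) f)) :=
  (kronPrim_frob_rhs τ hτ hf).of_congr
    ((hf.1.coeffMap_of_mem_decomposition τ hτ.mem_decompositionSubgroup).kronHecke ζ hζ)
    (kronHecke_frob_congr hℓ hA ζ hζ τ hτ hf.1).symm

/-! ### K1: algebraic properties of the norm and of the multiplicative Hecke operator -/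

theorem kronHecke_one (ζ : Lˣ) : kronHecke ℓ ζ (1 : LaurentSeries L) = 1 := by
  rw [kronHecke, map_one, kronNorm_one, mul_one]

theorem kronHecke_mul (ζ : Lˣ) (hζ : IsPrimitiveRoot ζ ℓ) (f g : LaurentSeries L) :
    kronHecke ℓ ζ (f * g) = kronHecke ℓ ζ f * kronHecke ℓ ζ g := by
  rw [kronHecke, kronHecke, kronHecke, map_mul, kronNorm_mul ℓ ζ hζ]
  ring

theorem kronHecke_eq_of_isPrimitiveRoot (ζ ζ' : Lˣ) (hζ : IsPrimitiveRoot ζ ℓ)
    (hζ' : IsPrimitiveRoot ζ' ℓ) (f : LaurentSeries L) : kronHecke ℓ ζ' f = kronHecke ℓ ζ f := by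
  rw [kronHecke, kronHecke, kronNorm_eq_of_isPrimitiveRoot ℓ ζ ζ' hζ hζ']

/-- the norm commutes with the Galois action on the coefficients -/
theorem coeffMap_kronNorm_algEquiv (ζ : Lˣ) (hζ : IsPrimitiveRoot ζ ℓ) (σ : L ≃ₐ[K] L)
    (f : LaurentSeries L) :
    coeffMap (σ : L →+* L) (kronNorm ℓ ζ f) = kronNorm ℓ ζ (coeffMap (σ : L →+* L) f) := by
  rw [coeffMap_kronNorm]
  refine kronNorm_eq_of_isPrimitiveRoot ℓ ζ _ hζ ?_ _
  exact hζ.map_of_injective (Units.map_injective (f := ((σ : L →+* L) : L →* L)) σ.injective)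

/-- the multiplicative Hecke operator commutes with the Galois action on the coefficients -/
theorem coeffMap_kronHecke_algEquiv (ζ : Lˣ) (hζ : IsPrimitiveRoot ζ ℓ) (σ : L ≃ₐ[K] L)
    (f : LaurentSeries L) :
    coeffMap (σ : L →+* L) (kronHecke ℓ ζ f) = kronHecke ℓ ζ (coeffMap (σ : L →+* L) f) := by
  rw [kronHecke, kronHecke, map_mul, coeffMap_kronNorm_algEquiv ζ hζ, coeffMap_qExpand]

/-- the defining property of the norm: `(N f)(q^ℓ) = ∏_{b<ℓ} f(ζ^b q)` -/
theorem qExpand_kronNorm_field (ζ : Lˣ) (hζ : IsPrimitiveRoot ζ ℓ) (f : LaurentSeries L) :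
    qExpand L ℓ (kronNorm ℓ ζ f) = ∏ b ∈ Finset.range ℓ, kronRot (ζ ^ b) f :=
  qExpand_kronNorm ℓ ζ hζ f

end Main

end Fermat.Agent.ES

end
end ZBES_002_0

/-! ### bundled: `Fermat.Agent.ES.RC.ShiftLaurent` -/
section ZBES_002_1

/-!
# ESpkg-G1, analytic seam of HKb, part 1: translation by a rational number

For `f` holomorphic on `ℍ`, `1`-periodic and meromorphic at `i∞` (`IsMerInf f`) and a rational
number `B / D`, the translate `τ ↦ f (τ + B / D)` is again in `merInf` and its Laurent expansion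
is the rotation `kronRot ξ (laurentOf f)`, `ξ = exp (2πi B / D)`:

* `rc_isMerInf_shift`, `rc_laurentOf_shift`.
-/

set_option autoImplicit false

noncomputable section

namespace Fermat.Agent.ES.RC

open UpperHalfPlane ModularForm Filter Asymptotics Complex
open Fermat.Agent.S23 Fermat.Agent.S28 Fermat.Agent.ES
open scoped Manifold Topology Real

local notation "Δ" => ModularForm.discriminant
local notation "𝕢" => Function.Periodic.qParam

/-! ### Composition with `τ ↦ (A τ + B) / D` -/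

theorem rc_mapsTo_beta (A B D : ℤ) (hA : 0 < A) (hD : 0 < D) :
    Set.MapsTo (fun w : ℂ => ((A : ℂ) * w + (B : ℂ)) / (D : ℂ)) {z | 0 < z.im} {z | 0 < z.im} := by
  intro w hw
  exact (P8_betaPt A B D hA hD ⟨w, hw⟩).im_pos

/-- `τ ↦ f ((A τ + B) / D)` is holomorphic if `f` is. -/
theorem rc_mdiff_comp_beta (A B D : ℤ) (hA : 0 < A) (hD : 0 < D) {f : ℍ → ℂ} (hf : MDiff f) :
    MDiff (fun z => f (P8_betaPt A B D hA hD z)) := by
  rw [UpperHalfPlane.mdifferentiable_iff] at hf ⊢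
  have hmaps := rc_mapsTo_beta A B D hA hD
  have hcomp : DifferentiableOn ℂ
      ((f ∘ ofComplex) ∘ (fun w : ℂ => ((A : ℂ) * w + (B : ℂ)) / (D : ℂ))) {z | 0 < z.im} :=
    hf.comp (by fun_prop) hmaps
  refine hcomp.congr ?_
  intro w hw
  have hw' : 0 < (((A : ℂ) * w + (B : ℂ)) / (D : ℂ)).im := hmaps hw
  simp only [Function.comp_apply]
  rw [ofComplex_apply_of_im_pos hw, ofComplex_apply_of_im_pos hw']
  rfl

theorem rc_isBounded_comp_beta (A B D : ℤ) (hA : 0 < A) (hD : 0 < D) {f : ℍ → ℂ}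
    (hf : IsBoundedAtImInfty f) : IsBoundedAtImInfty (fun z => f (P8_betaPt A B D hA hD z)) :=
  hf.comp_tendsto (P8_tendsto_betaPt A B D hA hD)

/-! ### Integer translations -/

/-- A `1`-periodic function is invariant under integer translations. -/
theorem rc_periodic_int {f : ℍ → ℂ} (hf : Function.Periodic (f ∘ ofComplex) 1) (z w : ℍ) (k : ℤ)
    (h : (w : ℂ) = (z : ℂ) + k) : f w = f z := by
  have h1 := (hf.int_mul k) (z : ℂ)
  simp only [Function.comp_apply, mul_one] at h1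
  rw [← h, ofComplex_apply, ofComplex_apply] at h1
  exact h1

/-! ### The shift `τ ↦ τ + B / D` -/

/-- The point `τ + B / D`. -/
def rcShift (B D : ℤ) (hD : 0 < D) (z : ℍ) : ℍ := P8_betaPt D B D hD hD z

theorem rc_coe_shift (B D : ℤ) (hD : 0 < D) (z : ℍ) :
    ((rcShift B D hD z : ℍ) : ℂ) = (z : ℂ) + (B : ℂ) / (D : ℂ) := by
  have hD' : (D : ℂ) ≠ 0 := by exact_mod_cast hD.ne'
  rw [rcShift, P8_coe_betaPt]
  field_simp

/-- The root of unity `exp (2πi B / D)`, as a unit of `ℂ`. -/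
def rcRoot (B D : ℤ) : ℂˣ :=
  Units.mk0 (Complex.exp (2 * π * Complex.I * ((B : ℂ) / (D : ℂ)))) (Complex.exp_ne_zero _)

theorem rc_coe_root (B D : ℤ) :
    ((rcRoot B D : ℂˣ) : ℂ) = Complex.exp (2 * π * Complex.I * ((B : ℂ) / (D : ℂ))) := rfl

theorem rc_qParam_shift (B D : ℤ) (hD : 0 < D) (z : ℍ) :
    𝕢 1 (rcShift B D hD z) = (rcRoot B D : ℂ) * 𝕢 1 z := by
  rw [rc_coe_root, Function.Periodic.qParam, Function.Periodic.qParam, rc_coe_shift,
    ← Complex.exp_add]
  congr 1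
  push_cast
  ring

theorem rc_periodic_shift (B D : ℤ) (hD : 0 < D) {f : ℍ → ℂ}
    (hf : Function.Periodic (f ∘ ofComplex) 1) :
    Function.Periodic ((fun z => f (rcShift B D hD z)) ∘ ofComplex) 1 := by
  intro w
  simp only [Function.comp_apply]
  by_cases hw : 0 < w.im
  · have hw1 : 0 < (w + 1).im := by simpa using hw
    rw [ofComplex_apply_of_im_pos hw, ofComplex_apply_of_im_pos hw1]
    refine rc_periodic_int hf _ _ 1 ?_
    rw [rc_coe_shift, rc_coe_shift]
    push_cast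
    show w + 1 + (B : ℂ) / (D : ℂ) = w + (B : ℂ) / (D : ℂ) + 1
    ring
  · have hw1 : ¬ 0 < (w + 1).im := by simpa using hw
    rw [ofComplex_apply_of_im_nonpos (not_lt.mp hw), ofComplex_apply_of_im_nonpos (not_lt.mp hw1)]

/-- `τ ↦ g (τ + B / D)` is in `HPB` if `g` is. -/
theorem rc_isHPB_shift (B D : ℤ) (hD : 0 < D) {g : ℍ → ℂ} (hg : IsHPB g) :
    IsHPB (fun z => g (rcShift B D hD z)) :=
  ⟨rc_mdiff_comp_beta D B D hD hD hg.1, rc_periodic_shift B D hD hg.2.1,
    rc_isBounded_comp_beta D B D hD hD hg.2.2⟩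

/-- The `q`-expansion of `τ ↦ g (τ + B / D)` is the rotated `q`-expansion of `g`. -/
theorem rc_qExpansion_shift_coeff (B D : ℤ) (hD : 0 < D) {g : ℍ → ℂ} (hg : IsHPB g) (n : ℕ) :
    (qExpansion 1 (fun z => g (rcShift B D hD z))).coeff n =
      (rcRoot B D : ℂ) ^ n * (qExpansion 1 g).coeff n := by
  have hs := rc_isHPB_shift B D hD hg
  have hcont : Continuous (fun z => g (rcShift B D hD z)) := hs.1.continuous
  refine (UpperHalfPlane.qExpansion_coeff_unique
    (c := fun n => (rcRoot B D : ℂ) ^ n * (qExpansion 1 g).coeff n)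
    (ContinuousMap.mk (fun z => g (rcShift B D hD z)) hcont)
    one_pos hs.analyticAt ?_ n).symm
  intro τ
  have h1 := UpperHalfPlane.hasSum_qExpansion (h := 1) one_pos hg.2.1 hg.1 hg.2.2
    (rcShift B D hD τ)
  rw [rc_qParam_shift] at h1
  change HasSum (fun m ↦ ((rcRoot B D : ℂ) ^ m * (qExpansion 1 g).coeff m) •
    𝕢 1 τ ^ m) (g (rcShift B D hD τ))
  convert h1 using 2 with m
  simp only [smul_eq_mul, mul_pow]
  ring

/-- Laurent form, for `g` in `HPB`. -/
theorem rc_laurentOf_shift_of_isHPB (B D : ℤ) (hD : 0 < D) {g : ℍ → ℂ} (hg : IsHPB g) :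
    laurentOf (fun z => g (rcShift B D hD z)) = kronRot (rcRoot B D) (laurentOf g) := by
  rw [laurentOf_of_isHPB (rc_isHPB_shift B D hD hg), laurentOf_of_isHPB hg]
  ext k
  rw [kronRot_coeff]
  rcases lt_or_ge k 0 with hk | hk
  · rw [ModularCurve.ofPowerSeries_coeff_of_neg _ hk,
      ModularCurve.ofPowerSeries_coeff_of_neg _ hk, mul_zero]
  · obtain ⟨n, rfl⟩ := Int.eq_ofNat_of_zero_le hk
    rw [HahnSeries.ofPowerSeries_apply_coeff, HahnSeries.ofPowerSeries_apply_coeff,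
      rc_qExpansion_shift_coeff B D hD hg]
    simp [zpow_natCast]

/-! ### Two-sided control of `Δ` at `i∞` -/

theorem rc_discriminant_isBigO_exp :
    (Δ : ℍ → ℂ) =O[atImInfty] fun τ : ℍ => Real.exp (-2 * π * τ.im) :=
  P8_discriminant_isBigO_exp

theorem rc_inv_discriminant_comp_beta_isBigO (A B D : ℤ) (hA : 0 < A) (hD : 0 < D) :
    (fun z : ℍ => (Δ (P8_betaPt A B D hA hD z))⁻¹) =O[atImInfty]
      (fun z : ℍ => (Real.exp (-2 * π * ((A : ℝ) / (D : ℝ) * z.im)))⁻¹) := by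
  have h2 : (fun z : ℍ => Real.exp (-2 * π * (P8_betaPt A B D hA hD z).im)) =O[atImInfty]
      (fun z : ℍ => Δ (P8_betaPt A B D hA hD z)) :=
    exp_isBigO_discriminant.comp_tendsto (P8_tendsto_betaPt A B D hA hD)
  have h3 := h2.inv_rev (Eventually.of_forall fun z h => absurd h (Real.exp_pos _).ne')
  refine h3.congr' (Eventually.of_forall fun z => rfl) (Eventually.of_forall fun z => ?_)
  simp only
  rw [P8_im_betaPt]

/-- `Δ(τ) / Δ(τ + B / D)` is bounded at `i∞`. -/
theorem rc_isBounded_disc_div_shift (B D : ℤ) (hD : 0 < D) :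
    IsBoundedAtImInfty (fun z : ℍ => Δ z * (Δ (rcShift B D hD z))⁻¹) := by
  have h1 := rc_discriminant_isBigO_exp
  have h2 := rc_inv_discriminant_comp_beta_isBigO D B D hD hD
  have h3 := h1.mul h2
  refine h3.congr' (Eventually.of_forall fun z => rfl) (Eventually.of_forall fun z => ?_)
  have hD' : (D : ℝ) ≠ 0 := by exact_mod_cast hD.ne'
  simp only [Pi.one_apply]
  rw [div_self hD', one_mul]
  exact mul_inv_cancel₀ (Real.exp_pos _).ne'

/-! ### The shift on `merInf` -/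

theorem rc_shift_mul_eq {f : ℍ → ℂ} (m : ℕ) (B D : ℤ) (hD : 0 < D) (z : ℍ) :
    f (rcShift B D hD z) * Δ z ^ m =
      (f (rcShift B D hD z) * Δ (rcShift B D hD z) ^ m) *
        (Δ z * (Δ (rcShift B D hD z))⁻¹) ^ m := by
  have h := discriminant_ne_zero (rcShift B D hD z)
  rw [mul_pow, inv_pow]
  field_simp

/-- `τ ↦ f (τ + B / D)` is in `merInf` if `f` is. -/
theorem rc_isMerInf_shift (B D : ℤ) (hD : 0 < D) {f : ℍ → ℂ} (hf : IsMerInf f) :
    IsMerInf (fun z => f (rcShift B D hD z)) := by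
  obtain ⟨m, hm⟩ := hf
  refine ⟨m, ?_, ?_, ?_⟩
  · exact (rc_mdiff_comp_beta D B D hD hD (IsMerInf.mdiff ⟨m, hm⟩)).mul
      (mdiff_discriminant_pow m)
  · have h1 := rc_periodic_shift B D hD (f := fun z => f z * Δ z ^ m) hm.2.1
    have h2 : Function.Periodic ((fun z : ℍ => Δ z) ∘ ofComplex) 1 :=
      bridge_isHPB_discriminant.2.1
    have h3 := rc_periodic_shift B D hD h2
    intro w
    have e1 := h1 w
    have e2 := h2 w
    have e3 := h3 w
    simp only [Function.comp_apply] at e1 e2 e3 ⊢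
    rw [e2]
    have hΔ := discriminant_ne_zero (rcShift B D hD (ofComplex w))
    have hΔ' := discriminant_ne_zero (rcShift B D hD (ofComplex (w + 1)))
    rw [e3] at e1 hΔ'
    have : f (rcShift B D hD (ofComplex (w + 1))) = f (rcShift B D hD (ofComplex w)) :=
      mul_right_cancel₀ (pow_ne_zero m hΔ) e1
    rw [this]
  · have h1 := rc_isBounded_comp_beta D B D hD hD hm.2.2
    have h2 := rc_isBounded_pow (rc_isBounded_disc_div_shift B D hD) m
    have h3 := h1.mul h2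
    refine h3.congr' (Eventually.of_forall fun z => ?_) (Eventually.of_forall fun z => rfl)
    exact (rc_shift_mul_eq m B D hD z).symm

theorem rc_kronRot_injective (c : ℂˣ) : Function.Injective (kronRot c : LaurentSeries ℂ →+* _) :=
  (kronRot c).injective

/-- **Rotation**: the Laurent expansion of `τ ↦ f (τ + B / D)` is `kronRot ξ (laurentOf f)`,
`ξ = exp (2πi B / D)`. -/
theorem rc_laurentOf_shift (B D : ℤ) (hD : 0 < D) {f : ℍ → ℂ} (hf : IsMerInf f) :
    laurentOf (fun z => f (rcShift B D hD z)) = kronRot (rcRoot B D) (laurentOf f) := by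
  obtain ⟨m, hm⟩ := hf
  have hf : IsMerInf f := ⟨m, hm⟩
  have hfs := rc_isMerInf_shift B D hD hf
  have hΔs : IsHPB (fun z => Δ (rcShift B D hD z)) :=
    rc_isHPB_shift B D hD bridge_isHPB_discriminant
  have hΔsm : IsMerInf (fun z => Δ (rcShift B D hD z) ^ m) :=
    rc_isMerInf_pow (IsHPB.isMerInf hΔs) m
  -- the product `f Δ^m`, shifted
  have e1 := rc_laurentOf_shift_of_isHPB B D hD hm
  have e2 : laurentOf (fun z => f (rcShift B D hD z) * Δ (rcShift B D hD z) ^ m) =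
      laurentOf (fun z => f (rcShift B D hD z)) *
        laurentOf (fun z => Δ (rcShift B D hD z)) ^ m := by
    have := laurentOf_mul hfs hΔsm
    rw [show (fun z => Δ (rcShift B D hD z) ^ m) = (fun z => Δ (rcShift B D hD z)) ^ m from rfl,
      laurentOf_pow (IsHPB.isMerInf hΔs)] at this
    exact this
  have e3 : laurentOf (fun z => Δ (rcShift B D hD z)) = kronRot (rcRoot B D) deltaL := by
    rw [rc_laurentOf_shift_of_isHPB B D hD bridge_isHPB_discriminant, laurentOf_discriminant]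
  have e4 : laurentOf (fun z => f z * Δ z ^ m) = laurentOf f * deltaL ^ m :=
    laurentOf_mul_deltaL_pow hm ▸ (laurentOf_of_isHPB hm)
  have hne : kronRot (rcRoot B D) deltaL ^ m ≠ 0 :=
    pow_ne_zero m (fun h => deltaL_ne_zero (rc_kronRot_injective _ (by rw [h, map_zero])))
  apply mul_right_cancel₀ hne
  rw [← e3, ← e2, e1, e4, map_mul, map_pow, e3]

end Fermat.Agent.ES.RC

end
end ZBES_002_1

/-! ### bundled: `Fermat.Agent.S33.NormAlg` -/
section ZBES_002_2

/-!
# S33 v2, piece C3-alg: the norm estimate `N(x + c y) ≡ N(x) + c^p N(y) mod c p`  (helper61)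

`R` a commutative domain, `p` a prime, `ζ ∈ Rˣ` a primitive `p`-th root of unity and
`N = kronRotProd p ζ : f ↦ ∏_{b<p} f(ζ^b q)` (the norm of `R((q)) / R((q^p))`).

* `nda_sum_mem_trace` : a sum over a finite set with a fixed-point-free action of `ℤ/p`
  (`f (τ x) = T (f x)`) is a trace `∑_{k<p} T^k g`;
* `nda_trace_eq` : `∑_{k<p} g(ζ^k q) = p · (the part of g with exponents divisible by p)`;
* `nda_rotProd_add` : `N(x + c y) = N(x) + c^p N(y) + c p w` for some `w`;
* `nda_kronRotProd_congr`, `nda_kronNorm_congr` : the same for Laurent series over a field `L`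
  with coefficients in a valuation subring `A` (`KronInt`): if `y₁ ≡ y₂ mod c A` then
  `N y₁ ≡ N y₂ mod (c p, c^p) A`.
-/

set_option autoImplicit false

noncomputable section

namespace Fermat.Agent.S33

open Fermat.Agent.ES ModularCurve HahnSeries

/-! ## 1. Sums over a set with a free action of `ℤ/p` -/

/-- the orbit of a point under a permutation of order `p` without fixed point has `p`
elements -/
theorem nda_orbit_injOn {α : Type*} (p : ℕ) (hp : p.Prime) (τ : Equiv.Perm α) (hτ : τ ^ p = 1)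
    (x : α) (hx : τ x ≠ x) :
    Set.InjOn (fun k : ℕ => (τ ^ k) x) (Finset.range p : Set ℕ) := by
  have key : ∀ a b : ℕ, a < b → b < p → (τ ^ a) x = (τ ^ b) x → False := by
    intro a b hab hb h
    have hd : (τ ^ (b - a)) x = x := by
      have h1 : (τ ^ b) x = (τ ^ a) ((τ ^ (b - a)) x) := by
        rw [← Equiv.Perm.mul_apply, ← _root_.pow_add, Nat.add_sub_cancel' hab.le]
      rw [h1] at h
      exact ((τ ^ a).injective h).symm
    have hcop : Nat.Coprime (b - a) p := by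
      rw [Nat.coprime_comm, Nat.Prime.coprime_iff_not_dvd hp]
      intro hdvd
      have := Nat.le_of_dvd (by omega) hdvd
      omega
    obtain ⟨u, -, hu⟩ := Nat.exists_mul_mod_eq_one_of_coprime hcop hp.one_lt
    have h2 : ∀ n : ℕ, ((τ ^ (b - a)) ^ n) x = x := by
      intro n
      induction n with
      | zero => simp
      | succ n ih => rw [pow_succ, Equiv.Perm.mul_apply, hd, ih]
    have h3 : (τ ^ (b - a)) ^ u = τ := by
      rw [← pow_mul, pow_eq_pow_mod _ hτ, hu, pow_one]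
    have := h2 u
    rw [h3] at this
    exact hx this
  intro a ha b hb h
  simp only [Finset.coe_range, Set.mem_Iio] at ha hb
  rcases lt_trichotomy a b with hab | hab | hab
  · exact (key a b hab hb h).elim
  · exact hab
  · exact (key b a hab ha h.symm).elim

/-- **orbit sums.**  `τ` a permutation of order `p` of `α`, `X` a finite `τ`-stable set without
fixed point, `f (τ x) = T (f x)`: then `∑_{x ∈ X} f x` is a trace `∑_{k<p} T^k g`, with `g` in
any additive subgroup containing the values of `f` on `X`. -/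
theorem nda_sum_mem_trace {α B : Type*} [AddCommGroup B] (p : ℕ) (hp : p.Prime)
    (τ : Equiv.Perm α) (hτ : τ ^ p = 1) (T : B →+ B) (P : AddSubgroup B)
    (f : α → B) (hf : ∀ x, f (τ x) = T (f x))
    (X : Finset α) (hX : ∀ x ∈ X, τ x ∈ X) (hfix : ∀ x ∈ X, τ x ≠ x) (hP : ∀ x ∈ X, f x ∈ P) :
    ∃ g ∈ P, ∑ x ∈ X, f x = ∑ k ∈ Finset.range p, (⇑T)^[k] g := by
  classical
  induction X using Finset.strongInduction with
  | H X ih =>
    rcases X.eq_empty_or_nonempty with rfl | ⟨x, hx⟩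
    · refine ⟨0, P.zero_mem, ?_⟩
      simp [iterate_map_zero]
    · set O := (Finset.range p).image (fun k : ℕ => (τ ^ k) x) with hO
      have hpowX : ∀ k : ℕ, (τ ^ k) x ∈ X := by
        intro k
        induction k with
        | zero => simpa using hx
        | succ k ih' =>
          rw [pow_succ', Equiv.Perm.mul_apply]
          exact hX _ ih'
      have hOX : O ⊆ X := by
        intro y hy
        obtain ⟨k, -, rfl⟩ := Finset.mem_image.1 hy
        exact hpowX k
      have hxO : x ∈ O :=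
        Finset.mem_image.2 ⟨0, Finset.mem_range.2 hp.pos, by simp⟩
      have hfpow : ∀ k : ℕ, f ((τ ^ k) x) = (⇑T)^[k] (f x) := by
        intro k
        induction k with
        | zero => simp
        | succ k ih' =>
          rw [pow_succ', Equiv.Perm.mul_apply, hf, ih', Function.iterate_succ_apply']
      have hsum : ∑ y ∈ O, f y = ∑ k ∈ Finset.range p, (⇑T)^[k] (f x) := by
        rw [hO, Finset.sum_image (nda_orbit_injOn p hp τ hτ x (hfix x hx))]
        exact Finset.sum_congr rfl fun k _ => hfpow k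
      have hpowO : ∀ k : ℕ, (τ ^ k) x ∈ O := by
        intro k
        refine Finset.mem_image.2 ⟨k % p, Finset.mem_range.2 (Nat.mod_lt _ hp.pos), ?_⟩
        show (τ ^ (k % p)) x = (τ ^ k) x
        rw [← pow_eq_pow_mod _ hτ]
      have hinv : ∀ y, τ y ∈ O → y ∈ O := by
        intro y hy
        obtain ⟨k, -, hk⟩ := Finset.mem_image.1 hy
        have h1 : y = (τ ^ (p - 1 + k)) x := by
          have h2 : (τ ^ (p - 1)) (τ y) = y := by
            rw [← Equiv.Perm.mul_apply, ← pow_succ, Nat.sub_add_cancel hp.pos, hτ]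
            rfl
          rw [_root_.pow_add, Equiv.Perm.mul_apply]
          show y = (τ ^ (p - 1)) ((τ ^ k) x)
          rw [hk, h2]
        rw [h1]
        exact hpowO _
      have hY : X \ O ⊂ X :=
        Finset.sdiff_ssubset hOX ⟨x, hxO⟩
      obtain ⟨g', hg'P, hg'⟩ := ih (X \ O) hY
        (fun y hy => by
          rw [Finset.mem_sdiff] at hy ⊢
          exact ⟨hX y hy.1, fun h => hy.2 (hinv y h)⟩)
        (fun y hy => hfix y (Finset.mem_sdiff.1 hy).1)
        (fun y hy => hP y (Finset.mem_sdiff.1 hy).1)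
      refine ⟨g' + f x, P.add_mem hg'P (hP x hx), ?_⟩
      rw [← Finset.sum_sdiff hOX, hg', hsum, ← Finset.sum_add_distrib]
      exact Finset.sum_congr rfl fun k _ => (iterate_map_add T k g' (f x)).symm

/-! ## 2. The trace of `R((q)) / R((q^p))` -/

section Trace

variable {R : Type*} [CommRing R]

/-- coefficient of `c • f` -/
theorem nda_coeff_C_mul (c : R) (f : LaurentSeries R) (n : ℤ) :
    (HahnSeries.C c * f).coeff n = c * f.coeff n := by
  rw [HahnSeries.C_mul_eq_smul, HahnSeries.coeff_smul, smul_eq_mul]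

theorem nda_kronRot_C (ζ : Rˣ) (c : R) :
    kronRot ζ (HahnSeries.C c : LaurentSeries R) = HahnSeries.C c := by
  ext n
  rw [kronRot_coeff, HahnSeries.C_apply, HahnSeries.coeff_single]
  split_ifs with h
  · subst h
    simp
  · simp

/-- `∑_{k<p} ζ^{kn} = p` if `p ∣ n`, and `0` otherwise -/
theorem nda_geom_sum [IsDomain R] (p : ℕ) (ζ : Rˣ) (hζ : IsPrimitiveRoot ζ p) (n : ℤ) :
    ∑ k ∈ Finset.range p, (((ζ ^ k) ^ n : Rˣ) : R) = if (p : ℤ) ∣ n then (p : R) else 0 := by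
  have hswap : ∀ k : ℕ, (((ζ ^ k) ^ n : Rˣ) : R) = ((ζ ^ n : Rˣ) : R) ^ k := by
    intro k
    rw [← Units.val_pow_eq_pow_val]
    congr 1
    rw [← zpow_natCast, ← zpow_mul, mul_comm, zpow_mul, zpow_natCast]
  simp only [hswap]
  split_ifs with h
  · rw [(hζ.zpow_eq_one_iff_dvd n).2 h]
    simp
  · have h1 : ((ζ ^ n : Rˣ) : R) - 1 ≠ 0 := by
      intro h0
      apply h
      rw [← hζ.zpow_eq_one_iff_dvd]
      apply Units.ext
      rw [Units.val_one]
      exact sub_eq_zero.1 h0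
    have h2 : (((ζ ^ n : Rˣ) : R) - 1) * ∑ k ∈ Finset.range p, ((ζ ^ n : Rˣ) : R) ^ k = 0 := by
      rw [mul_geom_sum, ← Units.val_pow_eq_pow_val, ← zpow_natCast, ← zpow_mul, mul_comm,
        zpow_mul, zpow_natCast, hζ.pow_eq_one, one_zpow, Units.val_one, sub_self]
    exact (mul_eq_zero.1 h2).resolve_left h1

/-- the trace `∑_{k<p} g(ζ^k q)` is `p` times the part of `g` with exponents divisible by `p` -/
theorem nda_trace_eq [IsDomain R] (p : ℕ) [NeZero p] (ζ : Rˣ) (hζ : IsPrimitiveRoot ζ p)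
    (g : LaurentSeries R) :
    ∑ k ∈ Finset.range p, kronRot (ζ ^ k) g
      = HahnSeries.C (p : R) * qExpand R p (kronCompress p g) := by
  ext n
  rw [nda_coeff_C_mul]
  have h1 : (∑ k ∈ Finset.range p, kronRot (ζ ^ k) g).coeff n
      = ∑ k ∈ Finset.range p, (kronRot (ζ ^ k) g).coeff n := by
    rw [← HahnSeries.coeff.addMonoidHom_apply, map_sum]
    rfl
  rw [h1]
  simp only [kronRot_coeff]
  rw [← Finset.sum_mul, nda_geom_sum p ζ hζ n]
  split_ifs with h
  · obtain ⟨m, rfl⟩ := h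
    rw [qExpand_coeff_mul, kronCompress_coeff]
  · rw [qExpand_coeff_of_not_dvd p _ h, zero_mul, mul_zero]

end Trace

/-! ## 3. The product over the rotations, indexed by `ℤ/p` -/

section Shift

variable {R : Type*} [CommRing R]

/-- `∏_{b<p} f(ζ^b q)` as a product over `ℤ/p` -/
theorem nda_rotProd_eq_zmod (p : ℕ) [NeZero p] (ζ : Rˣ) (f : LaurentSeries R) :
    kronRotProd p ζ f = ∏ a : ZMod p, kronRot (ζ ^ a.val) f := by
  unfold kronRotProd
  refine Finset.prod_nbij' (fun b : ℕ => (b : ZMod p)) (fun a : ZMod p => a.val) ?_ ?_ ?_ ?_ ?_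
  · intro b _
    exact Finset.mem_univ _
  · intro a _
    exact Finset.mem_range.2 (ZMod.val_lt a)
  · intro b hb
    exact ZMod.val_cast_of_lt (Finset.mem_range.1 hb)
  · intro a _
    exact ZMod.natCast_zmod_val a
  · intro b hb
    rw [ZMod.val_cast_of_lt (Finset.mem_range.1 hb)]

/-- `ζ^{a+1} = ζ · ζ^a` for `a : ℤ/p` -/
theorem nda_pow_val_add_one (p : ℕ) [NeZero p] (ζ : Rˣ) (hζ : ζ ^ p = 1) (a : ZMod p) :
    ζ ^ (a + 1).val = ζ * ζ ^ a.val := by
  rw [ZMod.val_add, kron_pow_mod p ζ hζ, _root_.pow_add, ZMod.val_one_eq_one_mod,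
    kron_pow_mod p ζ hζ, pow_one, mul_comm]

/-- the rotation by `ζ^{a+1}` -/
theorem nda_kronRot_val_add_one (p : ℕ) [NeZero p] (ζ : Rˣ) (hζ : ζ ^ p = 1) (a : ZMod p)
    (f : LaurentSeries R) :
    kronRot (ζ ^ (a + 1).val) f = kronRot ζ (kronRot (ζ ^ a.val) f) := by
  rw [kronRot_kronRot, nda_pow_val_add_one p ζ hζ]

/-- the translation `S ↦ S + 1` on the subsets of `ℤ/p` -/
def ndaShift (p : ℕ) : Equiv.Perm (Finset (ZMod p)) :=
  (Equiv.addRight (1 : ZMod p)).finsetCongr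

theorem nda_mem_shift (p : ℕ) (S : Finset (ZMod p)) (a : ZMod p) :
    a + 1 ∈ ndaShift p S ↔ a ∈ S := by
  unfold ndaShift
  rw [Equiv.finsetCongr_apply]
  constructor
  · intro h
    obtain ⟨b, hb, hba⟩ := Finset.mem_map.1 h
    have : b = a := add_right_cancel (b := (1 : ZMod p)) hba
    exact this ▸ hb
  · intro h
    exact Finset.mem_map.2 ⟨a, h, rfl⟩

theorem nda_card_shift (p : ℕ) (S : Finset (ZMod p)) : (ndaShift p S).card = S.card := by
  unfold ndaShift
  rw [Equiv.finsetCongr_apply, Finset.card_map]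

theorem nda_shift_pow (p : ℕ) (k : ℕ) (S : Finset (ZMod p)) (a : ZMod p) :
    a + (k : ZMod p) ∈ (ndaShift p ^ k) S ↔ a ∈ S := by
  induction k generalizing a with
  | zero => simp
  | succ k ih =>
    rw [pow_succ', Equiv.Perm.mul_apply, Nat.cast_succ, ← add_assoc, nda_mem_shift, ih]

theorem nda_shift_pow_p (p : ℕ) : ndaShift p ^ p = 1 := by
  ext S a
  have := nda_shift_pow p p S a
  rw [ZMod.natCast_self, add_zero] at this
  rw [this]
  rfl

/-- a subset of `ℤ/p` stable under `+1` is empty or everything -/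
theorem nda_shift_ne (p : ℕ) [NeZero p] (S : Finset (ZMod p)) (h0 : S.Nonempty)
    (h1 : S.card < p) : ndaShift p S ≠ S := by
  intro h
  have hstep : ∀ a ∈ S, a + 1 ∈ S := by
    intro a ha
    rw [← h]
    exact (nda_mem_shift p S a).2 ha
  obtain ⟨a₀, ha₀⟩ := h0
  have hall : ∀ k : ℕ, a₀ + (k : ZMod p) ∈ S := by
    intro k
    induction k with
    | zero => simpa using ha₀
    | succ k ih =>
      rw [Nat.cast_succ, ← add_assoc]
      exact hstep _ ih
  have huniv : S = Finset.univ := by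
    rw [Finset.eq_univ_iff_forall]
    intro b
    have := hall (b - a₀).val
    rwa [ZMod.natCast_zmod_val, add_sub_cancel] at this
  rw [huniv, Finset.card_univ, ZMod.card] at h1
  exact lt_irrefl _ h1

/-- the monomial attached to a subset `S` of `ℤ/p` -/
def ndaMono (p : ℕ) [NeZero p] (ζ : Rˣ) (x y : LaurentSeries R) (S : Finset (ZMod p)) :
    LaurentSeries R :=
  ∏ a : ZMod p, if a ∈ S then kronRot (ζ ^ a.val) x else kronRot (ζ ^ a.val) y

theorem nda_mono_shift (p : ℕ) [NeZero p] (ζ : Rˣ) (hζ : ζ ^ p = 1) (x y : LaurentSeries R)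
    (S : Finset (ZMod p)) :
    ndaMono p ζ x y (ndaShift p S) = kronRot ζ (ndaMono p ζ x y S) := by
  unfold ndaMono
  rw [map_prod, ← Equiv.prod_comp (Equiv.addRight (1 : ZMod p))]
  refine Finset.prod_congr rfl fun a _ => ?_
  simp only [Equiv.coe_addRight, nda_mem_shift, nda_kronRot_val_add_one p ζ hζ]
  split_ifs <;> rfl

theorem nda_mono_eq (p : ℕ) [NeZero p] (ζ : Rˣ) (x y : LaurentSeries R)
    (S : Finset (ZMod p)) :
    ndaMono p ζ x y S
      = (∏ a ∈ S, kronRot (ζ ^ a.val) x) * ∏ a ∈ Finset.univ \ S, kronRot (ζ ^ a.val) y := by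
  classical
  unfold ndaMono
  rw [Finset.prod_ite, Finset.filter_mem_eq_inter, Finset.univ_inter,
    Finset.filter_notMem_eq_sdiff]

end Shift

/-! ## 4. The norm estimate -/

section Main

variable {R : Type*} [CommRing R] [IsDomain R]

omit [IsDomain R] in
/-- iterates of the rotation -/
theorem nda_iterate_kronRot (ζ : Rˣ) (k : ℕ) (g : LaurentSeries R) :
    (⇑(kronRot ζ).toAddMonoidHom)^[k] g = kronRot (ζ ^ k) g := by
  induction k with
  | zero => simp
  | succ k ih =>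
    rw [Function.iterate_succ_apply', ih]
    show kronRot ζ (kronRot (ζ ^ k) g) = _
    rw [kronRot_kronRot, pow_succ']

/-- the sum of the monomials of a given degree `0 < j < p` is divisible by `p` -/
theorem nda_sum_mono (p : ℕ) [NeZero p] (hp : p.Prime) (ζ : Rˣ) (hζ : IsPrimitiveRoot ζ p)
    (x y : LaurentSeries R) (j : ℕ) (hj0 : 0 < j) (hjp : j < p) :
    ∃ w : LaurentSeries R,
      ∑ S ∈ Finset.powersetCard j (Finset.univ : Finset (ZMod p)), ndaMono p ζ x y S
        = HahnSeries.C (p : R) * w := by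
  obtain ⟨g, -, hg⟩ := nda_sum_mem_trace p hp (ndaShift p) (nda_shift_pow_p p)
    (kronRot ζ).toAddMonoidHom ⊤ (ndaMono p ζ x y)
    (fun S => nda_mono_shift p ζ hζ.pow_eq_one x y S)
    (Finset.powersetCard j (Finset.univ : Finset (ZMod p)))
    (fun S hS => by
      rw [Finset.mem_powersetCard] at hS ⊢
      exact ⟨Finset.subset_univ _, by rw [nda_card_shift, hS.2]⟩)
    (fun S hS => by
      rw [Finset.mem_powersetCard] at hS
      refine nda_shift_ne p S ?_ (by rw [hS.2]; exact hjp)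
      rw [← Finset.card_pos, hS.2]
      exact hj0)
    (fun _ _ => AddSubgroup.mem_top _)
  refine ⟨qExpand R p (kronCompress p g), ?_⟩
  rw [hg, ← nda_trace_eq p ζ hζ g]
  exact Finset.sum_congr rfl fun k _ => nda_iterate_kronRot ζ k g

/-- **the norm estimate**: `N(x + c y) = N(x) + c^p N(y) + c p w`. -/
theorem nda_rotProd_add (p : ℕ) (hp : p.Prime) (ζ : Rˣ) (hζ : IsPrimitiveRoot ζ p) (c : R)
    (x y : LaurentSeries R) :
    ∃ w : LaurentSeries R,
      kronRotProd p ζ (x + HahnSeries.C c * y)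
        = kronRotProd p ζ x + HahnSeries.C (c ^ p) * kronRotProd p ζ y
          + HahnSeries.C (c * (p : R)) * w := by
  classical
  have : NeZero p := ⟨hp.ne_zero⟩
  -- the terms of degree `0 < j < p`
  have hmid : ∀ j : ℕ, ∃ w : LaurentSeries R, 0 < j → j < p →
      ∑ S ∈ Finset.powersetCard j (Finset.univ : Finset (ZMod p)), ndaMono p ζ x y S
        = HahnSeries.C (p : R) * w := by
    intro j
    by_cases h : 0 < j ∧ j < p
    · obtain ⟨w, hw⟩ := nda_sum_mono p hp ζ hζ x y j h.1 h.2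
      exact ⟨w, fun _ _ => hw⟩
    · exact ⟨0, fun h0 h1 => (h ⟨h0, h1⟩).elim⟩
  choose w hw using hmid
  -- expansion of the product
  have hexp : kronRotProd p ζ (x + HahnSeries.C c * y)
      = ∑ j ∈ Finset.range (p + 1),
          HahnSeries.C c ^ (p - j) *
            ∑ S ∈ Finset.powersetCard j (Finset.univ : Finset (ZMod p)), ndaMono p ζ x y S := by
    rw [nda_rotProd_eq_zmod]
    simp only [map_add, map_mul, nda_kronRot_C]
    rw [Finset.prod_add, Finset.sum_powerset, Finset.card_univ, ZMod.card]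
    refine Finset.sum_congr rfl fun j _ => ?_
    rw [Finset.mul_sum]
    refine Finset.sum_congr rfl fun S hS => ?_
    rw [nda_mono_eq, Finset.prod_mul_distrib, Finset.prod_const,
      Finset.card_sdiff_of_subset (Finset.subset_univ S), Finset.card_univ, ZMod.card,
      (Finset.mem_powersetCard.1 hS).2]
    ring
  obtain ⟨p', rfl⟩ : ∃ p', p = p' + 1 := ⟨p - 1, (Nat.succ_pred_eq_of_pos hp.pos).symm⟩
  refine ⟨∑ j ∈ Finset.range p', HahnSeries.C c ^ (p' + 1 - (j + 1) - 1) * w (j + 1), ?_⟩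
  rw [hexp, Finset.sum_range_succ, Finset.sum_range_succ']
  -- the three parts
  have h0 : HahnSeries.C c ^ (p' + 1 - 0) *
      ∑ S ∈ Finset.powersetCard 0 (Finset.univ : Finset (ZMod (p' + 1))),
        ndaMono (p' + 1) ζ x y S
      = HahnSeries.C (c ^ (p' + 1)) * kronRotProd (p' + 1) ζ y := by
    rw [Finset.powersetCard_zero, Finset.sum_singleton, nda_mono_eq, Finset.prod_empty, one_mul,
      Finset.sdiff_empty, ← nda_rotProd_eq_zmod, Nat.sub_zero, map_pow]
  have h1 : HahnSeries.C c ^ (p' + 1 - (p' + 1)) *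
      ∑ S ∈ Finset.powersetCard (p' + 1) (Finset.univ : Finset (ZMod (p' + 1))),
        ndaMono (p' + 1) ζ x y S
      = kronRotProd (p' + 1) ζ x := by
    have hc : (Finset.univ : Finset (ZMod (p' + 1))).card = p' + 1 := by
      rw [Finset.card_univ, ZMod.card]
    have := Finset.powersetCard_self (Finset.univ : Finset (ZMod (p' + 1)))
    rw [hc] at this
    rw [this, Finset.sum_singleton, nda_mono_eq, Finset.sdiff_self, Finset.prod_empty, mul_one,
      ← nda_rotProd_eq_zmod, Nat.sub_self, pow_zero, one_mul]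
  have h2 : ∑ j ∈ Finset.range p', HahnSeries.C c ^ (p' + 1 - (j + 1)) *
      ∑ S ∈ Finset.powersetCard (j + 1) (Finset.univ : Finset (ZMod (p' + 1))),
        ndaMono (p' + 1) ζ x y S
      = HahnSeries.C (c * ((p' + 1 : ℕ) : R)) *
          ∑ j ∈ Finset.range p', HahnSeries.C c ^ (p' + 1 - (j + 1) - 1) * w (j + 1) := by
    rw [Finset.mul_sum]
    refine Finset.sum_congr rfl fun j hj => ?_
    have hj' : j < p' := Finset.mem_range.1 hj
    rw [hw (j + 1) (Nat.succ_pos j) (by omega)]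
    have he : p' + 1 - (j + 1) = (p' + 1 - (j + 1) - 1) + 1 := by omega
    rw [he, pow_succ, map_mul]
    simp only [Nat.add_sub_cancel]
    ring
  rw [h0, h1, h2]
  ring

end Main

/-! ## 5. Series with coefficients in a valuation subring -/

section Valuation

variable {L : Type*} [Field L] (A : ValuationSubring L)

/-- `y₁ ≡ y₂` modulo `c A`, coefficientwise -/
def NdaCongr (c : L) (y₁ y₂ : LaurentSeries L) : Prop :=
  ∀ n : ℤ, ∃ a ∈ A, y₁.coeff n - y₂.coeff n = c * a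

variable {A}

theorem NdaCongr.refl (c : L) (y : LaurentSeries L) : NdaCongr A c y y :=
  fun n => ⟨0, A.zero_mem, by rw [sub_self, mul_zero]⟩

theorem NdaCongr.symm {c : L} {y₁ y₂ : LaurentSeries L} (h : NdaCongr A c y₁ y₂) :
    NdaCongr A c y₂ y₁ := fun n => by
  obtain ⟨a, ha, h1⟩ := h n
  exact ⟨-a, A.neg_mem _ ha, by rw [mul_neg, ← h1, neg_sub]⟩

theorem NdaCongr.trans {c : L} {y₁ y₂ y₃ : LaurentSeries L} (h : NdaCongr A c y₁ y₂)
    (h' : NdaCongr A c y₂ y₃) : NdaCongr A c y₁ y₃ := fun n => by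
  obtain ⟨a, ha, h1⟩ := h n
  obtain ⟨b, hb, h2⟩ := h' n
  exact ⟨a + b, A.add_mem _ _ ha hb, by rw [mul_add, ← h1, ← h2]; ring⟩

/-- change of the modulus: `d ∣ c` in `A` -/
theorem NdaCongr.of_dvd {c d e : L} (he : e ∈ A) (hc : c = d * e) {y₁ y₂ : LaurentSeries L}
    (h : NdaCongr A c y₁ y₂) : NdaCongr A d y₁ y₂ := fun n => by
  obtain ⟨a, ha, h1⟩ := h n
  exact ⟨e * a, A.mul_mem _ _ he ha, by rw [h1, hc, mul_assoc]⟩

/-- a congruence modulo a non-unit is a congruence modulo the maximal ideal -/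
theorem NdaCongr.kronCongr {c : L} (hc : c ∈ A.nonunits) {y₁ y₂ : LaurentSeries L}
    (h : NdaCongr A c y₁ y₂) : KronCongr A y₁ y₂ := fun n => by
  obtain ⟨a, ha, h1⟩ := h n
  rw [h1, ValuationSubring.mem_nonunits_iff, map_mul]
  exact mul_lt_one_of_nonneg_of_lt_one_left zero_le
    (A.mem_nonunits_iff.1 hc) ((A.valuation_le_one_iff a).2 ha)

/-- `y₁ = y₂ + c y₃` with `y₃` integral -/
theorem NdaCongr.exists_eq_add {c : L} {y₁ y₂ : LaurentSeries L} (h : NdaCongr A c y₁ y₂) :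
    ∃ y₃ : LaurentSeries L, KronInt A y₃ ∧ y₁ = y₂ + HahnSeries.C c * y₃ := by
  by_cases hc : c = 0
  · refine ⟨0, fun n => by simp [A.zero_mem], ?_⟩
    ext n
    obtain ⟨a, -, h1⟩ := h n
    rw [hc, zero_mul, sub_eq_zero] at h1
    rw [h1, mul_zero, add_zero]
  · refine ⟨HahnSeries.C c⁻¹ * (y₁ - y₂), fun n => ?_, ?_⟩
    · obtain ⟨a, ha, h1⟩ := h n
      rw [nda_coeff_C_mul, HahnSeries.coeff_sub, h1, ← mul_assoc, inv_mul_cancel₀ hc, one_mul]
      exact ha
    · rw [← mul_assoc, ← map_mul, mul_inv_cancel₀ hc, map_one, one_mul]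
      ring

theorem nda_congr_of_eq_add {c : L} {y₁ y₂ y₃ : LaurentSeries L} (h₃ : KronInt A y₃)
    (h : y₁ = y₂ + HahnSeries.C c * y₃) : NdaCongr A c y₁ y₂ := fun n =>
  ⟨y₃.coeff n, h₃ n, by rw [h, HahnSeries.coeff_add, nda_coeff_C_mul]; ring⟩

theorem nda_kronIncl_C (a : A) :
    kronIncl A (HahnSeries.C a) = HahnSeries.C (a : L) := by
  show coeffMap A.subtype (HahnSeries.single 0 a) = HahnSeries.single 0 (a : L)
  rw [coeffMap_single]
  rfl

/-- **the norm estimate over a valuation subring**: if `y₁ = y₂ + c y₃` with `y₂`, `y₃`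
integral and `c ∈ A`, then `N y₁ = N y₂ + c p w₁ + c^p N y₃` with `w₁` integral. -/
theorem nda_kronRotProd_eq (p : ℕ) (hp : p.Prime) (ζ : Lˣ) (hζ : IsPrimitiveRoot ζ p)
    {c : L} (hc : c ∈ A) {y₂ y₃ : LaurentSeries L} (h₂ : KronInt A y₂) (h₃ : KronInt A y₃) :
    ∃ w : LaurentSeries L, KronInt A w ∧
      kronRotProd p ζ (y₂ + HahnSeries.C c * y₃)
        = kronRotProd p ζ y₂ + HahnSeries.C (c ^ p) * kronRotProd p ζ y₃
          + HahnSeries.C (c * (p : L)) * w := by
  obtain ⟨Y₂, rfl⟩ := h₂.exists_lift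
  obtain ⟨Y₃, rfl⟩ := h₃.exists_lift
  obtain ⟨ζA, rfl⟩ := kron_exists_unit_lift A hp.ne_zero ζ hζ.pow_eq_one
  have hζA : IsPrimitiveRoot ζA p :=
    IsPrimitiveRoot.of_map_of_injective (f := Units.map (A.subtype : A →* L)) hζ
      (Units.map_injective (f := (A.subtype : A →* L)) Subtype.val_injective)
  obtain ⟨W, hW⟩ := nda_rotProd_add p hp ζA hζA ⟨c, hc⟩ Y₂ Y₃
  refine ⟨kronIncl A W, kronInt_kronIncl W, ?_⟩
  have h := congrArg (kronIncl A) hW
  rw [map_add, map_add, map_mul, map_mul, coeffMap_kronRotProd, coeffMap_kronRotProd,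
    coeffMap_kronRotProd, map_add, map_mul, nda_kronIncl_C, nda_kronIncl_C,
    nda_kronIncl_C] at h
  simpa using h

/-- **norm estimate, congruence form**: `y₁ ≡ y₂ mod c` (with `y₂` integral, `c ∈ A`) implies
`N y₁ = N y₂ + c p w₁ + c^p w₂` with `w₁`, `w₂` integral. -/
theorem nda_kronRotProd_congr (p : ℕ) (hp : p.Prime) (ζ : Lˣ) (hζ : IsPrimitiveRoot ζ p)
    {c : L} (hc : c ∈ A) {y₁ y₂ : LaurentSeries L} (h₂ : KronInt A y₂)
    (h : NdaCongr A c y₁ y₂) :
    ∃ w₁ w₂ : LaurentSeries L, KronInt A w₁ ∧ KronInt A w₂ ∧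
      kronRotProd p ζ y₁ = kronRotProd p ζ y₂ + HahnSeries.C (c * (p : L)) * w₁
        + HahnSeries.C (c ^ p) * w₂ := by
  have : NeZero p := ⟨hp.ne_zero⟩
  obtain ⟨y₃, h₃, rfl⟩ := h.exists_eq_add
  obtain ⟨w, hw, he⟩ := nda_kronRotProd_eq p hp ζ hζ hc h₂ h₃
  refine ⟨w, kronRotProd p ζ y₃, hw, ?_, ?_⟩
  · obtain ⟨Y₃, rfl⟩ := h₃.exists_lift
    obtain ⟨ζA, rfl⟩ := kron_exists_unit_lift A hp.ne_zero ζ hζ.pow_eq_one
    rw [← coeffMap_kronRotProd]
    exact kronInt_kronIncl _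
  · rw [he]
    ring

/-- **norm estimate modulo `d`**, for every common divisor `d` of `c p` and `c^p` -/
theorem NdaCongr.kronRotProd (p : ℕ) (hp : p.Prime) (ζ : Lˣ) (hζ : IsPrimitiveRoot ζ p)
    {c d e₁ e₂ : L} (hc : c ∈ A) (he₁ : e₁ ∈ A) (he₂ : e₂ ∈ A) (h₁ : c * (p : L) = d * e₁)
    (h₂ : c ^ p = d * e₂) {y₁ y₂ : LaurentSeries L} (hy₂ : KronInt A y₂)
    (h : NdaCongr A c y₁ y₂) :
    NdaCongr A d (Fermat.Agent.ES.kronRotProd p ζ y₁) (Fermat.Agent.ES.kronRotProd p ζ y₂) := by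
  obtain ⟨w₁, w₂, hw₁, hw₂, he⟩ := nda_kronRotProd_congr p hp ζ hζ hc hy₂ h
  intro n
  refine ⟨e₁ * w₁.coeff n + e₂ * w₂.coeff n,
    A.add_mem _ _ (A.mul_mem _ _ he₁ (hw₁ n)) (A.mul_mem _ _ he₂ (hw₂ n)), ?_⟩
  rw [he, HahnSeries.coeff_add, HahnSeries.coeff_add, nda_coeff_C_mul, nda_coeff_C_mul, h₁, h₂]
  ring

/-- **norm estimate for `kronNorm`** (`∏_b f(ζ^b q^{1/p})`), modulo `d` -/
theorem NdaCongr.kronNorm (p : ℕ) [NeZero p] (hp : p.Prime) (ζ : Lˣ) (hζ : IsPrimitiveRoot ζ p)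
    {c d e₁ e₂ : L} (hc : c ∈ A) (he₁ : e₁ ∈ A) (he₂ : e₂ ∈ A) (h₁ : c * (p : L) = d * e₁)
    (h₂ : c ^ p = d * e₂) {y₁ y₂ : LaurentSeries L} (hy₂ : KronInt A y₂)
    (h : NdaCongr A c y₁ y₂) :
    NdaCongr A d (Fermat.Agent.ES.kronNorm p ζ y₁) (Fermat.Agent.ES.kronNorm p ζ y₂) := by
  intro n
  exact NdaCongr.kronRotProd p hp ζ hζ hc he₁ he₂ h₁ h₂ hy₂ h ((p : ℤ) * n)

/-- in a valuation ring one of `c p`, `c^p` divides the other: the norm estimate modulo the
`gcd` -/
theorem nda_exists_gcd (p : ℕ) {c : L} (hc : c ∈ A) :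
    ∃ d e₁ e₂ : L, d ∈ A ∧ e₁ ∈ A ∧ e₂ ∈ A ∧ c * (p : L) = d * e₁ ∧ c ^ p = d * e₂ ∧
      (d = c * (p : L) ∨ d = c ^ p) := by
  have hpA : (p : L) ∈ A := natCast_mem A p
  by_cases h0 : c * (p : L) = 0
  · exact ⟨c ^ p, 0, 1, A.pow_mem hc p, A.zero_mem, A.one_mem, by rw [h0, mul_zero],
      by rw [mul_one], Or.inr rfl⟩
  rcases A.mem_or_inv_mem (c ^ p / (c * (p : L))) with h | h
  · exact ⟨c * (p : L), 1, c ^ p / (c * (p : L)), A.mul_mem _ _ hc hpA, A.one_mem, h,
      by rw [mul_one], by rw [mul_div_cancel₀ _ h0], Or.inl rfl⟩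
  · have hcp : c ^ p ≠ 0 := by
      intro h1
      have hc0 : c = 0 := pow_eq_zero_iff (by
        intro hp0
        rw [hp0, Nat.cast_zero, mul_zero] at h0
        exact h0 rfl) |>.1 h1
      exact h0 (by rw [hc0, zero_mul])
    rw [inv_div] at h
    exact ⟨c ^ p, c * (p : L) / c ^ p, 1, A.pow_mem hc p, h, A.one_mem,
      by rw [mul_div_cancel₀ _ hcp], by rw [mul_one], Or.inr rfl⟩

/-! ### primitive series -/

/-- rotation by a root of unity preserves integrality -/
theorem nda_kronInt_kronRot {ℓ : ℕ} (hℓ : ℓ ≠ 0) (ζ : Lˣ) (hζ : ζ ^ ℓ = 1)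
    {f : LaurentSeries L} (hf : KronInt A f) : KronInt A (kronRot ζ f) := by
  obtain ⟨F, rfl⟩ := hf.exists_lift
  obtain ⟨ζA, rfl⟩ := kron_exists_unit_lift A hℓ ζ hζ
  rw [← coeffMap_kronRot]
  exact kronInt_kronIncl _

/-- rotation by a root of unity preserves primitivity -/
theorem nda_kronPrim_kronRot {ℓ : ℕ} (hℓ : ℓ ≠ 0) (ζ : Lˣ) (hζ : ζ ^ ℓ = 1)
    {f : LaurentSeries L} (hf : KronPrim A f) : KronPrim A (kronRot ζ f) := by
  refine ⟨nda_kronInt_kronRot hℓ ζ hζ hf.1, ?_⟩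
  obtain ⟨n, hn⟩ := hf.2
  refine ⟨n, fun h => hn ?_⟩
  rw [kronRot_coeff] at h
  have h1 : A.valuation ((ζ ^ n : Lˣ) : L) = 1 := by
    have h2 : A.valuation ((ζ ^ n : Lˣ) : L) ^ ℓ = 1 := by
      rw [← map_pow, ← Units.val_pow_eq_pow_val, ← zpow_natCast, ← zpow_mul, mul_comm, zpow_mul,
        zpow_natCast, hζ, one_zpow, Units.val_one, map_one]
    exact (pow_eq_one_iff.1 h2).resolve_right hℓ
  rw [A.mem_nonunits_iff, map_mul, h1, one_mul] at h
  exact A.mem_nonunits_iff.2 h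

theorem nda_kronPrim_one : KronPrim A (1 : LaurentSeries L) := by
  refine ⟨KronInt.one, 0, ?_⟩
  rw [HahnSeries.coeff_one, if_pos rfl, A.mem_nonunits_iff, map_one]
  exact lt_irrefl _

/-- `∏_b f(ζ^b q)` is primitive when `f` is -/
theorem nda_kronPrim_kronRotProd {ℓ : ℕ} (hℓ : ℓ ≠ 0) (ζ : Lˣ) (hζ : ζ ^ ℓ = 1)
    {f : LaurentSeries L} (hf : KronPrim A f) : KronPrim A (kronRotProd ℓ ζ f) := by
  unfold Fermat.Agent.ES.kronRotProd
  have key : ∀ s : Finset ℕ, KronPrim A (∏ b ∈ s, kronRot (ζ ^ b) f) := by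
    intro s
    classical
    induction s using Finset.induction_on with
    | empty => simpa using nda_kronPrim_one
    | insert a s ha ih =>
      rw [Finset.prod_insert ha]
      refine KronPrim.mul (nda_kronPrim_kronRot hℓ (ζ ^ a) ?_ hf) ih
      rw [← pow_mul, mul_comm, pow_mul, hζ, one_pow]
  exact key _

/-- `∏_b f(ζ^b q^{1/ℓ})` is primitive when `f` is -/
theorem nda_kronPrim_kronNorm {ℓ : ℕ} [NeZero ℓ] (ζ : Lˣ) (hζ : IsPrimitiveRoot ζ ℓ)
    {f : LaurentSeries L} (hf : KronPrim A f) : KronPrim A (kronNorm ℓ ζ f) := by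
  refine ⟨hf.1.kronNorm ζ hζ.pow_eq_one, ?_⟩
  obtain ⟨n, hn⟩ := (nda_kronPrim_kronRotProd (NeZero.ne ℓ) ζ hζ.pow_eq_one hf).2
  by_cases hdvd : (ℓ : ℤ) ∣ n
  · obtain ⟨m, rfl⟩ := hdvd
    exact ⟨m, hn⟩
  · exfalso
    apply hn
    rw [kronRotProd_coeff_of_not_dvd ℓ ζ hζ f hdvd]
    rw [A.mem_nonunits_iff, map_zero]
    exact zero_lt_one

end Valuation

end Fermat.Agent.S33

end
end ZBES_002_2

/-! ### bundled: `Fermat.Agent.ES.LR.Core` -/
section ZBES_002_3
/-
ES-LR (Lemma R of NOTES/ES-plan.md), abstract core (helper15).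

`A` a valuation subring of a field `L` with the archimedean property `Arch A` (rank one).

* `kronInt_of_almost` : `A((q))` is completely integrally closed in `L((q))`:
  `Y ≠ 0`, `Y · z ^ n` integral for all `n`  ⟹  `z` integral.
* `kronInt_of_monic` : `z · Y₂ = Y₁` (`Y₁, Y₂` integral, `Y₂ ≠ 0`) and `z` a root of a monic polynomial
  with integral coefficients  ⟹  `z` integral.
* `kronInt_of_bounded` (Gauss): `c ≠ 0`, `c · x` integral, `x · Y₂ = Y₁` with `Y₁` integral and `Y₂`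
  primitive  ⟹  `x` integral.
-/

set_option autoImplicit false
set_option linter.style.haveILetI false

noncomputable section

namespace Fermat.Agent.ES.LR

open Fermat.Agent.ES ModularCurve Polynomial

variable {L : Type*} [Field L] (A : ValuationSubring L)

/-- the subring of `A`-integral Laurent series -/
def intSub : Subring (LaurentSeries L) := (kronIncl A).range

variable {A}

theorem mem_intSub {f : LaurentSeries L} : f ∈ intSub A ↔ KronInt A f := by
  rw [kronInt_iff]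
  rfl

theorem kronInt_C {a : L} (ha : a ∈ A) : KronInt A (HahnSeries.C a : LaurentSeries L) := by
  intro n
  rw [HahnSeries.C_apply, HahnSeries.coeff_single]
  split_ifs
  · exact ha
  · exact A.zero_mem

variable (A)

/-- the archimedean property of the valuation of `A` (rank at most one) -/
def Arch : Prop := ∀ δ c : L, δ ∈ A.nonunits → c ≠ 0 → ∃ k : ℕ, δ ^ k / c ∈ A

variable {A}

/-- `A((q))` is completely integrally closed in `L((q))`. -/
theorem kronInt_of_almost (hA : Arch A) {z Y : LaurentSeries L} (hY : Y ≠ 0)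
    (h : ∀ n : ℕ, KronInt A (Y * z ^ n)) : KronInt A z := by
  classical
  by_contra hz
  have hex : ∃ n : ℤ, z.coeff n ∉ A := by
    by_contra hcon
    push Not at hcon
    exact hz hcon
  have hwf : {n : ℤ | z.coeff n ∉ A}.IsWF := z.isWF_support.mono (fun n hn => by
    rw [HahnSeries.mem_support]
    intro h0
    exact hn (by rw [h0]; exact A.zero_mem))
  obtain ⟨n₁, hn₁, hmin⟩ : ∃ n₁ : ℤ, z.coeff n₁ ∉ A ∧ ∀ m < n₁, z.coeff m ∈ A := by
    refine ⟨hwf.min hex, hwf.min_mem hex, fun m hm => ?_⟩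
    by_contra hcon
    exact absurd (hwf.min_le hex hcon) (not_le.2 hm)
  set zl : LaurentSeries L := HahnSeries.truncLT n₁ z with hzl_def
  have hzl : KronInt A zl := fun n => by
    rw [hzl_def, HahnSeries.coeff_truncLT]
    split_ifs with h
    · exact hmin n h
    · exact A.zero_mem
  set w : LaurentSeries L := z - zl with hw_def
  have hwcoeff : ∀ n, w.coeff n = if n < n₁ then 0 else z.coeff n := by
    intro n
    rw [hw_def, HahnSeries.coeff_sub, hzl_def, HahnSeries.coeff_truncLT]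
    split_ifs <;> simp
  have hu0 : z.coeff n₁ ≠ 0 := fun h0 => hn₁ (h0 ▸ A.zero_mem)
  have hwn₁ : w.coeff n₁ = z.coeff n₁ := by rw [hwcoeff, if_neg (lt_irrefl _)]
  have hw0 : w ≠ 0 := by
    intro h0
    rw [h0, HahnSeries.coeff_zero] at hwn₁
    exact hu0 hwn₁.symm
  have hword : w.order = n₁ := by
    apply le_antisymm
    · exact HahnSeries.order_le_of_coeff_ne_zero (by rw [hwn₁]; exact hu0)
    · rw [HahnSeries.le_order_iff_forall hw0]
      intro m hm
      rw [hwcoeff, if_pos hm]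
  have hwlead : w.leadingCoeff = z.coeff n₁ := by
    rw [HahnSeries.leadingCoeff_eq, hword, hwn₁]
  -- almost integrality of `w`
  have hw : ∀ n : ℕ, KronInt A (Y * w ^ n) := by
    intro n
    rw [← mem_intSub]
    have : Y * w ^ n = ∑ m ∈ Finset.range (n + 1),
        (Y * z ^ m) * ((-zl) ^ (n - m) * (n.choose m : LaurentSeries L)) := by
      rw [show w = z + (-zl) by rw [hw_def]; ring, add_pow, Finset.mul_sum]
      refine Finset.sum_congr rfl fun m _ => by ring
    rw [this]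
    refine Subring.sum_mem _ fun m _ => Subring.mul_mem _ (mem_intSub.2 (h m))
      (Subring.mul_mem _ (Subring.pow_mem _ (Subring.neg_mem _ (mem_intSub.2 hzl)) _)
        (natCast_mem _ _))
  -- leading coefficients
  have hleadpow : ∀ n : ℕ, (w ^ n).leadingCoeff = z.coeff n₁ ^ n := by
    intro n
    induction n with
    | zero => rw [pow_zero, pow_zero, HahnSeries.leadingCoeff_one]
    | succ n ih => rw [pow_succ, HahnSeries.leadingCoeff_mul, ih, hwlead, pow_succ]
  have hlead : ∀ n : ℕ, Y.leadingCoeff * z.coeff n₁ ^ n ∈ A := by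
    intro n
    have h1 := hw n (Y * w ^ n).order
    rwa [← HahnSeries.leadingCoeff_eq, HahnSeries.leadingCoeff_mul, hleadpow] at h1
  have hy0 : Y.leadingCoeff ≠ 0 := HahnSeries.leadingCoeff_ne_zero.2 hY
  have hinv : (z.coeff n₁)⁻¹ ∈ A.nonunits := by
    rw [ValuationSubring.mem_nonunits_iff, map_inv₀]
    have h1 : ¬ A.valuation (z.coeff n₁) ≤ 1 := fun h1 =>
      hn₁ ((ValuationSubring.valuation_le_one_iff A _).1 h1)
    exact inv_lt_one_of_one_lt₀ (not_le.1 h1)
  obtain ⟨k, hk⟩ := hA _ _ hinv hy0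
  have h2 := A.mul_mem _ _ hk (hlead (k + 1))
  have h3 : (z.coeff n₁)⁻¹ ^ k / Y.leadingCoeff * (Y.leadingCoeff * z.coeff n₁ ^ (k + 1)) =
      z.coeff n₁ := by
    rw [inv_pow, pow_succ]
    field_simp
  rw [h3] at h2
  exact hn₁ h2

/-- `A((q))` is integrally closed in its fraction field (inside `L((q))`). -/
theorem kronInt_of_monic (hA : Arch A) {z Y₁ Y₂ : LaurentSeries L} (hY₁ : KronInt A Y₁)
    (hY₂ : KronInt A Y₂) (hY₂0 : Y₂ ≠ 0) (hfrac : z * Y₂ = Y₁)
    (p : (LaurentSeries L)[X]) (hp : p.Monic) (hpc : ∀ n, KronInt A (p.coeff n))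
    (hz : p.eval z = 0) : KronInt A z := by
  have hint : IsIntegral (intSub A) z := by
    have hsub : (↑p.coeffs : Set (LaurentSeries L)) ⊆ intSub A := by
      intro c hc
      obtain ⟨n, _, rfl⟩ := Polynomial.mem_coeffs_iff.1 hc
      exact mem_intSub.2 (hpc n)
    refine ⟨p.toSubring (intSub A) hsub, (monic_toSubring p _ hsub).2 hp, ?_⟩
    rw [← Polynomial.eval_map]
    rw [show algebraMap (intSub A) (LaurentSeries L) = (intSub A).subtype from rfl, map_toSubring]
    exact hz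
  set d := (minpoly (intSub A) z).natDegree with hd
  apply kronInt_of_almost hA (pow_ne_zero d hY₂0)
  intro n
  rw [← mem_intSub]
  have hmem := hint.mem_span_pow (y := z ^ n) ⟨X ^ n, by simp⟩
  refine Submodule.span_induction (p := fun y _ => Y₂ ^ d * y ∈ intSub A) ?_ ?_ ?_ ?_ hmem
  · rintro _ ⟨i, rfl⟩
    have hi : (i : ℕ) ≤ d := i.2.le
    have : Y₂ ^ d * z ^ (i : ℕ) = Y₂ ^ (d - i) * Y₁ ^ (i : ℕ) := by
      rw [← hfrac, mul_pow]
      conv_lhs => rw [← Nat.sub_add_cancel hi, pow_add]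
      ring
    rw [this]
    exact Subring.mul_mem _ (Subring.pow_mem _ (mem_intSub.2 hY₂) _)
      (Subring.pow_mem _ (mem_intSub.2 hY₁) _)
  · rw [mul_zero]
    exact Subring.zero_mem _
  · intro x y _ _ hx hy
    rw [mul_add]
    exact Subring.add_mem _ hx hy
  · intro r x _ hx
    rw [Algebra.smul_def, ← mul_assoc, mul_comm (Y₂ ^ d), mul_assoc]
    exact Subring.mul_mem _ r.2 hx

/-! ### The Gauss step -/

/-- reduction of Laurent series is surjective -/
theorem exists_kronRed_eq (V : LaurentSeries (IsLocalRing.ResidueField A)) :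
    ∃ W : LaurentSeries A, kronRed A W = V := by
  classical
  have hsurj := IsLocalRing.residue_surjective (R := A)
  refine ⟨⟨fun n => if V.coeff n = 0 then 0 else Classical.choose (hsurj (V.coeff n)),
    V.isPWO_support.mono ?_⟩, ?_⟩
  · intro n hn
    simp only [Function.mem_support, ne_eq] at hn
    rw [HahnSeries.mem_support]
    intro h0
    exact hn (if_pos h0)
  · ext n
    rw [coeffMap_coeff]
    show IsLocalRing.residue A (if V.coeff n = 0 then 0 else _) = _
    split_ifs with h0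
    · rw [map_zero, h0]
    · exact Classical.choose_spec (hsurj (V.coeff n))

/-- a series with coefficients in the maximal ideal and finitely many nonzero coefficients, all in
negative degrees, is nilpotent modulo any nonzero constant -/
theorem mem_radical_of_neg (hA : Arch A) {c : A} (hc : c ≠ 0) :
    ∀ (K : ℕ) (f : LaurentSeries A), (∀ n, f.coeff n ∈ IsLocalRing.maximalIdeal A) →
      (∀ n : ℤ, 0 ≤ n → f.coeff n = 0) → (∀ n : ℤ, n < -(K : ℤ) → f.coeff n = 0) →
        f ∈ (Ideal.span {(HahnSeries.C c : LaurentSeries A)}).radical := by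
  intro K
  induction K with
  | zero =>
    intro f _ h0 h1
    have : f = 0 := by
      refine HahnSeries.ext (funext fun n => ?_)
      rw [HahnSeries.coeff_zero]
      rcases lt_or_ge n 0 with h | h
      · exact h1 n (by simpa using h)
      · exact h0 n h
    rw [this]
    exact Ideal.zero_mem _
  | succ K ih =>
    intro f hf h0 h1
    set e : A := f.coeff (-((K : ℤ) + 1)) with he
    set g : LaurentSeries A := f - HahnSeries.single (-((K : ℤ) + 1)) e with hg
    have hgcoeff : ∀ n, g.coeff n = if n = -((K : ℤ) + 1) then 0 else f.coeff n := by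
      intro n
      rw [hg, HahnSeries.coeff_sub, HahnSeries.coeff_single]
      split_ifs with h
      · rw [h, sub_self]
      · rw [sub_zero]
    have hgmem : g ∈ (Ideal.span {(HahnSeries.C c : LaurentSeries A)}).radical := by
      apply ih g
      · intro n
        rw [hgcoeff]
        split_ifs
        · exact Ideal.zero_mem _
        · exact hf n
      · intro n hn
        rw [hgcoeff]
        split_ifs
        · rfl
        · exact h0 n hn
      · intro n hn
        rw [hgcoeff]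
        split_ifs with h
        · rfl
        · apply h1 n
          push_cast
          omega
    have hemem : (HahnSeries.C e : LaurentSeries A) ∈
        (Ideal.span {(HahnSeries.C c : LaurentSeries A)}).radical := by
      have hem : e ∈ IsLocalRing.maximalIdeal A := hf _
      have he' : (e : L) ∈ A.nonunits := by
        rw [ValuationSubring.coe_mem_nonunits_iff]
        exact hem
      have hc' : (c : L) ≠ 0 := fun h => hc (Subtype.ext h)
      obtain ⟨k, hk⟩ := hA _ _ he' hc'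
      refine ⟨k, ?_⟩
      rw [Ideal.mem_span_singleton']
      refine ⟨HahnSeries.C ⟨_, hk⟩, ?_⟩
      rw [← map_mul, ← map_pow]
      congr 1
      apply Subtype.ext
      push_cast
      field_simp
    have hsingle : (HahnSeries.single (-((K : ℤ) + 1)) e : LaurentSeries A) =
        HahnSeries.single (-((K : ℤ) + 1)) 1 * HahnSeries.C e := by
      rw [HahnSeries.C_apply, HahnSeries.single_mul_single, add_zero, one_mul]
    have hf' : f = g + HahnSeries.single (-((K : ℤ) + 1)) e := by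
      rw [hg]; ring
    rw [hf', hsingle]
    exact Ideal.add_mem _ hgmem (Ideal.mul_mem_left _ _ hemem)

/-- a primitive series is a unit modulo any nonzero constant -/
theorem exists_approx_inv (hA : Arch A) {c : A} (hc : c ≠ 0) {Y : LaurentSeries A}
    (hY : kronRed A Y ≠ 0) :
    ∃ W T : LaurentSeries A, Y * W = 1 + HahnSeries.C c * T := by
  classical
  obtain ⟨V, hV⟩ := exists_kronRed_eq (A := A) (kronRed A Y)⁻¹
  set E : LaurentSeries A := Y * V - 1 with hE
  have hEred : kronRed A E = 0 := by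
    rw [hE, map_sub, map_mul, hV, mul_inv_cancel₀ hY, map_one, sub_self]
  have hEm : ∀ n, E.coeff n ∈ IsLocalRing.maximalIdeal A := by
    intro n
    have h1 := congrArg (fun g : LaurentSeries (IsLocalRing.ResidueField A) => g.coeff n) hEred
    simp only [coeffMap_coeff, HahnSeries.coeff_zero] at h1
    exact (IsLocalRing.residue_eq_zero_iff _).1 h1
  set Em : LaurentSeries A := HahnSeries.truncLT 0 E with hEm_def
  set U : LaurentSeries A := 1 + (E - Em) with hU
  have hUneg : ∀ n : ℤ, n < 0 → U.coeff n = 0 := by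
    intro n hn
    rw [hU, HahnSeries.coeff_add, HahnSeries.coeff_sub, hEm_def, HahnSeries.coeff_truncLT,
      if_pos hn, HahnSeries.coeff_one, if_neg hn.ne, sub_self, add_zero]
  have hUzero : U.coeff 0 = 1 + E.coeff 0 := by
    rw [hU, HahnSeries.coeff_add, HahnSeries.coeff_sub, hEm_def, HahnSeries.coeff_truncLT,
      if_neg (lt_irrefl _), HahnSeries.coeff_one, if_pos rfl, sub_zero]
  have hunit0 : IsUnit (1 + E.coeff 0) := by
    rw [← IsLocalRing.residue_ne_zero_iff_isUnit, map_add, map_one,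
      (IsLocalRing.residue_eq_zero_iff _).2 (hEm 0), add_zero]
    exact one_ne_zero
  have hU0c : U.coeff 0 ≠ 0 := by
    rw [hUzero]
    exact hunit0.ne_zero
  have hU0 : U ≠ 0 := by
    intro h0
    rw [h0, HahnSeries.coeff_zero] at hU0c
    exact hU0c rfl
  have hUord : U.order = 0 := by
    apply le_antisymm
    · exact HahnSeries.order_le_of_coeff_ne_zero hU0c
    · rw [HahnSeries.le_order_iff_forall hU0]
      intro m hm
      exact hUneg m hm
  have hUunit : IsUnit U := by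
    rw [HahnSeries.isUnit_iff, HahnSeries.leadingCoeff_eq, hUord, hUzero]
    exact hunit0
  set J : Ideal (LaurentSeries A) := Ideal.span {(HahnSeries.C c : LaurentSeries A)} with hJ
  have hEmrad : Em ∈ J.radical := by
    apply mem_radical_of_neg hA hc (-E.order).toNat Em
    · intro n
      rw [hEm_def, HahnSeries.coeff_truncLT]
      split_ifs
      · exact hEm n
      · exact Ideal.zero_mem _
    · intro n hn
      rw [hEm_def, HahnSeries.coeff_truncLT, if_neg (not_lt.2 hn)]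
    · intro n hn
      rw [hEm_def, HahnSeries.coeff_truncLT]
      split_ifs
      · apply HahnSeries.coeff_eq_zero_of_lt_order
        have := Int.self_le_toNat (-E.order)
        omega
      · rfl
  have hnil : IsNilpotent (Ideal.Quotient.mk J Em) := by
    obtain ⟨k, hk⟩ := hEmrad
    exact ⟨k, by rw [← map_pow]; exact Ideal.Quotient.eq_zero_iff_mem.2 hk⟩
  have hYV : Y * V = U + Em := by
    rw [hU, hE]; ring
  have hunit : IsUnit (Ideal.Quotient.mk J (Y * V)) := by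
    rw [hYV, map_add]
    have hcomm : Commute (Ideal.Quotient.mk J Em) (Ideal.Quotient.mk J U) :=
      (Commute.all Em U).map (Ideal.Quotient.mk J)
    exact hnil.isUnit_add_left_of_commute (hUunit.map _) hcomm
  rw [map_mul] at hunit
  have hunitY : IsUnit (Ideal.Quotient.mk J Y) := by
    letI : CommMonoid (LaurentSeries A ⧸ J) := (Ideal.Quotient.commRing J).toCommMonoid
    exact isUnit_of_mul_isUnit_left hunit
  obtain ⟨w, hw⟩ := hunitY.exists_right_inv
  obtain ⟨W, rfl⟩ := Ideal.Quotient.mk_surjective w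
  rw [← map_mul, ← map_one (Ideal.Quotient.mk J), Ideal.Quotient.eq, hJ,
    Ideal.mem_span_singleton'] at hw
  obtain ⟨T, hT⟩ := hw
  exact ⟨W, T, by rw [mul_comm (HahnSeries.C c), hT]; ring⟩

/-- **Gauss step**: bounded denominators + Gauss-integral (fraction form) ⟹ integral. -/
theorem kronInt_of_bounded (hA : Arch A) {x Y₁ Y₂ : LaurentSeries L} {c : L} (hc : c ≠ 0)
    (hcx : KronInt A (HahnSeries.C c * x)) (hY₁ : KronInt A Y₁) (hY₂ : KronPrim A Y₂)
    (hfrac : x * Y₂ = Y₁) : KronInt A x := by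
  by_cases hcA : c ∈ A
  · obtain ⟨Z, hZ⟩ := hcx.exists_lift
    obtain ⟨F₁, hF₁⟩ := hY₁.exists_lift
    obtain ⟨F₂, rfl⟩ := hY₂.1.exists_lift
    rw [kronPrim_kronIncl_iff] at hY₂
    have hc' : (⟨c, hcA⟩ : A) ≠ 0 := fun h => hc (congrArg Subtype.val h)
    obtain ⟨W, T, hWT⟩ := exists_approx_inv hA hc' hY₂
    have hCc : kronIncl A (HahnSeries.C (⟨c, hcA⟩ : A)) = HahnSeries.C c := by
      rw [HahnSeries.C_apply, HahnSeries.C_apply, coeffMap_single]
      rfl
    have h1 := congrArg (kronIncl A) hWT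
    rw [map_mul, map_add, map_one, map_mul, hCc] at h1
    have h2 : x = kronIncl A (F₁ * W - Z * T) := by
      rw [map_sub, map_mul, map_mul, hF₁, hZ, ← hfrac]
      linear_combination (-x) * h1
    rw [h2]
    exact kronInt_kronIncl _
  · have hinv : c⁻¹ ∈ A := (A.mem_or_inv_mem c).resolve_left hcA
    have h2 : x = HahnSeries.C c⁻¹ * (HahnSeries.C c * x) := by
      rw [← mul_assoc, ← map_mul, inv_mul_cancel₀ hc, map_one, one_mul]
    rw [h2]
    exact (kronInt_C hinv).mul hcx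

end Fermat.Agent.ES.LR

end
end ZBES_002_3

/-! ### bundled: `Fermat.Agent.ES.LR.Arch` -/
section ZBES_002_4
/-
ES-LR, the archimedean property (helper15).

`arch_of_liesOver` : a valuation subring `A` of a field `L` algebraic over `ℚ`, lying over a prime
`ℓ`, has rank one:  for `δ ∈ 𝔪_A` and `c ≠ 0` some power `δ ^ k` is divisible by `c` in `A`.
-/

set_option autoImplicit false

noncomputable section

namespace Fermat.Agent.ES.LR

open Polynomial

variable {L : Type*} [Field L] (A : ValuationSubring L)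

/-- integers lie in `A` -/
theorem arch_intCast_mem (n : ℤ) : (n : L) ∈ A := by
  exact intCast_mem A n

/-- integers prime to `ℓ` are units of `A` -/
theorem arch_val_eq_one {ℓ : ℕ} (hℓ : ℓ.Prime) (hA : A.LiesOverPrime ℓ) {u : ℤ}
    (hu : ¬ (ℓ : ℤ) ∣ u) : A.valuation (u : L) = 1 := by
  apply le_antisymm ((ValuationSubring.valuation_le_one_iff A _).2 (arch_intCast_mem A u))
  by_contra hlt
  rw [not_le] at hlt
  have hcop : IsCoprime (ℓ : ℤ) u :=
    (Prime.coprime_iff_not_dvd (Nat.prime_iff_prime_int.1 hℓ)).2 hu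
  obtain ⟨a, b, hab⟩ := hcop
  have h1 : (a : L) * (ℓ : L) + (b : L) * (u : L) = 1 := by
    have := congrArg (Int.cast : ℤ → L) hab
    push_cast at this
    exact this
  have hℓ' : A.valuation (ℓ : L) < 1 := (ValuationSubring.mem_nonunits_iff (A := A)).1 hA
  have h2 : A.valuation ((a : L) * (ℓ : L)) < 1 := by
    rw [map_mul]
    calc A.valuation (a : L) * A.valuation (ℓ : L) ≤ 1 * A.valuation (ℓ : L) :=
          mul_le_mul' ((ValuationSubring.valuation_le_one_iff A _).2 (arch_intCast_mem A a)) le_rfl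
      _ = A.valuation (ℓ : L) := one_mul _
      _ < 1 := hℓ'
  have h3 : A.valuation ((b : L) * (u : L)) < 1 := by
    rw [map_mul]
    calc A.valuation (b : L) * A.valuation (u : L) ≤ 1 * A.valuation (u : L) :=
          mul_le_mul' ((ValuationSubring.valuation_le_one_iff A _).2 (arch_intCast_mem A b)) le_rfl
      _ = A.valuation (u : L) := one_mul _
      _ < 1 := hlt
  have h4 := Valuation.map_add_lt A.valuation h2 h3
  rw [h1, map_one] at h4
  exact lt_irrefl _ h4

/-- a nonzero integer has the valuation of a power of `ℓ` -/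
theorem arch_val_int {ℓ : ℕ} (hℓ : ℓ.Prime) (hA : A.LiesOverPrime ℓ) {r : ℤ} (hr : r ≠ 0) :
    ∃ e : ℕ, A.valuation (r : L) = A.valuation (ℓ : L) ^ e := by
  obtain ⟨e, n', hn', hrn⟩ := Nat.exists_eq_pow_mul_and_not_dvd (Int.natAbs_ne_zero.2 hr) ℓ
    hℓ.ne_one
  refine ⟨e, ?_⟩
  have hu : ¬ (ℓ : ℤ) ∣ (n' : ℤ) := fun h => hn' (Int.natCast_dvd_natCast.1 h)
  have h1 := arch_val_eq_one A hℓ hA hu
  have h2 : A.valuation (r : L) = A.valuation ((r.natAbs : ℤ) : L) := by
    rcases Int.natAbs_eq r with h | h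
    · rw [← h]
    · conv_lhs => rw [h]
      rw [Int.cast_neg, Valuation.map_neg]
  rw [h2, hrn]
  push_cast
  rw [map_mul, map_pow]
  have h3 : A.valuation ((n' : ℤ) : L) = A.valuation (n' : L) := by push_cast; rfl
  rw [← h3, h1, mul_one]

/-- elements integral over `ℤ` lie in `A` -/
theorem arch_mem_of_isIntegral {x : L} (hx : IsIntegral ℤ x) : x ∈ A := by
  have hx' : IsIntegral A x := hx.tower_top
  obtain ⟨y, hy⟩ := IsIntegrallyClosed.isIntegral_iff.mp hx'
  rw [← hy]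
  exact y.2

/-- every nonzero algebraic element divides a power of `ℓ` up to `A` -/
theorem arch_pow_div_mem {ℓ : ℕ} (hℓ : ℓ.Prime) (hA : A.LiesOverPrime ℓ) {c : L} (_hc : c ≠ 0)
    (halg : IsAlgebraic ℤ c) : ∃ e : ℕ, (ℓ : L) ^ e / c ∈ A := by
  have halg' : IsAlgebraic ℤ c⁻¹ := halg.inv
  obtain ⟨y, hy0, hy⟩ := halg'.exists_integral_multiple
  have h1 := arch_mem_of_isIntegral A hy
  obtain ⟨e, he⟩ := arch_val_int A hℓ hA hy0
  refine ⟨e, ?_⟩
  rw [← ValuationSubring.valuation_le_one_iff] at h1 ⊢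
  rw [zsmul_eq_mul, map_mul, he] at h1
  rw [div_eq_mul_inv, map_mul, map_pow]
  exact h1

/-- every element of the maximal ideal has a power divisible by `ℓ` -/
theorem arch_pow_div_prime [CharZero L] {ℓ : ℕ} (hℓ : ℓ.Prime) (hA : A.LiesOverPrime ℓ) {δ : L}
    (hδ : δ ∈ A.nonunits) (halg : IsAlgebraic ℤ δ) : ∃ m : ℕ, δ ^ m / (ℓ : L) ∈ A := by
  classical
  by_cases hδ0 : δ = 0
  · refine ⟨1, ?_⟩
    rw [hδ0, pow_one, zero_div]
    exact A.zero_mem
  obtain ⟨p, hp0, hp⟩ := halg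
  have hq := aeval_primPart_eq_zero hp0 hp
  set q := p.primPart with hq_def
  have hprim : q.IsPrimitive := isPrimitive_primPart p
  have hex : ∃ i, ¬ (ℓ : ℤ) ∣ q.coeff i := by
    by_contra hcon
    push Not at hcon
    have h1 := hprim (ℓ : ℤ) ((C_dvd_iff_dvd_coeff _ _).2 hcon)
    rw [Int.isUnit_iff_natAbs_eq, Int.natAbs_natCast] at h1
    exact hℓ.ne_one h1
  set i₀ := Nat.find hex with hi₀_def
  have hi₀ : ¬ (ℓ : ℤ) ∣ q.coeff i₀ := Nat.find_spec hex
  have hlt : ∀ i < i₀, (ℓ : ℤ) ∣ q.coeff i := fun i hi => by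
    by_contra h
    exact Nat.find_min hex hi h
  set v := A.valuation with hv
  have hvδ : v δ < 1 := (ValuationSubring.mem_nonunits_iff (A := A)).1 hδ
  have hvδ0 : v δ ≠ 0 := (Valuation.ne_zero_iff _).2 hδ0
  have hvℓ0 : v (ℓ : L) ≠ 0 := (Valuation.ne_zero_iff _).2 (Nat.cast_ne_zero.2 hℓ.ne_zero)
  set t : ℕ → L := fun i => (q.coeff i : L) * δ ^ i with ht
  have hsum : ∑ i ∈ Finset.range (q.natDegree + 1), t i = 0 := by
    rw [← hq, aeval_eq_sum_range]
    refine Finset.sum_congr rfl fun i _ => ?_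
    rw [ht, zsmul_eq_mul]
  refine ⟨i₀, ?_⟩
  rw [← ValuationSubring.valuation_le_one_iff, map_div₀, map_pow]
  by_contra hcon
  rw [not_le] at hcon
  have hℓlt : v (ℓ : L) < v δ ^ i₀ := by
    have h1 := mul_lt_mul_of_pos_right hcon (zero_lt_iff.2 hvℓ0)
    rwa [one_mul, div_mul_cancel₀ _ hvℓ0] at h1
  have ht₀ : v (t i₀) = v δ ^ i₀ := by
    rw [ht]
    simp only
    rw [map_mul, map_pow, arch_val_eq_one A hℓ hA hi₀, one_mul]
  have ht₀0 : v (t i₀) ≠ 0 := by
    rw [ht₀]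
    exact pow_ne_zero _ hvδ0
  have hi₀mem : i₀ ∈ Finset.range (q.natDegree + 1) := by
    rw [Finset.mem_range, Nat.lt_succ_iff]
    apply le_natDegree_of_ne_zero
    intro h0
    exact hi₀ (h0 ▸ dvd_zero _)
  have hint : ∀ n : ℤ, v (n : L) ≤ 1 := fun n =>
    (ValuationSubring.valuation_le_one_iff A _).2 (arch_intCast_mem A n)
  have hother : ∀ i ∈ (Finset.range (q.natDegree + 1)).erase i₀, v (t i) < v (t i₀) := by
    intro i hi
    rw [Finset.mem_erase] at hi
    rcases lt_or_gt_of_ne hi.1 with h | h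
    · obtain ⟨b, hb⟩ := hlt i h
      have h1 : v (t i) ≤ v (ℓ : L) := by
        rw [ht]
        simp only
        rw [hb]
        push_cast
        rw [map_mul, map_mul, map_pow]
        calc v (ℓ : L) * v (b : L) * v δ ^ i ≤ v (ℓ : L) * 1 * 1 :=
              mul_le_mul' (mul_le_mul' le_rfl (hint b)) (pow_le_one₀ zero_le hvδ.le)
          _ = v (ℓ : L) := by rw [mul_one, mul_one]
      exact lt_of_le_of_lt h1 (by rw [ht₀]; exact hℓlt)
    · have h1 : v (t i) ≤ v δ ^ i := by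
        rw [ht]
        simp only
        rw [map_mul, map_pow]
        calc v (q.coeff i : L) * v δ ^ i ≤ 1 * v δ ^ i := mul_le_mul' (hint _) le_rfl
          _ = v δ ^ i := one_mul _
      refine lt_of_le_of_lt h1 ?_
      rw [ht₀]
      exact pow_lt_pow_right_of_lt_one₀ (zero_lt_iff.2 hvδ0) hvδ h
  have h1 := Valuation.map_sum_lt v ht₀0 hother
  rw [← Finset.add_sum_erase _ _ hi₀mem] at hsum
  have h2 := Valuation.map_add_eq_of_lt_left v h1
  rw [hsum, map_zero] at h2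
  exact ht₀0 h2.symm

/-- **rank one**: a valuation subring over `ℓ` of an algebraic extension of `ℚ` is archimedean -/
theorem arch_of_liesOver [CharZero L] (halg : ∀ x : L, IsAlgebraic ℤ x) {ℓ : ℕ} (hℓ : ℓ.Prime)
    (hA : A.LiesOverPrime ℓ) : Arch A := by
  intro δ c hδ hc
  obtain ⟨e, he⟩ := arch_pow_div_mem A hℓ hA hc (halg c)
  obtain ⟨m, hm⟩ := arch_pow_div_prime A hℓ hA hδ (halg δ)
  refine ⟨m * e, ?_⟩
  have hℓ0 : (ℓ : L) ≠ 0 := Nat.cast_ne_zero.2 hℓ.ne_zero
  have h1 : δ ^ (m * e) / c = (δ ^ m / (ℓ : L)) ^ e * ((ℓ : L) ^ e / c) := by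
    rw [pow_mul, div_pow]
    field_simp
  rw [h1]
  exact A.mul_mem _ _ (pow_mem hm e) he

/-- the case of `ℚ̄` -/
theorem arch_Qbar (A : ValuationSubring (AlgebraicClosure ℚ)) {ℓ : ℕ} (hℓ : ℓ.Prime)
    (hA : A.LiesOverPrime ℓ) : Arch A := by
  refine arch_of_liesOver A (fun x => ?_) hℓ hA
  have h0 : IsAlgebraic ℚ x := (AlgebraicClosure.isAlgebraic ℚ).isAlgebraic x
  exact (IsFractionRing.isAlgebraic_iff ℤ ℚ (AlgebraicClosure ℚ)).2 h0

end Fermat.Agent.ES.LR

end
end ZBES_002_4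

/-! ### bundled: `Fermat.Agent.UNIP.FrobLift` -/
section ZBES_002_5
/-
UNIP (item 34, S34/S35), complement of "FrStab" (helper20): the Frobenius lift on `A₀ = A ∩ E₀`.

`A` a valuation subring of `L` (think `L = ℚ̄`) over the prime `ℓ`, `τ` a Frobenius element at `A`,
`E₀ ⊆ L` an intermediate field stable under `σ` (in the application `σ = τ⁻¹`).
`A₀ := A.comap (algebraMap E₀ L)` (`= A ∩ E₀`, a valuation subring of `E₀`), `k₀` its residue field.

* `frobLiftField σ hE : E₀ →+* E₀`, `frobLiftRing σ hσ hE : A₀ →+* A₀` : the restrictions of `σ`;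
* `frobLift_residue_pow` : `residue (τ⁻¹ a) ^ ℓ = residue a` in `k₀`;
* `frobLift_residue` : `residue (τ⁻¹ a) = θ (residue a)` for every `θ : k₀ →+* k₀` with
  `(θ x) ^ ℓ = x` (the inverse of the Frobenius of `k₀`);
* `frobLift_charP` : `k₀` has characteristic `ℓ`.
These are the hypotheses `hψ`, `hθ` of `UNIP/FrStab.lean` for `ψE = frobLiftField`,
`ψA = frobLiftRing`, `ι = algebraMap A₀ E₀ = Subtype.val`, `r = residue`.
-/

set_option autoImplicit false
set_option linter.unusedSectionVars false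
set_option linter.unusedVariables false

noncomputable section

namespace Fermat.Agent.UNIP

open Fermat.Agent.ES

variable {K L : Type*} [Field K] [Field L] [Algebra K L] (A : ValuationSubring L)
  (E₀ : IntermediateField K L)

/-- restriction of `σ` to a `σ`-stable intermediate field -/
def frobLiftField (σ : L ≃ₐ[K] L) (hE : ∀ x ∈ E₀, σ x ∈ E₀) : E₀ →+* E₀ where
  toFun x := ⟨σ x, hE x x.2⟩
  map_one' := Subtype.ext (map_one σ)
  map_mul' x y := Subtype.ext (map_mul σ _ _)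
  map_zero' := Subtype.ext (map_zero σ)
  map_add' x y := Subtype.ext (map_add σ _ _)

@[simp] theorem frobLiftField_coe (σ : L ≃ₐ[K] L) (hE : ∀ x ∈ E₀, σ x ∈ E₀) (x : E₀) :
    ((frobLiftField E₀ σ hE x : E₀) : L) = σ x := rfl

theorem frobLift_mem (σ : L ≃ₐ[K] L) (hσ : σ ∈ A.decompositionSubgroup K)
    (hE : ∀ x ∈ E₀, σ x ∈ E₀) (a : A.comap (algebraMap E₀ L)) :
    frobLiftField E₀ σ hE (a : E₀) ∈ A.comap (algebraMap E₀ L) := by
  rw [ValuationSubring.mem_comap]
  have ha : ((a : E₀) : L) ∈ A := a.2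
  exact (kronDecompHom σ hσ ⟨_, ha⟩).2

/-- restriction of `σ` (in the decomposition group of `A`) to `A₀ = A ∩ E₀` -/
def frobLiftRing (σ : L ≃ₐ[K] L) (hσ : σ ∈ A.decompositionSubgroup K)
    (hE : ∀ x ∈ E₀, σ x ∈ E₀) :
    A.comap (algebraMap E₀ L) →+* A.comap (algebraMap E₀ L) where
  toFun a := ⟨frobLiftField E₀ σ hE (a : E₀), frobLift_mem A E₀ σ hσ hE a⟩
  map_one' := Subtype.ext (map_one (frobLiftField E₀ σ hE))
  map_mul' x y := Subtype.ext (map_mul (frobLiftField E₀ σ hE) _ _)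
  map_zero' := Subtype.ext (map_zero (frobLiftField E₀ σ hE))
  map_add' x y := Subtype.ext (map_add (frobLiftField E₀ σ hE) _ _)

@[simp] theorem frobLiftRing_coe (σ : L ≃ₐ[K] L) (hσ : σ ∈ A.decompositionSubgroup K)
    (hE : ∀ x ∈ E₀, σ x ∈ E₀) (a : A.comap (algebraMap E₀ L)) :
    ((frobLiftRing A E₀ σ hσ hE a : A.comap (algebraMap E₀ L)) : E₀) =
      frobLiftField E₀ σ hE (a : E₀) := rfl

/-- compatibility `hψ` of `FrStab`: `ψE (ι a) = ι (ψA a)` -/
theorem frobLift_compat (σ : L ≃ₐ[K] L) (hσ : σ ∈ A.decompositionSubgroup K)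
    (hE : ∀ x ∈ E₀, σ x ∈ E₀) (a : A.comap (algebraMap E₀ L)) :
    frobLiftField E₀ σ hE ((A.comap (algebraMap E₀ L)).subtype a) =
      (A.comap (algebraMap E₀ L)).subtype (frobLiftRing A E₀ σ hσ hE a) := rfl

/-- the inclusion `A₀ → A` -/
def frobLiftIncl : A.comap (algebraMap E₀ L) →+* A where
  toFun a := ⟨((a : E₀) : L), a.2⟩
  map_one' := rfl
  map_mul' _ _ := rfl
  map_zero' := rfl
  map_add' _ _ := rfl

theorem frobLiftIncl_coe (a : A.comap (algebraMap E₀ L)) :
    ((frobLiftIncl A E₀ a : A) : L) = ((a : E₀) : L) := rfl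

instance frobLiftIncl_isLocalHom : IsLocalHom (frobLiftIncl A E₀) := by
  constructor
  intro a ha
  obtain ⟨u, hu⟩ := ha
  have hinv : ((u⁻¹ : Aˣ) : A) * frobLiftIncl A E₀ a = 1 := by
    rw [← hu]; exact u.inv_mul
  have hL : (((u⁻¹ : Aˣ) : A) : L) * ((a : E₀) : L) = 1 := by
    exact congrArg (Subtype.val) hinv
  have ha0 : ((a : E₀) : L) ≠ 0 := right_ne_zero_of_mul_eq_one hL
  have ha0' : (a : E₀) ≠ 0 := fun h => ha0 (by rw [h]; rfl)
  have hval : (((u⁻¹ : Aˣ) : A) : L) = ((a : E₀) : L)⁻¹ := eq_inv_of_mul_eq_one_left hL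
  have hmem : (a : E₀)⁻¹ ∈ A.comap (algebraMap E₀ L) := by
    rw [ValuationSubring.mem_comap]
    show (((a : E₀)⁻¹ : E₀) : L) ∈ A
    rw [IntermediateField.coe_inv, ← hval]
    exact ((u⁻¹ : Aˣ) : A).2
  refine isUnit_iff_exists_inv.mpr ⟨⟨(a : E₀)⁻¹, hmem⟩, ?_⟩
  apply Subtype.ext
  show (a : E₀) * (a : E₀)⁻¹ = 1
  exact mul_inv_cancel₀ ha0'

/-- `k₀ → k_A` -/
def frobLiftResMap : IsLocalRing.ResidueField (A.comap (algebraMap E₀ L)) →+*
    IsLocalRing.ResidueField A :=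
  IsLocalRing.ResidueField.map (frobLiftIncl A E₀)

theorem frobLiftResMap_residue (a : A.comap (algebraMap E₀ L)) :
    frobLiftResMap A E₀ (IsLocalRing.residue _ a) = IsLocalRing.residue A (frobLiftIncl A E₀ a) :=
  rfl

theorem frobLiftResMap_injective : Function.Injective (frobLiftResMap A E₀) :=
  (frobLiftResMap A E₀).injective

/-- the residue field of `A₀` has characteristic `ℓ` -/
theorem frobLift_charP {ℓ : ℕ} (hℓ : ℓ.Prime) (hA : A.LiesOverPrime ℓ) :
    CharP (IsLocalRing.ResidueField (A.comap (algebraMap E₀ L))) ℓ := by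
  have := kron_charP_residueField (A := A) hℓ hA
  exact (frobLiftResMap A E₀).charP (frobLiftResMap_injective A E₀) ℓ

/-- `residue (τ⁻¹ a) ^ ℓ = residue a` in the residue field of `A₀` -/
theorem frobLift_residue_pow {ℓ : ℕ} (τ : L ≃ₐ[K] L) (hτ : A.IsFrobeniusAt τ ℓ)
    (hE : ∀ x ∈ E₀, τ.symm x ∈ E₀) (a : A.comap (algebraMap E₀ L)) :
    (IsLocalRing.residue _ (frobLiftRing A E₀ τ.symm
      (kron_symm_mem_decomposition hτ.mem_decompositionSubgroup) hE a)) ^ ℓ =
      IsLocalRing.residue _ a := by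
  apply frobLiftResMap_injective A E₀
  rw [map_pow, frobLiftResMap_residue, frobLiftResMap_residue]
  have h := kron_residue_frobenius τ hτ (frobLiftIncl A E₀ (frobLiftRing A E₀ τ.symm
      (kron_symm_mem_decomposition hτ.mem_decompositionSubgroup) hE a))
  rw [← h]
  congr 1
  apply Subtype.ext
  show τ (τ.symm ((a : E₀) : L)) = ((a : E₀) : L)
  exact τ.apply_symm_apply _

/-- hypothesis `hθ` of `FrStab`: `r (ψA a) = θ (r a)` for the inverse Frobenius `θ` of `k₀` -/
theorem frobLift_residue {ℓ : ℕ} (hℓ : ℓ.Prime) (hA : A.LiesOverPrime ℓ) (τ : L ≃ₐ[K] L)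
    (hτ : A.IsFrobeniusAt τ ℓ) (hE : ∀ x ∈ E₀, τ.symm x ∈ E₀)
    (θ : IsLocalRing.ResidueField (A.comap (algebraMap E₀ L)) →+*
      IsLocalRing.ResidueField (A.comap (algebraMap E₀ L)))
    (hθ : ∀ x, θ x ^ ℓ = x) (a : A.comap (algebraMap E₀ L)) :
    IsLocalRing.residue _ (frobLiftRing A E₀ τ.symm
      (kron_symm_mem_decomposition hτ.mem_decompositionSubgroup) hE a) =
      θ (IsLocalRing.residue _ a) := by
  have := frobLift_charP A E₀ hℓ hA
  have : Fact ℓ.Prime := ⟨hℓ⟩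
  apply frobenius_inj (IsLocalRing.ResidueField (A.comap (algebraMap E₀ L))) ℓ
  rw [frobenius_def, frobenius_def, frobLift_residue_pow A E₀ τ hτ hE a, hθ]

end Fermat.Agent.UNIP

end
end ZBES_002_5

/-! ### bundled: `Fermat.Agent.R38.TresDlog` -/
section ZBES_002_6

/-!
# Row 38, PKG-TRES, piece T1 (formal part): the logarithmic derivative on `k((q))` (helper42)

`θ = q d/dq` (`S28.Deriv.thetaFun`), `dlog f = θ f / f` on Laurent series over a field `k`.

* `r38dlog_mul`, `r38dlog_inv`, `r38dlog_div`, `r38dlog_pow`, `r38dlog_C` : the usual rules;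
* `r38dlog_pow_char` : `dlog (f ^ p) = 0` in characteristic `p`;
* `r38dlog_eq_zero_iff` : `dlog f = 0 ↔ θ f = 0` (`f ≠ 0`);
* `r38dlog_theta_eq_zero_iff` : in characteristic `p`, `θ f = 0 ↔ f` is a series in `q ^ p`
  (`f = qExpand k p g`);
* `r38dlog_exists_pow_of_theta_eq_zero` : over a perfect field of characteristic `p`,
  `θ f = 0 ↔ f` is a `p`-th power in `k((q))`;
* `r38dlog_eq_iff` : `dlog f = dlog g ↔ f / g` is a `p`-th power in `k((q))` (`k` perfect).
-/

set_option autoImplicit false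
set_option linter.unusedSectionVars false
set_option linter.style.haveILetI false

noncomputable section

namespace Fermat.Agent.R38

open HahnSeries ModularCurve Fermat.Agent.S28.Deriv Fermat.Agent.ES

variable {k : Type*} [Field k]

/-- **the logarithmic derivative** `θ f / f` on `k((q))` -/
def r38dlog (f : LaurentSeries k) : LaurentSeries k := thetaFun f * f⁻¹

theorem r38dlog_zero : r38dlog (0 : LaurentSeries k) = 0 := by
  rw [r38dlog, thetaFun_zero, zero_mul]

theorem r38dlog_one : r38dlog (1 : LaurentSeries k) = 0 := by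
  rw [r38dlog, thetaFun_one, zero_mul]

theorem r38dlog_C (a : k) : r38dlog (HahnSeries.C a : LaurentSeries k) = 0 := by
  rw [r38dlog, thetaFun_C, zero_mul]

theorem r38dlog_mul_self {f : LaurentSeries k} (hf : f ≠ 0) : r38dlog f * f = thetaFun f := by
  rw [r38dlog, mul_assoc, inv_mul_cancel₀ hf, mul_one]

theorem r38dlog_mul {f g : LaurentSeries k} (hf : f ≠ 0) (hg : g ≠ 0) :
    r38dlog (f * g) = r38dlog f + r38dlog g := by
  rw [r38dlog, r38dlog, r38dlog, thetaFun_mul]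
  field_simp
  ring

theorem r38dlog_inv (f : LaurentSeries k) : r38dlog f⁻¹ = -r38dlog f := by
  by_cases hf : f = 0
  · rw [hf, inv_zero, r38dlog_zero, neg_zero]
  · have h := r38dlog_mul hf (inv_ne_zero hf)
    rw [mul_inv_cancel₀ hf, r38dlog_one] at h
    exact eq_neg_of_add_eq_zero_right h.symm

theorem r38dlog_div {f g : LaurentSeries k} (hf : f ≠ 0) (hg : g ≠ 0) :
    r38dlog (f / g) = r38dlog f - r38dlog g := by
  rw [div_eq_mul_inv, r38dlog_mul hf (inv_ne_zero hg), r38dlog_inv, sub_eq_add_neg]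

theorem r38dlog_pow (f : LaurentSeries k) (n : ℕ) : r38dlog (f ^ n) = (n : LaurentSeries k) * r38dlog f := by
  by_cases hf : f = 0
  · rcases Nat.eq_zero_or_pos n with rfl | hn
    · rw [pow_zero, r38dlog_one, Nat.cast_zero, zero_mul]
    · rw [hf, zero_pow hn.ne', r38dlog_zero, mul_zero]
  · induction n with
    | zero => rw [pow_zero, r38dlog_one, Nat.cast_zero, zero_mul]
    | succ n ih =>
      rw [pow_succ, r38dlog_mul (pow_ne_zero n hf) hf, ih]
      push_cast
      ring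

theorem r38dlog_C_mul (a : k) (ha : a ≠ 0) {f : LaurentSeries k} (hf : f ≠ 0) :
    r38dlog (HahnSeries.C a * f) = r38dlog f := by
  have hC : (HahnSeries.C a : LaurentSeries k) ≠ 0 := by
    intro h
    apply ha
    have := congrArg (fun x : LaurentSeries k => x.coeff 0) h
    simpa using this
  rw [r38dlog_mul hC hf, r38dlog_C, zero_add]

theorem r38dlog_eq_zero_iff {f : LaurentSeries k} (hf : f ≠ 0) :
    r38dlog f = 0 ↔ thetaFun f = 0 := by
  rw [r38dlog, mul_eq_zero]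
  constructor
  · rintro (h | h)
    · exact h
    · exact absurd (inv_eq_zero.mp h) hf
  · intro h
    exact Or.inl h

section CharP

variable (p : ℕ) [hp : Fact p.Prime] [CharP k p]

/-- in characteristic `p`, `dlog (f ^ p) = 0` -/
theorem r38dlog_pow_char (f : LaurentSeries k) : r38dlog (f ^ p) = 0 := by
  rw [r38dlog_pow]
  have : ((p : ℕ) : LaurentSeries k) = 0 := by
    have h1 : ((p : ℕ) : LaurentSeries k) = HahnSeries.C ((p : ℕ) : k) := by
      rw [map_natCast]
    rw [h1, CharP.cast_eq_zero k p, map_zero]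
  rw [this, zero_mul]

/-- in characteristic `p`, `θ f = 0` iff `f` is supported on the multiples of `p` -/
theorem r38dlog_theta_eq_zero_iff_support (f : LaurentSeries k) :
    thetaFun f = 0 ↔ ∀ n : ℤ, f.coeff n ≠ 0 → (p : ℤ) ∣ n := by
  constructor
  · intro h n hn
    have h1 : (thetaFun f).coeff n = 0 := by rw [h]; rfl
    rw [thetaFun_coeff, mul_eq_zero] at h1
    rcases h1 with h1 | h1
    · exact (CharP.intCast_eq_zero_iff k p n).mp h1
    · exact absurd h1 hn
  · intro h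
    ext n
    rw [thetaFun_coeff]
    by_cases hn : f.coeff n = 0
    · rw [hn, mul_zero]; rfl
    · rw [(CharP.intCast_eq_zero_iff k p n).mpr (h n hn), zero_mul]; rfl

/-- in characteristic `p`, `θ f = 0` iff `f` is a series in `q ^ p` -/
theorem r38dlog_theta_eq_zero_iff (f : LaurentSeries k) :
    thetaFun f = 0 ↔ ∃ g : LaurentSeries k, f = qExpand k p g := by
  haveI : NeZero p := ⟨hp.out.ne_zero⟩
  rw [r38dlog_theta_eq_zero_iff_support p]
  constructor
  · intro h
    have hp0 : (0 : ℤ) < (p : ℤ) := by exact_mod_cast hp.out.pos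
    have hinj : Function.Injective (fun n : ℤ => (p : ℤ) * n) :=
      mul_right_injective₀ hp0.ne'
    have hb : BddBelow (Function.support (fun n : ℤ => f.coeff ((p : ℤ) * n))) := by
      refine ⟨-|f.order|, fun m hm0 => ?_⟩
      by_contra hm'
      have hm : m < -|f.order| := lt_of_not_ge hm'
      apply hm0
      show f.coeff ((p : ℤ) * m) = 0
      apply HahnSeries.coeff_eq_zero_of_lt_order
      have h1 : m < 0 := lt_of_lt_of_le hm (neg_nonpos.mpr (abs_nonneg _))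
      have h2 : (p : ℤ) * m ≤ m := by nlinarith
      have h3 : -|f.order| ≤ f.order := neg_abs_le _
      linarith
    refine ⟨HahnSeries.ofSuppBddBelow _ hb, ?_⟩
    · ext n
      by_cases hn : (p : ℤ) ∣ n
      · obtain ⟨m, rfl⟩ := hn
        rw [qExpand_coeff_mul]
        rfl
      · rw [qExpand_coeff_of_not_dvd p _ hn]
        by_contra h0
        exact hn (h n h0)
  · rintro ⟨g, rfl⟩ n hn
    by_contra hdvd
    exact hn (qExpand_coeff_of_not_dvd p g hdvd)

/-- over a perfect field of characteristic `p`, a series in `q ^ p` is a `p`-th power -/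
theorem r38dlog_qExpand_eq_pow [PerfectField k] (g : LaurentSeries k) :
    ∃ F : LaurentSeries k, F ^ p = qExpand k p g := by
  haveI : NeZero p := ⟨hp.out.ne_zero⟩
  haveI : ExpChar k p := ExpChar.prime hp.out
  refine ⟨coeffMap ((frobeniusEquiv k p).symm : k →+* k) g, ?_⟩
  rw [kron_frobenius_pow p]
  congr 1
  ext n
  rw [coeffMap_coeff, coeffMap_coeff]
  exact frobenius_apply_frobeniusEquiv_symm k p _

/-- **over a perfect field of characteristic `p`, `θ f = 0` iff `f` is a `p`-th power** -/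
theorem r38dlog_theta_eq_zero_iff_pow [PerfectField k] (f : LaurentSeries k) :
    thetaFun f = 0 ↔ ∃ F : LaurentSeries k, F ^ p = f := by
  constructor
  · intro h
    obtain ⟨g, rfl⟩ := (r38dlog_theta_eq_zero_iff p f).mp h
    exact r38dlog_qExpand_eq_pow p g
  · rintro ⟨F, rfl⟩
    by_cases hF : F = 0
    · rw [hF, zero_pow hp.out.ne_zero, thetaFun_zero]
    · exact (r38dlog_eq_zero_iff (pow_ne_zero p hF)).mp (r38dlog_pow_char p F)

/-- `dlog f = dlog g` iff `f / g` is a `p`-th power in `k((q))` (`k` perfect of characteristic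
`p`) -/
theorem r38dlog_eq_iff [PerfectField k] {f g : LaurentSeries k} (hf : f ≠ 0) (hg : g ≠ 0) :
    r38dlog f = r38dlog g ↔ ∃ F : LaurentSeries k, F ^ p = f / g := by
  rw [← r38dlog_theta_eq_zero_iff_pow p, ← r38dlog_eq_zero_iff (div_ne_zero hf hg),
    r38dlog_div hf hg, sub_eq_zero]

end CharP

end Fermat.Agent.R38

end
end ZBES_002_6

/-! ### bundled: `Fermat.Agent.R38.TresDlogHecke` -/
section ZBES_002_7

/-!
# Row 38, PKG-TRES, piece T2 (formal part): `dlog` of the multiplicative Hecke operator (helper42)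

On `q`-expansions the Hecke operator `T_ℓ` of the Jacobian is `x = [u] ↦ [kronHecke ℓ ζ u]`,
`kronHecke ℓ ζ u = u(q^ℓ) · ∏_{b<ℓ} u(ζ^b q^{1/ℓ})` (`ES/Kronecker.lean`).  The logarithmic derivative
turns it into the weight-2 Hecke operator on `q`-expansions:

* `r38dlog_kronNorm`  : `dlog (kronNorm ℓ ζ f) = kronCompress ℓ (dlog f)`  (`= U_ℓ (dlog f)`);
* `r38dlog_qExpand`   : `dlog (f(q^ℓ)) = ℓ · (dlog f)(q^ℓ)`;
* **`r38dlog_kronHecke`** : `dlog (kronHecke ℓ ζ f) = U_ℓ (dlog f) + ℓ · V_ℓ (dlog f)`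
  (`r38heckeT ℓ`), for `f ≠ 0`, `ζ` a primitive `ℓ`-th root of unity, `ℓ ≠ 0` in `k`.
-/

set_option autoImplicit false
set_option linter.unusedSectionVars false
set_option linter.style.haveILetI false

noncomputable section

namespace Fermat.Agent.R38

open HahnSeries ModularCurve Fermat.Agent.S28.Deriv Fermat.Agent.ES

variable {k : Type*} [Field k]

/-- the weight-2 Hecke operator on `q`-expansions: `a_n(T_ℓ b) = b_{ℓ n} + ℓ b_{n/ℓ}` -/
def r38heckeT (ℓ : ℕ) [NeZero ℓ] (b : LaurentSeries k) : LaurentSeries k :=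
  kronCompress ℓ b + HahnSeries.C ((ℓ : ℕ) : k) * qExpand k ℓ b

theorem r38heckeT_coeff (ℓ : ℕ) [NeZero ℓ] (b : LaurentSeries k) (n : ℤ) :
    (r38heckeT ℓ b).coeff n
      = b.coeff ((ℓ : ℤ) * n) + ((ℓ : ℕ) : k) * (qExpand k ℓ b).coeff n := by
  rw [r38heckeT, HahnSeries.coeff_add, kronCompress_coeff, HahnSeries.C_mul_eq_smul,
    HahnSeries.coeff_smul, smul_eq_mul]

theorem r38heckeT_add (ℓ : ℕ) [NeZero ℓ] (b c : LaurentSeries k) :
    r38heckeT ℓ (b + c) = r38heckeT ℓ b + r38heckeT ℓ c := by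
  ext n
  simp only [r38heckeT_coeff, HahnSeries.coeff_add, map_add]
  ring

theorem r38heckeT_zero (ℓ : ℕ) [NeZero ℓ] : r38heckeT ℓ (0 : LaurentSeries k) = 0 := by
  ext n
  simp [r38heckeT_coeff]

/-! ## `θ` and the substitutions -/

theorem r38dlog_theta_kronRot (c : kˣ) (f : LaurentSeries k) :
    thetaFun (kronRot c f) = kronRot c (thetaFun f) := by
  ext n
  rw [thetaFun_coeff, kronRot_coeff, kronRot_coeff, thetaFun_coeff]
  ring

theorem r38dlog_kronRot (c : kˣ) (f : LaurentSeries k) :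
    r38dlog (kronRot c f) = kronRot c (r38dlog f) := by
  rw [r38dlog, r38dlog, r38dlog_theta_kronRot, map_mul, map_inv₀]

theorem r38dlog_qExpand (ℓ : ℕ) [NeZero ℓ] (f : LaurentSeries k) :
    r38dlog (qExpand k ℓ f) = HahnSeries.C ((ℓ : ℕ) : k) * qExpand k ℓ (r38dlog f) := by
  rw [r38dlog, r38dlog, thetaFun_qExpand, map_mul, map_inv₀, mul_assoc]

theorem r38dlog_prod {ι : Type*} (s : Finset ι) (f : ι → LaurentSeries k)
    (hf : ∀ i ∈ s, f i ≠ 0) : r38dlog (∏ i ∈ s, f i) = ∑ i ∈ s, r38dlog (f i) := by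
  classical
  induction s using Finset.induction_on with
  | empty => simp [r38dlog_one]
  | insert a s ha ih =>
    rw [Finset.prod_insert ha, Finset.sum_insert ha,
      r38dlog_mul (hf a (Finset.mem_insert_self a s))
        (Finset.prod_ne_zero_iff.mpr fun i hi => hf i (Finset.mem_insert_of_mem hi)),
      ih fun i hi => hf i (Finset.mem_insert_of_mem hi)]

/-- `Σ_{b<ℓ} g(ζ^b q) = ℓ · (the part of g in q^ℓ)` -/
theorem r38dlog_sum_kronRot (ℓ : ℕ) [NeZero ℓ] (ζ : kˣ) (hζ : IsPrimitiveRoot ζ ℓ)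
    (g : LaurentSeries k) :
    ∑ b ∈ Finset.range ℓ, kronRot (ζ ^ b) g
      = HahnSeries.C ((ℓ : ℕ) : k) * qExpand k ℓ (kronCompress ℓ g) := by
  ext n
  rw [HahnSeries.coeff_sum, HahnSeries.C_mul_eq_smul, HahnSeries.coeff_smul, smul_eq_mul]
  simp only [kronRot_coeff]
  rw [← Finset.sum_mul]
  by_cases hn : (ℓ : ℤ) ∣ n
  · obtain ⟨m, rfl⟩ := hn
    rw [qExpand_coeff_mul, kronCompress_coeff]
    congr 1
    have h1 : ∀ b ∈ Finset.range ℓ, (((ζ ^ b) ^ ((ℓ : ℤ) * m) : kˣ) : k) = 1 := by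
      intro b _
      have : (ζ ^ b) ^ ((ℓ : ℤ) * m) = 1 := by
        rw [← zpow_natCast, ← zpow_mul, mul_comm (b : ℤ), mul_assoc, zpow_mul, zpow_natCast,
          hζ.pow_eq_one, one_zpow]
      rw [this, Units.val_one]
    rw [Finset.sum_congr rfl h1, Finset.sum_const, Finset.card_range, nsmul_eq_mul, mul_one]
  · rw [qExpand_coeff_of_not_dvd ℓ _ hn, mul_zero]
    have hne : ((ζ ^ n : kˣ) : k) ≠ 1 := by
      intro h
      apply hn
      rw [← hζ.zpow_eq_one_iff_dvd]
      exact Units.ext h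
    have h2 : ∑ b ∈ Finset.range ℓ, (((ζ ^ b) ^ n : kˣ) : k)
        = ∑ b ∈ Finset.range ℓ, ((ζ ^ n : kˣ) : k) ^ b := by
      refine Finset.sum_congr rfl fun b _ => ?_
      rw [← Units.val_pow_eq_pow_val]
      congr 1
      rw [← zpow_natCast, ← zpow_mul, mul_comm, zpow_mul, zpow_natCast]
    have h3 : (((ζ ^ n : kˣ) : k) - 1) * ∑ b ∈ Finset.range ℓ, ((ζ ^ n : kˣ) : k) ^ b = 0 := by
      rw [mul_geom_sum, ← Units.val_pow_eq_pow_val]
      have : (ζ ^ n) ^ ℓ = 1 := by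
        rw [← zpow_natCast, ← zpow_mul, mul_comm, zpow_mul, zpow_natCast, hζ.pow_eq_one, one_zpow]
      rw [this, Units.val_one, sub_self]
    rcases mul_eq_zero.mp h3 with h4 | h4
    · exact absurd (sub_eq_zero.mp h4) hne
    · rw [h2, h4, zero_mul]

/-! ## The norm and the Hecke operator -/

theorem r38dlog_C_natCast_ne_zero (ℓ : ℕ) (hℓ : ((ℓ : ℕ) : k) ≠ 0) :
    (HahnSeries.C ((ℓ : ℕ) : k) : LaurentSeries k) ≠ 0 := by
  intro h
  exact hℓ ((map_eq_zero (HahnSeries.C : k →+* LaurentSeries k)).mp h)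

/-- `dlog (kronRotProd ℓ ζ f) = ℓ · (the part of dlog f in q^ℓ)` -/
theorem r38dlog_kronRotProd (ℓ : ℕ) [NeZero ℓ] (ζ : kˣ) (hζ : IsPrimitiveRoot ζ ℓ)
    {f : LaurentSeries k} (hf : f ≠ 0) :
    r38dlog (kronRotProd ℓ ζ f)
      = HahnSeries.C ((ℓ : ℕ) : k) * qExpand k ℓ (kronCompress ℓ (r38dlog f)) := by
  rw [kronRotProd, r38dlog_prod _ _ fun b _ => (map_ne_zero (kronRot (ζ ^ b))).mpr hf]
  simp only [r38dlog_kronRot]
  exact r38dlog_sum_kronRot ℓ ζ hζ (r38dlog f)

/-- **`dlog (kronNorm ℓ ζ f) = U_ℓ (dlog f)`** -/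
theorem r38dlog_kronNorm (ℓ : ℕ) [NeZero ℓ] (hℓ : ((ℓ : ℕ) : k) ≠ 0) (ζ : kˣ)
    (hζ : IsPrimitiveRoot ζ ℓ) {f : LaurentSeries k} (hf : f ≠ 0) :
    r38dlog (kronNorm ℓ ζ f) = kronCompress ℓ (r38dlog f) := by
  have h1 := r38dlog_kronRotProd ℓ ζ hζ hf
  rw [← qExpand_kronNorm ℓ ζ hζ f, r38dlog_qExpand] at h1
  have h2 := mul_left_cancel₀ (r38dlog_C_natCast_ne_zero ℓ hℓ) h1
  exact (qExpand k ℓ).injective h2

theorem r38dlog_kronNorm_ne_zero (ℓ : ℕ) [NeZero ℓ] (ζ : kˣ) (hζ : IsPrimitiveRoot ζ ℓ)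
    {f : LaurentSeries k} (hf : f ≠ 0) : kronNorm ℓ ζ f ≠ 0 := by
  intro h
  have h1 := qExpand_kronNorm ℓ ζ hζ f
  rw [h, map_zero] at h1
  have h2 : kronRotProd ℓ ζ f ≠ 0 := by
    rw [kronRotProd]
    exact Finset.prod_ne_zero_iff.mpr fun b _ => (map_ne_zero (kronRot (ζ ^ b))).mpr hf
  exact h2 h1.symm

/-- **`dlog` turns the multiplicative Hecke operator into the weight-2 Hecke operator on
`q`-expansions.** -/
theorem r38dlog_kronHecke (ℓ : ℕ) [NeZero ℓ] (hℓ : ((ℓ : ℕ) : k) ≠ 0) (ζ : kˣ)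
    (hζ : IsPrimitiveRoot ζ ℓ) {f : LaurentSeries k} (hf : f ≠ 0) :
    r38dlog (kronHecke ℓ ζ f) = r38heckeT ℓ (r38dlog f) := by
  rw [kronHecke, r38dlog_mul ((map_ne_zero (qExpand k ℓ)).mpr hf)
    (r38dlog_kronNorm_ne_zero ℓ ζ hζ hf), r38dlog_qExpand, r38dlog_kronNorm ℓ hℓ ζ hζ hf,
    r38heckeT, add_comm]

end Fermat.Agent.R38

end
end ZBES_002_7

/-! ### bundled: `Fermat.Agent.R38.TresDlogAlg` -/
section ZBES_002_8

/-!
# Row 38, PKG-TRES, piece T1 (algebra) (helper66): the kernel of `θ = q d/dq` on a function field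

`k` a perfect field of characteristic `p`, `K` a field finite over `k(s)`, `s` transcendental.

* `tres1_relfinrank_pow` : `[K : K^p] = p`;
* `tres1_eq_pow_of_ne_top` : a proper subfield of `K` containing `K^p` is `K^p`;
* `tres1_exists_pow_of_theta_eq_zero` : for `K ⊂ k((q))` containing some `t` with `θ t ≠ 0`:
  `f ∈ K`, `θ f = 0` ⇒ `f = g ^ p` with `g ∈ K`   ("`k(C) ∩ k((q^p)) = k(C)^p`");
* `tres1_dlog_eq_zero_iff`, `tres1_dlog_eq_iff` : for `f, g ∈ K` nonzero: `r38dlog f = 0 ↔ f ∈ K^p`,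
  `r38dlog f = r38dlog g ↔ f / g ∈ K^p` (`r38dlog` of `R38/TresDlog.lean`, which has the same
  statements with `p`-th powers in `k((q))` only).
-/

set_option autoImplicit false

namespace Fermat.Agent.R38

open Polynomial IntermediateField

/-! ### `[K : K^p] = p` -/

section Abstract

variable {K : Type*} [Field K] (p : ℕ) [hp : Fact p.Prime] [CharP K p]

/-- the subfield `K^p` of `p`-th powers -/
def tres1Pow (K : Type*) [Field K] (p : ℕ) [Fact p.Prime] [CharP K p] : Subfield K :=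
  (⊤ : Subfield K).map (frobenius K p)

theorem tres1_mem_pow {x : K} : x ∈ tres1Pow K p ↔ ∃ y : K, y ^ p = x := by
  unfold tres1Pow
  rw [Subfield.mem_map]
  constructor
  · rintro ⟨y, -, rfl⟩
    exact ⟨y, rfl⟩
  · rintro ⟨y, rfl⟩
    exact ⟨y, Subfield.mem_top y, rfl⟩

theorem tres1_map_le (E₀ : Subfield K) : E₀.map (frobenius K p) ≤ E₀ := by
  intro x hx
  rw [Subfield.mem_map] at hx
  obtain ⟨y, hy, rfl⟩ := hx
  exact pow_mem hy p

/-- `[K : K^p] = p` as soon as some subfield `E₀` has `[K : E₀] < ∞` and `[E₀ : E₀^p] = p`. -/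
theorem tres1_relfinrank_pow (E₀ : Subfield K) (hfin : Subfield.relfinrank E₀ ⊤ ≠ 0)
    (hE₀ : Subfield.relfinrank (E₀.map (frobenius K p)) E₀ = p) :
    Subfield.relfinrank (tres1Pow K p) ⊤ = p := by
  set E' := E₀.map (frobenius K p) with hE'
  have h1 : E' ≤ E₀ := tres1_map_le p E₀
  have h2 : E' ≤ tres1Pow K p := by
    intro x hx
    obtain ⟨y, -, rfl⟩ := Subfield.mem_map.mp hx
    exact Subfield.mem_map.mpr ⟨y, Subfield.mem_top y, rfl⟩
  have e1 := Subfield.relfinrank_mul_relfinrank h1 (le_top : E₀ ≤ ⊤)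
  have e2 := Subfield.relfinrank_mul_relfinrank h2 (le_top : tres1Pow K p ≤ ⊤)
  have e3 : Subfield.relfinrank E' (tres1Pow K p) = Subfield.relfinrank E₀ ⊤ :=
    Subfield.relfinrank_map_map E₀ ⊤ (frobenius K p)
  rw [hE₀] at e1
  rw [e3, ← e1] at e2
  exact Nat.eq_of_mul_eq_mul_left (Nat.pos_of_ne_zero hfin) (e2.trans (mul_comm p _))

/-- a proper subfield containing `K^p` is `K^p` (when `[K : K^p] = p`) -/
theorem tres1_eq_pow_of_ne_top (hrank : Subfield.relfinrank (tres1Pow K p) ⊤ = p)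
    (Z : Subfield K) (hZ : tres1Pow K p ≤ Z) (hZne : Z ≠ ⊤) : Z = tres1Pow K p := by
  have e := Subfield.relfinrank_mul_relfinrank hZ (le_top : Z ≤ ⊤)
  rw [hrank] at e
  rcases (Nat.Prime.eq_one_or_self_of_dvd hp.out _ (Dvd.intro_left _ e)) with h | h
  · exact absurd (top_le_iff.mp (Subfield.relfinrank_eq_one_iff.mp h)) hZne
  · rw [h] at e
    have h1 : Subfield.relfinrank (tres1Pow K p) Z = 1 := by
      have hp0 : 0 < p := hp.out.pos
      exact Nat.eq_of_mul_eq_mul_right hp0 (by rw [e, one_mul])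
    exact le_antisymm (Subfield.relfinrank_eq_one_iff.mp h1) hZ

end Abstract

/-! ### `[k(s) : k(s)^p] = p` -/

section RatFunc

variable {k K : Type*} [Field k] [Field K] [Algebra k K] (p : ℕ) [hp : Fact p.Prime]

/-- a transcendental element `s` is not a `p`-th power in `k(s)` -/
theorem tres1_not_pow {s : K} (hs : Transcendental k s) (y : K) (hy : y ∈ k⟮s⟯) : y ^ p ≠ s := by
  intro h
  obtain ⟨a, b, rfl⟩ := (mem_adjoin_simple_iff k y).mp hy
  have hs0 : s ≠ 0 := fun h0 => hs (h0 ▸ isAlgebraic_zero)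
  by_cases hb : aeval s b = 0
  · rw [hb, div_zero, zero_pow hp.out.ne_zero] at h
    exact hs0 h.symm
  · have hb0 : b ≠ 0 := fun h0 => hb (by rw [h0, map_zero])
    rw [div_pow, div_eq_iff (pow_ne_zero p hb)] at h
    have h2 : aeval s (a ^ p - X * b ^ p) = 0 := by
      simp only [map_sub, map_mul, map_pow, aeval_X]
      rw [h]
      ring
    have h3 : a ^ p - X * b ^ p = 0 := by
      by_contra hne
      exact hs ⟨_, hne, h2⟩
    have h4 : a ^ p = X * b ^ p := sub_eq_zero.mp h3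
    have h5 := congrArg natDegree h4
    rw [natDegree_pow, natDegree_X_mul (pow_ne_zero p hb0), natDegree_pow] at h5
    have h6 : p ∣ 1 := by
      have h7 : p ∣ p * b.natDegree + 1 := h5 ▸ dvd_mul_right p _
      exact (Nat.dvd_add_right (dvd_mul_right p _)).mp h7
    exact hp.out.one_lt.ne' (Nat.dvd_one.mp h6)

variable [CharP K p] [CharP k p] [PerfectRing k p]

/-- `[k(s) : k(s)^p] = p` for `s` transcendental over the perfect field `k` -/
theorem tres1_relfinrank_adjoin {s : K} (hs : Transcendental k s) :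
    Subfield.relfinrank ((k⟮s⟯.toSubfield).map (frobenius K p)) k⟮s⟯.toSubfield = p := by
  set E₀ : Subfield K := k⟮s⟯.toSubfield with hE₀
  set E' : Subfield K := E₀.map (frobenius K p) with hE'
  have hle : E' ≤ E₀ := tres1_map_le p E₀
  rw [Subfield.relfinrank_eq_finrank_of_le hle]
  have hs' : s ∈ E₀ := mem_adjoin_simple_self k s
  have hsp : s ^ p ∈ E' := Subfield.mem_map.mpr ⟨s, hs', rfl⟩
  have hkE' : ∀ c : k, algebraMap k K c ∈ E' := by
    intro c
    obtain ⟨d, hd⟩ := surjective_frobenius k p c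
    refine Subfield.mem_map.mpr ⟨algebraMap k K d, ?_, ?_⟩
    · exact k⟮s⟯.algebraMap_mem d
    · rw [← hd, frobenius_def, frobenius_def, map_pow]
  have key : Subfield.extendScalars hle = IntermediateField.adjoin E' {s} := by
    apply le_antisymm
    · intro x hx
      have hx' : x ∈ E₀ := hx
      rw [hE₀, IntermediateField.adjoin_toSubfield] at hx'
      have hsub : Subfield.closure (Set.range (algebraMap k K) ∪ {s})
          ≤ (IntermediateField.adjoin E' {s}).toSubfield := by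
        rw [Subfield.closure_le]
        rintro z (⟨c, rfl⟩ | hz)
        · exact (IntermediateField.adjoin E' {s}).algebraMap_mem ⟨_, hkE' c⟩
        · rw [Set.mem_singleton_iff] at hz
          rw [hz]
          exact mem_adjoin_simple_self E' s
      exact hsub hx'
    · rw [IntermediateField.adjoin_le_iff]
      intro x hx
      rw [Set.mem_singleton_iff] at hx
      rw [hx]
      exact hs'
  rw [key]
  -- the minimal polynomial of `s` over `E'`
  set a' : E' := ⟨s ^ p, hsp⟩ with ha'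
  have hmonic : (X ^ p - C a' : E'[X]).Monic := monic_X_pow_sub_C a' hp.out.ne_zero
  have hroot : aeval s (X ^ p - C a' : E'[X]) = 0 := by
    simp only [map_sub, map_pow, aeval_X, aeval_C]
    exact sub_self _
  have hirr : Irreducible (X ^ p - C a' : E'[X]) := by
    rw [X_pow_sub_C_irreducible_iff_of_prime hp.out]
    intro b hb
    obtain ⟨y, hy, hyb⟩ := Subfield.mem_map.mp b.2
    have h1 : ((b : E') : K) ^ p = s ^ p := by
      have := congrArg (fun z : E' => (z : K)) hb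
      simpa using this
    rw [← hyb, frobenius_def] at h1
    have h2 : y ^ p = s := frobenius_inj K p (by rw [frobenius_def, frobenius_def]; exact h1)
    exact tres1_not_pow p hs y hy h2
  have hint : IsIntegral E' s := ⟨_, hmonic, hroot⟩
  rw [IntermediateField.adjoin.finrank hint,
    ← minpoly.eq_of_irreducible_of_monic hirr hroot hmonic, natDegree_X_pow_sub_C]

/-- **`[K : K^p] = p`** for a field `K` finite over `k(s)`, `k` perfect, `s` transcendental. -/
theorem tres1_relfinrank_pow_of_finite {s : K} (hs : Transcendental k s)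
    (hfin : FiniteDimensional k⟮s⟯ K) :
    Subfield.relfinrank (tres1Pow K p) ⊤ = p := by
  refine tres1_relfinrank_pow p k⟮s⟯.toSubfield ?_ (tres1_relfinrank_adjoin p hs)
  rw [Subfield.relfinrank_top_right]
  have h := Module.finrank_pos (R := k⟮s⟯) (M := K)
  exact h.ne'

end RatFunc

/-! ### the kernel of `θ` -/

section Laurent

open Fermat.Agent.S28.Deriv

variable {k : Type*} [Field k] (p : ℕ) [hp : Fact p.Prime] [CharP k p]

omit hp in
theorem tres1_natCast_eq_zero : ((p : ℕ) : LaurentSeries k) = 0 := by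
  have h : ((p : ℕ) : LaurentSeries k) = algebraMap k (LaurentSeries k) (p : k) := by
    rw [map_natCast]
  rw [h, CharP.cast_eq_zero, map_zero]

omit hp in
/-- `θ` kills `p`-th powers -/
theorem tres1_theta_pow (g : LaurentSeries k) : thetaFun (g ^ p) = 0 := by
  rw [thetaFun_pow, tres1_natCast_eq_zero, zero_mul, zero_mul]

/-- `θ (f⁻¹) = 0` if `θ f = 0` -/
theorem tres1_theta_inv {f : LaurentSeries k} (hf : thetaFun f = 0) : thetaFun f⁻¹ = 0 := by
  by_cases h0 : f = 0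
  · rw [h0, inv_zero, thetaFun_zero]
  · have h1 : thetaFun (f * f⁻¹) = 0 := by rw [mul_inv_cancel₀ h0, thetaFun_one]
    rw [thetaFun_mul, hf, mul_zero, add_zero] at h1
    exact (mul_eq_zero.mp h1).resolve_left h0

/-- the kernel of `θ` in an intermediate field `Kf ⊂ k((q))`, as a subfield of `Kf` -/
def tres1Ker (Kf : IntermediateField k (LaurentSeries k)) : Subfield Kf where
  carrier := {f | thetaFun (f : LaurentSeries k) = 0}
  mul_mem' := by
    intro a b ha hb
    show thetaFun ((a : LaurentSeries k) * (b : LaurentSeries k)) = 0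
    rw [thetaFun_mul, show thetaFun (a : LaurentSeries k) = 0 from ha,
      show thetaFun (b : LaurentSeries k) = 0 from hb, mul_zero, mul_zero, add_zero]
  one_mem' := thetaFun_one
  add_mem' := by
    intro a b ha hb
    show thetaFun ((a : LaurentSeries k) + (b : LaurentSeries k)) = 0
    rw [thetaFun_add, show thetaFun (a : LaurentSeries k) = 0 from ha,
      show thetaFun (b : LaurentSeries k) = 0 from hb, add_zero]
  zero_mem' := thetaFun_zero
  neg_mem' := by
    intro a ha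
    show thetaFun (-(a : LaurentSeries k)) = 0
    rw [thetaFun_neg, show thetaFun (a : LaurentSeries k) = 0 from ha, neg_zero]
  inv_mem' := by
    intro a ha
    show thetaFun ((a : LaurentSeries k)⁻¹) = 0
    exact tres1_theta_inv ha

theorem tres1_mem_ker {Kf : IntermediateField k (LaurentSeries k)} {f : Kf} :
    f ∈ tres1Ker Kf ↔ thetaFun (f : LaurentSeries k) = 0 := Iff.rfl

variable [PerfectRing k p]

/-- **T1 (algebra).**  `Kf ⊂ k((q))` finite over `k(s)` (`s` transcendental, `k` perfect of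
characteristic `p`), containing some `t` with `θ t ≠ 0`.  Then every `f ∈ Kf` with `θ f = 0` is a
`p`-th power in `Kf`. -/
theorem tres1_exists_pow_of_theta_eq_zero (Kf : IntermediateField k (LaurentSeries k))
    {s : Kf} (hs : Transcendental k s) (hfin : FiniteDimensional k⟮s⟯ Kf)
    {t : LaurentSeries k} (ht : t ∈ Kf) (hθt : thetaFun t ≠ 0)
    {f : LaurentSeries k} (hf : f ∈ Kf) (hθf : thetaFun f = 0) :
    ∃ g ∈ Kf, g ^ p = f := by
  have : CharP Kf p := charP_of_injective_algebraMap (algebraMap k Kf).injective p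
  have hrank := tres1_relfinrank_pow_of_finite (K := Kf) p hs hfin
  have hle : tres1Pow Kf p ≤ tres1Ker Kf := by
    intro x hx
    obtain ⟨y, rfl⟩ := (tres1_mem_pow p).mp hx
    show thetaFun (((y ^ p : Kf) : LaurentSeries k)) = 0
    rw [show ((y ^ p : Kf) : LaurentSeries k) = (y : LaurentSeries k) ^ p from rfl]
    exact tres1_theta_pow p _
  have hne : tres1Ker Kf ≠ ⊤ := by
    intro h
    have : (⟨t, ht⟩ : Kf) ∈ tres1Ker Kf := by rw [h]; exact Subfield.mem_top _
    exact hθt this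
  have heq := tres1_eq_pow_of_ne_top p hrank (tres1Ker Kf) hle hne
  have hmem : (⟨f, hf⟩ : Kf) ∈ tres1Pow Kf p := by
    rw [← heq]
    exact hθf
  obtain ⟨y, hy⟩ := (tres1_mem_pow p).mp hmem
  exact ⟨y, y.2, congrArg Subtype.val hy⟩

/-! ### `dlog` (`r38dlog` of `R38/TresDlog.lean`, helper42) -/

/-- **T1**: for `f ≠ 0` in `Kf`: `dlog f = 0 ↔ f` is a `p`-th power IN `Kf`. -/
theorem tres1_dlog_eq_zero_iff (Kf : IntermediateField k (LaurentSeries k))
    {s : Kf} (hs : Transcendental k s) (hfin : FiniteDimensional k⟮s⟯ Kf)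
    {t : LaurentSeries k} (ht : t ∈ Kf) (hθt : thetaFun t ≠ 0)
    {f : LaurentSeries k} (hf : f ∈ Kf) (hf0 : f ≠ 0) :
    r38dlog f = 0 ↔ ∃ g ∈ Kf, g ^ p = f := by
  rw [r38dlog_eq_zero_iff hf0]
  constructor
  · exact tres1_exists_pow_of_theta_eq_zero p Kf hs hfin ht hθt hf
  · rintro ⟨g, -, rfl⟩
    exact tres1_theta_pow p g

/-- **T1**: for `f, g ≠ 0` in `Kf`: `dlog f = dlog g ↔ f / g` is a `p`-th power IN `Kf`. -/
theorem tres1_dlog_eq_iff (Kf : IntermediateField k (LaurentSeries k))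
    {s : Kf} (hs : Transcendental k s) (hfin : FiniteDimensional k⟮s⟯ Kf)
    {t : LaurentSeries k} (ht : t ∈ Kf) (hθt : thetaFun t ≠ 0)
    {f g : LaurentSeries k} (hf : f ∈ Kf) (hg : g ∈ Kf) (hf0 : f ≠ 0) (hg0 : g ≠ 0) :
    r38dlog f = r38dlog g ↔ ∃ h ∈ Kf, h ^ p = f / g := by
  rw [← tres1_dlog_eq_zero_iff p Kf hs hfin ht hθt (Kf.div_mem hf hg) (div_ne_zero hf0 hg0),
    r38dlog_div hf0 hg0, sub_eq_zero]

end Laurent

end Fermat.Agent.R38


end ZBES_002_8

/-! ### bundled: `Fermat.Agent.R38.HolDer` -/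
section ZBES_002_9
/-
ROW 38, PKG-TRES, route HOL-dlog (sub-captain helper83), piece **HOL-DER** (helper55).

`k` a perfect field of characteristic `p`, `Kf ⊂ k((q))` a field finite over `k(s)`
(`s` transcendental), `t ∈ Kf` with `θ t ≠ 0` (`θ = q d/dq`, `thetaFun`).

* `r38hder_exists` : for every ring homomorphism `τ : Kf → k((q))` and every `f ∈ Kf` there is
  `g ∈ Kf` with `θ f = g · θ t` AND `θ (τ f) = τ g · θ (τ t)`:
  the derivation `D = θ / θ t` preserves `Kf` and commutes with `τ`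
  (`τ ∘ D = D_τ ∘ τ`, `D_τ = θ / θ (τ t)`).
  Proof (p-basis trick of helper56): the set of `f` with this property is a subfield of `Kf`
  containing `Kf^p` and `t ∉ Kf^p`; `[Kf : Kf^p] = p` (`tres1_relfinrank_pow_of_finite`).
* `r38hder_full_*` : the instance `Kf = F̄ = modularFunctionFieldFullC k N`, `s = t = j̄`:
  `r38hder_full_transcendental`, `r38hder_full_finite` (the hypotheses `hs`, `hfin` of
  `R38/TresDlogAlg.lean` for `F̄`), `r38hder_full_exists`, and
  `r38hder_full_mem : f ∈ F̄ → θ f / θ j̄ ∈ F̄`,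
  `r38hder_full_comm : τ (θ f / θ j̄) = θ (τ f) / θ (τ j̄)`.
-/

set_option autoImplicit false

namespace Fermat.Agent.R38

open Fermat.Agent.S28.Deriv IntermediateField

section Abs

variable {k : Type*} [Field k]

/-- `θ (f⁻¹) = − f⁻² θ f` -/
theorem r38hder_theta_inv {f : LaurentSeries k} (hf : f ≠ 0) :
    thetaFun f⁻¹ = -(f⁻¹ * f⁻¹ * thetaFun f) := by
  have h1 : thetaFun (f * f⁻¹) = 0 := by rw [mul_inv_cancel₀ hf, thetaFun_one]
  rw [thetaFun_mul] at h1
  have h2 : f * thetaFun f⁻¹ = -(f⁻¹ * thetaFun f) := eq_neg_of_add_eq_zero_left h1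
  calc thetaFun f⁻¹ = f⁻¹ * (f * thetaFun f⁻¹) := by
        rw [← mul_assoc, inv_mul_cancel₀ hf, one_mul]
    _ = -(f⁻¹ * f⁻¹ * thetaFun f) := by rw [h2]; ring

/-- The property of the pair `f, g ∈ Kf`: `θ f = g · θ t`, and `θ (τ f) = τ g · θ T`. -/
def R38HDerGood (Kf : IntermediateField k (LaurentSeries k)) (t : LaurentSeries k)
    (τ : Kf →+* LaurentSeries k) (T : LaurentSeries k) (f g : Kf) : Prop :=
  thetaFun (f : LaurentSeries k) = (g : LaurentSeries k) * thetaFun t ∧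
    thetaFun (τ f) = τ g * thetaFun T

/-- the subfield of the elements of `Kf` with a good derivative -/
def r38hderSub (Kf : IntermediateField k (LaurentSeries k)) (t : LaurentSeries k)
    (τ : Kf →+* LaurentSeries k) (T : LaurentSeries k) : Subfield Kf where
  carrier := {f | ∃ g : Kf, R38HDerGood Kf t τ T f g}
  mul_mem' := by
    rintro a b ⟨ga, ha1, ha2⟩ ⟨gb, hb1, hb2⟩
    refine ⟨a * gb + b * ga, ?_, ?_⟩
    · show thetaFun ((a : LaurentSeries k) * (b : LaurentSeries k)) =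
        ((a : LaurentSeries k) * (gb : LaurentSeries k) +
          (b : LaurentSeries k) * (ga : LaurentSeries k)) * thetaFun t
      rw [thetaFun_mul, ha1, hb1]
      ring
    · rw [map_mul, thetaFun_mul, ha2, hb2, map_add, map_mul, map_mul]
      ring
  one_mem' := by
    refine ⟨0, ?_, ?_⟩
    · show thetaFun (1 : LaurentSeries k) = (0 : LaurentSeries k) * thetaFun t
      rw [thetaFun_one, zero_mul]
    · rw [map_one, thetaFun_one, map_zero, zero_mul]
  add_mem' := by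
    rintro a b ⟨ga, ha1, ha2⟩ ⟨gb, hb1, hb2⟩
    refine ⟨ga + gb, ?_, ?_⟩
    · show thetaFun ((a : LaurentSeries k) + (b : LaurentSeries k)) =
        ((ga : LaurentSeries k) + (gb : LaurentSeries k)) * thetaFun t
      rw [thetaFun_add, ha1, hb1, add_mul]
    · rw [map_add, thetaFun_add, ha2, hb2, map_add, add_mul]
  zero_mem' := by
    refine ⟨0, ?_, ?_⟩
    · show thetaFun (0 : LaurentSeries k) = (0 : LaurentSeries k) * thetaFun t
      rw [thetaFun_zero, zero_mul]
    · rw [map_zero, thetaFun_zero, zero_mul]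
  neg_mem' := by
    rintro a ⟨ga, ha1, ha2⟩
    refine ⟨-ga, ?_, ?_⟩
    · show thetaFun (-(a : LaurentSeries k)) = (-(ga : LaurentSeries k)) * thetaFun t
      rw [thetaFun_neg, ha1, neg_mul]
    · rw [map_neg, thetaFun_neg, ha2, map_neg, neg_mul]
  inv_mem' := by
    rintro a ⟨ga, ha1, ha2⟩
    by_cases h0 : a = 0
    · refine ⟨0, ?_, ?_⟩
      · show thetaFun ((a : LaurentSeries k)⁻¹) = (0 : LaurentSeries k) * thetaFun t
        rw [h0]
        show thetaFun ((0 : LaurentSeries k)⁻¹) = _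
        rw [inv_zero, thetaFun_zero, zero_mul]
      · rw [h0, inv_zero, map_zero, thetaFun_zero, zero_mul]
    · have h0' : (a : LaurentSeries k) ≠ 0 := fun h => h0 (Subtype.ext h)
      have h0'' : τ a ≠ 0 := fun h => h0 ((map_eq_zero τ).mp h)
      refine ⟨-(a⁻¹ * a⁻¹ * ga), ?_, ?_⟩
      · show thetaFun ((a : LaurentSeries k)⁻¹) =
          (-((a : LaurentSeries k)⁻¹ * (a : LaurentSeries k)⁻¹ * (ga : LaurentSeries k))) *
            thetaFun t
        rw [r38hder_theta_inv h0', ha1]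
        ring
      · rw [map_inv₀, r38hder_theta_inv h0'', ha2, map_neg, map_mul, map_mul, map_inv₀]
        ring

theorem r38hder_mem_sub {Kf : IntermediateField k (LaurentSeries k)} {t : LaurentSeries k}
    {τ : Kf →+* LaurentSeries k} {T : LaurentSeries k} {f : Kf} :
    f ∈ r38hderSub Kf t τ T ↔ ∃ g : Kf, R38HDerGood Kf t τ T f g := Iff.rfl

/-- **HOL-DER, abstract form.**  `D = θ / θ t` preserves `Kf` and commutes with every
ring homomorphism `τ : Kf → k((q))`. -/
theorem r38hder_exists (p : ℕ) [hp : Fact p.Prime] [CharP k p] [PerfectRing k p]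
    (Kf : IntermediateField k (LaurentSeries k))
    {s : Kf} (hs : Transcendental k s) (hfin : FiniteDimensional k⟮s⟯ Kf)
    {t : LaurentSeries k} (ht : t ∈ Kf) (hθt : thetaFun t ≠ 0)
    (τ : Kf →+* LaurentSeries k) (f : Kf) :
    ∃ g : Kf, thetaFun (f : LaurentSeries k) = (g : LaurentSeries k) * thetaFun t ∧
      thetaFun (τ f) = τ g * thetaFun (τ ⟨t, ht⟩) := by
  have : CharP Kf p := charP_of_injective_algebraMap (algebraMap k Kf).injective p
  have hrank := tres1_relfinrank_pow_of_finite (K := Kf) p hs hfin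
  have hle : tres1Pow Kf p ≤ r38hderSub Kf t τ (τ ⟨t, ht⟩) := by
    intro x hx
    obtain ⟨y, rfl⟩ := (tres1_mem_pow p).mp hx
    refine ⟨0, ?_, ?_⟩
    · show thetaFun ((y : LaurentSeries k) ^ p) = (0 : LaurentSeries k) * thetaFun t
      rw [tres1_theta_pow p, zero_mul]
    · rw [map_pow, tres1_theta_pow p, map_zero, zero_mul]
  have htZ : (⟨t, ht⟩ : Kf) ∈ r38hderSub Kf t τ (τ ⟨t, ht⟩) := by
    refine ⟨1, ?_, ?_⟩
    · show thetaFun t = (1 : LaurentSeries k) * thetaFun t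
      rw [one_mul]
    · rw [map_one, one_mul]
  have hne : r38hderSub Kf t τ (τ ⟨t, ht⟩) ≠ tres1Pow Kf p := by
    intro h
    rw [h] at htZ
    obtain ⟨y, hy⟩ := (tres1_mem_pow p).mp htZ
    apply hθt
    have h1 : t = (y : LaurentSeries k) ^ p := (congrArg Subtype.val hy).symm
    rw [h1]
    exact tres1_theta_pow p _
  have htop : r38hderSub Kf t τ (τ ⟨t, ht⟩) = ⊤ := by
    by_contra h
    exact hne (tres1_eq_pow_of_ne_top p hrank _ hle h)
  have hf : f ∈ r38hderSub Kf t τ (τ ⟨t, ht⟩) := by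
    rw [htop]
    exact Subfield.mem_top f
  exact hf

end Abs

end Fermat.Agent.R38


end ZBES_002_9

/-! ### bundled: `Fermat.Agent.DEU.ResLaurent` -/
section ZBES_002_10

/-!
# DEU / MPR-res, step (ii): `p`-power roots in `k((q))`

`k` a perfect field of characteristic `p`.  A Laurent series is a `p`-th power iff all its
exponents are divisible by `p`; every non-constant Laurent series is `w ^ (p ^ e)` with `w` not a
`p`-th power (`resLaurent_exists_root`).
-/

set_option autoImplicit false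
set_option linter.unusedSectionVars false
set_option linter.style.haveILetI false

open ModularCurve HahnSeries

namespace Fermat.Agent.DEU

open Fermat.Agent.ES

variable {k : Type*} [Field k] (p : ℕ) [Fact p.Prime] [CharP k p]

theorem resLaurent_pow_eq (u : LaurentSeries k) :
    haveI : NeZero p := ⟨(Fact.out : p.Prime).ne_zero⟩
    u ^ p = qExpand k p (coeffMap (frobenius k p) u) := by
  haveI : NeZero p := ⟨(Fact.out : p.Prime).ne_zero⟩
  exact kron_frobenius_pow p u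

theorem resLaurent_coeff_pow_mul (u : LaurentSeries k) (n : ℤ) :
    (u ^ p).coeff ((p : ℤ) * n) = (u.coeff n) ^ p := by
  haveI : NeZero p := ⟨(Fact.out : p.Prime).ne_zero⟩
  rw [resLaurent_pow_eq, qExpand_coeff_mul]
  rfl

theorem resLaurent_coeff_pow_of_not_dvd (u : LaurentSeries k) {m : ℤ} (h : ¬ (p : ℤ) ∣ m) :
    (u ^ p).coeff m = 0 := by
  haveI : NeZero p := ⟨(Fact.out : p.Prime).ne_zero⟩
  rw [resLaurent_pow_eq]
  exact qExpand_coeff_of_not_dvd p _ h

variable [PerfectRing k p]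

/-- A Laurent series with exponents divisible by `p` is a `p`-th power. -/
theorem resLaurent_exists_pow_eq (y : LaurentSeries k)
    (h : ∀ m : ℤ, ¬ (p : ℤ) ∣ m → y.coeff m = 0) : ∃ w : LaurentSeries k, w ^ p = y := by
  haveI : NeZero p := ⟨(Fact.out : p.Prime).ne_zero⟩
  refine ⟨coeffMap ((frobeniusEquiv k p).symm : k →+* k) (kronCompress p y), ?_⟩
  rw [resLaurent_pow_eq]
  have h1 : coeffMap (frobenius k p)
      (coeffMap ((frobeniusEquiv k p).symm : k →+* k) (kronCompress p y)) = kronCompress p y := by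
    ext n
    change frobenius k p ((frobeniusEquiv k p).symm ((kronCompress p y).coeff n)) = _
    exact frobenius_apply_frobeniusEquiv_symm k p _
  rw [h1]
  exact qExpand_kronCompress p y h

/-- Every non-constant Laurent series is `w ^ (p ^ e)` with `w` not a `p`-th power. -/
theorem resLaurent_exists_root (y : LaurentSeries k) (hy : ∃ n : ℤ, n ≠ 0 ∧ y.coeff n ≠ 0) :
    ∃ (e : ℕ) (w : LaurentSeries k), w ^ (p ^ e) = y ∧ ∀ u : LaurentSeries k, u ^ p ≠ w := by
  have hp : p.Prime := Fact.out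
  obtain ⟨n, hn0, hn⟩ := hy
  induction hN : n.natAbs using Nat.strong_induction_on generalizing y n with
  | _ N ih =>
    by_cases hpow : ∃ u : LaurentSeries k, u ^ p = y
    · obtain ⟨u, rfl⟩ := hpow
      have hdvd : (p : ℤ) ∣ n := by
        by_contra hnd
        exact hn (resLaurent_coeff_pow_of_not_dvd p u hnd)
      obtain ⟨m, rfl⟩ := hdvd
      rw [resLaurent_coeff_pow_mul] at hn
      have hm : u.coeff m ≠ 0 := fun h0 => hn (by rw [h0, zero_pow hp.ne_zero])
      have hm0 : m ≠ 0 := fun h0 => hn0 (by rw [h0, mul_zero])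
      have hlt : m.natAbs < N := by
        rw [← hN, Int.natAbs_mul, Int.natAbs_natCast]
        have : 0 < m.natAbs := Int.natAbs_pos.mpr hm0
        calc m.natAbs = 1 * m.natAbs := (one_mul _).symm
          _ < p * m.natAbs := Nat.mul_lt_mul_of_pos_right hp.one_lt this
      obtain ⟨e, w, hw, hwp⟩ := ih m.natAbs hlt u m hm0 hm rfl
      exact ⟨e + 1, w, by rw [pow_succ, pow_mul, hw], hwp⟩
    · exact ⟨0, y, by simp, fun u hu => hpow ⟨u, hu⟩⟩

end Fermat.Agent.DEU


end ZBES_002_10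

/-! ### bundled: `Fermat.Agent.R38.TresRed` -/
section ZBES_002_11

/-!
# Row 38, PKG-TRES, piece TRES-RED (generic part): the Gauss reduction of a Laurent series (helper42)

`L` a field, `A` a valuation subring of `L`, `k` its residue field.  For `u ∈ L((q))`, `r ∈ k((q))`:

`R38Red A u r` : `u = c · Y₁ / Y₂` with `c ∈ L^×`, `Y₁, Y₂ ∈ A((q))` primitive (nonzero reduction)
and `r = Ȳ₁ / Ȳ₂` ("`r` is a Gauss reduction of `u`").

* `r38red_of_prim` : existence from a primitive fraction (the shape of `ES.G2.StmtPrim`);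
* `R38Red.one/const/mul/inv/div/pow` : multiplicativity;
* `R38Red.unique` : two reductions of `u` differ by a constant of `k^×`;
* `R38Red.dlog_eq` : hence `b̄ := dlog r` only depends on `u`;
* `R38Red.dlog_mul/…` : `b̄` is additive, kills constants and (`char k = p`) `p`-th powers;
* `R38Red.coeffMap_inertia` : the reduction does not change under inertia (acting on coefficients);
* `R38Red.qExpand/kronNorm/kronHecke` : the reduction commutes with `q ↦ q^ℓ`, with the norm and with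
  the multiplicative Hecke operator; `R38Red.dlog_kronHecke` : `b̄(T_ℓ u) = T_ℓ b̄(u)`.
-/

set_option autoImplicit false
set_option linter.unusedSectionVars false
set_option linter.style.haveILetI false

noncomputable section

namespace Fermat.Agent.R38

open HahnSeries ModularCurve Fermat.Agent.S28.Deriv Fermat.Agent.ES

section Red

variable {L : Type*} [Field L] (A : ValuationSubring L)

/-- `r ∈ k((q))` is a Gauss reduction of `u ∈ L((q))`: `u = c · Y₁ / Y₂`, `r = Ȳ₁ / Ȳ₂` with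
`Y₁, Y₂` primitive series over `A`. -/
def R38Red (u : LaurentSeries L) (r : LaurentSeries (IsLocalRing.ResidueField A)) : Prop :=
  ∃ (c : L) (Y₁ Y₂ : LaurentSeries A), c ≠ 0 ∧ kronRed A Y₁ ≠ 0 ∧ kronRed A Y₂ ≠ 0 ∧
    u * kronIncl A Y₂ = HahnSeries.C c * kronIncl A Y₁ ∧ r * kronRed A Y₂ = kronRed A Y₁

variable {A}

theorem r38red_incl_ne_zero {Y : LaurentSeries A} (hY : kronRed A Y ≠ 0) : kronIncl A Y ≠ 0 := by
  intro h
  apply hY
  have : Y = 0 := kronIncl_injective (by rw [h, map_zero])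
  rw [this, map_zero]

theorem r38red_C_ne_zero {c : L} (hc : c ≠ 0) : (HahnSeries.C c : LaurentSeries L) ≠ 0 := by
  intro h
  apply hc
  have := congrArg (fun f : LaurentSeries L => f.coeff 0) h
  simpa using this

theorem R38Red.ne_zero_left {u : LaurentSeries L}
    {r : LaurentSeries (IsLocalRing.ResidueField A)} (h : R38Red A u r) : u ≠ 0 := by
  obtain ⟨c, Y₁, Y₂, hc, h1, h2, hu, hr⟩ := h
  rintro rfl
  rw [zero_mul] at hu
  exact mul_ne_zero (r38red_C_ne_zero hc) (r38red_incl_ne_zero h1) hu.symm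

theorem R38Red.ne_zero_right {u : LaurentSeries L}
    {r : LaurentSeries (IsLocalRing.ResidueField A)} (h : R38Red A u r) : r ≠ 0 := by
  obtain ⟨c, Y₁, Y₂, hc, h1, h2, hu, hr⟩ := h
  rintro rfl
  rw [zero_mul] at hr
  exact h1 hr.symm

/-- existence of a reduction for a primitive fraction (the shape of `ES.G2.StmtPrim`) -/
theorem r38red_of_prim {u : LaurentSeries L} {c : L} (hc : c ≠ 0) {y₁ y₂ : LaurentSeries L}
    (hy₁ : KronPrim A y₁) (hy₂ : KronPrim A y₂) (hu : u * y₂ = HahnSeries.C c * y₁) :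
    ∃ r : LaurentSeries (IsLocalRing.ResidueField A), R38Red A u r := by
  obtain ⟨Y₁, rfl⟩ := hy₁.1.exists_lift
  obtain ⟨Y₂, rfl⟩ := hy₂.1.exists_lift
  have h1 := (kronPrim_kronIncl_iff Y₁).1 hy₁
  have h2 := (kronPrim_kronIncl_iff Y₂).1 hy₂
  exact ⟨kronRed A Y₁ * (kronRed A Y₂)⁻¹, c, Y₁, Y₂, hc, h1, h2, hu,
    by rw [mul_assoc, inv_mul_cancel₀ h2, mul_one]⟩

/-- a primitive series over `A` reduces to its reduction -/
theorem r38red_incl {Y : LaurentSeries A} (hY : kronRed A Y ≠ 0) :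
    R38Red A (kronIncl A Y) (kronRed A Y) :=
  ⟨1, Y, 1, one_ne_zero, hY, by rw [map_one]; exact one_ne_zero,
    by rw [map_one, map_one, mul_one, one_mul], by rw [map_one, mul_one]⟩

theorem R38Red.one : R38Red A (1 : LaurentSeries L) 1 :=
  ⟨1, 1, 1, one_ne_zero, by rw [map_one]; exact one_ne_zero, by rw [map_one]; exact one_ne_zero,
    by rw [map_one, map_one], by rw [map_one, mul_one]⟩

theorem R38Red.const {c : L} (hc : c ≠ 0) : R38Red A (HahnSeries.C c : LaurentSeries L) 1 :=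
  ⟨c, 1, 1, hc, by rw [map_one]; exact one_ne_zero, by rw [map_one]; exact one_ne_zero,
    by rw [map_one], by rw [map_one, mul_one]⟩

theorem R38Red.mul {u u' : LaurentSeries L} {r r' : LaurentSeries (IsLocalRing.ResidueField A)}
    (h : R38Red A u r) (h' : R38Red A u' r') : R38Red A (u * u') (r * r') := by
  obtain ⟨c, Y₁, Y₂, hc, h1, h2, hu, hr⟩ := h
  obtain ⟨c', Y₁', Y₂', hc', h1', h2', hu', hr'⟩ := h'
  refine ⟨c * c', Y₁ * Y₁', Y₂ * Y₂', mul_ne_zero hc hc', ?_, ?_, ?_, ?_⟩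
  · rw [map_mul]; exact mul_ne_zero h1 h1'
  · rw [map_mul]; exact mul_ne_zero h2 h2'
  · rw [map_mul, map_mul, map_mul]
    calc u * u' * (kronIncl A Y₂ * kronIncl A Y₂')
        = (u * kronIncl A Y₂) * (u' * kronIncl A Y₂') := by ring
      _ = HahnSeries.C c * HahnSeries.C c' * (kronIncl A Y₁ * kronIncl A Y₁') := by
        rw [hu, hu']; ring
  · rw [map_mul, map_mul]
    calc r * r' * (kronRed A Y₂ * kronRed A Y₂')
        = (r * kronRed A Y₂) * (r' * kronRed A Y₂') := by ring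
      _ = kronRed A Y₁ * kronRed A Y₁' := by rw [hr, hr']

theorem R38Red.inv {u : LaurentSeries L} {r : LaurentSeries (IsLocalRing.ResidueField A)}
    (h : R38Red A u r) : R38Red A u⁻¹ r⁻¹ := by
  have hu0 := h.ne_zero_left
  have hr0 := h.ne_zero_right
  obtain ⟨c, Y₁, Y₂, hc, h1, h2, hu, hr⟩ := h
  refine ⟨c⁻¹, Y₂, Y₁, inv_ne_zero hc, h2, h1, ?_, ?_⟩
  · have hC : (HahnSeries.C c : LaurentSeries L) ≠ 0 := r38red_C_ne_zero hc
    rw [map_inv₀]
    field_simp
    rw [mul_comm, ← hu]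
  · field_simp
    rw [← hr, mul_comm]

theorem R38Red.div {u u' : LaurentSeries L} {r r' : LaurentSeries (IsLocalRing.ResidueField A)}
    (h : R38Red A u r) (h' : R38Red A u' r') : R38Red A (u / u') (r / r') := by
  rw [div_eq_mul_inv, div_eq_mul_inv]
  exact h.mul h'.inv

theorem R38Red.pow {u : LaurentSeries L} {r : LaurentSeries (IsLocalRing.ResidueField A)}
    (h : R38Red A u r) (n : ℕ) : R38Red A (u ^ n) (r ^ n) := by
  induction n with
  | zero => rw [pow_zero, pow_zero]; exact R38Red.one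
  | succ n ih => rw [pow_succ, pow_succ]; exact ih.mul h

/-- a constant multiple of a primitive series which is again primitive: the constant is a unit -/
theorem r38red_unit_of_prim {a : L} {F G : LaurentSeries A} (hF : kronRed A F ≠ 0)
    (hG : kronRed A G ≠ 0) (h : HahnSeries.C a * kronIncl A F = kronIncl A G) :
    ∃ a' : A, (a' : L) = a ∧ IsLocalRing.residue A a' ≠ 0 ∧
      kronRed A G = HahnSeries.C (IsLocalRing.residue A a') * kronRed A F := by
  -- a unit coefficient of `F`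
  obtain ⟨n, hn⟩ : ∃ n : ℤ, IsLocalRing.residue A (F.coeff n) ≠ 0 := by
    by_contra hcon
    simp only [not_exists, not_not] at hcon
    apply hF
    ext n
    simpa using hcon n
  have hcoef : ∀ m : ℤ, a * ((F.coeff m : A) : L) = ((G.coeff m : A) : L) := by
    intro m
    have := congrArg (fun f : LaurentSeries L => f.coeff m) h
    simpa [HahnSeries.C_mul_eq_smul] using this
  have hFn : IsUnit (F.coeff n) := by
    by_contra hcon
    exact hn ((IsLocalRing.residue_eq_zero_iff _).2 ((IsLocalRing.mem_maximalIdeal _).2 hcon))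
  obtain ⟨w, hw⟩ := hFn
  have hwinv : ((F.coeff n : A) : L) * (((w⁻¹ : Aˣ) : A) : L) = 1 := by
    have : (F.coeff n) * ((w⁻¹ : Aˣ) : A) = 1 := by rw [← hw]; exact w.mul_inv
    have := congrArg (fun x : A => (x : L)) this
    simpa using this
  have ha : a = ((G.coeff n * ((w⁻¹ : Aˣ) : A) : A) : L) := by
    have h1 := hcoef n
    push_cast
    rw [← h1, mul_assoc, hwinv, mul_one]
  set a' : A := G.coeff n * ((w⁻¹ : Aˣ) : A) with ha'
  have hred : kronRed A G = HahnSeries.C (IsLocalRing.residue A a') * kronRed A F := by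
    ext m
    rw [HahnSeries.C_mul_eq_smul, HahnSeries.coeff_smul, smul_eq_mul, coeffMap_coeff,
      coeffMap_coeff, ← map_mul]
    congr 1
    apply Subtype.ext
    push_cast
    rw [← ha, hcoef m]
  refine ⟨a', ha.symm, ?_, hred⟩
  intro h0
  apply hG
  rw [hred, h0, map_zero, zero_mul]

/-- **uniqueness of the Gauss reduction up to a constant** -/
theorem R38Red.unique {u : LaurentSeries L} {r r' : LaurentSeries (IsLocalRing.ResidueField A)}
    (h : R38Red A u r) (h' : R38Red A u r') :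
    ∃ a : IsLocalRing.ResidueField A, a ≠ 0 ∧ r' = HahnSeries.C a * r := by
  obtain ⟨c, Y₁, Y₂, hc, h1, h2, hu, hr⟩ := h
  obtain ⟨c', Y₁', Y₂', hc', h1', h2', hu', hr'⟩ := h'
  -- `c' Y₁' Y₂ = c Y₁ Y₂'`
  have hC : (HahnSeries.C c : LaurentSeries L) ≠ 0 := r38red_C_ne_zero hc
  have key : HahnSeries.C (c' * c⁻¹) * kronIncl A (Y₁' * Y₂) = kronIncl A (Y₁ * Y₂') := by
    have e1 : HahnSeries.C c' * kronIncl A Y₁' * kronIncl A Y₂
        = HahnSeries.C c * kronIncl A Y₁ * kronIncl A Y₂' := by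
      rw [← hu, ← hu']; ring
    rw [map_mul, map_mul, map_mul, map_inv₀]
    field_simp
    exact e1
  obtain ⟨a', -, ha0, hred⟩ := r38red_unit_of_prim
    (by rw [map_mul]; exact mul_ne_zero h1' h2) (by rw [map_mul]; exact mul_ne_zero h1 h2') key
  rw [map_mul, map_mul] at hred
  -- `Ȳ₁ Ȳ₂' = ā Ȳ₁' Ȳ₂`, `r Ȳ₂ = Ȳ₁`, `r' Ȳ₂' = Ȳ₁'`
  refine ⟨(IsLocalRing.residue A a')⁻¹, inv_ne_zero ha0, ?_⟩
  have hCa : (HahnSeries.C (IsLocalRing.residue A a') :
      LaurentSeries (IsLocalRing.ResidueField A)) ≠ 0 := r38red_C_ne_zero ha0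
  have e2 : r * (kronRed A Y₂ * kronRed A Y₂')
      = HahnSeries.C (IsLocalRing.residue A a') * r' * (kronRed A Y₂ * kronRed A Y₂') := by
    calc r * (kronRed A Y₂ * kronRed A Y₂')
        = (r * kronRed A Y₂) * kronRed A Y₂' := by ring
      _ = kronRed A Y₁ * kronRed A Y₂' := by rw [hr]
      _ = HahnSeries.C (IsLocalRing.residue A a') * ((r' * kronRed A Y₂') * kronRed A Y₂) := by
        rw [hred, hr']
      _ = HahnSeries.C (IsLocalRing.residue A a') * r' * (kronRed A Y₂ * kronRed A Y₂') := by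
        ring
  have e3 := mul_right_cancel₀ (mul_ne_zero h2 h2') e2
  rw [e3, map_inv₀, ← mul_assoc, inv_mul_cancel₀ hCa, one_mul]

/-- **`b̄ = dlog ū` is well defined** -/
theorem R38Red.dlog_eq {u : LaurentSeries L} {r r' : LaurentSeries (IsLocalRing.ResidueField A)}
    (h : R38Red A u r) (h' : R38Red A u r') : r38dlog r' = r38dlog r := by
  obtain ⟨a, ha, rfl⟩ := h.unique h'
  exact r38dlog_C_mul a ha h.ne_zero_right

/-! ### `b̄` is additive, kills constants and `p`-th powers -/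

theorem R38Red.dlog_mul {u u' : LaurentSeries L}
    {r r' : LaurentSeries (IsLocalRing.ResidueField A)}
    (h : R38Red A u r) (h' : R38Red A u' r') :
    r38dlog (r * r') = r38dlog r + r38dlog r' :=
  r38dlog_mul h.ne_zero_right h'.ne_zero_right

/-- the reduction of a constant times a `p`-th power has `b̄ = 0` -/
theorem R38Red.dlog_const_mul_pow (p : ℕ) [Fact p.Prime] [CharP (IsLocalRing.ResidueField A) p]
    {c : L} (hc : c ≠ 0) {h : LaurentSeries L} {s r : LaurentSeries (IsLocalRing.ResidueField A)}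
    (hh : R38Red A h s) (hr : R38Red A (HahnSeries.C c * h ^ p) r) : r38dlog r = 0 := by
  have h1 : R38Red A (HahnSeries.C c * h ^ p) (1 * s ^ p) := (R38Red.const hc).mul (hh.pow p)
  rw [R38Red.dlog_eq h1 hr, one_mul]
  exact r38dlog_pow_char p s

/-- `b̄` only depends on `u` modulo constants and `p`-th powers -/
theorem R38Red.dlog_eq_of_eq_mul_pow (p : ℕ) [Fact p.Prime]
    [CharP (IsLocalRing.ResidueField A) p]
    {c : L} (hc : c ≠ 0) {u u' h : LaurentSeries L}
    {r r' s : LaurentSeries (IsLocalRing.ResidueField A)}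
    (hu : R38Red A u r) (hu' : R38Red A u' r') (hh : R38Red A h s)
    (he : u' = HahnSeries.C c * u * h ^ p) : r38dlog r' = r38dlog r := by
  have h1 : R38Red A u' (1 * r * s ^ p) := by
    rw [he]
    exact ((R38Red.const hc).mul hu).mul (hh.pow p)
  rw [R38Red.dlog_eq h1 hu', one_mul,
    r38dlog_mul hu.ne_zero_right (pow_ne_zero p hh.ne_zero_right), r38dlog_pow_char p s,
    add_zero]

end Red

/-! ## The integral reduction (Gauss valuation `≥ 0`) -/

section RedInt

variable {L : Type*} [Field L] (A : ValuationSubring L)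

/-- `g ∈ k((q))` is the reduction of `f ∈ L((q))`, `f = Y / Z` with `Y` integral and `Z` primitive
(Gauss valuation of `f` is `≥ 0`). -/
def R38RedInt (f : LaurentSeries L) (g : LaurentSeries (IsLocalRing.ResidueField A)) : Prop :=
  ∃ Y Z : LaurentSeries A, kronRed A Z ≠ 0 ∧
    f * kronIncl A Z = kronIncl A Y ∧ g * kronRed A Z = kronRed A Y

variable {A}

theorem R38RedInt.unique {f : LaurentSeries L} {g g' : LaurentSeries (IsLocalRing.ResidueField A)}
    (h : R38RedInt A f g) (h' : R38RedInt A f g') : g = g' := by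
  obtain ⟨Y, Z, hZ, hf, hg⟩ := h
  obtain ⟨Y', Z', hZ', hf', hg'⟩ := h'
  have e1 : kronIncl A (Y * Z') = kronIncl A (Y' * Z) := by
    rw [map_mul, map_mul, ← hf, ← hf']; ring
  have e2 : Y * Z' = Y' * Z := kronIncl_injective e1
  have e3 : kronRed A Y * kronRed A Z' = kronRed A Y' * kronRed A Z := by
    rw [← map_mul, ← map_mul, e2]
  rw [← hg, ← hg'] at e3
  have e4 : g * (kronRed A Z * kronRed A Z') = g' * (kronRed A Z * kronRed A Z') := by
    calc g * (kronRed A Z * kronRed A Z') = g * kronRed A Z * kronRed A Z' := by ring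
      _ = g' * kronRed A Z' * kronRed A Z := e3
      _ = g' * (kronRed A Z * kronRed A Z') := by ring
  exact mul_right_cancel₀ (mul_ne_zero hZ hZ') e4

theorem r38redInt_incl (Y : LaurentSeries A) : R38RedInt A (kronIncl A Y) (kronRed A Y) :=
  ⟨Y, 1, by rw [map_one]; exact one_ne_zero, by rw [map_one, mul_one], by rw [map_one, mul_one]⟩

theorem R38RedInt.zero : R38RedInt A (0 : LaurentSeries L) 0 := by
  have := r38redInt_incl (A := A) 0
  rwa [map_zero, map_zero] at this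

theorem R38RedInt.add {f f' : LaurentSeries L}
    {g g' : LaurentSeries (IsLocalRing.ResidueField A)}
    (h : R38RedInt A f g) (h' : R38RedInt A f' g') : R38RedInt A (f + f') (g + g') := by
  obtain ⟨Y, Z, hZ, hf, hg⟩ := h
  obtain ⟨Y', Z', hZ', hf', hg'⟩ := h'
  refine ⟨Y * Z' + Y' * Z, Z * Z', by rw [map_mul]; exact mul_ne_zero hZ hZ', ?_, ?_⟩
  · rw [map_add, map_mul, map_mul, map_mul, ← hf, ← hf']; ring
  · rw [map_add, map_mul, map_mul, map_mul, ← hg, ← hg']; ring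

theorem R38RedInt.neg {f : LaurentSeries L} {g : LaurentSeries (IsLocalRing.ResidueField A)}
    (h : R38RedInt A f g) : R38RedInt A (-f) (-g) := by
  obtain ⟨Y, Z, hZ, hf, hg⟩ := h
  exact ⟨-Y, Z, hZ, by rw [map_neg, ← hf, neg_mul], by rw [map_neg, ← hg, neg_mul]⟩

theorem R38RedInt.mul {f f' : LaurentSeries L}
    {g g' : LaurentSeries (IsLocalRing.ResidueField A)}
    (h : R38RedInt A f g) (h' : R38RedInt A f' g') : R38RedInt A (f * f') (g * g') := by
  obtain ⟨Y, Z, hZ, hf, hg⟩ := h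
  obtain ⟨Y', Z', hZ', hf', hg'⟩ := h'
  refine ⟨Y * Y', Z * Z', by rw [map_mul]; exact mul_ne_zero hZ hZ', ?_, ?_⟩
  · rw [map_mul, map_mul, ← hf, ← hf']; ring
  · rw [map_mul, map_mul, ← hg, ← hg']; ring

/-- a primitive fraction reduces integrally (with constant `1`) -/
theorem R38RedInt.inv_of_ne_zero {f : LaurentSeries L}
    {g : LaurentSeries (IsLocalRing.ResidueField A)} (h : R38RedInt A f g) (hg0 : g ≠ 0) :
    R38RedInt A f⁻¹ g⁻¹ := by
  obtain ⟨Y, Z, hZ, hf, hg⟩ := h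
  have hY : kronRed A Y ≠ 0 := by rw [← hg]; exact mul_ne_zero hg0 hZ
  have hf0 : f ≠ 0 := by
    rintro rfl
    rw [zero_mul] at hf
    exact r38red_incl_ne_zero hY hf.symm
  refine ⟨Z, Y, hY, ?_, ?_⟩
  · rw [← hf]; field_simp
  · rw [← hg]; field_simp

/-- **the reduction of `dlog u` is `dlog ū`**: `b̄` is the reduction of the meromorphic form
`θ u / u` of weight 2. -/
theorem R38Red.redInt_dlog {u : LaurentSeries L} {r : LaurentSeries (IsLocalRing.ResidueField A)}
    (h : R38Red A u r) : R38RedInt A (r38dlog u) (r38dlog r) := by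
  have hu0 := h.ne_zero_left
  have hr0 := h.ne_zero_right
  obtain ⟨c, Y₁, Y₂, hc, h1, h2, hu, hr⟩ := h
  have hC : (HahnSeries.C c : LaurentSeries L) ≠ 0 := r38red_C_ne_zero hc
  have hi1 := r38red_incl_ne_zero h1
  have hi2 := r38red_incl_ne_zero h2
  refine ⟨thetaFun Y₁ * Y₂ - Y₁ * thetaFun Y₂, Y₁ * Y₂,
    by rw [map_mul]; exact mul_ne_zero h1 h2, ?_, ?_⟩
  · -- over `L`
    have e1 : r38dlog u + r38dlog (kronIncl A Y₂) = r38dlog (kronIncl A Y₁) := by
      rw [← r38dlog_mul hu0 hi2, hu, r38dlog_C_mul c hc hi1]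
    have e2 : r38dlog u = r38dlog (kronIncl A Y₁) - r38dlog (kronIncl A Y₂) :=
      eq_sub_of_add_eq e1
    rw [e2, map_sub, map_mul, map_mul, map_mul, ← thetaFun_coeffMap, ← thetaFun_coeffMap,
      r38dlog, r38dlog]
    field_simp
  · have e1 : r38dlog r + r38dlog (kronRed A Y₂) = r38dlog (kronRed A Y₁) := by
      rw [← r38dlog_mul hr0 h2, hr]
    have e2 : r38dlog r = r38dlog (kronRed A Y₁) - r38dlog (kronRed A Y₂) :=
      eq_sub_of_add_eq e1
    rw [e2, map_sub, map_mul, map_mul, map_mul, ← thetaFun_coeffMap, ← thetaFun_coeffMap,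
      r38dlog, r38dlog]
    field_simp

end RedInt

/-! ## Inertia -/

section Inertia

variable {K L : Type*} [Field K] [Field L] [Algebra K L] {A : ValuationSubring L}

theorem r38red_coeffMap_C {R S : Type*} [CommRing R] [CommRing S] (φ : R →+* S) (c : R) :
    coeffMap φ (HahnSeries.C c : LaurentSeries R) = HahnSeries.C (φ c) := by
  rw [show (HahnSeries.C c : LaurentSeries R) = HahnSeries.single 0 c from rfl, coeffMap_single]
  rfl

theorem r38red_kronRed_inertia {σ : L ≃ₐ[K] L} (hσ : σ ∈ A.inertiaSubgroupIn K)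
    (Y : LaurentSeries A) :
    kronRed A (coeffMap (kronDecompHom σ (kron_mem_decomposition_of_mem_inertia hσ)) Y)
      = kronRed A Y := by
  ext n
  rw [coeffMap_coeff, coeffMap_coeff, coeffMap_coeff]
  exact kron_residue_inertia hσ _

/-- **inertia does not change the Gauss reduction** -/
theorem R38Red.coeffMap_inertia {σ : L ≃ₐ[K] L} (hσ : σ ∈ A.inertiaSubgroupIn K)
    {u : LaurentSeries L} {r : LaurentSeries (IsLocalRing.ResidueField A)} (h : R38Red A u r) :
    R38Red A (coeffMap (σ : L →+* L) u) r := by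
  obtain ⟨c, Y₁, Y₂, hc, h1, h2, hu, hr⟩ := h
  have hd := kron_mem_decomposition_of_mem_inertia hσ
  refine ⟨σ c, coeffMap (kronDecompHom σ hd) Y₁, coeffMap (kronDecompHom σ hd) Y₂, ?_, ?_, ?_,
    ?_, ?_⟩
  · exact (map_ne_zero_iff _ σ.injective).2 hc
  · rw [r38red_kronRed_inertia hσ]; exact h1
  · rw [r38red_kronRed_inertia hσ]; exact h2
  · rw [kronIncl_coeffMap_kronDecompHom, kronIncl_coeffMap_kronDecompHom, ← map_mul, hu, map_mul,
      r38red_coeffMap_C]
    rfl
  · rw [r38red_kronRed_inertia hσ, r38red_kronRed_inertia hσ]; exact hr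

theorem R38RedInt.coeffMap_inertia {σ : L ≃ₐ[K] L} (hσ : σ ∈ A.inertiaSubgroupIn K)
    {f : LaurentSeries L} {g : LaurentSeries (IsLocalRing.ResidueField A)}
    (h : R38RedInt A f g) : R38RedInt A (coeffMap (σ : L →+* L) f) g := by
  obtain ⟨Y, Z, hZ, hf, hg⟩ := h
  have hd := kron_mem_decomposition_of_mem_inertia hσ
  refine ⟨coeffMap (kronDecompHom σ hd) Y, coeffMap (kronDecompHom σ hd) Z, ?_, ?_, ?_⟩
  · rw [r38red_kronRed_inertia hσ]; exact hZ
  · rw [kronIncl_coeffMap_kronDecompHom, kronIncl_coeffMap_kronDecompHom, ← map_mul, hf]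
  · rw [r38red_kronRed_inertia hσ, r38red_kronRed_inertia hσ]; exact hg

end Inertia

end Fermat.Agent.R38

end
end ZBES_002_11

/-! ### bundled: `Fermat.Agent.R38.TresRedHecke` -/
section ZBES_002_12

/-!
# Row 38, PKG-TRES, piece TRES-RED: the Gauss reduction commutes with the Hecke operators (helper42)

`A` a valuation subring of the field `L`, `k` its residue field, `ℓ` a prime with `ℓ ≠ 0` in `k`,
`ζ ∈ L` a primitive `ℓ`-th root of unity.

* `r38red_exists_root` : `ζ` comes from a unit `ζA` of `A` whose reduction `ζ̄` is a primitive `ℓ`-th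
  root of unity of `k`;
* `R38Red.qExpand`, `R38Red.kronNorm`, `R38Red.kronHecke` : the reduction of `u(q^ℓ)`, of the norm and
  of `T_ℓ u = kronHecke ℓ ζ u` is `r(q^ℓ)`, the norm, `kronHecke ℓ ζ̄ r`;
* **`R38Red.dlog_kronHecke`** : `b̄(T_ℓ u) = T_ℓ b̄(u)` (`r38heckeT`, weight 2), for every reduction
  `r'` of `T_ℓ u` and `r` of `u`.
-/

set_option autoImplicit false
set_option linter.unusedSectionVars false
set_option linter.style.haveILetI false

noncomputable section

namespace Fermat.Agent.R38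

open HahnSeries ModularCurve Fermat.Agent.S28.Deriv Fermat.Agent.ES

section Root

variable {L : Type*} [Field L] (A : ValuationSubring L)

/-- a primitive `ℓ`-th root of unity of `L` (`ℓ` prime, `ℓ ≠ 0` in `k`) comes from a unit of `A`
whose reduction is a primitive `ℓ`-th root of unity of `k` -/
theorem r38red_exists_root {ℓ : ℕ} (hℓ : ℓ.Prime)
    (hℓk : ((ℓ : ℕ) : IsLocalRing.ResidueField A) ≠ 0) (ζ : Lˣ) (hζ : IsPrimitiveRoot ζ ℓ) :
    ∃ ζA : Aˣ, Units.map (A.subtype : A →* L) ζA = ζ ∧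
      IsPrimitiveRoot (Units.map ((IsLocalRing.residue A : A →+* IsLocalRing.ResidueField A) :
        A →* IsLocalRing.ResidueField A) ζA) ℓ := by
  obtain ⟨ζA, hζA⟩ := kron_exists_unit_lift A hℓ.ne_zero ζ hζ.pow_eq_one
  refine ⟨ζA, hζA, ?_⟩
  have hinj : Function.Injective (Units.map (A.subtype : A →* L)) :=
    Units.map_injective (f := (A.subtype : A →* L)) Subtype.val_injective
  have hpA : IsPrimitiveRoot ζA ℓ := by
    rw [← hζA] at hζ
    exact IsPrimitiveRoot.of_map_of_injective hζ hinj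
  set ζb := Units.map ((IsLocalRing.residue A : A →+* IsLocalRing.ResidueField A) :
        A →* IsLocalRing.ResidueField A) ζA with hζb
  have hpow : ζb ^ ℓ = 1 := by rw [hζb, ← map_pow, hpA.pow_eq_one, map_one]
  have hne : ζb ≠ 1 := by
    intro h1
    -- `∑ ζ^i = 0` in `A`, hence `ℓ = 0` in `k`
    have hpA' : IsPrimitiveRoot (ζA : A) ℓ := IsPrimitiveRoot.coe_units_iff.2 hpA
    have hsum : ∑ i ∈ Finset.range ℓ, (ζA : A) ^ i = 0 := hpA'.geom_sum_eq_zero hℓ.one_lt
    have h2 := congrArg (IsLocalRing.residue A) hsum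
    rw [map_sum, map_zero] at h2
    have h3 : ∀ i ∈ Finset.range ℓ, IsLocalRing.residue A ((ζA : A) ^ i) = 1 := by
      intro i _
      have : IsLocalRing.residue A (ζA : A) = ((ζb : (IsLocalRing.ResidueField A)ˣ) :
          IsLocalRing.ResidueField A) := rfl
      rw [map_pow, this, h1, Units.val_one, one_pow]
    rw [Finset.sum_congr rfl h3, Finset.sum_const, Finset.card_range, nsmul_eq_mul, mul_one] at h2
    exact hℓk h2
  haveI : Fact ℓ.Prime := ⟨hℓ⟩
  have hord : orderOf ζb = ℓ := orderOf_eq_prime hpow hne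
  rw [← hord]
  exact IsPrimitiveRoot.orderOf ζb

end Root

section Hecke

variable {L : Type*} [Field L] {A : ValuationSubring L}

theorem r38red_kronNorm_C {R : Type*} [CommRing R] (ℓ : ℕ) [NeZero ℓ] (ζ : Rˣ) (c : R) :
    kronNorm ℓ ζ (HahnSeries.C c : LaurentSeries R) = HahnSeries.C (c ^ ℓ) := by
  apply kronNorm_unique
  rw [qExpand_C, kronRotProd]
  have h1 : ∀ b ∈ Finset.range ℓ, kronRot (ζ ^ b) (HahnSeries.C c : LaurentSeries R)
      = HahnSeries.C c := by
    intro b _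
    ext n
    rw [kronRot_coeff]
    by_cases hn : n = 0
    · subst hn; simp
    · rw [HahnSeries.C_apply, HahnSeries.coeff_single, if_neg hn, mul_zero]
  rw [Finset.prod_congr rfl h1, Finset.prod_const, Finset.card_range, map_pow]

/-- the reduction commutes with `q ↦ q^ℓ` -/
theorem R38Red.qExpand (ℓ : ℕ) [NeZero ℓ] {u : LaurentSeries L}
    {r : LaurentSeries (IsLocalRing.ResidueField A)} (h : R38Red A u r) :
    R38Red A (ModularCurve.qExpand L ℓ u)
      (ModularCurve.qExpand (IsLocalRing.ResidueField A) ℓ r) := by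
  obtain ⟨c, Y₁, Y₂, hc, h1, h2, hu, hr⟩ := h
  have hq : ∀ Y : LaurentSeries A, kronRed A Y ≠ 0 → kronRed A (ModularCurve.qExpand A ℓ Y) ≠ 0 := by
    intro Y hY
    rw [kronRed, coeffMap_qExpand]
    exact (map_ne_zero_iff _ (RingHom.injective _)).2 hY
  refine ⟨c, ModularCurve.qExpand A ℓ Y₁, ModularCurve.qExpand A ℓ Y₂, hc, hq Y₁ h1, hq Y₂ h2,
    ?_, ?_⟩
  · rw [kronIncl, coeffMap_qExpand, coeffMap_qExpand, ← map_mul, hu, map_mul, qExpand_C]
  · rw [kronRed, coeffMap_qExpand, coeffMap_qExpand, ← map_mul, hr]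

/-- the reduction commutes with the norm `f ↦ ∏_b f(ζ^b q^{1/ℓ})` -/
theorem R38Red.kronNorm (ℓ : ℕ) [NeZero ℓ] (ζA : Aˣ)
    (hζ : IsPrimitiveRoot (Units.map (A.subtype : A →* L) ζA) ℓ)
    (hζb : IsPrimitiveRoot (Units.map ((IsLocalRing.residue A :
      A →+* IsLocalRing.ResidueField A) : A →* IsLocalRing.ResidueField A) ζA) ℓ)
    {u : LaurentSeries L}
    {r : LaurentSeries (IsLocalRing.ResidueField A)} (h : R38Red A u r) :
    R38Red A (Fermat.Agent.ES.kronNorm ℓ (Units.map (A.subtype : A →* L) ζA) u)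
      (Fermat.Agent.ES.kronNorm ℓ (Units.map ((IsLocalRing.residue A :
      A →+* IsLocalRing.ResidueField A) : A →* IsLocalRing.ResidueField A) ζA) r) := by
  obtain ⟨c, Y₁, Y₂, hc, h1, h2, hu, hr⟩ := h
  have hn : ∀ Y : LaurentSeries A, kronRed A Y ≠ 0 →
      kronRed A (Fermat.Agent.ES.kronNorm ℓ ζA Y) ≠ 0 := by
    intro Y hY
    rw [kronRed, coeffMap_kronNorm]
    exact r38dlog_kronNorm_ne_zero ℓ _ hζb hY
  refine ⟨c ^ ℓ, Fermat.Agent.ES.kronNorm ℓ ζA Y₁, Fermat.Agent.ES.kronNorm ℓ ζA Y₂,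
    pow_ne_zero _ hc, hn Y₁ h1, hn Y₂ h2, ?_, ?_⟩
  · rw [kronIncl, coeffMap_kronNorm, coeffMap_kronNorm, ← kronNorm_mul ℓ _ hζ, hu,
      kronNorm_mul ℓ _ hζ, r38red_kronNorm_C]
  · rw [kronRed, coeffMap_kronNorm, coeffMap_kronNorm, ← kronNorm_mul ℓ _ hζb, hr]

/-- the reduction commutes with the multiplicative Hecke operator -/
theorem R38Red.kronHecke (ℓ : ℕ) [NeZero ℓ] (ζA : Aˣ)
    (hζ : IsPrimitiveRoot (Units.map (A.subtype : A →* L) ζA) ℓ)
    (hζb : IsPrimitiveRoot (Units.map ((IsLocalRing.residue A :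
      A →+* IsLocalRing.ResidueField A) : A →* IsLocalRing.ResidueField A) ζA) ℓ)
    {u : LaurentSeries L}
    {r : LaurentSeries (IsLocalRing.ResidueField A)} (h : R38Red A u r) :
    R38Red A (Fermat.Agent.ES.kronHecke ℓ (Units.map (A.subtype : A →* L) ζA) u)
      (Fermat.Agent.ES.kronHecke ℓ (Units.map ((IsLocalRing.residue A :
      A →+* IsLocalRing.ResidueField A) : A →* IsLocalRing.ResidueField A) ζA) r) :=
  (h.qExpand ℓ).mul (h.kronNorm ℓ ζA hζ hζb)

/-- **`b̄(T_ℓ u) = T_ℓ b̄(u)`**: the logarithmic derivative of the reduction turns the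
multiplicative Hecke operator into the weight-2 Hecke operator on `q`-expansions. -/
theorem R38Red.dlog_kronHecke {ℓ : ℕ} [NeZero ℓ] (hℓ : ℓ.Prime)
    (hℓk : ((ℓ : ℕ) : IsLocalRing.ResidueField A) ≠ 0) (ζ : Lˣ) (hζ : IsPrimitiveRoot ζ ℓ)
    {u : LaurentSeries L} {r r' : LaurentSeries (IsLocalRing.ResidueField A)}
    (h : R38Red A u r) (h' : R38Red A (Fermat.Agent.ES.kronHecke ℓ ζ u) r') :
    r38dlog r' = r38heckeT ℓ (r38dlog r) := by
  obtain ⟨ζA, rfl, hζb⟩ := r38red_exists_root A hℓ hℓk ζ hζ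
  have h1 := h.kronHecke ℓ ζA hζ hζb
  rw [R38Red.dlog_eq h1 h']
  exact r38dlog_kronHecke ℓ hℓk _ hζb h.ne_zero_right

end Hecke

end Fermat.Agent.R38

end
end ZBES_002_12

/-! ### bundled: `Fermat.Agent.ES.KroneckerComm` -/
section ZBES_002_13

/-!
# The multiplicative Hecke operators on `q`-expansions commute

For coprime `ℓ`, `ℓ'` and primitive roots of unity `ζ`, `ζ'` of orders `ℓ`, `ℓ'`:
`kronHecke ℓ ζ (kronHecke ℓ' ζ' f) = kronHecke ℓ' ζ' (kronHecke ℓ ζ f)`  (`kronHecke_comm`).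
-/

set_option autoImplicit false

noncomputable section

namespace Fermat.Agent.ES

open ModularCurve HahnSeries

section Comm

variable {R : Type*} [CommRing R]

theorem kron_qExpand_comm (ℓ ℓ' : ℕ) [NeZero ℓ] [NeZero ℓ'] (f : LaurentSeries R) :
    qExpand R ℓ (qExpand R ℓ' f) = qExpand R ℓ' (qExpand R ℓ f) := by
  have : NeZero (ℓ * ℓ') := ⟨Nat.mul_ne_zero (NeZero.ne ℓ) (NeZero.ne ℓ')⟩
  have : NeZero (ℓ' * ℓ) := ⟨Nat.mul_ne_zero (NeZero.ne ℓ') (NeZero.ne ℓ)⟩
  rw [qExpand_qExpand, qExpand_qExpand]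
  exact qExpand_congr (mul_comm ℓ ℓ') f

theorem kronRotProd_qExpand (ℓ ℓ' : ℕ) [NeZero ℓ] (ζ' : Rˣ) (f : LaurentSeries R) :
    kronRotProd ℓ' ζ' (qExpand R ℓ f) = qExpand R ℓ (kronRotProd ℓ' (ζ' ^ ℓ) f) := by
  simp only [kronRotProd, map_prod]
  refine Finset.prod_congr rfl fun b _ => ?_
  rw [qExpand_kronRot_pow, ← pow_mul, ← pow_mul, mul_comm]

/-- `N_{ℓ'}` commutes with `q ↦ q^ℓ` for coprime `ℓ`, `ℓ'` -/
theorem kronNorm_qExpand (ℓ ℓ' : ℕ) [NeZero ℓ] [NeZero ℓ'] (hcop : Nat.Coprime ℓ ℓ') (ζ' : Rˣ)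
    (hζ' : ζ' ^ ℓ' = 1) (f : LaurentSeries R) :
    kronNorm ℓ' ζ' (qExpand R ℓ f) = qExpand R ℓ (kronNorm ℓ' ζ' f) := by
  ext n
  rw [kronNorm, kronCompress_coeff, kronRotProd_qExpand, kronRotProd_pow_left ℓ' ζ' hζ' ℓ hcop]
  by_cases hn : (ℓ : ℤ) ∣ n
  · obtain ⟨m, rfl⟩ := hn
    rw [qExpand_coeff_mul, show (ℓ' : ℤ) * ((ℓ : ℤ) * m) = (ℓ : ℤ) * ((ℓ' : ℤ) * m) by ring,
      qExpand_coeff_mul, kronNorm, kronCompress_coeff]
  · rw [qExpand_coeff_of_not_dvd ℓ _ hn, qExpand_coeff_of_not_dvd]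
    intro hdvd
    apply hn
    have hc : IsCoprime (ℓ : ℤ) (ℓ' : ℤ) := Nat.isCoprime_iff_coprime.2 hcop
    exact hc.dvd_of_dvd_mul_left hdvd

/-- `q ↦ q^{ℓ'}` commutes with `∏_{b<ℓ} f(ζ^b q)` for coprime `ℓ`, `ℓ'` -/
theorem kron_qExpand_kronRotProd (ℓ ℓ' : ℕ) [NeZero ℓ'] (hcop : Nat.Coprime ℓ ℓ') (ζ : Rˣ)
    (hζ : ζ ^ ℓ = 1) (g : LaurentSeries R) :
    qExpand R ℓ' (kronRotProd ℓ ζ g) = kronRotProd ℓ ζ (qExpand R ℓ' g) := by
  rw [kronRotProd_qExpand, kronRotProd_pow_left ℓ ζ hζ ℓ' hcop.symm]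

theorem kronRotProd_comm (ℓ ℓ' : ℕ) (ζ ζ' : Rˣ) (f : LaurentSeries R) :
    kronRotProd ℓ ζ (kronRotProd ℓ' ζ' f) = kronRotProd ℓ' ζ' (kronRotProd ℓ ζ f) := by
  simp only [kronRotProd, map_prod, kronRot_kronRot]
  rw [Finset.prod_comm]
  refine Finset.prod_congr rfl fun b' _ => Finset.prod_congr rfl fun b _ => ?_
  rw [mul_comm]

/-- the norms `N_ℓ`, `N_{ℓ'}` commute for coprime `ℓ`, `ℓ'` -/
theorem kronNorm_comm [IsDomain R] (ℓ ℓ' : ℕ) [NeZero ℓ] [NeZero ℓ'] (hcop : Nat.Coprime ℓ ℓ')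
    (ζ ζ' : Rˣ) (hζ : IsPrimitiveRoot ζ ℓ) (hζ' : IsPrimitiveRoot ζ' ℓ') (f : LaurentSeries R) :
    kronNorm ℓ ζ (kronNorm ℓ' ζ' f) = kronNorm ℓ' ζ' (kronNorm ℓ ζ f) := by
  have h1 : qExpand R ℓ' (qExpand R ℓ (kronNorm ℓ ζ (kronNorm ℓ' ζ' f)))
      = kronRotProd ℓ ζ (kronRotProd ℓ' ζ' f) := by
    rw [qExpand_kronNorm ℓ ζ hζ, kron_qExpand_kronRotProd ℓ ℓ' hcop ζ hζ.pow_eq_one,
      qExpand_kronNorm ℓ' ζ' hζ']
  have h2 : qExpand R ℓ (qExpand R ℓ' (kronNorm ℓ' ζ' (kronNorm ℓ ζ f)))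
      = kronRotProd ℓ' ζ' (kronRotProd ℓ ζ f) := by
    rw [qExpand_kronNorm ℓ' ζ' hζ', kron_qExpand_kronRotProd ℓ' ℓ hcop.symm ζ' hζ'.pow_eq_one,
      qExpand_kronNorm ℓ ζ hζ]
  apply qExpand_injective ℓ
  apply qExpand_injective ℓ'
  rw [h1, kron_qExpand_comm ℓ' ℓ, h2, kronRotProd_comm]

/-- **The multiplicative Hecke operators `T_ℓ`, `T_{ℓ'}` on `q`-expansions commute.** -/
theorem kronHecke_comm {L : Type*} [Field L] (ℓ ℓ' : ℕ) [NeZero ℓ] [NeZero ℓ']
    (hcop : Nat.Coprime ℓ ℓ') (ζ ζ' : Lˣ) (hζ : IsPrimitiveRoot ζ ℓ)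
    (hζ' : IsPrimitiveRoot ζ' ℓ') (f : LaurentSeries L) :
    kronHecke ℓ ζ (kronHecke ℓ' ζ' f) = kronHecke ℓ' ζ' (kronHecke ℓ ζ f) := by
  simp only [kronHecke, map_mul, kronNorm_mul ℓ ζ hζ, kronNorm_mul ℓ' ζ' hζ']
  rw [kronNorm_qExpand ℓ' ℓ hcop.symm ζ hζ.pow_eq_one, kronNorm_qExpand ℓ ℓ' hcop ζ' hζ'.pow_eq_one,
    kronNorm_comm ℓ ℓ' hcop ζ ζ' hζ hζ', kron_qExpand_comm ℓ ℓ']
  ring

end Comm

end Fermat.Agent.ES

end
end ZBES_002_13

/-! ### bundled: `Fermat.Agent.R38.TresEisOgg` -/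
section ZBES_002_14
/-
R38 / TRES, piece FAC-EIS (OGG) (helper9): the multiplicative Hecke operator on the Ogg unit.

`tres4o_kronHecke_delta` : `kronHecke ℓ ζ Δ = C ε · Δ^(ℓ+1)` (`ε = ∏_{b<ℓ} ζ^b`, a unit) for the formal
`Δ = q ∏ (1 − qⁿ)²⁴` over any field containing a primitive `ℓ`-th root of unity `ζ`, `ℓ` prime;
`tres4o_kronHecke_uS_eq` : `kronHecke ℓ ζ u_p = u_p^(ℓ+1)` for `u_p = Δ(q^p)/Δ(q)`, `ℓ ∤ p`.

Method: `kronHecke` is multiplicative; `kronHecke (1 − qⁿ) = (1 − q^(ℓn)) · (1 − qⁿ)` if `ℓ ∤ n` and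
`(1 − q^(ℓn)) · (1 − q^(n/ℓ))^ℓ` if `ℓ ∣ n`; the infinite product is handled by congruences modulo
`q^M` (`kronHecke` maps congruences modulo `q^(ℓM)` to congruences modulo `q^M`).
-/

set_option autoImplicit false
set_option linter.style.haveILetI false
set_option linter.unusedSectionVars false
set_option linter.unusedVariables false

noncomputable section

namespace Fermat.Agent.R38

open ModularCurve HahnSeries Fermat.Agent.ES Fermat.Agent.S28

/-! ## congruences of power series inside the Laurent series -/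

section cong

variable {k : Type*} [Field k]

/-- the Laurent series with no terms of degree `< M` -/
def tres4oP (k : Type*) [Field k] (M : ℤ) : AddSubgroup (LaurentSeries k) where
  carrier := {f | ∀ n : ℤ, n < M → f.coeff n = 0}
  add_mem' := fun {a b} ha hb n hn => by
    rw [HahnSeries.coeff_add, ha n hn, hb n hn, add_zero]
  zero_mem' := fun n _ => rfl
  neg_mem' := fun {a} ha n hn => by
    rw [HahnSeries.coeff_neg, ha n hn, neg_zero]

theorem tres4o_mem_P {M : ℤ} {f : LaurentSeries k} :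
    f ∈ tres4oP k M ↔ ∀ n : ℤ, n < M → f.coeff n = 0 := Iff.rfl

theorem tres4o_P_mono {a b : ℤ} (h : a ≤ b) : tres4oP k b ≤ tres4oP k a :=
  fun f hf n hn => hf n (lt_of_lt_of_le hn h)

theorem tres4o_mul_mem {a b : ℤ} {f g : LaurentSeries k} (hf : f ∈ tres4oP k a)
    (hg : g ∈ tres4oP k b) : f * g ∈ tres4oP k (a + b) := by
  intro n hn
  rw [HahnSeries.coeff_mul]
  refine Finset.sum_eq_zero fun ij hij => ?_
  rw [Finset.mem_antidiagonal] at hij
  obtain ⟨h1, h2, h3⟩ := hij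
  by_cases hi : ij.1 < a
  · rw [hf _ hi, zero_mul]
  · have hj : ij.2 < b := by omega
    rw [hg _ hj, mul_zero]

theorem tres4o_one_mem : (1 : LaurentSeries k) ∈ tres4oP k 0 := by
  intro n hn
  rw [HahnSeries.coeff_one, if_neg (by omega)]

theorem tres4o_single_mem (n : ℤ) (c : k) : HahnSeries.single n c ∈ tres4oP k n := by
  intro j hj
  rw [HahnSeries.coeff_single_of_ne (by omega)]

theorem tres4o_ofPS_mem (F : PowerSeries k) :
    HahnSeries.ofPowerSeries ℤ k F ∈ tres4oP k 0 := by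
  intro n hn
  rw [HahnSeries.ofPowerSeries_apply]
  refine HahnSeries.embDomain_of_notMem_range ?_
  rintro ⟨m, hm⟩
  have h1 : (0 : ℤ) ≤ n := by
    rw [← hm]
    exact Int.natCast_nonneg m
  omega

/-- congruence modulo `q^M` of power series -/
def Tres4oCg (M : ℤ) (f g : LaurentSeries k) : Prop :=
  f ∈ tres4oP k 0 ∧ g ∈ tres4oP k 0 ∧ f - g ∈ tres4oP k M

theorem Tres4oCg.refl {M : ℤ} {f : LaurentSeries k} (hf : f ∈ tres4oP k 0) : Tres4oCg M f f :=
  ⟨hf, hf, by rw [sub_self]; exact (tres4oP k M).zero_mem⟩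

theorem Tres4oCg.of_eq {M : ℤ} {f g : LaurentSeries k} (hf : f ∈ tres4oP k 0) (h : f = g) :
    Tres4oCg M f g := h ▸ Tres4oCg.refl hf

theorem Tres4oCg.symm {M : ℤ} {f g : LaurentSeries k} (h : Tres4oCg M f g) : Tres4oCg M g f :=
  ⟨h.2.1, h.1, by rw [← neg_sub]; exact (tres4oP k M).neg_mem h.2.2⟩

theorem Tres4oCg.trans {M : ℤ} {f g h : LaurentSeries k} (h1 : Tres4oCg M f g)
    (h2 : Tres4oCg M g h) : Tres4oCg M f h :=
  ⟨h1.1, h2.2.1, by
    have : f - h = (f - g) + (g - h) := by ring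
    rw [this]
    exact (tres4oP k M).add_mem h1.2.2 h2.2.2⟩

theorem Tres4oCg.mono {M M' : ℤ} (hM : M' ≤ M) {f g : LaurentSeries k} (h : Tres4oCg M f g) :
    Tres4oCg M' f g :=
  ⟨h.1, h.2.1, tres4o_P_mono hM h.2.2⟩

theorem tres4o_mul_mem_zero {f g : LaurentSeries k} (hf : f ∈ tres4oP k 0)
    (hg : g ∈ tres4oP k 0) : f * g ∈ tres4oP k 0 := by
  have := tres4o_mul_mem hf hg
  rwa [add_zero] at this

theorem Tres4oCg.mul {M : ℤ} {f g f' g' : LaurentSeries k} (h : Tres4oCg M f g)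
    (h' : Tres4oCg M f' g') : Tres4oCg M (f * f') (g * g') := by
  refine ⟨tres4o_mul_mem_zero h.1 h'.1, tres4o_mul_mem_zero h.2.1 h'.2.1, ?_⟩
  have e : f * f' - g * g' = f * (f' - g') + (f - g) * g' := by ring
  rw [e]
  refine (tres4oP k M).add_mem ?_ ?_
  · have := tres4o_mul_mem h.1 h'.2.2
    rwa [zero_add] at this
  · have := tres4o_mul_mem h.2.2 h'.2.1
    rwa [add_zero] at this

theorem Tres4oCg.one {M : ℤ} : Tres4oCg M (1 : LaurentSeries k) 1 := Tres4oCg.refl tres4o_one_mem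

theorem Tres4oCg.pow {M : ℤ} {f g : LaurentSeries k} (h : Tres4oCg M f g) (n : ℕ) :
    Tres4oCg M (f ^ n) (g ^ n) := by
  induction n with
  | zero => rw [pow_zero, pow_zero]; exact Tres4oCg.one
  | succ n ih => rw [pow_succ, pow_succ]; exact ih.mul h

theorem Tres4oCg.prod {M : ℤ} {ι : Type*} (s : Finset ι) (f g : ι → LaurentSeries k)
    (h : ∀ i ∈ s, Tres4oCg M (f i) (g i)) : Tres4oCg M (∏ i ∈ s, f i) (∏ i ∈ s, g i) := by
  classical
  induction s using Finset.induction_on with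
  | empty => rw [Finset.prod_empty, Finset.prod_empty]; exact Tres4oCg.one
  | insert a s ha ih =>
    rw [Finset.prod_insert ha, Finset.prod_insert ha]
    exact (h a (Finset.mem_insert_self a s)).mul
      (ih fun i hi => h i (Finset.mem_insert_of_mem hi))

theorem tres4o_eq_of_forall {f g : LaurentSeries k} (h : ∀ M : ℕ, Tres4oCg (M : ℤ) f g) :
    f = g := by
  rw [← sub_eq_zero]
  ext n
  rw [HahnSeries.coeff_zero]
  exact (h (n.toNat + 1)).2.2 n (by push_cast; omega)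

/-! ### the operators -/

theorem tres4o_qExpand_mem (ℓ : ℕ) [NeZero ℓ] {a : ℤ} (ha : 0 ≤ a) {f : LaurentSeries k}
    (hf : f ∈ tres4oP k a) : qExpand k ℓ f ∈ tres4oP k a := by
  intro n hn
  by_cases hdvd : (ℓ : ℤ) ∣ n
  · obtain ⟨m, rfl⟩ := hdvd
    rw [qExpand_coeff_mul]
    apply hf
    have hℓ : (1 : ℤ) ≤ (ℓ : ℤ) := by exact_mod_cast Nat.one_le_iff_ne_zero.2 (NeZero.ne ℓ)
    by_contra hm
    rw [not_lt] at hm
    nlinarith
  · exact qExpand_coeff_of_not_dvd ℓ f hdvd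

theorem Tres4oCg.qExpand (ℓ : ℕ) [NeZero ℓ] {M : ℤ} (hM : 0 ≤ M) {f g : LaurentSeries k}
    (h : Tres4oCg M f g) : Tres4oCg M (qExpand k ℓ f) (qExpand k ℓ g) :=
  ⟨tres4o_qExpand_mem ℓ le_rfl h.1, tres4o_qExpand_mem ℓ le_rfl h.2.1, by
    rw [← map_sub]
    exact tres4o_qExpand_mem ℓ hM h.2.2⟩

theorem tres4o_kronRot_mem (c : kˣ) {a : ℤ} {f : LaurentSeries k} (hf : f ∈ tres4oP k a) :
    kronRot c f ∈ tres4oP k a := by
  intro n hn
  rw [kronRot_coeff, hf n hn, mul_zero]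

theorem Tres4oCg.kronRot (c : kˣ) {M : ℤ} {f g : LaurentSeries k} (h : Tres4oCg M f g) :
    Tres4oCg M (kronRot c f) (kronRot c g) :=
  ⟨tres4o_kronRot_mem c h.1, tres4o_kronRot_mem c h.2.1, by
    rw [← map_sub]
    exact tres4o_kronRot_mem c h.2.2⟩

theorem Tres4oCg.kronRotProd (ℓ : ℕ) (ζ : kˣ) {M : ℤ} {f g : LaurentSeries k}
    (h : Tres4oCg M f g) : Tres4oCg M (kronRotProd ℓ ζ f) (kronRotProd ℓ ζ g) :=
  Tres4oCg.prod _ _ _ fun b _ => h.kronRot (ζ ^ b)

theorem tres4o_compress_mem (ℓ : ℕ) [NeZero ℓ] {a : ℤ} {f : LaurentSeries k}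
    (hf : f ∈ tres4oP k ((ℓ : ℤ) * a)) : kronCompress ℓ f ∈ tres4oP k a := by
  intro n hn
  rw [kronCompress_coeff]
  apply hf
  have hℓ : (0 : ℤ) < (ℓ : ℤ) := by exact_mod_cast Nat.pos_of_ne_zero (NeZero.ne ℓ)
  exact mul_lt_mul_of_pos_left hn hℓ

theorem tres4o_compress_sub (ℓ : ℕ) [NeZero ℓ] (f g : LaurentSeries k) :
    kronCompress ℓ (f - g) = kronCompress ℓ f - kronCompress ℓ g := by
  ext n
  simp only [kronCompress_coeff, HahnSeries.coeff_sub]

theorem Tres4oCg.compress (ℓ : ℕ) [NeZero ℓ] {M : ℤ} {f g : LaurentSeries k}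
    (h : Tres4oCg ((ℓ : ℤ) * M) f g) : Tres4oCg M (kronCompress ℓ f) (kronCompress ℓ g) :=
  ⟨tres4o_compress_mem ℓ (by rw [mul_zero]; exact h.1),
    tres4o_compress_mem ℓ (by rw [mul_zero]; exact h.2.1), by
    rw [← tres4o_compress_sub]
    exact tres4o_compress_mem ℓ h.2.2⟩

theorem Tres4oCg.kronHecke (ℓ : ℕ) [NeZero ℓ] (ζ : kˣ) {M : ℤ} (hM : 0 ≤ M)
    {f g : LaurentSeries k} (h : Tres4oCg ((ℓ : ℤ) * M) f g) :
    Tres4oCg M (kronHecke ℓ ζ f) (kronHecke ℓ ζ g) := by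
  have hℓ : (1 : ℤ) ≤ (ℓ : ℤ) := by exact_mod_cast Nat.one_le_iff_ne_zero.2 (NeZero.ne ℓ)
  have hle : M ≤ (ℓ : ℤ) * M := by nlinarith
  exact ((h.mono hle).qExpand ℓ hM).mul (h.kronRotProd ℓ ζ).compress

end cong

/-! ## the factors `1 − qⁿ` -/

section factor

variable {k : Type*} [Field k]

/-- `1 − qⁿ` -/
def tres4oE (k : Type*) [Field k] (n : ℕ) : LaurentSeries k :=
  1 - HahnSeries.single (n : ℤ) (1 : k)

theorem tres4o_E_mem (n : ℕ) : tres4oE k n ∈ tres4oP k 0 :=
  (tres4oP k 0).sub_mem tres4o_one_mem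
    (tres4o_P_mono (Int.natCast_nonneg n) (tres4o_single_mem _ _))

theorem tres4o_E_cg {M : ℤ} {n : ℕ} (h : M ≤ (n : ℤ)) : Tres4oCg M (tres4oE k n) 1 :=
  ⟨tres4o_E_mem n, tres4o_one_mem, by
    have e : tres4oE k n - 1 = - HahnSeries.single (n : ℤ) (1 : k) := by
      rw [tres4oE]; ring
    rw [e]
    exact (tres4oP k M).neg_mem (tres4o_P_mono h (tres4o_single_mem _ _))⟩

theorem tres4o_qExpand_E (ℓ : ℕ) [NeZero ℓ] (n : ℕ) :
    qExpand k ℓ (tres4oE k n) = tres4oE k (ℓ * n) := by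
  rw [tres4oE, map_sub, map_one, qExpand_single, tres4oE]
  push_cast
  rfl

theorem tres4o_single_pow (n : ℕ) (ℓ : ℕ) :
    (HahnSeries.single (n : ℤ) (1 : k)) ^ ℓ = HahnSeries.single ((ℓ * n : ℕ) : ℤ) (1 : k) := by
  induction ℓ with
  | zero => simp
  | succ m ih =>
    rw [pow_succ, ih, HahnSeries.single_mul_single, mul_one]
    congr 1
    push_cast
    ring_nf

theorem tres4o_kronRot_E (c : kˣ) (n : ℕ) :
    kronRot c (tres4oE k n) = 1 - HahnSeries.C ((c ^ n : kˣ) : k) * HahnSeries.single (n : ℤ) 1 := by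
  rw [tres4oE, map_sub, map_one]
  congr 1
  ext j
  rw [kronRot_coeff, HahnSeries.C_mul_eq_smul, HahnSeries.coeff_smul, smul_eq_mul]
  by_cases hj : j = (n : ℤ)
  · subst hj
    rw [zpow_natCast]
  · rw [HahnSeries.coeff_single_of_ne hj, mul_zero, mul_zero]

/-- `∏_{b<ℓ} (1 − ωᵇ Y) = 1 − Y^ℓ` for a primitive `ℓ`-th root of unity `ω` -/
theorem tres4o_prod_one_sub {R : Type*} [CommRing R] [IsDomain R] {ℓ : ℕ} (hℓ : 0 < ℓ) {ω : R}
    (hω : IsPrimitiveRoot ω ℓ) (Y : R) :
    ∏ b ∈ Finset.range ℓ, (1 - ω ^ b * Y) = 1 - Y ^ ℓ := by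
  have h := X_pow_sub_C_eq_prod hω hℓ (rfl : Y ^ ℓ = Y ^ ℓ)
  have h1 := congrArg (Polynomial.eval (1 : R)) h
  rw [Polynomial.eval_sub, Polynomial.eval_pow, Polynomial.eval_X, one_pow, Polynomial.eval_C,
    Polynomial.eval_prod] at h1
  rw [h1]
  refine Finset.prod_congr rfl fun b _ => ?_
  rw [Polynomial.eval_sub, Polynomial.eval_X, Polynomial.eval_C]

variable (ℓ : ℕ) [NeZero ℓ] (ζ : kˣ)

theorem tres4o_kronNorm_E_of_dvd (hζ : ζ ^ ℓ = 1) (m : ℕ) :
    kronNorm ℓ ζ (tres4oE k (ℓ * m)) = tres4oE k m ^ ℓ := by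
  refine kronNorm_unique ℓ ζ _ _ ?_
  rw [map_pow, tres4o_qExpand_E, kronRotProd]
  have h1 : ∀ b ∈ Finset.range ℓ, kronRot (ζ ^ b) (tres4oE k (ℓ * m)) = tres4oE k (ℓ * m) := by
    intro b _
    rw [tres4o_kronRot_E, tres4oE]
    have h2 : (ζ ^ b) ^ (ℓ * m) = 1 := by
      rw [← pow_mul, mul_comm b, mul_assoc, pow_mul, hζ, one_pow]
    rw [h2, Units.val_one, map_one, one_mul]
  rw [Finset.prod_congr rfl h1, Finset.prod_const, Finset.card_range]

theorem tres4o_kronNorm_E_of_not_dvd (hℓ : ℓ.Prime) (hζ : IsPrimitiveRoot ζ ℓ) {n : ℕ}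
    (hn : ¬ ℓ ∣ n) : kronNorm ℓ ζ (tres4oE k n) = tres4oE k n := by
  refine kronNorm_unique ℓ ζ _ _ ?_
  rw [tres4o_qExpand_E, kronRotProd]
  have hcop : Nat.Coprime n ℓ := ((Nat.Prime.coprime_iff_not_dvd hℓ).2 hn).symm
  have hω : IsPrimitiveRoot (ζ ^ n) ℓ := hζ.pow_of_coprime n hcop
  have hω' : IsPrimitiveRoot (HahnSeries.C (((ζ ^ n : kˣ) : k)) : LaurentSeries k) ℓ :=
    (IsPrimitiveRoot.coe_units_iff.2 hω).map_of_injective HahnSeries.C_injective
  have h1 := tres4o_prod_one_sub hℓ.pos hω' (HahnSeries.single (n : ℤ) (1 : k))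
  rw [tres4o_single_pow] at h1
  rw [tres4oE, ← h1]
  refine Finset.prod_congr rfl fun b _ => ?_
  have e : (ζ ^ b) ^ n = (ζ ^ n) ^ b := by rw [← pow_mul, ← pow_mul, Nat.mul_comm]
  have e2 : (HahnSeries.C ((((ζ ^ b) ^ n : kˣ)) : k) : LaurentSeries k)
      = (HahnSeries.C (((ζ ^ n : kˣ)) : k)) ^ b := by
    rw [e, Units.val_pow_eq_pow_val (ζ ^ n) b, map_pow]
  rw [tres4o_kronRot_E, e2]

/-- the second factor of `kronHecke (1 − qⁿ)` -/
def tres4oG (k : Type*) [Field k] (ℓ n : ℕ) : LaurentSeries k :=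
  if ℓ ∣ n then tres4oE k (n / ℓ) ^ ℓ else tres4oE k n

theorem tres4o_kronHecke_E (hℓ : ℓ.Prime) (hζ : IsPrimitiveRoot ζ ℓ) (n : ℕ) :
    kronHecke ℓ ζ (tres4oE k n) = tres4oE k (ℓ * n) * tres4oG k ℓ n := by
  rw [kronHecke, tres4o_qExpand_E, tres4oG]
  congr 1
  split_ifs with h
  · obtain ⟨m, rfl⟩ := h
    rw [tres4o_kronNorm_E_of_dvd ℓ ζ hζ.pow_eq_one, Nat.mul_div_cancel_left m hℓ.pos]
  · exact tres4o_kronNorm_E_of_not_dvd ℓ ζ hℓ hζ h

end factor

/-! ## finite products: reindexing and truncation -/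

section comb

variable {k : Type*} [Field k]

/-- `∏_{n < ℓM, ℓ ∣ n+1} F((n+1)/ℓ) = ∏_{m < M} F(m+1)` -/
theorem tres4o_reindex {R : Type*} [CommMonoid R] (ℓ : ℕ) (hℓ : 0 < ℓ) (F : ℕ → R) (M : ℕ) :
    ∏ n ∈ Finset.range (ℓ * M), (if ℓ ∣ n + 1 then F ((n + 1) / ℓ) else 1)
      = ∏ m ∈ Finset.range M, F (m + 1) := by
  induction M with
  | zero => simp
  | succ M ih =>
    rw [Nat.mul_succ, Finset.prod_range_add, ih, Finset.prod_range_succ]
    congr 1
    obtain ⟨ℓ', rfl⟩ : ∃ ℓ', ℓ = ℓ' + 1 := ⟨ℓ - 1, by omega⟩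
    rw [Finset.prod_eq_single ℓ']
    · have h1 : (ℓ' + 1) * M + ℓ' + 1 = (ℓ' + 1) * (M + 1) := by ring
      rw [h1, if_pos (dvd_mul_right _ _), Nat.mul_div_cancel_left _ (Nat.succ_pos ℓ')]
    · intro b hb hne
      rw [Finset.mem_range] at hb
      rw [if_neg]
      intro hdvd
      have h2 : (ℓ' + 1) ∣ b + 1 := by
        have h3 : (ℓ' + 1) * M + b + 1 = (ℓ' + 1) * M + (b + 1) := by ring
        rw [h3] at hdvd
        exact (Nat.dvd_add_right (dvd_mul_right _ _)).1 hdvd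
      have h4 := Nat.le_of_dvd (Nat.succ_pos b) h2
      omega
    · intro h
      exact absurd (Finset.mem_range.2 (Nat.lt_succ_self ℓ')) h

/-- dropping the factors which are `≡ 1` -/
theorem tres4o_drop {M : ℕ} (F : ℕ → LaurentSeries k) (hF0 : ∀ n, F n ∈ tres4oP k 0)
    (hF : ∀ n, M ≤ n → Tres4oCg (M : ℤ) (F n) 1) {N : ℕ} (hMN : M ≤ N) :
    Tres4oCg (M : ℤ) (∏ n ∈ Finset.range N, F n) (∏ n ∈ Finset.range M, F n) := by
  obtain ⟨d, rfl⟩ := Nat.exists_eq_add_of_le hMN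
  rw [Finset.prod_range_add]
  have h1 : Tres4oCg (M : ℤ) (∏ n ∈ Finset.range M, F n) (∏ n ∈ Finset.range M, F n) :=
    Tres4oCg.prod _ _ _ fun n _ => Tres4oCg.refl (hF0 n)
  have h2 : Tres4oCg (M : ℤ) (∏ x ∈ Finset.range d, F (M + x)) (∏ x ∈ Finset.range d, 1) :=
    Tres4oCg.prod _ _ _ fun n _ => hF (M + n) (Nat.le_add_right M n)
  rw [Finset.prod_const_one] at h2
  have h3 := h1.mul h2
  rwa [mul_one] at h3

variable (ℓ : ℕ) [NeZero ℓ] (ζ : kˣ)

theorem tres4o_kronHecke_prod (hζ : IsPrimitiveRoot ζ ℓ) {ι : Type*} (s : Finset ι)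
    (f : ι → LaurentSeries k) :
    kronHecke ℓ ζ (∏ i ∈ s, f i) = ∏ i ∈ s, kronHecke ℓ ζ (f i) := by
  classical
  induction s using Finset.induction_on with
  | empty => rw [Finset.prod_empty, Finset.prod_empty, kronHecke_one]
  | insert a s ha ih =>
    rw [Finset.prod_insert ha, Finset.prod_insert ha, kronHecke_mul ζ hζ, ih]

theorem tres4o_kronHecke_pow (hζ : IsPrimitiveRoot ζ ℓ) (f : LaurentSeries k) (n : ℕ) :
    kronHecke ℓ ζ (f ^ n) = kronHecke ℓ ζ f ^ n := by
  induction n with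
  | zero => rw [pow_zero, pow_zero, kronHecke_one]
  | succ n ih => rw [pow_succ, pow_succ, kronHecke_mul ζ hζ, ih]

/-- the finite identity modulo `q^M` -/
theorem tres4o_finite (hℓ : ℓ.Prime) (hζ : IsPrimitiveRoot ζ ℓ) (M : ℕ) :
    Tres4oCg (M : ℤ) (kronHecke ℓ ζ (∏ n ∈ Finset.range (ℓ * M), tres4oE k (n + 1)))
      ((∏ n ∈ Finset.range M, tres4oE k (n + 1)) ^ (ℓ + 1)) := by
  have hMN : M ≤ ℓ * M := Nat.le_mul_of_pos_left M hℓ.pos
  set Pm : LaurentSeries k := ∏ n ∈ Finset.range M, tres4oE k (n + 1) with hPm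
  have hPm0 : Pm ∈ tres4oP k 0 := (Tres4oCg.prod (M := 0) _ _ _ fun n _ =>
    Tres4oCg.refl (tres4o_E_mem (n + 1))).1
  -- exact formula
  rw [tres4o_kronHecke_prod ℓ ζ hζ]
  simp only [tres4o_kronHecke_E ℓ ζ hℓ hζ]
  rw [Finset.prod_mul_distrib]
  -- the second factor
  have hB : ∏ n ∈ Finset.range (ℓ * M), tres4oG k ℓ (n + 1)
      = Pm ^ ℓ * ∏ n ∈ Finset.range (ℓ * M), (if ℓ ∣ n + 1 then 1 else tres4oE k (n + 1)) := by
    have h1 : ∀ n ∈ Finset.range (ℓ * M), tres4oG k ℓ (n + 1)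
        = (if ℓ ∣ n + 1 then tres4oE k ((n + 1) / ℓ) ^ ℓ else 1) *
          (if ℓ ∣ n + 1 then 1 else tres4oE k (n + 1)) := by
      intro n _
      rw [tres4oG]
      split_ifs <;> simp
    rw [Finset.prod_congr rfl h1, Finset.prod_mul_distrib,
      tres4o_reindex ℓ hℓ.pos (fun j => tres4oE k j ^ ℓ) M, Finset.prod_pow]
  rw [hB]
  -- the first factor
  have hA : Tres4oCg (M : ℤ) (∏ n ∈ Finset.range (ℓ * M), tres4oE k (ℓ * (n + 1)))
      (∏ n ∈ Finset.range (ℓ * M), (if ℓ ∣ n + 1 then tres4oE k (n + 1) else 1)) := by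
    have h1 := tres4o_drop (M := M) (fun n => tres4oE k (ℓ * (n + 1)))
      (fun n => tres4o_E_mem _) (fun n hn => tres4o_E_cg (by
        have : M ≤ ℓ * (n + 1) := le_trans (by omega) (Nat.le_mul_of_pos_left (n + 1) hℓ.pos)
        exact_mod_cast this)) hMN
    have h2 := tres4o_reindex ℓ hℓ.pos (fun j => tres4oE k (ℓ * j)) M
    have h3 : ∀ n ∈ Finset.range (ℓ * M),
        (if ℓ ∣ n + 1 then tres4oE k (ℓ * ((n + 1) / ℓ)) else 1)
          = (if ℓ ∣ n + 1 then tres4oE k (n + 1) else 1) := by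
      intro n _
      split_ifs with h
      · rw [Nat.mul_div_cancel' h]
      · rfl
    rw [Finset.prod_congr rfl h3] at h2
    rw [h2]
    exact h1
  have hC0 : (∏ n ∈ Finset.range (ℓ * M), (if ℓ ∣ n + 1 then 1 else tres4oE k (n + 1)))
      ∈ tres4oP k 0 := (Tres4oCg.prod (M := 0) _ _ _ fun n _ =>
    Tres4oCg.refl (by split_ifs; exacts [tres4o_one_mem, tres4o_E_mem _])).1
  have h4 : ∀ n ∈ Finset.range (ℓ * M),
      (if ℓ ∣ n + 1 then tres4oE k (n + 1) else 1) * (if ℓ ∣ n + 1 then 1 else tres4oE k (n + 1))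
        = tres4oE k (n + 1) := by
    intro n _
    split_ifs <;> simp
  have hR : (∏ n ∈ Finset.range (ℓ * M), (if ℓ ∣ n + 1 then tres4oE k (n + 1) else 1)) *
      (∏ n ∈ Finset.range (ℓ * M), (if ℓ ∣ n + 1 then 1 else tres4oE k (n + 1)))
      = ∏ n ∈ Finset.range (ℓ * M), tres4oE k (n + 1) := by
    rw [← Finset.prod_mul_distrib]
    exact Finset.prod_congr rfl h4
  have hAC := hA.mul (Tres4oCg.refl (M := (M : ℤ)) hC0)
  rw [hR] at hAC
  have hD := tres4o_drop (M := M) (fun n => tres4oE k (n + 1)) (fun n => tres4o_E_mem _)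
    (fun n hn => tres4o_E_cg (by exact_mod_cast (by omega : M ≤ n + 1))) hMN
  have hE := (hAC.trans hD).mul (Tres4oCg.refl (M := (M : ℤ))
    ((Tres4oCg.refl (M := 0) hPm0).pow ℓ).1)
  have e1 : ∀ A B C : LaurentSeries k, A * (C * B) = A * B * C := by
    intro A B C
    ring
  have e2 : Pm ^ (ℓ + 1) = Pm * Pm ^ ℓ := by ring
  rw [e1, e2]
  exact hE

end comb

/-! ## the eta product -/

section eta

open Filter Topology
open scoped PowerSeries.WithPiTopology

/-- the finite partial products of the eta product over `ℤ` -/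
def tres4oZ (N : ℕ) : PowerSeries ℤ := ∏ n ∈ Finset.range N, (1 - PowerSeries.X ^ (n + 1))

theorem tres4o_coeff_Z_succ {N m : ℕ} (h : m ≤ N) :
    PowerSeries.coeff m (tres4oZ (N + 1)) = PowerSeries.coeff m (tres4oZ N) := by
  have e : tres4oZ (N + 1) = tres4oZ N - tres4oZ N * PowerSeries.X ^ (N + 1) := by
    rw [tres4oZ, Finset.prod_range_succ, ← tres4oZ]; ring
  rw [e, map_sub, PowerSeries.coeff_mul_X_pow', if_neg (by omega), sub_zero]

theorem tres4o_coeff_Z_of_le {N m : ℕ} (h : m ≤ N) (M : ℕ) (hM : N ≤ M) :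
    PowerSeries.coeff m (tres4oZ M) = PowerSeries.coeff m (tres4oZ N) := by
  induction M, hM using Nat.le_induction with
  | base => rfl
  | succ M hM ih => rw [tres4o_coeff_Z_succ (le_trans h hM), ih]

theorem tres4o_coeff_etaProd {N m : ℕ} (h : m ≤ N) :
    PowerSeries.coeff m ModularCurve.etaProd = PowerSeries.coeff m (tres4oZ N) := by
  have h0 := (PowerSeries.WithPiTopology.multipliable_one_sub_X_pow ℤ).hasProd.tendsto_prod_nat
  have h1 : Tendsto (fun M : ℕ => PowerSeries.coeff m (tres4oZ M)) atTop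
      (𝓝 (PowerSeries.coeff m ModularCurve.etaProd)) :=
    ((PowerSeries.WithPiTopology.continuous_coeff ℤ m).tendsto _).comp h0
  have h2 : Tendsto (fun M : ℕ => PowerSeries.coeff m (tres4oZ M)) atTop
      (𝓝 (PowerSeries.coeff m (tres4oZ N))) :=
    tendsto_atTop_of_eventually_const (i₀ := N) fun M hM => tres4o_coeff_Z_of_le h M hM
  exact tendsto_nhds_unique h1 h2

variable {k : Type*} [Field k]

/-- the eta product over `k` -/
def tres4oEta (k : Type*) [Field k] : LaurentSeries k :=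
  HahnSeries.ofPowerSeries ℤ k (ModularCurve.etaProd.map (Int.castRingHom k))

theorem tres4o_prod_E (N : ℕ) :
    ∏ n ∈ Finset.range N, tres4oE k (n + 1)
      = HahnSeries.ofPowerSeries ℤ k ((tres4oZ N).map (Int.castRingHom k)) := by
  rw [tres4oZ, map_prod, map_prod]
  refine Finset.prod_congr rfl fun n _ => ?_
  rw [map_sub, map_one, map_pow, PowerSeries.map_X, map_sub, map_one,
    HahnSeries.ofPowerSeries_X_pow, tres4oE]

theorem tres4o_eta_mem : tres4oEta k ∈ tres4oP k 0 := tres4o_ofPS_mem _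

theorem tres4o_eta_cg (N : ℕ) :
    Tres4oCg ((N : ℤ) + 1) (tres4oEta k) (∏ n ∈ Finset.range N, tres4oE k (n + 1)) := by
  have hP : (∏ n ∈ Finset.range N, tres4oE k (n + 1)) ∈ tres4oP k 0 := by
    rw [tres4o_prod_E]; exact tres4o_ofPS_mem _
  refine ⟨tres4o_eta_mem, hP, ?_⟩
  intro n hn
  rw [HahnSeries.coeff_sub]
  by_cases h0 : n < 0
  · rw [tres4o_eta_mem n h0, hP n h0, sub_zero]
  · obtain ⟨m, rfl⟩ : ∃ m : ℕ, n = (m : ℤ) := ⟨n.toNat, by omega⟩
    have hm : m ≤ N := by omega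
    rw [tres4o_prod_E, tres4oEta, HahnSeries.ofPowerSeries_apply_coeff,
      HahnSeries.ofPowerSeries_apply_coeff, PowerSeries.coeff_map, PowerSeries.coeff_map,
      tres4o_coeff_etaProd hm, sub_self]

variable (ℓ : ℕ) [NeZero ℓ] (ζ : kˣ)

/-- **the Hecke operator on the eta product**: `T_ℓ η̂ = η̂^(ℓ+1)` -/
theorem tres4o_kronHecke_eta (hℓ : ℓ.Prime) (hζ : IsPrimitiveRoot ζ ℓ) :
    kronHecke ℓ ζ (tres4oEta k) = tres4oEta k ^ (ℓ + 1) := by
  refine tres4o_eq_of_forall fun M => ?_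
  have h1 : Tres4oCg ((ℓ : ℤ) * (M : ℤ)) (tres4oEta k)
      (∏ n ∈ Finset.range (ℓ * M), tres4oE k (n + 1)) := by
    have := tres4o_eta_cg (k := k) (ℓ * M)
    refine this.mono ?_
    push_cast
    omega
  have h2 := Tres4oCg.kronHecke ℓ ζ (Int.natCast_nonneg M) h1
  have h3 := tres4o_finite ℓ ζ hℓ hζ M
  have h4 : Tres4oCg (M : ℤ) (tres4oEta k) (∏ n ∈ Finset.range M, tres4oE k (n + 1)) :=
    (tres4o_eta_cg (k := k) M).mono (by omega)
  exact (h2.trans h3).trans (h4.pow (ℓ + 1)).symm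

end eta

/-! ## the discriminant and the Ogg unit -/

section delta

variable {k : Type*} [Field k] (ℓ : ℕ) [NeZero ℓ] (ζ : kˣ)

/-- the unit `ε = ∏_{b<ℓ} ζ^b` -/
def tres4oEps (ℓ : ℕ) (ζ : kˣ) : kˣ := ∏ b ∈ Finset.range ℓ, ζ ^ b

theorem tres4o_kronRot_q (c : kˣ) :
    kronRot c (HahnSeries.single (1 : ℤ) (1 : k))
      = HahnSeries.C ((c : kˣ) : k) * HahnSeries.single (1 : ℤ) 1 := by
  ext j
  rw [kronRot_coeff, HahnSeries.C_mul_eq_smul, HahnSeries.coeff_smul, smul_eq_mul]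
  by_cases hj : j = 1
  · subst hj
    rw [zpow_one]
  · rw [HahnSeries.coeff_single_of_ne hj, mul_zero, mul_zero]

theorem tres4o_kronNorm_q :
    kronNorm ℓ ζ (HahnSeries.single (1 : ℤ) (1 : k))
      = HahnSeries.C ((tres4oEps ℓ ζ : kˣ) : k) * HahnSeries.single (1 : ℤ) 1 := by
  refine kronNorm_unique ℓ ζ _ _ ?_
  rw [map_mul, qExpand_C, qExpand_single, mul_one, kronRotProd]
  simp only [tres4o_kronRot_q]
  rw [Finset.prod_mul_distrib, Finset.prod_const, Finset.card_range, ← map_prod,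
    HahnSeries.single_pow, one_pow, nsmul_eq_mul, mul_one, tres4oEps, Units.coe_prod]

theorem tres4o_kronHecke_q :
    kronHecke ℓ ζ (HahnSeries.single (1 : ℤ) (1 : k))
      = HahnSeries.C ((tres4oEps ℓ ζ : kˣ) : k) * HahnSeries.single (1 : ℤ) 1 ^ (ℓ + 1) := by
  rw [kronHecke, tres4o_kronNorm_q, qExpand_single, mul_one, HahnSeries.single_pow, one_pow,
    nsmul_eq_mul, mul_one, mul_left_comm, HahnSeries.single_mul_single, mul_one]
  push_cast
  rfl

theorem tres4o_eps_ne_zero :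
    (HahnSeries.C ((tres4oEps ℓ ζ : kˣ) : k) : LaurentSeries k) ≠ 0 :=
  (map_ne_zero (HahnSeries.C : k →+* LaurentSeries k)).2 (Units.ne_zero _)

theorem tres4o_deltaS_eq :
    deltaS k = HahnSeries.single (1 : ℤ) (1 : k) * tres4oEta k ^ 24 := by
  rw [deltaS_eq, dedekindEtaUnit, map_pow, map_pow, tres4oEta]

/-- **the Hecke operator on the discriminant**: `T_ℓ Δ = ε · Δ^(ℓ+1)` -/
theorem tres4o_kronHecke_delta (hℓ : ℓ.Prime) (hζ : IsPrimitiveRoot ζ ℓ) :
    kronHecke ℓ ζ (deltaS k)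
      = HahnSeries.C ((tres4oEps ℓ ζ : kˣ) : k) * deltaS k ^ (ℓ + 1) := by
  rw [tres4o_deltaS_eq, kronHecke_mul ζ hζ, tres4o_kronHecke_pow ℓ ζ hζ,
    tres4o_kronHecke_eta ℓ ζ hℓ hζ, tres4o_kronHecke_q]
  ring

theorem tres4o_kronHecke_qExpand (p : ℕ) [NeZero p] (hcop : Nat.Coprime p ℓ) (hζ : ζ ^ ℓ = 1)
    (f : LaurentSeries k) :
    kronHecke ℓ ζ (qExpand k p f) = qExpand k p (kronHecke ℓ ζ f) := by
  rw [kronHecke, kronHecke, map_mul, kron_qExpand_comm ℓ p, kronNorm_qExpand p ℓ hcop ζ hζ]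

theorem tres4o_kronHecke_inv (hζ : IsPrimitiveRoot ζ ℓ) {f : LaurentSeries k} (hf : f ≠ 0) :
    kronHecke ℓ ζ f⁻¹ = (kronHecke ℓ ζ f)⁻¹ := by
  have h : kronHecke ℓ ζ f * kronHecke ℓ ζ f⁻¹ = 1 := by
    rw [← kronHecke_mul ζ hζ, mul_inv_cancel₀ hf, kronHecke_one]
  exact eq_inv_of_mul_eq_one_right h

/-- **the Hecke operator on the Ogg unit** `u_p = Δ(q^p)/Δ(q)`: `T_ℓ u_p = u_p^(ℓ+1)` for a prime
`ℓ ∤ p` (the constants `ε` cancel). -/
theorem tres4o_kronHecke_uS_eq (p : ℕ) [NeZero p] (hℓ : ℓ.Prime) (hℓp : ¬ ℓ ∣ p)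
    (hζ : IsPrimitiveRoot ζ ℓ) :
    kronHecke ℓ ζ (uS k p) = uS k p ^ (ℓ + 1) := by
  have hcop : Nat.Coprime p ℓ := ((Nat.Prime.coprime_iff_not_dvd hℓ).2 hℓp).symm
  have hΔ : deltaS k ≠ 0 := deltaS_ne_zero k
  have hε := tres4o_eps_ne_zero (k := k) ℓ ζ
  rw [uS_eq_div, kronHecke_mul ζ hζ, tres4o_kronHecke_qExpand ℓ ζ p hcop hζ.pow_eq_one,
    tres4o_kronHecke_inv ℓ ζ hζ hΔ, tres4o_kronHecke_delta ℓ ζ hℓ hζ, map_mul, qExpand_C,
    map_pow, mul_pow, inv_pow]
  field_simp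

end delta

/-! ## the requested forms -/

section final

/-- **EIS-OGG** (`ℓ ∤ p`): `T_ℓ u_p = c · u_p^(ℓ+1)` with `c = 1`.  (For `ℓ ∣ p`, `ℓ ≠ p` the statement
is false, e.g. `p = ℓ²` in characteristic `0`: `T_ℓ Δ(q^p) = Δ(q^(ℓp)) · Δ(q^(p/ℓ))^ℓ`.) -/
theorem tres4o_kronHecke_uS (k : Type*) [Field k] (p ℓ : ℕ) [NeZero p] [NeZero ℓ] (hℓ : ℓ.Prime)
    (hℓp : ¬ ℓ ∣ p) (ζ : kˣ) (hζ : IsPrimitiveRoot ζ ℓ) :
    ∃ c : k, c ≠ 0 ∧
      kronHecke ℓ ζ (uS k p) = HahnSeries.C c * uS k p ^ (ℓ + 1) :=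
  ⟨1, one_ne_zero, by rw [tres4o_kronHecke_uS_eq ℓ ζ p hℓ hℓp hζ, map_one, one_mul]⟩

/-- **EIS-OGG** for a prime level `p ≠ ℓ`. -/
theorem tres4o_kronHecke_uS_prime (k : Type*) [Field k] (p ℓ : ℕ) [NeZero p] [NeZero ℓ]
    (hp : p.Prime) (hℓ : ℓ.Prime) (hℓp : ℓ ≠ p) (ζ : kˣ) (hζ : IsPrimitiveRoot ζ ℓ) :
    ∃ c : k, c ≠ 0 ∧
      kronHecke ℓ ζ (uS k p) = HahnSeries.C c * uS k p ^ (ℓ + 1) :=
  tres4o_kronHecke_uS k p ℓ hℓ
    (fun h => hℓp ((Nat.prime_dvd_prime_iff_eq hℓ hp).1 h)) ζ hζ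

/-- `T_ℓ u_p = u_p^(ℓ+1)` for primes `ℓ ≠ p`. -/
theorem tres4o_kronHecke_uS_prime_eq (k : Type*) [Field k] (p ℓ : ℕ) [NeZero p] [NeZero ℓ]
    (hp : p.Prime) (hℓ : ℓ.Prime) (hℓp : ℓ ≠ p) (ζ : kˣ) (hζ : IsPrimitiveRoot ζ ℓ) :
    kronHecke ℓ ζ (uS k p) = uS k p ^ (ℓ + 1) :=
  tres4o_kronHecke_uS_eq ℓ ζ p hℓ
    (fun h => hℓp ((Nat.prime_dvd_prime_iff_eq hℓ hp).1 h)) hζ

end final

end Fermat.Agent.R38

end


end ZBES_002_14

/-! ### bundled: `Fermat.Agent.R38.TresEisOggInv` -/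
section ZBES_002_15
/-
ROW 38, TRES, LEAF B of ASM-NOCOVER (helper47's list) = the Hecke half of input (I7 OGG) of
helper89's `tresmono_frame` (helper10).

The Hecke operator on the INVERSE Ogg unit `uInvS k p = Δ(q)/Δ(q^p)`:
`T_ℓ (uInvS) = (uInvS)^(ℓ+1)` for a prime `ℓ ∤ p` (from helper9's `tres4o_kronHecke_uS_eq` and
`tres4o_kronHecke_inv`).

 * `tres4o_kronHecke_uInvS_eq`        `kronHecke ℓ ζ (uInvS k p) = uInvS k p ^ (ℓ + 1)`
 * `tres4o_kronHecke_uInvS`           `∃ c ≠ 0, … = C c * uInvS k p ^ (ℓ + 1)`   (LEAF B, `c = 1`)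
 * `tres4o_kronHecke_uInvS_prime`     the same for a prime level `p ≠ ℓ`
 * `tres4o_hhecke_uInvS`              in EXACTLY the shape of the hypothesis `hhecke` of
                                      `tresmono_frame` / `facMonoConcl_of_ordAt` for
                                      `hb := uInvS k p`
-/

set_option autoImplicit false
set_option linter.unusedSectionVars false

noncomputable section

namespace Fermat.Agent.R38

open ModularCurve HahnSeries Fermat.Agent.ES Fermat.Agent.S28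

/-- `T_ℓ (u_p⁻¹) = (u_p⁻¹)^(ℓ+1)` for a prime `ℓ ∤ p`. -/
theorem tres4o_kronHecke_uInvS_eq (k : Type*) [Field k] (p ℓ : ℕ) [NeZero p] [NeZero ℓ]
    (hℓ : ℓ.Prime) (hℓp : ¬ ℓ ∣ p) (ζ : kˣ) (hζ : IsPrimitiveRoot ζ ℓ) :
    kronHecke ℓ ζ (uInvS k p) = uInvS k p ^ (ℓ + 1) := by
  rw [uInvS_eq_inv, tres4o_kronHecke_inv ℓ ζ hζ (uS_ne_zero p k),
    tres4o_kronHecke_uS_eq ℓ ζ p hℓ hℓp hζ, inv_pow]

/-- **LEAF B**: `T_ℓ (uInvS) = c · (uInvS)^(ℓ+1)` with `c = 1`, for a prime `ℓ ∤ p`. -/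
theorem tres4o_kronHecke_uInvS (k : Type*) [Field k] (p ℓ : ℕ) [NeZero p] [NeZero ℓ]
    (hℓ : ℓ.Prime) (hℓp : ¬ ℓ ∣ p) (ζ : kˣ) (hζ : IsPrimitiveRoot ζ ℓ) :
    ∃ c : k, c ≠ 0 ∧ kronHecke ℓ ζ (uInvS k p) = HahnSeries.C c * uInvS k p ^ (ℓ + 1) :=
  ⟨1, one_ne_zero, by rw [tres4o_kronHecke_uInvS_eq k p ℓ hℓ hℓp ζ hζ, map_one, one_mul]⟩

/-- the same for a prime level `p ≠ ℓ`. -/
theorem tres4o_kronHecke_uInvS_prime (k : Type*) [Field k] (p ℓ : ℕ) [NeZero p] [NeZero ℓ]
    (hp : p.Prime) (hℓ : ℓ.Prime) (hℓp : ℓ ≠ p) (ζ : kˣ) (hζ : IsPrimitiveRoot ζ ℓ) :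
    ∃ c : k, c ≠ 0 ∧ kronHecke ℓ ζ (uInvS k p) = HahnSeries.C c * uInvS k p ^ (ℓ + 1) :=
  tres4o_kronHecke_uInvS k p ℓ hℓ
    (fun h => hℓp ((Nat.prime_dvd_prime_iff_eq hℓ hp).1 h)) ζ hζ

/-- **(I7) `hhecke`** of `tresmono_frame` for `hb := uInvS k p` (`p` prime), in exactly the
shape of the hypothesis. -/
theorem tres4o_hhecke_uInvS (k : Type*) [Field k] (p : ℕ) [NeZero p] (hp : p.Prime) :
    ∀ (ℓ : ℕ) [NeZero ℓ], ℓ.Prime → ℓ ≠ p → ∀ ζ : kˣ, IsPrimitiveRoot ζ ℓ →
      ∃ c : k, c ≠ 0 ∧ kronHecke ℓ ζ (uInvS k p) = HahnSeries.C c * uInvS k p ^ (ℓ + 1) :=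
  fun ℓ _ hℓ hℓp ζ hζ => tres4o_kronHecke_uInvS_prime k p ℓ hp hℓ hℓp ζ hζ

/-- `T_ℓ (uS) = c · (uS)^(ℓ+1)` in the `hhecke` shape (for use with `hb := uS k p`). -/
theorem tres4o_hhecke_uS (k : Type*) [Field k] (p : ℕ) [NeZero p] (hp : p.Prime) :
    ∀ (ℓ : ℕ) [NeZero ℓ], ℓ.Prime → ℓ ≠ p → ∀ ζ : kˣ, IsPrimitiveRoot ζ ℓ →
      ∃ c : k, c ≠ 0 ∧ kronHecke ℓ ζ (uS k p) = HahnSeries.C c * uS k p ^ (ℓ + 1) :=
  fun ℓ _ hℓ hℓp ζ hζ => tres4o_kronHecke_uS_prime k p ℓ hp hℓ hℓp ζ hζ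

end Fermat.Agent.R38

end


end ZBES_002_15
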