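/- GENERATED FILE (helper35, build-time optimisation, NOTES/ZB.md): verbatim concatenation of the modules
   Fermat.Agent.INJ.GaussRing
   Fermat.Agent.INJ.GaussRep
   Fermat.Agent.INJ.InjCoreStmt
   Fermat.Agent.INJ.GaussGood
   Fermat.Agent.INJ.GaussLevel
   Fermat.Agent.UNIP.MGVertGauss
   Fermat.Agent.UNIP.MGVertCompat
   Fermat.Agent.UNIP.NodesGauss
   Fermat.Agent.STB.ToricTransferCore
   Fermat.Agent.S33.WildDeepCore
   Fermat.Agent.S36.N2ExtDVR
   Do not edit; do not import together with these modules. -/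
import Mathlib
import Fermat.Prelude.Def_ModularCurve_LaurentCoeff
import Fermat.Agent.ZB.S28_001
import Fermat.Agent.ZB.S28_002
import Fermat.Agent.ZB.INJ_002
import Fermat.Agent.ZB.INJ_004
import Fermat.Agent.ZB.INJ_008
import Fermat.Agent.ZB.S28_003
import Fermat.Agent.ZB.ES_002

/-! ### bundled: `Fermat.Agent.INJ.GaussRing` -/
section ZBINJ_003_0

/-!
# INJ B-I1 (G1): the Gauss ring of `A((q))` inside `E((q))` and its residue map

Generic version of `S28/LocInt.lean`.  `A` a commutative ring, `ι : A →+* E` an injective ring hom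
into a field (think `E = Frac A`), `r : A →+* k` a ring hom onto a field (the residue map).
`Λ = A((q))`, `ι̂ = coeffMap ι`, `r̂ = coeffMap r`.

* `gaussRing ι r` : the subring of `E((q))` of all `x` with `ι̂ b * x = ι̂ T`, `T, b ∈ Λ`, `r̂ b ≠ 0`;
* `gaussRed ι hι r : gaussRing ι r →+* k((q))`, `x ↦ r̂ T / r̂ b`;
* `exists_eq_C_mul_of_coeffMap_eq_zero` : a series over `A` with zero reduction is divisible by `π`;
* `gaussRed_eq_zero_iff_dvd` : `ker gaussRed = π · gaussRing` when `ker r = (π)`;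
* `inv_mem_gaussRing` : elements with nonzero reduction are units.
-/

set_option autoImplicit false

noncomputable section

namespace Fermat.Agent.INJ

open ModularCurve

section Basic

variable {A E k : Type*} [CommRing A] [Field E] [Field k] (ι : A →+* E) (r : A →+* k)

theorem coeffMap_inj_of_injective (hι : Function.Injective ι) :
    Function.Injective (coeffMap ι) := by
  intro x y h
  ext n
  apply hι
  have h1 := congrArg (fun z : LaurentSeries E => z.coeff n) h
  simpa using h1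

/-- `x ∈ E((q))` is a quotient `T / b` of series over `A` with `b ≢ 0` in the residue field. -/
def IsGaussInt (x : LaurentSeries E) : Prop :=
  ∃ T b : LaurentSeries A, coeffMap r b ≠ 0 ∧ coeffMap ι b * x = coeffMap ι T

/-- The Gauss ring: the localisation of `A((q))` at the kernel of the reduction, inside
`E((q))`. -/
def gaussRing : Subring (LaurentSeries E) where
  carrier := {x | IsGaussInt ι r x}
  zero_mem' := ⟨0, 1, by simp, by simp⟩
  one_mem' := ⟨1, 1, by simp, by simp⟩
  add_mem' := by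
    rintro x y ⟨T, b, hb, h⟩ ⟨T', b', hb', h'⟩
    refine ⟨T * b' + T' * b, b * b', ?_, ?_⟩
    · rw [map_mul]; exact mul_ne_zero hb hb'
    · rw [map_mul, map_add, map_mul, map_mul, ← h, ← h']; ring
  neg_mem' := by
    rintro x ⟨T, b, hb, h⟩
    exact ⟨-T, b, hb, by rw [map_neg, ← h]; ring⟩
  mul_mem' := by
    rintro x y ⟨T, b, hb, h⟩ ⟨T', b', hb', h'⟩
    refine ⟨T * T', b * b', ?_, ?_⟩
    · rw [map_mul]; exact mul_ne_zero hb hb'
    · rw [map_mul, map_mul, ← h, ← h']; ring

theorem mem_gaussRing_iff {x : LaurentSeries E} : x ∈ gaussRing ι r ↔ IsGaussInt ι r x := Iff.rfl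

theorem coeffMap_mem_gaussRing (T : LaurentSeries A) : coeffMap ι T ∈ gaussRing ι r :=
  ⟨T, 1, by simp, by simp⟩

variable {ι} (hι : Function.Injective ι)

/-- The residue map of the Gauss ring, as a function (choice of a representation). -/
def gaussRedFun (x : gaussRing ι r) : LaurentSeries k :=
  coeffMap r (Classical.choose x.2) / coeffMap r (Classical.choose (Classical.choose_spec x.2))

include hι in
theorem gaussRedFun_eq (x : gaussRing ι r) (T b : LaurentSeries A)
    (hb : coeffMap r b ≠ 0) (h : coeffMap ι b * (x : LaurentSeries E) = coeffMap ι T) :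
    gaussRedFun r x = coeffMap r T / coeffMap r b := by
  obtain ⟨hb₁, h₁⟩ := Classical.choose_spec (Classical.choose_spec x.2)
  set T₁ := Classical.choose x.2
  set b₁ := Classical.choose (Classical.choose_spec x.2)
  have key : b₁ * T = b * T₁ := by
    apply coeffMap_inj_of_injective ι hι
    rw [map_mul, map_mul, ← h, ← h₁]; ring
  have key' := congrArg (coeffMap r) key
  rw [map_mul, map_mul] at key'
  show coeffMap r T₁ / coeffMap r b₁ = coeffMap r T / coeffMap r b
  rw [div_eq_div_iff hb₁ hb]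
  rw [mul_comm, ← key', mul_comm]

/-- The residue map `gaussRing → k((q))`. -/
def gaussRed : gaussRing ι r →+* LaurentSeries k where
  toFun := gaussRedFun r
  map_zero' := by
    rw [gaussRedFun_eq r hι 0 0 1 (by simp) (by simp)]; simp
  map_one' := by
    rw [gaussRedFun_eq r hι 1 1 1 (by simp) (by simp)]; simp
  map_add' := by
    intro x y
    obtain ⟨T, b, hb, h⟩ := x.2
    obtain ⟨T', b', hb', h'⟩ := y.2
    show gaussRedFun r (x + y) = gaussRedFun r x + gaussRedFun r y
    rw [gaussRedFun_eq r hι x T b hb h, gaussRedFun_eq r hι y T' b' hb' h',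
      gaussRedFun_eq r hι (x + y) (T * b' + T' * b) (b * b')
        (by rw [map_mul]; exact mul_ne_zero hb hb')
        (by
          rw [Subring.coe_add, map_mul, map_add, map_mul, map_mul, ← h, ← h']; ring)]
    rw [map_add, map_mul, map_mul, map_mul]
    field_simp
  map_mul' := by
    intro x y
    obtain ⟨T, b, hb, h⟩ := x.2
    obtain ⟨T', b', hb', h'⟩ := y.2
    show gaussRedFun r (x * y) = gaussRedFun r x * gaussRedFun r y
    rw [gaussRedFun_eq r hι x T b hb h, gaussRedFun_eq r hι y T' b' hb' h',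
      gaussRedFun_eq r hι (x * y) (T * T') (b * b')
        (by rw [map_mul]; exact mul_ne_zero hb hb')
        (by
          rw [Subring.coe_mul, map_mul, map_mul, ← h, ← h']; ring)]
    rw [map_mul, map_mul]
    field_simp

theorem gaussRed_eq (x : gaussRing ι r) (T b : LaurentSeries A)
    (hb : coeffMap r b ≠ 0) (h : coeffMap ι b * (x : LaurentSeries E) = coeffMap ι T) :
    gaussRed r hι x = coeffMap r T / coeffMap r b :=
  gaussRedFun_eq r hι x T b hb h

theorem gaussRed_coeffMap (T : LaurentSeries A) :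
    gaussRed r hι ⟨coeffMap ι T, coeffMap_mem_gaussRing ι r T⟩ = coeffMap r T := by
  rw [gaussRed_eq r hι _ T 1 (by simp) (by simp)]; simp

theorem gaussRed_eq_zero_iff (x : gaussRing ι r) (T b : LaurentSeries A)
    (hb : coeffMap r b ≠ 0) (h : coeffMap ι b * (x : LaurentSeries E) = coeffMap ι T) :
    gaussRed r hι x = 0 ↔ coeffMap r T = 0 := by
  rw [gaussRed_eq r hι x T b hb h, div_eq_zero_iff]
  exact ⟨fun h => h.resolve_right hb, Or.inl⟩

/-- Elements with nonzero reduction are units of the Gauss ring. -/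
theorem inv_mem_gaussRing (x : gaussRing ι r) (hx : gaussRed r hι x ≠ 0) :
    (x : LaurentSeries E)⁻¹ ∈ gaussRing ι r := by
  obtain ⟨T, b, hb, h⟩ := x.2
  have hT : coeffMap r T ≠ 0 := fun h0 => hx ((gaussRed_eq_zero_iff r hι x T b hb h).mpr h0)
  have hbE : coeffMap ι b ≠ 0 := by
    intro h0
    apply hb
    have : b = 0 := coeffMap_inj_of_injective ι hι (by rw [h0, map_zero])
    rw [this, map_zero]
  have hx0 : (x : LaurentSeries E) ≠ 0 := by
    intro h0
    rw [h0, mul_zero] at h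
    apply hT
    have : T = 0 := coeffMap_inj_of_injective ι hι (by rw [← h, map_zero])
    rw [this, map_zero]
  refine ⟨b, T, hT, ?_⟩
  rw [← h]
  field_simp

theorem gaussRed_inv (x : gaussRing ι r) (hx : gaussRed r hι x ≠ 0) :
    gaussRed r hι ⟨(x : LaurentSeries E)⁻¹, inv_mem_gaussRing r hι x hx⟩ =
      (gaussRed r hι x)⁻¹ := by
  have hx0 : (x : LaurentSeries E) ≠ 0 := by
    intro h0
    apply hx
    have : x = 0 := Subtype.ext h0
    rw [this, map_zero]
  have h1 : x * ⟨(x : LaurentSeries E)⁻¹, inv_mem_gaussRing r hι x hx⟩ = 1 :=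
    Subtype.ext (mul_inv_cancel₀ hx0)
  have h2 := congrArg (gaussRed r hι) h1
  rw [map_mul, map_one] at h2
  exact eq_inv_of_mul_eq_one_right h2

end Basic

section Kernel

variable {A E k : Type*} [CommRing A] [Field E] [Field k] {ι : A →+* E} (r : A →+* k)
  (hι : Function.Injective ι)

theorem coeffMap_hahnC {R S : Type*} [CommRing R] [CommRing S] (f : R →+* S) (a : R) :
    coeffMap f (HahnSeries.C a : LaurentSeries R) = HahnSeries.C (f a) := by
  show coeffMap f (HahnSeries.single 0 a) = HahnSeries.single 0 (f a)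
  exact coeffMap_single f 0 a

/-- A series over `A` whose reduction vanishes is divisible by `π` (when `ker r ⊆ (π)`). -/
theorem exists_eq_C_mul_of_coeffMap_eq_zero {π : A} (hker : ∀ a, r a = 0 → π ∣ a)
    (T : LaurentSeries A) (hT : coeffMap r T = 0) :
    ∃ T' : LaurentSeries A, T = HahnSeries.C π * T' := by
  classical
  have h1 : ∀ n, r (T.coeff n) = 0 := fun n => by
    have := congrArg (fun z : LaurentSeries k => z.coeff n) hT
    simpa using this
  choose f hf using fun n => hker _ (h1 n)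
  refine ⟨⟨fun n => if T.coeff n = 0 then 0 else f n, T.isPWO_support.mono ?_⟩, ?_⟩
  · intro n hn
    simp only [Function.mem_support, ne_eq, ite_eq_left_iff, not_forall] at hn
    obtain ⟨h, _⟩ := hn
    exact h
  · ext n
    rw [HahnSeries.C_mul_eq_smul, HahnSeries.coeff_smul]
    show T.coeff n = π • (if T.coeff n = 0 then 0 else f n)
    split_ifs with h
    · rw [h]; simp
    · rw [smul_eq_mul]; exact hf n

/-- The constant `ι π` lies in the Gauss ring. -/
theorem hahnC_mem_gaussRing (a : A) : (HahnSeries.C (ι a) : LaurentSeries E) ∈ gaussRing ι r := by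
  rw [← coeffMap_hahnC]
  exact coeffMap_mem_gaussRing ι r _

include hι in
/-- **Kernel of the reduction**: `ker gaussRed = π · gaussRing`. -/
theorem gaussRed_eq_zero_iff_dvd {π : A} (hπ : r π = 0) (hker : ∀ a, r a = 0 → π ∣ a)
    (x : gaussRing ι r) :
    gaussRed r hι x = 0 ↔
      ∃ y : gaussRing ι r, (x : LaurentSeries E) = HahnSeries.C (ι π) * (y : LaurentSeries E) := by
  constructor
  · intro h0
    obtain ⟨T, b, hb, h⟩ := x.2
    have hT : coeffMap r T = 0 := (gaussRed_eq_zero_iff r hι x T b hb h).mp h0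
    obtain ⟨T', hT'⟩ := exists_eq_C_mul_of_coeffMap_eq_zero r hker T hT
    have hbE : coeffMap ι b ≠ 0 := by
      intro h0
      apply hb
      have : b = 0 := coeffMap_inj_of_injective ι hι (by rw [h0, map_zero])
      rw [this, map_zero]
    refine ⟨⟨coeffMap ι T' / coeffMap ι b, T', b, hb, ?_⟩, ?_⟩
    · field_simp
    · show (x : LaurentSeries E) = HahnSeries.C (ι π) * (coeffMap ι T' / coeffMap ι b)
      have h2 : coeffMap ι T = HahnSeries.C (ι π) * coeffMap ι T' := by
        rw [hT', map_mul, coeffMap_hahnC]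
      rw [eq_comm, mul_div_assoc', div_eq_iff hbE, ← h2, ← h, mul_comm]
  · rintro ⟨y, hy⟩
    have h1 : x = ⟨HahnSeries.C (ι π), hahnC_mem_gaussRing r π⟩ * y := Subtype.ext hy
    rw [h1, map_mul]
    have h2 : gaussRed r hι ⟨HahnSeries.C (ι π), hahnC_mem_gaussRing r π⟩ = 0 := by
      have h3 := gaussRed_coeffMap r hι (HahnSeries.C π : LaurentSeries A)
      rw [coeffMap_hahnC r, hπ, map_zero] at h3
      rw [← h3]
      congr 1
      exact Subtype.ext (coeffMap_hahnC ι π).symm
    rw [h2, zero_mul]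

end Kernel

end Fermat.Agent.INJ

end
end ZBINJ_003_0

/-! ### bundled: `Fermat.Agent.INJ.GaussRep` -/
section ZBINJ_003_1

/-!
# INJ B-I1 (REP): key data over a general base and the representation theorem

Base: `A` a domain with well-founded divisibility (e.g. a DVR), `π ∈ A` nonzero and not a unit,
`E = Frac A`, `r : A →+* k` with `ker r ⊆ (π)`.  `Λ = A((q))`, `ι̂ = coeffMap (algebraMap A E)`,
`r̂ = coeffMap r`.

* `GaussKD r F t₀ x` : key data for the field `F ⊆ E((q))` with coordinate `t = ι̂ t₀` and family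
  `x : Fin n → Λ` (the `ι̂ (x i)` span `F` over `E(t)`, the `r̂ (x i)` are linearly independent over
  `k(t̄)`, `t̄` transcendental);
* `GaussKD.exists_rep` **(REP)** : every `f ∈ F` in the Gauss ring is
  `f = ∑ (P_i(t) / Q(t)) x_i` with `P_i, Q ∈ A[X]`, `Q̄ ≠ 0`, and then
  `Q̄(t̄) · gaussRed f = ∑ P̄_i(t̄) x̄_i`;
* `GaussKD.exists_table` **(TABLE)** : after scaling by `s(t)`, `s ∈ A[X]`, `s̄ ≠ 0`, the family
  `y_i = s(t) x_i` has a multiplication table with coefficients in `A[t]`.
-/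

set_option autoImplicit false

noncomputable section

namespace Fermat.Agent.INJ

open ModularCurve Polynomial IntermediateField Fermat.Agent.S28

section KD

variable {A E k : Type*} [CommRing A] [IsDomain A] [Field E] [Algebra A E] [IsFractionRing A E]
  [Field k] (r : A →+* k)

/-- Key data over the base `(A, E, k)` for the coordinate `t₀` and the family `x`. -/
structure GaussKD (F : IntermediateField E (LaurentSeries E)) (t₀ : LaurentSeries A) {n : ℕ}
    (x : Fin n → LaurentSeries A) : Prop where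
  /-- the coordinate lies in the field -/
  t_mem : coeffMap (algebraMap A E) t₀ ∈ F
  /-- the family lies in the field -/
  mem : ∀ i, coeffMap (algebraMap A E) (x i) ∈ F
  /-- the family spans the field over `E(t)` -/
  span : ∀ f ∈ F, ∃ c : Fin n → LaurentSeries E,
    (∀ i, c i ∈ adjoin E {coeffMap (algebraMap A E) t₀}) ∧
      f = ∑ i, c i * coeffMap (algebraMap A E) (x i)
  /-- the reductions are linearly independent over `k(t̄)` -/
  indep : ∀ c : Fin n → LaurentSeries k, (∀ i, c i ∈ adjoin k {coeffMap r t₀}) →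
    ∑ i, c i * coeffMap r (x i) = 0 → ∀ i, c i = 0
  /-- the reduced coordinate is transcendental -/
  transc : Transcendental k (coeffMap r t₀)

variable {r} {F : IntermediateField E (LaurentSeries E)} {t₀ : LaurentSeries A} {n : ℕ}
  {x : Fin n → LaurentSeries A}

/-- A polynomial with zero reduction is divisible by `π`. -/
theorem exists_eq_C_mul_of_map_eq_zero {π : A} (hr : ∀ a, r a = 0 → π ∣ a) {P : A[X]}
    (hP : P.map r = 0) : ∃ P' : A[X], P = C π * P' := by
  have h : C π ∣ P := by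
    rw [Polynomial.C_dvd_iff_dvd_coeff]
    intro m
    have h5 := congrArg (fun q : Polynomial k => q.coeff m) hP
    simp only [Polynomial.coeff_map, Polynomial.coeff_zero] at h5
    exact hr _ h5
  exact h

/-- Reduction of a relation: the coefficients of a relation whose left side vanishes mod `π`
vanish mod `π`. -/
theorem GaussKD.map_eq_zero_of_rel (kd : GaussKD r F t₀ x) {T b : LaurentSeries A}
    (hb : coeffMap r b ≠ 0) {D : A[X]} {P : Fin n → A[X]}
    (hrel : aeval t₀ D * T = b * ∑ i, aeval t₀ (P i) * x i)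
    (h0 : (D.map r = 0) ∨ coeffMap r T = 0) : ∀ i, (P i).map r = 0 := by
  have h1 := congrArg (coeffMap r) hrel
  rw [map_mul, map_mul, map_sum, redDVR_coeffMap_aeval] at h1
  have h2 : aeval (coeffMap r t₀) (D.map r) * coeffMap r T = 0 := by
    rcases h0 with h | h
    · rw [h, map_zero, zero_mul]
    · rw [h, mul_zero]
  rw [h2] at h1
  have h3 : ∑ i, coeffMap r (aeval t₀ (P i) * x i) = 0 :=
    (mul_eq_zero.mp h1.symm).resolve_left hb
  simp_rw [map_mul, redDVR_coeffMap_aeval] at h3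
  intro i
  have h4 := kd.indep (fun i => aeval (coeffMap r t₀) ((P i).map r))
    (fun i => IntermediateField.algebra_adjoin_le_adjoin _ _
      (Polynomial.aeval_mem_adjoin_singleton _ _)) h3 i
  exact transcendental_iff.mp kd.transc _ h4

/-- Normalisation of a relation: the denominator can be chosen with nonzero reduction. -/
theorem GaussKD.exists_normalized (kd : GaussKD r F t₀ x) {π : A} (hπ0 : π ≠ 0)
    (hr : ∀ a, r a = 0 → π ∣ a) {T b : LaurentSeries A} (hb : coeffMap r b ≠ 0) :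
    ∀ (N : ℕ) (D : A[X]) (P : Fin n → A[X]), (∃ m, ¬ π ^ (N + 1) ∣ D.coeff m) →
      aeval t₀ D * T = b * ∑ i, aeval t₀ (P i) * x i →
      ∃ (Q : A[X]) (P' : Fin n → A[X]), Q.map r ≠ 0 ∧
        aeval t₀ Q * T = b * ∑ i, aeval t₀ (P' i) * x i := by
  intro N
  induction N with
  | zero =>
    rintro D P ⟨m, hm⟩ hrel
    refine ⟨D, P, ?_, hrel⟩
    intro h0
    apply hm
    have h5 := congrArg (fun q : Polynomial k => q.coeff m) h0
    simp only [Polynomial.coeff_map, Polynomial.coeff_zero] at h5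
    simpa using hr _ h5
  | succ N ih =>
    rintro D P ⟨m, hm⟩ hrel
    by_cases hD : D.map r = 0
    · obtain ⟨D', hD'⟩ := exists_eq_C_mul_of_map_eq_zero hr hD
      have hP := kd.map_eq_zero_of_rel hb hrel (Or.inl hD)
      choose P' hP' using fun i => exists_eq_C_mul_of_map_eq_zero hr (hP i)
      refine ih D' P' ⟨m, ?_⟩ ?_
      · intro hdvd
        apply hm
        rw [hD', coeff_C_mul, pow_succ']
        exact mul_dvd_mul_left π hdvd
      · have h1 : algebraMap A (LaurentSeries A) π * (aeval t₀ D' * T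
            - b * ∑ i, aeval t₀ (P' i) * x i) = 0 := by
          have h2 : aeval t₀ D = algebraMap A (LaurentSeries A) π * aeval t₀ D' := by
            rw [hD', map_mul, aeval_C]
          have h3 : ∀ i, aeval t₀ (P i) = algebraMap A (LaurentSeries A) π * aeval t₀ (P' i) := by
            intro i
            rw [hP' i, map_mul, aeval_C]
          rw [h2] at hrel
          simp_rw [h3] at hrel
          rw [mul_sub, ← mul_assoc, hrel, Finset.mul_sum, Finset.mul_sum, Finset.mul_sum]
          rw [sub_eq_zero]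
          refine Finset.sum_congr rfl fun i _ => ?_
          ring
        exact sub_eq_zero.mp (redDVR_eq_zero_of_mul hπ0 h1)
    · exact ⟨D, P, hD, hrel⟩

/-- **(REP)**, in `Λ`-form: for `f ∈ F` in the Gauss ring, written `ι̂ b * f = ι̂ T`. -/
theorem GaussKD.exists_rep_aux [WfDvdMonoid A] (kd : GaussKD r F t₀ x) {π : A} (hπ0 : π ≠ 0)
    (hπ : ¬ IsUnit π) (hr : ∀ a, r a = 0 → π ∣ a) {f : LaurentSeries E} (hf : f ∈ F)
    {T b : LaurentSeries A} (hb : coeffMap r b ≠ 0)
    (hfb : coeffMap (algebraMap A E) b * f = coeffMap (algebraMap A E) T) :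
    ∃ (Q : A[X]) (P : Fin n → A[X]), Q.map r ≠ 0 ∧
      aeval t₀ Q * T = b * ∑ i, aeval t₀ (P i) * x i := by
  have hinj : Function.Injective (coeffMap (algebraMap A E)) :=
    coeffMap_inj_of_injective _ (IsFractionRing.injective A E)
  obtain ⟨c, hc, hfc⟩ := kd.span f hf
  obtain ⟨D, hD, hDP⟩ := redDVR_exists_common_denominator (A := A)
    (coeffMap (algebraMap A E) t₀) c hc Finset.univ
  choose P hP using fun i => hDP i (Finset.mem_univ i)
  have hD0 : D ≠ 0 := by
    rintro rfl
    apply hD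
    rw [Polynomial.map_zero, map_zero]
  have hrel : aeval t₀ D * T = b * ∑ i, aeval t₀ (P i) * x i := by
    apply hinj
    rw [map_mul, map_mul, map_sum, ← hfb, redDVR_coeffMap_aeval, hfc]
    simp_rw [map_mul, redDVR_coeffMap_aeval]
    rw [mul_left_comm, Finset.mul_sum]
    congr 1
    refine Finset.sum_congr rfl fun i _ => ?_
    rw [← hP i]
    ring
  obtain ⟨m, hm⟩ : ∃ m, D.coeff m ≠ 0 := by
    by_contra h
    push Not at h
    exact hD0 (Polynomial.ext fun m => by rw [h m, coeff_zero])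
  obtain ⟨N, hN⟩ := FiniteMultiplicity.of_not_isUnit hπ hm
  exact kd.exists_normalized hπ0 hr hb N D P ⟨m, hN⟩ hrel

/-- **(REP)**: every `f ∈ F` in the Gauss ring is `∑ (P_i(t)/Q(t)) x_i` with `Q̄ ≠ 0`, and the
reduction of `f` is `∑ (P̄_i(t̄)/Q̄(t̄)) x̄_i`. -/
theorem GaussKD.exists_rep [WfDvdMonoid A] (kd : GaussKD r F t₀ x) {π : A} (hπ0 : π ≠ 0)
    (hπ : ¬ IsUnit π) (hr : ∀ a, r a = 0 → π ∣ a) {f : LaurentSeries E} (hf : f ∈ F)
    (hfg : f ∈ gaussRing (algebraMap A E) r) :
    ∃ (Q : A[X]) (P : Fin n → A[X]), Q.map r ≠ 0 ∧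
      coeffMap (algebraMap A E) (aeval t₀ Q) * f =
        ∑ i, coeffMap (algebraMap A E) (aeval t₀ (P i) * x i) ∧
      aeval (coeffMap r t₀) (Q.map r) * gaussRed r (IsFractionRing.injective A E) ⟨f, hfg⟩ =
        ∑ i, aeval (coeffMap r t₀) ((P i).map r) * coeffMap r (x i) := by
  have hinj : Function.Injective (coeffMap (algebraMap A E)) :=
    coeffMap_inj_of_injective _ (IsFractionRing.injective A E)
  have hfg' : IsGaussInt (algebraMap A E) r f := hfg
  obtain ⟨T, b, hb, hfb⟩ := hfg'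
  obtain ⟨Q, P, hQ, hrel⟩ := kd.exists_rep_aux hπ0 hπ hr hf hb hfb
  have hbE : coeffMap (algebraMap A E) b ≠ 0 := by
    intro h0
    apply hb
    have : b = 0 := hinj (by rw [h0, map_zero])
    rw [this, map_zero]
  refine ⟨Q, P, hQ, ?_, ?_⟩
  · apply mul_left_cancel₀ hbE
    have h1 := congrArg (coeffMap (algebraMap A E)) hrel
    rw [map_mul, map_mul, map_sum] at h1
    rw [← h1, ← hfb]
    ring
  · rw [gaussRed_eq r (IsFractionRing.injective A E) ⟨f, hfg⟩ T b hb hfb]
    have h1 := congrArg (coeffMap r) hrel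
    rw [map_mul, map_mul, map_sum, redDVR_coeffMap_aeval] at h1
    simp_rw [map_mul, redDVR_coeffMap_aeval] at h1
    rw [mul_div_assoc', h1, mul_div_assoc, mul_comm, div_mul_cancel₀ _ hb]

/-- **(TABLE)**: after scaling by some `s(t)`, `s ∈ A[X]` with `s̄ ≠ 0`, the family has a
multiplication table with structure constants in `A[t]`. -/
theorem GaussKD.exists_table [WfDvdMonoid A] (kd : GaussKD r F t₀ x) {π : A} (hπ0 : π ≠ 0)
    (hπ : ¬ IsUnit π) (hr : ∀ a, r a = 0 → π ∣ a) :
    ∃ (s : A[X]) (c : Fin n → Fin n → Fin n → A[X]), s.map r ≠ 0 ∧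
      ∀ j l, (aeval t₀ s * x j) * (aeval t₀ s * x l) =
        ∑ i, aeval t₀ (c j l i) * (aeval t₀ s * x i) := by
  classical
  have h1 : ∀ jl : Fin n × Fin n, ∃ (Q : A[X]) (P : Fin n → A[X]), Q.map r ≠ 0 ∧
      aeval t₀ Q * (x jl.1 * x jl.2) = 1 * ∑ i, aeval t₀ (P i) * x i := by
    intro jl
    refine kd.exists_rep_aux hπ0 hπ hr (f := coeffMap (algebraMap A E) (x jl.1 * x jl.2))
      ?_ (by simp) (by simp)
    rw [map_mul]
    exact mul_mem (kd.mem _) (kd.mem _)
  choose Q P hQ hP using h1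
  refine ⟨∏ jl, Q jl, fun j l i => (∏ jl ∈ Finset.univ.erase (j, l), Q jl) * P (j, l) i, ?_, ?_⟩
  · rw [Polynomial.map_prod]
    exact Finset.prod_ne_zero_iff.mpr fun jl _ => hQ jl
  · intro j l
    have h2 : (∏ jl, Q jl) = Q (j, l) * ∏ jl ∈ Finset.univ.erase (j, l), Q jl :=
      (Finset.mul_prod_erase Finset.univ Q (Finset.mem_univ (j, l))).symm
    have h3 := hP (j, l)
    rw [one_mul] at h3
    set s := ∏ jl, Q jl with hs
    set s' := ∏ jl ∈ Finset.univ.erase (j, l), Q jl with hs'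
    calc aeval t₀ s * x j * (aeval t₀ s * x l)
        = aeval t₀ s * aeval t₀ s' * (aeval t₀ (Q (j, l)) * (x j * x l)) := by
          rw [h2, map_mul]; ring
      _ = aeval t₀ s * aeval t₀ s' * ∑ i, aeval t₀ (P (j, l) i) * x i := by rw [h3]
      _ = ∑ i, aeval t₀ (s' * P (j, l) i) * (aeval t₀ s * x i) := by
          rw [Finset.mul_sum]
          refine Finset.sum_congr rfl fun i _ => ?_
          rw [map_mul]; ring

end KD

end Fermat.Agent.INJ

end
end ZBINJ_003_1

/-! ### bundled: `Fermat.Agent.INJ.InjCoreStmt` -/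
section ZBINJ_003_2

/-!
# (INJ) B-glue: the statement of the line-independent core

`A₀` a discrete valuation ring, `E = Frac A₀` of characteristic `0`, `r : A₀ → k` with kernel
`(π)`, `F = modularFunctionFieldFullC E N ⊂ E((q))` with Gauss key data `kd` for a coordinate `t₀`
of order `-1`, `Y₁ ≡ Y₂ ≢ 0 mod π` in `A₀((q))` with images in `F`, `h ∈ E((q))` with
`h ^ p = Y₁ / Y₂`, `h ∉ F`.  If `F` satisfies `(a)` and `Lf = F(h) = kumField E N h` satisfies
finiteness, `(b)`, `(b')` of the tame specialization theorem (for the coordinate `t₀`), we get a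
contradiction.

`InjCoreStmt` is proved in `INJ/InjCore.lean` (`injCore : TameSpecStmt.{0} → InjCoreStmt`); the
instantiations for the three lines (`j`, `hm2`, `hm3`) prove `InjCoreStmt → StmtInjNF N ℓ p`.
-/

set_option autoImplicit false

namespace Fermat.Agent.INJ

open Polynomial ModularCurve IntermediateField AlgebraicCurve

/-- The line-independent core of (INJ), as a statement. -/
def InjCoreStmt : Prop :=
  ∀ {A₀ E k : Type} [CommRing A₀] [IsDomain A₀] [IsDiscreteValuationRing A₀]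
    [Field E] [Algebra A₀ E] [IsFractionRing A₀ E] [CharZero E]
    [Field k] (r : A₀ →+* k) (N : ℕ) (h : LaurentSeries E)
    {π : A₀} (_ : Irreducible π) (_ : r π = 0) (_ : ∀ a, r a = 0 → π ∣ a)
    {t₀ : LaurentSeries A₀} {n : ℕ} {x : Fin n → LaurentSeries A₀}
    (kd : GaussKD r (modularFunctionFieldFullC E N) t₀ x)
    (_ : (coeffMap (algebraMap A₀ E) t₀).order = -1)
    {p : ℕ} (_ : p.Prime) (_ : ¬ π ∣ (p : A₀))
    (ζ u : A₀) (_ : IsPrimitiveRoot ζ p) (_ : (ζ - 1) * u = 1)
    (Y₁ Y₂ : LaurentSeries A₀)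
    (_ : coeffMap (algebraMap A₀ E) Y₁ ∈ modularFunctionFieldFullC E N)
    (_ : coeffMap (algebraMap A₀ E) Y₂ ∈ modularFunctionFieldFullC E N)
    (_ : coeffMap r Y₁ = coeffMap r Y₂) (_ : coeffMap r Y₂ ≠ 0)
    (_ : h ^ p * coeffMap (algebraMap A₀ E) Y₂ = coeffMap (algebraMap A₀ E) Y₁)
    (_ : h ∉ modularFunctionFieldFullC E N)
    (_ : ∀ [Algebra A₀ (modularFunctionFieldFullC E N)]
      [IsScalarTower A₀ E (modularFunctionFieldFullC E N)],
      TSGoodBasis (A₀ := A₀) (E := E) (Lf := modularFunctionFieldFullC E N) π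
        ⟨coeffMap (algebraMap A₀ E) t₀, kd.t_mem⟩)
    (_ : FiniteDimensional
      E⟮(⟨coeffMap (algebraMap A₀ E) t₀, le_kumField E N h kd.t_mem⟩ : kumField E N h)⟯
      (kumField E N h))
    (S : Finset A₀) (_ : ∀ c ∈ S, ∀ c' ∈ S, c ≠ c' → ¬ π ∣ c - c')
    (e : ℕ) (_ : IsUnit (e : A₀)) (_ : ∃ ζ : A₀, IsPrimitiveRoot ζ e)
    (_ : ∀ [Algebra A₀ (kumField E N h)] [IsScalarTower A₀ E (kumField E N h)],
      TSUnramified (A₀ := A₀) (E := E) (Lf := kumField E N h)
        ⟨coeffMap (algebraMap A₀ E) t₀, le_kumField E N h kd.t_mem⟩ S ∧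
      TSTame (A₀ := A₀) (E := E) (Lf := kumField E N h)
        ⟨coeffMap (algebraMap A₀ E) t₀, le_kumField E N h kd.t_mem⟩ S e),
    False

end Fermat.Agent.INJ


end ZBINJ_003_2

/-! ### bundled: `Fermat.Agent.INJ.GaussGood` -/
section ZBINJ_003_3

/-!
# INJ B-I1: key data give hypothesis `(a)` of the tame specialization theorem

`GaussKD.tsGoodBasis` : for key data `kd : GaussKD r F t₀ x` over `(A₀, E, k)`, `k` perfect of
characteristic `ℓ`, `θ t̄ ≠ 0`, the field `Lf = ↥F` with coordinate `t = ι̂ t₀` satisfies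
`TSGoodBasis π t` (an integral basis of `Lf / E(t)` whose discriminant is `d(t)`, `π ∤ d`).
-/

set_option autoImplicit false

noncomputable section

namespace Fermat.Agent.INJ

open ModularCurve Polynomial IntermediateField Fermat.Agent.S28 Fermat.Agent.S28.Deriv

section Pack

variable {E Ω : Type*} [Field E] [Field Ω] [Algebra E Ω]

/-- Membership in `E(t)` for elements of an intermediate field, seen in the big field. -/
theorem mem_adjoin_subtype_iff (F : IntermediateField E Ω) (t' x : F) :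
    x ∈ E⟮t'⟯ ↔ (x : Ω) ∈ E⟮(t' : Ω)⟯ := by
  have h : (E⟮t'⟯).map F.val = E⟮(t' : Ω)⟯ := by
    rw [adjoin_map, Set.image_singleton]; rfl
  rw [← h]
  constructor
  · intro hx; exact ⟨x, hx, rfl⟩
  · rintro ⟨z, hz, hzx⟩
    have : z = x := Subtype.ext hzx
    rwa [← this]

/-- From the membership forms of independence and span to a basis of `↥F` over `E(t)`. -/
theorem pack_basis (F : IntermediateField E Ω) {t : Ω} (ht : t ∈ F) {n : ℕ} (y : Fin n → Ω)
    (hy : ∀ i, y i ∈ F)
    (hind : ∀ c : Fin n → Ω, (∀ i, c i ∈ E⟮t⟯) → ∑ i, c i * y i = 0 → ∀ i, c i = 0)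
    (hspan : ∀ f ∈ F, ∃ c : Fin n → Ω, (∀ i, c i ∈ E⟮t⟯) ∧ f = ∑ i, c i * y i) :
    LinearIndependent E⟮(⟨t, ht⟩ : F)⟯ (fun i => (⟨y i, hy i⟩ : F)) ∧
      Submodule.span E⟮(⟨t, ht⟩ : F)⟯ (Set.range fun i => (⟨y i, hy i⟩ : F)) = ⊤ := by
  constructor
  · rw [Fintype.linearIndependent_iff]
    intro g hg i
    have hmem : ∀ i, F.val ((g i : F)) ∈ E⟮t⟯ := fun i =>
      (mem_adjoin_subtype_iff F ⟨t, ht⟩ (g i : F)).mp (g i).2
    have hsum : ∑ i, F.val ((g i : F)) * y i = 0 := by
      have h2 := congrArg F.val hg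
      rw [map_sum, map_zero] at h2
      rw [← h2]
      refine Finset.sum_congr rfl fun i _ => ?_
      rw [IntermediateField.smul_def, smul_eq_mul, map_mul]
      rfl
    have h1 := hind (fun i => F.val ((g i : F))) hmem hsum i
    exact Subtype.ext (Subtype.ext h1)
  · rw [Submodule.eq_top_iff']
    intro f
    obtain ⟨c, hc, hf⟩ := hspan f f.2
    have hcF : ∀ i, c i ∈ F := fun i => (adjoin_simple_le_iff.mpr ht) (hc i)
    have hcK : ∀ i, (⟨c i, hcF i⟩ : F) ∈ E⟮(⟨t, ht⟩ : F)⟯ := fun i =>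
      (mem_adjoin_subtype_iff F _ _).mpr (hc i)
    have : f = ∑ i, (⟨⟨c i, hcF i⟩, hcK i⟩ : E⟮(⟨t, ht⟩ : F)⟯) • (⟨y i, hy i⟩ : F) := by
      apply F.val.injective
      rw [map_sum]
      refine hf.trans (Finset.sum_congr rfl fun i _ => ?_)
      rw [IntermediateField.smul_def, smul_eq_mul, map_mul]
      rfl
    rw [this]
    exact Submodule.sum_mem _ fun i _ =>
      Submodule.smul_mem _ _ (Submodule.subset_span ⟨i, rfl⟩)

end Pack

section Good

universe u

variable {A₀ E : Type u} {k : Type*} [CommRing A₀] [IsDomain A₀] [Field E]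
  [Algebra A₀ E] [IsFractionRing A₀ E] [Field k] {r : A₀ →+* k}
  {F : IntermediateField E (LaurentSeries E)} {t₀ : LaurentSeries A₀} {n : ℕ}
  {x : Fin n → LaurentSeries A₀}

/-- The evaluation `A₀[X] → E(t)`, `P ↦ P(t)`. -/
def evalAdjoin {K Ω : Type*} [Field K] [Field Ω] [Algebra K Ω] {A : Type*} [CommRing A]
    (f : A →+* K) (t : Ω) : A[X] →+* K⟮t⟯ :=
  (aeval (AdjoinSimple.gen K t)).toRingHom.comp (mapRingHom f)

theorem coe_evalAdjoin {K Ω : Type*} [Field K] [Field Ω] [Algebra K Ω] {A : Type*} [CommRing A]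
    (f : A →+* K) (t : Ω) (P : A[X]) :
    ((evalAdjoin f t P : K⟮t⟯) : Ω) = aeval t (P.map f) := by
  show algebraMap K⟮t⟯ Ω (aeval (AdjoinSimple.gen K t) (P.map f)) = aeval t (P.map f)
  rw [← aeval_algebraMap_apply, AdjoinSimple.algebraMap_gen]

/-- The reduced family is linearly independent over `k(t̄)`. -/
theorem GaussKD.linearIndependent_red (kd : GaussKD r F t₀ x) :
    LinearIndependent k⟮coeffMap r t₀⟯ (fun i => coeffMap r (x i)) := by
  rw [Fintype.linearIndependent_iff]
  intro g hg i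
  have h1 := kd.indep (fun i => ((g i : k⟮coeffMap r t₀⟯) : LaurentSeries k)) (fun i => (g i).2)
    (by
      rw [← hg]
      refine Finset.sum_congr rfl fun i _ => ?_
      rw [IntermediateField.smul_def, smul_eq_mul]) i
  exact Subtype.ext h1

/-- **Reduced side**: the discriminant of the table is nonzero modulo `π`. -/
theorem GaussKD.map_det_tableTrace_ne_zero [WfDvdMonoid A₀] (kd : GaussKD r F t₀ x) {π : A₀}
    (hπ0 : π ≠ 0) (hπ : ¬ IsUnit π) (hr : ∀ a, r a = 0 → π ∣ a)
    (ℓ : ℕ) [Fact ℓ.Prime] [CharP k ℓ] [PerfectRing k ℓ]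
    (hθ : thetaFun (coeffMap r t₀) ≠ 0)
    {s : A₀[X]} {c : Fin n → Fin n → Fin n → A₀[X]} (hs : s.map r ≠ 0)
    (htab : ∀ j l, (aeval t₀ s * x j) * (aeval t₀ s * x l) =
        ∑ i, aeval t₀ (c j l i) * (aeval t₀ s * x i)) :
    ((tableTrace c).det).map r ≠ 0 := by
  classical
  set tb : LaurentSeries k := coeffMap r t₀ with htb
  set σb : LaurentSeries k := aeval tb (s.map r) with hσb
  have hσb0 : σb ≠ 0 := fun h0 => hs (transcendental_iff.mp kd.transc _ h0)
  have hmemP : ∀ P : k[X], aeval tb P ∈ k⟮tb⟯ := fun P =>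
    IntermediateField.algebra_adjoin_le_adjoin _ _ (Polynomial.aeval_mem_adjoin_singleton _ _)
  have hσbmem : σb ∈ k⟮tb⟯ := hmemP _
  set yb : Fin n → LaurentSeries k := fun i => coeffMap r (aeval t₀ s * x i) with hyb
  have hybσ : ∀ i, yb i = σb * coeffMap r (x i) := fun i => by
    simp only [hyb, map_mul, redDVR_coeffMap_aeval]
    rfl
  have hli : LinearIndependent k⟮tb⟯ yb := by
    rw [Fintype.linearIndependent_iff]
    intro g hg i
    have h1 := kd.indep (fun i => ((g i : k⟮tb⟯) : LaurentSeries k) * σb)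
      (fun i => mul_mem (g i).2 hσbmem)
      (by
        rw [← hg]
        refine Finset.sum_congr rfl fun i _ => ?_
        rw [IntermediateField.smul_def, smul_eq_mul, hybσ]
        ring) i
    exact Subtype.ext ((mul_eq_zero.mp h1).resolve_right hσb0)
  have h1 : (1 : LaurentSeries k) ∈ Submodule.span k⟮tb⟯ (Set.range yb) := by
    obtain ⟨Q, P, hQ, hrel⟩ := kd.exists_rep_aux hπ0 hπ hr (f := 1) (T := 1) (b := 1)
      (one_mem F) (by simp) (by simp)
    have h2 := congrArg (coeffMap r) hrel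
    rw [mul_one, one_mul, map_sum, redDVR_coeffMap_aeval] at h2
    simp_rw [map_mul, redDVR_coeffMap_aeval] at h2
    have hQ0 : aeval tb (Q.map r) ≠ 0 := fun h0 => hQ (transcendental_iff.mp kd.transc _ h0)
    have h3 : (1 : LaurentSeries k) = ∑ i,
        (⟨aeval tb ((P i).map r) / (aeval tb (Q.map r) * σb),
          div_mem (hmemP _) (mul_mem (hmemP _) hσbmem)⟩ : k⟮tb⟯) • yb i := by
      simp_rw [IntermediateField.smul_def, smul_eq_mul, hybσ]
      have h4 : ∀ i, aeval tb ((P i).map r) / (aeval tb (Q.map r) * σb) *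
          (σb * coeffMap r (x i)) =
          (aeval tb (Q.map r))⁻¹ * (aeval tb ((P i).map r) * coeffMap r (x i)) := by
        intro i
        field_simp
      simp_rw [h4]
      rw [← Finset.mul_sum, ← h2, inv_mul_cancel₀ hQ0]
    rw [h3]
    exact Submodule.sum_mem _ fun i _ =>
      Submodule.smul_mem _ _ (Submodule.subset_span ⟨i, rfl⟩)
  have htabb : ∀ j l, yb j * yb l = ∑ i, evalAdjoin r tb (c j l i) • yb i := by
    intro j l
    have h3 := congrArg (coeffMap r) (htab j l)
    rw [map_mul, map_sum] at h3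
    refine h3.trans (Finset.sum_congr rfl fun i _ => ?_)
    rw [IntermediateField.smul_def, smul_eq_mul, coe_evalAdjoin, map_mul, redDVR_coeffMap_aeval]
  have h4 := Fermat.Agent.INJ.map_det_tableTrace_ne_zero (evalAdjoin r tb) yb hli h1 c htabb
    (fun z hz => isSeparable_of_theta ℓ kd.transc hθ hz)
  intro h0
  apply h4
  apply Subtype.ext
  rw [coe_evalAdjoin, h0, map_zero]
  rfl

/-- **B-I1, hypothesis (a)**: key data give a good basis of `↥F` over `E(t)`. -/
theorem GaussKD.tsGoodBasis [WfDvdMonoid A₀] (kd : GaussKD r F t₀ x) {π : A₀}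
    (hπ0 : π ≠ 0) (hπ : ¬ IsUnit π) (hr : ∀ a, r a = 0 → π ∣ a) (hrπ : r π = 0)
    (ℓ : ℕ) [Fact ℓ.Prime] [CharP k ℓ] [PerfectRing k ℓ]
    (hθ : thetaFun (coeffMap r t₀) ≠ 0)
    [Algebra A₀ F] [IsScalarTower A₀ E F] :
    TSGoodBasis (A₀ := A₀) (E := E) (Lf := F) π
      (⟨coeffMap (algebraMap A₀ E) t₀, kd.t_mem⟩ : F) := by
  classical
  obtain ⟨s, c, hs, htab⟩ := kd.exists_table hπ0 hπ hr
  have hinj : Function.Injective (coeffMap (algebraMap A₀ E)) :=
    coeffMap_inj_of_injective _ (IsFractionRing.injective A₀ E)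
  set t : LaurentSeries E := coeffMap (algebraMap A₀ E) t₀ with ht
  have hsΛ : aeval t₀ s ≠ 0 := by
    intro h0
    have := congrArg (coeffMap r) h0
    rw [redDVR_coeffMap_aeval, map_zero] at this
    exact hs (transcendental_iff.mp kd.transc _ this)
  set σ : LaurentSeries E := coeffMap (algebraMap A₀ E) (aeval t₀ s) with hσ
  have hσ0 : σ ≠ 0 := fun h0 => hsΛ (hinj (by rw [← hσ, h0, map_zero]))
  have hmemP : ∀ P : E[X], aeval t P ∈ E⟮t⟯ := fun P =>
    IntermediateField.algebra_adjoin_le_adjoin _ _ (Polynomial.aeval_mem_adjoin_singleton _ _)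
  have hσmem : σ ∈ E⟮t⟯ := by
    rw [hσ, redDVR_coeffMap_aeval]
    exact hmemP _
  have hKF : E⟮t⟯ ≤ F := adjoin_simple_le_iff.mpr kd.t_mem
  set y : Fin n → LaurentSeries E := fun i => coeffMap (algebraMap A₀ E) (aeval t₀ s * x i)
    with hy
  have hyσ : ∀ i, y i = σ * coeffMap (algebraMap A₀ E) (x i) := fun i => by
    simp only [hy, map_mul]
    rfl
  have hyF : ∀ i, y i ∈ F := fun i => by
    rw [hyσ]; exact mul_mem (hKF hσmem) (kd.mem i)
  have hindx := redDVR_indep (E := E) r π hπ0 hπ hr x t₀ kd.transc kd.indep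
  have hind : ∀ c : Fin n → LaurentSeries E, (∀ i, c i ∈ E⟮t⟯) → ∑ i, c i * y i = 0 →
      ∀ i, c i = 0 := by
    intro c hc hsum i
    have h1 := hindx (fun i => c i * σ) (fun i => mul_mem (hc i) hσmem) (by
      rw [← hsum]
      refine Finset.sum_congr rfl fun i _ => ?_
      rw [hyσ]; ring) i
    exact (mul_eq_zero.mp h1).resolve_right hσ0
  have hspan : ∀ f ∈ F, ∃ c : Fin n → LaurentSeries E, (∀ i, c i ∈ E⟮t⟯) ∧
      f = ∑ i, c i * y i := by
    intro f hf
    obtain ⟨c, hc, hfc⟩ := kd.span f hf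
    refine ⟨fun i => c i / σ, fun i => div_mem (hc i) hσmem, ?_⟩
    rw [hfc]
    refine Finset.sum_congr rfl fun i _ => ?_
    rw [hyσ]
    field_simp
  obtain ⟨hli, hsp⟩ := pack_basis F kd.t_mem y hyF hind hspan
  set t' : F := ⟨t, kd.t_mem⟩ with ht'
  set b : Fin n → F := fun i => (⟨y i, hyF i⟩ : F) with hb
  set B : Module.Basis (Fin n) E⟮t'⟯ F := Module.Basis.mk hli hsp.ge with hB
  have hBb : ⇑B = b := Module.Basis.coe_mk hli hsp.ge
  -- the evaluation `φ`
  have hφ : ∀ P : A₀[X], ((evalAdjoin (algebraMap A₀ E) t' P : E⟮t'⟯) : F) =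
      aeval t' (P.map (algebraMap A₀ E)) := fun P => coe_evalAdjoin _ _ _
  have hφ' : ∀ P : A₀[X], (((evalAdjoin (algebraMap A₀ E) t' P : E⟮t'⟯) : F) : LaurentSeries E) =
      coeffMap (algebraMap A₀ E) (aeval t₀ P) := by
    intro P
    rw [hφ, redDVR_coeffMap_aeval]
    have : F.val (aeval t' (P.map (algebraMap A₀ E))) = aeval (F.val t') (P.map (algebraMap A₀ E)) :=
      (aeval_algHom_apply F.val t' _).symm
    exact this
  have htabF : ∀ j l, b j * b l = ∑ i, evalAdjoin (algebraMap A₀ E) t' (c j l i) • b i := by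
    intro j l
    apply F.val.injective
    rw [map_mul, map_sum]
    have h3 := congrArg (coeffMap (algebraMap A₀ E)) (htab j l)
    rw [map_mul, map_sum] at h3
    refine h3.trans (Finset.sum_congr rfl fun i _ => ?_)
    rw [IntermediateField.smul_def, smul_eq_mul]
    have h4 : coeffMap (algebraMap A₀ E) (aeval t₀ (c j l i) * (aeval t₀ s * x i)) =
        coeffMap (algebraMap A₀ E) (aeval t₀ (c j l i)) * y i := by
      rw [map_mul]
    rw [h4, ← hφ']
    rfl
  have htabB : ∀ j l, B j * B l = ∑ i, evalAdjoin (algebraMap A₀ E) t' (c j l i) • B i := by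
    intro j l
    rw [hBb]
    exact htabF j l
  have haev : ∀ P : A₀[X], aeval t' (P.map (algebraMap A₀ E)) = aeval t' P :=
    fun P => aeval_map_algebraMap E t' P
  refine ⟨n, b, (tableTrace c).det, hli, hsp, ?_, ?_, ?_⟩
  · -- integrality
    intro i
    refine isIntegral_of_table (R := Algebra.adjoin A₀ {t'}) b
      (fun j l i => ⟨aeval t' (c j l i), Polynomial.aeval_mem_adjoin_singleton A₀ t'⟩) ?_ i
    intro j l
    rw [htabF j l]
    refine Finset.sum_congr rfl fun i _ => ?_
    rw [IntermediateField.smul_def, smul_eq_mul, Subalgebra.smul_def, smul_eq_mul, hφ, haev]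
  · -- the discriminant is prime to `π`
    intro hdvd
    apply kd.map_det_tableTrace_ne_zero hπ0 hπ hr ℓ hθ hs htab
    obtain ⟨d', hd'⟩ := hdvd
    rw [hd', Polynomial.map_mul, Polynomial.map_C, hrπ, map_zero, zero_mul]
  · -- the discriminant
    rw [← hBb, discr_eq_map_det_of_table (evalAdjoin (algebraMap A₀ E) t') B c htabB]
    show ((evalAdjoin (algebraMap A₀ E) t' (tableTrace c).det : E⟮t'⟯) : F) = _
    rw [hφ, haev]

end Good

end Fermat.Agent.INJ

end
end ZBINJ_003_3

/-! ### bundled: `Fermat.Agent.INJ.GaussLevel` -/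
section ZBINJ_003_4

/-!
# INJ B-I1: the key data of `F_N = E(j(q^d) : d ∣ N)` over the `j`-line, for a general base

`A₀` a domain with well-founded divisibility, `E = Frac A₀`, `r : A₀ →+* k`, `ker r ⊆ (π)`,
`N ≠ 0` in `k`.

* `exists_gaussKD_j` : `ψ(N)` monomials `x i` in the `j(q^d)` with
  `GaussKD r (modularFunctionFieldFullC E N) (jqModC A₀) x`.
* `tsGoodBasis_j` : hypothesis `(a)` of the tame specialization theorem for `Lf = F_N`, `t = j`
  (`k` perfect of characteristic `ℓ`).
-/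

set_option autoImplicit false

noncomputable section

namespace Fermat.Agent.INJ

open ModularCurve Polynomial IntermediateField Fermat.Agent.S28 Fermat.Agent.S28.Deriv

section JLine

universe u

variable {A₀ E : Type u} {k : Type*} [CommRing A₀] [IsDomain A₀] [WfDvdMonoid A₀] [Field E]
  [Algebra A₀ E] [IsFractionRing A₀ E] [Field k] (r : A₀ →+* k) (π : A₀)

/-- Monomials in the generators lie in the function field. -/
theorem coeffMap_mem_full_of_mem_closure (K : Type*) [Field K] (N : ℕ) {z : LaurentSeries ℤ}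
    (hz : z ∈ Submonoid.closure (gensZ N)) :
    coeffMap (Int.castRingHom K) z ∈ modularFunctionFieldFullC K N := by
  induction hz using Submonoid.closure_induction with
  | mem z hz =>
    apply IntermediateField.subset_adjoin
    rw [← coeffMap_image_gensZ]
    exact ⟨z, hz, rfl⟩
  | one => rw [map_one]; exact one_mem _
  | mul a b _ _ ha hb => rw [map_mul]; exact mul_mem ha hb

/-- **KD over the `j`-line** for a general base. -/
theorem exists_gaussKD_j (hπ0 : π ≠ 0) (hπ : ¬ IsUnit π) (hr : ∀ a, r a = 0 → π ∣ a)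
    (N : ℕ) [NeZero N] (hN : (N : k) ≠ 0) :
    ∃ x : Fin (dedekindPsi N) → LaurentSeries A₀,
      GaussKD r (modularFunctionFieldFullC E N) (jqModC A₀) x := by
  obtain ⟨x, hx, hli⟩ := exists_monomials_full (k := k) N (primeHyp_of_dvd k N hN)
  have hliE := redDVR_linearIndependent_jq_int (E := E) r π hπ0 hπ hr x hli
  have hk : coeffMap r (jqModC A₀) = jqModC k := coeffMap_jqModC _
  have hE : coeffMap (algebraMap A₀ E) (jqModC A₀) = jqModC E := coeffMap_jqModC _
  have hxk : ∀ i, coeffMap r (coeffMap (Int.castRingHom A₀) (x i)) =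
      coeffMap (Int.castRingHom k) (x i) := fun i => by
    rw [coeffMap_coeffMap]
    exact coeffMap_congr (RingHom.ext_int _ _) _
  have hxE : ∀ i, coeffMap (algebraMap A₀ E) (coeffMap (Int.castRingHom A₀) (x i)) =
      coeffMap (Int.castRingHom E) (x i) := fun i => by
    rw [coeffMap_coeffMap]
    exact coeffMap_congr (RingHom.ext_int _ _) _
  have hm : ∀ i, coeffMap (Int.castRingHom E) (x i) ∈ modularFunctionFieldFullC E N :=
    fun i => coeffMap_mem_full_of_mem_closure E N (hx i)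
  refine ⟨fun i => coeffMap (Int.castRingHom A₀) (x i), ⟨?_, ?_, ?_, ?_, ?_⟩⟩
  · rw [hE]; exact jqModC_mem_full E N
  · intro i; rw [hxE]; exact hm i
  · intro f hf
    have hfin := UB.finrank_full_le E (NeZero.ne N)
      (fun r hr _ => @ub_modEq E _ r ⟨hr.ne_zero⟩ hr)
    obtain ⟨c, hc, hfc⟩ := exists_coeffs_of_linearIndependent (UB.K0 E)
      (modularFunctionFieldFullC E N) (UB.K0_le_full E N) hfin.1 hfin.2
      (fun i => coeffMap (Int.castRingHom E) (x i)) hm hliE f hf
    refine ⟨c, fun i => ?_, ?_⟩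
    · rw [hE]; exact hc i
    · rw [hfc]
      refine Finset.sum_congr rfl fun i _ => ?_
      rw [hxE]
  · intro c hc hsum
    rw [hk] at hc
    have h0 := Fintype.linearIndependent_iff.mp hli (fun i => ⟨c i, hc i⟩) (by
      rw [← hsum]
      refine Finset.sum_congr rfl fun i _ => ?_
      rw [hxk]
      rfl)
    intro i
    exact congrArg Subtype.val (h0 i)
  · rw [hk]; exact kdj_transcendental_jqModC k

/-- `θ j ≠ 0` in every characteristic. -/
theorem thetaFun_jqModC_ne_zero (K : Type*) [Field K] : thetaFun (jqModC K) ≠ 0 := by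
  intro h0
  have h1 := congrArg (fun z : LaurentSeries K => z.coeff (-1)) h0
  simp only [thetaFun_coeff, HahnSeries.coeff_zero, coeff_jqModC_neg_one] at h1
  simp at h1

/-- **B-I1 over the `j`-line**: hypothesis `(a)` of the tame specialization theorem for
`Lf = E(j(q^d) : d ∣ N)` and `t = j`. -/
theorem tsGoodBasis_j (hπ0 : π ≠ 0) (hπ : ¬ IsUnit π) (hr : ∀ a, r a = 0 → π ∣ a)
    (hrπ : r π = 0) (ℓ : ℕ) [Fact ℓ.Prime] [CharP k ℓ] [PerfectRing k ℓ]
    (N : ℕ) [NeZero N] (hN : (N : k) ≠ 0)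
    [Algebra A₀ (modularFunctionFieldFullC E N)]
    [IsScalarTower A₀ E (modularFunctionFieldFullC E N)] :
    TSGoodBasis (A₀ := A₀) (E := E) (Lf := modularFunctionFieldFullC E N) π
      (⟨jqModC E, jqModC_mem_full E N⟩ : modularFunctionFieldFullC E N) := by
  obtain ⟨x, kd⟩ := exists_gaussKD_j (E := E) r π hπ0 hπ hr N hN
  have hk : coeffMap r (jqModC A₀) = jqModC k := coeffMap_jqModC _
  have h := kd.tsGoodBasis hπ0 hπ hr hrπ ℓ (by rw [hk]; exact thetaFun_jqModC_ne_zero k)
  have hE : (⟨coeffMap (algebraMap A₀ E) (jqModC A₀), kd.t_mem⟩ : modularFunctionFieldFullC E N)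
      = ⟨jqModC E, jqModC_mem_full E N⟩ := Subtype.ext (coeffMap_jqModC _)
  rwa [hE] at h

end JLine

end Fermat.Agent.INJ

end
end ZBINJ_003_4

/-! ### bundled: `Fermat.Agent.UNIP.MGVertGauss` -/
section ZBINJ_003_5

/-!
# UNIP MG-8 "Vert", generic part: the Gauss valuation subring

`A` a discrete valuation ring (abstractly: `VtBase ι r π`), `ι : A →+* E` its fraction field,
`r : A →+* k` the residue map, `ker r = (π)`.  `gaussRing ι r ⊆ E((Q))` is the localisation of
`A((Q))` at the kernel of the reduction `r̂` (INJ/GaussRing).  For a field `F` with an embedding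
`e : F →+* E((Q))` all of whose values are quotients of series over `A` (`VtFrac`):

* `vt_exists_prim` : every nonzero `T ∈ A((Q))` is `π ^ n · T₁`, `r̂ T₁ ≠ 0`;
* `VtUnit ι r x` : `x` is a unit of the Gauss ring (`vtUnit_iff`: `gaussRed x ≠ 0`);
* `vt_exists_pow_mul` : `x ≠ 0` a quotient ⇒ `x = π ^ d · u` or `x⁻¹ = π ^ d · u`, `u` a unit;
* `vtSub hB e hfrac : ValuationSubring F` = `e ⁻¹ (gaussRing)`  — the vertical valuation;
* `vtSub_mem_nonunits_iff`, `vtSub_valuation_eq_one_iff`, `vtSub_const_mem_nonunits_iff`,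
  `vtSub_ne_top`, `vt_mem_of_isIntegral`;
* compatible maps (`VtCompat`): base change and inertial automorphisms of the coefficients
  preserve the Gauss ring and commute with the reduction; `vtSub_sub_mem_nonunits` (= `hτV`),
  `vtSub_valuation_div_eq_one` (= `hσV`), `vtSub_baseChange_mem_nonunits_iff`.
-/

set_option autoImplicit false
set_option linter.unusedSectionVars false
set_option linter.style.haveILetI false

noncomputable section

namespace Fermat.Agent.UNIP

open ModularCurve Fermat.Agent.INJ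

section Base

variable {A E k : Type*} [CommRing A] [Field E] [Field k]

/-- The base: `ι : A → E` the fraction field of `A`, `r : A → k` with kernel `(π)`, `π ≠ 0`, and
every nonzero element of `A` has finite `π`-adic order (a DVR with its residue map). -/
structure VtBase (ι : A →+* E) (r : A →+* k) (π : A) : Prop where
  inj : Function.Injective ι
  frac : ∀ x : E, ∃ a b : A, b ≠ 0 ∧ ι b * x = ι a
  rπ : r π = 0
  ker : ∀ a, r a = 0 → π ∣ a
  fin : ∀ a : A, a ≠ 0 → ∃ n : ℕ, ¬ π ^ n ∣ a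
  ne : π ≠ 0

variable {ι : A →+* E} {r : A →+* k} {π : A}

theorem VtBase.ιπ_ne (hB : VtBase ι r π) : ι π ≠ 0 := fun h =>
  hB.ne (hB.inj (by rw [h, map_zero]))

theorem VtBase.Cιπ_ne (hB : VtBase ι r π) : (HahnSeries.C (ι π) : LaurentSeries E) ≠ 0 := by
  intro h
  apply hB.ιπ_ne
  have := congrArg (fun z : LaurentSeries E => z.coeff 0) h
  simpa using this

theorem vt_coeffMap_ne_zero (hι : Function.Injective ι) {T : LaurentSeries A} (hT : T ≠ 0) :
    coeffMap ι T ≠ 0 := fun h =>
  hT (coeffMap_inj_of_injective ι hι (by rw [h, map_zero]))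

theorem vt_ne_zero_of_coeffMap_ne_zero {T : LaurentSeries A} (hT : coeffMap r T ≠ 0) :
    T ≠ 0 := by
  rintro rfl
  exact hT (map_zero _)

/-- **Primitive part**: every nonzero series over `A` is `π ^ n` times a series with nonzero
reduction. -/
theorem vt_exists_prim (hB : VtBase ι r π) (T : LaurentSeries A) (hT : T ≠ 0) :
    ∃ (n : ℕ) (T₁ : LaurentSeries A), T = HahnSeries.C π ^ n * T₁ ∧ coeffMap r T₁ ≠ 0 := by
  have hex : ∃ i, T.coeff i ≠ 0 := by
    by_contra hcon
    apply hT
    ext i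
    by_contra hne
    exact hcon ⟨i, hne⟩
  obtain ⟨i, hi⟩ := hex
  obtain ⟨N, hN⟩ := hB.fin _ hi
  clear hT hi
  induction N generalizing T with
  | zero => exact absurd (by rw [pow_zero]; exact one_dvd _) hN
  | succ N ih =>
    by_cases h : coeffMap r T = 0
    · obtain ⟨T', hT'⟩ := exists_eq_C_mul_of_coeffMap_eq_zero r hB.ker T h
      have hc : T.coeff i = π * T'.coeff i := by
        rw [hT', HahnSeries.C_mul_eq_smul, HahnSeries.coeff_smul, smul_eq_mul]
      have hN' : ¬ π ^ N ∣ T'.coeff i := by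
        intro hd
        apply hN
        rw [hc, pow_succ']
        exact mul_dvd_mul_left π hd
      obtain ⟨n, T₁, h1, h2⟩ := ih T' hN'
      exact ⟨n + 1, T₁, by rw [hT', h1, pow_succ']; ring, h2⟩
    · exact ⟨0, T, by rw [pow_zero, one_mul], h⟩

end Base

section Unit

variable {A E k : Type*} [CommRing A] [Field E] [Field k]

/-- `x ∈ E((Q))` is a unit of the Gauss ring: a quotient of two series over `A` with nonzero
reduction. -/
def VtUnit (ι : A →+* E) (r : A →+* k) (x : LaurentSeries E) : Prop :=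
  ∃ T b : LaurentSeries A, coeffMap r T ≠ 0 ∧ coeffMap r b ≠ 0 ∧
    coeffMap ι b * x = coeffMap ι T

variable {ι : A →+* E} {r : A →+* k}

theorem VtUnit.mem {x : LaurentSeries E} (h : VtUnit ι r x) : x ∈ gaussRing ι r := by
  obtain ⟨T, b, -, hb, h⟩ := h
  exact ⟨T, b, hb, h⟩

theorem VtUnit.ne_zero (hι : Function.Injective ι) {x : LaurentSeries E} (h : VtUnit ι r x) :
    x ≠ 0 := by
  obtain ⟨T, b, hT, -, h⟩ := h
  rintro rfl
  rw [mul_zero] at h
  exact vt_coeffMap_ne_zero hι (vt_ne_zero_of_coeffMap_ne_zero hT) h.symm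

theorem VtUnit.inv (hι : Function.Injective ι) {x : LaurentSeries E} (h : VtUnit ι r x) :
    VtUnit ι r x⁻¹ := by
  have hx := h.ne_zero hι
  obtain ⟨T, b, hT, hb, h⟩ := h
  refine ⟨b, T, hb, hT, ?_⟩
  rw [← h, mul_assoc, mul_inv_cancel₀ hx, mul_one]

theorem VtUnit.mul {x y : LaurentSeries E} (hx : VtUnit ι r x) (hy : VtUnit ι r y) :
    VtUnit ι r (x * y) := by
  obtain ⟨T, b, hT, hb, h⟩ := hx
  obtain ⟨T', b', hT', hb', h'⟩ := hy
  refine ⟨T * T', b * b', ?_, ?_, ?_⟩
  · rw [map_mul]; exact mul_ne_zero hT hT'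
  · rw [map_mul]; exact mul_ne_zero hb hb'
  · rw [map_mul, map_mul, ← h, ← h']; ring

theorem VtUnit.one : VtUnit ι r (1 : LaurentSeries E) :=
  ⟨1, 1, by simp, by simp, by simp⟩

theorem VtUnit.pow {x : LaurentSeries E} (hx : VtUnit ι r x) (n : ℕ) : VtUnit ι r (x ^ n) := by
  induction n with
  | zero => rw [pow_zero]; exact VtUnit.one
  | succ n ih => rw [pow_succ]; exact ih.mul hx

theorem VtUnit.div (hι : Function.Injective ι) {x y : LaurentSeries E} (hx : VtUnit ι r x)
    (hy : VtUnit ι r y) : VtUnit ι r (x / y) := by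
  rw [div_eq_mul_inv]
  exact hx.mul (hy.inv hι)

/-- series over `A` with nonzero reduction are units -/
theorem vtUnit_coeffMap {T : LaurentSeries A} (hT : coeffMap r T ≠ 0) :
    VtUnit ι r (coeffMap ι T) :=
  ⟨T, 1, hT, by simp, by simp⟩

/-- constants with nonzero reduction are units -/
theorem vtUnit_C {c : A} (hc : r c ≠ 0) : VtUnit ι r (HahnSeries.C (ι c) : LaurentSeries E) := by
  rw [← coeffMap_hahnC]
  refine vtUnit_coeffMap ?_
  rw [coeffMap_hahnC]
  intro h
  apply hc
  have := congrArg (fun z : LaurentSeries k => z.coeff 0) h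
  simpa using this

/-- units of the Gauss ring = elements with nonzero reduction -/
theorem vtUnit_iff (hι : Function.Injective ι) {x : LaurentSeries E} :
    VtUnit ι r x ↔ ∃ h : x ∈ gaussRing ι r, gaussRed r hι ⟨x, h⟩ ≠ 0 := by
  constructor
  · rintro ⟨T, b, hT, hb, h⟩
    refine ⟨⟨T, b, hb, h⟩, fun h0 => hT ?_⟩
    exact (gaussRed_eq_zero_iff r hι ⟨x, ⟨T, b, hb, h⟩⟩ T b hb h).mp h0
  · rintro ⟨⟨T, b, hb, h⟩, hne⟩
    refine ⟨T, b, fun h0 => hne ?_, hb, h⟩
    exact (gaussRed_eq_zero_iff r hι ⟨x, ⟨T, b, hb, h⟩⟩ T b hb h).mpr h0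

/-- an element of the Gauss ring whose inverse is in the Gauss ring is a unit -/
theorem vtUnit_of_mem_of_inv_mem (hι : Function.Injective ι) {x : LaurentSeries E} (hx0 : x ≠ 0)
    (hx : x ∈ gaussRing ι r) (hx' : x⁻¹ ∈ gaussRing ι r) : VtUnit ι r x := by
  rw [vtUnit_iff hι]
  refine ⟨hx, fun h0 => ?_⟩
  have h1 : (⟨x, hx⟩ : gaussRing ι r) * ⟨x⁻¹, hx'⟩ = 1 := Subtype.ext (mul_inv_cancel₀ hx0)
  have h2 := congrArg (gaussRed r hι) h1
  rw [map_mul, map_one, h0, zero_mul] at h2
  exact zero_ne_one h2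

/-- a unit is not in the kernel of the reduction -/
theorem VtUnit.gaussRed_ne (hι : Function.Injective ι) {x : LaurentSeries E} (h : VtUnit ι r x)
    (hx : x ∈ gaussRing ι r) : gaussRed r hι ⟨x, hx⟩ ≠ 0 := by
  obtain ⟨_, h2⟩ := (vtUnit_iff hι).mp h
  exact h2

end Unit

section Decomp

variable {A E k : Type*} [CommRing A] [Field E] [Field k]
  {ι : A →+* E} {r : A →+* k} {π : A}

/-- `x` is a quotient of two series over `A`. -/
def VtFrac (ι : A →+* E) (x : LaurentSeries E) : Prop :=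
  ∃ T b : LaurentSeries A, b ≠ 0 ∧ coeffMap ι b * x = coeffMap ι T

theorem vt_one_ne_zero (ι : A →+* E) : (1 : LaurentSeries A) ≠ 0 := fun h =>
  one_ne_zero (α := LaurentSeries E) (by rw [← map_one (coeffMap ι), h, map_zero])

theorem VtFrac.zero : VtFrac ι (0 : LaurentSeries E) :=
  ⟨0, 1, vt_one_ne_zero ι, by simp⟩

theorem VtFrac.one : VtFrac ι (1 : LaurentSeries E) :=
  ⟨1, 1, vt_one_ne_zero ι, by simp⟩

theorem vtFrac_coeffMap (T : LaurentSeries A) : VtFrac ι (coeffMap ι T) :=
  ⟨T, 1, vt_one_ne_zero ι, by simp⟩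

theorem vt_mul_ne_zero (hι : Function.Injective ι) {b b' : LaurentSeries A} (hb : b ≠ 0)
    (hb' : b' ≠ 0) : b * b' ≠ 0 := by
  intro h
  have := congrArg (coeffMap ι) h
  rw [map_mul, map_zero] at this
  rcases mul_eq_zero.mp this with h1 | h1
  · exact vt_coeffMap_ne_zero hι hb h1
  · exact vt_coeffMap_ne_zero hι hb' h1

theorem VtFrac.add (hι : Function.Injective ι) {x y : LaurentSeries E} (hx : VtFrac ι x)
    (hy : VtFrac ι y) : VtFrac ι (x + y) := by
  obtain ⟨T, b, hb, h⟩ := hx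
  obtain ⟨T', b', hb', h'⟩ := hy
  refine ⟨T * b' + T' * b, b * b', vt_mul_ne_zero hι hb hb', ?_⟩
  rw [map_mul, map_add, map_mul, map_mul, ← h, ← h']; ring

theorem VtFrac.mul (hι : Function.Injective ι) {x y : LaurentSeries E} (hx : VtFrac ι x)
    (hy : VtFrac ι y) : VtFrac ι (x * y) := by
  obtain ⟨T, b, hb, h⟩ := hx
  obtain ⟨T', b', hb', h'⟩ := hy
  refine ⟨T * T', b * b', vt_mul_ne_zero hι hb hb', ?_⟩
  rw [map_mul, map_mul, ← h, ← h']; ring

theorem VtFrac.neg {x : LaurentSeries E} (hx : VtFrac ι x) : VtFrac ι (-x) := by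
  obtain ⟨T, b, hb, h⟩ := hx
  exact ⟨-T, b, hb, by rw [map_neg, ← h]; ring⟩

theorem VtFrac.inv (hι : Function.Injective ι) {x : LaurentSeries E} (hx : VtFrac ι x) :
    VtFrac ι x⁻¹ := by
  by_cases hx0 : x = 0
  · rw [hx0, inv_zero]; exact VtFrac.zero
  obtain ⟨T, b, hb, h⟩ := hx
  have hT : T ≠ 0 := by
    rintro rfl
    rw [map_zero] at h
    rcases mul_eq_zero.mp h with h1 | h1
    · exact vt_coeffMap_ne_zero hι hb h1
    · exact hx0 h1
  refine ⟨b, T, hT, ?_⟩
  rw [← h, mul_assoc, mul_inv_cancel₀ hx0, mul_one]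

/-- constants are quotients of series over `A` -/
theorem vtFrac_C (hfrac : ∀ x : E, ∃ a b : A, b ≠ 0 ∧ ι b * x = ι a) (c : E) :
    VtFrac ι (HahnSeries.C c : LaurentSeries E) := by
  obtain ⟨a, b, hb, h⟩ := hfrac c
  refine ⟨HahnSeries.C a, HahnSeries.C b, ?_, ?_⟩
  · intro h0
    apply hb
    have := congrArg (fun z : LaurentSeries A => z.coeff 0) h0
    simpa using this
  · rw [coeffMap_hahnC, coeffMap_hahnC, ← map_mul, h]

/-- compatibility with maps of the coefficient fields -/
theorem VtFrac.of_unit {r : A →+* k} {x : LaurentSeries E} (hx : VtUnit ι r x) : VtFrac ι x := by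
  obtain ⟨T, b, -, hb, h⟩ := hx
  exact ⟨T, b, vt_ne_zero_of_coeffMap_ne_zero hb, h⟩

/-- **Decomposition**: a nonzero quotient of series over `A` is `π ^ d · u` or the inverse of
such an element, `u` a unit of the Gauss ring. -/
theorem vt_exists_pow_mul (hB : VtBase ι r π) {x : LaurentSeries E} (hx : x ≠ 0)
    (hfrac : VtFrac ι x) :
    ∃ (d : ℕ) (u : LaurentSeries E), VtUnit ι r u ∧
      (x = HahnSeries.C (ι π) ^ d * u ∨ x⁻¹ = HahnSeries.C (ι π) ^ d * u) := by
  obtain ⟨T, b, hb, h⟩ := hfrac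
  have hbE : coeffMap ι b ≠ 0 := vt_coeffMap_ne_zero hB.inj hb
  have hT : T ≠ 0 := by
    rintro rfl
    rw [map_zero] at h
    rcases mul_eq_zero.mp h with h1 | h1
    · exact hbE h1
    · exact hx h1
  obtain ⟨n, T₁, hT₁, hT₁r⟩ := vt_exists_prim hB T hT
  obtain ⟨m, b₁, hb₁, hb₁r⟩ := vt_exists_prim hB b hb
  have hb₁E : coeffMap ι b₁ ≠ 0 :=
    vt_coeffMap_ne_zero hB.inj (vt_ne_zero_of_coeffMap_ne_zero hb₁r)
  have hT₁E : coeffMap ι T₁ ≠ 0 :=
    vt_coeffMap_ne_zero hB.inj (vt_ne_zero_of_coeffMap_ne_zero hT₁r)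
  have hC := hB.Cιπ_ne
  have key : HahnSeries.C (ι π) ^ m * coeffMap ι b₁ * x =
      HahnSeries.C (ι π) ^ n * coeffMap ι T₁ := by
    have := h
    rw [hT₁, hb₁, map_mul, map_mul, map_pow, map_pow, coeffMap_hahnC] at this
    exact this
  have hu : VtUnit ι r (coeffMap ι T₁ / coeffMap ι b₁) :=
    (vtUnit_coeffMap hT₁r).div hB.inj (vtUnit_coeffMap hb₁r)
  rcases le_total m n with hmn | hmn
  · refine ⟨n - m, _, hu, Or.inl ?_⟩
    obtain ⟨d, rfl⟩ := Nat.exists_eq_add_of_le hmn
    rw [Nat.add_sub_cancel_left]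
    rw [pow_add] at key
    have hCm : (HahnSeries.C (ι π) : LaurentSeries E) ^ m ≠ 0 := pow_ne_zero _ hC
    rw [← mul_div_assoc, eq_div_iff hb₁E]
    have : HahnSeries.C (ι π) ^ m * (x * coeffMap ι b₁) =
        HahnSeries.C (ι π) ^ m * (HahnSeries.C (ι π) ^ d * coeffMap ι T₁) := by
      linear_combination key
    exact mul_left_cancel₀ hCm this
  · refine ⟨m - n, _, hu.inv hB.inj, Or.inr ?_⟩
    obtain ⟨d, rfl⟩ := Nat.exists_eq_add_of_le hmn
    rw [Nat.add_sub_cancel_left]
    rw [pow_add] at key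
    have hCn : (HahnSeries.C (ι π) : LaurentSeries E) ^ n ≠ 0 := pow_ne_zero _ hC
    have h2 : HahnSeries.C (ι π) ^ d * coeffMap ι b₁ * x = coeffMap ι T₁ := by
      have : HahnSeries.C (ι π) ^ n * (HahnSeries.C (ι π) ^ d * coeffMap ι b₁ * x) =
          HahnSeries.C (ι π) ^ n * coeffMap ι T₁ := by
        linear_combination key
      exact mul_left_cancel₀ hCn this
    rw [inv_div, ← mul_div_assoc, eq_div_iff hT₁E, ← h2]
    have h3 : x⁻¹ * x = 1 := inv_mul_cancel₀ hx
    linear_combination (HahnSeries.C (ι π) ^ d * coeffMap ι b₁) * h3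

/-- a quotient of series over `A` or its inverse lies in the Gauss ring -/
theorem vt_mem_or_inv_mem (hB : VtBase ι r π) {x : LaurentSeries E} (hfrac : VtFrac ι x) :
    x ∈ gaussRing ι r ∨ x⁻¹ ∈ gaussRing ι r := by
  by_cases hx : x = 0
  · left; rw [hx]; exact (gaussRing ι r).zero_mem
  obtain ⟨d, u, hu, h | h⟩ := vt_exists_pow_mul hB hx hfrac
  · left
    rw [h]
    exact (gaussRing ι r).mul_mem ((gaussRing ι r).pow_mem (hahnC_mem_gaussRing r π) d) hu.mem
  · right
    rw [h]
    exact (gaussRing ι r).mul_mem ((gaussRing ι r).pow_mem (hahnC_mem_gaussRing r π) d) hu.mem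

end Decomp

section ValSub

variable {F : Type*} [Field F]

/-- nonunits of a valuation subring: `x = 0` or `x⁻¹ ∉ V` -/
theorem vt_mem_nonunits_iff (V : ValuationSubring F) (x : F) :
    x ∈ V.nonunits ↔ x = 0 ∨ x⁻¹ ∉ V := by
  rw [ValuationSubring.mem_nonunits_iff]
  by_cases hx : x = 0
  · subst hx
    simp
  · have hv : V.valuation x ≠ 0 := (Valuation.ne_zero_iff _).mpr hx
    rw [← V.valuation_le_one_iff, map_inv₀, inv_le_one₀ (zero_lt_iff.mpr hv), not_le]
    exact ⟨Or.inr, fun h => h.resolve_left hx⟩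

/-- `v x = 1` iff `x` and `x⁻¹` lie in `V`, `x ≠ 0` -/
theorem vt_valuation_eq_one_iff (V : ValuationSubring F) (x : F) :
    V.valuation x = 1 ↔ x ≠ 0 ∧ x ∈ V ∧ x⁻¹ ∈ V := by
  by_cases hx : x = 0
  · subst hx
    simp
  · have hv : V.valuation x ≠ 0 := (Valuation.ne_zero_iff _).mpr hx
    rw [← V.valuation_le_one_iff, ← V.valuation_le_one_iff, map_inv₀,
      inv_le_one₀ (zero_lt_iff.mpr hv)]
    exact ⟨fun h => ⟨hx, h.le, h.ge⟩, fun h => le_antisymm h.2.1 h.2.2⟩

/-- a valuation subring containing the image of `R` contains the elements integral over `R` -/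
theorem vt_mem_of_isIntegral {R : Type*} [CommRing R] [Algebra R F] (V : ValuationSubring F)
    (hR : ∀ a : R, algebraMap R F a ∈ V) {x : F} (hx : IsIntegral R x) : x ∈ V := by
  obtain ⟨p, hp, hpx⟩ := hx
  let f : R →+* V := (algebraMap R F).codRestrict V.toSubring hR
  have hx' : IsIntegral V x := by
    refine ⟨p.map f, hp.map f, ?_⟩
    rw [Polynomial.eval₂_map]
    exact hpx
  obtain ⟨y, rfl⟩ := IsIntegrallyClosed.isIntegral_iff.mp hx'
  exact y.2

theorem vt_mul_mem_nonunits (V : ValuationSubring F) {x y : F} (hx : x ∈ V)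
    (hy : y ∈ V.nonunits) : x * y ∈ V.nonunits := by
  rw [ValuationSubring.mem_nonunits_iff] at hy ⊢
  rw [map_mul]
  have hx1 : V.valuation x ≤ 1 := (V.valuation_le_one_iff x).2 hx
  calc V.valuation x * V.valuation y ≤ 1 * V.valuation y := by gcongr
    _ = V.valuation y := one_mul _
    _ < 1 := hy

theorem vt_add_mem_nonunits (V : ValuationSubring F) {x y : F} (hx : x ∈ V.nonunits)
    (hy : y ∈ V.nonunits) : x + y ∈ V.nonunits := by
  rw [ValuationSubring.mem_nonunits_iff] at hx hy ⊢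
  exact lt_of_le_of_lt (V.valuation.map_add x y) (max_lt hx hy)

theorem vt_neg_mem_nonunits (V : ValuationSubring F) {x : F} (hx : x ∈ V.nonunits) :
    -x ∈ V.nonunits := by
  rw [ValuationSubring.mem_nonunits_iff] at hx ⊢
  rwa [Valuation.map_neg]

theorem vt_sub_mem_nonunits (V : ValuationSubring F) {x y : F} (hx : x ∈ V.nonunits)
    (hy : y ∈ V.nonunits) : x - y ∈ V.nonunits := by
  rw [sub_eq_add_neg]
  exact vt_add_mem_nonunits V hx (vt_neg_mem_nonunits V hy)

theorem vt_mem_of_mem_nonunits (V : ValuationSubring F) {x : F} (hx : x ∈ V.nonunits) :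
    x ∈ V := by
  rw [ValuationSubring.mem_nonunits_iff] at hx
  exact (V.valuation_le_one_iff x).mp hx.le

end ValSub

section Sub

variable {A E k : Type*} [CommRing A] [Field E] [Field k]
  {ι : A →+* E} {r : A →+* k} {π : A} {F : Type*} [Field F]

/-- **The vertical (Gauss) valuation subring** of a field `F` embedded in `E((Q))` all of whose
elements are quotients of series over `A`: the preimage of the Gauss ring. -/
def vtSub (hB : VtBase ι r π) (e : F →+* LaurentSeries E) (hfrac : ∀ x : F, VtFrac ι (e x)) :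
    ValuationSubring F where
  toSubring := (gaussRing ι r).comap e
  mem_or_inv_mem' x := by
    have := vt_mem_or_inv_mem (r := r) hB (hfrac x)
    rw [← map_inv₀] at this
    exact this

variable (hB : VtBase ι r π) (e : F →+* LaurentSeries E) (hfrac : ∀ x : F, VtFrac ι (e x))

theorem mem_vtSub {x : F} : x ∈ vtSub hB e hfrac ↔ e x ∈ gaussRing ι r := Iff.rfl

/-- **(V-max)** `v x = 1` iff `e x` is a unit of the Gauss ring. -/
theorem vtSub_valuation_eq_one_iff {x : F} :
    (vtSub hB e hfrac).valuation x = 1 ↔ VtUnit ι r (e x) := by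
  rw [vt_valuation_eq_one_iff]
  constructor
  · rintro ⟨hx0, hx, hx'⟩
    rw [mem_vtSub, map_inv₀] at hx'
    exact vtUnit_of_mem_of_inv_mem hB.inj ((map_ne_zero e).mpr hx0) hx hx'
  · intro h
    refine ⟨fun h0 => h.ne_zero hB.inj (by rw [h0, map_zero]), h.mem, ?_⟩
    rw [mem_vtSub, map_inv₀]
    exact (h.inv hB.inj).mem

/-- **(V-max)** the maximal ideal of the vertical valuation is the kernel of the reduction. -/
theorem vtSub_mem_nonunits_iff {x : F} :
    x ∈ (vtSub hB e hfrac).nonunits ↔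
      ∃ h : e x ∈ gaussRing ι r, gaussRed r hB.inj ⟨e x, h⟩ = 0 := by
  constructor
  · intro hx
    have hxV : x ∈ vtSub hB e hfrac := vt_mem_of_mem_nonunits _ hx
    refine ⟨hxV, ?_⟩
    by_contra hne
    have hu : VtUnit ι r (e x) := (vtUnit_iff hB.inj).mpr ⟨hxV, hne⟩
    have h1 := (vtSub_valuation_eq_one_iff hB e hfrac).mpr hu
    rw [ValuationSubring.mem_nonunits_iff, h1] at hx
    exact lt_irrefl _ hx
  · rintro ⟨h, h0⟩
    rw [ValuationSubring.mem_nonunits_iff]
    have hle : (vtSub hB e hfrac).valuation x ≤ 1 :=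
      ((vtSub hB e hfrac).valuation_le_one_iff x).mpr h
    refine lt_of_le_of_ne hle fun h1 => ?_
    have hu := (vtSub_valuation_eq_one_iff hB e hfrac).mp h1
    exact hu.gaussRed_ne hB.inj h h0

/-- the reduction of an element of `V` -/
theorem vtSub_not_mem_nonunits_iff {x : F} (hx : x ∈ vtSub hB e hfrac) :
    x ∉ (vtSub hB e hfrac).nonunits ↔ VtUnit ι r (e x) := by
  rw [← vtSub_valuation_eq_one_iff hB e hfrac, ValuationSubring.mem_nonunits_iff, not_lt]
  have hle : (vtSub hB e hfrac).valuation x ≤ 1 :=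
    ((vtSub hB e hfrac).valuation_le_one_iff x).mpr hx
  exact ⟨fun h => le_antisymm hle h, fun h => h.ge⟩

/-- constants: the elements of `A` lie in `V` -/
theorem vtSub_const_mem {c : F} {a : A} (hc : e c = HahnSeries.C (ι a)) :
    c ∈ vtSub hB e hfrac := by
  rw [mem_vtSub, hc]
  exact hahnC_mem_gaussRing r a

/-- constants: `a ∈ A` is in the maximal ideal of `V` iff `r a = 0` -/
theorem vtSub_const_mem_nonunits_iff {c : F} {a : A} (hc : e c = HahnSeries.C (ι a)) :
    c ∈ (vtSub hB e hfrac).nonunits ↔ r a = 0 := by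
  have hcV := vtSub_const_mem hB e hfrac hc
  constructor
  · intro h
    by_contra hne
    have hu : VtUnit ι r (e c) := by rw [hc]; exact vtUnit_C hne
    exact ((vtSub_not_mem_nonunits_iff hB e hfrac hcV).mpr hu) h
  · intro h
    by_contra hne
    have hu := (vtSub_not_mem_nonunits_iff hB e hfrac hcV).mp hne
    rw [hc] at hu
    obtain ⟨hmem, hred⟩ := (vtUnit_iff hB.inj).mp hu
    apply hred
    have h3 := gaussRed_coeffMap r hB.inj (HahnSeries.C a : LaurentSeries A)
    rw [coeffMap_hahnC r, h, map_zero] at h3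
    rw [← h3]
    congr 1
    exact Subtype.ext (coeffMap_hahnC ι a).symm

/-- **(V-max)** the uniformizer of `A` lies in the maximal ideal of `V` -/
theorem vtSub_unif_mem_nonunits {c : F} (hc : e c = HahnSeries.C (ι π)) :
    c ∈ (vtSub hB e hfrac).nonunits :=
  (vtSub_const_mem_nonunits_iff hB e hfrac hc).mpr hB.rπ

/-- **(V-max)** `V ≠ ⊤` -/
theorem vtSub_ne_top {c : F} (hc : e c = HahnSeries.C (ι π)) : vtSub hB e hfrac ≠ ⊤ := by
  intro htop
  have h1 := vtSub_unif_mem_nonunits hB e hfrac hc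
  rw [vt_mem_nonunits_iff, htop] at h1
  rcases h1 with h1 | h1
  · have : e c = 0 := by rw [h1, map_zero]
    rw [hc] at this
    exact hB.Cιπ_ne this
  · exact h1 trivial

/-- elements of `F` whose image is a series over `A` lie in `V` -/
theorem vtSub_mem_of_eq_coeffMap {x : F} {T : LaurentSeries A} (hx : e x = coeffMap ι T) :
    x ∈ vtSub hB e hfrac := by
  rw [mem_vtSub, hx]
  exact coeffMap_mem_gaussRing ι r T

/-- elements of `F` whose image is a series over `A` with nonzero reduction are units of `V` -/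
theorem vtSub_valuation_eq_one_of_eq_coeffMap {x : F} {T : LaurentSeries A}
    (hx : e x = coeffMap ι T) (hT : coeffMap r T ≠ 0) :
    (vtSub hB e hfrac).valuation x = 1 := by
  rw [vtSub_valuation_eq_one_iff, hx]
  exact vtUnit_coeffMap hT

/-- **(V-int)** elements integral over a ring whose image lies in `V` are in `V` -/
theorem vtSub_mem_of_isIntegral {R : Type*} [CommRing R] [Algebra R F]
    (hR : ∀ a : R, e (algebraMap R F a) ∈ gaussRing ι r) {x : F} (hx : IsIntegral R x) :
    x ∈ vtSub hB e hfrac :=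
  vt_mem_of_isIntegral _ hR hx

/-- the valuation subring composed with a field endomorphism `w` is the vertical valuation
subring of the embedding `e ∘ w` -/
theorem vtSub_comap (w : F →+* F) :
    (vtSub hB e hfrac).comap w = vtSub hB (e.comp w) (fun x => hfrac (w x)) := rfl

end Sub

section DVR

variable {A E k : Type*} [CommRing A] [IsDomain A] [IsDiscreteValuationRing A]
  [Field E] [Algebra A E] [IsFractionRing A E] [Field k]

/-- A discrete valuation ring with a uniformizer `π` and a map `r` with kernel `(π)` is a base. -/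
theorem vtBase_of_dvr (r : A →+* k) {π : A} (hπ : Irreducible π)
    (hr : ∀ a, r a = 0 ↔ π ∣ a) : VtBase (algebraMap A E) r π where
  inj := IsFractionRing.injective A E
  frac x := by
    obtain ⟨a, b, hb, h⟩ := IsFractionRing.div_surjective (A := A) x
    have hb0 : b ≠ 0 := nonZeroDivisors.ne_zero hb
    refine ⟨a, b, hb0, ?_⟩
    rw [← h]
    have : algebraMap A E b ≠ 0 := by
      intro h0
      exact hb0 (IsFractionRing.injective A E (by rw [h0, map_zero]))
    field_simp
  rπ := (hr π).mpr dvd_rfl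
  ker a := (hr a).mp
  fin a ha := by
    obtain ⟨n, hn⟩ := FiniteMultiplicity.of_not_isUnit hπ.not_isUnit ha
    exact ⟨n + 1, hn⟩
  ne := hπ.ne_zero

/-- A discrete valuation ring with a uniformizer `π` and its residue map. -/
theorem vtBase_residue {π : A} (hπ : Irreducible π) :
    VtBase (algebraMap A E) (IsLocalRing.residue A) π := by
  refine vtBase_of_dvr _ hπ fun a => ?_
  rw [IsLocalRing.residue_eq_zero_iff,
    (IsDiscreteValuationRing.irreducible_iff_uniformizer π).mp hπ, Ideal.mem_span_singleton]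

end DVR

end Fermat.Agent.UNIP

end
end ZBINJ_003_5

/-! ### bundled: `Fermat.Agent.UNIP.MGVertCompat` -/
section ZBINJ_003_6

/-!
# UNIP MG-8 "Vert", generic part II: compatible maps of the coefficients

* `VtCompat ι r ι' r' ψ κ` : `ψ : E → E'` maps `A` into `A'` and induces `κ` on the residue
  fields (base change `A₀ → A'`; or `A = A'`, `κ = id`: an inertial automorphism);
* `vt_compat_mem`, `vt_compat_gaussRed`, `VtUnit.compat`, `vtUnit_of_compat`;
* `vtSub_comap_baseChange` : the vertical valuation of `F'` restricts to that of `F`;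
* `vtSub_sub_mem_nonunits` (= `hτV`), `vtSub_valuation_div_eq_one` (= `hσV`),
  `vt_unif_of_leftInverse`;
* `vt_ss1_baseChange` : (SS1) over the unramified base gives (SS1′) over the ramified base.
-/

set_option autoImplicit false
set_option linter.unusedSectionVars false
set_option linter.style.haveILetI false

noncomputable section

namespace Fermat.Agent.UNIP

open ModularCurve Fermat.Agent.INJ

section Compat

variable {A E k A' E' k' : Type*} [CommRing A] [Field E] [Field k]
  [CommRing A'] [Field E'] [Field k']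

/-- `ψ : E → E'` and `κ : k → k'` are compatible with the integral structures: `ψ` maps `A` into
`A'`, and induces `κ` on the residue fields.  (Base change `A₀ → A'`; or `A = A'`, `κ = id`:
an automorphism of `E` preserving `A` and acting trivially on the residue field.) -/
def VtCompat (ι : A →+* E) (r : A →+* k) (ι' : A' →+* E') (r' : A' →+* k')
    (ψ : E →+* E') (κ : k →+* k') : Prop :=
  ∀ a : A, ∃ a' : A', ι' a' = ψ (ι a) ∧ r' a' = κ (r a)

variable {ι : A →+* E} {r : A →+* k} {ι' : A' →+* E'} {r' : A' →+* k'}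
  {ψ : E →+* E'} {κ : k →+* k'}

/-- lifting series -/
theorem vt_exists_lift (hc : VtCompat ι r ι' r' ψ κ) (T : LaurentSeries A) :
    ∃ T' : LaurentSeries A', coeffMap ι' T' = coeffMap ψ (coeffMap ι T) ∧
      coeffMap r' T' = coeffMap κ (coeffMap r T) := by
  classical
  choose f hf using hc
  refine ⟨⟨fun n => if T.coeff n = 0 then 0 else f (T.coeff n), T.isPWO_support.mono ?_⟩, ?_, ?_⟩
  · intro n hn
    simp only [Function.mem_support, ne_eq, ite_eq_left_iff, not_forall] at hn
    obtain ⟨h, _⟩ := hn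
    exact h
  · ext n
    show ι' (if T.coeff n = 0 then 0 else f (T.coeff n)) = ψ (ι (T.coeff n))
    split_ifs with h
    · rw [h]; simp
    · exact (hf _).1
  · ext n
    show r' (if T.coeff n = 0 then 0 else f (T.coeff n)) = κ (r (T.coeff n))
    split_ifs with h
    · rw [h]; simp
    · exact (hf _).2

theorem vt_coeffMap_field_ne_zero (κ : k →+* k') {x : LaurentSeries k} (hx : x ≠ 0) :
    coeffMap κ x ≠ 0 := fun h =>
  hx (coeffMap_inj_of_injective κ κ.injective (by rw [h, map_zero]))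

/-- compatible maps preserve the Gauss ring -/
theorem vt_compat_mem (hc : VtCompat ι r ι' r' ψ κ) {x : LaurentSeries E}
    (hx : x ∈ gaussRing ι r) : coeffMap ψ x ∈ gaussRing ι' r' := by
  obtain ⟨T, b, hb, h⟩ := hx
  obtain ⟨T', hT', -⟩ := vt_exists_lift hc T
  obtain ⟨b', hb', hb'r⟩ := vt_exists_lift hc b
  refine ⟨T', b', ?_, ?_⟩
  · rw [hb'r]; exact vt_coeffMap_field_ne_zero κ hb
  · rw [hT', hb', ← h, map_mul]

/-- compatible maps commute with the reduction -/
theorem vt_compat_gaussRed (hc : VtCompat ι r ι' r' ψ κ) (hι : Function.Injective ι)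
    (hι' : Function.Injective ι') {x : LaurentSeries E} (hx : x ∈ gaussRing ι r) :
    gaussRed r' hι' ⟨coeffMap ψ x, vt_compat_mem hc hx⟩ =
      coeffMap κ (gaussRed r hι ⟨x, hx⟩) := by
  have hx2 := hx
  obtain ⟨T, b, hb, h⟩ := hx2
  obtain ⟨T', hT', hT'r⟩ := vt_exists_lift hc T
  obtain ⟨b', hb', hb'r⟩ := vt_exists_lift hc b
  have hb'0 : coeffMap r' b' ≠ 0 := by rw [hb'r]; exact vt_coeffMap_field_ne_zero κ hb
  have h' : coeffMap ι' b' * coeffMap ψ x = coeffMap ι' T' := by
    rw [hT', hb', ← h, map_mul]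
  have e1 := gaussRed_eq r' hι' ⟨coeffMap ψ x, vt_compat_mem hc hx⟩ T' b' hb'0 h'
  have e2 := gaussRed_eq r hι ⟨x, hx⟩ T b hb h
  rw [e1, e2, hT'r, hb'r, map_div₀]

/-- compatible maps preserve units of the Gauss ring -/
theorem VtUnit.compat (hc : VtCompat ι r ι' r' ψ κ) {x : LaurentSeries E}
    (hx : VtUnit ι r x) : VtUnit ι' r' (coeffMap ψ x) := by
  obtain ⟨T, b, hT, hb, h⟩ := hx
  obtain ⟨T', hT', hT'r⟩ := vt_exists_lift hc T
  obtain ⟨b', hb', hb'r⟩ := vt_exists_lift hc b
  refine ⟨T', b', ?_, ?_, ?_⟩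
  · rw [hT'r]; exact vt_coeffMap_field_ne_zero κ hT
  · rw [hb'r]; exact vt_coeffMap_field_ne_zero κ hb
  · rw [hT', hb', ← h, map_mul]

/-- compatible maps reflect units of the Gauss ring -/
theorem vtUnit_of_compat (hc : VtCompat ι r ι' r' ψ κ) (hι : Function.Injective ι)
    (hι' : Function.Injective ι') {x : LaurentSeries E} (hx : x ∈ gaussRing ι r)
    (hu : VtUnit ι' r' (coeffMap ψ x)) : VtUnit ι r x := by
  rw [vtUnit_iff hι]
  refine ⟨hx, fun h0 => ?_⟩
  have h1 := vt_compat_gaussRed hc hι hι' hx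
  rw [h0, map_zero] at h1
  exact hu.gaussRed_ne hι' _ h1

end Compat

section BaseChange

variable {A E k A' E' k' : Type*} [CommRing A] [Field E] [Field k]
  [CommRing A'] [Field E'] [Field k']
  {ι : A →+* E} {r : A →+* k} {π : A} {ι' : A' →+* E'} {r' : A' →+* k'} {π' : A'}
  {ψ : E →+* E'} {κ : k →+* k'} {F F' : Type*} [Field F] [Field F']
  (hB : VtBase ι r π) (hB' : VtBase ι' r' π')
  (e : F →+* LaurentSeries E) (hfrac : ∀ x : F, VtFrac ι (e x))
  (e' : F' →+* LaurentSeries E') (hfrac' : ∀ x : F', VtFrac ι' (e' x))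

/-- **Base change**: the vertical valuation of `F'` restricts to the vertical valuation of `F`. -/
theorem vtSub_comap_baseChange (hc : VtCompat ι r ι' r' ψ κ) (β : F →+* F')
    (hβ : ∀ x, e' (β x) = coeffMap ψ (e x)) :
    (vtSub hB' e' hfrac').comap β = vtSub hB e hfrac := by
  have hsub : ∀ x, x ∈ vtSub hB e hfrac → β x ∈ vtSub hB' e' hfrac' := by
    intro x hx
    rw [mem_vtSub, hβ]
    exact vt_compat_mem hc hx
  have hnon : ∀ x, x ∈ (vtSub hB e hfrac).nonunits → β x ∈ (vtSub hB' e' hfrac').nonunits := by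
    intro x hx
    obtain ⟨h, h0⟩ := (vtSub_mem_nonunits_iff hB e hfrac).mp hx
    rw [vtSub_mem_nonunits_iff]
    have h1 := vt_compat_gaussRed hc hB.inj hB'.inj h
    rw [h0, map_zero] at h1
    refine ⟨by rw [hβ]; exact vt_compat_mem hc h, ?_⟩
    rw [← h1]
    congr 1
    exact Subtype.ext (hβ x)
  ext x
  rw [ValuationSubring.mem_comap]
  refine ⟨fun hx => ?_, hsub x⟩
  by_contra hxV
  have hx0 : x ≠ 0 := by
    rintro rfl
    exact hxV (vtSub hB e hfrac).zero_mem
  have hinv : x⁻¹ ∈ (vtSub hB e hfrac).nonunits := by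
    rw [vt_mem_nonunits_iff, inv_inv]
    exact Or.inr hxV
  have h2 := hnon _ hinv
  rw [vt_mem_nonunits_iff, map_inv₀, inv_inv] at h2
  rcases h2 with h2 | h2
  · exact hx0 ((map_eq_zero β).mp (inv_eq_zero.mp h2))
  · exact h2 hx

/-- nonunits of a comap -/
theorem vt_mem_nonunits_comap {F F' : Type*} [Field F] [Field F'] (V' : ValuationSubring F')
    (β : F →+* F') (x : F) : x ∈ (V'.comap β).nonunits ↔ β x ∈ V'.nonunits := by
  rw [vt_mem_nonunits_iff, vt_mem_nonunits_iff, ValuationSubring.mem_comap, map_inv₀,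
    map_eq_zero]

/-- **Base change**, maximal ideals. -/
theorem vtSub_baseChange_mem_nonunits_iff (hc : VtCompat ι r ι' r' ψ κ) (β : F →+* F')
    (hβ : ∀ x, e' (β x) = coeffMap ψ (e x)) (x : F) :
    β x ∈ (vtSub hB' e' hfrac').nonunits ↔ x ∈ (vtSub hB e hfrac).nonunits := by
  rw [← vt_mem_nonunits_comap, vtSub_comap_baseChange hB hB' e hfrac e' hfrac' hc β hβ]

end BaseChange

section Inertia

variable {A E k : Type*} [CommRing A] [Field E] [Field k]
  {ι : A →+* E} {r : A →+* k} {π : A} {F : Type*} [Field F]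
  (hB : VtBase ι r π) (e : F →+* LaurentSeries E) (hfrac : ∀ x : F, VtFrac ι (e x))

/-- **(V-τ) = `hτV`**: an endomorphism of the coefficients which preserves `A` and is trivial on
the residue field is trivial modulo the maximal ideal of the vertical valuation. -/
theorem vtSub_sub_mem_nonunits {s : E →+* E} (hc : VtCompat ι r ι r s (RingHom.id k))
    (sF : F →+* F) (hsF : ∀ x, e (sF x) = coeffMap s (e x)) {x : F}
    (hx : x ∈ vtSub hB e hfrac) : sF x - x ∈ (vtSub hB e hfrac).nonunits := by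
  rw [vtSub_mem_nonunits_iff]
  have hx' : e x ∈ gaussRing ι r := hx
  have h1 : coeffMap s (e x) ∈ gaussRing ι r := vt_compat_mem hc hx'
  have h2 := vt_compat_gaussRed hc hB.inj hB.inj hx'
  rw [coeffMap_id] at h2
  have hmem : e (sF x - x) ∈ gaussRing ι r := by
    rw [map_sub, hsF]
    exact (gaussRing ι r).sub_mem h1 hx'
  refine ⟨hmem, ?_⟩
  have h3 : (⟨e (sF x - x), hmem⟩ : gaussRing ι r) = ⟨coeffMap s (e x), h1⟩ - ⟨e x, hx'⟩ :=
    Subtype.ext (by
      show e (sF x - x) = coeffMap s (e x) - e x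
      rw [map_sub, hsF])
  rw [h3, map_sub, h2, sub_self]

/-- an endomorphism preserving `A`, trivial on the residue field, maps the vertical valuation
ring into itself -/
theorem vtSub_map_mem {s : E →+* E} (hc : VtCompat ι r ι r s (RingHom.id k))
    (sF : F →+* F) (hsF : ∀ x, e (sF x) = coeffMap s (e x)) {x : F}
    (hx : x ∈ vtSub hB e hfrac) : sF x ∈ vtSub hB e hfrac := by
  rw [mem_vtSub, hsF]
  exact vt_compat_mem hc hx

include hB in
/-- the uniformizer is moved by a unit, if the endomorphism has a left inverse of the same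
kind -/
theorem vt_unif_of_leftInverse {s s' : E →+* E} (hc : VtCompat ι r ι r s (RingHom.id k))
    (hc' : VtCompat ι r ι r s' (RingHom.id k)) (hinv : ∀ x, s' (s x) = x) :
    ∃ c : A, s (ι π) = ι π * ι c ∧ r c ≠ 0 := by
  obtain ⟨a, ha, har⟩ := hc π
  rw [RingHom.id_apply, hB.rπ] at har
  obtain ⟨c, rfl⟩ := hB.ker a har
  refine ⟨c, by rw [← ha, map_mul], fun hrc => ?_⟩
  obtain ⟨c₂, rfl⟩ := hB.ker c hrc
  obtain ⟨b, hb, hbr⟩ := hc' π
  obtain ⟨c₃, hc₃, -⟩ := hc' c₂
  have h1 : ι π = ι (b * (b * c₃)) := by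
    have := hinv (ι π)
    rw [← ha, map_mul, map_mul, map_mul, map_mul, ← hb, ← hc₃] at this
    rw [map_mul, map_mul]
    exact this.symm
  have h2 := hB.inj h1
  rw [RingHom.id_apply, hB.rπ] at hbr
  obtain ⟨d, rfl⟩ := hB.ker b hbr
  have h3 : ι π * (1 - ι (d * (π * d) * c₃)) = 0 := by
    rw [mul_assoc] at h2
    have := congrArg ι h2
    simp only [map_mul] at this ⊢
    linear_combination this
  rcases mul_eq_zero.mp h3 with h4 | h4
  · exact hB.ιπ_ne h4
  · have h5 : ι (d * (π * d) * c₃) = ι 1 := by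
      rw [map_one]
      exact (sub_eq_zero.mp h4).symm
    have h6 := congrArg r (hB.inj h5)
    rw [map_mul, map_mul, map_mul, hB.rπ, map_one] at h6
    simp at h6

/-- **(V-σ) = `hσV`**: an automorphism of the coefficients which preserves `A`, is trivial on the
residue field and moves the uniformizer by a unit preserves the vertical valuation:
`v (σ f / f) = 1`. -/
theorem vtSub_valuation_div_eq_one {s : E →+* E} (hc : VtCompat ι r ι r s (RingHom.id k))
    (hsπ : ∃ c : A, s (ι π) = ι π * ι c ∧ r c ≠ 0)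
    (sF : F →+* F) (hsF : ∀ x, e (sF x) = coeffMap s (e x)) {f : F} (hf : f ≠ 0) :
    (vtSub hB e hfrac).valuation (sF f / f) = 1 := by
  rw [vtSub_valuation_eq_one_iff, map_div₀, hsF]
  obtain ⟨c, hcπ, hrc⟩ := hsπ
  have hef : e f ≠ 0 := (map_ne_zero e).mpr hf
  have hCπ := hB.Cιπ_ne
  -- the claim for elements of the form `π ^ d * u`
  have key : ∀ (d : ℕ) (u : LaurentSeries E), VtUnit ι r u →
      VtUnit ι r (coeffMap s (HahnSeries.C (ι π) ^ d * u) / (HahnSeries.C (ι π) ^ d * u)) := by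
    intro d u hu
    have hu0 := hu.ne_zero hB.inj
    have h1 : coeffMap s (HahnSeries.C (ι π) ^ d * u) / (HahnSeries.C (ι π) ^ d * u) =
        HahnSeries.C (ι c) ^ d * (coeffMap s u / u) := by
      rw [map_mul, map_pow, coeffMap_hahnC, hcπ, map_mul, mul_pow, div_eq_iff
        (mul_ne_zero (pow_ne_zero _ hCπ) hu0)]
      have h2 : coeffMap s u / u * u = coeffMap s u := div_mul_cancel₀ _ hu0
      linear_combination (-(HahnSeries.C (ι π) ^ d * HahnSeries.C (ι c) ^ d)) * h2
    rw [h1]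
    exact ((vtUnit_C hrc).pow d).mul ((hu.compat hc).div hB.inj hu)
  obtain ⟨d, u, hu, h | h⟩ := vt_exists_pow_mul hB hef (hfrac f)
  · rw [h]
    exact key d u hu
  · have h2 := (key d u hu).inv hB.inj
    rw [← h, map_inv₀, inv_div_inv, inv_div] at h2
    exact h2

end Inertia

section SS1

variable {F F' : Type*} [Field F] [Field F']

/-- **(V-SS1′), abstract form.**  `β : F → F'` the base change of the function fields, `V₁, V₂`
the two vertical valuation rings of `F` and `V₁', V₂'` those of `F'` (restricting to `V₁, V₂`),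
`R ⊆ F`, `R' ⊆ F'` the charts, `R' = R + α R'` (U8 / MG-4), `α ∣ q` in `R'`.  If
`𝔪(V₁) ∩ 𝔪(V₂) ∩ R = q R` ((SS1) over the unramified base), then
`𝔪(V₁') ∩ 𝔪(V₂') ∩ R' = α R'`. -/
theorem vt_ss1_baseChange (β : F →+* F') (V₁ V₂ : ValuationSubring F)
    (V₁' V₂' : ValuationSubring F') (h₁ : V₁'.comap β = V₁) (h₂ : V₂'.comap β = V₂)
    (R : Set F) (R' : Set F') (α : F') (q : F)
    (hα₁ : α ∈ V₁'.nonunits) (hα₂ : α ∈ V₂'.nonunits)
    (hR'₁ : ∀ x ∈ R', x ∈ V₁') (hR'₂ : ∀ x ∈ R', x ∈ V₂')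
    (hdec : ∀ x ∈ R', ∃ c ∈ R, ∃ z ∈ R', x = β c + α * z)
    (hq : ∀ d ∈ R, ∃ z ∈ R', β (q * d) = α * z)
    (hadd : ∀ x ∈ R', ∀ y ∈ R', x + y ∈ R')
    (hSS1 : ∀ c ∈ R, c ∈ V₁.nonunits → c ∈ V₂.nonunits → ∃ d ∈ R, c = q * d) :
    ∀ x ∈ R', x ∈ V₁'.nonunits → x ∈ V₂'.nonunits → ∃ y ∈ R', x = α * y := by
  intro x hx hx₁ hx₂
  obtain ⟨c, hc, z, hz, rfl⟩ := hdec x hx
  have e1 : β c = (β c + α * z) - α * z := by ring
  have hc₁ : c ∈ V₁.nonunits := by
    rw [← h₁, vt_mem_nonunits_comap, e1]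
    refine vt_sub_mem_nonunits _ hx₁ ?_
    rw [mul_comm]
    exact vt_mul_mem_nonunits _ (hR'₁ z hz) hα₁
  have hc₂ : c ∈ V₂.nonunits := by
    rw [← h₂, vt_mem_nonunits_comap, e1]
    refine vt_sub_mem_nonunits _ hx₂ ?_
    rw [mul_comm]
    exact vt_mul_mem_nonunits _ (hR'₂ z hz) hα₂
  obtain ⟨d, hd, rfl⟩ := hSS1 c hc hc₁ hc₂
  obtain ⟨z', hz', hqz⟩ := hq d hd
  exact ⟨z' + z, hadd _ hz' _ hz, by rw [hqz]; ring⟩

end SS1

end Fermat.Agent.UNIP

end
end ZBINJ_003_6

/-! ### bundled: `Fermat.Agent.UNIP.NodesGauss` -/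
section ZBINJ_003_7

/-!
# UNIP U5-α1, Gauss part: the Gauss valuation ring of a subfield of `Frac A((q)) ⊆ E((q))`

Base: `A` a domain with well-founded divisibility, `E = Frac A`, `r : A →+* k`,
`GaussBase r π` (`π ≠ 0`, `π` not a unit, `ker r = (π)`).

* `gaussFracField A` : the fraction field of `A((q))` inside `E((q))` (an intermediate field of
  `E((q))/E`);
* `nodes_exists_normalized` : a nonzero series over `A` is `π ^ n · T'` with `T'` of nonzero
  reduction;
* `nodes_mem_or_inv_mem` : for `x ∈ gaussFracField A`, `x` or `x⁻¹` lies in the Gauss ring;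
* `gaussVS hB F hF : ValuationSubring F` for an intermediate field `F ≤ gaussFracField A`
  (`F ∩ gaussRing`), with `mem_gaussVS`, `mem_nonunits_gaussVS` (nonunits = kernel of `gaussRed`);
* `gaussVS_isDiscreteValuationRing` : it is a discrete valuation ring (uniformizer `π`).
-/

set_option autoImplicit false

noncomputable section

namespace Fermat.Agent.UNIP

open ModularCurve Fermat.Agent.INJ

section Frac

variable (A : Type*) {E : Type*} [CommRing A] [IsDomain A] [Field E] [Algebra A E]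
  [IsFractionRing A E]

/-- `x ∈ E((q))` is a quotient of two series over `A`. -/
def IsGaussFrac (x : LaurentSeries E) : Prop :=
  ∃ T b : LaurentSeries A, b ≠ 0 ∧
    coeffMap (algebraMap A E) b * x = coeffMap (algebraMap A E) T

variable {A}

omit [IsDomain A] in
theorem nodes_coeffMap_ne_zero {b : LaurentSeries A} (hb : b ≠ 0) :
    coeffMap (algebraMap A E) b ≠ 0 := by
  intro h0
  apply hb
  exact coeffMap_inj_of_injective _ (IsFractionRing.injective A E) (by rw [h0, map_zero])

variable (A)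

/-- The fraction field of `A((q))` inside `E((q))`. -/
def gaussFracField : IntermediateField E (LaurentSeries E) where
  carrier := {x | IsGaussFrac A x}
  mul_mem' := by
    rintro x y ⟨T, b, hb, h⟩ ⟨T', b', hb', h'⟩
    refine ⟨T * T', b * b', mul_ne_zero hb hb', ?_⟩
    rw [map_mul, map_mul, ← h, ← h']; ring
  one_mem' := ⟨1, 1, one_ne_zero, by simp⟩
  add_mem' := by
    rintro x y ⟨T, b, hb, h⟩ ⟨T', b', hb', h'⟩
    refine ⟨T * b' + T' * b, b * b', mul_ne_zero hb hb', ?_⟩
    rw [map_mul, map_add, map_mul, map_mul, ← h, ← h']; ring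
  zero_mem' := ⟨0, 1, one_ne_zero, by simp⟩
  algebraMap_mem' := by
    intro e
    obtain ⟨a, b, hb, hab⟩ := IsFractionRing.div_surjective (A := A) e
    have hb0 : b ≠ 0 := nonZeroDivisors.ne_zero hb
    refine ⟨(HahnSeries.C a : LaurentSeries A), (HahnSeries.C b : LaurentSeries A), ?_, ?_⟩
    · intro h0
      apply hb0
      have := congrArg (fun z : LaurentSeries A => z.coeff 0) h0
      simpa using this
    · rw [coeffMap_hahnC, coeffMap_hahnC, ← hab]
      have hbE : algebraMap A E b ≠ 0 := by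
        intro h0
        exact hb0 ((IsFractionRing.injective A E) (by rw [h0, map_zero]))
      rw [Fermat.Agent.S28.redDVR_algebraMap_eq_single, ← HahnSeries.C_apply, ← map_mul,
        mul_div_cancel₀ _ hbE]
  inv_mem' := by
    rintro x ⟨T, b, hb, h⟩
    by_cases hT : T = 0
    · have hx : x = 0 := by
        rw [hT, map_zero] at h
        exact (mul_eq_zero.mp h).resolve_left (nodes_coeffMap_ne_zero hb)
      rw [hx, inv_zero]
      exact ⟨0, 1, one_ne_zero, by simp⟩
    · have hx : x ≠ 0 := by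
        intro h0
        rw [h0, mul_zero] at h
        exact nodes_coeffMap_ne_zero hT h.symm
      refine ⟨b, T, hT, ?_⟩
      rw [← h]
      field_simp

theorem mem_gaussFracField {x : LaurentSeries E} : x ∈ gaussFracField A ↔ IsGaussFrac A x :=
  Iff.rfl

theorem coeffMap_mem_gaussFracField (T : LaurentSeries A) :
    coeffMap (algebraMap A E) T ∈ gaussFracField A :=
  ⟨T, 1, one_ne_zero, by simp⟩

/-- An intermediate field generated by series over `A` lies in `gaussFracField A`. -/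
theorem adjoin_le_gaussFracField (S : Set (LaurentSeries E))
    (hS : ∀ x ∈ S, ∃ T : LaurentSeries A, coeffMap (algebraMap A E) T = x) :
    IntermediateField.adjoin E S ≤ gaussFracField A := by
  rw [IntermediateField.adjoin_le_iff]
  intro x hx
  obtain ⟨T, rfl⟩ := hS x hx
  exact coeffMap_mem_gaussFracField A T

end Frac

section Norm

variable {A E k : Type*} [CommRing A] [IsDomain A] [Field E] [Algebra A E]
  [IsFractionRing A E] [Field k] (r : A →+* k) (π : A)

/-- The standing hypotheses on the base `(A, π, r)`: `π` is a nonzero nonunit generating the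
kernel of the residue map `r`. -/
structure GaussBase : Prop where
  ne_zero : π ≠ 0
  not_unit : ¬ IsUnit π
  ker : ∀ a, r a = 0 → π ∣ a
  map_pi : r π = 0

variable {r π}

omit [IsDomain A] in
theorem nodes_coeff_C_mul (a : A) (T : LaurentSeries A) (m : ℤ) :
    (HahnSeries.C a * T).coeff m = a * T.coeff m := by
  rw [HahnSeries.C_mul_eq_smul, HahnSeries.coeff_smul, smul_eq_mul]

omit [IsDomain A] in
theorem nodes_exists_normalized_aux (hB : GaussBase r π) :
    ∀ (N : ℕ) (T : LaurentSeries A), (∃ m, ¬ π ^ (N + 1) ∣ T.coeff m) →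
      ∃ (n : ℕ) (T' : LaurentSeries A), coeffMap r T' ≠ 0 ∧ T = HahnSeries.C (π ^ n) * T' := by
  intro N
  induction N with
  | zero =>
    rintro T ⟨m, hm⟩
    refine ⟨0, T, ?_, by simp⟩
    intro h0
    apply hm
    have h1 := congrArg (fun z : LaurentSeries k => z.coeff m) h0
    simp only [coeffMap_coeff, HahnSeries.coeff_zero] at h1
    simpa using hB.ker _ h1
  | succ N ih =>
    rintro T ⟨m, hm⟩
    by_cases h0 : coeffMap r T = 0
    · obtain ⟨T₁, hT₁⟩ := exists_eq_C_mul_of_coeffMap_eq_zero r hB.ker T h0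
      have hm' : ¬ π ^ (N + 1) ∣ T₁.coeff m := by
        intro hdvd
        apply hm
        rw [hT₁, nodes_coeff_C_mul, pow_succ']
        exact mul_dvd_mul_left π hdvd
      obtain ⟨n, T', hT', hn⟩ := ih T₁ ⟨m, hm'⟩
      refine ⟨n + 1, T', hT', ?_⟩
      rw [hT₁, hn, pow_succ', map_mul, mul_assoc]
    · exact ⟨0, T, h0, by simp⟩

/-- **Normalisation**: a nonzero series over `A` is `π ^ n` times a series with nonzero
reduction. -/
theorem nodes_exists_normalized [WfDvdMonoid A] (hB : GaussBase r π) {T : LaurentSeries A}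
    (hT : T ≠ 0) :
    ∃ (n : ℕ) (T' : LaurentSeries A), coeffMap r T' ≠ 0 ∧ T = HahnSeries.C (π ^ n) * T' := by
  obtain ⟨m, hm⟩ : ∃ m, T.coeff m ≠ 0 := by
    by_contra h
    push Not at h
    exact hT (HahnSeries.ext (funext h))
  obtain ⟨N, hN⟩ := FiniteMultiplicity.of_not_isUnit hB.not_unit hm
  exact nodes_exists_normalized_aux hB N T ⟨m, hN⟩

/-- The constant `π` of `E((q))`. -/
abbrev gaussPi (E : Type*) [Field E] [Algebra A E] (π : A) : LaurentSeries E :=
  HahnSeries.C (algebraMap A E π)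

omit [IsDomain A] in
theorem gaussPi_ne_zero (hB : GaussBase r π) : gaussPi E π ≠ 0 := by
  intro h0
  have h1 := congrArg (fun z : LaurentSeries E => z.coeff 0) h0
  have h2 : algebraMap A E π = 0 := by simpa [gaussPi] using h1
  exact hB.ne_zero ((IsFractionRing.injective A E) (by rw [h2, map_zero]))

omit [IsDomain A] [IsFractionRing A E] in
theorem gaussPi_mem_gaussRing : gaussPi E π ∈ gaussRing (algebraMap A E) r :=
  hahnC_mem_gaussRing r π

omit [IsDomain A] in
theorem gaussRed_gaussPi (hB : GaussBase r π) :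
    gaussRed r (IsFractionRing.injective A E) ⟨gaussPi E π, gaussPi_mem_gaussRing⟩ = 0 := by
  rw [gaussRed_eq_zero_iff_dvd r (IsFractionRing.injective A E) hB.map_pi hB.ker]
  exact ⟨1, by simp [gaussPi]⟩

/-- **Normal form** of a nonzero element of `Frac A((q))`: `π ^ n · x = π ^ m · u` with `u` a unit
of the Gauss ring. -/
theorem nodes_exists_pow_mul [WfDvdMonoid A] (hB : GaussBase r π) {x : LaurentSeries E}
    (hx : IsGaussFrac A x) (hx0 : x ≠ 0) :
    ∃ (m n : ℕ) (u : gaussRing (algebraMap A E) r),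
      gaussRed r (IsFractionRing.injective A E) u ≠ 0 ∧
        gaussPi E π ^ n * x = gaussPi E π ^ m * (u : LaurentSeries E) := by
  obtain ⟨T, b, hb, h⟩ := hx
  have hT : T ≠ 0 := by
    rintro rfl
    rw [map_zero] at h
    exact hx0 ((mul_eq_zero.mp h).resolve_left (nodes_coeffMap_ne_zero hb))
  obtain ⟨n, b', hb', hbn⟩ := nodes_exists_normalized hB hb
  obtain ⟨m, T', hT', hTm⟩ := nodes_exists_normalized hB hT
  have hb'E : coeffMap (algebraMap A E) b' ≠ 0 := by
    apply nodes_coeffMap_ne_zero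
    rintro rfl
    exact hb' (map_zero _)
  have hu : coeffMap (algebraMap A E) T' / coeffMap (algebraMap A E) b' ∈
      gaussRing (algebraMap A E) r := ⟨T', b', hb', by field_simp⟩
  refine ⟨m, n, ⟨_, hu⟩, ?_, ?_⟩
  · rw [gaussRed_eq r (IsFractionRing.injective A E) ⟨_, hu⟩ T' b' hb' (by field_simp)]
    exact div_ne_zero hT' hb'
  · show gaussPi E π ^ n * x =
      gaussPi E π ^ m * (coeffMap (algebraMap A E) T' / coeffMap (algebraMap A E) b')
    rw [hbn, hTm, map_mul, map_mul, coeffMap_hahnC, coeffMap_hahnC, map_pow, map_pow,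
      map_pow, map_pow] at h
    rw [mul_div_assoc', eq_div_iff hb'E, ← h]
    show HahnSeries.C (algebraMap A E π) ^ n * x * _ = _
    ring

/-- For `x ∈ Frac A((q))`, `x` or `x⁻¹` lies in the Gauss ring. -/
theorem nodes_mem_or_inv_mem [WfDvdMonoid A] (hB : GaussBase r π) {x : LaurentSeries E}
    (hx : IsGaussFrac A x) :
    x ∈ gaussRing (algebraMap A E) r ∨ x⁻¹ ∈ gaussRing (algebraMap A E) r := by
  by_cases hx0 : x = 0
  · left; rw [hx0]; exact zero_mem _
  obtain ⟨m, n, u, hu, h⟩ := nodes_exists_pow_mul hB hx hx0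
  have hπ := gaussPi_ne_zero (E := E) hB
  have hu0 : (u : LaurentSeries E) ≠ 0 := by
    intro h0
    apply hu
    have : u = 0 := Subtype.ext h0
    rw [this, map_zero]
  rcases le_total n m with hnm | hmn
  · left
    obtain ⟨d, rfl⟩ := Nat.exists_eq_add_of_le hnm
    have hx' : x = gaussPi E π ^ d * (u : LaurentSeries E) := by
      apply mul_left_cancel₀ (pow_ne_zero n hπ)
      rw [h, pow_add]; ring
    rw [hx']
    exact mul_mem (pow_mem gaussPi_mem_gaussRing d) u.2
  · right
    obtain ⟨d, rfl⟩ := Nat.exists_eq_add_of_le hmn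
    have hx' : x⁻¹ = gaussPi E π ^ d * (u : LaurentSeries E)⁻¹ := by
      rw [pow_add] at h
      have h2 : gaussPi E π ^ d * x = (u : LaurentSeries E) := by
        apply mul_left_cancel₀ (pow_ne_zero m hπ)
        rw [← h]; ring
      rw [← h2, mul_inv]
      field_simp
    rw [hx']
    exact mul_mem (pow_mem gaussPi_mem_gaussRing d)
      (inv_mem_gaussRing r (IsFractionRing.injective A E) u hu)

/-- A nonzero element of the Gauss ring inside `Frac A((q))` is `π ^ d · u`, `u` a unit of the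
Gauss ring. -/
theorem nodes_exists_pow_mul_of_mem [WfDvdMonoid A] (hB : GaussBase r π) {x : LaurentSeries E}
    (hx : IsGaussFrac A x) (hx0 : x ≠ 0) (hxg : x ∈ gaussRing (algebraMap A E) r) :
    ∃ (d : ℕ) (u : gaussRing (algebraMap A E) r),
      gaussRed r (IsFractionRing.injective A E) u ≠ 0 ∧
        x = gaussPi E π ^ d * (u : LaurentSeries E) := by
  obtain ⟨m, n, u, hu, h⟩ := nodes_exists_pow_mul hB hx hx0
  have hπ := gaussPi_ne_zero (E := E) hB
  rcases le_total n m with hnm | hmn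
  · obtain ⟨d, rfl⟩ := Nat.exists_eq_add_of_le hnm
    refine ⟨d, u, hu, ?_⟩
    apply mul_left_cancel₀ (pow_ne_zero n hπ)
    rw [h, pow_add]; ring
  · obtain ⟨d, rfl⟩ := Nat.exists_eq_add_of_le hmn
    rw [pow_add] at h
    have h2 : gaussPi E π ^ d * x = (u : LaurentSeries E) := by
      apply mul_left_cancel₀ (pow_ne_zero m hπ)
      rw [← h]; ring
    rcases Nat.eq_zero_or_pos d with rfl | hd
    · exact ⟨0, u, hu, by rw [← h2]; simp⟩
    · exfalso
      apply hu
      have h3 : u = ⟨gaussPi E π, gaussPi_mem_gaussRing⟩ ^ d * ⟨x, hxg⟩ := Subtype.ext h2.symm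
      rw [h3, map_mul, map_pow, gaussRed_gaussPi hB, zero_pow hd.ne', zero_mul]

end Norm

section VS

variable {A E k : Type*} [CommRing A] [IsDomain A] [WfDvdMonoid A] [Field E] [Algebra A E]
  [IsFractionRing A E] [Field k] {r : A →+* k} {π : A}

/-- The Gauss valuation ring `F ∩ gaussRing` of an intermediate field `F ≤ Frac A((q))`. -/
def gaussVS (hB : GaussBase r π) (F : IntermediateField E (LaurentSeries E))
    (hF : F ≤ gaussFracField A) : ValuationSubring F where
  toSubring := (gaussRing (algebraMap A E) r).comap (algebraMap F (LaurentSeries E))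
  mem_or_inv_mem' := by
    intro x
    rcases nodes_mem_or_inv_mem hB (hF x.2) with h | h
    · left; exact h
    · right
      show algebraMap F (LaurentSeries E) x⁻¹ ∈ gaussRing (algebraMap A E) r
      rw [map_inv₀]; exact h

variable (hB : GaussBase r π) (F : IntermediateField E (LaurentSeries E))
  (hF : F ≤ gaussFracField A)

theorem mem_gaussVS {x : F} :
    x ∈ gaussVS hB F hF ↔ (x : LaurentSeries E) ∈ gaussRing (algebraMap A E) r := Iff.rfl

/-- The reduction map on the Gauss valuation ring of `F`. -/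
def gaussVSRed : gaussVS hB F hF →+* LaurentSeries k :=
  (gaussRed r (IsFractionRing.injective A E)).comp
    (((algebraMap F (LaurentSeries E)).comp (gaussVS hB F hF).subtype).codRestrict
      (gaussRing (algebraMap A E) r) (fun x => x.2))

theorem gaussVSRed_apply (x : gaussVS hB F hF) :
    gaussVSRed hB F hF x =
      gaussRed r (IsFractionRing.injective A E) ⟨((x : F) : LaurentSeries E), x.2⟩ := rfl

/-- Units of the Gauss valuation ring = elements with nonzero reduction. -/
theorem isUnit_gaussVS_iff (x : gaussVS hB F hF) :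
    IsUnit x ↔ gaussVSRed hB F hF x ≠ 0 := by
  constructor
  · rintro ⟨u, rfl⟩
    intro h0
    have h1 : gaussVSRed hB F hF (u * u⁻¹ : (gaussVS hB F hF)ˣ) = 1 := by
      rw [mul_inv_cancel, Units.val_one, map_one]
    rw [Units.val_mul, map_mul, h0, zero_mul] at h1
    exact zero_ne_one h1
  · intro hx
    have hinv : ((x : F)⁻¹ : F) ∈ gaussVS hB F hF := by
      rw [mem_gaussVS]
      have := inv_mem_gaussRing r (IsFractionRing.injective A E)
        ⟨((x : F) : LaurentSeries E), x.2⟩ hx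
      simpa using this
    have hx0 : (x : F) ≠ 0 := by
      intro h0
      apply hx
      have : x = 0 := Subtype.ext h0
      rw [this, map_zero]
    exact ⟨⟨x, ⟨(x : F)⁻¹, hinv⟩, Subtype.ext (mul_inv_cancel₀ hx0),
      Subtype.ext (inv_mul_cancel₀ hx0)⟩, rfl⟩

/-- Nonunits of the Gauss valuation ring = kernel of the reduction. -/
theorem mem_nonunits_gaussVS {x : F} :
    x ∈ (gaussVS hB F hF).nonunits ↔
      ∃ hx : (x : LaurentSeries E) ∈ gaussRing (algebraMap A E) r,
        gaussRed r (IsFractionRing.injective A E) ⟨(x : LaurentSeries E), hx⟩ = 0 := by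
  rw [ValuationSubring.mem_nonunits_iff_exists_mem_maximalIdeal]
  constructor
  · rintro ⟨hx, hm⟩
    refine ⟨hx, ?_⟩
    by_contra h0
    exact (IsLocalRing.mem_maximalIdeal _).mp hm ((isUnit_gaussVS_iff hB F hF ⟨x, hx⟩).mpr h0)
  · rintro ⟨hx, h0⟩
    refine ⟨hx, (IsLocalRing.mem_maximalIdeal _).mpr ?_⟩
    intro hu
    exact (isUnit_gaussVS_iff hB F hF ⟨x, hx⟩).mp hu h0

/-- The uniformizer `π` of the Gauss valuation ring. -/
def gaussVSPi : gaussVS hB F hF :=
  ⟨algebraMap E F (algebraMap A E π), by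
    rw [mem_gaussVS]
    have : ((algebraMap E F (algebraMap A E π) : F) : LaurentSeries E) = gaussPi E π := by
      show algebraMap E (LaurentSeries E) (algebraMap A E π) = _
      rw [Fermat.Agent.S28.redDVR_algebraMap_eq_single, ← HahnSeries.C_apply]
    rw [this]
    exact gaussPi_mem_gaussRing⟩

theorem coe_gaussVSPi :
    (((gaussVSPi hB F hF : gaussVS hB F hF) : F) : LaurentSeries E) = gaussPi E π := by
  show algebraMap E (LaurentSeries E) (algebraMap A E π) = _
  rw [Fermat.Agent.S28.redDVR_algebraMap_eq_single, ← HahnSeries.C_apply]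

theorem gaussVSRed_gaussVSPi : gaussVSRed hB F hF (gaussVSPi hB F hF) = 0 := by
  rw [gaussVSRed_apply]
  have h := gaussRed_gaussPi (E := E) hB
  rw [← h]
  congr 1
  exact Subtype.ext (coe_gaussVSPi hB F hF)

/-- The kernel of the reduction is generated by `π`. -/
theorem gaussVSRed_eq_zero_iff (x : gaussVS hB F hF) :
    gaussVSRed hB F hF x = 0 ↔ gaussVSPi hB F hF ∣ x := by
  constructor
  · intro h0
    rw [gaussVSRed_apply,
      gaussRed_eq_zero_iff_dvd r (IsFractionRing.injective A E) hB.map_pi hB.ker] at h0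
    obtain ⟨y, hy⟩ := h0
    have hπ0 : (gaussVSPi hB F hF : F) ≠ 0 := by
      intro h0
      have h1 := coe_gaussVSPi hB F hF
      rw [h0] at h1
      exact gaussPi_ne_zero (E := E) hB h1.symm
    have hyF : ((x : F) / (gaussVSPi hB F hF : F) : F) ∈ gaussVS hB F hF := by
      rw [mem_gaussVS]
      have : (((x : F) / (gaussVSPi hB F hF : F) : F) : LaurentSeries E) = y := by
        push_cast
        rw [coe_gaussVSPi, div_eq_iff (gaussPi_ne_zero hB), mul_comm]
        exact hy
      rw [this]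
      exact y.2
    exact ⟨⟨_, hyF⟩, Subtype.ext (by
      show (x : F) = (gaussVSPi hB F hF : F) * ((x : F) / (gaussVSPi hB F hF : F))
      rw [mul_div_cancel₀ _ hπ0])⟩
  · rintro ⟨y, rfl⟩
    rw [map_mul, gaussVSRed_gaussVSPi, zero_mul]

theorem gaussVSPi_ne_zero : gaussVSPi hB F hF ≠ 0 := by
  intro h0
  have h1 := coe_gaussVSPi hB F hF
  rw [h0] at h1
  exact gaussPi_ne_zero (E := E) hB h1.symm

theorem not_isUnit_gaussVSPi : ¬ IsUnit (gaussVSPi hB F hF) := by
  rw [isUnit_gaussVS_iff, not_not]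
  exact gaussVSRed_gaussVSPi hB F hF

theorem irreducible_gaussVSPi : Irreducible (gaussVSPi hB F hF) := by
  rw [irreducible_iff]
  refine ⟨not_isUnit_gaussVSPi hB F hF, ?_⟩
  intro a b hab
  by_contra hcon
  push Not at hcon
  obtain ⟨ha, hb⟩ := hcon
  rw [isUnit_gaussVS_iff, not_not, gaussVSRed_eq_zero_iff] at ha hb
  obtain ⟨a', rfl⟩ := ha
  obtain ⟨b', rfl⟩ := hb
  apply not_isUnit_gaussVSPi hB F hF
  have h1 : gaussVSPi hB F hF * 1 =
      gaussVSPi hB F hF * (gaussVSPi hB F hF * (a' * b')) := by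
    rw [mul_one]
    conv_lhs => rw [hab]
    ring
  have h2 := mul_left_cancel₀ (gaussVSPi_ne_zero hB F hF) h1
  exact IsUnit.of_mul_eq_one _ h2.symm

/-- **The Gauss valuation ring of `F` is a discrete valuation ring** (uniformizer `π`). -/
theorem gaussVS_isDiscreteValuationRing : IsDiscreteValuationRing (gaussVS hB F hF) := by
  apply IsDiscreteValuationRing.ofHasUnitMulPowIrreducibleFactorization
  refine ⟨gaussVSPi hB F hF, irreducible_gaussVSPi hB F hF, ?_⟩
  intro x hx
  have hx0 : ((x : F) : LaurentSeries E) ≠ 0 := by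
    intro h0
    apply hx
    apply Subtype.ext
    apply Subtype.ext
    exact h0
  obtain ⟨d, u, hu, hxu⟩ := nodes_exists_pow_mul_of_mem hB (hF (x : F).2) hx0 x.2
  have hπ := gaussPi_ne_zero (E := E) hB
  have huF : (u : LaurentSeries E) ∈ F := by
    have : (u : LaurentSeries E) = ((x : F) : LaurentSeries E) / gaussPi E π ^ d := by
      rw [eq_div_iff (pow_ne_zero d hπ), mul_comm]
      exact hxu.symm
    rw [this, ← coe_gaussVSPi hB F hF]
    exact div_mem (x : F).2 (pow_mem (gaussVSPi hB F hF : F).2 d)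
  let u' : gaussVS hB F hF := ⟨⟨(u : LaurentSeries E), huF⟩, u.2⟩
  have hu' : IsUnit u' := by
    rw [isUnit_gaussVS_iff]
    exact hu
  refine ⟨d, ?_⟩
  obtain ⟨w, hw⟩ := hu'
  refine ⟨w, ?_⟩
  rw [hw]
  apply Subtype.ext
  apply Subtype.ext
  show ((gaussVSPi hB F hF : F) : LaurentSeries E) ^ d * (u : LaurentSeries E) = _
  rw [coe_gaussVSPi, ← hxu]

end VS

end Fermat.Agent.UNIP

end
end ZBINJ_003_7

/-! ### bundled: `Fermat.Agent.STB.ToricTransferCore` -/
section ZBINJ_003_8

/-!
# STB-MG-t, generic core: the toric transfer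

`hB : VtBase ι r π` a discrete base (`ι : A₀ → E` the fraction field, `r : A₀ → k` the residue
map), `ψ : E →+* L` an embedding into a field with a valuation subring `AL` *compatible* with the
base:

* `(c1)` `ψ (ι a) ∈ AL`;
* `(c2)` `ψ (ι a) ∈ 𝔪_AL → r a = 0`;
* `(c3)` `ψ (ι π) ∈ 𝔪_AL`

(`AL` need not be discrete: `AL` is a valuation subring of `ℚ̄` in the application).

`stb_mgt_core` : if `x ∈ E((Q))` is a quotient of series over `A₀` and `ψ̂ x · y₂ = y₁` with
`y₁, y₂ ∈ L((Q))` `AL`-primitive and `y₁ ≡ y₂` modulo `𝔪_AL` (i.e. "`ψ̂ x` reduces to one"), then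
`x - 1` lies in the kernel of the reduction of the Gauss ring of the base.
-/

set_option autoImplicit false
set_option linter.unusedSectionVars false
set_option linter.style.haveILetI false

noncomputable section

namespace Fermat.Agent.STB

open ModularCurve Fermat.Agent.INJ Fermat.Agent.ES Fermat.Agent.UNIP

section Core

variable {A₀ E k : Type*} [CommRing A₀] [Field E] [Field k]
  {ι : A₀ →+* E} {r : A₀ →+* k} {π : A₀}
  {L : Type*} [Field L] {AL : ValuationSubring L} {ψ : E →+* L}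

/-- series over the base with nonzero reduction are `AL`-primitive -/
theorem stb_mgt_prim (h1 : ∀ a, ψ (ι a) ∈ AL) (h2 : ∀ a, ψ (ι a) ∈ AL.nonunits → r a = 0)
    {T : LaurentSeries A₀} (hT : coeffMap r T ≠ 0) :
    KronPrim AL (coeffMap ψ (coeffMap ι T)) := by
  refine ⟨fun n => ?_, ?_⟩
  · rw [coeffMap_coeff, coeffMap_coeff]
    exact h1 _
  · by_contra hcon
    push Not at hcon
    apply hT
    ext n
    rw [coeffMap_coeff, HahnSeries.coeff_zero]
    apply h2
    have := hcon n
    rwa [coeffMap_coeff, coeffMap_coeff] at this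

/-- series over the base are `AL`-integral -/
theorem stb_mgt_int (h1 : ∀ a, ψ (ι a) ∈ AL) (T : LaurentSeries A₀) :
    KronInt AL (coeffMap ψ (coeffMap ι T)) := fun n => by
  rw [coeffMap_coeff, coeffMap_coeff]
  exact h1 _

/-- a primitive series is not congruent to `0` -/
theorem stb_mgt_not_prim_of_congr_zero {f : LaurentSeries L} (hf : KronPrim AL f)
    (h0 : KronCongr AL f 0) : False := by
  obtain ⟨-, n, hn⟩ := hf
  apply hn
  have := h0 n
  rwa [HahnSeries.coeff_zero, sub_zero] at this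

/-- `f ≡ 0` and `g` integral ⇒ `f g ≡ 0` -/
theorem stb_mgt_congr_zero_mul {f g : LaurentSeries L} (hf : KronInt AL f) (hg : KronInt AL g)
    (h0 : KronCongr AL f 0) : KronCongr AL (f * g) 0 := by
  have h00 : KronInt AL (0 : LaurentSeries L) := fun n => by
    rw [HahnSeries.coeff_zero]
    exact AL.zero_mem
  have := KronCongr.mul hf h00 hg hg h0 (KronCongr.refl g)
  rwa [zero_mul] at this

/-- `y₁ ≡ y₂` ⇒ `y₁ - y₂ ≡ 0` -/
theorem stb_mgt_sub_congr_zero {y₁ y₂ : LaurentSeries L} (h : KronCongr AL y₁ y₂) :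
    KronCongr AL (y₁ - y₂) 0 := fun n => by
  rw [HahnSeries.coeff_zero, sub_zero, HahnSeries.coeff_sub]
  exact h n

theorem stb_mgt_int_sub {y₁ y₂ : LaurentSeries L} (h1 : KronInt AL y₁) (h2 : KronInt AL y₂) :
    KronInt AL (y₁ - y₂) := fun n => by
  rw [HahnSeries.coeff_sub]
  exact AL.sub_mem (h1 n) (h2 n)

/-- the constant series of an element of `AL` is integral -/
theorem stb_mgt_int_C {c : L} (hc : c ∈ AL) : KronInt AL (HahnSeries.C c : LaurentSeries L) :=
  fun n => by
    rw [HahnSeries.C_apply, HahnSeries.coeff_single]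
    split_ifs
    · exact hc
    · exact AL.zero_mem

/-- **Toric transfer, generic core.**  If `ψ̂ x` reduces to one at `AL`, then `x - 1` lies in the
kernel of the reduction of the Gauss ring of the base. -/
theorem stb_mgt_core (hB : VtBase ι r π) (h1 : ∀ a, ψ (ι a) ∈ AL)
    (h2 : ∀ a, ψ (ι a) ∈ AL.nonunits → r a = 0)
    {x : LaurentSeries E} (hx : VtFrac ι x) {y₁ y₂ : LaurentSeries L}
    (hy₁ : KronPrim AL y₁) (hy₂ : KronPrim AL y₂) (hc : KronCongr AL y₁ y₂)
    (hxy : coeffMap ψ x * y₂ = y₁) :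
    ∃ h : x - 1 ∈ gaussRing ι r, gaussRed r hB.inj ⟨x - 1, h⟩ = 0 := by
  have hδ : coeffMap ψ (x - 1) * y₂ = y₁ - y₂ := by
    rw [map_sub, map_one, sub_mul, one_mul, hxy]
  have hδ0 : KronCongr AL (y₁ - y₂) 0 := stb_mgt_sub_congr_zero hc
  have hδi : KronInt AL (y₁ - y₂) := stb_mgt_int_sub hy₁.1 hy₂.1
  have hz : VtFrac ι (x - 1) := by
    rw [sub_eq_add_neg]
    exact hx.add hB.inj VtFrac.one.neg
  by_cases hz0 : x - 1 = 0
  · refine ⟨by rw [hz0]; exact (gaussRing ι r).zero_mem, ?_⟩
    have : (⟨x - 1, by rw [hz0]; exact (gaussRing ι r).zero_mem⟩ : gaussRing ι r) = 0 :=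
      Subtype.ext hz0
    rw [this, map_zero]
  obtain ⟨d, u, ⟨T, b, hT, hb, hu⟩, h | h⟩ := vt_exists_pow_mul (r := r) hB hz0 hz
  · -- `x - 1 = π ^ d · u`
    rcases Nat.eq_zero_or_pos d with rfl | hd
    · exfalso
      rw [pow_zero, one_mul] at h
      rw [← h] at hu
      have hu' := congrArg (coeffMap ψ) hu
      rw [map_mul] at hu'
      have key : coeffMap ψ (coeffMap ι b) * (y₁ - y₂) = coeffMap ψ (coeffMap ι T) * y₂ := by
        rw [← hδ, ← hu']
        ring
      have hprim : KronPrim AL (coeffMap ψ (coeffMap ι T) * y₂) :=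
        (stb_mgt_prim h1 h2 hT).mul hy₂
      rw [← key, mul_comm] at hprim
      exact stb_mgt_not_prim_of_congr_zero hprim
        (stb_mgt_congr_zero_mul hδi (stb_mgt_int h1 b) hδ0)
    · obtain ⟨d', rfl⟩ : ∃ d', d = d' + 1 := ⟨d - 1, by omega⟩
      have hy : HahnSeries.C (ι π) ^ d' * u ∈ gaussRing ι r :=
        (gaussRing ι r).mul_mem ((gaussRing ι r).pow_mem (hahnC_mem_gaussRing r π) d')
          (VtUnit.mem ⟨T, b, hT, hb, hu⟩)
      have hxe : x - 1 = HahnSeries.C (ι π) * (HahnSeries.C (ι π) ^ d' * u) := by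
        rw [h, pow_succ]
        ring
      have hmem : x - 1 ∈ gaussRing ι r := by
        rw [hxe]
        exact (gaussRing ι r).mul_mem (hahnC_mem_gaussRing r π) hy
      refine ⟨hmem, ?_⟩
      rw [gaussRed_eq_zero_iff_dvd r hB.inj hB.rπ hB.ker]
      exact ⟨⟨_, hy⟩, hxe⟩
  · -- `(x - 1)⁻¹ = π ^ d · u` : impossible
    exfalso
    have h3 : (x - 1) * (HahnSeries.C (ι π) ^ d * u) = 1 := by
      rw [← h]
      exact mul_inv_cancel₀ hz0
    have h4 : coeffMap ι b = (x - 1) * (HahnSeries.C (ι π) ^ d * coeffMap ι T) := by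
      rw [← hu]
      linear_combination (-(coeffMap ι b)) * h3
    have h5 := congrArg (coeffMap ψ) h4
    rw [map_mul, map_mul, map_pow, coeffMap_hahnC] at h5
    have key : coeffMap ψ (coeffMap ι b) * y₂ =
        (y₁ - y₂) * (HahnSeries.C (ψ (ι π)) ^ d * coeffMap ψ (coeffMap ι T)) := by
      rw [← hδ, h5]
      ring
    have hprim : KronPrim AL (coeffMap ψ (coeffMap ι b) * y₂) :=
      (stb_mgt_prim h1 h2 hb).mul hy₂
    rw [key] at hprim
    exact stb_mgt_not_prim_of_congr_zero hprim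
      (stb_mgt_congr_zero_mul hδi
        (((stb_mgt_int_C (h1 π)).pow d).mul (stb_mgt_int h1 T)) hδ0)

end Core

end Fermat.Agent.STB

end
end ZBINJ_003_8

/-! ### bundled: `Fermat.Agent.S33.WildDeepCore` -/
section ZBINJ_003_9

/-!
# S33 v2, C4 / T5: the DEEP bridge, generic core

Twin of `STB/ToricTransferCore.lean` (`stb_mgt_core`) with depth.

`hB : VtBase ι r π` a discrete base (`ι : A₀ → E` the fraction field, `r : A₀ → k` the residue
map), `ψ : E →+* L` an embedding into a field with a valuation subring `AL` (not necessarily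
discrete) compatible with the base:

* `(c1)` `ψ (ι a) ∈ AL`;  `(c2)` `ψ (ι a) ∈ 𝔪_AL → r a = 0`;  `(c3)` `ψ (ι π) ∈ 𝔪_AL`.

`wdb_core` : if `x ∈ E((Q))` is a quotient of series over `A₀` and `ψ̂ x · y₂ = y₁` with
`y₁, y₂ ∈ L((Q))` `AL`-primitive and `y₁ ≡ y₂` modulo `ψ (ι d) · AL`, `d ∈ A₀`, `d ≠ 0`, then
`x - 1 = d · y` with `y` in the Gauss ring of the base.
-/

set_option autoImplicit false
set_option linter.unusedSectionVars false
set_option linter.unusedVariables false
set_option linter.style.haveILetI false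

noncomputable section

namespace Fermat.Agent.S33

open ModularCurve Fermat.Agent.INJ Fermat.Agent.ES Fermat.Agent.UNIP Fermat.Agent.STB

section Core

variable {A₀ E k : Type*} [CommRing A₀] [Field E] [Field k]
  {ι : A₀ →+* E} {r : A₀ →+* k} {π : A₀}
  {L : Type*} [Field L] {AL : ValuationSubring L} {ψ : E →+* L}

/-- every nonzero element of the base is `π ^ k` times an element with nonzero residue -/
theorem wdb_exists_prim (hB : VtBase ι r π) {d : A₀} (hd : d ≠ 0) :
    ∃ (k : ℕ) (d' : A₀), d = π ^ k * d' ∧ r d' ≠ 0 := by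
  obtain ⟨N, hN⟩ := hB.fin d hd
  induction N generalizing d with
  | zero => exact absurd (by rw [pow_zero]; exact one_dvd d) hN
  | succ N ih =>
      by_cases hr : r d = 0
      · obtain ⟨d₁, rfl⟩ := hB.ker d hr
        have hd₁ : d₁ ≠ 0 := by
          rintro rfl
          exact hd (mul_zero _)
        have hN₁ : ¬ π ^ N ∣ d₁ := by
          rintro ⟨c, rfl⟩
          apply hN
          exact ⟨c, by rw [pow_succ]; ring⟩
        obtain ⟨k, d', rfl, hd'⟩ := ih hd₁ hN₁
        exact ⟨k + 1, d', by rw [pow_succ]; ring, hd'⟩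
      · exact ⟨0, d, by rw [pow_zero, one_mul], hr⟩

/-- `c ∈ 𝔪_AL`, `W` integral ⇒ `c · W ≡ 0` -/
theorem wdb_congr_zero_C_mul {c : L} (hc : c ∈ AL.nonunits) {W : LaurentSeries L}
    (hW : KronInt AL W) : KronCongr AL (HahnSeries.C c * W) 0 := fun n => by
  rw [HahnSeries.coeff_zero, sub_zero, HahnSeries.C_mul_eq_smul, HahnSeries.coeff_smul,
    smul_eq_mul, ValuationSubring.mem_nonunits_iff, map_mul]
  exact mul_lt_one_of_nonneg_of_lt_one_left zero_le
    (AL.mem_nonunits_iff.1 hc) ((AL.valuation_le_one_iff _).2 (hW n))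

/-- `c ∈ 𝔪_AL`, `W` integral ⇒ `c ^ (j + 1) · W ≡ 0` -/
theorem wdb_congr_zero_C_pow_mul {c : L} (hc : c ∈ AL.nonunits) (hcA : c ∈ AL) (j : ℕ)
    {W : LaurentSeries L} (hW : KronInt AL W) :
    KronCongr AL (HahnSeries.C c ^ (j + 1) * W) 0 := by
  have e : (HahnSeries.C c : LaurentSeries L) ^ (j + 1) * W =
      HahnSeries.C c * (HahnSeries.C c ^ j * W) := by
    rw [pow_succ]
    ring
  rw [e]
  exact wdb_congr_zero_C_mul hc (((stb_mgt_int_C hcA).pow j).mul hW)

theorem wdb_C_ne_zero {c : L} (hc : c ≠ 0) : (HahnSeries.C c : LaurentSeries L) ≠ 0 := by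
  intro h
  apply hc
  have := congrArg (fun z : LaurentSeries L => z.coeff 0) h
  simpa using this

/-- **Deep bridge, generic core.** -/
theorem wdb_core (hB : VtBase ι r π) (h1 : ∀ a, ψ (ι a) ∈ AL)
    (h2 : ∀ a, ψ (ι a) ∈ AL.nonunits → r a = 0) (h3 : ψ (ι π) ∈ AL.nonunits)
    {d : A₀} (hd : d ≠ 0)
    {x : LaurentSeries E} (hx : VtFrac ι x) {y₁ y₂ : LaurentSeries L}
    (hy₁ : KronPrim AL y₁) (hy₂ : KronPrim AL y₂) (hc : NdaCongr AL (ψ (ι d)) y₁ y₂)
    (hxy : coeffMap ψ x * y₂ = y₁) :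
    ∃ y ∈ gaussRing ι r, x - 1 = HahnSeries.C (ι d) * y := by
  obtain ⟨k, d', rfl, hd'⟩ := wdb_exists_prim hB hd
  obtain ⟨δ, hδi, hδ⟩ := hc.exists_eq_add
  -- `ψ̂ (x - 1) · y₂ = π ^ k · (d' · δ)`
  have hCd : (HahnSeries.C (ψ (ι (π ^ k * d'))) : LaurentSeries L) =
      HahnSeries.C (ψ (ι π)) ^ k * HahnSeries.C (ψ (ι d')) := by
    rw [map_mul, map_mul, map_pow, map_pow, map_mul, map_pow]
  have hCd' : (HahnSeries.C (ι (π ^ k * d')) : LaurentSeries E) =
      HahnSeries.C (ι π) ^ k * HahnSeries.C (ι d') := by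
    rw [map_mul, map_pow, map_mul, map_pow]
  have hz : coeffMap ψ (x - 1) * y₂ =
      HahnSeries.C (ψ (ι π)) ^ k * (HahnSeries.C (ψ (ι d')) * δ) := by
    rw [map_sub, map_one, sub_mul, one_mul, hxy, hδ, hCd]
    ring
  have hd'i : KronInt AL (HahnSeries.C (ψ (ι d')) * δ) := (stb_mgt_int_C (h1 d')).mul hδi
  have hπ0 : ψ (ι π) ≠ 0 := (map_ne_zero ψ).mpr hB.ιπ_ne
  have hCπ : (HahnSeries.C (ψ (ι π)) : LaurentSeries L) ≠ 0 := wdb_C_ne_zero hπ0
  have hud' : VtUnit ι r (HahnSeries.C (ι d') : LaurentSeries E) := vtUnit_C hd'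
  have hCd'0 : (HahnSeries.C (ι d') : LaurentSeries E) ≠ 0 := hud'.ne_zero hB.inj
  have hfr : VtFrac ι (x - 1) := by
    rw [sub_eq_add_neg]
    exact hx.add hB.inj VtFrac.one.neg
  by_cases hz0 : x - 1 = 0
  · exact ⟨0, (gaussRing ι r).zero_mem, by rw [hz0, mul_zero]⟩
  obtain ⟨e, u, ⟨T, b, hT, hb, hu⟩, h | h⟩ := vt_exists_pow_mul (r := r) hB hz0 hfr
  · -- `x - 1 = π ^ e · u`
    have h4 : coeffMap ι b * (x - 1) = HahnSeries.C (ι π) ^ e * coeffMap ι T := by
      rw [h, ← hu]
      ring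
    have h5 := congrArg (coeffMap ψ) h4
    rw [map_mul, map_mul, map_pow, coeffMap_hahnC] at h5
    have key : HahnSeries.C (ψ (ι π)) ^ k *
        (coeffMap ψ (coeffMap ι b) * (HahnSeries.C (ψ (ι d')) * δ)) =
        HahnSeries.C (ψ (ι π)) ^ e * (coeffMap ψ (coeffMap ι T) * y₂) := by
      have : coeffMap ψ (coeffMap ι b) * (coeffMap ψ (x - 1) * y₂) =
          HahnSeries.C (ψ (ι π)) ^ e * (coeffMap ψ (coeffMap ι T) * y₂) := by
        rw [← mul_assoc, h5]
        ring
      rw [← this, hz]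
      ring
    have hprim : KronPrim AL (coeffMap ψ (coeffMap ι T) * y₂) :=
      (stb_mgt_prim h1 h2 hT).mul hy₂
    have hWi : KronInt AL (coeffMap ψ (coeffMap ι b) * (HahnSeries.C (ψ (ι d')) * δ)) :=
      (stb_mgt_int h1 b).mul hd'i
    rcases lt_or_ge e k with hek | hek
    · exfalso
      obtain ⟨j, rfl⟩ : ∃ j, k = e + (j + 1) := ⟨k - e - 1, by omega⟩
      rw [pow_add, mul_assoc] at key
      have key' := mul_left_cancel₀ (pow_ne_zero e hCπ) key
      rw [← key'] at hprim
      exact stb_mgt_not_prim_of_congr_zero hprim (wdb_congr_zero_C_pow_mul h3 (h1 π) j hWi)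
    · obtain ⟨j, rfl⟩ : ∃ j, e = k + j := ⟨e - k, by omega⟩
      refine ⟨(HahnSeries.C (ι d'))⁻¹ * (HahnSeries.C (ι π) ^ j * u), ?_, ?_⟩
      · exact (gaussRing ι r).mul_mem (hud'.inv hB.inj).mem
          ((gaussRing ι r).mul_mem ((gaussRing ι r).pow_mem (hahnC_mem_gaussRing r π) j)
            (VtUnit.mem ⟨T, b, hT, hb, hu⟩))
      · rw [h, hCd', pow_add]
        field_simp
  · -- `(x - 1)⁻¹ = π ^ e · u`
    have h3' : (x - 1) * (HahnSeries.C (ι π) ^ e * u) = 1 := by
      rw [← h]
      exact mul_inv_cancel₀ hz0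
    have h4 : coeffMap ι b = (x - 1) * (HahnSeries.C (ι π) ^ e * coeffMap ι T) := by
      rw [← hu]
      linear_combination (-(coeffMap ι b)) * h3'
    have h5 := congrArg (coeffMap ψ) h4
    rw [map_mul, map_mul, map_pow, coeffMap_hahnC] at h5
    have key : coeffMap ψ (coeffMap ι b) * y₂ =
        HahnSeries.C (ψ (ι π)) ^ (k + e) *
          (HahnSeries.C (ψ (ι d')) * δ * coeffMap ψ (coeffMap ι T)) := by
      have : coeffMap ψ (coeffMap ι b) * y₂ =
          (coeffMap ψ (x - 1) * y₂) * (HahnSeries.C (ψ (ι π)) ^ e * coeffMap ψ (coeffMap ι T)) := by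
        rw [h5]
        ring
      rw [this, hz, pow_add]
      ring
    have hprim : KronPrim AL (coeffMap ψ (coeffMap ι b) * y₂) :=
      (stb_mgt_prim h1 h2 hb).mul hy₂
    have hWi : KronInt AL (HahnSeries.C (ψ (ι d')) * δ * coeffMap ψ (coeffMap ι T)) :=
      hd'i.mul (stb_mgt_int h1 T)
    rcases Nat.eq_zero_or_pos (k + e) with hke | hke
    · have hk : k = 0 := by omega
      have he : e = 0 := by omega
      subst hk he
      rw [pow_zero, one_mul] at h
      have hu' : VtUnit ι r (x - 1) := by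
        have := (VtUnit.inv hB.inj ⟨T, b, hT, hb, hu⟩ : VtUnit ι r u⁻¹)
        rwa [← h, inv_inv] at this
      refine ⟨(HahnSeries.C (ι d'))⁻¹ * (x - 1), ?_, ?_⟩
      · exact (gaussRing ι r).mul_mem (hud'.inv hB.inj).mem hu'.mem
      · rw [pow_zero, one_mul]
        field_simp
    · exfalso
      obtain ⟨j, hj⟩ : ∃ j, k + e = j + 1 := ⟨k + e - 1, by omega⟩
      rw [hj] at key
      rw [key] at hprim
      exact stb_mgt_not_prim_of_congr_zero hprim (wdb_congr_zero_C_pow_mul h3 (h1 π) j hWi)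

end Core

/-! ### Numerology: `(ζ - 1) ^ p · π ∣ p ^ 2` -/

section Num

variable {R : Type*} [CommRing R] [IsDomain R]

/-- `ζ` a primitive `p`-th root of unity, `p ≥ 3`, `π ∣ ζ - 1`  ⇒  `(ζ - 1) ^ p · π ∣ p ^ 2`. -/
theorem wdb_dvd_p_sq {p : ℕ} (hp3 : 3 ≤ p) {ζ π : R} (hζ : IsPrimitiveRoot ζ p)
    (hlam : π ∣ ζ - 1) : (ζ - 1) ^ p * π ∣ (p : R) ^ 2 := by
  obtain ⟨z, -, hz⟩ := hζ.self_sub_one_pow_dvd_order (k := p - 1) (by omega)
  obtain ⟨c, hc⟩ := hlam
  obtain ⟨j, rfl⟩ : ∃ j, p = j + 3 := ⟨p - 3, by omega⟩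
  have e1 : j + 3 - 1 = j + 2 := by omega
  rw [e1] at hz
  refine ⟨z ^ 2 * (ζ - 1) ^ j * c, ?_⟩
  rw [hz]
  have e2 : (ζ - 1) ^ (j + 3) * π * (z ^ 2 * (ζ - 1) ^ j * c) =
      z ^ 2 * (ζ - 1) ^ (j + 3) * (ζ - 1) ^ j * (π * c) := by ring
  rw [e2, ← hc]
  ring

end Num

/-! ### Valuation form -/

section Val

variable {A₀ E k : Type*} [CommRing A₀] [Field E] [Field k]
  {ι : A₀ →+* E} {r : A₀ →+* k} {π : A₀} {F : Type*} [Field F]
  (hB : VtBase ι r π) (e : F →+* LaurentSeries E) (hfrac : ∀ x : F, VtFrac ι (e x))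

/-- from `e x₀ - 1 = d · y`, `y` in the Gauss ring, to the valuation form -/
theorem wdb_vtSub {x₀ dF : F} {D : LaurentSeries E} (hD : e dF = D)
    (h : ∃ y ∈ gaussRing ι r, e x₀ - 1 = D * y) :
    (vtSub hB e hfrac).valuation (x₀ - 1) ≤ (vtSub hB e hfrac).valuation dF := by
  obtain ⟨y, hy, hxy⟩ := h
  by_cases hd0 : dF = 0
  · have : x₀ - 1 = 0 := by
      apply e.injective
      rw [map_sub, map_one, map_zero, hxy, ← hD, hd0, map_zero, zero_mul]
    rw [this, map_zero]
    exact zero_le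
  have hmem : (x₀ - 1) / dF ∈ vtSub hB e hfrac := by
    rw [mem_vtSub, map_div₀, map_sub, map_one, hxy, hD]
    have hD0 : D ≠ 0 := by
      rw [← hD]
      exact (map_ne_zero e).mpr hd0
    rw [mul_div_cancel_left₀ y hD0]
    exact hy
  have hle := ((vtSub hB e hfrac).valuation_le_one_iff _).2 hmem
  rw [map_div₀] at hle
  have hv0 : (vtSub hB e hfrac).valuation dF ≠ 0 :=
    (Valuation.ne_zero_iff _).2 hd0
  exact (div_le_one₀ (zero_lt_iff.2 hv0)).1 hle

end Val

end Fermat.Agent.S33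

end
end ZBINJ_003_9

/-! ### bundled: `Fermat.Agent.S36.N2ExtDVR` -/
section ZBINJ_003_10

/-!
# S36 / G-N2, piece N2-ext (helper19): the vertical valuation subring `vtSub` is a DVR

`vtSub hB e hfrac : ValuationSubring F` (UNIP/MGVertGauss) for an embedding
`e : F →+* E((Q))` and a constant `c : F` with `e c = π`:

* `s36n2e_vtSub_unif` : `𝔪(V) = c V`;
* `s36n2e_vtSub_decomp` : every nonzero `x ∈ V` is `c ^ d · u`, `u` a unit of `V`;
* `s36n2e_vtSub_isDVR` : `V` is a discrete valuation ring.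
-/

set_option autoImplicit false
set_option linter.unusedSectionVars false
set_option linter.style.haveILetI false

noncomputable section

namespace Fermat.Agent.S36

open Fermat.Agent.UNIP Fermat.Agent.INJ

variable {A E k : Type*} [CommRing A] [Field E] [Field k]
  {ι : A →+* E} {r : A →+* k} {π : A} {F : Type*} [Field F]
  (hB : VtBase ι r π) (e : F →+* LaurentSeries E) (hfrac : ∀ x : F, VtFrac ι (e x))

/-- every nonzero element of `V` is `c ^ d · u` with `u` a unit of `V` -/
theorem s36n2e_vtSub_decomp {c : F} (hc : e c = HahnSeries.C (ι π)) {x : F} (hx0 : x ≠ 0)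
    (hx : x ∈ vtSub hB e hfrac) :
    ∃ (d : ℕ) (u : F), (vtSub hB e hfrac).valuation u = 1 ∧ x = c ^ d * u := by
  have hex0 : e x ≠ 0 := (map_ne_zero e).mpr hx0
  have hc0 : c ≠ 0 := by
    intro h0
    have : e c = 0 := by rw [h0, map_zero]
    rw [hc] at this
    exact hB.Cιπ_ne this
  obtain ⟨d, u, hu, h | h⟩ := vt_exists_pow_mul hB hex0 (hfrac x)
  · refine ⟨d, x / c ^ d, ?_, ?_⟩
    · rw [vtSub_valuation_eq_one_iff, map_div₀, map_pow, hc, h,
        mul_div_cancel_left₀ _ (pow_ne_zero d hB.Cιπ_ne)]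
      exact hu
    · field_simp
  · -- `x⁻¹ ∈ V` as well, so `x` is a unit
    refine ⟨0, x, ?_, by rw [pow_zero, one_mul]⟩
    rw [vtSub_valuation_eq_one_iff]
    apply vtUnit_of_mem_of_inv_mem hB.inj hex0 hx
    rw [h]
    exact (gaussRing ι r).mul_mem ((gaussRing ι r).pow_mem (hahnC_mem_gaussRing r π) d) hu.mem

/-- `𝔪(V) = c V` -/
theorem s36n2e_vtSub_unif {c : F} (hc : e c = HahnSeries.C (ι π)) {x : F}
    (hx : x ∈ (vtSub hB e hfrac).nonunits) :
    ∃ y ∈ vtSub hB e hfrac, x = c * y := by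
  by_cases hx0 : x = 0
  · exact ⟨0, (vtSub hB e hfrac).zero_mem, by rw [hx0, mul_zero]⟩
  have hxV : x ∈ vtSub hB e hfrac := vt_mem_of_mem_nonunits _ hx
  have hcV : c ∈ vtSub hB e hfrac := vtSub_const_mem hB e hfrac hc
  obtain ⟨d, u, hu, hxu⟩ := s36n2e_vtSub_decomp hB e hfrac hc hx0 hxV
  have huV : u ∈ vtSub hB e hfrac := by
    rw [← ValuationSubring.valuation_le_one_iff, hu]
  rcases Nat.eq_zero_or_pos d with hd | hd
  · exfalso
    rw [hd, pow_zero, one_mul] at hxu
    rw [ValuationSubring.mem_nonunits_iff, hxu, hu] at hx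
    exact lt_irrefl _ hx
  · obtain ⟨d', rfl⟩ := Nat.exists_eq_succ_of_ne_zero (Nat.pos_iff_ne_zero.mp hd)
    refine ⟨c ^ d' * u, (vtSub hB e hfrac).mul_mem _ _ (pow_mem hcV d') huV, ?_⟩
    rw [hxu, pow_succ]
    ring

/-- **`vtSub` is a discrete valuation ring** (uniformizer `c`, `e c = π`). -/
theorem s36n2e_vtSub_isDVR {c : F} (hc : e c = HahnSeries.C (ι π)) :
    IsDiscreteValuationRing (vtSub hB e hfrac) := by
  set V := vtSub hB e hfrac with hV
  have hcV : c ∈ V := vtSub_const_mem hB e hfrac hc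
  have hcm : c ∈ V.nonunits := vtSub_unif_mem_nonunits hB e hfrac hc
  have hc0 : c ≠ 0 := by
    intro h0
    have : e c = 0 := by rw [h0, map_zero]
    rw [hc] at this
    exact hB.Cιπ_ne this
  let c' : V := ⟨c, hcV⟩
  have hc'0 : c' ≠ 0 := fun h => hc0 (congrArg Subtype.val h)
  have hnu : ¬ IsUnit c' := by
    intro hu
    have h1 : V.valuation c = 1 := (ValuationSubring.valuation_eq_one_iff V c').mp hu
    rw [ValuationSubring.mem_nonunits_iff, h1] at hcm
    exact lt_irrefl _ hcm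
  have hunit : ∀ a : V, ¬ IsUnit a → ∃ b : V, a = c' * b := by
    intro a ha
    have ha' : (a : F) ∈ V.nonunits := by
      rw [ValuationSubring.mem_nonunits_iff]
      rcases ValuationSubring.valuation_lt_one_or_eq_one V a with h1 | h1
      · exact h1
      · exact absurd ((ValuationSubring.valuation_eq_one_iff V a).mpr h1) ha
    obtain ⟨y, hy, hay⟩ := s36n2e_vtSub_unif hB e hfrac hc ha'
    exact ⟨⟨y, hy⟩, Subtype.ext hay⟩
  have hirr : Irreducible c' := by
    refine ⟨hnu, ?_⟩
    intro a b hab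
    by_contra hcon
    push Not at hcon
    obtain ⟨a₁, ha₁⟩ := hunit a hcon.1
    obtain ⟨b₁, hb₁⟩ := hunit b hcon.2
    apply hnu
    have h1 : c' * 1 = c' * (c' * (a₁ * b₁)) := by
      rw [mul_one]
      calc c' = a * b := hab
        _ = c' * a₁ * (c' * b₁) := by rw [← ha₁, ← hb₁]
        _ = c' * (c' * (a₁ * b₁)) := by ring
    have h2 := mul_left_cancel₀ hc'0 h1
    exact IsUnit.of_mul_eq_one _ h2.symm
  apply IsDiscreteValuationRing.ofHasUnitMulPowIrreducibleFactorization
  refine ⟨c', hirr, ?_⟩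
  intro x hx
  have hx0 : (x : F) ≠ 0 := fun h => hx (Subtype.ext h)
  obtain ⟨d, u, hu, hxu⟩ := s36n2e_vtSub_decomp hB e hfrac hc hx0 x.2
  have huV : u ∈ V := by
    rw [← ValuationSubring.valuation_le_one_iff, hu]
  have hu' : IsUnit (⟨u, huV⟩ : V) := (ValuationSubring.valuation_eq_one_iff V ⟨u, huV⟩).mpr hu
  refine ⟨d, ?_⟩
  obtain ⟨w, hw⟩ := hu'
  refine ⟨w, ?_⟩
  rw [hw]
  apply Subtype.ext
  show c ^ d * u = (x : F)
  exact hxu.symm

end Fermat.Agent.S36

end
end ZBINJ_003_10
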