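/- GENERATED FILE (helper35, build-time optimisation, NOTES/ZB.md): verbatim concatenation of the modules
   Fermat.Agent.S21.Basic
   Fermat.Agent.S21.Period
   Fermat.Agent.ES.PeriodHecke
   Fermat.Agent.S21.Injective
   Do not edit; do not import together with these modules. -/
import Mathlib
import Fermat.Prelude.Def_ModularCurve_PeriodHomPair
import Fermat.Agent.ZB.S20_003
import Fermat.Agent.ZB.S22_001
import Fermat.Prelude.Def_ModularForm_HeckeOperatorForms
import Fermat.Agent.ZB.S22_003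

/-! ### bundled: `Fermat.Agent.S21.Basic` -/
section ZBS21_001_0

/-!
# S21 (Eichler–Shimura), basic calculus on the upper half-plane

Primitives `F : ℍ → ℂ` of functions `f : ℍ → ℂ` are encoded, as in the prelude, by
`∀ τ : ℍ, HasDerivAt (F ∘ ofComplex) (f τ) τ`.
-/

set_option autoImplicit false

namespace Fermat.Agent.S21

open UpperHalfPlane ModularForm CongruenceSubgroup Filter Topology
open scoped MatrixGroups Manifold

/-- `F` is a (holomorphic) primitive of `f` on the upper half-plane. -/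
def IsPrimitive (F f : ℍ → ℂ) : Prop :=
  ∀ τ : ℍ, HasDerivAt (F ∘ ofComplex) (f τ) τ

theorem IsPrimitive.add {F f G g : ℍ → ℂ} (hF : IsPrimitive F f) (hG : IsPrimitive G g) :
    IsPrimitive (F + G) (f + g) := fun τ => by
  have := (hF τ).add (hG τ)
  exact this

theorem IsPrimitive.sub {F f G g : ℍ → ℂ} (hF : IsPrimitive F f) (hG : IsPrimitive G g) :
    IsPrimitive (F - G) (f - g) := fun τ => by
  have := (hF τ).sub (hG τ)
  exact this

theorem IsPrimitive.neg {F f : ℍ → ℂ} (hF : IsPrimitive F f) :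
    IsPrimitive (-F) (-f) := fun τ => by
  have := (hF τ).neg
  exact this

theorem IsPrimitive.const_mul {F f : ℍ → ℂ} (hF : IsPrimitive F f) (c : ℂ) :
    IsPrimitive (fun z => c * F z) (fun z => c * f z) := fun τ => by
  have := (hF τ).const_mul c
  exact this

theorem IsPrimitive.const_smul {F f : ℍ → ℂ} (hF : IsPrimitive F f) (c : ℂ) :
    IsPrimitive (c • F) (c • f) := fun τ => by
  have := (hF τ).const_smul c
  exact this

theorem isPrimitive_const (c : ℂ) : IsPrimitive (fun _ => c) (fun _ => 0) := fun τ => by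
  have : HasDerivAt (fun _ : ℂ => c) 0 (τ : ℂ) := hasDerivAt_const _ _
  exact this

theorem IsPrimitive.add_const {F f : ℍ → ℂ} (hF : IsPrimitive F f) (c : ℂ) :
    IsPrimitive (fun z => F z + c) f := fun τ => by
  have := (hF τ).add_const c
  exact this

theorem IsPrimitive.sub_const {F f : ℍ → ℂ} (hF : IsPrimitive F f) (c : ℂ) :
    IsPrimitive (fun z => F z - c) f := fun τ => by
  have := (hF τ).sub_const c
  exact this

theorem IsPrimitive.congr {F f g : ℍ → ℂ} (hF : IsPrimitive F f) (h : ∀ τ, f τ = g τ) :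
    IsPrimitive F g := fun τ => h τ ▸ hF τ

/-- The composite `F ∘ ofComplex` is differentiable on the open upper half-plane. -/
theorem IsPrimitive.differentiableOn {F f : ℍ → ℂ} (hF : IsPrimitive F f) :
    DifferentiableOn ℂ (F ∘ ofComplex) upperHalfPlaneSet := fun z hz => by
  have := hF ⟨z, hz⟩
  exact this.differentiableAt.differentiableWithinAt

theorem IsPrimitive.mdifferentiable {F f : ℍ → ℂ} (hF : IsPrimitive F f) : MDiff F :=
  UpperHalfPlane.mdifferentiable_iff.mpr hF.differentiableOn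

theorem IsPrimitive.continuous {F f : ℍ → ℂ} (hF : IsPrimitive F f) : Continuous F :=
  hF.mdifferentiable.continuous

/-- A primitive of `0` on `ℍ` is constant. -/
theorem IsPrimitive.eq_of_zero {F : ℍ → ℂ} (hF : IsPrimitive F (fun _ => 0)) (z w : ℍ) :
    F z = F w := by
  have hconv : Convex ℝ upperHalfPlaneSet := convex_halfSpace_im_gt 0
  have hd : DifferentiableOn ℂ (F ∘ ofComplex) upperHalfPlaneSet := hF.differentiableOn
  have h0 : ∀ x ∈ upperHalfPlaneSet,
      fderivWithin ℂ (F ∘ ofComplex) upperHalfPlaneSet x = 0 := by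
    intro x hx
    have hx' : HasDerivAt (F ∘ ofComplex) 0 x := hF ⟨x, hx⟩
    rw [fderivWithin_eq_fderiv (isOpen_upperHalfPlaneSet.uniqueDiffWithinAt hx)
      hx'.differentiableAt]
    ext
    simp [hx'.deriv]
  have := hconv.is_const_of_fderivWithin_eq_zero (𝕜 := ℂ) hd h0 z.2 w.2
  simpa using this

/-- Two primitives of the same function differ by a constant. -/
theorem IsPrimitive.sub_eq_sub {F G f : ℍ → ℂ} (hF : IsPrimitive F f) (hG : IsPrimitive G f)
    (z w : ℍ) : F z - G z = F w - G w := by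
  have h : IsPrimitive (F - G) (fun _ => 0) := (hF.sub hG).congr (fun τ => by simp)
  exact h.eq_of_zero z w

/-- Chain rule for the action of `GL(2, ℝ)⁺` on `ℍ`. -/
theorem IsPrimitive.comp_smul_GL {F f : ℍ → ℂ} (hF : IsPrimitive F f) {g : GL (Fin 2) ℝ}
    (hg : 0 < g.val.det) :
    IsPrimitive (fun w => F (g • w))
      (fun τ => f (g • τ) * ((g.val.det : ℂ) / denom g τ ^ 2)) := fun τ => by
  have h_smul : HasDerivAt (fun w ↦ ↑(g • ofComplex w) : ℂ → ℂ)
      ((g.val.det : ℂ) / denom g τ ^ 2) ↑τ := (hasStrictDerivAt_smul hg τ).hasDerivAt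
  have h_F : HasDerivAt (F ∘ ofComplex) (f (g • τ)) ((fun w ↦ ↑(g • ofComplex w) : ℂ → ℂ) ↑τ) := by
    simpa using hF (g • τ)
  have := h_F.comp (τ : ℂ) h_smul
  refine this.congr_of_eventuallyEq ?_
  filter_upwards with w
  simp [Function.comp]

/-- Chain rule for the action of `SL(2, ℤ)` on `ℍ`: if `F' = f` then `(F ∘ γ)' = f ∣[2] γ`. -/
theorem IsPrimitive.comp_smul {F f : ℍ → ℂ} (hF : IsPrimitive F f) (γ : SL(2, ℤ)) :
    IsPrimitive (fun w => F (γ • w)) (f ∣[(2 : ℤ)] γ) := by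
  have hdet : (γ : GL (Fin 2) ℝ).val.det = 1 := by
    rw [← Matrix.GeneralLinearGroup.val_det_apply]; simp
  have h := hF.comp_smul_GL (g := (γ : GL (Fin 2) ℝ)) (by rw [hdet]; exact one_pos)
  refine h.congr (fun τ => ?_)
  rw [ModularForm.SL_slash_apply, hdet]
  simp only [Complex.ofReal_one, one_div]
  rw [zpow_neg]
  rfl

end Fermat.Agent.S21


end ZBS21_001_0

/-! ### bundled: `Fermat.Agent.S21.Period` -/
section ZBS21_001_1

/-!
# S21 (Eichler–Shimura), pieces A and B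

* `exists_hasEquivariantPrimitive` : every weight-2 cusp form on `Γ₀(N)` has an equivariant
  primitive in the sense of the prelude.
* `periodMap_eq` : the period map can be computed from any equivariant primitive.
* `existsPeriodMapLinear` : the period map is linear.
-/

set_option autoImplicit false

namespace Fermat.Agent.S21

open UpperHalfPlane ModularForm CongruenceSubgroup Filter Topology Matrix.SpecialLinearGroup
open ModularCurve ModularCurve.Period
open scoped MatrixGroups Manifold Pointwise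

theorem isPrimitive_iff_hasDerivH {F f : ℍ → ℂ} :
    IsPrimitive F f ↔ Fermat.Agent.S22.HasDerivH F f := Iff.rfl

theorem isArithmetic_conj_Gamma0 (N : ℕ) [NeZero N] (δ : SL(2, ℤ)) :
    (ConjAct.toConjAct (δ : GL (Fin 2) ℝ)⁻¹ •
      ((Gamma0 N : Subgroup SL(2, ℤ)) : Subgroup (GL (Fin 2) ℝ))).IsArithmetic := by
  have := Subgroup.IsArithmetic.conj
    ((Gamma0 N : Subgroup SL(2, ℤ)) : Subgroup (GL (Fin 2) ℝ)) (mapGL ℚ δ⁻¹)
  have e : (mapGL ℚ δ⁻¹).map (Rat.castHom ℝ) = (δ : GL (Fin 2) ℝ)⁻¹ := by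
    have e1 : ∀ g : SL(2, ℤ), (mapGL ℚ g).map (Rat.castHom ℝ) = mapGL ℝ g := by
      intro g
      ext i j
      simp
    rw [e1, map_inv]
    rfl
  rw [e] at this
  exact this

/-- For a cusp form `f` on `Γ₀(N)` and `δ ∈ SL(2, ℤ)`, the translate `f ∣[2] δ` is holomorphic,
periodic and zero at `i∞`. -/
theorem exists_cuspClass_slash (N : ℕ) [NeZero N] (f : CuspForm (Gamma0 N) 2) (δ : SL(2, ℤ)) :
    ∃ h : ℝ, 0 < h ∧ Fermat.Agent.S22.CuspClass h (⇑f ∣[(2 : ℤ)] δ) := by
  have hA := isArithmetic_conj_Gamma0 N δ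
  have := Fermat.Agent.S22.exists_cuspClass_of_cuspForm
    (CuspForm.translate f (δ : GL (Fin 2) ℝ))
  rw [CuspForm.coe_translate] at this
  exact this

/-- `f ∣[2] δ` has a primitive which tends to `0` at `i∞`. -/
theorem exists_isPrimitive_slash (N : ℕ) [NeZero N] (f : CuspForm (Gamma0 N) 2) (δ : SL(2, ℤ)) :
    ∃ F : ℍ → ℂ, IsPrimitive F (⇑f ∣[(2 : ℤ)] δ) ∧ Tendsto F atImInfty (𝓝 0) := by
  obtain ⟨h, hh, hc⟩ := exists_cuspClass_slash N f δ
  obtain ⟨G, hG, hGd⟩ := hc.exists_primitive hh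
  exact ⟨G, hGd, hG.zero⟩

/-- `f` has a primitive which tends to `0` at `i∞`. -/
theorem exists_isPrimitive (N : ℕ) [NeZero N] (f : CuspForm (Gamma0 N) 2) :
    ∃ F : ℍ → ℂ, IsPrimitive F f ∧ Tendsto F atImInfty (𝓝 0) := by
  obtain ⟨F, hF, h0⟩ := exists_isPrimitive_slash N f 1
  refine ⟨F, ?_, h0⟩
  have e : (⇑f ∣[(2 : ℤ)] (1 : SL(2, ℤ))) = ⇑f := SlashAction.slash_one _ _
  rwa [e] at hF

/-- Invariance of a cusp form on `Γ₀(N)` under the slash action. -/
theorem slash_eq_self (N : ℕ) (f : CuspForm (Gamma0 N) 2) (γ : Gamma0 N) :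
    (⇑f ∣[(2 : ℤ)] (γ : SL(2, ℤ))) = ⇑f :=
  SlashInvariantFormClass.slash_action_eq f _ ⟨γ, γ.2, rfl⟩

/-- A primitive of a cusp form on `Γ₀(N)` is an equivariant primitive. -/
theorem IsPrimitive.isEquivariantPrimitive {N : ℕ} (f : CuspForm (Gamma0 N) 2) {F : ℍ → ℂ}
    (hF : IsPrimitive F f) : IsEquivariantPrimitive (Gamma0 N) F := by
  intro γ
  refine ⟨F ((γ : SL(2, ℤ)) • UpperHalfPlane.I) - F UpperHalfPlane.I, fun z => ?_⟩
  have h1 : IsPrimitive (fun w => F ((γ : SL(2, ℤ)) • w)) f := by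
    have := hF.comp_smul (γ : SL(2, ℤ))
    rwa [slash_eq_self N f γ] at this
  exact h1.sub_eq_sub hF z UpperHalfPlane.I

/-- A primitive of a cusp form on `Γ₀(N)` has a limit at every cusp. -/
theorem IsPrimitive.exists_tendsto_smul {N : ℕ} [NeZero N] (f : CuspForm (Gamma0 N) 2)
    {F : ℍ → ℂ} (hF : IsPrimitive F f) (δ : SL(2, ℤ)) :
    ∃ L : ℂ, Tendsto (fun w : ℍ => F (δ • w)) atImInfty (𝓝 L) := by
  obtain ⟨G, hG, hG0⟩ := exists_isPrimitive_slash N f δ
  have h1 : IsPrimitive (fun w => F (δ • w)) (⇑f ∣[(2 : ℤ)] δ) := hF.comp_smul δ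
  refine ⟨F (δ • UpperHalfPlane.I) - G UpperHalfPlane.I, ?_⟩
  have hconst : ∀ w : ℍ, F (δ • w) = G w + (F (δ • UpperHalfPlane.I) - G UpperHalfPlane.I) := by
    intro w
    have := h1.sub_eq_sub hG w UpperHalfPlane.I
    linear_combination this
  have : Tendsto (fun w : ℍ => G w + (F (δ • UpperHalfPlane.I) - G UpperHalfPlane.I)) atImInfty
      (𝓝 (0 + (F (δ • UpperHalfPlane.I) - G UpperHalfPlane.I))) :=
    hG0.add tendsto_const_nhds
  rw [zero_add] at this
  exact this.congr (fun w => (hconst w).symm)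

/-- A primitive of a cusp form `f` on `Γ₀(N)` that tends to `0` at `i∞` is an equivariant
primitive in the sense of the prelude. -/
theorem hasEquivariantPrimitive_of_isPrimitive {N : ℕ} [NeZero N] (f : CuspForm (Gamma0 N) 2)
    {F : ℍ → ℂ} (hF : IsPrimitive F f) (h0 : Tendsto F atImInfty (𝓝 0)) :
    HasEquivariantPrimitive N f F :=
  ⟨hF, h0, hF.isEquivariantPrimitive f, fun δ => hF.exists_tendsto_smul f δ⟩

theorem HasEquivariantPrimitive.isPrimitive {N : ℕ} {f : CuspForm (Gamma0 N) 2} {F : ℍ → ℂ}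
    (hF : HasEquivariantPrimitive N f F) : IsPrimitive F f := hF.1

/-- **Piece A.** Every weight-2 cusp form on `Γ₀(N)` has an equivariant primitive. -/
theorem exists_hasEquivariantPrimitive (N : ℕ) [NeZero N] (f : CuspForm (Gamma0 N) 2) :
    ∃ F : ℍ → ℂ, HasEquivariantPrimitive N f F := by
  obtain ⟨F, hF, h0⟩ := exists_isPrimitive N f
  exact ⟨F, hasEquivariantPrimitive_of_isPrimitive f hF h0⟩

/-- The period of an equivariant primitive only depends on its derivative. -/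
theorem period_eq_of_isPrimitive {Γ : Subgroup SL(2, ℤ)} {F G f : ℍ → ℂ}
    (hF : IsEquivariantPrimitive Γ F) (hG : IsEquivariantPrimitive Γ G)
    (hFf : IsPrimitive F f) (hGf : IsPrimitive G f) (γ : Γ) : hF.period γ = hG.period γ := by
  have := hFf.sub_eq_sub hGf ((γ : SL(2, ℤ)) • UpperHalfPlane.I) UpperHalfPlane.I
  simp only [IsEquivariantPrimitive.period]
  linear_combination this

theorem periodHom_eq_of_isPrimitive {Γ : Subgroup SL(2, ℤ)} {F G f : ℍ → ℂ}
    (hF : IsEquivariantPrimitive Γ F) (hG : IsEquivariantPrimitive Γ G)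
    (hFf : IsPrimitive F f) (hGf : IsPrimitive G f) : hF.periodHom = hG.periodHom := by
  refine AddMonoidHom.ext fun γ => ?_
  exact period_eq_of_isPrimitive hF hG hFf hGf (Additive.toMul γ)

/-- The period map is the period homomorphism of any equivariant primitive. -/
theorem periodMap_eq {N : ℕ} (f : CuspForm (Gamma0 N) 2) {F : ℍ → ℂ}
    (hF : HasEquivariantPrimitive N f F) : periodMap N f = hF.2.2.1.periodHom := by
  obtain ⟨F₀, h₀, e⟩ := periodMap_def N f hF
  rw [e]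
  exact periodHom_eq_of_isPrimitive _ _ h₀.1 hF.1

theorem periodMap_apply {N : ℕ} (f : CuspForm (Gamma0 N) 2) {F : ℍ → ℂ}
    (hF : HasEquivariantPrimitive N f F) (γ : Gamma0 N) :
    periodMap N f (Additive.ofMul γ)
      = F ((γ : SL(2, ℤ)) • UpperHalfPlane.I) - F UpperHalfPlane.I := by
  rw [periodMap_eq f hF]
  rfl

theorem periodMap_add (N : ℕ) [NeZero N] (f g : CuspForm (Gamma0 N) 2) :
    periodMap N (f + g) = periodMap N f + periodMap N g := by
  obtain ⟨F, hF⟩ := exists_hasEquivariantPrimitive N f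
  obtain ⟨G, hG⟩ := exists_hasEquivariantPrimitive N g
  have hFG : IsPrimitive (F + G) (⇑(f + g)) := by
    have := IsPrimitive.add (F := F) (f := ⇑f) (G := G) (g := ⇑g) hF.1 hG.1
    exact this
  have h0 : Tendsto (F + G) atImInfty (𝓝 0) := by
    have := hF.2.1.add hG.2.1
    rwa [add_zero] at this
  have hS := hasEquivariantPrimitive_of_isPrimitive (f + g) hFG h0
  refine AddMonoidHom.ext fun γ => ?_
  obtain ⟨γ, rfl⟩ : ∃ γ' : Gamma0 N, Additive.ofMul γ' = γ := ⟨Additive.toMul γ, rfl⟩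
  rw [AddMonoidHom.add_apply, periodMap_apply _ hS, periodMap_apply _ hF, periodMap_apply _ hG]
  simp only [Pi.add_apply]
  ring

theorem periodMap_smul (N : ℕ) [NeZero N] (c : ℂ) (f : CuspForm (Gamma0 N) 2) :
    periodMap N (c • f) = c • periodMap N f := by
  obtain ⟨F, hF⟩ := exists_hasEquivariantPrimitive N f
  have hcF : IsPrimitive (c • F) (⇑(c • f)) := by
    have := IsPrimitive.const_smul (F := F) (f := ⇑f) hF.1 c
    exact this
  have h0 : Tendsto (c • F) atImInfty (𝓝 0) := by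
    have := hF.2.1.const_smul c
    rwa [smul_zero] at this
  have hS := hasEquivariantPrimitive_of_isPrimitive (c • f) hcF h0
  refine AddMonoidHom.ext fun γ => ?_
  obtain ⟨γ, rfl⟩ : ∃ γ' : Gamma0 N, Additive.ofMul γ' = γ := ⟨Additive.toMul γ, rfl⟩
  rw [AddMonoidHom.smul_apply, periodMap_apply _ hS, periodMap_apply _ hF]
  simp only [Pi.smul_apply, smul_eq_mul]
  ring

/-- The period map as a linear map. -/
noncomputable def periodMapLinear (N : ℕ) [NeZero N] :
    CuspForm (Gamma0 N) 2 →ₗ[ℂ] (Additive (Gamma0 N) →+ ℂ) where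
  toFun := periodMap N
  map_add' := periodMap_add N
  map_smul' := periodMap_smul N

@[simp] theorem periodMapLinear_apply (N : ℕ) [NeZero N] (f : CuspForm (Gamma0 N) 2) :
    periodMapLinear N f = periodMap N f := rfl

/-- **Piece B.** The period map is linear. -/
theorem existsPeriodMapLinear (N : ℕ) [NeZero N] : ExistsPeriodMapLinear N :=
  ⟨periodMapLinear N, fun _ => rfl⟩

/-- Any linear map agreeing with `periodMap` is `periodMapLinear`. -/
theorem eq_periodMapLinear (N : ℕ) [NeZero N]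
    (pml : CuspForm (Gamma0 N) 2 →ₗ[ℂ] (Additive (Gamma0 N) →+ ℂ))
    (h : ∀ f, pml f = periodMap N f) : pml = periodMapLinear N :=
  LinearMap.ext h

/-- Explicit formula for `periodHomPair`. -/
theorem periodHomPair_eq (N : ℕ) [NeZero N] :
    periodHomPair N = LinearMap.coprod
      ((LinearMap.id + charInvolution N ℂ ℂ) ∘ₗ periodMapLinear N)
      ((LinearMap.id - charInvolution N ℂ ℂ) ∘ₗ periodMapLinear N) := by
  obtain ⟨pml, hpml, e⟩ := periodHomPair_def N (existsPeriodMapLinear N)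
  rw [e, eq_periodMapLinear N pml hpml]

theorem periodHomPair_apply (N : ℕ) [NeZero N] (f g : CuspForm (Gamma0 N) 2) :
    periodHomPair N (f, g)
      = (periodMap N f + charInvolution N ℂ ℂ (periodMap N f))
        + (periodMap N g - charInvolution N ℂ ℂ (periodMap N g)) := by
  rw [periodHomPair_eq]
  simp [LinearMap.coprod_apply]

end Fermat.Agent.S21


end ZBS21_001_1

/-! ### bundled: `Fermat.Agent.ES.PeriodHecke` -/
section ZBS21_001_2

/-!
# Hecke-equivariance of the period map (bridge S21 ↔ Hecke operators; ESpkg-G1, pieces A4/A5)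

For a prime `p ∤ N` the prelude's Hecke operator on weight-2 cusp forms is
`T_p f = ∑_{x ∈ ℙ¹(𝔽_p)} f ∣[2] α_x` with `α_x = heckeRep p x`
(`α_j = [[1, j], [0, p]]`, `α_∞ = [[p, 0], [0, 1]]`).  For `γ ∈ Γ₀(N)` one has
`α_x γ = γ'_x α_{σ x}` with `γ'_x ∈ Γ₀(N)` and `σ = redMatrix p γ` a permutation of `ℙ¹(𝔽_p)`
(prelude, `heckeRep_mul`).

Main results (`F` a primitive of `f`):
* `isPrimitive_heckeSum` : `τ ↦ ∑ x, F (α_x • τ)` is a primitive of `T_p f`;
* `periodMap_heckeTLin_apply` : `periodMap (T_p f) γ = ∑ x, periodMap f (γ'_x)` for ANY family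
  `γ'` with `α_x γ = γ'_x α_{σ x}`;
* `exists_periodMap_heckeTLin` : such a family exists.
-/

set_option autoImplicit false

namespace Fermat.Agent.ES

open UpperHalfPlane ModularForm CongruenceSubgroup ModularCurve ModularCurve.Period
open scoped MatrixGroups ModularForm
open Fermat.Agent.S21
open P2MW.S_ModularForm_heckeT_slash_eq_self_of_mem_Gamma0.ModularForm.HeckeSlashInvariance
  (heckeRep redMatrix heckeRep_mul heckeT_eq_sum_onePoint)

/-- Chain rule: if `F' = f` and `det g > 0` then `(F ∘ g)' = f ∣[2] g`. -/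
theorem isPrimitive_comp_smul_slash {F f : ℍ → ℂ} (hF : IsPrimitive F f) {g : GL (Fin 2) ℝ}
    (hg : 0 < ((Matrix.GeneralLinearGroup.det g : ℝˣ) : ℝ)) :
    IsPrimitive (fun w => F (g • w)) (f ∣[(2 : ℤ)] g) := by
  have hg' : 0 < g.val.det := by
    rwa [Matrix.GeneralLinearGroup.val_det_apply] at hg
  refine (hF.comp_smul_GL hg').congr (fun τ => ?_)
  rw [ModularForm.slash_apply, UpperHalfPlane.σ, if_pos hg]
  simp only [ContinuousAlgEquiv.refl_apply]
  rw [abs_of_pos hg, Matrix.GeneralLinearGroup.val_det_apply]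
  have : (2 : ℤ) - 1 = 1 := by norm_num
  rw [this, zpow_one, zpow_neg, mul_assoc, div_eq_mul_inv]
  rfl

/-- Primitives of finite sums. -/
theorem isPrimitive_finset_sum {ι : Type*} (s : Finset ι) (F f : ι → ℍ → ℂ)
    (h : ∀ i ∈ s, IsPrimitive (F i) (f i)) :
    IsPrimitive (fun τ => ∑ i ∈ s, F i τ) (∑ i ∈ s, f i) := fun τ => by
  have := HasDerivAt.sum (u := s) (A := fun i => F i ∘ ofComplex) (A' := fun i => f i τ)
    (x := (τ : ℂ)) (fun i hi => h i hi τ)
  rw [Finset.sum_apply]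
  refine this.congr_of_eventuallyEq ?_
  filter_upwards with w
  simp [Function.comp]

theorem det_heckeRep_pos (p : ℕ) (x : OnePoint (ZMod p)) :
    0 < ((Matrix.GeneralLinearGroup.det (heckeRep p x) : ℝˣ) : ℝ) := by
  induction x using OnePoint.rec with
  | infty => exact det_heckeDiagMatrix_pos p
  | coe j => exact det_heckeMatrix_pos p j.val

/-- `τ ↦ ∑ x, F (α_x • τ)` is a primitive of `T_p f`. -/
theorem isPrimitive_heckeSum {p : ℕ} [NeZero p] {F f : ℍ → ℂ} (hF : IsPrimitive F f) :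
    IsPrimitive (fun τ => ∑ x : OnePoint (ZMod p), F (heckeRep p x • τ)) (heckeT 2 p f) := by
  rw [heckeT_eq_sum_onePoint]
  exact isPrimitive_finset_sum Finset.univ (fun x τ => F (heckeRep p x • τ))
    (fun x => f ∣[(2 : ℤ)] heckeRep p x)
    (fun x _ => isPrimitive_comp_smul_slash hF (det_heckeRep_pos p x))

variable {N p : ℕ} [NeZero N] [hp : Fact p.Prime]

/-- **Hecke-equivariance of the period map**, in coset form: if `α_x γ = γ'_x α_{σ x}` then
`periodMap (T_p f) γ = ∑ x, periodMap f (γ'_x)`. -/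
theorem periodMap_heckeTLin_apply (hpN : ¬ p ∣ N) (f : CuspForm (Gamma0 N) 2) (γ : Gamma0 N)
    (g' : OnePoint (ZMod p) → Gamma0 N)
    (hg' : ∀ x : OnePoint (ZMod p),
      heckeRep p x * Matrix.SpecialLinearGroup.mapGL ℝ (γ : SL(2, ℤ))
        = Matrix.SpecialLinearGroup.mapGL ℝ (g' x : SL(2, ℤ))
            * heckeRep p (redMatrix p (γ : SL(2, ℤ)) • x)) :
    periodMap N (CuspForm.heckeTLin 2 hp.out hpN f) (Additive.ofMul γ)
      = ∑ x : OnePoint (ZMod p), periodMap N f (Additive.ofMul (g' x)) := by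
  haveI : NeZero p := ⟨hp.out.ne_zero⟩
  obtain ⟨F, hF⟩ := exists_hasEquivariantPrimitive N f
  obtain ⟨G₀, hG₀⟩ := exists_hasEquivariantPrimitive N (CuspForm.heckeTLin 2 hp.out hpN f)
  have hG : IsPrimitive (fun τ => ∑ x : OnePoint (ZMod p), F (heckeRep p x • τ))
      (⇑(CuspForm.heckeTLin 2 hp.out hpN f)) := by
    have := isPrimitive_heckeSum (p := p) (F := F) (f := ⇑f) hF.1
    exact this
  have hsub := hG.sub_eq_sub (show IsPrimitive G₀ _ from hG₀.1) ((γ : SL(2, ℤ)) • UpperHalfPlane.I) UpperHalfPlane.I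
  rw [periodMap_apply _ hG₀ γ]
  have hper : ∀ (δ : Gamma0 N) (z : ℍ),
      F ((δ : SL(2, ℤ)) • z) - F z = periodMap N f (Additive.ofMul δ) := by
    intro δ z
    rw [periodMap_eq f hF]
    exact hF.2.2.1.sub_eq_period δ z
  have hterm : ∀ x : OnePoint (ZMod p),
      F (heckeRep p x • ((γ : SL(2, ℤ)) • UpperHalfPlane.I))
        = periodMap N f (Additive.ofMul (g' x))
          + F (heckeRep p (redMatrix p (γ : SL(2, ℤ)) • x) • UpperHalfPlane.I) := by
    intro x
    have h1 : heckeRep p x • ((γ : SL(2, ℤ)) • UpperHalfPlane.I)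
        = ((g' x : SL(2, ℤ))) • (heckeRep p (redMatrix p (γ : SL(2, ℤ)) • x)
            • UpperHalfPlane.I) := by
      have e1 : (γ : SL(2, ℤ)) • UpperHalfPlane.I
          = (Matrix.SpecialLinearGroup.mapGL ℝ (γ : SL(2, ℤ))) • UpperHalfPlane.I := rfl
      have e2 : ∀ z : ℍ, ((g' x : SL(2, ℤ))) • z
          = (Matrix.SpecialLinearGroup.mapGL ℝ (g' x : SL(2, ℤ))) • z := fun _ => rfl
      rw [e1, e2, ← mul_smul, ← mul_smul, hg' x]
    rw [h1]
    have := hper (g' x) (heckeRep p (redMatrix p (γ : SL(2, ℤ)) • x) • UpperHalfPlane.I)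
    linear_combination this
  have hperm : ∑ x : OnePoint (ZMod p),
      F (heckeRep p (redMatrix p (γ : SL(2, ℤ)) • x) • UpperHalfPlane.I)
        = ∑ x : OnePoint (ZMod p), F (heckeRep p x • UpperHalfPlane.I) :=
    Equiv.sum_comp (MulAction.toPerm (redMatrix p (γ : SL(2, ℤ))))
      (fun x => F (heckeRep p x • UpperHalfPlane.I))
  have hsum : (∑ x : OnePoint (ZMod p), F (heckeRep p x • ((γ : SL(2, ℤ)) • UpperHalfPlane.I)))
      = (∑ x : OnePoint (ZMod p), periodMap N f (Additive.ofMul (g' x)))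
        + ∑ x : OnePoint (ZMod p), F (heckeRep p x • UpperHalfPlane.I) := by
    rw [← hperm, ← Finset.sum_add_distrib]
    exact Finset.sum_congr rfl (fun x _ => hterm x)
  linear_combination hsum - hsub

omit [NeZero N] in
/-- Existence of the family `γ'` of the previous theorem. -/
theorem exists_heckeRep_mul (hpN : ¬ p ∣ N) (γ : Gamma0 N) :
    ∃ g' : OnePoint (ZMod p) → Gamma0 N, ∀ x : OnePoint (ZMod p),
      heckeRep p x * Matrix.SpecialLinearGroup.mapGL ℝ (γ : SL(2, ℤ))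
        = Matrix.SpecialLinearGroup.mapGL ℝ (g' x : SL(2, ℤ))
            * heckeRep p (redMatrix p (γ : SL(2, ℤ)) • x) := by
  have hγ : (N : ℤ) ∣ (γ : SL(2, ℤ)) 1 0 :=
    (ZMod.intCast_zmod_eq_zero_iff_dvd _ _).mp (CongruenceSubgroup.Gamma0_mem.mp γ.2)
  have h := fun x => heckeRep_mul (p := p) hpN (γ : SL(2, ℤ)) hγ x
  choose g hgN hg using h
  exact ⟨fun x => ⟨g x, CongruenceSubgroup.Gamma0_mem.mpr
    ((ZMod.intCast_zmod_eq_zero_iff_dvd _ _).mpr (hgN x))⟩, fun x => hg x⟩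

/-- **Hecke-equivariance of the period map**, existential form. -/
theorem exists_periodMap_heckeTLin (hpN : ¬ p ∣ N) (f : CuspForm (Gamma0 N) 2) (γ : Gamma0 N) :
    ∃ g' : OnePoint (ZMod p) → Gamma0 N,
      (∀ x : OnePoint (ZMod p),
        heckeRep p x * Matrix.SpecialLinearGroup.mapGL ℝ (γ : SL(2, ℤ))
          = Matrix.SpecialLinearGroup.mapGL ℝ (g' x : SL(2, ℤ))
              * heckeRep p (redMatrix p (γ : SL(2, ℤ)) • x)) ∧
      periodMap N (CuspForm.heckeTLin 2 hp.out hpN f) (Additive.ofMul γ)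
        = ∑ x : OnePoint (ZMod p), periodMap N f (Additive.ofMul (g' x)) := by
  obtain ⟨g', hg'⟩ := exists_heckeRep_mul (p := p) hpN γ
  exact ⟨g', hg', periodMap_heckeTLin_apply hpN f γ g' hg'⟩

/-- Eigenvector form: if `T_p f = c • f` then the period class of `f` is an eigenvector of the
group-theoretic Hecke operator with the same eigenvalue. -/
theorem sum_periodMap_eq_of_heckeTLin_eq_smul (hpN : ¬ p ∣ N) (f : CuspForm (Gamma0 N) 2)
    (c : ℂ) (hf : CuspForm.heckeTLin 2 hp.out hpN f = c • f) (γ : Gamma0 N)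
    (g' : OnePoint (ZMod p) → Gamma0 N)
    (hg' : ∀ x : OnePoint (ZMod p),
      heckeRep p x * Matrix.SpecialLinearGroup.mapGL ℝ (γ : SL(2, ℤ))
        = Matrix.SpecialLinearGroup.mapGL ℝ (g' x : SL(2, ℤ))
            * heckeRep p (redMatrix p (γ : SL(2, ℤ)) • x)) :
    ∑ x : OnePoint (ZMod p), periodMap N f (Additive.ofMul (g' x))
      = c * periodMap N f (Additive.ofMul γ) := by
  rw [← periodMap_heckeTLin_apply hpN f γ g' hg', hf, periodMap_smul]
  rfl

end Fermat.Agent.ES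


end ZBS21_001_2

/-! ### bundled: `Fermat.Agent.S21.Injective` -/
section ZBS21_001_3

/-!
# S21 (Eichler–Shimura), piece D: injectivity of `periodHomPair`

The core is a maximum-modulus argument: a holomorphic function `Φ` on `ℍ` whose increments under
`Γ₀(N)` are purely imaginary constants and which has a limit at every cusp is constant.
-/

set_option autoImplicit false

namespace Fermat.Agent.S21

open UpperHalfPlane CongruenceSubgroup Filter Topology Function ModularCurve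
  ModularCurve.Period
open scoped MatrixGroups Real ComplexConjugate

/-- `δ T^N δ⁻¹ ∈ Γ₀(N)` for every `δ ∈ SL(2, ℤ)`. -/
theorem conj_T_pow_mem_Gamma0 (N : ℕ) (δ : SL(2, ℤ)) :
    δ * ModularGroup.T ^ (N : ℤ) * δ⁻¹ ∈ Gamma0 N := by
  have h1 : ModularGroup.T ^ (N : ℤ) ∈ Gamma N :=
    ModularGroup_T_pow_mem_Gamma N N (dvd_refl _)
  have h2 : δ * ModularGroup.T ^ (N : ℤ) * δ⁻¹ ∈ Gamma N :=
    (Gamma_normal N).conj_mem _ h1 δ
  rw [Gamma_mem] at h2
  rw [Gamma0_mem]
  exact h2.2.2.1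

/-- Translation by `N` preserves `atImInfty`. -/
theorem tendsto_T_pow_smul_atImInfty (n : ℤ) :
    Tendsto (fun w : ℍ => ModularGroup.T ^ n • w) atImInfty atImInfty := by
  rw [atImInfty, tendsto_comap_iff]
  have : (UpperHalfPlane.im ∘ fun w : ℍ => ModularGroup.T ^ n • w) = UpperHalfPlane.im := by
    funext w
    rw [Function.comp_apply, modular_T_zpow_smul, UpperHalfPlane.vadd_im]
  rw [this]
  exact tendsto_comap

/-- If the `Γ₀(N)`-increments of `Φ` are constants and `Φ ∘ δ` has a limit at `i∞`, then `Φ ∘ δ` is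
`N`-periodic. -/
theorem comp_smul_T_pow_eq {N : ℕ} {Φ : ℍ → ℂ}
    (hinv : ∀ γ ∈ Gamma0 N, ∃ c : ℂ, ∀ z : ℍ, Φ (γ • z) - Φ z = c)
    (δ : SL(2, ℤ)) (hlim : ∃ L : ℂ, Tendsto (fun w : ℍ => Φ (δ • w)) atImInfty (𝓝 L)) (w : ℍ) :
    Φ (δ • (ModularGroup.T ^ (N : ℤ) • w)) = Φ (δ • w) := by
  obtain ⟨c, hc⟩ := hinv _ (conj_T_pow_mem_Gamma0 N δ)
  obtain ⟨L, hL⟩ := hlim
  have key : ∀ w : ℍ, Φ (δ • (ModularGroup.T ^ (N : ℤ) • w)) - Φ (δ • w) = c := by
    intro w
    have := hc (δ • w)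
    rwa [← mul_smul, inv_mul_cancel_right, mul_smul] at this
  have h1 : Tendsto (fun w : ℍ => Φ (δ • (ModularGroup.T ^ (N : ℤ) • w))) atImInfty (𝓝 L) :=
    hL.comp (tendsto_T_pow_smul_atImInfty N)
  have h2 : Tendsto (fun w : ℍ => Φ (δ • (ModularGroup.T ^ (N : ℤ) • w)) - Φ (δ • w))
      atImInfty (𝓝 (L - L)) := h1.sub hL
  have h3 : Tendsto (fun _ : ℍ => c) atImInfty (𝓝 (L - L)) := by
    refine h2.congr (fun w => key w)
  have hc0 : c = 0 := by
    have := tendsto_nhds_unique h3 tendsto_const_nhds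
    simpa using this.symm
  have := key w
  rw [hc0, sub_eq_zero] at this
  exact this

/-- The function `w ↦ exp (Φ (δ • w))`, transported to `ℂ` (junk value for `Im w ≤ 0`). -/
noncomputable def expComp (Φ : ℍ → ℂ) (δ : SL(2, ℤ)) : ℂ → ℂ :=
  fun w => Complex.exp (Φ (δ • ofComplex w))

theorem expComp_coe (Φ : ℍ → ℂ) (δ : SL(2, ℤ)) (z : ℍ) :
    expComp Φ δ (z : ℂ) = Complex.exp (Φ (δ • z)) := by
  rw [expComp, ofComplex_apply]

theorem expComp_periodic {N : ℕ} {Φ : ℍ → ℂ}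
    (hinv : ∀ γ ∈ Gamma0 N, ∃ c : ℂ, ∀ z : ℍ, Φ (γ • z) - Φ z = c)
    (δ : SL(2, ℤ)) (hlim : ∃ L : ℂ, Tendsto (fun w : ℍ => Φ (δ • w)) atImInfty (𝓝 L)) :
    Function.Periodic (expComp Φ δ) ((N : ℝ) : ℂ) := by
  intro w
  unfold expComp
  by_cases hw : 0 < w.im
  · have hw' : 0 < (w + ((N : ℝ) : ℂ)).im := by simpa using hw
    have : ofComplex (w + ((N : ℝ) : ℂ)) = ModularGroup.T ^ (N : ℤ) • ofComplex w := by
      rw [ofComplex_apply_of_im_pos hw, ofComplex_apply_of_im_pos hw']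
      ext
      rw [ModularGroup.coe_T_zpow_smul_eq]
      simp
    rw [this, comp_smul_T_pow_eq hinv δ hlim]
  · have hw' : (w + ((N : ℝ) : ℂ)).im ≤ 0 := by simpa using not_lt.mp hw
    rw [ofComplex_apply_eq_of_im_nonpos hw' (not_lt.mp hw)]

theorem expComp_differentiableAt {Φ φ : ℍ → ℂ} (hΦ : IsPrimitive Φ φ) (δ : SL(2, ℤ)) {w : ℂ}
    (hw : 0 < w.im) : DifferentiableAt ℂ (expComp Φ δ) w := by
  have h := (hΦ.comp_smul δ) ⟨w, hw⟩
  exact h.differentiableAt.cexp

theorem expComp_tendsto {Φ : ℍ → ℂ} (δ : SL(2, ℤ)) {L : ℂ}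
    (hL : Tendsto (fun w : ℍ => Φ (δ • w)) atImInfty (𝓝 L)) :
    Tendsto (expComp Φ δ) (comap Complex.im atTop) (𝓝 (Complex.exp L)) :=
  (Complex.continuous_exp.tendsto L).comp (hL.comp tendsto_comap_im_ofComplex)

theorem expComp_bounded {Φ : ℍ → ℂ} (δ : SL(2, ℤ))
    (hlim : ∃ L : ℂ, Tendsto (fun w : ℍ => Φ (δ • w)) atImInfty (𝓝 L)) :
    BoundedAtFilter (comap Complex.im atTop) (expComp Φ δ) := by
  obtain ⟨L, hL⟩ := hlim
  exact (expComp_tendsto δ hL).isBigO_one ℝ

theorem expComp_eventually_differentiableAt {Φ φ : ℍ → ℂ} (hΦ : IsPrimitive Φ φ) (δ : SL(2, ℤ)) :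
    ∀ᶠ z in comap Complex.im atTop, DifferentiableAt ℂ (expComp Φ δ) z := by
  filter_upwards [preimage_mem_comap (Ioi_mem_atTop 0)] with z hz
  exact expComp_differentiableAt hΦ δ hz

theorem norm_exp_smul_eq {N : ℕ} {Φ : ℍ → ℂ}
    (hinv : ∀ γ ∈ Gamma0 N, ∃ c : ℂ, c.re = 0 ∧ ∀ z : ℍ, Φ (γ • z) - Φ z = c)
    {γ : SL(2, ℤ)} (hγ : γ ∈ Gamma0 N) (z : ℍ) :
    ‖Complex.exp (Φ (γ • z))‖ = ‖Complex.exp (Φ z)‖ := by
  obtain ⟨c, hc0, hc⟩ := hinv γ hγ
  rw [Complex.norm_exp, Complex.norm_exp]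
  have h2 : Φ (γ • z) = Φ z + c := by rw [← hc z]; ring
  rw [h2, Complex.add_re, hc0, add_zero]

/-- Maximum modulus on `X₀(N)`: if `Φ` is holomorphic on `ℍ`, its `Γ₀(N)`-increments are purely
imaginary constants, and `Φ` has a limit at every cusp, then `exp ∘ Φ` is constant. -/
theorem exp_const_of_imaginary_increments {N : ℕ} [NeZero N] {Φ φ : ℍ → ℂ}
    (hΦ : IsPrimitive Φ φ)
    (hinv : ∀ γ ∈ Gamma0 N, ∃ c : ℂ, c.re = 0 ∧ ∀ z : ℍ, Φ (γ • z) - Φ z = c)
    (hlim : ∀ δ : SL(2, ℤ), ∃ L : ℂ, Tendsto (fun w : ℍ => Φ (δ • w)) atImInfty (𝓝 L)) :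
    ∃ C : ℂ, ∀ z : ℍ, Complex.exp (Φ z) = C := by
  have hN : (0 : ℝ) < N := Nat.cast_pos.mpr (NeZero.pos N)
  have hinv' : ∀ γ ∈ Gamma0 N, ∃ c : ℂ, ∀ z : ℍ, Φ (γ • z) - Φ z = c := fun γ hγ =>
    let ⟨c, _, hc⟩ := hinv γ hγ; ⟨c, hc⟩
  obtain ⟨R, hR⟩ := Fermat.Agent.S22.Gamma0_exists_coset_reps N
  have hRne : R.Nonempty := by
    obtain ⟨γ, _, r, hr, _⟩ := hR 1
    exact ⟨r, hr⟩
  set K : SL(2, ℤ) → ℂ → ℂ := fun r => Function.Periodic.cuspFunction N (expComp Φ r) with hK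
  have hper : ∀ r, Function.Periodic (expComp Φ r) ((N : ℝ) : ℂ) := fun r =>
    expComp_periodic hinv' r (hlim r)
  have hKdiff : ∀ r, DifferentiableOn ℂ (K r) (Metric.ball 0 1) := by
    intro r q hq
    rw [mem_ball_zero_iff] at hq
    apply DifferentiableAt.differentiableWithinAt
    rcases eq_or_ne q 0 with rfl | hq0
    · exact Function.Periodic.differentiableAt_cuspFunction_zero hN (hper r)
        (expComp_eventually_differentiableAt hΦ r) (expComp_bounded r (hlim r))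
    · have him := Function.Periodic.im_invQParam_pos_of_norm_lt_one hN hq hq0
      have := Function.Periodic.differentiableAt_cuspFunction hN.ne' (hper r)
        (expComp_differentiableAt hΦ r him)
      rwa [Function.Periodic.qParam_right_inv hN.ne' hq0] at this
  have hKeq : ∀ r (z : ℍ), K r (Function.Periodic.qParam N z) = Complex.exp (Φ (r • z)) := by
    intro r z
    rw [hK]
    simp only
    rw [Function.Periodic.eq_cuspFunction hN.ne' (hper r), expComp_coe]
  set ρ : ℝ := Real.exp (-π / N) with hρ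
  have hρ0 : 0 ≤ ρ := (Real.exp_pos _).le
  have hρ1 : ρ < 1 := by
    rw [hρ, Real.exp_lt_one_iff]
    exact div_neg_of_neg_of_pos (neg_lt_zero.mpr Real.pi_pos) hN
  have hmax : ∀ r, ∃ x ∈ Metric.closedBall (0 : ℂ) ρ,
      IsMaxOn (fun q => ‖K r q‖) (Metric.closedBall 0 ρ) x := by
    intro r
    exact (isCompact_closedBall (0 : ℂ) ρ).exists_isMaxOn (Metric.nonempty_closedBall.mpr hρ0)
      ((hKdiff r).continuousOn.mono (Metric.closedBall_subset_ball hρ1)).norm
  choose x hx hxmax using hmax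
  obtain ⟨r₀, hr₀, hr₀max⟩ := Finset.exists_max_image R (fun r => ‖K r (x r)‖) hRne
  have hbound : ∀ z : ℍ, ‖Complex.exp (Φ z)‖ ≤ ‖K r₀ (x r₀)‖ := by
    intro z
    obtain ⟨g, hg⟩ := ModularGroup.exists_one_half_le_im_smul z
    obtain ⟨γ, hγ, r, hr, hgr⟩ := hR g⁻¹
    have hz : z = γ • (r • (g • z)) := by
      rw [← mul_smul, ← mul_smul, ← hgr, inv_mul_cancel, one_smul]
    have h1 : ‖Complex.exp (Φ z)‖ = ‖K r (Function.Periodic.qParam N ((g • z : ℍ) : ℂ))‖ := by
      rw [hKeq]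
      conv_lhs => rw [hz]
      exact norm_exp_smul_eq hinv hγ _
    rw [h1]
    refine le_trans (hxmax r ?_) (hr₀max r hr)
    rw [mem_closedBall_zero_iff, Function.Periodic.norm_qParam, hρ]
    apply Real.exp_le_exp.mpr
    rw [UpperHalfPlane.coe_im]
    apply div_le_div_of_nonneg_right _ hN.le
    nlinarith [Real.pi_pos]
  have hne : ∀ q : ℂ, ‖q‖ < 1 → q ≠ 0 → ‖K r₀ q‖ ≤ ‖K r₀ (x r₀)‖ := by
    intro q hq1 hq0
    have him := Function.Periodic.im_invQParam_pos_of_norm_lt_one hN hq1 hq0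
    have := hKeq r₀ ⟨_, him⟩
    rw [UpperHalfPlane.coe_mk, Function.Periodic.qParam_right_inv hN.ne' hq0] at this
    rw [this]
    exact hbound _
  have hmaxball : IsMaxOn (norm ∘ K r₀) (Metric.ball 0 1) (x r₀) := by
    intro q hq
    have hq1 : ‖q‖ < 1 := mem_ball_zero_iff.mp hq
    show ‖K r₀ q‖ ≤ ‖K r₀ (x r₀)‖
    rcases eq_or_ne q 0 with rfl | hq0
    · have hcont : ContinuousAt (K r₀) 0 :=
        ((hKdiff r₀).differentiableAt (Metric.ball_mem_nhds 0 one_pos)).continuousAt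
      have ht : Tendsto (fun q => ‖K r₀ q‖) (𝓝[≠] 0) (𝓝 ‖K r₀ 0‖) :=
        (hcont.norm.tendsto).mono_left nhdsWithin_le_nhds
      refine le_of_tendsto ht ?_
      have hev : ∀ᶠ q in 𝓝[≠] (0 : ℂ), ‖q‖ < 1 := by
        apply nhdsWithin_le_nhds
        filter_upwards [Metric.ball_mem_nhds (0 : ℂ) one_pos] with q hq
        exact mem_ball_zero_iff.mp hq
      filter_upwards [self_mem_nhdsWithin, hev] with q hq0 hq1
      exact hne q hq1 hq0
    · exact hne q hq1 hq0
  have hconst := Complex.eq_const_of_exists_max (hKdiff r₀)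
    (Metric.closedBall_subset_ball hρ1 (hx r₀)) hmaxball
  refine ⟨K r₀ (x r₀), fun z => ?_⟩
  have := hKeq r₀ (r₀⁻¹ • z)
  rw [smul_inv_smul] at this
  rw [← this]
  refine hconst ?_
  rw [mem_ball_zero_iff]
  exact Function.Periodic.norm_qParam_lt_one hN (r₀⁻¹ • z).im_pos

/-- Core lemma: a holomorphic function on `ℍ` whose `Γ₀(N)`-increments are purely imaginary
constants and which has a limit at every cusp has zero derivative. -/
theorem eq_zero_of_imaginary_increments {N : ℕ} [NeZero N] {Φ φ : ℍ → ℂ}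
    (hΦ : IsPrimitive Φ φ)
    (hinv : ∀ γ ∈ Gamma0 N, ∃ c : ℂ, c.re = 0 ∧ ∀ z : ℍ, Φ (γ • z) - Φ z = c)
    (hlim : ∀ δ : SL(2, ℤ), ∃ L : ℂ, Tendsto (fun w : ℍ => Φ (δ • w)) atImInfty (𝓝 L))
    (τ : ℍ) : φ τ = 0 := by
  obtain ⟨C, hC⟩ := exp_const_of_imaginary_increments hΦ hinv hlim
  have h1 : HasDerivAt (fun w => Complex.exp ((Φ ∘ ofComplex) w))
      (Complex.exp ((Φ ∘ ofComplex) τ) * φ τ) τ := (hΦ τ).cexp
  have h2 : HasDerivAt (fun w : ℂ => Complex.exp ((Φ ∘ ofComplex) w)) 0 τ := by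
    have : (fun w : ℂ => Complex.exp ((Φ ∘ ofComplex) w)) = fun _ => C := by
      funext w; exact hC _
    rw [this]; exact hasDerivAt_const _ _
  have := h1.unique h2
  exact (mul_eq_zero.mp this).resolve_left (Complex.exp_ne_zero _)

theorem jConjSL_smul_J_smul (γ : SL(2, ℤ)) (z : ℍ) :
    jConjSL γ • (J • z) = J • (γ • z) := by
  ext
  rw [coe_J_smul, coe_specialLinearGroup_apply, coe_specialLinearGroup_apply, coe_J_smul]
  simp only [jConjSL_coe, jConjMat_apply_zero_zero, jConjMat_apply_zero_one,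
    jConjMat_apply_one_zero, jConjMat_apply_one_one, map_div₀, map_add, map_mul,
    map_intCast, algebraMap_int_eq, eq_intCast, Int.cast_neg, Complex.ofReal_neg,
    Complex.ofReal_intCast]
  rw [← neg_div]
  congr 1 <;> ring

theorem tendsto_J_smul_atImInfty :
    Tendsto (fun w : ℍ => J • w) atImInfty atImInfty := by
  rw [atImInfty, tendsto_comap_iff]
  have : (UpperHalfPlane.im ∘ fun w : ℍ => J • w) = UpperHalfPlane.im := by
    funext w
    rw [Function.comp_apply, ← UpperHalfPlane.coe_im, coe_J_smul]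
    simp
  rw [this]
  exact tendsto_comap

/-- `conj ∘ F ∘ (z ↦ -conj z)`. -/
noncomputable def conjRefl (F : ℍ → ℂ) : ℍ → ℂ := fun z => conj (F (J • z))

theorem IsPrimitive.conjRefl {F f : ℍ → ℂ} (hF : IsPrimitive F f) :
    IsPrimitive (conjRefl F) (fun z => -conj (f (J • z))) := by
  intro τ
  have h1 : HasDerivAt (F ∘ ofComplex) (f (J • τ)) (-conj (τ : ℂ)) := by
    have := hF (J • τ)
    rwa [coe_J_smul] at this
  have h2 : HasDerivAt (fun u : ℂ => (F ∘ ofComplex) (-u)) (-f (J • τ)) (conj (τ : ℂ)) := by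
    have hneg : HasDerivAt (fun u : ℂ => -u) (-1) (conj (τ : ℂ)) := hasDerivAt_neg _
    have := HasDerivAt.comp (conj (τ : ℂ)) h1 hneg
    rw [mul_neg_one] at this
    exact this
  have h3 := h2.conj_conj
  rw [Complex.conj_conj] at h3
  have h4 : (Fermat.Agent.S21.conjRefl F ∘ ofComplex) =ᶠ[𝓝 (τ : ℂ)]
      (⇑(starRingEnd ℂ) ∘ (fun u : ℂ => (F ∘ ofComplex) (-u)) ∘ ⇑(starRingEnd ℂ)) := by
    filter_upwards [isOpen_upperHalfPlaneSet.mem_nhds τ.2] with w hw
    simp only [Function.comp_apply, Fermat.Agent.S21.conjRefl]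
    rw [J_smul, ofComplex_apply_of_im_pos hw]
  have h5 := h3.congr_of_eventuallyEq h4
  simpa using h5

theorem conjRefl_smul_sub {N : ℕ} {F : ℍ → ℂ} (hF : IsEquivariantPrimitive (Gamma0 N) F)
    (γ : Gamma0 N) (z : ℍ) :
    conjRefl F ((γ : SL(2, ℤ)) • z) - conjRefl F z = conj (hF.period (jConjGamma0 N γ)) := by
  unfold conjRefl
  rw [← jConjSL_smul_J_smul, ← map_sub]
  congr 1
  exact hF.sub_eq_period (jConjGamma0 N γ) (J • z)

theorem conjRefl_tendsto {F : ℍ → ℂ}
    (hlim : ∀ δ : SL(2, ℤ), ∃ L : ℂ, Tendsto (fun w : ℍ => F (δ • w)) atImInfty (𝓝 L))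
    (δ : SL(2, ℤ)) :
    ∃ L : ℂ, Tendsto (fun w : ℍ => conjRefl F (δ • w)) atImInfty (𝓝 L) := by
  obtain ⟨L, hL⟩ := hlim (jConjSL δ)
  refine ⟨conj L, ?_⟩
  have h1 : Tendsto (fun w : ℍ => F (jConjSL δ • (J • w))) atImInfty (𝓝 L) :=
    hL.comp tendsto_J_smul_atImInfty
  have h2 := (Complex.continuous_conj.tendsto L).comp h1
  refine h2.congr (fun w => ?_)
  simp only [Function.comp_apply, conjRefl, jConjSL_smul_J_smul]

/-- If the period homomorphism `p` of an equivariant primitive of `f` satisfies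
`p γ + ε p (jγj) = 0` for all `γ`, with `ε = ±1`, then `f = 0`. -/
theorem eq_zero_of_period_add_eps_jConj_eq_zero (N : ℕ) [NeZero N] (f : CuspForm (Gamma0 N) 2)
    (F : ℍ → ℂ) (hF : HasEquivariantPrimitive N f F) (ε : ℂ) (hε : ε = 1 ∨ ε = -1)
    (h : ∀ γ : Gamma0 N, hF.2.2.1.period γ + ε * hF.2.2.1.period (jConjGamma0 N γ) = 0) :
    f = 0 := by
  have hP : IsPrimitive F f := hF.1
  have hH := hP.conjRefl
  have hεc : conj ε = ε := by rcases hε with rfl | rfl <;> simp
  have hε2 : ε * ε = 1 := by rcases hε with rfl | rfl <;> simp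
  -- `p (jγj) = -ε p γ`
  have hp' : ∀ γ : Gamma0 N, hF.2.2.1.period (jConjGamma0 N γ) = -ε * hF.2.2.1.period γ := by
    intro γ
    have := h γ
    linear_combination ε * this - (hF.2.2.1.period (jConjGamma0 N γ)) * hε2
  -- the two auxiliary functions
  have hΦ₁ : IsPrimitive (fun z => F z + ε * conjRefl F z)
      (fun z => f z + ε * -conj (f (J • z))) := hP.add (hH.const_mul ε)
  have hΦ₂ : IsPrimitive (fun z => Complex.I * (F z - ε * conjRefl F z))
      (fun z => Complex.I * (f z - ε * -conj (f (J • z)))) :=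
    (hP.sub (hH.const_mul ε)).const_mul Complex.I
  have hinc₁ : ∀ γ ∈ Gamma0 N, ∃ c : ℂ, c.re = 0 ∧
      ∀ z : ℍ, (F (γ • z) + ε * conjRefl F (γ • z)) - (F z + ε * conjRefl F z) = c := by
    intro γ hγ
    set γ' : Gamma0 N := ⟨γ, hγ⟩
    refine ⟨hF.2.2.1.period γ' - conj (hF.2.2.1.period γ'), by simp, fun z => ?_⟩
    have e1 := hF.2.2.1.sub_eq_period γ' z
    have e2 := conjRefl_smul_sub hF.2.2.1 γ' z
    rw [hp' γ', map_mul, map_neg, hεc] at e2
    change F (γ • z) - F z = _ at e1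
    change conjRefl F (γ • z) - conjRefl F z = _ at e2
    linear_combination e1 + ε * e2 - conj (hF.2.2.1.period γ') * hε2
  have hinc₂ : ∀ γ ∈ Gamma0 N, ∃ c : ℂ, c.re = 0 ∧
      ∀ z : ℍ, Complex.I * (F (γ • z) - ε * conjRefl F (γ • z)) -
        Complex.I * (F z - ε * conjRefl F z) = c := by
    intro γ hγ
    set γ' : Gamma0 N := ⟨γ, hγ⟩
    refine ⟨Complex.I * (hF.2.2.1.period γ' + conj (hF.2.2.1.period γ')), by simp, fun z => ?_⟩
    have e1 := hF.2.2.1.sub_eq_period γ' z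
    have e2 := conjRefl_smul_sub hF.2.2.1 γ' z
    rw [hp' γ', map_mul, map_neg, hεc] at e2
    change F (γ • z) - F z = _ at e1
    change conjRefl F (γ • z) - conjRefl F z = _ at e2
    linear_combination Complex.I * e1 - Complex.I * ε * e2 +
      Complex.I * conj (hF.2.2.1.period γ') * hε2
  have hlimH := conjRefl_tendsto hF.2.2.2
  have hlim₁ : ∀ δ : SL(2, ℤ), ∃ L : ℂ,
      Tendsto (fun w : ℍ => F (δ • w) + ε * conjRefl F (δ • w)) atImInfty (𝓝 L) := by
    intro δ
    obtain ⟨L, hL⟩ := hF.2.2.2 δ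
    obtain ⟨L', hL'⟩ := hlimH δ
    exact ⟨L + ε * L', hL.add (hL'.const_mul ε)⟩
  have hlim₂ : ∀ δ : SL(2, ℤ), ∃ L : ℂ,
      Tendsto (fun w : ℍ => Complex.I * (F (δ • w) - ε * conjRefl F (δ • w))) atImInfty
        (𝓝 L) := by
    intro δ
    obtain ⟨L, hL⟩ := hF.2.2.2 δ
    obtain ⟨L', hL'⟩ := hlimH δ
    exact ⟨Complex.I * (L - ε * L'), (hL.sub (hL'.const_mul ε)).const_mul Complex.I⟩
  ext τ
  have z1 := eq_zero_of_imaginary_increments hΦ₁ hinc₁ hlim₁ τ
  have z2 := eq_zero_of_imaginary_increments hΦ₂ hinc₂ hlim₂ τ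
  have z3 : f τ - ε * -conj (f (J • τ)) = 0 :=
    (mul_eq_zero.mp z2).resolve_left Complex.I_ne_zero
  rw [zero_apply]
  linear_combination (1 / 2 : ℂ) * z1 + (1 / 2 : ℂ) * z3

/-- Piece D of S21: if every cusp form has an equivariant primitive and the period map is linear,
then `periodHomPair N` is injective. -/
theorem periodHomPair_injective_of (N : ℕ) [NeZero N]
    (hex : ∀ f : CuspForm (Gamma0 N) 2, ∃ F : ℍ → ℂ, HasEquivariantPrimitive N f F)
    (hlin : ExistsPeriodMapLinear N) : Function.Injective (periodHomPair N) := by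
  obtain ⟨pml, hpml, hdef⟩ := periodHomPair_def N hlin
  rw [injective_iff_map_eq_zero]
  rintro ⟨f, g⟩ hfg
  rw [hdef] at hfg
  -- evaluate at `γ` and at `jγj`
  have key : ∀ γ : Gamma0 N,
      (pml f (Additive.ofMul γ) + pml f (Additive.ofMul (jConjGamma0 N γ))) +
        (pml g (Additive.ofMul γ) - pml g (Additive.ofMul (jConjGamma0 N γ))) = 0 := by
    intro γ
    have := DFunLike.congr_fun hfg (Additive.ofMul γ)
    simpa using this
  have keyf : ∀ γ : Gamma0 N,
      pml f (Additive.ofMul γ) + pml f (Additive.ofMul (jConjGamma0 N γ)) = 0 := by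
    intro γ
    have h1 := key γ
    have h2 := key (jConjGamma0 N γ)
    rw [jConjGamma0_jConjGamma0] at h2
    linear_combination (1 / 2 : ℂ) * h1 + (1 / 2 : ℂ) * h2
  have keyg : ∀ γ : Gamma0 N,
      pml g (Additive.ofMul γ) - pml g (Additive.ofMul (jConjGamma0 N γ)) = 0 := by
    intro γ
    have h1 := key γ
    have h2 := key (jConjGamma0 N γ)
    rw [jConjGamma0_jConjGamma0] at h2
    linear_combination (1 / 2 : ℂ) * h1 - (1 / 2 : ℂ) * h2
  have hf0 : f = 0 := by
    obtain ⟨F, hF⟩ := hex f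
    obtain ⟨F₀, h₀, hF₀⟩ := periodMap_def N f hF
    refine eq_zero_of_period_add_eps_jConj_eq_zero N f F₀ h₀ 1 (Or.inl rfl) (fun γ => ?_)
    have := keyf γ
    rw [hpml f, hF₀] at this
    simpa using this
  have hg0 : g = 0 := by
    obtain ⟨G, hG⟩ := hex g
    obtain ⟨G₀, h₀, hG₀⟩ := periodMap_def N g hG
    refine eq_zero_of_period_add_eps_jConj_eq_zero N g G₀ h₀ (-1) (Or.inr rfl) (fun γ => ?_)
    have := keyg γ
    rw [hpml g, hG₀] at this
    simpa [sub_eq_add_neg] using this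
  rw [hf0, hg0]
  rfl

end Fermat.Agent.S21


end ZBS21_001_3
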