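/- GENERATED FILE (helper35, build-time optimisation, NOTES/ZB.md): verbatim concatenation of the modules
   Fermat.Agent.ES.EigenCore
   Fermat.Agent.ES.EigenLattice
   Fermat.Agent.ES.EigenWords
   Do not edit; do not import together with these modules. -/
import Mathlib
import Fermat.Agent.ZB.S21_001

/-! ### bundled: `Fermat.Agent.ES.EigenCore` -/
section ZBES_008_0

/-!
# ESpkg-G1 piece A5, core algebra (helper39)

`Fermat.Agent.ES.modp_joint_kernel`: a family of integer matrices `A j` with a common eigenvector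
over a domain `K ⊇ R` whose eigenvalues `z j` lie in a proper ideal `𝔪 ∋ p` of `R` has a nonzero
common kernel vector modulo `p`.  No commutativity of the `A j` is needed.
-/

set_option autoImplicit false

namespace Fermat.Agent.ES

open Matrix

section Core

variable {R K : Type*} [CommRing R] [CommRing K] [IsDomain K]

/-- **Core lemma (matrix form).**  -/
theorem modp_joint_kernel (ι : R →+* K) (hι : Function.Injective ι)
    {r : ℕ} {J : Type*} (A : J → Matrix (Fin r) (Fin r) ℤ) (z : J → R)
    (p : ℕ) [Fact p.Prime] (𝔪 : Ideal R) (h𝔪 : 𝔪 ≠ ⊤) (hp : (p : R) ∈ 𝔪) (hz : ∀ j, z j ∈ 𝔪)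
    (c : Fin r → K) (hc : c ≠ 0)
    (h : ∀ j, (Int.castRingHom K).mapMatrix (A j) *ᵥ c = ι (z j) • c) :
    ∃ x : Fin r → ZMod p, x ≠ 0 ∧ ∀ j, (Int.castRingHom (ZMod p)).mapMatrix (A j) *ᵥ x = 0 := by
  classical
  by_contra hcon
  push Not at hcon
  -- choose, for every nonzero vector, an index that does not kill it
  let X := {x : Fin r → ZMod p // x ≠ 0}
  have hX : ∀ x : X, ∃ j, (Int.castRingHom (ZMod p)).mapMatrix (A j) *ᵥ x.1 ≠ 0 :=
    fun x => hcon x.1 x.2
  choose j hj using hX
  -- the joint map is injective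
  let F : (Fin r → ZMod p) →ₗ[ZMod p] (X → Fin r → ZMod p) :=
    LinearMap.pi (fun x => Matrix.mulVecLin ((Int.castRingHom (ZMod p)).mapMatrix (A (j x))))
  have hF : LinearMap.ker F = ⊥ := by
    rw [LinearMap.ker_eq_bot']
    intro y hy
    by_contra hy0
    apply hj ⟨y, hy0⟩
    have := congrFun hy ⟨y, hy0⟩
    simpa [F] using this
  obtain ⟨G, hG⟩ := LinearMap.exists_leftInverse_of_injective F hF
  -- matrices of the components of the left inverse
  let B : X → Matrix (Fin r) (Fin r) (ZMod p) :=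
    fun x => LinearMap.toMatrix' (G ∘ₗ LinearMap.single (ZMod p) (fun _ : X => Fin r → ZMod p) x)
  have hB : ∑ x : X, B x * (Int.castRingHom (ZMod p)).mapMatrix (A (j x)) = 1 := by
    apply (Matrix.toLin' (R := ZMod p)).injective
    apply LinearMap.ext
    intro y
    rw [map_sum, LinearMap.sum_apply, Matrix.toLin'_one, LinearMap.id_apply]
    have h1 : ∀ x : X, Matrix.toLin' (B x * (Int.castRingHom (ZMod p)).mapMatrix (A (j x))) y
        = G (Pi.single x (F y x)) := by
      intro x
      rw [Matrix.toLin'_mul]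
      simp [B, F, Matrix.toLin'_toMatrix']
    rw [Finset.sum_congr rfl (fun x _ => h1 x), ← map_sum]
    rw [LinearMap.sum_single_apply (fun _ : X => Fin r → ZMod p) (F y)]
    exact LinearMap.congr_fun hG y
  -- integer lifts
  let Bt : X → Matrix (Fin r) (Fin r) ℤ := fun x => (B x).map (fun a => (a.cast : ℤ))
  have hBt : ∀ x, (Int.castRingHom (ZMod p)).mapMatrix (Bt x) = B x := by
    intro x
    ext i k
    simp [Bt]
  -- the integer matrix `Σ Bt A` is `1` mod `p`
  let S : Matrix (Fin r) (Fin r) ℤ := ∑ x : X, Bt x * A (j x)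
  have hS : (Int.castRingHom (ZMod p)).mapMatrix S = 1 := by
    simp only [S, map_sum, map_mul, hBt]
    exact hB
  -- the matrix Θ over `R`
  let Θ : Matrix (Fin r) (Fin r) R :=
    ∑ x : X, (Int.castRingHom R).mapMatrix (Bt x) *
      ((Int.castRingHom R).mapMatrix (A (j x)) - z (j x) • (1 : Matrix (Fin r) (Fin r) R))
  let π : R →+* R ⧸ 𝔪 := Ideal.Quotient.mk 𝔪
  have hπz : ∀ j, π (z j) = 0 := fun j => Ideal.Quotient.eq_zero_iff_mem.mpr (hz j)
  have hπp : π (p : R) = 0 := Ideal.Quotient.eq_zero_iff_mem.mpr hp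
  have hcomp : ∀ M : Matrix (Fin r) (Fin r) ℤ,
      π.mapMatrix ((Int.castRingHom R).mapMatrix M) = (Int.castRingHom (R ⧸ 𝔪)).mapMatrix M := by
    intro M
    ext i k
    simp
  have hΘπ : π.mapMatrix Θ = 1 := by
    have e1 : π.mapMatrix Θ = (Int.castRingHom (R ⧸ 𝔪)).mapMatrix S := by
      simp only [Θ, S, map_sum, map_mul, map_sub, hcomp]
      refine Finset.sum_congr rfl (fun x _ => ?_)
      congr 1
      have : π.mapMatrix (z (j x) • (1 : Matrix (Fin r) (Fin r) R)) = 0 := by
        ext i k
        simp [Matrix.smul_apply, hπz]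
      rw [this, sub_zero]
    rw [e1]
    ext i k
    have h2 := congrFun (congrFun hS i) k
    simp only [RingHom.mapMatrix_apply, Matrix.map_apply, Int.coe_castRingHom] at h2 ⊢
    -- `S i k ≡ δ_ik mod p`
    have h3 : ((S i k - (1 : Matrix (Fin r) (Fin r) ℤ) i k : ℤ) : ZMod p) = 0 := by
      rw [Int.cast_sub, h2]
      by_cases hik : i = k
      · subst hik; simp
      · simp [hik]
    rw [ZMod.intCast_zmod_eq_zero_iff_dvd] at h3
    obtain ⟨q, hq⟩ := h3
    have h4 : S i k = (1 : Matrix (Fin r) (Fin r) ℤ) i k + p * q := by linarith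
    rw [h4]
    have hp' : ((p : ℕ) : R ⧸ 𝔪) = 0 := by
      have : ((p : ℕ) : R ⧸ 𝔪) = π (p : R) := by simp
      rw [this, hπp]
    by_cases hik : i = k
    · subst hik; simp [hp']
    · simp [hik, hp']
  -- `Θ` kills `c` over `K`
  have hΘc : ι.mapMatrix Θ *ᵥ c = 0 := by
    have hcompK : ∀ M : Matrix (Fin r) (Fin r) ℤ,
        ι.mapMatrix ((Int.castRingHom R).mapMatrix M) = (Int.castRingHom K).mapMatrix M := by
      intro M
      ext i k
      simp
    simp only [Θ, map_sum, map_mul, map_sub, hcompK]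
    rw [Matrix.sum_mulVec]
    refine Finset.sum_eq_zero (fun x _ => ?_)
    rw [← Matrix.mulVec_mulVec, Matrix.sub_mulVec, h (j x)]
    have : ι.mapMatrix (z (j x) • (1 : Matrix (Fin r) (Fin r) R)) *ᵥ c = ι (z (j x)) • c := by
      have e : ι.mapMatrix (z (j x) • (1 : Matrix (Fin r) (Fin r) R))
          = ι (z (j x)) • (1 : Matrix (Fin r) (Fin r) K) := by
        ext i k
        by_cases hik : i = k
        · subst hik; simp
        · simp [hik]
      rw [e, Matrix.smul_mulVec, Matrix.one_mulVec]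
    rw [this, sub_self, Matrix.mulVec_zero]
  have hdetK : (ι.mapMatrix Θ).det = 0 := Matrix.exists_mulVec_eq_zero_iff.mp ⟨c, hc, hΘc⟩
  have hdet : Θ.det = 0 := by
    apply hι
    rw [RingHom.map_det, hdetK, map_zero]
  have h1 : π Θ.det = 1 := by rw [RingHom.map_det, hΘπ, Matrix.det_one]
  rw [hdet, map_zero] at h1
  apply h𝔪
  rw [Ideal.eq_top_iff_one]
  exact Ideal.Quotient.eq_zero_iff_mem.mp h1.symm

end Core

section Lattice

variable {R K : Type*} [CommRing R] [Field K]

/-- **Core lemma (lattice form).**  `L` a finite free `ℤ`-module with endomorphisms `T j`, mapping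
equivariantly to a `K`-vector space `W` such that `ℤ`-independent families stay `K`-independent.
A nonzero joint eigenvector in the `K`-span of `L` with eigenvalues in a proper ideal `𝔪 ∋ p` of
`R ⊆ K` produces `x ∈ L ∖ pL` with `T j x ∈ pL` for all `j`. -/
theorem lattice_joint_kernel (ι : R →+* K) (hι : Function.Injective ι)
    {L : Type*} [AddCommGroup L] [Module.Finite ℤ L] [Module.Free ℤ L]
    {W : Type*} [AddCommGroup W] [Module K W] (e : L →+ W)
    (he : ∀ (n : ℕ) (b : Fin n → L), LinearIndependent ℤ b → LinearIndependent K (fun k => e (b k)))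
    {J : Type*} (T : J → (L →+ L)) (TW : J → (W →ₗ[K] W))
    (hT : ∀ j x, TW j (e x) = e (T j x)) (z : J → R)
    (p : ℕ) [Fact p.Prime] (𝔪 : Ideal R) (h𝔪 : 𝔪 ≠ ⊤) (hp : (p : R) ∈ 𝔪) (hz : ∀ j, z j ∈ 𝔪)
    (v : W) (hv0 : v ≠ 0) (hvspan : v ∈ Submodule.span K (Set.range e))
    (hv : ∀ j, TW j v = ι (z j) • v) :
    ∃ x : L, (¬ ∃ y : L, x = p • y) ∧ ∀ j, ∃ y : L, T j x = p • y := by
  classical
  set r := Module.finrank ℤ L with hr
  let b : Module.Basis (Fin r) ℤ L := Module.finBasis ℤ L
  have hind : LinearIndependent K (fun k => e (b k)) := he r b b.linearIndependent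
  -- `v` is a `K`-combination of the `e (b k)`
  have hspan : Submodule.span K (Set.range e) ≤ Submodule.span K (Set.range fun k => e (b k)) := by
    rw [Submodule.span_le]
    rintro _ ⟨x, rfl⟩
    have hx : x = ∑ k, (b.repr x k) • b k := (b.sum_repr x).symm
    rw [hx, map_sum]
    refine Submodule.sum_mem _ (fun k _ => ?_)
    rw [map_zsmul]
    rw [← Int.cast_smul_eq_zsmul K]
    exact Submodule.smul_mem _ _ (Submodule.subset_span ⟨k, rfl⟩)
  obtain ⟨c, hc⟩ := (Submodule.mem_span_range_iff_exists_fun K).mp (hspan hvspan)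
  have hc0 : c ≠ 0 := by
    rintro rfl
    apply hv0
    rw [← hc]
    simp
  let A : J → Matrix (Fin r) (Fin r) ℤ := fun j => LinearMap.toMatrix b b (T j).toIntLinearMap
  -- `T j (b k) = Σ_i A j i k • b i`
  have hTb : ∀ j k, T j (b k) = ∑ i, (A j i k) • b i := by
    intro j k
    simp [A, LinearMap.toMatrix_apply]
  have heig : ∀ j, (Int.castRingHom K).mapMatrix (A j) *ᵥ c = ι (z j) • c := by
    intro j
    have h1 : TW j v = ∑ i, ((Int.castRingHom K).mapMatrix (A j) *ᵥ c) i • e (b i) := by
      rw [← hc, map_sum]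
      have h2 : ∀ k, TW j (c k • e (b k)) = ∑ i, (c k * ((A j i k : ℤ) : K)) • e (b i) := by
        intro k
        rw [map_smul, hT, hTb, map_sum, Finset.smul_sum]
        refine Finset.sum_congr rfl (fun i _ => ?_)
        rw [map_zsmul, ← Int.cast_smul_eq_zsmul K, smul_smul]
      rw [Finset.sum_congr rfl (fun k _ => h2 k), Finset.sum_comm]
      refine Finset.sum_congr rfl (fun i _ => ?_)
      rw [← Finset.sum_smul]
      congr 1
      simp only [Matrix.mulVec, dotProduct, RingHom.mapMatrix_apply, Matrix.map_apply,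
        Int.coe_castRingHom]
      exact Finset.sum_congr rfl (fun k _ => mul_comm _ _)
    have h3 : TW j v = ∑ i, (ι (z j) • c) i • e (b i) := by
      rw [hv, ← hc, Finset.smul_sum]
      refine Finset.sum_congr rfl (fun i _ => ?_)
      rw [Pi.smul_apply, smul_eq_mul, smul_smul]
    have h4 : ∑ i, (((Int.castRingHom K).mapMatrix (A j) *ᵥ c) i - (ι (z j) • c) i) • e (b i)
        = 0 := by
      simp only [sub_smul, Finset.sum_sub_distrib]
      rw [← h1, ← h3, sub_self]
    have h5 := (Fintype.linearIndependent_iff.mp hind) _ h4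
    funext i
    exact sub_eq_zero.mp (h5 i)
  obtain ⟨xb, hxb0, hxb⟩ := modp_joint_kernel ι hι A z p 𝔪 h𝔪 hp hz c hc0 heig
  -- lift `xb` to `L`
  let xt : Fin r → ℤ := fun k => ((xb k).cast : ℤ)
  have hxt : ∀ k, ((xt k : ℤ) : ZMod p) = xb k := fun k => ZMod.intCast_zmod_cast (xb k)
  refine ⟨∑ k, xt k • b k, ?_, ?_⟩
  · rintro ⟨y, hy⟩
    apply hxb0
    funext k
    have h1 := congrArg (fun u => b.repr u k) hy
    simp only [b.repr_sum_self] at h1
    rw [← hxt k]
    have h2 : xt k = (p : ℤ) * b.repr y k := by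
      rw [h1]
      simp
    rw [h2]
    simp
  · intro j
    have h1 : ∀ i, (p : ℤ) ∣ b.repr (T j (∑ k, xt k • b k)) i := by
      intro i
      have h2 := LinearMap.toMatrix_mulVec_repr b b (T j).toIntLinearMap (∑ k, xt k • b k)
      have h3 : b.repr (T j (∑ k, xt k • b k)) i = (A j *ᵥ xt) i := by
        have := congrFun h2 i
        rw [b.repr_sum_self] at this
        exact this.symm
      rw [h3, ← ZMod.intCast_zmod_eq_zero_iff_dvd]
      have h4 := RingHom.map_mulVec (Int.castRingHom (ZMod p)) (A j) xt i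
      have h5 : (⇑(Int.castRingHom (ZMod p)) ∘ xt) = xb := by
        funext k
        exact hxt k
      rw [h5] at h4
      have h6 := congrFun (hxb j) i
      simp only [RingHom.mapMatrix_apply] at h6
      rw [h6] at h4
      simpa using h4
    choose q hq using h1
    refine ⟨∑ i, q i • b i, ?_⟩
    rw [b.ext_elem_iff]
    intro i
    rw [hq i, map_nsmul, Finsupp.smul_apply, b.repr_sum_self]
    simp

end Lattice

end Fermat.Agent.ES


end ZBES_008_0

/-! ### bundled: `Fermat.Agent.ES.EigenLattice` -/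
section ZBES_008_1

/-!
# ESpkg-G1 piece A5, the lattice of integral homomorphisms (helper39)

For a finitely generated group `G` and a set `P ⊆ G` ("parabolic elements"):

* `Fermat.Agent.ES.intHoms G P` : the `ℤ`-module of homomorphisms `G → ℤ` vanishing on `P`;
  it is finite and free;
* `ℤ`-independent families of integer-valued functions stay `ℂ`-independent
  (`linearIndependent_intCast_fun`);
* every homomorphism `G → ℂ` vanishing on `P` is a `ℂ`-combination of elements of `intHoms G P`
  (`mem_span_range_castHom`);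
* `Fermat.Agent.ES.exists_modp_eigen_hom` : the mod-`p` eigen-support statement for a family of
  natural endomorphisms of the functor `A ↦ Hom(G, A)`.
-/

set_option autoImplicit false

namespace Fermat.Agent.ES

section Indep

/-- Finitely many complex numbers have `ℤ`-coordinates: `ℤ`-independent families of integer-valued
functions stay `ℂ`-independent. -/
theorem linearIndependent_intCast_fun {X : Type*} {n : ℕ} (b : Fin n → X → ℤ)
    (hb : LinearIndependent ℤ b) :
    LinearIndependent ℂ (fun k : Fin n => fun x : X => ((b k x : ℤ) : ℂ)) := by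
  classical
  rw [Fintype.linearIndependent_iff]
  intro c hc
  -- the lattice generated by the coefficients
  let Λ : Submodule ℤ ℂ := Submodule.span ℤ (Set.range c)
  have : Module.Finite ℤ Λ := Module.Finite.span_of_finite ℤ (Set.finite_range c)
  have : Module.Free ℤ Λ := Module.free_of_finite_type_torsion_free'
  let ν := Module.finBasis ℤ Λ
  let c' : Fin n → Λ := fun k => ⟨c k, Submodule.subset_span ⟨k, rfl⟩⟩
  have hrel : ∀ x : X, ∑ k, (b k x) • c' k = 0 := by
    intro x
    apply Subtype.ext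
    have h1 := congrFun hc x
    simp only [Finset.sum_apply, Pi.smul_apply, smul_eq_mul, Pi.zero_apply] at h1
    rw [Submodule.coe_sum, Submodule.coe_zero, ← h1]
    refine Finset.sum_congr rfl (fun k _ => ?_)
    rw [Submodule.coe_smul, zsmul_eq_mul]
    exact mul_comm _ _
  have hcoord : ∀ m k, ν.coord m (c' k) = 0 := by
    intro m
    have h2 : ∑ k, (ν.coord m (c' k)) • b k = 0 := by
      funext x
      have h3 := congrArg (ν.coord m) (hrel x)
      rw [map_sum, map_zero] at h3
      simp only [Finset.sum_apply, Pi.smul_apply, smul_eq_mul, Pi.zero_apply]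
      rw [← h3]
      refine Finset.sum_congr rfl (fun k _ => ?_)
      rw [map_smul, smul_eq_mul, mul_comm]
    exact Fintype.linearIndependent_iff.mp hb _ h2
  intro k
  have h4 : c' k = 0 := ν.forall_coord_eq_zero_iff.mp (fun m => hcoord m k)
  exact congrArg Subtype.val h4

end Indep

section Lattice

variable (G : Type*) [Group G] (P : Set G)

/-- homomorphisms `G → ℤ` vanishing on `P` -/
def intHoms : Submodule ℤ (Additive G →+ ℤ) where
  carrier := {φ | ∀ g ∈ P, φ (Additive.ofMul g) = 0}
  zero_mem' := fun _ _ => rfl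
  add_mem' := by
    intro φ ψ hφ hψ g hg
    show φ (Additive.ofMul g) + ψ (Additive.ofMul g) = 0
    rw [hφ g hg, hψ g hg, add_zero]
  smul_mem' := by
    intro c φ hφ g hg
    show c • φ (Additive.ofMul g) = 0
    rw [hφ g hg, smul_zero]

variable {G P}

lemma mem_intHoms {φ : Additive G →+ ℤ} :
    φ ∈ intHoms G P ↔ ∀ g ∈ P, φ (Additive.ofMul g) = 0 := Iff.rfl

instance isTorsionFree_addHom_int : Module.IsTorsionFree ℤ (Additive G →+ ℤ) := by
  apply Module.IsTorsionFree.of_smul_eq_zero
  intro r φ h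
  by_cases hr : r = 0
  · exact Or.inl hr
  · right
    ext g
    have h1 : r • φ g = 0 := DFunLike.congr_fun h g
    rw [smul_eq_mul] at h1
    rcases mul_eq_zero.mp h1 with h2 | h2
    · exact absurd h2 hr
    · exact h2

variable (G) in
/-- `Hom(G, ℤ)` is a finite `ℤ`-module when `G` is finitely generated -/
theorem finite_addHom_int [Group.FG G] : Module.Finite ℤ (Additive G →+ ℤ) := by
  classical
  obtain ⟨S, hS, hSfin⟩ := AddGroup.fg_iff.mp (AddGroup.fg_of_group_fg (G := G))
  have : Finite S := hSfin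
  let ev : (Additive G →+ ℤ) →ₗ[ℤ] (S → ℤ) :=
    { toFun := fun φ s => φ (s : Additive G)
      map_add' := fun _ _ => rfl
      map_smul' := fun _ _ => rfl }
  refine Module.Finite.of_injective ev ?_
  intro φ ψ h
  exact AddMonoidHom.eq_of_eqOn_dense hS (fun s hs => congrFun h ⟨s, hs⟩)

variable (G P) in
theorem finite_intHoms [Group.FG G] : Module.Finite ℤ (intHoms G P) := by
  have := finite_addHom_int G
  infer_instance

variable (G P) in
theorem free_intHoms [Group.FG G] : Module.Free ℤ (intHoms G P) := by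
  have := finite_intHoms G P
  exact Module.free_of_finite_type_torsion_free'

/-- the map `Hom(G, ℤ) → Hom(G, ℂ)` -/
noncomputable def castHomC : (Additive G →+ ℤ) →+ (Additive G →+ ℂ) where
  toFun φ := (Int.castAddHom ℂ).comp φ
  map_zero' := by ext; simp
  map_add' φ ψ := by ext; simp

@[simp] lemma castHomC_apply (φ : Additive G →+ ℤ) (g : Additive G) :
    castHomC φ g = ((φ g : ℤ) : ℂ) := rfl

/-- `ℤ`-independent families of integral homs stay `ℂ`-independent -/
theorem linearIndependent_castHomC {n : ℕ} (b : Fin n → (Additive G →+ ℤ))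
    (hb : LinearIndependent ℤ b) : LinearIndependent ℂ (fun k => castHomC (b k)) := by
  -- pass to functions
  let toFunZ : (Additive G →+ ℤ) →ₗ[ℤ] (Additive G → ℤ) :=
    { toFun := fun φ g => φ g
      map_add' := fun _ _ => rfl
      map_smul' := fun _ _ => rfl }
  let toFunC : (Additive G →+ ℂ) →ₗ[ℂ] (Additive G → ℂ) :=
    { toFun := fun φ g => φ g
      map_add' := fun _ _ => rfl
      map_smul' := fun _ _ => rfl }
  have h1 : LinearIndependent ℤ (toFunZ ∘ b) := by
    apply hb.map'
    rw [LinearMap.ker_eq_bot]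
    intro φ ψ h
    ext g
    exact congrFun h g
  have h2 := linearIndependent_intCast_fun (toFunZ ∘ b) h1
  exact LinearIndependent.of_comp toFunC h2

/-- every hom `G → ℂ` vanishing on `P` is a `ℂ`-combination of integral homs vanishing on `P` -/
theorem mem_span_range_castHomC [Group.FG G] (v : Additive G →+ ℂ)
    (hv : ∀ g ∈ P, v (Additive.ofMul g) = 0) :
    v ∈ Submodule.span ℂ (Set.range fun x : intHoms G P => castHomC (x : Additive G →+ ℤ)) := by
  classical
  have hfg : AddGroup.FG (Additive G) := AddGroup.fg_of_group_fg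
  let Λ : Submodule ℤ ℂ := AddSubgroup.toIntSubmodule v.range
  have hΛfg : AddGroup.FG v.range := AddGroup.fg_range v
  have : Module.Finite ℤ Λ := Module.Finite.iff_addGroup_fg.mpr hΛfg
  have : Module.Free ℤ Λ := Module.free_of_finite_type_torsion_free'
  let ν := Module.finBasis ℤ Λ
  let v' : Additive G →+ Λ :=
    { toFun := fun g => ⟨v g, ⟨g, rfl⟩⟩
      map_zero' := Subtype.ext (map_zero v)
      map_add' := fun a b => Subtype.ext (map_add v a b) }
  let φ : Fin (Module.finrank ℤ Λ) → (Additive G →+ ℤ) :=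
    fun m => (ν.coord m).toAddMonoidHom.comp v'
  have hφ : ∀ m, φ m ∈ intHoms G P := by
    intro m g hg
    have h0 : v' (Additive.ofMul g) = 0 := Subtype.ext (hv g hg)
    show ν.coord m (v' (Additive.ofMul g)) = 0
    rw [h0, map_zero]
  have hsum : v = ∑ m, ((ν m : Λ) : ℂ) • castHomC (φ m) := by
    refine DFunLike.ext _ _ (fun g => ?_)
    have h1 := ν.sum_repr (v' g)
    have h2 := congrArg (Subtype.val) h1
    rw [Submodule.coe_sum] at h2
    have h3 : (v g : ℂ) = ((v' g : Λ) : ℂ) := rfl
    rw [h3, ← h2]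
    simp only [AddMonoidHom.coe_finsetSum, Finset.sum_apply, AddMonoidHom.smul_apply,
      castHomC_apply, smul_eq_mul]
    refine Finset.sum_congr rfl (fun m _ => ?_)
    rw [Submodule.coe_smul, zsmul_eq_mul, mul_comm]
    rfl
  rw [hsum]
  refine Submodule.sum_mem _ (fun m _ => ?_)
  exact Submodule.smul_mem _ _ (Submodule.subset_span ⟨⟨φ m, hφ m⟩, rfl⟩)


/-- saturation: an integral hom whose reduction mod `p` vanishes is `p` times an integral hom,
and the quotient still vanishes on `P` -/
theorem exists_eq_nsmul_of_castHom_eq_zero (p : ℕ) (hp0 : p ≠ 0) (x : Additive G →+ ℤ)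
    (hxP : x ∈ intHoms G P) (hx : (Int.castAddHom (ZMod p)).comp x = 0) :
    ∃ y : Additive G →+ ℤ, y ∈ intHoms G P ∧ x = p • y := by
  have hdvd : ∀ g, (p : ℤ) ∣ x g := by
    intro g
    have h1 : ((x g : ℤ) : ZMod p) = 0 := DFunLike.congr_fun hx g
    exact (ZMod.intCast_zmod_eq_zero_iff_dvd _ _).mp h1
  have hp0' : (p : ℤ) ≠ 0 := by exact_mod_cast hp0
  let y : Additive G →+ ℤ :=
    { toFun := fun g => x g / (p : ℤ)
      map_zero' := by simp
      map_add' := by
        intro a b
        show x (a + b) / (p : ℤ) = x a / (p : ℤ) + x b / (p : ℤ)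
        rw [map_add, Int.add_ediv_of_dvd_left (hdvd a)] }
  have hy : ∀ g, x g = p * y g := fun g => (Int.mul_ediv_cancel' (hdvd g)).symm
  refine ⟨y, ?_, ?_⟩
  · intro g hg
    have h1 := hy (Additive.ofMul g)
    rw [hxP g hg] at h1
    rcases mul_eq_zero.mp h1.symm with h2 | h2
    · exact absurd h2 hp0'
    · exact h2
  · refine DFunLike.ext _ _ (fun g => ?_)
    rw [hy g]
    simp

/-- **A5, generic form.**  Let `T j` be a family of natural endomorphisms of `A ↦ Hom(G, A)`
preserving the integral homs vanishing on `P`.  A nonzero joint eigenvector `v : G → ℂ` vanishing on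
`P` whose eigenvalues lie in a proper ideal `𝔪 ∋ p` of a subring `R ⊆ ℂ` yields an integral hom `x`
vanishing on `P` whose reduction mod `p` is nonzero and killed by all `T j`. -/
theorem exists_modp_eigen_hom [Group.FG G] {J : Type*}
    (T : J → ∀ (A : Type) [AddCommGroup A], (Additive G →+ A) →+ (Additive G →+ A))
    (hnat : ∀ (j : J) (A A' : Type) [AddCommGroup A] [AddCommGroup A'] (f : A →+ A')
      (φ : Additive G →+ A), T j A' (f.comp φ) = f.comp (T j A φ))
    (hpar : ∀ (j : J) (φ : Additive G →+ ℤ), φ ∈ intHoms G P → T j ℤ φ ∈ intHoms G P)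
    {R : Type*} [CommRing R] (ι : R →+* ℂ) (hι : Function.Injective ι) (z : J → R)
    (p : ℕ) [Fact p.Prime] (𝔪 : Ideal R) (h𝔪 : 𝔪 ≠ ⊤) (hp : (p : R) ∈ 𝔪) (hz : ∀ j, z j ∈ 𝔪)
    (v : Additive G →+ ℂ) (hv0 : v ≠ 0) (hvP : ∀ g ∈ P, v (Additive.ofMul g) = 0)
    (hv : ∀ j, T j ℂ v = ι (z j) • v) :
    ∃ x : Additive G →+ ℤ, x ∈ intHoms G P ∧ (Int.castAddHom (ZMod p)).comp x ≠ 0 ∧
      ∀ j, T j (ZMod p) ((Int.castAddHom (ZMod p)).comp x) = 0 := by
  classical
  have hfin := finite_intHoms G P
  have hfree := free_intHoms G P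
  -- the data for the lattice lemma
  let e : intHoms G P →+ (Additive G →+ ℂ) := castHomC.comp (intHoms G P).subtype.toAddMonoidHom
  have he_apply : ∀ x : intHoms G P, e x = castHomC (x : Additive G →+ ℤ) := fun _ => rfl
  let TL : J → (intHoms G P →+ intHoms G P) := fun j =>
    { toFun := fun x => ⟨T j ℤ (x : Additive G →+ ℤ), hpar j x x.2⟩
      map_zero' := Subtype.ext (map_zero (T j ℤ))
      map_add' := fun a b => Subtype.ext (map_add (T j ℤ) (a : Additive G →+ ℤ) b) }
  have hsmul : ∀ (c : ℂ) (φ : Additive G →+ ℂ), c • φ = (AddMonoidHom.mulLeft c).comp φ := by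
    intro c φ
    refine DFunLike.ext _ _ (fun g => ?_)
    rfl
  let TW : J → ((Additive G →+ ℂ) →ₗ[ℂ] (Additive G →+ ℂ)) := fun j =>
    { toFun := fun φ => T j ℂ φ
      map_add' := fun a b => map_add (T j ℂ) a b
      map_smul' := by
        intro c φ
        show T j ℂ (c • φ) = c • T j ℂ φ
        rw [hsmul, hsmul, hnat] }
  have hT : ∀ j x, TW j (e x) = e (TL j x) := by
    intro j x
    show T j ℂ ((Int.castAddHom ℂ).comp (x : Additive G →+ ℤ))
      = (Int.castAddHom ℂ).comp (T j ℤ (x : Additive G →+ ℤ))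
    exact hnat j ℤ ℂ _ _
  have he : ∀ (n : ℕ) (b : Fin n → intHoms G P), LinearIndependent ℤ b →
      LinearIndependent ℂ (fun k => e (b k)) := by
    intro n b hb
    have h1 : LinearIndependent ℤ ((intHoms G P).subtype ∘ b) :=
      hb.map' _ (Submodule.ker_subtype _)
    exact linearIndependent_castHomC _ h1
  have hvspan : v ∈ Submodule.span ℂ (Set.range e) := mem_span_range_castHomC v hvP
  obtain ⟨x, hx1, hx2⟩ := lattice_joint_kernel ι hι e he TL TW hT z p 𝔪 h𝔪 hp hz v hv0 hvspan hv
  refine ⟨x, x.2, ?_, ?_⟩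
  · intro h0
    obtain ⟨y, hyP, hy⟩ :=
      exists_eq_nsmul_of_castHom_eq_zero p (Fact.out : p.Prime).ne_zero (x : Additive G →+ ℤ) x.2 h0
    exact hx1 ⟨⟨y, hyP⟩, Subtype.ext hy⟩
  · intro j
    obtain ⟨y, hy⟩ := hx2 j
    rw [hnat j ℤ (ZMod p)]
    have h1 : T j ℤ (x : Additive G →+ ℤ) = p • (y : Additive G →+ ℤ) := congrArg Subtype.val hy
    rw [h1]
    refine DFunLike.ext _ _ (fun g => ?_)
    simp

end Lattice

end Fermat.Agent.ES


end ZBES_008_1

/-! ### bundled: `Fermat.Agent.ES.EigenWords` -/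
section ZBES_008_2

/-!
# ESpkg-G1 piece A5: words in natural operators (helper39)

A family `T x` (`x : X`) of natural endomorphisms of `A ↦ Hom(G, A)` need not commute, so the free
algebra `FreeAlgebra ℤ X` acts (`wordOp`).  `exists_modp_eigen_hom_words` is the mod-`p`
eigen-support statement for all words at once.
-/

set_option autoImplicit false

namespace Fermat.Agent.ES

section Words

variable {G : Type*} [Group G] {X : Type*}
  (T : X → ∀ (A : Type) [AddCommGroup A], (Additive G →+ A) →+ (Additive G →+ A))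

/-- the action of words in the `T x` on `Hom(G, A)` -/
noncomputable def wordOp (A : Type) [AddCommGroup A] :
    FreeAlgebra ℤ X →ₐ[ℤ] Module.End ℤ (Additive G →+ A) :=
  FreeAlgebra.lift ℤ (fun x => (T x A).toIntLinearMap)

@[simp] lemma wordOp_ι (A : Type) [AddCommGroup A] (x : X) (φ : Additive G →+ A) :
    wordOp T A (FreeAlgebra.ι ℤ x) φ = T x A φ := by
  simp [wordOp]

variable {T}

/-- words act naturally in the coefficient group -/
theorem wordOp_natural
    (hnat : ∀ (x : X) (A A' : Type) [AddCommGroup A] [AddCommGroup A'] (f : A →+ A')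
      (φ : Additive G →+ A), T x A' (f.comp φ) = f.comp (T x A φ))
    (w : FreeAlgebra ℤ X) (A A' : Type) [AddCommGroup A] [AddCommGroup A'] (f : A →+ A')
    (φ : Additive G →+ A) :
    wordOp T A' w (f.comp φ) = f.comp (wordOp T A w φ) := by
  induction w using FreeAlgebra.induction generalizing φ with
  | grade0 r =>
    simp only [AlgHom.commutes, Module.algebraMap_end_apply]
    refine DFunLike.ext _ _ (fun g => ?_)
    simp
  | grade1 x => rw [wordOp_ι, wordOp_ι, hnat]
  | mul a b ha hb =>
    simp only [map_mul, Module.End.mul_apply]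
    rw [hb, ha]
  | add a b ha hb =>
    simp only [map_add, LinearMap.add_apply]
    rw [ha, hb]
    refine DFunLike.ext _ _ (fun g => ?_)
    simp

/-- words preserve a class of homs preserved by the generators -/
theorem wordOp_mem {A : Type} [AddCommGroup A] (S : AddSubgroup (Additive G →+ A))
    (hS : ∀ (x : X) (φ : Additive G →+ A), φ ∈ S → T x A φ ∈ S)
    (w : FreeAlgebra ℤ X) (φ : Additive G →+ A) (hφ : φ ∈ S) : wordOp T A w φ ∈ S := by
  induction w using FreeAlgebra.induction generalizing φ with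
  | grade0 r =>
    simp only [AlgHom.commutes, Module.algebraMap_end_apply]
    exact S.zsmul_mem hφ r
  | grade1 x => rw [wordOp_ι]; exact hS x φ hφ
  | mul a b ha hb =>
    simp only [map_mul, Module.End.mul_apply]
    exact ha _ (hb _ hφ)
  | add a b ha hb =>
    simp only [map_add, LinearMap.add_apply]
    exact S.add_mem (ha _ hφ) (hb _ hφ)

/-- a joint eigenvector of the generators is an eigenvector of every word -/
theorem wordOp_eigen
    (hnat : ∀ (x : X) (A A' : Type) [AddCommGroup A] [AddCommGroup A'] (f : A →+ A')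
      (φ : Additive G →+ A), T x A' (f.comp φ) = f.comp (T x A φ))
    (a : X → ℂ) (v : Additive G →+ ℂ) (hv : ∀ x, T x ℂ v = a x • v) (w : FreeAlgebra ℤ X) :
    wordOp T ℂ w v = (FreeAlgebra.lift ℤ a w) • v := by
  have hsmul : ∀ (c : ℂ) (φ : Additive G →+ ℂ), c • φ = (AddMonoidHom.mulLeft c).comp φ := by
    intro c φ
    refine DFunLike.ext _ _ (fun g => ?_)
    rfl
  induction w using FreeAlgebra.induction with
  | grade0 r =>
    simp only [AlgHom.commutes, Module.algebraMap_end_apply]
    refine DFunLike.ext _ _ (fun g => ?_)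
    simp
  | grade1 x => rw [wordOp_ι, hv]; simp
  | mul a' b ha hb =>
    simp only [map_mul, Module.End.mul_apply]
    rw [hb, hsmul, wordOp_natural hnat, ← hsmul, ha, smul_smul, mul_comm]
  | add a' b ha hb =>
    simp only [map_add, LinearMap.add_apply]
    rw [ha, hb, add_smul]

/-- **A5, generic form for words.** -/
theorem exists_modp_eigen_hom_words [Group.FG G] (P : Set G)
    (hnat : ∀ (x : X) (A A' : Type) [AddCommGroup A] [AddCommGroup A'] (f : A →+ A')
      (φ : Additive G →+ A), T x A' (f.comp φ) = f.comp (T x A φ))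
    (hpar : ∀ (x : X) (φ : Additive G →+ ℤ), φ ∈ intHoms G P → T x ℤ φ ∈ intHoms G P)
    (a : X → ℂ) (v : Additive G →+ ℂ) (hv0 : v ≠ 0) (hvP : ∀ g ∈ P, v (Additive.ofMul g) = 0)
    (hv : ∀ x, T x ℂ v = a x • v)
    {R : Type*} [CommRing R] (ι : R →+* ℂ) (hι : Function.Injective ι)
    (p : ℕ) [Fact p.Prime] (𝔪 : Ideal R) (h𝔪 : 𝔪 ≠ ⊤) (hp : (p : R) ∈ 𝔪) :
    ∃ x : Additive G →+ ℤ, x ∈ intHoms G P ∧ (Int.castAddHom (ZMod p)).comp x ≠ 0 ∧
      ∀ w : FreeAlgebra ℤ X, (∃ z ∈ 𝔪, ι z = FreeAlgebra.lift ℤ a w) →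
        wordOp T (ZMod p) w ((Int.castAddHom (ZMod p)).comp x) = 0 := by
  classical
  let J := {w : FreeAlgebra ℤ X // ∃ z ∈ 𝔪, ι z = FreeAlgebra.lift ℤ a w}
  let TJ : J → ∀ (A : Type) [AddCommGroup A], (Additive G →+ A) →+ (Additive G →+ A) :=
    fun j A _ => (wordOp T A j.1).toAddMonoidHom
  have hz : ∀ j : J, ∃ z ∈ 𝔪, ι z = FreeAlgebra.lift ℤ a j.1 := fun j => j.2
  choose z hz𝔪 hzval using hz
  obtain ⟨x, hxP, hx0, hx⟩ := exists_modp_eigen_hom (G := G) (P := P) TJ
    (fun j A A' _ _ f φ => wordOp_natural hnat j.1 A A' f φ)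
    (fun j φ hφ => wordOp_mem (intHoms G P).toAddSubgroup hpar j.1 φ hφ)
    ι hι z p 𝔪 h𝔪 hp hz𝔪 v hv0 hvP
    (fun j => by
      show wordOp T ℂ j.1 v = ι (z j) • v
      rw [hzval j]
      exact wordOp_eigen hnat a v hv j.1)
  exact ⟨x, hxP, hx0, fun w hw => hx ⟨w, hw⟩⟩

end Words

end Fermat.Agent.ES


end ZBES_008_2
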