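/- GENERATED FILE (helper35, build-time optimisation, NOTES/ZB.md): verbatim concatenation of the modules
   Fermat.Agent.S41.PD.Defs
   Fermat.Agent.S41.PD.Plan
   Do not edit; do not import together with these modules. -/
import Mathlib
import Fermat.Prelude.Def_ModularCurve_PeriodMap
import Fermat.Agent.ZB.ES_008

/-! ### bundled: `Fermat.Agent.S41.PD.Defs` -/
section ZBS41_001_0

/-!
# S41, piece R6 (Poincaré duality on `Hom_par(Γ, ℤ)`): definitions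

`G = SL(2, ℤ)`, `Γ ≤ G` of finite index, `Q = G ⧸ Γ` (left cosets, left action), `M = (Q → R)` with
`(ρ(g) v)(q) = v(g⁻¹ q)`.  A *cocycle* is `c : G → M` with `c (g h) = c g + ρ(g) (c h)`; it
*represents* `χ : Γ → R` when `c γ q₀ = χ γ` for `γ ∈ Γ` (`q₀` the base coset) -- Shapiro's lemma.

With `U = S T` (so `S² = U³ = -1`), a parabolic `χ` has two normal forms:
* `NF1`: a representing cocycle `b` with `b T = 0`   (cochains of the Farey triangulation),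
* `NF2`: a representing cocycle `a` with `a U = 0`   (cochains of the dual complex),
and the pairing is `[x, y] = ½ ∑_q a_S(q) b_S(q)` for `a` in `NF2`-form for `x`, `b` in `NF1`-form for `y`.
-/

set_option autoImplicit false

namespace Fermat.Agent.S41.PD

open scoped MatrixGroups
open ModularGroup (S T)

/-- `U = S T`; `U ^ 3 = -1`. -/
def U : SL(2, ℤ) := S * T

theorem U_def : U = S * T := rfl

section Perm

variable {G : Type*} [Group G] {Q : Type*} [MulAction G Q] {R : Type*}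

/-- The permutation action on functions: `(ρ(g) v)(q) = v(g⁻¹ q)`. -/
def rho (g : G) (v : Q → R) : Q → R := fun q => v (g⁻¹ • q)

@[simp] theorem rho_apply (g : G) (v : Q → R) (q : Q) : rho g v q = v (g⁻¹ • q) := rfl

@[simp] theorem rho_one (v : Q → R) : rho (1 : G) v = v := by
  funext q; simp [rho]

theorem rho_mul (g h : G) (v : Q → R) : rho (g * h) v = rho g (rho h v) := by
  funext q; simp [rho, mul_smul]

@[simp] theorem rho_inv_rho (g : G) (v : Q → R) : rho g⁻¹ (rho g v) = v := by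
  rw [← rho_mul, inv_mul_cancel, rho_one]

@[simp] theorem rho_rho_inv (g : G) (v : Q → R) : rho g (rho g⁻¹ v) = v := by
  rw [← rho_mul, mul_inv_cancel, rho_one]

@[simp] theorem rho_zero [Zero R] (g : G) : rho g (0 : Q → R) = 0 := rfl

theorem rho_add [Add R] (g : G) (v w : Q → R) : rho g (v + w) = rho g v + rho g w := rfl

theorem rho_neg [Neg R] (g : G) (v : Q → R) : rho g (-v) = -rho g v := rfl

theorem rho_sub [Sub R] (g : G) (v w : Q → R) : rho g (v - w) = rho g v - rho g w := rfl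

theorem rho_mul_fun [Mul R] (g : G) (v w : Q → R) : rho g (v * w) = rho g v * rho g w := rfl

theorem sum_rho [Fintype Q] [AddCommMonoid R] (g : G) (v : Q → R) :
    ∑ q, rho g v q = ∑ q, v q :=
  Fintype.sum_equiv (MulAction.toPerm g⁻¹) _ _ fun _ => rfl

theorem sum_rho_mul_rho [Fintype Q] [NonUnitalNonAssocSemiring R] (g : G) (v w : Q → R) :
    ∑ q, rho g v q * rho g w q = ∑ q, v q * w q :=
  sum_rho g (v * w)

theorem sum_rho_mul [Fintype Q] [NonUnitalNonAssocSemiring R] (g : G) (v w : Q → R) :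
    ∑ q, rho g v q * w q = ∑ q, v q * rho g⁻¹ w q := by
  rw [← sum_rho_mul_rho g v (rho g⁻¹ w), rho_rho_inv]

theorem sum_mul_rho [Fintype Q] [NonUnitalNonAssocSemiring R] (g : G) (v w : Q → R) :
    ∑ q, v q * rho g w q = ∑ q, rho g⁻¹ v q * w q := by
  rw [← sum_rho_mul_rho g (rho g⁻¹ v) w, rho_rho_inv]

/-- 1-cocycles of `G` with values in the permutation module `Q → R`. -/
def IsCoc [Add R] (c : G → Q → R) : Prop := ∀ g h : G, c (g * h) = c g + rho g (c h)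

variable [AddCommGroup R]

theorem IsCoc.map_one {c : G → Q → R} (hc : IsCoc c) : c 1 = 0 := by
  have h := hc 1 1
  rw [mul_one, rho_one] at h
  exact left_eq_add.1 h

theorem IsCoc.map_inv {c : G → Q → R} (hc : IsCoc c) (g : G) : c g⁻¹ = -rho g⁻¹ (c g) := by
  have h := hc g⁻¹ g
  rw [inv_mul_cancel, hc.map_one] at h
  exact eq_neg_of_add_eq_zero_left h.symm

theorem IsCoc.add {c d : G → Q → R} (hc : IsCoc c) (hd : IsCoc d) : IsCoc (c + d) := by
  intro g h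
  simp only [Pi.add_apply]
  rw [hc g h, hd g h, rho_add]
  abel

theorem IsCoc.neg {c : G → Q → R} (hc : IsCoc c) : IsCoc (-c) := by
  intro g h
  simp only [Pi.neg_apply]
  rw [hc g h, rho_neg]
  abel

theorem IsCoc.sub {c d : G → Q → R} (hc : IsCoc c) (hd : IsCoc d) : IsCoc (c - d) := by
  rw [sub_eq_add_neg]
  exact hc.add hd.neg

/-- The coboundary of `ξ`: `g ↦ ρ(g) ξ - ξ`. -/
def cobdry (ξ : Q → R) : G → Q → R := fun g => rho g ξ - ξ

@[simp] theorem cobdry_apply (ξ : Q → R) (g : G) : cobdry ξ g = rho g ξ - ξ := rfl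

theorem isCoc_cobdry (ξ : Q → R) : IsCoc (cobdry (G := G) ξ) := by
  intro g h
  simp only [cobdry_apply]
  rw [rho_mul, rho_sub]
  abel

theorem isCoc_zero : IsCoc (0 : G → Q → R) := by
  intro g h
  simp

end Perm

section Shapiro

variable {G : Type*} [Group G] (Γ : Subgroup G) {R : Type*} [AddCommGroup R]

/-- The cocycle `c : G → (G ⧸ Γ → R)` represents the homomorphism `χ : Γ → R`
(Shapiro: `H¹(G, Ind R) = Hom(Γ, R)`, `[c] ↦ (γ ↦ c γ q₀)`). -/
def Represents (c : G → (G ⧸ Γ) → R) (χ : Additive Γ →+ R) : Prop :=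
  IsCoc c ∧ ∀ γ : Γ, c (γ : G) ((1 : G) : G ⧸ Γ) = χ (Additive.ofMul γ)

end Shapiro

section Pairing

variable {R : Type*} [CommRing R] (Γ : Subgroup SL(2, ℤ)) [Fintype (SL(2, ℤ) ⧸ Γ)]

/-- `v = [x, y]`: there are a cocycle `a` representing `x` with `a U = 0` and a cocycle `b`
representing `y` with `b T = 0` such that `2 v = ∑_q a_S(q) b_S(q)`. -/
def IsPairing (x y : Additive Γ →+ R) (v : R) : Prop :=
  ∃ a b : SL(2, ℤ) → (SL(2, ℤ) ⧸ Γ) → R,
    Represents Γ a x ∧ a U = 0 ∧ Represents Γ b y ∧ b T = 0 ∧ 2 * v = ∑ q, a S q * b S q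

open Classical in
/-- The pairing as a function (`0` when no value exists). -/
noncomputable def pairFun (x y : Additive Γ →+ R) : R :=
  if h : ∃ v, IsPairing Γ x y v then h.choose else 0

end Pairing

end Fermat.Agent.S41.PD


end ZBS41_001_0

/-! ### bundled: `Fermat.Agent.S41.PD.Plan` -/
section ZBS41_001_1

/-!
# S41, piece R6 (Poincaré duality): the statements of the pieces

Every `Stmt…` below is a closed `Prop`; a piece is DONE when `theorem stmt… : Stmt…` is landed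
(complete, kernel-checked) in its own file `Fermat/Agent/S41/PD/<Name>.lean`.  See `NOTES/S41-R6.md`.
-/

set_option autoImplicit false

namespace Fermat.Agent.S41.PD

open scoped MatrixGroups
open ModularGroup (S T)
open ModularCurve.Period (IsParabolicHom)

/-! ## PD-A : `PSL₂(ℤ) = C₂ * C₃` as a universal property (ping-pong), and cocycle extension -/

/-- PD-A1.  Universal property: `s² = 1`, `u³ = 1` in any group `H` give `φ : SL(2, ℤ) → H` with
`S ↦ s`, `U = S T ↦ u`.  (Ping-pong on `ℍ` with `Mathlib`'s `lift_injective_of_ping_pong`: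
`X₁ = {Re z > 0}`, `X₂ = {Re z < 0}`; `SL2Z_generators` for surjectivity.) -/
def StmtUP : Prop :=
  ∀ (H : Type) [Group H] (s u : H), s ^ 2 = 1 → u ^ 3 = 1 →
    ∃ φ : SL(2, ℤ) →* H, φ S = s ∧ φ U = u

/-- PD-A2.  Cocycle extension: for a `SL(2, ℤ)`-module `M` on which `-1` acts trivially, any
`cS ∈ ker (1 + S)` and `cU ∈ ker (1 + U + U²)` are the values at `S`, `U` of a 1-cocycle.
(Apply PD-A1 to `H = M ⋊ (C₂ * C₃)` or to `(M ⋊ SL(2, ℤ)) / ⟨(0, -1)⟩`.) -/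
def StmtCocExt : Prop :=
  ∀ (M : Type) [AddCommGroup M] (ρ : SL(2, ℤ) →* AddMonoid.End M), ρ (-1) = 1 →
    ∀ cS cU : M, cS + ρ S cS = 0 → cU + ρ U cU + ρ U (ρ U cU) = 0 →
      ∃ c : SL(2, ℤ) → M, (∀ g h, c (g * h) = c g + ρ g (c h)) ∧ c S = cS ∧ c U = cU

/-! ## PD-D : the lattice lemma (pure linear algebra on a finite `SL(2, ℤ)`-set) -/

section Lattice

variable {Q : Type} [MulAction SL(2, ℤ) Q]

/-- `Z`: 1-cocycles of the Farey triangulation (`e ∈ ker (1 + S) ∩ ker (1 + U + U²)`). -/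
def IsZ (e : Q → ℤ) : Prop :=
  e + rho S e = 0 ∧ e + rho U e + rho U (rho U e) = 0

/-- `Z*`: 1-cycles (`e ∈ ker (1 + S) ∩ (T - 1) M`). -/
def IsZs (e : Q → ℤ) : Prop :=
  e + rho S e = 0 ∧ ∃ m : Q → ℤ, e = rho T m - m

end Lattice

/-- PD-D1.  Every functional on `Z*` killing `B* = (S - 1) M^U` is `e* ↦ ½ ⟨e*, e⟩` for some
`e ∈ Z`.  (`M⁻ = ker (1 + S)` is unimodular for `½⟨ , ⟩`; `Z*` is saturated, so the functional
extends to `M⁻`; the representing vector is orthogonal to `B*`, i.e. lies in `Z`.) -/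
def StmtLatticeEx : Prop :=
  ∀ (Q : Type) [Fintype Q] [MulAction SL(2, ℤ) Q] [MulAction.IsPretransitive SL(2, ℤ) Q],
    (∀ q : Q, (-1 : SL(2, ℤ)) • q = q) →
    ∀ φ : (Q → ℤ) → ℤ,
      (∀ e e', IsZs e → IsZs e' → φ (e + e') = φ e + φ e') →
      (∀ ξ : Q → ℤ, rho U ξ = ξ → φ (rho S ξ - ξ) = 0) →
      ∃ e : Q → ℤ, IsZ e ∧ ∀ e', IsZs e' → 2 * φ e' = ∑ q, e' q * e q

/-- PD-D2.  `(Z*)^⊥ ∩ Z = B = (S - 1) M^T`.  (`Z* = B^⊥` in `M⁻`, `B` is saturated because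
`⟨S, T⟩` is transitive on `Q`, and `X^⊥⊥ = X` for saturated `X` in a unimodular lattice.) -/
def StmtLatticeUniq : Prop :=
  ∀ (Q : Type) [Fintype Q] [MulAction SL(2, ℤ) Q] [MulAction.IsPretransitive SL(2, ℤ) Q],
    (∀ q : Q, (-1 : SL(2, ℤ)) • q = q) →
    ∀ e : Q → ℤ, IsZ e → (∀ e', IsZs e' → ∑ q, e' q * e q = 0) →
      ∃ ξ : Q → ℤ, rho T ξ = ξ ∧ e = rho S ξ - ξ

/-! ## PD-F, PD-G : the intrinsic description over `ℚ` -/

/-- PD-F.  `x ∪ y` is a coboundary on `Γ` (over `ℚ`): there is `β : Γ → ℚ` with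
`β (γ γ') = β γ + β γ' - x γ · y γ'`.  (Cocycle extension PD-A2 for the twisted module
`M × M`, `g ⋆ (t, v) = (g t + a(g) · g v, g v)`, `a` a cocycle representing `x`.) -/
def StmtBetaEx : Prop :=
  ∀ (Γ : Subgroup SL(2, ℤ)) [Γ.FiniteIndex], (-1 : SL(2, ℤ)) ∈ Γ →
    ∀ x y : Additive Γ →+ ℚ,
      ∃ β : Γ → ℚ, ∀ γ γ' : Γ,
        β (γ * γ') = β γ + β γ' - x (Additive.ofMul γ) * y (Additive.ofMul γ')

/-- PD-G.  The intrinsic formula: the sum of `β` over the cusps (with multiplicity) is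
`n · [x, y]`, for every `n ≥ 0` such that `T ^ n` lies in all conjugates of `Γ`. -/
def StmtIntrinsic : Prop :=
  ∀ (Γ : Subgroup SL(2, ℤ)) [Fintype (SL(2, ℤ) ⧸ Γ)], (-1 : SL(2, ℤ)) ∈ Γ →
    ∀ (x y : Additive Γ →+ ℚ) (v : ℚ), IsParabolicHom Γ x → IsParabolicHom Γ y →
      IsPairing Γ x y v →
      ∀ β : Γ → ℚ,
        (∀ γ γ' : Γ, β (γ * γ') = β γ + β γ' - x (Additive.ofMul γ) * y (Additive.ofMul γ')) →
        ∀ (r : SL(2, ℤ) ⧸ Γ → SL(2, ℤ)), (∀ q, ((r q : SL(2, ℤ)) : SL(2, ℤ) ⧸ Γ) = q) →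
          ∀ (n : ℕ) (hn : ∀ g : SL(2, ℤ), g⁻¹ * T ^ n * g ∈ Γ),
            ∑ q, β ⟨(r q)⁻¹ * T ^ n * r q, hn (r q)⟩ = n * v

/-! ## PD-E : cusp sums are invariant under conjugation by `diag(ℓ, 1)` -/

/-- PD-E.  Let `cδ : Γ₀ ≃ Γ₀'` be conjugation by `δ = diag(ℓ, 1)`
(`[[a, b], [c, d]] ↦ [[a, ℓ b], [c / ℓ, d]]`), `F` a function on `Γ₀'` which on elements of
trace `2` is a class function and homogeneous.  Then the normalised cusp sums agree. -/
def StmtCuspConj : Prop :=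
  ∀ (ℓ : ℕ), ℓ.Prime →
    ∀ (Γ₀ Γ₀' : Subgroup SL(2, ℤ)) [Fintype (SL(2, ℤ) ⧸ Γ₀)] [Fintype (SL(2, ℤ) ⧸ Γ₀')],
      (-1 : SL(2, ℤ)) ∈ Γ₀ →
      ∀ (cδ : Γ₀ ≃* Γ₀'),
        (∀ γ : Γ₀, (cδ γ : SL(2, ℤ)) 0 0 = (γ : SL(2, ℤ)) 0 0 ∧
            (cδ γ : SL(2, ℤ)) 0 1 = ℓ * (γ : SL(2, ℤ)) 0 1 ∧
            ℓ * (cδ γ : SL(2, ℤ)) 1 0 = (γ : SL(2, ℤ)) 1 0 ∧
            (cδ γ : SL(2, ℤ)) 1 1 = (γ : SL(2, ℤ)) 1 1) →
        ∀ F : Γ₀' → ℚ,
          (∀ γ c : Γ₀', ((c : SL(2, ℤ)) : Matrix (Fin 2) (Fin 2) ℤ).trace = 2 →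
            F (γ * c * γ⁻¹) = F c) →
          (∀ c : Γ₀', ((c : SL(2, ℤ)) : Matrix (Fin 2) (Fin 2) ℤ).trace = 2 →
            ∀ k : ℕ, F (c ^ k) = k * F c) →
          ∀ (r : SL(2, ℤ) ⧸ Γ₀ → SL(2, ℤ)), (∀ q, ((r q : SL(2, ℤ)) : SL(2, ℤ) ⧸ Γ₀) = q) →
          ∀ (r' : SL(2, ℤ) ⧸ Γ₀' → SL(2, ℤ)),
            (∀ q, ((r' q : SL(2, ℤ)) : SL(2, ℤ) ⧸ Γ₀') = q) →
          ∀ (n n' : ℕ), 0 < n → 0 < n' →
            ∀ (hn : ∀ g : SL(2, ℤ), g⁻¹ * T ^ n * g ∈ Γ₀)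
              (hn' : ∀ g : SL(2, ℤ), g⁻¹ * T ^ n' * g ∈ Γ₀'),
              (n' : ℚ) * ∑ q, F (cδ ⟨(r q)⁻¹ * T ^ n * r q, hn (r q)⟩) =
                (n : ℚ) * ∑ q, F ⟨(r' q)⁻¹ * T ^ n' * r' q, hn' (r' q)⟩

end Fermat.Agent.S41.PD

namespace Fermat.Agent.S41.PD

/-! ## PD-L : the duality argument (pure algebra over `ℤ` and `𝔽_p`) -/

/-- PD-L.  `L` free over `ℤ`, `P`, `P'` biadditive forms on `L`, `L'`; `P` represents every
functional (on the right), `P'` is non-degenerate mod `p` (on the right); `β` is left adjoint to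
`α`, `η` is self-adjoint; if `η` kills the kernel of `α mod p` then `η L ⊆ β L' + p L`.
(Proof: if `η c ∉ W := β L' + p L`, take a functional `L → ℤ/p` killing `W` but not `η c`
(`L/W` is an `𝔽_p`-vector space), lift it to `μ : L → ℤ` (`L` is free), `μ = P(·, y)`;
`P'(w, α y) = P(β w, y) ∈ pℤ` for all `w` gives `α y ∈ p L'`, so `η y ∈ p L` and
`μ (η c) = P(c, η y) ∈ pℤ`, a contradiction.) -/
def StmtDualLA : Prop :=
  ∀ (p : ℕ), p.Prime →
  ∀ (L L' : Type) [AddCommGroup L] [AddCommGroup L'] [Module.Free ℤ L]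
    (P : L → L → ℤ) (P' : L' → L' → ℤ) (α : L →+ L') (β : L' →+ L) (η : L →+ L),
    (∀ x y y', P x (y + y') = P x y + P x y') →
    (∀ φ : L →+ ℤ, ∃ y, ∀ x, P x y = φ x) →
    (∀ u : L', (∀ w, (p : ℤ) ∣ P' w u) → ∃ u' : L', u = p • u') →
    (∀ w y, P (β w) y = P' w (α y)) →
    (∀ x y, P (η x) y = P x (η y)) →
    (∀ y : L, (∃ u' : L', α y = p • u') → ∃ y' : L, η y = p • y') →
    ∀ c : L, ∃ (w : L') (y' : L), η c = β w + p • y'

end Fermat.Agent.S41.PD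


end ZBS41_001_1
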