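/- GENERATED FILE (helper35, build-time optimisation, NOTES/ZB.md): verbatim concatenation of the modules
   Fermat.Agent.S21.Parabolic
   Fermat.Agent.S21.Range
   Fermat.Agent.S21.Assemble
   Do not edit; do not import together with these modules. -/
import Mathlib
import Fermat.Prelude.Def_ModularCurve_PeriodHomPair
import Fermat.Agent.ZB.S41_001
import Fermat.Agent.ZB.S21_001
import Fermat.Agent.ZB.S22_003
import Fermat.Prelude.Def_ModularCurve_GenusNumerics

/-! ### bundled: `Fermat.Agent.S21.Parabolic` -/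
section ZBS21_002_0

/-!
# S21, piece C: periods of parabolic elements vanish

If `γ ∈ Γ₀(N)` has `tr(γ)² = 4`, then `γ` fixes a cusp `δ∞` (`δ ∈ SL₂(ℤ)`), i.e. `γ δ = δ β` with `β`
upper triangular, and the period `F(γ z) - F(z)` is the limit of `F(δ β w) - F(δ w)` as `w → i∞`,
which is `L - L = 0`.
-/

set_option autoImplicit false

namespace Fermat.Agent.S21

open UpperHalfPlane CongruenceSubgroup Filter Topology ModularCurve ModularCurve.Period
open scoped MatrixGroups

/-- An element of `SL(2, ℤ)` with `tr² = 4` is conjugate (in `SL(2, ℤ)`) to an upper triangular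
matrix. -/
theorem parabolic_exists_conj_upper (γ : SL(2, ℤ))
    (hγ : ((γ : SL(2, ℤ)) : Matrix (Fin 2) (Fin 2) ℤ).trace ^ 2 = 4) :
    ∃ δ β : SL(2, ℤ), β 1 0 = 0 ∧ γ * δ = δ * β := by
  have hdet : γ 0 0 * γ 1 1 - γ 0 1 * γ 1 0 = 1 := by
    have h := γ.det_coe
    rwa [Matrix.det_fin_two] at h
  have htr : (γ 0 0 + γ 1 1) ^ 2 = 4 := by
    simpa [Matrix.trace_fin_two] using hγ
  by_cases hc : γ 1 0 = 0
  · exact ⟨1, γ, hc, by simp⟩
  · -- eigenvector direction `(a - d, 2c)`
    set g : ℤ := (Int.gcd (γ 0 0 - γ 1 1) (2 * γ 1 0) : ℤ) with hg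
    have hg0 : g ≠ 0 := by
      intro h
      have h' : Int.gcd (γ 0 0 - γ 1 1) (2 * γ 1 0) = 0 := by
        rw [hg] at h
        exact_mod_cast h
      rw [Int.gcd_eq_zero_iff] at h'
      exact hc (by omega)
    obtain ⟨x, hx⟩ : g ∣ γ 0 0 - γ 1 1 := Int.gcd_dvd_left _ _
    obtain ⟨y, hy⟩ : g ∣ 2 * γ 1 0 := Int.gcd_dvd_right _ _
    have hcop : IsCoprime x y := by
      obtain ⟨u, v, huv⟩ : ∃ u v : ℤ, g = (γ 0 0 - γ 1 1) * u + (2 * γ 1 0) * v :=
        ⟨_, _, Int.gcd_eq_gcd_ab _ _⟩
      refine ⟨u, v, ?_⟩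
      have : g * (u * x + v * y) = g * 1 := by
        rw [mul_one]
        conv_rhs => rw [huv, hx, hy]
        ring
      exact mul_left_cancel₀ hg0 this
    obtain ⟨δ, hδ0, hδ1⟩ := hcop.exists_SL2_col 0
    refine ⟨δ, δ⁻¹ * γ * δ, ?_, by group⟩
    -- compute the lower-left entry
    have key : g ^ 2 * (γ 1 0 * x ^ 2 + (γ 1 1 - γ 0 0) * x * y - γ 0 1 * y ^ 2) = 0 := by
      have e1 : g * x = γ 0 0 - γ 1 1 := hx.symm
      have e2 : g * y = 2 * γ 1 0 := hy.symm
      have : g ^ 2 * (γ 1 0 * x ^ 2 + (γ 1 1 - γ 0 0) * x * y - γ 0 1 * y ^ 2) =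
          γ 1 0 * (g * x) ^ 2 + (γ 1 1 - γ 0 0) * (g * x) * (g * y) - γ 0 1 * (g * y) ^ 2 := by
        ring
      rw [this, e1, e2]
      linear_combination (-γ 1 0) * htr + 4 * γ 1 0 * hdet
    have key' : γ 1 0 * x ^ 2 + (γ 1 1 - γ 0 0) * x * y - γ 0 1 * y ^ 2 = 0 := by
      rcases mul_eq_zero.mp key with h | h
      · exact absurd ((pow_eq_zero_iff two_ne_zero).mp h) hg0
      · exact h
    show ((δ⁻¹ * γ * δ : SL(2, ℤ)) : Matrix (Fin 2) (Fin 2) ℤ) 1 0 = 0
    simp only [Matrix.SpecialLinearGroup.coe_mul, Matrix.SpecialLinearGroup.coe_inv,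
      Matrix.adjugate_fin_two, Matrix.mul_apply, Fin.sum_univ_two, Matrix.of_apply,
      Matrix.cons_val', Matrix.cons_val_zero, Matrix.cons_val_one, Matrix.cons_val_fin_one]
    rw [hδ0, hδ1]
    linear_combination key'

/-- **Piece C**: periods of elements of trace `±2` vanish. -/
theorem period_eq_zero_of_trace_sq_eq_four (N : ℕ) [NeZero N] (f : CuspForm (Gamma0 N) 2) (F : ℍ → ℂ)
    (hF : ModularCurve.HasEquivariantPrimitive N f F) (γ : Gamma0 N)
    (hγ : ((γ : SL(2, ℤ)) : Matrix (Fin 2) (Fin 2) ℤ).trace ^ 2 = 4) : hF.2.2.1.period γ = 0 := by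
  obtain ⟨δ, β, hβ, hγδ⟩ := parabolic_exists_conj_upper (γ : SL(2, ℤ)) hγ
  obtain ⟨L, hL⟩ := hF.2.2.2 δ
  -- the period is the constant value of `w ↦ F (γ • δ • w) - F (δ • w)`
  have hconst : ∀ w : ℍ, F (δ • (β • w)) - F (δ • w) = hF.2.2.1.period γ := by
    intro w
    have := hF.2.2.1.sub_eq_period γ (δ • w)
    rw [← this, ← mul_smul, ← mul_smul, hγδ]
  have hβ' : Tendsto (fun w : ℍ => β • w) atImInfty atImInfty := by
    have h := tendsto_smul_atImInfty (g := (β : GL (Fin 2) ℝ)) (by simp [hβ])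
    exact h
  have h1 : Tendsto (fun w : ℍ => F (δ • (β • w))) atImInfty (𝓝 L) := hL.comp hβ'
  have h2 : Tendsto (fun w : ℍ => F (δ • (β • w)) - F (δ • w)) atImInfty (𝓝 (L - L)) := h1.sub hL
  have h3 : Tendsto (fun w : ℍ => F (δ • (β • w)) - F (δ • w)) atImInfty
      (𝓝 (hF.2.2.1.period γ)) := by
    simp only [hconst]
    exact tendsto_const_nhds
  have := tendsto_nhds_unique h3 h2
  rw [this, sub_self]

end Fermat.Agent.S21


end ZBS21_002_0

/-! ### bundled: `Fermat.Agent.S21.Range` -/
section ZBS21_002_1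

/-!
# S21 (Eichler–Shimura): range of the period map and final assembly

* `periodMap_mem_parabolicHoms`, `range_periodHomPair_le` : the range of `periodHomPair` is
  contained in the parabolic homomorphisms.
* `finite_addMonoidHom` : `Hom(Γ₀(N), ℂ)` is finite dimensional.
* `result_of_injective_of_finrank_le` : the statement of S21 from injectivity and the dimension
  inequality.
-/

set_option autoImplicit false

namespace Fermat.Agent.S21

open UpperHalfPlane ModularForm CongruenceSubgroup Filter Topology Matrix.SpecialLinearGroup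
open ModularCurve ModularCurve.Period
open scoped MatrixGroups Manifold Pointwise

theorem periodMap_mem_parabolicHoms (N : ℕ) [NeZero N] (f : CuspForm (Gamma0 N) 2) :
    periodMap N f ∈ parabolicHoms ℂ (Gamma0 N) ℂ := by
  obtain ⟨F, hF⟩ := exists_hasEquivariantPrimitive N f
  rw [mem_parabolicHoms_iff]
  intro γ hγ
  rw [periodMap_eq f hF]
  exact period_eq_zero_of_trace_sq_eq_four N f F hF γ hγ

theorem periodHomPair_mem_parabolicHoms (N : ℕ) [NeZero N]
    (x : CuspForm (Gamma0 N) 2 × CuspForm (Gamma0 N) 2) :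
    periodHomPair N x ∈ parabolicHoms ℂ (Gamma0 N) ℂ := by
  obtain ⟨f, g⟩ := x
  rw [periodHomPair_apply]
  have hf := periodMap_mem_parabolicHoms N f
  have hg := periodMap_mem_parabolicHoms N g
  exact Submodule.add_mem _
    (Submodule.add_mem _ hf (charInvolution_mem_parabolicHoms N ℂ ℂ hf))
    (Submodule.sub_mem _ hg (charInvolution_mem_parabolicHoms N ℂ ℂ hg))

theorem range_periodHomPair_le (N : ℕ) [NeZero N] :
    LinearMap.range (periodHomPair N) ≤ parabolicHoms ℂ (Gamma0 N) ℂ := by
  rintro _ ⟨x, rfl⟩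
  exact periodHomPair_mem_parabolicHoms N x

/-- `Hom(Γ₀(N), ℂ)` is a finite dimensional vector space. -/
theorem finite_addMonoidHom (N : ℕ) [NeZero N] :
    Module.Finite ℂ (Additive (Gamma0 N) →+ ℂ) := by
  classical
  obtain ⟨T, hTmem, hTcl⟩ := Fermat.Agent.S22.Gamma0_exists_finite_generators N
  -- evaluation at the generators
  let ev : (Additive (Gamma0 N) →+ ℂ) →ₗ[ℂ] (T → ℂ) :=
    { toFun := fun φ t => φ (Additive.ofMul ⟨t.1, hTmem t.1 t.2⟩)
      map_add' := fun _ _ => rfl
      map_smul' := fun _ _ => rfl }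
  have hinj : Function.Injective ev := by
    rw [← LinearMap.ker_eq_bot, LinearMap.ker_eq_bot']
    intro φ hφ
    -- `φ` vanishes on the generators, hence on the closure
    have hgen : ∀ t (ht : t ∈ T), φ (Additive.ofMul ⟨t, hTmem t ht⟩) = 0 := fun t ht =>
      congrFun hφ ⟨t, ht⟩
    have hle : ∀ x, x ∈ Subgroup.closure (T : Set SL(2, ℤ)) → x ∈ Gamma0 N := fun x hx => by
      rw [← hTcl]; exact hx
    have hall : ∀ x (_ : x ∈ Subgroup.closure (T : Set SL(2, ℤ))),
        ∀ hx' : x ∈ Gamma0 N, φ (Additive.ofMul ⟨x, hx'⟩) = 0 := by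
      intro x hx
      induction hx using Subgroup.closure_induction with
      | mem x hx => intro _; exact hgen x hx
      | one => intro _; exact map_zero φ
      | mul x y hx hy ihx ihy =>
        intro hxy
        have : (Additive.ofMul (⟨x * y, hxy⟩ : Gamma0 N))
            = Additive.ofMul (⟨x, hle x hx⟩ : Gamma0 N)
              + Additive.ofMul (⟨y, hle y hy⟩ : Gamma0 N) := rfl
        rw [this, map_add, ihx, ihy, add_zero]
      | inv x hx ihx =>
        intro hxi
        have : (Additive.ofMul (⟨x⁻¹, hxi⟩ : Gamma0 N))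
            = - Additive.ofMul (⟨x, hle x hx⟩ : Gamma0 N) := rfl
        rw [this, map_neg, ihx, neg_zero]
    refine AddMonoidHom.ext fun γ => ?_
    have hγ : ((Additive.toMul γ : Gamma0 N) : SL(2, ℤ)) ∈ Subgroup.closure (T : Set SL(2, ℤ)) := by
      rw [hTcl]; exact (Additive.toMul γ : Gamma0 N).2
    have := hall _ hγ (Additive.toMul γ : Gamma0 N).2
    simpa using this
  exact Module.Finite.of_injective ev hinj

/-- **Final assembly.** S21 follows from injectivity of `periodHomPair` and the dimension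
inequality `dim Hom_par ≤ 2 dim S₂`. -/
theorem result_of_injective_of_finrank_le (N : ℕ) [NeZero N]
    (hinj : Function.Injective (periodHomPair N))
    (hdim : Module.finrank ℂ (parabolicHoms ℂ (Gamma0 N) ℂ)
      ≤ 2 * Module.finrank ℂ (CuspForm (Gamma0 N) 2)) :
    Function.Injective (periodHomPair N)
      ∧ LinearMap.range (periodHomPair N) = parabolicHoms ℂ (Gamma0 N) ℂ := by
  refine ⟨hinj, ?_⟩
  haveI := finite_addMonoidHom N
  haveI : Module.Finite ℂ (CuspForm (Gamma0 N) 2 × CuspForm (Gamma0 N) 2) :=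
    Module.Finite.of_injective (periodHomPair N) hinj
  haveI : Module.Finite ℂ (CuspForm (Gamma0 N) 2) :=
    Module.Finite.of_injective (LinearMap.inl ℂ (CuspForm (Gamma0 N) 2) (CuspForm (Gamma0 N) 2))
      LinearMap.inl_injective
  have hr : Module.finrank ℂ (LinearMap.range (periodHomPair N))
      = 2 * Module.finrank ℂ (CuspForm (Gamma0 N) 2) := by
    rw [LinearMap.finrank_range_of_inj hinj, Module.finrank_prod]
    ring
  refine Submodule.eq_of_le_of_finrank_le (range_periodHomPair_le N) ?_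
  rw [hr]
  exact hdim

end Fermat.Agent.S21


end ZBS21_002_1

/-! ### bundled: `Fermat.Agent.S21.Assemble` -/
section ZBS21_002_2

/-!
# S21 assembly (helper21): everything except the dimension count

* `periodHomPair_injective` — piece D (helper75) fed with pieces A and B (unconditional).
* `result_of_finrank_le` — the S21 statement from `dim Hom_par(Γ₀(N), ℂ) ≤ 2 · dim S₂(Γ₀(N))`.
* `result_of_finrank_le_genus` — the same from the two rational (in)equalities that pieces E1
  (`finrank_parabolicHoms_le`) and S20 (`dim S₂ = genusFormula`) provide.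
-/

set_option autoImplicit false

open ModularCurve CongruenceSubgroup

namespace Fermat.Agent.S21

/-- The period-pair map is injective (unconditional). -/
theorem periodHomPair_injective (N : ℕ) [NeZero N] :
    Function.Injective (ModularCurve.periodHomPair N) :=
  periodHomPair_injective_of N (exists_hasEquivariantPrimitive N) (existsPeriodMapLinear N)

/-- S21 from the upper bound `dim Hom_par ≤ 2 dim S₂`. -/
theorem result_of_finrank_le (N : ℕ) [NeZero N]
    (hdim : Module.finrank ℂ (ModularCurve.Period.parabolicHoms ℂ (Gamma0 N) ℂ)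
      ≤ 2 * Module.finrank ℂ (CuspForm (Gamma0 N) 2)) :
    Function.Injective (ModularCurve.periodHomPair N)
      ∧ LinearMap.range (ModularCurve.periodHomPair N)
          = ModularCurve.Period.parabolicHoms ℂ (CongruenceSubgroup.Gamma0 N) ℂ :=
  result_of_injective_of_finrank_le N (periodHomPair_injective N) hdim

/-- S21 from E1 (`dim Hom_par ≤ 2 g`) and S20 (`dim S₂ = g`), both stated in `ℚ`. -/
theorem result_of_finrank_le_genus (N : ℕ) [NeZero N]
    (hE1 : (Module.finrank ℂ (ModularCurve.Period.parabolicHoms ℂ (Gamma0 N) ℂ) : ℚ)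
      ≤ 2 * ModularCurve.genusFormula N)
    (hS20 : (Module.finrank ℂ (CuspForm (Gamma0 N) 2) : ℚ) = ModularCurve.genusFormula N) :
    Function.Injective (ModularCurve.periodHomPair N)
      ∧ LinearMap.range (ModularCurve.periodHomPair N)
          = ModularCurve.Period.parabolicHoms ℂ (CongruenceSubgroup.Gamma0 N) ℂ := by
  refine result_of_finrank_le N ?_
  have h : (Module.finrank ℂ (ModularCurve.Period.parabolicHoms ℂ (Gamma0 N) ℂ) : ℚ)
      ≤ 2 * (Module.finrank ℂ (CuspForm (Gamma0 N) 2) : ℚ) := by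
    rw [hS20]; exact hE1
  exact_mod_cast h

end Fermat.Agent.S21


end ZBS21_002_2
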