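/- GENERATED FILE (helper35, build-time optimisation, NOTES/ZB.md): verbatim concatenation of the modules
   Fermat.Agent.ES.BaseChangeUpDvr
   Fermat.Agent.ES.BaseChangeUpCore
   Do not edit; do not import together with these modules. -/
import Mathlib
import Fermat.Agent.ZB.S21_002
import Fermat.Prelude.Def_AlgebraicCurve_DivisorClassGroup
import Fermat.Prelude.Def_ModularCurve_LaurentCoeff

/-! ### bundled: `Fermat.Agent.ES.BaseChangeUpDvr` -/
section ZBES_019_0

/-!
# ESpkg-G1, piece BCu (part 1): the discrete valuation ring of a prime element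

`F` a field, `R ⊆ F` a subring, `t ∈ R` with `t R` prime, `⋂ tⁿ R = 0` and `F = Frac R`
(`BcuPrimeData R t`).  Then the localisation of `R` at `t R` is a valuation subring of `F`
(`BcuPrimeData.valuationSubring`) which is a principal ideal ring, is not `⊤`, contains `R`, and in
which `t` is irreducible.
-/

set_option autoImplicit false

noncomputable section

namespace Fermat.Agent.ES

section DVR

variable {F : Type*} [Field F] (R : Subring F) (t : F)

/-- `x ∈ t R`. -/
def BcuDvd (x : F) : Prop := ∃ c ∈ R, x = t * c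

/-- `t` is a prime element of the subring `R` of the field `F`, `⋂ tⁿ R = 0` and `F = Frac R`. -/
structure BcuPrimeData : Prop where
  mem : t ∈ R
  ne_zero : t ≠ 0
  prime : ∀ a ∈ R, ∀ b ∈ R, BcuDvd R t (a * b) → BcuDvd R t a ∨ BcuDvd R t b
  not_unit : ¬ BcuDvd R t 1
  sep : ∀ r ∈ R, (∀ n : ℕ, ∃ c ∈ R, r = t ^ n * c) → r = 0
  frac : ∀ x : F, ∃ r ∈ R, ∃ s ∈ R, s ≠ 0 ∧ x * s = r

variable {R t}

namespace BcuPrimeData

variable (h : BcuPrimeData R t)
include h

theorem not_dvd_mul {a b : F} (ha : a ∈ R) (hb : b ∈ R) (ha' : ¬ BcuDvd R t a)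
    (hb' : ¬ BcuDvd R t b) : ¬ BcuDvd R t (a * b) := fun hab =>
  (h.prime a ha b hb hab).elim ha' hb'

theorem exists_factor {r : F} (hr : r ∈ R) (hr0 : r ≠ 0) :
    ∃ n : ℕ, ∃ r₀ ∈ R, ¬ BcuDvd R t r₀ ∧ r = t ^ n * r₀ := by
  classical
  have hex : ∃ n : ℕ, ¬ ∃ c ∈ R, r = t ^ n * c := by
    by_contra hcon
    push Not at hcon
    exact hr0 (h.sep r hr hcon)
  have hmin : ∀ m, m < Nat.find hex → ∃ c ∈ R, r = t ^ m * c := fun m hm =>
    not_not.mp (Nat.find_min hex hm)
  have hspec := Nat.find_spec hex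
  rcases Nat.eq_zero_or_pos (Nat.find hex) with h0 | hpos
  · exfalso
    apply hspec
    rw [h0]
    exact ⟨r, hr, by simp⟩
  · obtain ⟨m, hm⟩ : ∃ m, Nat.find hex = m + 1 := ⟨Nat.find hex - 1, by omega⟩
    obtain ⟨c, hc, hrc⟩ := hmin m (by omega)
    refine ⟨m, c, hc, ?_, hrc⟩
    rintro ⟨c', hc', rfl⟩
    apply hspec
    refine ⟨c', hc', ?_⟩
    rw [hm, hrc, pow_succ, mul_assoc]

/-- The localisation of `R` at `t R`, as a valuation subring of `F`. -/
def valuationSubring : ValuationSubring F where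
  carrier := {x | ∃ r ∈ R, ∃ s ∈ R, ¬ BcuDvd R t s ∧ x * s = r}
  mul_mem' := by
    rintro x y ⟨r, hr, s, hs, hs', hx⟩ ⟨r', hr', s', hs2, hs2', hy⟩
    refine ⟨r * r', R.mul_mem hr hr', s * s', R.mul_mem hs hs2, h.not_dvd_mul hs hs2 hs' hs2', ?_⟩
    rw [← hx, ← hy]; ring
  one_mem' := ⟨1, R.one_mem, 1, R.one_mem, h.not_unit, by simp⟩
  add_mem' := by
    rintro x y ⟨r, hr, s, hs, hs', hx⟩ ⟨r', hr', s', hs2, hs2', hy⟩
    refine ⟨r * s' + r' * s, R.add_mem (R.mul_mem hr hs2) (R.mul_mem hr' hs), s * s',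
      R.mul_mem hs hs2, h.not_dvd_mul hs hs2 hs' hs2', ?_⟩
    rw [← hx, ← hy]; ring
  zero_mem' := ⟨0, R.zero_mem, 1, R.one_mem, h.not_unit, by simp⟩
  neg_mem' := by
    rintro x ⟨r, hr, s, hs, hs', hx⟩
    exact ⟨-r, R.neg_mem hr, s, hs, hs', by rw [← hx]; ring⟩
  mem_or_inv_mem' := by
    intro x
    rcases eq_or_ne x 0 with rfl | hx0
    · left
      exact ⟨0, R.zero_mem, 1, R.one_mem, h.not_unit, by simp⟩
    obtain ⟨r, hr, s, hs, hs0, hxs⟩ := h.frac x
    have hr0 : r ≠ 0 := by rw [← hxs]; exact mul_ne_zero hx0 hs0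
    obtain ⟨a, r₀, hr₀, hr₀', rfl⟩ := h.exists_factor hr hr0
    obtain ⟨b, s₀, hs₀, hs₀', rfl⟩ := h.exists_factor hs hs0
    have ht0 := h.ne_zero
    rcases le_total b a with hba | hab
    · left
      refine ⟨t ^ (a - b) * r₀, R.mul_mem (R.pow_mem h.mem _) hr₀, s₀, hs₀, hs₀', ?_⟩
      have h1 : t ^ a = t ^ b * t ^ (a - b) := by
        rw [← pow_add, Nat.add_sub_cancel' hba]
      have : t ^ b * (x * s₀) = t ^ b * (t ^ (a - b) * r₀) := by
        rw [← mul_assoc (t ^ b) (t ^ (a - b)), ← h1, ← hxs]; ring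
      exact mul_left_cancel₀ (pow_ne_zero _ ht0) this
    · right
      refine ⟨t ^ (b - a) * s₀, R.mul_mem (R.pow_mem h.mem _) hs₀, r₀, hr₀, hr₀', ?_⟩
      have h0 : t ^ b = t ^ a * t ^ (b - a) := by
        rw [← pow_add, Nat.add_sub_cancel' hab]
      have h1 : t ^ a * r₀ = t ^ a * (x * (t ^ (b - a) * s₀)) := by
        rw [← hxs, h0]; ring
      have h2 : r₀ = x * (t ^ (b - a) * s₀) := mul_left_cancel₀ (pow_ne_zero a ht0) h1
      rw [h2]
      field_simp

theorem mem_valuationSubring_iff {x : F} :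
    x ∈ h.valuationSubring ↔ ∃ r ∈ R, ∃ s ∈ R, ¬ BcuDvd R t s ∧ x * s = r := Iff.rfl

theorem le_valuationSubring {r : F} (hr : r ∈ R) : r ∈ h.valuationSubring :=
  ⟨r, hr, 1, R.one_mem, h.not_unit, by simp⟩

theorem inv_not_mem : t⁻¹ ∉ h.valuationSubring := by
  rintro ⟨r, hr, s, hs, hs', hx⟩
  apply hs'
  refine ⟨r, hr, ?_⟩
  rw [← hx]
  field_simp [h.ne_zero]

omit h in
theorem ne_zero_of_not_dvd {r : F} (hr : ¬ BcuDvd R t r) : r ≠ 0 := by
  rintro rfl
  exact hr ⟨0, R.zero_mem, by simp⟩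

/-- every nonzero element of the valuation subring is `tⁿ · u`, `u` a quotient of elements of
`R ∖ t R`. -/
theorem exists_pow_mul {x : F} (hx : x ∈ h.valuationSubring) (hx0 : x ≠ 0) :
    ∃ (n : ℕ) (u : F), u ∈ h.valuationSubring ∧ u⁻¹ ∈ h.valuationSubring ∧ u ≠ 0 ∧
      x = t ^ n * u := by
  obtain ⟨r, hr, s, hs, hs', hxs⟩ := hx
  have hs0 : s ≠ 0 := ne_zero_of_not_dvd hs'
  have hr0 : r ≠ 0 := by rw [← hxs]; exact mul_ne_zero hx0 hs0
  obtain ⟨n, r₀, hr₀, hr₀', rfl⟩ := h.exists_factor hr hr0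
  have hr₀0 : r₀ ≠ 0 := ne_zero_of_not_dvd hr₀'
  refine ⟨n, r₀ / s, ⟨r₀, hr₀, s, hs, hs', by field_simp⟩,
    ⟨s, hs, r₀, hr₀, hr₀', by field_simp⟩, div_ne_zero hr₀0 hs0, ?_⟩
  rw [← mul_div_assoc, ← hxs]
  field_simp

theorem isUnit_of_inv_mem {u : F} (hu : u ∈ h.valuationSubring)
    (hu' : u⁻¹ ∈ h.valuationSubring) (hu0 : u ≠ 0) :
    IsUnit (⟨u, hu⟩ : h.valuationSubring) :=
  isUnit_iff_exists_inv.mpr ⟨⟨u⁻¹, hu'⟩, Subtype.ext (mul_inv_cancel₀ hu0)⟩

theorem not_isUnit_t : ¬ IsUnit (⟨t, h.le_valuationSubring h.mem⟩ : h.valuationSubring) := by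
  intro hu
  obtain ⟨q, hq⟩ := isUnit_iff_exists_inv.mp hu
  have h1 : t * (q : F) = 1 := congrArg Subtype.val hq
  have h2 : (q : F) = t⁻¹ := eq_inv_of_mul_eq_one_right h1
  exact h.inv_not_mem (h2 ▸ q.2)

theorem irreducible_t :
    Irreducible (⟨t, h.le_valuationSubring h.mem⟩ : h.valuationSubring) := by
  rw [irreducible_iff]
  refine ⟨h.not_isUnit_t, ?_⟩
  rintro ⟨a, ha⟩ ⟨b, hb⟩ hab
  have hab' : t = a * b := congrArg Subtype.val hab
  have ht0 := h.ne_zero
  have ha0 : a ≠ 0 := by rintro rfl; exact ht0 (by simpa using hab')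
  have hb0 : b ≠ 0 := by rintro rfl; exact ht0 (by simpa using hab')
  obtain ⟨n, u, hu, hu', hu0, rfl⟩ := h.exists_pow_mul ha ha0
  obtain ⟨m, u', hu2, hu2', hu20, rfl⟩ := h.exists_pow_mul hb hb0
  rcases Nat.eq_zero_or_pos n with rfl | hn
  · left
    have : (⟨t ^ 0 * u, ha⟩ : h.valuationSubring) = ⟨u, hu⟩ := Subtype.ext (by simp)
    rw [this]
    exact h.isUnit_of_inv_mem hu hu' hu0
  rcases Nat.eq_zero_or_pos m with rfl | hm
  · right
    have : (⟨t ^ 0 * u', hb⟩ : h.valuationSubring) = ⟨u', hu2⟩ := Subtype.ext (by simp)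
    rw [this]
    exact h.isUnit_of_inv_mem hu2 hu2' hu20
  exfalso
  obtain ⟨n, rfl⟩ : ∃ n', n = n' + 1 := ⟨n - 1, by omega⟩
  obtain ⟨m, rfl⟩ : ∃ m', m = m' + 1 := ⟨m - 1, by omega⟩
  have h1 : t * 1 = t * (t * (t ^ n * t ^ m * (u * u'))) := by
    rw [mul_one]
    conv_lhs => rw [hab']
    ring
  have h2 : 1 = t * (t ^ n * t ^ m * (u * u')) := mul_left_cancel₀ ht0 h1
  have h3 : t⁻¹ = t ^ n * t ^ m * (u * u') := (eq_inv_of_mul_eq_one_right h2.symm).symm
  apply h.inv_not_mem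
  rw [h3]
  have htm : t ∈ h.valuationSubring := h.le_valuationSubring h.mem
  exact mul_mem (mul_mem (pow_mem htm _) (pow_mem htm _)) (mul_mem hu hu2)

theorem hasUnitMulPowIrreducibleFactorization :
    IsDiscreteValuationRing.HasUnitMulPowIrreducibleFactorization h.valuationSubring := by
  refine ⟨⟨t, h.le_valuationSubring h.mem⟩, h.irreducible_t, ?_⟩
  rintro ⟨x, hx⟩ hx0
  have hx0' : x ≠ 0 := fun h0 => hx0 (Subtype.ext h0)
  obtain ⟨n, u, hu, hu', hu0, rfl⟩ := h.exists_pow_mul hx hx0'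
  refine ⟨n, ?_⟩
  obtain ⟨U, hU⟩ := h.isUnit_of_inv_mem hu hu' hu0
  refine ⟨U, Subtype.ext ?_⟩
  rw [hU]
  rfl

theorem isPrincipalIdealRing : IsPrincipalIdealRing h.valuationSubring :=
  haveI := IsDiscreteValuationRing.ofHasUnitMulPowIrreducibleFactorization
    h.hasUnitMulPowIrreducibleFactorization
  inferInstance

theorem valuationSubring_ne_top : h.valuationSubring ≠ ⊤ := fun htop =>
  h.inv_not_mem (htop ▸ ValuationSubring.mem_top _)

end BcuPrimeData

end DVR

end Fermat.Agent.ES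

end
end ZBES_019_0

/-! ### bundled: `Fermat.Agent.ES.BaseChangeUpCore` -/
section ZBES_019_1

/-!
# ESpkg-G1, piece BCu (part 2): places extend along a constant field extension, `e = 1`

`k ⊆ C` fields, `K ⊆ k((q))` and `K' ⊆ C((q))` intermediate fields, `ι : K → K'` the
coefficientwise embedding, `K'` generated by `C` and `ι K`.  For a place `v` of `K / k` with
residue field `k`:

* `bcu_exists_place_extends` : there is a place `w` of `K' / C` with `w.ord (ι f) = v.ord f`.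

Proof.  `T = C ⊗[k] O_v`, `μ : T → K'` the multiplication map, `R = μ T`, `t = ι ϖ`.  For a
`k`-linear `l : C → k`, `Λ_l = l ⊗ id : T → O_v`; the coefficient identity `bcu_coeff`
(`l` of the `m`-th coefficient of `μ x` is the `m`-th coefficient of `Λ_l x`) gives linear
disjointness.  Then `R = C + t R`, `C ∩ t R = 0`, `⋂ tⁿ R = 0`, so `t R` is prime and
`BaseChangeUpDvr.lean` applies.
-/

set_option autoImplicit false

noncomputable section

namespace Fermat.Agent.ES

open AlgebraicCurve ModularCurve TensorProduct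

section Core

variable {k C : Type*} [Field k] [Field C] [Algebra k C]
variable {K : IntermediateField k (LaurentSeries k)}
  {K' : IntermediateField C (LaurentSeries C)}

/-- the `k`-algebra structure of `K'` (through `C`); a local instance of this file. -/
@[reducible] def bcuAlgebra (k : Type*) {C : Type*} [Field k] [Field C] [Algebra k C]
    (K' : IntermediateField C (LaurentSeries C)) : Algebra k K' :=
  ((algebraMap C K').comp (algebraMap k C)).toAlgebra

attribute [local instance] bcuAlgebra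

theorem bcu_isScalarTower : IsScalarTower k C K' :=
  IsScalarTower.of_algebraMap_eq fun _ => rfl

attribute [local instance] bcu_isScalarTower

theorem bcu_coeffMap_algebraMap (a : k) :
    coeffMap (algebraMap k C) (algebraMap k (LaurentSeries k) a) =
      algebraMap C (LaurentSeries C) (algebraMap k C a) := by
  rw [algebraMap_laurentSeries_eq_single, algebraMap_laurentSeries_eq_single, coeffMap_single]

variable (ι : K →+* K')
  (hι : ∀ x : K, ((ι x : K') : LaurentSeries C) =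
    coeffMap (algebraMap k C) (x : LaurentSeries k))
variable (v : Place k K)

include hι in
theorem bcu_iota_algebraMap (a : k) :
    ι (algebraMap k K a) = algebraMap C K' (algebraMap k C a) := by
  apply Subtype.ext
  rw [hι]
  exact bcu_coeffMap_algebraMap a

/-- `ι` on the valuation ring, as a `k`-algebra map. -/
def bcuG : v.toValuationSubring →ₐ[k] K' where
  toFun g := ι (g : K)
  map_one' := by simp
  map_mul' x y := by simp
  map_zero' := by simp
  map_add' x y := by simp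
  commutes' a := by
    show ι ((algebraMap k v.toValuationSubring a : v.toValuationSubring) : K) = _
    rw [Place.coe_algebraMap, bcu_iota_algebraMap ι hι]
    rfl

/-- the multiplication map `C ⊗ O_v → K'`. -/
def bcuMu : C ⊗[k] v.toValuationSubring →ₐ[k] K' :=
  Algebra.TensorProduct.productMap (IsScalarTower.toAlgHom k C K') (bcuG ι hι v)

theorem bcuMu_tmul (c : C) (g : v.toValuationSubring) :
    bcuMu ι hι v (c ⊗ₜ g) = algebraMap C K' c * ι (g : K) := rfl

/-- the coefficient functional `C ⊗ O_v → O_v` attached to `l : C → k`. -/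
def bcuLam (l : C →ₗ[k] k) : C ⊗[k] v.toValuationSubring →ₗ[k] v.toValuationSubring :=
  (TensorProduct.lid k v.toValuationSubring).toLinearMap ∘ₗ LinearMap.rTensor _ l

theorem bcuLam_tmul (l : C →ₗ[k] k) (c : C) (g : v.toValuationSubring) :
    bcuLam v l (c ⊗ₜ g) = l c • g := rfl

theorem bcuLam_mul (l : C →ₗ[k] k) (g : v.toValuationSubring)
    (y : C ⊗[k] v.toValuationSubring) :
    bcuLam v l ((1 ⊗ₜ g) * y) = g * bcuLam v l y := by
  induction y using TensorProduct.induction_on with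
  | zero => simp
  | tmul c h =>
    rw [Algebra.TensorProduct.tmul_mul_tmul, bcuLam_tmul, bcuLam_tmul, one_mul, mul_smul_comm]
  | add x y hx hy => rw [mul_add, map_add, map_add, hx, hy, mul_add]

/-- **coefficient identity**: `l` applied to the coefficients of `μ x` gives the coefficients of
`Λ_l x`. -/
theorem bcu_coeff (l : C →ₗ[k] k) (x : C ⊗[k] v.toValuationSubring) (m : ℤ) :
    l (((bcuMu ι hι v x : K') : LaurentSeries C).coeff m) =
      (((bcuLam v l x : v.toValuationSubring) : K) : LaurentSeries k).coeff m := by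
  induction x using TensorProduct.induction_on with
  | zero => simp
  | tmul c g =>
    rw [bcuMu_tmul, bcuLam_tmul]
    have h1 : ((algebraMap C K' c * ι (g : K) : K') : LaurentSeries C) =
        c • coeffMap (algebraMap k C) ((g : K) : LaurentSeries k) := by
      rw [MulMemClass.coe_mul, hι]
      show algebraMap C (LaurentSeries C) c * _ = _
      rw [LaurentSeries.algebraMap_apply, HahnSeries.C_mul_eq_smul]
    have h2 : (((l c • g : v.toValuationSubring) : K) : LaurentSeries k) =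
        l c • (((g : K) : LaurentSeries k)) := by
      rw [Algebra.smul_def]
      show algebraMap k (LaurentSeries k) (l c) * _ = _
      rw [LaurentSeries.algebraMap_apply, HahnSeries.C_mul_eq_smul]
    rw [h1, h2, HahnSeries.coeff_smul, HahnSeries.coeff_smul, coeffMap_coeff, smul_eq_mul,
      smul_eq_mul, mul_comm c, ← Algebra.smul_def, map_smul, smul_eq_mul, mul_comm]
  | add x y hx hy =>
    rw [map_add, map_add]
    simp only [AddMemClass.coe_add, HahnSeries.coeff_add, map_add, hx, hy]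

/-- (LD1) -/
theorem bcu_lam_eq_zero (l : C →ₗ[k] k) (x : C ⊗[k] v.toValuationSubring)
    (hx : bcuMu ι hι v x = 0) : bcuLam v l x = 0 := by
  apply Subtype.ext
  apply Subtype.ext
  ext m
  rw [← bcu_coeff ι hι v l x m, hx]
  simp

/-- (LD2) -/
theorem bcu_mu_eq_zero (x : C ⊗[k] v.toValuationSubring)
    (hx : ∀ l : C →ₗ[k] k, bcuLam v l x = 0) : bcuMu ι hι v x = 0 := by
  apply Subtype.ext
  ext m
  have h : ∀ l : Module.Dual k C, l (((bcuMu ι hι v x : K') : LaurentSeries C).coeff m) = 0 := by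
    intro l
    rw [bcu_coeff ι hι v l x m, hx l]
    simp
  rw [(Module.forall_dual_apply_eq_zero_iff k _).mp h]
  simp

/-! ### The ring `R = C · ι(O_v)` -/

/-- (P2) `R = C + t R`. -/
theorem bcu_exists_const (hres : Function.Surjective (algebraMap k v.ResidueField))
    {ϖ : v.toValuationSubring} (hϖ : Irreducible ϖ) (x : C ⊗[k] v.toValuationSubring) :
    ∃ (c : C) (y : C ⊗[k] v.toValuationSubring), x = c ⊗ₜ 1 + (1 ⊗ₜ ϖ) * y := by
  induction x using TensorProduct.induction_on with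
  | zero => exact ⟨0, 0, by simp⟩
  | tmul c g =>
    obtain ⟨a, ha⟩ := hres (IsLocalRing.residue _ g)
    have h1 : IsLocalRing.residue v.toValuationSubring (g - algebraMap k _ a) = 0 := by
      rw [map_sub, ← ha]
      exact sub_self _
    rw [IsLocalRing.residue_eq_zero_iff, hϖ.maximalIdeal_eq, Ideal.mem_span_singleton'] at h1
    obtain ⟨h, hh⟩ := h1
    refine ⟨a • c, c ⊗ₜ h, ?_⟩
    have hg : g = a • (1 : v.toValuationSubring) + ϖ * h := by
      rw [Algebra.smul_def, mul_one, mul_comm, hh]; ring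
    rw [Algebra.TensorProduct.tmul_mul_tmul, one_mul, TensorProduct.smul_tmul, ← tmul_add, ← hg]
  | add x y hx hy =>
    obtain ⟨c, x', rfl⟩ := hx
    obtain ⟨d, y', rfl⟩ := hy
    exact ⟨c + d, x' + y', by rw [add_tmul, mul_add]; abel⟩

/-- (P3) `C ∩ t R = 0`. -/
theorem bcu_const_eq_zero {ϖ : v.toValuationSubring} (hϖ : Irreducible ϖ) (c : C)
    (y : C ⊗[k] v.toValuationSubring)
    (h : bcuMu ι hι v (c ⊗ₜ 1) = bcuMu ι hι v ((1 ⊗ₜ ϖ) * y)) : c = 0 := by
  rw [← Module.forall_dual_apply_eq_zero_iff k c]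
  intro l
  have h0 : bcuMu ι hι v (c ⊗ₜ 1 - (1 ⊗ₜ ϖ) * y) = 0 := by rw [map_sub, h, sub_self]
  have h1 := bcu_lam_eq_zero ι hι v l _ h0
  rw [map_sub, bcuLam_tmul, bcuLam_mul, sub_eq_zero] at h1
  by_contra hl
  have hu : IsUnit (l c • (1 : v.toValuationSubring)) := by
    rw [Algebra.smul_def, mul_one]
    exact (IsUnit.mk0 _ hl).map (algebraMap k v.toValuationSubring)
  rw [h1] at hu
  exact hϖ.not_isUnit (isUnit_of_mul_isUnit_left hu)

/-- Krull's intersection theorem in `O_v`. -/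
theorem bcu_krull {ϖ : v.toValuationSubring} (hϖ : Irreducible ϖ) (g : v.toValuationSubring)
    (h : ∀ n : ℕ, ∃ y : v.toValuationSubring, g = ϖ ^ n * y) : g = 0 := by
  have hI : (Ideal.span {ϖ} : Ideal v.toValuationSubring) ≠ ⊤ := by
    rw [← hϖ.maximalIdeal_eq]
    exact (IsLocalRing.maximalIdeal.isMaximal _).ne_top
  have hbot := Ideal.iInf_pow_eq_bot_of_isLocalRing (Ideal.span {ϖ}) hI
  have hmem : g ∈ (⨅ i : ℕ, (Ideal.span {ϖ} : Ideal v.toValuationSubring) ^ i) := by
    rw [Ideal.mem_iInf]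
    intro n
    obtain ⟨y, rfl⟩ := h n
    rw [Ideal.span_singleton_pow]
    exact Ideal.mul_mem_right _ _ (Ideal.mem_span_singleton_self _)
  rw [hbot] at hmem
  exact hmem

/-- (P4) `⋂ tⁿ R = 0`. -/
theorem bcu_sep {ϖ : v.toValuationSubring} (hϖ : Irreducible ϖ)
    (x : C ⊗[k] v.toValuationSubring)
    (h : ∀ n : ℕ, ∃ y : C ⊗[k] v.toValuationSubring,
      bcuMu ι hι v x = bcuMu ι hι v ((1 ⊗ₜ ϖ) ^ n * y)) : bcuMu ι hι v x = 0 := by
  apply bcu_mu_eq_zero
  intro l
  apply bcu_krull v hϖ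
  intro n
  obtain ⟨y, hy⟩ := h n
  have h0 : bcuMu ι hι v (x - (1 ⊗ₜ ϖ) ^ n * y) = 0 := by rw [map_sub, hy, sub_self]
  have h1 := bcu_lam_eq_zero ι hι v l _ h0
  rw [map_sub, sub_eq_zero] at h1
  refine ⟨bcuLam v l y, ?_⟩
  rw [h1, Algebra.TensorProduct.tmul_pow, one_pow, bcuLam_mul]

/-- The ring `R = C · ι(O_v) ⊆ K'`. -/
def bcuR : Subring K' := (bcuMu ι hι v : C ⊗[k] v.toValuationSubring →+* K').range

theorem bcu_mem_R {r : K'} : r ∈ bcuR ι hι v ↔ ∃ x, bcuMu ι hι v x = r := Iff.rfl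

theorem bcu_algebraMap_mem_R (c : C) : algebraMap C K' c ∈ bcuR ι hι v :=
  ⟨c ⊗ₜ 1, by rw [RingHom.coe_coe, bcuMu_tmul]; simp⟩

theorem bcu_iota_mem_R (g : v.toValuationSubring) : ι (g : K) ∈ bcuR ι hι v :=
  ⟨1 ⊗ₜ g, by rw [RingHom.coe_coe, bcuMu_tmul]; simp⟩

theorem bcu_mu_one_tmul (g : v.toValuationSubring) : bcuMu ι hι v (1 ⊗ₜ g) = ι (g : K) := by
  rw [bcuMu_tmul]; simp

theorem bcu_mu_tmul_one (c : C) : bcuMu ι hι v (c ⊗ₜ 1) = algebraMap C K' c := by
  rw [bcuMu_tmul]; simp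

/-- `K' = Frac R`. -/
theorem bcu_frac
    (hgen : ∀ y : K', y ∈ Subfield.closure (Set.range (algebraMap C K') ∪ Set.range ι))
    (x : K') : ∃ r ∈ bcuR ι hι v, ∃ s ∈ bcuR ι hι v, s ≠ 0 ∧ x * s = r := by
  have hle : Subfield.closure (Set.range (algebraMap C K') ∪ Set.range ι) ≤
      Subfield.closure (bcuR ι hι v : Set K') := by
    rw [Subfield.closure_le]
    rintro y (⟨c, rfl⟩ | ⟨f, rfl⟩)
    · exact Subfield.subset_closure (bcu_algebraMap_mem_R ι hι v c)
    · rcases v.toValuationSubring.mem_or_inv_mem f with hf | hf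
      · exact Subfield.subset_closure (bcu_iota_mem_R ι hι v ⟨f, hf⟩)
      · have h1 : ι f⁻¹ ∈ Subfield.closure (bcuR ι hι v : Set K') :=
          Subfield.subset_closure (bcu_iota_mem_R ι hι v ⟨f⁻¹, hf⟩)
        have h2 := inv_mem h1
        rwa [map_inv₀, inv_inv] at h2
  have hx := hle (hgen x)
  rw [Subfield.mem_closure_iff, Subring.closure_eq] at hx
  obtain ⟨y, hy, z, hz, rfl⟩ := hx
  rcases eq_or_ne z 0 with rfl | hz0
  · exact ⟨0, Subring.zero_mem _, 1, Subring.one_mem _, one_ne_zero, by simp⟩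
  · exact ⟨y, hy, z, hz, hz0, by field_simp⟩

theorem bcu_primeData (hres : Function.Surjective (algebraMap k v.ResidueField))
    (hgen : ∀ y : K', y ∈ Subfield.closure (Set.range (algebraMap C K') ∪ Set.range ι))
    {ϖ : v.toValuationSubring} (hϖ : Irreducible ϖ) :
    BcuPrimeData (bcuR ι hι v) (ι (ϖ : K)) := by
  have hmul : ∀ y, ι (ϖ : K) * bcuMu ι hι v y = bcuMu ι hι v ((1 ⊗ₜ ϖ) * y) := fun y => by
    rw [map_mul, bcu_mu_one_tmul]
  have hdvd : ∀ c : C, BcuDvd (bcuR ι hι v) (ι (ϖ : K)) (algebraMap C K' c) → c = 0 := by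
    rintro c ⟨r, ⟨y, rfl⟩, hc⟩
    refine bcu_const_eq_zero ι hι v hϖ c y ?_
    rw [bcu_mu_tmul_one, hc, RingHom.coe_coe, hmul]
  refine ⟨bcu_iota_mem_R ι hι v ϖ, ?_, ?_, ?_, ?_, bcu_frac ι hι v hgen⟩
  · rw [Ne, map_eq_zero_iff ι ι.injective]
    exact fun h0 => hϖ.ne_zero (Subtype.ext h0)
  · rintro a ⟨x, rfl⟩ b ⟨y, rfl⟩ hab
    obtain ⟨c, x', rfl⟩ := bcu_exists_const v hres hϖ x
    obtain ⟨d, y', rfl⟩ := bcu_exists_const v hres hϖ y
    obtain ⟨e, ⟨z, rfl⟩, he⟩ := hab
    simp only [RingHom.coe_coe, map_add, map_mul, bcu_mu_tmul_one, bcu_mu_one_tmul] at he ⊢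
    have hcd : c * d = 0 := by
      apply hdvd
      refine ⟨bcuMu ι hι v z - algebraMap C K' c * bcuMu ι hι v y' -
        algebraMap C K' d * bcuMu ι hι v x' -
        ι (ϖ : K) * (bcuMu ι hι v x' * bcuMu ι hι v y'), ?_, ?_⟩
      · refine Subring.sub_mem _ (Subring.sub_mem _ (Subring.sub_mem _ ⟨z, rfl⟩
          (Subring.mul_mem _ (bcu_algebraMap_mem_R ι hι v c) ⟨y', rfl⟩))
          (Subring.mul_mem _ (bcu_algebraMap_mem_R ι hι v d) ⟨x', rfl⟩))
          (Subring.mul_mem _ (bcu_iota_mem_R ι hι v ϖ) (Subring.mul_mem _ ⟨x', rfl⟩ ⟨y', rfl⟩))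
      · rw [map_mul]
        linear_combination he
    rcases mul_eq_zero.mp hcd with rfl | rfl
    · left
      exact ⟨bcuMu ι hι v x', ⟨x', rfl⟩, by simp⟩
    · right
      exact ⟨bcuMu ι hι v y', ⟨y', rfl⟩, by simp⟩
  · intro h1
    have := hdvd 1 (by simpa using h1)
    exact one_ne_zero this
  · rintro r ⟨x, rfl⟩ hn
    refine bcu_sep ι hι v hϖ x fun n => ?_
    obtain ⟨c, ⟨y, rfl⟩, hc⟩ := hn n
    refine ⟨y, ?_⟩
    rw [map_mul, map_pow, bcu_mu_one_tmul]
    exact hc

include hι in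
/-- **BCu, generic form.**  A place `v` of `K / k` with residue field `k` extends to a place `w`
of `K' = C · ι K` over `C` with the same orders (`e = 1`). -/
theorem bcu_exists_place_extends
    (hres : Function.Surjective (algebraMap k v.ResidueField))
    (hgen : ∀ y : K', y ∈ Subfield.closure (Set.range (algebraMap C K') ∪ Set.range ι)) :
    ∃ w : Place C K', ∀ f : K, w.ord (ι f) = v.ord f := by
  classical
  obtain ⟨ϖ, hϖ⟩ := IsDiscreteValuationRing.exists_irreducible v.toValuationSubring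
  have hD := bcu_primeData ι hι v hres hgen hϖ
  let w : Place C K' :=
    { toValuationSubring := hD.valuationSubring
      algebraMap_mem' := fun c => hD.le_valuationSubring (bcu_algebraMap_mem_R ι hι v c)
      ne_top' := hD.valuationSubring_ne_top
      isPrincipalIdealRing' := hD.isPrincipalIdealRing }
  refine ⟨w, fun f => ?_⟩
  rcases eq_or_ne f 0 with rfl | hf
  · simp
  obtain ⟨u, hu⟩ := v.exists_unit_mul_zpow hf hϖ
  have hmem : ∀ g : v.toValuationSubring, ι (g : K) ∈ w.toValuationSubring := fun g =>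
    hD.le_valuationSubring (bcu_iota_mem_R ι hι v g)
  let U : (w.toValuationSubring)ˣ :=
    { val := ⟨ι ((u : v.toValuationSubring) : K), hmem _⟩
      inv := ⟨ι (((u⁻¹ : (v.toValuationSubring)ˣ) : v.toValuationSubring) : K), hmem _⟩
      val_inv := by
        apply Subtype.ext
        show ι _ * ι _ = 1
        rw [← map_mul, ← MulMemClass.coe_mul, Units.mul_inv]
        simp
      inv_val := by
        apply Subtype.ext
        show ι _ * ι _ = 1
        rw [← map_mul, ← MulMemClass.coe_mul, Units.inv_mul]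
        simp }
  have hirr : Irreducible (⟨ι (ϖ : K), hmem ϖ⟩ : w.toValuationSubring) := hD.irreducible_t
  have key := w.ord_unit_smul_zpow U hirr (v.ord f)
  have hιf : ι f = ((U : w.toValuationSubring) : K') *
      (((⟨ι (ϖ : K), hmem ϖ⟩ : w.toValuationSubring) : K') ^ (v.ord f)) := by
    conv_lhs => rw [hu]
    rw [map_mul, map_zpow₀]
  rw [hιf]
  exact key

end Core

end Fermat.Agent.ES

end
end ZBES_019_1
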