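/- GENERATED FILE (helper35, build-time optimisation, NOTES/ZB.md): verbatim concatenation of the modules
   Fermat.Agent.INJ.BGIntCore
   Do not edit; do not import together with these modules. -/
import Mathlib
import Fermat.Agent.ZB.INJ_017
import Fermat.Agent.ZB.ES_019

/-! ### bundled: `Fermat.Agent.INJ.BGIntCore` -/
section ZBINJ_018_0

/-!
# INJ B-glue, piece BG-int, generic core

`K` a field which is an algebra over a commutative ring `A`, `τ ∈ K`, `R = A[τ]`
(`Algebra.adjoin A {τ}`).

* `bgInt_isIntegral_of_table` : if a finite family `y i` has a multiplication table with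
  coefficients in `A[τ]`, then every `A[τ]`-combination of the `y i` is integral over `A[τ]`;
* `bgInt_isIntegral_of_mul_of_pow_mul` : `R` integrally closed, `p` prime in `R`, `g ∉ (p)`;
  if `g z` and `p ^ m z` are integral over `R` then so is `z`;
* `bgInt_exists_pow_mul_isIntegral_of_coeff` : clearing denominators in an integrality relation.
-/

set_option autoImplicit false

namespace Fermat.Agent.INJ

open Polynomial

section Table

variable {A K : Type*} [CommRing A] [Field K] [Algebra A K] (τ : K) {n : ℕ} (y : Fin n → K)

theorem bgInt_aeval_mem_adjoin (f : A[X]) : aeval τ f ∈ Algebra.adjoin A {τ} := by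
  rw [Algebra.adjoin_singleton_eq_range_aeval]
  exact ⟨f, rfl⟩

/-- **Integrality from a multiplication table.** -/
theorem bgInt_isIntegral_of_table (hy : ∃ i, y i ≠ 0)
    (htab : ∀ j l, ∃ c : Fin n → A[X], y j * y l = ∑ i, aeval τ (c i) * y i)
    (z : K) (hz : ∃ d : Fin n → A[X], z = ∑ i, aeval τ (d i) * y i) :
    IsIntegral (Algebra.adjoin A {τ}) z := by
  classical
  set R := Algebra.adjoin A {τ} with hR
  set N : Submodule R K := Submodule.span R (Set.range y) with hN
  have hyN : ∀ i, y i ∈ N := fun i => Submodule.subset_span ⟨i, rfl⟩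
  have hcomb : ∀ d : Fin n → A[X], ∑ i, aeval τ (d i) * y i ∈ N := by
    intro d
    refine Submodule.sum_mem _ fun i _ => ?_
    have : aeval τ (d i) * y i = (⟨aeval τ (d i), bgInt_aeval_mem_adjoin τ (d i)⟩ : R) • y i := rfl
    rw [this]
    exact Submodule.smul_mem _ _ (hyN i)
  -- `N` is closed under multiplication
  have hmul : ∀ a ∈ N, ∀ b ∈ N, a * b ∈ N := by
    intro a ha b hb
    induction ha using Submodule.span_induction with
    | mem a ha =>
      obtain ⟨j, rfl⟩ := ha
      induction hb using Submodule.span_induction with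
      | mem b hb =>
        obtain ⟨l, rfl⟩ := hb
        obtain ⟨c, hc⟩ := htab j l
        rw [hc]
        exact hcomb c
      | zero => rw [mul_zero]; exact N.zero_mem
      | add b b' _ _ hb hb' => rw [mul_add]; exact N.add_mem hb hb'
      | smul s b _ hb =>
        have : y j * (s • b) = s • (y j * b) := by
          rw [Algebra.smul_def, Algebra.smul_def]; ring
        rw [this]
        exact N.smul_mem s hb
    | zero => rw [zero_mul]; exact N.zero_mem
    | add a a' _ _ ha ha' => rw [add_mul]; exact N.add_mem ha ha'
    | smul s a _ ha =>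
      have : (s • a) * b = s • (a * b) := by
        rw [Algebra.smul_def, Algebra.smul_def]; ring
      rw [this]
      exact N.smul_mem s ha
  have hzN : z ∈ N := by
    obtain ⟨d, rfl⟩ := hz
    exact hcomb d
  have hNbot : N ≠ ⊥ := by
    obtain ⟨i, hi⟩ := hy
    intro h
    have := hyN i
    rw [h, Submodule.mem_bot] at this
    exact hi this
  have hNfg : N.FG := Submodule.fg_span (Set.finite_range y)
  exact isIntegral_of_smul_mem_submodule (A := K) (M := K) N hNbot hNfg z
    (fun a ha => by rw [smul_eq_mul]; exact hmul z hzN a ha)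

end Table

section Descent

variable {R L : Type*} [CommRing R] [IsDomain R] [IsIntegrallyClosed R]
  [Field L] [Algebra R L] [Module.IsTorsionFree R L]

/-- If `g z` and `p ^ m z` are integral over the integrally closed domain `R`, `p` prime and
`p ∤ g`, then `z` is integral. -/
theorem bgInt_isIntegral_of_mul_of_pow_mul {p g : R} (hp : Prime p) (hg : ¬ p ∣ g) (z : L)
    (hgz : IsIntegral R (g • z)) (m : ℕ) (hpz : IsIntegral R (p ^ m • z)) :
    IsIntegral R z := by
  induction m with
  | zero => simpa using hpz
  | succ m ih =>
    apply ih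
    -- `x' = p^(m+1) z`, `y' = p^m g z`:  `g x' = p y'`
    have hy' : IsIntegral R (p ^ m • (g • z)) := by
      rw [Algebra.smul_def]
      exact (isIntegral_algebraMap).mul hgz
    have hrel : g • (p ^ (m + 1) • z) = p • (p ^ m • (g • z)) := by
      simp only [Algebra.smul_def, map_pow, map_mul, pow_succ]
      ring
    have h1 := isIntegral_inv_mul_of_smul_eq hp hg hpz hy' hrel
    have hpL : algebraMap R L p ≠ 0 := fun h0 =>
      hp.ne_zero (FaithfulSMul.algebraMap_injective R L (by rw [h0, map_zero]))
    have h2 : (algebraMap R L p)⁻¹ * (p ^ (m + 1) • z) = p ^ m • z := by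
      simp only [Algebra.smul_def, map_pow, map_mul, pow_succ]
      field_simp
    rwa [h2] at h1

end Descent

section Scale

variable {R B L : Type*} [CommRing R] [CommRing B] [CommRing L] [Nontrivial L]
  [Algebra R L] [Algebra B L]

/-- **Clearing denominators in an integrality relation.**  If every element of `B` becomes
integral over `R` after multiplication by a power of the `R`-integral element `s`, then so does
every element integral over `B`. -/
theorem bgInt_exists_pow_mul_isIntegral_of_coeff (s : L) (hs : IsIntegral R s)
    (hB : ∀ b : B, ∃ m : ℕ, IsIntegral R (s ^ m * algebraMap B L b))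
    (x : L) (hx : IsIntegral B x) : ∃ m : ℕ, IsIntegral R (s ^ m * x) := by
  classical
  obtain ⟨P, hPm, hPx⟩ := hx
  choose mB hmB using hB
  set M : ℕ := (Finset.range (P.natDegree + 1)).sup (fun i => mB (P.coeff i)) with hM
  refine ⟨M, ?_⟩
  have hdeg : P.natDegree ≠ 0 := by
    intro h0
    have hP1 : P = 1 := by
      have := hPm.natDegree_eq_zero.mp h0
      exact this
    rw [hP1] at hPx
    simp at hPx
  have hPLm : (P.map (algebraMap B L)).Monic := hPm.map _
  have hQm : ((P.map (algebraMap B L)).scaleRoots (s ^ M)).Monic :=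
    (monic_scaleRoots_iff _).mpr hPLm
  have hQdeg : ((P.map (algebraMap B L)).scaleRoots (s ^ M)).natDegree ≠ 0 := by
    rw [natDegree_scaleRoots, hPm.natDegree_map]
    exact hdeg
  have hQx : eval (s ^ M * x) ((P.map (algebraMap B L)).scaleRoots (s ^ M)) = 0 := by
    rw [scaleRoots_eval_mul, eval_map, hPx, mul_zero]
  refine IsIntegral.of_aeval_monic_of_isIntegral_coeff hQm hQdeg
    (by rw [hQx]; exact isIntegral_zero) ?_
  intro i
  rw [coeff_scaleRoots, coeff_map, hPm.natDegree_map]
  rcases lt_trichotomy i P.natDegree with hi | hi | hi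
  · -- `i < d`
    have hle : mB (P.coeff i) ≤ M := by
      rw [hM]
      exact Finset.le_sup (f := fun i => mB (P.coeff i))
        (Finset.mem_range.mpr (by omega))
    have hle2 : mB (P.coeff i) ≤ M * (P.natDegree - i) := by
      calc mB (P.coeff i) ≤ M := hle
        _ = M * 1 := (mul_one M).symm
        _ ≤ M * (P.natDegree - i) := Nat.mul_le_mul_left M (by omega)
    have : algebraMap B L (P.coeff i) * (s ^ M) ^ (P.natDegree - i) =
        s ^ (M * (P.natDegree - i) - mB (P.coeff i)) *
          (s ^ mB (P.coeff i) * algebraMap B L (P.coeff i)) := by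
      rw [← pow_mul, ← mul_assoc, ← pow_add, Nat.sub_add_cancel hle2, mul_comm]
    rw [this]
    exact (hs.pow _).mul (hmB _)
  · subst hi
    rw [Nat.sub_self, pow_zero, mul_one]
    have : P.coeff P.natDegree = 1 := hPm.coeff_natDegree
    rw [this, map_one]
    exact isIntegral_one
  · rw [coeff_eq_zero_of_natDegree_lt hi, map_zero, zero_mul]
    exact isIntegral_zero

end Scale

end Fermat.Agent.INJ


end ZBINJ_018_0
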