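/- GENERATED FILE (helper35, build-time optimisation, NOTES/ZB.md): verbatim concatenation of the modules
   Fermat.Agent.INJ.Components
   Fermat.Agent.INJ.ChartGoodBasis
   Fermat.Agent.INJ.BGInt
   Do not edit; do not import together with these modules. -/
import Mathlib
import Fermat.Agent.ZB.INJ_017
import Fermat.Agent.ZB.INJ_002
import Fermat.Agent.ZB.INJ_003
import Fermat.Agent.ZB.INJ_018
import Fermat.Agent.ZB.INJ_019

/-! ### bundled: `Fermat.Agent.INJ.Components` -/
section ZBINJ_020_0
/-
INJ / Part A, piece A2 (generic commutative algebra, no modular forms, no valuations).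

Setting (as in A1, `TorsionFree.lean`): `R` an integrally closed domain, `K = Frac R`, `L / K` a
finite separable field extension, `C = integralClosure R L`, `π ∈ R` a prime element.

Hypothesis (a) of the INJ plan, in discriminant form (helper36's shape):
`GoodBasis π b` : `b` is a `K`-basis of `L`, integral over `R`, whose discriminant is an element
of `R` not divisible by `π`.

Results:
* `GoodBasis.isRadical`               : `π C` is a radical ideal (`C / π C` is reduced);
* `GoodBasis.traceForm_nondegenerate` : for every field `k` with `ker (R → k) = (π)` the trace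
  form of `k ⊗[R] C` is nondegenerate (the generic fibre of `C / π C` is etale), and
  `fibreBasis` is the basis `1 ⊗ b_i`; `GoodBasis.finrank_fibre`;
* tools: `exists_trace_eq_pi_mul` (trace of an element nilpotent mod `π` is divisible by `π`),
  `det_smul_eq_sum_coordR` (Cramer: `d • C ⊆ ⊕ R b_i`), `trace_one_tmul`.
-/

set_option autoImplicit false
set_option linter.unusedSectionVars false
set_option linter.style.haveILetI false

open Polynomial Module

namespace Fermat.Agent.INJ.Comp

variable {R K L : Type*} [CommRing R] [IsDomain R] [IsIntegrallyClosed R]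
  [Field K] [Algebra R K] [IsFractionRing R K]
  [Field L] [Algebra R L] [Algebra K L] [IsScalarTower R K L] [Module.IsTorsionFree R L]


/-- Hypothesis (a): a `K`-basis of `L`, integral over `R`, with discriminant not divisible by
`π`. -/
def GoodBasis (π : R) {n : ℕ} (b : Basis (Fin n) K L) : Prop :=
  (∀ i, IsIntegral R (b i)) ∧ ∃ d : R, ¬ π ∣ d ∧ algebraMap R K d = Algebra.discr K b

/-- The trace of an integral element comes from `R`. -/
theorem exists_trace_eq [FiniteDimensional K L] {x : L} (hx : IsIntegral R x) :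
    ∃ r : R, algebraMap R K r = Algebra.trace K L x :=
  IsIntegrallyClosed.isIntegral_iff.1 (Algebra.isIntegral_trace hx)

section Cramer

variable {n : ℕ} (b : Basis (Fin n) K L)

/-- Cramer's rule for the trace form: `disc • coordinates = adjugate(T) *ᵥ traces`. -/
theorem discr_smul_equivFun (z : L) :
    Algebra.discr K b • b.equivFun z =
      (Algebra.traceMatrix K b).adjugate.mulVec (fun i => Algebra.trace K L (z * b i)) := by
  rw [← Algebra.traceMatrix_of_basis_mulVec b z, Matrix.mulVec_mulVec, Matrix.adjugate_mul,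
    Matrix.smul_mulVec, Matrix.one_mulVec, Algebra.discr_def]

/-- The `R`-valued trace matrix of an integral basis. -/
noncomputable def traceMatrixR (hb : ∀ i, IsIntegral R (b i)) : Matrix (Fin n) (Fin n) R :=
  haveI : FiniteDimensional K L := Module.Finite.of_basis b
  fun i j => (exists_trace_eq (K := K) ((hb i).mul (hb j))).choose

theorem map_traceMatrixR (hb : ∀ i, IsIntegral R (b i)) :
    (traceMatrixR b hb).map (algebraMap R K) = Algebra.traceMatrix K b := by
  haveI : FiniteDimensional K L := Module.Finite.of_basis b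
  ext i j
  rw [Matrix.map_apply, Algebra.traceMatrix_apply, Algebra.traceForm_apply]
  exact (exists_trace_eq (K := K) ((hb i).mul (hb j))).choose_spec

theorem map_det_traceMatrixR (hb : ∀ i, IsIntegral R (b i)) :
    algebraMap R K (traceMatrixR b hb).det = Algebra.discr K b := by
  rw [Algebra.discr_def, ← map_traceMatrixR b hb, RingHom.map_det]
  rfl

/-- Integral Cramer: if `z` is integral with `Tr(z b_i) = τ_i ∈ R`, then
`disc · (coordinate of z at i) = (adj(T_R) *ᵥ τ)_i`. -/
theorem discr_smul_equivFun_eq (hb : ∀ i, IsIntegral R (b i)) (z : L) (τ : Fin n → R)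
    (hτ : ∀ i, algebraMap R K (τ i) = Algebra.trace K L (z * b i)) (i : Fin n) :
    Algebra.discr K b * b.equivFun z i =
      algebraMap R K (((traceMatrixR b hb).adjugate.mulVec τ) i) := by
  have h := congrFun (discr_smul_equivFun b z) i
  rw [Pi.smul_apply, smul_eq_mul] at h
  rw [h, ← map_traceMatrixR b hb]
  have h1 : ((traceMatrixR b hb).map (algebraMap R K)).adjugate =
      ((traceMatrixR b hb).adjugate).map (algebraMap R K) := by
    have := RingHom.map_adjugate (algebraMap R K) (traceMatrixR b hb)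
    simpa [RingHom.mapMatrix_apply] using this.symm
  rw [h1]
  simp only [Matrix.mulVec, dotProduct, Matrix.map_apply, map_sum, map_mul, hτ]

end Cramer

/-- If `z` is integral and `z ^ (m+1) ∈ π C`, then `Tr(z) ∈ π R`. -/
theorem exists_trace_eq_pi_mul [FiniteDimensional K L] [Algebra.IsSeparable K L] {π : R}
    (hπ : Prime π) {z c : L} (hz : IsIntegral R z) (hc : IsIntegral R c) {m : ℕ}
    (hzm : z ^ (m + 1) = π • c) :
    ∃ t : R, algebraMap R K (π * t) = Algebra.trace K L z := by
  classical
  obtain ⟨T, hT⟩ : ∃ r : R, algebraMap R K r = Algebra.trace K L z :=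
    IsIntegrallyClosed.isIntegral_iff.1 (Algebra.isIntegral_trace hz)
  let E := AlgebraicClosure K
  let CE := integralClosure R E
  have hint : ∀ σ : L →ₐ[K] E, IsIntegral R (σ z) := fun σ => hz.map (σ.restrictScalars R)
  have hintc : ∀ σ : L →ₐ[K] E, IsIntegral R (σ c) := fun σ => hc.map (σ.restrictScalars R)
  let u : (L →ₐ[K] E) → CE := fun σ => ⟨σ z, hint σ⟩
  have hsum : ((∑ σ : L →ₐ[K] E, u σ : CE) : E) = algebraMap K E (Algebra.trace K L z) := by
    rw [trace_eq_sum_embeddings E]
    simp [u]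
  have hmem : (∑ σ : L →ₐ[K] E, u σ) ^ ((Finset.univ : Finset (L →ₐ[K] E)).card * m + 1) ∈
      Ideal.span {algebraMap R CE π} := by
    have h1 := Ideal.sum_pow_mem_span_pow (Finset.univ : Finset (L →ₐ[K] E)) u m
    refine (Ideal.span_le.2 ?_) h1
    rintro _ ⟨σ, -, rfl⟩
    refine Ideal.mem_span_singleton.2 ⟨⟨σ c, hintc σ⟩, Subtype.ext ?_⟩
    show (σ z) ^ (m + 1) = algebraMap R E π * σ c
    rw [← map_pow, hzm, Algebra.smul_def, map_mul]
    congr 1
    exact (σ.restrictScalars R).commutes π
  obtain ⟨e, he⟩ := Ideal.mem_span_singleton.1 hmem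
  set N := (Finset.univ : Finset (L →ₐ[K] E)).card * m + 1 with hN
  have he' : algebraMap K E (algebraMap R K (T ^ N)) = algebraMap R E π * (e : E) := by
    have := congrArg (Subtype.val) he
    simp only [SubmonoidClass.coe_pow, hsum, Subalgebra.coe_mul, Subalgebra.coe_algebraMap] at this
    rw [map_pow, map_pow, hT]
    exact this
  have hπK : algebraMap R K π ≠ 0 := by
    intro h0
    exact hπ.ne_zero (FaithfulSMul.algebraMap_injective R K (by rw [h0, map_zero]))
  have heK : (e : E) = algebraMap K E (algebraMap R K (T ^ N) / algebraMap R K π) := by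
    have hπE : algebraMap R E π ≠ 0 := by
      rw [IsScalarTower.algebraMap_apply R K E]
      exact (map_ne_zero_iff _ (algebraMap K E).injective).2 hπK
    rw [map_div₀, he', ← IsScalarTower.algebraMap_apply R K E, mul_div_cancel_left₀ _ hπE]
  have hint2 : IsIntegral R (algebraMap R K (T ^ N) / algebraMap R K π) := by
    have : IsIntegral R (algebraMap K E (algebraMap R K (T ^ N) / algebraMap R K π)) := by
      rw [← heK]; exact e.2
    exact (isIntegral_algebraMap_iff (algebraMap K E).injective).1 this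
  obtain ⟨r, hr⟩ := IsIntegrallyClosed.isIntegral_iff.1 hint2
  have hdvd : π ∣ T ^ N := by
    refine ⟨r, FaithfulSMul.algebraMap_injective R K ?_⟩
    rw [map_mul, hr, mul_div_cancel₀ _ hπK]
  obtain ⟨t, ht⟩ := hπ.dvd_of_dvd_pow hdvd
  exact ⟨t, by rw [← ht, hT]⟩

section Radical

variable {n : ℕ} {b : Basis (Fin n) K L} {π : R}

/-- For integral `y`, `d • y` lies in the `R`-span of the basis; if moreover all `Tr(y b_i)` are
divisible by `π`, the coefficients are divisible by `π`. -/
theorem discr_smul_eq_sum (hb : ∀ i, IsIntegral R (b i)) (y : L) (τ : Fin n → R)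
    (hτ : ∀ i, algebraMap R K (τ i) = Algebra.trace K L (y * b i)) :
    (traceMatrixR b hb).det • y = ∑ i, ((traceMatrixR b hb).adjugate.mulVec τ) i • b i := by
  conv_lhs => rw [← b.sum_equivFun y]
  rw [Finset.smul_sum]
  refine Finset.sum_congr rfl fun i _ => ?_
  rw [← IsScalarTower.algebraMap_smul K ((traceMatrixR b hb).det), map_det_traceMatrixR, smul_smul,
    discr_smul_equivFun_eq b hb y τ hτ i, IsScalarTower.algebraMap_smul]

/-- A2-1: under hypothesis (a), `C / π C` is reduced (`C` the integral closure of `R` in `L`). -/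
theorem GoodBasis.isRadical [Algebra.IsSeparable K L] (hπ : Prime π) (hb : GoodBasis π b) :
    (Ideal.span {algebraMap R (integralClosure R L) π}).IsRadical := by
  classical
  haveI : FiniteDimensional K L := Module.Finite.of_basis b
  obtain ⟨hint, d, hd, hdisc⟩ := hb
  have hdet : (traceMatrixR b hint).det = d :=
    FaithfulSMul.algebraMap_injective R K (by rw [map_det_traceMatrixR, hdisc])
  intro y hy
  obtain ⟨m, hm⟩ := hy
  have hm1 : y ^ (m + 1) ∈ Ideal.span {algebraMap R (integralClosure R L) π} := by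
    rw [pow_succ]; exact Ideal.mul_mem_right _ _ hm
  obtain ⟨c, hc⟩ := Ideal.mem_span_singleton.1 hm1
  have hcL : (y : L) ^ (m + 1) = π • (c : L) := by
    have := congrArg Subtype.val hc
    simpa [Algebra.smul_def] using this
  -- traces of `y b_j` are divisible by `π`
  have htr : ∀ j, ∃ t : R, algebraMap R K (π * t) = Algebra.trace K L ((y : L) * b j) := by
    intro j
    refine exists_trace_eq_pi_mul hπ (y.2.mul (hint j)) (hc := c.2.mul ((hint j).pow (m + 1)))
      (m := m) ?_
    rw [mul_pow, hcL, smul_mul_assoc]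
  choose t ht using htr
  have h1 := discr_smul_eq_sum hint (y : L) (fun j => π * t j) ht
  rw [hdet] at h1
  have h2 : (traceMatrixR b hint).adjugate.mulVec (fun j => π * t j) =
      π • (traceMatrixR b hint).adjugate.mulVec t := by
    rw [← Matrix.mulVec_smul]; rfl
  rw [h2] at h1
  -- the element `c' = ∑ ρ'_i b_i`
  let c' : integralClosure R L :=
    ∑ i, ((traceMatrixR b hint).adjugate.mulVec t) i • (⟨b i, hint i⟩ : integralClosure R L)
  have h3 : d • y = algebraMap R (integralClosure R L) π * c' := by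
    apply Subtype.ext
    rw [Subalgebra.coe_smul, h1, Subalgebra.coe_mul, Subalgebra.coe_algebraMap]
    simp only [c', AddSubmonoidClass.coe_finsetSum, Pi.smul_apply,
      smul_eq_mul, Finset.mul_sum, Algebra.smul_def, map_mul]
    refine Finset.sum_congr rfl fun i _ => ?_
    rw [Subalgebra.coe_mul, Subalgebra.coe_algebraMap, mul_assoc]
  have hdπ : d ∉ Ideal.span {π} := fun h => hd (Ideal.mem_span_singleton.1 h)
  exact Fermat.Agent.INJ.mem_span_of_smul_mem_span hπ hdπ y
    (Ideal.mem_span_singleton.2 ⟨c', h3⟩)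

end Radical

section Fibre

open TensorProduct

variable {n : ℕ}

/-- `disc · (i-th coordinate of an integral element)` comes from `R`. -/
theorem exists_coord (b : Basis (Fin n) K L) (hint : ∀ i, IsIntegral R (b i)) (c : L) (hc : IsIntegral R c) (i : Fin n) :
    ∃ r : R, algebraMap R K r = Algebra.discr K b * b.equivFun c i := by
  haveI : FiniteDimensional K L := Module.Finite.of_basis b
  choose τ hτ using fun j => exists_trace_eq (K := K) (hc.mul (hint j))
  exact ⟨_, (discr_smul_equivFun_eq b hint c τ hτ i).symm⟩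

/-- the `R`-valued scaled coordinates of an element of the integral closure -/
noncomputable def coordR (b : Basis (Fin n) K L) (hint : ∀ i, IsIntegral R (b i)) (c : integralClosure R L) (i : Fin n) : R :=
  (exists_coord b hint (c : L) c.2 i).choose

theorem coordR_spec (b : Basis (Fin n) K L) (hint : ∀ i, IsIntegral R (b i)) (c : integralClosure R L) (i : Fin n) :
    algebraMap R K (coordR b hint c i) = Algebra.discr K b * b.equivFun (c : L) i :=
  (exists_coord b hint (c : L) c.2 i).choose_spec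

theorem coordR_add (b : Basis (Fin n) K L) (hint : ∀ i, IsIntegral R (b i)) (c c' : integralClosure R L) (i : Fin n) :
    coordR b hint (c + c') i = coordR b hint c i + coordR b hint c' i := by
  apply FaithfulSMul.algebraMap_injective R K
  rw [map_add, coordR_spec, coordR_spec, coordR_spec, Subalgebra.coe_add, map_add, Pi.add_apply,
    mul_add]

theorem coordR_smul (b : Basis (Fin n) K L) (hint : ∀ i, IsIntegral R (b i)) (r : R) (c : integralClosure R L) (i : Fin n) :
    coordR b hint (r • c) i = r * coordR b hint c i := by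
  apply FaithfulSMul.algebraMap_injective R K
  rw [map_mul, coordR_spec, coordR_spec, Subalgebra.coe_smul,
    ← IsScalarTower.algebraMap_smul K r (c : L), map_smul, Pi.smul_apply, smul_eq_mul]
  ring

/-- the basis vectors as elements of the integral closure -/
noncomputable def basisC (b : Basis (Fin n) K L) (hint : ∀ i, IsIntegral R (b i)) (i : Fin n) :
    integralClosure R L := ⟨b i, hint i⟩

theorem coordR_basisC (b : Basis (Fin n) K L) (hint : ∀ i, IsIntegral R (b i)) (l i : Fin n) :
    coordR b hint (basisC b hint l) i = if i = l then (traceMatrixR b hint).det else 0 := by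
  apply FaithfulSMul.algebraMap_injective R K
  rw [coordR_spec]
  show Algebra.discr K b * b.equivFun (b l) i = _
  rw [Basis.equivFun_self]
  by_cases h : i = l
  · rw [if_pos h.symm, if_pos h, mul_one, map_det_traceMatrixR]
  · rw [if_neg (fun h' => h h'.symm), if_neg h, mul_zero, map_zero]

theorem det_smul_eq_sum_coordR (b : Basis (Fin n) K L) (hint : ∀ i, IsIntegral R (b i)) (c : integralClosure R L) :
    (traceMatrixR b hint).det • c = ∑ i, coordR b hint c i • basisC b hint i := by
  apply Subtype.ext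
  rw [Subalgebra.coe_smul, AddSubmonoidClass.coe_finsetSum]
  conv_lhs => rw [← b.sum_equivFun (c : L)]
  rw [Finset.smul_sum]
  refine Finset.sum_congr rfl fun i _ => ?_
  rw [Subalgebra.coe_smul, ← IsScalarTower.algebraMap_smul K ((traceMatrixR b hint).det),
    map_det_traceMatrixR, smul_smul, ← coordR_spec b hint c i, IsScalarTower.algebraMap_smul]
  rfl

/-- `d · Tr(c) = ∑_l (l-th scaled coordinate of c b_l)`. -/
theorem sum_coordR_mul (b : Basis (Fin n) K L) (hint : ∀ i, IsIntegral R (b i)) (c : integralClosure R L) (T : R)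
    (hT : algebraMap R K T = Algebra.trace K L (c : L)) :
    ∑ l, coordR b hint (c * basisC b hint l) l = (traceMatrixR b hint).det * T := by
  classical
  apply FaithfulSMul.algebraMap_injective R K
  rw [map_sum, map_mul, hT, map_det_traceMatrixR, Algebra.trace_eq_matrix_trace b, Matrix.trace,
    Finset.mul_sum]
  refine Finset.sum_congr rfl fun l _ => ?_
  rw [coordR_spec, Matrix.diag_apply, Algebra.leftMulMatrix_eq_repr_mul]
  rfl

variable (k : Type*) [Field k] [Algebra R k]

/-- the reduction of the coordinates, as an `R`-linear map `C → k^n` -/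
noncomputable def coordRed (b : Basis (Fin n) K L) (hint : ∀ i, IsIntegral R (b i)) : integralClosure R L →ₗ[R] (Fin n → k) where
  toFun c := fun i => (algebraMap R k (traceMatrixR b hint).det)⁻¹ * algebraMap R k (coordR b hint c i)
  map_add' c c' := by
    ext i
    simp only [coordR_add, map_add, mul_add, Pi.add_apply]
  map_smul' r c := by
    ext i
    simp only [RingHom.id_apply, Pi.smul_apply]
    rw [coordR_smul, map_mul, Algebra.smul_def]
    ring

variable {k}

theorem coordRed_basisC (b : Basis (Fin n) K L) (hint : ∀ i, IsIntegral R (b i)) (hd : algebraMap R k (traceMatrixR b hint).det ≠ 0) (l : Fin n) :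
    coordRed k b hint (basisC b hint l) = Pi.single l 1 := by
  ext i
  show (algebraMap R k (traceMatrixR b hint).det)⁻¹ * algebraMap R k (coordR b hint _ i) = _
  rw [coordR_basisC]
  by_cases h : i = l
  · rw [if_pos h, h, Pi.single_eq_same, inv_mul_cancel₀ hd]
  · rw [if_neg h, map_zero, mul_zero, Pi.single_eq_of_ne h]

/-- the family `1 ⊗ b_i` in the generic fibre -/
noncomputable def fibreFamily (b : Basis (Fin n) K L) (hint : ∀ i, IsIntegral R (b i)) (i : Fin n) : k ⊗[R] (integralClosure R L) :=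
  (1 : k) ⊗ₜ[R] basisC b hint i

theorem fibreFamily_linearIndependent (b : Basis (Fin n) K L) (hint : ∀ i, IsIntegral R (b i)) (hd : algebraMap R k (traceMatrixR b hint).det ≠ 0) :
    LinearIndependent k (fibreFamily (k := k) b hint) := by
  classical
  refine LinearIndependent.of_comp ((coordRed k b hint).liftBaseChange k) ?_
  have : ((coordRed k b hint).liftBaseChange k) ∘ fibreFamily (k := k) b hint =
      fun l => Pi.single l (1 : k) := by
    funext l
    simp only [Function.comp_apply, fibreFamily, LinearMap.liftBaseChange_tmul, one_smul]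
    exact coordRed_basisC b hint hd l
  rw [this]
  have h2 := (Pi.basisFun k (Fin n)).linearIndependent
  convert h2 using 1
  funext l
  simp

theorem one_tmul_mem_span (b : Basis (Fin n) K L) (hint : ∀ i, IsIntegral R (b i)) (hd : algebraMap R k (traceMatrixR b hint).det ≠ 0)
    (c : integralClosure R L) :
    (1 : k) ⊗ₜ[R] c ∈ Submodule.span k (Set.range (fibreFamily (k := k) b hint)) := by
  have h1 : algebraMap R k (traceMatrixR b hint).det • ((1 : k) ⊗ₜ[R] c) =
      ∑ i, algebraMap R k (coordR b hint c i) • fibreFamily (k := k) b hint i := by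
    calc algebraMap R k (traceMatrixR b hint).det • ((1 : k) ⊗ₜ[R] c)
        = ((traceMatrixR b hint).det • (1 : k)) ⊗ₜ[R] c := by
          rw [TensorProduct.smul_tmul', smul_eq_mul, mul_one, Algebra.smul_def, mul_one]
      _ = (1 : k) ⊗ₜ[R] ((traceMatrixR b hint).det • c) := TensorProduct.smul_tmul _ _ _
      _ = _ := by
          rw [det_smul_eq_sum_coordR b hint c, TensorProduct.tmul_sum]
          refine Finset.sum_congr rfl fun i _ => ?_
          rw [fibreFamily, TensorProduct.smul_tmul', smul_eq_mul, mul_one,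
            ← TensorProduct.smul_tmul, Algebra.smul_def, mul_one]
  have h2 : (1 : k) ⊗ₜ[R] c = (algebraMap R k (traceMatrixR b hint).det)⁻¹ •
      ∑ i, algebraMap R k (coordR b hint c i) • fibreFamily (k := k) b hint i := by
    rw [← h1, smul_smul, inv_mul_cancel₀ hd, one_smul]
  rw [h2]
  refine Submodule.smul_mem _ _ (Submodule.sum_mem _ fun i _ => Submodule.smul_mem _ _ ?_)
  exact Submodule.subset_span ⟨i, rfl⟩

theorem fibreFamily_span (b : Basis (Fin n) K L) (hint : ∀ i, IsIntegral R (b i)) (hd : algebraMap R k (traceMatrixR b hint).det ≠ 0) :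
    ⊤ ≤ Submodule.span k (Set.range (fibreFamily (k := k) b hint)) := by
  rintro x -
  induction x using TensorProduct.induction_on with
  | zero => exact Submodule.zero_mem _
  | tmul a c =>
    have : a ⊗ₜ[R] c = a • ((1 : k) ⊗ₜ[R] c) := by
      rw [TensorProduct.smul_tmul', smul_eq_mul, mul_one]
    rw [this]
    exact Submodule.smul_mem _ _ (one_tmul_mem_span b hint hd c)
  | add x y hx hy => exact Submodule.add_mem _ hx hy

/-- the basis `1 ⊗ b_i` of the generic fibre `k ⊗ C` -/
noncomputable def fibreBasis (b : Basis (Fin n) K L) (hint : ∀ i, IsIntegral R (b i)) (hd : algebraMap R k (traceMatrixR b hint).det ≠ 0) :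
    Basis (Fin n) k (k ⊗[R] (integralClosure R L)) :=
  Basis.mk (fibreFamily_linearIndependent b hint hd) (fibreFamily_span b hint hd)

theorem fibreBasis_apply (b : Basis (Fin n) K L) (hint : ∀ i, IsIntegral R (b i)) (hd : algebraMap R k (traceMatrixR b hint).det ≠ 0) (i : Fin n) :
    fibreBasis b hint hd i = (1 : k) ⊗ₜ[R] basisC b hint i := by
  rw [fibreBasis, Basis.mk_apply]; rfl

theorem fibreBasis_repr (b : Basis (Fin n) K L) (hint : ∀ i, IsIntegral R (b i)) (hd : algebraMap R k (traceMatrixR b hint).det ≠ 0)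
    (x : k ⊗[R] (integralClosure R L)) (i : Fin n) :
    (fibreBasis b hint hd).repr x i = (coordRed k b hint).liftBaseChange k x i := by
  classical
  have h : ((fibreBasis b hint hd).equivFun : k ⊗[R] (integralClosure R L) →ₗ[k] (Fin n → k)) =
      (coordRed k b hint).liftBaseChange k := by
    refine (fibreBasis b hint hd).ext fun l => ?_
    funext i
    rw [LinearEquiv.coe_coe, Basis.equivFun_apply, Basis.repr_self, fibreBasis_apply,
      LinearMap.liftBaseChange_tmul, one_smul, coordRed_basisC b hint hd l, Finsupp.single_apply,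
      Pi.single_apply]
    simp [eq_comm]
  have := congrArg (fun f => f x i) h
  simpa using this

theorem trace_one_tmul (b : Basis (Fin n) K L) (hint : ∀ i, IsIntegral R (b i))
    (hd : algebraMap R k (traceMatrixR b hint).det ≠ 0) (c : integralClosure R L) (T : R)
    (hT : algebraMap R K T = Algebra.trace K L (c : L)) :
    Algebra.trace k (k ⊗[R] (integralClosure R L)) ((1 : k) ⊗ₜ[R] c) = algebraMap R k T := by
  classical
  rw [Algebra.trace_eq_matrix_trace (fibreBasis b hint hd), Matrix.trace]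
  have h1 : ∀ l, Matrix.diag (Algebra.leftMulMatrix (fibreBasis b hint hd) ((1 : k) ⊗ₜ[R] c)) l =
      (algebraMap R k (traceMatrixR b hint).det)⁻¹ *
        algebraMap R k (coordR b hint (c * basisC b hint l) l) := by
    intro l
    rw [Matrix.diag_apply, Algebra.leftMulMatrix_eq_repr_mul, fibreBasis_repr, fibreBasis_apply,
      Algebra.TensorProduct.tmul_mul_tmul, mul_one, LinearMap.liftBaseChange_tmul, one_smul]
    rfl
  rw [Finset.sum_congr rfl fun l _ => h1 l, ← Finset.mul_sum, ← map_sum,
    sum_coordR_mul b hint c T hT, map_mul, ← mul_assoc, inv_mul_cancel₀ hd, one_mul]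

/-- A2-2: under hypothesis (a), the generic fibre `k ⊗ C` of `C / π C` (`k` a field with
`ker (R → k) = (π)`, e.g. `k = Frac (R / π)`) has nondegenerate trace form, with basis `1 ⊗ b_i`. -/
theorem GoodBasis.traceForm_nondegenerate {π : R} {b : Basis (Fin n) K L} (hb : GoodBasis π b)
    (k : Type*) [Field k] [Algebra R k]
    (hk : RingHom.ker (algebraMap R k) = Ideal.span {π}) :
    (Algebra.traceForm k (k ⊗[R] (integralClosure R L))).Nondegenerate := by
  classical
  obtain ⟨hint, d, hd, hdisc⟩ := hb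
  have hdet : (traceMatrixR b hint).det = d :=
    FaithfulSMul.algebraMap_injective R K (by rw [map_det_traceMatrixR, hdisc])
  have hdk : algebraMap R k (traceMatrixR b hint).det ≠ 0 := by
    rw [hdet]
    intro h0
    have : d ∈ RingHom.ker (algebraMap R k) := h0
    rw [hk] at this
    exact hd (Ideal.mem_span_singleton.1 this)
  refine LinearMap.BilinForm.nondegenerate_of_det_ne_zero _ (fibreBasis b hint hdk) ?_
  rw [← Algebra.traceMatrix_of_basis]
  have hM : Algebra.traceMatrix k (fibreBasis b hint hdk) =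
      (algebraMap R k).mapMatrix (traceMatrixR b hint) := by
    ext i j
    rw [Algebra.traceMatrix_apply, Algebra.traceForm_apply, fibreBasis_apply, fibreBasis_apply,
      Algebra.TensorProduct.tmul_mul_tmul, mul_one, RingHom.mapMatrix_apply, Matrix.map_apply]
    refine trace_one_tmul b hint hdk _ _ ?_
    have := congrFun (congrFun (map_traceMatrixR b hint) i) j
    rw [Matrix.map_apply, Algebra.traceMatrix_apply, Algebra.traceForm_apply] at this
    exact this
  rw [hM, ← RingHom.map_det]
  exact hdk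

/-- the generic fibre has dimension `n = [L : K]` -/
theorem GoodBasis.finrank_fibre {π : R} {b : Basis (Fin n) K L} (hb : GoodBasis π b)
    (k : Type*) [Field k] [Algebra R k]
    (hk : RingHom.ker (algebraMap R k) = Ideal.span {π}) :
    Module.finrank k (k ⊗[R] (integralClosure R L)) = n := by
  obtain ⟨hint, d, hd, hdisc⟩ := hb
  have hdet : (traceMatrixR b hint).det = d :=
    FaithfulSMul.algebraMap_injective R K (by rw [map_det_traceMatrixR, hdisc])
  have hdk : algebraMap R k (traceMatrixR b hint).det ≠ 0 := by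
    rw [hdet]
    intro h0
    have : d ∈ RingHom.ker (algebraMap R k) := h0
    rw [hk] at this
    exact hd (Ideal.mem_span_singleton.1 this)
  rw [Module.finrank_eq_card_basis (fibreBasis b hint hdk), Fintype.card_fin]

end Fibre

end Fermat.Agent.INJ.Comp


end ZBINJ_020_0

/-! ### bundled: `Fermat.Agent.INJ.ChartGoodBasis` -/
section ZBINJ_020_1
/-
INJ / Part A, glue piece T1 (4)+(5) (helper29): from the statement-level hypothesis `(a)`
(`TSGoodBasis π τ`, a basis over the intermediate field `E⟮τ⟯`, `INJ/TSStmt.lean`) to the shape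
used by A2/A3 (`Comp.GoodBasis`, a basis over `FractionRing R`, `R = Algebra.adjoin A₀ {τ}`,
`Lf` an algebra over `FractionRing R` through `FractionRing.liftAlgebra`).

* `exists_basis_fractionRing` : generic change of model of the fraction field (same basis vectors,
  same discriminant);
* `isFractionRing_adjoinSimple` : `E⟮τ⟯` is the fraction field of `A₀[τ]`;
* `finiteDimensional_fractionRing`, `isSeparable_fractionRing` : item (4);
* `exists_goodBasis_of_TSGoodBasis` : item (5).
-/

set_option autoImplicit false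
set_option linter.unusedSectionVars false
set_option linter.style.haveILetI false

open Polynomial Module IntermediateField

namespace Fermat.Agent.INJ.ChartGB

section Generic

variable {R K₁ L : Type*} [CommRing R] [IsDomain R] [Field K₁] [Algebra R K₁] [IsFractionRing R K₁]
  [Field L] [Algebra R L] [Algebra K₁ L] [IsScalarTower R K₁ L] [FaithfulSMul R L]

/-- the canonical isomorphism `Frac R ≃ K₁` is compatible with the maps to `L` -/
theorem algebraMap_comp_algEquiv :
    letI := FractionRing.liftAlgebra R L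
    (algebraMap K₁ L).comp ((FractionRing.algEquiv R K₁ : FractionRing R ≃ₐ[R] K₁) : FractionRing R →+* K₁) =
      algebraMap (FractionRing R) L := by
  letI := FractionRing.liftAlgebra R L
  refine IsLocalization.ringHom_ext (nonZeroDivisors R) ?_
  ext r
  simp only [RingHom.coe_comp, Function.comp_apply, RingHom.coe_coe, AlgEquiv.commutes]
  rw [← IsScalarTower.algebraMap_apply R K₁ L, ← IsScalarTower.algebraMap_apply R (FractionRing R) L]

theorem algebraMap_algEquiv (x : FractionRing R) :
    letI := FractionRing.liftAlgebra R L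
    algebraMap K₁ L (FractionRing.algEquiv R K₁ x) = algebraMap (FractionRing R) L x := by
  letI := FractionRing.liftAlgebra R L
  have := congrArg (fun f => f x) (algebraMap_comp_algEquiv (R := R) (K₁ := K₁) (L := L))
  simpa using this

/-- A basis over `K₁ = Frac R` (any model) is a basis over `FractionRing R`, with the same
discriminant. -/
theorem exists_basis_fractionRing {n : ℕ} (b : Fin n → L)
    (hli : LinearIndependent K₁ b) (hsp : Submodule.span K₁ (Set.range b) = ⊤) :
    letI := FractionRing.liftAlgebra R L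
    ∃ B : Basis (Fin n) (FractionRing R) L, (∀ i, B i = b i) ∧
      algebraMap (FractionRing R) L (Algebra.discr (FractionRing R) B) =
        algebraMap K₁ L (Algebra.discr K₁ b) := by
  classical
  letI := FractionRing.liftAlgebra R L
  set e : FractionRing R ≃ₐ[R] K₁ := FractionRing.algEquiv R K₁ with he
  have hsmul : ∀ (c : K₁) (y : L), (e.symm c) • y = c • y := by
    intro c y
    rw [Algebra.smul_def, Algebra.smul_def, ← algebraMap_algEquiv (K₁ := K₁) (e.symm c)]
    simp [he]
  have hliR : LinearIndependent R b :=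
    hli.restrict_scalars (by
      have := FaithfulSMul.algebraMap_injective R K₁
      simpa [Algebra.smul_def] using this)
  have hliK : LinearIndependent (FractionRing R) b :=
    (LinearIndependent.iff_fractionRing (R := R) (K := FractionRing R)).1 hliR
  have hspK : ⊤ ≤ Submodule.span (FractionRing R) (Set.range b) := by
    rintro x -
    have hx : x ∈ Submodule.span K₁ (Set.range b) := by rw [hsp]; trivial
    obtain ⟨c, rfl⟩ := (Submodule.mem_span_range_iff_exists_fun K₁).1 hx
    refine Submodule.sum_mem _ fun i _ => ?_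
    rw [← hsmul]
    exact Submodule.smul_mem _ _ (Submodule.subset_span ⟨i, rfl⟩)
  refine ⟨Basis.mk hliK hspK, fun i => by rw [Basis.mk_apply], ?_⟩
  have hB : ⇑(Basis.mk hliK hspK) = b := by funext i; rw [Basis.mk_apply]
  rw [hB, ← algebraMap_algEquiv (K₁ := K₁), ← he]
  congr 1
  rw [Algebra.discr_def, Algebra.discr_def]
  have : (e : FractionRing R →+* K₁) (Algebra.traceMatrix (FractionRing R) b).det =
      ((e : FractionRing R →+* K₁).mapMatrix (Algebra.traceMatrix (FractionRing R) b)).det :=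
    RingHom.map_det _ _
  rw [show e (Algebra.traceMatrix (FractionRing R) b).det =
    (e : FractionRing R →+* K₁) (Algebra.traceMatrix (FractionRing R) b).det from rfl, this]
  congr 1
  ext i j
  rw [RingHom.mapMatrix_apply, Matrix.map_apply, Algebra.traceMatrix_apply,
    Algebra.traceMatrix_apply, Algebra.traceForm_apply, Algebra.traceForm_apply]
  exact Algebra.trace_eq_of_ringEquiv e.toRingEquiv
    (algebraMap_comp_algEquiv (R := R) (K₁ := K₁) (L := L)) _

end Generic

section Chart

universe u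

variable {A₀ E Lf : Type u} [CommRing A₀] [IsDomain A₀] [Field E] [Algebra A₀ E]
  [IsFractionRing A₀ E] [Field Lf] [Algebra E Lf] [Algebra A₀ Lf] [IsScalarTower A₀ E Lf]

theorem mem_adjoinSimple_of_mem_adjoin (τ : Lf) {x : Lf} (hx : x ∈ Algebra.adjoin A₀ {τ}) :
    x ∈ E⟮τ⟯ := by
  induction hx using Algebra.adjoin_induction with
  | mem x hx =>
    rw [Set.mem_singleton_iff] at hx
    rw [hx]
    exact mem_adjoin_simple_self E τ
  | algebraMap r =>
    rw [IsScalarTower.algebraMap_apply A₀ E Lf]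
    exact E⟮τ⟯.algebraMap_mem _
  | add x y _ _ hx hy => exact E⟮τ⟯.add_mem hx hy
  | mul x y _ _ hx hy => exact E⟮τ⟯.mul_mem hx hy

/-- the inclusion `A₀[τ] → E(τ)` -/
noncomputable def chartIncl (τ : Lf) : ↥(Algebra.adjoin A₀ {τ}) →+* E⟮τ⟯ where
  toFun x := ⟨x.1, mem_adjoinSimple_of_mem_adjoin τ x.2⟩
  map_one' := rfl
  map_mul' _ _ := rfl
  map_zero' := rfl
  map_add' _ _ := rfl

theorem chartIncl_injective (τ : Lf) : Function.Injective (chartIncl (A₀ := A₀) (E := E) τ) := by
  intro x y h
  apply Subtype.ext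
  exact congrArg (fun z : E⟮τ⟯ => (z : Lf)) h

/-- every element of `E(τ)` is a quotient of two elements of `A₀[τ]` -/
theorem exists_div_eq (τ : Lf) (z : E⟮τ⟯) :
    ∃ x y : ↥(Algebra.adjoin A₀ {τ}),
      z = chartIncl (A₀ := A₀) (E := E) τ x / chartIncl (A₀ := A₀) (E := E) τ y := by
  obtain ⟨r, s, hrs⟩ := (mem_adjoin_simple_iff E (z : Lf)).1 z.2
  obtain ⟨br, hbr, hr⟩ := IsLocalization.integerNormalization_spec (nonZeroDivisors A₀) r
  obtain ⟨bs, hbs, hs⟩ := IsLocalization.integerNormalization_spec (nonZeroDivisors A₀) s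
  set r' := IsLocalization.integerNormalization (nonZeroDivisors A₀) r with hr'
  set s' := IsLocalization.integerNormalization (nonZeroDivisors A₀) s with hs'
  have hbr0 : algebraMap A₀ Lf br ≠ 0 := by
    rw [IsScalarTower.algebraMap_apply A₀ E Lf]
    refine (map_ne_zero_iff _ (algebraMap E Lf).injective).2 ?_
    exact (map_ne_zero_iff _ (IsFractionRing.injective A₀ E)).2 (nonZeroDivisors.ne_zero hbr)
  have hbs0 : algebraMap A₀ Lf bs ≠ 0 := by
    rw [IsScalarTower.algebraMap_apply A₀ E Lf]
    refine (map_ne_zero_iff _ (algebraMap E Lf).injective).2 ?_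
    exact (map_ne_zero_iff _ (IsFractionRing.injective A₀ E)).2 (nonZeroDivisors.ne_zero hbs)
  have har : aeval τ r' = algebraMap A₀ Lf br * aeval τ r := by
    rw [← aeval_map_algebraMap E τ r', hr, ← IsScalarTower.algebraMap_smul E br r, map_smul,
      Algebra.smul_def, ← IsScalarTower.algebraMap_apply]
  have has : aeval τ s' = algebraMap A₀ Lf bs * aeval τ s := by
    rw [← aeval_map_algebraMap E τ s', hs, ← IsScalarTower.algebraMap_smul E bs s, map_smul,
      Algebra.smul_def, ← IsScalarTower.algebraMap_apply]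
  have hmem : ∀ f : A₀[X], aeval τ f ∈ Algebra.adjoin A₀ {τ} := fun f => by
    rw [Algebra.adjoin_singleton_eq_range_aeval]; exact ⟨f, rfl⟩
  refine ⟨⟨algebraMap A₀ Lf bs * aeval τ r',
      Subalgebra.mul_mem _ (Subalgebra.algebraMap_mem _ _) (hmem r')⟩,
    ⟨algebraMap A₀ Lf br * aeval τ s',
      Subalgebra.mul_mem _ (Subalgebra.algebraMap_mem _ _) (hmem s')⟩, ?_⟩
  apply Subtype.ext
  show (z : Lf) = (algebraMap A₀ Lf bs * aeval τ r') / (algebraMap A₀ Lf br * aeval τ s')
  rw [hrs, har, has]
  by_cases hs0 : aeval τ s = 0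
  · simp [hs0]
  · field_simp

/-- `E(τ)` is the fraction field of `A₀[τ]` (for the algebra structure `chartIncl`). -/
theorem isFractionRing_adjoinSimple (τ : Lf) :
    letI : Algebra ↥(Algebra.adjoin A₀ {τ}) E⟮τ⟯ := (chartIncl (A₀ := A₀) (E := E) τ).toAlgebra
    IsFractionRing ↥(Algebra.adjoin A₀ {τ}) E⟮τ⟯ := by
  letI : Algebra ↥(Algebra.adjoin A₀ {τ}) E⟮τ⟯ := (chartIncl (A₀ := A₀) (E := E) τ).toAlgebra
  haveI : FaithfulSMul ↥(Algebra.adjoin A₀ {τ}) E⟮τ⟯ :=
    (faithfulSMul_iff_algebraMap_injective _ _).2 (chartIncl_injective τ)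
  exact IsFractionRing.of_field _ _ (exists_div_eq τ)

/-- (4): `Lf` is finite-dimensional over `FractionRing A₀[τ]`. -/
theorem finiteDimensional_fractionRing (τ : Lf) [FiniteDimensional E⟮τ⟯ Lf] :
    letI := FractionRing.liftAlgebra ↥(Algebra.adjoin A₀ {τ}) Lf
    FiniteDimensional (FractionRing ↥(Algebra.adjoin A₀ {τ})) Lf := by
  letI := FractionRing.liftAlgebra ↥(Algebra.adjoin A₀ {τ}) Lf
  letI : Algebra ↥(Algebra.adjoin A₀ {τ}) E⟮τ⟯ := (chartIncl (A₀ := A₀) (E := E) τ).toAlgebra
  haveI : IsScalarTower ↥(Algebra.adjoin A₀ {τ}) E⟮τ⟯ Lf :=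
    IsScalarTower.of_algebraMap_eq (fun _ => rfl)
  haveI := isFractionRing_adjoinSimple (A₀ := A₀) (E := E) τ
  let b₀ := Module.finBasis E⟮τ⟯ Lf
  obtain ⟨B, -, -⟩ := exists_basis_fractionRing (R := ↥(Algebra.adjoin A₀ {τ})) (K₁ := E⟮τ⟯)
    (b₀ : Fin _ → Lf) b₀.linearIndependent b₀.span_eq
  exact Module.Finite.of_basis B

/-- in characteristic `0` the extension `Lf / FractionRing A₀[τ]` is separable -/
theorem isSeparable_fractionRing [CharZero E] (τ : Lf) [FiniteDimensional E⟮τ⟯ Lf] :
    letI := FractionRing.liftAlgebra ↥(Algebra.adjoin A₀ {τ}) Lf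
    Algebra.IsSeparable (FractionRing ↥(Algebra.adjoin A₀ {τ})) Lf := by
  letI := FractionRing.liftAlgebra ↥(Algebra.adjoin A₀ {τ}) Lf
  haveI := finiteDimensional_fractionRing (A₀ := A₀) (E := E) τ
  haveI : CharZero Lf := charZero_of_injective_algebraMap (algebraMap E Lf).injective
  haveI : CharZero (FractionRing ↥(Algebra.adjoin A₀ {τ})) :=
    (RingHom.charZero_iff (algebraMap (FractionRing ↥(Algebra.adjoin A₀ {τ})) Lf).injective).2
      inferInstance
  infer_instance

/-- (5): hypothesis `(a)` of the tame specialization theorem (`TSGoodBasis`, over `E(τ)`) gives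
a `Comp.GoodBasis` over `FractionRing A₀[τ]` (the shape of A2, `Components.lean`). -/
theorem exists_goodBasis_of_TSGoodBasis (τ : Lf) (hτ : Transcendental E τ)
    [IsIntegrallyClosed ↥(Algebra.adjoin A₀ {τ})] (π : A₀) (h : TSGoodBasis (E := E) π τ) :
    letI := FractionRing.liftAlgebra ↥(Algebra.adjoin A₀ {τ}) Lf
    ∃ (n : ℕ) (b : Basis (Fin n) (FractionRing ↥(Algebra.adjoin A₀ {τ})) Lf),
      Comp.GoodBasis (algebraMap A₀ ↥(Algebra.adjoin A₀ {τ}) π) b := by
  letI := FractionRing.liftAlgebra ↥(Algebra.adjoin A₀ {τ}) Lf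
  letI : Algebra ↥(Algebra.adjoin A₀ {τ}) E⟮τ⟯ := (chartIncl (A₀ := A₀) (E := E) τ).toAlgebra
  haveI : IsScalarTower ↥(Algebra.adjoin A₀ {τ}) E⟮τ⟯ Lf :=
    IsScalarTower.of_algebraMap_eq (fun _ => rfl)
  haveI := isFractionRing_adjoinSimple (A₀ := A₀) (E := E) τ
  obtain ⟨n, b, d, hli, hsp, hint, hd, hdisc⟩ := h
  obtain ⟨B, hB, hBd⟩ := exists_basis_fractionRing (R := ↥(Algebra.adjoin A₀ {τ})) (K₁ := E⟮τ⟯)
    b hli hsp
  have hmem : ∀ f : A₀[X], aeval τ f ∈ Algebra.adjoin A₀ {τ} := fun f => by
    rw [Algebra.adjoin_singleton_eq_range_aeval]; exact ⟨f, rfl⟩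
  have hτ' : Transcendental A₀ τ := hτ.restrictScalars (IsFractionRing.injective A₀ E)
  refine ⟨n, B, fun i => by rw [hB i]; exact hint i, ⟨aeval τ d, hmem d⟩, ?_, ?_⟩
  · rintro ⟨r, hr⟩
    obtain ⟨g, hg⟩ : ∃ g : A₀[X], aeval τ g = (r : Lf) := by
      have h0 : (r : Lf) ∈ (aeval τ : A₀[X] →ₐ[A₀] Lf).range := by
        rw [← Algebra.adjoin_singleton_eq_range_aeval]; exact r.2
      exact h0
    have h1 : aeval τ d = aeval τ (C π * g) := by
      have := congrArg Subtype.val hr
      rw [map_mul, aeval_C, hg]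
      exact this
    have h2 : d = C π * g := (transcendental_iff_injective.1 hτ') h1
    exact hd ⟨g, h2⟩
  · apply (algebraMap (FractionRing ↥(Algebra.adjoin A₀ {τ})) Lf).injective
    rw [hBd, hdisc, ← IsScalarTower.algebraMap_apply]
    rfl

end Chart

end Fermat.Agent.INJ.ChartGB


end ZBINJ_020_1

/-! ### bundled: `Fermat.Agent.INJ.BGInt` -/
section ZBINJ_020_2

/-!
# INJ B-glue, piece BG-int: integrality of Gauss-integral elements, norms of Gauss units

Setting: key data `kd : GaussKD r F t₀ x` (helper25, `INJ/GaussRep.lean`) for `F ⊆ E((q))`, and a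
field `Lf` (chart setting: `[Algebra E Lf] [Algebra A Lf] [IsScalarTower A E Lf]`) with an
`E`-embedding `e : Lf →ₐ[E] E((q))` whose image contains `F`, `τ : Lf` with `e τ = t`.
(Typical use: `Lf = ↥F` or `Lf = ↥(F(h))`, `e` the inclusion.)

* `bgInt_map_aeval` : `e (aeval τ P) = coeffMap ι (aeval t₀ P)`;
* `bgInt_exists_mul_isIntegral` **(ii)** : for `y ∈ F` in the Gauss ring there is `g ∈ A[X]` with
  `ḡ ≠ 0` and `g(τ) · y` integral over `A[τ]`;
* `bgInt_norm_of_inv` (generic chart lemma) and `bgInt_norm` **(iii)** : for `x ∈ F` integral over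
  `A[τ]` with nonzero Gauss reduction, `N_{Lf/E(τ)}(x) = n(τ)` with `π ∤ n`;
* `bgInt_exists_pow_mul_isIntegral` : integral over `E[τ]` ⇒ `π ^ m * z` integral over `A[τ]`;
* `bgInt_isIntegral_of_gauss` **(i)** : `z ∈ F` in the Gauss ring and integral over `E[τ]` ⇒
  integral over `A[τ]`.
-/

set_option autoImplicit false
set_option linter.unusedSectionVars false
set_option linter.style.haveILetI false

noncomputable section

namespace Fermat.Agent.INJ

open Polynomial ModularCurve IntermediateField Fermat.Agent.S28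

section Bridge

variable {A E : Type*} [CommRing A] [Field E] [Algebra A E]
variable {Lf : Type*} [Field Lf] [Algebra E Lf] [Algebra A Lf] [IsScalarTower A E Lf]
  (e : Lf →ₐ[E] LaurentSeries E)

theorem bgInt_map_aeval {t₀ : LaurentSeries A} {τ : Lf}
    (hτ : e τ = coeffMap (algebraMap A E) t₀) (P : A[X]) :
    e (aeval τ P) = coeffMap (algebraMap A E) (aeval t₀ P) := by
  rw [redDVR_coeffMap_aeval, ← hτ, ← aeval_map_algebraMap E τ P,
    ← Polynomial.aeval_algHom_apply]

end Bridge

section Two

variable {A E k : Type*} [CommRing A] [IsDomain A] [Field E] [Algebra A E] [IsFractionRing A E]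
  [Field k] {r : A →+* k}
  {F : IntermediateField E (LaurentSeries E)} {t₀ : LaurentSeries A} {n : ℕ}
  {x : Fin n → LaurentSeries A}
variable {Lf : Type*} [Field Lf] [Algebra E Lf] [Algebra A Lf] [IsScalarTower A E Lf]
  (e : Lf →ₐ[E] LaurentSeries E)

/-- **BG-int (ii).**  Every element of `F` in the Gauss ring becomes integral over `A[τ]` after
multiplication by some `g(τ)`, `g ∈ A[X]` with nonzero reduction. -/
theorem bgInt_exists_mul_isIntegral [WfDvdMonoid A] (kd : GaussKD r F t₀ x) {π : A}
    (hπ0 : π ≠ 0) (hπ : ¬ IsUnit π) (hr : ∀ a, r a = 0 → π ∣ a)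
    (hF : ∀ f ∈ F, ∃ z : Lf, e z = f) {τ : Lf} (hτ : e τ = coeffMap (algebraMap A E) t₀)
    (y : Lf) (hy : e y ∈ F) (hyg : e y ∈ gaussRing (algebraMap A E) r) :
    ∃ g : A[X], g.map r ≠ 0 ∧ IsIntegral (Algebra.adjoin A {τ}) (aeval τ g * y) := by
  classical
  have hinj : Function.Injective e := e.toRingHom.injective
  obtain ⟨s, c, hs, htab⟩ := kd.exists_table hπ0 hπ hr
  obtain ⟨Q, P, hQ, hrep, -⟩ := kd.exists_rep hπ0 hπ hr hy hyg
  choose X hX using fun i => hF _ (kd.mem i)
  set Y : Fin n → Lf := fun i => aeval τ s * X i with hY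
  have heY : ∀ i, e (Y i) = coeffMap (algebraMap A E) (aeval t₀ s * x i) := by
    intro i
    rw [hY, map_mul, bgInt_map_aeval e hτ, hX, map_mul]
  have heYc : ∀ (d : A[X]) (i : Fin n), e (aeval τ d * Y i) =
      coeffMap (algebraMap A E) (aeval t₀ d * (aeval t₀ s * x i)) := by
    intro d i
    rw [map_mul e, bgInt_map_aeval e hτ, heY, ← map_mul (coeffMap (algebraMap A E))]
  have hYtab : ∀ j l, ∃ d : Fin n → A[X], Y j * Y l = ∑ i, aeval τ (d i) * Y i := by
    intro j l
    refine ⟨c j l, hinj ?_⟩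
    rw [map_mul e, heY, heY, ← map_mul (coeffMap (algebraMap A E)), htab j l, map_sum, map_sum]
    exact Finset.sum_congr rfl fun i _ => (heYc _ i).symm
  have hz : aeval τ (s * Q) * y = ∑ i, aeval τ (P i) * Y i := by
    apply hinj
    rw [map_mul e, bgInt_map_aeval e hτ, map_sum]
    simp_rw [heYc]
    have h2 : ∀ i, coeffMap (algebraMap A E) (aeval t₀ (P i) * (aeval t₀ s * x i)) =
        coeffMap (algebraMap A E) (aeval t₀ s) *
          coeffMap (algebraMap A E) (aeval t₀ (P i) * x i) := by
      intro i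
      rw [← map_mul (coeffMap (algebraMap A E))]
      congr 1
      ring
    simp_rw [h2]
    rw [← Finset.mul_sum, ← hrep, map_mul (aeval t₀) s Q,
      map_mul (coeffMap (algebraMap A E))]
    ring
  refine ⟨s * Q, ?_, ?_⟩
  · rw [Polynomial.map_mul]
    exact mul_ne_zero hs hQ
  · by_cases hYne : ∃ i, Y i ≠ 0
    · exact bgInt_isIntegral_of_table τ Y hYne hYtab _ ⟨P, hz⟩
    · push Not at hYne
      rw [hz]
      simp only [hYne, mul_zero, Finset.sum_const_zero]
      exact isIntegral_zero

end Two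

section Norm

open ChartGB

universe u

variable {A₀ E Lf : Type u} [CommRing A₀] [IsDomain A₀] [IsDiscreteValuationRing A₀]
  [Field E] [Algebra A₀ E] [IsFractionRing A₀ E] [CharZero E]
  [Field Lf] [Algebra E Lf] [Algebra A₀ Lf] [IsScalarTower A₀ E Lf]
  {π : A₀} {τ : Lf}

/-- an element of `E(τ)` whose image in `Lf` is integral over `A₀[τ]` is `P(τ)`, `P ∈ A₀[X]` -/
theorem bgInt_exists_aeval_of_isIntegral (hτ : Transcendental E τ) (z : E⟮τ⟯)
    (hz : IsIntegral (Algebra.adjoin A₀ {τ}) (algebraMap E⟮τ⟯ Lf z)) :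
    ∃ P : A₀[X], algebraMap E⟮τ⟯ Lf z = aeval τ P := by
  letI : Algebra ↥(Algebra.adjoin A₀ {τ}) E⟮τ⟯ := (chartIncl (A₀ := A₀) (E := E) τ).toAlgebra
  haveI : IsScalarTower ↥(Algebra.adjoin A₀ {τ}) E⟮τ⟯ Lf :=
    IsScalarTower.of_algebraMap_eq (fun _ => rfl)
  haveI := isFractionRing_adjoinSimple (A₀ := A₀) (E := E) τ
  haveI := chart_isIntegrallyClosed (A₀ := A₀) (E := E) hτ
  have hz' : IsIntegral (↥(Algebra.adjoin A₀ {τ})) z :=
    (isIntegral_algebraMap_iff (algebraMap E⟮τ⟯ Lf).injective).mp hz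
  obtain ⟨ρ, hρ⟩ := IsIntegrallyClosed.isIntegral_iff.mp hz'
  have hρmem : (ρ : Lf) ∈ (aeval (R := A₀) τ).range := by
    rw [← Algebra.adjoin_singleton_eq_range_aeval]
    exact ρ.2
  obtain ⟨P, hP⟩ := hρmem
  refine ⟨P, ?_⟩
  rw [← hρ]
  exact hP.symm

/-- **Norm of a unit of the special fibre (generic chart lemma).**  If `x` and `g(τ) x⁻¹` are
integral over `A₀[τ]` with `π ∤ g`, then `N_{Lf/E(τ)} x = n(τ)` with `π ∤ n`. -/
theorem bgInt_norm_of_inv (hτ : Transcendental E τ) (hπ : Irreducible π) (x : Lf) (hx0 : x ≠ 0)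
    (hx : IsIntegral (Algebra.adjoin A₀ {τ}) x) (g : A₀[X]) (hg : ¬ C π ∣ g)
    (hginv : IsIntegral (Algebra.adjoin A₀ {τ}) (aeval τ g * x⁻¹)) :
    ∃ n : A₀[X], ¬ C π ∣ n ∧ algebraMap E⟮τ⟯ Lf (Algebra.norm E⟮τ⟯ x) = aeval τ n := by
  letI : Algebra ↥(Algebra.adjoin A₀ {τ}) E⟮τ⟯ := (chartIncl (A₀ := A₀) (E := E) τ).toAlgebra
  haveI : IsScalarTower ↥(Algebra.adjoin A₀ {τ}) E⟮τ⟯ Lf :=
    IsScalarTower.of_algebraMap_eq (fun _ => rfl)
  have h1 : IsIntegral (↥(Algebra.adjoin A₀ {τ})) (Algebra.norm E⟮τ⟯ x) :=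
    Algebra.isIntegral_norm E⟮τ⟯ hx
  have h2 : IsIntegral (↥(Algebra.adjoin A₀ {τ})) (Algebra.norm E⟮τ⟯ (aeval τ g * x⁻¹)) :=
    Algebra.isIntegral_norm E⟮τ⟯ hginv
  obtain ⟨n, hn⟩ := bgInt_exists_aeval_of_isIntegral hτ _
    ((isIntegral_algebraMap_iff (algebraMap E⟮τ⟯ Lf).injective).mpr h1)
  obtain ⟨m, hm⟩ := bgInt_exists_aeval_of_isIntegral hτ _
    ((isIntegral_algebraMap_iff (algebraMap E⟮τ⟯ Lf).injective).mpr h2)
  refine ⟨n, ?_, hn⟩
  -- `g(τ)` as an element of `E(τ)`
  have hgmem : aeval τ g ∈ E⟮τ⟯ :=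
    mem_adjoinSimple_of_mem_adjoin (A₀ := A₀) (E := E) τ (by
      rw [Algebra.adjoin_singleton_eq_range_aeval]; exact ⟨g, rfl⟩)
  have hprod : Algebra.norm E⟮τ⟯ x * Algebra.norm E⟮τ⟯ (aeval τ g * x⁻¹) =
      (⟨aeval τ g, hgmem⟩ : E⟮τ⟯) ^ Module.finrank E⟮τ⟯ Lf := by
    rw [← map_mul, ← Algebra.norm_algebraMap (S := Lf)]
    congr 1
    rw [mul_comm (aeval τ g), ← mul_assoc, mul_inv_cancel₀ hx0, one_mul]
    rfl
  have hprod' : aeval τ (n * m) = aeval τ (g ^ Module.finrank E⟮τ⟯ Lf) := by
    rw [map_mul, map_pow, ← hn, ← hm, ← map_mul, hprod, map_pow]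
    rfl
  have heq : n * m = g ^ Module.finrank E⟮τ⟯ Lf := chart_aeval_injective hτ hprod'
  have hCπ : Prime (C π : A₀[X]) := Polynomial.prime_C_iff.mpr hπ.prime
  intro hdvd
  apply hg
  have : C π ∣ g ^ Module.finrank E⟮τ⟯ Lf := by
    rw [← heq]; exact Dvd.dvd.mul_right hdvd m
  exact hCπ.dvd_of_dvd_pow this

end Norm

section Three

universe u

variable {A E k : Type u} [CommRing A] [IsDomain A] [IsDiscreteValuationRing A]
  [Field E] [Algebra A E] [IsFractionRing A E] [CharZero E]
  [Field k] {r : A →+* k}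
  {F : IntermediateField E (LaurentSeries E)} {t₀ : LaurentSeries A} {n : ℕ}
  {x : Fin n → LaurentSeries A}
variable {Lf : Type u} [Field Lf] [Algebra E Lf] [Algebra A Lf] [IsScalarTower A E Lf]
  (e : Lf →ₐ[E] LaurentSeries E)

theorem bgInt_not_C_dvd_of_map_ne_zero {π : A} (hrπ : r π = 0) {g : A[X]} (hg : g.map r ≠ 0) :
    ¬ C π ∣ g := by
  rintro ⟨g', rfl⟩
  apply hg
  rw [Polynomial.map_mul, Polynomial.map_C, hrπ, map_zero, zero_mul]

theorem bgInt_map_ne_zero_of_not_C_dvd {π : A} (hr : ∀ a, r a = 0 → π ∣ a) {g : A[X]}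
    (hg : ¬ C π ∣ g) : g.map r ≠ 0 := by
  intro h0
  obtain ⟨g', rfl⟩ := exists_eq_C_mul_of_map_eq_zero hr h0
  exact hg (dvd_mul_right _ _)

/-- **BG-int (iii).**  An element of `F` integral over `A[τ]` with nonzero Gauss reduction has
norm `n(τ)` over `E(τ)`, with `n ∈ A[X]` of nonzero reduction. -/
theorem bgInt_norm (kd : GaussKD r F t₀ x) {π : A} (hπ : Irreducible π) (hrπ : r π = 0)
    (hr : ∀ a, r a = 0 → π ∣ a)
    (hF : ∀ f ∈ F, ∃ z : Lf, e z = f) {τ : Lf} (hτ : e τ = coeffMap (algebraMap A E) t₀)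
    (hτtr : Transcendental E τ)
    (z : Lf) (hzF : e z ∈ F) (hzg : e z ∈ gaussRing (algebraMap A E) r)
    (hred : gaussRed r (IsFractionRing.injective A E) ⟨e z, hzg⟩ ≠ 0)
    (hint : IsIntegral (Algebra.adjoin A {τ}) z) :
    ∃ m : A[X], m.map r ≠ 0 ∧ ¬ C π ∣ m ∧
      algebraMap E⟮τ⟯ Lf (Algebra.norm E⟮τ⟯ z) = aeval τ m := by
  have hz0 : z ≠ 0 := by
    rintro rfl
    apply hred
    have : (⟨e 0, hzg⟩ : gaussRing (algebraMap A E) r) = 0 := Subtype.ext (map_zero e)
    rw [this, map_zero]
  have hinvg : e z⁻¹ ∈ gaussRing (algebraMap A E) r := by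
    rw [map_inv₀]
    exact inv_mem_gaussRing r (IsFractionRing.injective A E) ⟨e z, hzg⟩ hred
  have hinvF : e z⁻¹ ∈ F := by
    rw [map_inv₀]
    exact F.inv_mem hzF
  obtain ⟨g, hg, hgint⟩ := bgInt_exists_mul_isIntegral e kd hπ.ne_zero hπ.not_isUnit hr hF hτ
    z⁻¹ hinvF hinvg
  obtain ⟨m, hm, hnorm⟩ := bgInt_norm_of_inv hτtr hπ z hz0 hint g
    (bgInt_not_C_dvd_of_map_ne_zero hrπ hg) hgint
  exact ⟨m, bgInt_map_ne_zero_of_not_C_dvd hr hm, hm, hnorm⟩

end Three

section One

universe u

variable {A E k : Type u} [CommRing A] [IsDomain A] [IsDiscreteValuationRing A]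
  [Field E] [Algebra A E] [IsFractionRing A E] [CharZero E]
  [Field k] {r : A →+* k}
  {F : IntermediateField E (LaurentSeries E)} {t₀ : LaurentSeries A} {n : ℕ}
  {x : Fin n → LaurentSeries A}
variable {Lf : Type u} [Field Lf] [Algebra E Lf] [Algebra A Lf] [IsScalarTower A E Lf]
  (e : Lf →ₐ[E] LaurentSeries E)

/-- every element of `E` is `a / π ^ m` with `a ∈ A` -/
theorem bgInt_exists_pow_mul_eq_algebraMap {π : A} (hπ : Irreducible π) (c : E) :
    ∃ (m : ℕ) (a : A), algebraMap A E π ^ m * c = algebraMap A E a := by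
  obtain ⟨a, b, hb, rfl⟩ := IsFractionRing.div_surjective (A := A) c
  have hb0 : b ≠ 0 := nonZeroDivisors.ne_zero hb
  obtain ⟨m, u, hu⟩ := IsDiscreteValuationRing.eq_unit_mul_pow_irreducible hb0 hπ
  refine ⟨m, a * ((u⁻¹ : Aˣ) : A), ?_⟩
  have hbE : algebraMap A E b ≠ 0 := by
    intro h0
    exact hb0 (IsFractionRing.injective A E (by rw [h0, map_zero]))
  rw [mul_div_assoc', eq_comm, eq_div_iff hbE, ← map_pow, ← map_mul, ← map_mul]
  congr 1
  rw [hu]
  have : ((u⁻¹ : Aˣ) : A) * (u : A) = 1 := Units.inv_mul u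
  calc a * ((u⁻¹ : Aˣ) : A) * ((u : A) * π ^ m)
      = a * (((u⁻¹ : Aˣ) : A) * (u : A)) * π ^ m := by ring
    _ = π ^ m * a := by rw [this]; ring

/-- every element of `E[τ]` is `b / π ^ m` with `b ∈ A[τ]` -/
theorem bgInt_exists_pow_mul_mem_adjoin {π : A} (hπ : Irreducible π) (τ : Lf) (b : Lf)
    (hb : b ∈ Algebra.adjoin E {τ}) :
    ∃ m : ℕ, algebraMap A Lf π ^ m * b ∈ Algebra.adjoin A {τ} := by
  induction hb using Algebra.adjoin_induction with
  | mem y hy =>
    refine ⟨0, ?_⟩
    rw [pow_zero, one_mul]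
    exact Algebra.subset_adjoin hy
  | algebraMap c =>
    obtain ⟨m, a, ha⟩ := bgInt_exists_pow_mul_eq_algebraMap hπ c
    refine ⟨m, ?_⟩
    have : algebraMap A Lf π ^ m * algebraMap E Lf c = algebraMap A Lf a := by
      rw [IsScalarTower.algebraMap_apply A E Lf, IsScalarTower.algebraMap_apply A E Lf a,
        ← map_pow, ← map_mul, ha]
    rw [this]
    exact Subalgebra.algebraMap_mem _ a
  | add y z _ _ hy hz =>
    obtain ⟨m₁, h₁⟩ := hy
    obtain ⟨m₂, h₂⟩ := hz
    refine ⟨m₁ + m₂, ?_⟩
    have : algebraMap A Lf π ^ (m₁ + m₂) * (y + z) =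
        algebraMap A Lf π ^ m₂ * (algebraMap A Lf π ^ m₁ * y) +
          algebraMap A Lf π ^ m₁ * (algebraMap A Lf π ^ m₂ * z) := by
      rw [pow_add]; ring
    rw [this]
    exact add_mem (mul_mem (pow_mem (Subalgebra.algebraMap_mem _ π) _) h₁)
      (mul_mem (pow_mem (Subalgebra.algebraMap_mem _ π) _) h₂)
  | mul y z _ _ hy hz =>
    obtain ⟨m₁, h₁⟩ := hy
    obtain ⟨m₂, h₂⟩ := hz
    refine ⟨m₁ + m₂, ?_⟩
    have : algebraMap A Lf π ^ (m₁ + m₂) * (y * z) =
        (algebraMap A Lf π ^ m₁ * y) * (algebraMap A Lf π ^ m₂ * z) := by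
      rw [pow_add]; ring
    rw [this]
    exact mul_mem h₁ h₂

/-- an element integral over `E[τ]` becomes integral over `A[τ]` after multiplication by a power
of `π` -/
theorem bgInt_exists_pow_mul_isIntegral {π : A} (hπ : Irreducible π) (τ : Lf) (z : Lf)
    (hz : IsIntegral (Algebra.adjoin E {τ}) z) :
    ∃ m : ℕ, IsIntegral (Algebra.adjoin A {τ}) (algebraMap A Lf π ^ m * z) := by
  refine bgInt_exists_pow_mul_isIntegral_of_coeff (R := ↥(Algebra.adjoin A {τ}))
    (B := ↥(Algebra.adjoin E {τ})) (algebraMap A Lf π) ?_ ?_ z hz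
  · have : algebraMap A Lf π = algebraMap (↥(Algebra.adjoin A {τ})) Lf
        (algebraMap A (↥(Algebra.adjoin A {τ})) π) := rfl
    rw [this]
    exact isIntegral_algebraMap
  · intro b
    obtain ⟨m, hm⟩ := bgInt_exists_pow_mul_mem_adjoin hπ τ (b : Lf) b.2
    refine ⟨m, ?_⟩
    have : algebraMap A Lf π ^ m * algebraMap (↥(Algebra.adjoin E {τ})) Lf b =
        algebraMap (↥(Algebra.adjoin A {τ})) Lf ⟨_, hm⟩ := rfl
    rw [this]
    exact isIntegral_algebraMap

/-- **BG-int (i).**  An element of `F` in the Gauss ring which is integral over `E[τ]` is integral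
over `A[τ]`. -/
theorem bgInt_isIntegral_of_gauss (kd : GaussKD r F t₀ x) {π : A} (hπ : Irreducible π)
    (hrπ : r π = 0) (hr : ∀ a, r a = 0 → π ∣ a)
    (hF : ∀ f ∈ F, ∃ z : Lf, e z = f) {τ : Lf} (hτ : e τ = coeffMap (algebraMap A E) t₀)
    (hτtr : Transcendental E τ)
    (z : Lf) (hzF : e z ∈ F) (hzg : e z ∈ gaussRing (algebraMap A E) r)
    (hint : IsIntegral (Algebra.adjoin E {τ}) z) :
    IsIntegral (Algebra.adjoin A {τ}) z := by
  obtain ⟨g, hg, hgz⟩ := bgInt_exists_mul_isIntegral e kd hπ.ne_zero hπ.not_isUnit hr hF hτ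
    z hzF hzg
  obtain ⟨m, hm⟩ := bgInt_exists_pow_mul_isIntegral hπ τ z hint
  haveI := chart_isIntegrallyClosed (A₀ := A) (E := E) hτtr
  have hprime := chart_prime (A₀ := A) (E := E) (π := π) hτtr hπ
  have hgnd : ¬ algebraMap A ↥(Algebra.adjoin A {τ}) π ∣ chartEquiv hτtr g := by
    rw [← chartEquiv_C hτtr]
    intro hdvd
    apply bgInt_not_C_dvd_of_map_ne_zero hrπ hg
    have := map_dvd (chartEquiv hτtr).symm hdvd
    simpa using this
  refine bgInt_isIntegral_of_mul_of_pow_mul hprime hgnd z ?_ m ?_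
  · exact hgz
  · exact hm

end One

end Fermat.Agent.INJ

end
end ZBINJ_020_2
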