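/- GENERATED FILE (helper35, build-time optimisation, NOTES/ZB.md): verbatim concatenation of the modules
   Fermat.Agent.ES.GaloisCorr
   Do not edit; do not import together with these modules. -/
import Mathlib
import Fermat.Prelude.Def_AlgebraicCurve_Correspondence
import Fermat.Agent.ZB.Common_003

/-! ### bundled: `Fermat.Agent.ES.GaloisCorr` -/
section ZBES_010_0

/-!
# Semilinear automorphisms commute with correspondences

`F`, `F'` function fields over `K`, `φ ψ : F →ₐ[K] F'`, and `g`, `g'` semilinear automorphisms of
`F`, `F'` intertwined by `φ` and by `ψ`.  Then restriction of places, ramification index, inertia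
degree, pull-back, push-forward and the correspondence `ψ_* φ^*` on divisors and on `Pic⁰` are
compatible with the actions of `g`, `g'`.

Main statement: `Fermat.Agent.ES.pic0_correspondence_smul`.
-/

set_option autoImplicit false
set_option linter.style.haveILetI false
set_option linter.unusedSectionVars false

noncomputable section

namespace Fermat.Agent.ES

open AlgebraicCurve AlgebraicCurve.SemilinearAut
open scoped Pointwise

section Tower

variable {K F F' : Type*} [Field K] [Field F] [Field F'] [Algebra K F] [Algebra K F']
  [Algebra F F'] [IsScalarTower K F F'] [Algebra.IsIntegral F F']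
  {g : SemilinearAut K F} {g' : SemilinearAut K F'}

/-- restriction of places is equivariant -/
theorem restrict_smul (h : IntertwinesAlong (algebraMap F F') g g') (w : Place K F') :
    (g' • w).restrict F = g • (w.restrict F) := by
  apply Place.ext
  ext f
  rw [Place.mem_restrict_iff, SemilinearAut.smul_toValuationSubring,
    SemilinearAut.smul_toValuationSubring,
    ValuationSubring.mem_pointwise_smul_iff_inv_smul_mem,
    ValuationSubring.mem_pointwise_smul_iff_inv_smul_mem, Place.mem_restrict_iff, h.inv f]

theorem ord_smul_algebraMap (h : IntertwinesAlong (algebraMap F F') g g') (w : Place K F')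
    (f : F) : (g' • w).ord (algebraMap F F' f) = w.ord (algebraMap F F' (g⁻¹ • f)) := by
  have h1 := SemilinearAut.ord_smul g' w (algebraMap F F' (g⁻¹ • f))
  have h2 : g' • algebraMap F F' (g⁻¹ • f) = algebraMap F F' f := by
    have := h (g⁻¹ • f)
    rw [smul_inv_smul] at this
    exact this
  rw [h2] at h1
  exact h1

/-- the ramification index is invariant -/
theorem ramificationIndex_smul (h : IntertwinesAlong (algebraMap F F') g g')
    (w : Place K F') :
    (g' • w).ramificationIndex F = w.ramificationIndex F := by
  show sInf {n : ℕ | 0 < n ∧ ∃ f : F, f ≠ 0 ∧ (g' • w).ord (algebraMap F F' f) = n}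
    = sInf {n : ℕ | 0 < n ∧ ∃ f : F, f ≠ 0 ∧ w.ord (algebraMap F F' f) = n}
  congr 1
  ext n
  constructor
  · rintro ⟨hn, f, hf, hfn⟩
    refine ⟨hn, g⁻¹ • f, ?_, ?_⟩
    · intro h0
      apply hf
      have := congrArg (g • ·) h0
      simpa using this
    · rw [← hfn]
      exact (ord_smul_algebraMap h w f).symm
  · rintro ⟨hn, f, hf, hfn⟩
    refine ⟨hn, g • f, ?_, ?_⟩
    · intro h0
      apply hf
      have := congrArg (g⁻¹ • ·) h0
      simpa using this
    · rw [← hfn]
      have := ord_smul_algebraMap h w (g • f)
      rw [inv_smul_smul] at this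
      exact this

/-- `g` maps the valuation ring of `w.restrict F` onto that of `(g' • w).restrict F` -/
def restrictSMulEquiv (h : IntertwinesAlong (algebraMap F F') g g') (w : Place K F') :
    (w.restrict F).toValuationSubring ≃+* ((g' • w).restrict F).toValuationSubring where
  toFun x := ⟨g • (x : F), by
    rw [Place.mem_restrict_iff, SemilinearAut.smul_toValuationSubring,
      ValuationSubring.mem_pointwise_smul_iff_inv_smul_mem, ← h (x : F), inv_smul_smul]
    exact x.2⟩
  invFun y := ⟨g⁻¹ • (y : F), by
    rw [Place.mem_restrict_iff]
    have hy := y.2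
    rw [Place.mem_restrict_iff, SemilinearAut.smul_toValuationSubring,
      ValuationSubring.mem_pointwise_smul_iff_inv_smul_mem] at hy
    rw [← h.inv (y : F)]
    exact hy⟩
  left_inv x := by ext; simp
  right_inv y := by ext; simp
  map_mul' x y := Subtype.ext (smul_mul' g (x : F) (y : F))
  map_add' x y := Subtype.ext (smul_add g (x : F) (y : F))

/-- the inertia degree is invariant -/
theorem inertiaDeg_smul (h : IntertwinesAlong (algebraMap F F') g g') (w : Place K F') :
    (g' • w).inertiaDeg F = w.inertiaDeg F := by
  show Module.finrank ((g' • w).restrict F).ResidueField (g' • w).ResidueField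
    = Module.finrank (w.restrict F).ResidueField w.ResidueField
  symm
  refine Algebra.finrank_eq_of_equiv_equiv
    (IsLocalRing.ResidueField.mapEquiv (restrictSMulEquiv h w))
    (smulResidueRingEquiv g' w) ?_
  apply RingHom.ext
  intro x
  obtain ⟨a, rfl⟩ := IsLocalRing.residue_surjective x
  show algebraMap ((g' • w).restrict F).ResidueField (g' • w).ResidueField
      (IsLocalRing.ResidueField.mapEquiv (restrictSMulEquiv h w) (IsLocalRing.residue _ a))
    = smulResidueRingEquiv g' w
      (algebraMap (w.restrict F).ResidueField w.ResidueField (IsLocalRing.residue _ a))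
  rw [IsLocalRing.ResidueField.mapEquiv_apply, IsLocalRing.ResidueField.map_residue,
    Place.algebraMap_residueField_eq, Place.algebraMap_residueField_eq,
    Place.restrictResidueMap_residue, Place.restrictResidueMap_residue]
  show IsLocalRing.residue _ _ = IsLocalRing.ResidueField.mapEquiv _ (IsLocalRing.residue _ _)
  rw [IsLocalRing.ResidueField.mapEquiv_apply, IsLocalRing.ResidueField.map_residue]
  refine congrArg _ (Subtype.ext ?_)
  show algebraMap F F' (g • (a : F)) = g' • algebraMap F F' (a : F)
  exact (h (a : F)).symm

/-- push-forward of divisors is equivariant -/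
theorem pushforward_smul (h : IntertwinesAlong (algebraMap F F') g g') (D : Divisor K F') :
    Divisor.pushforward F (g' • D) = g • Divisor.pushforward F D := by
  induction D using Finsupp.induction with
  | zero => simp
  | single_add w n D _ _ ih =>
    rw [smul_add, map_add, map_add, smul_add, ih, SemilinearAut.smul_single,
      Divisor.pushforward_single, Divisor.pushforward_single, SemilinearAut.smul_single,
      restrict_smul h, inertiaDeg_smul h]

/-- pull-back of divisors is equivariant -/
theorem pullback_smul [HasPrincipalDivisors K F'] (h : IntertwinesAlong (algebraMap F F') g g')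
    (D : Divisor K F) :
    Divisor.pullback F' (g • D) = g' • Divisor.pullback F' D := by
  ext w
  rw [Divisor.pullback_apply, SemilinearAut.divisor_smul_apply, SemilinearAut.divisor_smul_apply,
    Divisor.pullback_apply, restrict_smul h.inv, ramificationIndex_smul h.inv]

end Tower

section Along

variable {K F F' : Type*} [Field K] [Field F] [Field F'] [Algebra K F] [Algebra K F']
  {g : SemilinearAut K F} {g' : SemilinearAut K F'}

theorem pushforwardAlong_smul (ψ : F →ₐ[K] F') (hψ : ψ.toRingHom.IsIntegral)
    (h : IntertwinesAlong (ψ : F →+* F') g g') (D : Divisor K F') :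
    Divisor.pushforwardAlong ψ hψ (g' • D) = g • Divisor.pushforwardAlong ψ hψ D := by
  letI := algebraAlong ψ
  haveI := isScalarTower_along ψ
  haveI := isIntegral_along ψ hψ
  exact pushforward_smul (F := F) (F' := F') h D

theorem pullbackAlong_smul [HasPrincipalDivisors K F'] (φ : F →ₐ[K] F')
    (hφ : φ.toRingHom.IsIntegral) (h : IntertwinesAlong (φ : F →+* F') g g')
    (D : Divisor K F) :
    Divisor.pullbackAlong φ hφ (g • D) = g' • Divisor.pullbackAlong φ hφ D := by
  letI := algebraAlong φ
  haveI := isScalarTower_along φ
  haveI := isIntegral_along φ hφ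
  exact pullback_smul (F := F) (F' := F') h D

variable [HasPrincipalDivisors K F']
variable (φ ψ : F →ₐ[K] F') (hφ : φ.toRingHom.IsIntegral) (hψ : ψ.toRingHom.IsIntegral)

/-- the correspondence `ψ_* φ^*` on divisors is equivariant -/
theorem divisor_correspondence_smul (h₁ : IntertwinesAlong (φ : F →+* F') g g')
    (h₂ : IntertwinesAlong (ψ : F →+* F') g g') (D : Divisor K F) :
    Divisor.correspondence φ ψ hφ hψ (g • D) = g • Divisor.correspondence φ ψ hφ hψ D := by
  rw [Divisor.correspondence_apply, Divisor.correspondence_apply, pullbackAlong_smul φ hφ h₁,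
    pushforwardAlong_smul ψ hψ h₂]

/-- **the correspondence `ψ_* φ^*` on `Pic⁰` is equivariant** -/
theorem pic0_correspondence_smul (hFI : FundamentalIdentityAlong K φ hφ)
    (hfin : FiniteAlong K ψ) (hN : NormFormulaAlong K ψ hfin)
    (h₁ : IntertwinesAlong (φ : F →+* F') g g') (h₂ : IntertwinesAlong (ψ : F →+* F') g g')
    (x : Pic0 K F) :
    Pic0.correspondence φ ψ hφ hψ hFI hfin hN (g • x)
      = g • Pic0.correspondence φ ψ hφ hψ hFI hfin hN x := by
  obtain ⟨D, rfl⟩ := Pic0.mk_surjective x
  rw [SemilinearAut.pic0_smul_mk, Pic0.correspondence_mk, Pic0.correspondence_mk,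
    SemilinearAut.pic0_smul_mk]
  refine congrArg Pic0.mk (Subtype.ext ?_)
  rw [Pic0.coe_degZeroCorrespondence, SemilinearAut.coe_degZeroSMulHom,
    SemilinearAut.coe_degZeroSMulHom, Pic0.coe_degZeroCorrespondence]
  exact divisor_correspondence_smul φ ψ hφ hψ h₁ h₂ (D : Divisor K F)

end Along

end Fermat.Agent.ES

end
end ZBES_010_0
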