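/- GENERATED FILE (helper35, build-time optimisation, NOTES/ZB.md): verbatim concatenation of the modules
   Fermat.Agent.ES.Package
   Fermat.Agent.ES.PackageInf
   Fermat.Agent.R38.Plan
   Fermat.Agent.ES.Top
   Fermat.Agent.ES.G2.Plan
   Fermat.Agent.ES.G2.Unram
   Fermat.Agent.ES.G2.Prim
   Fermat.Agent.ES.Words
   Fermat.Agent.ES.TopWords
   Fermat.Agent.ES.GaloisHecke
   Fermat.Agent.ES.G2.HeckeNormCore
   Fermat.Agent.ES.G2.HeckeDegStmt
   Fermat.Agent.ES.G2.HeckeNorm
   Fermat.Agent.ES.FiniteLevel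
   Fermat.Agent.ES.G2.Pow
   Fermat.Agent.ES.G2.InjBridge
   Fermat.Agent.ES.M.Plan
   Fermat.Agent.ES.I2.Plan
   Fermat.Agent.ES.I2.Plan2
   Fermat.Agent.ES.M.CuspInfty
   Fermat.Agent.ES.I2.ERoots
   Fermat.Agent.ES.M.RedF
   Fermat.Agent.ES.M.FrickePlaces
   Fermat.Agent.ES.M.GluePlan
   Fermat.Agent.ES.M.GaussRed
   Fermat.Agent.ES.M.FrickeRed
   Fermat.Agent.ES.I2.Nilp
   Fermat.Agent.ES.I2.Count
   Fermat.Agent.ES.I2aux.Target
   Fermat.Agent.ES.I2aux.Plan
   Fermat.Agent.ES.I2aux.PlanPT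
   Do not edit; do not import together with these modules. -/
import Mathlib
import Fermat.Prelude.Def_HeckeGalois_EichlerShimura
import Fermat.Prelude.Def_FLTPrelim_Modularity
import Fermat.Prelude.Def_FLTPrelim_ModularRep
import Fermat.Prelude.Def_ExtCitation_AdmissibleExtension
import Fermat.Prelude.Def_CuspForm_HeckeEvalForms
import Fermat.Prelude.Def_ModularCurve_HeckeModule
import Fermat.Agent.ZB.ES_002
import Fermat.Agent.ZB.Common_003
import Fermat.Prelude.Def_ModularCurve_ArithmeticGalois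
import Fermat.Prelude.Def_ModularCurve_HeckeOperator
import Fermat.Prelude.Def_ModularCurve_ReductionModL
import Fermat.Agent.ZB.ES_006
import Fermat.Agent.ZB.S24_001
import Fermat.Prelude.Thm_ModularCurve_coeffMap_qExpand
import Fermat.Prelude.Def_ModularCurve_X0ModL
import Fermat.Agent.ZB.ES_010
import Fermat.Agent.ZB.S28_002
import Fermat.Agent.ZB.S24_003
import Mathlib.FieldTheory.IsAlgClosed.Basic
import Fermat.Agent.ZB.INJ_001
import Fermat.Prelude.Def_AlgebraicCurve_Repartitions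
import Fermat.Agent.ZB.S28_003
import Fermat.Prelude.Def_CuspForm_IntegralStructure
import Fermat.Agent.ZB.S18_001
import Fermat.Agent.ZB.S20_001
import Fermat.Agent.ZB.ES_025

/-! ### bundled: `Fermat.Agent.ES.Package` -/
section ZBES_001_0

/-!
# The Eichler–Shimura package (interface between geometry and the Galois-representation glue)

`Fermat.Agent.ES.ESData M p V` is the list of properties of a finite `p`-torsion abelian group `V`
(e.g. `J₀(M)[p](ℚ̄)`) with an action of `G_ℚ` and of the Hecke polynomial ring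
`ModularCurve.HeckeAlg = ℤ[T_ℓ : ℓ prime]` that the construction of the mod-`p` Galois
representation of a weight-2 eigenform of level `M` consumes (S29, S30, S42):

* `frob`  : Eichler–Shimura relation `τ² − T_ℓ τ + ℓ = 0` on `V` for every Frobenius `τ` at every
            place over every prime `ℓ ∤ M p`;
* `unram` : inertia at places over `ℓ ∤ M p` acts trivially;
* `supp`  : for every normalized eigenform `g` of level `M` and every maximal ideal `𝔪 ∋ p` of `ℤ̄`,
            some nonzero `v ∈ V` is killed by every Hecke polynomial `t` in the good variables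
            (`ℓ ∤ M p`) whose value at the eigensystem of `g` lies in `𝔪`.

`Fermat.Agent.ES.ESPkg M p` : such a `V` exists.  Any construction is allowed.
-/

set_option autoImplicit false

namespace Fermat.Agent.ES

open ModularCurve

/-- the absolute Galois group of `ℚ` -/
abbrev GQ : Type := AlgebraicClosure ℚ ≃ₐ[ℚ] AlgebraicClosure ℚ

/-- the ring of algebraic integers inside `ℂ` -/
abbrev Zbar : Type := integralClosure ℤ ℂ

/-- the good Hecke variables at level `M` and residue characteristic `p` -/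
def goodPrimes (M p : ℕ) : Set Nat.Primes := {ℓ | ¬ (ℓ : ℕ) ∣ M * p}

/-- the value of a Hecke polynomial on the system of `q`-coefficients of `g` -/
noncomputable def heckeValue {M : ℕ} (g : CuspForm (CongruenceSubgroup.Gamma0 M) 2)
    (t : HeckeAlg) : ℂ :=
  MvPolynomial.aeval (fun ℓ : Nat.Primes => ModularFormClass.qCoeff g ℓ) t

/-- The Eichler–Shimura data on a `G_ℚ × Hecke`-module `V`. -/
structure ESData (M p : ℕ) (V : Type) [AddCommGroup V] [Module HeckeAlg V]
    [DistribMulAction GQ V] : Prop where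
  /-- `V` is finite -/
  finite : Finite V
  /-- `V` is killed by `p` -/
  p_torsion : ∀ v : V, p • v = 0
  /-- Galois and Hecke commute -/
  smul_comm : ∀ (σ : GQ) (t : HeckeAlg) (v : V), σ • t • v = t • σ • v
  /-- every vector is fixed by an open subgroup -/
  finite_level : ∀ v : V, ∃ E : IntermediateField ℚ (AlgebraicClosure ℚ),
    FiniteDimensional ℚ E ∧ ∀ σ : GQ, (∀ x ∈ E, σ x = x) → σ • v = v
  /-- Eichler–Shimura relation -/
  frob : ∀ ℓ : ℕ, (hℓ : ℓ.Prime) → ¬ ℓ ∣ M * p →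
    ∀ A : ValuationSubring (AlgebraicClosure ℚ), A.LiesOverPrime ℓ →
      ∀ τ : GQ, A.IsFrobeniusAt τ ℓ →
        ∀ v : V, τ • τ • v - heckeGen ⟨ℓ, hℓ⟩ • (τ • v) + ℓ • v = 0
  /-- unramified outside `M p` -/
  unram : ∀ ℓ : ℕ, ℓ.Prime → ¬ ℓ ∣ M * p →
    ∀ A : ValuationSubring (AlgebraicClosure ℚ), A.LiesOverPrime ℓ →
      ∀ σ ∈ A.inertiaSubgroupIn ℚ, ∀ v : V, σ • v = v
  /-- every eigensystem mod `𝔪` occurs in `V` -/
  supp : ∀ g : CuspForm (CongruenceSubgroup.Gamma0 M) 2, g.IsNormalizedEigenform →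
    ∀ 𝔪 : Ideal Zbar, 𝔪.IsMaximal → (p : Zbar) ∈ 𝔪 →
      ∃ v : V, v ≠ 0 ∧ ∀ t ∈ MvPolynomial.supported ℤ (goodPrimes M p),
        (∃ z ∈ 𝔪, (z : ℂ) = heckeValue g t) → t • v = 0

/-- The Eichler–Shimura package exists at level `M` and residue characteristic `p`. -/
def ESPkg (M p : ℕ) : Prop :=
  ∃ (V : Type) (_ : AddCommGroup V) (_ : Module HeckeAlg V) (_ : DistribMulAction GQ V),
    ESData M p V

end Fermat.Agent.ES


end ZBES_001_0

/-! ### bundled: `Fermat.Agent.ES.PackageInf` -/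
section ZBES_001_1

/-!
# The Eichler–Shimura package, `p`-adic form

`Fermat.Agent.ES.ESDataInf M p J`: the same list of properties as `ESData`, for a (big) abelian group
`J` with Galois and Hecke action (e.g. `J₀(M)(ℚ̄)`), all clauses being about the `p`-power torsion of
`J`.  It is the prelude's `ModularCurve.EichlerShimuraDataReduced` plus finiteness, divisibility and
finite level.  Consumers: S30/S31/S35 (all `n`), and S29/S42 through `n = 1`
(`V := J[p]`, see `ESPkg`).
-/

set_option autoImplicit false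

namespace Fermat.Agent.ES

open ModularCurve

/-- `x` is killed by a power of `p` -/
def IsPPowerTorsion (p : ℕ) {J : Type*} [AddCommGroup J] (x : J) : Prop := ∃ n : ℕ, p ^ n • x = 0

/-- The Eichler–Shimura data on a `G_ℚ × Hecke`-module `J`, `p`-adic form. -/
structure ESDataInf (M p : ℕ) (J : Type) [AddCommGroup J] [Module HeckeAlg J]
    [DistribMulAction GQ J] : Prop where
  /-- `J[pⁿ]` is finite -/
  finite : ∀ n : ℕ, {x : J | p ^ n • x = 0}.Finite
  /-- the `p`-power torsion is `p`-divisible -/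
  divisible : ∀ x : J, IsPPowerTorsion p x → ∃ y : J, IsPPowerTorsion p y ∧ p • y = x
  /-- Galois and Hecke commute -/
  smul_comm : ∀ (σ : GQ) (t : HeckeAlg) (x : J), σ • t • x = t • σ • x
  /-- every `p`-power torsion element is fixed by an open subgroup -/
  finite_level : ∀ x : J, IsPPowerTorsion p x →
    ∃ E : IntermediateField ℚ (AlgebraicClosure ℚ),
      FiniteDimensional ℚ E ∧ ∀ σ : GQ, (∀ a ∈ E, σ a = a) → σ • x = x
  /-- Eichler–Shimura relation -/
  frob : ∀ ℓ : ℕ, (hℓ : ℓ.Prime) → ¬ ℓ ∣ M * p →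
    ∀ A : ValuationSubring (AlgebraicClosure ℚ), A.LiesOverPrime ℓ →
      ∀ τ : GQ, A.IsFrobeniusAt τ ℓ →
        ∀ x : J, IsPPowerTorsion p x → τ • τ • x - heckeGen ⟨ℓ, hℓ⟩ • (τ • x) + ℓ • x = 0
  /-- unramified outside `M p` -/
  unram : ∀ ℓ : ℕ, ℓ.Prime → ¬ ℓ ∣ M * p →
    ∀ A : ValuationSubring (AlgebraicClosure ℚ), A.LiesOverPrime ℓ →
      ∀ σ ∈ A.inertiaSubgroupIn ℚ, ∀ x : J, IsPPowerTorsion p x → σ • x = x
  /-- every eigensystem mod `𝔪` occurs in `J[p]` -/
  supp : ∀ g : CuspForm (CongruenceSubgroup.Gamma0 M) 2, g.IsNormalizedEigenform →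
    ∀ 𝔪 : Ideal Zbar, 𝔪.IsMaximal → (p : Zbar) ∈ 𝔪 →
      ∃ v : J, v ≠ 0 ∧ p • v = 0 ∧ ∀ t ∈ MvPolynomial.supported ℤ (goodPrimes M p),
        (∃ z ∈ 𝔪, (z : ℂ) = heckeValue g t) → t • v = 0

/-- The `p`-adic Eichler–Shimura package exists at level `M`. -/
def ESPkgInf (M p : ℕ) : Prop :=
  ∃ (J : Type) (_ : AddCommGroup J) (_ : Module HeckeAlg J) (_ : DistribMulAction GQ J),
    ESDataInf M p J

/-- bridge (to be proved in `Fermat/Agent/ES/Bridge.lean`): the `p`-adic package gives the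
mod-`p` package, with `V := J[p]`. -/
def StmtBridge : Prop := ∀ M p : ℕ, ESPkgInf M p → ESPkg M p

end Fermat.Agent.ES


end ZBES_001_1

/-! ### bundled: `Fermat.Agent.R38.Plan` -/
section ZBES_001_2
/-
ROW 38 (S39 / S40 / S44, Mazur–Ribet at `p`; target S40) — INTERFACE FILE of the captain (helper44).
Plan and piece table: NOTES/R38.md.  Definitions and statements only.

Every `Stmt…` below is a `Prop`; the piece `X` is DONE when `theorem stmtX : StmtX` (or
`stmtX_of : deps → StmtX`) is landed, sorry-free, in its own file `Fermat/Agent/R38/<File>.lean`,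
namespace `Fermat.Agent.R38`, private names prefixed by the piece id.

Setting: `W` an integral Weierstrass model with good reduction at the odd prime `p`, `E[p]`
irreducible, `f` a normalised eigenform of level `M * p` (`p ∤ M`) congruent to `W`.
OLD case: the eigen-system of `W` mod `p` occurs at level `M`  ⇒  lift (`StmtLift`).
NEW case: some good Hecke polynomial `t₀` kills level `M` and is a unit on the eigen-system.  Then a
copy `V₀ ≅ E[p]` inside `J₀(Mp)[p]` (`StmtRep`) is killed by the push-forward `π` to level `M`, and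
the structure of `J₀(Mp)[p]` AT `p` (`AtPData`: `toric`, `tres`) contradicts the structure of `E[p]`
at `p` (`StmtEDet`, `StmtEPeu`).
-/

set_option autoImplicit false

noncomputable section

namespace Fermat.Agent.R38

open ModularCurve Fermat.Agent.ES ExtCitation
open scoped WeierstrassCurve.Affine

/-- `ℚ̄` -/
abbrev Qb : Type := AlgebraicClosure ℚ

/-! ### Definitions -/

/-- `E[p](ℚ̄)` for the integral model `W` (the module of `W.ModRepIsIrreducible p`), with the
prelude's action of `G_ℚ`. -/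
abbrev ETors (W : WeierstrassCurve ℤ) (p : ℕ) : Type :=
  Submodule.torsionBy ℤ ((W.map (Int.castRingHom ℚ))⁄Qb).Point p

/-- The good Hecke variables for `W` at level `M * p`: primes `ℓ ∤ M p` of good reduction. -/
def goodFor (W : WeierstrassCurve ℤ) (M p : ℕ) : Set Nat.Primes :=
  {ℓ | ¬ (ℓ : ℕ) ∣ M * p * p ∧ W.IsGoodPrimeFor ℓ}

theorem goodFor_subset (W : WeierstrassCurve ℤ) (M p : ℕ) :
    goodFor W M p ⊆ goodPrimes (M * p) p := fun _ h => h.1

/-- `t` vanishes on the eigen-system of every normalised eigenform of level `M`.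
(NOT used by the interface any more; `KillsForms M t → KillsLevel M t` is `killsLevel_of_forms`
in `R38/Lift.lean`.) -/
def KillsLevel (M : ℕ) (t : HeckeAlg) : Prop :=
  ∀ g : CuspForm (CongruenceSubgroup.Gamma0 M) 2, g.IsNormalizedEigenform → heckeValue g t = 0

/-- **`t` acts as zero on `S₂(Γ₀(M))`** (`t` evaluated at the Hecke operators `T_ℓ`, `U_q`). -/
def KillsForms (M : ℕ) [NeZero M] (t : HeckeAlg) : Prop :=
  CuspForm.heckeEvalForms M 2 t = 0

/-- **The peu ramifié subgroup** of the inertia group of `A`: the elements of inertia fixing every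
`p`-th root of every unit of `A` which is fixed by inertia (i.e. of every unit of
`A₀ = A ∩ ℚ̄^I`).  Its fixed field is `K₁(U^{1/p})`, `K = ℚ̄^I`, `K₁ = K(ζ_p)`, `U = A₀ˣ`. -/
def peuSubgroup (A : ValuationSubring Qb) (p : ℕ) : Subgroup GQ where
  carrier := {σ | σ ∈ A.inertiaSubgroupIn ℚ ∧ ∀ y : Qb, y ^ p ∈ A → (y ^ p)⁻¹ ∈ A →
    (∀ τ ∈ A.inertiaSubgroupIn ℚ, τ (y ^ p) = y ^ p) → σ y = y}
  mul_mem' := by
    rintro σ τ ⟨hσ, hσ'⟩ ⟨hτ, hτ'⟩
    refine ⟨mul_mem hσ hτ, fun y h1 h2 h3 => ?_⟩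
    rw [AlgEquiv.mul_apply, hτ' y h1 h2 h3, hσ' y h1 h2 h3]
  one_mem' := ⟨one_mem _, fun _ _ _ _ => rfl⟩
  inv_mem' := by
    rintro σ ⟨hσ, hσ'⟩
    refine ⟨inv_mem hσ, fun y h1 h2 h3 => ?_⟩
    have h := hσ' y h1 h2 h3
    calc σ⁻¹ y = σ⁻¹ (σ y) := by rw [h]
      _ = y := by
        rw [← AlgEquiv.mul_apply, inv_mul_cancel, AlgEquiv.one_apply]

theorem peuSubgroup_le (A : ValuationSubring Qb) (p : ℕ) :
    peuSubgroup A p ≤ A.inertiaSubgroupIn ℚ := fun _ h => h.1

/-! ### Forms side -/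

/-- **R38-LIFT** (Deligne–Serre lifting from the old quotient; elementary).
If the mod `p` system `a` (on the variables in `S`) kills every good Hecke polynomial which
acts as zero on `S₂(Γ₀(M))`, then it is the reduction of the eigen-system of a
normalised eigenform of level `M`.
(`T := ℤ[S] / {KillsLevel} ↪ ∏_g ℤ̄` (finitely many `g`, integral eigenvalues), lying over for the
integral extension, primes of a finite product, `dim ℤ̄ = 1`.) -/
def StmtLift : Prop :=
  ∀ (M p : ℕ) [NeZero M], p.Prime → ∀ (S : Set Nat.Primes) (a : Nat.Primes → ℤ),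
    (∀ ℓ ∈ S, ¬ (ℓ : ℕ) ∣ M) →
    (∀ t ∈ MvPolynomial.supported ℤ S, KillsForms M t → (p : ℤ) ∣ MvPolynomial.aeval a t) →
    ∃ (g : CuspForm (CongruenceSubgroup.Gamma0 M) 2) (𝔪 : Ideal Zbar),
      g.IsNormalizedEigenform ∧ 𝔪.IsMaximal ∧ (p : Zbar) ∈ 𝔪 ∧
      ∀ ℓ ∈ S, ∃ z : Zbar, (z : ℂ) = ModularFormClass.qCoeff g ℓ ∧ z - ((a ℓ : ℤ) : Zbar) ∈ 𝔪

/-! ### Galois side: a copy of `E[p]` in the Jacobian -/

/-- **R38-REP** (Eichler–Shimura + weak Chebotarev + Boston–Lenstra–Ribet; tools of S42).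
In a `p`-adic Eichler–Shimura module `J` of level `N`, a nonzero `p`-torsion vector on which the
good Hecke operators act through `a_ℓ(W)` generates a `G_ℚ`-module containing a copy of `E[p]`:
a `G_ℚ`-stable subgroup `V₀` of `J[p]`, still an eigen-space, with an equivariant isomorphism
`V₀ ≃ E[p]`.  (`V₀` := a minimal nonzero `G_ℚ`-stable subgroup of the eigen-space; every `σ` is a
power of a Frobenius on a finite level, so it satisfies the characteristic polynomial of its
action on `E[p]`; BLR.) -/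
def StmtRep : Prop :=
  ∀ (W : WeierstrassCurve ℤ), W.Δ ≠ 0 → ∀ (p : ℕ), p.Prime → p ≠ 2 → W.ModRepIsIrreducible p →
    ∀ (M : ℕ), 0 < M →
    ∀ (J : Type) (_ : AddCommGroup J) (_ : Module HeckeAlg J) (_ : DistribMulAction GQ J),
      ESDataInf (M * p) p J →
      ∀ v : J, v ≠ 0 → p • v = 0 →
        (∀ ℓ ∈ goodFor W M p, heckeGen ℓ • v = (W.apOfModel ℓ : ℤ) • v) →
        ∃ (V₀ : AddSubgroup J) (e : V₀ ≃+ ETors W p),
          (∀ x ∈ V₀, p • x = 0) ∧
          (∀ x ∈ V₀, ∀ ℓ ∈ goodFor W M p, heckeGen ℓ • x = (W.apOfModel ℓ : ℤ) • x) ∧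
          ∃ hst : ∀ (σ : GQ), ∀ x ∈ V₀, σ • x ∈ V₀,
            ∀ (σ : GQ) (x : V₀), e ⟨σ • (x : J), hst σ x x.2⟩ = σ • e x

/-! ### The elliptic curve at `p` -/

/-- **R38-EDET** (`det ρ̄_E = ω`, `ω ≠ 1` on inertia, `p` odd): inertia at `p` does not act on
`E[p]` through the scalar `ω`.
(`RED.det_of_model` + `S33.exists_inertia_residual_ne_one`.) -/
def StmtEDet : Prop :=
  ∀ (W : WeierstrassCurve ℤ), W.Δ ≠ 0 → ∀ (p : ℕ) [Fact p.Prime], p ≠ 2 →
    W.ModRepIsIrreducible p →
    ∀ A : ValuationSubring Qb, A.LiesOverPrime p →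
      ∃ σ ∈ A.inertiaSubgroupIn ℚ, ∃ x : ETors W p, σ • x ≠ cycloExp p σ • x

/-- **R38-EPEU** (good reduction ⇒ peu ramifié): if `W` has good reduction at `p` and inertia
acts through `ω` on the inertia span of `E[p]`, then the peu ramifié subgroup acts trivially on
`E[p]`.
(Ordinary case: `K₁(E[p]) = K₁(a^{1/p})` with `a` a unit.  Route: Hopf order of `E[p]` (EC/Flat,
helper77) + sub-quotients of Hopf orders (W1-SQ / S33-B1) + the fibre of `𝒱 → 𝒱^ét` is a
`μ_p`-torsor `O[z]/(z^p - a)`, `a ∈ Oˣ`.  In the supersingular case the hypothesis fails.) -/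
def StmtEPeu : Prop :=
  ∀ (W : WeierstrassCurve ℤ), W.Δ ≠ 0 → ∀ (p : ℕ) [Fact p.Prime], p ≠ 2 →
    W.IsGoodPrimeFor p → W.ModRepIsIrreducible p →
    ∀ A : ValuationSubring Qb, A.LiesOverPrime p →
      (∀ σ ∈ A.inertiaSubgroupIn ℚ, ∀ τ ∈ A.inertiaSubgroupIn ℚ, ∀ x : ETors W p,
        τ • (σ • x - x) = cycloExp p τ • (σ • x - x)) →
      ∀ σ ∈ peuSubgroup A p, ∀ x : ETors W p, σ • x = x

/-! ### The Jacobian at `p` -/

/-- **The structure of `J₀(Mp)[p]` at `p`** (`p ∤ M`), in abstract form: `J` a `p`-adic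
Eichler–Shimura module of level `M * p`, `π : J → Jold` the push-forward to level `M`
(`Jold = J₀(M)²`, `π = (α_*, β_*)`). -/
structure AtPData (M p : ℕ) [NeZero M] [Fact p.Prime] (J : Type) [AddCommGroup J]
    [Module HeckeAlg J]
    [DistribMulAction GQ J] (Jold : Type) [AddCommGroup Jold] [Module HeckeAlg Jold]
    (π : J →+ Jold) : Prop where
  /-- the Eichler–Shimura package at level `M * p` -/
  es : ESDataInf (M * p) p J
  /-- `Jold` has level `M`: a good Hecke polynomial killing the forms of level `M` kills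
  `Jold[p]` -/
  old_level : ∀ t ∈ MvPolynomial.supported ℤ (goodPrimes (M * p) p), KillsForms M t →
    ∀ y : Jold, p • y = 0 → t • y = 0
  /-- the push-forward commutes with the good Hecke operators -/
  push_hecke : ∀ t ∈ MvPolynomial.supported ℤ (goodPrimes (M * p) p), ∀ x : J,
    π (t • x) = t • π x
  /-- **TORIC**: on the inertia span of the `p`-new `p`-torsion, inertia acts through `ω`.
  (= S33 v2, C1 + C3 + C4: `(σ - 1)x` is `≡ 1` at both Gauss valuations, new ⇒ split, split ⇒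
  toric.) -/
  toric : ∀ A : ValuationSubring Qb, A.LiesOverPrime p → ∀ x : J, p • x = 0 → π x = 0 →
    ∀ σ ∈ A.inertiaSubgroupIn ℚ, ∀ τ ∈ A.inertiaSubgroupIn ℚ,
      τ • (σ • x - x) = cycloExp p τ • (σ • x - x)
  /-- **TRÈS** (THE WALL of row 38): a `p`-torsion Hecke eigen-vector which is not old and not
  Eisenstein and is fixed by the peu ramifié subgroup is toric.
  (Classically: `J[p]/J[p]^f ≅ X/p`, the extension class of `x` is the monodromy pairing
  `⟨β(x), ·⟩ mod p`, peu ramifié ⇔ `β(x) ∈ Φ[p]`, `Φ` Eisenstein ⇒ `β(x) = 0`, not old ⇒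
  `x ∈ T[p]`.) -/
  tres : ∀ A : ValuationSubring Qb, A.LiesOverPrime p → ∀ x : J, p • x = 0 →
    ∀ t₀ ∈ MvPolynomial.supported ℤ (goodPrimes (M * p) p),
      (∀ y : Jold, p • y = 0 → t₀ • y = 0) → ∀ n₀ : ℤ, t₀ • x = n₀ • x → ¬ (p : ℤ) ∣ n₀ →
    ∀ ℓ₁ ∈ goodPrimes (M * p) p, ∀ n₁ : ℤ, heckeGen ℓ₁ • x = n₁ • x →
      ¬ (p : ℤ) ∣ n₁ - ((ℓ₁ : ℕ) + 1) →
    (∀ σ ∈ peuSubgroup A p, σ • x = x) →
    ∀ τ ∈ A.inertiaSubgroupIn ℚ, τ • x = cycloExp p τ • x

/-- **R38-PKG**: the package exists for every level `M` and every odd prime `p ∤ M`. -/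
def StmtPkg : Prop :=
  ∀ (M p : ℕ) [NeZero M] [Fact p.Prime], p ≠ 2 → ¬ p ∣ M →
    ∃ (J : Type) (_ : AddCommGroup J) (_ : Module HeckeAlg J) (_ : DistribMulAction GQ J)
      (Jold : Type) (_ : AddCommGroup Jold) (_ : Module HeckeAlg Jold) (π : J →+ Jold),
      AtPData M p J Jold π

/-- **The structure of `J₀(Mp)[p]` at `p`, minimal form** — what GLUE consumes.  "Not old" is
taken in the Hecke sense (`t₀` kills the forms of level `M` and is a unit on `x`); no `Jold`, no `π`.
`AtPData → AtPCore` is `atPCore_of_data` (file `R38/Glue.lean`). -/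
structure AtPCore (M p : ℕ) [NeZero M] [Fact p.Prime] (J : Type) [AddCommGroup J]
    [Module HeckeAlg J] [DistribMulAction GQ J] : Prop where
  /-- the Eichler–Shimura package at level `M * p` -/
  es : ESDataInf (M * p) p J
  /-- **TORIC** -/
  toric : ∀ A : ValuationSubring Qb, A.LiesOverPrime p → ∀ x : J, p • x = 0 →
    ∀ t₀ ∈ MvPolynomial.supported ℤ (goodPrimes (M * p) p), KillsForms M t₀ →
      ∀ n₀ : ℤ, t₀ • x = n₀ • x → ¬ (p : ℤ) ∣ n₀ →
    ∀ σ ∈ A.inertiaSubgroupIn ℚ, ∀ τ ∈ A.inertiaSubgroupIn ℚ,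
      τ • (σ • x - x) = cycloExp p τ • (σ • x - x)
  /-- **TRÈS** -/
  tres : ∀ A : ValuationSubring Qb, A.LiesOverPrime p → ∀ x : J, p • x = 0 →
    ∀ t₀ ∈ MvPolynomial.supported ℤ (goodPrimes (M * p) p), KillsForms M t₀ →
      ∀ n₀ : ℤ, t₀ • x = n₀ • x → ¬ (p : ℤ) ∣ n₀ →
    ∀ ℓ₁ ∈ goodPrimes (M * p) p, ∀ n₁ : ℤ, heckeGen ℓ₁ • x = n₁ • x →
      ¬ (p : ℤ) ∣ n₁ - ((ℓ₁ : ℕ) + 1) →
    (∀ σ ∈ peuSubgroup A p, σ • x = x) →
    ∀ τ ∈ A.inertiaSubgroupIn ℚ, τ • x = cycloExp p τ • x

/-- **R38-PKG, minimal form**. -/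
def StmtPkgCore : Prop :=
  ∀ (M p : ℕ) [NeZero M] [Fact p.Prime], p ≠ 2 → ¬ p ∣ M →
    ∃ (J : Type) (_ : AddCommGroup J) (_ : Module HeckeAlg J) (_ : DistribMulAction GQ J),
      AtPCore M p J

/-! ### The target -/

/-- the frozen statement S40 -/
def StmtS40 : Prop :=
  ∀ (W : WeierstrassCurve ℤ), W.Δ ≠ 0 → ∀ {p : ℕ}, p.Prime → p ≠ 2 → W.IsGoodPrimeFor p →
    W.ModRepIsIrreducible p → ∀ {M : ℕ}, 0 < M → p ∣ M → ¬ p ^ 2 ∣ M →
    W.IsResiduallyModularOfLevel p M → W.IsResiduallyModularOfLevel p (M / p)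

/-- **R38-GLUE** (Mazur's argument; pure algebra on top of the pieces). -/
def StmtGlue : Prop :=
  StmtLift → StmtRep → StmtEDet → StmtEPeu → StmtPkgCore → StmtS40

/-- the package with `π` gives the minimal one (proved in `R38/Glue.lean`) -/
def StmtCoreOfPkg : Prop := StmtPkg → StmtPkgCore

end Fermat.Agent.R38

end


end ZBES_001_2

/-! ### bundled: `Fermat.Agent.ES.Top` -/
section ZBES_001_3

/-!
# ESpkg: the concrete instance `J = J₀(M)(ℚ̄)` (prelude `ModularCurve.JZero M`)

* Galois action: the prelude instance (action on Laurent coefficients, then on places/divisors).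
* Hecke action: `T_ℓ` = prelude `heckeOperatorBar M ℓ` for the GOOD primes `ℓ ∤ M p`, and `0` for
  the bad primes (`ESDataInf` only constrains the good variables).  The module structure
  `goodHeckeModule M p` is the genuine one as soon as the good operators commute
  (`GoodHeckeCommute M p`), exactly as the prelude does for `heckeModuleBar`.

The statements `StmtXxx M p` are the clauses of `ESDataInf M p (JZero M)`; pieces G1 (finite,
divisible, smul_comm, finite_level, supp) and G2 (frob, unram) prove them in separate files.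
-/

set_option autoImplicit false

noncomputable section

namespace Fermat.Agent.ES

open ModularCurve AlgebraicCurve

variable (M p : ℕ) [NeZero M]

open Classical in
/-- `T_ℓ` on `J₀(M)(ℚ̄)` for a good prime, `0` for a bad prime. -/
def goodHecke (ℓ : Nat.Primes) : Module.End ℤ (JZero M) :=
  if (ℓ : ℕ) ∣ M * p then 0 else heckeOperatorBar M ℓ

theorem goodHecke_of_good {ℓ : Nat.Primes} (h : ¬ (ℓ : ℕ) ∣ M * p) :
    goodHecke M p ℓ = heckeOperatorBar M ℓ := by
  classical
  rw [goodHecke, if_neg h]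

theorem goodHecke_of_bad {ℓ : Nat.Primes} (h : (ℓ : ℕ) ∣ M * p) :
    goodHecke M p ℓ = 0 := by
  classical
  rw [goodHecke, if_pos h]

/-- the good Hecke operators commute -/
def GoodHeckeCommute : Prop :=
  ∀ ℓ ℓ' : Nat.Primes, goodHecke M p ℓ * goodHecke M p ℓ' = goodHecke M p ℓ' * goodHecke M p ℓ

variable {M p}

theorem isMulCommutative_adjoin_goodHecke (h : GoodHeckeCommute M p) :
    IsMulCommutative (Algebra.adjoin ℤ (Set.range (goodHecke M p))) :=
  Algebra.isMulCommutative_adjoin ℤ (by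
    rintro _ ⟨ℓ, rfl⟩ _ ⟨ℓ', rfl⟩
    exact h ℓ ℓ')

open scoped IsMulCommutative in
/-- evaluation of Hecke polynomials at the good operators (into the commutative subalgebra) -/
def goodHeckeEvalAux (h : GoodHeckeCommute M p) :
    HeckeAlg →ₐ[ℤ] (Algebra.adjoin ℤ (Set.range (goodHecke M p)) :
      Subalgebra ℤ (Module.End ℤ (JZero M))) :=
  haveI := isMulCommutative_adjoin_goodHecke h
  MvPolynomial.aeval fun ℓ =>
    (⟨goodHecke M p ℓ, Algebra.subset_adjoin (Set.mem_range_self ℓ)⟩ :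
      Algebra.adjoin ℤ (Set.range (goodHecke M p)))

/-- evaluation of Hecke polynomials at the good operators -/
def goodHeckeEval (h : GoodHeckeCommute M p) : HeckeAlg →+* Module.End ℤ (JZero M) :=
  ((Algebra.adjoin ℤ (Set.range (goodHecke M p))).val.comp (goodHeckeEvalAux h)).toRingHom

open scoped IsMulCommutative in
theorem goodHeckeEval_heckeGen (h : GoodHeckeCommute M p) (ℓ : Nat.Primes) :
    goodHeckeEval h (heckeGen ℓ) = goodHecke M p ℓ := by
  have := isMulCommutative_adjoin_goodHecke h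
  show ((goodHeckeEvalAux h (heckeGen ℓ) : Algebra.adjoin ℤ (Set.range (goodHecke M p))) :
    Module.End ℤ (JZero M)) = _
  have : goodHeckeEvalAux h (heckeGen ℓ) =
      ⟨goodHecke M p ℓ, Algebra.subset_adjoin (Set.mem_range_self ℓ)⟩ :=
    MvPolynomial.aeval_X _ ℓ
  rw [this]

variable (M p)

open Classical in
/-- The Hecke module structure on `J₀(M)(ℚ̄)` used by the ES package (good primes only). -/
@[implicit_reducible]
def goodHeckeModule : Module HeckeAlg (JZero M) :=
  if h : GoodHeckeCommute M p then Module.compHom (JZero M) (goodHeckeEval h)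
  else Module.compHom (JZero M) (MvPolynomial.eval₂Hom (Int.castRingHom ℤ) (0 : Nat.Primes → ℤ))

variable {M p}

theorem goodHeckeModule_smul_def (h : GoodHeckeCommute M p) (t : HeckeAlg) (x : JZero M) :
    (letI := goodHeckeModule M p; t • x) = goodHeckeEval h t x := by
  have e : goodHeckeModule M p = Module.compHom (JZero M) (goodHeckeEval h) := dif_pos h
  rw [e]
  rfl

theorem goodHeckeModule_heckeGen_smul (h : GoodHeckeCommute M p) (ℓ : Nat.Primes)
    (x : JZero M) : (letI := goodHeckeModule M p; heckeGen ℓ • x) = goodHecke M p ℓ x := by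
  rw [goodHeckeModule_smul_def h, goodHeckeEval_heckeGen]

variable (M p)

/-! ## The clauses, as statements about `J₀(M)(ℚ̄)` -/

/-- G1: `J[pⁿ]` is finite. -/
def StmtFinite : Prop := ∀ n : ℕ, {x : JZero M | p ^ n • x = 0}.Finite

/-- G1: the `p`-power torsion is `p`-divisible. -/
def StmtDivisible : Prop :=
  ∀ x : JZero M, IsPPowerTorsion p x → ∃ y : JZero M, IsPPowerTorsion p y ∧ p • y = x

/-- G1: Galois commutes with the good Hecke operators. -/
def StmtGaloisHecke : Prop :=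
  ∀ (σ : GQ) (ℓ : Nat.Primes) (x : JZero M), σ • goodHecke M p ℓ x = goodHecke M p ℓ (σ • x)

/-- G1: every `p`-power torsion class is fixed by an open subgroup. -/
def StmtFiniteLevel : Prop :=
  ∀ x : JZero M, IsPPowerTorsion p x →
    ∃ E : IntermediateField ℚ (AlgebraicClosure ℚ),
      FiniteDimensional ℚ E ∧ ∀ σ : GQ, (∀ a ∈ E, σ a = a) → σ • x = x

/-- G2: Eichler–Shimura relation on `p`-power torsion, in terms of the operator `T_ℓ`. -/
def StmtFrob : Prop :=
  ∀ ℓ : ℕ, (hℓ : ℓ.Prime) → ¬ ℓ ∣ M * p →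
    ∀ A : ValuationSubring (AlgebraicClosure ℚ), A.LiesOverPrime ℓ →
      ∀ τ : GQ, A.IsFrobeniusAt τ ℓ →
        ∀ x : JZero M, IsPPowerTorsion p x →
          τ • τ • x - heckeOperatorBar M ⟨ℓ, hℓ⟩ (τ • x) + ℓ • x = 0

/-- G2: inertia at places over good primes acts trivially on `p`-power torsion. -/
def StmtUnram : Prop :=
  ∀ ℓ : ℕ, ℓ.Prime → ¬ ℓ ∣ M * p →
    ∀ A : ValuationSubring (AlgebraicClosure ℚ), A.LiesOverPrime ℓ →
      ∀ σ ∈ A.inertiaSubgroupIn ℚ, ∀ x : JZero M, IsPPowerTorsion p x → σ • x = x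

/-- G1: every eigensystem mod `𝔪` occurs in `J[p]` (needs the module structure, hence stated
with `goodHeckeModule`). -/
def StmtSupp : Prop :=
  letI := goodHeckeModule M p
  ∀ g : CuspForm (CongruenceSubgroup.Gamma0 M) 2, g.IsNormalizedEigenform →
    ∀ 𝔪 : Ideal Zbar, 𝔪.IsMaximal → (p : Zbar) ∈ 𝔪 →
      ∃ v : JZero M, v ≠ 0 ∧ p • v = 0 ∧ ∀ t ∈ MvPolynomial.supported ℤ (goodPrimes M p),
        (∃ z ∈ 𝔪, (z : ℂ) = heckeValue g t) → t • v = 0


/-! ## Assembly -/

variable {M p}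

/-- an endomorphism commuting with `σ` -/
theorem goodHeckeEval_galois (h : GoodHeckeCommute M p) (hG : StmtGaloisHecke M p)
    (σ : GQ) (t : HeckeAlg) (x : JZero M) :
    σ • goodHeckeEval h t x = goodHeckeEval h t (σ • x) := by
  induction t using MvPolynomial.induction_on generalizing x with
  | C a =>
      have : goodHeckeEval h (MvPolynomial.C a) = (a : Module.End ℤ (JZero M)) := by
        rw [← MvPolynomial.algebraMap_eq, eq_intCast, map_intCast]
      rw [this, Module.End.intCast_apply, Module.End.intCast_apply]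
      exact map_zsmul (DistribSMul.toAddMonoidHom (JZero M) σ) a x
  | add s t hs ht =>
      rw [map_add, LinearMap.add_apply, LinearMap.add_apply, smul_add, hs, ht]
  | mul_X s ℓ hs =>
      rw [map_mul, Module.End.mul_apply, Module.End.mul_apply, hs]
      congr 1
      have := goodHeckeEval_heckeGen h ℓ
      rw [heckeGen] at this
      rw [this]
      exact hG σ ℓ x

/-- The `p`-adic Eichler–Shimura package from the clauses about `J₀(M)(ℚ̄)`. -/
theorem esDataInf_of_stmts (hc : GoodHeckeCommute M p)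
    (hfin : StmtFinite M p) (hdiv : StmtDivisible M p) (hG : StmtGaloisHecke M p)
    (hlev : StmtFiniteLevel M p) (hfrob : StmtFrob M p) (hunr : StmtUnram M p)
    (hsupp : StmtSupp M p) :
    letI := goodHeckeModule M p
    ESDataInf M p (JZero M) := by
  letI := goodHeckeModule M p
  refine
    { finite := hfin
      divisible := hdiv
      smul_comm := ?_
      finite_level := hlev
      frob := ?_
      unram := hunr
      supp := hsupp }
  · intro σ t x
    rw [goodHeckeModule_smul_def hc, goodHeckeModule_smul_def hc]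
    exact goodHeckeEval_galois hc hG σ t x
  · intro ℓ hℓ hgood A hA τ hτ x hx
    have h1 := hfrob ℓ hℓ hgood A hA τ hτ x hx
    rw [goodHeckeModule_heckeGen_smul hc, goodHecke_of_good M p (ℓ := ⟨ℓ, hℓ⟩) hgood]
    exact h1

theorem esPkgInf_of_stmts (hc : GoodHeckeCommute M p)
    (hfin : StmtFinite M p) (hdiv : StmtDivisible M p) (hG : StmtGaloisHecke M p)
    (hlev : StmtFiniteLevel M p) (hfrob : StmtFrob M p) (hunr : StmtUnram M p)
    (hsupp : StmtSupp M p) : ESPkgInf M p :=
  ⟨JZero M, inferInstance, goodHeckeModule M p, inferInstance,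
    esDataInf_of_stmts hc hfin hdiv hG hlev hfrob hunr hsupp⟩

end Fermat.Agent.ES

end
end ZBES_001_3

/-! ### bundled: `Fermat.Agent.ES.G2.Plan` -/
section ZBES_001_4

/-!
# ES / G2 (item 37): the ONE target statement `(INJ)` and the statements of the consumer pieces

`F_N = modularFunctionFieldBar N = ℚ̄(j(q^d) : d ∣ N) ⊂ ℚ̄((q))`, `A` a valuation subring of `ℚ̄`
over the prime `ℓ`.  Integrality / primitivity / congruence of Laurent series are the predicates
`KronInt`, `KronPrim`, `KronCongr` of `Fermat/Agent/ES/Kronecker.lean`.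

* `ReducesToOne A N u` : `u = y₁ / y₂` with `y₁, y₂ ∈ F_N` `A`-integral and primitive and
  `y₁ ≡ y₂` coefficientwise modulo the maximal ideal of `A`  ("`u ≡ 1` in the Gauss valuation").
  The fraction form is forced: an element of `F_N` of Gauss norm `1` need not have an integral
  `q`-expansion (`1 / (π + j⁻¹)`).
* `StmtInj` : THE target of both (INJ) routes (Čech/idempotents in `Fermat/Agent/INJ`,
  `π`-adic approximation in `Fermat/Agent/ES/M`).
* `StmtPrim`, `StmtHeckeNorm` : the two modular inputs of the consumers besides `StmtInj`.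

Consumers (see `NOTES/ESpkg.md`): `Fermat.Agent.ES.StmtUnram`, `Fermat.Agent.ES.StmtFrob`
(`ES/Top.lean`), S18, and `Fermat.Agent.ES.G2.GlueInputsJZero` (S37).
-/

set_option autoImplicit false

noncomputable section

namespace Fermat.Agent.ES.G2

open ModularCurve AlgebraicCurve Fermat.Agent.ES

/-- `ℚ̄` -/
abbrev Qb : Type := AlgebraicClosure ℚ

/-- `u ∈ F_N` is congruent to `1` modulo the maximal ideal of `A` (Gauss valuation of the
`q`-expansion), in fraction form. -/
def ReducesToOne (A : ValuationSubring Qb) (N : ℕ) [NeZero N]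
    (u : modularFunctionFieldBar N) : Prop :=
  ∃ y₁ y₂ : LaurentSeries Qb,
    y₁ ∈ modularFunctionFieldBar N ∧ y₂ ∈ modularFunctionFieldBar N ∧
      KronPrim A y₁ ∧ KronPrim A y₂ ∧ KronCongr A y₁ y₂ ∧ (u : LaurentSeries Qb) * y₂ = y₁

/-- **(INJ)** — the single target statement.  `ℓ ∤ N`, `ℓ ∤ m`, `u ∈ F_N^×` with `u ≡ 1` at `A`
and `m ∣ ord_P u` at every place `P` of `F_N / ℚ̄`; then `u` is an `m`-th power in `F_N`. -/
def StmtInj : Prop :=
  ∀ (N : ℕ) [NeZero N] (ℓ : ℕ), ℓ.Prime → ¬ ℓ ∣ N →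
    ∀ A : ValuationSubring Qb, A.LiesOverPrime ℓ →
      ∀ m : ℕ, ¬ ℓ ∣ m →
        ∀ u : modularFunctionFieldBar N, u ≠ 0 → ReducesToOne A N u →
          (∀ P : Place Qb (modularFunctionFieldBar N), (m : ℤ) ∣ P.ord u) →
            ∃ h : modularFunctionFieldBar N, h ^ m = u

/-- (INJ) for prime exponents only (what the two routes prove first). -/
def StmtInjPrime : Prop :=
  ∀ (N : ℕ) [NeZero N] (ℓ : ℕ), ℓ.Prime → ¬ ℓ ∣ N →
    ∀ A : ValuationSubring Qb, A.LiesOverPrime ℓ →
      ∀ p : ℕ, p.Prime → p ≠ ℓ →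
        ∀ u : modularFunctionFieldBar N, u ≠ 0 → ReducesToOne A N u →
          (∀ P : Place Qb (modularFunctionFieldBar N), (p : ℤ) ∣ P.ord u) →
            ∃ h : modularFunctionFieldBar N, h ^ p = u

/-- piece `PRIM` (Gauss valuation has value group `v(ℚ̄^×)`): every `u ∈ F_N^×` is
`c · y₁ / y₂` with `c ∈ ℚ̄^×` and `y₁, y₂ ∈ F_N` primitive `A`-integral series. -/
def StmtPrim : Prop :=
  ∀ (N : ℕ) [NeZero N] (ℓ : ℕ), ℓ.Prime →
    ∀ A : ValuationSubring Qb, A.LiesOverPrime ℓ →
      ∀ u : modularFunctionFieldBar N, u ≠ 0 →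
        ∃ (c : Qb) (y₁ y₂ : LaurentSeries Qb), c ≠ 0 ∧
          y₁ ∈ modularFunctionFieldBar N ∧ y₂ ∈ modularFunctionFieldBar N ∧
            KronPrim A y₁ ∧ KronPrim A y₂ ∧
              (u : LaurentSeries Qb) * y₂ = HahnSeries.C c * y₁

/-- piece `HN` (Hecke norm in `q`-expansions): for `v ∈ F_N` and a prime `ℓ ∤ N`, the norm of
`β^* v = v(q^ℓ)` from `F_{Nℓ}` down to `F_N` (along `α`, the inclusion) has `q`-expansion
`kronHecke ℓ ζ v = v(q^ℓ) · ∏_{b<ℓ} v(ζ^b q^{1/ℓ})`. -/
def StmtHeckeNorm : Prop :=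
  ∀ (N : ℕ) [NeZero N] (ℓ : ℕ) [NeZero ℓ], ℓ.Prime → ¬ ℓ ∣ N →
    ∀ ζ : Qbˣ, IsPrimitiveRoot ζ ℓ →
      ∀ v : modularFunctionFieldBar N,
        letI := (heckeAlphaBar Qb N ℓ).toRingHom.toAlgebra
        ((Algebra.norm (modularFunctionFieldBar N) (heckeBetaBar Qb N ℓ v) :
            modularFunctionFieldBar N) : LaurentSeries Qb) =
          kronHecke ℓ ζ (v : LaurentSeries Qb)

/-- piece `POW`: prime exponents suffice (induction on `m`; by `PRIM` and Gauss' lemma the root
`h` of `u ≡ 1` is `z₁ / z₂` with `z̄₁ ^ p = z̄₂ ^ p` in `k((q))`, so `h / ζ ≡ 1` for a suitable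
`p`-th root of unity `ζ`). -/
def StmtInjOfPrime : Prop := StmtPrim → StmtInjPrime → StmtInj

/-- piece `UNRAM`: inertia acts trivially on `J₀(M)[p^∞]` (clause `unram` of the ES package). -/
def StmtUnramOfInj : Prop :=
  StmtInj → StmtPrim → ∀ (M p : ℕ) [NeZero M], Fermat.Agent.ES.StmtUnram M p

/-- piece `FROB`: the Eichler–Shimura relation on `J₀(M)[p^∞]` (clause `frob`). -/
def StmtFrobOfInj : Prop :=
  StmtInj → StmtPrim → StmtHeckeNorm → ∀ (M p : ℕ) [NeZero M], Fermat.Agent.ES.StmtFrob M p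

/-- the statement of S18, as a `Prop` -/
def StmtS18 : Prop :=
  ∀ (N : ℕ) [NeZero N] (ℓ : ℕ) [Fact ℓ.Prime], ¬ ℓ ∣ N →
    ∀ A : ValuationSubring Qb, A.LiesOverPrime ℓ →
      ModularCurve.ReductionInputsModL A N →
        ∀ m : ℕ, ¬ ℓ ∣ m → ∀ z : ModularCurve.JZero N, m • z = 0 →
          ModularCurve.reductionModL A N z = 0 → z = 0

/-- piece `S18-glue` -/
def StmtS18OfInj : Prop := StmtInj → StmtS18

/-- piece `S37-in`: the inputs (R1)–(R3) of the S37 glue, for all `N`, `p`. -/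
def StmtS37Inputs : Prop := ∀ (N p : ℕ) [NeZero N], GlueInputsJZero N p

end Fermat.Agent.ES.G2

end
end ZBES_001_4

/-! ### bundled: `Fermat.Agent.ES.G2.Unram` -/
section ZBES_001_5
/-
ES / G2, piece UNRAM (helper40): inertia at a place over a good prime acts trivially on
`J₀(M)[p^∞]`, from (INJ) and (PRIM)  (`stmtUnramOfInj : StmtUnramOfInj`, see `ES/G2/Plan.lean`).

Proof: `x = [D]`, `p^n D = div u`; by (PRIM) `u = c · y₁ / y₂` with `y_i` primitive, and constants
have trivial divisor, so WLOG `u = y₁ / y₂`.  For `σ` in the inertia group,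
`σu / u = (σy₁ · y₂) / (σy₂ · y₁)` reduces to one (K5 + Gauss' lemma), so it is a `p^n`-th power
`h ^ (p^n)` by (INJ), and `σD − D = div h`.
-/

set_option autoImplicit false

noncomputable section

namespace Fermat.Agent.ES.G2

open ModularCurve AlgebraicCurve Fermat.Agent.ES HahnSeries

section Generic

variable {K F : Type*} [Field K] [Field F] [Algebra K F]

/-- nonzero constants have order `0` at every place -/
theorem unram_ord_algebraMap (v : Place K F) {c : K} (hc : c ≠ 0) :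
    v.ord (algebraMap K F c) = 0 := by
  have h1 : algebraMap K F c ∈ v.toValuationSubring := v.algebraMap_mem' c
  have h2 : algebraMap K F c⁻¹ ∈ v.toValuationSubring := v.algebraMap_mem' c⁻¹
  have hmul : (⟨algebraMap K F c, h1⟩ : v.toValuationSubring) * ⟨algebraMap K F c⁻¹, h2⟩ = 1 := by
    apply Subtype.ext
    show algebraMap K F c * algebraMap K F c⁻¹ = 1
    rw [← map_mul, mul_inv_cancel₀ hc, map_one]
  have hmul' : (⟨algebraMap K F c⁻¹, h2⟩ : v.toValuationSubring) * ⟨algebraMap K F c, h1⟩ = 1 := by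
    rw [mul_comm]; exact hmul
  exact v.ord_coe_unit ⟨⟨algebraMap K F c, h1⟩, ⟨algebraMap K F c⁻¹, h2⟩, hmul, hmul'⟩

theorem unram_ord_div (v : Place K F) {f g : F} (hf : f ≠ 0) (hg : g ≠ 0) :
    v.ord (f / g) = v.ord f - v.ord g := by
  rw [div_eq_mul_inv, v.ord_mul hf (inv_ne_zero hg), v.ord_inv]
  ring

theorem unram_ord_pow (v : Place K F) (f : F) (n : ℕ) : v.ord (f ^ n) = n * v.ord f := by
  have := v.ord_zpow f n
  rwa [zpow_natCast] at this

/-- If `m D = div u` and `g u / u = h ^ m`, then `g` fixes the class of `D`. -/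
theorem unram_pic0_smul_eq (g : SemilinearAut K F) (D : Divisor.degZero (K := K) (F := F))
    (m : ℕ) (hm : m ≠ 0) (u : F) (hu : u ≠ 0)
    (hD : ∀ v : Place K F, (m : ℤ) * (D : Divisor K F) v = v.ord u)
    (h : F) (hh : h ^ m = (g • u) / u) : g • Pic0.mk D = Pic0.mk D := by
  have hgu : g • u ≠ 0 := by
    rw [SemilinearAut.smul_def]
    exact (map_ne_zero_iff _ (SemilinearAut.toRingAut g).injective).mpr hu
  have hh0 : h ≠ 0 := by
    intro h0
    rw [h0, zero_pow hm] at hh
    exact (div_ne_zero hgu hu) hh.symm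
  have hm' : (m : ℤ) ≠ 0 := by exact_mod_cast hm
  have key : ∀ v : Place K F, (g • (D : Divisor K F) - (D : Divisor K F)) v = v.ord h := by
    intro v
    have h1 : (m : ℤ) * v.ord h = v.ord ((g • u) / u) := by
      rw [← hh, unram_ord_pow]
    have h2 : v.ord (g • u) = (g⁻¹ • v).ord u := by
      have := SemilinearAut.ord_smul g (g⁻¹ • v) u
      rwa [smul_inv_smul] at this
    rw [unram_ord_div v hgu hu, h2, ← hD, ← hD] at h1
    rw [Finsupp.sub_apply, SemilinearAut.divisor_smul_apply]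
    have h3 : (m : ℤ) * v.ord h = (m : ℤ) * ((D : Divisor K F) (g⁻¹ • v) - (D : Divisor K F) v) := by
      rw [h1]; ring
    exact (mul_left_cancel₀ hm' h3).symm
  rw [SemilinearAut.pic0_smul_mk]
  unfold Pic0.mk
  rw [QuotientAddGroup.eq, AddSubgroup.mem_addSubgroupOf]
  refine ⟨h⁻¹, inv_ne_zero hh0, fun v => ?_⟩
  rw [Place.ord_inv, ← key v]
  simp [Finsupp.sub_apply]
  ring

end Generic

theorem unram_ne_zero_of_kronPrim {L : Type*} [Field L] {A : ValuationSubring L}
    {y : LaurentSeries L} (hy : KronPrim A y) : y ≠ 0 := by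
  rintro rfl
  obtain ⟨n, hn⟩ := hy.2
  apply hn
  rw [HahnSeries.coeff_zero, ValuationSubring.mem_nonunits_iff]
  simp

/-- piece `UNRAM`: inertia acts trivially on `J₀(M)[p^∞]`, from (INJ) and (PRIM). -/
theorem stmtUnramOfInj : StmtUnramOfInj := by
  intro hInj hPrim M p _ ℓ hℓ hgood A hA σ hσ x hx
  obtain ⟨n, hn⟩ := hx
  obtain ⟨D, rfl⟩ := Pic0.mk_surjective x
  have hℓM : ¬ ℓ ∣ M := fun h => hgood (h.mul_right p)
  have hℓp : ¬ ℓ ∣ p := fun h => hgood (h.mul_left M)
  have hp0 : p ≠ 0 := by rintro rfl; exact hℓp (dvd_zero ℓ)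
  have hℓpn : ¬ ℓ ∣ p ^ n := fun h => hℓp (hℓ.dvd_of_dvd_pow h)
  have hpn0 : p ^ n ≠ 0 := pow_ne_zero n hp0
  -- `p^n D` is principal
  have hprin : ((p ^ n • D : Divisor.degZero (K := Qb) (F := modularFunctionFieldBar M)) :
      Divisor Qb (modularFunctionFieldBar M)) ∈ Divisor.principal := by
    have h1 : Pic0.mk (p ^ n • D) = 0 := by
      rw [← hn]; rfl
    unfold Pic0.mk at h1
    rw [QuotientAddGroup.eq_zero_iff, AddSubgroup.mem_addSubgroupOf] at h1
    exact h1
  obtain ⟨u, hu, hDu⟩ := hprin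
  have hDu' : ∀ v : Place Qb (modularFunctionFieldBar M),
      ((p ^ n : ℕ) : ℤ) * (D : Divisor Qb (modularFunctionFieldBar M)) v = v.ord u := by
    intro v
    rw [← hDu v, AddSubgroup.coe_nsmul, Finsupp.smul_apply, nsmul_eq_mul]
  -- PRIM
  obtain ⟨c, y₁, y₂, hc, hy₁, hy₂, hP₁, hP₂, he⟩ := hPrim M ℓ hℓ A hA u hu
  have hy₁0 : y₁ ≠ 0 := unram_ne_zero_of_kronPrim hP₁
  have hy₂0 : y₂ ≠ 0 := unram_ne_zero_of_kronPrim hP₂
  set Y₁ : modularFunctionFieldBar M := ⟨y₁, hy₁⟩ with hY₁
  set Y₂ : modularFunctionFieldBar M := ⟨y₂, hy₂⟩ with hY₂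
  have hY₁0 : Y₁ ≠ 0 := fun h => hy₁0 (congrArg Subtype.val h)
  have hY₂0 : Y₂ ≠ 0 := fun h => hy₂0 (congrArg Subtype.val h)
  have heF : u * Y₂ = algebraMap Qb (modularFunctionFieldBar M) c * Y₁ := by
    apply Subtype.ext
    show (u : LaurentSeries Qb) * y₂ = algebraMap Qb (LaurentSeries Qb) c * y₁
    rw [he, algebraMap_laurentSeries_eq_single]
    rfl
  have hu' : u = algebraMap Qb (modularFunctionFieldBar M) c * (Y₁ / Y₂) := by
    field_simp
    exact heF
  have hdiv0 : Y₁ / Y₂ ≠ 0 := div_ne_zero hY₁0 hY₂0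
  have hc' : algebraMap Qb (modularFunctionFieldBar M) c ≠ 0 := by
    simpa using hc
  have hD' : ∀ v : Place Qb (modularFunctionFieldBar M),
      ((p ^ n : ℕ) : ℤ) * (D : Divisor Qb (modularFunctionFieldBar M)) v = v.ord (Y₁ / Y₂) := by
    intro v
    rw [hDu' v, hu', v.ord_mul hc' hdiv0, unram_ord_algebraMap v hc, zero_add]
  -- the semilinear automorphism
  set g := arithmeticGalois (modularFunctionFieldFull M) σ with hg
  have hσdec : σ ∈ A.decompositionSubgroup ℚ := kron_mem_decomposition_of_mem_inertia hσ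
  have hgY : ∀ Y : modularFunctionFieldBar M,
      ((g • Y : modularFunctionFieldBar M) : LaurentSeries Qb) =
        coeffMap (σ : Qb →+* Qb) (Y : LaurentSeries Qb) := fun Y => rfl
  have hgY₁0 : g • Y₁ ≠ 0 := by
    rw [SemilinearAut.smul_def]
    exact (map_ne_zero_iff _ (SemilinearAut.toRingAut g).injective).mpr hY₁0
  have hgY₂0 : g • Y₂ ≠ 0 := by
    rw [SemilinearAut.smul_def]
    exact (map_ne_zero_iff _ (SemilinearAut.toRingAut g).injective).mpr hY₂0
  have hgdiv : g • (Y₁ / Y₂) = (g • Y₁) / (g • Y₂) := by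
    simp only [SemilinearAut.smul_def, map_div₀]
  -- `w = g u' / u'` reduces to one
  have hw0 : (g • (Y₁ / Y₂)) / (Y₁ / Y₂) ≠ 0 := by
    rw [hgdiv]
    exact div_ne_zero (div_ne_zero hgY₁0 hgY₂0) hdiv0
  have hred : ReducesToOne A M ((g • (Y₁ / Y₂)) / (Y₁ / Y₂)) := by
    refine ⟨coeffMap (σ : Qb →+* Qb) y₁ * y₂, coeffMap (σ : Qb →+* Qb) y₂ * y₁,
      mul_mem (coeffMap_mem_laurentBaseChange σ hy₁) hy₂,
      mul_mem (coeffMap_mem_laurentBaseChange σ hy₂) hy₁,
      (hP₁.coeffMap_of_mem_decomposition σ hσdec).mul hP₂,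
      (hP₂.coeffMap_of_mem_decomposition σ hσdec).mul hP₁, ?_, ?_⟩
    · -- congruence
      have c1 : KronCongr A (coeffMap (σ : Qb →+* Qb) y₁ * y₂) (y₁ * y₂) :=
        KronCongr.mul (hP₁.1.coeffMap_of_mem_decomposition σ hσdec) hP₁.1 hP₂.1 hP₂.1
          (kron_inertia_congr hσ hP₁.1) (KronCongr.refl (A := A) y₂)
      have c2 : KronCongr A (coeffMap (σ : Qb →+* Qb) y₂ * y₁) (y₂ * y₁) :=
        KronCongr.mul (hP₂.1.coeffMap_of_mem_decomposition σ hσdec) hP₂.1 hP₁.1 hP₁.1
          (kron_inertia_congr hσ hP₂.1) (KronCongr.refl (A := A) y₁)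
      rw [mul_comm y₂ y₁] at c2
      exact c1.trans c2.symm
    · -- the fraction
      have e : (g • (Y₁ / Y₂)) / (Y₁ / Y₂) * ((g • Y₂) * Y₁) = (g • Y₁) * Y₂ := by
        rw [hgdiv]
        field_simp
      have := congrArg (Subtype.val) e
      exact this
  have hdvd : ∀ P : Place Qb (modularFunctionFieldBar M),
      ((p ^ n : ℕ) : ℤ) ∣ P.ord ((g • (Y₁ / Y₂)) / (Y₁ / Y₂)) := by
    intro P
    have hgu0 : g • (Y₁ / Y₂) ≠ 0 := by rw [hgdiv]; exact div_ne_zero hgY₁0 hgY₂0
    have h2 : P.ord (g • (Y₁ / Y₂)) = (g⁻¹ • P).ord (Y₁ / Y₂) := by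
      have := SemilinearAut.ord_smul g (g⁻¹ • P) (Y₁ / Y₂)
      rwa [smul_inv_smul] at this
    rw [unram_ord_div P hgu0 hdiv0, h2, ← hD', ← hD', ← mul_sub]
    exact dvd_mul_right _ _
  obtain ⟨h, hh⟩ := hInj M ℓ hℓ hℓM A hA (p ^ n) hℓpn _ hw0 hred hdvd
  exact unram_pic0_smul_eq g D (p ^ n) hpn0 (Y₁ / Y₂) hdiv0 hD' h hh

/-- alias of `unram_pic0_smul_eq` (name announced by helper65) -/
theorem unram_smul_mk_eq_of_pow {K F : Type*} [Field K] [Field F] [Algebra K F]
    (g : SemilinearAut K F) (D : Divisor.degZero (K := K) (F := F)) (m : ℕ) (hm : m ≠ 0)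
    (f : F) (hf : f ≠ 0) (hD : ∀ v : Place K F, (m : ℤ) * (D : Divisor K F) v = v.ord f)
    (h : F) (hh : h ^ m = (g • f) / f) :
    g • Pic0.mk D = Pic0.mk D :=
  unram_pic0_smul_eq g D m hm f hf hD h hh

end Fermat.Agent.ES.G2

end
end ZBES_001_5

/-! ### bundled: `Fermat.Agent.ES.G2.Prim` -/
section ZBES_001_6
/-
ES / G2, piece PRIM (helper32): `stmtPrim : StmtPrim`.

Every `u ∈ F_N^×` is `c · y₁ / y₂` with `c ∈ ℚ̄^×` and `y₁, y₂ ∈ F_N` primitive `A`-integral
Laurent series.  Proof: `u = P(j_d) / Q(j_d)`; the `q`-coefficients of `P(j_d)` lie in the `ℤ`-span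
of the finitely many coefficients of `P` (the `j(q^d)` have integer coefficients), so by
`exists_min_of_mem_span` one coefficient divides all the others in `A`.
-/

set_option autoImplicit false

noncomputable section

namespace Fermat.Agent.ES.G2

open ModularCurve AlgebraicCurve Fermat.Agent.ES

/-- Laurent series over `ℚ̄` with integer coefficients. -/
def primIntSeries : Subring (LaurentSeries Qb) := (coeffMap (Int.castRingHom Qb)).range

theorem prim_jBfam_mem (N : ℕ) [NeZero N] (d : Fermat.Agent.S24.Dv N) :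
    Fermat.Agent.S24.jBfam N d ∈ primIntSeries := by
  obtain ⟨d, hd⟩ := d
  have : NeZero d := ⟨fun h => NeZero.ne N (by subst h; simpa using hd)⟩
  refine ⟨qExpand ℤ d (jqModC ℤ), ?_⟩
  rw [Fermat.Agent.S24.jBfam_eq N d hd, coeffMap_qExpand, coeffMap_jqModC, coeffEmb,
    coeffMap_qExpand, ← jqModC_rat, coeffMap_jqModC]

theorem prim_coeff_mul_mem (c : Qb) {f : LaurentSeries Qb} (hf : f ∈ primIntSeries) (n : ℤ) :
    (algebraMap Qb (LaurentSeries Qb) c * f).coeff n ∈ Submodule.span ℤ ({c} : Set Qb) := by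
  obtain ⟨g, rfl⟩ := hf
  rw [LaurentSeries.algebraMap_apply, HahnSeries.C_mul_eq_smul, HahnSeries.coeff_smul,
    coeffMap_coeff, smul_eq_mul]
  have : c * (Int.castRingHom Qb) (g.coeff n) = (g.coeff n) • c := by
    rw [zsmul_eq_mul, mul_comm]; rfl
  rw [this]
  exact Submodule.smul_mem _ _ (Submodule.subset_span rfl)

/-- the `q`-coefficients of `P(j_d)` lie in the `ℤ`-span of the coefficients of `P` -/
theorem prim_coeff_aeval_mem (N : ℕ) [NeZero N] (P : MvPolynomial (Fermat.Agent.S24.Dv N) Qb)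
    (n : ℤ) :
    (MvPolynomial.aeval (Fermat.Agent.S24.jBfam N) P).coeff n ∈
      Submodule.span ℤ (P.coeffs : Set Qb) := by
  classical
  rw [show MvPolynomial.aeval (Fermat.Agent.S24.jBfam N) P =
      ∑ α ∈ P.support, MvPolynomial.aeval (Fermat.Agent.S24.jBfam N)
        (MvPolynomial.monomial α (MvPolynomial.coeff α P)) by
    conv_lhs => rw [P.as_sum, map_sum]]
  rw [HahnSeries.coeff_sum]
  refine Submodule.sum_mem _ fun α hα => ?_
  rw [MvPolynomial.aeval_monomial]
  have h1 : (α.prod fun i k => Fermat.Agent.S24.jBfam N i ^ k) ∈ primIntSeries :=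
    Subring.prod_mem _ fun i _ => Subring.pow_mem _ (prim_jBfam_mem N i) _
  refine Submodule.span_mono ?_ (prim_coeff_mul_mem _ h1 n)
  rintro x rfl
  exact Finset.mem_coe.2 (MvPolynomial.coeff_mem_coeffs α (MvPolynomial.mem_support_iff.1 hα))

/-- a nonzero element of `ℚ̄[j_d]` is a constant times a primitive integral series -/
theorem prim_exists_primitive (N : ℕ) [NeZero N] (A : ValuationSubring Qb)
    (P : MvPolynomial (Fermat.Agent.S24.Dv N) Qb)
    (hP : MvPolynomial.aeval (Fermat.Agent.S24.jBfam N) P ≠ 0) :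
    ∃ (s : Qb) (y : LaurentSeries Qb), s ≠ 0 ∧ y ∈ modularFunctionFieldBar N ∧ KronPrim A y ∧
      MvPolynomial.aeval (Fermat.Agent.S24.jBfam N) P = HahnSeries.C s * y := by
  set yP := MvPolynomial.aeval (Fermat.Agent.S24.jBfam N) P with hyP
  -- the set of nonzero coefficients
  set S : Set Qb := {x | x ≠ 0 ∧ ∃ n : ℤ, yP.coeff n = x} with hS
  have hne : S.Nonempty := by
    by_contra hcon
    apply hP
    ext n
    by_contra h
    exact hcon ⟨yP.coeff n, h, n, rfl⟩
  obtain ⟨s₀, ⟨hs₀0, n₀, hn₀⟩, hmin⟩ := exists_min_of_mem_span A P.coeffs S hne (fun s hs => hs.1)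
    (by rintro s ⟨-, n, rfl⟩; exact prim_coeff_aeval_mem N P n)
  have hmem : yP ∈ modularFunctionFieldBar N := by
    rw [Fermat.Agent.S24.br_modularFunctionFieldBar_eq_adjoin]
    have : yP ∈ Algebra.adjoin Qb (Set.range (Fermat.Agent.S24.jBfam N)) := by
      rw [Algebra.adjoin_range_eq_range_aeval]; exact ⟨P, rfl⟩
    exact IntermediateField.algebra_adjoin_le_adjoin _ _ this
  refine ⟨s₀, HahnSeries.C s₀⁻¹ * yP, hs₀0, ?_, ⟨?_, n₀, ?_⟩, ?_⟩
  · refine mul_mem ?_ hmem
    rw [← LaurentSeries.algebraMap_apply]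
    exact IntermediateField.algebraMap_mem _ _
  · intro n
    rw [HahnSeries.C_mul_eq_smul, HahnSeries.coeff_smul, smul_eq_mul]
    by_cases h : yP.coeff n = 0
    · rw [h, mul_zero]; exact A.zero_mem
    · have := hmin _ ⟨h, n, rfl⟩
      rwa [div_eq_inv_mul] at this
  · rw [HahnSeries.C_mul_eq_smul, HahnSeries.coeff_smul, smul_eq_mul, hn₀, inv_mul_cancel₀ hs₀0]
    intro h
    rw [ValuationSubring.mem_nonunits_iff, map_one] at h
    exact lt_irrefl _ h
  · rw [← mul_assoc, ← map_mul, mul_inv_cancel₀ hs₀0, map_one, one_mul]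

/-- piece `PRIM` -/
theorem stmtPrim : StmtPrim := by
  intro N _ ℓ _ A _ u hu
  have hu' : (u : LaurentSeries Qb) ∈
      IntermediateField.adjoin Qb (Set.range (Fermat.Agent.S24.jBfam N)) := by
    rw [← Fermat.Agent.S24.br_modularFunctionFieldBar_eq_adjoin]; exact u.2
  obtain ⟨P, Q, hPQ⟩ := (IntermediateField.mem_adjoin_range_iff Qb _ _).1 hu'
  have hu0 : (u : LaurentSeries Qb) ≠ 0 := fun h => hu (Subtype.ext h)
  have hQ0 : MvPolynomial.aeval (Fermat.Agent.S24.jBfam N) Q ≠ 0 := by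
    intro h; rw [h, div_zero] at hPQ; exact hu0 hPQ
  have hP0 : MvPolynomial.aeval (Fermat.Agent.S24.jBfam N) P ≠ 0 := by
    intro h; rw [h, zero_div] at hPQ; exact hu0 hPQ
  obtain ⟨s₁, y₁, hs₁, hy₁m, hy₁, hP⟩ := prim_exists_primitive N A P hP0
  obtain ⟨s₂, y₂, hs₂, hy₂m, hy₂, hQ⟩ := prim_exists_primitive N A Q hQ0
  refine ⟨s₁ * s₂⁻¹, y₁, y₂, mul_ne_zero hs₁ (inv_ne_zero hs₂), hy₁m, hy₂m, hy₁, hy₂, ?_⟩
  have h1 : (u : LaurentSeries Qb) * MvPolynomial.aeval (Fermat.Agent.S24.jBfam N) Q =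
      MvPolynomial.aeval (Fermat.Agent.S24.jBfam N) P := by
    rw [hPQ, div_mul_cancel₀ _ hQ0]
  rw [hP, hQ] at h1
  have hC : (HahnSeries.C s₂ : LaurentSeries Qb) ≠ 0 := by
    intro h
    apply hs₂
    have := congrArg (fun f : LaurentSeries Qb => f.coeff 0) h
    simpa using this
  have h2 : HahnSeries.C s₂ * ((u : LaurentSeries Qb) * y₂) =
      HahnSeries.C s₂ * (HahnSeries.C (s₁ * s₂⁻¹) * y₁) := by
    calc HahnSeries.C s₂ * ((u : LaurentSeries Qb) * y₂)
        = (u : LaurentSeries Qb) * (HahnSeries.C s₂ * y₂) := by ring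
      _ = HahnSeries.C s₁ * y₁ := h1
      _ = HahnSeries.C s₂ * (HahnSeries.C (s₁ * s₂⁻¹) * y₁) := by
        rw [← mul_assoc, ← map_mul]
        congr 2
        field_simp
  exact mul_left_cancel₀ hC h2

end Fermat.Agent.ES.G2

end
end ZBES_001_6

/-! ### bundled: `Fermat.Agent.ES.Words` -/
section ZBES_001_7

/-!
# The Eichler–Shimura package from NON-COMMUTING Hecke operators (word form)

`ESData M p V` asks for a module structure over the commutative polynomial ring
`HeckeAlg = ℤ[T_ℓ]`, so the Hecke operators have to commute on `V`.  This file removes that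
obligation: it is enough to have additive endomorphisms `T ℓ` (`ℓ ∤ M p`) of a finite `p`-torsion
group `V` with Galois action, commuting with Galois, satisfying `frob`/`unram`, and such that the
support clause holds for all WORDS in the `T ℓ` (`FreeAlgebra ℤ (goodPrimes M p)`).

The package is then realised on the largest Hecke-stable subgroup `V₀ ⊆ V` on which the operators
commute; the support vector lies in `V₀` because every commutator word has value `0 ∈ 𝔪`.

* `ESWords M p V T` : the word form of the package.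
* `esPkg_of_esWords : ESWords M p V T → ESPkg M p`.
* `ESTorsWords M p J T` / `esPkg_of_esTorsWords` : the same with all clauses stated on the
  `p`-torsion of a big group `J` (e.g. `J₀(M)(ℚ̄)`), operators `T : Nat.Primes → J →+ J`.
-/

set_option autoImplicit false
set_option linter.style.haveILetI false
set_option linter.unusedSectionVars false

noncomputable section

namespace Fermat.Agent.ES

open ModularCurve

/-- the value of a word in the good Hecke variables on the `q`-coefficients of `g` -/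
def wordValue {M : ℕ} (p : ℕ) (g : CuspForm (CongruenceSubgroup.Gamma0 M) 2) :
    FreeAlgebra ℤ (goodPrimes M p) →ₐ[ℤ] ℂ :=
  FreeAlgebra.lift ℤ (fun ℓ : goodPrimes M p => ModularFormClass.qCoeff g ((ℓ : Nat.Primes) : ℕ))

/-- The Eichler–Shimura data, word form: no commutativity of the Hecke operators is required. -/
structure ESWords (M p : ℕ) (V : Type) [AddCommGroup V] [DistribMulAction GQ V]
    (T : goodPrimes M p → Module.End ℤ V) : Prop where
  /-- `V` is finite -/
  finite : Finite V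
  /-- `V` is killed by `p` -/
  p_torsion : ∀ v : V, p • v = 0
  /-- Galois commutes with the good Hecke operators -/
  galois_comm : ∀ (σ : GQ) (ℓ : goodPrimes M p) (v : V), σ • T ℓ v = T ℓ (σ • v)
  /-- every vector is fixed by an open subgroup -/
  finite_level : ∀ v : V, ∃ E : IntermediateField ℚ (AlgebraicClosure ℚ),
    FiniteDimensional ℚ E ∧ ∀ σ : GQ, (∀ x ∈ E, σ x = x) → σ • v = v
  /-- Eichler–Shimura relation -/
  frob : ∀ ℓ : ℕ, (hℓ : ℓ.Prime) → (hg : ¬ ℓ ∣ M * p) →
    ∀ A : ValuationSubring (AlgebraicClosure ℚ), A.LiesOverPrime ℓ →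
      ∀ τ : GQ, A.IsFrobeniusAt τ ℓ →
        ∀ v : V, τ • τ • v - T ⟨⟨ℓ, hℓ⟩, hg⟩ (τ • v) + ℓ • v = 0
  /-- unramified outside `M p` -/
  unram : ∀ ℓ : ℕ, ℓ.Prime → ¬ ℓ ∣ M * p →
    ∀ A : ValuationSubring (AlgebraicClosure ℚ), A.LiesOverPrime ℓ →
      ∀ σ ∈ A.inertiaSubgroupIn ℚ, ∀ v : V, σ • v = v
  /-- every eigensystem mod `𝔪` occurs in `V`, for all words -/
  supp : ∀ g : CuspForm (CongruenceSubgroup.Gamma0 M) 2, g.IsNormalizedEigenform →
    ∀ 𝔪 : Ideal Zbar, 𝔪.IsMaximal → (p : Zbar) ∈ 𝔪 →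
      ∃ v : V, v ≠ 0 ∧ ∀ w : FreeAlgebra ℤ (goodPrimes M p),
        (∃ z ∈ 𝔪, (z : ℂ) = wordValue p g w) → FreeAlgebra.lift ℤ T w v = 0

/-! ## A module structure from a commuting family -/

section Family

variable {V : Type} [AddCommGroup V] (f : Nat.Primes → Module.End ℤ V)

theorem isMulCommutative_adjoin_family (hf : ∀ ℓ ℓ', f ℓ * f ℓ' = f ℓ' * f ℓ) :
    IsMulCommutative (Algebra.adjoin ℤ (Set.range f)) :=
  Algebra.isMulCommutative_adjoin ℤ (by
    rintro _ ⟨ℓ, rfl⟩ _ ⟨ℓ', rfl⟩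
    exact hf ℓ ℓ')

open scoped IsMulCommutative in
/-- evaluation of Hecke polynomials at a commuting family (into the commutative subalgebra) -/
def familyEvalAux (hf : ∀ ℓ ℓ', f ℓ * f ℓ' = f ℓ' * f ℓ) :
    HeckeAlg →ₐ[ℤ] (Algebra.adjoin ℤ (Set.range f) : Subalgebra ℤ (Module.End ℤ V)) :=
  haveI := isMulCommutative_adjoin_family f hf
  MvPolynomial.aeval fun ℓ =>
    (⟨f ℓ, Algebra.subset_adjoin (Set.mem_range_self ℓ)⟩ : Algebra.adjoin ℤ (Set.range f))

/-- evaluation of Hecke polynomials at a commuting family -/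
def familyEval (hf : ∀ ℓ ℓ', f ℓ * f ℓ' = f ℓ' * f ℓ) : HeckeAlg →ₐ[ℤ] Module.End ℤ V :=
  (Algebra.adjoin ℤ (Set.range f)).val.comp (familyEvalAux f hf)

open scoped IsMulCommutative in
theorem familyEval_X (hf : ∀ ℓ ℓ', f ℓ * f ℓ' = f ℓ' * f ℓ) (ℓ : Nat.Primes) :
    familyEval f hf (MvPolynomial.X ℓ) = f ℓ := by
  have := isMulCommutative_adjoin_family f hf
  show ((familyEvalAux f hf (MvPolynomial.X ℓ) : Algebra.adjoin ℤ (Set.range f)) :
    Module.End ℤ V) = _
  have : familyEvalAux f hf (MvPolynomial.X ℓ) =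
      ⟨f ℓ, Algebra.subset_adjoin (Set.mem_range_self ℓ)⟩ :=
    MvPolynomial.aeval_X _ ℓ
  rw [this]

/-- the module structure over `HeckeAlg` defined by a commuting family -/
@[reducible] def familyModule (hf : ∀ ℓ ℓ', f ℓ * f ℓ' = f ℓ' * f ℓ) : Module HeckeAlg V :=
  Module.compHom V (familyEval f hf).toRingHom

theorem familyModule_smul_def (hf : ∀ ℓ ℓ', f ℓ * f ℓ' = f ℓ' * f ℓ) (t : HeckeAlg) (v : V) :
    (letI := familyModule f hf; t • v) = familyEval f hf t v := rfl

end Family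

/-! ## Words and polynomials -/

section WordsPoly

variable (M p : ℕ)

/-- abelianisation of words in the good variables -/
def wordAb : FreeAlgebra ℤ (goodPrimes M p) →ₐ[ℤ] HeckeAlg :=
  FreeAlgebra.lift ℤ (fun ℓ : goodPrimes M p => (MvPolynomial.X (ℓ : Nat.Primes) : HeckeAlg))

@[simp] theorem wordAb_ι (ℓ : goodPrimes M p) :
    wordAb M p (FreeAlgebra.ι ℤ ℓ) = MvPolynomial.X (ℓ : Nat.Primes) := by
  simp [wordAb]

theorem exists_wordAb_eq {t : HeckeAlg} (ht : t ∈ MvPolynomial.supported ℤ (goodPrimes M p)) :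
    ∃ w : FreeAlgebra ℤ (goodPrimes M p), wordAb M p w = t := by
  rw [MvPolynomial.supported_eq_range_rename] at ht
  obtain ⟨t', rfl⟩ := ht
  induction t' using MvPolynomial.induction_on with
  | C a =>
    refine ⟨algebraMap ℤ _ a, ?_⟩
    rw [AlgHom.commutes]
    simp [MvPolynomial.algebraMap_eq]
  | add s t hs ht =>
    obtain ⟨ws, hws⟩ := hs
    obtain ⟨wt, hwt⟩ := ht
    exact ⟨ws + wt, by rw [map_add, hws, hwt, map_add]⟩
  | mul_X s ℓ hs =>
    obtain ⟨ws, hws⟩ := hs
    refine ⟨ws * FreeAlgebra.ι ℤ ℓ, ?_⟩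
    rw [map_mul, hws, wordAb_ι, map_mul]
    simp

theorem heckeValue_wordAb {M : ℕ} (p : ℕ) (g : CuspForm (CongruenceSubgroup.Gamma0 M) 2)
    (w : FreeAlgebra ℤ (goodPrimes M p)) : heckeValue g (wordAb M p w) = wordValue p g w := by
  have h : ((MvPolynomial.aeval
      (fun ℓ : Nat.Primes => ModularFormClass.qCoeff g ℓ) : HeckeAlg →ₐ[ℤ] ℂ).comp (wordAb M p))
      = wordValue p g := by
    apply FreeAlgebra.hom_ext
    funext ℓ
    simp [wordAb, wordValue]
  exact congrArg (fun F : FreeAlgebra ℤ (goodPrimes M p) →ₐ[ℤ] ℂ => F w) h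

end WordsPoly

/-! ## The commutative part -/

section CommPart

variable {M p : ℕ} {V : Type} [AddCommGroup V] (T : goodPrimes M p → Module.End ℤ V)

/-- the action of words -/
abbrev wordAct : FreeAlgebra ℤ (goodPrimes M p) →ₐ[ℤ] Module.End ℤ V := FreeAlgebra.lift ℤ T

theorem wordAct_ι (ℓ : goodPrimes M p) : wordAct T (FreeAlgebra.ι ℤ ℓ) = T ℓ := by
  simp [wordAct]

/-- the largest Hecke-stable subgroup on which the operators commute -/
def commPart : Submodule ℤ V where
  carrier := {v | ∀ (w : FreeAlgebra ℤ (goodPrimes M p)) (ℓ ℓ' : goodPrimes M p),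
    T ℓ (T ℓ' (wordAct T w v)) = T ℓ' (T ℓ (wordAct T w v))}
  zero_mem' := by
    intro w ℓ ℓ'
    simp
  add_mem' := by
    intro a b ha hb w ℓ ℓ'
    simp only [map_add, ha w ℓ ℓ', hb w ℓ ℓ']
  smul_mem' := by
    intro c v hv w ℓ ℓ'
    simp only [map_smul, hv w ℓ ℓ']

theorem mem_commPart {v : V} : v ∈ commPart T ↔
    ∀ (w : FreeAlgebra ℤ (goodPrimes M p)) (ℓ ℓ' : goodPrimes M p),
      T ℓ (T ℓ' (wordAct T w v)) = T ℓ' (T ℓ (wordAct T w v)) := Iff.rfl

theorem wordAct_mem_commPart {v : V} (hv : v ∈ commPart T)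
    (u : FreeAlgebra ℤ (goodPrimes M p)) : wordAct T u v ∈ commPart T := by
  intro w ℓ ℓ'
  have := hv (w * u) ℓ ℓ'
  rwa [map_mul, Module.End.mul_apply] at this

theorem T_mem_commPart {v : V} (hv : v ∈ commPart T) (ℓ : goodPrimes M p) :
    T ℓ v ∈ commPart T := by
  have := wordAct_mem_commPart T hv (FreeAlgebra.ι ℤ ℓ)
  rwa [wordAct_ι] at this

theorem comm_of_mem_commPart {v : V} (hv : v ∈ commPart T) (ℓ ℓ' : goodPrimes M p) :
    T ℓ (T ℓ' v) = T ℓ' (T ℓ v) := by
  have := hv 1 ℓ ℓ'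
  simpa using this

open Classical in
/-- the operators on the commutative part, indexed by all primes (`0` at the bad primes) -/
def commOp (ℓ : Nat.Primes) : Module.End ℤ (commPart T) :=
  if h : ℓ ∈ goodPrimes M p then
    (T ⟨ℓ, h⟩).restrict (fun _ hv => T_mem_commPart T hv ⟨ℓ, h⟩)
  else 0

theorem commOp_good (ℓ : goodPrimes M p) (v : commPart T) :
    ((commOp T (ℓ : Nat.Primes) v : commPart T) : V) = T ℓ (v : V) := by
  classical
  have h : (ℓ : Nat.Primes) ∈ goodPrimes M p := ℓ.2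
  rw [commOp, dif_pos h]
  rfl

theorem commOp_bad {ℓ : Nat.Primes} (h : ℓ ∉ goodPrimes M p) : commOp T ℓ = 0 := by
  classical
  rw [commOp, dif_neg h]

theorem commOp_comm (ℓ ℓ' : Nat.Primes) : commOp T ℓ * commOp T ℓ' = commOp T ℓ' * commOp T ℓ := by
  classical
  by_cases h : ℓ ∈ goodPrimes M p
  · by_cases h' : ℓ' ∈ goodPrimes M p
    · ext v
      rw [Module.End.mul_apply, Module.End.mul_apply]
      have e1 := commOp_good T ⟨ℓ, h⟩ (commOp T ℓ' v)
      have e2 := commOp_good T ⟨ℓ', h'⟩ v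
      have e3 := commOp_good T ⟨ℓ', h'⟩ (commOp T ℓ v)
      have e4 := commOp_good T ⟨ℓ, h⟩ v
      simp only at e1 e2 e3 e4
      rw [e1, e2, e3, e4]
      exact comm_of_mem_commPart T v.2 ⟨ℓ, h⟩ ⟨ℓ', h'⟩
    · rw [commOp_bad T h', mul_zero, zero_mul]
  · rw [commOp_bad T h, mul_zero, zero_mul]

/-- on the commutative part a word acts through its abelianisation -/
theorem familyEval_wordAb (w : FreeAlgebra ℤ (goodPrimes M p)) (v : commPart T) :
    ((familyEval (commOp T) (commOp_comm T) (wordAb M p w) v : commPart T) : V)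
      = wordAct T w (v : V) := by
  induction w using FreeAlgebra.induction generalizing v with
  | grade0 r =>
    simp only [AlgHom.commutes, Module.algebraMap_end_apply]
    rfl
  | grade1 ℓ =>
    rw [wordAb_ι, familyEval_X, wordAct_ι]
    exact commOp_good T ℓ v
  | mul a b ha hb =>
    rw [map_mul, map_mul, Module.End.mul_apply, ha, hb, map_mul, Module.End.mul_apply]
  | add a b ha hb =>
    rw [map_add, map_add, LinearMap.add_apply, Submodule.coe_add, ha, hb, map_add,
      LinearMap.add_apply]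

end CommPart

/-! ## The theorem -/

section Main

variable {M p : ℕ} {V : Type} [AddCommGroup V] [DistribMulAction GQ V]
  {T : goodPrimes M p → Module.End ℤ V}

theorem ESWords.galois_wordAct (h : ESWords M p V T) (σ : GQ)
    (w : FreeAlgebra ℤ (goodPrimes M p)) (v : V) :
    σ • wordAct T w v = wordAct T w (σ • v) := by
  induction w using FreeAlgebra.induction generalizing v with
  | grade0 r =>
    simp only [AlgHom.commutes, Module.algebraMap_end_apply]
    exact map_zsmul (DistribSMul.toAddMonoidHom V σ) r v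
  | grade1 ℓ =>
    rw [wordAct_ι]
    exact h.galois_comm σ ℓ v
  | mul a b ha hb =>
    rw [map_mul, Module.End.mul_apply, Module.End.mul_apply, ha, hb]
  | add a b ha hb =>
    rw [map_add, LinearMap.add_apply, LinearMap.add_apply, smul_add, ha, hb]

theorem ESWords.galois_mem_commPart (h : ESWords M p V T) (σ : GQ) {v : V}
    (hv : v ∈ commPart T) : σ • v ∈ commPart T := by
  intro w ℓ ℓ'
  rw [← h.galois_wordAct, ← h.galois_comm, ← h.galois_comm, ← h.galois_comm, ← h.galois_comm,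
    hv w ℓ ℓ']

/-- the Galois action on the commutative part -/
@[reducible] def ESWords.commGalois (h : ESWords M p V T) :
    DistribMulAction GQ (commPart T) where
  smul σ x := ⟨σ • (x : V), h.galois_mem_commPart σ x.2⟩
  one_smul x := Subtype.ext (one_smul GQ (x : V))
  mul_smul σ τ x := Subtype.ext (mul_smul σ τ (x : V))
  smul_zero σ := Subtype.ext (smul_zero σ)
  smul_add σ x y := Subtype.ext (smul_add σ (x : V) (y : V))

/-- **The Eichler–Shimura package from its word form** (no commutativity needed). -/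
theorem esPkg_of_esWords (h : ESWords M p V T) : ESPkg M p := by
  classical
  letI instG : DistribMulAction GQ (commPart T) := h.commGalois
  letI instM : Module HeckeAlg (commPart T) := familyModule (commOp T) (commOp_comm T)
  have hcoe : ∀ (σ : GQ) (x : commPart T), ((σ • x : commPart T) : V) = σ • (x : V) :=
    fun _ _ => rfl
  have hsmul : ∀ (t : HeckeAlg) (x : commPart T),
      t • x = familyEval (commOp T) (commOp_comm T) t x := fun _ _ => rfl
  have hgen : ∀ (ℓ : goodPrimes M p) (x : commPart T),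
      (((MvPolynomial.X (ℓ : Nat.Primes) : HeckeAlg) • x : commPart T) : V) = T ℓ (x : V) := by
    intro ℓ x
    rw [hsmul, familyEval_X]
    exact commOp_good T ℓ x
  refine ⟨commPart T, inferInstance, instM, instG, ?_⟩
  refine
    { finite := ?_
      p_torsion := ?_
      smul_comm := ?_
      finite_level := ?_
      frob := ?_
      unram := ?_
      supp := ?_ }
  · haveI := h.finite
    exact Finite.of_injective (fun x : commPart T => (x : V)) Subtype.val_injective
  · intro v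
    exact Subtype.ext (h.p_torsion (v : V))
  · -- Galois commutes with every Hecke polynomial
    intro σ t v
    induction t using MvPolynomial.induction_on generalizing v with
    | C a =>
      have e : ∀ x : commPart T, (MvPolynomial.C a : HeckeAlg) • x = a • x := by
        intro x
        rw [hsmul, ← MvPolynomial.algebraMap_eq, AlgHom.commutes, Module.algebraMap_end_apply]
      rw [e, e]
      exact map_zsmul (DistribSMul.toAddMonoidHom (commPart T) σ) a v
    | add s t hs ht =>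
      rw [add_smul, add_smul, smul_add, hs, ht]
    | mul_X s ℓ hs =>
      rw [mul_smul, mul_smul, hs]
      congr 1
      apply Subtype.ext
      by_cases hℓ : ℓ ∈ goodPrimes M p
      · have e1 := hgen ⟨ℓ, hℓ⟩ v
        have e2 := hgen ⟨ℓ, hℓ⟩ (σ • v)
        simp only at e1 e2
        rw [hcoe, e1, e2, hcoe]
        exact h.galois_comm σ ⟨ℓ, hℓ⟩ (v : V)
      · have e0 : ∀ x : commPart T, (MvPolynomial.X ℓ : HeckeAlg) • x = 0 := by
          intro x
          rw [hsmul, familyEval_X, commOp_bad T hℓ]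
          rfl
        rw [e0, e0, smul_zero]
  · intro v
    obtain ⟨E, hE, hfix⟩ := h.finite_level (v : V)
    exact ⟨E, hE, fun σ hσ => Subtype.ext (hfix σ hσ)⟩
  · intro ℓ hℓ hg A hA τ hτ v
    apply Subtype.ext
    have h1 := h.frob ℓ hℓ hg A hA τ hτ (v : V)
    have h2 := hgen ⟨⟨ℓ, hℓ⟩, hg⟩ (τ • v)
    simp only at h2
    show τ • τ • (v : V) - (((MvPolynomial.X (⟨ℓ, hℓ⟩ : Nat.Primes) : HeckeAlg) • (τ • v) :
      commPart T) : V) + ℓ • (v : V) = 0
    rw [h2, hcoe]
    exact h1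
  · intro ℓ hℓ hg A hA σ hσ v
    exact Subtype.ext (h.unram ℓ hℓ hg A hA σ hσ (v : V))
  · intro g hgf 𝔪 h𝔪 hp
    obtain ⟨v, hv0, hv⟩ := h.supp g hgf 𝔪 h𝔪 hp
    -- the support vector lies in the commutative part
    have hvc : v ∈ commPart T := by
      intro w ℓ ℓ'
      have key : wordAct T ((FreeAlgebra.ι ℤ ℓ * FreeAlgebra.ι ℤ ℓ'
          - FreeAlgebra.ι ℤ ℓ' * FreeAlgebra.ι ℤ ℓ) * w) v = 0 := by
        apply hv
        refine ⟨0, 𝔪.zero_mem, ?_⟩
        rw [map_mul, map_sub, map_mul, map_mul, mul_comm (wordValue p g (FreeAlgebra.ι ℤ ℓ)),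
          sub_self, zero_mul]
        rfl
      rw [map_mul, map_sub, map_mul, map_mul, wordAct_ι, wordAct_ι, Module.End.mul_apply,
        LinearMap.sub_apply, Module.End.mul_apply, Module.End.mul_apply, sub_eq_zero] at key
      exact key
    refine ⟨⟨v, hvc⟩, fun hh => hv0 (congrArg Subtype.val hh), fun t ht hz => ?_⟩
    obtain ⟨w, rfl⟩ := exists_wordAb_eq M p ht
    apply Subtype.ext
    rw [hsmul, familyEval_wordAb]
    obtain ⟨z, hz𝔪, hzv⟩ := hz
    exact hv w ⟨z, hz𝔪, by rw [hzv, heckeValue_wordAb]⟩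

end Main

/-! ## The same, with all clauses stated on the `p`-torsion of a big group -/

section Tors

/-- The word form of the package, all clauses about the `p`-torsion of a group `J` with Galois
action and additive operators `T ℓ` (only the good `ℓ ∤ M p` are used). -/
structure ESTorsWords (M p : ℕ) (J : Type) [AddCommGroup J] [DistribMulAction GQ J]
    (T : Nat.Primes → J →+ J) : Prop where
  /-- `J[p]` is finite -/
  finite : {x : J | p • x = 0}.Finite
  /-- Galois commutes with the good Hecke operators on `J[p]` -/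
  galois_comm : ∀ (σ : GQ) (ℓ : Nat.Primes), ¬ (ℓ : ℕ) ∣ M * p →
    ∀ x : J, p • x = 0 → σ • T ℓ x = T ℓ (σ • x)
  /-- every `p`-torsion element is fixed by an open subgroup -/
  finite_level : ∀ x : J, p • x = 0 → ∃ E : IntermediateField ℚ (AlgebraicClosure ℚ),
    FiniteDimensional ℚ E ∧ ∀ σ : GQ, (∀ a ∈ E, σ a = a) → σ • x = x
  /-- Eichler–Shimura relation on `J[p]` -/
  frob : ∀ ℓ : ℕ, (hℓ : ℓ.Prime) → ¬ ℓ ∣ M * p →
    ∀ A : ValuationSubring (AlgebraicClosure ℚ), A.LiesOverPrime ℓ →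
      ∀ τ : GQ, A.IsFrobeniusAt τ ℓ →
        ∀ x : J, p • x = 0 → τ • τ • x - T ⟨ℓ, hℓ⟩ (τ • x) + ℓ • x = 0
  /-- inertia over good primes acts trivially on `J[p]` -/
  unram : ∀ ℓ : ℕ, ℓ.Prime → ¬ ℓ ∣ M * p →
    ∀ A : ValuationSubring (AlgebraicClosure ℚ), A.LiesOverPrime ℓ →
      ∀ σ ∈ A.inertiaSubgroupIn ℚ, ∀ x : J, p • x = 0 → σ • x = x
  /-- every eigensystem mod `𝔪` occurs in `J[p]`, for all words -/
  supp : ∀ g : CuspForm (CongruenceSubgroup.Gamma0 M) 2, g.IsNormalizedEigenform →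
    ∀ 𝔪 : Ideal Zbar, 𝔪.IsMaximal → (p : Zbar) ∈ 𝔪 →
      ∃ v : J, v ≠ 0 ∧ p • v = 0 ∧ ∀ w : FreeAlgebra ℤ (goodPrimes M p),
        (∃ z ∈ 𝔪, (z : ℂ) = wordValue p g w) →
          FreeAlgebra.lift ℤ (fun ℓ : goodPrimes M p => (T ℓ).toIntLinearMap) w v = 0

variable (M p : ℕ) (J : Type) [AddCommGroup J] [DistribMulAction GQ J]
  (T : Nat.Primes → J →+ J)

/-- the `p`-torsion of `J` -/
def torsPart : Submodule ℤ J where
  carrier := {x | p • x = 0}
  zero_mem' := smul_zero _
  add_mem' := by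
    intro a b ha hb
    show p • (a + b) = 0
    rw [smul_add, ha, hb, add_zero]
  smul_mem' := by
    intro c x hx
    show p • (c • x) = 0
    rw [smul_comm, hx, smul_zero]

variable {p J}

theorem mem_torsPart {x : J} : x ∈ torsPart p J ↔ p • x = 0 := Iff.rfl

theorem galois_mem_torsPart (σ : GQ) {x : J} (hx : x ∈ torsPart p J) : σ • x ∈ torsPart p J := by
  show p • (σ • x) = 0
  have h : σ • (p • x) = p • (σ • x) := map_nsmul (DistribSMul.toAddMonoidHom J σ) p x
  rw [← h, hx, smul_zero]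

theorem op_mem_torsPart (f : J →+ J) {x : J} (hx : x ∈ torsPart p J) : f x ∈ torsPart p J := by
  show p • f x = 0
  rw [← map_nsmul, hx, map_zero]

variable (p J)

/-- the Galois action on `J[p]` -/
@[reducible] def torsGalois : DistribMulAction GQ (torsPart p J) where
  smul σ x := ⟨σ • (x : J), galois_mem_torsPart σ x.2⟩
  one_smul x := Subtype.ext (one_smul GQ (x : J))
  mul_smul σ τ x := Subtype.ext (mul_smul σ τ (x : J))
  smul_zero σ := Subtype.ext (smul_zero σ)
  smul_add σ x y := Subtype.ext (smul_add σ (x : J) (y : J))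

variable {J}

/-- the good operators on `J[p]` -/
def torsOp (ℓ : goodPrimes M p) : Module.End ℤ (torsPart p J) :=
  (T ℓ).toIntLinearMap.restrict (fun _ hx => op_mem_torsPart (T ℓ) hx)

theorem torsOp_apply (ℓ : goodPrimes M p) (x : torsPart p J) :
    ((torsOp M p T ℓ x : torsPart p J) : J) = T ℓ (x : J) := rfl

theorem coe_wordAct_torsOp (w : FreeAlgebra ℤ (goodPrimes M p)) (x : torsPart p J) :
    ((wordAct (torsOp M p T) w x : torsPart p J) : J)
      = FreeAlgebra.lift ℤ (fun ℓ : goodPrimes M p => (T ℓ).toIntLinearMap) w (x : J) := by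
  induction w using FreeAlgebra.induction generalizing x with
  | grade0 r =>
    simp only [AlgHom.commutes, Module.algebraMap_end_apply]
    rfl
  | grade1 ℓ =>
    rw [wordAct_ι, FreeAlgebra.lift_ι_apply]
    rfl
  | mul a b ha hb =>
    rw [map_mul, Module.End.mul_apply, ha, hb, map_mul, Module.End.mul_apply]
  | add a b ha hb =>
    rw [map_add, LinearMap.add_apply, Submodule.coe_add, ha, hb, map_add, LinearMap.add_apply]

variable {M p T}

/-- the torsion form gives the word form on `J[p]` -/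
theorem ESTorsWords.esWords (h : ESTorsWords M p J T) :
    letI := torsGalois p J
    ESWords M p (torsPart p J) (torsOp M p T) := by
  letI := torsGalois p J
  have hcoe : ∀ (σ : GQ) (x : torsPart p J), ((σ • x : torsPart p J) : J) = σ • (x : J) :=
    fun _ _ => rfl
  refine
    { finite := h.finite.to_subtype
      p_torsion := fun v => Subtype.ext v.2
      galois_comm := ?_
      finite_level := ?_
      frob := ?_
      unram := ?_
      supp := ?_ }
  · intro σ ℓ v
    exact Subtype.ext (h.galois_comm σ ℓ ℓ.2 (v : J) v.2)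
  · intro v
    obtain ⟨E, hE, hfix⟩ := h.finite_level (v : J) v.2
    exact ⟨E, hE, fun σ hσ => Subtype.ext (hfix σ hσ)⟩
  · intro ℓ hℓ hg A hA τ hτ v
    exact Subtype.ext (h.frob ℓ hℓ hg A hA τ hτ (v : J) v.2)
  · intro ℓ hℓ hg A hA σ hσ v
    exact Subtype.ext (h.unram ℓ hℓ hg A hA σ hσ (v : J) v.2)
  · intro g hgf 𝔪 h𝔪 hp
    obtain ⟨v, hv0, hpv, hv⟩ := h.supp g hgf 𝔪 h𝔪 hp
    refine ⟨⟨v, hpv⟩, fun hh => hv0 (congrArg Subtype.val hh), fun w hw => ?_⟩
    apply Subtype.ext
    rw [coe_wordAct_torsOp]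
    exact hv w hw

/-- **The Eichler–Shimura package from clauses on the `p`-torsion of `J`, word form.** -/
theorem esPkg_of_esTorsWords (h : ESTorsWords M p J T) : ESPkg M p :=
  letI := torsGalois p J
  esPkg_of_esWords h.esWords

end Tors

end Fermat.Agent.ES

end
end ZBES_001_7

/-! ### bundled: `Fermat.Agent.ES.TopWords` -/
section ZBES_001_8

/-!
# ESpkg, top-level contract (word form): `ESPkg M p` from six clauses about `J₀(M)[p]`

`J = ModularCurve.JZero M` (prelude), `T_ℓ = ModularCurve.heckeOperatorBar M ℓ` (prelude; by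
`Fermat.Agent.ES.H.heckeOperatorAlong_eq_heckePic0Bar` it is the genuine push-pull operator).

NO commutativity of the Hecke operators is needed (see `Fermat/Agent/ES/Words.lean`), and every
clause is about the `p`-torsion only:

* `JFinite M p`       (G1)  `J[p]` is finite;
* `JGaloisHecke M p`  (G1)  Galois commutes with `T_ℓ` on `J[p]`, `ℓ ∤ M p`;
* `JFiniteLevel M p`  (G1)  every `x ∈ J[p]` is fixed by an open subgroup;
* `JSuppWords M p`    (G1)  support clause for all words in the `T_ℓ`, `ℓ ∤ M p`;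
* `JFrob M p`         (G2)  Eichler–Shimura relation on `J[p]`;
* `JUnram M p`        (G2)  inertia over `ℓ ∤ M p` acts trivially on `J[p]`.

`esPkg_of_clauses` assembles them.  The clauses of `Fermat/Agent/ES/Top.lean` (stated for
`p`-power torsion) imply the corresponding clauses here.
-/

set_option autoImplicit false
set_option linter.style.haveILetI false
set_option linter.unusedSectionVars false

noncomputable section

namespace Fermat.Agent.ES

open ModularCurve AlgebraicCurve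

variable (M p : ℕ) [NeZero M]

/-- the prelude Hecke operators on `J₀(M)(ℚ̄)`, as additive maps -/
def jOp (ℓ : Nat.Primes) : JZero M →+ JZero M := (heckeOperatorBar M ℓ).toAddMonoidHom

@[simp] theorem jOp_apply (ℓ : Nat.Primes) (x : JZero M) :
    jOp M ℓ x = heckeOperatorBar M ℓ x := rfl

/-- (G1) `J₀(M)[p]` is finite. -/
def JFinite : Prop := {x : JZero M | p • x = 0}.Finite

/-- (G1) Galois commutes with the good Hecke operators on `J₀(M)[p]`. -/
def JGaloisHecke : Prop :=
  ∀ (σ : GQ) (ℓ : Nat.Primes), ¬ (ℓ : ℕ) ∣ M * p →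
    ∀ x : JZero M, p • x = 0 → σ • heckeOperatorBar M ℓ x = heckeOperatorBar M ℓ (σ • x)

/-- (G1) every element of `J₀(M)[p]` is fixed by an open subgroup. -/
def JFiniteLevel : Prop :=
  ∀ x : JZero M, p • x = 0 → ∃ E : IntermediateField ℚ (AlgebraicClosure ℚ),
    FiniteDimensional ℚ E ∧ ∀ σ : GQ, (∀ a ∈ E, σ a = a) → σ • x = x

/-- (G2) the Eichler–Shimura relation on `J₀(M)[p]`. -/
def JFrob : Prop :=
  ∀ ℓ : ℕ, (hℓ : ℓ.Prime) → ¬ ℓ ∣ M * p →
    ∀ A : ValuationSubring (AlgebraicClosure ℚ), A.LiesOverPrime ℓ →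
      ∀ τ : GQ, A.IsFrobeniusAt τ ℓ →
        ∀ x : JZero M, p • x = 0 →
          τ • τ • x - heckeOperatorBar M ⟨ℓ, hℓ⟩ (τ • x) + ℓ • x = 0

/-- (G2) inertia over good primes acts trivially on `J₀(M)[p]`. -/
def JUnram : Prop :=
  ∀ ℓ : ℕ, ℓ.Prime → ¬ ℓ ∣ M * p →
    ∀ A : ValuationSubring (AlgebraicClosure ℚ), A.LiesOverPrime ℓ →
      ∀ σ ∈ A.inertiaSubgroupIn ℚ, ∀ x : JZero M, p • x = 0 → σ • x = x

/-- the action of words in the good Hecke operators on `J₀(M)(ℚ̄)` -/
def jWordAct : FreeAlgebra ℤ (goodPrimes M p) →ₐ[ℤ] Module.End ℤ (JZero M) :=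
  FreeAlgebra.lift ℤ (fun ℓ : goodPrimes M p => heckeOperatorBar M (ℓ : Nat.Primes))

/-- (G1) every eigensystem mod `𝔪` occurs in `J₀(M)[p]`, word form. -/
def JSuppWords : Prop :=
  ∀ g : CuspForm (CongruenceSubgroup.Gamma0 M) 2, g.IsNormalizedEigenform →
    ∀ 𝔪 : Ideal Zbar, 𝔪.IsMaximal → (p : Zbar) ∈ 𝔪 →
      ∃ v : JZero M, v ≠ 0 ∧ p • v = 0 ∧ ∀ w : FreeAlgebra ℤ (goodPrimes M p),
        (∃ z ∈ 𝔪, (z : ℂ) = wordValue p g w) → jWordAct M p w v = 0

variable {M p}

/-- **Top-level assembly**: the six clauses give the Eichler–Shimura package. -/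
theorem esPkg_of_clauses (hfin : JFinite M p) (hG : JGaloisHecke M p)
    (hlev : JFiniteLevel M p) (hfrob : JFrob M p) (hunr : JUnram M p)
    (hsupp : JSuppWords M p) : ESPkg M p := by
  refine esPkg_of_esTorsWords (J := JZero M) (T := jOp M)
    { finite := hfin
      galois_comm := hG
      finite_level := hlev
      frob := hfrob
      unram := hunr
      supp := ?_ }
  intro g hg 𝔪 h𝔪 hp
  obtain ⟨v, hv0, hpv, hv⟩ := hsupp g hg 𝔪 h𝔪 hp
  exact ⟨v, hv0, hpv, fun w hw => hv w hw⟩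

/-! ## From the clauses of `Top.lean` -/

theorem jFinite_of_stmt (h : StmtFinite M p) : JFinite M p := by
  have := h 1
  simp only [pow_one] at this
  exact this

theorem isPPowerTorsion_of_smul_eq_zero {x : JZero M} (hx : p • x = 0) : IsPPowerTorsion p x :=
  ⟨1, by rw [pow_one]; exact hx⟩

theorem jGaloisHecke_of_stmt (h : StmtGaloisHecke M p) : JGaloisHecke M p := by
  intro σ ℓ hℓ x _
  have := h σ ℓ x
  rwa [goodHecke_of_good M p hℓ] at this

theorem jFiniteLevel_of_stmt (h : StmtFiniteLevel M p) : JFiniteLevel M p :=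
  fun x hx => h x (isPPowerTorsion_of_smul_eq_zero hx)

theorem jFrob_of_stmt (h : StmtFrob M p) : JFrob M p :=
  fun ℓ hℓ hg A hA τ hτ x hx => h ℓ hℓ hg A hA τ hτ x (isPPowerTorsion_of_smul_eq_zero hx)

theorem jUnram_of_stmt (h : StmtUnram M p) : JUnram M p :=
  fun ℓ hℓ hg A hA σ hσ x hx => h ℓ hℓ hg A hA σ hσ x (isPPowerTorsion_of_smul_eq_zero hx)

end Fermat.Agent.ES

end
end ZBES_001_8

/-! ### bundled: `Fermat.Agent.ES.GaloisHecke` -/
section ZBES_001_9

/-!
# ESpkg clause `JGaloisHecke` / `StmtGaloisHecke`: Galois commutes with the Hecke operators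

`σ • T_ℓ x = T_ℓ (σ • x)` for every `σ ∈ G_ℚ`, every prime `ℓ` and every `x ∈ J₀(M)(ℚ̄)`
(prelude objects: `ModularCurve.JZero M`, `ModularCurve.heckeOperatorBar M ℓ`).

Proof: `T_ℓ` is either `0` or the correspondence `α_* β^*` (prelude definition), and the
coefficientwise action of `σ` on `ℚ̄((q))` commutes with `α` (inclusion) and `β` (`q ↦ q^ℓ`);
then `Fermat.Agent.ES.pic0_correspondence_smul`.  No input on the Hecke data is needed.
-/

set_option autoImplicit false
set_option linter.style.haveILetI false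
set_option linter.unusedSectionVars false

noncomputable section

namespace Fermat.Agent.ES

open ModularCurve AlgebraicCurve AlgebraicCurve.SemilinearAut HahnSeries

theorem coeffMap_qExpand_comm {R S : Type*} [CommRing R] [CommRing S] (f : R →+* S) (n : ℕ)
    [NeZero n] (x : LaurentSeries R) : coeffMap f (qExpand R n x) = qExpand S n (coeffMap f x) := by
  ext k
  by_cases hk : (n : ℤ) ∣ k
  · obtain ⟨m, rfl⟩ := hk
    rw [coeffMap_coeff, qExpand_coeff_mul, qExpand_coeff_mul, coeffMap_coeff]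
  · rw [coeffMap_coeff, qExpand_coeff_of_not_dvd n _ hk, qExpand_coeff_of_not_dvd n _ hk,
      map_zero]

section

variable {L : Type*} [Field L] [Algebra ℚ L] (N ℓ : ℕ) [NeZero N] [NeZero ℓ]

theorem intertwines_heckeAlphaBar (σ : L ≃ₐ[ℚ] L) :
    IntertwinesAlong ((heckeAlphaBar L N ℓ : _ →ₐ[L] _) :
        laurentBaseChange L (modularFunctionFieldFull N) →+*
          laurentBaseChange L (modularFunctionFieldFull (N * ℓ)))
      (arithmeticGalois (modularFunctionFieldFull N) σ)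
      (arithmeticGalois (modularFunctionFieldFull (N * ℓ)) σ) := by
  intro x
  apply Subtype.ext
  show coeffMap (σ : L →+* L) ((heckeAlphaBar L N ℓ x : _) : LaurentSeries L)
    = ((heckeAlphaBar L N ℓ (arithmeticGalois (modularFunctionFieldFull N) σ • x) : _) :
        LaurentSeries L)
  rw [coe_heckeAlphaBar, coe_heckeAlphaBar, coe_arithmeticGalois_smul]

theorem intertwines_heckeBetaBar (σ : L ≃ₐ[ℚ] L) :
    IntertwinesAlong ((heckeBetaBar L N ℓ : _ →ₐ[L] _) :
        laurentBaseChange L (modularFunctionFieldFull N) →+*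
          laurentBaseChange L (modularFunctionFieldFull (N * ℓ)))
      (arithmeticGalois (modularFunctionFieldFull N) σ)
      (arithmeticGalois (modularFunctionFieldFull (N * ℓ)) σ) := by
  intro x
  apply Subtype.ext
  show coeffMap (σ : L →+* L) ((heckeBetaBar L N ℓ x : _) : LaurentSeries L)
    = ((heckeBetaBar L N ℓ (arithmeticGalois (modularFunctionFieldFull N) σ • x) : _) :
        LaurentSeries L)
  rw [coe_heckeBetaBar, coe_heckeBetaBar, coe_arithmeticGalois_smul, coeffMap_qExpand_comm]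

/-- Galois commutes with the prelude Hecke operator `heckeOperatorAlong`. -/
theorem galois_heckeOperatorAlong (σ : L ≃ₐ[ℚ] L)
    (x : Pic0 L (laurentBaseChange L (modularFunctionFieldFull N))) :
    heckeOperatorAlong L N ℓ (σ • x) = σ • heckeOperatorAlong L N ℓ x := by
  classical
  by_cases h : HeckeInputsAlong L N ℓ
  · obtain ⟨hα, hβ, hP, hfin, hFI, hN⟩ := h
    haveI := hP
    rw [heckeOperatorAlong_eq hα hβ hFI hfin hN, galois_smul_pic0_def, galois_smul_pic0_def]
    exact pic0_correspondence_smul (heckeBetaBar L N ℓ) (heckeAlphaBar L N ℓ) hβ hα hFI hfin hN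
      (intertwines_heckeBetaBar N ℓ σ) (intertwines_heckeAlphaBar N ℓ σ) x
  · rw [heckeOperatorAlong_of_not h, AddMonoidHom.zero_apply, AddMonoidHom.zero_apply,
      smul_zero]

end

/-- **Galois commutes with the Hecke operators on `J₀(M)(ℚ̄)`.** -/
theorem galois_heckeOperatorBar (M : ℕ) [NeZero M] (σ : GQ) (ℓ : Nat.Primes) (x : JZero M) :
    σ • heckeOperatorBar M ℓ x = heckeOperatorBar M ℓ (σ • x) := by
  haveI : NeZero (ℓ : ℕ) := ⟨ℓ.2.ne_zero⟩
  rw [heckeOperatorBar_apply, heckeOperatorBar_apply]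
  exact (galois_heckeOperatorAlong M (ℓ : ℕ) σ x).symm

/-- the clause `JGaloisHecke` of `ES/TopWords.lean` -/
theorem jGaloisHecke (M p : ℕ) [NeZero M] : JGaloisHecke M p :=
  fun σ ℓ _ x _ => galois_heckeOperatorBar M σ ℓ x

/-- the clause `StmtGaloisHecke` of `ES/Top.lean` -/
theorem stmtGaloisHecke (M p : ℕ) [NeZero M] : StmtGaloisHecke M p := by
  intro σ ℓ x
  by_cases h : (ℓ : ℕ) ∣ M * p
  · rw [goodHecke_of_bad M p h, LinearMap.zero_apply, LinearMap.zero_apply, smul_zero]
  · rw [goodHecke_of_good M p h]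
    exact galois_heckeOperatorBar M σ ℓ x

end Fermat.Agent.ES

end
end ZBES_001_9

/-! ### bundled: `Fermat.Agent.ES.G2.HeckeNormCore` -/
section ZBES_001_10

/-!
# ES / G2, piece HN, core: the Hecke norm from the Atkin–Lehner swap and the degree

If `F' = F_{Nℓ}` has degree `ℓ + 1` over `F = F_N` (along the inclusion `α`) and there is a ring
endomorphism `w` of `F'` with `w ∘ α = β` and `w ∘ β = α` (`β = qExpand ℓ`), then the norm of
`β v = v(q^ℓ)` is `kronHecke ℓ ζ v = v(q^ℓ) · ∏_{b<ℓ} v(ζ^b q^{1/ℓ})`.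

Proof: the `ℓ + 1` maps `qExpand ℓ` and `kronRot (ζ^b) ∘ w` (`b < ℓ`) are pairwise distinct
`F`-embeddings of `F'` into `ℚ̄((t))` (`F ↪ ℚ̄((t))` by `qExpand ℓ`), hence all of them.
-/

set_option autoImplicit false

noncomputable section

namespace Fermat.Agent.ES.G2

open ModularCurve AlgebraicCurve Fermat.Agent.ES

/-- norm = product over a complete list of embeddings -/
theorem hn_norm_eq_prod_of_injective {F F' E : Type*} [Field F] [Field F'] [Field E]
    [Algebra F F'] [Algebra F E] [FiniteDimensional F F'] [Algebra.IsSeparable F F']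
    [IsAlgClosed E] {ι : Type*} [Fintype ι] (e : ι → (F' →ₐ[F] E)) (he : Function.Injective e)
    (hcard : Fintype.card ι = Module.finrank F F') (x : F') :
    algebraMap F E (Algebra.norm F x) = ∏ i, e i x := by
  classical
  have hbij : Function.Bijective e := by
    rw [Fintype.bijective_iff_injective_and_card]
    exact ⟨he, by rw [hcard, AlgHom.card F F' E]⟩
  rw [Algebra.norm_eq_prod_embeddings F E x]
  exact (Function.Bijective.prod_comp hbij (fun σ : F' →ₐ[F] E => σ x)).symm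

section Core

variable (N ℓ : ℕ) [NeZero N] [NeZero ℓ]

/-- the field `ℚ̄((t))` in which the conjugates live -/
abbrev HnOmega : Type := LaurentSeries Qb

/-- an algebraic closure of `ℚ̄((t))` -/
abbrev HnOmegaBar : Type := AlgebraicClosure HnOmega

/-- `F_N → ℚ̄((t))`, `u ↦ u(t^ℓ)` -/
def hnBase : modularFunctionFieldBar N →+* HnOmegaBar :=
  (algebraMap HnOmega HnOmegaBar).comp
    ((qExpand Qb ℓ).comp (algebraMap (modularFunctionFieldBar N) (LaurentSeries Qb)))

omit [NeZero N] in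
theorem hnBase_apply (x : modularFunctionFieldBar N) :
    hnBase N ℓ x = algebraMap HnOmega HnOmegaBar (qExpand Qb ℓ (x : LaurentSeries Qb)) := rfl

/-- the embedding `σ_∞ : F_{Nℓ} → ℚ̄((t))`, `x ↦ x(t^ℓ)` -/
def hnInf : modularFunctionFieldBar (N * ℓ) →+* HnOmegaBar :=
  (algebraMap HnOmega HnOmegaBar).comp
    ((qExpand Qb ℓ).comp (algebraMap (modularFunctionFieldBar (N * ℓ)) (LaurentSeries Qb)))

omit [NeZero N] in
theorem hnInf_apply (x : modularFunctionFieldBar (N * ℓ)) :
    hnInf N ℓ x = algebraMap HnOmega HnOmegaBar (qExpand Qb ℓ (x : LaurentSeries Qb)) := rfl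

/-- the embedding `σ_c : F_{Nℓ} → ℚ̄((t))`, `x ↦ (w x)(c t)` -/
def hnRot (w : modularFunctionFieldBar (N * ℓ) →+* modularFunctionFieldBar (N * ℓ)) (c : Qbˣ) :
    modularFunctionFieldBar (N * ℓ) →+* HnOmegaBar :=
  (algebraMap HnOmega HnOmegaBar).comp
    ((kronRot c).comp
      ((algebraMap (modularFunctionFieldBar (N * ℓ)) (LaurentSeries Qb)).comp w))

omit [NeZero N] [NeZero ℓ] in
theorem hnRot_apply (w : modularFunctionFieldBar (N * ℓ) →+* modularFunctionFieldBar (N * ℓ))
    (c : Qbˣ) (x : modularFunctionFieldBar (N * ℓ)) :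
    hnRot N ℓ w c x = algebraMap HnOmega HnOmegaBar (kronRot c ((w x : LaurentSeries Qb))) := rfl

theorem hnInf_alpha (x : modularFunctionFieldBar N) :
    hnInf N ℓ (heckeAlphaBar Qb N ℓ x) = hnBase N ℓ x := by
  rw [hnInf_apply, hnBase_apply, coe_heckeAlphaBar]

omit [NeZero N] in
theorem hnInf_beta (x : modularFunctionFieldBar N) :
    hnInf N ℓ (heckeBetaBar Qb N ℓ x)
      = algebraMap HnOmega HnOmegaBar (qExpand Qb ℓ (qExpand Qb ℓ (x : LaurentSeries Qb))) := by
  rw [hnInf_apply, coe_heckeBetaBar]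

theorem hnRot_alpha (w : modularFunctionFieldBar (N * ℓ) →+* modularFunctionFieldBar (N * ℓ))
    (hwα : ∀ x, w (heckeAlphaBar Qb N ℓ x) = heckeBetaBar Qb N ℓ x)
    (c : Qbˣ) (hc : c ^ ℓ = 1) (x : modularFunctionFieldBar N) :
    hnRot N ℓ w c (heckeAlphaBar Qb N ℓ x) = hnBase N ℓ x := by
  rw [hnRot_apply, hnBase_apply, hwα, coe_heckeBetaBar, qExpand_kronRot_pow, hc, kronRot_one]

theorem hnRot_beta (w : modularFunctionFieldBar (N * ℓ) →+* modularFunctionFieldBar (N * ℓ))
    (hwβ : ∀ x, w (heckeBetaBar Qb N ℓ x) = heckeAlphaBar Qb N ℓ x)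
    (c : Qbˣ) (x : modularFunctionFieldBar N) :
    hnRot N ℓ w c (heckeBetaBar Qb N ℓ x)
      = algebraMap HnOmega HnOmegaBar (kronRot c (x : LaurentSeries Qb)) := by
  rw [hnRot_apply, hwβ, coe_heckeAlphaBar]

/-- the coefficient of `q⁻¹` in `j` is `1` -/
theorem hn_jBar_coeff : (coeffEmb Qb jq).coeff (-1) = 1 := by
  rw [coeffEmb_coeff, coeff_jq_neg_one, map_one]

/-- `j`, as an element of `F_N` -/
def hnJ : modularFunctionFieldBar N :=
  ⟨coeffEmb Qb jq, by
    have h := coeffEmb_mem_laurentBaseChange Qb (jqd_mem_full N (one_dvd N))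
    rwa [qExpand_one_apply] at h⟩

omit [NeZero N] in
theorem hnJ_coe : ((hnJ N : modularFunctionFieldBar N) : LaurentSeries Qb) = coeffEmb Qb jq := rfl

theorem hn_algebraMap_injective :
    Function.Injective (algebraMap HnOmega HnOmegaBar) :=
  (algebraMap HnOmega HnOmegaBar).injective

/-- the family of `ℓ + 1` ring homomorphisms `F_{Nℓ} → ℚ̄((t))‾` -/
def hnFam (w : modularFunctionFieldBar (N * ℓ) →+* modularFunctionFieldBar (N * ℓ)) (ζ : Qbˣ) :
    Option (Fin ℓ) → (modularFunctionFieldBar (N * ℓ) →+* HnOmegaBar)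
  | none => hnInf N ℓ
  | some b => hnRot N ℓ w (ζ ^ (b : ℕ))

theorem hnFam_alpha (w : modularFunctionFieldBar (N * ℓ) →+* modularFunctionFieldBar (N * ℓ))
    (hwα : ∀ x, w (heckeAlphaBar Qb N ℓ x) = heckeBetaBar Qb N ℓ x)
    (ζ : Qbˣ) (hζ : ζ ^ ℓ = 1) (i : Option (Fin ℓ)) (x : modularFunctionFieldBar N) :
    hnFam N ℓ w ζ i (heckeAlphaBar Qb N ℓ x) = hnBase N ℓ x := by
  cases i with
  | none => exact hnInf_alpha N ℓ x
  | some b =>
      refine hnRot_alpha N ℓ w hwα _ ?_ x
      rw [← pow_mul, mul_comm, pow_mul, hζ, one_pow]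

theorem hnFam_injective (hℓ : ℓ.Prime)
    (w : modularFunctionFieldBar (N * ℓ) →+* modularFunctionFieldBar (N * ℓ))
    (hwβ : ∀ x, w (heckeBetaBar Qb N ℓ x) = heckeAlphaBar Qb N ℓ x)
    (ζ : Qbˣ) (hζ : IsPrimitiveRoot ζ ℓ) : Function.Injective (hnFam N ℓ w ζ) := by
  have hcoef : ∀ b : Fin ℓ, (kronRot (ζ ^ (b : ℕ)) (coeffEmb Qb jq)).coeff (-1)
      = (((ζ ^ (b : ℕ)) ^ (-1 : ℤ) : Qbˣ) : Qb) := by
    intro b
    rw [kronRot_coeff, hn_jBar_coeff, mul_one]
  have hinf : (qExpand Qb ℓ (qExpand Qb ℓ (coeffEmb Qb jq))).coeff (-1) = 0 := by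
    apply qExpand_coeff_of_not_dvd
    intro hdvd
    have h1 : ((ℓ : ℤ)) ∣ 1 := (dvd_neg).1 hdvd
    have h2 : ℓ ∣ 1 := by exact_mod_cast h1
    exact hℓ.one_lt.ne' (Nat.dvd_one.1 h2)
  -- values at `β j`
  have hvalInf : hnFam N ℓ w ζ none (heckeBetaBar Qb N ℓ (hnJ N))
      = algebraMap HnOmega HnOmegaBar (qExpand Qb ℓ (qExpand Qb ℓ (coeffEmb Qb jq))) :=
    hnInf_beta N ℓ (hnJ N)
  have hvalRot : ∀ b : Fin ℓ, hnFam N ℓ w ζ (some b) (heckeBetaBar Qb N ℓ (hnJ N))
      = algebraMap HnOmega HnOmegaBar (kronRot (ζ ^ (b : ℕ)) (coeffEmb Qb jq)) :=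
    fun b => hnRot_beta N ℓ w hwβ _ (hnJ N)
  intro i i' h
  have h' : hnFam N ℓ w ζ i (heckeBetaBar Qb N ℓ (hnJ N))
      = hnFam N ℓ w ζ i' (heckeBetaBar Qb N ℓ (hnJ N)) := by rw [h]
  cases i with
  | none =>
      cases i' with
      | none => rfl
      | some b' =>
          exfalso
          rw [hvalInf, hvalRot] at h'
          have h2 := congrArg (fun g : LaurentSeries Qb => g.coeff (-1))
            (hn_algebraMap_injective h')
          simp only [hinf, hcoef] at h2
          exact Units.ne_zero _ h2.symm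
  | some b =>
      cases i' with
      | none =>
          exfalso
          rw [hvalInf, hvalRot] at h'
          have h2 := congrArg (fun g : LaurentSeries Qb => g.coeff (-1))
            (hn_algebraMap_injective h')
          simp only [hinf, hcoef] at h2
          exact Units.ne_zero _ h2
      | some b' =>
          rw [hvalRot, hvalRot] at h'
          have h2 := congrArg (fun g : LaurentSeries Qb => g.coeff (-1))
            (hn_algebraMap_injective h')
          simp only [hcoef] at h2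
          have h3 : (ζ ^ (b : ℕ)) ^ (-1 : ℤ) = (ζ ^ (b' : ℕ)) ^ (-1 : ℤ) := Units.ext h2
          have h4 : ζ ^ (b : ℕ) = ζ ^ (b' : ℕ) := by
            have := congrArg (fun u : Qbˣ => u⁻¹) h3
            simpa using this
          have h5 : (b : ℕ) = (b' : ℕ) := hζ.pow_inj b.2 b'.2 h4
          exact congrArg some (Fin.ext h5)

/-- **HN, core.**  From the swap `w` and the degree `[F_{Nℓ} : F_N] = ℓ + 1`: the norm of
`v(q^ℓ)` from `F_{Nℓ}` to `F_N` has `q`-expansion `kronHecke ℓ ζ v`. -/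
theorem heckeNorm_of_swap_of_finrank (hℓ : ℓ.Prime)
    (w : modularFunctionFieldBar (N * ℓ) →+* modularFunctionFieldBar (N * ℓ))
    (hwα : ∀ x, w (heckeAlphaBar Qb N ℓ x) = heckeBetaBar Qb N ℓ x)
    (hwβ : ∀ x, w (heckeBetaBar Qb N ℓ x) = heckeAlphaBar Qb N ℓ x)
    (hdeg : letI := (heckeAlphaBar Qb N ℓ).toRingHom.toAlgebra
      Module.finrank (modularFunctionFieldBar N) (modularFunctionFieldBar (N * ℓ)) = ℓ + 1)
    (ζ : Qbˣ) (hζ : IsPrimitiveRoot ζ ℓ) (v : modularFunctionFieldBar N) :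
    letI := (heckeAlphaBar Qb N ℓ).toRingHom.toAlgebra
    ((Algebra.norm (modularFunctionFieldBar N) (heckeBetaBar Qb N ℓ v) :
        modularFunctionFieldBar N) : LaurentSeries Qb) =
      kronHecke ℓ ζ (v : LaurentSeries Qb) := by
  let algF' : Algebra (modularFunctionFieldBar N) (modularFunctionFieldBar (N * ℓ)) :=
    (heckeAlphaBar Qb N ℓ).toRingHom.toAlgebra
  let algE : Algebra (modularFunctionFieldBar N) HnOmegaBar := (hnBase N ℓ).toAlgebra
  have hfin : FiniteDimensional (modularFunctionFieldBar N) (modularFunctionFieldBar (N * ℓ)) :=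
    Module.finite_of_finrank_pos (by rw [hdeg]; omega)
  have : CharZero (modularFunctionFieldBar N) :=
    charZero_of_injective_algebraMap (algebraMap Qb (modularFunctionFieldBar N)).injective
  have hsep : Algebra.IsSeparable (modularFunctionFieldBar N)
      (modularFunctionFieldBar (N * ℓ)) := inferInstance
  let e : Option (Fin ℓ) → (modularFunctionFieldBar (N * ℓ) →ₐ[modularFunctionFieldBar N]
      HnOmegaBar) := fun i =>
    { hnFam N ℓ w ζ i with
      commutes' := fun x => hnFam_alpha N ℓ w hwα ζ hζ.pow_eq_one i x }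
  have he : Function.Injective e := by
    intro i i' h
    apply hnFam_injective N ℓ hℓ w hwβ ζ hζ
    have := congrArg (fun g : modularFunctionFieldBar (N * ℓ) →ₐ[modularFunctionFieldBar N]
      HnOmegaBar => (g : modularFunctionFieldBar (N * ℓ) →+* HnOmegaBar)) h
    exact this
  have hcard : Fintype.card (Option (Fin ℓ))
      = Module.finrank (modularFunctionFieldBar N) (modularFunctionFieldBar (N * ℓ)) := by
    rw [hdeg, Fintype.card_option, Fintype.card_fin]
  have key := hn_norm_eq_prod_of_injective e he hcard (heckeBetaBar Qb N ℓ v)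
  rw [Fintype.prod_option] at key
  have h1 : e none (heckeBetaBar Qb N ℓ v)
      = algebraMap HnOmega HnOmegaBar (qExpand Qb ℓ (qExpand Qb ℓ (v : LaurentSeries Qb))) :=
    hnInf_beta N ℓ v
  have h2 : ∀ b : Fin ℓ, e (some b) (heckeBetaBar Qb N ℓ v)
      = algebraMap HnOmega HnOmegaBar (kronRot (ζ ^ (b : ℕ)) (v : LaurentSeries Qb)) :=
    fun b => hnRot_beta N ℓ w hwβ _ v
  have h3 : algebraMap (modularFunctionFieldBar N) HnOmegaBar
      (Algebra.norm (modularFunctionFieldBar N) (heckeBetaBar Qb N ℓ v))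
      = algebraMap HnOmega HnOmegaBar (qExpand Qb ℓ
          ((Algebra.norm (modularFunctionFieldBar N) (heckeBetaBar Qb N ℓ v) :
            modularFunctionFieldBar N) : LaurentSeries Qb)) := rfl
  rw [h3, h1] at key
  simp only [h2] at key
  rw [← map_prod, ← map_mul,
    Fin.prod_univ_eq_prod_range (fun b => kronRot (ζ ^ b) (v : LaurentSeries Qb)) ℓ,
    ← qExpand_kronNorm_field ζ hζ, ← map_mul] at key
  exact qExpand_injective ℓ (hn_algebraMap_injective key)

end Core

/-- piece `SWAP` (Atkin–Lehner): an endomorphism of `F_{Nℓ}` exchanging `α` and `β`. -/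
def StmtHNSwap : Prop :=
  ∀ (N ℓ : ℕ) [NeZero N] [NeZero ℓ], Nat.Coprime ℓ N →
    ∃ w : modularFunctionFieldBar (N * ℓ) →ₐ[Qb] modularFunctionFieldBar (N * ℓ),
      (∀ v : modularFunctionFieldBar N, w (heckeAlphaBar Qb N ℓ v) = heckeBetaBar Qb N ℓ v) ∧
      (∀ v : modularFunctionFieldBar N, w (heckeBetaBar Qb N ℓ v) = heckeAlphaBar Qb N ℓ v)

/-- piece `DEG`: `[F_{Nℓ} : F_N] = ℓ + 1` along the inclusion `α`, for a prime `ℓ ∤ N`. -/
def StmtHNDeg : Prop :=
  ∀ (N ℓ : ℕ) [NeZero N] [NeZero ℓ], ℓ.Prime → ¬ ℓ ∣ N →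
    letI := (heckeAlphaBar Qb N ℓ).toRingHom.toAlgebra
    Module.finrank (modularFunctionFieldBar N) (modularFunctionFieldBar (N * ℓ)) = ℓ + 1

/-- **HN from SWAP and DEG.** -/
theorem stmtHeckeNorm_of_swap_of_deg (hswap : StmtHNSwap) (hdeg : StmtHNDeg) : StmtHeckeNorm := by
  intro N _ ℓ _ hℓ hℓN ζ hζ v
  obtain ⟨w, hwα, hwβ⟩ := hswap N ℓ ((Nat.Prime.coprime_iff_not_dvd hℓ).2 hℓN)
  exact heckeNorm_of_swap_of_finrank N ℓ hℓ (w : _ →+* _) hwα hwβ (hdeg N ℓ hℓ hℓN) ζ hζ v

end Fermat.Agent.ES.G2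

end
end ZBES_001_10

/-! ### bundled: `Fermat.Agent.ES.G2.HeckeDegStmt` -/
section ZBES_001_11

/-!
# ES / G2, piece HN-DEG as a term of `StmtHNDeg`

`[F_{Nℓ} : F_N] = ℓ + 1` along the inclusion `α`, for a prime `ℓ ∤ N`
(`hdeg_finrank` of `HeckeDeg.lean`), packaged in the form consumed by
`stmtHeckeNorm_of_swap_of_deg`.
-/

set_option autoImplicit false

noncomputable section

namespace Fermat.Agent.ES.G2

open ModularCurve AlgebraicCurve Fermat.Agent.ES

/-- piece `DEG` of HN. -/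
theorem stmtHNDeg : StmtHNDeg := fun N ℓ _ _ hℓ hℓN => hdeg_finrank N ℓ hℓ hℓN

/-- HN reduced to the Atkin–Lehner swap alone. -/
theorem stmtHeckeNorm_of_swap (hswap : StmtHNSwap) : StmtHeckeNorm :=
  stmtHeckeNorm_of_swap_of_deg hswap stmtHNDeg

end Fermat.Agent.ES.G2

end
end ZBES_001_11

/-! ### bundled: `Fermat.Agent.ES.G2.HeckeNorm` -/
section ZBES_001_12

/-!
# ES / G2, piece HN: the Hecke norm in `q`-expansions

`stmtHeckeNorm : StmtHeckeNorm` — for a prime `ℓ ∤ N` and `v ∈ F_N`, the norm of `v(q^ℓ)` from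
`F_{Nℓ}` down to `F_N` has `q`-expansion `kronHecke ℓ ζ v = v(q^ℓ) · ∏_{b<ℓ} v(ζ^b q^{1/ℓ})`.

Assembly of `exists_swap` (Atkin–Lehner swap, `Swap.lean`), `stmtHNDeg` (degree `ℓ + 1`,
`HeckeDeg.lean`) and `stmtHeckeNorm_of_swap_of_deg` (`HeckeNormCore.lean`).
-/

set_option autoImplicit false

namespace Fermat.Agent.ES.G2

/-- piece `SWAP` in the form consumed by `HeckeNormCore.lean` -/
theorem stmtHNSwap : StmtHNSwap := fun N ℓ _ _ h => exists_swap N ℓ h

/-- **Piece HN.** -/
theorem stmtHeckeNorm : StmtHeckeNorm := stmtHeckeNorm_of_swap stmtHNSwap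

end Fermat.Agent.ES.G2


end ZBES_001_12

/-! ### bundled: `Fermat.Agent.ES.FiniteLevel` -/
section ZBES_001_13

/-!
# ESpkg clause `JFiniteLevel` / `StmtFiniteLevel`: torsion classes have finite level

Every `x ∈ J₀(M)(ℚ̄)` killed by some `m ≠ 0` is fixed by `Gal(ℚ̄/E)` for a number field `E`.

Proof: `x = [D]`, `m D = div u`, `u ∈ F_M = ℚ̄(j(q^d) : d ∣ M)`; `u` lies in the subfield generated
by finitely many constants and series with rational coefficients, so it is fixed by the
coefficientwise action of `Gal(ℚ̄/E)`, `E` a number field; then `m (σD − D) = div (σu/u) = 0` and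
the divisor group is torsion free.
-/

set_option autoImplicit false
set_option linter.style.haveILetI false
set_option linter.unusedSectionVars false

noncomputable section

namespace Fermat.Agent.ES

open ModularCurve AlgebraicCurve AlgebraicCurve.SemilinearAut HahnSeries IntermediateField

section Field

variable {L : Type*} [Field L] [Algebra ℚ L] [Algebra.IsAlgebraic ℚ L]
  {F₀ : IntermediateField ℚ (LaurentSeries ℚ)}

/-- every element of `L · F₀` is fixed by the coefficientwise action of an open subgroup -/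
theorem exists_field_fixing {x : LaurentSeries L} (hx : x ∈ laurentBaseChange L F₀) :
    ∃ E : IntermediateField ℚ L, FiniteDimensional ℚ E ∧
      ∀ σ : L ≃ₐ[ℚ] L, (∀ a ∈ E, σ a = a) → coeffMap (σ : L →+* L) x = x := by
  rw [mem_laurentBaseChange_iff] at hx
  induction hx using Subfield.closure_induction with
  | mem y hy =>
      rcases hy with ⟨a, rfl⟩ | ⟨z, hz, rfl⟩
      · refine ⟨ℚ⟮a⟯, IntermediateField.adjoin.finiteDimensional
          (Algebra.IsIntegral.isIntegral a), fun σ hσ => ?_⟩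
        rw [coeffMap_algebraMap]
        congr 1
        exact hσ a (IntermediateField.mem_adjoin_simple_self ℚ a)
      · exact ⟨⊥, inferInstance, fun σ _ => coeffMap_coeffEmb σ z⟩
  | one => exact ⟨⊥, inferInstance, fun σ _ => map_one _⟩
  | add x y _ _ hx hy =>
      obtain ⟨E₁, h₁, hx⟩ := hx
      obtain ⟨E₂, h₂, hy⟩ := hy
      refine ⟨E₁ ⊔ E₂, IntermediateField.finiteDimensional_sup E₁ E₂, fun σ hσ => ?_⟩
      rw [map_add, hx σ fun a ha => hσ a (le_sup_left (a := E₁) ha),
        hy σ fun a ha => hσ a (le_sup_right (b := E₂) ha)]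
  | neg x _ hx =>
      obtain ⟨E₁, h₁, hx⟩ := hx
      exact ⟨E₁, h₁, fun σ hσ => by rw [map_neg, hx σ hσ]⟩
  | inv x _ hx =>
      obtain ⟨E₁, h₁, hx⟩ := hx
      exact ⟨E₁, h₁, fun σ hσ => by rw [map_inv₀, hx σ hσ]⟩
  | mul x y _ _ hx hy =>
      obtain ⟨E₁, h₁, hx⟩ := hx
      obtain ⟨E₂, h₂, hy⟩ := hy
      refine ⟨E₁ ⊔ E₂, IntermediateField.finiteDimensional_sup E₁ E₂, fun σ hσ => ?_⟩
      rw [map_mul, hx σ fun a ha => hσ a (le_sup_left (a := E₁) ha),
        hy σ fun a ha => hσ a (le_sup_right (b := E₂) ha)]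

end Field

section Divisors

variable {K F : Type*} [Field K] [Field F] [Algebra K F]

/-- a semilinear automorphism fixing `u` fixes every divisor `D` with `m D = div u`, `m ≠ 0` -/
theorem divisor_smul_eq_of_fix (g : SemilinearAut K F) {u : F} (hu : g • u = u) {m : ℤ}
    (hm : m ≠ 0) {D : Divisor K F} (hD : ∀ v : Place K F, m * D v = v.ord u) : g • D = D := by
  ext w
  rw [SemilinearAut.divisor_smul_apply]
  have h1 := hD (g⁻¹ • w)
  have h2 := SemilinearAut.ord_smul g (g⁻¹ • w) u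
  rw [smul_inv_smul, hu] at h2
  rw [← h2, ← hD w] at h1
  exact mul_left_cancel₀ hm h1

/-- a semilinear automorphism fixing `u` fixes every class `x = [D]` with `m D = div u` -/
theorem pic0_smul_eq_of_torsion (m : ℕ) (hm : m ≠ 0) (x : Pic0 K F) (hx : m • x = 0) :
    ∃ u : F, ∀ g : SemilinearAut K F, g • u = u → g • x = x := by
  obtain ⟨D, rfl⟩ := Pic0.mk_surjective x
  have h1 : Pic0.mk (m • D) = 0 := by
    rw [← hx]
    exact map_nsmul (QuotientAddGroup.mk' _) m D
  have h2 : (m • D) ∈ (Divisor.principal (K := K) (F := F)).addSubgroupOf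
      (Divisor.degZero (K := K) (F := F)) := (QuotientAddGroup.eq_zero_iff _).mp h1
  rw [AddSubgroup.mem_addSubgroupOf] at h2
  obtain ⟨u, -, hu⟩ := h2
  refine ⟨u, fun g hg => ?_⟩
  rw [SemilinearAut.pic0_smul_mk]
  refine congrArg Pic0.mk (Subtype.ext ?_)
  rw [SemilinearAut.coe_degZeroSMulHom]
  refine divisor_smul_eq_of_fix g hg (m := (m : ℤ)) (Nat.cast_ne_zero.mpr hm) fun v => ?_
  rw [← hu v]
  simp

end Divisors

/-- `ℚ̄ / ℚ` is algebraic (for the instance of `Algebra ℚ ℚ̄` found by unification) -/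
theorem qbar_isAlgebraic : Algebra.IsAlgebraic ℚ (AlgebraicClosure ℚ) := by
  have h1 : @Algebra.IsAlgebraic ℚ (AlgebraicClosure ℚ) _ _ (AlgebraicClosure.instAlgebra ℚ) :=
    inferInstance
  convert h1
  exact Subsingleton.elim _ _

/-- **torsion classes of `J₀(M)(ℚ̄)` have finite level** -/
theorem exists_field_fixing_torsion (M : ℕ) (m : ℕ) (hm : m ≠ 0) (x : JZero M)
    (hx : m • x = 0) :
    ∃ E : IntermediateField ℚ (AlgebraicClosure ℚ), FiniteDimensional ℚ E ∧
      ∀ σ : GQ, (∀ a ∈ E, σ a = a) → σ • x = x := by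
  haveI := qbar_isAlgebraic
  obtain ⟨u, hu⟩ := pic0_smul_eq_of_torsion m hm x hx
  obtain ⟨E, hE, hfix⟩ := exists_field_fixing (L := AlgebraicClosure ℚ)
    (F₀ := modularFunctionFieldFull M) u.2
  refine ⟨E, hE, fun σ hσ => ?_⟩
  rw [galois_smul_pic0_def]
  apply hu
  apply Subtype.ext
  rw [coe_arithmeticGalois_smul]
  exact hfix σ hσ

/-- the clause `JFiniteLevel` of `ES/TopWords.lean` -/
theorem jFiniteLevel (M p : ℕ) [NeZero M] (hp : p ≠ 0) : JFiniteLevel M p :=
  fun x hx => exists_field_fixing_torsion M p hp x hx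

/-- the clause `StmtFiniteLevel` of `ES/Top.lean` -/
theorem stmtFiniteLevel (M p : ℕ) [NeZero M] (hp : p ≠ 0) : StmtFiniteLevel M p := by
  rintro x ⟨n, hx⟩
  exact exists_field_fixing_torsion M (p ^ n) (pow_ne_zero n hp) x hx

end Fermat.Agent.ES

end
end ZBES_001_13

/-! ### bundled: `Fermat.Agent.ES.G2.Pow` -/
section ZBES_001_14
/-
ES / G2, piece POW (helper32): `stmtInjOfPrime : StmtInjOfPrime` (= `StmtPrim → StmtInjPrime → StmtInj`).

Induction on the exponent `m`.  If `h ^ p = u` and `u ≡ 1`, write `h = c z₁ / z₂` (PRIM) and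
`u = y₁ / y₂`; then `(c z₁) ^ p · y₂ = y₁ · z₂ ^ p`, so by Gauss' lemma `c` is a unit of `A`, and in
`k((q))` the quotient `ω = (c z₁)‾ / z̄₂` satisfies `ω ^ p = 1`.  As `X ^ p - 1` splits in `ℚ̄` with
roots in `A`, `ω` is the reduction of a root of unity `ζ`, and `h / ζ ≡ 1`.
-/

set_option autoImplicit false

noncomputable section

namespace Fermat.Agent.ES.G2

open ModularCurve AlgebraicCurve Fermat.Agent.ES Polynomial

/-! ### roots of unity modulo the maximal ideal -/

/-- If `L` is algebraically closed, `A` a valuation subring, `φ : A → R` a ring homomorphism to a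
domain and `ω ^ p = 1` in `R`, then `ω` is the image of a `p`-th root of unity of `A`. -/
theorem pow_exists_root_of_unity {L : Type*} [Field L] [IsAlgClosed L] (A : ValuationSubring L)
    {R : Type*} [CommRing R] [IsDomain R] (φ : A →+* R) {p : ℕ} (hp : 0 < p) {ω : R}
    (hω : ω ^ p = 1) : ∃ ζ : A, ζ ^ p = 1 ∧ φ ζ = ω := by
  classical
  set f : L[X] := X ^ p - 1 with hf
  have hmonic : f.Monic := monic_X_pow_sub_C 1 hp.ne'
  have hf0 : f ≠ 0 := hmonic.ne_zero
  have hsplit : f = (f.roots.map (X - C ·)).prod :=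
    (IsAlgClosed.splits f).eq_prod_roots_of_monic hmonic
  have hroot : ∀ a ∈ f.roots, a ^ p = 1 := by
    intro a ha
    have := (mem_roots hf0).1 ha
    rw [hf, IsRoot.def, eval_sub, eval_pow, eval_X, eval_one, sub_eq_zero] at this
    exact this
  have hrootA : ∀ a ∈ f.roots, a ∈ A := by
    intro a ha
    rw [← ValuationSubring.valuation_le_one_iff]
    have h1 : A.valuation a ^ p = 1 := by rw [← map_pow, hroot a ha, map_one]
    exact ((pow_eq_one_iff.1 h1).resolve_right hp.ne').le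
  set g : {a // a ∈ f.roots} → A := fun a => ⟨a.1, hrootA a.1 a.2⟩ with hg
  set Φ : A[X] := (f.roots.attach.map fun a => X - C (g a)).prod with hΦ
  have hΦmap : Φ.map A.subtype = (X ^ p - 1 : A[X]).map A.subtype := by
    rw [hΦ, Polynomial.map_multiset_prod, Multiset.map_map]
    have h1 : (f.roots.attach.map (Polynomial.map A.subtype ∘ fun a => X - C (g a))) =
        f.roots.attach.map (fun a => (X - C ·) a.1) := by
      refine Multiset.map_congr rfl fun a _ => ?_
      simp [hg]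
    rw [h1, Multiset.attach_map_val' f.roots (X - C ·), ← hsplit, hf]
    simp
  have hΦeq : Φ = X ^ p - 1 := Polynomial.map_injective _ Subtype.val_injective hΦmap
  have heval : (Φ.map φ).eval ω = 0 := by
    rw [hΦeq]
    simp [hω]
  rw [hΦ, Polynomial.map_multiset_prod, Multiset.map_map, eval_multiset_prod, Multiset.map_map,
    Multiset.prod_eq_zero_iff, Multiset.mem_map] at heval
  obtain ⟨a, -, ha⟩ := heval
  refine ⟨g a, ?_, ?_⟩
  · apply Subtype.ext
    push_cast
    exact hroot a.1 a.2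
  · simp only [Function.comp_apply, Polynomial.map_sub, map_X, map_C, eval_sub, eval_X,
      eval_C] at ha
    exact (sub_eq_zero.1 ha).symm

/-! ### units and primitive series -/

variable {L : Type*} [Field L] {A : ValuationSubring L}

theorem pow_coeff_C_mul (c : L) (f : LaurentSeries L) (n : ℤ) :
    (HahnSeries.C c * f).coeff n = c * f.coeff n := by
  rw [HahnSeries.C_mul_eq_smul, HahnSeries.coeff_smul, smul_eq_mul]

theorem pow_kronInt_C_mul {c : L} (hc : c ∈ A) {f : LaurentSeries L} (hf : KronInt A f) :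
    KronInt A (HahnSeries.C c * f) := fun n => by
  rw [pow_coeff_C_mul]; exact A.mul_mem _ _ hc (hf n)

theorem pow_mem_of_valuation_eq_one {c : L} (hc : A.valuation c = 1) : c ∈ A := by
  rw [← ValuationSubring.valuation_le_one_iff, hc]

theorem pow_not_mem_nonunits_iff {a : L} : a ∉ A.nonunits ↔ 1 ≤ A.valuation a := by
  rw [ValuationSubring.mem_nonunits_iff, not_lt]

theorem pow_kronPrim_C_mul {c : L} (hc : A.valuation c = 1) {f : LaurentSeries L}
    (hf : KronPrim A f) : KronPrim A (HahnSeries.C c * f) := by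
  obtain ⟨hint, n, hn⟩ := hf
  refine ⟨pow_kronInt_C_mul (pow_mem_of_valuation_eq_one hc) hint, n, ?_⟩
  rw [pow_coeff_C_mul, pow_not_mem_nonunits_iff, map_mul, hc, one_mul]
  exact pow_not_mem_nonunits_iff.1 hn

/-- Gauss: a constant multiple of a primitive series is primitive only if the constant is a
unit. -/
theorem pow_valuation_eq_one_of_kronPrim {d : L} {W : LaurentSeries L} (hW : KronPrim A W)
    (hdW : KronPrim A (HahnSeries.C d * W)) : A.valuation d = 1 := by
  obtain ⟨hWint, n, hn⟩ := hW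
  obtain ⟨hdint, n', hn'⟩ := hdW
  apply le_antisymm
  · -- `d · (unit) ∈ A`
    have h1 := hdint n
    rw [pow_coeff_C_mul, ← ValuationSubring.valuation_le_one_iff, map_mul] at h1
    have h2 : A.valuation (W.coeff n) = 1 :=
      le_antisymm ((ValuationSubring.valuation_le_one_iff A _).2 (hWint n))
        (pow_not_mem_nonunits_iff.1 hn)
    rwa [h2, mul_one] at h1
  · have h1 := pow_not_mem_nonunits_iff.1 hn'
    rw [pow_coeff_C_mul, map_mul] at h1
    have h2 : A.valuation (W.coeff n') ≤ 1 :=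
      (ValuationSubring.valuation_le_one_iff A _).2 (hWint n')
    calc (1 : A.ValueGroup) ≤ A.valuation d * A.valuation (W.coeff n') := h1
      _ ≤ A.valuation d * 1 := by gcongr
      _ = A.valuation d := mul_one _

theorem pow_kronIncl_C (a : A) :
    kronIncl A (HahnSeries.C a) = HahnSeries.C (a : L) := by
  rw [HahnSeries.C_apply, coeffMap_single, HahnSeries.C_apply]; rfl

theorem pow_kronRed_C (a : A) :
    kronRed A (HahnSeries.C a) = HahnSeries.C (IsLocalRing.residue A a) := by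
  rw [HahnSeries.C_apply, coeffMap_single, HahnSeries.C_apply]

/-! ### adjusting a root by a root of unity -/

theorem pow_adjust (hPrim : StmtPrim) (N : ℕ) [NeZero N] (ℓ : ℕ) (hℓ : ℓ.Prime)
    (A : ValuationSubring Qb) (hA : A.LiesOverPrime ℓ) (p : ℕ) (hp : 0 < p)
    (u h : modularFunctionFieldBar N) (hu : u ≠ 0) (hred : ReducesToOne A N u)
    (hh : h ^ p = u) :
    ∃ ζ : Qb, ζ ^ p = 1 ∧
      ReducesToOne A N (h * algebraMap Qb (modularFunctionFieldBar N) ζ) := by
  have hh0 : h ≠ 0 := by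
    rintro rfl
    rw [zero_pow hp.ne'] at hh
    exact hu hh.symm
  obtain ⟨c, z₁, z₂, hc, hz₁m, hz₂m, hz₁, hz₂, hhz⟩ := hPrim N ℓ hℓ A hA h hh0
  obtain ⟨y₁, y₂, hy₁m, hy₂m, hy₁, hy₂, hcong, huy⟩ := hred
  have hhL : (h : LaurentSeries Qb) ^ p = (u : LaurentSeries Qb) := by
    rw [← hh]; rfl
  -- `(c z₁)^p y₂ = y₁ z₂^p`
  have hstar : (HahnSeries.C c * z₁) ^ p * y₂ = y₁ * z₂ ^ p := by
    rw [← hhz, mul_pow, hhL, ← huy]; ring
  -- `c` is a unit of `A`
  have hvcp : A.valuation (c ^ p) = 1 := by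
    refine pow_valuation_eq_one_of_kronPrim (W := z₁ ^ p * y₂) ((hz₁.pow p).mul hy₂) ?_
    have : HahnSeries.C (c ^ p) * (z₁ ^ p * y₂) = y₁ * z₂ ^ p := by
      rw [← hstar, mul_pow, map_pow]; ring
    rw [this]
    exact hy₁.mul (hz₂.pow p)
  have hvc : A.valuation c = 1 := by
    rw [map_pow] at hvcp
    exact (pow_eq_one_iff.1 hvcp).resolve_right hp.ne'
  have hZ₁ : KronPrim A (HahnSeries.C c * z₁) := pow_kronPrim_C_mul hvc hz₁
  -- pass to `A((q))` and reduce
  obtain ⟨Z₁', hZ₁'⟩ := hZ₁.1.exists_lift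
  obtain ⟨z₂', hz₂'⟩ := hz₂.1.exists_lift
  obtain ⟨y₁', hy₁'⟩ := hy₁.1.exists_lift
  obtain ⟨y₂', hy₂'⟩ := hy₂.1.exists_lift
  have hstarA : Z₁' ^ p * y₂' = y₁' * z₂' ^ p := by
    apply kronIncl_injective (A := A)
    rw [map_mul, map_mul, map_pow, map_pow, hZ₁', hz₂', hy₁', hy₂', hstar]
  have hredeq : kronRed A y₁' = kronRed A y₂' := by
    rw [← kronCongr_kronIncl_iff, hy₁', hy₂']; exact hcong
  have hy₂ne : kronRed A y₂' ≠ 0 := by
    rw [← kronPrim_kronIncl_iff, hy₂']; exact hy₂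
  have hz₂ne : kronRed A z₂' ≠ 0 := by
    rw [← kronPrim_kronIncl_iff, hz₂']; exact hz₂
  have hstark : kronRed A Z₁' ^ p = kronRed A z₂' ^ p := by
    have := congrArg (kronRed A) hstarA
    rw [map_mul, map_mul, map_pow, map_pow, hredeq, mul_comm (kronRed A y₂')] at this
    exact mul_right_cancel₀ hy₂ne this
  have hω : (kronRed A Z₁' / kronRed A z₂') ^ p = 1 := by
    rw [div_pow, hstark, div_self (pow_ne_zero _ hz₂ne)]
  obtain ⟨ζA, hζAp, hζA⟩ := pow_exists_root_of_unity A
    ((HahnSeries.C : _ →+* LaurentSeries (IsLocalRing.ResidueField A)).comp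
      (IsLocalRing.residue A)) hp hω
  have hredZ : kronRed A Z₁' = kronRed A (HahnSeries.C ζA * z₂') := by
    rw [map_mul, pow_kronRed_C]
    rw [RingHom.comp_apply] at hζA
    rw [hζA, div_mul_cancel₀ _ hz₂ne]
  have hcongZ : KronCongr A (HahnSeries.C c * z₁) (HahnSeries.C (ζA : Qb) * z₂) := by
    have := (kronCongr_kronIncl_iff Z₁' (HahnSeries.C ζA * z₂')).2 hredZ
    rwa [hZ₁', map_mul, pow_kronIncl_C, hz₂'] at this
  -- the root of unity
  set ζ : Qb := (ζA : Qb) with hζ
  have hζp : ζ ^ p = 1 := by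
    have := congrArg (fun a : A => (a : Qb)) hζAp
    simpa using this
  have hζ0 : ζ ≠ 0 := by
    intro h0
    rw [h0, zero_pow hp.ne'] at hζp
    exact zero_ne_one hζp
  have hvζ : A.valuation ζ = 1 := by
    have h1 : A.valuation ζ ^ p = 1 := by rw [← map_pow, hζp, map_one]
    exact (pow_eq_one_iff.1 h1).resolve_right hp.ne'
  have hvζi : A.valuation ζ⁻¹ = 1 := by rw [map_inv₀, hvζ, inv_one]
  refine ⟨ζ⁻¹, by rw [inv_pow, hζp, inv_one], HahnSeries.C ζ⁻¹ * (HahnSeries.C c * z₁), z₂, ?_,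
    hz₂m, pow_kronPrim_C_mul hvζi hZ₁, hz₂, ?_, ?_⟩
  · refine mul_mem ?_ (mul_mem ?_ hz₁m)
    · rw [← LaurentSeries.algebraMap_apply]; exact IntermediateField.algebraMap_mem _ _
    · rw [← LaurentSeries.algebraMap_apply]; exact IntermediateField.algebraMap_mem _ _
  · have h1 : KronCongr A (HahnSeries.C ζ⁻¹ * (HahnSeries.C c * z₁))
        (HahnSeries.C ζ⁻¹ * (HahnSeries.C ζ * z₂)) :=
      KronCongr.mul (pow_kronInt_C_mul (pow_mem_of_valuation_eq_one hvζi) KronInt.one |> fun h => by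
          simpa using h)
        (pow_kronInt_C_mul (pow_mem_of_valuation_eq_one hvζi) KronInt.one |> fun h => by
          simpa using h) hZ₁.1
        (pow_kronInt_C_mul (pow_mem_of_valuation_eq_one hvζ) hz₂.1) (KronCongr.refl _) hcongZ
    have h2 : HahnSeries.C ζ⁻¹ * (HahnSeries.C ζ * z₂) = z₂ := by
      rw [← mul_assoc, ← map_mul, inv_mul_cancel₀ hζ0, map_one, one_mul]
    rwa [h2] at h1
  · show (h : LaurentSeries Qb) * algebraMap Qb (LaurentSeries Qb) ζ⁻¹ * z₂ = _
    rw [LaurentSeries.algebraMap_apply, ← hhz]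
    ring

/-! ### the induction -/

theorem pow_place_ord_algebraMap {K F : Type*} [Field K] [Field F] [Algebra K F] (v : Place K F)
    (a : K) : v.ord (algebraMap K F a) = 0 := by
  rcases eq_or_ne a 0 with rfl | ha
  · simp
  · have h1 : algebraMap K F a ∈ v.toValuationSubring := v.algebraMap_mem' a
    have h2 : algebraMap K F a⁻¹ ∈ v.toValuationSubring := v.algebraMap_mem' a⁻¹
    have hu : IsUnit (⟨algebraMap K F a, h1⟩ : v.toValuationSubring) := by
      refine IsUnit.of_mul_eq_one ⟨algebraMap K F a⁻¹, h2⟩ ?_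
      apply Subtype.ext
      show algebraMap K F a * algebraMap K F a⁻¹ = 1
      rw [← map_mul, mul_inv_cancel₀ ha, map_one]
    exact v.ord_coe_unit hu.unit

/-- piece `POW` -/
theorem stmtInjOfPrime : StmtInjOfPrime := by
  intro hPrim hInjP N _ ℓ hℓ hℓN A hA m
  induction m using Nat.strong_induction_on with
  | _ m ih =>
  intro hℓm u hu hred hord
  rcases Nat.lt_or_ge m 2 with hm | hm
  · interval_cases m
    · exact absurd (dvd_zero ℓ) hℓm
    · exact ⟨u, pow_one u⟩
  have hp : (m.minFac).Prime := Nat.minFac_prime (by omega)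
  obtain ⟨m', hm'⟩ := Nat.minFac_dvd m
  set p := m.minFac with hpdef
  have hpℓ : p ≠ ℓ := fun h => hℓm (h ▸ Nat.minFac_dvd m)
  have hm'pos : 0 < m' := by
    rcases Nat.eq_zero_or_pos m' with h | h
    · rw [h, mul_zero] at hm'; omega
    · exact h
  have hm'lt : m' < m := by
    rw [hm']
    calc m' = 1 * m' := (one_mul _).symm
      _ < p * m' := Nat.mul_lt_mul_of_pos_right hp.one_lt hm'pos
  have hℓm' : ¬ ℓ ∣ m' := fun h => hℓm (hm' ▸ Dvd.dvd.mul_left h p)
  obtain ⟨h, hh⟩ := hInjP N ℓ hℓ hℓN A hA p hp hpℓ u hu hred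
    (fun P => (Int.natCast_dvd_natCast.2 ⟨m', hm'⟩).trans (hord P))
  obtain ⟨ζ, hζp, hred'⟩ := pow_adjust hPrim N ℓ hℓ A hA p hp.pos u h hu hred hh
  set h' : modularFunctionFieldBar N := h * algebraMap Qb (modularFunctionFieldBar N) ζ with hh'
  have hh'p : h' ^ p = u := by
    rw [hh', mul_pow, hh, ← map_pow, hζp, map_one, mul_one]
  have hh'0 : h' ≠ 0 := by
    intro h0
    rw [h0, zero_pow hp.ne_zero] at hh'p
    exact hu hh'p.symm
  have hord' : ∀ P : Place Qb (modularFunctionFieldBar N), (m' : ℤ) ∣ P.ord h' := by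
    intro P
    have h1 : P.ord u = (p : ℤ) * P.ord h' := by
      rw [← hh'p, ← zpow_natCast, Place.ord_zpow]
    have h2 := hord P
    rw [h1, hm'] at h2
    push_cast at h2
    exact (mul_dvd_mul_iff_left (by exact_mod_cast hp.ne_zero)).1 h2
  obtain ⟨g, hg⟩ := ih m' hm'lt hℓm' h' hh'0 hred' hord'
  refine ⟨g, ?_⟩
  rw [hm', mul_comm, pow_mul, hg, hh'p]

end Fermat.Agent.ES.G2

end
end ZBES_001_14

/-! ### bundled: `Fermat.Agent.ES.G2.InjBridge` -/
section ZBES_001_15

/-!
# Bridge: the (INJ) campaign target `Fermat.Agent.INJ.StmtINJAll` gives `StmtInjPrime`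

`StmtINJ` is stated with series over `A`, `StmtInjPrime` with the predicates `KronPrim`,
`KronCongr` of `Kronecker.lean` (the form used by the clauses `unram`, `frob`).
-/

set_option autoImplicit false

noncomputable section

namespace Fermat.Agent.ES.G2

open ModularCurve AlgebraicCurve Fermat.Agent.ES

theorem stmtInjPrime_of_stmtINJAll (h : Fermat.Agent.INJ.StmtINJAll) : StmtInjPrime := by
  intro N _ ℓ hℓ hℓN A hA p hp hpℓ u hu hred hord
  obtain ⟨y₁, y₂, hy₁, hy₂, hp₁, hp₂, hc, huy⟩ := hred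
  obtain ⟨Y₁, rfl⟩ := hp₁.1.exists_lift
  obtain ⟨Y₂, rfl⟩ := hp₂.1.exists_lift
  have hne₂ : kronRed A Y₂ ≠ 0 := (kronPrim_kronIncl_iff Y₂).1 hp₂
  have hne₁ : kronRed A Y₁ ≠ 0 := (kronPrim_kronIncl_iff Y₁).1 hp₁
  have heq : kronRed A Y₁ = kronRed A Y₂ := (kronCongr_kronIncl_iff Y₁ Y₂).1 hc
  have hY₂ne : (⟨kronIncl A Y₂, hy₂⟩ : modularFunctionFieldBar N) ≠ 0 := by
    intro h0
    apply hne₂
    have h1 : kronIncl A Y₂ = 0 := congrArg Subtype.val h0
    have h2 : Y₂ = 0 := by
      ext n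
      have := congrArg (fun g : LaurentSeries Qb => g.coeff n) h1
      simpa [kronIncl, coeffMap_coeff] using this
    rw [h2, kronRed, map_zero]
  have hmul : u * (⟨kronIncl A Y₂, hy₂⟩ : modularFunctionFieldBar N) = ⟨kronIncl A Y₁, hy₁⟩ :=
    Subtype.ext huy
  have hY₁ne : (⟨kronIncl A Y₁, hy₁⟩ : modularFunctionFieldBar N) ≠ 0 := by
    rw [← hmul]
    exact mul_ne_zero hu hY₂ne
  have hN : N ≠ 0 := NeZero.ne N
  obtain ⟨w, hw⟩ := h N ℓ p hN hℓ hp hℓN (fun e => hpℓ e.symm) A hA Y₁ Y₂ hy₁ hy₂ heq hne₂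
    (fun P => by
      have h1 := P.ord_mul hu hY₂ne
      rw [hmul] at h1
      have h2 := hord P
      have : P.ord (⟨kronIncl A Y₁, hy₁⟩ : modularFunctionFieldBar N) -
          P.ord (⟨kronIncl A Y₂, hy₂⟩ : modularFunctionFieldBar N) = P.ord u := by
        rw [h1]; ring
      show (p : ℤ) ∣ P.ord (⟨kronIncl A Y₁, hy₁⟩ : modularFunctionFieldBar N) -
          P.ord (⟨kronIncl A Y₂, hy₂⟩ : modularFunctionFieldBar N)
      rw [this]
      exact h2)
  refine ⟨w, ?_⟩
  have h3 : w ^ p * (⟨kronIncl A Y₂, hy₂⟩ : modularFunctionFieldBar N) =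
      u * (⟨kronIncl A Y₂, hy₂⟩ : modularFunctionFieldBar N) := by
    rw [hmul]; exact hw
  exact mul_right_cancel₀ hY₂ne h3

end Fermat.Agent.ES.G2

end
end ZBES_001_15

/-! ### bundled: `Fermat.Agent.ES.M.Plan` -/
section ZBES_001_16

/-!
# ES / M — route 2 (`π`-adic approximation) for (INJ): definitions and the input statements

Plan: `NOTES/ES-plan.md` (§3 and §8).  Target: `Fermat.Agent.ES.G2.StmtInjPrime` (for `ℓ ≥ 5`; the
primes `2, 3` go through an auxiliary level).  Everything here is a definition or a `Prop`; the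
proofs live in the pieces.

Notation: `F = FF N = ℚ̄(j(q^d) : d ∣ N) ⊂ ℚ̄((q))`, `A ⊂ ℚ̄` a valuation ring over `ℓ`,
`k = kA A` its residue field, `F_k = modularFunctionFieldFullC k N ⊂ k((q))`.

* `IsCuspInfty N P` : the place `P` of `F` is the cusp `∞` (its order function is the `q`-order).
* `RegOut N x` : `x` is regular at every place except the cusp `∞`.
* `PolesAtCusps N x` : `x` is regular at every place where `j` is regular.
* `GaussRed N A x w` : `x = Y₁ / Y₂` with `Y₁, Y₂ ∈ A((q))` in `F`, `Ȳ₂ ≠ 0`, and `w = Ȳ₁ / Ȳ₂`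
  (the Gauss valuation and its residue map in FRACTION form; `GaussInt` = "Gauss norm `≤ 1`").
* `redR N A` : the reductions of the functions with `A`-integral `q`-expansion regular outside `∞`.
* `Wn N A n` : the elements of `F_k` integral over `k[redR]` with pole order `≤ n` at `q = 0`.
  (For good reduction this is `L(n·∞̄)` of the reduced curve; no places of `F_k` are used.)

Inputs (each a `Prop` for fixed `N`, `A`):
`StmtRedF` (S28), `StmtLRa` (Lemma R, bounded denominators), `StmtQ2` (orthonormal bases),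
`StmtFricke` (the involution `w_N`), `StmtR` (Riemann's inequality with `g = dim S₂(Γ₀(N))`),
`StmtI2` (`dim W_n ≤ n + 1 - g`: this is "good reduction").
Output: `StmtInjAt N A ℓ`; the glue is `StmtGlue`.
-/

set_option autoImplicit false

noncomputable section

namespace Fermat.Agent.ES.M

open ModularCurve AlgebraicCurve HahnSeries Fermat.Agent.ES Fermat.Agent.S24

variable (N : ℕ) [NeZero N] (A : ValuationSubring Kb)

/-- the residue field of `A` -/
abbrev kA : Type := IsLocalRing.ResidueField A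

/-- `g = dim S₂(Γ₀(N))` -/
def gN : ℕ := Module.finrank ℂ (CuspForm (CongruenceSubgroup.Gamma0 N) 2)

/-! ## Places and regularity (characteristic `0`) -/

/-- `P` is the cusp `∞` of `F_N`: its order function is the `q`-order. -/
def IsCuspInfty (P : Place Kb (FF N)) : Prop :=
  ∀ f : FF N, f ≠ 0 → P.ord f = (f : LaurentSeries Kb).order

/-- `x` is regular at every place of `F_N` except the cusp `∞`. -/
def RegOut (x : FF N) : Prop :=
  ∀ P : Place Kb (FF N), ¬ IsCuspInfty N P → 0 ≤ P.ord x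

/-- `x` has poles only at cusps: it is regular wherever `j` is. -/
def PolesAtCusps (x : FF N) : Prop :=
  ∀ P : Place Kb (FF N), 0 ≤ P.ord (jF N) → 0 ≤ P.ord x

/-! ## Gauss valuation and reduction, fraction form -/

/-- `x = Y₁ / Y₂` with integral `Y₁, Y₂ ∈ F`, `Ȳ₂ ≠ 0`, and `w = Ȳ₁ / Ȳ₂`. -/
def GaussRed (x : FF N) (w : LaurentSeries (kA A)) : Prop :=
  ∃ Y₁ Y₂ : LaurentSeries A,
    kronIncl A Y₁ ∈ modularFunctionFieldBar N ∧ kronIncl A Y₂ ∈ modularFunctionFieldBar N ∧
      kronRed A Y₂ ≠ 0 ∧ (x : LaurentSeries Kb) * kronIncl A Y₂ = kronIncl A Y₁ ∧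
        w * kronRed A Y₂ = kronRed A Y₁

/-- Gauss norm `≤ 1` -/
def GaussInt (x : FF N) : Prop := ∃ w : LaurentSeries (kA A), GaussRed N A x w

/-! ## The spaces `W_n` (characteristic `ℓ`) -/

theorem algebraMap_eq_hahnC {k : Type*} [Field k] (c : k) :
    algebraMap k (LaurentSeries k) c = HahnSeries.C c := by
  rw [← LaurentSeries.algebraMap_apply]

theorem hahnC_mem_intermediateField {k : Type*} [Field k] (c : k)
    (E : IntermediateField k (LaurentSeries k)) : (HahnSeries.C c : LaurentSeries k) ∈ E := by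
  have := E.algebraMap_mem c
  rwa [algebraMap_eq_hahnC] at this

/-- reductions of the functions with `A`-integral `q`-expansion that are regular outside `∞` -/
def redR : Set (LaurentSeries (kA A)) :=
  {w | ∃ (Y : LaurentSeries A) (hY : kronIncl A Y ∈ modularFunctionFieldBar N),
    RegOut N ⟨kronIncl A Y, hY⟩ ∧ kronRed A Y = w}

/-- `w ∈ W`: an element of `F_k` integral over the `k`-algebra generated by `redR`. -/
def InW (w : LaurentSeries (kA A)) : Prop :=
  w ∈ modularFunctionFieldFullC (kA A) N ∧ IsIntegral (Algebra.adjoin (kA A) (redR N A)) w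

/-- `W_n`: the elements of `W` with pole order `≤ n` at `q = 0`. -/
def Wn (n : ℕ) : Submodule (kA A) (LaurentSeries (kA A)) where
  carrier := {w | InW N A w ∧ ∀ m : ℤ, m < -(n : ℤ) → w.coeff m = 0}
  zero_mem' := ⟨⟨zero_mem _, isIntegral_zero⟩, fun _ _ => rfl⟩
  add_mem' := by
    rintro a b ⟨⟨ha1, ha2⟩, ha3⟩ ⟨⟨hb1, hb2⟩, hb3⟩
    refine ⟨⟨add_mem ha1 hb1, ha2.add hb2⟩, fun m hm => ?_⟩
    rw [HahnSeries.coeff_add, ha3 m hm, hb3 m hm, add_zero]
  smul_mem' := by
    rintro c a ⟨⟨ha1, ha2⟩, ha3⟩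
    refine ⟨⟨?_, ?_⟩, fun m hm => ?_⟩
    · rw [← HahnSeries.C_mul_eq_smul]
      exact mul_mem (hahnC_mem_intermediateField c _) ha1
    · rw [← HahnSeries.C_mul_eq_smul]
      refine IsIntegral.mul ?_ ha2
      have hc : (HahnSeries.C c : LaurentSeries (kA A)) ∈ Algebra.adjoin (kA A) (redR N A) := by
        have := (Algebra.adjoin (kA A) (redR N A)).algebraMap_mem c
        rwa [algebraMap_eq_hahnC] at this
      exact isIntegral_algebraMap (R := Algebra.adjoin (kA A) (redR N A))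
        (x := ⟨HahnSeries.C c, hc⟩)
    · rw [HahnSeries.coeff_smul, ha3 m hm, smul_zero]

omit [NeZero N] in
theorem mem_Wn {n : ℕ} {w : LaurentSeries (kA A)} :
    w ∈ Wn N A n ↔ InW N A w ∧ ∀ m : ℤ, m < -(n : ℤ) → w.coeff m = 0 := Iff.rfl

/-! ## The inputs -/

/-- **(RedF)** (S28): the reduction of an `A`-integral element of `F` lies in `F_k`. -/
def StmtRedF : Prop :=
  ∀ Y : LaurentSeries A, kronIncl A Y ∈ modularFunctionFieldBar N →
    kronRed A Y ∈ modularFunctionFieldFullC (kA A) N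

/-- **(LR-a)** Lemma R: a function with poles only at cusps and Gauss norm `≤ 1` has an
`A`-integral `q`-expansion (bounded denominators of modular forms, `Θ = Δ(z)^N / Δ(Nz)`). -/
def StmtLRa : Prop :=
  ∀ x : FF N, PolesAtCusps N x → GaussInt N A x → KronInt A (x : LaurentSeries Kb)

/-- **(Q2)** orthonormal bases: a finite-dimensional `ℚ̄`-subspace of `F` has a basis whose
reductions (fraction form) are `k`-linearly independent. -/
def StmtQ2 : Prop :=
  ∀ (r : ℕ) (a : Fin r → FF N), LinearIndependent Kb a →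
    ∃ (b : Fin r → FF N) (w : Fin r → LaurentSeries (kA A)),
      (∀ i, b i ∈ Submodule.span Kb (Set.range a)) ∧ (∀ i, GaussRed N A (b i) (w i)) ∧
        LinearIndependent (kA A) w

/-- **(Fricke)** an involution of `F` preserving `≡ 1`, preserving "poles only at cusps", and
moving the cusp `∞` away (so a function regular outside `∞` becomes regular at `∞`). `N ≥ 2`. -/
def StmtFricke : Prop :=
  ∃ w : FF N ≃ₐ[Kb] FF N,
    (∀ x, w (w x) = x) ∧
    (∀ x, G2.ReducesToOne A N x → G2.ReducesToOne A N (w x)) ∧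
    (∀ x, PolesAtCusps N x → PolesAtCusps N (w x)) ∧
    (∀ x, RegOut N x → ∀ n : ℤ, n < 0 → ((w x : FF N) : LaurentSeries Kb).coeff n = 0)

/-- **(R)** Riemann's inequality for `F_N / ℚ̄` with `g = dim S₂(Γ₀(N))`. -/
def StmtR : Prop :=
  ∀ D : Divisor Kb (FF N),
    Divisor.degree D + 1 - (gN N : ℤ) ≤ (Module.finrank Kb ↥(riemannRochSpace D) : ℤ)

/-- **(I2)** the upper bound in characteristic `ℓ`: `dim_k W_n ≤ n + 1 - g` for `n ≥ n₀`.
This is where good reduction enters (false for `ℓ ∣ N`). -/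
def StmtI2 : Prop :=
  ∃ n₀ : ℕ, ∀ n : ℕ, n₀ ≤ n →
    Module.Finite (kA A) ↥(Wn N A n) ∧ Module.finrank (kA A) ↥(Wn N A n) + gN N ≤ n + 1

/-! ## The output -/

/-- (INJ) at `(N, A)` for all prime exponents `p ≠ ℓ`. -/
def StmtInjAt (ℓ : ℕ) : Prop :=
  ∀ p : ℕ, p.Prime → p ≠ ℓ →
    ∀ u : FF N, u ≠ 0 → G2.ReducesToOne A N u →
      (∀ P : Place Kb (FF N), (p : ℤ) ∣ P.ord u) → ∃ h : FF N, h ^ p = u

end Fermat.Agent.ES.M

namespace Fermat.Agent.ES.M

open ModularCurve AlgebraicCurve Fermat.Agent.ES Fermat.Agent.S24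

/-- **the glue** (Steps 0–4 of `NOTES/ES-plan.md` §3): the inputs at `(N, A)` give (INJ) at `(N, A)`. -/
def StmtGlue : Prop :=
  ∀ (N : ℕ) [NeZero N] (ℓ : ℕ), ℓ.Prime → ¬ ℓ ∣ N → 2 ≤ N →
    ∀ A : ValuationSubring Kb, A.LiesOverPrime ℓ →
      StmtRedF N A → StmtLRa N A → StmtQ2 N A → StmtFricke N A → StmtR N → StmtI2 N A →
        G2.StmtPrim → StmtInjAt N A ℓ

/-- the modular inputs, for all good `(N, ℓ, A)` with `ℓ ≥ 5` -/
def StmtRedFAll : Prop :=
  ∀ (N : ℕ) [NeZero N] (ℓ : ℕ), ℓ.Prime → ¬ ℓ ∣ N →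
    ∀ A : ValuationSubring Kb, A.LiesOverPrime ℓ → StmtRedF N A

def StmtLRaAll : Prop :=
  ∀ (N : ℕ) [NeZero N] (ℓ : ℕ), ℓ.Prime → ¬ ℓ ∣ N →
    ∀ A : ValuationSubring Kb, A.LiesOverPrime ℓ → StmtLRa N A

def StmtQ2All : Prop :=
  ∀ (N : ℕ) [NeZero N] (ℓ : ℕ), ℓ.Prime → ¬ ℓ ∣ N →
    ∀ A : ValuationSubring Kb, A.LiesOverPrime ℓ → StmtQ2 N A

def StmtFrickeAll : Prop :=
  ∀ (N : ℕ) [NeZero N] (ℓ : ℕ), ℓ.Prime → ¬ ℓ ∣ N → 2 ≤ N →
    ∀ A : ValuationSubring Kb, A.LiesOverPrime ℓ → StmtFricke N A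

def StmtRAll : Prop := ∀ (N : ℕ) [NeZero N], StmtR N

def StmtI2All : Prop :=
  ∀ (N : ℕ) [NeZero N] (ℓ : ℕ), ℓ.Prime → 5 ≤ ℓ → ¬ ℓ ∣ N →
    ∀ A : ValuationSubring Kb, A.LiesOverPrime ℓ → StmtI2 N A

end Fermat.Agent.ES.M

end
end ZBES_001_16

/-! ### bundled: `Fermat.Agent.ES.I2.Plan` -/
section ZBES_001_17

/-!
# ES / I2 — the upper bound `dim W_n ≤ n + 1 - g` in characteristic `ℓ ≥ 5`: interface

Plan: `NOTES/ES-I2.md`.  Target: `Fermat.Agent.ES.M.StmtI2All`.
Everything here is a definition or a `Prop`; the proofs live in the pieces.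

Notation: `F = FF N ⊂ ℚ̄((q))`, `A ⊂ ℚ̄` a valuation ring over `ℓ ∤ N`, `k = kA A`,
`F_k = modularFunctionFieldFullC k N ⊂ k((q))`, `Q = q^(1/N)`: the embeddings of `F` over `ℚ̄(j)`
take values in `ℚ̄((Q))`, and `ι₀ = (q ↦ Q^N)` is the one belonging to the cusp `∞`.

* `substQ c m` : the substitution `f(q) ↦ f(c · Q^m)`.
* `iotaN N` : `ι₀ : F → ℚ̄((Q))`, `f(q) ↦ f(Q^N)`.
* `HasType N σ` : `σ (j(q^d)) = j(c · Q^m)` with `a δ = d`, `m δ = N a`, `c^δ = 1` for every `d ∣ N`
  (classically `σ f = f ∘ γ`, `j(d γ τ) = j((a τ + b) / δ)`).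
* `IntJ x z` : `z` satisfies a monic polynomial with coefficients in `K[x]`.
* `CuspRel N x` : `x` satisfies the norm relation of a cusp form of weight `12` divided by `Δ`
  (coefficient of `x^(ψ - j)` a polynomial in `j` of degree `< j`).

Pieces: `StmtE` (formal embeddings), `StmtReg` (regularity at the other cusps), `StmtInt`
(integrality at the other cusps), `StmtRed` (reduction of the embeddings mod `𝔪_A`), `StmtMF`
(the functions `-f E₄ E₆ / Δ`, `-f³ E₆ / Δ`, `f² E₄² / Δ`), `StmtB` (integral basis of `S₂` with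
independent reductions).
-/

set_option autoImplicit false

noncomputable section

namespace Fermat.Agent.ES.I2

open ModularCurve AlgebraicCurve HahnSeries Fermat.Agent.ES Fermat.Agent.S24 Fermat.Agent.ES.M
open Fermat.Agent.S28.Deriv

/-- the substitution `f(q) ↦ f(c · Q^m)` (junk value `id` for `m = 0`) -/
def substQ {K : Type*} [Field K] (c : Kˣ) (m : ℕ) : LaurentSeries K →+* LaurentSeries K :=
  if h : m = 0 then RingHom.id _ else (@qExpand K _ m ⟨h⟩).comp (kronRot c)

theorem substQ_eq {K : Type*} [Field K] (c : Kˣ) (m : ℕ) [hm : NeZero m] (f : LaurentSeries K) :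
    substQ c m f = qExpand K m (kronRot c f) := by
  rw [substQ, dif_neg hm.out]
  rfl

/-- `ι₀ : F_N → ℚ̄((Q))`, `f(q) ↦ f(Q^N)`: the embedding belonging to the cusp `∞`. -/
def iotaN (N : ℕ) [NeZero N] : FF N →ₐ[Kb] LaurentSeries Kb :=
  (qExpandAlgHomC Kb N).comp (IntermediateField.val (modularFunctionFieldBar N))

theorem iotaN_apply (N : ℕ) [NeZero N] (x : FF N) :
    iotaN N x = qExpand Kb N (x : LaurentSeries Kb) := rfl

/-- the same in characteristic `ℓ` -/
def iotaK (k : Type*) [Field k] (N : ℕ) [NeZero N] :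
    ↥(modularFunctionFieldFullC k N) →ₐ[k] LaurentSeries k :=
  (qExpandAlgHomC k N).comp (IntermediateField.val (modularFunctionFieldFullC k N))

theorem iotaK_apply (k : Type*) [Field k] (N : ℕ) [NeZero N]
    (x : ↥(modularFunctionFieldFullC k N)) :
    iotaK k N x = qExpand k N (x : LaurentSeries k) := rfl

/-- `σ (j(q^d)) = j(c · Q^m)` with `a δ = d`, `m δ = N a`, `c^δ = 1`, for every `d ∣ N`. -/
def HasType (N : ℕ) [NeZero N] (σ : FF N →ₐ[Kb] LaurentSeries Kb) : Prop :=
  ∀ (d : ℕ) (hd : d ∣ N), ∃ (a δ m : ℕ) (c : Kbˣ),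
    a * δ = d ∧ m * δ = N * a ∧ c ^ δ = 1 ∧ σ (jdF N d hd) = substQ c m jBar

/-- `z` is integral over `K[x]`, in explicit form. -/
def IntJ {K : Type*} [Field K] (x z : LaurentSeries K) : Prop :=
  ∃ p : Polynomial (Polynomial K), p.Monic ∧ p.eval₂ (Polynomial.aeval x).toRingHom z = 0

/-- the norm relation of `G / Δ`, `G` a cusp form of weight `12` -/
def CuspRel (N : ℕ) (x : LaurentSeries Kb) : Prop :=
  ∃ a : ℕ → ℕ → Kb,
    x ^ dedekindPsi N + ∑ j ∈ Finset.Icc 1 (dedekindPsi N),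
      (∑ i ∈ Finset.range j, HahnSeries.C (a j i) * jBar ^ i) * x ^ (dedekindPsi N - j) = 0

/-- the `q`-expansion with integer coefficients `z` -/
def fqZ (z : ℕ → ℤ) : LaurentSeries ℤ := HahnSeries.ofPowerSeries ℤ ℤ (PowerSeries.mk z)

/-! ## The pieces -/

/-- **(E)** the `ψ(N)` embeddings of `F_N` over `ℚ̄(j)` into `ℚ̄((Q))`, with their types. -/
def StmtE (N : ℕ) [NeZero N] : Prop :=
  ∃ σ : Fin (dedekindPsi N) → (FF N →ₐ[Kb] LaurentSeries Kb),
    Function.Injective σ ∧ (∀ i, HasType N (σ i)) ∧ ∃ i₀, σ i₀ = iotaN N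

/-- **(Reg)** a function regular outside the cusp `∞` has no pole in `Q` under an embedding
`σ ≠ ι₀`. -/
def StmtReg (N : ℕ) [NeZero N] : Prop :=
  ∀ σ : FF N →ₐ[Kb] LaurentSeries Kb, HasType N σ → σ ≠ iotaN N →
    ∀ x : FF N, RegOut N x → ∀ n : ℤ, n < 0 → (σ x).coeff n = 0

/-- **(Int)** an `A`-integral element of `F` which is integral over `ℚ̄[j]` has `A`-integral
expansion under every embedding. -/
def StmtInt (N : ℕ) [NeZero N] (A : ValuationSubring Kb) : Prop :=
  ∀ σ : FF N →ₐ[Kb] LaurentSeries Kb, HasType N σ →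
    ∀ (Y : LaurentSeries A) (hY : kronIncl A Y ∈ modularFunctionFieldBar N),
      IntJ jBar (kronIncl A Y) → KronInt A (σ ⟨kronIncl A Y, hY⟩)

/-- **(Red)** reduction of the embeddings: `σ ↦ σ̄`, compatible with the reduction of integral
series, and injective on the embeddings with a type. -/
def StmtRed (N : ℕ) [NeZero N] (A : ValuationSubring Kb) : Prop :=
  ∃ R : (FF N →ₐ[Kb] LaurentSeries Kb) →
      (↥(modularFunctionFieldFullC (kA A) N) →ₐ[kA A] LaurentSeries (kA A)),
    (∀ σ, HasType N σ →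
      ∀ (Y Z : LaurentSeries A) (hY : kronIncl A Y ∈ modularFunctionFieldBar N)
        (hYk : kronRed A Y ∈ modularFunctionFieldFullC (kA A) N),
        σ ⟨kronIncl A Y, hY⟩ = kronIncl A Z → R σ ⟨kronRed A Y, hYk⟩ = kronRed A Z) ∧
    (∀ σ σ', HasType N σ → HasType N σ' → R σ = R σ' → σ = σ')

/-- **(MF)** the modular functions attached to a cusp form `f` of weight `2` with integral
`q`-expansion: `Yt = -f E₄ E₆ / Δ`, `Y1 = -f³ E₆ / Δ`, `Y2 = f² E₄² / Δ` (in `ℤ((q))`). -/
def StmtMF (N : ℕ) [NeZero N] : Prop :=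
  ∀ (f : CuspForm (CongruenceSubgroup.Gamma0 N) 2) (z : ℕ → ℤ),
    (∀ n, ModularFormClass.qCoeff f n = (z n : ℂ)) →
    ∃ Yt Y1 Y2 : LaurentSeries ℤ,
      Yt * thetaFun (jqModC ℤ) = fqZ z * jqModC ℤ * (jqModC ℤ - 1728) ∧
      Yt ^ 2 = Y2 * (jqModC ℤ - 1728) ∧
      Yt ^ 3 = Y1 * jqModC ℤ * (jqModC ℤ - 1728) ∧
      (coeffMap (Int.castRingHom Kb) Yt ∈ modularFunctionFieldBar N ∧
        CuspRel N (coeffMap (Int.castRingHom Kb) Yt)) ∧
      (coeffMap (Int.castRingHom Kb) Y1 ∈ modularFunctionFieldBar N ∧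
        CuspRel N (coeffMap (Int.castRingHom Kb) Y1)) ∧
      (coeffMap (Int.castRingHom Kb) Y2 ∈ modularFunctionFieldBar N ∧
        CuspRel N (coeffMap (Int.castRingHom Kb) Y2))

/-- **(B)** an integral basis of `S₂(Γ₀(N))` whose reductions are linearly independent. -/
def StmtB (N : ℕ) [NeZero N] (A : ValuationSubring Kb) : Prop :=
  ∃ (f : Fin (gN N) → CuspForm (CongruenceSubgroup.Gamma0 N) 2) (z : Fin (gN N) → ℕ → ℤ),
    (∀ t n, ModularFormClass.qCoeff (f t) n = (z t n : ℂ)) ∧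
    LinearIndependent (kA A) (fun t => coeffMap (Int.castRingHom (kA A)) (fqZ (z t)))

/-! ## The `All` versions -/

def StmtEAll : Prop := ∀ (N : ℕ) [NeZero N], StmtE N

def StmtRegAll : Prop := ∀ (N : ℕ) [NeZero N], StmtReg N

def StmtIntAll : Prop :=
  ∀ (N : ℕ) [NeZero N] (ℓ : ℕ), ℓ.Prime → ¬ ℓ ∣ N →
    ∀ A : ValuationSubring Kb, A.LiesOverPrime ℓ → StmtInt N A

def StmtRedAll : Prop :=
  ∀ (N : ℕ) [NeZero N] (ℓ : ℕ), ℓ.Prime → ¬ ℓ ∣ N →
    ∀ A : ValuationSubring Kb, A.LiesOverPrime ℓ → StmtRed N A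

def StmtMFAll : Prop := ∀ (N : ℕ) [NeZero N], StmtMF N

def StmtBAll : Prop :=
  ∀ (N : ℕ) [NeZero N] (ℓ : ℕ), ℓ.Prime →
    ∀ A : ValuationSubring Kb, A.LiesOverPrime ℓ → StmtB N A

/-- the assembly: the pieces give `(I2)` for `ℓ ≥ 5` -/
def StmtI2Glue : Prop :=
  StmtEAll → StmtRegAll → StmtIntAll → StmtRedAll → StmtMFAll → StmtBAll → StmtI2All

end Fermat.Agent.ES.I2

end
end ZBES_001_17

/-! ### bundled: `Fermat.Agent.ES.I2.Plan2` -/
section ZBES_001_18

/-!
# ES / I2 — interface, part 2: the two derived statements consumed by the assembly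

Plan: `NOTES/ES-I2.md`.  The assembly (`I2-Z`) works entirely in characteristic `ℓ`; it consumes

* `StmtIR` : reduction preserves integrality over the `j`-line
  (from `StmtE` + `StmtInt`: the minimal polynomial of `Y` over `ℚ̄(j)` has its roots among the
  `σ_i Y`, all `A`-integral, so its coefficients are polynomials in `j` with coefficients in `A`);
* `StmtTau` : the reduced embeddings `τ_i = R σ_i : F_k → k((Q))`
  (from `StmtE` + `StmtReg` + `StmtInt` + `StmtRed` + `(RedF)` + Lemma R);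
* `StmtMF`, `StmtB`, and the linear count `I2aux.i2_count`.
-/

set_option autoImplicit false

noncomputable section

namespace Fermat.Agent.ES.I2

open ModularCurve AlgebraicCurve HahnSeries Fermat.Agent.ES Fermat.Agent.S24 Fermat.Agent.ES.M

/-- **(IR)** reduction preserves integrality over the `j`-line: if `Y ∈ A((q)) ∩ F` is integral
over `ℚ̄[j]`, then `Ȳ` is integral over `k[j̄]`. -/
def StmtIR (N : ℕ) [NeZero N] (A : ValuationSubring Kb) : Prop :=
  ∀ Y : LaurentSeries A, kronIncl A Y ∈ modularFunctionFieldBar N →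
    IntJ jBar (kronIncl A Y) → IntJ (jqModC (kA A)) (kronRed A Y)

/-- **(Tau)** the reduced embeddings `τ_i : F_k → k((Q))`, `i < ψ(N)`:
pairwise distinct; `τ_{i₀}` is the `q`-expansion at `∞` (`q ↦ Q^N`); all of them send `j̄` to
`j̄(Q^N)`; for `i ≠ i₀` they send the reductions of the functions regular outside `∞` into
`k[[Q]]`; and they send the reduction of an `A`-integral `Y ∈ F` with a cusp-form norm relation
(`CuspRel`) to a series of `Q`-order `> -N`. -/
structure IsTau (N : ℕ) [NeZero N] (A : ValuationSubring Kb)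
    (τ : Fin (dedekindPsi N) →
      (↥(modularFunctionFieldFullC (kA A) N) →ₐ[kA A] LaurentSeries (kA A)))
    (i₀ : Fin (dedekindPsi N)) : Prop where
  inj : Function.Injective τ
  infty : τ i₀ = iotaK (kA A) N
  jmap : ∀ i, τ i ⟨jqModC (kA A), jqModC_mem_full (kA A) N⟩ = qExpand (kA A) N (jqModC (kA A))
  reg : ∀ i, i ≠ i₀ → ∀ s (_ : s ∈ redR N A) (hsF : s ∈ modularFunctionFieldFullC (kA A) N),
      ∀ m : ℤ, m < 0 → (τ i ⟨s, hsF⟩).coeff m = 0
  cusp : ∀ i, ∀ (Y : LaurentSeries A) (_ : kronIncl A Y ∈ modularFunctionFieldBar N)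
      (hYk : kronRed A Y ∈ modularFunctionFieldFullC (kA A) N), CuspRel N (kronIncl A Y) →
      ∀ m : ℤ, m ≤ -(N : ℤ) → (τ i ⟨kronRed A Y, hYk⟩).coeff m = 0

/-- **(Tau)**: reduced embeddings exist -/
def StmtTau (N : ℕ) [NeZero N] (A : ValuationSubring Kb) : Prop :=
  ∃ (τ : Fin (dedekindPsi N) →
      (↥(modularFunctionFieldFullC (kA A) N) →ₐ[kA A] LaurentSeries (kA A)))
    (i₀ : Fin (dedekindPsi N)), IsTau N A τ i₀

def StmtIRAll : Prop :=
  ∀ (N : ℕ) [NeZero N] (ℓ : ℕ), ℓ.Prime → ¬ ℓ ∣ N →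
    ∀ A : ValuationSubring Kb, A.LiesOverPrime ℓ → StmtIR N A

def StmtTauAll : Prop :=
  ∀ (N : ℕ) [NeZero N] (ℓ : ℕ), ℓ.Prime → ¬ ℓ ∣ N →
    ∀ A : ValuationSubring Kb, A.LiesOverPrime ℓ → StmtTau N A

/-- piece `I2-IR` -/
def StmtIRGlue : Prop := StmtEAll → StmtIntAll → StmtIRAll

/-- piece `I2-Tau` -/
def StmtTauGlue : Prop := StmtEAll → StmtRegAll → StmtIntAll → StmtRedAll → StmtTauAll

/-- **(TN)** trace and norm over the `j`-line through a full family of embeddings: for `z ∈ F_k`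
integral over `k[j̄]`, the sum and the product of the `τ_i z` are polynomials in `J = j̄(Q^N)`.
(`[F_k : k(j̄)] = ψ(N)` by S28, separable by INJ/GaussSep; `ES/I2/Embed.lean`; the trace and the
norm of an integral element are integral, and `k[j̄]` is integrally closed.) -/
def StmtTN : Prop :=
  ∀ (k : Type) [Field k] (ℓ : ℕ) [Fact ℓ.Prime] [CharP k ℓ] [PerfectRing k ℓ]
    (N : ℕ) [NeZero N], (N : k) ≠ 0 →
    ∀ τ : Fin (dedekindPsi N) → (↥(modularFunctionFieldFullC k N) →ₐ[k] LaurentSeries k),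
      Function.Injective τ →
      (∀ i, τ i ⟨jqModC k, jqModC_mem_full k N⟩ = qExpand k N (jqModC k)) →
      ∀ z : ↥(modularFunctionFieldFullC k N), IntJ (jqModC k) (z : LaurentSeries k) →
        (∃ P : Polynomial k, ∑ i, τ i z = Polynomial.aeval (qExpand k N (jqModC k)) P) ∧
        (∃ P : Polynomial k, ∏ i, τ i z = Polynomial.aeval (qExpand k N (jqModC k)) P)

/-- **(MFk)** the functions of `StmtMF` in characteristic `ℓ`: for a cusp form `f` with integral
`q`-expansion `z`, the reductions `y = Ȳt`, `y1 = Ȳ1`, `y2 = Ȳ2 ∈ F_k`, their relations, their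
integrality over `k[j̄]`, and the `Q`-order `> -N` of the `τ_i y`. -/
def StmtMFk (N : ℕ) [NeZero N] (A : ValuationSubring Kb) : Prop :=
  ∀ (τ : Fin (dedekindPsi N) →
      (↥(modularFunctionFieldFullC (kA A) N) →ₐ[kA A] LaurentSeries (kA A)))
    (i₀ : Fin (dedekindPsi N)), IsTau N A τ i₀ →
    ∀ (f : CuspForm (CongruenceSubgroup.Gamma0 N) 2) (z : ℕ → ℤ),
      (∀ n, ModularFormClass.qCoeff f n = (z n : ℂ)) →
      (∀ m : ℤ, m ≤ 0 → (coeffMap (Int.castRingHom (kA A)) (fqZ z)).coeff m = 0) ∧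
      ∃ y y1 y2 : ↥(modularFunctionFieldFullC (kA A) N),
        (y : LaurentSeries (kA A)) * Fermat.Agent.S28.Deriv.thetaFun (jqModC (kA A)) =
            coeffMap (Int.castRingHom (kA A)) (fqZ z) * jqModC (kA A) * (jqModC (kA A) - 1728) ∧
        (y : LaurentSeries (kA A)) ^ 2 = (y2 : LaurentSeries (kA A)) * (jqModC (kA A) - 1728) ∧
        (y : LaurentSeries (kA A)) ^ 3 =
            (y1 : LaurentSeries (kA A)) * jqModC (kA A) * (jqModC (kA A) - 1728) ∧
        IntJ (jqModC (kA A)) (y : LaurentSeries (kA A)) ∧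
        IntJ (jqModC (kA A)) (y1 : LaurentSeries (kA A)) ∧
        IntJ (jqModC (kA A)) (y2 : LaurentSeries (kA A)) ∧
        ∀ i, ∀ m : ℤ, m ≤ -(N : ℤ) → (τ i y).coeff m = 0

def StmtMFkAll : Prop :=
  ∀ (N : ℕ) [NeZero N] (ℓ : ℕ), ℓ.Prime → ¬ ℓ ∣ N →
    ∀ A : ValuationSubring Kb, A.LiesOverPrime ℓ → StmtMFk N A

/-- piece `I2-MFk` -/
def StmtMFkGlue : Prop := StmtIRAll → StmtMFAll → StmtMFkAll

/-- **(S2)** the elements of `W` (integral over `k[redR]`) are integral over `k[j̄]`, and their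
images under the `τ_i`, `i ≠ i₀`, lie in `k[[Q]]`.
(`redR`: `RegOut ⇒ PolesAtCusps ⇒` integral over `ℚ̄[j]` (Lemma R, `lr_isIntegral`) `⇒ StmtIR`;
then transitivity of integrality, resp. `k[[Q]]` integrally closed in `k((Q))` and `IsTau.reg`.) -/
def StmtS2 (N : ℕ) [NeZero N] (A : ValuationSubring Kb) : Prop :=
  (∀ w : LaurentSeries (kA A), InW N A w → IntJ (jqModC (kA A)) w) ∧
  ∀ (τ : Fin (dedekindPsi N) →
      (↥(modularFunctionFieldFullC (kA A) N) →ₐ[kA A] LaurentSeries (kA A)))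
    (i₀ : Fin (dedekindPsi N)), IsTau N A τ i₀ →
    ∀ (w : LaurentSeries (kA A)) (hw : InW N A w), ∀ i, i ≠ i₀ →
      ∀ m : ℤ, m < 0 → (τ i ⟨w, hw.1⟩).coeff m = 0

def StmtS2All : Prop :=
  ∀ (N : ℕ) [NeZero N] (ℓ : ℕ), ℓ.Prime → ¬ ℓ ∣ N →
    ∀ A : ValuationSubring Kb, A.LiesOverPrime ℓ → StmtS2 N A

/-- piece `I2-S2` -/
def StmtS2Glue : Prop := StmtIRAll → StmtS2All

/-- **(Nilp)** nilpotent trace, abstract form in `Ω = k((Q))`: if `Z_i ^ M = (J - c) U_i` with
`U_i` integral over `k[J]` (`J` transcendental over `k`) and `Σ Z_i = P(J)`, then `P(c) = 0`.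
(In the integral closure `B` of `k[J]` in `Ω`: `Z_i ∈ rad((J - c) B)`, hence
`P(c) ∈ rad((J - c) B)`; if `P(c) ≠ 0` then `J - c` is a unit of `B`, so `X - c` is a unit of
`k[X]` (`Algebra.IsIntegral.isLocalHom`), absurd.) -/
def StmtNilp : Prop :=
  ∀ (k : Type) [Field k] (J : LaurentSeries k),
    (∀ P : Polynomial k, Polynomial.aeval J P = 0 → P = 0) →
    ∀ (n : ℕ) (Z U : Fin n → LaurentSeries k) (c : k) (M : ℕ), 0 < M →
      (∀ i, Z i ^ M = (J - HahnSeries.C c) * U i) → (∀ i, IntJ J (U i)) →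
      ∀ P : Polynomial k, ∑ i, Z i = Polynomial.aeval J P → P.eval c = 0

/-- **(Const)** `W ∩ q k[[q]] = 0`: an element of `W` vanishing at `q = 0` is zero
(norm argument: `ES/I2/Core.lean` `const_core` with `StmtTN`, `StmtS2`, `IsTau`). -/
def StmtConst (N : ℕ) [NeZero N] (A : ValuationSubring Kb) : Prop :=
  ∀ w : LaurentSeries (kA A), InW N A w → (∀ m : ℤ, m ≤ 0 → w.coeff m = 0) → w = 0

def StmtConstAll : Prop :=
  ∀ (N : ℕ) [NeZero N] (ℓ : ℕ), ℓ.Prime → ¬ ℓ ∣ N →
    ∀ A : ValuationSubring Kb, A.LiesOverPrime ℓ → StmtConst N A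

/-- piece `I2-Const` -/
def StmtConstGlue : Prop := StmtTN → StmtS2All → StmtTauAll → StmtConstAll

/-- **(Res)** the residue theorem on `W`: `a₀ (w f̄) = 0` for `w ∈ W` and `f` a cusp form of
weight `2` with integral `q`-expansion (`ℓ ≥ 5`). -/
def StmtRes (N : ℕ) [NeZero N] (A : ValuationSubring Kb) : Prop :=
  ∀ w : LaurentSeries (kA A), InW N A w →
    ∀ (f : CuspForm (CongruenceSubgroup.Gamma0 N) 2) (z : ℕ → ℤ),
      (∀ n, ModularFormClass.qCoeff f n = (z n : ℂ)) →
      (w * coeffMap (Int.castRingHom (kA A)) (fqZ z)).coeff 0 = 0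

def StmtResAll : Prop :=
  ∀ (N : ℕ) [NeZero N] (ℓ : ℕ), ℓ.Prime → 5 ≤ ℓ → ¬ ℓ ∣ N →
    ∀ A : ValuationSubring Kb, A.LiesOverPrime ℓ → StmtRes N A

/-- piece `I2-Res` -/
def StmtResGlue : Prop :=
  StmtNilp → StmtTN → StmtS2All → StmtTauAll → StmtMFkAll → StmtResAll

/-- piece `I2-Count`: the final count (`ES/I2aux/Count.lean` `i2_count` with `W := Wn N A`,
`F t := coeffMap _ (fqZ (z t))` from `StmtB`; `hF0` from `StmtMFk`, `hres` from `StmtRes`,
`hconst` from `StmtConst`). -/
def StmtCountGlue : Prop :=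
  StmtTauAll → StmtMFkAll → StmtConstAll → StmtResAll → StmtBAll → StmtI2All

/-- the assembly proper (`I2-Z`), in characteristic `ℓ ≥ 5` -/
def StmtI2Core : Prop :=
  StmtNilp → StmtTN → StmtS2All → StmtTauAll → StmtMFkAll → StmtBAll → StmtI2All

end Fermat.Agent.ES.I2

end
end ZBES_001_18

/-! ### bundled: `Fermat.Agent.ES.M.CuspInfty` -/
section ZBES_001_19

/-!
# ES / M: the cusp `∞` of `F_N` exists and is unique

`exists_isCuspInfty N` : there is a place `P` of `F_N / ℚ̄` of degree `1` whose order function is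
the `q`-order.  `isCuspInfty_unique` : it is unique.
-/

set_option autoImplicit false

noncomputable section

namespace Fermat.Agent.ES.M

open ModularCurve AlgebraicCurve HahnSeries WithZero Fermat.Agent.S24 Fermat.Agent.S18

/-- the `q`-adic valuation of a nonzero Laurent series is `exp (-order)` -/
theorem laurent_valued_eq_exp_neg_order {k : Type*} [Field k] {f : LaurentSeries k} (hf : f ≠ 0) :
    (Valued.v f : ℤᵐ⁰) = exp (-f.order) := by
  apply le_antisymm
  · rw [LaurentSeries.valuation_le_iff_coeff_lt_eq_zero]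
    intro n hn
    exact HahnSeries.coeff_eq_zero_of_lt_order hn
  · have hv : (Valued.v f : ℤᵐ⁰) ≠ 0 := (Valuation.ne_zero_iff _).mpr hf
    obtain ⟨m, hm⟩ : ∃ m : ℤ, (Valued.v f : ℤᵐ⁰) = exp m := ⟨log _, (exp_log hv).symm⟩
    rw [hm, exp_le_exp]
    by_contra hlt
    push Not at hlt
    have h1 : (Valued.v f : ℤᵐ⁰) ≤ exp (-(f.order + 1)) := by
      rw [hm, exp_le_exp]; omega
    rw [LaurentSeries.valuation_le_iff_coeff_lt_eq_zero] at h1
    exact hf (HahnSeries.coeff_order_eq_zero.1 (h1 f.order (by omega)))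

variable (N : ℕ) [NeZero N]

theorem exists_pole_FF :
    ∃ x : FF N, x ≠ 0 ∧ qVal (modularFunctionFieldBar N) x < 1 := by
  have hj0 : jF N ≠ 0 := by
    intro h
    have := congrArg (fun z : FF N => (z : LaurentSeries Kb)) h
    exact jBar_ne_zero this
  have hjv : ¬ qVal (modularFunctionFieldBar N) (jF N) ≤ 1 := by
    rw [qVal_le_one_iff]
    intro h
    have h1 := h (-1) (by norm_num)
    rw [coe_jF, jBar_coeff_neg_one] at h1
    exact one_ne_zero h1
  refine ⟨(jF N)⁻¹, inv_ne_zero hj0, ?_⟩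
  rw [map_inv₀]
  exact inv_lt_one_of_one_lt₀ (not_le.mp hjv)

omit [NeZero N] in
theorem vord_qVal_eq_order {f : FF N} (hf : f ≠ 0) :
    vord (qVal (modularFunctionFieldBar N)) f = (f : LaurentSeries Kb).order := by
  have hf' : (f : LaurentSeries Kb) ≠ 0 := fun h => hf (Subtype.ext h)
  rw [vord, qVal_apply, laurent_valued_eq_exp_neg_order hf', log_exp, neg_neg]

theorem order_jBar : (jBar : LaurentSeries Kb).order = -1 := by
  apply le_antisymm
  · exact HahnSeries.order_le_of_coeff_ne_zero (by rw [jBar_coeff_neg_one]; exact one_ne_zero)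
  · by_contra hlt
    push Not at hlt
    exact jBar_ne_zero (HahnSeries.coeff_order_eq_zero.1 (jBar_coeff_of_lt hlt))

/-- **The cusp `∞` exists.** -/
theorem exists_isCuspInfty : ∃ P : Place Kb (FF N), IsCuspInfty N P ∧ P.deg = 1 := by
  obtain ⟨w, e₀, he₀, hw, hord⟩ :=
    exists_place_of_valuation (K := Kb) (qVal (modularFunctionFieldBar N))
      (qVal_algebraMap_le _) (exists_pole_FF N)
  have hj0 : jF N ≠ 0 := by
    intro h
    have := congrArg (fun z : FF N => (z : LaurentSeries Kb)) h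
    exact jBar_ne_zero this
  have he : e₀ = 1 := by
    have h1 := hord (jF N) hj0
    rw [vord_qVal_eq_order N hj0, coe_jF, order_jBar] at h1
    have hd : e₀ ∣ 1 := ⟨-w.ord (jF N), by linarith⟩
    exact Int.eq_one_of_dvd_one he₀.le hd
  have hP : IsCuspInfty N w := by
    intro f hf
    have h1 := hord f hf
    rw [vord_qVal_eq_order N hf, he, one_mul] at h1
    exact h1.symm
  obtain ⟨w', hdeg, hnn, _⟩ := exists_cuspPlace (exists_pole_FF N)
  have hww' : w' = w := by
    apply Place.ext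
    rw [hw]
    ext f
    rcases eq_or_ne f 0 with rfl | hf
    · simp
    · rw [← PlaceAux.ord_nonneg_iff w' hf, hnn f hf, Valuation.mem_valuationSubring_iff,
        qVal_le_one_iff]
  rw [hww'] at hdeg
  exact ⟨w, hP, hdeg⟩

variable {N}

omit [NeZero N] in
/-- **The cusp `∞` is unique.** -/
theorem isCuspInfty_unique {P Q : Place Kb (FF N)} (hP : IsCuspInfty N P)
    (hQ : IsCuspInfty N Q) : P = Q := by
  apply Place.ext
  ext f
  rcases eq_or_ne f 0 with rfl | hf
  · simp
  · rw [← PlaceAux.ord_nonneg_iff P hf, ← PlaceAux.ord_nonneg_iff Q hf, hP f hf, hQ f hf]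

omit [NeZero N] in
/-- regularity at the cusp `∞` in terms of coefficients -/
theorem IsCuspInfty.ord_nonneg_iff {P : Place Kb (FF N)} (hP : IsCuspInfty N P) {f : FF N}
    (hf : f ≠ 0) : 0 ≤ P.ord f ↔ ∀ n : ℤ, n < 0 → (f : LaurentSeries Kb).coeff n = 0 := by
  have hf' : (f : LaurentSeries Kb) ≠ 0 := fun h => hf (Subtype.ext h)
  rw [hP f hf]
  constructor
  · intro h n hn
    exact HahnSeries.coeff_eq_zero_of_lt_order (lt_of_lt_of_le hn h)
  · intro h
    by_contra hlt
    push Not at hlt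
    exact hf' (HahnSeries.coeff_order_eq_zero.1 (h _ hlt))

/-- `j` has a simple pole at the cusp `∞` -/
theorem IsCuspInfty.ord_jF {P : Place Kb (FF N)} (hP : IsCuspInfty N P) : P.ord (jF N) = -1 := by
  have hj0 : jF N ≠ 0 := by
    intro h
    have := congrArg (fun z : FF N => (z : LaurentSeries Kb)) h
    exact jBar_ne_zero this
  rw [hP _ hj0, coe_jF, order_jBar]

/-- regular outside `∞` implies poles only at cusps -/
theorem RegOut.polesAtCusps {x : FF N} (hx : RegOut N x) : PolesAtCusps N x := by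
  intro P hP
  refine hx P fun hinf => ?_
  have := hinf.ord_jF
  omega

end Fermat.Agent.ES.M

end
end ZBES_001_19

/-! ### bundled: `Fermat.Agent.ES.I2.ERoots` -/
section ZBES_001_20

/-!
# ES / I2, piece E, part 1: the roots of the modular equation after a substitution

* `i2e_charpoly_map` (S2): `(charpolyσ p y).map (qExpand p) = ∏_{b<p} (X - y(ζ^b q))`.
* `substQ` calculus: `i2e_substQ_qExpand`, `i2e_substQ_factor`, `i2e_substQ_kronRot`.
* `i2e_modEq_roots`: for the modular equation `Φ` of prime level `p` and `s = substQ c m`, `p ∣ m`: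
  `Φ(X, s j)` is the product of `X - j(c^p Q^(pm))` and the `X - j(ζ^b c' Q^(m/p))`, `c'^p = c`.
-/

set_option autoImplicit false

noncomputable section

namespace Fermat.Agent.ES.I2

open ModularCurve HahnSeries Polynomial Fermat.Agent.ES Fermat.Agent.S28

section S2

variable {K : Type*} [Field K] {p : ℕ} [NeZero p]

/-- a series fixed by the rotation by a primitive `p`-th root of unity is a series in `q^p` -/
theorem i2e_mem_range_of_rot_fixed (ζ : Kˣ) (hζ : IsPrimitiveRoot ζ p) (f : LaurentSeries K)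
    (hf : kronRot ζ f = f) : f ∈ (qExpand K p).range := by
  refine ⟨kronCompress p f, qExpand_kronCompress p f fun n hn => ?_⟩
  have h := congrArg (fun g : LaurentSeries K => g.coeff n) hf
  simp only [kronRot_coeff] at h
  by_contra hne
  have h1 : ((ζ ^ n : Kˣ) : K) = 1 := mul_right_cancel₀ hne (h.trans (one_mul _).symm)
  exact hn ((hζ.zpow_eq_one_iff_dvd n).mp (Units.ext h1))

/-- `∏_{b<p} (X - y(ζ^b q))` -/
def i2eProd (p : ℕ) (ζ : Kˣ) (y : LaurentSeries K) : Polynomial (LaurentSeries K) :=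
  ∏ b ∈ Finset.range p, (Polynomial.X - Polynomial.C (kronRot (ζ ^ b) y))

theorem i2eProd_monic (p : ℕ) (ζ : Kˣ) (y : LaurentSeries K) : (i2eProd p ζ y).Monic :=
  monic_prod_of_monic _ _ fun _ _ => monic_X_sub_C _

theorem i2eProd_natDegree (p : ℕ) (ζ : Kˣ) (y : LaurentSeries K) :
    (i2eProd p ζ y).natDegree = p := by
  rw [i2eProd, natDegree_prod_of_monic _ _ fun b _ => monic_X_sub_C _]
  simp

theorem i2eProd_map_rot (p : ℕ) (ζ : Kˣ) (hζ : ζ ^ p = 1) (y : LaurentSeries K) :
    (i2eProd p ζ y).map (kronRot ζ) = i2eProd p ζ y := by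
  rcases p with _ | m
  · simp [i2eProd]
  · have h1 : (i2eProd (m + 1) ζ y).map (kronRot ζ)
        = ∏ b ∈ Finset.range (m + 1), (Polynomial.X - Polynomial.C (kronRot (ζ ^ (b + 1)) y)) := by
      simp only [i2eProd, Polynomial.map_prod, Polynomial.map_sub, Polynomial.map_X,
        Polynomial.map_C, kronRot_kronRot]
      refine Finset.prod_congr rfl fun b _ => ?_
      rw [pow_succ']
    rw [h1, Finset.prod_range_succ, hζ]
    simp only [i2eProd]
    rw [Finset.prod_range_succ', pow_zero]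

theorem i2eProd_eval_self (p : ℕ) [NeZero p] (ζ : Kˣ) (y : LaurentSeries K) :
    (i2eProd p ζ y).eval y = 0 := by
  rw [i2eProd, eval_prod]
  refine Finset.prod_eq_zero (Finset.mem_range.mpr (Nat.pos_of_ne_zero (NeZero.ne p))) ?_
  simp

/-- **(S2)** the characteristic polynomial of `y` over `K((q^p))` splits over `K((q))`. -/
theorem i2e_charpoly_map (ζ : Kˣ) (hζ : IsPrimitiveRoot ζ p) {y : LaurentSeries K} (hy : y ≠ 0)
    (hcop : IsCoprime y.order (p : ℤ)) :
    (charpolyσ p y).map (qExpand K p) = i2eProd p ζ y := by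
  have hmem : i2eProd p ζ y ∈ (Polynomial.mapRingHom (qExpand K p)).range := by
    rw [Polynomial.mem_map_range]
    intro n
    refine i2e_mem_range_of_rot_fixed ζ hζ _ ?_
    have := congrArg (fun P : Polynomial (LaurentSeries K) => P.coeff n)
      (i2eProd_map_rot p ζ hζ.pow_eq_one y)
    simpa [Polynomial.coeff_map] using this
  obtain ⟨Q, hQ⟩ := hmem
  rw [Polynomial.coe_mapRingHom] at hQ
  have hinj : Function.Injective (qExpand K p) := qExpand_injective p
  have hQm : Q.Monic := Polynomial.monic_of_injective hinj (by rw [hQ]; exact i2eProd_monic p ζ y)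
  have hQd : Q.natDegree = p := by
    rw [← Polynomial.natDegree_map_eq_of_injective hinj, hQ, i2eProd_natDegree]
  have hQe : Q.eval₂ (qExpand K p) y = 0 := by
    rw [Polynomial.eval₂_eq_eval_map, hQ, i2eProd_eval_self]
  rw [← eq_charpolyσ_of_monic hy hcop hQm hQd hQe, hQ]

end S2

section Subst

variable {K : Type*} [Field K]

theorem i2e_kronRot_C (c : Kˣ) (a : K) :
    kronRot c (HahnSeries.C a : LaurentSeries K) = HahnSeries.C a := by
  ext n
  rw [kronRot_coeff, HahnSeries.C_apply, HahnSeries.coeff_single]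
  split_ifs with h
  · subst h
    simp
  · simp

theorem i2e_substQ_C (c : Kˣ) (m : ℕ) (a : K) :
    substQ c m (HahnSeries.C a : LaurentSeries K) = HahnSeries.C a := by
  rcases Nat.eq_zero_or_pos m with rfl | hm
  · simp [substQ]
  · have : NeZero m := ⟨hm.ne'⟩
    rw [substQ_eq, i2e_kronRot_C, qExpand_C]

/-- `f(q^p)` at `q = c Q^m` is `f(c^p Q^(pm))` -/
theorem i2e_substQ_qExpand (c : Kˣ) (m p : ℕ) [NeZero m] [NeZero p] (f : LaurentSeries K) :
    substQ c m (qExpand K p f) = substQ (c ^ p) (p * m) f := by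
  have : NeZero (p * m) := ⟨Nat.mul_ne_zero (NeZero.ne p) (NeZero.ne m)⟩
  have : NeZero (m * p) := ⟨Nat.mul_ne_zero (NeZero.ne m) (NeZero.ne p)⟩
  rw [substQ_eq, substQ_eq, qExpand_kronRot_pow, qExpand_qExpand]
  exact qExpand_congr (Nat.mul_comm m p) _

/-- `f(u q)` at `q = c Q^m` is `f(c u Q^m)` -/
theorem i2e_substQ_kronRot (c u : Kˣ) (m : ℕ) [NeZero m] (f : LaurentSeries K) :
    substQ c m (kronRot u f) = substQ (c * u) m f := by
  rw [substQ_eq, substQ_eq, kronRot_kronRot]

theorem i2e_substQ_one (N : ℕ) [NeZero N] (f : LaurentSeries K) :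
    substQ (1 : Kˣ) N f = qExpand K N f := by
  rw [substQ_eq, kronRot_one]

end Subst

section Roots

variable {K : Type*} [Field K] {p : ℕ} [NeZero p]

/-- the modular equation `Φ(X, j(q^p))` splits over `K((q))` -/
theorem i2e_modEq_split (hp : p.Prime) (ζ : Kˣ) (hζ : IsPrimitiveRoot ζ p)
    {Φ : Polynomial (Polynomial K)} (hΦm : Φ.Monic) (hΦd : Φ.natDegree = p + 1)
    (h1 : Φ.eval₂ (Polynomial.aeval (jqModC K)).toRingHom (qExpand K p (jqModC K)) = 0)
    (h2 : Φ.eval₂ (Polynomial.aeval (qExpand K p (jqModC K))).toRingHom (jqModC K) = 0) :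
    Φ.map (Polynomial.aeval (R := K) (qExpand K p (jqModC K))).toRingHom =
      (Polynomial.X - Polynomial.C (qExpand K p (qExpand K p (jqModC K)))) *
        i2eProd p ζ (jqModC K) := by
  have hy : jqModC K ≠ 0 := jqModC_ne_zero_of_nontrivial K
  have hcop : IsCoprime (jqModC K).order (p : ℤ) := by
    rw [UB.jqModC_order]
    exact (isCoprime_one_left).neg_left
  have h := UB.map_aeval_eq_factor hp hΦm hΦd hy hcop h1 h2
  have h' := congrArg (Polynomial.map (qExpand K p)) h
  rw [Polynomial.map_map, UB.qExpand_comp_aeval, Polynomial.map_mul, Polynomial.map_sub,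
    Polynomial.map_X, Polynomial.map_C, i2e_charpoly_map ζ hζ hy hcop] at h'
  exact h'

/-- the roots of `Φ(X, s(j(q^p)))` for a ring homomorphism `s` into a domain -/
theorem i2e_modEq_roots (hp : p.Prime) (ζ : Kˣ) (hζ : IsPrimitiveRoot ζ p)
    {Φ : Polynomial (Polynomial K)} (hΦm : Φ.Monic) (hΦd : Φ.natDegree = p + 1)
    (h1 : Φ.eval₂ (Polynomial.aeval (jqModC K)).toRingHom (qExpand K p (jqModC K)) = 0)
    (h2 : Φ.eval₂ (Polynomial.aeval (qExpand K p (jqModC K))).toRingHom (jqModC K) = 0)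
    {Ω : Type*} [CommRing Ω] [IsDomain Ω] (s : LaurentSeries K →+* Ω) (x : Ω)
    (hx : Φ.eval₂ (s.comp (Polynomial.aeval (R := K) (qExpand K p (jqModC K))).toRingHom) x = 0) :
    x = s (qExpand K p (qExpand K p (jqModC K))) ∨
      ∃ b ∈ Finset.range p, x = s (kronRot (ζ ^ b) (jqModC K)) := by
  rw [← Polynomial.eval₂_map, i2e_modEq_split hp ζ hζ hΦm hΦd h1 h2, Polynomial.eval₂_mul,
    Polynomial.eval₂_sub, Polynomial.eval₂_X, Polynomial.eval₂_C, i2eProd,
    Polynomial.eval₂_finsetProd] at hx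
  rcases mul_eq_zero.mp hx with h | h
  · exact Or.inl (sub_eq_zero.mp h)
  · obtain ⟨b, hb, hb0⟩ := Finset.prod_eq_zero_iff.mp h
    rw [Polynomial.eval₂_sub, Polynomial.eval₂_X, Polynomial.eval₂_C] at hb0
    exact Or.inr ⟨b, hb, sub_eq_zero.mp hb0⟩

end Roots

end Fermat.Agent.ES.I2

end
end ZBES_001_20

/-! ### bundled: `Fermat.Agent.ES.M.RedF` -/
section ZBES_001_21

/-!
# ES / M, input (RedF): the reduction of an `A`-integral element of `F_N` lies in `F_k`

`A ⊂ ℚ̄` a valuation ring over a prime `ℓ ∤ N`, `k` its residue field.  If `Y ∈ A((q))` has image in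
`F_N = ℚ̄(j(q^d) : d ∣ N)`, then its reduction `Ȳ ∈ k((q))` lies in `F_k = k(j̄(q^d) : d ∣ N)`.

Proof.  By Igusa's degree theorem (`Fermat.Agent.S28.exists_monomials_full`,
`relfinrank_full_eq_dedekindPsi`) there are `ψ(N)` monomials `x i` in the `j(q^d)` whose reductions
are linearly independent over `k(j̄)`.  By Gauss normalisation over the valuation ring `A`
(`redF_exists_primitive`) they are linearly independent over `ℚ̄(j)` (`redF_indep`), hence a basis of
`F_N` over `ℚ̄(j)`.  Write `D(j) Y = ∑ P i (j) x i` with `D, P i ∈ A[X]` not all `≡ 0`; reducing,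
`D̄ ≠ 0` (independence mod `𝔪`) and `Ȳ = ∑ (P̄ i (j̄) / D̄(j̄)) x̄ i ∈ F_k` (`redF_core`).

* `redF_exists_primitive` : Gauss normalisation of a finite family of polynomials over `A`.
* `redF_integral_relation`, `redF_indep` : RED over a valuation ring (no noetherian hypothesis).
* `redF_core` : the abstract statement.
* `stmtRedF`, `stmtRedFAll` : the inputs `StmtRedF N A`, `StmtRedFAll` of `ES/M/Plan.lean`.
-/

set_option autoImplicit false

noncomputable section

namespace Fermat.Agent.ES.M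

open ModularCurve Polynomial IntermediateField Fermat.Agent.S28 Fermat.Agent.S24

section Abstract

variable {K : Type*} [Field K] (A : ValuationSubring K) {ι : Type*} [Fintype ι]

/-- **Gauss normalisation** over a valuation ring: a finite family of polynomials, not all zero,
is a nonzero constant times a family which is not `≡ 0` modulo the maximal ideal. -/
theorem redF_exists_primitive (P : ι → Polynomial A) (hP : ∃ i, P i ≠ 0) :
    ∃ (a : A) (P' : ι → Polynomial A), a ≠ 0 ∧ (∀ i, P i = C a * P' i) ∧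
      ∃ i, (P' i).map (IsLocalRing.residue A) ≠ 0 := by
  classical
  let s : Finset (Σ _ : ι, ℕ) := Finset.univ.sigma (fun i => (P i).support)
  have hs : s.Nonempty := by
    obtain ⟨i, hi⟩ := hP
    obtain ⟨n, hn⟩ := Polynomial.nonempty_support_iff.mpr hi
    exact ⟨⟨i, n⟩, Finset.mem_sigma.mpr ⟨Finset.mem_univ _, hn⟩⟩
  obtain ⟨⟨i₀, n₀⟩, hmem, hmax⟩ := Finset.exists_max_image s
    (fun p => A.valuation (((P p.1).coeff p.2 : A) : K)) hs
  set a : A := (P i₀).coeff n₀ with ha_def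
  have ha : a ≠ 0 := Polynomial.mem_support_iff.mp (Finset.mem_sigma.mp hmem).2
  have haK : (a : K) ≠ 0 := fun h => ha (Subtype.ext h)
  have hva : 0 < A.valuation (a : K) := zero_lt_iff.mpr ((Valuation.ne_zero_iff _).mpr haK)
  have hdvd : ∀ i n, a ∣ (P i).coeff n := by
    intro i n
    by_cases h0 : (P i).coeff n = 0
    · rw [h0]; exact dvd_zero a
    · have hle : A.valuation (((P i).coeff n : A) : K) ≤ A.valuation (a : K) :=
        hmax ⟨i, n⟩ (Finset.mem_sigma.mpr
          ⟨Finset.mem_univ _, Polynomial.mem_support_iff.mpr h0⟩)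
      have hval : A.valuation ((((P i).coeff n : A) : K) * (a : K)⁻¹) ≤ 1 := by
        rw [map_mul, map_inv₀]
        exact mul_inv_le_one_of_le₀ hle hva.le
      have hmemA := (A.valuation_le_one_iff _).mp hval
      refine ⟨⟨_, hmemA⟩, Subtype.ext ?_⟩
      show (((P i).coeff n : A) : K) = (a : K) * ((((P i).coeff n : A) : K) * (a : K)⁻¹)
      field_simp
  have hC : ∀ i, C a ∣ P i := fun i => (Polynomial.C_dvd_iff_dvd_coeff _ _).mpr (hdvd i)
  choose P' hP' using hC
  refine ⟨a, P', ha, hP', i₀, ?_⟩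
  intro h
  have h1 := congrArg (fun q => q.coeff n₀) h
  simp only [Polynomial.coeff_map, Polynomial.coeff_zero] at h1
  have h2 : a * (P' i₀).coeff n₀ = a := by
    have := congrArg (fun q => q.coeff n₀) (hP' i₀)
    simp only [Polynomial.coeff_C_mul] at this
    exact this.symm
  have h3 : (P' i₀).coeff n₀ = 1 := by
    have : a * (P' i₀).coeff n₀ = a * 1 := by rw [h2, mul_one]
    exact mul_left_cancel₀ ha this
  rw [h3, map_one] at h1
  exact one_ne_zero h1

variable {A}

/-- **RED over a valuation ring**, integral form: if the reductions of the `x i ∈ A((q))` are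
linearly independent over `k(t̄)` and `t̄` is transcendental over `k`, there is no nontrivial
relation `∑ P i (t) x i = 0` with `P i ∈ A[X]`. -/
theorem redF_integral_relation (x : ι → LaurentSeries A) (t : LaurentSeries A)
    (ht : Transcendental (IsLocalRing.ResidueField A) (coeffMap (IsLocalRing.residue A) t))
    (hind : ∀ c : ι → LaurentSeries (IsLocalRing.ResidueField A),
      (∀ i, c i ∈ adjoin (IsLocalRing.ResidueField A) {coeffMap (IsLocalRing.residue A) t}) →
      ∑ i, c i * coeffMap (IsLocalRing.residue A) (x i) = 0 → ∀ i, c i = 0)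
    (P : ι → Polynomial A) (hP : ∑ i, aeval t (P i) * x i = 0) : ∀ i, P i = 0 := by
  by_contra hne
  rw [not_forall] at hne
  obtain ⟨a, P', ha, hPP', i₀, hi₀⟩ := redF_exists_primitive A P hne
  have hrel : ∑ i, aeval t (P' i) * x i = 0 := by
    apply redDVR_eq_zero_of_mul ha
    rw [← hP, Finset.mul_sum]
    refine Finset.sum_congr rfl fun i _ => ?_
    rw [hPP' i, map_mul, aeval_C, mul_assoc]
  have h1 := congrArg (coeffMap (IsLocalRing.residue A)) hrel
  rw [map_sum, map_zero] at h1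
  simp_rw [map_mul, redDVR_coeffMap_aeval] at h1
  have h2 := hind (fun i => aeval (coeffMap (IsLocalRing.residue A) t)
    ((P' i).map (IsLocalRing.residue A)))
    (fun i => IntermediateField.algebra_adjoin_le_adjoin _ _
      (Polynomial.aeval_mem_adjoin_singleton _ _)) h1
  exact hi₀ (transcendental_iff.mp ht _ (h2 i₀))

/-- **RED over a valuation ring**, membership form: independence over `K(t)`. -/
theorem redF_indep (x : ι → LaurentSeries A) (t : LaurentSeries A)
    (ht : Transcendental (IsLocalRing.ResidueField A) (coeffMap (IsLocalRing.residue A) t))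
    (hind : ∀ c : ι → LaurentSeries (IsLocalRing.ResidueField A),
      (∀ i, c i ∈ adjoin (IsLocalRing.ResidueField A) {coeffMap (IsLocalRing.residue A) t}) →
      ∑ i, c i * coeffMap (IsLocalRing.residue A) (x i) = 0 → ∀ i, c i = 0) :
    ∀ c : ι → LaurentSeries K,
      (∀ i, c i ∈ adjoin K {coeffMap (algebraMap A K) t}) →
      ∑ i, c i * coeffMap (algebraMap A K) (x i) = 0 → ∀ i, c i = 0 := by
  intro c hc hrel
  obtain ⟨D, hD, hDP⟩ := redDVR_exists_common_denominator (A := A)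
    (coeffMap (algebraMap A K) t) c hc Finset.univ
  choose P hP using fun i => hDP i (Finset.mem_univ i)
  have h1 : ∑ i, aeval t (P i) * x i = 0 := by
    apply redDVR_coeffMap_injective (algebraMap A K) (IsFractionRing.injective A K)
    rw [map_sum, map_zero]
    simp_rw [map_mul, redDVR_coeffMap_aeval, ← hP]
    have : ∑ i, c i * aeval (coeffMap (algebraMap A K) t) (D.map (algebraMap A K)) *
        coeffMap (algebraMap A K) (x i) =
        aeval (coeffMap (algebraMap A K) t) (D.map (algebraMap A K)) *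
          ∑ i, c i * coeffMap (algebraMap A K) (x i) := by
      rw [Finset.mul_sum]
      exact Finset.sum_congr rfl fun i _ => by ring
    rw [this, hrel, mul_zero]
  have h2 := redF_integral_relation x t ht hind P h1
  intro i
  have h3 := hP i
  rw [h2 i, Polynomial.map_zero, map_zero] at h3
  exact (mul_eq_zero.mp h3).resolve_right hD

/-- **(RedF), abstract core**: if the image of `Y ∈ A((q))` in `K((q))` is a `K(t)`-combination of
the `x i`, its reduction is a `k(t̄)`-combination of the reductions of the `x i`. -/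
theorem redF_core (x : ι → LaurentSeries A) (t : LaurentSeries A)
    (ht : Transcendental (IsLocalRing.ResidueField A) (coeffMap (IsLocalRing.residue A) t))
    (hind : ∀ c : ι → LaurentSeries (IsLocalRing.ResidueField A),
      (∀ i, c i ∈ adjoin (IsLocalRing.ResidueField A) {coeffMap (IsLocalRing.residue A) t}) →
      ∑ i, c i * coeffMap (IsLocalRing.residue A) (x i) = 0 → ∀ i, c i = 0)
    (Y : LaurentSeries A) (c : ι → LaurentSeries K)
    (hc : ∀ i, c i ∈ adjoin K {coeffMap (algebraMap A K) t})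
    (hY : coeffMap (algebraMap A K) Y = ∑ i, c i * coeffMap (algebraMap A K) (x i)) :
    ∃ c' : ι → LaurentSeries (IsLocalRing.ResidueField A),
      (∀ i, c' i ∈ adjoin (IsLocalRing.ResidueField A) {coeffMap (IsLocalRing.residue A) t}) ∧
      coeffMap (IsLocalRing.residue A) Y = ∑ i, c' i * coeffMap (IsLocalRing.residue A) (x i) := by
  classical
  obtain ⟨D, hD, hDP⟩ := redDVR_exists_common_denominator (A := A)
    (coeffMap (algebraMap A K) t) c hc Finset.univ
  choose P hP using fun i => hDP i (Finset.mem_univ i)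
  have hD0 : D ≠ 0 := by
    rintro rfl
    rw [Polynomial.map_zero, map_zero] at hD
    exact hD rfl
  -- the relation over `A`
  have h1 : aeval t D * Y = ∑ i, aeval t (P i) * x i := by
    apply redDVR_coeffMap_injective (algebraMap A K) (IsFractionRing.injective A K)
    rw [map_mul, map_sum, hY, Finset.mul_sum]
    simp_rw [map_mul, redDVR_coeffMap_aeval, ← hP]
    exact Finset.sum_congr rfl fun i _ => by ring
  -- joint normalisation of `D` and the `P i`
  let Q : Option ι → Polynomial A := fun o => o.elim D P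
  obtain ⟨a, Q', ha, hQQ', o₀, ho₀⟩ := redF_exists_primitive A Q ⟨none, hD0⟩
  have hDa : D = C a * Q' none := hQQ' none
  have hPa : ∀ i, P i = C a * Q' (some i) := fun i => hQQ' (some i)
  have h2 : aeval t (Q' none) * Y = ∑ i, aeval t (Q' (some i)) * x i := by
    have h3 : algebraMap A (LaurentSeries A) a *
        (aeval t (Q' none) * Y - ∑ i, aeval t (Q' (some i)) * x i) = 0 := by
      rw [mul_sub, Finset.mul_sum, sub_eq_zero]
      have e1 : algebraMap A (LaurentSeries A) a * (aeval t (Q' none) * Y) = aeval t D * Y := by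
        rw [hDa, map_mul, aeval_C, mul_assoc]
      have e2 : ∀ i, algebraMap A (LaurentSeries A) a * (aeval t (Q' (some i)) * x i)
          = aeval t (P i) * x i := fun i => by
        rw [hPa i, map_mul, aeval_C, mul_assoc]
      rw [e1, h1]
      exact Finset.sum_congr rfl fun i _ => (e2 i).symm
    exact sub_eq_zero.mp (redDVR_eq_zero_of_mul ha h3)
  -- reduce
  have h4 := congrArg (coeffMap (IsLocalRing.residue A)) h2
  rw [map_mul, map_sum] at h4
  simp_rw [map_mul, redDVR_coeffMap_aeval] at h4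
  set r := IsLocalRing.residue A with hr
  have hmemc : ∀ Q₀ : Polynomial A,
      aeval (coeffMap r t) (Q₀.map r) ∈ adjoin (IsLocalRing.ResidueField A) {coeffMap r t} :=
    fun Q₀ => IntermediateField.algebra_adjoin_le_adjoin _ _
      (Polynomial.aeval_mem_adjoin_singleton _ _)
  by_cases hD' : (Q' none).map r = 0
  · exfalso
    rw [hD', map_zero, zero_mul] at h4
    have h5 := hind (fun i => aeval (coeffMap r t) ((Q' (some i)).map r))
      (fun i => hmemc _) h4.symm
    cases o₀ with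
    | none => exact ho₀ hD'
    | some i => exact ho₀ (transcendental_iff.mp ht _ (h5 i))
  · have hne : aeval (coeffMap r t) ((Q' none).map r) ≠ 0 :=
      fun h => hD' (transcendental_iff.mp ht _ h)
    refine ⟨fun i => aeval (coeffMap r t) ((Q' (some i)).map r) *
      (aeval (coeffMap r t) ((Q' none).map r))⁻¹,
      fun i => mul_mem (hmemc _) (inv_mem (hmemc _)), ?_⟩
    have h6 : coeffMap r Y = (aeval (coeffMap r t) ((Q' none).map r))⁻¹ *
        (aeval (coeffMap r t) ((Q' none).map r) * coeffMap r Y) := by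
      rw [← mul_assoc, inv_mul_cancel₀ hne, one_mul]
    rw [h6, h4, Finset.mul_sum]
    exact Finset.sum_congr rfl fun i _ => by ring

end Abstract

section Concrete

variable (N : ℕ) [NeZero N] (A : ValuationSubring Kb)

omit [NeZero N] in
/-- Monomials in the `j(q^d)`, `d ∣ N`, lie in `k(j(q^d) : d ∣ N)`. -/
theorem redF_mem_full (k : Type*) [Field k] {x : LaurentSeries ℤ}
    (hx : x ∈ Submonoid.closure (gensZ N)) :
    coeffMap (Int.castRingHom k) x ∈ modularFunctionFieldFullC k N := by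
  induction hx using Submonoid.closure_induction with
  | mem z hz =>
    have h1 : coeffMap (Int.castRingHom k) z ∈ divisorExpansionsC k N := by
      rw [← coeffMap_image_gensZ]
      exact ⟨z, hz, rfl⟩
    exact IntermediateField.subset_adjoin k _ h1
  | one =>
    rw [map_one]
    exact one_mem _
  | mul a b _ _ ha hb =>
    rw [map_mul]
    exact mul_mem ha hb

omit [NeZero N] in
/-- `N ≠ 0` in the residue field of a valuation ring over `ℓ ∤ N`. -/
theorem redF_natCast_ne_zero (ℓ : ℕ) (hℓ : ℓ.Prime) (hℓN : ¬ ℓ ∣ N) (hA : A.LiesOverPrime ℓ) :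
    ((N : ℕ) : kA A) ≠ 0 := by
  have hℓk : ((ℓ : ℕ) : kA A) = 0 := by
    have h1 : ((ℓ : ℕ) : Kb) ∈ A.nonunits := hA
    obtain ⟨hmem, hmax⟩ := (ValuationSubring.mem_nonunits_iff_exists_mem_maximalIdeal).mp h1
    have h2 : IsLocalRing.residue A ⟨((ℓ : ℕ) : Kb), hmem⟩ = 0 :=
      (IsLocalRing.residue_eq_zero_iff _).mpr hmax
    have h3 : (⟨((ℓ : ℕ) : Kb), hmem⟩ : A) = ((ℓ : ℕ) : A) := Subtype.ext (by simp)
    rw [h3, map_natCast] at h2
    exact h2
  intro hNk
  have hcop : Nat.Coprime N ℓ := (Nat.Coprime.symm ((Nat.Prime.coprime_iff_not_dvd hℓ).mpr hℓN))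
  obtain ⟨a, b, hab⟩ := (Nat.isCoprime_iff_coprime.mpr hcop)
  have h4 := congrArg (Int.cast : ℤ → kA A) hab
  push_cast at h4
  rw [hNk, hℓk, mul_zero, mul_zero, add_zero] at h4
  exact zero_ne_one h4

/-- **(RedF)**: the reduction of an `A`-integral element of `F_N` lies in `F_k`. -/
theorem stmtRedF (ℓ : ℕ) (hℓ : ℓ.Prime) (hℓN : ¬ ℓ ∣ N) (hA : A.LiesOverPrime ℓ) :
    StmtRedF N A := by
  intro Y hY
  have hNk := redF_natCast_ne_zero N A ℓ hℓ hℓN hA
  obtain ⟨x, hx, hli⟩ := exists_monomials_full (k := kA A) N (primeHyp_of_dvd (kA A) N hNk)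
  set X : Fin (dedekindPsi N) → LaurentSeries A := fun i => coeffMap (Int.castRingHom A) (x i)
    with hX
  set t : LaurentSeries A := jqModC A with htdef
  have htk : coeffMap (IsLocalRing.residue A) t = jqModC (kA A) := coeffMap_jqModC _
  have htK : coeffMap (algebraMap A Kb) t = jqModC Kb := coeffMap_jqModC _
  have hXk : ∀ i, coeffMap (IsLocalRing.residue A) (X i) =
      coeffMap (Int.castRingHom (kA A)) (x i) := fun i => by
    rw [hX, coeffMap_coeffMap]
    exact coeffMap_congr (RingHom.ext_int _ _) _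
  have hXK : ∀ i, coeffMap (algebraMap A Kb) (X i) = coeffMap (Int.castRingHom Kb) (x i) :=
    fun i => by
      rw [hX, coeffMap_coeffMap]
      exact coeffMap_congr (RingHom.ext_int _ _) _
  have ht : Transcendental (IsLocalRing.ResidueField A) (coeffMap (IsLocalRing.residue A) t) := by
    rw [htk]
    exact red_transcendental_jqModC _
  have hind : ∀ c : Fin (dedekindPsi N) → LaurentSeries (IsLocalRing.ResidueField A),
      (∀ i, c i ∈ adjoin (IsLocalRing.ResidueField A) {coeffMap (IsLocalRing.residue A) t}) →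
      ∑ i, c i * coeffMap (IsLocalRing.residue A) (X i) = 0 → ∀ i, c i = 0 := by
    intro c hc hsum
    rw [htk] at hc
    simp_rw [hXk] at hsum
    have h0 := Fintype.linearIndependent_iff.mp hli (fun i => ⟨c i, hc i⟩) (by
      rw [← hsum]
      exact Finset.sum_congr rfl fun i _ => rfl)
    intro i
    exact congrArg Subtype.val (h0 i)
  have hindK := redF_indep X t ht hind
  have hliK : LinearIndependent (adjoin Kb {jqModC Kb})
      (fun i => coeffMap (Int.castRingHom Kb) (x i)) := by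
    rw [Fintype.linearIndependent_iff]
    intro g hg i
    have h1 := hindK (fun i => (g i : LaurentSeries Kb)) (fun i => by rw [htK]; exact (g i).2)
      (by
        simp_rw [hXK]
        rw [← hg]
        exact Finset.sum_congr rfl fun i _ => rfl) i
    exact Subtype.ext h1
  have hfin := UB.finrank_full_le Kb (NeZero.ne N)
    (fun r hr _ => @ub_modEq Kb _ r ⟨hr.ne_zero⟩ hr)
  have hm : ∀ i, coeffMap (Int.castRingHom Kb) (x i) ∈ modularFunctionFieldFullC Kb N :=
    fun i => redF_mem_full N Kb (hx i)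
  have hYF : kronIncl A Y ∈ modularFunctionFieldFullC Kb N := by
    rw [← G2.hdeg_laurentBaseChange_full]
    exact hY
  obtain ⟨c, hc, hfc⟩ := exists_coeffs_of_linearIndependent (UB.K0 Kb)
    (modularFunctionFieldFullC Kb N) (UB.K0_le_full Kb N) hfin.1 hfin.2
    (fun i => coeffMap (Int.castRingHom Kb) (x i)) hm hliK _ hYF
  obtain ⟨c', hc', hYc'⟩ := redF_core X t ht hind Y c (by rw [htK]; exact hc)
    (by simp_rw [hXK]; exact hfc)
  show coeffMap (IsLocalRing.residue A) Y ∈ modularFunctionFieldFullC (kA A) N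
  rw [hYc']
  refine sum_mem fun i _ => mul_mem ?_ ?_
  · have := hc' i
    rw [htk] at this
    exact UB.K0_le_full (kA A) N this
  · rw [hXk]
    exact redF_mem_full N (kA A) (hx i)

/-- **(RedF)** for all good `(N, ℓ, A)`. -/
theorem stmtRedFAll : StmtRedFAll := by
  intro N _ ℓ hℓ hℓN A hA
  exact stmtRedF N A ℓ hℓ hℓN hA

end Concrete

end Fermat.Agent.ES.M

end
end ZBES_001_21

/-! ### bundled: `Fermat.Agent.ES.M.FrickePlaces` -/
section ZBES_001_22
/-
ES / M (route 2), piece `StmtFricke`, part B (helper83): the Fricke involution and the places.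

* `fr_jdF_mem`       : a valuation subring of `F_N` containing `j` contains every `j(q^d)`, `d ∣ N`
                       (integral modular equations);
* `fricke_polesAtCusps` : `PolesAtCusps N x → PolesAtCusps N (frickeAut N x)`;
* `fricke_regOut`    : for `2 ≤ N`, `RegOut N x →` the `q`-expansion of `frickeAut N x` has no pole.
-/

set_option autoImplicit false

noncomputable section

namespace Fermat.Agent.ES.M

open UpperHalfPlane ModularCurve AlgebraicCurve Fermat.Agent.S24 Fermat.Agent.S28 Polynomial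

variable {N : ℕ} [NeZero N]

/-! ### The `j(q^d)` as Laurent series -/

theorem fr_coe_jdF (d : ℕ) (hd : d ∣ N) :
    ((jdF N d hd : FF N) : LaurentSeries Kb) = intJd Kb d := by
  have hd0 : d ≠ 0 := fun h => NeZero.ne N (by subst h; simpa using hd)
  have : NeZero d := ⟨hd0⟩
  rw [jdF_coe, ← jqModC_rat, ← intJd_eq, coeffEmb, coeffMap_intJd]

theorem fr_order_jdF (d : ℕ) (hd : d ∣ N) :
    ((jdF N d hd : FF N) : LaurentSeries Kb).order = -(d : ℤ) := by
  have hd0 : d ≠ 0 := fun h => NeZero.ne N (by subst h; simpa using hd)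
  have : NeZero d := ⟨hd0⟩
  rw [fr_coe_jdF, intJd_eq, order_qExpand, order_jqModC]
  ring

theorem fr_jdF_ne_zero (d : ℕ) (hd : d ∣ N) : jdF N d hd ≠ 0 := by
  intro h
  have h1 := fr_order_jdF (N := N) d hd
  rw [h] at h1
  have hd0 : d ≠ 0 := fun h => NeZero.ne N (by subst h; simpa using hd)
  simp only [ZeroMemClass.coe_zero, HahnSeries.order_zero] at h1
  omega

/-- the modular equation in `F_N`. -/
theorem fr_modEq {p : ℕ} {Φ : Polynomial (Polynomial ℤ)}
    (h : Φ.eval₂ (evalInt (intJd ℤ 1)) (intJd ℤ p) = 0) (hp : p ≠ 0) (d : ℕ) (hd : d ∣ N)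
    (hpd : p * d ∣ N) :
    Φ.eval₂ (evalInt (jdF N d hd)) (jdF N (p * d) hpd) = 0 := by
  have hd0 : d ≠ 0 := fun h => NeZero.ne N (by subst h; simpa using hd)
  apply Subtype.val_injective
  have hsh := IntModEq.shift h Kb hd0 hp
  have hmap := map_eval₂_evalInt (algebraMap (FF N) (LaurentSeries Kb)) Φ (jdF N d hd)
    (jdF N (p * d) hpd)
  have e1 : algebraMap (FF N) (LaurentSeries Kb) (jdF N d hd) = intJd Kb d := fr_coe_jdF d hd
  have e2 : algebraMap (FF N) (LaurentSeries Kb) (jdF N (p * d) hpd) = intJd Kb (p * d) :=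
    fr_coe_jdF (p * d) hpd
  rw [e1, e2] at hmap
  exact hmap.trans hsh

/-- A root of a monic polynomial `Φ(X, y)`, `Φ ∈ ℤ[Y][X]`, `y ∈ O`, lies in the valuation
subring `O`. -/
theorem fr_mem_of_eval₂ {F : Type*} [Field F] (O : ValuationSubring F) {x y : F} (hy : y ∈ O)
    {Φ : Polynomial (Polynomial ℤ)} (hΦ : Φ.Monic) (h : Φ.eval₂ (evalInt y) x = 0) : x ∈ O := by
  have hint : IsIntegral O x := by
    refine ⟨Φ.map (evalInt (⟨y, hy⟩ : O)), hΦ.map _, ?_⟩
    rw [Polynomial.eval₂_map, comp_evalInt]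
    exact h
  obtain ⟨z, hz⟩ := IsIntegrallyClosed.isIntegral_iff.mp hint
  rw [← hz]
  exact z.2

/-- **Integrality**: a valuation subring of `F_N` containing `j` contains all `j(q^d)`. -/
theorem fr_jdF_mem (O : ValuationSubring (FF N)) (hj : jF N ∈ O) :
    ∀ (d : ℕ) (hd : d ∣ N), jdF N d hd ∈ O := by
  intro d
  induction d using Nat.strong_induction_on with
  | _ d ih =>
    intro hd
    have hd0 : d ≠ 0 := fun h => NeZero.ne N (by rw [h] at hd; exact Nat.eq_zero_of_zero_dvd hd)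
    rcases eq_or_ne d 1 with rfl | hd1
    · rw [jdF_one]; exact hj
    · set p := d.minFac with hp
      have hpp : p.Prime := Nat.minFac_prime hd1
      obtain ⟨d', hd'⟩ : p ∣ d := Nat.minFac_dvd d
      have hd'0 : d' ≠ 0 := by
        rintro rfl
        exact hd0 (by rw [hd', mul_zero])
      have hd'lt : d' < d := by
        rw [hd']
        exact lt_mul_of_one_lt_left (Nat.pos_of_ne_zero hd'0) hpp.one_lt
      have hd'N : d' ∣ N := (Dvd.intro_left p hd'.symm).trans hd
      obtain ⟨Φ, hΦm, hΦ0⟩ := intModEq p hpp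
      have hy := ih d' hd'lt hd'N
      have hpd : p * d' ∣ N := hd' ▸ hd
      have hrel := fr_modEq (N := N) hΦ0 hpp.ne_zero d' hd'N hpd
      have hx := fr_mem_of_eval₂ O hy hΦm hrel
      have e : jdF N d hd = jdF N (p * d') hpd := by
        apply Subtype.ext
        rw [fr_coe_jdF, fr_coe_jdF, hd']
      rw [e]
      exact hx

/-! ### Places -/

theorem fr_ord_frickeAut (P : Place Kb (FF N)) (x : FF N) :
    (frickeAut N • P).ord x = P.ord (frickeAut N x) := by
  have h := Place.ord_smul (frickeAut N) P (frickeAut N x)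
  rw [frickeAut_frickeAut] at h
  exact h

theorem fr_jF_ne_zero : jF N ≠ 0 := by
  intro h
  have := congrArg (fun z : FF N => (z : LaurentSeries Kb)) h
  exact jBar_ne_zero this

/-- `w_N` preserves "regular wherever `j` is regular". -/
theorem fricke_polesAtCusps {x : FF N} (hx : PolesAtCusps N x) :
    PolesAtCusps N (frickeAut N x) := by
  intro P hP
  rw [← fr_ord_frickeAut]
  apply hx
  rw [fr_ord_frickeAut, frickeAut_jF]
  have hj : jF N ∈ P.toValuationSubring := (PlaceAux.ord_nonneg_iff P fr_jF_ne_zero).mp hP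
  have hN := fr_jdF_mem P.toValuationSubring hj N dvd_rfl
  exact (PlaceAux.ord_nonneg_iff P (fr_jdF_ne_zero N dvd_rfl)).mpr hN

/-- `w_N` moves the cusp `∞` away: a function regular outside `∞` is mapped to a function
regular at `∞`.  (`N ≥ 2`.) -/
theorem fricke_regOut (hN : 2 ≤ N) {x : FF N} (hx : RegOut N x) (n : ℤ) (hn : n < 0) :
    ((frickeAut N x : FF N) : LaurentSeries Kb).coeff n = 0 := by
  obtain ⟨P, hP, -⟩ := exists_isCuspInfty N
  rcases eq_or_ne (frickeAut N x) 0 with h0 | h0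
  · rw [h0]; rfl
  · have hQ : ¬ IsCuspInfty N (frickeAut N • P) := by
      intro hQ
      have h1 := hQ.ord_jF
      rw [fr_ord_frickeAut, frickeAut_jF, hP _ (fr_jdF_ne_zero N dvd_rfl), fr_order_jdF] at h1
      omega
    have h2 := hx _ hQ
    rw [fr_ord_frickeAut] at h2
    exact (hP.ord_nonneg_iff h0).mp h2 n hn

end Fermat.Agent.ES.M

end
end ZBES_001_22

/-! ### bundled: `Fermat.Agent.ES.M.GluePlan` -/
section ZBES_001_23

/-!
# ES / M — the glue of route 2, cut into pieces

`StmtGlue` (see `ES/M/Plan.lean`) is proved in three steps; each step is a `Prop` here so that the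
pieces can be proved independently.  Small API lemmas are bundled in two `Prop`-valued structures
(`GRApi`: calculus of `GaussRed`; `LWApi`: divisors, `L(E)` and the spaces `W_n`), which the
steps take as hypotheses.

* Step A `StmtMove N A` (moving lemma): `f ≡ 1`, `p ∣ div f` ⇒ `∃ g ≡ 1` with `g ^ p * f` regular
  outside the cusp `∞`.
* Step B `StmtNormalize N A`: `u ≡ 1`, `p ∣ div u` ⇒ `∃ g ≠ 0` with `g ^ p * u` *normal*: a power
  series in `q` with coefficients in `A`, constant coefficient `1`, and reduction `1`.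
* Step C `StmtRoot N A ℓ`: a normal `f` with `p ∣ div f`, `p ≠ ℓ`, is a `p`-th power in `F_N`.
-/

set_option autoImplicit false

noncomputable section

namespace Fermat.Agent.ES.M

open ModularCurve AlgebraicCurve HahnSeries Fermat.Agent.ES Fermat.Agent.S24

variable (N : ℕ) [NeZero N] (A : ValuationSubring Kb)

/-- calculus of the Gauss reduction in fraction form -/
structure GRApi : Prop where
  unique : ∀ (x : FF N) (w w' : LaurentSeries (kA A)),
    GaussRed N A x w → GaussRed N A x w' → w = w'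
  one : GaussRed N A 1 1
  mul : ∀ (x y : FF N) (w v : LaurentSeries (kA A)),
    GaussRed N A x w → GaussRed N A y v → GaussRed N A (x * y) (w * v)
  pow : ∀ (x : FF N) (w : LaurentSeries (kA A)) (n : ℕ),
    GaussRed N A x w → GaussRed N A (x ^ n) (w ^ n)
  add : ∀ (x y : FF N) (w v : LaurentSeries (kA A)),
    GaussRed N A x w → GaussRed N A y v → GaussRed N A (x + y) (w + v)
  /-- multiplication by a constant of `A` -/
  smul : ∀ (c : A) (x : FF N) (w : LaurentSeries (kA A)),
    GaussRed N A x w →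
      GaussRed N A (algebraMap Kb (FF N) (c : Kb) * x)
        (HahnSeries.C (IsLocalRing.residue A c) * w)
  /-- an element with `A`-integral `q`-expansion reduces to the reduction of its expansion -/
  of_incl : ∀ (Y : LaurentSeries A) (hY : kronIncl A Y ∈ modularFunctionFieldBar N),
    GaussRed N A ⟨kronIncl A Y, hY⟩ (kronRed A Y)
  reducesToOne_iff : ∀ x : FF N, G2.ReducesToOne A N x ↔ GaussRed N A x 1
  /-- the reduction lies in `F_k` -/
  mem_fullC : StmtRedF N A → ∀ (x : FF N) (w : LaurentSeries (kA A)),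
    GaussRed N A x w → w ∈ modularFunctionFieldFullC (kA A) N
  ne_zero : ∀ (x : FF N) (w : LaurentSeries (kA A)), GaussRed N A x w → w ≠ 0 → x ≠ 0

/-- divisors `div f / p`, the spaces `L(D + n ∞)` and their reductions -/
structure LWApi : Prop where
  /-- the divisor `div f / p` -/
  exists_div : ∀ p : ℕ, 0 < p → ∀ f : FF N, f ≠ 0 →
    (∀ P : Place Kb (FF N), (p : ℤ) ∣ P.ord f) →
      ∃ D : Divisor Kb (FF N), (∀ P : Place Kb (FF N), (p : ℤ) * D P = P.ord f) ∧
        Divisor.degree D = 0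
  /-- `b ∈ L(div f / p + n ∞)` ⇒ `b ^ p * f` is regular outside `∞`, pole order `≤ p n` at `∞` -/
  regOut : ∀ p : ℕ, 0 < p → ∀ (f : FF N) (D : Divisor Kb (FF N)),
    (∀ P : Place Kb (FF N), (p : ℤ) * D P = P.ord f) →
      ∀ Pinf : Place Kb (FF N), IsCuspInfty N Pinf → ∀ (n : ℕ) (b : FF N),
        b ∈ riemannRochSpace (D + Finsupp.single Pinf (n : ℤ)) →
          RegOut N (b ^ p * f) ∧
            ∀ m : ℤ, m < -((p : ℤ) * n) → ((b ^ p * f : FF N) : LaurentSeries Kb).coeff m = 0
  /-- **Lemma W**: the reduction of `b ∈ L(div f / p + n ∞)` lies in `W_n` when `f ≡ 1` -/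
  mem_Wn : StmtRedF N A → StmtLRa N A → ∀ p : ℕ, 0 < p → ∀ f : FF N, f ≠ 0 →
    GaussRed N A f 1 → ∀ D : Divisor Kb (FF N),
      (∀ P : Place Kb (FF N), (p : ℤ) * D P = P.ord f) →
        ∀ Pinf : Place Kb (FF N), IsCuspInfty N Pinf → ∀ (n : ℕ) (b : FF N),
          b ∈ riemannRochSpace (D + Finsupp.single Pinf (n : ℤ)) →
            ∀ w : LaurentSeries (kA A), GaussRed N A b w → w ∈ Wn N A n
  /-- Riemann's inequality gives independent elements -/
  exists_indep : StmtR N → ∀ (D : Divisor Kb (FF N)) (r : ℕ),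
    (r : ℤ) ≤ Divisor.degree D + 1 - (gN N : ℤ) →
      ∃ a : Fin r → FF N, LinearIndependent Kb a ∧ ∀ i, a i ∈ riemannRochSpace D
  /-- `L(D)` is finite-dimensional -/
  rr_finite : ∀ D : Divisor Kb (FF N), Module.Finite Kb ↥(riemannRochSpace D)

/-- **Step A** (moving lemma) -/
def StmtMove : Prop :=
  ∀ p : ℕ, p.Prime → ∀ f : FF N, f ≠ 0 → G2.ReducesToOne A N f →
    (∀ P : Place Kb (FF N), (p : ℤ) ∣ P.ord f) →
      ∃ g : FF N, g ≠ 0 ∧ G2.ReducesToOne A N g ∧ RegOut N (g ^ p * f)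

/-- `f` is a power series in `q` over `A` with constant coefficient `1` and reduction `1`. -/
def IsNormal (f : FF N) : Prop :=
  ∃ G : PowerSeries A, PowerSeries.constantCoeff G = 1 ∧
    kronIncl A (HahnSeries.ofPowerSeries ℤ A G) = (f : LaurentSeries Kb) ∧
      kronRed A (HahnSeries.ofPowerSeries ℤ A G) = 1

/-- **Step B** (Fricke + normalisation of the constant term) -/
def StmtNormalize : Prop :=
  ∀ p : ℕ, p.Prime → ∀ u : FF N, u ≠ 0 → G2.ReducesToOne A N u →
    (∀ P : Place Kb (FF N), (p : ℤ) ∣ P.ord u) →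
      ∃ g : FF N, g ≠ 0 ∧ IsNormal N A (g ^ p * u)

/-- **Step C** (`π`-adic Newton iteration) -/
def StmtRoot (ℓ : ℕ) : Prop :=
  ∀ p : ℕ, p.Prime → p ≠ ℓ → ∀ f : FF N, IsNormal N A f →
    (∀ P : Place Kb (FF N), (p : ℤ) ∣ P.ord f) → ∃ h : FF N, h ^ p = f

end Fermat.Agent.ES.M

namespace Fermat.Agent.ES.M

open ModularCurve AlgebraicCurve Fermat.Agent.ES Fermat.Agent.S24

/-- piece GR -/
def StmtGRApi : Prop := ∀ (N : ℕ) [NeZero N] (A : ValuationSubring Kb), GRApi N A

/-- piece LW -/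
def StmtLWApi : Prop :=
  ∀ (N : ℕ) [NeZero N] (A : ValuationSubring Kb), GRApi N A → LWApi N A

/-- piece MV (Step A) -/
def StmtMoveOf : Prop :=
  ∀ (N : ℕ) [NeZero N] (A : ValuationSubring Kb), GRApi N A → LWApi N A →
    StmtRedF N A → StmtLRa N A → StmtQ2 N A → StmtR N → StmtI2 N A → StmtMove N A

/-- piece NM (Step B) -/
def StmtNormalizeOf : Prop :=
  ∀ (N : ℕ) [NeZero N] (A : ValuationSubring Kb), GRApi N A →
    StmtMove N A → StmtFricke N A → StmtLRa N A → StmtNormalize N A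

/-- piece RT (Step C) -/
def StmtRootOf : Prop :=
  ∀ (N : ℕ) [NeZero N] (ℓ : ℕ), ℓ.Prime → ¬ ℓ ∣ N →
    ∀ A : ValuationSubring Kb, A.LiesOverPrime ℓ → GRApi N A → LWApi N A →
      StmtRedF N A → StmtLRa N A → StmtQ2 N A → StmtR N → StmtI2 N A → StmtRoot N A ℓ

/-- the three steps give (INJ) at `(N, A)` -/
theorem stmtInjAt_of_steps (N : ℕ) [NeZero N] (A : ValuationSubring Kb) (ℓ : ℕ)
    (hB : StmtNormalize N A) (hC : StmtRoot N A ℓ) : StmtInjAt N A ℓ := by
  intro p hp hpℓ u hu hu1 hdiv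
  obtain ⟨g, hg, hn⟩ := hB p hp u hu hu1 hdiv
  have hdiv' : ∀ P : Place Kb (FF N), (p : ℤ) ∣ P.ord (g ^ p * u) := by
    intro P
    rw [P.ord_mul (pow_ne_zero p hg) hu]
    have h1 : P.ord (g ^ p) = (p : ℤ) * P.ord g := by
      have := P.ord_zpow g (p : ℤ)
      rwa [zpow_natCast] at this
    rw [h1]
    exact dvd_add (dvd_mul_right _ _) (hdiv P)
  obtain ⟨h, hh⟩ := hC p hp hpℓ _ hn hdiv'
  refine ⟨h * g⁻¹, ?_⟩
  rw [mul_pow, hh, inv_pow, mul_comm, ← mul_assoc, inv_mul_cancel₀ (pow_ne_zero p hg), one_mul]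

/-- **the glue**, from the pieces -/
theorem stmtGlue_of_pieces (hGR : StmtGRApi) (hLW : StmtLWApi) (hMV : StmtMoveOf)
    (hNM : StmtNormalizeOf) (hRT : StmtRootOf) : StmtGlue := by
  intro N _ ℓ hℓ hℓN _ A hA hRedF hLRa hQ2 hFr hR hI2 _
  have gr := hGR N A
  have lw := hLW N A gr
  have hA' := hMV N A gr lw hRedF hLRa hQ2 hR hI2
  have hB := hNM N A gr hA' hFr hLRa
  have hC := hRT N ℓ hℓ hℓN A hA gr lw hRedF hLRa hQ2 hR hI2
  exact stmtInjAt_of_steps N A ℓ hB hC

end Fermat.Agent.ES.M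

end
end ZBES_001_23

/-! ### bundled: `Fermat.Agent.ES.M.GaussRed` -/
section ZBES_001_24

/-!
# ES / M, glue piece GR: the calculus of the Gauss reduction in fraction form

`stmtGRApi : StmtGRApi`.  Everything is obtained by unfolding `GaussRed`
(`x = Y₁ / Y₂`, `w = Ȳ₁ / Ȳ₂`) and using that `kronIncl` is injective and `k((q))` is a field.
-/

set_option autoImplicit false

noncomputable section

namespace Fermat.Agent.ES.M

open ModularCurve AlgebraicCurve HahnSeries Fermat.Agent.ES Fermat.Agent.S24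

variable (N : ℕ) [NeZero N] (A : ValuationSubring Kb)

omit [NeZero N] in
theorem gr_unique (x : FF N) (w w' : LaurentSeries (kA A))
    (h : GaussRed N A x w) (h' : GaussRed N A x w') : w = w' := by
  obtain ⟨Y₁, Y₂, -, -, hY₂, hx, hw⟩ := h
  obtain ⟨Z₁, Z₂, -, -, hZ₂, hx', hw'⟩ := h'
  have h1 : Y₁ * Z₂ = Z₁ * Y₂ := by
    apply kronIncl_injective (A := A)
    rw [map_mul, map_mul, ← hx, ← hx']
    ring
  have h2 : kronRed A Y₁ * kronRed A Z₂ = kronRed A Z₁ * kronRed A Y₂ := by
    rw [← map_mul, ← map_mul, h1]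
  rw [← hw, ← hw'] at h2
  have h3 : w * (kronRed A Y₂ * kronRed A Z₂) = w' * (kronRed A Y₂ * kronRed A Z₂) := by
    linear_combination h2
  exact mul_right_cancel₀ (mul_ne_zero hY₂ hZ₂) h3

omit [NeZero N] in
theorem gr_one : GaussRed N A 1 1 := by
  refine ⟨1, 1, ?_, ?_, ?_, ?_, ?_⟩
  · rw [map_one]; exact one_mem _
  · rw [map_one]; exact one_mem _
  · rw [map_one]; exact one_ne_zero
  · rw [map_one, mul_one]; rfl
  · rw [map_one, mul_one]

omit [NeZero N] in
theorem gr_mul (x y : FF N) (w v : LaurentSeries (kA A))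
    (h : GaussRed N A x w) (h' : GaussRed N A y v) : GaussRed N A (x * y) (w * v) := by
  obtain ⟨Y₁, Y₂, hY₁m, hY₂m, hY₂, hx, hw⟩ := h
  obtain ⟨Z₁, Z₂, hZ₁m, hZ₂m, hZ₂, hy, hv⟩ := h'
  refine ⟨Y₁ * Z₁, Y₂ * Z₂, ?_, ?_, ?_, ?_, ?_⟩
  · rw [map_mul]; exact mul_mem hY₁m hZ₁m
  · rw [map_mul]; exact mul_mem hY₂m hZ₂m
  · rw [map_mul]; exact mul_ne_zero hY₂ hZ₂
  · rw [map_mul, map_mul, ← hx, ← hy]
    show (x : LaurentSeries Kb) * (y : LaurentSeries Kb) * _ = _
    ring
  · rw [map_mul, map_mul, ← hw, ← hv]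
    ring

omit [NeZero N] in
theorem gr_pow (x : FF N) (w : LaurentSeries (kA A)) (n : ℕ)
    (h : GaussRed N A x w) : GaussRed N A (x ^ n) (w ^ n) := by
  induction n with
  | zero => simpa using gr_one N A
  | succ n ih =>
    rw [pow_succ, pow_succ]
    exact gr_mul N A _ _ _ _ ih h

omit [NeZero N] in
theorem gr_add (x y : FF N) (w v : LaurentSeries (kA A))
    (h : GaussRed N A x w) (h' : GaussRed N A y v) : GaussRed N A (x + y) (w + v) := by
  obtain ⟨Y₁, Y₂, hY₁m, hY₂m, hY₂, hx, hw⟩ := h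
  obtain ⟨Z₁, Z₂, hZ₁m, hZ₂m, hZ₂, hy, hv⟩ := h'
  refine ⟨Y₁ * Z₂ + Z₁ * Y₂, Y₂ * Z₂, ?_, ?_, ?_, ?_, ?_⟩
  · rw [map_add, map_mul, map_mul]
    exact add_mem (mul_mem hY₁m hZ₂m) (mul_mem hZ₁m hY₂m)
  · rw [map_mul]; exact mul_mem hY₂m hZ₂m
  · rw [map_mul]; exact mul_ne_zero hY₂ hZ₂
  · rw [map_add, map_mul, map_mul, map_mul, ← hx, ← hy]
    show ((x : LaurentSeries Kb) + (y : LaurentSeries Kb)) * _ = _
    ring
  · rw [map_add, map_mul, map_mul, map_mul, ← hw, ← hv]
    ring

omit [NeZero N] in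
theorem gr_smul (c : A) (x : FF N) (w : LaurentSeries (kA A)) (h : GaussRed N A x w) :
    GaussRed N A (algebraMap Kb (FF N) (c : Kb) * x)
      (HahnSeries.C (IsLocalRing.residue A c) * w) := by
  obtain ⟨Y₁, Y₂, hY₁m, hY₂m, hY₂, hx, hw⟩ := h
  have hC : kronIncl A (HahnSeries.C c) = (HahnSeries.C (c : Kb) : LaurentSeries Kb) :=
    coeffMap_single A.subtype 0 c
  have hCr : kronRed A (HahnSeries.C c) =
      (HahnSeries.C (IsLocalRing.residue A c) : LaurentSeries (kA A)) :=
    coeffMap_single (IsLocalRing.residue A) 0 c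
  have hCm : (HahnSeries.C (c : Kb) : LaurentSeries Kb) ∈ modularFunctionFieldBar N := by
    rw [← algebraMap_eq_hahnC]
    exact IntermediateField.algebraMap_mem _ _
  refine ⟨HahnSeries.C c * Y₁, Y₂, ?_, hY₂m, hY₂, ?_, ?_⟩
  · rw [map_mul, hC]
    exact mul_mem hCm hY₁m
  · rw [map_mul, hC, ← hx]
    show algebraMap Kb (LaurentSeries Kb) (c : Kb) * (x : LaurentSeries Kb) * _ = _
    rw [algebraMap_eq_hahnC]
    ring
  · rw [map_mul, hCr, ← hw]
    ring

omit [NeZero N] in
theorem gr_of_incl (Y : LaurentSeries A) (hY : kronIncl A Y ∈ modularFunctionFieldBar N) :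
    GaussRed N A ⟨kronIncl A Y, hY⟩ (kronRed A Y) := by
  refine ⟨Y, 1, hY, ?_, ?_, ?_, ?_⟩
  · rw [map_one]; exact one_mem _
  · rw [map_one]; exact one_ne_zero
  · rw [map_one, mul_one]
  · rw [map_one, mul_one]

theorem gr_reducesToOne_iff (x : FF N) : G2.ReducesToOne A N x ↔ GaussRed N A x 1 := by
  constructor
  · rintro ⟨y₁, y₂, hy₁m, hy₂m, hy₁, hy₂, hcong, hx⟩
    obtain ⟨Y₁, rfl⟩ := hy₁.1.exists_lift
    obtain ⟨Y₂, rfl⟩ := hy₂.1.exists_lift
    refine ⟨Y₁, Y₂, hy₁m, hy₂m, (kronPrim_kronIncl_iff Y₂).1 hy₂, hx, ?_⟩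
    rw [one_mul]
    exact ((kronCongr_kronIncl_iff Y₁ Y₂).1 hcong).symm
  · rintro ⟨Y₁, Y₂, hY₁m, hY₂m, hY₂, hx, hw⟩
    rw [one_mul] at hw
    refine ⟨kronIncl A Y₁, kronIncl A Y₂, hY₁m, hY₂m, ?_, ?_, ?_, hx⟩
    · rw [kronPrim_kronIncl_iff, ← hw]
      exact hY₂
    · rw [kronPrim_kronIncl_iff]
      exact hY₂
    · rw [kronCongr_kronIncl_iff]
      exact hw.symm

omit [NeZero N] in
theorem gr_mem_fullC (hRed : StmtRedF N A) (x : FF N) (w : LaurentSeries (kA A))
    (h : GaussRed N A x w) : w ∈ modularFunctionFieldFullC (kA A) N := by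
  obtain ⟨Y₁, Y₂, hY₁m, hY₂m, hY₂, -, hw⟩ := h
  have h1 : w = kronRed A Y₁ * (kronRed A Y₂)⁻¹ := by
    rw [← hw, mul_inv_cancel_right₀ hY₂]
  rw [h1]
  exact mul_mem (hRed Y₁ hY₁m) (inv_mem (hRed Y₂ hY₂m))

omit [NeZero N] in
theorem gr_ne_zero (x : FF N) (w : LaurentSeries (kA A)) (h : GaussRed N A x w) (hw0 : w ≠ 0) :
    x ≠ 0 := by
  obtain ⟨Y₁, Y₂, -, -, hY₂, hx, hw⟩ := h
  rintro rfl
  apply hw0
  have h1 : kronIncl A Y₁ = 0 := by
    rw [← hx]
    show (0 : LaurentSeries Kb) * _ = 0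
    rw [zero_mul]
  have h2 : Y₁ = 0 := kronIncl_injective (A := A) (by rw [h1, map_zero])
  rw [h2, map_zero] at hw
  rcases mul_eq_zero.1 hw with h | h
  · exact h
  · exact absurd h hY₂

/-- the calculus of `GaussRed` -/
theorem grApi : GRApi N A where
  unique := gr_unique N A
  one := gr_one N A
  mul := gr_mul N A
  pow := gr_pow N A
  add := gr_add N A
  smul := gr_smul N A
  of_incl := gr_of_incl N A
  reducesToOne_iff := gr_reducesToOne_iff N A
  mem_fullC := gr_mem_fullC N A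
  ne_zero := gr_ne_zero N A

/-- piece GR -/
theorem stmtGRApi : StmtGRApi := fun N _ A => grApi N A

end Fermat.Agent.ES.M

end
end ZBES_001_24

/-! ### bundled: `Fermat.Agent.ES.M.FrickeRed` -/
section ZBES_001_25
/-
ES / M (route 2), piece `StmtFricke`, part C (helper83): the Fricke involution preserves the
Gauss valuation of `F_N` (`A ⊂ ℚ̄` a valuation ring over `ℓ ∤ N`).

* `frRed_expand`      : (abstract) `D(t) Y = ∑ P i (t) x i` with `D̄ ≠ 0`, and `Ȳ = 0 → P̄ i = 0`;
* `frRed_expand_mv`   : for `Y ∈ A((q))` in `F_N`: `D(j) Y = R(j(q^d) : d ∣ N)` with `D ∈ A[X]`,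
                        `D̄ ≠ 0`, `R ∈ A[X_d : d ∣ N]`, and `Ȳ = 0 → R̄ = 0`;
* `fr_rel_res`        : a relation mod `𝔪` between the `j(q^d)` is a relation between the
                        `j(q^(N/d))` (the Fricke involution in characteristic `ℓ`);
* `fricke_gaussRed_one`, `fricke_reducesToOne` : `x ≡ 1 → w_N x ≡ 1`.
-/

set_option autoImplicit false

noncomputable section

namespace Fermat.Agent.ES.M

open ModularCurve Polynomial IntermediateField Fermat.Agent.S28 Fermat.Agent.S24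
open Fermat.Agent.ES

section Abstract

variable {K : Type*} [Field K] {A : ValuationSubring K} {ι : Type*} [Fintype ι]

/-- **Expansion in an orthonormal family**, integral form with the denominators exposed. -/
theorem frRed_expand (x : ι → LaurentSeries A) (t : LaurentSeries A)
    (ht : Transcendental (IsLocalRing.ResidueField A) (coeffMap (IsLocalRing.residue A) t))
    (hind : ∀ c : ι → LaurentSeries (IsLocalRing.ResidueField A),
      (∀ i, c i ∈ adjoin (IsLocalRing.ResidueField A) {coeffMap (IsLocalRing.residue A) t}) →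
      ∑ i, c i * coeffMap (IsLocalRing.residue A) (x i) = 0 → ∀ i, c i = 0)
    (Y : LaurentSeries A) (c : ι → LaurentSeries K)
    (hc : ∀ i, c i ∈ adjoin K {coeffMap (algebraMap A K) t})
    (hY : coeffMap (algebraMap A K) Y = ∑ i, c i * coeffMap (algebraMap A K) (x i)) :
    ∃ (D : Polynomial A) (P : ι → Polynomial A), D.map (IsLocalRing.residue A) ≠ 0 ∧
      aeval t D * Y = ∑ i, aeval t (P i) * x i ∧
      (coeffMap (IsLocalRing.residue A) Y = 0 → ∀ i, (P i).map (IsLocalRing.residue A) = 0) := by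
  classical
  obtain ⟨D, hD, hDP⟩ := redDVR_exists_common_denominator (A := A)
    (coeffMap (algebraMap A K) t) c hc Finset.univ
  choose P hP using fun i => hDP i (Finset.mem_univ i)
  have hD0 : D ≠ 0 := by
    rintro rfl
    rw [Polynomial.map_zero, map_zero] at hD
    exact hD rfl
  -- the relation over `A`
  have h1 : aeval t D * Y = ∑ i, aeval t (P i) * x i := by
    apply redDVR_coeffMap_injective (algebraMap A K) (IsFractionRing.injective A K)
    rw [map_mul, map_sum, hY, Finset.mul_sum]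
    simp_rw [map_mul, redDVR_coeffMap_aeval, ← hP]
    exact Finset.sum_congr rfl fun i _ => by ring
  -- joint normalisation of `D` and the `P i`
  let Q : Option ι → Polynomial A := fun o => o.elim D P
  obtain ⟨a, Q', ha, hQQ', o₀, ho₀⟩ := redF_exists_primitive A Q ⟨none, hD0⟩
  have hDa : D = C a * Q' none := hQQ' none
  have hPa : ∀ i, P i = C a * Q' (some i) := fun i => hQQ' (some i)
  have h2 : aeval t (Q' none) * Y = ∑ i, aeval t (Q' (some i)) * x i := by
    have h3 : algebraMap A (LaurentSeries A) a *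
        (aeval t (Q' none) * Y - ∑ i, aeval t (Q' (some i)) * x i) = 0 := by
      rw [mul_sub, Finset.mul_sum, sub_eq_zero]
      have e1 : algebraMap A (LaurentSeries A) a * (aeval t (Q' none) * Y) = aeval t D * Y := by
        rw [hDa, map_mul, aeval_C, mul_assoc]
      have e2 : ∀ i, algebraMap A (LaurentSeries A) a * (aeval t (Q' (some i)) * x i)
          = aeval t (P i) * x i := fun i => by
        rw [hPa i, map_mul, aeval_C, mul_assoc]
      rw [e1, h1]
      exact Finset.sum_congr rfl fun i _ => (e2 i).symm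
    exact sub_eq_zero.mp (redDVR_eq_zero_of_mul ha h3)
  -- reduce
  have h4 := congrArg (coeffMap (IsLocalRing.residue A)) h2
  rw [map_mul, map_sum] at h4
  simp_rw [map_mul, redDVR_coeffMap_aeval] at h4
  set r := IsLocalRing.residue A with hr
  have hmemc : ∀ Q₀ : Polynomial A,
      aeval (coeffMap r t) (Q₀.map r) ∈ adjoin (IsLocalRing.ResidueField A) {coeffMap r t} :=
    fun Q₀ => IntermediateField.algebra_adjoin_le_adjoin _ _
      (Polynomial.aeval_mem_adjoin_singleton _ _)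
  have hD' : (Q' none).map r ≠ 0 := by
    intro hD'
    rw [hD', map_zero, zero_mul] at h4
    have h5 := hind (fun i => aeval (coeffMap r t) ((Q' (some i)).map r))
      (fun i => hmemc _) h4.symm
    cases o₀ with
    | none => exact ho₀ hD'
    | some i => exact ho₀ (transcendental_iff.mp ht _ (h5 i))
  refine ⟨Q' none, fun i => Q' (some i), hD', h2, ?_⟩
  intro hY0 i
  rw [hY0, mul_zero] at h4
  have h5 := hind (fun i => aeval (coeffMap r t) ((Q' (some i)).map r))
    (fun i => hmemc _) h4.symm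
  exact transcendental_iff.mp ht _ (h5 i)

/-- `coeffMap` commutes with the evaluation of multivariate polynomials. -/
theorem frRed_coeffMap_mvAeval {R S σ : Type*} [CommRing R] [Field S] (f : R →+* S)
    (g : σ → LaurentSeries R) (P : MvPolynomial σ R) :
    coeffMap f (MvPolynomial.aeval g P) =
      MvPolynomial.aeval (fun i => coeffMap f (g i)) (MvPolynomial.map f P) := by
  induction P using MvPolynomial.induction_on with
  | C a =>
    rw [MvPolynomial.map_C, MvPolynomial.aeval_C, MvPolynomial.aeval_C]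
    exact redDVR_coeffMap_algebraMap f a
  | add p q hp hq =>
    rw [map_add, map_add, map_add, map_add, hp, hq]
  | mul_X p i hp =>
    rw [map_mul, map_mul, map_mul, map_mul, hp, MvPolynomial.aeval_X, MvPolynomial.map_X,
      MvPolynomial.aeval_X]

end Abstract

/-! ### The families `d ↦ j(q^d)` over any ring -/

section Families

variable (N : ℕ) [NeZero N]

/-- the family `d ↦ j(q^d)`, `d ∣ N`, over a commutative ring. -/
def jRfam (R : Type*) [CommRing R] : Dv N → LaurentSeries R := fun d => intJd R d.1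

omit [NeZero N] in
theorem coeffMap_jRfam {R S : Type*} [CommRing R] [CommRing S] (f : R →+* S) (d : Dv N) :
    coeffMap f (jRfam N R d) = jRfam N S d := coeffMap_intJd f d.1

theorem jRfam_Kb : jRfam N Kb = jBfam N := funext fun d => (fr_coe_jdF d.1 d.2).symm

omit [NeZero N] in
theorem jRfam_one (R : Type*) [CommRing R] : jRfam N R ⟨1, one_dvd N⟩ = jqModC R := intJd_one R

/-- `D(X₁)` as a multivariate polynomial. -/
def frE {R : Type*} [CommRing R] (D : Polynomial R) : MvPolynomial (Dv N) R :=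
  Polynomial.aeval (MvPolynomial.X (⟨1, one_dvd N⟩ : Dv N)) D

omit [NeZero N] in
theorem frE_aeval {R B : Type*} [CommRing R] [CommRing B] [Algebra R B] (g : Dv N → B)
    (D : Polynomial R) :
    MvPolynomial.aeval g (frE N D) = Polynomial.aeval (g ⟨1, one_dvd N⟩) D := by
  rw [frE, ← Polynomial.aeval_algHom_apply, MvPolynomial.aeval_X]

omit [NeZero N] in
theorem frE_map {R S : Type*} [CommRing R] [CommRing S] (f : R →+* S) (D : Polynomial R) :
    MvPolynomial.map f (frE N D) = frE N (D.map f) := by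
  rw [frE, frE, Polynomial.aeval_def, Polynomial.aeval_def, Polynomial.hom_eval₂,
    Polynomial.eval₂_map, MvPolynomial.map_X]
  congr 1
  ext a : 1
  simp [MvPolynomial.algebraMap_eq]

omit [NeZero N] in
/-- monomials in the `j(q^d)` are values of multivariate polynomials. -/
theorem frRed_exists_mv (R : Type*) [CommRing R] {x : LaurentSeries ℤ}
    (hx : x ∈ Submonoid.closure (gensZ N)) :
    ∃ M : MvPolynomial (Dv N) R,
      MvPolynomial.aeval (jRfam N R) M = coeffMap (Int.castRingHom R) x := by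
  induction hx using Submonoid.closure_induction with
  | mem z hz =>
    obtain ⟨d, hne, hd, rfl⟩ := hz
    refine ⟨MvPolynomial.X ⟨d, hd⟩, ?_⟩
    rw [MvPolynomial.aeval_X, ← intJd_eq, coeffMap_intJd]
    rfl
  | one => exact ⟨1, by rw [map_one, map_one]⟩
  | mul a b _ _ ha hb =>
    obtain ⟨Ma, hMa⟩ := ha
    obtain ⟨Mb, hMb⟩ := hb
    exact ⟨Ma * Mb, by rw [map_mul, map_mul, hMa, hMb]⟩

end Families

section Concrete

variable (N : ℕ) [NeZero N] (A : ValuationSubring Kb)

/-- **Expansion** of an `A`-integral element `Y` of `F_N`: `D(j) Y = R(j(q^d) : d ∣ N)` with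
`D ∈ A[X]`, `D̄ ≠ 0`, `R ∈ A[X_d]`; and `R̄ = 0` if `Ȳ = 0`. -/
theorem frRed_expand_mv (ℓ : ℕ) (hℓ : ℓ.Prime) (hℓN : ¬ ℓ ∣ N) (hA : A.LiesOverPrime ℓ)
    (Y : LaurentSeries A) (hY : kronIncl A Y ∈ modularFunctionFieldBar N) :
    ∃ (D : Polynomial A) (R : MvPolynomial (Dv N) A), D.map (IsLocalRing.residue A) ≠ 0 ∧
      Polynomial.aeval (jqModC A) D * Y = MvPolynomial.aeval (jRfam N A) R ∧
      (kronRed A Y = 0 → MvPolynomial.map (IsLocalRing.residue A) R = 0) := by
  have hNk := redF_natCast_ne_zero N A ℓ hℓ hℓN hA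
  obtain ⟨x, hx, hli⟩ := exists_monomials_full (k := kA A) N (primeHyp_of_dvd (kA A) N hNk)
  set X : Fin (dedekindPsi N) → LaurentSeries A := fun i => coeffMap (Int.castRingHom A) (x i)
    with hX
  set t : LaurentSeries A := jqModC A with htdef
  have htk : coeffMap (IsLocalRing.residue A) t = jqModC (kA A) := coeffMap_jqModC _
  have htK : coeffMap (algebraMap A Kb) t = jqModC Kb := coeffMap_jqModC _
  have hXk : ∀ i, coeffMap (IsLocalRing.residue A) (X i) =
      coeffMap (Int.castRingHom (kA A)) (x i) := fun i => by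
    rw [hX, coeffMap_coeffMap]
    exact coeffMap_congr (RingHom.ext_int _ _) _
  have hXK : ∀ i, coeffMap (algebraMap A Kb) (X i) = coeffMap (Int.castRingHom Kb) (x i) :=
    fun i => by
      rw [hX, coeffMap_coeffMap]
      exact coeffMap_congr (RingHom.ext_int _ _) _
  have ht : Transcendental (IsLocalRing.ResidueField A) (coeffMap (IsLocalRing.residue A) t) := by
    rw [htk]
    exact red_transcendental_jqModC _
  have hind : ∀ c : Fin (dedekindPsi N) → LaurentSeries (IsLocalRing.ResidueField A),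
      (∀ i, c i ∈ adjoin (IsLocalRing.ResidueField A) {coeffMap (IsLocalRing.residue A) t}) →
      ∑ i, c i * coeffMap (IsLocalRing.residue A) (X i) = 0 → ∀ i, c i = 0 := by
    intro c hc hsum
    rw [htk] at hc
    simp_rw [hXk] at hsum
    have h0 := Fintype.linearIndependent_iff.mp hli (fun i => ⟨c i, hc i⟩) (by
      rw [← hsum]
      exact Finset.sum_congr rfl fun i _ => rfl)
    intro i
    exact congrArg Subtype.val (h0 i)
  have hindK := redF_indep X t ht hind
  have hliK : LinearIndependent (adjoin Kb {jqModC Kb})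
      (fun i => coeffMap (Int.castRingHom Kb) (x i)) := by
    rw [Fintype.linearIndependent_iff]
    intro g hg i
    have h1 := hindK (fun i => (g i : LaurentSeries Kb)) (fun i => by rw [htK]; exact (g i).2)
      (by
        simp_rw [hXK]
        rw [← hg]
        exact Finset.sum_congr rfl fun i _ => rfl) i
    exact Subtype.ext h1
  have hfin := UB.finrank_full_le Kb (NeZero.ne N)
    (fun r hr _ => @ub_modEq Kb _ r ⟨hr.ne_zero⟩ hr)
  have hm : ∀ i, coeffMap (Int.castRingHom Kb) (x i) ∈ modularFunctionFieldFullC Kb N :=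
    fun i => redF_mem_full N Kb (hx i)
  have hYF : kronIncl A Y ∈ modularFunctionFieldFullC Kb N := by
    rw [← G2.hdeg_laurentBaseChange_full]
    exact hY
  obtain ⟨c, hc, hfc⟩ := exists_coeffs_of_linearIndependent (UB.K0 Kb)
    (modularFunctionFieldFullC Kb N) (UB.K0_le_full Kb N) hfin.1 hfin.2
    (fun i => coeffMap (Int.castRingHom Kb) (x i)) hm hliK _ hYF
  obtain ⟨D, P, hD, hDY, hP0⟩ := frRed_expand X t ht hind Y c (by rw [htK]; exact hc)
    (by simp_rw [hXK]; exact hfc)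
  choose M hM using fun i => frRed_exists_mv N A (hx i)
  refine ⟨D, ∑ i, frE N (P i) * M i, hD, ?_, ?_⟩
  · rw [hDY, map_sum]
    refine Finset.sum_congr rfl fun i _ => ?_
    rw [map_mul, frE_aeval, jRfam_one, hM]
  · intro hY0
    rw [map_sum]
    refine Finset.sum_eq_zero fun i _ => ?_
    rw [map_mul, frE_map, hP0 hY0 i]
    simp [frE]

/-! ### Values of polynomials in the `j(q^d)` -/

theorem fr_aeval_jBfam (Q : MvPolynomial (Dv N) Kb) :
    MvPolynomial.aeval (jBfam N) Q =
      ((MvPolynomial.aeval (jFfam N) Q : FF N) : LaurentSeries Kb) :=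
  (MvPolynomial.comp_aeval_apply (jFfam N)
    (IntermediateField.val (modularFunctionFieldBar N)) Q).symm

theorem fr_aeval_jBfam_frDv (Q : MvPolynomial (Dv N) Kb) :
    MvPolynomial.aeval (jBfam N ∘ frDv) Q =
      ((MvPolynomial.aeval (jFfam N ∘ frDv) Q : FF N) : LaurentSeries Kb) :=
  (MvPolynomial.comp_aeval_apply (jFfam N ∘ frDv)
    (IntermediateField.val (modularFunctionFieldBar N)) Q).symm

theorem frickeAut_aeval (Q : MvPolynomial (Dv N) Kb) :
    frickeAut N (MvPolynomial.aeval (jFfam N) Q) = MvPolynomial.aeval (jFfam N ∘ frDv) Q := by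
  have h := MvPolynomial.comp_aeval_apply (jFfam N) (frickeHom N) Q
  have h2 : (fun d => frickeHom N (jFfam N d)) = jFfam N ∘ frDv :=
    funext fun d => frickeHom_jFfam N d
  rw [h2] at h
  rw [frickeAut_apply]
  exact h

omit [NeZero N] in
theorem fr_coeffMap_aeval_jRfam {S : Type*} [Field S] (f : A →+* S) (g : Dv N → Dv N)
    (P : MvPolynomial (Dv N) A) :
    coeffMap f (MvPolynomial.aeval (jRfam N A ∘ g) P) =
      MvPolynomial.aeval (jRfam N S ∘ g) (MvPolynomial.map f P) := by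
  rw [frRed_coeffMap_mvAeval]
  have h : (fun i => coeffMap f ((jRfam N A ∘ g) i)) = jRfam N S ∘ g :=
    funext fun i => coeffMap_jRfam N f (g i)
  rw [h]

theorem fr_kronIncl_aeval (P : MvPolynomial (Dv N) A) :
    kronIncl A (MvPolynomial.aeval (jRfam N A) P) =
      MvPolynomial.aeval (jBfam N) (MvPolynomial.map A.subtype P) := by
  rw [← jRfam_Kb]
  exact fr_coeffMap_aeval_jRfam N A A.subtype id P

theorem fr_kronIncl_aeval_frDv (P : MvPolynomial (Dv N) A) :
    kronIncl A (MvPolynomial.aeval (jRfam N A ∘ frDv) P) =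
      MvPolynomial.aeval (jBfam N ∘ frDv) (MvPolynomial.map A.subtype P) := by
  rw [← jRfam_Kb]
  exact fr_coeffMap_aeval_jRfam N A A.subtype frDv P

omit [NeZero N] in
theorem fr_kronRed_aeval (g : Dv N → Dv N) (P : MvPolynomial (Dv N) A) :
    kronRed A (MvPolynomial.aeval (jRfam N A ∘ g) P) =
      MvPolynomial.aeval (jRfam N (kA A) ∘ g) (MvPolynomial.map (IsLocalRing.residue A) P) :=
  fr_coeffMap_aeval_jRfam N A (IsLocalRing.residue A) g P

theorem fr_kronIncl_aeval_mem (P : MvPolynomial (Dv N) A) :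
    kronIncl A (MvPolynomial.aeval (jRfam N A) P) ∈ modularFunctionFieldBar N := by
  rw [fr_kronIncl_aeval, fr_aeval_jBfam]
  exact Subtype.prop _

theorem fr_kronIncl_aeval_frDv_mem (P : MvPolynomial (Dv N) A) :
    kronIncl A (MvPolynomial.aeval (jRfam N A ∘ frDv) P) ∈ modularFunctionFieldBar N := by
  rw [fr_kronIncl_aeval_frDv, fr_aeval_jBfam_frDv]
  exact Subtype.prop _

omit [NeZero N] in
/-- a nonzero polynomial over a field does not vanish at `j(q^d)`, `d ≠ 0`. -/
theorem fr_aeval_intJd_ne_zero (k : Type*) [Field k] (d : ℕ) (hd : d ≠ 0) (D : Polynomial k)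
    (hD : D ≠ 0) : Polynomial.aeval (intJd k d) D ≠ 0 := by
  have : NeZero d := ⟨hd⟩
  rw [intJd_eq]
  have h1 : Polynomial.aeval (qExpand k d (jqModC k)) D =
      qExpandAlgHomC k d (Polynomial.aeval (jqModC k) D) := by
    rw [← Polynomial.aeval_algHom_apply]
    rfl
  rw [h1]
  intro h0
  have h2 : Polynomial.aeval (jqModC k) D = 0 :=
    (qExpandAlgHomC k d).toRingHom.injective (by rw [map_zero]; exact h0)
  exact hD (transcendental_iff.mp (red_transcendental_jqModC k) D h2)

/-! ### The Fricke involution in characteristic `ℓ` -/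

/-- **Relations mod `𝔪`** between the `j(q^d)` are relations between the `j(q^(N/d))`. -/
theorem fr_rel_res (ℓ : ℕ) (hℓ : ℓ.Prime) (hℓN : ¬ ℓ ∣ N) (hA : A.LiesOverPrime ℓ)
    (P : MvPolynomial (Dv N) A)
    (hP : kronRed A (MvPolynomial.aeval (jRfam N A) P) = 0) :
    kronRed A (MvPolynomial.aeval (jRfam N A ∘ frDv) P) = 0 := by
  have hN0 : N ≠ 0 := NeZero.ne N
  obtain ⟨D, R, hD, hDY, hR0⟩ := frRed_expand_mv N A ℓ hℓ hℓN hA _ (fr_kronIncl_aeval_mem N A P)
  have hR := hR0 hP
  -- the exact relation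
  have hrel : MvPolynomial.aeval (jRfam N A) (frE N D * P - R) = 0 := by
    rw [map_sub, map_mul, frE_aeval, jRfam_one, hDY, sub_self]
  have hrelB : MvPolynomial.aeval (jBfam N) (MvPolynomial.map A.subtype (frE N D * P - R)) = 0 := by
    rw [← fr_kronIncl_aeval, hrel, map_zero]
  have hrelB' := fr_rel _ hrelB
  rw [← fr_kronIncl_aeval_frDv] at hrelB'
  have hrel' : MvPolynomial.aeval (jRfam N A ∘ frDv) (frE N D * P - R) = 0 :=
    kronIncl_injective (A := A) (by rw [hrelB', map_zero])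
  -- reduce
  rw [map_sub, map_mul] at hrel'
  have h1 := congrArg (kronRed A) hrel'
  rw [map_zero, map_sub, map_mul] at h1
  have h2 : kronRed A (MvPolynomial.aeval (jRfam N A ∘ frDv) R) = 0 := by
    rw [fr_kronRed_aeval, hR, map_zero]
  rw [h2, sub_zero] at h1
  have h3 : kronRed A (MvPolynomial.aeval (jRfam N A ∘ frDv) (frE N D)) ≠ 0 := by
    rw [fr_kronRed_aeval, frE_map, frE_aeval]
    show Polynomial.aeval (intJd (kA A) (N / 1)) _ ≠ 0
    rw [Nat.div_one]
    exact fr_aeval_intJd_ne_zero (kA A) N hN0 _ hD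
  exact (mul_eq_zero.mp h1).resolve_left h3

/-- the same, as an equivalence. -/
theorem fr_rel_res_iff (ℓ : ℕ) (hℓ : ℓ.Prime) (hℓN : ¬ ℓ ∣ N) (hA : A.LiesOverPrime ℓ)
    (P : MvPolynomial (Dv N) A) :
    kronRed A (MvPolynomial.aeval (jRfam N A) P) = 0 ↔
      kronRed A (MvPolynomial.aeval (jRfam N A ∘ frDv) P) = 0 := by
  refine ⟨fr_rel_res N A ℓ hℓ hℓN hA P, fun h => ?_⟩
  have h1 : kronRed A (MvPolynomial.aeval (jRfam N A) (MvPolynomial.rename frDv P)) = 0 := by
    rw [MvPolynomial.aeval_rename]; exact h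
  have h2 := fr_rel_res N A ℓ hℓ hℓN hA _ h1
  rw [MvPolynomial.aeval_rename] at h2
  have h3 : (jRfam N A ∘ frDv) ∘ frDv = jRfam N A := by
    funext d
    simp only [Function.comp_apply, frDv_frDv]
  rwa [h3] at h2

/-- The Fricke involution and the Gauss reduction, polynomial form. -/
theorem fricke_gaussRed_one_of_mv (ℓ : ℕ) (hℓ : ℓ.Prime) (hℓN : ¬ ℓ ∣ N) (hA : A.LiesOverPrime ℓ)
    (x : FF N) (U V : MvPolynomial (Dv N) A)
    (hx : (x : LaurentSeries Kb) * kronIncl A (MvPolynomial.aeval (jRfam N A) V) =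
      kronIncl A (MvPolynomial.aeval (jRfam N A) U))
    (hV : kronRed A (MvPolynomial.aeval (jRfam N A) V) ≠ 0)
    (hUV : kronRed A (MvPolynomial.aeval (jRfam N A) U) =
      kronRed A (MvPolynomial.aeval (jRfam N A) V)) :
    GaussRed N A (frickeAut N x) 1 := by
  refine ⟨MvPolynomial.aeval (jRfam N A ∘ frDv) U, MvPolynomial.aeval (jRfam N A ∘ frDv) V,
    fr_kronIncl_aeval_frDv_mem N A U, fr_kronIncl_aeval_frDv_mem N A V, ?_, ?_, ?_⟩
  · intro h0
    exact hV ((fr_rel_res_iff N A ℓ hℓ hℓN hA V).mpr h0)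
  · rw [fr_kronIncl_aeval, fr_aeval_jBfam, fr_kronIncl_aeval, fr_aeval_jBfam] at hx
    have hx' : x * MvPolynomial.aeval (jFfam N) (MvPolynomial.map A.subtype V) =
        MvPolynomial.aeval (jFfam N) (MvPolynomial.map A.subtype U) := Subtype.ext hx
    have h1 := congrArg (frickeAut N) hx'
    rw [map_mul, frickeAut_aeval, frickeAut_aeval] at h1
    rw [fr_kronIncl_aeval_frDv, fr_aeval_jBfam_frDv, fr_kronIncl_aeval_frDv, fr_aeval_jBfam_frDv]
    exact congrArg Subtype.val h1
  · rw [one_mul]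
    have h1 : kronRed A (MvPolynomial.aeval (jRfam N A) (U - V)) = 0 := by
      rw [map_sub, map_sub, hUV, sub_self]
    have h2 := fr_rel_res N A ℓ hℓ hℓN hA _ h1
    rw [map_sub, map_sub, sub_eq_zero] at h2
    exact h2.symm

/-- **The Fricke involution preserves `≡ 1`** (Gauss reduction form). -/
theorem fricke_gaussRed_one (ℓ : ℕ) (hℓ : ℓ.Prime) (hℓN : ¬ ℓ ∣ N) (hA : A.LiesOverPrime ℓ)
    (x : FF N) (h : GaussRed N A x 1) : GaussRed N A (frickeAut N x) 1 := by
  obtain ⟨Y₁, Y₂, hY₁m, hY₂m, hY₂, hx, hw⟩ := h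
  rw [one_mul] at hw
  obtain ⟨D₁, R₁, hD₁, hDY₁, -⟩ := frRed_expand_mv N A ℓ hℓ hℓN hA Y₁ hY₁m
  obtain ⟨D₂, R₂, hD₂, hDY₂, -⟩ := frRed_expand_mv N A ℓ hℓ hℓN hA Y₂ hY₂m
  have hU : MvPolynomial.aeval (jRfam N A) (R₁ * frE N D₂) =
      Polynomial.aeval (jqModC A) D₁ * Polynomial.aeval (jqModC A) D₂ * Y₁ := by
    rw [map_mul, frE_aeval, jRfam_one, ← hDY₁]
    ring
  have hV : MvPolynomial.aeval (jRfam N A) (frE N D₁ * R₂) =
      Polynomial.aeval (jqModC A) D₁ * Polynomial.aeval (jqModC A) D₂ * Y₂ := by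
    rw [map_mul, frE_aeval, jRfam_one, ← hDY₂]
    ring
  have hne : ∀ D : Polynomial A, D.map (IsLocalRing.residue A) ≠ 0 →
      kronRed A (Polynomial.aeval (jqModC A) D) ≠ 0 := by
    intro D hD
    rw [redDVR_coeffMap_aeval, coeffMap_jqModC, ← intJd_one]
    exact fr_aeval_intJd_ne_zero (kA A) 1 one_ne_zero _ hD
  refine fricke_gaussRed_one_of_mv N A ℓ hℓ hℓN hA x (R₁ * frE N D₂) (frE N D₁ * R₂) ?_ ?_ ?_
  · rw [hU, hV, map_mul (kronIncl A) _ Y₂, map_mul (kronIncl A) _ Y₁, ← hx]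
    ring
  · rw [hV, map_mul (kronRed A) _ Y₂, map_mul (kronRed A)]
    exact mul_ne_zero (mul_ne_zero (hne D₁ hD₁) (hne D₂ hD₂)) hY₂
  · rw [hU, hV, map_mul (kronRed A) _ Y₁, map_mul (kronRed A) _ Y₂, hw]

/-- **The Fricke involution preserves `≡ 1`**: clause 2 of `StmtFricke`. -/
theorem fricke_reducesToOne (ℓ : ℕ) (hℓ : ℓ.Prime) (hℓN : ¬ ℓ ∣ N) (hA : A.LiesOverPrime ℓ)
    (x : FF N) (h : G2.ReducesToOne A N x) : G2.ReducesToOne A N (frickeAut N x) :=
  (gr_reducesToOne_iff N A _).mpr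
    (fricke_gaussRed_one N A ℓ hℓ hℓN hA x ((gr_reducesToOne_iff N A x).mp h))

end Concrete

end Fermat.Agent.ES.M

end
end ZBES_001_25

/-! ### bundled: `Fermat.Agent.ES.I2.Nilp` -/
section ZBES_001_26

/-!
# ES / I2 — piece `I2-Nilp`: the abstract nilpotent-trace lemma

`stmtNilp : StmtNilp`.  In a field `Ω` that is an algebra over `k[X]` with injective structure map
(`X ↦ J`): if `Z_i ^ M = (J - c) U_i` with `U_i` integral over `k[X]` and `Σ Z_i` is the image of
`P`, then `P(c) = 0`.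

Proof: in the integral closure `B` of `k[X]` in `Ω`, every `Z_i` lies in `rad ((J - c) B)`, hence
so does the image of `P`, hence so does the constant `P(c)` (`X - c ∣ P - P(c)`).  If `P(c) ≠ 0`
this is a unit, so `J - c` is a unit of `B`; `B` is integral over `k[X]` and `k[X] → B` is
injective, so `k[X] → B` is a local homomorphism and `X - c` is a unit of `k[X]`, absurd.
-/

set_option autoImplicit false

namespace Fermat.Agent.ES.I2

/-- the abstract nilpotent-trace lemma over `k[X]` -/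
theorem nilp_core {k Ω : Type*} [Field k] [Field Ω] [Algebra (Polynomial k) Ω]
    (hinj : Function.Injective (algebraMap (Polynomial k) Ω))
    {n : ℕ} (Z U : Fin n → Ω) (c : k) (M : ℕ) (hM : 0 < M)
    (hZ : ∀ i, Z i ^ M = algebraMap (Polynomial k) Ω (Polynomial.X - Polynomial.C c) * U i)
    (hU : ∀ i, IsIntegral (Polynomial k) (U i))
    (P : Polynomial k) (hP : ∑ i, Z i = algebraMap (Polynomial k) Ω P) : P.eval c = 0 := by
  by_contra hne
  have hZB : ∀ i, Z i ∈ integralClosure (Polynomial k) Ω := fun i => by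
    have h1 : IsIntegral (Polynomial k) (Z i ^ M) := by
      rw [hZ]; exact isIntegral_algebraMap.mul (hU i)
    exact h1.of_pow hM
  let B := integralClosure (Polynomial k) Ω
  let I : Ideal B := Ideal.span {algebraMap (Polynomial k) B (Polynomial.X - Polynomial.C c)}
  have hZr : ∀ i, (⟨Z i, hZB i⟩ : B) ∈ I.radical := fun i => by
    refine ⟨M, ?_⟩
    rw [Ideal.mem_span_singleton']
    refine ⟨⟨U i, hU i⟩, ?_⟩
    apply Subtype.ext
    simp only [MulMemClass.coe_mul, SubmonoidClass.coe_pow]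
    rw [hZ i, mul_comm]
    rfl
  have hsum : (∑ i, (⟨Z i, hZB i⟩ : B)) ∈ I.radical := Ideal.sum_mem _ (fun i _ => hZr i)
  have hsumeq : (∑ i, (⟨Z i, hZB i⟩ : B)) = algebraMap (Polynomial k) B P := by
    apply Subtype.ext
    rw [AddSubmonoidClass.coe_finsetSum]
    exact hP
  rw [hsumeq] at hsum
  obtain ⟨Q, hQ⟩ := Polynomial.X_sub_C_dvd_sub_C_eval (a := c) (p := P)
  have hC : algebraMap (Polynomial k) B (Polynomial.C (P.eval c)) ∈ I.radical := by
    have h1 : algebraMap (Polynomial k) B (Polynomial.C (P.eval c)) =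
        algebraMap (Polynomial k) B P -
          algebraMap (Polynomial k) B (Polynomial.X - Polynomial.C c) *
            algebraMap (Polynomial k) B Q := by
      rw [← map_mul, ← hQ, map_sub, sub_sub_cancel]
    rw [h1]
    exact Ideal.sub_mem _ hsum
      (Ideal.le_radical (Ideal.mul_mem_right _ _ (Ideal.subset_span rfl)))
  have hunit : IsUnit (algebraMap (Polynomial k) B (Polynomial.C (P.eval c))) :=
    (Polynomial.isUnit_C.2 (isUnit_iff_ne_zero.2 hne)).map _
  have htop : I.radical = ⊤ := Ideal.eq_top_of_isUnit_mem _ hC hunit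
  have htop' : I = ⊤ := Ideal.radical_eq_top.1 htop
  have hu : IsUnit (algebraMap (Polynomial k) B (Polynomial.X - Polynomial.C c)) :=
    Ideal.span_singleton_eq_top.1 htop'
  have hinjB : Function.Injective (algebraMap (Polynomial k) B) := by
    intro x y hxy
    apply hinj
    exact congrArg Subtype.val hxy
  have : FaithfulSMul (Polynomial k) B := (faithfulSMul_iff_algebraMap_injective _ _).2 hinjB
  have h2 := (Algebra.IsIntegral.isLocalHom (Polynomial k) B).map_nonunit _ hu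
  exact Polynomial.not_isUnit_X_sub_C c h2

/-- piece `I2-Nilp` -/
theorem stmtNilp : StmtNilp := by
  intro k _ J hJ n Z U c M hM hZ hU P hP
  let _ : Algebra (Polynomial k) (LaurentSeries k) := (Polynomial.aeval J).toRingHom.toAlgebra
  have hinj : Function.Injective (algebraMap (Polynomial k) (LaurentSeries k)) := by
    rw [injective_iff_map_eq_zero]
    intro p hp
    exact hJ p hp
  refine nilp_core hinj Z U c M hM ?_ (fun i => hU i) P hP
  intro i
  rw [hZ i]
  congr 1
  show _ = Polynomial.aeval J (Polynomial.X - Polynomial.C c)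
  rw [map_sub, Polynomial.aeval_X, Polynomial.aeval_C, Fermat.Agent.ES.M.algebraMap_eq_hahnC]

end Fermat.Agent.ES.I2


end ZBES_001_26

/-! ### bundled: `Fermat.Agent.ES.I2.Count` -/
section ZBES_001_27

/-!
# ES / I2-Count: the final count

`stmtCountGlue : StmtCountGlue`
(`= StmtTauAll → StmtMFkAll → StmtConstAll → StmtResAll → StmtBAll → StmtI2All`, interface
`ES/I2/Plan2.lean`): the linear count `I2aux.i2_count` with `W n := Wn N A n` and
`F t := coeffMap _ (fqZ (z t))` for the integral basis of `StmtB`.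
-/

set_option autoImplicit false

noncomputable section

namespace Fermat.Agent.ES.I2

open ModularCurve AlgebraicCurve HahnSeries Fermat.Agent.ES Fermat.Agent.S24 Fermat.Agent.ES.M

/-- the count at one `(N, A)`, from the four inputs at `(N, A)`. -/
theorem cnt2_stmtI2 (N : ℕ) [NeZero N] (A : ValuationSubring Kb)
    (hTau : StmtTau N A) (hMFk : StmtMFk N A) (hConst : StmtConst N A) (hRes : StmtRes N A)
    (hB : StmtB N A) : StmtI2 N A := by
  obtain ⟨τ, i₀, hτ⟩ := hTau
  obtain ⟨f, z, hz, hli⟩ := hB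
  exact Fermat.Agent.ES.I2aux.i2_count (fun n => Wn N A n)
    (fun n w hw => ((mem_Wn N A).1 hw).2) (gN N)
    (fun t => coeffMap (Int.castRingHom (kA A)) (fqZ (z t)))
    (fun t => (hMFk τ i₀ hτ (f t) (z t) (hz t)).1) hli
    (fun n w hw t => hRes w ((mem_Wn N A).1 hw).1 (f t) (z t) (hz t))
    (fun n w hw h0 => hConst w ((mem_Wn N A).1 hw).1 h0)

/-- piece `I2-Count`. -/
theorem stmtCountGlue : StmtCountGlue := by
  intro hTau hMFk hConst hRes hB N _ ℓ hℓ h5 hℓN A hA
  exact cnt2_stmtI2 N A (hTau N ℓ hℓ hℓN A hA) (hMFk N ℓ hℓ hℓN A hA) (hConst N ℓ hℓ hℓN A hA)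
    (hRes N ℓ hℓ h5 hℓN A hA) (hB N ℓ hℓ A hA)

end Fermat.Agent.ES.I2

end
end ZBES_001_27

/-! ### bundled: `Fermat.Agent.ES.I2aux.Target` -/
section ZBES_001_28

/-!
# ES / I2aux: the target statement

`(I2)` (`dim W_n ≤ n + 1 - g`) for `ℓ ∈ {2, 3}`, at the levels `N` divisible by the auxiliary
prime `5 - ℓ` (the Hauptmodul line of `X₀(5 - ℓ)` replaces the `j`-line).  Consumer:
`ES/M/Final.lean`.
-/

set_option autoImplicit false

noncomputable section

namespace Fermat.Agent.ES.M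

open Fermat.Agent.S24

/-- `(I2)` for `ℓ ∈ {2, 3}`, at the levels divisible by the auxiliary prime `5 - ℓ`. -/
def StmtI2AuxAll : Prop :=
  ∀ (N : ℕ) [NeZero N] (ℓ : ℕ), ℓ.Prime → ℓ < 5 → ¬ ℓ ∣ N → (5 - ℓ) ∣ N →
    ∀ A : ValuationSubring Kb, A.LiesOverPrime ℓ → StmtI2 N A

end Fermat.Agent.ES.M

end
end ZBES_001_28

/-! ### bundled: `Fermat.Agent.ES.I2aux.Plan` -/
section ZBES_001_29

/-!
# ES / I2aux — `(I2)` for `ℓ ∈ {2, 3}` on the Hauptmodul line: interface

Target: `Fermat.Agent.ES.M.StmtI2AuxAll` (`ES/I2aux/Target.lean`).  `r = 5 - ℓ ∈ {3, 2}` is the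
auxiliary prime, `r ∣ N`, `h = auxH r` the Hauptmodul of `X₀(r)` (`hm2Z`, `hm3Z` of
`INJ/Hauptmodul.lean`), `c₀ = auxC r` the elliptic point of `X₀(r)` on the `h`-line
(`r = 2`: `c₀ = -64`, of order `2`; `r = 3`: `c₀ = -27`, of order `3`).

The proof is the one of `(I2)` on the `j`-line (`NOTES/ES-I2.md`) with the differential
`f = y_h θh`, `y_h = Yh / (h - c₀)`, in place of `f = y_j θj`, `y_j = Yt / (j (j - 1728))`:

* `StmtMFh` (characteristic `0`, pure algebra on top of `StmtMF`):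
  `Yh := f (h - c₀) / θh ∈ ℤ((q))`, `Yh' := Yh ^ r / (h - c₀) ∈ ℤ((q))`, both in `F_N` and integral
  over `ℚ̄[j]`.
  `r = 2`: `Yh = Yt h / ((h + 256) (h - 512))`, `Yh' = Y2 / (h + 256)²`,
          `Yh⁶ = Y2³ (h + 64)³ / (h + 256)⁶ = Y1² (h + 64)² / (h² (h - 512)²)`;
  `r = 3`: `Yh = Yt h² / ((h + 243) Q)`, `Q = h² - 486 h - 19683`, `Yh' = Y1 / Q`,
          `Yh⁶ = Y2³ h³ / (h + 243)⁶ = Y1² (h + 27)² / Q²`;
  integrality: the two denominators are coprime in `ℚ[h]`, and `h` is integral over `ℚ̄[j]`.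
* `StmtMFhk` : the same in characteristic `ℓ` (reduction: `StmtIR`, `(RedF)`).
* abstract core (`ES/I2aux/HLine*.lean`): partial traces over `k(h̄)` through the fibres of
  `i ↦ τ_i h̄`, the nilpotent trace (`NilpTrace.lean`), residues (`Residue.lean`).
* `StmtI2AuxCore` : the assembly.
-/

set_option autoImplicit false

noncomputable section

namespace Fermat.Agent.ES.I2aux

open ModularCurve AlgebraicCurve HahnSeries Fermat.Agent.ES Fermat.Agent.S24 Fermat.Agent.ES.M
open Fermat.Agent.ES.I2 Fermat.Agent.INJ Fermat.Agent.S28.Deriv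

/-- the Hauptmodul of `X₀(r)`, `r ∈ {2, 3}`, in `ℤ((q))` (junk value `hm3Z` for other `r`) -/
def auxH (r : ℕ) : LaurentSeries ℤ := if r = 2 then hm2Z else hm3Z

/-- the elliptic point of `X₀(r)` on the `h`-line: `-64` for `r = 2`, `-27` for `r = 3` -/
def auxC (r : ℕ) : ℤ := if r = 2 then -64 else -27

theorem auxH_two : auxH 2 = hm2Z := if_pos rfl

theorem auxH_three : auxH 3 = hm3Z := if_neg (by decide)

theorem auxC_two : auxC 2 = -64 := if_pos rfl

theorem auxC_three : auxC 3 = -27 := if_neg (by decide)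

/-- the Hauptmodul of `X₀(r)` over `K` -/
def auxHK (K : Type*) [CommRing K] (r : ℕ) : LaurentSeries K :=
  coeffMap (Int.castRingHom K) (auxH r)

theorem auxHK_two (K : Type*) [CommRing K] : auxHK K 2 = hm2 K := by
  rw [auxHK, auxH_two, hm2]

theorem auxHK_three (K : Type*) [CommRing K] : auxHK K 3 = hm3 K := by
  rw [auxHK, auxH_three, hm3]

/-- **(MFh)** characteristic `0`: the functions `Yh = f (h - c₀) / θh` and
`Yh' = Yh ^ r / (h - c₀)` attached to a cusp form `f` of weight `2` with integral `q`-expansion: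
they have integral `q`-expansion, lie in `F_N`, and are integral over `ℚ̄[j]`. -/
def StmtMFh (N : ℕ) [NeZero N] (r : ℕ) : Prop :=
  ∀ (f : CuspForm (CongruenceSubgroup.Gamma0 N) 2) (z : ℕ → ℤ),
    (∀ n, ModularFormClass.qCoeff f n = (z n : ℂ)) →
    ∃ Yh Yh' : LaurentSeries ℤ,
      Yh * thetaFun (auxH r) = fqZ z * (auxH r - (auxC r : LaurentSeries ℤ)) ∧
      Yh ^ r = (auxH r - (auxC r : LaurentSeries ℤ)) * Yh' ∧
      (coeffMap (Int.castRingHom Kb) Yh ∈ modularFunctionFieldBar N ∧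
        IntJ jBar (coeffMap (Int.castRingHom Kb) Yh)) ∧
      (coeffMap (Int.castRingHom Kb) Yh' ∈ modularFunctionFieldBar N ∧
        IntJ jBar (coeffMap (Int.castRingHom Kb) Yh'))

def StmtMFhAll : Prop :=
  ∀ (N : ℕ) [NeZero N] (r : ℕ), r = 2 ∨ r = 3 → r ∣ N → StmtMFh N r

/-- piece `aux-MFh` -/
def StmtMFhGlue : Prop := StmtMFAll → StmtMFhAll

/-- **(MFhk)** the same in characteristic `ℓ`. -/
def StmtMFhk (N : ℕ) [NeZero N] (A : ValuationSubring Kb) (r : ℕ) : Prop :=
  ∀ (f : CuspForm (CongruenceSubgroup.Gamma0 N) 2) (z : ℕ → ℤ),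
    (∀ n, ModularFormClass.qCoeff f n = (z n : ℂ)) →
    ∃ yh yh' : ↥(modularFunctionFieldFullC (kA A) N),
      (yh : LaurentSeries (kA A)) * thetaFun (auxHK (kA A) r) =
        coeffMap (Int.castRingHom (kA A)) (fqZ z) *
          (auxHK (kA A) r - (auxC r : LaurentSeries (kA A))) ∧
      (yh : LaurentSeries (kA A)) ^ r =
        (auxHK (kA A) r - (auxC r : LaurentSeries (kA A))) * (yh' : LaurentSeries (kA A)) ∧
      IntJ (jqModC (kA A)) (yh : LaurentSeries (kA A)) ∧
      IntJ (jqModC (kA A)) (yh' : LaurentSeries (kA A))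

def StmtMFhkAll : Prop :=
  ∀ (N : ℕ) [NeZero N] (ℓ : ℕ), ℓ.Prime → ¬ ℓ ∣ N →
    ∀ A : ValuationSubring Kb, A.LiesOverPrime ℓ →
      ∀ r : ℕ, r = 2 ∨ r = 3 → r ∣ N → StmtMFhk N A r

/-- piece `aux-MFhk` -/
def StmtMFhkGlue : Prop := StmtIRAll → StmtMFhAll → StmtMFhkAll

/-- **(Const)** `W ∩ q k[[q]] = 0` (the hypothesis `hconst` of `i2_count`). -/
def StmtConst (N : ℕ) [NeZero N] (A : ValuationSubring Kb) : Prop :=
  ∀ w : LaurentSeries (kA A), InW N A w → (∀ m : ℤ, m ≤ 0 → w.coeff m = 0) → w = 0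

def StmtConstAll : Prop :=
  ∀ (N : ℕ) [NeZero N] (ℓ : ℕ), ℓ.Prime → ¬ ℓ ∣ N →
    ∀ A : ValuationSubring Kb, A.LiesOverPrime ℓ → StmtConst N A

/-- piece `aux-Const` -/
def StmtConstGlue : Prop := StmtTN → StmtS2All → StmtTauAll → StmtConstAll

/-- the assembly of `(I2)` for `ℓ ∈ {2, 3}` -/
def StmtI2AuxCore : Prop :=
  StmtTN → StmtS2All → StmtTauAll → StmtMFkAll → StmtMFhkAll → StmtBAll → StmtConstAll →
    StmtI2AuxAll

end Fermat.Agent.ES.I2aux

end
end ZBES_001_29

/-! ### bundled: `Fermat.Agent.ES.I2aux.PlanPT` -/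
section ZBES_001_30

/-!
# ES / I2aux — interface, part 2: partial traces through the fibres of `i ↦ τ_i h`

`k` perfect of characteristic `ℓ`, `(N : k) ≠ 0`, `F_k = modularFunctionFieldFullC k N`,
`τ_i : F_k → k((Q))`, `i < ψ(N)`, the full family of embeddings over `k(j̄)` (`τ_i j̄ = J`), and
`h ∈ F_k` with `j̄ ∈ k(h)`.  The embeddings with the same value `τ_i h = e` are exactly the
`[F_k : k(h)]` embeddings of `F_k` over `k(h)` (with `h ↦ e`), so

  `∑_{i : τ_i h = τ_{i₁} h} τ_i x = τ_{i₁} (Tr_{F_k / k(h)} x)`,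

and all fibres have the same cardinality `[F_k : k(h)] ≥ 1`.

Proof: the fibre over `e` injects into the `k(h)`-embeddings `F_k → k((Q))`, at most
`[F_k : k(h)]` of them (`card_algHom_le_finrank`); the set of values `e` injects into the
`k(j̄)`-embeddings `k(h) → k((Q))`, at most `[k(h) : k(j̄)]`; the sum of the cardinalities is
`ψ(N) = [F_k : k(j̄)] = [F_k : k(h)] [k(h) : k(j̄)]` (`ES/I2/TraceNorm.lean`: `tn_finrank`), so
all inequalities are equalities; then `ES/I2/Embed.lean` (`trace_eq_sum_of_embeddings`) over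
`k(h)`; `F_k / k(h)` is separable (`INJ.isSeparable_of_theta` or the tower).
-/

set_option autoImplicit false

noncomputable section

namespace Fermat.Agent.ES.I2aux

open ModularCurve IntermediateField Fermat.Agent.ES Fermat.Agent.S24 Fermat.Agent.ES.M
open Fermat.Agent.ES.I2

/-- `F_k` as an extension of `k(h)` -/
abbrev ptL (k : Type) [Field k] (N : ℕ) [NeZero N] (h : LaurentSeries k)
    (hle : k⟮h⟯ ≤ modularFunctionFieldFullC k N) :
    IntermediateField k⟮h⟯ (LaurentSeries k) :=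
  extendScalars hle

open scoped Classical in
/-- **(PT)** partial traces through the fibres of `i ↦ τ_i h`. -/
def StmtPT : Prop :=
  ∀ (k : Type) [Field k] (ℓ : ℕ) [Fact ℓ.Prime] [CharP k ℓ] [PerfectRing k ℓ]
    (N : ℕ) [NeZero N], (N : k) ≠ 0 →
    ∀ τ : Fin (dedekindPsi N) → (↥(modularFunctionFieldFullC k N) →ₐ[k] LaurentSeries k),
      Function.Injective τ →
      (∀ i, τ i ⟨jqModC k, jqModC_mem_full k N⟩ = qExpand k N (jqModC k)) →
      ∀ (h : LaurentSeries k) (hle : k⟮h⟯ ≤ modularFunctionFieldFullC k N),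
        jqModC k ∈ k⟮h⟯ →
        (∃ d : ℕ, 0 < d ∧ ∀ i₁ : Fin (dedekindPsi N),
          (Finset.univ.filter (fun i => τ i ⟨h, hle (mem_adjoin_simple_self k h)⟩ =
            τ i₁ ⟨h, hle (mem_adjoin_simple_self k h)⟩)).card = d) ∧
        ∀ (i₁ : Fin (dedekindPsi N)) (x : ↥(ptL k N h hle)),
          ∑ i ∈ Finset.univ.filter (fun i => τ i ⟨h, hle (mem_adjoin_simple_self k h)⟩ =
              τ i₁ ⟨h, hle (mem_adjoin_simple_self k h)⟩), τ i ⟨x.1, x.2⟩ =
            τ i₁ ⟨((Algebra.trace ↥(k⟮h⟯) ↥(ptL k N h hle) x : ↥(k⟮h⟯)) : LaurentSeries k),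
              hle (Algebra.trace ↥(k⟮h⟯) ↥(ptL k N h hle) x).2⟩

end Fermat.Agent.ES.I2aux

end
end ZBES_001_30
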