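/- GENERATED FILE (helper35, build-time optimisation, NOTES/ZB.md): verbatim concatenation of the modules
   Fermat.Agent.Cheb.Plan
   Fermat.Agent.Cheb.Density
   Fermat.Agent.Cheb.PrimeSumCore
   Fermat.Agent.Cheb.PrimeSum
   Fermat.Agent.Cheb.Split
   Fermat.Agent.Cheb.CyclicSplit
   Fermat.Agent.Cheb.Stab
   Fermat.Agent.Cheb.Glue
   Fermat.Agent.Cheb.Assembly
   Fermat.Agent.S42.Plan
   Fermat.Agent.S42.Cyclo
   Fermat.Agent.S30.Cyclo
   Fermat.Agent.S42.Hull
   Fermat.Agent.S31.Plan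
   Fermat.Agent.S31.FaithLattice
   Fermat.Agent.S34.Plan
   Fermat.Agent.UNIP.Stmt
   Fermat.Agent.S31.Lucas
   Fermat.Agent.S31.Helpers
   Do not edit; do not import together with these modules. -/
import Mathlib
import Fermat.Prelude.Def_EllipticCurve_FrobeniusTrace
import Fermat.Agent.ZB.S14_001
import Fermat.Prelude.Def_FLTPrelim_Ramification
import Fermat.Agent.ZB.Common_003
import Fermat.Agent.ZB.ES_001
import Fermat.Prelude.Def_FreyPackage_EigenformResidualAttachment
import Fermat.Prelude.Def_GaloisRep_ComplexConjugation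
import Fermat.Prelude.Def_CuspForm_HeckeGaloisRepDatum
import Fermat.Prelude.Def_CuspForm_HeckeEvalForms
import Fermat.Prelude.Def_GaloisRep_LocalConditions

/-! ### bundled: `Fermat.Agent.Cheb.Plan` -/
section ZBCheb_001_0
/-
Weak Chebotarev (item 70, captain helper26): INTERFACE FILE (definitions only, no proofs).

Final statement `WeakChebotarev`: for `F/ℚ` finite Galois inside `ℚ̄`, a finite set `S` of primes and
`σ ∈ G_ℚ` there are a prime `ℓ ∉ S`, a valuation subring `A` of `ℚ̄` over `ℓ`, a Frobenius `τ` at `A`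
and `m : ℕ` with `(τ ^ m)|F = σ|F`.

Pieces (each piece is a `Prop` below; the piece's theorem proves that `Prop`):
* `StmtPrimeSum`  (C1)  `∑_v Nv^{-s} = log (1/(s-1)) + O(1)`; primes of degree `≥ 2` contribute `O(1)`.
* `StmtSplit`     (C2)  primes splitting completely in a Galois extension of degree `d`: density `1/d`.
* `StmtCyclic`    (C3)  cyclic `F/E`: there is a degree one prime of `E`, of norm outside `S`, with
                        exactly one prime of `F` above it.
* `StmtCyclicSplit` (C3a) splitting in the subfield of degree `d` of a cyclic extension.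
* `StmtStab`      (C6)  unramified `P`: every `σ` in the stabiliser of `P` is a power of a Frobenius.
* `StmtGlue`      (C4)  a Frobenius at `P ⊂ 𝓞 F` is the restriction of a Frobenius at some `A ⊂ ℚ̄`.
-/

set_option autoImplicit false

namespace Fermat.Agent.Cheb

open NumberField IsDedekindDomain
open scoped Pointwise

/-- `A` has logarithmic density `δ`, with bounded error on `(1,2)`:
`∑_{v ∈ A} Nv^{-s} = δ log (1/(s-1)) + O(1)`. -/
def HasLogDensity {E : Type} [Field E] [NumberField E]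
    (A : Set (HeightOneSpectrum (𝓞 E))) (δ : ℝ) : Prop :=
  ∃ C : ℝ, ∀ s : ℝ, 1 < s → s < 2 →
    |A.primeIdealZetaSum s - δ * Real.log (1 / (s - 1))| ≤ C

/-- (C1) prime ideal sums of a number field. -/
def StmtPrimeSum : Prop :=
  ∀ (E : Type) [Field E] [NumberField E],
    (∀ s : ℝ, 1 < s →
      Summable fun v : HeightOneSpectrum (𝓞 E) ↦ (Ideal.absNorm v.asIdeal : ℝ) ^ (-s)) ∧
    HasLogDensity (Set.univ : Set (HeightOneSpectrum (𝓞 E))) 1 ∧
    HasLogDensity {v : HeightOneSpectrum (𝓞 E) | ¬ (Ideal.absNorm v.asIdeal).Prime} 0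

/-- `v` splits completely in `F`: there are exactly `[F : E]` primes of `𝓞 F` above `v`. -/
def SplitsCompletely {E : Type} [Field E] [NumberField E] (F : Type) [Field F] [NumberField F]
    [Algebra E F] (v : HeightOneSpectrum (𝓞 E)) : Prop :=
  (Ideal.primesOver v.asIdeal (𝓞 F)).ncard = Module.finrank E F

/-- (C2) the primes splitting completely in a Galois extension of degree `d` have density `1/d`. -/
def StmtSplit : Prop :=
  ∀ (E F : Type) [Field E] [NumberField E] [Field F] [NumberField F] [Algebra E F] [IsGalois E F],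
    HasLogDensity {v : HeightOneSpectrum (𝓞 E) | SplitsCompletely F v}
      (1 / (Module.finrank E F : ℝ))

/-- (C3) in a cyclic extension there is a degree one prime, of norm outside `S`, with a unique
prime above it. -/
def StmtCyclic : Prop :=
  ∀ (E F : Type) [Field E] [NumberField E] [Field F] [NumberField F] [Algebra E F] [IsGalois E F]
    [IsCyclic (F ≃ₐ[E] F)] (S : Finset ℕ),
    ∃ v : HeightOneSpectrum (𝓞 E), (Ideal.absNorm v.asIdeal).Prime ∧
      Ideal.absNorm v.asIdeal ∉ S ∧ (Ideal.primesOver v.asIdeal (𝓞 F)).ncard = 1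

/-- (C3a) algebra of a cyclic extension `F/E` of degree `n`: for every `d ∣ n` there is a Galois
extension `M/E` of degree `d` (the fixed field of the subgroup of index `d`) such that a prime `v` of `E`
splits completely in `M` iff `d` divides the number of primes of `F` above `v`.
(No ramification hypothesis is needed: #primes of `M` above `v` = `[C : H·D] = gcd(d, g)`.) -/
def StmtCyclicSplit : Prop :=
  ∀ (E F : Type) [Field E] [NumberField E] [Field F] [NumberField F] [Algebra E F] [IsGalois E F]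
    [IsCyclic (F ≃ₐ[E] F)] (d : ℕ), d ∣ Module.finrank E F →
    ∃ (M : Type) (_ : Field M) (_ : NumberField M) (_ : Algebra E M) (_ : IsGalois E M),
      Module.finrank E M = d ∧
      ∀ v : HeightOneSpectrum (𝓞 E),
        SplitsCompletely M v ↔ d ∣ (Ideal.primesOver v.asIdeal (𝓞 F)).ncard

/-- (C6) at an unramified prime the stabiliser is generated by a Frobenius. -/
def StmtStab : Prop :=
  ∀ (F : Type) [Field F] [NumberField F] [IsGalois ℚ F] (P : Ideal (𝓞 F)) [P.IsPrime],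
    P ≠ ⊥ → Algebra.IsUnramifiedAt ℤ P → ∀ σ : F ≃ₐ[ℚ] F, σ • P = P →
      ∃ (φ : F ≃ₐ[ℚ] F) (m : ℕ), IsArithFrobAt ℤ φ P ∧ σ = φ ^ m

/-- (C4) glue to `ℚ̄`: a Frobenius at a prime `P` of `𝓞 F` over `ℓ` (unramified) is the restriction
of a Frobenius at a valuation subring of `ℚ̄` over `ℓ`. -/
def StmtGlue : Prop :=
  ∀ (F : IntermediateField ℚ (AlgebraicClosure ℚ)) [NumberField F] [IsGalois ℚ F]
    (P : Ideal (𝓞 F)) [P.IsPrime] (ℓ : ℕ), ℓ.Prime → (ℓ : 𝓞 F) ∈ P →
    Algebra.IsUnramifiedAt ℤ P → ∀ φ : F ≃ₐ[ℚ] F, IsArithFrobAt ℤ φ P →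
      ∃ (A : ValuationSubring (AlgebraicClosure ℚ))
        (τ : AlgebraicClosure ℚ ≃ₐ[ℚ] AlgebraicClosure ℚ),
        A.LiesOverPrime ℓ ∧ A.IsFrobeniusAt τ ℓ ∧ ∀ x : F, τ (x : AlgebraicClosure ℚ) = φ x

/-- The final statement. -/
def WeakChebotarev : Prop :=
  ∀ (F : IntermediateField ℚ (AlgebraicClosure ℚ)) [FiniteDimensional ℚ F] [IsGalois ℚ F]
    (S : Finset ℕ) (σ : AlgebraicClosure ℚ ≃ₐ[ℚ] AlgebraicClosure ℚ),
    ∃ (ℓ : ℕ) (A : ValuationSubring (AlgebraicClosure ℚ))
      (τ : AlgebraicClosure ℚ ≃ₐ[ℚ] AlgebraicClosure ℚ) (m : ℕ),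
      ℓ.Prime ∧ ℓ ∉ S ∧ A.LiesOverPrime ℓ ∧ A.IsFrobeniusAt τ ℓ ∧
        ∀ x ∈ F, (τ ^ m) x = σ x

end Fermat.Agent.Cheb


end ZBCheb_001_0

/-! ### bundled: `Fermat.Agent.Cheb.Density` -/
section ZBCheb_001_1
/-
Weak Chebotarev, piece C1b (helper26): algebra of `HasLogDensity`.
All lemmas take the summability of `v ↦ Nv^{-s}` (`s > 1`) over all primes as a hypothesis `hE`
(it is the first part of `StmtPrimeSum`).
-/

set_option autoImplicit false

namespace Fermat.Agent.Cheb

open NumberField IsDedekindDomain Filter Topology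

variable {E : Type} [Field E] [NumberField E]

/-- the summand `Nv^{-s}` -/
noncomputable def nrm (E : Type) [Field E] [NumberField E] (s : ℝ)
    (v : HeightOneSpectrum (𝓞 E)) : ℝ :=
  (Ideal.absNorm v.asIdeal : ℝ) ^ (-s)

theorem nrm_nonneg (s : ℝ) (v : HeightOneSpectrum (𝓞 E)) : 0 ≤ nrm E s v := by
  unfold nrm; positivity

theorem one_le_absNorm (v : HeightOneSpectrum (𝓞 E)) : 1 ≤ Ideal.absNorm v.asIdeal := by
  rw [Nat.one_le_iff_ne_zero, Ne, Ideal.absNorm_eq_zero_iff]
  exact v.ne_bot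

theorem nrm_le_one {s : ℝ} (hs : 0 ≤ s) (v : HeightOneSpectrum (𝓞 E)) : nrm E s v ≤ 1 := by
  unfold nrm
  apply Real.rpow_le_one_of_one_le_of_nonpos
  · exact_mod_cast one_le_absNorm v
  · linarith

/-- Summability hypothesis. -/
def PrimeSummable (E : Type) [Field E] [NumberField E] : Prop :=
  ∀ s : ℝ, 1 < s → Summable fun v : HeightOneSpectrum (𝓞 E) ↦ nrm E s v

theorem primeIdealZetaSum_eq_tsum_indicator (A : Set (HeightOneSpectrum (𝓞 E))) (s : ℝ) :
    A.primeIdealZetaSum s = ∑' v, A.indicator (nrm E s) v := by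
  rw [NumberField.Set.primeIdealZetaSum_def]
  exact tsum_subtype A (nrm E s)

theorem summable_indicator (hE : PrimeSummable E) (A : Set (HeightOneSpectrum (𝓞 E)))
    {s : ℝ} (hs : 1 < s) : Summable (A.indicator (nrm E s)) :=
  (hE s hs).indicator A

theorem primeIdealZetaSum_mono (hE : PrimeSummable E) {A B : Set (HeightOneSpectrum (𝓞 E))}
    (hAB : A ⊆ B) {s : ℝ} (hs : 1 < s) : A.primeIdealZetaSum s ≤ B.primeIdealZetaSum s := by
  rw [primeIdealZetaSum_eq_tsum_indicator, primeIdealZetaSum_eq_tsum_indicator]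
  refine (summable_indicator hE A hs).tsum_le_tsum (fun v => ?_) (summable_indicator hE B hs)
  exact Set.indicator_le_indicator_of_subset hAB (fun v => nrm_nonneg s v) v

theorem primeIdealZetaSum_union (hE : PrimeSummable E) {A B : Set (HeightOneSpectrum (𝓞 E))}
    (hAB : Disjoint A B) {s : ℝ} (hs : 1 < s) :
    (A ∪ B).primeIdealZetaSum s = A.primeIdealZetaSum s + B.primeIdealZetaSum s := by
  rw [primeIdealZetaSum_eq_tsum_indicator, primeIdealZetaSum_eq_tsum_indicator,
    primeIdealZetaSum_eq_tsum_indicator,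
    ← (summable_indicator hE A hs).tsum_add (summable_indicator hE B hs)]
  congr 1
  funext v
  rw [Set.indicator_union_of_disjoint hAB]

theorem primeIdealZetaSum_diff (hE : PrimeSummable E) {A B : Set (HeightOneSpectrum (𝓞 E))}
    (hBA : B ⊆ A) {s : ℝ} (hs : 1 < s) :
    (A \ B).primeIdealZetaSum s = A.primeIdealZetaSum s - B.primeIdealZetaSum s := by
  have h := primeIdealZetaSum_union hE (A := A \ B) (B := B) Set.disjoint_sdiff_left hs
  rw [Set.sdiff_union_of_subset hBA] at h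
  linarith

theorem hasLogDensity_zero_of_subset (hE : PrimeSummable E)
    {A B : Set (HeightOneSpectrum (𝓞 E))} (hAB : A ⊆ B) (hB : HasLogDensity B 0) :
    HasLogDensity A 0 := by
  obtain ⟨C, hC⟩ := hB
  refine ⟨C, fun s hs hs2 => ?_⟩
  have h1 := hC s hs hs2
  have h2 := primeIdealZetaSum_mono hE hAB hs
  have h3 := NumberField.Set.primeIdealZetaSum_nonneg A s
  simp only [zero_mul, sub_zero] at h1 ⊢
  rw [abs_of_nonneg h3]
  exact h2.trans ((le_abs_self _).trans h1)

theorem hasLogDensity_zero_of_finite {A : Set (HeightOneSpectrum (𝓞 E))} (hA : A.Finite) :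
    HasLogDensity A 0 := by
  refine ⟨A.ncard, fun s hs _ => ?_⟩
  simp only [zero_mul, sub_zero]
  rw [abs_of_nonneg (NumberField.Set.primeIdealZetaSum_nonneg A s)]
  exact NumberField.Set.primeIdealZetaSum_le_card_of_finite hA (by linarith)

theorem HasLogDensity.union (hE : PrimeSummable E) {A B : Set (HeightOneSpectrum (𝓞 E))}
    {a b : ℝ} (hAB : Disjoint A B) (hA : HasLogDensity A a) (hB : HasLogDensity B b) :
    HasLogDensity (A ∪ B) (a + b) := by
  obtain ⟨C, hC⟩ := hA
  obtain ⟨D, hD⟩ := hB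
  refine ⟨C + D, fun s hs hs2 => ?_⟩
  rw [primeIdealZetaSum_union hE hAB hs]
  have e : A.primeIdealZetaSum s + B.primeIdealZetaSum s - (a + b) * Real.log (1 / (s - 1)) =
      (A.primeIdealZetaSum s - a * Real.log (1 / (s - 1))) +
      (B.primeIdealZetaSum s - b * Real.log (1 / (s - 1))) := by ring
  rw [e]
  exact (abs_add_le _ _).trans (add_le_add (hC s hs hs2) (hD s hs hs2))

theorem HasLogDensity.diff (hE : PrimeSummable E) {A B : Set (HeightOneSpectrum (𝓞 E))}
    {a b : ℝ} (hBA : B ⊆ A) (hA : HasLogDensity A a) (hB : HasLogDensity B b) :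
    HasLogDensity (A \ B) (a - b) := by
  obtain ⟨C, hC⟩ := hA
  obtain ⟨D, hD⟩ := hB
  refine ⟨C + D, fun s hs hs2 => ?_⟩
  rw [primeIdealZetaSum_diff hE hBA hs]
  have e : A.primeIdealZetaSum s - B.primeIdealZetaSum s - (a - b) * Real.log (1 / (s - 1)) =
      (A.primeIdealZetaSum s - a * Real.log (1 / (s - 1))) -
      (B.primeIdealZetaSum s - b * Real.log (1 / (s - 1))) := by ring
  rw [e]
  exact (abs_sub _ _).trans (add_le_add (hC s hs hs2) (hD s hs hs2))

/-- removing a set of density `0` does not change the density -/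
theorem HasLogDensity.diff_zero (hE : PrimeSummable E) {A N : Set (HeightOneSpectrum (𝓞 E))}
    {a : ℝ} (hA : HasLogDensity A a) (hN : HasLogDensity N 0) : HasLogDensity (A \ N) a := by
  have h1 : HasLogDensity (A ∩ N) 0 := hasLogDensity_zero_of_subset hE Set.inter_subset_right hN
  have h2 := HasLogDensity.diff hE (Set.inter_subset_left (s := A) (t := N)) hA h1
  have e : A \ (A ∩ N) = A \ N := by
    ext x
    simp only [Set.mem_sdiff, Set.mem_inter_iff, not_and]
    constructor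
    · rintro ⟨hx, h⟩
      exact ⟨hx, h hx⟩
    · rintro ⟨hx, h⟩
      exact ⟨hx, fun _ => h⟩
  rw [e, sub_zero] at h2
  exact h2

/-- adding a set of density `0` does not change the density -/
theorem HasLogDensity.union_zero (hE : PrimeSummable E) {A N : Set (HeightOneSpectrum (𝓞 E))}
    {a : ℝ} (hA : HasLogDensity A a) (hN : HasLogDensity N 0) : HasLogDensity (A ∪ N) a := by
  have h1 : HasLogDensity (N \ A) 0 := hasLogDensity_zero_of_subset hE Set.sdiff_subset hN
  have h2 := HasLogDensity.union hE (Set.disjoint_sdiff_right (s := A) (t := N)) hA h1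
  rw [Set.union_sdiff_self, add_zero] at h2
  exact h2

/-- two sets that differ by a set of density `0` have the same density -/
theorem HasLogDensity.congr_of_symmDiff (hE : PrimeSummable E)
    {A B N : Set (HeightOneSpectrum (𝓞 E))} {a : ℝ} (hA : HasLogDensity A a)
    (hN : HasLogDensity N 0) (h1 : A ⊆ B ∪ N) (h2 : B ⊆ A ∪ N) : HasLogDensity B a := by
  -- `B = ((A ∪ N) \ ((A ∪ N) \ B))`, and `(A ∪ N) \ B ⊆ N`
  have hAN : HasLogDensity (A ∪ N) a := hA.union_zero hE hN
  have hsub : (A ∪ N) \ B ⊆ N := by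
    rintro x ⟨hx | hx, hxB⟩
    · rcases h1 hx with h | h
      · exact absurd h hxB
      · exact h
    · exact hx
  have h0 : HasLogDensity ((A ∪ N) \ B) 0 := hasLogDensity_zero_of_subset hE hsub hN
  have h3 := hAN.diff_zero hE h0
  have e : (A ∪ N) \ ((A ∪ N) \ B) = B := by
    ext x
    constructor
    · rintro ⟨hx, hnx⟩
      by_contra hB
      exact hnx ⟨hx, hB⟩
    · intro hx
      exact ⟨h2 hx, fun h => h.2 hx⟩
  rw [e] at h3
  exact h3

theorem log_one_div_sub_one_tendsto :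
    Tendsto (fun s : ℝ => Real.log (1 / (s - 1))) (𝓝[>] 1) atTop := by
  have h1 : Tendsto (fun s : ℝ => s - 1) (𝓝[>] 1) (𝓝[>] 0) := by
    refine tendsto_nhdsWithin_of_tendsto_nhds_of_eventually_within _ ?_ ?_
    · have : Tendsto (fun s : ℝ => s - 1) (𝓝 1) (𝓝 (1 - 1)) :=
        (continuous_id.sub continuous_const).tendsto 1
      simpa using this.mono_left nhdsWithin_le_nhds
    · filter_upwards [self_mem_nhdsWithin] with s hs
      simpa using hs
  have h2 : Tendsto (fun x : ℝ => 1 / x) (𝓝[>] 0) atTop := by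
    simpa [one_div] using tendsto_inv_nhdsGT_zero (𝕜 := ℝ)
  exact Real.tendsto_log_atTop.comp (h2.comp h1)

/-- a set of positive density is infinite -/
theorem HasLogDensity.infinite {A : Set (HeightOneSpectrum (𝓞 E))} {a : ℝ}
    (hA : HasLogDensity A a) (ha : 0 < a) : A.Infinite := by
  intro hfin
  obtain ⟨C, hC⟩ := hA
  -- `a log(1/(s-1)) ≤ C + card A` for all `s ∈ (1,2)`, contradiction
  have hev : ∀ᶠ s in 𝓝[>] (1 : ℝ), (C + A.ncard + 1) / a ≤ Real.log (1 / (s - 1)) :=
    log_one_div_sub_one_tendsto.eventually_ge_atTop _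
  have hev2 : ∀ᶠ s in 𝓝[>] (1 : ℝ), s < 2 := by
    have : Set.Ioo (1 : ℝ) 2 ∈ 𝓝[>] (1 : ℝ) := Ioo_mem_nhdsGT (by norm_num)
    filter_upwards [this] with s hs using hs.2
  have hev3 : ∀ᶠ s in 𝓝[>] (1 : ℝ), 1 < s := by
    filter_upwards [self_mem_nhdsWithin] with s hs using hs
  obtain ⟨s, h1, h2, h3⟩ := (hev.and (hev2.and hev3)).exists
  have h4 := hC s h3 h2
  have h5 : A.primeIdealZetaSum s ≤ A.ncard :=
    NumberField.Set.primeIdealZetaSum_le_card_of_finite hfin (by linarith)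
  have h6 : C + A.ncard + 1 ≤ a * Real.log (1 / (s - 1)) := by
    have := (div_le_iff₀' ha).mp h1
    linarith
  have h7 := abs_le.mp h4
  linarith [h7.1]

end Fermat.Agent.Cheb


end ZBCheb_001_1

/-! ### bundled: `Fermat.Agent.Cheb.PrimeSumCore` -/
section ZBCheb_001_2
/-
Weak Chebotarev, piece C1 core (helper26): from the Euler product inputs (`EulerInput`, provided by
`Fermat/Agent/S14/Euler.lean`, helper60) deduce the three parts of `StmtPrimeSum` for one field.
-/

set_option autoImplicit false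

namespace Fermat.Agent.Cheb

open NumberField IsDedekindDomain Filter Topology

/-- The inputs from the Euler product file (statements E1a, E1c, E1d, E3z, E4 of helper60's note). -/
structure EulerInput (E : Type) [Field E] [NumberField E] : Prop where
  summable : ∀ s : ℝ, 1 < s →
    Summable fun I : nonZeroDivisors (Ideal (𝓞 E)) ↦ (Ideal.absNorm (I : Ideal (𝓞 E)) : ℝ) ^ (-s)
  zeta_le : ∃ C : ℝ, 0 < C ∧ ∀ s : ℝ, 1 < s → s ≤ 2 →
    ∑' I : nonZeroDivisors (Ideal (𝓞 E)), (Ideal.absNorm (I : Ideal (𝓞 E)) : ℝ) ^ (-s) ≤ C / (s - 1)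
  le_zeta : ∃ c : ℝ, 0 < c ∧ ∀ s : ℝ, 1 < s → s ≤ 2 →
    c / (s - 1) ≤ ∑' I : nonZeroDivisors (Ideal (𝓞 E)), (Ideal.absNorm (I : Ideal (𝓞 E)) : ℝ) ^ (-s)
  hasProd : ∀ s : ℝ, 1 < s →
    HasProd (fun v : HeightOneSpectrum (𝓞 E) ↦ (1 - (Ideal.absNorm v.asIdeal : ℝ) ^ (-s))⁻¹)
      (∑' I : nonZeroDivisors (Ideal (𝓞 E)), (Ideal.absNorm (I : Ideal (𝓞 E)) : ℝ) ^ (-s))
  not_prime : ∃ C : ℝ, ∀ s : ℝ, 1 ≤ s → ∀ F : Finset (HeightOneSpectrum (𝓞 E)),
    (∀ v ∈ F, ¬ (Ideal.absNorm v.asIdeal).Prime) →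
      ∑ v ∈ F, (Ideal.absNorm v.asIdeal : ℝ) ^ (-s) ≤ C

variable {E : Type} [Field E] [NumberField E]

/-- a prime as a nonzero ideal -/
noncomputable def primeToIdeal (v : HeightOneSpectrum (𝓞 E)) : nonZeroDivisors (Ideal (𝓞 E)) :=
  ⟨v.asIdeal, mem_nonZeroDivisors_of_ne_zero v.ne_bot⟩

omit [NumberField E] in
theorem primeToIdeal_injective : Function.Injective (primeToIdeal (E := E)) := by
  intro v w h
  have : v.asIdeal = w.asIdeal := congrArg Subtype.val h
  exact HeightOneSpectrum.ext this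

theorem primeSummable_of_eulerInput (h : EulerInput E) : PrimeSummable E := by
  intro s hs
  have h1 := (h.summable s hs).comp_injective (primeToIdeal_injective (E := E))
  refine h1.congr (fun v => ?_)
  simp only [Function.comp_apply, nrm, primeToIdeal]

theorem two_le_absNorm' (v : HeightOneSpectrum (𝓞 E)) : 2 ≤ Ideal.absNorm v.asIdeal := by
  have h1 := one_le_absNorm v
  have h2 : Ideal.absNorm v.asIdeal ≠ 1 := by
    rw [Ne, Ideal.absNorm_eq_one_iff]
    exact v.isPrime.ne_top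
  omega

theorem nrm_pos (s : ℝ) (v : HeightOneSpectrum (𝓞 E)) : 0 < nrm E s v := by
  unfold nrm
  apply Real.rpow_pos_of_pos
  exact_mod_cast (one_le_absNorm v)

theorem nrm_le_half {s : ℝ} (hs : 1 ≤ s) (v : HeightOneSpectrum (𝓞 E)) : nrm E s v ≤ 1 / 2 := by
  unfold nrm
  have h2 : (2 : ℝ) ≤ (Ideal.absNorm v.asIdeal : ℝ) := by exact_mod_cast two_le_absNorm' v
  have h0 : (0 : ℝ) < (Ideal.absNorm v.asIdeal : ℝ) := by linarith
  rw [Real.rpow_neg h0.le]
  have h3 : (Ideal.absNorm v.asIdeal : ℝ) ^ (1 : ℝ) ≤ (Ideal.absNorm v.asIdeal : ℝ) ^ s :=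
    Real.rpow_le_rpow_of_exponent_le (by linarith) hs
  rw [Real.rpow_one] at h3
  have h4 : (2 : ℝ) ≤ (Ideal.absNorm v.asIdeal : ℝ) ^ s := h2.trans h3
  rw [one_div]
  exact inv_anti₀ (by norm_num) h4

/-- `Nv^{-s} ≤ Nv^{-t}` for `t ≤ s` -/
theorem nrm_anti {s t : ℝ} (hts : t ≤ s) (v : HeightOneSpectrum (𝓞 E)) : nrm E s v ≤ nrm E t v := by
  unfold nrm
  apply Real.rpow_le_rpow_of_exponent_le
  · exact_mod_cast one_le_absNorm v
  · linarith

theorem nrm_sq (s : ℝ) (v : HeightOneSpectrum (𝓞 E)) : nrm E s v ^ 2 = nrm E (2 * s) v := by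
  unfold nrm
  have h0 : (0 : ℝ) ≤ (Ideal.absNorm v.asIdeal : ℝ) := by positivity
  rw [← Real.rpow_natCast, ← Real.rpow_mul h0]
  congr 1
  push_cast
  ring

/-- elementary bounds for `-log (1 - x)` -/
theorem neg_log_one_sub_bounds {x : ℝ} (_hx0 : 0 ≤ x) (hx : x ≤ 1 / 2) :
    x ≤ Real.log ((1 - x)⁻¹) ∧ Real.log ((1 - x)⁻¹) ≤ x + 2 * x ^ 2 := by
  have h1 : 0 < 1 - x := by linarith
  constructor
  · rw [Real.log_inv]
    have := Real.log_le_sub_one_of_pos h1
    linarith
  · have h2 : 0 < (1 - x)⁻¹ := inv_pos.mpr h1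
    have h3 := Real.log_le_sub_one_of_pos h2
    have h4 : (1 - x)⁻¹ - 1 ≤ x + 2 * x ^ 2 := by
      rw [inv_eq_one_div, div_sub_one h1.ne', div_le_iff₀ h1]
      nlinarith [sq_nonneg x, mul_nonneg _hx0 (sq_nonneg x)]
    linarith

/-- log of the Euler product -/
theorem hasSum_log_of_eulerInput (h : EulerInput E) {s : ℝ} (hs : 1 < s) :
    HasSum (fun v : HeightOneSpectrum (𝓞 E) ↦ Real.log ((1 - nrm E s v)⁻¹))
      (Real.log (∑' I : nonZeroDivisors (Ideal (𝓞 E)),
        (Ideal.absNorm (I : Ideal (𝓞 E)) : ℝ) ^ (-s))) := by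
  have hP := h.hasProd s hs
  obtain ⟨c, hc, hcz⟩ := h.le_zeta
  set Z : ℝ := ∑' I : nonZeroDivisors (Ideal (𝓞 E)),
        (Ideal.absNorm (I : Ideal (𝓞 E)) : ℝ) ^ (-s) with hZ
  -- positivity of `Z` (through the bound at `min s 2`); simpler: partial products are `≥ 1`
  have hZpos : 0 < Z := by
    have h1 : (1 : ℝ) ≤ Z := by
      refine ge_of_tendsto' hP (fun T => ?_)
      refine Finset.prod_induction _ (fun x : ℝ => 1 ≤ x)
        (fun a b ha hb => one_le_mul_of_one_le_of_one_le ha hb) le_rfl (fun v _ => ?_)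
      have hx0 := nrm_pos s v
      have hx1 := nrm_le_half hs.le v
      have : 0 < 1 - nrm E s v := by linarith
      change 1 ≤ (1 - nrm E s v)⁻¹
      rw [one_le_inv₀ this]
      linarith
    linarith
  have hcont : Tendsto Real.log (𝓝 Z) (𝓝 (Real.log Z)) :=
    (Real.continuousAt_log hZpos.ne').tendsto
  have := hcont.comp hP
  refine this.congr (fun T => ?_)
  simp only [Function.comp]
  rw [Real.log_prod]
  · rfl
  · intro v _
    have hx1 := nrm_le_half hs.le v
    have : 0 < 1 - nrm E s v := by linarith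
    exact (inv_pos.mpr this).ne'

/-- the key two-sided estimate: `P(s) ≤ log ζ(s) ≤ P(s) + 2 P(2)` -/
theorem primeSum_bounds (h : EulerInput E) {s : ℝ} (hs : 1 < s) :
    (∑' v, nrm E s v) ≤ Real.log (∑' I : nonZeroDivisors (Ideal (𝓞 E)),
        (Ideal.absNorm (I : Ideal (𝓞 E)) : ℝ) ^ (-s)) ∧
    Real.log (∑' I : nonZeroDivisors (Ideal (𝓞 E)),
        (Ideal.absNorm (I : Ideal (𝓞 E)) : ℝ) ^ (-s)) ≤
      (∑' v, nrm E s v) + 2 * ∑' v, nrm E 2 v := by
  have hE := primeSummable_of_eulerInput h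
  have hlog := hasSum_log_of_eulerInput h hs
  have hsum := hE s hs
  have hsum2 := hE 2 (by norm_num)
  have hb : ∀ v, nrm E s v ≤ Real.log ((1 - nrm E s v)⁻¹) ∧
      Real.log ((1 - nrm E s v)⁻¹) ≤ nrm E s v + 2 * nrm E 2 v := by
    intro v
    have := neg_log_one_sub_bounds (nrm_nonneg s v) (nrm_le_half hs.le v)
    refine ⟨this.1, this.2.trans ?_⟩
    have h1 : nrm E s v ^ 2 ≤ nrm E 2 v := by
      rw [nrm_sq]
      exact nrm_anti (by linarith) v
    linarith
  constructor
  · rw [← hlog.tsum_eq]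
    exact hsum.tsum_le_tsum (fun v => (hb v).1) hlog.summable
  · rw [← hlog.tsum_eq]
    have hs3 : Summable fun v => nrm E s v + 2 * nrm E 2 v := hsum.add (hsum2.mul_left 2)
    calc (∑' v, Real.log ((1 - nrm E s v)⁻¹)) ≤ ∑' v, (nrm E s v + 2 * nrm E 2 v) :=
          hlog.summable.tsum_le_tsum (fun v => (hb v).2) hs3
      _ = (∑' v, nrm E s v) + 2 * ∑' v, nrm E 2 v := by
          rw [hsum.tsum_add (hsum2.mul_left 2), tsum_mul_left]

theorem primeIdealZetaSum_univ (s : ℝ) :
    (Set.univ : Set (HeightOneSpectrum (𝓞 E))).primeIdealZetaSum s = ∑' v, nrm E s v := by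
  rw [primeIdealZetaSum_eq_tsum_indicator, Set.indicator_univ]

/-- (C1, second part) -/
theorem hasLogDensity_univ_of_eulerInput (h : EulerInput E) :
    HasLogDensity (Set.univ : Set (HeightOneSpectrum (𝓞 E))) 1 := by
  obtain ⟨C, hC, hCz⟩ := h.zeta_le
  obtain ⟨c, hc, hcz⟩ := h.le_zeta
  refine ⟨|Real.log C| + |Real.log c| + 2 * ∑' v, nrm E 2 v, fun s hs hs2 => ?_⟩
  have hb := primeSum_bounds h hs
  have h1 := hCz s hs hs2.le
  have h2 := hcz s hs hs2.le
  have hs0 : 0 < s - 1 := by linarith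
  set Z : ℝ := ∑' I : nonZeroDivisors (Ideal (𝓞 E)),
        (Ideal.absNorm (I : Ideal (𝓞 E)) : ℝ) ^ (-s) with hZ
  have hZpos : 0 < Z := lt_of_lt_of_le (div_pos hc hs0) h2
  have hl1 : Real.log Z ≤ Real.log C + Real.log (1 / (s - 1)) := by
    have := Real.log_le_log hZpos h1
    rwa [div_eq_mul_one_div, Real.log_mul hC.ne' (one_div_pos.mpr hs0).ne'] at this
  have hl2 : Real.log c + Real.log (1 / (s - 1)) ≤ Real.log Z := by
    have := Real.log_le_log (div_pos hc hs0) h2
    rwa [div_eq_mul_one_div, Real.log_mul hc.ne' (one_div_pos.mpr hs0).ne'] at this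
  have hB : 0 ≤ ∑' v, nrm E 2 v := tsum_nonneg (fun v => nrm_nonneg 2 v)
  rw [primeIdealZetaSum_univ, one_mul, abs_le]
  have a1 := neg_abs_le (Real.log C)
  have a2 := le_abs_self (Real.log C)
  have a3 := neg_abs_le (Real.log c)
  have a4 := le_abs_self (Real.log c)
  have a5 := abs_nonneg (Real.log C)
  have a6 := abs_nonneg (Real.log c)
  constructor
  · linarith [hb.2]
  · linarith [hb.1]

/-- (C1, third part) -/
theorem hasLogDensity_not_prime_of_eulerInput (h : EulerInput E) :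
    HasLogDensity {v : HeightOneSpectrum (𝓞 E) | ¬ (Ideal.absNorm v.asIdeal).Prime} 0 := by
  obtain ⟨C, hC⟩ := h.not_prime
  refine ⟨C, fun s hs _ => ?_⟩
  simp only [zero_mul, sub_zero]
  rw [abs_of_nonneg (NumberField.Set.primeIdealZetaSum_nonneg _ s),
    NumberField.Set.primeIdealZetaSum_def]
  have hE := primeSummable_of_eulerInput h
  have hsum : Summable fun v : {v : HeightOneSpectrum (𝓞 E) | ¬ (Ideal.absNorm v.asIdeal).Prime} ↦
      ((Ideal.absNorm v.1.asIdeal : ℝ) ^ (-s)) := (hE s hs).subtype _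
  refine hsum.tsum_le_of_sum_le (fun T => ?_)
  have := hC s hs.le (T.map (Function.Embedding.subtype _)) (by
    intro v hv
    rw [Finset.mem_map] at hv
    obtain ⟨w, _, rfl⟩ := hv
    exact w.2)
  rw [Finset.sum_map] at this
  exact this

/-- all three parts of `StmtPrimeSum` for the field `E` -/
theorem stmtPrimeSum_of_eulerInput (h : EulerInput E) :
    (∀ s : ℝ, 1 < s →
      Summable fun v : HeightOneSpectrum (𝓞 E) ↦ (Ideal.absNorm v.asIdeal : ℝ) ^ (-s)) ∧
    HasLogDensity (Set.univ : Set (HeightOneSpectrum (𝓞 E))) 1 ∧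
    HasLogDensity {v : HeightOneSpectrum (𝓞 E) | ¬ (Ideal.absNorm v.asIdeal).Prime} 0 :=
  ⟨primeSummable_of_eulerInput h, hasLogDensity_univ_of_eulerInput h,
    hasLogDensity_not_prime_of_eulerInput h⟩

end Fermat.Agent.Cheb


end ZBCheb_001_2

/-! ### bundled: `Fermat.Agent.Cheb.PrimeSum` -/
section ZBCheb_001_3
/-
Weak Chebotarev, piece C1 (helper26): `stmtPrimeSum : StmtPrimeSum`.
Instantiates `PrimeSumCore.lean` with the Euler product files `Fermat/Agent/S14/Euler.lean` (helper60)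
and `Fermat/Agent/S14/EulerAux.lean` (helper70).
-/

set_option autoImplicit false

namespace Fermat.Agent.Cheb

open NumberField IsDedekindDomain

theorem eulerInput (E : Type) [Field E] [NumberField E] : EulerInput E where
  summable := fun _ hs => Fermat.Agent.S14.summable_absNorm_rpow E hs
  zeta_le := Fermat.Agent.S14.exists_zeta_le_of E
    (fun _ hs => Fermat.Agent.S14.summable_absNorm_rpow E hs)
    (fun _ hs => Fermat.Agent.S14.tsum_absNorm_rpow_eq_dedekindZeta E hs)
  le_zeta := Fermat.Agent.S14.exists_le_zeta_of E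
    (fun _ hs => Fermat.Agent.S14.summable_absNorm_rpow E hs)
    (fun _ hs => Fermat.Agent.S14.tsum_absNorm_rpow_eq_dedekindZeta E hs)
  hasProd := fun _ hs => Fermat.Agent.S14.hasProd_zeta E hs
  not_prime := Fermat.Agent.S14.exists_sum_not_prime_le E

/-- (C1) -/
theorem stmtPrimeSum : StmtPrimeSum := fun E _ _ =>
  stmtPrimeSum_of_eulerInput (eulerInput E)

end Fermat.Agent.Cheb


end ZBCheb_001_3

/-! ### bundled: `Fermat.Agent.Cheb.Split` -/
section ZBCheb_001_4
/-
Weak Chebotarev (item 70), piece C2 (helper88): the primes of `E` splitting completely in a Galois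
extension `F/E` of degree `d` have logarithmic density `1/d`, given the prime ideal sums (C1).
-/

set_option autoImplicit false
set_option linter.unusedSectionVars false

open NumberField IsDedekindDomain
open scoped Pointwise

namespace Fermat.Agent.Cheb

attribute [local instance] FractionRing.liftAlgebra

section alg

variable (E F : Type) [Field E] [NumberField E] [Field F] [NumberField F] [Algebra E F]

/-- The prime of `E` below a prime of `F`. -/
noncomputable abbrev c2Under (w : HeightOneSpectrum (𝓞 F)) : HeightOneSpectrum (𝓞 E) :=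
  HeightOneSpectrum.under (𝓞 E) w

instance c2_liesOver (w : HeightOneSpectrum (𝓞 F)) :
    w.asIdeal.LiesOver (c2Under E F w).asIdeal := ⟨rfl⟩

theorem c2_absNorm (w : HeightOneSpectrum (𝓞 F)) :
    Ideal.absNorm (c2Under E F w).asIdeal ^ w.asIdeal.inertiaDeg (𝓞 E) =
      Ideal.absNorm w.asIdeal :=
  Ideal.absNorm_pow_inertiaDeg (c2Under E F w).asIdeal w.asIdeal

/-- The fibre of `c2Under` over `v` is in bijection with the primes over `v`. -/
theorem c2_fiber_ncard (v : HeightOneSpectrum (𝓞 E)) :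
    Nat.card {w : HeightOneSpectrum (𝓞 F) // c2Under E F w = v} =
      (Ideal.primesOver v.asIdeal (𝓞 F)).ncard := by
  rw [← Nat.card_coe_set_eq]
  refine Nat.card_congr (Equiv.ofBijective
    (fun w => ⟨w.1.asIdeal, w.1.isPrime, ⟨(congrArg HeightOneSpectrum.asIdeal w.2).symm⟩⟩) ⟨?_, ?_⟩)
  · intro w1 w2 h
    have : w1.1.asIdeal = w2.1.asIdeal := congrArg Subtype.val h
    exact Subtype.ext (HeightOneSpectrum.ext this)
  · rintro ⟨P, hP, hPv⟩
    have hPne : P ≠ ⊥ := by
      intro h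
      subst h
      have := hPv.over
      apply v.ne_bot
      rw [this]
      exact Ideal.under_bot (𝓞 E) (𝓞 F)
    refine ⟨⟨⟨P, hP, hPne⟩, HeightOneSpectrum.ext ?_⟩, rfl⟩
    exact hPv.over.symm

variable [IsGalois E F]

theorem c2_fund (w : HeightOneSpectrum (𝓞 F)) :
    (Ideal.primesOver (c2Under E F w).asIdeal (𝓞 F)).ncard *
      (w.asIdeal.ramificationIdx (𝓞 E) * w.asIdeal.inertiaDeg (𝓞 E)) = Module.finrank E F := by
  have h := Ideal.ncard_primesOver_mul_ramificationIdxIn_mul_inertiaDegIn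
    (c2Under E F w).asIdeal (𝓞 F) (F ≃ₐ[E] F)
  rw [Ideal.ramificationIdxIn_eq_ramificationIdx (c2Under E F w).asIdeal w.asIdeal (F ≃ₐ[E] F),
    Ideal.inertiaDegIn_eq_inertiaDeg (c2Under E F w).asIdeal w.asIdeal (F ≃ₐ[E] F),
    IsGaloisGroup.card_eq_finrank (F ≃ₐ[E] F) E F] at h
  exact h

theorem c2_absNorm_eq_of_split (w : HeightOneSpectrum (𝓞 F))
    (h : SplitsCompletely F (c2Under E F w)) :
    Ideal.absNorm w.asIdeal = Ideal.absNorm (c2Under E F w).asIdeal := by
  have h1 := c2_fund E F w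
  rw [SplitsCompletely] at h
  rw [h] at h1
  have hd : 0 < Module.finrank E F := Module.finrank_pos
  have h2 : w.asIdeal.ramificationIdx (𝓞 E) * w.asIdeal.inertiaDeg (𝓞 E) = 1 := by
    have : Module.finrank E F * (w.asIdeal.ramificationIdx (𝓞 E) * w.asIdeal.inertiaDeg (𝓞 E))
        = Module.finrank E F * 1 := by rw [h1, mul_one]
    exact Nat.eq_of_mul_eq_mul_left hd this
  have h3 : w.asIdeal.inertiaDeg (𝓞 E) = 1 := Nat.eq_one_of_mul_eq_one_left h2
  have := c2_absNorm E F w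
  rw [h3, pow_one] at this
  exact this.symm

theorem c2_not_prime_of_not_split (w : HeightOneSpectrum (𝓞 F))
    (h : ¬ SplitsCompletely F (c2Under E F w))
    (hur : ¬ w.asIdeal ∣ differentIdeal (𝓞 E) (𝓞 F)) :
    ¬ (Ideal.absNorm w.asIdeal).Prime := by
  have hun : Algebra.IsUnramifiedAt (𝓞 E) w.asIdeal := not_dvd_differentIdeal_iff.mp hur
  have he : w.asIdeal.ramificationIdx (𝓞 E) = 1 := Ideal.ramificationIdx_eq_one _ _
  have h1 := c2_fund E F w
  rw [he, one_mul] at h1
  rw [SplitsCompletely] at h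
  have hf : w.asIdeal.inertiaDeg (𝓞 E) ≠ 1 := by
    intro hf
    rw [hf, mul_one] at h1
    exact h h1
  rw [← c2_absNorm E F w]
  exact Nat.Prime.not_prime_pow' hf

end alg


section analytic

variable (E F : Type) [Field E] [NumberField E] [Field F] [NumberField F] [Algebra E F]
  [IsGalois E F]

theorem c2_finite_ramified :
    {w : HeightOneSpectrum (𝓞 F) | w.asIdeal ∣ differentIdeal (𝓞 E) (𝓞 F)}.Finite :=
  Ideal.finite_factors (differentIdeal_ne_bot)

/-- Summing over the primes of `F` above completely split primes of `E`. -/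
theorem c2_tsum_fiber (s : ℝ)
    (hsum : Summable fun w : HeightOneSpectrum (𝓞 F) => (Ideal.absNorm w.asIdeal : ℝ) ^ (-s)) :
    ∑' w : HeightOneSpectrum (𝓞 F),
        Set.indicator {w | SplitsCompletely F (c2Under E F w)}
          (fun w => (Ideal.absNorm w.asIdeal : ℝ) ^ (-s)) w
      = (Module.finrank E F : ℝ) * ∑' v : HeightOneSpectrum (𝓞 E),
        Set.indicator {v | SplitsCompletely F v}
          (fun v => (Ideal.absNorm v.asIdeal : ℝ) ^ (-s)) v := by
  classical
  set B : Set (HeightOneSpectrum (𝓞 F)) := {w | SplitsCompletely F (c2Under E F w)} with hB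
  set A : Set (HeightOneSpectrum (𝓞 E)) := {v | SplitsCompletely F v} with hA
  set f : HeightOneSpectrum (𝓞 F) → ℝ := fun w => (Ideal.absNorm w.asIdeal : ℝ) ^ (-s) with hf
  set g : HeightOneSpectrum (𝓞 E) → ℝ := fun v => (Ideal.absNorm v.asIdeal : ℝ) ^ (-s) with hg
  have hBsum : Summable (B.indicator f) := hsum.indicator B
  have h1 := hBsum.hasSum.tsum_fiberwise (c2Under E F)
  have h2 : ∀ v : HeightOneSpectrum (𝓞 E),
      ∑' b : ↥((c2Under E F) ⁻¹' {v}), B.indicator f b.1
        = (Module.finrank E F : ℝ) * A.indicator g v := by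
    intro v
    by_cases hv : v ∈ A
    · have hb : ∀ b : ↥((c2Under E F) ⁻¹' {v}), B.indicator f b.1 = g v := by
        intro b
        have hbv : c2Under E F b.1 = v := b.2
        have hbB : b.1 ∈ B := by
          show SplitsCompletely F (c2Under E F b.1)
          rw [hbv]; exact hv
        rw [Set.indicator_of_mem hbB]
        show (Ideal.absNorm b.1.asIdeal : ℝ) ^ (-s) = (Ideal.absNorm v.asIdeal : ℝ) ^ (-s)
        rw [c2_absNorm_eq_of_split E F b.1 hbB, hbv]
      simp_rw [hb]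
      rw [tsum_const, Set.indicator_of_mem hv]
      have hcard : Nat.card ↥((c2Under E F) ⁻¹' {v}) = Module.finrank E F := by
        have := c2_fiber_ncard E F v
        rw [show (Ideal.primesOver v.asIdeal (𝓞 F)).ncard = Module.finrank E F from hv] at this
        exact this
      rw [hcard, nsmul_eq_mul]
    · have hb : ∀ b : ↥((c2Under E F) ⁻¹' {v}), B.indicator f b.1 = 0 := by
        intro b
        have hbv : c2Under E F b.1 = v := b.2
        have hbB : b.1 ∉ B := by
          show ¬ SplitsCompletely F (c2Under E F b.1)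
          rw [hbv]; exact hv
        exact Set.indicator_of_notMem hbB f
      simp_rw [hb]
      rw [tsum_zero, Set.indicator_of_notMem hv, mul_zero]
  simp_rw [h2] at h1
  rw [← h1.tsum_eq, tsum_mul_left]

end analytic

/-- **(C2)** the primes splitting completely in a Galois extension of degree `d` have
logarithmic density `1/d`. -/
theorem stmtSplit (hPS : StmtPrimeSum) : StmtSplit := by
  classical
  intro E F _ _ _ _ _ _
  obtain ⟨hsumF, ⟨C1, hC1⟩, ⟨C0, hC0⟩⟩ := hPS F
  have hd : (0 : ℝ) < (Module.finrank E F : ℝ) := by exact_mod_cast Module.finrank_pos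
  have hRfin := c2_finite_ramified E F
  set R : Set (HeightOneSpectrum (𝓞 F)) :=
    {w | w.asIdeal ∣ differentIdeal (𝓞 E) (𝓞 F)} with hRdef
  refine ⟨(C1 + C0 + R.ncard) / (Module.finrank E F : ℝ), fun s hs1 hs2 => ?_⟩
  have hsum := hsumF s hs1
  set f : HeightOneSpectrum (𝓞 F) → ℝ := fun w => (Ideal.absNorm w.asIdeal : ℝ) ^ (-s) with hf
  set g : HeightOneSpectrum (𝓞 E) → ℝ := fun v => (Ideal.absNorm v.asIdeal : ℝ) ^ (-s) with hg
  have hfnn : ∀ w, 0 ≤ f w := fun w => by positivity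
  set B : Set (HeightOneSpectrum (𝓞 F)) := {w | SplitsCompletely F (c2Under E F w)} with hB
  set A : Set (HeightOneSpectrum (𝓞 E)) := {v | SplitsCompletely F v} with hA
  set NP : Set (HeightOneSpectrum (𝓞 F)) := {w | ¬ (Ideal.absNorm w.asIdeal).Prime} with hNP
  set L : ℝ := Real.log (1 / (s - 1)) with hL
  -- the three zeta sums as sums of indicators
  have hZF : (Set.univ : Set (HeightOneSpectrum (𝓞 F))).primeIdealZetaSum s = ∑' w, f w := by
    rw [NumberField.Set.primeIdealZetaSum_def]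
    exact tsum_univ f
  have hZNP : NP.primeIdealZetaSum s = ∑' w, NP.indicator f w := by
    rw [NumberField.Set.primeIdealZetaSum_def]
    exact tsum_subtype NP f
  have hZA : A.primeIdealZetaSum s = ∑' v, A.indicator g v := by
    rw [NumberField.Set.primeIdealZetaSum_def]
    exact tsum_subtype A g
  have hZR : ∑' w, R.indicator f w ≤ R.ncard := by
    have := NumberField.Set.primeIdealZetaSum_le_card_of_finite hRfin (s := s) (by linarith)
    rw [NumberField.Set.primeIdealZetaSum_def] at this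
    rwa [← tsum_subtype R f]
  -- splitting
  have hsplit : ∑' w, f w = ∑' w, B.indicator f w + ∑' w, Bᶜ.indicator f w := by
    rw [← Summable.tsum_add (hsum.indicator B) (hsum.indicator Bᶜ)]
    congr 1
    funext w
    exact (Set.indicator_self_add_compl_apply B f w).symm
  have hBc0 : 0 ≤ ∑' w, Bᶜ.indicator f w :=
    tsum_nonneg fun w => Set.indicator_nonneg (fun w _ => hfnn w) w
  have hBc : ∑' w, Bᶜ.indicator f w ≤ ∑' w, NP.indicator f w + ∑' w, R.indicator f w := by
    rw [← Summable.tsum_add (hsum.indicator NP) (hsum.indicator R)]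
    refine Summable.tsum_le_tsum (fun w => ?_) (hsum.indicator Bᶜ)
      ((hsum.indicator NP).add (hsum.indicator R))
    by_cases hw : w ∈ Bᶜ
    · rw [Set.indicator_of_mem hw]
      by_cases hwR : w ∈ R
      · rw [Set.indicator_of_mem hwR]
        have := Set.indicator_nonneg (s := NP) (fun w _ => hfnn w) w
        linarith
      · have hwNP : w ∈ NP := c2_not_prime_of_not_split E F w hw hwR
        rw [Set.indicator_of_mem hwNP]
        have := Set.indicator_nonneg (s := R) (fun w _ => hfnn w) w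
        linarith
    · rw [Set.indicator_of_notMem hw]
      have h1 := Set.indicator_nonneg (s := R) (fun w _ => hfnn w) w
      have h2 := Set.indicator_nonneg (s := NP) (fun w _ => hfnn w) w
      linarith
  have key := c2_tsum_fiber E F s hsum
  have h1 := hC1 s hs1 hs2
  have h0 := hC0 s hs1 hs2
  rw [hZF] at h1
  rw [hZNP, zero_mul, sub_zero] at h0
  rw [hZA]
  -- combine
  set ZA : ℝ := ∑' v, A.indicator g v with hZAdef
  set ZB : ℝ := ∑' w, B.indicator f w with hZBdef
  set ZBc : ℝ := ∑' w, Bᶜ.indicator f w with hZBcdef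
  set ZNP : ℝ := ∑' w, NP.indicator f w with hZNPdef
  set ZR : ℝ := ∑' w, R.indicator f w with hZRdef
  set d : ℝ := (Module.finrank E F : ℝ) with hddef
  have hmain : |d * ZA - L| ≤ C1 + C0 + R.ncard := by
    rw [← key]
    have hZB : ZB = ∑' w, f w - ZBc := by linarith
    rw [hZB]
    have hNPle : ZNP ≤ C0 := le_trans (le_abs_self _) h0
    rw [abs_le] at h1 ⊢
    constructor <;> linarith [h1.1, h1.2]
  have : ZA - 1 / d * L = (d * ZA - L) / d := by
    field_simp
  rw [this, abs_div, abs_of_pos hd]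
  exact div_le_div_of_nonneg_right hmain hd.le

end Fermat.Agent.Cheb


end ZBCheb_001_4

/-! ### bundled: `Fermat.Agent.Cheb.CyclicSplit` -/
section ZBCheb_001_5

/-!
# Weak Chebotarev, piece C3a: splitting in the subfield of degree `d` of a cyclic extension
-/

set_option autoImplicit false
set_option linter.style.haveILetI false

namespace Fermat.Agent.Cheb

open NumberField IsDedekindDomain
open scoped Pointwise

namespace CyclicSplit

/-- In a finite cyclic group every subgroup is the kernel of a power map. -/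
theorem eq_ker_pow {C : Type*} [CommGroup C] [IsCyclic C] [Finite C] (K : Subgroup C) :
    K = (powMonoidHom (Nat.card K) : C →* C).ker := by
  have hle : K ≤ (powMonoidHom (Nat.card K) : C →* C).ker := by
    intro x hx
    rw [MonoidHom.mem_ker, powMonoidHom_apply]
    have h1 : (⟨x, hx⟩ : K) ^ Nat.card K = 1 := pow_card_eq_one'
    have h2 : ((⟨x, hx⟩ : K) ^ Nat.card K : C) = ((1 : K) : C) := congrArg Subtype.val h1
    rwa [Subgroup.coe_one] at h2
  refine Subgroup.eq_of_le_of_card_ge hle ?_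
  rw [IsCyclic.card_powMonoidHom_ker]
  exact Nat.le_of_dvd Nat.card_pos (Nat.gcd_dvd_right _ _)

theorem card_inf {C : Type*} [CommGroup C] [IsCyclic C] [Finite C] (D H : Subgroup C) :
    Nat.card (D ⊓ H : Subgroup C) = Nat.gcd (Nat.card D) (Nat.card H) := by
  have hD := eq_ker_pow D
  have hH := eq_ker_pow H
  have hinf : (D ⊓ H : Subgroup C) =
      (powMonoidHom (Nat.gcd (Nat.card D) (Nat.card H)) : C →* C).ker := by
    ext x
    rw [Subgroup.mem_inf, MonoidHom.mem_ker, powMonoidHom_apply]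
    constructor
    · rintro ⟨h1, h2⟩
      rw [hD, MonoidHom.mem_ker, powMonoidHom_apply] at h1
      rw [hH, MonoidHom.mem_ker, powMonoidHom_apply] at h2
      exact pow_gcd_eq_one.mpr ⟨h1, h2⟩
    · intro h
      constructor
      · rw [hD, MonoidHom.mem_ker, powMonoidHom_apply]
        obtain ⟨k, hk⟩ := Nat.gcd_dvd_left (Nat.card D) (Nat.card H)
        rw [hk, pow_mul, h, one_pow]
      · rw [hH, MonoidHom.mem_ker, powMonoidHom_apply]
        obtain ⟨k, hk⟩ := Nat.gcd_dvd_right (Nat.card D) (Nat.card H)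
        rw [hk, pow_mul, h, one_pow]
  rw [hinf, IsCyclic.card_powMonoidHom_ker]
  apply Nat.gcd_eq_right
  exact (Nat.gcd_dvd_left _ _).trans (Subgroup.card_subgroup_dvd_card D)

/-- Lemma A: in a finite cyclic group, `[C : D] = gcd([C : H], [C : D]) * [H : H ⊓ D]`. -/
theorem index_eq_gcd_mul_relIndex {C : Type*} [CommGroup C] [IsCyclic C] [Finite C]
    (D H : Subgroup C) : D.index = Nat.gcd H.index D.index * D.relIndex H := by
  have hn : 0 < Nat.card C := Nat.card_pos
  have h1 : Nat.card D * D.index = Nat.card C := D.card_mul_index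
  have h2 : Nat.card H * H.index = Nat.card C := H.card_mul_index
  have h3 : Nat.card (D ⊓ H : Subgroup C) * (D ⊓ H : Subgroup C).index = Nat.card C :=
    (D ⊓ H).card_mul_index
  have h4 : D.relIndex H * H.index = (D ⊓ H : Subgroup C).index := by
    rw [← Subgroup.inf_relIndex_right]
    exact Subgroup.relIndex_mul_index inf_le_right
  have h5 := card_inf D H
  set a := Nat.card D
  set b := Nat.card H
  set g := D.index
  set d := H.index
  set c := Nat.card (D ⊓ H : Subgroup C)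
  set h := D.relIndex H
  have hb : 0 < b := Nat.card_pos
  have hd : 0 < d := Nat.pos_of_ne_zero Subgroup.index_ne_zero_of_finite
  have hc : 0 < c := Nat.card_pos
  -- `h * c = b`
  have h6 : h * c = b := by
    have : (h * c) * d = b * d := by
      rw [h2, ← h3, ← h4]; ring
    exact Nat.eq_of_mul_eq_mul_right hd this
  -- `gcd(d,g) * b = g * c`
  have h7 : Nat.gcd d g * b = g * c := by
    rw [h5, ← Nat.gcd_mul_right, ← Nat.gcd_mul_left]
    congr 1
    rw [mul_comm, h2, mul_comm, h1]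
  have h8 : (Nat.gcd d g * h) * c = g * c := by
    rw [mul_assoc, h6, h7]
  exact (Nat.eq_of_mul_eq_mul_right hc h8).symm

/-- Number of primes of the fixed field `M` of `H` above `p`, in a cyclic extension. -/
theorem ncard_primesOver_fixedField (E F : Type) [Field E] [NumberField E] [Field F] [NumberField F]
    [Algebra E F] [IsGalois E F] [IsCyclic (F ≃ₐ[E] F)] (H : Subgroup (F ≃ₐ[E] F)) [H.Normal]
    (p : Ideal (𝓞 E)) [p.IsPrime] :
    letI M : IntermediateField E F := FixedPoints.intermediateField H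
    (p.primesOver (𝓞 M)).ncard = Nat.gcd H.index (p.primesOver (𝓞 F)).ncard := by
  classical
  let M : IntermediateField E F := FixedPoints.intermediateField H
  show (p.primesOver (𝓞 M)).ncard = Nat.gcd H.index (p.primesOver (𝓞 F)).ncard
  letI : CommGroup (F ≃ₐ[E] F) := IsCyclic.commGroup
  haveI : IsGalois E M := IsGaloisGroup.isGalois ((F ≃ₐ[E] F) ⧸ H) E M
  -- a prime of `F` above `p`
  obtain ⟨⟨Q, hQprime, hQlies⟩⟩ := (inferInstance : Nonempty (p.primesOver (𝓞 F)))
  haveI := hQprime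
  haveI := hQlies
  let P : Ideal (𝓞 M) := Q.under (𝓞 M)
  haveI : P.IsPrime := inferInstance
  haveI : Q.LiesOver P := ⟨rfl⟩
  haveI : P.LiesOver p := Ideal.LiesOver.tower_bot Q P p
  -- tower
  have htower : (p.primesOver (𝓞 M)).ncard * (P.primesOver (𝓞 F)).ncard =
      (p.primesOver (𝓞 F)).ncard :=
    Ideal.ncard_primesOver_mul_ncard_primesOver P (M ≃ₐ[E] M) (𝓞 F) (F ≃ₐ[E] F)
  haveI hGH : IsGaloisGroup H (𝓞 M) (𝓞 F) := IsGaloisGroup.of_isFractionRing H _ _ M F
  haveI : Algebra.IsInvariant (𝓞 M) (𝓞 F) H := hGH.isInvariant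
  -- orbit-stabiliser
  have hg : (p.primesOver (𝓞 F)).ncard = (MulAction.stabilizer (F ≃ₐ[E] F) Q).index := by
    rw [← Algebra.IsInvariant.orbit_eq_primesOver (𝓞 E) (𝓞 F) (F ≃ₐ[E] F) p Q,
      MulAction.index_stabilizer]
  have hh : (P.primesOver (𝓞 F)).ncard = (MulAction.stabilizer (F ≃ₐ[E] F) Q).relIndex H := by
    rw [← Algebra.IsInvariant.orbit_eq_primesOver (𝓞 M) (𝓞 F) H P Q]
    have h1 := MulAction.index_stabilizer H Q
    have h2 : MulAction.stabilizer H Q = (MulAction.stabilizer (F ≃ₐ[E] F) Q).subgroupOf H := by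
      ext x
      rw [Subgroup.mem_subgroupOf, MulAction.mem_stabilizer_iff, MulAction.mem_stabilizer_iff]
      rfl
    rw [Subgroup.relIndex, ← h2, h1]
    rfl
  have hA := index_eq_gcd_mul_relIndex (MulAction.stabilizer (F ≃ₐ[E] F) Q) H
  rw [← hg, ← hh] at hA
  have hpos : 0 < (P.primesOver (𝓞 F)).ncard := by
    rw [hh, Subgroup.relIndex]
    exact Nat.pos_of_ne_zero Subgroup.index_ne_zero_of_finite
  have : (p.primesOver (𝓞 M)).ncard * (P.primesOver (𝓞 F)).ncard =
      Nat.gcd H.index (p.primesOver (𝓞 F)).ncard * (P.primesOver (𝓞 F)).ncard := by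
    rw [htower]; exact hA
  exact Nat.eq_of_mul_eq_mul_right hpos this

end CyclicSplit

open CyclicSplit in
/-- (C3a) For `d ∣ [F : E]`, `F/E` cyclic: the fixed field `M` of the subgroup of index `d` is
Galois of degree `d` over `E`, and a prime `v` of `E` splits completely in `M` iff `d` divides the
number of primes of `F` above `v`. -/
theorem stmtCyclicSplit : StmtCyclicSplit := by
  intro E F _ _ _ _ _ _ _ d hd
  classical
  obtain ⟨σ, hσ⟩ := IsCyclic.exists_generator (α := F ≃ₐ[E] F)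
  have hn : Nat.card (F ≃ₐ[E] F) = Module.finrank E F := IsGalois.card_aut_eq_finrank E F
  have hnpos : 0 < Module.finrank E F := Module.finrank_pos
  have hd0 : d ≠ 0 := by
    rintro rfl
    rw [zero_dvd_iff] at hd
    omega
  let H : Subgroup (F ≃ₐ[E] F) := Subgroup.zpowers (σ ^ d)
  haveI : H.Normal := by
    letI : CommGroup (F ≃ₐ[E] F) := IsCyclic.commGroup
    exact Subgroup.normal_of_isMulCommutative H
  -- `|H| = n / d`, `[G : H] = d`
  have hcardH : Nat.card H = Module.finrank E F / d := by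
    rw [Nat.card_zpowers, orderOf_pow, orderOf_eq_card_of_forall_mem_zpowers hσ, hn,
      Nat.gcd_eq_right hd]
  have hindex : H.index = d := by
    have h1 := H.card_mul_index
    rw [hcardH, hn] at h1
    obtain ⟨k, hk⟩ := hd
    have hkpos : 0 < k := by
      rcases Nat.eq_zero_or_pos k with h0 | h0
      · rw [h0, mul_zero] at hk; omega
      · exact h0
    rw [hk, Nat.mul_div_cancel_left _ (Nat.pos_of_ne_zero hd0)] at h1
    have : k * H.index = k * d := by rw [h1]; ring
    exact Nat.eq_of_mul_eq_mul_left hkpos this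
  let M : IntermediateField E F := FixedPoints.intermediateField H
  haveI hMgal : IsGalois E M := IsGaloisGroup.isGalois ((F ≃ₐ[E] F) ⧸ H) E M
  have hfinM : Module.finrank E M = d := by
    have h1 : Module.finrank M F = Nat.card H :=
      IsGaloisGroup.finrank_fixedPoints_eq_card_subgroup (F ≃ₐ[E] F) E F H
    have h2 : Module.finrank E M * Module.finrank M F = Module.finrank E F :=
      Module.finrank_mul_finrank E M F
    rw [h1, hcardH] at h2
    obtain ⟨k, hk⟩ := hd
    have hkpos : 0 < k := by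
      rcases Nat.eq_zero_or_pos k with h0 | h0
      · rw [h0, mul_zero] at hk; omega
      · exact h0
    rw [hk, Nat.mul_div_cancel_left _ (Nat.pos_of_ne_zero hd0)] at h2
    have : Module.finrank E M * k = d * k := h2
    exact Nat.eq_of_mul_eq_mul_right hkpos this
  refine ⟨M, inferInstance, inferInstance, inferInstance, hMgal, hfinM, ?_⟩
  intro v
  have key := ncard_primesOver_fixedField E F H v.asIdeal
  show (Ideal.primesOver v.asIdeal (𝓞 M)).ncard = Module.finrank E M ↔ _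
  rw [hfinM, key, hindex]
  exact Nat.gcd_eq_left_iff_dvd

end Fermat.Agent.Cheb


end ZBCheb_001_5

/-! ### bundled: `Fermat.Agent.Cheb.Stab` -/
section ZBCheb_001_6
/-
Weak Chebotarev, piece C6 (helper41): at an unramified prime `P` of `𝓞 F` (`F/ℚ` finite Galois) every
element of the stabiliser of `P` is a power of a Frobenius element at `P`.
-/

set_option autoImplicit false
set_option linter.style.haveILetI false

namespace Fermat.Agent.Cheb

open NumberField IsDedekindDomain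
open scoped Pointwise

section general

variable {R S G : Type*} [CommRing R] [CommRing S] [Algebra R S] [Group G]
  [MulSemiringAction G S] [SMulCommClass G R S]

/-- Powers of a Frobenius element act on the residue ring as iterated `q`-th powers. -/
theorem stab_frob_pow_sub_mem {Q : Ideal S} [Q.IsPrime] {φ : G} (hφ : IsArithFrobAt R φ Q)
    (m : ℕ) (x : S) : (φ ^ m) • x - x ^ (Nat.card (R ⧸ Q.under R) ^ m) ∈ Q := by
  induction m generalizing x with
  | zero => simp
  | succ m ih =>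
    have h1 : (φ ^ (m + 1)) • x = (φ ^ m) • (φ • x) := by
      rw [pow_succ, mul_smul]
    have h2 : φ • x - x ^ Nat.card (R ⧸ Q.under R) ∈ Q := by
      simpa using hφ x
    -- `(φ^m) • (φ • x) ≡ (φ • x)^(q^m) ≡ (x^q)^(q^m)`
    have h3 := ih (φ • x)
    have h4 : (φ • x) ^ (Nat.card (R ⧸ Q.under R) ^ m) -
        (x ^ Nat.card (R ⧸ Q.under R)) ^ (Nat.card (R ⧸ Q.under R) ^ m) ∈ Q :=
      Ideal.mem_of_dvd _ (sub_dvd_pow_sub_pow _ _ _) h2
    have h5 : (x ^ Nat.card (R ⧸ Q.under R)) ^ (Nat.card (R ⧸ Q.under R) ^ m) =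
        x ^ (Nat.card (R ⧸ Q.under R) ^ (m + 1)) := by
      rw [← pow_mul, pow_succ']
    rw [h1, ← h5]
    have := Q.add_mem h3 h4
    simpa using this

end general

attribute [local instance] Ideal.Quotient.field in
theorem stmtStab : StmtStab := by
  intro F _ _ _ P _ hP0 hunr σ hσ
  let p : Ideal ℤ := P.under ℤ
  haveI hLO : P.LiesOver p := ⟨rfl⟩
  haveI hpprime : p.IsPrime := inferInstance
  haveI : Finite (𝓞 F ⧸ P) := Ideal.finiteQuotientOfFreeOfNeBot P hP0
  have hp0 : p ≠ ⊥ := Ideal.under_ne_bot ℤ hP0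
  haveI hpmax : p.IsMaximal := hpprime.isMaximal hp0
  haveI hPmax : P.IsMaximal := Ideal.IsPrime.isMaximal inferInstance hP0
  haveI : Finite (ℤ ⧸ p) := Ideal.finiteQuotientOfFreeOfNeBot p hp0
  obtain ⟨φ, hφ⟩ := IsArithFrobAt.exists_of_isInvariant ℤ (F ≃ₐ[ℚ] F) P
  -- inertia is trivial
  have hI : Ideal.inertia (F ≃ₐ[ℚ] F) P = ⊥ := by
    have h1 : Nat.card (Ideal.inertia (F ≃ₐ[ℚ] F) P) = 1 := by
      rw [Ideal.card_inertia_eq_ramificationIdxIn p P,
        Ideal.ramificationIdxIn_eq_ramificationIdx p P (F ≃ₐ[ℚ] F)]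
      exact Ideal.ramificationIdx_eq_one_of_isUnramifiedAt
    exact Subgroup.card_eq_one.mp h1
  -- the action of `σ` on the residue field is a power of the Frobenius automorphism
  let σs : MulAction.stabilizer (F ≃ₐ[ℚ] F) P := ⟨σ, hσ⟩
  letI : Fintype (ℤ ⧸ p) := Fintype.ofFinite _
  obtain ⟨n, hn⟩ := (FiniteField.bijective_frobeniusAlgEquivOfAlgebraic_pow (ℤ ⧸ p) (𝓞 F ⧸ P)).2
    (Ideal.Quotient.stabilizerHom P p (F ≃ₐ[ℚ] F) σs)
  refine ⟨φ, n, hφ, ?_⟩
  have h2 : ∀ x : 𝓞 F, σ • x - x ^ (Nat.card (ℤ ⧸ p) ^ (n : ℕ)) ∈ P := by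
    intro x
    have h := congrArg (fun f : (𝓞 F ⧸ P) ≃ₐ[ℤ ⧸ p] (𝓞 F ⧸ P) => f (Ideal.Quotient.mk P x)) hn
    simp only [AlgEquiv.coe_pow, FiniteField.coe_frobeniusAlgEquivOfAlgebraic_iterate,
      Ideal.Quotient.stabilizerHom_apply] at h
    rw [← Ideal.Quotient.eq, map_pow, Nat.card_eq_fintype_card]
    exact h.symm
  have key : ∀ x : 𝓞 F, (φ ^ (n : ℕ)) • x - σ • x ∈ P := by
    intro x
    have h1 := stab_frob_pow_sub_mem (R := ℤ) hφ n x
    have h3 := P.sub_mem h1 (h2 x)
    have h4 : (φ ^ (n : ℕ)) • x - x ^ (Nat.card (ℤ ⧸ P.under ℤ) ^ (n : ℕ)) -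
        (σ • x - x ^ (Nat.card (ℤ ⧸ p) ^ (n : ℕ))) = (φ ^ (n : ℕ)) • x - σ • x := by
      show (φ ^ (n : ℕ)) • x - x ^ (Nat.card (ℤ ⧸ p) ^ (n : ℕ)) -
        (σ • x - x ^ (Nat.card (ℤ ⧸ p) ^ (n : ℕ))) = (φ ^ (n : ℕ)) • x - σ • x
      ring
    rw [h4] at h3
    exact h3
  have hmem : σ⁻¹ * φ ^ (n : ℕ) ∈ Ideal.inertia (F ≃ₐ[ℚ] F) P := by
    intro x
    have hσinv : σ⁻¹ • P = P := by
      rw [inv_smul_eq_iff, hσ]
    have h3 : σ⁻¹ • ((φ ^ (n : ℕ)) • x - σ • x) ∈ σ⁻¹ • P :=
      Ideal.smul_mem_pointwise_smul _ _ _ (key x)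
    rw [hσinv] at h3
    simpa [mul_smul, smul_sub] using h3
  rw [hI, Subgroup.mem_bot] at hmem
  exact (inv_mul_eq_one.mp hmem)

end Fermat.Agent.Cheb


end ZBCheb_001_6

/-! ### bundled: `Fermat.Agent.Cheb.Glue` -/
section ZBCheb_001_7

/-!
# Weak Chebotarev, piece C4: from a finite level to `ℚ̄`

Let `F ⊆ ℚ̄` be a finite Galois extension of `ℚ`, `𝔓` a prime of `𝓞 F` over the rational prime
`ℓ` at which `F/ℚ` is unramified, and `φ ∈ Gal(F/ℚ)` an arithmetic Frobenius at `𝔓`.
Then there are a valuation subring `A` of `ℚ̄` over `ℓ` and a Frobenius element `τ` at `A`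
(in the sense of the prelude) whose restriction to `F` is `φ`.
-/

set_option autoImplicit false

open NumberField

namespace Fermat.Agent.Cheb

section General

variable {K L : Type*} [Field K] [Field L] [Algebra K L]

/-- A Frobenius element at `A` acts as `x ↦ x ^ q` modulo the maximal ideal of `A`. -/
theorem sub_pow_mem_nonunits_of_isFrobeniusAt (A : ValuationSubring L) (σ : L ≃ₐ[K] L) (q : ℕ)
    (h : A.IsFrobeniusAt σ q) (x : L) (hx : x ∈ A) : σ x - x ^ q ∈ A.nonunits := by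
  obtain ⟨hσ, hres⟩ := h
  have h1 := hres (IsLocalRing.residue A ⟨x, hx⟩)
  rw [← IsLocalRing.ResidueField.residue_smul, ← map_pow, ← sub_eq_zero, ← map_sub,
    IsLocalRing.residue_eq_zero_iff, ← ValuationSubring.coe_mem_nonunits_iff] at h1
  exact h1

end General

section Qbar

variable (F : IntermediateField ℚ (AlgebraicClosure ℚ))

/-- The embedding of the ring of integers of `F ⊆ ℚ̄` into `ℚ̄`. -/
noncomputable def intEmb : 𝓞 F →+* AlgebraicClosure ℚ :=
  (algebraMap F (AlgebraicClosure ℚ)).comp (algebraMap (𝓞 F) F)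

theorem intEmb_apply (x : 𝓞 F) : intEmb F x = ((x : F) : AlgebraicClosure ℚ) := rfl

theorem intEmb_injective : Function.Injective (intEmb F) := by
  intro x y h
  have h1 : ((x : F) : AlgebraicClosure ℚ) = ((y : F) : AlgebraicClosure ℚ) := h
  exact RingOfIntegers.ext (Subtype.ext h1)

/-- Every valuation subring of `ℚ̄` contains the integers of `F`. -/
theorem intEmb_mem (A : ValuationSubring (AlgebraicClosure ℚ)) (x : 𝓞 F) : intEmb F x ∈ A := by
  have hx : IsIntegral ℤ (intEmb F x) := by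
    have h1 : IsIntegral ℤ x := RingOfIntegers.isIntegral x
    exact h1.map ((intEmb F).toIntAlgHom)
  have hint : IsIntegral A (intEmb F x) := hx.tower_top
  obtain ⟨y, hy⟩ := (IsIntegrallyClosed.isIntegral_iff (R := A) (K := AlgebraicClosure ℚ)).mp hint
  exact hy ▸ y.2

/-- A valuation subring of `ℚ̄` whose maximal ideal contains a given proper ideal of `𝓞 F`. -/
theorem exists_valuationSubring_of_ideal (𝔓 : Ideal (𝓞 F)) (h𝔓 : 𝔓 ≠ ⊤) :
    ∃ A : ValuationSubring (AlgebraicClosure ℚ), ∀ x ∈ 𝔓, intEmb F x ∈ A.nonunits := by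
  let R : Subring (AlgebraicClosure ℚ) := (intEmb F).range
  let e : 𝓞 F →+* R := (intEmb F).rangeRestrict
  have he : Function.Bijective e :=
    ⟨fun a b hab => intEmb_injective F (congrArg (fun t : R => (t : AlgebraicClosure ℚ)) hab),
      (intEmb F).rangeRestrict_surjective⟩
  have hI : Ideal.map e 𝔓 ≠ ⊤ := by
    intro htop
    apply h𝔓
    have := Ideal.comap_map_of_bijective e he (I := 𝔓)
    rw [htop, Ideal.comap_top] at this
    exact this.symm
  obtain ⟨B, -, hB⟩ := Ideal.image_subset_nonunits_valuationSubring (Ideal.map e 𝔓) hI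
  exact ⟨B, fun x hx => hB ⟨e x, Ideal.mem_map_of_mem e hx, rfl⟩⟩

/-- If the maximal ideal of `A` contains the maximal ideal `𝔓` of `𝓞 F`, then it meets `𝓞 F`
exactly in `𝔓`. -/
theorem mem_of_intEmb_mem_nonunits (A : ValuationSubring (AlgebraicClosure ℚ))
    (𝔓 : Ideal (𝓞 F)) (h𝔓 : 𝔓.IsMaximal) (hA : ∀ x ∈ 𝔓, intEmb F x ∈ A.nonunits)
    (y : 𝓞 F) (hy : intEmb F y ∈ A.nonunits) : y ∈ 𝔓 := by
  by_contra hy𝔓
  obtain ⟨b, i, hi, hbi⟩ := h𝔓.exists_inv hy𝔓
  have h1 : intEmb F b * intEmb F y + intEmb F i = 1 := by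
    rw [← map_mul, ← map_add, hbi, map_one]
  have h2 : intEmb F b * intEmb F y + intEmb F i ∈ A.nonunits :=
    A.nonunits.add_mem
      (Fermat.Agent.Common.frobGlue_mul_mem_nonunits A (intEmb_mem F A b) hy) (hA i hi)
  rw [h1] at h2
  exact Fermat.Agent.Common.one_not_mem_nonunits A h2

/-- The prime of `ℤ` under a prime of `𝓞 F` containing `ℓ` has residue field of size `ℓ`. -/
theorem card_quot_under (ℓ : ℕ) (hℓ : ℓ.Prime) (𝔓 : Ideal (𝓞 F)) [𝔓.IsPrime]
    (hℓ𝔓 : (ℓ : 𝓞 F) ∈ 𝔓) : Nat.card (ℤ ⧸ 𝔓.under ℤ) = ℓ := by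
  have h1 : 𝔓.under ℤ = Ideal.span {(ℓ : ℤ)} := by
    have hmax : (Ideal.span {(ℓ : ℤ)}).IsMaximal :=
      (Ideal.span_singleton_prime (by exact_mod_cast hℓ.ne_zero)).mpr
        (Nat.prime_iff_prime_int.mp hℓ) |>.isMaximal (by
          simpa using hℓ.ne_zero)
    have hle : Ideal.span {(ℓ : ℤ)} ≤ 𝔓.under ℤ := by
      rw [Ideal.span_singleton_le_iff_mem, Ideal.under_def, Ideal.mem_comap]
      simpa using hℓ𝔓
    have hne : 𝔓.under ℤ ≠ ⊤ := (Ideal.IsPrime.under ℤ 𝔓).ne_top
    exact (hmax.eq_of_le hne hle).symm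
  rw [h1]
  rw [Nat.card_congr (Int.quotientSpanNatEquivZMod ℓ).toEquiv, Nat.card_zmod]

end Qbar

section Main

variable (F : IntermediateField ℚ (AlgebraicClosure ℚ)) [IsGalois ℚ F]

/-- The restriction to `F` of a Frobenius element at `A` is an arithmetic Frobenius at the prime
of `𝓞 F` below `A`. -/
theorem restrictNormal_isArithFrobAt (A : ValuationSubring (AlgebraicClosure ℚ))
    (ℓ : ℕ) (hℓ : ℓ.Prime) (𝔓 : Ideal (𝓞 F)) [𝔓.IsPrime] (h𝔓 : 𝔓.IsMaximal)
    (hℓ𝔓 : (ℓ : 𝓞 F) ∈ 𝔓) (hA : ∀ x ∈ 𝔓, intEmb F x ∈ A.nonunits)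
    (τ : AlgebraicClosure ℚ ≃ₐ[ℚ] AlgebraicClosure ℚ) (hτ : A.IsFrobeniusAt τ ℓ) :
    IsArithFrobAt ℤ (τ.restrictNormal F) 𝔓 := by
  intro x
  rw [card_quot_under F ℓ hℓ 𝔓 hℓ𝔓]
  apply mem_of_intEmb_mem_nonunits F A 𝔓 h𝔓 hA
  have h1 : intEmb F ((MulSemiringAction.toAlgHom ℤ (𝓞 F) (τ.restrictNormal F)) x - x ^ ℓ) =
      τ (intEmb F x) - (intEmb F x) ^ ℓ := by
    rw [map_sub, map_pow]
    congr 1
    exact AlgEquiv.restrictNormal_commutes τ F (x : F)
  rw [h1]
  exact sub_pow_mem_nonunits_of_isFrobeniusAt A τ ℓ hτ _ (intEmb_mem F A x)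

omit [IsGalois ℚ F] in
/-- An element of `Gal(F/ℚ)` is determined by its action on `𝓞 F`. -/
theorem algEquiv_eq_of_toAlgHom_eq [NumberField F] (φ ψ : F ≃ₐ[ℚ] F)
    (h : MulSemiringAction.toAlgHom ℤ (𝓞 F) φ = MulSemiringAction.toAlgHom ℤ (𝓞 F) ψ) :
    φ = ψ := by
  ext x
  obtain ⟨a, b, hb, rfl⟩ := IsFractionRing.div_surjective (A := 𝓞 F) x
  have ha' : φ (a : F) = ψ (a : F) := by
    have := congrArg (fun f => ((f a : 𝓞 F) : F)) h
    exact this
  have hb' : φ (b : F) = ψ (b : F) := by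
    have := congrArg (fun f => ((f b : 𝓞 F) : F)) h
    exact this
  rw [map_div₀, map_div₀, ha', hb']

/-- **Piece C4.** A finite-level arithmetic Frobenius at an unramified prime is the restriction
of a Frobenius element of `Gal(ℚ̄/ℚ)` at some valuation subring of `ℚ̄`. -/
theorem exists_isFrobeniusAt_of_isArithFrobAt [FiniteDimensional ℚ F]
    (ℓ : ℕ) (hℓ : ℓ.Prime) (𝔓 : Ideal (𝓞 F)) [𝔓.IsPrime] (hℓ𝔓 : (ℓ : 𝓞 F) ∈ 𝔓)
    [Algebra.IsUnramifiedAt ℤ 𝔓] (φ : F ≃ₐ[ℚ] F) (hφ : IsArithFrobAt ℤ φ 𝔓) :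
    ∃ (A : ValuationSubring (AlgebraicClosure ℚ))
      (τ : AlgebraicClosure ℚ ≃ₐ[ℚ] AlgebraicClosure ℚ),
      A.LiesOverPrime ℓ ∧ A.IsFrobeniusAt τ ℓ ∧ τ.restrictNormal F = φ ∧
      ∀ x ∈ 𝔓, intEmb F x ∈ A.nonunits := by
  have : NumberField F := ⟨⟩
  have hne : 𝔓 ≠ ⊥ := by
    intro h
    rw [h, Ideal.mem_bot] at hℓ𝔓
    exact hℓ.ne_zero (by exact_mod_cast hℓ𝔓)
  have hmax : 𝔓.IsMaximal := Ideal.IsPrime.isMaximal inferInstance hne
  obtain ⟨A, hA⟩ := exists_valuationSubring_of_ideal F 𝔓 (Ideal.IsPrime.ne_top inferInstance)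
  have hlies : A.LiesOverPrime ℓ := by
    have := hA _ hℓ𝔓
    rwa [map_natCast] at this
  obtain ⟨τ, hτ⟩ := Fermat.Agent.Common.exists_isFrobeniusAt_of_liesOverPrime ℓ hℓ A hlies
  refine ⟨A, τ, hlies, hτ, ?_, hA⟩
  have h1 := restrictNormal_isArithFrobAt F A ℓ hℓ 𝔓 hmax hℓ𝔓 hA τ hτ
  have h2 := AlgHom.IsArithFrobAt.eq_of_isUnramifiedAt h1 hφ
    (by
      intro x hx
      rw [mem_nonZeroDivisors_iff_ne_zero]
      rintro rfl
      exact hx (Ideal.zero_mem _))
  exact algEquiv_eq_of_toAlgHom_eq F _ _ h2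

/-- **Piece C4** in the form of `Plan.lean`. -/
theorem stmtGlue : StmtGlue := by
  intro F _ _ P _ ℓ hℓ hℓP hunr φ hφ
  have : FiniteDimensional ℚ F := NumberField.to_finiteDimensional
  obtain ⟨A, τ, hA, hτ, hτφ, -⟩ := exists_isFrobeniusAt_of_isArithFrobAt F ℓ hℓ P hℓP φ hφ
  refine ⟨A, τ, hA, hτ, fun x => ?_⟩
  have h := AlgEquiv.restrictNormal_commutes τ F x
  rw [hτφ] at h
  exact h.symm

/-- The finite-level form of weak Chebotarev for `F/ℚ`: every element of `Gal(F/ℚ)` is a power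
of an arithmetic Frobenius at a prime of `𝓞 F` over a rational prime outside any given finite
set. (No unramifiedness is asked: the finite set can absorb the ramified primes.) -/
def FiniteLevelCheb : Prop :=
  ∀ (S : Finset ℕ) (g : F ≃ₐ[ℚ] F),
    ∃ (ℓ : ℕ) (𝔓 : Ideal (𝓞 F)) (φ : F ≃ₐ[ℚ] F) (m : ℕ),
      ℓ.Prime ∧ ℓ ∉ S ∧ 𝔓.IsPrime ∧ (ℓ : 𝓞 F) ∈ 𝔓 ∧ IsArithFrobAt ℤ φ 𝔓 ∧ φ ^ m = g

/-- **Weak Chebotarev from its finite-level form** (the statement consumed by `S42`/`S29`):
every `σ ∈ Gal(ℚ̄/ℚ)` agrees on `F` with a power of a Frobenius element at a prime outside `S`. -/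
theorem weakCheb_of_finiteLevel [FiniteDimensional ℚ F] (h : FiniteLevelCheb F)
    (S : Finset ℕ) (σ : AlgebraicClosure ℚ ≃ₐ[ℚ] AlgebraicClosure ℚ) :
    ∃ (ℓ : ℕ) (A : ValuationSubring (AlgebraicClosure ℚ))
      (τ : AlgebraicClosure ℚ ≃ₐ[ℚ] AlgebraicClosure ℚ) (m : ℕ),
      ℓ.Prime ∧ ℓ ∉ S ∧ A.LiesOverPrime ℓ ∧ A.IsFrobeniusAt τ ℓ ∧
        ∀ x : AlgebraicClosure ℚ, x ∈ F → (τ ^ m) x = σ x := by
  have : NumberField F := ⟨⟩
  obtain ⟨ℓ, 𝔓, φ, m, hℓ, hℓS, h𝔓, hℓ𝔓, hφ, hm⟩ :=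
    h (S ∪ (NumberField.discr F).natAbs.primeFactors) (σ.restrictNormal F)
  have hℓS' : ℓ ∉ S := fun hmem => hℓS (Finset.mem_union_left _ hmem)
  have hdisc : ¬ ((ℓ : ℤ) ∣ NumberField.discr F) := by
    intro hdvd
    apply hℓS
    refine Finset.mem_union_right _ ?_
    rw [Nat.mem_primeFactors]
    refine ⟨hℓ, ?_, ?_⟩
    · exact Int.natCast_dvd.mp hdvd
    · simpa using NumberField.discr_ne_zero F
  have hunr : Algebra.IsUnramifiedAt ℤ 𝔓 :=
    (NumberField.not_dvd_discr_iff_forall_mem F (𝓞 F) (Nat.prime_iff_prime_int.mp hℓ)).mp hdisc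
      𝔓 h𝔓 (by simpa using hℓ𝔓)
  obtain ⟨A, τ, hA, hτ, hτφ, -⟩ := exists_isFrobeniusAt_of_isArithFrobAt F ℓ hℓ 𝔓 hℓ𝔓 φ hφ
  refine ⟨ℓ, A, τ, m, hℓ, hℓS', hA, hτ, fun x hx => ?_⟩
  have h1 : (τ ^ m).restrictNormal F = σ.restrictNormal F := by
    have h2 : (τ ^ m).restrictNormal F = (τ.restrictNormal F) ^ m :=
      map_pow (AlgEquiv.restrictNormalHom F) τ m
    rw [h2, hτφ, hm]
  have h3 := AlgEquiv.restrictNormal_commutes (τ ^ m) F ⟨x, hx⟩
  have h4 := AlgEquiv.restrictNormal_commutes σ F ⟨x, hx⟩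
  rw [h1] at h3
  exact h3.symm.trans h4

end Main

end Fermat.Agent.Cheb


end ZBCheb_001_7

/-! ### bundled: `Fermat.Agent.Cheb.Assembly` -/
section ZBCheb_001_8
/-
Weak Chebotarev (item 70), piece C5: the assembly
`weakChebotarev : StmtCyclic → StmtStab → StmtGlue → WeakChebotarev`.  (Owner: helper59.)

Proof: `σ_F := σ|F`, `E :=` fixed field of `⟨σ_F⟩`, so `F/E` is cyclic.  `StmtCyclic` (with `S`
enlarged by the primes dividing `discr F`) gives a prime `v` of `E` of prime norm `ℓ ∉ S` with a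
unique prime `P` of `F` above it.  `σ_F` fixes `E`, hence `σ_F • P` lies over `v`, hence
`σ_F • P = P`.  `StmtStab`: `σ_F = φ ^ m` for a Frobenius `φ` at `P`; `StmtGlue`: `φ = τ|F` for a
Frobenius `τ` at a valuation subring of `ℚ̄` over `ℓ`.
-/

set_option autoImplicit false
set_option linter.style.haveILetI false

namespace Fermat.Agent.Cheb

open NumberField IsDedekindDomain
open scoped Pointwise

/-- A finite set of primes containing all primes dividing the discriminant. -/
lemma C5.exists_finset_discr (K : Type) [Field K] [NumberField K] :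
    ∃ T : Finset ℕ, ∀ ℓ : ℕ, ℓ.Prime → (ℓ : ℤ) ∣ discr K → ℓ ∈ T := by
  refine ⟨(discr K).natAbs.primeFactors, fun ℓ hℓ h => ?_⟩
  rw [Nat.mem_primeFactors]
  refine ⟨hℓ, ?_, ?_⟩
  · exact Int.natCast_dvd.mp h
  · exact Int.natAbs_ne_zero.mpr (discr_ne_zero K)

/-- Powers of an extension restrict to powers of the restriction. -/
lemma C5.pow_apply_of_restrict {F : IntermediateField ℚ (AlgebraicClosure ℚ)}
    (τ : AlgebraicClosure ℚ ≃ₐ[ℚ] AlgebraicClosure ℚ) (φ : F ≃ₐ[ℚ] F)
    (h : ∀ x : F, τ (x : AlgebraicClosure ℚ) = φ x) (m : ℕ) (x : F) :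
    (τ ^ m) (x : AlgebraicClosure ℚ) = (φ ^ m) x := by
  induction m generalizing x with
  | zero => simp
  | succ m ih =>
    rw [pow_succ, pow_succ, AlgEquiv.mul_apply, AlgEquiv.mul_apply, h, ih]

/-- An automorphism fixing the base field `E` maps a prime over `v` to a prime over `v`. -/
lemma C5.smul_mem_primesOver {F : Type} [Field F] [NumberField F] (E : IntermediateField ℚ F)
    [NumberField E] (σ : F ≃ₐ[ℚ] F) (hσ : ∀ x : E, σ⁻¹ (x : F) = x)
    (v : Ideal (𝓞 E)) (P : Ideal (𝓞 F)) (hP : P ∈ Ideal.primesOver v (𝓞 F)) :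
    σ • P ∈ Ideal.primesOver v (𝓞 F) := by
  haveI : P.IsPrime := hP.1
  have hPv : P.LiesOver v := hP.2
  refine ⟨inferInstance, ⟨?_⟩⟩
  rw [hPv.over]
  ext x
  rw [Ideal.mem_comap, Ideal.mem_comap, Ideal.mem_pointwise_smul_iff_inv_smul_mem]
  have : σ⁻¹ • (algebraMap (𝓞 E) (𝓞 F) x) = algebraMap (𝓞 E) (𝓞 F) x := by
    apply RingOfIntegers.ext
    exact hσ (x : E)
  rw [this]

theorem weakChebotarev (hC : StmtCyclic) (hS : StmtStab) (hG : StmtGlue) : WeakChebotarev := by
  intro F _ _ S σ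
  haveI : NumberField F :=
    { to_charZero := inferInstance, to_finiteDimensional := inferInstance }
  let σF : F ≃ₐ[ℚ] F := AlgEquiv.restrictNormal σ F
  have hσF : ∀ x : F, ((σF x : F) : AlgebraicClosure ℚ) = σ x := fun x =>
    AlgEquiv.restrictNormal_commutes σ F x
  let H : Subgroup (F ≃ₐ[ℚ] F) := Subgroup.zpowers σF
  let E : IntermediateField ℚ F := IntermediateField.fixedField H
  haveI : NumberField E :=
    { to_charZero := inferInstance, to_finiteDimensional := inferInstance }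
  have hfix : E.fixingSubgroup = H := IntermediateField.fixingSubgroup_fixedField H
  haveI : IsCyclic H := inferInstance
  haveI : IsCyclic E.fixingSubgroup := hfix ▸ ‹IsCyclic H›
  haveI : IsCyclic (F ≃ₐ[E] F) :=
    isCyclic_of_surjective (IntermediateField.fixingSubgroupEquiv E)
      (IntermediateField.fixingSubgroupEquiv E).surjective
  obtain ⟨T, hT⟩ := C5.exists_finset_discr F
  obtain ⟨v, hvp, hvS, hv1⟩ := hC E F (S ∪ T)
  obtain ⟨P, hP⟩ := Set.ncard_eq_one.mp hv1
  have hPmem : P ∈ Ideal.primesOver v.asIdeal (𝓞 F) := by rw [hP]; exact Set.mem_singleton P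
  haveI : P.IsPrime := hPmem.1
  have hPv : P.LiesOver v.asIdeal := hPmem.2
  have hPbot : P ≠ ⊥ := Ideal.ne_bot_of_mem_primesOver v.ne_bot hPmem
  have hℓP : ((Ideal.absNorm v.asIdeal : ℕ) : 𝓞 F) ∈ P := by
    have h1 : ((Ideal.absNorm v.asIdeal : ℕ) : 𝓞 E) ∈ v.asIdeal := Ideal.absNorm_mem v.asIdeal
    have h2 := (Ideal.mem_of_liesOver P v.asIdeal _).mp h1
    rwa [map_natCast] at h2
  have hnd : ¬ ((Ideal.absNorm v.asIdeal : ℕ) : ℤ) ∣ discr F := fun h =>
    hvS (Finset.mem_union_right _ (hT _ hvp h))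
  have hunr : Algebra.IsUnramifiedAt ℤ P :=
    (not_dvd_discr_iff_forall_mem F (𝓞 F) (Nat.prime_iff_prime_int.mp hvp)).mp hnd P inferInstance
      (by rw [Int.cast_natCast]; exact hℓP)
  have hσmem : σF⁻¹ ∈ E.fixingSubgroup := by
    rw [hfix]
    exact Subgroup.inv_mem _ (Subgroup.mem_zpowers σF)
  have hstab : σF • P = P := by
    have := C5.smul_mem_primesOver E σF (fun x => hσmem x) v.asIdeal P hPmem
    rw [hP] at this
    exact this
  obtain ⟨φ, m, hφ, hσφ⟩ := hS F P hPbot hunr σF hstab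
  obtain ⟨A, τ, hA, hτ, hτφ⟩ := hG F P _ hvp hℓP hunr φ hφ
  refine ⟨_, A, τ, m, hvp, fun h => hvS (Finset.mem_union_left _ h), hA, hτ, ?_⟩
  intro x hx
  rw [C5.pow_apply_of_restrict τ φ hτφ m ⟨x, hx⟩, ← hσφ]
  exact hσF ⟨x, hx⟩

end Fermat.Agent.Cheb


end ZBCheb_001_8

/-! ### bundled: `Fermat.Agent.S42.Plan` -/
section ZBCheb_001_9

/-!
# S42 / S29: statements of the pieces (definitions only)

Each piece is one `Prop`; the assembly `Fermat/Agent/S42/Assembly.lean` proves
`StmtInt → StmtFreyField → StmtCyclo → StmtHull → Cheb.WeakChebotarev → (∀ M p, ESPkg M p) → S42`.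
-/

set_option autoImplicit false

namespace Fermat.Agent.S42

open Fermat.Agent.ES

/-- the condition "σ fixes the intermediate field `E` pointwise" -/
def FixesField (E : IntermediateField ℚ (AlgebraicClosure ℚ)) (σ : GQ) : Prop :=
  ∀ x ∈ E, σ x = x

/-- [INT] the `q`-coefficients of a normalized eigenform at primes not dividing the level are
algebraic integers. -/
def StmtInt : Prop :=
  ∀ (M : ℕ), 0 < M → ∀ g : CuspForm (CongruenceSubgroup.Gamma0 M) 2, g.IsNormalizedEigenform →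
    ∀ ℓ : ℕ, ℓ.Prime → ¬ ℓ ∣ M → ∃ a : Zbar, (a : ℂ) = ModularFormClass.qCoeff g ℓ

/-- [EC-1] the mod-`p` representation of a Frey curve is trivial on `Gal(ℚ̄/E)` for some finite
`E/ℚ`. -/
def StmtFreyField : Prop :=
  ∀ P : FreyPackage, ∃ E : IntermediateField ℚ (AlgebraicClosure ℚ), FiniteDimensional ℚ E ∧
    ∀ σ : GQ, FixesField E σ →
      letI : DecidableEq (AlgebraicClosure ℚ) := Classical.decEq _
      WeierstrassCurve.Affine.Point.galoisRepModuleEnd (S := ℚ) (K := AlgebraicClosure ℚ)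
        P.freyCurve P.p σ = 1

/-- [NT-3] the mod-`p` cyclotomic character: finite level, and `ω(Frob_ℓ) = ℓ` for `ℓ ≠ p`. -/
def StmtCyclo : Prop :=
  ∀ p : ℕ, p.Prime → ∃ ω : GQ →* (ZMod p)ˣ,
    (∃ E : IntermediateField ℚ (AlgebraicClosure ℚ), FiniteDimensional ℚ E ∧
      ∀ σ : GQ, FixesField E σ → ω σ = 1) ∧
    ∀ ℓ : ℕ, ℓ.Prime → ℓ ≠ p →
      ∀ A : ValuationSubring (AlgebraicClosure ℚ), A.LiesOverPrime ℓ →
        ∀ τ : GQ, A.IsFrobeniusAt τ ℓ → ((ω τ : (ZMod p)ˣ) : ZMod p) = (ℓ : ZMod p)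

/-- [Gal-1] finitely many finite extensions lie in a finite Galois extension. -/
def StmtHull : Prop :=
  ∀ s : Finset (IntermediateField ℚ (AlgebraicClosure ℚ)),
    (∀ E ∈ s, FiniteDimensional ℚ E) →
      ∃ F : IntermediateField ℚ (AlgebraicClosure ℚ), FiniteDimensional ℚ F ∧ Normal ℚ F ∧
        ∀ E ∈ s, E ≤ F

end Fermat.Agent.S42


end ZBCheb_001_9

/-! ### bundled: `Fermat.Agent.S42.Cyclo` -/
section ZBCheb_001_10

/-!
# S42 piece [NT-3]: the mod-`p` cyclotomic character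

`stmtCyclo : StmtCyclo`: for every prime `p` the mod-`p` cyclotomic character
`ω : G_ℚ →* (ZMod p)ˣ` is trivial on `Gal(ℚ̄/ℚ(ζ_p))` and `ω(τ) = ℓ` for every Frobenius `τ`
at every valuation subring over a prime `ℓ ≠ p`.
-/

set_option autoImplicit false

noncomputable section

namespace Fermat.Agent.S42

open Fermat.Agent.ES

/-- the number of `p`-th roots of unity in `ℚ̄` -/
theorem cyclo_card (p : ℕ) [NeZero p] :
    Nat.card (rootsOfUnity p (AlgebraicClosure ℚ)) = p :=
  haveI : NeZero (p : AlgebraicClosure ℚ) := ⟨Nat.cast_ne_zero.mpr (NeZero.ne p)⟩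
  HasEnoughRootsOfUnity.natCard_rootsOfUnity (AlgebraicClosure ℚ) p

/-- the mod-`p` cyclotomic character of `G_ℚ` -/
def cycloChar (p : ℕ) [NeZero p] : GQ →* (ZMod p)ˣ :=
  (modularCyclotomicCharacter (AlgebraicClosure ℚ) (cyclo_card p)).comp
    (MulSemiringAction.toRingAut GQ (AlgebraicClosure ℚ))

theorem cycloChar_spec (p : ℕ) [NeZero p] (σ : GQ) {ζ : AlgebraicClosure ℚ}
    (hζ : IsPrimitiveRoot ζ p) : σ ζ = ζ ^ ((cycloChar p σ : (ZMod p)ˣ) : ZMod p).val := by
  have h := modularCyclotomicCharacter.spec (AlgebraicClosure ℚ) (cyclo_card p)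
    (MulSemiringAction.toRingAut GQ (AlgebraicClosure ℚ) σ)
    (t := hζ.toRootsOfUnity) (SetLike.coe_mem hζ.toRootsOfUnity)
  simpa [cycloChar] using h

/-- `ω σ = 1` if `σ` fixes a primitive `p`-th root of unity. -/
theorem cycloChar_eq_one (p : ℕ) [NeZero p] (σ : GQ) {ζ : AlgebraicClosure ℚ}
    (hζ : IsPrimitiveRoot ζ p) (h : σ ζ = ζ) : cycloChar p σ = 1 := by
  have h1 := cycloChar_spec p σ hζ
  rw [h] at h1
  have h2 : ζ ^ 1 = ζ ^ ((cycloChar p σ : (ZMod p)ˣ) : ZMod p).val := by simpa using h1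
  rcases Nat.lt_or_ge 1 p with hp | hp
  · have := hζ.pow_inj hp (ZMod.val_lt _) h2
    apply Units.ext
    have e : ((cycloChar p σ : (ZMod p)ˣ) : ZMod p)
        = ((((cycloChar p σ : (ZMod p)ˣ) : ZMod p).val : ℕ) : ZMod p) :=
      (ZMod.natCast_zmod_val _).symm
    rw [e, ← this]
    simp
  · have hp1 : p = 1 := le_antisymm hp (Nat.pos_of_ne_zero (NeZero.ne p))
    subst hp1
    exact Subsingleton.elim _ _

/-- a root of unity lies in every valuation subring -/
theorem cyclo_mem_valuationSubring (A : ValuationSubring (AlgebraicClosure ℚ)) {p : ℕ} (hp : 0 < p)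
    {ζ : AlgebraicClosure ℚ} (hζ : ζ ^ p = 1) : ζ ∈ A := by
  rcases A.mem_or_inv_mem ζ with h | h
  · exact h
  · have h1 : ζ = ζ⁻¹ ^ (p - 1) := by
      have hζ0 : ζ ≠ 0 := by
        rintro rfl
        rw [zero_pow hp.ne'] at hζ
        exact zero_ne_one hζ
      have : ζ * ζ ^ (p - 1) = 1 := by
        rw [← pow_succ', Nat.sub_add_cancel hp, hζ]
      rw [inv_pow]
      exact eq_inv_of_mul_eq_one_left this
    rw [h1]
    exact pow_mem h _

/-- `p` is a unit at a valuation subring over `ℓ ≠ p`: its residue is nonzero. -/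
theorem cyclo_residue_natCast_ne_zero (A : ValuationSubring (AlgebraicClosure ℚ)) {p ℓ : ℕ}
    (hp : p.Prime) (hℓ : ℓ.Prime) (hℓp : ℓ ≠ p) (hA : A.LiesOverPrime ℓ) :
    IsLocalRing.residue A (p : A) ≠ 0 := by
  intro h
  have hℓ0 : IsLocalRing.residue A (ℓ : A) = 0 := by
    rw [IsLocalRing.residue_eq_zero_iff]
    obtain ⟨hmem, hmax⟩ := (A.mem_nonunits_iff_exists_mem_maximalIdeal).mp hA
    have : (⟨(ℓ : AlgebraicClosure ℚ), hmem⟩ : A) = (ℓ : A) := Subtype.ext (by simp)
    rwa [this] at hmax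
  have hcop : Nat.Coprime p ℓ := (Nat.coprime_primes hp hℓ).mpr (Ne.symm hℓp)
  have hb := Nat.Coprime.isCoprime hcop
  obtain ⟨u, v, huv⟩ := hb
  have h1 : IsLocalRing.residue A ((u : A) * (p : A) + (v : A) * (ℓ : A)) = 1 := by
    have : ((u : A) * (p : A) + (v : A) * (ℓ : A)) = 1 := by
      have := congrArg (fun z : ℤ => (z : A)) huv
      simpa using this
    rw [this, map_one]
  rw [map_add, map_mul, map_mul, h, hℓ0, mul_zero, mul_zero, add_zero] at h1
  exact zero_ne_one h1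

/-- `ω(τ) = ℓ` for a Frobenius `τ` at a valuation subring over `ℓ ≠ p`. -/
theorem cycloChar_frob (p : ℕ) [NeZero p] (hp : p.Prime) (ℓ : ℕ) (hℓ : ℓ.Prime) (hℓp : ℓ ≠ p)
    (A : ValuationSubring (AlgebraicClosure ℚ)) (hA : A.LiesOverPrime ℓ) (τ : GQ)
    (hτ : A.IsFrobeniusAt τ ℓ) :
    ((cycloChar p τ : (ZMod p)ˣ) : ZMod p) = (ℓ : ZMod p) := by
  have : NeZero (p : AlgebraicClosure ℚ) := ⟨Nat.cast_ne_zero.mpr (NeZero.ne p)⟩
  obtain ⟨ζ, hζ⟩ := HasEnoughRootsOfUnity.exists_primitiveRoot (AlgebraicClosure ℚ) p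
  have hζA : ζ ∈ A := cyclo_mem_valuationSubring A hp.pos hζ.pow_eq_one
  set z : A := ⟨ζ, hζA⟩ with hz
  set a : ℕ := ((cycloChar p τ : (ZMod p)ˣ) : ZMod p).val with ha
  have hmem := hτ.mem_decompositionSubgroup
  -- the action on `z`
  have e1 : ((⟨τ, hmem⟩ : A.decompositionSubgroup ℚ) • z : A) = z ^ a := by
    apply Subtype.ext
    show τ ζ = ((z ^ a : A) : AlgebraicClosure ℚ)
    rw [cycloChar_spec p τ hζ]
    rfl
  have e2 := hτ.smul_residue_eq (IsLocalRing.residue A z)
  rw [← IsLocalRing.ResidueField.residue_smul, e1, map_pow] at e2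
  -- the residue of `ζ` has order `p`
  set zb := IsLocalRing.residue A z with hzb
  have hzbp : zb ^ p = 1 := by
    rw [hzb, ← map_pow]
    have : z ^ p = 1 := Subtype.ext (by simpa [hz] using hζ.pow_eq_one)
    rw [this, map_one]
  have hzb1 : zb ≠ 1 := by
    intro h1
    have hsum : ∑ i ∈ Finset.range p, ζ ^ i = 0 := hζ.geom_sum_eq_zero hp.one_lt
    have hsumA : ∑ i ∈ Finset.range p, z ^ i = 0 := by
      apply Subtype.ext
      simpa [hz] using hsum
    have := congrArg (IsLocalRing.residue A) hsumA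
    rw [map_sum, map_zero] at this
    simp only [map_pow, ← hzb, h1, one_pow, Finset.sum_const, Finset.card_range,
      nsmul_eq_mul, mul_one] at this
    have h2 : IsLocalRing.residue A (p : A) = 0 := by simpa using this
    exact cyclo_residue_natCast_ne_zero A hp hℓ hℓp hA h2
  have hzb0 : zb ≠ 0 := by
    intro h0
    rw [h0, zero_pow hp.ne_zero] at hzbp
    exact zero_ne_one hzbp
  set u : (IsLocalRing.ResidueField A)ˣ := Units.mk0 zb hzb0 with hu
  have hup : u ^ p = 1 := Units.ext (by simpa [hu] using hzbp)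
  have hu1 : u ≠ 1 := fun h => hzb1 (by simpa [hu] using congrArg Units.val h)
  have : Fact p.Prime := ⟨hp⟩
  have hord : orderOf u = p := orderOf_eq_prime hup hu1
  have hue : u ^ a = u ^ ℓ := Units.ext (by simpa [hu] using e2)
  have hmod : a ≡ ℓ [MOD p] := by
    have := (pow_eq_pow_iff_modEq (x := u) (n := a) (m := ℓ)).mp hue
    rwa [hord] at this
  have h3 : ((a : ℕ) : ZMod p) = (ℓ : ZMod p) := (ZMod.natCast_eq_natCast_iff _ _ _).mpr hmod
  rw [← h3, ha, ZMod.natCast_zmod_val]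

/-- **[NT-3]** -/
theorem stmtCyclo : StmtCyclo := by
  intro p hp
  have : NeZero p := ⟨hp.ne_zero⟩
  have : NeZero (p : AlgebraicClosure ℚ) := ⟨Nat.cast_ne_zero.mpr (NeZero.ne p)⟩
  obtain ⟨ζ, hζ⟩ := HasEnoughRootsOfUnity.exists_primitiveRoot (AlgebraicClosure ℚ) p
  refine ⟨cycloChar p, ⟨IntermediateField.adjoin ℚ {ζ}, ?_, ?_⟩, ?_⟩
  · have hint : IsIntegral ℚ ζ := (hζ.isIntegral hp.pos).tower_top
    exact IntermediateField.adjoin.finiteDimensional hint
  · intro σ hσ
    apply cycloChar_eq_one p σ hζ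
    exact hσ ζ (IntermediateField.mem_adjoin_simple_self ℚ ζ)
  · intro ℓ hℓ hℓp A hA τ hτ
    exact cycloChar_frob p hp ℓ hℓ hℓp A hA τ hτ

end Fermat.Agent.S42

end
end ZBCheb_001_10

/-! ### bundled: `Fermat.Agent.S30.Cyclo` -/
section ZBCheb_001_11

/-!
# S30 glue: the `p`-adic cyclotomic character of `G_ℚ` and complex conjugation

* `padicCyclo p : GQ →* ℤ_[p]ˣ` — the `p`-adic cyclotomic character;
* `padicCyclo_frob` : `χ(τ) = ℓ` for a Frobenius `τ` at a valuation subring over `ℓ ≠ p`;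
* `padicCyclo_inertia` : `χ(σ) = 1` for `σ` in an inertia group over `q ≠ p`;
* `exists_complexConj` : there is `c` with `c * c = 1`, `χ(c) = -1`;
* `padicToComplete` : the ring hom `ℤ_[p] →+* S` for an `I`-adically complete ring `S` with `p ∈ I`;
* `exists_cycloCharO` : the packaged statement for a complete local ring `𝒪'`.
-/

set_option autoImplicit false

noncomputable section

namespace Fermat.Agent.S30

open Fermat.Agent.ES Fermat.Agent.S42

/-! ### the `p`-adic cyclotomic character -/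

/-- the `p`-adic cyclotomic character of `G_ℚ` -/
def padicCyclo (p : ℕ) [Fact p.Prime] : GQ →* ℤ_[p]ˣ :=
  (cyclotomicCharacter (AlgebraicClosure ℚ) p).comp
    (MulSemiringAction.toRingAut GQ (AlgebraicClosure ℚ))

theorem padicCyclo_spec (p : ℕ) [Fact p.Prime] (σ : GQ) (n : ℕ) {ζ : AlgebraicClosure ℚ}
    (hζ : ζ ^ p ^ n = 1) :
    σ ζ = ζ ^ (((padicCyclo p σ : ℤ_[p]ˣ) : ℤ_[p]).toZModPow n).val := by
  have h := cyclotomicCharacter.spec (L := AlgebraicClosure ℚ) p
    (MulSemiringAction.toRingAut GQ (AlgebraicClosure ℚ) σ) ζ hζ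
  simpa [padicCyclo] using h

/-- if `σ ζ = ζ ^ k` for a primitive `p ^ n`-th root of unity, then `χ(σ) ≡ k mod p ^ n`. -/
theorem padicCyclo_toZModPow (p : ℕ) [Fact p.Prime] (σ : GQ) (n k : ℕ) {ζ : AlgebraicClosure ℚ}
    (hζ : IsPrimitiveRoot ζ (p ^ n)) (h : σ ζ = ζ ^ k) :
    ((padicCyclo p σ : ℤ_[p]ˣ) : ℤ_[p]).toZModPow n = (k : ZMod (p ^ n)) := by
  have h1 := padicCyclo_spec p σ n hζ.pow_eq_one
  rw [h] at h1
  have hζ0 : ζ ≠ 0 := hζ.ne_zero (pow_ne_zero _ (Fact.out : p.Prime).ne_zero)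
  have h2 : (Units.mk0 ζ hζ0) ^ k
      = (Units.mk0 ζ hζ0) ^ (((padicCyclo p σ : ℤ_[p]ˣ) : ℤ_[p]).toZModPow n).val :=
    Units.ext (by simpa using h1)
  have hord : orderOf (Units.mk0 ζ hζ0) = p ^ n := by
    rw [← orderOf_units]
    exact hζ.eq_orderOf.symm
  have hmod := (pow_eq_pow_iff_modEq).mp h2
  rw [hord] at hmod
  have h3 := (ZMod.natCast_eq_natCast_iff _ _ _).mpr hmod
  rw [h3, ZMod.natCast_zmod_val]

/-- `χ(σ) - k ∈ (p ^ n)` where `σ ζ = ζ ^ k` on `p ^ n`-th roots of unity. -/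
theorem padicCyclo_sub_mem (p : ℕ) [Fact p.Prime] (σ : GQ) (n : ℕ) :
    ((padicCyclo p σ : ℤ_[p]ˣ) : ℤ_[p])
        - (((((padicCyclo p σ : ℤ_[p]ˣ) : ℤ_[p]).toZModPow n).val : ℕ) : ℤ_[p])
      ∈ Ideal.span {(p : ℤ_[p]) ^ n} := by
  rw [← PadicInt.ker_toZModPow, RingHom.mem_ker, map_sub, map_natCast, ZMod.natCast_zmod_val,
    sub_self]

/-! ### reduction of `p`-power roots of unity at a prime `ℓ ≠ p` -/

/-- a `p`-power root of unity in a valuation subring over `ℓ ≠ p` with residue `1` is `1`. -/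
theorem residue_eq_one_imp (A : ValuationSubring (AlgebraicClosure ℚ)) {p ℓ : ℕ}
    (hp : p.Prime) (hℓ : ℓ.Prime) (hℓp : ℓ ≠ p) (hA : A.LiesOverPrime ℓ) :
    ∀ (n : ℕ) (z : A), z ^ p ^ n = 1 → IsLocalRing.residue A z = 1 → z = 1 := by
  intro n
  induction n with
  | zero => intro z hz _; simpa using hz
  | succ n ih =>
    intro z hz hres
    have hzp : z ^ p = 1 := by
      apply ih (z ^ p)
      · rw [← pow_mul, ← pow_succ']; exact hz
      · rw [map_pow, hres, one_pow]
    by_contra hz1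
    have : Fact p.Prime := ⟨hp⟩
    have hprim : IsPrimitiveRoot z p := by
      have hz0 : z ≠ 0 := by
        rintro rfl
        rw [zero_pow hp.ne_zero] at hzp
        exact zero_ne_one hzp
      rw [IsPrimitiveRoot.iff_orderOf]
      exact orderOf_eq_prime hzp hz1
    have hsum : ∑ i ∈ Finset.range p, z ^ i = 0 := hprim.geom_sum_eq_zero hp.one_lt
    have := congrArg (IsLocalRing.residue A) hsum
    rw [map_sum, map_zero] at this
    simp only [map_pow, hres, one_pow, Finset.sum_const, Finset.card_range,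
      nsmul_eq_mul, mul_one] at this
    have h2 : IsLocalRing.residue A (p : A) = 0 := by simpa using this
    exact cyclo_residue_natCast_ne_zero A hp hℓ hℓp hA h2

/-- the reduction map is injective on `p`-power roots of unity. -/
theorem residue_injOn_roots (A : ValuationSubring (AlgebraicClosure ℚ)) {p ℓ : ℕ}
    (hp : p.Prime) (hℓ : ℓ.Prime) (hℓp : ℓ ≠ p) (hA : A.LiesOverPrime ℓ)
    (n : ℕ) (z w : A) (hz : z ^ p ^ n = 1) (hw : w ^ p ^ n = 1)
    (h : IsLocalRing.residue A z = IsLocalRing.residue A w) : z = w := by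
  have hpos : 0 < p ^ n := pow_pos hp.pos n
  have hw' : w * w ^ (p ^ n - 1) = 1 := by
    rw [← pow_succ', Nat.sub_add_cancel hpos, hw]
  have h1 : z * w ^ (p ^ n - 1) = 1 := by
    apply residue_eq_one_imp A hp hℓ hℓp hA n
    · rw [mul_pow, hz, one_mul, ← pow_mul, mul_comm, pow_mul, hw, one_pow]
    · rw [map_mul, h, ← map_mul, hw', map_one]
  calc z = z * (w * w ^ (p ^ n - 1)) := by rw [hw', mul_one]
    _ = w * (z * w ^ (p ^ n - 1)) := by ring
    _ = w := by rw [h1, mul_one]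

/-- `χ(τ) = ℓ` for a Frobenius `τ` at a valuation subring over `ℓ ≠ p`. -/
theorem padicCyclo_frob (p : ℕ) [Fact p.Prime] (ℓ : ℕ) (hℓ : ℓ.Prime) (hℓp : ℓ ≠ p)
    (A : ValuationSubring (AlgebraicClosure ℚ)) (hA : A.LiesOverPrime ℓ) (τ : GQ)
    (hτ : A.IsFrobeniusAt τ ℓ) :
    ((padicCyclo p τ : ℤ_[p]ˣ) : ℤ_[p]) = (ℓ : ℤ_[p]) := by
  have hp : p.Prime := Fact.out
  apply PadicInt.ext_of_toZModPow.mp
  intro n
  rw [map_natCast]
  have : NeZero ((p ^ n : ℕ) : AlgebraicClosure ℚ) :=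
    ⟨Nat.cast_ne_zero.mpr (pow_ne_zero _ hp.ne_zero)⟩
  obtain ⟨ζ, hζ⟩ := HasEnoughRootsOfUnity.exists_primitiveRoot (AlgebraicClosure ℚ) (p ^ n)
  apply padicCyclo_toZModPow p τ n ℓ hζ
  have hζA : ζ ∈ A := cyclo_mem_valuationSubring A (pow_pos hp.pos n) hζ.pow_eq_one
  set z : A := ⟨ζ, hζA⟩ with hz
  have hmem := hτ.mem_decompositionSubgroup
  have hzpow : z ^ p ^ n = 1 := Subtype.ext (by simpa [hz] using hζ.pow_eq_one)
  have e2 := hτ.smul_residue_eq (IsLocalRing.residue A z)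
  rw [← IsLocalRing.ResidueField.residue_smul, ← map_pow] at e2
  have e3 : ((⟨τ, hmem⟩ : A.decompositionSubgroup ℚ) • z : A) = z ^ ℓ := by
    apply residue_injOn_roots A hp hℓ hℓp hA n _ _ _ _ e2
    · rw [← smul_pow', hzpow, smul_one]
    · rw [← pow_mul, mul_comm, pow_mul, hzpow, one_pow]
  have e4 : τ ζ = ((z ^ ℓ : A) : AlgebraicClosure ℚ) := congrArg Subtype.val e3
  simpa [hz] using e4

/-- `χ(σ) = 1` for `σ` in the inertia group of a valuation subring over `q ≠ p`. -/
theorem padicCyclo_inertia (p : ℕ) [Fact p.Prime] (q : ℕ) (hq : q.Prime) (hqp : q ≠ p)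
    (A : ValuationSubring (AlgebraicClosure ℚ)) (hA : A.LiesOverPrime q) (σ : GQ)
    (hσ : σ ∈ A.inertiaSubgroupIn ℚ) :
    padicCyclo p σ = 1 := by
  have hp : p.Prime := Fact.out
  apply Units.ext
  apply PadicInt.ext_of_toZModPow.mp
  intro n
  rw [Units.val_one, map_one]
  have : NeZero ((p ^ n : ℕ) : AlgebraicClosure ℚ) :=
    ⟨Nat.cast_ne_zero.mpr (pow_ne_zero _ hp.ne_zero)⟩
  obtain ⟨ζ, hζ⟩ := HasEnoughRootsOfUnity.exists_primitiveRoot (AlgebraicClosure ℚ) (p ^ n)
  have key : σ ζ = ζ ^ 1 := by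
    rw [pow_one]
    have hζA : ζ ∈ A := cyclo_mem_valuationSubring A (pow_pos hp.pos n) hζ.pow_eq_one
    set z : A := ⟨ζ, hζA⟩ with hz
    obtain ⟨σ', hσ', rfl⟩ := hσ
    have hzpow : z ^ p ^ n = 1 := Subtype.ext (by simpa [hz] using hζ.pow_eq_one)
    have e2 : σ' • IsLocalRing.residue A z = IsLocalRing.residue A z := by
      have := congrArg (fun f : RingAut (IsLocalRing.ResidueField A) =>
        f (IsLocalRing.residue A z)) (MonoidHom.mem_ker.mp hσ')
      simpa using this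
    rw [← IsLocalRing.ResidueField.residue_smul] at e2
    have e3 : (σ' • z : A) = z := by
      apply residue_injOn_roots A hp hq hqp hA n _ _ _ hzpow e2
      rw [← smul_pow', hzpow, smul_one]
    exact congrArg Subtype.val e3
  have := padicCyclo_toZModPow p σ n 1 hζ key
  simpa using this

/-- `χ(σ) ≡ 1 mod p ^ n` if `σ` fixes a primitive `p ^ n`-th root of unity. -/
theorem padicCyclo_sub_one_mem (p : ℕ) [Fact p.Prime] (σ : GQ) (n : ℕ) {ζ : AlgebraicClosure ℚ}
    (hζ : IsPrimitiveRoot ζ (p ^ n)) (h : σ ζ = ζ) :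
    ((padicCyclo p σ : ℤ_[p]ˣ) : ℤ_[p]) - 1 ∈ Ideal.span {(p : ℤ_[p]) ^ n} := by
  have key : σ ζ = ζ ^ 1 := by rw [pow_one, h]
  have h1 := padicCyclo_toZModPow p σ n 1 hζ key
  rw [← PadicInt.ker_toZModPow, RingHom.mem_ker, map_sub, map_one, h1]
  simp

/-! ### complex conjugation -/

/-- the prelude's complex conjugation inverts all roots of unity. -/
theorem complexConj_root (n : ℕ) (ζ : AlgebraicClosure ℚ) (hn : n ≠ 0) (hζ : ζ ^ n = 1) :
    complexConjugation ζ = ζ⁻¹ := by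
  have hinj : Function.Injective complexEmbedding := complexEmbedding.toRingHom.injective
  apply hinj
  rw [complexEmbedding_complexConjugation, map_inv₀]
  have h1 : (complexEmbedding ζ) ^ n = 1 := by rw [← map_pow, hζ, map_one]
  exact (Complex.inv_eq_conj (Complex.norm_eq_one_of_pow_eq_one h1 hn)).symm

/-- `χ(c) = -1` for any `c` inverting the `p`-power roots of unity. -/
theorem padicCyclo_conj (p : ℕ) [Fact p.Prime] (c : GQ)
    (hc : ∀ (n : ℕ) (ζ : AlgebraicClosure ℚ), n ≠ 0 → ζ ^ n = 1 → c ζ = ζ⁻¹) :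
    ((padicCyclo p c : ℤ_[p]ˣ) : ℤ_[p]) = -1 := by
  have hp : p.Prime := Fact.out
  apply PadicInt.ext_of_toZModPow.mp
  intro n
  have hpn : p ^ n ≠ 0 := pow_ne_zero _ hp.ne_zero
  have : NeZero ((p ^ n : ℕ) : AlgebraicClosure ℚ) := ⟨Nat.cast_ne_zero.mpr hpn⟩
  obtain ⟨ζ, hζ⟩ := HasEnoughRootsOfUnity.exists_primitiveRoot (AlgebraicClosure ℚ) (p ^ n)
  have key : c ζ = ζ ^ (p ^ n - 1) := by
    rw [hc (p ^ n) ζ hpn hζ.pow_eq_one]
    apply inv_eq_of_mul_eq_one_right
    rw [← pow_succ', Nat.sub_add_cancel (Nat.pos_of_ne_zero hpn), hζ.pow_eq_one]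
  rw [padicCyclo_toZModPow p c n _ hζ key, map_neg, map_one,
    Nat.cast_sub (Nat.pos_of_ne_zero hpn)]
  simp

/-! ### the ring homomorphism `ℤ_[p] →+* S` into a complete ring -/

section complete

variable (p : ℕ) [Fact p.Prime] {S : Type*} [CommRing S] (I : Ideal S)

/-- `ZMod (p ^ n) →+* S ⧸ I ^ n` when `p ∈ I`. -/
def zmodToQuot (hp : (p : S) ∈ I) (n : ℕ) : ZMod (p ^ n) →+* S ⧸ I ^ n :=
  letI := ringChar.charP (S ⧸ I ^ n)
  ZMod.castHom (ringChar.dvd (R := S ⧸ I ^ n) (x := p ^ n) (by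
    have : ((p ^ n : ℕ) : S ⧸ I ^ n) = Ideal.Quotient.mk (I ^ n) ((p : S) ^ n) := by
      simp
    rw [this, Ideal.Quotient.eq_zero_iff_mem]
    exact Ideal.pow_mem_pow hp n)) (S ⧸ I ^ n)

variable [IsAdicComplete I S]

/-- the canonical ring homomorphism `ℤ_[p] →+* S` for an `I`-adically complete ring `S` with
`p ∈ I`. -/
def padicToComplete (hp : (p : S) ∈ I) : ℤ_[p] →+* S :=
  IsAdicComplete.liftRingHom I (fun n => (zmodToQuot p I hp n).comp (PadicInt.toZModPow n))
    (by
      intro m n hle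
      rw [← RingHom.comp_assoc, ← PadicInt.zmod_cast_comp_toZModPow m n hle,
        ← RingHom.comp_assoc]
      congr 1
      exact Subsingleton.elim _ _)

/-- the `p`-adic cyclotomic character with values in a complete ring `S` (`p ∈ I`). -/
def cycloCharO (hp : (p : S) ∈ I) : GQ →* Sˣ :=
  (Units.map (padicToComplete p I hp).toMonoidHom).comp (padicCyclo p)

theorem cycloCharO_coe (hp : (p : S) ∈ I) (σ : GQ) :
    ((cycloCharO p I hp σ : Sˣ) : S)
      = padicToComplete p I hp ((padicCyclo p σ : ℤ_[p]ˣ) : ℤ_[p]) := rfl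

/-- `ε(Frob_ℓ) = ℓ` for `ℓ ≠ p`. -/
theorem cycloCharO_frob (hp : (p : S) ∈ I) (ℓ : ℕ) (hℓ : ℓ.Prime) (hℓp : ℓ ≠ p)
    (A : ValuationSubring (AlgebraicClosure ℚ)) (hA : A.LiesOverPrime ℓ) (τ : GQ)
    (hτ : A.IsFrobeniusAt τ ℓ) :
    ((cycloCharO p I hp τ : Sˣ) : S) = (ℓ : S) := by
  rw [cycloCharO_coe, padicCyclo_frob p ℓ hℓ hℓp A hA τ hτ, map_natCast]

/-- `ε` is trivial on inertia at `q ≠ p`. -/
theorem cycloCharO_inertia (hp : (p : S) ∈ I) (q : ℕ) (hq : q.Prime) (hqp : q ≠ p)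
    (A : ValuationSubring (AlgebraicClosure ℚ)) (hA : A.LiesOverPrime q) (σ : GQ)
    (hσ : σ ∈ A.inertiaSubgroupIn ℚ) :
    cycloCharO p I hp σ = 1 := by
  rw [cycloCharO, MonoidHom.comp_apply, padicCyclo_inertia p q hq hqp A hA σ hσ, map_one]

/-- `ε(c) = -1` for the prelude's complex conjugation `c`. -/
theorem cycloCharO_conj (hp : (p : S) ∈ I) :
    ((cycloCharO p I hp complexConjugation : Sˣ) : S) = -1 := by
  rw [cycloCharO_coe, padicCyclo_conj p complexConjugation complexConj_root, map_neg, map_one]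

/-- link with the action on `p ^ n`-th roots of unity: `σ ζ = ζ ^ k` with `ε(σ) ≡ k mod p ^ n`. -/
theorem cycloCharO_spec (hp : (p : S) ∈ I) (σ : GQ) (n : ℕ) :
    ∃ k : ℕ, (∀ ζ : AlgebraicClosure ℚ, ζ ^ p ^ n = 1 → σ ζ = ζ ^ k) ∧
      ((cycloCharO p I hp σ : Sˣ) : S) - (k : S) ∈ Ideal.span {(p : S) ^ n} := by
  refine ⟨(((padicCyclo p σ : ℤ_[p]ˣ) : ℤ_[p]).toZModPow n).val,
    fun ζ hζ => padicCyclo_spec p σ n hζ, ?_⟩
  obtain ⟨y, hy⟩ := Ideal.mem_span_singleton'.mp (padicCyclo_sub_mem p σ n)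
  rw [Ideal.mem_span_singleton']
  refine ⟨padicToComplete p I hp y, ?_⟩
  have := congrArg (padicToComplete p I hp) hy
  rw [map_mul, map_pow, map_natCast, map_sub, map_natCast] at this
  rw [cycloCharO_coe]
  exact this

/-- `ε(σ) ≡ 1 mod p ^ n` if `σ` fixes a primitive `p ^ n`-th root of unity. -/
theorem cycloCharO_sub_one_mem_span (hp : (p : S) ∈ I) (σ : GQ) (n : ℕ)
    {ζ : AlgebraicClosure ℚ} (hζ : IsPrimitiveRoot ζ (p ^ n)) (h : σ ζ = ζ) :
    ((cycloCharO p I hp σ : Sˣ) : S) - 1 ∈ Ideal.span {(p : S) ^ n} := by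
  obtain ⟨y, hy⟩ := Ideal.mem_span_singleton'.mp (padicCyclo_sub_one_mem p σ n hζ h)
  rw [Ideal.mem_span_singleton']
  refine ⟨padicToComplete p I hp y, ?_⟩
  have := congrArg (padicToComplete p I hp) hy
  rw [map_mul, map_pow, map_natCast, map_sub, map_one] at this
  rw [cycloCharO_coe]
  exact this

theorem cycloCharO_sub_one_mem_pow (hp : (p : S) ∈ I) (σ : GQ) (n : ℕ)
    {ζ : AlgebraicClosure ℚ} (hζ : IsPrimitiveRoot ζ (p ^ n)) (h : σ ζ = ζ) :
    ((cycloCharO p I hp σ : Sˣ) : S) - 1 ∈ I ^ n := by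
  have h1 := cycloCharO_sub_one_mem_span p I hp σ n hζ h
  have h2 : Ideal.span {(p : S) ^ n} ≤ I ^ n := by
    rw [Ideal.span_singleton_le_iff_mem]
    exact Ideal.pow_mem_pow hp n
  exact h2 h1

/-- adic continuity of `ε`: it is trivial mod `I ^ n` on `Gal(ℚ̄/ℚ(μ_{p ^ n}))`. -/
theorem cycloCharO_finiteLevel (hp : (p : S) ∈ I) (n : ℕ) :
    ∃ E : IntermediateField ℚ (AlgebraicClosure ℚ), FiniteDimensional ℚ E ∧
      ∀ σ : GQ, (∀ x ∈ E, σ x = x) → ((cycloCharO p I hp σ : Sˣ) : S) - 1 ∈ I ^ n := by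
  have hpp : p.Prime := Fact.out
  have : NeZero ((p ^ n : ℕ) : AlgebraicClosure ℚ) :=
    ⟨Nat.cast_ne_zero.mpr (pow_ne_zero _ hpp.ne_zero)⟩
  obtain ⟨ζ, hζ⟩ := HasEnoughRootsOfUnity.exists_primitiveRoot (AlgebraicClosure ℚ) (p ^ n)
  refine ⟨IntermediateField.adjoin ℚ {ζ}, ?_, ?_⟩
  · have hint : IsIntegral ℚ ζ := (hζ.isIntegral (pow_pos hpp.pos n)).tower_top
    exact IntermediateField.adjoin.finiteDimensional hint
  · intro σ hσ
    exact cycloCharO_sub_one_mem_pow p I hp σ n hζ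
      (hσ ζ (IntermediateField.mem_adjoin_simple_self ℚ ζ))

end complete

/-- **S30 glue, cyclotomic piece.**  For a complete local ring `𝒪'` of residue characteristic `p`
there is a character `ε : G_ℚ →* 𝒪'ˣ` (the `p`-adic cyclotomic character) and an involution
`c` (complex conjugation) with: `ε(Frob_ℓ) = ℓ` for `ℓ ≠ p`; `ε = 1` on inertia at `q ≠ p`;
`ε` is adically continuous; `ε(c) = -1`. -/
theorem exists_cycloCharO (p : ℕ) [Fact p.Prime] {𝒪' : Type*} [CommRing 𝒪'] [IsLocalRing 𝒪']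
    [IsAdicComplete (IsLocalRing.maximalIdeal 𝒪') 𝒪']
    (hp : (p : 𝒪') ∈ IsLocalRing.maximalIdeal 𝒪') :
    ∃ (ε : GQ →* 𝒪'ˣ) (c : GQ),
      (∀ ℓ : ℕ, ℓ.Prime → ℓ ≠ p → ∀ A : ValuationSubring (AlgebraicClosure ℚ),
        A.LiesOverPrime ℓ → ∀ τ : GQ, A.IsFrobeniusAt τ ℓ → ((ε τ : 𝒪'ˣ) : 𝒪') = (ℓ : 𝒪')) ∧
      (∀ q : ℕ, q.Prime → q ≠ p → ∀ A : ValuationSubring (AlgebraicClosure ℚ),
        A.LiesOverPrime q → ∀ σ ∈ A.inertiaSubgroupIn ℚ, ε σ = 1) ∧
      (∀ n : ℕ, ∃ E : IntermediateField ℚ (AlgebraicClosure ℚ), FiniteDimensional ℚ E ∧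
        ∀ σ : GQ, (∀ x ∈ E, σ x = x) →
          ((ε σ : 𝒪'ˣ) : 𝒪') - 1 ∈ IsLocalRing.maximalIdeal 𝒪' ^ n) ∧
      (∀ (σ : GQ) (n : ℕ), ∃ k : ℕ,
        (∀ ζ : AlgebraicClosure ℚ, ζ ^ p ^ n = 1 → σ ζ = ζ ^ k) ∧
          ((ε σ : 𝒪'ˣ) : 𝒪') - (k : 𝒪') ∈ Ideal.span {(p : 𝒪') ^ n}) ∧
      c * c = 1 ∧ ((ε c : 𝒪'ˣ) : 𝒪') = -1 :=
  ⟨cycloCharO p _ hp, complexConjugation,
    fun ℓ hℓ hℓp A hA τ hτ => cycloCharO_frob p _ hp ℓ hℓ hℓp A hA τ hτ,
    fun q hq hqp A hA σ hσ => cycloCharO_inertia p _ hp q hq hqp A hA σ hσ,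
    fun n => cycloCharO_finiteLevel p _ hp n,
    fun σ n => cycloCharO_spec p _ hp σ n,
    complexConjugation_mul_self, cycloCharO_conj p _ hp⟩

end Fermat.Agent.S30

end
end ZBCheb_001_11

/-! ### bundled: `Fermat.Agent.S42.Hull` -/
section ZBCheb_001_12

/-!
# S42 piece [Gal-1]: finitely many finite extensions lie in a finite normal extension
-/

set_option autoImplicit false
set_option linter.style.haveILetI false

noncomputable section

namespace Fermat.Agent.S42

open IntermediateField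

/-- `ℚ̄/ℚ` is normal (for the `Algebra ℚ ℚ̄` instance found by unification). -/
theorem hull_normal_qbar : Normal ℚ (AlgebraicClosure ℚ) := by
  haveI : Algebra.IsAlgebraic ℚ (AlgebraicClosure ℚ) := AlgebraicClosure.isAlgebraic ℚ
  haveI : IsAlgClosure ℚ (AlgebraicClosure ℚ) := ⟨inferInstance, inferInstance⟩
  exact IsAlgClosure.normal ℚ (AlgebraicClosure ℚ)

/-- A finite supremum of finite-dimensional intermediate fields is finite-dimensional. -/
theorem finiteDimensional_finset_sup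
    (s : Finset (IntermediateField ℚ (AlgebraicClosure ℚ)))
    (hs : ∀ E ∈ s, FiniteDimensional ℚ E) :
    FiniteDimensional ℚ (s.sup id : IntermediateField ℚ (AlgebraicClosure ℚ)) := by
  classical
  induction s using Finset.induction_on with
  | empty =>
    rw [Finset.sup_empty]
    exact (IntermediateField.botEquiv ℚ (AlgebraicClosure ℚ)).symm.toLinearEquiv.finiteDimensional
  | insert a t hat ih =>
    rw [Finset.sup_insert]
    haveI h1 : FiniteDimensional ℚ a := hs a (Finset.mem_insert_self a t)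
    haveI h2 : FiniteDimensional ℚ (t.sup id : IntermediateField ℚ (AlgebraicClosure ℚ)) :=
      ih fun E hE => hs E (Finset.mem_insert_of_mem hE)
    exact IntermediateField.finiteDimensional_sup a (t.sup id)

/-- [Gal-1] -/
theorem stmtHull : StmtHull := by
  intro s hs
  haveI hfin := finiteDimensional_finset_sup s hs
  haveI := hull_normal_qbar
  refine ⟨IntermediateField.normalClosure ℚ (s.sup id : IntermediateField ℚ (AlgebraicClosure ℚ))
    (AlgebraicClosure ℚ), ?_, ?_, ?_⟩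
  · have h := normalClosure.is_finiteDimensional ℚ
      (s.sup id : IntermediateField ℚ (AlgebraicClosure ℚ)) (AlgebraicClosure ℚ)
    exact h
  · have h := normalClosure.normal ℚ
      (s.sup id : IntermediateField ℚ (AlgebraicClosure ℚ)) (AlgebraicClosure ℚ)
    convert h using 1
    exact Subsingleton.elim _ _
  · intro E hE
    have h1 : E ≤ s.sup id := by
      have := Finset.le_sup (f := id) hE
      simpa using this
    exact h1.trans (IntermediateField.le_normalClosure _)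

end Fermat.Agent.S42

end
end ZBCheb_001_12

/-! ### bundled: `Fermat.Agent.S31.Plan` -/
section ZBCheb_001_13

/-!
# S31: interface (definitions only)

S31 (a Hecke–Galois datum of level `N` away from `S` is unramified outside `S`) is reduced in
`Fermat/Agent/S31/Reduction.lean` to

* `Fermat.Agent.Cheb.WeakChebotarev` (item 70), and
* `ESPkgFaith N p`: the `p`-adic Eichler–Shimura package `ES.ESDataInf N p J` together with the
  characteristic-zero faithfulness clause `ESFaith N p J`.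

`ESFaithOn N p Sg J`: for every `k` there is `n` such that every Hecke polynomial `t` in the
variables `Sg` which kills `J[pⁿ]` acts on the cusp forms of weight 2 and level `N` as `pᵏ` times a
Hecke polynomial in the variables `Sg`.
(For `J = J₀(N)(ℚ̄)`: a Hecke-equivariant embedding of `Hom_par(Γ₀(N), ℤ) / pⁿ` in `J[pⁿ]`, the
faithfulness of the Hecke algebra on `Hom_par(Γ₀(N), ℤ)` (S21) and Artin–Rees give it.)
-/

set_option autoImplicit false

namespace Fermat.Agent.S31

open ModularCurve Fermat.Agent.ES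

/-- The Lucas sequence `s₀ = 2`, `s₁ = a`, `s_{j+2} = a s_{j+1} − d s_j`
(so `s_j = αʲ + βʲ` when `X² − aX + d = (X − α)(X − β)`). -/
def lucasS {R : Type*} [CommRing R] (a d : R) : ℕ → R
  | 0 => 2
  | 1 => a
  | (j + 2) => a * lucasS a d (j + 1) - d * lucasS a d j

/-- the Hecke variables at the primes outside `S` -/
def outsideVars (S : Set ℕ) : Set Nat.Primes := {ℓ | (ℓ : ℕ) ∉ S}

/-- Characteristic-zero faithfulness of the Hecke polynomials in the variables `Sg` on the
`p`-power torsion of `J`. -/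
def ESFaithOn (N p : ℕ) [NeZero N] (Sg : Set Nat.Primes) (J : Type) [AddCommGroup J]
    [Module HeckeAlg J] : Prop :=
  ∀ k : ℕ, ∃ n : ℕ, ∀ t ∈ MvPolynomial.supported ℤ Sg,
    (∀ x : J, p ^ n • x = 0 → t • x = 0) →
      ∃ s ∈ MvPolynomial.supported ℤ Sg,
        CuspForm.heckeEvalForms N 2 t = (p : ℤ) ^ k • CuspForm.heckeEvalForms N 2 s

/-- Characteristic-zero faithfulness, for every set of good Hecke variables. -/
def ESFaith (N p : ℕ) [NeZero N] (J : Type) [AddCommGroup J] [Module HeckeAlg J] : Prop :=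
  ∀ Sg : Set Nat.Primes, Sg ⊆ goodPrimes N p → ESFaithOn N p Sg J

/-- The package consumed by S31: the `p`-adic Eichler–Shimura data plus faithfulness. -/
def ESPkgFaith (N p : ℕ) [NeZero N] : Prop :=
  ∃ (J : Type) (_ : AddCommGroup J) (_ : Module HeckeAlg J) (_ : DistribMulAction GQ J),
    ESDataInf N p J ∧ ESFaith N p J

end Fermat.Agent.S31


end ZBCheb_001_13

/-! ### bundled: `Fermat.Agent.S31.FaithLattice` -/
section ZBCheb_001_14

/-!
# The faithfulness clause `ESFaithOn` from a lattice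

`esFaithOn_of_lattice`: let `Λ` be a finite free `ℤ`-module with an action `op` of the Hecke
polynomials (for instance `Λ = Hom_par(Γ₀(N), ℤ)`) such that

* (`hfaithful`) a Hecke polynomial in the variables `Sg` which kills `Λ` kills the cusp forms of
  weight 2 and level `N` (S21: the period map is injective and Hecke equivariant);
* (`hcomp`) a Hecke polynomial in the variables `Sg` which kills `J[pⁿ]` maps `Λ` into `pⁿ Λ`
  (a Hecke equivariant injection `Λ / pⁿ Λ ↪ J[pⁿ]`).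

Then `ESFaithOn N p Sg J` holds. The proof is the Artin–Rees lemma for the lattice of Hecke
operators inside `End Λ`.
-/

set_option autoImplicit false

namespace Fermat.Agent.S31

open ModularCurve

/-- **Artin–Rees for `p`-power multiples** in a finitely generated `ℤ`-module. -/
theorem exists_shift_of_submodule {M : Type*} [AddCommGroup M] [Module.Finite ℤ M]
    (B : Submodule ℤ M) (p : ℕ) :
    ∃ c : ℕ, ∀ k : ℕ, ∀ x ∈ B, (∃ y : M, x = p ^ (k + c) • y) → ∃ b ∈ B, x = p ^ k • b := by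
  obtain ⟨c, hc⟩ := Ideal.exists_pow_inf_eq_pow_smul (Ideal.span {(p : ℤ)}) B
  refine ⟨c, fun k x hx ⟨y, hy⟩ => ?_⟩
  have h1 : x ∈ (Ideal.span {(p : ℤ)}) ^ (k + c) • (⊤ : Submodule ℤ M) ⊓ B := by
    refine ⟨?_, hx⟩
    rw [hy, ← Nat.cast_smul_eq_nsmul ℤ]
    refine Submodule.smul_mem_smul ?_ Submodule.mem_top
    rw [Nat.cast_pow]
    exact Ideal.pow_mem_pow (Ideal.mem_span_singleton_self _) _
  rw [hc (k + c) (Nat.le_add_left c k), Nat.add_sub_cancel] at h1
  have h2 : x ∈ (Ideal.span {(p : ℤ)}) ^ k • B :=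
    Submodule.smul_mono le_rfl inf_le_right h1
  rw [Ideal.span_singleton_pow, Submodule.ideal_span_singleton_smul,
    Submodule.mem_smul_pointwise_iff_exists] at h2
  obtain ⟨b, hb, hbx⟩ := h2
  refine ⟨b, hb, ?_⟩
  rw [← hbx, ← Nat.cast_pow, Nat.cast_smul_eq_nsmul]

/-- **The faithfulness clause from a lattice.** -/
theorem esFaithOn_of_lattice {N p : ℕ} [NeZero N] (Sg : Set Nat.Primes) {J : Type}
    [AddCommGroup J] [Module HeckeAlg J]
    {Λ : Type*} [AddCommGroup Λ] [Module.Free ℤ Λ] [Module.Finite ℤ Λ]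
    (op : HeckeAlg →+* Module.End ℤ Λ)
    (hfaithful : ∀ t ∈ MvPolynomial.supported ℤ Sg, op t = 0 →
      CuspForm.heckeEvalForms N 2 t = 0)
    (hcomp : ∀ n : ℕ, ∀ t ∈ MvPolynomial.supported ℤ Sg,
      (∀ x : J, p ^ n • x = 0 → t • x = 0) → ∀ v : Λ, ∃ w : Λ, op t v = p ^ n • w) :
    ESFaithOn N p Sg J := by
  classical
  -- the lattice of Hecke operators in `End Λ`
  set B : Submodule ℤ (Module.End ℤ Λ) :=
    Submodule.map (op.toAddMonoidHom.toIntLinearMap)
      (Subalgebra.toSubmodule (MvPolynomial.supported ℤ Sg)) with hB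
  obtain ⟨c, hc⟩ := exists_shift_of_submodule B p
  intro k
  refine ⟨k + c, fun t ht hkill => ?_⟩
  have htB : op t ∈ B := ⟨t, ht, rfl⟩
  -- `op t` is divisible by `p ^ (k + c)` in `End Λ`
  have hdiv : ∃ y : Module.End ℤ Λ, op t = p ^ (k + c) • y := by
    let b := Module.Free.chooseBasis ℤ Λ
    choose w hw using fun i => hcomp (k + c) t ht hkill (b i)
    refine ⟨b.constr ℤ w, b.ext fun i => ?_⟩
    rw [LinearMap.smul_apply, Module.Basis.constr_basis, hw i]
  obtain ⟨y, ⟨s, hs, rfl⟩, hy⟩ := hc k (op t) htB hdiv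
  refine ⟨s, hs, ?_⟩
  have h0 : op (t - (p : ℤ) ^ k • s) = 0 := by
    rw [map_sub, map_zsmul, hy, sub_eq_zero, ← Nat.cast_pow, natCast_zsmul]
    rfl
  have hmem : t - (p : ℤ) ^ k • s ∈ MvPolynomial.supported ℤ Sg :=
    sub_mem ht (Subalgebra.smul_mem _ hs _)
  have h1 := hfaithful _ hmem h0
  rw [map_sub, map_zsmul, sub_eq_zero] at h1
  exact h1

/-- **The faithfulness clause from a lattice, word form.** The Hecke polynomials in the variables
`Sg` are the images `ab w` of the elements `w` of an additive group `W` (for instance the free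
algebra on `Sg`), which acts on the lattice `Λ` through `op` (no commutativity on `Λ` is needed). -/
theorem esFaithOn_of_words {N p : ℕ} [NeZero N] (Sg : Set Nat.Primes) {J : Type}
    [AddCommGroup J] [Module HeckeAlg J]
    {Λ : Type*} [AddCommGroup Λ] [Module.Free ℤ Λ] [Module.Finite ℤ Λ]
    {W : Type*} [AddCommGroup W] (ab : W →+ HeckeAlg) (op : W →+ Module.End ℤ Λ)
    (hab : ∀ t ∈ MvPolynomial.supported ℤ Sg, ∃ w, ab w = t)
    (hab' : ∀ w, ab w ∈ MvPolynomial.supported ℤ Sg)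
    (hfaithful : ∀ w, op w = 0 → CuspForm.heckeEvalForms N 2 (ab w) = 0)
    (hcomp : ∀ (n : ℕ) (w : W), (∀ x : J, p ^ n • x = 0 → ab w • x = 0) →
      ∀ v : Λ, ∃ v' : Λ, op w v = p ^ n • v') :
    ESFaithOn N p Sg J := by
  classical
  set B : Submodule ℤ (Module.End ℤ Λ) := LinearMap.range op.toIntLinearMap with hB
  obtain ⟨c, hc⟩ := exists_shift_of_submodule B p
  intro k
  refine ⟨k + c, fun t ht hkill => ?_⟩
  obtain ⟨w, rfl⟩ := hab t ht
  have htB : op w ∈ B := ⟨w, rfl⟩
  have hdiv : ∃ y : Module.End ℤ Λ, op w = p ^ (k + c) • y := by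
    let b := Module.Free.chooseBasis ℤ Λ
    choose u hu using fun i => hcomp (k + c) w hkill (b i)
    refine ⟨b.constr ℤ u, b.ext fun i => ?_⟩
    rw [LinearMap.smul_apply, Module.Basis.constr_basis, hu i]
  obtain ⟨y, ⟨w', rfl⟩, hy⟩ := hc k (op w) htB hdiv
  refine ⟨ab w', hab' w', ?_⟩
  have h0 : op (w - (p : ℤ) ^ k • w') = 0 := by
    rw [map_sub, map_zsmul, hy, sub_eq_zero, ← Nat.cast_pow, natCast_zsmul]
    rfl
  have h1 := hfaithful _ h0
  rw [map_sub, map_zsmul, map_sub, map_zsmul, sub_eq_zero] at h1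
  exact h1

end Fermat.Agent.S31


end ZBCheb_001_14

/-! ### bundled: `Fermat.Agent.S34.Plan` -/
section ZBCheb_001_15

/-!
# S34: interface (definitions only)

S34 (a Hecke–Galois datum of level `N` away from `S` has unipotent inertia at every prime `q ≠ p`
exactly dividing `N`) is reduced in `Fermat/Agent/S34/Reduction.lean` to

* `Fermat.Agent.Cheb.WeakChebotarev` (item 70), and
* `ESPkgUnip N p`: the faithful `p`-adic Eichler–Shimura package of S31
  (`ES.ESDataInf N p J ∧ S31.ESFaith N p J`) together with the clause `ESUnip N p J`: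
  for a prime `q ≠ p` exactly dividing `N`, every `σ` in an inertia group at `q` satisfies
  `(σ − 1)² = 0` on the `p`-power torsion of `J` (semistable reduction of `J₀(N)` at `q`).
-/

set_option autoImplicit false

namespace Fermat.Agent.S34

open ModularCurve Fermat.Agent.ES

/-- Inertia at the primes `q ≠ p` exactly dividing `N` acts unipotently (of level 2) on the
`p`-power torsion of `J`. -/
def ESUnip (N p : ℕ) (J : Type) [AddCommGroup J] [DistribMulAction GQ J] : Prop :=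
  ∀ q : ℕ, q.Prime → q ≠ p → q ∣ N → ¬ q ^ 2 ∣ N →
    ∀ P : ValuationSubring (AlgebraicClosure ℚ), P.LiesOverPrime q →
      ∀ σ ∈ P.inertiaSubgroupIn ℚ, ∀ x : J, IsPPowerTorsion p x →
        σ • σ • x - 2 • (σ • x) + x = 0

/-- The package consumed by S34. -/
def ESPkgUnip (N p : ℕ) [NeZero N] : Prop :=
  ∃ (J : Type) (_ : AddCommGroup J) (_ : Module HeckeAlg J) (_ : DistribMulAction GQ J),
    ESDataInf N p J ∧ Fermat.Agent.S31.ESFaith N p J ∧ ESUnip N p J

end Fermat.Agent.S34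


end ZBCheb_001_15

/-! ### bundled: `Fermat.Agent.UNIP.Stmt` -/
section ZBCheb_001_16

/-!
# UNIP: the modular target `StmtUnipKummer` and the glue to `S34.ESUnip`

`F_N = modularFunctionFieldBar N`, `q ∥ N`, `A ⊂ ℚ̄` a valuation subring over `q`, `σ, τ` in the
inertia group of `A`, `m` prime to `q`.

* `StmtUnipKummer` : for `u ∈ F_N^×` with `m ∣ ord_P u` at every place, the function
  `(τ − 1)(σ − 1) u = τ(σu / u) / (σu / u)` is an `m`-th power in `F_N`.
  (Target of the direct route of `NOTES/S34-plan.md`: Lemma N, Lemma U, explicit idempotents.)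
* `esUnip_of_stmtUnipKummer` : `StmtUnipKummer → S34.ESUnip N p (JZero N)`.
-/

set_option autoImplicit false

noncomputable section

namespace Fermat.Agent.UNIP

open ModularCurve AlgebraicCurve Fermat.Agent.ES Fermat.Agent.ES.G2

/-- **(UNIP)** in Kummer form.  `q ∥ N`, `q ∤ m`, `σ, τ` inertia at `A ∣ q`, `u ∈ F_N^×` with
divisor in `m · Div`: then `(τ − 1)(σ − 1) u` is an `m`-th power. -/
def StmtUnipKummer : Prop :=
  ∀ (N : ℕ) [NeZero N] (q : ℕ), q.Prime → q ∣ N → ¬ q ^ 2 ∣ N →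
    ∀ A : ValuationSubring Qb, A.LiesOverPrime q →
      ∀ m : ℕ, ¬ q ∣ m →
        ∀ σ ∈ A.inertiaSubgroupIn ℚ, ∀ τ ∈ A.inertiaSubgroupIn ℚ,
          ∀ u : modularFunctionFieldBar N, u ≠ 0 →
            (∀ P : Place Qb (modularFunctionFieldBar N), (m : ℤ) ∣ P.ord u) →
              ∃ h : modularFunctionFieldBar N,
                h ^ m =
                  (arithmeticGalois (modularFunctionFieldFull N) τ •
                      ((arithmeticGalois (modularFunctionFieldFull N) σ • u) / u)) /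
                    ((arithmeticGalois (modularFunctionFieldFull N) σ • u) / u)

end Fermat.Agent.UNIP

end
end ZBCheb_001_16

/-! ### bundled: `Fermat.Agent.S31.Lucas` -/
section ZBCheb_001_17

/-!
# S31: the Lucas sequence

* `lucasS_map`, `lucasS_mem_subalgebra`: functoriality;
* `lucas_smul`: if `τ² − a τ + d = 0` on a `τ`-stable part of a module then
  `τᵐ + dᵐ τ⁻ᵐ = s_m(a, d)` there;
* `trace_pow_eq_lucasS`: if the characteristic polynomial of an endomorphism `f` of a free module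
  of rank 2 is `X² − aX + d` then `tr (fᵐ) = s_m(a, d)`.
-/

set_option autoImplicit false

namespace Fermat.Agent.S31

open Polynomial

section basic

variable {R : Type*} [CommRing R]

@[simp] theorem lucasS_zero (a d : R) : lucasS a d 0 = 2 := by
  rw [lucasS]

@[simp] theorem lucasS_one (a d : R) : lucasS a d 1 = a := by
  rw [lucasS]

theorem lucasS_add_two (a d : R) (j : ℕ) :
    lucasS a d (j + 2) = a * lucasS a d (j + 1) - d * lucasS a d j := by
  rw [lucasS]

theorem lucasS_map {R' : Type*} [CommRing R'] (f : R →+* R') (a d : R) (m : ℕ) :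
    f (lucasS a d m) = lucasS (f a) (f d) m := by
  induction m using Nat.twoStepInduction with
  | zero => rw [lucasS_zero, lucasS_zero, map_ofNat]
  | one => rw [lucasS_one, lucasS_one]
  | more j h0 h1 =>
    rw [lucasS_add_two, lucasS_add_two, map_sub, map_mul, map_mul, h0, h1]

theorem lucasS_mem_subalgebra {R₀ : Type*} [CommRing R₀] [Algebra R₀ R] (B : Subalgebra R₀ R)
    {a d : R} (ha : a ∈ B) (hd : d ∈ B) (m : ℕ) : lucasS a d m ∈ B := by
  induction m using Nat.twoStepInduction with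
  | zero =>
    rw [lucasS_zero]
    exact ofNat_mem B 2
  | one => rw [lucasS_one]; exact ha
  | more j h0 h1 =>
    rw [lucasS_add_two]
    exact sub_mem (mul_mem ha h1) (mul_mem hd h0)

end basic

/-- The operator form of the Lucas recursion: if `τ² − a τ + d = 0` on a `G`-stable part `P` of
the module `J`, then `τᵐ + dᵐ τ⁻ᵐ = s_m(a, d)` on `P`. No commutation of `a` with `τ` is used. -/
theorem lucas_smul {G R J : Type*} [Group G] [CommRing R] [AddCommGroup J] [Module R J]
    [DistribMulAction G J] (τ : G) (a d : R) (P : J → Prop)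
    (hP : ∀ (g : G) (x : J), P x → P (g • x))
    (hES : ∀ y : J, P y → τ • τ • y - a • (τ • y) + d • y = 0) (x : J) (hx : P x) (m : ℕ) :
    (τ ^ m) • x + d ^ m • ((τ⁻¹) ^ m • x) = lucasS a d m • x := by
  induction m using Nat.twoStepInduction with
  | zero =>
    rw [pow_zero, pow_zero, pow_zero, one_smul, one_smul, lucasS_zero, two_smul]

  | one =>
    rw [pow_one, pow_one, pow_one, lucasS_one]
    have h := hES (τ⁻¹ • x) (hP _ _ hx)
    rw [smul_inv_smul] at h
    have h2 : τ • x + d • τ⁻¹ • x - a • x = 0 := by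
      rw [← h]; abel
    exact sub_eq_zero.mp h2
  | more j h0 h1 =>
    -- the two instances of the relation
    have e1 := hES ((τ ^ j) • x) (hP _ _ hx)
    have e2 := hES ((τ⁻¹) ^ (j + 2) • x) (hP _ _ hx)
    have f1 : τ • τ • (τ ^ j) • x = (τ ^ (j + 2)) • x := by
      rw [smul_smul, smul_smul, pow_succ', pow_succ', mul_assoc]
    have f2 : τ • (τ ^ j) • x = (τ ^ (j + 1)) • x := by
      rw [smul_smul, pow_succ']
    have f3 : τ • (τ⁻¹) ^ (j + 2) • x = (τ⁻¹) ^ (j + 1) • x := by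
      rw [pow_succ' τ⁻¹ (j + 1), mul_smul, smul_inv_smul]
    have f4 : τ • (τ⁻¹) ^ (j + 1) • x = (τ⁻¹) ^ j • x := by
      rw [pow_succ' τ⁻¹ j, mul_smul, smul_inv_smul]
    rw [f1, f2] at e1
    rw [f3, f4] at e2
    rw [lucasS_add_two, sub_smul, mul_smul, mul_smul, ← h1, ← h0]
    have g1 : a • (τ ^ (j + 1)) • x = (τ ^ (j + 2)) • x + d • (τ ^ j) • x := by
      have : (τ ^ (j + 2)) • x + d • (τ ^ j) • x - a • (τ ^ (j + 1)) • x = 0 := by
        rw [← e1]; abel
      exact (sub_eq_zero.mp this).symm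
    have g2 : a • (τ⁻¹) ^ (j + 1) • x = (τ⁻¹) ^ j • x + d • (τ⁻¹) ^ (j + 2) • x := by
      have : (τ⁻¹) ^ j • x + d • (τ⁻¹) ^ (j + 2) • x - a • (τ⁻¹) ^ (j + 1) • x = 0 := by
        rw [← e2]; abel
      exact (sub_eq_zero.mp this).symm
    rw [smul_add, smul_add, smul_comm a (d ^ (j + 1)), g1, g2, smul_add, smul_smul, smul_smul,
      show d ^ (j + 1) * d = d ^ (j + 2) from (pow_succ d (j + 1)).symm,
      show d * d ^ j = d ^ (j + 1) from (pow_succ' d j).symm]
    abel

section trace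

variable {A V : Type*} [CommRing A] [Nontrivial A] [AddCommGroup V] [Module A V]
  [Module.Free A V] [Module.Finite A V]

/-- the trace of an endomorphism of a free module of rank 2 with characteristic polynomial
`X² − aX + d` is `a` -/
theorem trace_of_charpoly (hV : Module.finrank A V = 2) (f : Module.End A V) (a d : A)
    (h : LinearMap.charpoly f = X ^ 2 - C a * X + C d) : LinearMap.trace A V f = a := by
  classical
  let bas := Module.Free.chooseBasis A V
  have hcard : Fintype.card (Module.Free.ChooseBasisIndex A V) = 2 := by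
    rw [← Module.finrank_eq_card_chooseBasisIndex, hV]
  have : Nonempty (Module.Free.ChooseBasisIndex A V) := by
    rw [← Fintype.card_pos_iff, hcard]; norm_num
  rw [LinearMap.trace_eq_matrix_trace A bas f, Matrix.trace_eq_neg_charpoly_coeff, hcard,
    LinearMap.charpoly_toMatrix, h]
  simp [Polynomial.coeff_C]

omit [Nontrivial A] in
/-- Cayley–Hamilton in rank 2 -/
theorem sq_of_charpoly (f : Module.End A V) (a d : A)
    (h : LinearMap.charpoly f = X ^ 2 - C a * X + C d) : f ^ 2 = a • f - d • 1 := by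
  have h1 := LinearMap.aeval_self_charpoly f
  rw [h] at h1
  simp only [map_add, map_sub, map_mul, map_pow, aeval_X, aeval_C,
    Algebra.algebraMap_eq_smul_one, smul_mul_assoc, one_mul] at h1
  have : f ^ 2 - (a • f - d • 1) = 0 := by
    rw [← h1]; abel
  exact sub_eq_zero.mp this

/-- `tr (fᵐ) = s_m(a, d)` when the characteristic polynomial of `f` is `X² − aX + d` -/
theorem trace_pow_eq_lucasS (hV : Module.finrank A V = 2) (f : Module.End A V) (a d : A)
    (h : LinearMap.charpoly f = X ^ 2 - C a * X + C d) (m : ℕ) :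
    LinearMap.trace A V (f ^ m) = lucasS a d m := by
  induction m using Nat.twoStepInduction with
  | zero =>
    rw [pow_zero, LinearMap.trace_one, hV, lucasS_zero]
    norm_num
  | one =>
    rw [pow_one, lucasS_one]
    exact trace_of_charpoly hV f a d h
  | more j h0 h1 =>
    have hsq := sq_of_charpoly f a d h
    have : f ^ (j + 2) = a • f ^ (j + 1) - d • f ^ j := by
      rw [pow_add, hsq, mul_sub, mul_smul_comm, mul_smul_comm, mul_one, pow_succ f j]
    rw [this, map_sub, map_smul, map_smul, h0, h1, lucasS_add_two, smul_eq_mul, smul_eq_mul]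

end trace

end Fermat.Agent.S31


end ZBCheb_001_17

/-! ### bundled: `Fermat.Agent.S31.Helpers` -/
section ZBCheb_001_18

/-!
# S31: auxiliary lemmas for the reduction

* `evalS`: evaluation of Hecke polynomials in `heckeAlgebra N 2 S`, and its comparison with the
  prelude's `CuspForm.heckeEvalForms` (values in `heckeAlgebra N 2 ∅`);
* `exists_common_field`: a common field of definition of `J[pⁿ]`;
* `exists_galois_hull`: three finite extensions lie in a finite Galois extension;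
* `trace_sub_mem`: endomorphisms congruent modulo `I` have traces congruent modulo `I`;
* `nsmul_eq_of_modEq`.
-/

set_option autoImplicit false

namespace Fermat.Agent.S31

open ModularCurve Fermat.Agent.ES

section evalS

variable (N : ℕ) [NeZero N] (S : Set ℕ)

open Classical in
/-- the value of the Hecke variable `X_ℓ` in `heckeAlgebra N 2 S` (`T_ℓ` if `ℓ ∤ N`, `ℓ ∉ S`) -/
noncomputable def genS (ℓ : Nat.Primes) : CuspForm.heckeAlgebra N 2 S :=
  if h : ¬ (ℓ : ℕ) ∣ N ∧ (ℓ : ℕ) ∉ S then CuspForm.heckeAlgebra.T ℓ.2 h.1 h.2 else 0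

/-- evaluation of Hecke polynomials in `heckeAlgebra N 2 S` -/
noncomputable def evalS : HeckeAlg →ₐ[ℤ] CuspForm.heckeAlgebra N 2 S :=
  MvPolynomial.aeval (genS N S)

variable {N S}

theorem evalS_heckeGen {ℓ : ℕ} (hℓ : ℓ.Prime) (hℓN : ¬ ℓ ∣ N) (hℓS : ℓ ∉ S) :
    evalS N S (heckeGen ⟨ℓ, hℓ⟩) = CuspForm.heckeAlgebra.T hℓ hℓN hℓS := by
  refine (MvPolynomial.aeval_X (genS N S) (⟨ℓ, hℓ⟩ : Nat.Primes)).trans ?_
  unfold genS
  exact dif_pos ⟨hℓN, hℓS⟩

/-- on polynomials in the variables `ℓ ∤ N`, `ℓ ∉ S`, the two evaluations give the same operator -/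
theorem coe_evalS_eq {Sg : Set Nat.Primes} (hSg : ∀ ℓ ∈ Sg, ¬ (ℓ : ℕ) ∣ N ∧ (ℓ : ℕ) ∉ S)
    {t : HeckeAlg} (ht : t ∈ MvPolynomial.supported ℤ Sg) :
    ((evalS N S t : CuspForm.heckeAlgebra N 2 S) :
        Module.End ℂ (CuspForm (CongruenceSubgroup.Gamma0 N) 2)) =
      ((CuspForm.heckeEvalForms N 2 t : CuspForm.heckeAlgebra N 2 ∅) :
        Module.End ℂ (CuspForm (CongruenceSubgroup.Gamma0 N) 2)) := by
  set f₁ : HeckeAlg →+* CuspForm.heckeAlgebra N 2 ∅ :=
    ((Subalgebra.inclusion (CuspForm.heckeAlgebra_mono (Set.empty_subset S))).comp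
      (evalS N S)).toRingHom with hf₁
  set f₂ : HeckeAlg →+* CuspForm.heckeAlgebra N 2 ∅ := CuspForm.heckeEvalForms N 2 with hf₂
  have key : f₁ t = f₂ t := by
    apply MvPolynomial.hom_congr_vars
    · exact RingHom.ext_int _ _
    · intro i hi _
      have hiSg : i ∈ Sg := (MvPolynomial.mem_supported.mp ht) (Finset.mem_coe.mpr hi)
      obtain ⟨h1, h2⟩ := hSg i hiSg
      have e1 : evalS N S (MvPolynomial.X i) = CuspForm.heckeAlgebra.T i.2 h1 h2 :=
        evalS_heckeGen i.2 h1 h2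
      have e2 : CuspForm.heckeEvalForms N 2 (MvPolynomial.X i) =
          CuspForm.heckeAlgebra.T i.2 h1 (Set.notMem_empty _) :=
        CuspForm.heckeEvalForms_heckeGen_of_not_dvd (N := N) (k := 2) (ℓ := i) h1
      show Subalgebra.inclusion (CuspForm.heckeAlgebra_mono (Set.empty_subset S))
        (evalS N S (MvPolynomial.X i)) = CuspForm.heckeEvalForms N 2 (MvPolynomial.X i)
      rw [e1, e2]
      rfl
    · rfl
  have := congrArg (fun x : CuspForm.heckeAlgebra N 2 ∅ =>
    (x : Module.End ℂ (CuspForm (CongruenceSubgroup.Gamma0 N) 2))) key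
  exact this

end evalS

section fields

/-- a common field of definition for `J[pⁿ]` -/
theorem exists_common_field {N p : ℕ} {J : Type} [AddCommGroup J] [Module HeckeAlg J]
    [DistribMulAction GQ J] (hJ : ESDataInf N p J) (n : ℕ) :
    ∃ E : IntermediateField ℚ (AlgebraicClosure ℚ), FiniteDimensional ℚ E ∧
      ∀ σ : GQ, (∀ a ∈ E, σ a = a) → ∀ x : J, p ^ n • x = 0 → σ • x = x := by
  classical
  have hfin := hJ.finite n
  have hex : ∀ x : J, ∃ E : IntermediateField ℚ (AlgebraicClosure ℚ),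
      p ^ n • x = 0 → (FiniteDimensional ℚ E ∧ ∀ σ : GQ, (∀ a ∈ E, σ a = a) → σ • x = x) := by
    intro x
    by_cases hx : p ^ n • x = 0
    · obtain ⟨E, h1, h2⟩ := hJ.finite_level x ⟨n, hx⟩
      exact ⟨E, fun _ => ⟨h1, h2⟩⟩
    · exact ⟨⊥, fun h => absurd h hx⟩
  choose Ef hEf using hex
  refine ⟨⨆ x ∈ hfin.toFinset, Ef x, ?_, ?_⟩
  · apply IntermediateField.finiteDimensional_iSup_of_finset'
    intro x hx
    exact (hEf x ((Set.Finite.mem_toFinset hfin).mp hx)).1
  · intro σ hσ x hx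
    apply (hEf x hx).2 σ
    intro a ha
    apply hσ
    have hle : Ef x ≤ ⨆ y ∈ hfin.toFinset, Ef y :=
      le_iSup₂_of_le x ((Set.Finite.mem_toFinset hfin).mpr hx) le_rfl
    exact hle ha

/-- `ℚ̄ / ℚ` is normal (for the instance of `Algebra ℚ ℚ̄` found by unification) -/
theorem qbar_normal : Normal ℚ (AlgebraicClosure ℚ) := by
  have h1 : @Normal ℚ (AlgebraicClosure ℚ) _ _ (AlgebraicClosure.instAlgebra ℚ) := inferInstance
  convert h1
  exact Subsingleton.elim _ _

/-- three finite extensions of `ℚ` in `ℚ̄` lie in a finite Galois extension -/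
theorem exists_galois_hull (E₁ E₂ E₃ : IntermediateField ℚ (AlgebraicClosure ℚ))
    [FiniteDimensional ℚ E₁] [FiniteDimensional ℚ E₂] [FiniteDimensional ℚ E₃] :
    ∃ F : IntermediateField ℚ (AlgebraicClosure ℚ), FiniteDimensional ℚ F ∧ IsGalois ℚ F ∧
      E₁ ≤ F ∧ E₂ ≤ F ∧ E₃ ≤ F := by
  have hn := qbar_normal
  set K : IntermediateField ℚ (AlgebraicClosure ℚ) := E₁ ⊔ E₂ ⊔ E₃ with hK
  have hKfin : FiniteDimensional ℚ K := inferInstance
  refine ⟨IntermediateField.normalClosure ℚ K (AlgebraicClosure ℚ), inferInstance, ?_, ?_, ?_, ?_⟩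
  · have : Normal ℚ (IntermediateField.normalClosure ℚ K (AlgebraicClosure ℚ)) :=
      normalClosure.normal ℚ K (AlgebraicClosure ℚ)
    exact IsGalois.mk
  · exact le_trans (le_trans le_sup_left le_sup_left) (IntermediateField.le_normalClosure K)
  · exact le_trans (le_trans le_sup_right le_sup_left) (IntermediateField.le_normalClosure K)
  · exact le_trans le_sup_right (IntermediateField.le_normalClosure K)

end fields

section trace

variable {A V : Type*} [CommRing A] [AddCommGroup V] [Module A V]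

/-- a linear functional maps `I • ⊤` into `I` -/
theorem functional_mem_of_mem_smul_top (I : Ideal A) (φ : V →ₗ[A] A) {w : V}
    (hw : w ∈ I • (⊤ : Submodule A V)) : φ w ∈ I := by
  refine Submodule.smul_induction_on (p := fun x => φ x ∈ I) hw ?_ ?_
  · intro a ha v _
    rw [map_smul, smul_eq_mul]
    exact I.mul_mem_right _ ha
  · intro x y hx hy
    rw [map_add]
    exact I.add_mem hx hy

/-- an endomorphism with values in `I • ⊤` has trace in `I` -/
theorem trace_mem_of_forall_mem [Module.Free A V] [Module.Finite A V] (I : Ideal A) (h : Module.End A V)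
    (hh : ∀ v : V, h v ∈ I • (⊤ : Submodule A V)) : LinearMap.trace A V h ∈ I := by
  classical
  let b := Module.Free.chooseBasis A V
  rw [LinearMap.trace_eq_matrix_trace A b h, Matrix.trace]
  refine I.sum_mem fun i _ => ?_
  rw [Matrix.diag_apply, LinearMap.toMatrix_apply]
  exact functional_mem_of_mem_smul_top I (b.coord i) (hh (b i))

/-- a linear map preserves `I • ⊤` -/
theorem map_mem_smul_top (I : Ideal A) (f : Module.End A V) {w : V}
    (hw : w ∈ I • (⊤ : Submodule A V)) : f w ∈ I • (⊤ : Submodule A V) := by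
  refine Submodule.smul_induction_on (p := fun x => f x ∈ I • (⊤ : Submodule A V)) hw ?_ ?_
  · intro a ha v _
    rw [map_smul]
    exact Submodule.smul_mem_smul ha Submodule.mem_top
  · intro x y hx hy
    rw [map_add]
    exact Submodule.add_mem _ hx hy

end trace

/-- congruent multiples agree on `M`-torsion -/
theorem nsmul_eq_of_modEq {J : Type*} [AddCommGroup J] {M a b : ℕ} (hab : a ≡ b [MOD M]) {y : J}
    (hy : M • y = 0) : a • y = b • y := by
  have key : ∀ c : ℕ, c • y = (c % M) • y := by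
    intro c
    conv_lhs => rw [← Nat.div_add_mod c M]
    rw [add_smul, mul_comm, mul_smul, hy, smul_zero, zero_add]
  rw [key a, key b, hab]

end Fermat.Agent.S31


end ZBCheb_001_18
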