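/- GENERATED FILE (helper35, build-time optimisation, NOTES/ZB.md): verbatim concatenation of the modules
   Fermat.Agent.INJ.UnramCore
   Fermat.Agent.INJ.UnramLemma
   Do not edit; do not import together with these modules. -/
import Mathlib
import Fermat.Agent.ZB.INJ_018

/-! ### bundled: `Fermat.Agent.INJ.UnramCore` -/
section ZBINJ_010_0

/-!
# (INJ) piece B2-UL, core: adjoining a root of a monic separable polynomial is unramified

`V` a valuation subring of a field `L`, `R ⊆ V` a subring which is a "`π`-adic valuation ring"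
(`UnramBase`: elements of `R` of value `< 1` are divisible by `π` in `R`, elements of value `1`
are units of `R`).  If `α ∈ L` is a root of a monic separable `f ∈ R[X]`, then the value of every
polynomial expression `P(α)`, `P ∈ R[X]`, is a power of the value of `π`
(`UnramBase.val_eq_pow`).  No residue fields, no completions: division by a monic `G` of minimal
degree with `v (G(α)) < 1`.
-/

set_option autoImplicit false

open Polynomial

namespace Fermat.Agent.INJ

section Core

variable {L : Type*} [Field L] (V : ValuationSubring L)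

/-- The hypotheses on the base ring `R ⊆ V` (a "`π`-adic valuation ring inside `V`"). -/
structure UnramBase (R : Subring L) (π : L) : Prop where
  le : ∀ x ∈ R, x ∈ V
  pi_mem : π ∈ R
  pi_lt : V.valuation π < 1
  pi_ne : π ≠ 0
  div_pi : ∀ x ∈ R, V.valuation x < 1 → ∃ y ∈ R, x = π * y
  inv_mem : ∀ x ∈ R, V.valuation x = 1 → x⁻¹ ∈ R

variable {V} {R : Subring L} {π : L}

theorem UnramBase.val_le_one (h : UnramBase V R π) (x : R) : V.valuation (x : L) ≤ 1 :=
  (V.valuation_le_one_iff _).mpr (h.le _ x.2)

/-- a root of a monic polynomial over `R` lies in `V`. -/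
theorem UnramBase.root_mem (h : UnramBase V R π) {α : L} {f : R[X]} (hf : f.Monic)
    (hα : aeval α f = 0) : V.valuation α ≤ 1 := by
  rw [V.valuation_le_one_iff]
  have hint : IsIntegral V α := by
    let φ : R →+* V := Subring.inclusion (S := R) (T := V.toSubring) (fun x hx => h.le x hx)
    refine ⟨f.map φ, hf.map φ, ?_⟩
    rw [eval₂_map]
    have hφ : (algebraMap V L).comp φ = algebraMap R L := rfl
    rw [hφ, ← aeval_def]
    exact hα
  obtain ⟨y, hy⟩ := (IsIntegrallyClosed.isIntegral_iff (R := V) (K := L)).mp hint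
  rw [← hy]
  exact y.2

theorem UnramBase.val_aeval_le_one (h : UnramBase V R π) {α : L} (hα : V.valuation α ≤ 1)
    (P : R[X]) : V.valuation (aeval α P) ≤ 1 := by
  rw [aeval_eq_sum_range]
  refine Valuation.map_sum_le _ fun i _ => ?_
  rw [Algebra.smul_def, map_mul, map_pow]
  exact mul_le_one' (h.val_le_one _) (pow_le_one' hα _)

/-- values of polynomials with small value: `v (x) < 1` from a decomposition. -/
theorem UnramBase.val_lt_of_decomp (h : UnramBase V R π) {α : L} (hα : V.valuation α ≤ 1)
    {G : R[X]} (hG : V.valuation (aeval α G) < 1) (A B : R[X]) :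
    V.valuation (aeval α (G * A + C (⟨π, h.pi_mem⟩ : R) * B)) < 1 := by
  rw [map_add, map_mul, map_mul, aeval_C]
  refine lt_of_le_of_lt (Valuation.map_add _ _ _) (max_lt ?_ ?_)
  · rw [map_mul]
    calc V.valuation (aeval α G) * V.valuation (aeval α A)
        ≤ V.valuation (aeval α G) * 1 := by
          gcongr
          exact h.val_aeval_le_one hα A
      _ < 1 := by rwa [mul_one]
  · rw [map_mul]
    have : V.valuation ((algebraMap R L) ⟨π, h.pi_mem⟩) = V.valuation π := rfl
    rw [this]
    calc V.valuation π * V.valuation (aeval α B)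
        ≤ V.valuation π * 1 := by
          gcongr
          exact h.val_aeval_le_one hα B
      _ < 1 := by rw [mul_one]; exact h.pi_lt

/-- Coefficients of a low degree polynomial with small value are small. -/
theorem UnramBase.coeff_lt_of_minimal (h : UnramBase V R π) {α : L} (hα : V.valuation α ≤ 1)
    (d : ℕ) (hmin : ∀ G : R[X], G.Monic → G.natDegree < d → ¬ V.valuation (aeval α G) < 1) :
    ∀ (n : ℕ) (r : R[X]), r.natDegree ≤ n → n < d → V.valuation (aeval α r) < 1 →
      ∀ i, V.valuation (r.coeff i : L) < 1 := by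
  intro n
  induction n with
  | zero =>
    intro r hr hd hv i
    have hrC : r = C (r.coeff 0) := eq_C_of_natDegree_le_zero hr
    have hv0 : V.valuation (r.coeff 0 : L) < 1 := by
      rw [hrC, aeval_C] at hv
      exact hv
    rcases Nat.eq_zero_or_pos i with hi | hi
    · rw [hi]; exact hv0
    · rw [coeff_eq_zero_of_natDegree_lt (lt_of_le_of_lt hr hi)]
      simp
  | succ n ih =>
    intro r hr hd hv i
    by_cases hrn : r.natDegree ≤ n
    · exact ih r hrn (by omega) hv i
    have hrn' : r.natDegree = n + 1 := by omega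
    have hr0 : r ≠ 0 := by
      rintro rfl
      simp at hrn'
    -- the leading coefficient is small
    have hc : V.valuation (r.leadingCoeff : L) < 1 := by
      by_contra hc
      have hc1 : V.valuation (r.leadingCoeff : L) = 1 :=
        le_antisymm (h.val_le_one _) (not_lt.mp hc)
      have hinv := h.inv_mem _ r.leadingCoeff.2 hc1
      set c' : R := ⟨(r.leadingCoeff : L)⁻¹, hinv⟩ with hc'
      have hcc : c' * r.leadingCoeff = 1 := by
        apply Subtype.ext
        have hne : (r.leadingCoeff : L) ≠ 0 := by
          intro h0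
          rw [h0] at hc1
          simp at hc1
        simp [hc', inv_mul_cancel₀ hne]
      have hmonic : (C c' * r).Monic := by
        rw [Monic, leadingCoeff_mul', leadingCoeff_C, hcc]
        rw [leadingCoeff_C, hcc]
        exact one_ne_zero
      have hdeg : (C c' * r).natDegree < d := by
        calc (C c' * r).natDegree ≤ r.natDegree := natDegree_C_mul_le _ _
          _ < d := by omega
      apply hmin _ hmonic hdeg
      rw [map_mul, aeval_C, map_mul]
      have h1 : V.valuation ((algebraMap R L) c') ≤ 1 := h.val_le_one c'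
      calc V.valuation ((algebraMap R L) c') * V.valuation (aeval α r)
          ≤ 1 * V.valuation (aeval α r) := by gcongr
        _ < 1 := by rwa [one_mul]
    -- erase the leading term
    have hdec := eraseLead_add_C_mul_X_pow r
    have hv' : V.valuation (aeval α r.eraseLead) < 1 := by
      have : aeval α r.eraseLead = aeval α r - (r.leadingCoeff : L) * α ^ r.natDegree := by
        have h2 : aeval α r = aeval α r.eraseLead + (r.leadingCoeff : L) * α ^ r.natDegree := by
          conv_lhs => rw [← hdec]
          rw [map_add, map_mul, aeval_C, map_pow, aeval_X]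
          rfl
        rw [h2, add_sub_cancel_right]
      rw [this]
      refine lt_of_le_of_lt (Valuation.map_sub _ _ _) (max_lt hv ?_)
      rw [map_mul, map_pow]
      calc V.valuation (r.leadingCoeff : L) * V.valuation α ^ r.natDegree
          ≤ V.valuation (r.leadingCoeff : L) * 1 := by
            gcongr
            exact pow_le_one' hα _
        _ < 1 := by rwa [mul_one]
    have hdeg' : r.eraseLead.natDegree ≤ n := by
      have := eraseLead_natDegree_le r
      omega
    have ih' := ih r.eraseLead hdeg' (by omega) hv'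
    by_cases hi : i = r.natDegree
    · rw [hi]; exact hc
    · have := ih' i
      rwa [eraseLead_coeff_of_ne _ hi] at this

/-- Division with remainder by a minimal `G`: the remainder is divisible by `π`. -/
theorem UnramBase.exists_decomp (h : UnramBase V R π) {α : L} (hα : V.valuation α ≤ 1)
    {G : R[X]} (hGm : G.Monic) (hG : V.valuation (aeval α G) < 1)
    (hmin : ∀ G' : R[X], G'.Monic → G'.natDegree < G.natDegree →
      ¬ V.valuation (aeval α G') < 1)
    (P : R[X]) (hP : V.valuation (aeval α P) < 1) :
    ∃ Q S : R[X], P = G * Q + C (⟨π, h.pi_mem⟩ : R) * S := by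
  have hnt : Nontrivial R := inferInstance
  have hG1 : G ≠ 1 := by
    rintro rfl
    simp at hG
  have hdec := modByMonic_add_div P G
  set r := P %ₘ G with hr
  have hrdeg : r.natDegree < G.natDegree := natDegree_modByMonic_lt P hGm hG1
  have hrv : V.valuation (aeval α r) < 1 := by
    have : aeval α r = aeval α P - aeval α G * aeval α (P /ₘ G) := by
      have h2 := congrArg (aeval α) hdec
      rw [map_add, map_mul] at h2
      rw [← h2, add_sub_cancel_right]
    rw [this]
    refine lt_of_le_of_lt (Valuation.map_sub _ _ _) (max_lt hP ?_)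
    rw [map_mul]
    calc V.valuation (aeval α G) * V.valuation (aeval α (P /ₘ G))
        ≤ V.valuation (aeval α G) * 1 := by
          gcongr
          exact h.val_aeval_le_one hα _
      _ < 1 := by rwa [mul_one]
  have hcoeff := h.coeff_lt_of_minimal hα G.natDegree hmin r.natDegree r le_rfl hrdeg hrv
  have hdvd : C (⟨π, h.pi_mem⟩ : R) ∣ r := by
    rw [C_dvd_iff_dvd_coeff]
    intro i
    obtain ⟨y, hy, hxy⟩ := h.div_pi _ (r.coeff i).2 (hcoeff i)
    exact ⟨⟨y, hy⟩, Subtype.ext hxy⟩
  obtain ⟨S, hS⟩ := hdvd
  exact ⟨P /ₘ G, S, by rw [← hS, add_comm]; exact hdec.symm⟩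

/-- Existence of a minimal monic `G` with small value at `α`. -/
theorem UnramBase.exists_minimal (_h : UnramBase V R π) {α : L} {f : R[X]} (hf : f.Monic)
    (hα : aeval α f = 0) :
    ∃ G : R[X], G.Monic ∧ V.valuation (aeval α G) < 1 ∧
      ∀ G' : R[X], G'.Monic → G'.natDegree < G.natDegree → ¬ V.valuation (aeval α G') < 1 := by
  classical
  let p : ℕ → Prop := fun d => ∃ G : R[X], G.Monic ∧ G.natDegree = d ∧ V.valuation (aeval α G) < 1
  have hex : ∃ d, p d := ⟨f.natDegree, f, hf, rfl, by rw [hα]; simp⟩
  obtain ⟨G, hGm, hGd, hGv⟩ := Nat.find_spec hex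
  refine ⟨G, hGm, hGv, fun G' hG'm hlt hv => ?_⟩
  rw [hGd] at hlt
  exact Nat.find_min hex hlt ⟨G', hG'm, rfl, hv⟩

/-- The cofactor `H` with `f = G H + π S` is a unit at `α`. -/
theorem UnramBase.exists_cofactor (h : UnramBase V R π) {α : L} {f : R[X]} (hf : f.Monic)
    (hsep : f.Separable) (hα : aeval α f = 0) :
    ∃ G H S : R[X], V.valuation (aeval α G) < 1 ∧ V.valuation (aeval α H) = 1 ∧
      f = G * H + C (⟨π, h.pi_mem⟩ : R) * S ∧
      ∀ P : R[X], V.valuation (aeval α P) < 1 →
        ∃ Q S' : R[X], P = G * Q + C (⟨π, h.pi_mem⟩ : R) * S' := by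
  have hαV := h.root_mem hf hα
  obtain ⟨G, hGm, hGv, hmin⟩ := h.exists_minimal hf hα
  have hdecomp := h.exists_decomp hαV hGm hGv hmin
  obtain ⟨H, S, hfH⟩ := hdecomp f (by rw [hα]; simp)
  refine ⟨G, H, S, hGv, ?_, hfH, hdecomp⟩
  refine le_antisymm (h.val_aeval_le_one hαV H) (not_lt.mp fun hH => ?_)
  obtain ⟨Q', S₂, hH'⟩ := hdecomp H hH
  obtain ⟨a, b, hab⟩ := hsep
  set p' : R[X] := C (⟨π, h.pi_mem⟩ : R) with hp'
  have hf2 : f = G * (G * Q') + p' * (G * S₂ + S) := by
    rw [hfH, hH']; ring
  have hder : derivative f = G * (derivative G * Q' + derivative (G * Q'))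
      + p' * derivative (G * S₂ + S) := by
    rw [hf2, derivative_add, derivative_mul (f := G), hp', derivative_C_mul]
    ring
  have hone : (1 : R[X]) = G * (a * (G * Q') + b * (derivative G * Q' + derivative (G * Q')))
      + p' * (a * (G * S₂ + S) + b * derivative (G * S₂ + S)) := by
    rw [← hab]
    conv_lhs => rw [hder]
    conv_lhs => rw [hf2]
    ring
  have hlt := h.val_lt_of_decomp hαV hGv
    (a * (G * Q') + b * (derivative G * Q' + derivative (G * Q')))
    (a * (G * S₂ + S) + b * derivative (G * S₂ + S))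
  rw [← hp', ← hone] at hlt
  simp at hlt

/-- **Core of the unramifiedness lemma**: the value of every polynomial expression in `α`
is a power of the value of `π`, as soon as it is bounded below by such a power. -/
theorem UnramBase.val_eq_pow (h : UnramBase V R π) {α : L} {f : R[X]} (hf : f.Monic)
    (hsep : f.Separable) (hα : aeval α f = 0) :
    ∀ (N : ℕ) (P : R[X]), aeval α P ≠ 0 → V.valuation π ^ N ≤ V.valuation (aeval α P) →
      ∃ n : ℕ, V.valuation (aeval α P) = V.valuation π ^ n := by
  have hαV := h.root_mem hf hα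
  obtain ⟨G, H, S, hGv, hHv, hfH, hdecomp⟩ := h.exists_cofactor hf hsep hα
  have hπv : V.valuation π ≠ 0 := (Valuation.ne_zero_iff _).mpr h.pi_ne
  intro N
  induction N with
  | zero =>
    intro P _ hle
    refine ⟨0, ?_⟩
    rw [pow_zero] at hle ⊢
    exact le_antisymm (h.val_aeval_le_one hαV P) hle
  | succ N ih =>
    intro P hP0 hle
    by_cases hP1 : V.valuation (aeval α P) < 1
    · obtain ⟨Q, S', hPd⟩ := hdecomp P hP1
      set p' : R[X] := C (⟨π, h.pi_mem⟩ : R) with hp'
      have hkey : H * P = f * Q + p' * (H * S' - S * Q) := by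
        rw [hPd, hfH]; ring
      have hev : aeval α H * aeval α P = π * aeval α (H * S' - S * Q) := by
        have := congrArg (aeval α) hkey
        rw [map_mul, map_add, map_mul, hα, zero_mul, zero_add, map_mul, hp', aeval_C] at this
        exact this
      have hval : V.valuation (aeval α P) = V.valuation π * V.valuation (aeval α (H * S' - S * Q)) := by
        have := congrArg V.valuation hev
        rwa [map_mul, hHv, one_mul, map_mul] at this
      have hP1ne : aeval α (H * S' - S * Q) ≠ 0 := by
        intro h0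
        rw [h0, mul_zero] at hev
        have hH0 : aeval α H ≠ 0 := by
          intro hH0
          rw [hH0] at hHv
          simp at hHv
        exact hP0 ((mul_eq_zero.mp hev).resolve_left hH0)
      have hle' : V.valuation π ^ N ≤ V.valuation (aeval α (H * S' - S * Q)) := by
        rw [hval, pow_succ'] at hle
        exact le_of_mul_le_mul_left hle (zero_lt_iff.mpr hπv)
      obtain ⟨n, hn⟩ := ih _ hP1ne hle'
      exact ⟨n + 1, by rw [hval, hn, pow_succ']⟩
    · exact ⟨0, by rw [pow_zero]; exact le_antisymm (h.val_aeval_le_one hαV P) (not_lt.mp hP1)⟩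

end Core

end Fermat.Agent.INJ


end ZBINJ_010_0

/-! ### bundled: `Fermat.Agent.INJ.UnramLemma` -/
section ZBINJ_010_1

/-!
# (INJ) piece B2-UL: the unramifiedness lemma

`piDisc_adjoin`: let `V` be a valuation subring of `L ⊇ F`, `π ∈ F` with `v π < 1`, such that every
nonzero element of `F` has the value of a power of `π`.  If `S ⊆ L` consists of roots of monic
separable polynomials over `V ∩ F` (as `Polynomial ↥(V.comap (algebraMap F L))`), then every
nonzero element of `F(S)` has the value of a power of `π`.

Instances: constant field extensions in characteristic `0` (`S` = constants, `f` = minimal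
polynomial over the constant field), Kummer extensions `h ^ p = unit`, `p` invertible.
-/

set_option autoImplicit false

open Polynomial

namespace Fermat.Agent.INJ

section Step

variable {F L : Type*} [Field F] [Field L] [Algebra F L] (V : ValuationSubring L)

/-- The ring `V ∩ K` as a subring of `L`. -/
def unramRing (K : IntermediateField F L) : Subring L := K.toSubfield.toSubring ⊓ V.toSubring

theorem mem_unramRing {K : IntermediateField F L} {x : L} :
    x ∈ unramRing V K ↔ x ∈ K ∧ x ∈ V := Iff.rfl

variable {V}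

/-- clearing denominators -/
theorem exists_clear_denominators {π : L} (hπV : V.valuation π < 1) (hπ0 : π ≠ 0)
    (K : IntermediateField F L) (hπK : π ∈ K)
    (hK : ∀ x ∈ K, x ≠ 0 → ∃ n : ℤ, V.valuation x = V.valuation π ^ n) (α : L)
    (P₀ : Polynomial K) :
    ∃ (k : ℕ) (P : Polynomial (unramRing V K)), aeval α P = π ^ k * aeval α P₀ := by
  have hπv0 : 0 < V.valuation π := zero_lt_iff.mpr ((Valuation.ne_zero_iff _).mpr hπ0)
  have hπR : π ∈ unramRing V K := ⟨hπK, (V.valuation_le_one_iff _).mp hπV.le⟩
  induction P₀ using Polynomial.induction_on' with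
  | add p q hp hq =>
    obtain ⟨k₁, P₁, h₁⟩ := hp
    obtain ⟨k₂, P₂, h₂⟩ := hq
    refine ⟨k₁ + k₂, C (⟨π, hπR⟩ ^ k₂) * P₁ + C (⟨π, hπR⟩ ^ k₁) * P₂, ?_⟩
    rw [map_add, map_mul, map_mul, aeval_C, aeval_C, h₁, h₂, map_add]
    simp only [map_pow]
    have : (algebraMap (unramRing V K) L) ⟨π, hπR⟩ = π := rfl
    rw [this]
    ring
  | monomial i c =>
    by_cases hc : (c : L) = 0
    · refine ⟨0, 0, ?_⟩
      have : c = 0 := Subtype.ext hc
      simp [this]
    · obtain ⟨n, hn⟩ := hK c c.2 hc
      set k : ℕ := (-n).toNat with hk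
      have hmem : π ^ k * (c : L) ∈ unramRing V K := by
        refine ⟨K.mul_mem (pow_mem hπK k) c.2, ?_⟩
        show π ^ k * (c : L) ∈ V
        rw [← V.valuation_le_one_iff, map_mul, map_pow, hn, ← zpow_natCast, ← zpow_add₀ hπv0.ne']
        have hkn : (0 : ℤ) ≤ (k : ℤ) + n := by
          rw [hk]
          have := Int.self_le_toNat (-n)
          omega
        exact zpow_le_one₀ hπv0 hπV.le hkn
      refine ⟨k, monomial i ⟨π ^ k * (c : L), hmem⟩, ?_⟩
      rw [aeval_monomial, aeval_monomial]
      have h1 : (algebraMap (unramRing V K) L) ⟨π ^ k * (c : L), hmem⟩ = π ^ k * (c : L) := rfl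
      have h2 : (algebraMap K L) c = (c : L) := rfl
      rw [h1, h2]
      ring

/-- `V ∩ K` is an unramified base as soon as `V` is `π`-discrete on `K`. -/
theorem unramBase_of_piDisc {π : L} (hπV : V.valuation π < 1) (hπ0 : π ≠ 0)
    (K : IntermediateField F L) (hπK : π ∈ K)
    (hK : ∀ x ∈ K, x ≠ 0 → ∃ n : ℤ, V.valuation x = V.valuation π ^ n) :
    UnramBase V (unramRing V K) π := by
  have hπv0 : 0 < V.valuation π := zero_lt_iff.mpr ((Valuation.ne_zero_iff _).mpr hπ0)
  refine ⟨fun x hx => hx.2, ⟨hπK, (V.valuation_le_one_iff _).mp hπV.le⟩, hπV, hπ0, ?_, ?_⟩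
  · intro x hx hv
    by_cases hx0 : x = 0
    · exact ⟨0, Subring.zero_mem _, by rw [hx0, mul_zero]⟩
    obtain ⟨n, hn⟩ := hK x hx.1 hx0
    rw [hn] at hv
    have hn0 : 0 < n := (zpow_lt_one_iff_right_of_lt_one₀ hπv0 hπV).mp hv
    refine ⟨x / π, ⟨K.div_mem hx.1 hπK, ?_⟩, by field_simp⟩
    show x / π ∈ V
    rw [← V.valuation_le_one_iff, map_div₀, hn, div_eq_mul_inv, ← zpow_neg_one,
      ← zpow_add₀ hπv0.ne']
    exact zpow_le_one₀ hπv0 hπV.le (by omega)
  · intro x hx hv
    refine ⟨K.inv_mem hx.1, ?_⟩
    show x⁻¹ ∈ V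
    rw [← V.valuation_le_one_iff, map_inv₀, hv, inv_one]

/-- **One step**: adjoining a root of a monic separable polynomial over `V ∩ K` keeps
`π`-discreteness. -/
theorem piDisc_step {π : L} (hπV : V.valuation π < 1) (hπ0 : π ≠ 0)
    (K : IntermediateField F L) (hπK : π ∈ K)
    (hK : ∀ x ∈ K, x ≠ 0 → ∃ n : ℤ, V.valuation x = V.valuation π ^ n) (α : L)
    (f : Polynomial (unramRing V K)) (hf : f.Monic) (hsep : f.Separable) (hα : aeval α f = 0)
    (x : L) (hx : x ∈ Algebra.adjoin K {α}) (hx0 : x ≠ 0) :
    ∃ n : ℤ, V.valuation x = V.valuation π ^ n := by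
  have hπv0 : 0 < V.valuation π := zero_lt_iff.mpr ((Valuation.ne_zero_iff _).mpr hπ0)
  have hbase := unramBase_of_piDisc hπV hπ0 K hπK hK
  have halg : IsAlgebraic K α := by
    refine ⟨f.map (Subring.inclusion (S := unramRing V K) (T := K.toSubfield.toSubring)
      (fun y hy => hy.1)), (hf.map _).ne_zero, ?_⟩
    rw [aeval_def, eval₂_map]
    rw [aeval_def] at hα
    exact hα
  have hfield : (IntermediateField.adjoin K {α}).toSubalgebra = Algebra.adjoin K {α} :=
    IntermediateField.adjoin_simple_toSubalgebra_of_isAlgebraic halg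
  have hxinv : x⁻¹ ∈ Algebra.adjoin K {α} := by
    rw [← hfield] at hx ⊢
    exact (IntermediateField.adjoin K {α}).inv_mem hx
  rw [Algebra.adjoin_singleton_eq_range_aeval] at hx hxinv
  obtain ⟨P₀, hP₀⟩ := hx
  obtain ⟨P₀', hP₀'⟩ := hxinv
  replace hP₀ : aeval α P₀ = x := hP₀
  replace hP₀' : aeval α P₀' = x⁻¹ := hP₀'
  obtain ⟨k, P, hP⟩ := exists_clear_denominators hπV hπ0 K hπK hK α P₀
  obtain ⟨k', P', hP'⟩ := exists_clear_denominators hπV hπ0 K hπK hK α P₀'
  have hαV := hbase.root_mem hf hα
  have hprod : aeval α P * aeval α P' = π ^ (k + k') := by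
    rw [hP, hP', hP₀', hP₀]
    field_simp
    ring
  have hPne : aeval α P ≠ 0 := by
    rw [hP, hP₀]
    exact mul_ne_zero (pow_ne_zero _ hπ0) hx0
  have hle : V.valuation π ^ (k + k') ≤ V.valuation (aeval α P) := by
    have h1 := congrArg V.valuation hprod
    rw [map_mul, map_pow] at h1
    rw [← h1]
    calc V.valuation (aeval α P) * V.valuation (aeval α P')
        ≤ V.valuation (aeval α P) * 1 := by
          gcongr
          exact hbase.val_aeval_le_one hαV P'
      _ = V.valuation (aeval α P) := mul_one _
  obtain ⟨n, hn⟩ := hbase.val_eq_pow hf hsep hα (k + k') P hPne hle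
  refine ⟨(n : ℤ) - k, ?_⟩
  have h2 : V.valuation (aeval α P) = V.valuation π ^ k * V.valuation x := by
    rw [hP, hP₀, map_mul, map_pow]
  rw [zpow_sub₀ hπv0.ne', zpow_natCast, zpow_natCast, ← hn, h2]
  field_simp

variable (V) in
/-- **B2-UL, the unramifiedness lemma.**  Let `V` be a valuation subring of `L ⊇ F` which is
`π`-discrete on `F` (every nonzero element of `F` has the value of a power of `π`, `v π < 1`).
If `S ⊆ L` consists of roots of monic separable polynomials with coefficients in `V ∩ F`, then
`V` is `π`-discrete on `F(S)`: the extension is unramified. -/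
theorem piDisc_adjoin (π : F) (hπ : V.valuation (algebraMap F L π) < 1) (hπ0 : π ≠ 0)
    (hF : ∀ x : F, x ≠ 0 →
      ∃ n : ℤ, V.valuation (algebraMap F L x) = V.valuation (algebraMap F L π) ^ n)
    (S : Set L)
    (hS : ∀ α ∈ S, ∃ f : Polynomial (V.comap (algebraMap F L)), f.Monic ∧ f.Separable ∧
        Polynomial.eval₂ ((algebraMap F L).comp (V.comap (algebraMap F L)).subtype) α f = 0)
    (x : L) (hx : x ∈ IntermediateField.adjoin F S) (hx0 : x ≠ 0) :
    ∃ n : ℤ, V.valuation x = V.valuation (algebraMap F L π) ^ n := by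
  classical
  have hπL : algebraMap F L π ≠ 0 := by
    rwa [Ne, map_eq_zero]
  obtain ⟨T, hTS, hxT⟩ := IntermediateField.exists_finset_of_mem_adjoin hx
  clear hx
  induction T using Finset.induction_on generalizing x with
  | empty =>
    rw [Finset.coe_empty, IntermediateField.adjoin_empty, IntermediateField.mem_bot] at hxT
    obtain ⟨y, rfl⟩ := hxT
    exact hF y (by rintro rfl; simp at hx0)
  | insert α T hαT ih =>
    have hTS' : (T : Set L) ⊆ S := fun y hy => hTS (by simp [hy])
    have hαS : α ∈ S := hTS (by simp)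
    set K := IntermediateField.adjoin F (T : Set L) with hKdef
    have hK : ∀ y ∈ K, y ≠ 0 →
        ∃ n : ℤ, V.valuation y = V.valuation (algebraMap F L π) ^ n :=
      fun y hy hy0 => ih y hy0 hTS' hy
    obtain ⟨f, hfm, hfsep, hfα⟩ := hS α hαS
    -- the polynomial over `V ∩ K`
    let φ : (V.comap (algebraMap F L)) →+* unramRing V K :=
      ((algebraMap F L).comp (V.comap (algebraMap F L)).subtype).codRestrict (unramRing V K)
        (fun y => ⟨K.algebraMap_mem _, y.2⟩)
    have hφ : (algebraMap (unramRing V K) L).comp φ =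
        (algebraMap F L).comp (V.comap (algebraMap F L)).subtype := RingHom.ext fun _ => rfl
    have hα' : aeval α (f.map φ) = 0 := by
      rw [aeval_def, eval₂_map, hφ]
      exact hfα
    -- all elements of `S` are algebraic
    have halgS : ∀ β ∈ S, IsAlgebraic F β := by
      intro β hβ
      obtain ⟨g, hgm, -, hgβ⟩ := hS β hβ
      refine ⟨g.map (V.comap (algebraMap F L)).subtype, (hgm.map _).ne_zero, ?_⟩
      rw [aeval_def, eval₂_map]
      exact hgβ
    have hxA : x ∈ Algebra.adjoin F ((insert α T : Finset L) : Set L) := by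
      rw [← IntermediateField.adjoin_toSubalgebra_of_isAlgebraic
        (fun β hβ => halgS β (hTS hβ))]
      exact hxT
    have hle : Algebra.adjoin F ((insert α T : Finset L) : Set L) ≤
        (Algebra.adjoin K {α}).restrictScalars F := by
      refine Algebra.adjoin_le ?_
      intro y hy
      rw [Finset.coe_insert, Set.mem_insert_iff] at hy
      rw [SetLike.mem_coe, Subalgebra.mem_restrictScalars]
      rcases hy with rfl | hy
      · exact Algebra.subset_adjoin (Set.mem_singleton _)
      · have hyK : y ∈ K := IntermediateField.subset_adjoin F _ hy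
        have hy' : algebraMap K L ⟨y, hyK⟩ ∈ Algebra.adjoin K {α} :=
          Subalgebra.algebraMap_mem _ _
        exact hy'
    exact piDisc_step hπ hπL K (K.algebraMap_mem π) hK α (f.map φ) (hfm.map φ)
      (hfsep.map) hα' x (hle hxA) hx0

end Step

end Fermat.Agent.INJ


end ZBINJ_010_1
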