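/- GENERATED FILE (helper35, build-time optimisation, NOTES/ZB.md): verbatim concatenation of the modules
   Fermat.Agent.INJ.BGContra
   Fermat.Agent.INJ.EndGame
   Do not edit; do not import together with these modules. -/
import Mathlib
import Fermat.Agent.ZB.INJ_021
import Fermat.Agent.ZB.INJ_002

/-! ### bundled: `Fermat.Agent.INJ.BGContra` -/
section ZBINJ_023_0

/-!
# (INJ) B-glue: the abstract end game (`BG-contra`)

`C ⊂ Lf` a subring of a field, `π ∈ C` a prime element of `C` (in element form), `σ` an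
automorphism of `Lf` preserving `C` and fixing `π`, `h ∈ Lf` with `σ h = ζ h`, `ζ ^ p = 1`,
`ζ - 1` prime to `π`.  If `h ^ p ≡ 1` modulo `π` (up to denominators `s`, `b` prime to `π`),
we get a contradiction.

In the application `Lf = F(h)`, `h ^ p = w ∈ F`, `w ≡ 1` for the Gauss valuation, `C` = integral
closure of `A₀[t]` in `Lf`, and "`π` prime in `C`" is the conclusion of the tame specialization
theorem (`Fermat.Agent.INJ.TameSpecStmt`).
-/

set_option autoImplicit false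

namespace Fermat.Agent.INJ

variable {Lf : Type*} [Field Lf]

/-- `π` divides `x` inside the subring `C` -/
def BgDvd (C : Subring Lf) (π x : Lf) : Prop := ∃ z ∈ C, x = π * z

theorem BgDvd.mul_left {C : Subring Lf} {π x : Lf} (h : BgDvd C π x) {y : Lf} (hy : y ∈ C) :
    BgDvd C π (y * x) := by
  obtain ⟨z, hz, rfl⟩ := h
  exact ⟨y * z, C.mul_mem hy hz, by ring⟩

theorem BgDvd.mul_right {C : Subring Lf} {π x : Lf} (h : BgDvd C π x) {y : Lf} (hy : y ∈ C) :
    BgDvd C π (x * y) := by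
  obtain ⟨z, hz, rfl⟩ := h
  exact ⟨z * y, C.mul_mem hz hy, by ring⟩

theorem BgDvd.add {C : Subring Lf} {π x y : Lf} (hx : BgDvd C π x) (hy : BgDvd C π y) :
    BgDvd C π (x + y) := by
  obtain ⟨z, hz, rfl⟩ := hx
  obtain ⟨z', hz', rfl⟩ := hy
  exact ⟨z + z', C.add_mem hz hz', by ring⟩

theorem BgDvd.sub {C : Subring Lf} {π x y : Lf} (hx : BgDvd C π x) (hy : BgDvd C π y) :
    BgDvd C π (x - y) := by
  obtain ⟨z, hz, rfl⟩ := hx
  obtain ⟨z', hz', rfl⟩ := hy
  exact ⟨z - z', C.sub_mem hz hz', by ring⟩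

/-- `π` is a prime element of `C`, in element form -/
structure BgPrime (C : Subring Lf) (π : Lf) : Prop where
  not_unit : ¬ BgDvd C π 1
  dvd_or_dvd : ∀ x ∈ C, ∀ y ∈ C, BgDvd C π (x * y) → BgDvd C π x ∨ BgDvd C π y

theorem BgPrime.dvd_of_dvd_pow {C : Subring Lf} {π : Lf} (hp : BgPrime C π) {x : Lf} (hx : x ∈ C)
    (n : ℕ) (h : BgDvd C π (x ^ n)) : BgDvd C π x := by
  induction n with
  | zero => exact absurd (by simpa using h) hp.not_unit
  | succ n ih =>
    rw [pow_succ] at h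
    rcases hp.dvd_or_dvd _ (C.pow_mem hx n) _ hx h with h' | h'
    · exact ih h'
    · exact h'

theorem BgPrime.exists_dvd_of_dvd_prod {C : Subring Lf} {π : Lf} (hp : BgPrime C π)
    {ι : Type*} (S : Finset ι) (f : ι → Lf) (hf : ∀ i ∈ S, f i ∈ C)
    (h : BgDvd C π (∏ i ∈ S, f i)) : ∃ i ∈ S, BgDvd C π (f i) := by
  classical
  induction S using Finset.induction_on with
  | empty => exact absurd (by simpa using h) hp.not_unit
  | insert a S ha ih =>
    rw [Finset.prod_insert ha] at h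
    have hfa : f a ∈ C := hf a (Finset.mem_insert_self a S)
    have hfS : ∀ i ∈ S, f i ∈ C := fun i hi => hf i (Finset.mem_insert_of_mem hi)
    rcases hp.dvd_or_dvd _ hfa _ (C.prod_mem hfS) h with h' | h'
    · exact ⟨a, Finset.mem_insert_self a S, h'⟩
    · obtain ⟨i, hi, hi'⟩ := ih hfS h'
      exact ⟨i, Finset.mem_insert_of_mem hi, hi'⟩

/-- **The abstract end game.** -/
theorem bg_contra (C : Subring Lf) {π : Lf} (hprime : BgPrime C π)
    (σ : Lf ≃+* Lf) (hσC : ∀ x ∈ C, σ x ∈ C) (hσπ : σ π = π)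
    {p : ℕ} {ζ s b c h : Lf}
    (hζC : ζ ∈ C) (hζ1 : ¬ BgDvd C π (ζ - 1))
    (hsC : s ∈ C) (hbC : b ∈ C) (hcC : c ∈ C) (hσs : σ s = s) (hσζ : σ ζ = ζ)
    (hs : ¬ BgDvd C π s) (hb : ¬ BgDvd C π b)
    (hshC : s * h ∈ C) (hσh : σ h = ζ * h)
    (hprod : ∏ i ∈ Finset.range p, (h - ζ ^ i) = h ^ p - 1)
    (hw : (h ^ p - 1) * b = π * c) : False := by
  -- step 1: `π ∣ b * ∏ (s h - ζ^i s)`
  have hfac : ∀ i ∈ Finset.range p, s * h - ζ ^ i * s ∈ C := fun i _ =>
    C.sub_mem hshC (C.mul_mem (C.pow_mem hζC i) hsC)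
  have hP : ∏ i ∈ Finset.range p, (s * h - ζ ^ i * s) = s ^ p * (h ^ p - 1) := by
    have : ∀ i ∈ Finset.range p, s * h - ζ ^ i * s = s * (h - ζ ^ i) := fun i _ => by ring
    rw [Finset.prod_congr rfl this, Finset.prod_mul_distrib, Finset.prod_const, Finset.card_range,
      hprod]
  have h1 : BgDvd C π (b * ∏ i ∈ Finset.range p, (s * h - ζ ^ i * s)) := by
    refine ⟨s ^ p * c, C.mul_mem (C.pow_mem hsC p) hcC, ?_⟩
    rw [hP]
    calc b * (s ^ p * (h ^ p - 1)) = s ^ p * ((h ^ p - 1) * b) := by ring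
      _ = π * (s ^ p * c) := by rw [hw]; ring
  have h2 : BgDvd C π (∏ i ∈ Finset.range p, (s * h - ζ ^ i * s)) := by
    rcases hprime.dvd_or_dvd _ hbC _ (C.prod_mem hfac) h1 with h' | h'
    · exact absurd h' hb
    · exact h'
  obtain ⟨i, _, hi⟩ := hprime.exists_dvd_of_dvd_prod _ _ hfac h2
  -- step 2: apply `σ`
  have hσi : BgDvd C π (s * (ζ * h) - ζ ^ i * s) := by
    obtain ⟨z, hz, hz'⟩ := hi
    refine ⟨σ z, hσC z hz, ?_⟩
    have := congrArg σ hz'
    rw [map_sub, map_mul, map_mul, map_mul, map_pow, hσs, hσζ, hσh, hσπ] at this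
    exact this
  have h3 : BgDvd C π ((ζ - 1) * (s * h)) := by
    have := hσi.sub hi
    have e : s * (ζ * h) - ζ ^ i * s - (s * h - ζ ^ i * s) = (ζ - 1) * (s * h) := by ring
    rwa [e] at this
  have h4 : BgDvd C π (s * h) := by
    rcases hprime.dvd_or_dvd _ (C.sub_mem hζC C.one_mem) _ hshC h3 with h' | h'
    · exact absurd h' hζ1
    · exact h'
  -- step 3: `π ∣ b * s ^ p`
  have hp0 : p ≠ 0 := by
    rintro rfl
    apply hprime.not_unit
    simpa using h2
  have h5 : BgDvd C π ((s * h) ^ p) := by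
    obtain ⟨n, rfl⟩ := Nat.exists_eq_succ_of_ne_zero hp0
    rw [pow_succ]
    exact h4.mul_left (C.pow_mem hshC n)
  have h6 : BgDvd C π (b * s ^ p) := by
    have e : b * s ^ p = b * (s * h) ^ p - s ^ p * ((h ^ p - 1) * b) := by ring
    rw [e, hw]
    refine (h5.mul_left hbC).sub ⟨s ^ p * c, C.mul_mem (C.pow_mem hsC p) hcC, by ring⟩
  rcases hprime.dvd_or_dvd _ hbC _ (C.pow_mem hsC p) h6 with h' | h'
  · exact hb h'
  · exact hs (hprime.dvd_of_dvd_pow hsC p h')

end Fermat.Agent.INJ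


end ZBINJ_023_0

/-! ### bundled: `Fermat.Agent.INJ.EndGame` -/
section ZBINJ_023_1

/-!
# (INJ) B-glue: the end game from the tame specialization theorem

`endGame` : in the situation of `TameSpecStmt` (`Lf / E(t)`, `C₁` the integral closure of
`A₀[t]` in `Lf`), let `σ` be an automorphism of `Lf` over `A₀[t]`, `h ∈ Lf` with `σ h = ζ h`,
`ζ ∈ A₀` a `p`-th root of unity with `ζ - 1 ∈ A₀ˣ`, and `h ^ p ≡ 1` modulo `π` up to denominators
prime to `π` fixed by `σ`.  Then the hypotheses of `TameSpecStmt` cannot all hold.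
-/

set_option autoImplicit false

namespace Fermat.Agent.INJ

open Polynomial IntermediateField AlgebraicCurve

section Convert

variable {A₀ Lf : Type*} [CommRing A₀] [Field Lf] [Algebra A₀ Lf]

/-- a prime element of a subalgebra, in the element form of `BGContra.lean` -/
theorem bgPrime_of_prime (C : Subalgebra A₀ Lf) (π : A₀)
    (h : Prime (algebraMap A₀ C π)) :
    BgPrime C.toSubring (algebraMap A₀ Lf π) := by
  constructor
  · rintro ⟨z, hz, hz'⟩
    apply h.not_unit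
    refine isUnit_iff_exists_inv.mpr ⟨⟨z, hz⟩, ?_⟩
    apply Subtype.ext
    exact hz'.symm
  · rintro x hx y hy ⟨z, hz, hz'⟩
    have hd : algebraMap A₀ C π ∣ (⟨x, hx⟩ : C) * ⟨y, hy⟩ :=
      ⟨⟨z, hz⟩, Subtype.ext hz'⟩
    rcases h.dvd_or_dvd hd with ⟨w, hw⟩ | ⟨w, hw⟩
    · exact Or.inl ⟨w.1, w.2, congrArg Subtype.val hw⟩
    · exact Or.inr ⟨w.1, w.2, congrArg Subtype.val hw⟩

end Convert

section EndGame

variable {A₀ Lf : Type*} [CommRing A₀] [Field Lf] [Algebra A₀ Lf]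

/-- **End game.** `π` prime in the integral closure `C₁` of `A₀[t]` in `Lf` is incompatible with a
Kummer element `h`, `σ h = ζ h`, `h ^ p ≡ 1 mod π`. -/
theorem endGame (π : A₀) (t : Lf)
    (hprime : Prime (algebraMap A₀ (integralClosure (Algebra.adjoin A₀ {t}) Lf) π))
    (σ : Lf ≃+* Lf) (hσA : ∀ a : A₀, σ (algebraMap A₀ Lf a) = algebraMap A₀ Lf a)
    (hσt : σ t = t)
    {p : ℕ} (ζ u : A₀) (hζu : (ζ - 1) * u = 1)
    {s b c h : Lf}
    (hsC : IsIntegral (Algebra.adjoin A₀ {t}) s) (hbC : IsIntegral (Algebra.adjoin A₀ {t}) b)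
    (hcC : IsIntegral (Algebra.adjoin A₀ {t}) c)
    (hσs : σ s = s)
    (hs : ¬ ∃ z : Lf, IsIntegral (Algebra.adjoin A₀ {t}) z ∧ s = algebraMap A₀ Lf π * z)
    (hb : ¬ ∃ z : Lf, IsIntegral (Algebra.adjoin A₀ {t}) z ∧ b = algebraMap A₀ Lf π * z)
    (hshC : IsIntegral (Algebra.adjoin A₀ {t}) (s * h))
    (hσh : σ h = algebraMap A₀ Lf ζ * h)
    (hprod : ∏ i ∈ Finset.range p, (h - algebraMap A₀ Lf ζ ^ i) = h ^ p - 1)
    (hw : (h ^ p - 1) * b = algebraMap A₀ Lf π * c) : False := by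
  set R := Algebra.adjoin A₀ {t} with hR
  set C₁ := integralClosure R Lf with hC₁
  -- `C₁` as a subalgebra over `A₀`
  let C : Subalgebra A₀ Lf := C₁.restrictScalars A₀
  have hmemC : ∀ x : Lf, x ∈ C ↔ IsIntegral R x := fun x => Iff.rfl
  have hprime' : Prime (algebraMap A₀ C π) := by
    have e : (algebraMap A₀ C π : C) = algebraMap A₀ C₁ π := rfl
    have : (Prime (algebraMap A₀ C π : C)) = Prime (algebraMap A₀ C₁ π : C₁) := rfl
    rw [this]
    exact hprime
  have hbg := bgPrime_of_prime C π hprime'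
  -- `σ` preserves `C`
  have hσR : ∀ x ∈ R, σ x = x := by
    intro x hx
    induction hx using Algebra.adjoin_induction with
    | mem x hx =>
        rw [Set.mem_singleton_iff] at hx
        rw [hx, hσt]
    | algebraMap a => exact hσA a
    | add x y _ _ hx hy => rw [map_add, hx, hy]
    | mul x y _ _ hx hy => rw [map_mul, hx, hy]
  have hσC : ∀ x ∈ C.toSubring, σ x ∈ C.toSubring := by
    intro x hx
    have hx' : IsIntegral R x := hx
    obtain ⟨P, hP, hPx⟩ := hx'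
    refine ⟨P, hP, ?_⟩
    have h1 : Polynomial.eval₂ (algebraMap R Lf) (σ x) P
        = σ (Polynomial.eval₂ (algebraMap R Lf) x P) := by
      rw [Polynomial.eval₂_eq_sum_range, Polynomial.eval₂_eq_sum_range, map_sum]
      refine Finset.sum_congr rfl fun i _ => ?_
      rw [map_mul, map_pow]
      congr 1
      exact (hσR _ (P.coeff i).2).symm
    rw [h1, hPx, map_zero]
  have hζC : algebraMap A₀ Lf ζ ∈ C.toSubring := C.algebraMap_mem ζ
  have hζ1 : ¬ BgDvd C.toSubring (algebraMap A₀ Lf π) (algebraMap A₀ Lf ζ - 1) := by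
    rintro ⟨z, hz, hz'⟩
    apply hbg.not_unit
    refine ⟨z * algebraMap A₀ Lf u, C.toSubring.mul_mem hz (C.algebraMap_mem u), ?_⟩
    have : (algebraMap A₀ Lf ζ - 1) * algebraMap A₀ Lf u = 1 := by
      rw [← map_one (algebraMap A₀ Lf), ← map_sub, ← map_mul, hζu]
    rw [← this, hz']
    ring
  exact bg_contra C.toSubring hbg σ hσC (hσA π) hζC hζ1 hsC hbC hcC hσs (hσA ζ)
    (fun ⟨z, hz, hz'⟩ => hs ⟨z, hz, hz'⟩) (fun ⟨z, hz, hz'⟩ => hb ⟨z, hz, hz'⟩)
    hshC hσh hprod hw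

end EndGame

end Fermat.Agent.INJ


end ZBINJ_023_1
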