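/- GENERATED FILE (helper35, build-time optimisation, NOTES/ZB.md): verbatim concatenation of the modules
   Fermat.Agent.S13.Interface
   Do not edit; do not import together with these modules. -/
import Mathlib
import Fermat.Prelude.Def_FLTPrelim_FreyPackage
import Fermat.Prelude.Def_FLTPrelim_GaloisRep
import Fermat.Prelude.Def_FLTPrelim_Ramification
import Fermat.Prelude.Def_FLTPrelim_CofixedLine
import Fermat.Agent.ZB.INJ_022

/-! ### bundled: `Fermat.Agent.S13.Interface` -/
section ZBS13_001_0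

/-!
# S13: interface between the pieces (captain: helper77)

Each piece `Pk` proves one of the statements `Stmt…` below; `Fermat/Agent/S13/Assembly.lean`
proves S13 from them.  Notation: `Qbar = AlgebraicClosure ℚ`, `Gal = Qbar ≃ₐ[ℚ] Qbar`,
`Tors P = E[p](Qbar)` for the Frey curve `E = P.freyCurve` and `p = P.p`.
-/

set_option autoImplicit false

namespace Fermat.Agent.S13

open WeierstrassCurve WeierstrassCurve.Affine WeierstrassCurve.Affine.Point

/-- `ℚ̄`. -/
abbrev Qbar : Type := AlgebraicClosure ℚ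

/-- `Gal(ℚ̄/ℚ)`. -/
abbrev Gal : Type := Qbar ≃ₐ[ℚ] Qbar

/-- `E[p](ℚ̄)` for the Frey curve. -/
abbrev Tors (P : FreyPackage) : Type :=
  Submodule.torsionBy ℤ (P.freyCurve⁄Qbar).Point P.p

/-- P2a: the Frey curve has a nonzero `p`-torsion point over `ℚ̄`. -/
def StmtNontrivial : Prop :=
  ∀ P : FreyPackage, Nontrivial (Tors P)

/-- P2b: `E[p](ℚ̄)` is finite with at most `p²` elements. -/
def StmtCard : Prop :=
  ∀ P : FreyPackage, Finite (Tors P) ∧ Nat.card (Tors P) ≤ P.p ^ 2

/-- S05: inertia at `q ≠ 2, p` acts trivially. -/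
def StmtUnram : Prop :=
  ∀ (P : FreyPackage) (q : ℕ), q.Prime → q ≠ 2 → q ≠ P.p → P.GaloisRepUnramifiedAt q

/-- P4 (step 2): at some place over `2`, inertia acts unipotently: `(σ - 1)² = 0` on `E[p]`. -/
def StmtAtTwo : Prop :=
  ∀ P : FreyPackage, ∃ A : ValuationSubring Qbar, A.LiesOverPrime 2 ∧
    ∀ σ ∈ A.inertiaSubgroupIn ℚ, ∀ x : Tors P, σ • (σ • x - x) = σ • x - x

/-- P4 (step 5): the Frey curve has no rational point of order `p`. -/
def StmtNoFixed : Prop :=
  ∀ (P : FreyPackage) (x : Tors P), (∀ σ : Gal, σ • x = x) → x = 0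

/-- P5 (step 3): at some place over `p`, inertia acts trivially on a Galois-stable line or on the
quotient by it. -/
def StmtAtP : Prop :=
  ∀ (P : FreyPackage) (N : Submodule (ZMod P.p) (Tors P)),
    IsGaloisStable ℚ N → N ≠ ⊥ → N ≠ ⊤ →
    ∃ A : ValuationSubring Qbar, A.LiesOverPrime P.p ∧
      ((∀ σ ∈ A.inertiaSubgroupIn ℚ, ∀ x ∈ N, σ • x = x) ∨
        (∀ σ ∈ A.inertiaSubgroupIn ℚ, ∀ x : Tors P, σ • x - x ∈ N))

/-- P7 (Minkowski): a normal subgroup of `Gal(ℚ̄/ℚ)` that contains the pointwise stabiliser of a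
finite set of algebraic numbers and, for every prime `q`, the inertia group of SOME place over `q`,
is everything. -/
def StmtMinkowski : Prop :=
  ∀ K : Subgroup Gal, K.Normal →
    (∃ S : Finset Qbar, ∀ σ : Gal, (∀ s ∈ S, σ s = s) → σ ∈ K) →
    (∀ q : ℕ, q.Prime → ∃ A : ValuationSubring Qbar, A.LiesOverPrime q ∧
      A.inertiaSubgroupIn ℚ ≤ K) →
    K = ⊤

/-- D-TZ ("torsion ⇒ zero"): the `x`-coordinate of a nonzero `p`-torsion point of the Frey curve is a
root of the `p`-th division polynomial `preΨ_p` (a polynomial in `x` only, since `p` is odd). -/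
def StmtTorsZero : Prop :=
  ∀ (P : FreyPackage) (x y : Qbar) (h : (P.freyCurve⁄Qbar).Nonsingular x y),
    P.p • (Point.some x y h : (P.freyCurve⁄Qbar).Point) = 0 →
      ((P.freyCurve⁄Qbar).preΨ P.p).eval x = 0

/-- D-C / P1c ("zero ⇒ torsion"): an affine point of the Frey curve whose `x`-coordinate is a root of
`preΨ_p` is `p`-torsion. -/
def StmtZeroTors : Prop :=
  ∀ (P : FreyPackage) (x y : Qbar) (h : (P.freyCurve⁄Qbar).Nonsingular x y),
    ((P.freyCurve⁄Qbar).preΨ P.p).eval x = 0 →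
      P.p • (Point.some x y h : (P.freyCurve⁄Qbar).Point) = 0

/-- The statement of S13. -/
def StmtS13 : Prop :=
  ∀ P : FreyPackage,
    ¬ GaloisRepIsIrreducible (K := AlgebraicClosure ℚ) ℚ P.freyCurve P.p →
    HasGaloisStableCofixedLine (K := AlgebraicClosure ℚ) ℚ P.freyCurve P.p

end Fermat.Agent.S13


end ZBS13_001_0
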