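/- GENERATED FILE (helper35, build-time optimisation, NOTES/ZB.md): verbatim concatenation of the modules
   Fermat.Agent.S05.Inertia
   Fermat.Agent.S31.Cyclo
   Fermat.Agent.S42.FreyField
   Fermat.Agent.S31.Kills
   Fermat.Agent.S14.ValGalois
   Fermat.Agent.PT.X.KummerUnram
   Do not edit; do not import together with these modules. -/
import Mathlib
import Fermat.Prelude.Def_FLTPrelim_GaloisRep
import Fermat.Prelude.Def_FLTPrelim_Ramification
import Fermat.Prelude.Def_EllipticCurve_FrobeniusTrace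
import Fermat.Agent.ZB.Cheb_001
import Fermat.Agent.ZB.S13_001
import Fermat.Agent.ZB.Common_001
import Fermat.Prelude.Def_GroupCohomology_ContinuousUnramified

/-! ### bundled: `Fermat.Agent.S05.Inertia` -/
section ZBS05_001_0

/-!
# S05, piece I: inertia plumbing

For a valuation subring `A` of `L` and `σ` in the inertia subgroup (in the prelude's sense
`A.inertiaSubgroupIn K`, a subgroup of `L ≃ₐ[K] L`):

* `σ x ∈ A ↔ x ∈ A`, `σ x ∈ A.nonunits ↔ x ∈ A.nonunits`;
* `σ x - x ∈ A.nonunits` for `x ∈ A`;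
* `A.valuation (σ x) = A.valuation x` when `L / K` is algebraic;
* the Galois action on points is coordinatewise.
-/

set_option autoImplicit false

open scoped Pointwise

namespace Fermat.Agent.S05

section Decomposition

variable {K L : Type*} [Field K] [Field L] [Algebra K L]

/-- Elements of the decomposition group stabilise `A` as a set. -/
theorem apply_mem_of_mem_decomposition {A : ValuationSubring L} {σ : L ≃ₐ[K] L}
    (hσ : σ ∈ A.decompositionSubgroup K) {x : L} (hx : x ∈ A) : σ x ∈ A := by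
  have h1 : σ • A = A := hσ
  have h2 : σ • x ∈ σ • A := ValuationSubring.smul_mem_pointwise_smul σ x A hx
  rw [h1] at h2
  exact h2

/-- Membership in `A` is invariant under the decomposition group. -/
theorem apply_mem_iff_of_mem_decomposition {A : ValuationSubring L} {σ : L ≃ₐ[K] L}
    (hσ : σ ∈ A.decompositionSubgroup K) (x : L) : σ x ∈ A ↔ x ∈ A := by
  refine ⟨fun h => ?_, fun h => apply_mem_of_mem_decomposition hσ h⟩
  have hinv : σ⁻¹ ∈ A.decompositionSubgroup K := Subgroup.inv_mem _ hσ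
  have := apply_mem_of_mem_decomposition hinv h
  simpa using this

/-- Units of `A` are preserved by the decomposition group. -/
theorem apply_mem_nonunits_iff_of_mem_decomposition {A : ValuationSubring L} {σ : L ≃ₐ[K] L}
    (hσ : σ ∈ A.decompositionSubgroup K) (x : L) : σ x ∈ A.nonunits ↔ x ∈ A.nonunits := by
  rw [ValuationSubring.mem_nonunits_iff_or, ValuationSubring.mem_nonunits_iff_or, ← map_inv₀,
    apply_mem_iff_of_mem_decomposition hσ]
  simp

end Decomposition

section Inertia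

variable {K L : Type*} [Field K] [Field L] [Algebra K L]

/-- The prelude's inertia subgroup lies in the decomposition subgroup. -/
theorem mem_decomposition_of_mem_inertiaIn {A : ValuationSubring L} {σ : L ≃ₐ[K] L}
    (hσ : σ ∈ A.inertiaSubgroupIn K) : σ ∈ A.decompositionSubgroup K := by
  obtain ⟨τ, -, rfl⟩ := hσ
  exact τ.2

/-- `σ x ∈ A ↔ x ∈ A` for `σ` in the inertia subgroup. -/
theorem inertia_apply_mem_iff {A : ValuationSubring L} {σ : L ≃ₐ[K] L}
    (hσ : σ ∈ A.inertiaSubgroupIn K) (x : L) : σ x ∈ A ↔ x ∈ A :=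
  apply_mem_iff_of_mem_decomposition (mem_decomposition_of_mem_inertiaIn hσ) x

/-- `σ x ∈ 𝔪 ↔ x ∈ 𝔪` for `σ` in the inertia subgroup. -/
theorem inertia_apply_mem_nonunits_iff {A : ValuationSubring L} {σ : L ≃ₐ[K] L}
    (hσ : σ ∈ A.inertiaSubgroupIn K) (x : L) : σ x ∈ A.nonunits ↔ x ∈ A.nonunits :=
  apply_mem_nonunits_iff_of_mem_decomposition (mem_decomposition_of_mem_inertiaIn hσ) x

/-- Inertia acts trivially on the residue field: `σ x - x ∈ 𝔪` for `x ∈ A`. -/
theorem inertia_apply_sub_mem_nonunits {A : ValuationSubring L} {σ : L ≃ₐ[K] L}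
    (hσ : σ ∈ A.inertiaSubgroupIn K) {x : L} (hx : x ∈ A) : σ x - x ∈ A.nonunits := by
  obtain ⟨τ, hτ, rfl⟩ := hσ
  -- `τ` acts trivially on the residue field
  have h1 : MulSemiringAction.toRingAut (A.decompositionSubgroup K) (IsLocalRing.ResidueField A) τ
      = 1 := hτ
  have h2 : τ • (IsLocalRing.residue A ⟨x, hx⟩) = IsLocalRing.residue A ⟨x, hx⟩ := by
    have := congrArg (fun f : RingAut (IsLocalRing.ResidueField A) =>
      f (IsLocalRing.residue A ⟨x, hx⟩)) h1
    simpa using this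
  have h3 : IsLocalRing.residue A (τ • (⟨x, hx⟩ : A)) = IsLocalRing.residue A ⟨x, hx⟩ := h2
  have h4 : IsLocalRing.residue A (τ • (⟨x, hx⟩ : A) - ⟨x, hx⟩) = 0 := by
    rw [map_sub, h3, sub_self]
  have h5 : (τ • (⟨x, hx⟩ : A) - ⟨x, hx⟩) ∈ IsLocalRing.maximalIdeal A :=
    (IsLocalRing.residue_eq_zero_iff _).1 h4
  have h6 : ((τ • (⟨x, hx⟩ : A) - ⟨x, hx⟩ : A) : L) ∈ A.nonunits := by
    rw [ValuationSubring.mem_nonunits_iff_exists_mem_maximalIdeal]
    exact ⟨(τ • (⟨x, hx⟩ : A) - ⟨x, hx⟩ : A).2, h5⟩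
  exact h6

/-- The inertia subgroup (prelude form) is closed under inverses. -/
theorem inv_mem_inertiaIn {A : ValuationSubring L} {σ : L ≃ₐ[K] L}
    (hσ : σ ∈ A.inertiaSubgroupIn K) : σ⁻¹ ∈ A.inertiaSubgroupIn K :=
  Subgroup.inv_mem _ hσ

end Inertia

section Valuation

variable {K L : Type*} [Field K] [Field L] [Algebra K L]

/-- `v z = 1` iff `z ∈ A` and `z ∉ 𝔪`. -/
theorem valuation_eq_one_iff_mem_not_mem (A : ValuationSubring L) (z : L) :
    A.valuation z = 1 ↔ z ∈ A ∧ z ∉ A.nonunits := by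
  rw [← A.valuation_le_one_iff, ValuationSubring.mem_nonunits_iff, not_lt]
  exact ⟨fun h => ⟨h.le, h.ge⟩, fun h => le_antisymm h.1 h.2⟩

/-- The decomposition group preserves the units of `A`. -/
theorem valuation_apply_eq_one_iff {A : ValuationSubring L} {σ : L ≃ₐ[K] L}
    (hσ : σ ∈ A.decompositionSubgroup K) (z : L) :
    A.valuation (σ z) = 1 ↔ A.valuation z = 1 := by
  rw [valuation_eq_one_iff_mem_not_mem, valuation_eq_one_iff_mem_not_mem,
    apply_mem_iff_of_mem_decomposition hσ, apply_mem_nonunits_iff_of_mem_decomposition hσ]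

/-- A nonzero algebraic element has a positive power whose valuation is the valuation of a
nonzero element of the base field. -/
theorem exists_pow_valuation_eq_algebraMap (A : ValuationSubring L) {x : L} (hx : x ≠ 0)
    (halg : IsAlgebraic K x) :
    ∃ n : ℕ, 0 < n ∧ ∃ c : K, c ≠ 0 ∧ A.valuation (x ^ n) = A.valuation (algebraMap K L c) := by
  classical
  obtain ⟨P, hP0, hPx⟩ := halg
  set f : ℕ → L := fun i => algebraMap K L (P.coeff i) * x ^ i with hf
  have hsum : ∑ i ∈ P.support, f i = 0 := by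
    rw [← hPx, Polynomial.aeval_def, Polynomial.eval₂_eq_sum, Polynomial.sum_def]
  have hne : P.support.Nonempty := Polynomial.support_nonempty.mpr hP0
  have hfne : ∀ i ∈ P.support, f i ≠ 0 := by
    intro i hi
    have hc : P.coeff i ≠ 0 := Polynomial.mem_support_iff.1 hi
    have : algebraMap K L (P.coeff i) ≠ 0 := by
      simpa using hc
    exact mul_ne_zero this (pow_ne_zero _ hx)
  obtain ⟨j, hj, hjmax⟩ := Finset.exists_max_image P.support (fun i => A.valuation (f i)) hne
  -- some other term has the same valuation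
  have hex : ∃ i ∈ P.support, i ≠ j ∧ A.valuation (f i) = A.valuation (f j) := by
    by_contra hcon
    push Not at hcon
    have hlt : ∀ i ∈ P.support \ {j}, A.valuation (f i) < A.valuation (f j) := by
      intro i hi
      rw [Finset.mem_sdiff, Finset.mem_singleton] at hi
      exact lt_of_le_of_ne (hjmax i hi.1) (hcon i hi.1 hi.2)
    have := Valuation.map_sum_eq_of_lt A.valuation hj hlt
    rw [hsum, map_zero] at this
    exact (Valuation.ne_zero_iff _).2 (hfne j hj) this.symm
  obtain ⟨i, hi, hij, hval⟩ := hex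
  have hci : P.coeff i ≠ 0 := Polynomial.mem_support_iff.1 hi
  have hcj : P.coeff j ≠ 0 := Polynomial.mem_support_iff.1 hj
  have hvx : A.valuation x ≠ 0 := (Valuation.ne_zero_iff _).2 hx
  have hvci : A.valuation (algebraMap K L (P.coeff i)) ≠ 0 :=
    (Valuation.ne_zero_iff _).2 (by simpa using hci)
  have hvcj : A.valuation (algebraMap K L (P.coeff j)) ≠ 0 :=
    (Valuation.ne_zero_iff _).2 (by simpa using hcj)
  simp only [hf, map_mul, map_pow] at hval
  -- general statement for `a < b`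
  have key : ∀ a b : ℕ, a < b → ∀ ca cb : K, ca ≠ 0 → cb ≠ 0 →
      A.valuation (algebraMap K L ca) * A.valuation x ^ a =
        A.valuation (algebraMap K L cb) * A.valuation x ^ b →
      ∃ n : ℕ, 0 < n ∧ ∃ c : K, c ≠ 0 ∧
        A.valuation (x ^ n) = A.valuation (algebraMap K L c) := by
    intro a b hab ca cb hca hcb h
    refine ⟨b - a, Nat.sub_pos_of_lt hab, ca / cb, div_ne_zero hca hcb, ?_⟩
    have hvcb : A.valuation (algebraMap K L cb) ≠ 0 :=
      (Valuation.ne_zero_iff _).2 (by simpa using hcb)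
    have hb : b = (b - a) + a := by omega
    rw [hb, pow_add] at h
    rw [map_pow, map_div₀, map_div₀]
    have hxa : A.valuation x ^ a ≠ 0 := pow_ne_zero _ hvx
    -- cancel `v x ^ a`
    have h2 : A.valuation (algebraMap K L ca) =
        A.valuation (algebraMap K L cb) * A.valuation x ^ (b - a) := by
      have h3 : A.valuation (algebraMap K L ca) * A.valuation x ^ a =
          (A.valuation (algebraMap K L cb) * A.valuation x ^ (b - a)) * A.valuation x ^ a := by
        rw [h, mul_assoc]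
      exact mul_right_cancel₀ hxa h3
    rw [h2, mul_div_assoc, mul_comm, div_mul_cancel₀]
    · exact hvcb
  rcases Nat.lt_or_gt_of_ne hij with h | h
  · exact key i j h _ _ hci hcj hval
  · exact key j i h _ _ hcj hci hval.symm

/-- **The decomposition group preserves the valuation** (for `L / K` algebraic). -/
theorem valuation_apply_of_mem_decomposition [Algebra.IsAlgebraic K L]
    {A : ValuationSubring L} {σ : L ≃ₐ[K] L}
    (hσ : σ ∈ A.decompositionSubgroup K) (x : L) :
    A.valuation (σ x) = A.valuation x := by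
  by_cases hx : x = 0
  · subst hx; simp
  obtain ⟨n, hn, c, hc, hval⟩ :=
    exists_pow_valuation_eq_algebraMap (K := K) A hx (Algebra.IsAlgebraic.isAlgebraic x)
  have hcL : algebraMap K L c ≠ 0 := by simpa using hc
  have hvc : A.valuation (algebraMap K L c) ≠ 0 := (Valuation.ne_zero_iff _).2 hcL
  -- `z := x ^ n / c` is a unit of `A`
  have hz : A.valuation (x ^ n / algebraMap K L c) = 1 := by
    rw [map_div₀, hval, div_self hvc]
  have hσz : A.valuation (σ (x ^ n / algebraMap K L c)) = 1 :=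
    (valuation_apply_eq_one_iff hσ _).2 hz
  rw [map_div₀, map_pow, AlgEquiv.commutes, map_div₀, div_eq_one_iff_eq hvc, ← hval] at hσz
  rw [map_pow, map_pow] at hσz
  exact pow_left_injective hn.ne' hσz

/-- **Inertia preserves the valuation** (for `L / K` algebraic). -/
theorem inertia_valuation_apply [Algebra.IsAlgebraic K L]
    {A : ValuationSubring L} {σ : L ≃ₐ[K] L}
    (hσ : σ ∈ A.inertiaSubgroupIn K) (x : L) :
    A.valuation (σ x) = A.valuation x :=
  valuation_apply_of_mem_decomposition (mem_decomposition_of_mem_inertiaIn hσ) x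

/-- For `σ` in the decomposition group and `x ≠ 0`, the quotient `σ x / x` is a unit of `A`. -/
theorem valuation_apply_div_self [Algebra.IsAlgebraic K L]
    {A : ValuationSubring L} {σ : L ≃ₐ[K] L}
    (hσ : σ ∈ A.decompositionSubgroup K) {x : L} (hx : x ≠ 0) :
    A.valuation (σ x / x) = 1 := by
  rw [map_div₀, valuation_apply_of_mem_decomposition hσ,
    div_self ((Valuation.ne_zero_iff _).2 hx)]

/-- If `x` has the valuation of a nonzero element of the base field, inertia moves `x` by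
something strictly smaller: `v (σ x - x) < v x`. -/
theorem inertia_valuation_apply_sub_lt {A : ValuationSubring L} {σ : L ≃ₐ[K] L}
    (hσ : σ ∈ A.inertiaSubgroupIn K) {x : L} {c : K} (hc : c ≠ 0)
    (hxc : A.valuation x = A.valuation (algebraMap K L c)) :
    A.valuation (σ x - x) < A.valuation x := by
  have hcL : algebraMap K L c ≠ 0 := by simpa using hc
  have hvc : A.valuation (algebraMap K L c) ≠ 0 := (Valuation.ne_zero_iff _).2 hcL
  have hu : A.valuation (x / algebraMap K L c) = 1 := by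
    rw [map_div₀, hxc, div_self hvc]
  have huA : x / algebraMap K L c ∈ A := ((valuation_eq_one_iff_mem_not_mem A _).1 hu).1
  have h1 := inertia_apply_sub_mem_nonunits hσ huA
  rw [map_div₀, AlgEquiv.commutes, ← sub_div, ValuationSubring.mem_nonunits_iff, map_div₀,
    div_lt_one₀ (zero_lt_iff.mpr hvc)] at h1
  rw [hxc]
  exact h1

/-- Inertia moves a unit `u` of `A` by an element of `𝔪`; hence `σ u / u ∈ 1 + 𝔪`. -/
theorem inertia_apply_div_sub_one_mem_nonunits {A : ValuationSubring L} {σ : L ≃ₐ[K] L}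
    (hσ : σ ∈ A.inertiaSubgroupIn K) {u : L} (hu : A.valuation u = 1) :
    σ u / u - 1 ∈ A.nonunits := by
  have hu0 : u ≠ 0 := by
    rintro rfl
    simp at hu
  have huA : u ∈ A := ((valuation_eq_one_iff_mem_not_mem A _).1 hu).1
  have h1 := inertia_apply_sub_mem_nonunits hσ huA
  rw [ValuationSubring.mem_nonunits_iff] at h1 ⊢
  have : σ u / u - 1 = (σ u - u) / u := by field_simp
  rw [this, map_div₀, hu, div_one]
  exact h1

end Valuation

section Rat

/-- `ℚ̄ / ℚ` is algebraic, for ANY `ℚ`-algebra structure on `ℚ̄` (the frozen statements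
elaborate to `DivisionRing.toRatAlgebra`, for which instance search does not find this). -/
theorem isAlgebraic_rat_qbar_of (inst : Algebra ℚ (AlgebraicClosure ℚ)) :
    @Algebra.IsAlgebraic ℚ (AlgebraicClosure ℚ) _ _ inst := by
  have h : inst = AlgebraicClosure.instAlgebra ℚ := Subsingleton.elim _ _
  subst h
  infer_instance

/-- `ℚ̄ / ℚ` is algebraic (default instance of this file). -/
theorem isAlgebraic_rat_qbar : Algebra.IsAlgebraic ℚ (AlgebraicClosure ℚ) :=
  isAlgebraic_rat_qbar_of _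

/-- Combined form over `ℚ̄ / ℚ`, as requested for S05; generic in the `ℚ`-algebra instance. -/
theorem inertia_mem_iff [inst : Algebra ℚ (AlgebraicClosure ℚ)]
    {A : ValuationSubring (AlgebraicClosure ℚ)}
    {σ : AlgebraicClosure ℚ ≃ₐ[ℚ] AlgebraicClosure ℚ} (hσ : σ ∈ A.inertiaSubgroupIn ℚ) :
    (∀ x, x ∈ A ↔ σ x ∈ A) ∧ (∀ x ∈ A, σ x - x ∈ A.nonunits) ∧
      (∀ x, x ∈ A.nonunits ↔ σ x ∈ A.nonunits) ∧
      (∀ x, A.valuation (σ x) = A.valuation x) :=
  ⟨fun x => (inertia_apply_mem_iff hσ x).symm,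
    fun _ hx => inertia_apply_sub_mem_nonunits hσ hx,
    fun x => (inertia_apply_mem_nonunits_iff hσ x).symm,
    fun x => haveI := isAlgebraic_rat_qbar_of inst; inertia_valuation_apply hσ x⟩

end Rat

section Points

open WeierstrassCurve WeierstrassCurve.Affine WeierstrassCurve.Affine.Point

universe r s v

variable {R : Type r} {S : Type s} {K : Type v} [CommRing R] [CommRing S] [Field K]
  [DecidableEq K] {W' : Affine R} [Algebra R S] [Algebra R K] [Algebra S K]
  [IsScalarTower R S K]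

/-- The Galois action (prelude) on an affine point is coordinatewise. -/
theorem galois_smul_some (σ : K ≃ₐ[S] K) {x y : K} (h : (W'⁄K).Nonsingular x y) :
    σ • (Point.some x y h : (W'⁄K).Point) =
      Point.some (σ x) (σ y)
        ((W'.baseChange_nonsingular (f := σ.toAlgHom) σ.toAlgHom.injective x y).mpr h) :=
  rfl

/-- The Galois action (prelude) fixes the point at infinity. -/
theorem galois_smul_zero (σ : K ≃ₐ[S] K) : σ • (0 : (W'⁄K).Point) = 0 :=
  rfl

/-- A point is fixed by `σ` as soon as its coordinates are. -/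
theorem galois_smul_some_eq_self (σ : K ≃ₐ[S] K) {x y : K} (h : (W'⁄K).Nonsingular x y)
    (hx : σ x = x) (hy : σ y = y) :
    σ • (Point.some x y h : (W'⁄K).Point) = Point.some x y h := by
  rw [galois_smul_some]
  congr 1

end Points

end Fermat.Agent.S05


end ZBS05_001_0

/-! ### bundled: `Fermat.Agent.S31.Cyclo` -/
section ZBS05_001_1

/-!
# S31: roots of unity of order prime to the residue characteristic

For a valuation subring `A` of a field `L` and `M : ℕ` which is a unit of `A`: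

* `rootOfUnity_eq_of_sub_mem`: two `M`-th roots of unity which are congruent modulo the maximal
  ideal of `A` are equal;
* `frob_rootOfUnity`: a Frobenius `τ` at `A` (residue cardinality `ℓ`) maps an `M`-th root of unity
  `ζ` to `ζ ^ ℓ`;
* `inertia_rootOfUnity`: the inertia subgroup fixes the `M`-th roots of unity;
* `natCast_pow_not_mem_nonunits`: `pⁿ` is a unit at a valuation subring of `ℚ̄` over `q ≠ p`.
-/

set_option autoImplicit false

namespace Fermat.Agent.S31

section general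

variable {L : Type*} [Field L]

/-- a root of unity has valuation at most one -/
theorem rootOfUnity_mem (A : ValuationSubring L) {M : ℕ} (hM0 : M ≠ 0) {x : L}
    (hx : x ^ M = 1) : x ∈ A := by
  rcases A.mem_or_inv_mem x with h | h
  · exact h
  · have hx0 : x ≠ 0 := by
      rintro rfl
      rw [zero_pow hM0] at hx
      exact zero_ne_one hx
    have h1 : x = x⁻¹ ^ (M - 1) := by
      have : x * x ^ (M - 1) = 1 := by
        rw [← pow_succ', Nat.sub_add_cancel (Nat.pos_of_ne_zero hM0), hx]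
      rw [inv_pow]
      exact eq_inv_of_mul_eq_one_left this
    rw [h1]
    exact pow_mem h _

/-- Two `M`-th roots of unity which are congruent modulo the maximal ideal are equal, if `M` is
a unit of the valuation ring. -/
theorem rootOfUnity_eq_of_sub_mem (A : ValuationSubring L) {M : ℕ}
    (hM : (M : L) ∉ A.nonunits) (hM0 : M ≠ 0) {x y : L} (hx : x ^ M = 1) (hy : y ^ M = 1)
    (hxy : x - y ∈ A.nonunits) : x = y := by
  by_contra hne
  have hy0 : y ≠ 0 := by
    rintro rfl
    rw [zero_pow hM0] at hy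
    exact zero_ne_one hy
  set η : L := x * y⁻¹ with hη
  have hηM : η ^ M = 1 := by
    rw [hη, mul_pow, inv_pow, hx, hy, inv_one, mul_one]
  have hη1 : η ≠ 1 := by
    intro h
    apply hne
    have := congrArg (· * y) h
    simpa [hη, hy0] using this
  have hηA : η ∈ A := rootOfUnity_mem A hM0 hηM
  have hyinvA : y⁻¹ ∈ A := by
    apply rootOfUnity_mem A hM0
    rw [inv_pow, hy, inv_one]
  -- `η - 1` is in the maximal ideal
  have hsub : η - 1 ∈ A.nonunits := by
    have e : η - 1 = y⁻¹ * (x - y) := by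
      rw [hη]; field_simp
    rw [e, A.mem_nonunits_iff, map_mul]
    have h1 : A.valuation y⁻¹ ≤ 1 := (A.valuation_le_one_iff _).mpr hyinvA
    have h2 : A.valuation (x - y) < 1 := A.mem_nonunits_iff.mp hxy
    calc A.valuation y⁻¹ * A.valuation (x - y) ≤ 1 * A.valuation (x - y) :=
          mul_le_mul_left h1 _
      _ = A.valuation (x - y) := one_mul _
      _ < 1 := h2
  -- the geometric sum vanishes
  have hgeom : ∑ i ∈ Finset.range M, η ^ i = 0 := by
    have := mul_geom_sum η M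
    rw [hηM, sub_self] at this
    rcases mul_eq_zero.mp this with h | h
    · exact absurd (sub_eq_zero.mp h) hη1
    · exact h
  -- hence `M` is in the maximal ideal
  apply hM
  have hMsum : (M : L) = ∑ i ∈ Finset.range M, (1 - η ^ i) := by
    rw [Finset.sum_sub_distrib, hgeom, sub_zero, Finset.sum_const, Finset.card_range,
      nsmul_eq_mul, mul_one]
  rw [hMsum, A.mem_nonunits_iff]
  apply Valuation.map_sum_lt _ one_ne_zero
  intro i _
  have e : 1 - η ^ i = (1 - η) * ∑ j ∈ Finset.range i, η ^ j := (mul_neg_geom_sum η i).symm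
  rw [e, map_mul]
  have h1 : A.valuation (1 - η) < 1 := by
    have : 1 - η = -(η - 1) := by ring
    rw [this, Valuation.map_neg]
    exact A.mem_nonunits_iff.mp hsub
  have h2 : A.valuation (∑ j ∈ Finset.range i, η ^ j) ≤ 1 := by
    apply Valuation.map_sum_le
    intro j _
    exact (A.valuation_le_one_iff _).mpr (pow_mem hηA j)
  calc A.valuation (1 - η) * A.valuation (∑ j ∈ Finset.range i, η ^ j)
      ≤ A.valuation (1 - η) * 1 := mul_le_mul_right h2 _
    _ = A.valuation (1 - η) := mul_one _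
    _ < 1 := h1

variable {K : Type*} [Field K] [Algebra K L]

/-- A Frobenius at `A` raises the roots of unity of order prime to the residue characteristic to
the `ℓ`-th power. -/
theorem frob_rootOfUnity (A : ValuationSubring L) {M : ℕ} (hM : (M : L) ∉ A.nonunits)
    (hM0 : M ≠ 0) {τ : L ≃ₐ[K] L} {ℓ : ℕ} (hτ : A.IsFrobeniusAt τ ℓ) {ζ : L} (hζ : ζ ^ M = 1) :
    τ ζ = ζ ^ ℓ := by
  have hζA : ζ ∈ A := rootOfUnity_mem A hM0 hζ
  apply rootOfUnity_eq_of_sub_mem A hM hM0
  · rw [← map_pow, hζ, map_one]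
  · rw [← pow_mul, mul_comm, pow_mul, hζ, one_pow]
  · have hmem := hτ.mem_decompositionSubgroup
    set z : A := ⟨ζ, hζA⟩ with hz
    have e2 := hτ.smul_residue_eq (IsLocalRing.residue A z)
    rw [← IsLocalRing.ResidueField.residue_smul, ← map_pow, ← sub_eq_zero, ← map_sub,
      IsLocalRing.residue_eq_zero_iff, ← ValuationSubring.coe_mem_nonunits_iff] at e2
    exact e2

/-- The inertia subgroup fixes the roots of unity of order prime to the residue characteristic. -/
theorem inertia_rootOfUnity (A : ValuationSubring L) {M : ℕ} (hM : (M : L) ∉ A.nonunits)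
    (hM0 : M ≠ 0) {σ : L ≃ₐ[K] L} (hσ : σ ∈ A.inertiaSubgroupIn K) {ζ : L} (hζ : ζ ^ M = 1) :
    σ ζ = ζ := by
  have hζA : ζ ∈ A := rootOfUnity_mem A hM0 hζ
  apply rootOfUnity_eq_of_sub_mem A hM hM0
  · rw [← map_pow, hζ, map_one]
  · exact hζ
  · exact Fermat.Agent.S05.inertia_apply_sub_mem_nonunits hσ hζA

/-- the powers of a Frobenius on roots of unity -/
theorem frob_pow_rootOfUnity (A : ValuationSubring L) {M : ℕ} (hM : (M : L) ∉ A.nonunits)
    (hM0 : M ≠ 0) {τ : L ≃ₐ[K] L} {ℓ : ℕ} (hτ : A.IsFrobeniusAt τ ℓ) {ζ : L} (hζ : ζ ^ M = 1)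
    (m : ℕ) : (τ ^ m) ζ = ζ ^ (ℓ ^ m) := by
  induction m with
  | zero => simp
  | succ m ih =>
    rw [pow_succ', AlgEquiv.mul_apply, ih, map_pow, frob_rootOfUnity A hM hM0 hτ hζ, ← pow_mul,
      pow_succ']

end general

/-- `pⁿ` is a unit at a valuation subring over a prime `q ≠ p`. -/
theorem natCast_pow_not_mem_nonunits {L : Type*} [Field L] (A : ValuationSubring L) {p q : ℕ}
    (hp : p.Prime) (hq : q.Prime) (hqp : q ≠ p) (hA : A.LiesOverPrime q) (n : ℕ) :
    ((p ^ n : ℕ) : L) ∉ A.nonunits := by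
  intro h
  have hcop : Nat.Coprime (p ^ n) q :=
    Nat.Coprime.pow_left n ((Nat.coprime_primes hp hq).mpr (Ne.symm hqp))
  obtain ⟨u, v, huv⟩ := Nat.Coprime.isCoprime hcop
  have h1 : ((u : L) * ((p ^ n : ℕ) : L) + (v : L) * (q : L)) = 1 := by
    have := congrArg (fun z : ℤ => (z : L)) huv
    simpa using this
  have hu : (u : L) ∈ A := intCast_mem A u
  have hv : (v : L) ∈ A := intCast_mem A v
  have h2 : A.valuation ((u : L) * ((p ^ n : ℕ) : L) + (v : L) * (q : L)) < 1 := by
    apply Valuation.map_add_lt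
    · rw [map_mul]
      calc A.valuation (u : L) * A.valuation ((p ^ n : ℕ) : L)
          ≤ 1 * A.valuation ((p ^ n : ℕ) : L) :=
            mul_le_mul_left ((A.valuation_le_one_iff _).mpr hu) _
        _ = A.valuation ((p ^ n : ℕ) : L) := one_mul _
        _ < 1 := A.mem_nonunits_iff.mp h
    · rw [map_mul]
      calc A.valuation (v : L) * A.valuation (q : L)
          ≤ 1 * A.valuation (q : L) :=
            mul_le_mul_left ((A.valuation_le_one_iff _).mpr hv) _
        _ = A.valuation (q : L) := one_mul _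
        _ < 1 := A.mem_nonunits_iff.mp hA
  rw [h1, map_one] at h2
  exact lt_irrefl _ h2

end Fermat.Agent.S31


end ZBS05_001_1

/-! ### bundled: `Fermat.Agent.S42.FreyField` -/
section ZBS05_001_2

/-!
# S42 piece [EC-1] (helper63): the mod-`p` representation of a Frey curve has finite level

If `E[p](ℚ̄)` is finite (S13 `StmtCard`), the field generated by the coordinates of the
`p`-torsion points is a finite extension of `ℚ`, and every `σ` fixing it acts trivially.
-/

set_option autoImplicit false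

namespace Fermat.Agent.S42

open WeierstrassCurve WeierstrassCurve.Affine WeierstrassCurve.Affine.Point
open Fermat.Agent.ES

/-- the coordinates of a point (`∅` for the point at infinity) -/
noncomputable def freyField_coords {W : WeierstrassCurve (AlgebraicClosure ℚ)} :
    W.toAffine.Point → Set (AlgebraicClosure ℚ)
  | .zero => ∅
  | .some x y _ => {x, y}

lemma freyField_coords_finite {W : WeierstrassCurve (AlgebraicClosure ℚ)}
    (P : W.toAffine.Point) : (freyField_coords P).Finite := by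
  cases P with
  | zero => exact Set.finite_empty
  | some x y h =>
    show ({x, y} : Set (AlgebraicClosure ℚ)).Finite
    exact Set.toFinite _

/-- General form: a finite torsion module of a curve over `ℚ` has finite level. -/
theorem finite_level_of_finite_torsion (W : WeierstrassCurve ℚ) (n : ℕ)
    (hfin : Finite (Submodule.torsionBy ℤ (W⁄(AlgebraicClosure ℚ)).Point n)) :
    ∃ E : IntermediateField ℚ (AlgebraicClosure ℚ), FiniteDimensional ℚ E ∧
      ∀ σ : GQ, FixesField E σ →
        ∀ x : Submodule.torsionBy ℤ (W⁄(AlgebraicClosure ℚ)).Point n, σ • x = x := by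
  classical
  set T := Submodule.torsionBy ℤ (W⁄(AlgebraicClosure ℚ)).Point n with hT
  let S : Set (AlgebraicClosure ℚ) := ⋃ x : T, freyField_coords (x : (W⁄(AlgebraicClosure ℚ)).Point)
  have hS : S.Finite := Set.finite_iUnion fun x => freyField_coords_finite _
  have hSf : Finite S := hS.to_subtype
  have halg := Fermat.Agent.S05.isAlgebraic_rat_qbar_of inferInstance
  refine ⟨IntermediateField.adjoin ℚ S, ?_, ?_⟩
  · exact IntermediateField.finiteDimensional_adjoin
      (fun x _ => (halg.isAlgebraic x).isIntegral)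
  · intro σ hσ x
    apply Subtype.ext
    show σ • (x : (W⁄(AlgebraicClosure ℚ)).Point) = x
    have hmem : ∀ z ∈ freyField_coords (x : (W⁄(AlgebraicClosure ℚ)).Point), σ z = z := by
      intro z hz
      apply hσ
      apply IntermediateField.subset_adjoin
      exact Set.mem_iUnion.mpr ⟨x, hz⟩
    generalize (x : (W⁄(AlgebraicClosure ℚ)).Point) = Q at hmem
    cases Q with
    | zero => rfl
    | some a b h =>
      exact Fermat.Agent.S05.galois_smul_some_eq_self σ h
        (hmem a (by simp [freyField_coords])) (hmem b (by simp [freyField_coords]))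

/-- [EC-1] from finiteness of `E[p](ℚ̄)`. -/
theorem stmtFreyField_of_finite
    (hfin : ∀ P : FreyPackage, Finite (Fermat.Agent.S13.Tors P)) : StmtFreyField := by
  intro P
  obtain ⟨E, hE, h⟩ := finite_level_of_finite_torsion P.freyCurve P.p (hfin P)
  refine ⟨E, hE, fun σ hσ => ?_⟩
  apply LinearMap.ext
  intro x
  exact h σ hσ x

/-- [EC-1] from S13's `StmtCard`. -/
theorem stmtFreyField_of_card (hcard : Fermat.Agent.S13.StmtCard) : StmtFreyField :=
  stmtFreyField_of_finite fun P => (hcard P).1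

end Fermat.Agent.S42


end ZBS05_001_2

/-! ### bundled: `Fermat.Agent.S31.Kills` -/
section ZBS05_001_3

/-!
# S31: the difference of the two Lucas polynomials kills `J[pⁿ]`

Let `g ∈ G_ℚ`, `σ` in an inertia group at `q ∤ N p`, and suppose that on a field `F` containing a
field of definition of `J[pⁿ]` and `μ_{pⁿ}` one has `g = τᵐ`, `σ g = τ'ᵐ'` for Frobenius elements
`τ`, `τ'` at `ℓ, ℓ' ∤ N p`. Then `s_m(T_ℓ, ℓ) − s_{m'}(T_ℓ', ℓ')` kills `J[pⁿ]`.
-/

set_option autoImplicit false

namespace Fermat.Agent.S31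

open ModularCurve Fermat.Agent.ES

variable {N p : ℕ} {J : Type} [AddCommGroup J] [Module HeckeAlg J] [DistribMulAction GQ J]

omit [Module HeckeAlg J] in
/-- the `pⁿ`-torsion is Galois stable -/
theorem torsion_smul (n : ℕ) (g : GQ) {x : J} (hx : p ^ n • x = 0) : p ^ n • (g • x) = 0 := by
  rw [smul_comm, hx, smul_zero]

/-- `g + ℓᵐ g⁻¹ = s_m(T_ℓ, ℓ)` on `J[pⁿ]` if `g = τᵐ` on a field of definition of `J[pⁿ]`,
`τ` a Frobenius at `ℓ ∤ N p`. -/
theorem lucas_galois (hJ : ESDataInf N p J) (n : ℕ)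
    (F : IntermediateField ℚ (AlgebraicClosure ℚ))
    (hF : ∀ σ : GQ, (∀ a ∈ F, σ a = a) → ∀ x : J, p ^ n • x = 0 → σ • x = x)
    {ℓ : ℕ} (hℓ : ℓ.Prime) (hℓNp : ¬ ℓ ∣ N * p)
    {A : ValuationSubring (AlgebraicClosure ℚ)} (hA : A.LiesOverPrime ℓ)
    {τ : GQ} (hτ : A.IsFrobeniusAt τ ℓ) (m : ℕ) (g : GQ) (hg : ∀ a ∈ F, (τ ^ m) a = g a)
    {x : J} (hx : p ^ n • x = 0) :
    g • x + (ℓ ^ m) • (g⁻¹ • x) = lucasS (heckeGen ⟨ℓ, hℓ⟩) (ℓ : HeckeAlg) m • x := by
  have hES : ∀ y : J, p ^ n • y = 0 →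
      τ • τ • y - heckeGen ⟨ℓ, hℓ⟩ • (τ • y) + (ℓ : HeckeAlg) • y = 0 := by
    intro y hy
    rw [Nat.cast_smul_eq_nsmul]
    exact hJ.frob ℓ hℓ hℓNp A hA τ hτ y ⟨n, hy⟩
  have hL := lucas_smul (G := GQ) τ (heckeGen ⟨ℓ, hℓ⟩) (ℓ : HeckeAlg) (fun y : J => p ^ n • y = 0)
    (fun g y hy => torsion_smul n g hy) hES x hx m
  -- `u = (τ ^ m)⁻¹ * g` fixes `F`
  set u : GQ := (τ ^ m)⁻¹ * g with hu
  have huF : ∀ a ∈ F, u a = a := by
    intro a ha
    rw [hu, AlgEquiv.mul_apply, ← hg a ha, ← AlgEquiv.mul_apply, inv_mul_cancel, AlgEquiv.one_apply]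
  have hux : ∀ y : J, p ^ n • y = 0 → u • y = y := hF u huF
  have e1 : (τ ^ m) • x = g • x := by
    have : g = τ ^ m * u := by rw [hu, mul_inv_cancel_left]
    rw [this, mul_smul, hux x hx]
  have e2 : (τ⁻¹) ^ m • x = g⁻¹ • x := by
    have : (τ⁻¹) ^ m = u * g⁻¹ := by rw [hu, inv_pow, mul_assoc, mul_inv_cancel, mul_one]
    rw [this, mul_smul, hux _ (torsion_smul n g⁻¹ hx)]
  rw [e1, e2, ← Nat.cast_pow, Nat.cast_smul_eq_nsmul] at hL
  exact hL

/-- the cyclotomic congruence `ℓᵐ ≡ ℓ'ᵐ' mod pⁿ` -/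
theorem cyclo_congr (hp : p.Prime) (n : ℕ) {ζ : AlgebraicClosure ℚ} (hζ : IsPrimitiveRoot ζ (p ^ n))
    (F : IntermediateField ℚ (AlgebraicClosure ℚ)) (hζF : ζ ∈ F)
    {q : ℕ} (hq : q.Prime) (hqp : q ≠ p) {P : ValuationSubring (AlgebraicClosure ℚ)}
    (hP : P.LiesOverPrime q) {σ : GQ} (hσ : σ ∈ P.inertiaSubgroupIn ℚ) (g : GQ)
    {ℓ : ℕ} (hℓ : ℓ.Prime) (hℓp : ℓ ≠ p)
    {A : ValuationSubring (AlgebraicClosure ℚ)} (hA : A.LiesOverPrime ℓ)
    {τ : GQ} (hτ : A.IsFrobeniusAt τ ℓ) (m : ℕ) (hg : ∀ a ∈ F, (τ ^ m) a = g a)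
    {ℓ' : ℕ} (hℓ' : ℓ'.Prime) (hℓ'p : ℓ' ≠ p)
    {A' : ValuationSubring (AlgebraicClosure ℚ)} (hA' : A'.LiesOverPrime ℓ')
    {τ' : GQ} (hτ' : A'.IsFrobeniusAt τ' ℓ') (m' : ℕ) (hg' : ∀ a ∈ F, (τ' ^ m') a = (σ * g) a) :
    ℓ ^ m ≡ ℓ' ^ m' [MOD p ^ n] := by
  have hM0 : p ^ n ≠ 0 := pow_ne_zero n hp.ne_zero
  have hζ1 : ζ ^ (p ^ n) = 1 := hζ.pow_eq_one
  have h1 : (τ ^ m) ζ = ζ ^ (ℓ ^ m) :=
    frob_pow_rootOfUnity A (natCast_pow_not_mem_nonunits A hp hℓ hℓp hA n) hM0 hτ hζ1 m
  have h2 : (τ' ^ m') ζ = ζ ^ (ℓ' ^ m') :=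
    frob_pow_rootOfUnity A' (natCast_pow_not_mem_nonunits A' hp hℓ' hℓ'p hA' n) hM0 hτ' hζ1 m'
  have h3 : g ζ = ζ ^ (ℓ ^ m) := by rw [← hg ζ hζF, h1]
  have h4 : σ (g ζ) = g ζ := by
    apply inertia_rootOfUnity P (natCast_pow_not_mem_nonunits P hp hq hqp hP n) hM0 hσ
    rw [← map_pow, hζ1, map_one]
  have h5 : ζ ^ (ℓ' ^ m') = ζ ^ (ℓ ^ m) := by
    rw [← h2, hg' ζ hζF, AlgEquiv.mul_apply, h4, h3]
  have h6 := (hζ.isOfFinOrder hM0).pow_eq_pow_iff_modEq.mp h5
  rw [← hζ.eq_orderOf] at h6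
  exact h6.symm

/-- **The difference of the two Lucas polynomials kills `J[pⁿ]`.** -/
theorem lucas_diff_kills (hJ : ESDataInf N p J) (hp : p.Prime) (n : ℕ)
    {ζ : AlgebraicClosure ℚ} (hζ : IsPrimitiveRoot ζ (p ^ n))
    (F : IntermediateField ℚ (AlgebraicClosure ℚ)) (hζF : ζ ∈ F)
    (hF : ∀ σ : GQ, (∀ a ∈ F, σ a = a) → ∀ x : J, p ^ n • x = 0 → σ • x = x)
    {q : ℕ} (hq : q.Prime) (hqNp : ¬ q ∣ N * p) {P : ValuationSubring (AlgebraicClosure ℚ)}
    (hP : P.LiesOverPrime q) {σ : GQ} (hσ : σ ∈ P.inertiaSubgroupIn ℚ) (g : GQ)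
    {ℓ : ℕ} (hℓ : ℓ.Prime) (hℓNp : ¬ ℓ ∣ N * p)
    {A : ValuationSubring (AlgebraicClosure ℚ)} (hA : A.LiesOverPrime ℓ)
    {τ : GQ} (hτ : A.IsFrobeniusAt τ ℓ) (m : ℕ) (hg : ∀ a ∈ F, (τ ^ m) a = g a)
    {ℓ' : ℕ} (hℓ' : ℓ'.Prime) (hℓ'Np : ¬ ℓ' ∣ N * p)
    {A' : ValuationSubring (AlgebraicClosure ℚ)} (hA' : A'.LiesOverPrime ℓ')
    {τ' : GQ} (hτ' : A'.IsFrobeniusAt τ' ℓ') (m' : ℕ) (hg' : ∀ a ∈ F, (τ' ^ m') a = (σ * g) a)
    (x : J) (hx : p ^ n • x = 0) :
    (lucasS (heckeGen ⟨ℓ, hℓ⟩) (ℓ : HeckeAlg) m -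
      lucasS (heckeGen ⟨ℓ', hℓ'⟩) (ℓ' : HeckeAlg) m') • x = 0 := by
  have hne : ∀ {r : ℕ}, ¬ r ∣ N * p → r ≠ p := by
    rintro r hr rfl
    exact hr (dvd_mul_left _ _)
  have hσx : ∀ y : J, p ^ n • y = 0 → σ • y = y := fun y hy =>
    hJ.unram q hq hqNp P hP σ hσ y ⟨n, hy⟩
  have hσinv : ∀ y : J, p ^ n • y = 0 → σ⁻¹ • y = y := fun y hy =>
    hJ.unram q hq hqNp P hP σ⁻¹ (Subgroup.inv_mem _ hσ) y ⟨n, hy⟩
  have h1 := lucas_galois hJ n F hF hℓ hℓNp hA hτ m g hg hx
  have h2 := lucas_galois hJ n F hF hℓ' hℓ'Np hA' hτ' m' (σ * g) hg' hx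
  rw [mul_smul, hσx _ (torsion_smul n g hx), mul_inv_rev, mul_smul, hσinv x hx] at h2
  have hc := cyclo_congr hp n hζ F hζF hq (hne hqNp) hP hσ g hℓ (hne hℓNp) hA hτ m hg
    hℓ' (hne hℓ'Np) hA' hτ' m' hg'
  have h3 : (ℓ ^ m) • (g⁻¹ • x) = (ℓ' ^ m') • (g⁻¹ • x) :=
    nsmul_eq_of_modEq hc (torsion_smul n g⁻¹ hx)
  rw [sub_smul, ← h1, ← h2, h3, sub_self]

end Fermat.Agent.S31


end ZBS05_001_3

/-! ### bundled: `Fermat.Agent.S14.ValGalois` -/
section ZBS05_001_4

/-!
# S14, shared valuation tools T1 and T2 (Galois side)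

For an intermediate field `F` of `ℚ̄ / ℚ` and valuation subrings of `ℚ̄`:

* `Fermat.Agent.S14.exists_fixing_smul_eq` (T1): `Gal(ℚ̄/F)` acts transitively on the valuation
  subrings of `ℚ̄` with a given trace on `F`;
* `Fermat.Agent.S14.exists_inertia_agree` (T2): an element of the decomposition group of `A`
  which maps `F` into `F` and acts trivially on the residue field of `A ∩ F` agrees on `F` with
  an element of the inertia group of `A`.
-/

set_option autoImplicit false
set_option linter.style.haveILetI false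

open scoped Pointwise

namespace Fermat.Agent.S14

section Split

variable {L : Type*} [Field L]

/-- Splitting a polynomial relation at the index `s`. -/
theorem valGalois_split (c : ℕ → L) (n s : ℕ) (hs : s ≤ n) (x : L) (hx : x ≠ 0)
    (h0 : ∑ i ∈ Finset.range (n + 1), c i * x ^ i = 0) :
    (∑ j ∈ Finset.range (n + 1 - s), c (s + j) * x ^ j =
        -∑ i ∈ Finset.range s, c i * x⁻¹ ^ (s - i)) ∧
    (x * ∑ j ∈ Finset.range (n + 1 - s), c (s + j) * x ^ j =
        -∑ i ∈ Finset.range s, c i * x⁻¹ ^ (s - i - 1)) := by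
  have hn : n + 1 = s + (n + 1 - s) := by omega
  rw [hn, Finset.sum_range_add] at h0
  have h1 : ∑ j ∈ Finset.range (n + 1 - s), c (s + j) * x ^ (s + j) =
      x ^ s * ∑ j ∈ Finset.range (n + 1 - s), c (s + j) * x ^ j := by
    rw [Finset.mul_sum]
    refine Finset.sum_congr rfl fun j _ => ?_
    rw [pow_add]; ring
  rw [h1] at h0
  have hxs : x ^ s ≠ 0 := pow_ne_zero _ hx
  have h2 : ∑ j ∈ Finset.range (n + 1 - s), c (s + j) * x ^ j =
      -((∑ i ∈ Finset.range s, c i * x ^ i) * (x ^ s)⁻¹) := by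
    have : x ^ s * ∑ j ∈ Finset.range (n + 1 - s), c (s + j) * x ^ j =
        -∑ i ∈ Finset.range s, c i * x ^ i := by
      linear_combination h0
    field_simp
    linear_combination this
  have h3 : (∑ i ∈ Finset.range s, c i * x ^ i) * (x ^ s)⁻¹ =
      ∑ i ∈ Finset.range s, c i * x⁻¹ ^ (s - i) := by
    rw [Finset.sum_mul]
    refine Finset.sum_congr rfl fun i hi => ?_
    have his : i < s := Finset.mem_range.mp hi
    have e : s = i + (s - i) := by omega
    have : x ^ s = x ^ i * x ^ (s - i) := by rw [← pow_add, ← e]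
    rw [this, inv_pow]
    have hxi : x ^ i ≠ 0 := pow_ne_zero _ hx
    have hxsi : x ^ (s - i) ≠ 0 := pow_ne_zero _ hx
    field_simp
  refine ⟨by rw [h2, h3], ?_⟩
  rw [h2, h3, mul_neg, Finset.mul_sum]
  congr 1
  refine Finset.sum_congr rfl fun i hi => ?_
  have his : i < s := Finset.mem_range.mp hi
  have e : s - i = (s - i - 1) + 1 := by omega
  rw [e, pow_succ]
  have : s - i - 1 + 1 - 1 = s - i - 1 := by omega
  rw [this]
  field_simp

end Split

section Trace

/-- The intersection of all valuation subrings of `ℚ̄` containing `A ∩ F`. -/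
def traceSubring (F : IntermediateField ℚ (AlgebraicClosure ℚ))
    (A : ValuationSubring (AlgebraicClosure ℚ)) : Subring (AlgebraicClosure ℚ) where
  carrier := {b | ∀ V : ValuationSubring (AlgebraicClosure ℚ),
    (∀ z ∈ F, z ∈ A → z ∈ V) → b ∈ V}
  mul_mem' := fun ha hb V hV => V.mul_mem _ _ (ha V hV) (hb V hV)
  one_mem' := fun V _ => V.one_mem
  add_mem' := fun ha hb V hV => V.add_mem _ _ (ha V hV) (hb V hV)
  zero_mem' := fun V _ => V.zero_mem
  neg_mem' := fun ha V hV => V.neg_mem _ (ha V hV)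

theorem mem_traceSubring {F : IntermediateField ℚ (AlgebraicClosure ℚ)}
    {A : ValuationSubring (AlgebraicClosure ℚ)} {b : AlgebraicClosure ℚ} :
    b ∈ traceSubring F A ↔ ∀ V : ValuationSubring (AlgebraicClosure ℚ),
      (∀ z ∈ F, z ∈ A → z ∈ V) → b ∈ V :=
  Iff.rfl

theorem traceSubring_le (F : IntermediateField ℚ (AlgebraicClosure ℚ))
    (A : ValuationSubring (AlgebraicClosure ℚ)) : traceSubring F A ≤ A.toSubring :=
  fun _ hb => hb A fun _ _ h => h

/-- **Localisation lemma**: every element of `A` is a quotient `u / y` of elements of the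
trace subring with `y` a unit of `A`. -/
theorem exists_mul_eq_of_mem (F : IntermediateField ℚ (AlgebraicClosure ℚ))
    (A : ValuationSubring (AlgebraicClosure ℚ)) {x : AlgebraicClosure ℚ} (hx : x ∈ A) :
    ∃ u y : AlgebraicClosure ℚ, x * y = u ∧ A.valuation y = 1 ∧
      u ∈ traceSubring F A ∧ y ∈ traceSubring F A := by
  classical
  by_cases hx0 : x = 0
  · exact ⟨0, 1, by simp [hx0], map_one _, Subring.zero_mem _, Subring.one_mem _⟩
  haveI := Fermat.Agent.Common.isAlgClosure_rat_qbar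
  have halg : IsIntegral ℚ x := (IsAlgClosure.isAlgebraic.isAlgebraic x).isIntegral
  have hp0 : minpoly ℚ x ≠ 0 := minpoly.ne_zero halg
  obtain ⟨n, hn⟩ : ∃ n, n = (minpoly ℚ x).natDegree := ⟨_, rfl⟩
  obtain ⟨a, ha⟩ : ∃ a : ℕ → AlgebraicClosure ℚ,
      a = fun i => algebraMap ℚ (AlgebraicClosure ℚ) ((minpoly ℚ x).coeff i) := ⟨_, rfl⟩
  have haF : ∀ i, a i ∈ F := fun i => by rw [ha]; exact F.algebraMap_mem _
  have hsum : ∑ i ∈ Finset.range (n + 1), a i * x ^ i = 0 := by
    have h := minpoly.aeval ℚ x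
    rw [Polynomial.aeval_eq_sum_range] at h
    rw [ha, hn]
    simpa [Algebra.smul_def] using h
  have han : a n ≠ 0 := by
    rw [ha, hn]
    simpa using hp0
  -- maximal valuation of a coefficient
  obtain ⟨j, hj, hjmax⟩ := Finset.exists_max_image (Finset.range (n + 1))
    (fun i => A.valuation (a i)) ⟨0, by simp⟩
  obtain ⟨T, hTdef⟩ : ∃ T : Finset ℕ, T = (Finset.range (n + 1)).filter
      (fun i => A.valuation (a i) = A.valuation (a j)) := ⟨_, rfl⟩
  have hT : T.Nonempty := ⟨j, by rw [hTdef]; simp [Finset.mem_range.mp hj]⟩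
  obtain ⟨s, hs⟩ : ∃ s, s = T.max' hT := ⟨_, rfl⟩
  have hsT : s ∈ T := by rw [hs]; exact Finset.max'_mem _ _
  have hsT' := hsT
  rw [hTdef, Finset.mem_filter, Finset.mem_range] at hsT'
  obtain ⟨hsn, hvs⟩ := hsT'
  have hs_le : s ≤ n := by omega
  have hmax : ∀ i, i ≤ n → A.valuation (a i) ≤ A.valuation (a s) := by
    intro i hi
    rw [hvs]
    exact hjmax i (Finset.mem_range.mpr (by omega))
  have hlt : ∀ i, s < i → i ≤ n → A.valuation (a i) < A.valuation (a s) := by
    intro i hsi hi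
    refine lt_of_le_of_ne (hmax i hi) fun heq => ?_
    have hiT : i ∈ T := by
      rw [hTdef, Finset.mem_filter, Finset.mem_range]
      exact ⟨by omega, by rw [heq, hvs]⟩
    have := Finset.le_max' T i hiT
    rw [← hs] at this
    omega
  have hvs0 : A.valuation (a s) ≠ 0 := by
    have h1 := hmax n le_rfl
    have h2 : A.valuation (a n) ≠ 0 := (Valuation.ne_zero_iff _).2 han
    intro h
    rw [h] at h1
    exact h2 (le_antisymm h1 zero_le)
  have has0 : a s ≠ 0 := (Valuation.ne_zero_iff _).1 hvs0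
  -- normalised coefficients
  obtain ⟨c, hc⟩ : ∃ c : ℕ → AlgebraicClosure ℚ, c = fun i => a i / a s := ⟨_, rfl⟩
  have hcF : ∀ i, c i ∈ F := fun i => by rw [hc]; exact F.div_mem (haF i) (haF s)
  have hcs : c s = 1 := by rw [hc]; exact div_self has0
  have hcle : ∀ i, i ≤ n → A.valuation (c i) ≤ 1 := by
    intro i hi
    rw [hc]
    simp only [map_div₀]
    exact (div_le_one₀ (zero_lt_iff.mpr hvs0)).mpr (hmax i hi)
  have hclt : ∀ i, s < i → i ≤ n → A.valuation (c i) < 1 := by
    intro i hsi hi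
    rw [hc]
    simp only [map_div₀]
    exact (div_lt_one₀ (zero_lt_iff.mpr hvs0)).mpr (hlt i hsi hi)
  have hcA : ∀ i, i ≤ n → c i ∈ A := fun i hi =>
    (A.valuation_le_one_iff _).mp (hcle i hi)
  have hcsum : ∑ i ∈ Finset.range (n + 1), c i * x ^ i = 0 := by
    have : ∑ i ∈ Finset.range (n + 1), c i * x ^ i =
        (∑ i ∈ Finset.range (n + 1), a i * x ^ i) * (a s)⁻¹ := by
      rw [Finset.sum_mul]
      refine Finset.sum_congr rfl fun i _ => ?_
      rw [hc]; ring
    rw [this, hsum, zero_mul]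
  obtain ⟨hy1, hy2⟩ := valGalois_split c n s hs_le x hx0 hcsum
  obtain ⟨y, hy⟩ : ∃ y, y = ∑ j ∈ Finset.range (n + 1 - s), c (s + j) * x ^ j := ⟨_, rfl⟩
  rw [← hy] at hy1 hy2
  have hvx : A.valuation x ≤ 1 := (A.valuation_le_one_iff _).mpr hx
  -- `y` is a unit of `A`
  have hyv : A.valuation y = 1 := by
    have e : n + 1 - s = (n - s) + 1 := by omega
    rw [e, Finset.sum_range_succ'] at hy
    simp only [add_zero, pow_zero, mul_one, hcs] at hy
    have hlt1 : A.valuation (∑ k ∈ Finset.range (n - s), c (s + (k + 1)) * x ^ (k + 1)) < 1 := by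
      refine Valuation.map_sum_lt _ one_ne_zero fun k hk => ?_
      have hk' : k < n - s := Finset.mem_range.mp hk
      rw [map_mul, map_pow]
      have h1 : A.valuation (c (s + (k + 1))) < 1 := hclt _ (by omega) (by omega)
      have h2 : A.valuation x ^ (k + 1) ≤ 1 := pow_le_one₀ zero_le hvx
      calc A.valuation (c (s + (k + 1))) * A.valuation x ^ (k + 1)
          ≤ A.valuation (c (s + (k + 1))) * 1 := by gcongr
        _ < 1 := by rw [mul_one]; exact h1
    rw [hy, add_comm]
    exact Valuation.map_one_add_of_lt _ hlt1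
  refine ⟨x * y, y, rfl, hyv, ?_, ?_⟩
  · intro V hV
    by_cases hxV : x ∈ V
    · refine V.mul_mem _ _ hxV ?_
      rw [hy]
      refine Subring.sum_mem V.toSubring fun k hk => ?_
      have hk' : k < n + 1 - s := Finset.mem_range.mp hk
      exact V.mul_mem _ _ (hV _ (hcF _) (hcA _ (by omega))) (pow_mem hxV _)
    · have hxi : x⁻¹ ∈ V := (V.mem_or_inv_mem x).resolve_left hxV
      rw [hy2]
      refine V.neg_mem _ (Subring.sum_mem V.toSubring fun i hi => ?_)
      have hi' : i < s := Finset.mem_range.mp hi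
      exact V.mul_mem _ _ (hV _ (hcF _) (hcA _ (by omega))) (pow_mem hxi _)
  · intro V hV
    by_cases hxV : x ∈ V
    · rw [hy]
      refine Subring.sum_mem V.toSubring fun k hk => ?_
      have hk' : k < n + 1 - s := Finset.mem_range.mp hk
      exact V.mul_mem _ _ (hV _ (hcF _) (hcA _ (by omega))) (pow_mem hxV _)
    · have hxi : x⁻¹ ∈ V := (V.mem_or_inv_mem x).resolve_left hxV
      rw [hy1]
      refine V.neg_mem _ (Subring.sum_mem V.toSubring fun i hi => ?_)
      have hi' : i < s := Finset.mem_range.mp hi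
      exact V.mul_mem _ _ (hV _ (hcF _) (hcA _ (by omega))) (pow_mem hxi _)

/-- The trace subring only depends on the trace of `A` on `F`. -/
theorem traceSubring_congr {F : IntermediateField ℚ (AlgebraicClosure ℚ)}
    {A A' : ValuationSubring (AlgebraicClosure ℚ)} (h : ∀ x ∈ F, x ∈ A ↔ x ∈ A') :
    traceSubring F A = traceSubring F A' := by
  ext b
  simp only [mem_traceSubring]
  refine ⟨fun hb V hV => hb V fun z hzF hzA => hV z hzF ((h z hzF).mp hzA),
    fun hb V hV => hb V fun z hzF hzA => hV z hzF ((h z hzF).mpr hzA)⟩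

/-- The trace subring is stable under automorphisms mapping `A ∩ F` into itself. -/
theorem apply_mem_traceSubring {F : IntermediateField ℚ (AlgebraicClosure ℚ)}
    {A : ValuationSubring (AlgebraicClosure ℚ)}
    (g : AlgebraicClosure ℚ ≃ₐ[ℚ] AlgebraicClosure ℚ)
    (hg : ∀ z ∈ F, z ∈ A → g z ∈ F ∧ g z ∈ A)
    {b : AlgebraicClosure ℚ} (hb : b ∈ traceSubring F A) : g b ∈ traceSubring F A := by
  intro V hV
  have h1 := hb (V.comap (g : AlgebraicClosure ℚ →+* AlgebraicClosure ℚ)) (fun z hzF hzA => by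
    rw [ValuationSubring.mem_comap]
    exact hV _ (hg z hzF hzA).1 (hg z hzF hzA).2)
  rw [ValuationSubring.mem_comap] at h1
  exact h1

theorem nonunits_iff_inv_not_mem (A : ValuationSubring (AlgebraicClosure ℚ))
    (x : AlgebraicClosure ℚ) : x ∈ A.nonunits ↔ x = 0 ∨ x⁻¹ ∉ A := by
  rw [ValuationSubring.mem_nonunits_iff, ← A.valuation_le_one_iff]
  by_cases hx : x = 0
  · simp [hx]
  · have hv : A.valuation x ≠ 0 := (Valuation.ne_zero_iff _).2 hx
    simp only [hx, false_or, map_inv₀, not_le]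
    rw [one_lt_inv₀ (zero_lt_iff.mpr hv)]

/-- Transport of membership along an automorphism which respects the trace subring and the
maximal ideals on it. -/
theorem apply_mem_of_respects {F : IntermediateField ℚ (AlgebraicClosure ℚ)}
    {A A' : ValuationSubring (AlgebraicClosure ℚ)}
    (g : AlgebraicClosure ℚ ≃ₐ[ℚ] AlgebraicClosure ℚ)
    (hgB : ∀ b ∈ traceSubring F A, g b ∈ A')
    (hgP : ∀ b ∈ traceSubring F A, b ∉ A.nonunits → g b ∉ A'.nonunits)
    {x : AlgebraicClosure ℚ} (hx : x ∈ A) : g x ∈ A' := by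
  obtain ⟨u, y, hxy, hyv, hu, hy⟩ := exists_mul_eq_of_mem F A hx
  have hynu : y ∉ A.nonunits := by
    rw [ValuationSubring.mem_nonunits_iff, hyv]
    exact lt_irrefl _
  have h1 : A'.valuation (g y) = 1 := by
    have h2 : A'.valuation (g y) ≤ 1 := (A'.valuation_le_one_iff _).mpr (hgB y hy)
    have h3 : ¬ A'.valuation (g y) < 1 := by
      rw [← ValuationSubring.mem_nonunits_iff]
      exact hgP y hy hynu
    exact le_antisymm h2 (not_lt.mp h3)
  have h4 : A'.valuation (g u) ≤ 1 := (A'.valuation_le_one_iff _).mpr (hgB u hu)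
  rw [← A'.valuation_le_one_iff]
  have h5 : g x * g y = g u := by rw [← map_mul, hxy]
  have h6 : A'.valuation (g x) * A'.valuation (g y) = A'.valuation (g u) := by
    rw [← map_mul, h5]
  rw [h1, mul_one] at h6
  rw [h6]
  exact h4

end Trace

section Profinite

variable (F : IntermediateField ℚ (AlgebraicClosure ℚ))
  (A : ValuationSubring (AlgebraicClosure ℚ))

instance traceSubring_isInvariant :
    IsInvariantSubring (↥F.fixingSubgroup) (traceSubring F A) where
  smul_mem := fun m x hx => by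
    have hm : ∀ z ∈ F, (m : AlgebraicClosure ℚ ≃ₐ[ℚ] AlgebraicClosure ℚ) z = z := fun z hz =>
      m.2 ⟨z, hz⟩
    exact apply_mem_traceSubring (m : AlgebraicClosure ℚ ≃ₐ[ℚ] AlgebraicClosure ℚ)
      (fun z hzF hzA => by rw [hm z hzF]; exact ⟨hzF, hzA⟩) hx

/-- The prime of the trace subring cut out by a valuation subring `V` containing it. -/
noncomputable def tracePrime (V : ValuationSubring (AlgebraicClosure ℚ))
    (hV : traceSubring F A ≤ V.toSubring) : Ideal (traceSubring F A) :=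
  (IsLocalRing.maximalIdeal V).comap (Subring.inclusion hV)

theorem mem_tracePrime {V : ValuationSubring (AlgebraicClosure ℚ)}
    (hV : traceSubring F A ≤ V.toSubring) (b : traceSubring F A) :
    b ∈ tracePrime F A V hV ↔ (b : AlgebraicClosure ℚ) ∈ V.nonunits := by
  rw [tracePrime, Ideal.mem_comap, ← ValuationSubring.coe_mem_nonunits_iff]
  rfl

instance tracePrime_isPrime {V : ValuationSubring (AlgebraicClosure ℚ)}
    (hV : traceSubring F A ≤ V.toSubring) : (tracePrime F A V hV).IsPrime :=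
  Ideal.comap_isPrime _ _

/-- Elements of the trace subring fixed by `Gal(ℚ̄/F)` lie in `F`. -/
theorem coe_mem_of_mem_fixedPoints
    (a : FixedPoints.subring (traceSubring F A) (↥F.fixingSubgroup)) :
    ((a : traceSubring F A) : AlgebraicClosure ℚ) ∈ F := by
  haveI := Fermat.Agent.Common.isAlgClosure_rat_qbar
  have h1 : ((a : traceSubring F A) : AlgebraicClosure ℚ) ∈
      IntermediateField.fixedField F.fixingSubgroup := by
    rw [IntermediateField.mem_fixedField_iff]
    intro g hg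
    have := a.2 ⟨g, hg⟩
    exact congrArg Subtype.val this
  rwa [InfiniteGalois.fixedField_fixingSubgroup] at h1

end Profinite

section T1

/-- **T1**: `Gal(ℚ̄/F)` is transitive on the valuation subrings of `ℚ̄` with the same trace
on `F`. -/
theorem exists_fixing_smul_eq (F : IntermediateField ℚ (AlgebraicClosure ℚ))
    (A A' : ValuationSubring (AlgebraicClosure ℚ))
    (h : ∀ x ∈ F, x ∈ A ↔ x ∈ A') :
    ∃ ρ : AlgebraicClosure ℚ ≃ₐ[ℚ] AlgebraicClosure ℚ,
      (∀ x ∈ F, ρ x = x) ∧ ρ • A = A' := by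
  classical
  haveI := Fermat.Agent.Common.isAlgClosure_rat_qbar
  have hclosed : IsClosed (F.fixingSubgroup : Set (AlgebraicClosure ℚ ≃ₐ[ℚ] AlgebraicClosure ℚ)) :=
    InfiniteGalois.fixingSubgroup_isClosed F
  haveI : CompactSpace ↥F.fixingSubgroup := isCompact_iff_compactSpace.mp hclosed.isCompact
  letI : TopologicalSpace (traceSubring F A) := ⊥
  haveI : DiscreteTopology (traceSubring F A) := ⟨rfl⟩
  haveI : ContinuousSMul ↥F.fixingSubgroup (traceSubring F A) := by
    rw [continuousSMul_iff_stabilizer_isOpen]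
    intro b
    have h := stabilizer_isOpen_of_isIntegral (K := ℚ) (b : AlgebraicClosure ℚ)
    have e : (MulAction.stabilizer ↥F.fixingSubgroup b : Set ↥F.fixingSubgroup) =
        Subtype.val ⁻¹' (MulAction.stabilizer (AlgebraicClosure ℚ ≃ₐ[ℚ] AlgebraicClosure ℚ)
          (b : AlgebraicClosure ℚ) : Set (AlgebraicClosure ℚ ≃ₐ[ℚ] AlgebraicClosure ℚ)) := by
      ext g
      simp only [SetLike.mem_coe, MulAction.mem_stabilizer_iff, Set.mem_preimage, Subtype.ext_iff]
      rfl
    rw [e]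
    exact h.preimage continuous_subtype_val
  have hBA : traceSubring F A ≤ A.toSubring := traceSubring_le F A
  have hBA' : traceSubring F A ≤ A'.toSubring := by
    rw [traceSubring_congr h]; exact traceSubring_le F A'
  haveI : Algebra.IsInvariant (FixedPoints.subring (traceSubring F A) ↥F.fixingSubgroup)
      (traceSubring F A) ↥F.fixingSubgroup := ⟨fun b hb => ⟨⟨b, hb⟩, rfl⟩⟩
  have hPQ : (tracePrime F A A hBA).under
        (FixedPoints.subring (traceSubring F A) ↥F.fixingSubgroup) =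
      (tracePrime F A A' hBA').under
        (FixedPoints.subring (traceSubring F A) ↥F.fixingSubgroup) := by
    ext a
    have haF := coe_mem_of_mem_fixedPoints F A a
    have e1 : a ∈ (tracePrime F A A hBA).under
        (FixedPoints.subring (traceSubring F A) ↥F.fixingSubgroup) ↔
        ((a : traceSubring F A) : AlgebraicClosure ℚ) ∈ A.nonunits := by
      rw [← mem_tracePrime F A hBA]; rfl
    have e2 : a ∈ (tracePrime F A A' hBA').under
        (FixedPoints.subring (traceSubring F A) ↥F.fixingSubgroup) ↔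
        ((a : traceSubring F A) : AlgebraicClosure ℚ) ∈ A'.nonunits := by
      rw [← mem_tracePrime F A hBA']; rfl
    rw [e1, e2, nonunits_iff_inv_not_mem, nonunits_iff_inv_not_mem, h _ (F.inv_mem haF)]
  obtain ⟨g, hg⟩ := Algebra.IsInvariant.exists_smul_of_under_eq_of_profinite
    (A := FixedPoints.subring (traceSubring F A) ↥F.fixingSubgroup)
    (G := ↥F.fixingSubgroup) (tracePrime F A A hBA) (tracePrime F A A' hBA') hPQ
  have hgF : ∀ x ∈ F, (g : AlgebraicClosure ℚ ≃ₐ[ℚ] AlgebraicClosure ℚ) x = x :=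
    fun x hx => g.2 ⟨x, hx⟩
  have hgiF : ∀ x ∈ F, (g⁻¹ : AlgebraicClosure ℚ ≃ₐ[ℚ] AlgebraicClosure ℚ) x = x :=
    fun x hx => (g⁻¹).2 ⟨x, hx⟩
  refine ⟨g.1, hgF, ?_⟩
  -- `g` maps `A` into `A'`
  have hfwd : ∀ x ∈ A, (g : AlgebraicClosure ℚ ≃ₐ[ℚ] AlgebraicClosure ℚ) x ∈ A' := by
    intro x hx
    refine apply_mem_of_respects (F := F) (A := A) (A' := A') g.1 ?_ ?_ hx
    · intro b hb
      exact hBA' (apply_mem_traceSubring g.1
        (fun z hzF hzA => by rw [hgF z hzF]; exact ⟨hzF, hzA⟩) hb)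
    · intro b hb hbn hgb
      have hgbB : (g : AlgebraicClosure ℚ ≃ₐ[ℚ] AlgebraicClosure ℚ) b ∈ traceSubring F A :=
        apply_mem_traceSubring g.1
          (fun z hzF hzA => by rw [hgF z hzF]; exact ⟨hzF, hzA⟩) hb
      have h1 : (⟨_, hgbB⟩ : traceSubring F A) ∈ tracePrime F A A' hBA' :=
        (mem_tracePrime F A hBA' _).mpr hgb
      rw [hg, Ideal.mem_pointwise_smul_iff_inv_smul_mem] at h1
      have h2 : g⁻¹ • (⟨_, hgbB⟩ : traceSubring F A) = ⟨b, hb⟩ := by
        apply Subtype.ext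
        show (g⁻¹ : AlgebraicClosure ℚ ≃ₐ[ℚ] AlgebraicClosure ℚ)
          ((g : AlgebraicClosure ℚ ≃ₐ[ℚ] AlgebraicClosure ℚ) b) = b
        simp
      rw [h2, mem_tracePrime] at h1
      exact hbn h1
  -- `g⁻¹` maps `A'` into `A`
  have hbwd : ∀ x ∈ A', (g⁻¹ : AlgebraicClosure ℚ ≃ₐ[ℚ] AlgebraicClosure ℚ) x ∈ A := by
    intro x hx
    have hh : ∀ x ∈ F, x ∈ A' ↔ x ∈ A := fun x hx => (h x hx).symm
    have hB' : traceSubring F A' = traceSubring F A := traceSubring_congr hh
    refine apply_mem_of_respects (F := F) (A := A') (A' := A)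
      (g⁻¹ : AlgebraicClosure ℚ ≃ₐ[ℚ] AlgebraicClosure ℚ) ?_ ?_ hx
    · intro b hb
      rw [hB'] at hb
      exact hBA (apply_mem_traceSubring _
        (fun z hzF hzA => by rw [hgiF z hzF]; exact ⟨hzF, hzA⟩) hb)
    · intro b hb hbn hgb
      rw [hB'] at hb
      have hgbB : (g⁻¹ : AlgebraicClosure ℚ ≃ₐ[ℚ] AlgebraicClosure ℚ) b ∈ traceSubring F A :=
        apply_mem_traceSubring _
          (fun z hzF hzA => by rw [hgiF z hzF]; exact ⟨hzF, hzA⟩) hb
      have h1 : (⟨_, hgbB⟩ : traceSubring F A) ∈ tracePrime F A A hBA :=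
        (mem_tracePrime F A hBA _).mpr hgb
      have h2 : (⟨b, hb⟩ : traceSubring F A) ∈ tracePrime F A A' hBA' := by
        rw [hg, Ideal.mem_pointwise_smul_iff_inv_smul_mem]
        exact h1
      rw [mem_tracePrime] at h2
      exact hbn h2
  apply le_antisymm
  · intro x hx
    rw [ValuationSubring.mem_pointwise_smul_iff_inv_smul_mem] at hx
    have := hfwd _ hx
    simpa using this
  · intro x hx
    rw [ValuationSubring.mem_pointwise_smul_iff_inv_smul_mem]
    exact hbwd x hx

end T1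

section T2

/-- An automorphism mapping an intermediate field of `ℚ̄ / ℚ` into itself maps it onto itself. -/
theorem symm_apply_mem_of_forall_apply_mem (F : IntermediateField ℚ (AlgebraicClosure ℚ))
    (σ : AlgebraicClosure ℚ ≃ₐ[ℚ] AlgebraicClosure ℚ) (hσF : ∀ x ∈ F, σ x ∈ F)
    {z : AlgebraicClosure ℚ} (hz : z ∈ F) : σ⁻¹ z ∈ F := by
  haveI := Fermat.Agent.Common.isAlgClosure_rat_qbar
  haveI : Algebra.IsAlgebraic ℚ (AlgebraicClosure ℚ) := IsAlgClosure.isAlgebraic
  haveI : Algebra.IsAlgebraic ℚ F :=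
    ⟨fun x => IntermediateField.isAlgebraic_iff.mpr
      (Algebra.IsAlgebraic.isAlgebraic (R := ℚ) (x : AlgebraicClosure ℚ))⟩
  let f : F →ₐ[ℚ] F :=
    { toFun := fun x => ⟨σ x, hσF x x.2⟩
      map_one' := by ext; simp
      map_mul' := fun x y => by ext; simp
      map_zero' := by ext; simp
      map_add' := fun x y => by ext; simp
      commutes' := fun r => by ext; simp }
  have hf : Function.Bijective f := Algebra.IsAlgebraic.algHom_bijective f
  obtain ⟨w, hw⟩ := hf.2 ⟨z, hz⟩
  have h1 : σ (w : AlgebraicClosure ℚ) = z := congrArg Subtype.val hw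
  have h2 : σ⁻¹ z = w := by
    rw [← h1]
    simp
  rw [h2]
  exact w.2

/-- Membership in the prelude's inertia subgroup from the elementwise description. -/
theorem mem_inertiaSubgroupIn_of_forall (A : ValuationSubring (AlgebraicClosure ℚ))
    (τ : AlgebraicClosure ℚ ≃ₐ[ℚ] AlgebraicClosure ℚ) (hτ : τ ∈ A.decompositionSubgroup ℚ)
    (h : ∀ x ∈ A, τ x - x ∈ A.nonunits) : τ ∈ A.inertiaSubgroupIn ℚ := by
  refine ⟨⟨τ, hτ⟩, ?_, rfl⟩
  show (⟨τ, hτ⟩ : A.decompositionSubgroup ℚ) ∈ MonoidHom.ker _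
  rw [MonoidHom.mem_ker]
  ext r
  obtain ⟨x, rfl⟩ := IsLocalRing.residue_surjective r
  show IsLocalRing.residue A ((⟨τ, hτ⟩ : A.decompositionSubgroup ℚ) • x) = IsLocalRing.residue A x
  rw [← sub_eq_zero, ← map_sub, IsLocalRing.residue_eq_zero_iff]
  have h1 := h x x.2
  rw [ValuationSubring.mem_nonunits_iff_exists_mem_maximalIdeal] at h1
  obtain ⟨hmem, h2⟩ := h1
  exact h2

/-- **T2**: an element of the decomposition group of `A` that maps `F` into `F` and is trivial
on the residue field of `A ∩ F` agrees on `F` with an element of the inertia group of `A`. -/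
theorem exists_inertia_agree (F : IntermediateField ℚ (AlgebraicClosure ℚ))
    (A : ValuationSubring (AlgebraicClosure ℚ))
    (σ : AlgebraicClosure ℚ ≃ₐ[ℚ] AlgebraicClosure ℚ)
    (hσA : σ ∈ A.decompositionSubgroup ℚ)
    (hσF : ∀ x ∈ F, σ x ∈ F)
    (hres : ∀ x ∈ F, x ∈ A → σ x - x ∈ A.nonunits) :
    ∃ τ ∈ A.inertiaSubgroupIn ℚ, ∀ x ∈ F, τ x = σ x := by
  classical
  haveI := Fermat.Agent.Common.isAlgClosure_rat_qbar
  have hclosed : IsClosed (F.fixingSubgroup : Set (AlgebraicClosure ℚ ≃ₐ[ℚ] AlgebraicClosure ℚ)) :=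
    InfiniteGalois.fixingSubgroup_isClosed F
  haveI : CompactSpace ↥F.fixingSubgroup := isCompact_iff_compactSpace.mp hclosed.isCompact
  letI : TopologicalSpace (traceSubring F A) := ⊥
  haveI : DiscreteTopology (traceSubring F A) := ⟨rfl⟩
  haveI : ContinuousSMul ↥F.fixingSubgroup (traceSubring F A) := by
    rw [continuousSMul_iff_stabilizer_isOpen]
    intro b
    have h := stabilizer_isOpen_of_isIntegral (K := ℚ) (b : AlgebraicClosure ℚ)
    have e : (MulAction.stabilizer ↥F.fixingSubgroup b : Set ↥F.fixingSubgroup) =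
        Subtype.val ⁻¹' (MulAction.stabilizer (AlgebraicClosure ℚ ≃ₐ[ℚ] AlgebraicClosure ℚ)
          (b : AlgebraicClosure ℚ) : Set (AlgebraicClosure ℚ ≃ₐ[ℚ] AlgebraicClosure ℚ)) := by
      ext g
      simp only [SetLike.mem_coe, MulAction.mem_stabilizer_iff, Set.mem_preimage, Subtype.ext_iff]
      rfl
    rw [e]
    exact h.preimage continuous_subtype_val
  have hBA : traceSubring F A ≤ A.toSubring := traceSubring_le F A
  haveI : Algebra.IsInvariant (FixedPoints.subring (traceSubring F A) ↥F.fixingSubgroup)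
      (traceSubring F A) ↥F.fixingSubgroup := ⟨fun b hb => ⟨⟨b, hb⟩, rfl⟩⟩
  have hσinv : σ⁻¹ ∈ A.decompositionSubgroup ℚ := Subgroup.inv_mem _ hσA
  -- `σ` and `σ⁻¹` preserve the trace subring
  have hσB : ∀ b ∈ traceSubring F A, σ b ∈ traceSubring F A := fun b hb =>
    apply_mem_traceSubring σ (fun z hzF hzA =>
      ⟨hσF z hzF, Fermat.Agent.S05.apply_mem_of_mem_decomposition hσA hzA⟩) hb
  have hσiB : ∀ b ∈ traceSubring F A, σ⁻¹ b ∈ traceSubring F A := fun b hb =>
    apply_mem_traceSubring σ⁻¹ (fun z hzF hzA =>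
      ⟨symm_apply_mem_of_forall_apply_mem F σ hσF hzF,
        Fermat.Agent.S05.apply_mem_of_mem_decomposition hσinv hzA⟩) hb
  let Q : Ideal (traceSubring F A) := tracePrime F A A hBA
  let P : Ideal (FixedPoints.subring (traceSubring F A) ↥F.fixingSubgroup) := Q.under _
  haveI : Q.IsPrime := tracePrime_isPrime F A hBA
  haveI : Q.LiesOver P := ⟨rfl⟩
  have hQmem : ∀ b : traceSubring F A, b ∈ Q ↔ (b : AlgebraicClosure ℚ) ∈ A.nonunits :=
    fun b => mem_tracePrime F A hBA b
  let σB : traceSubring F A →+* traceSubring F A :=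
    (σ : AlgebraicClosure ℚ →+* AlgebraicClosure ℚ).restrict (traceSubring F A)
      (traceSubring F A) hσB
  have hσB_coe : ∀ b : traceSubring F A, ((σB b : traceSubring F A) : AlgebraicClosure ℚ) =
      σ (b : AlgebraicClosure ℚ) := fun b => rfl
  have hle : Q ≤ Q.comap σB := by
    intro b hb
    rw [Ideal.mem_comap, hQmem, hσB_coe]
    exact (Fermat.Agent.S05.apply_mem_nonunits_iff_of_mem_decomposition hσA _).mpr
      ((hQmem b).mp hb)
  have hge : Q.comap σB ≤ Q := by
    intro b hb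
    rw [Ideal.mem_comap, hQmem, hσB_coe] at hb
    rw [hQmem]
    exact (Fermat.Agent.S05.apply_mem_nonunits_iff_of_mem_decomposition hσA _).mp hb
  have hσBsurj : Function.Surjective σB := by
    intro b
    refine ⟨⟨σ⁻¹ (b : AlgebraicClosure ℚ), hσiB _ b.2⟩, ?_⟩
    apply Subtype.ext
    rw [hσB_coe]
    simp
  have hcomm : ∀ r : (FixedPoints.subring (traceSubring F A) ↥F.fixingSubgroup) ⧸ P,
      Ideal.quotientMap Q σB hle (algebraMap _ (traceSubring F A ⧸ Q) r) =
        algebraMap _ (traceSubring F A ⧸ Q) r := by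
    intro r
    obtain ⟨a, rfl⟩ := Ideal.Quotient.mk_surjective r
    have e1 : algebraMap ((FixedPoints.subring (traceSubring F A) ↥F.fixingSubgroup) ⧸ P)
        (traceSubring F A ⧸ Q) (Ideal.Quotient.mk P a) =
        Ideal.Quotient.mk Q (a : traceSubring F A) := rfl
    rw [e1, Ideal.quotientMap_mk, Ideal.Quotient.eq, hQmem]
    have haF := coe_mem_of_mem_fixedPoints F A a
    have haA : ((a : traceSubring F A) : AlgebraicClosure ℚ) ∈ A := hBA (a : traceSubring F A).2
    exact hres _ haF haA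
  let F₀ : (traceSubring F A ⧸ Q) →ₐ[(FixedPoints.subring (traceSubring F A)
      ↥F.fixingSubgroup) ⧸ P] (traceSubring F A ⧸ Q) :=
    { Ideal.quotientMap Q σB hle with commutes' := hcomm }
  have hF₀bij : Function.Bijective F₀ :=
    ⟨Ideal.quotientMap_injective' (H := hle) hge,
      Ideal.quotientMap_surjective (H := hle) hσBsurj⟩
  let σbar : (traceSubring F A ⧸ Q) ≃ₐ[(FixedPoints.subring (traceSubring F A)
      ↥F.fixingSubgroup) ⧸ P] (traceSubring F A ⧸ Q) :=
    AlgEquiv.ofBijective F₀ hF₀bij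
  obtain ⟨ρ, hρ⟩ := Ideal.Quotient.stabilizerHom_surjective_of_profinite
    (G := ↥F.fixingSubgroup) P Q σbar
  -- `ρ` agrees with `σ` modulo the maximal ideal on the trace subring
  have hρσ : ∀ b ∈ traceSubring F A,
      (ρ.1 : AlgebraicClosure ℚ ≃ₐ[ℚ] AlgebraicClosure ℚ) b - σ b ∈ A.nonunits := by
    intro b hb
    have h1 := congrArg (fun f => f (Ideal.Quotient.mk Q ⟨b, hb⟩)) hρ
    simp only [Ideal.Quotient.stabilizerHom_apply] at h1
    have h2 : σbar (Ideal.Quotient.mk Q ⟨b, hb⟩) = Ideal.Quotient.mk Q (σB ⟨b, hb⟩) := rfl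
    rw [h2, Ideal.Quotient.eq, hQmem] at h1
    exact h1
  obtain ⟨r, hr⟩ : ∃ r : AlgebraicClosure ℚ ≃ₐ[ℚ] AlgebraicClosure ℚ,
      r = ((ρ.1 : ↥F.fixingSubgroup) : AlgebraicClosure ℚ ≃ₐ[ℚ] AlgebraicClosure ℚ) := ⟨_, rfl⟩
  rw [← hr] at hρσ
  have hrF : ∀ x ∈ F, r x = x := fun x hx => by rw [hr]; exact ρ.1.2 ⟨x, hx⟩
  have hriF : ∀ x ∈ F, r⁻¹ x = x := fun x hx => by
    have h1 := hrF x hx
    calc r⁻¹ x = r⁻¹ (r x) := by rw [h1]
      _ = x := by simp
  have hrB : ∀ b ∈ traceSubring F A, r b ∈ traceSubring F A := fun b hb =>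
    apply_mem_traceSubring r (fun z hzF hzA => by rw [hrF z hzF]; exact ⟨hzF, hzA⟩) hb
  have hriB : ∀ b ∈ traceSubring F A, r⁻¹ b ∈ traceSubring F A := fun b hb =>
    apply_mem_traceSubring r⁻¹ (fun z hzF hzA => by rw [hriF z hzF]; exact ⟨hzF, hzA⟩) hb
  have hρQ : (ρ.1 : ↥F.fixingSubgroup) • Q = Q := ρ.2
  have hsmul : ∀ (b : AlgebraicClosure ℚ) (hb : b ∈ traceSubring F A),
      (ρ.1 : ↥F.fixingSubgroup) • (⟨b, hb⟩ : traceSubring F A) = ⟨r b, hrB b hb⟩ := by
    intro b hb
    apply Subtype.ext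
    subst hr
    rfl
  have hrQ_iff : ∀ (b : AlgebraicClosure ℚ) (hb : b ∈ traceSubring F A),
      r b ∈ A.nonunits ↔ b ∈ A.nonunits := by
    intro b hb
    have h1 : (ρ.1 : ↥F.fixingSubgroup) • (⟨b, hb⟩ : traceSubring F A) ∈
        (ρ.1 : ↥F.fixingSubgroup) • Q ↔ (⟨b, hb⟩ : traceSubring F A) ∈ Q :=
      Ideal.smul_mem_pointwise_smul_iff
    rw [hρQ, hsmul b hb, hQmem, hQmem] at h1
    exact h1
  have hrA : ∀ x ∈ A, r x ∈ A := fun x hx =>
    apply_mem_of_respects (F := F) (A := A) (A' := A) r (fun b hb => hBA (hrB b hb))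
      (fun b hb hbn h => hbn ((hrQ_iff b hb).mp h)) hx
  have hriA : ∀ x ∈ A, r⁻¹ x ∈ A := fun x hx =>
    apply_mem_of_respects (F := F) (A := A) (A' := A) r⁻¹ (fun b hb => hBA (hriB b hb))
      (fun b hb hbn h => hbn (by
        have h1 := (hrQ_iff (r⁻¹ b) (hriB b hb)).mpr h
        simpa using h1)) hx
  have hrD : r ∈ A.decompositionSubgroup ℚ := by
    show r • A = A
    apply le_antisymm
    · intro x hx
      rw [ValuationSubring.mem_pointwise_smul_iff_inv_smul_mem] at hx
      have := hrA _ hx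
      simpa using this
    · intro x hx
      rw [ValuationSubring.mem_pointwise_smul_iff_inv_smul_mem]
      exact hriA x hx
  have hτD : σ * r⁻¹ ∈ A.decompositionSubgroup ℚ :=
    Subgroup.mul_mem _ hσA (Subgroup.inv_mem _ hrD)
  refine ⟨σ * r⁻¹, mem_inertiaSubgroupIn_of_forall A _ hτD ?_, fun x hx => by
    show σ (r⁻¹ x) = σ x
    rw [hriF x hx]⟩
  intro x hx
  have hx' : r⁻¹ x ∈ A := hriA x hx
  obtain ⟨u, y, hxy, hyv, hu, hy⟩ := exists_mul_eq_of_mem F A hx'
  have hrx : r (r⁻¹ x) = x := by simp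
  have e0 : (σ * r⁻¹) x - x = σ (r⁻¹ x) - r (r⁻¹ x) := by
    rw [hrx]; rfl
  rw [e0, ValuationSubring.mem_nonunits_iff]
  have h1 : σ (r⁻¹ x) * σ y = σ u := by rw [← map_mul, hxy]
  have h2 : r (r⁻¹ x) * r y = r u := by rw [← map_mul, hxy]
  have hvσy : A.valuation (σ y) = 1 :=
    (Fermat.Agent.S05.valuation_apply_eq_one_iff hσA y).mpr hyv
  have hu' : A.valuation (r u - σ u) < 1 := by
    rw [← ValuationSubring.mem_nonunits_iff]; exact hρσ u hu
  have hy' : A.valuation (r y - σ y) < 1 := by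
    rw [← ValuationSubring.mem_nonunits_iff]; exact hρσ y hy
  have hxle : A.valuation (r (r⁻¹ x)) ≤ 1 := by
    rw [hrx]; exact (A.valuation_le_one_iff _).mpr hx
  have key : (σ (r⁻¹ x) - r (r⁻¹ x)) * σ y =
      -(r u - σ u) + r (r⁻¹ x) * (r y - σ y) := by
    linear_combination h1 - h2
  have hlt : A.valuation ((σ (r⁻¹ x) - r (r⁻¹ x)) * σ y) < 1 := by
    rw [key]
    refine lt_of_le_of_lt (Valuation.map_add _ _ _) (max_lt ?_ ?_)
    · rw [Valuation.map_neg]; exact hu'
    · rw [map_mul]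
      calc A.valuation (r (r⁻¹ x)) * A.valuation (r y - σ y)
          ≤ 1 * A.valuation (r y - σ y) := by gcongr
        _ < 1 := by rw [one_mul]; exact hy'
  rw [map_mul, hvσy, mul_one] at hlt
  exact hlt

end T2

end Fermat.Agent.S14


end ZBS05_001_4

/-! ### bundled: `Fermat.Agent.PT.X.KummerUnram` -/
section ZBS05_001_5
/-
PT-X, piece X-R (helper69): a Kummer root of an element which is locally `unit · p-th power`
outside `S` generates a field unramified outside `S` (prelude's `IsUnramifiedOutside`), `p ∈ S`.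
-/

set_option autoImplicit false

namespace Fermat.Agent.PT.X

open Fermat.Agent.S05

section general

variable {K L : Type*} [Field K] [Field L] [Algebra K L]

/-- Inertia fixes a `p`-th root of a unit `u` of `A` fixed by `σ`, when `p` is a unit of `A`. -/
theorem inertia_fixes_root_of_unit {A : ValuationSubring L} {σ : L ≃ₐ[K] L}
    (hσ : σ ∈ A.inertiaSubgroupIn K) {p : ℕ} (hp : p.Prime) (hpA : (p : L) ∉ A.nonunits)
    {u w : L} (hu : u ∈ A) (hu' : u ∉ A.nonunits) (hw : w ^ p = u) (hσu : σ u = u) :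
    σ w = w := by
  have hu0 : u ≠ 0 := by
    rintro rfl
    exact hu' (by rw [ValuationSubring.mem_nonunits_iff]; simp)
  have hw0 : w ≠ 0 := by
    rintro rfl
    rw [zero_pow hp.ne_zero] at hw
    exact hu0 hw.symm
  -- valuation of `w` is one
  have hvu : A.valuation u = 1 := by
    have h1 : A.valuation u ≤ 1 := (ValuationSubring.valuation_le_one_iff A u).2 hu
    have h2 : ¬ A.valuation u < 1 := fun h => hu' ((ValuationSubring.mem_nonunits_iff A).2 h)
    exact le_antisymm h1 (not_lt.1 h2)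
  have hvw : A.valuation w = 1 := by
    have h : (A.valuation w) ^ p = 1 := by rw [← map_pow, hw, hvu]
    exact (pow_eq_one_iff_of_nonneg zero_le hp.ne_zero).1 h
  have hwA : w ∈ A := (ValuationSubring.valuation_le_one_iff A w).1 hvw.le
  have hwinv : w⁻¹ ∈ A := by
    rw [← ValuationSubring.valuation_le_one_iff, map_inv₀, hvw, inv_one]
  -- `ζ = σ w / w`
  set ζ : L := σ w * w⁻¹ with hζ
  have hζp : ζ ^ p = 1 := by
    rw [hζ, mul_pow, ← map_pow, hw, hσu, inv_pow, ← hw]
    exact mul_inv_cancel₀ (pow_ne_zero _ hw0)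
  have hζ1 : ζ - 1 ∈ A.nonunits := by
    have h1 : σ w - w ∈ A.nonunits := inertia_apply_sub_mem_nonunits hσ hwA
    have h2 : ζ - 1 = (σ w - w) * w⁻¹ := by
      rw [hζ, sub_mul, mul_inv_cancel₀ hw0]
    rw [h2, ValuationSubring.mem_nonunits_iff, map_mul, map_inv₀, hvw, inv_one, mul_one]
    exact (ValuationSubring.mem_nonunits_iff A).1 h1
  -- if `ζ ≠ 1` then `p ∈ 𝔪`
  by_contra hne
  have hζne : ζ ≠ 1 := by
    intro h1
    apply hne
    have : σ w * w⁻¹ = 1 := h1
    calc σ w = σ w * w⁻¹ * w := by rw [mul_assoc, inv_mul_cancel₀ hw0, mul_one]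
      _ = w := by rw [this, one_mul]
  have hsum : ∑ i ∈ Finset.range p, ζ ^ i = 0 := by
    have := mul_neg_geom_sum ζ p
    have h2 : (1 - ζ) * ∑ i ∈ Finset.range p, ζ ^ i = 0 := by rw [this, hζp, sub_self]
    rcases mul_eq_zero.1 h2 with h | h
    · exact absurd (sub_eq_zero.1 h).symm hζne
    · exact h
  have hζA : ζ ∈ A := by
    have : ζ = (ζ - 1) + 1 := by ring
    rw [this]
    exact A.add_mem _ _ (ValuationSubring.nonunits_subset hζ1) A.one_mem
  -- `ζ^i - 1 ∈ 𝔪`
  have hpow : ∀ i : ℕ, A.valuation (ζ ^ i - 1) < 1 := by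
    intro i
    have hdiv : ζ ^ i - 1 = (ζ - 1) * ∑ j ∈ Finset.range i, ζ ^ j := by
      rw [mul_comm]; exact (geom_sum_mul ζ i).symm
    rw [hdiv, map_mul]
    have h1 : A.valuation (ζ - 1) < 1 := (ValuationSubring.mem_nonunits_iff A).1 hζ1
    have h2 : A.valuation (∑ j ∈ Finset.range i, ζ ^ j) ≤ 1 := by
      rw [ValuationSubring.valuation_le_one_iff]
      exact A.toSubring.sum_mem (fun j _ => A.toSubring.pow_mem hζA j)
    calc A.valuation (ζ - 1) * A.valuation (∑ j ∈ Finset.range i, ζ ^ j)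
        ≤ A.valuation (ζ - 1) * 1 := by gcongr
      _ < 1 := by rw [mul_one]; exact h1
  have hp' : (p : L) = - ∑ i ∈ Finset.range p, (ζ ^ i - 1) := by
    rw [Finset.sum_sub_distrib, hsum]
    simp
  apply hpA
  rw [ValuationSubring.mem_nonunits_iff, hp', Valuation.map_neg]
  -- valuation of a sum of elements of valuation < 1
  have : ∀ s : Finset ℕ, A.valuation (∑ i ∈ s, (ζ ^ i - 1)) < 1 := by
    intro s
    induction s using Finset.induction_on with
    | empty => simp
    | insert a s ha ih =>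
      rw [Finset.sum_insert ha]
      exact lt_of_le_of_lt (A.valuation.map_add _ _) (max_lt (hpow a) ih)
  exact this _

end general

/-- A prime `p ≠ q` is a unit in a valuation subring lying over `q`. -/
theorem natCast_not_mem_nonunits_of_liesOver {L : Type*} [Field L] (A : ValuationSubring L)
    {p q : ℕ} (hp : p.Prime) (hq : q.Prime) (hpq : p ≠ q) (hA : A.LiesOverPrime q) :
    (p : L) ∉ A.nonunits := by
  intro hpA
  have hq' : (q : L) ∈ A.nonunits := hA
  have hcop : Nat.Coprime p q := (Nat.coprime_primes hp hq).2 hpq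
  -- Bezout
  have h1 : IsCoprime (p : ℤ) (q : ℤ) := Nat.isCoprime_iff_coprime.2 hcop
  obtain ⟨a, b, hab⟩ := h1
  have h2 : ((a : L) * p + (b : L) * q) = 1 := by
    have := congrArg (fun z : ℤ => (z : L)) hab
    simpa using this
  have hmem : ∀ (n : ℤ), (n : L) ∈ A := fun n => by
    have : (n : L) = ((n : A.toSubring) : L) := by simp
    rw [this]; exact (n : A.toSubring).2
  have h3 : A.valuation ((a : L) * p + (b : L) * q) < 1 := by
    refine lt_of_le_of_lt (A.valuation.map_add _ _) (max_lt ?_ ?_)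
    · rw [map_mul]
      calc A.valuation (a : L) * A.valuation (p : L) ≤ 1 * A.valuation (p : L) := by
            gcongr; exact (ValuationSubring.valuation_le_one_iff A _).2 (hmem a)
        _ < 1 := by rw [one_mul]; exact (ValuationSubring.mem_nonunits_iff A).1 hpA
    · rw [map_mul]
      calc A.valuation (b : L) * A.valuation (q : L) ≤ 1 * A.valuation (q : L) := by
            gcongr; exact (ValuationSubring.valuation_le_one_iff A _).2 (hmem b)
        _ < 1 := by rw [one_mul]; exact (ValuationSubring.mem_nonunits_iff A).1 hq'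
  rw [h2, map_one] at h3
  exact lt_irrefl _ h3

/-- **X-R.** `F` unramified outside `S`, `p ∈ S`, `w ^ p = α ∈ F`, and at every valuation subring `A`
over a prime `q ∉ S` one can write `α = u · β ^ p` with `β, u ∈ F`, `u` a unit of `A`.
Then `F(w)` is unramified outside `S`. -/
theorem isUnramifiedOutside_adjoin_root (S : Finset Nat.Primes) (p : Nat.Primes) (hpS : p ∈ S)
    (F : IntermediateField ℚ (AlgebraicClosure ℚ)) (hF : F.IsUnramifiedOutside S)
    (α w : AlgebraicClosure ℚ) (hw : w ^ (p : ℕ) = α)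
    (hloc : ∀ q : Nat.Primes, q ∉ S → ∀ A : ValuationSubring (AlgebraicClosure ℚ),
      A.LiesOverPrime (q : ℕ) → ∃ β u : AlgebraicClosure ℚ, β ∈ F ∧ u ∈ F ∧ u ∈ A ∧
        u ∉ A.nonunits ∧ α = u * β ^ (p : ℕ)) :
    (F ⊔ IntermediateField.adjoin ℚ {w}).IsUnramifiedOutside S := by
  have hfd := hF.1
  have halg : Algebra.IsAlgebraic ℚ (AlgebraicClosure ℚ) := isAlgebraic_rat_qbar_of _
  have hwalg : IsIntegral ℚ w := (halg.isAlgebraic w).isIntegral
  have hfd2 : FiniteDimensional ℚ (IntermediateField.adjoin ℚ {w}) :=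
    IntermediateField.adjoin.finiteDimensional hwalg
  refine ⟨IntermediateField.finiteDimensional_sup F _, fun q hq A hA σ hσ => ?_⟩
  rw [IntermediateField.fixingSubgroup_sup]
  have hσF : σ ∈ F.fixingSubgroup := hF.2 q hq A hA hσ
  refine ⟨hσF, ?_⟩
  have hfix : ∀ x ∈ F, σ x = x := fun x hx =>
    (IntermediateField.mem_fixingSubgroup_iff F σ).1 hσF x hx
  -- it suffices to show `σ w = w`
  suffices hσw : σ w = w by
    refine (IntermediateField.mem_fixingSubgroup_iff _ σ).2 ?_
    intro x hx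
    have hle : IntermediateField.adjoin ℚ {w} ≤
        IntermediateField.fixedField (Subgroup.zpowers σ) := by
      rw [IntermediateField.adjoin_le_iff]
      intro y hy
      rw [Set.mem_singleton_iff.1 hy]
      rw [SetLike.mem_coe, IntermediateField.mem_fixedField_iff]
      intro τ hτ
      obtain ⟨n, rfl⟩ := Subgroup.mem_zpowers_iff.1 hτ
      have hfix1 : σ ∈ MulAction.stabilizer (AlgebraicClosure ℚ ≃ₐ[ℚ] AlgebraicClosure ℚ) w := hσw
      exact Subgroup.zpow_mem _ hfix1 n
    have hx2 := hle hx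
    rw [IntermediateField.mem_fixedField_iff] at hx2
    exact hx2 σ (Subgroup.mem_zpowers σ)
  obtain ⟨β, u, hβ, hu, huA, huA', hαu⟩ := hloc q hq A hA
  have hpq : (p : ℕ) ≠ (q : ℕ) := by
    intro h
    exact hq ((Subtype.ext h : p = q) ▸ hpS)
  have hpA : ((p : ℕ) : AlgebraicClosure ℚ) ∉ A.nonunits :=
    natCast_not_mem_nonunits_of_liesOver A p.2 q.2 hpq hA
  have hu0 : u ≠ 0 := by
    rintro rfl
    exact huA' (by rw [ValuationSubring.mem_nonunits_iff]; simp)
  by_cases hβ0 : β = 0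
  · -- then `α = 0`, `w = 0`
    have hα0 : α = 0 := by rw [hαu, hβ0, zero_pow p.2.ne_zero, mul_zero]
    have hw0 : w = 0 := by
      rw [hα0] at hw
      exact pow_eq_zero_iff p.2.ne_zero |>.1 hw
    rw [hw0, map_zero]
  · have hw' : (w * β⁻¹) ^ (p : ℕ) = u := by
      rw [mul_pow, hw, hαu, inv_pow, mul_assoc, mul_inv_cancel₀ (pow_ne_zero _ hβ0), mul_one]
    have h1 : σ (w * β⁻¹) = w * β⁻¹ :=
      inertia_fixes_root_of_unit hσ p.2 hpA huA huA' hw' (hfix u hu)
    rw [map_mul, map_inv₀, hfix β hβ] at h1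
    exact mul_right_cancel₀ (inv_ne_zero hβ0) h1

end Fermat.Agent.PT.X


end ZBS05_001_5
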