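/- GENERATED FILE (helper35, build-time optimisation, NOTES/ZB.md): verbatim concatenation of the modules
   Fermat.Agent.INJ.ZariskiConst
   Fermat.Agent.INJ.ZariskiCharts
   Fermat.Agent.INJ.ChartFinite
   Fermat.Agent.INJ.ChartInvBasis
   Fermat.Agent.UNIP.ExplicitIdem
   Fermat.Agent.UNIP.KummerSplit
   Fermat.Agent.UNIP.Crossing
   Fermat.Agent.UNIP.KummerConst
   Do not edit; do not import together with these modules. -/
import Mathlib
import Fermat.Agent.ZB.INJ_029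
import Fermat.Agent.ZB.INJ_030
import Fermat.Agent.ZB.INJ_019
import Fermat.Agent.ZB.INJ_020
import Fermat.Agent.ZB.INJ_002
import Fermat.Agent.ZB.INJ_017

/-! ### bundled: `Fermat.Agent.INJ.ZariskiConst` -/
section ZBINJ_031_0

/-!
# (INJ) A6-Zconst: the constants of the two charts

* `integral_of_integral_two`: an element integral over two integrally closed domains `R₁`, `R₂`
  with the same fraction field `K` is integral over any ring `A₀` containing `R₁ ∩ R₂`.
* `adjoin_inter_adjoin_inv`: `A₀[t] ∩ A₀[t⁻¹] = A₀` for `t` transcendental.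
-/

set_option autoImplicit false
set_option linter.style.haveILetI false

namespace Fermat.Agent.INJ

open Polynomial

/-- Zconst (a): integral over two integrally closed subrings with the same fraction field. -/
theorem integral_of_integral_two {A₀ R₁ R₂ K L : Type*} [CommRing A₀] [CommRing R₁] [CommRing R₂]
    [Field K] [Field L] [IsDomain R₁] [IsDomain R₂]
    [Algebra A₀ K] [Algebra K L] [Algebra A₀ L] [IsScalarTower A₀ K L]
    [Algebra R₁ K] [Algebra R₁ L] [IsScalarTower R₁ K L] [IsFractionRing R₁ K]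
    [IsIntegrallyClosed R₁]
    [Algebra R₂ K] [Algebra R₂ L] [IsScalarTower R₂ K L] [IsFractionRing R₂ K]
    [IsIntegrallyClosed R₂]
    (hint : ∀ z : K, z ∈ (algebraMap R₁ K).range → z ∈ (algebraMap R₂ K).range →
      z ∈ (algebraMap A₀ K).range)
    (x : L) (hx₁ : IsIntegral R₁ x) (hx₂ : IsIntegral R₂ x) : IsIntegral A₀ x := by
  have h1 : minpoly K x = (minpoly R₁ x).map (algebraMap R₁ K) :=
    minpoly.isIntegrallyClosed_eq_field_fractions' K hx₁
  have h2 : minpoly K x = (minpoly R₂ x).map (algebraMap R₂ K) :=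
    minpoly.isIntegrallyClosed_eq_field_fractions' K hx₂
  have hxK : IsIntegral K x := hx₁.tower_top
  have hlifts : minpoly K x ∈ Polynomial.lifts (algebraMap A₀ K) := by
    rw [Polynomial.lifts_iff_coeff_lifts]
    intro n
    have c1 : (minpoly K x).coeff n ∈ (algebraMap R₁ K).range := by
      rw [h1, coeff_map]; exact ⟨_, rfl⟩
    have c2 : (minpoly K x).coeff n ∈ (algebraMap R₂ K).range := by
      rw [h2, coeff_map]; exact ⟨_, rfl⟩
    obtain ⟨a, ha⟩ := hint _ c1 c2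
    exact ⟨a, ha⟩
  obtain ⟨q, hq, -, hqm⟩ :=
    Polynomial.lifts_and_degree_eq_and_monic hlifts (minpoly.monic hxK)
  refine ⟨q, hqm, ?_⟩
  have h3 : eval₂ (algebraMap A₀ L) x q = eval₂ (algebraMap K L) x (q.map (algebraMap A₀ K)) := by
    rw [eval₂_map, ← IsScalarTower.algebraMap_eq]
  rw [h3, hq]
  exact minpoly.aeval K x

/-- Zconst (b): `A₀[t] ∩ A₀[t⁻¹] = A₀` for `t` transcendental. -/
theorem adjoin_inter_adjoin_inv {A₀ K : Type*} [CommRing A₀] [IsDomain A₀] [Field K] [Algebra A₀ K]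
    (hinj : Function.Injective (algebraMap A₀ K))
    {t : K} (ht : Transcendental A₀ t) (z : K)
    (h₁ : z ∈ Algebra.adjoin A₀ {t}) (h₂ : z ∈ Algebra.adjoin A₀ {t⁻¹}) :
    ∃ a : A₀, algebraMap A₀ K a = z := by
  have _ := hinj
  rw [Algebra.adjoin_singleton_eq_range_aeval] at h₁ h₂
  obtain ⟨f, hf⟩ := h₁
  obtain ⟨g, hg⟩ := h₂
  have ht0 : t ≠ 0 := by
    rintro rfl
    exact ht (isAlgebraic_zero)
  letI : Invertible (t⁻¹ : K) := invertibleOfNonzero (inv_ne_zero ht0)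
  have hinv : ⅟(t⁻¹ : K) = t := by rw [invOf_eq_inv, inv_inv]
  set N := g.natDegree with hN
  have key := eval₂_reflect_mul_pow (algebraMap A₀ K) (t⁻¹ : K) N g le_rfl
  rw [hinv] at key
  -- `z * t ^ N = aeval t (reflect N g)`
  have h1 : aeval t (f * X ^ N) = aeval t (reflect N g) := by
    have hz : z = eval₂ (algebraMap A₀ K) t⁻¹ g := by
      rw [← hg]; rfl
    have hz' : z = aeval t f := by rw [← hf]; rfl
    rw [map_mul, map_pow, aeval_X, ← hz', hz, ← key, aeval_def, mul_assoc, ← mul_pow,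
      inv_mul_cancel₀ ht0, one_pow, mul_one]
  have h2 : f * X ^ N = reflect N g := (transcendental_iff_injective.mp ht) h1
  by_cases hf0 : f = 0
  · refine ⟨0, ?_⟩
    rw [map_zero, ← show aeval t f = z from hf, hf0, map_zero]
  have hdeg : (f * X ^ N).natDegree = f.natDegree + N := by
    rw [natDegree_mul hf0 (pow_ne_zero _ X_ne_zero), natDegree_X_pow]
  have hle : (reflect N g).natDegree ≤ N := by
    have := natDegree_reflect_le (N := N) (p := g)
    rwa [max_self] at this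
  rw [← h2, hdeg] at hle
  have hf_deg : f.natDegree = 0 := by omega
  obtain ⟨a, ha⟩ := natDegree_eq_zero.mp hf_deg
  refine ⟨a, ?_⟩
  rw [← show aeval t f = z from hf, ← ha, aeval_C]

end Fermat.Agent.INJ


end ZBINJ_031_0

/-! ### bundled: `Fermat.Agent.INJ.ZariskiCharts` -/
section ZBINJ_031_1

/-!
# INJ A6-concrete: Zariski connectedness for the three charts of a cover of the line

`zariski_connected_charts`: `A₀` a DVR with fraction field `E` (char 0), `L/E(t)` finite, `E`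
algebraically closed in `L`; `C₁, C₂, C₁₂` the integral closures of `A₀[t]`, `A₀[t⁻¹]`,
`A₀[t, t⁻¹]` in `L`.  A pair of idempotents modulo `π` on the two charts that agree on the overlap
is trivial.  This instantiates `zariski_connected` (Zariski.lean) using `zariski_bdd`
(ZariskiBdd.lean) and `adjoin_inter_adjoin_inv` (ZariskiConst.lean).
-/

set_option autoImplicit false
set_option linter.unusedSectionVars false
set_option linter.style.haveILetI false

namespace Fermat.Agent.INJ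

open Polynomial IntermediateField

section Basic

variable {A₀ L : Type*} [CommRing A₀] [Field L] [Algebra A₀ L]

/-- Integrality over a subalgebra is monotone in the subalgebra. -/
theorem zch_isIntegral_mono {S S' : Subalgebra A₀ L} (h : S ≤ S') {x : L}
    (hx : IsIntegral S x) : IsIntegral S' x := by
  obtain ⟨p, hp, hpx⟩ := hx
  refine ⟨p.map (Subalgebra.inclusion h).toRingHom, hp.map _, ?_⟩
  rw [eval₂_map]
  exact hpx

/-- Elements of `A₀[u, u']` (with `u u' = 1`) are moved into `A₀[u]` by large powers of `u`. -/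
theorem zch_pow_mul_mem {u u' : L} (huu' : u * u' = 1) {c : L}
    (hc : c ∈ Algebra.adjoin A₀ {u, u'}) :
    ∃ s : ℕ, ∀ s', s ≤ s' → u ^ s' * c ∈ Algebra.adjoin A₀ {u} := by
  have hu : u ∈ Algebra.adjoin A₀ {u} := Algebra.subset_adjoin (Set.mem_singleton u)
  induction hc using Algebra.adjoin_induction with
  | mem x hx =>
    rcases hx with rfl | rfl
    · exact ⟨0, fun s' _ => Subalgebra.mul_mem _ (Subalgebra.pow_mem _ hu _) hu⟩
    · refine ⟨1, fun s' hs' => ?_⟩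
      obtain ⟨d, rfl⟩ := Nat.exists_eq_add_of_le hs'
      have : u ^ (1 + d) * x = u ^ d := by
        rw [pow_add, pow_one, mul_comm u (u ^ d), mul_assoc, huu', mul_one]
      rw [this]
      exact Subalgebra.pow_mem _ hu _
  | algebraMap r =>
    exact ⟨0, fun s' _ => Subalgebra.mul_mem _ (Subalgebra.pow_mem _ hu _)
      (Subalgebra.algebraMap_mem _ r)⟩
  | add x y _ _ hx hy =>
    obtain ⟨s₁, h₁⟩ := hx
    obtain ⟨s₂, h₂⟩ := hy
    refine ⟨max s₁ s₂, fun s' hs' => ?_⟩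
    rw [mul_add]
    exact Subalgebra.add_mem _ (h₁ s' (le_trans (le_max_left _ _) hs'))
      (h₂ s' (le_trans (le_max_right _ _) hs'))
  | mul x y _ _ hx hy =>
    obtain ⟨s₁, h₁⟩ := hx
    obtain ⟨s₂, h₂⟩ := hy
    refine ⟨s₁ + s₂, fun s' hs' => ?_⟩
    obtain ⟨d, rfl⟩ := Nat.exists_eq_add_of_le hs'
    have : u ^ (s₁ + s₂ + d) * (x * y) = (u ^ (s₁ + d) * x) * (u ^ s₂ * y) := by
      rw [pow_add, pow_add, pow_add]; ring
    rw [this]
    exact Subalgebra.mul_mem _ (h₁ _ (Nat.le_add_right _ _)) (h₂ _ le_rfl)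

/-- An element integral over `A₀[u, u⁻¹]` becomes integral over `A₀[u]` after multiplication
by a power of `u`. -/
theorem zch_exists_pow_mul_isIntegral {u u' : L} (huu' : u * u' = 1) {x : L}
    (hx : IsIntegral (Algebra.adjoin A₀ {u, u'}) x) :
    ∃ s : ℕ, IsIntegral (Algebra.adjoin A₀ {u}) (u ^ s * x) := by
  classical
  obtain ⟨p, hp, hpx⟩ := hx
  set R₁ : Subalgebra A₀ L := Algebra.adjoin A₀ {u} with hR₁
  -- uniform exponent
  have hex : ∀ i : ℕ, ∃ s : ℕ, ∀ s', s ≤ s' → u ^ s' * ((p.coeff i : Algebra.adjoin A₀ {u, u'}) : L)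
      ∈ R₁ := fun i => zch_pow_mul_mem huu' (p.coeff i).2
  choose s₀ hs₀ using hex
  set s : ℕ := ∑ i ∈ Finset.range (p.natDegree + 1), s₀ i with hs
  have hsle : ∀ i, i ≤ p.natDegree → s₀ i ≤ s := fun i hi =>
    Finset.single_le_sum (f := s₀) (fun _ _ => Nat.zero_le _)
      (Finset.mem_range.mpr (Nat.lt_succ_of_le hi))
  -- the scaled polynomial over `L`
  set P : L[X] := p.map (algebraMap (Algebra.adjoin A₀ {u, u'}) L) with hP
  have hPm : P.Monic := hp.map _
  have hPdeg : P.natDegree = p.natDegree := hp.natDegree_map _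
  set Q : L[X] := scaleRoots P (u ^ s) with hQ
  have hQm : Q.Monic := (monic_scaleRoots_iff _).mpr hPm
  have hQx : eval (u ^ s * x) Q = 0 := by
    rw [hQ, scaleRoots_eval_mul, hP, eval_map, hpx, mul_zero]
  have hQlift : Q ∈ Polynomial.lifts (algebraMap R₁ L) := by
    rw [Polynomial.lifts_iff_coeff_lifts]
    intro i
    rw [hQ, coeff_scaleRoots, hPdeg]
    rcases lt_trichotomy i p.natDegree with hi | hi | hi
    · have h1 : (u ^ s) ^ (p.natDegree - i) = u ^ (s * (p.natDegree - i)) := by rw [← pow_mul]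
      have h2 : s₀ i ≤ s * (p.natDegree - i) :=
        le_trans (hsle i hi.le) (Nat.le_mul_of_pos_right _ (Nat.sub_pos_of_lt hi))
      have h3 := hs₀ i _ h2
      rw [hP, coeff_map, h1, mul_comm]
      exact ⟨⟨_, h3⟩, rfl⟩
    · rw [hi, Nat.sub_self, pow_zero, mul_one, ← hPdeg, hPm.coeff_natDegree]
      exact ⟨1, map_one _⟩
    · rw [coeff_eq_zero_of_natDegree_lt (by rw [hPdeg]; exact hi), zero_mul]
      exact ⟨0, map_zero _⟩
  obtain ⟨q, hq, -, hqm⟩ := Polynomial.lifts_and_natDegree_eq_and_monic hQlift hQm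
  refine ⟨s, q, hqm, ?_⟩
  rw [← eval_map, hq]
  exact hQx

end Basic

section Chart

variable {A₀ E L : Type*} [CommRing A₀] [IsDomain A₀] [IsDiscreteValuationRing A₀]
  [Field E] [Algebra A₀ E] [IsFractionRing A₀ E]
  [Field L] [Algebra E L] [Algebra A₀ L] [IsScalarTower A₀ E L]

theorem zch_transcendental {u : L} (hu : Transcendental E u) : Transcendental A₀ u :=
  hu.restrictScalars (IsFractionRing.injective A₀ E)

include E in
theorem zch_algebraMap_injective : Function.Injective (algebraMap A₀ L) := by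
  rw [IsScalarTower.algebraMap_eq A₀ E L]
  exact (algebraMap E L).injective.comp (IsFractionRing.injective A₀ E)

theorem zch_aeval_integerNormalization (u : L) (r : E[X]) :
    ∃ b : A₀, b ≠ 0 ∧ ∃ r' : A₀[X], aeval u r' = algebraMap A₀ L b * aeval u r := by
  obtain ⟨b, hb, hr⟩ := IsLocalization.integerNormalization_spec (nonZeroDivisors A₀) r
  refine ⟨b, nonZeroDivisors.ne_zero hb, IsLocalization.integerNormalization (nonZeroDivisors A₀) r, ?_⟩
  have hsm : b • r = C (algebraMap A₀ E b) * r := by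
    rw [Algebra.smul_def]; rfl
  rw [← aeval_map_algebraMap E u, hr, hsm, map_mul, aeval_C,
    ← IsScalarTower.algebraMap_apply A₀ E L]

/-- Every element of `E(u)` is a quotient of two polynomials in `u` with coefficients in `A₀`. -/
theorem zch_exists_div (u : L) {z : L} (hz : z ∈ E⟮u⟯) :
    ∃ x y : A₀[X], z = aeval u x / aeval u y := by
  obtain ⟨r, s, rfl⟩ := (mem_adjoin_simple_iff E z).mp hz
  obtain ⟨br, hbr, r', hr'⟩ := zch_aeval_integerNormalization (A₀ := A₀) u r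
  obtain ⟨bs, hbs, s', hs'⟩ := zch_aeval_integerNormalization (A₀ := A₀) u s
  have hinj := zch_algebraMap_injective (A₀ := A₀) (E := E) (L := L)
  have hbr' : algebraMap A₀ L br ≠ 0 := (map_ne_zero_iff _ hinj).mpr hbr
  have hbs' : algebraMap A₀ L bs ≠ 0 := (map_ne_zero_iff _ hinj).mpr hbs
  refine ⟨C bs * r', C br * s', ?_⟩
  rw [map_mul, map_mul, aeval_C, aeval_C, hr', hs']
  rw [show algebraMap A₀ L bs * (algebraMap A₀ L br * aeval u r)
      = (algebraMap A₀ L bs * algebraMap A₀ L br) * aeval u r by ring,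
    show algebraMap A₀ L br * (algebraMap A₀ L bs * aeval u s)
      = (algebraMap A₀ L bs * algebraMap A₀ L br) * aeval u s by ring,
    mul_div_mul_left _ _ (mul_ne_zero hbs' hbr')]

/-- Integrality over `A₀[u] ⊆ L` in terms of the polynomial ring. -/
theorem zch_isIntegral_iff (u : L) (x : L) :
    IsIntegral (Algebra.adjoin A₀ {u}) x ↔
      (aeval u : A₀[X] →ₐ[A₀] L).toRingHom.IsIntegralElem x := by
  have hrange : ∀ y : Algebra.adjoin A₀ {u}, ∃ f : A₀[X], aeval u f = (y : L) := by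
    intro y
    have h : (y : L) ∈ (aeval u : A₀[X] →ₐ[A₀] L).range := by
      rw [← Algebra.adjoin_singleton_eq_range_aeval]
      exact y.2
    exact h
  constructor
  · rintro ⟨p, hp, hpx⟩
    -- lift the coefficients
    set P : L[X] := p.map (algebraMap (Algebra.adjoin A₀ {u}) L) with hP
    have hPm : P.Monic := hp.map _
    have hlift : P ∈ Polynomial.lifts (aeval u : A₀[X] →ₐ[A₀] L).toRingHom := by
      rw [Polynomial.lifts_iff_coeff_lifts]
      intro i
      rw [hP, coeff_map]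
      obtain ⟨f, hf⟩ := hrange (p.coeff i)
      exact ⟨f, hf⟩
    obtain ⟨q, hq, -, hqm⟩ := Polynomial.lifts_and_natDegree_eq_and_monic hlift hPm
    refine ⟨q, hqm, ?_⟩
    rw [← eval_map, hq, hP, eval_map]
    exact hpx
  · rintro ⟨q, hqm, hqx⟩
    let ψ : A₀[X] →+* Algebra.adjoin A₀ {u} :=
      ((aeval u : A₀[X] →ₐ[A₀] L).codRestrict (Algebra.adjoin A₀ {u}) (fun f => by
        rw [Algebra.adjoin_singleton_eq_range_aeval]; exact ⟨f, rfl⟩)).toRingHom
    refine ⟨q.map ψ, hqm.map _, ?_⟩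
    rw [eval₂_map]
    exact hqx


/-- Coefficients of the minimal polynomial over `E(u)` of an element integral over `A₀[u]`. -/
theorem zch_minpoly_coeff_mem {u : L} (hu : Transcendental E u) {z : L}
    (hz : IsIntegral (Algebra.adjoin A₀ {u}) z) (K : IntermediateField E L) (hK : K = E⟮u⟯)
    (i : ℕ) :
    (((minpoly K z).coeff i : K) : L) ∈ Algebra.adjoin A₀ {u} := by
  subst hK
  have huA : Transcendental A₀ u := zch_transcendental hu
  set gen : E⟮u⟯ := AdjoinSimple.gen E u with hgen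
  haveI : IsScalarTower A₀ E⟮u⟯ L := IsScalarTower.of_algebraMap_eq (fun _ => rfl)
  letI algK : Algebra A₀[X] E⟮u⟯ := (aeval gen : A₀[X] →ₐ[A₀] E⟮u⟯).toRingHom.toAlgebra
  letI algL : Algebra A₀[X] L := (aeval u : A₀[X] →ₐ[A₀] L).toRingHom.toAlgebra
  have hKL : ∀ f : A₀[X], ((aeval gen f : E⟮u⟯) : L) = aeval u f := by
    intro f
    have := aeval_algHom_apply (IsScalarTower.toAlgHom A₀ E⟮u⟯ L) gen f
    exact this.symm
  haveI : IsScalarTower A₀[X] E⟮u⟯ L := IsScalarTower.of_algebraMap_eq (fun f => (hKL f).symm)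
  have hinjL : Function.Injective (aeval u : A₀[X] →ₐ[A₀] L) :=
    transcendental_iff_injective.mp huA
  have hinjK : Function.Injective (algebraMap A₀[X] E⟮u⟯) := by
    intro f g hfg
    apply hinjL
    rw [← hKL f, ← hKL g]
    exact congrArg _ hfg
  haveI : FaithfulSMul A₀[X] E⟮u⟯ := (faithfulSMul_iff_algebraMap_injective _ _).mpr hinjK
  haveI : IsFractionRing A₀[X] E⟮u⟯ := IsFractionRing.of_field A₀[X] E⟮u⟯ (fun z => by
    obtain ⟨x, y, hxy⟩ := zch_exists_div (A₀ := A₀) u z.2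
    refine ⟨x, y, Subtype.ext ?_⟩
    rw [hxy]
    show _ = ((aeval gen x / aeval gen y : E⟮u⟯) : L)
    rw [IntermediateField.coe_div, hKL, hKL])
  have hzi : IsIntegral A₀[X] z := (zch_isIntegral_iff u z).mp hz
  have h := minpoly.isIntegrallyClosed_eq_field_fractions' E⟮u⟯ hzi
  rw [h, coeff_map]
  show ((aeval gen _ : E⟮u⟯) : L) ∈ _
  rw [hKL, Algebra.adjoin_singleton_eq_range_aeval]
  exact ⟨_, rfl⟩


/-- `E(t) = E(t⁻¹)`. -/
theorem zch_adjoin_inv (t : L) : E⟮t⟯ = E⟮t⁻¹⟯ := by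
  apply le_antisymm
  · rw [adjoin_simple_le_iff]
    have h : t⁻¹ ∈ E⟮t⁻¹⟯ := mem_adjoin_simple_self E _
    simpa using inv_mem h
  · rw [adjoin_simple_le_iff]
    exact inv_mem (mem_adjoin_simple_self E t)

/-- `t⁻¹` is transcendental if `t` is. -/
theorem zch_transcendental_inv {t : L} (ht : Transcendental E t) : Transcendental E t⁻¹ := by
  intro h
  apply ht
  have := h.inv
  simpa using this

/-- Constants: an element integral over `A₀[t]` and over `A₀[t⁻¹]` lies in `A₀`. -/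
theorem zch_const {t : L} (ht : Transcendental E t) [FiniteDimensional E⟮t⟯ L]
    (hcl : ∀ x : L, IsAlgebraic E x → x ∈ (algebraMap E L).range) {z : L}
    (h₁ : IsIntegral (Algebra.adjoin A₀ {t}) z) (h₂ : IsIntegral (Algebra.adjoin A₀ {t⁻¹}) z) :
    ∃ a : A₀, algebraMap A₀ L a = z := by
  have hinj := zch_algebraMap_injective (A₀ := A₀) (E := E) (L := L)
  have hzK : IsIntegral E⟮t⟯ z := IsIntegral.of_finite E⟮t⟯ z
  -- all coefficients of the minimal polynomial over `E(t)` lie in `A₀`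
  have hcoeff : ∀ i, ∃ a : A₀, algebraMap A₀ L a = (((minpoly E⟮t⟯ z).coeff i : E⟮t⟯) : L) := by
    intro i
    exact adjoin_inter_adjoin_inv hinj (zch_transcendental ht) _
      (zch_minpoly_coeff_mem ht h₁ E⟮t⟯ rfl i)
      (zch_minpoly_coeff_mem (zch_transcendental_inv ht) h₂ E⟮t⟯ (zch_adjoin_inv t) i)
  set P : L[X] := (minpoly E⟮t⟯ z).map (algebraMap E⟮t⟯ L) with hP
  have hPm : P.Monic := (minpoly.monic hzK).map _
  have hlift : P ∈ Polynomial.lifts (algebraMap A₀ L) := by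
    rw [Polynomial.lifts_iff_coeff_lifts]
    intro i
    rw [hP, coeff_map]
    obtain ⟨a, ha⟩ := hcoeff i
    exact ⟨a, ha⟩
  obtain ⟨q, hq, -, hqm⟩ := Polynomial.lifts_and_natDegree_eq_and_monic hlift hPm
  have hzA : IsIntegral A₀ z := by
    refine ⟨q, hqm, ?_⟩
    rw [← eval_map, hq, hP, eval_map, ← aeval_def, minpoly.aeval]
  have hzE : IsAlgebraic E z := (hzA.tower_top (A := E)).isAlgebraic
  obtain ⟨e, rfl⟩ := hcl z hzE
  have heA : IsIntegral A₀ e :=
    (isIntegral_algebraMap_iff (algebraMap E L).injective).mp hzA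
  obtain ⟨a, rfl⟩ := IsIntegrallyClosed.isIntegral_iff.mp heA
  exact ⟨a, (IsScalarTower.algebraMap_apply A₀ E L a)⟩

/-- Finiteness: the integral closure of `A₀[t]` in `L` is generated, as a module over the
polynomials in `t`, by finitely many elements. -/
theorem zch_finite [CharZero E] {t : L} (ht : Transcendental E t) [FiniteDimensional E⟮t⟯ L] :
    ∃ (m : ℕ) (g : Fin m → L), (∀ i, IsIntegral (Algebra.adjoin A₀ {t}) (g i)) ∧
      ∀ x : L, IsIntegral (Algebra.adjoin A₀ {t}) x →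
        ∃ f : Fin m → A₀[X], x = ∑ i, aeval t (f i) * g i := by
  have huA : Transcendental A₀ t := zch_transcendental ht
  set gen : E⟮t⟯ := AdjoinSimple.gen E t with hgen
  haveI : IsScalarTower A₀ E⟮t⟯ L := IsScalarTower.of_algebraMap_eq (fun _ => rfl)
  letI algK : Algebra A₀[X] E⟮t⟯ := (aeval gen : A₀[X] →ₐ[A₀] E⟮t⟯).toRingHom.toAlgebra
  letI algL : Algebra A₀[X] L := (aeval t : A₀[X] →ₐ[A₀] L).toRingHom.toAlgebra
  have hKL : ∀ f : A₀[X], ((aeval gen f : E⟮t⟯) : L) = aeval t f := by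
    intro f
    have := aeval_algHom_apply (IsScalarTower.toAlgHom A₀ E⟮t⟯ L) gen f
    exact this.symm
  haveI : IsScalarTower A₀[X] E⟮t⟯ L := IsScalarTower.of_algebraMap_eq (fun f => (hKL f).symm)
  have hinjL : Function.Injective (aeval t : A₀[X] →ₐ[A₀] L) :=
    transcendental_iff_injective.mp huA
  have hinjK : Function.Injective (algebraMap A₀[X] E⟮t⟯) := by
    intro f g hfg
    apply hinjL
    rw [← hKL f, ← hKL g]
    exact congrArg _ hfg
  haveI : FaithfulSMul A₀[X] E⟮t⟯ := (faithfulSMul_iff_algebraMap_injective _ _).mpr hinjK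
  haveI : IsFractionRing A₀[X] E⟮t⟯ := IsFractionRing.of_field A₀[X] E⟮t⟯ (fun z => by
    obtain ⟨x, y, hxy⟩ := zch_exists_div (A₀ := A₀) t z.2
    refine ⟨x, y, Subtype.ext ?_⟩
    rw [hxy]
    show _ = ((aeval gen x / aeval gen y : E⟮t⟯) : L)
    rw [IntermediateField.coe_div, hKL, hKL])
  haveI : Module.Finite A₀[X] (integralClosure A₀[X] L) :=
    IsIntegralClosure.finite A₀[X] E⟮t⟯ L (integralClosure A₀[X] L)
  obtain ⟨m, s, hs⟩ := Module.Finite.exists_fin (R := A₀[X]) (M := integralClosure A₀[X] L)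
  refine ⟨m, fun i => (s i : L), fun i => (zch_isIntegral_iff t _).mpr (s i).2, fun x hx => ?_⟩
  have hx' : IsIntegral A₀[X] x := (zch_isIntegral_iff t x).mp hx
  have hmem : (⟨x, hx'⟩ : integralClosure A₀[X] L) ∈ Submodule.span A₀[X] (Set.range s) := by
    rw [hs]; exact Submodule.mem_top
  obtain ⟨c, hc⟩ := (Submodule.mem_span_range_iff_exists_fun A₀[X]).mp hmem
  refine ⟨c, ?_⟩
  have := congrArg (fun y : integralClosure A₀[X] L => (y : L)) hc
  simp only [AddSubmonoidClass.coe_finsetSum] at this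
  rw [← this]
  refine Finset.sum_congr rfl fun i _ => ?_
  rfl

end Chart

section Main

variable {A₀ E L : Type*} [CommRing A₀] [IsDomain A₀] [IsDiscreteValuationRing A₀]
  [Field E] [Algebra A₀ E] [IsFractionRing A₀ E] [CharZero E]
  [Field L] [Algebra E L] [Algebra A₀ L] [IsScalarTower A₀ E L]

/-- The integral closure of `A₀[S]` in `L`, as an `A₀`-subalgebra. -/
def zchClosure (S : Set L) : Subalgebra A₀ L :=
  (integralClosure (Algebra.adjoin A₀ S) L).restrictScalars A₀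

theorem mem_zchClosure {S : Set L} {x : L} :
    x ∈ zchClosure (A₀ := A₀) S ↔ IsIntegral (Algebra.adjoin A₀ S) x := Iff.rfl

/-- **A6-concrete.** Zariski connectedness for the charts `A₀[t]`, `A₀[t⁻¹]`, `A₀[t, t⁻¹]`. -/
theorem zariski_connected_charts
    {π : A₀} (hπ : Irreducible π)
    {t : L} (ht : Transcendental E t)
    [FiniteDimensional (IntermediateField.adjoin E {t}) L]
    (hcl : ∀ x : L, IsAlgebraic E x → x ∈ (algebraMap E L).range)
    {e₁ e₂ : L}
    (he₁ : IsIntegral (Algebra.adjoin A₀ {t}) e₁) (he₂ : IsIntegral (Algebra.adjoin A₀ {t⁻¹}) e₂)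
    (hid₁ : ∃ c₁ : L, IsIntegral (Algebra.adjoin A₀ {t}) c₁ ∧
      e₁ * e₁ - e₁ = algebraMap A₀ L π * c₁)
    (hid₂ : ∃ c₂ : L, IsIntegral (Algebra.adjoin A₀ {t⁻¹}) c₂ ∧
      e₂ * e₂ - e₂ = algebraMap A₀ L π * c₂)
    (hcomp : ∃ c : L, IsIntegral (Algebra.adjoin A₀ {t, t⁻¹}) c ∧
      e₁ - e₂ = algebraMap A₀ L π * c) :
    (∃ y₁ : L, IsIntegral (Algebra.adjoin A₀ {t}) y₁ ∧ e₁ = algebraMap A₀ L π * y₁) ∨
    (∃ y₁ : L, IsIntegral (Algebra.adjoin A₀ {t}) y₁ ∧ e₁ - 1 = algebraMap A₀ L π * y₁) := by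
  have hinj := zch_algebraMap_injective (A₀ := A₀) (E := E) (L := L)
  have ht0 : t ≠ 0 := by
    rintro rfl
    exact ht isAlgebraic_zero
  have htt' : t * t⁻¹ = 1 := mul_inv_cancel₀ ht0
  have ht't : t⁻¹ * t = 1 := inv_mul_cancel₀ ht0
  have hπ0 : algebraMap A₀ L π ≠ 0 := (map_ne_zero_iff _ hinj).mpr hπ.ne_zero
  have hreg : ∀ x : L, algebraMap A₀ L π * x = 0 → x = 0 := fun x hx =>
    (mul_eq_zero.mp hx).resolve_left hπ0
  have hsub₁ : Algebra.adjoin A₀ ({t} : Set L) ≤ Algebra.adjoin A₀ {t, t⁻¹} :=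
    Algebra.adjoin_mono (by intro x hx; exact Or.inl hx)
  have hsub₂ : Algebra.adjoin A₀ ({t⁻¹} : Set L) ≤ Algebra.adjoin A₀ {t, t⁻¹} :=
    Algebra.adjoin_mono (by intro x hx; exact Or.inr hx)
  have hpair : ({t⁻¹, t} : Set L) = {t, t⁻¹} := Set.pair_comm _ _
  -- the finiteness data
  obtain ⟨m, g, hg, hfin⟩ := zch_finite (A₀ := A₀) ht
  -- bounded torsion
  have hbdd := zariski_bdd hπ (zchClosure (A₀ := A₀) {t}) (zchClosure (A₀ := A₀) {t⁻¹})
    (zchClosure (A₀ := A₀) {t, t⁻¹}) htt'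
    (show t ∈ zchClosure (A₀ := A₀) {t} from
      mem_zchClosure.mpr (isIntegral_algebraMap (R := Algebra.adjoin A₀ ({t} : Set L))
        (x := ⟨t, Algebra.subset_adjoin (Set.mem_singleton t)⟩)))
    (show t⁻¹ ∈ zchClosure (A₀ := A₀) {t⁻¹} from
      mem_zchClosure.mpr (isIntegral_algebraMap (R := Algebra.adjoin A₀ ({t⁻¹} : Set L))
        (x := ⟨t⁻¹, Algebra.subset_adjoin (Set.mem_singleton _)⟩)))
    g hg (fun x hx => hfin x hx)
    (fun b hb => zch_exists_pow_mul_isIntegral htt' hb)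
    (fun i => by
      have h := zch_isIntegral_mono hsub₁ (hg i)
      rw [← hpair] at h
      have := zch_exists_pow_mul_isIntegral (A₀ := A₀) ht't h
      exact this)
  obtain ⟨c₁, hc₁, hid₁⟩ := hid₁
  obtain ⟨c₂, hc₂, hid₂⟩ := hid₂
  obtain ⟨c, hc, hcomp⟩ := hcomp
  rcases zariski_connected hπ hreg (zchClosure (A₀ := A₀) {t}) (zchClosure (A₀ := A₀) {t⁻¹})
    (zchClosure (A₀ := A₀) {t, t⁻¹})
    (fun x hx => zch_isIntegral_mono hsub₁ hx) (fun x hx => zch_isIntegral_mono hsub₂ hx)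
    (fun z hz₁ hz₂ => zch_const ht hcl hz₁ hz₂) hbdd he₁ he₂
    ⟨c₁, hc₁, hid₁⟩ ⟨c₂, hc₂, hid₂⟩ ⟨c, hc, hcomp⟩ with
    ⟨y₁, hy₁, -, -, h1, -⟩ | ⟨y₁, hy₁, -, -, h1, -⟩
  · exact Or.inl ⟨y₁, hy₁, h1⟩
  · exact Or.inr ⟨y₁, hy₁, h1⟩

end Main

end Fermat.Agent.INJ


end ZBINJ_031_1

/-! ### bundled: `Fermat.Agent.INJ.ChartFinite` -/
section ZBINJ_031_2

/-!
# (INJ) glue piece T1, items (3) and (6): finiteness of the integral closure of the chart ring

Setting as in `ChartBasics.lean`: `A₀` a DVR with fraction field `E` (char 0), `Lf ⊇ E` a field,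
`τ : Lf` transcendental over `E`, `R := Algebra.adjoin A₀ {τ}`, `C := integralClosure R Lf`,
`[FiniteDimensional E⟮τ⟯ Lf]`.

* (3) `chart_finite : Module.Finite R C`, `chart_closure_isNoetherianRing : IsNoetherianRing C`,
      `chart_closure_isNoetherian : IsNoetherian R C`.
* (6) `chart_exists_pow_mul_integral` : `x` integral over `A₀[τ, τ⁻¹]` ⇒ `τ ^ k * x` integral
      over `A₀[τ]` for some `k` (wrapper around helper99's `zch_exists_pow_mul_isIntegral`).
-/

set_option autoImplicit false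
set_option linter.style.haveILetI false
set_option linter.unusedSectionVars false

namespace Fermat.Agent.INJ

open Polynomial IntermediateField

section ChartFinite

universe u

variable {A₀ E Lf : Type u} [CommRing A₀] [IsDomain A₀] [IsDiscreteValuationRing A₀]
  [Field E] [Algebra A₀ E] [IsFractionRing A₀ E] [CharZero E]
  [Field Lf] [Algebra E Lf] [Algebra A₀ Lf] [IsScalarTower A₀ E Lf]
  {τ : Lf}

/-- (3) the integral closure of `A₀[τ]` in `Lf` is a finite `A₀[τ]`-module. -/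
theorem chart_finite (hτ : Transcendental E τ) [FiniteDimensional E⟮τ⟯ Lf] :
    Module.Finite ↥(Algebra.adjoin A₀ {τ}) ↥(integralClosure ↥(Algebra.adjoin A₀ {τ}) Lf) := by
  letI : Algebra ↥(Algebra.adjoin A₀ {τ}) E⟮τ⟯ := (ChartGB.chartIncl (A₀ := A₀) (E := E) τ).toAlgebra
  haveI : IsScalarTower ↥(Algebra.adjoin A₀ {τ}) E⟮τ⟯ Lf :=
    IsScalarTower.of_algebraMap_eq (fun _ => rfl)
  haveI := ChartGB.isFractionRing_adjoinSimple (A₀ := A₀) (E := E) τ
  haveI := chart_isIntegrallyClosed (A₀ := A₀) (E := E) hτ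
  haveI := chart_isNoetherianRing (A₀ := A₀) (E := E) hτ
  haveI : CharZero E⟮τ⟯ := charZero_of_injective_algebraMap (algebraMap E E⟮τ⟯).injective
  haveI : Algebra.IsSeparable E⟮τ⟯ Lf := inferInstance
  exact IsIntegralClosure.finite ↥(Algebra.adjoin A₀ {τ}) E⟮τ⟯ Lf
    ↥(integralClosure ↥(Algebra.adjoin A₀ {τ}) Lf)

/-- (3) the integral closure of `A₀[τ]` in `Lf` is a noetherian `A₀[τ]`-module. -/
theorem chart_closure_isNoetherian (hτ : Transcendental E τ) [FiniteDimensional E⟮τ⟯ Lf] :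
    IsNoetherian ↥(Algebra.adjoin A₀ {τ}) ↥(integralClosure ↥(Algebra.adjoin A₀ {τ}) Lf) := by
  haveI := chart_isNoetherianRing (A₀ := A₀) (E := E) hτ
  haveI := chart_finite (A₀ := A₀) (E := E) hτ
  exact isNoetherian_of_isNoetherianRing_of_finite _ _

/-- (3) the integral closure of `A₀[τ]` in `Lf` is a noetherian ring. -/
theorem chart_closure_isNoetherianRing (hτ : Transcendental E τ) [FiniteDimensional E⟮τ⟯ Lf] :
    IsNoetherianRing ↥(integralClosure ↥(Algebra.adjoin A₀ {τ}) Lf) := by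
  haveI := chart_isNoetherianRing (A₀ := A₀) (E := E) hτ
  haveI := chart_finite (A₀ := A₀) (E := E) hτ
  exact IsNoetherianRing.of_finite ↥(Algebra.adjoin A₀ {τ}) _

/-- (6) an element integral over `A₀[τ, τ⁻¹]` becomes integral over `A₀[τ]` after multiplication
by a power of `τ`.  (No hypothesis on `τ` is needed.) -/
theorem chart_exists_pow_mul_integral (τ : Lf) (x : Lf)
    (hx : IsIntegral ↥(Algebra.adjoin A₀ {τ, τ⁻¹}) x) :
    ∃ k : ℕ, IsIntegral ↥(Algebra.adjoin A₀ {τ}) (τ ^ k * x) := by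
  by_cases h0 : τ = 0
  · subst h0
    refine ⟨0, ?_⟩
    rw [pow_zero, one_mul]
    have hS : ({0, (0 : Lf)⁻¹} : Set Lf) = {0} := by simp
    rw [hS] at hx
    exact hx
  · exact zch_exists_pow_mul_isIntegral (mul_inv_cancel₀ h0) hx

end ChartFinite

end Fermat.Agent.INJ


end ZBINJ_031_2

/-! ### bundled: `Fermat.Agent.INJ.ChartInvBasis` -/
section ZBINJ_031_3
/-
INJ / Part A, glue piece for A5/T6 (helper29): the chart at infinity.

`tsGoodBasis_inv` : hypothesis `(a)` (`TSGoodBasis`, `INJ/TSStmt.lean`) for the coordinate `t`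
implies hypothesis `(a)` for the coordinate `t⁻¹`: basis `b' = t⁻ᵏ • b` (`k` large), discriminant
`d' = reflect (k * (2 n)) d`, using `E⟮t⟯ = E⟮t⁻¹⟯` (`zch_adjoin_inv`).

Tools: `discr_smul`, `aeval_inv_reflect`, `not_C_dvd_reflect`, `exists_pow_inv_mul_isIntegral`.
-/

set_option autoImplicit false
set_option linter.unusedSectionVars false
set_option linter.style.haveILetI false
set_option linter.unusedVariables false

open Polynomial Module IntermediateField

namespace Fermat.Agent.INJ.ChartInv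

section Discr

variable {K L : Type*} [Field K] [Field L] [Algebra K L]

/-- discriminant of a scalar multiple of a family -/
theorem discr_smul {n : ℕ} (c : K) (b : Fin n → L) :
    Algebra.discr K (fun i => c • b i) = c ^ (2 * n) * Algebra.discr K b := by
  have h : Algebra.traceMatrix K (fun i => c • b i) = (c ^ 2) • Algebra.traceMatrix K b := by
    ext i j
    rw [Matrix.smul_apply, Algebra.traceMatrix_apply, Algebra.traceMatrix_apply,
      Algebra.traceForm_apply, Algebra.traceForm_apply, smul_mul_smul_comm, map_smul, smul_eq_mul,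
      smul_eq_mul, pow_two]
  rw [Algebra.discr_def, h, Matrix.det_smul, Fintype.card_fin, ← pow_mul, Algebra.discr_def]

end Discr

section Reflect

variable {A L : Type*} [CommRing A] [Field L] [Algebra A L]

theorem aeval_inv_reflect {t : L} (ht : t ≠ 0) (N : ℕ) (d : A[X]) (hd : d.natDegree ≤ N) :
    aeval t⁻¹ (reflect N d) = (t⁻¹) ^ N * aeval t d := by
  letI := invertibleOfNonzero ht
  have h := eval₂_reflect_mul_pow (algebraMap A L) t N d hd
  rw [invOf_eq_inv] at h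
  rw [aeval_def, aeval_def, ← h, inv_pow, mul_comm, mul_assoc, mul_inv_cancel₀ (pow_ne_zero N ht),
    mul_one]

theorem not_C_dvd_reflect {π : A} {d : A[X]} (N : ℕ) (h : ¬ C π ∣ d) : ¬ C π ∣ reflect N d := by
  rintro ⟨g, hg⟩
  apply h
  refine ⟨reflect N g, ?_⟩
  have := congrArg (reflect N) hg
  rw [reflect_reflect, reflect_C_mul] at this
  exact this

end Reflect

section Main

universe u

variable {A₀ E Lf : Type u} [CommRing A₀] [IsDomain A₀] [IsDiscreteValuationRing A₀]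
  [Field E] [Algebra A₀ E] [IsFractionRing A₀ E]
  [Field Lf] [Algebra E Lf] [Algebra A₀ Lf] [IsScalarTower A₀ E Lf]

/-- integrality over `A₀[t⁻¹]` after multiplication by a large power of `t⁻¹`, uniformly -/
theorem exists_pow_inv_mul_isIntegral {t : Lf} (ht0 : t ≠ 0) {x : Lf}
    (hx : IsIntegral (Algebra.adjoin A₀ {t}) x) :
    ∃ s : ℕ, ∀ s', s ≤ s' → IsIntegral (Algebra.adjoin A₀ {t⁻¹}) ((t⁻¹) ^ s' * x) := by
  have hle : Algebra.adjoin A₀ {t} ≤ Algebra.adjoin A₀ {t⁻¹, t} :=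
    Algebra.adjoin_mono (by intro y hy; right; exact hy)
  obtain ⟨s, hs⟩ := zch_exists_pow_mul_isIntegral (A₀ := A₀) (u := t⁻¹) (u' := t)
    (inv_mul_cancel₀ ht0) (zch_isIntegral_mono hle hx)
  refine ⟨s, fun s' hs' => ?_⟩
  obtain ⟨e, rfl⟩ := Nat.exists_eq_add_of_le hs'
  have h1 : (t⁻¹) ^ (s + e) * x = (t⁻¹) ^ e * ((t⁻¹) ^ s * x) := by
    rw [pow_add]; ring
  rw [h1]
  have hmem : (t⁻¹) ^ e ∈ Algebra.adjoin A₀ {t⁻¹} :=
    Subalgebra.pow_mem _ (Algebra.subset_adjoin (Set.mem_singleton _)) _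
  have h2 : IsIntegral (Algebra.adjoin A₀ {t⁻¹}) ((t⁻¹) ^ e) := by
    have := isIntegral_algebraMap (R := Algebra.adjoin A₀ {t⁻¹}) (A := Lf) (x := ⟨_, hmem⟩)
    exact this
  exact h2.mul hs

/-- **Chart at infinity**: hypothesis `(a)` for the coordinate `t` implies hypothesis `(a)` for
the coordinate `t⁻¹` (basis `t⁻ᵏ • b`, discriminant `reflect (2kn) d`). -/
theorem tsGoodBasis_inv {π : A₀} (hπ : Irreducible π) {t : Lf} (ht : Transcendental E t)
    [FiniteDimensional E⟮t⟯ Lf] (h : TSGoodBasis (E := E) π t) :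
    TSGoodBasis (E := E) π t⁻¹ := by
  classical
  obtain ⟨n, b, d, hli, hsp, hint, hd, hdisc⟩ := h
  have ht0 : t ≠ 0 := by
    rintro rfl
    exact ht (isAlgebraic_zero)
  -- `n ≥ 1`
  have hn : 1 ≤ n := by
    by_contra hn0
    have hn0' : n = 0 := by omega
    subst hn0'
    have hr : Set.range b = ∅ := Set.range_eq_empty b
    rw [hr, Submodule.span_empty] at hsp
    have h1 : (1 : Lf) ∈ (⊥ : Submodule E⟮t⟯ Lf) := by rw [hsp]; trivial
    exact one_ne_zero ((Submodule.mem_bot _).1 h1)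
  -- the uniform exponent
  choose s₀ hs₀ using fun i => exists_pow_inv_mul_isIntegral (A₀ := A₀) ht0 (hint i)
  set k : ℕ := d.natDegree + ∑ i, s₀ i with hk
  have hks : ∀ i, s₀ i ≤ k := fun i =>
    le_trans (Finset.single_le_sum (f := s₀) (fun _ _ => Nat.zero_le _) (Finset.mem_univ i))
      (Nat.le_add_left _ _)
  have hkd : d.natDegree ≤ k * (2 * n) := by
    have : k ≤ k * (2 * n) := Nat.le_mul_of_pos_right _ (by omega)
    exact le_trans (Nat.le_add_right _ _) this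
  -- the scalar `c = t⁻ᵏ ∈ E(t)`
  have htK : t⁻¹ ∈ E⟮t⟯ := inv_mem (mem_adjoin_simple_self E t)
  set cK : E⟮t⟯ := (⟨t⁻¹, htK⟩ : E⟮t⟯) ^ k with hcK
  have hcK0 : cK ≠ 0 := by
    apply pow_ne_zero
    intro h0
    have := congrArg (fun z : E⟮t⟯ => (z : Lf)) h0
    exact inv_ne_zero ht0 this
  have hcKL : (cK : Lf) = (t⁻¹) ^ k := by
    rw [hcK]; rfl
  set b' : Fin n → Lf := fun i => cK • b i with hb'
  have hb'L : ∀ i, b' i = (t⁻¹) ^ k * b i := fun i => by
    rw [hb', ← hcKL]; rfl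
  -- statement over `E(t)`
  have hli' : LinearIndependent E⟮t⟯ b' := by
    have := hli.units_smul (fun _ => Units.mk0 cK hcK0)
    exact this
  have hsp' : Submodule.span E⟮t⟯ (Set.range b') = ⊤ := by
    rw [eq_top_iff, ← hsp, Submodule.span_le]
    rintro _ ⟨i, rfl⟩
    have : b i = cK⁻¹ • b' i := by
      rw [hb', smul_smul, inv_mul_cancel₀ hcK0, one_smul]
    rw [this]
    exact Submodule.smul_mem _ _ (Submodule.subset_span ⟨i, rfl⟩)
  have hdisc' : algebraMap E⟮t⟯ Lf (Algebra.discr E⟮t⟯ b') = aeval t⁻¹ (reflect (k * (2 * n)) d) := by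
    rw [hb', discr_smul, map_mul, hdisc, aeval_inv_reflect ht0 _ d hkd, map_pow]
    congr 1
    show (cK : Lf) ^ (2 * n) = _
    rw [hcKL, ← pow_mul]
  -- transport to `E(t⁻¹)`
  have key : ∀ K : IntermediateField E Lf, K = E⟮t⟯ →
      LinearIndependent K b' ∧ Submodule.span K (Set.range b') = ⊤ ∧
        algebraMap K Lf (Algebra.discr K b') = aeval t⁻¹ (reflect (k * (2 * n)) d) := by
    rintro K rfl
    exact ⟨hli', hsp', hdisc'⟩
  obtain ⟨h1, h2, h3⟩ := key E⟮t⁻¹⟯ (zch_adjoin_inv t).symm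
  refine ⟨n, b', reflect (k * (2 * n)) d, h1, h2, fun i => ?_, not_C_dvd_reflect _ hd, h3⟩
  rw [hb'L]
  exact hs₀ i k (hks i)

end Main

end Fermat.Agent.INJ.ChartInv


end ZBINJ_031_3

/-! ### bundled: `Fermat.Agent.UNIP.ExplicitIdem` -/
section ZBINJ_031_4

/-!
# UNIP D4: explicit idempotents (Step 2 (b)–(d) of the direct route for S34)

Setting of `Fermat.Agent.INJ.zariski_connected_charts`: `A₀` a DVR with uniformizer `π` and
fraction field `E` (char 0), `L / E(t)` finite, `E` algebraically closed in `L`;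
`C₁ = zchClosure {t}`, `C₂ = zchClosure {t⁻¹}` the integral closures of `A₀[t]`, `A₀[t⁻¹]` in `L`.

For a transcendental `u` (`u = t` or `u = t⁻¹`):
* `eiLoc hu hπ : Subring L` is the semilocal ring `C(u)_(π)` = elements `z` with `s z` integral
  over `A₀[u]` for some `s ∈ A₀[u]` not divisible by `π`;
* `EIPiLoc hu hπ x` says `x ∈ π · C(u)_(π)` ("`x` vanishes on the special fibre").

Main results
* `ei_isIntegral_of_mem_loc` (A1): `z ∈ C(u)_(π)` and `π z` integral ⇒ `z` integral.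
* `ei_exists_global` (b): local approximations of `y` at all closed points of the special fibre of
  a chart give a global `y' ∈ C(u)` with `y − y' ∈ π C(u)_(π)`.
* `ei_dichotomy` (c)+(d): if `yⁿ ≡ 1` on the special fibre (`n` invertible in `A₀`) and `y` has
  local approximations on both charts, then `y ≡ 1` or `1 + y + … + y^{n−1} ≡ 0` on the special
  fibre.
* `ei_false_of_aut`: if moreover a ring endomorphism `ρ` of `L` fixes `A₀` and `t` and
  `ρ y = ζ y` with `ζ ∈ A₀` a primitive `n`-th root of unity, `1 < n`, this is impossible.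
-/

set_option autoImplicit false
set_option linter.unusedSectionVars false
set_option linter.style.haveILetI false

namespace Fermat.Agent.UNIP

open Polynomial IntermediateField Fermat.Agent.INJ

section Loc

variable {A₀ E L : Type*} [CommRing A₀] [IsDomain A₀] [IsDiscreteValuationRing A₀]
  [Field E] [Algebra A₀ E] [IsFractionRing A₀ E] [CharZero E]
  [Field L] [Algebra E L] [Algebra A₀ L] [IsScalarTower A₀ E L]
  {π : A₀} {u : L}

/-- `s ∈ A₀[u]` is not divisible by `π` in `A₀[u]` (statement inside `L`). -/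
def EIPrimeTo (π : A₀) (u : L) (s : L) : Prop :=
  s ∈ Algebra.adjoin A₀ {u} ∧ ∀ r ∈ Algebra.adjoin A₀ {u}, s ≠ algebraMap A₀ L π * r

theorem eiPrimeTo_iff {s : L} (hs : s ∈ Algebra.adjoin A₀ {u}) :
    EIPrimeTo π u s ↔
      ¬ (algebraMap A₀ ↥(Algebra.adjoin A₀ {u}) π ∣ (⟨s, hs⟩ : ↥(Algebra.adjoin A₀ {u}))) := by
  constructor
  · rintro ⟨-, h⟩ ⟨r, hr⟩
    exact h r r.2 (congrArg Subtype.val hr)
  · intro h
    refine ⟨hs, fun r hr hsr => h ⟨⟨r, hr⟩, Subtype.ext hsr⟩⟩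

theorem eiPrimeTo_one (hu : Transcendental E u) (hπ : Irreducible π) : EIPrimeTo π u 1 := by
  have hs : (1 : L) ∈ Algebra.adjoin A₀ {u} := Subalgebra.one_mem _
  rw [eiPrimeTo_iff hs]
  intro h
  have hp := chart_prime (A₀ := A₀) (E := E) hu hπ
  exact hp.not_isUnit (isUnit_of_dvd_one h)

theorem eiPrimeTo_mul (hu : Transcendental E u) (hπ : Irreducible π) {s s' : L}
    (h : EIPrimeTo π u s) (h' : EIPrimeTo π u s') : EIPrimeTo π u (s * s') := by
  have hs := h.1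
  have hs' := h'.1
  have hss' : s * s' ∈ Algebra.adjoin A₀ {u} := Subalgebra.mul_mem _ hs hs'
  rw [eiPrimeTo_iff hs] at h
  rw [eiPrimeTo_iff hs'] at h'
  rw [eiPrimeTo_iff hss']
  intro hd
  have hp := chart_prime (A₀ := A₀) (E := E) hu hπ
  have : (⟨s * s', hss'⟩ : ↥(Algebra.adjoin A₀ {u})) = ⟨s, hs⟩ * ⟨s', hs'⟩ := rfl
  rw [this] at hd
  rcases hp.dvd_or_dvd hd with h1 | h1
  · exact h h1
  · exact h' h1

/-- The uniformizer does not divide `u` in `A₀[u]`. -/
theorem eiPrimeTo_self (hu : Transcendental E u) (hπ : Irreducible π) : EIPrimeTo π u u := by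
  have hs : u ∈ Algebra.adjoin A₀ {u} := Algebra.subset_adjoin (Set.mem_singleton u)
  rw [eiPrimeTo_iff hs]
  intro hd
  have h1 := map_dvd (chartEquiv (A₀ := A₀) (E := E) hu).symm hd
  have h2 : (chartEquiv (A₀ := A₀) (E := E) hu).symm (algebraMap A₀ _ π) = C π := by
    rw [← chartEquiv_C hu, AlgEquiv.symm_apply_apply]
  have h3 : (chartEquiv (A₀ := A₀) (E := E) hu).symm ⟨u, hs⟩ = X := by
    apply (chartEquiv (A₀ := A₀) (E := E) hu).injective
    rw [AlgEquiv.apply_symm_apply]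
    exact Subtype.ext (chartEquiv_X hu).symm
  rw [h2, h3, C_dvd_iff_dvd_coeff] at h1
  have h4 := h1 1
  rw [coeff_X_one] at h4
  exact hπ.not_isUnit (isUnit_of_dvd_one h4)

theorem eiPrimeTo_pow (hu : Transcendental E u) (hπ : Irreducible π) {s : L}
    (h : EIPrimeTo π u s) (k : ℕ) : EIPrimeTo π u (s ^ k) := by
  induction k with
  | zero => rw [pow_zero]; exact eiPrimeTo_one hu hπ
  | succ k ih => rw [pow_succ]; exact eiPrimeTo_mul hu hπ ih h

/-- The semilocal ring `C(u)_(π)`, as a subring of `L`. -/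
def eiLoc (hu : Transcendental E u) (hπ : Irreducible π) : Subring L where
  carrier := {z | ∃ s, EIPrimeTo π u s ∧ IsIntegral (Algebra.adjoin A₀ {u}) (s * z)}
  mul_mem' := by
    rintro a b ⟨s, hs, ha⟩ ⟨s', hs', hb⟩
    refine ⟨s * s', eiPrimeTo_mul hu hπ hs hs', ?_⟩
    have : s * s' * (a * b) = (s * a) * (s' * b) := by ring
    rw [this]
    exact ha.mul hb
  one_mem' := ⟨1, eiPrimeTo_one hu hπ, by rw [mul_one]; exact isIntegral_one⟩
  add_mem' := by
    rintro a b ⟨s, hs, ha⟩ ⟨s', hs', hb⟩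
    refine ⟨s * s', eiPrimeTo_mul hu hπ hs hs', ?_⟩
    have : s * s' * (a + b) = (algebraMap ↥(Algebra.adjoin A₀ {u}) L ⟨s', hs'.1⟩) * (s * a) +
        (algebraMap ↥(Algebra.adjoin A₀ {u}) L ⟨s, hs.1⟩) * (s' * b) := by
      show s * s' * (a + b) = s' * (s * a) + s * (s' * b)
      ring
    rw [this]
    exact (isIntegral_algebraMap.mul ha).add (isIntegral_algebraMap.mul hb)
  zero_mem' := ⟨1, eiPrimeTo_one hu hπ, by rw [mul_zero]; exact isIntegral_zero⟩
  neg_mem' := by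
    rintro a ⟨s, hs, ha⟩
    refine ⟨s, hs, ?_⟩
    rw [mul_neg]
    exact ha.neg

theorem mem_eiLoc (hu : Transcendental E u) (hπ : Irreducible π) {z : L} :
    z ∈ eiLoc hu hπ ↔ ∃ s, EIPrimeTo π u s ∧ IsIntegral (Algebra.adjoin A₀ {u}) (s * z) :=
  Iff.rfl

theorem eiLoc_of_isIntegral (hu : Transcendental E u) (hπ : Irreducible π) {z : L}
    (hz : IsIntegral (Algebra.adjoin A₀ {u}) z) : z ∈ eiLoc hu hπ :=
  ⟨1, eiPrimeTo_one hu hπ, by rwa [one_mul]⟩

theorem eiLoc_algebraMap (hu : Transcendental E u) (hπ : Irreducible π) (a : A₀) :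
    algebraMap A₀ L a ∈ eiLoc hu hπ :=
  eiLoc_of_isIntegral hu hπ
    (isIntegral_algebraMap (R := ↥(Algebra.adjoin A₀ {u}))
      (x := algebraMap A₀ ↥(Algebra.adjoin A₀ {u}) a))

/-- `x ∈ π · C(u)_(π)`. -/
def EIPiLoc (hu : Transcendental E u) (hπ : Irreducible π) (x : L) : Prop :=
  ∃ z ∈ eiLoc hu hπ, x = algebraMap A₀ L π * z

/-- `x ∈ π · C(u)`. -/
def EIPiInt (π : A₀) (u : L) (x : L) : Prop :=
  ∃ c : L, IsIntegral (Algebra.adjoin A₀ {u}) c ∧ x = algebraMap A₀ L π * c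


include E in
theorem ei_algebraMap_ne_zero (hπ : Irreducible π) : algebraMap A₀ L π ≠ 0 :=
  (map_ne_zero_iff _ (zch_algebraMap_injective (A₀ := A₀) (E := E) (L := L))).mpr hπ.ne_zero

/-- `π⁻¹` is not integral over `A₀[u]`. -/
theorem ei_mul_ne_one (hu : Transcendental E u) (hπ : Irreducible π) {z : L}
    (hz : IsIntegral (Algebra.adjoin A₀ {u}) z) : algebraMap A₀ L π * z ≠ 1 := by
  intro h
  have hp := chart_prime (A₀ := A₀) (E := E) hu hπ
  haveI hP : (Ideal.span {algebraMap A₀ ↥(Algebra.adjoin A₀ {u}) π}).IsPrime :=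
    (Ideal.span_singleton_prime hp.ne_zero).mpr hp
  have hker : RingHom.ker (algebraMap ↥(Algebra.adjoin A₀ {u})
      ↥(integralClosure ↥(Algebra.adjoin A₀ {u}) L)) ≤
      Ideal.span {algebraMap A₀ ↥(Algebra.adjoin A₀ {u}) π} := by
    intro x hx
    rw [RingHom.mem_ker] at hx
    have hx0 : x = 0 := by
      have := congrArg Subtype.val hx
      exact Subtype.ext this
    rw [hx0]
    exact Ideal.zero_mem _
  obtain ⟨Q, hQ, hQP⟩ := Ideal.exists_ideal_over_prime_of_isIntegral_of_isDomain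
    (S := ↥(integralClosure ↥(Algebra.adjoin A₀ {u}) L))
    (Ideal.span {algebraMap A₀ ↥(Algebra.adjoin A₀ {u}) π}) hker
  have hmem : algebraMap ↥(Algebra.adjoin A₀ {u}) ↥(integralClosure ↥(Algebra.adjoin A₀ {u}) L)
      (algebraMap A₀ ↥(Algebra.adjoin A₀ {u}) π) ∈ Q := by
    have h1 : algebraMap A₀ ↥(Algebra.adjoin A₀ {u}) π ∈
        Q.comap (algebraMap ↥(Algebra.adjoin A₀ {u})
          ↥(integralClosure ↥(Algebra.adjoin A₀ {u}) L)) := by
      rw [hQP]; exact Ideal.mem_span_singleton_self _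
    exact h1
  have h1 : (1 : ↥(integralClosure ↥(Algebra.adjoin A₀ {u}) L)) ∈ Q := by
    have h2 := Q.mul_mem_right ⟨z, hz⟩ hmem
    have h3 : algebraMap ↥(Algebra.adjoin A₀ {u}) ↥(integralClosure ↥(Algebra.adjoin A₀ {u}) L)
      (algebraMap A₀ ↥(Algebra.adjoin A₀ {u}) π) * ⟨z, hz⟩ = 1 := Subtype.ext h
    rwa [h3] at h2
  exact hQ.ne_top ((Ideal.eq_top_iff_one _).mpr h1)

/-- **A1** in the chart: `z ∈ C(u)_(π)` and `π z` integral imply `z` integral. -/
theorem ei_isIntegral_of_mem_loc (hu : Transcendental E u) (hπ : Irreducible π) {z : L}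
    (hz : z ∈ eiLoc hu hπ)
    (hπz : IsIntegral (Algebra.adjoin A₀ {u}) (algebraMap A₀ L π * z)) :
    IsIntegral (Algebra.adjoin A₀ {u}) z := by
  obtain ⟨s, hs, hsz⟩ := hz
  haveI := chart_isIntegrallyClosed (A₀ := A₀) (E := E) hu
  have hp := chart_prime (A₀ := A₀) (E := E) hu hπ
  have hnd := (eiPrimeTo_iff hs.1).mp hs
  have hπ0 : algebraMap A₀ L π ≠ 0 := ei_algebraMap_ne_zero (E := E) hπ
  have key : (⟨s, hs.1⟩ : ↥(Algebra.adjoin A₀ {u})) • (algebraMap A₀ L π * z) =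
      (algebraMap A₀ ↥(Algebra.adjoin A₀ {u}) π) • (s * z) := by
    rw [Algebra.smul_def, Algebra.smul_def]
    show s * (algebraMap A₀ L π * z) = algebraMap A₀ L π * (s * z)
    ring
  obtain ⟨z', hz', hxz⟩ := exists_isIntegral_smul_eq hp hnd hπz hsz key
  have hzz' : z = z' := by
    rw [Algebra.smul_def] at hxz
    exact mul_left_cancel₀ hπ0 hxz
  rw [hzz']
  exact hz'

/-- `f ∈ A₀[u]`, `f = π c` with `c` integral over `A₀[u]` ⇒ `π ∣ f` in `A₀[u]`. -/
theorem ei_not_primeTo_of_eq_mul (hu : Transcendental E u) (hπ : Irreducible π) {f c : L}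
    (hc : IsIntegral (Algebra.adjoin A₀ {u}) c) (hfc : f = algebraMap A₀ L π * c) :
    ¬ EIPrimeTo π u f := by
  intro hf
  have hπ0 : algebraMap A₀ L π ≠ 0 := ei_algebraMap_ne_zero (E := E) hπ
  have hz : (algebraMap A₀ L π)⁻¹ ∈ eiLoc hu hπ := by
    refine ⟨f, hf, ?_⟩
    rw [hfc, mul_comm (algebraMap A₀ L π) c, mul_assoc, mul_inv_cancel₀ hπ0, mul_one]
    exact hc
  have h1 : IsIntegral (Algebra.adjoin A₀ {u}) (algebraMap A₀ L π * (algebraMap A₀ L π)⁻¹) := by
    rw [mul_inv_cancel₀ hπ0]; exact isIntegral_one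
  have h2 := ei_isIntegral_of_mem_loc hu hπ hz h1
  exact ei_mul_ne_one hu hπ h2 (mul_inv_cancel₀ hπ0)

/-- `1 ∉ π · C(u)_(π)`. -/
theorem ei_not_piLoc_one (hu : Transcendental E u) (hπ : Irreducible π) :
    ¬ EIPiLoc hu hπ (1 : L) := by
  rintro ⟨z, ⟨s, hs, hsz⟩, h1⟩
  refine ei_not_primeTo_of_eq_mul hu hπ hsz ?_ hs
  rw [mul_left_comm, ← h1, mul_one]

theorem EIPiLoc.add (hu : Transcendental E u) (hπ : Irreducible π) {x x' : L}
    (h : EIPiLoc hu hπ x) (h' : EIPiLoc hu hπ x') : EIPiLoc hu hπ (x + x') := by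
  obtain ⟨z, hz, rfl⟩ := h
  obtain ⟨z', hz', rfl⟩ := h'
  exact ⟨z + z', Subring.add_mem _ hz hz', by ring⟩

theorem EIPiLoc.neg (hu : Transcendental E u) (hπ : Irreducible π) {x : L}
    (h : EIPiLoc hu hπ x) : EIPiLoc hu hπ (-x) := by
  obtain ⟨z, hz, rfl⟩ := h
  exact ⟨-z, Subring.neg_mem _ hz, by ring⟩

theorem EIPiLoc.sub (hu : Transcendental E u) (hπ : Irreducible π) {x x' : L}
    (h : EIPiLoc hu hπ x) (h' : EIPiLoc hu hπ x') : EIPiLoc hu hπ (x - x') := by
  obtain ⟨z, hz, rfl⟩ := h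
  obtain ⟨z', hz', rfl⟩ := h'
  exact ⟨z - z', Subring.sub_mem _ hz hz', by ring⟩

theorem EIPiLoc.mul_left (hu : Transcendental E u) (hπ : Irreducible π) {x c : L}
    (hc : c ∈ eiLoc hu hπ) (h : EIPiLoc hu hπ x) : EIPiLoc hu hπ (c * x) := by
  obtain ⟨z, hz, rfl⟩ := h
  exact ⟨c * z, Subring.mul_mem _ hc hz, by ring⟩

theorem EIPiLoc.mul_right (hu : Transcendental E u) (hπ : Irreducible π) {x c : L}
    (hc : c ∈ eiLoc hu hπ) (h : EIPiLoc hu hπ x) : EIPiLoc hu hπ (x * c) := by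
  rw [mul_comm]; exact h.mul_left hu hπ hc

theorem eiPiLoc_zero (hu : Transcendental E u) (hπ : Irreducible π) : EIPiLoc hu hπ (0 : L) :=
  ⟨0, Subring.zero_mem _, by rw [mul_zero]⟩

theorem EIPiLoc.mem_loc (hu : Transcendental E u) (hπ : Irreducible π) {x : L}
    (h : EIPiLoc hu hπ x) : x ∈ eiLoc hu hπ := by
  obtain ⟨z, hz, rfl⟩ := h
  exact Subring.mul_mem _ (eiLoc_algebraMap hu hπ π) hz

theorem EIPiInt.piLoc (hu : Transcendental E u) (hπ : Irreducible π) {x : L}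
    (h : EIPiInt π u x) : EIPiLoc hu hπ x := by
  obtain ⟨c, hc, rfl⟩ := h
  exact ⟨c, eiLoc_of_isIntegral hu hπ hc, rfl⟩

/-- **A1**, second form: `C(u) ∩ π C(u)_(π) = π C(u)`. -/
theorem EIPiLoc.piInt (hu : Transcendental E u) (hπ : Irreducible π) {x : L}
    (h : EIPiLoc hu hπ x) (hx : IsIntegral (Algebra.adjoin A₀ {u}) x) : EIPiInt π u x := by
  obtain ⟨z, hz, rfl⟩ := h
  exact ⟨z, ei_isIntegral_of_mem_loc hu hπ hz hx, rfl⟩

/-- Explicit form of `EIPiLoc`. -/
theorem eiPiLoc_iff (hu : Transcendental E u) (hπ : Irreducible π) {x : L} :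
    EIPiLoc hu hπ x ↔ ∃ s, EIPrimeTo π u s ∧ EIPiInt π u (s * x) := by
  have hπ0 : algebraMap A₀ L π ≠ 0 := ei_algebraMap_ne_zero (E := E) hπ
  constructor
  · rintro ⟨z, ⟨s, hs, hsz⟩, rfl⟩
    exact ⟨s, hs, s * z, hsz, by ring⟩
  · rintro ⟨s, hs, c, hc, hsc⟩
    refine ⟨(algebraMap A₀ L π)⁻¹ * x, ⟨s, hs, ?_⟩, ?_⟩
    · have : s * ((algebraMap A₀ L π)⁻¹ * x) = c := by
        rw [mul_left_comm, hsc, inv_mul_cancel_left₀ hπ0]
      rw [this]; exact hc
    · rw [mul_inv_cancel_left₀ hπ0]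

theorem EIPiLoc.sum (hu : Transcendental E u) (hπ : Irreducible π) {ι : Type*}
    (s : Finset ι) (f : ι → L) (h : ∀ i ∈ s, EIPiLoc hu hπ (f i)) :
    EIPiLoc hu hπ (∑ i ∈ s, f i) := by
  classical
  induction s using Finset.induction_on with
  | empty => simpa using eiPiLoc_zero hu hπ
  | insert a s ha ih =>
    rw [Finset.sum_insert ha]
    exact (h a (Finset.mem_insert_self a s)).add hu hπ
      (ih (fun i hi => h i (Finset.mem_insert_of_mem hi)))

theorem EIPiLoc.pow_sub_pow (hu : Transcendental E u) (hπ : Irreducible π) {y y' : L}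
    (h : EIPiLoc hu hπ (y - y')) (hy' : y' ∈ eiLoc hu hπ) (k : ℕ) :
    EIPiLoc hu hπ (y ^ k - y' ^ k) := by
  have hy : y ∈ eiLoc hu hπ := by
    have := Subring.add_mem _ (h.mem_loc hu hπ) hy'
    simpa using this
  rw [← geom_sum₂_mul]
  refine h.mul_left hu hπ (Subring.sum_mem _ (fun i _ => ?_))
  exact Subring.mul_mem _ (Subring.pow_mem _ hy _) (Subring.pow_mem _ hy' _)

/-- `yⁿ ≡ 1` on the special fibre ⇒ `y ∈ C(u)_(π)`. -/
theorem ei_mem_loc_of_pow (hu : Transcendental E u) (hπ : Irreducible π) {n : ℕ} (hn : 0 < n)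
    {y : L} (hy : EIPiLoc hu hπ (y ^ n - 1)) : y ∈ eiLoc hu hπ := by
  have h1 : y ^ n ∈ eiLoc hu hπ := by
    have := Subring.add_mem _ (hy.mem_loc hu hπ) (Subring.one_mem _)
    simpa using this
  obtain ⟨s, hs, hsy⟩ := h1
  refine ⟨s, hs, IsIntegral.of_pow hn ?_⟩
  obtain ⟨m, rfl⟩ : ∃ m, n = m + 1 := ⟨n - 1, by omega⟩
  have : (s * y) ^ (m + 1) =
      algebraMap ↥(Algebra.adjoin A₀ {u}) L (⟨s, hs.1⟩ ^ m) * (s * y ^ (m + 1)) := by
    show (s * y) ^ (m + 1) = s ^ m * (s * y ^ (m + 1))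
    ring
  rw [this]
  exact isIntegral_algebraMap.mul hsy

/-- **Step 2 (b)**: local approximations at all closed points of the special fibre of the chart
give a global approximation. -/
theorem ei_exists_global (hu : Transcendental E u) (hπ : Irreducible π) {y : L}
    (hy : y ∈ eiLoc hu hπ)
    (hloc : ∀ 𝔑 : Ideal ↥(zchClosure (A₀ := A₀) ({u} : Set L)), 𝔑.IsMaximal →
      algebraMap A₀ ↥(zchClosure (A₀ := A₀) ({u} : Set L)) π ∈ 𝔑 →
      ∃ b T : ↥(zchClosure (A₀ := A₀) ({u} : Set L)),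
        b ∉ 𝔑 ∧ EIPiLoc hu hπ ((b : L) * y - (T : L))) :
    ∃ y' : L, IsIntegral (Algebra.adjoin A₀ {u}) y' ∧ EIPiLoc hu hπ (y - y') := by
  let 𝔞 : Ideal ↥(zchClosure (A₀ := A₀) ({u} : Set L)) :=
    { carrier := {b | ∃ T : ↥(zchClosure (A₀ := A₀) ({u} : Set L)),
        EIPiLoc hu hπ ((b : L) * y - (T : L))}
      add_mem' := by
        rintro a b ⟨T, hT⟩ ⟨T', hT'⟩
        refine ⟨T + T', ?_⟩
        have := hT.add hu hπ hT'
        have e : ((a + b : ↥(zchClosure (A₀ := A₀) ({u} : Set L))) : L) * y -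
            ((T + T' : ↥(zchClosure (A₀ := A₀) ({u} : Set L))) : L) =
            ((a : L) * y - (T : L)) + ((b : L) * y - (T' : L)) := by
          push_cast; ring
        rw [e]; exact this
      zero_mem' := ⟨0, by
        have e : ((0 : ↥(zchClosure (A₀ := A₀) ({u} : Set L))) : L) * y -
            ((0 : ↥(zchClosure (A₀ := A₀) ({u} : Set L))) : L) = 0 := by
          push_cast; ring
        rw [e]; exact eiPiLoc_zero hu hπ⟩
      smul_mem' := by
        rintro c b ⟨T, hT⟩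
        refine ⟨c * T, ?_⟩
        have := hT.mul_left hu hπ (eiLoc_of_isIntegral hu hπ (mem_zchClosure.mp c.2))
        have e : ((c • b : ↥(zchClosure (A₀ := A₀) ({u} : Set L))) : L) * y -
            ((c * T : ↥(zchClosure (A₀ := A₀) ({u} : Set L))) : L) =
            (c : L) * ((b : L) * y - (T : L)) := by
          rw [smul_eq_mul]; push_cast; ring
        rw [e]; exact this }
  have hπ𝔞 : algebraMap A₀ ↥(zchClosure (A₀ := A₀) ({u} : Set L)) π ∈ 𝔞 := by
    refine ⟨0, y, hy, ?_⟩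
    show algebraMap A₀ L π * y - 0 = _
    rw [sub_zero]
  have htop : 𝔞 = ⊤ := by
    by_contra hne
    obtain ⟨𝔑, h𝔑, hle⟩ := Ideal.exists_le_maximal 𝔞 hne
    obtain ⟨b, T, hb, hbT⟩ := hloc 𝔑 h𝔑 (hle hπ𝔞)
    exact hb (hle ⟨T, hbT⟩)
  have h1 : (1 : ↥(zchClosure (A₀ := A₀) ({u} : Set L))) ∈ 𝔞 := by
    rw [htop]; exact Submodule.mem_top
  obtain ⟨T, hT⟩ := h1
  refine ⟨T, mem_zchClosure.mp T.2, ?_⟩
  have e : ((1 : ↥(zchClosure (A₀ := A₀) ({u} : Set L))) : L) * y - (T : L) = y - T := by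
    push_cast; ring
  rwa [e] at hT

/-- **Step 2 (c)**, first half: a global approximation `y'` of `y` satisfies `y'ⁿ ≡ 1` mod `π C`. -/
theorem ei_pow_sub_one_piInt (hu : Transcendental E u) (hπ : Irreducible π) {n : ℕ}
    {y y' : L} (hy : EIPiLoc hu hπ (y ^ n - 1))
    (hy' : IsIntegral (Algebra.adjoin A₀ {u}) y') (h : EIPiLoc hu hπ (y - y')) :
    EIPiInt π u (y' ^ n - 1) := by
  have h1 := h.pow_sub_pow hu hπ (eiLoc_of_isIntegral hu hπ hy') n
  have h2 := hy.sub hu hπ h1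
  have e : y ^ n - 1 - (y ^ n - y' ^ n) = y' ^ n - 1 := by ring
  rw [e] at h2
  exact h2.piInt hu hπ ((hy'.pow n).sub isIntegral_one)

/-- An element of `A₀[u]` prime to `π` is not in `π C₁₂`. -/
theorem ei_primeTo_overlap (hu : Transcendental E u) (hπ : Irreducible π) {s r : L}
    (hs : EIPrimeTo π u s) (hr : IsIntegral (Algebra.adjoin A₀ {u, u⁻¹}) r) :
    s ≠ algebraMap A₀ L π * r := by
  intro hsr
  have hu0 : u ≠ 0 := by
    rintro rfl
    exact hu isAlgebraic_zero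
  obtain ⟨k, hk⟩ := zch_exists_pow_mul_isIntegral (mul_inv_cancel₀ hu0) hr
  have h1 : EIPrimeTo π u (u ^ k * s) :=
    eiPrimeTo_mul hu hπ (eiPrimeTo_pow hu hπ (eiPrimeTo_self hu hπ) k) hs
  refine ei_not_primeTo_of_eq_mul hu hπ hk ?_ h1
  rw [hsr]; ring

end Loc

section Overlap

variable {A₀ E L : Type*} [CommRing A₀] [IsDomain A₀] [IsDiscreteValuationRing A₀]
  [Field E] [Algebra A₀ E] [IsFractionRing A₀ E] [CharZero E]
  [Field L] [Algebra E L] [Algebra A₀ L] [IsScalarTower A₀ E L]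
  {π : A₀} {t : L}

theorem ei_adjoin_inv_pair (t : L) :
    Algebra.adjoin A₀ ({t⁻¹, t⁻¹⁻¹} : Set L) = Algebra.adjoin A₀ {t, t⁻¹} := by
  rw [inv_inv, Set.pair_comm]

theorem ei_adjoin_le_pair_left (t : L) :
    Algebra.adjoin A₀ ({t} : Set L) ≤ Algebra.adjoin A₀ {t, t⁻¹} :=
  Algebra.adjoin_mono (by intro x hx; exact Or.inl hx)

theorem ei_adjoin_le_pair_right (t : L) :
    Algebra.adjoin A₀ ({t⁻¹} : Set L) ≤ Algebra.adjoin A₀ {t, t⁻¹} :=
  Algebra.adjoin_mono (by intro x hx; exact Or.inr hx)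

theorem ei_inv_mem_pair (t : L) : t⁻¹ ∈ Algebra.adjoin A₀ ({t, t⁻¹} : Set L) :=
  Algebra.subset_adjoin (Set.mem_insert_of_mem _ (Set.mem_singleton _))

/-- Transport of an element of `A₀[t⁻¹]` prime to `π` into `A₀[t]`. -/
theorem ei_primeTo_transport (ht : Transcendental E t) (hπ : Irreducible π) {s : L}
    (hs : EIPrimeTo π t⁻¹ s) {k : ℕ} (hk : t ^ k * s ∈ Algebra.adjoin A₀ {t}) :
    EIPrimeTo π t (t ^ k * s) := by
  have ht0 : t ≠ 0 := by
    rintro rfl
    exact ht isAlgebraic_zero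
  refine ⟨hk, fun r hr hsr => ?_⟩
  have hr' : IsIntegral (Algebra.adjoin A₀ ({t⁻¹, t⁻¹⁻¹} : Set L)) ((t⁻¹) ^ k * r) := by
    rw [ei_adjoin_inv_pair]
    refine isIntegral_algebraMap (R := ↥(Algebra.adjoin A₀ {t, t⁻¹}))
      (x := ⟨(t⁻¹) ^ k * r, Subalgebra.mul_mem _ (Subalgebra.pow_mem _
        (ei_inv_mem_pair t) _) (ei_adjoin_le_pair_left t hr)⟩)
  refine ei_primeTo_overlap (zch_transcendental_inv ht) hπ hs hr' ?_
  have : s = (t⁻¹) ^ k * (t ^ k * s) := by
    rw [← mul_assoc, ← mul_pow, inv_mul_cancel₀ ht0, one_pow, one_mul]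
  rw [this, hsr]; ring

/-- A common exponent moving three data of the chart at `∞` into the chart at `0`. -/
theorem ei_common_exp (ht : Transcendental E t) {s c y₂ : L}
    (hs : s ∈ Algebra.adjoin A₀ {t⁻¹})
    (hc : IsIntegral (Algebra.adjoin A₀ {t⁻¹}) c)
    (hy₂ : IsIntegral (Algebra.adjoin A₀ {t⁻¹}) y₂) :
    ∃ K : ℕ, t ^ K * s ∈ Algebra.adjoin A₀ {t} ∧
      IsIntegral (Algebra.adjoin A₀ {t}) (t ^ K * c) ∧
      IsIntegral (Algebra.adjoin A₀ {t}) (t ^ K * y₂) := by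
  have ht0 : t ≠ 0 := by
    rintro rfl
    exact ht isAlgebraic_zero
  have htt' : t * t⁻¹ = 1 := mul_inv_cancel₀ ht0
  have htR : t ∈ Algebra.adjoin A₀ {t} := Algebra.subset_adjoin (Set.mem_singleton t)
  obtain ⟨k₁, hk₁⟩ := zch_pow_mul_mem (A₀ := A₀) htt' (ei_adjoin_le_pair_right t hs)
  obtain ⟨k₂, hk₂⟩ := zch_exists_pow_mul_isIntegral (A₀ := A₀) htt'
    (zch_isIntegral_mono (ei_adjoin_le_pair_right t) hc)
  obtain ⟨k₃, hk₃⟩ := zch_exists_pow_mul_isIntegral (A₀ := A₀) htt'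
    (zch_isIntegral_mono (ei_adjoin_le_pair_right t) hy₂)
  have hpow : ∀ j : ℕ, IsIntegral (Algebra.adjoin A₀ {t}) (t ^ j) := fun j =>
    isIntegral_algebraMap (R := ↥(Algebra.adjoin A₀ {t}))
      (x := ⟨t ^ j, Subalgebra.pow_mem _ htR j⟩)
  refine ⟨k₁ + k₂ + k₃, hk₁ _ (by omega), ?_, ?_⟩
  · have : t ^ (k₁ + k₂ + k₃) * c = t ^ (k₁ + k₃) * (t ^ k₂ * c) := by
      rw [← mul_assoc, ← pow_add]; congr 2; omega
    rw [this]; exact (hpow _).mul hk₂
  · have : t ^ (k₁ + k₂ + k₃) * y₂ = t ^ (k₁ + k₂) * (t ^ k₃ * y₂) := by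
      rw [← mul_assoc, ← pow_add]
    rw [this]; exact (hpow _).mul hk₃

/-- **Overlap**: approximations of the same `y` on the two charts agree modulo `π C₁₂`. -/
theorem ei_overlap (ht : Transcendental E t) (hπ : Irreducible π) {y₁ y₂ z₁ z₂ : L}
    (hy₁ : IsIntegral (Algebra.adjoin A₀ {t}) y₁)
    (hy₂ : IsIntegral (Algebra.adjoin A₀ {t⁻¹}) y₂)
    (hz₁ : z₁ ∈ eiLoc ht hπ) (hz₂ : z₂ ∈ eiLoc (zch_transcendental_inv ht) hπ)
    (h : y₁ - y₂ = algebraMap A₀ L π * (z₂ - z₁)) :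
    ∃ c : L, IsIntegral (Algebra.adjoin A₀ {t, t⁻¹}) c ∧ y₁ - y₂ = algebraMap A₀ L π * c := by
  have ht0 : t ≠ 0 := by
    rintro rfl
    exact ht isAlgebraic_zero
  have htR : t ∈ Algebra.adjoin A₀ {t} := Algebra.subset_adjoin (Set.mem_singleton t)
  obtain ⟨s₁, hs₁, hc₁⟩ := hz₁
  obtain ⟨s₂, hs₂, hc₂⟩ := hz₂
  obtain ⟨K, hK₁, hK₂, hK₃⟩ := ei_common_exp (A₀ := A₀) ht hs₂.1 hc₂ hy₂
  have hpow : ∀ j : ℕ, IsIntegral (Algebra.adjoin A₀ {t}) (t ^ j) := fun j =>
    isIntegral_algebraMap (R := ↥(Algebra.adjoin A₀ {t}))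
      (x := ⟨t ^ j, Subalgebra.pow_mem _ htR j⟩)
  have hS : EIPrimeTo π t (s₁ * (t ^ K * s₂)) :=
    eiPrimeTo_mul ht hπ hs₁ (ei_primeTo_transport ht hπ hs₂ hK₁)
  have hW : t ^ K * (z₂ - z₁) ∈ eiLoc ht hπ := by
    refine ⟨_, hS, ?_⟩
    have e : s₁ * (t ^ K * s₂) * (t ^ K * (z₂ - z₁)) =
        algebraMap ↥(Algebra.adjoin A₀ {t}) L ⟨s₁, hs₁.1⟩ * (t ^ K * (t ^ K * (s₂ * z₂))) -
        algebraMap ↥(Algebra.adjoin A₀ {t}) L ⟨t ^ K * s₂, hK₁⟩ * (t ^ K * (s₁ * z₁)) := by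
      show s₁ * (t ^ K * s₂) * (t ^ K * (z₂ - z₁)) =
        s₁ * (t ^ K * (t ^ K * (s₂ * z₂))) - (t ^ K * s₂) * (t ^ K * (s₁ * z₁))
      ring
    rw [e]
    exact (isIntegral_algebraMap.mul ((hpow K).mul hK₂)).sub
      (isIntegral_algebraMap.mul ((hpow K).mul hc₁))
  have hπW : IsIntegral (Algebra.adjoin A₀ {t}) (algebraMap A₀ L π * (t ^ K * (z₂ - z₁))) := by
    have e : algebraMap A₀ L π * (t ^ K * (z₂ - z₁)) = t ^ K * y₁ - t ^ K * y₂ := by
      rw [mul_left_comm, ← h]; ring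
    rw [e]
    exact ((hpow K).mul hy₁).sub hK₃
  have hWint := ei_isIntegral_of_mem_loc ht hπ hW hπW
  refine ⟨z₂ - z₁, ?_, h⟩
  have e : z₂ - z₁ = (t⁻¹) ^ K * (t ^ K * (z₂ - z₁)) := by
    rw [← mul_assoc, ← mul_pow, inv_mul_cancel₀ ht0, one_pow, one_mul]
  rw [e]
  refine IsIntegral.mul ?_ (zch_isIntegral_mono (ei_adjoin_le_pair_left t) hWint)
  exact isIntegral_algebraMap (R := ↥(Algebra.adjoin A₀ {t, t⁻¹}))
    (x := ⟨(t⁻¹) ^ K, Subalgebra.pow_mem _ (ei_inv_mem_pair t) _⟩)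

/-- The semilocal rings of the two charts coincide (one inclusion). -/
theorem eiLoc_le_inv (ht : Transcendental E t) (hπ : Irreducible π) :
    eiLoc (zch_transcendental_inv ht) hπ ≤ eiLoc ht hπ := by
  rintro z ⟨s, hs, hc⟩
  have htR : t ∈ Algebra.adjoin A₀ {t} := Algebra.subset_adjoin (Set.mem_singleton t)
  obtain ⟨K, hK₁, hK₂, -⟩ := ei_common_exp (A₀ := A₀) ht hs.1 hc hc
  refine ⟨t ^ K * (t ^ K * s), eiPrimeTo_mul ht hπ
    (eiPrimeTo_pow ht hπ (eiPrimeTo_self ht hπ) K) (ei_primeTo_transport ht hπ hs hK₁), ?_⟩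
  have e : t ^ K * (t ^ K * s) * z =
      algebraMap ↥(Algebra.adjoin A₀ {t}) L ⟨t ^ K, Subalgebra.pow_mem _ htR K⟩ *
        (t ^ K * (s * z)) := by
    show t ^ K * (t ^ K * s) * z = t ^ K * (t ^ K * (s * z))
    ring
  rw [e]
  exact isIntegral_algebraMap.mul hK₂

theorem eiLoc_congr {u u' : L} (h : u = u') (hu : Transcendental E u)
    (hu' : Transcendental E u') (hπ : Irreducible π) : eiLoc hu hπ = eiLoc hu' hπ := by
  subst h
  rfl

/-- The semilocal rings of the two charts coincide. -/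
theorem eiLoc_inv_eq (ht : Transcendental E t) (hπ : Irreducible π) :
    eiLoc (zch_transcendental_inv ht) hπ = eiLoc ht hπ := by
  refine le_antisymm (eiLoc_le_inv ht hπ) ?_
  have h := eiLoc_le_inv (zch_transcendental_inv ht) hπ
  rwa [eiLoc_congr (inv_inv t) (zch_transcendental_inv (zch_transcendental_inv ht)) ht hπ] at h

theorem eiPiLoc_inv_iff (ht : Transcendental E t) (hπ : Irreducible π) {x : L} :
    EIPiLoc (zch_transcendental_inv ht) hπ x ↔ EIPiLoc ht hπ x := by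
  unfold EIPiLoc
  rw [eiLoc_inv_eq ht hπ]

end Overlap

section Identities

variable {R : Type*} [CommRing R]

/-- `S² − n S = T · (yⁿ − 1)` for `S = Σ_{j<n} y^j`, `T = Σ_{j<n} Σ_{i<j} y^i`. -/
theorem ei_geom_sq (y : R) (n : ℕ) :
    (∑ j ∈ Finset.range n, y ^ j) * (∑ j ∈ Finset.range n, y ^ j) -
      (n : R) * (∑ j ∈ Finset.range n, y ^ j) =
    (∑ j ∈ Finset.range n, ∑ i ∈ Finset.range j, y ^ i) * (y ^ n - 1) := by
  have hS : (∑ j ∈ Finset.range n, y ^ j) * (y - 1) = y ^ n - 1 := geom_sum_mul y n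
  have hT : (∑ j ∈ Finset.range n, ∑ i ∈ Finset.range j, y ^ i) * (y - 1) =
      (∑ j ∈ Finset.range n, y ^ j) - (n : R) := by
    rw [Finset.sum_mul]
    simp_rw [geom_sum_mul]
    rw [Finset.sum_sub_distrib]
    simp
  linear_combination (∑ j ∈ Finset.range n, ∑ i ∈ Finset.range j, y ^ i) * hS -
    (∑ j ∈ Finset.range n, y ^ j) * hT

/-- `S(y₁) − S(y₂) = D · (y₁ − y₂)`. -/
theorem ei_geom_sub (y₁ y₂ : R) (n : ℕ) :
    (∑ j ∈ Finset.range n, y₁ ^ j) - (∑ j ∈ Finset.range n, y₂ ^ j) =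
    (∑ j ∈ Finset.range n, ∑ i ∈ Finset.range j, y₁ ^ i * y₂ ^ (j - 1 - i)) * (y₁ - y₂) := by
  rw [Finset.sum_mul, ← Finset.sum_sub_distrib]
  refine Finset.sum_congr rfl (fun j _ => ?_)
  exact (geom_sum₂_mul y₁ y₂ j).symm

end Identities

section Main

variable {A₀ E L : Type*} [CommRing A₀] [IsDomain A₀] [IsDiscreteValuationRing A₀]
  [Field E] [Algebra A₀ E] [IsFractionRing A₀ E] [CharZero E]
  [Field L] [Algebra E L] [Algebra A₀ L] [IsScalarTower A₀ E L]
  {π : A₀} {t : L}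

/-- **Step 2 (c)+(d), integral form.**  `y₁ ∈ C₁`, `y₂ ∈ C₂` with `y_iⁿ ≡ 1 mod π C_i`,
`y₁ ≡ y₂ mod π C₁₂`, `n` invertible in `A₀`.  Then `y₁ ≡ 1` or `1 + y₁ + ⋯ + y₁^{n−1} ≡ 0`
modulo `π C₁`. -/
theorem ei_dichotomy (hπ : Irreducible π) (ht : Transcendental E t)
    [FiniteDimensional (IntermediateField.adjoin E {t}) L]
    (hcl : ∀ x : L, IsAlgebraic E x → x ∈ (algebraMap E L).range)
    {n : ℕ} {ν : A₀} (hν : ν * (n : A₀) = 1) {y₁ y₂ : L}
    (hy₁ : IsIntegral (Algebra.adjoin A₀ {t}) y₁)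
    (hy₂ : IsIntegral (Algebra.adjoin A₀ {t⁻¹}) y₂)
    (h₁ : EIPiInt π t (y₁ ^ n - 1)) (h₂ : EIPiInt π t⁻¹ (y₂ ^ n - 1))
    (h₁₂ : ∃ c : L, IsIntegral (Algebra.adjoin A₀ {t, t⁻¹}) c ∧
      y₁ - y₂ = algebraMap A₀ L π * c) :
    EIPiInt π t (y₁ - 1) ∨ EIPiInt π t (∑ j ∈ Finset.range n, y₁ ^ j) := by
  obtain ⟨c₁, hc₁, hc₁e⟩ := h₁
  obtain ⟨c₂, hc₂, hc₂e⟩ := h₂
  obtain ⟨c, hc, hce⟩ := h₁₂
  have hνL : algebraMap A₀ L ν * (n : L) = 1 := by
    have := congrArg (algebraMap A₀ L) hν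
    simpa using this
  -- integrality of constants
  have hconst : ∀ (S : Set L) (a : A₀), IsIntegral (Algebra.adjoin A₀ S) (algebraMap A₀ L a) :=
    fun S a => isIntegral_algebraMap (R := ↥(Algebra.adjoin A₀ S))
      (x := algebraMap A₀ ↥(Algebra.adjoin A₀ S) a)
  have hT : ∀ (S : Set L) (y : L), IsIntegral (Algebra.adjoin A₀ S) y →
      IsIntegral (Algebra.adjoin A₀ S) (∑ j ∈ Finset.range n, ∑ i ∈ Finset.range j, y ^ i) :=
    fun S y hy => IsIntegral.sum _ (fun j _ => IsIntegral.sum _ (fun i _ => hy.pow i))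
  have hSint : ∀ (S : Set L) (y : L), IsIntegral (Algebra.adjoin A₀ S) y →
      IsIntegral (Algebra.adjoin A₀ S) (∑ j ∈ Finset.range n, y ^ j) :=
    fun S y hy => IsIntegral.sum _ (fun j _ => hy.pow j)
  -- the idempotents
  have hid : ∀ (S : Set L) (y c : L), IsIntegral (Algebra.adjoin A₀ S) y →
      IsIntegral (Algebra.adjoin A₀ S) c → y ^ n - 1 = algebraMap A₀ L π * c →
      ∃ c' : L, IsIntegral (Algebra.adjoin A₀ S) c' ∧
        (algebraMap A₀ L ν * ∑ j ∈ Finset.range n, y ^ j) *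
          (algebraMap A₀ L ν * ∑ j ∈ Finset.range n, y ^ j) -
          (algebraMap A₀ L ν * ∑ j ∈ Finset.range n, y ^ j) = algebraMap A₀ L π * c' := by
    intro S y c hy hc hyc
    refine ⟨algebraMap A₀ L ν * algebraMap A₀ L ν *
      (∑ j ∈ Finset.range n, ∑ i ∈ Finset.range j, y ^ i) * c,
      (((hconst S ν).mul (hconst S ν)).mul (hT S y hy)).mul hc, ?_⟩
    have key := ei_geom_sq y n
    rw [hyc] at key
    linear_combination (algebraMap A₀ L ν * algebraMap A₀ L ν) * key +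
      (algebraMap A₀ L ν * ∑ j ∈ Finset.range n, y ^ j) * hνL
  have hcomp : ∃ c' : L, IsIntegral (Algebra.adjoin A₀ {t, t⁻¹}) c' ∧
      (algebraMap A₀ L ν * ∑ j ∈ Finset.range n, y₁ ^ j) -
        (algebraMap A₀ L ν * ∑ j ∈ Finset.range n, y₂ ^ j) = algebraMap A₀ L π * c' := by
    have hy₁' := zch_isIntegral_mono (ei_adjoin_le_pair_left (A₀ := A₀) t) hy₁
    have hy₂' := zch_isIntegral_mono (ei_adjoin_le_pair_right (A₀ := A₀) t) hy₂
    refine ⟨algebraMap A₀ L ν *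
      (∑ j ∈ Finset.range n, ∑ i ∈ Finset.range j, y₁ ^ i * y₂ ^ (j - 1 - i)) * c,
      ((hconst _ ν).mul (IsIntegral.sum _ (fun j _ => IsIntegral.sum _
        (fun i _ => (hy₁'.pow i).mul (hy₂'.pow _))))).mul hc, ?_⟩
    have key := ei_geom_sub y₁ y₂ n
    rw [hce] at key
    linear_combination (algebraMap A₀ L ν) * key
  rcases zariski_connected_charts hπ ht hcl
    ((hconst _ ν).mul (hSint _ y₁ hy₁)) ((hconst _ ν).mul (hSint _ y₂ hy₂))
    (hid _ y₁ c₁ hy₁ hc₁ hc₁e) (hid _ y₂ c₂ hy₂ hc₂ hc₂e) hcomp with ⟨z, hz, hze⟩ | ⟨z, hz, hze⟩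
  · right
    refine ⟨(n : L) * z, ?_, ?_⟩
    · have : (n : L) = algebraMap A₀ L (n : A₀) := by simp
      rw [this]; exact (hconst _ _).mul hz
    · linear_combination (n : L) * hze - (∑ j ∈ Finset.range n, y₁ ^ j) * hνL
  · left
    refine ⟨algebraMap A₀ L ν * c₁ - (y₁ - 1) * z,
      ((hconst _ ν).mul hc₁).sub ((hy₁.sub isIntegral_one).mul hz), ?_⟩
    have hS : (∑ j ∈ Finset.range n, y₁ ^ j) * (y₁ - 1) = y₁ ^ n - 1 := geom_sum_mul y₁ n
    rw [hc₁e] at hS
    linear_combination (algebraMap A₀ L ν) * hS - (y₁ - 1) * hze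

/-- **Step 2 (b)+(c)+(d).**  If `yⁿ ≡ 1` on the special fibre (`n` invertible in `A₀`) and `y`
has local approximations at every closed point of the special fibre of both charts, then
`y ≡ 1` or `1 + y + ⋯ + y^{n−1} ≡ 0` on the special fibre. -/
theorem ei_main (hπ : Irreducible π) (ht : Transcendental E t)
    [FiniteDimensional (IntermediateField.adjoin E {t}) L]
    (hcl : ∀ x : L, IsAlgebraic E x → x ∈ (algebraMap E L).range)
    {n : ℕ} (hn : IsUnit (n : A₀)) {y : L}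
    (hy1 : EIPiLoc ht hπ (y ^ n - 1))
    (hloc₁ : ∀ 𝔑 : Ideal ↥(zchClosure (A₀ := A₀) ({t} : Set L)), 𝔑.IsMaximal →
      algebraMap A₀ ↥(zchClosure (A₀ := A₀) ({t} : Set L)) π ∈ 𝔑 →
      ∃ b T : ↥(zchClosure (A₀ := A₀) ({t} : Set L)),
        b ∉ 𝔑 ∧ EIPiLoc ht hπ ((b : L) * y - (T : L)))
    (hloc₂ : ∀ 𝔑 : Ideal ↥(zchClosure (A₀ := A₀) ({t⁻¹} : Set L)), 𝔑.IsMaximal →
      algebraMap A₀ ↥(zchClosure (A₀ := A₀) ({t⁻¹} : Set L)) π ∈ 𝔑 →
      ∃ b T : ↥(zchClosure (A₀ := A₀) ({t⁻¹} : Set L)),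
        b ∉ 𝔑 ∧ EIPiLoc (zch_transcendental_inv ht) hπ ((b : L) * y - (T : L))) :
    EIPiLoc ht hπ (y - 1) ∨ EIPiLoc ht hπ (∑ j ∈ Finset.range n, y ^ j) := by
  have ht' := zch_transcendental_inv ht
  have hn0 : 0 < n := by
    rcases Nat.eq_zero_or_pos n with h | h
    · subst h
      simp at hn
    · exact h
  obtain ⟨ν', hν'⟩ := hn
  have hν : (↑ν'⁻¹ : A₀) * (n : A₀) = 1 := by
    rw [← hν']; exact ν'.inv_mul
  -- `yⁿ ≡ 1` on the chart at `∞` as well
  have hy : EIPiLoc ht' hπ (y ^ n - 1) := (eiPiLoc_inv_iff ht hπ).mpr hy1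
  have hyloc₁ := ei_mem_loc_of_pow ht hπ hn0 hy1
  have hyloc₂ := ei_mem_loc_of_pow ht' hπ hn0 hy
  obtain ⟨y₁, hy₁, hd₁⟩ := ei_exists_global ht hπ hyloc₁ hloc₁
  obtain ⟨y₂, hy₂, hd₂⟩ := ei_exists_global ht' hπ hyloc₂ hloc₂
  have hp₁ := ei_pow_sub_one_piInt ht hπ hy1 hy₁ hd₁
  have hp₂ := ei_pow_sub_one_piInt ht' hπ hy hy₂ hd₂
  have hov : ∃ c : L, IsIntegral (Algebra.adjoin A₀ {t, t⁻¹}) c ∧
      y₁ - y₂ = algebraMap A₀ L π * c := by
    obtain ⟨z₁, hz₁, hz₁e⟩ := hd₁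
    obtain ⟨z₂, hz₂, hz₂e⟩ := hd₂
    refine ei_overlap ht hπ hy₁ hy₂ hz₁ hz₂ ?_
    linear_combination hz₂e - hz₁e
  rcases ei_dichotomy hπ ht hcl hν hy₁ hy₂ hp₁ hp₂ hov with h | h
  · left
    have := hd₁.add ht hπ (h.piLoc ht hπ)
    have e : y - y₁ + (y₁ - 1) = y - 1 := by ring
    rwa [e] at this
  · right
    have h1 : EIPiLoc ht hπ
        ((∑ j ∈ Finset.range n, y ^ j) - (∑ j ∈ Finset.range n, y₁ ^ j)) := by
      rw [← Finset.sum_sub_distrib]
      exact EIPiLoc.sum ht hπ _ _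
        (fun j _ => hd₁.pow_sub_pow ht hπ (eiLoc_of_isIntegral ht hπ hy₁) j)
    have := h1.add ht hπ (h.piLoc ht hπ)
    have e : (∑ j ∈ Finset.range n, y ^ j) - (∑ j ∈ Finset.range n, y₁ ^ j) +
        (∑ j ∈ Finset.range n, y₁ ^ j) = ∑ j ∈ Finset.range n, y ^ j := by ring
    rwa [e] at this

/-- A ring endomorphism fixing `A₀` and `t` preserves `π · C_(π)`. -/
theorem EIPiLoc.map (ht : Transcendental E t) (hπ : Irreducible π) (ρ : L →+* L)
    (hρA : ∀ a : A₀, ρ (algebraMap A₀ L a) = algebraMap A₀ L a) (hρt : ρ t = t) {x : L}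
    (hx : EIPiLoc ht hπ x) : EIPiLoc ht hπ (ρ x) := by
  have hfix : ∀ r ∈ Algebra.adjoin A₀ ({t} : Set L), ρ r = r := by
    intro r hr
    induction hr using Algebra.adjoin_induction with
    | mem x hx =>
      rw [Set.mem_singleton_iff] at hx
      rw [hx]; exact hρt
    | algebraMap a => exact hρA a
    | add x y _ _ hx hy => rw [map_add, hx, hy]
    | mul x y _ _ hx hy => rw [map_mul, hx, hy]
  let ρ' : L →ₐ[↥(Algebra.adjoin A₀ ({t} : Set L))] L :=
    { ρ with commutes' := fun r => hfix r.1 r.2 }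
  obtain ⟨z, ⟨s, hs, hsz⟩, rfl⟩ := hx
  refine ⟨ρ z, ⟨s, hs, ?_⟩, ?_⟩
  · have h1 : IsIntegral ↥(Algebra.adjoin A₀ ({t} : Set L)) (ρ' (s * z)) := hsz.map ρ'
    have h2 : ρ' (s * z) = s * ρ z := by
      show ρ (s * z) = s * ρ z
      rw [map_mul, hfix s hs.1]
    rwa [h2] at h1
  · rw [map_mul, hρA]

/-- **Step 2, final form.**  In the setting of `ei_main`, a ring endomorphism `ρ` of `L` fixing
`A₀` and `t` with `ρ y = ζ y`, `ζ ∈ A₀` a primitive `n`-th root of unity, `1 < n`, cannot exist. -/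
theorem ei_false_of_aut (hπ : Irreducible π) (ht : Transcendental E t)
    [FiniteDimensional (IntermediateField.adjoin E {t}) L]
    (hcl : ∀ x : L, IsAlgebraic E x → x ∈ (algebraMap E L).range)
    {n : ℕ} (hn : IsUnit (n : A₀)) (hn1 : 1 < n) {y : L}
    (hy1 : EIPiLoc ht hπ (y ^ n - 1))
    (hloc₁ : ∀ 𝔑 : Ideal ↥(zchClosure (A₀ := A₀) ({t} : Set L)), 𝔑.IsMaximal →
      algebraMap A₀ ↥(zchClosure (A₀ := A₀) ({t} : Set L)) π ∈ 𝔑 →
      ∃ b T : ↥(zchClosure (A₀ := A₀) ({t} : Set L)),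
        b ∉ 𝔑 ∧ EIPiLoc ht hπ ((b : L) * y - (T : L)))
    (hloc₂ : ∀ 𝔑 : Ideal ↥(zchClosure (A₀ := A₀) ({t⁻¹} : Set L)), 𝔑.IsMaximal →
      algebraMap A₀ ↥(zchClosure (A₀ := A₀) ({t⁻¹} : Set L)) π ∈ 𝔑 →
      ∃ b T : ↥(zchClosure (A₀ := A₀) ({t⁻¹} : Set L)),
        b ∉ 𝔑 ∧ EIPiLoc (zch_transcendental_inv ht) hπ ((b : L) * y - (T : L)))
    (ρ : L →+* L) (hρA : ∀ a : A₀, ρ (algebraMap A₀ L a) = algebraMap A₀ L a) (hρt : ρ t = t)
    {ζ : A₀} (hζ : IsPrimitiveRoot (algebraMap A₀ L ζ) n)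
    (hρy : ρ y = algebraMap A₀ L ζ * y) : False := by
  -- the iterates of `ρ`
  have hiter : ∀ i : ℕ, (∀ a : A₀, (ρ ^ i) (algebraMap A₀ L a) = algebraMap A₀ L a) ∧
      (ρ ^ i) t = t ∧ (ρ ^ i) y = algebraMap A₀ L ζ ^ i * y := by
    intro i
    induction i with
    | zero => exact ⟨fun a => rfl, rfl, by rw [pow_zero, pow_zero, one_mul]; rfl⟩
    | succ i ih =>
      obtain ⟨h1, h2, h3⟩ := ih
      refine ⟨fun a => ?_, ?_, ?_⟩
      · rw [pow_succ', RingHom.mul_def, RingHom.comp_apply, h1, hρA]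
      · rw [pow_succ', RingHom.mul_def, RingHom.comp_apply, h2, hρt]
      · rw [pow_succ', RingHom.mul_def, RingHom.comp_apply, h3, map_mul, map_pow, hρA, hρy]
        ring
  have hnorm : ∀ x : L, EIPiLoc ht hπ x →
      EIPiLoc ht hπ (∑ i ∈ Finset.range n, (ρ ^ i) x) := fun x hx =>
    EIPiLoc.sum ht hπ _ _ (fun i _ => hx.map ht hπ (ρ ^ i) (hiter i).1 (hiter i).2.1)
  -- in both cases `n ∈ π C_(π)`
  have hnmem : EIPiLoc ht hπ (n : L) := by
    rcases ei_main hπ ht hcl hn hy1 hloc₁ hloc₂ with h | h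
    · have h1 := (hnorm _ h).neg ht hπ
      have e : -(∑ i ∈ Finset.range n, (ρ ^ i) (y - 1)) = (n : L) := by
        have : ∀ i ∈ Finset.range n, (ρ ^ i) (y - 1) = algebraMap A₀ L ζ ^ i * y - 1 := by
          intro i _
          rw [map_sub, map_one, (hiter i).2.2]
        rw [Finset.sum_congr rfl this, Finset.sum_sub_distrib, ← Finset.sum_mul,
          hζ.geom_sum_eq_zero hn1]
        simp
      rwa [e] at h1
    · have h1 := hnorm _ h
      have e : (∑ i ∈ Finset.range n, (ρ ^ i) (∑ j ∈ Finset.range n, y ^ j)) = (n : L) := by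
        have h2 : ∀ i ∈ Finset.range n, (ρ ^ i) (∑ j ∈ Finset.range n, y ^ j) =
            ∑ j ∈ Finset.range n, (algebraMap A₀ L ζ ^ j) ^ i * y ^ j := by
          intro i _
          rw [map_sum]
          refine Finset.sum_congr rfl (fun j _ => ?_)
          rw [map_pow, (hiter i).2.2, mul_pow, ← pow_mul, ← pow_mul, mul_comm i j]
        rw [Finset.sum_congr rfl h2, Finset.sum_comm]
        have h3 : ∀ j ∈ Finset.range n, (∑ i ∈ Finset.range n,
            (algebraMap A₀ L ζ ^ j) ^ i * y ^ j) = if j = 0 then (n : L) else 0 := by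
          intro j hj
          rw [← Finset.sum_mul]
          split_ifs with hj0
          · subst hj0
            simp
          · have hne : algebraMap A₀ L ζ ^ j ≠ 1 :=
              hζ.pow_ne_one_of_pos_of_lt hj0 (Finset.mem_range.mp hj)
            have hz : (∑ i ∈ Finset.range n, (algebraMap A₀ L ζ ^ j) ^ i) *
                (algebraMap A₀ L ζ ^ j - 1) = 0 := by
              rw [geom_sum_mul, ← pow_mul, mul_comm, pow_mul, hζ.pow_eq_one, one_pow, sub_self]
            rcases mul_eq_zero.mp hz with h0 | h0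
            · rw [h0, zero_mul]
            · exact absurd (sub_eq_zero.mp h0) hne
        rw [Finset.sum_congr rfl h3, Finset.sum_ite_eq' (Finset.range n) 0 (fun _ => (n : L))]
        rw [if_pos (Finset.mem_range.mpr (by omega))]
      rwa [e] at h1
  obtain ⟨ν', hν'⟩ := hn
  have h1 : EIPiLoc ht hπ (algebraMap A₀ L (↑ν'⁻¹ : A₀) * (n : L)) :=
    hnmem.mul_left ht hπ (eiLoc_algebraMap ht hπ _)
  have e : algebraMap A₀ L (↑ν'⁻¹ : A₀) * (n : L) = 1 := by
    have h2 : (↑ν'⁻¹ : A₀) * (n : A₀) = 1 := by rw [← hν']; exact ν'.inv_mul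
    have := congrArg (algebraMap A₀ L) h2
    simpa using this
  rw [e] at h1
  exact ei_not_piLoc_one ht hπ h1

end Main

end Fermat.Agent.UNIP


end ZBINJ_031_4

/-! ### bundled: `Fermat.Agent.UNIP.KummerSplit` -/
section ZBINJ_031_5

/-!
# UNIP D4, Kummer glue (S34 / S35, direct route of `NOTES/S34-plan.md`) — helper76

`ks_main`: in the chart setting of `INJ.zariski_connected_charts` for a field `F`
(`A₀` DVR, `π`, `E = Frac A₀`, `t : F` transcendental, `F / E(t)` finite, `E` algebraically closed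
in `F`), let `p` be a prime invertible in `A₀`, `ζ ∈ A₀` a primitive `p`-th root of unity and
`w ∈ F^×` with

* (G) `w ≡ 1` on the special fibre (`EIPiLoc (w − 1)`),
* (L) at every closed point `𝔫 ∋ π` of both charts of `F`: `w = ε · h ^ p` with `s ε` integral for
  some `s ∉ 𝔫` and `h ≡ 1` on the special fibre (the output of D3 `LocalShape`).

Then `w = c · h ^ p` with a constant `c ∈ E^×`.  (`ks_main_pow`: `w = h ^ p` if the constants
occurring are `p`-th powers.)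

Proof: if `X ^ p − w` is irreducible, `L := F[X]/(X ^ p − w)`, `y` the root, `ρ : y ↦ ζ y`.
* `ks_dichotomy` (pure field theory): either `E` is algebraically closed in `L`, or
  `w = c · h ^ p` (isotypic components `a_j y^j` of an element algebraic over `E` are algebraic).
* in the first case the local data are transported to `L` (`T := s y / h`) and
  `ei_false_of_aut` (helper91, `ExplicitIdem.lean`) gives a contradiction.
-/

set_option autoImplicit false
set_option linter.unusedSectionVars false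
set_option linter.style.haveILetI false

namespace Fermat.Agent.UNIP

open Polynomial IntermediateField Fermat.Agent.INJ

section Roots

variable {K : Type*} [Field K]

/-- orthogonality of characters of `ℤ/p`: `∑_k (ω^i / ω^j)^k = p·δ_ij`. -/
theorem ks_sum_pow {p : ℕ} {ω : K} (hω : IsPrimitiveRoot ω p) {i j : ℕ} (hi : i < p)
    (hj : j < p) :
    ∑ k ∈ Finset.range p, (ω ^ i * (ω ^ j)⁻¹) ^ k = if i = j then (p : K) else 0 := by
  have hω0 : ω ≠ 0 := hω.ne_zero (by omega)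
  split_ifs with hij
  · subst hij
    rw [mul_inv_cancel₀ (pow_ne_zero _ hω0)]
    simp
  · have hη1 : ω ^ i * (ω ^ j)⁻¹ ≠ 1 := by
      intro h
      apply hij
      apply hω.pow_inj hi hj
      have := congrArg (· * ω ^ j) h
      simpa [mul_assoc, inv_mul_cancel₀ (pow_ne_zero j hω0)] using this
    have hηp : (ω ^ i * (ω ^ j)⁻¹) ^ p = 1 := by
      rw [mul_pow, inv_pow, ← pow_mul, ← pow_mul, mul_comm i p, mul_comm j p, pow_mul, pow_mul,
        hω.pow_eq_one, one_pow, one_pow, inv_one, mul_one]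
    have h := mul_geom_sum (ω ^ i * (ω ^ j)⁻¹) p
    rw [hηp, sub_self] at h
    rcases mul_eq_zero.mp h with h0 | h0
    · exact absurd (sub_eq_zero.mp h0) hη1
    · exact h0

end Roots

section Dichotomy

variable {E F L : Type*} [Field E] [Field F] [Field L] [Algebra E F] [Algebra F L] [Algebra E L]
  [IsScalarTower E F L]

/-- powers of the Kummer automorphism on the generator. -/
theorem ks_rho_pow_apply (ρ : L →ₐ[F] L) {y : L} {ζF : F}
    (hρ : ρ y = algebraMap F L ζF * y) (k : ℕ) :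
    (ρ ^ k) y = algebraMap F L ζF ^ k * y := by
  induction k with
  | zero => simp
  | succ k ih =>
    rw [pow_succ', AlgHom.mul_apply, ih, map_mul, map_pow, AlgHom.commutes, hρ]
    ring

/-- the isotypic component `a_j y^j` of `x = ∑ a_i y^i` is `p⁻¹ ∑_k ζ^{-jk} ρ^k x`. -/
theorem ks_component (ρ : L →ₐ[F] L) {p : ℕ} {ζF : F} (hζ : IsPrimitiveRoot ζF p) {y : L}
    (hρ : ρ y = algebraMap F L ζF * y) (a : ℕ → F) {j : ℕ} (hj : j < p) :
    ∑ k ∈ Finset.range p, (algebraMap F L ζF ^ (j * k))⁻¹ *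
        (ρ ^ k) (∑ i ∈ Finset.range p, algebraMap F L (a i) * y ^ i)
      = (p : L) * (algebraMap F L (a j) * y ^ j) := by
  set ω := algebraMap F L ζF with hω
  have hωL : IsPrimitiveRoot ω p := hζ.map_of_injective (algebraMap F L).injective
  have h1 : ∀ k, (ρ ^ k) (∑ i ∈ Finset.range p, algebraMap F L (a i) * y ^ i)
      = ∑ i ∈ Finset.range p, algebraMap F L (a i) * (ω ^ k * y) ^ i := by
    intro k
    rw [map_sum]
    refine Finset.sum_congr rfl fun i _ => ?_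
    rw [map_mul, map_pow, AlgHom.commutes, ks_rho_pow_apply ρ hρ k]
  simp_rw [h1, Finset.mul_sum]
  rw [Finset.sum_comm]
  have h2 : ∀ i ∈ Finset.range p,
      ∑ k ∈ Finset.range p, (ω ^ (j * k))⁻¹ * (algebraMap F L (a i) * (ω ^ k * y) ^ i)
        = if i = j then (p : L) * (algebraMap F L (a i) * y ^ i) else 0 := by
    intro i hi
    have h3 : ∀ k ∈ Finset.range p,
        (ω ^ (j * k))⁻¹ * (algebraMap F L (a i) * (ω ^ k * y) ^ i)
          = (algebraMap F L (a i) * y ^ i) * (ω ^ i * (ω ^ j)⁻¹) ^ k := by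
      intro k _
      rw [mul_pow, mul_pow, inv_pow, ← pow_mul, ← pow_mul, ← pow_mul, mul_comm k i]
      ring
    rw [Finset.sum_congr rfl h3, ← Finset.mul_sum, ks_sum_pow hωL (Finset.mem_range.mp hi) hj]
    split_ifs
    · ring
    · ring
  rw [Finset.sum_congr rfl h2, Finset.sum_ite_eq' (Finset.range p) j, if_pos (Finset.mem_range.mpr hj)]

/-- **Kummer dichotomy** (pure field theory).  `E` algebraically closed in `F`, `ζ ∈ E` a primitive
`p`-th root of unity, `L = F(y)`, `y ^ p = w ∈ F^×`, `ρ ∈ Aut(L/F)` with `ρ y = ζ y`.  Then either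
`E` is algebraically closed in `L`, or `w = c · h ^ p` with `c ∈ E^×`, `h ∈ F`. -/
theorem ks_dichotomy
    (hclF : ∀ x : F, IsAlgebraic E x → x ∈ (algebraMap E F).range)
    {p : ℕ} (hp : p.Prime) {ζ : E} (hζ : IsPrimitiveRoot ζ p)
    {w : F} (hw : w ≠ 0) {y : L} (hy : y ^ p = algebraMap F L w)
    (hgen : ∀ x : L, ∃ a : ℕ → F, x = ∑ i ∈ Finset.range p, algebraMap F L (a i) * y ^ i)
    (ρ : L →ₐ[F] L) (hρ : ρ y = algebraMap E L ζ * y) :
    (∀ x : L, IsAlgebraic E x → x ∈ (algebraMap E L).range) ∨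
      ∃ c : E, c ≠ 0 ∧ ∃ h : F, w = algebraMap E F c * h ^ p := by
  classical
  by_cases hcl : ∀ x : L, IsAlgebraic E x → x ∈ (algebraMap E L).range
  · exact Or.inl hcl
  right
  simp only [not_forall] at hcl
  obtain ⟨x, hxalg, hxE⟩ := hcl
  obtain ⟨a, hxa⟩ := hgen x
  have hFL : Function.Injective (algebraMap F L) := (algebraMap F L).injective
  haveI : NeZero p := ⟨hp.ne_zero⟩
  set ζF : F := algebraMap E F ζ with hζF
  have hζFp : IsPrimitiveRoot ζF p := hζ.map_of_injective (algebraMap E F).injective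
  have hωe : algebraMap F L ζF = algebraMap E L ζ := by
    rw [hζF, ← IsScalarTower.algebraMap_apply]
  have hρ' : ρ y = algebraMap F L ζF * y := by rw [hωe, hρ]
  have hωL : IsPrimitiveRoot (algebraMap F L ζF) p := hζFp.map_of_injective hFL
  have hpL : (p : L) ≠ 0 := (hωL.neZero').out
  -- the components are algebraic over `E`
  have hcomp : ∀ j < p, IsAlgebraic E (algebraMap F L (a j) * y ^ j) := by
    intro j hj
    have hsum := ks_component ρ hζFp hρ' a hj
    rw [← hxa] at hsum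
    have hint : IsIntegral E (∑ k ∈ Finset.range p,
        (algebraMap F L ζF ^ (j * k))⁻¹ * (ρ ^ k) x) := by
      refine IsIntegral.sum _ fun k _ => ?_
      refine IsIntegral.mul ?_ ?_
      · rw [hωe]
        exact (isIntegral_algebraMap.pow _).inv
      · exact (isAlgebraic_iff_isIntegral.mp hxalg).map ((ρ ^ k).restrictScalars E)
    rw [hsum] at hint
    have hp' : IsIntegral E ((p : L)⁻¹) := by
      have : (p : L) = algebraMap E L (p : E) := by rw [map_natCast]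
      rw [this]
      exact isIntegral_algebraMap.inv
    have := hp'.mul hint
    rw [inv_mul_cancel_left₀ hpL] at this
    exact isAlgebraic_iff_isIntegral.mpr this
  -- some component with `j ≥ 1` is nonzero
  have hex : ∃ j, 0 < j ∧ j < p ∧ a j ≠ 0 := by
    by_contra hne
    simp only [not_exists, not_and, not_not] at hne
    have hx0 : x = algebraMap F L (a 0) := by
      rw [hxa, Finset.sum_eq_single 0]
      · rw [pow_zero, mul_one]
      · intro i hi hi0
        rw [hne i (Nat.pos_of_ne_zero hi0) (Finset.mem_range.mp hi), map_zero, zero_mul]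
      · intro h0
        exact absurd (Finset.mem_range.mpr hp.pos) h0
    have h1 : IsAlgebraic E (a 0) := by
      rw [hx0] at hxalg
      exact (isAlgebraic_algebraMap_iff hFL).mp hxalg
    obtain ⟨e, he⟩ := hclF _ h1
    exact hxE ⟨e, by rw [hx0, ← he, ← IsScalarTower.algebraMap_apply]⟩
  obtain ⟨j, hj0, hjp, haj⟩ := hex
  have h1 : IsAlgebraic E (a j ^ p * w ^ j) := by
    have h2 := (hcomp j hjp).pow p
    rw [mul_pow, ← pow_mul, mul_comm j p, pow_mul, hy, ← map_pow, ← map_pow, ← map_mul] at h2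
    exact (isAlgebraic_algebraMap_iff hFL).mp h2
  obtain ⟨c₁, hc₁⟩ := hclF _ h1
  have hcop : Nat.Coprime j p :=
    ((Nat.Prime.coprime_iff_not_dvd hp).mpr (Nat.not_dvd_of_pos_of_lt hj0 hjp)).symm
  obtain ⟨m, -, hm⟩ := Nat.exists_mul_mod_eq_one_of_coprime hcop hp.one_lt
  set k := j * m / p with hk
  have hjm : j * m = 1 + p * k := by
    have := Nat.div_add_mod (j * m) p
    rw [hm] at this
    rw [← this, add_comm]
  have hne : a j ^ m * w ^ k ≠ 0 := mul_ne_zero (pow_ne_zero _ haj) (pow_ne_zero _ hw)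
  have hpow : (a j ^ p * w ^ j) ^ m = w * (a j ^ m * w ^ k) ^ p := by
    rw [mul_pow, ← pow_mul, ← pow_mul, hjm, pow_add, pow_one, mul_pow, ← pow_mul, ← pow_mul]
    ring
  refine ⟨c₁ ^ m, ?_, (a j ^ m * w ^ k)⁻¹, ?_⟩
  · apply pow_ne_zero
    intro h0
    rw [h0, map_zero] at hc₁
    exact (mul_ne_zero (pow_ne_zero _ haj) (pow_ne_zero _ hw)) hc₁.symm
  · rw [map_pow, hc₁, hpow, inv_pow, mul_assoc, mul_inv_cancel₀ (pow_ne_zero _ hne), mul_one]

end Dichotomy

section Transport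

variable {A₀ E F L : Type*} [CommRing A₀] [IsDomain A₀] [IsDiscreteValuationRing A₀]
  [Field E] [Algebra A₀ E] [IsFractionRing A₀ E] [CharZero E]
  [Field F] [Algebra E F] [Algebra A₀ F] [IsScalarTower A₀ E F]
  [Field L] [Algebra E L] [Algebra A₀ L] [IsScalarTower A₀ E L]
  [Algebra F L] [IsScalarTower E F L] [IsScalarTower A₀ F L]
  {π : A₀} {u : F}

theorem ks_transcendental (hu : Transcendental E u) : Transcendental E (algebraMap F L u) :=
  (transcendental_algebraMap_iff (algebraMap F L).injective).mpr hu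

theorem ks_map_adjoin (u : F) :
    (Algebra.adjoin A₀ ({u} : Set F)).map (IsScalarTower.toAlgHom A₀ F L)
      = Algebra.adjoin A₀ {algebraMap F L u} := by
  rw [AlgHom.map_adjoin, Set.image_singleton, IsScalarTower.toAlgHom_apply]

theorem ks_mem_adjoin {x : F} (hx : x ∈ Algebra.adjoin A₀ {u}) :
    algebraMap F L x ∈ Algebra.adjoin A₀ {algebraMap F L u} := by
  rw [← ks_map_adjoin (A₀ := A₀) (L := L) u]
  exact ⟨x, hx, rfl⟩

theorem ks_exists_of_mem_adjoin {r : L} (hr : r ∈ Algebra.adjoin A₀ {algebraMap F L u}) :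
    ∃ r' ∈ Algebra.adjoin A₀ {u}, algebraMap F L r' = r := by
  rw [← ks_map_adjoin (A₀ := A₀) (L := L) u] at hr
  obtain ⟨r', hr', h⟩ := hr
  exact ⟨r', hr', h⟩

/-- the ring homomorphism `A₀[u] → A₀[φ u]` induced by `φ : F → L`. -/
noncomputable def ksAdjoinMap (u : F) :
    ↥(Algebra.adjoin A₀ ({u} : Set F)) →+* ↥(Algebra.adjoin A₀ ({algebraMap F L u} : Set L)) where
  toFun a := ⟨algebraMap F L a, ks_mem_adjoin a.2⟩
  map_one' := Subtype.ext (map_one _)
  map_mul' _ _ := Subtype.ext (map_mul _ _ _)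
  map_zero' := Subtype.ext (map_zero _)
  map_add' _ _ := Subtype.ext (map_add _ _ _)

theorem ks_isIntegral {x : F} (hx : IsIntegral (Algebra.adjoin A₀ {u}) x) :
    IsIntegral (Algebra.adjoin A₀ {algebraMap F L u}) (algebraMap F L x) :=
  IsIntegral.map_of_comp_eq (ksAdjoinMap (A₀ := A₀) (L := L) u) (algebraMap F L)
    (by ext a; rfl) hx

theorem ks_algebraMap_comm (a : A₀) : algebraMap F L (algebraMap A₀ F a) = algebraMap A₀ L a :=
  (IsScalarTower.algebraMap_apply A₀ F L a).symm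

theorem ks_primeTo {s : F} (hs : EIPrimeTo π u s) :
    EIPrimeTo π (algebraMap F L u) (algebraMap F L s) := by
  refine ⟨ks_mem_adjoin hs.1, fun r hr h => ?_⟩
  obtain ⟨r', hr', rfl⟩ := ks_exists_of_mem_adjoin hr
  apply hs.2 r' hr'
  apply (algebraMap F L).injective
  rw [h, map_mul, ks_algebraMap_comm]

theorem ks_mem_eiLoc (hu : Transcendental E u) (hπ : Irreducible π) {z : F}
    (hz : z ∈ eiLoc hu hπ) :
    algebraMap F L z ∈ eiLoc (ks_transcendental (L := L) hu) hπ := by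
  obtain ⟨s, hs, hsz⟩ := hz
  refine ⟨algebraMap F L s, ks_primeTo hs, ?_⟩
  rw [← map_mul]
  exact ks_isIntegral hsz

theorem ks_piLoc (hu : Transcendental E u) (hπ : Irreducible π) {x : F}
    (hx : EIPiLoc hu hπ x) :
    EIPiLoc (ks_transcendental (L := L) hu) hπ (algebraMap F L x) := by
  obtain ⟨z, hz, rfl⟩ := hx
  exact ⟨algebraMap F L z, ks_mem_eiLoc hu hπ hz, by rw [map_mul, ks_algebraMap_comm]⟩

theorem ks_finiteDimensional (t : F) [FiniteDimensional (IntermediateField.adjoin E {t}) F]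
    [FiniteDimensional F L] :
    FiniteDimensional (IntermediateField.adjoin E {algebraMap F L t}) L := by
  have hmap : (IntermediateField.adjoin E ({t} : Set F)).map (IsScalarTower.toAlgHom E F L)
      = IntermediateField.adjoin E {algebraMap F L t} := by
    rw [IntermediateField.adjoin_map, Set.image_singleton, IsScalarTower.toAlgHom_apply]
  haveI : Module.Finite (IntermediateField.adjoin E ({t} : Set F)) L := Module.Finite.trans F L
  exact Module.Finite.of_equiv_equiv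
    (((IntermediateField.equivMap (IntermediateField.adjoin E ({t} : Set F))
      (IsScalarTower.toAlgHom E F L)).trans (IntermediateField.equivOfEq hmap)).toRingEquiv)
    (RingEquiv.refl L) (by ext x; rfl)

/-- the ring homomorphism `C_F(u) → C_L(φ u)` induced by `φ : F → L`. -/
noncomputable def ksClosureMap (u : F) :
    ↥(zchClosure (A₀ := A₀) ({u} : Set F)) →+*
      ↥(zchClosure (A₀ := A₀) ({algebraMap F L u} : Set L)) where
  toFun x := ⟨algebraMap F L x, mem_zchClosure.mpr (ks_isIntegral (mem_zchClosure.mp x.2))⟩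
  map_one' := Subtype.ext (map_one _)
  map_mul' _ _ := Subtype.ext (map_mul _ _ _)
  map_zero' := Subtype.ext (map_zero _)
  map_add' _ _ := Subtype.ext (map_add _ _ _)

theorem ksClosureMap_coe (u : F) (x : ↥(zchClosure (A₀ := A₀) ({u} : Set F))) :
    ((ksClosureMap (L := L) u x : ↥(zchClosure (A₀ := A₀) ({algebraMap F L u} : Set L))) : L)
      = algebraMap F L (x : F) := rfl

/-- **The local hypothesis (L)** at the chart `u` of `F` (the output of D3 `LocalShape`): at every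
closed point `𝔫 ∋ π` of the chart, `w = ε · h ^ p` with `s ε` integral for some `s ∉ 𝔫` and
`h ≡ 1` on the special fibre. -/
def KSLocal (hu : Transcendental E u) (hπ : Irreducible π) (p : ℕ) (w : F) : Prop :=
  ∀ 𝔫 : Ideal ↥(zchClosure (A₀ := A₀) ({u} : Set F)), 𝔫.IsMaximal →
    algebraMap A₀ ↥(zchClosure (A₀ := A₀) ({u} : Set F)) π ∈ 𝔫 →
    ∃ s : ↥(zchClosure (A₀ := A₀) ({u} : Set F)), s ∉ 𝔫 ∧ ∃ ε h : F, w = ε * h ^ p ∧
      IsIntegral (Algebra.adjoin A₀ {u}) ((s : F) * ε) ∧ EIPiLoc hu hπ (h - 1)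

/-- Transport of the local data from `F` to `L = F(y)`, `y ^ p = w`: the hypothesis `hloc` of
`ei_exists_global` / `ei_main` holds for `y`, with `b := s`, `T := s y / h`. -/
theorem ks_local (hu : Transcendental E u) (hπ : Irreducible π) {p : ℕ} (hp : 0 < p) {w : F}
    (hw : w ≠ 0) (hloc : KSLocal hu hπ p w) {y : L} (hy : y ^ p = algebraMap F L w)
    {uL : L} (huL : algebraMap F L u = uL) (huLt : Transcendental E uL) :
    ∀ 𝔑 : Ideal ↥(zchClosure (A₀ := A₀) ({uL} : Set L)), 𝔑.IsMaximal →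
      algebraMap A₀ ↥(zchClosure (A₀ := A₀) ({uL} : Set L)) π ∈ 𝔑 →
      ∃ b T : ↥(zchClosure (A₀ := A₀) ({uL} : Set L)),
        b ∉ 𝔑 ∧ EIPiLoc huLt hπ ((b : L) * y - (T : L)) := by
  subst huL
  intro 𝔑 h𝔑 hπ𝔑
  have hne : 𝔑.comap (ksClosureMap (A₀ := A₀) (L := L) u) ≠ ⊤ :=
    Ideal.comap_ne_top _ h𝔑.ne_top
  obtain ⟨𝔫, h𝔫, hle⟩ := Ideal.exists_le_maximal _ hne
  have hπ𝔫 : algebraMap A₀ ↥(zchClosure (A₀ := A₀) ({u} : Set F)) π ∈ 𝔫 := by
    apply hle
    rw [Ideal.mem_comap]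
    have : ksClosureMap (A₀ := A₀) (L := L) u
        (algebraMap A₀ ↥(zchClosure (A₀ := A₀) ({u} : Set F)) π)
        = algebraMap A₀ ↥(zchClosure (A₀ := A₀) ({algebraMap F L u} : Set L)) π :=
      Subtype.ext (ks_algebraMap_comm π)
    rw [this]
    exact hπ𝔑
  obtain ⟨s, hs, ε, h, hwεh, hsε, hh⟩ := hloc 𝔫 h𝔫 hπ𝔫
  have hh0 : h ≠ 0 := by
    rintro rfl
    apply hw
    rw [hwεh, zero_pow hp.ne', mul_zero]
  have hφh : algebraMap F L h ≠ 0 := (_root_.map_ne_zero _).mpr hh0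
  set T₀ : L := algebraMap F L (s : F) * y * (algebraMap F L h)⁻¹ with hT₀
  have hT₀p : T₀ ^ p = algebraMap F L ((s : F) ^ (p - 1) * ((s : F) * ε)) := by
    have e1 : (s : F) ^ (p - 1) * ((s : F) * ε) = (s : F) ^ p * ε := by
      rw [← mul_assoc, ← pow_succ, Nat.sub_add_cancel hp]
    rw [e1, hT₀, mul_pow, mul_pow, hy, hwεh, inv_pow, map_mul, map_mul, map_pow, map_pow]
    field_simp
  have hT₀int : IsIntegral (Algebra.adjoin A₀ {algebraMap F L u}) T₀ := by
    refine IsIntegral.of_pow hp ?_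
    rw [hT₀p]
    exact ks_isIntegral ((IsIntegral.pow (mem_zchClosure.mp s.2) _).mul hsε)
  refine ⟨ksClosureMap (A₀ := A₀) (L := L) u s, ⟨T₀, mem_zchClosure.mpr hT₀int⟩, ?_, ?_⟩
  · intro hmem
    exact hs (hle (Ideal.mem_comap.mpr hmem))
  · have e2 : algebraMap F L (s : F) * y - T₀ = T₀ * algebraMap F L (h - 1) := by
      rw [map_sub, map_one, mul_sub, mul_one, hT₀, inv_mul_cancel_right₀ hφh]
    change EIPiLoc huLt hπ (algebraMap F L (s : F) * y - T₀)
    rw [e2]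
    exact (ks_piLoc hu hπ hh).mul_left _ hπ (eiLoc_of_isIntegral _ hπ hT₀int)

/-- **The local hypothesis (L'), weak form**: at every closed point `𝔫 ∋ π` of the chart there are
`s ∉ 𝔫` and `g ∈ F` with `g ^ p · w` integral and `s ≡ g` on the special fibre.
(From a datum `w = ε γ ^ p`, `s₁ ε` integral, `γ ≡ 1` only at the vertical primes through `𝔫`:
`s := b₀ s₁` with `b₀ ∉ 𝔫` vanishing to high order on the other vertical primes, `g := s / γ`.) -/
def KSLocal' (hu : Transcendental E u) (hπ : Irreducible π) (p : ℕ) (w : F) : Prop :=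
  ∀ 𝔫 : Ideal ↥(zchClosure (A₀ := A₀) ({u} : Set F)), 𝔫.IsMaximal →
    algebraMap A₀ ↥(zchClosure (A₀ := A₀) ({u} : Set F)) π ∈ 𝔫 →
    ∃ s : ↥(zchClosure (A₀ := A₀) ({u} : Set F)), s ∉ 𝔫 ∧ ∃ g : F,
      IsIntegral (Algebra.adjoin A₀ {u}) (g ^ p * w) ∧ EIPiLoc hu hπ ((s : F) - g)

/-- Transport of the weak local data from `F` to `L = F(y)`, `y ^ p = w`: `b := s`, `T := g y`. -/
theorem ks_local' (hu : Transcendental E u) (hπ : Irreducible π) {p : ℕ} (hp : 0 < p) {w : F}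
    (hG : EIPiLoc hu hπ (w - 1))
    (hloc : KSLocal' hu hπ p w) {y : L} (hy : y ^ p = algebraMap F L w)
    {uL : L} (huL : algebraMap F L u = uL) (huLt : Transcendental E uL) :
    ∀ 𝔑 : Ideal ↥(zchClosure (A₀ := A₀) ({uL} : Set L)), 𝔑.IsMaximal →
      algebraMap A₀ ↥(zchClosure (A₀ := A₀) ({uL} : Set L)) π ∈ 𝔑 →
      ∃ b T : ↥(zchClosure (A₀ := A₀) ({uL} : Set L)),
        b ∉ 𝔑 ∧ EIPiLoc huLt hπ ((b : L) * y - (T : L)) := by
  subst huL
  intro 𝔑 h𝔑 hπ𝔑
  have hne : 𝔑.comap (ksClosureMap (A₀ := A₀) (L := L) u) ≠ ⊤ :=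
    Ideal.comap_ne_top _ h𝔑.ne_top
  obtain ⟨𝔫, h𝔫, hle⟩ := Ideal.exists_le_maximal _ hne
  have hπ𝔫 : algebraMap A₀ ↥(zchClosure (A₀ := A₀) ({u} : Set F)) π ∈ 𝔫 := by
    apply hle
    rw [Ideal.mem_comap]
    have : ksClosureMap (A₀ := A₀) (L := L) u
        (algebraMap A₀ ↥(zchClosure (A₀ := A₀) ({u} : Set F)) π)
        = algebraMap A₀ ↥(zchClosure (A₀ := A₀) ({algebraMap F L u} : Set L)) π :=
      Subtype.ext (ks_algebraMap_comm π)
    rw [this]
    exact hπ𝔑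
  obtain ⟨s, hs, g, hgw, hsg⟩ := hloc 𝔫 h𝔫 hπ𝔫
  have hy1 : EIPiLoc huLt hπ (y ^ p - 1) := by
    have := ks_piLoc (L := L) hu hπ hG
    rwa [map_sub, map_one, ← hy] at this
  have hyloc : y ∈ eiLoc huLt hπ := ei_mem_loc_of_pow huLt hπ hp hy1
  have hT₀int : IsIntegral (Algebra.adjoin A₀ {algebraMap F L u}) (algebraMap F L g * y) := by
    refine IsIntegral.of_pow hp ?_
    rw [mul_pow, hy, ← map_pow, ← map_mul]
    exact ks_isIntegral hgw
  refine ⟨ksClosureMap (A₀ := A₀) (L := L) u s,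
    ⟨algebraMap F L g * y, mem_zchClosure.mpr hT₀int⟩, ?_, ?_⟩
  · intro hmem
    exact hs (hle (Ideal.mem_comap.mpr hmem))
  · have e2 : algebraMap F L (s : F) * y - algebraMap F L g * y
        = algebraMap F L ((s : F) - g) * y := by
      rw [map_sub, sub_mul]
    change EIPiLoc huLt hπ (algebraMap F L (s : F) * y - algebraMap F L g * y)
    rw [e2]
    exact (ks_piLoc hu hπ hsg).mul_right _ hπ hyloc

end Transport

section Main

variable {A₀ E F : Type*} [CommRing A₀] [IsDomain A₀] [IsDiscreteValuationRing A₀]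
  [Field E] [Algebra A₀ E] [IsFractionRing A₀ E] [CharZero E]
  [Field F] [Algebra E F] [Algebra A₀ F] [IsScalarTower A₀ E F]
  {π : A₀} {t : F}

/-- every element of `F[X]/(X^p − w)` is `∑_{i<p} a_i y^i`. -/
theorem ks_gen {p : ℕ} (hp : 0 < p) (w : F) (x : AdjoinRoot (X ^ p - C w : F[X])) :
    ∃ a : ℕ → F, x = ∑ i ∈ Finset.range p,
      algebraMap F (AdjoinRoot (X ^ p - C w : F[X])) (a i) *
        AdjoinRoot.root (X ^ p - C w : F[X]) ^ i := by
  have hmonic : (X ^ p - C w : F[X]).Monic := monic_X_pow_sub_C w hp.ne'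
  have hdeg : (X ^ p - C w : F[X]).natDegree = p := natDegree_X_pow_sub_C
  have hne1 : (X ^ p - C w : F[X]) ≠ 1 := by
    intro h
    have := congrArg natDegree h
    rw [hdeg, natDegree_one] at this
    omega
  obtain ⟨g, rfl⟩ := AdjoinRoot.mk_surjective x
  set r := g %ₘ (X ^ p - C w : F[X]) with hr
  have hgr : AdjoinRoot.mk (X ^ p - C w : F[X]) g = AdjoinRoot.mk (X ^ p - C w : F[X]) r := by
    rw [AdjoinRoot.mk_eq_mk, hr, modByMonic_eq_sub_mul_div, sub_sub_cancel]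
    exact dvd_mul_right _ _
  have hrdeg : r.natDegree < p := by
    have := natDegree_modByMonic_lt g hmonic hne1
    rwa [hdeg] at this
  refine ⟨fun i => r.coeff i, ?_⟩
  rw [hgr]
  conv_lhs => rw [as_sum_range' r p hrdeg]
  rw [map_sum]
  refine Finset.sum_congr rfl fun i _ => ?_
  rw [← C_mul_X_pow_eq_monomial, map_mul, map_pow, AdjoinRoot.mk_C, AdjoinRoot.mk_X,
    AdjoinRoot.algebraMap_eq]

/-- **Kummer glue.**  In the chart setting for `F`, with `p` a prime invertible in `A₀` and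
`ζ ∈ A₀` a primitive `p`-th root of unity: a function `w ∈ F^×` which is `≡ 1` on the special
fibre and has the local shape `(ε integral near 𝔫) · (h ≡ 1) ^ p` at every closed point of the
special fibre of both charts is a constant times a `p`-th power. -/
theorem ks_main_gen (hπ : Irreducible π) (ht : Transcendental E t)
    [FiniteDimensional (IntermediateField.adjoin E {t}) F]
    (hcl : ∀ x : F, IsAlgebraic E x → x ∈ (algebraMap E F).range)
    {p : ℕ} (hp : p.Prime) (hpu : IsUnit (p : A₀)) {ζ : A₀} (hζ : IsPrimitiveRoot ζ p)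
    {w : F} (hw : w ≠ 0)
    (hG : EIPiLoc ht hπ (w - 1))
    (hL₁ : KSLocal ht hπ p w ∨ KSLocal' ht hπ p w)
    (hL₂ : KSLocal (zch_transcendental_inv ht) hπ p w ∨
      KSLocal' (zch_transcendental_inv ht) hπ p w) :
    ∃ c : E, c ≠ 0 ∧ ∃ h : F, w = algebraMap E F c * h ^ p := by
  classical
  by_cases hirr : Irreducible (X ^ p - C w : F[X])
  swap
  · rw [X_pow_sub_C_irreducible_iff_of_prime hp] at hirr
    simp only [not_forall, not_not] at hirr
    obtain ⟨b, hb⟩ := hirr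
    exact ⟨1, one_ne_zero, b, by rw [map_one, one_mul, hb]⟩
  haveI : Fact (Irreducible (X ^ p - C w : F[X])) := ⟨hirr⟩
  have hy : AdjoinRoot.root (X ^ p - C w : F[X]) ^ p
      = algebraMap F (AdjoinRoot (X ^ p - C w : F[X])) w := by
    rw [root_X_pow_sub_C_pow, AdjoinRoot.algebraMap_eq]
  have hζE : IsPrimitiveRoot (algebraMap A₀ E ζ) p :=
    hζ.map_of_injective (IsFractionRing.injective A₀ E)
  have hζF : IsPrimitiveRoot (algebraMap E F (algebraMap A₀ E ζ)) p :=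
    hζE.map_of_injective (algebraMap E F).injective
  -- the Kummer automorphism
  have hρwd : (X ^ p - C w : F[X]).eval₂ (Algebra.ofId F (AdjoinRoot (X ^ p - C w : F[X])))
      (algebraMap F (AdjoinRoot (X ^ p - C w : F[X])) (algebraMap E F (algebraMap A₀ E ζ)) *
        AdjoinRoot.root (X ^ p - C w : F[X])) = 0 := by
    rw [eval₂_sub, eval₂_pow, eval₂_X, eval₂_C, mul_pow, hy, ← map_pow, hζF.pow_eq_one, map_one,
      one_mul]
    exact sub_self _
  set ρ : AdjoinRoot (X ^ p - C w : F[X]) →ₐ[F] AdjoinRoot (X ^ p - C w : F[X]) :=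
    AdjoinRoot.liftAlgHom (X ^ p - C w : F[X])
      (Algebra.ofId F (AdjoinRoot (X ^ p - C w : F[X])))
      (algebraMap F (AdjoinRoot (X ^ p - C w : F[X])) (algebraMap E F (algebraMap A₀ E ζ)) *
        AdjoinRoot.root (X ^ p - C w : F[X])) hρwd with hρdef
  have hρ : ρ (AdjoinRoot.root (X ^ p - C w : F[X]))
      = algebraMap E (AdjoinRoot (X ^ p - C w : F[X])) (algebraMap A₀ E ζ) *
        AdjoinRoot.root (X ^ p - C w : F[X]) := by
    rw [hρdef, AdjoinRoot.liftAlgHom_root, ← IsScalarTower.algebraMap_apply]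
  rcases ks_dichotomy hcl hp hζE hw hy (ks_gen hp.pos w) ρ hρ with hclL | hres
  swap
  · exact hres
  exfalso
  haveI : FiniteDimensional F (AdjoinRoot (X ^ p - C w : F[X])) :=
    (AdjoinRoot.powerBasis hirr.ne_zero).finite
  haveI := ks_finiteDimensional (E := E) (L := AdjoinRoot (X ^ p - C w : F[X])) t
  have htL := ks_transcendental (L := AdjoinRoot (X ^ p - C w : F[X])) ht
  have hinjA : Function.Injective (algebraMap A₀ (AdjoinRoot (X ^ p - C w : F[X]))) :=
    zch_algebraMap_injective (A₀ := A₀) (E := E)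
  refine ei_false_of_aut hπ htL hclL hpu hp.one_lt
    (y := AdjoinRoot.root (X ^ p - C w : F[X])) ?_ ?_ ?_ ρ.toRingHom ?_ ?_ (ζ := ζ)
    (hζ.map_of_injective hinjA) ?_
  · -- `y ^ p ≡ 1`
    have := ks_piLoc (L := AdjoinRoot (X ^ p - C w : F[X])) ht hπ hG
    rwa [map_sub, map_one, ← hy] at this
  · rcases hL₁ with hL₁ | hL₁
    · exact ks_local ht hπ hp.pos hw hL₁ hy rfl htL
    · exact ks_local' ht hπ hp.pos hG hL₁ hy rfl htL
  · have hG' : EIPiLoc (zch_transcendental_inv ht) hπ (w - 1) := (eiPiLoc_inv_iff ht hπ).mpr hG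
    rcases hL₂ with hL₂ | hL₂
    · exact ks_local (zch_transcendental_inv ht) hπ hp.pos hw hL₂ hy (map_inv₀ _ t)
        (zch_transcendental_inv htL)
    · exact ks_local' (zch_transcendental_inv ht) hπ hp.pos hG' hL₂ hy (map_inv₀ _ t)
        (zch_transcendental_inv htL)
  · intro a
    change ρ (algebraMap A₀ (AdjoinRoot (X ^ p - C w : F[X])) a) = _
    rw [IsScalarTower.algebraMap_apply A₀ F (AdjoinRoot (X ^ p - C w : F[X])), AlgHom.commutes]
  · change ρ (algebraMap F (AdjoinRoot (X ^ p - C w : F[X])) t) = _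
    rw [AlgHom.commutes]
  · change ρ (AdjoinRoot.root (X ^ p - C w : F[X])) = _
    rw [hρ, ← IsScalarTower.algebraMap_apply]

/-- **Kummer glue** with the strong local hypothesis `KSLocal` on both charts. -/
theorem ks_main (hπ : Irreducible π) (ht : Transcendental E t)
    [FiniteDimensional (IntermediateField.adjoin E {t}) F]
    (hcl : ∀ x : F, IsAlgebraic E x → x ∈ (algebraMap E F).range)
    {p : ℕ} (hp : p.Prime) (hpu : IsUnit (p : A₀)) {ζ : A₀} (hζ : IsPrimitiveRoot ζ p)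
    {w : F} (hw : w ≠ 0)
    (hG : EIPiLoc ht hπ (w - 1))
    (hL₁ : KSLocal ht hπ p w) (hL₂ : KSLocal (zch_transcendental_inv ht) hπ p w) :
    ∃ c : E, c ≠ 0 ∧ ∃ h : F, w = algebraMap E F c * h ^ p :=
  ks_main_gen hπ ht hcl hp hpu hζ hw hG (Or.inl hL₁) (Or.inl hL₂)

/-- **Kummer glue** with the weak local hypothesis `KSLocal'` on both charts. -/
theorem ks_main' (hπ : Irreducible π) (ht : Transcendental E t)
    [FiniteDimensional (IntermediateField.adjoin E {t}) F]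
    (hcl : ∀ x : F, IsAlgebraic E x → x ∈ (algebraMap E F).range)
    {p : ℕ} (hp : p.Prime) (hpu : IsUnit (p : A₀)) {ζ : A₀} (hζ : IsPrimitiveRoot ζ p)
    {w : F} (hw : w ≠ 0)
    (hG : EIPiLoc ht hπ (w - 1))
    (hL₁ : KSLocal' ht hπ p w) (hL₂ : KSLocal' (zch_transcendental_inv ht) hπ p w) :
    ∃ c : E, c ≠ 0 ∧ ∃ h : F, w = algebraMap E F c * h ^ p :=
  ks_main_gen hπ ht hcl hp hpu hζ hw hG (Or.inr hL₁) (Or.inr hL₂)

/-- **Kummer glue, exact form** (the input `hP` of D5 `PowerInd`): if the constants that can occur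
are `p`-th powers in `E`, then `w` is a `p`-th power in `F`. -/
theorem ks_main_pow (hπ : Irreducible π) (ht : Transcendental E t)
    [FiniteDimensional (IntermediateField.adjoin E {t}) F]
    (hcl : ∀ x : F, IsAlgebraic E x → x ∈ (algebraMap E F).range)
    {p : ℕ} (hp : p.Prime) (hpu : IsUnit (p : A₀)) {ζ : A₀} (hζ : IsPrimitiveRoot ζ p)
    (hconst : ∀ c : E, c ≠ 0 →
      (∃ h : F, EIPiLoc ht hπ (algebraMap E F c * h ^ p - 1)) → ∃ d : E, d ^ p = c)
    {w : F} (hw : w ≠ 0)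
    (hG : EIPiLoc ht hπ (w - 1))
    (hL₁ : KSLocal ht hπ p w) (hL₂ : KSLocal (zch_transcendental_inv ht) hπ p w) :
    ∃ h : F, h ^ p = w := by
  obtain ⟨c, hc, h, hwch⟩ := ks_main hπ ht hcl hp hpu hζ hw hG hL₁ hL₂
  obtain ⟨d, hd⟩ := hconst c hc ⟨h, by rw [← hwch]; exact hG⟩
  exact ⟨algebraMap E F d * h, by rw [mul_pow, ← map_pow, hd, hwch]⟩

/-- **Kummer glue, exact form**, with the weak local hypothesis `KSLocal'`. -/
theorem ks_main_pow' (hπ : Irreducible π) (ht : Transcendental E t)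
    [FiniteDimensional (IntermediateField.adjoin E {t}) F]
    (hcl : ∀ x : F, IsAlgebraic E x → x ∈ (algebraMap E F).range)
    {p : ℕ} (hp : p.Prime) (hpu : IsUnit (p : A₀)) {ζ : A₀} (hζ : IsPrimitiveRoot ζ p)
    (hconst : ∀ c : E, c ≠ 0 →
      (∃ h : F, EIPiLoc ht hπ (algebraMap E F c * h ^ p - 1)) → ∃ d : E, d ^ p = c)
    {w : F} (hw : w ≠ 0)
    (hG : EIPiLoc ht hπ (w - 1))
    (hL₁ : KSLocal' ht hπ p w) (hL₂ : KSLocal' (zch_transcendental_inv ht) hπ p w) :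
    ∃ h : F, h ^ p = w := by
  obtain ⟨c, hc, h, hwch⟩ := ks_main' hπ ht hcl hp hpu hζ hw hG hL₁ hL₂
  obtain ⟨d, hd⟩ := hconst c hc ⟨h, by rw [← hwch]; exact hG⟩
  exact ⟨algebraMap E F d * h, by rw [mul_pow, ← map_pow, hd, hwch]⟩

end Main

end Fermat.Agent.UNIP


end ZBINJ_031_5

/-! ### bundled: `Fermat.Agent.UNIP.Crossing` -/
section ZBINJ_031_6
/-
UNIP (item 34, S34/S35), piece D7 "Crossing" (helper20): the two components of the special fibre
meet.

Setting of `INJ/ZariskiCharts.lean`: `A₀` a DVR with uniformizer `π`, `E = Frac A₀` (char 0), `L/E(t)`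
finite, `E` algebraically closed in `L`; charts `C₁, C₂` = integral closures of `A₀[t]`, `A₀[t⁻¹]`
in `L`.  `Vinf, V0` two valuation subrings of `L` (the two vertical valuations) containing `A₀`, `t`,
`t⁻¹`, with `π` a nonunit of both, such that on each of the two charts
`𝔭_∞ ∩ 𝔭_0 = π C`  (SS1), where `𝔭_• := 𝔪(V_•) ∩ C`.

* `crossing_not_comax` : it is impossible that `𝔭_∞ + 𝔭_0 = (1)` in BOTH charts
  (else `e_i := a_i` with `a_i + b_i = 1` are idempotents mod `π` agreeing on the overlap, and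
  `zariski_connected_charts` makes `e₁ ≡ 0` or `e₁ ≡ 1`, i.e. `1 ∈ 𝔭_0` or `1 ∈ 𝔭_∞`).
* `crossing_exists_maximal` : hence one of the two charts has a maximal ideal `𝔫` containing
  `𝔭_∞` and `𝔭_0` (a crossing point; this is `hconn` of D5 `pwi_exists_pow_eq`).
-/

set_option autoImplicit false
set_option linter.unusedSectionVars false
set_option linter.unusedVariables false

namespace Fermat.Agent.UNIP

open Polynomial IntermediateField Fermat.Agent.INJ

section Val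

variable {A₀ L : Type*} [CommRing A₀] [Field L] [Algebra A₀ L]

/-- a valuation subring containing a subalgebra contains its integral closure -/
theorem crossing_mem_of_isIntegral (V : ValuationSubring L) (S : Subalgebra A₀ L)
    (hS : ∀ x ∈ S, x ∈ V) {x : L} (hx : IsIntegral S x) : x ∈ V := by
  obtain ⟨p, hp, hpx⟩ := hx
  let f : S →+* V :=
    { toFun := fun s => ⟨(s : L), hS s s.2⟩
      map_one' := rfl
      map_mul' := fun _ _ => rfl
      map_zero' := rfl
      map_add' := fun _ _ => rfl }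
  have hx' : IsIntegral V x := by
    refine ⟨p.map f, hp.map f, ?_⟩
    rw [eval₂_map]
    exact hpx
  obtain ⟨y, rfl⟩ := IsIntegrallyClosed.isIntegral_iff.mp hx'
  exact y.2

theorem crossing_mul_mem_nonunits (V : ValuationSubring L) {x y : L} (hx : x ∈ V)
    (hy : y ∈ V.nonunits) : x * y ∈ V.nonunits := by
  rw [ValuationSubring.mem_nonunits_iff] at hy ⊢
  rw [map_mul]
  have hx1 : V.valuation x ≤ 1 := (V.valuation_le_one_iff x).2 hx
  calc V.valuation x * V.valuation y ≤ 1 * V.valuation y := by gcongr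
    _ = V.valuation y := one_mul _
    _ < 1 := hy

theorem crossing_one_not_mem_nonunits (V : ValuationSubring L) : (1 : L) ∉ V.nonunits := by
  rw [ValuationSubring.mem_nonunits_iff, map_one]
  exact lt_irrefl _

/-- `A₀[S] ⊆ V` if `A₀ ⊆ V` and `S ⊆ V` -/
theorem crossing_adjoin_le (V : ValuationSubring L) (hA : ∀ a : A₀, algebraMap A₀ L a ∈ V)
    (S : Set L) (hS : ∀ s ∈ S, s ∈ V) : ∀ x ∈ Algebra.adjoin A₀ S, x ∈ V := by
  intro x hx
  induction hx using Algebra.adjoin_induction with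
  | mem x hx => exact hS x hx
  | algebraMap a => exact hA a
  | add x y _ _ hx hy => exact V.add_mem _ _ hx hy
  | mul x y _ _ hx hy => exact V.mul_mem _ _ hx hy

end Val

section Main

variable {A₀ E L : Type*} [CommRing A₀] [IsDomain A₀] [IsDiscreteValuationRing A₀]
  [Field E] [Algebra A₀ E] [IsFractionRing A₀ E] [CharZero E]
  [Field L] [Algebra E L] [Algebra A₀ L] [IsScalarTower A₀ E L]

/-- **D7, element form.**  The two components cannot be disjoint on both charts. -/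
theorem crossing_not_comax
    {π : A₀} (hπ : Irreducible π)
    {t : L} (ht : Transcendental E t)
    [FiniteDimensional (IntermediateField.adjoin E {t}) L]
    (hcl : ∀ x : L, IsAlgebraic E x → x ∈ (algebraMap E L).range)
    (Vinf V0 : ValuationSubring L)
    (hAinf : ∀ a : A₀, algebraMap A₀ L a ∈ Vinf) (hA0 : ∀ a : A₀, algebraMap A₀ L a ∈ V0)
    (htinf : t ∈ Vinf) (htinf' : t⁻¹ ∈ Vinf) (ht0 : t ∈ V0) (ht0' : t⁻¹ ∈ V0)
    (hπinf : algebraMap A₀ L π ∈ Vinf.nonunits) (hπ0 : algebraMap A₀ L π ∈ V0.nonunits)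
    (hSS1 : ∀ x : L, IsIntegral (Algebra.adjoin A₀ {t}) x → x ∈ Vinf.nonunits → x ∈ V0.nonunits →
      ∃ c : L, IsIntegral (Algebra.adjoin A₀ {t}) c ∧ x = algebraMap A₀ L π * c)
    (hSS1' : ∀ x : L, IsIntegral (Algebra.adjoin A₀ {t⁻¹}) x → x ∈ Vinf.nonunits →
      x ∈ V0.nonunits → ∃ c : L, IsIntegral (Algebra.adjoin A₀ {t⁻¹}) c ∧
        x = algebraMap A₀ L π * c)
    (a₁ b₁ a₂ b₂ : L)
    (ha₁ : IsIntegral (Algebra.adjoin A₀ {t}) a₁) (hb₁ : IsIntegral (Algebra.adjoin A₀ {t}) b₁)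
    (ha₂ : IsIntegral (Algebra.adjoin A₀ {t⁻¹}) a₂)
    (hb₂ : IsIntegral (Algebra.adjoin A₀ {t⁻¹}) b₂)
    (ha₁inf : a₁ ∈ Vinf.nonunits) (hb₁0 : b₁ ∈ V0.nonunits)
    (ha₂inf : a₂ ∈ Vinf.nonunits) (hb₂0 : b₂ ∈ V0.nonunits)
    (h₁ : a₁ + b₁ = 1) (h₂ : a₂ + b₂ = 1) : False := by
  have ht0ne : t ≠ 0 := by
    rintro rfl
    exact ht isAlgebraic_zero
  have htt' : t * t⁻¹ = 1 := mul_inv_cancel₀ ht0ne
  -- the charts lie in the valuation rings
  have hC₁inf : ∀ x : L, IsIntegral (Algebra.adjoin A₀ {t}) x → x ∈ Vinf := fun x hx =>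
    crossing_mem_of_isIntegral Vinf _ (crossing_adjoin_le Vinf hAinf {t} (by
      rintro s rfl; exact htinf)) hx
  have hC₁0 : ∀ x : L, IsIntegral (Algebra.adjoin A₀ {t}) x → x ∈ V0 := fun x hx =>
    crossing_mem_of_isIntegral V0 _ (crossing_adjoin_le V0 hA0 {t} (by
      rintro s rfl; exact ht0)) hx
  have hC₂inf : ∀ x : L, IsIntegral (Algebra.adjoin A₀ {t⁻¹}) x → x ∈ Vinf := fun x hx =>
    crossing_mem_of_isIntegral Vinf _ (crossing_adjoin_le Vinf hAinf {t⁻¹} (by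
      rintro s rfl; exact htinf')) hx
  have hC₂0 : ∀ x : L, IsIntegral (Algebra.adjoin A₀ {t⁻¹}) x → x ∈ V0 := fun x hx =>
    crossing_mem_of_isIntegral V0 _ (crossing_adjoin_le V0 hA0 {t⁻¹} (by
      rintro s rfl; exact ht0')) hx
  have hsub₁ : Algebra.adjoin A₀ ({t} : Set L) ≤ Algebra.adjoin A₀ {t, t⁻¹} :=
    Algebra.adjoin_mono (by intro x hx; exact Or.inl hx)
  have hsub₂ : Algebra.adjoin A₀ ({t⁻¹} : Set L) ≤ Algebra.adjoin A₀ {t, t⁻¹} :=
    Algebra.adjoin_mono (by intro x hx; exact Or.inr hx)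
  -- (SS1) on the overlap
  have hSS12 : ∀ x : L, IsIntegral (Algebra.adjoin A₀ {t, t⁻¹}) x → x ∈ Vinf.nonunits →
      x ∈ V0.nonunits → ∃ c : L, IsIntegral (Algebra.adjoin A₀ {t, t⁻¹}) c ∧
        x = algebraMap A₀ L π * c := by
    intro x hx hxinf hx0
    obtain ⟨s, hs⟩ := zch_exists_pow_mul_isIntegral (A₀ := A₀) htt' hx
    obtain ⟨c, hc, hxc⟩ := hSS1 (t ^ s * x) hs
      (crossing_mul_mem_nonunits Vinf (Vinf.pow_mem htinf s) hxinf)
      (crossing_mul_mem_nonunits V0 (V0.pow_mem ht0 s) hx0)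
    refine ⟨t⁻¹ ^ s * c, ?_, ?_⟩
    · refine IsIntegral.mul ?_ (zch_isIntegral_mono hsub₁ hc)
      refine IsIntegral.pow ?_ s
      exact isIntegral_algebraMap (R := Algebra.adjoin A₀ ({t, t⁻¹} : Set L))
        (x := ⟨t⁻¹, Algebra.subset_adjoin (Or.inr rfl)⟩)
    · have h1 : t⁻¹ ^ s * (t ^ s * x) = x := by
        rw [← mul_assoc, ← mul_pow, inv_mul_cancel₀ ht0ne, one_pow, one_mul]
      rw [← h1, hxc]
      ring
  -- the idempotents
  have hid₁ : ∃ c₁ : L, IsIntegral (Algebra.adjoin A₀ {t}) c₁ ∧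
      a₁ * a₁ - a₁ = algebraMap A₀ L π * c₁ := by
    have e : a₁ * a₁ - a₁ = -(a₁ * b₁) := by
      have : b₁ = 1 - a₁ := by rw [← h₁]; ring
      rw [this]; ring
    rw [e]
    refine hSS1 _ (IsIntegral.neg (IsIntegral.mul ha₁ hb₁)) ?_ ?_
    · refine Vinf.nonunits.neg_mem ?_
      rw [mul_comm]
      exact crossing_mul_mem_nonunits Vinf (hC₁inf b₁ hb₁) ha₁inf
    · refine V0.nonunits.neg_mem ?_
      exact crossing_mul_mem_nonunits V0 (hC₁0 a₁ ha₁) hb₁0
  have hid₂ : ∃ c₂ : L, IsIntegral (Algebra.adjoin A₀ {t⁻¹}) c₂ ∧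
      a₂ * a₂ - a₂ = algebraMap A₀ L π * c₂ := by
    have e : a₂ * a₂ - a₂ = -(a₂ * b₂) := by
      have : b₂ = 1 - a₂ := by rw [← h₂]; ring
      rw [this]; ring
    rw [e]
    refine hSS1' _ (IsIntegral.neg (IsIntegral.mul ha₂ hb₂)) ?_ ?_
    · refine Vinf.nonunits.neg_mem ?_
      rw [mul_comm]
      exact crossing_mul_mem_nonunits Vinf (hC₂inf b₂ hb₂) ha₂inf
    · refine V0.nonunits.neg_mem ?_
      exact crossing_mul_mem_nonunits V0 (hC₂0 a₂ ha₂) hb₂0
  have hcomp : ∃ c : L, IsIntegral (Algebra.adjoin A₀ {t, t⁻¹}) c ∧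
      a₁ - a₂ = algebraMap A₀ L π * c := by
    refine hSS12 _ (IsIntegral.sub (zch_isIntegral_mono hsub₁ ha₁)
      (zch_isIntegral_mono hsub₂ ha₂)) (Vinf.nonunits.sub_mem ha₁inf ha₂inf) ?_
    have e : a₁ - a₂ = b₂ - b₁ := by
      have e1 : a₁ = 1 - b₁ := by rw [← h₁]; ring
      have e2 : a₂ = 1 - b₂ := by rw [← h₂]; ring
      rw [e1, e2]; ring
    rw [e]
    exact V0.nonunits.sub_mem hb₂0 hb₁0
  rcases zariski_connected_charts hπ ht hcl ha₁ ha₂ hid₁ hid₂ hcomp with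
    ⟨y, hy, hy1⟩ | ⟨y, hy, hy1⟩
  · -- `a₁ ∈ π C₁ ⊂ 𝔭_0`, so `1 = a₁ + b₁ ∈ 𝔭_0`
    apply crossing_one_not_mem_nonunits V0
    rw [← h₁, hy1]
    refine V0.nonunits.add_mem ?_ hb₁0
    rw [mul_comm]
    exact crossing_mul_mem_nonunits V0 (hC₁0 y hy) hπ0
  · -- `b₁ = 1 − a₁ ∈ π C₁ ⊂ 𝔭_∞`, so `1 = a₁ + b₁ ∈ 𝔭_∞`
    apply crossing_one_not_mem_nonunits Vinf
    have hb : b₁ = -(algebraMap A₀ L π * y) := by
      rw [← hy1, ← h₁]; ring
    rw [← h₁, hb]
    refine Vinf.nonunits.add_mem ha₁inf (Vinf.nonunits.neg_mem ?_)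
    rw [mul_comm]
    exact crossing_mul_mem_nonunits Vinf (hC₁inf y hy) hπinf

/-- the trace of the maximal ideal of a valuation subring on a chart -/
def crossingIdeal (S : Set L) (V : ValuationSubring L)
    (hV : ∀ x : L, IsIntegral (Algebra.adjoin A₀ S) x → x ∈ V) :
    Ideal (zchClosure (A₀ := A₀) S) where
  carrier := {x | (x : L) ∈ V.nonunits}
  zero_mem' := V.nonunits.zero_mem
  add_mem' := fun {x y} hx hy => V.nonunits.add_mem hx hy
  smul_mem' := fun c x hx => crossing_mul_mem_nonunits V (hV c c.2) hx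

theorem mem_crossingIdeal {S : Set L} {V : ValuationSubring L}
    {hV : ∀ x : L, IsIntegral (Algebra.adjoin A₀ S) x → x ∈ V}
    {x : zchClosure (A₀ := A₀) S} :
    x ∈ crossingIdeal S V hV ↔ (x : L) ∈ V.nonunits := Iff.rfl

/-- **D7.**  One of the two charts has a maximal ideal containing both components (a crossing
point of the special fibre). -/
theorem crossing_exists_maximal
    {π : A₀} (hπ : Irreducible π)
    {t : L} (ht : Transcendental E t)
    [FiniteDimensional (IntermediateField.adjoin E {t}) L]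
    (hcl : ∀ x : L, IsAlgebraic E x → x ∈ (algebraMap E L).range)
    (Vinf V0 : ValuationSubring L)
    (hAinf : ∀ a : A₀, algebraMap A₀ L a ∈ Vinf) (hA0 : ∀ a : A₀, algebraMap A₀ L a ∈ V0)
    (htinf : t ∈ Vinf) (htinf' : t⁻¹ ∈ Vinf) (ht0 : t ∈ V0) (ht0' : t⁻¹ ∈ V0)
    (hπinf : algebraMap A₀ L π ∈ Vinf.nonunits) (hπ0 : algebraMap A₀ L π ∈ V0.nonunits)
    (hSS1 : ∀ x : L, IsIntegral (Algebra.adjoin A₀ {t}) x → x ∈ Vinf.nonunits → x ∈ V0.nonunits →
      ∃ c : L, IsIntegral (Algebra.adjoin A₀ {t}) c ∧ x = algebraMap A₀ L π * c)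
    (hSS1' : ∀ x : L, IsIntegral (Algebra.adjoin A₀ {t⁻¹}) x → x ∈ Vinf.nonunits →
      x ∈ V0.nonunits → ∃ c : L, IsIntegral (Algebra.adjoin A₀ {t⁻¹}) c ∧
        x = algebraMap A₀ L π * c) :
    (∃ 𝔫 : Ideal (zchClosure (A₀ := A₀) ({t} : Set L)), 𝔫.IsMaximal ∧
      (∀ x : zchClosure (A₀ := A₀) ({t} : Set L), (x : L) ∈ Vinf.nonunits → x ∈ 𝔫) ∧
      (∀ x : zchClosure (A₀ := A₀) ({t} : Set L), (x : L) ∈ V0.nonunits → x ∈ 𝔫)) ∨
    (∃ 𝔫 : Ideal (zchClosure (A₀ := A₀) ({t⁻¹} : Set L)), 𝔫.IsMaximal ∧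
      (∀ x : zchClosure (A₀ := A₀) ({t⁻¹} : Set L), (x : L) ∈ Vinf.nonunits → x ∈ 𝔫) ∧
      (∀ x : zchClosure (A₀ := A₀) ({t⁻¹} : Set L), (x : L) ∈ V0.nonunits → x ∈ 𝔫)) := by
  have hC₁inf : ∀ x : L, IsIntegral (Algebra.adjoin A₀ {t}) x → x ∈ Vinf := fun x hx =>
    crossing_mem_of_isIntegral Vinf _ (crossing_adjoin_le Vinf hAinf {t} (by
      rintro s rfl; exact htinf)) hx
  have hC₁0 : ∀ x : L, IsIntegral (Algebra.adjoin A₀ {t}) x → x ∈ V0 := fun x hx =>
    crossing_mem_of_isIntegral V0 _ (crossing_adjoin_le V0 hA0 {t} (by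
      rintro s rfl; exact ht0)) hx
  have hC₂inf : ∀ x : L, IsIntegral (Algebra.adjoin A₀ {t⁻¹}) x → x ∈ Vinf := fun x hx =>
    crossing_mem_of_isIntegral Vinf _ (crossing_adjoin_le Vinf hAinf {t⁻¹} (by
      rintro s rfl; exact htinf')) hx
  have hC₂0 : ∀ x : L, IsIntegral (Algebra.adjoin A₀ {t⁻¹}) x → x ∈ V0 := fun x hx =>
    crossing_mem_of_isIntegral V0 _ (crossing_adjoin_le V0 hA0 {t⁻¹} (by
      rintro s rfl; exact ht0')) hx
  by_cases hc₁ : crossingIdeal (A₀ := A₀) {t} Vinf hC₁inf ⊔ crossingIdeal (A₀ := A₀) {t} V0 hC₁0 = ⊤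
  · by_cases hc₂ : crossingIdeal (A₀ := A₀) {t⁻¹} Vinf hC₂inf ⊔
        crossingIdeal (A₀ := A₀) {t⁻¹} V0 hC₂0 = ⊤
    · exfalso
      have h1 : (1 : zchClosure (A₀ := A₀) ({t} : Set L)) ∈
          crossingIdeal (A₀ := A₀) {t} Vinf hC₁inf ⊔ crossingIdeal (A₀ := A₀) {t} V0 hC₁0 := by
        rw [hc₁]; exact Submodule.mem_top
      have h2 : (1 : zchClosure (A₀ := A₀) ({t⁻¹} : Set L)) ∈
          crossingIdeal (A₀ := A₀) {t⁻¹} Vinf hC₂inf ⊔ crossingIdeal (A₀ := A₀) {t⁻¹} V0 hC₂0 := by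
        rw [hc₂]; exact Submodule.mem_top
      obtain ⟨a₁, ha₁, b₁, hb₁, hab₁⟩ := Submodule.mem_sup.mp h1
      obtain ⟨a₂, ha₂, b₂, hb₂, hab₂⟩ := Submodule.mem_sup.mp h2
      exact crossing_not_comax hπ ht hcl Vinf V0 hAinf hA0 htinf htinf' ht0 ht0' hπinf hπ0 hSS1 hSS1'
        (a₁ : L) (b₁ : L) (a₂ : L) (b₂ : L) a₁.2 b₁.2 a₂.2 b₂.2 ha₁ hb₁ ha₂ hb₂
        (congrArg Subtype.val hab₁) (congrArg Subtype.val hab₂)
    · right
      obtain ⟨𝔫, h𝔫, hle⟩ := Ideal.exists_le_maximal _ hc₂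
      exact ⟨𝔫, h𝔫, fun x hx => hle (Ideal.mem_sup_left hx),
        fun x hx => hle (Ideal.mem_sup_right hx)⟩
  · left
    obtain ⟨𝔫, h𝔫, hle⟩ := Ideal.exists_le_maximal _ hc₁
    exact ⟨𝔫, h𝔫, fun x hx => hle (Ideal.mem_sup_left hx),
      fun x hx => hle (Ideal.mem_sup_right hx)⟩

end Main

end Fermat.Agent.UNIP


end ZBINJ_031_6

/-! ### bundled: `Fermat.Agent.UNIP.KummerConst` -/
section ZBINJ_031_7

/-!
# UNIP D4, Kummer glue: the constants (helper76)

Discharges the hypothesis `hconst` of `ks_main_pow` / `ks_main_pow'` (KummerSplit.lean):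

`ks_const_pow`: in the chart setting (`A₀` DVR, `π`, `E = Frac A₀`, `t : F`), assume
* (`hunit`) every unit of `A₀` is a `p`-th power in `A₀` (true for `A₀ = A ∩ E'`, `E' ⊇ ℚ̄^I`),
* (`hred`)  the special fibre is reduced, in the form `z ∈ C_(π)`, `z ^ p ∈ π C_(π)` ⇒ `z ∈ π C_(π)`.
Then every constant `c ∈ E^×` such that `c · h ^ p ≡ 1` on the special fibre for some `h ∈ F` is
a `p`-th power in `E`.

Proof: `c = π^r · d^p` with `0 ≤ r < p` (`ks_const_decomp`); if `r ≥ 1`, then `h₁ := d h` has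
`π^r h₁^p ≡ 1`, and by (`hred`) `π^i h₁ ∈ C_(π)` for `i = r, r − 1, …, 0`; so `1 ∈ π C_(π)`.
-/

set_option autoImplicit false
set_option linter.unusedSectionVars false
set_option linter.style.haveILetI false

namespace Fermat.Agent.UNIP

open Polynomial IntermediateField Fermat.Agent.INJ

section Const

variable {A₀ E : Type*} [CommRing A₀] [IsDomain A₀] [IsDiscreteValuationRing A₀]
  [Field E] [Algebra A₀ E] [IsFractionRing A₀ E]

/-- In the fraction field of a DVR whose units are `p`-th powers, every nonzero element is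
`π ^ r · d ^ p` with `r < p`. -/
theorem ks_const_decomp {π : A₀} (hπ : Irreducible π) {p : ℕ} (hp : 0 < p)
    (hunit : ∀ a : A₀, IsUnit a → ∃ d : A₀, d ^ p = a) {c : E} (hc : c ≠ 0) :
    ∃ (d : E) (r : ℕ), r < p ∧ algebraMap A₀ E π ^ r * d ^ p = c := by
  obtain ⟨x, y, hy, hxy⟩ := IsFractionRing.div_surjective (A := A₀) c
  have hy0 : y ≠ 0 := nonZeroDivisors.ne_zero hy
  have hx0 : x ≠ 0 := by
    rintro rfl
    rw [map_zero, zero_div] at hxy
    exact hc hxy.symm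
  obtain ⟨m, u₁, hx⟩ := IsDiscreteValuationRing.eq_unit_mul_pow_irreducible hx0 hπ
  obtain ⟨n, u₂, hy'⟩ := IsDiscreteValuationRing.eq_unit_mul_pow_irreducible hy0 hπ
  obtain ⟨d₀, hd₀⟩ := hunit ((u₁ * u₂⁻¹ : A₀ˣ) : A₀) (Units.isUnit _)
  have hinj : Function.Injective (algebraMap A₀ E) := IsFractionRing.injective A₀ E
  set P : E := algebraMap A₀ E π with hP
  have hP0 : P ≠ 0 := (map_ne_zero_iff _ hinj).mpr hπ.ne_zero
  have hu₂ : algebraMap A₀ E (u₂ : A₀) ≠ 0 := (map_ne_zero_iff _ hinj).mpr u₂.ne_zero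
  obtain ⟨p', rfl⟩ : ∃ p', p = p' + 1 := ⟨p - 1, by omega⟩
  set M := m + n * p' with hM
  refine ⟨algebraMap A₀ E d₀ * P ^ (M / (p' + 1)) / P ^ n, M % (p' + 1), Nat.mod_lt _ hp, ?_⟩
  have hdiv := Nat.div_add_mod M (p' + 1)
  have hD : algebraMap A₀ E d₀ ^ (p' + 1) * algebraMap A₀ E (u₂ : A₀)
      = algebraMap A₀ E (u₁ : A₀) := by
    rw [← map_pow, hd₀, ← map_mul]
    congr 1
    rw [Units.val_mul, mul_assoc, Units.inv_mul, mul_one]
  have hpow : P ^ (M % (p' + 1)) * (P ^ (M / (p' + 1))) ^ (p' + 1) * P ^ n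
      = P ^ m * (P ^ n) ^ (p' + 1) := by
    rw [← pow_mul, ← pow_mul, ← pow_add, ← pow_add, ← pow_add]
    congr 1
    have h1 : M / (p' + 1) * (p' + 1) = (p' + 1) * (M / (p' + 1)) := mul_comm _ _
    rw [h1]
    have h2 : n * (p' + 1) = n * p' + n := by ring
    rw [h2]
    omega
  rw [← hxy, hx, hy', map_mul, map_mul, map_pow, map_pow, ← hP, ← hD, div_pow, mul_pow]
  field_simp
  linear_combination (algebraMap A₀ E d₀ ^ (p' + 1)) * hpow

end Const

section Chart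

variable {A₀ E F : Type*} [CommRing A₀] [IsDomain A₀] [IsDiscreteValuationRing A₀]
  [Field E] [Algebra A₀ E] [IsFractionRing A₀ E] [CharZero E]
  [Field F] [Algebra E F] [Algebra A₀ F] [IsScalarTower A₀ E F]
  {π : A₀} {u : F}

/-- `C(u)_(π)` is integrally closed in `F` for powers: `z ^ n ∈ C(u)_(π)` ⇒ `z ∈ C(u)_(π)`. -/
theorem ks_mem_eiLoc_of_pow (hu : Transcendental E u) (hπ : Irreducible π) {n : ℕ} (hn : 0 < n)
    {z : F} (h : z ^ n ∈ eiLoc hu hπ) : z ∈ eiLoc hu hπ := by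
  obtain ⟨s, hs, hsz⟩ := h
  refine ⟨s, hs, IsIntegral.of_pow hn ?_⟩
  obtain ⟨m, rfl⟩ : ∃ m, n = m + 1 := ⟨n - 1, by omega⟩
  have : (s * z) ^ (m + 1) =
      algebraMap ↥(Algebra.adjoin A₀ {u}) F (⟨s, hs.1⟩ ^ m) * (s * z ^ (m + 1)) := by
    show (s * z) ^ (m + 1) = s ^ m * (s * z ^ (m + 1))
    ring
  rw [this]
  exact isIntegral_algebraMap.mul hsz

/-- If the special fibre is reduced, `π ^ r · h ^ p ≡ 1` is impossible for `0 < r < p`. -/
theorem ks_const_false (hu : Transcendental E u) (hπ : Irreducible π) {p : ℕ}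
    (hred : ∀ z : F, z ∈ eiLoc hu hπ → EIPiLoc hu hπ (z ^ p) → EIPiLoc hu hπ z)
    {r : ℕ} (hr0 : 0 < r) (hrp : r < p) {h : F}
    (hw : EIPiLoc hu hπ (algebraMap A₀ F π ^ r * h ^ p - 1)) : False := by
  have hp : 0 < p := by omega
  set ϖ : F := algebraMap A₀ F π with hϖ
  have hϖ0 : ϖ ≠ 0 := ei_algebraMap_ne_zero (E := E) hπ
  have hϖloc : ϖ ∈ eiLoc hu hπ := eiLoc_algebraMap hu hπ π
  have hwloc : ϖ ^ r * h ^ p ∈ eiLoc hu hπ := by
    have := Subring.add_mem _ (hw.mem_loc hu hπ) (Subring.one_mem _)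
    simpa using this
  -- `ϖ^(r-k) h ∈ C_(π)` for all `k ≤ r`
  have hstep : ∀ k, k ≤ r → ϖ ^ (r - k) * h ∈ eiLoc hu hπ := by
    intro k
    induction k with
    | zero =>
      intro _
      refine ks_mem_eiLoc_of_pow hu hπ hp ?_
      have e : (ϖ ^ (r - 0) * h) ^ p = ϖ ^ (r * (p - 1)) * (ϖ ^ r * h ^ p) := by
        rw [Nat.sub_zero, mul_pow, ← pow_mul, ← mul_assoc, ← pow_add]
        congr 2
        obtain ⟨p', rfl⟩ : ∃ p', p = p' + 1 := ⟨p - 1, by omega⟩
        rw [Nat.add_sub_cancel]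
        ring
      rw [e]
      exact Subring.mul_mem _ (Subring.pow_mem _ hϖloc _) hwloc
    | succ k ih =>
      intro hk
      have hi := ih (by omega)
      obtain ⟨i, hi1⟩ : ∃ i, r - k = i + 1 := ⟨r - k - 1, by omega⟩
      have hi2 : r - (k + 1) = i := by omega
      rw [hi1] at hi
      rw [hi2]
      -- `(ϖ^(i+1) h)^p = ϖ · (ϖ^((i+1) p - r - 1) · (ϖ^r h^p))`
      have hle : r + 1 ≤ (i + 1) * p := by nlinarith
      obtain ⟨e₀, he₀⟩ : ∃ e₀, (i + 1) * p = 1 + e₀ + r := ⟨(i + 1) * p - r - 1, by omega⟩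
      have e : (ϖ ^ (i + 1) * h) ^ p = ϖ * (ϖ ^ e₀ * (ϖ ^ r * h ^ p)) := by
        rw [mul_pow, ← pow_mul, he₀, pow_add, pow_add, pow_one]
        ring
      have hpi : EIPiLoc hu hπ ((ϖ ^ (i + 1) * h) ^ p) := by
        rw [e]
        exact ⟨_, Subring.mul_mem _ (Subring.pow_mem _ hϖloc _) hwloc, rfl⟩
      obtain ⟨z, hz, hzeq⟩ := hred _ hi hpi
      have : ϖ ^ i * h = z := by
        apply mul_left_cancel₀ hϖ0
        rw [← hzeq, pow_succ]
        ring
      rw [this]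
      exact hz
  have hh : h ∈ eiLoc hu hπ := by
    have := hstep r le_rfl
    rwa [Nat.sub_self, pow_zero, one_mul] at this
  obtain ⟨r', rfl⟩ : ∃ r', r = r' + 1 := ⟨r - 1, by omega⟩
  have hpi : EIPiLoc hu hπ (ϖ ^ (r' + 1) * h ^ p) :=
    ⟨ϖ ^ r' * h ^ p, Subring.mul_mem _ (Subring.pow_mem _ hϖloc _) (Subring.pow_mem _ hh _), by
      rw [pow_succ]; ring⟩
  have h1 : EIPiLoc hu hπ (1 : F) := by
    have := hpi.sub hu hπ hw
    simpa using this
  exact ei_not_piLoc_one hu hπ h1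

/-- **The constants are `p`-th powers** (the hypothesis `hconst` of `ks_main_pow`). -/
theorem ks_const_pow (hu : Transcendental E u) (hπ : Irreducible π) {p : ℕ} (hp : 0 < p)
    (hunit : ∀ a : A₀, IsUnit a → ∃ d : A₀, d ^ p = a)
    (hred : ∀ z : F, z ∈ eiLoc hu hπ → EIPiLoc hu hπ (z ^ p) → EIPiLoc hu hπ z) :
    ∀ c : E, c ≠ 0 →
      (∃ h : F, EIPiLoc hu hπ (algebraMap E F c * h ^ p - 1)) → ∃ d : E, d ^ p = c := by
  intro c hc ⟨h, hh⟩
  obtain ⟨d, r, hrp, hd⟩ := ks_const_decomp hπ hp hunit hc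
  rcases Nat.eq_zero_or_pos r with hr0 | hr0
  · subst hr0
    exact ⟨d, by rw [← hd, pow_zero, one_mul]⟩
  · exfalso
    refine ks_const_false hu hπ hred hr0 hrp (h := algebraMap E F d * h) ?_
    have e : algebraMap A₀ F π ^ r * (algebraMap E F d * h) ^ p
        = algebraMap E F c * h ^ p := by
      rw [← hd, map_mul, map_pow, map_pow, mul_pow, ← IsScalarTower.algebraMap_apply]
      ring
    rw [e]
    exact hh

end Chart

section Final

variable {A₀ E F : Type*} [CommRing A₀] [IsDomain A₀] [IsDiscreteValuationRing A₀]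
  [Field E] [Algebra A₀ E] [IsFractionRing A₀ E] [CharZero E]
  [Field F] [Algebra E F] [Algebra A₀ F] [IsScalarTower A₀ E F]
  {π : A₀} {t : F}

/-- **Kummer glue, final chart form.**  Units of `A₀` are `p`-th powers, the special fibre is
reduced, `w ≡ 1` on the special fibre and `w` has the weak local shape `KSLocal'` at every closed
point of both charts: then `w` is a `p`-th power in `F`. -/
theorem ks_pow_of_local' (hπ : Irreducible π) (ht : Transcendental E t)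
    [FiniteDimensional (IntermediateField.adjoin E {t}) F]
    (hcl : ∀ x : F, IsAlgebraic E x → x ∈ (algebraMap E F).range)
    {p : ℕ} (hp : p.Prime) (hpu : IsUnit (p : A₀)) {ζ : A₀} (hζ : IsPrimitiveRoot ζ p)
    (hunit : ∀ a : A₀, IsUnit a → ∃ d : A₀, d ^ p = a)
    (hred : ∀ z : F, z ∈ eiLoc ht hπ → EIPiLoc ht hπ (z ^ p) → EIPiLoc ht hπ z)
    {w : F} (hw : w ≠ 0)
    (hG : EIPiLoc ht hπ (w - 1))
    (hL₁ : KSLocal' ht hπ p w) (hL₂ : KSLocal' (zch_transcendental_inv ht) hπ p w) :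
    ∃ h : F, h ^ p = w :=
  ks_main_pow' hπ ht hcl hp hpu hζ (ks_const_pow ht hπ hp.pos hunit hred) hw hG hL₁ hL₂

/-- The same with the strong local shape `KSLocal`. -/
theorem ks_pow_of_local (hπ : Irreducible π) (ht : Transcendental E t)
    [FiniteDimensional (IntermediateField.adjoin E {t}) F]
    (hcl : ∀ x : F, IsAlgebraic E x → x ∈ (algebraMap E F).range)
    {p : ℕ} (hp : p.Prime) (hpu : IsUnit (p : A₀)) {ζ : A₀} (hζ : IsPrimitiveRoot ζ p)
    (hunit : ∀ a : A₀, IsUnit a → ∃ d : A₀, d ^ p = a)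
    (hred : ∀ z : F, z ∈ eiLoc ht hπ → EIPiLoc ht hπ (z ^ p) → EIPiLoc ht hπ z)
    {w : F} (hw : w ≠ 0)
    (hG : EIPiLoc ht hπ (w - 1))
    (hL₁ : KSLocal ht hπ p w) (hL₂ : KSLocal (zch_transcendental_inv ht) hπ p w) :
    ∃ h : F, h ^ p = w :=
  ks_main_pow hπ ht hcl hp hpu hζ (ks_const_pow ht hπ hp.pos hunit hred) hw hG hL₁ hL₂

end Final

end Fermat.Agent.UNIP


end ZBINJ_031_7
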