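/- GENERATED FILE (helper35, build-time optimisation, NOTES/ZB.md): verbatim concatenation of the modules
   Fermat.Agent.UNIP.Beta0General
   Fermat.Agent.UNIP.Beta0
   Fermat.Agent.UNIP.Beta0Inertia
   Fermat.Agent.UNIP.Beta0Abs
   Fermat.Agent.UNIP.Beta0Ext
   Fermat.Agent.UNIP.Beta0Tot
   Fermat.Agent.UNIP.Beta0Pkg
   Fermat.Agent.UNIP.Beta0Inst
   Fermat.Agent.UNIP.Beta0Frob
   Do not edit; do not import together with these modules. -/
import Mathlib
import Fermat.Agent.ZB.INJ_031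
import Fermat.Agent.ZB.Common_003
import Fermat.Agent.ZB.S05_001

/-! ### bundled: `Fermat.Agent.UNIP.Beta0General` -/
section ZBUNIP_006_0

set_option autoImplicit false

open MulAction Pointwise Ideal

namespace Fermat.Agent.UNIP

section general

variable (A K L : Type*) {B : Type*} [Field K] [Field L] [Algebra K L] [CommRing A] [CommRing B]
  [Algebra A B] {p : Ideal A} (P : Ideal B) [P.LiesOver p]
variable [Algebra A K] [IsFractionRing A K] [Algebra A L] [IsScalarTower A K L] [Algebra B L]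
  [IsScalarTower A B L] [IsFractionRing B L] [MulSemiringAction Gal(L/K) B]
  [SMulDistribClass Gal(L/K) B L]
variable (E 𝓞E : Type*) [Field E] [Algebra E L] [IsInertiaField K L P E] [CommRing 𝓞E]
  [Algebra 𝓞E E] [IsFractionRing 𝓞E E] [Algebra 𝓞E B] [Algebra 𝓞E L] [IsScalarTower 𝓞E E L]
  [IsScalarTower 𝓞E B L] (𝓟E : Ideal 𝓞E) [hE : P.LiesOver 𝓟E]
variable [IsGalois K L] [IsDedekindDomain A] [IsDedekindDomain B] [Module.Finite A B]
  [Module.IsTorsionFree A B] [Algebra A 𝓞E] [Module.Finite A 𝓞E] [IsScalarTower A 𝓞E B]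
  [IsDedekindDomain 𝓞E] [𝓟E.LiesOver p]
variable [FiniteDimensional K L] [Ring.HasFiniteQuotients A] [𝓟E.IsMaximal] [P.IsMaximal]

omit [P.LiesOver p] hE [FiniteDimensional K L] [Ring.HasFiniteQuotients A] [𝓟E.IsMaximal] [P.IsMaximal] in
include K L E P in
theorem beta0_inertia_instances (hp : p ≠ ⊥) :
    Module.Finite 𝓞E B ∧ Module.IsTorsionFree 𝓞E B ∧ Module.IsTorsionFree A 𝓞E ∧
      IsGaloisGroup Gal(L/K) A B ∧ IsGaloisGroup (inertia Gal(L/K) P) 𝓞E B ∧ 𝓟E ≠ ⊥ := by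
  have inst₁ : Module.Finite 𝓞E B := Module.Finite.right A 𝓞E B
  have inst₂ : Module.IsTorsionFree 𝓞E B := by
    rw [Module.isTorsionFree_iff_faithfulSMul]
    apply Algebra.IsAlgebraic.faithfulSMul_tower_top A
  have inst₃ : Module.IsTorsionFree A 𝓞E := Module.IsTorsionFree.of_faithfulSMul _ _ B
  have inst₄ : IsGaloisGroup Gal(L/K) A B := .of_isFractionRing _ _ _ K L
  have inst₅ : IsGaloisGroup (inertia Gal(L/K) P) 𝓞E B := .of_isFractionRing _ _ _ E L
  exact ⟨inst₁, inst₂, inst₃, inst₄, inst₅, Ideal.ne_bot_of_liesOver_of_ne_bot hp 𝓟E⟩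

omit [P.LiesOver p] [IsDedekindDomain B] in
theorem beta0_inertia_inertia_eq_top {G : Type*} [Group G] [MulSemiringAction G B] (P : Ideal B) :
    P.inertia (inertia G P) = ⊤ := by
  ext ⟨σ, hσ⟩
  simp only [Subgroup.mem_top, iff_true]
  intro x
  exact hσ x

include K L E P in
theorem beta0_ramificationIdxIn_eq (hp : p ≠ ⊥) :
    ramificationIdxIn 𝓟E B = p.ramificationIdxIn B := by
  obtain ⟨_, _, _, _, _, h𝓟⟩ := beta0_inertia_instances A K L P E 𝓞E 𝓟E hp
  have : p.IsMaximal := over_def P p ▸ Ideal.IsMaximal.under A P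
  have : Finite (A ⧸ p) := Ring.HasFiniteQuotients.finiteQuotient hp
  have h1 := card_inertia_eq_ramificationIdxIn (G := Gal(L/K)) p P
  have hfq : Ring.HasFiniteQuotients 𝓞E := Ring.HasFiniteQuotients.of_module_finite A 𝓞E
  have : Finite (𝓞E ⧸ 𝓟E) := Ring.HasFiniteQuotients.finiteQuotient h𝓟
  have h2 := card_inertia_eq_ramificationIdxIn (G := inertia Gal(L/K) P) 𝓟E P
  rw [beta0_inertia_inertia_eq_top] at h2
  rw [← h2, ← h1]
  simp

include K L E P in
/-- The prime of the inertia field below `P` is unramified over `K`. -/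
theorem beta0_ramificationIdx_eq_one (hp : p ≠ ⊥) :
    𝓟E.ramificationIdx A = 1 := by
  obtain ⟨_, _, _, _, _, h𝓟⟩ := beta0_inertia_instances A K L P E 𝓞E 𝓟E hp
  have := ramificationIdx_tower (R := A) 𝓟E P
  rwa [← ramificationIdxIn_eq_ramificationIdx 𝓟E P (inertia Gal(L/K) P),
    beta0_ramificationIdxIn_eq A K L P E 𝓞E 𝓟E hp, ramificationIdxIn_eq_ramificationIdx p P Gal(L/K),
    right_eq_mul₀ <| (ramificationIdx_pos P A).ne'] at this

include K L E P 𝓟E hE in
/-- The residue field does not grow between the inertia field and the top field. -/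
theorem beta0_inertiaDeg_eq_one (hp : p ≠ ⊥) :
    P.inertiaDeg 𝓞E = 1 := by
  obtain ⟨_, _, _, _, _, h𝓟⟩ := beta0_inertia_instances A K L P E 𝓞E 𝓟E hp
  have hfq : Ring.HasFiniteQuotients 𝓞E := Ring.HasFiniteQuotients.of_module_finite A 𝓞E
  have : Finite (𝓞E ⧸ 𝓟E) := Ring.HasFiniteQuotients.finiteQuotient h𝓟
  have h2 := ncard_primesOver_mul_card_inertia_mul_finrank (G := inertia Gal(L/K) P) 𝓟E P
  rw [beta0_inertia_inertia_eq_top] at h2
  have hcard : Nat.card (⊤ : Subgroup (inertia Gal(L/K) P)) = Nat.card (inertia Gal(L/K) P) :=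
    Nat.card_congr (Subgroup.topEquiv).toEquiv
  rw [hcard] at h2
  have hpos : 0 < Nat.card (inertia Gal(L/K) P) := Nat.card_pos
  have h3 : (𝓟E.primesOver B).ncard * P.inertiaDeg 𝓞E = 1 := by
    have : (𝓟E.primesOver B).ncard * P.inertiaDeg 𝓞E * Nat.card (inertia Gal(L/K) P) =
        1 * Nat.card (inertia Gal(L/K) P) := by
      rw [one_mul]
      calc (𝓟E.primesOver B).ncard * P.inertiaDeg 𝓞E * Nat.card (inertia Gal(L/K) P)
          = (𝓟E.primesOver B).ncard * Nat.card (inertia Gal(L/K) P) * P.inertiaDeg 𝓞E := by ring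
        _ = Nat.card (inertia Gal(L/K) P) := h2
    exact Nat.eq_of_mul_eq_mul_right hpos this
  exact Nat.eq_one_of_mul_eq_one_left h3

end general

end Fermat.Agent.UNIP


end ZBUNIP_006_0

/-! ### bundled: `Fermat.Agent.UNIP.Beta0` -/
section ZBUNIP_006_1

/-!
# UNIP piece U10 (`Beta0`), part 1: places of `ℚ̄` on number fields

`A` is a valuation subring of `ℚ̄` lying over the prime `q`.  For a number field `K` with an
embedding `ι : K →+* ℚ̄` we identify `A ∩ K` (`A.comap ι`) with the valuation ring of the adic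
valuation of `𝓞 K` at the prime `beta0Prime A ι = 𝔪_A ∩ 𝓞 K`.
-/

set_option autoImplicit false
set_option linter.style.haveILetI false
set_option linter.unusedSectionVars false

open scoped NumberField Pointwise
open Ideal MulAction IsDedekindDomain

namespace Fermat.Agent.UNIP

/-- Algebraic integers lie in every valuation subring. -/
theorem beta0_mem_of_isIntegral (A : ValuationSubring (AlgebraicClosure ℚ))
    (x : AlgebraicClosure ℚ) (hx : IsIntegral ℤ x) : x ∈ A := by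
  have h1 : IsIntegral A x := hx.tower_top
  obtain ⟨y, hy⟩ := (IsIntegrallyClosed.isIntegral_iff (R := A) (K := AlgebraicClosure ℚ)).mp h1
  rw [← hy]
  exact y.2

/-- `y ∈ 𝔪_A` iff `y = 0` or `y⁻¹ ∉ A`. -/
theorem beta0_mem_nonunits_iff_inv {L : Type*} [Field L] (A : ValuationSubring L) {y : L}
    (hy : y ≠ 0) : y ∈ A.nonunits ↔ y⁻¹ ∉ A := by
  rw [A.mem_nonunits_iff, ← A.valuation_le_one_iff, map_inv₀, not_le]
  have h0 : A.valuation y ≠ 0 := (Valuation.ne_zero_iff _).mpr hy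
  rw [one_lt_inv₀ (zero_lt_iff.mpr h0)]

section general

variable (A : ValuationSubring (AlgebraicClosure ℚ))
  {K : Type*} [Field K] [NumberField K] (ι : K →+* AlgebraicClosure ℚ)

/-- The embedding `𝓞 K → ℚ̄` induced by `ι`. -/
noncomputable def beta0Emb : 𝓞 K →+* AlgebraicClosure ℚ :=
  ι.comp (algebraMap (𝓞 K) K)

theorem beta0Emb_apply (x : 𝓞 K) : beta0Emb ι x = ι (x : K) := rfl

theorem beta0Emb_mem (x : 𝓞 K) : beta0Emb ι x ∈ A :=
  beta0_mem_of_isIntegral A _ ((NumberField.RingOfIntegers.isIntegral x).map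
    (ι.comp (algebraMap (𝓞 K) K)).toIntAlgHom)

/-- The prime of `𝓞 K` cut out by `A`. -/
noncomputable def beta0Prime : Ideal (𝓞 K) :=
  (IsLocalRing.maximalIdeal A).comap ((beta0Emb ι).codRestrict A.toSubring (beta0Emb_mem A ι))

theorem mem_beta0Prime (y : 𝓞 K) : y ∈ beta0Prime A ι ↔ beta0Emb ι y ∈ A.nonunits := by
  rw [beta0Prime, Ideal.mem_comap, ← ValuationSubring.coe_mem_nonunits_iff]
  rfl

instance beta0Prime_isPrime : (beta0Prime A ι).IsPrime := Ideal.comap_isPrime _ _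

variable {A} in
theorem natCast_mem_beta0Prime {q : ℕ} (hA : A.LiesOverPrime q) :
    ((q : ℕ) : 𝓞 K) ∈ beta0Prime A ι := by
  rw [mem_beta0Prime]
  have : beta0Emb ι ((q : ℕ) : 𝓞 K) = ((q : ℕ) : AlgebraicClosure ℚ) := by simp
  rw [this]
  exact hA

variable {A} in
theorem beta0Prime_ne_bot {q : ℕ} (hq : q.Prime) (hA : A.LiesOverPrime q) :
    beta0Prime A ι ≠ ⊥ := by
  intro h
  have h1 := natCast_mem_beta0Prime ι hA
  rw [h, Ideal.mem_bot] at h1
  have : (q : ℕ) = 0 := by exact_mod_cast h1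
  exact hq.ne_zero this

variable {A} in
theorem beta0Prime_isMaximal {q : ℕ} (hq : q.Prime) (hA : A.LiesOverPrime q) :
    (beta0Prime A ι).IsMaximal :=
  (beta0Prime_isPrime A ι).isMaximal (beta0Prime_ne_bot ι hq hA)

variable {A} in
theorem beta0Prime_under_int {q : ℕ} (hq : q.Prime) (hA : A.LiesOverPrime q) :
    (beta0Prime A ι).under ℤ = Ideal.span {(q : ℤ)} := by
  have hmax : (Ideal.span {(q : ℤ)}).IsMaximal :=
    PrincipalIdealRing.isMaximal_of_irreducible (Nat.prime_iff_prime_int.mp hq).irreducible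
  symm
  apply hmax.eq_of_le
  · exact Ideal.IsPrime.ne_top inferInstance
  · rw [Ideal.span_singleton_le_iff_mem, Ideal.under_def, Ideal.mem_comap]
    have := natCast_mem_beta0Prime ι hA
    simpa using this

variable {A} in
/-- The point of the height-one spectrum of `𝓞 K` cut out by `A`. -/
noncomputable def beta0Spec {q : ℕ} (hq : q.Prime) (hA : A.LiesOverPrime q) :
    HeightOneSpectrum (𝓞 K) :=
  ⟨beta0Prime A ι, beta0Prime_isPrime A ι, beta0Prime_ne_bot ι hq hA⟩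

variable {A} in
/-- `A ∩ K` is the valuation ring of the adic valuation at `beta0Prime`. -/
theorem beta0_comap_eq {q : ℕ} (hq : q.Prime) (hA : A.LiesOverPrime q) :
    A.comap ι = ((beta0Spec ι hq hA).valuation K).valuationSubring := by
  rw [← HeightOneSpectrum.valuationSubringAtPrime_eq_valuationSubring]
  symm
  apply ValuationSubring.eq_of_le_of_ne_top
  · rintro x ⟨a, s, hs, rfl⟩
    rw [ValuationSubring.mem_comap, map_mul, map_inv₀]
    have hsP : beta0Emb ι s ∉ A.nonunits := fun h => hs ((mem_beta0Prime A ι s).mpr h)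
    have hv : A.valuation (beta0Emb ι s) = 1 :=
      Fermat.Agent.Common.frobGlue_valuation_eq_one A (beta0Emb_mem A ι s) hsP
    rw [← A.valuation_le_one_iff, map_mul, map_inv₀]
    have e1 : ι ((algebraMap (𝓞 K) K) s) = beta0Emb ι s := rfl
    rw [e1, hv, inv_one, mul_one]
    exact (A.valuation_le_one_iff _).mpr (beta0Emb_mem A ι a)
  · intro h
    have hq0 : (q : K) ≠ 0 := by exact_mod_cast hq.ne_zero
    have h1 : ((q : K))⁻¹ ∈ A.comap ι := by rw [h]; trivial
    rw [ValuationSubring.mem_comap, map_inv₀, map_natCast] at h1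
    have hq0' : (q : AlgebraicClosure ℚ) ≠ 0 := by exact_mod_cast hq.ne_zero
    exact (beta0_mem_nonunits_iff_inv A hq0').mp hA h1

variable {A} in
theorem beta0_mem_iff {q : ℕ} (hq : q.Prime) (hA : A.LiesOverPrime q) (x : K) :
    ι x ∈ A ↔ (beta0Spec ι hq hA).valuation K x ≤ 1 := by
  rw [← ValuationSubring.mem_comap, beta0_comap_eq ι hq hA, Valuation.mem_valuationSubring_iff]

variable {A} in
theorem beta0_mem_nonunits_iff {q : ℕ} (hq : q.Prime) (hA : A.LiesOverPrime q) (x : K) :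
    ι x ∈ A.nonunits ↔ (beta0Spec ι hq hA).valuation K x < 1 := by
  rcases eq_or_ne x 0 with rfl | hx
  · simp only [map_zero, zero_lt_one, iff_true]
    exact A.mem_nonunits_iff.mpr (by simp)
  · have hx' : ι x ≠ 0 := (map_ne_zero ι).mpr hx
    rw [beta0_mem_nonunits_iff_inv A hx', ← map_inv₀, beta0_mem_iff ι hq hA, map_inv₀, not_le]
    have h0 : (beta0Spec ι hq hA).valuation K x ≠ 0 := (Valuation.ne_zero_iff _).mpr hx
    rw [one_lt_inv₀ (zero_lt_iff.mpr h0)]

end general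

end Fermat.Agent.UNIP


end ZBUNIP_006_1

/-! ### bundled: `Fermat.Agent.UNIP.Beta0Inertia` -/
section ZBUNIP_006_2

/-!
# UNIP piece U10 (`Beta0`), part 2: the inertia field at finite level

`A` is a valuation subring of `ℚ̄` over `q`, `F ⊂ ℚ̄` a finite Galois extension of `ℚ`,
`P = 𝔪_A ∩ 𝓞 F`, `H` the inertia group of `P` in `Gal(F/ℚ)`, `T = F^H` (`beta0T A F`).
-/

set_option autoImplicit false
set_option linter.style.haveILetI false
set_option linter.unusedSectionVars false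

open scoped NumberField Pointwise
open Ideal MulAction IsDedekindDomain WithZero

namespace Fermat.Agent.UNIP

/-- In a Dedekind domain, if `q ∈ 𝓟 ∖ 𝓟²` and `a ∈ 𝓟` then `s a ∈ (q)` for some `s ∉ 𝓟`. -/
theorem beta0_exists_mul_eq {R : Type*} [CommRing R] [IsDedekindDomain R] (𝓟 : Ideal R)
    [𝓟.IsPrime] (q : R) (hq : q ∈ 𝓟) (hq2 : q ∉ 𝓟 ^ 2) (a : R) (ha : a ∈ 𝓟) :
    ∃ s, s ∉ 𝓟 ∧ ∃ c, s * a = q * c := by
  have hle : Ideal.span {q} ≤ 𝓟 := (Ideal.span_singleton_le_iff_mem 𝓟).mpr hq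
  obtain ⟨J, hJ⟩ := Ideal.dvd_iff_le.mpr hle
  have hJ' : ¬ J ≤ 𝓟 := by
    intro h
    apply hq2
    have : Ideal.span {q} ≤ 𝓟 ^ 2 := by
      rw [hJ, pow_two]
      exact Ideal.mul_mono_right h
    exact this (Ideal.mem_span_singleton_self q)
  obtain ⟨s, hsJ, hs⟩ := Set.not_subset.mp hJ'
  refine ⟨s, hs, ?_⟩
  have h1 : s * a ∈ Ideal.span {q} := by
    rw [hJ, mul_comm s a]
    exact Ideal.mul_mem_mul ha hsJ
  obtain ⟨c, hc⟩ := Ideal.mem_span_singleton'.mp h1
  exact ⟨c, by rw [← hc, mul_comm]⟩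

/-- In `ℤᵐ⁰`, `a < 1` implies `a ≤ exp (-1)`. -/
theorem beta0_le_exp_neg_one {a : ℤᵐ⁰} (h : a < 1) : a ≤ exp (-1 : ℤ) := by
  rcases eq_or_ne a 0 with rfl | ha
  · exact zero_le
  · obtain ⟨n, rfl⟩ : ∃ n : ℤ, a = exp n := ⟨log a, (exp_log ha).symm⟩
    rw [← exp_zero, exp_lt_exp] at h
    rw [exp_le_exp]
    omega

section finiteLevel

variable (A : ValuationSubring (AlgebraicClosure ℚ))
  (F : IntermediateField ℚ (AlgebraicClosure ℚ)) [NumberField F]

/-- The embedding `F → ℚ̄`. -/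
noncomputable abbrev beta0ιF : F →+* AlgebraicClosure ℚ := algebraMap F (AlgebraicClosure ℚ)

/-- The Galois action on `𝓞 F` is compatible with the embedding into `ℚ̄`. -/
theorem beta0Emb_smul [IsGalois ℚ F] (s : F ≃ₐ[ℚ] F) (y : 𝓞 F) :
    beta0Emb (beta0ιF F) (s • y) = ((s (y : F) : F) : AlgebraicClosure ℚ) := by
  simp only [beta0Emb, RingHom.comp_apply]
  rw [algebraMap.smul']
  rfl

variable {A} in
/-- Elements of the finite-level inertia group lift to the inertia group of `A`. -/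
theorem beta0_exists_lift [IsGalois ℚ F] {q : ℕ} (hq : q.Prime) (hA : A.LiesOverPrime q)
    (s : F ≃ₐ[ℚ] F) (hs : s ∈ (beta0Prime A (beta0ιF F)).inertia (F ≃ₐ[ℚ] F)) :
    ∃ σ ∈ A.inertiaSubgroupIn ℚ,
      ∀ x : F, σ (x : AlgebraicClosure ℚ) = ((s x : F) : AlgebraicClosure ℚ) := by
  haveI := Fermat.Agent.Common.isAlgClosure_rat_qbar
  obtain ⟨τ, hτ⟩ := AlgEquiv.restrictNormalHom_surjective (F := ℚ) (K₁ := F) (AlgebraicClosure ℚ) s
  have hτx : ∀ x : F, τ (x : AlgebraicClosure ℚ) = ((s x : F) : AlgebraicClosure ℚ) := by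
    intro x
    rw [← hτ]
    exact (AlgEquiv.restrictNormal_commutes τ F x).symm
  obtain ⟨σ', hσ', hσ'F⟩ :=
    Fermat.Agent.Common.exists_mem_inertiaSubgroupIn_of_congr' F q hq A hA τ
    (by
      intro x hxF hxint
      have hxint' : IsIntegral ℤ (⟨x, hxF⟩ : F) :=
        (isIntegral_algebraMap_iff (algebraMap F (AlgebraicClosure ℚ)).injective).mp hxint
      let y : 𝓞 F := ⟨⟨x, hxF⟩, hxint'⟩
      have hy : s • y - y ∈ beta0Prime A (beta0ιF F) := hs y
      rw [mem_beta0Prime, map_sub, beta0Emb_smul] at hy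
      have e1 : τ x = ((s (y : F) : F) : AlgebraicClosure ℚ) := hτx ⟨x, hxF⟩
      have e2 : beta0Emb (beta0ιF F) y = x := rfl
      rw [e1, ← e2]
      exact hy)
  exact ⟨σ', hσ', fun x => (hσ'F x).trans (hτx x)⟩

/-- Restrictions of elements of the inertia group of `A` lie in the finite-level inertia group. -/
theorem beta0_restrict_mem [IsGalois ℚ F] (σ : AlgebraicClosure ℚ ≃ₐ[ℚ] AlgebraicClosure ℚ)
    (hσ : σ ∈ A.inertiaSubgroupIn ℚ) (s : F ≃ₐ[ℚ] F)
    (hs : ∀ x : F, ((s x : F) : AlgebraicClosure ℚ) = σ (x : AlgebraicClosure ℚ)) :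
    s ∈ (beta0Prime A (beta0ιF F)).inertia (F ≃ₐ[ℚ] F) := by
  intro y
  show s • y - y ∈ beta0Prime A (beta0ιF F)
  rw [mem_beta0Prime, map_sub, beta0Emb_smul, hs]
  exact (Fermat.Agent.S05.inertia_mem_iff hσ).2.1 _ (beta0Emb_mem A (beta0ιF F) y)

/-- The inertia field of `F` at the prime cut out by `A`, as a subfield of `F`. -/
noncomputable def beta0T : IntermediateField ℚ F :=
  FixedPoints.intermediateField ((beta0Prime A (beta0ιF F)).inertia (F ≃ₐ[ℚ] F))

theorem mem_beta0T (x : F) :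
    x ∈ beta0T A F ↔ ∀ s ∈ (beta0Prime A (beta0ιF F)).inertia (F ≃ₐ[ℚ] F), s x = x := by
  constructor
  · intro h s hs
    exact h ⟨s, hs⟩
  · rintro h ⟨s, hs⟩
    exact h s hs

instance beta0T_isInertiaField [IsGalois ℚ F] :
    IsInertiaField ℚ F (beta0Prime A (beta0ιF F)) (beta0T A F) := by
  unfold beta0T; infer_instance

/-- The embedding `T → ℚ̄`. -/
noncomputable abbrev beta0ιT : beta0T A F →+* AlgebraicClosure ℚ :=
  (beta0ιF F).comp (algebraMap (beta0T A F) F)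

theorem beta0Prime_T_eq :
    beta0Prime A (beta0ιT A F) = (beta0Prime A (beta0ιF F)).under (𝓞 (beta0T A F)) := by
  ext y
  rw [mem_beta0Prime, Ideal.under_def, Ideal.mem_comap, mem_beta0Prime]
  rfl

variable {A} in
theorem natCast_not_mem_sq [IsGalois ℚ F] {q : ℕ} (hq : q.Prime) (hA : A.LiesOverPrime q) :
    ((q : ℕ) : 𝓞 (beta0T A F)) ∉ (beta0Prime A (beta0ιT A F)) ^ 2 := by
  haveI := beta0Prime_isMaximal (beta0ιF F) hq hA
  have hunder := beta0Prime_under_int (beta0ιF F) hq hA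
  have hne : (beta0Prime A (beta0ιF F)).under ℤ ≠ ⊥ := by
    rw [hunder]
    simp only [ne_eq, Ideal.span_singleton_eq_bot]
    exact_mod_cast hq.ne_zero
  have h1 : ((beta0Prime A (beta0ιF F)).under (𝓞 (beta0T A F))).ramificationIdx ℤ = 1 :=
    beta0_ramificationIdx_eq_one ℤ ℚ F (beta0Prime A (beta0ιF F)) (beta0T A F) (𝓞 (beta0T A F))
      ((beta0Prime A (beta0ιF F)).under (𝓞 (beta0T A F))) hne
  rw [← beta0Prime_T_eq] at h1
  have hunderT := beta0Prime_under_int (beta0ιT A F) hq hA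
  haveI : (beta0Prime A (beta0ιT A F)).LiesOver (Ideal.span {(q : ℤ)}) := ⟨hunderT.symm⟩
  have hne' : (Ideal.span {(q : ℤ)}) ≠ ⊥ := by
    simp only [ne_eq, Ideal.span_singleton_eq_bot]
    exact_mod_cast hq.ne_zero
  have h2 := Ideal.ramificationIdx'_eq_ramificationIdx (R := ℤ) (Ideal.span {(q : ℤ)})
    (beta0Prime A (beta0ιT A F)) hne'
  rw [h1] at h2
  intro hmem
  have hle : (Ideal.span {(q : ℤ)}).map (algebraMap ℤ (𝓞 (beta0T A F))) ≤
      beta0Prime A (beta0ιT A F) := by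
    rw [Ideal.map_le_iff_le_comap, ← Ideal.under_def, hunderT]
  have h3 := (Ideal.ramificationIdx'_ne_one_iff hle).mpr (by
    rw [Ideal.map_span, Set.image_singleton, Ideal.span_singleton_le_iff_mem]
    simpa using hmem)
  exact h3 h2

variable {A} in
/-- `q` has valuation `exp (-1)` in the inertia field. -/
theorem beta0_valuation_T_q [IsGalois ℚ F] {q : ℕ} (hq : q.Prime) (hA : A.LiesOverPrime q) :
    (beta0Spec (beta0ιT A F) hq hA).valuation (beta0T A F) ((q : ℕ) : beta0T A F) =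
      exp (-1 : ℤ) := by
  have e0 : ((q : ℕ) : beta0T A F) = algebraMap (𝓞 (beta0T A F)) (beta0T A F) ((q : ℕ)) := by
    simp
  rw [e0, HeightOneSpectrum.valuation_of_algebraMap]
  set v := beta0Spec (beta0ιT A F) hq hA
  have h1 : v.intValuation ((q : ℕ) : 𝓞 (beta0T A F)) ≤ exp (-((1 : ℕ) : ℤ)) := by
    rw [HeightOneSpectrum.intValuation_le_pow_iff_mem, pow_one]
    exact natCast_mem_beta0Prime (beta0ιT A F) hA
  have h2 : ¬ v.intValuation ((q : ℕ) : 𝓞 (beta0T A F)) ≤ exp (-((2 : ℕ) : ℤ)) := by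
    rw [HeightOneSpectrum.intValuation_le_pow_iff_mem]
    exact natCast_not_mem_sq F hq hA
  have h0 : v.intValuation ((q : ℕ) : 𝓞 (beta0T A F)) ≠ 0 := by
    intro h
    rw [h] at h2
    exact h2 zero_le
  obtain ⟨n, hn⟩ : ∃ n : ℤ, v.intValuation ((q : ℕ) : 𝓞 (beta0T A F)) = exp n :=
    ⟨log _, (exp_log h0).symm⟩
  rw [hn] at h1 h2 ⊢
  rw [exp_le_exp] at h1 h2
  rw [exp_inj]
  push_cast at h1 h2
  omega

variable {A} in
/-- `q` is a uniformizer of `A ∩ T`. -/
theorem beta0_div_mem_T [IsGalois ℚ F] {q : ℕ} (hq : q.Prime) (hA : A.LiesOverPrime q)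
    (t : beta0T A F) (ht : ((t : F) : AlgebraicClosure ℚ) ∈ A.nonunits) :
    ((t : F) : AlgebraicClosure ℚ) / (q : AlgebraicClosure ℚ) ∈ A := by
  have h1 : (beta0Spec (beta0ιT A F) hq hA).valuation (beta0T A F) t < 1 :=
    (beta0_mem_nonunits_iff (beta0ιT A F) hq hA t).mp ht
  have h2 := beta0_le_exp_neg_one h1
  have h3 : beta0ιT A F (t / ((q : ℕ) : beta0T A F)) ∈ A := by
    rw [beta0_mem_iff (beta0ιT A F) hq hA, map_div₀, beta0_valuation_T_q F hq hA]
    rw [div_le_one₀ (by simp)]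
    exact h2
  simpa using h3

end finiteLevel

end Fermat.Agent.UNIP


end ZBUNIP_006_2

/-! ### bundled: `Fermat.Agent.UNIP.Beta0Abs` -/
section ZBUNIP_006_3

/-!
# UNIP piece U10 (`Beta0`), part 3: the absolute inertia field `E₀ = ℚ̄^I`

`A` is a valuation subring of `ℚ̄` over `q`, `I = A.inertiaSubgroupIn ℚ`, `E₀ = beta0Field A = ℚ̄^I`.

* `beta0Field_inter`       : `E₀ ∩ F` is the inertia field `beta0T A F` of a finite Galois `F`;
* `beta0_div_mem`          : `x ∈ E₀ ∩ 𝔪_A ⇒ x / q ∈ A`  (`q` is a uniformizer of `A ∩ E₀`);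
* `beta0_mem_inertia_of_fixes` : `Gal(ℚ̄/E₀) = I`;
* `beta0_exists_residue`   : every `a ∈ A` is congruent mod `𝔪_A` to `0` or to a root of unity of
  order prime to `q`, which lies in `E₀`  (residue field of `A ∩ E₀` = residue field of `A`);
* `beta0_root_mem`         : `E₀ ≤ E'`, `c ∈ E'` a unit of `A`, `d ^ p = c`, `p ≠ q` ⇒ `d ∈ E'`.
-/

set_option autoImplicit false
set_option linter.style.haveILetI false
set_option linter.unusedSectionVars false

open scoped NumberField Pointwise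
open Ideal MulAction IsDedekindDomain WithZero

namespace Fermat.Agent.UNIP

/-- The inertia field `E₀ = ℚ̄^I` of the valuation subring `A` of `ℚ̄`. -/
noncomputable def beta0Field (A : ValuationSubring (AlgebraicClosure ℚ)) :
    IntermediateField ℚ (AlgebraicClosure ℚ) :=
  IntermediateField.fixedField (A.inertiaSubgroupIn ℚ)

theorem mem_beta0Field {A : ValuationSubring (AlgebraicClosure ℚ)} {x : AlgebraicClosure ℚ} :
    x ∈ beta0Field A ↔ ∀ σ ∈ A.inertiaSubgroupIn ℚ, σ x = x := by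
  constructor
  · intro h σ hσ
    exact h ⟨σ, hσ⟩
  · intro h σ
    exact h σ.1 σ.2

/-- Every element of `ℚ̄` lies in a finite Galois extension of `ℚ`. -/
theorem beta0_exists_galois (S : Finset (AlgebraicClosure ℚ)) :
    ∃ F : IntermediateField ℚ (AlgebraicClosure ℚ), FiniteDimensional ℚ F ∧ IsGalois ℚ F ∧
      ∀ x ∈ S, x ∈ F := by
  haveI := Fermat.Agent.Common.isAlgClosure_rat_qbar
  set K : IntermediateField ℚ (AlgebraicClosure ℚ) :=
    IntermediateField.adjoin ℚ (S : Set (AlgebraicClosure ℚ)) with hK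
  haveI hKfin : FiniteDimensional ℚ K :=
    IntermediateField.finiteDimensional_adjoin (fun x _ => (Algebra.IsIntegral.isIntegral x))
  refine ⟨IntermediateField.normalClosure ℚ K (AlgebraicClosure ℚ), inferInstance, ?_, ?_⟩
  · have : Normal ℚ (IntermediateField.normalClosure ℚ K (AlgebraicClosure ℚ)) :=
      normalClosure.normal ℚ K (AlgebraicClosure ℚ)
    exact IsGalois.mk
  · intro x hx
    exact (IntermediateField.le_normalClosure K) (IntermediateField.subset_adjoin ℚ _ hx)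

section finiteLevel

variable (A : ValuationSubring (AlgebraicClosure ℚ))
  (F : IntermediateField ℚ (AlgebraicClosure ℚ)) [NumberField F] [IsGalois ℚ F]

variable {A} in
/-- `E₀ ∩ F` is contained in the inertia field of `F`. -/
theorem beta0_mem_T {q : ℕ} (hq : q.Prime) (hA : A.LiesOverPrime q)
    (x : F) (hx : (x : AlgebraicClosure ℚ) ∈ beta0Field A) : x ∈ beta0T A F := by
  rw [mem_beta0T]
  intro s hs
  obtain ⟨σ, hσ, hσx⟩ := beta0_exists_lift F hq hA s hs
  have h1 := mem_beta0Field.mp hx σ hσ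
  rw [hσx x] at h1
  exact Subtype.ext h1

/-- The inertia field of `F` is contained in `E₀`. -/
theorem beta0_T_le (x : F) (hx : x ∈ beta0T A F) : (x : AlgebraicClosure ℚ) ∈ beta0Field A := by
  haveI := Fermat.Agent.Common.isAlgClosure_rat_qbar
  rw [mem_beta0Field]
  intro σ hσ
  set s : F ≃ₐ[ℚ] F := AlgEquiv.restrictNormal σ F with hs
  have hsx : ∀ y : F, ((s y : F) : AlgebraicClosure ℚ) = σ (y : AlgebraicClosure ℚ) :=
    fun y => AlgEquiv.restrictNormal_commutes σ F y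
  have hmem := beta0_restrict_mem A F σ hσ s hsx
  have := (mem_beta0T A F x).mp hx s hmem
  rw [← hsx x, this]

variable {A} in
/-- `E₀ ∩ F = T_F`. -/
theorem beta0Field_inter {q : ℕ} (hq : q.Prime) (hA : A.LiesOverPrime q) (x : F) :
    (x : AlgebraicClosure ℚ) ∈ beta0Field A ↔ x ∈ beta0T A F :=
  ⟨beta0_mem_T F hq hA x, beta0_T_le A F x⟩

end finiteLevel

section absolute

variable {A : ValuationSubring (AlgebraicClosure ℚ)} {q : ℕ}

/-- **`q` is a uniformizer of `A ∩ E₀`.** -/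
theorem beta0_div_mem (hq : q.Prime) (hA : A.LiesOverPrime q) {x : AlgebraicClosure ℚ}
    (hx : x ∈ beta0Field A) (hxA : x ∈ A.nonunits) : x / (q : AlgebraicClosure ℚ) ∈ A := by
  obtain ⟨F, hFfin, hFgal, hxF⟩ := beta0_exists_galois {x}
  haveI : NumberField F := { to_charZero := inferInstance, to_finiteDimensional := hFfin }
  have hxF' : x ∈ F := hxF x (Finset.mem_singleton_self x)
  have hT : (⟨x, hxF'⟩ : F) ∈ beta0T A F := beta0_mem_T F hq hA ⟨x, hxF'⟩ hx
  exact beta0_div_mem_T F hq hA ⟨⟨x, hxF'⟩, hT⟩ hxA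

/-- **`Gal(ℚ̄/E₀) = I`**: an automorphism fixing `E₀` pointwise lies in the inertia group. -/
theorem beta0_mem_inertia_of_fixes (hq : q.Prime) (hA : A.LiesOverPrime q)
    (σ : AlgebraicClosure ℚ ≃ₐ[ℚ] AlgebraicClosure ℚ) (hσ : ∀ x ∈ beta0Field A, σ x = x) :
    σ ∈ A.inertiaSubgroupIn ℚ := by
  haveI := Fermat.Agent.Common.isAlgClosure_rat_qbar
  apply Fermat.Agent.S13.Minkowski.mem_inertiaSubgroupIn_of_forall hq A hA σ
  intro b hb
  obtain ⟨F, hFfin, hFgal, hbF⟩ := beta0_exists_galois {b}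
  haveI : NumberField F := { to_charZero := inferInstance, to_finiteDimensional := hFfin }
  have hbF' : b ∈ F := hbF b (Finset.mem_singleton_self b)
  set s : F ≃ₐ[ℚ] F := AlgEquiv.restrictNormal σ F with hs
  have hsx : ∀ y : F, ((s y : F) : AlgebraicClosure ℚ) = σ (y : AlgebraicClosure ℚ) :=
    fun y => AlgEquiv.restrictNormal_commutes σ F y
  -- `s` fixes the inertia field, hence lies in the finite-level inertia group
  have hsfix : ∀ y ∈ beta0T A F, s y = y := by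
    intro y hy
    apply Subtype.ext
    rw [hsx]
    exact hσ _ (beta0_T_le A F y hy)
  have hsH : s ∈ (beta0Prime A (beta0ιF F)).inertia (F ≃ₐ[ℚ] F) := by
    have h1 : s ∈ (IntermediateField.fixedField
        ((beta0Prime A (beta0ιF F)).inertia (F ≃ₐ[ℚ] F))).fixingSubgroup := by
      rw [IntermediateField.mem_fixingSubgroup_iff]
      intro y hy
      exact hsfix y hy
    rwa [IntermediateField.fixingSubgroup_fixedField] at h1
  obtain ⟨τ, hτ, hτx⟩ := beta0_exists_lift F hq hA s hsH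
  have e1 : σ b = τ b := by
    rw [← hsx ⟨b, hbF'⟩, ← hτx ⟨b, hbF'⟩]
  rw [e1]
  exact Fermat.Agent.S05.inertia_apply_sub_mem_nonunits hτ (hb 1)

end absolute

end Fermat.Agent.UNIP


end ZBUNIP_006_3

/-! ### bundled: `Fermat.Agent.UNIP.Beta0Ext` -/
section ZBUNIP_006_4

/-!
# UNIP piece U10 (`Beta0`), part 4: `A₀ = A ∩ E₀` is a DVR with uniformizer `q`

`A` is a valuation subring of `ℚ̄` over `q`, `I = A.inertiaSubgroupIn ℚ`, `E₀ = beta0Field A = ℚ̄^I`.

* `beta0_valuation_eq_zpow` : `x ∈ E₀`, `x ≠ 0` ⇒ `v x = v q ^ k` for some `k : ℤ` (`v = A.valuation`);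
* `beta0_isDVR_of_uniformizer` : generic criterion — `A.comap ι` is a DVR as soon as the values of
  `E` are powers of the value of one element `π` with `v (ι π) < 1`;
* `beta0_isDVR` : `IsDiscreteValuationRing (A.comap (algebraMap E₀ ℚ̄))`;
* `beta0_exists_residue` : every `a ∈ A` is congruent mod `𝔪_A` to an element of `A ∩ E₀`
  (`0` or a root of unity of order prime to `q`);
* `beta0_root_mem` : `E₀ ≤ E'`, `c ∈ E'` a unit of `A`, `d ^ M = c`, `M` a unit of `A` ⇒ `d ∈ E'`.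
-/

set_option autoImplicit false
set_option linter.style.haveILetI false
set_option linter.unusedSectionVars false

open scoped NumberField Pointwise
open Ideal MulAction IsDedekindDomain WithZero Polynomial

namespace Fermat.Agent.UNIP

section generic

variable {L : Type*} [Field L] (A : ValuationSubring L)

/-- `v z = 1` iff `z ∈ A` and `z ∉ 𝔪`. -/
theorem beta0_valuation_eq_one_iff (z : L) :
    A.valuation z = 1 ↔ z ∈ A ∧ z ∉ A.nonunits := by
  rw [← A.valuation_le_one_iff, ValuationSubring.mem_nonunits_iff, not_lt]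
  exact ⟨fun h => ⟨h.le, h.ge⟩, fun h => le_antisymm h.1 h.2⟩

/-- Generic DVR criterion for the trace `A ∩ E` of a valuation ring on a subfield. -/
theorem beta0_isDVR_of_uniformizer {E : Type*} [Field E] (ι : E →+* L) (π : E) (hπ0 : π ≠ 0)
    (hπ : A.valuation (ι π) < 1)
    (h : ∀ x : E, x ≠ 0 → ∃ k : ℤ, A.valuation (ι x) = A.valuation (ι π) ^ k) :
    IsDiscreteValuationRing (A.comap ι) := by
  set γ := A.valuation (ι π) with hγ
  have hγ0 : 0 < γ := zero_lt_iff.mpr ((Valuation.ne_zero_iff _).mpr ((map_ne_zero ι).mpr hπ0))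
  have hπmem : π ∈ A.comap ι := by
    rw [ValuationSubring.mem_comap, ← A.valuation_le_one_iff]
    exact hπ.le
  -- elements of valuation one are units
  have hunit : ∀ x : A.comap ι, A.valuation (ι (x : E)) = 1 → IsUnit x := by
    intro x hx
    have hx0 : (x : E) ≠ 0 := by
      intro h0
      rw [h0, map_zero, map_zero] at hx
      exact zero_ne_one hx
    have hinv : (x : E)⁻¹ ∈ A.comap ι := by
      rw [ValuationSubring.mem_comap, ← A.valuation_le_one_iff, map_inv₀, map_inv₀, hx, inv_one]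
    refine IsUnit.of_mul_eq_one ⟨(x : E)⁻¹, hinv⟩ ?_
    apply Subtype.ext
    simp [hx0]
  have hle : ∀ x : A.comap ι, A.valuation (ι (x : E)) ≤ 1 := fun x =>
    (A.valuation_le_one_iff _).mpr x.2
  have hnonunit : ∀ x : A.comap ι, IsUnit x → A.valuation (ι (x : E)) = 1 := by
    intro x hx
    obtain ⟨y, hy⟩ := hx.exists_right_inv
    have h1 : A.valuation (ι (x : E)) * A.valuation (ι (y : E)) = 1 := by
      rw [← map_mul, ← map_mul]
      have : (x : E) * (y : E) = 1 := by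
        have := congrArg (fun z : A.comap ι => (z : E)) hy
        simpa using this
      rw [this, map_one, map_one]
    apply le_antisymm (hle x)
    by_contra hlt
    rw [not_le] at hlt
    have : A.valuation (ι (x : E)) * A.valuation (ι (y : E)) < 1 := by
      calc A.valuation (ι (x : E)) * A.valuation (ι (y : E))
          ≤ A.valuation (ι (x : E)) * 1 := mul_le_mul_right (hle y) _
        _ = A.valuation (ι (x : E)) := mul_one _
        _ < 1 := hlt
    rw [h1] at this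
    exact lt_irrefl _ this
  apply IsDiscreteValuationRing.ofHasUnitMulPowIrreducibleFactorization
  refine ⟨⟨π, hπmem⟩, ?_, ?_⟩
  · -- irreducible
    refine ⟨fun hu => ?_, ?_⟩
    · have h1 : A.valuation (ι π) = 1 := hnonunit _ hu
      have h2 : A.valuation (ι π) < 1 := hπ
      rw [h1] at h2
      exact lt_irrefl _ h2
    · intro a b hab
      have hab' : π = (a : E) * (b : E) := by
        have := congrArg (fun z : A.comap ι => (z : E)) hab
        simpa using this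
      have ha0 : (a : E) ≠ 0 := by
        intro h0
        rw [h0, zero_mul] at hab'
        exact hπ0 hab'
      have hb0 : (b : E) ≠ 0 := by
        intro h0
        rw [h0, mul_zero] at hab'
        exact hπ0 hab'
      obtain ⟨m, hm⟩ := h a ha0
      obtain ⟨n, hn⟩ := h b hb0
      have hm0 : 0 ≤ m := by
        have := hle a
        rw [hm] at this
        exact (zpow_le_one_iff_right_of_lt_one₀ hγ0 hπ).mp this
      have hn0 : 0 ≤ n := by
        have := hle b
        rw [hn] at this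
        exact (zpow_le_one_iff_right_of_lt_one₀ hγ0 hπ).mp this
      have hmn : m + n = 1 := by
        have h1 : γ ^ (1 : ℤ) = γ ^ (m + n) := by
          rw [zpow_add₀ hγ0.ne', ← hm, ← hn, ← map_mul, ← map_mul, ← hab', zpow_one]
        exact ((zpow_right_inj₀ hγ0 hπ.ne).mp h1).symm
      rcases (by omega : m = 0 ∨ n = 0) with h0 | h0
      · left
        apply hunit
        rw [hm, h0, zpow_zero]
      · right
        apply hunit
        rw [hn, h0, zpow_zero]
  · intro x hx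
    have hx0 : (x : E) ≠ 0 := fun h0 => hx (Subtype.ext h0)
    obtain ⟨k, hk⟩ := h x hx0
    have hk0 : 0 ≤ k := by
      have := hle x
      rw [hk] at this
      exact (zpow_le_one_iff_right_of_lt_one₀ hγ0 hπ).mp this
    obtain ⟨n, rfl⟩ := Int.eq_ofNat_of_zero_le hk0
    refine ⟨n, ?_⟩
    -- the unit `x / π ^ n`
    have hu1 : A.valuation (ι ((x : E) / π ^ n)) = 1 := by
      rw [map_div₀, map_div₀, hk, map_pow, map_pow, zpow_natCast]
      exact div_self (pow_ne_zero _ hγ0.ne')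
    have humem : (x : E) / π ^ n ∈ A.comap ι := by
      rw [ValuationSubring.mem_comap, ← A.valuation_le_one_iff, hu1]
    obtain ⟨u, hu⟩ := hunit ⟨(x : E) / π ^ n, humem⟩ hu1
    refine ⟨u, ?_⟩
    rw [hu]
    apply Subtype.ext
    simp only [MulMemClass.coe_mul, SubmonoidClass.coe_pow]
    field_simp

end generic

section absolute

variable {A : ValuationSubring (AlgebraicClosure ℚ)} {q : ℕ}

/-- The value group of `E₀ = ℚ̄^I` is generated by the value of `q`. -/
theorem beta0_valuation_eq_zpow (hq : q.Prime) (hA : A.LiesOverPrime q) {x : AlgebraicClosure ℚ}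
    (hx : x ∈ beta0Field A) (hx0 : x ≠ 0) :
    ∃ k : ℤ, A.valuation x = A.valuation (q : AlgebraicClosure ℚ) ^ k := by
  obtain ⟨F, hFfin, hFgal, hxF⟩ := beta0_exists_galois {x}
  haveI : NumberField F := { to_charZero := inferInstance, to_finiteDimensional := hFfin }
  have hxF' : x ∈ F := hxF x (Finset.mem_singleton_self x)
  have hT : (⟨x, hxF'⟩ : F) ∈ beta0T A F := beta0_mem_T F hq hA ⟨x, hxF'⟩ hx
  set t : beta0T A F := ⟨⟨x, hxF'⟩, hT⟩ with ht
  have ht0 : t ≠ 0 := by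
    intro h
    apply hx0
    have := congrArg (fun z : beta0T A F => ((z : F) : AlgebraicClosure ℚ)) h
    simpa [ht] using this
  set w := (beta0Spec (beta0ιT A F) hq hA).valuation (beta0T A F) with hw
  have hwt : w t ≠ 0 := (Valuation.ne_zero_iff _).mpr ht0
  obtain ⟨m, hm⟩ : ∃ m : ℤ, w t = exp m := ⟨log _, (exp_log hwt).symm⟩
  have hwq : w ((q : ℕ) : beta0T A F) = exp (-1 : ℤ) := beta0_valuation_T_q F hq hA
  -- `y = t * q ^ m` has valuation one
  set y : beta0T A F := t * ((q : ℕ) : beta0T A F) ^ m with hy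
  have hwy : w y = 1 := by
    rw [hy, map_mul, map_zpow₀, hm, hwq, ← exp_zsmul, ← exp_add]
    simp
  have hyA : beta0ιT A F y ∈ A := by
    rw [beta0_mem_iff (beta0ιT A F) hq hA, ← hw, hwy]
  have hyA' : beta0ιT A F y ∉ A.nonunits := by
    rw [beta0_mem_nonunits_iff (beta0ιT A F) hq hA, ← hw, hwy]
    exact lt_irrefl _
  have hvy : A.valuation (beta0ιT A F y) = 1 :=
    (beta0_valuation_eq_one_iff A _).mpr ⟨hyA, hyA'⟩
  have hyx : beta0ιT A F y = x * (q : AlgebraicClosure ℚ) ^ m := by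
    rw [hy, map_mul, map_zpow₀, map_natCast]
    rfl
  rw [hyx, map_mul, map_zpow₀] at hvy
  have hq0 : A.valuation (q : AlgebraicClosure ℚ) ≠ 0 :=
    (Valuation.ne_zero_iff _).mpr (by exact_mod_cast hq.ne_zero)
  refine ⟨-m, ?_⟩
  rw [zpow_neg]
  exact eq_inv_of_mul_eq_one_left hvy

/-- **`A₀ = A ∩ E₀` is a discrete valuation ring** (with uniformizer `q`). -/
theorem beta0_isDVR (hq : q.Prime) (hA : A.LiesOverPrime q) :
    IsDiscreteValuationRing
      (A.comap (algebraMap (beta0Field A) (AlgebraicClosure ℚ))) := by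
  have hq0 : ((q : ℕ) : beta0Field A) ≠ 0 := by exact_mod_cast hq.ne_zero
  have e1 : algebraMap (beta0Field A) (AlgebraicClosure ℚ) ((q : ℕ) : beta0Field A) =
      (q : AlgebraicClosure ℚ) := map_natCast _ q
  apply beta0_isDVR_of_uniformizer A (algebraMap (beta0Field A) (AlgebraicClosure ℚ))
    ((q : ℕ) : beta0Field A) hq0
  · rw [e1]
    exact A.mem_nonunits_iff.mp hA
  · intro x hx
    rw [e1]
    exact beta0_valuation_eq_zpow hq hA x.2 (by simpa using hx)

end absolute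

section residue

/-- A nonzero nonunit-free congruence: if `a ∈ A` and `a ^ M - 1 ∈ 𝔪_A` (`M ≠ 0`), then `a` is congruent
mod `𝔪_A` to an `M`-th root of unity. -/
theorem beta0_exists_rootOfUnity {L : Type*} [Field L] [IsAlgClosed L] (A : ValuationSubring L)
    {M : ℕ} (hM : (M : L) ≠ 0) {a : L} (ha : a ∈ A) (haM : a ^ M - 1 ∈ A.nonunits) :
    ∃ ζ : L, ζ ^ M = 1 ∧ a - ζ ∈ A.nonunits := by
  classical
  have hM0 : M ≠ 0 := by
    rintro rfl
    simp at hM
  haveI : NeZero (M : L) := ⟨hM⟩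
  obtain ⟨ζ₀, hζ₀⟩ := HasEnoughRootsOfUnity.exists_primitiveRoot L M
  have hprod := X_pow_sub_one_eq_prod (Nat.pos_of_ne_zero hM0) hζ₀
  have heval : a ^ M - 1 = ∏ ζ ∈ nthRootsFinset M (1 : L), (a - ζ) := by
    have := congrArg (Polynomial.eval a) hprod
    simpa [Polynomial.eval_prod] using this
  by_contra hcon
  push Not at hcon
  have hall : ∀ ζ ∈ nthRootsFinset M (1 : L), A.valuation (a - ζ) = 1 := by
    intro ζ hζ
    have hζM : ζ ^ M = 1 := (mem_nthRootsFinset (Nat.pos_of_ne_zero hM0) 1).mp hζ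
    have hζA : ζ ∈ A := Fermat.Agent.S31.rootOfUnity_mem A hM0 hζM
    exact (beta0_valuation_eq_one_iff A _).mpr ⟨sub_mem ha hζA, hcon ζ hζM⟩
  have h1 : A.valuation (a ^ M - 1) = 1 := by
    rw [heval, map_prod]
    exact Finset.prod_eq_one hall
  rw [A.mem_nonunits_iff, h1] at haM
  exact lt_irrefl _ haM

variable {A : ValuationSubring (AlgebraicClosure ℚ)} {q : ℕ}

/-- **The residue field of `A₀ = A ∩ E₀` is the residue field of `A`**: every element of `A` is
congruent modulo `𝔪_A` to an element of `A ∩ E₀`. -/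
theorem beta0_exists_residue (hq : q.Prime) (hA : A.LiesOverPrime q) {a : AlgebraicClosure ℚ}
    (ha : a ∈ A) : ∃ b, b ∈ beta0Field A ∧ b ∈ A ∧ a - b ∈ A.nonunits := by
  classical
  by_cases hau : a ∈ A.nonunits
  · exact ⟨0, zero_mem _, zero_mem _, by simpa using hau⟩
  obtain ⟨F, hFfin, hFgal, haF⟩ := beta0_exists_galois {a}
  haveI : NumberField F := { to_charZero := inferInstance, to_finiteDimensional := hFfin }
  have haF' : a ∈ F := haF a (Finset.mem_singleton_self a)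
  set P := beta0Prime A (beta0ιF F) with hP
  haveI hPmax : P.IsMaximal := beta0Prime_isMaximal (beta0ιF F) hq hA
  have hPne : P ≠ ⊥ := beta0Prime_ne_bot (beta0ιF F) hq hA
  -- `a = n / d`
  have hmem : (⟨a, haF'⟩ : F) ∈ A.comap (beta0ιF F) := ha
  rw [beta0_comap_eq (beta0ιF F) hq hA,
    ← HeightOneSpectrum.valuationSubringAtPrime_eq_valuationSubring] at hmem
  obtain ⟨n, d, hd, hnd⟩ := hmem
  have hdP : d ∉ P := hd
  have hda : beta0Emb (beta0ιF F) d ∉ A.nonunits :=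
    fun h => hdP ((mem_beta0Prime A _ d).mpr h)
  have hvd : A.valuation (beta0Emb (beta0ιF F) d) = 1 :=
    (beta0_valuation_eq_one_iff A _).mpr ⟨beta0Emb_mem A _ d, hda⟩
  have hane : a = beta0Emb (beta0ιF F) n * (beta0Emb (beta0ιF F) d)⁻¹ := by
    have := congrArg (fun z : F => (z : AlgebraicClosure ℚ)) hnd
    simpa [beta0Emb] using this
  have hva : A.valuation a = 1 := (beta0_valuation_eq_one_iff A _).mpr ⟨ha, hau⟩
  have hvn : A.valuation (beta0Emb (beta0ιF F) n) = 1 := by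
    rw [hane, map_mul, map_inv₀, hvd, inv_one, mul_one] at hva
    exact hva
  have hnP : n ∉ P := fun h => by
    have := (mem_beta0Prime A _ n).mp h
    rw [A.mem_nonunits_iff, hvn] at this
    exact lt_irrefl _ this
  -- the finite residue field
  haveI : Finite (𝓞 F ⧸ P) := Ring.HasFiniteQuotients.finiteQuotient hPne
  letI : Fintype (𝓞 F ⧸ P) := Fintype.ofFinite _
  letI : Field (𝓞 F ⧸ P) := Ideal.Quotient.field P
  set Q := Fintype.card (𝓞 F ⧸ P) with hQ
  have hQ2 : 2 ≤ Q := Fintype.one_lt_card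
  have hpow : ∀ x : 𝓞 F, x ∉ P →
      A.valuation ((beta0Emb (beta0ιF F) x) ^ (Q - 1) - 1) < 1 := by
    intro x hx
    have h1 : (Ideal.Quotient.mk P x) ^ (Q - 1) = 1 :=
      FiniteField.pow_card_sub_one_eq_one _ (by rwa [Ne, Ideal.Quotient.eq_zero_iff_mem])
    have h2 : x ^ (Q - 1) - 1 ∈ P := by
      rw [← Ideal.Quotient.eq_zero_iff_mem, map_sub, map_pow, h1, map_one, sub_self]
    have h3 := (mem_beta0Prime A _ _).mp h2
    rw [map_sub, map_pow, map_one] at h3
    exact A.mem_nonunits_iff.mp h3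
  have hQmem : ((Q : ℕ) : AlgebraicClosure ℚ) ∈ A.nonunits := by
    have h1 : ((Q : ℕ) : 𝓞 F) ∈ P := by
      rw [← Ideal.Quotient.eq_zero_iff_mem, map_natCast]
      exact FiniteField.cast_card_eq_zero _
    have h3 := (mem_beta0Prime A _ _).mp h1
    simpa using h3
  set M := Q - 1 with hM
  have hM0 : M ≠ 0 := by omega
  have hMne : ((M : ℕ) : AlgebraicClosure ℚ) ≠ 0 := by exact_mod_cast hM0
  have hMu : ((M : ℕ) : AlgebraicClosure ℚ) ∉ A.nonunits := by
    intro h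
    have h1 : (1 : AlgebraicClosure ℚ) = (Q : AlgebraicClosure ℚ) - (M : AlgebraicClosure ℚ) := by
      have : Q = M + 1 := by omega
      rw [this]
      push_cast
      ring
    have : (1 : AlgebraicClosure ℚ) ∈ A.nonunits := by
      rw [h1, A.mem_nonunits_iff]
      exact lt_of_le_of_lt (Valuation.map_sub _ _ _)
        (max_lt (A.mem_nonunits_iff.mp hQmem) (A.mem_nonunits_iff.mp h))
    rw [A.mem_nonunits_iff, map_one] at this
    exact lt_irrefl _ this
  have haM : a ^ M - 1 ∈ A.nonunits := by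
    rw [A.mem_nonunits_iff]
    have hd0 : beta0Emb (beta0ιF F) d ≠ 0 := by
      intro h
      rw [h, map_zero] at hvd
      exact zero_ne_one hvd
    have e : a ^ M - 1 = ((beta0Emb (beta0ιF F) n ^ M - 1) - (beta0Emb (beta0ιF F) d ^ M - 1)) *
        ((beta0Emb (beta0ιF F) d)⁻¹) ^ M := by
      have hdd : beta0Emb (beta0ιF F) d ^ M * ((beta0Emb (beta0ιF F) d)⁻¹) ^ M = 1 := by
        rw [← mul_pow, mul_inv_cancel₀ hd0, one_pow]
      rw [hane, mul_pow]
      linear_combination hdd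
    rw [e, map_mul, map_pow, map_inv₀, hvd, inv_one, one_pow, mul_one]
    exact lt_of_le_of_lt (Valuation.map_sub _ _ _) (max_lt (hpow n hnP) (hpow d hdP))
  obtain ⟨ζ, hζM, hζ⟩ := beta0_exists_rootOfUnity A hMne ha haM
  refine ⟨ζ, ?_, Fermat.Agent.S31.rootOfUnity_mem A hM0 hζM, hζ⟩
  rw [mem_beta0Field]
  intro σ hσ
  exact Fermat.Agent.S31.inertia_rootOfUnity A hMu hM0 hσ hζM

/-- An element of `ℚ̄` fixed by every automorphism fixing `E'` pointwise lies in `E'`. -/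
theorem beta0_mem_of_fixed (E' : IntermediateField ℚ (AlgebraicClosure ℚ))
    {d : AlgebraicClosure ℚ}
    (h : ∀ σ : AlgebraicClosure ℚ ≃ₐ[ℚ] AlgebraicClosure ℚ, (∀ x ∈ E', σ x = x) → σ d = d) :
    d ∈ E' := by
  haveI := Fermat.Agent.Common.isAlgClosure_rat_qbar
  haveI : IsGalois ℚ (AlgebraicClosure ℚ) := inferInstance
  rw [← InfiniteGalois.fixedField_fixingSubgroup E']
  intro σ
  exact h σ.1 (fun x hx => (IntermediateField.mem_fixingSubgroup_iff E' σ.1).mp σ.2 x hx)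

/-- **Roots of units**: if `E₀ ≤ E'`, `c ∈ E'` is a unit of `A` and `M` is prime to `q`, every
`M`-th root of `c` in `ℚ̄` lies in `E'`. -/
theorem beta0_root_mem (hq : q.Prime) (hA : A.LiesOverPrime q)
    (E' : IntermediateField ℚ (AlgebraicClosure ℚ)) (hE : beta0Field A ≤ E')
    {M : ℕ} (hM0 : M ≠ 0) (hM : (M : AlgebraicClosure ℚ) ∉ A.nonunits)
    {c d : AlgebraicClosure ℚ} (hc : c ∈ E') (hcu : A.valuation c = 1) (hd : d ^ M = c) :
    d ∈ E' := by
  haveI := Fermat.Agent.Common.isAlgClosure_rat_qbar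
  apply beta0_mem_of_fixed E'
  intro σ hσ
  have hσI : σ ∈ A.inertiaSubgroupIn ℚ :=
    beta0_mem_inertia_of_fixes hq hA σ (fun x hx => hσ x (hE hx))
  have hvd : A.valuation d = 1 := by
    have h1 : A.valuation d ^ M = 1 := by rw [← map_pow, hd, hcu]
    exact (pow_eq_one_iff_of_nonneg zero_le hM0).mp h1
  have hd0 : d ≠ 0 := by
    rintro rfl
    simp at hvd
  have h1 := Fermat.Agent.S05.inertia_apply_div_sub_one_mem_nonunits hσI hvd
  have h2 : (σ d / d) ^ M = 1 := by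
    rw [div_pow, ← map_pow, hd, hσ c hc]
    exact div_self (by rw [← hd]; exact pow_ne_zero _ hd0)
  have h3 : σ d / d = 1 :=
    Fermat.Agent.S31.rootOfUnity_eq_of_sub_mem A hM hM0 h2 (one_pow M) h1
  exact (div_eq_one_iff_eq hd0).mp h3

/-- **Units are `M`-th powers**: for `E₀ ≤ E'` and `M` prime to `q`, every unit of `A ∩ E'` is an
`M`-th power of a unit of `A ∩ E'`. -/
theorem beta0_exists_root (hq : q.Prime) (hA : A.LiesOverPrime q)
    (E' : IntermediateField ℚ (AlgebraicClosure ℚ)) (hE : beta0Field A ≤ E')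
    {M : ℕ} (hM0 : M ≠ 0) (hM : (M : AlgebraicClosure ℚ) ∉ A.nonunits)
    {c : AlgebraicClosure ℚ} (hc : c ∈ E') (hcu : A.valuation c = 1) :
    ∃ d, d ∈ E' ∧ A.valuation d = 1 ∧ d ^ M = c := by
  obtain ⟨d, hd⟩ := IsAlgClosed.exists_pow_nat_eq c (Nat.pos_of_ne_zero hM0)
  refine ⟨d, beta0_root_mem hq hA E' hE hM0 hM hc hcu hd, ?_, hd⟩
  have h1 : A.valuation d ^ M = 1 := by rw [← map_pow, hd, hcu]
  exact (pow_eq_one_iff_of_nonneg zero_le hM0).mp h1

end residue

end Fermat.Agent.UNIP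


end ZBUNIP_006_4

/-! ### bundled: `Fermat.Agent.UNIP.Beta0Tot` -/
section ZBUNIP_006_5

/-!
# UNIP piece U10 (`Beta0`), part 5: the totally ramified extension `E' = E₀ ⊔ F` of `E₀ = ℚ̄^I`

`A` is a valuation subring of `ℚ̄` over `q`, `v = A.valuation`, `E₀ = beta0Field A = ℚ̄^I`,
`F ⊂ ℚ̄` a finite Galois extension of `ℚ`, `T = beta0T A F = F ∩ E₀`, `n = beta0Deg A F = [F : T]`,
`E' = E₀ ⊔ F`.

* `beta0_sum_dominant`       : generic "dominant term" lemma for valuations;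
* `beta0_valuation_F_q`      : the adic valuation of `q` in `F` is `exp (-n)`  (`e(P | q) = |H| = [F : T]`);
* `beta0_exists_uniformizer` : `∃ π ∈ F`, `v π < 1`, `v π ^ n = v q`, values of `F` are powers of `v π`;
* `beta0_F_span`             : `F = ⊕_{i<n} T π^i`;
* `beta0_sup_span`           : `E' = ⊕_{i<n} E₀ π^i`;   `beta0_sum_eq_zero` : uniqueness;
* `beta0_coeff_mem`, `beta0_sup_decomp` : `A ∩ E' = ⊕_{i<n} (A ∩ E₀) π^i`;
* `beta0_sup_valuation_eq_zpow` : the values of `E'` are powers of `v π`;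
* `beta0_sup_div_mem`        : `x ∈ E' ∩ 𝔪_A ⇒ x / π ∈ A`;
* `beta0_sup_isDVR`          : `IsDiscreteValuationRing (A.comap (algebraMap E' ℚ̄))`;
* `beta0_sup_apply_mem`      : `σ ∈ I ⇒ σ E' ⊆ E'`;
* `beta0_sup_main`           : summary.
-/

set_option autoImplicit false
set_option linter.style.haveILetI false
set_option linter.unusedSectionVars false

open scoped NumberField Pointwise
open Ideal MulAction IsDedekindDomain WithZero Polynomial

namespace Fermat.Agent.UNIP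

section generic

variable {L : Type*} [Field L] {Γ₀ : Type*} [LinearOrderedCommGroupWithZero Γ₀]
  (v : Valuation L Γ₀)

/-- **Dominant term**: if the values of the `c i` are powers of `γ ^ n` and `v ϖ = γ < 1`, the
terms `c i * ϖ ^ i`, `i < n`, have pairwise distinct values, so their sum has the value of the
largest term. -/
theorem beta0_sum_dominant {n : ℕ} {γ : Γ₀} (hγ0 : 0 < γ) (hγ1 : γ < 1) {ϖ : L} (hϖ : v ϖ = γ)
    (c : Fin n → L) (hc : ∀ i, c i ≠ 0 → ∃ k : ℤ, v (c i) = γ ^ ((n : ℤ) * k)) :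
    (∀ i, c i = 0) ∨ ∃ j, c j ≠ 0 ∧
      v (∑ i, c i * ϖ ^ (i : ℕ)) = v (c j * ϖ ^ (j : ℕ)) ∧
      ∀ i, v (c i * ϖ ^ (i : ℕ)) ≤ v (c j * ϖ ^ (j : ℕ)) := by
  classical
  by_cases hall : ∀ i, c i = 0
  · exact Or.inl hall
  right
  push Not at hall
  obtain ⟨i₀, hi₀⟩ := hall
  have hϖ0 : ϖ ≠ 0 := by
    rintro rfl
    rw [map_zero] at hϖ
    exact hγ0.ne hϖ
  obtain ⟨j, -, hj⟩ := Finset.exists_max_image Finset.univ (fun i => v (c i * ϖ ^ (i : ℕ)))
    ⟨i₀, Finset.mem_univ _⟩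
  have hj' : ∀ i, v (c i * ϖ ^ (i : ℕ)) ≤ v (c j * ϖ ^ (j : ℕ)) := fun i => hj i (Finset.mem_univ _)
  have hcj : c j ≠ 0 := by
    intro h0
    have h1 := hj' i₀
    rw [h0, zero_mul, map_zero, le_zero_iff, Valuation.zero_iff] at h1
    exact (mul_ne_zero hi₀ (pow_ne_zero _ hϖ0)) h1
  have hval : ∀ i, c i ≠ 0 → ∃ k : ℤ, v (c i * ϖ ^ (i : ℕ)) = γ ^ ((n : ℤ) * k + (i : ℕ)) := by
    intro i hi
    obtain ⟨k, hk⟩ := hc i hi
    refine ⟨k, ?_⟩
    rw [map_mul, map_pow, hk, hϖ, zpow_add₀ hγ0.ne', zpow_natCast]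
  refine ⟨j, hcj, ?_, hj'⟩
  apply Valuation.map_sum_eq_of_lt v (Finset.mem_univ j)
  intro i hi
  have hij : i ≠ j := by
    simpa using hi
  apply lt_of_le_of_ne (hj' i)
  intro heq
  obtain ⟨kj, hkj⟩ := hval j hcj
  have hci : c i ≠ 0 := by
    intro h0
    rw [h0, zero_mul, map_zero, hkj] at heq
    exact (zpow_ne_zero _ hγ0.ne') heq.symm
  obtain ⟨ki, hki⟩ := hval i hci
  rw [hki, hkj] at heq
  have h1 : (n : ℤ) * ki + (i : ℕ) = (n : ℤ) * kj + (j : ℕ) :=
    (zpow_right_inj₀ hγ0 hγ1.ne).mp heq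
  have hi_lt : ((i : ℕ) : ℤ) < n := by exact_mod_cast i.2
  have hj_lt : ((j : ℕ) : ℤ) < n := by exact_mod_cast j.2
  have h2 : ((i : ℕ) : ℤ) = ((j : ℕ) : ℤ) := by
    have e1 : ((n : ℤ) * ki + (i : ℕ)) % n = ((i : ℕ) : ℤ) := by
      rw [add_comm, Int.add_mul_emod_self_left]
      exact Int.emod_eq_of_lt (by positivity) hi_lt
    have e2 : ((n : ℤ) * kj + (j : ℕ)) % n = ((j : ℕ) : ℤ) := by
      rw [add_comm, Int.add_mul_emod_self_left]
      exact Int.emod_eq_of_lt (by positivity) hj_lt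
    rw [← e1, ← e2, h1]
  apply hij
  apply Fin.ext
  exact_mod_cast h2

end generic

section finiteLevel

variable (A : ValuationSubring (AlgebraicClosure ℚ))
  (F : IntermediateField ℚ (AlgebraicClosure ℚ)) [NumberField F] [IsGalois ℚ F]

/-- The ramification index `n = [F : T]`. -/
noncomputable def beta0Deg : ℕ := Module.finrank (beta0T A F) F

variable {A} in
/-- `q` has valuation `exp (-n)` in `F`, `n = [F : T]`. -/
theorem beta0_valuation_F_q {q : ℕ} (hq : q.Prime) (hA : A.LiesOverPrime q) :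
    (beta0Spec (beta0ιF F) hq hA).valuation F ((q : ℕ) : F) = exp (-(beta0Deg A F : ℤ)) := by
  have hqne : (Ideal.span {(q : ℤ)}) ≠ ⊥ := by
    simp only [ne_eq, Ideal.span_singleton_eq_bot]
    exact_mod_cast hq.ne_zero
  haveI hqprime : (Ideal.span {(q : ℤ)}).IsPrime :=
    (Ideal.span_singleton_prime (by exact_mod_cast hq.ne_zero)).mpr (Nat.prime_iff_prime_int.mp hq)
  set v : HeightOneSpectrum ℤ := ⟨Ideal.span {(q : ℤ)}, hqprime, hqne⟩ with hv
  set w := beta0Spec (beta0ιF F) hq hA with hw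
  haveI hPmax : (beta0Prime A (beta0ιF F)).IsMaximal := beta0Prime_isMaximal (beta0ιF F) hq hA
  have hunder := beta0Prime_under_int (beta0ιF F) hq hA
  haveI hlo : (beta0Prime A (beta0ιF F)).LiesOver (Ideal.span {(q : ℤ)}) := ⟨hunder.symm⟩
  haveI : w.asIdeal.LiesOver v.asIdeal := hlo
  have h1 := HeightOneSpectrum.valuation_liesOver (K := ℚ) F v w ((q : ℕ) : ℚ)
  have h2 : v.valuation ℚ ((q : ℕ) : ℚ) = exp (-1 : ℤ) := by
    have e0 : ((q : ℕ) : ℚ) = algebraMap ℤ ℚ (q : ℤ) := by simp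
    rw [e0, HeightOneSpectrum.valuation_of_algebraMap]
    exact HeightOneSpectrum.intValuation_singleton v (by exact_mod_cast hq.ne_zero) rfl
  have h3 : (Ideal.span {(q : ℤ)}).ramificationIdx' (beta0Prime A (beta0ιF F)) = beta0Deg A F := by
    rw [Ideal.ramificationIdx'_eq_ramificationIdx (R := ℤ) (Ideal.span {(q : ℤ)})
      (beta0Prime A (beta0ιF F)) hqne]
    haveI : IsGaloisGroup (F ≃ₐ[ℚ] F) ℤ (𝓞 F) := .of_isFractionRing _ _ _ ℚ F
    rw [← ramificationIdxIn_eq_ramificationIdx (Ideal.span {(q : ℤ)})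
      (beta0Prime A (beta0ιF F)) (F ≃ₐ[ℚ] F)]
    exact (IsInertiaField.rank_left ℤ ℚ F (beta0Prime A (beta0ιF F)) (beta0T A F) hqne).symm
  have h4 : v.asIdeal.ramificationIdx' w.asIdeal = beta0Deg A F := h3
  rw [h4, h2] at h1
  have e1 : algebraMap ℚ F ((q : ℕ) : ℚ) = ((q : ℕ) : F) := by simp
  rw [e1] at h1
  rw [← h1, ← exp_nsmul]
  simp

end finiteLevel

section general

variable {A : ValuationSubring (AlgebraicClosure ℚ)}
  {K : Type*} [Field K] [NumberField K] (ι : K →+* AlgebraicClosure ℚ)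

/-- Elements of adic valuation one are units of `A`. -/
theorem beta0_valuation_eq_one_of {q : ℕ} (hq : q.Prime) (hA : A.LiesOverPrime q) {x : K}
    (hx : (beta0Spec ι hq hA).valuation K x = 1) : A.valuation (ι x) = 1 := by
  rw [beta0_valuation_eq_one_iff, beta0_mem_iff ι hq hA, beta0_mem_nonunits_iff ι hq hA, hx]
  exact ⟨le_refl _, lt_irrefl _⟩

/-- Transfer of the adic valuation to the valuation of `A`, through a uniformizer. -/
theorem beta0_valuation_eq_zpow_of {q : ℕ} (hq : q.Prime) (hA : A.LiesOverPrime q) {π : K}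
    (hπ : (beta0Spec ι hq hA).valuation K π = exp (-1 : ℤ)) {x : K} {k : ℤ}
    (hx : (beta0Spec ι hq hA).valuation K x = exp (-k)) :
    A.valuation (ι x) = A.valuation (ι π) ^ k := by
  have hπ0 : π ≠ 0 := by
    rintro rfl
    rw [map_zero] at hπ
    exact (exp_ne_zero).symm hπ
  have h1 : (beta0Spec ι hq hA).valuation K (x / π ^ k) = 1 := by
    rw [map_div₀, map_zpow₀, hx, hπ, ← exp_zsmul]
    simp
  have h2 := beta0_valuation_eq_one_of ι hq hA h1
  rw [map_div₀, map_div₀, map_zpow₀, map_zpow₀] at h2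
  have h3 : A.valuation (ι π) ^ k ≠ 0 :=
    zpow_ne_zero _ ((Valuation.ne_zero_iff _).mpr ((map_ne_zero ι).mpr hπ0))
  exact (div_eq_one_iff_eq h3).mp h2

end general

section finiteLevel

variable {A : ValuationSubring (AlgebraicClosure ℚ)}
  (F : IntermediateField ℚ (AlgebraicClosure ℚ)) [NumberField F] [IsGalois ℚ F]

/-- A uniformizer `π ∈ F`: `v π < 1`, `v π ^ n = v q` with `n = [F : T]`, and the values of `F`
are the powers of `v π`. -/
theorem beta0_exists_uniformizer {q : ℕ} (hq : q.Prime) (hA : A.LiesOverPrime q) :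
    ∃ π : F, π ≠ 0 ∧ A.valuation (π : AlgebraicClosure ℚ) < 1 ∧
      A.valuation (π : AlgebraicClosure ℚ) ^ (beta0Deg A F) =
        A.valuation (q : AlgebraicClosure ℚ) ∧
      ∀ x : F, x ≠ 0 → ∃ k : ℤ,
        A.valuation (x : AlgebraicClosure ℚ) = A.valuation (π : AlgebraicClosure ℚ) ^ k := by
  obtain ⟨π, hπ⟩ := (beta0Spec (beta0ιF F) hq hA).valuation_exists_uniformizer F
  have hπ0 : π ≠ 0 := by
    rintro rfl
    rw [map_zero] at hπ
    exact (exp_ne_zero).symm hπ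
  refine ⟨π, hπ0, ?_, ?_, ?_⟩
  · have : (beta0ιF F) π ∈ A.nonunits := by
      rw [beta0_mem_nonunits_iff (beta0ιF F) hq hA, hπ, ← exp_zero, exp_lt_exp]
      norm_num
    exact A.mem_nonunits_iff.mp this
  · have h1 := beta0_valuation_eq_zpow_of (beta0ιF F) hq hA hπ (k := (beta0Deg A F : ℤ))
      (beta0_valuation_F_q F hq hA)
    rw [zpow_natCast, map_natCast] at h1
    exact h1.symm
  · intro x hx
    have hwx : (beta0Spec (beta0ιF F) hq hA).valuation F x ≠ 0 := (Valuation.ne_zero_iff _).mpr hx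
    obtain ⟨m, hm⟩ : ∃ m : ℤ, (beta0Spec (beta0ιF F) hq hA).valuation F x = exp m :=
      ⟨log _, (exp_log hwx).symm⟩
    refine ⟨-m, ?_⟩
    exact beta0_valuation_eq_zpow_of (beta0ιF F) hq hA hπ (by rw [hm, neg_neg])

end finiteLevel

section dominant

variable {A : ValuationSubring (AlgebraicClosure ℚ)} {q : ℕ}

/-- **Dominant term** for `E₀`-combinations of the powers `π ^ i`, `i < n`, where
`v π ^ n = v q`. -/
theorem beta0_dominant (hq : q.Prime) (hA : A.LiesOverPrime q) {π : AlgebraicClosure ℚ}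
    (hπ0 : π ≠ 0) (hπ1 : A.valuation π < 1) {n : ℕ}
    (hπn : A.valuation π ^ n = A.valuation (q : AlgebraicClosure ℚ))
    (c : Fin n → AlgebraicClosure ℚ) (hc : ∀ i, c i ∈ beta0Field A) :
    (∀ i, c i = 0) ∨ ∃ j, c j ≠ 0 ∧
      A.valuation (∑ i, c i * π ^ (i : ℕ)) = A.valuation (c j * π ^ (j : ℕ)) ∧
      ∀ i, A.valuation (c i * π ^ (i : ℕ)) ≤ A.valuation (c j * π ^ (j : ℕ)) := by
  have hγ0 : 0 < A.valuation π := zero_lt_iff.mpr ((Valuation.ne_zero_iff _).mpr hπ0)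
  apply beta0_sum_dominant A.valuation hγ0 hπ1 rfl c
  intro i hi
  obtain ⟨k, hk⟩ := beta0_valuation_eq_zpow hq hA (hc i) hi
  refine ⟨k, ?_⟩
  rw [hk, ← hπn, ← zpow_natCast, ← zpow_mul]

/-- The powers `π ^ i`, `i < n`, are linearly independent over `E₀`. -/
theorem beta0_sum_eq_zero (hq : q.Prime) (hA : A.LiesOverPrime q) {π : AlgebraicClosure ℚ}
    (hπ0 : π ≠ 0) (hπ1 : A.valuation π < 1) {n : ℕ}
    (hπn : A.valuation π ^ n = A.valuation (q : AlgebraicClosure ℚ))
    (c : Fin n → AlgebraicClosure ℚ) (hc : ∀ i, c i ∈ beta0Field A)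
    (hsum : ∑ i, c i * π ^ (i : ℕ) = 0) : ∀ i, c i = 0 := by
  rcases beta0_dominant hq hA hπ0 hπ1 hπn c hc with h | ⟨j, hj, hv, -⟩
  · exact h
  · exfalso
    rw [hsum, map_zero] at hv
    have := (Valuation.zero_iff _).mp hv.symm
    exact (mul_ne_zero hj (pow_ne_zero _ hπ0)) this

/-- The value of a nonzero `E₀`-combination of the `π ^ i` is a power of `v π`. -/
theorem beta0_sum_valuation (hq : q.Prime) (hA : A.LiesOverPrime q) {π : AlgebraicClosure ℚ}
    (hπ0 : π ≠ 0) (hπ1 : A.valuation π < 1) {n : ℕ}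
    (hπn : A.valuation π ^ n = A.valuation (q : AlgebraicClosure ℚ))
    (c : Fin n → AlgebraicClosure ℚ) (hc : ∀ i, c i ∈ beta0Field A)
    (hsum : ∑ i, c i * π ^ (i : ℕ) ≠ 0) :
    ∃ m : ℤ, A.valuation (∑ i, c i * π ^ (i : ℕ)) = A.valuation π ^ m := by
  rcases beta0_dominant hq hA hπ0 hπ1 hπn c hc with h | ⟨j, hj, hv, -⟩
  · exfalso
    apply hsum
    apply Finset.sum_eq_zero
    intro i _
    rw [h i, zero_mul]
  · obtain ⟨k, hk⟩ := beta0_valuation_eq_zpow hq hA (hc j) hj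
    refine ⟨(n : ℤ) * k + (j : ℕ), ?_⟩
    have hγ0 : A.valuation π ≠ 0 := (Valuation.ne_zero_iff _).mpr hπ0
    rw [hv, map_mul, map_pow, hk, ← hπn, ← zpow_natCast, ← zpow_mul, zpow_add₀ hγ0, zpow_natCast]

/-- **Integrality of the coefficients**: if an `E₀`-combination of the `π ^ i`, `i < n`, lies in
`A`, all its coefficients lie in `A`. -/
theorem beta0_coeff_mem (hq : q.Prime) (hA : A.LiesOverPrime q) {π : AlgebraicClosure ℚ}
    (hπ0 : π ≠ 0) (hπ1 : A.valuation π < 1) {n : ℕ}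
    (hπn : A.valuation π ^ n = A.valuation (q : AlgebraicClosure ℚ))
    (c : Fin n → AlgebraicClosure ℚ) (hc : ∀ i, c i ∈ beta0Field A)
    (hsum : ∑ i, c i * π ^ (i : ℕ) ∈ A) : ∀ i, c i ∈ A := by
  intro i
  rcases beta0_dominant hq hA hπ0 hπ1 hπn c hc with h | ⟨j, hj, hv, hle⟩
  · rw [h i]
    exact zero_mem _
  · rcases eq_or_ne (c i) 0 with h0 | h0
    · rw [h0]
      exact zero_mem _
    have hγ0 : 0 < A.valuation π := zero_lt_iff.mpr ((Valuation.ne_zero_iff _).mpr hπ0)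
    obtain ⟨k, hk⟩ := beta0_valuation_eq_zpow hq hA (hc i) h0
    have h1 : A.valuation (c i * π ^ (i : ℕ)) ≤ 1 := by
      refine (hle i).trans ?_
      rw [← hv]
      exact (A.valuation_le_one_iff _).mpr hsum
    have h2 : A.valuation (c i * π ^ (i : ℕ)) = A.valuation π ^ ((n : ℤ) * k + (i : ℕ)) := by
      rw [map_mul, map_pow, hk, ← hπn, ← zpow_natCast, ← zpow_mul, zpow_add₀ hγ0.ne',
        zpow_natCast]
    rw [h2, zpow_le_one_iff_right_of_lt_one₀ hγ0 hπ1] at h1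
    have hi_lt : ((i : ℕ) : ℤ) < n := by exact_mod_cast i.2
    have hk0 : 0 ≤ k := by
      by_contra hneg
      rw [not_le] at hneg
      have : (n : ℤ) * k ≤ (n : ℤ) * (-1) :=
        mul_le_mul_of_nonneg_left (by omega) (by positivity)
      omega
    rw [← A.valuation_le_one_iff, hk, ← hπn, ← zpow_natCast, ← zpow_mul,
      zpow_le_one_iff_right_of_lt_one₀ hγ0 hπ1]
    positivity

end dominant

section span

variable {A : ValuationSubring (AlgebraicClosure ℚ)}
  (F : IntermediateField ℚ (AlgebraicClosure ℚ)) [NumberField F] [IsGalois ℚ F]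

/-- `F = ⊕_{i<n} T π^i`. -/
theorem beta0_F_span {q : ℕ} (hq : q.Prime) (hA : A.LiesOverPrime q) {π : F} (hπ0 : π ≠ 0)
    (hπ1 : A.valuation (π : AlgebraicClosure ℚ) < 1)
    (hπn : A.valuation (π : AlgebraicClosure ℚ) ^ (beta0Deg A F) =
      A.valuation (q : AlgebraicClosure ℚ)) (x : F) :
    ∃ c : Fin (beta0Deg A F) → beta0T A F, x = ∑ i, (c i : F) * π ^ (i : ℕ) := by
  have hπ0' : (π : AlgebraicClosure ℚ) ≠ 0 := by simpa using hπ0
  have hli : LinearIndependent (beta0T A F) (fun i : Fin (beta0Deg A F) => π ^ (i : ℕ)) := by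
    rw [Fintype.linearIndependent_iff]
    intro g hg i
    have hsum : ∑ i, ((g i : F) : AlgebraicClosure ℚ) * (π : AlgebraicClosure ℚ) ^ (i : ℕ)
        = 0 := by
      have := congrArg (fun z : F => (z : AlgebraicClosure ℚ)) hg
      simpa [Algebra.smul_def] using this
    have := beta0_sum_eq_zero hq hA hπ0' hπ1 hπn (fun i => ((g i : F) : AlgebraicClosure ℚ))
      (fun i => beta0_T_le A F (g i) (g i).2) hsum i
    simpa using this
  have hspan := hli.span_eq_top_of_card_eq_finrank' (by rw [Fintype.card_fin]; rfl)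
  have hx : x ∈ Submodule.span (beta0T A F)
      (Set.range fun i : Fin (beta0Deg A F) => π ^ (i : ℕ)) := by
    rw [hspan]
    trivial
  obtain ⟨c, hc⟩ := (Submodule.mem_span_range_iff_exists_fun _).mp hx
  refine ⟨c, ?_⟩
  rw [← hc]
  simp [Algebra.smul_def]

/-- `E₀ ⊔ F = ⊕_{i<n} E₀ π^i`. -/
theorem beta0_sup_span {q : ℕ} (hq : q.Prime) (hA : A.LiesOverPrime q) {π : F} (hπ0 : π ≠ 0)
    (hπ1 : A.valuation (π : AlgebraicClosure ℚ) < 1)
    (hπn : A.valuation (π : AlgebraicClosure ℚ) ^ (beta0Deg A F) =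
      A.valuation (q : AlgebraicClosure ℚ)) {x : AlgebraicClosure ℚ}
    (hx : x ∈ beta0Field A ⊔ F) :
    ∃ c : Fin (beta0Deg A F) → AlgebraicClosure ℚ, (∀ i, c i ∈ beta0Field A) ∧
      x = ∑ i, c i * (π : AlgebraicClosure ℚ) ^ (i : ℕ) := by
  have h1 : x ∈ (beta0Field A ⊔ F).toSubalgebra := hx
  rw [IntermediateField.sup_toSubalgebra_of_isAlgebraic_right, ← Subalgebra.mem_toSubmodule,
    ← Subalgebra.mul_toSubmodule] at h1
  refine Submodule.mul_induction_on h1 ?_ ?_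
  · intro m hm f hf
    obtain ⟨c, hc⟩ := beta0_F_span F hq hA hπ0 hπ1 hπn ⟨f, hf⟩
    refine ⟨fun i => m * ((c i : F) : AlgebraicClosure ℚ),
      fun i => mul_mem hm (beta0_T_le A F _ (c i).2), ?_⟩
    have h2 := congrArg (fun z : F => (z : AlgebraicClosure ℚ)) hc
    simp only [AddSubmonoidClass.coe_finsetSum, MulMemClass.coe_mul,
      SubmonoidClass.coe_pow] at h2
    rw [h2, Finset.mul_sum]
    apply Finset.sum_congr rfl
    intro i _
    ring
  · rintro y z ⟨c, hc, rfl⟩ ⟨d, hd, rfl⟩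
    refine ⟨fun i => c i + d i, fun i => add_mem (hc i) (hd i), ?_⟩
    rw [← Finset.sum_add_distrib]
    apply Finset.sum_congr rfl
    intro i _
    ring

end span

section sup

variable {A : ValuationSubring (AlgebraicClosure ℚ)}
  (F : IntermediateField ℚ (AlgebraicClosure ℚ)) [NumberField F] [IsGalois ℚ F]

/-- The value group of `E' = E₀ ⊔ F` is generated by the value of the uniformizer `π`. -/
theorem beta0_sup_valuation_eq_zpow {q : ℕ} (hq : q.Prime) (hA : A.LiesOverPrime q) {π : F}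
    (hπ0 : π ≠ 0) (hπ1 : A.valuation (π : AlgebraicClosure ℚ) < 1)
    (hπn : A.valuation (π : AlgebraicClosure ℚ) ^ (beta0Deg A F) =
      A.valuation (q : AlgebraicClosure ℚ)) {x : AlgebraicClosure ℚ}
    (hx : x ∈ beta0Field A ⊔ F) (hx0 : x ≠ 0) :
    ∃ m : ℤ, A.valuation x = A.valuation (π : AlgebraicClosure ℚ) ^ m := by
  have hπ0' : (π : AlgebraicClosure ℚ) ≠ 0 := by simpa using hπ0
  obtain ⟨c, hc, rfl⟩ := beta0_sup_span F hq hA hπ0 hπ1 hπn hx
  exact beta0_sum_valuation hq hA hπ0' hπ1 hπn c hc hx0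

/-- **`A' = ⊕_{i<n} A₀ π^i`**: every element of `A ∩ E'` is a combination of the `π ^ i`, `i < n`,
with coefficients in `A ∩ E₀`. -/
theorem beta0_sup_decomp {q : ℕ} (hq : q.Prime) (hA : A.LiesOverPrime q) {π : F}
    (hπ0 : π ≠ 0) (hπ1 : A.valuation (π : AlgebraicClosure ℚ) < 1)
    (hπn : A.valuation (π : AlgebraicClosure ℚ) ^ (beta0Deg A F) =
      A.valuation (q : AlgebraicClosure ℚ)) {x : AlgebraicClosure ℚ}
    (hx : x ∈ beta0Field A ⊔ F) (hxA : x ∈ A) :
    ∃ c : Fin (beta0Deg A F) → AlgebraicClosure ℚ, (∀ i, c i ∈ beta0Field A ∧ c i ∈ A) ∧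
      x = ∑ i, c i * (π : AlgebraicClosure ℚ) ^ (i : ℕ) := by
  have hπ0' : (π : AlgebraicClosure ℚ) ≠ 0 := by simpa using hπ0
  obtain ⟨c, hc, rfl⟩ := beta0_sup_span F hq hA hπ0 hπ1 hπn hx
  exact ⟨c, fun i => ⟨hc i, beta0_coeff_mem hq hA hπ0' hπ1 hπn c hc hxA i⟩, rfl⟩

/-- **`π` is a uniformizer of `A' = A ∩ E'`**. -/
theorem beta0_sup_div_mem {q : ℕ} (hq : q.Prime) (hA : A.LiesOverPrime q) {π : F}
    (hπ0 : π ≠ 0) (hπ1 : A.valuation (π : AlgebraicClosure ℚ) < 1)
    (hπn : A.valuation (π : AlgebraicClosure ℚ) ^ (beta0Deg A F) =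
      A.valuation (q : AlgebraicClosure ℚ)) {x : AlgebraicClosure ℚ}
    (hx : x ∈ beta0Field A ⊔ F) (hxA : x ∈ A.nonunits) :
    x / (π : AlgebraicClosure ℚ) ∈ A := by
  have hπ0' : (π : AlgebraicClosure ℚ) ≠ 0 := by simpa using hπ0
  have hγ0 : 0 < A.valuation (π : AlgebraicClosure ℚ) :=
    zero_lt_iff.mpr ((Valuation.ne_zero_iff _).mpr hπ0')
  rcases eq_or_ne x 0 with rfl | hx0
  · rw [zero_div]
    exact zero_mem _
  obtain ⟨m, hm⟩ := beta0_sup_valuation_eq_zpow F hq hA hπ0 hπ1 hπn hx hx0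
  have h1 : A.valuation x < 1 := A.mem_nonunits_iff.mp hxA
  rw [hm, ← zpow_zero (A.valuation (π : AlgebraicClosure ℚ)),
    zpow_lt_zpow_iff_right_of_lt_one₀ hγ0 hπ1] at h1
  rw [← A.valuation_le_one_iff, map_div₀, hm, div_eq_mul_inv, ← zpow_sub_one₀ hγ0.ne',
    zpow_le_one_iff_right_of_lt_one₀ hγ0 hπ1]
  omega

/-- **`A' = A ∩ E'` is a discrete valuation ring**, `E' = E₀ ⊔ F`. -/
theorem beta0_sup_isDVR {q : ℕ} (hq : q.Prime) (hA : A.LiesOverPrime q) :
    IsDiscreteValuationRing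
      (A.comap (algebraMap (↥(beta0Field A ⊔ F)) (AlgebraicClosure ℚ))) := by
  obtain ⟨π, hπ0, hπ1, hπn, -⟩ := beta0_exists_uniformizer (A := A) F hq hA
  have hπE : (π : AlgebraicClosure ℚ) ∈ beta0Field A ⊔ F :=
    (le_sup_right : F ≤ beta0Field A ⊔ F) π.2
  apply beta0_isDVR_of_uniformizer A (algebraMap (↥(beta0Field A ⊔ F)) (AlgebraicClosure ℚ))
    ⟨(π : AlgebraicClosure ℚ), hπE⟩
  · intro h
    apply hπ0
    have := congrArg (fun z : ↥(beta0Field A ⊔ F) => (z : AlgebraicClosure ℚ)) h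
    simpa using this
  · exact hπ1
  · intro x hx
    exact beta0_sup_valuation_eq_zpow F hq hA hπ0 hπ1 hπn x.2 (by simpa using hx)

/-- The inertia group stabilises `E' = E₀ ⊔ F`. -/
theorem beta0_sup_apply_mem {σ : AlgebraicClosure ℚ ≃ₐ[ℚ] AlgebraicClosure ℚ}
    (hσ : σ ∈ A.inertiaSubgroupIn ℚ) {x : AlgebraicClosure ℚ} (hx : x ∈ beta0Field A ⊔ F) :
    σ x ∈ beta0Field A ⊔ F := by
  haveI := Fermat.Agent.Common.isAlgClosure_rat_qbar
  have h1 : x ∈ (beta0Field A ⊔ F).toSubalgebra := hx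
  rw [IntermediateField.sup_toSubalgebra_of_isAlgebraic_right, ← Subalgebra.mem_toSubmodule,
    ← Subalgebra.mul_toSubmodule] at h1
  refine Submodule.mul_induction_on h1 ?_ ?_
  · intro m hm f hf
    rw [map_mul]
    apply mul_mem
    · rw [mem_beta0Field.mp hm σ hσ]
      exact (le_sup_left : beta0Field A ≤ beta0Field A ⊔ F) hm
    · have := AlgEquiv.restrictNormal_commutes σ F ⟨f, hf⟩
      have h2 : σ f = ((AlgEquiv.restrictNormal σ F ⟨f, hf⟩ : F) : AlgebraicClosure ℚ) :=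
        this.symm
      rw [h2]
      exact (le_sup_right : F ≤ beta0Field A ⊔ F) (AlgEquiv.restrictNormal σ F ⟨f, hf⟩).2
  · intro y z hy hz
    rw [map_add]
    exact add_mem hy hz

/-- **Summary** for `E' = E₀ ⊔ F`, `F / ℚ` finite Galois, `n = [F : F ∩ E₀]`: there is a
uniformizer `π ∈ F` with `v π ^ n = v q`, such that `E' = ⊕_{i<n} E₀ π^i`,
`A ∩ E' = ⊕_{i<n} (A ∩ E₀) π^i`, and the values of `E'` are the powers of `v π`. -/
theorem beta0_sup_main {q : ℕ} (hq : q.Prime) (hA : A.LiesOverPrime q) :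
    ∃ π : AlgebraicClosure ℚ, π ∈ F ∧ π ≠ 0 ∧ A.valuation π < 1 ∧
      A.valuation π ^ (beta0Deg A F) = A.valuation (q : AlgebraicClosure ℚ) ∧
      (∀ x ∈ beta0Field A ⊔ F, x ≠ 0 → ∃ m : ℤ, A.valuation x = A.valuation π ^ m) ∧
      (∀ x ∈ beta0Field A ⊔ F, x ∈ A.nonunits → x / π ∈ A) ∧
      (∀ x ∈ beta0Field A ⊔ F, ∃ c : Fin (beta0Deg A F) → AlgebraicClosure ℚ,
        (∀ i, c i ∈ beta0Field A) ∧ x = ∑ i, c i * π ^ (i : ℕ) ∧ (x ∈ A → ∀ i, c i ∈ A)) ∧
      (∀ c : Fin (beta0Deg A F) → AlgebraicClosure ℚ, (∀ i, c i ∈ beta0Field A) →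
        ∑ i, c i * π ^ (i : ℕ) = 0 → ∀ i, c i = 0) := by
  obtain ⟨π, hπ0, hπ1, hπn, -⟩ := beta0_exists_uniformizer (A := A) F hq hA
  have hπ0' : (π : AlgebraicClosure ℚ) ≠ 0 := by simpa using hπ0
  refine ⟨π, π.2, hπ0', hπ1, hπn, ?_, ?_, ?_, ?_⟩
  · intro x hx hx0
    exact beta0_sup_valuation_eq_zpow F hq hA hπ0 hπ1 hπn hx hx0
  · intro x hx hxA
    exact beta0_sup_div_mem F hq hA hπ0 hπ1 hπn hx hxA
  · intro x hx
    obtain ⟨c, hc, rfl⟩ := beta0_sup_span F hq hA hπ0 hπ1 hπn hx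
    exact ⟨c, hc, rfl, fun hxA => beta0_coeff_mem hq hA hπ0' hπ1 hπn c hc hxA⟩
  · intro c hc hsum
    exact beta0_sum_eq_zero hq hA hπ0' hπ1 hπn c hc hsum

end sup

end Fermat.Agent.UNIP


end ZBUNIP_006_5

/-! ### bundled: `Fermat.Agent.UNIP.Beta0Pkg` -/
section ZBUNIP_006_6

/-!
# UNIP piece U10 (`Beta0`), part 6: TYPE form (for the modular glue MG-5 / the abstract theorem AT)

`A` is a valuation subring of `ℚ̄` over `q`, `K₀` an intermediate field of `ℚ̄ / ℚ`.
`beta0Ring A K₀ = A ∩ K₀` as a `ValuationSubring ↥K₀` (so `IsFractionRing (beta0Ring A K₀) K₀`,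
`IsDomain`, `ValuationRing`, `IsLocalRing` are Mathlib instances).

* `beta0Ring_isUnit_iff`, `beta0Ring_mem_maximalIdeal_iff`, `beta0Ring_dvd_iff`;
* `beta0Ring_hunit` : units are `M`-th powers (`E₀ ≤ K₀`, `q ∤ M`);  `beta0Ring_hpu`;
  `beta0Ring_exists_primitiveRoot`;
* `beta0Ring_isDVR_base`, `beta0Ring_irreducible_q` (`K₀ = E₀`);
* `beta0Ring_isDVR_sup`, `beta0Ring_sup_exists_irreducible` (`K₀ = E₀ ⊔ F`);
* `beta0RingIncl`, `beta0Ring_exists_residue`, `beta0Ring_sup_exists_poly`;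
* `beta0FieldAlgebra` (`Algebra K₁ K₂` for `K₁ ≤ K₂`, use with `letI`), `beta0_sup_adjoin_eq_top`
  (`E' = E₀[π']`), `beta0FieldAlgebra_isAlgebraic`.
-/

set_option autoImplicit false
set_option linter.style.haveILetI false
set_option linter.unusedSectionVars false

open scoped NumberField Pointwise
open Ideal MulAction IsDedekindDomain WithZero Polynomial

namespace Fermat.Agent.UNIP

section generic

variable {L : Type*} [Field L] (A : ValuationSubring L) {E : Type*} [Field E] (ι : E →+* L)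

/-- Units of `A ∩ E` are the elements of value one. -/
theorem beta0_comap_isUnit_iff (x : A.comap ι) : IsUnit x ↔ A.valuation (ι (x : E)) = 1 := by
  have hle : ∀ x : A.comap ι, A.valuation (ι (x : E)) ≤ 1 := fun x =>
    (A.valuation_le_one_iff _).mpr x.2
  constructor
  · intro hx
    obtain ⟨y, hy⟩ := hx.exists_right_inv
    have h1 : A.valuation (ι (x : E)) * A.valuation (ι (y : E)) = 1 := by
      rw [← map_mul, ← map_mul]
      have : (x : E) * (y : E) = 1 := by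
        have := congrArg (fun z : A.comap ι => (z : E)) hy
        simpa using this
      rw [this, map_one, map_one]
    apply le_antisymm (hle x)
    by_contra hlt
    rw [not_le] at hlt
    have : A.valuation (ι (x : E)) * A.valuation (ι (y : E)) < 1 := by
      calc A.valuation (ι (x : E)) * A.valuation (ι (y : E))
          ≤ A.valuation (ι (x : E)) * 1 := mul_le_mul_right (hle y) _
        _ = A.valuation (ι (x : E)) := mul_one _
        _ < 1 := hlt
    rw [h1] at this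
    exact lt_irrefl _ this
  · intro hx
    have hx0 : (x : E) ≠ 0 := by
      intro h0
      rw [h0, map_zero, map_zero] at hx
      exact zero_ne_one hx
    have hinv : (x : E)⁻¹ ∈ A.comap ι := by
      rw [ValuationSubring.mem_comap, ← A.valuation_le_one_iff, map_inv₀, map_inv₀, hx, inv_one]
    refine IsUnit.of_mul_eq_one ⟨(x : E)⁻¹, hinv⟩ ?_
    apply Subtype.ext
    simp [hx0]

/-- The maximal ideal of `A ∩ E` is `𝔪_A ∩ E`. -/
theorem beta0_comap_mem_maximalIdeal_iff (x : A.comap ι) :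
    x ∈ IsLocalRing.maximalIdeal (A.comap ι) ↔ ι (x : E) ∈ A.nonunits := by
  rw [IsLocalRing.mem_maximalIdeal, mem_nonunits_iff, beta0_comap_isUnit_iff,
    A.mem_nonunits_iff]
  have hle : A.valuation (ι (x : E)) ≤ 1 := (A.valuation_le_one_iff _).mpr x.2
  exact ⟨fun h => lt_of_le_of_ne hle h, fun h => h.ne⟩

/-- Divisibility in `A ∩ E`. -/
theorem beta0_comap_dvd_iff (π x : A.comap ι) (hπ0 : (π : E) ≠ 0) :
    π ∣ x ↔ ι (x : E) / ι (π : E) ∈ A := by
  constructor
  · rintro ⟨c, rfl⟩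
    have : ι ((π * c : A.comap ι) : E) / ι (π : E) = ι (c : E) := by
      have hπ0' : ι (π : E) ≠ 0 := (map_ne_zero ι).mpr hπ0
      simp only [MulMemClass.coe_mul, map_mul]
      field_simp
    rw [this]
    exact c.2
  · intro h
    have hmem : (x : E) / (π : E) ∈ A.comap ι := by
      rw [ValuationSubring.mem_comap, map_div₀]
      exact h
    refine ⟨⟨(x : E) / (π : E), hmem⟩, ?_⟩
    apply Subtype.ext
    simp only [MulMemClass.coe_mul]
    field_simp

/-- A uniformizer of `A ∩ E` is irreducible. -/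
theorem beta0_comap_irreducible (π : A.comap ι) (hπ0 : (π : E) ≠ 0)
    (hπ1 : A.valuation (ι (π : E)) < 1)
    (hunif : ∀ x : E, ι x ∈ A.nonunits → ι x / ι (π : E) ∈ A) : Irreducible π := by
  refine ⟨fun hu => ?_, ?_⟩
  · rw [beta0_comap_isUnit_iff] at hu
    rw [hu] at hπ1
    exact lt_irrefl _ hπ1
  · intro a b hab
    by_cases ha : IsUnit a
    · exact Or.inl ha
    right
    have ha' : ι (a : E) ∈ A.nonunits := by
      rw [← beta0_comap_mem_maximalIdeal_iff, IsLocalRing.mem_maximalIdeal, mem_nonunits_iff]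
      exact ha
    obtain ⟨c, hc⟩ := (beta0_comap_dvd_iff A ι π a hπ0).mpr (hunif _ ha')
    have hπ0' : π ≠ 0 := fun h => hπ0 (by rw [h]; rfl)
    have h1 : π * 1 = π * (c * b) := by
      rw [mul_one, ← mul_assoc, ← hc]
      exact hab
    have h2 : c * b = 1 := (mul_left_cancel₀ hπ0' h1).symm
    exact IsUnit.of_mul_eq_one c (by rw [mul_comm]; exact h2)

end generic

section ring

variable (A : ValuationSubring (AlgebraicClosure ℚ)) (K₀ : IntermediateField ℚ (AlgebraicClosure ℚ))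

/-- `A ∩ K₀` as a valuation subring of `K₀`. -/
noncomputable abbrev beta0Ring : ValuationSubring K₀ :=
  A.comap (algebraMap K₀ (AlgebraicClosure ℚ))

variable {A K₀}

theorem mem_beta0Ring (x : K₀) : x ∈ beta0Ring A K₀ ↔ (x : AlgebraicClosure ℚ) ∈ A := Iff.rfl

theorem beta0Ring_isUnit_iff (x : beta0Ring A K₀) :
    IsUnit x ↔ A.valuation (((x : K₀) : AlgebraicClosure ℚ)) = 1 :=
  beta0_comap_isUnit_iff A _ x

theorem beta0Ring_mem_maximalIdeal_iff (x : beta0Ring A K₀) :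
    x ∈ IsLocalRing.maximalIdeal (beta0Ring A K₀) ↔
      ((x : K₀) : AlgebraicClosure ℚ) ∈ A.nonunits :=
  beta0_comap_mem_maximalIdeal_iff A _ x

theorem beta0Ring_dvd_iff (π x : beta0Ring A K₀) (hπ0 : π ≠ 0) :
    π ∣ x ↔ ((x : K₀) : AlgebraicClosure ℚ) / ((π : K₀) : AlgebraicClosure ℚ) ∈ A :=
  beta0_comap_dvd_iff A _ π x (fun h => hπ0 (Subtype.ext h))

/-- Inclusion `A ∩ K₁ → A ∩ K₂` for `K₁ ≤ K₂`. -/
noncomputable def beta0RingIncl {K₁ K₂ : IntermediateField ℚ (AlgebraicClosure ℚ)}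
    (h : K₁ ≤ K₂) : beta0Ring A K₁ →+* beta0Ring A K₂ where
  toFun x := ⟨⟨((x : K₁) : AlgebraicClosure ℚ), h (x : K₁).2⟩, x.2⟩
  map_one' := rfl
  map_mul' _ _ := rfl
  map_zero' := rfl
  map_add' _ _ := rfl

@[simp] theorem beta0RingIncl_coe {K₁ K₂ : IntermediateField ℚ (AlgebraicClosure ℚ)}
    (h : K₁ ≤ K₂) (x : beta0Ring A K₁) :
    (((beta0RingIncl h x : beta0Ring A K₂) : K₂) : AlgebraicClosure ℚ) =
      ((x : K₁) : AlgebraicClosure ℚ) := rfl

theorem beta0RingIncl_injective {K₁ K₂ : IntermediateField ℚ (AlgebraicClosure ℚ)}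
    (h : K₁ ≤ K₂) : Function.Injective (beta0RingIncl (A := A) h) := by
  intro x y hxy
  apply Subtype.ext
  apply Subtype.ext
  have := congrArg (fun z : beta0Ring A K₂ => ((z : K₂) : AlgebraicClosure ℚ)) hxy
  simpa using this

variable {q : ℕ}

/-- **hunit**: units of `A ∩ K₀` are `M`-th powers (`E₀ ≤ K₀`, `M` prime to `q`). -/
theorem beta0Ring_hunit (hq : q.Prime) (hA : A.LiesOverPrime q) (hE : beta0Field A ≤ K₀)
    {M : ℕ} (hM0 : M ≠ 0) (hM : (M : AlgebraicClosure ℚ) ∉ A.nonunits) :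
    ∀ a : beta0Ring A K₀, IsUnit a → ∃ d : beta0Ring A K₀, d ^ M = a := by
  intro a ha
  rw [beta0Ring_isUnit_iff] at ha
  obtain ⟨d, hdK, hdv, hd⟩ := beta0_exists_root hq hA K₀ hE hM0 hM (a : K₀).2 ha
  have hdA : d ∈ A := ((beta0_valuation_eq_one_iff A d).mp hdv).1
  refine ⟨⟨⟨d, hdK⟩, hdA⟩, ?_⟩
  apply Subtype.ext
  apply Subtype.ext
  simpa using hd

/-- **hpu**: an integer prime to `q` is a unit of `A ∩ K₀`. -/
theorem beta0Ring_hpu {M : ℕ} (hM : (M : AlgebraicClosure ℚ) ∉ A.nonunits) :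
    IsUnit ((M : ℕ) : beta0Ring A K₀) := by
  rw [beta0Ring_isUnit_iff, beta0_valuation_eq_one_iff]
  refine ⟨?_, ?_⟩
  · have : ((((M : ℕ) : beta0Ring A K₀) : K₀) : AlgebraicClosure ℚ) = (M : AlgebraicClosure ℚ) := by
      simp
    rw [this]
    exact natCast_mem A M
  · have : ((((M : ℕ) : beta0Ring A K₀) : K₀) : AlgebraicClosure ℚ) = (M : AlgebraicClosure ℚ) := by
      simp
    rw [this]
    exact hM

/-- **hζ**: `A ∩ K₀` contains a primitive `M`-th root of unity (`E₀ ≤ K₀`, `M` prime to `q`). -/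
theorem beta0Ring_exists_primitiveRoot (hE : beta0Field A ≤ K₀)
    {M : ℕ} (hM0 : M ≠ 0) (hM : (M : AlgebraicClosure ℚ) ∉ A.nonunits) :
    ∃ ζ : beta0Ring A K₀, IsPrimitiveRoot ζ M := by
  have hMne : (M : AlgebraicClosure ℚ) ≠ 0 := by exact_mod_cast hM0
  haveI : NeZero (M : AlgebraicClosure ℚ) := ⟨hMne⟩
  obtain ⟨ζ₀, hζ₀⟩ := HasEnoughRootsOfUnity.exists_primitiveRoot (AlgebraicClosure ℚ) M
  have hζM : ζ₀ ^ M = 1 := hζ₀.pow_eq_one
  have hζA : ζ₀ ∈ A := Fermat.Agent.S31.rootOfUnity_mem A hM0 hζM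
  have hζE : ζ₀ ∈ beta0Field A := by
    rw [mem_beta0Field]
    intro σ hσ
    exact Fermat.Agent.S31.inertia_rootOfUnity A hM hM0 hσ hζM
  refine ⟨⟨⟨ζ₀, hE hζE⟩, hζA⟩, ?_⟩
  have hinj : Function.Injective
      ((algebraMap K₀ (AlgebraicClosure ℚ)).comp (beta0Ring A K₀).subtype) := by
    intro x y hxy
    apply Subtype.ext
    apply Subtype.ext
    exact hxy
  exact IsPrimitiveRoot.of_map_of_injective (f := (algebraMap K₀ (AlgebraicClosure ℚ)).comp
    (beta0Ring A K₀).subtype) hζ₀ hinj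

/-- **Residue fields agree**: every element of `A ∩ K₀` is congruent to an element of `A ∩ E₀`
modulo the maximal ideal. -/
theorem beta0Ring_exists_residue (hq : q.Prime) (hA : A.LiesOverPrime q)
    (hE : beta0Field A ≤ K₀) (x : beta0Ring A K₀) :
    ∃ a : beta0Ring A (beta0Field A),
      x - beta0RingIncl hE a ∈ IsLocalRing.maximalIdeal (beta0Ring A K₀) := by
  obtain ⟨b, hbE, hbA, hb⟩ := beta0_exists_residue hq hA (a := ((x : K₀) : AlgebraicClosure ℚ)) x.2
  refine ⟨⟨⟨b, hbE⟩, hbA⟩, ?_⟩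
  rw [beta0Ring_mem_maximalIdeal_iff]
  exact hb

/-- `A ∩ E₀` is a DVR (type form of `beta0_isDVR`). -/
theorem beta0Ring_isDVR_base (hq : q.Prime) (hA : A.LiesOverPrime q) :
    IsDiscreteValuationRing (beta0Ring A (beta0Field A)) :=
  beta0_isDVR hq hA

/-- `q` is irreducible in `A ∩ E₀`. -/
theorem beta0Ring_irreducible_q (hq : q.Prime) (hA : A.LiesOverPrime q) :
    Irreducible ((q : ℕ) : beta0Ring A (beta0Field A)) := by
  have e1 : ((((q : ℕ) : beta0Ring A (beta0Field A)) : beta0Field A) : AlgebraicClosure ℚ) =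
      (q : AlgebraicClosure ℚ) := by simp
  apply beta0_comap_irreducible A _ _
  · intro h
    have h2 := congrArg (fun z : beta0Field A => (z : AlgebraicClosure ℚ)) h
    simp only [e1] at h2
    have : (q : AlgebraicClosure ℚ) ≠ 0 := by exact_mod_cast hq.ne_zero
    exact this (by simpa using h2)
  · show A.valuation ((((q : ℕ) : beta0Ring A (beta0Field A)) : beta0Field A) :
        AlgebraicClosure ℚ) < 1
    rw [e1]
    exact A.mem_nonunits_iff.mp hA
  · intro x hx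
    show (x : AlgebraicClosure ℚ) /
      ((((q : ℕ) : beta0Ring A (beta0Field A)) : beta0Field A) : AlgebraicClosure ℚ) ∈ A
    rw [e1]
    exact beta0_div_mem hq hA x.2 hx

end ring

section sup

variable {A : ValuationSubring (AlgebraicClosure ℚ)}
  (F : IntermediateField ℚ (AlgebraicClosure ℚ)) [NumberField F] [IsGalois ℚ F] {q : ℕ}

/-- `A ∩ (E₀ ⊔ F)` is a DVR (type form of `beta0_sup_isDVR`). -/
theorem beta0Ring_isDVR_sup (hq : q.Prime) (hA : A.LiesOverPrime q) :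
    IsDiscreteValuationRing (beta0Ring A (beta0Field A ⊔ F)) :=
  beta0_sup_isDVR F hq hA

/-- **Uniformizer of `A' = A ∩ (E₀ ⊔ F)`** in type form: `π' : A'` irreducible, lying in `F`,
with `v π' ^ n = v q` (`n = beta0Deg A F`), `π' ^ n ∣ q` and `q ∣ π' ^ n` in `A'`. -/
theorem beta0Ring_sup_exists_irreducible (hq : q.Prime) (hA : A.LiesOverPrime q) :
    ∃ π : beta0Ring A (beta0Field A ⊔ F), Irreducible π ∧
      (((π : ↥(beta0Field A ⊔ F)) : AlgebraicClosure ℚ) ∈ F) ∧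
      A.valuation (((π : ↥(beta0Field A ⊔ F)) : AlgebraicClosure ℚ)) ^ (beta0Deg A F) =
        A.valuation (q : AlgebraicClosure ℚ) ∧
      π ^ (beta0Deg A F) ∣ ((q : ℕ) : beta0Ring A (beta0Field A ⊔ F)) ∧
      ((q : ℕ) : beta0Ring A (beta0Field A ⊔ F)) ∣ π ^ (beta0Deg A F) := by
  obtain ⟨π, hπ0, hπ1, hπn, -⟩ := beta0_exists_uniformizer (A := A) F hq hA
  have hπE : (π : AlgebraicClosure ℚ) ∈ beta0Field A ⊔ F :=
    (le_sup_right : F ≤ beta0Field A ⊔ F) π.2
  have hπA : (π : AlgebraicClosure ℚ) ∈ A := (A.valuation_le_one_iff _).mp hπ1.le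
  have hπ0' : (π : AlgebraicClosure ℚ) ≠ 0 := by simpa using hπ0
  set ϖ : beta0Ring A (beta0Field A ⊔ F) := ⟨⟨(π : AlgebraicClosure ℚ), hπE⟩, hπA⟩ with hϖ
  have hϖ0 : ϖ ≠ 0 := by
    intro h
    apply hπ0'
    have := congrArg (fun z : beta0Ring A (beta0Field A ⊔ F) =>
      ((z : ↥(beta0Field A ⊔ F)) : AlgebraicClosure ℚ)) h
    simpa [hϖ] using this
  have hq0 : (q : AlgebraicClosure ℚ) ≠ 0 := by exact_mod_cast hq.ne_zero
  have hqne : ((q : ℕ) : beta0Ring A (beta0Field A ⊔ F)) ≠ 0 := by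
    exact_mod_cast hq.ne_zero
  have e1 : ((((q : ℕ) : beta0Ring A (beta0Field A ⊔ F)) : ↥(beta0Field A ⊔ F)) :
      AlgebraicClosure ℚ) = (q : AlgebraicClosure ℚ) := by simp
  have e2 : (((ϖ ^ (beta0Deg A F) : beta0Ring A (beta0Field A ⊔ F)) : ↥(beta0Field A ⊔ F)) :
      AlgebraicClosure ℚ) = (π : AlgebraicClosure ℚ) ^ (beta0Deg A F) := by simp [hϖ]
  have hv1 : A.valuation ((q : AlgebraicClosure ℚ) / (π : AlgebraicClosure ℚ) ^ (beta0Deg A F))
      = 1 := by
    rw [map_div₀, map_pow, hπn]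
    exact div_self ((Valuation.ne_zero_iff _).mpr hq0)
  have hv2 : A.valuation ((π : AlgebraicClosure ℚ) ^ (beta0Deg A F) / (q : AlgebraicClosure ℚ))
      = 1 := by
    rw [map_div₀, map_pow, hπn]
    exact div_self ((Valuation.ne_zero_iff _).mpr hq0)
  refine ⟨ϖ, ?_, π.2, hπn, ?_, ?_⟩
  · apply beta0_comap_irreducible A _ ϖ
    · intro h
      apply hπ0'
      have := congrArg (fun z : ↥(beta0Field A ⊔ F) => (z : AlgebraicClosure ℚ)) h
      simpa [hϖ] using this
    · exact hπ1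
    · intro x hx
      exact beta0_sup_div_mem F hq hA hπ0 hπ1 hπn x.2 hx
  · rw [beta0Ring_dvd_iff _ _ (pow_ne_zero _ hϖ0), e1, e2]
    exact ((beta0_valuation_eq_one_iff A _).mp hv1).1
  · rw [beta0Ring_dvd_iff _ _ hqne, e1, e2]
    exact ((beta0_valuation_eq_one_iff A _).mp hv2).1

end sup

section poly

variable {A : ValuationSubring (AlgebraicClosure ℚ)}
  (F : IntermediateField ℚ (AlgebraicClosure ℚ)) [NumberField F] [IsGalois ℚ F] {q : ℕ}

/-- The degree `n = [F : T]` is positive. -/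
theorem beta0Deg_pos : 0 < beta0Deg A F := Module.finrank_pos

/-- **The monic polynomial of the uniformizer**: for every `π' ∈ A' = A ∩ (E₀ ⊔ F)` lying in `F`,
of value `< 1` with `v π' ^ n = v q`, there is a monic `g ∈ A₀[X]` of degree `n` with `g(π') = 0`
(`A₀ = A ∩ E₀`).  Together with `π' ^ n ∣ q` this is the input of the Eisenstein bridge
`nbc_ram_isEisensteinAt`. -/
theorem beta0Ring_sup_exists_poly (hq : q.Prime) (hA : A.LiesOverPrime q)
    (π : beta0Ring A (beta0Field A ⊔ F))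
    (hπF : ((π : ↥(beta0Field A ⊔ F)) : AlgebraicClosure ℚ) ∈ F)
    (hπ0 : π ≠ 0)
    (hπ1 : A.valuation (((π : ↥(beta0Field A ⊔ F)) : AlgebraicClosure ℚ)) < 1)
    (hπn : A.valuation (((π : ↥(beta0Field A ⊔ F)) : AlgebraicClosure ℚ)) ^ (beta0Deg A F) =
        A.valuation (q : AlgebraicClosure ℚ)) :
    ∃ g : (beta0Ring A (beta0Field A))[X], g.Monic ∧ g.natDegree = beta0Deg A F ∧
      Polynomial.eval₂ (beta0RingIncl (A := A)
        (le_sup_left : beta0Field A ≤ beta0Field A ⊔ F)) π g = 0 := by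
  classical
  set ϖ : F := ⟨((π : ↥(beta0Field A ⊔ F)) : AlgebraicClosure ℚ), hπF⟩ with hϖ
  have hϖ0 : ϖ ≠ 0 := by
    intro h
    apply hπ0
    apply Subtype.ext
    apply Subtype.ext
    have := congrArg (fun z : F => (z : AlgebraicClosure ℚ)) h
    simpa [hϖ] using this
  have hmemE : ((ϖ : AlgebraicClosure ℚ)) ^ (beta0Deg A F) ∈ beta0Field A ⊔ F :=
    pow_mem ((le_sup_right : F ≤ beta0Field A ⊔ F) ϖ.2) _
  have hmemA : ((ϖ : AlgebraicClosure ℚ)) ^ (beta0Deg A F) ∈ A := pow_mem π.2 _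
  obtain ⟨c, hc, hsum⟩ := beta0_sup_decomp F hq hA hϖ0 hπ1 hπn hmemE hmemA
  set c' : Fin (beta0Deg A F) → beta0Ring A (beta0Field A) :=
    fun i => ⟨⟨c i, (hc i).1⟩, (hc i).2⟩ with hc'
  set p : (beta0Ring A (beta0Field A))[X] := ∑ i : Fin (beta0Deg A F), C (c' i) * X ^ (i : ℕ)
    with hp
  have hpdeg : p.degree < ((beta0Deg A F : ℕ) : WithBot ℕ) := Polynomial.degree_sum_fin_lt c'
  have hmonic : (X ^ (beta0Deg A F) - p).Monic := Polynomial.monic_X_pow_sub hpdeg
  refine ⟨X ^ (beta0Deg A F) - p, hmonic, ?_, ?_⟩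
  · have h1 : (X ^ (beta0Deg A F) - p).degree = ((beta0Deg A F : ℕ) : WithBot ℕ) := by
      rw [Polynomial.degree_sub_eq_left_of_degree_lt]
      · exact Polynomial.degree_X_pow _
      · rw [Polynomial.degree_X_pow]
        exact hpdeg
    exact Polynomial.natDegree_eq_of_degree_eq_some h1
  · rw [Polynomial.eval₂_sub, Polynomial.eval₂_pow, Polynomial.eval₂_X, hp,
      Polynomial.eval₂_finsetSum]
    apply Subtype.ext
    apply Subtype.ext
    simp only [Polynomial.eval₂_mul, Polynomial.eval₂_C, Polynomial.eval₂_pow, Polynomial.eval₂_X]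
    have : ((((π ^ (beta0Deg A F) - ∑ i : Fin (beta0Deg A F),
        beta0RingIncl (A := A) (le_sup_left : beta0Field A ≤ beta0Field A ⊔ F) (c' i) * π ^ (i : ℕ)
        : beta0Ring A (beta0Field A ⊔ F)) : ↥(beta0Field A ⊔ F)) : AlgebraicClosure ℚ)) =
        ((ϖ : AlgebraicClosure ℚ)) ^ (beta0Deg A F) -
          ∑ i, c i * (ϖ : AlgebraicClosure ℚ) ^ (i : ℕ) := by
      simp [hϖ, hc']
    rw [this, hsum, sub_self]
    rfl

end poly

section fields

variable {K₁ K₂ : IntermediateField ℚ (AlgebraicClosure ℚ)}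

/-- The algebra structure `K₁ → K₂` for `K₁ ≤ K₂` (use with `letI`). -/
@[reducible] noncomputable def beta0FieldAlgebra (h : K₁ ≤ K₂) : Algebra K₁ K₂ :=
  (IntermediateField.inclusion h).toRingHom.toAlgebra

theorem beta0FieldAlgebra_coe (h : K₁ ≤ K₂) (x : K₁) :
    letI := beta0FieldAlgebra h
    ((algebraMap K₁ K₂ x : K₂) : AlgebraicClosure ℚ) = (x : AlgebraicClosure ℚ) := rfl

theorem beta0FieldAlgebra_isScalarTower (h : K₁ ≤ K₂) :
    letI := beta0FieldAlgebra h
    IsScalarTower ℚ K₁ K₂ := by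
  letI := beta0FieldAlgebra h
  exact IsScalarTower.of_algebraMap_eq (fun x => by
    apply Subtype.ext
    rfl)

theorem beta0FieldAlgebra_isAlgebraic (h : K₁ ≤ K₂) (x : K₂) :
    letI := beta0FieldAlgebra h
    IsAlgebraic K₁ x := by
  letI := beta0FieldAlgebra h
  haveI := beta0FieldAlgebra_isScalarTower h
  haveI : Algebra.IsAlgebraic ℚ (AlgebraicClosure ℚ) := Fermat.Agent.S05.isAlgebraic_rat_qbar
  have hx : IsAlgebraic ℚ x := by
    have h1 : IsAlgebraic ℚ (x : AlgebraicClosure ℚ) := Algebra.IsAlgebraic.isAlgebraic _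
    exact (isAlgebraic_algebraMap_iff (algebraMap K₂ (AlgebraicClosure ℚ)).injective).mp h1
  exact hx.tower_top K₁

end fields

section adjoin

variable {A : ValuationSubring (AlgebraicClosure ℚ)}
  (F : IntermediateField ℚ (AlgebraicClosure ℚ)) [NumberField F] [IsGalois ℚ F] {q : ℕ}

/-- **`E' = E₀[π']`**: the uniformizer generates `E' = E₀ ⊔ F` as an `E₀`-algebra. -/
theorem beta0_sup_adjoin_eq_top (hq : q.Prime) (hA : A.LiesOverPrime q)
    (π : ↥(beta0Field A ⊔ F)) (hπF : (π : AlgebraicClosure ℚ) ∈ F) (hπ0 : π ≠ 0)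
    (hπ1 : A.valuation (π : AlgebraicClosure ℚ) < 1)
    (hπn : A.valuation (π : AlgebraicClosure ℚ) ^ (beta0Deg A F) =
        A.valuation (q : AlgebraicClosure ℚ)) :
    letI := beta0FieldAlgebra (le_sup_left : beta0Field A ≤ beta0Field A ⊔ F)
    Algebra.adjoin ↥(beta0Field A) ({π} : Set ↥(beta0Field A ⊔ F)) = ⊤ := by
  letI := beta0FieldAlgebra (le_sup_left : beta0Field A ≤ beta0Field A ⊔ F)
  rw [eq_top_iff]
  rintro x -
  set ϖ : F := ⟨(π : AlgebraicClosure ℚ), hπF⟩ with hϖ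
  have hϖ0 : ϖ ≠ 0 := by
    intro h
    apply hπ0
    apply Subtype.ext
    have := congrArg (fun z : F => (z : AlgebraicClosure ℚ)) h
    simpa [hϖ] using this
  obtain ⟨c, hc, hx⟩ := beta0_sup_span F hq hA hϖ0 hπ1 hπn x.2
  have hx' : x = ∑ i : Fin (beta0Deg A F),
      algebraMap ↥(beta0Field A) ↥(beta0Field A ⊔ F) ⟨c i, hc i⟩ * π ^ (i : ℕ) := by
    apply Subtype.ext
    rw [hx]
    simp only [AddSubmonoidClass.coe_finsetSum, MulMemClass.coe_mul, SubmonoidClass.coe_pow]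
    rfl
  rw [hx']
  apply Subalgebra.sum_mem
  intro i _
  apply Subalgebra.mul_mem
  · exact Subalgebra.algebraMap_mem _ _
  · exact Subalgebra.pow_mem _ (Algebra.subset_adjoin (Set.mem_singleton π)) _

end adjoin

end Fermat.Agent.UNIP


end ZBUNIP_006_6

/-! ### bundled: `Fermat.Agent.UNIP.Beta0Inst` -/
section ZBUNIP_006_7

/-!
# UNIP piece U10 (`Beta0`), part 7: instantiation package for MG-4 / MG-5

Concrete types (all in `Type`):

* `E₀ = ↥(beta0Field A)`, `E' = ↥(beta0Field A ⊔ F)`  (`F / ℚ` finite Galois inside `ℚ̄`);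
* `A₀ = ↥(beta0Ring A (beta0Field A))`, `A' = ↥(beta0Ring A (beta0Field A ⊔ F))`
  (DVRs: `beta0Ring_isDVR_base`, `beta0Ring_isDVR_sup`; fraction fields `E₀`, `E'`: Mathlib instances);
* `beta0InstFieldAlgebra A F : Algebra E₀ E'`, `beta0InstAlgebra A F : Algebra A₀ A'`,
  `beta0InstAlgebraTop A F : Algebra A₀ E'` (reducible defs, use with `letI`), with
  `beta0Inst_isScalarTower` (`A₀ → A' → E'`) and `beta0Inst_isScalarTower'` (`A₀ → E₀ → E'`);
* `beta0Inst_isIntegral : Algebra.IsIntegral A₀ A'`;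
* `beta0Inst_main` : the uniformizer `π'`, `hπ'0`, `hπ'u`, `hram`, `g`, `hgm`, `hroot`, `hdeg`,
  `Algebra.adjoin E₀ {π'} = ⊤`, `IsAlgebraic E₀ π'`  — inputs (i)–(iii) of `mgc_ramified`,
  `mgci_*`, `mgc_algebra_adjoin_eq_top`.
-/

set_option autoImplicit false
set_option linter.style.haveILetI false
set_option linter.unusedSectionVars false

open scoped NumberField Pointwise
open Ideal MulAction IsDedekindDomain WithZero Polynomial

namespace Fermat.Agent.UNIP

section inst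

variable (A : ValuationSubring (AlgebraicClosure ℚ))
  (F : IntermediateField ℚ (AlgebraicClosure ℚ))

/-- `Algebra E₀ E'`. -/
@[reducible] noncomputable def beta0InstFieldAlgebra :
    Algebra ↥(beta0Field A) ↥(beta0Field A ⊔ F) :=
  beta0FieldAlgebra (le_sup_left : beta0Field A ≤ beta0Field A ⊔ F)

/-- `Algebra A₀ A'`. -/
@[reducible] noncomputable def beta0InstAlgebra :
    Algebra ↥(beta0Ring A (beta0Field A)) ↥(beta0Ring A (beta0Field A ⊔ F)) :=
  (beta0RingIncl (A := A) (le_sup_left : beta0Field A ≤ beta0Field A ⊔ F)).toAlgebra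

/-- `Algebra A₀ E'` (through `A'`, equivalently through `E₀`). -/
@[reducible] noncomputable def beta0InstAlgebraTop :
    Algebra ↥(beta0Ring A (beta0Field A)) ↥(beta0Field A ⊔ F) :=
  ((beta0Ring A (beta0Field A ⊔ F)).subtype.comp
    (beta0RingIncl (A := A) (le_sup_left : beta0Field A ≤ beta0Field A ⊔ F))).toAlgebra

theorem beta0InstAlgebra_algebraMap (a : ↥(beta0Ring A (beta0Field A))) :
    letI := beta0InstAlgebra A F
    ((algebraMap ↥(beta0Ring A (beta0Field A)) ↥(beta0Ring A (beta0Field A ⊔ F)) a :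
      ↥(beta0Field A ⊔ F)) : AlgebraicClosure ℚ) = ((a : ↥(beta0Field A)) : AlgebraicClosure ℚ) :=
  rfl

/-- `A₀ → A' → E'`. -/
theorem beta0Inst_isScalarTower :
    letI := beta0InstAlgebra A F
    letI := beta0InstAlgebraTop A F
    IsScalarTower ↥(beta0Ring A (beta0Field A)) ↥(beta0Ring A (beta0Field A ⊔ F))
      ↥(beta0Field A ⊔ F) := by
  letI := beta0InstAlgebra A F
  letI := beta0InstAlgebraTop A F
  exact IsScalarTower.of_algebraMap_eq (fun x => rfl)

/-- `A₀ → E₀ → E'`. -/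
theorem beta0Inst_isScalarTower' :
    letI := beta0InstFieldAlgebra A F
    letI := beta0InstAlgebraTop A F
    IsScalarTower ↥(beta0Ring A (beta0Field A)) ↥(beta0Field A) ↥(beta0Field A ⊔ F) := by
  letI := beta0InstFieldAlgebra A F
  letI := beta0InstAlgebraTop A F
  exact IsScalarTower.of_algebraMap_eq (fun x => rfl)

end inst

section main

variable {A : ValuationSubring (AlgebraicClosure ℚ)}
  (F : IntermediateField ℚ (AlgebraicClosure ℚ)) [NumberField F] [IsGalois ℚ F] {q : ℕ}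

/-- **Package (i)–(iii)** for `mgc_ramified` / `mgci_*` / `mgc_algebra_adjoin_eq_top`. -/
theorem beta0Inst_main (hq : q.Prime) (hA : A.LiesOverPrime q) :
    letI := beta0InstAlgebra A F
    letI := beta0InstFieldAlgebra A F
    ∃ π' : ↥(beta0Ring A (beta0Field A ⊔ F)),
      Irreducible π' ∧ π' ≠ 0 ∧ ¬ IsUnit π' ∧
      (((π' : ↥(beta0Field A ⊔ F)) : AlgebraicClosure ℚ) ∈ F) ∧
      A.valuation (((π' : ↥(beta0Field A ⊔ F)) : AlgebraicClosure ℚ)) < 1 ∧
      A.valuation (((π' : ↥(beta0Field A ⊔ F)) : AlgebraicClosure ℚ)) ^ (beta0Deg A F) =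
        A.valuation (q : AlgebraicClosure ℚ) ∧
      π' ^ (beta0Deg A F) ∣ algebraMap ↥(beta0Ring A (beta0Field A))
        ↥(beta0Ring A (beta0Field A ⊔ F)) ((q : ℕ) : ↥(beta0Ring A (beta0Field A))) ∧
      (∃ g : (↥(beta0Ring A (beta0Field A)))[X], g.Monic ∧ Polynomial.aeval π' g = 0 ∧
        g.natDegree ≤ beta0Deg A F ∧ g.natDegree = beta0Deg A F) ∧
      Algebra.adjoin ↥(beta0Field A) ({(π' : ↥(beta0Field A ⊔ F))} : Set ↥(beta0Field A ⊔ F)) = ⊤ ∧
      IsAlgebraic ↥(beta0Field A) (π' : ↥(beta0Field A ⊔ F)) := by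
  letI := beta0InstAlgebra A F
  letI := beta0InstFieldAlgebra A F
  obtain ⟨π, hirr, hπF, hπn, hdvd, -⟩ := beta0Ring_sup_exists_irreducible (A := A) F hq hA
  have hπ0 : π ≠ 0 := hirr.ne_zero
  have hπu : ¬ IsUnit π := hirr.not_isUnit
  have hπ1 : A.valuation (((π : ↥(beta0Field A ⊔ F)) : AlgebraicClosure ℚ)) < 1 := by
    have := (beta0Ring_mem_maximalIdeal_iff π).mp
      ((IsLocalRing.mem_maximalIdeal π).mpr hπu)
    exact A.mem_nonunits_iff.mp this
  have hπ0' : (π : ↥(beta0Field A ⊔ F)) ≠ 0 := fun h => hπ0 (Subtype.ext h)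
  obtain ⟨g, hgm, hgdeg, hgroot⟩ := beta0Ring_sup_exists_poly F hq hA π hπF hπ0 hπ1 hπn
  refine ⟨π, hirr, hπ0, hπu, hπF, hπ1, hπn, ?_, ⟨g, hgm, ?_, hgdeg.le, hgdeg⟩, ?_, ?_⟩
  · have e : algebraMap ↥(beta0Ring A (beta0Field A)) ↥(beta0Ring A (beta0Field A ⊔ F))
        ((q : ℕ) : ↥(beta0Ring A (beta0Field A))) =
        ((q : ℕ) : ↥(beta0Ring A (beta0Field A ⊔ F))) := map_natCast _ q
    rw [e]
    exact hdvd
  · rw [Polynomial.aeval_def]
    exact hgroot
  · exact beta0_sup_adjoin_eq_top F hq hA (π : ↥(beta0Field A ⊔ F)) hπF hπ0' hπ1 hπn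
  · exact beta0FieldAlgebra_isAlgebraic _ _

/-- **`A'` is integral over `A₀`.** -/
theorem beta0Inst_isIntegral (hq : q.Prime) (hA : A.LiesOverPrime q) :
    letI := beta0InstAlgebra A F
    Algebra.IsIntegral ↥(beta0Ring A (beta0Field A)) ↥(beta0Ring A (beta0Field A ⊔ F)) := by
  letI := beta0InstAlgebra A F
  letI := beta0InstFieldAlgebra A F
  obtain ⟨π, -, hπ0, -, hπF, hπ1, hπn, -, ⟨g, hgm, hgroot, -, -⟩, -, -⟩ :=
    beta0Inst_main (A := A) F hq hA
  have hπint : IsIntegral ↥(beta0Ring A (beta0Field A)) π := ⟨g, hgm, hgroot⟩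
  refine ⟨fun x => ?_⟩
  set ϖ : F := ⟨((π : ↥(beta0Field A ⊔ F)) : AlgebraicClosure ℚ), hπF⟩ with hϖ
  have hϖ0 : ϖ ≠ 0 := by
    intro h
    apply hπ0
    apply Subtype.ext
    apply Subtype.ext
    have := congrArg (fun z : F => (z : AlgebraicClosure ℚ)) h
    simpa [hϖ] using this
  obtain ⟨c, hc, hx⟩ := beta0_sup_decomp F hq hA hϖ0 hπ1 hπn (x : ↥(beta0Field A ⊔ F)).2 x.2
  have hx' : x = ∑ i : Fin (beta0Deg A F),
      algebraMap ↥(beta0Ring A (beta0Field A)) ↥(beta0Ring A (beta0Field A ⊔ F))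
        ⟨⟨c i, (hc i).1⟩, (hc i).2⟩ * π ^ (i : ℕ) := by
    apply Subtype.ext
    apply Subtype.ext
    rw [hx]
    simp only [AddSubmonoidClass.coe_finsetSum, MulMemClass.coe_mul, SubmonoidClass.coe_pow]
    rfl
  rw [hx']
  apply IsIntegral.sum
  intro i _
  exact IsIntegral.mul isIntegral_algebraMap (hπint.pow _)

end main

end Fermat.Agent.UNIP


end ZBUNIP_006_7

/-! ### bundled: `Fermat.Agent.UNIP.Beta0Frob` -/
section ZBUNIP_006_8

/-!
# UNIP piece U10 (`Beta0`), part 8: the decomposition group and Frobenius on `E₀`, `E'`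

* `beta0_conj_mem_inertia` : `I` is normal in `D`;
* `beta0_decomp_apply_mem` : `σ ∈ D ⇒ σ E₀ ⊆ E₀`;
* `beta0_sup_decomp_apply_mem` : `σ ∈ D ⇒ σ (E₀ ⊔ F) ⊆ E₀ ⊔ F` (`F` normal over `ℚ`);
* `beta0_frob_sub_pow_mem` : a Frobenius `φ` at `A` (residue cardinality `ℓ`) has
  `φ a - a ^ ℓ ∈ 𝔪_A` for `a ∈ A`;  `beta0_frob_pow_sub_pow_mem` : `φ^k a - a ^ (ℓ^k) ∈ 𝔪_A`.
-/

set_option autoImplicit false
set_option linter.style.haveILetI false
set_option linter.unusedSectionVars false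

namespace Fermat.Agent.UNIP

section general

variable {K L : Type*} [Field K] [Field L] [Algebra K L]

/-- The inertia subgroup is normal in the decomposition subgroup. -/
theorem beta0_conj_mem_inertia {A : ValuationSubring L} {σ τ : L ≃ₐ[K] L}
    (hσ : σ ∈ A.decompositionSubgroup K) (hτ : τ ∈ A.inertiaSubgroupIn K) :
    σ * τ * σ⁻¹ ∈ A.inertiaSubgroupIn K := by
  obtain ⟨τ', hτ', rfl⟩ := hτ
  have hn : (A.inertiaSubgroup K).Normal := MonoidHom.normal_ker _
  have h1 := hn.conj_mem τ' hτ' ⟨σ, hσ⟩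
  rw [ValuationSubring.inertiaSubgroupIn, Subgroup.mem_map]
  exact ⟨_, h1, by simp⟩

/-- A Frobenius at `A` is the `ℓ`-th power map modulo `𝔪_A`. -/
theorem beta0_frob_sub_pow_mem {A : ValuationSubring L} {φ : L ≃ₐ[K] L} {ℓ : ℕ}
    (hφ : A.IsFrobeniusAt φ ℓ) {a : L} (ha : a ∈ A) : φ a - a ^ ℓ ∈ A.nonunits := by
  set z : A := ⟨a, ha⟩ with hz
  have e2 := hφ.smul_residue_eq (IsLocalRing.residue A z)
  rw [← IsLocalRing.ResidueField.residue_smul, ← map_pow, ← sub_eq_zero, ← map_sub,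
    IsLocalRing.residue_eq_zero_iff, ← ValuationSubring.coe_mem_nonunits_iff] at e2
  exact e2

/-- A Frobenius at `A` preserves `A`. -/
theorem beta0_frob_apply_mem {A : ValuationSubring L} {φ : L ≃ₐ[K] L} {ℓ : ℕ}
    (hφ : A.IsFrobeniusAt φ ℓ) {a : L} (ha : a ∈ A) : φ a ∈ A :=
  (Fermat.Agent.S05.apply_mem_iff_of_mem_decomposition hφ.mem_decompositionSubgroup a).mpr ha

/-- Powers of a Frobenius: `φ^k a ≡ a ^ (ℓ^k)` modulo `𝔪_A`. -/
theorem beta0_frob_pow_sub_pow_mem {A : ValuationSubring L} {φ : L ≃ₐ[K] L} {ℓ : ℕ}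
    (hφ : A.IsFrobeniusAt φ ℓ) (k : ℕ) {a : L} (ha : a ∈ A) :
    (φ ^ k) a - a ^ (ℓ ^ k) ∈ A.nonunits := by
  induction k generalizing a with
  | zero =>
    simp only [pow_zero, AlgEquiv.one_apply, pow_one, sub_self]
    exact A.mem_nonunits_iff.mpr (by simp)
  | succ k ih =>
    have h1 : (φ ^ (k + 1)) a - a ^ (ℓ ^ (k + 1)) =
        ((φ ^ k) (φ a) - (φ a) ^ (ℓ ^ k)) + ((φ a) ^ (ℓ ^ k) - (a ^ ℓ) ^ (ℓ ^ k)) := by
      rw [pow_succ, AlgEquiv.mul_apply, ← pow_mul, pow_succ']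
      ring
    rw [h1, A.mem_nonunits_iff]
    have h2 : A.valuation ((φ ^ k) (φ a) - (φ a) ^ (ℓ ^ k)) < 1 :=
      A.mem_nonunits_iff.mp (ih (beta0_frob_apply_mem hφ ha))
    have h3 : A.valuation ((φ a) ^ (ℓ ^ k) - (a ^ ℓ) ^ (ℓ ^ k)) < 1 := by
      have hφa : φ a ∈ A := beta0_frob_apply_mem hφ ha
      have haℓ : a ^ ℓ ∈ A := pow_mem ha _
      set x : A := ⟨φ a, hφa⟩ with hx
      set y : A := ⟨a ^ ℓ, haℓ⟩ with hy
      have hxy : x - y ∈ IsLocalRing.maximalIdeal A := by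
        rw [← ValuationSubring.coe_mem_nonunits_iff]
        exact beta0_frob_sub_pow_mem hφ ha
      have hdvd : x - y ∣ x ^ (ℓ ^ k) - y ^ (ℓ ^ k) := sub_dvd_pow_sub_pow _ _ _
      have hmem : x ^ (ℓ ^ k) - y ^ (ℓ ^ k) ∈ IsLocalRing.maximalIdeal A :=
        Ideal.mem_of_dvd _ hdvd hxy
      rw [← ValuationSubring.coe_mem_nonunits_iff] at hmem
      exact A.mem_nonunits_iff.mp hmem
    exact lt_of_le_of_lt (Valuation.map_add _ _ _) (max_lt h2 h3)

end general

section absolute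

variable {A : ValuationSubring (AlgebraicClosure ℚ)}

/-- The decomposition group stabilises `E₀ = ℚ̄^I`. -/
theorem beta0_decomp_apply_mem {σ : AlgebraicClosure ℚ ≃ₐ[ℚ] AlgebraicClosure ℚ}
    (hσ : σ ∈ A.decompositionSubgroup ℚ) {x : AlgebraicClosure ℚ} (hx : x ∈ beta0Field A) :
    σ x ∈ beta0Field A := by
  rw [mem_beta0Field] at hx ⊢
  intro τ hτ
  have hσ' : σ⁻¹ ∈ A.decompositionSubgroup ℚ := Subgroup.inv_mem _ hσ
  have h1 := beta0_conj_mem_inertia hσ' hτ
  have h2 := hx _ h1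
  have h3 : (σ⁻¹ * τ * σ⁻¹⁻¹) x = σ⁻¹ (τ (σ x)) := by
    rw [inv_inv]
    rfl
  rw [h3] at h2
  have h4 := congrArg σ h2
  have h5 : σ (σ⁻¹ (τ (σ x))) = τ (σ x) := by
    show (σ * σ⁻¹) (τ (σ x)) = τ (σ x)
    rw [mul_inv_cancel]
    rfl
  rw [h5] at h4
  exact h4

/-- The decomposition group stabilises `E' = E₀ ⊔ F` for `F` normal over `ℚ`. -/
theorem beta0_sup_decomp_apply_mem (F : IntermediateField ℚ (AlgebraicClosure ℚ))
    [Normal ℚ F] {σ : AlgebraicClosure ℚ ≃ₐ[ℚ] AlgebraicClosure ℚ}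
    (hσ : σ ∈ A.decompositionSubgroup ℚ) {x : AlgebraicClosure ℚ}
    (hx : x ∈ beta0Field A ⊔ F) : σ x ∈ beta0Field A ⊔ F := by
  haveI := Fermat.Agent.Common.isAlgClosure_rat_qbar
  haveI : Algebra.IsAlgebraic ℚ F := Algebra.IsAlgebraic.of_injective
    (IsScalarTower.toAlgHom ℚ F (AlgebraicClosure ℚ)) (algebraMap F (AlgebraicClosure ℚ)).injective
  have h1 : x ∈ (beta0Field A ⊔ F).toSubalgebra := hx
  rw [IntermediateField.sup_toSubalgebra_of_isAlgebraic_right, ← Subalgebra.mem_toSubmodule,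
    ← Subalgebra.mul_toSubmodule] at h1
  refine Submodule.mul_induction_on h1 ?_ ?_
  · intro m hm f hf
    rw [map_mul]
    apply mul_mem
    · exact (le_sup_left : beta0Field A ≤ beta0Field A ⊔ F) (beta0_decomp_apply_mem hσ hm)
    · have := AlgEquiv.restrictNormal_commutes σ F ⟨f, hf⟩
      have h2 : σ f = ((AlgEquiv.restrictNormal σ F ⟨f, hf⟩ : F) : AlgebraicClosure ℚ) :=
        this.symm
      rw [h2]
      exact (le_sup_right : F ≤ beta0Field A ⊔ F) (AlgEquiv.restrictNormal σ F ⟨f, hf⟩).2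
  · intro y z hy hz
    rw [map_add]
    exact add_mem hy hz

end absolute

end Fermat.Agent.UNIP


end ZBUNIP_006_8
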