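/- GENERATED FILE (helper35, build-time optimisation, NOTES/ZB.md): verbatim concatenation of the modules
   Fermat.Agent.UNIP.NormalBCEis
   Fermat.Agent.UNIP.NormalBCIrr
   Do not edit; do not import together with these modules. -/
import Mathlib
import Fermat.Agent.ZB.UNIP_006

/-! ### bundled: `Fermat.Agent.UNIP.NormalBCEis` -/
section ZBUNIP_002_0
/-
UNIP / U8 (helper16): normality is preserved by a totally ramified (Eisenstein) base change
when the special fibre is reduced.

Part 1 (this file): the Eisenstein integrality lemma for an element `p` with `R / p` REDUCED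
(instead of `p` prime).  The two main proofs are adapted from Mathlib
(`Mathlib/RingTheory/Polynomial/Eisenstein/IsIntegral.lean`, R. Brasca, Apache 2.0): the only use
of primality there is `p ^ (n+1) ∣ a ^ (n+1) * b ^ n → p ∣ a` for `b` the constant coefficient,
which holds when `R / p` is reduced and `b = p * unit`.
-/

set_option autoImplicit false

universe u v z

open Ideal Algebra Finset

open scoped Polynomial

namespace Fermat.Agent.UNIP

section Reduced

variable {R : Type u} [CommRing R]

/-- If `R / p` is reduced (`p ∣ c² → p ∣ c`), then `p ∣ a ^ k → p ∣ a`. -/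
theorem nbc_dvd_of_dvd_pow {p : R} (hred : ∀ c : R, p ∣ c ^ 2 → p ∣ c) (a : R) :
    ∀ k : ℕ, p ∣ a ^ k → p ∣ a := by
  intro k
  induction k using Nat.strong_induction_on with
  | _ k ih =>
    intro h
    rcases Nat.lt_or_ge k 2 with hk | hk
    · interval_cases k
      · rw [pow_zero] at h
        exact dvd_trans h (one_dvd a)
      · simpa using h
    · have hlt : (k + 1) / 2 < k := by omega
      refine ih ((k + 1) / 2) hlt (hred _ ?_)
      rw [← pow_mul]
      exact dvd_trans h (pow_dvd_pow a (by omega))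

/-- The substitute for `Prime.dvd_of_pow_dvd_pow_mul_pow_of_square_not_dvd`. -/
theorem nbc_dvd_of_pow_dvd [IsDomain R] {p a b : R} (hp0 : p ≠ 0) (hred : ∀ c : R, p ∣ c ^ 2 → p ∣ c)
    (hb : ∃ u : R, IsUnit u ∧ b = p * u) {n : ℕ} (h : p ^ n.succ ∣ a ^ n.succ * b ^ n) :
    p ∣ a := by
  obtain ⟨u, hu, rfl⟩ := hb
  obtain ⟨r, hr⟩ := h
  have h1 : p ^ n * (a ^ n.succ * u ^ n) = p ^ n * (p * r) := by
    rw [mul_pow] at hr
    calc p ^ n * (a ^ n.succ * u ^ n) = a ^ n.succ * (p ^ n * u ^ n) := by ring
      _ = p ^ n.succ * r := hr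
      _ = p ^ n * (p * r) := by rw [pow_succ]; ring
  have h2 : a ^ n.succ * u ^ n = p * r := mul_left_cancel₀ (pow_ne_zero n hp0) h1
  have h3 : p ∣ a ^ n.succ := by
    have hu' : IsUnit (u ^ n) := hu.pow n
    exact (hu'.dvd_mul_right).1 ⟨r, h2⟩
  exact nbc_dvd_of_dvd_pow hred a _ h3

end Reduced

section IsIntegral

variable {R : Type u} {K : Type v} {L : Type z} {p : R} [CommRing R] [Field K] [Field L]
variable [Algebra K L] [Algebra R L] [Algebra R K] [IsScalarTower R K L]
variable [IsDomain R] [IsFractionRing R K] [IsIntegrallyClosed R]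

local notation "𝓟" => Submodule.span R {(p : R)}

open IsIntegrallyClosed PowerBasis Nat Polynomial IsScalarTower

/-- Let `K` be the field of fraction of an integrally closed domain `R` and let `L` be an extension
of `K`, generated by an integral power basis `B` such that the minimal polynomial of `B.gen` is
Eisenstein at `p`. Given `z : L` integral over `R`, if `Q : R[X]` is such that
`aeval B.gen Q = p • z`, then `p ∣ Q.coeff 0`. -/
theorem nbc_dvd_coeff_zero {B : PowerBasis K L}
    (hp0 : p ≠ 0) (hred : ∀ c : R, p ∣ c ^ 2 → p ∣ c)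
    (hc0 : ∃ u : R, IsUnit u ∧ (minpoly R B.gen).coeff 0 = p * u) (hBint : IsIntegral R B.gen) {z : L} {Q : R[X]} (hQ : aeval B.gen Q = p • z)
    (hzint : IsIntegral R z) (hei : (minpoly R B.gen).IsWeaklyEisensteinAt 𝓟) : p ∣ Q.coeff 0 := by
  -- First define some abbreviations.
  let := B.finite
  let P := minpoly R B.gen
  obtain ⟨n, hn⟩ := Nat.exists_eq_succ_of_ne_zero B.dim_pos.ne'
  have finrank_K_L : Module.finrank K L = B.dim := B.finrank
  have deg_K_P : (minpoly K B.gen).natDegree = B.dim := B.natDegree_minpoly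
  have deg_R_P : P.natDegree = B.dim := by
    rw [← deg_K_P, minpoly.isIntegrallyClosed_eq_field_fractions' K hBint,
      (minpoly.monic hBint).natDegree_map (algebraMap R K)]
  choose! f hf using
    hei.exists_mem_adjoin_mul_eq_pow_natDegree_le (minpoly.aeval R B.gen)
      (minpoly.monic hBint)
  simp only [P, (minpoly.monic hBint).natDegree_map, deg_R_P] at hf
  -- The Eisenstein condition shows that `p` divides `Q.coeff 0`
  -- if `p^n.succ` divides the following multiple of `Q.coeff 0^n.succ`:
  suffices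
      p ^ n.succ ∣ Q.coeff 0 ^ n.succ * ((-1) ^ (n.succ * n) * (minpoly R B.gen).coeff 0 ^ n) by
    refine nbc_dvd_of_pow_dvd hp0 hred hc0 (n := n) (?_ : _ ∣ _)
    convert! (IsUnit.dvd_mul_right ⟨(-1) ^ (n.succ * n), rfl⟩).mpr this using 1
    push_cast
    ring_nf
    simp
  -- We claim the quotient of `Q^n * _` by `p^n` is the following `r`:
  have aux : ∀ i ∈ (range (Q.natDegree + 1)).erase 0, B.dim ≤ i + n := by grind
  have hintsum :
    IsIntegral R
      (z * B.gen ^ n - ∑ x ∈ (range (Q.natDegree + 1)).erase 0, Q.coeff x • f (x + n)) := by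
    refine (hzint.mul (hBint.pow _)).sub (.sum _ fun i hi => .smul _ ?_)
    exact adjoin_le_integralClosure hBint (hf _ (aux i hi)).1
  obtain ⟨r, hr⟩ := isIntegral_iff.1 (isIntegral_norm K hintsum)
  use r
  -- Do the computation in `K` so we can work in terms of `z` instead of `r`.
  apply IsFractionRing.injective R K
  simp only [map_mul, map_pow, map_neg, map_one]
  -- Both sides are actually norms:
  calc
    _ = norm K (Q.coeff 0 • B.gen ^ n) := ?_
    _ = norm K (p • (z * B.gen ^ n) -
          ∑ x ∈ (range (Q.natDegree + 1)).erase 0, p • Q.coeff x • f (x + n)) :=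
        (congr_arg (norm K) (eq_sub_of_add_eq ?_))
    _ = _ := ?_
  · simp only [Algebra.smul_def, algebraMap_apply R K L, Algebra.norm_algebraMap, map_mul,
      map_pow, finrank_K_L, PowerBasis.norm_gen_eq_coeff_zero_minpoly,
      minpoly.isIntegrallyClosed_eq_field_fractions' K hBint, coeff_map, ← hn]
    ring
  swap
  · simp_rw [← smul_sum, ← smul_sub, Algebra.smul_def p, algebraMap_apply R K L, map_mul,
      Algebra.norm_algebraMap, finrank_K_L, hr, ← hn]
  calc
    _ = (Q.coeff 0 • ↑1 + ∑ x ∈ (range (Q.natDegree + 1)).erase 0, Q.coeff x • B.gen ^ x) *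
          B.gen ^ n := ?_
    _ = (Q.coeff 0 • B.gen ^ 0 +
        ∑ x ∈ (range (Q.natDegree + 1)).erase 0, Q.coeff x • B.gen ^ x) * B.gen ^ n := by
      rw [pow_zero]
    _ = aeval B.gen Q * B.gen ^ n := ?_
    _ = _ := by rw [hQ, Algebra.smul_mul_assoc]
  · have : ∀ i ∈ (range (Q.natDegree + 1)).erase 0,
        Q.coeff i • (B.gen ^ i * B.gen ^ n) = p • Q.coeff i • f (i + n) := by
      intro i hi
      rw [← pow_add, ← (hf _ (aux i hi)).2, ← Algebra.smul_def, smul_smul, mul_comm _ p, smul_smul]
    simp only [add_mul, smul_mul_assoc, one_mul, sum_mul, sum_congr rfl this]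
  · rw [aeval_eq_sum_range,
      Finset.add_sum_erase (range (Q.natDegree + 1)) fun i => Q.coeff i • B.gen ^ i]
    simp

/-- Let `K` be the field of fraction of an integrally closed domain `R` and let `L` be an extension
of `K`, generated by an integral power basis `B` such that the minimal polynomial of `B.gen` is
Eisenstein at `p`. Given `z : L` integral over `R`, if `p • z ∈ R[B.gen]`, then
`z ∈ R[B.gen]`. -/
theorem nbc_mem_adjoin_of_smul {B : PowerBasis K L}
    (hp0 : p ≠ 0) (hred : ∀ c : R, p ∣ c ^ 2 → p ∣ c)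
    (hc0 : ∃ u : R, IsUnit u ∧ (minpoly R B.gen).coeff 0 = p * u) (hBint : IsIntegral R B.gen) {z : L} (hzint : IsIntegral R z)
    (hz : p • z ∈ adjoin R ({B.gen} : Set L))
    (hei : (minpoly R B.gen).IsWeaklyEisensteinAt 𝓟) :
    z ∈ adjoin R ({B.gen} : Set L) := by
  -- First define some abbreviations.
  have := B.finite
  set P := minpoly R B.gen with hP
  obtain ⟨n, hn⟩ := Nat.exists_eq_succ_of_ne_zero B.dim_pos.ne'
  have : Module.IsTorsionFree R L := .trans_faithfulSMul R K L
  -- There is a polynomial `Q` such that `p • z = aeval B.gen Q`. We can assume that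
  -- `Q.degree < P.degree` and `Q ≠ 0`.
  rw [adjoin_singleton_eq_range_aeval] at hz
  obtain ⟨Q₁, hQ⟩ := hz
  set Q := Q₁ %ₘ P with hQ₁
  replace hQ : aeval B.gen Q = p • z := by simpa [hQ₁, hP] using hQ
  by_cases hQzero : Q = 0
  · simp only [hQzero, Algebra.smul_def, zero_eq_mul, aeval_zero] at hQ
    rcases hQ with H | H₁
    · have : Function.Injective (algebraMap R L) := by
        rw [algebraMap_eq R K L]
        exact (algebraMap K L).injective.comp (IsFractionRing.injective R K)
      exfalso
      exact hp0 ((injective_iff_map_eq_zero _).1 this _ H)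
    · rw [H₁]
      exact Subalgebra.zero_mem _
  -- It is enough to prove that all coefficients of `Q` are divisible by `p`, by induction.
  -- The base case is `dvd_coeff_zero_of_aeval_eq_prime_smul_of_minpoly_isEisensteinAt`.
  refine mem_adjoin_of_dvd_coeff_of_dvd_aeval hp0 (fun i => ?_) hQ
  induction i using Nat.case_strong_induction_on with
  | hz =>
    intro
    exact nbc_dvd_coeff_zero hp0 hred hc0 hBint hQ hzint hei
  | hi j hind =>
    intro hj
    convert! nbc_dvd_of_pow_dvd hp0 hred hc0 (n := n) _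
    -- Two technical results we will need about `P.natDegree` and `Q.natDegree`.
    have H := degree_modByMonic_lt Q₁ (minpoly.monic hBint)
    rw [← hQ₁, ← hP] at H
    replace H := Nat.lt_iff_add_one_le.1
      (lt_of_lt_of_le
        (lt_of_le_of_lt (Nat.lt_iff_add_one_le.1 (Nat.lt_of_succ_lt_succ (mem_range.1 hj)))
          (lt_succ_self _)) (Nat.lt_iff_add_one_le.1 ((natDegree_lt_natDegree_iff hQzero).2 H)))
    have Hj : Q.natDegree + 1 = j + 1 + (Q.natDegree - j) := by
      rw [← add_comm 1, ← add_comm 1, add_assoc, add_right_inj,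
        ← Nat.add_sub_assoc (Nat.lt_of_succ_lt_succ (mem_range.1 hj)).le, add_comm,
        Nat.add_sub_cancel]
    -- By induction hypothesis we can find `g : ℕ → R` such that
    -- `k ∈ range (j + 1) → Q.coeff k • B.gen ^ k = (algebraMap R L) p * g k • B.gen ^ k`-
    choose! g hg using hind
    replace hg : ∀ k ∈ range (j + 1), Q.coeff k • B.gen ^ k =
        algebraMap R L p * g k • B.gen ^ k := by
      intro k hk
      rw [hg k (mem_range_succ_iff.1 hk)
        (mem_range_succ_iff.2
          (le_trans (mem_range_succ_iff.1 hk) (succ_le_iff.1 (mem_range_succ_iff.1 hj)).le)),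
        Algebra.smul_def, Algebra.smul_def, map_mul, mul_assoc]
    -- Since `minpoly R B.gen` is Eisenstein, we can find `f : ℕ → L` such that
    -- `(map (algebraMap R L) (minpoly R B.gen)).nat_degree ≤ i` implies `f i ∈ R[B.gen]`
    -- and `(algebraMap R L) p * f i = B.gen ^ i`. We will also need `hf₁`, a reformulation of this
    -- property.
    choose! f hf using
      IsWeaklyEisensteinAt.exists_mem_adjoin_mul_eq_pow_natDegree_le (minpoly.aeval R B.gen)
        (minpoly.monic hBint) hei
    have hf₁ : ∀ k ∈ (range (Q.natDegree - j)).erase 0,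
        Q.coeff (j + 1 + k) • B.gen ^ (j + 1 + k) * B.gen ^ (P.natDegree - (j + 2)) =
        (algebraMap R L) p * Q.coeff (j + 1 + k) • f (k + P.natDegree - 1) := by
      intro k hk
      rw [smul_mul_assoc, ← pow_add, ← Nat.add_sub_assoc H, add_comm (j + 1) 1,
        add_assoc (j + 1), add_comm _ (k + P.natDegree), Nat.add_sub_add_right,
        ← (hf (k + P.natDegree - 1) _).2, mul_smul_comm]
      rw [(minpoly.monic hBint).natDegree_map, add_comm, Nat.add_sub_assoc, le_add_iff_nonneg_right]
      · exact Nat.zero_le _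
      · refine one_le_iff_ne_zero.2 fun h => ?_
        rw [h] at hk
        simp at hk
    -- The Eisenstein condition shows that `p` divides `Q.coeff j`
    -- if `p^n.succ` divides the following multiple of `Q.coeff (succ j)^n.succ`:
    suffices
        p ^ n.succ ∣ Q.coeff (succ j) ^ n.succ *
          (minpoly R B.gen).coeff 0 ^ (succ j + (P.natDegree - (j + 2))) by
      convert! this
      rw [Nat.succ_eq_add_one, add_assoc, ← Nat.add_sub_assoc H, add_comm (j + 1),
        Nat.add_sub_add_left, ← Nat.add_sub_assoc, Nat.add_sub_add_left, hP, ←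
        (minpoly.monic hBint).natDegree_map (algebraMap R K), ←
        minpoly.isIntegrallyClosed_eq_field_fractions' K hBint, natDegree_minpoly, hn, Nat.sub_one,
        Nat.pred_succ]
      lia
    -- Using `hQ : aeval B.gen Q = p • z`, we write `p • z` as a sum of terms of degree less than
    -- `j+1`, that are multiples of `p` by induction, and terms of degree at least `j+1`.
    rw [aeval_eq_sum_range, Hj, range_add, sum_union (disjoint_range_addLeftEmbedding _ _),
      sum_congr rfl hg, add_comm] at hQ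
    -- We multiply this equality by `B.gen ^ (P.natDegree-(j+2))`, so we can use `hf₁` on the terms
    -- we didn't know were multiples of `p`, and we take the norm on both sides.
    replace hQ := congr_arg (fun x => x * B.gen ^ (P.natDegree - (j + 2))) hQ
    simp_rw [sum_map, addLeftEmbedding_apply, add_mul, sum_mul, mul_assoc] at hQ
    rw [← insert_erase
      (mem_range.2 (tsub_pos_iff_lt.2 <| Nat.lt_of_succ_lt_succ <| mem_range.1 hj)),
      sum_insert (notMem_erase 0 _), add_zero, sum_congr rfl hf₁, ← mul_sum, ← mul_sum, add_assoc,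
      ← mul_add, smul_mul_assoc, ← pow_add, Algebra.smul_def] at hQ
    replace hQ := congr_arg (norm K) (eq_sub_of_add_eq hQ)
    -- We obtain an equality of elements of `K`, but everything is integral, so we can move to `R`
    -- and simplify `hQ`.
    have hintsum : IsIntegral R (z * B.gen ^ (P.natDegree - (j + 2)) -
        (∑ x ∈ (range (Q.natDegree - j)).erase 0,
          Q.coeff (j + 1 + x) • f (x + P.natDegree - 1) +
            ∑ x ∈ range (j + 1), g x • B.gen ^ x * B.gen ^ (P.natDegree - (j + 2)))) := by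
      refine (hzint.mul (hBint.pow _)).sub
        (.add (.sum _ fun k hk => .smul _ ?_)
          (.sum _ fun k _ => .mul (.smul _ (.pow hBint _)) (hBint.pow _)))
      refine adjoin_le_integralClosure hBint (hf _ ?_).1
      rw [(minpoly.monic hBint).natDegree_map (algebraMap R L)]
      rw [add_comm, Nat.add_sub_assoc, le_add_iff_nonneg_right]
      · exact zero_le
      · refine one_le_iff_ne_zero.2 fun h => ?_
        rw [h] at hk
        simp at hk
    obtain ⟨r, hr⟩ := isIntegral_iff.1 (isIntegral_norm K hintsum)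
    rw [Algebra.smul_def, mul_assoc, ← mul_sub, map_mul, algebraMap_apply R K L, map_pow,
      Algebra.norm_algebraMap, map_mul, algebraMap_apply R K L, Algebra.norm_algebraMap,
      finrank B, ← hr, PowerBasis.norm_gen_eq_coeff_zero_minpoly,
      minpoly.isIntegrallyClosed_eq_field_fractions' K hBint, coeff_map,
      show (-1 : K) = algebraMap R K (-1) by simp, ← map_pow, ← map_pow, ← map_mul, ←
      map_pow, ← map_mul, ← map_pow, ← map_mul] at hQ
    -- We can now finish the proof.
    have hppdiv : p ^ B.dim ∣ p ^ B.dim * r := dvd_mul_of_dvd_left dvd_rfl _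
    rwa [← IsFractionRing.injective R K hQ, mul_comm, ← Units.coe_neg_one, mul_pow, ←
      Units.val_pow_eq_pow_val, ← Units.val_pow_eq_pow_val, mul_assoc,
      Units.dvd_mul_left, mul_comm, ← Nat.succ_eq_add_one, hn] at hppdiv

/-- Let `K` be the field of fraction of an integrally closed domain `R` and let `L` be an extension
of `K`, generated by an integral power basis `B` such that the minimal polynomial of `B.gen` is
Eisenstein at `p`. Given `z : L` integral over `R`, if `p ^ n • z ∈ R[B.gen]`, then
`z ∈ R[B.gen]`. Together with `Algebra.discr_mul_isIntegral_mem_adjoin` this result often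
allows to compute the ring of integers of `L`. -/
theorem nbc_mem_adjoin_of_pow_smul {B : PowerBasis K L}
    (hp0 : p ≠ 0) (hred : ∀ c : R, p ∣ c ^ 2 → p ∣ c)
    (hc0 : ∃ u : R, IsUnit u ∧ (minpoly R B.gen).coeff 0 = p * u) (hBint : IsIntegral R B.gen) {n : ℕ} {z : L} (hzint : IsIntegral R z)
    (hz : p ^ n • z ∈ adjoin R ({B.gen} : Set L))
    (hei : (minpoly R B.gen).IsWeaklyEisensteinAt 𝓟) :
    z ∈ adjoin R ({B.gen} : Set L) := by
  induction n with
  | zero => simpa using hz
  | succ n hn =>
    rw [_root_.pow_succ', mul_smul] at hz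
    exact
      hn (nbc_mem_adjoin_of_smul hp0 hred hc0 hBint (hzint.smul _) hz hei)

end IsIntegral

end Fermat.Agent.UNIP


end ZBUNIP_002_0

/-! ### bundled: `Fermat.Agent.UNIP.NormalBCIrr` -/
section ZBUNIP_002_1
/-
UNIP / U8 (helper16), irreducibility part.

`R` a domain, `p ∈ R` a nonzero nonunit with `R / p` reduced.  Then a monic polynomial which is
Eisenstein at `p` (all lower coefficients divisible by `p`, constant coefficient `p * unit`)
is irreducible over `R`, and over `Frac R` if `R` is integrally closed.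
-/

set_option autoImplicit false

open Polynomial

namespace Fermat.Agent.UNIP

section Irr

variable {R : Type*} [CommRing R] [IsDomain R]

omit [IsDomain R] in
/-- If `R / p` is reduced and `𝔓` is a minimal prime over `(p)`, then every element of `𝔓`
is carried into `(p)` by some element outside `𝔓`. -/
theorem nbc_exists_mul_dvd_of_mem_minimalPrimes {p : R}
    (hred : ∀ c : R, p ∣ c ^ 2 → p ∣ c) {𝔓 : Ideal R}
    (h𝔓 : 𝔓 ∈ (Ideal.span {p}).minimalPrimes) {a : R} (ha : a ∈ 𝔓) :
    ∃ s, s ∉ 𝔓 ∧ p ∣ s * a := by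
  have : 𝔓.IsPrime := h𝔓.1.1
  by_contra hcon
  push Not at hcon
  have hdisj : Disjoint ((Ideal.span {p} : Ideal R) : Set R)
      ((𝔓.primeCompl ⊔ Submonoid.powers a : Submonoid R) : Set R) := by
    rw [Set.disjoint_left]
    intro x hx hxS
    obtain ⟨s, hs, z, ⟨n, rfl⟩, rfl⟩ := Submonoid.mem_sup.1 hxS
    have hdvd : p ∣ s * a ^ n := Ideal.mem_span_singleton.1 hx
    have h2 : p ∣ (s * a) ^ (n + 1) := by
      have : (s * a) ^ (n + 1) = (s ^ n * a) * (s * a ^ n) := by ring
      rw [this]
      exact dvd_mul_of_dvd_right hdvd _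
    exact hcon s hs (nbc_dvd_of_dvd_pow hred _ _ h2)
  obtain ⟨𝔔, h𝔔p, h𝔔I, h𝔔d⟩ := Ideal.exists_le_prime_disjoint _ _ hdisj
  have hle : 𝔔 ≤ 𝔓 := by
    intro x hx
    by_contra hx𝔓
    exact Set.disjoint_left.1 h𝔔d hx
      ((le_sup_left : 𝔓.primeCompl ≤ 𝔓.primeCompl ⊔ Submonoid.powers a) hx𝔓)
  have h𝔓le : 𝔓 ≤ 𝔔 := h𝔓.2 ⟨h𝔔p, h𝔔I⟩ hle
  exact Set.disjoint_left.1 h𝔔d (h𝔓le ha)
    ((le_sup_right : Submonoid.powers a ≤ 𝔓.primeCompl ⊔ Submonoid.powers a)
      (Submonoid.mem_powers a))

/-- In a domain, if `R / p` is reduced and `𝔓` is a minimal prime over `(p)`, then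
`p ∉ 𝔓 ^ 2`. -/
theorem nbc_notMem_sq_of_mem_minimalPrimes {p : R} (hp0 : p ≠ 0)
    (hred : ∀ c : R, p ∣ c ^ 2 → p ∣ c) {𝔓 : Ideal R}
    (h𝔓 : 𝔓 ∈ (Ideal.span {p}).minimalPrimes) : p ∉ 𝔓 ^ 2 := by
  have : 𝔓.IsPrime := h𝔓.1.1
  -- the ideal of elements carried into `(p²)` by something outside `𝔓`
  let J : Ideal R :=
    { carrier := {a | ∃ s, s ∉ 𝔓 ∧ p ^ 2 ∣ s * a}
      add_mem' := by
        rintro a b ⟨s, hs, ha⟩ ⟨t, ht, hb⟩
        refine ⟨s * t, fun h => (Ideal.IsPrime.mem_or_mem ‹_› h).elim hs ht, ?_⟩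
        have : s * t * (a + b) = t * (s * a) + s * (t * b) := by ring
        rw [this]
        exact dvd_add (dvd_mul_of_dvd_right ha _) (dvd_mul_of_dvd_right hb _)
      zero_mem' := ⟨1, fun h => (Ideal.IsPrime.ne_top ‹_›) ((Ideal.eq_top_iff_one _).2 h),
        by simp⟩
      smul_mem' := by
        rintro c a ⟨s, hs, ha⟩
        refine ⟨s, hs, ?_⟩
        rw [smul_eq_mul, mul_left_comm]
        exact dvd_mul_of_dvd_right ha _ }
  have hJ : 𝔓 ^ 2 ≤ J := by
    rw [pow_two, Ideal.mul_le]
    intro a ha b hb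
    obtain ⟨s, hs, x, hx⟩ := nbc_exists_mul_dvd_of_mem_minimalPrimes hred h𝔓 ha
    obtain ⟨t, ht, y, hy⟩ := nbc_exists_mul_dvd_of_mem_minimalPrimes hred h𝔓 hb
    refine ⟨s * t, fun h => (Ideal.IsPrime.mem_or_mem ‹_› h).elim hs ht, x * y, ?_⟩
    calc s * t * (a * b) = (s * a) * (t * b) := by ring
      _ = p ^ 2 * (x * y) := by rw [hx, hy]; ring
  intro hp
  obtain ⟨s, hs, c, hc⟩ := hJ hp
  apply hs
  have h1 : p * s = p * (p * c) := by rw [mul_comm p s, hc]; ring
  have h2 : s = p * c := mul_left_cancel₀ hp0 h1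
  rw [h2]
  exact Ideal.mul_mem_right _ _ (h𝔓.1.2 (Ideal.mem_span_singleton_self p))

/-- **Eisenstein's criterion over a reduced special fibre.**  `R` a domain, `p` a nonzero
nonunit with `R / p` reduced; a monic polynomial of positive degree whose lower coefficients
are divisible by `p` and whose constant coefficient is `p * unit` is irreducible. -/
theorem nbc_irreducible_of_eisenstein {p : R} (hp0 : p ≠ 0) (hpu : ¬ IsUnit p)
    (hred : ∀ c : R, p ∣ c ^ 2 → p ∣ c) {g : R[X]} (hgm : g.Monic)
    (hdeg : 0 < g.natDegree) (hcoeff : ∀ i, i < g.natDegree → p ∣ g.coeff i)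
    (hc0 : ∃ u : R, IsUnit u ∧ g.coeff 0 = p * u) : Irreducible g := by
  have hne : (Ideal.span {p} : Ideal R) ≠ ⊤ := by
    rwa [Ne, Ideal.span_singleton_eq_top]
  obtain ⟨⟨𝔓, h𝔓⟩⟩ := Ideal.nonempty_minimalPrimes hne
  have : 𝔓.IsPrime := h𝔓.1.1
  have hp𝔓 : p ∈ 𝔓 := h𝔓.1.2 (Ideal.mem_span_singleton_self p)
  have hE : g.IsEisensteinAt 𝔓 :=
    { leading := by
        rw [hgm.leadingCoeff]
        exact fun h => (Ideal.IsPrime.ne_top ‹_›) ((Ideal.eq_top_iff_one _).2 h)
      mem := fun {n} hn => by
        obtain ⟨c, hc⟩ := hcoeff n hn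
        rw [hc]
        exact Ideal.mul_mem_right _ _ hp𝔓
      notMem := by
        obtain ⟨u, hu, hu0⟩ := hc0
        intro h
        apply nbc_notMem_sq_of_mem_minimalPrimes hp0 hred h𝔓
        obtain ⟨v, hv⟩ := hu.exists_right_inv
        have : p = g.coeff 0 * v := by rw [hu0, mul_assoc, hv, mul_one]
        rw [this]
        exact Ideal.mul_mem_right _ _ h }
  exact hE.irreducible ‹_› hgm.isPrimitive hdeg

/-- The same over the fraction field of an integrally closed domain. -/
theorem nbc_irreducible_map_of_eisenstein [IsIntegrallyClosed R] {K : Type*} [Field K]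
    [Algebra R K] [IsFractionRing R K] {p : R} (hp0 : p ≠ 0) (hpu : ¬ IsUnit p)
    (hred : ∀ c : R, p ∣ c ^ 2 → p ∣ c) {g : R[X]} (hgm : g.Monic)
    (hdeg : 0 < g.natDegree) (hcoeff : ∀ i, i < g.natDegree → p ∣ g.coeff i)
    (hc0 : ∃ u : R, IsUnit u ∧ g.coeff 0 = p * u) :
    Irreducible (g.map (algebraMap R K)) :=
  (hgm.irreducible_iff_irreducible_map_fraction_map).1
    (nbc_irreducible_of_eisenstein hp0 hpu hred hgm hdeg hcoeff hc0)

end Irr

end Fermat.Agent.UNIP


end ZBUNIP_002_1
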