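/- GENERATED FILE (helper35, build-time optimisation, NOTES/ZB.md): verbatim concatenation of the modules
   Fermat.Agent.UNIP.NormalBCFibre
   Fermat.Agent.UNIP.NormalBC
   Do not edit; do not import together with these modules. -/
import Mathlib
import Fermat.Agent.ZB.UNIP_002

/-! ### bundled: `Fermat.Agent.UNIP.NormalBCFibre` -/
section ZBUNIP_003_0
/-
UNIP / U8 (helper16), special fibre part.

`R` an integrally closed domain, `α` integral over `R` in a torsion-free domain `L ⊇ R`, and
`p ∈ R` with `minpoly R α (0) = p * unit`.  Then `R[α] / (α) ≅ R / (p)`.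
-/

set_option autoImplicit false

open Polynomial

namespace Fermat.Agent.UNIP

section Fibre

variable {R L : Type*} [CommRing R] [CommRing L] [Algebra R L]

/-- Membership in `R[α]`. -/
theorem nbc_mem_adjoin_iff (α z : L) :
    z ∈ Algebra.adjoin R ({α} : Set L) ↔ ∃ g : R[X], aeval α g = z := by
  rw [Algebra.adjoin_singleton_eq_range_aeval]
  exact Iff.rfl

/-- Every element of `R[α]` is of the form `c + α * z'` with `c ∈ R`, `z' ∈ R[α]`. -/
theorem nbc_exists_eq_add_mul (α : L) {z : L} (hz : z ∈ Algebra.adjoin R ({α} : Set L)) :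
    ∃ (c : R) (z' : L), z' ∈ Algebra.adjoin R ({α} : Set L) ∧
      z = algebraMap R L c + α * z' := by
  obtain ⟨g, rfl⟩ := (nbc_mem_adjoin_iff α z).1 hz
  refine ⟨g.coeff 0, aeval α (divX g), (nbc_mem_adjoin_iff α _).2 ⟨_, rfl⟩, ?_⟩
  conv_lhs => rw [← divX_mul_X_add g]
  simp only [map_add, map_mul, aeval_X, aeval_C]
  ring

/-- If the constant coefficient of a polynomial `f` with `f(α) = 0` is `p * unit`, then
`α ∣ p` in `R[α]`. -/
theorem nbc_gen_dvd (α : L) {p : R} {f : R[X]} (hroot : aeval α f = 0)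
    (hc0 : ∃ u : R, IsUnit u ∧ f.coeff 0 = p * u) :
    ∃ z' : L, z' ∈ Algebra.adjoin R ({α} : Set L) ∧ algebraMap R L p = α * z' := by
  obtain ⟨u, hu, hu0⟩ := hc0
  obtain ⟨v, hv⟩ := hu.exists_right_inv
  have h1 : aeval α (divX f) * α + algebraMap R L (f.coeff 0) = 0 := by
    have := hroot
    rw [← divX_mul_X_add f] at this
    simpa using this
  refine ⟨-(aeval α (divX f)) * algebraMap R L v, ?_, ?_⟩
  · exact Subalgebra.mul_mem _ (Subalgebra.neg_mem _ ((nbc_mem_adjoin_iff α _).2 ⟨_, rfl⟩))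
      (Subalgebra.algebraMap_mem _ _)
  · have h2 : algebraMap R L p = algebraMap R L (f.coeff 0) * algebraMap R L v := by
      rw [← map_mul, hu0, mul_assoc, hv, mul_one]
    rw [h2]
    linear_combination (algebraMap R L v) * h1

variable [IsDomain R] [IsIntegrallyClosed R] [IsDomain L] [Module.IsTorsionFree R L]

/-- If `α ∣ c` in `R[α]` for `c ∈ R`, then `p ∣ c` in `R`, where `p` divides the constant
coefficient of the minimal polynomial of `α`. -/
theorem nbc_dvd_of_gen_mul {α : L} (hα : IsIntegral R α) {p : R}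
    (hc0 : p ∣ (minpoly R α).coeff 0) {c : R} {z : L}
    (hz : z ∈ Algebra.adjoin R ({α} : Set L)) (h : algebraMap R L c = α * z) : p ∣ c := by
  obtain ⟨g, rfl⟩ := (nbc_mem_adjoin_iff α z).1 hz
  have h0 : aeval α (C c - X * g) = 0 := by
    simp only [map_sub, aeval_C, map_mul, aeval_X]
    rw [h, sub_self]
  obtain ⟨q, hq⟩ := (minpoly.isIntegrallyClosed_dvd_iff hα _).1 h0
  have h1 := congrArg (fun P : R[X] => P.coeff 0) hq
  simp only [coeff_sub, coeff_C_zero, mul_coeff_zero, coeff_X_zero, zero_mul, sub_zero] at h1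
  rw [h1]
  exact Dvd.dvd.mul_right hc0 _

/-- The generator `α` as an element of `R[α]`. -/
noncomputable def nbcGen (R : Type*) {L : Type*} [CommRing R] [CommRing L] [Algebra R L]
    (α : L) : Algebra.adjoin R ({α} : Set L) :=
  ⟨α, Algebra.self_mem_adjoin_singleton R α⟩

omit [IsDomain R] [IsIntegrallyClosed R] [IsDomain L] [Module.IsTorsionFree R L] in
@[simp] theorem nbcGen_coe (α : L) : ((nbcGen R α : Algebra.adjoin R ({α} : Set L)) : L) = α :=
  rfl

omit [IsDomain R] [IsIntegrallyClosed R] [IsDomain L] [Module.IsTorsionFree R L] in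
/-- Divisibility by the generator, in terms of `L`. -/
theorem nbcGen_dvd_iff (α : L) (y : Algebra.adjoin R ({α} : Set L)) :
    nbcGen R α ∣ y ↔ ∃ z' : L, z' ∈ Algebra.adjoin R ({α} : Set L) ∧ (y : L) = α * z' := by
  constructor
  · rintro ⟨w, rfl⟩
    exact ⟨w, w.2, rfl⟩
  · rintro ⟨z', hz', h⟩
    exact ⟨⟨z', hz'⟩, Subtype.ext h⟩

/-- The map `R / p → R[α] / α`. -/
noncomputable def nbcFibreHom (α : L) {p : R}
    (hp : nbcGen R α ∣ algebraMap R (Algebra.adjoin R ({α} : Set L)) p) :
    R ⧸ Ideal.span {p} →+* Algebra.adjoin R ({α} : Set L) ⧸ Ideal.span {nbcGen R α} :=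
  Ideal.Quotient.lift _
    ((Ideal.Quotient.mk _).comp (algebraMap R (Algebra.adjoin R ({α} : Set L))))
    (by
      intro a ha
      obtain ⟨b, rfl⟩ := Ideal.mem_span_singleton.1 ha
      rw [RingHom.comp_apply, Ideal.Quotient.eq_zero_iff_mem, Ideal.mem_span_singleton,
        map_mul]
      exact Dvd.dvd.mul_right hp _)

omit [IsDomain R] [IsIntegrallyClosed R] [IsDomain L] [Module.IsTorsionFree R L] in
@[simp] theorem nbcFibreHom_mk (α : L) {p : R}
    (hp : nbcGen R α ∣ algebraMap R (Algebra.adjoin R ({α} : Set L)) p) (c : R) :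
    nbcFibreHom α hp (Ideal.Quotient.mk _ c) =
      Ideal.Quotient.mk _ (algebraMap R (Algebra.adjoin R ({α} : Set L)) c) := rfl

omit [IsDomain R] [IsIntegrallyClosed R] [IsDomain L] [Module.IsTorsionFree R L] in
theorem nbcFibreHom_surjective (α : L) {p : R}
    (hp : nbcGen R α ∣ algebraMap R (Algebra.adjoin R ({α} : Set L)) p) :
    Function.Surjective (nbcFibreHom α hp) := by
  intro y
  obtain ⟨z, rfl⟩ := Ideal.Quotient.mk_surjective y
  obtain ⟨c, z', hz', h⟩ := nbc_exists_eq_add_mul α z.2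
  refine ⟨Ideal.Quotient.mk _ c, ?_⟩
  rw [nbcFibreHom_mk, Ideal.Quotient.eq, Ideal.mem_span_singleton]
  refine ⟨-⟨z', hz'⟩, Subtype.ext ?_⟩
  simp only [Subalgebra.coe_sub, Subalgebra.coe_algebraMap, Subalgebra.coe_mul, nbcGen_coe,
    Subalgebra.coe_neg]
  rw [h]
  ring

theorem nbcFibreHom_injective {α : L} (hα : IsIntegral R α) {p : R}
    (hc0 : p ∣ (minpoly R α).coeff 0)
    (hp : nbcGen R α ∣ algebraMap R (Algebra.adjoin R ({α} : Set L)) p) :
    Function.Injective (nbcFibreHom α hp) := by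
  rw [injective_iff_map_eq_zero]
  intro x hx
  obtain ⟨c, rfl⟩ := Ideal.Quotient.mk_surjective x
  rw [nbcFibreHom_mk, Ideal.Quotient.eq_zero_iff_mem, Ideal.mem_span_singleton,
    nbcGen_dvd_iff] at hx
  obtain ⟨z', hz', h⟩ := hx
  rw [Ideal.Quotient.eq_zero_iff_mem, Ideal.mem_span_singleton]
  exact nbc_dvd_of_gen_mul hα hc0 hz' h

/-- **U8, special fibre**: `R / p ≃+* R[α] / α`. -/
noncomputable def nbcFibreEquiv {α : L} (hα : IsIntegral R α) {p : R}
    (hc0 : p ∣ (minpoly R α).coeff 0)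
    (hp : nbcGen R α ∣ algebraMap R (Algebra.adjoin R ({α} : Set L)) p) :
    R ⧸ Ideal.span {p} ≃+* Algebra.adjoin R ({α} : Set L) ⧸ Ideal.span {nbcGen R α} :=
  RingEquiv.ofBijective (nbcFibreHom α hp)
    ⟨nbcFibreHom_injective hα hc0 hp, nbcFibreHom_surjective α hp⟩

@[simp] theorem nbcFibreEquiv_mk {α : L} (hα : IsIntegral R α) {p : R}
    (hc0 : p ∣ (minpoly R α).coeff 0)
    (hp : nbcGen R α ∣ algebraMap R (Algebra.adjoin R ({α} : Set L)) p) (c : R) :
    nbcFibreEquiv hα hc0 hp (Ideal.Quotient.mk _ c) =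
      Ideal.Quotient.mk _ (algebraMap R (Algebra.adjoin R ({α} : Set L)) c) := rfl

end Fibre

end Fermat.Agent.UNIP


end ZBUNIP_003_0

/-! ### bundled: `Fermat.Agent.UNIP.NormalBC` -/
section ZBUNIP_003_1
/-
UNIP / U8 (helper16): normality is preserved by a totally ramified (Eisenstein) base change
when the special fibre is reduced.

`A₀` a DVR with uniformizer `π`, `R ⊇ A₀` an integrally closed domain with `R / π` reduced,
`K = Frac R`, `f ∈ A₀[X]` an Eisenstein polynomial, `L = K(α)`, `f(α) = 0`, `[L : K] = deg f`.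
Then the integral closure of `R` in `L` is `R[α]` (`normalBC`, `normalBC_isIntegralClosure`),
`R[α] / α ≅ R / π` (`normalBC_fibreEquiv`), and `f` stays irreducible over `K`
(`normalBC_irreducible`), so that `[L : K] = deg f` is automatic (`normalBC_natDegree_eq`).
-/

set_option autoImplicit false

open Polynomial Algebra

namespace Fermat.Agent.UNIP

section Main

variable {A₀ R K L : Type*} [CommRing A₀] [IsDomain A₀] [IsDiscreteValuationRing A₀]
  [CommRing R] [IsDomain R] [IsIntegrallyClosed R] [Algebra A₀ R]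
  [Field K] [Algebra R K] [IsFractionRing R K] [Algebra A₀ K] [IsScalarTower A₀ R K]
  [Field L] [Algebra K L] [Algebra R L] [IsScalarTower R K L] [Algebra A₀ L]
  [IsScalarTower A₀ K L] [IsScalarTower A₀ R L]

omit [IsDiscreteValuationRing A₀] [IsScalarTower A₀ K L] [IsScalarTower A₀ R L] [Algebra A₀ L]
  [IsScalarTower R K L] [Algebra R L] [Algebra K L] [Field L] [IsScalarTower A₀ R K]
  [IsFractionRing R K] [Algebra R K] [IsIntegrallyClosed R] [IsDomain R] [CommRing R]
  [Algebra A₀ R] in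
/-- A nonzero integral element is a root of a monic polynomial with nonzero constant term. -/
theorem nbc_exists_monic_coeff_zero_ne {d : K} (hd : IsIntegral A₀ d) (hd0 : d ≠ 0) :
    ∃ g : A₀[X], g.Monic ∧ aeval d g = 0 ∧ g.coeff 0 ≠ 0 := by
  obtain ⟨g, hgm, hg⟩ := hd
  obtain ⟨q, hq, hnd⟩ := exists_eq_pow_rootMultiplicity_mul_and_not_dvd g hgm.ne_zero 0
  rw [C_0, sub_zero] at hq hnd
  refine ⟨q, ?_, ?_, ?_⟩
  · exact Monic.of_mul_monic_left (monic_X_pow _) (hq ▸ hgm)
  · have h : aeval d g = 0 := by simpa [aeval_def] using hg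
    rw [hq, map_mul, map_pow, aeval_X] at h
    exact (mul_eq_zero.1 h).resolve_left (pow_ne_zero _ hd0)
  · rwa [Ne, ← X_dvd_iff]

omit [IsScalarTower A₀ K L] [IsScalarTower A₀ R L] [Algebra A₀ L] [IsScalarTower R K L]
  [Algebra R L] [Algebra K L] [Field L] [IsDomain R] in
/-- A nonzero element of `K` that is integral over the DVR `A₀` divides a power of `π` in `R`. -/
theorem nbc_exists_mul_eq_pow {π : A₀} (hπ : Irreducible π) {d : K} (hd : IsIntegral A₀ d)
    (hd0 : d ≠ 0) :
    ∃ (w : R) (r : ℕ), d * algebraMap R K w = algebraMap A₀ K (π ^ r) := by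
  obtain ⟨g, -, hroot, hc0⟩ := nbc_exists_monic_coeff_zero_ne hd hd0
  obtain ⟨r, hr⟩ := IsDiscreteValuationRing.associated_pow_irreducible hc0 hπ
  obtain ⟨u, hu⟩ := hr
  have hsplit : g = divX g * X + C (g.coeff 0) := (divX_mul_X_add g).symm
  have h1 : aeval d (divX g) * d + algebraMap A₀ K (g.coeff 0) = 0 := by
    have := hroot
    rw [hsplit] at this
    simpa using this
  set w' : K := -(aeval d (divX g)) * algebraMap A₀ K (u : A₀) with hw'
  have hw'int : IsIntegral R w' := by
    have h2 : IsIntegral A₀ w' := by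
      refine IsIntegral.mul (IsIntegral.neg ?_) isIntegral_algebraMap
      have hmem : aeval d (divX g) ∈ Algebra.adjoin A₀ ({d} : Set K) := by
        rw [Algebra.adjoin_singleton_eq_range_aeval]
        exact ⟨_, rfl⟩
      exact (_root_.adjoin_le_integralClosure hd) hmem
    exact h2.tower_top
  obtain ⟨w, hw⟩ := IsIntegrallyClosed.isIntegral_iff.1 hw'int
  refine ⟨w, r, ?_⟩
  rw [hw, hw', ← hu, map_mul]
  linear_combination (-(algebraMap A₀ K (u : A₀))) * h1

/-- **U8, normality.** Let `A₀` be a DVR with uniformizer `π`, `R` an integrally closed domain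
over `A₀` such that `R / π` is reduced, `K = Frac R`, and `L = K(α)` where `α` is a root of an
Eisenstein polynomial `f ∈ A₀[X]` with `deg f = [L : K]`.  Then every element of `L` integral
over `R` lies in `R[α]`. -/
theorem normalBC {π : A₀} (hπ : Irreducible π)
    (hπ0 : algebraMap A₀ R π ≠ 0)
    (hred : ∀ c : R, algebraMap A₀ R π ∣ c ^ 2 → algebraMap A₀ R π ∣ c)
    (B : PowerBasis K L) [Algebra.IsSeparable K L]
    (f : A₀[X]) (hfm : f.Monic) (hfE : f.IsEisensteinAt (Ideal.span {π}))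
    (hroot : aeval B.gen f = 0) (hdeg : f.natDegree = B.dim)
    {z : L} (hz : IsIntegral R z) : z ∈ Algebra.adjoin R ({B.gen} : Set L) := by
  have hBintA : IsIntegral A₀ B.gen := ⟨f, hfm, by simpa [aeval_def] using hroot⟩
  have hBint : IsIntegral R B.gen := hBintA.tower_top
  -- the minimal polynomial
  have hminK : minpoly K B.gen = f.map (algebraMap A₀ K) := by
    have hdvd : minpoly K B.gen ∣ f.map (algebraMap A₀ K) :=
      minpoly.dvd K B.gen (by rw [aeval_map_algebraMap]; exact hroot)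
    have hle : (f.map (algebraMap A₀ K)).natDegree ≤ (minpoly K B.gen).natDegree := by
      rw [hfm.natDegree_map, B.natDegree_minpoly, hdeg]
    exact (eq_of_monic_of_dvd_of_natDegree_le (minpoly.monic (hBint.tower_top))
      (hfm.map _) hdvd hle).symm
  have hmin : minpoly R B.gen = f.map (algebraMap A₀ R) := by
    apply Polynomial.map_injective (algebraMap R K) (IsFractionRing.injective R K)
    rw [← minpoly.isIntegrallyClosed_eq_field_fractions' K hBint, hminK, Polynomial.map_map,
      ← IsScalarTower.algebraMap_eq]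
  -- the constant coefficient
  have hc0 : ∃ u : R, IsUnit u ∧ (minpoly R B.gen).coeff 0 = algebraMap A₀ R π * u := by
    have h0 : f.coeff 0 ∈ Ideal.span {π} := by
      have hpos : 0 < f.natDegree := hdeg ▸ B.dim_pos
      exact hfE.mem hpos
    obtain ⟨c, hc⟩ := Ideal.mem_span_singleton.1 h0
    have hcu : IsUnit c := by
      by_contra hcn
      have hcm : c ∈ IsLocalRing.maximalIdeal A₀ := (IsLocalRing.mem_maximalIdeal c).2 hcn
      rw [Irreducible.maximalIdeal_eq hπ] at hcm
      obtain ⟨c', hc'⟩ := Ideal.mem_span_singleton.1 hcm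
      apply hfE.notMem
      rw [Ideal.span_singleton_pow, Ideal.mem_span_singleton]
      exact ⟨c', by rw [hc, hc']; ring⟩
    refine ⟨algebraMap A₀ R c, hcu.map _, ?_⟩
    rw [hmin, coeff_map, hc, map_mul]
  -- weakly Eisenstein over `R`
  have hei : (minpoly R B.gen).IsWeaklyEisensteinAt (Submodule.span R {algebraMap A₀ R π}) := by
    rw [hmin]
    have := hfE.isWeaklyEisensteinAt.map (algebraMap A₀ R)
    rwa [Ideal.map_span, Set.image_singleton] at this
  -- the discriminant divides a power of `π`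
  have : Module.Finite K L := B.finite
  have hd0 : discr K B.basis ≠ 0 := discr_not_zero_of_basis K B.basis
  have hdint : IsIntegral A₀ (discr K B.basis) :=
    discr_isIntegral K fun i => by rw [B.basis_eq_pow]; exact hBintA.pow _
  obtain ⟨w, r, hw⟩ := nbc_exists_mul_eq_pow (R := R) hπ hdint hd0
  have h1 : discr K B.basis • z ∈ Algebra.adjoin R ({B.gen} : Set L) :=
    discr_mul_isIntegral_mem_adjoin K hBint hz
  have h2 : (algebraMap A₀ R π) ^ r • z ∈ Algebra.adjoin R ({B.gen} : Set L) := by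
    have e : (algebraMap A₀ R π) ^ r • z = w • (discr K B.basis • z) := by
      rw [Algebra.smul_def, Algebra.smul_def, Algebra.smul_def, ← mul_assoc]
      congr 1
      rw [IsScalarTower.algebraMap_apply R K L, IsScalarTower.algebraMap_apply R K L w,
        ← map_mul, map_pow, ← IsScalarTower.algebraMap_apply A₀ R K, ← map_pow, ← hw, mul_comm]
    rw [e]
    exact Subalgebra.smul_mem _ h1 _
  exact nbc_mem_adjoin_of_pow_smul hπ0 hred hc0 hBint hz h2 hei

omit [IsScalarTower A₀ K L] [IsScalarTower A₀ R L] [Algebra A₀ L] [IsScalarTower R K L]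
  [Algebra R L] [Algebra K L] [Field L] [IsDomain R] [IsIntegrallyClosed R]
  [IsScalarTower A₀ R K] [Algebra A₀ K] [IsFractionRing R K] [Algebra R K] [Field K] in
/-- The data "constant coefficient is `π * unit`" for an Eisenstein polynomial over a DVR. -/
theorem nbc_coeff_zero_eq {π : A₀} (hπ : Irreducible π)
    (f : A₀[X]) (hfE : f.IsEisensteinAt (Ideal.span {π})) (hfdeg : 0 < f.natDegree) :
    ∃ u : R, IsUnit u ∧ (f.map (algebraMap A₀ R)).coeff 0 = algebraMap A₀ R π * u := by
  have h0 : f.coeff 0 ∈ Ideal.span {π} := hfE.mem hfdeg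
  obtain ⟨c, hc⟩ := Ideal.mem_span_singleton.1 h0
  have hcu : IsUnit c := by
    by_contra hcn
    have hcm : c ∈ IsLocalRing.maximalIdeal A₀ := (IsLocalRing.mem_maximalIdeal c).2 hcn
    rw [Irreducible.maximalIdeal_eq hπ] at hcm
    obtain ⟨c', hc'⟩ := Ideal.mem_span_singleton.1 hcm
    apply hfE.notMem
    rw [Ideal.span_singleton_pow, Ideal.mem_span_singleton]
    exact ⟨c', by rw [hc, hc']; ring⟩
  refine ⟨algebraMap A₀ R c, hcu.map _, ?_⟩
  rw [coeff_map, hc, map_mul]

omit [IsScalarTower A₀ K L] [IsScalarTower A₀ R L] [Algebra A₀ L] [IsScalarTower R K L]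
  [Algebra R L] [Algebra K L] [Field L] in
/-- **U8, irreducibility.** An Eisenstein polynomial over the DVR `A₀` stays irreducible over
the fraction field of any integrally closed domain `R ⊇ A₀` in which `π` is a nonzero
nonunit with `R / π` reduced. -/
theorem normalBC_irreducible {π : A₀} (hπ : Irreducible π)
    (hπ0 : algebraMap A₀ R π ≠ 0) (hπu : ¬ IsUnit (algebraMap A₀ R π))
    (hred : ∀ c : R, algebraMap A₀ R π ∣ c ^ 2 → algebraMap A₀ R π ∣ c)
    (f : A₀[X]) (hfm : f.Monic) (hfE : f.IsEisensteinAt (Ideal.span {π}))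
    (hfdeg : 0 < f.natDegree) :
    Irreducible (f.map (algebraMap A₀ K)) := by
  have h := nbc_irreducible_map_of_eisenstein (K := K) hπ0 hπu hred (hfm.map (algebraMap A₀ R))
    (by rwa [hfm.natDegree_map])
    (fun i hi => by
      rw [hfm.natDegree_map] at hi
      obtain ⟨c, hc⟩ := Ideal.mem_span_singleton.1 (hfE.mem hi)
      rw [coeff_map, hc, map_mul]
      exact dvd_mul_right _ _)
    (nbc_coeff_zero_eq hπ f hfE hfdeg)
  rwa [Polynomial.map_map, ← IsScalarTower.algebraMap_eq] at h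

omit [IsScalarTower A₀ R L] [Algebra R L] [IsScalarTower R K L] in
/-- The minimal polynomial over `K` of a root of `f` is `f`. -/
theorem normalBC_minpoly_eq {π : A₀} (hπ : Irreducible π)
    (hπ0 : algebraMap A₀ R π ≠ 0) (hπu : ¬ IsUnit (algebraMap A₀ R π))
    (hred : ∀ c : R, algebraMap A₀ R π ∣ c ^ 2 → algebraMap A₀ R π ∣ c)
    (f : A₀[X]) (hfm : f.Monic) (hfE : f.IsEisensteinAt (Ideal.span {π}))
    (hfdeg : 0 < f.natDegree) {α : L} (hroot : aeval α f = 0) :
    minpoly K α = f.map (algebraMap A₀ K) :=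
  (minpoly.eq_of_irreducible_of_monic
    (normalBC_irreducible (R := R) hπ hπ0 hπu hred f hfm hfE hfdeg)
    (by rw [aeval_map_algebraMap]; exact hroot) (hfm.map _)).symm

omit [IsScalarTower A₀ R L] [Algebra R L] [IsScalarTower R K L] in
/-- `[L : K] = deg f` is automatic. -/
theorem normalBC_natDegree_eq {π : A₀} (hπ : Irreducible π)
    (hπ0 : algebraMap A₀ R π ≠ 0) (hπu : ¬ IsUnit (algebraMap A₀ R π))
    (hred : ∀ c : R, algebraMap A₀ R π ∣ c ^ 2 → algebraMap A₀ R π ∣ c)
    (B : PowerBasis K L)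
    (f : A₀[X]) (hfm : f.Monic) (hfE : f.IsEisensteinAt (Ideal.span {π}))
    (hroot : aeval B.gen f = 0) : f.natDegree = B.dim := by
  have hfdeg : 0 < f.natDegree := by
    rcases Nat.eq_zero_or_pos f.natDegree with h0 | h0
    · exfalso
      have h1 : f = 1 := hfm.natDegree_eq_zero.1 h0
      rw [h1] at hroot
      simp at hroot
    · exact h0
  rw [← B.natDegree_minpoly, normalBC_minpoly_eq (R := R) hπ hπ0 hπu hred f hfm hfE hfdeg hroot,
    hfm.natDegree_map]

/-- **U8, normality**, with the degree hypothesis discharged. -/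
theorem normalBC' {π : A₀} (hπ : Irreducible π)
    (hπ0 : algebraMap A₀ R π ≠ 0) (hπu : ¬ IsUnit (algebraMap A₀ R π))
    (hred : ∀ c : R, algebraMap A₀ R π ∣ c ^ 2 → algebraMap A₀ R π ∣ c)
    (B : PowerBasis K L) [Algebra.IsSeparable K L]
    (f : A₀[X]) (hfm : f.Monic) (hfE : f.IsEisensteinAt (Ideal.span {π}))
    (hroot : aeval B.gen f = 0)
    {z : L} (hz : IsIntegral R z) : z ∈ Algebra.adjoin R ({B.gen} : Set L) :=
  normalBC hπ hπ0 hred B f hfm hfE hroot
    (normalBC_natDegree_eq (R := R) hπ hπ0 hπu hred B f hfm hfE hroot) hz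

/-- **U8, normality**: `R[α]` is the integral closure of `R` in `L`. -/
theorem normalBC_isIntegralClosure {π : A₀} (hπ : Irreducible π)
    (hπ0 : algebraMap A₀ R π ≠ 0) (hπu : ¬ IsUnit (algebraMap A₀ R π))
    (hred : ∀ c : R, algebraMap A₀ R π ∣ c ^ 2 → algebraMap A₀ R π ∣ c)
    (B : PowerBasis K L) [Algebra.IsSeparable K L]
    (f : A₀[X]) (hfm : f.Monic) (hfE : f.IsEisensteinAt (Ideal.span {π}))
    (hroot : aeval B.gen f = 0) :
    IsIntegralClosure (Algebra.adjoin R ({B.gen} : Set L)) R L where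
  algebraMap_injective := Subtype.val_injective
  isIntegral_iff := by
    intro z
    have hBintA : IsIntegral A₀ B.gen := ⟨f, hfm, by simpa [aeval_def] using hroot⟩
    have hBint : IsIntegral R B.gen := hBintA.tower_top
    constructor
    · intro hz
      exact ⟨⟨z, normalBC' hπ hπ0 hπu hred B f hfm hfE hroot hz⟩, rfl⟩
    · rintro ⟨y, rfl⟩
      exact (_root_.adjoin_le_integralClosure hBint) y.2

/-- **U8, normality**: the integral closure of `R` in `L` is `R[α]`, as subalgebras. -/
theorem normalBC_integralClosure_eq {π : A₀} (hπ : Irreducible π)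
    (hπ0 : algebraMap A₀ R π ≠ 0) (hπu : ¬ IsUnit (algebraMap A₀ R π))
    (hred : ∀ c : R, algebraMap A₀ R π ∣ c ^ 2 → algebraMap A₀ R π ∣ c)
    (B : PowerBasis K L) [Algebra.IsSeparable K L]
    (f : A₀[X]) (hfm : f.Monic) (hfE : f.IsEisensteinAt (Ideal.span {π}))
    (hroot : aeval B.gen f = 0) :
    integralClosure R L = Algebra.adjoin R ({B.gen} : Set L) := by
  have hBintA : IsIntegral A₀ B.gen := ⟨f, hfm, by simpa [aeval_def] using hroot⟩
  have hBint : IsIntegral R B.gen := hBintA.tower_top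
  refine le_antisymm (fun z hz => ?_) (_root_.adjoin_le_integralClosure hBint)
  exact normalBC' hπ hπ0 hπu hred B f hfm hfE hroot hz

end Main

section Fibre2

variable {A₀ R L : Type*} [CommRing A₀] [IsDomain A₀] [IsDiscreteValuationRing A₀]
  [CommRing R] [IsDomain R] [IsIntegrallyClosed R] [Algebra A₀ R]
  [Field L] [Algebra R L] [Algebra A₀ L] [IsScalarTower A₀ R L]

omit [IsIntegrallyClosed R] in
/-- `L` is torsion-free over `R`. -/
theorem nbc_isTorsionFree (K : Type*) [Field K] [Algebra R K] [IsFractionRing R K]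
    [Algebra K L] [IsScalarTower R K L] : Module.IsTorsionFree R L := by
  have : FaithfulSMul R L := by
    rw [faithfulSMul_iff_algebraMap_injective, IsScalarTower.algebraMap_eq R K L]
    exact (algebraMap K L).injective.comp (IsFractionRing.injective R K)
  infer_instance

/-- The minimal polynomial over `R` of a root of `f` is `f`. -/
theorem normalBC_minpoly_eq' (K : Type*) [Field K] [Algebra R K] [IsFractionRing R K]
    [Algebra A₀ K] [IsScalarTower A₀ R K] [Algebra K L] [IsScalarTower R K L]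
    [IsScalarTower A₀ K L] {π : A₀} (hπ : Irreducible π)
    (hπ0 : algebraMap A₀ R π ≠ 0) (hπu : ¬ IsUnit (algebraMap A₀ R π))
    (hred : ∀ c : R, algebraMap A₀ R π ∣ c ^ 2 → algebraMap A₀ R π ∣ c)
    (f : A₀[X]) (hfm : f.Monic) (hfE : f.IsEisensteinAt (Ideal.span {π}))
    (hfdeg : 0 < f.natDegree) {α : L} (hroot : aeval α f = 0) :
    minpoly R α = f.map (algebraMap A₀ R) := by
  have hαA : IsIntegral A₀ α := ⟨f, hfm, by simpa [aeval_def] using hroot⟩
  have hα : IsIntegral R α := hαA.tower_top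
  apply Polynomial.map_injective (algebraMap R K) (IsFractionRing.injective R K)
  rw [← minpoly.isIntegrallyClosed_eq_field_fractions' K hα,
    normalBC_minpoly_eq (R := R) (K := K) hπ hπ0 hπu hred f hfm hfE hfdeg hroot,
    Polynomial.map_map, ← IsScalarTower.algebraMap_eq]

/-- **U8, special fibre**: `R / π ≃+* R[α] / α` for a root `α` of the Eisenstein polynomial
`f`; it sends the class of `c ∈ R` to the class of `c` (`normalBC_fibreEquiv_mk`). -/
noncomputable def normalBC_fibreEquiv (K : Type*) [Field K] [Algebra R K] [IsFractionRing R K]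
    [Algebra A₀ K] [IsScalarTower A₀ R K] [Algebra K L] [IsScalarTower R K L]
    [IsScalarTower A₀ K L] {π : A₀} (hπ : Irreducible π)
    (hπ0 : algebraMap A₀ R π ≠ 0) (hπu : ¬ IsUnit (algebraMap A₀ R π))
    (hred : ∀ c : R, algebraMap A₀ R π ∣ c ^ 2 → algebraMap A₀ R π ∣ c)
    (f : A₀[X]) (hfm : f.Monic) (hfE : f.IsEisensteinAt (Ideal.span {π}))
    (hfdeg : 0 < f.natDegree) {α : L} (hroot : aeval α f = 0) :
    R ⧸ Ideal.span {algebraMap A₀ R π} ≃+*
      Algebra.adjoin R ({α} : Set L) ⧸ Ideal.span {nbcGen R α} :=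
  haveI : Module.IsTorsionFree R L := nbc_isTorsionFree K
  nbcFibreEquiv (R := R) (L := L) (α := α)
    (IsIntegral.tower_top (A := R) ⟨f, hfm, by simpa [aeval_def] using hroot⟩)
    (by
      rw [normalBC_minpoly_eq' K hπ hπ0 hπu hred f hfm hfE hfdeg hroot]
      obtain ⟨u, -, hu⟩ := nbc_coeff_zero_eq (R := R) hπ f hfE hfdeg
      exact ⟨u, hu⟩)
    (by
      rw [nbcGen_dvd_iff]
      have hroot' : aeval α (f.map (algebraMap A₀ R)) = 0 := by
        rw [aeval_map_algebraMap]; exact hroot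
      exact nbc_gen_dvd α hroot' (nbc_coeff_zero_eq (R := R) hπ f hfE hfdeg))

@[simp] theorem normalBC_fibreEquiv_mk (K : Type*) [Field K] [Algebra R K]
    [IsFractionRing R K]
    [Algebra A₀ K] [IsScalarTower A₀ R K] [Algebra K L] [IsScalarTower R K L]
    [IsScalarTower A₀ K L] {π : A₀} (hπ : Irreducible π)
    (hπ0 : algebraMap A₀ R π ≠ 0) (hπu : ¬ IsUnit (algebraMap A₀ R π))
    (hred : ∀ c : R, algebraMap A₀ R π ∣ c ^ 2 → algebraMap A₀ R π ∣ c)
    (f : A₀[X]) (hfm : f.Monic) (hfE : f.IsEisensteinAt (Ideal.span {π}))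
    (hfdeg : 0 < f.natDegree) {α : L} (hroot : aeval α f = 0) (c : R) :
    normalBC_fibreEquiv K hπ hπ0 hπu hred f hfm hfE hfdeg hroot (Ideal.Quotient.mk _ c) =
      Ideal.Quotient.mk _ (algebraMap R (Algebra.adjoin R ({α} : Set L)) c) := rfl

/-- **U8, special fibre, elementwise**: for `c ∈ R`, `α ∣ c` in `R[α]` iff `π ∣ c` in `R`. -/
theorem normalBC_gen_dvd_iff (K : Type*) [Field K] [Algebra R K] [IsFractionRing R K]
    [Algebra A₀ K] [IsScalarTower A₀ R K] [Algebra K L] [IsScalarTower R K L]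
    [IsScalarTower A₀ K L] {π : A₀} (hπ : Irreducible π)
    (hπ0 : algebraMap A₀ R π ≠ 0) (hπu : ¬ IsUnit (algebraMap A₀ R π))
    (hred : ∀ c : R, algebraMap A₀ R π ∣ c ^ 2 → algebraMap A₀ R π ∣ c)
    (f : A₀[X]) (hfm : f.Monic) (hfE : f.IsEisensteinAt (Ideal.span {π}))
    (hfdeg : 0 < f.natDegree) {α : L} (hroot : aeval α f = 0) (c : R) :
    nbcGen R α ∣ algebraMap R (Algebra.adjoin R ({α} : Set L)) c ↔ algebraMap A₀ R π ∣ c := by
  have h := (normalBC_fibreEquiv K hπ hπ0 hπu hred f hfm hfE hfdeg hroot).injective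
  rw [← Ideal.mem_span_singleton, ← Ideal.Quotient.eq_zero_iff_mem,
    ← normalBC_fibreEquiv_mk K hπ hπ0 hπu hred f hfm hfE hfdeg hroot c,
    map_eq_zero_iff _ h, Ideal.Quotient.eq_zero_iff_mem, Ideal.mem_span_singleton]

end Fibre2

end Fermat.Agent.UNIP


end ZBUNIP_003_1
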