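/- GENERATED FILE (helper35, build-time optimisation, NOTES/ZB.md): verbatim concatenation of the modules
   Fermat.Agent.INJ.KummerSetup
   Do not edit; do not import together with these modules. -/
import Fermat.Agent.ZB.INJ_002
import Mathlib.FieldTheory.KummerExtension
import Fermat.Agent.ZB.INJ_017

/-! ### bundled: `Fermat.Agent.INJ.KummerSetup` -/
section ZBINJ_035_0

/-!
# (INJ) piece T4a: the Kummer base change `s ^ e = τ - c`

`Lf / E` a function field in the sense of `TSStmt.lean`, `a = τ - c ∈ Lf` with a place `P₀` at which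
`ord a = ± 1`.  Then `X ^ e - C a` is irreducible over `Lf` (norm trick, no roots of unity needed)
and `L' := AdjoinRoot (X ^ e - C a)` is a field in which `s := AdjoinRoot.root _` satisfies
`s ^ e = a`, `L' = Lf(s)`, `L' / Lf` is Galois (if `μ_e ⊂ Lf`), `s` is transcendental over `E`,
`L'` is finite over `E(s)`, and a good basis of `Lf / E(τ)` (`TSGoodBasis π τ`) is a good basis
of `L' / E(s)` (`TSGoodBasis π s`), with discriminant `d(X ^ e + c)`.

Main results
* `irreducible_X_pow_sub_C_of_ord`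
* `kummer_span`, `kummer_linearIndependent`, `kummer_trace`, `kummer_discr` (generic transfer,
  for any `L' = Lf[s]` in which `1, s, …, s ^ (e-1)` are `Lf`-independent)
* `tsGoodBasis_kummer` : `TSGoodBasis π τ → TSGoodBasis π s`
* `exists_kummerSetup` : the package consumed by (N-tame).
-/

set_option autoImplicit false
set_option linter.unusedSectionVars false
set_option linter.style.haveILetI false

namespace Fermat.Agent.INJ

open Polynomial IntermediateField AlgebraicCurve

universe u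

section Irreducible

variable {E Lf : Type*} [Field E] [Field Lf] [Algebra E Lf]

theorem kummer_place_ord_pow (P : Place E Lf) (x : Lf) (n : ℕ) : P.ord (x ^ n) = n * P.ord x := by
  have := P.ord_zpow x (n : ℤ)
  simpa using this

/-- If `ord_{P₀} a = ± 1` then `X ^ e - a` is irreducible (`e ≠ 0`). -/
theorem irreducible_X_pow_sub_C_of_ord {e : ℕ} (he : e ≠ 0) {a : Lf} (P₀ : Place E Lf)
    (h : P₀.ord a = 1 ∨ P₀.ord a = -1) : Irreducible (X ^ e - C a : Lf[X]) := by
  have hpos : 0 < e := Nat.pos_of_ne_zero he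
  have hnu : ¬ IsUnit (X ^ e - C a : Lf[X]) := by
    rw [Polynomial.isUnit_iff_degree_eq_zero, degree_X_pow_sub_C hpos, Nat.cast_eq_zero]
    exact he
  obtain ⟨g, hg, hg'⟩ := WfDvdMonoid.exists_irreducible_factor hnu (X_pow_sub_C_ne_zero hpos a)
  suffices hdeg : natDegree g = e from
    (associated_of_dvd_of_natDegree_le hg' (X_pow_sub_C_ne_zero hpos a)
      (hdeg.trans natDegree_X_pow_sub_C.symm).ge).irreducible hg
  haveI := Fact.mk hg
  have key : (Algebra.norm Lf (AdjoinRoot.root g)) ^ e = a ^ g.natDegree := by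
    have := eval₂_eq_zero_of_dvd_of_eval₂_eq_zero _ _ hg' (AdjoinRoot.eval₂_root g)
    rw [eval₂_sub, eval₂_pow, eval₂_C, eval₂_X, sub_eq_zero] at this
    rw [← map_pow, this, ← AdjoinRoot.algebraMap_eq, Algebra.norm_algebraMap,
      (AdjoinRoot.powerBasis hg.ne_zero).finrank, AdjoinRoot.powerBasis_dim hg.ne_zero]
  have hord := congrArg P₀.ord key
  rw [kummer_place_ord_pow, kummer_place_ord_pow] at hord
  have hdpos : 0 < g.natDegree := natDegree_pos_iff_degree_pos.mpr
    (Polynomial.degree_pos_of_irreducible hg)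
  have hle : g.natDegree ≤ e :=
    (natDegree_le_of_dvd hg' (X_pow_sub_C_ne_zero hpos a)).trans_eq natDegree_X_pow_sub_C
  have hdvd : (e : ℤ) ∣ (g.natDegree : ℤ) := by
    rcases h with h | h
    · rw [h, mul_one] at hord
      exact ⟨_, hord.symm⟩
    · rw [h] at hord
      refine ⟨-(P₀.ord (Algebra.norm Lf (AdjoinRoot.root g))), ?_⟩
      linarith
  have hdvd' : e ∣ g.natDegree := Int.natCast_dvd_natCast.mp hdvd
  exact le_antisymm hle (Nat.le_of_dvd hdpos hdvd')

end Irreducible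

section Transfer

variable {E Lf L' : Type*} [Field E] [Field Lf] [Algebra E Lf] [Field L'] [Algebra Lf L']
  [Algebra E L'] [IsScalarTower E Lf L']


/-- `ι τ ∈ E(s)` implies `ι (E(τ)) ⊆ E(s)`. -/
theorem kummer_map_mem {τ : Lf} {s : L'} (hτs : algebraMap Lf L' τ ∈ E⟮s⟯) (y : E⟮τ⟯) :
    algebraMap Lf L' (y : Lf) ∈ E⟮s⟯ := by
  have h1 : (E⟮τ⟯).map (IsScalarTower.toAlgHom E Lf L') ≤ E⟮s⟯ := by
    rw [IntermediateField.adjoin_map, IntermediateField.adjoin_le_iff]
    rintro _ ⟨x, hx, rfl⟩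
    rw [Set.mem_singleton_iff] at hx
    subst hx
    exact hτs
  exact h1 ⟨y, y.2, rfl⟩

/-- the inclusion `E(τ) → E(s)` induced by `Lf → L'` -/
noncomputable def kummerIncl {τ : Lf} {s : L'} (hτs : algebraMap Lf L' τ ∈ E⟮s⟯) :
    E⟮τ⟯ →+* E⟮s⟯ where
  toFun y := ⟨algebraMap Lf L' (y : Lf), kummer_map_mem hτs y⟩
  map_one' := by ext; simp
  map_mul' x y := by ext; simp
  map_zero' := by ext; simp
  map_add' x y := by ext; simp

@[simp] theorem kummerIncl_coe {τ : Lf} {s : L'} (hτs : algebraMap Lf L' τ ∈ E⟮s⟯) (y : E⟮τ⟯) :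
    ((kummerIncl hτs y : E⟮s⟯) : L') = algebraMap Lf L' (y : Lf) := rfl

theorem kummerIncl_smul {τ : Lf} {s : L'} (hτs : algebraMap Lf L' τ ∈ E⟮s⟯) (y : E⟮τ⟯) (x : Lf) :
    algebraMap Lf L' (y • x) = kummerIncl hτs y • algebraMap Lf L' x := by
  rw [IntermediateField.smul_def, IntermediateField.smul_def, smul_eq_mul, smul_eq_mul, map_mul]
  rfl


theorem kummer_algebraMap_adjoin (τ : Lf) (y : E⟮τ⟯) :
    algebraMap E⟮τ⟯ L' y = algebraMap Lf L' (y : Lf) := rfl

/-- Every element of `E(s)` is a polynomial of degree `< e` in `s` with coefficients in `E(τ)`. -/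
theorem kummer_exists_poly {τ : Lf} {s : L'} {e : ℕ} (he : e ≠ 0) {c : E}
    (hs : s ^ e = algebraMap Lf L' (τ - algebraMap E Lf c)) (g : E⟮s⟯) :
    ∃ r : (E⟮τ⟯)[X], r.natDegree < e ∧ aeval s r = (g : L') := by
  set τF : E⟮τ⟯ := ⟨τ, mem_adjoin_simple_self E τ⟩ with hτF
  set p₀ : (E⟮τ⟯)[X] := X ^ e - C (τF - algebraMap E E⟮τ⟯ c) with hp₀
  have hmonic : p₀.Monic := monic_X_pow_sub_C _ he
  have hroot : aeval s p₀ = 0 := by
    rw [hp₀, map_sub, map_pow, aeval_X, aeval_C, hs, kummer_algebraMap_adjoin]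
    simp [hτF]
  have hint : IsIntegral E⟮τ⟯ s := ⟨p₀, hmonic, hroot⟩
  have hle : E⟮s⟯ ≤ ((E⟮τ⟯)⟮s⟯).restrictScalars E := by
    rw [IntermediateField.adjoin_le_iff]
    intro x hx
    rw [Set.mem_singleton_iff] at hx
    rw [hx]
    exact mem_adjoin_simple_self (E⟮τ⟯) s
  have hg : (g : L') ∈ (E⟮τ⟯)⟮s⟯ := hle g.2
  have hg' : (g : L') ∈ ((E⟮τ⟯)⟮s⟯).toSubalgebra := hg
  rw [IntermediateField.adjoin_simple_toSubalgebra_of_isAlgebraic hint.isAlgebraic,
    Algebra.adjoin_singleton_eq_range_aeval] at hg'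
  obtain ⟨p, hp⟩ := hg'
  refine ⟨p %ₘ p₀, ?_, ?_⟩
  · have hne : p₀ ≠ 1 := by
      intro h
      have := congrArg natDegree h
      rw [hp₀, natDegree_X_pow_sub_C, natDegree_one] at this
      exact he this
    have := natDegree_modByMonic_lt p hmonic hne
    rwa [hp₀, natDegree_X_pow_sub_C] at this
  · have h1 : p %ₘ p₀ = p - p₀ * (p /ₘ p₀) := by
      rw [eq_sub_iff_add_eq, modByMonic_add_div]
    rw [h1, map_sub, map_mul, hroot, zero_mul, sub_zero]
    exact hp

theorem kummer_tau_mem {τ : Lf} {s : L'} {e : ℕ} {c : E}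
    (hs : s ^ e = algebraMap Lf L' (τ - algebraMap E Lf c)) :
    algebraMap Lf L' τ ∈ E⟮s⟯ := by
  have h : algebraMap Lf L' τ = s ^ e + algebraMap E L' c := by
    rw [hs, map_sub, ← IsScalarTower.algebraMap_apply E Lf L']
    ring
  rw [h]
  exact add_mem (pow_mem (mem_adjoin_simple_self E s) e) (E⟮s⟯.algebraMap_mem c)

variable {ι : Type*} [Fintype ι]

/-- spanning: a spanning family of `Lf / E(τ)` spans `L' = Lf[s]` over `E(s)`. -/
theorem kummer_span {τ : Lf} {s : L'} (hτs : algebraMap Lf L' τ ∈ E⟮s⟯)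
    (hgen : Algebra.adjoin Lf {s} = ⊤) {b : ι → Lf}
    (hsp : Submodule.span E⟮τ⟯ (Set.range b) = ⊤) :
    Submodule.span E⟮s⟯ (Set.range fun i => algebraMap Lf L' (b i)) = ⊤ := by
  set W := Submodule.span E⟮s⟯ (Set.range fun i => algebraMap Lf L' (b i)) with hW
  -- (i) the image of `Lf` lies in `W`
  have h1 : ∀ y : Lf, algebraMap Lf L' y ∈ W := by
    intro y
    have hy : y ∈ Submodule.span E⟮τ⟯ (Set.range b) := by rw [hsp]; trivial
    induction hy using Submodule.span_induction with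
    | mem x hx =>
      obtain ⟨i, rfl⟩ := hx
      exact Submodule.subset_span ⟨i, rfl⟩
    | zero => rw [map_zero]; exact W.zero_mem
    | add x y _ _ hx hy => rw [map_add]; exact W.add_mem hx hy
    | smul a x _ hx =>
      rw [kummerIncl_smul hτs]
      exact W.smul_mem _ hx
  -- (ii) polynomials in `s`
  have h2 : ∀ P : Lf[X], aeval s P ∈ W := by
    intro P
    induction P using Polynomial.induction_on' with
    | add p q hp hq => rw [map_add]; exact W.add_mem hp hq
    | monomial n a =>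
      rw [aeval_monomial]
      have : algebraMap Lf L' a * s ^ n
          = (⟨s ^ n, pow_mem (mem_adjoin_simple_self E s) n⟩ : E⟮s⟯) • algebraMap Lf L' a := by
        rw [IntermediateField.smul_def, smul_eq_mul, mul_comm]
      rw [this]
      exact W.smul_mem _ (h1 a)
  rw [eq_top_iff]
  intro x _
  have hx : x ∈ Algebra.adjoin Lf {s} := by rw [hgen]; trivial
  rw [Algebra.adjoin_singleton_eq_range_aeval] at hx
  obtain ⟨P, rfl⟩ := hx
  exact h2 P

/-- linear independence: an `E(τ)`-independent family of `Lf` stays independent over `E(s)`. -/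
theorem kummer_linearIndependent {τ : Lf} {s : L'} {e : ℕ} (he : e ≠ 0) {c : E}
    (hs : s ^ e = algebraMap Lf L' (τ - algebraMap E Lf c))
    (hpb : ∀ Q : Lf[X], Q.natDegree < e → aeval s Q = 0 → Q = 0)
    {b : ι → Lf} (hli : LinearIndependent E⟮τ⟯ b) :
    LinearIndependent E⟮s⟯ (fun i => algebraMap Lf L' (b i)) := by
  classical
  rw [Fintype.linearIndependent_iff]
  intro g hg i
  choose r hr1 hr2 using fun i => kummer_exists_poly he hs (g i)
  set Q : Lf[X] := ∑ i, (r i).map (algebraMap E⟮τ⟯ Lf) * C (b i) with hQdef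
  have hQdeg : Q.natDegree < e := by
    have h1 : Q.natDegree ≤ e - 1 := by
      apply Polynomial.natDegree_sum_le_of_forall_le
      intro i _
      calc ((r i).map (algebraMap E⟮τ⟯ Lf) * C (b i)).natDegree
          ≤ ((r i).map (algebraMap E⟮τ⟯ Lf)).natDegree := natDegree_mul_C_le _ _
        _ ≤ (r i).natDegree := natDegree_map_le
        _ ≤ e - 1 := by have := hr1 i; omega
    omega
  have hQ0 : aeval s Q = 0 := by
    rw [hQdef, map_sum, ← hg]
    refine Finset.sum_congr rfl (fun i _ => ?_)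
    rw [map_mul, aeval_C, aeval_map_algebraMap, hr2, IntermediateField.smul_def, smul_eq_mul]
  have hQ := hpb Q hQdeg hQ0
  have hcoef : ∀ j, ∑ i, (r i).coeff j • b i = 0 := by
    intro j
    have := congrArg (fun P => P.coeff j) hQ
    simp only [hQdef, finsetSum_coeff, coeff_mul_C, coeff_map, coeff_zero] at this
    rw [← this]
    refine Finset.sum_congr rfl (fun i _ => ?_)
    rw [IntermediateField.smul_def, smul_eq_mul]
    rfl
  have hall : ∀ j i, (r i).coeff j = 0 := fun j =>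
    Fintype.linearIndependent_iff.mp hli _ (hcoef j)
  have hri : r i = 0 := Polynomial.ext (fun j => by rw [hall j i, coeff_zero])
  apply Subtype.ext
  rw [← hr2 i, hri, map_zero]
  rfl

/-- coordinates are compatible -/
theorem kummer_repr {τ : Lf} {s : L'} (hτs : algebraMap Lf L' τ ∈ E⟮s⟯)
    (B : Module.Basis ι E⟮τ⟯ Lf) (B' : Module.Basis ι E⟮s⟯ L')
    (hB : ∀ i, B' i = algebraMap Lf L' (B i)) (x : Lf) (i : ι) :
    B'.repr (algebraMap Lf L' x) i = kummerIncl hτs (B.repr x i) := by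
  have h1 : algebraMap Lf L' x = ∑ j, kummerIncl hτs (B.repr x j) • B' j := by
    conv_lhs => rw [← B.sum_repr x]
    rw [map_sum]
    refine Finset.sum_congr rfl (fun j _ => ?_)
    rw [kummerIncl_smul hτs, hB]
  rw [h1, Module.Basis.repr_sum_self]

/-- traces are compatible -/
theorem kummer_trace [DecidableEq ι] {τ : Lf} {s : L'} (hτs : algebraMap Lf L' τ ∈ E⟮s⟯)
    (B : Module.Basis ι E⟮τ⟯ Lf) (B' : Module.Basis ι E⟮s⟯ L')
    (hB : ∀ i, B' i = algebraMap Lf L' (B i)) (x : Lf) :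
    Algebra.trace E⟮s⟯ L' (algebraMap Lf L' x) = kummerIncl hτs (Algebra.trace E⟮τ⟯ Lf x) := by
  rw [Algebra.trace_eq_matrix_trace B', Algebra.trace_eq_matrix_trace B, Matrix.trace,
    Matrix.trace, map_sum]
  refine Finset.sum_congr rfl (fun i _ => ?_)
  rw [Matrix.diag_apply, Matrix.diag_apply, Algebra.leftMulMatrix_eq_repr_mul,
    Algebra.leftMulMatrix_eq_repr_mul, hB, ← map_mul, kummer_repr hτs B B' hB]

/-- discriminants are compatible -/
theorem kummer_discr [DecidableEq ι] {τ : Lf} {s : L'} (hτs : algebraMap Lf L' τ ∈ E⟮s⟯)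
    (B : Module.Basis ι E⟮τ⟯ Lf) (B' : Module.Basis ι E⟮s⟯ L')
    (hB : ∀ i, B' i = algebraMap Lf L' (B i)) :
    Algebra.discr E⟮s⟯ (fun i => algebraMap Lf L' (B i))
      = kummerIncl hτs (Algebra.discr E⟮τ⟯ B) := by
  rw [Algebra.discr_def, Algebra.discr_def, RingHom.map_det]
  congr 1
  ext i j
  rw [RingHom.mapMatrix_apply, Matrix.map_apply, Algebra.traceMatrix_apply,
    Algebra.traceMatrix_apply, Algebra.traceForm_apply, Algebra.traceForm_apply, ← map_mul,
    kummer_trace hτs B B' hB]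


/-- `L'` is finite over `E(s)`. -/
theorem kummer_finiteDimensional_adjoin {τ : Lf} {s : L'} {e : ℕ} {c : E}
    (hs : s ^ e = algebraMap Lf L' (τ - algebraMap E Lf c))
    (hgen : Algebra.adjoin Lf {s} = ⊤) [FiniteDimensional E⟮τ⟯ Lf] :
    FiniteDimensional E⟮s⟯ L' := by
  classical
  let B := Module.finBasis E⟮τ⟯ Lf
  have hsp := kummer_span (kummer_tau_mem hs) hgen B.span_eq
  exact ⟨by rw [← hsp]; exact Submodule.fg_span (Set.finite_range _)⟩

end Transfer

section Integral

variable {A₀ Lf L' : Type*} [CommRing A₀] [Field Lf] [Field L'] [Algebra A₀ Lf] [Algebra A₀ L']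
  [Algebra Lf L'] [IsScalarTower A₀ Lf L']

theorem kummer_adjoin_mem {τ : Lf} {s : L'} {e : ℕ} {c : A₀}
    (hs : s ^ e = algebraMap Lf L' (τ - algebraMap A₀ Lf c)) (x : Algebra.adjoin A₀ {τ}) :
    algebraMap Lf L' (x : Lf) ∈ Algebra.adjoin A₀ {s} := by
  have hτ : algebraMap Lf L' τ ∈ Algebra.adjoin A₀ {s} := by
    have h : algebraMap Lf L' τ = s ^ e + algebraMap A₀ L' c := by
      rw [hs, map_sub, ← IsScalarTower.algebraMap_apply A₀ Lf L']
      ring
    rw [h]
    exact add_mem (pow_mem (Algebra.self_mem_adjoin_singleton A₀ s) e)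
      (Subalgebra.algebraMap_mem _ c)
  have h1 : (Algebra.adjoin A₀ {τ}).map (IsScalarTower.toAlgHom A₀ Lf L')
      ≤ Algebra.adjoin A₀ {s} := by
    rw [AlgHom.map_adjoin, Algebra.adjoin_le_iff]
    rintro _ ⟨y, hy, rfl⟩
    rw [Set.mem_singleton_iff] at hy
    subst hy
    exact hτ
  exact h1 ⟨x, x.2, rfl⟩

/-- integrality over the chart ring is preserved -/
theorem kummer_isIntegral {τ : Lf} {s : L'} {e : ℕ} {c : A₀}
    (hs : s ^ e = algebraMap Lf L' (τ - algebraMap A₀ Lf c)) {y : Lf}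
    (hy : IsIntegral (Algebra.adjoin A₀ {τ}) y) :
    IsIntegral (Algebra.adjoin A₀ {s}) (algebraMap Lf L' y) := by
  let ψ : Algebra.adjoin A₀ {τ} →+* Algebra.adjoin A₀ {s} :=
    { toFun := fun x => ⟨algebraMap Lf L' (x : Lf), kummer_adjoin_mem hs x⟩
      map_one' := by ext; simp
      map_mul' := fun x y => by ext; simp
      map_zero' := by ext; simp
      map_add' := fun x y => by ext; simp }
  exact IsIntegral.map_of_comp_eq ψ (algebraMap Lf L') (by ext x; rfl) hy

/-- `π ∤ d ⇒ π ∤ d(X^e + c)` -/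
theorem kummer_not_dvd_comp {π : A₀} (hπ : Prime π) {d : A₀[X]} (hd : ¬ C π ∣ d) {e : ℕ}
    (he : e ≠ 0) (c : A₀) : ¬ C π ∣ d.comp (X ^ e + C c) := by
  have hprime : (Ideal.span {π} : Ideal A₀).IsPrime :=
    (Ideal.span_singleton_prime hπ.ne_zero).mpr hπ
  have key : ∀ p : A₀[X], C π ∣ p ↔ p.map (Ideal.Quotient.mk (Ideal.span {π})) = 0 := by
    intro p
    rw [Polynomial.C_dvd_iff_dvd_coeff, Polynomial.ext_iff]
    refine forall_congr' (fun i => ?_)
    rw [coeff_map, coeff_zero, Ideal.Quotient.eq_zero_iff_mem, Ideal.mem_span_singleton]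
  rw [key] at hd ⊢
  rw [Polynomial.map_comp]
  intro h
  rw [Polynomial.comp_eq_zero_iff] at h
  rcases h with h | ⟨-, h⟩
  · exact hd h
  · have := congrArg natDegree h
    rw [natDegree_C] at this
    simp only [Polynomial.map_add, Polynomial.map_pow, Polynomial.map_X, Polynomial.map_C] at this
    rw [natDegree_X_pow_add_C] at this
    exact he this

end Integral

section Assemble

variable {A₀ E Lf L' : Type u} [CommRing A₀] [Field E] [Algebra A₀ E]
  [Field Lf] [Algebra E Lf] [Algebra A₀ Lf] [IsScalarTower A₀ E Lf]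
  [Field L'] [Algebra Lf L'] [Algebra E L'] [Algebra A₀ L']
  [IsScalarTower E Lf L'] [IsScalarTower A₀ E L'] [IsScalarTower A₀ Lf L']

/-- **GoodBasis transfer** along the Kummer base change `s ^ e = τ - c`. -/
theorem tsGoodBasis_kummer {π : A₀} (hπ : Prime π) {τ : Lf} {s : L'} {e : ℕ} (he : e ≠ 0)
    (c : A₀) (hs : s ^ e = algebraMap Lf L' (τ - algebraMap A₀ Lf c))
    (hgen : Algebra.adjoin Lf {s} = ⊤)
    (hpb : ∀ Q : Lf[X], Q.natDegree < e → aeval s Q = 0 → Q = 0)
    (h : TSGoodBasis (E := E) π τ) : TSGoodBasis (E := E) π s := by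
  classical
  obtain ⟨n, b, d, hli, hsp, hint, hd, hdisc⟩ := h
  have hs' : s ^ e = algebraMap Lf L' (τ - algebraMap E Lf (algebraMap A₀ E c)) := by
    rw [hs, IsScalarTower.algebraMap_apply A₀ E Lf]
  have hτs : algebraMap Lf L' τ ∈ E⟮s⟯ := kummer_tau_mem hs'
  have hli' := kummer_linearIndependent he hs' hpb hli
  have hsp' := kummer_span hτs hgen hsp
  let B : Module.Basis (Fin n) E⟮τ⟯ Lf := Module.Basis.mk hli hsp.ge
  let B' : Module.Basis (Fin n) E⟮s⟯ L' := Module.Basis.mk hli' hsp'.ge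
  have hBb : ∀ i, B i = b i := fun i => by simp [B]
  have hB : ∀ i, B' i = algebraMap Lf L' (B i) := fun i => by simp [B, B']
  refine ⟨n, fun i => algebraMap Lf L' (b i), d.comp (X ^ e + C c), hli', hsp',
    fun i => kummer_isIntegral hs (hint i), kummer_not_dvd_comp hπ hd he c, ?_⟩
  have h1 := kummer_discr hτs B B' hB
  have hfun : (fun i => algebraMap Lf L' (B i)) = fun i => algebraMap Lf L' (b i) := by
    funext i; rw [hBb]
  have hfun2 : (B : Fin n → Lf) = b := funext hBb
  rw [hfun, hfun2] at h1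
  rw [h1]
  show algebraMap Lf L' (algebraMap E⟮τ⟯ Lf (Algebra.discr E⟮τ⟯ b)) = _
  rw [hdisc, aeval_comp, map_add, map_pow, aeval_X, aeval_C, hs]
  have h2 : algebraMap Lf L' (τ - algebraMap A₀ Lf c) + algebraMap A₀ L' c
      = algebraMap Lf L' τ := by
    rw [map_sub, ← IsScalarTower.algebraMap_apply A₀ Lf L']; ring
  rw [h2]
  exact (Polynomial.aeval_algebraMap_apply L' τ d).symm

end Assemble

section Setup

variable {E Lf : Type u} [Field E] [Field Lf] [Algebra E Lf]
variable (a : Lf) (e : ℕ) [hirr : Fact (Irreducible (X ^ e - C a : Lf[X]))]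

theorem kummer_root_pow :
    (AdjoinRoot.root (X ^ e - C a : Lf[X])) ^ e
      = algebraMap Lf (AdjoinRoot (X ^ e - C a : Lf[X])) a := by
  rw [AdjoinRoot.algebraMap_eq]
  exact root_X_pow_sub_C_pow e a

theorem kummer_finiteDimensional :
    FiniteDimensional Lf (AdjoinRoot (X ^ e - C a : Lf[X])) :=
  (AdjoinRoot.powerBasis hirr.out.ne_zero).finite

theorem kummer_adjoin_eq_top :
    IntermediateField.adjoin Lf {AdjoinRoot.root (X ^ e - C a : Lf[X])} = ⊤ := by
  haveI := kummer_finiteDimensional a e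
  apply IntermediateField.toSubalgebra_injective
  rw [IntermediateField.adjoin_simple_toSubalgebra_of_isAlgebraic
    (IsAlgebraic.of_finite Lf _), IntermediateField.top_toSubalgebra]
  exact AdjoinRoot.adjoinRoot_eq_top

theorem kummer_isGalois (hζ : (primitiveRoots e Lf).Nonempty) :
    IsGalois Lf (AdjoinRoot (X ^ e - C a : Lf[X])) := by
  haveI := isSplittingField_AdjoinRoot_X_pow_sub_C hζ hirr.out
  exact isGalois_of_isSplittingField_X_pow_sub_C hζ hirr.out _

theorem kummer_transcendental {τ : Lf} (hτ : Transcendental E τ) (c : E)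
    (ha : a = τ - algebraMap E Lf c) :
    Transcendental E (AdjoinRoot.root (X ^ e - C a : Lf[X])) := by
  intro halg
  apply hτ
  have h1 : IsAlgebraic E ((AdjoinRoot.root (X ^ e - C a : Lf[X])) ^ e) := halg.pow e
  rw [kummer_root_pow] at h1
  have h2 : IsAlgebraic E a :=
    (isAlgebraic_algebraMap_iff (algebraMap Lf (AdjoinRoot (X ^ e - C a : Lf[X]))).injective).mp h1
  have h3 : IsAlgebraic E (a + algebraMap E Lf c) := h2.add (isAlgebraic_algebraMap c)
  rwa [ha, sub_add_cancel] at h3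

end Setup

section Package

/-- **The Kummer setup** consumed by (N-tame). -/
theorem exists_kummerSetup
    {A₀ E Lf : Type u} [CommRing A₀] [IsDomain A₀] [IsDiscreteValuationRing A₀]
    [Field E] [Algebra A₀ E] [IsFractionRing A₀ E] [CharZero E]
    [Field Lf] [Algebra E Lf] [Algebra A₀ Lf] [IsScalarTower A₀ E Lf]
    (π : A₀) (hπ : Irreducible π) (τ : Lf) (hτ : Transcendental E τ) [FiniteDimensional E⟮τ⟯ Lf]
    (hgb : TSGoodBasis (E := E) π τ)
    (c : A₀) (e : ℕ) (he : IsUnit (e : A₀)) (hζ : ∃ ζ : A₀, IsPrimitiveRoot ζ e)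
    (hP₀ : ∃ P₀ : Place E Lf, P₀.ord (τ - algebraMap A₀ Lf c) = 1 ∨
      P₀.ord (τ - algebraMap A₀ Lf c) = -1) :
    ∃ (L' : Type u) (_ : Field L') (_ : Algebra E L') (_ : Algebra Lf L') (_ : Algebra A₀ L')
      (_ : IsScalarTower E Lf L') (_ : IsScalarTower A₀ E L') (_ : IsScalarTower A₀ Lf L')
      (s : L'),
      s ^ e = algebraMap Lf L' (τ - algebraMap A₀ Lf c) ∧
      IntermediateField.adjoin Lf {s} = ⊤ ∧
      Transcendental E s ∧ FiniteDimensional E⟮s⟯ L' ∧ TSGoodBasis (E := E) π s ∧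
      FiniteDimensional Lf L' ∧ IsGalois Lf L' := by
  have he0 : e ≠ 0 := by
    rintro rfl
    simp at he
  obtain ⟨P₀, hP₀⟩ := hP₀
  set a : Lf := τ - algebraMap A₀ Lf c with ha
  have hirr : Irreducible (X ^ e - C a : Lf[X]) := irreducible_X_pow_sub_C_of_ord he0 P₀ hP₀
  haveI : Fact (Irreducible (X ^ e - C a : Lf[X])) := ⟨hirr⟩
  have hinj : Function.Injective (algebraMap A₀ Lf) := by
    rw [IsScalarTower.algebraMap_eq A₀ E Lf]
    exact (algebraMap E Lf).injective.comp (IsFractionRing.injective A₀ E)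
  have hroots : (primitiveRoots e Lf).Nonempty := by
    obtain ⟨ζ, hζ⟩ := hζ
    exact ⟨algebraMap A₀ Lf ζ, (mem_primitiveRoots (Nat.pos_of_ne_zero he0)).mpr
      (hζ.map_of_injective hinj)⟩
  have hs := kummer_root_pow a e
  have hs' : (AdjoinRoot.root (X ^ e - C a : Lf[X])) ^ e
      = algebraMap Lf (AdjoinRoot (X ^ e - C a : Lf[X]))
        (τ - algebraMap E Lf (algebraMap A₀ E c)) := by
    rw [hs, ha, IsScalarTower.algebraMap_apply A₀ E Lf]
  have hgen : Algebra.adjoin Lf {AdjoinRoot.root (X ^ e - C a : Lf[X])} = ⊤ :=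
    AdjoinRoot.adjoinRoot_eq_top
  have hpb : ∀ Q : Lf[X], Q.natDegree < e →
      aeval (AdjoinRoot.root (X ^ e - C a : Lf[X])) Q = 0 → Q = 0 := by
    intro Q hQ h0
    rw [AdjoinRoot.aeval_eq, AdjoinRoot.mk_eq_zero] at h0
    by_contra hne
    have := Polynomial.natDegree_le_of_dvd h0 hne
    rw [natDegree_X_pow_sub_C] at this
    omega
  refine ⟨AdjoinRoot (X ^ e - C a : Lf[X]), inferInstance, inferInstance, inferInstance,
    inferInstance, inferInstance, inferInstance, inferInstance,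
    AdjoinRoot.root (X ^ e - C a : Lf[X]), hs, kummer_adjoin_eq_top a e, ?_, ?_, ?_,
    kummer_finiteDimensional a e, kummer_isGalois a e hroots⟩
  · exact kummer_transcendental a e hτ (algebraMap A₀ E c)
      (by rw [ha, IsScalarTower.algebraMap_apply A₀ E Lf])
  · exact kummer_finiteDimensional_adjoin hs' hgen
  · exact tsGoodBasis_kummer hπ.prime he0 c hs hgen hpb hgb

end Package

end Fermat.Agent.INJ


end ZBINJ_035_0
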