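/- GENERATED FILE (helper35, build-time optimisation, NOTES/ZB.md): verbatim concatenation of the modules
   Fermat.Agent.UNIP.NodesMain
   Do not edit; do not import together with these modules. -/
import Mathlib.RingTheory.Ideal.Operations
import Mathlib.RingTheory.Ideal.Maps
import Mathlib.RingTheory.Ideal.Quotient.Operations
import Mathlib.Tactic
import Fermat.Agent.ZB.INJ_035

/-! ### bundled: `Fermat.Agent.UNIP.NodesMain` -/
section ZBUNIP_005_0

/-!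
# UNIP / U5 (Nodes), abstract engine: local generators on a curve with two smooth components

Pure commutative algebra (no modular forms, no Atkin–Lehner involution inside).

Setting: `B` a commutative ring (a chart of the model), `π : B` (the uniformizer of the base),
`R` a commutative ring, `f g : B →+* R` the two restriction maps to the components
(`f = ρ_∞` = reduction of the `q`-expansion, `g = ρ_0 = ρ_∞ ∘ w_q`).

* `NodesLocGen 𝔫 T` : the ideal `𝔫` is generated by the set `T` locally at `𝔫`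
  (`∀ b ∈ 𝔫, ∃ u ∉ 𝔫, u * b ∈ span T`; for a maximal ideal of a noetherian ring this says
  `𝔫 B_𝔫 = T B_𝔫`).
* `NodesSmoothAt f 𝔫 s` : the component `f` is smooth at `𝔫` with local parameter `s`
  (`s ∈ 𝔫` and `∀ b ∈ 𝔫, ∃ u ∉ 𝔫, ∃ v, f (u * b) = f (v * s)`, i.e. `𝔫 = (s) + ker f` locally).
* `nodes_smoothAt_sub_pow` : if `s` is a local parameter and `h ∈ 𝔫`, `2 ≤ n`, then so is
  `s - h ^ n`.
* `nodes_locGen_smooth` **(SS2)** : at a prime `𝔫` not containing `ker g`, a local parameter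
  `s` of the component `f` gives `𝔫 = (π, s)` locally.
* `nodes_locGen_cross` **(SS3)** : if `Y ∈ ker g` is a local parameter of the component `f` and
  `X ∈ ker f` is a local parameter of the component `g`, then `𝔫 = (π, X, Y)` locally.
* `nodes_exists_cross` : **ordinary crossing from Frobenius.**  If `s` is a local parameter of
  `f` at `𝔫 ⊇ ker g` and `g s = (g h) ^ q` with `2 ≤ q`, then `Y := s - h ^ q` lies in `ker g`
  and is a local parameter of `f`.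
* `nodes_main` : the dichotomy at a prime `𝔫 ∋ π`.
-/

set_option autoImplicit false

namespace Fermat.Agent.UNIP

variable {B R : Type*} [CommRing B] [CommRing R]

/-- `𝔫` is generated by `T` locally at `𝔫`. -/
def NodesLocGen {B : Type*} [CommRing B] (𝔫 : Ideal B) (T : Set B) : Prop :=
  ∀ b ∈ 𝔫, ∃ u : B, u ∉ 𝔫 ∧ u * b ∈ Ideal.span T

/-- The component `f` is smooth at `𝔫` with local parameter `s`. -/
def NodesSmoothAt {B R : Type*} [CommRing B] [CommRing R] (f : B →+* R) (𝔫 : Ideal B)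
    (s : B) : Prop :=
  s ∈ 𝔫 ∧ ∀ b ∈ 𝔫, ∃ u v : B, u ∉ 𝔫 ∧ f (u * b) = f (v * s)

theorem NodesLocGen.mono {𝔫 : Ideal B} {T T' : Set B} (h : NodesLocGen 𝔫 T) (hT : T ⊆ T') :
    NodesLocGen 𝔫 T' := fun b hb => by
  obtain ⟨u, hu, hub⟩ := h b hb
  exact ⟨u, hu, Ideal.span_mono hT hub⟩

/-- A local parameter stays one after subtracting `h ^ n`, `h ∈ 𝔫`, `2 ≤ n`. -/
theorem nodes_smoothAt_sub_pow {f : B →+* R} {𝔫 : Ideal B} [h𝔫 : 𝔫.IsPrime] {s h : B}
    (hs : NodesSmoothAt f 𝔫 s) (hh : h ∈ 𝔫) {n : ℕ} (hn : 2 ≤ n) :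
    NodesSmoothAt f 𝔫 (s - h ^ n) := by
  obtain ⟨hs𝔫, hgen⟩ := hs
  have hn0 : n ≠ 0 := by omega
  refine ⟨𝔫.sub_mem hs𝔫 (𝔫.pow_mem_of_mem hh n (Nat.pos_of_ne_zero hn0)), ?_⟩
  -- `u' * h = v' * s` on the component
  obtain ⟨u', v', hu', huv'⟩ := hgen h hh
  obtain ⟨d, rfl⟩ := Nat.exists_eq_add_of_le hn
  -- `ε = u' ^ n - v' ^ n * s ^ (n - 1)` is a unit at `𝔫`
  set ε : B := u' ^ (2 + d) - v' ^ (2 + d) * s ^ (1 + d) with hε
  have hε𝔫 : ε ∉ 𝔫 := by
    intro hmem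
    have h1 : v' ^ (2 + d) * s ^ (1 + d) ∈ 𝔫 :=
      𝔫.mul_mem_left _ (𝔫.pow_mem_of_mem hs𝔫 _ (by omega))
    have h2 : u' ^ (2 + d) ∈ 𝔫 := by
      have : u' ^ (2 + d) = ε + v' ^ (2 + d) * s ^ (1 + d) := by rw [hε]; ring
      rw [this]
      exact 𝔫.add_mem hmem h1
    exact hu' (h𝔫.mem_of_pow_mem _ h2)
  -- `f (u' ^ n * (s - h ^ n)) = f (ε * s)`
  have hkey : f (u' ^ (2 + d) * (s - h ^ (2 + d))) = f (ε * s) := by
    have e1 : u' ^ (2 + d) * (s - h ^ (2 + d)) = u' ^ (2 + d) * s - (u' * h) ^ (2 + d) := by ring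
    have e2 : ε * s = u' ^ (2 + d) * s - (v' * s) ^ (2 + d) := by rw [hε]; ring
    rw [e1, e2, map_sub, map_sub, map_pow, map_pow, huv']
  intro b hb
  obtain ⟨u, v, hu, huv⟩ := hgen b hb
  refine ⟨ε * u, v * u' ^ (2 + d), ?_, ?_⟩
  · intro hmem
    rcases h𝔫.mem_or_mem hmem with h1 | h1
    · exact hε𝔫 h1
    · exact hu h1
  · calc f (ε * u * b) = f ε * f (u * b) := by rw [mul_assoc, map_mul]
      _ = f ε * f (v * s) := by rw [huv]
      _ = f v * f (ε * s) := by simp only [map_mul]; ring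
      _ = f v * f (u' ^ (2 + d) * (s - h ^ (2 + d))) := by rw [hkey]
      _ = f (v * u' ^ (2 + d) * (s - h ^ (2 + d))) := by simp only [map_mul]; ring

/-- **(SS2)**: a smooth point of the component `f` that does not lie on the component `g`. -/
theorem nodes_locGen_smooth {f g : B →+* R} {π : B}
    (hker : ∀ x : B, f x = 0 → g x = 0 → π ∣ x)
    {𝔫 : Ideal B} [h𝔫 : 𝔫.IsPrime] {s : B} (hs : NodesSmoothAt f 𝔫 s)
    {c' : B} (hc' : g c' = 0) (hc'𝔫 : c' ∉ 𝔫) :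
    NodesLocGen 𝔫 {π, s} := by
  intro b hb
  obtain ⟨u, v, hu, huv⟩ := hs.2 b hb
  have hf0 : f (c' * (u * b - v * s)) = 0 := by
    rw [map_mul, map_sub, huv, sub_self, mul_zero]
  have hg0 : g (c' * (u * b - v * s)) = 0 := by
    rw [map_mul, hc', zero_mul]
  obtain ⟨d, hd⟩ := hker _ hf0 hg0
  refine ⟨c' * u, ?_, ?_⟩
  · intro hmem
    rcases h𝔫.mem_or_mem hmem with h1 | h1
    · exact hc'𝔫 h1
    · exact hu h1
  · have e : c' * u * b = d * π + (c' * v) * s := by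
      have : c' * u * b = c' * (u * b - v * s) + c' * v * s := by ring
      rw [this, hd]; ring
    rw [e]
    refine Ideal.add_mem _ (Ideal.mul_mem_left _ _ (Ideal.subset_span ?_))
      (Ideal.mul_mem_left _ _ (Ideal.subset_span ?_))
    · exact Set.mem_insert _ _
    · exact Set.mem_insert_of_mem _ rfl

/-- **(SS3)**: a crossing point. -/
theorem nodes_locGen_cross {f g : B →+* R} {π : B}
    (hker : ∀ x : B, f x = 0 → g x = 0 → π ∣ x)
    {𝔫 : Ideal B} [h𝔫 : 𝔫.IsPrime] (hf𝔫 : ∀ x : B, f x = 0 → x ∈ 𝔫)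
    {X Y : B} (hY : NodesSmoothAt f 𝔫 Y) (hX : NodesSmoothAt g 𝔫 X)
    (hfX : f X = 0) :
    NodesLocGen 𝔫 {π, X, Y} := by
  intro b hb
  obtain ⟨u, v, hu, huv⟩ := hY.2 b hb
  -- `z = u b - v Y` lies on the component `g` only
  have hz : f (u * b - v * Y) = 0 := by rw [map_sub, huv, sub_self]
  have hz𝔫 : u * b - v * Y ∈ 𝔫 := hf𝔫 _ hz
  obtain ⟨u', v', hu', huv'⟩ := hX.2 _ hz𝔫
  have hf0 : f (u' * (u * b - v * Y) - v' * X) = 0 := by
    rw [map_sub, map_mul, hz, mul_zero, map_mul, hfX, mul_zero, sub_self]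
  have hg0 : g (u' * (u * b - v * Y) - v' * X) = 0 := by
    rw [map_sub, huv', sub_self]
  obtain ⟨d, hd⟩ := hker _ hf0 hg0
  refine ⟨u' * u, ?_, ?_⟩
  · intro hmem
    rcases h𝔫.mem_or_mem hmem with h1 | h1
    · exact hu' h1
    · exact hu h1
  · have e : u' * u * b = d * π + (v' * X + (u' * v) * Y) := by
      have : u' * u * b = (u' * (u * b - v * Y) - v' * X) + v' * X + u' * v * Y := by ring
      rw [this, hd]; ring
    rw [e]
    refine Ideal.add_mem _ (Ideal.mul_mem_left _ _ (Ideal.subset_span ?_))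
      (Ideal.add_mem _ (Ideal.mul_mem_left _ _ (Ideal.subset_span ?_))
        (Ideal.mul_mem_left _ _ (Ideal.subset_span ?_)))
    · exact Set.mem_insert _ _
    · exact Set.mem_insert_of_mem _ (Set.mem_insert _ _)
    · exact Set.mem_insert_of_mem _ (Set.mem_insert_of_mem _ rfl)

/-- **Ordinary crossings from Frobenius.**  If `s` is a local parameter of the component `f` at a
prime `𝔫 ⊇ ker g` and the restriction of `s` to the component `g` is a `q`-th power `(g h) ^ q`,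
`2 ≤ q`, then `Y := s - h ^ q` vanishes on the component `g` and is a local parameter of `f`. -/
theorem nodes_exists_cross {f g : B →+* R} {𝔫 : Ideal B} [h𝔫 : 𝔫.IsPrime]
    (hg𝔫 : ∀ x : B, g x = 0 → x ∈ 𝔫) {s h : B} (hs : NodesSmoothAt f 𝔫 s)
    {q : ℕ} (hq : 2 ≤ q) (hsh : g s = g h ^ q) :
    g (s - h ^ q) = 0 ∧ NodesSmoothAt f 𝔫 (s - h ^ q) := by
  have hg0 : g (s - h ^ q) = 0 := by rw [map_sub, map_pow, hsh, sub_self]
  refine ⟨hg0, nodes_smoothAt_sub_pow hs ?_ hq⟩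
  have h1 : s - h ^ q ∈ 𝔫 := hg𝔫 _ hg0
  have h2 : h ^ q ∈ 𝔫 := by
    have : h ^ q = s - (s - h ^ q) := by ring
    rw [this]
    exact 𝔫.sub_mem hs.1 h1
  exact h𝔫.mem_of_pow_mem _ h2

/-- A local parameter of the component `g` does not vanish identically on it, if the component
is a domain and is not contained in the component `f`. -/
theorem nodes_smoothAt_ne_zero [IsDomain R] {f g : B →+* R} {𝔫 : Ideal B}
    (hf𝔫 : ∀ x : B, f x = 0 → x ∈ 𝔫) (hg𝔫 : ∀ x : B, g x = 0 → x ∈ 𝔫)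
    {c : B} (hc : f c = 0) (hgc : g c ≠ 0) {X : B} (hX : NodesSmoothAt g 𝔫 X) :
    g X ≠ 0 := by
  intro hgX
  obtain ⟨u, v, hu, huv⟩ := hX.2 c (hf𝔫 c hc)
  rw [map_mul, map_mul, hgX, mul_zero] at huv
  rcases mul_eq_zero.mp huv with h1 | h1
  · exact hu (hg𝔫 u h1)
  · exact hgc h1

/-- **The engine.**  `f, g : B →+* R` the restrictions to the two components, `π` with
`ker f ∩ ker g = (π)`; `𝔫 ∋ π` a prime ideal such that
* if `𝔫` lies on the component `f`, there is a local parameter `s` of `f` at `𝔫` whose restriction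
  to the component `g` is a `q`-th power in case `𝔫` lies on `g` as well, and
* symmetrically for `g`.
Then either `𝔫 = (π, s)` locally (a smooth point of the special fibre), or `𝔫` lies on both
components and `𝔫 = (π, X, Y)` locally with `X ∈ ker f`, `Y ∈ ker g` (an ordinary crossing). -/
theorem nodes_main {f g : B →+* R} {π : B}
    (hker : ∀ x : B, f x = 0 → g x = 0 → π ∣ x)
    {q : ℕ} (hq : 2 ≤ q) {𝔫 : Ideal B} [h𝔫 : 𝔫.IsPrime] (hπ : π ∈ 𝔫)
    (hF : (∀ x : B, f x = 0 → x ∈ 𝔫) → ∃ s : B, NodesSmoothAt f 𝔫 s ∧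
      ((∀ x : B, g x = 0 → x ∈ 𝔫) → ∃ h : B, g s = g h ^ q))
    (hG : (∀ x : B, g x = 0 → x ∈ 𝔫) → ∃ s : B, NodesSmoothAt g 𝔫 s ∧
      ((∀ x : B, f x = 0 → x ∈ 𝔫) → ∃ h : B, f s = f h ^ q)) :
    (∃ s ∈ 𝔫, NodesLocGen 𝔫 {π, s}) ∨
    ((∀ x : B, f x = 0 → x ∈ 𝔫) ∧ (∀ x : B, g x = 0 → x ∈ 𝔫) ∧
      ∃ X Y : B, f X = 0 ∧ g Y = 0 ∧ NodesSmoothAt g 𝔫 X ∧ NodesSmoothAt f 𝔫 Y ∧
        π ∣ X * Y ∧ NodesLocGen 𝔫 {π, X, Y}) := by
  classical
  by_cases hf𝔫 : ∀ x : B, f x = 0 → x ∈ 𝔫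
  · by_cases hg𝔫 : ∀ x : B, g x = 0 → x ∈ 𝔫
    · -- crossing
      right
      obtain ⟨s, hs, hsh⟩ := hF hf𝔫
      obtain ⟨h, hsh⟩ := hsh hg𝔫
      obtain ⟨s', hs', hsh'⟩ := hG hg𝔫
      obtain ⟨h', hsh'⟩ := hsh' hf𝔫
      obtain ⟨hgY, hY⟩ := nodes_exists_cross hg𝔫 hs hq hsh
      obtain ⟨hfX, hX⟩ := nodes_exists_cross hf𝔫 hs' hq hsh'
      refine ⟨hf𝔫, hg𝔫, s' - h' ^ q, s - h ^ q, hfX, hgY, hX, hY, ?_, ?_⟩
      · exact hker _ (by rw [map_mul, hfX, zero_mul]) (by rw [map_mul, hgY, mul_zero])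
      · exact nodes_locGen_cross hker hf𝔫 hY hX hfX
    · -- on `f` only
      left
      push Not at hg𝔫
      obtain ⟨c', hc', hc'𝔫⟩ := hg𝔫
      obtain ⟨s, hs, -⟩ := hF hf𝔫
      exact ⟨s, hs.1, nodes_locGen_smooth hker hs hc' hc'𝔫⟩
  · -- not on `f`: then on `g`
    left
    push Not at hf𝔫
    obtain ⟨c, hc, hc𝔫⟩ := hf𝔫
    have hg𝔫 : ∀ x : B, g x = 0 → x ∈ 𝔫 := by
      intro x hx
      have h1 : π ∣ c * x := hker _ (by rw [map_mul, hc, zero_mul]) (by rw [map_mul, hx, mul_zero])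
      have h2 : c * x ∈ 𝔫 := by
        obtain ⟨d, hd⟩ := h1
        rw [hd]
        exact 𝔫.mul_mem_right _ hπ
      exact (h𝔫.mem_or_mem h2).resolve_left hc𝔫
    obtain ⟨s, hs, -⟩ := hG hg𝔫
    have hker' : ∀ x : B, g x = 0 → f x = 0 → π ∣ x := fun x hx hx' => hker x hx' hx
    exact ⟨s, hs.1, nodes_locGen_smooth hker' hs hc hc𝔫⟩

/-- Every prime containing `π` contains one of the two components. -/
theorem nodes_ker_le_or {f g : B →+* R} {π : B}
    (hker : ∀ x : B, f x = 0 → g x = 0 → π ∣ x)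
    {𝔫 : Ideal B} [h𝔫 : 𝔫.IsPrime] (hπ : π ∈ 𝔫) :
    (∀ x : B, f x = 0 → x ∈ 𝔫) ∨ (∀ x : B, g x = 0 → x ∈ 𝔫) := by
  classical
  by_cases hf𝔫 : ∀ x : B, f x = 0 → x ∈ 𝔫
  · exact Or.inl hf𝔫
  · right
    push Not at hf𝔫
    obtain ⟨c, hc, hc𝔫⟩ := hf𝔫
    intro x hx
    have h1 : π ∣ c * x := hker _ (by rw [map_mul, hc, zero_mul]) (by rw [map_mul, hx, mul_zero])
    have h2 : c * x ∈ 𝔫 := by
      obtain ⟨d, hd⟩ := h1
      rw [hd]
      exact 𝔫.mul_mem_right _ hπ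
    exact (h𝔫.mem_or_mem h2).resolve_left hc𝔫

/-- **Smooth parameter from the level below.**  `B' ⊆ B` a subring with `f(B) = f(B')`
(`(α2)`), `𝔫` a prime of `B` containing `ker f`, and `s ∈ B'` a local generator, together with
`π`, of the prime `𝔫 ∩ B'` of `B'`.  Then `s` is a local parameter of the component `f` at `𝔫`. -/
theorem nodes_smoothAt_of_sub {f : B →+* R} {π : B} (hfπ : f π = 0) (B' : Subring B)
    (hsurj : ∀ b : B, ∃ r ∈ B', f r = f b)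
    {𝔫 : Ideal B} (hf𝔫 : ∀ x : B, f x = 0 → x ∈ 𝔫) {s : B} (hs : s ∈ 𝔫)
    (hgen : ∀ r ∈ B', r ∈ 𝔫 → ∃ u ∈ B', u ∉ 𝔫 ∧ ∃ a v : B, u * r = a * π + v * s) :
    NodesSmoothAt f 𝔫 s := by
  refine ⟨hs, fun b hb => ?_⟩
  obtain ⟨r, hr, hfr⟩ := hsurj b
  have hr𝔫 : r ∈ 𝔫 := by
    have h1 : r - b ∈ 𝔫 := hf𝔫 _ (by rw [map_sub, hfr, sub_self])
    have : r = (r - b) + b := by ring
    rw [this]
    exact 𝔫.add_mem h1 hb
  obtain ⟨u, -, hu, a, v, huv⟩ := hgen r hr hr𝔫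
  refine ⟨u, v, hu, ?_⟩
  rw [map_mul, ← hfr, ← map_mul, huv, map_add, map_mul, hfπ, mul_zero, zero_add]

end Fermat.Agent.UNIP


end ZBUNIP_005_0
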