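/- GENERATED FILE (helper35, build-time optimisation, NOTES/ZB.md): verbatim concatenation of the modules
   Fermat.Agent.UNIP.NormalBCRam
   Fermat.Agent.UNIP.NormalBCTot
   Fermat.Agent.UNIP.MGCharts
   Do not edit; do not import together with these modules. -/
import Mathlib
import Fermat.Agent.ZB.UNIP_003
import Fermat.Agent.ZB.UNIP_005

/-! ### bundled: `Fermat.Agent.UNIP.NormalBCRam` -/
section ZBUNIP_004_0
/-
UNIP / U8 (helper16), bridge from "totally ramified" to "Eisenstein".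

`A₀` a DVR with uniformizer `π`, `A'` a domain over `A₀`, `π' ∈ A'` a nonzero nonunit with
`π' ^ e ∣ π` (ramification index at least `e`).  If `π'` is a root of a monic `g ∈ A₀[X]` of
degree `≤ e`, then `deg g = e` and `g` is Eisenstein at `(π)`.
-/

set_option autoImplicit false

open Polynomial

namespace Fermat.Agent.UNIP

section Ram

variable {A₀ A' : Type*} [CommRing A₀] [IsDomain A₀] [IsDiscreteValuationRing A₀]
  [CommRing A'] [IsDomain A'] [Algebra A₀ A']

omit [IsDomain A'] in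
/-- In a DVR, an element not divisible by the uniformizer is a unit. -/
theorem nbc_isUnit_of_not_dvd {π : A₀} (hπ : Irreducible π) {a : A₀} (h : ¬ π ∣ a) :
    IsUnit a := by
  by_contra hu
  have hm : a ∈ IsLocalRing.maximalIdeal A₀ := (IsLocalRing.mem_maximalIdeal a).2 hu
  rw [Irreducible.maximalIdeal_eq hπ] at hm
  exact h (Ideal.mem_span_singleton.1 hm)

/-- All lower coefficients of `g` are divisible by `π`. -/
theorem nbc_ram_dvd_coeff {π : A₀} (hπ : Irreducible π) {π' : A'} (hπ'0 : π' ≠ 0)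
    (hπ'u : ¬ IsUnit π') {e : ℕ} (hram : π' ^ e ∣ algebraMap A₀ A' π)
    (g : A₀[X]) (hroot : aeval π' g = 0) (hdeg : g.natDegree ≤ e) :
    ∀ i, i < g.natDegree → π ∣ g.coeff i := by
  classical
  by_contra hcon
  push Not at hcon
  have hex : ∃ j, j < g.natDegree ∧ ¬ π ∣ g.coeff j := hcon
  set j := Nat.find hex with hj
  obtain ⟨hjm, hjn⟩ := Nat.find_spec hex
  have hmin : ∀ i, i < j → π ∣ g.coeff i := by
    intro i hi
    by_contra h
    exact Nat.find_min hex hi ⟨lt_trans hi hjm, h⟩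
  -- the sum
  have hsum : ∑ i ∈ Finset.range (g.natDegree + 1), algebraMap A₀ A' (g.coeff i) * π' ^ i = 0 := by
    rw [← hroot, aeval_eq_sum_range]
    simp [Algebra.smul_def]
  have hjmem : j ∈ Finset.range (g.natDegree + 1) := Finset.mem_range.2 (by omega)
  rw [← Finset.add_sum_erase _ _ hjmem] at hsum
  have hdvd : π' ^ (j + 1) ∣
      ∑ i ∈ (Finset.range (g.natDegree + 1)).erase j, algebraMap A₀ A' (g.coeff i) * π' ^ i := by
    apply Finset.dvd_sum
    intro i hi
    rw [Finset.mem_erase, Finset.mem_range] at hi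
    rcases lt_or_gt_of_ne hi.1 with h | h
    · -- `i < j`
      obtain ⟨c, hc⟩ := hmin i h
      rw [hc, map_mul]
      refine Dvd.dvd.mul_right (Dvd.dvd.mul_right (dvd_trans (pow_dvd_pow _ ?_) hram) _) _
      omega
    · -- `j < i`
      exact Dvd.dvd.mul_left (pow_dvd_pow _ (by omega)) _
  have h1 : π' ^ (j + 1) ∣ algebraMap A₀ A' (g.coeff j) * π' ^ j := by
    have : algebraMap A₀ A' (g.coeff j) * π' ^ j =
        -∑ i ∈ (Finset.range (g.natDegree + 1)).erase j,
          algebraMap A₀ A' (g.coeff i) * π' ^ i := by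
      linear_combination hsum
    rw [this]
    exact (dvd_neg).2 hdvd
  rw [pow_succ, mul_comm (algebraMap A₀ A' (g.coeff j))] at h1
  have h2 : π' ∣ algebraMap A₀ A' (g.coeff j) :=
    (mul_dvd_mul_iff_left (pow_ne_zero j hπ'0)).1 h1
  have h3 : IsUnit (algebraMap A₀ A' (g.coeff j)) := (nbc_isUnit_of_not_dvd hπ hjn).map _
  exact hπ'u (isUnit_of_dvd_unit h2 h3)

/-- **Bridge**: a monic polynomial of degree `≤ e` with root `π'`, where `π' ^ e ∣ π`, has
degree exactly `e` and is Eisenstein at `(π)`. -/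
theorem nbc_ram_isEisensteinAt {π : A₀} (hπ : Irreducible π) {π' : A'} (hπ'0 : π' ≠ 0)
    (hπ'u : ¬ IsUnit π') {e : ℕ} (hram : π' ^ e ∣ algebraMap A₀ A' π)
    (g : A₀[X]) (hgm : g.Monic) (hroot : aeval π' g = 0) (hdeg : g.natDegree ≤ e) :
    g.IsEisensteinAt (Ideal.span {π}) ∧ g.natDegree = e := by
  classical
  have hcoeff := nbc_ram_dvd_coeff hπ hπ'0 hπ'u hram g hroot hdeg
  have hm1 : 0 < g.natDegree := by
    rcases Nat.eq_zero_or_pos g.natDegree with h0 | h0
    · exfalso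
      have h1 : g = 1 := hgm.natDegree_eq_zero.1 h0
      rw [h1] at hroot
      simp at hroot
    · exact h0
  have hsum : ∑ i ∈ Finset.range (g.natDegree + 1), algebraMap A₀ A' (g.coeff i) * π' ^ i = 0 := by
    rw [← hroot, aeval_eq_sum_range]
    simp [Algebra.smul_def]
  obtain ⟨m', hm'⟩ : ∃ m', g.natDegree = m' + 1 := ⟨g.natDegree - 1, by omega⟩
  have hlead : g.coeff (m' + 1) = 1 := by rw [← hm']; exact hgm.coeff_natDegree
  rw [hm', Finset.sum_range_succ, Finset.sum_range_succ', hlead, map_one, one_mul, pow_zero,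
    mul_one] at hsum
  -- the middle terms are divisible by `π' ^ (m + 1)`
  have hmid : π' ^ (m' + 2) ∣
      ∑ i ∈ Finset.range m', algebraMap A₀ A' (g.coeff (i + 1)) * π' ^ (i + 1) := by
    apply Finset.dvd_sum
    intro i hi
    rw [Finset.mem_range] at hi
    obtain ⟨c, hc⟩ := hcoeff (i + 1) (by omega)
    rw [hc, map_mul]
    obtain ⟨d, hd⟩ := hram
    rw [hd]
    have : π' ^ e * d * algebraMap A₀ A' c * π' ^ (i + 1) =
        π' ^ (e + (i + 1)) * (d * algebraMap A₀ A' c) := by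
      rw [pow_add]; ring
    rw [this]
    exact Dvd.dvd.mul_right (pow_dvd_pow _ (by omega)) _
  have hkey : π' ^ (m' + 2) ∣ algebraMap A₀ A' (g.coeff 0) + π' ^ (m' + 1) := by
    have : algebraMap A₀ A' (g.coeff 0) + π' ^ (m' + 1) =
        -∑ i ∈ Finset.range m', algebraMap A₀ A' (g.coeff (i + 1)) * π' ^ (i + 1) := by
      linear_combination hsum
    rw [this]
    exact (dvd_neg).2 hmid
  -- a contradiction from `π' ^ (m' + 2) ∣ g.coeff 0`
  have hcontra : ¬ π' ^ (m' + 2) ∣ algebraMap A₀ A' (g.coeff 0) := by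
    intro h
    have h2 : π' ^ (m' + 2) ∣ π' ^ (m' + 1) := (dvd_add_right h).1 hkey
    have := (pow_dvd_pow_iff hπ'0 hπ'u).1 h2
    omega
  obtain ⟨c0, hc0⟩ := hcoeff 0 (by omega)
  have hdege : g.natDegree = e := by
    by_contra hne
    apply hcontra
    rw [hc0, map_mul]
    exact Dvd.dvd.mul_right (dvd_trans (pow_dvd_pow _ (by omega)) hram) _
  refine ⟨⟨?_, fun {n} hn => Ideal.mem_span_singleton.2 (hcoeff n hn), ?_⟩, hdege⟩
  · rw [hgm.leadingCoeff, Ideal.mem_span_singleton]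
    exact fun h => hπ.not_isUnit (isUnit_of_dvd_one h)
  · rw [Ideal.span_singleton_pow, Ideal.mem_span_singleton]
    rintro ⟨c, hc⟩
    apply hcontra
    rw [hc, map_mul, map_pow]
    have h2 : π' ^ (e * 2) ∣ algebraMap A₀ A' π ^ 2 := by
      rw [pow_mul]
      exact pow_dvd_pow_of_dvd hram 2
    exact Dvd.dvd.mul_right (dvd_trans (pow_dvd_pow _ (by omega)) h2) _

end Ram

end Fermat.Agent.UNIP


end ZBUNIP_004_0

/-! ### bundled: `Fermat.Agent.UNIP.NormalBCTot` -/
section ZBUNIP_004_1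
/-
UNIP / U8 (helper16), consumer form: totally ramified base change.

`A₀ ⊂ A'` with `π' ^ e ∣ π` and `π'` a root of a monic `g ∈ A₀[X]` of degree `≤ e`
(e.g. `A'` a DVR, finite and totally ramified over `A₀`, `e = [E' : E₀]`, `g` the minimal
polynomial of the uniformizer `π'`).  `R ⊇ A₀` integrally closed with `R / π` reduced,
`K = Frac R`, `L = K(π')`.  Then the integral closure of `R` in `L` is `R[π']`, `[L : K] = e`,
and `R[π'] / π' ≅ R / π`.
-/

set_option autoImplicit false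

open Polynomial

namespace Fermat.Agent.UNIP

section Tot

variable {A₀ A' R K L : Type*} [CommRing A₀] [IsDomain A₀] [IsDiscreteValuationRing A₀]
  [CommRing A'] [IsDomain A'] [Algebra A₀ A']
  [CommRing R] [IsDomain R] [IsIntegrallyClosed R] [Algebra A₀ R]
  [Field K] [Algebra R K] [IsFractionRing R K] [Algebra A₀ K] [IsScalarTower A₀ R K]
  [Field L] [Algebra K L] [Algebra R L] [IsScalarTower R K L] [Algebra A₀ L]
  [IsScalarTower A₀ K L] [IsScalarTower A₀ R L] [Algebra A' L] [IsScalarTower A₀ A' L]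

omit [IsDomain R] [IsIntegrallyClosed R] [IsFractionRing R K] [IsScalarTower A₀ R K]
  [IsScalarTower R K L] [IsScalarTower A₀ K L] [IsScalarTower A₀ R L] [Algebra A₀ R]
  [Algebra R K] [Algebra A₀ K] [Algebra K L] [Algebra R L] [Field K] [CommRing R]
  [IsDomain A₀] [IsDiscreteValuationRing A₀] [IsDomain A'] in
/-- Transport of the root to `L`. -/
theorem nbc_aeval_algebraMap_eq_zero {π' : A'} (g : A₀[X]) (hroot : aeval π' g = 0) :
    aeval (algebraMap A' L π') g = 0 := by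
  rw [aeval_algebraMap_apply, hroot, map_zero]

/-- **U8, consumer form (normality).** -/
theorem normalBC_tot {π : A₀} (hπ : Irreducible π)
    (hπ0 : algebraMap A₀ R π ≠ 0) (hπu : ¬ IsUnit (algebraMap A₀ R π))
    (hred : ∀ c : R, algebraMap A₀ R π ∣ c ^ 2 → algebraMap A₀ R π ∣ c)
    {π' : A'} (hπ'0 : π' ≠ 0) (hπ'u : ¬ IsUnit π') {e : ℕ}
    (hram : π' ^ e ∣ algebraMap A₀ A' π)
    (g : A₀[X]) (hgm : g.Monic) (hroot : aeval π' g = 0) (hdeg : g.natDegree ≤ e)
    (B : PowerBasis K L) (hB : B.gen = algebraMap A' L π') [Algebra.IsSeparable K L] :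
    integralClosure R L = Algebra.adjoin R ({algebraMap A' L π'} : Set L) ∧ B.dim = e := by
  obtain ⟨hE, hge⟩ := nbc_ram_isEisensteinAt hπ hπ'0 hπ'u hram g hgm hroot hdeg
  have hrootL : aeval B.gen g = 0 := by
    rw [hB]; exact nbc_aeval_algebraMap_eq_zero g hroot
  refine ⟨?_, ?_⟩
  · rw [← hB]
    exact normalBC_integralClosure_eq hπ hπ0 hπu hred B g hgm hE hrootL
  · rw [← hge]
    exact (normalBC_natDegree_eq (R := R) hπ hπ0 hπu hred B g hgm hE hrootL).symm

/-- **U8, consumer form (special fibre)**: `R / π ≃+* R[π'] / π'`. -/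
noncomputable def normalBC_tot_fibreEquiv {π : A₀} (hπ : Irreducible π)
    (hπ0 : algebraMap A₀ R π ≠ 0) (hπu : ¬ IsUnit (algebraMap A₀ R π))
    (hred : ∀ c : R, algebraMap A₀ R π ∣ c ^ 2 → algebraMap A₀ R π ∣ c)
    {π' : A'} (hπ'0 : π' ≠ 0) (hπ'u : ¬ IsUnit π') {e : ℕ}
    (hram : π' ^ e ∣ algebraMap A₀ A' π)
    (g : A₀[X]) (hgm : g.Monic) (hroot : aeval π' g = 0) (hdeg : g.natDegree ≤ e) :
    R ⧸ Ideal.span {algebraMap A₀ R π} ≃+*
      Algebra.adjoin R ({algebraMap A' L π'} : Set L) ⧸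
        Ideal.span {nbcGen R (algebraMap A' L π')} :=
  normalBC_fibreEquiv K hπ hπ0 hπu hred g hgm
    (nbc_ram_isEisensteinAt hπ hπ'0 hπ'u hram g hgm hroot hdeg).1
    (by
      rcases Nat.eq_zero_or_pos g.natDegree with h0 | h0
      · exfalso
        have h1 : g = 1 := hgm.natDegree_eq_zero.1 h0
        rw [h1] at hroot
        simp at hroot
      · exact h0)
    (nbc_aeval_algebraMap_eq_zero g hroot)

end Tot

end Fermat.Agent.UNIP


end ZBUNIP_004_1

/-! ### bundled: `Fermat.Agent.UNIP.MGCharts` -/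
section ZBUNIP_004_2
/-
UNIP / MG-4 (helper16), abstract part: the chart over the ramified base.

`R` (= the chart `B₀` over `A₀`), `α ∈ L` (= the uniformizer `π'` of `A'`), `R' = R[α] ⊆ L`
(= the chart `B'` over `A'`, by U8), `p ∈ R` (= `q`) with `α ∣ p` in `R'` and
`R / p ≅ R' / α` (U8 `normalBC_fibreEquiv`).

* `mgcExt φ ρ hρ : R' →+* S` : the extension of `ρ : R →+* S`, `ρ p = 0`, with `α ↦ 0`
  (the restriction map to a component of the special fibre, over `A'`);
* `mgc_ker` (SS1)' : `ρ' x = 0 → ρ₀' x = 0 → α ∣ x`;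
* `mgc_comap_isMaximal`, `mgc_mem_comap` : a maximal ideal `𝔫' ∋ α` of `R'` lies over a maximal
  ideal `𝔫 ∋ p` of `R`;
* `mgc_locGen` (SS2)'/(SS3)' : `NodesLocGen 𝔫 (insert p T) → NodesLocGen 𝔫' (insert α T)`.
-/

set_option autoImplicit false

namespace Fermat.Agent.UNIP

section Abstract

variable {R L : Type*} [CommRing R] [CommRing L] [Algebra R L]

/-- The chart over the ramified base: `R' = R[α]`. -/
abbrev MgcChart (R : Type*) {L : Type*} [CommRing R] [CommRing L] [Algebra R L] (α : L) :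
    Subalgebra R L :=
  Algebra.adjoin R ({α} : Set L)

/-- Every element of `R[α]` is `c + α * z`. -/
theorem mgc_exists_eq_add_mul (α : L) (x : MgcChart R α) :
    ∃ (c : R) (z : MgcChart R α), x = algebraMap R (MgcChart R α) c + nbcGen R α * z := by
  obtain ⟨c, z', hz', h⟩ := nbc_exists_eq_add_mul α x.2
  exact ⟨c, ⟨z', hz'⟩, Subtype.ext h⟩

/-- **(SS2)'/(SS3)'**: local generators over the ramified base. -/
theorem mgc_locGen (α : L) {p : R}
    (hp : nbcGen R α ∣ algebraMap R (MgcChart R α) p)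
    {𝔫' : Ideal (MgcChart R α)} (hα : nbcGen R α ∈ 𝔫') (T : Set R)
    (h : NodesLocGen (𝔫'.comap (algebraMap R (MgcChart R α))) (insert p T)) :
    NodesLocGen 𝔫' (insert (nbcGen R α) (algebraMap R (MgcChart R α) '' T)) := by
  intro b hb
  obtain ⟨c, z, rfl⟩ := mgc_exists_eq_add_mul α b
  have hc : c ∈ 𝔫'.comap (algebraMap R (MgcChart R α)) := by
    rw [Ideal.mem_comap]
    have : algebraMap R (MgcChart R α) c =
        (algebraMap R (MgcChart R α) c + nbcGen R α * z) - nbcGen R α * z := by ring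
    rw [this]
    exact 𝔫'.sub_mem hb (𝔫'.mul_mem_right _ hα)
  obtain ⟨u, hu, huc⟩ := h c hc
  refine ⟨algebraMap R (MgcChart R α) u, fun hu' => hu (Ideal.mem_comap.2 hu'), ?_⟩
  rw [mul_add]
  refine Ideal.add_mem _ ?_ ?_
  · rw [← map_mul]
    have h1 : algebraMap R (MgcChart R α) (u * c) ∈
        Ideal.map (algebraMap R (MgcChart R α)) (Ideal.span (insert p T)) :=
      Ideal.mem_map_of_mem _ huc
    rw [Ideal.map_span] at h1
    refine (Ideal.span_le.2 ?_) h1
    rintro _ ⟨t, ht, rfl⟩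
    rcases ht with rfl | ht
    · obtain ⟨w, hw⟩ := hp
      rw [SetLike.mem_coe, hw]
      exact Ideal.mul_mem_right _ _ (Ideal.subset_span (Set.mem_insert _ _))
    · exact Ideal.subset_span (Set.mem_insert_of_mem _ ⟨t, ht, rfl⟩)
  · rw [mul_left_comm]
    exact Ideal.mul_mem_right _ _ (Ideal.subset_span (Set.mem_insert _ _))

/-- `p` lies in the contraction of an ideal containing `α`. -/
theorem mgc_mem_comap (α : L) {p : R}
    (hp : nbcGen R α ∣ algebraMap R (MgcChart R α) p)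
    {𝔫' : Ideal (MgcChart R α)} (hα : nbcGen R α ∈ 𝔫') :
    p ∈ 𝔫'.comap (algebraMap R (MgcChart R α)) := by
  obtain ⟨w, hw⟩ := hp
  rw [Ideal.mem_comap, hw]
  exact Ideal.mul_mem_right _ _ hα

/-- `R[α]` is integral over `R` if `α` is. -/
theorem mgc_isIntegral {α : L} (hα : IsIntegral R α) : Algebra.IsIntegral R (MgcChart R α) :=
  le_integralClosure_iff_isIntegral.1 (_root_.adjoin_le_integralClosure hα)

/-- The contraction of a maximal ideal of `R[α]` is maximal. -/
theorem mgc_comap_isMaximal {α : L} (hα : IsIntegral R α)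
    (𝔫' : Ideal (MgcChart R α)) [h𝔫 : 𝔫'.IsMaximal] :
    (𝔫'.comap (algebraMap R (MgcChart R α))).IsMaximal := by
  have := mgc_isIntegral hα
  exact Ideal.isMaximal_comap_of_isIntegral_of_isMaximal (R := R) 𝔫'

section Ext

variable {S : Type*} [CommRing S] {α : L} {p : R}

/-- The extension of `ρ : R →+* S` (`ρ p = 0`) to `R[α]` with `α ↦ 0`. -/
noncomputable def mgcExt
    (φ : R ⧸ Ideal.span {p} ≃+* MgcChart R α ⧸ Ideal.span {nbcGen R α})
    (ρ : R →+* S) (hρ : ρ p = 0) : MgcChart R α →+* S :=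
  (Ideal.Quotient.lift (Ideal.span {p}) ρ (fun a ha => by
    obtain ⟨b, rfl⟩ := Ideal.mem_span_singleton.1 ha
    rw [map_mul, hρ, zero_mul])).comp
    ((φ.symm : _ →+* _).comp (Ideal.Quotient.mk (Ideal.span {nbcGen R α})))

theorem mgcExt_algebraMap
    (φ : R ⧸ Ideal.span {p} ≃+* MgcChart R α ⧸ Ideal.span {nbcGen R α})
    (hφ : ∀ c : R, φ (Ideal.Quotient.mk _ c) =
      Ideal.Quotient.mk _ (algebraMap R (MgcChart R α) c))
    (ρ : R →+* S) (hρ : ρ p = 0) (c : R) :
    mgcExt φ ρ hρ (algebraMap R (MgcChart R α) c) = ρ c := by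
  unfold mgcExt
  rw [RingHom.comp_apply, RingHom.comp_apply, ← hφ c]
  simp

theorem mgcExt_gen
    (φ : R ⧸ Ideal.span {p} ≃+* MgcChart R α ⧸ Ideal.span {nbcGen R α})
    (ρ : R →+* S) (hρ : ρ p = 0) :
    mgcExt φ ρ hρ (nbcGen R α) = 0 := by
  unfold mgcExt
  rw [RingHom.comp_apply, RingHom.comp_apply,
    Ideal.Quotient.eq_zero_iff_mem.2 (Ideal.mem_span_singleton_self _), map_zero, map_zero]

theorem mgcExt_add_mul
    (φ : R ⧸ Ideal.span {p} ≃+* MgcChart R α ⧸ Ideal.span {nbcGen R α})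
    (hφ : ∀ c : R, φ (Ideal.Quotient.mk _ c) =
      Ideal.Quotient.mk _ (algebraMap R (MgcChart R α) c))
    (ρ : R →+* S) (hρ : ρ p = 0) (c : R) (z : MgcChart R α) :
    mgcExt φ ρ hρ (algebraMap R (MgcChart R α) c + nbcGen R α * z) = ρ c := by
  rw [map_add, map_mul, mgcExt_gen, zero_mul, add_zero, mgcExt_algebraMap φ hφ]

/-- **(SS1)'**: the two components over the ramified base cut out `(α)`. -/
theorem mgc_ker
    (φ : R ⧸ Ideal.span {p} ≃+* MgcChart R α ⧸ Ideal.span {nbcGen R α})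
    (hφ : ∀ c : R, φ (Ideal.Quotient.mk _ c) =
      Ideal.Quotient.mk _ (algebraMap R (MgcChart R α) c))
    (hp : nbcGen R α ∣ algebraMap R (MgcChart R α) p)
    {f g : R →+* S} (hf : f p = 0) (hg : g p = 0)
    (hker : ∀ x : R, f x = 0 → g x = 0 → p ∣ x)
    (x : MgcChart R α) (hfx : mgcExt φ f hf x = 0) (hgx : mgcExt φ g hg x = 0) :
    nbcGen R α ∣ x := by
  obtain ⟨c, z, rfl⟩ := mgc_exists_eq_add_mul α x
  rw [mgcExt_add_mul φ hφ] at hfx hgx
  obtain ⟨d, rfl⟩ := hker c hfx hgx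
  rw [map_mul]
  exact dvd_add (Dvd.dvd.mul_right hp _) (dvd_mul_right _ _)

/-- The kernel of the extension lies in `𝔫'` as soon as the kernel of `ρ` lies in `𝔫' ∩ R`. -/
theorem mgc_ker_le
    (φ : R ⧸ Ideal.span {p} ≃+* MgcChart R α ⧸ Ideal.span {nbcGen R α})
    (hφ : ∀ c : R, φ (Ideal.Quotient.mk _ c) =
      Ideal.Quotient.mk _ (algebraMap R (MgcChart R α) c))
    {f : R →+* S} (hf : f p = 0)
    {𝔫' : Ideal (MgcChart R α)} (hα : nbcGen R α ∈ 𝔫')
    (h : ∀ x : R, f x = 0 → x ∈ 𝔫'.comap (algebraMap R (MgcChart R α)))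
    (x : MgcChart R α) (hfx : mgcExt φ f hf x = 0) : x ∈ 𝔫' := by
  obtain ⟨c, z, rfl⟩ := mgc_exists_eq_add_mul α x
  rw [mgcExt_add_mul φ hφ] at hfx
  exact 𝔫'.add_mem (Ideal.mem_comap.1 (h c hfx)) (𝔫'.mul_mem_right _ hα)

/-- Conversely. -/
theorem mgc_ker_le_comap
    (φ : R ⧸ Ideal.span {p} ≃+* MgcChart R α ⧸ Ideal.span {nbcGen R α})
    (hφ : ∀ c : R, φ (Ideal.Quotient.mk _ c) =
      Ideal.Quotient.mk _ (algebraMap R (MgcChart R α) c))
    {f : R →+* S} (hf : f p = 0)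
    {𝔫' : Ideal (MgcChart R α)}
    (h : ∀ x : MgcChart R α, mgcExt φ f hf x = 0 → x ∈ 𝔫')
    (x : R) (hfx : f x = 0) : x ∈ 𝔫'.comap (algebraMap R (MgcChart R α)) := by
  rw [Ideal.mem_comap]
  exact h _ (by rw [mgcExt_algebraMap φ hφ, hfx])

end Ext

end Abstract

end Fermat.Agent.UNIP


end ZBUNIP_004_2
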