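/- GENERATED FILE (helper35, build-time optimisation, NOTES/ZB.md): verbatim concatenation of the modules
   Fermat.Agent.ES.RRFin
   Do not edit; do not import together with these modules. -/
import Mathlib
import Fermat.Agent.ZB.UNIP_004

/-! ### bundled: `Fermat.Agent.ES.RRFin` -/
section ZBES_014_0

/-!
# ESpkg-G1, piece A6-surj (S1): order bounds for Riemann–Roch-type spaces

`k ⊆ L` fields, `v` a valuation on `L` which is trivial on `k`, `x ∈ L` with `1 < v x` (a pole).
For `y ∈ L`, `y ≠ 0`, integral over `k[x]`, with `y / x ^ n` integral over `k[1/x]`, and with minimal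
polynomial over `k(x)` of degree `≤ d`:

  `(v x) ^ (-(d - 1) n) ≤ v y ≤ (v x) ^ n`.

In `k((q))` this bounds the `q`-order of `y` from both sides, hence every `k`-subspace of such `y`
is finite-dimensional (`finiteDimensional_of_val_bounds`).
-/

set_option autoImplicit false

noncomputable section

namespace Fermat.Agent.ES.RRFin

open Polynomial IntermediateField

section Val

variable {k L : Type*} [Field k] [Field L] [Algebra k L]
variable {Γ₀ : Type*} [LinearOrderedCommGroupWithZero Γ₀] (v : Valuation L Γ₀)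

/-- elements of `k[t]` have `v ≤ 1` if `v t ≤ 1` and `v ≤ 1` on `k`. -/
theorem val_le_one_of_mem_adjoin (hk : ∀ c : k, v (algebraMap k L c) ≤ 1) {t : L} (ht : v t ≤ 1)
    {a : L} (ha : a ∈ Algebra.adjoin k {t}) : v a ≤ 1 := by
  induction ha using Algebra.adjoin_induction with
  | mem x hx =>
    rw [Set.mem_singleton_iff] at hx
    rw [hx]; exact ht
  | algebraMap c => exact hk c
  | add x y _ _ hx hy => exact (v.map_add x y).trans (max_le hx hy)
  | mul x y _ _ hx hy =>
    rw [map_mul]
    exact mul_le_one' hx hy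

/-- a root of a monic polynomial whose coefficients have `v ≤ 1` has `v ≤ 1`. -/
theorem val_le_one_of_monic (P : L[X]) (hP : P.Monic) (hc : ∀ i, v (P.coeff i) ≤ 1) {z : L}
    (hz : P.eval z = 0) : v z ≤ 1 := by
  by_contra hlt
  push Not at hlt
  have hz0 : z ≠ 0 := by
    rintro rfl
    simp at hlt
  set m := P.natDegree with hm
  have hsum : P.eval z = ∑ i ∈ Finset.range m, P.coeff i * z ^ i + z ^ m := by
    rw [Polynomial.eval_eq_sum_range, Finset.sum_range_succ, ← hm]
    congr 1
    rw [hm, hP.coeff_natDegree, one_mul]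
  rw [hsum] at hz
  have hzm : z ^ m = -∑ i ∈ Finset.range m, P.coeff i * z ^ i := by
    linear_combination hz
  have hlt2 : v (∑ i ∈ Finset.range m, P.coeff i * z ^ i) < v z ^ m := by
    refine Valuation.map_sum_lt v (pow_ne_zero _ (by simpa using hz0)) ?_
    intro i hi
    rw [Finset.mem_range] at hi
    rw [map_mul, map_pow]
    calc v (P.coeff i) * v z ^ i ≤ 1 * v z ^ i := by gcongr; exact hc i
      _ = v z ^ i := one_mul _
      _ < v z ^ m := pow_lt_pow_right₀ hlt hi
  have := congrArg v hzm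
  rw [map_pow, Valuation.map_neg] at this
  exact absurd this (ne_of_gt hlt2)

/-- the valuation of a polynomial in a "pole" `x`. -/
theorem val_aeval_of_one_lt (hk : ∀ c : k, c ≠ 0 → v (algebraMap k L c) = 1) {x : L}
    (hx : 1 < v x) {P : k[X]} (hP : P ≠ 0) : v (aeval x P) = v x ^ P.natDegree := by
  set m := P.natDegree with hm
  have hsum : aeval x P = ∑ i ∈ Finset.range m, algebraMap k L (P.coeff i) * x ^ i
      + algebraMap k L P.leadingCoeff * x ^ m := by
    rw [Polynomial.aeval_eq_sum_range, Finset.sum_range_succ, ← hm]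
    simp only [Algebra.smul_def]
    rfl
  have hlead : v (algebraMap k L P.leadingCoeff * x ^ m) = v x ^ m := by
    rw [map_mul, map_pow, hk _ (Polynomial.leadingCoeff_ne_zero.2 hP), one_mul]
  have hlt : v (∑ i ∈ Finset.range m, algebraMap k L (P.coeff i) * x ^ i) < v x ^ m := by
    refine Valuation.map_sum_lt v (pow_ne_zero _ (ne_of_gt (lt_trans zero_lt_one hx))) ?_
    intro i hi
    rw [Finset.mem_range] at hi
    rw [map_mul, map_pow]
    have h1 : v (algebraMap k L (P.coeff i)) ≤ 1 := by
      by_cases h0 : P.coeff i = 0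
      · simp [h0]
      · exact (hk _ h0).le
    calc v (algebraMap k L (P.coeff i)) * v x ^ i ≤ 1 * v x ^ i := by gcongr
      _ = v x ^ i := one_mul _
      _ < v x ^ m := pow_lt_pow_right₀ hx hi
  rw [hsum, ← hlead]
  rw [← hlead] at hlt
  exact Valuation.map_add_eq_of_lt_right v hlt

/-- an element with `1 < v x` is transcendental over `k`. -/
theorem transcendental_of_one_lt (hk : ∀ c : k, c ≠ 0 → v (algebraMap k L c) = 1) {x : L}
    (hx : 1 < v x) : Transcendental k x := by
  rw [transcendental_iff]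
  intro P hP
  by_contra h0
  have := val_aeval_of_one_lt v hk hx h0
  rw [hP, map_zero] at this
  exact (pow_ne_zero _ (ne_of_gt (zero_lt_one.trans hx))) this.symm

/-- nonzero elements of `k[x]` have `1 ≤ v`. -/
theorem one_le_val_of_mem_adjoin (hk : ∀ c : k, c ≠ 0 → v (algebraMap k L c) = 1) {x : L}
    (hx : 1 < v x) {a : L} (ha : a ∈ Algebra.adjoin k {x}) (ha0 : a ≠ 0) : 1 ≤ v a := by
  rw [Algebra.adjoin_singleton_eq_range_aeval] at ha
  obtain ⟨P, rfl⟩ := ha
  have hP : P ≠ 0 := by
    rintro rfl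
    simp at ha0
  have h := val_aeval_of_one_lt v hk hx hP
  change 1 ≤ v (aeval x P)
  rw [h]
  exact one_le_pow₀ hx.le

end Val

section Minpoly

variable {k L : Type*} [Field k] [Field L] [Algebra k L]

theorem isIntegrallyClosed_adjoin {t : L} (ht : Transcendental k t) :
    IsIntegrallyClosed (Algebra.adjoin k {t}) :=
  IsIntegrallyClosed.of_equiv (Polynomial.algEquivOfTranscendental k t ht).toRingEquiv

/-- Coefficients of the minimal polynomial over `k(x)` of an element integral over `k[t]`, where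
`k(t) = k(x)` and `t` is transcendental, lie in `k[t]`. -/
theorem minpoly_coeff_mem_adjoin {x t : L} (ht : Transcendental k t) (htx : t ∈ k⟮x⟯)
    (hxt : x ∈ k⟮t⟯) {y : L} (hy : IsIntegral (Algebra.adjoin k {t}) y) (i : ℕ) :
    ((minpoly k⟮x⟯ y).coeff i : L) ∈ Algebra.adjoin k {t} := by
  have hle : Algebra.adjoin k {t} ≤ (k⟮x⟯).toSubalgebra :=
    Algebra.adjoin_le (by
      intro z hz
      rw [Set.mem_singleton_iff] at hz
      rw [hz]; exact htx)
  letI : Algebra (Algebra.adjoin k {t}) k⟮x⟯ := (Subalgebra.inclusion hle).toAlgebra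
  haveI : IsScalarTower (Algebra.adjoin k {t}) k⟮x⟯ L :=
    IsScalarTower.of_algebraMap_eq (fun _ => rfl)
  haveI : FaithfulSMul (Algebra.adjoin k {t}) k⟮x⟯ :=
    (faithfulSMul_iff_algebraMap_injective _ _).2 (Subalgebra.inclusion_injective hle)
  haveI : IsFractionRing (Algebra.adjoin k {t}) k⟮x⟯ := by
    refine IsFractionRing.of_field _ _ ?_
    rintro ⟨z, hz⟩
    have hz' : z ∈ k⟮t⟯ := by
      have : k⟮x⟯ ≤ k⟮t⟯ := by
        rw [IntermediateField.adjoin_simple_le_iff]; exact hxt
      exact this hz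
    obtain ⟨a, ha, b, hb, hab⟩ := IntermediateField.mem_adjoin_iff_div.mp hz'
    exact ⟨⟨a, ha⟩, ⟨b, hb⟩, Subtype.ext hab⟩
  haveI := isIntegrallyClosed_adjoin ht
  rw [minpoly.isIntegrallyClosed_eq_field_fractions' k⟮x⟯ hy, coeff_map]
  exact ((minpoly (Algebra.adjoin k {t}) y).coeff i).2

/-- the minimal polynomial of a scalar multiple. -/
theorem minpoly_mul_eq_scaleRoots {F : Type*} [Field F] [Algebra F L] {y : L}
    (hy : IsIntegral F y) {c : F} (hc : c ≠ 0) :
    minpoly F (algebraMap F L c * y) = scaleRoots (minpoly F y) c := by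
  have hcy : IsIntegral F (algebraMap F L c * y) := isIntegral_algebraMap.mul hy
  have hG : (scaleRoots (minpoly F y) c).Monic := (monic_scaleRoots_iff c).2 (minpoly.monic hy)
  have hroot : aeval (algebraMap F L c * y) (scaleRoots (minpoly F y) c) = 0 :=
    scaleRoots_aeval_eq_zero (minpoly.aeval F y)
  have hdvd : minpoly F (algebraMap F L c * y) ∣ scaleRoots (minpoly F y) c :=
    minpoly.dvd F _ hroot
  have hG' : (scaleRoots (minpoly F (algebraMap F L c * y)) c⁻¹).Monic :=
    (monic_scaleRoots_iff c⁻¹).2 (minpoly.monic hcy)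
  have hroot' : aeval y (scaleRoots (minpoly F (algebraMap F L c * y)) c⁻¹) = 0 := by
    have h := scaleRoots_aeval_eq_zero (r := c⁻¹) (minpoly.aeval F (algebraMap F L c * y))
    rwa [← mul_assoc, ← map_mul, inv_mul_cancel₀ hc, map_one, one_mul] at h
  have hdeg : (minpoly F y).natDegree ≤ (minpoly F (algebraMap F L c * y)).natDegree := by
    have h := Polynomial.natDegree_le_of_dvd (minpoly.dvd F y hroot') hG'.ne_zero
    rwa [natDegree_scaleRoots] at h
  refine (Polynomial.eq_of_monic_of_dvd_of_natDegree_le (minpoly.monic hcy) hG hdvd ?_).symm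
  rw [natDegree_scaleRoots]
  exact hdeg

variable {Γ₀ : Type*} [LinearOrderedCommGroupWithZero Γ₀] (v : Valuation L Γ₀)

open scoped IntermediateField.algebraAdjoinAdjoin in
/-- **Order bounds** for elements of the Riemann–Roch-type space `L(n·(x)_∞)`. -/
theorem val_bounds (hk : ∀ c : k, c ≠ 0 → v (algebraMap k L c) = 1) {x : L} (hx : 1 < v x)
    (n d : ℕ) {y : L} (hy0 : y ≠ 0) (h1 : IsIntegral (Algebra.adjoin k {x}) y)
    (h2 : IsIntegral (Algebra.adjoin k {x⁻¹}) (y * x⁻¹ ^ n))
    (hd : (minpoly k⟮x⟯ y).natDegree ≤ d) :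
    v y ≤ v x ^ n ∧ 1 ≤ v y * v x ^ ((d - 1) * n) := by
  have hx0 : x ≠ 0 := by
    rintro rfl
    simp at hx
  have hvx0 : v x ≠ 0 := ne_of_gt (zero_lt_one.trans hx)
  have hk' : ∀ c : k, v (algebraMap k L c) ≤ 1 := by
    intro c
    by_cases hc : c = 0
    · simp [hc]
    · exact (hk c hc).le
  have hvinv : v x⁻¹ ≤ 1 := by
    rw [map_inv₀]
    exact inv_le_one_of_one_le₀ hx.le
  -- first bound
  have hz : v (y * x⁻¹ ^ n) ≤ 1 := by
    obtain ⟨P, hP, hPz⟩ := h2
    refine val_le_one_of_monic v (P.map (algebraMap (Algebra.adjoin k {x⁻¹}) L)) (hP.map _) ?_ ?_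
    · intro i
      rw [coeff_map]
      exact val_le_one_of_mem_adjoin v hk' hvinv (P.coeff i).2
    · rwa [eval_map]
  have hb1 : v y ≤ v x ^ n := by
    rw [map_mul, map_pow, map_inv₀, inv_pow] at hz
    rwa [mul_inv_le_iff₀ (pow_pos (zero_lt_one.trans hx) n), one_mul] at hz
  refine ⟨hb1, ?_⟩
  -- second bound
  have htr : Transcendental k x := transcendental_of_one_lt v hk hx
  have htr' : Transcendental k x⁻¹ := fun h => htr (IsAlgebraic.inv_iff.1 h)
  have hxmem : x ∈ k⟮x⟯ := IntermediateField.mem_adjoin_simple_self k x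
  have hxinv : x⁻¹ ∈ k⟮x⟯ := inv_mem hxmem
  have hxmem' : x ∈ k⟮x⁻¹⟯ := by
    have := inv_mem (IntermediateField.mem_adjoin_simple_self k x⁻¹)
    rwa [inv_inv] at this
  have hyint : IsIntegral k⟮x⟯ y := h1.tower_top
  set P := minpoly k⟮x⟯ y with hPdef
  set r := P.natDegree with hr
  have hrpos : 0 < r := minpoly.natDegree_pos hyint
  have hA0 : (P.coeff 0 : L) ≠ 0 := by
    have := minpoly.coeff_zero_ne_zero hyint hy0
    simpa using this
  have hA : 1 ≤ v (P.coeff 0 : L) :=
    one_le_val_of_mem_adjoin v hk hx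
      (minpoly_coeff_mem_adjoin htr hxmem hxmem h1 0) hA0
  -- the scaled polynomial
  set c : k⟮x⟯ := ⟨x⁻¹, hxinv⟩ ^ n with hc
  have hc0 : c ≠ 0 := by
    rw [hc]
    refine pow_ne_zero _ ?_
    intro h
    exact inv_ne_zero hx0 (congrArg Subtype.val h)
  have hcval : (algebraMap k⟮x⟯ L c) = x⁻¹ ^ n := by
    rw [hc, map_pow]; rfl
  have hB : ∀ i, v (P.coeff i : L) ≤ v x ^ (n * (r - i)) := by
    intro i
    have hmin := minpoly_mul_eq_scaleRoots hyint hc0
    have hz2 : IsIntegral (Algebra.adjoin k {x⁻¹}) (algebraMap k⟮x⟯ L c * y) := by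
      rw [hcval, mul_comm]; exact h2
    have hmem := minpoly_coeff_mem_adjoin htr' hxinv hxmem' hz2 i
    rw [hmin, coeff_scaleRoots] at hmem
    have hle := val_le_one_of_mem_adjoin v hk' hvinv hmem
    rw [← hr] at hle
    have e1 : ((P.coeff i * c ^ (r - i) : k⟮x⟯) : L) = (P.coeff i : L) * (x⁻¹ ^ n) ^ (r - i) := by
      rw [← hcval]; rfl
    rw [e1, map_mul, map_pow, map_pow, map_inv₀, inv_pow, inv_pow, ← pow_mul] at hle
    rwa [mul_inv_le_iff₀ (pow_pos (zero_lt_one.trans hx) _), one_mul] at hle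
  by_contra hcon
  push Not at hcon
  have hvy : v y < 1 := by
    refine lt_of_le_of_lt ?_ hcon
    calc v y = v y * 1 := (mul_one _).symm
      _ ≤ v y * v x ^ ((d - 1) * n) := by
        gcongr
        exact one_le_pow₀ hx.le
  have hsum : aeval y P = (P.coeff 0 : L) + ∑ i ∈ Finset.range r, (P.coeff (i + 1) : L) * y ^ (i + 1) := by
    rw [Polynomial.aeval_eq_sum_range, ← hr, Finset.sum_range_succ', add_comm]
    simp only [pow_zero, Algebra.smul_def, mul_one]
    rfl
  rw [minpoly.aeval] at hsum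
  have hlt : v (∑ i ∈ Finset.range r, (P.coeff (i + 1) : L) * y ^ (i + 1)) < 1 := by
    refine Valuation.map_sum_lt v one_ne_zero ?_
    intro i hi
    rw [Finset.mem_range] at hi
    rw [map_mul, map_pow]
    have h3 : v y ^ (i + 1) ≤ v y := by
      calc v y ^ (i + 1) = v y ^ i * v y := pow_succ _ _
        _ ≤ 1 * v y := by
          gcongr
          exact pow_le_one₀ zero_le hvy.le
        _ = v y := one_mul _
    have h4 : v x ^ (n * (r - (i + 1))) ≤ v x ^ ((d - 1) * n) := by
      refine pow_le_pow_right₀ hx.le ?_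
      rw [mul_comm]
      exact Nat.mul_le_mul_right n (by omega)
    calc v (P.coeff (i + 1) : L) * v y ^ (i + 1)
        ≤ v x ^ (n * (r - (i + 1))) * v y := by
          gcongr
          exact hB (i + 1)
      _ ≤ v x ^ ((d - 1) * n) * v y := by gcongr
      _ = v y * v x ^ ((d - 1) * n) := mul_comm _ _
      _ < 1 := hcon
  have hA' : (P.coeff 0 : L) = -∑ i ∈ Finset.range r, (P.coeff (i + 1) : L) * y ^ (i + 1) := by
    linear_combination -hsum
  rw [hA', Valuation.map_neg] at hA
  exact absurd hlt (not_lt.2 hA)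

end Minpoly

section Laurent

variable {k : Type*} [Field k]

open WithZero

/-- the coefficients in a window, as a linear map. -/
def windowCoeff (a b : ℤ) : LaurentSeries k →ₗ[k] (Finset.Icc a b → k) where
  toFun y := fun i => y.coeff (i : ℤ)
  map_add' y z := by
    funext i
    simp
  map_smul' c y := by
    funext i
    simp

@[simp] theorem windowCoeff_apply (a b : ℤ) (y : LaurentSeries k) (i : Finset.Icc a b) :
    windowCoeff a b y i = y.coeff (i : ℤ) := rfl

/-- A `k`-subspace of `k((q))` whose nonzero elements have valuation in a fixed range `[B, A]`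
(`B ≠ 0`) is finite-dimensional. -/
theorem finiteDimensional_of_val_bounds (W : Submodule k (LaurentSeries k)) (A B : ℤᵐ⁰)
    (hB : B ≠ 0)
    (hW : ∀ y ∈ W, y ≠ 0 → Valued.v y ≤ A ∧ B ≤ Valued.v y) : FiniteDimensional k W := by
  by_cases hA : A = 0
  · have hbot : W = ⊥ := by
      rw [eq_bot_iff]
      intro y hy
      by_contra h0
      have h0' : y ≠ 0 := fun h => h0 (by rw [h]; exact Submodule.zero_mem _)
      have := (hW y hy h0').1
      rw [hA] at this
      exact h0' ((Valuation.zero_iff _).1 (le_antisymm this zero_le))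
    rw [hbot]
    infer_instance
  · set f : W →ₗ[k] (Finset.Icc (-log A) (-log B) → k) :=
      (windowCoeff (-log A) (-log B)).comp W.subtype with hf
    refine FiniteDimensional.of_injective f ?_
    rw [← LinearMap.ker_eq_bot, LinearMap.ker_eq_bot']
    rintro ⟨y, hy⟩ hfy
    by_contra h0
    have h0' : y ≠ 0 := fun h => h0 (Subtype.ext h)
    obtain ⟨h1, h2⟩ := hW y hy h0'
    have hc1 : ∀ n < -log A, y.coeff n = 0 :=
      (LaurentSeries.valuation_le_iff_coeff_lt_log_eq_zero k hA).1 h1
    have hc2 : ∀ n, -log A ≤ n → n ≤ -log B → y.coeff n = 0 := by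
      intro n hn1 hn2
      have := congrFun hfy ⟨n, Finset.mem_Icc.2 ⟨hn1, hn2⟩⟩
      simpa [hf] using this
    have hB' : B * exp (-1 : ℤ) ≠ 0 := mul_ne_zero hB (by simp)
    have h3 : Valued.v y ≤ B * exp (-1 : ℤ) := by
      rw [LaurentSeries.valuation_le_iff_coeff_lt_log_eq_zero k hB']
      intro n hn
      rw [WithZero.log_mul hB (by simp), WithZero.log_exp] at hn
      by_cases hn1 : n < -log A
      · exact hc1 n hn1
      · exact hc2 n (not_lt.1 hn1) (by omega)
    have h4 : B * exp (-1 : ℤ) < B := by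
      have hlt : exp (-1 : ℤ) < (1 : ℤᵐ⁰) := by
        rw [← WithZero.exp_zero]
        exact WithZero.exp_lt_exp.2 (by norm_num)
      calc B * exp (-1 : ℤ) < B * 1 := by
            exact mul_lt_mul_of_pos_left hlt (zero_lt_iff.2 hB)
        _ = B := mul_one B
    exact absurd (h2.trans h3) (not_le.2 h4)

end Laurent

end Fermat.Agent.ES.RRFin

end
end ZBES_014_0
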