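/- GENERATED FILE (helper35, build-time optimisation, NOTES/ZB.md): verbatim concatenation of the modules
   Fermat.Agent.ES.DescentCore
   Do not edit; do not import together with these modules. -/
import Mathlib
import Fermat.Agent.ZB.S23_002
import Fermat.Agent.ZB.ES_014

/-! ### bundled: `Fermat.Agent.ES.DescentCore` -/
section ZBES_013_0

/-!
# ESpkg-G1, piece A6 (descent), abstract core

* `Fermat.Agent.ES.isAlgebraic_of_finite_orbit` : a complex number with finite orbit under the ring
  automorphisms of `ℂ` is algebraic over `ℚ`.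
* `Fermat.Agent.ES.le_span_algebraic_of_finite_family` : let `Ws` be a finite family of subspaces of
  `ι → ℂ` (coefficient vectors) which is permuted by the coefficientwise action of `Aut ℂ`.  Then
  every finite-dimensional member is spanned by its elements all of whose coefficients are algebraic.
* `Fermat.Agent.ES.exists_ne_zero_algebraic_of_finite_family` : in particular a nonzero
  finite-dimensional member contains a nonzero vector with algebraic coefficients.
-/

set_option autoImplicit false

noncomputable section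

namespace Fermat.Agent.ES

open Polynomial Module

/-- A complex number with finite `Aut ℂ`-orbit is algebraic over `ℚ`. -/
theorem isAlgebraic_of_finite_orbit (x : ℂ)
    (h : Set.Finite {y : ℂ | ∃ σ : ℂ ≃+* ℂ, y = σ x}) : IsAlgebraic ℚ x := by
  classical
  set O : Finset ℂ := h.toFinset with hO
  have hmem : ∀ y, y ∈ O ↔ ∃ σ : ℂ ≃+* ℂ, y = σ x := fun y => by
    simp [hO]
  have hx : x ∈ O := (hmem x).2 ⟨RingEquiv.refl ℂ, rfl⟩
  set P : ℂ[X] := ∏ y ∈ O, (X - C y) with hP
  have hmonic : P.Monic := monic_prod_of_monic _ _ fun y _ => monic_X_sub_C y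
  -- every automorphism permutes the orbit
  have himage : ∀ τ : ℂ ≃+* ℂ, O.image (fun y => τ y) = O := by
    intro τ
    apply Finset.eq_of_subset_of_card_le
    · intro z hz
      obtain ⟨y, hy, rfl⟩ := Finset.mem_image.1 hz
      obtain ⟨σ, rfl⟩ := (hmem y).1 hy
      exact (hmem _).2 ⟨σ.trans τ, rfl⟩
    · rw [Finset.card_image_of_injective _ τ.injective]
  have hfix : ∀ τ : ℂ ≃+* ℂ, P.map (τ : ℂ →+* ℂ) = P := by
    intro τ
    rw [hP, Polynomial.map_prod]
    have h1 : ∀ y ∈ O, (X - C y : ℂ[X]).map (τ : ℂ →+* ℂ) = X - C (τ y) := by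
      intro y _
      simp
    rw [Finset.prod_congr rfl h1]
    conv_rhs => rw [← himage τ]
    rw [Finset.prod_image]
    intro a _ b _ hab
    exact τ.injective hab
  have hcoeff : ∀ n, P.coeff n ∈ Set.range (algebraMap ℚ ℂ) := by
    intro n
    obtain ⟨r, hr⟩ := Fermat.Agent.S23.descent1_exists_rat_of_forall_ringEquiv_fixed (P.coeff n)
      (fun σ => by
        have := congrArg (fun Q : ℂ[X] => Q.coeff n) (hfix σ)
        simpa [Polynomial.coeff_map] using this)
    exact ⟨r, by rw [hr]; rfl⟩
  have hlift : P ∈ Polynomial.lifts (algebraMap ℚ ℂ) := by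
    rw [Polynomial.lifts_iff_coeff_lifts]
    exact hcoeff
  obtain ⟨Q, hQ⟩ := (Polynomial.mem_lifts P).1 hlift
  refine ⟨Q, ?_, ?_⟩
  · rintro rfl
    rw [Polynomial.map_zero] at hQ
    exact hmonic.ne_zero hQ.symm
  · rw [Polynomial.aeval_def, Polynomial.eval₂_eq_eval_map, hQ, hP, Polynomial.eval_prod]
    exact Finset.prod_eq_zero hx (by simp)

variable {ι : Type*}

/-- Coefficientwise application of a ring automorphism of `ℂ`. -/
def coeffAct (σ : ℂ ≃+* ℂ) (f : ι → ℂ) : ι → ℂ := fun n => σ (f n)

@[simp] lemma coeffAct_apply (σ : ℂ ≃+* ℂ) (f : ι → ℂ) (n : ι) : coeffAct σ f n = σ (f n) := rfl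

lemma coeffAct_injective (σ : ℂ ≃+* ℂ) : Function.Injective (coeffAct (ι := ι) σ) := by
  intro f g h
  funext n
  exact σ.injective (congrFun h n)

/-- **Echelon descent for a finite family.**  If the finite family `Ws` of subspaces of `ι → ℂ` is
permuted by the coefficientwise action of `Aut ℂ`, then every finite-dimensional member is spanned
by its vectors with algebraic coefficients. -/
theorem le_span_algebraic_of_finite_family {κ : Type*} [Finite κ]
    (Ws : κ → Submodule ℂ (ι → ℂ))
    (hstab : ∀ (σ : ℂ ≃+* ℂ) (i : κ), ∃ j : κ, ∀ F : ι → ℂ,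
      F ∈ Ws j ↔ ∃ f ∈ Ws i, F = coeffAct σ f)
    (i₀ : κ) [FiniteDimensional ℂ (Ws i₀)] :
    Ws i₀ ≤ Submodule.span ℂ {F | F ∈ Ws i₀ ∧ ∀ n, IsAlgebraic ℚ (F n)} := by
  classical
  set V := Ws i₀ with hV
  -- the coefficient functionals on `V`
  let c : ι → Module.Dual ℂ V := fun n => (LinearMap.proj (R := ℂ) (φ := fun _ : ι => ℂ) n).comp V.subtype
  have hc : ∀ n (f : V), c n f = (f : ι → ℂ) n := fun n f => rfl
  -- they span the dual
  have hspan : (⊤ : Submodule ℂ (Module.Dual ℂ V)) ≤ Submodule.span ℂ (Set.range c) := by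
    have h0 : (Submodule.span ℂ (Set.range c)).dualCoannihilator = ⊥ := by
      rw [eq_bot_iff]
      intro f hf
      rw [Submodule.mem_dualCoannihilator] at hf
      rw [Submodule.mem_bot]
      apply Subtype.ext
      funext n
      have := hf (c n) (Submodule.subset_span ⟨n, rfl⟩)
      simpa [hc] using this
    have h1 := Subspace.dualCoannihilator_dualAnnihilator_eq
      (W := Submodule.span ℂ (Set.range c))
    rw [h0, Submodule.dualAnnihilator_bot] at h1
    exact h1.le
  -- a basis of the dual consisting of coefficient functionals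
  let β := Module.Basis.ofSpan hspan
  have hβc : ∀ i, ∃ n, c n = β i := fun i => Module.Basis.ofSpan_subset hspan ⟨i, rfl⟩
  have : Finite _ := Module.Finite.finite_basis β
  choose idx hidx using hβc
  -- the dual basis of `V`
  let b := β.dualBasis.map (Module.evalEquiv ℂ V).symm
  have hb : ∀ i j, β i (b j) = if i = j then 1 else 0 := by
    intro i j
    simp only [b, Module.Basis.map_apply, Module.apply_evalEquiv_symm_apply]
    exact β.dualBasis_apply_self j i
  have hb' : ∀ i j, ((b j : V) : ι → ℂ) (idx i) = if i = j then 1 else 0 := by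
    intro i j
    rw [← hc, hidx, hb]
  -- a vector killed by all `β i` is zero
  have hzero : ∀ f : V, (∀ i, β i f = 0) → f = 0 := by
    intro f hf
    have : Module.evalEquiv ℂ V f = 0 := by
      apply β.ext
      intro i
      simpa using hf i
    exact (LinearEquiv.map_eq_zero_iff (Module.evalEquiv ℂ V)).mp this
  have hzero' : ∀ f ∈ V, (∀ i, f (idx i) = 0) → f = 0 := by
    intro f hf h
    have := hzero ⟨f, hf⟩ (fun i => by rw [← hidx, hc]; exact h i)
    exact congrArg Subtype.val this
  -- uniqueness in `V` from the values at the pivots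
  have huniq : ∀ f ∈ V, ∀ g ∈ V, (∀ i, f (idx i) = g (idx i)) → f = g := by
    intro f hf g hg h
    have := hzero' (f - g) (V.sub_mem hf hg) (fun i => by simp [h i])
    exact sub_eq_zero.1 this
  -- for each `j` the set of conjugates of `b j` is finite
  have hfin : ∀ j, Set.Finite {F : ι → ℂ | ∃ σ : ℂ ≃+* ℂ, F = coeffAct σ ((b j : V) : ι → ℂ)} := by
    intro j
    -- map each conjugate to the index of the subspace containing it
    have key : ∀ σ : ℂ ≃+* ℂ, ∃ k : κ, ∀ F : ι → ℂ, F ∈ Ws k ↔ ∃ f ∈ V, F = coeffAct σ f :=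
      fun σ => hstab σ i₀
    choose kf hkf using key
    -- two automorphisms with the same target subspace give the same conjugate
    have hsame : ∀ σ τ : ℂ ≃+* ℂ, kf σ = kf τ →
        coeffAct σ ((b j : V) : ι → ℂ) = coeffAct τ ((b j : V) : ι → ℂ) := by
      intro σ τ hk
      have hmem : coeffAct τ ((b j : V) : ι → ℂ) ∈ Ws (kf σ) := by
        rw [hk]
        exact (hkf τ _).2 ⟨_, (b j).2, rfl⟩
      obtain ⟨f, hf, hfe⟩ := (hkf σ _).1 hmem
      have hfb : f = ((b j : V) : ι → ℂ) := by
        apply huniq f hf _ (b j).2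
        intro i
        have h1 := congrFun hfe (idx i)
        simp only [coeffAct_apply] at h1
        rw [hb'] at h1
        rw [hb']
        apply σ.injective
        rw [← h1]
        split_ifs <;> simp
      rw [hfe, hfb]
    have : {F : ι → ℂ | ∃ σ : ℂ ≃+* ℂ, F = coeffAct σ ((b j : V) : ι → ℂ)} ⊆
        Set.range (fun k : κ => if h : ∃ σ : ℂ ≃+* ℂ, kf σ = k then
          coeffAct h.choose ((b j : V) : ι → ℂ) else 0) := by
      rintro F ⟨σ, rfl⟩
      refine ⟨kf σ, ?_⟩
      have hex : ∃ τ : ℂ ≃+* ℂ, kf τ = kf σ := ⟨σ, rfl⟩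
      simp only [dif_pos hex]
      exact hsame _ _ hex.choose_spec
    exact (Set.finite_range _).subset this
  -- hence the coefficients of `b j` are algebraic
  have halg : ∀ j n, IsAlgebraic ℚ (((b j : V) : ι → ℂ) n) := by
    intro j n
    apply isAlgebraic_of_finite_orbit
    have : {y : ℂ | ∃ σ : ℂ ≃+* ℂ, y = σ (((b j : V) : ι → ℂ) n)} ⊆
        (fun F : ι → ℂ => F n) '' {F : ι → ℂ | ∃ σ : ℂ ≃+* ℂ, F = coeffAct σ ((b j : V) : ι → ℂ)} := by
      rintro y ⟨σ, rfl⟩
      exact ⟨coeffAct σ ((b j : V) : ι → ℂ), ⟨σ, rfl⟩, rfl⟩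
    exact ((hfin j).image _).subset this
  -- conclude
  intro F hF
  have hmemspan : (⟨F, hF⟩ : V) ∈ Submodule.span ℂ (Set.range b) := by
    rw [b.span_eq]; exact Submodule.mem_top
  have := Submodule.mem_map_of_mem (f := V.subtype) hmemspan
  rw [Submodule.map_span] at this
  refine Submodule.span_mono ?_ this
  rintro _ ⟨_, ⟨j, rfl⟩, rfl⟩
  exact ⟨(b j).2, fun n => halg j n⟩

/-- A nonzero finite-dimensional member of a finite `Aut ℂ`-stable family of subspaces of `ι → ℂ`
contains a nonzero vector with algebraic coefficients. -/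
theorem exists_ne_zero_algebraic_of_finite_family {κ : Type*} [Finite κ]
    (Ws : κ → Submodule ℂ (ι → ℂ))
    (hstab : ∀ (σ : ℂ ≃+* ℂ) (i : κ), ∃ j : κ, ∀ F : ι → ℂ,
      F ∈ Ws j ↔ ∃ f ∈ Ws i, F = coeffAct σ f)
    (i₀ : κ) [FiniteDimensional ℂ (Ws i₀)] (hne : Ws i₀ ≠ ⊥) :
    ∃ F ∈ Ws i₀, F ≠ 0 ∧ ∀ n, IsAlgebraic ℚ (F n) := by
  by_contra hcon
  push Not at hcon
  apply hne
  rw [eq_bot_iff]
  refine (le_span_algebraic_of_finite_family Ws hstab i₀).trans ?_
  rw [Submodule.span_le]
  rintro F ⟨hF, halg⟩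
  by_contra hF0
  obtain ⟨n, hn⟩ := hcon F hF (fun h => hF0 (by rw [h]; exact Submodule.zero_mem _))
  exact hn (halg n)

end Fermat.Agent.ES

end
end ZBES_013_0
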