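/- GENERATED FILE (helper35, build-time optimisation, NOTES/ZB.md): verbatim concatenation of the modules
   Fermat.Agent.ES.RRSub
   Fermat.Agent.ES.DescentSurj
   Do not edit; do not import together with these modules. -/
import Mathlib
import Fermat.Prelude.Def_ModularCurve_LaurentCoeff
import Fermat.Agent.ZB.ES_013
import Fermat.Agent.ZB.ES_014

/-! ### bundled: `Fermat.Agent.ES.RRSub` -/
section ZBES_015_0

/-!
# ESpkg-G1, piece A6-surj S2: the Riemann–Roch-type subspaces `rrSub x n ⊂ k((q))`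

`rrSub x n = L(n·(x)_∞)`: series integral over `k[x]` such that `y / x ^ n` is integral over
`k[1/x]`.

* `exists_mul_mem_rrSub`: every `w` algebraic over `k[x]` has a nonzero multiple `e * w`,
  `e ∈ k[x]`, in some `rrSub x n`;
* `coeffMap_mem_rrSub`: `rrSub x n` is stable under coefficientwise automorphisms fixing `x`;
* `eq_C_of_pow_eq_one`: roots of unity in `k((q))` are constants (`k` algebraically closed).
-/

set_option autoImplicit false

noncomputable section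

namespace Fermat.Agent.ES.RRFin

open ModularCurve Polynomial

namespace RRSubAux

section Generic

variable {k F : Type*} [Field k] [CommRing F] [Nontrivial F] [Algebra k F]

/-- Integrality over a subalgebra, via a monic polynomial over the big ring with coefficients in
the subalgebra. -/
theorem isIntegral_subalgebra_iff (B : Subalgebra k F) (y : F) :
    IsIntegral B y ↔ ∃ p : F[X], p.Monic ∧ (∀ i, p.coeff i ∈ B) ∧ p.eval y = 0 := by
  constructor
  · rintro ⟨P, hP, hroot⟩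
    refine ⟨P.map (algebraMap B F), hP.map _, fun i => ?_, ?_⟩
    · rw [coeff_map]
      exact (P.coeff i).2
    · rw [eval_map]
      exact hroot
  · rintro ⟨p, hp, hcoeff, hroot⟩
    have hl : p ∈ lifts (algebraMap B F) := by
      rw [lifts_iff_coeff_lifts]
      intro i
      exact ⟨⟨p.coeff i, hcoeff i⟩, rfl⟩
    obtain ⟨q, hq, -, hqm⟩ := lifts_and_degree_eq_and_monic hl hp
    refine ⟨q, hqm, ?_⟩
    rw [← eval_map, hq]
    exact hroot

omit [Nontrivial F] in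
theorem isIntegral_algebraMap_subalgebra (B : Subalgebra k F) (c : k) :
    IsIntegral B (algebraMap k F c) := by
  rw [IsScalarTower.algebraMap_apply k B F c]
  exact isIntegral_algebraMap

omit [Nontrivial F] in
theorem isIntegral_of_mem_subalgebra (B : Subalgebra k F) {a : F} (ha : a ∈ B) :
    IsIntegral B a := by
  have : a = algebraMap B F ⟨a, ha⟩ := rfl
  rw [this]
  exact isIntegral_algebraMap

end Generic

end RRSubAux

open RRSubAux

variable {k : Type*} [Field k]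

/-- `L(n·(x)_∞)`: integral over `k[x]`, and `y / x ^ n` integral over `k[1/x]`. -/
def rrSub (x : LaurentSeries k) (n : ℕ) : Submodule k (LaurentSeries k) where
  carrier := {y | IsIntegral (Algebra.adjoin k {x}) y ∧
    IsIntegral (Algebra.adjoin k {x⁻¹}) (y * x⁻¹ ^ n)}
  add_mem' := by
    rintro a b ⟨ha1, ha2⟩ ⟨hb1, hb2⟩
    exact ⟨ha1.add hb1, by rw [add_mul]; exact ha2.add hb2⟩
  zero_mem' := ⟨isIntegral_zero, by rw [zero_mul]; exact isIntegral_zero⟩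
  smul_mem' := by
    rintro c y ⟨h1, h2⟩
    have hc : ∀ B : Subalgebra k (LaurentSeries k),
        IsIntegral B (HahnSeries.C c : LaurentSeries k) := fun B => by
      rw [← LaurentSeries.algebraMap_apply]
      exact isIntegral_algebraMap_subalgebra B c
    show IsIntegral _ (c • y) ∧ IsIntegral _ (c • y * x⁻¹ ^ n)
    rw [← HahnSeries.C_mul_eq_smul]
    exact ⟨(hc _).mul h1, by rw [mul_assoc]; exact (hc _).mul h2⟩

theorem mem_rrSub_iff {x : LaurentSeries k} {n : ℕ} {y : LaurentSeries k} :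
    y ∈ rrSub x n ↔ IsIntegral (Algebra.adjoin k {x}) y ∧
      IsIntegral (Algebra.adjoin k {x⁻¹}) (y * x⁻¹ ^ n) :=
  Iff.rfl

theorem rrSub_mono {x : LaurentSeries k} {m n : ℕ} (h : m ≤ n) : rrSub x m ≤ rrSub x n := by
  rintro y ⟨h1, h2⟩
  refine ⟨h1, ?_⟩
  obtain ⟨d, rfl⟩ := Nat.exists_eq_add_of_le h
  rw [pow_add, ← mul_assoc]
  refine h2.mul ?_
  exact isIntegral_of_mem_subalgebra _
    (Subalgebra.pow_mem _ (Algebra.subset_adjoin (Set.mem_singleton _)) d)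

/-- every element of `k[x]` becomes an element of `k[1/x]` after division by a high power of
`x`. -/
theorem RRSubAux.exists_bound_mul_inv_pow_mem (x : LaurentSeries k) {a : LaurentSeries k}
    (ha : a ∈ Algebra.adjoin k {x}) :
    ∃ N : ℕ, ∀ n, N ≤ n → a * x⁻¹ ^ n ∈ Algebra.adjoin k {x⁻¹} := by
  have hxinv : x⁻¹ ∈ Algebra.adjoin k {x⁻¹} := Algebra.subset_adjoin (Set.mem_singleton _)
  induction ha using Algebra.adjoin_induction with
  | mem y hy =>
    rw [Set.mem_singleton_iff] at hy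
    subst hy
    refine ⟨1, fun n hn => ?_⟩
    obtain ⟨m, rfl⟩ := Nat.exists_eq_add_of_le hn
    by_cases hx : y = 0
    · subst hx
      rw [zero_mul]
      exact zero_mem _
    · rw [pow_add, pow_one, ← mul_assoc, mul_inv_cancel₀ hx, one_mul]
      exact Subalgebra.pow_mem _ hxinv m
  | algebraMap c =>
    exact ⟨0, fun n _ => Subalgebra.mul_mem _ (Subalgebra.algebraMap_mem _ c)
      (Subalgebra.pow_mem _ hxinv n)⟩
  | add a b _ _ iha ihb =>
    obtain ⟨Na, hNa⟩ := iha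
    obtain ⟨Nb, hNb⟩ := ihb
    refine ⟨max Na Nb, fun n hn => ?_⟩
    rw [add_mul]
    exact add_mem (hNa n (le_trans (le_max_left _ _) hn)) (hNb n (le_trans (le_max_right _ _) hn))
  | mul a b _ _ iha ihb =>
    obtain ⟨Na, hNa⟩ := iha
    obtain ⟨Nb, hNb⟩ := ihb
    refine ⟨Na + Nb, fun n hn => ?_⟩
    obtain ⟨m, rfl⟩ := Nat.exists_eq_add_of_le hn
    have : a * b * x⁻¹ ^ (Na + Nb + m) = (a * x⁻¹ ^ Na) * (b * x⁻¹ ^ (Nb + m)) := by
      rw [pow_add, pow_add, pow_add]; ring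
    rw [this]
    exact mul_mem (hNa Na le_rfl) (hNb (Nb + m) (Nat.le_add_right _ _))

theorem exists_mul_mem_rrSub {x : LaurentSeries k} (w : LaurentSeries k)
    (hw : IsAlgebraic (Algebra.adjoin k {x}) w) :
    ∃ e ∈ Algebra.adjoin k {x}, e ≠ 0 ∧ ∃ n, e * w ∈ rrSub x n := by
  obtain ⟨e, he0, hint⟩ := hw.exists_integral_multiple
  refine ⟨(e : LaurentSeries k), e.2, fun h => he0 (Subtype.ext h), ?_⟩
  have hint' : IsIntegral (Algebra.adjoin k {x}) ((e : LaurentSeries k) * w) := hint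
  obtain ⟨P, hPm, hPc, hPr⟩ := (RRSubAux.isIntegral_subalgebra_iff _ _).1 hint'
  -- a common bound for all coefficients
  choose N hN using fun i => exists_bound_mul_inv_pow_mem x (hPc i)
  set n := (Finset.range (P.natDegree + 1)).sup N with hn
  refine ⟨n, hint', ?_⟩
  refine (RRSubAux.isIntegral_subalgebra_iff _ _).2 ⟨P.scaleRoots (x⁻¹ ^ n), ?_, fun i => ?_, ?_⟩
  · exact (monic_scaleRoots_iff _).2 hPm
  · rw [coeff_scaleRoots]
    rcases lt_trichotomy i P.natDegree with hi | hi | hi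
    · rw [← pow_mul]
      refine hN i _ ?_
      have h1 : N i ≤ n := Finset.le_sup (f := N) (Finset.mem_range.2 (by omega))
      have h2 : 1 ≤ P.natDegree - i := by omega
      calc N i ≤ n := h1
        _ = n * 1 := (mul_one n).symm
        _ ≤ n * (P.natDegree - i) := Nat.mul_le_mul_left n h2
    · subst hi
      rw [Nat.sub_self, pow_zero, mul_one, coeff_natDegree, hPm.leadingCoeff]
      exact one_mem _
    · rw [coeff_eq_zero_of_natDegree_lt hi, zero_mul]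
      exact zero_mem _
  · have := scaleRoots_eval₂_eq_zero (RingHom.id (LaurentSeries k)) (r := (e : LaurentSeries k) * w)
      (s := x⁻¹ ^ n) (p := P) (by rw [eval₂_id]; exact hPr)
    rw [eval₂_id, RingHom.id_apply, mul_comm] at this
    exact this

theorem RRSubAux.coeffMap_mem_adjoin (σ : k →+* k) {x : LaurentSeries k} (hσ : coeffMap σ x = x)
    {a : LaurentSeries k} (ha : a ∈ Algebra.adjoin k {x}) :
    coeffMap σ a ∈ Algebra.adjoin k {x} := by
  induction ha using Algebra.adjoin_induction with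
  | mem y hy =>
    rw [Set.mem_singleton_iff] at hy
    subst hy
    rw [hσ]
    exact Algebra.subset_adjoin (Set.mem_singleton _)
  | algebraMap c =>
    rw [coeffMap_algebraMap]
    exact Subalgebra.algebraMap_mem _ _
  | add a b _ _ iha ihb => rw [map_add]; exact add_mem iha ihb
  | mul a b _ _ iha ihb => rw [map_mul]; exact mul_mem iha ihb

theorem RRSubAux.isIntegral_coeffMap (σ : k →+* k) {x : LaurentSeries k} (hσ : coeffMap σ x = x)
    {y : LaurentSeries k} (hy : IsIntegral (Algebra.adjoin k {x}) y) :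
    IsIntegral (Algebra.adjoin k {x}) (coeffMap σ y) := by
  obtain ⟨P, hPm, hPc, hPr⟩ := (RRSubAux.isIntegral_subalgebra_iff _ _).1 hy
  refine (RRSubAux.isIntegral_subalgebra_iff _ _).2 ⟨P.map (coeffMap σ), hPm.map _, fun i => ?_, ?_⟩
  · rw [coeff_map]
    exact coeffMap_mem_adjoin σ hσ (hPc i)
  · rw [eval_map, eval₂_hom, hPr, map_zero]

theorem coeffMap_mem_rrSub (σ : k ≃+* k) {x : LaurentSeries k}
    (hσ : coeffMap (σ : k →+* k) x = x) {n : ℕ} {y : LaurentSeries k} (hy : y ∈ rrSub x n) :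
    coeffMap (σ : k →+* k) y ∈ rrSub x n := by
  obtain ⟨h1, h2⟩ := hy
  have hσ' : coeffMap (σ : k →+* k) x⁻¹ = x⁻¹ := by rw [map_inv₀, hσ]
  refine ⟨isIntegral_coeffMap _ hσ h1, ?_⟩
  have := isIntegral_coeffMap (σ : k →+* k) hσ' h2
  rwa [map_mul, map_pow, hσ'] at this

/-- `p`-th roots of unity in `k((q))` are constants. -/
theorem eq_C_of_pow_eq_one [IsAlgClosed k] {p : ℕ} (hp : 0 < p) (hpk : (p : k) ≠ 0)
    {ζ : LaurentSeries k} (h : ζ ^ p = 1) : ∃ c : k, ζ = HahnSeries.C c := by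
  have _ := hpk
  have hne : (X ^ p - C (1 : k) : k[X]) ≠ 0 := X_pow_sub_C_ne_zero hp _
  have hroot : ((X ^ p - C (1 : k) : k[X]).map (HahnSeries.C : k →+* LaurentSeries k)).IsRoot ζ := by
    rw [IsRoot, eval_map, eval₂_sub, eval₂_pow, eval₂_X, eval₂_C, h, map_one, sub_self]
  obtain ⟨c, hc⟩ := (IsAlgClosed.splits _).mem_range_of_isRoot hne hroot
  exact ⟨c, hc.symm⟩

end Fermat.Agent.ES.RRFin

end
end ZBES_015_0

/-! ### bundled: `Fermat.Agent.ES.DescentSurj` -/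
section ZBES_015_1

/-!
# ESpkg-G1, piece A6-surj (S3): descent of a finite family of `K`-lines in `ℂ((q))`

`K ⊆ ℂ((q))` a field, finite over `ℂ(x)` (`x` with a pole at `q = 0`, `Aut ℂ`-fixed), stable under
the coefficientwise action of `Aut ℂ`; `S` a finite set of nonzero series `w` with some power in
`K`, such that the lines `K·w` (`w ∈ S`) are permuted by `Aut ℂ`.  Then every line `K·w` contains a
nonzero series with algebraic coefficients (`exists_algebraic_mul_of_finite_lines`).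

Proof: `W_w := L(n·(x)_∞) ∩ K·w` is a finite-dimensional `ℂ`-subspace (`RRFin.val_bounds`), nonzero
for `n ≫ 0`, and `σ W_w = W_{w'}`; apply the echelon descent of `DescentCore`.
-/

set_option autoImplicit false

noncomputable section

namespace Fermat.Agent.ES.RRFin

open ModularCurve IntermediateField Polynomial

/-- the coefficient function of a Laurent series, as a linear map. -/
def coeffLin : LaurentSeries ℂ →ₗ[ℂ] (ℤ → ℂ) where
  toFun y := y.coeff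
  map_add' y z := by
    funext i
    simp
  map_smul' c y := by
    funext i
    simp

@[simp] theorem coeffLin_apply (y : LaurentSeries ℂ) (m : ℤ) : coeffLin y m = y.coeff m := rfl

theorem coeffLin_injective : Function.Injective coeffLin := by
  intro a b h
  ext m
  exact congrFun h m

theorem coeffLin_coeffMap (σ : ℂ ≃+* ℂ) (y : LaurentSeries ℂ) :
    coeffLin (coeffMap (σ : ℂ →+* ℂ) y) = Fermat.Agent.ES.coeffAct σ (coeffLin y) := rfl

theorem coeffMap_symm_coeffMap (σ : ℂ ≃+* ℂ) (y : LaurentSeries ℂ) :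
    coeffMap (σ.symm : ℂ →+* ℂ) (coeffMap (σ : ℂ →+* ℂ) y) = y := by
  ext m
  simp

theorem coeffMap_coeffMap_symm (σ : ℂ ≃+* ℂ) (y : LaurentSeries ℂ) :
    coeffMap (σ : ℂ →+* ℂ) (coeffMap (σ.symm : ℂ →+* ℂ) y) = y := by
  ext m
  simp

/-- the `K`-line through `w`, as a `ℂ`-subspace. -/
def lineSub (K : IntermediateField ℂ (LaurentSeries ℂ)) (w : LaurentSeries ℂ) :
    Submodule ℂ (LaurentSeries ℂ) where
  carrier := {y | ∃ c ∈ K, y = c * w}
  add_mem' := by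
    rintro a b ⟨c, hc, rfl⟩ ⟨c', hc', rfl⟩
    exact ⟨c + c', add_mem hc hc', by ring⟩
  zero_mem' := ⟨0, zero_mem _, by ring⟩
  smul_mem' := by
    rintro a y ⟨c, hc, rfl⟩
    refine ⟨algebraMap ℂ _ a * c, mul_mem (K.algebraMap_mem a) hc, ?_⟩
    rw [← HahnSeries.C_mul_eq_smul, LaurentSeries.algebraMap_apply, mul_assoc]

theorem mem_lineSub {K : IntermediateField ℂ (LaurentSeries ℂ)} {w y : LaurentSeries ℂ} :
    y ∈ lineSub K w ↔ ∃ c ∈ K, y = c * w := Iff.rfl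

/-- the valuation of a nonzero constant is `1`. -/
theorem val_algebraMap_eq_one (c : ℂ) (hc : c ≠ 0) :
    Valued.v (algebraMap ℂ (LaurentSeries ℂ) c) = 1 := by
  have hle : ∀ a : ℂ, Valued.v (algebraMap ℂ (LaurentSeries ℂ) a) ≤ 1 := by
    intro a
    rw [← WithZero.exp_zero, ← neg_zero, LaurentSeries.valuation_le_iff_coeff_lt_eq_zero]
    intro m hm
    rw [algebraMap_laurentSeries_eq_single, HahnSeries.coeff_single_of_ne hm.ne]
  refine le_antisymm (hle c) ?_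
  have h1 := hle c⁻¹
  have h2 : Valued.v (algebraMap ℂ (LaurentSeries ℂ) c) *
      Valued.v (algebraMap ℂ (LaurentSeries ℂ) c⁻¹) = 1 := by
    rw [← map_mul, ← map_mul, mul_inv_cancel₀ hc, map_one, map_one]
  have hpos : Valued.v (algebraMap ℂ (LaurentSeries ℂ) c) ≠ 0 := by
    intro h
    rw [h, zero_mul] at h2
    exact zero_ne_one h2
  calc (1 : WithZero (Multiplicative ℤ)) = Valued.v (algebraMap ℂ (LaurentSeries ℂ) c) *
      Valued.v (algebraMap ℂ (LaurentSeries ℂ) c⁻¹) := h2.symm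
    _ ≤ Valued.v (algebraMap ℂ (LaurentSeries ℂ) c) * 1 := by gcongr
    _ = _ := mul_one _

/-- transport of `L(n·(x)_∞) ∩ K·w` under a coefficientwise automorphism. -/
theorem coeffMap_mem_inf {x : LaurentSeries ℂ} {K : IntermediateField ℂ (LaurentSeries ℂ)}
    (σ : ℂ ≃+* ℂ) (hσx : coeffMap (σ : ℂ →+* ℂ) x = x)
    (hKσ : ∀ y ∈ K, coeffMap (σ : ℂ →+* ℂ) y ∈ K) {n : ℕ} {w w' c : LaurentSeries ℂ}
    (hc : c ∈ K) (hw : coeffMap (σ : ℂ →+* ℂ) w = c * w') {y : LaurentSeries ℂ}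
    (hy : y ∈ rrSub x n ⊓ lineSub K w) :
    coeffMap (σ : ℂ →+* ℂ) y ∈ rrSub x n ⊓ lineSub K w' := by
  refine ⟨coeffMap_mem_rrSub σ hσx hy.1, ?_⟩
  obtain ⟨c₁, hc₁, rfl⟩ := hy.2
  exact ⟨coeffMap (σ : ℂ →+* ℂ) c₁ * c, mul_mem (hKσ c₁ hc₁) hc, by rw [map_mul, hw]; ring⟩

/-- integrality over `ℂ(x)` and a uniform degree bound on the lines `K·w`, `w ∈ S`. -/
theorem exists_degree_bound (x : LaurentSeries ℂ)
    (K : IntermediateField ℂ (LaurentSeries ℂ)) (hxK : x ∈ K)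
    (hKfin : (IntermediateField.adjoin ℂ {x}).relfinrank K ≠ 0)
    (S : Set (LaurentSeries ℂ)) (hSfin : S.Finite)
    (hSpow : ∀ w ∈ S, ∃ p : ℕ, 0 < p ∧ w ^ p ∈ K) :
    (∀ w ∈ S, IsIntegral ℂ⟮x⟯ w) ∧
      ∃ d : ℕ, ∀ c ∈ K, ∀ w ∈ S, (minpoly ℂ⟮x⟯ (c * w)).natDegree ≤ d := by
  have hle : ℂ⟮x⟯ ≤ K := adjoin_simple_le_iff.2 hxK
  set K₀ : IntermediateField ℂ⟮x⟯ (LaurentSeries ℂ) := extendScalars hle with hK₀
  have hfinK : FiniteDimensional ℂ⟮x⟯ K₀ := by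
    apply FiniteDimensional.of_finrank_pos
    rw [← relfinrank_eq_finrank_of_le hle]
    exact Nat.pos_of_ne_zero hKfin
  have hintK : Algebra.IsIntegral ℂ⟮x⟯ K₀ := Algebra.IsIntegral.of_finite ℂ⟮x⟯ K₀
  have hSint : ∀ w ∈ S, IsIntegral ℂ⟮x⟯ w := by
    intro w hw
    obtain ⟨p, hp, hwp⟩ := hSpow w hw
    have h1 : IsIntegral K₀ (w ^ p) := by
      have : w ^ p = algebraMap K₀ (LaurentSeries ℂ) ⟨w ^ p, hwp⟩ := rfl
      rw [this]
      exact isIntegral_algebraMap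
    have h2 : IsIntegral K₀ w := IsIntegral.of_pow hp h1
    exact isIntegral_trans (R := ℂ⟮x⟯) (A := K₀) w h2
  refine ⟨hSint, ?_⟩
  have hSf : Finite S := hSfin.to_subtype
  have hfinS : FiniteDimensional ℂ⟮x⟯ (adjoin ℂ⟮x⟯ S) := finiteDimensional_adjoin hSint
  set E : IntermediateField ℂ⟮x⟯ (LaurentSeries ℂ) := K₀ ⊔ adjoin ℂ⟮x⟯ S with hE
  have hfinE : FiniteDimensional ℂ⟮x⟯ E := IntermediateField.finiteDimensional_sup K₀ _
  refine ⟨Module.finrank ℂ⟮x⟯ E, fun c hc w hw => ?_⟩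
  have hy : c * w ∈ E :=
    mul_mem ((le_sup_left : K₀ ≤ E) ((mem_extendScalars hle).2 hc))
      ((le_sup_right : adjoin ℂ⟮x⟯ S ≤ E) (subset_adjoin _ _ hw))
  haveI hfree : Module.Free ℂ⟮x⟯ E := Module.Free.of_divisionRing ℂ⟮x⟯ E
  have := minpoly.natDegree_le (A := ℂ⟮x⟯) (⟨c * w, hy⟩ : E)
  rwa [IntermediateField.minpoly_eq] at this

open scoped IntermediateField.algebraAdjoinAdjoin in
theorem isAlgebraic_adjoin_of_isIntegral {x w : LaurentSeries ℂ} (hw : IsIntegral ℂ⟮x⟯ w) :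
    IsAlgebraic (Algebra.adjoin ℂ {x}) w := by
  rw [IsFractionRing.isAlgebraic_iff (Algebra.adjoin ℂ {x}) ℂ⟮x⟯ (LaurentSeries ℂ)]
  exact hw.isAlgebraic

/-- **Descent of a finite `Aut ℂ`-stable family of `K`-lines.** -/
theorem exists_algebraic_mul_of_finite_lines
    (x : LaurentSeries ℂ) (hx : 1 < Valued.v x)
    (hxσ : ∀ σ : ℂ ≃+* ℂ, coeffMap (σ : ℂ →+* ℂ) x = x)
    (K : IntermediateField ℂ (LaurentSeries ℂ)) (hxK : x ∈ K)
    (hKfin : (IntermediateField.adjoin ℂ {x}).relfinrank K ≠ 0)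
    (hKσ : ∀ σ : ℂ ≃+* ℂ, ∀ y ∈ K, coeffMap (σ : ℂ →+* ℂ) y ∈ K)
    (S : Set (LaurentSeries ℂ)) (hSfin : S.Finite) (hS0 : ∀ w ∈ S, w ≠ 0)
    (hSpow : ∀ w ∈ S, ∃ p : ℕ, 0 < p ∧ w ^ p ∈ K)
    (hSσ : ∀ σ : ℂ ≃+* ℂ, ∀ w ∈ S, ∃ w' ∈ S, ∃ c ∈ K, c ≠ 0 ∧
      coeffMap (σ : ℂ →+* ℂ) w = c * w') :
    ∀ w ∈ S, ∃ c ∈ K, c ≠ 0 ∧ ∀ m : ℤ, IsAlgebraic ℚ ((c * w).coeff m) := by
  classical
  -- (1) a degree bound
  obtain ⟨hSint, d, hdeg⟩ := exists_degree_bound x K hxK hKfin S hSfin hSpow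
  haveI : Finite S := hSfin.to_subtype
  -- (2) the pole bound `n`
  have hSalg : ∀ w ∈ S, IsAlgebraic (Algebra.adjoin ℂ {x}) w := fun w hw =>
    isAlgebraic_adjoin_of_isIntegral (hSint w hw)
  choose! e he1 he0 nn hnn using fun w (hw : w ∈ S) => exists_mul_mem_rrSub w (hSalg w hw)
  set n := hSfin.toFinset.sup nn with hn
  have hen : ∀ w ∈ S, e w * w ∈ rrSub x n := fun w hw =>
    rrSub_mono (Finset.le_sup (f := nn) (hSfin.mem_toFinset.2 hw)) (hnn w hw)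
  have heK : ∀ w ∈ S, e w ∈ K := by
    intro w hw
    have : Algebra.adjoin ℂ {x} ≤ K.toSubalgebra :=
      Algebra.adjoin_le (by
        intro z hz
        rw [Set.mem_singleton_iff] at hz
        rw [hz]; exact hxK)
    exact this (he1 w hw)
  -- (3) the family of subspaces
  set Ws : S → Submodule ℂ (ℤ → ℂ) := fun w =>
    (rrSub x n ⊓ lineSub K (w : LaurentSeries ℂ)).map coeffLin with hWs
  -- (4) stability
  have hstab : ∀ (σ : ℂ ≃+* ℂ) (i : S), ∃ j : S, ∀ F : ℤ → ℂ,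
      F ∈ Ws j ↔ ∃ f ∈ Ws i, F = Fermat.Agent.ES.coeffAct σ f := by
    intro σ i
    obtain ⟨w', hw', c, hc, hc0, hcw⟩ := hSσ σ i.1 i.2
    refine ⟨⟨w', hw'⟩, fun F => ?_⟩
    constructor
    · rintro ⟨y', hy', rfl⟩
      -- pull back by `σ⁻¹`
      have hc' : coeffMap (σ.symm : ℂ →+* ℂ) c ≠ 0 := by
        intro h
        apply hc0
        have := congrArg (coeffMap (σ : ℂ →+* ℂ)) h
        rwa [coeffMap_coeffMap_symm, map_zero] at this
      have hrel : coeffMap (σ.symm : ℂ →+* ℂ) w' =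
          (coeffMap (σ.symm : ℂ →+* ℂ) c)⁻¹ * (i : LaurentSeries ℂ) := by
        have := congrArg (coeffMap (σ.symm : ℂ →+* ℂ)) hcw
        rw [coeffMap_symm_coeffMap, map_mul] at this
        rw [this, ← mul_assoc, inv_mul_cancel₀ hc', one_mul]
      have hy := coeffMap_mem_inf (x := x) (K := K) σ.symm (hxσ σ.symm) (hKσ σ.symm)
        (inv_mem (hKσ σ.symm c hc)) hrel hy'
      refine ⟨coeffLin (coeffMap (σ.symm : ℂ →+* ℂ) y'), ⟨_, hy, rfl⟩, ?_⟩
      rw [← coeffLin_coeffMap, coeffMap_coeffMap_symm]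
    · rintro ⟨f, ⟨y, hy, rfl⟩, rfl⟩
      exact ⟨coeffMap (σ : ℂ →+* ℂ) y,
        coeffMap_mem_inf (x := x) (K := K) σ (hxσ σ) (hKσ σ) hc hcw hy, coeffLin_coeffMap σ y⟩
  intro w hw
  -- (5) finite-dimensionality
  haveI hfd : FiniteDimensional ℂ (rrSub x n ⊓ lineSub K w : Submodule ℂ (LaurentSeries ℂ)) := by
    have hvx : Valued.v x ≠ 0 := ne_of_gt (zero_lt_one.trans hx)
    refine finiteDimensional_of_val_bounds _ (Valued.v x ^ n) (Valued.v x ^ ((d - 1) * n))⁻¹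
      (inv_ne_zero (pow_ne_zero _ hvx)) ?_
    rintro y ⟨⟨h1, h2⟩, ⟨c, hc, rfl⟩⟩ hy0
    obtain ⟨hb1, hb2⟩ := val_bounds (k := ℂ) (L := LaurentSeries ℂ) Valued.v val_algebraMap_eq_one
      hx n d hy0 h1 h2 (hdeg c hc w hw)
    refine ⟨hb1, ?_⟩
    rw [inv_le_iff_one_le_mul₀ (pow_pos (zero_lt_one.trans hx) _)]
    exact hb2
  haveI : FiniteDimensional ℂ (Ws ⟨w, hw⟩) := by
    rw [hWs]
    infer_instance
  -- (6) non-triviality
  have hne : Ws ⟨w, hw⟩ ≠ ⊥ := by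
    intro h
    have hmem : coeffLin (e w * w) ∈ Ws ⟨w, hw⟩ :=
      ⟨e w * w, ⟨hen w hw, ⟨e w, heK w hw, rfl⟩⟩, rfl⟩
    rw [h, Submodule.mem_bot] at hmem
    have := coeffLin_injective (hmem.trans (map_zero coeffLin).symm)
    exact mul_ne_zero (he0 w hw) (hS0 w hw) this
  -- (7) descent
  obtain ⟨F, hF, hF0, hFalg⟩ :=
    Fermat.Agent.ES.exists_ne_zero_algebraic_of_finite_family Ws hstab ⟨w, hw⟩ hne
  obtain ⟨y, ⟨_, ⟨c, hc, rfl⟩⟩, rfl⟩ := hF
  refine ⟨c, hc, ?_, fun m => hFalg m⟩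
  rintro rfl
  apply hF0
  rw [zero_mul, map_zero]

/-- series with algebraic coefficients are closed under multiplication. -/
theorem isAlgebraic_coeff_mul {y z : LaurentSeries ℂ} (hy : ∀ m : ℤ, IsAlgebraic ℚ (y.coeff m))
    (hz : ∀ m : ℤ, IsAlgebraic ℚ (z.coeff m)) (m : ℤ) : IsAlgebraic ℚ ((y * z).coeff m) := by
  rw [HahnSeries.coeff_mul]
  have key : ∀ s : Finset (ℤ × ℤ), IsAlgebraic ℚ (∑ ij ∈ s, y.coeff ij.1 * z.coeff ij.2) := by
    intro s
    induction s using Finset.induction_on with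
    | empty => simpa using isAlgebraic_zero
    | insert a s ha ih =>
      rw [Finset.sum_insert ha]
      exact ((hy _).mul (hz _)).add ih
  exact key _

theorem isAlgebraic_coeff_pow {y : LaurentSeries ℂ} (hy : ∀ m : ℤ, IsAlgebraic ℚ (y.coeff m))
    (p : ℕ) (m : ℤ) : IsAlgebraic ℚ ((y ^ p).coeff m) := by
  induction p generalizing m with
  | zero =>
    rw [pow_zero, HahnSeries.coeff_one]
    split_ifs
    · exact isAlgebraic_one
    · exact isAlgebraic_zero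
  | succ p ih =>
    rw [pow_succ]
    exact isAlgebraic_coeff_mul ih hy m

/-- **A6-surj, generic form.**  `U ⊆ K^×` stable under `Aut ℂ` and under multiplication by
`p`-th powers of `K^×`, with finitely many classes modulo `p`-th powers, all of whose elements are
`p`-th powers in `ℂ((q))`: every class contains `w ^ p` with `w` of algebraic coefficients. -/
theorem exists_algebraic_root (p : ℕ) (hp : 0 < p)
    (x : LaurentSeries ℂ) (hx : 1 < Valued.v x)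
    (hxσ : ∀ σ : ℂ ≃+* ℂ, coeffMap (σ : ℂ →+* ℂ) x = x)
    (K : IntermediateField ℂ (LaurentSeries ℂ)) (hxK : x ∈ K)
    (hKfin : (IntermediateField.adjoin ℂ {x}).relfinrank K ≠ 0)
    (hKσ : ∀ σ : ℂ ≃+* ℂ, ∀ y ∈ K, coeffMap (σ : ℂ →+* ℂ) y ∈ K)
    (U : Set (LaurentSeries ℂ)) (hU0 : ∀ u ∈ U, u ≠ 0) (hUK : ∀ u ∈ U, u ∈ K)
    (hUσ : ∀ σ : ℂ ≃+* ℂ, ∀ u ∈ U, coeffMap (σ : ℂ →+* ℂ) u ∈ U)
    (hUroot : ∀ u ∈ U, ∃ w : LaurentSeries ℂ, w ^ p = u)
    (hUfin : ∃ T : Set (LaurentSeries ℂ), T.Finite ∧ T ⊆ U ∧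
      ∀ u ∈ U, ∃ t ∈ T, ∃ c ∈ K, c ≠ 0 ∧ u = t * c ^ p) :
    ∀ u ∈ U, ∃ c ∈ K, c ≠ 0 ∧ ∃ w : LaurentSeries ℂ, w ^ p = u * c ^ p ∧
      ∀ m : ℤ, IsAlgebraic ℚ (w.coeff m) := by
  classical
  obtain ⟨T, hTfin, hTU, hT⟩ := hUfin
  choose! rt hrt using hUroot
  set S : Set (LaurentSeries ℂ) := rt '' T with hS
  have hS0 : ∀ w ∈ S, w ≠ 0 := by
    rintro _ ⟨t, ht, rfl⟩ h0
    have := hrt t (hTU ht)
    rw [h0, zero_pow hp.ne'] at this
    exact hU0 t (hTU ht) this.symm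
  have hSpow : ∀ w ∈ S, ∃ q : ℕ, 0 < q ∧ w ^ q ∈ K := by
    rintro _ ⟨t, ht, rfl⟩
    exact ⟨p, hp, by rw [hrt t (hTU ht)]; exact hUK t (hTU ht)⟩
  have hSσ : ∀ σ : ℂ ≃+* ℂ, ∀ w ∈ S, ∃ w' ∈ S, ∃ c ∈ K, c ≠ 0 ∧
      coeffMap (σ : ℂ →+* ℂ) w = c * w' := by
    rintro σ _ ⟨t, ht, rfl⟩
    obtain ⟨t', ht', c, hc, hc0, hct⟩ := hT _ (hUσ σ t (hTU ht))
    have hw'0 : rt t' ≠ 0 := hS0 _ ⟨t', ht', rfl⟩
    have hpow : (coeffMap (σ : ℂ →+* ℂ) (rt t) / (c * rt t')) ^ p = 1 := by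
      rw [div_pow, ← map_pow, hrt t (hTU ht), hct, mul_pow, hrt t' (hTU ht'), mul_comm]
      exact div_self (mul_ne_zero (pow_ne_zero _ hc0) (hU0 t' (hTU ht')))
    obtain ⟨ζ, hζ⟩ := eq_C_of_pow_eq_one hp (by exact_mod_cast hp.ne') hpow
    have hζ0 : (HahnSeries.C ζ : LaurentSeries ℂ) ≠ 0 := by
      intro h
      rw [h] at hζ
      rw [hζ, zero_pow hp.ne'] at hpow
      exact zero_ne_one hpow
    refine ⟨rt t', ⟨t', ht', rfl⟩, HahnSeries.C ζ * c, mul_mem ?_ hc, mul_ne_zero hζ0 hc0, ?_⟩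
    · rw [← LaurentSeries.algebraMap_apply]
      exact K.algebraMap_mem ζ
    · rw [mul_assoc, ← hζ, div_mul_cancel₀ _ (mul_ne_zero hc0 hw'0)]
  have key := exists_algebraic_mul_of_finite_lines x hx hxσ K hxK hKfin hKσ S (hTfin.image rt)
    hS0 hSpow hSσ
  intro u hu
  obtain ⟨t, ht, c₁, hc₁, hc₁0, hut⟩ := hT u hu
  obtain ⟨c₂, hc₂, hc₂0, halg⟩ := key (rt t) ⟨t, ht, rfl⟩
  refine ⟨c₂ / c₁, div_mem hc₂ hc₁, div_ne_zero hc₂0 hc₁0, c₂ * rt t, ?_, halg⟩
  rw [mul_pow, hrt t (hTU ht), hut, div_pow]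
  field_simp

/-- the same, for the representative itself. -/
theorem exists_algebraic_rep (p : ℕ) (hp : 0 < p)
    (x : LaurentSeries ℂ) (hx : 1 < Valued.v x)
    (hxσ : ∀ σ : ℂ ≃+* ℂ, coeffMap (σ : ℂ →+* ℂ) x = x)
    (K : IntermediateField ℂ (LaurentSeries ℂ)) (hxK : x ∈ K)
    (hKfin : (IntermediateField.adjoin ℂ {x}).relfinrank K ≠ 0)
    (hKσ : ∀ σ : ℂ ≃+* ℂ, ∀ y ∈ K, coeffMap (σ : ℂ →+* ℂ) y ∈ K)
    (U : Set (LaurentSeries ℂ)) (hU0 : ∀ u ∈ U, u ≠ 0) (hUK : ∀ u ∈ U, u ∈ K)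
    (hUσ : ∀ σ : ℂ ≃+* ℂ, ∀ u ∈ U, coeffMap (σ : ℂ →+* ℂ) u ∈ U)
    (hUroot : ∀ u ∈ U, ∃ w : LaurentSeries ℂ, w ^ p = u)
    (hUfin : ∃ T : Set (LaurentSeries ℂ), T.Finite ∧ T ⊆ U ∧
      ∀ u ∈ U, ∃ t ∈ T, ∃ c ∈ K, c ≠ 0 ∧ u = t * c ^ p) :
    ∀ u ∈ U, ∃ c ∈ K, c ≠ 0 ∧ ∀ m : ℤ, IsAlgebraic ℚ ((u * c ^ p).coeff m) := by
  intro u hu
  obtain ⟨c, hc, hc0, w, hw, halg⟩ :=
    exists_algebraic_root p hp x hx hxσ K hxK hKfin hKσ U hU0 hUK hUσ hUroot hUfin u hu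
  exact ⟨c, hc, hc0, fun m => by rw [← hw]; exact isAlgebraic_coeff_pow halg p m⟩

end Fermat.Agent.ES.RRFin

end
end ZBES_015_1
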