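/- GENERATED FILE (helper35, build-time optimisation, NOTES/ZB.md): verbatim concatenation of the modules
   Fermat.Agent.S20.CuspFourier
   Fermat.Agent.S20.CuspMat
   Fermat.Agent.S20.CuspJet
   Fermat.Agent.S20.CuspCramer
   Do not edit; do not import together with these modules. -/
import Mathlib
import Fermat.Agent.ZB.ES_016
import Fermat.Agent.ZB.S20_005
import Fermat.Agent.ZB.S20_001

/-! ### bundled: `Fermat.Agent.S20.CuspFourier` -/
section ZBS20_011_0
/-
S20, CUSP package (helper20), part 1: scalar Fourier analysis at `i∞` for `N`-periodic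
holomorphic bounded functions on `ℍ`.  Only Mathlib is used.
-/

set_option autoImplicit false

open Complex Filter Function Asymptotics
open UpperHalfPlane hiding I
open scoped Real Topology Manifold

namespace Fermat.Agent.S20

/-- The primitive `N`-th root of unity `exp(2πi/N)`. -/
noncomputable def zetaN (N : ℕ) : ℂ := Complex.exp (2 * π * I / N)

lemma zetaN_isPrimitiveRoot (N : ℕ) [NeZero N] : IsPrimitiveRoot (zetaN N) N :=
  Complex.isPrimitiveRoot_exp N (NeZero.ne N)

lemma zetaN_ne_zero (N : ℕ) : zetaN N ≠ 0 := Complex.exp_ne_zero _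

lemma zetaN_pow_self (N : ℕ) [NeZero N] : zetaN N ^ N = 1 :=
  (zetaN_isPrimitiveRoot N).pow_eq_one

lemma norm_zetaN (N : ℕ) : ‖zetaN N‖ = 1 := by
  rw [zetaN, Complex.norm_exp]
  simp

/-- `φ` has period `N` (as a function on `ℍ`). -/
def IsPer (N : ℕ) (φ : ℍ → ℂ) : Prop := ∀ z : ℍ, φ ((N : ℝ) +ᵥ z) = φ z

/-- The `r`-th Fourier projection of an `N`-periodic function. -/
noncomputable def fourierProj (N r : ℕ) (φ : ℍ → ℂ) (z : ℍ) : ℂ :=
  (N : ℂ)⁻¹ * ∑ a ∈ Finset.range N, (zetaN N ^ (r * a))⁻¹ * φ ((a : ℝ) +ᵥ z)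

/-- The twisted Fourier projection, which is `1`-periodic. -/
noncomputable def twist (N r : ℕ) (φ : ℍ → ℂ) (z : ℍ) : ℂ :=
  Complex.exp (-(2 * π * I * r * z / N)) * fourierProj N r φ z

lemma vadd_vadd_nat (a b : ℝ) (z : ℍ) : a +ᵥ (b +ᵥ z) = (a + b) +ᵥ z := by
  ext
  simp [UpperHalfPlane.coe_vadd, add_assoc]

lemma fourierProj_vadd_one (N r : ℕ) [NeZero N] {φ : ℍ → ℂ} (hφ : IsPer N φ) (z : ℍ) :
    fourierProj N r φ ((1 : ℝ) +ᵥ z) = zetaN N ^ r * fourierProj N r φ z := by
  unfold fourierProj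
  have hz : zetaN N ≠ 0 := zetaN_ne_zero N
  set g : ℕ → ℂ := fun b => (zetaN N ^ (r * b))⁻¹ * φ ((b : ℝ) +ᵥ z) with hg
  have h1 : ∀ a : ℕ, (zetaN N ^ (r * a))⁻¹ * φ ((a : ℝ) +ᵥ ((1 : ℝ) +ᵥ z))
      = zetaN N ^ r * g (a + 1) := by
    intro a
    simp only [hg]
    rw [vadd_vadd_nat]
    have : ((a : ℝ) + 1) = ((a + 1 : ℕ) : ℝ) := by push_cast; ring
    rw [this]
    have h2 : zetaN N ^ (r * (a + 1)) = zetaN N ^ (r * a) * zetaN N ^ r := by
      rw [← pow_add]; ring_nf
    rw [h2]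
    field_simp
  have h3 : g N = g 0 := by
    simp only [hg]
    rw [hφ z]
    have : zetaN N ^ (r * N) = 1 := by
      rw [mul_comm, pow_mul, zetaN_pow_self, one_pow]
    rw [this]
    simp
  have h4 : ∑ a ∈ Finset.range N, g (a + 1) = ∑ a ∈ Finset.range N, g a := by
    have e1 := Finset.sum_range_succ g N
    have e2 := Finset.sum_range_succ' g N
    rw [e1] at e2
    rw [h3] at e2
    exact (add_right_cancel e2).symm
  calc (N : ℂ)⁻¹ * ∑ a ∈ Finset.range N, (zetaN N ^ (r * a))⁻¹ * φ ((a : ℝ) +ᵥ ((1 : ℝ) +ᵥ z))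
      = (N : ℂ)⁻¹ * ∑ a ∈ Finset.range N, zetaN N ^ r * g (a + 1) := by
        congr 1; exact Finset.sum_congr rfl (fun a _ => h1 a)
    _ = zetaN N ^ r * ((N : ℂ)⁻¹ * ∑ a ∈ Finset.range N, g a) := by
        rw [← Finset.mul_sum, h4]; ring

lemma exp_twist_vadd_one (N r : ℕ) [NeZero N] (z : ℍ) :
    Complex.exp (-(2 * π * I * r * (((1 : ℝ) +ᵥ z : ℍ) : ℂ) / N))
      = Complex.exp (-(2 * π * I * r * (z : ℂ) / N)) * (zetaN N ^ r)⁻¹ := by
  rw [UpperHalfPlane.coe_vadd, zetaN, ← Complex.exp_nat_mul, ← Complex.exp_neg, ← Complex.exp_add]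
  congr 1
  push_cast
  ring

lemma twist_vadd_one (N r : ℕ) [NeZero N] {φ : ℍ → ℂ} (hφ : IsPer N φ) (z : ℍ) :
    twist N r φ ((1 : ℝ) +ᵥ z) = twist N r φ z := by
  unfold twist
  rw [fourierProj_vadd_one N r hφ, exp_twist_vadd_one]
  have hz : zetaN N ^ r ≠ 0 := pow_ne_zero _ (zetaN_ne_zero N)
  field_simp

lemma sum_inv_zetaN_pow (N : ℕ) [NeZero N] {a : ℕ} (ha : a < N) :
    ∑ r ∈ Finset.range N, (zetaN N ^ (r * a))⁻¹ = if a = 0 then (N : ℂ) else 0 := by
  split_ifs with h0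
  · subst h0; simp
  · have hprim := zetaN_isPrimitiveRoot N
    set ξ : ℂ := (zetaN N ^ a)⁻¹ with hξ
    have hξN : ξ ^ N = 1 := by
      rw [hξ, inv_pow, ← pow_mul, mul_comm, pow_mul, zetaN_pow_self, one_pow, inv_one]
    have hξ1 : ξ ≠ 1 := by
      intro h
      have : zetaN N ^ a = 1 := by
        rw [hξ] at h; exact inv_eq_one.mp h
      have := hprim.dvd_of_pow_eq_one a this
      exact h0 (Nat.eq_zero_of_dvd_of_lt this ha)
    have hsum : ∑ r ∈ Finset.range N, (zetaN N ^ (r * a))⁻¹ = ∑ r ∈ Finset.range N, ξ ^ r := by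
      refine Finset.sum_congr rfl (fun r _ => ?_)
      rw [hξ, inv_pow, ← pow_mul, mul_comm]
    rw [hsum]
    have := mul_geom_sum ξ N
    rw [hξN, sub_self] at this
    rcases mul_eq_zero.mp this with h | h
    · exact absurd (sub_eq_zero.mp h) hξ1
    · exact h

lemma sum_fourierProj (N : ℕ) [NeZero N] (φ : ℍ → ℂ) (z : ℍ) :
    ∑ r ∈ Finset.range N, fourierProj N r φ z = φ z := by
  unfold fourierProj
  rw [← Finset.mul_sum, Finset.sum_comm]
  have : ∀ a ∈ Finset.range N, ∑ r ∈ Finset.range N, (zetaN N ^ (r * a))⁻¹ * φ ((a : ℝ) +ᵥ z)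
      = (if a = 0 then (N : ℂ) else 0) * φ ((a : ℝ) +ᵥ z) := by
    intro a ha
    rw [← Finset.sum_mul, sum_inv_zetaN_pow N (Finset.mem_range.mp ha)]
  rw [Finset.sum_congr rfl this]
  have hN : 0 < N := Nat.pos_of_ne_zero (NeZero.ne N)
  rw [Finset.sum_eq_single 0]
  · simp only [if_true]
    have hz : ((0 : ℕ) : ℝ) +ᵥ z = z := by
      ext; simp
    rw [hz]
    have hN' : (N : ℂ) ≠ 0 := Nat.cast_ne_zero.mpr (NeZero.ne N)
    field_simp
  · intro b _ hb
    simp [hb]
  · intro h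
    exact absurd (Finset.mem_range.mpr hN) h

/-- Reconstruction of `φ` from its twisted projections. -/
lemma eq_sum_exp_mul_twist (N : ℕ) [NeZero N] (φ : ℍ → ℂ) (z : ℍ) :
    φ z = ∑ r ∈ Finset.range N, Complex.exp (2 * π * I * r * z / N) * twist N r φ z := by
  conv_lhs => rw [← sum_fourierProj N φ z]
  refine Finset.sum_congr rfl (fun r _ => ?_)
  unfold twist
  rw [← mul_assoc, ← Complex.exp_add, add_neg_cancel, Complex.exp_zero, one_mul]


/-! ### Holomorphy -/

lemma mdiff_vadd {φ : ℍ → ℂ} (hφ : MDiff φ) (a : ℝ) : MDiff (fun z : ℍ => φ (a +ᵥ z)) := by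
  rw [UpperHalfPlane.mdifferentiable_iff] at hφ ⊢
  have hmaps : Set.MapsTo (fun w : ℂ => w + (a : ℂ)) {z : ℂ | 0 < z.im} {z : ℂ | 0 < z.im} := by
    intro w hw
    simpa using hw
  have hcomp : DifferentiableOn ℂ ((φ ∘ ofComplex) ∘ (fun w : ℂ => w + (a : ℂ)))
      {z : ℂ | 0 < z.im} :=
    hφ.comp (by fun_prop) hmaps
  refine hcomp.congr (fun w hw => ?_)
  have hw' : 0 < (w + (a : ℂ)).im := by simpa using hw
  simp only [Function.comp_apply]
  rw [ofComplex_apply_of_im_pos hw, ofComplex_apply_of_im_pos hw']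
  congr 1
  ext
  simp [UpperHalfPlane.coe_vadd, add_comm]

lemma mdiff_cexp_mul (c : ℂ) : MDiff (fun z : ℍ => Complex.exp (c * (z : ℂ))) := by
  rw [UpperHalfPlane.mdifferentiable_iff]
  have h : DifferentiableOn ℂ (fun w : ℂ => Complex.exp (c * w)) {z : ℂ | 0 < z.im} := by
    fun_prop
  refine h.congr (fun w hw => ?_)
  simp only [Function.comp_apply]
  rw [ofComplex_apply_of_im_pos hw]

lemma mdiff_fourierProj (N r : ℕ) {φ : ℍ → ℂ} (hφ : MDiff φ) : MDiff (fourierProj N r φ) := by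
  unfold fourierProj
  have h : ∀ a ∈ Finset.range N,
      MDiff (fun z : ℍ => (zetaN N ^ (r * a))⁻¹ * φ ((a : ℝ) +ᵥ z)) := by
    intro a _
    exact (mdifferentiable_const (c := (zetaN N ^ (r * a))⁻¹)).mul (mdiff_vadd hφ a)
  have h2 : MDiff (fun z : ℍ => ∑ a ∈ Finset.range N,
      (zetaN N ^ (r * a))⁻¹ * φ ((a : ℝ) +ᵥ z)) := by
    have := MDifferentiable.sum (t := Finset.range N)
      (f := fun a (z : ℍ) => (zetaN N ^ (r * a))⁻¹ * φ ((a : ℝ) +ᵥ z)) (fun a ha => h a ha)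
    convert this using 1
    ext z
    simp [Finset.sum_apply]
  exact (mdifferentiable_const (c := (N : ℂ)⁻¹)).mul h2

lemma mdiff_twist (N r : ℕ) {φ : ℍ → ℂ} (hφ : MDiff φ) : MDiff (twist N r φ) := by
  unfold twist
  have h1 : MDiff (fun z : ℍ => Complex.exp (-(2 * π * I * r * (z : ℂ) / N))) := by
    have := mdiff_cexp_mul (-(2 * π * I * r / N))
    convert this using 2 with z
    ring_nf
  exact h1.mul (mdiff_fourierProj N r hφ)


/-! ### Behaviour at `i∞` -/

lemma periodic_of_vadd_one {g : ℍ → ℂ} (hg : ∀ z : ℍ, g ((1 : ℝ) +ᵥ z) = g z) :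
    Periodic (g ∘ ofComplex) ((1 : ℝ) : ℂ) := by
  intro w
  by_cases hw : 0 < w.im
  · have hw' : 0 < (w + ((1 : ℝ) : ℂ)).im := by simpa using hw
    simp only [Function.comp_apply]
    rw [ofComplex_apply_of_im_pos hw, ofComplex_apply_of_im_pos hw']
    rw [← hg ⟨w, hw⟩]
    congr 1
    ext
    simp [UpperHalfPlane.coe_vadd, add_comm]
  · have hw1 : w.im ≤ 0 := not_lt.mp hw
    have hw' : (w + ((1 : ℝ) : ℂ)).im ≤ 0 := by simpa using hw1
    simp only [Function.comp_apply]
    rw [ofComplex_apply_of_im_nonpos hw', ofComplex_apply_of_im_nonpos hw1]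

lemma periodic_twist (N r : ℕ) [NeZero N] {φ : ℍ → ℂ} (hφ : IsPer N φ) :
    Periodic (twist N r φ ∘ ofComplex) ((1 : ℝ) : ℂ) :=
  periodic_of_vadd_one (twist_vadd_one N r hφ)

lemma norm_fourierProj_le (N r : ℕ) [NeZero N] {φ : ℍ → ℂ} {C A : ℝ}
    (hC : ∀ z : ℍ, A ≤ z.im → ‖φ z‖ ≤ C) (z : ℍ) (hz : A ≤ z.im) :
    ‖fourierProj N r φ z‖ ≤ C := by
  unfold fourierProj
  have hN : (0 : ℝ) < N := Nat.cast_pos.mpr (Nat.pos_of_ne_zero (NeZero.ne N))
  have h1 : ∀ a ∈ Finset.range N, ‖(zetaN N ^ (r * a))⁻¹ * φ ((a : ℝ) +ᵥ z)‖ ≤ C := by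
    intro a _
    rw [norm_mul, norm_inv, norm_pow, norm_zetaN, one_pow, inv_one, one_mul]
    exact hC _ (by rw [UpperHalfPlane.vadd_im]; exact hz)
  have h2 : ‖∑ a ∈ Finset.range N, (zetaN N ^ (r * a))⁻¹ * φ ((a : ℝ) +ᵥ z)‖ ≤ N * C := by
    calc ‖∑ a ∈ Finset.range N, (zetaN N ^ (r * a))⁻¹ * φ ((a : ℝ) +ᵥ z)‖
        ≤ ∑ a ∈ Finset.range N, ‖(zetaN N ^ (r * a))⁻¹ * φ ((a : ℝ) +ᵥ z)‖ := norm_sum_le _ _
      _ ≤ ∑ _a ∈ Finset.range N, C := Finset.sum_le_sum h1
      _ = N * C := by simp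
  rw [norm_mul, norm_inv, Complex.norm_natCast]
  calc (N : ℝ)⁻¹ * ‖∑ a ∈ Finset.range N, (zetaN N ^ (r * a))⁻¹ * φ ((a : ℝ) +ᵥ z)‖
      ≤ (N : ℝ)⁻¹ * (N * C) := by gcongr
    _ = C := by field_simp

lemma norm_exp_twist (N r : ℕ) (z : ℍ) :
    ‖Complex.exp (-(2 * π * I * r * (z : ℂ) / N))‖ = Real.exp (2 * π * r * z.im / N) := by
  rw [Complex.norm_exp]
  congr 1
  have : (-(2 * π * I * r * (z : ℂ) / N)) = ((-(2 * π * r / N) : ℝ) : ℂ) * (z : ℂ) * I := by
    push_cast; ring
  rw [this]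
  rw [Complex.mul_I_re]
  simp only [Complex.mul_im, Complex.ofReal_re, Complex.ofReal_im, zero_mul, add_zero,
    UpperHalfPlane.coe_im]
  ring

/-- `exp(2πiz)` on `ℍ`. -/
noncomputable def qOne (z : ℍ) : ℂ := Complex.exp (2 * π * I * (z : ℂ))

lemma norm_qOne (z : ℍ) : ‖qOne z‖ = Real.exp (-(2 * π * z.im)) := by
  rw [qOne, Complex.norm_exp]
  congr 1
  have : (2 * π * I * (z : ℂ)) = ((2 * π : ℝ) : ℂ) * (z : ℂ) * I := by push_cast; ring
  rw [this, Complex.mul_I_re]
  simp

lemma qOne_ne_zero (z : ℍ) : qOne z ≠ 0 := Complex.exp_ne_zero _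

lemma qOne_vadd_one (z : ℍ) : qOne ((1 : ℝ) +ᵥ z) = qOne z := by
  unfold qOne
  rw [UpperHalfPlane.coe_vadd]
  have : 2 * π * I * (((1 : ℝ) : ℂ) + (z : ℂ)) = 2 * π * I * (z : ℂ) + 2 * π * I := by
    push_cast; ring
  rw [this, Complex.exp_add, Complex.exp_two_pi_mul_I, mul_one]

lemma mdiff_qOne : MDiff qOne := by
  have := mdiff_cexp_mul (2 * π * I)
  exact this

lemma tendsto_exp_neg_mul_im {c : ℝ} (hc : 0 < c) :
    Tendsto (fun z : ℍ => Real.exp (-(c * z.im))) atImInfty (𝓝 0) := by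
  have h1 : Tendsto (fun z : ℍ => z.im) atImInfty atTop := tendsto_comap
  have h2 : Tendsto (fun z : ℍ => c * z.im) atImInfty atTop := h1.const_mul_atTop hc
  exact Real.tendsto_exp_neg_atTop_nhds_zero.comp h2

/-- The product `twist · q` tends to zero at `i∞` when `r < N` and `φ` is bounded. -/
lemma isZeroAtImInfty_twist_mul_qOne (N r : ℕ) [NeZero N] (hr : r < N) {φ : ℍ → ℂ}
    (hb : IsBoundedAtImInfty φ) :
    IsZeroAtImInfty (fun z => twist N r φ z * qOne z) := by
  obtain ⟨C, A, hC⟩ := isBoundedAtImInfty_iff.mp hb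
  have hN : (0 : ℝ) < N := Nat.cast_pos.mpr (Nat.pos_of_ne_zero (NeZero.ne N))
  have hC0 : ∀ z : ℍ, A ≤ z.im → 0 ≤ C := fun z hz => le_trans (norm_nonneg _) (hC z hz)
  have hbound : ∀ᶠ z : ℍ in atImInfty, ‖twist N r φ z * qOne z‖
      ≤ C * Real.exp (-((2 * π / N) * z.im)) := by
    have hmem : {z : ℍ | max A 0 ≤ z.im} ∈ atImInfty :=
      (atImInfty_mem _).mpr ⟨max A 0, fun z hz => hz⟩
    filter_upwards [hmem] with z hz
    have hzA : A ≤ z.im := le_trans (le_max_left _ _) hz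
    have hz0 : 0 ≤ z.im := le_trans (le_max_right _ _) hz
    rw [norm_mul, twist, norm_mul, norm_exp_twist, norm_qOne]
    have h1 := norm_fourierProj_le N r hC z hzA
    have hC' : 0 ≤ C := hC0 z hzA
    have hexp : Real.exp (2 * π * r * z.im / N) * Real.exp (-(2 * π * z.im))
        ≤ Real.exp (-((2 * π / N) * z.im)) := by
      rw [← Real.exp_add]
      apply Real.exp_le_exp.mpr
      have hr' : (r : ℝ) + 1 ≤ N := by exact_mod_cast hr
      have key : 2 * π * r * z.im / N + -(2 * π * z.im) = -(2 * π * z.im * ((N - r) / N)) := by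
        field_simp; ring
      rw [key]
      have h3 : (1 : ℝ) / N ≤ (N - r) / N := by
        apply div_le_div_of_nonneg_right _ hN.le
        linarith
      have h4 : 0 ≤ 2 * π * z.im := by positivity
      have : 2 * π / N * z.im = 2 * π * z.im * (1 / N) := by ring
      rw [this]
      exact neg_le_neg (mul_le_mul_of_nonneg_left h3 h4)
    calc Real.exp (2 * π * r * z.im / N) * ‖fourierProj N r φ z‖ * Real.exp (-(2 * π * z.im))
        = ‖fourierProj N r φ z‖ * (Real.exp (2 * π * r * z.im / N) * Real.exp (-(2 * π * z.im))) := by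
          ring
      _ ≤ C * Real.exp (-((2 * π / N) * z.im)) := by
          apply mul_le_mul h1 hexp (by positivity) hC'
  have hlim : Tendsto (fun z : ℍ => C * Real.exp (-((2 * π / N) * z.im))) atImInfty (𝓝 0) := by
    have := (tendsto_exp_neg_mul_im (c := 2 * π / N) (by positivity)).const_mul C
    simpa using this
  exact squeeze_zero_norm' hbound hlim


lemma isBigO_exp_of_periodic_zero {g : ℍ → ℂ} (hper : ∀ z : ℍ, g ((1 : ℝ) +ᵥ z) = g z)
    (hhol : MDiff g) (hz : IsZeroAtImInfty g) :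
    g =O[atImInfty] fun τ : ℍ => Real.exp (-(2 * π * τ.im)) := by
  have h := hz.exp_decay_atImInfty (h := 1) one_pos (periodic_of_vadd_one hper) hhol
    hz.isBoundedAtImInfty
  refine h.congr_right (fun τ => ?_)
  congr 1
  ring

/-- The twisted projections of a bounded holomorphic `N`-periodic function are bounded at `i∞`. -/
lemma isBoundedAtImInfty_twist (N r : ℕ) [NeZero N] (hr : r < N) {φ : ℍ → ℂ}
    (hper : IsPer N φ) (hhol : MDiff φ) (hb : IsBoundedAtImInfty φ) :
    IsBoundedAtImInfty (twist N r φ) := by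
  have hg0 := isZeroAtImInfty_twist_mul_qOne N r hr hb
  have hgper : ∀ z : ℍ, (fun z => twist N r φ z * qOne z) ((1 : ℝ) +ᵥ z)
      = (fun z => twist N r φ z * qOne z) z := by
    intro z
    simp only [twist_vadd_one N r hper, qOne_vadd_one]
  have hghol : MDiff (fun z => twist N r φ z * qOne z) := (mdiff_twist N r hhol).mul mdiff_qOne
  have hO := isBigO_exp_of_periodic_zero hgper hghol hg0
  -- divide by q
  have hO2 : (twist N r φ) =O[atImInfty] (fun _ : ℍ => (1 : ℝ)) := by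
    rw [Asymptotics.isBigO_iff] at hO ⊢
    obtain ⟨c, hc⟩ := hO
    refine ⟨c, ?_⟩
    filter_upwards [hc] with z hz
    rw [norm_mul, norm_qOne, Real.norm_of_nonneg (Real.exp_pos _).le] at hz
    have hpos : 0 < Real.exp (-(2 * π * z.im)) := Real.exp_pos _
    have := le_of_mul_le_mul_right hz hpos
    simpa using this
  rw [IsBoundedAtImInfty, BoundedAtFilter]
  refine hO2.trans ?_
  exact Asymptotics.isBigO_of_le _ (fun _ => by simp)

/-- The scalar jet: the limit at `i∞` of the twisted projection. -/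
noncomputable def jetS (N r : ℕ) (φ : ℍ → ℂ) : ℂ := cuspFunction 1 (twist N r φ) 0

lemma tendsto_twist (N r : ℕ) [NeZero N] (hr : r < N) {φ : ℍ → ℂ}
    (hper : IsPer N φ) (hhol : MDiff φ) (hb : IsBoundedAtImInfty φ) :
    Tendsto (twist N r φ) atImInfty (𝓝 (jetS N r φ)) := by
  have hbd := isBoundedAtImInfty_twist N r hr hper hhol hb
  have hP := periodic_twist N r hper
  have han := analyticAt_cuspFunction_zero (h := 1) one_pos hP (mdiff_twist N r hhol) hbd
  have : (cuspFunction 1 (twist N r φ) ∘ fun τ : ℍ => Periodic.qParam 1 τ : ℍ → ℂ)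
      = twist N r φ := by
    funext τ
    simpa using eq_cuspFunction (h := 1) τ one_ne_zero hP
  have h2 := han.continuousAt.tendsto.comp (qParam_tendsto_atImInfty (h := 1) one_pos)
  rw [this] at h2
  exact h2

/-- If all jets vanish, the function decays like `q`. -/
lemma isBigO_exp_of_jetS_eq_zero (N : ℕ) [NeZero N] {φ : ℍ → ℂ}
    (hper : IsPer N φ) (hhol : MDiff φ) (hb : IsBoundedAtImInfty φ)
    (hj : ∀ r < N, jetS N r φ = 0) :
    φ =O[atImInfty] fun τ : ℍ => Real.exp (-(2 * π * τ.im)) := by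
  have h1 : ∀ r ∈ Finset.range N, (fun z : ℍ => Complex.exp (2 * π * I * r * z / N) * twist N r φ z)
      =O[atImInfty] fun τ : ℍ => Real.exp (-(2 * π * τ.im)) := by
    intro r hr
    have hr' := Finset.mem_range.mp hr
    have hz : IsZeroAtImInfty (twist N r φ) := by
      have := tendsto_twist N r hr' hper hhol hb
      rw [hj r hr'] at this
      exact this
    have hO := isBigO_exp_of_periodic_zero (twist_vadd_one N r hper) (mdiff_twist N r hhol) hz
    have hexp : (fun z : ℍ => Complex.exp (2 * π * I * r * z / N)) =O[atImInfty]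
        (fun _ : ℍ => (1 : ℝ)) := by
      refine Asymptotics.isBigO_of_le _ (fun z => ?_)
      rw [Complex.norm_exp]
      have : (2 * π * I * r * (z : ℂ) / N) = ((2 * π * r / N : ℝ) : ℂ) * (z : ℂ) * I := by
        push_cast; ring
      rw [this, Complex.mul_I_re]
      simp only [Complex.mul_im, Complex.ofReal_re, Complex.ofReal_im, zero_mul, add_zero,
        UpperHalfPlane.coe_im, norm_one]
      rw [← Real.exp_zero]
      apply Real.exp_le_exp.mpr
      have : 0 ≤ 2 * π * r / N * z.im := by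
        have := z.im_pos
        positivity
      linarith
    have := hexp.mul hO
    simpa using this
  have h2 := Asymptotics.IsBigO.sum h1
  refine h2.congr_left (fun z => ?_)
  rw [eq_sum_exp_mul_twist N φ z, Finset.sum_apply]

end Fermat.Agent.S20


end ZBS20_011_0

/-! ### bundled: `Fermat.Agent.S20.CuspMat` -/
section ZBS20_011_1
/-
S20, CUSP package (helper32 for helper20): the explicit "Fourier matrix" `Emat` that turns the
frame matrix `A(z)` into twisted Fourier projections, and division by the discriminant.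
-/

set_option autoImplicit false
set_option linter.unusedSectionVars false

open Complex Filter Function Asymptotics
open CongruenceSubgroup ModularForm SlashInvariantForm
open UpperHalfPlane hiding I
open scoped Real Topology Manifold MatrixGroups

namespace Fermat.Agent.S20

variable {N : ℕ} [NeZero N] {k : ℤ}

/-- (CM1) `F_{shift^a q}(z) = F_q(z + a)`. -/
theorem cj_shift_pow (F : ModularForm (G0 N) k) (a : ℕ) (q : Q N) (z : ℍ) :
    cj F (((shift N) ^ a) q) z = cj F q ((a : ℝ) +ᵥ z) := by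
  induction a generalizing z with
  | zero =>
    simp only [pow_zero, Equiv.Perm.coe_one, id_eq, Nat.cast_zero]
    congr 1
    ext
    simp
  | succ a ih =>
    rw [pow_succ', Equiv.Perm.mul_apply, cj_shift, ih, vadd_vadd_nat]
    congr 2
    push_cast
    ring

/-- (CM2) every conjugate of a form on `Γ0(N)` is `N`-periodic. -/
theorem cj_isPer (F : ModularForm (G0 N) k) (q : Q N) : IsPer N (cj F q) := by
  intro z
  rw [← cj_shift_pow, shift_pow_level]
  rfl

/-- (CM3) the Fourier matrix. -/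
noncomputable def Emat (N : ℕ) (z : ℍ) : Matrix (Q N) (Q N) ℂ := fun q' q =>
  ∑ r ∈ Finset.range N, Complex.exp (-(2 * π * I * r * z / N)) *
    ((N : ℂ)⁻¹ * ∑ a ∈ Finset.range N,
      if ((shift N) ^ a) q = q' then (zetaN N ^ (r * a))⁻¹ else 0)

/-- (CM4) a row of conjugates times `Emat` is the sum of the twisted Fourier projections. -/
theorem row_mul_Emat (F : ModularForm (G0 N) k) (z : ℍ) (q : Q N) :
    ∑ q', cj F q' z * Emat N z q' q = ∑ r ∈ Finset.range N, twist N r (cj F q) z := by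
  unfold Emat twist fourierProj
  simp only [Finset.mul_sum]
  rw [Finset.sum_comm]
  refine Finset.sum_congr rfl fun r _ => ?_
  rw [Finset.sum_comm]
  refine Finset.sum_congr rfl fun a _ => ?_
  rw [Finset.sum_eq_single (((shift N) ^ a) q)]
  · rw [if_pos rfl, cj_shift_pow]
    ring
  · intro b _ hb
    rw [if_neg (Ne.symm hb)]
    ring
  · intro hb
    exact absurd (Finset.mem_univ _) hb

/-- (CM4') the frame matrix times `Emat`. -/
theorem A_mul_Emat (Φ : Frame N) (z : ℍ) (i q : Q N) :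
    (Φ.A z * Emat N z) i q = ∑ r ∈ Finset.range N, twist N r (cj (Φ.f i) q) z := by
  rw [Matrix.mul_apply]
  exact row_mul_Emat (Φ.f i) z q

/-- (CM5) a crude bound for the entries of `Emat`. -/
theorem norm_Emat_le (z : ℍ) (q' q : Q N) :
    ‖Emat N z q' q‖ ≤ N * Real.exp (2 * π * (N - 1) * z.im / N) := by
  have hN : (0 : ℝ) < N := Nat.cast_pos.mpr (Nat.pos_of_ne_zero (NeZero.ne N))
  have hinner : ∀ r : ℕ, ‖((N : ℂ)⁻¹ * ∑ a ∈ Finset.range N,
      if ((shift N) ^ a) q = q' then (zetaN N ^ (r * a))⁻¹ else 0)‖ ≤ 1 := by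
    intro r
    have h1 : ∀ a ∈ Finset.range N,
        ‖(if ((shift N) ^ a) q = q' then (zetaN N ^ (r * a))⁻¹ else (0 : ℂ))‖ ≤ 1 := by
      intro a _
      split_ifs
      · rw [norm_inv, norm_pow, norm_zetaN, one_pow, inv_one]
      · simp
    have h2 : ‖∑ a ∈ Finset.range N,
        (if ((shift N) ^ a) q = q' then (zetaN N ^ (r * a))⁻¹ else (0 : ℂ))‖ ≤ N := by
      calc ‖∑ a ∈ Finset.range N,
            (if ((shift N) ^ a) q = q' then (zetaN N ^ (r * a))⁻¹ else (0 : ℂ))‖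
          ≤ ∑ a ∈ Finset.range N,
            ‖(if ((shift N) ^ a) q = q' then (zetaN N ^ (r * a))⁻¹ else (0 : ℂ))‖ :=
            norm_sum_le _ _
        _ ≤ ∑ _a ∈ Finset.range N, (1 : ℝ) := Finset.sum_le_sum h1
        _ = N := by simp
    rw [norm_mul, norm_inv, Complex.norm_natCast]
    calc (N : ℝ)⁻¹ * _ ≤ (N : ℝ)⁻¹ * N := by gcongr
      _ = 1 := by field_simp
  have hterm : ∀ r ∈ Finset.range N,
      ‖Complex.exp (-(2 * π * I * r * z / N)) * ((N : ℂ)⁻¹ * ∑ a ∈ Finset.range N,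
        if ((shift N) ^ a) q = q' then (zetaN N ^ (r * a))⁻¹ else 0)‖
      ≤ Real.exp (2 * π * (N - 1) * z.im / N) := by
    intro r hr
    rw [norm_mul, norm_exp_twist]
    have hr' : (r : ℝ) ≤ N - 1 := by
      have : r + 1 ≤ N := Finset.mem_range.mp hr
      have : ((r + 1 : ℕ) : ℝ) ≤ N := by exact_mod_cast this
      push_cast at this
      linarith
    have hexp : Real.exp (2 * π * r * z.im / N) ≤ Real.exp (2 * π * (N - 1) * z.im / N) := by
      apply Real.exp_le_exp.mpr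
      have hz : 0 < z.im := z.im_pos
      have hpi : 0 < π := Real.pi_pos
      apply div_le_div_of_nonneg_right _ hN.le
      have : 2 * π * (r : ℝ) ≤ 2 * π * (N - 1) := by nlinarith
      nlinarith
    calc Real.exp (2 * π * r * z.im / N) * _
        ≤ Real.exp (2 * π * (N - 1) * z.im / N) * 1 := by
          apply mul_le_mul hexp (hinner r) (norm_nonneg _) (Real.exp_pos _).le
      _ = _ := mul_one _
  unfold Emat
  calc ‖∑ r ∈ Finset.range N, Complex.exp (-(2 * π * I * r * z / N)) *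
        ((N : ℂ)⁻¹ * ∑ a ∈ Finset.range N,
          if ((shift N) ^ a) q = q' then (zetaN N ^ (r * a))⁻¹ else 0)‖
      ≤ ∑ r ∈ Finset.range N, ‖Complex.exp (-(2 * π * I * r * z / N)) *
        ((N : ℂ)⁻¹ * ∑ a ∈ Finset.range N,
          if ((shift N) ^ a) q = q' then (zetaN N ^ (r * a))⁻¹ else 0)‖ := norm_sum_le _ _
    _ ≤ ∑ _r ∈ Finset.range N, Real.exp (2 * π * (N - 1) * z.im / N) := Finset.sum_le_sum hterm
    _ = N * Real.exp (2 * π * (N - 1) * z.im / N) := by simp


/-! ### Division by the discriminant -/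

/-- Slash of `h / Δ` by an element of `SL(2,ℤ)`. -/
theorem div_disc_slash {K : ℤ} (h : ModularForm (G0 N) K) (γ : SL(2, ℤ)) :
    (fun z => h z / ModularForm.discriminant z) ∣[K - 12] γ
      = fun z => ((⇑h) ∣[K] γ) z / ModularForm.discriminant z := by
  have hγ : (γ : GL (Fin 2) ℝ) ∈ 𝒮ℒ := ⟨γ, rfl⟩
  change (⇑h / ⇑CuspForm.discriminant) ∣[K - 12] γ = _
  rw [div_slash_SL2]
  have h2 : (⇑CuspForm.discriminant) ∣[(12 : ℤ)] γ = ⇑CuspForm.discriminant := by
    rw [SL_slash]
    exact SlashInvariantForm.slash_action_eqn CuspForm.discriminant _ hγ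
  rw [h2]
  rfl

/-- (CM6) a form on `Γ0(N)` all of whose conjugates are `O(e^{-2π Im z})` is divisible by `Δ`. -/
theorem div_disc {K : ℤ} (h : ModularForm (G0 N) K)
    (hO : ∀ q : Q N, cj h q =O[atImInfty] fun τ : ℍ => Real.exp (-(2 * π * τ.im))) :
    ∃ h' : ModularForm (G0 N) (K - 12), ∀ z, h z = ModularForm.discriminant z * h' z := by
  refine ⟨{ toFun := fun z => h z / ModularForm.discriminant z
            slash_action_eq' := ?_
            holo' := h.holo'.div CuspForm.discriminant.holo' discriminant_ne_zero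
            bdd_at_cusps' := ?_ }, fun z => ?_⟩
  · rintro _ ⟨γ, hγ, rfl⟩
    have h1 := div_disc_slash h γ
    have h2 : (⇑h) ∣[K] γ = ⇑h := SlashInvariantForm.slash_action_eqn h _ ⟨γ, hγ, rfl⟩
    rw [h2] at h1
    exact h1
  · intro c hc
    rw [Subgroup.IsArithmetic.isCusp_iff_isCusp_SL2Z] at hc
    rw [OnePoint.isBoundedAt_iff_forall_SL2Z hc]
    intro γ _
    rw [div_disc_slash h γ, IsBoundedAtImInfty, BoundedAtFilter]
    have h3 : (⇑h) ∣[K] γ = cj h (mkQ N γ⁻¹) := by rw [cj_mkQ, inv_inv]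
    rw [h3]
    have h4 : cj h (mkQ N γ⁻¹) =O[atImInfty] ModularForm.discriminant :=
      (hO (mkQ N γ⁻¹)).trans (by simpa using exp_isBigO_discriminant)
    exact (div_isBoundedUnder_of_isBigO h4).isBigO_one ℝ
  · change h z = ModularForm.discriminant z * (h z / ModularForm.discriminant z)
    rw [mul_div_cancel₀ _ (discriminant_ne_zero z)]

/-- Conjugates of `h = Δ · h'`. -/
theorem cj_eq_disc_mul {K : ℤ} (h : ModularForm (G0 N) K) (h' : ModularForm (G0 N) (K - 12))
    (hh : ∀ z, h z = ModularForm.discriminant z * h' z) (q : Q N) (z : ℍ) :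
    cj h q z = ModularForm.discriminant z * cj h' q z := by
  obtain ⟨γ, rfl⟩ := mkQ_surjective q
  rw [cj_mkQ, cj_mkQ]
  have hfun : (⇑h : ℍ → ℂ) = ⇑CuspForm.discriminant * ⇑h' := funext hh
  have hγ : ((γ⁻¹ : SL(2, ℤ)) : GL (Fin 2) ℝ) ∈ 𝒮ℒ := ⟨γ⁻¹, rfl⟩
  have h1 : (⇑CuspForm.discriminant * ⇑h') ∣[(12 : ℤ) + (K - 12)] γ⁻¹
      = (⇑CuspForm.discriminant) ∣[(12 : ℤ)] γ⁻¹ * (⇑h') ∣[K - 12] γ⁻¹ :=
    mul_slash_SL2 _ _ γ⁻¹ _ _
  have h2 : (⇑CuspForm.discriminant) ∣[(12 : ℤ)] γ⁻¹ = ⇑CuspForm.discriminant := by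
    rw [SL_slash]
    exact SlashInvariantForm.slash_action_eqn CuspForm.discriminant _ hγ
  have h3 : (12 : ℤ) + (K - 12) = K := by ring
  rw [h3, ← hfun, h2] at h1
  rw [h1]
  rfl

/-- (CM7) cusp version of `div_disc`: if all conjugates of `h` are `o(e^{-2π Im z})`, the
quotient `h / Δ` has all conjugates vanishing at `i∞`. -/
theorem div_disc_cusp {K : ℤ} (h : ModularForm (G0 N) K)
    (ho : ∀ q : Q N, cj h q =o[atImInfty] fun τ : ℍ => Real.exp (-(2 * π * τ.im))) :
    ∃ h' : ModularForm (G0 N) (K - 12),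
      (∀ z, h z = ModularForm.discriminant z * h' z) ∧ ∀ q, IsZeroAtImInfty (cj h' q) := by
  obtain ⟨h', hh'⟩ := div_disc h (fun q => (ho q).isBigO)
  refine ⟨h', hh', fun q => ?_⟩
  have h4 : cj h q =o[atImInfty] ModularForm.discriminant :=
    (ho q).trans_isBigO (by simpa using exp_isBigO_discriminant)
  have h5 : Tendsto (fun z => cj h q z / ModularForm.discriminant z) atImInfty (𝓝 0) :=
    h4.tendsto_div_nhds_zero
  have h6 : (fun z => cj h q z / ModularForm.discriminant z) = cj h' q := by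
    funext z
    rw [cj_eq_disc_mul h h' hh' q z, mul_div_cancel_left₀ _ (discriminant_ne_zero z)]
  rw [h6] at h5
  exact h5

/-- (CM7') the same with the hypothesis phrased as a limit. -/
theorem div_disc_cusp' {K : ℤ} (h : ModularForm (G0 N) K)
    (ho : ∀ q : Q N, Tendsto (fun τ : ℍ => cj h q τ * (Real.exp (2 * π * τ.im) : ℂ))
      atImInfty (𝓝 0)) :
    ∃ h' : ModularForm (G0 N) (K - 12),
      (∀ z, h z = ModularForm.discriminant z * h' z) ∧ ∀ q, IsZeroAtImInfty (cj h' q) := by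
  refine div_disc_cusp h fun q => ?_
  have h1 : cj h q =o[atImInfty] fun τ : ℍ => ((Real.exp (-(2 * π * τ.im)) : ℝ) : ℂ) := by
    rw [Asymptotics.isLittleO_iff_tendsto]
    · refine (ho q).congr fun τ => ?_
      rw [Real.exp_neg, Complex.ofReal_inv, div_inv_eq_mul]
    · intro τ hτ
      exact absurd (Complex.ofReal_eq_zero.mp hτ) (Real.exp_pos _).ne'
  exact h1.trans_isBigO (Asymptotics.isBigO_of_le _ fun τ => by
    rw [Complex.norm_real])

end Fermat.Agent.S20


end ZBS20_011_1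

/-! ### bundled: `Fermat.Agent.S20.CuspJet` -/
section ZBS20_011_2
/-
S20, package CUSP (helper20): jets of the conjugates `cj F q` at `i∞`.

For `F ∈ M_k(Γ0(N))` and a coset `q`, the conjugate `cj F q` is `N`-periodic, holomorphic and
bounded at `i∞`; `jetR r F q` is the limit at `i∞` of the `r`-th twisted Fourier projection
`twist N r (cj F q)` (`r < N`), `jet F q = ∑_{r<N} jetR r F q`, and a frame is `CuspGood` if the
matrix `Binf = (jet (f i) q)` is invertible.
-/

set_option autoImplicit false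
set_option linter.unusedSectionVars false

open Complex Filter Function Asymptotics
open UpperHalfPlane hiding I
open CongruenceSubgroup ModularForm
open scoped Real Topology Manifold MatrixGroups

namespace Fermat.Agent.S20

variable {N : ℕ} [NeZero N] {k : ℤ}

/-! ### Algebra of the Fourier projections -/

lemma fourierProj_add (N r : ℕ) (φ ψ : ℍ → ℂ) (z : ℍ) :
    fourierProj N r (φ + ψ) z = fourierProj N r φ z + fourierProj N r ψ z := by
  unfold fourierProj
  simp only [Pi.add_apply, mul_add, Finset.sum_add_distrib]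

lemma fourierProj_smul (N r : ℕ) (c : ℂ) (φ : ℍ → ℂ) (z : ℍ) :
    fourierProj N r (c • φ) z = c * fourierProj N r φ z := by
  unfold fourierProj
  simp only [Pi.smul_apply, smul_eq_mul, Finset.mul_sum]
  refine Finset.sum_congr rfl fun a _ => ?_
  ring

lemma fourierProj_zero (N r : ℕ) (z : ℍ) : fourierProj N r (0 : ℍ → ℂ) z = 0 := by
  unfold fourierProj
  simp

lemma twist_add (N r : ℕ) (φ ψ : ℍ → ℂ) (z : ℍ) :
    twist N r (φ + ψ) z = twist N r φ z + twist N r ψ z := by
  unfold twist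
  rw [fourierProj_add, mul_add]

lemma twist_smul (N r : ℕ) (c : ℂ) (φ : ℍ → ℂ) (z : ℍ) :
    twist N r (c • φ) z = c * twist N r φ z := by
  unfold twist
  rw [fourierProj_smul]
  ring

lemma twist_zero (N r : ℕ) (z : ℍ) : twist N r (0 : ℍ → ℂ) z = 0 := by
  unfold twist
  rw [fourierProj_zero, mul_zero]

lemma twist_sum (N r : ℕ) {ι : Type*} (s : Finset ι) (φ : ι → ℍ → ℂ) (z : ℍ) :
    twist N r (∑ i ∈ s, φ i) z = ∑ i ∈ s, twist N r (φ i) z := by
  classical
  induction s using Finset.induction_on with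
  | empty => simp [twist_zero]
  | insert a s ha ih => rw [Finset.sum_insert ha, Finset.sum_insert ha, twist_add, ih]

lemma vadd_nat_of_vadd_one {a : ℍ → ℂ} (ha : ∀ z : ℍ, a ((1 : ℝ) +ᵥ z) = a z) (j : ℕ) (z : ℍ) :
    a ((j : ℝ) +ᵥ z) = a z := by
  induction j with
  | zero => simp
  | succ j ih =>
    have : (((j + 1 : ℕ) : ℝ)) +ᵥ z = (1 : ℝ) +ᵥ ((j : ℝ) +ᵥ z) := by
      rw [vadd_vadd_nat]
      push_cast
      rw [add_comm]
    rw [this, ha, ih]

lemma fourierProj_mul_periodic (N r : ℕ) {a : ℍ → ℂ} (ha : ∀ z : ℍ, a ((1 : ℝ) +ᵥ z) = a z)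
    (φ : ℍ → ℂ) (z : ℍ) : fourierProj N r (a * φ) z = a z * fourierProj N r φ z := by
  unfold fourierProj
  simp only [Pi.mul_apply, Finset.mul_sum]
  refine Finset.sum_congr rfl fun j _ => ?_
  rw [vadd_nat_of_vadd_one ha]
  ring

lemma twist_mul_periodic (N r : ℕ) {a : ℍ → ℂ} (ha : ∀ z : ℍ, a ((1 : ℝ) +ᵥ z) = a z)
    (φ : ℍ → ℂ) (z : ℍ) : twist N r (a * φ) z = a z * twist N r φ z := by
  unfold twist
  rw [fourierProj_mul_periodic N r ha]
  ring

lemma fourierProj_comp_vadd_one (N r : ℕ) (φ : ℍ → ℂ) (z : ℍ) :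
    fourierProj N r (fun w => φ ((1 : ℝ) +ᵥ w)) z = fourierProj N r φ ((1 : ℝ) +ᵥ z) := by
  unfold fourierProj
  congr 1
  refine Finset.sum_congr rfl fun j _ => ?_
  show _ * φ ((1 : ℝ) +ᵥ ((j : ℝ) +ᵥ z)) = _ * φ ((j : ℝ) +ᵥ ((1 : ℝ) +ᵥ z))
  rw [vadd_vadd_nat, vadd_vadd_nat, add_comm]

lemma twist_comp_vadd_one (N r : ℕ) [NeZero N] {φ : ℍ → ℂ} (hφ : IsPer N φ) (z : ℍ) :
    twist N r (fun w => φ ((1 : ℝ) +ᵥ w)) z = zetaN N ^ r * twist N r φ z := by
  unfold twist
  rw [fourierProj_comp_vadd_one, fourierProj_vadd_one N r hφ]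
  ring

/-! ### Jets -/

/-- The `r`-th jet of the conjugate `cj F q` at `i∞`. -/
noncomputable def jetR (r : ℕ) (F : ModularForm (G0 N) k) (q : Q N) : ℂ := jetS N r (cj F q)

lemma tendsto_twist_cj {r : ℕ} (hr : r < N) (F : ModularForm (G0 N) k) (q : Q N) :
    Tendsto (twist N r (cj F q)) atImInfty (𝓝 (jetR r F q)) :=
  tendsto_twist N r hr (cj_isPer F q) (cj_mdiff F q) (cj_bdd F q)

lemma jetR_eq_of_tendsto {r : ℕ} (hr : r < N) (F : ModularForm (G0 N) k) (q : Q N) {L : ℂ}
    (h : Tendsto (twist N r (cj F q)) atImInfty (𝓝 L)) : jetR r F q = L :=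
  tendsto_nhds_unique (tendsto_twist_cj hr F q) h

lemma jetR_shift {r : ℕ} (hr : r < N) (F : ModularForm (G0 N) k) (q : Q N) :
    jetR r F (shift N q) = zetaN N ^ r * jetR r F q := by
  apply jetR_eq_of_tendsto hr
  have h1 : cj F (shift N q) = fun w => cj F q ((1 : ℝ) +ᵥ w) := funext fun w => cj_shift F q w
  have h2 : twist N r (cj F (shift N q)) = fun z => zetaN N ^ r * twist N r (cj F q) z := by
    funext z
    rw [h1, twist_comp_vadd_one N r (cj_isPer F q)]
  rw [h2]
  exact (tendsto_twist_cj hr F q).const_mul _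

lemma cusp_cj_zero (q : Q N) : cj (0 : ModularForm (G0 N) k) q = 0 := by
  have := cj_smul (0 : ℂ) (0 : ModularForm (G0 N) k) q
  rw [zero_smul, zero_smul] at this
  exact this

lemma cusp_cj_sum {ι : Type*} (s : Finset ι) (G : ι → ModularForm (G0 N) k) (q : Q N) :
    cj (∑ j ∈ s, G j) q = ∑ j ∈ s, cj (G j) q := by
  classical
  induction s using Finset.induction_on with
  | empty => simp [cusp_cj_zero]
  | insert a s ha ih => rw [Finset.sum_insert ha, Finset.sum_insert ha, cj_add, ih]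

lemma jetR_add {r : ℕ} (hr : r < N) (F G : ModularForm (G0 N) k) (q : Q N) :
    jetR r (F + G) q = jetR r F q + jetR r G q := by
  apply jetR_eq_of_tendsto hr
  have h2 : twist N r (cj (F + G) q)
      = fun z => twist N r (cj F q) z + twist N r (cj G q) z := by
    funext z
    rw [cj_add, twist_add]
  rw [h2]
  exact (tendsto_twist_cj hr F q).add (tendsto_twist_cj hr G q)

lemma jetR_smul {r : ℕ} (hr : r < N) (c : ℂ) (F : ModularForm (G0 N) k) (q : Q N) :
    jetR r (c • F) q = c * jetR r F q := by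
  apply jetR_eq_of_tendsto hr
  have h2 : twist N r (cj (c • F) q) = fun z => c * twist N r (cj F q) z := by
    funext z
    rw [cj_smul, twist_smul]
  rw [h2]
  exact (tendsto_twist_cj hr F q).const_mul _

lemma jetR_zero {r : ℕ} (hr : r < N) (q : Q N) :
    jetR r (0 : ModularForm (G0 N) k) q = 0 := by
  have := jetR_smul hr (0 : ℂ) (0 : ModularForm (G0 N) k) q
  rwa [zero_smul, zero_mul] at this

lemma jetR_sum {r : ℕ} (hr : r < N) {ι : Type*} (s : Finset ι) (G : ι → ModularForm (G0 N) k)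
    (q : Q N) : jetR r (∑ j ∈ s, G j) q = ∑ j ∈ s, jetR r (G j) q := by
  classical
  induction s using Finset.induction_on with
  | empty => simp [jetR_zero hr]
  | insert a s ha ih => rw [Finset.sum_insert ha, Finset.sum_insert ha, jetR_add hr, ih]

lemma jetR_mcast {a b : ℤ} (h : a = b) (r : ℕ) (F : ModularForm (G0 N) a) (q : Q N) :
    jetR r (ModularForm.mcast h F) q = jetR r F q := by
  unfold jetR
  rw [cj_mcast]

/-- A level-one form is `1`-periodic. -/
lemma levelOne_vadd_one {w : ℤ} (a : ModularForm 𝒮ℒ w) (z : ℍ) : a ((1 : ℝ) +ᵥ z) = a z :=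
  SlashInvariantForm.vAdd_apply_of_mem_strictPeriods a z one_mem_strictPeriods_SL

lemma jetR_res_mul {r : ℕ} (hr : r < N) {w : ℤ} (a : ModularForm 𝒮ℒ w) {L : ℂ}
    (ha : Tendsto (⇑a) atImInfty (𝓝 L)) (F : ModularForm (G0 N) k) (q : Q N) :
    jetR r ((res N a).mul F) q = L * jetR r F q := by
  apply jetR_eq_of_tendsto hr
  have h2 : twist N r (cj ((res N a).mul F) q) = fun z => a z * twist N r (cj F q) z := by
    funext z
    rw [cj_res_mul, twist_mul_periodic N r (levelOne_vadd_one a)]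
  rw [h2]
  exact ha.mul (tendsto_twist_cj hr F q)

/-- If all jets of `cj F q` vanish, then `cj F q = O(exp(-2π im))` at `i∞`. -/
lemma isBigO_exp_of_jetR_eq_zero (F : ModularForm (G0 N) k) (q : Q N)
    (h : ∀ r < N, jetR r F q = 0) :
    cj F q =O[atImInfty] fun τ : ℍ => Real.exp (-(2 * π * τ.im)) :=
  isBigO_exp_of_jetS_eq_zero N (cj_isPer F q) (cj_mdiff F q) (cj_bdd F q) h

/-- The limit of `cj F q` at `i∞` is its `0`-th jet. -/
lemma tendsto_cj (F : ModularForm (G0 N) k) (q : Q N) :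
    Tendsto (cj F q) atImInfty (𝓝 (jetR 0 F q)) := by
  have hN : 0 < N := Nat.pos_of_ne_zero (NeZero.ne N)
  have h0 : (fun z : ℍ => ∑ r ∈ Finset.range N,
      Complex.exp (2 * π * I * r * z / N) * twist N r (cj F q) z) = cj F q :=
    funext fun z => (eq_sum_exp_mul_twist N (cj F q) z).symm
  rw [← h0]
  have hlim : ∀ r ∈ Finset.range N, Tendsto
      (fun z : ℍ => Complex.exp (2 * π * I * r * z / N) * twist N r (cj F q) z) atImInfty
      (𝓝 (if r = 0 then jetR 0 F q else 0)) := by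
    intro r hr
    have hrN : r < N := Finset.mem_range.mp hr
    split_ifs with h
    · subst h
      have : (fun z : ℍ => Complex.exp (2 * π * I * (0 : ℕ) * z / N) * twist N 0 (cj F q) z)
          = twist N 0 (cj F q) := by
        funext z
        simp
      rw [this]
      exact tendsto_twist_cj hrN F q
    · have hexp : Tendsto (fun z : ℍ => Complex.exp (2 * π * I * r * z / N)) atImInfty (𝓝 0) := by
        rw [tendsto_zero_iff_norm_tendsto_zero]
        have hNpos : (0 : ℝ) < N := Nat.cast_pos.mpr hN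
        have hrpos : (0 : ℝ) < r := Nat.cast_pos.mpr (Nat.pos_of_ne_zero h)
        have hc : 0 < 2 * π * r / N := by positivity
        refine (tendsto_exp_neg_mul_im hc).congr fun z => ?_
        rw [Complex.norm_exp]
        congr 1
        have : (2 * π * I * r * (z : ℂ) / N) = ((2 * π * r / N : ℝ) : ℂ) * (z : ℂ) * I := by
          push_cast; ring
        rw [this, Complex.mul_I_re]
        simp [UpperHalfPlane.coe_im]
      have := hexp.mul (tendsto_twist_cj hrN F q)
      simpa using this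
  have hsum := tendsto_finsetSum (Finset.range N) hlim
  have hval : (∑ r ∈ Finset.range N, if r = 0 then jetR 0 F q else 0) = jetR 0 F q := by
    rw [Finset.sum_ite_eq' (Finset.range N) 0 (fun _ => jetR 0 F q)]
    simp [hN]
  rw [hval] at hsum
  exact hsum

/-! ### The limit matrix of a frame -/

/-- The total jet `∑_{r<N} jetR r F q`. -/
noncomputable def jet (F : ModularForm (G0 N) k) (q : Q N) : ℂ :=
  ∑ r ∈ Finset.range N, jetR r F q

/-- The limit matrix `Binf = lim_{z → i∞} A(z)·E(z)` of a frame. -/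
noncomputable def Frame.Binf (Φ : Frame N) : Matrix (Q N) (Q N) ℂ :=
  fun i q => jet (Φ.f i) q

/-- A frame is *good at the cusps* if its limit matrix is invertible. -/
def Frame.CuspGood (Φ : Frame N) : Prop := Φ.Binf.det ≠ 0

lemma tendsto_row_mul_Emat (F : ModularForm (G0 N) k) (q : Q N) :
    Tendsto (fun z => ∑ q', cj F q' z * Emat N z q' q) atImInfty (𝓝 (jet F q)) := by
  have : (fun z => ∑ q', cj F q' z * Emat N z q' q)
      = fun z => ∑ r ∈ Finset.range N, twist N r (cj F q) z :=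
    funext fun z => row_mul_Emat F z q
  rw [this]
  exact tendsto_finsetSum _ fun r hr => tendsto_twist_cj (Finset.mem_range.mp hr) F q

lemma Frame.tendsto_A_mul_Emat (Φ : Frame N) (i q : Q N) :
    Tendsto (fun z => (Φ.A z * Emat N z) i q) atImInfty (𝓝 (Φ.Binf i q)) := by
  have : (fun z => (Φ.A z * Emat N z) i q)
      = fun z => ∑ r ∈ Finset.range N, twist N r (cj (Φ.f i) q) z :=
    funext fun z => A_mul_Emat Φ z i q
  rw [this]
  exact tendsto_finsetSum _ fun r hr => tendsto_twist_cj (Finset.mem_range.mp hr) (Φ.f i) q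

end Fermat.Agent.S20


end ZBS20_011_2

/-! ### bundled: `Fermat.Agent.S20.CuspCramer` -/
section ZBS20_011_3
/-
S20, package CUSP (helper20): CUSP-2 (`cramer_bounded`) and CUSP-3 (`disc_mul_inv_zero`).

For a frame `Φ` which is good on `ℍ` and good at the cusps, `A(z)⁻¹ = E(z) · Ã(z)⁻¹` with
`Ã = A·E → Binf` invertible, hence the Cramer coefficients of any form are bounded at `i∞`,
and `Δ · A⁻¹ → 0` at `i∞`.
-/

set_option autoImplicit false
set_option linter.unusedSectionVars false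

open Complex Filter Function Asymptotics
open UpperHalfPlane hiding I
open CongruenceSubgroup ModularForm
open scoped Real Topology Manifold MatrixGroups

namespace Fermat.Agent.S20

variable {N : ℕ} [NeZero N] {k : ℤ}

/-- The matrix `Ã(z) = A(z) E(z)` tends to `Binf`. -/
lemma Frame.tendsto_Atil (Φ : Frame N) :
    Tendsto (fun z => Φ.A z * Emat N z) atImInfty (𝓝 Φ.Binf) :=
  tendsto_pi_nhds.mpr fun i => tendsto_pi_nhds.mpr fun q => Φ.tendsto_A_mul_Emat i q

lemma Frame.tendsto_det_Atil (Φ : Frame N) :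
    Tendsto (fun z => (Φ.A z * Emat N z).det) atImInfty (𝓝 Φ.Binf.det) :=
  ((continuous_id.matrix_det (R := ℂ) (n := Q N)).tendsto Φ.Binf).comp Φ.tendsto_Atil

lemma Frame.eventually_det_Atil_ne_zero (Φ : Frame N) (hC : Φ.CuspGood) :
    ∀ᶠ z in atImInfty, (Φ.A z * Emat N z).det ≠ 0 :=
  Φ.tendsto_det_Atil.eventually_ne hC

lemma Frame.tendsto_inv_Atil (Φ : Frame N) (hC : Φ.CuspGood) (q i : Q N) :
    Tendsto (fun z => (Φ.A z * Emat N z)⁻¹ q i) atImInfty (𝓝 (Φ.Binf⁻¹ q i)) := by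
  have hcont : ContinuousAt (Inv.inv : Matrix (Q N) (Q N) ℂ → Matrix (Q N) (Q N) ℂ) Φ.Binf := by
    apply continuousAt_matrix_inv
    rw [Ring.inverse_eq_inv']
    exact continuousAt_inv₀ hC
  have h1 : Tendsto (fun z => (Φ.A z * Emat N z)⁻¹) atImInfty (𝓝 Φ.Binf⁻¹) :=
    hcont.tendsto.comp Φ.tendsto_Atil
  exact ((continuous_apply i).tendsto _).comp (((continuous_apply q).tendsto _).comp h1)

/-- `A(z)⁻¹ = E(z) · Ã(z)⁻¹` when `A(z)` and `Ã(z)` are invertible. -/
lemma Frame.inv_eq_Emat_mul (Φ : Frame N) (z : ℍ) (hA : (Φ.A z).det ≠ 0)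
    (hAt : (Φ.A z * Emat N z).det ≠ 0) :
    (Φ.A z)⁻¹ = Emat N z * (Φ.A z * Emat N z)⁻¹ := by
  have hAu : IsUnit (Φ.A z).det := isUnit_iff_ne_zero.mpr hA
  have hAtu : IsUnit (Φ.A z * Emat N z).det := isUnit_iff_ne_zero.mpr hAt
  have h1 : Emat N z = (Φ.A z)⁻¹ * (Φ.A z * Emat N z) := by
    rw [← Matrix.mul_assoc, Matrix.nonsing_inv_mul _ hAu, Matrix.one_mul]
  calc (Φ.A z)⁻¹ = (Φ.A z)⁻¹ * ((Φ.A z * Emat N z) * (Φ.A z * Emat N z)⁻¹) := by
        rw [Matrix.mul_nonsing_inv _ hAtu, Matrix.mul_one]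
    _ = ((Φ.A z)⁻¹ * (Φ.A z * Emat N z)) * (Φ.A z * Emat N z)⁻¹ := by
        rw [← Matrix.mul_assoc ((Φ.A z)⁻¹)]
    _ = Emat N z * (Φ.A z * Emat N z)⁻¹ := by rw [← h1]

/-- **CUSP-2.** The Cramer coefficients of any form with respect to a good frame converge at
`i∞`. -/
theorem cramer_tendsto (Φ : Frame N) (hH : Φ.GoodOnH) (hC : Φ.CuspGood) {l : ℤ}
    (F : ModularForm (G0 N) l) (i : Q N) :
    Tendsto (fun z => ∑ q, cj F q z * (Φ.A z)⁻¹ q i) atImInfty
      (𝓝 (∑ q', jet F q' * Φ.Binf⁻¹ q' i)) := by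
  have hlim : Tendsto (fun z => ∑ q', (∑ q, cj F q z * Emat N z q q') *
      (Φ.A z * Emat N z)⁻¹ q' i) atImInfty (𝓝 (∑ q', jet F q' * Φ.Binf⁻¹ q' i)) :=
    tendsto_finsetSum _ fun q' _ => (tendsto_row_mul_Emat F q').mul (Φ.tendsto_inv_Atil hC q' i)
  refine hlim.congr' ?_
  filter_upwards [Φ.eventually_det_Atil_ne_zero hC] with z hz
  rw [Φ.inv_eq_Emat_mul z (hH z) hz]
  simp only [Matrix.mul_apply, Finset.mul_sum, Finset.sum_mul]
  rw [Finset.sum_comm]
  refine Finset.sum_congr rfl fun q _ => Finset.sum_congr rfl fun q' _ => ?_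
  ring

/-- **CUSP-2.** The Cramer coefficients of any form with respect to a good frame are bounded at
`i∞`. -/
theorem cramer_bounded (Φ : Frame N) (hH : Φ.GoodOnH) (hC : Φ.CuspGood) {l : ℤ}
    (F : ModularForm (G0 N) l) (i : Q N) :
    IsBoundedAtImInfty (fun z => ∑ q, cj F q z * (Φ.A z)⁻¹ q i) :=
  (cramer_tendsto Φ hH hC F i).isBigO_one ℝ

/-- The discriminant is `O(exp(-2π im))` at `i∞`. -/
lemma discriminant_isBigO_exp :
    ModularForm.discriminant =O[atImInfty] fun τ : ℍ => Real.exp (-(2 * π * τ.im)) := by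
  have h := CuspFormClass.exp_decay_atImInfty (h := 1) CuspForm.discriminant one_pos
    one_mem_strictPeriods_SL
  refine h.congr_right fun τ => ?_
  congr 1
  ring

/-- `Δ(z) · E(z) → 0` at `i∞`, entrywise. -/
lemma tendsto_disc_mul_Emat (q q' : Q N) :
    Tendsto (fun z => ModularForm.discriminant z * Emat N z q q') atImInfty (𝓝 0) := by
  have hN : (0 : ℝ) < N := Nat.cast_pos.mpr (Nat.pos_of_ne_zero (NeZero.ne N))
  obtain ⟨C, hC⟩ := discriminant_isBigO_exp.bound
  rw [tendsto_zero_iff_norm_tendsto_zero]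
  have hc : 0 < 2 * π / N := by positivity
  have hupper : Tendsto (fun z : ℍ => C * N * Real.exp (-((2 * π / N) * z.im))) atImInfty
      (𝓝 (C * N * 0)) := (tendsto_exp_neg_mul_im hc).const_mul _
  rw [mul_zero] at hupper
  refine squeeze_zero' (Eventually.of_forall fun z => norm_nonneg _) ?_ hupper
  filter_upwards [hC] with z hz
  rw [norm_mul]
  have h1 := norm_Emat_le (N := N) z q q'
  have h2 : ‖Real.exp (-(2 * π * z.im))‖ = Real.exp (-(2 * π * z.im)) :=
    Real.norm_of_nonneg (Real.exp_pos _).le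
  rw [h2] at hz
  calc ‖ModularForm.discriminant z‖ * ‖Emat N z q q'‖
      ≤ (C * Real.exp (-(2 * π * z.im))) * (N * Real.exp (2 * π * (N - 1) * z.im / N)) :=
        mul_le_mul hz h1 (norm_nonneg _) (le_trans (norm_nonneg _) hz)
    _ = C * N * (Real.exp (-(2 * π * z.im)) * Real.exp (2 * π * (N - 1) * z.im / N)) := by ring
    _ = C * N * Real.exp (-((2 * π / N) * z.im)) := by
        rw [← Real.exp_add]
        congr 2
        field_simp
        ring

/-- **CUSP-3.** `Δ · A⁻¹ → 0` at `i∞`, entrywise. -/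
theorem disc_mul_inv_zero (Φ : Frame N) (hH : Φ.GoodOnH) (hC : Φ.CuspGood) (q i : Q N) :
    IsZeroAtImInfty (fun z => ModularForm.discriminant z * (Φ.A z)⁻¹ q i) := by
  have hlim : Tendsto (fun z => ∑ q', (ModularForm.discriminant z * Emat N z q q') *
      (Φ.A z * Emat N z)⁻¹ q' i) atImInfty (𝓝 (∑ q', 0 * Φ.Binf⁻¹ q' i)) :=
    tendsto_finsetSum _ fun q' _ => (tendsto_disc_mul_Emat q q').mul (Φ.tendsto_inv_Atil hC q' i)
  simp only [zero_mul, Finset.sum_const_zero] at hlim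
  refine hlim.congr' ?_
  filter_upwards [Φ.eventually_det_Atil_ne_zero hC] with z hz
  rw [Φ.inv_eq_Emat_mul z (hH z) hz]
  simp only [Matrix.mul_apply, Finset.mul_sum]
  refine Finset.sum_congr rfl fun q' _ => ?_
  ring

end Fermat.Agent.S20


end ZBS20_011_3
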