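/- GENERATED FILE (helper35, build-time optimisation, NOTES/ZB.md): verbatim concatenation of the modules
   Fermat.Agent.S20.LevelOneC
   Fermat.Agent.S20.LevelOnePoly
   Do not edit; do not import together with these modules. -/
import Mathlib
import Fermat.Agent.ZB.S20_011

/-! ### bundled: `Fermat.Agent.S20.LevelOneC` -/
section ZBS20_004_0

/-!
# S20, package C (level one)

* `Fermat.Agent.S20.levelOne_exists_E4_E6_decomp`: every level-one modular form of weight `w ≠ 0`
  is `E₄ · a + E₆ · b` with `a`, `b` level-one modular forms of weights `w - 4`, `w - 6`.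
-/

set_option autoImplicit false

open UpperHalfPlane ModularForm ModularFormClass MatrixGroups EisensteinSeries

namespace Fermat.Agent.S20

/-- value at infinity -/
noncomputable def levelOneConst {k : ℤ} (f : ModularForm 𝒮ℒ k) : ℂ := (qExpansion 1 f).coeff 0

theorem levelOne_eq_delta_mul_of_coeff_zero {k : ℤ} (g : ModularForm 𝒮ℒ k)
    (hg : (qExpansion 1 g).coeff 0 = 0) :
    ∃ h : ModularForm 𝒮ℒ (k - 12), ∀ z : ℍ, g z = ModularForm.discriminant z * h z := by
  refine ⟨CuspForm.discriminantEquiv (toCuspForm g hg), fun z => ?_⟩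
  rw [ModularForm.discriminant_mul_discriminantEquiv_apply, toCuspForm_apply]

theorem levelOne_exists_E4_E6_decomp_nat (w : ℕ) (hw : 8 ≤ w) (hw2 : Even w)
    (f : ModularForm 𝒮ℒ (w : ℤ)) :
    ∃ (a : ModularForm 𝒮ℒ ((w : ℤ) - 4)) (b : ModularForm 𝒮ℒ ((w : ℤ) - 6)),
      ∀ z : ℍ, f z = E₄ z * a z + E₆ z * b z := by
  have hk : 3 ≤ w - 4 := by omega
  have hk2 : Even (w - 4) := by
    rcases hw2 with ⟨m, hm⟩
    exact ⟨m - 2, by omega⟩
  -- the Eisenstein series of weight `w - 4`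
  let Ew : ModularForm 𝒮ℒ ((w : ℤ) - 4) := ModularForm.mcast (by omega) (E hk)
  let G : ModularForm 𝒮ℒ (w : ℤ) := ModularForm.mcast (by ring) (E₄.mul Ew)
  set c : ℂ := (qExpansion 1 f).coeff 0 with hc
  have hG0 : (qExpansion 1 G).coeff 0 = 1 := by
    have h1 : (G : ℍ → ℂ) = (E₄ : ℍ → ℂ) * (E hk : ℍ → ℂ) := by
      ext z; rfl
    rw [h1, ModularForm.qExpansion_mul_coe one_pos one_mem_strictPeriods_SL]
    simp [PowerSeries.coeff_mul, E_qExpansion_coeff_zero _ ⟨2, rfl⟩,
      E_qExpansion_coeff_zero hk hk2, -PowerSeries.coeff_zero_eq_constantCoeff]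
  let g : ModularForm 𝒮ℒ (w : ℤ) := f - c • G
  have hg0 : (qExpansion 1 g).coeff 0 = 0 := by
    have h2 : (g : ℍ → ℂ) = (f : ℍ → ℂ) - c • (G : ℍ → ℂ) := rfl
    rw [h2, qExpansion_sub (ModularFormClass.analyticAt_cuspFunction_zero f one_pos
        one_mem_strictPeriods_SL), qExpansion_smul (ModularFormClass.analyticAt_cuspFunction_zero G
        one_pos one_mem_strictPeriods_SL), map_sub, PowerSeries.coeff_smul, hG0]
    · simp [hc]
    · have := ModularFormClass.analyticAt_cuspFunction_zero (c • G) one_pos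
        one_mem_strictPeriods_SL
      exact this
  obtain ⟨h, hh⟩ := levelOne_eq_delta_mul_of_coeff_zero g hg0
  -- assemble
  let a : ModularForm 𝒮ℒ ((w : ℤ) - 4) :=
    c • Ew + (1 / 1728 : ℂ) • ModularForm.mcast (by ring) ((E₄.mul E₄).mul h)
  let b : ModularForm 𝒮ℒ ((w : ℤ) - 6) :=
    (-(1 / 1728) : ℂ) • ModularForm.mcast (by ring) (E₆.mul h)
  refine ⟨a, b, fun z => ?_⟩
  have h1 := hh z
  have hΔ := ModularForm.discriminant_eq_E₄_cube_sub_E₆_sq z
  have hfz : f z = c * (E₄ z * Ew z) + ModularForm.discriminant z * h z := by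
    have : g z = f z - c * (E₄ z * Ew z) := rfl
    rw [this] at h1
    linear_combination h1
  have haz : a z = c * Ew z + (1 / 1728 : ℂ) * (E₄ z * E₄ z * h z) := rfl
  have hbz : b z = (-(1 / 1728) : ℂ) * (E₆ z * h z) := rfl
  rw [hfz, haz, hbz, hΔ]
  ring


/-- **Package C1.** Every level-one modular form of weight `w ≠ 0` lies in
`E₄ · M_{w-4} + E₆ · M_{w-6}`. -/
theorem levelOne_exists_E4_E6_decomp {w : ℤ} (hw : w ≠ 0) (f : ModularForm 𝒮ℒ w) :
    ∃ (a : ModularForm 𝒮ℒ (w - 4)) (b : ModularForm 𝒮ℒ (w - 6)),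
      ∀ z : ℍ, f z = E₄ z * a z + E₆ z * b z := by
  have hzero : f = 0 → ∃ (a : ModularForm 𝒮ℒ (w - 4)) (b : ModularForm 𝒮ℒ (w - 6)),
      ∀ z : ℍ, f z = E₄ z * a z + E₆ z * b z := by
    rintro rfl
    exact ⟨0, 0, fun z => by simp⟩
  rcases lt_or_ge w 0 with hneg | hnonneg
  · exact hzero (rank_zero_iff_forall_zero.mp (levelOne_neg_weight_rank_zero hneg) f)
  rcases Int.even_or_odd w with hev | hodd
  swap
  · exact hzero (ModularForm.levelOne_odd_weight_eq_zero hodd f)
  lift w to ℕ using hnonneg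
  have hev' : Even w := by exact_mod_cast hev
  have hw' : w ≠ 0 := by exact_mod_cast hw
  rcases lt_or_ge w 8 with hlt | hge
  · obtain ⟨m, hm⟩ := hev'
    have hcases : w = 2 ∨ w = 4 ∨ w = 6 := by omega
    rcases hcases with rfl | rfl | rfl
    · exact hzero (rank_zero_iff_forall_zero.mp levelOne_weight_two_rank_zero f)
    · obtain ⟨c, hc⟩ : ∃ c : ℂ, c • E₄ = f :=
        (finrank_eq_one_iff_of_nonzero' E₄ (E_ne_zero _ ⟨2, rfl⟩)).mp
          (Module.rank_eq_one_iff_finrank_eq_one.mp levelOne_weight_four_rank_one) _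
      refine ⟨ModularForm.mcast (by norm_num) (ModularForm.const c), 0, fun z => ?_⟩
      rw [← hc]
      have h1 : (c • E₄ : ModularForm 𝒮ℒ 4) z = c * E₄ z := rfl
      have h2 : (ModularForm.mcast (by norm_num) (ModularForm.const c) :
          ModularForm 𝒮ℒ (((4 : ℕ) : ℤ) - 4)) z = c := rfl
      rw [h1, h2]
      simp
      ring
    · obtain ⟨c, hc⟩ : ∃ c : ℂ, c • E₆ = f :=
        (finrank_eq_one_iff_of_nonzero' E₆ (E_ne_zero _ ⟨3, rfl⟩)).mp
          (Module.rank_eq_one_iff_finrank_eq_one.mp levelOne_weight_six_rank_one) _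
      refine ⟨0, ModularForm.mcast (by norm_num) (ModularForm.const c), fun z => ?_⟩
      rw [← hc]
      have h1 : (c • E₆ : ModularForm 𝒮ℒ 6) z = c * E₆ z := rfl
      have h2 : (ModularForm.mcast (by norm_num) (ModularForm.const c) :
          ModularForm 𝒮ℒ (((6 : ℕ) : ℤ) - 6)) z = c := rfl
      rw [h1, h2]
      simp
      ring
  · exact levelOne_exists_E4_E6_decomp_nat w hge hev' f

end Fermat.Agent.S20


end ZBS20_004_0

/-! ### bundled: `Fermat.Agent.S20.LevelOnePoly` -/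
section ZBS20_004_1
/-
S20 package C-a (helper87): "`M_*(SL₂(ℤ)) = ℂ[E₄, E₆]`" in evaluation form.

* `levelOne_eval_scale`: if `E₄ z = t⁴ E₄ z0` and `E₆ z = t⁶ E₆ z0` then `r z = t^w r z0` for every
  level-one form `r` of weight `w`;
* `levelOne_eval_E6_zero`, `levelOne_eval_E4_zero`: values at the zeros of `E₆` resp. `E₄`.
-/

set_option autoImplicit false

open UpperHalfPlane ModularForm ModularFormClass MatrixGroups EisensteinSeries

namespace Fermat.Agent.S20

theorem ca_neg_weight_apply {w : ℤ} (hw : w < 0) (r : ModularForm 𝒮ℒ w) (z : ℍ) : r z = 0 := by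
  have h : (r : ℍ → ℂ) = 0 := levelOne_neg_weight_eq_zero hw r
  exact congrFun h z

theorem ca_E4_ne_zero_of_E6_eq_zero (z : ℍ) (h6 : E₆ z = 0) : E₄ z ≠ 0 := by
  intro h4
  have h := ModularForm.discriminant_eq_E₄_cube_sub_E₆_sq z
  rw [h4, h6] at h
  exact ModularForm.discriminant_ne_zero z (by rw [h]; norm_num)

theorem ca_E6_ne_zero_of_E4_eq_zero (z : ℍ) (h4 : E₄ z = 0) : E₆ z ≠ 0 := by
  intro h6
  have h := ModularForm.discriminant_eq_E₄_cube_sub_E₆_sq z
  rw [h4, h6] at h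
  exact ModularForm.discriminant_ne_zero z (by rw [h]; norm_num)

theorem ca_eval_scale_aux (z0 z : ℍ) (t : ℂ) (h4 : E₄ z = t ^ 4 * E₄ z0)
    (h6 : E₆ z = t ^ 6 * E₆ z0) :
    ∀ (n : ℕ) (w : ℤ), w.toNat = n → ∀ r : ModularForm 𝒮ℒ w, r z = t ^ n * r z0 := by
  intro n
  induction n using Nat.strong_induction_on with
  | _ n ih =>
    intro w hw r
    rcases lt_trichotomy w 0 with hneg | hzero | hpos
    · rw [ca_neg_weight_apply hneg r z, ca_neg_weight_apply hneg r z0, mul_zero]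
    · subst hzero
      obtain ⟨c, hc⟩ := levelOne_weight_zero_const r
      have hn : n = 0 := by simpa using hw.symm
      rw [hc, hn]
      simp
    · obtain ⟨a, b, hab⟩ := levelOne_exists_E4_E6_decomp hpos.ne' r
      have hA : E₄ z * a z = t ^ n * (E₄ z0 * a z0) := by
        rcases lt_or_ge w 4 with h | h
        · rw [ca_neg_weight_apply (by omega) a z, ca_neg_weight_apply (by omega) a z0]
          simp
        · have hn4 : (w - 4).toNat + 4 = n := by omega
          have ha := ih (w - 4).toNat (by omega) (w - 4) rfl a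
          rw [ha, h4, ← hn4, pow_add]
          ring
      have hB : E₆ z * b z = t ^ n * (E₆ z0 * b z0) := by
        rcases lt_or_ge w 6 with h | h
        · rw [ca_neg_weight_apply (by omega) b z, ca_neg_weight_apply (by omega) b z0]
          simp
        · have hn6 : (w - 6).toNat + 6 = n := by omega
          have hb := ih (w - 6).toNat (by omega) (w - 6) rfl b
          rw [hb, h6, ← hn6, pow_add]
          ring
      rw [hab z, hab z0, hA, hB]
      ring

/-- **C-a, scaling.** -/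
theorem levelOne_eval_scale (z0 z : ℍ) (t : ℂ) (h4 : E₄ z = t ^ 4 * E₄ z0)
    (h6 : E₆ z = t ^ 6 * E₆ z0) {w : ℤ} (r : ModularForm 𝒮ℒ w) : r z = t ^ w.toNat * r z0 :=
  ca_eval_scale_aux z0 z t h4 h6 w.toNat w rfl r

theorem ca_eval_E6_zero_aux :
    ∀ (n : ℕ) (w : ℤ), w.toNat = n → ∀ r : ModularForm 𝒮ℒ w,
      ∃ c : ℂ, ∀ z : ℍ, E₆ z = 0 → r z = if (4 : ℤ) ∣ w then c * E₄ z ^ (n / 4) else 0 := by
  intro n
  induction n using Nat.strong_induction_on with
  | _ n ih =>
    intro w hw r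
    rcases lt_trichotomy w 0 with hneg | hzero | hpos
    · refine ⟨0, fun z _ => ?_⟩
      rw [ca_neg_weight_apply hneg r z]
      simp
    · subst hzero
      obtain ⟨c, hc⟩ := levelOne_weight_zero_const r
      have hn : n = 0 := by simpa using hw.symm
      refine ⟨c, fun z _ => ?_⟩
      rw [hc, hn]
      simp
    · obtain ⟨a, b, hab⟩ := levelOne_exists_E4_E6_decomp hpos.ne' r
      rcases lt_or_ge w 4 with h | h
      · refine ⟨0, fun z hz => ?_⟩
        rw [hab z, hz, ca_neg_weight_apply (by omega) a z]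
        simp
      · obtain ⟨c, hc⟩ := ih (w - 4).toNat (by omega) (w - 4) rfl a
        refine ⟨c, fun z hz => ?_⟩
        have hdvd : (4 : ℤ) ∣ w - 4 ↔ (4 : ℤ) ∣ w := dvd_sub_self_right
        have hn4 : (w - 4).toNat / 4 + 1 = n / 4 := by omega
        rw [hab z, hz, hc z hz]
        by_cases hd : (4 : ℤ) ∣ w
        · rw [if_pos (hdvd.2 hd), if_pos hd, ← hn4, pow_succ]
          ring
        · rw [if_neg (fun h' => hd (hdvd.1 h')), if_neg hd]
          simp

/-- **C-a, zeros of `E₆`.** -/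
theorem levelOne_eval_E6_zero (z0 : ℍ) (h6 : E₆ z0 = 0) {w : ℤ} (r : ModularForm 𝒮ℒ w) :
    (¬ (4 : ℤ) ∣ w → r z0 = 0) ∧ ∀ z : ℍ, E₆ z = 0 → r z0 = 0 → r z = 0 := by
  obtain ⟨c, hc⟩ := ca_eval_E6_zero_aux w.toNat w rfl r
  refine ⟨fun hd => ?_, fun z hz hr => ?_⟩
  · rw [hc z0 h6, if_neg hd]
  · rw [hc z hz]
    by_cases hd : (4 : ℤ) ∣ w
    · rw [if_pos hd]
      rw [hc z0 h6, if_pos hd] at hr
      have hE : E₄ z0 ^ (w.toNat / 4) ≠ 0 := pow_ne_zero _ (ca_E4_ne_zero_of_E6_eq_zero z0 h6)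
      rcases mul_eq_zero.1 hr with h | h
      · rw [h, zero_mul]
      · exact absurd h hE
    · rw [if_neg hd]

theorem ca_eval_E4_zero_aux :
    ∀ (n : ℕ) (w : ℤ), w.toNat = n → ∀ r : ModularForm 𝒮ℒ w,
      ∃ c : ℂ, ∀ z : ℍ, E₄ z = 0 → r z = if (6 : ℤ) ∣ w then c * E₆ z ^ (n / 6) else 0 := by
  intro n
  induction n using Nat.strong_induction_on with
  | _ n ih =>
    intro w hw r
    rcases lt_trichotomy w 0 with hneg | hzero | hpos
    · refine ⟨0, fun z _ => ?_⟩
      rw [ca_neg_weight_apply hneg r z]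
      simp
    · subst hzero
      obtain ⟨c, hc⟩ := levelOne_weight_zero_const r
      have hn : n = 0 := by simpa using hw.symm
      refine ⟨c, fun z _ => ?_⟩
      rw [hc, hn]
      simp
    · obtain ⟨a, b, hab⟩ := levelOne_exists_E4_E6_decomp hpos.ne' r
      rcases lt_or_ge w 6 with h | h
      · refine ⟨0, fun z hz => ?_⟩
        rw [hab z, hz, ca_neg_weight_apply (by omega) b z]
        simp
      · obtain ⟨c, hc⟩ := ih (w - 6).toNat (by omega) (w - 6) rfl b
        refine ⟨c, fun z hz => ?_⟩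
        have hdvd : (6 : ℤ) ∣ w - 6 ↔ (6 : ℤ) ∣ w := dvd_sub_self_right
        have hn6 : (w - 6).toNat / 6 + 1 = n / 6 := by omega
        rw [hab z, hz, hc z hz]
        by_cases hd : (6 : ℤ) ∣ w
        · rw [if_pos (hdvd.2 hd), if_pos hd, ← hn6, pow_succ]
          ring
        · rw [if_neg (fun h' => hd (hdvd.1 h')), if_neg hd]
          simp

/-- **C-a, zeros of `E₄`.** -/
theorem levelOne_eval_E4_zero (z0 : ℍ) (h4 : E₄ z0 = 0) {w : ℤ} (r : ModularForm 𝒮ℒ w) :
    (¬ (6 : ℤ) ∣ w → r z0 = 0) ∧ ∀ z : ℍ, E₄ z = 0 → r z0 = 0 → r z = 0 := by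
  obtain ⟨c, hc⟩ := ca_eval_E4_zero_aux w.toNat w rfl r
  refine ⟨fun hd => ?_, fun z hz hr => ?_⟩
  · rw [hc z0 h4, if_neg hd]
  · rw [hc z hz]
    by_cases hd : (6 : ℤ) ∣ w
    · rw [if_pos hd]
      rw [hc z0 h4, if_pos hd] at hr
      have hE : E₆ z0 ^ (w.toNat / 6) ≠ 0 := pow_ne_zero _ (ca_E6_ne_zero_of_E4_eq_zero z0 h4)
      rcases mul_eq_zero.1 hr with h | h
      · rw [h, zero_mul]
      · exact absurd h hE
    · rw [if_neg hd]

end Fermat.Agent.S20


end ZBS20_004_1
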