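/- GENERATED FILE (helper35, build-time optimisation, NOTES/ZB.md): verbatim concatenation of the modules
   Fermat.Agent.S20.LevelOneInfty
   Fermat.Agent.S20.CuspCount
   Fermat.Agent.S20.CuspDescent
   Do not edit; do not import together with these modules. -/
import Mathlib
import Fermat.Agent.ZB.S20_004
import Fermat.Agent.ZB.S20_011
import Fermat.Agent.ZB.S20_005
import Fermat.Agent.ZB.S20_001

/-! ### bundled: `Fermat.Agent.S20.LevelOneInfty` -/
section ZBS20_008_0
/-
S20, package C (helper88): values at `i∞` of level-one forms; `levelOne_infty`;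
`E2 → 1` at `i∞`.
-/

set_option autoImplicit false

open UpperHalfPlane ModularForm ModularFormClass MatrixGroups EisensteinSeries Derivative Filter Topology
open scoped Manifold Real

namespace Fermat.Agent.S20

theorem tendsto_levelOne_atImInfty {k : ℤ} (f : ModularForm 𝒮ℒ k) :
    Tendsto f atImInfty (𝓝 ((qExpansion 1 f).coeff 0)) := by
  have hper := SlashInvariantFormClass.periodic_comp_ofComplex f one_mem_strictPeriods_SL
  have han : AnalyticAt ℂ (cuspFunction 1 f) 0 :=
    ModularFormClass.analyticAt_cuspFunction_zero f one_pos one_mem_strictPeriods_SL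
  have hcomp : (cuspFunction 1 f ∘ fun τ : ℍ ↦ Function.Periodic.qParam 1 τ : ℍ → ℂ) = f := by
    funext τ
    simpa using eq_cuspFunction τ one_ne_zero hper
  have := han.continuousAt.tendsto.comp (qParam_tendsto_atImInfty one_pos)
  rw [hcomp] at this
  simpa [qExpansion_coeff] using this

theorem tendsto_E_atImInfty {k : ℕ} (hk : 3 ≤ k) (hk2 : Even k) :
    Tendsto (E hk) atImInfty (𝓝 1) := by
  have := tendsto_levelOne_atImInfty (E hk)
  rwa [E_qExpansion_coeff_zero hk hk2] at this

theorem E2_vadd_one (z : ℍ) : E2 ((1 : ℝ) +ᵥ z) = E2 z := by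
  have h := congrFun (E2_slash_action ModularGroup.T) z
  rw [D2_T] at h
  simp only [smul_zero, sub_zero] at h
  rw [← h, SL_slash_apply, modular_T_smul]
  simp [denom, ModularGroup.T]

theorem periodic_E2 : Function.Periodic (E2 ∘ ofComplex) (1 : ℝ) := by
  intro w
  by_cases hw : 0 < Complex.im w
  · have hw1 : 0 < Complex.im (w + (1 : ℝ)) := by simpa using hw
    simp only [Function.comp_apply, ofComplex_apply_of_im_pos hw1, ofComplex_apply_of_im_pos hw]
    rw [← E2_vadd_one ⟨w, hw⟩]
    congr 1
    ext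
    simp [add_comm]
  · have hw' : Complex.im w ≤ 0 := not_lt.mp hw
    have hw1 : Complex.im (w + (1 : ℝ)) ≤ 0 := by simpa using hw'
    simp only [Function.comp_apply, ofComplex_apply_of_im_nonpos hw1,
      ofComplex_apply_of_im_nonpos hw']

theorem tendsto_E2_atImInfty : Tendsto E2 atImInfty (𝓝 1) := by
  have hper := periodic_E2
  have han : AnalyticAt ℂ (cuspFunction 1 E2) 0 :=
    analyticAt_cuspFunction_zero one_pos hper E2_mdifferentiable isBoundedAtImInfty_E2
  have hsum : ∀ τ : ℍ, HasSum (fun m : ℕ ↦ (if m = 0 then 1 else -24 * (ArithmeticFunction.sigma 1 m : ℂ) : ℂ) •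
      Function.Periodic.qParam 1 τ ^ m) (E2 τ) := fun τ => by
    simpa only [Function.Periodic.qParam, Complex.ofReal_one, div_one] using
      hasSum_qExpansion_E2 (z := τ)
  have hps := hasFPowerSeriesOnBall_cuspFunction one_pos han hsum
  have h0 : cuspFunction 1 E2 0 = 1 := by
    have := hps.hasFPowerSeriesAt.coeff_zero (fun _ => (1 : ℂ))
    simpa [FormalMultilinearSeries.ofScalars] using this.symm
  have hcomp : (cuspFunction 1 E2 ∘ fun τ : ℍ ↦ Function.Periodic.qParam 1 τ : ℍ → ℂ) = E2 := by
    funext τ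
    simpa using eq_cuspFunction τ one_ne_zero hper
  have := han.continuousAt.tendsto.comp (qParam_tendsto_atImInfty one_pos)
  rwa [hcomp, h0] at this

/-- **Package C, `levelOne_infty`.** -/
theorem levelOne_infty : ∀ w : ℤ, 4 ≤ w → Even w →
    ∃ r : ModularForm 𝒮ℒ w, Tendsto r atImInfty (𝓝 1) := by
  intro w hw hev
  lift w to ℕ using (by omega)
  have hw' : 3 ≤ w := by omega
  have hev' : Even w := by exact_mod_cast hev
  exact ⟨E hw', tendsto_E_atImInfty hw' hev'⟩

end Fermat.Agent.S20


end ZBS20_008_0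

/-! ### bundled: `Fermat.Agent.S20.CuspCount` -/
section ZBS20_008_1
/-
S20, package CUSP-4 (helper32 for helper20): for a frame which is good on `ℍ`, good at the cusps
and has bounded Cramer coefficients, in every even weight `l ≥ wt i + 4` the constant-term map
`M_l(Γ0(N)) → (Q N → ℂ)` has image the `shift`-invariant functions and kernel the cusp forms, so
`dim M_l = dim S_l + numCusps N`.
-/

set_option autoImplicit false
set_option linter.unusedSectionVars false

open Complex Filter Function Asymptotics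
open UpperHalfPlane hiding I
open CongruenceSubgroup ModularForm
open scoped Real Topology Manifold MatrixGroups

namespace Fermat.Agent.S20

variable {N : ℕ} [NeZero N]

/-- The constant-term map `F ↦ (jetR 0 F q)_q`. -/
noncomputable def cuspc_c0 (N : ℕ) [NeZero N] (l : ℤ) :
    ModularForm (G0 N) l →ₗ[ℂ] (Q N → ℂ) where
  toFun F q := jetR 0 F q
  map_add' F G := funext fun q => jetR_add (Nat.pos_of_ne_zero (NeZero.ne N)) F G q
  map_smul' c F := funext fun q => jetR_smul (Nat.pos_of_ne_zero (NeZero.ne N)) c F q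

lemma cuspc_c0_apply (l : ℤ) (F : ModularForm (G0 N) l) (q : Q N) :
    cuspc_c0 N l F q = jetR 0 F q := rfl

/-- The inclusion of cusp forms into modular forms, as a linear map. -/
noncomputable def cuspc_incl (N : ℕ) [NeZero N] (l : ℤ) :
    CuspForm (G0 N) l →ₗ[ℂ] ModularForm (G0 N) l where
  toFun f := ofCusp f
  map_add' f g := by ext z; rfl
  map_smul' c f := by ext z; rfl

lemma cuspc_incl_injective (l : ℤ) : Function.Injective (cuspc_incl N l) := by
  intro f g h
  ext z
  have := congrArg (fun F : ModularForm (G0 N) l => F z) h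
  exact this

/-- The kernel of the constant-term map is the space of cusp forms. -/
lemma cuspc_range_incl (l : ℤ) :
    LinearMap.range (cuspc_incl N l) = LinearMap.ker (cuspc_c0 N l) := by
  ext F
  rw [LinearMap.mem_range, LinearMap.mem_ker]
  constructor
  · rintro ⟨f, rfl⟩
    funext q
    rw [cuspc_c0_apply]
    exact tendsto_nhds_unique (tendsto_cj (ofCusp f) q) (cj_ofCusp_zero f q)
  · intro hF
    have h0 : ∀ q, IsZeroAtImInfty (cj F q) := by
      intro q
      have h1 := tendsto_cj F q
      have h2 : jetR 0 F q = 0 := congrFun hF q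
      rw [h2] at h1
      exact h1
    refine ⟨toCusp F h0, ?_⟩
    ext z
    rfl

/-- The image of the constant-term map consists of `shift`-invariant functions. -/
lemma cuspc_range_le (l : ℤ) : LinearMap.range (cuspc_c0 N l) ≤ shiftInvariants N := by
  rintro _ ⟨F, rfl⟩
  rw [mem_shiftInvariants]
  intro q
  rw [cuspc_c0_apply, cuspc_c0_apply, jetR_shift (Nat.pos_of_ne_zero (NeZero.ne N)), pow_zero,
    one_mul]

/-- Every `shift`-invariant function is a constant term, for a cusp-good frame. -/
lemma cuspc_le_range (Φ : Frame N) (hH : Φ.GoodOnH) (hC : Φ.CuspGood)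
    (l : ℤ) (hl : ∀ i, Φ.wt i + 4 ≤ l) (hev : Even l) :
    shiftInvariants N ≤ LinearMap.range (cuspc_c0 N l) := by
  intro v hv
  rw [mem_shiftInvariants] at hv
  have hN : 0 < N := Nat.pos_of_ne_zero (NeZero.ne N)
  have hnd : Φ.Nondeg := ⟨UpperHalfPlane.I, hH _⟩
  -- the level-one forms `a i → 1`
  have ha : ∀ i, ∃ a : ModularForm 𝒮ℒ (l - Φ.wt i), Tendsto a atImInfty (𝓝 1) := by
    intro i
    apply levelOne_infty
    · have := hl i
      omega
    · exact hev.sub (Φ.wt_even hnd i)
  choose a ha using ha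
  -- the coefficients
  have hunit : IsUnit Φ.Binf.det := isUnit_iff_ne_zero.mpr hC
  set α : Q N → ℂ := Matrix.vecMul v Φ.Binf⁻¹ with hα
  have hαv : ∀ q, ∑ i, α i * jet (Φ.f i) q = v q := by
    intro q
    have h1 : Matrix.vecMul α Φ.Binf = v := by
      rw [hα, Matrix.vecMul_vecMul, Matrix.nonsing_inv_mul _ hunit, Matrix.vecMul_one]
    have h2 := congrFun h1 q
    rw [← h2]
    simp [Matrix.vecMul, dotProduct, Frame.Binf]
  -- eigen-separation
  set V : ℕ → Q N → ℂ := fun r q =>
    ∑ i, α i * jetR r (Φ.f i) q - (if r = 0 then v q else 0) with hV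
  have hVshift : ∀ r < N, ∀ q, V r (shift N q) = zetaN N ^ r * V r q := by
    intro r hr q
    simp only [hV]
    have h1 : ∑ i, α i * jetR r (Φ.f i) (shift N q)
        = zetaN N ^ r * ∑ i, α i * jetR r (Φ.f i) q := by
      rw [Finset.mul_sum]
      refine Finset.sum_congr rfl fun i _ => ?_
      rw [jetR_shift hr]
      ring
    rw [h1, mul_sub]
    congr 1
    split_ifs with h
    · subst h
      rw [hv q, pow_zero, one_mul]
    · rw [mul_zero]
  have hVsum : ∀ q, ∑ r ∈ Finset.range N, V r q = 0 := by
    intro q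
    simp only [hV]
    rw [Finset.sum_sub_distrib, Finset.sum_comm]
    have h1 : ∑ i, ∑ r ∈ Finset.range N, α i * jetR r (Φ.f i) q = v q := by
      rw [← hαv q]
      refine Finset.sum_congr rfl fun i _ => ?_
      rw [jet, Finset.mul_sum]
    have h2 : ∑ r ∈ Finset.range N, (if r = 0 then v q else 0) = v q := by
      rw [Finset.sum_ite_eq' (Finset.range N) 0 (fun _ => v q)]
      simp [hN]
    rw [h1, h2, sub_self]
  have hsep := eigen_separation N (zetaN N) (zetaN_isPrimitiveRoot N) V hVshift hVsum 0 hN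
  have hv0 : ∀ q, v q = ∑ i, α i * jetR 0 (Φ.f i) q := by
    intro q
    have := hsep q
    simp only [hV, if_true] at this
    exact (sub_eq_zero.mp this).symm
  -- the form
  refine ⟨Φ.ofCoef (fun i => α i • a i), ?_⟩
  funext q
  rw [cuspc_c0_apply, hv0 q, Frame.ofCoef, jetR_sum hN]
  refine Finset.sum_congr rfl fun i _ => ?_
  rw [jetR_mcast]
  apply jetR_res_mul hN
  have h1 : Tendsto (fun z => α i * a i z) atImInfty (𝓝 (α i * 1)) := (ha i).const_mul _
  rw [mul_one] at h1
  exact h1

/-- **S20 package CUSP-4.** -/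
theorem cusp_count (Φ : Frame N) (hH : Φ.GoodOnH) (hC : Φ.CuspGood)
    (hB : ∀ {l : ℤ} (F : ModularForm (G0 N) l) (i : Q N),
      IsBoundedAtImInfty (fun z => ∑ q, cj F q z * (Φ.A z)⁻¹ q i))
    (l : ℤ) (hl : ∀ i, Φ.wt i + 4 ≤ l) (hev : Even l) :
    Module.finrank ℂ (ModularForm (G0 N) l)
      = Module.finrank ℂ (CuspForm (G0 N) l) + numCusps N := by
  have : Module.Finite ℂ (ModularForm (G0 N) l) :=
    Module.Finite.equiv (Φ.coefEquiv hH (fun F i => hB F i) l).symm
  have h1 := LinearMap.finrank_range_add_finrank_ker (cuspc_c0 N l)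
  have h2 : LinearMap.range (cuspc_c0 N l) = shiftInvariants N :=
    le_antisymm (cuspc_range_le l) (cuspc_le_range Φ hH hC l hl hev)
  have h3 : Module.finrank ℂ (LinearMap.ker (cuspc_c0 N l))
      = Module.finrank ℂ (CuspForm (G0 N) l) := by
    rw [← cuspc_range_incl l]
    exact LinearMap.finrank_range_of_inj (cuspc_incl_injective l)
  rw [h2, finrank_shift_invariants, h3] at h1
  omega

end Fermat.Agent.S20


end ZBS20_008_1

/-! ### bundled: `Fermat.Agent.S20.CuspDescent` -/
section ZBS20_008_2
/-
S20, package CUSP-1 (helper83): descent at the cusps.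
A nondegenerate frame whose limit matrix `Binf` is singular can be replaced by a nondegenerate
frame of smaller total weight.
-/

set_option autoImplicit false
set_option linter.unusedSectionVars false

open Complex Filter Function Asymptotics
open UpperHalfPlane hiding I
open CongruenceSubgroup ModularForm
open scoped Real Topology Manifold MatrixGroups

namespace Fermat.Agent.S20

variable {N : ℕ} [NeZero N]

/-- The discriminant as a level-one modular form of weight 12. -/
noncomputable def cusp83_discMF : ModularForm 𝒮ℒ 12 where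
  toFun := ModularForm.discriminant
  slash_action_eq' := CuspForm.discriminant.slash_action_eq'
  holo' := CuspForm.discriminant.holo'
  bdd_at_cusps' := fun hc g hg => (CuspForm.discriminant.zero_at_cusps' hc g hg).boundedAtFilter

lemma cusp83_discMF_apply (z : ℍ) : cusp83_discMF z = ModularForm.discriminant z := rfl

/-- The level-one multipliers used in the descent. -/
lemma cusp83_exists_mult (Φ : Frame N) (hΦ : Φ.Nondeg) (c : Q N → ℂ) (K : ℤ)
    (hK : ∀ i, c i ≠ 0 → Φ.wt i + 4 ≤ K) (hKev : Even K) (i : Q N) :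
    ∃ a : ModularForm 𝒮ℒ (K - Φ.wt i), ∃ L : ℂ, Tendsto (⇑a) atImInfty (𝓝 L) ∧ c i * L = c i ∧
      (c i ≠ 0 → ∃ z, a z ≠ 0) := by
  by_cases hci : c i = 0
  · refine ⟨0, 0, ?_, by simp [hci], fun h => absurd hci h⟩
    have h0 : (⇑(0 : ModularForm 𝒮ℒ (K - Φ.wt i)) : ℍ → ℂ) = fun _ => 0 := rfl
    rw [h0]
    exact tendsto_const_nhds
  · have h4 : 4 ≤ K - Φ.wt i := by have := hK i hci; omega
    have hev : Even (K - Φ.wt i) := hKev.sub (Φ.wt_even hΦ i)
    obtain ⟨a, ha⟩ := levelOne_infty (K - Φ.wt i) h4 hev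
    refine ⟨a, 1, ha, mul_one _, fun _ => ?_⟩
    by_contra hne
    push Not at hne
    have h0 : Tendsto (⇑a) atImInfty (𝓝 0) := by
      have : (⇑a : ℍ → ℂ) = fun _ => 0 := funext hne
      rw [this]
      exact tendsto_const_nhds
    exact one_ne_zero (tendsto_nhds_unique ha h0)

/-- **CUSP-1.** Descent at the cusps. -/
theorem cusp_descent (Φ : Frame N) (hΦ : Φ.Nondeg) (hbad : ¬ Φ.CuspGood) :
    ∃ Φ' : Frame N, Φ'.Nondeg ∧ Φ'.totalWt < Φ.totalWt := by
  classical
  have hN : 0 < N := Nat.pos_of_ne_zero (NeZero.ne N)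
  have hdet : Φ.Binf.det = 0 := by
    by_contra h
    exact hbad h
  obtain ⟨c, hc0, hc⟩ := Matrix.exists_vecMul_eq_zero_iff.mpr hdet
  have hcq : ∀ q, ∑ i, c i * jet (Φ.f i) q = 0 := by
    intro q
    have := congrFun hc q
    simpa [Matrix.vecMul, dotProduct, Frame.Binf] using this
  -- the eigen-components vanish
  have hv : ∀ r < N, ∀ q, ∑ i, c i * jetR r (Φ.f i) q = 0 := by
    refine eigen_separation N (zetaN N) (zetaN_isPrimitiveRoot N)
      (fun r q => ∑ i, c i * jetR r (Φ.f i) q) ?_ ?_
    · intro r hr q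
      rw [Finset.mul_sum]
      refine Finset.sum_congr rfl fun i _ => ?_
      rw [jetR_shift hr]
      ring
    · intro q
      rw [Finset.sum_comm]
      rw [← hcq q]
      refine Finset.sum_congr rfl fun i _ => ?_
      rw [jet, Finset.mul_sum]
  -- the index of maximal weight among `c i ≠ 0`
  have hne : (Finset.univ.filter fun i => c i ≠ 0).Nonempty := by
    by_contra h
    rw [Finset.not_nonempty_iff_eq_empty] at h
    apply hc0
    funext i
    show c i = 0
    by_contra hi
    have : i ∈ (Finset.univ.filter fun i => c i ≠ 0) := by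
      rw [Finset.mem_filter]
      exact ⟨Finset.mem_univ _, hi⟩
    rw [h] at this
    simp at this
  obtain ⟨i0, hi0, hmax⟩ := Finset.exists_max_image _ Φ.wt hne
  have hci0 : c i0 ≠ 0 := by simpa using hi0
  have hmax' : ∀ i, c i ≠ 0 → Φ.wt i ≤ Φ.wt i0 := fun i hi => hmax i (by simp [hi])
  set K : ℤ := Φ.wt i0 + 4 with hK
  have hKev : Even K := (Φ.wt_even hΦ i0).add ⟨2, by norm_num⟩
  have hKle : ∀ i, c i ≠ 0 → Φ.wt i + 4 ≤ K := fun i hi => by have := hmax' i hi; omega
  choose a L haL hcL hane using cusp83_exists_mult Φ hΦ c K hKle hKev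
  -- the combination
  set h : ModularForm (G0 N) K :=
    ∑ i, c i • ModularForm.mcast (show (K - Φ.wt i) + Φ.wt i = K by ring)
      ((res N (a i)).mul (Φ.f i)) with hh
  have hjet : ∀ r < N, ∀ q, jetR r h q = 0 := by
    intro r hr q
    rw [hh, jetR_sum hr, ← hv r hr q]
    refine Finset.sum_congr rfl fun i _ => ?_
    rw [jetR_smul hr, jetR_mcast, jetR_res_mul hr (a i) (haL i), ← mul_assoc, hcL]
  obtain ⟨h', hh'⟩ := div_disc h fun q => isBigO_exp_of_jetR_eq_zero h q fun r hr => hjet r hr q
  have hval : ∀ z, h z = ∑ i, c i * a i z * Φ.f i z := by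
    intro z
    have h2 : ∀ (s : Finset (Q N)),
        (∑ i ∈ s, c i • ModularForm.mcast (show (K - Φ.wt i) + Φ.wt i = K by ring)
          ((res N (a i)).mul (Φ.f i)) : ModularForm (G0 N) K) z
        = ∑ i ∈ s, c i * a i z * Φ.f i z := by
      intro s
      induction s using Finset.induction_on with
      | empty => simp
      | insert j s hj ih =>
        rw [Finset.sum_insert hj, Finset.sum_insert hj, add_apply, ih]
        congr 1
        show c j * (a j z * Φ.f j z) = c j * a j z * Φ.f j z
        ring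
    rw [hh, h2]
  refine Φ.replace_nondeg_levelOne hΦ i0 (K := K) (d := 12) c a cusp83_discMF h' ?_ hci0
    (hane i0 hci0) (by omega)
  intro z
  rw [cusp83_discMF_apply, ← hh' z, hval z]

end Fermat.Agent.S20


end ZBS20_008_2
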