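/- GENERATED FILE (helper35, build-time optimisation, NOTES/ZB.md): verbatim concatenation of the modules
   Fermat.Agent.S20.PrimitiveElement
   Fermat.Agent.S20.PrimitiveQ
   Fermat.Agent.S20.ExistsNondeg
   Do not edit; do not import together with these modules. -/
import Mathlib
import Fermat.Agent.ZB.S20_008
import Fermat.Agent.ZB.S20_005

/-! ### bundled: `Fermat.Agent.S20.PrimitiveElement` -/
section ZBS20_006_0

set_option autoImplicit false

open scoped MatrixGroups ModularForm Topology Manifold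
open UpperHalfPlane EisensteinSeries CongruenceSubgroup Filter ModularForm

noncomputable section

namespace Fermat.Agent.S20

/-- The point `i (|t| + 1)` of the upper half plane. -/
def pePt (t : ℝ) : ℍ := ⟨⟨0, |t| + 1⟩, by positivity⟩

lemma pePt_im (t : ℝ) : (pePt t).im = |t| + 1 := rfl

lemma pePt_re (t : ℝ) : (pePt t).re = 0 := rfl

lemma pePt_mem_verticalStrip (t : ℝ) : pePt t ∈ verticalStrip 0 1 := by
  refine ⟨?_, ?_⟩
  · simp [pePt_re]
  · rw [pePt_im]; linarith [abs_nonneg t]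

lemma pePt_tendsto_im : Tendsto (fun t : ℝ => (pePt t).im) atTop atTop := by
  simp only [pePt_im]
  exact tendsto_atTop_add_const_right _ _ (tendsto_abs_atTop_atTop)

/-- limit of a single Eisenstein summand along the imaginary axis. -/
lemma pe_tendsto_eisSummand (k : ℤ) (hk : 0 < k) (v : Fin 2 → ℤ) :
    Tendsto (fun t : ℝ => eisSummand k v (pePt t)) atTop
      (𝓝 (if v 0 = 0 then ((v 1 : ℂ)) ^ (-k) else 0)) := by
  by_cases hv : v 0 = 0
  · simp only [eisSummand, hv, if_true, Int.cast_zero, zero_mul, zero_add]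
    exact tendsto_const_nhds
  · simp only [hv, if_false]
    rw [tendsto_zero_iff_norm_tendsto_zero]
    simp only [eisSummand, norm_zpow]
    have h1 : Tendsto (fun t : ℝ => ‖(v 0 : ℂ) * ((pePt t : ℍ) : ℂ) + (v 1 : ℂ)‖) atTop atTop := by
      have h2 : ∀ t : ℝ, |(v 0 : ℝ)| * (pePt t).im ≤ ‖(v 0 : ℂ) * ((pePt t : ℍ) : ℂ) + (v 1 : ℂ)‖ := by
        intro t
        have h3 := Complex.abs_im_le_norm ((v 0 : ℂ) * ((pePt t : ℍ) : ℂ) + (v 1 : ℂ))
        have h4 : ((v 0 : ℂ) * ((pePt t : ℍ) : ℂ) + (v 1 : ℂ)).im = (v 0 : ℝ) * (pePt t).im := by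
          simp [UpperHalfPlane.coe_im]
        rw [h4, abs_mul, abs_of_pos (pePt t).im_pos] at h3
        exact h3
      refine tendsto_atTop_mono h2 ?_
      have h5 : 0 < |(v 0 : ℝ)| := abs_pos.mpr (by exact_mod_cast hv)
      exact Tendsto.const_mul_atTop h5 pePt_tendsto_im
    exact (tendsto_zpow_atTop_zero (by omega : -k < 0)).comp h1


/-- The limit function of the Eisenstein summands. -/
def peLim (k : ℤ) (v : Fin 2 → ℤ) : ℂ := if v 0 = 0 then ((v 1 : ℂ)) ^ (-k) else 0

/-- Tannery: limit of the Eisenstein series of level `N` along the imaginary axis. -/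
lemma pe_tendsto_eisensteinSeries {N : ℕ} (a : Fin 2 → ZMod N) {k : ℤ} (hk : 3 ≤ k) :
    Tendsto (fun t : ℝ => eisensteinSeries a k (pePt t)) atTop
      (𝓝 (∑' v : gammaSet N 1 a, peLim k v)) := by
  unfold eisensteinSeries
  have hk' : (2 : ℝ) < k := by exact_mod_cast (by omega : (2 : ℤ) < k)
  have hsum : Summable fun v : gammaSet N 1 a =>
      r ⟨⟨0, 1⟩, one_pos⟩ ^ (-(k : ℝ)) * ‖(v : Fin 2 → ℤ)‖ ^ (-(k : ℝ)) :=
    ((summable_one_div_norm_rpow hk').mul_left _).subtype _
  refine tendsto_tsum_of_dominated_convergence hsum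
    (fun v => pe_tendsto_eisSummand k (by omega) v) ?_
  refine Eventually.of_forall fun t v => ?_
  simp only [eisSummand, norm_zpow]
  have := summand_bound_of_mem_verticalStrip (k := (k : ℝ)) (by positivity) (v : Fin 2 → ℤ)
    one_pos (pePt_mem_verticalStrip t)
  rw [← Real.rpow_intCast]
  push_cast
  exact this


lemma pe_tsum_peLim_eq_zero {N : ℕ} (a : Fin 2 → ZMod N) (k : ℤ) (ha : a 0 ≠ 0) :
    (∑' v : gammaSet N 1 a, peLim k v) = 0 := by
  have : ∀ v : gammaSet N 1 a, peLim k v = 0 := by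
    rintro ⟨v, hv⟩
    have h0 : v 0 ≠ 0 := by
      intro h
      apply ha
      have := congrFun hv.1 0
      simp only [Function.comp_apply] at this
      rw [← this, h, Int.cast_zero]
    simp [peLim, h0]
  simp [this]

lemma pe_tsum_peLim_eq {N : ℕ} (u : (ZMod N)ˣ) {k : ℤ} (hk : Even k) :
    (∑' v : gammaSet N 1 ![0, (u : ZMod N)], peLim k v) =
      (if u = 1 then 1 else 0) + (if u = -1 then 1 else 0) := by
  classical
  rw [tsum_subtype (gammaSet N 1 ![0, (u : ZMod N)]) (peLim k)]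
  have hsupp : ∀ v : Fin 2 → ℤ, v ∉ ({![0, 1], ![0, -1]} : Finset (Fin 2 → ℤ)) →
      (gammaSet N 1 ![0, (u : ZMod N)]).indicator (peLim k) v = 0 := by
    intro v hv
    by_cases hmem : v ∈ gammaSet N 1 ![0, (u : ZMod N)]
    · rw [Set.indicator_of_mem hmem]
      by_cases h0 : v 0 = 0
      · exfalso
        apply hv
        have hg := hmem.2
        rw [h0, Int.gcd_zero_left] at hg
        have h1 : v 1 = 1 ∨ v 1 = -1 := by
          have : (v 1).natAbs = 1 := hg
          exact Int.natAbs_eq_natAbs_iff.mp (by simpa using this)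
        rcases h1 with h1 | h1
        · have : v = ![0, 1] := by
            ext i; fin_cases i <;> simp [h0, h1]
          simp [this]
        · have : v = ![0, -1] := by
            ext i; fin_cases i <;> simp [h0, h1]
          simp [this]
      · simp [peLim, h0]
    · exact Set.indicator_of_notMem hmem _
  rw [tsum_eq_sum hsupp]
  have hne : (![0, 1] : Fin 2 → ℤ) ≠ ![0, -1] := by
    intro h
    have := congrFun h 1
    simp at this
  rw [Finset.sum_pair hne]
  have hmem1 : (![0, 1] : Fin 2 → ℤ) ∈ gammaSet N 1 ![0, (u : ZMod N)] ↔ u = 1 := by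
    constructor
    · intro h
      have := congrFun h.1 1
      simp only [Function.comp_apply, Matrix.cons_val_one, Matrix.cons_val_zero, Int.cast_one] at this
      exact Units.ext this.symm
    · rintro rfl
      refine ⟨?_, by simp⟩
      ext i; fin_cases i <;> simp
  have hmem2 : (![0, -1] : Fin 2 → ℤ) ∈ gammaSet N 1 ![0, (u : ZMod N)] ↔ u = -1 := by
    constructor
    · intro h
      have := congrFun h.1 1
      simp only [Function.comp_apply, Matrix.cons_val_one, Matrix.cons_val_zero, Int.cast_neg,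
        Int.cast_one] at this
      exact Units.ext (by simpa using this.symm)
    · rintro rfl
      refine ⟨?_, by simp⟩
      ext i; fin_cases i <;> simp
  have hpow : ((-1 : ℂ)) ^ (-k) = 1 := by
    rw [zpow_neg, hk.neg_one_zpow, inv_one]
  congr 1
  · by_cases h : u = 1
    · rw [Set.indicator_of_mem (hmem1.mpr h), if_pos h]
      simp [peLim]
    · rw [Set.indicator_of_notMem (fun hh => h (hmem1.mp hh)), if_neg h]
  · by_cases h : u = -1
    · rw [Set.indicator_of_mem (hmem2.mpr h), if_pos h]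
      simp [peLim, hpow]
    · rw [Set.indicator_of_notMem (fun hh => h (hmem2.mp hh)), if_neg h]


open Matrix in
lemma pe_vecMul (N : ℕ) (a b : ZMod N) (M : Matrix (Fin 2) (Fin 2) (ZMod N)) :
    ![a, b] ᵥ* M = ![a * M 0 0 + b * M 1 0, a * M 0 1 + b * M 1 1] := by
  ext i; fin_cases i <;> simp [Matrix.vecMul, dotProduct, Fin.sum_univ_two]

/-- The underlying function of the primitive element: the sum of the Eisenstein series of level
`N` with congruence condition `(0, u)`, `u` a unit mod `N`. -/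
def peFun (N : ℕ) [NeZero N] (k : ℤ) : ℍ → ℂ :=
  ∑ u : (ZMod N)ˣ, (eisensteinSeries ![0, (u : ZMod N)] k : ℍ → ℂ)

lemma peFun_apply (N : ℕ) [NeZero N] (k : ℤ) (z : ℍ) :
    peFun N k z = ∑ u : (ZMod N)ˣ, eisensteinSeries ![0, (u : ZMod N)] k z := by
  simp [peFun, Finset.sum_apply]

lemma peFun_slash (N : ℕ) [NeZero N] (k : ℤ) (γ : SL(2, ℤ)) :
    peFun N k ∣[k] γ = ∑ u : (ZMod N)ˣ,
      (eisensteinSeries ![(u : ZMod N) * ((γ 1 0 : ℤ) : ZMod N),
        (u : ZMod N) * ((γ 1 1 : ℤ) : ZMod N)] k : ℍ → ℂ) := by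
  rw [peFun, SlashAction.sum_slash]
  refine Finset.sum_congr rfl fun u _ => ?_
  rw [eisensteinSeries_slash_apply, pe_vecMul]
  simp


lemma pe_tendsto_peFun (N : ℕ) [NeZero N] {k : ℤ} (hk : 3 ≤ k) (hk2 : Even k) :
    Tendsto (fun t : ℝ => peFun N k (pePt t)) atTop (𝓝 2) := by
  have h1 : Tendsto (fun t : ℝ => peFun N k (pePt t)) atTop
      (𝓝 (∑ u : (ZMod N)ˣ, ((if u = 1 then (1 : ℂ) else 0) + (if u = -1 then 1 else 0)))) := by
    simp only [peFun_apply]
    refine tendsto_finsetSum _ fun u _ => ?_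
    rw [← pe_tsum_peLim_eq u hk2]
    exact pe_tendsto_eisensteinSeries _ hk
  have h2 : (∑ u : (ZMod N)ˣ, ((if u = 1 then (1 : ℂ) else 0) + (if u = -1 then 1 else 0))) = 2 := by
    rw [Finset.sum_add_distrib, Finset.sum_ite_eq', Finset.sum_ite_eq']
    simp
    norm_num
  rwa [h2] at h1

lemma pe_tendsto_peFun_slash (N : ℕ) [NeZero N] {k : ℤ} (hk : 3 ≤ k) (γ : SL(2, ℤ))
    (hγ : γ ∉ Gamma0 N) :
    Tendsto (fun t : ℝ => (peFun N k ∣[k] γ) (pePt t)) atTop (𝓝 0) := by
  rw [peFun_slash]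
  have hc : ((γ 1 0 : ℤ) : ZMod N) ≠ 0 := fun h => hγ (Gamma0_mem.mpr h)
  have h1 : Tendsto (fun t : ℝ => ∑ u : (ZMod N)ˣ,
      eisensteinSeries ![(u : ZMod N) * ((γ 1 0 : ℤ) : ZMod N),
        (u : ZMod N) * ((γ 1 1 : ℤ) : ZMod N)] k (pePt t)) atTop
      (𝓝 (∑ _u : (ZMod N)ˣ, (0 : ℂ))) := by
    refine tendsto_finsetSum _ fun u _ => ?_
    have hne : (![(u : ZMod N) * ((γ 1 0 : ℤ) : ZMod N),
        (u : ZMod N) * ((γ 1 1 : ℤ) : ZMod N)] : Fin 2 → ZMod N) 0 ≠ 0 := by
      simp only [Matrix.cons_val_zero]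
      exact fun h => hc (by simpa using h)
    rw [← pe_tsum_peLim_eq_zero _ k hne]
    exact pe_tendsto_eisensteinSeries _ hk
  simpa [Finset.sum_apply] using h1

/-- The primitive element as a modular form on `Γ₀(N)`. -/
def peForm (N : ℕ) [NeZero N] {k : ℤ} (hk : 3 ≤ k) : ModularForm (Gamma0 N) k where
  toFun := peFun N k
  slash_action_eq' := by
    intro g hg
    obtain ⟨γ, hγ, rfl⟩ := Subgroup.mem_map.mp hg
    show peFun N k ∣[k] γ = peFun N k
    rw [peFun_slash]
    have hc : ((γ 1 0 : ℤ) : ZMod N) = 0 := Gamma0_mem.mp hγ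
    have hdet : ((γ 0 0 : ℤ) : ZMod N) * ((γ 1 1 : ℤ) : ZMod N) = 1 := by
      have := γ.det_coe
      rw [Matrix.det_fin_two] at this
      have h2 := congrArg (Int.cast : ℤ → ZMod N) this
      push_cast at h2
      rw [hc, mul_zero, sub_zero] at h2
      exact h2
    let d : (ZMod N)ˣ := ⟨((γ 1 1 : ℤ) : ZMod N), ((γ 0 0 : ℤ) : ZMod N),
      by rw [mul_comm]; exact hdet, hdet⟩
    rw [peFun]
    refine Fintype.sum_equiv (Equiv.mulRight d) _ _ fun u => ?_
    simp only [hc, mul_zero, Equiv.coe_mulRight, Units.val_mul]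
    rfl
  holo' := by
    show MDiff (peFun N k)
    rw [peFun]
    exact MDifferentiable.sum fun u _ => eisensteinSeriesSIF_mdifferentiable hk _
  bdd_at_cusps' {c} hc := by
    rw [Subgroup.IsArithmetic.isCusp_iff_isCusp_SL2Z] at hc
    rw [OnePoint.isBoundedAt_iff_forall_SL2Z hc]
    intro γ _
    show IsBoundedAtImInfty (peFun N k ∣[k] γ)
    rw [peFun, SlashAction.sum_slash, IsBoundedAtImInfty, Filter.BoundedAtFilter, Finset.sum_fn]
    exact .fun_sum fun u _ => isBoundedAtImInfty_eisensteinSeriesSIF _ hk γ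


@[simp] lemma coe_peForm (N : ℕ) [NeZero N] {k : ℤ} (hk : 3 ≤ k) :
    (⇑(peForm N hk) : ℍ → ℂ) = peFun N k := rfl

/-- The primitive element is not fixed by any `γ ∈ SL(2, ℤ)` outside `Γ₀(N)`. -/
theorem peForm_slash_ne (N : ℕ) [NeZero N] {k : ℤ} (hk : 3 ≤ k) (hk2 : Even k) (γ : SL(2, ℤ))
    (hγ : γ ∉ Gamma0 N) : (⇑(peForm N hk) : ℍ → ℂ) ∣[k] γ ≠ ⇑(peForm N hk) := by
  intro h
  rw [coe_peForm] at h
  have h0 := pe_tendsto_peFun_slash N hk γ hγ
  rw [h] at h0
  have h2 := pe_tendsto_peFun N hk hk2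
  have := tendsto_nhds_unique h0 h2
  norm_num at this

/-- **S20 package D** (primitive element): there is a modular form on `Γ₀(N)` (of weight `4`)
which is not fixed by any element of `SL(2, ℤ)` outside `Γ₀(N)`. -/
theorem exists_primitive_element (N : ℕ) [NeZero N] :
    ∃ (k : ℤ) (F : ModularForm (Gamma0 N) k), 0 < k ∧
      ∀ γ : SL(2, ℤ), γ ∉ Gamma0 N → (⇑F : ℍ → ℂ) ∣[k] γ ≠ ⇑F :=
  ⟨4, peForm N (by norm_num), by norm_num,
    fun γ hγ => peForm_slash_ne N (by norm_num) (by decide) γ hγ⟩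

/-- Version with explicit weight `4`, including the limits along the imaginary axis. -/
theorem primitive_element_four (N : ℕ) [NeZero N] :
    ∃ F : ModularForm (Gamma0 N) 4,
      Tendsto (fun t : ℝ => F (pePt t)) atTop (𝓝 2) ∧
      (∀ γ : SL(2, ℤ), γ ∉ Gamma0 N →
        Tendsto (fun t : ℝ => ((⇑F : ℍ → ℂ) ∣[(4 : ℤ)] γ) (pePt t)) atTop (𝓝 0)) ∧
      ∀ γ : SL(2, ℤ), γ ∉ Gamma0 N → (⇑F : ℍ → ℂ) ∣[(4 : ℤ)] γ ≠ ⇑F :=
  ⟨peForm N (by norm_num), pe_tendsto_peFun N (by norm_num) (by decide),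
    fun γ hγ => pe_tendsto_peFun_slash N (by norm_num) γ hγ,
    fun γ hγ => peForm_slash_ne N (by norm_num) (by decide) γ hγ⟩

end Fermat.Agent.S20

end
end ZBS20_006_0

/-! ### bundled: `Fermat.Agent.S20.PrimitiveQ` -/
section ZBS20_006_1

set_option autoImplicit false

open scoped MatrixGroups ModularForm Topology Manifold
open UpperHalfPlane EisensteinSeries CongruenceSubgroup Filter ModularForm

noncomputable section

namespace Fermat.Agent.S20

/-- The conjugate `cj F ⟦h⟧` for `h = mapGL ℝ g`, `g : SL(2, ℤ)`, is `F ∣[k] g⁻¹`. -/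
lemma cj_mk_mapGL {N : ℕ} {k : ℤ} (F : ModularForm (G0 N) k) (g : SL(2, ℤ)) :
    cj F (QuotientGroup.mk (⟨Matrix.SpecialLinearGroup.mapGL ℝ g, ⟨g, rfl⟩⟩ : 𝒮ℒ)) =
      (⇑F : ℍ → ℂ) ∣[k] g⁻¹ := by
  show SlashInvariantForm.quotientFunc F _ = _
  erw [SlashInvariantForm.quotientFunc_mk]
  rw [← map_inv]
  rfl

/-- `⟦mapGL g⟧ = q0` iff `g ∈ Γ₀(N)`. -/
lemma mk_mapGL_eq_q0_iff {N : ℕ} (g : SL(2, ℤ)) :
    (QuotientGroup.mk (⟨Matrix.SpecialLinearGroup.mapGL ℝ g, ⟨g, rfl⟩⟩ : 𝒮ℒ) : Q N) = q0 N ↔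
      g ∈ Gamma0 N := by
  rw [q0, QuotientGroup.eq]
  simp only [mul_one, Subgroup.mem_subgroupOf, inv_mem_iff]
  constructor
  · rintro ⟨γ, hγ, h⟩
    have : γ = g := Matrix.SpecialLinearGroup.mapGL_injective h
    exact this ▸ hγ
  · intro h
    exact ⟨g, h, rfl⟩

/-- **S20 package D**, in the form of `NOTES/S20-route.md`: a primitive element for `Γ₀(N)`. -/
theorem exists_primitive (N : ℕ) [NeZero N] :
    ∃ (k : ℤ) (F : ModularForm (G0 N) k), 0 < k ∧ ∀ q : Q N, q ≠ q0 N → cj F q ≠ ⇑F := by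
  refine ⟨4, peForm N (by norm_num), by norm_num, fun q hq => ?_⟩
  induction q using QuotientGroup.induction_on with
  | H h =>
    obtain ⟨h, ⟨g, rfl⟩⟩ := h
    have hg : g ∉ Gamma0 N := fun hg => hq ((mk_mapGL_eq_q0_iff g).mpr hg)
    have hg' : g⁻¹ ∉ Gamma0 N := fun h' => hg (by simpa using inv_mem h')
    rw [cj_mk_mapGL]
    exact peForm_slash_ne N (by norm_num) (by decide) g⁻¹ hg'

end Fermat.Agent.S20

end
end ZBS20_006_1

/-! ### bundled: `Fermat.Agent.S20.ExistsNondeg` -/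
section ZBS20_006_2
/-
S20 package EX: a nondegenerate frame exists (powers of a primitive element; Vandermonde).
-/

set_option autoImplicit false

open CongruenceSubgroup UpperHalfPlane ModularForm SlashInvariantForm
open scoped MatrixGroups Manifold

noncomputable section

namespace Fermat.Agent.S20

variable {N : ℕ} [NeZero N] {k : ℤ}

/-- Conjugates of a power are powers of the conjugates. -/
lemma cj_pow (F : ModularForm (G0 N) k) (n : ℕ) (q : Q N) :
    cj (F.pow n) q = (cj F q) ^ n := by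
  induction n with
  | zero =>
    obtain ⟨γ, rfl⟩ := mkQ_surjective q
    rw [cj_mkQ, ModularForm.coe_pow, pow_zero, pow_zero]
    simp only [Nat.cast_zero, zero_mul]
    exact ModularForm.is_invariant_one _
  | succ n ih =>
    have h : F.pow (n + 1) = ((F.pow n).mul F).mcast (by push_cast; ring) := rfl
    rw [h, cj_mcast, cj_mul, ih, pow_succ]

/-- A primitive element has pairwise distinct conjugates. -/
lemma cj_injective_of_primitive (F : ModularForm (G0 N) k)
    (hF : ∀ q : Q N, q ≠ q0 N → cj F q ≠ ⇑F) : Function.Injective (cj F) := by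
  intro q q' h
  obtain ⟨γ, rfl⟩ := mkQ_surjective q
  obtain ⟨δ, rfl⟩ := mkQ_surjective q'
  have h1 := congrArg (fun f : ℍ → ℂ => f ∣[k] γ) h
  simp only [cj_slash, smul_mkQ, ← toSL_inv] at h1
  rw [inv_mul_cancel, mkQ_one, cj_q0] at h1
  have h2 : mkQ N (γ⁻¹ * δ) = q0 N := by
    by_contra hne
    exact hF _ hne h1.symm
  rw [← mkQ_one, mkQ_eq_iff, mul_one] at h2
  rw [mkQ_eq_iff]
  simpa using inv_mem h2

/-- Finitely many pairwise distinct holomorphic functions on `ℍ` take pairwise distinct values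
at some point. -/
lemma exists_point_injective (F : ModularForm (G0 N) k) (hinj : Function.Injective (cj F)) :
    ∃ z : ℍ, Function.Injective (fun q : Q N => cj F q z) := by
  classical
  let s : Finset (Q N × Q N) := Finset.univ.filter fun p => p.1 ≠ p.2
  have hmd : ∀ p ∈ s, MDiff (fun z => cj F p.1 z - cj F p.2 z) := fun p _ =>
    (cj_mdiff F p.1).sub (cj_mdiff F p.2)
  have hne : ¬ (∏ p ∈ s, fun z => cj F p.1 z - cj F p.2 z) = 0 := by
    rw [UpperHalfPlane.prod_eq_zero_iff hmd]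
    rintro ⟨p, hp, h0⟩
    have hp' : p.1 ≠ p.2 := (Finset.mem_filter.mp hp).2
    apply hp'
    apply hinj
    funext z
    have := congrFun h0 z
    simpa [sub_eq_zero] using this
  obtain ⟨z, hz⟩ : ∃ z : ℍ, (∏ p ∈ s, fun z => cj F p.1 z - cj F p.2 z) z ≠ 0 := by
    by_contra hcon
    push Not at hcon
    exact hne (funext hcon)
  refine ⟨z, fun q q' hqq => ?_⟩
  by_contra hne'
  apply hz
  rw [Finset.prod_apply]
  refine Finset.prod_eq_zero (i := (q, q')) (Finset.mem_filter.mpr ⟨Finset.mem_univ _, hne'⟩) ?_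
  simpa [sub_eq_zero] using hqq

/-- The frame of powers `F^0, F^1, …, F^(μ-1)` of a modular form `F` of weight `k`. -/
def powerFrame (F : ModularForm (G0 N) k) : Frame N where
  wt i := ((Fintype.equivFin (Q N) i : ℕ) : ℤ) * k
  f i := F.pow (Fintype.equivFin (Q N) i : ℕ)

lemma powerFrame_A (F : ModularForm (G0 N) k) (z : ℍ) (i q : Q N) :
    (powerFrame F).A z i q = (cj F q z) ^ (Fintype.equivFin (Q N) i : ℕ) := by
  show cj (F.pow _) q z = _
  rw [cj_pow]; rfl

lemma powerFrame_det_ne_zero (F : ModularForm (G0 N) k) (z : ℍ)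
    (hz : Function.Injective (fun q : Q N => cj F q z)) : ((powerFrame F).A z).det ≠ 0 := by
  let e := Fintype.equivFin (Q N)
  have hre : Matrix.reindex e e ((powerFrame F).A z) =
      (Matrix.vandermonde (fun j => cj F (e.symm j) z)).transpose := by
    ext i j
    simp only [Matrix.reindex_apply, Matrix.submatrix_apply, Matrix.transpose_apply,
      Matrix.vandermonde_apply, powerFrame_A]
    simp [e]
  rw [← Matrix.det_reindex_self e, hre, Matrix.det_transpose, Matrix.det_vandermonde_ne_zero_iff]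
  intro a b hab
  exact e.symm.injective (hz hab)

/-- **S20 package EX**: a nondegenerate frame exists. -/
theorem exists_nondeg (N : ℕ) [NeZero N] : ∃ Φ : Frame N, Φ.Nondeg := by
  obtain ⟨k, F, -, hF⟩ := exists_primitive N
  obtain ⟨z, hz⟩ := exists_point_injective F (cj_injective_of_primitive F hF)
  exact ⟨powerFrame F, z, powerFrame_det_ne_zero F z hz⟩

/-- Version with control of the weights: the frame `F^i` (`i < μ`) has even weights `≥ 0`. -/
theorem exists_nondeg_wt (N : ℕ) [NeZero N] :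
    ∃ Φ : Frame N, Φ.Nondeg ∧ (∀ i, 0 ≤ Φ.wt i) ∧ (∀ i, Even (Φ.wt i)) := by
  obtain ⟨F, hF⟩ : ∃ F : ModularForm (G0 N) 4, ∀ q : Q N, q ≠ q0 N → cj F q ≠ ⇑F := by
    refine ⟨peForm N (by norm_num), fun q hq => ?_⟩
    induction q using QuotientGroup.induction_on with
    | H h =>
      obtain ⟨h, ⟨g, rfl⟩⟩ := h
      have hg : g ∉ Gamma0 N := fun hg => hq ((mk_mapGL_eq_q0_iff g).mpr hg)
      have hg' : g⁻¹ ∉ Gamma0 N := fun h' => hg (by simpa using inv_mem h')
      rw [cj_mk_mapGL]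
      exact peForm_slash_ne N (by norm_num) (by decide) g⁻¹ hg'
  obtain ⟨z, hz⟩ := exists_point_injective F (cj_injective_of_primitive F hF)
  refine ⟨powerFrame F, ⟨z, powerFrame_det_ne_zero F z hz⟩, fun i => ?_, fun i => ?_⟩
  · show (0 : ℤ) ≤ ((Fintype.equivFin (Q N) i : ℕ) : ℤ) * 4
    positivity
  · show Even (((Fintype.equivFin (Q N) i : ℕ) : ℤ) * 4)
    exact ⟨((Fintype.equivFin (Q N) i : ℕ) : ℤ) * 2, by ring⟩

end Fermat.Agent.S20

end
end ZBS20_006_2
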