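/- GENERATED FILE (helper35, build-time optimisation, NOTES/ZB.md): verbatim concatenation of the modules
   Fermat.Agent.ES.RC.LatticeG
   Fermat.Agent.ES.RC.JInj
   Fermat.Agent.ES.RC.Elliptic
   Fermat.Agent.ES.RC.PtExact
   Do not edit; do not import together with these modules. -/
import Mathlib
import Fermat.Agent.ZB.S20_006
import Fermat.Agent.ZB.S20_004
import Fermat.Agent.ZB.S24_001
import Fermat.Agent.ZB.S24_003
import Fermat.Agent.ZB.S24_006
import Fermat.Agent.ZB.S24_007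
import Fermat.Agent.ZB.S20_001

/-! ### bundled: `Fermat.Agent.ES.RC.LatticeG` -/
section ZBES_018_0

/-!
# A lattice in `ℂ` is determined by its Eisenstein sums `G_n` (`n ≥ 3`)

`PeriodPair.G n = ∑_{l ∈ L} l⁻ⁿ` (Mathlib, `Analysis/SpecialFunctions/Elliptic/Weierstrass`).

* `jinj_weierstrassP_eventuallyEq` : equal `G_n` (`n ≥ 3`) ⇒ the two `℘`-functions agree near `0`;
* `jinj_lattice_eq_of_G_eq` : equal `G_n` (`n ≥ 3`) ⇒ equal lattices (the poles of `℘`);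
* `jinj_G_eq_tsum` : `G_n(L) = ∑_{(a,b) ∈ ℤ²} (a ω₁ + b ω₂)⁻ⁿ`.
-/

set_option autoImplicit false

noncomputable section

namespace Fermat.Agent.ES.RC

open Complex Filter Topology PeriodPair

theorem jinj_weierstrassPExcept_zero_zero (L : PeriodPair) : ℘[L - (0 : ℂ)] 0 = 0 := by
  simp [PeriodPair.weierstrassPExcept]

/-- Equal Eisenstein sums give equal regular parts of `℘` near `0`. -/
theorem jinj_weierstrassPExcept_eventuallyEq (L L' : PeriodPair)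
    (h : ∀ n : ℕ, 3 ≤ n → L.G n = L'.G n) :
    ℘[L - (0 : ℂ)] =ᶠ[𝓝 0] ℘[L' - (0 : ℂ)] := by
  have h1 := L.hasFPowerSeriesAt_weierstrassPExcept 0
  have h2 := L'.hasFPowerSeriesAt_weierstrassPExcept 0
  have hser : (FormalMultilinearSeries.ofScalars (𝕜 := ℂ) ℂ fun i : ℕ ↦
      if i = 0 then ℘[L - (0 : ℂ)] 0 else (i + 1) * L.sumInvPow 0 (i + 2)) =
      (FormalMultilinearSeries.ofScalars (𝕜 := ℂ) ℂ fun i : ℕ ↦
      if i = 0 then ℘[L' - (0 : ℂ)] 0 else (i + 1) * L'.sumInvPow 0 (i + 2)) := by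
    congr 1
    funext i
    by_cases hi : i = 0
    · simp [hi]
    · rw [if_neg hi, if_neg hi, PeriodPair.sumInvPow_zero, PeriodPair.sumInvPow_zero,
        h (i + 2) (by omega)]
  rw [hser] at h1
  have e1 := h1.eventually_hasSum
  have e2 := h2.eventually_hasSum
  filter_upwards [e1, e2] with y hy1 hy2
  have := hy1.unique hy2
  simpa using this

/-- Equal Eisenstein sums give equal `℘`-functions near `0`. -/
theorem jinj_weierstrassP_eventuallyEq (L L' : PeriodPair)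
    (h : ∀ n : ℕ, 3 ≤ n → L.G n = L'.G n) : ℘[L] =ᶠ[𝓝 0] ℘[L'] := by
  filter_upwards [jinj_weierstrassPExcept_eventuallyEq L L' h] with z hz
  have h1 := L.weierstrassPExcept_add (0 : L.lattice) z
  have h2 := L'.weierstrassPExcept_add (0 : L'.lattice) z
  simp only [ZeroMemClass.coe_zero] at h1 h2
  rw [← h1, ← h2, hz]

theorem jinj_countable_lattice (L : PeriodPair) : (L.lattice : Set ℂ).Countable := by
  have : Countable L.lattice := L.latticeEquivProd.toEquiv.countable_iff.mpr inferInstance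
  exact Set.countable_coe_iff.mp this

/-- One inclusion of `jinj_lattice_eq_of_G_eq`. -/
theorem jinj_lattice_le_of_eventuallyEq (L L' : PeriodPair) (h : ℘[L] =ᶠ[𝓝 0] ℘[L']) :
    L.lattice ≤ L'.lattice := by
  classical
  -- the common domain of analyticity
  set U : Set ℂ := ((L.lattice : Set ℂ) ∪ (L'.lattice : Set ℂ))ᶜ with hU
  have hUconn : IsPreconnected U := by
    have hc : ((L.lattice : Set ℂ) ∪ (L'.lattice : Set ℂ)).Countable :=
      (jinj_countable_lattice L).union (jinj_countable_lattice L')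
    have hr : 1 < Module.rank ℝ ℂ := by
      rw [Complex.rank_real_complex]
      norm_num
    exact (hc.isPathConnected_compl_of_one_lt_rank hr).isConnected.isPreconnected
  have hUL : U ⊆ (L.lattice : Set ℂ)ᶜ := Set.compl_subset_compl.mpr Set.subset_union_left
  have hUL' : U ⊆ (L'.lattice : Set ℂ)ᶜ := Set.compl_subset_compl.mpr Set.subset_union_right
  have hf : AnalyticOnNhd ℂ ℘[L] U := L.analyticOnNhd_weierstrassP.mono hUL
  have hg : AnalyticOnNhd ℂ ℘[L'] U := L'.analyticOnNhd_weierstrassP.mono hUL'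
  -- a point of `U` near `0` where the two functions agree locally
  obtain ⟨W, hW, hWo, hW0⟩ := eventually_nhds_iff.mp h
  have hV : W ∩ ((L.lattice : Set ℂ) \ {0})ᶜ ∩ ((L'.lattice : Set ℂ) \ {0})ᶜ ∈ 𝓝 (0 : ℂ) :=
    inter_mem (inter_mem (hWo.mem_nhds hW0) (L.compl_lattice_sdiff_singleton_mem_nhds 0))
      (L'.compl_lattice_sdiff_singleton_mem_nhds 0)
  obtain ⟨z₀, hz₀V, hz₀ne⟩ : ∃ z₀ ∈ W ∩ ((L.lattice : Set ℂ) \ {0})ᶜ ∩
      ((L'.lattice : Set ℂ) \ {0})ᶜ, z₀ ≠ 0 := by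
    have hne : (𝓝[≠] (0 : ℂ)).NeBot := inferInstance
    have hmem : W ∩ ((L.lattice : Set ℂ) \ {0})ᶜ ∩ ((L'.lattice : Set ℂ) \ {0})ᶜ ∩ {0}ᶜ ∈
        𝓝[≠] (0 : ℂ) := inter_mem (mem_nhdsWithin_of_mem_nhds hV) self_mem_nhdsWithin
    obtain ⟨z₀, hz₀⟩ := hne.nonempty_of_mem hmem
    exact ⟨z₀, hz₀.1, hz₀.2⟩
  have hz₀U : z₀ ∈ U := by
    rw [hU, Set.mem_compl_iff, Set.mem_union, not_or]
    refine ⟨fun hm => hz₀V.1.2 ⟨hm, hz₀ne⟩, fun hm => hz₀V.2 ⟨hm, hz₀ne⟩⟩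
  have hz₀eq : ℘[L] =ᶠ[𝓝 z₀] ℘[L'] := by
    filter_upwards [hWo.mem_nhds hz₀V.1.1] with z hz using hW z hz
  have hEq : Set.EqOn ℘[L] ℘[L'] U :=
    hf.eqOn_of_preconnected_of_eventuallyEq hg hUconn hz₀U hz₀eq
  -- poles
  intro l hl
  by_contra hl'
  have hord : meromorphicOrderAt ℘[L] l = -2 := L.order_weierstrassP l hl
  have han : AnalyticAt ℂ ℘[L'] l := L'.analyticOnNhd_weierstrassP l hl'
  have hnonneg : 0 ≤ meromorphicOrderAt ℘[L'] l := han.meromorphicOrderAt_nonneg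
  have hcongr : ℘[L] =ᶠ[𝓝[≠] l] ℘[L'] := by
    have h1 : ((L.lattice : Set ℂ) \ {l})ᶜ ∩ (L'.lattice : Set ℂ)ᶜ ∈ 𝓝 l :=
      inter_mem (L.compl_lattice_sdiff_singleton_mem_nhds l)
        (L'.isClosed_lattice.isOpen_compl.mem_nhds hl')
    filter_upwards [mem_nhdsWithin_of_mem_nhds h1, self_mem_nhdsWithin] with z hz hzne
    apply hEq
    rw [hU, Set.mem_compl_iff, Set.mem_union, not_or]
    exact ⟨fun hm => hz.1 ⟨hm, hzne⟩, hz.2⟩
  rw [meromorphicOrderAt_congr hcongr] at hord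
  rw [hord] at hnonneg
  exact absurd hnonneg (by decide)

/-- **A lattice is determined by its Eisenstein sums.** -/
theorem jinj_lattice_eq_of_G_eq (L L' : PeriodPair) (h : ∀ n : ℕ, 3 ≤ n → L.G n = L'.G n) :
    L.lattice = L'.lattice :=
  le_antisymm (jinj_lattice_le_of_eventuallyEq L L' (jinj_weierstrassP_eventuallyEq L L' h))
    (jinj_lattice_le_of_eventuallyEq L' L
      (jinj_weierstrassP_eventuallyEq L' L fun n hn => (h n hn).symm))

/-- `G_n(L) = ∑_{(a,b)} (a ω₁ + b ω₂)⁻ⁿ`. -/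
theorem jinj_G_eq_tsum (L : PeriodPair) (n : ℕ) :
    L.G n = ∑' x : ℤ × ℤ, (((x.1 : ℂ) * L.ω₁ + (x.2 : ℂ) * L.ω₂) ^ n)⁻¹ := by
  rw [PeriodPair.G, ← L.latticeEquivProd.symm.toEquiv.tsum_eq]
  refine tsum_congr fun x => ?_
  have := L.latticeEquiv_symm_apply x
  simp only [LinearEquiv.coe_toEquiv]
  rw [this]

end Fermat.Agent.ES.RC

end
end ZBES_018_0

/-! ### bundled: `Fermat.Agent.ES.RC.JInj` -/
section ZBES_018_1

/-!
# `J` is injective modulo `SL(2, ℤ)`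

* `jinj_exists_smul_of_scale` : if `E₄ τ₂ = t⁴ E₄ τ₁` and `E₆ τ₂ = t⁶ E₆ τ₁` with `t ≠ 0` then
  `τ₂ ∈ SL(2, ℤ) τ₁`;
* `exists_smul_eq_of_Jfun_eq` : `Jfun τ₁ = Jfun τ₂ → ∃ γ : SL(2, ℤ), γ • τ₁ = τ₂`.

Proof: all level-one forms are isobaric polynomials in `E₄, E₆` (S20 `levelOne_eval_scale`), so the
lattices `ℤ τ₂ + ℤ` and `t⁻¹ (ℤ τ₁ + ℤ)` have the same Eisenstein sums `G_n`, hence the same
Weierstrass `℘`-function near `0` (Mathlib), hence the same poles.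
-/

set_option autoImplicit false

noncomputable section

namespace Fermat.Agent.ES.RC

open Complex Filter Topology PeriodPair UpperHalfPlane ModularForm EisensteinSeries
open Fermat.Agent.S24
open scoped MatrixGroups

/-- The period pair `(s τ, s)`. -/
def jinjPair (τ : ℍ) (s : ℂ) (hs : s ≠ 0) : PeriodPair where
  ω₁ := s * τ
  ω₂ := s
  indep := by
    rw [LinearIndependent.pair_iff]
    intro a b hab
    have h1 : s * ((a : ℂ) * τ + b) = 0 := by
      have : (a : ℂ) * (s * τ) + (b : ℂ) * s = 0 := by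
        simpa [Complex.real_smul] using hab
      linear_combination this
    have h2 : (a : ℂ) * τ + b = 0 := (mul_eq_zero.mp h1).resolve_left hs
    have h3 := congrArg Complex.im h2
    simp only [Complex.add_im, Complex.mul_im, Complex.ofReal_re, Complex.ofReal_im, zero_mul,
      add_zero, Complex.zero_im, UpperHalfPlane.coe_im] at h3
    have ha : a = 0 := by
      rcases mul_eq_zero.mp h3 with h | h
      · exact h
      · exact absurd h τ.im_pos.ne'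
    subst ha
    have h4 := congrArg Complex.re h2
    simp at h4
    exact ⟨rfl, h4⟩

@[simp] theorem jinjPair_ω₁ (τ : ℍ) (s : ℂ) (hs : s ≠ 0) : (jinjPair τ s hs).ω₁ = s * τ := rfl
@[simp] theorem jinjPair_ω₂ (τ : ℍ) (s : ℂ) (hs : s ≠ 0) : (jinjPair τ s hs).ω₂ = s := rfl

/-- The Eisenstein sum of `ℤ τ + ℤ` as a sum over `ℤ²`. -/
def jinjSum (τ : ℍ) (n : ℕ) : ℂ := ∑' x : ℤ × ℤ, (((x.1 : ℂ) * τ + (x.2 : ℂ)) ^ n)⁻¹

theorem jinj_G_pair (τ : ℍ) (s : ℂ) (hs : s ≠ 0) (n : ℕ) :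
    (jinjPair τ s hs).G n = (s ^ n)⁻¹ * jinjSum τ n := by
  rw [jinj_G_eq_tsum, jinjSum, ← tsum_mul_left]
  refine tsum_congr fun x => ?_
  rw [jinjPair_ω₁, jinjPair_ω₂, ← mul_inv, ← mul_pow]
  congr 2
  ring

theorem jinjSum_eq (τ : ℍ) {n : ℕ} (hn : 3 ≤ n) :
    jinjSum τ n = 2 * riemannZeta n * E hn τ := by
  have h1 := tsum_eisSummand_eq_riemannZeta_mul_eisensteinSeries hn τ
  have h2 : E hn τ = (1 / 2 : ℂ) * eisensteinSeries (N := 1) 0 (n : ℤ) τ := rfl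
  have h3 : jinjSum τ n = ∑' v : Fin 2 → ℤ, eisSummand n v τ := by
    rw [jinjSum, ← (finTwoArrowEquiv ℤ).symm.tsum_eq]
    refine tsum_congr fun x => ?_
    simp [eisSummand, finTwoArrowEquiv, zpow_neg]
  rw [h3, h1, h2]
  ring

/-- `E_n` scales like a form of weight `n` under `(E₄, E₆) ↦ (t⁴ E₄, t⁶ E₆)`. -/
theorem jinj_G_scale (τ₁ τ₂ : ℍ) (t : ℂ) (ht : t ≠ 0) (h4 : E₄ τ₂ = t ^ 4 * E₄ τ₁)
    (h6 : E₆ τ₂ = t ^ 6 * E₆ τ₁) (n : ℕ) (hn : 3 ≤ n) :
    (jinjPair τ₂ 1 one_ne_zero).G n = (jinjPair τ₁ t⁻¹ (inv_ne_zero ht)).G n := by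
  rw [jinj_G_pair, jinj_G_pair, jinjSum_eq τ₂ hn, jinjSum_eq τ₁ hn,
    Fermat.Agent.S20.levelOne_eval_scale τ₁ τ₂ t h4 h6 (E hn)]
  simp only [one_pow, inv_one, one_mul, Int.toNat_natCast, inv_pow, inv_inv]
  ring

/-- From the equality of lattices to an element of `SL(2, ℤ)`. -/
theorem jinj_exists_smul_of_lattice (τ₁ τ₂ : ℍ) (s : ℂ) (hs : s ≠ 0)
    (h : (jinjPair τ₂ 1 one_ne_zero).lattice = (jinjPair τ₁ s hs).lattice) :
    ∃ γ : SL(2, ℤ), γ • τ₁ = τ₂ := by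
  -- the four memberships
  have m1 : (τ₂ : ℂ) ∈ (jinjPair τ₁ s hs).lattice := by
    rw [← h]
    have := (jinjPair τ₂ 1 one_ne_zero).ω₁_mem_lattice
    simpa using this
  have m2 : (1 : ℂ) ∈ (jinjPair τ₁ s hs).lattice := by
    rw [← h]
    exact (jinjPair τ₂ 1 one_ne_zero).ω₂_mem_lattice
  have m3 : s * (τ₁ : ℂ) ∈ (jinjPair τ₂ 1 one_ne_zero).lattice := by
    rw [h]
    exact (jinjPair τ₁ s hs).ω₁_mem_lattice
  have m4 : s ∈ (jinjPair τ₂ 1 one_ne_zero).lattice := by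
    rw [h]
    exact (jinjPair τ₁ s hs).ω₂_mem_lattice
  rw [PeriodPair.mem_lattice] at m1 m2 m3 m4
  obtain ⟨a, b, hab⟩ := m1
  obtain ⟨c, d, hcd⟩ := m2
  obtain ⟨a', b', hab'⟩ := m3
  obtain ⟨c', d', hcd'⟩ := m4
  simp only [jinjPair_ω₁, jinjPair_ω₂, one_mul, mul_one] at hab hcd hab' hcd'
  -- `τ₂ = (a a' + b c') τ₂ + (a b' + b d')`, `1 = (c a' + d c') τ₂ + (c b' + d d')`
  have e1 : ((a * a' + b * c' : ℤ) : ℂ) * τ₂ + ((a * b' + b * d' : ℤ) : ℂ) = τ₂ := by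
    push_cast
    linear_combination hab + (a : ℂ) * hab' + (b : ℂ) * hcd'
  have e2 : ((c * a' + d * c' : ℤ) : ℂ) * τ₂ + ((c * b' + d * d' : ℤ) : ℂ) = 1 := by
    push_cast
    linear_combination hcd + (c : ℂ) * hab' + (d : ℂ) * hcd'
  have key : ∀ (x y : ℤ), (x : ℂ) * τ₂ + (y : ℂ) = 0 → x = 0 ∧ y = 0 := by
    intro x y hxy
    have h3 := congrArg Complex.im hxy
    simp only [Complex.add_im, Complex.mul_im, Complex.intCast_re, Complex.intCast_im, zero_mul,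
      add_zero, Complex.zero_im, UpperHalfPlane.coe_im] at h3
    have hx : x = 0 := by
      rcases mul_eq_zero.mp h3 with h | h
      · exact_mod_cast h
      · exact absurd h τ₂.im_pos.ne'
    subst hx
    have h4 := congrArg Complex.re hxy
    simp at h4
    exact ⟨rfl, by exact_mod_cast h4⟩
  have k1 := key (a * a' + b * c' - 1) (a * b' + b * d') (by
    push_cast at e1 ⊢; linear_combination e1)
  have k2 := key (c * a' + d * c') (c * b' + d * d' - 1) (by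
    push_cast at e2 ⊢; linear_combination e2)
  -- the determinant is `± 1`
  have hdet : (a * d - b * c) * (a' * d' - b' * c') = 1 := by
    obtain ⟨k11, k12⟩ := k1
    obtain ⟨k21, k22⟩ := k2
    linear_combination (c * b' + d * d') * k11 - (c * a' + d * c') * k12 + k22
        - (a * b' + b * d') * k21 + (a * a' + b * c' - 1) * k22 - (c * b' + d * d' - 1) * k11
        + (c * a' + d * c') * k12
  -- the denominator
  have hden : (c : ℂ) * τ₁ + d ≠ 0 := by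
    intro h0
    have : (1 : ℂ) = 0 := by
      rw [← hcd]
      linear_combination s * h0
    exact one_ne_zero this
  have hτ₂ : (τ₂ : ℂ) = ((a : ℂ) * τ₁ + b) / ((c : ℂ) * τ₁ + d) := by
    rw [eq_div_iff hden]
    have : (τ₂ : ℂ) * 1 = τ₂ := mul_one _
    calc (τ₂ : ℂ) * ((c : ℂ) * τ₁ + d) = τ₂ * (c * (s * τ₁) + d * s) * s⁻¹ := by
          field_simp
      _ = τ₂ * 1 * s⁻¹ := by rw [hcd]
      _ = (a * (s * τ₁) + b * s) * s⁻¹ := by rw [hab, mul_one]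
      _ = (a : ℂ) * τ₁ + b := by field_simp
  -- positivity of the determinant
  have him : (τ₂ : ℂ).im = ((a * d - b * c : ℤ) : ℝ) * τ₁.im / Complex.normSq ((c : ℂ) * τ₁ + d) := by
    rw [hτ₂, Complex.div_im]
    have hn : Complex.normSq ((c : ℂ) * τ₁ + d) ≠ 0 := by
      rwa [Ne, Complex.normSq_eq_zero]
    simp only [Complex.add_im, Complex.mul_im, Complex.intCast_re, Complex.intCast_im, zero_mul,
      add_zero, Complex.add_re, Complex.mul_re, sub_zero, UpperHalfPlane.coe_im,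
      UpperHalfPlane.coe_re]
    push_cast
    field_simp
    ring
  have hpos : 0 < ((a * d - b * c : ℤ) : ℝ) := by
    have h1 : 0 < (τ₂ : ℂ).im := τ₂.im_pos
    rw [him] at h1
    have hn : 0 < Complex.normSq ((c : ℂ) * τ₁ + d) := Complex.normSq_pos.mpr hden
    have h2 : 0 < ((a * d - b * c : ℤ) : ℝ) * τ₁.im := by
      by_contra hneg
      push Not at hneg
      have := div_nonpos_of_nonpos_of_nonneg hneg hn.le
      linarith
    exact (pos_iff_pos_of_mul_pos h2).mpr τ₁.im_pos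
  have hdet1 : a * d - b * c = 1 := by
    have hp : 0 < a * d - b * c := by exact_mod_cast hpos
    have hu : IsUnit (a * d - b * c) := IsUnit.of_mul_eq_one _ hdet
    rcases Int.isUnit_iff.mp hu with h | h
    · exact h
    · omega
  have hdet2 : (!![a, b; c, d] : Matrix (Fin 2) (Fin 2) ℤ).det = 1 := by
    rw [Matrix.det_fin_two_of]; exact hdet1
  let γ : SL(2, ℤ) := ⟨!![a, b; c, d], hdet2⟩
  refine ⟨γ, ?_⟩
  ext
  rw [UpperHalfPlane.coe_specialLinearGroup_apply, hτ₂]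
  simp [γ]

/-- **Scaling form of the injectivity of `J`.** -/
theorem jinj_exists_smul_of_scale (τ₁ τ₂ : ℍ) (t : ℂ) (ht : t ≠ 0)
    (h4 : E₄ τ₂ = t ^ 4 * E₄ τ₁) (h6 : E₆ τ₂ = t ^ 6 * E₆ τ₁) :
    ∃ γ : SL(2, ℤ), γ • τ₁ = τ₂ :=
  jinj_exists_smul_of_lattice τ₁ τ₂ t⁻¹ (inv_ne_zero ht)
    (jinj_lattice_eq_of_G_eq _ _ fun n hn => jinj_G_scale τ₁ τ₂ t ht h4 h6 n hn)

/-- `a³ b'² = a'³ b²` for the values of `E₄, E₆` at two points with the same `J`. -/
theorem jinj_cross (τ₁ τ₂ : ℍ) (h : Jfun τ₁ = Jfun τ₂) :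
    E₄ τ₁ ^ 3 * E₆ τ₂ ^ 2 = E₄ τ₂ ^ 3 * E₆ τ₁ ^ 2 := by
  rw [Jfun_def, Jfun_def, div_eq_div_iff (discriminant_ne_zero τ₁) (discriminant_ne_zero τ₂),
    discriminant_eq_E₄_cube_sub_E₆_sq, discriminant_eq_E₄_cube_sub_E₆_sq] at h
  linear_combination (-1728 : ℂ) * h

/-- **`J` is injective modulo `SL(2, ℤ)`.** -/
theorem exists_smul_eq_of_Jfun_eq (τ₁ τ₂ : ℍ) (h : Jfun τ₁ = Jfun τ₂) :
    ∃ γ : SL(2, ℤ), γ • τ₁ = τ₂ := by
  have hc := jinj_cross τ₁ τ₂ h
  have hD₁ : E₄ τ₁ ^ 3 - E₆ τ₁ ^ 2 ≠ 0 := by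
    intro h0
    apply discriminant_ne_zero τ₁
    rw [discriminant_eq_E₄_cube_sub_E₆_sq, h0, zero_div]
  have hD₂ : E₄ τ₂ ^ 3 - E₆ τ₂ ^ 2 ≠ 0 := by
    intro h0
    apply discriminant_ne_zero τ₂
    rw [discriminant_eq_E₄_cube_sub_E₆_sq, h0, zero_div]
  by_cases ha : E₄ τ₁ = 0
  · -- `E₄ τ₁ = 0`
    have hb : E₆ τ₁ ≠ 0 := fun hb => hD₁ (by rw [ha, hb]; ring)
    have ha' : E₄ τ₂ = 0 := by
      rw [ha] at hc
      have : E₄ τ₂ ^ 3 * E₆ τ₁ ^ 2 = 0 := by rw [← hc]; ring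
      rcases mul_eq_zero.mp this with h1 | h1
      · exact pow_eq_zero_iff (by norm_num) |>.mp h1
      · exact absurd (pow_eq_zero_iff (by norm_num) |>.mp h1) hb
    have hb' : E₆ τ₂ ≠ 0 := fun hb' => hD₂ (by rw [ha', hb']; ring)
    obtain ⟨t, ht⟩ := IsAlgClosed.exists_pow_nat_eq (E₆ τ₂ / E₆ τ₁) (n := 6) (by norm_num)
    have ht0 : t ≠ 0 := by
      rintro rfl
      rw [zero_pow (by norm_num)] at ht
      exact (div_ne_zero hb' hb) ht.symm
    refine jinj_exists_smul_of_scale τ₁ τ₂ t ht0 (by rw [ha, ha', mul_zero]) ?_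
    rw [ht, div_mul_cancel₀ _ hb]
  by_cases hb : E₆ τ₁ = 0
  · have hb' : E₆ τ₂ = 0 := by
      rw [hb] at hc
      have : E₄ τ₁ ^ 3 * E₆ τ₂ ^ 2 = 0 := by rw [hc]; ring
      rcases mul_eq_zero.mp this with h1 | h1
      · exact absurd (pow_eq_zero_iff (by norm_num) |>.mp h1) ha
      · exact pow_eq_zero_iff (by norm_num) |>.mp h1
    have ha' : E₄ τ₂ ≠ 0 := fun ha' => hD₂ (by rw [ha', hb']; ring)
    obtain ⟨t, ht⟩ := IsAlgClosed.exists_pow_nat_eq (E₄ τ₂ / E₄ τ₁) (n := 4) (by norm_num)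
    have ht0 : t ≠ 0 := by
      rintro rfl
      rw [zero_pow (by norm_num)] at ht
      exact (div_ne_zero ha' ha) ht.symm
    refine jinj_exists_smul_of_scale τ₁ τ₂ t ht0 ?_ (by rw [hb, hb', mul_zero])
    rw [ht, div_mul_cancel₀ _ ha]
  · -- generic case
    have ha' : E₄ τ₂ ≠ 0 := by
      intro ha'
      rw [ha'] at hc
      have : E₄ τ₁ ^ 3 * E₆ τ₂ ^ 2 = 0 := by rw [hc]; ring
      rcases mul_eq_zero.mp this with h1 | h1
      · exact ha (pow_eq_zero_iff (by norm_num) |>.mp h1)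
      · exact hD₂ (by rw [ha', pow_eq_zero_iff (by norm_num) |>.mp h1]; ring)
    have hb' : E₆ τ₂ ≠ 0 := by
      intro hb'
      rw [hb'] at hc
      have : E₄ τ₂ ^ 3 * E₆ τ₁ ^ 2 = 0 := by rw [← hc]; ring
      rcases mul_eq_zero.mp this with h1 | h1
      · exact ha' (pow_eq_zero_iff (by norm_num) |>.mp h1)
      · exact hb (pow_eq_zero_iff (by norm_num) |>.mp h1)
    obtain ⟨t, ht⟩ := IsAlgClosed.exists_pow_nat_eq
      (E₆ τ₂ * E₄ τ₁ / (E₆ τ₁ * E₄ τ₂)) (n := 2) (by norm_num)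
    have ht0 : t ≠ 0 := by
      rintro rfl
      rw [zero_pow (by norm_num)] at ht
      exact (div_ne_zero (mul_ne_zero hb' ha) (mul_ne_zero hb ha')) ht.symm
    have h4 : t ^ 4 = E₄ τ₂ / E₄ τ₁ := by
      have : t ^ 4 = (t ^ 2) ^ 2 := by ring
      rw [this, ht, div_pow, div_eq_div_iff (pow_ne_zero 2 (mul_ne_zero hb ha')) ha]
      linear_combination hc
    have h6 : t ^ 6 = E₆ τ₂ / E₆ τ₁ := by
      have : t ^ 6 = (t ^ 2) ^ 3 := by ring
      rw [this, ht, div_pow, div_eq_div_iff (pow_ne_zero 3 (mul_ne_zero hb ha')) hb]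
      linear_combination (E₆ τ₂ * E₆ τ₁) * hc
    refine jinj_exists_smul_of_scale τ₁ τ₂ t ht0 ?_ ?_
    · rw [h4, div_mul_cancel₀ _ ha]
    · rw [h6, div_mul_cancel₀ _ hb]

end Fermat.Agent.ES.RC

end
end ZBES_018_1

/-! ### bundled: `Fermat.Agent.ES.RC.Elliptic` -/
section ZBES_018_2

/-!
# Classification of the elliptic points of `SL(2, ℤ)` (through `J`)

* `rc_denom_conj` : the multiplier `denom ε τ` of a stabiliser element is invariant under
  conjugation;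
* `rc_exists_elliptic` : every `τ ∈ ℍ` is fixed by some `ε ∈ SL(2, ℤ)` whose multiplier
  `denom ε τ ^ 2` is a primitive `E`-th root of unity, `E = ord_τ (J − J τ) ∈ {1, 2, 3}`.
-/

set_option autoImplicit false

noncomputable section

namespace Fermat.Agent.ES.RC

open UpperHalfPlane ModularForm
open Fermat.Agent.S24
open scoped MatrixGroups

/-- Conjugation invariance of the multiplier of a stabiliser element. -/
theorem rc_denom_conj (γ ε : SL(2, ℤ)) (τ : ℍ) (hfix : ε • τ = τ) :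
    (γ * ε * γ⁻¹) • (γ • τ) = γ • τ ∧
      denom (γ * ε * γ⁻¹ : SL(2, ℤ)) (γ • τ : ℍ) = denom ε τ := by
  have h1 : (γ * ε * γ⁻¹) • (γ • τ) = γ • τ := by
    rw [mul_smul, inv_smul_smul, mul_smul, hfix]
  refine ⟨h1, ?_⟩
  have h2 : denom (γ * ε * γ⁻¹ : SL(2, ℤ)) (γ • τ : ℍ)
      = denom (γ * ε : SL(2, ℤ)) (γ⁻¹ • γ • τ : ℍ) * denom (γ⁻¹ : SL(2, ℤ)) (γ • τ : ℍ) :=
    denom_mul_SL (γ * ε) γ⁻¹ (γ • τ)
  have h3 : denom (γ * ε : SL(2, ℤ)) τ = denom γ (ε • τ : ℍ) * denom ε τ := denom_mul_SL γ ε τ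
  have h4 : denom (γ⁻¹ * γ : SL(2, ℤ)) τ = denom (γ⁻¹ : SL(2, ℤ)) (γ • τ : ℍ) * denom γ τ :=
    denom_mul_SL γ⁻¹ γ τ
  rw [inv_mul_cancel, denom_one_SL] at h4
  rw [inv_smul_smul] at h2
  rw [h2, h3, hfix]
  have hγ : denom γ τ ≠ 0 := denom_ne_zero _ _
  have h5 : denom (γ⁻¹ : SL(2, ℤ)) (γ • τ : ℍ) = (denom γ τ)⁻¹ := by
    exact eq_inv_of_mul_eq_one_left h4.symm
  rw [h5]
  field_simp

theorem rc_prim_S_I :
    IsPrimitiveRoot (denom (ModularGroup.S : SL(2, ℤ)) UpperHalfPlane.I ^ 2) 2 := by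
  have hden : denom (ModularGroup.S : SL(2, ℤ)) UpperHalfPlane.I ^ 2 = -1 := by
    have : denom (ModularGroup.S : SL(2, ℤ)) UpperHalfPlane.I = Complex.I := by
      have := ModularGroup.denom_apply (g := ModularGroup.S) (z := UpperHalfPlane.I)
      rw [this]
      simp [ModularGroup.S]
    rw [this, Complex.I_sq]
  rw [hden]
  exact IsPrimitiveRoot.neg_one 0 (by norm_num)

theorem rc_prim_ST_ρ :
    IsPrimitiveRoot (denom (ModularGroup.S * ModularGroup.T : SL(2, ℤ)) UpperHalfPlane.ρ ^ 2) 3 := by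
  have hd : denom (ModularGroup.S * ModularGroup.T : SL(2, ℤ)) UpperHalfPlane.ρ =
      (UpperHalfPlane.ρ : ℂ) + 1 := by
    have := ModularGroup.denom_apply (g := ModularGroup.S * ModularGroup.T)
      (z := UpperHalfPlane.ρ)
    rw [this]
    have e10 : ((ModularGroup.S * ModularGroup.T : SL(2, ℤ)) : Matrix (Fin 2) (Fin 2) ℤ) 1 0 = 1 := by
      rw [Matrix.SpecialLinearGroup.coe_mul, ModularGroup.coe_S, ModularGroup.coe_T]
      simp [Matrix.mul_apply, Fin.sum_univ_two]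
    have e11 : ((ModularGroup.S * ModularGroup.T : SL(2, ℤ)) : Matrix (Fin 2) (Fin 2) ℤ) 1 1 = 1 := by
      rw [Matrix.SpecialLinearGroup.coe_mul, ModularGroup.coe_S, ModularGroup.coe_T]
      simp [Matrix.mul_apply, Fin.sum_univ_two]
    rw [e10, e11]
    simp
  have hsq := UpperHalfPlane.ρ_sq
  have hden : denom (ModularGroup.S * ModularGroup.T : SL(2, ℤ))
      UpperHalfPlane.ρ ^ 2 = (UpperHalfPlane.ρ : ℂ) := by
    rw [hd]; linear_combination hsq
  have hρ3 : (UpperHalfPlane.ρ : ℂ) ^ 3 = 1 := by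
    linear_combination ((UpperHalfPlane.ρ : ℂ) - 1) * hsq
  have hρ1 : (UpperHalfPlane.ρ : ℂ) ≠ 1 := by
    intro h
    have := congrArg Complex.im h
    have hpos : 0 < (UpperHalfPlane.ρ : ℂ).im := UpperHalfPlane.ρ.2
    rw [Complex.one_im] at this
    exact hpos.ne' this
  rw [hden]
  refine IsPrimitiveRoot.mk_of_lt _ (by norm_num) hρ3 ?_
  intro l hl0 hl3 hl
  interval_cases l
  · exact hρ1 (by simpa using hl)
  · apply hρ1
    have h2 : (UpperHalfPlane.ρ : ℂ) ^ 3 = (UpperHalfPlane.ρ : ℂ) ^ 2 * (UpperHalfPlane.ρ : ℂ) := by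
      ring
    rw [hl, one_mul] at h2
    rw [← h2, hρ3]

/-- **Elliptic points.** Every `τ` has a stabiliser element whose multiplier is a primitive root of
unity of order `ord_τ (J − J τ)`. -/
theorem rc_exists_elliptic (τ : ℍ) :
    ∃ (ε : SL(2, ℤ)) (E : ℕ), (E = 1 ∨ E.Prime) ∧ ε • τ = τ ∧
      IsPrimitiveRoot (denom ε τ ^ 2) E ∧
      ordAt τ (fun z => Jfun z - Jfun τ) = (E : ℕ∞) := by
  by_cases h1728 : Jfun τ = 1728
  · -- the orbit of `i`
    obtain ⟨γ, hγ⟩ := exists_smul_eq_of_Jfun_eq UpperHalfPlane.I τ (by rw [Jfun_I, h1728])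
    obtain ⟨hfix, hden⟩ := rc_denom_conj γ ModularGroup.S UpperHalfPlane.I S_smul_I
    rw [hγ] at hfix hden
    refine ⟨γ * ModularGroup.S * γ⁻¹, 2, Or.inr Nat.prime_two, hfix, ?_, ?_⟩
    · rw [hden]; exact rc_prim_S_I
    · have := analyticOrderAt_Jfun_sub_1728 h1728
      rw [ordAt, h1728]
      exact this
  by_cases h0 : Jfun τ = 0
  · obtain ⟨γ, hγ⟩ := exists_smul_eq_of_Jfun_eq UpperHalfPlane.ρ τ (by rw [Jfun_ρ, h0])
    obtain ⟨hfix, hden⟩ := rc_denom_conj γ (ModularGroup.S * ModularGroup.T) UpperHalfPlane.ρ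
      ST_smul_ρ
    rw [hγ] at hfix hden
    refine ⟨γ * (ModularGroup.S * ModularGroup.T) * γ⁻¹, 3, Or.inr Nat.prime_three, hfix, ?_, ?_⟩
    · rw [hden]; exact rc_prim_ST_ρ
    · have := analyticOrderAt_Jfun_of_eq_zero h0
      rw [ordAt, h0]
      simpa [Function.comp_def] using this
  · refine ⟨1, 1, Or.inl rfl, one_smul _ _, ?_, ?_⟩
    · rw [denom_one_SL, one_pow]; exact IsPrimitiveRoot.one
    · have := analyticOrderAt_Jfun_sub_of_ne h0 h1728
      rw [ordAt]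
      simpa [Function.comp_def] using this

end Fermat.Agent.ES.RC

end
end ZBES_018_2

/-! ### bundled: `Fermat.Agent.ES.RC.PtExact` -/
section ZBES_018_3

/-!
# ESpkg-G1 (RC)(ii), piece P-ptX: exact ramification at the points of `ℍ`

`stmtPtExact : StmtPtExact M F`: the place `v` of `F = Frac (modFunAlg M)` at `τ ∈ ℍ` satisfies
`ord_τ f = e · v.ord f` where `e` is the order of the multiplier `denom ε τ ^ 2` of some
`ε ∈ Γ₀(M)` fixing `τ`.

Proof.  Let `e'` be the index given by `exists_place_pt` and `(ε₀, E)` the elliptic datum of `τ` in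
`SL(2, ℤ)` (`rc_exists_elliptic`), `E = ord_τ (J − J τ) ∈ {1, 2, 3}`.  Then `e' ∣ E`, so `e' = 1`
(take `ε = 1`) or `e' = E` is prime.  In the latter case `t = J − J τ` is a uniformiser at `v`, the
residue field of `v` is `ℂ` (`ptx_residue`), hence every `f ∈ modFunAlg M` is, modulo `t ^ n`, an
`ε₀`-invariant element (`ptx_expand`); comparing orders, `f ∘ ε₀ − f` vanishes to infinite order at
`τ`, so `f ∘ ε₀ = f`.  With `f = J(M ·)` this gives `ε₀ ∈ Γ₀(M)` (`mem_Gamma0_of_Jd_smul`).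
-/

set_option autoImplicit false
set_option linter.unusedSectionVars false

noncomputable section

namespace Fermat.Agent.ES.RC

open UpperHalfPlane AlgebraicCurve ModularForm Filter Topology
open Fermat.Agent.S23 Fermat.Agent.S24 Fermat.Agent.S28
open scoped MatrixGroups Manifold ModularForm

/-! ### An analytic cancellation lemma -/

/-- If `ord B ≤ ord A` at `z₀` (and `B ≠ 0`), then `A − c B` has order `> ord B` for a suitable
constant `c`. -/
theorem ptx_exists_cancel {A B : ℂ → ℂ} {z₀ : ℂ} (hA : AnalyticAt ℂ A z₀)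
    (hB : AnalyticAt ℂ B z₀) (hBtop : analyticOrderAt B z₀ ≠ ⊤)
    (hle : analyticOrderAt B z₀ ≤ analyticOrderAt A z₀) :
    ∃ c : ℂ, analyticOrderAt B z₀ < analyticOrderAt (fun z => A z - c * B z) z₀ := by
  rcases hle.lt_or_eq with hlt | heq
  · exact ⟨0, by simpa using hlt⟩
  · have hAtop : analyticOrderAt A z₀ ≠ ⊤ := heq ▸ hBtop
    obtain ⟨cb, hcb⟩ := exists_isLead hB hBtop
    obtain ⟨ca, hca⟩ := exists_isLead hA hAtop
    rw [← heq] at hca
    obtain ⟨-, ga, hga, hgac, hfa⟩ := hca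
    obtain ⟨hcb0, gb, hgb, hgbc, hfb⟩ := hcb
    refine ⟨ca / cb, ?_⟩
    have hev : (fun z => A z - ca / cb * B z) =ᶠ[𝓝 z₀]
        ((fun z => z - z₀) ^ (analyticOrderAt B z₀).toNat * (fun z => ga z - ca / cb * gb z)) := by
      filter_upwards [hfa, hfb] with z h1 h2
      simp only [Pi.mul_apply, Pi.pow_apply]
      rw [h1, h2]; ring
    have hh : AnalyticAt ℂ (fun z => ga z - ca / cb * gb z) z₀ := by fun_prop
    have h0 : ga z₀ - ca / cb * gb z₀ = 0 := by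
      rw [hgac, hgbc]; field_simp; ring
    have hpos : 1 ≤ analyticOrderAt (fun z => ga z - ca / cb * gb z) z₀ := by
      rw [Order.one_le_iff_ne_zero, Ne, analyticOrderAt_eq_zero]
      push Not
      exact ⟨hh, h0⟩
    have hmon : AnalyticAt ℂ ((fun z : ℂ => z - z₀) ^ (analyticOrderAt B z₀).toNat) z₀ := by
      fun_prop
    rw [analyticOrderAt_congr hev, analyticOrderAt_mul hmon hh, analyticOrderAt_centeredMonomial]
    have hBm : analyticOrderAt B z₀ = ((analyticOrderAt B z₀).toNat : ℕ∞) :=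
      (ENat.natCast_toNat hBtop).symm
    calc analyticOrderAt B z₀ = ((analyticOrderAt B z₀).toNat : ℕ∞) := hBm
      _ < ((analyticOrderAt B z₀).toNat : ℕ∞) + 1 := by
        exact_mod_cast Nat.lt_succ_self _
      _ ≤ _ := add_le_add le_rfl hpos

/-! ### Orders of functions on `ℍ` -/

theorem ptx_ordAt_zero (τ : ℍ) : ordAt τ (0 : ℍ → ℂ) = ⊤ := by
  rw [ordAt, analyticOrderAt_eq_top]
  exact Filter.Eventually.of_forall fun z => rfl

theorem ptx_mdiff_comp_smul {f : ℍ → ℂ} (hf : MDiff f) (γ : SL(2, ℤ)) :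
    MDiff (fun τ => f (γ • τ)) :=
  hf.comp (UpperHalfPlane.mdifferentiable_smul (g := (γ : GL (Fin 2) ℝ)) (SL_val_det_pos γ))

theorem ptx_ordAt_pow {f : ℍ → ℂ} (hf : MDiff f) (τ : ℍ) (n : ℕ) :
    ordAt τ (f ^ n) = n • ordAt τ f :=
  analyticOrderAt_pow (ordAt_analyticAt hf τ) n

theorem ptx_le_ordAt_sub (f g : ℍ → ℂ) (τ : ℍ) :
    min (ordAt τ f) (ordAt τ g) ≤ ordAt τ (f - g) :=
  le_analyticOrderAt_sub

variable (M : ℕ) [NeZero M]

theorem ptx_ordAt_eq_top_iff (τ : ℍ) (f : modFunAlg M) :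
    ordAt τ (f : ℍ → ℂ) = ⊤ ↔ f = 0 := by
  constructor
  · intro h
    by_contra hf
    exact ordAt_ne_top (rc_mdiff M f) (rc_coe_ne_zero M hf) τ h
  · rintro rfl
    exact ptx_ordAt_zero τ

/-- `ordPt` is monotone in `ordAt` on nonzero elements. -/
theorem ptx_ordPt_le_iff (τ : ℍ) {a b : modFunAlg M} (ha : a ≠ 0) (hb : b ≠ 0) :
    ordPt τ (b : ℍ → ℂ) ≤ ordPt τ (a : ℍ → ℂ) ↔
      ordAt τ (b : ℍ → ℂ) ≤ ordAt τ (a : ℍ → ℂ) := by
  rw [← rc_coe_ordPt M τ ha, ← rc_coe_ordPt M τ hb, ordPt, ordPt]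
  norm_cast

theorem ptx_ordPt_lt_iff (τ : ℍ) {a b : modFunAlg M} (ha : a ≠ 0) (hb : b ≠ 0) :
    ordPt τ (b : ℍ → ℂ) < ordPt τ (a : ℍ → ℂ) ↔
      ordAt τ (b : ℍ → ℂ) < ordAt τ (a : ℍ → ℂ) := by
  rw [← rc_coe_ordPt M τ ha, ← rc_coe_ordPt M τ hb, ordPt, ordPt]
  norm_cast

section Place

variable {M}
variable {F : Type} [Field F] [Algebra ℂ F] [Algebra (modFunAlg M) F]
  [IsScalarTower ℂ (modFunAlg M) F] [IsFractionRing (modFunAlg M) F]

theorem ptx_mul_ord_div {τ : ℍ} {w : Place ℂ F} {e : ℕ}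
    (H : ∀ f : modFunAlg M, f ≠ 0 →
      ordPt τ (f : ℍ → ℂ) = (e : ℤ) * w.ord (algebraMap (modFunAlg M) F f))
    {a b : modFunAlg M} (ha : a ≠ 0) (hb : b ≠ 0) :
    (e : ℤ) * w.ord (algebraMap (modFunAlg M) F a / algebraMap (modFunAlg M) F b)
      = ordPt τ (a : ℍ → ℂ) - ordPt τ (b : ℍ → ℂ) := by
  rw [div_eq_mul_inv, w.ord_mul (rc_algebraMap_ne_zero F ha)
    (inv_ne_zero (rc_algebraMap_ne_zero F hb)), w.ord_inv, H a ha, H b hb]
  ring

theorem ptx_ord_div_nonneg_iff {τ : ℍ} {w : Place ℂ F} {e : ℕ} (he : 0 < e)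
    (H : ∀ f : modFunAlg M, f ≠ 0 →
      ordPt τ (f : ℍ → ℂ) = (e : ℤ) * w.ord (algebraMap (modFunAlg M) F f))
    {a b : modFunAlg M} (ha : a ≠ 0) (hb : b ≠ 0) :
    0 ≤ w.ord (algebraMap (modFunAlg M) F a / algebraMap (modFunAlg M) F b) ↔
      ordAt τ (b : ℍ → ℂ) ≤ ordAt τ (a : ℍ → ℂ) := by
  have he' : (0 : ℤ) < e := by exact_mod_cast he
  rw [← ptx_ordPt_le_iff M τ ha hb, ← mul_nonneg_iff_of_pos_left he', ptx_mul_ord_div H ha hb]
  omega

theorem ptx_ord_div_pos_iff {τ : ℍ} {w : Place ℂ F} {e : ℕ} (he : 0 < e)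
    (H : ∀ f : modFunAlg M, f ≠ 0 →
      ordPt τ (f : ℍ → ℂ) = (e : ℤ) * w.ord (algebraMap (modFunAlg M) F f))
    {a b : modFunAlg M} (ha : a ≠ 0) (hb : b ≠ 0) :
    0 < w.ord (algebraMap (modFunAlg M) F a / algebraMap (modFunAlg M) F b) ↔
      ordAt τ (b : ℍ → ℂ) < ordAt τ (a : ℍ → ℂ) := by
  have he' : (0 : ℤ) < e := by exact_mod_cast he
  rw [← ptx_ordPt_lt_iff M τ ha hb, ← mul_pos_iff_of_pos_left he', ptx_mul_ord_div H ha hb]
  omega

/-- **The residue field of the place at `τ` is `ℂ`.** -/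
theorem ptx_residue {τ : ℍ} {w : Place ℂ F} {e : ℕ} (he : 0 < e)
    (H : ∀ f : modFunAlg M, f ≠ 0 →
      ordPt τ (f : ℍ → ℂ) = (e : ℤ) * w.ord (algebraMap (modFunAlg M) F f))
    (x : F) (hx : 0 ≤ w.ord x) :
    ∃ c : ℂ, x = algebraMap ℂ F c ∨ 0 < w.ord (x - algebraMap ℂ F c) := by
  rcases eq_or_ne x 0 with rfl | hx0
  · exact ⟨0, Or.inl (by simp)⟩
  obtain ⟨a, b, hb, rfl⟩ := IsFractionRing.div_surjective (A := modFunAlg M) x
  have hb0 : b ≠ 0 := nonZeroDivisors.ne_zero hb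
  have ha0 : a ≠ 0 := by
    rintro rfl
    simp at hx0
  have hle := (ptx_ord_div_nonneg_iff he H ha0 hb0).mp hx
  obtain ⟨c, hc⟩ := ptx_exists_cancel (ordAt_analyticAt (rc_mdiff M a) τ)
    (ordAt_analyticAt (rc_mdiff M b) τ) (ordAt_ne_top (rc_mdiff M b) (rc_coe_ne_zero M hb0) τ) hle
  refine ⟨c, ?_⟩
  have hdfun : ordAt τ ((a - algebraMap ℂ (modFunAlg M) c * b : modFunAlg M) : ℍ → ℂ) =
      analyticOrderAt (fun z => ((a : ℍ → ℂ) ∘ ofComplex) z - c * ((b : ℍ → ℂ) ∘ ofComplex) z)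
        (τ : ℂ) := rfl
  have hbF := rc_algebraMap_ne_zero F hb0
  have hxc : algebraMap (modFunAlg M) F a / algebraMap (modFunAlg M) F b - algebraMap ℂ F c =
      algebraMap (modFunAlg M) F (a - algebraMap ℂ (modFunAlg M) c * b) /
        algebraMap (modFunAlg M) F b := by
    rw [map_sub, map_mul, ← IsScalarTower.algebraMap_apply ℂ (modFunAlg M) F]
    field_simp
  rcases eq_or_ne (a - algebraMap ℂ (modFunAlg M) c * b) 0 with hd0 | hd0
  · left
    rw [hd0, map_zero, zero_div, sub_eq_zero] at hxc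
    exact hxc
  · right
    rw [hxc, ptx_ord_div_pos_iff he H hd0 hb0, hdfun]
    exact hc

/-- **Expansion in a uniformiser.** If `T` is `ε`-invariant and a uniformiser at `w`, every `f` is
congruent modulo `T ^ n` to an `ε`-invariant element. -/
theorem ptx_expand {τ : ℍ} {w : Place ℂ F} {e : ℕ} (he : 0 < e)
    (H : ∀ f : modFunAlg M, f ≠ 0 →
      ordPt τ (f : ℍ → ℂ) = (e : ℤ) * w.ord (algebraMap (modFunAlg M) F f))
    (ε : SL(2, ℤ)) (T : modFunAlg M)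
    (hTinv : ∀ z, (T : ℍ → ℂ) (ε • z) = (T : ℍ → ℂ) z)
    (hT : w.ord (algebraMap (modFunAlg M) F T) = 1) (f : modFunAlg M) (n : ℕ) :
    ∃ (g : modFunAlg M) (y : F), (∀ z, (g : ℍ → ℂ) (ε • z) = (g : ℍ → ℂ) z) ∧
      algebraMap (modFunAlg M) F f =
        algebraMap (modFunAlg M) F g + algebraMap (modFunAlg M) F T ^ n * y ∧
      0 ≤ w.ord y := by
  have he' : (0 : ℤ) < e := by exact_mod_cast he
  have ht0 : algebraMap (modFunAlg M) F T ≠ 0 := by
    intro h0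
    rw [h0, Place.ord_zero] at hT
    exact zero_ne_one hT
  induction n with
  | zero =>
    refine ⟨0, algebraMap _ F f, fun z => rfl, by simp, ?_⟩
    rcases eq_or_ne f 0 with rfl | hf
    · simp [Place.ord_zero]
    · have h0 : (0 : ℤ) ≤ ordPt τ (f : ℍ → ℂ) := by
        rw [ordPt]
        exact Int.natCast_nonneg _
      rw [H f hf] at h0
      exact (mul_nonneg_iff_of_pos_left he').mp h0
  | succ n ih =>
    obtain ⟨g, y, hg, hfg, hy⟩ := ih
    obtain ⟨c, hc⟩ := ptx_residue he H y hy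
    refine ⟨g + algebraMap ℂ (modFunAlg M) c * T ^ n,
      (y - algebraMap ℂ F c) / algebraMap (modFunAlg M) F T, ?_, ?_, ?_⟩
    · intro z
      show (g : ℍ → ℂ) (ε • z) + c * (T : ℍ → ℂ) (ε • z) ^ n =
        (g : ℍ → ℂ) z + c * (T : ℍ → ℂ) z ^ n
      rw [hg, hTinv]
    · rw [hfg, map_add, map_mul, map_pow, ← IsScalarTower.algebraMap_apply ℂ (modFunAlg M) F]
      field_simp
      ring
    · rcases hc with hc | hc
      · rw [hc, sub_self, zero_div, Place.ord_zero]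
      · have hne : y - algebraMap ℂ F c ≠ 0 := by
          intro h0
          rw [h0, Place.ord_zero] at hc
          exact lt_irrefl _ hc
        rw [div_eq_mul_inv, w.ord_mul hne (inv_ne_zero ht0), w.ord_inv, hT]
        omega

/-- Under the hypotheses of `ptx_expand`, `f ∘ ε − f` vanishes to order `≥ n` at `τ`, for all
`n`. -/
theorem ptx_le_ordAt_comp_sub {τ : ℍ} {w : Place ℂ F} {e : ℕ} (he : 0 < e)
    (H : ∀ f : modFunAlg M, f ≠ 0 →
      ordPt τ (f : ℍ → ℂ) = (e : ℤ) * w.ord (algebraMap (modFunAlg M) F f))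
    {ε : SL(2, ℤ)} (hfix : ε • τ = τ) (T : modFunAlg M)
    (hTinv : ∀ z, (T : ℍ → ℂ) (ε • z) = (T : ℍ → ℂ) z)
    (hT : w.ord (algebraMap (modFunAlg M) F T) = 1) (f : modFunAlg M) (n : ℕ) :
    (n : ℕ∞) ≤ ordAt τ (fun z => (f : ℍ → ℂ) (ε • z) - (f : ℍ → ℂ) z) := by
  obtain ⟨g, y, hg, hfg, hy⟩ := ptx_expand he H ε T hTinv hT f n
  obtain ⟨a, b, hb, rfl⟩ := IsFractionRing.div_surjective (A := modFunAlg M) y
  have hb0 : b ≠ 0 := nonZeroDivisors.ne_zero hb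
  have hbF := rc_algebraMap_ne_zero F hb0
  -- the identity in `modFunAlg M`
  have hid : b * (f - g) = T ^ n * a := by
    apply IsFractionRing.injective (modFunAlg M) F
    rw [map_mul, map_sub, map_mul, map_pow, hfg]
    field_simp
    ring
  have hidz : ∀ z, (b : ℍ → ℂ) z * ((f : ℍ → ℂ) z - (g : ℍ → ℂ) z) =
      (T : ℍ → ℂ) z ^ n * (a : ℍ → ℂ) z := fun z => congrFun (congrArg Subtype.val hid) z
  have hab : ordAt τ (b : ℍ → ℂ) ≤ ordAt τ (a : ℍ → ℂ) := by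
    rcases eq_or_ne a 0 with rfl | ha0
    · rw [show ((0 : modFunAlg M) : ℍ → ℂ) = 0 from rfl, ptx_ordAt_zero]
      exact le_top
    · exact (ptx_ord_div_nonneg_iff he H ha0 hb0).mp hy
  have hT0 : T ≠ 0 := by
    rintro rfl
    simp [Place.ord_zero] at hT
  have hTpos : 1 ≤ ordAt τ (T : ℍ → ℂ) := by
    have h1 := H T hT0
    rw [hT, mul_one] at h1
    have h2 : (1 : ℤ) ≤ ordPt τ (T : ℍ → ℂ) := by
      rw [h1]
      exact_mod_cast he
    rw [← rc_coe_ordPt M τ hT0]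
    rw [ordPt] at h2
    exact_mod_cast h2
  have hbd := rc_mdiff M b
  have had := rc_mdiff M a
  have hbεd : MDiff (fun z => (b : ℍ → ℂ) (ε • z)) := ptx_mdiff_comp_smul hbd ε
  have haεd : MDiff (fun z => (a : ℍ → ℂ) (ε • z)) := ptx_mdiff_comp_smul had ε
  have hDd : MDiff (fun z => (f : ℍ → ℂ) (ε • z) - (f : ℍ → ℂ) z) :=
    (ptx_mdiff_comp_smul (rc_mdiff M f) ε).sub (rc_mdiff M f)
  have hordbε : ordAt τ (fun z => (b : ℍ → ℂ) (ε • z)) = ordAt τ (b : ℍ → ℂ) := by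
    rw [ordAt_comp_smul, hfix]
  have hordaε : ordAt τ (fun z => (a : ℍ → ℂ) (ε • z)) = ordAt τ (a : ℍ → ℂ) := by
    rw [ordAt_comp_smul, hfix]
  have hmain : (b : ℍ → ℂ) * (fun z => (b : ℍ → ℂ) (ε • z)) *
        (fun z => (f : ℍ → ℂ) (ε • z) - (f : ℍ → ℂ) z) =
      (T : ℍ → ℂ) ^ n * ((b : ℍ → ℂ) * (fun z => (a : ℍ → ℂ) (ε • z)) -
        (fun z => (b : ℍ → ℂ) (ε • z)) * (a : ℍ → ℂ)) := by
    funext z
    simp only [Pi.mul_apply, Pi.pow_apply, Pi.sub_apply]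
    have h1 := hidz z
    have h2 := hidz (ε • z)
    rw [hg, hTinv] at h2
    linear_combination ((b : ℍ → ℂ) z) * h2 - ((b : ℍ → ℂ) (ε • z)) * h1
  have hL : ordAt τ ((b : ℍ → ℂ) * (fun z => (b : ℍ → ℂ) (ε • z)) *
        (fun z => (f : ℍ → ℂ) (ε • z) - (f : ℍ → ℂ) z)) =
      (ordAt τ (b : ℍ → ℂ) + ordAt τ (b : ℍ → ℂ)) +
        ordAt τ (fun z => (f : ℍ → ℂ) (ε • z) - (f : ℍ → ℂ) z) := by
    rw [ordAt_mul (hbd.mul hbεd) hDd, ordAt_mul hbd hbεd, hordbε]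
  have hR : (ordAt τ (b : ℍ → ℂ) + ordAt τ (b : ℍ → ℂ)) + (n : ℕ∞) ≤
      ordAt τ ((T : ℍ → ℂ) ^ n * ((b : ℍ → ℂ) * (fun z => (a : ℍ → ℂ) (ε • z)) -
        (fun z => (b : ℍ → ℂ) (ε • z)) * (a : ℍ → ℂ))) := by
    rw [ordAt_mul ((rc_mdiff M T).pow n) ((hbd.mul haεd).sub (hbεd.mul had)),
      ptx_ordAt_pow (rc_mdiff M T), add_comm]
    refine add_le_add ?_ ?_
    · calc (n : ℕ∞) = n • (1 : ℕ∞) := by simp
        _ ≤ n • ordAt τ (T : ℍ → ℂ) := nsmul_le_nsmul_right hTpos n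
    · refine le_trans ?_ (ptx_le_ordAt_sub _ _ τ)
      rw [ordAt_mul hbd haεd, ordAt_mul hbεd had, hordbε, hordaε, min_self]
      exact add_le_add le_rfl hab
  rw [← hmain, hL] at hR
  have hbtop : ordAt τ (b : ℍ → ℂ) + ordAt τ (b : ℍ → ℂ) ≠ ⊤ := by
    have := ordAt_ne_top hbd (rc_coe_ne_zero M hb0) τ
    simp [this]
  exact (ENat.add_le_add_iff_left hbtop).mp hR

/-- Under the hypotheses of `ptx_expand`, every `f ∈ modFunAlg M` is `ε`-invariant. -/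
theorem ptx_comp_eq {τ : ℍ} {w : Place ℂ F} {e : ℕ} (he : 0 < e)
    (H : ∀ f : modFunAlg M, f ≠ 0 →
      ordPt τ (f : ℍ → ℂ) = (e : ℤ) * w.ord (algebraMap (modFunAlg M) F f))
    {ε : SL(2, ℤ)} (hfix : ε • τ = τ) (T : modFunAlg M)
    (hTinv : ∀ z, (T : ℍ → ℂ) (ε • z) = (T : ℍ → ℂ) z)
    (hT : w.ord (algebraMap (modFunAlg M) F T) = 1) (f : modFunAlg M) (z : ℍ) :
    (f : ℍ → ℂ) (ε • z) = (f : ℍ → ℂ) z := by
  have hDd : MDiff (fun z => (f : ℍ → ℂ) (ε • z) - (f : ℍ → ℂ) z) :=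
    (ptx_mdiff_comp_smul (rc_mdiff M f) ε).sub (rc_mdiff M f)
  have htop : ordAt τ (fun z => (f : ℍ → ℂ) (ε • z) - (f : ℍ → ℂ) z) = ⊤ := by
    rw [ENat.eq_top_iff_forall_ge]
    exact fun n => ptx_le_ordAt_comp_sub he H hfix T hTinv hT f n
  by_contra hne
  refine ordAt_ne_top hDd ?_ τ htop
  intro h0
  apply hne
  have := congrFun h0 z
  simpa [sub_eq_zero] using this

end Place

/-! ### The main theorem -/

/-- `J(M ·)` is a modular function of level `Γ₀(M)`. -/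
theorem ptx_isModFun_Jd : IsModFun M (Jd M) := by
  have h := isModFun_Jfun_scaleN M
  convert h using 1
  funext z
  rw [stab_Jd_apply]
  congr 1
  apply UpperHalfPlane.ext
  rw [ModularForm.coe_heckeDiagMatrix_smul (NeZero.ne M), coe_scaleN]

/-- **P-ptX.** Exact ramification at the points of `ℍ`. -/
theorem stmtPtExact (F : Type) [Field F] [Algebra ℂ F] [Algebra (modFunAlg M) F]
    [IsScalarTower ℂ (modFunAlg M) F] [IsFractionRing (modFunAlg M) F] : StmtPtExact M F := by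
  intro τ
  obtain ⟨w, e, he, -, H⟩ := exists_place_pt M F τ
  obtain ⟨ε₀, E, hE, hfix, hprim, hord⟩ := rc_exists_elliptic τ
  by_cases he1 : e = 1
  · subst he1
    refine ⟨w, 1, 1, Subgroup.one_mem _, one_smul _ _, ?_, H⟩
    rw [denom_one_SL, one_pow]
    exact IsPrimitiveRoot.one
  · have hT0 := jSub_ne_zero M (Jfun τ)
    have hordT : ordPt τ (jSub M (Jfun τ) : ℍ → ℂ) = (E : ℤ) := by
      have h2 : ordAt τ (jSub M (Jfun τ) : ℍ → ℂ) = (E : ℕ∞) := hord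
      rw [ordPt, h2]
      simp
    have h1 := H _ hT0
    rw [hordT] at h1
    have hdvd : e ∣ E := by
      have h3 : (e : ℤ) ∣ (E : ℤ) := Dvd.intro _ h1.symm
      exact_mod_cast h3
    have hEprime : E.Prime := by
      rcases hE with hE1 | hEp
      · exfalso
        subst hE1
        exact he1 (Nat.dvd_one.mp hdvd)
      · exact hEp
    have heE : e = E := ((Nat.dvd_prime hEprime).mp hdvd).resolve_left he1
    subst heE
    have hwT : w.ord (algebraMap (modFunAlg M) F (jSub M (Jfun τ))) = 1 := by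
      have he' : (e : ℤ) ≠ 0 := by exact_mod_cast he.ne'
      have h4 : (e : ℤ) * 1 = e * w.ord (algebraMap (modFunAlg M) F (jSub M (Jfun τ))) := by
        rw [mul_one]
        exact h1
      exact (mul_left_cancel₀ he' h4).symm
    have hTinv : ∀ z, (jSub M (Jfun τ) : ℍ → ℂ) (ε₀ • z) = (jSub M (Jfun τ) : ℍ → ℂ) z := by
      intro z
      rw [jSub_apply, jSub_apply, stab_Jfun_SL_smul]
    have hmem : ε₀ ∈ CongruenceSubgroup.Gamma0 M := by
      apply mem_Gamma0_of_Jd_smul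
      intro z
      exact ptx_comp_eq he H hfix _ hTinv hwT ⟨Jd M, ptx_isModFun_Jd M⟩ z
    exact ⟨w, e, ε₀, hmem, hfix, hprim, H⟩

end Fermat.Agent.ES.RC

end
end ZBES_018_3
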