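/- GENERATED FILE (helper35, build-time optimisation, NOTES/ZB.md): verbatim concatenation of the modules
   Fermat.Agent.S16.Defs
   Fermat.Agent.S16.LevelOneBasic
   Fermat.Agent.S16.LevelOne
   Fermat.Agent.S16.Serre
   Fermat.Agent.ES.I2.MFAnalytic
   Fermat.Agent.ES.I2.MFFormal
   Do not edit; do not import together with these modules. -/
import Fermat.Statements.S16
import Mathlib.NumberTheory.ModularForms.EisensteinSeries.E2.Transform
import Mathlib.NumberTheory.ModularForms.Derivative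
import Mathlib.NumberTheory.ModularForms.Discriminant
import Mathlib.NumberTheory.ModularForms.EisensteinSeries.QExpansion
import Fermat.Agent.ZB.ES_018
import Fermat.Agent.ZB.S23_001
import Fermat.Agent.ZB.S24_002
import Fermat.Agent.ZB.S20_004
import Fermat.Agent.ZB.S20_008
import Fermat.Prelude.Thm_ModularForm_levelOne_eq_zero_of_lt_order_qExpansion
import Fermat.Agent.ZB.S20_002
import Fermat.Agent.ZB.S20_001
import Fermat.Agent.ZB.S28_002
import Fermat.Agent.ZB.S28_001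
import Fermat.Agent.ZB.S28_003

/-! ### bundled: `Fermat.Agent.S16.Defs` -/
section ZBS16_001_0
/-
S16 (index of the Eisenstein ideal): shared definitions and the interface between the pieces
(see NOTES/S16-plan.md).  Only definitions here; import this file, do not redefine.
-/

set_option autoImplicit false

open CongruenceSubgroup UpperHalfPlane ModularForm ModularFormClass
open scoped MatrixGroups ModularForm

namespace Fermat.Agent.S16

noncomputable section

/-! ### Arithmetic side -/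

/-- `σ'(k)`: the sum of the divisors of `k` that are prime to `p` (the `q`-coefficients of `δ`). -/
def sigmaP (p k : ℕ) : ℤ := ∑ d ∈ k.divisors.filter (fun d => ¬ p ∣ d), (d : ℤ)

/-- `f` has integral `q`-expansion and `f ≡ δ mod M` (coefficientwise, in degrees `≥ 1`). -/
def IsCongDelta (p M : ℕ) (f : CuspForm (Gamma0 p) 2) : Prop :=
  ∀ k : ℕ, ∃ a : ℤ, qCoeff f k = (a : ℂ) ∧ (1 ≤ k → (M : ℤ) ∣ a - sigmaP p k)

/-- (A) existence: a cusp form congruent to `δ` modulo `n = num((p-1)/12)`. -/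
def StmtA (p : ℕ) : Prop :=
  ∃ f : CuspForm (Gamma0 p) 2, IsCongDelta p (ModularCurve.eisensteinNumerator p) f

/-- (B) upper bound: a cusp form congruent to `δ` modulo `M` forces `M ∣ n`. -/
def StmtB (p : ℕ) : Prop :=
  ∀ M : ℕ, (∃ f : CuspForm (Gamma0 p) 2, IsCongDelta p M f) → M ∣ ModularCurve.eisensteinNumerator p

/-- (A2) the theta input: one form of weight 2 on `Γ0(p)` with `q`-expansion in `1 + 2qℤ[[q]]`. -/
def StmtTheta (p : ℕ) : Prop :=
  ∃ G : ModularForm (Gamma0 p) 2, (qExpansion 1 G).coeff 0 = 1 ∧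
    ∀ n : ℕ, 1 ≤ n → ∃ m : ℤ, (qExpansion 1 G).coeff n = 2 * (m : ℂ)

/-! ### Operators on power series -/

/-- `U_m`: `a_n ↦ a_{mn}`. -/
def Up (m : ℕ) (a : PowerSeries ℂ) : PowerSeries ℂ := PowerSeries.mk fun n => a.coeff (m * n)

/-- `V_m`: `q ↦ q^m`. -/
def Vp (m : ℕ) (a : PowerSeries ℂ) : PowerSeries ℂ :=
  PowerSeries.mk fun n => if m ∣ n then a.coeff (n / m) else 0

/-- `θ = q d/dq`. -/
def theta (a : PowerSeries ℂ) : PowerSeries ℂ := PowerSeries.mk fun n => (n : ℂ) * a.coeff n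

/-- The `q`-expansion `1 - 24 ∑ σ(n) qⁿ` of `E₂`. -/
def e2 : PowerSeries ℂ :=
  PowerSeries.mk fun n => if n = 0 then 1 else -24 * (ArithmeticFunction.sigma 1 n : ℂ)

/-- The `q`-expansion `1 + 240 ∑ σ₃(n) qⁿ` of `E₄`. -/
def e4 : PowerSeries ℂ :=
  PowerSeries.mk fun n => if n = 0 then 1 else 240 * (ArithmeticFunction.sigma 3 n : ℂ)

/-- The `q`-expansion `1 - 504 ∑ σ₅(n) qⁿ` of `E₆`. -/
def e6 : PowerSeries ℂ :=
  PowerSeries.mk fun n => if n = 0 then 1 else -504 * (ArithmeticFunction.sigma 5 n : ℂ)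

/-- The `q`-expansion of `Δ = (E₄³ - E₆²)/1728`. -/
def dl : PowerSeries ℂ := PowerSeries.C ((1728 : ℂ)⁻¹) * (e4 ^ 3 - e6 ^ 2)

/-- The `q`-expansion `(p-1)/24 + ∑ σ'(n) qⁿ` of the Eisenstein series `E` of weight 2 on `Γ0(p)`. -/
def eisP (p : ℕ) : PowerSeries ℂ :=
  PowerSeries.mk fun n => if n = 0 then ((p : ℂ) - 1) / 24 else (sigmaP p n : ℂ)

/-! ### Analytic side: expansions at the two cusps -/

/-- `q`-expansions of modular forms of level one and weight `k`. -/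
def LevelOne (k : ℤ) : Set (PowerSeries ℂ) :=
  {a | ∃ F : ModularForm 𝒮ℒ k, a = qExpansion 1 F}

/-- Pairs (expansion at `∞` in `q`, expansion of `F ∣ S` in `q_p = e(z/p)`) of the modular forms
of weight `k` on `Γ0(p)`. -/
def TwoCusp (p : ℕ) (k : ℤ) : Set (PowerSeries ℂ × PowerSeries ℂ) :=
  {ab | ∃ F : ModularForm (Gamma0 p) k,
    ab.1 = qExpansion 1 F ∧ ab.2 = qExpansion (p : ℝ) (⇑F ∣[k] ModularGroup.S)}

/-- The package of analytic facts used by the arithmetic arguments. To be proved once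
(`Fermat/Agent/S16/Package.lean`); the case analysis takes it as a hypothesis. -/
structure TCPackage (p : ℕ) : Prop where
  add : ∀ {k : ℤ} {x y : PowerSeries ℂ × PowerSeries ℂ}, x ∈ TwoCusp p k → y ∈ TwoCusp p k →
    x + y ∈ TwoCusp p k
  smul : ∀ {k : ℤ} (c : ℂ) {x : PowerSeries ℂ × PowerSeries ℂ}, x ∈ TwoCusp p k →
    (PowerSeries.C c * x.1, PowerSeries.C c * x.2) ∈ TwoCusp p k
  mul : ∀ {k l : ℤ} {x y : PowerSeries ℂ × PowerSeries ℂ}, x ∈ TwoCusp p k → y ∈ TwoCusp p l →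
    (x.1 * y.1, x.2 * y.2) ∈ TwoCusp p (k + l)
  /-- a form of level one, seen on `Γ0(p)` -/
  ofLevelOne : ∀ {k : ℤ} {a : PowerSeries ℂ}, a ∈ LevelOne k → (a, Vp p a) ∈ TwoCusp p k
  /-- `B(pz)` for `B` of level one -/
  ofLevelOneV : ∀ {k : ℤ} {a : PowerSeries ℂ}, a ∈ LevelOne k →
    (Vp p a, PowerSeries.C ((p : ℂ) ^ (-k)) * a) ∈ TwoCusp p k
  /-- the trace to level one -/
  trace : ∀ {k : ℤ} {x : PowerSeries ℂ × PowerSeries ℂ}, x ∈ TwoCusp p k →
    x.1 + PowerSeries.C (p : ℂ) * Up p x.2 ∈ LevelOne k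
  /-- the Fricke involution `F ↦ (F ∣ S)(pz)` -/
  fricke : ∀ {k : ℤ} {x : PowerSeries ℂ × PowerSeries ℂ}, x ∈ TwoCusp p k →
    (x.2, PowerSeries.C ((-(p : ℂ)) ^ (-k)) * x.1) ∈ TwoCusp p k
  /-- the Serre derivative `θ - (k/12) E₂` -/
  serre : ∀ {k : ℤ} {x : PowerSeries ℂ × PowerSeries ℂ}, x ∈ TwoCusp p k →
    (theta x.1 - PowerSeries.C ((k : ℂ) / 12) * (e2 * x.1),
      PowerSeries.C ((p : ℂ)⁻¹) * theta x.2 - PowerSeries.C ((k : ℂ) / 12) * (Vp p e2 * x.2))
        ∈ TwoCusp p (k + 2)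
  /-- the Eisenstein series of weight 2 -/
  eis : ∃ b : PowerSeries ℂ, (eisP p, b) ∈ TwoCusp p 2
  /-- cusp forms are modular forms -/
  ofCusp : ∀ f : CuspForm (Gamma0 p) 2, ∃ b : PowerSeries ℂ, (qExpansion 1 f, b) ∈ TwoCusp p 2
  /-- a form of weight 2 vanishing at `∞` is a cusp form -/
  toCusp : ∀ {x : PowerSeries ℂ × PowerSeries ℂ}, x ∈ TwoCusp p 2 → x.1.coeff 0 = 0 →
    ∃ f : CuspForm (Gamma0 p) 2, qExpansion 1 f = x.1

/-- The package of level-one facts. -/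
structure L1Package : Prop where
  add : ∀ {k : ℤ} {a b : PowerSeries ℂ}, a ∈ LevelOne k → b ∈ LevelOne k → a + b ∈ LevelOne k
  smul : ∀ {k : ℤ} (c : ℂ) {a : PowerSeries ℂ}, a ∈ LevelOne k → PowerSeries.C c * a ∈ LevelOne k
  mul : ∀ {k l : ℤ} {a b : PowerSeries ℂ}, a ∈ LevelOne k → b ∈ LevelOne l →
    a * b ∈ LevelOne (k + l)
  one_mem : (1 : PowerSeries ℂ) ∈ LevelOne 0
  e4_mem : e4 ∈ LevelOne 4
  e6_mem : e6 ∈ LevelOne 6
  dl_mem : dl ∈ LevelOne 12
  /-- `Δ = q ∏ (1 - qⁿ)²⁴` -/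
  dl_coeff_zero : dl.coeff 0 = 0
  dl_coeff_one : dl.coeff 1 = 1
  dl_int : ∀ n : ℕ, ∃ m : ℤ, dl.coeff n = (m : ℂ)
  /-- `θΔ = E₂ Δ` -/
  theta_dl : theta dl = e2 * dl
  /-- valence bound: a form of weight `k` whose coefficients `a_n` vanish for `12 n ≤ k` is zero -/
  sturm : ∀ {k : ℤ} {a : PowerSeries ℂ}, a ∈ LevelOne k →
    (∀ n : ℕ, 12 * (n : ℤ) ≤ k → a.coeff n = 0) → a = 0
  /-- forms of level one have a basis `E₄^i E₆^j Δ^c`: division by `Δ` -/
  div_dl : ∀ {k : ℤ} {a : PowerSeries ℂ}, a ∈ LevelOne k → a.coeff 0 = 0 →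
    ∃ b ∈ LevelOne (k - 12), a = dl * b
  /-- weight `≤ 0` or weight 2 -/
  const_of_nonpos : ∀ {k : ℤ} {a : PowerSeries ℂ}, a ∈ LevelOne k → k ≤ 0 →
    a = PowerSeries.C (a.coeff 0) ∧ (k < 0 → a = 0)
  weight_two : ∀ {a : PowerSeries ℂ}, a ∈ LevelOne 2 → a = 0
  /-- odd weight -/
  odd : ∀ {k : ℤ} {a : PowerSeries ℂ}, a ∈ LevelOne k → ¬ 2 ∣ k → a = 0

/-! ### The reduction of (B) to prime powers -/

/-- `x` is an `ℓ`-integral rational number (as a complex number). -/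
def IsLInt (ℓ : ℕ) (x : ℂ) : Prop := ∃ r : ℚ, (r : ℂ) = x ∧ ¬ ℓ ∣ r.den

/-- `a ≡ b mod ℓ^e` coefficientwise, in `ℤ_(ℓ)[[q]]`. -/
def PSCong (ℓ e : ℕ) (a b : PowerSeries ℂ) : Prop :=
  ∀ n : ℕ, ∃ x : ℂ, IsLInt ℓ x ∧ a.coeff n - b.coeff n = (ℓ : ℂ) ^ e * x

/-- There is no form of weight 2 on `Γ0(p)` whose `q`-expansion at `∞` is `≡ 1 mod ℓ^e`
(`ℓ`-integral coefficients, constant term exactly `1`). -/
def NoG (p ℓ e : ℕ) : Prop :=
  ¬ ∃ x ∈ TwoCusp p 2, x.1.coeff 0 = 1 ∧ PSCong ℓ e x.1 1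

/-- `x ∈ ℓ·ℤ_(ℓ)`. -/
def LDvd (ℓ : ℕ) (x : ℂ) : Prop := ∃ y : ℂ, IsLInt ℓ y ∧ x = (ℓ : ℂ) * y

/-- `x` is a unit of `ℤ_(ℓ)`. -/
def IsLUnit (ℓ : ℕ) (x : ℂ) : Prop := ∃ r : ℚ, (r : ℂ) = x ∧ ¬ ℓ ∣ r.den ∧ ¬ (ℓ : ℤ) ∣ r.num

/-- LEMMA F (filtration): a form of weight `w < 12 s` on `Γ0(p)` cannot be congruent mod `ℓ`, at both
cusps, to a series `κ = unit·q^s + …` "of level one" (`κ(q)` at `∞`, `κ(q_p^p)` at `0`).
Proved in `Filtration.lean` from `TCPackage p` and `L1Package` (for primes `ℓ ≠ p`). -/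
def StmtF (p ℓ : ℕ) : Prop :=
  ∀ (w : ℤ) (x : PowerSeries ℂ × PowerSeries ℂ), x ∈ TwoCusp p w →
    ∀ (κ : PowerSeries ℂ) (s : ℕ), 1 ≤ s → w < 12 * (s : ℤ) →
      (∀ n, IsLInt ℓ (κ.coeff n)) → (∀ n, n < s → LDvd ℓ (κ.coeff n)) → IsLUnit ℓ (κ.coeff s) →
      PSCong ℓ 1 x.1 κ → PSCong ℓ 1 x.2 (Vp p κ) → False

/-- The exponent needed at `ℓ`: `1 + v_ℓ(24 / gcd(p-1,12))`. -/
def expo (p ℓ : ℕ) : ℕ := 1 + padicValNat ℓ (24 / Nat.gcd (p - 1) 12)

end

end Fermat.Agent.S16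


end ZBS16_001_0

/-! ### bundled: `Fermat.Agent.S16.LevelOneBasic` -/
section ZBS16_001_1
/-
S16 piece P-l1 (helper88), part A: closure properties of `LevelOne k` and the identification of
`e4`, `e6`, `dl` with the `q`-expansions of `E₄`, `E₆`, `Δ`.
-/

set_option autoImplicit false

open CongruenceSubgroup UpperHalfPlane ModularForm ModularFormClass EisensteinSeries Derivative
open scoped MatrixGroups ModularForm Manifold

namespace Fermat.Agent.S16

theorem l1_add {k : ℤ} {a b : PowerSeries ℂ} (ha : a ∈ LevelOne k) (hb : b ∈ LevelOne k) :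
    a + b ∈ LevelOne k := by
  obtain ⟨F, rfl⟩ := ha
  obtain ⟨G, rfl⟩ := hb
  exact ⟨F + G, (ModularForm.qExpansion_add one_pos one_mem_strictPeriods_SL F G).symm⟩

theorem l1_smul {k : ℤ} (c : ℂ) {a : PowerSeries ℂ} (ha : a ∈ LevelOne k) :
    PowerSeries.C c * a ∈ LevelOne k := by
  obtain ⟨F, rfl⟩ := ha
  refine ⟨c • F, ?_⟩
  have := ModularForm.qExpansion_smul one_pos one_mem_strictPeriods_SL c F
  rw [← PowerSeries.smul_eq_C_mul]
  exact this.symm

theorem l1_mul {k l : ℤ} {a b : PowerSeries ℂ} (ha : a ∈ LevelOne k) (hb : b ∈ LevelOne l) :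
    a * b ∈ LevelOne (k + l) := by
  obtain ⟨F, rfl⟩ := ha
  obtain ⟨G, rfl⟩ := hb
  exact ⟨F.mul G, (ModularForm.qExpansion_mul one_pos one_mem_strictPeriods_SL F G).symm⟩

theorem l1_one_mem : (1 : PowerSeries ℂ) ∈ LevelOne 0 :=
  ⟨1, (ModularForm.qExpansion_one).symm⟩

theorem l1_e4_eq : e4 = qExpansion 1 E₄ := by
  ext n
  rw [Fermat.Agent.S23.levelOneInt_E4_coeff, e4, PowerSeries.coeff_mk]

theorem l1_e6_eq : e6 = qExpansion 1 E₆ := by
  ext n
  rw [Fermat.Agent.S23.levelOneInt_E6_coeff, e6, PowerSeries.coeff_mk]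

theorem l1_e4_mem : e4 ∈ LevelOne 4 := ⟨E₄, l1_e4_eq⟩

theorem l1_e6_mem : e6 ∈ LevelOne 6 := ⟨E₆, l1_e6_eq⟩

theorem l1_dl_eq : dl = qExpansion 1 ModularForm.discriminant := by
  have h := Fermat.Agent.S23.levelOneInt_discriminant_qExpansion_mul
  rw [← l1_e4_eq, ← l1_e6_eq] at h
  rw [dl, ← h, ← mul_assoc, ← map_mul]
  simp

theorem l1_dl_mem : dl ∈ LevelOne 12 :=
  ⟨(CuspForm.discriminant : CuspForm 𝒮ℒ 12), l1_dl_eq⟩


theorem l1_dl_coeff_zero : dl.coeff 0 = 0 := by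
  rw [l1_dl_eq]
  exact Fermat.Agent.S23.levelOneInt_discriminant_coeff_zero

theorem l1_dl_coeff_one : dl.coeff 1 = 1 := by
  rw [l1_dl_eq]
  exact ModularForm.discriminant_qExpansion_coeff_one

theorem l1_dl_int (n : ℕ) : ∃ m : ℤ, dl.coeff n = (m : ℂ) := by
  rw [l1_dl_eq]
  exact Fermat.Agent.S23.discriminant_qExpansion_int n

/-! ### `θ Δ = E₂ Δ` -/

theorem l1_isHPB_discriminant : Fermat.Agent.S23.IsHPB (ModularForm.discriminant : ℍ → ℂ) := by
  have : Fact (IsCusp OnePoint.infty 𝒮ℒ) :=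
    ⟨Subgroup.isCusp_of_mem_strictPeriods one_pos one_mem_strictPeriods_SL⟩
  exact ⟨ModularFormClass.holo CuspForm.discriminant,
    SlashInvariantFormClass.periodic_comp_ofComplex CuspForm.discriminant one_mem_strictPeriods_SL,
    ModularFormClass.bdd_at_infty CuspForm.discriminant⟩

theorem l1_isHPB_E2 : Fermat.Agent.S23.IsHPB E2 :=
  ⟨E2_mdifferentiable, Fermat.Agent.S20.periodic_E2, isBoundedAtImInfty_E2⟩

end Fermat.Agent.S16


end ZBS16_001_1

/-! ### bundled: `Fermat.Agent.S16.LevelOne` -/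
section ZBS16_001_2
/-
S16 piece P-l1 (helper88), part B: `θ Δ = E₂ Δ`, the valence (Sturm) bound, division by `Δ`,
small weights, and the final `l1Package : L1Package`.
-/

set_option autoImplicit false

open CongruenceSubgroup UpperHalfPlane ModularForm ModularFormClass EisensteinSeries Derivative
open scoped MatrixGroups ModularForm Manifold

namespace Fermat.Agent.S16

theorem l1_e2_eq : e2 = qExpansion 1 E2 := by
  ext n
  have hsum : ∀ τ : ℍ, HasSum (fun m : ℕ ↦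
      (if m = 0 then 1 else -24 * (ArithmeticFunction.sigma 1 m : ℂ) : ℂ) •
      Function.Periodic.qParam 1 τ ^ m) (E2 τ) := fun τ => by
    simpa only [Function.Periodic.qParam, Complex.ofReal_one, div_one] using
      hasSum_qExpansion_E2 (z := τ)
  rw [e2, PowerSeries.coeff_mk]
  exact UpperHalfPlane.qExpansion_coeff_unique
    (c := fun m : ℕ => (if m = 0 then 1 else -24 * (ArithmeticFunction.sigma 1 m : ℂ) : ℂ))
    (ContinuousMap.mk E2 E2_mdifferentiable.continuous) one_pos l1_isHPB_E2.analyticAt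
    (fun τ => hsum τ) n

theorem l1_D_discriminant (z : ℍ) :
    D (ModularForm.discriminant : ℍ → ℂ) z = E2 z * ModularForm.discriminant z := by
  have hz : (z : ℂ) ∈ upperHalfPlaneSet := z.2
  have hdiff : DifferentiableAt ℂ eta (z : ℂ) := differentiableAt_eta_of_mem_upperHalfPlaneSet hz
  have heq : (ModularForm.discriminant ∘ ofComplex) =ᶠ[nhds (z : ℂ)] fun w => eta w ^ 24 := by
    filter_upwards [isOpen_upperHalfPlaneSet.mem_nhds hz] with w hw
    simp [ModularForm.discriminant, ofComplex_apply_of_im_pos hw]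
  have hlog := logDeriv_eta_eq_E2 z
  have hne : eta (z : ℂ) ≠ 0 := eta_ne_zero z.2
  rw [logDeriv_apply, div_eq_iff hne] at hlog
  have hder : deriv (fun w => eta w ^ 24) (z : ℂ) = 24 * eta z ^ 23 * deriv eta z := by
    have := (hdiff.hasDerivAt.pow 24).deriv
    rw [show (fun w => eta w ^ 24) = eta ^ 24 from rfl]
    simpa using this
  rw [normalizedDerivOfComplex, heq.deriv_eq, hder, hlog]
  have h2pi : (2 * (Real.pi : ℂ) * Complex.I) ≠ 0 := by
    simp [Real.pi_ne_zero]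
  simp only [ModularForm.discriminant]
  field_simp
  ring

theorem l1_theta_dl : theta dl = e2 * dl := by
  have h1 : theta dl = qExpansion 1 (D (ModularForm.discriminant : ℍ → ℂ)) := by
    ext n
    rw [Fermat.Agent.S28.qExpansion_D_coeff l1_isHPB_discriminant, theta, PowerSeries.coeff_mk,
      l1_dl_eq]
  have h2 : D (ModularForm.discriminant : ℍ → ℂ) = E2 * (ModularForm.discriminant : ℍ → ℂ) := by
    funext z
    exact l1_D_discriminant z
  rw [h1, h2, qExpansion_mul l1_isHPB_E2.analyticAt l1_isHPB_discriminant.analyticAt, ← l1_e2_eq,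
    ← l1_dl_eq]

/-! ### Valence bound, division by `Δ`, small weights -/

theorem l1_neg_weight {k : ℤ} {a : PowerSeries ℂ} (ha : a ∈ LevelOne k) (hk : k < 0) : a = 0 := by
  obtain ⟨F, rfl⟩ := ha
  have hF : F = 0 := rank_zero_iff_forall_zero.mp (ModularForm.levelOne_neg_weight_rank_zero hk) F
  rw [hF]
  exact qExpansion_zero 1

theorem l1_sturm {k : ℤ} {a : PowerSeries ℂ} (ha : a ∈ LevelOne k)
    (h : ∀ n : ℕ, 12 * (n : ℤ) ≤ k → a.coeff n = 0) : a = 0 := by
  rcases lt_or_ge k 0 with hk | hk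
  · exact l1_neg_weight ha hk
  obtain ⟨F, rfl⟩ := ha
  have hF : F = 0 := by
    apply ModularForm.levelOne_eq_zero_of_lt_order_qExpansion 1 one_pos F
    rw [Nat.cast_one, one_mul]
    have hle : ((k.toNat / 12 + 1 : ℕ) : ℕ∞) ≤ (qExpansion 1 F).order := by
      apply PowerSeries.nat_le_order
      intro i hi
      apply h
      have h1 : i ≤ k.toNat / 12 := by omega
      have h2 : 12 * i ≤ k.toNat := by
        have := Nat.mul_le_mul_left 12 h1
        have h3 := Nat.mul_div_le k.toNat 12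
        omega
      have h3 : (k.toNat : ℤ) = k := Int.toNat_of_nonneg hk
      omega
    refine lt_of_lt_of_le ?_ hle
    exact_mod_cast Nat.lt_succ_self _
  rw [hF]
  exact qExpansion_zero 1

theorem l1_div_dl {k : ℤ} {a : PowerSeries ℂ} (ha : a ∈ LevelOne k) (h0 : a.coeff 0 = 0) :
    ∃ b ∈ LevelOne (k - 12), a = dl * b := by
  obtain ⟨F, rfl⟩ := ha
  obtain ⟨h, hh⟩ := Fermat.Agent.S20.levelOne_eq_delta_mul_of_coeff_zero F h0
  refine ⟨qExpansion 1 h, ⟨h, rfl⟩, ?_⟩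
  have hfun : (F : ℍ → ℂ) = (⇑CuspForm.discriminant * ⇑h : ℍ → ℂ) := by
    funext z
    rw [hh z]
    rfl
  rw [hfun, ModularForm.qExpansion_mul_coe one_pos one_mem_strictPeriods_SL
    CuspForm.discriminant h, l1_dl_eq]
  rfl

theorem l1_const_of_nonpos {k : ℤ} {a : PowerSeries ℂ} (ha : a ∈ LevelOne k) (hk : k ≤ 0) :
    a = PowerSeries.C (a.coeff 0) ∧ (k < 0 → a = 0) := by
  refine ⟨?_, fun hk' => l1_neg_weight ha hk'⟩
  rcases lt_or_eq_of_le hk with hk' | rfl
  · rw [l1_neg_weight ha hk']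
    simp
  · obtain ⟨F, rfl⟩ := ha
    obtain ⟨c, hc⟩ := ModularFormClass.levelOne_weight_zero_const F
    have hF : (F : ℍ → ℂ) = c • (1 : ℍ → ℂ) := by
      rw [hc]
      funext z
      simp
    have hq : qExpansion 1 (F : ℍ → ℂ) = PowerSeries.C c := by
      have han : AnalyticAt ℂ (cuspFunction 1 (1 : ℍ → ℂ)) 0 :=
        (Fermat.Agent.S23.qring_isHPB_const 1).analyticAt
      rw [hF, UpperHalfPlane.qExpansion_smul han, UpperHalfPlane.qExpansion_one,
        PowerSeries.smul_eq_C_mul, mul_one]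
    rw [hq]
    simp

theorem l1_weight_two {a : PowerSeries ℂ} (ha : a ∈ LevelOne 2) : a = 0 := by
  obtain ⟨F, rfl⟩ := ha
  have hF : F = 0 := rank_zero_iff_forall_zero.mp ModularForm.levelOne_weight_two_rank_zero F
  rw [hF]
  exact qExpansion_zero 1

theorem l1_odd {k : ℤ} {a : PowerSeries ℂ} (ha : a ∈ LevelOne k) (hk : ¬ 2 ∣ k) : a = 0 := by
  obtain ⟨F, rfl⟩ := ha
  have hodd : Odd k := by
    rcases Int.even_or_odd k with he | ho
    · exact absurd (even_iff_two_dvd.mp he) hk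
    · exact ho
  rw [ModularForm.levelOne_odd_weight_eq_zero hodd F]
  exact qExpansion_zero 1

/-- **S16, piece P-l1.** The package of level-one facts. -/
theorem l1Package : L1Package where
  add := l1_add
  smul := l1_smul
  mul := l1_mul
  one_mem := l1_one_mem
  e4_mem := l1_e4_mem
  e6_mem := l1_e6_mem
  dl_mem := l1_dl_mem
  dl_coeff_zero := l1_dl_coeff_zero
  dl_coeff_one := l1_dl_coeff_one
  dl_int := l1_dl_int
  theta_dl := l1_theta_dl
  sturm := l1_sturm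
  div_dl := l1_div_dl
  const_of_nonpos := l1_const_of_nonpos
  weight_two := l1_weight_two
  odd := l1_odd

end Fermat.Agent.S16


end ZBS16_001_2

/-! ### bundled: `Fermat.Agent.S16.Serre` -/
section ZBS16_001_3
/-
S16 piece P-se (helper15): the Serre derivative on `Γ0(p)` with both cusp expansions
(`TCPackage.serre`).

* `Serre.qExpansion_E2` : `qExpansion 1 E2 = e2`.
* `Serre.isHPB_comp_scaleN_of_periodic`, `Serre.qExpansion_eq_comp_scaleN` : for a holomorphic,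
  `N`-periodic function `f` bounded at `i∞`: `qExpansion N f = qExpansion 1 (f (N ·))`.
* `Serre.D_comp_scaleN` : `D (f (N ·)) = N · (D f) (N ·)`.
* `Serre.qExpansion_D_of_periodic` : `qExpansion N (D f) = N⁻¹ · θ (qExpansion N f)`.
* `Serre.qExpansion_E2_width` : `qExpansion N E2 = Vp N e2`.
* `Serre.serreMF` : the Serre derivative of a modular form on `Γ0(N)` as a modular form.
* `tc_serre` : the field `serre` of `TCPackage p`.
-/

set_option autoImplicit false

noncomputable section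

namespace Fermat.Agent.S16

open CongruenceSubgroup UpperHalfPlane ModularForm ModularFormClass Derivative EisensteinSeries
open Filter Function
open Fermat.Agent.S23 Fermat.Agent.S24 Fermat.Agent.S28
open scoped MatrixGroups ModularForm Manifold Topology

local notation "𝕢" => Function.Periodic.qParam

namespace Serre

/-! ### Uniqueness of `q`-expansions, for plain functions -/

theorem qExpansion_eq_mk {f : ℍ → ℂ} {h : ℝ} (hh : 0 < h) (hf : MDiff f)
    (han : AnalyticAt ℂ (cuspFunction h f) 0) {c : ℕ → ℂ}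
    (hsum : ∀ τ : ℍ, HasSum (fun m => c m • 𝕢 h τ ^ m) (f τ)) :
    qExpansion h f = PowerSeries.mk c := by
  ext n
  rw [PowerSeries.coeff_mk]
  exact (UpperHalfPlane.qExpansion_coeff_unique (c := c) (ContinuousMap.mk f hf.continuous) hh han
    (fun τ => hsum τ) n).symm

/-! ### `E2` -/

theorem isHPB_E2 : IsHPB E2 :=
  ⟨E2_mdifferentiable, Fermat.Agent.S20.periodic_E2, isBoundedAtImInfty_E2⟩

theorem qExpansion_E2 : qExpansion 1 E2 = e2 := by
  rw [e2]
  refine qExpansion_eq_mk one_pos E2_mdifferentiable isHPB_E2.analyticAt (fun τ => ?_)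
  simpa only [Function.Periodic.qParam, Complex.ofReal_one, div_one] using
    hasSum_qExpansion_E2 (z := τ)

/-! ### Rescaling: width `N` to width `1` -/

section scale

variable (N : ℕ) [NeZero N]

theorem natCast_pos_real : (0 : ℝ) < (N : ℝ) :=
  Nat.cast_pos.mpr (Nat.pos_of_ne_zero (NeZero.ne N))

theorem qParam_width_scaleN (τ : ℍ) : 𝕢 (N : ℝ) (scaleN N τ : ℂ) = 𝕢 1 (τ : ℂ) := by
  have hN : (N : ℂ) ≠ 0 := Nat.cast_ne_zero.mpr (NeZero.ne N)
  simp only [Function.Periodic.qParam, coe_scaleN]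
  congr 1
  push_cast
  field_simp

theorem isHPB_comp_scaleN_of_periodic {f : ℍ → ℂ} (hf : MDiff f)
    (hper : Function.Periodic (f ∘ ofComplex) (N : ℝ)) (hb : IsBoundedAtImInfty f) :
    IsHPB (fun τ => f (scaleN N τ)) := by
  have hN : (0 : ℝ) < (N : ℝ) := natCast_pos_real N
  have hmaps : ∀ w : ℂ, 0 < w.im → 0 < ((N : ℂ) * w).im := by
    intro w hw
    simp only [Complex.mul_im, Complex.natCast_re, Complex.natCast_im, zero_mul, add_zero]
    exact mul_pos hN hw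
  refine ⟨mdiff_comp_scaleN N hf, ?_, hb.comp_tendsto (P7_tendsto_scaleN_atImInfty N)⟩
  intro w
  simp only [Function.comp_apply]
  by_cases hw : 0 < w.im
  · have hw1 : 0 < (w + 1).im := by simpa using hw
    rw [ofComplex_apply_of_im_pos hw, ofComplex_apply_of_im_pos hw1]
    have h := hper ((N : ℂ) * w)
    simp only [Function.comp_apply] at h
    have hw' : 0 < ((N : ℂ) * w).im := hmaps w hw
    have hw1' : 0 < ((N : ℂ) * w + ((N : ℝ) : ℂ)).im := by
      have : ((N : ℂ) * w + ((N : ℝ) : ℂ)) = (N : ℂ) * (w + 1) := by push_cast; ring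
      rw [this]
      exact hmaps _ hw1
    rw [ofComplex_apply_of_im_pos hw1', ofComplex_apply_of_im_pos hw'] at h
    have e1 : scaleN N ⟨w + 1, hw1⟩ = ⟨(N : ℂ) * w + ((N : ℝ) : ℂ), hw1'⟩ := by
      apply UpperHalfPlane.ext
      simp only [coe_scaleN]
      push_cast
      ring
    have e2 : scaleN N ⟨w, hw⟩ = ⟨(N : ℂ) * w, hw'⟩ := by
      apply UpperHalfPlane.ext
      simp only [coe_scaleN]
    rw [e1, e2]
    exact h
  · have hw1 : ¬ 0 < (w + 1).im := by simpa using hw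
    rw [ofComplex_apply_of_im_nonpos (not_lt.mp hw), ofComplex_apply_of_im_nonpos (not_lt.mp hw1)]

/-- The expansion in `q_N = e(z/N)` of an `N`-periodic function is the `q`-expansion of
`z ↦ f (N z)`. -/
theorem qExpansion_eq_comp_scaleN {f : ℍ → ℂ} (hf : MDiff f)
    (hper : Function.Periodic (f ∘ ofComplex) (N : ℝ)) (hb : IsBoundedAtImInfty f) :
    qExpansion (N : ℝ) f = qExpansion 1 (fun τ => f (scaleN N τ)) := by
  have hN : (0 : ℝ) < (N : ℝ) := natCast_pos_real N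
  have hg := isHPB_comp_scaleN_of_periodic N hf hper hb
  have h1 : qExpansion 1 (fun τ => f (scaleN N τ)) =
      PowerSeries.mk (fun n => (qExpansion (N : ℝ) f).coeff n) := by
    refine qExpansion_eq_mk one_pos hg.1 hg.analyticAt (fun τ => ?_)
    have := hasSum_qExpansion (h := (N : ℝ)) hN hper hf hb (scaleN N τ)
    rwa [qParam_width_scaleN] at this
  rw [h1]
  ext n
  simp

/-- Chain rule: `D (f (N ·)) = N · (D f) (N ·)`. -/
theorem D_comp_scaleN (f : ℍ → ℂ) :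
    D (fun τ => f (scaleN N τ)) = fun τ => (N : ℂ) * D f (scaleN N τ) := by
  have hN : (0 : ℝ) < (N : ℝ) := natCast_pos_real N
  funext τ
  simp only [normalizedDerivOfComplex]
  have hev : ((fun τ => f (scaleN N τ)) ∘ ofComplex) =ᶠ[𝓝 (τ : ℂ)]
      (fun w => (f ∘ ofComplex) ((N : ℂ) * w)) := by
    filter_upwards [isOpen_upperHalfPlaneSet.mem_nhds τ.im_pos] with w hw
    have hw0 : 0 < w.im := hw
    have hw' : 0 < ((N : ℂ) * w).im := by
      simp only [Complex.mul_im, Complex.natCast_re, Complex.natCast_im, zero_mul, add_zero]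
      exact mul_pos hN hw0
    simp only [Function.comp_apply]
    rw [ofComplex_apply_of_im_pos hw0, ofComplex_apply_of_im_pos hw']
    rfl
  rw [hev.deriv_eq, deriv_comp_mul_left]
  simp only [smul_eq_mul, coe_scaleN]
  ring

/-- The expansion in `q_N` of `D f`, for `f` of period `N`. -/
theorem qExpansion_D_comp_scaleN {f : ℍ → ℂ} (hf : MDiff f)
    (hper : Function.Periodic (f ∘ ofComplex) (N : ℝ)) (hb : IsBoundedAtImInfty f) :
    IsHPB (fun τ => D f (scaleN N τ)) ∧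
      qExpansion 1 (fun τ => D f (scaleN N τ)) =
        PowerSeries.C ((N : ℂ)⁻¹) * theta (qExpansion (N : ℝ) f) := by
  have hN : (N : ℂ) ≠ 0 := Nat.cast_ne_zero.mpr (NeZero.ne N)
  have hg := isHPB_comp_scaleN_of_periodic N hf hper hb
  have hDg := isHPB_D hg
  have e : (fun τ => D f (scaleN N τ)) = ((N : ℂ)⁻¹) • D (fun τ => f (scaleN N τ)) := by
    rw [D_comp_scaleN]
    funext τ
    simp only [Pi.smul_apply, smul_eq_mul]
    field_simp
  have hsm : IsHPB (((N : ℂ)⁻¹) • D (fun τ => f (scaleN N τ))) := by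
    have := (qring_isHPB_const ((N : ℂ)⁻¹)).mul hDg
    exact this
  refine ⟨e ▸ hsm, ?_⟩
  rw [e, qExpansion_smul hDg.analyticAt, PowerSeries.smul_eq_C_mul]
  congr 1
  ext n
  rw [qExpansion_D_coeff hg, ← qExpansion_eq_comp_scaleN N hf hper hb]
  simp [theta]

/-- The expansion of `E2` in `q_N`. -/
theorem qExpansion_E2_comp_scaleN :
    IsHPB (fun τ => E2 (scaleN N τ)) ∧ qExpansion 1 (fun τ => E2 (scaleN N τ)) = Vp N e2 := by
  refine ⟨bridge_isHPB_comp_scaleN N isHPB_E2, ?_⟩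
  rw [bridge_qExpansion_comp_scaleN N isHPB_E2, qExpansion_E2]
  rfl

end scale

/-! ### The Serre derivative on `Γ0(N)` -/

section level

theorem isBoundedAtImInfty_serreDerivative_of {k : ℤ} {f : ℍ → ℂ} (hf : MDiff f)
    (hb : IsBoundedAtImInfty f) : IsBoundedAtImInfty (serreDerivative k f) := by
  have hD := Fermat.Agent.S20.isBoundedAtImInfty_normalizedDeriv hf hb
  have hE := isBoundedAtImInfty_E2
  have hc : IsBoundedAtImInfty (fun _ : ℍ => (k : ℂ) * 12⁻¹) := Filter.const_boundedAtFilter _ _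
  have h2 : IsBoundedAtImInfty (fun z => (k : ℂ) * 12⁻¹ * E2 z * f z) := (hc.mul hE).mul hb
  exact hD.sub h2

variable {N : ℕ} [NeZero N] {k : ℤ}

/-- The Serre derivative of a modular form on `Γ0(N)`, as a modular form of weight `k + 2`. -/
def serreMF (F : ModularForm (Gamma0 N) k) : ModularForm (Gamma0 N) (k + 2) where
  toFun := serreDerivative k F
  slash_action_eq' := by
    rintro γ ⟨γ', hγ', rfl⟩
    exact serreDerivative_slash_invariant (ModularFormClass.holo F)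
      (SlashInvariantForm.slash_action_eqn F _ ⟨γ', hγ', rfl⟩)
  holo' := serreDerivative_mdifferentiable k (ModularFormClass.holo F)
  bdd_at_cusps' {c} hc := by
    rw [Subgroup.IsArithmetic.isCusp_iff_isCusp_SL2Z] at hc
    rw [OnePoint.isBoundedAt_iff_forall_SL2Z hc]
    intro γ _
    rw [serreDerivative_slash_equivariant (ModularFormClass.holo F)]
    exact isBoundedAtImInfty_serreDerivative_of ((ModularFormClass.holo F).slash k _)
      (ModularFormClass.bdd_at_infty_slash F γ)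

theorem coe_serreMF (F : ModularForm (Gamma0 N) k) :
    (⇑(serreMF F) : ℍ → ℂ) = serreDerivative k F := rfl

end level

/-! ### The cusp `0`: `F ∣ S` -/

section cuspZero

theorem conj_S_coe (N : ℕ) :
    ((ModularGroup.S * ModularGroup.T ^ (N : ℤ) * ModularGroup.S⁻¹ : SL(2, ℤ)) :
      Matrix (Fin 2) (Fin 2) ℤ) = !![1, 0; -(N : ℤ), 1] := by
  rw [Matrix.SpecialLinearGroup.coe_mul, Matrix.SpecialLinearGroup.coe_mul,
    ModularGroup.coe_T_zpow, Matrix.SpecialLinearGroup.coe_inv, ModularGroup.coe_S,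
    Matrix.adjugate_fin_two]
  simp

theorem conj_S_mem_Gamma0 (N : ℕ) :
    ModularGroup.S * ModularGroup.T ^ (N : ℤ) * ModularGroup.S⁻¹ ∈ Gamma0 N := by
  rw [Gamma0_mem, conj_S_coe]
  simp

open ConjAct Pointwise in
/-- `N` is a strict period of `S⁻¹ Γ0(N) S`. -/
theorem natCast_mem_strictPeriods_conj_S (N : ℕ) :
    (N : ℝ) ∈ (toConjAct (Matrix.SpecialLinearGroup.mapGL ℝ ModularGroup.S)⁻¹ •
      ((Gamma0 N).map (Matrix.SpecialLinearGroup.mapGL ℝ))).strictPeriods := by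
  rw [Subgroup.mem_strictPeriods_iff, map_inv, Subgroup.mem_inv_pointwise_smul_iff, toConjAct_smul]
  have hU : Matrix.GeneralLinearGroup.upperRightHom (N : ℝ) =
      Matrix.SpecialLinearGroup.mapGL ℝ (ModularGroup.T ^ (N : ℤ)) := by
    apply Units.ext
    have h1 : ((Matrix.SpecialLinearGroup.mapGL ℝ (ModularGroup.T ^ (N : ℤ)) : GL (Fin 2) ℝ) :
        Matrix (Fin 2) (Fin 2) ℝ) =
        (!![1, (N : ℤ); 0, 1] : Matrix (Fin 2) (Fin 2) ℤ).map (Int.castRingHom ℝ) := by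
      rw [← ModularGroup.coe_T_zpow]
      rfl
    rw [h1]
    ext i j
    fin_cases i <;> fin_cases j <;> simp [Matrix.GeneralLinearGroup.upperRightHom]
  rw [hU, ← map_inv, ← map_mul, ← map_mul]
  exact ⟨_, conj_S_mem_Gamma0 N, rfl⟩

variable {N : ℕ} [NeZero N] {k : ℤ}

/-- `F ∣ S` is holomorphic, `N`-periodic and bounded at `i∞`, for `F` on `Γ0(N)`. -/
theorem slash_S_props (F : ModularForm (Gamma0 N) k) :
    MDiff (⇑F ∣[k] ModularGroup.S) ∧
      Function.Periodic ((⇑F ∣[k] ModularGroup.S) ∘ ofComplex) (N : ℝ) ∧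
      IsBoundedAtImInfty (⇑F ∣[k] ModularGroup.S) := by
  refine ⟨(ModularFormClass.holo F).slash k _, ?_, ModularFormClass.bdd_at_infty_slash F _⟩
  exact SlashInvariantFormClass.periodic_comp_ofComplex
    (ModularForm.translate F (Matrix.SpecialLinearGroup.mapGL ℝ ModularGroup.S))
    (natCast_mem_strictPeriods_conj_S N)

/-- A modular form on `Γ0(N)` is holomorphic, `1`-periodic and bounded at `i∞`. -/
theorem isHPB_of_modularForm (F : ModularForm (Gamma0 N) k) : IsHPB (⇑F) := by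
  have h1 : (1 : ℝ) ∈ ((Gamma0 N).map (Matrix.SpecialLinearGroup.mapGL ℝ)).strictPeriods :=
    CongruenceSubgroup.one_mem_strictPeriods_Gamma0 N
  exact ⟨ModularFormClass.holo F, SlashInvariantFormClass.periodic_comp_ofComplex F h1,
    ModularFormClass.bdd_at_infty F⟩

end cuspZero

/-! ### The two expansions of the Serre derivative -/

section expansions

theorem isHPB_smul {f : ℍ → ℂ} (c : ℂ) (hf : IsHPB f) : IsHPB (c • f) :=
  (qring_isHPB_const c).mul hf

/-- The `q`-expansion of `D f`. -/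
theorem qExpansion_D {f : ℍ → ℂ} (hf : IsHPB f) :
    qExpansion 1 (D f) = theta (qExpansion 1 f) := by
  ext n
  rw [qExpansion_D_coeff hf]
  simp [theta]

/-- The `q`-expansion of the Serre derivative. -/
theorem qExpansion_serreDerivative {k : ℤ} {f : ℍ → ℂ} (hf : IsHPB f) :
    qExpansion 1 (serreDerivative k f) =
      theta (qExpansion 1 f) - PowerSeries.C ((k : ℂ) / 12) * (e2 * qExpansion 1 f) := by
  have e : serreDerivative k f = D f - ((k : ℂ) / 12) • (E2 * f) := by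
    funext z
    simp only [serreDerivative_apply, Pi.sub_apply, Pi.smul_apply, Pi.mul_apply, smul_eq_mul]
    ring
  have hEf : IsHPB (E2 * f) := isHPB_E2.mul hf
  rw [e, qExpansion_sub (isHPB_D hf).analyticAt (isHPB_smul _ hEf).analyticAt,
    qExpansion_smul hEf.analyticAt, qExpansion_mul isHPB_E2.analyticAt hf.analyticAt,
    qExpansion_D hf, qExpansion_E2, PowerSeries.smul_eq_C_mul]

variable (N : ℕ) [NeZero N]

/-- The expansion in `q_N` of the Serre derivative of an `N`-periodic function. -/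
theorem qExpansion_serreDerivative_width {k : ℤ} {f : ℍ → ℂ} (hf : MDiff f)
    (hper : Function.Periodic (f ∘ ofComplex) (N : ℝ)) (hb : IsBoundedAtImInfty f)
    (hper' : Function.Periodic ((serreDerivative k f) ∘ ofComplex) (N : ℝ)) :
    qExpansion (N : ℝ) (serreDerivative k f) =
      PowerSeries.C ((N : ℂ)⁻¹) * theta (qExpansion (N : ℝ) f) -
        PowerSeries.C ((k : ℂ) / 12) * (Vp N e2 * qExpansion (N : ℝ) f) := by
  have hg := isHPB_comp_scaleN_of_periodic N hf hper hb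
  obtain ⟨hD, hDq⟩ := qExpansion_D_comp_scaleN N hf hper hb
  obtain ⟨hE, hEq⟩ := qExpansion_E2_comp_scaleN N
  rw [qExpansion_eq_comp_scaleN N (serreDerivative_mdifferentiable k hf) hper'
    (isBoundedAtImInfty_serreDerivative_of hf hb)]
  have e : (fun τ => serreDerivative k f (scaleN N τ)) =
      (fun τ => D f (scaleN N τ)) -
        ((k : ℂ) / 12) • ((fun τ => E2 (scaleN N τ)) * (fun τ => f (scaleN N τ))) := by
    funext z
    simp only [serreDerivative_apply, Pi.sub_apply, Pi.smul_apply, Pi.mul_apply, smul_eq_mul]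
    ring
  have hEf : IsHPB ((fun τ => E2 (scaleN N τ)) * (fun τ => f (scaleN N τ))) := hE.mul hg
  rw [e, qExpansion_sub hD.analyticAt (isHPB_smul _ hEf).analyticAt,
    qExpansion_smul hEf.analyticAt, qExpansion_mul hE.analyticAt hg.analyticAt,
    hDq, hEq, PowerSeries.smul_eq_C_mul, ← qExpansion_eq_comp_scaleN N hf hper hb]

end expansions

end Serre

/-- **P-se**: the field `serre` of `TCPackage p`. -/
theorem tc_serre (p : ℕ) [NeZero p] {k : ℤ} {x : PowerSeries ℂ × PowerSeries ℂ}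
    (hx : x ∈ TwoCusp p k) :
    (theta x.1 - PowerSeries.C ((k : ℂ) / 12) * (e2 * x.1),
      PowerSeries.C ((p : ℂ)⁻¹) * theta x.2 - PowerSeries.C ((k : ℂ) / 12) * (Vp p e2 * x.2))
        ∈ TwoCusp p (k + 2) := by
  obtain ⟨F, h1, h2⟩ := hx
  refine ⟨Serre.serreMF F, ?_, ?_⟩
  · show theta x.1 - PowerSeries.C ((k : ℂ) / 12) * (e2 * x.1) = _
    rw [h1, Serre.coe_serreMF, Serre.qExpansion_serreDerivative (Serre.isHPB_of_modularForm F)]
  · show PowerSeries.C ((p : ℂ)⁻¹) * theta x.2 -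
      PowerSeries.C ((k : ℂ) / 12) * (Vp p e2 * x.2) = _
    obtain ⟨hf, hper, hb⟩ := Serre.slash_S_props F
    obtain ⟨-, hper', -⟩ := Serre.slash_S_props (Serre.serreMF F)
    have e : (⇑(Serre.serreMF F) ∣[k + 2] ModularGroup.S) =
        serreDerivative k (⇑F ∣[k] ModularGroup.S) := by
      rw [Serre.coe_serreMF]
      exact serreDerivative_slash_equivariant (ModularFormClass.holo F)
    rw [e] at hper' ⊢
    rw [h2, Serre.qExpansion_serreDerivative_width p hf hper hb hper']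

end Fermat.Agent.S16

end
end ZBS16_001_3

/-! ### bundled: `Fermat.Agent.ES.I2.MFAnalytic` -/
section ZBS16_001_4

/-!
# ES / I2-MF, analytic part: Ramanujan's identity for `E₄` and `D J = -E₄² E₆ / Δ`

* `mf_serre_E4` : `∂₄ E₄ = -(1/3) E₆` (Serre derivative; Sturm bound in weight `6`).
* `mf_hTwo_eq` : `Δ² · D J = -Δ E₄² E₆`.
-/

set_option autoImplicit false

noncomputable section

namespace Fermat.Agent.ES.I2

open CongruenceSubgroup UpperHalfPlane ModularForm ModularFormClass Derivative EisensteinSeries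
open Fermat.Agent.S23 Fermat.Agent.S24 Fermat.Agent.S28 Fermat.Agent.S16
open scoped MatrixGroups ModularForm Manifold

local notation "Δ" => ModularForm.discriminant

theorem mf_isMF_E4 : IsMF 𝒮ℒ 4 (E₄ : ℍ → ℂ) := ⟨E₄, rfl⟩

theorem mf_isMF_E6 : IsMF 𝒮ℒ 6 (E₆ : ℍ → ℂ) := ⟨E₆, rfl⟩

/-- the weight `6` form `∂₄ E₄ + (1/3) E₆`. -/
def mfF6 : ℍ → ℂ := serreDerivative (4 : ℤ) (E₄ : ℍ → ℂ) + (1 / 3 : ℂ) • (E₆ : ℍ → ℂ)

theorem mf_isMF_F6 : IsMF 𝒮ℒ 6 mfF6 := by
  have h1 : IsMF 𝒮ℒ 6 (serreDerivative (4 : ℤ) (E₄ : ℍ → ℂ)) :=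
    (Fermat.Agent.S28.CPrime.isMF_serreDerivative mf_isMF_E4).of_weight_eq (by norm_num)
  exact h1.add (mf_isMF_E6.const_smul _)

theorem mf_qExp_F6 :
    qExpansion 1 mfF6 = theta e4 - PowerSeries.C ((4 : ℂ) / 12) * (e2 * e4) +
      PowerSeries.C (1 / 3 : ℂ) * e6 := by
  have h4 : IsHPB (E₄ : ℍ → ℂ) := (IsMF.of_levelOne (N := 1) mf_isMF_E4).isHPB
  have h1 : IsMF (G0 1) 6 (serreDerivative (4 : ℤ) (E₄ : ℍ → ℂ)) :=
    IsMF.of_levelOne ((Fermat.Agent.S28.CPrime.isMF_serreDerivative mf_isMF_E4).of_weight_eq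
      (by norm_num))
  have h6 : IsMF (G0 1) 6 (E₆ : ℍ → ℂ) := IsMF.of_levelOne mf_isMF_E6
  rw [mfF6, IsMF.qExpansion_add h1 (h6.const_smul _), IsMF.qExpansion_smul _ h6,
    Serre.qExpansion_serreDerivative h4, ← l1_e4_eq, ← l1_e6_eq, PowerSeries.smul_eq_C_mul]
  norm_num

theorem mf_F6_eq_zero : mfF6 = 0 := by
  have hF := mf_isMF_F6
  apply IsMF.eq_zero_of_qExpansion_eq_zero (IsMF.of_levelOne (N := 1) hF)
  obtain ⟨F, hFe⟩ := hF
  have hmem : qExpansion 1 mfF6 ∈ LevelOne 6 := ⟨F, by rw [hFe]⟩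
  apply l1_sturm hmem
  intro n hn
  have hn0 : n = 0 := by omega
  subst hn0
  rw [mf_qExp_F6]
  simp only [map_add, map_sub, PowerSeries.coeff_zero_eq_constantCoeff, map_mul,
    PowerSeries.constantCoeff_C]
  simp only [← PowerSeries.coeff_zero_eq_constantCoeff, theta, e2, e4, e6, PowerSeries.coeff_mk]
  norm_num

/-- Ramanujan: `∂₄ E₄ = -(1/3) E₆`. -/
theorem mf_serre_E4 (z : ℍ) : serreDerivative (4 : ℤ) (E₄ : ℍ → ℂ) z = -(1 / 3 : ℂ) * E₆ z := by
  have h := congrFun mf_F6_eq_zero z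
  simp only [mfF6, Pi.add_apply, Pi.smul_apply, smul_eq_mul, Pi.zero_apply] at h
  linear_combination h

/-- Ramanujan: `D E₄ = (E₂ E₄ - E₆)/3`. -/
theorem mf_D_E4 (z : ℍ) : D (E₄ : ℍ → ℂ) z = (E2 z * E₄ z - E₆ z) / 3 := by
  have h := mf_serre_E4 z
  rw [serreDerivative_apply] at h
  push_cast at h
  linear_combination h

/-- `Δ² · D J = -Δ E₄² E₆`. -/
theorem mf_hTwo_eq (z : ℍ) : Fermat.Agent.S28.CPrime.hTwo z = -(Δ z * E₄ z ^ 2 * E₆ z) := by
  have h4 : MDiff (⇑E₄) := E₄.holo'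
  have hD3 : D (fun z : ℍ => E₄ z ^ 3) z = 3 * E₄ z ^ 2 * D (E₄ : ℍ → ℂ) z := by
    have := congrFun (normalizedDerivOfComplex_pow (⇑E₄) 3 h4) z
    simp only [Pi.mul_apply, Pi.pow_apply, Pi.natCast_apply] at this
    have e : (fun z : ℍ => E₄ z ^ 3) = (⇑E₄) ^ 3 := by
      funext w
      simp
    rw [e, this]
    push_cast
    ring
  have h := congrFun Fermat.Agent.S28.CPrime.hTwo_eq z
  simp only [Pi.sub_apply, Pi.mul_apply, serreDerivative_apply] at h
  rw [h, hD3, mf_D_E4, l1_D_discriminant]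
  push_cast
  ring

end Fermat.Agent.ES.I2

end
end ZBS16_001_4

/-! ### bundled: `Fermat.Agent.ES.I2.MFFormal` -/
section ZBS16_001_5

/-!
# ES / I2-MF, formal part: the identities in `ℤ((q))`

With `E4 = mfE4L`, `E6 = mfE6L` (the integral `q`-expansions as Laurent series), `Δ⁻¹ = deltaInvZ`:
* `mf_j_eq`     : `j = E4³ · Δ⁻¹`;
* `mf_j_sub_eq` : `j − 1728 = E6² · Δ⁻¹`;
* `mf_theta_j`  : `θ j = −E4² · E6 · Δ⁻¹`.
-/

set_option autoImplicit false

noncomputable section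

namespace Fermat.Agent.ES.I2

open CongruenceSubgroup UpperHalfPlane ModularForm ModularFormClass Derivative EisensteinSeries
open HahnSeries ModularCurve
open Fermat.Agent.S23 Fermat.Agent.S24 Fermat.Agent.S28 Fermat.Agent.S16 Fermat.Agent.INJ.HM
open Fermat.Agent.S28.Deriv
open scoped MatrixGroups ModularForm Manifold

local notation "Δ" => ModularForm.discriminant

/-- the integral `q`-expansion `1 - 504 ∑ σ₅(n) qⁿ` of `E₆`. -/
def mfE6 : PowerSeries ℤ :=
  PowerSeries.mk fun n => if n = 0 then 1 else -504 * ∑ d ∈ n.divisors, (d : ℤ) ^ 5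

theorem mf_qExp_E6 : qExpansion 1 E₆ = hmC mfE6 := by
  ext n
  rw [levelOneInt_E6_coeff, hmC, PowerSeries.coeff_map, mfE6, PowerSeries.coeff_mk]
  split_ifs with h
  · simp
  · simp [ArithmeticFunction.sigma_apply]

/-- `E₄` as a Laurent series over `ℤ`. -/
def mfE4L : LaurentSeries ℤ := HahnSeries.ofPowerSeries ℤ ℤ eisenstein4

/-- `E₆` as a Laurent series over `ℤ`. -/
def mfE6L : LaurentSeries ℤ := HahnSeries.ofPowerSeries ℤ ℤ mfE6

theorem mf_coeffMap_E4L :
    coeffMap (Int.castRingHom ℂ) mfE4L = HahnSeries.ofPowerSeries ℤ ℂ (qExpansion 1 E₄) := by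
  rw [mfE4L, coeffMap_ofPowerSeries, hm_qExp_E4]

theorem mf_coeffMap_E6L :
    coeffMap (Int.castRingHom ℂ) mfE6L = HahnSeries.ofPowerSeries ℤ ℂ (qExpansion 1 E₆) := by
  rw [mfE6L, coeffMap_ofPowerSeries, mf_qExp_E6]

theorem mf_deltaZ_eq :
    deltaZ = HahnSeries.ofPowerSeries ℤ ℤ (PowerSeries.X * dedekindEtaUnit) := by
  rw [deltaZ, map_mul, HahnSeries.ofPowerSeries_X]

/-- `E₄³ − E₆² = 1728 Δ` in `ℤ[[q]]`. -/
theorem mf_ps_disc :
    eisenstein4 ^ 3 - mfE6 ^ 2 = PowerSeries.C (1728 : ℤ) * (PowerSeries.X * dedekindEtaUnit) := by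
  apply hmC_injective
  have h := levelOneInt_discriminant_qExpansion_mul
  rw [hm_qExp_E4, mf_qExp_E6, hm_qExp_Delta] at h
  have e1 : hmC (PowerSeries.C (1728 : ℤ)) = PowerSeries.C (1728 : ℂ) := by
    rw [hmC, PowerSeries.map_C]
    simp
  have e2 : hmC (PowerSeries.X : PowerSeries ℤ) = PowerSeries.X := PowerSeries.map_X _
  rw [map_sub, map_pow, map_pow, map_mul, map_mul, e1, e2, ← h]

/-- `E₄³ − E₆² = 1728 Δ` in `ℤ((q))`. -/
theorem mf_disc : mfE4L ^ 3 - mfE6L ^ 2 = 1728 * deltaZ := by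
  have h := congrArg (HahnSeries.ofPowerSeries ℤ ℤ) mf_ps_disc
  rw [map_sub, map_pow, map_pow, map_mul, ← mf_deltaZ_eq] at h
  rw [mfE4L, mfE6L, h]
  congr 1
  rw [HahnSeries.ofPowerSeries_C]
  simp

theorem mf_deltaInvZ_mul : deltaInvZ * deltaZ = 1 := by
  rw [mul_comm]
  exact deltaZ_mul_deltaInvZ

/-- `j = E₄³ Δ⁻¹`. -/
theorem mf_j_eq : jqModC ℤ = mfE4L ^ 3 * deltaInvZ := by
  have h : jNum.map (Int.castRingHom ℤ) = jNum := by
    ext n
    simp
  rw [jqModC, h, jNum, map_mul, map_pow, mfE4L, deltaInvZ]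
  ring

/-- `j − 1728 = E₆² Δ⁻¹`. -/
theorem mf_j_sub_eq : jqModC ℤ - 1728 = mfE6L ^ 2 * deltaInvZ := by
  rw [mf_j_eq]
  have h := mf_disc
  have h2 := mf_deltaInvZ_mul
  linear_combination deltaInvZ * h + 1728 * h2

/-- `θ j = −E₄² E₆ Δ⁻¹`. -/
theorem mf_theta_j : thetaFun (jqModC ℤ) = -(mfE4L ^ 2 * mfE6L * deltaInvZ) := by
  apply coeffMap_injective (g := Int.castRingHom ℂ) Int.cast_injective
  rw [← thetaFun_coeffMap, coeffMap_jqModC, map_neg, map_mul, map_mul, map_pow, mf_coeffMap_E4L,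
    mf_coeffMap_E6L]
  have hD : coeffMap (Int.castRingHom ℂ) deltaInvZ = deltaL⁻¹ := deltaInvS_complex
  rw [hD]
  -- the analytic identity
  have h4 : IsMF (G0 1) 4 (E₄ : ℍ → ℂ) := IsMF.of_levelOne mf_isMF_E4
  have h6 : IsMF (G0 1) 6 (E₆ : ℍ → ℂ) := IsMF.of_levelOne mf_isMF_E6
  have hΔ : IsHPB (Δ : ℍ → ℂ) := bridge_isHPB_discriminant
  have m4 := IsHPB.isMerInf h4.isHPB
  have m6 := IsHPB.isMerInf h6.isHPB
  have mΔ := isMerInf_discriminant
  have hfun : Fermat.Agent.S28.CPrime.hTwo = -((Δ : ℍ → ℂ) * (E₄ : ℍ → ℂ) ^ 2 * (E₆ : ℍ → ℂ)) := by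
    funext z
    rw [mf_hTwo_eq]
    simp
  have hfun2 : Fermat.Agent.S28.CPrime.hTwo = ((Δ : ℍ → ℂ) ^ 2) * D Jfun := by
    funext z
    simp [Fermat.Agent.S28.CPrime.hTwo]
  have hΔ2 : IsMerInf ((Δ : ℍ → ℂ) ^ 2) :=
    Subalgebra.pow_mem merInf (x := (Δ : ℍ → ℂ)) isMerInf_discriminant 2
  have m42 : IsMerInf ((E₄ : ℍ → ℂ) ^ 2) :=
    Subalgebra.pow_mem merInf (x := (E₄ : ℍ → ℂ)) m4 2
  have e1 : laurentOf Fermat.Agent.S28.CPrime.hTwo
      = deltaL ^ 2 * thetaFun (jqModC ℂ) := by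
    rw [hfun2, laurentOf_mul hΔ2 Fermat.Agent.S28.CPrime.isMerInf_DJ,
      laurentOf_pow isMerInf_discriminant, laurentOf_discriminant,
      Fermat.Agent.S28.CPrime.laurentOf_DJ Fermat.Agent.S28.CPrime.derivBridgeStmt]
  have e2 : laurentOf Fermat.Agent.S28.CPrime.hTwo
      = -(deltaL * HahnSeries.ofPowerSeries ℤ ℂ (qExpansion 1 E₄) ^ 2 *
          HahnSeries.ofPowerSeries ℤ ℂ (qExpansion 1 E₆)) := by
    have hneg : -((Δ : ℍ → ℂ) * (E₄ : ℍ → ℂ) ^ 2 * (E₆ : ℍ → ℂ))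
        = (-1 : ℂ) • ((Δ : ℍ → ℂ) * (E₄ : ℍ → ℂ) ^ 2 * (E₆ : ℍ → ℂ)) := by
      simp
    rw [hfun, hneg, laurentOf_smul (-1) ((mΔ.mul m42).mul m6), laurentOf_mul (mΔ.mul m42) m6,
      laurentOf_mul mΔ m42, laurentOf_pow m4, laurentOf_discriminant,
      laurentOf_of_isHPB h4.isHPB, laurentOf_of_isHPB h6.isHPB]
    simp
  have hne : deltaL ≠ 0 := deltaL_ne_zero
  have key : deltaL ^ 2 * thetaFun (jqModC ℂ) =
      deltaL ^ 2 * (-(HahnSeries.ofPowerSeries ℤ ℂ (qExpansion 1 E₄) ^ 2 *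
        HahnSeries.ofPowerSeries ℤ ℂ (qExpansion 1 E₆) * deltaL⁻¹)) := by
    rw [← e1, e2]
    field_simp
  exact mul_left_cancel₀ (pow_ne_zero 2 hne) key

end Fermat.Agent.ES.I2

end
end ZBS16_001_5
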