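/- GENERATED FILE (helper35, build-time optimisation, NOTES/ZB.md): verbatim concatenation of the modules
   Fermat.Agent.S20.Count
   Do not edit; do not import together with these modules. -/
import Mathlib.NumberTheory.ModularForms.LevelOne.DimensionFormula
import Fermat.Agent.ZB.UNIP_005

/-! ### bundled: `Fermat.Agent.S20.Count` -/
section ZBS20_010_0
/-
S20, package COUNT: the arithmetic of the level-one dimension formula.
Pure arithmetic on top of Mathlib's `ModularForm.dimension_level_one`.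
-/

set_option autoImplicit false
set_option linter.unusedVariables false

open UpperHalfPlane ModularForm
open scoped MatrixGroups

namespace Fermat.Agent.S20

/-- The level-one dimension, as an integer-valued function of the (even) weight. -/
def count_m (k : ℤ) : ℤ :=
  if k < 0 then 0 else if k % 12 = 2 then k / 12 else k / 12 + 1

/-- `(-1)^(k/2)` as an integer. -/
def count_d (k : ℤ) : ℤ := if (k / 2) % 2 = 0 then 1 else -1

/-- `ω^(k/2) + ω^(2(k/2))` as an integer. -/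
def count_t (k : ℤ) : ℤ := if (k / 2) % 3 = 0 then 2 else -1

theorem count_finrank_M (k : ℤ) (hk : Even k) :
    (Module.finrank ℂ (ModularForm 𝒮ℒ k) : ℤ) = count_m k := by
  unfold count_m
  rcases lt_or_ge k 0 with hneg | hnn
  · rw [if_pos hneg]
    have h := ModularForm.levelOne_neg_weight_rank_zero hneg
    have : Module.finrank ℂ (ModularForm 𝒮ℒ k) = 0 := by
      rw [Module.finrank, h]; simp
    rw [this]; rfl
  · rw [if_neg (not_lt.mpr hnn)]
    lift k to ℕ using hnn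
    have hk' : Even k := by exact_mod_cast hk
    have h := ModularForm.dimension_level_one k hk'
    have hfin : Module.finrank ℂ (ModularForm 𝒮ℒ (k : ℤ)) =
        if k % 12 = 2 then k / 12 else k / 12 + 1 := by
      rw [Module.finrank, h]
      exact Cardinal.toNat_natCast _
    rw [hfin]
    by_cases h1 : k % 12 = 2
    · rw [if_pos h1, if_pos (by omega)]; omega
    · rw [if_neg h1, if_neg (by omega)]; omega

theorem count_finrank_S (k : ℤ) (hk : Even k) :
    (Module.finrank ℂ (CuspForm 𝒮ℒ k) : ℤ) = count_m (k - 12) := by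
  have h : Module.finrank ℂ (CuspForm 𝒮ℒ k) = Module.finrank ℂ (ModularForm 𝒮ℒ (k - 12)) :=
    LinearEquiv.finrank_eq CuspForm.discriminantEquiv
  rw [h]
  exact count_finrank_M (k - 12) (hk.sub ⟨6, rfl⟩)

theorem count_m_A (t r : ℤ) (ht : 0 ≤ t) (hr0 : 0 ≤ r) (hr6 : r < 6) :
    count_m (2 + (12 * t + 2 * r) - 12) =
      if r = 5 then t + 1 else if r = 0 then (if t = 0 then 0 else t - 1) else t := by
  unfold count_m
  interval_cases r <;> (split_ifs <;> omega)

theorem count_m_C (t r : ℤ) (ht : 0 ≤ t) (hr0 : 0 ≤ r) (hr6 : r < 6) :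
    count_m (0 - (12 * t + 2 * r)) = if r = 0 then (if t = 0 then 1 else 0) else 0 := by
  unfold count_m
  interval_cases r <;> (split_ifs <;> omega)

theorem count_m_M1 (t r L : ℤ) (ht : 0 ≤ t) (hr0 : 0 ≤ r) (hr6 : r < 6)
    (hL : 12 * t + 2 * r + 4 ≤ 12 * L) :
    count_m (12 * L - (12 * t + 2 * r)) =
      if r = 0 then L - t + 1 else if r = 5 then L - t - 1 else L - t := by
  unfold count_m
  interval_cases r <;> (split_ifs <;> omega)

theorem count_m_M2 (t r L : ℤ) (ht : 0 ≤ t) (hr0 : 0 ≤ r) (hr6 : r < 6)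
    (hL : 12 * t + 2 * r + 4 ≤ 12 * L) :
    count_m (12 * L + (12 * t + 2 * r) - 12) = if r = 1 then L + t - 1 else L + t := by
  unfold count_m
  interval_cases r <;> (split_ifs <;> omega)

theorem count_d_D (t r : ℤ) (hr0 : 0 ≤ r) (hr6 : r < 6) :
    count_d (12 * t + 2 * r) = if r = 0 ∨ r = 2 ∨ r = 4 then 1 else -1 := by
  unfold count_d
  interval_cases r <;> (split_ifs <;> omega)

theorem count_t_T (t r : ℤ) (hr0 : 0 ≤ r) (hr6 : r < 6) :
    count_t (12 * t + 2 * r) = if r = 0 ∨ r = 3 then 2 else -1 := by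
  unfold count_t
  interval_cases r <;> (split_ifs <;> omega)

/-- The pointwise identity. -/
theorem count_pointwise (k l : ℤ) (hk0 : 0 ≤ k) (hk : Even k) (hl : (12 : ℤ) ∣ l) (hkl : k + 4 ≤ l) :
    12 * count_m (2 + k - 12) = 12 * count_m (0 - k) + 1 - 3 * count_d k - 2 * count_t k
      - 6 * (count_m (l - k) - count_m (l + k - 12)) := by
  obtain ⟨L, rfl⟩ := hl
  obtain ⟨t, r, ht, hr0, hr6, rfl⟩ : ∃ t r : ℤ, 0 ≤ t ∧ 0 ≤ r ∧ r < 6 ∧ k = 12 * t + 2 * r := by
    obtain ⟨j, rfl⟩ := hk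
    exact ⟨j / 6, j % 6, by omega, by omega, by omega, by omega⟩
  rw [count_m_A t r ht hr0 hr6, count_m_C t r ht hr0 hr6, count_m_M1 t r L ht hr0 hr6 hkl,
    count_m_M2 t r L ht hr0 hr6 hkl, count_d_D t r hr0 hr6, count_t_T t r hr0 hr6]
  interval_cases r <;> (split_ifs <;> omega)

theorem count_neg_one_zpow (k : ℤ) : ((-1 : ℂ) ^ (k / 2)) = (count_d k : ℂ) := by
  unfold count_d
  split_ifs with h
  · have : Even (k / 2) := Int.even_iff.mpr h
    rw [this.neg_one_zpow]; simp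
  · have : Odd (k / 2) := Int.odd_iff.mpr (by omega)
    rw [this.neg_one_zpow]; simp

/-- indicator of `(k/2) % 3 = r`. -/
def count_ind (r : ℤ) (k : ℤ) : ℤ := if (k / 2) % 3 = r then 1 else 0

theorem count_omega_zpow (ω : ℂ) (hω : ω ^ 3 = 1) (k : ℤ) :
    ω ^ (k / 2) = (count_ind 0 k : ℂ) + (count_ind 1 k : ℂ) * ω + (count_ind 2 k : ℂ) * ω ^ 2 := by
  have hω0 : ω ≠ 0 := by
    rintro rfl
    norm_num at hω
  have hdecomp : k / 2 = 3 * (k / 2 / 3) + (k / 2) % 3 := by omega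
  have h3 : ω ^ (3 : ℤ) = 1 := by exact_mod_cast hω
  have key : ω ^ (k / 2) = ω ^ ((k / 2) % 3) := by
    conv_lhs => rw [hdecomp]
    rw [zpow_add₀ hω0, zpow_mul, h3, one_zpow, one_mul]
  rw [key]
  have hr : (k / 2) % 3 = 0 ∨ (k / 2) % 3 = 1 ∨ (k / 2) % 3 = 2 := by omega
  unfold count_ind
  rcases hr with h | h | h <;> rw [h] <;> simp

theorem count_t_eq (k : ℤ) : count_t k = 2 * count_ind 0 k - count_ind 1 k - count_ind 2 k := by
  unfold count_t count_ind
  split_ifs <;> omega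

theorem count_core {ι : Type} [Fintype ι] (wt : ι → ℤ) (hwt0 : ∀ i, 0 ≤ wt i)
    (hev : ∀ i, Even (wt i)) (f2 f3 κ s2 : ℕ)
    (ω : ℂ) (hω : ω ^ 3 = 1) (hω1 : ω ≠ 1)
    (hS2 : s2 = ∑ i, Module.finrank ℂ (CuspForm 𝒮ℒ (2 + wt i)))
    (hMS : ∃ l : ℤ, (∀ i, wt i + 4 ≤ l) ∧ (12 : ℤ) ∣ l ∧
        ∑ i, Module.finrank ℂ (ModularForm 𝒮ℒ (l - wt i)) =
          ∑ i, Module.finrank ℂ (CuspForm 𝒮ℒ (l + wt i)) + κ)
    (hM0 : ∑ i, Module.finrank ℂ (ModularForm 𝒮ℒ (0 - wt i)) = 1)
    (hf2 : ∑ i, (-1 : ℂ) ^ (wt i / 2) = f2) (hf3 : ∑ i, ω ^ (wt i / 2) = f3) :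
    (s2 : ℚ) = 1 + (Fintype.card ι : ℚ) / 12 - (f2 : ℚ) / 4 - (f3 : ℚ) / 3 - (κ : ℚ) / 2 := by
  obtain ⟨l, hl4, hl12, hMS⟩ := hMS
  have hevl : Even l := by
    obtain ⟨L, rfl⟩ := hl12
    exact ⟨6 * L, by ring⟩
  -- integer versions of the hypotheses
  have hS2' : (s2 : ℤ) = ∑ i, count_m (2 + wt i - 12) := by
    rw [hS2]; push_cast
    exact Finset.sum_congr rfl fun i _ => count_finrank_S _ ((even_two (α := ℤ)).add (hev i))
  have hMS' : ∑ i, count_m (l - wt i) - ∑ i, count_m (l + wt i - 12) = (κ : ℤ) := by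
    have h := congrArg (Nat.cast : ℕ → ℤ) hMS
    push_cast at h
    have e1 : ∑ i, (Module.finrank ℂ (ModularForm 𝒮ℒ (l - wt i)) : ℤ) = ∑ i, count_m (l - wt i) :=
      Finset.sum_congr rfl fun i _ => count_finrank_M _ (hevl.sub (hev i))
    have e2 : ∑ i, (Module.finrank ℂ (CuspForm 𝒮ℒ (l + wt i)) : ℤ) =
        ∑ i, count_m (l + wt i - 12) :=
      Finset.sum_congr rfl fun i _ => count_finrank_S _ (hevl.add (hev i))
    rw [← e1, ← e2, h]; ring
  have hM0' : ∑ i, count_m (0 - wt i) = 1 := by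
    have h := congrArg (Nat.cast : ℕ → ℤ) hM0
    push_cast at h
    rw [← h]
    exact (Finset.sum_congr rfl fun i _ =>
      count_finrank_M _ ((Even.zero (α := ℤ)).sub (hev i))).symm
  have hf2' : ∑ i, count_d (wt i) = (f2 : ℤ) := by
    have h : ((∑ i, count_d (wt i) : ℤ) : ℂ) = ((f2 : ℤ) : ℂ) := by
      push_cast
      rw [← hf2]
      exact Finset.sum_congr rfl fun i _ => (count_neg_one_zpow _).symm
    exact_mod_cast h
  -- the cube root of unity part
  have hω2 : ω ^ 2 + ω + 1 = 0 := by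
    have h : (ω - 1) * (ω ^ 2 + ω + 1) = 0 := by ring_nf; rw [hω]; ring
    rcases mul_eq_zero.mp h with h | h
    · exact absurd (sub_eq_zero.mp h) hω1
    · exact h
  set A : ℤ := ∑ i, count_ind 0 (wt i) with hA
  set B : ℤ := ∑ i, count_ind 1 (wt i) with hB
  set C : ℤ := ∑ i, count_ind 2 (wt i) with hC
  have hsum : (A : ℂ) + (B : ℂ) * ω + (C : ℂ) * ω ^ 2 = (f3 : ℂ) := by
    rw [← hf3, hA, hB, hC]
    push_cast
    rw [Finset.sum_mul, Finset.sum_mul, ← Finset.sum_add_distrib, ← Finset.sum_add_distrib]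
    exact Finset.sum_congr rfl fun i _ => (count_omega_zpow ω hω _).symm
  -- `x ω = y` with `x = B - C`, `y = f3 - A + C`
  have hxy : ((B - C : ℤ) : ℂ) * ω = ((f3 - A + C : ℤ) : ℂ) := by
    have hω2' : ω ^ 2 = -1 - ω := by linear_combination hω2
    rw [hω2'] at hsum
    push_cast
    linear_combination hsum
  have hquad : ((f3 - A + C : ℤ) ^ 2 + (B - C) * (f3 - A + C) + (B - C) ^ 2 : ℤ) = 0 := by
    have h : (((f3 - A + C : ℤ) ^ 2 + (B - C) * (f3 - A + C) + (B - C) ^ 2 : ℤ) : ℂ) = 0 := by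
      push_cast
      push_cast at hxy
      rw [← hxy]
      linear_combination ((B : ℂ) - C) ^ 2 * hω2
    exact_mod_cast h
  have hBC : B - C = 0 := by
    by_contra hne
    have h1 : 0 < (B - C) ^ 2 := by positivity
    nlinarith [sq_nonneg (2 * (f3 - A + C) + (B - C))]
  have hAC : (f3 : ℤ) - A + C = 0 := by
    rw [hBC] at hquad
    have : ((f3 : ℤ) - A + C) ^ 2 = 0 := by linarith
    exact pow_eq_zero_iff (two_ne_zero) |>.mp this
  have ht : ∑ i, count_t (wt i) = 2 * (f3 : ℤ) := by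
    have : ∑ i, count_t (wt i) = 2 * A - B - C := by
      rw [hA, hB, hC, Finset.mul_sum, ← Finset.sum_sub_distrib, ← Finset.sum_sub_distrib]
      exact Finset.sum_congr rfl fun i _ => count_t_eq _
    rw [this]; linarith
  -- sum the pointwise identity
  have hpt : ∑ i, (12 * count_m (2 + wt i - 12)) = ∑ i, (12 * count_m (0 - wt i) + 1
      - 3 * count_d (wt i) - 2 * count_t (wt i)
      - 6 * (count_m (l - wt i) - count_m (l + wt i - 12))) :=
    Finset.sum_congr rfl fun i _ => count_pointwise (wt i) l (hwt0 i) (hev i) hl12 (hl4 i)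
  simp only [Finset.sum_sub_distrib, Finset.sum_add_distrib, ← Finset.mul_sum,
    Finset.sum_const, Finset.card_univ, nsmul_eq_mul, mul_one] at hpt
  rw [← hS2', hM0', hf2', ht, hMS'] at hpt
  have hq : (12 : ℚ) * s2 = 12 * 1 + (Fintype.card ι : ℚ) - 3 * f2 - 2 * (2 * f3) - 6 * κ := by
    exact_mod_cast hpt
  linarith

end Fermat.Agent.S20


end ZBS20_010_0
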