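/- GENERATED FILE (helper35, build-time optimisation, NOTES/ZB.md): verbatim concatenation of the modules
   Fermat.Agent.S20.DivSimple
   Fermat.Agent.S20.LevelOneLocal
   Fermat.Agent.S20
   Fermat.Agent.ES.RiemannCount
   Do not edit; do not import together with these modules. -/
import Mathlib
import Fermat.Agent.ZB.S16_001
import Fermat.Agent.ZB.S20_004
import Fermat.Agent.ZB.S24_003
import Fermat.Agent.ZB.S20_008
import Fermat.Statements.S20
import Fermat.Agent.ZB.S20_003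
import Fermat.Agent.ZB.S20_006
import Fermat.Agent.ZB.S20_005
import Fermat.Agent.ZB.S20_001
import Fermat.Agent.ZB.S20_010
import Fermat.Agent.ZB.S20_011

/-! ### bundled: `Fermat.Agent.S20.DivSimple` -/
section ZBS20_009_0
/-
S20 package C-c (helper87): division by a holomorphic function with simple zeros.

* `exists_div_of_simple_zeros`: if `P, h : ℍ → ℂ` are holomorphic, all zeros of `P` are simple
  and `h` vanishes at every zero of `P`, then `h = P * g` with `g` holomorphic on `ℍ`.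
-/

set_option autoImplicit false

open UpperHalfPlane Filter Topology
open scoped Manifold

namespace Fermat.Agent.S20

/-- Local statement on `ℂ`: if `p, q` are differentiable near `z₀`, `p z₀ = 0 = q z₀` and
`deriv p z₀ ≠ 0`, then the function `z ↦ q z / p z` (with value `q'(z)/p'(z)` at the zeros of `p`)
is differentiable at `z₀`. -/
theorem divSimple_differentiableAt_zero {p q : ℂ → ℂ} {U : Set ℂ} (hU : IsOpen U)
    (hp : DifferentiableOn ℂ p U) (hq : DifferentiableOn ℂ q U) {z₀ : ℂ} (hz₀ : z₀ ∈ U)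
    (hp0 : p z₀ = 0) (hq0 : q z₀ = 0) (hp' : deriv p z₀ ≠ 0) :
    DifferentiableAt ℂ (fun z => if p z = 0 then deriv q z / deriv p z else q z / p z) z₀ := by
  have hUn : U ∈ 𝓝 z₀ := hU.mem_nhds hz₀
  have hdp : DifferentiableAt ℂ (dslope p z₀) z₀ :=
    ((Complex.differentiableOn_dslope hUn).2 hp).differentiableAt hUn
  have hdq : DifferentiableAt ℂ (dslope q z₀) z₀ :=
    ((Complex.differentiableOn_dslope hUn).2 hq).differentiableAt hUn
  have hne : dslope p z₀ z₀ ≠ 0 := by rwa [dslope_same]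
  have hG : DifferentiableAt ℂ (fun z => dslope q z₀ z / dslope p z₀ z) z₀ := hdq.div hdp hne
  have hev : ∀ᶠ z in 𝓝 z₀, dslope p z₀ z ≠ 0 := hdp.continuousAt.eventually_ne hne
  refine hG.congr_of_eventuallyEq ?_
  filter_upwards [hev] with z hz
  by_cases hzz : z = z₀
  · subst hzz
    simp [hp0, dslope_same]
  · have hsub : z - z₀ ≠ 0 := sub_ne_zero.2 hzz
    have e1 : p z = (z - z₀) * dslope p z₀ z := by
      have := sub_smul_dslope p z₀ z
      rw [hp0, sub_zero, smul_eq_mul] at this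
      exact this.symm
    have e2 : q z = (z - z₀) * dslope q z₀ z := by
      have := sub_smul_dslope q z₀ z
      rw [hq0, sub_zero, smul_eq_mul] at this
      exact this.symm
    have hpz : p z ≠ 0 := by
      rw [e1]
      exact mul_ne_zero hsub hz
    simp only [hpz, if_false]
    rw [e1, e2, mul_div_mul_left _ _ hsub]

/-- Division by a holomorphic function on `ℍ` with simple zeros: if `h` vanishes at all zeros of
`P` and these are simple, then `h = P * g` with `g` holomorphic. -/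
theorem exists_div_of_simple_zeros (P h : ℍ → ℂ) (hP : MDiff P) (hh : MDiff h)
    (hsimple : ∀ z : ℍ, P z = 0 → deriv (P ∘ UpperHalfPlane.ofComplex) z ≠ 0)
    (hvan : ∀ z : ℍ, P z = 0 → h z = 0) : ∃ g : ℍ → ℂ, MDiff g ∧ ∀ z, h z = P z * g z := by
  classical
  set p : ℂ → ℂ := P ∘ UpperHalfPlane.ofComplex with hpdef
  set q : ℂ → ℂ := h ∘ UpperHalfPlane.ofComplex with hqdef
  have hp : DifferentiableOn ℂ p {z | 0 < z.im} := UpperHalfPlane.mdifferentiable_iff.1 hP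
  have hq : DifferentiableOn ℂ q {z | 0 < z.im} := UpperHalfPlane.mdifferentiable_iff.1 hh
  have hopen : IsOpen {z : ℂ | 0 < z.im} := isOpen_upperHalfPlaneSet
  set g' : ℂ → ℂ := fun z => if p z = 0 then deriv q z / deriv p z else q z / p z with hg'def
  have hpval : ∀ z : ℍ, p z = P z := fun z => by simp [hpdef]
  have hqval : ∀ z : ℍ, q z = h z := fun z => by simp [hqdef]
  refine ⟨fun z => g' z, ?_, ?_⟩
  · rw [UpperHalfPlane.mdifferentiable_iff]
    intro z₀ hz₀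
    have hz₀' : (0 : ℝ) < z₀.im := hz₀
    have hUn : {z : ℂ | 0 < z.im} ∈ 𝓝 z₀ := hopen.mem_nhds hz₀
    -- near `z₀` the composite with `ofComplex` is just `g'`
    have hcongr : ((fun z : ℍ => g' z) ∘ UpperHalfPlane.ofComplex) =ᶠ[𝓝 z₀] g' := by
      filter_upwards [hUn] with z hz
      have hz' : (0 : ℝ) < z.im := hz
      simp only [Function.comp_apply]
      rw [UpperHalfPlane.ofComplex_apply_of_im_pos hz']
    suffices hmain : DifferentiableAt ℂ g' z₀ from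
      (hmain.congr_of_eventuallyEq hcongr).differentiableWithinAt
    by_cases hp0 : p z₀ = 0
    · have hP0 : P ⟨z₀, hz₀'⟩ = 0 := by rw [← hpval]; exact hp0
      have hq0 : q z₀ = 0 := by
        have := hvan ⟨z₀, hz₀'⟩ hP0
        rw [← hqval] at this
        exact this
      have hp' : deriv p z₀ ≠ 0 := hsimple ⟨z₀, hz₀'⟩ hP0
      exact divSimple_differentiableAt_zero hopen hp hq hz₀ hp0 hq0 hp'
    · have hpd : DifferentiableAt ℂ p z₀ := hp.differentiableAt hUn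
      have hqd : DifferentiableAt ℂ q z₀ := hq.differentiableAt hUn
      have hev : ∀ᶠ z in 𝓝 z₀, p z ≠ 0 := hpd.continuousAt.eventually_ne hp0
      refine (hqd.div hpd hp0).congr_of_eventuallyEq ?_
      filter_upwards [hev] with z hz
      simp [hg'def, hz]
  · intro z
    by_cases hz : P z = 0
    · rw [hvan z hz, hz, zero_mul]
    · simp only [hg'def, hpval, hqval, if_neg hz]
      field_simp

end Fermat.Agent.S20


end ZBS20_009_0

/-! ### bundled: `Fermat.Agent.S20.LevelOneLocal` -/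
section ZBS20_009_1
/-
S20, package C-d (helper88): `levelOne_local` — the level-one local datum at every point of `ℍ`.
-/

set_option autoImplicit false

open UpperHalfPlane ModularForm ModularFormClass MatrixGroups EisensteinSeries Derivative Filter
open scoped Manifold Topology

namespace Fermat.Agent.S20

/-- A function with a nonzero limit at `i∞` is bounded below near `i∞`. -/
theorem cd_lower_bound {P : ℍ → ℂ} {a : ℂ} (ha : a ≠ 0) (h : Tendsto P atImInfty (𝓝 a)) :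
    ∃ c : ℝ, 0 < c ∧ ∃ Y : ℝ, ∀ z : ℍ, Y ≤ z.im → c ≤ ‖P z‖ := by
  have hpos : 0 < ‖a‖ := norm_pos_iff.mpr ha
  have h1 : Tendsto (fun z => ‖P z‖) atImInfty (𝓝 ‖a‖) := h.norm
  have h2 : ∀ᶠ z in atImInfty, ‖a‖ / 2 < ‖P z‖ := h1.eventually (lt_mem_nhds (by linarith))
  rw [Filter.Eventually, atImInfty_mem] at h2
  obtain ⟨Y, hY⟩ := h2
  exact ⟨‖a‖ / 2, by positivity, Y, fun z hz => (hY z hz).le⟩

theorem cd_tendsto_E4 : Tendsto E₄ atImInfty (𝓝 1) := tendsto_E_atImInfty _ ⟨2, rfl⟩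

theorem cd_tendsto_E6 : Tendsto E₆ atImInfty (𝓝 1) := tendsto_E_atImInfty _ ⟨3, rfl⟩

/-- The monomial `E₄^a E₆^b` as a level-one form of weight `w = 4a + 6b`. -/
theorem cd_exists_monomial (a b : ℕ) (w : ℤ) (hw : w = 4 * a + 6 * b) :
    ∃ r : ModularForm 𝒮ℒ w, ∀ z, r z = E₄ z ^ a * E₆ z ^ b :=
  ⟨ModularForm.mcast (by rw [hw]; ring) ((E₄.pow a).mul (E₆.pow b)), fun z => by
    simp [ModularForm.mcast_apply, ModularForm.coe_mul, ModularForm.coe_pow]⟩

/-- A normalised monomial. -/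
theorem cd_exists_monomial_one (z0 : ℍ) (a b : ℕ) (w : ℤ) (hw : w = 4 * a + 6 * b)
    (h : E₄ z0 ^ a * E₆ z0 ^ b ≠ 0) : ∃ r : ModularForm 𝒮ℒ w, r z0 = 1 := by
  obtain ⟨r, hr⟩ := cd_exists_monomial a b w hw
  refine ⟨(E₄ z0 ^ a * E₆ z0 ^ b)⁻¹ • r, ?_⟩
  have : ((E₄ z0 ^ a * E₆ z0 ^ b)⁻¹ • r) z0 = (E₄ z0 ^ a * E₆ z0 ^ b)⁻¹ * r z0 := rfl
  rw [this, hr, inv_mul_cancel₀ h]

theorem cd_discr_ne (z : ℍ) : E₄ z ^ 3 - E₆ z ^ 2 ≠ 0 := by
  have hΔ : ModularForm.discriminant z ≠ 0 := ModularForm.discriminant_ne_zero z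
  rw [discriminant_eq_E₄_cube_sub_E₆_sq] at hΔ
  intro h
  apply hΔ
  rw [h]
  simp

/-- Case `E₆ z0 = 0`. -/
theorem cd_local_E6 (z0 : ℍ) (h6 : E₆ z0 = 0) :
    ∃ (L d s : ℤ) (P : ModularForm 𝒮ℒ d), 0 < L ∧ 0 ≤ s ∧ s < d ∧ L ∣ s ∧
      (∀ (w : ℤ) (r : ModularForm 𝒮ℒ w), r z0 ≠ 0 → L ∣ w) ∧
      (∀ w : ℤ, s ≤ w → L ∣ w → ∃ r : ModularForm 𝒮ℒ w, r z0 = 1) ∧
      P z0 = 0 ∧ (∀ z : ℍ, P z = 0 → ∀ (w : ℤ) (r : ModularForm 𝒮ℒ w), r z0 = 0 → r z = 0) ∧
      (∃ c : ℝ, 0 < c ∧ ∃ Y : ℝ, ∀ z : ℍ, Y ≤ z.im → c ≤ ‖P z‖) ∧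
      (∀ h : ℍ → ℂ, MDiff h → (∀ z, P z = 0 → h z = 0) →
        ∃ g : ℍ → ℂ, MDiff g ∧ ∀ z, h z = P z * g z) := by
  have h4 : E₄ z0 ≠ 0 := by
    intro h4
    apply cd_discr_ne z0
    simp [h4, h6]
  refine ⟨4, 6, 0, E₆, by norm_num, le_refl _, by norm_num, dvd_zero _, ?_, ?_, h6, ?_, ?_, ?_⟩
  · intro w r hr
    by_contra hdiv
    exact hr ((levelOne_eval_E6_zero z0 h6 r).1 hdiv)
  · intro w hw hdiv
    obtain ⟨m, rfl⟩ := hdiv
    have hm : 0 ≤ m := by omega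
    lift m to ℕ using hm
    exact cd_exists_monomial_one z0 m 0 _ (by push_cast; ring) (by simpa using pow_ne_zero m h4)
  · intro z hz w r hr
    exact (levelOne_eval_E6_zero z0 h6 r).2 z hz hr
  · exact cd_lower_bound one_ne_zero cd_tendsto_E6
  · intro h hh hvan
    exact exists_div_of_simple_zeros (⇑E₆) h E₆.holo' hh
      (fun z hz => levelOne_simple_zero_E6 z hz) hvan

/-- Case `E₄ z0 = 0`. -/
theorem cd_local_E4 (z0 : ℍ) (h4 : E₄ z0 = 0) :
    ∃ (L d s : ℤ) (P : ModularForm 𝒮ℒ d), 0 < L ∧ 0 ≤ s ∧ s < d ∧ L ∣ s ∧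
      (∀ (w : ℤ) (r : ModularForm 𝒮ℒ w), r z0 ≠ 0 → L ∣ w) ∧
      (∀ w : ℤ, s ≤ w → L ∣ w → ∃ r : ModularForm 𝒮ℒ w, r z0 = 1) ∧
      P z0 = 0 ∧ (∀ z : ℍ, P z = 0 → ∀ (w : ℤ) (r : ModularForm 𝒮ℒ w), r z0 = 0 → r z = 0) ∧
      (∃ c : ℝ, 0 < c ∧ ∃ Y : ℝ, ∀ z : ℍ, Y ≤ z.im → c ≤ ‖P z‖) ∧
      (∀ h : ℍ → ℂ, MDiff h → (∀ z, P z = 0 → h z = 0) →
        ∃ g : ℍ → ℂ, MDiff g ∧ ∀ z, h z = P z * g z) := by
  have h6 : E₆ z0 ≠ 0 := by
    intro h6
    apply cd_discr_ne z0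
    simp [h4, h6]
  refine ⟨6, 4, 0, E₄, by norm_num, le_refl _, by norm_num, dvd_zero _, ?_, ?_, h4, ?_, ?_, ?_⟩
  · intro w r hr
    by_contra hdiv
    exact hr ((levelOne_eval_E4_zero z0 h4 r).1 hdiv)
  · intro w hw hdiv
    obtain ⟨m, rfl⟩ := hdiv
    have hm : 0 ≤ m := by omega
    lift m to ℕ using hm
    exact cd_exists_monomial_one z0 0 m _ (by push_cast; ring) (by simpa using pow_ne_zero m h6)
  · intro z hz w r hr
    exact (levelOne_eval_E4_zero z0 h4 r).2 z hz hr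
  · exact cd_lower_bound one_ne_zero cd_tendsto_E4
  · intro h hh hvan
    exact exists_div_of_simple_zeros (⇑E₄) h E₄.holo' hh
      (fun z hz => levelOne_simple_zero_E4 z hz) hvan

/-- The pencil `E₄³ - c E₆²` as a level-one form of weight `12`. -/
theorem cd_exists_pencil (c : ℂ) :
    ∃ P : ModularForm 𝒮ℒ 12, ∀ z, P z = E₄ z ^ 3 - c * E₆ z ^ 2 := by
  obtain ⟨A, hA⟩ := cd_exists_monomial 3 0 12 (by norm_num)
  obtain ⟨B, hB⟩ := cd_exists_monomial 0 2 12 (by norm_num)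
  refine ⟨A - c • B, fun z => ?_⟩
  have : (A - c • B) z = A z - c * B z := rfl
  rw [this, hA, hB]
  simp

/-- Generic case. -/
theorem cd_local_generic (z0 : ℍ) (h4 : E₄ z0 ≠ 0) (h6 : E₆ z0 ≠ 0) :
    ∃ (L d s : ℤ) (P : ModularForm 𝒮ℒ d), 0 < L ∧ 0 ≤ s ∧ s < d ∧ L ∣ s ∧
      (∀ (w : ℤ) (r : ModularForm 𝒮ℒ w), r z0 ≠ 0 → L ∣ w) ∧
      (∀ w : ℤ, s ≤ w → L ∣ w → ∃ r : ModularForm 𝒮ℒ w, r z0 = 1) ∧
      P z0 = 0 ∧ (∀ z : ℍ, P z = 0 → ∀ (w : ℤ) (r : ModularForm 𝒮ℒ w), r z0 = 0 → r z = 0) ∧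
      (∃ c : ℝ, 0 < c ∧ ∃ Y : ℝ, ∀ z : ℍ, Y ≤ z.im → c ≤ ‖P z‖) ∧
      (∀ h : ℍ → ℂ, MDiff h → (∀ z, P z = 0 → h z = 0) →
        ∃ g : ℍ → ℂ, MDiff g ∧ ∀ z, h z = P z * g z) := by
  set c : ℂ := E₄ z0 ^ 3 / E₆ z0 ^ 2 with hc
  have h62 : E₆ z0 ^ 2 ≠ 0 := pow_ne_zero 2 h6
  have hc0 : c ≠ 0 := div_ne_zero (pow_ne_zero 3 h4) h62
  have hc1 : c ≠ 1 := by
    intro h1
    apply cd_discr_ne z0
    have : E₄ z0 ^ 3 = E₆ z0 ^ 2 := by
      have := (div_eq_one_iff_eq h62).mp (hc ▸ h1)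
      exact this
    rw [this]
    ring
  obtain ⟨P, hP⟩ := cd_exists_pencil c
  have hPfun : (⇑P : ℍ → ℂ) = fun w : ℍ => E₄ w ^ 3 - c * E₆ w ^ 2 := funext hP
  refine ⟨2, 12, 4, P, by norm_num, by norm_num, by norm_num, ⟨2, by norm_num⟩, ?_, ?_, ?_, ?_,
    ?_, ?_⟩
  · intro w r hr
    by_contra hdiv
    have hodd : Odd w := by
      rcases Int.even_or_odd w with he | ho
      · exact absurd (even_iff_two_dvd.mp he) hdiv
      · exact ho
    apply hr
    rw [ModularForm.levelOne_odd_weight_eq_zero hodd r]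
    rfl
  · intro w hw hdiv
    obtain ⟨m, rfl⟩ := hdiv
    have hm : 2 ≤ m := by omega
    rcases Int.even_or_odd m with he | ho
    · obtain ⟨j, hj⟩ := he
      have hj0 : 0 ≤ j := by omega
      lift j to ℕ using hj0
      exact cd_exists_monomial_one z0 j 0 _ (by push_cast; omega) (by simpa using pow_ne_zero j h4)
    · obtain ⟨j, hj⟩ := ho
      have hj0 : 1 ≤ j := by omega
      obtain ⟨i, rfl⟩ : ∃ i : ℤ, j = i + 1 := ⟨j - 1, by ring⟩
      have hi0 : 0 ≤ i := by omega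
      lift i to ℕ using hi0
      exact cd_exists_monomial_one z0 i 1 _ (by push_cast; omega)
        (mul_ne_zero (pow_ne_zero i h4) (by simpa using h6))
  · rw [hP, hc]
    field_simp
    ring
  · intro z hz w r hr
    rw [hP] at hz
    -- `E₄ z, E₆ z ≠ 0`
    have hz6 : E₆ z ≠ 0 := by
      intro h6z
      rw [h6z] at hz
      have h4z : E₄ z = 0 := by
        have : E₄ z ^ 3 = 0 := by simpa using hz
        exact pow_eq_zero_iff (by norm_num) |>.mp this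
      apply cd_discr_ne z
      simp [h4z, h6z]
    have hz4 : E₄ z ≠ 0 := by
      intro h4z
      rw [h4z] at hz
      have : c * E₆ z ^ 2 = 0 := by
        have h0 : (0 : ℂ) ^ 3 - c * E₆ z ^ 2 = 0 := hz
        simpa using h0
      rcases mul_eq_zero.mp this with h | h
      · exact hc0 h
      · exact hz6 (pow_eq_zero_iff (by norm_num) |>.mp h)
    set u : ℂ := E₄ z / E₄ z0 with hu
    set v : ℂ := E₆ z / E₆ z0 with hv
    have hu0 : u ≠ 0 := div_ne_zero hz4 h4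
    have huv : u ^ 3 = v ^ 2 := by
      rw [hu, hv, div_pow, div_pow, div_eq_div_iff (pow_ne_zero 3 h4) h62]
      have h3 : E₄ z ^ 3 = c * E₆ z ^ 2 := by linear_combination hz
      rw [h3, hc]
      field_simp
    obtain ⟨t, ht⟩ : ∃ t : ℂ, t ^ 2 = v / u := IsAlgClosed.exists_pow_nat_eq _ (by norm_num)
    have hmu2 : (v / u) ^ 2 = u := by
      rw [div_pow, ← huv]
      field_simp
    have hmu3 : (v / u) ^ 3 = v := by
      rw [div_pow, huv]
      have hv0 : v ≠ 0 := div_ne_zero hz6 h6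
      field_simp
    have ht4 : t ^ 4 = u := by
      have : t ^ 4 = (t ^ 2) ^ 2 := by ring
      rw [this, ht, hmu2]
    have ht6 : t ^ 6 = v := by
      have : t ^ 6 = (t ^ 2) ^ 3 := by ring
      rw [this, ht, hmu3]
    have e4 : E₄ z = t ^ 4 * E₄ z0 := by
      rw [ht4, hu]
      field_simp
    have e6 : E₆ z = t ^ 6 * E₆ z0 := by
      rw [ht6, hv]
      field_simp
    rw [levelOne_eval_scale z0 z t e4 e6 r, hr, mul_zero]
  · have hlim : Tendsto (⇑P) atImInfty (𝓝 (1 ^ 3 - c * 1 ^ 2)) := by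
      rw [hPfun]
      exact (cd_tendsto_E4.pow 3).sub ((cd_tendsto_E6.pow 2).const_mul c)
    refine cd_lower_bound ?_ hlim
    intro h
    apply hc1
    have : (1 : ℂ) - c = 0 := by simpa using h
    linear_combination -this
  · intro h hh hvan
    refine exists_div_of_simple_zeros (⇑P) h P.holo' hh (fun z hz => ?_) hvan
    rw [hPfun]
    apply levelOne_simple_zero_pencil c hc0 z
    rw [← hP]
    exact hz

/-- **Package C, `levelOne_local`.** -/
theorem levelOne_local (z0 : ℍ) :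
    ∃ (L d s : ℤ) (P : ModularForm 𝒮ℒ d), 0 < L ∧ 0 ≤ s ∧ s < d ∧ L ∣ s ∧
      (∀ (w : ℤ) (r : ModularForm 𝒮ℒ w), r z0 ≠ 0 → L ∣ w) ∧
      (∀ w : ℤ, s ≤ w → L ∣ w → ∃ r : ModularForm 𝒮ℒ w, r z0 = 1) ∧
      P z0 = 0 ∧ (∀ z : ℍ, P z = 0 → ∀ (w : ℤ) (r : ModularForm 𝒮ℒ w), r z0 = 0 → r z = 0) ∧
      (∃ c : ℝ, 0 < c ∧ ∃ Y : ℝ, ∀ z : ℍ, Y ≤ z.im → c ≤ ‖P z‖) ∧
      (∀ h : ℍ → ℂ, MDiff h → (∀ z, P z = 0 → h z = 0) →
        ∃ g : ℍ → ℂ, MDiff g ∧ ∀ z, h z = P z * g z) := by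
  by_cases h6 : E₆ z0 = 0
  · exact cd_local_E6 z0 h6
  by_cases h4 : E₄ z0 = 0
  · exact cd_local_E4 z0 h4
  exact cd_local_generic z0 h4 h6

end Fermat.Agent.S20


end ZBS20_009_1

/-! ### bundled: `Fermat.Agent.S20` -/
section ZBS20_009_2

/-!
# S20: `dim S₂(Γ₀(N)) = genusFormula N`

Elementary route (no Riemann surfaces, no Riemann–Roch): a "good frame" of `μ = [SL₂(ℤ) : Γ₀(N)]`
modular forms on `Γ₀(N)` whose conjugate matrix `A(z)` is invertible on `ℍ` and at the cusps gives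
Cramer isomorphisms `M_l(Γ₀(N)) ≅ ⊕ᵢ M_{l-kᵢ}(SL₂(ℤ))`, `S_l(Γ₀(N)) ≅ ⊕ᵢ S_{l+kᵢ}(SL₂(ℤ))`; the
weights `kᵢ` are then pinned down by trace identities at `i`, `ρ` and at the cusps.
-/

set_option autoImplicit false
open CuspForm

namespace Fermat.Agent.S20

open CongruenceSubgroup UpperHalfPlane ModularForm
open scoped MatrixGroups Manifold

/-- a primitive cube root of unity -/
noncomputable def omega3 : ℂ := Complex.exp (2 * Real.pi * Complex.I / 3)

lemma omega3_pow : omega3 ^ 3 = 1 := by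
  unfold omega3
  rw [← Complex.exp_nat_mul]
  have : ((3 : ℕ) : ℂ) * (2 * Real.pi * Complex.I / 3) = 2 * Real.pi * Complex.I := by
    push_cast; ring
  rw [this, Complex.exp_two_pi_mul_I]

lemma omega3_ne_one : omega3 ≠ 1 := by
  unfold omega3
  intro h
  rw [Complex.exp_eq_one_iff] at h
  obtain ⟨n, hn⟩ := h
  have hpi : (2 * Real.pi * Complex.I : ℂ) ≠ 0 := by
    simp [Real.pi_ne_zero]
  have h2 : (1 : ℂ) / 3 = n := by
    have : (2 * Real.pi * Complex.I) * (1 / 3 : ℂ) = (2 * Real.pi * Complex.I) * n := by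
      rw [mul_comm _ (n : ℂ), ← hn]; ring
    exact mul_left_cancel₀ hpi this
  have h3 : (1 : ℂ) = 3 * n := by rw [← h2]; norm_num
  have h4 : (1 : ℤ) = 3 * n := by exact_mod_cast h3
  omega

theorem result (N : ℕ) [NeZero N] :
    (Module.finrank ℂ (CuspForm (CongruenceSubgroup.Gamma0 N) 2) : ℚ) = ModularCurve.genusFormula N := by
  exact assemble N Frame.CuspGood (exists_nondeg N)
    (fun Φ h hb => minH_of_local levelOne_local Φ h hb)
    (fun Φ h hb => cusp_descent Φ h hb)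
    exists_good_frame (fun Φ h i => Φ.wt_nonneg h i) (fun Φ h i => Φ.wt_even h i)
    finrank_M_zero (fun Φ hH hC {_} F i => cramer_bounded Φ hH hC F i)
    (fun Φ hH hC q i => disc_mul_inv_zero Φ hH hC q i)
    (fun Φ hH hC l hl hev => cusp_count Φ hH hC (fun F i => cramer_bounded Φ hH hC F i) l hl hev)
    (fun Φ hH hB l => finrank_M Φ hH hB l) (fun Φ hH hZ l => finrank_S Φ hH hZ l)
    omega3 omega3_pow omega3_ne_one
    (fun Φ h _ => ell_sigma_S Φ h) (fun Φ h _ => ell_sigma_ST Φ h omega3 omega3_pow omega3_ne_one)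
    count_core

end Fermat.Agent.S20


end ZBS20_009_2

/-! ### bundled: `Fermat.Agent.ES.RiemannCount` -/
section ZBS20_009_3

/-!
# ES shared input (R), piece R2b: `dim S_{12 L}(Γ₀(N)) + dim S₂(Γ₀(N)) = L ψ − κ + 1`

From the good frame of S20 (`M_l(Γ₀(N)) ≅ ⊕ M_{l-kᵢ}(1)`, `S_l(Γ₀(N)) ≅ ⊕ S_{l+kᵢ}(1)`,
`dim M_l = dim S_l + κ`), for all large `L`:

  `finrank S_{12 L}(Γ₀(N)) + finrank S_2(Γ₀(N)) = L · card (Q N) − numCusps N + 1`.
-/

set_option autoImplicit false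

open CongruenceSubgroup UpperHalfPlane ModularForm
open scoped MatrixGroups Manifold

namespace Fermat.Agent.ES.R

open Fermat.Agent.S20

/-- The pointwise identity behind the count. -/
theorem count_pointwise_twelve (k L : ℤ) (hk0 : 0 ≤ k) (hk : Even k) (hkl : k + 4 ≤ 12 * L) :
    count_m (2 + k - 12) = L - count_m (12 * L - k) + count_m (0 - k) := by
  obtain ⟨t, r, ht, hr0, hr6, rfl⟩ : ∃ t r : ℤ, 0 ≤ t ∧ 0 ≤ r ∧ r < 6 ∧ k = 12 * t + 2 * r := by
    obtain ⟨j, rfl⟩ := hk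
    exact ⟨j / 6, j % 6, by omega, by omega, by omega, by omega⟩
  rw [count_m_A t r ht hr0 hr6, count_m_C t r ht hr0 hr6, count_m_M1 t r L ht hr0 hr6 hkl]
  interval_cases r <;> (split_ifs <;> omega)

/-- **R2b.** For all large `L`:
`dim S_{12L}(Γ₀(N)) + dim S₂(Γ₀(N)) = L · [SL₂(ℤ) : Γ₀(N)] − (number of cusps) + 1`. -/
theorem finrank_cusp_twelve (N : ℕ) [NeZero N] :
    ∃ L₀ : ℕ, ∀ L : ℕ, L₀ ≤ L →
      (Module.finrank ℂ (CuspForm (G0 N) (12 * (L : ℤ))) : ℤ)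
        + Module.finrank ℂ (CuspForm (G0 N) 2)
        = (L : ℤ) * Fintype.card (Q N) - numCusps N + 1 := by
  obtain ⟨Φ, hnd, hH, hC⟩ := exists_good_frame (fun Φ : Frame N => Φ.GoodOnH) Frame.CuspGood
    (exists_nondeg N) (fun Φ h hb => minH_of_local levelOne_local Φ h hb)
    (fun Φ h hb => cusp_descent Φ h hb)
  have hB : ∀ {l : ℤ} (F : ModularForm (G0 N) l) (i : Q N),
      IsBoundedAtImInfty (fun z => ∑ q, cj F q z * (Φ.A z)⁻¹ q i) :=
    fun F i => cramer_bounded Φ hH hC F i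
  have hZ := fun q i => disc_mul_inv_zero Φ hH hC q i
  have hMl := fun l => finrank_M Φ hH (fun {l} F i => hB F i) l
  have hSl := fun l => finrank_S Φ hH hZ l
  have hnn := fun i => Φ.wt_nonneg hnd i
  have hev := fun i => Φ.wt_even hnd i
  obtain ⟨B, hBd⟩ : ∃ B : ℕ, ∀ i, Φ.wt i + 4 ≤ 12 * (B : ℤ) := by
    refine ⟨(∑ i, |Φ.wt i|).toNat + 1, fun i => ?_⟩
    have h1 : Φ.wt i ≤ ∑ j, |Φ.wt j| :=
      (le_abs_self _).trans (Finset.single_le_sum (f := fun j => |Φ.wt j|)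
        (fun j _ => abs_nonneg _) (Finset.mem_univ i))
    have h2 : (0 : ℤ) ≤ ∑ j, |Φ.wt j| := Finset.sum_nonneg fun j _ => abs_nonneg _
    have h3 : (((∑ j, |Φ.wt j|).toNat : ℕ) : ℤ) = ∑ j, |Φ.wt j| := Int.toNat_of_nonneg h2
    push_cast
    rw [h3]
    linarith
  refine ⟨B, fun L hL => ?_⟩
  have hLi : ∀ i, Φ.wt i + 4 ≤ 12 * (L : ℤ) := fun i => by
    have := hBd i
    have hL' : (B : ℤ) ≤ L := by exact_mod_cast hL
    linarith
  have hl_even : Even (12 * (L : ℤ)) := ⟨6 * L, by ring⟩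
  have h4 := cusp_count Φ hH hC (fun F i => hB F i) (12 * (L : ℤ)) hLi hl_even
  have h0 : ∑ i, Module.finrank ℂ (ModularForm 𝒮ℒ (0 - Φ.wt i)) = 1 := by
    rw [← hMl 0, finrank_M_zero]
  have hS2 := hSl 2
  have hM12 := hMl (12 * (L : ℤ))
  -- cast everything to `ℤ` and use the pointwise identity
  have e1 : (Module.finrank ℂ (CuspForm (G0 N) 2) : ℤ) = ∑ i, count_m (2 + Φ.wt i - 12) := by
    rw [hS2]
    push_cast
    exact Finset.sum_congr rfl fun i _ => count_finrank_S _ (by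
      obtain ⟨a, ha⟩ := hev i
      exact ⟨1 + a, by rw [ha]; ring⟩)
  have e2 : (Module.finrank ℂ (ModularForm (G0 N) (12 * (L : ℤ))) : ℤ)
      = ∑ i, count_m (12 * (L : ℤ) - Φ.wt i) := by
    rw [hM12]
    push_cast
    exact Finset.sum_congr rfl fun i _ => count_finrank_M _ (hl_even.sub (hev i))
  have e3 : (1 : ℤ) = ∑ i, count_m (0 - Φ.wt i) := by
    have : ((∑ i, Module.finrank ℂ (ModularForm 𝒮ℒ (0 - Φ.wt i)) : ℕ) : ℤ) = 1 := by
      rw [h0]; rfl
    rw [← this]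
    push_cast
    exact Finset.sum_congr rfl fun i _ => count_finrank_M _ (by
      obtain ⟨a, ha⟩ := hev i
      exact ⟨-a, by rw [ha]; ring⟩)
  have e4 : ∑ i, count_m (2 + Φ.wt i - 12)
      = (L : ℤ) * Fintype.card (Q N) - ∑ i, count_m (12 * (L : ℤ) - Φ.wt i)
        + ∑ i, count_m (0 - Φ.wt i) := by
    rw [Finset.sum_congr rfl fun i _ =>
      count_pointwise_twelve (Φ.wt i) L (hnn i) (hev i) (hLi i)]
    rw [Finset.sum_add_distrib, Finset.sum_sub_distrib, Finset.sum_const, Finset.card_univ]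
    simp [mul_comm]
  have h4' : (Module.finrank ℂ (ModularForm (G0 N) (12 * (L : ℤ))) : ℤ)
      = Module.finrank ℂ (CuspForm (G0 N) (12 * (L : ℤ))) + numCusps N := by
    exact_mod_cast h4
  rw [e1, e4, ← e2, ← e3, h4']
  ring

end Fermat.Agent.ES.R


end ZBS20_009_3
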