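/- GENERATED FILE (helper35, build-time optimisation, NOTES/ZB.md): verbatim concatenation of the modules
   Fermat.Agent.ES.I2.RedUnit
   Do not edit; do not import together with these modules. -/
import Mathlib
import Fermat.Agent.ZB.S20_009

/-! ### bundled: `Fermat.Agent.ES.I2.RedUnit` -/
section ZBES_022_0

/-!
# ES-I2, piece I2-Red (helper lemma): roots of unity of order prime to the residue characteristic
are determined by their residues

* `red_unit_eq_of_res_eq` : `A` a valuation subring of a field, `n` invertible in the residue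
  field, `u, v ∈ Aˣ` with `u ^ n = v ^ n = 1` and the same residue.  Then `u = v`.
-/

set_option autoImplicit false

namespace Fermat.Agent.ES.I2

/-- an element `w` of a local domain with `w ^ n = 1`, residue `1`, `n` invertible in the residue
field, is `1`. -/
theorem red_eq_one_of_pow_eq_one {R : Type*} [CommRing R] [IsDomain R] [IsLocalRing R] (n : ℕ)
    (hn : ((n : ℕ) : IsLocalRing.ResidueField R) ≠ 0) (w : R) (hw : w ^ n = 1)
    (hres : IsLocalRing.residue R w = 1) : w = 1 := by
  have h1 : (w - 1) * ∑ i ∈ Finset.range n, w ^ i = 0 := by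
    rw [mul_geom_sum, hw, sub_self]
  have h2 : IsLocalRing.residue R (∑ i ∈ Finset.range n, w ^ i) = (n : IsLocalRing.ResidueField R) := by
    rw [map_sum]
    simp only [map_pow, hres, one_pow, Finset.sum_const, Finset.card_range, nsmul_eq_mul, mul_one]
  have h3 : ∑ i ∈ Finset.range n, w ^ i ≠ 0 := by
    intro h0
    rw [h0, map_zero] at h2
    exact hn h2.symm
  rcases mul_eq_zero.mp h1 with h | h
  · exact sub_eq_zero.mp h
  · exact absurd h h3

/-- roots of unity of order prime to the residue characteristic are determined by their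
residues. -/
theorem red_unit_eq_of_res_eq {L : Type*} [Field L] (A : ValuationSubring L) (n : ℕ)
    (hn : ((n : ℕ) : IsLocalRing.ResidueField A) ≠ 0) (u v : Aˣ) (hu : u ^ n = 1) (hv : v ^ n = 1)
    (h : Units.map (IsLocalRing.residue A : A →* IsLocalRing.ResidueField A) u =
      Units.map (IsLocalRing.residue A : A →* IsLocalRing.ResidueField A) v) : u = v := by
  have hw : ((u * v⁻¹ : Aˣ) : A) ^ n = 1 := by
    rw [← Units.val_pow_eq_pow_val, mul_pow, inv_pow, hu, hv, inv_one, mul_one, Units.val_one]
  have hres : IsLocalRing.residue A ((u * v⁻¹ : Aˣ) : A) = 1 := by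
    have h1 : Units.map (IsLocalRing.residue A : A →* IsLocalRing.ResidueField A) (u * v⁻¹) = 1 := by
      rw [map_mul, map_inv, h, mul_inv_cancel]
    have h2 := congrArg (fun x : (IsLocalRing.ResidueField A)ˣ => (x : IsLocalRing.ResidueField A)) h1
    simpa using h2
  have h1 := red_eq_one_of_pow_eq_one n hn _ hw hres
  have h2 : u * v⁻¹ = 1 := Units.ext (by rw [h1, Units.val_one])
  exact mul_inv_eq_one.mp h2

end Fermat.Agent.ES.I2


end ZBES_022_0
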