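/- GENERATED FILE (helper35, build-time optimisation, NOTES/ZB.md): verbatim concatenation of the modules
   Fermat.Agent.S49.QExp
   Fermat.Agent.S42.Int
   Fermat.Agent.ES.I2.B
   Fermat.Agent.ES.I2.MFk
   Fermat.Agent.R38.HolKill
   Do not edit; do not import together with these modules. -/
import Mathlib
import Fermat.Prelude.Def_FLTPrelim_Modularity
import Fermat.Prelude.Def_CuspForm_HeckeAlgebra
import Fermat.Prelude.Def_CuspForm_IntegralStructure
import Fermat.Prelude.Def_CuspForm_IntegralLattice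
import Fermat.Prelude.Thm_CongruenceSubgroup_one_mem_strictPeriods_Gamma0
import Fermat.Prelude.Thm_ModularForm_sturm_bound_Gamma0
import Fermat.Prelude.Thm_ModularFormClass_qCoeff_heckeT
import Fermat.Prelude.Thm_ModularFormClass_qCoeff_heckeU
import Fermat.Prelude.Thm_CuspForm_intLattice_fg
import Fermat.Prelude.Thm_CuspForm_mem_intLattice_of_mem_heckeAlgebra
import Fermat.Agent.ZB.Cheb_001
import Fermat.Agent.ZB.S22_001
import Fermat.Agent.ZB.ES_001
import Fermat.Agent.ZB.ES_025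
import Fermat.Agent.ZB.ES_006
import Fermat.Agent.ZB.S23_001
import Fermat.Agent.ZB.ES_002
import Fermat.Prelude.Def_CuspForm_HeckeEvalForms

/-! ### bundled: `Fermat.Agent.S49.QExp` -/
section ZBS49_001_0

/-!
# S49 helper: q-expansion API for `CuspForm (Gamma0 N) k`
-/

set_option autoImplicit false

noncomputable section

namespace Fermat.Agent.S49

open ModularFormClass CongruenceSubgroup UpperHalfPlane

variable {N : ℕ} {k : ℤ}

theorem one_mem_strictPeriods (N : ℕ) :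
    (1 : ℝ) ∈ (Subgroup.map (Matrix.SpecialLinearGroup.mapGL ℝ) (Gamma0 N)).strictPeriods :=
  CongruenceSubgroup.one_mem_strictPeriods_Gamma0 N

theorem qCoeff_add (f g : CuspForm (Gamma0 N) k) (n : ℕ) :
    qCoeff ⇑(f + g) n = qCoeff ⇑f n + qCoeff ⇑g n := by
  simp only [qCoeff, FunLike.coe_add]
  rw [ModularForm.qExpansion_add one_pos (one_mem_strictPeriods N) f g, map_add]

theorem qCoeff_smul (c : ℂ) (f : CuspForm (Gamma0 N) k) (n : ℕ) :
    qCoeff ⇑(c • f) n = c * qCoeff ⇑f n := by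
  have h1 : ⇑(c • f) = c • ⇑f := by
    ext z
    simp
  simp only [qCoeff, h1]
  rw [ModularForm.qExpansion_smul one_pos (one_mem_strictPeriods N) c f]
  simp

/-- The `n`-th q-coefficient as a `ℂ`-linear functional. -/
def qCoeffLin (N : ℕ) (k : ℤ) (n : ℕ) : CuspForm (Gamma0 N) k →ₗ[ℂ] ℂ where
  toFun f := qCoeff ⇑f n
  map_add' f g := qCoeff_add f g n
  map_smul' c f := by
    simp only [RingHom.id_apply, smul_eq_mul]
    exact qCoeff_smul c f n

@[simp] theorem qCoeffLin_apply (f : CuspForm (Gamma0 N) k) (n : ℕ) :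
    qCoeffLin N k n f = qCoeff ⇑f n := rfl

theorem qCoeff_zero_cusp (f : CuspForm (Gamma0 N) k) : qCoeff ⇑f 0 = 0 :=
  CuspFormClass.qExpansion_coeff_zero f one_pos (one_mem_strictPeriods N)

theorem eq_zero_of_qCoeff_eq_zero [NeZero N] (f : CuspForm (Gamma0 N) k)
    (h : ∀ n, qCoeff ⇑f n = 0) : f = 0 := by
  have hmf : (ModularFormClass.modularForm f : ModularForm (Gamma0 N) k) = 0 := by
    refine ModularForm.sturm_bound_Gamma0 N _ fun n _ ↦ ?_
    have := h n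
    simpa [qCoeff] using this
  have hcoe : (⇑f : ℍ → ℂ) = 0 := by
    have := congrArg (fun F : ModularForm (Gamma0 N) k ↦ (⇑F : ℍ → ℂ)) hmf
    simpa using this
  exact DFunLike.coe_injective (hcoe.trans FunLike.coe_zero.symm)

theorem ext_of_qCoeff_eq [NeZero N] {f g : CuspForm (Gamma0 N) k}
    (h : ∀ n, qCoeff ⇑f n = qCoeff ⇑g n) : f = g := by
  rw [← sub_eq_zero]
  apply eq_zero_of_qCoeff_eq_zero
  intro n
  have := (qCoeffLin N k n).map_sub f g
  simp only [qCoeffLin_apply] at this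
  rw [this, h n, sub_self]

theorem qCoeff_heckeTLin {p : ℕ} (hp : p.Prime) (hpN : ¬ p ∣ N) (f : CuspForm (Gamma0 N) k)
    (n : ℕ) :
    qCoeff ⇑(CuspForm.heckeTLin k hp hpN f) n =
      qCoeff ⇑f (n * p) + if p ∣ n then (p : ℂ) ^ (k - 1) * qCoeff ⇑f (n / p) else 0 := by
  rw [CuspForm.coe_heckeTLin_apply,
    ModularFormClass.qCoeff_heckeT f (one_mem_strictPeriods N) hp.ne_zero n]
  rfl

theorem qCoeff_heckeULin [NeZero N] {p : ℕ} (hp : p.Prime) (hpN : p ∣ N)
    (f : CuspForm (Gamma0 N) k) (n : ℕ) :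
    qCoeff ⇑(CuspForm.heckeULin k hpN f) n = qCoeff ⇑f (n * p) := by
  rw [CuspForm.coe_heckeULin_apply,
    ModularFormClass.qCoeff_heckeU f (one_mem_strictPeriods N) hp.ne_zero n]
  rfl

/-- Truncated q-expansion up to the Sturm bound, as a `ℂ`-linear map. -/
def truncLin (N : ℕ) (k : ℤ) :
    CuspForm (Gamma0 N) k →ₗ[ℂ] (Fin ((k * (Gamma0 N).index).toNat / 12 + 1) → ℂ) :=
  LinearMap.pi fun i => qCoeffLin N k i

theorem truncLin_injective (N : ℕ) [NeZero N] (k : ℤ) : Function.Injective (truncLin N k) := by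
  refine (injective_iff_map_eq_zero _).mpr fun f hf ↦ ?_
  have hmf : (ModularFormClass.modularForm f : ModularForm (Gamma0 N) k) = 0 := by
    refine ModularForm.sturm_bound_Gamma0 N _ fun n hn ↦ ?_
    have := congrFun hf ⟨n, Nat.lt_succ_of_le hn⟩
    simpa [truncLin, qCoeff] using this
  have hcoe : (⇑f : ℍ → ℂ) = 0 := by
    have := congrArg (fun F : ModularForm (Gamma0 N) k ↦ (⇑F : ℍ → ℂ)) hmf
    simpa using this
  exact DFunLike.coe_injective (hcoe.trans FunLike.coe_zero.symm)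

theorem finiteDimensional_cuspForm (N : ℕ) [NeZero N] (k : ℤ) :
    FiniteDimensional ℂ (CuspForm (Gamma0 N) k) :=
  FiniteDimensional.of_injective (truncLin N k) (truncLin_injective N k)

/-- membership in the integral lattice, unfolded -/
theorem mem_intLattice_iff (f : CuspForm (Gamma0 N) k) :
    f ∈ CuspForm.intLattice N k ↔ ∀ n : ℕ, ∃ m : ℤ, qCoeff ⇑f n = (m : ℂ) := by
  constructor
  · intro hf
    refine Submodule.span_induction
      (p := fun (f : CuspForm (Gamma0 N) k) _ => ∀ n : ℕ, ∃ m : ℤ, qCoeff ⇑f n = (m : ℂ))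
      ?_ ?_ ?_ ?_ hf
    · intro x hx
      exact hx
    · intro n
      exact ⟨0, by simpa using (qCoeffLin N k n).map_zero⟩
    · intro x y _ _ hx hy n
      obtain ⟨a, ha⟩ := hx n
      obtain ⟨b, hb⟩ := hy n
      exact ⟨a + b, by rw [qCoeff_add, ha, hb]; push_cast; ring⟩
    · intro c x _ hx n
      obtain ⟨a, ha⟩ := hx n
      refine ⟨c * a, ?_⟩
      have : c • x = (c : ℂ) • x := by
        rw [Int.cast_smul_eq_zsmul]
      rw [this, qCoeff_smul, ha]
      push_cast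
      ring
  · intro hf
    exact Submodule.subset_span hf

theorem mem_qIntegralSet_iff (f : CuspForm (Gamma0 N) 2) :
    f ∈ CuspForm.qIntegralSet N ↔ ∀ n : ℕ, ∃ m : ℤ, qCoeff ⇑f n = (m : ℂ) := by
  unfold CuspForm.qIntegralSet
  simp only [Set.mem_ofPred_eq]
  refine forall_congr' fun n => ?_
  rw [Subring.mem_bot]
  constructor
  · rintro ⟨m, hm⟩
    exact ⟨m, by rw [← hm]⟩
  · rintro ⟨m, hm⟩
    exact ⟨m, by rw [hm]⟩

end Fermat.Agent.S49

end


end ZBS49_001_0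

/-! ### bundled: `Fermat.Agent.S42.Int` -/
section ZBS49_001_1

/-!
# S42 piece [INT]: Hecke eigenvalues of a normalized eigenform are algebraic integers

For a normalized eigenform `g` of weight `2` on `Γ₀(M)` and a prime `ℓ ∤ M`:
* `heckeTLin_apply_eq_smul` : `T_ℓ g = a_ℓ(g) • g`;
* `isIntegral_qCoeff_prime` : `a_ℓ(g)` is integral over `ℤ` (the Hecke algebra is a finitely
  generated `ℤ`-module, S22);
* `stmtInt : StmtInt`.
-/

set_option autoImplicit false

noncomputable section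

namespace Fermat.Agent.S42

open ModularFormClass CongruenceSubgroup

/-- The Hecke relation `a_{nℓ} + ℓ a_{n/ℓ} = a_ℓ a_n` for a normalized eigenform, `ℓ ∤ M`. -/
theorem qCoeff_hecke_relation {M : ℕ} (g : CuspForm (Gamma0 M) 2)
    (hg : g.IsNormalizedEigenform) {ℓ : ℕ} (hℓ : ℓ.Prime) (hℓM : ¬ ℓ ∣ M) (n : ℕ) :
    qCoeff ⇑g (n * ℓ) + (if ℓ ∣ n then (ℓ : ℂ) * qCoeff ⇑g (n / ℓ) else 0) =
      qCoeff ⇑g ℓ * qCoeff ⇑g n := by
  rcases Nat.eq_zero_or_pos n with rfl | hn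
  · have h0 : qCoeff ⇑g 0 = 0 := Fermat.Agent.S49.qCoeff_zero_cusp g
    simp [h0]
  · obtain ⟨r, m, hm, rfl⟩ := Nat.exists_eq_pow_mul_and_not_dvd hn.ne' ℓ hℓ.ne_one
    have hcop : ∀ e : ℕ, (ℓ ^ e).Coprime m :=
      fun e => Nat.Coprime.pow_left e ((Nat.Prime.coprime_iff_not_dvd hℓ).mpr hm)
    rcases r with _ | r
    · -- `ℓ ∤ n`
      simp only [pow_zero, one_mul]
      rw [if_neg hm, add_zero, mul_comm m ℓ]
      have := hg.qCoeff_mul_of_coprime ℓ m (by simpa using hcop 1)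
      exact this
    · have hdvd : ℓ ∣ ℓ ^ (r + 1) * m := Dvd.dvd.mul_right (dvd_pow_self ℓ (Nat.succ_ne_zero r)) m
      rw [if_pos hdvd]
      have h1 : ℓ ^ (r + 1) * m * ℓ = ℓ ^ (r + 2) * m := by ring
      have h2 : ℓ ^ (r + 1) * m / ℓ = ℓ ^ r * m := by
        rw [pow_succ, mul_assoc, mul_comm ℓ m, ← mul_assoc]
        exact Nat.mul_div_cancel _ hℓ.pos
      rw [h1, h2, hg.qCoeff_mul_of_coprime _ _ (hcop (r + 2)),
        hg.qCoeff_mul_of_coprime _ _ (hcop r), hg.qCoeff_mul_of_coprime _ _ (hcop (r + 1)),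
        hg.qCoeff_prime_pow_of_not_dvd ℓ r hℓ hℓM]
      ring

/-- A normalized eigenform is an eigenvector of `T_ℓ` (`ℓ ∤ M`) with eigenvalue `a_ℓ`. -/
theorem heckeTLin_apply_eq_smul {M : ℕ} [NeZero M] (g : CuspForm (Gamma0 M) 2)
    (hg : g.IsNormalizedEigenform) {ℓ : ℕ} (hℓ : ℓ.Prime) (hℓM : ¬ ℓ ∣ M) :
    CuspForm.heckeTLin 2 hℓ hℓM g = qCoeff ⇑g ℓ • g := by
  apply Fermat.Agent.S49.ext_of_qCoeff_eq
  intro n
  rw [Fermat.Agent.S49.qCoeff_heckeTLin hℓ hℓM g n, Fermat.Agent.S49.qCoeff_smul,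
    ← qCoeff_hecke_relation g hg hℓ hℓM n]
  norm_num

theorem normalizedEigenform_ne_zero {M : ℕ} [NeZero M] (g : CuspForm (Gamma0 M) 2)
    (hg : g.IsNormalizedEigenform) : g ≠ 0 := by
  intro h
  have h1 := hg.qCoeff_one
  rw [h] at h1
  have h0 : qCoeff ⇑(0 : CuspForm (Gamma0 M) 2) 1 = 0 := by
    have := Fermat.Agent.S49.qCoeff_smul (0 : ℂ) (0 : CuspForm (Gamma0 M) 2) 1
    simpa using this
  rw [h0] at h1
  exact zero_ne_one h1

/-- The eigenvalue `a_ℓ` of a normalized eigenform is an algebraic integer. -/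
theorem isIntegral_qCoeff_prime {M : ℕ} [NeZero M] (g : CuspForm (Gamma0 M) 2)
    (hg : g.IsNormalizedEigenform) {ℓ : ℕ} (hℓ : ℓ.Prime) (hℓM : ¬ ℓ ∣ M) :
    IsIntegral ℤ (qCoeff ⇑g ℓ) := by
  have : Module.Finite ℤ (CuspForm.heckeAlgebra M 2 ∅) :=
    Fermat.Agent.S22.moduleFinite_heckeAlgebra M 2 ∅
  set T : CuspForm.heckeAlgebra M 2 ∅ := CuspForm.heckeAlgebra.T hℓ hℓM (Set.notMem_empty ℓ)
    with hT
  obtain ⟨P, hPmonic, hP⟩ := IsIntegral.of_finite ℤ T
  refine ⟨P, hPmonic, ?_⟩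
  -- evaluate `P(T_ℓ) = 0` on `g`
  have hP' : Polynomial.aeval (T : Module.End ℂ (CuspForm (Gamma0 M) 2)) P = 0 := by
    have := Polynomial.aeval_subalgebra_coe P (CuspForm.heckeAlgebra M 2 ∅) T
    rw [← this]
    have h0 : Polynomial.aeval T P = 0 := hP
    rw [h0]
    rfl
  rw [hT, CuspForm.heckeAlgebra.coe_T] at hP'
  have heig : Module.End.HasEigenvector
      (CuspForm.heckeTLin 2 hℓ hℓM : Module.End ℂ (CuspForm (Gamma0 M) 2)) (qCoeff ⇑g ℓ) g := by
    refine ⟨?_, normalizedEigenform_ne_zero g hg⟩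
    rw [Module.End.mem_eigenspace_iff]
    exact heckeTLin_apply_eq_smul g hg hℓ hℓM
  have h1 := Module.End.aeval_apply_of_hasEigenvector (p := P.map (algebraMap ℤ ℂ)) heig
  rw [Polynomial.aeval_map_algebraMap, hP', LinearMap.zero_apply] at h1
  have h2 : Polynomial.eval (qCoeff ⇑g ℓ) (P.map (algebraMap ℤ ℂ)) = 0 := by
    rcases smul_eq_zero.mp h1.symm with h | h
    · exact h
    · exact absurd h (normalizedEigenform_ne_zero g hg)
  rw [Polynomial.eval_map] at h2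
  exact h2

/-- [INT] -/
theorem stmtInt : StmtInt := by
  intro M hM g hg ℓ hℓ hℓM
  have : NeZero M := ⟨hM.ne'⟩
  exact ⟨⟨qCoeff ⇑g ℓ, isIntegral_qCoeff_prime g hg hℓ hℓM⟩, rfl⟩

end Fermat.Agent.S42

end
end ZBS49_001_1

/-! ### bundled: `Fermat.Agent.ES.I2.B` -/
section ZBS49_001_2

/-!
# ES / I2, piece B: an integral basis of `S₂(Γ₀(N))` with independent reductions

`stmtB N A` (for `A` over a prime `ℓ`): there are `g = dim S₂(Γ₀(N))` cusp forms with integer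
`q`-expansions whose reductions modulo `ℓ` are linearly independent over the residue field of `A`.

Proof: S23 gives a `ℂ`-basis with integer `q`-expansions; Gaussian elimination (`q2_elim`, with
the attained Gauss norm from `exists_min_of_mem_span`) over `ℚ ∩ A` produces rational
combinations with `ℓ`-integral coefficients and pivots; a denominator prime to `ℓ` is cleared.
-/

set_option autoImplicit false

noncomputable section

namespace Fermat.Agent.ES.I2

open ModularCurve AlgebraicCurve HahnSeries Fermat.Agent.ES Fermat.Agent.S24 Fermat.Agent.ES.M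
open ModularFormClass CongruenceSubgroup

/-- coefficients of `fqZ` -/
theorem fqZ_coeff_natCast (z : ℕ → ℤ) (n : ℕ) : (fqZ z).coeff (n : ℤ) = z n := by
  rw [fqZ, HahnSeries.ofPowerSeries_apply_coeff, PowerSeries.coeff_mk]

theorem fqZ_coeff_neg (z : ℕ → ℤ) (m : ℤ) (hm : m < 0) : (fqZ z).coeff m = 0 := by
  rw [fqZ, HahnSeries.ofPowerSeries_apply]
  rw [HahnSeries.embDomain_of_notMem_range]
  rintro ⟨n, hn⟩
  have h1 : ((n : ℕ) : ℤ) = m := hn
  omega

/-- an `ℓ`-integral rational number with an `ℓ`-power denominator is an integer -/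
theorem b_int_of_pow_mul {ℓ : ℕ} (hℓ : ℓ.Prime) (A : ValuationSubring Kb) (hA : A.LiesOverPrime ℓ) :
    ∀ (e : ℕ) (y : ℚ), algebraMap ℚ Kb y ∈ A → (∃ m : ℤ, (ℓ : ℚ) ^ e * y = m) →
      ∃ m : ℤ, y = m := by
  intro e
  induction e with
  | zero =>
    rintro y - ⟨m, hm⟩
    exact ⟨m, by rwa [pow_zero, one_mul] at hm⟩
  | succ e ih =>
    rintro y hy ⟨m, hm⟩
    by_cases hdvd : (ℓ : ℤ) ∣ m
    · obtain ⟨m', rfl⟩ := hdvd
      refine ih y hy ⟨m', ?_⟩
      have hℓ0 : (ℓ : ℚ) ≠ 0 := Nat.cast_ne_zero.2 hℓ.ne_zero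
      have h1 : (ℓ : ℚ) * ((ℓ : ℚ) ^ e * y) = (ℓ : ℚ) * (m' : ℚ) := by
        rw [← mul_assoc, ← pow_succ', hm]
        push_cast
        ring
      exact mul_left_cancel₀ hℓ0 h1
    · exfalso
      -- `1 = a ℓ + b m` lies in the maximal ideal
      have h1 : Nat.Coprime ℓ m.natAbs :=
        (Nat.Prime.coprime_iff_not_dvd hℓ).2 (fun h => hdvd (Int.natCast_dvd.2 h))
      have hcop : IsCoprime (ℓ : ℤ) m := by
        rw [Int.isCoprime_iff_gcd_eq_one]
        simpa [Int.gcd] using h1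
      obtain ⟨a, b, hab⟩ := hcop
      set v := A.valuation with hv
      have hvℓ : v (ℓ : Kb) < 1 := (ValuationSubring.mem_nonunits_iff (A := A)).1 hA
      have hvint : ∀ c : ℤ, v (c : Kb) ≤ 1 := fun c =>
        (ValuationSubring.valuation_le_one_iff A _).2 (by
          have : ((c : A) : Kb) = (c : Kb) := by simp
          rw [← this]
          exact (c : A).2)
      have hvy : v (algebraMap ℚ Kb y) ≤ 1 := (ValuationSubring.valuation_le_one_iff A _).2 hy
      have hmK : (m : Kb) = (ℓ : Kb) * ((ℓ : Kb) ^ e * algebraMap ℚ Kb y) := by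
        have := congrArg (algebraMap ℚ Kb) hm
        rw [map_mul, map_pow, map_natCast, map_intCast] at this
        rw [← this, pow_succ]
        ring
      have hvm : v (m : Kb) < 1 := by
        rw [hmK, map_mul, map_mul, map_pow]
        calc v (ℓ : Kb) * (v (ℓ : Kb) ^ e * v (algebraMap ℚ Kb y))
            ≤ v (ℓ : Kb) * 1 := by
              refine mul_le_mul_right ?_ _
              exact mul_le_one' (pow_le_one' hvℓ.le e) hvy
          _ < 1 := by rw [mul_one]; exact hvℓ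
      have h1K : (1 : Kb) = (a : Kb) * (ℓ : Kb) + (b : Kb) * (m : Kb) := by
        have := congrArg (Int.cast : ℤ → Kb) hab
        push_cast at this
        exact this.symm
      have hlt : v (1 : Kb) < 1 := by
        rw [h1K]
        refine lt_of_le_of_lt (v.map_add _ _) (max_lt ?_ ?_)
        · rw [map_mul]
          calc v (a : Kb) * v (ℓ : Kb) ≤ 1 * v (ℓ : Kb) := mul_le_mul_left (hvint a) _
            _ < 1 := by rw [one_mul]; exact hvℓ
        · rw [map_mul]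
          calc v (b : Kb) * v (m : Kb) ≤ 1 * v (m : Kb) := mul_le_mul_left (hvint b) _
            _ < 1 := by rw [one_mul]; exact hvm
      rw [map_one] at hlt
      exact lt_irrefl _ hlt

/-- the rational `q`-expansion of an integral family -/
def bSer (z : ℕ → ℤ) : LaurentSeries ℚ := coeffMap (Int.castRingHom ℚ) (fqZ z)

theorem bSer_coeff_natCast (z : ℕ → ℤ) (n : ℕ) : (bSer z).coeff (n : ℤ) = (z n : ℚ) := by
  rw [bSer, coeffMap_coeff, fqZ_coeff_natCast]
  rfl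

theorem bSer_coeff_neg (z : ℕ → ℤ) (m : ℤ) (hm : m < 0) : (bSer z).coeff m = 0 := by
  rw [bSer, coeffMap_coeff, fqZ_coeff_neg z m hm, map_zero]

/-- a `ℂ`-basis of `S₂(Γ₀(N))` consisting of forms with integer `q`-expansions -/
theorem b_exists_basis (N : ℕ) [NeZero N] :
    ∃ (f : Fin (gN N) → CuspForm (Gamma0 N) 2) (z : Fin (gN N) → ℕ → ℤ),
      LinearIndependent ℂ f ∧ ∀ t n, qCoeff (f t) n = (z t n : ℂ) := by
  classical
  set S : Set (CuspForm (Gamma0 N) 2) := {f | ∀ n : ℕ, ∃ m : ℤ, qCoeff f n = (m : ℂ)} with hS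
  have hspan : Submodule.span ℂ S = ⊤ := by
    have h := Fermat.Agent.S23.hasIntegralStructure N 2
    rw [CuspForm.HasIntegralStructure, CuspForm.intLattice] at h
    rw [← h, Submodule.span_span_of_tower]
  rcases Nat.eq_zero_or_pos (gN N) with h0 | hpos
  · refine ⟨fun t => 0, fun _ _ => 0, ?_, fun t => ?_⟩
    · have : IsEmpty (Fin (gN N)) := by rw [h0]; infer_instance
      exact linearIndependent_empty_type
    · rw [h0] at t
      exact t.elim0
  · have hfin : Module.Finite ℂ (CuspForm (Gamma0 N) 2) := Module.finite_of_finrank_pos hpos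
    obtain ⟨b, hbS, hbspan, hbli⟩ := exists_linearIndependent ℂ S
    have hbtop : ⊤ ≤ Submodule.span ℂ (Set.range ((↑) : b → CuspForm (Gamma0 N) 2)) := by
      rw [Subtype.range_coe, hbspan, hspan]
    set B := Module.Basis.mk hbli hbtop with hB
    have hfb : Fintype b := FiniteDimensional.fintypeBasisIndex B
    have hcard : Fintype.card b = gN N := (Module.finrank_eq_card_basis B).symm
    set e : Fin (gN N) ≃ b := (Fintype.equivFinOfCardEq hcard).symm with he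
    have hmem : ∀ t, ((e t : b) : CuspForm (Gamma0 N) 2) ∈ S := fun t => hbS (e t).2
    choose z hz using hmem
    exact ⟨fun t => ((e t : b) : CuspForm (Gamma0 N) 2), z, hbli.comp e e.injective, hz⟩

open Fermat.Agent.ES.I2aux in
/-- **(B)** -/
theorem stmtB (N : ℕ) [NeZero N] {ℓ : ℕ} (hℓ : ℓ.Prime) (A : ValuationSubring Kb)
    (hA : A.LiesOverPrime ℓ) : StmtB N A := by
  classical
  obtain ⟨f, z, hfli, hfz⟩ := b_exists_basis N
  -- the rational expansions are linearly independent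
  set a : Fin (gN N) → LaurentSeries ℚ := fun t => bSer (z t) with ha
  have hqc : ∀ (c : Fin (gN N) → ℚ) (n : ℕ),
      qCoeff (⇑(∑ t, ((c t : ℚ) : ℂ) • f t : CuspForm (Gamma0 N) 2)) n =
        (((∑ t, c t • a t).coeff (n : ℤ) : ℚ) : ℂ) := by
    intro c n
    have h1 := map_sum (Fermat.Agent.S49.qCoeffLin N 2 n) (fun t => ((c t : ℚ) : ℂ) • f t)
      Finset.univ
    simp only [Fermat.Agent.S49.qCoeffLin_apply, map_smul] at h1
    rw [h1, HahnSeries.coeff_sum]
    push_cast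
    refine Finset.sum_congr rfl fun t _ => ?_
    rw [HahnSeries.coeff_smul, ha]
    simp only [bSer_coeff_natCast, smul_eq_mul, hfz]
    push_cast
    rfl
  have hneg : ∀ (c : Fin (gN N) → ℚ) (m : ℤ), m < 0 → (∑ t, c t • a t).coeff m = 0 := by
    intro c m hm
    rw [HahnSeries.coeff_sum]
    refine Finset.sum_eq_zero fun t _ => ?_
    rw [HahnSeries.coeff_smul, ha]
    simp only [bSer_coeff_neg _ m hm, smul_zero]
  have hali : LinearIndependent ℚ a := by
    rw [Fintype.linearIndependent_iff]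
    intro c hc
    have h1 : ∑ t, ((c t : ℚ) : ℂ) • f t = 0 := by
      apply Fermat.Agent.S49.eq_zero_of_qCoeff_eq_zero
      intro n
      rw [hqc c n, hc, HahnSeries.coeff_zero, Rat.cast_zero]
    intro t
    have h2 := (Fintype.linearIndependent_iff.1 hfli) (fun t => ((c t : ℚ) : ℂ)) h1 t
    exact_mod_cast h2
  -- the valuation subring of `ℚ`
  set A₀ : ValuationSubring ℚ := A.comap (algebraMap ℚ Kb) with hA₀
  have hA₀mem : ∀ x : ℚ, x ∈ A₀ ↔ algebraMap ℚ Kb x ∈ A := fun x => Iff.rfl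
  -- elimination
  obtain ⟨b, p, hbspan, hbA, hδ⟩ := Fermat.Agent.ES.M.q2_elim A₀.toSubring (cntCoeff (k := ℚ))
    (Submodule.span ℚ (Set.range a))
    (by
      intro x hx hx0
      obtain ⟨c, rfl⟩ := (Submodule.mem_span_range_iff_exists_fun ℚ).1 hx
      set S : Set ℚ := {y | y ≠ 0 ∧ ∃ n : ℤ, (∑ t, c t • a t).coeff n = y} with hS
      have hne : S.Nonempty := by
        by_contra hcon
        apply hx0
        ext n
        by_contra h
        exact hcon ⟨_, h, n, rfl⟩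
      obtain ⟨s₀, ⟨hs₀0, n₀, hn₀⟩, hmin⟩ := Fermat.Agent.ES.G2.exists_min_of_mem_span A₀
        (Finset.univ.image c) S hne (fun s hs => hs.1)
        (by
          rintro s ⟨-, n, rfl⟩
          rw [HahnSeries.coeff_sum]
          refine Submodule.sum_mem _ fun t _ => ?_
          rw [HahnSeries.coeff_smul, smul_eq_mul]
          have hin : ∃ m : ℤ, (a t).coeff n = (m : ℚ) := by
            rcases lt_or_ge n 0 with h | h
            · exact ⟨0, by rw [ha]; simp only [bSer_coeff_neg _ n h, Int.cast_zero]⟩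
            · obtain ⟨n', rfl⟩ := Int.eq_ofNat_of_zero_le h
              exact ⟨z t n', bSer_coeff_natCast _ _⟩
          obtain ⟨m, hm⟩ := hin
          rw [hm, mul_comm, ← zsmul_eq_mul]
          exact Submodule.smul_mem _ _ (Submodule.subset_span
            (Finset.mem_coe.2 (Finset.mem_image_of_mem c (Finset.mem_univ t)))))
      refine ⟨n₀, ?_, fun n => ?_⟩
      · rw [cntCoeff_apply, hn₀]
        exact hs₀0
      · rw [cntCoeff_apply, cntCoeff_apply, hn₀]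
        by_cases h : (∑ t, c t • a t).coeff n = 0
        · rw [h, zero_div]
          exact A₀.zero_mem
        · exact hmin _ ⟨h, n, rfl⟩)
    (gN N) a hali (fun t => Submodule.subset_span ⟨t, rfl⟩)
  -- coefficients of `b` in terms of `a`
  have hc : ∀ t, ∃ c : Fin (gN N) → ℚ, ∑ s, c s • a s = b t := fun t =>
    (Submodule.mem_span_range_iff_exists_fun ℚ).1 (hbspan t)
  choose c hc using hc
  -- denominators
  set D₀ : ℕ := ∏ t, ∏ s, (c t s).den with hD₀
  have hD₀0 : D₀ ≠ 0 :=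
    Finset.prod_ne_zero_iff.2 fun t _ => Finset.prod_ne_zero_iff.2 fun s _ => (c t s).den_nz
  obtain ⟨e, D, hD, hD₀eq⟩ := Nat.exists_eq_pow_mul_and_not_dvd hD₀0 ℓ hℓ.ne_one
  have hcint : ∀ t s, ∃ m : ℤ, (D₀ : ℚ) * c t s = m := by
    intro t s
    have hdvd : (c t s).den ∣ D₀ :=
      (Finset.dvd_prod_of_mem _ (Finset.mem_univ s)).trans
        (Finset.dvd_prod_of_mem (fun t => ∏ s, (c t s).den) (Finset.mem_univ t))
    obtain ⟨r, hr⟩ := hdvd
    refine ⟨(r : ℤ) * (c t s).num, ?_⟩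
    have h1 : ((c t s).den : ℚ) * c t s = ((c t s).num : ℚ) := Rat.den_mul_eq_num _
    rw [hr]
    push_cast
    rw [← h1]
    ring
  have hain : ∀ s (n : ℤ), ∃ m : ℤ, (a s).coeff n = (m : ℚ) := by
    intro s n
    rcases lt_or_ge n 0 with h | h
    · exact ⟨0, by rw [ha]; simp only [bSer_coeff_neg _ n h, Int.cast_zero]⟩
    · obtain ⟨n', rfl⟩ := Int.eq_ofNat_of_zero_le h
      exact ⟨z s n', bSer_coeff_natCast _ _⟩
  have hbint0 : ∀ t (n : ℤ), ∃ m : ℤ, (D₀ : ℚ) * (b t).coeff n = m := by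
    intro t n
    choose m hm using fun s => hcint t s
    choose m' hm' using fun s => hain s n
    refine ⟨∑ s, m s * m' s, ?_⟩
    rw [← hc t, HahnSeries.coeff_sum, Finset.mul_sum]
    push_cast
    refine Finset.sum_congr rfl fun s _ => ?_
    rw [HahnSeries.coeff_smul, smul_eq_mul, ← mul_assoc, hm s, hm' s]
  have hbint : ∀ t (n : ℤ), ∃ m : ℤ, (D : ℚ) * (b t).coeff n = m := by
    intro t n
    refine b_int_of_pow_mul hℓ A hA e ((D : ℚ) * (b t).coeff n) ?_ ?_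
    · rw [map_mul, map_natCast]
      refine A.mul_mem _ _ ?_ (hbA t n)
      have : (((D : ℕ) : A) : Kb) = (D : Kb) := by simp
      rw [← this]
      exact ((D : ℕ) : A).2
    · obtain ⟨m, hm⟩ := hbint0 t n
      refine ⟨m, ?_⟩
      rw [← hm, hD₀eq]
      push_cast
      ring
  choose z' hz' using hbint
  have hDk : ((D : ℕ) : kA A) ≠ 0 := by
    have := kron_charP_residueField hℓ hA
    intro h
    exact hD ((CharP.cast_eq_zero_iff (kA A) ℓ D).1 h)
  refine ⟨fun t => ∑ s, (((D : ℚ) * c t s : ℚ) : ℂ) • f s, fun t n => z' t (n : ℤ), ?_, ?_⟩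
  · intro t n
    rw [hqc (fun s => (D : ℚ) * c t s) n]
    have h1 : ∑ s, ((D : ℚ) * c t s) • a s = (D : ℚ) • b t := by
      rw [← hc t, Finset.smul_sum]
      refine Finset.sum_congr rfl fun s _ => ?_
      rw [mul_smul]
    rw [h1, HahnSeries.coeff_smul, smul_eq_mul, hz' t n]
    push_cast
    rfl
  · rw [Fintype.linearIndependent_iff]
    intro γ hγ j
    have hp0 : 0 ≤ p j := by
      by_contra h
      rw [not_le] at h
      have h1 : (b j).coeff (p j) = 0 := by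
        rw [← hc j]
        exact hneg (c j) (p j) h
      have h2 := hδ j j
      rw [cntCoeff_apply, h1, if_pos rfl] at h2
      exact zero_ne_one h2
    obtain ⟨pn, hpn⟩ := Int.eq_ofNat_of_zero_le hp0
    have h3 := congrArg (fun x : LaurentSeries (kA A) => x.coeff (p j)) hγ
    simp only [HahnSeries.coeff_sum, HahnSeries.coeff_smul, coeffMap_coeff,
      HahnSeries.coeff_zero] at h3
    have h4 : ∀ t, (fqZ fun n => z' t (n : ℤ)).coeff (p j) = if t = j then (D : ℤ) else 0 := by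
      intro t
      rw [hpn, fqZ_coeff_natCast, ← hpn]
      have h5 := hz' t (p j)
      have hd := hδ t j
      rw [cntCoeff_apply] at hd
      rw [hd] at h5
      split_ifs with h
      · rw [if_pos h, mul_one] at h5
        exact_mod_cast h5.symm
      · rw [if_neg h, mul_zero] at h5
        exact_mod_cast h5.symm
    simp only [h4] at h3
    have h6 : ∑ t, γ t • (Int.castRingHom (kA A)) (if t = j then (D : ℤ) else 0) =
        γ j * ((D : ℕ) : kA A) := by
      rw [Finset.sum_eq_single j]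
      · rw [if_pos rfl, smul_eq_mul]
        simp
      · intro t _ ht
        rw [if_neg ht, map_zero, smul_zero]
      · intro h
        exact absurd (Finset.mem_univ _) h
    rw [h6] at h3
    rcases mul_eq_zero.1 h3 with h | h
    · exact h
    · exact absurd h hDk

/-- piece I2-B -/
theorem stmtBAll : StmtBAll := fun N _ _ hℓ A hA => stmtB N hℓ A hA

end Fermat.Agent.ES.I2

end
end ZBS49_001_2

/-! ### bundled: `Fermat.Agent.ES.I2.MFk` -/
section ZBS49_001_3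

/-!
# ES / I2-MFk: the functions of `StmtMF` in characteristic `ℓ`

`stmtMFkGlue : StmtMFkGlue` (`= StmtIRAll → StmtMFAll → StmtMFkAll`, interface `ES/I2/Plan2.lean`).

The functions `Yt, Y1, Y2 ∈ ℤ((q))` of `StmtMF` are reduced to `k((q))`: the reduction of
`coeffMap (ℤ → A) Y` is `coeffMap (ℤ → k) Y`; membership in `F_k` is `(RedF)`
(`ES/M/RedF.lean`), integrality over `k[j̄]` is `StmtIR` applied to the cuspidal norm relation
(a monic relation over `ℚ̄[j]`), and the order bound is the field `cusp` of `IsTau`.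
-/

set_option autoImplicit false

noncomputable section

namespace Fermat.Agent.ES.I2

open ModularCurve AlgebraicCurve HahnSeries Fermat.Agent.ES Fermat.Agent.S24 Fermat.Agent.ES.M
open Fermat.Agent.S28.Deriv

/-- a cuspidal norm relation is a monic relation over `ℚ̄[j]`. -/
theorem mfk_intJ_of_cuspRel (N : ℕ) {x : LaurentSeries Kb} (h : CuspRel N x) : IntJ jBar x := by
  obtain ⟨a, ha⟩ := h
  refine ⟨Polynomial.X ^ dedekindPsi N + ∑ j ∈ Finset.Icc 1 (dedekindPsi N),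
      Polynomial.C (∑ i ∈ Finset.range j, Polynomial.C (a j i) * Polynomial.X ^ i) *
        Polynomial.X ^ (dedekindPsi N - j), Polynomial.monic_X_pow_add ?_, ?_⟩
  · refine lt_of_le_of_lt (Polynomial.degree_sum_le _ _) ?_
    refine (Finset.sup_lt_iff (WithBot.bot_lt_coe (dedekindPsi N))).2 fun j hj => ?_
    rw [Finset.mem_Icc] at hj
    refine lt_of_le_of_lt (Polynomial.degree_C_mul_X_pow_le _ _) ?_
    exact WithBot.coe_lt_coe.2 (by omega : dedekindPsi N - j < dedekindPsi N)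
  · rw [Polynomial.eval₂_add, Polynomial.eval₂_X_pow, Polynomial.eval₂_finsetSum, ← ha]
    congr 1
    refine Finset.sum_congr rfl fun j _ => ?_
    rw [Polynomial.eval₂_mul, Polynomial.eval₂_C, Polynomial.eval₂_X_pow]
    congr 1
    simp only [AlgHom.toRingHom_eq_coe, RingHom.coe_coe, map_sum, map_mul, map_pow,
      Polynomial.aeval_C, Polynomial.aeval_X, algebraMap_eq_hahnC]

theorem mfk_incl (A : ValuationSubring Kb) (Y : LaurentSeries ℤ) :
    kronIncl A (coeffMap (Int.castRingHom A) Y) = coeffMap (Int.castRingHom Kb) Y := by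
  rw [kronIncl, coeffMap_coeffMap]
  exact coeffMap_congr (RingHom.ext_int _ _) _

theorem mfk_red (A : ValuationSubring Kb) (Y : LaurentSeries ℤ) :
    kronRed A (coeffMap (Int.castRingHom A) Y) = coeffMap (Int.castRingHom (kA A)) Y := by
  rw [kronRed, coeffMap_coeffMap]
  exact coeffMap_congr (RingHom.ext_int _ _) _

theorem mfk_fqZ_coeff (z : ℕ → ℤ) (hz0 : z 0 = 0) (m : ℤ) (hm : m ≤ 0) : (fqZ z).coeff m = 0 := by
  rcases hm.lt_or_eq with h | rfl
  · exact ofPowerSeries_coeff_of_neg _ h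
  · rw [fqZ]
    have := HahnSeries.ofPowerSeries_apply_coeff (Γ := ℤ) (PowerSeries.mk z) 0
    rw [Nat.cast_zero] at this
    rw [this, PowerSeries.coeff_mk, hz0]

/-- piece `I2-MFk`. -/
theorem stmtMFkGlue : StmtMFkGlue := by
  intro hIR hMF N _ ℓ hℓ hℓN A hA τ i₀ hτ f z hz
  obtain ⟨Yt, Y1, Y2, e1, e2, e3, ⟨mt, ct⟩, ⟨m1, c1⟩, ⟨m2, c2⟩⟩ := hMF N f z hz
  have hRedF := stmtRedF N A ℓ hℓ hℓN hA
  have hIRA := hIR N ℓ hℓ hℓN A hA
  have hz0 : z 0 = 0 := by
    have h1 := hz 0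
    rw [Fermat.Agent.S49.qCoeff_zero_cusp] at h1
    exact_mod_cast h1.symm
  -- membership of the reductions
  have key : ∀ Y : LaurentSeries ℤ, coeffMap (Int.castRingHom Kb) Y ∈ modularFunctionFieldBar N →
      CuspRel N (coeffMap (Int.castRingHom Kb) Y) →
      ∃ hYk : coeffMap (Int.castRingHom (kA A)) Y ∈ modularFunctionFieldFullC (kA A) N,
        IntJ (jqModC (kA A)) (coeffMap (Int.castRingHom (kA A)) Y) ∧
        ∀ i, ∀ m : ℤ, m ≤ -(N : ℤ) →
          (τ i ⟨coeffMap (Int.castRingHom (kA A)) Y, hYk⟩).coeff m = 0 := by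
    intro Y hm hc
    have hm' : kronIncl A (coeffMap (Int.castRingHom A) Y) ∈ modularFunctionFieldBar N := by
      rw [mfk_incl]; exact hm
    have hc' : CuspRel N (kronIncl A (coeffMap (Int.castRingHom A) Y)) := by
      rw [mfk_incl]; exact hc
    have h1 := hRedF _ hm'
    have h2 := hIRA _ hm' (mfk_intJ_of_cuspRel N hc')
    have h3 := fun i => hτ.cusp i _ hm' h1 hc'
    simp only [mfk_red] at h1 h2 h3
    exact ⟨h1, h2, h3⟩
  obtain ⟨ht, it, ot⟩ := key Yt mt ct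
  obtain ⟨h1, i1, -⟩ := key Y1 m1 c1
  obtain ⟨h2, i2, -⟩ := key Y2 m2 c2
  refine ⟨fun m hm => ?_, ⟨_, ht⟩, ⟨_, h1⟩, ⟨_, h2⟩, ?_, ?_, ?_, it, i1, i2, ot⟩
  · rw [coeffMap_coeff, mfk_fqZ_coeff z hz0 m hm, map_zero]
  · have := congrArg (coeffMap (Int.castRingHom (kA A))) e1
    simpa only [map_mul, map_sub, ← thetaFun_coeffMap, coeffMap_jqModC, map_ofNat] using this
  · have := congrArg (coeffMap (Int.castRingHom (kA A))) e2
    simpa only [map_mul, map_sub, map_pow, coeffMap_jqModC, map_ofNat] using this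
  · have := congrArg (coeffMap (Int.castRingHom (kA A))) e3
    simpa only [map_mul, map_sub, map_pow, coeffMap_jqModC, map_ofNat] using this

end Fermat.Agent.ES.I2

end
end ZBS49_001_3

/-! ### bundled: `Fermat.Agent.R38.HolKill` -/
section ZBS49_001_4

/-!
# Row 38, PKG-TRES, route HOL-dlog (helper83), piece HOL-KILL (helper52)

The formal weight-2 Hecke operators `r38heckeT ℓ` on `k((q))` commute; `r38hkillEval k t` is the
formal evaluation of `t ∈ HeckeAlg = ℤ[X_ℓ]` at them (a `k`-linear endomorphism of `k((q))`).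

* `r38hkillEval_X / _C / _add / _mul / _one / _zero` : the API of the evaluation
  (`r38hkillEval k (X ℓ) b = r38heckeT ℓ b`, …).
* `R38HkillRed M k f b` : `b` is the reduction of the `q`-expansion of the cusp form `f`
  (which has integer coefficients).
* `r38hkill_red_eval` : `R38HkillRed f b`, `t` supported on the primes `ℓ ∤ M`  ⇒
  `R38HkillRed (t f) (r38hkillEval k t b)`  (**`(T f)‾ = T f̄`**).
* **`r38hkill_main`** : if `t` (supported on the primes `ℓ ∤ M`) acts as zero on `S₂(Γ₀(M))`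
  (`CuspForm.heckeEvalForms M 2 t = 0`, i.e. `KillsForms M t`), then `r38hkillEval k t` kills the
  reduction of every cusp form with integer `q`-expansion;
* **`r38hkill_span`** : … and every `k`-linear combination of such reductions.
-/

set_option autoImplicit false
set_option linter.unusedSectionVars false
set_option linter.style.haveILetI false

noncomputable section

namespace Fermat.Agent.R38

open HahnSeries ModularCurve Fermat.Agent.ES

/-! ## the formal Hecke operators as linear maps -/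

section Formal

variable (k : Type*) [Field k]

theorem r38hkill_heckeT_smul (ℓ : ℕ) [NeZero ℓ] (c : k) (b : LaurentSeries k) :
    r38heckeT ℓ (c • b) = c • r38heckeT ℓ b := by
  ext n
  by_cases hn : (ℓ : ℤ) ∣ n
  · obtain ⟨m, rfl⟩ := hn
    simp only [r38heckeT_coeff, HahnSeries.coeff_smul, qExpand_coeff_mul, smul_eq_mul]
    ring
  · simp only [r38heckeT_coeff, HahnSeries.coeff_smul, qExpand_coeff_of_not_dvd ℓ _ hn,
      smul_eq_mul]
    ring

/-- `r38heckeT ℓ` as a `k`-linear map -/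
def r38hkillT (ℓ : ℕ) [NeZero ℓ] : Module.End k (LaurentSeries k) where
  toFun := r38heckeT ℓ
  map_add' := r38heckeT_add ℓ
  map_smul' c b := r38hkill_heckeT_smul k ℓ c b

@[simp] theorem r38hkillT_apply (ℓ : ℕ) [NeZero ℓ] (b : LaurentSeries k) :
    r38hkillT k ℓ b = r38heckeT ℓ b := rfl

/-- the coefficients of `f(q^ℓ)` -/
theorem r38hkill_qExpand_coeff (ℓ : ℕ) [NeZero ℓ] (b : LaurentSeries k) (n : ℤ) :
    (qExpand k ℓ b).coeff n = if (ℓ : ℤ) ∣ n then b.coeff (n / ℓ) else 0 := by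
  have hℓ : (ℓ : ℤ) ≠ 0 := by exact_mod_cast NeZero.ne ℓ
  split_ifs with h
  · obtain ⟨m, rfl⟩ := h
    rw [qExpand_coeff_mul, Int.mul_ediv_cancel_left _ hℓ]
  · exact qExpand_coeff_of_not_dvd ℓ b h

/-- the coefficients of `T_ℓ b` -/
theorem r38hkill_heckeT_coeff (ℓ : ℕ) [NeZero ℓ] (b : LaurentSeries k) (n : ℤ) :
    (r38heckeT ℓ b).coeff n
      = b.coeff ((ℓ : ℤ) * n) + ((ℓ : ℕ) : k) * (if (ℓ : ℤ) ∣ n then b.coeff (n / ℓ) else 0) := by
  rw [r38heckeT_coeff, r38hkill_qExpand_coeff]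

/-- `T_ℓ` at a multiple of `ℓ` -/
theorem r38hkill_heckeT_coeff_mul (ℓ : ℕ) [NeZero ℓ] (b : LaurentSeries k) (m : ℤ) :
    (r38heckeT ℓ b).coeff ((ℓ : ℤ) * m)
      = b.coeff ((ℓ : ℤ) * ((ℓ : ℤ) * m)) + ((ℓ : ℕ) : k) * b.coeff m := by
  rw [r38heckeT_coeff, qExpand_coeff_mul]

/-- `T_ℓ` at a non-multiple of `ℓ` -/
theorem r38hkill_heckeT_coeff_not (ℓ : ℕ) [NeZero ℓ] (b : LaurentSeries k) {n : ℤ}
    (hn : ¬ (ℓ : ℤ) ∣ n) :
    (r38heckeT ℓ b).coeff n = b.coeff ((ℓ : ℤ) * n) := by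
  rw [r38heckeT_coeff, qExpand_coeff_of_not_dvd ℓ b hn, mul_zero, add_zero]

/-- two formal Hecke operators at distinct primes commute -/
theorem r38hkill_comm {ℓ ℓ' : ℕ} [NeZero ℓ] [NeZero ℓ'] (hℓ : ℓ.Prime) (hℓ' : ℓ'.Prime)
    (hne : ℓ ≠ ℓ') (b : LaurentSeries k) :
    r38heckeT ℓ (r38heckeT ℓ' b) = r38heckeT ℓ' (r38heckeT ℓ b) := by
  have hcop : IsCoprime (ℓ : ℤ) (ℓ' : ℤ) :=
    Nat.isCoprime_iff_coprime.mpr ((Nat.coprime_primes hℓ hℓ').mpr hne)
  -- divisibility facts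
  have hd1 : ∀ n : ℤ, (ℓ' : ℤ) ∣ (ℓ : ℤ) * n → (ℓ' : ℤ) ∣ n := fun n h =>
    hcop.symm.dvd_of_dvd_mul_left h
  have hd2 : ∀ n : ℤ, (ℓ : ℤ) ∣ (ℓ' : ℤ) * n → (ℓ : ℤ) ∣ n := fun n h =>
    hcop.dvd_of_dvd_mul_left h
  have hsw : ∀ x : ℤ, (ℓ : ℤ) * ((ℓ' : ℤ) * x) = (ℓ' : ℤ) * ((ℓ : ℤ) * x) := fun x => by ring
  ext n
  by_cases h1 : (ℓ : ℤ) ∣ n <;> by_cases h2 : (ℓ' : ℤ) ∣ n
  · obtain ⟨m₁, rfl⟩ := h1
    obtain ⟨m, rfl⟩ := hd1 _ h2
    -- `n = ℓ (ℓ' m)`
    have hL : (r38heckeT ℓ (r38heckeT ℓ' b)).coeff ((ℓ : ℤ) * ((ℓ' : ℤ) * m))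
        = b.coeff ((ℓ' : ℤ) * ((ℓ' : ℤ) * ((ℓ : ℤ) * ((ℓ : ℤ) * m))))
          + ((ℓ' : ℕ) : k) * b.coeff ((ℓ : ℤ) * ((ℓ : ℤ) * m))
          + ((ℓ : ℕ) : k) * (b.coeff ((ℓ' : ℤ) * ((ℓ' : ℤ) * m)) + ((ℓ' : ℕ) : k) * b.coeff m) := by
      rw [r38hkill_heckeT_coeff_mul, r38hkill_heckeT_coeff_mul,
        show (ℓ : ℤ) * ((ℓ : ℤ) * ((ℓ' : ℤ) * m)) = (ℓ' : ℤ) * ((ℓ : ℤ) * ((ℓ : ℤ) * m)) by ring,
        r38hkill_heckeT_coeff_mul]
    have hR : (r38heckeT ℓ' (r38heckeT ℓ b)).coeff ((ℓ' : ℤ) * ((ℓ : ℤ) * m))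
        = b.coeff ((ℓ : ℤ) * ((ℓ : ℤ) * ((ℓ' : ℤ) * ((ℓ' : ℤ) * m))))
          + ((ℓ : ℕ) : k) * b.coeff ((ℓ' : ℤ) * ((ℓ' : ℤ) * m))
          + ((ℓ' : ℕ) : k) * (b.coeff ((ℓ : ℤ) * ((ℓ : ℤ) * m)) + ((ℓ : ℕ) : k) * b.coeff m) := by
      rw [r38hkill_heckeT_coeff_mul, r38hkill_heckeT_coeff_mul,
        show (ℓ' : ℤ) * ((ℓ' : ℤ) * ((ℓ : ℤ) * m)) = (ℓ : ℤ) * ((ℓ' : ℤ) * ((ℓ' : ℤ) * m)) by ring,
        r38hkill_heckeT_coeff_mul]
    rw [hL, hsw, hR,
      show (ℓ' : ℤ) * ((ℓ' : ℤ) * ((ℓ : ℤ) * ((ℓ : ℤ) * m)))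
        = (ℓ : ℤ) * ((ℓ : ℤ) * ((ℓ' : ℤ) * ((ℓ' : ℤ) * m))) by ring]
    ring
  · obtain ⟨m, rfl⟩ := h1
    have h2' : ¬ (ℓ' : ℤ) ∣ m := fun h => h2 (Dvd.dvd.mul_left h _)
    have h2'' : ¬ (ℓ' : ℤ) ∣ (ℓ : ℤ) * ((ℓ : ℤ) * m) := fun h => h2 (hd1 _ h)
    have hL : (r38heckeT ℓ (r38heckeT ℓ' b)).coeff ((ℓ : ℤ) * m)
        = b.coeff ((ℓ' : ℤ) * ((ℓ : ℤ) * ((ℓ : ℤ) * m)))
          + ((ℓ : ℕ) : k) * b.coeff ((ℓ' : ℤ) * m) := by
      rw [r38hkill_heckeT_coeff_mul, r38hkill_heckeT_coeff_not k ℓ' b h2'',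
        r38hkill_heckeT_coeff_not k ℓ' b h2']
    have hR : (r38heckeT ℓ' (r38heckeT ℓ b)).coeff ((ℓ : ℤ) * m)
        = b.coeff ((ℓ : ℤ) * ((ℓ : ℤ) * ((ℓ' : ℤ) * m)))
          + ((ℓ : ℕ) : k) * b.coeff ((ℓ' : ℤ) * m) := by
      rw [r38hkill_heckeT_coeff_not k ℓ' _ h2, ← hsw, r38hkill_heckeT_coeff_mul]
    rw [hL, hR, show (ℓ' : ℤ) * ((ℓ : ℤ) * ((ℓ : ℤ) * m))
        = (ℓ : ℤ) * ((ℓ : ℤ) * ((ℓ' : ℤ) * m)) by ring]
  · obtain ⟨m, rfl⟩ := h2
    have h1' : ¬ (ℓ : ℤ) ∣ m := fun h => h1 (Dvd.dvd.mul_left h _)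
    have h1'' : ¬ (ℓ : ℤ) ∣ (ℓ' : ℤ) * ((ℓ' : ℤ) * m) := fun h => h1 (hd2 _ h)
    have hR : (r38heckeT ℓ' (r38heckeT ℓ b)).coeff ((ℓ' : ℤ) * m)
        = b.coeff ((ℓ : ℤ) * ((ℓ' : ℤ) * ((ℓ' : ℤ) * m)))
          + ((ℓ' : ℕ) : k) * b.coeff ((ℓ : ℤ) * m) := by
      rw [r38hkill_heckeT_coeff_mul, r38hkill_heckeT_coeff_not k ℓ b h1'',
        r38hkill_heckeT_coeff_not k ℓ b h1']
    have hL : (r38heckeT ℓ (r38heckeT ℓ' b)).coeff ((ℓ' : ℤ) * m)
        = b.coeff ((ℓ' : ℤ) * ((ℓ' : ℤ) * ((ℓ : ℤ) * m)))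
          + ((ℓ' : ℕ) : k) * b.coeff ((ℓ : ℤ) * m) := by
      rw [r38hkill_heckeT_coeff_not k ℓ _ h1, hsw, r38hkill_heckeT_coeff_mul]
    rw [hL, hR, show (ℓ' : ℤ) * ((ℓ' : ℤ) * ((ℓ : ℤ) * m))
        = (ℓ : ℤ) * ((ℓ' : ℤ) * ((ℓ' : ℤ) * m)) by ring]
  · have h1' : ¬ (ℓ : ℤ) ∣ (ℓ' : ℤ) * n := fun h => h1 (hd2 _ h)
    have h2' : ¬ (ℓ' : ℤ) ∣ (ℓ : ℤ) * n := fun h => h2 (hd1 _ h)
    rw [r38hkill_heckeT_coeff_not k ℓ _ h1, r38hkill_heckeT_coeff_not k ℓ' _ h2',
      r38hkill_heckeT_coeff_not k ℓ' _ h2, r38hkill_heckeT_coeff_not k ℓ _ h1', hsw]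

/-- the formal Hecke operator at the prime `ℓ` -/
def r38hkillGen (ℓ : Nat.Primes) : Module.End k (LaurentSeries k) :=
  haveI : NeZero (ℓ : ℕ) := ⟨ℓ.2.ne_zero⟩
  r38hkillT k ℓ

theorem r38hkillGen_apply (ℓ : Nat.Primes) (b : LaurentSeries k) :
    r38hkillGen k ℓ b = (haveI : NeZero (ℓ : ℕ) := ⟨ℓ.2.ne_zero⟩; r38heckeT (ℓ : ℕ) b) := rfl

theorem r38hkillGen_commute (ℓ ℓ' : Nat.Primes) :
    Commute (r38hkillGen k ℓ) (r38hkillGen k ℓ') := by
  by_cases h : ℓ = ℓ'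
  · subst h
    exact Commute.refl _
  · haveI : NeZero (ℓ : ℕ) := ⟨ℓ.2.ne_zero⟩
    haveI : NeZero (ℓ' : ℕ) := ⟨ℓ'.2.ne_zero⟩
    have hne : (ℓ : ℕ) ≠ (ℓ' : ℕ) := fun e => h (Subtype.ext e)
    apply LinearMap.ext
    intro b
    exact r38hkill_comm k ℓ.2 ℓ'.2 hne b

/-- the commutative algebra of the formal Hecke operators -/
def r38hkillAlg : Subalgebra ℤ (Module.End k (LaurentSeries k)) :=
  Algebra.adjoin ℤ (Set.range (r38hkillGen k))

instance r38hkillAlg.instIsMulCommutative : IsMulCommutative (r38hkillAlg k) :=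
  Algebra.isMulCommutative_adjoin ℤ (by
    rintro _ ⟨ℓ, rfl⟩ _ ⟨ℓ', rfl⟩
    exact r38hkillGen_commute k ℓ ℓ')

open scoped IsMulCommutative in
instance r38hkillAlg.instCommRing : CommRing (r38hkillAlg k) := inferInstance

/-- the generator in the algebra -/
def r38hkillGenA (ℓ : Nat.Primes) : r38hkillAlg k :=
  ⟨r38hkillGen k ℓ, Algebra.subset_adjoin ⟨ℓ, rfl⟩⟩

/-- **the formal evaluation** of a Hecke polynomial on `k((q))` -/
def r38hkillEval (t : HeckeAlg) : Module.End k (LaurentSeries k) :=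
  (MvPolynomial.aeval (r38hkillGenA k) t : r38hkillAlg k).1

/-! ## API of the evaluation -/

theorem r38hkillEval_X (ℓ : Nat.Primes) :
    r38hkillEval k (MvPolynomial.X ℓ) = r38hkillGen k ℓ := by
  unfold r38hkillEval
  rw [MvPolynomial.aeval_X]
  rfl

theorem r38hkillEval_X_apply (ℓ : Nat.Primes) (b : LaurentSeries k) :
    r38hkillEval k (MvPolynomial.X ℓ) b =
      (haveI : NeZero (ℓ : ℕ) := ⟨ℓ.2.ne_zero⟩; r38heckeT (ℓ : ℕ) b) := by
  rw [r38hkillEval_X]
  rfl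

theorem r38hkillEval_heckeGen_apply (ℓ : Nat.Primes) (b : LaurentSeries k) :
    r38hkillEval k (heckeGen ℓ) b =
      (haveI : NeZero (ℓ : ℕ) := ⟨ℓ.2.ne_zero⟩; r38heckeT (ℓ : ℕ) b) :=
  r38hkillEval_X_apply k ℓ b

theorem r38hkillEval_add (s t : HeckeAlg) :
    r38hkillEval k (s + t) = r38hkillEval k s + r38hkillEval k t := by
  unfold r38hkillEval
  rw [map_add]
  rfl

theorem r38hkillEval_add_apply (s t : HeckeAlg) (b : LaurentSeries k) :
    r38hkillEval k (s + t) b = r38hkillEval k s b + r38hkillEval k t b := by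
  rw [r38hkillEval_add]
  rfl

theorem r38hkillEval_mul (s t : HeckeAlg) :
    r38hkillEval k (s * t) = r38hkillEval k s * r38hkillEval k t := by
  unfold r38hkillEval
  rw [map_mul]
  rfl

theorem r38hkillEval_mul_apply (s t : HeckeAlg) (b : LaurentSeries k) :
    r38hkillEval k (s * t) b = r38hkillEval k s (r38hkillEval k t b) := by
  rw [r38hkillEval_mul]
  rfl

theorem r38hkillEval_zero : r38hkillEval k 0 = 0 := by
  unfold r38hkillEval
  rw [map_zero]
  rfl

theorem r38hkillEval_one : r38hkillEval k 1 = 1 := by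
  unfold r38hkillEval
  rw [map_one]
  rfl

theorem r38hkillEval_C (a : ℤ) :
    r38hkillEval k (MvPolynomial.C a) = a • (1 : Module.End k (LaurentSeries k)) := by
  unfold r38hkillEval
  rw [MvPolynomial.aeval_C, Algebra.algebraMap_eq_smul_one]
  rfl

theorem r38hkillEval_C_apply (a : ℤ) (b : LaurentSeries k) :
    r38hkillEval k (MvPolynomial.C a) b = ((a : ℤ) : k) • b := by
  rw [r38hkillEval_C, LinearMap.smul_apply, Module.End.one_apply, Int.cast_smul_eq_zsmul]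

theorem r38hkillEval_neg (t : HeckeAlg) : r38hkillEval k (-t) = -r38hkillEval k t := by
  unfold r38hkillEval
  rw [map_neg]
  rfl

theorem r38hkillEval_sub (s t : HeckeAlg) :
    r38hkillEval k (s - t) = r38hkillEval k s - r38hkillEval k t := by
  unfold r38hkillEval
  rw [map_sub]
  rfl

theorem r38hkillEval_zsmul (a : ℤ) (t : HeckeAlg) :
    r38hkillEval k (a • t) = a • r38hkillEval k t := by
  unfold r38hkillEval
  rw [map_zsmul]
  rfl

/-- the evaluation of a polynomial in renamed variables -/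
theorem r38hkillEval_rename {σ : Type*} (g : σ → Nat.Primes) (t : MvPolynomial σ ℤ) :
    r38hkillEval k (MvPolynomial.rename g t) =
      (MvPolynomial.aeval (fun i => r38hkillGenA k (g i)) t : r38hkillAlg k).1 := by
  unfold r38hkillEval
  rw [MvPolynomial.aeval_rename]
  rfl

end Formal

/-! ## reductions of cusp forms with integer `q`-expansion -/

section Red

open ModularFormClass CongruenceSubgroup Fermat.Agent.S49

variable (M : ℕ) (k : Type*) [Field k]

/-- the series `∑ z_n q^n` over `ℤ` (it is `ES.I2.fqZ z`) -/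
abbrev r38hkillZ (z : ℕ → ℤ) : LaurentSeries ℤ :=
  HahnSeries.ofPowerSeries ℤ ℤ (PowerSeries.mk z)

theorem r38hkillZ_coeff_natCast (z : ℕ → ℤ) (n : ℕ) : (r38hkillZ z).coeff (n : ℤ) = z n := by
  rw [r38hkillZ, HahnSeries.ofPowerSeries_apply_coeff, PowerSeries.coeff_mk]

theorem r38hkillZ_coeff_neg (z : ℕ → ℤ) (m : ℤ) (hm : m < 0) : (r38hkillZ z).coeff m = 0 := by
  rw [r38hkillZ, HahnSeries.ofPowerSeries_apply]
  rw [HahnSeries.embDomain_of_notMem_range]
  rintro ⟨n, hn⟩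
  have h1 : ((n : ℕ) : ℤ) = m := hn
  omega

/-- the reduction of `∑ z_n q^n` to `k` -/
def r38hkillZk (z : ℕ → ℤ) : LaurentSeries k :=
  coeffMap (Int.castRingHom k) (r38hkillZ z)

theorem r38hkillZk_coeff_natCast (z : ℕ → ℤ) (n : ℕ) :
    (r38hkillZk k z).coeff (n : ℤ) = ((z n : ℤ) : k) := by
  rw [r38hkillZk, coeffMap_coeff, r38hkillZ_coeff_natCast]
  rfl

theorem r38hkillZk_coeff_neg (z : ℕ → ℤ) (m : ℤ) (hm : m < 0) :
    (r38hkillZk k z).coeff m = 0 := by
  rw [r38hkillZk, coeffMap_coeff, r38hkillZ_coeff_neg z m hm, map_zero]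

theorem r38hkillZk_ext {z z' : ℕ → ℤ} (h : ∀ n, ((z n : ℤ) : k) = ((z' n : ℤ) : k)) :
    r38hkillZk k z = r38hkillZk k z' := by
  ext m
  rcases lt_or_ge m 0 with hm | hm
  · rw [r38hkillZk_coeff_neg k z m hm, r38hkillZk_coeff_neg k z' m hm]
  · obtain ⟨n, rfl⟩ := Int.eq_ofNat_of_zero_le hm
    rw [r38hkillZk_coeff_natCast, r38hkillZk_coeff_natCast, h n]

theorem r38hkillZk_zero : r38hkillZk k (fun _ => 0) = 0 := by
  ext m
  rcases lt_or_ge m 0 with hm | hm
  · rw [r38hkillZk_coeff_neg k _ m hm, HahnSeries.coeff_zero]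
  · obtain ⟨n, rfl⟩ := Int.eq_ofNat_of_zero_le hm
    rw [r38hkillZk_coeff_natCast, HahnSeries.coeff_zero, Int.cast_zero]

theorem r38hkillZk_add (z z' : ℕ → ℤ) :
    r38hkillZk k (fun n => z n + z' n) = r38hkillZk k z + r38hkillZk k z' := by
  ext m
  rcases lt_or_ge m 0 with hm | hm
  · rw [HahnSeries.coeff_add, r38hkillZk_coeff_neg k _ m hm, r38hkillZk_coeff_neg k _ m hm,
      r38hkillZk_coeff_neg k _ m hm, add_zero]
  · obtain ⟨n, rfl⟩ := Int.eq_ofNat_of_zero_le hm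
    rw [HahnSeries.coeff_add, r38hkillZk_coeff_natCast, r38hkillZk_coeff_natCast,
      r38hkillZk_coeff_natCast, Int.cast_add]

theorem r38hkillZk_smul (a : ℤ) (z : ℕ → ℤ) :
    r38hkillZk k (fun n => a * z n) = ((a : ℤ) : k) • r38hkillZk k z := by
  ext m
  rcases lt_or_ge m 0 with hm | hm
  · rw [HahnSeries.coeff_smul, r38hkillZk_coeff_neg k _ m hm, r38hkillZk_coeff_neg k _ m hm,
      smul_zero]
  · obtain ⟨n, rfl⟩ := Int.eq_ofNat_of_zero_le hm
    rw [HahnSeries.coeff_smul, r38hkillZk_coeff_natCast, r38hkillZk_coeff_natCast,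
      Int.cast_mul, smul_eq_mul]

/-- the formal Hecke operator on the reduction of an integer series -/
theorem r38hkillZk_heckeT (ℓ : ℕ) [NeZero ℓ] (z : ℕ → ℤ) :
    r38heckeT ℓ (r38hkillZk k z) =
      r38hkillZk k (fun n => z (n * ℓ) + if ℓ ∣ n then (ℓ : ℤ) * z (n / ℓ) else 0) := by
  have hℓ : (0 : ℤ) < (ℓ : ℤ) := by exact_mod_cast Nat.pos_of_ne_zero (NeZero.ne ℓ)
  ext m
  rcases lt_or_ge m 0 with hm | hm
  · rw [r38hkillZk_coeff_neg k _ m hm]
    by_cases hd : (ℓ : ℤ) ∣ m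
    · obtain ⟨m', rfl⟩ := hd
      have hm' : m' < 0 := by
        by_contra h
        have := mul_nonneg hℓ.le (not_lt.mp h)
        omega
      rw [r38hkill_heckeT_coeff_mul, r38hkillZk_coeff_neg k _ _ hm', mul_zero, add_zero,
        r38hkillZk_coeff_neg k _ _ (mul_neg_of_pos_of_neg hℓ hm)]
    · rw [r38hkill_heckeT_coeff_not k ℓ _ hd,
        r38hkillZk_coeff_neg k _ _ (mul_neg_of_pos_of_neg hℓ hm)]
  · obtain ⟨n, rfl⟩ := Int.eq_ofNat_of_zero_le hm
    rw [r38hkillZk_coeff_natCast]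
    by_cases hd : ℓ ∣ n
    · obtain ⟨n', rfl⟩ := hd
      rw [if_pos (dvd_mul_right _ _), Nat.mul_div_cancel_left _ (Nat.pos_of_ne_zero (NeZero.ne ℓ))]
      have e1 : ((ℓ * n' : ℕ) : ℤ) = (ℓ : ℤ) * (n' : ℤ) := by push_cast; ring
      have e2 : (ℓ : ℤ) * ((ℓ : ℤ) * (n' : ℤ)) = ((ℓ * n' * ℓ : ℕ) : ℤ) := by push_cast; ring
      rw [e1, r38hkill_heckeT_coeff_mul, e2, r38hkillZk_coeff_natCast, r38hkillZk_coeff_natCast]
      push_cast
      ring
    · have hd' : ¬ (ℓ : ℤ) ∣ (n : ℤ) := fun h => hd (Int.natCast_dvd_natCast.mp h)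
      have e2 : (ℓ : ℤ) * (n : ℤ) = ((n * ℓ : ℕ) : ℤ) := by push_cast; ring
      rw [if_neg hd, r38hkill_heckeT_coeff_not k ℓ _ hd', e2, r38hkillZk_coeff_natCast, add_zero]

/-- **`b` is the reduction of the `q`-expansion of `f`**: `f` has integer `q`-expansion
`∑ z_n q^n` and `b = ∑ z̄_n q^n`. -/
def R38HkillRed (f : CuspForm (Gamma0 M) 2) (b : LaurentSeries k) : Prop :=
  ∃ z : ℕ → ℤ, (∀ n, qCoeff f n = (z n : ℂ)) ∧ b = r38hkillZk k z

variable {M k}

theorem R38HkillRed.unique {f : CuspForm (Gamma0 M) 2} {b b' : LaurentSeries k}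
    (h : R38HkillRed M k f b) (h' : R38HkillRed M k f b') : b = b' := by
  obtain ⟨z, hz, rfl⟩ := h
  obtain ⟨z', hz', rfl⟩ := h'
  refine r38hkillZk_ext k fun n => ?_
  have : z n = z' n := by
    have := (hz n).symm.trans (hz' n)
    exact_mod_cast this
  rw [this]

theorem r38hkillRed_zero : R38HkillRed M k (0 : CuspForm (Gamma0 M) 2) 0 :=
  ⟨fun _ => 0, fun n => by
    have := (qCoeffLin M 2 n).map_zero
    rw [qCoeffLin_apply] at this
    rw [this, Int.cast_zero], (r38hkillZk_zero k).symm⟩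

theorem R38HkillRed.add {f f' : CuspForm (Gamma0 M) 2} {b b' : LaurentSeries k}
    (h : R38HkillRed M k f b) (h' : R38HkillRed M k f' b') : R38HkillRed M k (f + f') (b + b') := by
  obtain ⟨z, hz, rfl⟩ := h
  obtain ⟨z', hz', rfl⟩ := h'
  refine ⟨fun n => z n + z' n, fun n => ?_, (r38hkillZk_add k z z').symm⟩
  rw [qCoeff_add, hz, hz']
  push_cast
  rfl

theorem R38HkillRed.zsmul {f : CuspForm (Gamma0 M) 2} {b : LaurentSeries k}
    (h : R38HkillRed M k f b) (a : ℤ) : R38HkillRed M k (a • f) (((a : ℤ) : k) • b) := by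
  obtain ⟨z, hz, rfl⟩ := h
  refine ⟨fun n => a * z n, fun n => ?_, (r38hkillZk_smul k a z).symm⟩
  have : a • f = (a : ℂ) • f := by rw [Int.cast_smul_eq_zsmul]
  rw [this, qCoeff_smul, hz]
  push_cast
  rfl

/-- **`(T_ℓ f)‾ = T_ℓ f̄`** for `ℓ ∤ M` -/
theorem R38HkillRed.heckeT {f : CuspForm (Gamma0 M) 2} {b : LaurentSeries k}
    (h : R38HkillRed M k f b) {ℓ : ℕ} [NeZero ℓ] (hℓ : ℓ.Prime) (hℓM : ¬ ℓ ∣ M) :
    R38HkillRed M k (CuspForm.heckeTLin 2 hℓ hℓM f) (r38heckeT ℓ b) := by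
  obtain ⟨z, hz, rfl⟩ := h
  refine ⟨fun n => z (n * ℓ) + if ℓ ∣ n then (ℓ : ℤ) * z (n / ℓ) else 0, fun n => ?_,
    r38hkillZk_heckeT k ℓ z⟩
  rw [qCoeff_heckeTLin, hz, hz]
  show _ = (((z (n * ℓ) + if ℓ ∣ n then (ℓ : ℤ) * z (n / ℓ) else 0 : ℤ)) : ℂ)
  by_cases hd : ℓ ∣ n
  · rw [if_pos hd, if_pos hd]
    push_cast
    norm_num
  · rw [if_neg hd, if_neg hd]
    push_cast
    rfl

end Red

/-! ## the main theorem -/

section Main

open ModularFormClass CongruenceSubgroup Fermat.Agent.S49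

variable {M : ℕ} [NeZero M] {k : Type*} [Field k]

/-- the primes not dividing `M` -/
def r38hkillGood (M : ℕ) : Set Nat.Primes := {ℓ | ¬ (ℓ : ℕ) ∣ M}

theorem r38hkill_red_eval_aux (t' : MvPolynomial (↥(r38hkillGood M)) ℤ) :
    ∀ (f : CuspForm (Gamma0 M) 2) (b : LaurentSeries k), R38HkillRed M k f b →
      R38HkillRed M k ((CuspForm.heckeEvalForms M 2 (MvPolynomial.rename Subtype.val t')).1 f)
        (r38hkillEval k (MvPolynomial.rename Subtype.val t') b) := by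
  induction t' using MvPolynomial.induction_on with
  | C a =>
    intro f b h
    rw [MvPolynomial.rename_C, r38hkillEval_C_apply, CuspForm.heckeEvalForms_C]
    have e : ((algebraMap ℤ (CuspForm.heckeAlgebra M 2 ∅) a).1) f = a • f := by
      rw [Algebra.algebraMap_eq_smul_one]
      rfl
    rw [e]
    exact h.zsmul a
  | add p q hp hq =>
    intro f b h
    rw [map_add, map_add, r38hkillEval_add_apply]
    exact (hp f b h).add (hq f b h)
  | mul_X p i hp =>
    intro f b h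
    haveI : NeZero ((i : Nat.Primes) : ℕ) := ⟨(i : Nat.Primes).2.ne_zero⟩
    have hi : ¬ ((i : Nat.Primes) : ℕ) ∣ M := i.2
    rw [map_mul, MvPolynomial.rename_X, map_mul, r38hkillEval_mul_apply, r38hkillEval_X_apply]
    have e : ((CuspForm.heckeEvalForms M 2 (MvPolynomial.rename Subtype.val p) *
        CuspForm.heckeEvalForms M 2 (MvPolynomial.X (i : Nat.Primes))).1) f =
        (CuspForm.heckeEvalForms M 2 (MvPolynomial.rename Subtype.val p)).1
          (CuspForm.heckeTLin 2 (i : Nat.Primes).2 hi f) := by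
      have e1 : CuspForm.heckeEvalForms M 2 (MvPolynomial.X (i : Nat.Primes)) =
          CuspForm.heckeAlgebra.T (i : Nat.Primes).2 hi (Set.notMem_empty _) :=
        CuspForm.heckeEvalForms_heckeGen_of_not_dvd hi
      rw [e1]
      rfl
    rw [e]
    exact hp _ _ (h.heckeT (i : Nat.Primes).2 hi)

/-- **`(t f)‾ = t f̄`**: the reduction commutes with every Hecke polynomial in the `T_ℓ`,
`ℓ ∤ M`. -/
theorem r38hkill_red_eval (s : Set Nat.Primes) (hs : ∀ ℓ ∈ s, ¬ (ℓ : ℕ) ∣ M) (t : HeckeAlg)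
    (ht : t ∈ MvPolynomial.supported ℤ s) (f : CuspForm (Gamma0 M) 2) (b : LaurentSeries k)
    (h : R38HkillRed M k f b) :
    R38HkillRed M k ((CuspForm.heckeEvalForms M 2 t).1 f) (r38hkillEval k t b) := by
  have ht' : t ∈ MvPolynomial.supported ℤ (r38hkillGood M) :=
    MvPolynomial.supported_mono (fun ℓ hℓ => hs ℓ hℓ) ht
  rw [MvPolynomial.supported_eq_range_rename] at ht'
  obtain ⟨t', rfl⟩ := ht'
  exact r38hkill_red_eval_aux t' f b h

/-- **HOL-KILL.**  If the Hecke polynomial `t` in the `T_ℓ`, `ℓ ∤ M`, acts as zero on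
`S₂(Γ₀(M))`, the formal operator `r38hkillEval k t` kills the reduction of every cusp form with
integer `q`-expansion. -/
theorem r38hkill_main (s : Set Nat.Primes) (hs : ∀ ℓ ∈ s, ¬ (ℓ : ℕ) ∣ M) (t : HeckeAlg)
    (ht : t ∈ MvPolynomial.supported ℤ s) (hkill : CuspForm.heckeEvalForms M 2 t = 0)
    (f : CuspForm (Gamma0 M) 2) (b : LaurentSeries k) (h : R38HkillRed M k f b) :
    r38hkillEval k t b = 0 := by
  have h1 := r38hkill_red_eval s hs t ht f b h
  rw [hkill] at h1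
  have e : ((0 : CuspForm.heckeAlgebra M 2 ∅).1) f = 0 := rfl
  rw [e] at h1
  exact h1.unique r38hkillRed_zero

/-- the same in the shape of the output of HOL-DUAL: `z i` the integer `q`-expansions of cusp
forms `f i` -/
theorem r38hkill_series (s : Set Nat.Primes) (hs : ∀ ℓ ∈ s, ¬ (ℓ : ℕ) ∣ M) (t : HeckeAlg)
    (ht : t ∈ MvPolynomial.supported ℤ s) (hkill : CuspForm.heckeEvalForms M 2 t = 0)
    (f : CuspForm (Gamma0 M) 2) (z : ℕ → ℤ) (hz : ∀ n, qCoeff f n = (z n : ℂ)) :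
    r38hkillEval k t (coeffMap (Int.castRingHom k)
      (HahnSeries.ofPowerSeries ℤ ℤ (PowerSeries.mk z))) = 0 :=
  r38hkill_main s hs t ht hkill f _ ⟨z, hz, rfl⟩

/-- **HOL-KILL on the span** `S̄`: `t` kills every `k`-linear combination of reductions of
cusp forms with integer `q`-expansion. -/
theorem r38hkill_span (s : Set Nat.Primes) (hs : ∀ ℓ ∈ s, ¬ (ℓ : ℕ) ∣ M) (t : HeckeAlg)
    (ht : t ∈ MvPolynomial.supported ℤ s) (hkill : CuspForm.heckeEvalForms M 2 t = 0)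
    {ι : Type*} (S : Finset ι) (f : ι → CuspForm (Gamma0 M) 2) (z : ι → ℕ → ℤ) (c : ι → k)
    (hz : ∀ i n, qCoeff (f i) n = (z i n : ℂ)) :
    r38hkillEval k t (∑ i ∈ S, c i • coeffMap (Int.castRingHom k)
      (HahnSeries.ofPowerSeries ℤ ℤ (PowerSeries.mk (z i)))) = 0 := by
  rw [map_sum]
  refine Finset.sum_eq_zero fun i _ => ?_
  rw [map_smul, r38hkill_series s hs t ht hkill (f i) (z i) (hz i), smul_zero]

/-- the same for a `Fintype` sum (the shape of `r38hold_dual`) -/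
theorem r38hkill_span_univ (s : Set Nat.Primes) (hs : ∀ ℓ ∈ s, ¬ (ℓ : ℕ) ∣ M) (t : HeckeAlg)
    (ht : t ∈ MvPolynomial.supported ℤ s) (hkill : CuspForm.heckeEvalForms M 2 t = 0)
    {ι : Type*} [Fintype ι] (f : ι → CuspForm (Gamma0 M) 2) (z : ι → ℕ → ℤ) (c : ι → k)
    (hz : ∀ i n, qCoeff (f i) n = (z i n : ℂ)) :
    r38hkillEval k t (∑ i, c i • coeffMap (Int.castRingHom k)
      (HahnSeries.ofPowerSeries ℤ ℤ (PowerSeries.mk (z i)))) = 0 :=
  r38hkill_span s hs t ht hkill Finset.univ f z c hz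

/-- **eigen form of HOL-KILL**: if moreover `r38hkillEval k t b = n₀ • b` with `n₀ ≠ 0` in `k`,
then `b = 0`. -/
theorem r38hkill_eq_zero_of_eigen {t : HeckeAlg} {b : LaurentSeries k}
    (h0 : r38hkillEval k t b = 0) (n₀ : ℤ) (hn : ((n₀ : ℤ) : k) ≠ 0)
    (he : r38hkillEval k t b = ((n₀ : ℤ) : k) • b) : b = 0 := by
  rw [h0] at he
  exact (smul_eq_zero.mp he.symm).resolve_left hn

end Main

end Fermat.Agent.R38

end


end ZBS49_001_4
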