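/- GENERATED FILE (helper35, build-time optimisation, NOTES/ZB.md): verbatim concatenation of the modules
   Fermat.Agent.INJ.HMDegree
   Fermat.Agent.INJ.HMMem
   Fermat.Agent.INJ.RamH2
   Fermat.Agent.INJ.RamH3
   Fermat.Agent.INJ.GaussHaupt
   Fermat.Agent.ES.I2aux.MFh
   Do not edit; do not import together with these modules. -/
import Mathlib
import Fermat.Agent.ZB.S24_018
import Fermat.Agent.ZB.S20_001
import Fermat.Agent.ZB.S24_001
import Fermat.Agent.ZB.S28_002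
import Fermat.Agent.ZB.INJ_003
import Fermat.Agent.ZB.ES_001
import Fermat.Agent.ZB.S49_001

/-! ### bundled: `Fermat.Agent.INJ.HMDegree` -/
section ZBINJ_012_0

/-!
# (INJ) B2-T, generic degree count

`hmMem_of_degree`: if `A ≤ B ≤ A(h)`, `[B : A] = n` and `h` is a root of a monic polynomial of degree `n`
over `A`, then `h ∈ B`.
-/

set_option autoImplicit false

open IntermediateField Polynomial

namespace Fermat.Agent.INJ

section Degree

variable {K Lb : Type*} [Field K] [Field Lb] [Algebra K Lb]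

/-- **Degree count**: if `A ≤ B`, `[B : A] = n`, `h` is a root of a monic polynomial of degree `n`
over `A` and `B ⊆ A(h)`, then `h ∈ B`. -/
theorem hmMem_of_degree (A B : IntermediateField K Lb) (hAB : A ≤ B) (h : Lb) (n : ℕ)
    (hn : 0 < n) (hrel : relfinrank A B = n) (P : Polynomial A) (hP : P.Monic)
    (hdeg : P.natDegree = n) (hroot : aeval h P = 0)
    (hgen : B ≤ (IntermediateField.adjoin A {h}).restrictScalars K) : h ∈ B := by
  set C' : IntermediateField A Lb := IntermediateField.adjoin A {h} with hC'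
  set C : IntermediateField K Lb := C'.restrictScalars K with hC
  have hint : IsIntegral A h := ⟨P, hP, hroot⟩
  have hAC : A ≤ C := hAB.trans hgen
  have hext : extendScalars hAC = C' := by
    ext x
    rw [mem_extendScalars, hC, mem_restrictScalars]
  have hfin : Module.finrank A C' = (minpoly A h).natDegree :=
    IntermediateField.adjoin.finrank hint
  have hle : (minpoly A h).natDegree ≤ n := by
    rw [← hdeg]
    exact natDegree_le_of_dvd (minpoly.dvd A h hroot) hP.ne_zero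
  have hpos : 0 < (minpoly A h).natDegree := minpoly.natDegree_pos hint
  have hrelAC : relfinrank A C = (minpoly A h).natDegree := by
    rw [relfinrank_eq_finrank_of_le hAC, hext, hfin]
  have hmul := relfinrank_mul_relfinrank hAB hgen
  rw [hrel, hrelAC] at hmul
  have hone : relfinrank B C = 1 := by
    rcases Nat.eq_zero_or_pos (relfinrank B C) with h0 | h0
    · rw [h0, mul_zero] at hmul; omega
    · by_contra hne
      have h2 : 2 ≤ relfinrank B C := by omega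
      have : n * 2 ≤ n * relfinrank B C := Nat.mul_le_mul_left n h2
      omega
  have hCB : C ≤ B := relfinrank_eq_one_iff.mp hone
  apply hCB
  rw [hC, mem_restrictScalars]
  exact IntermediateField.mem_adjoin_simple_self A h

end Degree

end Fermat.Agent.INJ


end ZBINJ_012_0

/-! ### bundled: `Fermat.Agent.INJ.HMMem` -/
section ZBINJ_012_1

/-!
# (INJ) B2-T, part 1: the Hauptmoduln of `X₀(2)`, `X₀(3)` lie in the function fields

* `hmMem_finrank_jF` : `[F_N : ℚ̄(j)] = ψ(N)`;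
* `hm2_mem N (h : 2 ∣ N) : hm2 ℚ̄ ∈ modularFunctionFieldBar N`;
* `hm3_mem N (h : 3 ∣ N) : hm3 ℚ̄ ∈ modularFunctionFieldBar N`.

Proof: `F_2 ⊆ ℚ̄(h)` by the two identities of `Hauptmodul.lean`, `[ℚ̄(h) : ℚ̄(j)] ≤ 3 = ψ(2)`
(`h` is a root of the cubic `(X + 256)³ - j X²`), hence equality; same at level `3`.
-/

set_option autoImplicit false

open AlgebraicCurve IntermediateField ModularCurve Polynomial
open scoped MatrixGroups

namespace Fermat.Agent.INJ

open Fermat.Agent.S24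

/-- `[F_N : ℚ̄(j)] = ψ(N)`. -/
theorem hmMem_finrank_jF (N : ℕ) [NeZero N] :
    Module.finrank Kb⟮jF N⟯ (FF N) = ModularCurve.dedekindPsi N := by
  obtain ⟨R⟩ := exists_realization N
  have hfin : FiniteDimensional Kb⟮jF N⟯ (FF N) := (principal_inputs N R).2.1
  have hj0 : jF N - algebraMap Kb (FF N) 0 = jF N := by simp
  have hfacts := intClosure_facts (K := Kb) (jF N) (transcendental_jF N)
  have hram := sum_ramificationIdx_eq_finrank (K := Kb) (jF N) (transcendental_jF N)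
  obtain ⟨S, hS, hsum⟩ := sum_ord_eq_finrank_of (jF N) (transcendental_jF N) hfacts hram
  obtain ⟨w, hw, hε, hL⟩ := R.loc_zero
  have : Finite R.act.range := R.finite_range
  have key := card_places_eq_card_orbits R.φ R.act (CongruenceSubgroup.Gamma0 N) R.act_j R.fixed
    R.stab_iff (IntermediateField.mem_adjoin_simple_self Kb (jF N))
    (IntermediateField.mem_adjoin_simple_self Kb (jF N)) (ModularGroup.S * ModularGroup.T)
    w hw hε hL S hS hsum
    (fun v S' hv hvS hS' => exists_ord_neg_of (jF N) hfacts v S' hv hvS hS')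
  rw [key.2]
  exact Fermat.Agent.S20.card_quot_Gamma0 N

/-- `jBar = jqModC ℚ̄`. -/
theorem hmMem_jBar_eq : jBar = jqModC Kb := by
  rw [jBar, coeffEmb, ← jqModC_rat]
  exact map_jqModC (algebraMap ℚ Kb)

/-- `j(q^d)` with coefficients in `ℚ̄`. -/
theorem hmMem_jd_eq (d : ℕ) [NeZero d] : coeffEmb Kb (qExpand ℚ d jq) = jqNModC Kb d := by
  rw [coeffEmb, coeffMap_qExpand, ← jqModC_rat, jqNModC]
  congr 1
  exact map_jqModC (algebraMap ℚ Kb)

/-- The relative degree of `F_N` over `ℚ̄(j)` inside `ℚ̄((q))`. -/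
theorem hmMem_relfinrank (N : ℕ) [NeZero N] :
    relfinrank (Kb⟮jBar⟯ : IntermediateField Kb (LaurentSeries Kb)) (modularFunctionFieldBar N)
      = ModularCurve.dedekindPsi N := by
  have h1 := IntermediateField.finrank_comap
    (A := (Kb⟮jBar⟯ : IntermediateField Kb (LaurentSeries Kb)))
    (modularFunctionFieldBar N).val
  rw [IntermediateField.fieldRange_val] at h1
  rw [← h1, ← hmMem_finrank_jF N]
  have hcomap : (Kb⟮jBar⟯ : IntermediateField Kb (LaurentSeries Kb)).comap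
      (modularFunctionFieldBar N).val = Kb⟮jF N⟯ := by
    have hlift : IntermediateField.lift (Kb⟮jF N⟯ : IntermediateField Kb (FF N)) =
        (Kb⟮jBar⟯ : IntermediateField Kb (LaurentSeries Kb)) := by
      rw [IntermediateField.lift_adjoin_simple]
      rfl
    ext x
    have h2 : x ∈ (Kb⟮jBar⟯ : IntermediateField Kb (LaurentSeries Kb)).comap
        (modularFunctionFieldBar N).val ↔
        (x : LaurentSeries Kb) ∈ (Kb⟮jBar⟯ : IntermediateField Kb (LaurentSeries Kb)) := Iff.rfl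
    rw [h2, ← hlift]
    exact IntermediateField.mem_lift x
  rw [hcomap]

/-- monotonicity of the function fields in the level -/
theorem hmMem_bar_mono {M N : ℕ} [NeZero M] [NeZero N] (h : M ∣ N) :
    modularFunctionFieldBar M ≤ modularFunctionFieldBar N := by
  rw [br_modularFunctionFieldBar_eq_adjoin M, IntermediateField.adjoin_le_iff]
  rintro _ ⟨d, rfl⟩
  exact (jdF N d.1 (d.2.trans h)).2

theorem hm2_ne_zero : hm2 Kb ≠ 0 := by
  intro h
  have h1 := hm2_j Kb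
  rw [h] at h1
  simp only [ne_eq, OfNat.ofNat_ne_zero, not_false_eq_true, zero_pow, mul_zero, zero_add] at h1
  have h2 : ((256 : LaurentSeries Kb)) ^ 3 ≠ 0 := by
    have : (256 : LaurentSeries Kb) ≠ 0 := by
      have h3 : (256 : LaurentSeries Kb) = algebraMap Kb (LaurentSeries Kb) 256 :=
        (map_ofNat (algebraMap Kb (LaurentSeries Kb)) 256).symm
      rw [h3, Ne, map_eq_zero]
      norm_num
    exact pow_ne_zero _ this
  exact h2 h1.symm

/-- **Membership at level 2.** -/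
theorem hm2_mem_two : hm2 Kb ∈ modularFunctionFieldBar 2 := by
  set A : IntermediateField Kb (LaurentSeries Kb) := Kb⟮jBar⟯ with hA
  have hjA : jBar ∈ A := IntermediateField.mem_adjoin_simple_self Kb jBar
  set jA : A := ⟨jBar, hjA⟩ with hjAdef
  have hAB : A ≤ modularFunctionFieldBar 2 := by
    rw [hA, IntermediateField.adjoin_simple_le_iff]
    exact jBar_mem 2
  have hrel : relfinrank A (modularFunctionFieldBar 2) = 3 := by
    rw [hA, hmMem_relfinrank 2]
    exact Fermat.Agent.S20.dedekindPsi_prime Nat.prime_two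
  -- the cubic
  set P : Polynomial A := (X + C 256) ^ 3 - C jA * X ^ 2 with hP
  have hdeg1 : ((X + C (256 : A)) ^ 3 : Polynomial A).natDegree = 3 := by
    rw [natDegree_pow, natDegree_X_add_C]
  have hdeg2 : (C jA * X ^ 2 : Polynomial A).natDegree < 3 := by
    calc (C jA * X ^ 2 : Polynomial A).natDegree ≤ 2 := by
          refine (natDegree_C_mul_le _ _).trans ?_
          rw [natDegree_X_pow]
      _ < 3 := by norm_num
  have hPm : P.Monic := by
    refine Monic.sub_of_left ((monic_X_add_C _).pow 3) ?_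
    rw [degree_eq_natDegree ((monic_X_add_C (256 : A)).pow 3).ne_zero, hdeg1]
    exact lt_of_le_of_lt degree_le_natDegree (by exact_mod_cast hdeg2)
  have hPdeg : P.natDegree = 3 := by
    rw [hP, natDegree_sub_eq_left_of_natDegree_lt (by rw [hdeg1]; exact hdeg2), hdeg1]
  have hroot : aeval (hm2 Kb) P = 0 := by
    have h1 := hm2_j Kb
    rw [← hmMem_jBar_eq] at h1
    simp only [hP, map_sub, map_pow, map_add, aeval_X, aeval_C, map_mul]
    have h2 : (algebraMap A (LaurentSeries Kb)) jA = jBar := rfl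
    have h3 : (algebraMap A (LaurentSeries Kb)) (256 : A) = 256 := map_ofNat _ 256
    rw [h2, h3, ← h1, sub_self]
  refine hmMem_of_degree A (modularFunctionFieldBar 2) hAB (hm2 Kb) 3 (by norm_num) hrel P hPm
    hPdeg hroot ?_
  -- generation
  rw [br_modularFunctionFieldBar_eq_adjoin 2, IntermediateField.adjoin_le_iff]
  rintro _ ⟨⟨d, hd⟩, rfl⟩
  have hmemC : hm2 Kb ∈ (IntermediateField.adjoin A {hm2 Kb}).restrictScalars Kb :=
    IntermediateField.mem_adjoin_simple_self A _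
  have hd' : d = 1 ∨ d = 2 := (Nat.dvd_prime Nat.prime_two).mp hd
  rcases hd' with rfl | rfl
  · have : jBfam 2 ⟨1, hd⟩ = jBar := by
      rw [jBfam_eq 2 1 hd, qExpand_one_apply]
      rfl
    rw [this]
    exact (IntermediateField.adjoin A {hm2 Kb}).algebraMap_mem jA
  · have h1 : jBfam 2 ⟨2, hd⟩ = jqNModC Kb 2 := by
      rw [jBfam_eq 2 2 hd, hmMem_jd_eq]
    have h2 := hm2_j2 Kb
    have h3 : jqNModC Kb 2 = (hm2 Kb + 16) ^ 3 / hm2 Kb := by
      rw [eq_div_iff hm2_ne_zero, h2]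
    rw [h1, h3]
    refine div_mem (pow_mem (add_mem hmemC ?_) 3) hmemC
    have : (16 : LaurentSeries Kb) = algebraMap Kb (LaurentSeries Kb) 16 :=
      (map_ofNat (algebraMap Kb (LaurentSeries Kb)) 16).symm
    rw [this]
    exact IntermediateField.algebraMap_mem _ _

/-- **Membership of the Hauptmodul of `X₀(2)`.** -/
theorem hm2_mem (N : ℕ) [NeZero N] (h2 : 2 ∣ N) : hm2 Kb ∈ modularFunctionFieldBar N :=
  hmMem_bar_mono h2 hm2_mem_two

theorem hm3_ne_zero : hm3 Kb ≠ 0 := by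
  intro h
  have h1 := hm3_j Kb
  rw [h] at h1
  simp only [ne_eq, OfNat.ofNat_ne_zero, not_false_eq_true, zero_pow, mul_zero, zero_add] at h1
  have hc : ∀ n : ℕ, n ≠ 0 → (n : LaurentSeries Kb) ≠ 0 := by
    intro n hn
    have h3 : (n : LaurentSeries Kb) = algebraMap Kb (LaurentSeries Kb) n :=
      (map_natCast (algebraMap Kb (LaurentSeries Kb)) n).symm
    rw [h3, Ne, map_eq_zero]
    exact_mod_cast hn
  have h2 : (27 : LaurentSeries Kb) * (243 : LaurentSeries Kb) ^ 3 ≠ 0 :=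
    mul_ne_zero (by exact_mod_cast hc 27 (by norm_num))
      (pow_ne_zero _ (by exact_mod_cast hc 243 (by norm_num)))
  exact h2 h1.symm

/-- **Membership at level 3.** -/
theorem hm3_mem_three : hm3 Kb ∈ modularFunctionFieldBar 3 := by
  set A : IntermediateField Kb (LaurentSeries Kb) := Kb⟮jBar⟯ with hA
  have hjA : jBar ∈ A := IntermediateField.mem_adjoin_simple_self Kb jBar
  set jA : A := ⟨jBar, hjA⟩ with hjAdef
  have hAB : A ≤ modularFunctionFieldBar 3 := by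
    rw [hA, IntermediateField.adjoin_simple_le_iff]
    exact jBar_mem 3
  have hrel : relfinrank A (modularFunctionFieldBar 3) = 4 := by
    rw [hA, hmMem_relfinrank 3]
    exact Fermat.Agent.S20.dedekindPsi_prime Nat.prime_three
  -- the quartic
  set P : Polynomial A := (X + C 27) * (X + C 243) ^ 3 - C jA * X ^ 3 with hP
  have hm1 : ((X + C (27 : A)) * (X + C 243) ^ 3 : Polynomial A).Monic :=
    (monic_X_add_C _).mul ((monic_X_add_C _).pow 3)
  have hdeg1 : ((X + C (27 : A)) * (X + C 243) ^ 3 : Polynomial A).natDegree = 4 := by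
    rw [Monic.natDegree_mul (monic_X_add_C _) ((monic_X_add_C _).pow 3), natDegree_pow,
      natDegree_X_add_C, natDegree_X_add_C]
  have hdeg2 : (C jA * X ^ 3 : Polynomial A).natDegree < 4 := by
    calc (C jA * X ^ 3 : Polynomial A).natDegree ≤ 3 := by
          refine (natDegree_C_mul_le _ _).trans ?_
          rw [natDegree_X_pow]
      _ < 4 := by norm_num
  have hPm : P.Monic := by
    refine Monic.sub_of_left hm1 ?_
    rw [degree_eq_natDegree hm1.ne_zero, hdeg1]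
    exact lt_of_le_of_lt degree_le_natDegree (by exact_mod_cast hdeg2)
  have hPdeg : P.natDegree = 4 := by
    rw [hP, natDegree_sub_eq_left_of_natDegree_lt (by rw [hdeg1]; exact hdeg2), hdeg1]
  have hroot : aeval (hm3 Kb) P = 0 := by
    have h1 := hm3_j Kb
    rw [← hmMem_jBar_eq] at h1
    simp only [hP, map_sub, map_pow, map_add, aeval_X, aeval_C, map_mul]
    have h2 : (algebraMap A (LaurentSeries Kb)) jA = jBar := rfl
    have h3 : (algebraMap A (LaurentSeries Kb)) (27 : A) = 27 := map_ofNat _ 27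
    have h4 : (algebraMap A (LaurentSeries Kb)) (243 : A) = 243 := map_ofNat _ 243
    rw [h2, h3, h4, ← h1, sub_self]
  refine hmMem_of_degree A (modularFunctionFieldBar 3) hAB (hm3 Kb) 4 (by norm_num) hrel P hPm
    hPdeg hroot ?_
  -- generation
  rw [br_modularFunctionFieldBar_eq_adjoin 3, IntermediateField.adjoin_le_iff]
  rintro _ ⟨⟨d, hd⟩, rfl⟩
  have hmemC : hm3 Kb ∈ (IntermediateField.adjoin A {hm3 Kb}).restrictScalars Kb :=
    IntermediateField.mem_adjoin_simple_self A _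
  have hconst : ∀ n : ℕ, (n : LaurentSeries Kb) ∈
      (IntermediateField.adjoin A {hm3 Kb}).restrictScalars Kb := by
    intro n
    have : (n : LaurentSeries Kb) = algebraMap Kb (LaurentSeries Kb) n :=
      (map_natCast (algebraMap Kb (LaurentSeries Kb)) n).symm
    rw [this]
    exact IntermediateField.algebraMap_mem _ _
  have hd' : d = 1 ∨ d = 3 := (Nat.dvd_prime Nat.prime_three).mp hd
  rcases hd' with rfl | rfl
  · have : jBfam 3 ⟨1, hd⟩ = jBar := by
      rw [jBfam_eq 3 1 hd, qExpand_one_apply]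
      rfl
    rw [this]
    exact (IntermediateField.adjoin A {hm3 Kb}).algebraMap_mem jA
  · have h1 : jBfam 3 ⟨3, hd⟩ = jqNModC Kb 3 := by
      rw [jBfam_eq 3 3 hd, hmMem_jd_eq]
    have h2 := hm3_j3 Kb
    have h3 : jqNModC Kb 3 = (hm3 Kb + 27) * (hm3 Kb + 3) ^ 3 / hm3 Kb := by
      rw [eq_div_iff hm3_ne_zero, h2]
    rw [h1, h3]
    refine div_mem (mul_mem (add_mem hmemC ?_) (pow_mem (add_mem hmemC ?_) 3)) hmemC
    · exact_mod_cast hconst 27
    · exact_mod_cast hconst 3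

/-- **Membership of the Hauptmodul of `X₀(3)`.** -/
theorem hm3_mem (N : ℕ) [NeZero N] (h3 : 3 ∣ N) : hm3 Kb ∈ modularFunctionFieldBar N :=
  hmMem_bar_mono h3 hm3_mem_three

end Fermat.Agent.INJ


end ZBINJ_012_1

/-! ### bundled: `Fermat.Agent.INJ.RamH2` -/
section ZBINJ_012_2

/-!
# (INJ) B2-T, part 2 (`ℓ = 3`): ramification of `F_N` over the `h`-line of `X₀(2)` (`2 ∣ N`)

`h = hF2 N : FF N` the Hauptmodul of `X₀(2)` (`j h² = (h + 256)³`).  For every place `v` of `F_N`: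
* `ord_v h < 0 → ord_v h ∣ N`;
* `0 < ord_v h → ord_v h ∣ N` (the cusp `h = 0`);
* `0 < ord_v (h + 64) → ord_v (h + 64) ∣ 2` (the elliptic point);
* `0 < ord_v (h - c₀) → ord_v (h - c₀) = 1` for `c₀ ≠ 0, -64`.
Hence `ramB_h2line`: hypotheses `(b)`, `(b')` of Part A with `t = h`, `Σ = {0, -64}`, `N ∣ e`.
-/

set_option autoImplicit false

namespace Fermat.Agent.INJ

open Polynomial AlgebraicCurve IntermediateField Fermat.Agent.S24 ModularCurve

section H2

variable (N : ℕ) [NeZero N] (h2 : 2 ∣ N)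

/-- The Hauptmodul of `X₀(2)` as an element of `F_N` (`2 ∣ N`). -/
noncomputable def hF2 : FF N := ⟨hm2 Kb, hm2_mem N h2⟩

theorem hF2_coe : ((hF2 N h2 : FF N) : LaurentSeries Kb) = hm2 Kb := rfl

theorem hF2_ne_zero : hF2 N h2 ≠ 0 := by
  intro h
  apply hm2_ne_zero
  have := congrArg Subtype.val h
  simpa [hF2] using this

theorem hF2_j : jF N * hF2 N h2 ^ 2 = (hF2 N h2 + 256) ^ 3 := by
  apply Subtype.ext
  have h := hm2_j (K := Kb)
  rw [← hmMem_jBar_eq] at h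
  exact h

theorem hF2_j1728 :
    (jF N - 1728) * hF2 N h2 ^ 2 = (hF2 N h2 - 512) ^ 2 * (hF2 N h2 + 64) := by
  linear_combination hF2_j N h2

set_option synthInstance.maxHeartbeats 400000 in
/-- `j · A(h) = B(h)` with `A = X²`, `B = (X + 256)³`. -/
theorem hF2_rel :
    jF N * aeval (hF2 N h2) (X ^ 2 : Kb[X]) = aeval (hF2 N h2) ((X + C 256) ^ 3 : Kb[X]) := by
  rw [map_pow, aeval_X, map_pow, map_add, aeval_X, aeval_C, map_ofNat]
  exact hF2_j N h2

set_option synthInstance.maxHeartbeats 400000 in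
theorem hF2_sub_ne_zero (c : Kb) : hF2 N h2 - algebraMap Kb (FF N) c ≠ 0 := by
  refine ramH_rel_sub_ne_zero N (hF2 N h2) _ _ (hF2_rel N h2) ?_ c
  rw [map_pow, aeval_X]
  exact pow_ne_zero _ (hF2_ne_zero N h2)

/-- Over `h = ∞`. -/
theorem ramH2_inf (v : Place Kb (FF N)) (hv : v.ord (hF2 N h2) < 0) :
    v.ord (hF2 N h2) ∣ (N : ℤ) := by
  have hx0 := hF2_ne_zero N h2
  obtain ⟨hne, hord⟩ := ramH_ord_add_const_of_neg v (hF2 N h2) 256 hv
  rw [map_ofNat] at hne hord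
  have h1 := congrArg v.ord (hF2_j N h2)
  rw [v.ord_mul (jF_ne_zero N) (pow_ne_zero _ hx0), place_ord_pow, place_ord_pow, hord] at h1
  simp only [Nat.cast_ofNat] at h1
  have hJ : v.ord (jF N) = v.ord (hF2 N h2) := by linarith
  have h3 := ramJ_inf N v (by rw [hJ]; exact hv)
  rw [v.ord_inv, neg_dvd, hJ] at h3
  exact h3

/-- Over the cusp `h = 0`. -/
theorem ramH2_zero (v : Place Kb (FF N)) (hv : 0 < v.ord (hF2 N h2)) :
    v.ord (hF2 N h2) ∣ (N : ℤ) := by
  have hx0 := hF2_ne_zero N h2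
  have hv' : 0 < v.ord (hF2 N h2 - algebraMap Kb (FF N) 0) := by
    rwa [map_zero, sub_zero]
  obtain ⟨hne, hord⟩ := ramH_ord_sub_const v (hF2 N h2) 0 (-256) hv' (by norm_num)
  rw [map_neg, sub_neg_eq_add, map_ofNat] at hne hord
  have h1 := congrArg v.ord (hF2_j N h2)
  rw [v.ord_mul (jF_ne_zero N) (pow_ne_zero _ hx0), place_ord_pow, place_ord_pow, hord] at h1
  simp only [Nat.cast_ofNat] at h1
  have hJ : v.ord (jF N) = -(2 * v.ord (hF2 N h2)) := by linarith
  have h3 := ramJ_inf N v (by rw [hJ]; omega)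
  rw [v.ord_inv, hJ, neg_neg] at h3
  exact (Dvd.intro_left _ rfl).trans h3

/-- Over the elliptic point `h = -64`. -/
theorem ramH2_ell (v : Place Kb (FF N))
    (hv : 0 < v.ord (hF2 N h2 - algebraMap Kb (FF N) (-64))) :
    v.ord (hF2 N h2 - algebraMap Kb (FF N) (-64)) ∣ 2 := by
  have hx0 := hF2_ne_zero N h2
  obtain ⟨hne0, hord0⟩ := ramH_ord_sub_const v (hF2 N h2) (-64) 0 hv (by norm_num)
  rw [map_zero, sub_zero] at hord0
  obtain ⟨hne1, hord1⟩ := ramH_ord_sub_const v (hF2 N h2) (-64) 512 hv (by norm_num)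
  rw [map_ofNat] at hne1 hord1
  have hne2 := hF2_sub_ne_zero N h2 (-64)
  have h1 := congrArg v.ord (hF2_j1728 N h2)
  have hJ0 : jF N - (1728 : FF N) ≠ 0 := by
    have := jF_sub_ne_zero N 1728
    rwa [map_ofNat] at this
  have he : hF2 N h2 + 64 = hF2 N h2 - algebraMap Kb (FF N) (-64) := by
    rw [map_neg, sub_neg_eq_add, map_ofNat]
  rw [he] at h1
  rw [v.ord_mul hJ0 (pow_ne_zero _ hx0), place_ord_pow, hord0,
    v.ord_mul (pow_ne_zero _ hne1) hne2, place_ord_pow, hord1] at h1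
  simp only [Nat.cast_ofNat, mul_zero, add_zero, zero_add] at h1
  have hJ : v.ord (jF N - algebraMap Kb (FF N) 1728)
      = v.ord (hF2 N h2 - algebraMap Kb (FF N) (-64)) := by
    rw [map_ofNat (algebraMap Kb (FF N)) 1728]; exact h1
  have h3 := ramJ_1728 N v (by rw [hJ]; exact hv)
  rwa [hJ] at h3

/-- Over `h = -256` (where `j = 0`). -/
theorem ramH2_256 (v : Place Kb (FF N))
    (hv : 0 < v.ord (hF2 N h2 - algebraMap Kb (FF N) (-256))) :
    v.ord (hF2 N h2 - algebraMap Kb (FF N) (-256)) = 1 := by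
  have hx0 := hF2_ne_zero N h2
  obtain ⟨hne0, hord0⟩ := ramH_ord_sub_const v (hF2 N h2) (-256) 0 hv (by norm_num)
  rw [map_zero, sub_zero] at hord0
  have h1 := congrArg v.ord (hF2_j N h2)
  have he : hF2 N h2 + 256 = hF2 N h2 - algebraMap Kb (FF N) (-256) := by
    rw [map_neg, sub_neg_eq_add, map_ofNat]
  rw [he] at h1
  rw [v.ord_mul (jF_ne_zero N) (pow_ne_zero _ hx0), place_ord_pow, hord0, place_ord_pow] at h1
  simp only [Nat.cast_ofNat, mul_zero, add_zero] at h1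
  have hJ : v.ord (jF N) = 3 * v.ord (hF2 N h2 - algebraMap Kb (FF N) (-256)) := h1
  have h3 := ramJ_zero N v (by rw [hJ]; omega)
  rw [hJ] at h3
  exact ramH_eq_one_of_mul_dvd (n := 3) (by norm_num) hv h3

/-- Over `h = 512` (where `j = 1728`). -/
theorem ramH2_512 (v : Place Kb (FF N))
    (hv : 0 < v.ord (hF2 N h2 - algebraMap Kb (FF N) 512)) :
    v.ord (hF2 N h2 - algebraMap Kb (FF N) 512) = 1 := by
  have hx0 := hF2_ne_zero N h2
  obtain ⟨hne0, hord0⟩ := ramH_ord_sub_const v (hF2 N h2) 512 0 hv (by norm_num)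
  rw [map_zero, sub_zero] at hord0
  obtain ⟨hne1, hord1⟩ := ramH_ord_sub_const v (hF2 N h2) 512 (-64) hv (by norm_num)
  have hne2 := hF2_sub_ne_zero N h2 512
  have h1 := congrArg v.ord (hF2_j1728 N h2)
  have hJ0 : jF N - (1728 : FF N) ≠ 0 := by
    have := jF_sub_ne_zero N 1728
    rwa [map_ofNat] at this
  have he : hF2 N h2 + 64 = hF2 N h2 - algebraMap Kb (FF N) (-64) := by
    rw [map_neg, sub_neg_eq_add, map_ofNat]
  have he' : hF2 N h2 - 512 = hF2 N h2 - algebraMap Kb (FF N) 512 := by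
    rw [map_ofNat]
  rw [he, he'] at h1
  rw [v.ord_mul hJ0 (pow_ne_zero _ hx0), place_ord_pow, hord0,
    v.ord_mul (pow_ne_zero _ hne2) hne1, place_ord_pow, hord1] at h1
  simp only [Nat.cast_ofNat, mul_zero, add_zero] at h1
  have hJ : v.ord (jF N - algebraMap Kb (FF N) 1728)
      = 2 * v.ord (hF2 N h2 - algebraMap Kb (FF N) 512) := by
    rw [map_ofNat (algebraMap Kb (FF N)) 1728]; exact h1
  have h3 := ramJ_1728 N v (by rw [hJ]; omega)
  rw [hJ] at h3
  exact ramH_eq_one_of_mul_dvd (n := 2) (by norm_num) hv h3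

/-- Over a generic point `h = c₀`, `c₀ ≠ 0, -64`: unramified. -/
theorem ramH2_gen (c₀ : Kb) (hc0 : c₀ ≠ 0) (hc64 : c₀ ≠ -64) (v : Place Kb (FF N))
    (hv : 0 < v.ord (hF2 N h2 - algebraMap Kb (FF N) c₀)) :
    v.ord (hF2 N h2 - algebraMap Kb (FF N) c₀) = 1 := by
  by_cases h256 : c₀ = -256
  · subst h256; exact ramH2_256 N h2 v hv
  by_cases h512 : c₀ = 512
  · subst h512; exact ramH2_512 N h2 v hv
  refine ramH_rel_gen N (hF2 N h2) _ _ (hF2_rel N h2) v c₀ hv ?_ ?_ ?_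
  · simpa using hc0
  · simp only [eval_pow, eval_add, eval_X, eval_C]
    refine pow_ne_zero _ ?_
    intro h
    exact h256 (eq_neg_of_add_eq_zero_left h)
  · simp only [eval_pow, eval_add, eval_X, eval_C]
    intro h
    have h' : (c₀ - 512) ^ 2 * (c₀ + 64) = 0 := by linear_combination h
    rcases mul_eq_zero.mp h' with h'' | h''
    · exact h512 (sub_eq_zero.mp (pow_eq_zero_iff (by norm_num) |>.mp h''))
    · exact hc64 (eq_neg_of_add_eq_zero_left h'')

theorem ramH2_cases (v : Place Kb (FF N)) (hv : 0 ≤ v.ord (hF2 N h2)) :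
    ∃ c₀ : Kb, 0 < v.ord (hF2 N h2 - algebraMap Kb (FF N) c₀) :=
  ramH_rel_cases N (hF2 N h2) (hF2_sub_ne_zero N h2) v hv

end H2

section H2Line

variable {A₀ E Lf : Type} {F₀ : Type*}
  [CommRing A₀] [Field E] [Algebra A₀ E] [Field Lf] [Algebra E Lf] [Algebra A₀ Lf]
  [IsScalarTower A₀ E Lf]
  [Algebra E Kb] [Field F₀] [Algebra E F₀] [Algebra F₀ Lf] [IsScalarTower E F₀ Lf]
  (N : ℕ) [NeZero N] (h2 : 2 ∣ N)
  [Algebra F₀ (FF N)] [Algebra E (FF N)] [IsScalarTower E F₀ (FF N)]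
  [IsScalarTower E Kb (FF N)]

/-- **B2-b over the `h`-line of `X₀(2)`** (`ℓ = 3`): `Σ = {0, -64}`, `N ∣ e`. -/
theorem ramB_h2line [CharZero E] [Algebra.IsAlgebraic E Kb]
    (t₀ : F₀) (ht₀ : algebraMap F₀ (FF N) t₀ = hF2 N h2) (S : Finset A₀)
    (hS : ∀ c ∈ S, algebraMap E Kb (algebraMap A₀ E c) = 0 ∨
      algebraMap E Kb (algebraMap A₀ E c) = -64)
    (h0 : ∃ c ∈ S, algebraMap E Kb (algebraMap A₀ E c) = 0)
    (h64 : ∃ c ∈ S, algebraMap E Kb (algebraMap A₀ E c) = -64)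
    (e : ℕ) (hN : N ∣ e)
    (hkum : ∀ P : Place E Lf, ∃ Q : Place E F₀,
      ∀ y : F₀, P.ord (algebraMap F₀ Lf y) = Q.ord y)
    (hext : ∀ Q : Place E F₀, ∃ v : Place Kb (FF N),
      ∀ y : F₀, v.ord (algebraMap F₀ (FF N) y) = Q.ord y) :
    TSUnramified (E := E) (algebraMap F₀ Lf t₀) S ∧
      TSTame (E := E) (algebraMap F₀ Lf t₀) S e := by
  have h2e : (2 : ℤ) ∣ (e : ℤ) := by exact_mod_cast h2.trans hN
  have hNe : (N : ℤ) ∣ (e : ℤ) := by exact_mod_cast hN
  refine ramB_assemble A₀ E Kb t₀ S e hkum hext ?_ ?_ ?_ ?_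
  · intro v hv
    rw [ht₀] at hv ⊢
    exact ramH2_cases N h2 v hv
  · intro v c₀ hc₀ hv
    rw [ht₀] at hv ⊢
    obtain ⟨c, hc, hc0⟩ := h0
    obtain ⟨c', hc', hc64⟩ := h64
    refine ramH2_gen N h2 c₀ ?_ ?_ v hv
    · rw [← hc0]; exact hc₀ c hc
    · rw [← hc64]; exact hc₀ c' hc'
  · intro v c hc hv
    rw [ht₀] at hv ⊢
    rcases hS c hc with h | h
    · rw [h] at hv ⊢
      rw [map_zero, sub_zero] at hv ⊢
      exact (ramH2_zero N h2 v hv).trans hNe
    · rw [h] at hv ⊢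
      exact (ramH2_ell N h2 v hv).trans h2e
  · intro v hv
    rw [ht₀] at hv ⊢
    exact (ramH2_inf N h2 v hv).trans hNe

end H2Line

end Fermat.Agent.INJ


end ZBINJ_012_2

/-! ### bundled: `Fermat.Agent.INJ.RamH3` -/
section ZBINJ_012_3

/-!
# (INJ) B2-T, part 2 (`ℓ = 2`): ramification of `F_N` over the `h`-line of `X₀(3)` (`3 ∣ N`)

`h = hF3 N : FF N` the Hauptmodul of `X₀(3)` (`j h³ = (h + 27)(h + 243)³`).  For every place `v`
of `F_N`:
* `ord_v h < 0 → ord_v h ∣ N`;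
* `0 < ord_v h → ord_v h ∣ N` (the cusp `h = 0`);
* `0 < ord_v (h + 27) → ord_v (h + 27) ∣ 3` (the elliptic point);
* `0 < ord_v (h - c₀) → ord_v (h - c₀) = 1` for `c₀ ≠ 0, -27`.
Hence `ramB_h3line`: hypotheses `(b)`, `(b')` of Part A with `t = h`, `Σ = {0, -27}`, `N ∣ e`.
-/

set_option autoImplicit false

namespace Fermat.Agent.INJ

open Polynomial AlgebraicCurve IntermediateField Fermat.Agent.S24 ModularCurve

section H3

variable (N : ℕ) [NeZero N] (h3 : 3 ∣ N)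

/-- The Hauptmodul of `X₀(3)` as an element of `F_N` (`3 ∣ N`). -/
noncomputable def hF3 : FF N := ⟨hm3 Kb, hm3_mem N h3⟩

theorem hF3_coe : ((hF3 N h3 : FF N) : LaurentSeries Kb) = hm3 Kb := rfl

theorem hF3_ne_zero : hF3 N h3 ≠ 0 := by
  intro h
  apply hm3_ne_zero
  have := congrArg Subtype.val h
  simpa [hF3] using this

theorem hF3_j : jF N * hF3 N h3 ^ 3 = (hF3 N h3 + 27) * (hF3 N h3 + 243) ^ 3 := by
  apply Subtype.ext
  have h := hm3_j (K := Kb)
  rw [← hmMem_jBar_eq] at h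
  exact h

theorem hF3_j1728 :
    (jF N - 1728) * hF3 N h3 ^ 3 = (hF3 N h3 ^ 2 - 486 * hF3 N h3 - 19683) ^ 2 := by
  linear_combination hF3_j N h3

set_option synthInstance.maxHeartbeats 400000 in
/-- `j · A(h) = B(h)` with `A = X³`, `B = (X + 27)(X + 243)³`. -/
theorem hF3_rel :
    jF N * aeval (hF3 N h3) (X ^ 3 : Kb[X])
      = aeval (hF3 N h3) ((X + C 27) * (X + C 243) ^ 3 : Kb[X]) := by
  rw [map_pow, aeval_X, map_mul, map_pow, map_add, map_add, aeval_X, aeval_C, aeval_C,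
    map_ofNat, map_ofNat]
  exact hF3_j N h3

set_option synthInstance.maxHeartbeats 400000 in
theorem hF3_sub_ne_zero (c : Kb) : hF3 N h3 - algebraMap Kb (FF N) c ≠ 0 := by
  refine ramH_rel_sub_ne_zero N (hF3 N h3) _ _ (hF3_rel N h3) ?_ c
  rw [map_pow, aeval_X]
  exact pow_ne_zero _ (hF3_ne_zero N h3)

/-- Over `h = ∞`. -/
theorem ramH3_inf (v : Place Kb (FF N)) (hv : v.ord (hF3 N h3) < 0) :
    v.ord (hF3 N h3) ∣ (N : ℤ) := by
  have hx0 := hF3_ne_zero N h3
  obtain ⟨hne, hord⟩ := ramH_ord_add_const_of_neg v (hF3 N h3) 27 hv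
  obtain ⟨hne', hord'⟩ := ramH_ord_add_const_of_neg v (hF3 N h3) 243 hv
  rw [map_ofNat] at hne hord hne' hord'
  have h1 := congrArg v.ord (hF3_j N h3)
  rw [v.ord_mul (jF_ne_zero N) (pow_ne_zero _ hx0), place_ord_pow,
    v.ord_mul hne (pow_ne_zero _ hne'), place_ord_pow, hord, hord'] at h1
  simp only [Nat.cast_ofNat] at h1
  have hJ : v.ord (jF N) = v.ord (hF3 N h3) := by linarith
  have h4 := ramJ_inf N v (by rw [hJ]; exact hv)
  rw [v.ord_inv, neg_dvd, hJ] at h4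
  exact h4

/-- Over the cusp `h = 0`. -/
theorem ramH3_zero (v : Place Kb (FF N)) (hv : 0 < v.ord (hF3 N h3)) :
    v.ord (hF3 N h3) ∣ (N : ℤ) := by
  have hx0 := hF3_ne_zero N h3
  have hv' : 0 < v.ord (hF3 N h3 - algebraMap Kb (FF N) 0) := by
    rwa [map_zero, sub_zero]
  obtain ⟨hne, hord⟩ := ramH_ord_sub_const v (hF3 N h3) 0 (-27) hv' (by norm_num)
  obtain ⟨hne', hord'⟩ := ramH_ord_sub_const v (hF3 N h3) 0 (-243) hv' (by norm_num)
  rw [map_neg, sub_neg_eq_add, map_ofNat] at hne hord hne' hord'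
  have h1 := congrArg v.ord (hF3_j N h3)
  rw [v.ord_mul (jF_ne_zero N) (pow_ne_zero _ hx0), place_ord_pow,
    v.ord_mul hne (pow_ne_zero _ hne'), place_ord_pow, hord, hord'] at h1
  simp only [Nat.cast_ofNat, mul_zero, add_zero] at h1
  have hJ : v.ord (jF N) = -(3 * v.ord (hF3 N h3)) := by linarith
  have h4 := ramJ_inf N v (by rw [hJ]; omega)
  rw [v.ord_inv, hJ, neg_neg] at h4
  exact (Dvd.intro_left _ rfl).trans h4

/-- Over the elliptic point `h = -27`. -/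
theorem ramH3_ell (v : Place Kb (FF N))
    (hv : 0 < v.ord (hF3 N h3 - algebraMap Kb (FF N) (-27))) :
    v.ord (hF3 N h3 - algebraMap Kb (FF N) (-27)) ∣ 3 := by
  have hx0 := hF3_ne_zero N h3
  obtain ⟨hne0, hord0⟩ := ramH_ord_sub_const v (hF3 N h3) (-27) 0 hv (by norm_num)
  rw [map_zero, sub_zero] at hord0
  obtain ⟨hne1, hord1⟩ := ramH_ord_sub_const v (hF3 N h3) (-27) (-243) hv (by norm_num)
  have hne2 := hF3_sub_ne_zero N h3 (-27)
  have h1 := congrArg v.ord (hF3_j N h3)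
  have he : hF3 N h3 + 27 = hF3 N h3 - algebraMap Kb (FF N) (-27) := by
    rw [map_neg, sub_neg_eq_add, map_ofNat]
  have he' : hF3 N h3 + 243 = hF3 N h3 - algebraMap Kb (FF N) (-243) := by
    rw [map_neg, sub_neg_eq_add, map_ofNat]
  rw [he, he'] at h1
  rw [v.ord_mul (jF_ne_zero N) (pow_ne_zero _ hx0), place_ord_pow, hord0,
    v.ord_mul hne2 (pow_ne_zero _ hne1), place_ord_pow, hord1] at h1
  simp only [Nat.cast_ofNat, mul_zero, add_zero] at h1
  have h4 := ramJ_zero N v (by rw [h1]; exact hv)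
  rwa [h1] at h4

/-- Over `h = -243` (where `j = 0`, ramified of index `3` over the `j`-line). -/
theorem ramH3_243 (v : Place Kb (FF N))
    (hv : 0 < v.ord (hF3 N h3 - algebraMap Kb (FF N) (-243))) :
    v.ord (hF3 N h3 - algebraMap Kb (FF N) (-243)) = 1 := by
  have hx0 := hF3_ne_zero N h3
  obtain ⟨hne0, hord0⟩ := ramH_ord_sub_const v (hF3 N h3) (-243) 0 hv (by norm_num)
  rw [map_zero, sub_zero] at hord0
  obtain ⟨hne1, hord1⟩ := ramH_ord_sub_const v (hF3 N h3) (-243) (-27) hv (by norm_num)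
  have hne2 := hF3_sub_ne_zero N h3 (-243)
  have h1 := congrArg v.ord (hF3_j N h3)
  have he : hF3 N h3 + 27 = hF3 N h3 - algebraMap Kb (FF N) (-27) := by
    rw [map_neg, sub_neg_eq_add, map_ofNat]
  have he' : hF3 N h3 + 243 = hF3 N h3 - algebraMap Kb (FF N) (-243) := by
    rw [map_neg, sub_neg_eq_add, map_ofNat]
  rw [he, he'] at h1
  rw [v.ord_mul (jF_ne_zero N) (pow_ne_zero _ hx0), place_ord_pow, hord0,
    v.ord_mul hne1 (pow_ne_zero _ hne2), place_ord_pow, hord1] at h1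
  simp only [Nat.cast_ofNat, mul_zero, add_zero, zero_add] at h1
  have h4 := ramJ_zero N v (by rw [h1]; omega)
  rw [h1] at h4
  exact ramH_eq_one_of_mul_dvd (n := 3) (by norm_num) hv h4

set_option synthInstance.maxHeartbeats 400000 in
/-- Over the roots of `X² - 486 X - 19683` (where `j = 1728`). -/
theorem ramH3_1728 (c₀ : Kb) (hc : c₀ ^ 2 - 486 * c₀ - 19683 = 0) (v : Place Kb (FF N))
    (hv : 0 < v.ord (hF3 N h3 - algebraMap Kb (FF N) c₀)) :
    v.ord (hF3 N h3 - algebraMap Kb (FF N) c₀) = 1 := by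
  have hx0 := hF3_ne_zero N h3
  have hc0 : (0 : Kb) ≠ c₀ := by
    rintro rfl
    norm_num at hc
  obtain ⟨hne0, hord0⟩ := ramH_ord_sub_const v (hF3 N h3) c₀ 0 hv hc0
  rw [map_zero, sub_zero] at hord0
  set Q : Kb[X] := X ^ 2 - C 486 * X - C 19683 with hQ
  have hQ0 : Q ≠ 0 := by
    intro h
    have := congrArg (fun p : Kb[X] => p.eval 0) h
    simp [hQ] at this
  have hroot : Q.IsRoot c₀ := by
    rw [IsRoot, hQ]
    simp only [eval_sub, eval_pow, eval_X, eval_mul, eval_C]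
    exact hc
  obtain ⟨hQne, hQord⟩ := ramH_ord_aeval v (hF3 N h3) c₀ hv Q hQ0
  have hm : 0 < Q.rootMultiplicity c₀ := (rootMultiplicity_pos hQ0).mpr hroot
  have hQx : aeval (hF3 N h3) Q = hF3 N h3 ^ 2 - 486 * hF3 N h3 - 19683 := by
    rw [hQ, map_sub, map_sub, map_pow, map_mul, aeval_X, aeval_C, aeval_C, map_ofNat, map_ofNat]
  have hJ0 : jF N - (1728 : FF N) ≠ 0 := by
    have := jF_sub_ne_zero N 1728
    rwa [map_ofNat] at this
  have h1 := congrArg v.ord (hF3_j1728 N h3)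
  rw [← hQx, v.ord_mul hJ0 (pow_ne_zero _ hx0), place_ord_pow, hord0, place_ord_pow, hQord] at h1
  simp only [Nat.cast_ofNat, mul_zero, add_zero] at h1
  have hpos : 0 < (Q.rootMultiplicity c₀ : ℤ) * v.ord (hF3 N h3 - algebraMap Kb (FF N) c₀) :=
    mul_pos (by exact_mod_cast hm) hv
  have h4 := ramJ_1728 N v (by rw [map_ofNat (algebraMap Kb (FF N)) 1728, h1]; omega)
  rw [map_ofNat (algebraMap Kb (FF N)) 1728, h1] at h4
  have h5 := ramH_eq_one_of_mul_dvd (n := 2) (by norm_num) hpos h4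
  exact ramH_eq_one_of_mul_eq_one hv h5

/-- Over a generic point `h = c₀`, `c₀ ≠ 0, -27`: unramified. -/
theorem ramH3_gen (c₀ : Kb) (hc0 : c₀ ≠ 0) (hc27 : c₀ ≠ -27) (v : Place Kb (FF N))
    (hv : 0 < v.ord (hF3 N h3 - algebraMap Kb (FF N) c₀)) :
    v.ord (hF3 N h3 - algebraMap Kb (FF N) c₀) = 1 := by
  by_cases h243 : c₀ = -243
  · subst h243; exact ramH3_243 N h3 v hv
  by_cases hQ : c₀ ^ 2 - 486 * c₀ - 19683 = 0
  · exact ramH3_1728 N h3 c₀ hQ v hv
  refine ramH_rel_gen N (hF3 N h3) _ _ (hF3_rel N h3) v c₀ hv ?_ ?_ ?_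
  · simpa using hc0
  · simp only [eval_mul, eval_pow, eval_add, eval_X, eval_C]
    refine mul_ne_zero ?_ (pow_ne_zero _ ?_)
    · intro h
      exact hc27 (eq_neg_of_add_eq_zero_left h)
    · intro h
      exact h243 (eq_neg_of_add_eq_zero_left h)
  · simp only [eval_mul, eval_pow, eval_add, eval_X, eval_C]
    intro h
    have h' : (c₀ ^ 2 - 486 * c₀ - 19683) ^ 2 = 0 := by linear_combination h
    exact hQ (pow_eq_zero_iff (by norm_num) |>.mp h')

theorem ramH3_cases (v : Place Kb (FF N)) (hv : 0 ≤ v.ord (hF3 N h3)) :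
    ∃ c₀ : Kb, 0 < v.ord (hF3 N h3 - algebraMap Kb (FF N) c₀) :=
  ramH_rel_cases N (hF3 N h3) (hF3_sub_ne_zero N h3) v hv

end H3

section H3Line

variable {A₀ E Lf : Type} {F₀ : Type*}
  [CommRing A₀] [Field E] [Algebra A₀ E] [Field Lf] [Algebra E Lf] [Algebra A₀ Lf]
  [IsScalarTower A₀ E Lf]
  [Algebra E Kb] [Field F₀] [Algebra E F₀] [Algebra F₀ Lf] [IsScalarTower E F₀ Lf]
  (N : ℕ) [NeZero N] (h3 : 3 ∣ N)
  [Algebra F₀ (FF N)] [Algebra E (FF N)] [IsScalarTower E F₀ (FF N)]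
  [IsScalarTower E Kb (FF N)]

/-- **B2-b over the `h`-line of `X₀(3)`** (`ℓ = 2`): `Σ = {0, -27}`, `N ∣ e`. -/
theorem ramB_h3line [CharZero E] [Algebra.IsAlgebraic E Kb]
    (t₀ : F₀) (ht₀ : algebraMap F₀ (FF N) t₀ = hF3 N h3) (S : Finset A₀)
    (hS : ∀ c ∈ S, algebraMap E Kb (algebraMap A₀ E c) = 0 ∨
      algebraMap E Kb (algebraMap A₀ E c) = -27)
    (h0 : ∃ c ∈ S, algebraMap E Kb (algebraMap A₀ E c) = 0)
    (h27 : ∃ c ∈ S, algebraMap E Kb (algebraMap A₀ E c) = -27)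
    (e : ℕ) (hN : N ∣ e)
    (hkum : ∀ P : Place E Lf, ∃ Q : Place E F₀,
      ∀ y : F₀, P.ord (algebraMap F₀ Lf y) = Q.ord y)
    (hext : ∀ Q : Place E F₀, ∃ v : Place Kb (FF N),
      ∀ y : F₀, v.ord (algebraMap F₀ (FF N) y) = Q.ord y) :
    TSUnramified (E := E) (algebraMap F₀ Lf t₀) S ∧
      TSTame (E := E) (algebraMap F₀ Lf t₀) S e := by
  have h3e : (3 : ℤ) ∣ (e : ℤ) := by exact_mod_cast h3.trans hN
  have hNe : (N : ℤ) ∣ (e : ℤ) := by exact_mod_cast hN
  refine ramB_assemble A₀ E Kb t₀ S e hkum hext ?_ ?_ ?_ ?_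
  · intro v hv
    rw [ht₀] at hv ⊢
    exact ramH3_cases N h3 v hv
  · intro v c₀ hc₀ hv
    rw [ht₀] at hv ⊢
    obtain ⟨c, hc, hc0⟩ := h0
    obtain ⟨c', hc', hc27⟩ := h27
    refine ramH3_gen N h3 c₀ ?_ ?_ v hv
    · rw [← hc0]; exact hc₀ c hc
    · rw [← hc27]; exact hc₀ c' hc'
  · intro v c hc hv
    rw [ht₀] at hv ⊢
    rcases hS c hc with h | h
    · rw [h] at hv ⊢
      rw [map_zero, sub_zero] at hv ⊢
      exact (ramH3_zero N h3 v hv).trans hNe
    · rw [h] at hv ⊢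
      exact (ramH3_ell N h3 v hv).trans h3e
  · intro v hv
    rw [ht₀] at hv ⊢
    exact (ramH3_inf N h3 v hv).trans hNe

end H3Line

end Fermat.Agent.INJ


end ZBINJ_012_3

/-! ### bundled: `Fermat.Agent.INJ.GaussHaupt` -/
section ZBINJ_012_4

/-!
# INJ B-I1: key data over the line of a Hauptmodul (general coordinate)

`t₀ ∈ ℤ((q))` a coordinate with `K(t) = F_{N₀}(K)` for `K = E` and `K = k`
(`F_N(K) = K(j(q^d) : d ∣ N)`), `N₀ ∣ M`, `M ≠ 0` in `k`.

* `exists_gaussKD_of_adjoin_eq` : there are `n` monomials `x i` in the `j(q^d)`, `d ∣ M`, with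
  `GaussKD r (F_M(E)) t₀ x`  (`n = [F_M : F_{N₀}]`).
* `tsGoodBasis_of_adjoin_eq` : hypothesis `(a)` of the tame specialization theorem for
  `Lf = F_M(E)` and the coordinate `t`.
-/

set_option autoImplicit false

noncomputable section

namespace Fermat.Agent.INJ

open ModularCurve Polynomial IntermediateField Fermat.Agent.S28 Fermat.Agent.S28.Deriv Cardinal

section Abstract

variable {K L : Type*} [Field K] [Field L] [Algebra K L]

theorem finiteDimensional_of_relrank_lt (A B : IntermediateField K L) (h : A ≤ B)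
    (hfin : A.relrank B < ℵ₀) : FiniteDimensional A (extendScalars h) := by
  rw [relrank_eq_rank_of_le h] at hfin
  exact Module.rank_lt_aleph0_iff.mp hfin

end Abstract

section Count

variable (K : Type*) [Field K]

/-- `[F_M : F_{N₀}] · ψ(N₀) = ψ(M)` and the degree is finite. -/
theorem relfinrank_full_full {N₀ M : ℕ} [NeZero N₀] [NeZero M] (hdvd : N₀ ∣ M)
    (hM : (M : K) ≠ 0) :
    dedekindPsi N₀ * (modularFunctionFieldFullC K N₀).relfinrank (modularFunctionFieldFullC K M)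
      = dedekindPsi M := by
  have hN₀ : (N₀ : K) ≠ 0 := by
    intro h0
    obtain ⟨c, rfl⟩ := hdvd
    rw [Nat.cast_mul, h0, zero_mul] at hM
    exact hM rfl
  have h1 := relfinrank_mul_relfinrank (UB.K0_le_full K N₀) (UB.full_mono K hdvd)
  have h2 := relfinrank_full_eq_dedekindPsi K N₀ hN₀
  have h3 := relfinrank_full_eq_dedekindPsi K M hM
  rw [UB.K0] at h1
  rw [h2, h3] at h1
  exact h1

theorem dedekindPsi_pos' {M : ℕ} [NeZero M] (hM : (M : K) ≠ 0) : 0 < dedekindPsi M := by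
  rw [← relfinrank_full_eq_dedekindPsi K M hM]
  have h := relrank_full_lt_aleph0_of_ne_zero K M hM
  rw [relfinrank_eq_toNat_relrank]
  rw [Nat.pos_iff_ne_zero, Ne, toNat_eq_zero]
  push Not
  refine ⟨?_, h⟩
  have hle : K⟮jqModC K⟯ ≤ modularFunctionFieldFullC K M := UB.K0_le_full K M
  rw [relrank_eq_rank_of_le hle]
  exact rank_pos.ne'

theorem relfinrank_full_full_pos {N₀ M : ℕ} [NeZero N₀] [NeZero M] (hdvd : N₀ ∣ M)
    (hM : (M : K) ≠ 0) :
    0 < (modularFunctionFieldFullC K N₀).relfinrank (modularFunctionFieldFullC K M) := by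
  have h1 := relfinrank_full_full K hdvd hM
  have h2 := dedekindPsi_pos' K hM
  rcases Nat.eq_zero_or_pos
    ((modularFunctionFieldFullC K N₀).relfinrank (modularFunctionFieldFullC K M)) with h | h
  · rw [h, mul_zero] at h1; omega
  · exact h

theorem relrank_full_full_lt {N₀ M : ℕ} [NeZero N₀] [NeZero M] (hdvd : N₀ ∣ M)
    (hM : (M : K) ≠ 0) :
    (modularFunctionFieldFullC K N₀).relrank (modularFunctionFieldFullC K M) < ℵ₀ := by
  have h := relfinrank_full_full_pos K hdvd hM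
  rw [relfinrank_eq_toNat_relrank] at h
  by_contra hge
  rw [not_lt] at hge
  rw [toNat_apply_of_aleph0_le hge] at h
  exact lt_irrefl _ h

end Count

section General

universe u

variable {A₀ E : Type u} {k : Type*} [CommRing A₀] [IsDomain A₀] [WfDvdMonoid A₀] [Field E]
  [Algebra A₀ E] [IsFractionRing A₀ E] [Field k] (r : A₀ →+* k) (π : A₀)

/-- **KD over the line of a coordinate `t` with `K(t) = F_{N₀}(K)`**, at level `M`, `N₀ ∣ M`. -/
theorem exists_gaussKD_of_adjoin_eq (hπ0 : π ≠ 0) (hπ : ¬ IsUnit π) (hr : ∀ a, r a = 0 → π ∣ a)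
    {N₀ M : ℕ} [NeZero N₀] [NeZero M] (hdvd : N₀ ∣ M) (hME : (M : E) ≠ 0) (hMk : (M : k) ≠ 0)
    (t₀ : LaurentSeries ℤ)
    (hE : E⟮coeffMap (Int.castRingHom E) t₀⟯ = modularFunctionFieldFullC E N₀)
    (hk : k⟮coeffMap (Int.castRingHom k) t₀⟯ = modularFunctionFieldFullC k N₀)
    (htr : Transcendental k (coeffMap (Int.castRingHom k) t₀)) :
    ∃ (n : ℕ) (x : Fin n → LaurentSeries A₀),
      GaussKD r (modularFunctionFieldFullC E M) (coeffMap (Int.castRingHom A₀) t₀) x ∧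
      ∀ i, coeffMap r (x i) ∈ modularFunctionFieldFullC k M := by
  classical
  set n := (modularFunctionFieldFullC k N₀).relfinrank (modularFunctionFieldFullC k M) with hn
  have hnE : (modularFunctionFieldFullC E N₀).relfinrank (modularFunctionFieldFullC E M) = n := by
    have h1 := relfinrank_full_full E hdvd hME
    have h2 := relfinrank_full_full k hdvd hMk
    have hN₀k : (N₀ : k) ≠ 0 := by
      intro h0
      obtain ⟨c, rfl⟩ := hdvd
      rw [Nat.cast_mul, h0, zero_mul] at hMk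
      exact hMk rfl
    have h3 := dedekindPsi_pos' k hN₀k
    rw [← h2] at h1
    exact Nat.eq_of_mul_eq_mul_left h3 h1
  -- monomials over `k`
  have hfin := relrank_full_full_lt k hdvd hMk
  have hle : modularFunctionFieldFullC k N₀ ≤ adjoin k (divisorExpansionsC k M) :=
    UB.full_mono k hdvd
  have hcard : (n : Cardinal) ≤
      (modularFunctionFieldFullC k N₀).relrank (adjoin k (divisorExpansionsC k M)) := by
    rw [hn, relfinrank_eq_toNat_relrank]
    exact (cast_toNat_of_lt_aleph0 hfin).le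
  have hint : ∀ z ∈ divisorExpansionsC k M, IsIntegral (modularFunctionFieldFullC k N₀) z :=
    fun z hz => isIntegral_of_relrank_lt _ _ (UB.full_mono k hdvd) hfin
      (IntermediateField.subset_adjoin k _ hz)
  obtain ⟨m, hm, hli⟩ := exists_monomials_linearIndependent (modularFunctionFieldFullC k N₀)
    (divisorExpansionsC k M) hint hle n hcard
  have hcl : ∀ i, ∃ w ∈ Submonoid.closure (gensZ M), coeffMap (Int.castRingHom k) w = m i := by
    intro i
    have h1 := hm i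
    rw [← coeffMap_image_gensZ, ← MonoidHom.map_mclosure] at h1
    exact h1
  choose x hx hxm using hcl
  rw [← hk] at hli
  -- notation
  have hkt : coeffMap r (coeffMap (Int.castRingHom A₀) t₀) = coeffMap (Int.castRingHom k) t₀ := by
    rw [coeffMap_coeffMap]
    exact coeffMap_congr (RingHom.ext_int _ _) _
  have hEt : coeffMap (algebraMap A₀ E) (coeffMap (Int.castRingHom A₀) t₀) =
      coeffMap (Int.castRingHom E) t₀ := by
    rw [coeffMap_coeffMap]
    exact coeffMap_congr (RingHom.ext_int _ _) _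
  have hxk : ∀ i, coeffMap r (coeffMap (Int.castRingHom A₀) (x i)) = m i := fun i => by
    rw [coeffMap_coeffMap, ← hxm i]
    exact coeffMap_congr (RingHom.ext_int _ _) _
  have hxE : ∀ i, coeffMap (algebraMap A₀ E) (coeffMap (Int.castRingHom A₀) (x i)) =
      coeffMap (Int.castRingHom E) (x i) := fun i => by
    rw [coeffMap_coeffMap]
    exact coeffMap_congr (RingHom.ext_int _ _) _
  have hmE : ∀ i, coeffMap (Int.castRingHom E) (x i) ∈ modularFunctionFieldFullC E M :=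
    fun i => coeffMap_mem_full_of_mem_closure E M (hx i)
  -- independence of the reductions, membership form
  have hind : ∀ c : Fin n → LaurentSeries k,
      (∀ i, c i ∈ k⟮coeffMap r (coeffMap (Int.castRingHom A₀) t₀)⟯) →
      ∑ i, c i * coeffMap r (coeffMap (Int.castRingHom A₀) (x i)) = 0 → ∀ i, c i = 0 := by
    intro c hc hsum i
    rw [hkt] at hc
    have h0 := Fintype.linearIndependent_iff.mp hli (fun i => ⟨c i, hc i⟩) (by
      rw [← hsum]
      refine Finset.sum_congr rfl fun i _ => ?_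
      rw [hxk, IntermediateField.smul_def, smul_eq_mul]) i
    exact congrArg Subtype.val h0
  have htr' : Transcendental k (coeffMap r (coeffMap (Int.castRingHom A₀) t₀)) := by
    rw [hkt]; exact htr
  have hindE := redDVR_indep (E := E) r π hπ0 hπ hr
    (fun i => coeffMap (Int.castRingHom A₀) (x i)) (coeffMap (Int.castRingHom A₀) t₀) htr' hind
  have hliE : LinearIndependent E⟮coeffMap (Int.castRingHom E) t₀⟯
      (fun i => coeffMap (Int.castRingHom E) (x i)) := by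
    rw [Fintype.linearIndependent_iff]
    intro g hg i
    have h1 := hindE (fun i => ((g i : E⟮coeffMap (Int.castRingHom E) t₀⟯) : LaurentSeries E))
      (fun i => by rw [hEt]; exact (g i).2)
      (by
        rw [← hg]
        refine Finset.sum_congr rfl fun i _ => ?_
        rw [hxE, IntermediateField.smul_def, smul_eq_mul]) i
    exact Subtype.ext h1
  have hEF : E⟮coeffMap (Int.castRingHom E) t₀⟯ ≤ modularFunctionFieldFullC E M := by
    rw [hE]; exact UB.full_mono E hdvd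
  have hfinE : E⟮coeffMap (Int.castRingHom E) t₀⟯.relrank (modularFunctionFieldFullC E M) < ℵ₀ := by
    rw [hE]; exact relrank_full_full_lt E hdvd hME
  have hfd : FiniteDimensional E⟮coeffMap (Int.castRingHom E) t₀⟯ (extendScalars hEF) :=
    finiteDimensional_of_relrank_lt _ _ hEF hfinE
  have hfr : Module.finrank E⟮coeffMap (Int.castRingHom E) t₀⟯ (extendScalars hEF) ≤ n := by
    rw [← relfinrank_eq_finrank_of_le hEF, hE, hnE]
  refine ⟨n, fun i => coeffMap (Int.castRingHom A₀) (x i), ⟨?_, ?_, ?_, hind, htr'⟩, ?_⟩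
  · rw [hEt]
    exact hEF (IntermediateField.mem_adjoin_simple_self E _)
  · intro i; rw [hxE]; exact hmE i
  · intro f hf
    obtain ⟨c, hc, hfc⟩ := exists_coeffs_of_linearIndependent E⟮coeffMap (Int.castRingHom E) t₀⟯
      (modularFunctionFieldFullC E M) hEF hfd hfr
      (fun i => coeffMap (Int.castRingHom E) (x i)) hmE hliE f hf
    refine ⟨c, fun i => ?_, ?_⟩
    · rw [hEt]; exact hc i
    · rw [hfc]
      refine Finset.sum_congr rfl fun i _ => ?_
      rw [hxE]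
  · intro i
    rw [hxk, ← hxm i]
    exact coeffMap_mem_full_of_mem_closure k M (hx i)

end General

section Squeeze

variable (K : Type*) [Field K]

theorem dedekindPsi_prime' {p : ℕ} (hp : p.Prime) : dedekindPsi p = p + 1 := by
  rw [dedekindPsi, hp.divisors, Finset.sum_filter,
    Finset.sum_pair hp.one_lt.ne, if_pos squarefree_one, if_pos hp.squarefree, Nat.div_one,
    Nat.div_self hp.pos]

/-- **Degree squeeze**: if `j · h^e = P₁(h)` with `P₁` monic of degree `p + 1 > e` and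
`j(q^p) · h = P_p(h)`, `h ≠ 0`, `p ≠ 0` in `K`, then `K(h) = F_p(K)`. -/
theorem adjoin_eq_full_of_rel {p : ℕ} (hp : p.Prime) [NeZero p] (hpK : (p : K) ≠ 0)
    (h : LaurentSeries K) (h0 : h ≠ 0) (P₁ Pp : K[X]) (hP₁ : P₁.Monic)
    (hdeg : P₁.natDegree = p + 1) (e : ℕ) (he : e < p + 1)
    (hj : jqModC K * h ^ e = aeval h P₁) (hjp : jqNModC K p * h = aeval h Pp) :
    K⟮h⟯ = modularFunctionFieldFullC K p := by
  set A : IntermediateField K (LaurentSeries K) := K⟮jqModC K⟯ with hA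
  have hjA : jqModC K ∈ A := IntermediateField.mem_adjoin_simple_self K _
  set jA : A := ⟨jqModC K, hjA⟩ with hjAdef
  have hAB : A ≤ modularFunctionFieldFullC K p := UB.K0_le_full K p
  have hrel : relfinrank A (modularFunctionFieldFullC K p) = p + 1 := by
    rw [hA, relfinrank_full_eq_dedekindPsi K p hpK, dedekindPsi_prime' hp]
  set P : Polynomial A := P₁.map (algebraMap K A) - C jA * X ^ e with hP
  have hm1 : (P₁.map (algebraMap K A)).Monic := hP₁.map _
  have hdeg1 : (P₁.map (algebraMap K A)).natDegree = p + 1 := by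
    rw [natDegree_map, hdeg]
  have hdeg2 : (C jA * X ^ e : Polynomial A).natDegree < p + 1 := by
    calc (C jA * X ^ e : Polynomial A).natDegree ≤ e := by
          refine (natDegree_C_mul_le _ _).trans ?_
          rw [natDegree_X_pow]
      _ < p + 1 := he
  have hPm : P.Monic := by
    refine Monic.sub_of_left hm1 ?_
    rw [degree_eq_natDegree hm1.ne_zero, hdeg1]
    exact lt_of_le_of_lt degree_le_natDegree (by exact_mod_cast hdeg2)
  have hPdeg : P.natDegree = p + 1 := by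
    rw [hP, natDegree_sub_eq_left_of_natDegree_lt (by rw [hdeg1]; exact hdeg2), hdeg1]
  have hroot : aeval h P = 0 := by
    simp only [hP, map_sub, map_mul, map_pow, aeval_X, aeval_C]
    rw [aeval_map_algebraMap]
    have h2 : (algebraMap A (LaurentSeries K)) jA = jqModC K := rfl
    rw [h2, ← hj, sub_self]
  have hmemC : h ∈ (IntermediateField.adjoin A {h}).restrictScalars K :=
    IntermediateField.mem_adjoin_simple_self A _
  have hgen : modularFunctionFieldFullC K p ≤ (IntermediateField.adjoin A {h}).restrictScalars K := by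
    rw [modularFunctionFieldFullC, IntermediateField.adjoin_le_iff]
    rintro z ⟨d, hd0, hd, rfl⟩
    rcases (Nat.dvd_prime hp).mp hd with rfl | rfl
    · rw [qExpand_one_apply]
      exact (IntermediateField.adjoin A {h}).algebraMap_mem jA
    · have h3 : qExpand K d (jqModC K) = aeval h Pp / h := by
        rw [eq_div_iff h0, ← hjp]
        rfl
      rw [h3]
      refine div_mem ?_ hmemC
      exact Deriv.aeval_mem_of_mem _ hmemC Pp
  have hmem : h ∈ modularFunctionFieldFullC K p :=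
    hmMem_of_degree A (modularFunctionFieldFullC K p) hAB h (p + 1) (Nat.succ_pos p) hrel P hPm
      hPdeg hroot hgen
  apply le_antisymm
  · rw [IntermediateField.adjoin_simple_le_iff]; exact hmem
  · rw [modularFunctionFieldFullC, IntermediateField.adjoin_le_iff]
    have hhmem : h ∈ K⟮h⟯ := IntermediateField.mem_adjoin_simple_self K h
    rintro z ⟨d, hd0, hd, rfl⟩
    rcases (Nat.dvd_prime hp).mp hd with rfl | rfl
    · rw [qExpand_one_apply]
      have h3 : jqModC K = aeval h P₁ / h ^ e := by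
        rw [eq_div_iff (pow_ne_zero _ h0), hj]
      rw [h3]
      exact div_mem (Deriv.aeval_mem_of_mem _ hhmem P₁) (pow_mem hhmem e)
    · have h3 : qExpand K d (jqModC K) = aeval h Pp / h := by
        rw [eq_div_iff h0, ← hjp]
        rfl
      rw [h3]
      exact div_mem (Deriv.aeval_mem_of_mem _ hhmem Pp) hhmem

end Squeeze

section Haupt

variable (K : Type*) [Field K]

theorem hm_unit_ne_zero {u : PowerSeries ℤ} (hu : PowerSeries.constantCoeff u = 1) :
    HahnSeries.single (-1 : ℤ) (1 : K) *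
      HahnSeries.ofPowerSeries ℤ K (u.map (Int.castRingHom K)) ≠ 0 := by
  refine mul_ne_zero (HahnSeries.single_ne_zero one_ne_zero) ?_
  intro h0
  have h1 : u.map (Int.castRingHom K) = 0 :=
    HahnSeries.ofPowerSeries_injective (by rw [h0, map_zero])
  have h2 := congrArg PowerSeries.constantCoeff h1
  rw [← PowerSeries.coeff_zero_eq_constantCoeff_apply, PowerSeries.coeff_map,
    PowerSeries.coeff_zero_eq_constantCoeff_apply, hu] at h2
  simp at h2

theorem hm2_ne_zero' : hm2 K ≠ 0 := by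
  rw [hm2_eq]; exact hm_unit_ne_zero K constantCoeff_hm2U

theorem hm3_ne_zero' : hm3 K ≠ 0 := by
  rw [hm3_eq]; exact hm_unit_ne_zero K constantCoeff_hm3U

/-- `K(h₂) = F_2(K)` if `2 ≠ 0` in `K`. -/
theorem adjoin_hm2_eq (h2 : ((2 : ℕ) : K) ≠ 0) :
    K⟮hm2 K⟯ = modularFunctionFieldFullC K 2 := by
  refine adjoin_eq_full_of_rel K Nat.prime_two h2 (hm2 K) (hm2_ne_zero' K)
    ((X + C 256) ^ 3) ((X + C 16) ^ 3) ((monic_X_add_C _).pow 3) ?_ 2 (by norm_num) ?_ ?_
  · rw [natDegree_pow, natDegree_X_add_C]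
  · rw [hm2_j]
    simp only [map_pow, map_add, aeval_X, aeval_C]
    rw [map_ofNat]
  · rw [hm2_j2]
    simp only [map_pow, map_add, aeval_X, aeval_C]
    rw [map_ofNat]

/-- `K(h₃) = F_3(K)` if `3 ≠ 0` in `K`. -/
theorem adjoin_hm3_eq (h3 : ((3 : ℕ) : K) ≠ 0) :
    K⟮hm3 K⟯ = modularFunctionFieldFullC K 3 := by
  refine adjoin_eq_full_of_rel K Nat.prime_three h3 (hm3 K) (hm3_ne_zero' K)
    ((X + C 27) * (X + C 243) ^ 3) ((X + C 27) * (X + C 3) ^ 3)
    ((monic_X_add_C _).mul ((monic_X_add_C _).pow 3)) ?_ 3 (by norm_num) ?_ ?_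
  · rw [((monic_X_add_C (27 : K))).natDegree_mul ((monic_X_add_C (243 : K)).pow 3),
      natDegree_pow, natDegree_X_add_C, natDegree_X_add_C]
  · rw [hm3_j]
    simp only [map_mul, map_pow, map_add, aeval_X, aeval_C]
    rw [map_ofNat, map_ofNat]
  · rw [hm3_j3]
    simp only [map_mul, map_pow, map_add, aeval_X, aeval_C]
    rw [map_ofNat, map_ofNat]

/-- A coordinate generating a field that contains `j` is transcendental. -/
theorem transcendental_of_jqModC_mem {t : LaurentSeries K} (hj : jqModC K ∈ K⟮t⟯) :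
    Transcendental K t := by
  intro halg
  have h1 : Algebra.IsAlgebraic K K⟮t⟯ :=
    IntermediateField.isAlgebraic_adjoin_simple halg.isIntegral
  have h2 : IsAlgebraic K (⟨jqModC K, hj⟩ : K⟮t⟯) := Algebra.IsAlgebraic.isAlgebraic _
  have h3 : IsAlgebraic K (jqModC K) := by
    have := h2.algebraMap (A := LaurentSeries K)
    exact this
  exact kdj_transcendental_jqModC K h3

/-- If `j · h^e = P(h)` then `θ h ≠ 0`. -/
theorem thetaFun_ne_zero_of_rel {h : LaurentSeries K} (h0 : h ≠ 0) (P : K[X]) (e : ℕ)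
    (hj : jqModC K * h ^ e = aeval h P) : thetaFun h ≠ 0 := by
  intro hθ
  have h1 := congrArg thetaFun hj
  rw [thetaFun_mul, thetaFun_pow, thetaFun_aeval, hθ, mul_zero, mul_zero, mul_zero,
    zero_add] at h1
  rcases mul_eq_zero.mp h1 with h2 | h2
  · exact pow_ne_zero _ h0 h2
  · exact thetaFun_jqModC_ne_zero K h2

theorem thetaFun_hm2_ne_zero : thetaFun (hm2 K) ≠ 0 := by
  refine thetaFun_ne_zero_of_rel K (hm2_ne_zero' K) ((X + C 256) ^ 3) 2 ?_
  rw [hm2_j]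
  simp only [map_pow, map_add, aeval_X, aeval_C]
  rw [map_ofNat]

theorem thetaFun_hm3_ne_zero : thetaFun (hm3 K) ≠ 0 := by
  refine thetaFun_ne_zero_of_rel K (hm3_ne_zero' K) ((X + C 27) * (X + C 243) ^ 3) 3 ?_
  rw [hm3_j]
  simp only [map_mul, map_pow, map_add, aeval_X, aeval_C]
  rw [map_ofNat, map_ofNat]

end Haupt

section Final

universe u

variable {A₀ E : Type u} {k : Type*} [CommRing A₀] [IsDomain A₀] [WfDvdMonoid A₀] [Field E]
  [Algebra A₀ E] [IsFractionRing A₀ E] [Field k] (r : A₀ →+* k) (π : A₀)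

/-- **B-I1 over the line of a general coordinate**: hypothesis `(a)` of the tame specialization
theorem for `Lf = F_M(E)` and a coordinate `t` with `K(t) = F_{N₀}(K)`, `N₀ ∣ M`. -/
theorem tsGoodBasis_of_adjoin_eq (hπ0 : π ≠ 0) (hπ : ¬ IsUnit π) (hr : ∀ a, r a = 0 → π ∣ a)
    (hrπ : r π = 0) (ℓ : ℕ) [Fact ℓ.Prime] [CharP k ℓ] [PerfectRing k ℓ]
    {N₀ M : ℕ} [NeZero N₀] [NeZero M] (hdvd : N₀ ∣ M) (hME : (M : E) ≠ 0) (hMk : (M : k) ≠ 0)
    (t₀ : LaurentSeries ℤ)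
    (hE : E⟮coeffMap (Int.castRingHom E) t₀⟯ = modularFunctionFieldFullC E N₀)
    (hk : k⟮coeffMap (Int.castRingHom k) t₀⟯ = modularFunctionFieldFullC k N₀)
    (htr : Transcendental k (coeffMap (Int.castRingHom k) t₀))
    (hθ : thetaFun (coeffMap (Int.castRingHom k) t₀) ≠ 0)
    [Algebra A₀ (modularFunctionFieldFullC E M)]
    [IsScalarTower A₀ E (modularFunctionFieldFullC E M)]
    (ht : coeffMap (Int.castRingHom E) t₀ ∈ modularFunctionFieldFullC E M) :
    TSGoodBasis (A₀ := A₀) (E := E) (Lf := modularFunctionFieldFullC E M) π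
      (⟨coeffMap (Int.castRingHom E) t₀, ht⟩ : modularFunctionFieldFullC E M) := by
  obtain ⟨n, x, kd, -⟩ := exists_gaussKD_of_adjoin_eq (E := E) r π hπ0 hπ hr hdvd hME hMk t₀
    hE hk htr
  have hkt : coeffMap r (coeffMap (Int.castRingHom A₀) t₀) = coeffMap (Int.castRingHom k) t₀ := by
    rw [coeffMap_coeffMap]
    exact coeffMap_congr (RingHom.ext_int _ _) _
  have hEt : coeffMap (algebraMap A₀ E) (coeffMap (Int.castRingHom A₀) t₀) =
      coeffMap (Int.castRingHom E) t₀ := by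
    rw [coeffMap_coeffMap]
    exact coeffMap_congr (RingHom.ext_int _ _) _
  have h := kd.tsGoodBasis hπ0 hπ hr hrπ ℓ (by rw [hkt]; exact hθ)
  have hE' : (⟨coeffMap (algebraMap A₀ E) (coeffMap (Int.castRingHom A₀) t₀), kd.t_mem⟩ :
      modularFunctionFieldFullC E M) = ⟨coeffMap (Int.castRingHom E) t₀, ht⟩ := Subtype.ext hEt
  rwa [hE'] at h

theorem natCast_ne_zero_of_dvd (K : Type*) [Field K] {N₀ M : ℕ} (hdvd : N₀ ∣ M)
    (hM : (M : K) ≠ 0) : (N₀ : K) ≠ 0 := by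
  intro h0
  obtain ⟨c, rfl⟩ := hdvd
  rw [Nat.cast_mul, h0, zero_mul] at hM
  exact hM rfl

theorem hm2_mem_full (K : Type*) [Field K] {M : ℕ} [NeZero M] (h2 : 2 ∣ M) (hM : (M : K) ≠ 0) :
    hm2 K ∈ modularFunctionFieldFullC K M := by
  have h := adjoin_hm2_eq K (natCast_ne_zero_of_dvd K h2 hM)
  exact UB.full_mono K h2 (h ▸ IntermediateField.mem_adjoin_simple_self K (hm2 K))

theorem hm3_mem_full (K : Type*) [Field K] {M : ℕ} [NeZero M] (h3 : 3 ∣ M) (hM : (M : K) ≠ 0) :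
    hm3 K ∈ modularFunctionFieldFullC K M := by
  have h := adjoin_hm3_eq K (natCast_ne_zero_of_dvd K h3 hM)
  exact UB.full_mono K h3 (h ▸ IntermediateField.mem_adjoin_simple_self K (hm3 K))

/-- **B-I1 over the `X₀(2)`-line** (used for `ℓ = 3`). -/
theorem tsGoodBasis_hm2 (hπ0 : π ≠ 0) (hπ : ¬ IsUnit π) (hr : ∀ a, r a = 0 → π ∣ a)
    (hrπ : r π = 0) (ℓ : ℕ) [Fact ℓ.Prime] [CharP k ℓ] [PerfectRing k ℓ]
    {M : ℕ} [NeZero M] (h2 : 2 ∣ M) (hME : (M : E) ≠ 0) (hMk : (M : k) ≠ 0)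
    [Algebra A₀ (modularFunctionFieldFullC E M)]
    [IsScalarTower A₀ E (modularFunctionFieldFullC E M)] :
    TSGoodBasis (A₀ := A₀) (E := E) (Lf := modularFunctionFieldFullC E M) π
      (⟨hm2 E, hm2_mem_full E h2 hME⟩ : modularFunctionFieldFullC E M) := by
  have hkeq := adjoin_hm2_eq k (natCast_ne_zero_of_dvd k h2 hMk)
  have hjk : jqModC k ∈ k⟮hm2 k⟯ := by
    rw [hkeq]; exact jqModC_mem_full k 2
  exact tsGoodBasis_of_adjoin_eq (E := E) r π hπ0 hπ hr hrπ ℓ h2 hME hMk hm2Z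
    (adjoin_hm2_eq E (natCast_ne_zero_of_dvd E h2 hME)) hkeq
    (transcendental_of_jqModC_mem k hjk)
    (thetaFun_hm2_ne_zero k)
    (hm2_mem_full E h2 hME)

/-- **B-I1 over the `X₀(3)`-line** (used for `ℓ = 2`). -/
theorem tsGoodBasis_hm3 (hπ0 : π ≠ 0) (hπ : ¬ IsUnit π) (hr : ∀ a, r a = 0 → π ∣ a)
    (hrπ : r π = 0) (ℓ : ℕ) [Fact ℓ.Prime] [CharP k ℓ] [PerfectRing k ℓ]
    {M : ℕ} [NeZero M] (h3 : 3 ∣ M) (hME : (M : E) ≠ 0) (hMk : (M : k) ≠ 0)
    [Algebra A₀ (modularFunctionFieldFullC E M)]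
    [IsScalarTower A₀ E (modularFunctionFieldFullC E M)] :
    TSGoodBasis (A₀ := A₀) (E := E) (Lf := modularFunctionFieldFullC E M) π
      (⟨hm3 E, hm3_mem_full E h3 hME⟩ : modularFunctionFieldFullC E M) := by
  have hkeq := adjoin_hm3_eq k (natCast_ne_zero_of_dvd k h3 hMk)
  have hjk : jqModC k ∈ k⟮hm3 k⟯ := by
    rw [hkeq]; exact jqModC_mem_full k 3
  exact tsGoodBasis_of_adjoin_eq (E := E) r π hπ0 hπ hr hrπ ℓ h3 hME hMk hm3Z
    (adjoin_hm3_eq E (natCast_ne_zero_of_dvd E h3 hME)) hkeq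
    (transcendental_of_jqModC_mem k hjk)
    (thetaFun_hm3_ne_zero k)
    (hm3_mem_full E h3 hME)

end Final

end Fermat.Agent.INJ

end
end ZBINJ_012_4

/-! ### bundled: `Fermat.Agent.ES.I2aux.MFh` -/
section ZBINJ_012_5

/-!
# ES / I2aux, piece `aux-MFh` (helper24): the functions `Yh`, `Yh'` on the Hauptmodul line

`stmtMFhGlue : StmtMFhGlue` (`= StmtMFAll → StmtMFhAll`, interface `ES/I2aux/Plan.lean`).

Pure algebra on top of `StmtMF` (`Yt`, `Y1`, `Y2`), with `h = hm2Z` resp. `hm3Z`: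

* `r = 2`: `Yh = Yt h / ((h + 256) (h - 512))`, `Yh' = Y2 / (h + 256)²`;
  `Yh⁶ (h + 256)⁶ = Y2³ (h + 64)³`, `Yh⁶ h² (h - 512)² = Y1² (h + 64)²`,
  `Yh'³ (h + 256)⁶ = Y2³`, `Yh'³ h² (h - 512)² (h + 64) = Y1²`.
* `r = 3`: `Q = h² - 486 h - 19683`, `Yh = Yt h² / ((h + 243) Q)`, `Yh' = Y1 / Q`;
  `Yh⁶ (h + 243)⁶ = Y2³ h³`, `Yh⁶ Q² = Y1² (h + 27)²`,
  `Yh'² Q² = Y1²`, `Yh'² (h + 243)⁶ (h + 27)² = Y2³ h³`.

The denominators are units of `ℤ((q))` (leading coefficient `1`); the identities follow from the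
modular equations `hm2Z_j`, `hm3Z_j` and their `θ`-derivatives.  Integrality over `ℚ̄[j]`: `h` is
integral (modular equation), the two denominators of `Yh⁶` (resp. `Yh'^k`) are coprime in the
integral closure `mfhB` (their difference, resp. a remainder, is a nonzero constant), so a Bezout
relation exhibits the power as integral, hence the function.
-/

set_option autoImplicit false

noncomputable section

namespace Fermat.Agent.ES.I2aux

open ModularCurve AlgebraicCurve HahnSeries Fermat.Agent.ES Fermat.Agent.S24 Fermat.Agent.ES.M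
open Fermat.Agent.ES.I2 Fermat.Agent.INJ Fermat.Agent.S28.Deriv

/-! ### commutative algebra -/


theorem mfh_alg2 {R : Type*} [CommRing R] [IsDomain R]
    (j h θj θh f Yt Y1 Y2 ai bi : R)
    (hj : j * h ^ 2 = (h + 256) ^ 3)
    (hθ : θj * h ^ 2 + 2 * j * h * θh = 3 * (h + 256) ^ 2 * θh)
    (e1 : Yt * θj = f * j * (j - 1728))
    (e2 : Yt ^ 2 = Y2 * (j - 1728))
    (e3 : Yt ^ 3 = Y1 * j * (j - 1728))
    (ha : (h + 256) * ai = 1) (hb : (h - 512) * bi = 1) (hh : h ≠ 0) (hc : h + 64 ≠ 0) :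
    (Yt * h * ai * bi) * θh = f * (h + 64) ∧
    (Yt * h * ai * bi) ^ 2 = (h + 64) * (Y2 * ai ^ 2) ∧
    (Yt * h * ai * bi) ^ 6 * (h + 256) ^ 6 = Y2 ^ 3 * (h + 64) ^ 3 ∧
    (Yt * h * ai * bi) ^ 6 * (h ^ 2 * (h - 512) ^ 2) = Y1 ^ 2 * (h + 64) ^ 2 ∧
    (Y2 * ai ^ 2) ^ 3 * (h + 256) ^ 6 = Y2 ^ 3 ∧
    (Y2 * ai ^ 2) ^ 3 * (h ^ 2 * (h - 512) ^ 2 * (h + 64)) = Y1 ^ 2 := by
  have ha0 : h + 256 ≠ 0 := left_ne_zero_of_mul_eq_one ha
  have hb0 : h - 512 ≠ 0 := left_ne_zero_of_mul_eq_one hb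
  have K1 : (j - 1728) * h ^ 2 = (h + 64) * (h - 512) ^ 2 := by linear_combination hj
  have K2 : θj * h ^ 3 = (h + 256) ^ 2 * (h - 512) * θh := by
    linear_combination h * hθ - 2 * θh * hj
  have K3 : Yt * θh * h = f * (h + 256) * (h + 64) * (h - 512) := by
    have hne : (h + 256) ^ 2 * (h - 512) * h ≠ 0 :=
      mul_ne_zero (mul_ne_zero (pow_ne_zero 2 ha0) hb0) hh
    refine mul_left_cancel₀ hne ?_
    calc (h + 256) ^ 2 * (h - 512) * h * (Yt * θh * h)
        = Yt * h ^ 2 * ((h + 256) ^ 2 * (h - 512) * θh) := by ring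
      _ = Yt * h ^ 2 * (θj * h ^ 3) := by rw [K2]
      _ = (Yt * θj) * h ^ 5 := by ring
      _ = f * j * (j - 1728) * h ^ 5 := by rw [e1]
      _ = f * h * (j * h ^ 2) * ((j - 1728) * h ^ 2) := by ring
      _ = f * h * (h + 256) ^ 3 * ((h + 64) * (h - 512) ^ 2) := by rw [hj, K1]
      _ = _ := by ring
  have E1 : (Yt * h * ai * bi) * θh = f * (h + 64) := by
    calc (Yt * h * ai * bi) * θh = (Yt * θh * h) * ai * bi := by ring
      _ = f * (h + 64) * ((h + 256) * ai) * ((h - 512) * bi) := by rw [K3]; ring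
      _ = f * (h + 64) := by rw [ha, hb]; ring
  have E2 : (Yt * h * ai * bi) ^ 2 = (h + 64) * (Y2 * ai ^ 2) := by
    calc (Yt * h * ai * bi) ^ 2 = Yt ^ 2 * h ^ 2 * ai ^ 2 * bi ^ 2 := by ring
      _ = Y2 * ((j - 1728) * h ^ 2) * ai ^ 2 * bi ^ 2 := by rw [e2]; ring
      _ = (h + 64) * (Y2 * ai ^ 2) * ((h - 512) * bi) ^ 2 := by rw [K1]; ring
      _ = _ := by rw [hb]; ring
  have E3 : (Yt * h * ai * bi) ^ 3 * (h * (h - 512)) = Y1 * (h + 64) := by
    calc (Yt * h * ai * bi) ^ 3 * (h * (h - 512))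
        = Yt ^ 3 * h ^ 4 * ai ^ 3 * bi ^ 3 * (h - 512) := by ring
      _ = Y1 * (j * h ^ 2) * ((j - 1728) * h ^ 2) * ai ^ 3 * bi ^ 3 * (h - 512) := by
          rw [e3]; ring
      _ = Y1 * (h + 64) * ((h + 256) * ai) ^ 3 * ((h - 512) * bi) ^ 3 := by rw [hj, K1]; ring
      _ = _ := by rw [ha, hb]; ring
  have E4 : (Yt * h * ai * bi) ^ 6 * (h + 256) ^ 6 = Y2 ^ 3 * (h + 64) ^ 3 := by
    calc (Yt * h * ai * bi) ^ 6 * (h + 256) ^ 6
        = ((Yt * h * ai * bi) ^ 2) ^ 3 * (h + 256) ^ 6 := by ring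
      _ = Y2 ^ 3 * (h + 64) ^ 3 * ((h + 256) * ai) ^ 6 := by rw [E2]; ring
      _ = _ := by rw [ha]; ring
  have E5 : (Yt * h * ai * bi) ^ 6 * (h ^ 2 * (h - 512) ^ 2) = Y1 ^ 2 * (h + 64) ^ 2 := by
    calc (Yt * h * ai * bi) ^ 6 * (h ^ 2 * (h - 512) ^ 2)
        = ((Yt * h * ai * bi) ^ 3 * (h * (h - 512))) ^ 2 := by ring
      _ = _ := by rw [E3]; ring
  have E6 : (Y2 * ai ^ 2) ^ 3 * (h + 256) ^ 6 = Y2 ^ 3 := by
    calc (Y2 * ai ^ 2) ^ 3 * (h + 256) ^ 6 = Y2 ^ 3 * ((h + 256) * ai) ^ 6 := by ring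
      _ = _ := by rw [ha]; ring
  refine ⟨E1, E2, E4, E5, E6, ?_⟩
  refine mul_left_cancel₀ (pow_ne_zero 2 hc) ?_
  calc (h + 64) ^ 2 * ((Y2 * ai ^ 2) ^ 3 * (h ^ 2 * (h - 512) ^ 2 * (h + 64)))
      = ((h + 64) * (Y2 * ai ^ 2)) ^ 3 * (h ^ 2 * (h - 512) ^ 2) := by ring
    _ = (Yt * h * ai * bi) ^ 6 * (h ^ 2 * (h - 512) ^ 2) := by rw [← E2]; ring
    _ = _ := by rw [E5]; ring

theorem mfh_alg3 {R : Type*} [CommRing R] [IsDomain R]
    (j h θj θh f Yt Y1 Y2 ai bi : R)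
    (hj : j * h ^ 3 = (h + 27) * (h + 243) ^ 3)
    (hθ : θj * h ^ 3 + 3 * j * h ^ 2 * θh =
      ((h + 243) ^ 3 + 3 * (h + 27) * (h + 243) ^ 2) * θh)
    (e1 : Yt * θj = f * j * (j - 1728))
    (e2 : Yt ^ 2 = Y2 * (j - 1728))
    (e3 : Yt ^ 3 = Y1 * j * (j - 1728))
    (ha : (h + 243) * ai = 1) (hb : (h ^ 2 - 486 * h - 19683) * bi = 1) (hh : h ≠ 0) :
    (Yt * h ^ 2 * ai * bi) * θh = f * (h + 27) ∧
    (Yt * h ^ 2 * ai * bi) ^ 3 = (h + 27) * (Y1 * bi) ∧
    (Yt * h ^ 2 * ai * bi) ^ 6 * (h + 243) ^ 6 = Y2 ^ 3 * h ^ 3 ∧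
    (Yt * h ^ 2 * ai * bi) ^ 6 * (h ^ 2 - 486 * h - 19683) ^ 2 = Y1 ^ 2 * (h + 27) ^ 2 ∧
    (Y1 * bi) ^ 2 * (h ^ 2 - 486 * h - 19683) ^ 2 = Y1 ^ 2 ∧
    (Y1 * bi) ^ 2 * ((h + 243) ^ 6 * (h + 27) ^ 2) = Y2 ^ 3 * h ^ 3 := by
  have ha0 : h + 243 ≠ 0 := left_ne_zero_of_mul_eq_one ha
  have hb0 : h ^ 2 - 486 * h - 19683 ≠ 0 := left_ne_zero_of_mul_eq_one hb
  have K1 : (j - 1728) * h ^ 3 = (h ^ 2 - 486 * h - 19683) ^ 2 := by linear_combination hj
  have K2 : θj * h ^ 4 = (h + 243) ^ 2 * (h ^ 2 - 486 * h - 19683) * θh := by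
    linear_combination h * hθ - 3 * θh * hj
  have K3 : Yt * θh * h ^ 2 = f * (h + 27) * (h + 243) * (h ^ 2 - 486 * h - 19683) := by
    have hne : (h + 243) ^ 2 * (h ^ 2 - 486 * h - 19683) * h ≠ 0 :=
      mul_ne_zero (mul_ne_zero (pow_ne_zero 2 ha0) hb0) hh
    refine mul_left_cancel₀ hne ?_
    calc (h + 243) ^ 2 * (h ^ 2 - 486 * h - 19683) * h * (Yt * θh * h ^ 2)
        = Yt * h ^ 3 * ((h + 243) ^ 2 * (h ^ 2 - 486 * h - 19683) * θh) := by ring
      _ = Yt * h ^ 3 * (θj * h ^ 4) := by rw [K2]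
      _ = (Yt * θj) * h ^ 7 := by ring
      _ = f * j * (j - 1728) * h ^ 7 := by rw [e1]
      _ = f * h * (j * h ^ 3) * ((j - 1728) * h ^ 3) := by ring
      _ = f * h * ((h + 27) * (h + 243) ^ 3) * (h ^ 2 - 486 * h - 19683) ^ 2 := by rw [hj, K1]
      _ = _ := by ring
  have E1 : (Yt * h ^ 2 * ai * bi) * θh = f * (h + 27) := by
    calc (Yt * h ^ 2 * ai * bi) * θh = (Yt * θh * h ^ 2) * ai * bi := by ring
      _ = f * (h + 27) * ((h + 243) * ai) * ((h ^ 2 - 486 * h - 19683) * bi) := by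
          rw [K3]; ring
      _ = f * (h + 27) := by rw [ha, hb]; ring
  have E2 : (Yt * h ^ 2 * ai * bi) ^ 2 * (h + 243) ^ 2 = Y2 * h := by
    calc (Yt * h ^ 2 * ai * bi) ^ 2 * (h + 243) ^ 2
        = Yt ^ 2 * h ^ 4 * ((h + 243) * ai) ^ 2 * bi ^ 2 := by ring
      _ = Y2 * h * ((j - 1728) * h ^ 3) * bi ^ 2 := by rw [e2, ha]; ring
      _ = Y2 * h * ((h ^ 2 - 486 * h - 19683) * bi) ^ 2 := by rw [K1]; ring
      _ = _ := by rw [hb]; ring
  have E3 : (Yt * h ^ 2 * ai * bi) ^ 3 = (h + 27) * (Y1 * bi) := by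
    calc (Yt * h ^ 2 * ai * bi) ^ 3 = Yt ^ 3 * h ^ 6 * ai ^ 3 * bi ^ 3 := by ring
      _ = Y1 * (j * h ^ 3) * ((j - 1728) * h ^ 3) * ai ^ 3 * bi ^ 3 := by rw [e3]; ring
      _ = (h + 27) * (Y1 * bi) * ((h + 243) * ai) ^ 3 *
            ((h ^ 2 - 486 * h - 19683) * bi) ^ 2 := by rw [hj, K1]; ring
      _ = _ := by rw [ha, hb]; ring
  have E4 : (Yt * h ^ 2 * ai * bi) ^ 6 * (h + 243) ^ 6 = Y2 ^ 3 * h ^ 3 := by
    calc (Yt * h ^ 2 * ai * bi) ^ 6 * (h + 243) ^ 6
        = ((Yt * h ^ 2 * ai * bi) ^ 2 * (h + 243) ^ 2) ^ 3 := by ring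
      _ = _ := by rw [E2]; ring
  have E6 : (Y1 * bi) ^ 2 * (h ^ 2 - 486 * h - 19683) ^ 2 = Y1 ^ 2 := by
    calc (Y1 * bi) ^ 2 * (h ^ 2 - 486 * h - 19683) ^ 2
        = Y1 ^ 2 * ((h ^ 2 - 486 * h - 19683) * bi) ^ 2 := by ring
      _ = _ := by rw [hb]; ring
  have E5 : (Yt * h ^ 2 * ai * bi) ^ 6 * (h ^ 2 - 486 * h - 19683) ^ 2
      = Y1 ^ 2 * (h + 27) ^ 2 := by
    calc (Yt * h ^ 2 * ai * bi) ^ 6 * (h ^ 2 - 486 * h - 19683) ^ 2
        = ((Yt * h ^ 2 * ai * bi) ^ 3) ^ 2 * (h ^ 2 - 486 * h - 19683) ^ 2 := by ring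
      _ = (h + 27) ^ 2 * ((Y1 * bi) ^ 2 * (h ^ 2 - 486 * h - 19683) ^ 2) := by rw [E3]; ring
      _ = _ := by rw [E6]; ring
  refine ⟨E1, E3, E4, E5, E6, ?_⟩
  calc (Y1 * bi) ^ 2 * ((h + 243) ^ 6 * (h + 27) ^ 2)
      = ((h + 27) * (Y1 * bi)) ^ 2 * (h + 243) ^ 6 := by ring
    _ = (Yt * h ^ 2 * ai * bi) ^ 6 * (h + 243) ^ 6 := by rw [← E3]; ring
    _ = _ := E4

/-! ### units of `ℤ((q))` -/

theorem mfh_isUnit_qinv : IsUnit hmQinv :=
  IsUnit.of_mul_eq_one _ hmQinv_mul_X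

theorem mfh_isUnit_phi {u : PowerSeries ℤ} (hu : PowerSeries.constantCoeff u = 1) :
    IsUnit (hmPhi u) := by
  refine IsUnit.map hmPhi ?_
  rw [PowerSeries.isUnit_iff_constantCoeff, hu]
  exact isUnit_one

theorem mfh_isUnit (n : ℕ) {u : PowerSeries ℤ} (hu : PowerSeries.constantCoeff u = 1) :
    IsUnit (hmQinv ^ n * hmPhi u) :=
  (mfh_isUnit_qinv.pow n).mul (mfh_isUnit_phi hu)

theorem mfh_lin2 (c : ℤ) :
    hm2Z + (c : LaurentSeries ℤ) =
      hmQinv ^ 1 * hmPhi (hm2U + (c : PowerSeries ℤ) * PowerSeries.X) := by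
  rw [pow_one, map_add, map_mul, mul_add, ← hm2Z, mul_left_comm, hmQinv_mul_X, mul_one,
    map_intCast]

theorem mfh_lin3 (c : ℤ) :
    hm3Z + (c : LaurentSeries ℤ) =
      hmQinv ^ 1 * hmPhi (hm3U + (c : PowerSeries ℤ) * PowerSeries.X) := by
  rw [pow_one, map_add, map_mul, mul_add, ← hm3Z, mul_left_comm, hmQinv_mul_X, mul_one,
    map_intCast]

theorem mfh_isUnit_lin2 (c : ℤ) : IsUnit (hm2Z + (c : LaurentSeries ℤ)) := by
  rw [mfh_lin2]
  exact mfh_isUnit 1 (by simp [constantCoeff_hm2U])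

theorem mfh_isUnit_lin3 (c : ℤ) : IsUnit (hm3Z + (c : LaurentSeries ℤ)) := by
  rw [mfh_lin3]
  exact mfh_isUnit 1 (by simp [constantCoeff_hm3U])

theorem mfh_isUnit_Q : IsUnit (hm3Z ^ 2 - 486 * hm3Z - 19683) := by
  have h : hm3Z ^ 2 - 486 * hm3Z - 19683 = hmQinv ^ 2 * hmPhi (hm3U ^ 2 -
      PowerSeries.C (486 : ℤ) * PowerSeries.X * hm3U -
        PowerSeries.C (19683 : ℤ) * PowerSeries.X ^ 2) := by
    have hX := hmQinv_mul_X
    simp only [map_sub, map_mul, map_pow, map_ofNat, hm3Z]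
    linear_combination (486 * hmQinv * hmPhi hm3U + 19683 * (hmQinv * hmPhi PowerSeries.X + 1)) * hX
  rw [h]
  exact mfh_isUnit 2 (by simp [constantCoeff_hm3U])


/-! ### the derivative of the modular equations -/

theorem mfh_theta_ofNat (n : ℕ) [n.AtLeastTwo] :
    thetaFun (OfNat.ofNat n : LaurentSeries ℤ) = 0 := by
  rw [← map_ofNat (HahnSeries.C (Γ := ℤ) (R := ℤ)) n]
  exact thetaFun_C _

theorem mfh_theta2 :
    thetaFun (jqModC ℤ) * hm2Z ^ 2 + 2 * jqModC ℤ * hm2Z * thetaFun hm2Z =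
      3 * (hm2Z + 256) ^ 2 * thetaFun hm2Z := by
  have h := congrArg thetaFun hm2Z_j
  rw [thetaFun_mul, thetaFun_pow, thetaFun_pow, thetaFun_add, mfh_theta_ofNat, add_zero] at h
  simp only [Nat.cast_ofNat, Nat.reduceSub, pow_one] at h
  linear_combination h

theorem mfh_theta3 :
    thetaFun (jqModC ℤ) * hm3Z ^ 3 + 3 * jqModC ℤ * hm3Z ^ 2 * thetaFun hm3Z =
      ((hm3Z + 243) ^ 3 + 3 * (hm3Z + 27) * (hm3Z + 243) ^ 2) * thetaFun hm3Z := by
  have h := congrArg thetaFun hm3Z_j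
  rw [thetaFun_mul, thetaFun_pow, thetaFun_mul, thetaFun_pow, thetaFun_add, thetaFun_add,
    mfh_theta_ofNat, mfh_theta_ofNat, add_zero] at h
  simp only [Nat.cast_ofNat, Nat.reduceSub] at h
  linear_combination h

/-! ### the integral closure of `ℚ̄[j]` in `ℚ̄((q))` -/

theorem mfh_intJ_aeval (p : Polynomial Kb) : IntJ jBar (Polynomial.aeval jBar p) :=
  ⟨Polynomial.X - Polynomial.C p, Polynomial.monic_X_sub_C p, by
    rw [Polynomial.eval₂_sub, Polynomial.eval₂_X, Polynomial.eval₂_C]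
    exact sub_self _⟩

/-- the integral closure of `ℚ̄[j]` in `ℚ̄((q))` -/
def mfhB : Subalgebra Kb (LaurentSeries Kb) where
  carrier := {z | IntJ jBar z}
  mul_mem' := fun ha hb => RingHom.IsIntegralElem.mul _ ha hb
  add_mem' := fun ha hb => RingHom.IsIntegralElem.add _ ha hb
  algebraMap_mem' := fun c => by
    have h := mfh_intJ_aeval (Polynomial.C c)
    rw [Polynomial.aeval_C] at h
    exact h

theorem mfh_mem_B {z : LaurentSeries Kb} : z ∈ mfhB ↔ IntJ jBar z := Iff.rfl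

theorem mfh_j_mem : jBar ∈ mfhB := by
  have h := mfh_intJ_aeval Polynomial.X
  rw [Polynomial.aeval_X] at h
  exact h

theorem mfh_of_pow {y : LaurentSeries Kb} {n : ℕ} (hn : 0 < n) (h : y ^ n ∈ mfhB) :
    y ∈ mfhB := by
  let _ : Algebra (Polynomial Kb) (LaurentSeries Kb) :=
    (Polynomial.aeval jBar).toRingHom.toAlgebra
  exact IsIntegral.of_pow hn h

theorem mfh_h2_mem : hm2 Kb ∈ mfhB := by
  refine ⟨Polynomial.X ^ 3 + (Polynomial.C (768 - Polynomial.X) * Polynomial.X ^ 2 +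
    Polynomial.C 196608 * Polynomial.X + Polynomial.C 16777216),
    Polynomial.monic_X_pow_add (lt_of_le_of_lt Polynomial.degree_quadratic_le (by norm_num)), ?_⟩
  have h := hm2_j Kb
  rw [← hmMem_jBar_eq] at h
  simp only [Polynomial.eval₂_add, Polynomial.eval₂_mul, Polynomial.eval₂_pow,
    Polynomial.eval₂_X, Polynomial.eval₂_C]
  simp only [AlgHom.toRingHom_eq_coe, RingHom.coe_coe, map_sub, map_ofNat, Polynomial.aeval_X]
  linear_combination -h

theorem mfh_h3_mem : hm3 Kb ∈ mfhB := by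
  refine ⟨Polynomial.X ^ 4 + (Polynomial.C (756 - Polynomial.X) * Polynomial.X ^ 3 +
    Polynomial.C 196830 * Polynomial.X ^ 2 + Polynomial.C 19131876 * Polynomial.X +
    Polynomial.C 387420489),
    Polynomial.monic_X_pow_add (lt_of_le_of_lt Polynomial.degree_cubic_le (by norm_num)), ?_⟩
  have h := hm3_j Kb
  rw [← hmMem_jBar_eq] at h
  simp only [Polynomial.eval₂_add, Polynomial.eval₂_mul, Polynomial.eval₂_pow,
    Polynomial.eval₂_X, Polynomial.eval₂_C]
  simp only [AlgHom.toRingHom_eq_coe, RingHom.coe_coe, map_sub, map_ofNat, Polynomial.aeval_X]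
  linear_combination -h

theorem mfh_bezout {y : LaurentSeries Kb} {p q : mfhB} (hc : IsCoprime p q)
    (h1 : y * (p : LaurentSeries Kb) ∈ mfhB) (h2 : y * (q : LaurentSeries Kb) ∈ mfhB) :
    y ∈ mfhB := by
  obtain ⟨u, v, huv⟩ := hc
  have h : (u : LaurentSeries Kb) * p + v * q = 1 := by
    have := congrArg (Subtype.val) huv
    simpa using this
  have e : y = u * (y * p) + v * (y * q) := by linear_combination (-y) * h
  rw [e]
  exact add_mem (mul_mem u.2 h1) (mul_mem v.2 h2)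

theorem mfh_coprime {A : Type*} [CommRing A] [Algebra Kb A] (x y z : A) (n : ℤ) (hn : n ≠ 0)
    (h : y = z * x + (n : A)) : IsCoprime x y := by
  have hu : (n : A) * algebraMap Kb A ((n : Kb)⁻¹) = 1 := by
    rw [← map_intCast (algebraMap Kb A) n, ← map_mul,
      mul_inv_cancel₀ (Int.cast_ne_zero.mpr hn), map_one]
  refine ⟨-(algebraMap Kb A ((n : Kb)⁻¹) * z), algebraMap Kb A ((n : Kb)⁻¹), ?_⟩
  rw [h]
  linear_combination hu



/-! ### transport to `ℚ̄((q))` -/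

/-- the coefficient map `ℤ((q)) → ℚ̄((q))` -/
abbrev mfhPhi : LaurentSeries ℤ →+* LaurentSeries Kb := coeffMap (Int.castRingHom Kb)

theorem mfh_phi_h2 : mfhPhi hm2Z = hm2 Kb := rfl

theorem mfh_phi_h3 : mfhPhi hm3Z = hm3 Kb := rfl

theorem mfh_inv_mem (F : IntermediateField Kb (LaurentSeries Kb)) {x xi : LaurentSeries ℤ}
    (hx : x * xi = 1) (hm : mfhPhi x ∈ F) : mfhPhi xi ∈ F := by
  have h := congrArg mfhPhi hx
  rw [map_mul, map_one] at h
  rw [eq_inv_of_mul_eq_one_right h]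
  exact inv_mem hm

theorem mfh_int_of_two {y P P' : LaurentSeries Kb} {p q : mfhB} {n : ℕ} (hn : 0 < n)
    (hc : IsCoprime p q) (h1 : y ^ n * mfhB.val p = P)
    (h2 : y ^ n * mfhB.val q = P') (hP : P ∈ mfhB) (hP' : P' ∈ mfhB) :
    y ∈ mfhB :=
  mfh_of_pow hn (mfh_bezout hc (h1 ▸ hP) (h2 ▸ hP'))

theorem mfh_case2 (N : ℕ) [NeZero N] (h2 : 2 ∣ N) (hMF : StmtMF N) : StmtMFh N 2 := by
  intro f z hz
  obtain ⟨Yt, Y1, Y2, e1, e2, e3, ⟨mt, ct⟩, ⟨m1, c1⟩, ⟨m2, c2⟩⟩ := hMF f z hz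
  obtain ⟨ai, hai⟩ := (mfh_isUnit_lin2 256).exists_right_inv
  obtain ⟨bi, hbi⟩ := (mfh_isUnit_lin2 (-512)).exists_right_inv
  have ha : (hm2Z + 256) * ai = 1 := by
    rw [← hai]; push_cast; rfl
  have hb : (hm2Z - 512) * bi = 1 := by
    rw [← hbi]; push_cast; rw [sub_eq_add_neg]
  have hh : hm2Z ≠ 0 := by
    have := (mfh_isUnit_lin2 0).ne_zero
    rwa [Int.cast_zero, add_zero] at this
  have hc : hm2Z + 64 ≠ 0 := by
    have := (mfh_isUnit_lin2 64).ne_zero
    rwa [Int.cast_ofNat] at this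
  obtain ⟨E1, E2, E4, E5, E6, E7⟩ := mfh_alg2 (jqModC ℤ) hm2Z (thetaFun (jqModC ℤ))
    (thetaFun hm2Z) (fqZ z) Yt Y1 Y2 ai bi hm2Z_j mfh_theta2 e1 e2 e3 ha hb hh hc
  have hC : auxH 2 - ((auxC 2 : ℤ) : LaurentSeries ℤ) = hm2Z + 64 := by
    rw [auxH_two, auxC_two]; push_cast; rw [sub_neg_eq_add]
  -- memberships
  have hhF : mfhPhi hm2Z ∈ modularFunctionFieldBar N := hm2_mem N h2
  have haF : mfhPhi ai ∈ modularFunctionFieldBar N := by
    refine mfh_inv_mem _ ha ?_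
    rw [map_add, map_ofNat]
    exact add_mem hhF (ofNat_mem _ 256)
  have hbF : mfhPhi bi ∈ modularFunctionFieldBar N := by
    refine mfh_inv_mem _ hb ?_
    rw [map_sub, map_ofNat]
    exact sub_mem hhF (ofNat_mem _ 512)
  -- integrality
  have iY1 : mfhPhi Y1 ∈ mfhB := mfk_intJ_of_cuspRel N c1
  have iY2 : mfhPhi Y2 ∈ mfhB := mfk_intJ_of_cuspRel N c2
  have ih : hm2 Kb ∈ mfhB := mfh_h2_mem
  obtain ⟨hB, hBv⟩ : ∃ hB : mfhB, mfhB.val hB = hm2 Kb := ⟨⟨hm2 Kb, mfh_h2_mem⟩, rfl⟩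
  have k1 : IsCoprime (hB + 256) hB :=
    mfh_coprime _ _ 1 (-256) (by norm_num) (by push_cast; ring)
  have k2 : IsCoprime (hB + 256) (hB - 512) :=
    mfh_coprime _ _ 1 (-768) (by norm_num) (by push_cast; ring)
  have k3 : IsCoprime (hB + 256) (hB + 64) :=
    mfh_coprime _ _ 1 (-192) (by norm_num) (by push_cast; ring)
  have k4 : IsCoprime ((hB + 256) ^ 6) (hB ^ 2 * (hB - 512) ^ 2) :=
    IsCoprime.pow_left (IsCoprime.mul_right k1.pow_right k2.pow_right)
  have k5 : IsCoprime ((hB + 256) ^ 6) (hB ^ 2 * (hB - 512) ^ 2 * (hB + 64)) :=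
    IsCoprime.pow_left (IsCoprime.mul_right (IsCoprime.mul_right k1.pow_right k2.pow_right) k3)
  refine ⟨Yt * hm2Z * ai * bi, Y2 * ai ^ 2, ?_, ?_, ⟨?_, ?_⟩, ⟨?_, ?_⟩⟩
  · rw [hC]; exact E1
  · rw [hC]; exact E2
  · change mfhPhi (Yt * hm2Z * ai * bi) ∈ _
    rw [map_mul, map_mul, map_mul]
    exact mul_mem (mul_mem (mul_mem mt hhF) haF) hbF
  · change mfhPhi (Yt * hm2Z * ai * bi) ∈ mfhB
    refine mfh_int_of_two (n := 6) (by norm_num) k4
      (P := mfhPhi Y2 ^ 3 * (hm2 Kb + 64) ^ 3) (P' := mfhPhi Y1 ^ 2 * (hm2 Kb + 64) ^ 2)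
      ?_ ?_ ?_ ?_
    · have := congrArg mfhPhi E4
      simpa only [map_mul, map_pow, map_add, map_ofNat, mfh_phi_h2, hBv] using this
    · have := congrArg mfhPhi E5
      simpa only [map_mul, map_pow, map_add, map_sub, map_ofNat, mfh_phi_h2, hBv] using this
    · exact mul_mem (pow_mem iY2 3) (pow_mem (add_mem ih (ofNat_mem _ 64)) 3)
    · exact mul_mem (pow_mem iY1 2) (pow_mem (add_mem ih (ofNat_mem _ 64)) 2)
  · change mfhPhi (Y2 * ai ^ 2) ∈ _
    rw [map_mul, map_pow]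
    exact mul_mem m2 (pow_mem haF 2)
  · change mfhPhi (Y2 * ai ^ 2) ∈ mfhB
    refine mfh_int_of_two (n := 3) (by norm_num) k5
      (P := mfhPhi Y2 ^ 3) (P' := mfhPhi Y1 ^ 2) ?_ ?_ (pow_mem iY2 3) (pow_mem iY1 2)
    · have := congrArg mfhPhi E6
      simpa only [map_mul, map_pow, map_add, map_ofNat, mfh_phi_h2, hBv] using this
    · have := congrArg mfhPhi E7
      simpa only [map_mul, map_pow, map_add, map_sub, map_ofNat, mfh_phi_h2, hBv] using this

theorem mfh_case3 (N : ℕ) [NeZero N] (h3 : 3 ∣ N) (hMF : StmtMF N) : StmtMFh N 3 := by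
  intro f z hz
  obtain ⟨Yt, Y1, Y2, e1, e2, e3, ⟨mt, ct⟩, ⟨m1, c1⟩, ⟨m2, c2⟩⟩ := hMF f z hz
  obtain ⟨ai, hai⟩ := (mfh_isUnit_lin3 243).exists_right_inv
  obtain ⟨bi, hb⟩ := mfh_isUnit_Q.exists_right_inv
  have ha : (hm3Z + 243) * ai = 1 := by
    rw [← hai]; push_cast; rfl
  have hh : hm3Z ≠ 0 := by
    have := (mfh_isUnit_lin3 0).ne_zero
    rwa [Int.cast_zero, add_zero] at this
  obtain ⟨E1, E2, E4, E5, E6, E7⟩ := mfh_alg3 (jqModC ℤ) hm3Z (thetaFun (jqModC ℤ))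
    (thetaFun hm3Z) (fqZ z) Yt Y1 Y2 ai bi hm3Z_j mfh_theta3 e1 e2 e3 ha hb hh
  have hC : auxH 3 - ((auxC 3 : ℤ) : LaurentSeries ℤ) = hm3Z + 27 := by
    rw [auxH_three, auxC_three]; push_cast; rw [sub_neg_eq_add]
  -- memberships
  have hhF : mfhPhi hm3Z ∈ modularFunctionFieldBar N := hm3_mem N h3
  have haF : mfhPhi ai ∈ modularFunctionFieldBar N := by
    refine mfh_inv_mem _ ha ?_
    rw [map_add, map_ofNat]
    exact add_mem hhF (ofNat_mem _ 243)
  have hbF : mfhPhi bi ∈ modularFunctionFieldBar N := by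
    refine mfh_inv_mem _ hb ?_
    rw [map_sub, map_sub, map_mul, map_pow, map_ofNat, map_ofNat]
    exact sub_mem (sub_mem (pow_mem hhF 2) (mul_mem (ofNat_mem _ 486) hhF)) (ofNat_mem _ 19683)
  -- integrality
  have iY1 : mfhPhi Y1 ∈ mfhB := mfk_intJ_of_cuspRel N c1
  have iY2 : mfhPhi Y2 ∈ mfhB := mfk_intJ_of_cuspRel N c2
  have ih : hm3 Kb ∈ mfhB := mfh_h3_mem
  obtain ⟨hB, hBv⟩ : ∃ hB : mfhB, mfhB.val hB = hm3 Kb := ⟨⟨hm3 Kb, mfh_h3_mem⟩, rfl⟩
  have k1 : IsCoprime (hB + 243) (hB ^ 2 - 486 * hB - 19683) :=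
    mfh_coprime _ _ (hB - 729) 157464 (by norm_num) (by push_cast; ring)
  have k2 : IsCoprime (hB + 27) (hB ^ 2 - 486 * hB - 19683) :=
    mfh_coprime _ _ (hB - 513) (-5832) (by norm_num) (by push_cast; ring)
  have k4 : IsCoprime ((hB + 243) ^ 6) ((hB ^ 2 - 486 * hB - 19683) ^ 2) :=
    IsCoprime.pow k1
  have k5 : IsCoprime ((hB ^ 2 - 486 * hB - 19683) ^ 2) ((hB + 243) ^ 6 * (hB + 27) ^ 2) :=
    IsCoprime.pow_left (IsCoprime.mul_right k1.symm.pow_right k2.symm.pow_right)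
  refine ⟨Yt * hm3Z ^ 2 * ai * bi, Y1 * bi, ?_, ?_, ⟨?_, ?_⟩, ⟨?_, ?_⟩⟩
  · rw [hC]; exact E1
  · rw [hC]; exact E2
  · change mfhPhi (Yt * hm3Z ^ 2 * ai * bi) ∈ _
    rw [map_mul, map_mul, map_mul, map_pow]
    exact mul_mem (mul_mem (mul_mem mt (pow_mem hhF 2)) haF) hbF
  · change mfhPhi (Yt * hm3Z ^ 2 * ai * bi) ∈ mfhB
    refine mfh_int_of_two (n := 6) (by norm_num) k4
      (P := mfhPhi Y2 ^ 3 * hm3 Kb ^ 3) (P' := mfhPhi Y1 ^ 2 * (hm3 Kb + 27) ^ 2)
      ?_ ?_ ?_ ?_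
    · have := congrArg mfhPhi E4
      simpa only [map_mul, map_pow, map_add, map_ofNat, mfh_phi_h3, hBv] using this
    · have := congrArg mfhPhi E5
      simpa only [map_mul, map_pow, map_add, map_sub, map_ofNat, mfh_phi_h3, hBv] using this
    · exact mul_mem (pow_mem iY2 3) (pow_mem ih 3)
    · exact mul_mem (pow_mem iY1 2) (pow_mem (add_mem ih (ofNat_mem _ 27)) 2)
  · change mfhPhi (Y1 * bi) ∈ _
    rw [map_mul]
    exact mul_mem m1 hbF
  · change mfhPhi (Y1 * bi) ∈ mfhB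
    refine mfh_int_of_two (n := 2) (by norm_num) k5
      (P := mfhPhi Y1 ^ 2) (P' := mfhPhi Y2 ^ 3 * hm3 Kb ^ 3) ?_ ?_ (pow_mem iY1 2)
      (mul_mem (pow_mem iY2 3) (pow_mem ih 3))
    · have := congrArg mfhPhi E6
      simpa only [map_mul, map_pow, map_add, map_sub, map_ofNat, mfh_phi_h3, hBv] using this
    · have := congrArg mfhPhi E7
      simpa only [map_mul, map_pow, map_add, map_sub, map_ofNat, mfh_phi_h3, hBv] using this

/-- piece `aux-MFh`. -/
theorem stmtMFhGlue : StmtMFhGlue := by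
  intro hMF N _ r hr hrN
  rcases hr with rfl | rfl
  · exact mfh_case2 N hrN (hMF N)
  · exact mfh_case3 N hrN (hMF N)

end Fermat.Agent.ES.I2aux

end
end ZBINJ_012_5
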