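/- GENERATED FILE (helper35, build-time optimisation, NOTES/ZB.md): verbatim concatenation of the modules
   Fermat.Agent.ES.I2aux.Plan3
   Fermat.Agent.ES.I2aux.Scale
   Fermat.Agent.ES.I2aux.Line
   Fermat.Agent.ES.I2aux.Link
   Do not edit; do not import together with these modules. -/
import Fermat.Agent.ZB.ES_001
import Fermat.Agent.ZB.ES_023
import Fermat.Agent.ZB.INJ_012
import Fermat.Agent.ZB.S28_002

/-! ### bundled: `Fermat.Agent.ES.I2aux.Plan3` -/
section ZBES_031_0

/-!
# ES / I2aux — interface, part 3: the Hauptmodul line in characteristic `ℓ`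

* `StmtScale` : `j h^b = G(h)` and `z` integral over `k[j]` ⇒ `h^a z` is integral over `k[h]`
  for all large `a` (the coefficients `c(j)` of the relation become polynomials in `h` after
  multiplication by a power of `h`; `Polynomial.scaleRoots`).
* `IsAuxLine k N h`, `StmtAuxLine` : the facts on `h = auxHK k (5 - ℓ)` in characteristic
  `ℓ ∈ {2, 3}`: `h ∈ F_k`, `θ h ≠ 0`, `j h^b = G(h)` (`hm2_j`, `hm3_j`), `h` and `h⁻¹` are
  integral over `k[j]` (the constant term `256³` resp. `27 · 243³` of `G` is a unit in `k`).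
* `StmtSum` : the summands `τ_i(w) τ_i(y) κ`, `κ = θ_Q J / (J (J - 1728))`, of the trace argument:
  constant term `0` for `i ≠ i₀`, and `N · a₀(w f̄)` for `i = i₀` (the same as on the `j`-line).
-/

set_option autoImplicit false
set_option synthInstance.maxHeartbeats 400000

noncomputable section

namespace Fermat.Agent.ES.I2aux

open ModularCurve AlgebraicCurve HahnSeries Fermat.Agent.ES Fermat.Agent.S24 Fermat.Agent.ES.M
open Fermat.Agent.ES.I2 Fermat.Agent.S28.Deriv

/-- **(Scale)** integrality over `k[j]` becomes integrality over `k[h]` after multiplication by a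
power of `h`, if `j h^b` is a polynomial in `h`. -/
def StmtScale : Prop :=
  ∀ (k : Type) [Field k] (j h : LaurentSeries k) (b : ℕ) (G : Polynomial k),
    j * h ^ b = Polynomial.aeval h G →
    ∀ z : LaurentSeries k, IntJ j z → ∃ a : ℕ, ∀ a' : ℕ, a ≤ a' → IntJ h (h ^ a' * z)

/-- the facts on the Hauptmodul `h` of the auxiliary line -/
structure IsAuxLine (k : Type) [Field k] (N : ℕ) [NeZero N] (h : LaurentSeries k) : Prop where
  mem : h ∈ modularFunctionFieldFullC k N
  theta : thetaFun h ≠ 0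
  rel : ∃ (b : ℕ) (G : Polynomial k), jqModC k * h ^ b = Polynomial.aeval h G
  int : IntJ (jqModC k) h
  int_inv : IntJ (jqModC k) h⁻¹

/-- **(Line)** the Hauptmodul of `X₀(5 - ℓ)` in characteristic `ℓ ∈ {2, 3}`. -/
def StmtAuxLine : Prop :=
  ∀ (k : Type) [Field k] (ℓ : ℕ) [Fact ℓ.Prime] [CharP k ℓ] (N : ℕ) [NeZero N],
    (N : k) ≠ 0 → ℓ < 5 → (5 - ℓ) ∣ N → IsAuxLine k N (auxHK k (5 - ℓ))

/-- **(Sum)** the summands of the trace argument (characteristic `ℓ ∤ N`): for `w ∈ W`, a cusp
form `f` with integral `q`-expansion `z`, and `y ∈ F_k` with `y θj̄ = f̄ j̄ (j̄ - 1728)` whose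
images `τ_i y` have `Q`-order `> -N`: with `J = j̄(Q^N)`, the series
`τ_i(w) τ_i(y) θ_Q J / (J (J - 1728))` has constant term `0` for `i ≠ i₀`, and `N · a₀(w f̄)` for
`i = i₀`. -/
def StmtSum (N : ℕ) [NeZero N] (A : ValuationSubring Kb) : Prop :=
  ∀ (τ : Fin (dedekindPsi N) →
      (↥(modularFunctionFieldFullC (kA A) N) →ₐ[kA A] LaurentSeries (kA A)))
    (i₀ : Fin (dedekindPsi N)), IsTau N A τ i₀ →
    ∀ (w : LaurentSeries (kA A)) (hw : InW N A w) (fq : LaurentSeries (kA A))
      (y : ↥(modularFunctionFieldFullC (kA A) N)),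
      (y : LaurentSeries (kA A)) * thetaFun (jqModC (kA A)) =
        fq * jqModC (kA A) * (jqModC (kA A) - 1728) →
      (∀ i, ∀ m : ℤ, m ≤ -(N : ℤ) → (τ i y).coeff m = 0) →
      (∀ i, i ≠ i₀ →
        (τ i ⟨w, hw.1⟩ * τ i y * (thetaFun (qExpand (kA A) N (jqModC (kA A))) /
          (qExpand (kA A) N (jqModC (kA A)) *
            (qExpand (kA A) N (jqModC (kA A)) - 1728)))).coeff 0 = 0) ∧
      (τ i₀ ⟨w, hw.1⟩ * τ i₀ y * (thetaFun (qExpand (kA A) N (jqModC (kA A))) /
          (qExpand (kA A) N (jqModC (kA A)) *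
            (qExpand (kA A) N (jqModC (kA A)) - 1728)))).coeff 0 = (N : kA A) * (w * fq).coeff 0

def StmtSumAll : Prop :=
  ∀ (N : ℕ) [NeZero N] (ℓ : ℕ), ℓ.Prime → ¬ ℓ ∣ N →
    ∀ A : ValuationSubring Kb, A.LiesOverPrime ℓ → StmtSum N A

/-- piece `aux-Sum` -/
def StmtSumGlue : Prop := StmtS2All → StmtSumAll

end Fermat.Agent.ES.I2aux

namespace Fermat.Agent.ES.I2aux

open ModularCurve AlgebraicCurve HahnSeries Fermat.Agent.ES Fermat.Agent.S24 Fermat.Agent.ES.M
open Fermat.Agent.ES.I2 Fermat.Agent.S28.Deriv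

/-- **(Link)** the chain rule between the `h`-line and the `j`-line under an embedding `τ` over
`k(j̄)`: with `e = τ h`, `J = j̄(Q^N)`, `y θj̄ = f̄ j̄ (j̄ - 1728)` and `y_h θh = f̄ (h - c)`:

  `τ(y_h) / (e - c) · θ_Q e = τ(y) · θ_Q J / (J (J - 1728))`.

(`j̄ h^b = G(h)` gives `θj̄ h^(b+1) = (h G'(h) - b G(h)) θh` in `k((q))`, and the same for
`(J, e)` in `k((Q))`; then cancel.) -/
def StmtLink : Prop :=
  ∀ (k : Type) [Field k] (N : ℕ) [NeZero N]
    (τ : ↥(modularFunctionFieldFullC k N) →ₐ[k] LaurentSeries k),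
    τ ⟨jqModC k, jqModC_mem_full k N⟩ = qExpand k N (jqModC k) →
    ∀ (h : LaurentSeries k) (hh : IsAuxLine k N h) (c : k) (fq : LaurentSeries k)
      (y yh : ↥(modularFunctionFieldFullC k N)),
      (y : LaurentSeries k) * thetaFun (jqModC k) = fq * jqModC k * (jqModC k - 1728) →
      (yh : LaurentSeries k) * thetaFun h = fq * (h - HahnSeries.C c) →
      τ yh / (τ ⟨h, hh.mem⟩ - HahnSeries.C c) * thetaFun (τ ⟨h, hh.mem⟩) =
        τ y * (thetaFun (qExpand k N (jqModC k)) /
          (qExpand k N (jqModC k) * (qExpand k N (jqModC k) - 1728)))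

end Fermat.Agent.ES.I2aux

end
end ZBES_031_0

/-! ### bundled: `Fermat.Agent.ES.I2aux.Scale` -/
section ZBES_031_1
/-
ES / I2aux, piece aux-Scale (helper65): integrality over `k[j]` becomes integrality over `k[h]`
after multiplication by a power of `h`, if `j h^b = G(h)`.
-/

set_option autoImplicit false

open Polynomial

namespace Fermat.Agent.ES.I2aux

/-- key step: `h^e c(j)` is a polynomial in `h` for `e ≥ b · deg c` -/
theorem auxScale_key {L : Type*} [CommRing L] {k : Type*} [Field k] [Algebra k L] (j h : L) (b : ℕ)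
    (G : Polynomial k) (hG : j * h ^ b = aeval h G) (D : ℕ) (c : Polynomial k)
    (hc : c.natDegree ≤ D) (e : ℕ) (he : b * D ≤ e) :
    ∃ d : Polynomial k, aeval h d = h ^ e * aeval j c := by
  refine ⟨∑ m ∈ Finset.range (D + 1), C (c.coeff m) * X ^ (e - b * m) * G ^ m, ?_⟩
  have hcs : aeval j c = ∑ m ∈ Finset.range (D + 1), algebraMap k L (c.coeff m) * j ^ m := by
    conv_lhs => rw [c.as_sum_range' (D + 1) (Nat.lt_succ_of_le hc)]
    rw [map_sum]
    refine Finset.sum_congr rfl fun m _ => ?_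
    rw [aeval_monomial]
  rw [map_sum, hcs, Finset.mul_sum]
  refine Finset.sum_congr rfl fun m hm => ?_
  have hm' : b * m ≤ e := le_trans (Nat.mul_le_mul_left b (Nat.lt_succ_iff.1 (Finset.mem_range.1 hm))) he
  rw [map_mul, map_mul, aeval_C, map_pow, map_pow, aeval_X, ← hG, mul_pow, ← pow_mul]
  have : h ^ e = h ^ (e - b * m) * h ^ (b * m) := by
    rw [← pow_add, Nat.sub_add_cancel hm']
  rw [this]
  ring

/-- integrality over `k[j]` becomes integrality over `k[h]` after multiplication by a power of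
`h`, if `j h^b` is a polynomial in `h` (general form) -/
theorem auxScale_general {L : Type*} [CommRing L] [Nontrivial L] {k : Type*} [Field k] [Algebra k L]
    (j h : L) (b : ℕ) (G : Polynomial k) (hG : j * h ^ b = aeval h G) (z : L)
    (hz : ∃ p : Polynomial (Polynomial k), p.Monic ∧ p.eval₂ (aeval j).toRingHom z = 0) :
    ∃ a : ℕ, ∀ a' : ℕ, a ≤ a' →
      ∃ p : Polynomial (Polynomial k), p.Monic ∧ p.eval₂ (aeval h).toRingHom (h ^ a' * z) = 0 := by
  obtain ⟨p, hp, hpz⟩ := hz
  set D : ℕ := p.support.sup fun i => (p.coeff i).natDegree with hD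
  have hDle : ∀ i, (p.coeff i).natDegree ≤ D := by
    intro i
    by_cases hi : i ∈ p.support
    · exact Finset.le_sup (f := fun i => (p.coeff i).natDegree) hi
    · rw [Polynomial.notMem_support_iff.1 hi, natDegree_zero]
      exact Nat.zero_le _
  refine ⟨b * D, fun a' ha' => ?_⟩
  set fj : Polynomial k →+* L := (aeval j).toRingHom with hfj
  set fh : Polynomial k →+* L := (aeval h).toRingHom with hfh
  set P : Polynomial L := scaleRoots (p.map fj) (h ^ a') with hP
  have hmon : (p.map fj).Monic := hp.map fj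
  have hPmon : P.Monic := (monic_scaleRoots_iff _).2 hmon
  have hnat : (p.map fj).natDegree = p.natDegree := hp.natDegree_map fj
  have hPz : P.eval (h ^ a' * z) = 0 := by
    have h1 := scaleRoots_eval₂_mul (p := p.map fj) (RingHom.id L) z (h ^ a')
    rw [RingHom.id_apply, eval₂_id, eval₂_id, eval_map, hpz, mul_zero] at h1
    exact h1
  have hlift : P ∈ lifts fh := by
    rw [lifts_iff_coeff_lifts]
    intro i
    rw [hP, coeff_scaleRoots, coeff_map, hnat]
    rcases lt_trichotomy i p.natDegree with hi | hi | hi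
    · obtain ⟨d, hd⟩ := auxScale_key j h b G hG D (p.coeff i) (hDle i) (a' * (p.natDegree - i))
        (le_trans ha' (Nat.le_mul_of_pos_right _ (Nat.sub_pos_of_lt hi)))
      refine ⟨d, ?_⟩
      show aeval h d = _
      rw [hd, ← pow_mul, mul_comm]
      rfl
    · refine ⟨1, ?_⟩
      rw [hi, hp.coeff_natDegree, Nat.sub_self, pow_zero, map_one, map_one, mul_one]
    · refine ⟨0, ?_⟩
      rw [coeff_eq_zero_of_natDegree_lt hi, map_zero, map_zero, zero_mul]
  obtain ⟨q, hq, -, hqmon⟩ := lifts_and_degree_eq_and_monic hlift hPmon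
  refine ⟨q, hqmon, ?_⟩
  rw [← eval_map, hq]
  exact hPz

/-- piece `aux-Scale` -/
theorem stmtScale : StmtScale := by
  intro k _ j h b G hG z hz
  exact auxScale_general j h b G hG z hz

end Fermat.Agent.ES.I2aux


end ZBES_031_1

/-! ### bundled: `Fermat.Agent.ES.I2aux.Line` -/
section ZBES_031_2

/-!
# ES / I2aux — aux-Line: the Hauptmodul of `X₀(5 - ℓ)` in characteristic `ℓ ∈ {2, 3}`

`stmtAuxLine : StmtAuxLine` (interface `ES/I2aux/Plan3.lean`).

* `ℓ = 3`: `h = hm2 k`, `j h² = (h + 256)³`; in characteristic `3` this reads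
  `h³ - j h² + 1 = 0`, and for `s = h⁻¹`: `s³ - j s + 1 = 0`.
* `ℓ = 2`: `h = hm3 k`, `j h³ = (h + 27) (h + 243)³`; in characteristic `2` this reads
  `h⁴ - j h³ + 1 = 0`, and for `s = h⁻¹`: `s⁴ - j s + 1 = 0`.
-/

set_option autoImplicit false

noncomputable section

namespace Fermat.Agent.ES.I2aux

open ModularCurve AlgebraicCurve HahnSeries Fermat.Agent.ES Fermat.Agent.S24 Fermat.Agent.ES.M
open Fermat.Agent.ES.I2 Fermat.Agent.S28.Deriv Fermat.Agent.INJ

/-- a monic trinomial relation `z ^ n - j z ^ m + 1 = 0`, `m < n`, is an integrality relation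
over `k[j]`. -/
theorem auxLine_intJ_of_trinomial {k : Type*} [Field k] (j z : LaurentSeries k) (n m : ℕ)
    (hmn : m < n) (h : z ^ n - j * z ^ m + 1 = 0) : IntJ j z := by
  have hmon : (Polynomial.X ^ n +
      (-(Polynomial.C (Polynomial.X : Polynomial k) * Polynomial.X ^ m) + 1) :
      Polynomial (Polynomial k)).Monic := by
    refine Polynomial.monic_X_pow_add ?_
    refine lt_of_le_of_lt (Polynomial.degree_add_le _ _) (max_lt ?_ ?_)
    · rw [Polynomial.degree_neg]
      refine lt_of_le_of_lt (Polynomial.degree_C_mul_X_pow_le _ _) ?_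
      exact WithBot.coe_lt_coe.2 hmn
    · refine lt_of_le_of_lt Polynomial.degree_one_le ?_
      exact_mod_cast Nat.zero_lt_of_lt hmn
  refine ⟨_, hmon, ?_⟩
  rw [Polynomial.eval₂_add, Polynomial.eval₂_X_pow, Polynomial.eval₂_add, Polynomial.eval₂_neg,
    Polynomial.eval₂_mul, Polynomial.eval₂_C, Polynomial.eval₂_X_pow, Polynomial.eval₂_one]
  simp only [AlgHom.toRingHom_eq_coe, RingHom.coe_coe, Polynomial.aeval_X]
  rw [← h]
  ring

theorem auxLine_natCast_eq_zero {k : Type*} [Field k] (ℓ : ℕ) [CharP k ℓ] :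
    ((ℓ : ℕ) : LaurentSeries k) = 0 := by
  have h0 : ((ℓ : ℕ) : k) = 0 := CharP.cast_eq_zero k ℓ
  have h1 : ((ℓ : ℕ) : LaurentSeries k) = HahnSeries.C ((ℓ : ℕ) : k) := by
    rw [map_natCast]
  rw [h1, h0, map_zero]

/-- the two integrality relations from `j h² = (h + 256)³` in characteristic `3`. -/
theorem auxLine_rel_two {L : Type*} [Field L] (h3 : (3 : L) = 0) (j h s : L)
    (hrel : j * h ^ 2 = (h + 256) ^ 3) (hinv : h * s = 1) :
    h ^ 3 - j * h ^ 2 + 1 = 0 ∧ s ^ 3 - j * s ^ 1 + 1 = 0 := by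
  have hu : (h + 256) * s = 1 + 256 * s := by rw [add_mul, hinv]
  have e' : j * s = (1 + 256 * s) ^ 3 := by
    calc j * s = j * s * (h * s) ^ 2 := by rw [hinv]; ring
      _ = (j * h ^ 2) * s ^ 3 := by ring
      _ = ((h + 256) * s) ^ 3 := by rw [hrel]; ring
      _ = (1 + 256 * s) ^ 3 := by rw [hu]
  constructor
  · linear_combination (-1 : L) * hrel - (256 * h ^ 2 + 65536 * h + 5592405) * h3
  · linear_combination (-1 : L) * e' - (256 * s + 65536 * s ^ 2 + 5592405 * s ^ 3) * h3

/-- the two integrality relations from `j h³ = (h + 27) (h + 243)³` in characteristic `2`. -/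
theorem auxLine_rel_three {L : Type*} [Field L] (h2 : (2 : L) = 0) (j h s : L)
    (hrel : j * h ^ 3 = (h + 27) * (h + 243) ^ 3) (hinv : h * s = 1) :
    h ^ 4 - j * h ^ 3 + 1 = 0 ∧ s ^ 4 - j * s ^ 1 + 1 = 0 := by
  have hu1 : (h + 27) * s = 1 + 27 * s := by rw [add_mul, hinv]
  have hu2 : (h + 243) * s = 1 + 243 * s := by rw [add_mul, hinv]
  have e' : j * s = (1 + 27 * s) * (1 + 243 * s) ^ 3 := by
    calc j * s = j * s * (h * s) ^ 3 := by rw [hinv]; ring
      _ = (j * h ^ 3) * s ^ 4 := by ring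
      _ = ((h + 27) * s) * ((h + 243) * s) ^ 3 := by rw [hrel]; ring
      _ = (1 + 27 * s) * (1 + 243 * s) ^ 3 := by rw [hu1, hu2]
  constructor
  · linear_combination (-1 : L) * hrel -
      (378 * h ^ 3 + 98415 * h ^ 2 + 9565938 * h + 193710244) * h2
  · linear_combination (-1 : L) * e' -
      (378 * s + 98415 * s ^ 2 + 9565938 * s ^ 3 + 193710244 * s ^ 4) * h2

/-- `ℓ = 3`, `r = 2`. -/
theorem auxLine_two (k : Type) [Field k] [CharP k 3] (N : ℕ) [NeZero N] (hN : (N : k) ≠ 0)
    (h2 : 2 ∣ N) : IsAuxLine k N (hm2 k) := by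
  have h3 : (3 : LaurentSeries k) = 0 := by
    have := auxLine_natCast_eq_zero (k := k) 3
    exact_mod_cast this
  have hrel := hm2_j k
  have hinv : hm2 k * (hm2 k)⁻¹ = 1 := mul_inv_cancel₀ (hm2_ne_zero' k)
  obtain ⟨r1, r2⟩ := auxLine_rel_two h3 _ _ _ hrel hinv
  refine ⟨hm2_mem_full k h2 hN, thetaFun_hm2_ne_zero k,
    ⟨2, (Polynomial.X + Polynomial.C 256) ^ 3, ?_⟩,
    auxLine_intJ_of_trinomial _ _ 3 2 (by norm_num) r1,
    auxLine_intJ_of_trinomial _ _ 3 1 (by norm_num) r2⟩
  rw [hrel]
  simp only [map_pow, map_add, Polynomial.aeval_X, Polynomial.aeval_C]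
  rw [map_ofNat]

/-- `ℓ = 2`, `r = 3`. -/
theorem auxLine_three (k : Type) [Field k] [CharP k 2] (N : ℕ) [NeZero N] (hN : (N : k) ≠ 0)
    (h3 : 3 ∣ N) : IsAuxLine k N (hm3 k) := by
  have h2 : (2 : LaurentSeries k) = 0 := by
    have := auxLine_natCast_eq_zero (k := k) 2
    exact_mod_cast this
  have hrel := hm3_j k
  have hinv : hm3 k * (hm3 k)⁻¹ = 1 := mul_inv_cancel₀ (hm3_ne_zero' k)
  obtain ⟨r1, r2⟩ := auxLine_rel_three h2 _ _ _ hrel hinv
  refine ⟨hm3_mem_full k h3 hN, thetaFun_hm3_ne_zero k,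
    ⟨3, (Polynomial.X + Polynomial.C 27) * (Polynomial.X + Polynomial.C 243) ^ 3, ?_⟩,
    auxLine_intJ_of_trinomial _ _ 4 3 (by norm_num) r1,
    auxLine_intJ_of_trinomial _ _ 4 1 (by norm_num) r2⟩
  rw [hrel]
  simp only [map_mul, map_pow, map_add, Polynomial.aeval_X, Polynomial.aeval_C]
  rw [map_ofNat, map_ofNat]

/-- piece `aux-Line`. -/
theorem stmtAuxLine : StmtAuxLine := by
  intro k _ ℓ hℓ hchar N _ hN h5 hdvd
  have hp := hℓ.out
  have h2 := hp.two_le
  have hcases : ℓ = 2 ∨ ℓ = 3 := by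
    interval_cases ℓ
    · exact Or.inl rfl
    · exact Or.inr rfl
    · exact absurd hp (by decide)
  rcases hcases with rfl | rfl
  · rw [show 5 - 2 = 3 from rfl, auxHK_three] at *
    exact auxLine_three k N hN hdvd
  · rw [show 5 - 3 = 2 from rfl, auxHK_two] at *
    exact auxLine_two k N hN hdvd

end Fermat.Agent.ES.I2aux

end
end ZBES_031_2

/-! ### bundled: `Fermat.Agent.ES.I2aux.Link` -/
section ZBES_031_3
/-
ES / I2aux, piece `aux-Link` (helper83): the chain rule between the `h`-line and the `j`-line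
under an embedding `τ` over `k(j̄)`.

`stmtLink : StmtLink` (`ES/I2aux/Plan3.lean`).

`j̄ h^b = G(h)` gives `θj̄ · h^(b+1) = (h G'(h) - b G(h)) θh` (`auxLink_chain`), in `k((q))` for
`(j̄, h)` and in `k((Q))` for `(J, e) = (τ j̄, τ h)`.  From `y θj̄ = f̄ j̄ (j̄ - 1728)` and
`y_h θh = f̄ (h - c)`: `y (h - c) P = y_h j̄ (j̄ - 1728) h^(b+1)`, `P = h G'(h) - b G(h)`, an identity
in `F_k`; apply `τ` and use the chain rule for `(J, e)`.
-/

set_option autoImplicit false

noncomputable section

namespace Fermat.Agent.ES.I2aux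

open ModularCurve AlgebraicCurve HahnSeries Fermat.Agent.ES Fermat.Agent.S24 Fermat.Agent.ES.M
open Fermat.Agent.ES.I2 Fermat.Agent.S28.Deriv Polynomial

section

variable {k : Type} [Field k]

/-- the chain rule for `j h^b = G(h)`. -/
theorem auxLink_chain (j h : LaurentSeries k) (b : ℕ) (G : Polynomial k)
    (hG : j * h ^ b = Polynomial.aeval h G) :
    thetaFun j * h ^ (b + 1) =
      (h * Polynomial.aeval h (derivative G) - (b : LaurentSeries k) * Polynomial.aeval h G) *
        thetaFun h := by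
  have h1 := congrArg thetaFun hG
  rw [thetaFun_mul, thetaFun_pow, thetaFun_aeval] at h1
  have h2 : h * h ^ (b - 1) * (b : LaurentSeries k) = (b : LaurentSeries k) * h ^ b := by
    rcases Nat.eq_zero_or_pos b with rfl | hb
    · simp
    · have : h * h ^ (b - 1) = h ^ b := by
        rw [← pow_succ', Nat.sub_add_cancel hb]
      rw [this, mul_comm]
  have h3 : thetaFun j * h ^ (b + 1) =
      h * (j * ((b : LaurentSeries k) * h ^ (b - 1) * thetaFun h) + h ^ b * thetaFun j) -
        j * (h * h ^ (b - 1) * (b : LaurentSeries k)) * thetaFun h := by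
    rw [pow_succ]
    ring
  rw [h3, h1, h2, ← hG]
  ring

end

/-- piece `aux-Link`. -/
theorem stmtLink : StmtLink := by
  intro k _ N _ τ hτj h hh c fq y yh hy hyh
  obtain ⟨b, G, hG⟩ := hh.rel
  have hθ := hh.theta
  set j := jqModC k with hjdef
  have hjm : j ∈ modularFunctionFieldFullC k N := jqModC_mem_full k N
  -- nonvanishing
  have hj0 : j ≠ 0 := jqModC_ne_zero_of_nontrivial k
  have hjtr : Transcendental k j := Fermat.Agent.S28.red_transcendental_jqModC k
  have hj1 : j - 1728 ≠ 0 := by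
    intro h0
    have h1 : Polynomial.aeval j (X - Polynomial.C (1728 : k)) = 0 := by
      rw [map_sub, Polynomial.aeval_X, Polynomial.aeval_C, map_ofNat]
      exact h0
    have h2 := transcendental_iff.mp hjtr _ h1
    exact Polynomial.X_sub_C_ne_zero (1728 : k) h2
  have hh0 : h ≠ 0 := by
    rintro rfl
    exact hθ thetaFun_zero
  have hhc : h - HahnSeries.C c ≠ 0 := by
    intro h0
    apply hθ
    rw [sub_eq_zero.mp h0]
    exact thetaFun_C c
  -- the elements of `F_k`
  let hF : ↥(modularFunctionFieldFullC k N) := ⟨h, hh.mem⟩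
  let jF : ↥(modularFunctionFieldFullC k N) := ⟨j, hjm⟩
  set e := τ hF with he
  set J := qExpand k N j with hJ
  have hτC : ∀ a : k, τ (algebraMap k _ a) = HahnSeries.C a := fun a => by
    rw [AlgHom.commutes, algebraMap_eq_C]
  have hcoeC : ∀ a : k, ((algebraMap k ↥(modularFunctionFieldFullC k N) a :
      ↥(modularFunctionFieldFullC k N)) : LaurentSeries k) = HahnSeries.C a := fun a => by
    rw [← algebraMap_eq_C]
    rfl
  -- the chain rules
  have hch := auxLink_chain j h b G hG
  have hGe : J * e ^ b = Polynomial.aeval e G := by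
    have h1 : jF * hF ^ b = Polynomial.aeval hF G := by
      apply Subtype.ext
      have h2 : ((Polynomial.aeval hF G : ↥(modularFunctionFieldFullC k N)) : LaurentSeries k) =
          Polynomial.aeval h G := by
        have := Polynomial.aeval_algHom_apply (modularFunctionFieldFullC k N).val hF G
        exact this.symm
      rw [h2, ← hG]
      rfl
    have h3 := congrArg τ h1
    rw [map_mul, map_pow, ← Polynomial.aeval_algHom_apply, hτj] at h3
    exact h3
  have hche := auxLink_chain J e b G hGe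
  -- the identity in `F_k`
  have hI : (y : LaurentSeries k) * (h - HahnSeries.C c) *
      (h * Polynomial.aeval h (derivative G) - (b : LaurentSeries k) * Polynomial.aeval h G) =
      (yh : LaurentSeries k) * j * (j - 1728) * h ^ (b + 1) := by
    apply mul_right_cancel₀ hθ
    have e1 : (y : LaurentSeries k) * (h - HahnSeries.C c) *
        (h * Polynomial.aeval h (derivative G) - (b : LaurentSeries k) * Polynomial.aeval h G) *
        thetaFun h = (y : LaurentSeries k) * thetaFun j * (h - HahnSeries.C c) * h ^ (b + 1) := by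
      rw [mul_assoc, ← hch]
      ring
    have e2 : (yh : LaurentSeries k) * j * (j - 1728) * h ^ (b + 1) * thetaFun h =
        (yh : LaurentSeries k) * thetaFun h * (j * (j - 1728)) * h ^ (b + 1) := by ring
    rw [e1, e2, hy, hyh]
    ring
  have hIF : y * (hF - algebraMap k _ c) *
      (hF * Polynomial.aeval hF (derivative G) - (b : ↥(modularFunctionFieldFullC k N)) *
        Polynomial.aeval hF G) = yh * jF * (jF - 1728) * hF ^ (b + 1) := by
    apply Subtype.ext
    have hae : ∀ P : Polynomial k,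
        ((Polynomial.aeval hF P : ↥(modularFunctionFieldFullC k N)) : LaurentSeries k) =
          Polynomial.aeval h P := fun P =>
      (Polynomial.aeval_algHom_apply (modularFunctionFieldFullC k N).val hF P).symm
    have hnat : (((b : ↥(modularFunctionFieldFullC k N)) :
        ↥(modularFunctionFieldFullC k N)) : LaurentSeries k) = (b : LaurentSeries k) :=
      map_natCast (modularFunctionFieldFullC k N).val b
    have h1728 : (((1728 : ↥(modularFunctionFieldFullC k N)) :
        ↥(modularFunctionFieldFullC k N)) : LaurentSeries k) = (1728 : LaurentSeries k) :=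
      map_ofNat (modularFunctionFieldFullC k N).val 1728
    simp only [MulMemClass.coe_mul, AddSubgroupClass.coe_sub, SubmonoidClass.coe_pow, hae, hcoeC,
      hnat, h1728]
    exact hI
  have hτI := congrArg τ hIF
  simp only [map_mul, map_sub, map_pow, hτC, map_natCast, map_ofNat,
    ← Polynomial.aeval_algHom_apply] at hτI
  rw [show τ jF = J from hτj, ← he] at hτI
  -- nonvanishing after `τ`
  have hinj := τ.toRingHom.injective
  have heC : e - HahnSeries.C c ≠ 0 := by
    intro h0
    have h1 : τ (hF - algebraMap k _ c) = 0 := by rw [map_sub, hτC]; exact h0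
    have h2 : hF - algebraMap k _ c = 0 := hinj (by rw [map_zero]; exact h1)
    apply hhc
    have h3 := congrArg Subtype.val h2
    rw [AddSubgroupClass.coe_sub, hcoeC] at h3
    exact h3
  have he0 : e ≠ 0 := by
    intro h0
    have h2 : hF = 0 := hinj (by rw [map_zero]; exact h0)
    exact hh0 (congrArg Subtype.val h2)
  have hJ0 : J ≠ 0 := by
    intro h0
    have h2 : jF = 0 := hinj (by rw [map_zero]; exact hτj.trans h0)
    exact hj0 (congrArg Subtype.val h2)
  have hJ1 : J - 1728 ≠ 0 := by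
    intro h0
    have h1 : τ (jF - 1728) = 0 := by rw [map_sub, map_ofNat, hτj]; exact h0
    have h2 : jF - 1728 = 0 := hinj (by rw [map_zero]; exact h1)
    apply hj1
    have h3 := congrArg Subtype.val h2
    rw [AddSubgroupClass.coe_sub] at h3
    have h1728 : (((1728 : ↥(modularFunctionFieldFullC k N)) :
        ↥(modularFunctionFieldFullC k N)) : LaurentSeries k) = (1728 : LaurentSeries k) :=
      map_ofNat (modularFunctionFieldFullC k N).val 1728
    rw [h1728] at h3
    exact h3
  -- conclusion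
  show τ yh / (e - HahnSeries.C c) * thetaFun e = τ y * (thetaFun J / (J * (J - 1728)))
  rw [div_mul_eq_mul_div, ← mul_div_assoc, div_eq_div_iff heC (mul_ne_zero hJ0 hJ1)]
  apply mul_right_cancel₀ (pow_ne_zero (b + 1) he0)
  have e1 : τ y * thetaFun J * (e - HahnSeries.C c) * e ^ (b + 1) =
      τ y * (e - HahnSeries.C c) * (thetaFun J * e ^ (b + 1)) := by ring
  rw [e1, hche]
  linear_combination (-(thetaFun e)) * hτI

end Fermat.Agent.ES.I2aux

end
end ZBES_031_3
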