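/- GENERATED FILE (helper35, build-time optimisation, NOTES/ZB.md): verbatim concatenation of the modules
   Fermat.Agent.S05.XOnly
   Fermat.Agent.S05.Kernel
   Fermat.Agent.RED.Basic
   Fermat.Agent.RED.Slope
   Do not edit; do not import together with these modules. -/
import Mathlib
import Fermat.Agent.ZB.ES_032

/-! ### bundled: `Fermat.Agent.S05.XOnly` -/
section ZBS05_003_0

/-!
# x-only arithmetic on a Weierstrass curve (S05, piece F1 support)

For affine nonsingular points `P₁ = (x₁, y₁)`, `P₂ = (x₂, y₂)` with `x₁ ≠ x₂` we prove the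
classical formulas for `x(P₁ + P₂) * x(P₁ - P₂)` and `x(P₁ + P₂) + x(P₁ - P₂)`, and the
duplication formula for `x(2P)`.
-/

set_option autoImplicit false

namespace Fermat.Agent.S05

open WeierstrassCurve

variable {K : Type*} [Field K] (W : WeierstrassCurve K)

/-- numerator of `x(P₁+P₂) * x(P₁-P₂)` -/
def xoF (x₁ x₂ : K) : K := (x₁ * x₂) ^ 2 - W.b₄ * (x₁ * x₂) - W.b₆ * (x₁ + x₂) - W.b₈

/-- numerator of `x(P₁+P₂) + x(P₁-P₂)` -/
def xoG (x₁ x₂ : K) : K :=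
  2 * (x₁ * x₂) * (x₁ + x₂) + W.b₂ * (x₁ * x₂) + W.b₄ * (x₁ + x₂) + W.b₆

variable {W}

theorem xo_poly_mul {x₁ y₁ x₂ y₂ a₁ a₂ a₃ a₄ a₆ : K}
    (h₁ : y₁ ^ 2 + a₁ * x₁ * y₁ + a₃ * y₁ = x₁ ^ 3 + a₂ * x₁ ^ 2 + a₄ * x₁ + a₆)
    (h₂ : y₂ ^ 2 + a₁ * x₂ * y₂ + a₃ * y₂ = x₂ ^ 3 + a₂ * x₂ ^ 2 + a₄ * x₂ + a₆) :
    ((y₁ - y₂) ^ 2 + a₁ * (y₁ - y₂) * (x₁ - x₂) - (a₂ + x₁ + x₂) * (x₁ - x₂) ^ 2) *
    ((y₁ + y₂ + a₁ * x₂ + a₃) ^ 2 + a₁ * (y₁ + y₂ + a₁ * x₂ + a₃) * (x₁ - x₂)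
        - (a₂ + x₁ + x₂) * (x₁ - x₂) ^ 2)
    = ((x₁ * x₂) ^ 2 - (2 * a₄ + a₁ * a₃) * (x₁ * x₂) - (a₃ ^ 2 + 4 * a₆) * (x₁ + x₂)
       - (a₁ ^ 2 * a₆ + 4 * a₂ * a₆ - a₁ * a₃ * a₄ + a₂ * a₃ ^ 2 - a₄ ^ 2)) * (x₁ - x₂) ^ 2 := by
  grind

theorem xo_poly_add {x₁ y₁ x₂ y₂ a₁ a₂ a₃ a₄ a₆ : K}
    (h₁ : y₁ ^ 2 + a₁ * x₁ * y₁ + a₃ * y₁ = x₁ ^ 3 + a₂ * x₁ ^ 2 + a₄ * x₁ + a₆)
    (h₂ : y₂ ^ 2 + a₁ * x₂ * y₂ + a₃ * y₂ = x₂ ^ 3 + a₂ * x₂ ^ 2 + a₄ * x₂ + a₆) :
    ((y₁ - y₂) ^ 2 + a₁ * (y₁ - y₂) * (x₁ - x₂) - (a₂ + x₁ + x₂) * (x₁ - x₂) ^ 2) +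
    ((y₁ + y₂ + a₁ * x₂ + a₃) ^ 2 + a₁ * (y₁ + y₂ + a₁ * x₂ + a₃) * (x₁ - x₂)
        - (a₂ + x₁ + x₂) * (x₁ - x₂) ^ 2)
    = 2 * (x₁ * x₂) * (x₁ + x₂) + (a₁ ^ 2 + 4 * a₂) * (x₁ * x₂) + (2 * a₄ + a₁ * a₃) * (x₁ + x₂)
      + (a₃ ^ 2 + 4 * a₆) := by
  grind

/-- `(x₁ - x₂)² · x(P₁ + P₂)` as a polynomial. -/
theorem xo_addX_sq {x₁ y₁ x₂ y₂ : K} (hx : x₁ ≠ x₂) :
    W.toAffine.addX x₁ x₂ ((y₁ - y₂) / (x₁ - x₂)) * (x₁ - x₂) ^ 2 =
      (y₁ - y₂) ^ 2 + W.a₁ * (y₁ - y₂) * (x₁ - x₂) - (W.a₂ + x₁ + x₂) * (x₁ - x₂) ^ 2 := by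
  have hne : x₁ - x₂ ≠ 0 := sub_ne_zero.mpr hx
  simp only [Affine.addX]
  field_simp
  ring

theorem xo_addX_mul {x₁ y₁ x₂ y₂ : K} (h₁ : W.toAffine.Equation x₁ y₁)
    (h₂ : W.toAffine.Equation x₂ y₂) (hx : x₁ ≠ x₂) :
    W.toAffine.addX x₁ x₂ ((y₁ - y₂) / (x₁ - x₂)) *
      W.toAffine.addX x₁ x₂ ((y₁ - W.toAffine.negY x₂ y₂) / (x₁ - x₂)) * (x₁ - x₂) ^ 2
      = xoF W x₁ x₂ := by
  have hne : x₁ - x₂ ≠ 0 := sub_ne_zero.mpr hx
  have hne2 : (x₁ - x₂) ^ 2 ≠ 0 := pow_ne_zero 2 hne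
  rw [Affine.equation_iff] at h₁ h₂
  have e1 := xo_addX_sq (W := W) (y₁ := y₁) (y₂ := y₂) hx
  have e2 := xo_addX_sq (W := W) (y₁ := y₁) (y₂ := W.toAffine.negY x₂ y₂) hx
  have key := xo_poly_mul h₁ h₂
  apply mul_right_cancel₀ hne2
  have : W.toAffine.addX x₁ x₂ ((y₁ - y₂) / (x₁ - x₂)) *
      W.toAffine.addX x₁ x₂ ((y₁ - W.toAffine.negY x₂ y₂) / (x₁ - x₂)) * (x₁ - x₂) ^ 2
      * (x₁ - x₂) ^ 2 =
      (W.toAffine.addX x₁ x₂ ((y₁ - y₂) / (x₁ - x₂)) * (x₁ - x₂) ^ 2) *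
      (W.toAffine.addX x₁ x₂ ((y₁ - W.toAffine.negY x₂ y₂) / (x₁ - x₂)) * (x₁ - x₂) ^ 2) := by
    ring
  rw [this, e1, e2]
  simp only [Affine.negY, xoF, WeierstrassCurve.b₄, WeierstrassCurve.b₆, WeierstrassCurve.b₈]
  rw [← key]
  ring

theorem xo_addX_add {x₁ y₁ x₂ y₂ : K} (h₁ : W.toAffine.Equation x₁ y₁)
    (h₂ : W.toAffine.Equation x₂ y₂) (hx : x₁ ≠ x₂) :
    (W.toAffine.addX x₁ x₂ ((y₁ - y₂) / (x₁ - x₂)) +
      W.toAffine.addX x₁ x₂ ((y₁ - W.toAffine.negY x₂ y₂) / (x₁ - x₂))) * (x₁ - x₂) ^ 2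
      = xoG W x₁ x₂ := by
  rw [Affine.equation_iff] at h₁ h₂
  have e1 := xo_addX_sq (W := W) (y₁ := y₁) (y₂ := y₂) hx
  have e2 := xo_addX_sq (W := W) (y₁ := y₁) (y₂ := W.toAffine.negY x₂ y₂) hx
  have key := xo_poly_add h₁ h₂
  rw [add_mul, e1, e2]
  simp only [Affine.negY, xoG, WeierstrassCurve.b₂, WeierstrassCurve.b₄, WeierstrassCurve.b₆]
  rw [← key]
  ring

end Fermat.Agent.S05

namespace Fermat.Agent.S05

open WeierstrassCurve

variable {K : Type*} [Field K] {W : WeierstrassCurve K}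

theorem xo_poly_dbl {x y a₁ a₂ a₃ a₄ a₆ : K}
    (h : y ^ 2 + a₁ * x * y + a₃ * y = x ^ 3 + a₂ * x ^ 2 + a₄ * x + a₆) :
    ((3 * x ^ 2 + 2 * a₂ * x + a₄ - a₁ * y) ^ 2
      + a₁ * (3 * x ^ 2 + 2 * a₂ * x + a₄ - a₁ * y) * (2 * y + a₁ * x + a₃)
      - (a₂ + x + x) * (2 * y + a₁ * x + a₃) ^ 2)
    = x ^ 4 - (2 * a₄ + a₁ * a₃) * x ^ 2 - 2 * (a₃ ^ 2 + 4 * a₆) * x
       - (a₁ ^ 2 * a₆ + 4 * a₂ * a₆ - a₁ * a₃ * a₄ + a₂ * a₃ ^ 2 - a₄ ^ 2) := by
  grind

theorem xo_poly_psi {x y a₁ a₂ a₃ a₄ a₆ : K}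
    (h : y ^ 2 + a₁ * x * y + a₃ * y = x ^ 3 + a₂ * x ^ 2 + a₄ * x + a₆) :
    (2 * y + a₁ * x + a₃) ^ 2 =
      4 * x ^ 3 + (a₁ ^ 2 + 4 * a₂) * x ^ 2 + 2 * (2 * a₄ + a₁ * a₃) * x + (a₃ ^ 2 + 4 * a₆) := by
  grind

/-- the `2`-division polynomial `Ψ₂²` evaluated at `x` -/
def xoPsi (W : WeierstrassCurve K) (x : K) : K := 4 * x ^ 3 + W.b₂ * x ^ 2 + 2 * W.b₄ * x + W.b₆

/-- the numerator `Φ₂` of the duplication formula evaluated at `x` -/
def xoPhi (W : WeierstrassCurve K) (x : K) : K := x ^ 4 - W.b₄ * x ^ 2 - 2 * W.b₆ * x - W.b₈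

theorem xo_psi_eq {x y : K} (h : W.toAffine.Equation x y) :
    (y - W.toAffine.negY x y) ^ 2 = xoPsi W x := by
  rw [Affine.equation_iff] at h
  have key := xo_poly_psi h
  simp only [Affine.negY, xoPsi, WeierstrassCurve.b₂, WeierstrassCurve.b₄, WeierstrassCurve.b₆]
  rw [← key]
  ring

theorem xo_dblX {x y : K} (h : W.toAffine.Equation x y) (hy : y ≠ W.toAffine.negY x y) :
    W.toAffine.addX x x
      ((3 * x ^ 2 + 2 * W.a₂ * x + W.a₄ - W.a₁ * y) / (y - W.toAffine.negY x y)) * xoPsi W x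
      = xoPhi W x := by
  have hne : y - W.toAffine.negY x y ≠ 0 := sub_ne_zero.mpr hy
  rw [← xo_psi_eq h]
  rw [Affine.equation_iff] at h
  have key := xo_poly_dbl h
  have hpsi : y - W.toAffine.negY x y = 2 * y + W.a₁ * x + W.a₃ := by
    simp only [Affine.negY]; ring
  rw [hpsi] at hne ⊢
  generalize 2 * y + W.a₁ * x + W.a₃ = ψ at hne key ⊢
  simp only [Affine.addX, xoPhi, WeierstrassCurve.b₄, WeierstrassCurve.b₆, WeierstrassCurve.b₈]
  rw [← key]
  field_simp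
  ring

end Fermat.Agent.S05


end ZBS05_003_0

/-! ### bundled: `Fermat.Agent.S05.Kernel` -/
section ZBS05_003_1

/-!
# S05, piece F1: the kernel of reduction has no `n`-torsion for `n` a unit

`Fermat.Agent.S05.no_torsion_of_not_mem`: for a Weierstrass curve with coefficients in a valuation
subring `A` of a field `K` and `n` a unit of `A`, an affine point `P = (x, y)` with `n • P = 0`
has `x ∈ A`.

Proof: x-only induction. If `x ∉ A`, then for all `m`, either `m • P = 0` and `m ∈ 𝔪`, or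
`m • P = (x', y')` is affine and `c := x / x' ∈ A` with `c ≡ m² mod 𝔪`.
-/

set_option autoImplicit false

namespace Fermat.Agent.S05

open WeierstrassCurve

variable {K : Type*} [Field K]

section Points

variable [DecidableEq K] {W : WeierstrassCurve K}

theorem xo_add_sub_points {x₁ y₁ x₂ y₂ : K} (h₁ : W.toAffine.Nonsingular x₁ y₁)
    (h₂ : W.toAffine.Nonsingular x₂ y₂) (hx : x₁ ≠ x₂) :
    ∃ (Xp Yp Xm Ym : K) (hp : W.toAffine.Nonsingular Xp Yp) (hm : W.toAffine.Nonsingular Xm Ym),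
      Affine.Point.some x₁ y₁ h₁ + Affine.Point.some x₂ y₂ h₂ = Affine.Point.some Xp Yp hp ∧
      Affine.Point.some x₁ y₁ h₁ - Affine.Point.some x₂ y₂ h₂ = Affine.Point.some Xm Ym hm ∧
      Xp * Xm * (x₁ - x₂) ^ 2 = xoF W x₁ x₂ ∧ (Xp + Xm) * (x₁ - x₂) ^ 2 = xoG W x₁ x₂ := by
  refine ⟨_, _, _, _, Affine.nonsingular_add h₁ h₂ fun hxy => hx hxy.left,
    Affine.nonsingular_add h₁ ((Affine.nonsingular_neg ..).mpr h₂) fun hxy => hx hxy.left,
    Affine.Point.add_of_X_ne hx, ?_, ?_, ?_⟩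
  · rw [sub_eq_add_neg, Affine.Point.neg_some, Affine.Point.add_of_X_ne hx]
  · rw [Affine.slope_of_X_ne hx, Affine.slope_of_X_ne hx]
    exact xo_addX_mul h₁.1 h₂.1 hx
  · rw [Affine.slope_of_X_ne hx, Affine.slope_of_X_ne hx]
    exact xo_addX_add h₁.1 h₂.1 hx

theorem xo_dbl_points {x y : K} (h : W.toAffine.Nonsingular x y)
    (hy : y ≠ W.toAffine.negY x y) :
    ∃ (X Y : K) (h' : W.toAffine.Nonsingular X Y),
      Affine.Point.some x y h + Affine.Point.some x y h = Affine.Point.some X Y h' ∧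
      X * xoPsi W x = xoPhi W x ∧ xoPsi W x ≠ 0 := by
  refine ⟨_, _, Affine.nonsingular_add h h fun hxy => hy hxy.right,
    Affine.Point.add_self_of_Y_ne hy, ?_, ?_⟩
  · rw [Affine.slope_of_Y_ne rfl hy]
    exact xo_dblX h.1 hy
  · rw [← xo_psi_eq h.1]
    exact pow_ne_zero 2 (sub_ne_zero.mpr hy)

theorem xo_dbl_zero {x y : K} (h : W.toAffine.Nonsingular x y)
    (hy : y = W.toAffine.negY x y) :
    Affine.Point.some x y h + Affine.Point.some x y h = 0 ∧ xoPsi W x = 0 := by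
  refine ⟨Affine.Point.add_self_of_Y_eq hy, ?_⟩
  rw [← xo_psi_eq h.1, sub_eq_zero.mpr hy]
  ring

end Points

section Val

variable (A : ValuationSubring K)

theorem vs_mul_mem_nonunits {a s : K} (ha : a ∈ A) (hs : s ∈ A.nonunits) :
    a * s ∈ A.nonunits := by
  rw [ValuationSubring.mem_nonunits_iff] at hs ⊢
  rw [map_mul]
  exact Right.mul_lt_one_of_le_of_lt ((A.valuation_le_one_iff a).2 ha) hs

theorem vs_mul_mem_nonunits' {a s : K} (hs : s ∈ A.nonunits) (ha : a ∈ A) :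
    s * a ∈ A.nonunits := by
  rw [mul_comm]; exact vs_mul_mem_nonunits A ha hs

theorem vs_nonunits_sub {a b : K} (ha : a ∈ A.nonunits) (hb : b ∈ A.nonunits) :
    a - b ∈ A.nonunits := sub_mem ha hb

theorem vs_nonunits_add {a b : K} (ha : a ∈ A.nonunits) (hb : b ∈ A.nonunits) :
    a + b ∈ A.nonunits := add_mem ha hb

theorem vs_mem_of_nonunits {a : K} (ha : a ∈ A.nonunits) : a ∈ A :=
  A.nonunits_subset ha

theorem vs_one_add {s : K} (hs : s ∈ A.nonunits) :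
    1 + s ≠ 0 ∧ (1 + s) ∈ A ∧ (1 + s)⁻¹ ∈ A := by
  have h1 : A.valuation (1 + s) = 1 :=
    Valuation.map_one_add_of_lt A.valuation (A.mem_nonunits_iff.1 hs)
  have hne : 1 + s ≠ 0 := by
    intro h0
    rw [h0, map_zero] at h1
    exact zero_ne_one h1
  refine ⟨hne, (A.valuation_le_one_iff _).1 h1.le, (A.valuation_le_one_iff _).1 ?_⟩
  rw [map_inv₀, h1, inv_one]

theorem vs_prime {a b : K} (ha : a ∈ A) (hb : b ∈ A) (h : a * b ∈ A.nonunits) :
    a ∈ A.nonunits ∨ b ∈ A.nonunits := by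
  rw [ValuationSubring.mem_nonunits_iff, map_mul] at h
  have h1 := (A.valuation_le_one_iff a).2 ha
  have h2 := (A.valuation_le_one_iff b).2 hb
  by_contra hcon
  rw [not_or, ValuationSubring.mem_nonunits_iff, ValuationSubring.mem_nonunits_iff,
    not_lt, not_lt] at hcon
  have e1 : A.valuation a = 1 := le_antisymm h1 hcon.1
  have e2 : A.valuation b = 1 := le_antisymm h2 hcon.2
  rw [e1, e2] at h
  simp at h

theorem vs_sq_nonunits {a : K} (ha : a ∈ A) (h : a ^ 2 ∈ A.nonunits) : a ∈ A.nonunits := by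
  rw [pow_two] at h
  rcases vs_prime A ha ha h with h | h <;> exact h

theorem vs_inv_of_not_mem {x : K} (hx : x ∉ A) : x ≠ 0 ∧ x⁻¹ ∈ A.nonunits := by
  refine ⟨fun h0 => hx (h0 ▸ A.zero_mem), ?_⟩
  rw [ValuationSubring.inv_mem_nonunits_iff]
  exact Or.inr hx

end Val


section Step

variable (A : ValuationSubring K)

/-- the doubling step: `x ∉ A`, `X = x(2P)` -/
theorem kernel_step_dbl {b₂ b₄ b₆ b₈ : K} (hb₂ : b₂ ∈ A) (hb₄ : b₄ ∈ A)
    (hb₆ : b₆ ∈ A) (hb₈ : b₈ ∈ A) {x X : K} (hx : x ∉ A)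
    (hX : X * (4 * x ^ 3 + b₂ * x ^ 2 + 2 * b₄ * x + b₆) =
      x ^ 4 - b₄ * x ^ 2 - 2 * b₆ * x - b₈)
    (hpsi : 4 * x ^ 3 + b₂ * x ^ 2 + 2 * b₄ * x + b₆ ≠ 0) :
    ∃ c ∈ A, c * X = x ∧ c - 4 ∈ A.nonunits := by
  obtain ⟨hx0, hu⟩ := vs_inv_of_not_mem A hx
  set u := x⁻¹ with hu_def
  have huA : u ∈ A := vs_mem_of_nonunits A hu
  -- φ̃ - 1
  have hs : -(b₄ * u ^ 2) - 2 * b₆ * u ^ 3 - b₈ * u ^ 4 ∈ A.nonunits := by
    have e : -(b₄ * u ^ 2) - 2 * b₆ * u ^ 3 - b₈ * u ^ 4 =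
        (-(b₄ * u) - 2 * b₆ * u ^ 2 - b₈ * u ^ 3) * u := by ring
    rw [e]
    refine vs_mul_mem_nonunits A ?_ hu
    exact sub_mem (sub_mem (neg_mem (mul_mem hb₄ huA))
      (mul_mem (mul_mem (ofNat_mem A 2) hb₆) (pow_mem huA 2))) (mul_mem hb₈ (pow_mem huA 3))
  obtain ⟨hφ0, hφA, hφinv⟩ := vs_one_add A hs
  set φ := 1 + (-(b₄ * u ^ 2) - 2 * b₆ * u ^ 3 - b₈ * u ^ 4) with hφ_def
  have ht : b₂ * u + 2 * b₄ * u ^ 2 + b₆ * u ^ 3 ∈ A.nonunits := by
    have e : b₂ * u + 2 * b₄ * u ^ 2 + b₆ * u ^ 3 = (b₂ + 2 * b₄ * u + b₆ * u ^ 2) * u := by ring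
    rw [e]
    refine vs_mul_mem_nonunits A ?_ hu
    exact add_mem (add_mem hb₂ (mul_mem (mul_mem (ofNat_mem A 2) hb₄) huA))
      (mul_mem hb₆ (pow_mem huA 2))
  set ψ := 4 + (b₂ * u + 2 * b₄ * u ^ 2 + b₆ * u ^ 3) with hψ_def
  have hxu : x * u = 1 := mul_inv_cancel₀ hx0
  have hΦ : x ^ 4 - b₄ * x ^ 2 - 2 * b₆ * x - b₈ = x ^ 4 * φ := by
    have : x ^ 4 * φ = x ^ 4 - b₄ * x ^ 2 * (x * u) ^ 2 - 2 * b₆ * x * (x * u) ^ 3
        - b₈ * (x * u) ^ 4 := by rw [hφ_def]; ring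
    rw [this, hxu]; ring
  have hΨ : 4 * x ^ 3 + b₂ * x ^ 2 + 2 * b₄ * x + b₆ = x ^ 3 * ψ := by
    have : x ^ 3 * ψ = 4 * x ^ 3 + b₂ * x ^ 2 * (x * u) + 2 * b₄ * x * (x * u) ^ 2
        + b₆ * (x * u) ^ 3 := by rw [hψ_def]; ring
    rw [this, hxu]; ring
  have hψA : ψ ∈ A := add_mem (ofNat_mem A 4) (vs_mem_of_nonunits A ht)
  rw [hΦ, hΨ] at hX
  rw [hΨ] at hpsi
  have hψ0 : ψ ≠ 0 := fun h => hpsi (by rw [h, mul_zero])
  refine ⟨ψ * φ⁻¹, mul_mem hψA hφinv, ?_, ?_⟩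
  · -- ψ φ⁻¹ X = x
    have hx3 : x ^ 3 ≠ 0 := pow_ne_zero 3 hx0
    have : X * ψ = x * φ := by
      apply mul_left_cancel₀ hx3
      linear_combination hX
    field_simp
    linear_combination this
  · have e : ψ * φ⁻¹ - 4 = ((b₂ * u + 2 * b₄ * u ^ 2 + b₆ * u ^ 3)
        - 4 * (-(b₄ * u ^ 2) - 2 * b₆ * u ^ 3 - b₈ * u ^ 4)) * φ⁻¹ := by
      field_simp
      rw [hψ_def, hφ_def]; ring
    rw [e]
    exact vs_mul_mem_nonunits' A (sub_mem ht (vs_mul_mem_nonunits A (ofNat_mem A 4) hs)) hφinv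

/-- if `x ∉ A` is the `x`-coordinate of a `2`-torsion point then `2 ∈ 𝔪` -/
theorem kernel_two_of_psi_zero {b₂ b₄ b₆ : K} (hb₂ : b₂ ∈ A) (hb₄ : b₄ ∈ A)
    (hb₆ : b₆ ∈ A) {x : K} (hx : x ∉ A)
    (hpsi : 4 * x ^ 3 + b₂ * x ^ 2 + 2 * b₄ * x + b₆ = 0) : (2 : K) ∈ A.nonunits := by
  obtain ⟨hx0, hu⟩ := vs_inv_of_not_mem A hx
  set u := x⁻¹ with hu_def
  have huA : u ∈ A := vs_mem_of_nonunits A hu
  have ht : b₂ * u + 2 * b₄ * u ^ 2 + b₆ * u ^ 3 ∈ A.nonunits := by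
    have e : b₂ * u + 2 * b₄ * u ^ 2 + b₆ * u ^ 3 = (b₂ + 2 * b₄ * u + b₆ * u ^ 2) * u := by ring
    rw [e]
    refine vs_mul_mem_nonunits A ?_ hu
    exact add_mem (add_mem hb₂ (mul_mem (mul_mem (ofNat_mem A 2) hb₄) huA))
      (mul_mem hb₆ (pow_mem huA 2))
  have hxu : x * u = 1 := mul_inv_cancel₀ hx0
  have h4 : (4 : K) = -(b₂ * u + 2 * b₄ * u ^ 2 + b₆ * u ^ 3) := by
    have : (4 * x ^ 3 + b₂ * x ^ 2 + 2 * b₄ * x + b₆) * u ^ 3 =
        4 * (x * u) ^ 3 + b₂ * u * (x * u) ^ 2 + 2 * b₄ * u ^ 2 * (x * u) + b₆ * u ^ 3 := by ring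
    rw [hpsi, hxu] at this
    linear_combination -this
  have h4' : (2 : K) ^ 2 ∈ A.nonunits := by
    have : (2 : K) ^ 2 = 4 := by norm_num
    rw [this, h4]
    exact neg_mem ht
  exact vs_sq_nonunits A (ofNat_mem A 2) h4'

end Step


section StepGeneric

variable (A : ValuationSubring K)

/-- the generic step of the x-only induction -/
theorem kernel_step_generic {b₂ b₄ b₆ b₈ : K} (hb₂ : b₂ ∈ A) (hb₄ : b₄ ∈ A)
    (hb₆ : b₆ ∈ A) (hb₈ : b₈ ∈ A) {x x₁ Xp Xm c cm : K} (hx : x ∉ A) (hc : c ∈ A)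
    (hcm : cm ∈ A) (hcx : c * x₁ = x) (hcmx : cm * Xm = x) (hne : x₁ ≠ x)
    (hmul : Xp * Xm * (x₁ - x) ^ 2 = (x₁ * x) ^ 2 - b₄ * (x₁ * x) - b₆ * (x₁ + x) - b₈)
    (hadd : (Xp + Xm) * (x₁ - x) ^ 2 =
      2 * (x₁ * x) * (x₁ + x) + b₂ * (x₁ * x) + b₄ * (x₁ + x) + b₆) :
    ∃ cp ∈ A, cp * Xp = x ∧ cp + cm - 2 * (1 + c) ∈ A.nonunits := by
  obtain ⟨hx0, hu⟩ := vs_inv_of_not_mem A hx
  set u := x⁻¹ with hu_def
  have huA : u ∈ A := vs_mem_of_nonunits A hu
  have hxu : x * u = 1 := mul_inv_cancel₀ hx0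
  have hc0 : c ≠ 0 := fun h => hx0 (by rw [← hcx, h, zero_mul])
  have hx₁0 : x₁ ≠ 0 := fun h => hx0 (by rw [← hcx, h, mul_zero])
  have hcm0 : cm ≠ 0 := fun h => hx0 (by rw [← hcmx, h, zero_mul])
  have hXm0 : Xm ≠ 0 := fun h => hx0 (by rw [← hcmx, h, mul_zero])
  have hD : (x₁ - x) ^ 2 ≠ 0 := pow_ne_zero 2 (sub_ne_zero.mpr hne)
  -- e - 1
  have hs : -(b₄ * c * u ^ 2) - b₆ * (c + c ^ 2) * u ^ 3 - b₈ * c ^ 2 * u ^ 4 ∈ A.nonunits := by
    have e : -(b₄ * c * u ^ 2) - b₆ * (c + c ^ 2) * u ^ 3 - b₈ * c ^ 2 * u ^ 4 =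
        (-(b₄ * c * u) - b₆ * (c + c ^ 2) * u ^ 2 - b₈ * c ^ 2 * u ^ 3) * u := by ring
    rw [e]
    refine vs_mul_mem_nonunits A ?_ hu
    exact sub_mem (sub_mem (neg_mem (mul_mem (mul_mem hb₄ hc) huA))
      (mul_mem (mul_mem hb₆ (add_mem hc (pow_mem hc 2))) (pow_mem huA 2)))
      (mul_mem (mul_mem hb₈ (pow_mem hc 2)) (pow_mem huA 3))
  obtain ⟨he0, heA, heinv⟩ := vs_one_add A hs
  set e := 1 + (-(b₄ * c * u ^ 2) - b₆ * (c + c ^ 2) * u ^ 3 - b₈ * c ^ 2 * u ^ 4) with he_def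
  -- g - 2(1+c)
  have ht : b₂ * c * u + b₄ * (c + c ^ 2) * u ^ 2 + b₆ * c ^ 2 * u ^ 3 ∈ A.nonunits := by
    have e' : b₂ * c * u + b₄ * (c + c ^ 2) * u ^ 2 + b₆ * c ^ 2 * u ^ 3 =
        (b₂ * c + b₄ * (c + c ^ 2) * u + b₆ * c ^ 2 * u ^ 2) * u := by ring
    rw [e']
    refine vs_mul_mem_nonunits A ?_ hu
    exact add_mem (add_mem (mul_mem hb₂ hc) (mul_mem (mul_mem hb₄ (add_mem hc (pow_mem hc 2))) huA))
      (mul_mem (mul_mem hb₆ (pow_mem hc 2)) (pow_mem huA 2))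
  set g := 2 * (1 + c) + (b₂ * c * u + b₄ * (c + c ^ 2) * u ^ 2 + b₆ * c ^ 2 * u ^ 3) with hg_def
  have hx₁ : x₁ = x / c := by
    rw [eq_div_iff hc0, mul_comm]; exact hcx
  have hF : ((x₁ * x) ^ 2 - b₄ * (x₁ * x) - b₆ * (x₁ + x) - b₈) * c ^ 2 = x ^ 4 * e := by
    have : x ^ 4 * e = x ^ 4 - b₄ * c * x ^ 2 * (x * u) ^ 2 - b₆ * (c + c ^ 2) * x * (x * u) ^ 3
        - b₈ * c ^ 2 * (x * u) ^ 4 := by rw [he_def]; ring
    rw [this, hxu, hx₁]
    field_simp
  have hG : (2 * (x₁ * x) * (x₁ + x) + b₂ * (x₁ * x) + b₄ * (x₁ + x) + b₆) * c ^ 2 =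
      x ^ 3 * g := by
    have : x ^ 3 * g = 2 * (1 + c) * x ^ 3 + b₂ * c * x ^ 2 * (x * u)
        + b₄ * (c + c ^ 2) * x * (x * u) ^ 2 + b₆ * c ^ 2 * (x * u) ^ 3 := by rw [hg_def]; ring
    rw [this, hxu, hx₁]
    field_simp
  have hF0 : (x₁ * x) ^ 2 - b₄ * (x₁ * x) - b₆ * (x₁ + x) - b₈ ≠ 0 := by
    intro h0
    rw [h0, zero_mul] at hF
    exact mul_ne_zero (pow_ne_zero 4 hx0) he0 hF.symm
  have hXp0 : Xp ≠ 0 := by
    intro h0
    rw [h0, zero_mul, zero_mul] at hmul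
    exact hF0 hmul.symm
  -- key relation: (Xp + Xm) * x * e = Xp * Xm * g
  have key : (Xp + Xm) * (x * e) = Xp * Xm * g := by
    have h1 : (Xp + Xm) * (x ^ 4 * e) * (x₁ - x) ^ 2 = Xp * Xm * (x ^ 3 * g) * (x₁ - x) ^ 2 := by
      rw [← hF, ← hG, ← hmul, ← hadd]; ring
    have h2 := mul_right_cancel₀ hD h1
    apply mul_left_cancel₀ (pow_ne_zero 3 hx0)
    linear_combination h2
  refine ⟨x / Xp, ?_, div_mul_cancel₀ x hXp0, ?_⟩
  · -- x / Xp = g * e⁻¹ - cm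
    have hval : x / Xp = g * e⁻¹ - cm := by
      have hcm' : cm = x / Xm := by rw [eq_div_iff hXm0]; exact hcmx
      rw [hcm']
      field_simp
      linear_combination key
    rw [hval]
    exact sub_mem (mul_mem (add_mem (mul_mem (ofNat_mem A 2) (add_mem A.one_mem hc))
      (vs_mem_of_nonunits A ht)) heinv) hcm
  · have hval : x / Xp + cm - 2 * (1 + c) =
        ((b₂ * c * u + b₄ * (c + c ^ 2) * u ^ 2 + b₆ * c ^ 2 * u ^ 3)
          - 2 * (1 + c) * (-(b₄ * c * u ^ 2) - b₆ * (c + c ^ 2) * u ^ 3 - b₈ * c ^ 2 * u ^ 4))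
          * e⁻¹ := by
      have hcm' : cm = x / Xm := by rw [eq_div_iff hXm0]; exact hcmx
      have h3 : x / Xp + cm = g * e⁻¹ := by
        rw [hcm']
        field_simp
        linear_combination key
      rw [h3]
      field_simp
      rw [hg_def, he_def]; ring
    rw [hval]
    refine vs_mul_mem_nonunits' A (sub_mem ht (vs_mul_mem_nonunits A ?_ hs)) heinv
    exact mul_mem (ofNat_mem A 2) (add_mem A.one_mem hc)

end StepGeneric


section Main

variable {W : WeierstrassCurve K}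

theorem kernel_b_mem (A : ValuationSubring K) (h₁ : W.a₁ ∈ A) (h₂ : W.a₂ ∈ A) (h₃ : W.a₃ ∈ A)
    (h₄ : W.a₄ ∈ A) (h₆ : W.a₆ ∈ A) : W.b₂ ∈ A ∧ W.b₄ ∈ A ∧ W.b₆ ∈ A ∧ W.b₈ ∈ A := by
  refine ⟨?_, ?_, ?_, ?_⟩
  · rw [WeierstrassCurve.b₂]
    exact add_mem (pow_mem h₁ 2) (mul_mem (ofNat_mem A 4) h₂)
  · rw [WeierstrassCurve.b₄]
    exact add_mem (mul_mem (ofNat_mem A 2) h₄) (mul_mem h₁ h₃)
  · rw [WeierstrassCurve.b₆]
    exact add_mem (pow_mem h₃ 2) (mul_mem (ofNat_mem A 4) h₆)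
  · rw [WeierstrassCurve.b₈]
    exact sub_mem (add_mem (sub_mem (add_mem (mul_mem (pow_mem h₁ 2) h₆)
      (mul_mem (mul_mem (ofNat_mem A 4) h₂) h₆)) (mul_mem (mul_mem h₁ h₃) h₄))
      (mul_mem h₂ (pow_mem h₃ 2))) (pow_mem h₄ 2)

variable [DecidableEq K]

/-- The induction predicate: `m • P` is either `0` with `m ∈ 𝔪`, or affine with
`x(P) / x(m • P) ∈ A` congruent to `m²` modulo `𝔪`. -/
def KernelQ (A : ValuationSubring K) (W : WeierstrassCurve K) (x : K)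
    (P : W.toAffine.Point) (m : ℕ) : Prop :=
  (m • P = 0 ∧ (m : K) ∈ A.nonunits) ∨
    ∃ (x' y' : K) (h' : W.toAffine.Nonsingular x' y'), m • P = Affine.Point.some x' y' h' ∧
      ∃ c ∈ A, c * x' = x ∧ c - (m : K) ^ 2 ∈ A.nonunits



theorem kernelQ_step (A : ValuationSubring K) (h₁ : W.a₁ ∈ A) (h₂ : W.a₂ ∈ A) (h₃ : W.a₃ ∈ A)
    (h₄ : W.a₄ ∈ A) (h₆ : W.a₆ ∈ A) {x y : K} (h : W.toAffine.Nonsingular x y) (hx : x ∉ A)
    (m : ℕ) (hm : KernelQ A W x (Affine.Point.some x y h) m)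
    (hm1 : KernelQ A W x (Affine.Point.some x y h) (m + 1)) :
    KernelQ A W x (Affine.Point.some x y h) (m + 2) := by
  obtain ⟨hb₂, hb₄, hb₆, hb₈⟩ := kernel_b_mem A h₁ h₂ h₃ h₄ h₆
  obtain ⟨hx0, hu⟩ := vs_inv_of_not_mem A hx
  have hP2 : (m + 2) • Affine.Point.some x y h =
      (m + 1) • Affine.Point.some x y h + Affine.Point.some x y h := succ_nsmul _ (m + 1)
  have hP0 : m • Affine.Point.some x y h =
      (m + 1) • Affine.Point.some x y h - Affine.Point.some x y h := by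
    rw [succ_nsmul, add_sub_cancel_right]
  have hmA : (m : K) ∈ A := natCast_mem A m
  rcases hm1 with ⟨hz, hsmall⟩ | ⟨x₁, y₁, h₁', hx₁eq, c, hc, hcx, hcc⟩
  · -- (m+1) • P = 0
    right
    refine ⟨x, y, h, by rw [hP2, hz, zero_add], 1, A.one_mem, one_mul x, ?_⟩
    have e : (1 : K) - ((m + 2 : ℕ) : K) ^ 2 = ((m + 1 : ℕ) : K) * (-((m : K) + 3)) := by
      push_cast; ring
    rw [e]
    exact vs_mul_mem_nonunits' A hsmall (neg_mem (add_mem hmA (ofNat_mem A 3)))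
  · by_cases hxx : x₁ = x
    · have hc1 : c = 1 := by
        have : c * x = 1 * x := by rw [one_mul, ← hxx]; exact hxx ▸ hcx
        exact mul_right_cancel₀ hx0 this
      rw [hc1] at hcc
      by_cases hy1 : y₁ = y
      · -- (m+1) • P = P
        have hPP : (m + 1) • Affine.Point.some x y h = Affine.Point.some x y h := by
          rw [hx₁eq]; subst hxx; subst hy1; rfl
        have hm0 : m • Affine.Point.some x y h = 0 := by rw [hP0, hPP, sub_self]
        have hmsmall : (m : K) ∈ A.nonunits := by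
          rcases hm with ⟨-, hs⟩ | ⟨x', y', h', he, -⟩
          · exact hs
          · rw [hm0] at he; exact absurd he.symm (Affine.Point.some_ne_zero h')
        rw [hPP] at hP2
        by_cases hy2 : y = W.toAffine.negY x y
        · obtain ⟨hz, hpsi⟩ := xo_dbl_zero h hy2
          left
          refine ⟨by rw [hP2, hz], ?_⟩
          have h2 := kernel_two_of_psi_zero A hb₂ hb₄ hb₆ hx hpsi
          have e : ((m + 2 : ℕ) : K) = (m : K) + 2 := by push_cast; ring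
          rw [e]
          exact add_mem hmsmall h2
        · obtain ⟨X, Y, h', hadd, hX, hpsi⟩ := xo_dbl_points h hy2
          obtain ⟨c₂, hc₂, hc₂X, hc₂4⟩ := kernel_step_dbl A hb₂ hb₄ hb₆ hb₈ hx hX hpsi
          right
          refine ⟨X, Y, h', by rw [hP2, hadd], c₂, hc₂, hc₂X, ?_⟩
          have e : c₂ - ((m + 2 : ℕ) : K) ^ 2 = (c₂ - 4) - (m : K) * ((m : K) + 4) := by
            push_cast; ring
          rw [e]
          exact sub_mem hc₂4 (vs_mul_mem_nonunits' A hmsmall (add_mem hmA (ofNat_mem A 4)))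
      · -- (m+1) • P = -P
        have hyy : y₁ = W.toAffine.negY x y :=
          (Affine.Y_eq_of_X_eq h₁'.1 h.1 hxx).resolve_left hy1
        have hy2 : y ≠ W.toAffine.negY x y := fun hy2 => hy1 (hyy.trans hy2.symm)
        have hPP : (m + 1) • Affine.Point.some x y h = -Affine.Point.some x y h := by
          rw [hx₁eq, Affine.Point.neg_some]; subst hxx; subst hyy; rfl
        obtain ⟨X, Y, h', hadd, hX, hpsi⟩ := xo_dbl_points h hy2
        obtain ⟨c₂, hc₂, hc₂X, hc₂4⟩ := kernel_step_dbl A hb₂ hb₄ hb₆ hb₈ hx hX hpsi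
        have hX0 : X ≠ 0 := fun h0 => hx0 (by rw [← hc₂X, h0, mul_zero])
        have hm' : m • Affine.Point.some x y h = -Affine.Point.some X Y h' := by
          rw [hP0, hPP, ← hadd, neg_add, sub_eq_add_neg]
        rw [Affine.Point.neg_some] at hm'
        have hcm : c₂ - (m : K) ^ 2 ∈ A.nonunits := by
          rcases hm with ⟨hz, -⟩ | ⟨x', y', h'', he, c', hc', hc'x, hc'm⟩
          · rw [hz] at hm'; exact absurd hm' (Affine.Point.some_ne_zero _).symm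
          · rw [he] at hm'
            injection hm' with hxe hye
            have : c' = c₂ := by
              apply mul_right_cancel₀ hX0
              rw [hc₂X, ← hxe]; exact hc'x
            rw [← this]; exact hc'm
        left
        refine ⟨by rw [hP2, hPP, neg_add_cancel], ?_⟩
        have hsq : ((m + 2 : ℕ) : K) ^ 2 ∈ A.nonunits := by
          have e : ((m + 2 : ℕ) : K) ^ 2 =
              -(2 * (1 - ((m + 1 : ℕ) : K) ^ 2)) - ((c₂ - 4) - (c₂ - (m : K) ^ 2)) := by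
            push_cast; ring
          rw [e]
          exact sub_mem (neg_mem (vs_mul_mem_nonunits A (ofNat_mem A 2) hcc)) (sub_mem hc₂4 hcm)
        exact vs_sq_nonunits A (natCast_mem A _) hsq
    · -- generic case
      obtain ⟨Xp, Yp, Xm, Ym, hp, hm', hadd, hsub, hmul, hsum⟩ := xo_add_sub_points h₁' h hxx
      rw [hx₁eq] at hP2 hP0
      rw [hadd] at hP2
      rw [hsub] at hP0
      rcases hm with ⟨hz, -⟩ | ⟨x', y', h'', he, cm, hcm, hcmx, hcmm⟩
      · rw [hz] at hP0; exact absurd hP0.symm (Affine.Point.some_ne_zero _)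
      · rw [he] at hP0
        injection hP0 with hxe hye
        rw [hxe] at hcmx
        simp only [xoF, xoG] at hmul hsum
        obtain ⟨cp, hcp, hcpX, hcpc⟩ :=
          kernel_step_generic A hb₂ hb₄ hb₆ hb₈ hx hc hcm hcx hcmx hxx hmul hsum
        right
        refine ⟨Xp, Yp, hp, hP2, cp, hcp, hcpX, ?_⟩
        have e : cp - ((m + 2 : ℕ) : K) ^ 2 =
            (cp + cm - 2 * (1 + c)) - (cm - (m : K) ^ 2) + 2 * (c - ((m + 1 : ℕ) : K) ^ 2) := by
          push_cast; ring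
        rw [e]
        exact add_mem (sub_mem hcpc hcmm) (vs_mul_mem_nonunits A (ofNat_mem A 2) hcc)

theorem kernelQ_all (A : ValuationSubring K) (h₁ : W.a₁ ∈ A) (h₂ : W.a₂ ∈ A) (h₃ : W.a₃ ∈ A)
    (h₄ : W.a₄ ∈ A) (h₆ : W.a₆ ∈ A) {x y : K} (h : W.toAffine.Nonsingular x y) (hx : x ∉ A)
    (m : ℕ) : KernelQ A W x (Affine.Point.some x y h) m ∧
      KernelQ A W x (Affine.Point.some x y h) (m + 1) := by
  induction m with
  | zero =>
    refine ⟨Or.inl ⟨zero_nsmul _, ?_⟩, Or.inr ⟨x, y, h, one_nsmul _, 1, A.one_mem, one_mul x, ?_⟩⟩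
    · rw [Nat.cast_zero]; exact zero_mem _
    · have : (1 : K) - ((0 + 1 : ℕ) : K) ^ 2 = 0 := by push_cast; ring
      rw [this]; exact zero_mem _
  | succ m ih =>
    exact ⟨ih.2, kernelQ_step A h₁ h₂ h₃ h₄ h₆ h hx m ih.1 ih.2⟩

/-- **F1**: the kernel of reduction has no `n`-torsion when `n` is a unit of `A`.
If `n • (x, y) = 0` on a Weierstrass curve with coefficients in the valuation subring `A`
and `n` is not in the maximal ideal, then `x ∈ A`. -/
theorem no_torsion_of_not_mem (A : ValuationSubring K) (W : WeierstrassCurve K)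
    (h₁ : W.a₁ ∈ A) (h₂ : W.a₂ ∈ A) (h₃ : W.a₃ ∈ A) (h₄ : W.a₄ ∈ A) (h₆ : W.a₆ ∈ A)
    (n : ℕ) (hn : (n : K) ∉ A.nonunits) {x y : K} (h : W.toAffine.Nonsingular x y)
    (htors : n • (WeierstrassCurve.Affine.Point.some x y h) = 0) : x ∈ A := by
  by_contra hx
  rcases (kernelQ_all A h₁ h₂ h₃ h₄ h₆ h hx n).1 with ⟨-, hs⟩ | ⟨x', y', h', he, -⟩
  · exact hn hs
  · rw [htors] at he
    exact Affine.Point.some_ne_zero h' he.symm

/-- Variant of F1 giving both coordinates: a torsion point of order prime to the residue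
characteristic has integral coordinates. -/
theorem no_torsion_of_not_mem_y (A : ValuationSubring K) (W : WeierstrassCurve K)
    (h₁ : W.a₁ ∈ A) (h₂ : W.a₂ ∈ A) (h₃ : W.a₃ ∈ A) (h₄ : W.a₄ ∈ A) (h₆ : W.a₆ ∈ A)
    (n : ℕ) (hn : (n : K) ∉ A.nonunits) {x y : K} (h : W.toAffine.Nonsingular x y)
    (htors : n • (WeierstrassCurve.Affine.Point.some x y h) = 0) : y ∈ A := by
  have hxA := no_torsion_of_not_mem A W h₁ h₂ h₃ h₄ h₆ n hn h htors
  -- `y` is a root of a monic quadratic with coefficients in `A`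
  by_contra hy
  obtain ⟨hy0, hv⟩ := vs_inv_of_not_mem A hy
  have heq := (Affine.equation_iff _ _).1 h.1
  -- 1 = y⁻¹ * (stuff in A)
  have key : (1 : K) = y⁻¹ * ((x ^ 3 + W.a₂ * x ^ 2 + W.a₄ * x + W.a₆) * y⁻¹
      - W.a₁ * x - W.a₃) := by
    field_simp
    linear_combination heq
  have hmem : y⁻¹ * ((x ^ 3 + W.a₂ * x ^ 2 + W.a₄ * x + W.a₆) * y⁻¹
      - W.a₁ * x - W.a₃) ∈ A.nonunits := by
    refine vs_mul_mem_nonunits' A hv ?_
    exact sub_mem (sub_mem (mul_mem (add_mem (add_mem (add_mem (pow_mem hxA 3)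
      (mul_mem h₂ (pow_mem hxA 2))) (mul_mem h₄ hxA)) h₆) (vs_mem_of_nonunits A hv))
      (mul_mem h₁ hxA)) h₃
  rw [← key] at hmem
  have : A.valuation (1 : K) < 1 := A.mem_nonunits_iff.1 hmem
  rw [map_one] at this
  exact lt_irrefl _ this

end Main

end Fermat.Agent.S05


end ZBS05_003_1

/-! ### bundled: `Fermat.Agent.RED.Basic` -/
section ZBS05_003_2

/-!
# Brick RED: reduction of points at a place of good reduction — basic definitions

`A` is a valuation subring of a field `K`, `W₀` a Weierstrass curve with coefficients in `A`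
whose discriminant is a unit of `A`.  `curveK` is the curve over `K`, `curveRes` the curve over
the residue field of `A`.  We define the reduction map `redPt` on points and prove its first
properties (compatibility with negation, description of the kernel).
-/

set_option autoImplicit false

namespace Fermat.Agent.RED

open WeierstrassCurve

variable {K : Type*} [Field K] (A : ValuationSubring K) (W₀ : WeierstrassCurve A)

/-- The curve over the field `K`. -/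
abbrev curveK : WeierstrassCurve K := W₀.map A.subtype

/-- The reduced curve over the residue field. -/
abbrev curveRes : WeierstrassCurve (IsLocalRing.ResidueField A) :=
  W₀.map (IsLocalRing.residue A)

lemma curveK_a₁ : (curveK A W₀).a₁ = (W₀.a₁ : K) := rfl
lemma curveK_a₂ : (curveK A W₀).a₂ = (W₀.a₂ : K) := rfl
lemma curveK_a₃ : (curveK A W₀).a₃ = (W₀.a₃ : K) := rfl
lemma curveK_a₄ : (curveK A W₀).a₄ = (W₀.a₄ : K) := rfl
lemma curveK_a₆ : (curveK A W₀).a₆ = (W₀.a₆ : K) := rfl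

lemma curveK_a₁_mem : (curveK A W₀).a₁ ∈ A := (W₀.a₁).2
lemma curveK_a₂_mem : (curveK A W₀).a₂ ∈ A := (W₀.a₂).2
lemma curveK_a₃_mem : (curveK A W₀).a₃ ∈ A := (W₀.a₃).2
lemma curveK_a₄_mem : (curveK A W₀).a₄ ∈ A := (W₀.a₄).2
lemma curveK_a₆_mem : (curveK A W₀).a₆ ∈ A := (W₀.a₆).2

/-- On an integral Weierstrass equation, an integral `x` forces an integral `y`. -/
theorem y_mem_of_x_mem {x y : K} (h : (curveK A W₀).toAffine.Equation x y) (hx : x ∈ A) :
    y ∈ A := by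
  by_contra hy
  obtain ⟨hy0, hv⟩ := Fermat.Agent.S05.vs_inv_of_not_mem A hy
  have heq := (Affine.equation_iff _ _).1 h
  have key : (1 : K) = y⁻¹ * ((x ^ 3 + (curveK A W₀).a₂ * x ^ 2 + (curveK A W₀).a₄ * x
      + (curveK A W₀).a₆) * y⁻¹ - (curveK A W₀).a₁ * x - (curveK A W₀).a₃) := by
    field_simp
    linear_combination heq
  have hmem : y⁻¹ * ((x ^ 3 + (curveK A W₀).a₂ * x ^ 2 + (curveK A W₀).a₄ * x
      + (curveK A W₀).a₆) * y⁻¹ - (curveK A W₀).a₁ * x - (curveK A W₀).a₃) ∈ A.nonunits := by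
    refine Fermat.Agent.S05.vs_mul_mem_nonunits' A hv ?_
    exact sub_mem (sub_mem (mul_mem (add_mem (add_mem (add_mem (pow_mem hx 3)
      (mul_mem (curveK_a₂_mem A W₀) (pow_mem hx 2))) (mul_mem (curveK_a₄_mem A W₀) hx))
      (curveK_a₆_mem A W₀)) (Fermat.Agent.S05.vs_mem_of_nonunits A hv))
      (mul_mem (curveK_a₁_mem A W₀) hx)) (curveK_a₃_mem A W₀)
  rw [← key] at hmem
  have : A.valuation (1 : K) < 1 := A.mem_nonunits_iff.1 hmem
  rw [map_one] at this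
  exact lt_irrefl _ this

/-- The equation over `K` at integral coordinates descends to `A`. -/
theorem equation_of_coe {a b : A} (h : (curveK A W₀).toAffine.Equation (a : K) (b : K)) :
    W₀.toAffine.Equation a b :=
  (Affine.map_equation (W := W₀) (f := A.subtype) Subtype.val_injective a b).1 h

variable {A W₀}

/-- Good reduction: the reduced discriminant is nonzero. -/
theorem curveRes_Δ_ne_zero (hΔ : IsUnit W₀.Δ) : (curveRes A W₀).Δ ≠ 0 := by
  rw [WeierstrassCurve.map_Δ]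
  intro h0
  have h1 : IsUnit ((IsLocalRing.residue A) W₀.Δ) := hΔ.map _
  rw [h0] at h1
  exact not_isUnit_zero h1

/-- The reduction of an integral point is a nonsingular point of the reduced curve. -/
theorem nonsingular_res (hΔ : IsUnit W₀.Δ) {a b : A}
    (h : (curveK A W₀).toAffine.Equation (a : K) (b : K)) :
    (curveRes A W₀).toAffine.Nonsingular (IsLocalRing.residue A a) (IsLocalRing.residue A b) :=
  (Affine.equation_iff_nonsingular_of_Δ_ne_zero (curveRes_Δ_ne_zero hΔ)).1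
    ((equation_of_coe A W₀ h).map (IsLocalRing.residue A))

/-- Equality of two `some` points from equality of coordinates. -/
theorem some_congr {F : Type*} [CommRing F] {W : WeierstrassCurve F} {x y x' y' : F}
    (h : W.toAffine.Nonsingular x y) (h' : W.toAffine.Nonsingular x' y')
    (hx : x = x') (hy : y = y') : Affine.Point.some x y h = Affine.Point.some x' y' h' := by
  subst hx; subst hy; rfl

open Classical in
/-- **The reduction map** on points: an affine point with integral `x` goes to its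
coordinatewise reduction, every other point goes to `0`. -/
noncomputable def redPt (hΔ : IsUnit W₀.Δ) :
    (curveK A W₀).toAffine.Point → (curveRes A W₀).toAffine.Point
  | .zero => 0
  | .some x y h =>
    if hx : x ∈ A then
      Affine.Point.some (IsLocalRing.residue A ⟨x, hx⟩)
        (IsLocalRing.residue A ⟨y, y_mem_of_x_mem A W₀ h.1 hx⟩)
        (nonsingular_res hΔ (a := ⟨x, hx⟩) (b := ⟨y, y_mem_of_x_mem A W₀ h.1 hx⟩) h.1)
    else 0

@[simp] theorem redPt_zero (hΔ : IsUnit W₀.Δ) : redPt hΔ (0 : (curveK A W₀).toAffine.Point) = 0 :=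
  rfl

theorem redPt_some_of_mem (hΔ : IsUnit W₀.Δ) {x y : K}
    (h : (curveK A W₀).toAffine.Nonsingular x y) (hx : x ∈ A) :
    redPt hΔ (Affine.Point.some x y h) =
      Affine.Point.some (IsLocalRing.residue A ⟨x, hx⟩)
        (IsLocalRing.residue A ⟨y, y_mem_of_x_mem A W₀ h.1 hx⟩)
        (nonsingular_res hΔ (a := ⟨x, hx⟩) (b := ⟨y, y_mem_of_x_mem A W₀ h.1 hx⟩) h.1) := by
  simp only [redPt, dif_pos hx]

theorem redPt_some_of_not_mem (hΔ : IsUnit W₀.Δ) {x y : K}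
    (h : (curveK A W₀).toAffine.Nonsingular x y) (hx : x ∉ A) :
    redPt hΔ (Affine.Point.some x y h) = 0 := by
  simp only [redPt, dif_neg hx]

/-- Reduction of a point given by elements of `A`. -/
theorem redPt_coe (hΔ : IsUnit W₀.Δ) {a b : A}
    (h : (curveK A W₀).toAffine.Nonsingular (a : K) (b : K)) :
    redPt hΔ (Affine.Point.some (a : K) (b : K) h) =
      Affine.Point.some (IsLocalRing.residue A a) (IsLocalRing.residue A b)
        (nonsingular_res hΔ h.1) := by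
  rw [redPt_some_of_mem hΔ h a.2]

/-- The kernel predicate: `P = 0` or `x(P) ∉ A`. -/
def InKer (P : (curveK A W₀).toAffine.Point) : Prop :=
  match P with
  | .zero => True
  | .some x _ _ => x ∉ A

theorem inKer_zero : InKer (0 : (curveK A W₀).toAffine.Point) := trivial

theorem inKer_some_iff {x y : K} (h : (curveK A W₀).toAffine.Nonsingular x y) :
    InKer (Affine.Point.some x y h) ↔ x ∉ A := Iff.rfl

theorem redPt_eq_zero_iff (hΔ : IsUnit W₀.Δ) (P : (curveK A W₀).toAffine.Point) :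
    redPt hΔ P = 0 ↔ InKer P := by
  rcases P with _ | ⟨x, y, h⟩
  · exact ⟨fun _ => trivial, fun _ => rfl⟩
  · by_cases hx : x ∈ A
    · rw [redPt_some_of_mem hΔ h hx]
      exact ⟨fun h0 => absurd h0 (Affine.Point.some_ne_zero _), fun hk => absurd hx hk⟩
    · rw [redPt_some_of_not_mem hΔ h hx]
      exact ⟨fun _ => hx, fun _ => rfl⟩

theorem inKer_neg {P : (curveK A W₀).toAffine.Point} (hP : InKer P) : InKer (-P) := by
  rcases P with _ | ⟨x, y, h⟩
  · exact hP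
  · exact hP

theorem redPt_neg (hΔ : IsUnit W₀.Δ) (P : (curveK A W₀).toAffine.Point) :
    redPt hΔ (-P) = -redPt hΔ P := by
  rcases P with _ | ⟨x, y, h⟩
  · rfl
  · by_cases hx : x ∈ A
    · have hy : y ∈ A := y_mem_of_x_mem A W₀ h.1 hx
      rw [Affine.Point.neg_some, redPt_some_of_mem hΔ _ hx, redPt_some_of_mem hΔ h hx,
        Affine.Point.neg_some]
      refine some_congr _ _ rfl ?_
      have e : (curveK A W₀).toAffine.negY x y
          = ((W₀.toAffine.negY ⟨x, hx⟩ ⟨y, hy⟩ : A) : K) := by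
        simp only [Affine.negY]
        push_cast
        rfl
      have e2 : (⟨(curveK A W₀).toAffine.negY x y,
          y_mem_of_x_mem A W₀ ((Affine.nonsingular_neg ..).mpr h).1 hx⟩ : A)
          = W₀.toAffine.negY ⟨x, hx⟩ ⟨y, hy⟩ := Subtype.ext e
      rw [e2]
      exact (Affine.map_negY (W' := W₀) (IsLocalRing.residue A) _ _).symm
    · rw [Affine.Point.neg_some, redPt_some_of_not_mem hΔ _ hx, redPt_some_of_not_mem hΔ h hx]
      exact Affine.Point.neg_zero.symm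

end Fermat.Agent.RED


end ZBS05_003_2

/-! ### bundled: `Fermat.Agent.RED.Slope` -/
section ZBS05_003_3

/-!
# Brick RED, step F1: the slope reduces

If `P`, `Q` are integral points whose reductions are not opposite, the slope of the line through
them is integral and reduces to the slope of the line through the reductions; hence
`red (P + Q) = red P + red Q` in this case.
-/

set_option autoImplicit false

namespace Fermat.Agent.RED

open WeierstrassCurve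

variable {K : Type*} [Field K] {A : ValuationSubring K} {W₀ : WeierstrassCurve A}

/-- An element of `A` with nonzero residue has an inverse in `A`. -/
theorem exists_inv_of_residue_ne_zero {d : A} (hd : IsLocalRing.residue A d ≠ 0) :
    ∃ e : A, d * e = 1 := by
  obtain ⟨u, hu⟩ := (IsLocalRing.residue_ne_zero_iff_isUnit d).1 hd
  exact ⟨↑u⁻¹, by rw [← hu]; exact u.mul_inv⟩

/-- Division by a unit of `A`: the quotient in `K` and in the residue field. -/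
theorem div_of_mul_eq_one {n d e : A} (he : d * e = 1) :
    ((n * e : A) : K) = (n : K) / (d : K) ∧
      IsLocalRing.residue A (n * e) = IsLocalRing.residue A n / IsLocalRing.residue A d := by
  have hK : (d : K) * (e : K) = 1 := by exact_mod_cast congrArg (fun z : A => (z : K)) he
  have hd0 : (d : K) ≠ 0 := left_ne_zero_of_mul_eq_one hK
  have hk : IsLocalRing.residue A d * IsLocalRing.residue A e = 1 := by
    rw [← map_mul, he, map_one]
  have hd0' : IsLocalRing.residue A d ≠ 0 := left_ne_zero_of_mul_eq_one hk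
  constructor
  · push_cast
    rw [eq_div_iff hd0, mul_assoc, mul_comm (e : K), hK, mul_one]
  · rw [map_mul, eq_div_iff hd0', mul_assoc, mul_comm (IsLocalRing.residue A e), hk, mul_one]

variable [DecidableEq K] [DecidableEq (IsLocalRing.ResidueField A)]

/-- The secant identity: `(y₁ - y₂)(y₁ - negY x₂ y₂) = (x₁ - x₂) N`. -/
theorem secant_identity {R : Type*} [CommRing R] {W : WeierstrassCurve R} {x₁ y₁ x₂ y₂ : R}
    (h₁ : W.toAffine.Equation x₁ y₁) (h₂ : W.toAffine.Equation x₂ y₂) :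
    (y₁ - y₂) * (y₁ - W.toAffine.negY x₂ y₂) =
      (x₁ - x₂) * (x₁ ^ 2 + x₁ * x₂ + x₂ ^ 2 + W.a₂ * (x₁ + x₂) + W.a₄ - W.a₁ * y₁) := by
  have e₁ := (Affine.equation_iff _ _).1 h₁
  have e₂ := (Affine.equation_iff _ _).1 h₂
  simp only [Affine.negY]
  linear_combination e₁ - e₂

/-- **F1, slope form.**  The slope of two integral points with non-opposite reductions is
integral and reduces to the slope of the reductions. -/
theorem exists_slope {a₁ b₁ a₂ b₂ : A}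
    (h₁ : W₀.toAffine.Equation a₁ b₁) (h₂ : W₀.toAffine.Equation a₂ b₂)
    (hne : ¬(IsLocalRing.residue A a₁ = IsLocalRing.residue A a₂ ∧
      IsLocalRing.residue A b₁ = (curveRes A W₀).toAffine.negY (IsLocalRing.residue A a₂)
        (IsLocalRing.residue A b₂))) :
    ∃ l : A, (l : K) = (curveK A W₀).toAffine.slope (a₁ : K) (a₂ : K) (b₁ : K) (b₂ : K) ∧
      IsLocalRing.residue A l = (curveRes A W₀).toAffine.slope (IsLocalRing.residue A a₁)
        (IsLocalRing.residue A a₂) (IsLocalRing.residue A b₁) (IsLocalRing.residue A b₂) := by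
  have h₁K : (curveK A W₀).toAffine.Equation (a₁ : K) (b₁ : K) := h₁.map A.subtype
  have h₂K : (curveK A W₀).toAffine.Equation (a₂ : K) (b₂ : K) := h₂.map A.subtype
  have h₁k := h₁.map (IsLocalRing.residue A)
  have h₂k := h₂.map (IsLocalRing.residue A)
  by_cases hx : IsLocalRing.residue A a₁ = IsLocalRing.residue A a₂
  · -- same `x` in the residue field, `y₁ ≠ negY`
    have hy : IsLocalRing.residue A b₁ ≠ (curveRes A W₀).toAffine.negY
        (IsLocalRing.residue A a₂) (IsLocalRing.residue A b₂) := fun h => hne ⟨hx, h⟩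
    have hyy : IsLocalRing.residue A b₁ = IsLocalRing.residue A b₂ :=
      Affine.Y_eq_of_Y_ne h₁k h₂k hx hy
    -- the denominator
    set D : A := b₁ - W₀.toAffine.negY a₂ b₂ with hD
    set N : A := a₁ ^ 2 + a₁ * a₂ + a₂ ^ 2 + W₀.a₂ * (a₁ + a₂) + W₀.a₄ - W₀.a₁ * b₁ with hN
    have hDres : IsLocalRing.residue A D = IsLocalRing.residue A b₁ -
        (curveRes A W₀).toAffine.negY (IsLocalRing.residue A a₂) (IsLocalRing.residue A b₂) := by
      rw [hD, map_sub, Affine.map_negY]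
    have hDne : IsLocalRing.residue A D ≠ 0 := by
      rw [hDres]; exact sub_ne_zero.2 hy
    obtain ⟨e, he⟩ := exists_inv_of_residue_ne_zero hDne
    obtain ⟨eK, ek⟩ := div_of_mul_eq_one (K := K) (n := N) he
    have hDK0 : (D : K) ≠ 0 := by
      have hK : (D : K) * (e : K) = 1 := by exact_mod_cast congrArg (fun z : A => (z : K)) he
      exact left_ne_zero_of_mul_eq_one hK
    have hDK : (D : K) = (b₁ : K) - (curveK A W₀).toAffine.negY (a₂ : K) (b₂ : K) := by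
      rw [hD]
      simp only [Affine.negY]
      push_cast
      rfl
    have hNK : (N : K) = (a₁ : K) ^ 2 + (a₁ : K) * (a₂ : K) + (a₂ : K) ^ 2
        + (curveK A W₀).a₂ * ((a₁ : K) + (a₂ : K)) + (curveK A W₀).a₄
        - (curveK A W₀).a₁ * (b₁ : K) := by
      rw [hN]
      push_cast
      rfl
    refine ⟨N * e, ?_, ?_⟩
    · rw [eK]
      by_cases hxK : (a₁ : K) = (a₂ : K)
      · have hyK : (b₁ : K) ≠ (curveK A W₀).toAffine.negY (a₂ : K) (b₂ : K) := by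
          intro h
          apply hDK0
          rw [hDK, h, sub_self]
        have hyyK : (b₁ : K) = (b₂ : K) := Affine.Y_eq_of_Y_ne h₁K h₂K hxK hyK
        rw [Affine.slope_of_Y_ne hxK hyK, hDK, hNK, ← hyyK, ← hxK]
        congr 1
        ring
      · rw [Affine.slope_of_X_ne hxK, div_eq_div_iff hDK0 (sub_ne_zero.2 hxK), hDK, hNK]
        have := secant_identity h₁K h₂K
        linear_combination -this
    · rw [ek, Affine.slope_of_Y_ne hx hy, hDres, ← hyy, ← hx]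
      congr 1
      rw [hN]
      simp only [map_sub, map_add, map_mul, map_pow, ← hx]
      have e₂ : (curveRes A W₀).a₂ = IsLocalRing.residue A W₀.a₂ := rfl
      have e₄ : (curveRes A W₀).a₄ = IsLocalRing.residue A W₀.a₄ := rfl
      have e₁ : (curveRes A W₀).a₁ = IsLocalRing.residue A W₀.a₁ := rfl
      rw [e₁, e₂, e₄]
      ring
  · -- different `x` in the residue field
    have hDne : IsLocalRing.residue A (a₁ - a₂) ≠ 0 := by
      rw [map_sub]; exact sub_ne_zero.2 hx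
    obtain ⟨e, he⟩ := exists_inv_of_residue_ne_zero hDne
    obtain ⟨eK, ek⟩ := div_of_mul_eq_one (K := K) (n := b₁ - b₂) he
    have hxK : (a₁ : K) ≠ (a₂ : K) := by
      intro h
      apply hx
      have : a₁ = a₂ := Subtype.ext h
      rw [this]
    refine ⟨(b₁ - b₂) * e, ?_, ?_⟩
    · rw [eK, Affine.slope_of_X_ne hxK]
      push_cast
      rfl
    · rw [ek, Affine.slope_of_X_ne hx, map_sub, map_sub]

/-- **F1.**  For integral points with non-opposite reductions, reduction commutes with the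
addition. -/
theorem redPt_add_of_ne (hΔ : IsUnit W₀.Δ) {a₁ b₁ a₂ b₂ : A}
    (h₁ : (curveK A W₀).toAffine.Nonsingular (a₁ : K) (b₁ : K))
    (h₂ : (curveK A W₀).toAffine.Nonsingular (a₂ : K) (b₂ : K))
    (hne : ¬(IsLocalRing.residue A a₁ = IsLocalRing.residue A a₂ ∧
      IsLocalRing.residue A b₁ = (curveRes A W₀).toAffine.negY (IsLocalRing.residue A a₂)
        (IsLocalRing.residue A b₂))) :
    redPt hΔ (Affine.Point.some _ _ h₁ + Affine.Point.some _ _ h₂) =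
      redPt hΔ (Affine.Point.some _ _ h₁) + redPt hΔ (Affine.Point.some _ _ h₂) := by
  have e₁ := equation_of_coe A W₀ h₁.1
  have e₂ := equation_of_coe A W₀ h₂.1
  obtain ⟨l, hlK, hlk⟩ := exists_slope (K := K) e₁ e₂ hne
  have hneK : ¬((a₁ : K) = (a₂ : K) ∧ (b₁ : K) = (curveK A W₀).toAffine.negY (a₂ : K) (b₂ : K)) := by
    rintro ⟨hx, hy⟩
    apply hne
    have hx' : a₁ = a₂ := Subtype.ext hx
    have hy' : b₁ = W₀.toAffine.negY a₂ b₂ := by
      apply Subtype.ext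
      rw [hy]
      simp only [Affine.negY]
      push_cast
      rfl
    refine ⟨by rw [hx'], ?_⟩
    rw [hy', Affine.map_negY]
  rw [Affine.Point.add_some hneK, redPt_coe hΔ h₁, redPt_coe hΔ h₂, Affine.Point.add_some hne]
  have hX : (curveK A W₀).toAffine.addX (a₁ : K) (a₂ : K)
      ((curveK A W₀).toAffine.slope (a₁ : K) (a₂ : K) (b₁ : K) (b₂ : K))
      = ((W₀.toAffine.addX a₁ a₂ l : A) : K) := by
    rw [← hlK]
    exact Affine.map_addX (W' := W₀) A.subtype a₁ a₂ l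
  have hY : (curveK A W₀).toAffine.addY (a₁ : K) (a₂ : K) (b₁ : K)
      ((curveK A W₀).toAffine.slope (a₁ : K) (a₂ : K) (b₁ : K) (b₂ : K))
      = ((W₀.toAffine.addY a₁ a₂ b₁ l : A) : K) := by
    rw [← hlK]
    exact Affine.map_addY (W' := W₀) A.subtype a₁ b₁ a₂ l
  have hsome : ∀ (x y : K) (h : (curveK A W₀).toAffine.Nonsingular x y) (a b : A)
      (hx : x = (a : K)) (hy : y = (b : K)),
      redPt hΔ (Affine.Point.some x y h) =
        Affine.Point.some (IsLocalRing.residue A a) (IsLocalRing.residue A b)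
          (nonsingular_res hΔ (by rw [← hx, ← hy]; exact h.1)) := by
    intro x y h a b hx hy
    subst hx; subst hy
    exact redPt_coe hΔ h
  rw [hsome _ _ _ _ _ hX hY]
  refine some_congr _ _ ?_ ?_
  · rw [← hlk]
    exact (Affine.map_addX (W' := W₀) (IsLocalRing.residue A) a₁ a₂ l).symm
  · rw [← hlk]
    exact (Affine.map_addY (W' := W₀) (IsLocalRing.residue A) a₁ b₁ a₂ l).symm

end Fermat.Agent.RED


end ZBS05_003_3
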