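/- GENERATED FILE (helper35, build-time optimisation, NOTES/ZB.md): verbatim concatenation of the modules
   Fermat.Agent.HW.Defs
   Fermat.Agent.HW.Plan
   Fermat.Agent.HW.Par
   Fermat.Agent.HW.Eval
   Fermat.Agent.HW.ChordPt
   Fermat.Agent.HW.RepBasic
   Fermat.Agent.HW.RepAdd
   Fermat.Agent.HW.RepFrob
   Do not edit; do not import together with these modules. -/
import Mathlib
import Fermat.Agent.ZB.S05_003

/-! ### bundled: `Fermat.Agent.HW.Defs` -/
section ZBHW_001_0

/-!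
# HW brick — shared definitions (helper51)

Frobenius relation `φ² − t φ + p = 0` on `E(K)`, `K` algebraically closed of characteristic `p ≠ 2`,
by the elementary "degree = height of the x-coordinate map" argument.
See `NOTES/HW.md` for the piece table.  This file contains ONLY definitions.
-/

set_option autoImplicit false

open Polynomial

namespace Fermat.Agent.HW

noncomputable section

/-! ### rational functions -/

section RatFuncDefs

variable {K : Type*} [Field K]

/-- height of a rational function: `max (deg num) (deg denom)` (`= [K(X) : K(R)]`). -/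
def ht (R : RatFunc K) : ℕ := max R.num.natDegree R.denom.natDegree

/-- `R` is regular at `x` (its reduced denominator does not vanish at `x`). -/
def Reg (R : RatFunc K) (x : K) : Prop := R.denom.eval x ≠ 0

/-- pointwise value `R(x)` (junk value `0` at a pole). -/
def rev (R : RatFunc K) (x : K) : K := RatFunc.eval (RingHom.id K) x R

/-- composition `R ∘ T` of rational functions (junk if `T` is constant). -/
def rcomp (R T : RatFunc K) : RatFunc K := RatFunc.eval (algebraMap K (RatFunc K)) T R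

end RatFuncDefs

/-! ### the forms `G`, `F`, `Ψ₂²`, `preΨ₄` with coefficients from `E`, evaluated in a `K`-algebra -/

section Forms

variable {K : Type*} [CommRing K] {A : Type*} [CommRing A] [Algebra K A] (E : WeierstrassCurve K)

/-- `G(x₁,x₂) = 2x₁x₂(x₁+x₂) + b₂x₁x₂ + b₄(x₁+x₂) + b₆`; `x(P+Q)+x(P−Q) = G/(x₁−x₂)²`. -/
def Gform (x₁ x₂ : A) : A :=
  2 * x₁ * x₂ * (x₁ + x₂) + algebraMap K A E.b₂ * x₁ * x₂ + algebraMap K A E.b₄ * (x₁ + x₂)
    + algebraMap K A E.b₆

/-- `F(x₁,x₂) = x₁²x₂² − b₄x₁x₂ − b₆(x₁+x₂) − b₈`; `x(P+Q)·x(P−Q) = F/(x₁−x₂)²`. -/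
def Fform (x₁ x₂ : A) : A :=
  x₁ ^ 2 * x₂ ^ 2 - algebraMap K A E.b₄ * x₁ * x₂ - algebraMap K A E.b₆ * (x₁ + x₂)
    - algebraMap K A E.b₈

/-- `Ψ₂²(x) = 4x³ + b₂x² + 2b₄x + b₆ = G(x,x) = η²`. -/
def Psi2form (x : A) : A :=
  4 * x ^ 3 + algebraMap K A E.b₂ * x ^ 2 + 2 * algebraMap K A E.b₄ * x + algebraMap K A E.b₆

/-- `preΨ₄(x)` (Mathlib's `WeierstrassCurve.preΨ₄`), evaluated in `A`. -/
def Pre4form (x : A) : A := Polynomial.aeval x E.preΨ₄

end Forms

/-! ### coordinates of points, represented maps -/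

section Points

variable {K : Type*} [Field K] [DecidableEq K] (E : WeierstrassCurve K)

/-- x-coordinate of a point (junk `0` at infinity). -/
def ptX : E.toAffine.Point → K
  | .zero => 0
  | .some x _ _ => x

/-- y-coordinate of a point (junk `0` at infinity). -/
def ptY : E.toAffine.Point → K
  | .zero => 0
  | .some _ y _ => y

/-- `η(P) = 2y + a₁x + a₃` (so `η² = Ψ₂²(x)` and `η(−P) = −η(P)`). -/
def ptEta (P : E.toAffine.Point) : K := 2 * ptY E P + E.a₁ * ptX E P + E.a₃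

/-- `α` is given at `P = (x,y)` by `x(αP) = R(x)`, `η(αP) = η(P)·S(x)`. -/
def GoodAt (α : E.toAffine.Point → E.toAffine.Point) (R S : RatFunc K)
    (P : E.toAffine.Point) : Prop :=
  P ≠ 0 ∧ α P ≠ 0 ∧ Reg R (ptX E P) ∧ Reg S (ptX E P) ∧
    ptX E (α P) = rev R (ptX E P) ∧ ptEta E (α P) = ptEta E P * rev S (ptX E P)

/-- `α` is represented by `(R,S)`: `GoodAt` holds at all but finitely many points. -/
def Rep (α : E.toAffine.Point → E.toAffine.Point) (R S : RatFunc K) : Prop :=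
  ∀ᶠ P in Filter.cofinite, GoodAt E α R S P

/-- the `x`-function of `α + β` -/
def sumR (R₁ S₁ R₂ S₂ : RatFunc K) : RatFunc K :=
  (Gform E R₁ R₂ - Psi2form E RatFunc.X * S₁ * S₂) / (2 * (R₁ - R₂) ^ 2)

/-- the `η`-multiplier of `α + β` -/
def sumS (R₁ S₁ R₂ S₂ : RatFunc K) : RatFunc K :=
  -(S₁ - S₂) * (sumR E R₁ S₁ R₂ S₂ - R₁) / (R₁ - R₂) - S₁

/-- the `x`-function of `2α` -/
def dupR (R : RatFunc K) : RatFunc K := Fform E R R / Psi2form E R

/-- the `η`-multiplier of `2α` -/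
def dupS (R S : RatFunc K) : RatFunc K := S * Pre4form E R / Psi2form E R ^ 2

/-- endomorphisms that are `0` or represented -/
def IsRepr (α : AddMonoid.End E.toAffine.Point) : Prop :=
  α = 0 ∨ ∃ R S : RatFunc K, Rep E (⇑α) R S

open Classical in
/-- the degree of an endomorphism: `ht R` if represented by `(R,S)`, else `0`. -/
def hdeg (α : AddMonoid.End E.toAffine.Point) : ℤ :=
  if h : ∃ R S : RatFunc K, Rep E (⇑α) R S then (ht h.choose : ℤ) else 0

end Points

/-! ### Frobenius -/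

section Frob

variable (p : ℕ) [Fact p.Prime] (W : WeierstrassCurve (ZMod p))
  (K : Type*) [Field K] [DecidableEq K] [Algebra (ZMod p) K]

/-- the curve over `K` -/
abbrev EK : WeierstrassCurve K := W.map (algebraMap (ZMod p) K)

/-- Frobenius endomorphism `(x,y) ↦ (x^p, y^p)` of `E(K)`. -/
def frobPt : AddMonoid.End (EK p W K).toAffine.Point :=
  WeierstrassCurve.Affine.Point.map (W' := W) (FiniteField.frobeniusAlgHom (ZMod p) K)

end Frob

end

end Fermat.Agent.HW


end ZBHW_001_0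

/-! ### bundled: `Fermat.Agent.HW.Plan` -/
section ZBHW_001_1

/-!
# HW brick — interface statements (helper51)

Each `Stmt…` below is a `Prop`; the owner of a piece proves `theorem … : Stmt…` in the piece's own
file (importing this file).  Piece table, owners and status: `NOTES/HW.md`.
-/

set_option autoImplicit false

open Polynomial

namespace Fermat.Agent.HW

noncomputable section

/-! ### HW-1a  `Eval.lean` : evaluation of rational functions -/

section Eval

variable (K : Type*) [Field K]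

/-- a rational function is regular at all but finitely many points -/
def StmtRegEv : Prop := ∀ R : RatFunc K, ∀ᶠ x in Filter.cofinite, Reg R x

/-- `rev` is a ring homomorphism on functions regular at `x` -/
def StmtRevRing : Prop := ∀ (x : K) (R S : RatFunc K), Reg R x → Reg S x →
  (Reg (R + S) x ∧ rev (R + S) x = rev R x + rev S x) ∧
  (Reg (R * S) x ∧ rev (R * S) x = rev R x * rev S x) ∧
  (Reg (-R) x ∧ rev (-R) x = -rev R x) ∧
  (Reg (R - S) x ∧ rev (R - S) x = rev R x - rev S x) ∧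
  (rev S x ≠ 0 → Reg (R / S) x ∧ rev (R / S) x = rev R x / rev S x)

/-- constants, `X`, polynomials and powers -/
def StmtRevBase : Prop := ∀ x : K,
  (∀ c : K, Reg (RatFunc.C c) x ∧ rev (RatFunc.C c) x = c) ∧
  (Reg (RatFunc.X : RatFunc K) x ∧ rev (RatFunc.X : RatFunc K) x = x) ∧
  (∀ q : K[X], Reg (algebraMap K[X] (RatFunc K) q) x ∧
      rev (algebraMap K[X] (RatFunc K) q) x = q.eval x) ∧
  (∀ (R : RatFunc K) (n : ℕ), Reg R x → Reg (R ^ n) x ∧ rev (R ^ n) x = rev R x ^ n)

/-- a nonzero rational function has finitely many zeros -/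
def StmtRevZeros : Prop := ∀ R : RatFunc K, R ≠ 0 → {x : K | rev R x = 0}.Finite

/-- identity principle -/
def StmtRatExt : Prop := ∀ R S : RatFunc K,
  {x : K | Reg R x ∧ Reg S x ∧ rev R x = rev S x}.Infinite → R = S

/-- composition is compatible with evaluation -/
def StmtRevComp : Prop := ∀ (x : K) (R T : RatFunc K), Reg T x → Reg R (rev T x) →
  Reg (rcomp R T) x ∧ rev (rcomp R T) x = rev R (rev T x)

/-- a nonconstant function takes each value finitely often -/
def StmtRevFiber : Prop := ∀ (T : RatFunc K), ht T ≠ 0 → ∀ c : K, {x : K | rev T x = c}.Finite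

end Eval

/-! ### HW-1b  `HeightComp.lean` (helper44, DONE) : `ht (rcomp R T) = ht R * ht T` -/

section Comp

variable (K : Type*) [Field K]

def StmtHtComp : Prop := ∀ R T : RatFunc K, ht (rcomp R T) = ht R * ht T

def StmtHtConst : Prop := ∀ R : RatFunc K, ht R = 0 ↔ ∃ c : K, R = RatFunc.C c

end Comp

/-! ### HW-2  `Height.lean` (helper46) : the algebraic parallelogram law -/

section Height

variable {K : Type*} [Field K] (E : WeierstrassCurve K)

def StmtHtAddSub : Prop := E.Δ ≠ 0 → ∀ R₁ R₂ Rp Rm : RatFunc K, R₁ ≠ R₂ →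
  (Rp + Rm) * (R₁ - R₂) ^ 2 = Gform E R₁ R₂ →
  Rp * Rm * (R₁ - R₂) ^ 2 = Fform E R₁ R₂ →
  ht Rp + ht Rm = 2 * ht R₁ + 2 * ht R₂

def StmtHtDup : Prop := E.Δ ≠ 0 → ∀ R : RatFunc K, ht (dupR E R) = 4 * ht R

end Height

/-! ### HW-3b  `Chord.lean` : pointwise formulas on `E(K)` -/

section Chord

variable {K : Type*} [Field K] [DecidableEq K] (E : WeierstrassCurve K)

def StmtEtaSq : Prop := ∀ P : E.toAffine.Point, P ≠ 0 →
  ptEta E P ^ 2 = Psi2form E (ptX E P)

def StmtNegPt : Prop := ∀ P : E.toAffine.Point, P ≠ 0 →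
  -P ≠ 0 ∧ ptX E (-P) = ptX E P ∧ ptEta E (-P) = -ptEta E P

def StmtPtExt : Prop := (2 : K) ≠ 0 → ∀ P Q : E.toAffine.Point, P ≠ 0 → Q ≠ 0 →
  ptX E P = ptX E Q → ptEta E P = ptEta E Q → P = Q

def StmtChord : Prop := (2 : K) ≠ 0 → ∀ P Q : E.toAffine.Point, P ≠ 0 → Q ≠ 0 →
  ptX E P ≠ ptX E Q →
  P + Q ≠ 0 ∧
  ptX E (P + Q) = (Gform E (ptX E P) (ptX E Q) - ptEta E P * ptEta E Q)
      / (2 * (ptX E P - ptX E Q) ^ 2) ∧
  ptEta E (P + Q) = -(ptEta E P - ptEta E Q) * (ptX E (P + Q) - ptX E P)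
      / (ptX E P - ptX E Q) - ptEta E P

def StmtTangent : Prop := ∀ P : E.toAffine.Point, P ≠ 0 → ptEta E P ≠ 0 →
  P + P ≠ 0 ∧
  ptX E (P + P) = Fform E (ptX E P) (ptX E P) / Psi2form E (ptX E P) ∧
  ptEta E (P + P) = ptEta E P * Pre4form E (ptX E P) / Psi2form E (ptX E P) ^ 2

/-- every `x` is the x-coordinate of a point, and of finitely many -/
def StmtExistsPt : Prop := IsAlgClosed K → E.Δ ≠ 0 → ∀ x : K,
  ∃ P : E.toAffine.Point, P ≠ 0 ∧ ptX E P = x

def StmtFiberPt : Prop := ∀ x : K, {P : E.toAffine.Point | ptX E P = x}.Finite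

end Chord

section FrobPt

variable (p : ℕ) [Fact p.Prime] (W : WeierstrassCurve (ZMod p))
  (K : Type*) [Field K] [DecidableEq K] [Algebra (ZMod p) K]

def StmtFrobPt : Prop := ∀ P : (EK p W K).toAffine.Point, P ≠ 0 →
  frobPt p W K P ≠ 0 ∧ ptX _ (frobPt p W K P) = ptX _ P ^ p ∧
  ptEta _ (frobPt p W K P) = ptEta _ P ^ p

end FrobPt

/-! ### HW-3a  `RepBasic.lean` : represented maps -/

section RepBasic

variable {K : Type*} [Field K] [DecidableEq K] (E : WeierstrassCurve K)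

/-- hypotheses common to all `Rep` statements -/
structure Hyp : Prop where
  algClosed : IsAlgClosed K
  two_ne : (2 : K) ≠ 0
  disc_ne : E.Δ ≠ 0

def StmtRepId : Prop := Hyp E → Rep E id RatFunc.X 1

def StmtRepNeg : Prop := Hyp E → ∀ (α : E.toAffine.Point → E.toAffine.Point) (R S : RatFunc K),
  Rep E α R S → Rep E (-α) R (-S)

def StmtRepEtaSq : Prop := Hyp E → ∀ (α : E.toAffine.Point → E.toAffine.Point)
  (R S : RatFunc K), Rep E α R S → Psi2form E R = Psi2form E RatFunc.X * S ^ 2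

def StmtRepUnique : Prop := Hyp E → ∀ (α : E.toAffine.Point → E.toAffine.Point)
  (R S R' S' : RatFunc K), Rep E α R S → Rep E α R' S' → R = R' ∧ S = S'

def StmtRepNonconst : Prop := Hyp E → ∀ (α : AddMonoid.End E.toAffine.Point)
  (R S : RatFunc K), Rep E (⇑α) R S → ht R ≠ 0

def StmtRepInj : Prop := Hyp E → ∀ (α β : AddMonoid.End E.toAffine.Point)
  (R S : RatFunc K), Rep E (⇑α) R S → Rep E (⇑β) R S → α = β

def StmtRepComp : Prop := Hyp E → ∀ (α β : E.toAffine.Point → E.toAffine.Point)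
  (R S R' S' : RatFunc K), Rep E α R S → Rep E β R' S' → ht R' ≠ 0 →
  Rep E (α ∘ β) (rcomp R R') (S' * rcomp S R')

end RepBasic

section RepFrob

variable (p : ℕ) [Fact p.Prime] (W : WeierstrassCurve (ZMod p))
  (K : Type*) [Field K] [DecidableEq K] [Algebra (ZMod p) K]

def StmtRepFrob : Prop := Hyp (EK p W K) →
  Rep (EK p W K) (⇑(frobPt p W K)) (RatFunc.X ^ p)
    (Psi2form (EK p W K) (RatFunc.X : RatFunc K) ^ ((p - 1) / 2))

end RepFrob

/-! ### HW-3c  `RepAdd.lean` : sum and duplication rules -/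

section RepAdd

variable {K : Type*} [Field K] [DecidableEq K] (E : WeierstrassCurve K)

def StmtRepAdd : Prop := Hyp E → ∀ (α β : E.toAffine.Point → E.toAffine.Point)
  (R₁ S₁ R₂ S₂ : RatFunc K), Rep E α R₁ S₁ → Rep E β R₂ S₂ → R₁ ≠ R₂ →
  Rep E (α + β) (sumR E R₁ S₁ R₂ S₂) (sumS E R₁ S₁ R₂ S₂)

def StmtRepDup : Prop := Hyp E → ∀ (α : E.toAffine.Point → E.toAffine.Point)
  (R S : RatFunc K), Rep E α R S → ht R ≠ 0 → Rep E (α + α) (dupR E R) (dupS E R S)

/-- the two identities feeding `StmtHtAddSub` -/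
def StmtSumProd : Prop := (2 : K) ≠ 0 → ∀ (R₁ S₁ R₂ S₂ : RatFunc K), R₁ ≠ R₂ →
  Psi2form E R₁ = Psi2form E RatFunc.X * S₁ ^ 2 →
  Psi2form E R₂ = Psi2form E RatFunc.X * S₂ ^ 2 →
  (sumR E R₁ S₁ R₂ S₂ + sumR E R₁ S₁ R₂ (-S₂)) * (R₁ - R₂) ^ 2 = Gform E R₁ R₂ ∧
  sumR E R₁ S₁ R₂ S₂ * sumR E R₁ S₁ R₂ (-S₂) * (R₁ - R₂) ^ 2 = Fform E R₁ R₂

end RepAdd

/-! ### HW-3d  `Par.lean` : the degree function on represented endomorphisms -/

section Par

variable {K : Type*} [Field K] [DecidableEq K] (E : WeierstrassCurve K)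

def StmtIsReprRing : Prop := Hyp E → IsRepr E 1 ∧
  (∀ α β : AddMonoid.End E.toAffine.Point, IsRepr E α → IsRepr E β →
    IsRepr E (α + β) ∧ IsRepr E (-α) ∧ IsRepr E (α * β))

def StmtHdeg : Prop := Hyp E → hdeg E 1 = 1 ∧
  (∀ α : AddMonoid.End E.toAffine.Point, IsRepr E α → hdeg E α = 0 → α = 0) ∧
  (∀ α β : AddMonoid.End E.toAffine.Point, IsRepr E α → IsRepr E β →
    hdeg E (α * β) = hdeg E α * hdeg E β) ∧
  (∀ α β : AddMonoid.End E.toAffine.Point, IsRepr E α → IsRepr E β →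
    hdeg E (α + β) + hdeg E (α - β) = 2 * hdeg E α + 2 * hdeg E β)

/-- `hdeg` can be read off from any representation -/
def StmtHdegEq : Prop := Hyp E → ∀ (α : AddMonoid.End E.toAffine.Point) (R S : RatFunc K),
  Rep E (⇑α) R S → hdeg E α = ht R

end Par

/-! ### HW-5  `Count.lean` (helper22) : `ht R_{φ−1} = #E(𝔽_p)` -/

section Count

variable (p : ℕ) [Fact p.Prime] (W : WeierstrassCurve (ZMod p))
  (K : Type*) [Field K] [Algebra (ZMod p) K]

/-- `R_{φ−1} = sumR (X^p) (Ψ₂²^((p−1)/2)) X (−1)`, written out -/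
def StmtCount : Prop := p ≠ 2 → W.Δ ≠ 0 →
  ht ((Gform (EK p W K) (RatFunc.X ^ p) (RatFunc.X : RatFunc K)
        + Psi2form (EK p W K) (RatFunc.X : RatFunc K) ^ ((p + 1) / 2))
      / (2 * ((RatFunc.X : RatFunc K) ^ p - RatFunc.X) ^ 2))
    = Nat.card W.toAffine.Point

end Count

/-! ### HW-6  `Main.lean` : the Frobenius relation -/

section Main

variable (p : ℕ) [Fact p.Prime] (W : WeierstrassCurve (ZMod p))
  (K : Type*) [Field K] [DecidableEq K] [Algebra (ZMod p) K]

/-- `φ² − t φ + p = 0` with `t = p + 1 − #E(𝔽_p)` (`= W.traceOfFrobenius` of the prelude) -/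
def StmtFrobRelation : Prop := p ≠ 2 → W.Δ ≠ 0 → IsAlgClosed K →
  ∀ P : (EK p W K).toAffine.Point,
    frobPt p W K (frobPt p W K P)
      - ((p : ℤ) + 1 - (Nat.card W.toAffine.Point : ℤ)) • frobPt p W K P + (p : ℤ) • P = 0

end Main

end

end Fermat.Agent.HW


end ZBHW_001_1

/-! ### bundled: `Fermat.Agent.HW.Par` -/
section ZBHW_001_2

/-!
# HW brick, piece HW-3d: the degree function on represented endomorphisms (helper51)

From the `Rep` calculus (pieces HW-3a/3c) and the height lemmas (HW-1b, HW-2) we deduce that the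
represented endomorphisms form a subring of `End E(K)` on which `hdeg` is multiplicative, positive
and satisfies the exact parallelogram law.
-/

set_option autoImplicit false

open Polynomial

namespace Fermat.Agent.HW

noncomputable section

variable {K : Type*} [Field K] [DecidableEq K] (E : WeierstrassCurve K)

/-- everything this file consumes -/
structure ParInput : Prop where
  hyp : Hyp E
  existsPt : StmtExistsPt E
  repId : StmtRepId E
  repNeg : StmtRepNeg E
  repEtaSq : StmtRepEtaSq E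
  repUnique : StmtRepUnique E
  repNonconst : StmtRepNonconst E
  repInj : StmtRepInj E
  repComp : StmtRepComp E
  repAdd : StmtRepAdd E
  repDup : StmtRepDup E
  sumProd : StmtSumProd E
  htComp : StmtHtComp K
  htAddSub : StmtHtAddSub E
  htDup : StmtHtDup E

variable {E}

namespace ParInput

variable (I : ParInput E)
include I

theorem infinite_pt : Infinite E.toAffine.Point := by
  have := I.hyp.algClosed
  have : Infinite K := IsAlgClosed.instInfinite
  choose f hf using I.existsPt I.hyp.algClosed I.hyp.disc_ne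
  refine Infinite.of_injective f ?_
  intro x y hxy
  rw [← (hf x).2, ← (hf y).2, hxy]

theorem exists_goodAt {α : E.toAffine.Point → E.toAffine.Point} {R S : RatFunc K}
    (h : Rep E α R S) : ∃ P, GoodAt E α R S P := by
  have := I.infinite_pt
  exact Filter.Eventually.exists h

theorem not_rep_zero (R S : RatFunc K) :
    ¬ Rep E (⇑(0 : AddMonoid.End E.toAffine.Point)) R S := by
  intro h
  obtain ⟨P, hP⟩ := I.exists_goodAt h
  exact hP.2.1 rfl

theorem ne_zero_of_rep {α : AddMonoid.End E.toAffine.Point} {R S : RatFunc K}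
    (h : Rep E (⇑α) R S) : α ≠ 0 := by
  rintro rfl
  exact I.not_rep_zero R S h

theorem hdeg_eq {α : AddMonoid.End E.toAffine.Point} {R S : RatFunc K}
    (h : Rep E (⇑α) R S) : hdeg E α = ht R := by
  have hex : ∃ R S : RatFunc K, Rep E (⇑α) R S := ⟨R, S, h⟩
  unfold hdeg
  rw [dif_pos hex]
  obtain ⟨S', hS'⟩ := hex.choose_spec
  rw [(I.repUnique I.hyp _ _ _ _ _ hS' h).1]

theorem hdeg_zero : hdeg E (0 : AddMonoid.End E.toAffine.Point) = 0 := by
  unfold hdeg
  rw [dif_neg]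
  rintro ⟨R, S, h⟩
  exact I.not_rep_zero R S h

theorem stmtHdegEq : StmtHdegEq E := fun _ _ _ _ h => I.hdeg_eq h

theorem rep_one : Rep E (⇑(1 : AddMonoid.End E.toAffine.Point)) RatFunc.X 1 :=
  I.repId I.hyp

theorem rep_neg {α : AddMonoid.End E.toAffine.Point} {R S : RatFunc K}
    (h : Rep E (⇑α) R S) : Rep E (⇑(-α)) R (-S) :=
  I.repNeg I.hyp _ _ _ h

theorem rep_mul {α β : AddMonoid.End E.toAffine.Point} {R S R' S' : RatFunc K}
    (h : Rep E (⇑α) R S) (h' : Rep E (⇑β) R' S') :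
    Rep E (⇑(α * β)) (rcomp R R') (S' * rcomp S R') :=
  I.repComp I.hyp (⇑α) (⇑β) R S R' S' h h' (I.repNonconst I.hyp _ _ _ h')

theorem psi2_X_ne_zero : Psi2form E (RatFunc.X : RatFunc K) ≠ 0 := by
  have h4 : (4 : K) ≠ 0 := by
    have h2 := I.hyp.two_ne
    have : (4 : K) = 2 * 2 := by norm_num
    rw [this]
    exact mul_ne_zero h2 h2
  have e : Psi2form E (RatFunc.X : RatFunc K) = algebraMap K[X] (RatFunc K) E.Ψ₂Sq := by
    simp only [Psi2form, WeierstrassCurve.Ψ₂Sq, map_add, map_mul, map_pow,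
      RatFunc.algebraMap_X, RatFunc.algebraMap_C, RatFunc.algebraMap_eq_C, map_ofNat]
  rw [e]
  exact RatFunc.algebraMap_ne_zero (E.Ψ₂Sq_ne_zero h4)

/-- if two represented endomorphisms have the same `x`-function they are equal or opposite -/
theorem eq_or_eq_neg {α β : AddMonoid.End E.toAffine.Point} {R S₁ S₂ : RatFunc K}
    (h₁ : Rep E (⇑α) R S₁) (h₂ : Rep E (⇑β) R S₂) : α = β ∨ α = -β := by
  have e₁ := I.repEtaSq I.hyp _ _ _ h₁
  have e₂ := I.repEtaSq I.hyp _ _ _ h₂
  have hsq : S₁ ^ 2 = S₂ ^ 2 :=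
    mul_left_cancel₀ I.psi2_X_ne_zero (e₁.symm.trans e₂)
  rcases sq_eq_sq_iff_eq_or_eq_neg.mp hsq with h | h
  · left
    subst h
    exact I.repInj I.hyp _ _ _ _ h₁ h₂
  · right
    subst h
    exact I.repInj I.hyp _ _ _ _ h₁ (I.rep_neg h₂)

theorem rep_add_self {α : AddMonoid.End E.toAffine.Point} {R S : RatFunc K}
    (h : Rep E (⇑α) R S) : Rep E (⇑(α + α)) (dupR E R) (dupS E R S) :=
  I.repDup I.hyp _ _ _ h (I.repNonconst I.hyp _ _ _ h)

theorem isRepr_one : IsRepr E (1 : AddMonoid.End E.toAffine.Point) :=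
  Or.inr ⟨_, _, I.rep_one⟩

theorem isRepr_neg {α : AddMonoid.End E.toAffine.Point} (h : IsRepr E α) : IsRepr E (-α) := by
  rcases h with rfl | ⟨R, S, h⟩
  · left; simp
  · exact Or.inr ⟨_, _, I.rep_neg h⟩

theorem isRepr_mul {α β : AddMonoid.End E.toAffine.Point} (h : IsRepr E α) (h' : IsRepr E β) :
    IsRepr E (α * β) := by
  rcases h with rfl | ⟨R, S, h⟩
  · left; simp
  rcases h' with rfl | ⟨R', S', h'⟩
  · left; simp
  exact Or.inr ⟨_, _, I.rep_mul h h'⟩

theorem isRepr_add {α β : AddMonoid.End E.toAffine.Point} (h : IsRepr E α) (h' : IsRepr E β) :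
    IsRepr E (α + β) := by
  rcases h with rfl | ⟨R₁, S₁, h₁⟩
  · rw [zero_add]; exact h'
  rcases h' with rfl | ⟨R₂, S₂, h₂⟩
  · rw [add_zero]; exact Or.inr ⟨_, _, h₁⟩
  by_cases hR : R₁ = R₂
  · subst hR
    rcases I.eq_or_eq_neg h₁ h₂ with rfl | rfl
    · exact Or.inr ⟨_, _, I.rep_add_self h₁⟩
    · left; simp
  · exact Or.inr ⟨_, _, I.repAdd I.hyp _ _ _ _ _ _ h₁ h₂ hR⟩

theorem stmtIsReprRing : StmtIsReprRing E := fun _ =>
  ⟨I.isRepr_one, fun _ _ h h' => ⟨I.isRepr_add h h', I.isRepr_neg h, I.isRepr_mul h h'⟩⟩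

omit [DecidableEq K] I in
theorem ht_X' : ht (RatFunc.X : RatFunc K) = 1 := by
  simp [ht]

theorem hdeg_one : hdeg E (1 : AddMonoid.End E.toAffine.Point) = 1 := by
  rw [I.hdeg_eq I.rep_one, ht_X']; rfl

theorem hdeg_neg {α : AddMonoid.End E.toAffine.Point} (h : IsRepr E α) :
    hdeg E (-α) = hdeg E α := by
  rcases h with rfl | ⟨R, S, h⟩
  · simp
  · rw [I.hdeg_eq h, I.hdeg_eq (I.rep_neg h)]

theorem eq_zero_of_hdeg {α : AddMonoid.End E.toAffine.Point} (h : IsRepr E α)
    (h0 : hdeg E α = 0) : α = 0 := by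
  rcases h with rfl | ⟨R, S, h⟩
  · rfl
  · exfalso
    rw [I.hdeg_eq h] at h0
    exact I.repNonconst I.hyp _ _ _ h (by exact_mod_cast h0)

theorem hdeg_mul {α β : AddMonoid.End E.toAffine.Point} (h : IsRepr E α) (h' : IsRepr E β) :
    hdeg E (α * β) = hdeg E α * hdeg E β := by
  rcases h with rfl | ⟨R, S, h⟩
  · simp [I.hdeg_zero]
  rcases h' with rfl | ⟨R', S', h'⟩
  · simp [I.hdeg_zero]
  rw [I.hdeg_eq h, I.hdeg_eq h', I.hdeg_eq (I.rep_mul h h'), I.htComp]
  push_cast
  rfl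

theorem hdeg_add_self {α : AddMonoid.End E.toAffine.Point} {R S : RatFunc K}
    (h : Rep E (⇑α) R S) : hdeg E (α + α) = 4 * hdeg E α := by
  rw [I.hdeg_eq h, I.hdeg_eq (I.rep_add_self h), I.htDup I.hyp.disc_ne]
  push_cast
  rfl

theorem hdeg_par {α β : AddMonoid.End E.toAffine.Point} (h : IsRepr E α) (h' : IsRepr E β) :
    hdeg E (α + β) + hdeg E (α - β) = 2 * hdeg E α + 2 * hdeg E β := by
  rcases h with rfl | ⟨R₁, S₁, h₁⟩
  · rw [zero_add, zero_sub, I.hdeg_neg h', I.hdeg_zero]; ring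
  rcases h' with rfl | ⟨R₂, S₂, h₂⟩
  · rw [add_zero, sub_zero, I.hdeg_zero]; ring
  by_cases hR : R₁ = R₂
  · subst hR
    rcases I.eq_or_eq_neg h₁ h₂ with rfl | rfl
    · rw [sub_self, I.hdeg_zero, I.hdeg_add_self h₁]; ring
    · rw [neg_add_cancel, I.hdeg_zero, sub_eq_add_neg, I.hdeg_add_self h₁,
        I.hdeg_neg (Or.inr ⟨_, _, h₂⟩)]
      ring
  · have hp := I.repAdd I.hyp _ _ _ _ _ _ h₁ h₂ hR
    have hm := I.repAdd I.hyp _ _ _ _ _ _ h₁ (I.rep_neg h₂) hR
    have e₁ := I.repEtaSq I.hyp _ _ _ h₁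
    have e₂ := I.repEtaSq I.hyp _ _ _ h₂
    obtain ⟨hs, hpr⟩ := I.sumProd I.hyp.two_ne R₁ S₁ R₂ S₂ hR e₁ e₂
    have key := I.htAddSub I.hyp.disc_ne R₁ R₂ _ _ hR hs hpr
    have hp' : hdeg E (α + β) = ht (sumR E R₁ S₁ R₂ S₂) := I.hdeg_eq hp
    have hm' : hdeg E (α - β) = ht (sumR E R₁ S₁ R₂ (-S₂)) := by
      rw [sub_eq_add_neg]; exact I.hdeg_eq hm
    rw [hp', hm', I.hdeg_eq h₁, I.hdeg_eq h₂]
    exact_mod_cast key

theorem stmtHdeg : StmtHdeg E := fun _ =>
  ⟨I.hdeg_one, fun _ h h0 => I.eq_zero_of_hdeg h h0, fun _ _ h h' => I.hdeg_mul h h',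
    fun _ _ h h' => I.hdeg_par h h'⟩

end ParInput

end

end Fermat.Agent.HW


end ZBHW_001_2

/-! ### bundled: `Fermat.Agent.HW.Eval` -/
section ZBHW_001_3

/-!
# HW brick, piece HW-1a: evaluation of rational functions (helper44)

Proofs of `StmtRegEv`, `StmtRevRing`, `StmtRevBase`, `StmtRevZeros`, `StmtRatExt`, `StmtRevComp`,
`StmtRevFiber` of `Plan.lean`.
-/

set_option autoImplicit false

open Polynomial

namespace Fermat.Agent.HW

variable {K : Type*} [Field K]

lemma hwEv_rev_eq (R : RatFunc K) (x : K) : rev R x = R.num.eval x / R.denom.eval x := by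
  simp [rev, RatFunc.eval, Polynomial.eval₂_id]

/-- Evaluation of a quotient of polynomials at a point where the denominator does not vanish. -/
lemma hwEv_div (a b : K[X]) (x : K) (hb : b.eval x ≠ 0) :
    Reg (algebraMap K[X] (RatFunc K) a / algebraMap K[X] (RatFunc K) b) x ∧
      rev (algebraMap K[X] (RatFunc K) a / algebraMap K[X] (RatFunc K) b) x =
        a.eval x / b.eval x := by
  have hb0 : b ≠ 0 := by
    rintro rfl
    simp at hb
  set R := algebraMap K[X] (RatFunc K) a / algebraMap K[X] (RatFunc K) b with hR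
  have hdvd : R.denom ∣ b := RatFunc.denom_div_dvd a b
  have hreg : R.denom.eval x ≠ 0 := by
    intro h
    obtain ⟨c, hc⟩ := hdvd
    apply hb
    rw [hc, eval_mul, h, zero_mul]
  refine ⟨hreg, ?_⟩
  have hrel : R.num * b = a * R.denom := (RatFunc.num_mul_eq_mul_denom_iff hb0).mpr hR
  have hrel' := congrArg (Polynomial.eval x) hrel
  rw [eval_mul, eval_mul] at hrel'
  rw [hwEv_rev_eq, div_eq_div_iff hreg hb, hrel']

lemma hwEv_self (R : RatFunc K) :
    algebraMap K[X] (RatFunc K) R.num / algebraMap K[X] (RatFunc K) R.denom = R :=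
  RatFunc.num_div_denom R

theorem stmtRegEv : StmtRegEv K := by
  intro R
  rw [Filter.eventually_cofinite]
  refine (Polynomial.finite_setOf_isRoot (RatFunc.denom_ne_zero R)).subset ?_
  intro x hx
  simp only [Reg, not_not, Set.mem_setOf_eq] at hx
  exact hx

lemma hwEv_add (x : K) (R S : RatFunc K) (hR : Reg R x) (hS : Reg S x) :
    Reg (R + S) x ∧ rev (R + S) x = rev R x + rev S x := by
  have h : R + S = algebraMap K[X] (RatFunc K) (R.num * S.denom + S.num * R.denom) /
      algebraMap K[X] (RatFunc K) (R.denom * S.denom) := by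
    conv_lhs => rw [← hwEv_self R, ← hwEv_self S]
    have h1 : algebraMap K[X] (RatFunc K) R.denom ≠ 0 := by
      simpa using RatFunc.denom_ne_zero R
    have h2 : algebraMap K[X] (RatFunc K) S.denom ≠ 0 := by
      simpa using RatFunc.denom_ne_zero S
    rw [div_add_div _ _ h1 h2]
    simp only [map_add, map_mul]
    ring
  have hb : (R.denom * S.denom).eval x ≠ 0 := by
    rw [eval_mul]; exact mul_ne_zero hR hS
  obtain ⟨h1, h2⟩ := hwEv_div (R.num * S.denom + S.num * R.denom) (R.denom * S.denom) x hb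
  rw [← h] at h1 h2
  refine ⟨h1, ?_⟩
  rw [h2, hwEv_rev_eq, hwEv_rev_eq, eval_add, eval_mul, eval_mul, eval_mul]
  unfold Reg at hR hS
  field_simp

lemma hwEv_mul (x : K) (R S : RatFunc K) (hR : Reg R x) (hS : Reg S x) :
    Reg (R * S) x ∧ rev (R * S) x = rev R x * rev S x := by
  have h : R * S = algebraMap K[X] (RatFunc K) (R.num * S.num) /
      algebraMap K[X] (RatFunc K) (R.denom * S.denom) := by
    conv_lhs => rw [← hwEv_self R, ← hwEv_self S]
    rw [div_mul_div_comm]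
    simp only [map_mul]
  have hb : (R.denom * S.denom).eval x ≠ 0 := by
    rw [eval_mul]; exact mul_ne_zero hR hS
  obtain ⟨h1, h2⟩ := hwEv_div (R.num * S.num) (R.denom * S.denom) x hb
  rw [← h] at h1 h2
  refine ⟨h1, ?_⟩
  rw [h2, hwEv_rev_eq, hwEv_rev_eq, eval_mul, eval_mul]
  unfold Reg at hR hS
  field_simp

lemma hwEv_neg (x : K) (R : RatFunc K) (hR : Reg R x) :
    Reg (-R) x ∧ rev (-R) x = -rev R x := by
  have h : -R = algebraMap K[X] (RatFunc K) (-R.num) / algebraMap K[X] (RatFunc K) R.denom := by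
    conv_lhs => rw [← hwEv_self R]
    rw [map_neg, neg_div]
  obtain ⟨h1, h2⟩ := hwEv_div (-R.num) R.denom x hR
  rw [← h] at h1 h2
  refine ⟨h1, ?_⟩
  rw [h2, hwEv_rev_eq, eval_neg, neg_div]

lemma hwEv_sub (x : K) (R S : RatFunc K) (hR : Reg R x) (hS : Reg S x) :
    Reg (R - S) x ∧ rev (R - S) x = rev R x - rev S x := by
  obtain ⟨h1, h2⟩ := hwEv_neg x S hS
  obtain ⟨h3, h4⟩ := hwEv_add x R (-S) hR h1
  rw [sub_eq_add_neg]
  exact ⟨h3, by rw [h4, h2, sub_eq_add_neg]⟩

lemma hwEv_quot (x : K) (R S : RatFunc K) (hR : Reg R x) (hS : Reg S x) (h0 : rev S x ≠ 0) :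
    Reg (R / S) x ∧ rev (R / S) x = rev R x / rev S x := by
  have hSn : S.num.eval x ≠ 0 := by
    intro h
    apply h0
    rw [hwEv_rev_eq, h, zero_div]
  have hS0 : S ≠ 0 := by
    rintro rfl
    simp [rev] at h0
  have h : R / S = algebraMap K[X] (RatFunc K) (R.num * S.denom) /
      algebraMap K[X] (RatFunc K) (R.denom * S.num) := by
    conv_lhs => rw [← hwEv_self R, ← hwEv_self S]
    rw [div_div_div_eq]
    simp only [map_mul]
  have hb : (R.denom * S.num).eval x ≠ 0 := by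
    rw [eval_mul]; exact mul_ne_zero hR hSn
  obtain ⟨h1, h2⟩ := hwEv_div (R.num * S.denom) (R.denom * S.num) x hb
  rw [← h] at h1 h2
  refine ⟨h1, ?_⟩
  rw [h2, hwEv_rev_eq, hwEv_rev_eq, eval_mul, eval_mul]
  unfold Reg at hR hS
  field_simp

theorem stmtRevRing : StmtRevRing K := by
  intro x R S hR hS
  exact ⟨hwEv_add x R S hR hS, hwEv_mul x R S hR hS, hwEv_neg x R hR, hwEv_sub x R S hR hS,
    fun h0 => hwEv_quot x R S hR hS h0⟩

lemma hwEv_C (x c : K) : Reg (RatFunc.C c) x ∧ rev (RatFunc.C c) x = c := by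
  constructor
  · simp [Reg]
  · simp [rev]

lemma hwEv_X (x : K) : Reg (RatFunc.X : RatFunc K) x ∧ rev (RatFunc.X : RatFunc K) x = x := by
  constructor
  · simp [Reg]
  · simp [rev]

lemma hwEv_poly (x : K) (q : K[X]) : Reg (algebraMap K[X] (RatFunc K) q) x ∧
    rev (algebraMap K[X] (RatFunc K) q) x = q.eval x := by
  constructor
  · simp [Reg]
  · rw [hwEv_rev_eq]
    simp

lemma hwEv_pow (x : K) (R : RatFunc K) (n : ℕ) (hR : Reg R x) :
    Reg (R ^ n) x ∧ rev (R ^ n) x = rev R x ^ n := by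
  induction n with
  | zero =>
    rw [pow_zero, pow_zero]
    have := hwEv_C x (1 : K)
    rwa [map_one] at this
  | succ n ih =>
    obtain ⟨h1, h2⟩ := hwEv_mul x (R ^ n) R ih.1 hR
    rw [pow_succ, pow_succ]
    exact ⟨h1, by rw [h2, ih.2]⟩

theorem stmtRevBase : StmtRevBase K := by
  intro x
  exact ⟨fun c => hwEv_C x c, hwEv_X x, fun q => hwEv_poly x q, fun R n hR => hwEv_pow x R n hR⟩

theorem stmtRevZeros : StmtRevZeros K := by
  intro R hR
  have hn : R.num ≠ 0 := RatFunc.num_ne_zero hR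
  refine ((Polynomial.finite_setOf_isRoot hn).union
    (Polynomial.finite_setOf_isRoot (RatFunc.denom_ne_zero R))).subset ?_
  intro x hx
  simp only [Set.mem_setOf_eq, hwEv_rev_eq, div_eq_zero_iff] at hx
  rcases hx with h | h
  · exact Or.inl h
  · exact Or.inr h

theorem stmtRatExt : StmtRatExt K := by
  intro R S hinf
  by_contra hne
  have h0 : R - S ≠ 0 := sub_ne_zero.mpr hne
  apply hinf
  refine (stmtRevZeros (K := K) (R - S) h0).subset ?_
  rintro x ⟨hR, hS, h⟩
  simp only [Set.mem_setOf_eq]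
  rw [(hwEv_sub x R S hR hS).2, h, sub_self]

lemma hwEv_aeval (x : K) (T : RatFunc K) (hT : Reg T x) (q : K[X]) :
    Reg (aeval T q) x ∧ rev (aeval T q) x = q.eval (rev T x) := by
  induction q using Polynomial.induction_on' with
  | add a b ha hb =>
    obtain ⟨h1, h2⟩ := hwEv_add x _ _ ha.1 hb.1
    rw [map_add, eval_add]
    exact ⟨h1, by rw [h2, ha.2, hb.2]⟩
  | monomial n c =>
    rw [aeval_monomial, eval_monomial]
    obtain ⟨h1, h2⟩ := hwEv_pow x T n hT
    obtain ⟨h3, h4⟩ := hwEv_mul x (algebraMap K (RatFunc K) c) (T ^ n)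
      (by rw [RatFunc.algebraMap_eq_C]; exact (hwEv_C x c).1) h1
    refine ⟨h3, ?_⟩
    rw [h4, h2, RatFunc.algebraMap_eq_C, (hwEv_C x c).2]

lemma hwEv_rcomp_eq (R T : RatFunc K) :
    rcomp R T = aeval T R.num / aeval T R.denom := rfl

theorem stmtRevComp : StmtRevComp K := by
  intro x R T hT hR
  obtain ⟨h1, h2⟩ := hwEv_aeval x T hT R.num
  obtain ⟨h3, h4⟩ := hwEv_aeval x T hT R.denom
  have h0 : rev (aeval T R.denom) x ≠ 0 := by
    rw [h4]; exact hR
  obtain ⟨h5, h6⟩ := hwEv_quot x _ _ h1 h3 h0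
  rw [hwEv_rcomp_eq]
  refine ⟨h5, ?_⟩
  rw [h6, h2, h4]
  exact (hwEv_rev_eq R _).symm

theorem stmtRevFiber : StmtRevFiber K := by
  intro T hT c
  have hne : T - RatFunc.C c ≠ 0 := by
    intro h
    apply hT
    rw [sub_eq_zero] at h
    rw [h]
    simp [ht]
  have h1 : {x : K | ¬ Reg T x}.Finite := by
    have := stmtRegEv (K := K) T
    rwa [Filter.eventually_cofinite] at this
  refine (h1.union (stmtRevZeros (K := K) _ hne)).subset ?_
  intro x hx
  simp only [Set.mem_setOf_eq] at hx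
  by_cases hreg : Reg T x
  · right
    simp only [Set.mem_setOf_eq]
    rw [(hwEv_sub x T (RatFunc.C c) hreg (hwEv_C x c).1).2, hx, (hwEv_C x c).2, sub_self]
  · left
    exact hreg

end Fermat.Agent.HW


end ZBHW_001_3

/-! ### bundled: `Fermat.Agent.HW.ChordPt` -/
section ZBHW_001_4
/-
HW brick, piece HW-3b (helper12): the pointwise statements of `Plan.lean`
(`StmtEtaSq`, `StmtNegPt`, `StmtPtExt`, `StmtChord`, `StmtTangent`, `StmtExistsPt`,
`StmtFiberPt`, `StmtFrobPt`) in the `(ptX, ptEta)` coordinates of `Defs.lean`.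
Self-contained on top of Mathlib and `Plan.lean`.
-/

set_option autoImplicit false
set_option linter.unusedSectionVars false

open Polynomial

namespace Fermat.Agent.HW

open WeierstrassCurve WeierstrassCurve.Affine

noncomputable section

section Basic

variable {K : Type*} [Field K] [DecidableEq K] (E : WeierstrassCurve K)

@[simp] lemma cp_ptX_some {x y : K} (h : E.toAffine.Nonsingular x y) :
    ptX E (Point.some x y h) = x := rfl

@[simp] lemma cp_ptY_some {x y : K} (h : E.toAffine.Nonsingular x y) :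
    ptY E (Point.some x y h) = y := rfl

@[simp] lemma cp_ptEta_some {x y : K} (h : E.toAffine.Nonsingular x y) :
    ptEta E (Point.some x y h) = 2 * y + E.a₁ * x + E.a₃ := rfl

lemma cp_Psi2form_eq (x : K) :
    Psi2form E x = 4 * x ^ 3 + E.b₂ * x ^ 2 + 2 * E.b₄ * x + E.b₆ := by
  simp [Psi2form]

lemma cp_Gform_eq (x₁ x₂ : K) :
    Gform E x₁ x₂ = 2 * x₁ * x₂ * (x₁ + x₂) + E.b₂ * x₁ * x₂ + E.b₄ * (x₁ + x₂) + E.b₆ := by
  simp [Gform]

lemma cp_Fform_eq (x₁ x₂ : K) :
    Fform E x₁ x₂ = x₁ ^ 2 * x₂ ^ 2 - E.b₄ * x₁ * x₂ - E.b₆ * (x₁ + x₂) - E.b₈ := by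
  simp [Fform]

lemma cp_Pre4form_eq (x : K) :
    Pre4form E x = 2 * x ^ 6 + E.b₂ * x ^ 5 + 5 * E.b₄ * x ^ 4 + 10 * E.b₆ * x ^ 3
      + 10 * E.b₈ * x ^ 2 + (E.b₂ * E.b₈ - E.b₄ * E.b₆) * x + (E.b₄ * E.b₈ - E.b₆ ^ 2) := by
  simp [Pre4form, WeierstrassCurve.preΨ₄]

/-- the Weierstrass equation in the form `η² = 4x³ + b₂x² + 2b₄x + b₆`. -/
lemma cp_eta_sq_of_equation {x y : K} (h : E.toAffine.Equation x y) :
    (2 * y + E.a₁ * x + E.a₃) ^ 2 = 4 * x ^ 3 + E.b₂ * x ^ 2 + 2 * E.b₄ * x + E.b₆ := by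
  have h' := (Affine.equation_iff (W := E.toAffine) x y).mp h
  simp only [WeierstrassCurve.b₂, WeierstrassCurve.b₄, WeierstrassCurve.b₆]
  linear_combination 4 * h'

theorem cp_stmtEtaSq : StmtEtaSq E := by
  intro P hP
  cases P with
  | zero => exact absurd rfl hP
  | some x y h =>
    rw [cp_ptEta_some, cp_ptX_some, cp_Psi2form_eq]
    exact cp_eta_sq_of_equation E h.1

theorem cp_stmtNegPt : StmtNegPt E := by
  intro P hP
  cases P with
  | zero => exact absurd rfl hP
  | some x y h =>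
    rw [Point.neg_some]
    refine ⟨Point.some_ne_zero _, rfl, ?_⟩
    simp only [cp_ptEta_some, Affine.negY]
    ring

theorem cp_stmtPtExt : StmtPtExt E := by
  intro h2 P Q hP hQ hx hη
  cases P with
  | zero => exact absurd rfl hP
  | some x₁ y₁ h₁ =>
    cases Q with
    | zero => exact absurd rfl hQ
    | some x₂ y₂ h₂ =>
      simp only [cp_ptX_some, cp_ptEta_some] at hx hη
      subst hx
      have hy : y₁ = y₂ := by
        have : 2 * (y₁ - y₂) = 0 := by linear_combination hη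
        have := (mul_eq_zero.mp this).resolve_left h2
        exact sub_eq_zero.mp this
      subst hy
      rfl

theorem cp_stmtChord : StmtChord E := by
  intro h2 P Q hP hQ hx
  cases P with
  | zero => exact absurd rfl hP
  | some x₁ y₁ h₁ =>
    cases Q with
    | zero => exact absurd rfl hQ
    | some x₂ y₂ h₂ =>
      simp only [cp_ptX_some] at hx
      rw [Point.add_of_X_ne hx]
      have e₁ := (Affine.equation_iff (W := E.toAffine) x₁ y₁).mp h₁.1
      have e₂ := (Affine.equation_iff (W := E.toAffine) x₂ y₂).mp h₂.1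
      have hd : x₁ - x₂ ≠ 0 := sub_ne_zero.mpr hx
      refine ⟨Point.some_ne_zero _, ?_, ?_⟩
      · simp only [cp_ptX_some, cp_ptEta_some, cp_Gform_eq, Affine.addX,
          Affine.slope_of_X_ne hx, WeierstrassCurve.b₂, WeierstrassCurve.b₄,
          WeierstrassCurve.b₆]
        field_simp
        linear_combination 2 * e₁ + 2 * e₂
      · simp only [cp_ptX_some, cp_ptEta_some, Affine.addX, Affine.addY, Affine.negAddY,
          Affine.negY, Affine.slope_of_X_ne hx]
        field_simp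
        ring

/-- numerator identity for the `x`-coordinate of `2P`. -/
lemma cp_dup_x_num {x y : K} (h : E.toAffine.Equation x y) :
    (3 * x ^ 2 + 2 * E.a₂ * x + E.a₄ - E.a₁ * y) ^ 2
      + E.a₁ * (3 * x ^ 2 + 2 * E.a₂ * x + E.a₄ - E.a₁ * y) * (2 * y + E.a₁ * x + E.a₃)
      - (E.a₂ + 2 * x) * (2 * y + E.a₁ * x + E.a₃) ^ 2
      = x ^ 2 * x ^ 2 - E.b₄ * x * x - E.b₆ * (x + x) - E.b₈ := by
  have e := (Affine.equation_iff (W := E.toAffine) x y).mp h
  simp only [WeierstrassCurve.b₄, WeierstrassCurve.b₆, WeierstrassCurve.b₈]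
  linear_combination (-8 * x - E.a₁ ^ 2 - 4 * E.a₂) * e

/-- numerator identity for `η(2P)`. -/
lemma cp_dup_eta_num {x y : K} (h : E.toAffine.Equation x y) :
    -2 * (3 * x ^ 2 + 2 * E.a₂ * x + E.a₄ - E.a₁ * y)
        * ((x ^ 2 * x ^ 2 - E.b₄ * x * x - E.b₆ * (x + x) - E.b₈)
            - x * (2 * y + E.a₁ * x + E.a₃) ^ 2)
      - E.a₁ * (x ^ 2 * x ^ 2 - E.b₄ * x * x - E.b₆ * (x + x) - E.b₈)
          * (2 * y + E.a₁ * x + E.a₃)
      - (2 * y + E.a₃) * (2 * y + E.a₁ * x + E.a₃) ^ 3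
      = 2 * x ^ 6 + E.b₂ * x ^ 5 + 5 * E.b₄ * x ^ 4 + 10 * E.b₆ * x ^ 3
        + 10 * E.b₈ * x ^ 2 + (E.b₂ * E.b₈ - E.b₄ * E.b₆) * x + (E.b₄ * E.b₈ - E.b₆ ^ 2) := by
  have e := (Affine.equation_iff (W := E.toAffine) x y).mp h
  have e1 := cp_dup_x_num E h
  simp only [WeierstrassCurve.b₂, WeierstrassCurve.b₄, WeierstrassCurve.b₆,
    WeierstrassCurve.b₈] at e1 ⊢
  linear_combination
    (-16 * y ^ 2 - 16 * y * x * E.a₁ - 16 * y * E.a₃ + 56 * x ^ 3 + 10 * x ^ 2 * E.a₁ ^ 2
      + 56 * x ^ 2 * E.a₂ + x * E.a₁ ^ 4 + 8 * x * E.a₁ ^ 2 * E.a₂ - 4 * x * E.a₁ * E.a₃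
      + 16 * x * E.a₂ ^ 2 + 8 * x * E.a₄ + E.a₁ ^ 3 * E.a₃ + 2 * E.a₁ ^ 2 * E.a₄
      + 4 * E.a₁ * E.a₂ * E.a₃ + 8 * E.a₂ * E.a₄ - 8 * E.a₃ ^ 2 - 16 * E.a₆) * e
    + (2 * (3 * x ^ 2 + 2 * E.a₂ * x + E.a₄ - E.a₁ * y)
        + E.a₁ * (2 * y + E.a₁ * x + E.a₃)) * e1

theorem cp_stmtTangent : StmtTangent E := by
  intro P hP hη
  cases P with
  | zero => exact absurd rfl hP
  | some x y h =>
    simp only [cp_ptEta_some, cp_ptX_some] at hη ⊢
    have hden : y - E.toAffine.negY x y = 2 * y + E.a₁ * x + E.a₃ := by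
      simp only [Affine.negY]; ring
    have hy : y ≠ E.toAffine.negY x y := by
      intro h0
      apply hη
      rw [← hden, sub_eq_zero]
      exact h0
    rw [Point.add_self_of_Y_ne hy]
    have hΨ : Psi2form E x = (2 * y + E.a₁ * x + E.a₃) ^ 2 := by
      rw [cp_Psi2form_eq]; exact (cp_eta_sq_of_equation E h.1).symm
    have e1 := cp_dup_x_num E h.1
    have e2 := cp_dup_eta_num E h.1
    set η := 2 * y + E.a₁ * x + E.a₃ with hηdef
    set N := 3 * x ^ 2 + 2 * E.a₂ * x + E.a₄ - E.a₁ * y with hNdef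
    have hx3 : E.toAffine.addX x x (E.toAffine.slope x x y y) = Fform E x x / η ^ 2 := by
      rw [Affine.slope_of_Y_ne rfl hy, hden, eq_div_iff (pow_ne_zero 2 hη), cp_Fform_eq, ← e1]
      simp only [Affine.addX]
      field_simp
      ring
    refine ⟨Point.some_ne_zero _, ?_, ?_⟩
    · rw [cp_ptX_some, hΨ]
      exact hx3
    · rw [cp_ptEta_some, hΨ]
      simp only [Affine.addY, Affine.negAddY, Affine.negY]
      rw [hx3]
      rw [Affine.slope_of_Y_ne rfl hy, hden, cp_Pre4form_eq, ← e2, cp_Fform_eq]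
      field_simp
      ring

/-- the quadratic polynomial in `y` cutting out the points above `x`. -/
def cp_fiberPoly (x : K) : K[X] :=
  X ^ 2 + C (E.a₁ * x + E.a₃) * X - C (x ^ 3 + E.a₂ * x ^ 2 + E.a₄ * x + E.a₆)

lemma cp_fiberPoly_natDegree (x : K) : (cp_fiberPoly E x).natDegree = 2 := by
  unfold cp_fiberPoly
  compute_degree!

lemma cp_fiberPoly_ne_zero (x : K) : cp_fiberPoly E x ≠ 0 := by
  intro h
  have := cp_fiberPoly_natDegree E x
  rw [h] at this
  simp at this

lemma cp_fiberPoly_eval (x y : K) :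
    (cp_fiberPoly E x).eval y
      = y ^ 2 + E.a₁ * x * y + E.a₃ * y - (x ^ 3 + E.a₂ * x ^ 2 + E.a₄ * x + E.a₆) := by
  simp [cp_fiberPoly]; ring

lemma cp_equation_iff_root (x y : K) :
    E.toAffine.Equation x y ↔ (cp_fiberPoly E x).IsRoot y := by
  rw [Polynomial.IsRoot, cp_fiberPoly_eval, Affine.equation_iff, sub_eq_zero]

theorem cp_stmtExistsPt : StmtExistsPt E := by
  intro hK hΔ x
  have := hK
  have hdeg : (cp_fiberPoly E x).degree ≠ 0 := by
    rw [Polynomial.degree_eq_natDegree (cp_fiberPoly_ne_zero E x), cp_fiberPoly_natDegree]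
    norm_num
  obtain ⟨y, hy⟩ := IsAlgClosed.exists_root (cp_fiberPoly E x) hdeg
  have heq : E.toAffine.Equation x y := (cp_equation_iff_root E x y).mpr hy
  have hns : E.toAffine.Nonsingular x y :=
    (Affine.equation_iff_nonsingular_of_Δ_ne_zero (W := E.toAffine) hΔ).mp heq
  exact ⟨Point.some x y hns, Point.some_ne_zero _, rfl⟩

/-- coordinates of a point as an element of `Option (K × K)`. -/
def cp_coords : E.toAffine.Point → Option (K × K)
  | .zero => none
  | .some x y _ => some (x, y)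

lemma cp_coords_injective : Function.Injective (cp_coords E) := by
  intro P Q h
  cases P with
  | zero =>
    cases Q with
    | zero => rfl
    | some x y h' => simp [cp_coords] at h
  | some x y h' =>
    cases Q with
    | zero => simp [cp_coords] at h
    | some x' y' h'' =>
      simp only [cp_coords, Option.some.injEq, Prod.mk.injEq] at h
      obtain ⟨rfl, rfl⟩ := h
      rfl

theorem cp_stmtFiberPt : StmtFiberPt E := by
  intro x
  have hfin : (insert (none : Option (K × K))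
      ((fun y : K => some (x, y)) '' {y : K | (cp_fiberPoly E x).IsRoot y})).Finite :=
    ((Polynomial.finite_setOfPred_isRoot (cp_fiberPoly_ne_zero E x)).image _).insert _
  refine Set.Finite.of_finite_image (f := cp_coords E) (hfin.subset ?_)
    ((cp_coords_injective E).injOn)
  rintro _ ⟨P, hP, rfl⟩
  cases P with
  | zero => exact Set.mem_insert _ _
  | some x' y' h' =>
    have hx : x' = x := hP
    subst hx
    exact Set.mem_insert_of_mem _ ⟨y', (cp_equation_iff_root E x' y').mp h'.1, rfl⟩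

end Basic

section Frob

variable (p : ℕ) [Fact p.Prime] (W : WeierstrassCurve (ZMod p))
  (K : Type*) [Field K] [DecidableEq K] [Algebra (ZMod p) K]

lemma cp_frob_apply (x : K) : FiniteField.frobeniusAlgHom (ZMod p) K x = x ^ p := by
  simp [FiniteField.frobeniusAlgHom, ZMod.card]

lemma cp_algebraMap_pow (a : ZMod p) : (algebraMap (ZMod p) K a) ^ p = algebraMap (ZMod p) K a := by
  rw [← map_pow, ZMod.pow_card]

theorem cp_stmtFrobPt : StmtFrobPt p W K := by
  intro P hP
  have : CharP K p := by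
    have : CharP (ZMod p) p := ZMod.charP p
    exact charP_of_injective_algebraMap (algebraMap (ZMod p) K).injective p
  cases P with
  | zero => exact absurd rfl hP
  | some x y h =>
    have hmap := Point.map_some (W' := W) (FiniteField.frobeniusAlgHom (ZMod p) K) h
    rw [show frobPt p W K (Point.some x y h) = _ from hmap]
    refine ⟨Point.some_ne_zero _, ?_, ?_⟩
    · change FiniteField.frobeniusAlgHom (ZMod p) K x = x ^ p
      exact cp_frob_apply p K x
    · change 2 * FiniteField.frobeniusAlgHom (ZMod p) K y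
          + (EK p W K).a₁ * FiniteField.frobeniusAlgHom (ZMod p) K x + (EK p W K).a₃
        = (2 * y + (EK p W K).a₁ * x + (EK p W K).a₃) ^ p
      rw [cp_frob_apply, cp_frob_apply]
      have h2 : ((2 : K)) ^ p = 2 := by
        have := cp_algebraMap_pow p K (2 : ZMod p)
        rwa [map_ofNat] at this
      have ha1 : (EK p W K).a₁ ^ p = (EK p W K).a₁ := by
        simpa [EK] using cp_algebraMap_pow p K W.a₁
      have ha3 : (EK p W K).a₃ ^ p = (EK p W K).a₃ := by
        simpa [EK] using cp_algebraMap_pow p K W.a₃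
      rw [add_pow_char, add_pow_char, mul_pow, mul_pow, h2, ha1]
      rw [ha3]

end Frob

end

end Fermat.Agent.HW


end ZBHW_001_4

/-! ### bundled: `Fermat.Agent.HW.RepBasic` -/
section ZBHW_001_5

/-!
# HW-3a : represented maps (helper81)

Proofs of `StmtRepId`, `StmtRepNeg`, `StmtRepEtaSq`, `StmtRepUnique`, `StmtRepNonconst`,
`StmtRepInj`, `StmtRepComp` of `Plan.lean`.  The statements of HW-1a (`Eval.lean`) and HW-3b
(pointwise formulas) that are used are taken as explicit hypotheses, so that this file only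
depends on `Plan.lean`.
-/

set_option autoImplicit false
set_option linter.unusedVariables false
set_option linter.unusedSectionVars false

open Polynomial

namespace Fermat.Agent.HW

noncomputable section

section RepBasic

variable {K : Type*} [Field K] [DecidableEq K] (E : WeierstrassCurve K)

/-! ### generalities -/

theorem rb_rep_iff (α : E.toAffine.Point → E.toAffine.Point) (R S : RatFunc K) :
    Rep E α R S ↔ {P | ¬ GoodAt E α R S P}.Finite :=
  Filter.eventually_cofinite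

/-- all but finitely many `x` are `x`-coordinates of a point outside a given finite set -/
theorem rb_infinite_x [Infinite K]
    (hEx : ∀ x : K, ∃ P : E.toAffine.Point, P ≠ 0 ∧ ptX E P = x)
    {Bad : Set E.toAffine.Point} (hBad : Bad.Finite) :
    {x : K | ∃ P : E.toAffine.Point, P ∉ Bad ∧ P ≠ 0 ∧ ptX E P = x}.Infinite := by
  have hfin : {x : K | ¬ ∃ P : E.toAffine.Point, P ∉ Bad ∧ P ≠ 0 ∧ ptX E P = x}.Finite := by
    refine (hBad.image (ptX E)).subset ?_
    intro x hx
    obtain ⟨P, hP0, hPx⟩ := hEx x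
    refine ⟨P, ?_, hPx⟩
    by_contra hPB
    exact hx ⟨P, hPB, hP0, hPx⟩
  have := hfin.infinite_compl
  simpa [Set.compl_def] using this

/-- the group of points is infinite -/
theorem rb_infinite_points [Infinite K]
    (hEx : ∀ x : K, ∃ P : E.toAffine.Point, P ≠ 0 ∧ ptX E P = x) :
    Infinite E.toAffine.Point := by
  choose f hf0 hfx using hEx
  exact Infinite.of_injective f (fun x y hxy => by rw [← hfx x, ← hfx y, hxy])

/-- in an infinite group every element is a sum of two elements of a cofinite set -/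
theorem rb_exists_add {G : Type*} [AddCommGroup G] [Infinite G] {Bad : Set G} (hBad : Bad.Finite)
    (g : G) : ∃ u v : G, u ∉ Bad ∧ v ∉ Bad ∧ g = u + v := by
  have h1 : (Bad ∪ (fun u => g - u) '' Bad).Finite := hBad.union (hBad.image _)
  obtain ⟨u, hu⟩ := h1.infinite_compl.nonempty
  rw [Set.mem_compl_iff, Set.mem_union, not_or] at hu
  refine ⟨u, g - u, hu.1, ?_, by abel⟩
  intro hgu
  exact hu.2 ⟨g - u, hgu, sub_sub_cancel g u⟩

/-! ### `StmtRepId` -/

theorem repId : StmtRepId E := by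
  intro _
  rw [Rep, Filter.eventually_cofinite]
  refine (Set.finite_singleton (0 : E.toAffine.Point)).subset ?_
  intro P hP
  by_contra h0
  apply hP
  refine ⟨h0, h0, ?_, ?_, ?_, ?_⟩
  · simp [Reg, RatFunc.denom_X]
  · simp [Reg, RatFunc.denom_one]
  · simp [rev, RatFunc.eval_X]
  · simp [rev, RatFunc.eval_one]

/-! ### `StmtRepNeg` -/

theorem repNeg (hRing : StmtRevRing K) (hNeg : StmtNegPt E) : StmtRepNeg E := by
  intro _ α R S hα
  rw [rb_rep_iff] at hα ⊢
  refine hα.subset ?_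
  intro P hP hgood
  apply hP
  obtain ⟨hP0, hαP, hR, hS, hx, hη⟩ := hgood
  obtain ⟨hn0, hnx, hnη⟩ := hNeg (α P) hαP
  obtain ⟨-, -, ⟨hSreg, hSrev⟩, -, -⟩ := hRing (ptX E P) S S hS hS
  refine ⟨hP0, ?_, hR, hSreg, ?_, ?_⟩
  · rw [Pi.neg_apply]; exact hn0
  · rw [Pi.neg_apply, hnx, hx]
  · rw [Pi.neg_apply, hnη, hη, hSrev]; ring

/-! ### evaluation of `Psi2form` -/

/-- `R` is regular at `x` with value `v`. -/
def RV (R : RatFunc K) (x v : K) : Prop := Reg R x ∧ rev R x = v

theorem RV.add (hRing : StmtRevRing K) {R S : RatFunc K} {x v w : K} (h₁ : RV R x v)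
    (h₂ : RV S x w) : RV (R + S) x (v + w) := by
  obtain ⟨⟨h, e⟩, -⟩ := hRing x R S h₁.1 h₂.1
  exact ⟨h, by rw [e, h₁.2, h₂.2]⟩

theorem RV.mul (hRing : StmtRevRing K) {R S : RatFunc K} {x v w : K} (h₁ : RV R x v)
    (h₂ : RV S x w) : RV (R * S) x (v * w) := by
  obtain ⟨-, ⟨h, e⟩, -⟩ := hRing x R S h₁.1 h₂.1
  exact ⟨h, by rw [e, h₁.2, h₂.2]⟩

theorem RV.pow (hBase : StmtRevBase K) {R : RatFunc K} {x v : K} (h₁ : RV R x v) (n : ℕ) :
    RV (R ^ n) x (v ^ n) := by
  obtain ⟨h, e⟩ := (hBase x).2.2.2 R n h₁.1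
  exact ⟨h, by rw [e, h₁.2]⟩

theorem RV.const (hBase : StmtRevBase K) (c x : K) : RV (RatFunc.C c) x c :=
  (hBase x).1 c

theorem RV.algMap (hBase : StmtRevBase K) (c x : K) : RV (algebraMap K (RatFunc K) c) x c := by
  rw [RatFunc.algebraMap_eq_C]
  exact RV.const hBase c x

theorem RV.ofNat (hBase : StmtRevBase K) (n : ℕ) (x : K) : RV ((n : RatFunc K)) x (n : K) := by
  have := RV.const hBase (n : K) x
  rwa [map_natCast] at this

theorem RV.X (hBase : StmtRevBase K) (x : K) : RV (RatFunc.X : RatFunc K) x x :=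
  (hBase x).2.1

theorem RV.psi2 (hRing : StmtRevRing K) (hBase : StmtRevBase K) {R : RatFunc K} {x v : K}
    (h : RV R x v) : RV (Psi2form E R) x (Psi2form E v) := by
  unfold Psi2form
  have h4 : RV (4 : RatFunc K) x (4 : K) := by
    have := RV.ofNat hBase 4 x
    simpa using this
  have h2 : RV (2 : RatFunc K) x (2 : K) := by
    have := RV.ofNat hBase 2 x
    simpa using this
  have hb (c : K) : RV (algebraMap K (RatFunc K) c) x (algebraMap K K c) := by
    rw [Algebra.algebraMap_self, RingHom.id_apply]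
    exact RV.algMap hBase c x
  exact (((h4.mul hRing (h.pow hBase 3)).add hRing ((hb E.b₂).mul hRing (h.pow hBase 2))).add hRing
    ((h2.mul hRing (hb E.b₄)).mul hRing h)).add hRing (hb E.b₆)

/-! ### `StmtRepEtaSq` -/

theorem repEtaSq (hRing : StmtRevRing K) (hBase : StmtRevBase K) (hExt : StmtRatExt K)
    (hEta : StmtEtaSq E) (hEx : StmtExistsPt E) : StmtRepEtaSq E := by
  intro hyp α R S hα
  have := hyp.algClosed
  have : Infinite K := IsAlgClosed.instInfinite
  rw [rb_rep_iff] at hα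
  apply hExt
  refine (rb_infinite_x E (hEx hyp.algClosed hyp.disc_ne) hα).mono ?_
  rintro x ⟨P, hPgood, hP0, rfl⟩
  obtain ⟨-, hαP, hR, hS, hx, hη⟩ := not_not.mp hPgood
  have e1 := hEta (α P) hαP
  have e2 := hEta P hP0
  have r1 : RV (Psi2form E R) (ptX E P) (Psi2form E (rev R (ptX E P))) :=
    RV.psi2 E hRing hBase ⟨hR, rfl⟩
  have r2 : RV (Psi2form E RatFunc.X * S ^ 2) (ptX E P)
      (Psi2form E (ptX E P) * rev S (ptX E P) ^ 2) :=
    (RV.psi2 E hRing hBase (RV.X hBase _)).mul hRing (RV.pow hBase ⟨hS, rfl⟩ 2)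
  refine ⟨r1.1, r2.1, ?_⟩
  rw [r1.2, r2.2, ← hx, ← e1, hη, ← e2]
  ring

/-! ### points with `η = 0` -/

theorem rb_finite_eta_zero (h2 : (2 : K) ≠ 0) (hEta : StmtEtaSq E) (hFiber : StmtFiberPt E) :
    {P : E.toAffine.Point | ptEta E P = 0}.Finite := by
  set q : K[X] := C 4 * X ^ 3 + C E.b₂ * X ^ 2 + C (2 * E.b₄) * X + C E.b₆ with hq
  have h4 : (4 : K) ≠ 0 := by
    have : (4 : K) = 2 * 2 := by norm_num
    rw [this]; exact mul_ne_zero h2 h2
  have hq0 : q ≠ 0 := by
    intro h0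
    have := congrArg (fun f : K[X] => f.coeff 3) h0
    simp [hq, coeff_X_pow] at this
    exact h4 this
  have hroots : {x : K | q.eval x = 0}.Finite := by
    refine (q.roots.toFinset.finite_toSet).subset ?_
    intro x hx
    simp only [Finset.mem_coe, Multiset.mem_toFinset]
    exact (mem_roots hq0).mpr hx
  have hfin : (⋃ x ∈ {x : K | q.eval x = 0}, {P : E.toAffine.Point | ptX E P = x}).Finite :=
    hroots.biUnion fun x _ => hFiber x
  refine (hfin.union (Set.finite_singleton (0 : E.toAffine.Point))).subset ?_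
  intro P hP
  by_cases hP0 : P = 0
  · exact Or.inr hP0
  · left
    simp only [Set.mem_iUnion, Set.mem_ofPred_eq, exists_prop]
    refine ⟨ptX E P, ?_, rfl⟩
    have e := hEta P hP0
    rw [Set.mem_ofPred_eq] at hP
    rw [hP] at e
    simp only [Psi2form, Algebra.algebraMap_self, RingHom.id_apply] at e
    simp only [hq, eval_add, eval_mul, eval_C, eval_pow, eval_X]
    linear_combination -e

/-! ### `StmtRepUnique` -/

theorem repUnique (hExt : StmtRatExt K) (hEta : StmtEtaSq E) (hEx : StmtExistsPt E)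
    (hFiber : StmtFiberPt E) : StmtRepUnique E := by
  intro hyp α R S R' S' h₁ h₂
  have := hyp.algClosed
  have : Infinite K := IsAlgClosed.instInfinite
  rw [rb_rep_iff] at h₁ h₂
  have hBad := (h₁.union h₂).union (rb_finite_eta_zero E hyp.two_ne hEta hFiber)
  have hinf := rb_infinite_x E (hEx hyp.algClosed hyp.disc_ne) hBad
  constructor
  · apply hExt
    refine hinf.mono ?_
    rintro x ⟨P, hPB, hP0, rfl⟩
    simp only [Set.mem_union, Set.mem_ofPred_eq, not_or, not_not] at hPB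
    obtain ⟨⟨g₁, g₂⟩, -⟩ := hPB
    exact ⟨g₁.2.2.1, g₂.2.2.1, by rw [← g₁.2.2.2.2.1, ← g₂.2.2.2.2.1]⟩
  · apply hExt
    refine hinf.mono ?_
    rintro x ⟨P, hPB, hP0, rfl⟩
    simp only [Set.mem_union, Set.mem_ofPred_eq, not_or, not_not] at hPB
    obtain ⟨⟨g₁, g₂⟩, hη⟩ := hPB
    refine ⟨g₁.2.2.2.1, g₂.2.2.2.1, ?_⟩
    have := g₁.2.2.2.2.2.symm.trans g₂.2.2.2.2.2
    exact mul_left_cancel₀ hη this

/-! ### `StmtRepNonconst` -/

theorem repNonconst (hBase : StmtRevBase K) (hConst : StmtHtConst K) (hEx : StmtExistsPt E)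
    (hFiber : StmtFiberPt E) : StmtRepNonconst E := by
  intro hyp α R S hα hht
  have := hyp.algClosed
  have : Infinite K := IsAlgClosed.instInfinite
  have : Infinite E.toAffine.Point := rb_infinite_points E (hEx hyp.algClosed hyp.disc_ne)
  obtain ⟨c, rfl⟩ := (hConst R).mp hht
  rw [rb_rep_iff] at hα
  set Bad : Set E.toAffine.Point := {P | ¬ GoodAt E (⇑α) (RatFunc.C c) S P} with hBadDef
  set F : Set E.toAffine.Point := {Q | ptX E Q = c} with hF
  have hFfin : F.Finite := hFiber c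
  have hmaps : ∀ P : (Badᶜ : Set E.toAffine.Point), α P ∈ F := by
    rintro ⟨P, hP⟩
    have hg : GoodAt E (⇑α) (RatFunc.C c) S P := not_not.mp hP
    show ptX E (α P) = c
    rw [hg.2.2.2.2.1]
    exact ((hBase (ptX E P)).1 c).2
  have : Infinite (Badᶜ : Set E.toAffine.Point) := hα.infinite_compl.to_subtype
  have : Finite F := hFfin.to_subtype
  obtain ⟨y, hy⟩ := Finite.exists_infinite_fiber
    (fun P : (Badᶜ : Set E.toAffine.Point) => (⟨α P, hmaps P⟩ : F))
  obtain ⟨⟨P₁, hP₁⟩⟩ := hy.nonempty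
  have : Finite Bad := hα.to_subtype
  have hmem : ∀ P : ((fun P : (Badᶜ : Set E.toAffine.Point) => (⟨α P, hmaps P⟩ : F)) ⁻¹' {y}),
      (P : E.toAffine.Point) - (P₁ : E.toAffine.Point) ∈ Bad := by
    rintro ⟨P, hP⟩
    intro hg
    apply hg.2.1
    have e1 : (⟨α P, hmaps P⟩ : F) = y := hP
    have e2 : (⟨α P₁, hmaps P₁⟩ : F) = y := hP₁
    have e3 : α (P : E.toAffine.Point) = α (P₁ : E.toAffine.Point) :=
      congrArg Subtype.val (e1.trans e2.symm)
    show α ((P : E.toAffine.Point) - (P₁ : E.toAffine.Point)) = 0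
    rw [map_sub, e3, sub_self]
  have hinj : Function.Injective
      (fun P : ((fun P : (Badᶜ : Set E.toAffine.Point) => (⟨α P, hmaps P⟩ : F)) ⁻¹' {y}) =>
        (⟨(P : E.toAffine.Point) - (P₁ : E.toAffine.Point), hmem P⟩ : Bad)) := by
    intro P Q hPQ
    have := congrArg Subtype.val hPQ
    simp only [sub_left_inj] at this
    exact Subtype.ext (Subtype.ext this)
  have hfinFib : Finite ((fun P : (Badᶜ : Set E.toAffine.Point) =>
      (⟨α P, hmaps P⟩ : F)) ⁻¹' {y}) := Finite.of_injective _ hinj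
  exact _root_.not_finite ((fun P : (Badᶜ : Set E.toAffine.Point) =>
      (⟨α P, hmaps P⟩ : F)) ⁻¹' {y})

/-! ### `StmtRepInj` -/

theorem repInj (hPtExt : StmtPtExt E) (hEx : StmtExistsPt E) : StmtRepInj E := by
  intro hyp α β R S hα hβ
  have := hyp.algClosed
  have : Infinite K := IsAlgClosed.instInfinite
  have : Infinite E.toAffine.Point := rb_infinite_points E (hEx hyp.algClosed hyp.disc_ne)
  rw [rb_rep_iff] at hα hβ
  have hBad := hα.union hβ
  have key : ∀ P : E.toAffine.Point, P ∉ {P | ¬ GoodAt E (⇑α) R S P} ∪ {P | ¬ GoodAt E (⇑β) R S P} →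
      α P = β P := by
    intro P hP
    simp only [Set.mem_union, Set.mem_ofPred_eq, not_or, not_not] at hP
    obtain ⟨g₁, g₂⟩ := hP
    exact hPtExt hyp.two_ne _ _ g₁.2.1 g₂.2.1 (g₁.2.2.2.2.1.trans g₂.2.2.2.2.1.symm)
      (g₁.2.2.2.2.2.trans g₂.2.2.2.2.2.symm)
  ext g
  obtain ⟨u, v, hu, hv, rfl⟩ := rb_exists_add hBad g
  rw [map_add, map_add, key u hu, key v hv]

/-! ### `StmtRepComp` -/

theorem repComp (hRing : StmtRevRing K) (hComp : StmtRevComp K) (hRevFiber : StmtRevFiber K)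
    (hFiber : StmtFiberPt E) : StmtRepComp E := by
  intro hyp α β R S R' S' hα hβ hht
  rw [rb_rep_iff] at hα hβ ⊢
  -- points that `β` sends to a bad point of `α`
  have hfin2 : (⋃ Q ∈ {Q | ¬ GoodAt E α R S Q},
      ⋃ x ∈ {x : K | rev R' x = ptX E Q}, {P : E.toAffine.Point | ptX E P = x}).Finite :=
    hα.biUnion fun Q _ => (hRevFiber R' hht (ptX E Q)).biUnion fun x _ => hFiber x
  refine (hβ.union hfin2).subset ?_
  intro P hP
  by_contra hcon
  rw [Set.mem_union, not_or] at hcon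
  obtain ⟨hβP, hP2⟩ := hcon
  have gβ : GoodAt E β R' S' P := not_not.mp hβP
  have gα : GoodAt E α R S (β P) := by
    by_contra hbad
    apply hP2
    simp only [Set.mem_iUnion, Set.mem_ofPred_eq, exists_prop]
    exact ⟨β P, hbad, ptX E P, gβ.2.2.2.2.1.symm, rfl⟩
  apply hP
  obtain ⟨hP0, hβ0, hR', hS', hxβ, hηβ⟩ := gβ
  obtain ⟨-, hα0, hR, hS, hxα, hηα⟩ := gα
  rw [hxβ] at hR hS
  obtain ⟨c1, c2⟩ := hComp (ptX E P) R R' hR' hR
  obtain ⟨c3, c4⟩ := hComp (ptX E P) S R' hR' hS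
  obtain ⟨-, ⟨m1, m2⟩, -⟩ := hRing (ptX E P) S' (rcomp S R') hS' c3
  refine ⟨hP0, hα0, c1, m1, ?_, ?_⟩
  · rw [Function.comp_apply, hxα, hxβ, c2]
  · rw [Function.comp_apply, hηα, hηβ, hxβ, m2, c4]
    ring

end RepBasic

end

end Fermat.Agent.HW


end ZBHW_001_5

/-! ### bundled: `Fermat.Agent.HW.RepAdd` -/
section ZBHW_001_6

/-!
# HW-3c : sum and duplication rules for represented maps (helper46)

* `stmtSumProd : StmtSumProd E` (pure algebra in `RatFunc K`);
* `stmtRepAdd_of`, `stmtRepDup_of` : `StmtRepAdd E`, `StmtRepDup E` from the statements of HW-1a / HW-3a / HW-3b.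
-/

set_option autoImplicit false

open Polynomial

namespace Fermat.Agent.HW

noncomputable section

section SumProd

variable {K : Type*} [Field K] (E : WeierstrassCurve K)

/-- the classical identity `G² − Ψ₂²(x₁)Ψ₂²(x₂) = 4 (x₁ − x₂)² F` in any commutative `K`-algebra -/
theorem Gform_sq_sub {A : Type*} [CommRing A] [Algebra K A] (x₁ x₂ : A) :
    Gform E x₁ x₂ ^ 2 - Psi2form E x₁ * Psi2form E x₂ = 4 * (x₁ - x₂) ^ 2 * Fform E x₁ x₂ := by
  have hb : algebraMap K A E.b₂ * algebraMap K A E.b₆ - algebraMap K A E.b₄ ^ 2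
      = 4 * algebraMap K A E.b₈ := by
    have := congrArg (algebraMap K A) E.b_relation
    simp only [map_mul, map_sub, map_pow, map_ofNat] at this
    linear_combination -this
  simp only [Gform, Psi2form, Fform]
  linear_combination (-(x₁ - x₂) ^ 2) * hb

theorem stmtSumProd : StmtSumProd E := by
  intro h2 R₁ S₁ R₂ S₂ hne h1 h2'
  have hd : R₁ - R₂ ≠ 0 := sub_ne_zero.mpr hne
  have h2K : (2 : RatFunc K) ≠ 0 := by
    intro h
    apply h2
    have : (algebraMap K (RatFunc K)) 2 = 0 := by rw [map_ofNat]; exact h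
    exact (map_eq_zero _).mp this
  have hden : (2 * (R₁ - R₂) ^ 2 : RatFunc K) ≠ 0 := mul_ne_zero h2K (pow_ne_zero 2 hd)
  have key := Gform_sq_sub E R₁ R₂
  constructor
  · simp only [sumR]
    field_simp
    ring
  · simp only [sumR]
    field_simp
    linear_combination key + (Psi2form E R₂) * h1 + (Psi2form E RatFunc.X * S₁ ^ 2) * h2'

end SumProd

/-! ### regular values -/

section RegVal

variable {K : Type*} [Field K]

/-- `R` is regular at `x` with value `v` -/
def RegVal (R : RatFunc K) (x v : K) : Prop := Reg R x ∧ rev R x = v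

variable (hRing : StmtRevRing K) (hBase : StmtRevBase K)
include hRing hBase

omit hRing in
theorem RegVal.const (x c : K) : RegVal (RatFunc.C c) x c := (hBase x).1 c

omit hRing in
theorem RegVal.algMap (x c : K) : RegVal (algebraMap K (RatFunc K) c) x c := by
  rw [RatFunc.algebraMap_eq_C]; exact (hBase x).1 c

omit hRing in
theorem RegVal.two (x : K) : RegVal (2 : RatFunc K) x 2 := by
  have : (2 : RatFunc K) = RatFunc.C 2 := (map_ofNat RatFunc.C 2).symm
  rw [this]; exact (hBase x).1 2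

omit hRing in
theorem RegVal.four (x : K) : RegVal (4 : RatFunc K) x 4 := by
  have : (4 : RatFunc K) = RatFunc.C 4 := (map_ofNat RatFunc.C 4).symm
  rw [this]; exact (hBase x).1 4

omit hRing in
theorem RegVal.X (x : K) : RegVal (RatFunc.X : RatFunc K) x x := (hBase x).2.1

omit hRing in
theorem RegVal.pow {R : RatFunc K} {x v : K} (h : RegVal R x v) (n : ℕ) :
    RegVal (R ^ n) x (v ^ n) := by
  obtain ⟨h1, h2⟩ := (hBase x).2.2.2 R n h.1
  exact ⟨h1, by rw [h2, h.2]⟩

omit hBase in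
theorem RegVal.add {R S : RatFunc K} {x v w : K} (h : RegVal R x v) (h' : RegVal S x w) :
    RegVal (R + S) x (v + w) := by
  obtain ⟨h1, h2⟩ := (hRing x R S h.1 h'.1).1
  exact ⟨h1, by rw [h2, h.2, h'.2]⟩

omit hBase in
theorem RegVal.mul {R S : RatFunc K} {x v w : K} (h : RegVal R x v) (h' : RegVal S x w) :
    RegVal (R * S) x (v * w) := by
  obtain ⟨h1, h2⟩ := (hRing x R S h.1 h'.1).2.1
  exact ⟨h1, by rw [h2, h.2, h'.2]⟩

omit hBase in
theorem RegVal.neg {R : RatFunc K} {x v : K} (h : RegVal R x v) :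
    RegVal (-R) x (-v) := by
  obtain ⟨h1, h2⟩ := (hRing x R R h.1 h.1).2.2.1
  exact ⟨h1, by rw [h2, h.2]⟩

omit hBase in
theorem RegVal.sub {R S : RatFunc K} {x v w : K} (h : RegVal R x v) (h' : RegVal S x w) :
    RegVal (R - S) x (v - w) := by
  obtain ⟨h1, h2⟩ := (hRing x R S h.1 h'.1).2.2.2.1
  exact ⟨h1, by rw [h2, h.2, h'.2]⟩

omit hBase in
theorem RegVal.div {R S : RatFunc K} {x v w : K} (h : RegVal R x v) (h' : RegVal S x w)
    (hw : w ≠ 0) : RegVal (R / S) x (v / w) := by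
  obtain ⟨h1, h2⟩ := (hRing x R S h.1 h'.1).2.2.2.2 (by rw [h'.2]; exact hw)
  exact ⟨h1, by rw [h2, h.2, h'.2]⟩

variable (E : WeierstrassCurve K)

theorem RegVal.gform {R₁ R₂ : RatFunc K} {x v₁ v₂ : K} (h₁ : RegVal R₁ x v₁)
    (h₂ : RegVal R₂ x v₂) : RegVal (Gform E R₁ R₂) x (Gform E v₁ v₂) := by
  unfold Gform
  have a : ∀ {R S : RatFunc K} {x v w : K}, RegVal R x v → RegVal S x w →
      RegVal (R + S) x (v + w) := fun h h' => RegVal.add hRing h h'
  have m : ∀ {R S : RatFunc K} {x v w : K}, RegVal R x v → RegVal S x w →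
      RegVal (R * S) x (v * w) := fun h h' => RegVal.mul hRing h h'
  exact a (a (a (m (m (m (RegVal.two hBase x) h₁) h₂) (a h₁ h₂))
    (m (m (RegVal.algMap hBase x _) h₁) h₂))
    (m (RegVal.algMap hBase x _) (a h₁ h₂))) (RegVal.algMap hBase x _)

theorem RegVal.fform {R₁ R₂ : RatFunc K} {x v₁ v₂ : K} (h₁ : RegVal R₁ x v₁)
    (h₂ : RegVal R₂ x v₂) : RegVal (Fform E R₁ R₂) x (Fform E v₁ v₂) := by
  unfold Fform
  have a : ∀ {R S : RatFunc K} {x v w : K}, RegVal R x v → RegVal S x w →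
      RegVal (R + S) x (v + w) := fun h h' => RegVal.add hRing h h'
  have sb : ∀ {R S : RatFunc K} {x v w : K}, RegVal R x v → RegVal S x w →
      RegVal (R - S) x (v - w) := fun h h' => RegVal.sub hRing h h'
  have m : ∀ {R S : RatFunc K} {x v w : K}, RegVal R x v → RegVal S x w →
      RegVal (R * S) x (v * w) := fun h h' => RegVal.mul hRing h h'
  have pw : ∀ {R : RatFunc K} {x v : K}, RegVal R x v → ∀ n : ℕ,
      RegVal (R ^ n) x (v ^ n) := fun h n => RegVal.pow hBase h n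
  exact sb (sb (sb (m (pw h₁ 2) (pw h₂ 2)) (m (m (RegVal.algMap hBase x _) h₁) h₂))
    (m (RegVal.algMap hBase x _) (a h₁ h₂))) (RegVal.algMap hBase x _)

theorem RegVal.psi2form {R : RatFunc K} {x v : K} (h : RegVal R x v) :
    RegVal (Psi2form E R) x (Psi2form E v) := by
  unfold Psi2form
  have a : ∀ {R S : RatFunc K} {x v w : K}, RegVal R x v → RegVal S x w →
      RegVal (R + S) x (v + w) := fun h h' => RegVal.add hRing h h'
  have m : ∀ {R S : RatFunc K} {x v w : K}, RegVal R x v → RegVal S x w →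
      RegVal (R * S) x (v * w) := fun h h' => RegVal.mul hRing h h'
  have pw : ∀ {R : RatFunc K} {x v : K}, RegVal R x v → ∀ n : ℕ,
      RegVal (R ^ n) x (v ^ n) := fun h n => RegVal.pow hBase h n
  exact a (a (a (m (RegVal.four hBase x) (pw h 3)) (m (RegVal.algMap hBase x _) (pw h 2)))
    (m (m (RegVal.two hBase x) (RegVal.algMap hBase x _)) h)) (RegVal.algMap hBase x _)

theorem RegVal.aeval {R : RatFunc K} {x v : K} (h : RegVal R x v) (q : K[X]) :
    RegVal (Polynomial.aeval R q) x (Polynomial.aeval v q) := by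
  induction q using Polynomial.induction_on with
  | C a =>
    simp only [Polynomial.aeval_C]
    exact RegVal.algMap hBase x a
  | add p q hp hq =>
    simp only [map_add]
    exact RegVal.add hRing hp hq
  | monomial n a ih =>
    simp only [map_mul, Polynomial.aeval_C, map_pow, Polynomial.aeval_X]
    exact RegVal.mul hRing (RegVal.algMap hBase x a) (RegVal.pow hBase h (n + 1))

theorem RegVal.pre4form {R : RatFunc K} {x v : K} (h : RegVal R x v) :
    RegVal (Pre4form E R) x (Pre4form E v) :=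
  RegVal.aeval hRing hBase h _

end RegVal

/-! ### the sum rule -/

section RepAdd

variable {K : Type*} [Field K] [DecidableEq K] (E : WeierstrassCurve K)

omit [DecidableEq K] in
/-- points lying over a finite set of `x`-coordinates form a finite set -/
theorem finite_ptX_mem (hFib : StmtFiberPt E) {X₀ : Set K} (hX : X₀.Finite) :
    {P : E.toAffine.Point | ptX E P ∈ X₀}.Finite := by
  have : {P : E.toAffine.Point | ptX E P ∈ X₀} = ⋃ x ∈ X₀, {P | ptX E P = x} := by
    ext P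
    simp
  rw [this]
  exact hX.biUnion (fun x _ => hFib x)

/-- **Sum rule.** -/
theorem stmtRepAdd_of (hRing : StmtRevRing K) (hBase : StmtRevBase K) (hExt : StmtRatExt K)
    (hEta : StmtEtaSq E) (hChord : StmtChord E) (hFib : StmtFiberPt E) : StmtRepAdd E := by
  intro hyp α β R₁ S₁ R₂ S₂ hα hβ hne
  have h2 := hyp.two_ne
  -- the finitely many `x` where `R₁ = R₂`
  have hfin : {x : K | Reg R₁ x ∧ Reg R₂ x ∧ rev R₁ x = rev R₂ x}.Finite := by
    by_contra hinf
    exact hne (hExt R₁ R₂ hinf)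
  have hev : ∀ᶠ P in Filter.cofinite,
      ¬ (Reg R₁ (ptX E P) ∧ Reg R₂ (ptX E P) ∧ rev R₁ (ptX E P) = rev R₂ (ptX E P)) :=
    (finite_ptX_mem E hFib hfin).compl_mem_cofinite
  unfold Rep at hα hβ ⊢
  filter_upwards [hα, hβ, hev] with P hP₁ hP₂ hP₃
  obtain ⟨hP0, hα0, hR₁, hS₁, hx₁, hη₁⟩ := hP₁
  obtain ⟨-, hβ0, hR₂, hS₂, hx₂, hη₂⟩ := hP₂
  set x := ptX E P with hx
  have hxne : rev R₁ x ≠ rev R₂ x := fun h => hP₃ ⟨hR₁, hR₂, h⟩
  have hxne' : ptX E (α P) ≠ ptX E (β P) := by rw [hx₁, hx₂]; exact hxne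
  obtain ⟨hsum0, hsumx, hsumη⟩ := hChord h2 (α P) (β P) hα0 hβ0 hxne'
  -- regular values
  have r₁ : RegVal R₁ x (rev R₁ x) := ⟨hR₁, rfl⟩
  have r₂ : RegVal R₂ x (rev R₂ x) := ⟨hR₂, rfl⟩
  have s₁ : RegVal S₁ x (rev S₁ x) := ⟨hS₁, rfl⟩
  have s₂ : RegVal S₂ x (rev S₂ x) := ⟨hS₂, rfl⟩
  have hd : rev R₁ x - rev R₂ x ≠ 0 := sub_ne_zero.mpr hxne
  have hden : (2 : K) * (rev R₁ x - rev R₂ x) ^ 2 ≠ 0 := mul_ne_zero h2 (pow_ne_zero 2 hd)
  have rsum : RegVal (sumR E R₁ S₁ R₂ S₂) x
      ((Gform E (rev R₁ x) (rev R₂ x) - Psi2form E x * rev S₁ x * rev S₂ x)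
        / (2 * (rev R₁ x - rev R₂ x) ^ 2)) := by
    unfold sumR
    exact RegVal.div hRing
      (RegVal.sub hRing (RegVal.gform hRing hBase E r₁ r₂)
        (RegVal.mul hRing (RegVal.mul hRing
          (RegVal.psi2form hRing hBase E (RegVal.X hBase x)) s₁) s₂))
      (RegVal.mul hRing (RegVal.two hBase x)
        (RegVal.pow hBase (RegVal.sub hRing r₁ r₂) 2)) hden
  have hηsq : ptEta E P ^ 2 = Psi2form E x := hEta P hP0
  have hxsum : ptX E (α P + β P) = rev (sumR E R₁ S₁ R₂ S₂) x := by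
    rw [rsum.2, hsumx, hx₁, hx₂, hη₁, hη₂, ← hηsq]
    ring
  have rsumS : RegVal (sumS E R₁ S₁ R₂ S₂) x
      (-(rev S₁ x - rev S₂ x) * (rev (sumR E R₁ S₁ R₂ S₂) x - rev R₁ x)
        / (rev R₁ x - rev R₂ x) - rev S₁ x) := by
    unfold sumS
    exact RegVal.sub hRing
      (RegVal.div hRing
        (RegVal.mul hRing (RegVal.neg hRing (RegVal.sub hRing s₁ s₂))
          (RegVal.sub hRing ⟨rsum.1, rfl⟩ r₁))
        (RegVal.sub hRing r₁ r₂) hd) s₁
  refine ⟨hP0, hsum0, rsum.1, rsumS.1, hxsum, ?_⟩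
  show ptEta E (α P + β P) = ptEta E P * rev (sumS E R₁ S₁ R₂ S₂) x
  rw [rsumS.2, hsumη, hxsum, hx₁, hx₂, hη₁, hη₂]
  field_simp

omit [DecidableEq K] in
/-- `Ψ₂²(R) ≠ 0` for a nonconstant rational function `R` (`char ≠ 2`) -/
theorem psi2form_ne_zero (h2 : (2 : K) ≠ 0) {R : RatFunc K} (hR : ht R ≠ 0) :
    Psi2form E R ≠ 0 := by
  intro h0
  have hnc : ¬ ∃ c, R = RatFunc.C c := by
    rintro ⟨c, rfl⟩
    apply hR
    simp [ht, RatFunc.num_C, RatFunc.denom_C]
  have htr := RatFunc.transcendental_of_ne_C R hnc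
  have hq : E.Ψ₂Sq ≠ 0 := by
    intro hz
    have h3 : E.Ψ₂Sq.coeff 3 = 4 := by
      simp [WeierstrassCurve.Ψ₂Sq]
    rw [hz, Polynomial.coeff_zero] at h3
    have h4 : (4 : K) = 2 * 2 := by norm_num
    rw [h4] at h3
    exact (mul_ne_zero h2 h2) h3.symm
  apply htr
  refine ⟨E.Ψ₂Sq, hq, ?_⟩
  rw [← h0]
  simp [WeierstrassCurve.Ψ₂Sq, Psi2form, RatFunc.algebraMap_eq_C, map_ofNat]

/-- **Duplication rule.** -/
theorem stmtRepDup_of (hRing : StmtRevRing K) (hBase : StmtRevBase K) (hZeros : StmtRevZeros K)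
    (hEta : StmtEtaSq E) (hTan : StmtTangent E) (hFib : StmtFiberPt E) : StmtRepDup E := by
  intro hyp α R S hα hht
  have h2 := hyp.two_ne
  have hΨ : Psi2form E R ≠ 0 := psi2form_ne_zero E h2 hht
  have hfin : {x : K | rev (Psi2form E R) x = 0}.Finite := hZeros _ hΨ
  have hev : ∀ᶠ P in Filter.cofinite, ¬ rev (Psi2form E R) (ptX E P) = 0 :=
    (finite_ptX_mem E hFib hfin).compl_mem_cofinite
  unfold Rep at hα ⊢
  filter_upwards [hα, hev] with P hP₁ hP₂
  obtain ⟨hP0, hα0, hR, hS, hx, hη⟩ := hP₁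
  set x := ptX E P with hxdef
  have r : RegVal R x (rev R x) := ⟨hR, rfl⟩
  have s : RegVal S x (rev S x) := ⟨hS, rfl⟩
  have rΨ : RegVal (Psi2form E R) x (Psi2form E (rev R x)) := RegVal.psi2form hRing hBase E r
  have hΨx : Psi2form E (rev R x) ≠ 0 := by rw [← rΨ.2]; exact hP₂
  have hηα : ptEta E (α P) ≠ 0 := by
    intro h0
    have := hEta (α P) hα0
    rw [h0, hx] at this
    apply hΨx
    rw [← this]; ring
  obtain ⟨h20, h2x, h2η⟩ := hTan (α P) hα0 hηα
  have rdup : RegVal (dupR E R) x (Fform E (rev R x) (rev R x) / Psi2form E (rev R x)) := by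
    unfold dupR
    exact RegVal.div hRing (RegVal.fform hRing hBase E r r) rΨ hΨx
  have rdupS : RegVal (dupS E R S) x
      (rev S x * Pre4form E (rev R x) / Psi2form E (rev R x) ^ 2) := by
    unfold dupS
    exact RegVal.div hRing (RegVal.mul hRing s (RegVal.pre4form hRing hBase E r))
      (RegVal.pow hBase rΨ 2) (pow_ne_zero 2 hΨx)
  refine ⟨hP0, h20, rdup.1, rdupS.1, ?_, ?_⟩
  · show ptX E (α P + α P) = rev (dupR E R) x
    rw [rdup.2, h2x, hx]
  · show ptEta E (α P + α P) = ptEta E P * rev (dupS E R S) x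
    rw [rdupS.2, h2η, hx, hη]
    ring

end RepAdd

end

end Fermat.Agent.HW


end ZBHW_001_6

/-! ### bundled: `Fermat.Agent.HW.RepFrob` -/
section ZBHW_001_7
/-
HW brick: the Frobenius endomorphism is represented by `(X^p, Ψ₂²(X)^((p-1)/2))`
(`StmtFrobPt`, `StmtRepFrob` of `Plan.lean`).
-/

set_option autoImplicit false

open Polynomial

namespace Fermat.Agent.HW

namespace RepFrob

section General

variable {K : Type*} [Field K] (E : WeierstrassCurve K)

/-- `η² = Ψ₂²(x)` at an affine point. -/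
theorem ptEta_sq_some {x y : K} (h : E.toAffine.Nonsingular x y) :
    ptEta E (.some x y h) ^ 2 = Psi2form E x := by
  have heq := (E.toAffine.nonsingular_iff x y).mp h |>.1
  rw [WeierstrassCurve.Affine.equation_iff] at heq
  simp only [ptEta, ptX, ptY, Psi2form, Algebra.algebraMap_self, RingHom.id_apply,
    WeierstrassCurve.b₂, WeierstrassCurve.b₄, WeierstrassCurve.b₆]
  linear_combination 4 * heq

/-- The polynomial `Ψ₂²`. -/
theorem psi2form_X_eq :
    Psi2form E (RatFunc.X : RatFunc K) = algebraMap K[X] (RatFunc K) E.Ψ₂Sq := by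
  simp only [Psi2form, WeierstrassCurve.Ψ₂Sq, map_add, map_mul, map_pow, RatFunc.algebraMap_X,
    RatFunc.algebraMap_C, RatFunc.algebraMap_eq_C, map_ofNat]

theorem reg_algebraMap (q : K[X]) (x : K) : Reg (algebraMap K[X] (RatFunc K) q) x := by
  rw [Reg, RatFunc.denom_algebraMap, eval_one]
  exact one_ne_zero

theorem rev_algebraMap (q : K[X]) (x : K) : rev (algebraMap K[X] (RatFunc K) q) x = q.eval x := by
  rw [rev, RatFunc.eval_algebraMap]
  rfl

theorem eval_Ψ₂Sq_eq (x : K) : E.Ψ₂Sq.eval x = Psi2form E x := by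
  simp [WeierstrassCurve.Ψ₂Sq, Psi2form]

end General

section Frob

variable (p : ℕ) [hp : Fact p.Prime] (W : WeierstrassCurve (ZMod p))
  (K : Type*) [Field K] [DecidableEq K] [Algebra (ZMod p) K]

omit [DecidableEq K] in
theorem frob_apply (x : K) : FiniteField.frobeniusAlgHom (ZMod p) K x = x ^ p := by
  rw [FiniteField.coe_frobeniusAlgHom, ZMod.card]

theorem ptX_frobPt_some {x y : K} (h : (EK p W K).toAffine.Nonsingular x y) :
    ptX (EK p W K) (frobPt p W K (.some x y h)) = x ^ p := by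
  rw [← frob_apply p K x]
  rfl

theorem ptY_frobPt_some {x y : K} (h : (EK p W K).toAffine.Nonsingular x y) :
    ptY (EK p W K) (frobPt p W K (.some x y h)) = y ^ p := by
  rw [← frob_apply p K y]
  rfl

theorem frobPt_some_ne_zero {x y : K} (h : (EK p W K).toAffine.Nonsingular x y) :
    frobPt p W K (.some x y h) ≠ 0 := by
  have h1 : frobPt p W K (.some x y h) =
      WeierstrassCurve.Affine.Point.map (W' := W) (FiniteField.frobeniusAlgHom (ZMod p) K)
        (.some x y h) := rfl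
  rw [h1, WeierstrassCurve.Affine.Point.map_some]
  exact WeierstrassCurve.Affine.Point.some_ne_zero _

theorem stmtFrobPt : StmtFrobPt p W K := by
  intro P hP
  rcases P with _ | ⟨x, y, h⟩
  · exact absurd rfl hP
  · refine ⟨frobPt_some_ne_zero p W K h, ptX_frobPt_some p W K h, ?_⟩
    rw [ptEta, ptX_frobPt_some, ptY_frobPt_some]
    simp only [ptEta, ptX, ptY]
    have hx := frob_apply p K x
    have hy := frob_apply p K y
    have hη := frob_apply p K (2 * y + (EK p W K).a₁ * x + (EK p W K).a₃)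
    rw [← hη, ← hx, ← hy, map_add, map_add, map_mul, map_mul, map_ofNat]
    have ha1 : FiniteField.frobeniusAlgHom (ZMod p) K (EK p W K).a₁ = (EK p W K).a₁ := by
      rw [WeierstrassCurve.map_a₁]
      exact AlgHom.commutes _ _
    have ha3 : FiniteField.frobeniusAlgHom (ZMod p) K (EK p W K).a₃ = (EK p W K).a₃ := by
      rw [WeierstrassCurve.map_a₃]
      exact AlgHom.commutes _ _
    rw [ha1, ha3]

theorem stmtRepFrob : StmtRepFrob p W K := by
  intro hyp
  have h2 : (2 : K) ≠ 0 := hyp.two_ne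
  have hodd : p % 2 = 1 := by
    rcases hp.out.eq_two_or_odd with h | h
    · exfalso
      have hchar : CharP K p := charP_of_injective_algebraMap' (ZMod p) p
      have : ((p : ℕ) : K) = 0 := CharP.cast_eq_zero K p
      rw [h] at this
      exact h2 (by exact_mod_cast this)
    · exact h
  rw [Rep, Filter.eventually_cofinite]
  refine Set.Finite.subset (Set.finite_singleton (0 : (EK p W K).toAffine.Point)) ?_
  intro P hP
  change ¬ GoodAt _ _ _ _ P at hP
  rw [Set.mem_singleton_iff]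
  by_contra hP0
  apply hP
  obtain ⟨hf0, hfx, hfη⟩ := stmtFrobPt p W K P hP0
  have hX : (RatFunc.X : RatFunc K) ^ p = algebraMap K[X] (RatFunc K) (X ^ p) := by
    rw [map_pow, RatFunc.algebraMap_X]
  have hS : Psi2form (EK p W K) (RatFunc.X : RatFunc K) ^ ((p - 1) / 2) =
      algebraMap K[X] (RatFunc K) ((EK p W K).Ψ₂Sq ^ ((p - 1) / 2)) := by
    rw [map_pow, psi2form_X_eq]
  refine ⟨hP0, hf0, ?_, ?_, ?_, ?_⟩
  · rw [hX]
    exact reg_algebraMap _ _
  · rw [hS]
    exact reg_algebraMap _ _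
  · rw [hfx, hX, rev_algebraMap, eval_pow, eval_X]
  · rw [hfη, hS, rev_algebraMap, eval_pow, eval_Ψ₂Sq_eq]
    rcases P with _ | ⟨x, y, h⟩
    · exact absurd rfl hP0
    · have hsq := ptEta_sq_some (EK p W K) h
      change ptEta (EK p W K) (.some x y h) ^ p =
        ptEta (EK p W K) (.some x y h) * Psi2form (EK p W K) x ^ ((p - 1) / 2)
      rw [← hsq, ← pow_mul, ← pow_succ']
      congr 1
      omega

end Frob

end RepFrob

end Fermat.Agent.HW


end ZBHW_001_7
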