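/- GENERATED FILE (helper35, build-time optimisation, NOTES/ZB.md): verbatim concatenation of the modules
   Fermat.Agent.S05.Coords
   Fermat.Agent.S13.DivXA
   Fermat.Agent.S13.DivPoly.Crit
   Fermat.Agent.S13.DivPoly.Generic
   Fermat.Agent.S13.DivPoly.Universal
   Fermat.Agent.S05.FreyArith
   Fermat.Agent.S05.Key
   Fermat.Agent.S05.Assembly
   Fermat.Agent.S05.LocalFix
   Fermat.Agent.S05.FreyFix
   Fermat.Agent.S05.TropAlg
   Do not edit; do not import together with these modules. -/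
import Mathlib
import Fermat.Agent.ZB.HW_001
import Mathlib.AlgebraicGeometry.EllipticCurve.DivisionPolynomial.Degree
import Fermat.Prelude.Def_FLTPrelim_FreyPackage
import Fermat.Prelude.Def_FLTPrelim_GaloisRep
import Fermat.Prelude.Def_FLTPrelim_Ramification
import Fermat.Agent.ZB.S05_003
import Fermat.Agent.ZB.S05_001

/-! ### bundled: `Fermat.Agent.S05.Coords` -/
section ZBS05_002_0
/-
S05 helper layer (helper5): the `η`-coordinate `η = 2y + a₁x + a₃` on affine points of a
Weierstrass curve over a field, and Mathlib's group law expressed through `(x, η)`.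
No valuations here; pure algebra.
-/

set_option autoImplicit false

namespace Fermat.Agent.S05

open WeierstrassCurve WeierstrassCurve.Affine

variable {K : Type*} [Field K] (W : WeierstrassCurve K)

/-- The `η`-coordinate `2y + a₁x + a₃` of an affine point. -/
def eta (x y : K) : K := 2 * y + W.a₁ * x + W.a₃

/-- The cubic `4x³ + b₂x² + 2b₄x + b₆`, so that `η² = cub x` on the curve. -/
def cub (x : K) : K := 4 * x ^ 3 + W.b₂ * x ^ 2 + 2 * W.b₄ * x + W.b₆

/-- Half the derivative of `cub`: `6x² + b₂x + b₄`. -/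
def dcub (x : K) : K := 6 * x ^ 2 + W.b₂ * x + W.b₄

/-- The numerator of the duplication formula: `x⁴ − b₄x² − 2b₆x − b₈`. -/
def dupNum (x : K) : K := x ^ 4 - W.b₄ * x ^ 2 - 2 * W.b₆ * x - W.b₈

lemma eta_sq {x y : K} (h : W.toAffine.Equation x y) : eta W x y ^ 2 = cub W x := by
  rw [Affine.equation_iff] at h
  simp only [eta, cub, WeierstrassCurve.b₂, WeierstrassCurve.b₄, WeierstrassCurve.b₆]
  linear_combination 4 * h

lemma eta_negY (x y : K) : eta W x (W.toAffine.negY x y) = -eta W x y := by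
  simp only [eta, Affine.negY]; ring

lemma sub_negY (x y : K) : y - W.toAffine.negY x y = eta W x y := by
  simp only [eta, Affine.negY]; ring

lemma four_dupNum (x : K) :
    4 * dupNum W x = dcub W x ^ 2 - (W.b₂ + 8 * x) * cub W x := by
  simp only [dupNum, dcub, cub]
  linear_combination (-1 : K) * W.b_relation

lemma eta_eq_zero_iff (x y : K) : eta W x y = 0 ↔ y = W.toAffine.negY x y := by
  rw [← sub_negY, sub_eq_zero]

/-- If `η = 0` at a nonsingular point then `dcub ≠ 0` (characteristic `≠ 2`). -/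
lemma dcub_ne_zero_of_eta_eq_zero (h2 : (2 : K) ≠ 0) {x y : K} (h : W.toAffine.Nonsingular x y)
    (hη : eta W x y = 0) : dcub W x ≠ 0 := by
  rw [Affine.nonsingular_iff] at h
  obtain ⟨-, h | h⟩ := h
  · intro hd
    apply h
    simp only [eta] at hη
    simp only [dcub, WeierstrassCurve.b₂, WeierstrassCurve.b₄] at hd
    have : 2 * (W.a₁ * y - (3 * x ^ 2 + 2 * W.a₂ * x + W.a₄)) = 0 := by
      linear_combination W.a₁ * hη - hd
    have := (mul_eq_zero.mp this).resolve_left h2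
    exact sub_eq_zero.mp this
  · exact absurd ((eta_eq_zero_iff W x y).mp hη) (by simpa [Affine.negY] using h)

section Points

variable {W} [DecidableEq K]

/-- Chord addition in `(x, η)`-coordinates. -/
theorem add_of_X_ne {x₁ y₁ x₂ y₂ : K} (h₁ : W.toAffine.Nonsingular x₁ y₁)
    (h₂ : W.toAffine.Nonsingular x₂ y₂) (hx : x₁ ≠ x₂) :
    ∃ (x₃ y₃ : K) (h₃ : W.toAffine.Nonsingular x₃ y₃),
      Point.some x₁ y₁ h₁ + Point.some x₂ y₂ h₂ = Point.some x₃ y₃ h₃ ∧
      4 * x₃ * (x₁ - x₂) ^ 2 =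
        (eta W x₁ y₁ - eta W x₂ y₂) ^ 2 - (W.b₂ + 4 * x₁ + 4 * x₂) * (x₁ - x₂) ^ 2 ∧
      eta W x₃ y₃ * (x₁ - x₂) =
        -((eta W x₁ y₁ - eta W x₂ y₂) * (x₃ - x₁) + eta W x₁ y₁ * (x₁ - x₂)) := by
  have hxy : ¬(x₁ = x₂ ∧ y₁ = W.toAffine.negY x₂ y₂) := fun h => hx h.1
  have hD : x₁ - x₂ ≠ 0 := sub_ne_zero.mpr hx
  refine ⟨_, _, _, Point.add_some hxy, ?_, ?_⟩
  · rw [Affine.slope_of_X_ne hx]
    simp only [Affine.addX, eta, WeierstrassCurve.b₂]
    field_simp
    ring
  · rw [Affine.slope_of_X_ne hx]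
    simp only [Affine.addY, Affine.negAddY, Affine.negY, Affine.addX, eta]
    field_simp
    ring

/-- Chord subtraction in `(x, η)`-coordinates. -/
theorem sub_of_X_ne {x₁ y₁ x₂ y₂ : K} (h₁ : W.toAffine.Nonsingular x₁ y₁)
    (h₂ : W.toAffine.Nonsingular x₂ y₂) (hx : x₁ ≠ x₂) :
    ∃ (x₃ y₃ : K) (h₃ : W.toAffine.Nonsingular x₃ y₃),
      Point.some x₁ y₁ h₁ - Point.some x₂ y₂ h₂ = Point.some x₃ y₃ h₃ ∧
      4 * x₃ * (x₁ - x₂) ^ 2 =
        (eta W x₁ y₁ + eta W x₂ y₂) ^ 2 - (W.b₂ + 4 * x₁ + 4 * x₂) * (x₁ - x₂) ^ 2 ∧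
      eta W x₃ y₃ * (x₁ - x₂) =
        -((eta W x₁ y₁ + eta W x₂ y₂) * (x₃ - x₁) + eta W x₁ y₁ * (x₁ - x₂)) := by
  obtain ⟨x₃, y₃, h₃, hadd, hX, hE⟩ :=
    add_of_X_ne h₁ ((Affine.nonsingular_neg ..).mpr h₂) hx
  refine ⟨x₃, y₃, h₃, ?_, ?_, ?_⟩
  · rw [sub_eq_add_neg, Point.neg_some]; exact hadd
  · rw [hX, eta_negY]; ring
  · rw [hE, eta_negY]; ring

/-- Doubling when `η ≠ 0`. -/
theorem add_self_of_eta_ne {x y : K} (h : W.toAffine.Nonsingular x y) (hη : eta W x y ≠ 0) :
    ∃ (x₃ y₃ : K) (h₃ : W.toAffine.Nonsingular x₃ y₃),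
      Point.some x y h + Point.some x y h = Point.some x₃ y₃ h₃ ∧
      x₃ * eta W x y ^ 2 = dupNum W x := by
  have hy : y ≠ W.toAffine.negY x y := fun hy => hη ((eta_eq_zero_iff W x y).mpr hy)
  have hxy : ¬(x = x ∧ y = W.toAffine.negY x y) := fun h' => hy h'.2
  have hE := (Affine.equation_iff x y).mp h.1
  refine ⟨_, _, _, Point.add_some hxy, ?_⟩
  rw [Affine.slope_of_Y_ne rfl hy, sub_negY]
  simp only [Affine.addX, dupNum, WeierstrassCurve.b₄, WeierstrassCurve.b₆, WeierstrassCurve.b₈]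
  field_simp
  simp only [eta]
  linear_combination (-(W.a₁ ^ 2 + 4 * W.a₂ + 8 * x)) * hE

/-- Doubling when `η = 0`. -/
theorem add_self_of_eta_eq {x y : K} (h : W.toAffine.Nonsingular x y) (hη : eta W x y = 0) :
    Point.some x y h + Point.some x y h = 0 :=
  Point.add_self_of_Y_eq ((eta_eq_zero_iff W x y).mp hη)

/-- The `x`-only (Kummer) identities for the pair `P₁ + P₂`, `P₁ - P₂` when `x₁ ≠ x₂`. -/
theorem add_sub_X (h2 : (2 : K) ≠ 0) {x₁ y₁ x₂ y₂ : K} (h₁ : W.toAffine.Nonsingular x₁ y₁)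
    (h₂ : W.toAffine.Nonsingular x₂ y₂) (hx : x₁ ≠ x₂) :
    ∃ (xs ys : K) (hs : W.toAffine.Nonsingular xs ys) (xd yd : K)
      (hd : W.toAffine.Nonsingular xd yd),
      Point.some x₁ y₁ h₁ + Point.some x₂ y₂ h₂ = Point.some xs ys hs ∧
      Point.some x₁ y₁ h₁ - Point.some x₂ y₂ h₂ = Point.some xd yd hd ∧
      (xs + xd) * (x₁ - x₂) ^ 2 =
        2 * x₁ * x₂ * (x₁ + x₂) + W.b₂ * x₁ * x₂ + W.b₄ * (x₁ + x₂) + W.b₆ ∧
      xs * xd * (x₁ - x₂) ^ 2 =
        x₁ ^ 2 * x₂ ^ 2 - W.b₄ * x₁ * x₂ - W.b₆ * (x₁ + x₂) - W.b₈ := by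
  obtain ⟨xs, ys, hs, hadd, hXs, -⟩ := add_of_X_ne h₁ h₂ hx
  obtain ⟨xd, yd, hd, hsub, hXd, -⟩ := sub_of_X_ne h₁ h₂ hx
  have hη₁ := eta_sq W h₁.1
  have hη₂ := eta_sq W h₂.1
  have hD : x₁ - x₂ ≠ 0 := sub_ne_zero.mpr hx
  have h4 : (4 : K) ≠ 0 := by
    have : (4 : K) = 2 * 2 := by norm_num
    rw [this]; exact mul_ne_zero h2 h2
  refine ⟨xs, ys, hs, xd, yd, hd, hadd, hsub, ?_, ?_⟩
  · have : 4 * ((xs + xd) * (x₁ - x₂) ^ 2 -
        (2 * x₁ * x₂ * (x₁ + x₂) + W.b₂ * x₁ * x₂ + W.b₄ * (x₁ + x₂) + W.b₆)) = 0 := by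
      simp only [cub] at hη₁ hη₂
      linear_combination hXs + hXd + 2 * hη₁ + 2 * hη₂
    exact sub_eq_zero.mp ((mul_eq_zero.mp this).resolve_left h4)
  · have : (16 * (x₁ - x₂) ^ 2) * (xs * xd * (x₁ - x₂) ^ 2 -
        (x₁ ^ 2 * x₂ ^ 2 - W.b₄ * x₁ * x₂ - W.b₆ * (x₁ + x₂) - W.b₈)) = 0 := by
      simp only [cub] at hη₁ hη₂
      linear_combination (4 * xd * (x₁ - x₂) ^ 2) * hXs +
        ((eta W x₁ y₁ - eta W x₂ y₂) ^ 2 - (W.b₂ + 4 * x₁ + 4 * x₂) * (x₁ - x₂) ^ 2) * hXd +
        ((eta W x₁ y₁ ^ 2 - eta W x₂ y₂ ^ 2 +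
            (4 * x₁ ^ 3 + W.b₂ * x₁ ^ 2 + 2 * W.b₄ * x₁ + W.b₆) -
            (4 * x₂ ^ 3 + W.b₂ * x₂ ^ 2 + 2 * W.b₄ * x₂ + W.b₆)) -
          2 * (W.b₂ + 4 * x₁ + 4 * x₂) * (x₁ - x₂) ^ 2) * hη₁ +
        (-(eta W x₁ y₁ ^ 2 - eta W x₂ y₂ ^ 2 +
            (4 * x₁ ^ 3 + W.b₂ * x₁ ^ 2 + 2 * W.b₄ * x₁ + W.b₆) -
            (4 * x₂ ^ 3 + W.b₂ * x₂ ^ 2 + 2 * W.b₄ * x₂ + W.b₆)) -
          2 * (W.b₂ + 4 * x₁ + 4 * x₂) * (x₁ - x₂) ^ 2) * hη₂ +
        (4 * (x₁ - x₂) ^ 2) * W.b_relation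
    have h16 : (16 * (x₁ - x₂) ^ 2 : K) ≠ 0 := by
      have : (16 : K) = 4 * 4 := by norm_num
      rw [this]; exact mul_ne_zero (mul_ne_zero h4 h4) (pow_ne_zero 2 hD)
    exact sub_eq_zero.mp ((mul_eq_zero.mp this).resolve_left h16)

end Points

end Fermat.Agent.S05


end ZBS05_002_0

/-! ### bundled: `Fermat.Agent.S13.DivXA` -/
section ZBS05_002_1
/-
S13 / P1, Step A (helper6): the symmetric biquadratic of the `x`-only group law, and the
`x`-coordinate function on points, in the form consumed by the abstract `x`-sequence argument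
(`DivXC.lean`).  Pure algebra on top of `Fermat/Agent/S05/Coords.lean`.
-/

set_option autoImplicit false
set_option linter.unusedSectionVars false

namespace Fermat.Agent.S13.DivX

open WeierstrassCurve WeierstrassCurve.Affine Fermat.Agent.S05

variable {K : Type*} [Field K] (W : WeierstrassCurve K)

/-- Numerator of `x(P₁+P₂) + x(P₁-P₂)`. -/
def sumNum (x₁ x₂ : K) : K :=
  2 * x₁ * x₂ * (x₁ + x₂) + W.b₂ * x₁ * x₂ + W.b₄ * (x₁ + x₂) + W.b₆

/-- Numerator of `x(P₁+P₂) * x(P₁-P₂)`. -/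
def prodNum (x₁ x₂ : K) : K :=
  x₁ ^ 2 * x₂ ^ 2 - W.b₄ * x₁ * x₂ - W.b₆ * (x₁ + x₂) - W.b₈

/-- The symmetric biquadratic form `B(z, x₁, x₂)`; it vanishes iff `±P ± P₁ ± P₂ = 0`. -/
def biq (z x₁ x₂ : K) : K :=
  z ^ 2 * (x₁ - x₂) ^ 2 - z * sumNum W x₁ x₂ + prodNum W x₁ x₂

lemma biq_comm₁₂ (z x₁ x₂ : K) : biq W z x₁ x₂ = biq W x₁ z x₂ := by
  simp only [biq, sumNum, prodNum]; ring

lemma biq_comm₂₃ (z x₁ x₂ : K) : biq W z x₁ x₂ = biq W z x₂ x₁ := by
  simp only [biq, sumNum, prodNum]; ring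

lemma biq_comm₁₃ (z x₁ x₂ : K) : biq W z x₁ x₂ = biq W x₂ x₁ z := by
  simp only [biq, sumNum, prodNum]; ring

lemma biq_self (z x : K) : biq W z x x = dupNum W x - z * cub W x := by
  simp only [biq, sumNum, prodNum, dupNum, cub]; ring

lemma cub_mul_sub_dupNum (x : K) :
    x * cub W x - dupNum W x = 3 * x ^ 4 + W.b₂ * x ^ 3 + 3 * W.b₄ * x ^ 2 + 3 * W.b₆ * x + W.b₈ := by
  simp only [dupNum, cub]; ring

section Points

variable {W} [DecidableEq K]

/-- The `x`-coordinate of a point (junk value `0` at infinity). -/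
def xOf : W.toAffine.Point → K
  | .zero => 0
  | .some x _ _ => x

/-- The `η`-coordinate `2y + a₁x + a₃` of a point (junk value `0` at infinity). -/
def etaOf : W.toAffine.Point → K
  | .zero => 0
  | .some x y _ => eta W x y

@[simp] lemma xOf_some {x y : K} (h : W.toAffine.Nonsingular x y) : xOf (Point.some x y h) = x := rfl

@[simp] lemma etaOf_some {x y : K} (h : W.toAffine.Nonsingular x y) :
    etaOf (Point.some x y h) = eta W x y := rfl

lemma xOf_neg (P : W.toAffine.Point) : xOf (-P) = xOf P := by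
  cases P with
  | zero => rfl
  | some x y h => rfl

lemma etaOf_neg (P : W.toAffine.Point) : etaOf (-P) = -etaOf P := by
  cases P with
  | zero => simp [etaOf, show (-(Point.zero : W.toAffine.Point)) = Point.zero from rfl]
  | some x y h =>
    rw [Point.neg_some]
    simp only [etaOf_some, eta_negY]

lemma etaOf_sq {P : W.toAffine.Point} (hP : P ≠ 0) : etaOf P ^ 2 = cub W (xOf P) := by
  cases P with
  | zero => exact absurd rfl hP
  | some x y h => exact eta_sq W h.1

/-- Two affine points with the same `x`-coordinate are equal or opposite. -/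
lemma eq_or_eq_neg_of_xOf_eq {P Q : W.toAffine.Point} (hP : P ≠ 0) (hQ : Q ≠ 0)
    (h : xOf P = xOf Q) : P = Q ∨ P = -Q := by
  cases P with
  | zero => exact absurd rfl hP
  | some x₁ y₁ h₁ =>
    cases Q with
    | zero => exact absurd rfl hQ
    | some x₂ y₂ h₂ =>
      simp only [xOf_some] at h
      subst h
      rcases Affine.Y_eq_of_X_eq h₁.1 h₂.1 rfl with hy | hy
      · left; subst hy; rfl
      · right
        rw [Point.neg_some]
        subst hy
        rfl

/-- `2 • P = 0` iff `η(P) = 0`, for an affine point. -/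
lemma two_nsmul_eq_zero_iff {P : W.toAffine.Point} (hP : P ≠ 0) :
    2 • P = 0 ↔ etaOf P = 0 := by
  cases P with
  | zero => exact absurd rfl hP
  | some x y h =>
    rw [two_nsmul, etaOf_some]
    constructor
    · intro h0
      by_contra hη
      obtain ⟨x₃, y₃, h₃, hadd, -⟩ := add_self_of_eta_ne h hη
      rw [hadd] at h0
      exact Point.some_ne_zero h₃ h0
    · intro hη
      exact add_self_of_eta_eq h hη

/-- Duplication formula in terms of `xOf`. -/
lemma xOf_two_nsmul {P : W.toAffine.Point} (hP : P ≠ 0) (h2P : 2 • P ≠ 0) :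
    xOf (2 • P) * cub W (xOf P) = dupNum W (xOf P) := by
  have hη : etaOf P ≠ 0 := fun h => h2P ((two_nsmul_eq_zero_iff hP).mpr h)
  cases P with
  | zero => exact absurd rfl hP
  | some x y h =>
    rw [etaOf_some] at hη
    obtain ⟨x₃, y₃, h₃, hadd, hx⟩ := add_self_of_eta_ne h hη
    rw [two_nsmul, hadd, xOf_some, xOf_some, ← eta_sq W h.1, hx]

lemma cub_xOf_ne_zero {P : W.toAffine.Point} (hP : P ≠ 0) (h2P : 2 • P ≠ 0) :
    cub W (xOf P) ≠ 0 := by
  rw [← etaOf_sq hP]
  exact pow_ne_zero 2 fun h => h2P ((two_nsmul_eq_zero_iff hP).mpr h)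

/-- Sum and product of `x(P+Q)` and `x(P-Q)`; both points are affine. -/
theorem xOf_add_sub (h2 : (2 : K) ≠ 0) {P Q : W.toAffine.Point} (hP : P ≠ 0) (hQ : Q ≠ 0)
    (hx : xOf P ≠ xOf Q) :
    P + Q ≠ 0 ∧ P - Q ≠ 0 ∧
    (xOf (P + Q) + xOf (P - Q)) * (xOf P - xOf Q) ^ 2 = sumNum W (xOf P) (xOf Q) ∧
    xOf (P + Q) * xOf (P - Q) * (xOf P - xOf Q) ^ 2 = prodNum W (xOf P) (xOf Q) := by
  cases P with
  | zero => exact absurd rfl hP
  | some x₁ y₁ h₁ =>
    cases Q with
    | zero => exact absurd rfl hQ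
    | some x₂ y₂ h₂ =>
      simp only [xOf_some] at hx ⊢
      obtain ⟨xs, ys, hs, xd, yd, hd, hadd, hsub, hS, hP'⟩ := add_sub_X h2 h₁ h₂ hx
      rw [hadd, hsub]
      exact ⟨Point.some_ne_zero hs, Point.some_ne_zero hd, hS, hP'⟩

/-- The biquadratic identity `(z - x(P+Q)) (z - x(P-Q)) (x(P) - x(Q))² = B(z, x(P), x(Q))`. -/
theorem biq_eq (h2 : (2 : K) ≠ 0) {P Q : W.toAffine.Point} (hP : P ≠ 0) (hQ : Q ≠ 0)
    (hx : xOf P ≠ xOf Q) (z : K) :
    (z - xOf (P + Q)) * (z - xOf (P - Q)) * (xOf P - xOf Q) ^ 2 = biq W z (xOf P) (xOf Q) := by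
  obtain ⟨-, -, hS, hP'⟩ := xOf_add_sub h2 hP hQ hx
  simp only [biq]
  linear_combination (-z) * hS + hP'

end Points

end Fermat.Agent.S13.DivX


end ZBS05_002_1

/-! ### bundled: `Fermat.Agent.S13.DivPoly.Crit` -/
section ZBS05_002_2
/-
S13 / P1, piece D-C (helper12): the division-polynomial criterion at an ARBITRARY affine point,
by a plain induction `n, n+1 ⇒ n+2`, from the two universal identities `(⋆)`, `(⋆⋆)` (taken as
hypotheses `StarAdd`, `StarMul`; they are delivered by the generic point, piece D-GP) and the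
definitional identity `(□)` (`sq_id`, proved here).

Main result: `crit`:  for an affine point `P` and every `n : ℕ`
* `n • P = 0 ↔ (W.ΨSq n).eval (xOf P) = 0`,
* `n • P ≠ 0 → xOf (n • P) * (W.ΨSq n).eval (xOf P) = (W.Φ n).eval (xOf P)`,
* `(W.ΨSq n).eval (xOf P) = 0 → (W.Φ n).eval (xOf P) ≠ 0`.
-/

set_option autoImplicit false
set_option linter.unusedSectionVars false

namespace Fermat.Agent.S13.DivX

open WeierstrassCurve WeierstrassCurve.Affine Polynomial Fermat.Agent.S05

variable {K : Type*} [Field K] (W : WeierstrassCurve K)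

/-- The universal identity `(⋆)`: sum formula for `x((n+1)P) + x((n-1)P)`, denominators cleared. -/
def StarAdd (n : ℤ) : Prop :=
  W.Φ (n + 1) * W.ΨSq (n - 1) + W.Φ (n - 1) * W.ΨSq (n + 1) =
    2 * W.Φ n * X * (W.Φ n + X * W.ΨSq n) + C W.b₂ * X * W.Φ n * W.ΨSq n
      + C W.b₄ * (W.Φ n + X * W.ΨSq n) * W.ΨSq n + C W.b₆ * W.ΨSq n ^ 2

/-- The universal identity `(⋆⋆)`: product formula for `x((n+1)P) * x((n-1)P)`. -/
def StarMul (n : ℤ) : Prop :=
  W.Φ (n + 1) * W.Φ (n - 1) =
    X ^ 2 * W.Φ n ^ 2 - C W.b₄ * X * W.Φ n * W.ΨSq n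
      - C W.b₆ * (W.Φ n + X * W.ΨSq n) * W.ΨSq n - C W.b₈ * W.ΨSq n ^ 2

/-- The definitional identity `(□)`. -/
theorem sq_id (n : ℤ) :
    (W.Φ n - X * W.ΨSq n) ^ 2 = W.ΨSq (n + 1) * W.ΨSq (n - 1) := by
  rw [WeierstrassCurve.Φ, WeierstrassCurve.ΨSq, WeierstrassCurve.ΨSq, WeierstrassCurve.ΨSq]
  rcases Int.even_or_odd n with hn | hn
  · have h1 : ¬ Even (n + 1) := by
      rw [Int.not_even_iff_odd]; exact hn.add_one
    have h2 : ¬ Even (n - 1) := by
      rw [Int.not_even_iff_odd]; exact hn.sub_odd odd_one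
    simp only [if_pos hn, if_neg h1, if_neg h2]
    ring
  · have hn' : ¬ Even n := Int.not_even_iff_odd.mpr hn
    have h1 : Even (n + 1) := hn.add_one
    have h2 : Even (n - 1) := hn.sub_odd odd_one
    simp only [if_neg hn', if_pos h1, if_pos h2]
    ring

lemma eval_ΨSq_two (x : K) : (W.ΨSq 2).eval x = cub W x := by
  rw [ΨSq_two, WeierstrassCurve.Ψ₂Sq]
  simp only [cub, eval_add, eval_mul, eval_C, eval_pow, eval_X]

lemma eval_Φ_two (x : K) : (W.Φ 2).eval x = dupNum W x := by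
  rw [Φ_two]
  simp only [dupNum, eval_sub, eval_mul, eval_C, eval_pow, eval_X]

/-- `(⋆)` holds at `n = 1`. -/
theorem starAdd_one : StarAdd W 1 := by
  unfold StarAdd
  have h2 : (1 : ℤ) + 1 = 2 := rfl
  have h0 : (1 : ℤ) - 1 = 0 := rfl
  rw [h2, h0, ΨSq_zero, Φ_zero, Φ_one, ΨSq_one, ΨSq_two, WeierstrassCurve.Ψ₂Sq]
  simp only [map_mul, map_ofNat]
  ring

/-- `(⋆⋆)` holds at `n = 1`. -/
theorem starMul_one : StarMul W 1 := by
  unfold StarMul
  have h2 : (1 : ℤ) + 1 = 2 := rfl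
  have h0 : (1 : ℤ) - 1 = 0 := rfl
  rw [h2, h0, Φ_zero, Φ_one, ΨSq_one, Φ_two]
  simp only [map_mul, map_ofNat]
  ring


/-! ### Evaluated forms of the three identities -/

/-- `u n = ΨSq_n(x)`. -/
noncomputable def uEv (x : K) (n : ℤ) : K := (W.ΨSq n).eval x

/-- `f n = Φ_n(x)`. -/
noncomputable def fEv (x : K) (n : ℤ) : K := (W.Φ n).eval x

lemma uEv_zero (x : K) : uEv W x 0 = 0 := by simp [uEv]
lemma uEv_one (x : K) : uEv W x 1 = 1 := by simp [uEv]
lemma fEv_zero (x : K) : fEv W x 0 = 1 := by simp [fEv]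
lemma fEv_one (x : K) : fEv W x 1 = x := by simp [fEv]
lemma uEv_two (x : K) : uEv W x 2 = cub W x := eval_ΨSq_two W x
lemma fEv_two (x : K) : fEv W x 2 = dupNum W x := eval_Φ_two W x

lemma sq_ev (x : K) (n : ℤ) :
    (fEv W x n - x * uEv W x n) ^ 2 = uEv W x (n + 1) * uEv W x (n - 1) := by
  have h := congrArg (Polynomial.eval x) (sq_id W n)
  simpa only [uEv, fEv, eval_pow, eval_sub, eval_mul, eval_X] using h

lemma add_ev {n : ℤ} (h : StarAdd W n) (x : K) :
    fEv W x (n + 1) * uEv W x (n - 1) + fEv W x (n - 1) * uEv W x (n + 1) =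
      2 * fEv W x n * x * (fEv W x n + x * uEv W x n) + W.b₂ * x * fEv W x n * uEv W x n
        + W.b₄ * (fEv W x n + x * uEv W x n) * uEv W x n + W.b₆ * uEv W x n ^ 2 := by
  have h' := congrArg (Polynomial.eval x) h
  simpa only [uEv, fEv, eval_pow, eval_sub, eval_add, eval_mul, eval_X, eval_C, eval_ofNat]
    using h'

lemma mul_ev {n : ℤ} (h : StarMul W n) (x : K) :
    fEv W x (n + 1) * fEv W x (n - 1) =
      x ^ 2 * fEv W x n ^ 2 - W.b₄ * x * fEv W x n * uEv W x n
        - W.b₆ * (fEv W x n + x * uEv W x n) * uEv W x n - W.b₈ * uEv W x n ^ 2 := by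
  have h' := congrArg (Polynomial.eval x) h
  simpa only [uEv, fEv, eval_pow, eval_sub, eval_add, eval_mul, eval_X, eval_C] using h'

/-- If `f n = z * u n` then the right-hand side of `(⋆)` is `u n ^ 2 * sumNum z x`. -/
lemma add_ev' {n : ℤ} (h : StarAdd W n) (x z : K) (hz : fEv W x n = z * uEv W x n) :
    fEv W x (n + 1) * uEv W x (n - 1) + fEv W x (n - 1) * uEv W x (n + 1) =
      uEv W x n ^ 2 * sumNum W z x := by
  rw [add_ev W h x, hz, sumNum]; ring

/-- If `f n = z * u n` then the right-hand side of `(⋆⋆)` is `u n ^ 2 * prodNum z x`. -/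
lemma mul_ev' {n : ℤ} (h : StarMul W n) (x z : K) (hz : fEv W x n = z * uEv W x n) :
    fEv W x (n + 1) * fEv W x (n - 1) = uEv W x n ^ 2 * prodNum W z x := by
  rw [mul_ev W h x, hz, prodNum]; ring

lemma sumNum_self (x : K) : sumNum W x x = cub W x := by
  simp only [sumNum, cub]; ring

lemma prodNum_self (x : K) : prodNum W x x = dupNum W x := by
  simp only [prodNum, dupNum]; ring

/-- At a nonsingular point, `cub` and `dupNum` do not vanish simultaneously (char `≠ 2`). -/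
lemma cub_or_dupNum_ne_zero (h2 : (2 : K) ≠ 0) {x y : K} (h : W.toAffine.Nonsingular x y) :
    cub W x ≠ 0 ∨ dupNum W x ≠ 0 := by
  by_cases hc : cub W x = 0
  · right
    have hη : eta W x y = 0 := by
      have := eta_sq W h.1
      rw [hc] at this
      exact pow_eq_zero_iff (two_ne_zero) |>.mp this
    have hd := dcub_ne_zero_of_eta_eq_zero W h2 h hη
    have h4 := four_dupNum W x
    rw [hc, mul_zero, sub_zero] at h4
    intro h0
    rw [h0, mul_zero] at h4
    exact hd (pow_eq_zero_iff (two_ne_zero) |>.mp h4.symm)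
  · exact Or.inl hc


/-! ### The criterion at an arbitrary affine point -/

section Points

variable {W} [DecidableEq K]

lemma cub_or_dupNum_xOf_ne_zero (h2 : (2 : K) ≠ 0) {P : W.toAffine.Point} (hP : P ≠ 0) :
    cub W (xOf P) ≠ 0 ∨ dupNum W (xOf P) ≠ 0 := by
  cases P with
  | zero => exact absurd rfl hP
  | some x y h => exact cub_or_dupNum_ne_zero W h2 h

lemma two_nsmul_eq_zero_iff_cub {P : W.toAffine.Point} (hP : P ≠ 0) :
    2 • P = 0 ↔ cub W (xOf P) = 0 := by
  rw [two_nsmul_eq_zero_iff hP, ← etaOf_sq hP]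
  exact (pow_eq_zero_iff two_ne_zero).symm

/-- The statement proved by induction. -/
def CritAt (P : W.toAffine.Point) (n : ℕ) : Prop :=
  (n • P = 0 ↔ uEv W (xOf P) n = 0) ∧
  (n • P ≠ 0 → xOf (n • P) * uEv W (xOf P) n = fEv W (xOf P) n) ∧
  (uEv W (xOf P) n = 0 → fEv W (xOf P) n ≠ 0)

lemma critAt_zero (P : W.toAffine.Point) : CritAt P 0 := by
  refine ⟨?_, ?_, ?_⟩
  · simp [uEv_zero]
  · intro h; exact absurd (zero_nsmul P) h
  · intro _; simp [fEv_zero]

lemma critAt_one {P : W.toAffine.Point} (hP : P ≠ 0) : CritAt P 1 := by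
  refine ⟨?_, ?_, ?_⟩
  · simp [uEv_one, hP]
  · intro _; simp [uEv_one, fEv_one]
  · intro h; simp [uEv_one] at h

/-- The induction step `n, n+1 ⇒ n+2`. -/
theorem critAt_step (h2 : (2 : K) ≠ 0) {P : W.toAffine.Point} (hP : P ≠ 0) (n : ℕ)
    (hA : StarAdd W ((n : ℤ) + 1)) (hM : StarMul W ((n : ℤ) + 1))
    (h0 : CritAt P n) (h1 : CritAt P (n + 1)) : CritAt P (n + 2) := by
  set x := xOf P with hx
  -- index bookkeeping
  have e1 : ((n + 1 : ℕ) : ℤ) = (n : ℤ) + 1 := by push_cast; ring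
  have e2 : ((n + 2 : ℕ) : ℤ) = (n : ℤ) + 1 + 1 := by push_cast; ring
  have e0 : (n : ℤ) + 1 - 1 = (n : ℤ) := by ring
  obtain ⟨a0, b0, d0⟩ := h0
  obtain ⟨a1, b1, d1⟩ := h1
  rw [e1] at a1 b1 d1
  unfold CritAt
  rw [e2]
  -- abbreviations
  set u0 := uEv W x (n : ℤ) with hu0
  set u1 := uEv W x ((n : ℤ) + 1) with hu1
  set u2 := uEv W x ((n : ℤ) + 1 + 1) with hu2
  set f0 := fEv W x (n : ℤ) with hf0
  set f1 := fEv W x ((n : ℤ) + 1) with hf1
  set f2 := fEv W x ((n : ℤ) + 1 + 1) with hf2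
  -- the three identities at index n+1
  have hsq : (f1 - x * u1) ^ 2 = u2 * u0 := by
    have := sq_ev W x ((n : ℤ) + 1)
    rwa [e0] at this
  have hsq2 : (f2 - x * u2) ^ 2 = uEv W x ((n : ℤ) + 1 + 1 + 1) * u1 := by
    have := sq_ev W x ((n : ℤ) + 1 + 1)
    rwa [show (n : ℤ) + 1 + 1 - 1 = (n : ℤ) + 1 by ring] at this
  have hadd : ∀ z : K, f1 = z * u1 → f2 * u0 + f0 * u2 = u1 ^ 2 * sumNum W z x := by
    intro z hz
    have := add_ev' W hA x z hz
    rwa [e0] at this
  have hmul : ∀ z : K, f1 = z * u1 → f2 * f0 = u1 ^ 2 * prodNum W z x := by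
    intro z hz
    have := mul_ev' W hM x z hz
    rwa [e0] at this
  have hn2 : (n + 2) • P = (n + 1) • P + P := succ_nsmul P (n + 1)
  have hn1 : (n + 1) • P = n • P + P := succ_nsmul P n
  have hcd := cub_or_dupNum_xOf_ne_zero h2 hP
  by_cases hu1z : u1 = 0
  · -- case (c): (n+1) P = 0
    have hQ : (n + 1) • P = 0 := a1.mpr hu1z
    have hf1 : f1 ≠ 0 := d1 hu1z
    have hprod : u2 * u0 ≠ 0 := by
      rw [← hsq, hu1z, mul_zero, sub_zero]
      exact pow_ne_zero 2 hf1
    have hu2 : u2 ≠ 0 := left_ne_zero_of_mul hprod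
    have hP2 : (n + 2) • P = P := by rw [hn2, hQ, zero_add]
    refine ⟨?_, ?_, ?_⟩
    · rw [hP2]; exact ⟨fun h => absurd h hP, fun h => absurd h hu2⟩
    · intro _
      rw [hP2]
      have : (f2 - x * u2) ^ 2 = 0 := by rw [hsq2, hu1z, mul_zero]
      have := pow_eq_zero_iff (two_ne_zero) |>.mp this
      exact (sub_eq_zero.mp this).symm
    · intro h; exact absurd h hu2
  · have hQ : (n + 1) • P ≠ 0 := fun h => hu1z (a1.mp h)
    have hxQ : xOf ((n + 1) • P) * u1 = f1 := b1 hQ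
    by_cases hu0z : u0 = 0
    · -- case (d): n P = 0, (n+1) P = P, (n+2) P = 2 P
      have hnP : n • P = 0 := a0.mpr hu0z
      have hf0 : f0 ≠ 0 := d0 hu0z
      have hQP : (n + 1) • P = P := by rw [hn1, hnP, zero_add]
      have hP2 : (n + 2) • P = 2 • P := by rw [hn2, hQP, two_nsmul]
      have hf1' : f1 = x * u1 := by rw [← hxQ, hQP]
      have ha := hadd x hf1'
      have hm := hmul x hf1'
      rw [hu0z, mul_zero, zero_add, sumNum_self] at ha
      rw [prodNum_self] at hm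
      have hu1sq : u1 ^ 2 ≠ 0 := pow_ne_zero 2 hu1z
      have hiff : u2 = 0 ↔ cub W x = 0 := by
        constructor
        · intro h
          rw [h, mul_zero] at ha
          exact (mul_eq_zero.mp ha.symm).resolve_left hu1sq
        · intro h
          rw [h, mul_zero] at ha
          exact (mul_eq_zero.mp ha).resolve_left hf0
      refine ⟨?_, ?_, ?_⟩
      · rw [hP2, two_nsmul_eq_zero_iff_cub hP, hiff]
      · intro hne
        rw [hP2] at hne ⊢
        have hdup := xOf_two_nsmul hP hne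
        apply mul_right_cancel₀ hf0
        calc xOf (2 • P) * u2 * f0 = xOf (2 • P) * (f0 * u2) := by ring
          _ = u1 ^ 2 * (xOf (2 • P) * cub W x) := by rw [ha]; ring
          _ = u1 ^ 2 * dupNum W x := by rw [hdup]
          _ = f2 * f0 := hm.symm
      · intro h
        have hc : cub W x = 0 := hiff.mp h
        have hd : dupNum W x ≠ 0 := hcd.resolve_left (fun h' => h' hc)
        have : f2 * f0 ≠ 0 := by rw [hm]; exact mul_ne_zero hu1sq hd
        exact left_ne_zero_of_mul this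
    · have hnP : n • P ≠ 0 := fun h => hu0z (a0.mp h)
      have hxn : xOf (n • P) * u0 = f0 := b0 hnP
      have hf1' : f1 = xOf ((n + 1) • P) * u1 := hxQ.symm
      have hu1sq : u1 ^ 2 ≠ 0 := pow_ne_zero 2 hu1z
      by_cases hxx : xOf ((n + 1) • P) = x
      · -- case (b): (n+1) P = -P
        have hor := eq_or_eq_neg_of_xOf_eq hQ hP hxx
        have hQneg : (n + 1) • P = -P := by
          rcases hor with h | h
          · exfalso
            apply hnP
            have := hn1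
            rw [h] at this
            exact (add_eq_right.mp this.symm)
          · exact h
        have hP2 : (n + 2) • P = 0 := by rw [hn2, hQneg, neg_add_cancel]
        have hu2 : u2 = 0 := by
          have : u2 * u0 = 0 := by
            rw [← hsq, hf1', hxx, sub_self]
            exact zero_pow two_ne_zero
          exact (mul_eq_zero.mp this).resolve_right hu0z
        refine ⟨?_, ?_, ?_⟩
        · exact ⟨fun _ => hu2, fun _ => hP2⟩
        · intro h; exact absurd hP2 h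
        · intro _
          rw [hxx] at hf1'
          have ha := hadd x hf1'
          have hm := hmul x hf1'
          rw [hu2, mul_zero, add_zero, sumNum_self] at ha
          rw [prodNum_self] at hm
          rcases hcd with hc | hd
          · have : f2 * u0 ≠ 0 := by rw [ha]; exact mul_ne_zero hu1sq hc
            exact left_ne_zero_of_mul this
          · have : f2 * f0 ≠ 0 := by rw [hm]; exact mul_ne_zero hu1sq hd
            exact left_ne_zero_of_mul this
      · -- case (a): generic step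
        obtain ⟨hs, hd, hS, -⟩ := xOf_add_sub h2 hQ hP hxx
        have hsum : (n + 1) • P + P = (n + 2) • P := hn2.symm
        have hdiff : (n + 1) • P - P = n • P := by rw [hn1, add_sub_cancel_right]
        rw [hsum, hdiff] at hS
        rw [hsum] at hs
        have hxQx : xOf ((n + 1) • P) - x ≠ 0 := sub_ne_zero.mpr hxx
        have hprod : u2 * u0 = u1 ^ 2 * (xOf ((n + 1) • P) - x) ^ 2 := by
          rw [← hsq, hf1']; ring
        have hu2 : u2 ≠ 0 := by
          have : u2 * u0 ≠ 0 := by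
            rw [hprod]; exact mul_ne_zero hu1sq (pow_ne_zero 2 hxQx)
          exact left_ne_zero_of_mul this
        refine ⟨?_, ?_, ?_⟩
        · exact ⟨fun h => absurd h hs, fun h => absurd h hu2⟩
        · intro _
          have ha := hadd _ hf1'
          apply mul_right_cancel₀ hu0z
          have key : (xOf ((n + 2) • P) + xOf (n • P)) * (u2 * u0) = f2 * u0 + f0 * u2 := by
            rw [ha, hprod, ← hS]; ring
          calc xOf ((n + 2) • P) * u2 * u0
              = (xOf ((n + 2) • P) + xOf (n • P)) * (u2 * u0) - (xOf (n • P) * u0) * u2 := by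
                ring
            _ = f2 * u0 + f0 * u2 - f0 * u2 := by rw [key, hxn]
            _ = f2 * u0 := by ring
        · intro h; exact absurd h hu2

/-- **The criterion** (Step C): for an affine point `P` and all `n`. -/
theorem crit (h2 : (2 : K) ≠ 0)
    (hA : ∀ n : ℕ, 2 ≤ n → StarAdd W (n : ℤ)) (hM : ∀ n : ℕ, 2 ≤ n → StarMul W (n : ℤ))
    {P : W.toAffine.Point} (hP : P ≠ 0) (n : ℕ) : CritAt P n := by
  have hA' : ∀ n : ℕ, StarAdd W ((n : ℤ) + 1) := by
    intro n
    rcases Nat.eq_zero_or_pos n with rfl | hn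
    · simpa using starAdd_one W
    · have := hA (n + 1) (by omega)
      simpa using this
  have hM' : ∀ n : ℕ, StarMul W ((n : ℤ) + 1) := by
    intro n
    rcases Nat.eq_zero_or_pos n with rfl | hn
    · simpa using starMul_one W
    · have := hM (n + 1) (by omega)
      simpa using this
  have key : ∀ n : ℕ, CritAt P n ∧ CritAt P (n + 1) := by
    intro n
    induction n with
    | zero => exact ⟨critAt_zero P, critAt_one hP⟩
    | succ n ih => exact ⟨ih.2, critAt_step h2 hP n (hA' n) (hM' n) ih.1 ih.2⟩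
  exact (key n).1

/-- Corollary in the form used downstream: `n • P = 0 ↔ ΨSq_n (x(P)) = 0`. -/
theorem nsmul_eq_zero_iff (h2 : (2 : K) ≠ 0)
    (hA : ∀ n : ℕ, 2 ≤ n → StarAdd W (n : ℤ)) (hM : ∀ n : ℕ, 2 ≤ n → StarMul W (n : ℤ))
    {x y : K} (h : W.toAffine.Nonsingular x y) (n : ℕ) :
    n • (Point.some x y h) = 0 ↔ (W.ΨSq (n : ℤ)).eval x = 0 :=
  (crit h2 hA hM (Point.some_ne_zero h) n).1

end Points

end Fermat.Agent.S13.DivX


end ZBS05_002_2

/-! ### bundled: `Fermat.Agent.S13.DivPoly.Generic` -/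
section ZBS05_002_3
/-
S13 / P1, piece D-GP (helper6): the generic point `(X, Y)` of a Weierstrass curve `W` over a field
`K`, as a point of `W` over the function field `W.toAffine.FunctionField`, and the values of the
division polynomials at it.
-/

set_option autoImplicit false
set_option linter.unusedSectionVars false

namespace Fermat.Agent.S13.DivX

open WeierstrassCurve WeierstrassCurve.Affine Polynomial
open scoped Polynomial.Bivariate

variable {K : Type*} [Field K] (W : WeierstrassCurve K)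

/-- The canonical map `K[X][Y] → K(W)`. -/
noncomputable def bivToFF : K[X][Y] →+* W.toAffine.FunctionField :=
  (algebraMap W.toAffine.CoordinateRing W.toAffine.FunctionField).comp
    (CoordinateRing.mk W.toAffine)

/-- The canonical map `K[X] → K(W)`. -/
noncomputable def polyToFF : K[X] →+* W.toAffine.FunctionField :=
  (bivToFF W).comp Polynomial.C

lemma polyToFF_apply (p : K[X]) : polyToFF W p = bivToFF W (C p) := rfl

/-- `x`-coordinate of the generic point. -/
noncomputable def gx : W.toAffine.FunctionField := bivToFF W (C X)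

/-- `y`-coordinate of the generic point. -/
noncomputable def gy : W.toAffine.FunctionField := bivToFF W Y

lemma polyToFF_X : polyToFF W X = gx W := rfl

lemma polyToFF_C (a : K) : polyToFF W (C a) = algebraMap K W.toAffine.FunctionField a := by
  rw [polyToFF_apply, bivToFF, RingHom.comp_apply]
  rfl

lemma polyToFF_injective : Function.Injective (polyToFF W) := by
  have h1 : Function.Injective
      (algebraMap W.toAffine.CoordinateRing W.toAffine.FunctionField) :=
    IsFractionRing.injective _ _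
  have h2 : Function.Injective (algebraMap K[X] W.toAffine.CoordinateRing) :=
    FaithfulSMul.algebraMap_injective _ _
  intro p q hpq
  apply h2
  apply h1
  exact hpq

/-- Evaluating a base-changed bivariate polynomial at the generic point. -/
lemma evalEval_map_generic (p : K[X][Y]) :
    (p.map (mapRingHom (algebraMap K W.toAffine.FunctionField))).evalEval (gx W) (gy W) =
      bivToFF W p := by
  have key : ((evalEvalRingHom (gx W) (gy W)).comp
      (mapRingHom (mapRingHom (algebraMap K W.toAffine.FunctionField)))) = bivToFF W := by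
    apply Polynomial.ringHom_ext
    · intro q
      have key2 : ((evalEvalRingHom (gx W) (gy W)).comp
          (mapRingHom (mapRingHom (algebraMap K W.toAffine.FunctionField)))).comp C =
          (bivToFF W).comp C := by
        apply Polynomial.ringHom_ext
        · intro a
          simp only [RingHom.comp_apply, coe_mapRingHom, map_C, coe_evalRingHom, eval_C]
          rw [← polyToFF_apply, polyToFF_C]
        · simp only [RingHom.comp_apply, coe_mapRingHom, map_C, map_X, coe_evalRingHom, eval_C,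
            eval_X]
          rfl
      exact congrArg (fun f => f q) key2
    · simp only [RingHom.comp_apply, coe_mapRingHom, map_X, coe_evalRingHom, eval_X, eval_C]
      rfl
  exact congrArg (fun f => f p) key

lemma bivToFF_polynomial : bivToFF W W.toAffine.polynomial = 0 := by
  rw [bivToFF, RingHom.comp_apply]
  have : CoordinateRing.mk W.toAffine W.toAffine.polynomial = 0 := AdjoinRoot.mk_self
  rw [this, map_zero]

/-- The curve `W` over its own function field. -/
noncomputable abbrev WF : WeierstrassCurve W.toAffine.FunctionField :=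
  W.map (algebraMap K W.toAffine.FunctionField)

lemma generic_equation : (WF W).toAffine.Equation (gx W) (gy W) := by
  rw [Affine.Equation, Affine.map_polynomial, evalEval_map_generic, bivToFF_polynomial]

lemma bivToFF_polynomialY_ne_zero (h2 : (2 : K) ≠ 0) : bivToFF W W.toAffine.polynomialY ≠ 0 := by
  rw [bivToFF, RingHom.comp_apply]
  intro h0
  have h1 : CoordinateRing.mk W.toAffine W.toAffine.polynomialY = 0 :=
    (IsFractionRing.injective W.toAffine.CoordinateRing W.toAffine.FunctionField)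
      (by rw [h0, map_zero])
  have h3 : (C W.a₁ * X + C W.a₃ : K[X]) • (1 : W.toAffine.CoordinateRing) +
      (C 2 : K[X]) • CoordinateRing.mk W.toAffine Y = 0 := by
    rw [← h1, CoordinateRing.smul, CoordinateRing.smul, Affine.polynomialY, ← map_mul, mul_one,
      ← map_add]
    congr 1
    simp only [map_ofNat, map_add, map_mul]
    ring
  have := (CoordinateRing.smul_basis_eq_zero h3).2
  exact h2 (by simpa using this)

lemma generic_nonsingular (h2 : (2 : K) ≠ 0) : (WF W).toAffine.Nonsingular (gx W) (gy W) := by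
  refine ⟨generic_equation W, Or.inr ?_⟩
  rw [Affine.map_polynomialY, evalEval_map_generic]
  exact bivToFF_polynomialY_ne_zero W h2

/-- Value of the `n`-th division polynomial at the generic point. -/
noncomputable def gw (n : ℤ) : W.toAffine.FunctionField := bivToFF W (W.ψ n)

lemma evalEval_ψ_generic (n : ℤ) :
    ((WF W).ψ n).evalEval (gx W) (gy W) = gw W n := by
  rw [WeierstrassCurve.map_ψ, evalEval_map_generic, gw]

lemma gw_sq (n : ℤ) : gw W n ^ 2 = polyToFF W (W.ΨSq n) := by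
  rw [gw, bivToFF, RingHom.comp_apply, ← map_pow, CoordinateRing.mk_ψ, CoordinateRing.mk_Ψ_sq]
  rfl

lemma gw_ne_zero [CharZero K] {n : ℤ} (hn : n ≠ 0) : gw W n ≠ 0 := by
  intro h0
  have h1 : polyToFF W (W.ΨSq n) = 0 := by rw [← gw_sq, h0]; simp
  have h2 : W.ΨSq n = 0 := polyToFF_injective W (by rw [h1, map_zero])
  exact W.ΨSq_ne_zero (by exact_mod_cast hn) h2

lemma gx_mul_gw_sq_sub (n : ℤ) :
    gx W * gw W n ^ 2 - gw W (n + 1) * gw W (n - 1) = polyToFF W (W.Φ n) := by
  rw [polyToFF_apply, bivToFF, RingHom.comp_apply, ← CoordinateRing.mk_φ, WeierstrassCurve.φ]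
  simp only [gx, gw, bivToFF, RingHom.comp_apply, map_sub, map_mul, map_pow]

section Point

variable [DecidableEq W.toAffine.FunctionField]

/-- The generic point `(X, Y)` of `W`, a point over the function field. -/
noncomputable def genericPoint (h2 : (2 : K) ≠ 0) : (WF W).toAffine.Point :=
  Point.some (gx W) (gy W) (generic_nonsingular W h2)

lemma genericPoint_ne_zero (h2 : (2 : K) ≠ 0) : genericPoint W h2 ≠ 0 :=
  Point.some_ne_zero _

lemma xOf_genericPoint (h2 : (2 : K) ≠ 0) : xOf (genericPoint W h2) = polyToFF W X := rfl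

end Point

/-- The multiplication formula "below the first zero" and the vanishing at the first zero
(pieces D-MF and Z), as a statement about a curve over a field. -/
def MFStmt {F : Type*} [Field F] [DecidableEq F] (E : WeierstrassCurve F) : Prop :=
  ∀ (x y : F) (h : E.toAffine.Nonsingular x y) (N : ℕ),
    (∀ k : ℕ, 0 < k → k ≤ N → k • Point.some x y h ≠ 0) →
    (∀ k : ℕ, 0 < k → k ≤ N →
      xOf (k • Point.some x y h) * (E.ψ k).evalEval x y ^ 2 =
        x * (E.ψ k).evalEval x y ^ 2 -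
          (E.ψ (k + 1)).evalEval x y * (E.ψ (k - 1)).evalEval x y) ∧
    ((N + 1) • Point.some x y h = 0 → (E.ψ (N + 1 : ℕ)).evalEval x y = 0)

section Main

variable [CharZero K] [DecidableEq W.toAffine.FunctionField]

lemma two_ne_zero_of_charZero : (2 : K) ≠ 0 := two_ne_zero

/-- No multiple of the generic point vanishes. -/
theorem nsmul_genericPoint_ne_zero (hMF : MFStmt (WF W)) (n : ℕ) (hn : 0 < n) :
    n • genericPoint W two_ne_zero ≠ 0 := by
  induction n using Nat.strong_induction_on with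
  | _ n ih =>
    obtain ⟨N, rfl⟩ : ∃ N, n = N + 1 := ⟨n - 1, by omega⟩
    intro h0
    have hlow : ∀ k : ℕ, 0 < k → k ≤ N → k • Point.some (gx W) (gy W)
        (generic_nonsingular W two_ne_zero) ≠ 0 := fun k hk hkN => ih k (by omega) hk
    have := (hMF (gx W) (gy W) (generic_nonsingular W two_ne_zero) N hlow).2 h0
    rw [evalEval_ψ_generic] at this
    exact gw_ne_zero W (by exact_mod_cast Nat.succ_ne_zero N) this

/-- **H(n)**: the multiplication-by-`n` formula at the generic point. -/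
theorem generic_H (hMF : MFStmt (WF W)) (n : ℕ) (hn : 1 ≤ n) :
    n • genericPoint W two_ne_zero ≠ 0 ∧
      xOf (n • genericPoint W two_ne_zero) * polyToFF W (W.ΨSq n) = polyToFF W (W.Φ n) := by
  refine ⟨nsmul_genericPoint_ne_zero W hMF n hn, ?_⟩
  have hlow : ∀ k : ℕ, 0 < k → k ≤ n → k • Point.some (gx W) (gy W)
      (generic_nonsingular W two_ne_zero) ≠ 0 := fun k hk _ =>
    nsmul_genericPoint_ne_zero W hMF k hk
  have := (hMF (gx W) (gy W) (generic_nonsingular W two_ne_zero) n hlow).1 n hn le_rfl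
  rw [evalEval_ψ_generic, evalEval_ψ_generic, evalEval_ψ_generic, gw_sq, ← gw_sq,
    gx_mul_gw_sq_sub, gw_sq] at this
  exact this

end Main

end Fermat.Agent.S13.DivX


end ZBS05_002_3

/-! ### bundled: `Fermat.Agent.S13.DivPoly.Universal` -/
section ZBS05_002_4
/-
S13 / P1, Step B (helper12): the universal identities `(⋆)`, `(⋆⋆)` (`StarAdd`, `StarMul` of
`Crit.lean`) in `K[X]`, from the multiplication formula `generic_H` at the generic point
(`Generic.lean`, helper6) and the `x`-only addition law (`DivXA.lean`).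
Combined with `crit` this gives the criterion `n • P = 0 ↔ ΨSq_n(x(P)) = 0` at every affine point.
-/

set_option autoImplicit false
set_option linter.unusedSectionVars false

namespace Fermat.Agent.S13.DivX

open WeierstrassCurve WeierstrassCurve.Affine Polynomial Fermat.Agent.S05

variable {K : Type*} [Field K] (W : WeierstrassCurve K)

lemma polyToFF_ΨSq_ne_zero [CharZero K] {n : ℤ} (hn : n ≠ 0) : polyToFF W (W.ΨSq n) ≠ 0 := by
  rw [← gw_sq]
  exact pow_ne_zero 2 (gw_ne_zero W hn)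

lemma polyToFF_Φ_sub [CharZero K] {n : ℤ} (hn1 : n + 1 ≠ 0) (hn2 : n - 1 ≠ 0) :
    polyToFF W (W.Φ n) - gx W * polyToFF W (W.ΨSq n) ≠ 0 := by
  rw [← gx_mul_gw_sq_sub, gw_sq]
  have : gw W (n + 1) * gw W (n - 1) ≠ 0 := mul_ne_zero (gw_ne_zero W hn1) (gw_ne_zero W hn2)
  intro h
  apply this
  linear_combination -h

section Main

variable [CharZero K] [DecidableEq W.toAffine.FunctionField]

/-- The universal identities `(⋆)` and `(⋆⋆)` at index `m + 1`, `m ≥ 1`. -/
theorem star_of_generic (hMF : MFStmt (WF W)) (m : ℕ) (hm : 1 ≤ m) :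
    StarAdd W ((m : ℤ) + 1) ∧ StarMul W ((m : ℤ) + 1) := by
  have h2 : (2 : W.toAffine.FunctionField) ≠ 0 := by
    intro h
    have h' : algebraMap K W.toAffine.FunctionField 2 = 0 := by rw [map_ofNat]; exact h
    exact (two_ne_zero : (2 : K) ≠ 0) ((map_eq_zero _).mp h')
  set G := genericPoint W (two_ne_zero : (2 : K) ≠ 0) with hG
  have hGne : G ≠ 0 := genericPoint_ne_zero W _
  obtain ⟨hQ0, hx0⟩ := generic_H W hMF m hm
  obtain ⟨hQ1, hx1⟩ := generic_H W hMF (m + 1) (by omega)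
  obtain ⟨hQ2, hx2⟩ := generic_H W hMF (m + 2) (by omega)
  have c1 : ((m + 1 : ℕ) : ℤ) = (m : ℤ) + 1 := by push_cast; ring
  have c2 : ((m + 2 : ℕ) : ℤ) = (m : ℤ) + 1 + 1 := by push_cast; ring
  have c0 : (m : ℤ) + 1 - 1 = (m : ℤ) := by ring
  rw [c1] at hx1
  rw [c2] at hx2
  set U0 := polyToFF W (W.ΨSq (m : ℤ)) with hU0
  set U1 := polyToFF W (W.ΨSq ((m : ℤ) + 1)) with hU1
  set U2 := polyToFF W (W.ΨSq ((m : ℤ) + 1 + 1)) with hU2
  set F0 := polyToFF W (W.Φ (m : ℤ)) with hF0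
  set F1 := polyToFF W (W.Φ ((m : ℤ) + 1)) with hF1
  set F2 := polyToFF W (W.Φ ((m : ℤ) + 1 + 1)) with hF2
  have hmz : (m : ℤ) ≠ 0 := by exact_mod_cast (by omega : m ≠ 0)
  have hU0ne : U0 ≠ 0 := polyToFF_ΨSq_ne_zero W hmz
  have hU1ne : U1 ≠ 0 := polyToFF_ΨSq_ne_zero W (by omega)
  have hU2ne : U2 ≠ 0 := polyToFF_ΨSq_ne_zero W (by omega)
  have hdiff : F1 - gx W * U1 ≠ 0 :=
    polyToFF_Φ_sub W (n := (m : ℤ) + 1) (by omega) (by omega)
  -- `(□)` mapped to the function field
  have hsq : (F1 - gx W * U1) ^ 2 = U2 * U0 := by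
    have := congrArg (polyToFF W) (sq_id W ((m : ℤ) + 1))
    rw [c0] at this
    simpa only [map_pow, map_sub, map_mul, polyToFF_X] using this
  -- x-coordinates
  set a0 := xOf (m • G) with ha0
  set a1 := xOf ((m + 1) • G) with ha1
  set a2 := xOf ((m + 2) • G) with ha2
  have hxx : a1 ≠ xOf G := by
    intro h
    apply hdiff
    rw [← hx1, h, xOf_genericPoint, polyToFF_X]
    ring
  obtain ⟨-, -, hS, hP⟩ := xOf_add_sub h2 hQ1 hGne hxx
  have hsum : (m + 1) • G + G = (m + 2) • G := (succ_nsmul G (m + 1)).symm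
  have hsub : (m + 1) • G - G = m • G := by rw [succ_nsmul G m, add_sub_cancel_right]
  rw [hsum, hsub, xOf_genericPoint, polyToFF_X] at hS hP
  -- clear denominators
  have hden : U1 ^ 2 * (a1 - gx W) ^ 2 = U2 * U0 := by
    rw [← hsq, ← hx1]; ring
  have hb2 : (WF W).b₂ = polyToFF W (C W.b₂) := by rw [polyToFF_C, WeierstrassCurve.map_b₂]
  have hb4 : (WF W).b₄ = polyToFF W (C W.b₄) := by rw [polyToFF_C, WeierstrassCurve.map_b₄]
  have hb6 : (WF W).b₆ = polyToFF W (C W.b₆) := by rw [polyToFF_C, WeierstrassCurve.map_b₆]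
  have hb8 : (WF W).b₈ = polyToFF W (C W.b₈) := by rw [polyToFF_C, WeierstrassCurve.map_b₈]
  have hx1' : a1 * polyToFF W (W.ΨSq ((m : ℤ) + 1)) = polyToFF W (W.Φ ((m : ℤ) + 1)) := hx1
  constructor
  · -- (⋆)
    apply polyToFF_injective W
    rw [c0]
    simp only [map_add, map_mul, map_pow, map_ofNat, polyToFF_X, ← hb2, ← hb4, ← hb6]
    change F2 * U0 + F0 * U2 = _
    have e : (a2 + a0) * (U2 * U0) = U1 ^ 2 * sumNum (WF W) a1 (gx W) := by
      rw [← hS, ← hden]; ring
    have e' : (a2 + a0) * (U2 * U0) = F2 * U0 + F0 * U2 := by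
      rw [← hx2, ← hx0]; ring
    rw [← e', e, sumNum, ← hx1']
    ring
  · -- (⋆⋆)
    apply polyToFF_injective W
    rw [c0]
    simp only [map_sub, map_add, map_mul, map_pow, polyToFF_X, ← hb4, ← hb6, ← hb8]
    change F2 * F0 = _
    have e : (a2 * a0) * (U2 * U0) = U1 ^ 2 * prodNum (WF W) a1 (gx W) := by
      rw [← hP, ← hden]; ring
    have e' : (a2 * a0) * (U2 * U0) = F2 * F0 := by
      rw [← hx2, ← hx0]; ring
    rw [← e', e, prodNum, ← hx1']
    ring

theorem starAdd_of_MF (hMF : MFStmt (WF W)) (n : ℕ) (hn : 2 ≤ n) : StarAdd W (n : ℤ) := by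
  obtain ⟨m, rfl⟩ : ∃ m, n = m + 1 := ⟨n - 1, by omega⟩
  have := (star_of_generic W hMF m (by omega)).1
  simpa using this

theorem starMul_of_MF (hMF : MFStmt (WF W)) (n : ℕ) (hn : 2 ≤ n) : StarMul W (n : ℤ) := by
  obtain ⟨m, rfl⟩ : ∃ m, n = m + 1 := ⟨n - 1, by omega⟩
  have := (star_of_generic W hMF m (by omega)).2
  simpa using this

/-- **The criterion, unconditional up to `MFStmt` at the function field**:
for every affine point `P` of `W` (char `0`) and every `n`. -/
theorem crit_of_MF [DecidableEq K] (hMF : MFStmt (WF W)) {P : W.toAffine.Point} (hP : P ≠ 0)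
    (n : ℕ) : CritAt P n :=
  crit two_ne_zero (starAdd_of_MF W hMF) (starMul_of_MF W hMF) hP n

end Main

end Fermat.Agent.S13.DivX


end ZBS05_002_4

/-! ### bundled: `Fermat.Agent.S05.FreyArith` -/
section ZBS05_002_5

/-!
# S05: arithmetic of the Frey curve at a place over an odd prime `q`

* integers in a valuation subring `A` over `q`: `(n : L) ∈ A`, `(n : L) ∈ 𝔪 ↔ q ∣ n`;
* coefficients and `b`-invariants of `P.freyCurve⁄L`, the factorisation of the cubic `cub`;
* at most one of `a, b, c` is divisible by `q`;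
* Galois fixes rational numbers.
-/

set_option autoImplicit false
set_option linter.unusedSectionVars false
set_option linter.unnecessarySimpa false

namespace Fermat.Agent.S05

open WeierstrassCurve

section IntCast

variable {L : Type*} [Field L] (A : ValuationSubring L) {q : ℕ}

/-- `1 ∉ 𝔪`. -/
theorem one_not_mem_nonunits' : (1 : L) ∉ A.nonunits := by
  intro h
  rw [ValuationSubring.mem_nonunits_iff] at h
  simp at h

/-- `𝔪` is stable under multiplication by `A` (left factor in `A`). -/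
theorem mul_mem_nonunits_of_mem_right {a m : L} (ha : a ∈ A) (hm : m ∈ A.nonunits) :
    a * m ∈ A.nonunits := by
  rw [ValuationSubring.mem_nonunits_iff] at hm ⊢
  rw [map_mul]
  have h1 : A.valuation a ≤ 1 := (A.valuation_le_one_iff a).2 ha
  exact mul_lt_one_of_nonneg_of_lt_one_right h1 zero_le hm

/-- `𝔪` is stable under addition. -/
theorem add_mem_nonunits' {x y : L} (hx : x ∈ A.nonunits) (hy : y ∈ A.nonunits) :
    x + y ∈ A.nonunits := by
  rw [ValuationSubring.mem_nonunits_iff] at hx hy ⊢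
  exact lt_of_le_of_lt (Valuation.map_add _ _ _) (max_lt hx hy)

/-- Multiples of `q` lie in `𝔪`. -/
theorem intCast_mem_nonunits_of_dvd (hA : A.LiesOverPrime q) {n : ℤ} (h : (q : ℤ) ∣ n) :
    (n : L) ∈ A.nonunits := by
  obtain ⟨m, rfl⟩ := h
  have hq' : ((q : ℕ) : L) ∈ A.nonunits := hA
  have : (((q : ℤ) * m : ℤ) : L) = (m : L) * ((q : ℕ) : L) := by push_cast; ring
  rw [this]
  exact mul_mem_nonunits_of_mem_right A (intCast_mem A m) hq'

/-- Integers prime to `q` are units of `A`. -/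
theorem intCast_not_mem_nonunits_of_not_dvd (hq : q.Prime) (hA : A.LiesOverPrime q) {n : ℤ}
    (h : ¬ (q : ℤ) ∣ n) : (n : L) ∉ A.nonunits := by
  intro hn
  have hcop : IsCoprime (q : ℤ) n :=
    (Prime.coprime_iff_not_dvd (Nat.prime_iff_prime_int.mp hq)).mpr h
  obtain ⟨u, v, huv⟩ := hcop
  have h1 : (u : L) * ((q : ℕ) : L) + (v : L) * (n : L) = 1 := by
    have := congrArg (fun t : ℤ => (t : L)) huv
    simpa using this
  have hq' : ((q : ℕ) : L) ∈ A.nonunits := hA
  have hmem : (u : L) * ((q : ℕ) : L) + (v : L) * (n : L) ∈ A.nonunits :=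
    add_mem_nonunits' A (mul_mem_nonunits_of_mem_right A (intCast_mem A u) hq')
      (mul_mem_nonunits_of_mem_right A (intCast_mem A v) hn)
  rw [h1] at hmem
  exact one_not_mem_nonunits' A hmem

/-- **(a)** `(n : L) ∈ 𝔪 ↔ q ∣ n`. -/
theorem intCast_mem_nonunits_iff (hq : q.Prime) (hA : A.LiesOverPrime q) (n : ℤ) :
    (n : L) ∈ A.nonunits ↔ (q : ℤ) ∣ n :=
  ⟨fun h => by_contra fun hn => intCast_not_mem_nonunits_of_not_dvd A hq hA hn h,
    fun h => intCast_mem_nonunits_of_dvd A hA h⟩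

/-- **(a)** `v (n : L) = 1 ↔ ¬ q ∣ n`. -/
theorem valuation_intCast_eq_one_iff (hq : q.Prime) (hA : A.LiesOverPrime q) (n : ℤ) :
    A.valuation (n : L) = 1 ↔ ¬ (q : ℤ) ∣ n := by
  rw [← intCast_mem_nonunits_iff A hq hA, ValuationSubring.mem_nonunits_iff, not_lt]
  have h1 : A.valuation (n : L) ≤ 1 := (A.valuation_le_one_iff _).2 (intCast_mem A n)
  exact ⟨fun h => h.ge, fun h => le_antisymm h1 h⟩

/-- **(a)** `v (n : L) < 1 ↔ q ∣ n`. -/
theorem valuation_intCast_lt_one_iff (hq : q.Prime) (hA : A.LiesOverPrime q) (n : ℤ) :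
    A.valuation (n : L) < 1 ↔ (q : ℤ) ∣ n := by
  rw [← intCast_mem_nonunits_iff A hq hA, ValuationSubring.mem_nonunits_iff]

/-- **(a)** natural-number version. -/
theorem natCast_mem_nonunits_iff (hq : q.Prime) (hA : A.LiesOverPrime q) (n : ℕ) :
    (n : L) ∈ A.nonunits ↔ q ∣ n := by
  have := intCast_mem_nonunits_iff A hq hA (n : ℤ)
  rw [Int.natCast_dvd_natCast] at this
  simpa using this

/-- **(a)** natural-number version. -/
theorem valuation_natCast_eq_one_iff (hq : q.Prime) (hA : A.LiesOverPrime q) (n : ℕ) :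
    A.valuation (n : L) = 1 ↔ ¬ q ∣ n := by
  have := valuation_intCast_eq_one_iff A hq hA (n : ℤ)
  rw [Int.natCast_dvd_natCast] at this
  simpa using this

/-- `v 2 = 1` for odd `q`. -/
theorem valuation_two_eq_one (hq : q.Prime) (hA : A.LiesOverPrime q) (hq2 : q ≠ 2) :
    A.valuation (2 : L) = 1 := by
  have := (valuation_natCast_eq_one_iff A hq hA 2).2 (fun h =>
    hq2 ((Nat.prime_dvd_prime_iff_eq hq Nat.prime_two).1 h))
  simpa using this

/-- `v 4 = 1` for odd `q`. -/
theorem valuation_four_eq_one (hq : q.Prime) (hA : A.LiesOverPrime q) (hq2 : q ≠ 2) :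
    A.valuation (4 : L) = 1 := by
  have h2 := valuation_two_eq_one A hq hA hq2
  have : (4 : L) = 2 * 2 := by norm_num
  rw [this, map_mul, h2, one_mul]

/-- `v 8 = 1` for odd `q`. -/
theorem valuation_eight_eq_one (hq : q.Prime) (hA : A.LiesOverPrime q) (hq2 : q ≠ 2) :
    A.valuation (8 : L) = 1 := by
  have h2 := valuation_two_eq_one A hq hA hq2
  have : (8 : L) = 2 * 2 * 2 := by norm_num
  rw [this, map_mul, map_mul, h2, one_mul, one_mul]

/-- `v 16 = 1` for odd `q`. -/
theorem valuation_sixteen_eq_one (hq : q.Prime) (hA : A.LiesOverPrime q) (hq2 : q ≠ 2) :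
    A.valuation (16 : L) = 1 := by
  have h4 := valuation_four_eq_one A hq hA hq2
  have : (16 : L) = 4 * 4 := by norm_num
  rw [this, map_mul, h4, one_mul]

/-- `v p = 1` for a prime `p ≠ q`. -/
theorem valuation_prime_eq_one (hq : q.Prime) (hA : A.LiesOverPrime q) {p : ℕ} (hp : p.Prime)
    (hqp : q ≠ p) : A.valuation (p : L) = 1 :=
  (valuation_natCast_eq_one_iff A hq hA p).2 (fun h =>
    hqp ((Nat.prime_dvd_prime_iff_eq hq hp).1 h))

/-- Powers: `v (n ^ k) = 1` if `q ∤ n`. -/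
theorem valuation_intCast_pow_eq_one (hq : q.Prime) (hA : A.LiesOverPrime q) {n : ℤ}
    (h : ¬ (q : ℤ) ∣ n) (k : ℕ) : A.valuation ((n : L) ^ k) = 1 := by
  rw [map_pow, (valuation_intCast_eq_one_iff A hq hA n).2 h, one_pow]

/-- Powers: `v (n ^ k) < 1` if `q ∣ n` and `k ≠ 0`. -/
theorem valuation_intCast_pow_lt_one (hq : q.Prime) (hA : A.LiesOverPrime q) {n : ℤ}
    (h : (q : ℤ) ∣ n) {k : ℕ} (hk : k ≠ 0) : A.valuation ((n : L) ^ k) < 1 := by
  rw [map_pow]
  exact pow_lt_one₀ zero_le ((valuation_intCast_lt_one_iff A hq hA n).2 h) hk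

/-- Dividing by a unit of `A` does not change the valuation. -/
theorem valuation_div_of_eq_one {x u : L} (hu : A.valuation u = 1) :
    A.valuation (x / u) = A.valuation x := by
  rw [map_div₀, hu, div_one]

end IntCast

section Galois

variable {L : Type*} [Field L] [Algebra ℚ L]

/-- **(e)** Galois fixes rational numbers. -/
theorem galois_fixes_rat (σ : L ≃ₐ[ℚ] L) (r : ℚ) :
    σ (algebraMap ℚ L r) = algebraMap ℚ L r := σ.commutes r

/-- **(e)** Galois fixes integers. -/
theorem galois_fixes_int (σ : L ≃ₐ[ℚ] L) (n : ℤ) : σ (n : L) = (n : L) := map_intCast σ n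

/-- **(e)** Galois fixes natural numbers. -/
theorem galois_fixes_nat (σ : L ≃ₐ[ℚ] L) (n : ℕ) : σ (n : L) = (n : L) := map_natCast σ n

end Galois

section Frey

variable (P : FreyPackage) (L : Type*) [Field L] [Algebra ℚ L]

/-- The Frey curve base-changed to `L` (this is what `P.freyCurve⁄L` unfolds to). -/
theorem frey_baseChange_eq :
    (P.freyCurve.baseChange L) = P.freyCurve.map (algebraMap ℚ L) := rfl

/-- `L` has characteristic zero (it is a `ℚ`-algebra). -/
theorem charZero_of_algebraRat : CharZero L := algebraRat.charZero L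

/-- **(b)** `a₁ = 1`. -/
theorem frey_a₁ : (P.freyCurve.baseChange L).a₁ = 1 := by
  simp [WeierstrassCurve.baseChange, FreyPackage.freyCurve]

/-- **(b)** `a₂ = (b^p - 1 - a^p) / 4`. -/
theorem frey_a₂ :
    (P.freyCurve.baseChange L).a₂ = ((P.b : L) ^ P.p - 1 - (P.a : L) ^ P.p) / 4 := by
  have := charZero_of_algebraRat L
  simp only [WeierstrassCurve.baseChange, FreyPackage.freyCurve, WeierstrassCurve.map_a₂,
    eq_ratCast]
  push_cast
  ring

/-- **(b)** `a₃ = 0`. -/
theorem frey_a₃ : (P.freyCurve.baseChange L).a₃ = 0 := by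
  simp [WeierstrassCurve.baseChange, FreyPackage.freyCurve]

/-- **(b)** `a₄ = -(a^p b^p) / 16`. -/
theorem frey_a₄ :
    (P.freyCurve.baseChange L).a₄ = -((P.a : L) ^ P.p) * (P.b : L) ^ P.p / 16 := by
  have := charZero_of_algebraRat L
  simp only [WeierstrassCurve.baseChange, FreyPackage.freyCurve, WeierstrassCurve.map_a₄,
    eq_ratCast]
  push_cast
  ring

/-- **(b)** `a₆ = 0`. -/
theorem frey_a₆ : (P.freyCurve.baseChange L).a₆ = 0 := by
  simp [WeierstrassCurve.baseChange, FreyPackage.freyCurve]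

/-- **(c)** `b₂ = b^p - a^p`. -/
theorem frey_b₂ : (P.freyCurve.baseChange L).b₂ = (P.b : L) ^ P.p - (P.a : L) ^ P.p := by
  have := charZero_of_algebraRat L
  rw [WeierstrassCurve.b₂, frey_a₁, frey_a₂]
  field_simp
  ring

/-- **(c)** `b₄ = -(a^p b^p) / 8`. -/
theorem frey_b₄ : (P.freyCurve.baseChange L).b₄ = -((P.a : L) ^ P.p) * (P.b : L) ^ P.p / 8 := by
  have := charZero_of_algebraRat L
  rw [WeierstrassCurve.b₄, frey_a₁, frey_a₃, frey_a₄]
  field_simp
  ring

/-- **(c)** `b₆ = 0`. -/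
theorem frey_b₆ : (P.freyCurve.baseChange L).b₆ = 0 := by
  rw [WeierstrassCurve.b₆, frey_a₃, frey_a₆]
  ring

/-- **(c)** `b₈ = -(a^p b^p)² / 256`. -/
theorem frey_b₈ :
    (P.freyCurve.baseChange L).b₈ = -(((P.a : L) ^ P.p) * (P.b : L) ^ P.p) ^ 2 / 256 := by
  have := charZero_of_algebraRat L
  rw [WeierstrassCurve.b₈, frey_a₁, frey_a₂, frey_a₃, frey_a₄, frey_a₆]
  field_simp
  ring

/-- **(d)** the Fermat equation in `L`. -/
theorem frey_flt_cast : (P.a : L) ^ P.p + (P.b : L) ^ P.p = (P.c : L) ^ P.p := by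
  have := congrArg (fun t : ℤ => (t : L)) P.hFLT
  simpa using this

/-- **(c)** the cubic of the Frey curve: `cub x = 4 x (x - a^p/4) (x + b^p/4)`. -/
theorem frey_cub (x : L) :
    cub (P.freyCurve.baseChange L) x =
      4 * x * (x - (P.a : L) ^ P.p / 4) * (x + (P.b : L) ^ P.p / 4) := by
  have := charZero_of_algebraRat L
  rw [cub, frey_b₂, frey_b₄, frey_b₆]
  field_simp
  ring

/-- **(c)** the cubic in the shape `4 (x - r₁) (x - r₁ - e₂) (x - r₁ - e₃)`,
instance `(r₁, e₂, e₃) = (0, a^p/4, -b^p/4)` (used when `q ∣ a`). -/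
theorem frey_cub_a (x : L) :
    cub (P.freyCurve.baseChange L) x =
      4 * (x - 0) * (x - 0 - (P.a : L) ^ P.p / 4) * (x - 0 - (-((P.b : L) ^ P.p) / 4)) := by
  rw [frey_cub]; ring

/-- **(c)** instance `(r₁, e₂, e₃) = (0, -b^p/4, a^p/4)` (used when `q ∣ b`). -/
theorem frey_cub_b (x : L) :
    cub (P.freyCurve.baseChange L) x =
      4 * (x - 0) * (x - 0 - (-((P.b : L) ^ P.p) / 4)) * (x - 0 - (P.a : L) ^ P.p / 4) := by
  rw [frey_cub]; ring

/-- **(c)** instance `(r₁, e₂, e₃) = (a^p/4, -c^p/4, -a^p/4)` (used when `q ∣ c`). -/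
theorem frey_cub_c (x : L) :
    cub (P.freyCurve.baseChange L) x =
      4 * (x - (P.a : L) ^ P.p / 4) * (x - (P.a : L) ^ P.p / 4 - (-((P.c : L) ^ P.p) / 4)) *
        (x - (P.a : L) ^ P.p / 4 - (-((P.a : L) ^ P.p) / 4)) := by
  rw [frey_cub, ← frey_flt_cast P L]; ring

variable {L}

/-- **(b)** all coefficients of the Frey curve lie in a valuation subring over an odd prime. -/
theorem frey_coeff_mem (A : ValuationSubring L) {q : ℕ} (hq : q.Prime) (hq2 : q ≠ 2)
    (hA : A.LiesOverPrime q) :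
    (P.freyCurve.baseChange L).a₁ ∈ A ∧ (P.freyCurve.baseChange L).a₂ ∈ A ∧
      (P.freyCurve.baseChange L).a₃ ∈ A ∧ (P.freyCurve.baseChange L).a₄ ∈ A ∧
      (P.freyCurve.baseChange L).a₆ ∈ A := by
  have h4 := valuation_four_eq_one A hq hA hq2
  have h16 := valuation_sixteen_eq_one A hq hA hq2
  have ha : (P.a : L) ∈ A := intCast_mem A P.a
  have hb : (P.b : L) ∈ A := intCast_mem A P.b
  refine ⟨?_, ?_, ?_, ?_, ?_⟩
  · rw [frey_a₁]; exact one_mem A
  · rw [frey_a₂, ← A.valuation_le_one_iff, valuation_div_of_eq_one A h4, A.valuation_le_one_iff]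
    exact sub_mem (sub_mem (pow_mem hb _) (one_mem A)) (pow_mem ha _)
  · rw [frey_a₃]; exact zero_mem A
  · rw [frey_a₄, ← A.valuation_le_one_iff, valuation_div_of_eq_one A h16, A.valuation_le_one_iff]
    exact mul_mem (neg_mem (pow_mem ha _)) (pow_mem hb _)
  · rw [frey_a₆]; exact zero_mem A

/-- **(b)** the `b`-invariants of the Frey curve lie in `A`. -/
theorem frey_b_mem (A : ValuationSubring L) {q : ℕ} (hq : q.Prime) (hq2 : q ≠ 2)
    (hA : A.LiesOverPrime q) :
    (P.freyCurve.baseChange L).b₂ ∈ A ∧ (P.freyCurve.baseChange L).b₄ ∈ A ∧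
      (P.freyCurve.baseChange L).b₆ ∈ A ∧ (P.freyCurve.baseChange L).b₈ ∈ A := by
  obtain ⟨h1, h2, h3, h4, h6⟩ := frey_coeff_mem P A hq hq2 hA
  have hn : ∀ n : ℕ, (n : L) ∈ A := fun n => natCast_mem A n
  have two : (2 : L) ∈ A := by simpa using hn 2
  have four : (4 : L) ∈ A := by simpa using hn 4
  refine ⟨?_, ?_, ?_, ?_⟩
  · rw [WeierstrassCurve.b₂]
    exact add_mem (pow_mem h1 _) (mul_mem four h2)
  · rw [WeierstrassCurve.b₄]
    exact add_mem (mul_mem two h4) (mul_mem h1 h3)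
  · rw [WeierstrassCurve.b₆]
    exact add_mem (pow_mem h3 _) (mul_mem four h6)
  · rw [WeierstrassCurve.b₈]
    exact sub_mem (add_mem (sub_mem (add_mem (mul_mem (pow_mem h1 _) h6)
      (mul_mem (mul_mem four h2) h6)) (mul_mem (mul_mem h1 h3) h4)) (mul_mem h2 (pow_mem h3 _)))
      (pow_mem h4 _)

end Frey

section Coprime

variable (P : FreyPackage)

/-- A prime cannot divide two coprime integers. -/
theorem not_dvd_of_gcd_eq_one {x y : ℤ} (h : gcd x y = 1) {q : ℕ} (hq : q.Prime)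
    (hx : (q : ℤ) ∣ x) : ¬ (q : ℤ) ∣ y := by
  intro hy
  have h1 : (q : ℤ) ∣ gcd x y := dvd_gcd hx hy
  rw [h] at h1
  have h2 : (q : ℤ) ≤ 1 := Int.le_of_dvd one_pos h1
  have := hq.two_le
  omega

/-- **(d)** if `q ∣ a` then `q ∤ b` and `q ∤ c`. -/
theorem frey_not_dvd_of_dvd_a {q : ℕ} (hq : q.Prime) (h : (q : ℤ) ∣ P.a) :
    ¬ (q : ℤ) ∣ P.b ∧ ¬ (q : ℤ) ∣ P.c :=
  ⟨not_dvd_of_gcd_eq_one P.hgcdab hq h, not_dvd_of_gcd_eq_one P.hgcdac hq h⟩

/-- **(d)** if `q ∣ b` then `q ∤ a` and `q ∤ c`. -/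
theorem frey_not_dvd_of_dvd_b {q : ℕ} (hq : q.Prime) (h : (q : ℤ) ∣ P.b) :
    ¬ (q : ℤ) ∣ P.a ∧ ¬ (q : ℤ) ∣ P.c :=
  ⟨fun ha => not_dvd_of_gcd_eq_one P.hgcdab hq ha h, not_dvd_of_gcd_eq_one P.hgcdbc hq h⟩

/-- **(d)** if `q ∣ c` then `q ∤ a` and `q ∤ b`. -/
theorem frey_not_dvd_of_dvd_c {q : ℕ} (hq : q.Prime) (h : (q : ℤ) ∣ P.c) :
    ¬ (q : ℤ) ∣ P.a ∧ ¬ (q : ℤ) ∣ P.b :=
  ⟨fun ha => not_dvd_of_gcd_eq_one P.hgcdac hq ha h,
    fun hb => not_dvd_of_gcd_eq_one P.hgcdbc hq hb h⟩

/-- **(d)** the four cases at a prime `q`: good reduction, or exactly one of `a, b, c` is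
divisible by `q`. -/
theorem frey_cases {q : ℕ} (hq : q.Prime) :
    (¬ (q : ℤ) ∣ P.a ∧ ¬ (q : ℤ) ∣ P.b ∧ ¬ (q : ℤ) ∣ P.c) ∨
    ((q : ℤ) ∣ P.a ∧ ¬ (q : ℤ) ∣ P.b ∧ ¬ (q : ℤ) ∣ P.c) ∨
    (¬ (q : ℤ) ∣ P.a ∧ (q : ℤ) ∣ P.b ∧ ¬ (q : ℤ) ∣ P.c) ∨
    (¬ (q : ℤ) ∣ P.a ∧ ¬ (q : ℤ) ∣ P.b ∧ (q : ℤ) ∣ P.c) := by
  by_cases ha : (q : ℤ) ∣ P.a
  · exact Or.inr (Or.inl ⟨ha, frey_not_dvd_of_dvd_a P hq ha⟩)
  by_cases hb : (q : ℤ) ∣ P.b
  · exact Or.inr (Or.inr (Or.inl ⟨ha, hb, (frey_not_dvd_of_dvd_b P hq hb).2⟩))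
  by_cases hc : (q : ℤ) ∣ P.c
  · exact Or.inr (Or.inr (Or.inr ⟨ha, hb, hc⟩))
  · exact Or.inl ⟨ha, hb, hc⟩

end Coprime

section FreyValuations

variable (P : FreyPackage) {L : Type*} [Field L] [Algebra ℚ L] (A : ValuationSubring L) {q : ℕ}

/-- `v (n^p / 4) = 1` when `q ∤ n` (`q` odd). -/
theorem valuation_pow_div_four_eq_one (hq : q.Prime) (hq2 : q ≠ 2) (hA : A.LiesOverPrime q)
    {n : ℤ} (h : ¬ (q : ℤ) ∣ n) (k : ℕ) : A.valuation ((n : L) ^ k / 4) = 1 := by
  rw [valuation_div_of_eq_one A (valuation_four_eq_one A hq hA hq2),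
    valuation_intCast_pow_eq_one A hq hA h]

/-- `v (-(n^p) / 4) = 1` when `q ∤ n` (`q` odd). -/
theorem valuation_neg_pow_div_four_eq_one (hq : q.Prime) (hq2 : q ≠ 2) (hA : A.LiesOverPrime q)
    {n : ℤ} (h : ¬ (q : ℤ) ∣ n) (k : ℕ) : A.valuation (-((n : L) ^ k) / 4) = 1 := by
  rw [valuation_div_of_eq_one A (valuation_four_eq_one A hq hA hq2), Valuation.map_neg,
    valuation_intCast_pow_eq_one A hq hA h]

/-- `0 < v (n^p / 4) < 1` when `q ∣ n`, `n ≠ 0`, `k ≠ 0` (`q` odd). -/
theorem valuation_pow_div_four_lt_one (hq : q.Prime) (hq2 : q ≠ 2) (hA : A.LiesOverPrime q)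
    {n : ℤ} (hn : n ≠ 0) (h : (q : ℤ) ∣ n) {k : ℕ} (hk : k ≠ 0) :
    A.valuation ((n : L) ^ k / 4) ≠ 0 ∧ A.valuation ((n : L) ^ k / 4) < 1 := by
  have := charZero_of_algebraRat L
  rw [valuation_div_of_eq_one A (valuation_four_eq_one A hq hA hq2)]
  refine ⟨?_, valuation_intCast_pow_lt_one A hq hA h hk⟩
  rw [Valuation.ne_zero_iff]
  exact pow_ne_zero _ (by exact_mod_cast hn)

/-- `0 < v (-(n^p) / 4) < 1` when `q ∣ n`, `n ≠ 0`, `k ≠ 0` (`q` odd). -/
theorem valuation_neg_pow_div_four_lt_one (hq : q.Prime) (hq2 : q ≠ 2) (hA : A.LiesOverPrime q)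
    {n : ℤ} (hn : n ≠ 0) (h : (q : ℤ) ∣ n) {k : ℕ} (hk : k ≠ 0) :
    A.valuation (-((n : L) ^ k) / 4) ≠ 0 ∧ A.valuation (-((n : L) ^ k) / 4) < 1 := by
  have := valuation_pow_div_four_lt_one A hq hq2 hA hn h hk
  rw [neg_div, Valuation.map_neg]
  exact this

end FreyValuations

end Fermat.Agent.S05


end ZBS05_002_5

/-! ### bundled: `Fermat.Agent.S05.Key` -/
section ZBS05_002_6

/-!
# S05, piece K: the key lemma (general Weierstrass curve, `(x, η)`-coordinates)

Two distinct affine points `P`, `P'` whose coordinates are congruent modulo the maximal ideal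
("same reduction") differ by a point whose `x`-coordinate is NOT integral, provided either
* the reduction of `P` is nonsingular (`key_nonsing`), or
* `P` is near a node `(r, ·)`, on the same branch as `P'`, and `(x' - r)/(x - r) ≡ 1`
  (`key_node`).
Everything follows from `key_of_slope`: the slope `(η' + η)/(x' - x)` is not integral.
-/

set_option autoImplicit false
set_option linter.unusedSectionVars false
set_option linter.unusedVariables false

namespace Fermat.Agent.S05

open WeierstrassCurve WeierstrassCurve.Affine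

variable {K : Type*} [Field K] [DecidableEq K]
variable {Γ₀ : Type*} [LinearOrderedCommGroupWithZero Γ₀] (v : Valuation K Γ₀)

lemma key_val_two_ne_zero (h2 : v (2 : K) = 1) : (2 : K) ≠ 0 := by
  intro h0
  rw [h0, map_zero] at h2
  exact zero_ne_one h2

lemma key_val_four (h2 : v (2 : K) = 1) : v (4 : K) = 1 := by
  have : (4 : K) = 2 * 2 := by norm_num
  rw [this, map_mul, h2, one_mul]

/-- **Slope criterion.** If `v (x' - x) < v (η' + η)` then `P' - P` has non-integral `x`. -/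
theorem key_of_slope {W : WeierstrassCurve K} (hb₂ : v W.b₂ ≤ 1) (h2 : v (2 : K) = 1)
    {x y x' y' : K} (h : W.toAffine.Nonsingular x y) (h' : W.toAffine.Nonsingular x' y')
    (hx : v x ≤ 1) (hx' : v x' ≤ 1) (hne : x' ≠ x)
    (hlt : v (x' - x) < v (eta W x' y' + eta W x y)) :
    ∃ (x'' y'' : K) (h'' : W.toAffine.Nonsingular x'' y''),
      Point.some x' y' h' - Point.some x y h = Point.some x'' y'' h'' ∧ 1 < v x'' := by
  obtain ⟨x₃, y₃, h₃, hsub, hX, -⟩ := sub_of_X_ne h' h hne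
  refine ⟨x₃, y₃, h₃, hsub, ?_⟩
  have h4 := key_val_four v h2
  have hd0 : 0 < v (x' - x) := by
    rw [v.pos_iff]; exact sub_ne_zero.2 hne
  have hd : x' - x ≠ 0 := sub_ne_zero.2 hne
  -- `4 x₃ = ((η' + η)/(x' - x))² - (b₂ + 4x' + 4x)`
  have hX' : 4 * x₃ = ((eta W x' y' + eta W x y) / (x' - x)) ^ 2 - (W.b₂ + 4 * x' + 4 * x) := by
    field_simp
    linear_combination hX
  have hsl : 1 < v ((eta W x' y' + eta W x y) / (x' - x)) := by
    rw [map_div₀]
    exact (one_lt_div₀ hd0).2 hlt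
  have hsl2 : 1 < v (((eta W x' y' + eta W x y) / (x' - x)) ^ 2) := by
    rw [map_pow]
    exact one_lt_pow₀ hsl (by norm_num)
  have h3 : v (W.b₂ + 4 * x' + 4 * x) ≤ 1 := by
    apply v.map_add_le (v.map_add_le hb₂ _) _
    · rw [map_mul, h4, one_mul]; exact hx'
    · rw [map_mul, h4, one_mul]; exact hx
  have : v (4 * x₃) = v (((eta W x' y' + eta W x y) / (x' - x)) ^ 2) := by
    rw [hX', v.map_sub_eq_of_lt_left (lt_of_le_of_lt h3 hsl2)]
  rw [map_mul, h4, one_mul] at this
  rw [this]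
  exact hsl2

/-- **Key lemma, nonsingular reduction.** -/
theorem key_nonsing {W : WeierstrassCurve K} (hb₂ : v W.b₂ ≤ 1) (hb₄ : v W.b₄ ≤ 1)
    (h2 : v (2 : K) = 1)
    {x y x' y' : K} (h : W.toAffine.Nonsingular x y) (h' : W.toAffine.Nonsingular x' y')
    (hx : v x ≤ 1) (hη : v (eta W x y) ≤ 1)
    (hxx : v (x' - x) < 1) (hηη : v (eta W x' y' - eta W x y) < 1)
    (hne : Point.some x' y' h' ≠ Point.some x y h)
    (hns : v (eta W x y) = 1 ∨ v (dcub W x) = 1) :
    ∃ (x'' y'' : K) (h'' : W.toAffine.Nonsingular x'' y''),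
      Point.some x' y' h' - Point.some x y h = Point.some x'' y'' h'' ∧ 1 < v x'' := by
  have h20 := key_val_two_ne_zero v h2
  have h4 := key_val_four v h2
  have e := eta_sq W h.1
  have e' := eta_sq W h'.1
  have hx' : v x' ≤ 1 := by
    have : x' = (x' - x) + x := by ring
    rw [this]; exact v.map_add_le hxx.le hx
  have hd : v (eta W x y) < 1 → v (dcub W x) = 1 := by
    intro hlt
    rcases hns with h1 | h1
    · exact absurd h1 hlt.ne
    · exact h1
  by_cases hxe : x' = x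
  · -- then `η' = -η`, and `P' - P = -(P + P)`
    have hxe' : x = x' := hxe.symm
    subst hxe'
    have hyy' : y' = W.toAffine.negY x y := by
      rcases Affine.Y_eq_of_X_eq h'.1 h.1 rfl with h1 | h1
      · subst h1; exact absurd rfl hne
      · exact h1
    subst hyy'
    have hP' : Point.some x (W.toAffine.negY x y) h' = -Point.some x y h := by
      rw [Point.neg_some]
    rw [eta_negY] at hηη
    have h2η : v (2 * eta W x y) < 1 := by
      have : -eta W x y - eta W x y = -(2 * eta W x y) := by ring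
      rw [this, v.map_neg] at hηη
      exact hηη
    have hηlt : v (eta W x y) < 1 := by
      rw [map_mul, h2, one_mul] at h2η
      exact h2η
    have hη0 : eta W x y ≠ 0 := by
      intro h0
      apply hne
      have := (eta_eq_zero_iff W x y).1 h0
      rw [hP', Point.neg_some]
      congr 1
      exact this.symm
    obtain ⟨x₃, y₃, h₃, hadd, hX⟩ := add_self_of_eta_ne h hη0
    have hsub : Point.some x (W.toAffine.negY x y) h' - Point.some x y h =
        Point.some x₃ (W.toAffine.negY x₃ y₃) ((Affine.nonsingular_neg ..).mpr h₃) := by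
      have hneg3 : Point.some x₃ (W.toAffine.negY x₃ y₃) ((Affine.nonsingular_neg ..).mpr h₃) =
          -(Point.some x y h + Point.some x y h) := by
        rw [hadd, Point.neg_some]
      rw [hP', hneg3]
      abel
    refine ⟨_, _, _, hsub, ?_⟩
    -- `v (dupNum x) = 1`
    have hdup : v (dupNum W x) = 1 := by
      have h1 : v (4 * dupNum W x) = 1 := by
        rw [four_dupNum, v.map_sub_eq_of_lt_left, map_pow, hd hηlt, one_pow]
        rw [map_pow, hd hηlt, one_pow, ← e, map_mul, map_pow]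
        have h8 : v (W.b₂ + 8 * x) ≤ 1 := by
          apply v.map_add_le hb₂
          have : (8 : K) = 2 * 4 := by norm_num
          rw [this, map_mul, map_mul, h2, h4, one_mul, one_mul]; exact hx
        have hη2 : v (eta W x y) ^ 2 < 1 := pow_lt_one₀ zero_le hηlt (by norm_num)
        calc v (W.b₂ + 8 * x) * v (eta W x y) ^ 2 ≤ 1 * v (eta W x y) ^ 2 := by gcongr
          _ = v (eta W x y) ^ 2 := one_mul _
          _ < 1 := hη2
      rwa [map_mul, h4, one_mul] at h1
    have hη2pos : 0 < v (eta W x y) ^ 2 := by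
      apply pow_pos
      rw [v.pos_iff]; exact hη0
    have hη2 : v (eta W x y) ^ 2 < 1 := pow_lt_one₀ zero_le hηlt (by norm_num)
    have hval : v x₃ * v (eta W x y) ^ 2 = 1 := by
      rw [← map_pow, ← map_mul, hX, hdup]
    by_contra hcon
    rw [not_lt] at hcon
    have : (1 : Γ₀) < 1 := by
      calc (1 : Γ₀) = v x₃ * v (eta W x y) ^ 2 := hval.symm
        _ ≤ 1 * v (eta W x y) ^ 2 := by gcongr
        _ = v (eta W x y) ^ 2 := one_mul _
        _ < 1 := hη2
    exact lt_irrefl _ this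
  · apply key_of_slope v hb₂ h2 h h' hx hx' hxe
    have hd0 : 0 < v (x' - x) := by
      rw [v.pos_iff]; exact sub_ne_zero.2 hxe
    by_cases hη1 : v (eta W x y) = 1
    · have : eta W x' y' + eta W x y = 2 * eta W x y + (eta W x' y' - eta W x y) := by ring
      rw [this, v.map_add_eq_of_lt_left (by rw [map_mul, h2, one_mul, hη1]; exact hηη),
        map_mul, h2, one_mul, hη1]
      exact hxx
    · have hηlt : v (eta W x y) < 1 := lt_of_le_of_ne hη hη1
      have hG : v (4 * (x' ^ 2 + x' * x + x ^ 2) + W.b₂ * (x' + x) + 2 * W.b₄) = 1 := by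
        have : 4 * (x' ^ 2 + x' * x + x ^ 2) + W.b₂ * (x' + x) + 2 * W.b₄ =
            2 * dcub W x + (x' - x) * (4 * x' + 8 * x + W.b₂) := by
          simp only [dcub]; ring
        have h2d : v (2 * dcub W x) = 1 := by rw [map_mul, h2, hd hηlt, one_mul]
        rw [this, v.map_add_eq_of_lt_left, h2d]
        rw [h2d, map_mul]
        have h3 : v (4 * x' + 8 * x + W.b₂) ≤ 1 := by
          apply v.map_add_le (v.map_add_le _ _) hb₂
          · rw [map_mul, h4, one_mul]; exact hx'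
          · have : (8 : K) = 2 * 4 := by norm_num
            rw [this, map_mul, map_mul, h2, h4, one_mul, one_mul]; exact hx
        calc v (x' - x) * v (4 * x' + 8 * x + W.b₂) ≤ v (x' - x) * 1 := by gcongr
          _ = v (x' - x) := mul_one _
          _ < 1 := hxx
      have hprod : v (eta W x' y' - eta W x y) * v (eta W x' y' + eta W x y) = v (x' - x) := by
        rw [← map_mul, ← mul_one (v (x' - x)), ← hG, ← map_mul]
        congr 1
        simp only [cub] at e e'
        linear_combination e' - e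
      by_contra hcon
      rw [not_lt] at hcon
      have : v (x' - x) < v (x' - x) := by
        calc v (x' - x) = v (eta W x' y' - eta W x y) * v (eta W x' y' + eta W x y) := hprod.symm
          _ ≤ v (eta W x' y' - eta W x y) * v (x' - x) := by gcongr
          _ < 1 * v (x' - x) := mul_lt_mul_of_pos_right hηη hd0
          _ = v (x' - x) := one_mul _
      exact lt_irrefl _ this

/-- **Key lemma, at a node.** `r` is the `x`-coordinate of the node; `X = x - r`.
If `η / X` is a unit, `η' / X' ≡ η / X` (same branch) and `v (X' - X) < v X`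
(that is `X'/X ≡ 1`), then `P' - P` has non-integral `x`. -/
theorem key_node {W : WeierstrassCurve K} (hb₂ : v W.b₂ ≤ 1) (h2 : v (2 : K) = 1)
    {x y x' y' : K} (h : W.toAffine.Nonsingular x y) (h' : W.toAffine.Nonsingular x' y')
    (r : K) (hx : v x ≤ 1) (hx' : v x' ≤ 1) (hX0 : x - r ≠ 0) (hxx : v (x' - x) < v (x - r))
    (ht : v (eta W x y / (x - r)) = 1)
    (htt : v (eta W x' y' / (x' - r) - eta W x y / (x - r)) < 1)
    (hne : Point.some x' y' h' ≠ Point.some x y h) :
    ∃ (x'' y'' : K) (h'' : W.toAffine.Nonsingular x'' y''),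
      Point.some x' y' h' - Point.some x y h = Point.some x'' y'' h'' ∧ 1 < v x'' := by
  have h20 := key_val_two_ne_zero v h2
  have hvX0 : 0 < v (x - r) := by rw [v.pos_iff]; exact hX0
  have hXX : x' - r = (x - r) + (x' - x) := by ring
  have hvX' : v (x' - r) = v (x - r) := by
    rw [hXX, v.map_add_eq_of_lt_left hxx]
  have hX'0 : x' - r ≠ 0 := by
    rw [← v.pos_iff, hvX']; exact hvX0
  have ht' : v (eta W x' y' / (x' - r)) = 1 := by
    have := v.map_eq_of_sub_lt (x := eta W x y / (x - r)) (y := eta W x' y' / (x' - r))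
      (by rw [ht]; exact htt)
    rw [this, ht]
  have hxe : x' ≠ x := by
    intro hxe
    have hxe' : x = x' := hxe.symm
    subst hxe'
    rcases Affine.Y_eq_of_X_eq h'.1 h.1 rfl with h1 | h1
    · subst h1; exact hne rfl
    · subst h1
      rw [eta_negY] at htt
      have : -eta W x y / (x - r) - eta W x y / (x - r) = -(2 * (eta W x y / (x - r))) := by ring
      rw [this, v.map_neg, map_mul, h2, one_mul, ht] at htt
      exact lt_irrefl _ htt
  apply key_of_slope v hb₂ h2 h h' hx hx' hxe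
  -- `η' + η = X (2t + (t' - t)) + (X' - X) t'`
  have hsum : eta W x' y' + eta W x y =
      (x - r) * (2 * (eta W x y / (x - r)) + (eta W x' y' / (x' - r) - eta W x y / (x - r))) +
        (x' - x) * (eta W x' y' / (x' - r)) := by
    field_simp
    ring
  have h1 : v (2 * (eta W x y / (x - r)) +
      (eta W x' y' / (x' - r) - eta W x y / (x - r))) = 1 := by
    rw [v.map_add_eq_of_lt_left, map_mul, h2, one_mul, ht]
    rw [map_mul, h2, one_mul, ht]; exact htt
  have h3 : v ((x - r) * (2 * (eta W x y / (x - r)) +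
      (eta W x' y' / (x' - r) - eta W x y / (x - r)))) = v (x - r) := by
    rw [map_mul, h1, mul_one]
  have h4 : v ((x' - x) * (eta W x' y' / (x' - r))) < v (x - r) := by
    rw [map_mul, ht', mul_one]; exact hxx
  rw [hsum, v.map_add_eq_of_lt_left (by rw [h3]; exact h4), h3]
  exact hxx

end Fermat.Agent.S05


end ZBS05_002_6

/-! ### bundled: `Fermat.Agent.S05.Assembly` -/
section ZBS05_002_7

/-!
# S05: assembly

`local_fix`: for a Weierstrass curve over `ℚ` base-changed to `L`, a place `A` of `L`, `σ` in the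
inertia group of `A`, and a `p`-torsion point `(x, y)` (`p` a unit at `A`), we get
`σ x = x ∧ σ y = y`, provided the cubic `η² = 4 (x - r₁)(x - r₁ - e₂)(x - r₁ - e₃)` has at most
a node at `r₁` (`e₃`, `e₃ - e₂` units) and, in the node case, the "tropical" statement holds.
-/

set_option autoImplicit false
set_option linter.unusedSectionVars false
set_option linter.unusedVariables false

namespace Fermat.Agent.S05

open WeierstrassCurve WeierstrassCurve.Affine

section Roots

variable {K : Type*} [Field K] [DecidableEq K]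

/-- The cubic `4x³ + b₂x² + 2b₄x + b₆` of `W` has the roots `r₁`, `r₁ + e₂`, `r₁ + e₃`. -/
structure RootData (W : WeierstrassCurve K) (r₁ e₂ e₃ : K) : Prop where
  hb₂ : W.b₂ = -4 * (3 * r₁ + e₂ + e₃)
  hb₄ : W.b₄ = 2 * (r₁ * (r₁ + e₂) + r₁ * (r₁ + e₃) + (r₁ + e₂) * (r₁ + e₃))
  hb₆ : W.b₆ = -4 * (r₁ * (r₁ + e₂) * (r₁ + e₃))

theorem RootData.cub_eq {W : WeierstrassCurve K} {r₁ e₂ e₃ : K} (hr : RootData W r₁ e₂ e₃)
    (x : K) : cub W x = 4 * (x - r₁) * (x - r₁ - e₂) * (x - r₁ - e₃) := by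
  rw [cub, hr.hb₂, hr.hb₄, hr.hb₆]; ring

theorem RootData.dcub_eq {W : WeierstrassCurve K} {r₁ e₂ e₃ : K} (hr : RootData W r₁ e₂ e₃)
    (x : K) : dcub W x = 2 * ((x - r₁) * (x - r₁ - e₂) + (x - r₁) * (x - r₁ - e₃)
      + (x - r₁ - e₂) * (x - r₁ - e₃)) := by
  rw [dcub, hr.hb₂, hr.hb₄]; ring

variable {Γ₀ : Type*} [LinearOrderedCommGroupWithZero Γ₀] (v : Valuation K Γ₀)

/-- if two of the three factors are units and the third is integral, the point is
nonsingular modulo the maximal ideal -/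
theorem hns_of_two_units (h2 : v (2 : K) = 1) {η c d u₁ u₂ s : K}
    (hη : η ^ 2 = 4 * (u₁ * u₂ * s)) (hd : d = 2 * (u₁ * u₂ + u₁ * s + u₂ * s))
    (hu₁ : v u₁ = 1) (hu₂ : v u₂ = 1) (hs : v s ≤ 1) :
    v η = 1 ∨ v d = 1 := by
  have h4 : v (4 : K) = 1 := key_val_four v h2
  rcases hs.lt_or_eq with hs | hs
  · right
    have e : d = 2 * (u₁ * u₂) + 2 * ((u₁ + u₂) * s) := by rw [hd]; ring
    have h1 : v (2 * (u₁ * u₂)) = 1 := by rw [map_mul, map_mul, h2, hu₁, hu₂]; simp
    have h3 : v (2 * ((u₁ + u₂) * s)) < 1 := by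
      rw [map_mul, map_mul, h2, one_mul]
      have : v (u₁ + u₂) ≤ 1 := v.map_add_le hu₁.le hu₂.le
      calc v (u₁ + u₂) * v s ≤ 1 * v s := by gcongr
        _ = v s := one_mul _
        _ < 1 := hs
    rw [e, v.map_add_eq_of_lt_left (by rw [h1]; exact h3), h1]
  · left
    have : v η ^ 2 = 1 := by
      rw [← map_pow, hη, map_mul, map_mul, map_mul, h4, hu₁, hu₂, hs]; simp
    exact (pow_eq_one_iff_of_nonneg zero_le (by norm_num)).1 this

end Roots

end Fermat.Agent.S05


end ZBS05_002_7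

/-! ### bundled: `Fermat.Agent.S05.LocalFix` -/
section ZBS05_002_8

/-!
# S05: `local_fix` — inertia fixes prime-to-residue-characteristic torsion

For a Weierstrass curve over `ℚ` base-changed to `L`, a place `A` of `L`, `σ` in the inertia group
of `A`, and a `p`-torsion point `(x, y)` (`p` a unit at `A`): `σ x = x ∧ σ y = y`, provided the
cubic `η² = 4 (x - r₁)(x - r₁ - e₂)(x - r₁ - e₃)` has at most a node at `r₁`
(`e₃`, `e₃ - e₂` units) and, in the node case, the "tropical" statement holds.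
-/

set_option autoImplicit false
set_option linter.unusedSectionVars false
set_option linter.unusedVariables false

namespace Fermat.Agent.S05

open WeierstrassCurve WeierstrassCurve.Affine

section GaloisEta

variable {L : Type*} [Field L] [Algebra ℚ L] (W₀ : WeierstrassCurve ℚ) (σ : L ≃ₐ[ℚ] L)

theorem galois_a₁ : σ (W₀.baseChange L).a₁ = (W₀.baseChange L).a₁ := by
  simp [WeierstrassCurve.baseChange]

theorem galois_a₃ : σ (W₀.baseChange L).a₃ = (W₀.baseChange L).a₃ := by
  simp [WeierstrassCurve.baseChange]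

/-- `η` is Galois-equivariant (the coefficients are rational). -/
theorem eta_galois (x y : L) :
    eta (W₀.baseChange L) (σ x) (σ y) = σ (eta (W₀.baseChange L) x y) := by
  simp only [eta, map_add, map_mul, galois_a₁, galois_a₃, map_ofNat]

end GaloisEta

section LocalFix

variable {L : Type*} [Field L] [DecidableEq L] [Algebra ℚ L]

/-- The hypothesis at a node `r₁` (`v e₂ < 1`): `v e₂` is a `p`-th power of the valuation of a
rational number, and the tropical statement for `p`-torsion points reducing to the node. -/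
def NodeHyp (A : ValuationSubring L) (W : WeierstrassCurve L) (p : ℕ) (r₁ e₂ : L) : Prop :=
  (∃ c : ℚ, c ≠ 0 ∧ A.valuation e₂ = A.valuation (algebraMap ℚ L c) ^ p) ∧
    ∀ {x y : L} (h : W.toAffine.Nonsingular x y), p • Point.some x y h = 0 →
      A.valuation (x - r₁) < 1 →
      A.valuation e₂ < A.valuation (x - r₁) ∧
        ∃ k : ℤ, A.valuation (x - r₁) ^ p = A.valuation e₂ ^ (2 * k)

theorem local_fix (A : ValuationSubring L) {σ : L ≃ₐ[ℚ] L} (hσ : σ ∈ A.inertiaSubgroupIn ℚ)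
    (W₀ : WeierstrassCurve ℚ)
    (h₁ : (W₀.baseChange L).a₁ ∈ A) (h₂ : (W₀.baseChange L).a₂ ∈ A)
    (h₃ : (W₀.baseChange L).a₃ ∈ A) (h₄ : (W₀.baseChange L).a₄ ∈ A)
    (h₆ : (W₀.baseChange L).a₆ ∈ A)
    (h2 : A.valuation (2 : L) = 1) (p : ℕ) (hp : (p : L) ∉ A.nonunits)
    (r₁ e₂ e₃ : L) (hσr : σ r₁ = r₁) (hr₁ : r₁ ∈ A)
    (hr : RootData (W₀.baseChange L) r₁ e₂ e₃)
    (he₃ : A.valuation e₃ = 1) (he₂₃ : A.valuation (e₃ - e₂) = 1) (he₂ : A.valuation e₂ ≤ 1)
    (hnode : A.valuation e₂ < 1 → NodeHyp A (W₀.baseChange L) p r₁ e₂)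
    {x y : L} (h : (W₀.baseChange L).toAffine.Nonsingular x y)
    (htors : p • Point.some x y h = 0) : σ x = x ∧ σ y = y := by
  classical
  have hp0 : p ≠ 0 := by
    rintro rfl
    apply hp
    rw [Nat.cast_zero]
    exact zero_mem _
  obtain ⟨hb₂, hb₄, hb₆, hb₈⟩ := kernel_b_mem A h₁ h₂ h₃ h₄ h₆
  have hxA : x ∈ A := no_torsion_of_not_mem A _ h₁ h₂ h₃ h₄ h₆ p hp h htors
  have hyA : y ∈ A := no_torsion_of_not_mem_y A _ h₁ h₂ h₃ h₄ h₆ p hp h htors
  by_contra hcon
  -- the `σ`-translate of the point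
  have h' : (W₀.baseChange L).toAffine.Nonsingular (σ x) (σ y) :=
    (WeierstrassCurve.Affine.baseChange_nonsingular W₀ (f := σ.toAlgHom)
      σ.toAlgHom.injective x y).mpr h
  have hsm : σ • (Point.some x y h : (W₀⁄L).Point) = Point.some (σ x) (σ y) h' :=
    galois_smul_some σ h
  have htors' : p • Point.some (σ x) (σ y) h' = 0 := by
    have := Point.algEquiv_smul_zsmul σ (p : ℤ) (Point.some x y h : (W₀⁄L).Point)
    rw [natCast_zsmul, natCast_zsmul, htors, hsm] at this
    rw [← this]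
    rfl
  have hne : Point.some (σ x) (σ y) h' ≠ Point.some x y h := by
    intro heq
    rw [Point.some.injEq] at heq
    exact hcon heq
  have htorsQ : p • (Point.some (σ x) (σ y) h' - Point.some x y h) = 0 := by
    rw [smul_sub, htors, htors', sub_zero]
  suffices hclaim : ∃ (x'' y'' : L) (h'' : (W₀.baseChange L).toAffine.Nonsingular x'' y''),
      Point.some (σ x) (σ y) h' - Point.some x y h = Point.some x'' y'' h'' ∧
        1 < A.valuation x'' by
    obtain ⟨x'', y'', h'', hQ, hlt⟩ := hclaim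
    rw [hQ] at htorsQ
    have := no_torsion_of_not_mem A _ h₁ h₂ h₃ h₄ h₆ p hp h'' htorsQ
    rw [← A.valuation_le_one_iff] at this
    exact absurd hlt (not_lt.2 this)
  -- valuations
  have hvb₂ : A.valuation (W₀.baseChange L).b₂ ≤ 1 := (A.valuation_le_one_iff _).2 hb₂
  have hvb₄ : A.valuation (W₀.baseChange L).b₄ ≤ 1 := (A.valuation_le_one_iff _).2 hb₄
  have hvx : A.valuation x ≤ 1 := (A.valuation_le_one_iff _).2 hxA
  have hx'A : σ x ∈ A := (inertia_apply_mem_iff hσ x).2 hxA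
  have hvx' : A.valuation (σ x) ≤ 1 := (A.valuation_le_one_iff _).2 hx'A
  have hηA : eta (W₀.baseChange L) x y ∈ A := by
    simp only [eta]
    exact add_mem (add_mem (mul_mem (ofNat_mem A 2) hyA) (mul_mem h₁ hxA)) h₃
  have hvη : A.valuation (eta (W₀.baseChange L) x y) ≤ 1 := (A.valuation_le_one_iff _).2 hηA
  have hxx : A.valuation (σ x - x) < 1 :=
    (A.mem_nonunits_iff).1 (inertia_apply_sub_mem_nonunits hσ hxA)
  have hηη : A.valuation (eta (W₀.baseChange L) (σ x) (σ y) - eta (W₀.baseChange L) x y) < 1 := by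
    rw [eta_galois]
    exact (A.mem_nonunits_iff).1 (inertia_apply_sub_mem_nonunits hσ hηA)
  have hη_sq : eta (W₀.baseChange L) x y ^ 2 = 4 * (x - r₁) * (x - r₁ - e₂) * (x - r₁ - e₃) := by
    rw [eta_sq _ h.1, hr.cub_eq]
  have hdc := hr.dcub_eq x
  have hs₁ : A.valuation (x - r₁) ≤ 1 := (A.valuation_le_one_iff _).2 (sub_mem hxA hr₁)
  have he₂A : e₂ ∈ A := (A.valuation_le_one_iff _).1 he₂
  have he₃A : e₃ ∈ A := (A.valuation_le_one_iff _).1 he₃.le
  have hs₂ : A.valuation (x - r₁ - e₂) ≤ 1 :=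
    (A.valuation_le_one_iff _).2 (sub_mem (sub_mem hxA hr₁) he₂A)
  have hs₃ : A.valuation (x - r₁ - e₃) ≤ 1 :=
    (A.valuation_le_one_iff _).2 (sub_mem (sub_mem hxA hr₁) he₃A)
  rcases hs₁.lt_or_eq with hlt | heq
  · -- `x ≡ r₁`
    have hs₃' : A.valuation (x - r₁ - e₃) = 1 := by
      rw [Valuation.map_sub_eq_of_lt_right _ (by rw [he₃]; exact hlt), he₃]
    rcases he₂.lt_or_eq with he₂lt | he₂eq
    · -- the node case
      obtain ⟨⟨c, hc, hce⟩, htrop⟩ := hnode he₂lt
      obtain ⟨hlow, k, hk⟩ := htrop h htors hlt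
      have hX0 : x - r₁ ≠ 0 := by
        intro h0
        rw [h0, map_zero] at hlow
        exact not_lt_zero hlow
      have hvX0 : A.valuation (x - r₁) ≠ 0 := (Valuation.ne_zero_iff _).2 hX0
      have hs₂' : A.valuation (x - r₁ - e₂) = A.valuation (x - r₁) :=
        Valuation.map_sub_eq_of_lt_left _ hlow
      -- `v η = v (x - r₁)`
      have h4 : A.valuation (4 : L) = 1 := key_val_four _ h2
      have hηv : A.valuation (eta (W₀.baseChange L) x y) = A.valuation (x - r₁) := by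
        have : A.valuation (eta (W₀.baseChange L) x y) ^ 2 = A.valuation (x - r₁) ^ 2 := by
          rw [← map_pow, hη_sq, map_mul, map_mul, map_mul, h4, hs₂', hs₃', one_mul, mul_one,
            sq]
        exact (pow_left_inj₀ zero_le zero_le two_ne_zero).1 this
      have ht : A.valuation (eta (W₀.baseChange L) x y / (x - r₁)) = 1 := by
        rw [map_div₀, hηv, div_self hvX0]
      -- `v (x - r₁)` is the valuation of a rational number
      have hcL : algebraMap ℚ L c ≠ 0 := (map_ne_zero (algebraMap ℚ L)).2 hc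
      have hvc : A.valuation (algebraMap ℚ L c) ≠ 0 := (Valuation.ne_zero_iff _).2 hcL
      have hval : A.valuation (x - r₁) = A.valuation (algebraMap ℚ L (c ^ (2 * k))) := by
        have e1 : A.valuation (x - r₁) ^ p =
            (A.valuation (algebraMap ℚ L (c ^ (2 * k)))) ^ p := by
          rw [hk, hce, map_zpow₀, map_zpow₀, ← zpow_natCast, ← zpow_natCast, ← zpow_mul,
            ← zpow_mul, mul_comm]
        exact (pow_left_inj₀ zero_le zero_le hp0).1 e1
      have hc2k : c ^ (2 * k) ≠ 0 := zpow_ne_zero _ hc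
      have hmove := inertia_valuation_apply_sub_lt hσ hc2k hval
      have hxx' : A.valuation (σ x - x) < A.valuation (x - r₁) := by
        have e : σ (x - r₁) - (x - r₁) = σ x - x := by rw [map_sub, hσr]; ring
        rwa [e] at hmove
      have htA : eta (W₀.baseChange L) x y / (x - r₁) ∈ A :=
        (A.valuation_le_one_iff _).1 ht.le
      have htt : A.valuation (eta (W₀.baseChange L) (σ x) (σ y) / (σ x - r₁) -
          eta (W₀.baseChange L) x y / (x - r₁)) < 1 := by
        have e : eta (W₀.baseChange L) (σ x) (σ y) / (σ x - r₁) =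
            σ (eta (W₀.baseChange L) x y / (x - r₁)) := by
          rw [map_div₀, map_sub, hσr, eta_galois]
        rw [e]
        exact (A.mem_nonunits_iff).1 (inertia_apply_sub_mem_nonunits hσ htA)
      exact key_node _ hvb₂ h2 h h' r₁ hvx hvx' hX0 hxx' ht htt hne
    · -- `e₂` is a unit: no node
      have hs₂' : A.valuation (x - r₁ - e₂) = 1 := by
        rw [Valuation.map_sub_eq_of_lt_right _ (by rw [he₂eq]; exact hlt), he₂eq]
      have hns := hns_of_two_units A.valuation h2 (η := eta (W₀.baseChange L) x y)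
        (c := 0) (d := dcub (W₀.baseChange L) x) (u₁ := x - r₁ - e₂) (u₂ := x - r₁ - e₃)
        (s := x - r₁) (hη_sq.trans (by ring)) (hdc.trans (by ring)) hs₂' hs₃' hs₁
      exact key_nonsing _ hvb₂ hvb₄ h2 h h' hvx hvη hxx hηη hne hns
  · -- `x ≢ r₁`
    rcases hs₂.lt_or_eq with hlt₂ | heq₂
    · have hs₃' : A.valuation (x - r₁ - e₃) = 1 := by
        have e : x - r₁ - e₃ = (x - r₁ - e₂) - (e₃ - e₂) := by ring
        rw [e, Valuation.map_sub_eq_of_lt_right _ (by rw [he₂₃]; exact hlt₂), he₂₃]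
      have hns := hns_of_two_units A.valuation h2 (η := eta (W₀.baseChange L) x y)
        (c := 0) (d := dcub (W₀.baseChange L) x) (u₁ := x - r₁) (u₂ := x - r₁ - e₃)
        (s := x - r₁ - e₂) (hη_sq.trans (by ring)) (hdc.trans (by ring)) heq hs₃' hs₂
      exact key_nonsing _ hvb₂ hvb₄ h2 h h' hvx hvη hxx hηη hne hns
    · have hns := hns_of_two_units A.valuation h2 (η := eta (W₀.baseChange L) x y)
        (c := 0) (d := dcub (W₀.baseChange L) x) (u₁ := x - r₁) (u₂ := x - r₁ - e₂)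
        (s := x - r₁ - e₃) (hη_sq.trans (by ring)) (hdc.trans (by ring)) heq heq₂ hs₃
      exact key_nonsing _ hvb₂ hvb₄ h2 h h' hvx hvη hxx hηη hne hns

end LocalFix

end Fermat.Agent.S05


end ZBS05_002_8

/-! ### bundled: `Fermat.Agent.S05.FreyFix` -/
section ZBS05_002_9

/-!
# S05: the Frey curve — inertia at an odd prime `q ≠ p` fixes `E[p]`

`frey_fix`: coordinates of a `p`-torsion point are fixed by inertia at `q`, given the tropical
statement at the node.  `frey_unramified_of_tropical`: the statement S05 from the tropical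
statement over `ℚ̄`.
-/

set_option autoImplicit false
set_option linter.unusedSectionVars false
set_option linter.unusedVariables false

namespace Fermat.Agent.S05

open WeierstrassCurve WeierstrassCurve.Affine

section FreyRoot

variable (P : FreyPackage) (L : Type*) [Field L] [DecidableEq L] [Algebra ℚ L]

/-- roots `0, a^p/4, -b^p/4` (node at `0` when `q ∣ a`). -/
theorem frey_rootData_a :
    RootData (P.freyCurve.baseChange L) 0 ((P.a : L) ^ P.p / 4) (-((P.b : L) ^ P.p) / 4) := by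
  have := charZero_of_algebraRat L
  refine ⟨?_, ?_, ?_⟩
  · rw [frey_b₂]; ring
  · rw [frey_b₄]; ring
  · rw [frey_b₆]; ring

/-- roots `0, -b^p/4, a^p/4` (node at `0` when `q ∣ b`). -/
theorem frey_rootData_b :
    RootData (P.freyCurve.baseChange L) 0 (-((P.b : L) ^ P.p) / 4) ((P.a : L) ^ P.p / 4) := by
  have := charZero_of_algebraRat L
  refine ⟨?_, ?_, ?_⟩
  · rw [frey_b₂]; ring
  · rw [frey_b₄]; ring
  · rw [frey_b₆]; ring

/-- roots `a^p/4, a^p/4 - c^p/4 = -b^p/4, 0` (node at `a^p/4` when `q ∣ c`). -/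
theorem frey_rootData_c :
    RootData (P.freyCurve.baseChange L) ((P.a : L) ^ P.p / 4) (-((P.c : L) ^ P.p) / 4)
      (-((P.a : L) ^ P.p) / 4) := by
  have := charZero_of_algebraRat L
  have hflt := frey_flt_cast P L
  refine ⟨?_, ?_, ?_⟩
  · rw [frey_b₂, ← hflt]; ring
  · rw [frey_b₄, ← hflt]; ring
  · rw [frey_b₆]; ring

end FreyRoot

section FreyFix

variable (P : FreyPackage) {L : Type*} [Field L] [DecidableEq L] [Algebra ℚ L]

/-- The shape of the tropical statement used at the node (for the Frey curve over `L`). -/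
def FreyTropical (A : ValuationSubring L) : Prop :=
  ∀ (r₁ e₂ e₃ : L), RootData (P.freyCurve.baseChange L) r₁ e₂ e₃ → r₁ ∈ A →
    A.valuation e₃ = 1 → A.valuation e₂ < 1 → e₂ ≠ 0 →
    ∀ {x y : L} (h : (P.freyCurve.baseChange L).toAffine.Nonsingular x y),
      P.p • Point.some x y h = 0 → A.valuation (x - r₁) < 1 →
      A.valuation e₂ < A.valuation (x - r₁) ∧
        ∃ k : ℤ, A.valuation (x - r₁) ^ P.p = A.valuation e₂ ^ (2 * k)

theorem frey_fix {q : ℕ} (hq : q.Prime) (hq2 : q ≠ 2) (hqp : q ≠ P.p)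
    (A : ValuationSubring L) (hA : A.LiesOverPrime q) {σ : L ≃ₐ[ℚ] L}
    (hσ : σ ∈ A.inertiaSubgroupIn ℚ) (htrop : FreyTropical P A)
    {x y : L} (h : (P.freyCurve.baseChange L).toAffine.Nonsingular x y)
    (htors : P.p • Point.some x y h = 0) : σ x = x ∧ σ y = y := by
  have hchar := charZero_of_algebraRat L
  obtain ⟨h₁, h₂, h₃, h₄, h₆⟩ := frey_coeff_mem P A hq hq2 hA
  have h2 : A.valuation (2 : L) = 1 := valuation_two_eq_one A hq hA hq2
  have h4 : A.valuation (4 : L) = 1 := valuation_four_eq_one A hq hA hq2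
  have hp : (P.p : L) ∉ A.nonunits := by
    rw [natCast_mem_nonunits_iff A hq hA]
    intro hdvd
    exact hqp ((Nat.prime_dvd_prime_iff_eq hq P.pp).1 hdvd)
  have hflt := frey_flt_cast P L
  have hσint : ∀ n : ℤ, σ ((n : L) ^ P.p / 4) = (n : L) ^ P.p / 4 := by
    intro n
    rw [map_div₀, map_pow, galois_fixes_int, map_ofNat]
  have hmem : ∀ n : ℤ, (n : L) ^ P.p / 4 ∈ A := by
    intro n
    rw [← A.valuation_le_one_iff, valuation_div_of_eq_one A h4, A.valuation_le_one_iff]
    exact pow_mem (intCast_mem A n) _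
  -- the node hypothesis in the three multiplicative cases
  have hnodeHyp : ∀ (n : ℤ) (r₁ e₂ e₃ : L), n ≠ 0 → A.valuation e₂ = A.valuation (n : L) ^ P.p →
      RootData (P.freyCurve.baseChange L) r₁ e₂ e₃ → r₁ ∈ A → A.valuation e₃ = 1 →
      A.valuation e₂ < 1 → NodeHyp A (P.freyCurve.baseChange L) P.p r₁ e₂ := by
    intro n r₁ e₂ e₃ hn hval hr hr₁ he₃ he₂
    refine ⟨⟨(n : ℚ), by exact_mod_cast hn, ?_⟩, ?_⟩
    · rw [hval]
      congr 2
      simp
    · intro x y h ht hlt
      have he₂0 : e₂ ≠ 0 := by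
        rw [← Valuation.ne_zero_iff A.valuation, hval]
        exact pow_ne_zero _ ((Valuation.ne_zero_iff _).2 (by exact_mod_cast hn))
      exact htrop r₁ e₂ e₃ hr hr₁ he₃ he₂ he₂0 h ht hlt
  have hvpow : ∀ n : ℤ, A.valuation ((n : L) ^ P.p / 4) = A.valuation (n : L) ^ P.p := by
    intro n
    rw [valuation_div_of_eq_one A h4, map_pow]
  have hvnpow : ∀ n : ℤ, A.valuation (-((n : L) ^ P.p) / 4) = A.valuation (n : L) ^ P.p := by
    intro n
    rw [valuation_div_of_eq_one A h4, Valuation.map_neg, map_pow]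
  rcases frey_cases P hq with ⟨ha, hb, hc⟩ | ⟨ha, hb, hc⟩ | ⟨ha, hb, hc⟩ | ⟨ha, hb, hc⟩
  · -- good reduction
    refine local_fix A hσ P.freyCurve h₁ h₂ h₃ h₄ h₆ h2 P.p hp 0 ((P.a : L) ^ P.p / 4)
      (-((P.b : L) ^ P.p) / 4) (map_zero σ) (zero_mem A) (frey_rootData_a P L)
      (valuation_neg_pow_div_four_eq_one A hq hq2 hA hb _) ?_
      (valuation_pow_div_four_eq_one A hq hq2 hA ha _).le ?_ h htors
    · have e : -((P.b : L) ^ P.p) / 4 - (P.a : L) ^ P.p / 4 = -((P.c : L) ^ P.p) / 4 := by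
        rw [← hflt]; ring
      rw [e]
      exact valuation_neg_pow_div_four_eq_one A hq hq2 hA hc _
    · intro hlt
      rw [valuation_pow_div_four_eq_one A hq hq2 hA ha _] at hlt
      exact absurd hlt (lt_irrefl _)
  · -- `q ∣ a`
    refine local_fix A hσ P.freyCurve h₁ h₂ h₃ h₄ h₆ h2 P.p hp 0 ((P.a : L) ^ P.p / 4)
      (-((P.b : L) ^ P.p) / 4) (map_zero σ) (zero_mem A) (frey_rootData_a P L)
      (valuation_neg_pow_div_four_eq_one A hq hq2 hA hb _) ?_
      (valuation_pow_div_four_lt_one A hq hq2 hA P.ha0 ha P.hp0).2.le ?_ h htors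
    · have e : -((P.b : L) ^ P.p) / 4 - (P.a : L) ^ P.p / 4 = -((P.c : L) ^ P.p) / 4 := by
        rw [← hflt]; ring
      rw [e]
      exact valuation_neg_pow_div_four_eq_one A hq hq2 hA hc _
    · intro hlt
      exact hnodeHyp P.a 0 _ _ P.ha0 (hvpow _) (frey_rootData_a P L) (zero_mem A)
        (valuation_neg_pow_div_four_eq_one A hq hq2 hA hb _) hlt
  · -- `q ∣ b`
    refine local_fix A hσ P.freyCurve h₁ h₂ h₃ h₄ h₆ h2 P.p hp 0 (-((P.b : L) ^ P.p) / 4)
      ((P.a : L) ^ P.p / 4) (map_zero σ) (zero_mem A) (frey_rootData_b P L)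
      (valuation_pow_div_four_eq_one A hq hq2 hA ha _) ?_
      (valuation_neg_pow_div_four_lt_one A hq hq2 hA P.hb0 hb P.hp0).2.le ?_ h htors
    · have e : (P.a : L) ^ P.p / 4 - -((P.b : L) ^ P.p) / 4 = (P.c : L) ^ P.p / 4 := by
        rw [← hflt]; ring
      rw [e]
      exact valuation_pow_div_four_eq_one A hq hq2 hA hc _
    · intro hlt
      exact hnodeHyp P.b 0 _ _ P.hb0 (hvnpow _) (frey_rootData_b P L) (zero_mem A)
        (valuation_pow_div_four_eq_one A hq hq2 hA ha _) hlt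
  · -- `q ∣ c`
    refine local_fix A hσ P.freyCurve h₁ h₂ h₃ h₄ h₆ h2 P.p hp ((P.a : L) ^ P.p / 4)
      (-((P.c : L) ^ P.p) / 4) (-((P.a : L) ^ P.p) / 4) (hσint _) (hmem _)
      (frey_rootData_c P L)
      (valuation_neg_pow_div_four_eq_one A hq hq2 hA ha _) ?_
      (valuation_neg_pow_div_four_lt_one A hq hq2 hA P.hc0 hc P.hp0).2.le ?_ h htors
    · have e : -((P.a : L) ^ P.p) / 4 - -((P.c : L) ^ P.p) / 4 = (P.b : L) ^ P.p / 4 := by
        rw [← hflt]; ring
      rw [e]
      exact valuation_pow_div_four_eq_one A hq hq2 hA hb _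
    · intro hlt
      exact hnodeHyp P.c _ _ _ P.hc0 (hvnpow _) (frey_rootData_c P L) (hmem _)
        (valuation_neg_pow_div_four_eq_one A hq hq2 hA ha _) hlt

end FreyFix

section Final

open WeierstrassCurve.Affine.Point

/-- **S05 from the tropical statement.** -/
theorem frey_unramified_of_tropical (P : FreyPackage) {q : ℕ} (hq : q.Prime) (hq2 : q ≠ 2)
    (hqp : q ≠ P.p)
    (htrop : ∀ A : ValuationSubring (AlgebraicClosure ℚ), A.LiesOverPrime q →
      FreyTropical P A) :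
    P.GaloisRepUnramifiedAt q := by
  intro A hA σ hσ x
  apply Subtype.ext
  obtain ⟨Pt, hPt⟩ := x
  change σ • Pt = Pt
  rw [Submodule.mem_torsionBy_iff] at hPt
  cases Pt with
  | zero => rfl
  | some x y h =>
    have htors : P.p • (Point.some x y h : (P.freyCurve⁄(AlgebraicClosure ℚ)).Point) = 0 := by
      rw [← natCast_zsmul]; exact hPt
    obtain ⟨hx, hy⟩ := frey_fix P hq hq2 hqp A hA hσ (htrop A hA) h htors
    exact galois_smul_some_eq_self σ h hx hy

end Final

end Fermat.Agent.S05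


end ZBS05_002_9

/-! ### bundled: `Fermat.Agent.S05.TropAlg` -/
section ZBS05_002_10
/-
S05, tropical step (helper5): the `x`-only identities of `Coords.lean`, translated to the
coordinate `X = x - r₁` centred at the node, when the 2-division cubic of `W` is
`4 (x - r₁) (x - r₁ - e₂) (x - r₁ - e₃)`.  Pure algebra.
-/

set_option autoImplicit false

namespace Fermat.Agent.S05

open WeierstrassCurve WeierstrassCurve.Affine

section Algebra

variable {K : Type*} [Field K] {W : WeierstrassCurve K} {r₁ e₂ e₃ : K}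

lemma tropAlg_four_ne_zero (h2 : (2 : K) ≠ 0) : (4 : K) ≠ 0 := by
  have : (4 : K) = 2 * 2 := by norm_num
  rw [this]; exact mul_ne_zero h2 h2

/-- The cubic in root form. -/
lemma cub_eq_of_roots (hb₂ : W.b₂ = -4 * (3 * r₁ + e₂ + e₃))
    (hb₄ : W.b₄ = 2 * (r₁ * (r₁ + e₂) + r₁ * (r₁ + e₃) + (r₁ + e₂) * (r₁ + e₃)))
    (hb₆ : W.b₆ = -4 * (r₁ * (r₁ + e₂) * (r₁ + e₃))) (x : K) :
    cub W x = 4 * ((x - r₁) * ((x - r₁) - e₂) * ((x - r₁) - e₃)) := by
  simp only [cub, hb₂, hb₄, hb₆]; ring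

/-- Translated product identity. -/
lemma prod_identity' (h2 : (2 : K) ≠ 0) (hb₂ : W.b₂ = -4 * (3 * r₁ + e₂ + e₃))
    (hb₄ : W.b₄ = 2 * (r₁ * (r₁ + e₂) + r₁ * (r₁ + e₃) + (r₁ + e₂) * (r₁ + e₃)))
    (hb₆ : W.b₆ = -4 * (r₁ * (r₁ + e₂) * (r₁ + e₃))) {x₁ x₂ xs xd : K}
    (hS : (xs + xd) * (x₁ - x₂) ^ 2 =
      2 * x₁ * x₂ * (x₁ + x₂) + W.b₂ * x₁ * x₂ + W.b₄ * (x₁ + x₂) + W.b₆)
    (hP : xs * xd * (x₁ - x₂) ^ 2 =
      x₁ ^ 2 * x₂ ^ 2 - W.b₄ * x₁ * x₂ - W.b₆ * (x₁ + x₂) - W.b₈) :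
    (xs - r₁) * (xd - r₁) * ((x₁ - r₁) - (x₂ - r₁)) ^ 2 =
      ((x₁ - r₁) * (x₂ - r₁) - e₂ * e₃) ^ 2 := by
  have h4 := tropAlg_four_ne_zero h2
  have hb8 := W.b_relation
  rw [hb₂, hb₄, hb₆] at hb8
  rw [hb₂, hb₄, hb₆] at hS
  rw [hb₄, hb₆] at hP
  have : 4 * ((xs - r₁) * (xd - r₁) * ((x₁ - r₁) - (x₂ - r₁)) ^ 2 -
      ((x₁ - r₁) * (x₂ - r₁) - e₂ * e₃) ^ 2) = 0 := by
    linear_combination 4 * hP - 4 * r₁ * hS - hb8
  exact sub_eq_zero.mp ((mul_eq_zero.mp this).resolve_left h4)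

/-- Translated sum identity. -/
lemma sum_identity' (hb₂ : W.b₂ = -4 * (3 * r₁ + e₂ + e₃))
    (hb₄ : W.b₄ = 2 * (r₁ * (r₁ + e₂) + r₁ * (r₁ + e₃) + (r₁ + e₂) * (r₁ + e₃)))
    (hb₆ : W.b₆ = -4 * (r₁ * (r₁ + e₂) * (r₁ + e₃))) {x₁ x₂ xs xd : K}
    (hS : (xs + xd) * (x₁ - x₂) ^ 2 =
      2 * x₁ * x₂ * (x₁ + x₂) + W.b₂ * x₁ * x₂ + W.b₄ * (x₁ + x₂) + W.b₆) :
    ((xs - r₁) + (xd - r₁)) * ((x₁ - r₁) - (x₂ - r₁)) ^ 2 =
      2 * (((x₁ - r₁) + (x₂ - r₁)) * ((x₁ - r₁) * (x₂ - r₁) + e₂ * e₃)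
        - 2 * (e₂ + e₃) * ((x₁ - r₁) * (x₂ - r₁))) := by
  rw [hb₂, hb₄, hb₆] at hS
  linear_combination hS

/-- Translated duplication identity. -/
lemma dup_identity' (h2 : (2 : K) ≠ 0) (hb₂ : W.b₂ = -4 * (3 * r₁ + e₂ + e₃))
    (hb₄ : W.b₄ = 2 * (r₁ * (r₁ + e₂) + r₁ * (r₁ + e₃) + (r₁ + e₂) * (r₁ + e₃)))
    (hb₆ : W.b₆ = -4 * (r₁ * (r₁ + e₂) * (r₁ + e₃))) {x x₃ η : K}
    (hη : η ^ 2 = cub W x) (hD : x₃ * η ^ 2 = dupNum W x) :
    (x₃ - r₁) * η ^ 2 = ((x - r₁) ^ 2 - e₂ * e₃) ^ 2 := by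
  have h4 := tropAlg_four_ne_zero h2
  have hb8 := W.b_relation
  rw [hb₂, hb₄, hb₆] at hb8
  simp only [dupNum, hb₄, hb₆] at hD
  simp only [cub, hb₂, hb₄, hb₆] at hη
  have : 4 * ((x₃ - r₁) * η ^ 2 - ((x - r₁) ^ 2 - e₂ * e₃) ^ 2) = 0 := by
    linear_combination 4 * hD - 4 * r₁ * hη - hb8
  exact sub_eq_zero.mp ((mul_eq_zero.mp this).resolve_left h4)

end Algebra

end Fermat.Agent.S05


end ZBS05_002_10
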