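/- GENERATED FILE (helper35, build-time optimisation, NOTES/ZB.md): verbatim concatenation of the modules
   Fermat.Agent.W1.PlanGL
   Fermat.Agent.W1.PlanAlg
   Fermat.Agent.R38.EPM.Plan
   Fermat.Agent.W1.ChartToLocal
   Fermat.Agent.R38.EPM.CTL
   Fermat.Agent.W1.PlanDescent
   Fermat.Agent.W1.DescentBasic
   Fermat.Agent.W1.DescentLagrange
   Fermat.Agent.W1.HopfCore
   Fermat.Agent.W1.DescInertia
   Fermat.Agent.W1.DescApprox
   Do not edit; do not import together with these modules. -/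
import Mathlib
import Fermat.Agent.ZB.S05_002
import Fermat.Prelude.Def_FLTPrelim_Ramification
import Fermat.Prelude.Def_GaloisRep_Flat
import Fermat.Agent.ZB.ES_001
import Fermat.Prelude.Def_FLTPrelim_FreyPackage
import Fermat.Prelude.Def_FLTPrelim_Modularity
import Fermat.Agent.ZB.Common_001
import Fermat.Agent.ZB.S28_005
import Fermat.Agent.ZB.S05_001
import Fermat.Agent.ZB.Cheb_001
import Fermat.Agent.ZB.Common_003
import Fermat.Agent.ZB.ES_002

/-! ### bundled: `Fermat.Agent.W1.PlanGL` -/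
section ZBW1_001_0

/-!
# W1-GL(a): interface — a Hopf lattice of equivariant functions gives the S19-shaped conclusion

`R` is a subring of `ℚ` (in S19: `GaloisRep.ratLocalizedAt ℓ`), `K = AlgebraicClosure ℚ`,
`G = K ≃ₐ[ℚ] K`, `M` a finite abelian group with a map `act : G → M → M`
(in S19: `M = torsionBy ℤ (JZero N) (ℓ ^ k)` with the Galois action).

`IsHopfLattice R act H` says that the `R`-subalgebra `H` of the algebra of all functions `M → K`
is a *Hopf order* in the `ℚ`-Hopf algebra `Map_G(M, K)`: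
* `fg`           : `H` is a finitely generated `R`-module;
* `equivariant`  : every `h ∈ H` is Galois equivariant, `h (σ P) = σ (h P)`;
* `separates`    : `H` separates the points of `M`;
* `comul_mem`    : `(P, Q) ↦ h (P + Q)` is an `R`-combination of functions `a(P) * b(Q)`, `a b ∈ H`;
* `antipode_mem` : `P ↦ h (-P)` lies in `H`;
* `counit_mem`   : `h 0 ∈ R`.

`HopfOfLatticeStatement` (proved in `Fermat/Agent/W1/HopfOfLattice.lean`) turns such an `H` into
exactly the conclusion of S19 / of `GaloisRepAdic.IsFlatAt` (a commutative, cocommutative Hopf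
algebra, finite and flat over `R`, with an additive Galois equivariant bijection from its
`K`-points to `M`).  No power series, no completion, no scheme.
-/

set_option autoImplicit false

namespace Fermat.Agent.W1

/-- The `R`-subalgebra `H` of `M → ℚ̄` is a Hopf order in `Map_G(M, ℚ̄)`. -/
structure IsHopfLattice (R : Subring ℚ) {M : Type} [AddCommGroup M]
    (act : (AlgebraicClosure ℚ ≃ₐ[ℚ] AlgebraicClosure ℚ) → M → M)
    (H : Subalgebra R (M → AlgebraicClosure ℚ)) : Prop where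
  fg : (Subalgebra.toSubmodule H).FG
  equivariant : ∀ h ∈ H, ∀ (σ : AlgebraicClosure ℚ ≃ₐ[ℚ] AlgebraicClosure ℚ) (P : M),
    h (act σ P) = σ (h P)
  separates : ∀ P Q : M, (∀ h ∈ H, h P = h Q) → P = Q
  comul_mem : ∀ h ∈ H, (fun PQ : M × M => h (PQ.1 + PQ.2)) ∈
    Submodule.span R {F : M × M → AlgebraicClosure ℚ |
      ∃ a ∈ H, ∃ b ∈ H, F = fun PQ => a PQ.1 * b PQ.2}
  antipode_mem : ∀ h ∈ H, (fun P : M => h (-P)) ∈ H
  counit_mem : ∀ h ∈ H, ∃ r : R, h 0 = algebraMap R (AlgebraicClosure ℚ) r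

/-- The S19-shaped conclusion for a finite abelian group `M` with a map `act`. -/
def HasFiniteFlatModel (R : Subring ℚ) (M : Type) [AddCommGroup M]
    (act : (AlgebraicClosure ℚ ≃ₐ[ℚ] AlgebraicClosure ℚ) → M → M) : Prop :=
  ∃ (H : Type) (_ : CommRing H) (_ : HopfAlgebra R H),
    Module.Finite R H ∧ Module.Flat R H ∧ Coalgebra.IsCocomm R H ∧
    ∃ e : WithConv (H →ₐ[R] AlgebraicClosure ℚ) ≃ M,
      (∀ f g : WithConv (H →ₐ[R] AlgebraicClosure ℚ), e (f * g) = e f + e g) ∧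
      ∀ (σ : AlgebraicClosure ℚ ≃ₐ[ℚ] AlgebraicClosure ℚ)
        (f g : WithConv (H →ₐ[R] AlgebraicClosure ℚ)),
        (∀ h : H, g.ofConv h = σ (f.ofConv h)) → e g = act σ (e f)

/-- W1-GL(a): a Hopf lattice gives a finite flat model. -/
def HopfOfLatticeStatement : Prop :=
  ∀ (R : Subring ℚ) (_ : IsPrincipalIdealRing R) (_ : IsFractionRing R ℚ)
    (M : Type) (_ : AddCommGroup M) (_ : Finite M)
    (act : (AlgebraicClosure ℚ ≃ₐ[ℚ] AlgebraicClosure ℚ) → M → M)
    (H : Subalgebra R (M → AlgebraicClosure ℚ)),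
    IsHopfLattice R act H → HasFiniteFlatModel R M act

end Fermat.Agent.W1


end ZBW1_001_0

/-! ### bundled: `Fermat.Agent.W1.PlanAlg` -/
section ZBW1_001_1

/-!
# W1-ALG: the pure-algebra half of WALL 1 — exact statements

Plan: `NOTES/W1-plan.md` §2 and `NOTES/W1-alg.md`.  `K = ℚ̄`, `G = Gal(ℚ̄/ℚ)`, `A ⊂ ℚ̄` a valuation
subring over `p`, `D ⊃ I` its decomposition and inertia groups, `R = ℤ_(p)`.

* `IsContAction act` : `act : G → M → M` is an additive action with open stabilisers.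
* `IsLocalHopfLattice A act Ht` : the `A`-subalgebra `Ht ⊂ Map(M, ℚ̄)` has values in `A`, separates
  points, is stable under `D`, is spanned over `A` by `I`-equivariant functions and is closed
  under the comultiplication `h ↦ ((P,Q) ↦ h (P+Q))`.
* `LocalToGlobalStatement` (**ALG-A**, Galois descent): a local Hopf lattice over `A` gives a Hopf
  lattice over `R` in the sense of `PlanGL.lean` (namely `H = Ht ∩ Map_G(M, ℚ̄)`).
* `KernelChart A J J1 g z` : `J1 ≤ J` is a `D`-stable subgroup ("kernel of reduction") with an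
  injective, `I`-equivariant coordinate map `z : J1 → 𝔪_A^g` in which the addition of `J1` is
  uniformly approximable by polynomials with coefficients in `A`, and every torsion point of `J`
  is congruent modulo `J1` to an `I`-fixed point.
* `ChartToLocalStatement` (**ALG-B**): a kernel chart gives a local Hopf lattice on `J[n]`
  (the algebra generated by the indicator functions of the cosets of `J1` and by the functions
  `c ↦ σ(z(σ⁻¹(c - b)))`, `σ ∈ D`, `b` an `I`-fixed point).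
-/

set_option autoImplicit false

namespace Fermat.Agent.W1

/-- `act` is an action of `G_ℚ` by additive maps with open stabilisers. -/
structure IsContAction {M : Type} [AddCommGroup M]
    (act : (AlgebraicClosure ℚ ≃ₐ[ℚ] AlgebraicClosure ℚ) → M → M) : Prop where
  one : ∀ P, act 1 P = P
  mul : ∀ σ τ P, act (σ * τ) P = act σ (act τ P)
  add : ∀ σ P Q, act σ (P + Q) = act σ P + act σ Q
  open_stab : ∀ P, ∃ E : IntermediateField ℚ (AlgebraicClosure ℚ),
    FiniteDimensional ℚ E ∧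
      ∀ σ : AlgebraicClosure ℚ ≃ₐ[ℚ] AlgebraicClosure ℚ, (∀ a ∈ E, σ a = a) → act σ P = P

/-- A "local Hopf lattice": an `A`-subalgebra of `Map(M, ℚ̄)` with the properties that make
Galois descent to `ℤ_(p)` possible. -/
structure IsLocalHopfLattice (A : ValuationSubring (AlgebraicClosure ℚ)) {M : Type}
    [AddCommGroup M] (act : (AlgebraicClosure ℚ ≃ₐ[ℚ] AlgebraicClosure ℚ) → M → M)
    (Ht : Subalgebra A (M → AlgebraicClosure ℚ)) : Prop where
  integral : ∀ h ∈ Ht, ∀ P : M, h P ∈ A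
  separates : ∀ P Q : M, (∀ h ∈ Ht, h P = h Q) → P = Q
  decomp_stable : ∀ σ ∈ A.decompositionSubgroup ℚ, ∀ h ∈ Ht,
    (fun P : M => σ (h (act σ⁻¹ P))) ∈ Ht
  inertia_span : ∀ h ∈ Ht, h ∈ Submodule.span A
    {f : M → AlgebraicClosure ℚ | f ∈ Ht ∧
      ∀ σ ∈ A.inertiaSubgroupIn ℚ, ∀ P : M, f (act σ P) = σ (f P)}
  comul_mem : ∀ h ∈ Ht, (fun PQ : M × M => h (PQ.1 + PQ.2)) ∈
    Submodule.span A {F : M × M → AlgebraicClosure ℚ |
      ∃ a ∈ Ht, ∃ b ∈ Ht, F = fun PQ => a PQ.1 * b PQ.2}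

/-- **ALG-A** (Galois descent): a local Hopf lattice over `A` gives a Hopf lattice over `ℤ_(p)`. -/
def LocalToGlobalStatement : Prop :=
  ∀ (p : ℕ) (_ : p.Prime) (A : ValuationSubring (AlgebraicClosure ℚ)) (_ : A.LiesOverPrime p)
    (M : Type) (_ : AddCommGroup M) (_ : Finite M)
    (act : (AlgebraicClosure ℚ ≃ₐ[ℚ] AlgebraicClosure ℚ) → M → M) (_ : IsContAction act)
    (Ht : Subalgebra A (M → AlgebraicClosure ℚ)), IsLocalHopfLattice A act Ht →
    ∃ H : Subalgebra (GaloisRep.ratLocalizedAt p) (M → AlgebraicClosure ℚ),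
      IsHopfLattice (GaloisRep.ratLocalizedAt p) act H

/-- The chart of the kernel of reduction (all that the algebra needs from the geometry). -/
structure KernelChart (A : ValuationSubring (AlgebraicClosure ℚ)) (J : Type) [AddCommGroup J]
    [DistribMulAction (AlgebraicClosure ℚ ≃ₐ[ℚ] AlgebraicClosure ℚ) J]
    (J1 : AddSubgroup J) (g : ℕ) (z : J → Fin g → AlgebraicClosure ℚ) : Prop where
  decomp_stable : ∀ σ ∈ A.decompositionSubgroup ℚ, ∀ x ∈ J1, σ • x ∈ J1
  mem_nonunits : ∀ x ∈ J1, ∀ i, z x i ∈ A.nonunits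
  injOn : ∀ x ∈ J1, ∀ y ∈ J1, z x = z y → x = y
  inertia_equivariant : ∀ σ ∈ A.inertiaSubgroupIn ℚ, ∀ x ∈ J1, ∀ i, z (σ • x) i = σ (z x i)
  add_approx : ∀ ϖ ∈ A.nonunits, ϖ ≠ 0 → ∀ n : ℕ,
    ∃ F : Fin g → MvPolynomial (Fin g ⊕ Fin g) (AlgebraicClosure ℚ),
      (∀ i m, (F i).coeff m ∈ A) ∧
      ∀ x ∈ J1, ∀ y ∈ J1, (∀ i, ∃ a ∈ A, z x i = ϖ * a) → (∀ i, ∃ a ∈ A, z y i = ϖ * a) →
        ∀ i, ∃ a ∈ A, z (x + y) i - MvPolynomial.eval (Sum.elim (z x) (z y)) (F i) = ϖ ^ n * a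
  lift : ∀ x : J, (∃ n : ℕ, 0 < n ∧ n • x = 0) →
    ∃ b : J, (∀ σ ∈ A.inertiaSubgroupIn ℚ, σ • b = b) ∧ x - b ∈ J1

/-- The action of `G_ℚ` on the `n`-torsion of a `G_ℚ`-module. -/
noncomputable def torsAct (J : Type) [AddCommGroup J]
    [DistribMulAction (AlgebraicClosure ℚ ≃ₐ[ℚ] AlgebraicClosure ℚ) J] (n : ℤ)
    (σ : AlgebraicClosure ℚ ≃ₐ[ℚ] AlgebraicClosure ℚ) (x : Submodule.torsionBy ℤ J n) :
    Submodule.torsionBy ℤ J n :=
  ⟨σ • (x : J), by
    have hx := x.2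
    rw [Submodule.mem_torsionBy_iff] at hx ⊢
    rw [← smul_comm, hx, smul_zero]⟩

/-- **ALG-B**: a kernel chart on `J` gives a local Hopf lattice on the finite group `J[n]`. -/
def ChartToLocalStatement : Prop :=
  ∀ (p : ℕ) (_ : p.Prime) (A : ValuationSubring (AlgebraicClosure ℚ)) (_ : A.LiesOverPrime p)
    (J : Type) (_ : AddCommGroup J)
    (_ : DistribMulAction (AlgebraicClosure ℚ ≃ₐ[ℚ] AlgebraicClosure ℚ) J)
    (J1 : AddSubgroup J) (g : ℕ) (z : J → Fin g → AlgebraicClosure ℚ),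
    KernelChart A J J1 g z →
    ∀ n : ℕ, 0 < n → Finite (Submodule.torsionBy ℤ J (n : ℤ)) →
      IsContAction (torsAct J (n : ℤ)) →
      ∃ Ht : Subalgebra A (Submodule.torsionBy ℤ J (n : ℤ) → AlgebraicClosure ℚ),
        IsLocalHopfLattice A (torsAct J (n : ℤ)) Ht

end Fermat.Agent.W1


end ZBW1_001_1

/-! ### bundled: `Fermat.Agent.R38.EPM.Plan` -/
section ZBW1_001_2
/-
ROW 38, piece EPEU-MULT (helper68): INTERFACE.   Notes: NOTES/R38-EPM.md.

GOAL `StmtEpmFrey` (= `StmtEPeuFrey` of the S44 glue, helper44): for ANY integral model `W` of the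
Frey curve with `p ∣ abc` (multiplicative reduction at `p`, `v_p(Δ) ≡ 0 mod p`), the peu ramifié
subgroup of a place `A` over `p` acts trivially on `E[p]`.

ROUTE (no Tate uniformisation): `E[p]` has a Hopf lattice over `ℤ_(p)`; then `R38.r38ep_core`
(landed, abstract in the module `M`) gives the statement.  The Hopf lattice comes, as in the case
of good reduction (`EC/Flat`, `W1/ChartToLocal.lean`), from the kernel of reduction `E₁` with the
chart `z = -x/y`; but for multiplicative reduction the field `lift` of `W1.KernelChart` holds only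
for `p`-torsion points (the Néron component of a point of `E[m]` is rational iff `m ∣ v(Δ)`), so:

* `EpmChartAt A J J1 g z n` : `W1.KernelChart` with `lift` only for points killed by `n`;
* `StmtEpmCTL`   (EPM-CTL) : `EpmChartAt … n` ⇒ local Hopf lattice on `J[n]`
                  (copy of the `hK`-dependent lemmas of `W1/ChartToLocal.lean`; `hK.lift` is used
                  there only through `ctl_torsion hn`, i.e. for points of `J[n]`);
* `StmtEpmFreyChart` (EPM-LIFT) : the Frey curve over `ℚ̄` has an `EpmChartAt … P.p` at every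
                  place over `P.p ∣ abc`  (tropical step of S05 + `key_node`/`key_nonsing` +
                  Teichmüller representatives);
* `StmtEpmAsm`   (EPM-ASM) : `StmtEpmCTL → StmtEpmFreyChart → StmtEpmFrey`
                  (transport of the chart along `EC.vc_transport`, then a copy of `stmtEPeu_of`).
-/

set_option autoImplicit false

noncomputable section

namespace Fermat.Agent.R38

open ExtCitation Fermat.Agent.W1
open scoped WeierstrassCurve.Affine

/-- `W1.KernelChart`, with the lifting property only for the points killed by `n`. -/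
structure EpmChartAt (A : ValuationSubring Qb) (J : Type) [AddCommGroup J]
    [DistribMulAction (Qb ≃ₐ[ℚ] Qb) J]
    (J1 : AddSubgroup J) (g : ℕ) (z : J → Fin g → Qb) (n : ℕ) : Prop where
  decomp_stable : ∀ σ ∈ A.decompositionSubgroup ℚ, ∀ x ∈ J1, σ • x ∈ J1
  mem_nonunits : ∀ x ∈ J1, ∀ i, z x i ∈ A.nonunits
  injOn : ∀ x ∈ J1, ∀ y ∈ J1, z x = z y → x = y
  inertia_equivariant : ∀ σ ∈ A.inertiaSubgroupIn ℚ, ∀ x ∈ J1, ∀ i, z (σ • x) i = σ (z x i)
  add_approx : ∀ ϖ ∈ A.nonunits, ϖ ≠ 0 → ∀ m : ℕ,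
    ∃ F : Fin g → MvPolynomial (Fin g ⊕ Fin g) Qb,
      (∀ i c, (F i).coeff c ∈ A) ∧
      ∀ x ∈ J1, ∀ y ∈ J1, (∀ i, ∃ a ∈ A, z x i = ϖ * a) → (∀ i, ∃ a ∈ A, z y i = ϖ * a) →
        ∀ i, ∃ a ∈ A, z (x + y) i - MvPolynomial.eval (Sum.elim (z x) (z y)) (F i) = ϖ ^ m * a
  lift : ∀ x : J, n • x = 0 →
    ∃ b : J, (∀ σ ∈ A.inertiaSubgroupIn ℚ, σ • b = b) ∧ x - b ∈ J1

/-- **EPM-CTL**: a kernel chart at `n` gives a local Hopf lattice on `J[n]`. -/
def StmtEpmCTL : Prop :=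
  ∀ (p : ℕ) (_ : p.Prime) (A : ValuationSubring Qb) (_ : A.LiesOverPrime p)
    (J : Type) (_ : AddCommGroup J) (_ : DistribMulAction (Qb ≃ₐ[ℚ] Qb) J)
    (J1 : AddSubgroup J) (g : ℕ) (z : J → Fin g → Qb) (n : ℕ),
    EpmChartAt A J J1 g z n → 0 < n → Finite (Submodule.torsionBy ℤ J (n : ℤ)) →
      IsContAction (torsAct J (n : ℤ)) →
      ∃ Ht : Subalgebra A (Submodule.torsionBy ℤ J (n : ℤ) → Qb),
        IsLocalHopfLattice A (torsAct J (n : ℤ)) Ht

/-- **EPM-LIFT**: the kernel chart of the Frey curve at a prime `p ∣ abc`. -/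
def StmtEpmFreyChart : Prop :=
  ∀ (P : FreyPackage), (P.p : ℤ) ∣ P.a * P.b * P.c →
    ∀ A : ValuationSubring Qb, A.LiesOverPrime P.p →
      ∃ (J1 : AddSubgroup (P.freyCurve⁄Qb).Point) (z : (P.freyCurve⁄Qb).Point → Fin 1 → Qb),
        EpmChartAt A (P.freyCurve⁄Qb).Point J1 1 z P.p

/-- **EPEU-MULT** (the Prop consumed by the S44 glue; identical to helper44's `StmtEPeuFrey`). -/
def StmtEpmFrey : Prop :=
  ∀ (P : FreyPackage) (W : WeierstrassCurve ℤ), W.IsIntegralModelOf P.freyCurve →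
    (P.p : ℤ) ∣ P.a * P.b * P.c →
    haveI : Fact P.p.Prime := ⟨P.pp⟩
    ∀ A : ValuationSubring Qb, A.LiesOverPrime P.p →
      (∀ σ ∈ A.inertiaSubgroupIn ℚ, ∀ τ ∈ A.inertiaSubgroupIn ℚ, ∀ x : ETors W P.p,
        τ • (σ • x - x) = cycloExp P.p τ • (σ • x - x)) →
      ∀ σ ∈ peuSubgroup A P.p, ∀ x : ETors W P.p, σ • x = x

/-- **EPM-ASM**. -/
def StmtEpmAsm : Prop := StmtEpmCTL → StmtEpmFreyChart → StmtEpmFrey

end Fermat.Agent.R38

end


end ZBW1_001_2

/-! ### bundled: `Fermat.Agent.W1.ChartToLocal` -/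
section ZBW1_001_3

/-!
# W1 ALG-B: a kernel chart gives a local Hopf lattice on `J[n]`

`chartToLocalStatement : ChartToLocalStatement` (statement in `PlanAlg.lean`).

`Ht` := the `A`-subalgebra of `Map(J[n], ℚ̄)` generated by the indicator functions
`ctlInd b : c ↦ [c - b ∈ J1]` and by `ctlPsi σ b i : c ↦ [c - b ∈ J1] · σ (z (σ⁻¹ (c - b)) i)`
(`σ` in the decomposition group, `b` an inertia-fixed point of `J`).

* integral, separates, decomp_stable, inertia_span: by induction on the generators.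
* comul_mem: on a product of cosets the comultiplication of `ctlPsi σ b i` is
  `σ(F_i)(ψ ⊗ 1, 1 ⊗ ψ') + σ(ϖ)ⁿ · (A-valued)` by `add_approx`; the error term lies in
  `Ht ⊗ Ht` for `n ≫ 0` by Lagrange interpolation (`d · δ_c ∈ Ht`) and because the value group
  of `A` has rank one (`ctl_exists_pow_eq_mul`).
-/

set_option autoImplicit false
set_option linter.style.haveILetI false
set_option linter.unusedSectionVars false

namespace Fermat.Agent.W1

open Polynomial
open scoped Pointwise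

section Basic

variable (A : ValuationSubring (AlgebraicClosure ℚ))

/-- the inertia group is contained in the decomposition group -/
theorem ctl_inertia_le_decomp {γ : AlgebraicClosure ℚ ≃ₐ[ℚ] AlgebraicClosure ℚ}
    (hγ : γ ∈ A.inertiaSubgroupIn ℚ) : γ ∈ A.decompositionSubgroup ℚ := by
  obtain ⟨g, -, rfl⟩ := Subgroup.mem_map.1 hγ
  exact g.2

/-- the inertia group is normalised by the decomposition group -/
theorem ctl_inertia_conj {σ γ : AlgebraicClosure ℚ ≃ₐ[ℚ] AlgebraicClosure ℚ}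
    (hσ : σ ∈ A.decompositionSubgroup ℚ) (hγ : γ ∈ A.inertiaSubgroupIn ℚ) :
    σ * γ * σ⁻¹ ∈ A.inertiaSubgroupIn ℚ := by
  obtain ⟨g, hg, rfl⟩ := Subgroup.mem_map.1 hγ
  have hn : (A.inertiaSubgroup ℚ).Normal := by
    unfold ValuationSubring.inertiaSubgroup
    infer_instance
  have h1 := hn.conj_mem g hg ⟨σ, hσ⟩
  refine Subgroup.mem_map.2 ⟨_, h1, ?_⟩
  simp only [Subgroup.subtype_apply, Subgroup.coe_mul, Subgroup.coe_inv]

theorem ctl_inertia_conj' {σ γ : AlgebraicClosure ℚ ≃ₐ[ℚ] AlgebraicClosure ℚ}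
    (hσ : σ ∈ A.decompositionSubgroup ℚ) (hγ : γ ∈ A.inertiaSubgroupIn ℚ) :
    σ⁻¹ * γ * σ ∈ A.inertiaSubgroupIn ℚ := by
  have := ctl_inertia_conj A (Subgroup.inv_mem _ hσ) hγ
  rwa [inv_inv] at this

/-- the decomposition group preserves `A` -/
theorem ctl_decomp_mem {σ : AlgebraicClosure ℚ ≃ₐ[ℚ] AlgebraicClosure ℚ}
    (hσ : σ ∈ A.decompositionSubgroup ℚ) {a : AlgebraicClosure ℚ} (ha : a ∈ A) : σ a ∈ A := by
  have hstab : σ • A = A := MulAction.mem_stabilizer_iff.mp hσ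
  have h1 : σ • a ∈ σ • A := ValuationSubring.smul_mem_pointwise_smul σ a _ ha
  rw [hstab] at h1
  exact h1

theorem ctl_decomp_mem_iff {σ : AlgebraicClosure ℚ ≃ₐ[ℚ] AlgebraicClosure ℚ}
    (hσ : σ ∈ A.decompositionSubgroup ℚ) {a : AlgebraicClosure ℚ} : σ a ∈ A ↔ a ∈ A := by
  refine ⟨fun h => ?_, ctl_decomp_mem A hσ⟩
  have := ctl_decomp_mem A (Subgroup.inv_mem _ hσ) h
  have h2 : σ⁻¹ (σ a) = a := by
    show (σ⁻¹ * σ) a = a
    rw [inv_mul_cancel]; rfl
  rwa [h2] at this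

/-- the decomposition group preserves the maximal ideal of `A` -/
theorem ctl_decomp_mem_nonunits {σ : AlgebraicClosure ℚ ≃ₐ[ℚ] AlgebraicClosure ℚ}
    (hσ : σ ∈ A.decompositionSubgroup ℚ) {a : AlgebraicClosure ℚ} (ha : a ∈ A.nonunits) :
    σ a ∈ A.nonunits := by
  rw [ValuationSubring.mem_nonunits_iff_or] at ha ⊢
  rcases ha with rfl | ha
  · left; exact map_zero σ
  · right
    rw [← map_inv₀, ctl_decomp_mem_iff A hσ]
    exact ha

end Basic


section RankOne

variable (A : ValuationSubring (AlgebraicClosure ℚ)) {p : ℕ}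

theorem ctl_one_not_mem_nonunits : (1 : AlgebraicClosure ℚ) ∉ A.nonunits := by
  rw [ValuationSubring.mem_nonunits_iff_or]
  push Not
  exact ⟨one_ne_zero, by rw [inv_one]; exact A.one_mem⟩

theorem ctl_inv_mem_of_not_mem_nonunits {x : AlgebraicClosure ℚ} (hx : x ∉ A.nonunits) :
    x⁻¹ ∈ A := by
  rw [ValuationSubring.mem_nonunits_iff_or] at hx
  push Not at hx
  exact hx.2

theorem ctl_mul_mem_nonunits {a x : AlgebraicClosure ℚ} (ha : a ∈ A) (hx : x ∈ A.nonunits) :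
    a * x ∈ A.nonunits := by
  obtain ⟨hx', hxm⟩ := ValuationSubring.mem_nonunits_iff_exists_mem_maximalIdeal.1 hx
  exact ValuationSubring.mem_nonunits_iff_exists_mem_maximalIdeal.2
    ⟨mul_mem ha hx', Ideal.mul_mem_left _ ⟨a, ha⟩ hxm⟩

/-- an integer prime to `p` is a unit of `A` -/
theorem ctl_int_inv_mem (hp : p.Prime) (hA : A.LiesOverPrime p) (u : ℤ) (hu : ¬ (p : ℤ) ∣ u) :
    ((u : AlgebraicClosure ℚ))⁻¹ ∈ A := by
  apply ctl_inv_mem_of_not_mem_nonunits
  intro hmem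
  have hcop : IsCoprime u (p : ℤ) :=
    ((Nat.prime_iff_prime_int.1 hp).irreducible.coprime_iff_not_dvd.2 hu).symm
  obtain ⟨s, t, hst⟩ := hcop
  have h1 : (1 : AlgebraicClosure ℚ) = (s : AlgebraicClosure ℚ) * u + t * (p : ℕ) := by
    have := congrArg (fun x : ℤ => (x : AlgebraicClosure ℚ)) hst
    simp only [Int.cast_add, Int.cast_mul, Int.cast_one, Int.cast_natCast] at this
    exact this.symm
  have hs : (s : AlgebraicClosure ℚ) ∈ A := intCast_mem A s
  have ht : (t : AlgebraicClosure ℚ) ∈ A := intCast_mem A t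
  have h2 : (s : AlgebraicClosure ℚ) * u + t * (p : ℕ) ∈ A.nonunits :=
    A.nonunits.add_mem (ctl_mul_mem_nonunits A hs hmem) (ctl_mul_mem_nonunits A ht hA)
  rw [← h1] at h2
  exact ctl_one_not_mem_nonunits A h2


/-- integral elements lie in `A` -/
theorem ctl_mem_of_isIntegral {x : AlgebraicClosure ℚ} (hx : IsIntegral ℤ x) : x ∈ A := by
  have h1 : IsIntegral A x := hx.tower_top
  obtain ⟨y, hy⟩ := (IsIntegrallyClosed.isIntegral_iff (R := A) (K := AlgebraicClosure ℚ)).1 h1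
  rw [← hy]
  exact y.2

/-- every nonzero element of `A` divides a power of `p` -/
theorem ctl_dvd_prime_pow (hp : p.Prime) (hA : A.LiesOverPrime p) {d : AlgebraicClosure ℚ}
    (hd0 : d ≠ 0) :
    ∃ m : ℕ, ∃ a ∈ A, ((p : ℕ) : AlgebraicClosure ℚ) ^ m = d * a := by
  have halg : IsAlgebraic ℤ d⁻¹ :=
    (IsFractionRing.isAlgebraic_iff ℤ ℚ (AlgebraicClosure ℚ)).2
      ((AlgebraicClosure.isAlgebraic ℚ).isAlgebraic d⁻¹)
  obtain ⟨N, hN0, hint⟩ := halg.exists_integral_multiple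
  have ha' : N • d⁻¹ ∈ A := ctl_mem_of_isIntegral A hint
  have hNd : (N : AlgebraicClosure ℚ) = d * (N • d⁻¹) := by
    rw [zsmul_eq_mul]; field_simp
  obtain ⟨m, u, hu, hNu⟩ := Nat.exists_eq_pow_mul_and_not_dvd (Int.natAbs_ne_zero.2 hN0) p
    hp.ne_one
  have huinv : ((u : ℤ) : AlgebraicClosure ℚ)⁻¹ ∈ A :=
    ctl_int_inv_mem A hp hA (u : ℤ) (fun h => hu (Int.natCast_dvd_natCast.1 h))
  have hu0 : ((u : ℤ) : AlgebraicClosure ℚ) ≠ 0 := by
    intro h
    apply hu
    have : (u : ℤ) = 0 := by exact_mod_cast h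
    have hu0' : u = 0 := by exact_mod_cast this
    rw [hu0']; exact dvd_zero _
  -- sign
  have hsign : ∃ ε : AlgebraicClosure ℚ, ε ∈ A ∧ ((N.natAbs : ℕ) : AlgebraicClosure ℚ) = ε * N := by
    rcases Int.natAbs_eq N with h | h
    · refine ⟨1, one_mem A, ?_⟩
      rw [one_mul]
      have := congrArg (fun x : ℤ => (x : AlgebraicClosure ℚ)) h
      simpa using this.symm
    · refine ⟨-1, neg_mem (one_mem A), ?_⟩
      have := congrArg (fun x : ℤ => (x : AlgebraicClosure ℚ)) h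
      simp only [Int.cast_neg, Int.cast_natCast] at this
      rw [this]; ring
  obtain ⟨ε, hε, hεN⟩ := hsign
  refine ⟨m, ε * (N • d⁻¹) * ((u : ℤ) : AlgebraicClosure ℚ)⁻¹,
    mul_mem (mul_mem hε ha') huinv, ?_⟩
  have h3 : ((N.natAbs : ℕ) : AlgebraicClosure ℚ) = (p : AlgebraicClosure ℚ) ^ m * (u : ℤ) := by
    rw [hNu]; push_cast; ring
  have h4 : (p : AlgebraicClosure ℚ) ^ m * (u : ℤ) = ε * (d * (N • d⁻¹)) := by
    rw [← h3, hεN, hNd]
  calc (p : AlgebraicClosure ℚ) ^ m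
      = (p : AlgebraicClosure ℚ) ^ m * (u : ℤ) * ((u : ℤ) : AlgebraicClosure ℚ)⁻¹ := by
        rw [mul_assoc, mul_inv_cancel₀ hu0, mul_one]
    _ = d * (ε * (N • d⁻¹) * ((u : ℤ) : AlgebraicClosure ℚ)⁻¹) := by rw [h4]; ring


/-- `p` divides a power of every nonzero nonunit of `A` -/
theorem ctl_prime_dvd_pow (hp : p.Prime) (hA : A.LiesOverPrime p) {ϖ : AlgebraicClosure ℚ}
    (hϖ : ϖ ∈ A.nonunits) :
    ∃ n : ℕ, ∃ a ∈ A, ϖ ^ n = ((p : ℕ) : AlgebraicClosure ℚ) * a := by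
  classical
  have halg : IsAlgebraic ℤ ϖ :=
    (IsFractionRing.isAlgebraic_iff ℤ ℚ (AlgebraicClosure ℚ)).2
      ((AlgebraicClosure.isAlgebraic ℚ).isAlgebraic ϖ)
  obtain ⟨f, hf0, hfϖ⟩ := halg
  set g : ℤ[X] := f.primPart with hg
  have hgprim : g.IsPrimitive := f.isPrimitive_primPart
  have hgϖ : aeval ϖ g = 0 := aeval_primPart_eq_zero hf0 hfϖ
  have hex : ∃ j, ¬ (p : ℤ) ∣ g.coeff j := by
    by_contra h
    push Not at h
    have h1 : C (p : ℤ) ∣ g := (C_dvd_iff_dvd_coeff _ _).2 h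
    have h2 : IsUnit (p : ℤ) := hgprim _ h1
    rw [Int.isUnit_iff] at h2
    rcases h2 with h2 | h2
    · have : p = 1 := by exact_mod_cast h2
      exact hp.ne_one this
    · have h3 : (0 : ℤ) ≤ p := Int.natCast_nonneg p
      omega
  set j₀ := Nat.find hex with hj₀
  have hj₀spec : ¬ (p : ℤ) ∣ g.coeff j₀ := Nat.find_spec hex
  have hj₀min : ∀ j, j < j₀ → (p : ℤ) ∣ g.coeff j := fun j hj =>
    not_not.1 (Nat.find_min hex hj)
  -- work in the ring `A`
  obtain ⟨hϖA, hϖm⟩ := ValuationSubring.mem_nonunits_iff_exists_mem_maximalIdeal.1 hϖ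
  set w : A := ⟨ϖ, hϖA⟩ with hw
  have hgw : aeval w g = 0 := by
    apply Subtype.ext
    have h1 : ((aeval w g : A) : AlgebraicClosure ℚ) = aeval ϖ g := by
      have := aeval_algHom_apply (A.subtype.toIntAlgHom) w g
      exact this.symm
    rw [h1, hgϖ]; rfl
  set I : Ideal A := Ideal.span {((p : ℕ) : A), w ^ (j₀ + 1)} with hI
  have hpI : ((p : ℕ) : A) ∈ I := Ideal.subset_span (by simp)
  have hwI : w ^ (j₀ + 1) ∈ I := Ideal.subset_span (by simp)
  have hterm : ∀ j, j ≠ j₀ → (g.coeff j) • w ^ j ∈ I := by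
    intro j hj
    rcases lt_or_gt_of_ne hj with hlt | hgt
    · obtain ⟨c, hc⟩ := hj₀min j hlt
      rw [hc, zsmul_eq_mul]
      push_cast
      rw [mul_assoc]
      exact Ideal.mul_mem_right _ _ hpI
    · obtain ⟨k, rfl⟩ := Nat.exists_eq_add_of_lt hgt
      rw [zsmul_eq_mul, show j₀ + k + 1 = (j₀ + 1) + k by ring, pow_add]
      exact Ideal.mul_mem_left _ _ (Ideal.mul_mem_right _ _ hwI)
  have hsum : ∑ j ∈ Finset.range (max g.natDegree j₀ + 1), (g.coeff j) • w ^ j = 0 := by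
    rw [← aeval_eq_sum_range' (Nat.lt_succ_of_le (le_max_left _ _)), hgw]
  have hmem : j₀ ∈ Finset.range (max g.natDegree j₀ + 1) :=
    Finset.mem_range.2 (Nat.lt_succ_of_le (le_max_right _ _))
  have hj₀I : (g.coeff j₀) • w ^ j₀ ∈ I := by
    have h1 := Finset.add_sum_erase _ (fun j => (g.coeff j) • w ^ j) hmem
    rw [hsum] at h1
    have h2 : (g.coeff j₀) • w ^ j₀ =
        - ∑ j ∈ (Finset.range (max g.natDegree j₀ + 1)).erase j₀, (g.coeff j) • w ^ j :=
      eq_neg_of_add_eq_zero_left h1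
    rw [h2]
    refine I.neg_mem (I.sum_mem fun j hj => hterm j (Finset.ne_of_mem_erase hj))
  -- the coefficient is a unit
  have hcinv : ((g.coeff j₀ : ℤ) : AlgebraicClosure ℚ)⁻¹ ∈ A :=
    ctl_int_inv_mem A hp hA _ hj₀spec
  have hc0 : ((g.coeff j₀ : ℤ) : AlgebraicClosure ℚ) ≠ 0 := by
    intro h
    apply hj₀spec
    have : g.coeff j₀ = 0 := by exact_mod_cast h
    rw [this]; exact dvd_zero _
  have hwj₀ : w ^ j₀ ∈ I := by
    have h1 : w ^ j₀ = (⟨_, hcinv⟩ : A) * ((g.coeff j₀) • w ^ j₀) := by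
      apply Subtype.ext
      rw [zsmul_eq_mul]
      push_cast
      rw [← mul_assoc, inv_mul_cancel₀ hc0, one_mul]
    rw [h1]
    exact Ideal.mul_mem_left _ _ hj₀I
  obtain ⟨a₁, a₂, h12⟩ := Ideal.mem_span_pair.1 hwj₀
  -- `w ^ j₀ * (1 - a₂ * w) = a₁ * p`
  have hunit : IsUnit (1 - a₂ * w) := by
    apply IsLocalRing.isUnit_one_sub_self_of_mem_nonunits
    exact Ideal.mul_mem_left _ _ hϖm
  obtain ⟨v, hv⟩ := hunit
  refine ⟨j₀, ((a₁ * (v⁻¹ : Aˣ) : A) : AlgebraicClosure ℚ), (a₁ * (v⁻¹ : Aˣ) : A).2, ?_⟩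
  have h5 : w ^ j₀ * (1 - a₂ * w) = a₁ * ((p : ℕ) : A) := by
    linear_combination (-1 : A) * h12
  have h6 : w ^ j₀ = ((p : ℕ) : A) * (a₁ * (v⁻¹ : Aˣ)) := by
    have : w ^ j₀ * (v : A) = a₁ * ((p : ℕ) : A) := by rw [hv]; exact h5
    calc w ^ j₀ = w ^ j₀ * (v : A) * (v⁻¹ : Aˣ) := by
          rw [mul_assoc, Units.mul_inv, mul_one]
      _ = ((p : ℕ) : A) * (a₁ * (v⁻¹ : Aˣ)) := by rw [this]; ring
  have := congrArg (fun x : A => (x : AlgebraicClosure ℚ)) h6
  simpa using this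

/-- rank one: a power of a nonzero nonunit is divisible by any given nonzero element -/
theorem ctl_exists_pow_eq_mul (hp : p.Prime) (hA : A.LiesOverPrime p) {ϖ d : AlgebraicClosure ℚ}
    (hϖ : ϖ ∈ A.nonunits) (hd0 : d ≠ 0) :
    ∃ n : ℕ, ∃ a ∈ A, ϖ ^ n = d * a := by
  obtain ⟨m, a, ha, hm⟩ := ctl_dvd_prime_pow A hp hA hd0
  obtain ⟨n, b, hb, hn⟩ := ctl_prime_dvd_pow A hp hA hϖ
  refine ⟨n * m, a * b ^ m, mul_mem ha (pow_mem hb m), ?_⟩
  rw [pow_mul, hn, mul_pow, hm]; ring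

/-- a common nonzero nonunit divisor of finitely many nonunits -/
theorem ctl_exists_common_dvd (hp : p.Prime) (hA : A.LiesOverPrime p)
    (S : Finset (AlgebraicClosure ℚ)) (hS : ∀ s ∈ S, s ∈ A.nonunits) :
    ∃ ϖ ∈ A.nonunits, ϖ ≠ 0 ∧ ∀ s ∈ S, ∃ a ∈ A, s = ϖ * a := by
  classical
  induction S using Finset.induction_on with
  | empty =>
    refine ⟨(p : ℕ), hA, ?_, by simp⟩
    exact_mod_cast hp.ne_zero
  | insert s S' hs ih =>
    obtain ⟨ϖ, hϖ, hϖ0, hdiv⟩ := ih (fun t ht => hS t (Finset.mem_insert_of_mem ht))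
    have hsn : s ∈ A.nonunits := hS s (Finset.mem_insert_self _ _)
    by_cases hs0 : s = 0
    · refine ⟨ϖ, hϖ, hϖ0, fun t ht => ?_⟩
      rcases Finset.mem_insert.1 ht with rfl | ht
      · exact ⟨0, zero_mem A, by rw [hs0, mul_zero]⟩
      · exact hdiv t ht
    rcases A.mem_or_inv_mem (s / ϖ) with h | h
    · refine ⟨ϖ, hϖ, hϖ0, fun t ht => ?_⟩
      rcases Finset.mem_insert.1 ht with rfl | ht
      · exact ⟨t / ϖ, h, by field_simp⟩
      · exact hdiv t ht
    · refine ⟨s, hsn, hs0, fun t ht => ?_⟩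
      rcases Finset.mem_insert.1 ht with rfl | ht
      · exact ⟨1, one_mem A, by rw [mul_one]⟩
      · obtain ⟨a, ha, rfl⟩ := hdiv t ht
        refine ⟨(s / ϖ)⁻¹ * a, mul_mem h ha, ?_⟩
        field_simp

end RankOne


section SpanMul

variable {R B : Type*} [CommSemiring R] [CommSemiring B] [Algebra R B]

/-- the span of a multiplicatively closed set is closed under multiplication -/
theorem ctl_span_mul_mem {S : Set B} (hS : ∀ x ∈ S, ∀ y ∈ S, x * y ∈ S) {x y : B}
    (hx : x ∈ Submodule.span R S) (hy : y ∈ Submodule.span R S) :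
    x * y ∈ Submodule.span R S := by
  have h1 : x * y ∈ Submodule.span R S * Submodule.span R S := Submodule.mul_mem_mul hx hy
  rw [Submodule.span_mul_span] at h1
  refine Submodule.span_mono ?_ h1
  rintro _ ⟨a, ha, b, hb, rfl⟩
  exact hS a ha b hb

end SpanMul

section Chart

variable (A : ValuationSubring (AlgebraicClosure ℚ)) {J : Type} [AddCommGroup J]
  [DistribMulAction (AlgebraicClosure ℚ ≃ₐ[ℚ] AlgebraicClosure ℚ) J]
  (J1 : AddSubgroup J) {g : ℕ} (z : J → Fin g → AlgebraicClosure ℚ) (n : ℕ)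

open Classical in
/-- indicator function of the coset `b + J1` on `J[n]` -/
noncomputable def ctlInd (b : J) : Submodule.torsionBy ℤ J (n : ℤ) → AlgebraicClosure ℚ :=
  fun c => if (c : J) - b ∈ J1 then 1 else 0

open Classical in
/-- the coordinate function `c ↦ σ (z (σ⁻¹ (c - b)) i)` on the coset `b + J1`, extended by `0` -/
noncomputable def ctlPsi (σ : AlgebraicClosure ℚ ≃ₐ[ℚ] AlgebraicClosure ℚ) (b : J) (i : Fin g) :
    Submodule.torsionBy ℤ J (n : ℤ) → AlgebraicClosure ℚ :=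
  fun c => if (c : J) - b ∈ J1 then σ (z (σ⁻¹ • ((c : J) - b)) i) else 0

/-- the generators of the local Hopf lattice -/
def ctlGen : Set (Submodule.torsionBy ℤ J (n : ℤ) → AlgebraicClosure ℚ) :=
  {f | (∃ b : J, f = ctlInd J1 n b) ∨
    (∃ σ ∈ A.decompositionSubgroup ℚ, ∃ b : J, (∀ γ ∈ A.inertiaSubgroupIn ℚ, γ • b = b) ∧
      ∃ i : Fin g, f = ctlPsi J1 z n σ b i)}

/-- the local Hopf lattice -/
noncomputable def ctlHt : Subalgebra A (Submodule.torsionBy ℤ J (n : ℤ) → AlgebraicClosure ℚ) :=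
  Algebra.adjoin A (ctlGen A J1 z n)

variable {A J1 z n}

theorem ctlInd_of_mem {b : J} {c : Submodule.torsionBy ℤ J (n : ℤ)} (h : (c : J) - b ∈ J1) :
    ctlInd J1 n b c = 1 := by
  unfold ctlInd; rw [if_pos h]

theorem ctlInd_of_not_mem {b : J} {c : Submodule.torsionBy ℤ J (n : ℤ)} (h : (c : J) - b ∉ J1) :
    ctlInd J1 n b c = 0 := by
  unfold ctlInd; rw [if_neg h]

theorem ctlPsi_of_mem {σ : AlgebraicClosure ℚ ≃ₐ[ℚ] AlgebraicClosure ℚ} {b : J} {i : Fin g}
    {c : Submodule.torsionBy ℤ J (n : ℤ)} (h : (c : J) - b ∈ J1) :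
    ctlPsi J1 z n σ b i c = σ (z (σ⁻¹ • ((c : J) - b)) i) := by
  unfold ctlPsi; rw [if_pos h]

theorem ctlPsi_of_not_mem {σ : AlgebraicClosure ℚ ≃ₐ[ℚ] AlgebraicClosure ℚ} {b : J} {i : Fin g}
    {c : Submodule.torsionBy ℤ J (n : ℤ)} (h : (c : J) - b ∉ J1) :
    ctlPsi J1 z n σ b i c = 0 := by
  unfold ctlPsi; rw [if_neg h]

theorem ctl_torsAct_coe (σ : AlgebraicClosure ℚ ≃ₐ[ℚ] AlgebraicClosure ℚ)
    (c : Submodule.torsionBy ℤ J (n : ℤ)) :
    ((torsAct J (n : ℤ) σ c : Submodule.torsionBy ℤ J (n : ℤ)) : J) = σ • (c : J) := rfl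

theorem ctlInd_mem_ctlHt (b : J) : ctlInd J1 n b ∈ ctlHt A J1 z n :=
  Algebra.subset_adjoin (Or.inl ⟨b, rfl⟩)

theorem ctlPsi_mem_ctlHt {σ : AlgebraicClosure ℚ ≃ₐ[ℚ] AlgebraicClosure ℚ}
    (hσ : σ ∈ A.decompositionSubgroup ℚ) {b : J}
    (hb : ∀ γ ∈ A.inertiaSubgroupIn ℚ, γ • b = b) (i : Fin g) :
    ctlPsi J1 z n σ b i ∈ ctlHt A J1 z n :=
  Algebra.subset_adjoin (Or.inr ⟨σ, hσ, b, hb, i, rfl⟩)

theorem ctl_smul_mem_iff (hK : KernelChart A J J1 g z)
    {σ : AlgebraicClosure ℚ ≃ₐ[ℚ] AlgebraicClosure ℚ} (hσ : σ ∈ A.decompositionSubgroup ℚ)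
    {x : J} : σ • x ∈ J1 ↔ x ∈ J1 := by
  refine ⟨fun h => ?_, hK.decomp_stable σ hσ x⟩
  have := hK.decomp_stable σ⁻¹ (Subgroup.inv_mem _ hσ) _ h
  rwa [inv_smul_smul] at this

/-- values of `ctlPsi` lie in the maximal ideal -/
theorem ctlPsi_apply_mem (hK : KernelChart A J J1 g z)
    {σ : AlgebraicClosure ℚ ≃ₐ[ℚ] AlgebraicClosure ℚ} (hσ : σ ∈ A.decompositionSubgroup ℚ)
    (b : J) (i : Fin g) (c : Submodule.torsionBy ℤ J (n : ℤ)) :
    ctlPsi J1 z n σ b i c ∈ A.nonunits := by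
  by_cases h : (c : J) - b ∈ J1
  · rw [ctlPsi_of_mem h]
    apply ctl_decomp_mem_nonunits A hσ
    apply hK.mem_nonunits
    exact (ctl_smul_mem_iff hK (Subgroup.inv_mem _ hσ)).2 h
  · rw [ctlPsi_of_not_mem h]; exact zero_mem _

/-- (P1) the functions of `Ht` have values in `A` -/
theorem ctl_integral (hK : KernelChart A J J1 g z) :
    ∀ h ∈ ctlHt A J1 z n, ∀ P : Submodule.torsionBy ℤ J (n : ℤ), h P ∈ A := by
  intro h hh
  induction hh using Algebra.adjoin_induction with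
  | mem f hf =>
    intro P
    rcases hf with ⟨b, rfl⟩ | ⟨σ, hσ, b, -, i, rfl⟩
    · by_cases hc : (P : J) - b ∈ J1
      · rw [ctlInd_of_mem hc]; exact one_mem A
      · rw [ctlInd_of_not_mem hc]; exact zero_mem A
    · exact A.nonunits_subset (ctlPsi_apply_mem hK hσ b i P)
  | algebraMap r => intro P; exact r.2
  | add x y _ _ hx hy => intro P; exact add_mem (hx P) (hy P)
  | mul x y _ _ hx hy => intro P; exact mul_mem (hx P) (hy P)

/-- inertia acts trivially on `J[tors] / J1` -/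
theorem ctl_inertia_sub_mem (hK : KernelChart A J J1 g z)
    {γ : AlgebraicClosure ℚ ≃ₐ[ℚ] AlgebraicClosure ℚ} (hγ : γ ∈ A.inertiaSubgroupIn ℚ)
    {x : J} (hx : ∃ m : ℕ, 0 < m ∧ m • x = 0) : γ • x - x ∈ J1 := by
  obtain ⟨b, hb, hxb⟩ := hK.lift x hx
  have h1 : γ • x - x = γ • (x - b) - (x - b) := by
    rw [smul_sub, hb γ hγ]; abel
  rw [h1]
  exact J1.sub_mem (hK.decomp_stable γ (ctl_inertia_le_decomp A hγ) _ hxb) hxb


theorem ctl_torsion (hn : 0 < n) (c : Submodule.torsionBy ℤ J (n : ℤ)) :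
    ∃ m : ℕ, 0 < m ∧ m • (c : J) = 0 := by
  refine ⟨n, hn, ?_⟩
  have := (Submodule.mem_torsionBy_iff _ _).1 c.2
  rwa [natCast_zsmul] at this

/-- (P2) `Ht` separates the points of `J[n]` -/
theorem ctl_separates (hK : KernelChart A J J1 g z) (hn : 0 < n)
    (P Q : Submodule.torsionBy ℤ J (n : ℤ))
    (h : ∀ f ∈ ctlHt A J1 z n, f P = f Q) : P = Q := by
  -- same coset
  have h1 := h _ (ctlInd_mem_ctlHt (A := A) (z := z) (n := n) (J1 := J1) (P : J))
  have hPQ : (Q : J) - (P : J) ∈ J1 := by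
    by_contra hne
    rw [ctlInd_of_mem (by rw [sub_self]; exact zero_mem J1), ctlInd_of_not_mem hne] at h1
    exact one_ne_zero h1
  obtain ⟨b, hb, hPb⟩ := hK.lift (P : J) (ctl_torsion hn P)
  have hQb : (Q : J) - b ∈ J1 := by
    have : (Q : J) - b = ((Q : J) - P) + ((P : J) - b) := by abel
    rw [this]; exact J1.add_mem hPQ hPb
  have hz : z ((P : J) - b) = z ((Q : J) - b) := by
    funext i
    have h2 := h _ (ctlPsi_mem_ctlHt (A := A) (z := z) (n := n) (J1 := J1)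
      (Subgroup.one_mem _) hb i)
    rw [ctlPsi_of_mem hPb, ctlPsi_of_mem hQb] at h2
    simpa using h2
  have := hK.injOn _ hPb _ hQb hz
  apply Subtype.ext
  exact sub_left_injective this

/-- (P3) `Ht` is stable under the decomposition group -/
theorem ctl_decomp_stable (hK : KernelChart A J J1 g z) :
    ∀ τ ∈ A.decompositionSubgroup ℚ, ∀ h ∈ ctlHt A J1 z n,
      (fun P : Submodule.torsionBy ℤ J (n : ℤ) => τ (h (torsAct J (n : ℤ) τ⁻¹ P))) ∈
        ctlHt A J1 z n := by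
  intro τ hτ h hh
  have hτ' : τ⁻¹ ∈ A.decompositionSubgroup ℚ := Subgroup.inv_mem _ hτ
  induction hh using Algebra.adjoin_induction with
  | mem f hf =>
    rcases hf with ⟨b, rfl⟩ | ⟨σ, hσ, b, hb, i, rfl⟩
    · have : (fun P : Submodule.torsionBy ℤ J (n : ℤ) =>
          τ (ctlInd J1 n b (torsAct J (n : ℤ) τ⁻¹ P))) = ctlInd J1 n (τ • b) := by
        funext P
        have hiff : (τ⁻¹ • (P : J) - b ∈ J1) ↔ ((P : J) - τ • b ∈ J1) := by
          rw [← ctl_smul_mem_iff hK hτ' (x := (P : J) - τ • b), smul_sub, inv_smul_smul]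
        by_cases hc : (P : J) - τ • b ∈ J1
        · rw [ctlInd_of_mem hc, ctlInd_of_mem (by rw [ctl_torsAct_coe]; exact hiff.2 hc), map_one]
        · rw [ctlInd_of_not_mem hc,
            ctlInd_of_not_mem (by rw [ctl_torsAct_coe]; exact fun h' => hc (hiff.1 h')), map_zero]
      rw [this]
      exact ctlInd_mem_ctlHt _
    · have hτb : ∀ γ ∈ A.inertiaSubgroupIn ℚ, γ • (τ • b) = τ • b := by
        intro γ hγ
        have h1 := hb _ (ctl_inertia_conj' A hτ hγ)
        rw [mul_smul, mul_smul] at h1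
        have h2 := congrArg (fun x => τ • x) h1
        simpa using h2
      have : (fun P : Submodule.torsionBy ℤ J (n : ℤ) =>
          τ (ctlPsi J1 z n σ b i (torsAct J (n : ℤ) τ⁻¹ P))) = ctlPsi J1 z n (τ * σ) (τ • b) i := by
        funext P
        have hiff : (τ⁻¹ • (P : J) - b ∈ J1) ↔ ((P : J) - τ • b ∈ J1) := by
          rw [← ctl_smul_mem_iff hK hτ' (x := (P : J) - τ • b), smul_sub, inv_smul_smul]
        by_cases hc : (P : J) - τ • b ∈ J1
        · rw [ctlPsi_of_mem hc, ctlPsi_of_mem (by rw [ctl_torsAct_coe]; exact hiff.2 hc)]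
          have e1 : (τ * σ)⁻¹ • ((P : J) - τ • b) = σ⁻¹ • (τ⁻¹ • (P : J) - b) := by
            rw [mul_inv_rev, mul_smul, smul_sub, inv_smul_smul]
          rw [e1, ctl_torsAct_coe]; rfl
        · rw [ctlPsi_of_not_mem hc,
            ctlPsi_of_not_mem (by rw [ctl_torsAct_coe]; exact fun h' => hc (hiff.1 h')), map_zero]
      rw [this]
      exact ctlPsi_mem_ctlHt (Subgroup.mul_mem _ hτ hσ) hτb i
  | algebraMap r =>
    have : (fun P : Submodule.torsionBy ℤ J (n : ℤ) =>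
        τ ((algebraMap A (Submodule.torsionBy ℤ J (n : ℤ) → AlgebraicClosure ℚ) r)
          (torsAct J (n : ℤ) τ⁻¹ P))) =
        algebraMap A (Submodule.torsionBy ℤ J (n : ℤ) → AlgebraicClosure ℚ)
          ⟨τ r, ctl_decomp_mem A hτ r.2⟩ := by
      funext P; rfl
    rw [this]
    exact Subalgebra.algebraMap_mem _ _
  | add x y _ _ hx hy =>
    have : (fun P : Submodule.torsionBy ℤ J (n : ℤ) => τ ((x + y) (torsAct J (n : ℤ) τ⁻¹ P))) =
        (fun P => τ (x (torsAct J (n : ℤ) τ⁻¹ P))) + fun P => τ (y (torsAct J (n : ℤ) τ⁻¹ P)) := by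
      funext P; simp
    rw [this]; exact add_mem hx hy
  | mul x y _ _ hx hy =>
    have : (fun P : Submodule.torsionBy ℤ J (n : ℤ) => τ ((x * y) (torsAct J (n : ℤ) τ⁻¹ P))) =
        (fun P => τ (x (torsAct J (n : ℤ) τ⁻¹ P))) * fun P => τ (y (torsAct J (n : ℤ) τ⁻¹ P)) := by
      funext P; simp
    rw [this]; exact mul_mem hx hy


/-- the generators are inertia-equivariant -/
theorem ctl_gen_equivariant (hK : KernelChart A J J1 g z) (hn : 0 < n)
    {f : Submodule.torsionBy ℤ J (n : ℤ) → AlgebraicClosure ℚ} (hf : f ∈ ctlGen A J1 z n)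
    {γ : AlgebraicClosure ℚ ≃ₐ[ℚ] AlgebraicClosure ℚ} (hγ : γ ∈ A.inertiaSubgroupIn ℚ)
    (P : Submodule.torsionBy ℤ J (n : ℤ)) : f (torsAct J (n : ℤ) γ P) = γ (f P) := by
  have hγD := ctl_inertia_le_decomp A hγ
  have hPP : γ • (P : J) - (P : J) ∈ J1 := ctl_inertia_sub_mem hK hγ (ctl_torsion hn P)
  rcases hf with ⟨b, rfl⟩ | ⟨σ, hσ, b, hb, i, rfl⟩
  · have hiff : (γ • (P : J) - b ∈ J1) ↔ ((P : J) - b ∈ J1) := by
      have e : γ • (P : J) - b = (γ • (P : J) - P) + ((P : J) - b) := by abel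
      rw [e]
      exact ⟨fun h => by simpa using J1.sub_mem h hPP, fun h => J1.add_mem hPP h⟩
    by_cases hc : (P : J) - b ∈ J1
    · rw [ctlInd_of_mem hc, ctlInd_of_mem (by rw [ctl_torsAct_coe]; exact hiff.2 hc), map_one]
    · rw [ctlInd_of_not_mem hc,
        ctlInd_of_not_mem (by rw [ctl_torsAct_coe]; exact fun h' => hc (hiff.1 h')), map_zero]
  · have e : γ • (P : J) - b = γ • ((P : J) - b) := by rw [smul_sub, hb γ hγ]
    have hiff : (γ • (P : J) - b ∈ J1) ↔ ((P : J) - b ∈ J1) := by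
      rw [e]; exact ctl_smul_mem_iff hK hγD
    by_cases hc : (P : J) - b ∈ J1
    · rw [ctlPsi_of_mem hc, ctlPsi_of_mem (by rw [ctl_torsAct_coe]; exact hiff.2 hc),
        ctl_torsAct_coe, e]
      have hx : σ⁻¹ • ((P : J) - b) ∈ J1 := (ctl_smul_mem_iff hK (Subgroup.inv_mem _ hσ)).2 hc
      have hγ' := ctl_inertia_conj' A hσ hγ
      have e2 : σ⁻¹ • γ • ((P : J) - b) = (σ⁻¹ * γ * σ) • (σ⁻¹ • ((P : J) - b)) := by
        rw [mul_smul, mul_smul, smul_inv_smul]
      rw [e2, hK.inertia_equivariant _ hγ' _ hx i]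
      show σ ((σ⁻¹ * γ * σ) (z (σ⁻¹ • ((P : J) - b)) i)) = γ (σ (z (σ⁻¹ • ((P : J) - b)) i))
      have e3 : σ * (σ⁻¹ * γ * σ) = γ * σ := by group
      have := congrArg (fun τ : AlgebraicClosure ℚ ≃ₐ[ℚ] AlgebraicClosure ℚ =>
        τ (z (σ⁻¹ • ((P : J) - b)) i)) e3
      exact this
    · rw [ctlPsi_of_not_mem hc,
        ctlPsi_of_not_mem (by rw [ctl_torsAct_coe]; exact fun h' => hc (hiff.1 h')), map_zero]

/-- (P4) `Ht` is spanned by inertia-equivariant functions -/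
theorem ctl_inertia_span (hK : KernelChart A J J1 g z) (hn : 0 < n) :
    ∀ h ∈ ctlHt A J1 z n, h ∈ Submodule.span A
      {f : Submodule.torsionBy ℤ J (n : ℤ) → AlgebraicClosure ℚ | f ∈ ctlHt A J1 z n ∧
        ∀ σ ∈ A.inertiaSubgroupIn ℚ, ∀ P : Submodule.torsionBy ℤ J (n : ℤ),
          f (torsAct J (n : ℤ) σ P) = σ (f P)} := by
  intro h hh
  induction hh using Algebra.adjoin_induction with
  | mem f hf =>
    exact Submodule.subset_span ⟨Algebra.subset_adjoin hf,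
      fun γ hγ P => ctl_gen_equivariant hK hn hf hγ P⟩
  | algebraMap r =>
    have h1 : (1 : Submodule.torsionBy ℤ J (n : ℤ) → AlgebraicClosure ℚ) ∈ Submodule.span A
        {f : Submodule.torsionBy ℤ J (n : ℤ) → AlgebraicClosure ℚ | f ∈ ctlHt A J1 z n ∧
          ∀ σ ∈ A.inertiaSubgroupIn ℚ, ∀ P : Submodule.torsionBy ℤ J (n : ℤ),
            f (torsAct J (n : ℤ) σ P) = σ (f P)} :=
      Submodule.subset_span ⟨one_mem _, fun γ _ P => by simp⟩
    have := Submodule.smul_mem _ r h1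
    rwa [Algebra.smul_def, mul_one] at this
  | add x y _ _ hx hy => exact add_mem hx hy
  | mul x y _ _ hx hy =>
    refine ctl_span_mul_mem ?_ hx hy
    rintro a ⟨ha, ha'⟩ b ⟨hb, hb'⟩
    refine ⟨mul_mem ha hb, fun γ hγ P => ?_⟩
    rw [Pi.mul_apply, Pi.mul_apply, ha' γ hγ P, hb' γ hγ P, map_mul]

end Chart

section Tensor

variable (A : ValuationSubring (AlgebraicClosure ℚ)) {M : Type}
  (Ht : Subalgebra A (M → AlgebraicClosure ℚ))

/-- pure tensors `a ⊗ b`, `a b ∈ Ht`, as functions on `M × M` -/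
def ctlTens : Set (M × M → AlgebraicClosure ℚ) :=
  {F | ∃ a ∈ Ht, ∃ b ∈ Ht, F = fun PQ => a PQ.1 * b PQ.2}

variable {A Ht}

theorem ctlTens_mul {F G : M × M → AlgebraicClosure ℚ} (hF : F ∈ ctlTens A Ht)
    (hG : G ∈ ctlTens A Ht) : F * G ∈ ctlTens A Ht := by
  obtain ⟨a, ha, b, hb, rfl⟩ := hF
  obtain ⟨a', ha', b', hb', rfl⟩ := hG
  refine ⟨a * a', mul_mem ha ha', b * b', mul_mem hb hb', ?_⟩
  funext PQ
  simp only [Pi.mul_apply]
  ring

theorem ctl_tens_mem {a b : M → AlgebraicClosure ℚ} (ha : a ∈ Ht) (hb : b ∈ Ht) :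
    (fun PQ : M × M => a PQ.1 * b PQ.2) ∈ Submodule.span A (ctlTens A Ht) :=
  Submodule.subset_span ⟨a, ha, b, hb, rfl⟩

theorem ctl_tensSpan_mul {F G : M × M → AlgebraicClosure ℚ}
    (hF : F ∈ Submodule.span A (ctlTens A Ht)) (hG : G ∈ Submodule.span A (ctlTens A Ht)) :
    F * G ∈ Submodule.span A (ctlTens A Ht) :=
  ctl_span_mul_mem (fun _ hx _ hy => ctlTens_mul hx hy) hF hG

theorem ctl_tensSpan_one : (1 : M × M → AlgebraicClosure ℚ) ∈ Submodule.span A (ctlTens A Ht) := by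
  have := ctl_tens_mem (one_mem Ht) (one_mem Ht)
  have e : (fun PQ : M × M => (1 : M → AlgebraicClosure ℚ) PQ.1 *
      (1 : M → AlgebraicClosure ℚ) PQ.2) = 1 := by
    funext PQ; simp
  rwa [e] at this

/-- Lagrange interpolation: a nonzero multiple of every delta function lies in `Ht` -/
theorem ctl_exists_delta [Fintype M] [DecidableEq M]
    (hint : ∀ h ∈ Ht, ∀ P : M, h P ∈ A)
    (hsep : ∀ P Q : M, (∀ h ∈ Ht, h P = h Q) → P = Q) :
    ∃ d : AlgebraicClosure ℚ, d ∈ A ∧ d ≠ 0 ∧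
      ∀ c : M, (fun P : M => if P = c then d else 0) ∈ Ht := by
  classical
  -- separating functions
  have hex : ∀ c c' : M, ∃ h : M → AlgebraicClosure ℚ, h ∈ Ht ∧ (c ≠ c' → h c ≠ h c') := by
    intro c c'
    by_cases hcc : c = c'
    · exact ⟨1, one_mem _, fun h => (h hcc).elim⟩
    · by_contra hne
      push Not at hne
      apply hcc
      apply hsep
      intro h hh
      by_contra hh'
      obtain ⟨-, h2⟩ := hne h hh
      exact hh' h2
  choose h hh hsep' using hex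
  -- `L c = ∏_{c' ≠ c} (h c c' - h c c' c')`
  set L : M → (M → AlgebraicClosure ℚ) := fun c =>
    ∏ c' ∈ Finset.univ.erase c,
      (h c c' - algebraMap A (M → AlgebraicClosure ℚ) ⟨h c c' c', hint _ (hh c c') c'⟩) with hL
  have hLmem : ∀ c, L c ∈ Ht := fun c =>
    Subalgebra.prod_mem _ fun c' _ => sub_mem (hh c c') (Subalgebra.algebraMap_mem _ _)
  have hLapply : ∀ c P, L c P = ∏ c' ∈ Finset.univ.erase c, (h c c' P - h c c' c') := by
    intro c P
    rw [hL]
    simp only [Finset.prod_apply, Pi.sub_apply]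
    rfl
  have hLne : ∀ c P, P ≠ c → L c P = 0 := by
    intro c P hP
    rw [hLapply]
    exact Finset.prod_eq_zero (Finset.mem_erase.2 ⟨hP, Finset.mem_univ _⟩) (sub_self _)
  have hLc : ∀ c, L c c ≠ 0 := by
    intro c
    rw [hLapply]
    refine Finset.prod_ne_zero_iff.2 fun c' hc' => ?_
    exact sub_ne_zero.2 (hsep' c c' (Finset.ne_of_mem_erase hc').symm)
  have hLA : ∀ c, L c c ∈ A := fun c => hint _ (hLmem c) c
  refine ⟨∏ c, L c c, Subring.prod_mem _ fun c _ => hLA c,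
    Finset.prod_ne_zero_iff.2 fun c _ => hLc c, fun c => ?_⟩
  have e : (fun P : M => if P = c then ∏ c, L c c else 0) =
      (⟨∏ c' ∈ Finset.univ.erase c, L c' c', Subring.prod_mem _ fun c _ => hLA c⟩ : A) • L c := by
    funext P
    rw [Pi.smul_apply]
    by_cases hP : P = c
    · subst hP
      rw [if_pos rfl, ← Finset.mul_prod_erase Finset.univ _ (Finset.mem_univ P), mul_comm]
      rfl
    · rw [if_neg hP, hLne c P hP, smul_zero]
  rw [e]
  exact Subalgebra.smul_mem _ (hLmem c) _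


/-- `d² · Map(M × M, A) ⊂ Ht ⊗ Ht` -/
theorem ctl_delta_sq_mem [Fintype M] [DecidableEq M] {d : AlgebraicClosure ℚ}
    (hd : ∀ c : M, (fun P : M => if P = c then d else 0) ∈ Ht)
    (E : M × M → AlgebraicClosure ℚ) (hE : ∀ PQ, E PQ ∈ A) :
    (fun PQ : M × M => d ^ 2 * E PQ) ∈ Submodule.span A (ctlTens A Ht) := by
  classical
  have e : (fun PQ : M × M => d ^ 2 * E PQ) =
      ∑ c : M, ∑ c' : M, (⟨E (c, c'), hE _⟩ : A) •
        (fun PQ : M × M => (fun P : M => if P = c then d else 0) PQ.1 *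
          (fun P : M => if P = c' then d else 0) PQ.2) := by
    funext PQ
    obtain ⟨P, Q⟩ := PQ
    simp only [Finset.sum_apply, Pi.smul_apply]
    rw [Finset.sum_eq_single P, Finset.sum_eq_single Q]
    · simp only [if_true]
      show d ^ 2 * E (P, Q) = E (P, Q) * (d * d)
      ring
    · intro c' _ hc'
      simp [Ne.symm hc']
    · intro h; exact (h (Finset.mem_univ _)).elim
    · intro c _ hc
      apply Finset.sum_eq_zero
      intro c' _
      simp [Ne.symm hc]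
    · intro h; exact (h (Finset.mem_univ _)).elim
  rw [e]
  refine Submodule.sum_mem _ fun c _ => Submodule.sum_mem _ fun c' _ => ?_
  exact Submodule.smul_mem _ _ (ctl_tens_mem (hd c) (hd c'))

end Tensor

section Comul

variable {A : ValuationSubring (AlgebraicClosure ℚ)} {J : Type} [AddCommGroup J]
  [DistribMulAction (AlgebraicClosure ℚ ≃ₐ[ℚ] AlgebraicClosure ℚ) J]
  {J1 : AddSubgroup J} {g : ℕ} {z : J → Fin g → AlgebraicClosure ℚ} {n : ℕ}

/-- comultiplication of an indicator function, cut down to a coset in the first variable -/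
theorem ctl_comul_ind_cut (b₁ b : J) :
    (fun PQ : Submodule.torsionBy ℤ J (n : ℤ) × Submodule.torsionBy ℤ J (n : ℤ) =>
      ctlInd J1 n b₁ PQ.1 * ctlInd J1 n b (PQ.1 + PQ.2)) ∈
      Submodule.span A (ctlTens A (ctlHt A J1 z n)) := by
  have e : (fun PQ : Submodule.torsionBy ℤ J (n : ℤ) × Submodule.torsionBy ℤ J (n : ℤ) =>
      ctlInd J1 n b₁ PQ.1 * ctlInd J1 n b (PQ.1 + PQ.2)) =
      fun PQ => ctlInd J1 n b₁ PQ.1 * ctlInd J1 n (b - b₁) PQ.2 := by
    funext PQ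
    obtain ⟨P, Q⟩ := PQ
    show ctlInd J1 n b₁ P * ctlInd J1 n b (P + Q) = ctlInd J1 n b₁ P * ctlInd J1 n (b - b₁) Q
    by_cases hP : (P : J) - b₁ ∈ J1
    · have hiff : (((P + Q : Submodule.torsionBy ℤ J (n : ℤ)) : J) - b ∈ J1) ↔
          ((Q : J) - (b - b₁) ∈ J1) := by
        have e1 : ((P + Q : Submodule.torsionBy ℤ J (n : ℤ)) : J) - b =
            ((P : J) - b₁) + ((Q : J) - (b - b₁)) := by
          rw [Submodule.coe_add]; abel
        rw [e1]
        exact ⟨fun h => by simpa using J1.sub_mem h hP, fun h => J1.add_mem hP h⟩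
      by_cases hQ : (Q : J) - (b - b₁) ∈ J1
      · rw [ctlInd_of_mem (hiff.2 hQ), ctlInd_of_mem hQ]
      · rw [ctlInd_of_not_mem (fun h => hQ (hiff.1 h)), ctlInd_of_not_mem hQ]
    · rw [ctlInd_of_not_mem hP, zero_mul, zero_mul]
  rw [e]
  exact ctl_tens_mem (ctlInd_mem_ctlHt _) (ctlInd_mem_ctlHt _)

/-- partition of unity by the cosets of `J1`: it is enough to treat the comultiplication after
cutting down to a coset `b₁ + J1`, `b₁` inertia-fixed, in the first variable -/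
theorem ctl_comul_of_cut (hK : KernelChart A J J1 g z) (hn : 0 < n)
    [Finite (Submodule.torsionBy ℤ J (n : ℤ))]
    (f : Submodule.torsionBy ℤ J (n : ℤ) → AlgebraicClosure ℚ)
    (hf : ∀ b₁ : J, (∀ γ ∈ A.inertiaSubgroupIn ℚ, γ • b₁ = b₁) →
      (fun PQ : Submodule.torsionBy ℤ J (n : ℤ) × Submodule.torsionBy ℤ J (n : ℤ) =>
        ctlInd J1 n b₁ PQ.1 * f (PQ.1 + PQ.2)) ∈ Submodule.span A (ctlTens A (ctlHt A J1 z n))) :
    (fun PQ : Submodule.torsionBy ℤ J (n : ℤ) × Submodule.torsionBy ℤ J (n : ℤ) =>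
      f (PQ.1 + PQ.2)) ∈ Submodule.span A (ctlTens A (ctlHt A J1 z n)) := by
  classical
  -- the subgroup `M ∩ J1` of `M`
  set M1 : AddSubgroup (Submodule.torsionBy ℤ J (n : ℤ)) :=
    J1.comap (Submodule.torsionBy ℤ J (n : ℤ)).subtype.toAddMonoidHom with hM1
  haveI : Fintype (Submodule.torsionBy ℤ J (n : ℤ) ⧸ M1) := Fintype.ofFinite _
  have hlift : ∀ q : Submodule.torsionBy ℤ J (n : ℤ) ⧸ M1,
      ∃ b : J, (∀ γ ∈ A.inertiaSubgroupIn ℚ, γ • b = b) ∧ ((q.out : J) - b ∈ J1) :=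
    fun q => hK.lift _ (ctl_torsion hn q.out)
  choose β hβfix hβ using hlift
  have hind : ∀ (q : Submodule.torsionBy ℤ J (n : ℤ) ⧸ M1)
      (P : Submodule.torsionBy ℤ J (n : ℤ)),
      ctlInd J1 n (β q) P = if (QuotientAddGroup.mk P : _ ⧸ M1) = q then 1 else 0 := by
    intro q P
    have hiff : ((P : J) - β q ∈ J1) ↔ (QuotientAddGroup.mk P : _ ⧸ M1) = q := by
      have h1 : (QuotientAddGroup.mk P : _ ⧸ M1) = q ↔ (P : J) - (q.out : J) ∈ J1 := by
        conv_lhs => rw [← QuotientAddGroup.out_eq' q]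
        rw [eq_comm, QuotientAddGroup.eq]
        show (((-q.out + P : Submodule.torsionBy ℤ J (n : ℤ)) : J) ∈ J1) ↔ _
        rw [Submodule.coe_add, Submodule.coe_neg, neg_add_eq_sub]
      rw [h1]
      have e1 : (P : J) - β q = ((P : J) - (q.out : J)) + ((q.out : J) - β q) := by abel
      rw [e1]
      exact ⟨fun h => by simpa using J1.sub_mem h (hβ q), fun h => J1.add_mem h (hβ q)⟩
    by_cases hc : (P : J) - β q ∈ J1
    · rw [ctlInd_of_mem hc, if_pos (hiff.1 hc)]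
    · rw [ctlInd_of_not_mem hc, if_neg (fun h => hc (hiff.2 h))]
  have e : (fun PQ : Submodule.torsionBy ℤ J (n : ℤ) × Submodule.torsionBy ℤ J (n : ℤ) =>
      f (PQ.1 + PQ.2)) =
      ∑ q : Submodule.torsionBy ℤ J (n : ℤ) ⧸ M1,
        (fun PQ : Submodule.torsionBy ℤ J (n : ℤ) × Submodule.torsionBy ℤ J (n : ℤ) =>
          ctlInd J1 n (β q) PQ.1 * f (PQ.1 + PQ.2)) := by
    funext PQ
    rw [Finset.sum_apply]
    simp only [hind]
    rw [Finset.sum_eq_single (QuotientAddGroup.mk PQ.1 : _ ⧸ M1)]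
    · rw [if_pos rfl, one_mul]
    · intro q _ hq
      rw [if_neg (Ne.symm hq), zero_mul]
    · intro h; exact (h (Finset.mem_univ _)).elim
  rw [e]
  exact Submodule.sum_mem _ fun q _ => hf (β q) (hβfix q)


/-- comultiplication of a coordinate function, cut down to a coset in the first variable -/
theorem ctl_comul_psi_cut {p : ℕ} (hp : p.Prime) (hA : A.LiesOverPrime p)
    (hK : KernelChart A J J1 g z) (hn : 0 < n) [Finite (Submodule.torsionBy ℤ J (n : ℤ))]
    {σ : AlgebraicClosure ℚ ≃ₐ[ℚ] AlgebraicClosure ℚ} (hσ : σ ∈ A.decompositionSubgroup ℚ)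
    {b : J} (hb : ∀ γ ∈ A.inertiaSubgroupIn ℚ, γ • b = b) (i : Fin g)
    (b₁ : J) (hb₁ : ∀ γ ∈ A.inertiaSubgroupIn ℚ, γ • b₁ = b₁) :
    (fun PQ : Submodule.torsionBy ℤ J (n : ℤ) × Submodule.torsionBy ℤ J (n : ℤ) =>
      ctlInd J1 n b₁ PQ.1 * ctlPsi J1 z n σ b i (PQ.1 + PQ.2)) ∈
      Submodule.span A (ctlTens A (ctlHt A J1 z n)) := by
  classical
  haveI : Fintype (Submodule.torsionBy ℤ J (n : ℤ)) := Fintype.ofFinite _
  have hσ' : σ⁻¹ ∈ A.decompositionSubgroup ℚ := Subgroup.inv_mem _ hσ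
  set b₂ : J := b - b₁ with hb₂def
  have hb₂ : ∀ γ ∈ A.inertiaSubgroupIn ℚ, γ • b₂ = b₂ := fun γ hγ => by
    rw [hb₂def, smul_sub, hb γ hγ, hb₁ γ hγ]
  -- Lagrange
  obtain ⟨d, -, hd0, hδ⟩ := ctl_exists_delta (Ht := ctlHt A J1 z n) (ctl_integral hK)
    (ctl_separates hK hn)
  -- the finitely many coordinates that occur
  set v : J → Submodule.torsionBy ℤ J (n : ℤ) × Fin g → AlgebraicClosure ℚ := fun β Pj =>
    if (Pj.1 : J) - β ∈ J1 then z (σ⁻¹ • ((Pj.1 : J) - β)) Pj.2 else 0 with hv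
  have hvmem : ∀ β Pj, v β Pj ∈ A.nonunits := by
    intro β Pj
    rw [hv]
    dsimp only
    split_ifs with h
    · exact hK.mem_nonunits _ ((ctl_smul_mem_iff hK hσ').2 h) _
    · exact zero_mem _
  set S : Finset (AlgebraicClosure ℚ) :=
    Finset.univ.image (v b₁) ∪ Finset.univ.image (v b₂) with hS
  have hSmem : ∀ s ∈ S, s ∈ A.nonunits := by
    intro s hs
    rcases Finset.mem_union.1 hs with h | h
    · obtain ⟨Pj, -, rfl⟩ := Finset.mem_image.1 h; exact hvmem _ _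
    · obtain ⟨Pj, -, rfl⟩ := Finset.mem_image.1 h; exact hvmem _ _
  obtain ⟨ϖ, hϖ, hϖ0, hdiv⟩ := ctl_exists_common_dvd A hp hA S hSmem
  have hσϖ : σ ϖ ∈ A.nonunits := ctl_decomp_mem_nonunits A hσ hϖ
  obtain ⟨N, a₀, ha₀, hN⟩ := ctl_exists_pow_eq_mul A hp hA hσϖ (pow_ne_zero 2 hd0)
  obtain ⟨F, hFA, hF⟩ := hK.add_approx ϖ hϖ hϖ0 N
  -- main term
  set Main : Submodule.torsionBy ℤ J (n : ℤ) × Submodule.torsionBy ℤ J (n : ℤ) →
      AlgebraicClosure ℚ := fun PQ =>
    ∑ m ∈ (F i).support, σ ((F i).coeff m) *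
      ((ctlInd J1 n b₁ PQ.1 * ∏ j, (ctlPsi J1 z n σ b₁ j PQ.1) ^ (m (Sum.inl j))) *
        (ctlInd J1 n b₂ PQ.2 * ∏ j, (ctlPsi J1 z n σ b₂ j PQ.2) ^ (m (Sum.inr j)))) with hMain
  have hMainmem : Main ∈ Submodule.span A (ctlTens A (ctlHt A J1 z n)) := by
    have e : Main = ∑ m ∈ (F i).support,
        (⟨σ ((F i).coeff m), ctl_decomp_mem A hσ (hFA i m)⟩ : A) •
          (fun PQ : Submodule.torsionBy ℤ J (n : ℤ) × Submodule.torsionBy ℤ J (n : ℤ) =>
            (ctlInd J1 n b₁ * ∏ j, (ctlPsi J1 z n σ b₁ j) ^ (m (Sum.inl j))) PQ.1 *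
            (ctlInd J1 n b₂ * ∏ j, (ctlPsi J1 z n σ b₂ j) ^ (m (Sum.inr j))) PQ.2) := by
      funext PQ
      rw [hMain, Finset.sum_apply]
      refine Finset.sum_congr rfl fun m _ => ?_
      simp only [Pi.smul_apply, Pi.mul_apply, Finset.prod_apply, Pi.pow_apply]
      rfl
    rw [e]
    refine Submodule.sum_mem _ fun m _ => Submodule.smul_mem _ _ (ctl_tens_mem ?_ ?_)
    · exact mul_mem (ctlInd_mem_ctlHt _)
        (Subalgebra.prod_mem _ fun j _ => pow_mem (ctlPsi_mem_ctlHt hσ hb₁ j) _)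
    · exact mul_mem (ctlInd_mem_ctlHt _)
        (Subalgebra.prod_mem _ fun j _ => pow_mem (ctlPsi_mem_ctlHt hσ hb₂ j) _)
  -- error term
  set U : Submodule.torsionBy ℤ J (n : ℤ) × Submodule.torsionBy ℤ J (n : ℤ) →
      AlgebraicClosure ℚ := fun PQ =>
    ctlInd J1 n b₁ PQ.1 * ctlPsi J1 z n σ b i (PQ.1 + PQ.2) with hU
  have hE : ∀ PQ, ∃ a ∈ A, U PQ - Main PQ = d ^ 2 * a := by
    rintro ⟨P, Q⟩
    by_cases hP : (P : J) - b₁ ∈ J1
    swap
    · refine ⟨0, zero_mem A, ?_⟩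
      rw [hU, hMain]
      simp only [ctlInd_of_not_mem hP, zero_mul, mul_zero, Finset.sum_const_zero, sub_zero]
    have hsum : ((P + Q : Submodule.torsionBy ℤ J (n : ℤ)) : J) - b =
        ((P : J) - b₁) + ((Q : J) - b₂) := by
      rw [Submodule.coe_add, hb₂def]; abel
    by_cases hQ : (Q : J) - b₂ ∈ J1
    swap
    · refine ⟨0, zero_mem A, ?_⟩
      have hPQ : ((P + Q : Submodule.torsionBy ℤ J (n : ℤ)) : J) - b ∉ J1 := by
        rw [hsum]
        intro h
        apply hQ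
        simpa using J1.sub_mem h hP
      rw [hU, hMain]
      simp only [ctlInd_of_not_mem hQ, ctlPsi_of_not_mem hPQ, zero_mul, mul_zero,
        Finset.sum_const_zero, sub_zero]
    -- both in the cosets
    have hPQ : ((P + Q : Submodule.torsionBy ℤ J (n : ℤ)) : J) - b ∈ J1 := by
      rw [hsum]; exact J1.add_mem hP hQ
    set x : J := σ⁻¹ • ((P : J) - b₁) with hx
    set y : J := σ⁻¹ • ((Q : J) - b₂) with hy
    have hxJ : x ∈ J1 := (ctl_smul_mem_iff hK hσ').2 hP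
    have hyJ : y ∈ J1 := (ctl_smul_mem_iff hK hσ').2 hQ
    have hxy : σ⁻¹ • (((P + Q : Submodule.torsionBy ℤ J (n : ℤ)) : J) - b) = x + y := by
      rw [hsum, smul_add]
    have hxdiv : ∀ j, ∃ a ∈ A, z x j = ϖ * a := by
      intro j
      have hmem : v b₁ (P, j) ∈ S :=
        Finset.mem_union_left _ (Finset.mem_image_of_mem _ (Finset.mem_univ _))
      have hval : v b₁ (P, j) = z x j := by
        rw [hv]; dsimp only; rw [if_pos hP]
      rw [← hval]
      exact hdiv _ hmem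
    have hydiv : ∀ j, ∃ a ∈ A, z y j = ϖ * a := by
      intro j
      have hmem : v b₂ (Q, j) ∈ S :=
        Finset.mem_union_right _ (Finset.mem_image_of_mem _ (Finset.mem_univ _))
      have hval : v b₂ (Q, j) = z y j := by
        rw [hv]; dsimp only; rw [if_pos hQ]
      rw [← hval]
      exact hdiv _ hmem
    obtain ⟨a, ha, hFa⟩ := hF x hxJ y hyJ hxdiv hydiv i
    refine ⟨a₀ * σ a, mul_mem ha₀ (ctl_decomp_mem A hσ ha), ?_⟩
    have hUval : U (P, Q) = σ (z (x + y) i) := by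
      rw [hU]
      simp only
      rw [ctlInd_of_mem hP, ctlPsi_of_mem hPQ, one_mul, hxy]
    have hMainval : Main (P, Q) = σ (MvPolynomial.eval (Sum.elim (z x) (z y)) (F i)) := by
      rw [hMain, MvPolynomial.eval_eq', map_sum]
      simp only
      refine Finset.sum_congr rfl fun m _ => ?_
      rw [map_mul, map_prod, Fintype.prod_sum_type, ctlInd_of_mem hP, ctlInd_of_mem hQ,
        one_mul, one_mul]
      congr 1
      congr 1
      · refine Finset.prod_congr rfl fun j _ => ?_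
        rw [map_pow, ctlPsi_of_mem hP]; rfl
      · refine Finset.prod_congr rfl fun j _ => ?_
        rw [map_pow, ctlPsi_of_mem hQ]; rfl
    rw [hUval, hMainval, ← map_sub, hFa, map_mul, map_pow, hN]
    ring
  choose E hEA hEeq using hE
  have hUeq : U = Main + fun PQ => d ^ 2 * E PQ := by
    funext PQ
    rw [Pi.add_apply, ← hEeq PQ]; ring
  show U ∈ _
  rw [hUeq]
  exact add_mem hMainmem (ctl_delta_sq_mem hδ E hEA)


/-- (P5) `Ht` is closed under the comultiplication -/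
theorem ctl_comul_mem {p : ℕ} (hp : p.Prime) (hA : A.LiesOverPrime p)
    (hK : KernelChart A J J1 g z) (hn : 0 < n) [Finite (Submodule.torsionBy ℤ J (n : ℤ))] :
    ∀ h ∈ ctlHt A J1 z n,
      (fun PQ : Submodule.torsionBy ℤ J (n : ℤ) × Submodule.torsionBy ℤ J (n : ℤ) =>
        h (PQ.1 + PQ.2)) ∈ Submodule.span A (ctlTens A (ctlHt A J1 z n)) := by
  intro h hh
  induction hh using Algebra.adjoin_induction with
  | mem f hf =>
    rcases hf with ⟨b, rfl⟩ | ⟨σ, hσ, b, hb, i, rfl⟩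
    · exact ctl_comul_of_cut hK hn _ fun b₁ _ => ctl_comul_ind_cut b₁ b
    · exact ctl_comul_of_cut hK hn _ fun b₁ hb₁ => ctl_comul_psi_cut hp hA hK hn hσ hb i b₁ hb₁
  | algebraMap r =>
    have e : (fun PQ : Submodule.torsionBy ℤ J (n : ℤ) × Submodule.torsionBy ℤ J (n : ℤ) =>
        (algebraMap A (Submodule.torsionBy ℤ J (n : ℤ) → AlgebraicClosure ℚ) r) (PQ.1 + PQ.2)) =
        r • (1 : Submodule.torsionBy ℤ J (n : ℤ) × Submodule.torsionBy ℤ J (n : ℤ) →
          AlgebraicClosure ℚ) := by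
      funext PQ
      rw [Pi.smul_apply, Pi.one_apply, Algebra.smul_def, mul_one]
      rfl
    rw [e]
    exact Submodule.smul_mem _ _ ctl_tensSpan_one
  | add x y _ _ hx hy =>
    have e : (fun PQ : Submodule.torsionBy ℤ J (n : ℤ) × Submodule.torsionBy ℤ J (n : ℤ) =>
        (x + y) (PQ.1 + PQ.2)) = (fun PQ => x (PQ.1 + PQ.2)) + fun PQ => y (PQ.1 + PQ.2) := by
      funext PQ; rfl
    rw [e]; exact add_mem hx hy
  | mul x y _ _ hx hy =>
    have e : (fun PQ : Submodule.torsionBy ℤ J (n : ℤ) × Submodule.torsionBy ℤ J (n : ℤ) =>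
        (x * y) (PQ.1 + PQ.2)) = (fun PQ => x (PQ.1 + PQ.2)) * fun PQ => y (PQ.1 + PQ.2) := by
      funext PQ; rfl
    rw [e]; exact ctl_tensSpan_mul hx hy

end Comul

/-- **ALG-B**: a kernel chart on `J` gives a local Hopf lattice on the finite group `J[n]`. -/
theorem chartToLocalStatement : ChartToLocalStatement := by
  intro p hp A hA J instJ instAct J1 g z hK n hn hfin _
  exact ⟨ctlHt A J1 z n,
    { integral := ctl_integral hK
      separates := ctl_separates hK hn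
      decomp_stable := ctl_decomp_stable hK
      inertia_span := ctl_inertia_span hK hn
      comul_mem := ctl_comul_mem hp hA hK hn }⟩

end Fermat.Agent.W1


end ZBW1_001_3

/-! ### bundled: `Fermat.Agent.R38.EPM.CTL` -/
section ZBW1_001_4

/-!
# ROW 38, EPEU-MULT, piece EPM-CTL (helper72): `stmtEpmCTL : StmtEpmCTL`

A kernel chart whose lifting property is only known for the points killed by `n`
(`R38.EpmChartAt A J J1 g z n`) gives a local Hopf lattice on `J[n]`.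

This is `W1.chartToLocalStatement` (W1/ChartToLocal.lean) with the weaker chart: the lattice is the
same algebra `W1.ctlHt A J1 z n` (generated by the indicator functions of the cosets of `J1` and by
the coordinate functions `c ↦ σ (z (σ⁻¹ (c - b)))`), and the proofs are those of `ChartToLocal.lean`;
the field `lift` is only ever applied to points of `J[n]`.  The `hK`-free lemmas of
`ChartToLocal.lean` (sections Basic, RankOne, SpanMul, Tensor, the definitions `ctlInd`, `ctlPsi`,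
`ctlGen`, `ctlHt`, and `ctl_comul_ind_cut`) are used as they are.
-/

set_option autoImplicit false
set_option linter.style.haveILetI false
set_option linter.unusedSectionVars false
set_option linter.unusedVariables false

namespace Fermat.Agent.R38

open Polynomial Fermat.Agent.W1
open scoped Pointwise

section Chart

variable (A : ValuationSubring (AlgebraicClosure ℚ)) {J : Type} [AddCommGroup J]
  [DistribMulAction (AlgebraicClosure ℚ ≃ₐ[ℚ] AlgebraicClosure ℚ) J]
  (J1 : AddSubgroup J) {g : ℕ} (z : J → Fin g → AlgebraicClosure ℚ) (n : ℕ)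

variable {A J1 z n}
theorem epmctl_smul_mem_iff (hK : EpmChartAt A J J1 g z n)
    {σ : AlgebraicClosure ℚ ≃ₐ[ℚ] AlgebraicClosure ℚ} (hσ : σ ∈ A.decompositionSubgroup ℚ)
    {x : J} : σ • x ∈ J1 ↔ x ∈ J1 := by
  refine ⟨fun h => ?_, hK.decomp_stable σ hσ x⟩
  have := hK.decomp_stable σ⁻¹ (Subgroup.inv_mem _ hσ) _ h
  rwa [inv_smul_smul] at this

/-- values of `ctlPsi` lie in the maximal ideal -/
theorem epmctl_psi_apply_mem (hK : EpmChartAt A J J1 g z n)
    {σ : AlgebraicClosure ℚ ≃ₐ[ℚ] AlgebraicClosure ℚ} (hσ : σ ∈ A.decompositionSubgroup ℚ)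
    (b : J) (i : Fin g) (c : Submodule.torsionBy ℤ J (n : ℤ)) :
    ctlPsi J1 z n σ b i c ∈ A.nonunits := by
  by_cases h : (c : J) - b ∈ J1
  · rw [ctlPsi_of_mem h]
    apply ctl_decomp_mem_nonunits A hσ
    apply hK.mem_nonunits
    exact (epmctl_smul_mem_iff hK (Subgroup.inv_mem _ hσ)).2 h
  · rw [ctlPsi_of_not_mem h]; exact zero_mem _

/-- (P1) the functions of `Ht` have values in `A` -/
theorem epmctl_integral (hK : EpmChartAt A J J1 g z n) :
    ∀ h ∈ ctlHt A J1 z n, ∀ P : Submodule.torsionBy ℤ J (n : ℤ), h P ∈ A := by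
  intro h hh
  induction hh using Algebra.adjoin_induction with
  | mem f hf =>
    intro P
    rcases hf with ⟨b, rfl⟩ | ⟨σ, hσ, b, -, i, rfl⟩
    · by_cases hc : (P : J) - b ∈ J1
      · rw [ctlInd_of_mem hc]; exact one_mem A
      · rw [ctlInd_of_not_mem hc]; exact zero_mem A
    · exact A.nonunits_subset (epmctl_psi_apply_mem hK hσ b i P)
  | algebraMap r => intro P; exact r.2
  | add x y _ _ hx hy => intro P; exact add_mem (hx P) (hy P)
  | mul x y _ _ hx hy => intro P; exact mul_mem (hx P) (hy P)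

/-- inertia acts trivially on `J[tors] / J1` -/
theorem epmctl_inertia_sub_mem (hK : EpmChartAt A J J1 g z n)
    {γ : AlgebraicClosure ℚ ≃ₐ[ℚ] AlgebraicClosure ℚ} (hγ : γ ∈ A.inertiaSubgroupIn ℚ)
    {x : J} (hx : n • x = 0) : γ • x - x ∈ J1 := by
  obtain ⟨b, hb, hxb⟩ := hK.lift x hx
  have h1 : γ • x - x = γ • (x - b) - (x - b) := by
    rw [smul_sub, hb γ hγ]; abel
  rw [h1]
  exact J1.sub_mem (hK.decomp_stable γ (ctl_inertia_le_decomp A hγ) _ hxb) hxb


theorem epmctl_torsion (c : Submodule.torsionBy ℤ J (n : ℤ)) : n • (c : J) = 0 := by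
  have := (Submodule.mem_torsionBy_iff _ _).1 c.2
  rwa [natCast_zsmul] at this

/-- (P2) `Ht` separates the points of `J[n]` -/
theorem epmctl_separates (hK : EpmChartAt A J J1 g z n) (hn : 0 < n)
    (P Q : Submodule.torsionBy ℤ J (n : ℤ))
    (h : ∀ f ∈ ctlHt A J1 z n, f P = f Q) : P = Q := by
  -- same coset
  have h1 := h _ (ctlInd_mem_ctlHt (A := A) (z := z) (n := n) (J1 := J1) (P : J))
  have hPQ : (Q : J) - (P : J) ∈ J1 := by
    by_contra hne
    rw [ctlInd_of_mem (by rw [sub_self]; exact zero_mem J1), ctlInd_of_not_mem hne] at h1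
    exact one_ne_zero h1
  obtain ⟨b, hb, hPb⟩ := hK.lift (P : J) (epmctl_torsion P)
  have hQb : (Q : J) - b ∈ J1 := by
    have : (Q : J) - b = ((Q : J) - P) + ((P : J) - b) := by abel
    rw [this]; exact J1.add_mem hPQ hPb
  have hz : z ((P : J) - b) = z ((Q : J) - b) := by
    funext i
    have h2 := h _ (ctlPsi_mem_ctlHt (A := A) (z := z) (n := n) (J1 := J1)
      (Subgroup.one_mem _) hb i)
    rw [ctlPsi_of_mem hPb, ctlPsi_of_mem hQb] at h2
    simpa using h2
  have := hK.injOn _ hPb _ hQb hz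
  apply Subtype.ext
  exact sub_left_injective this

/-- (P3) `Ht` is stable under the decomposition group -/
theorem epmctl_decomp_stable (hK : EpmChartAt A J J1 g z n) :
    ∀ τ ∈ A.decompositionSubgroup ℚ, ∀ h ∈ ctlHt A J1 z n,
      (fun P : Submodule.torsionBy ℤ J (n : ℤ) => τ (h (torsAct J (n : ℤ) τ⁻¹ P))) ∈
        ctlHt A J1 z n := by
  intro τ hτ h hh
  have hτ' : τ⁻¹ ∈ A.decompositionSubgroup ℚ := Subgroup.inv_mem _ hτ
  induction hh using Algebra.adjoin_induction with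
  | mem f hf =>
    rcases hf with ⟨b, rfl⟩ | ⟨σ, hσ, b, hb, i, rfl⟩
    · have : (fun P : Submodule.torsionBy ℤ J (n : ℤ) =>
          τ (ctlInd J1 n b (torsAct J (n : ℤ) τ⁻¹ P))) = ctlInd J1 n (τ • b) := by
        funext P
        have hiff : (τ⁻¹ • (P : J) - b ∈ J1) ↔ ((P : J) - τ • b ∈ J1) := by
          rw [← epmctl_smul_mem_iff hK hτ' (x := (P : J) - τ • b), smul_sub, inv_smul_smul]
        by_cases hc : (P : J) - τ • b ∈ J1
        · rw [ctlInd_of_mem hc, ctlInd_of_mem (by rw [ctl_torsAct_coe]; exact hiff.2 hc), map_one]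
        · rw [ctlInd_of_not_mem hc,
            ctlInd_of_not_mem (by rw [ctl_torsAct_coe]; exact fun h' => hc (hiff.1 h')), map_zero]
      rw [this]
      exact ctlInd_mem_ctlHt _
    · have hτb : ∀ γ ∈ A.inertiaSubgroupIn ℚ, γ • (τ • b) = τ • b := by
        intro γ hγ
        have h1 := hb _ (ctl_inertia_conj' A hτ hγ)
        rw [mul_smul, mul_smul] at h1
        have h2 := congrArg (fun x => τ • x) h1
        simpa using h2
      have : (fun P : Submodule.torsionBy ℤ J (n : ℤ) =>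
          τ (ctlPsi J1 z n σ b i (torsAct J (n : ℤ) τ⁻¹ P))) = ctlPsi J1 z n (τ * σ) (τ • b) i := by
        funext P
        have hiff : (τ⁻¹ • (P : J) - b ∈ J1) ↔ ((P : J) - τ • b ∈ J1) := by
          rw [← epmctl_smul_mem_iff hK hτ' (x := (P : J) - τ • b), smul_sub, inv_smul_smul]
        by_cases hc : (P : J) - τ • b ∈ J1
        · rw [ctlPsi_of_mem hc, ctlPsi_of_mem (by rw [ctl_torsAct_coe]; exact hiff.2 hc)]
          have e1 : (τ * σ)⁻¹ • ((P : J) - τ • b) = σ⁻¹ • (τ⁻¹ • (P : J) - b) := by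
            rw [mul_inv_rev, mul_smul, smul_sub, inv_smul_smul]
          rw [e1, ctl_torsAct_coe]; rfl
        · rw [ctlPsi_of_not_mem hc,
            ctlPsi_of_not_mem (by rw [ctl_torsAct_coe]; exact fun h' => hc (hiff.1 h')), map_zero]
      rw [this]
      exact ctlPsi_mem_ctlHt (Subgroup.mul_mem _ hτ hσ) hτb i
  | algebraMap r =>
    have : (fun P : Submodule.torsionBy ℤ J (n : ℤ) =>
        τ ((algebraMap A (Submodule.torsionBy ℤ J (n : ℤ) → AlgebraicClosure ℚ) r)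
          (torsAct J (n : ℤ) τ⁻¹ P))) =
        algebraMap A (Submodule.torsionBy ℤ J (n : ℤ) → AlgebraicClosure ℚ)
          ⟨τ r, ctl_decomp_mem A hτ r.2⟩ := by
      funext P; rfl
    rw [this]
    exact Subalgebra.algebraMap_mem _ _
  | add x y _ _ hx hy =>
    have : (fun P : Submodule.torsionBy ℤ J (n : ℤ) => τ ((x + y) (torsAct J (n : ℤ) τ⁻¹ P))) =
        (fun P => τ (x (torsAct J (n : ℤ) τ⁻¹ P))) + fun P => τ (y (torsAct J (n : ℤ) τ⁻¹ P)) := by
      funext P; simp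
    rw [this]; exact add_mem hx hy
  | mul x y _ _ hx hy =>
    have : (fun P : Submodule.torsionBy ℤ J (n : ℤ) => τ ((x * y) (torsAct J (n : ℤ) τ⁻¹ P))) =
        (fun P => τ (x (torsAct J (n : ℤ) τ⁻¹ P))) * fun P => τ (y (torsAct J (n : ℤ) τ⁻¹ P)) := by
      funext P; simp
    rw [this]; exact mul_mem hx hy


/-- the generators are inertia-equivariant -/
theorem epmctl_gen_equivariant (hK : EpmChartAt A J J1 g z n) (hn : 0 < n)
    {f : Submodule.torsionBy ℤ J (n : ℤ) → AlgebraicClosure ℚ} (hf : f ∈ ctlGen A J1 z n)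
    {γ : AlgebraicClosure ℚ ≃ₐ[ℚ] AlgebraicClosure ℚ} (hγ : γ ∈ A.inertiaSubgroupIn ℚ)
    (P : Submodule.torsionBy ℤ J (n : ℤ)) : f (torsAct J (n : ℤ) γ P) = γ (f P) := by
  have hγD := ctl_inertia_le_decomp A hγ
  have hPP : γ • (P : J) - (P : J) ∈ J1 := epmctl_inertia_sub_mem hK hγ (epmctl_torsion P)
  rcases hf with ⟨b, rfl⟩ | ⟨σ, hσ, b, hb, i, rfl⟩
  · have hiff : (γ • (P : J) - b ∈ J1) ↔ ((P : J) - b ∈ J1) := by
      have e : γ • (P : J) - b = (γ • (P : J) - P) + ((P : J) - b) := by abel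
      rw [e]
      exact ⟨fun h => by simpa using J1.sub_mem h hPP, fun h => J1.add_mem hPP h⟩
    by_cases hc : (P : J) - b ∈ J1
    · rw [ctlInd_of_mem hc, ctlInd_of_mem (by rw [ctl_torsAct_coe]; exact hiff.2 hc), map_one]
    · rw [ctlInd_of_not_mem hc,
        ctlInd_of_not_mem (by rw [ctl_torsAct_coe]; exact fun h' => hc (hiff.1 h')), map_zero]
  · have e : γ • (P : J) - b = γ • ((P : J) - b) := by rw [smul_sub, hb γ hγ]
    have hiff : (γ • (P : J) - b ∈ J1) ↔ ((P : J) - b ∈ J1) := by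
      rw [e]; exact epmctl_smul_mem_iff hK hγD
    by_cases hc : (P : J) - b ∈ J1
    · rw [ctlPsi_of_mem hc, ctlPsi_of_mem (by rw [ctl_torsAct_coe]; exact hiff.2 hc),
        ctl_torsAct_coe, e]
      have hx : σ⁻¹ • ((P : J) - b) ∈ J1 := (epmctl_smul_mem_iff hK (Subgroup.inv_mem _ hσ)).2 hc
      have hγ' := ctl_inertia_conj' A hσ hγ
      have e2 : σ⁻¹ • γ • ((P : J) - b) = (σ⁻¹ * γ * σ) • (σ⁻¹ • ((P : J) - b)) := by
        rw [mul_smul, mul_smul, smul_inv_smul]
      rw [e2, hK.inertia_equivariant _ hγ' _ hx i]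
      show σ ((σ⁻¹ * γ * σ) (z (σ⁻¹ • ((P : J) - b)) i)) = γ (σ (z (σ⁻¹ • ((P : J) - b)) i))
      have e3 : σ * (σ⁻¹ * γ * σ) = γ * σ := by group
      have := congrArg (fun τ : AlgebraicClosure ℚ ≃ₐ[ℚ] AlgebraicClosure ℚ =>
        τ (z (σ⁻¹ • ((P : J) - b)) i)) e3
      exact this
    · rw [ctlPsi_of_not_mem hc,
        ctlPsi_of_not_mem (by rw [ctl_torsAct_coe]; exact fun h' => hc (hiff.1 h')), map_zero]

/-- (P4) `Ht` is spanned by inertia-equivariant functions -/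
theorem epmctl_inertia_span (hK : EpmChartAt A J J1 g z n) (hn : 0 < n) :
    ∀ h ∈ ctlHt A J1 z n, h ∈ Submodule.span A
      {f : Submodule.torsionBy ℤ J (n : ℤ) → AlgebraicClosure ℚ | f ∈ ctlHt A J1 z n ∧
        ∀ σ ∈ A.inertiaSubgroupIn ℚ, ∀ P : Submodule.torsionBy ℤ J (n : ℤ),
          f (torsAct J (n : ℤ) σ P) = σ (f P)} := by
  intro h hh
  induction hh using Algebra.adjoin_induction with
  | mem f hf =>
    exact Submodule.subset_span ⟨Algebra.subset_adjoin hf,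
      fun γ hγ P => epmctl_gen_equivariant hK hn hf hγ P⟩
  | algebraMap r =>
    have h1 : (1 : Submodule.torsionBy ℤ J (n : ℤ) → AlgebraicClosure ℚ) ∈ Submodule.span A
        {f : Submodule.torsionBy ℤ J (n : ℤ) → AlgebraicClosure ℚ | f ∈ ctlHt A J1 z n ∧
          ∀ σ ∈ A.inertiaSubgroupIn ℚ, ∀ P : Submodule.torsionBy ℤ J (n : ℤ),
            f (torsAct J (n : ℤ) σ P) = σ (f P)} :=
      Submodule.subset_span ⟨one_mem _, fun γ _ P => by simp⟩
    have := Submodule.smul_mem _ r h1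
    rwa [Algebra.smul_def, mul_one] at this
  | add x y _ _ hx hy => exact add_mem hx hy
  | mul x y _ _ hx hy =>
    refine ctl_span_mul_mem ?_ hx hy
    rintro a ⟨ha, ha'⟩ b ⟨hb, hb'⟩
    refine ⟨mul_mem ha hb, fun γ hγ P => ?_⟩
    rw [Pi.mul_apply, Pi.mul_apply, ha' γ hγ P, hb' γ hγ P, map_mul]

end Chart

section Comul

variable {A : ValuationSubring (AlgebraicClosure ℚ)} {J : Type} [AddCommGroup J]
  [DistribMulAction (AlgebraicClosure ℚ ≃ₐ[ℚ] AlgebraicClosure ℚ) J]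
  {J1 : AddSubgroup J} {g : ℕ} {z : J → Fin g → AlgebraicClosure ℚ} {n : ℕ}

/-- partition of unity by the cosets of `J1`: it is enough to treat the comultiplication after
cutting down to a coset `b₁ + J1`, `b₁` inertia-fixed, in the first variable -/
theorem epmctl_comul_of_cut (hK : EpmChartAt A J J1 g z n) (hn : 0 < n)
    [Finite (Submodule.torsionBy ℤ J (n : ℤ))]
    (f : Submodule.torsionBy ℤ J (n : ℤ) → AlgebraicClosure ℚ)
    (hf : ∀ b₁ : J, (∀ γ ∈ A.inertiaSubgroupIn ℚ, γ • b₁ = b₁) →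
      (fun PQ : Submodule.torsionBy ℤ J (n : ℤ) × Submodule.torsionBy ℤ J (n : ℤ) =>
        ctlInd J1 n b₁ PQ.1 * f (PQ.1 + PQ.2)) ∈ Submodule.span A (ctlTens A (ctlHt A J1 z n))) :
    (fun PQ : Submodule.torsionBy ℤ J (n : ℤ) × Submodule.torsionBy ℤ J (n : ℤ) =>
      f (PQ.1 + PQ.2)) ∈ Submodule.span A (ctlTens A (ctlHt A J1 z n)) := by
  classical
  -- the subgroup `M ∩ J1` of `M`
  set M1 : AddSubgroup (Submodule.torsionBy ℤ J (n : ℤ)) :=
    J1.comap (Submodule.torsionBy ℤ J (n : ℤ)).subtype.toAddMonoidHom with hM1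
  haveI : Fintype (Submodule.torsionBy ℤ J (n : ℤ) ⧸ M1) := Fintype.ofFinite _
  have hlift : ∀ q : Submodule.torsionBy ℤ J (n : ℤ) ⧸ M1,
      ∃ b : J, (∀ γ ∈ A.inertiaSubgroupIn ℚ, γ • b = b) ∧ ((q.out : J) - b ∈ J1) :=
    fun q => hK.lift _ (epmctl_torsion q.out)
  choose β hβfix hβ using hlift
  have hind : ∀ (q : Submodule.torsionBy ℤ J (n : ℤ) ⧸ M1)
      (P : Submodule.torsionBy ℤ J (n : ℤ)),
      ctlInd J1 n (β q) P = if (QuotientAddGroup.mk P : _ ⧸ M1) = q then 1 else 0 := by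
    intro q P
    have hiff : ((P : J) - β q ∈ J1) ↔ (QuotientAddGroup.mk P : _ ⧸ M1) = q := by
      have h1 : (QuotientAddGroup.mk P : _ ⧸ M1) = q ↔ (P : J) - (q.out : J) ∈ J1 := by
        conv_lhs => rw [← QuotientAddGroup.out_eq' q]
        rw [eq_comm, QuotientAddGroup.eq]
        show (((-q.out + P : Submodule.torsionBy ℤ J (n : ℤ)) : J) ∈ J1) ↔ _
        rw [Submodule.coe_add, Submodule.coe_neg, neg_add_eq_sub]
      rw [h1]
      have e1 : (P : J) - β q = ((P : J) - (q.out : J)) + ((q.out : J) - β q) := by abel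
      rw [e1]
      exact ⟨fun h => by simpa using J1.sub_mem h (hβ q), fun h => J1.add_mem h (hβ q)⟩
    by_cases hc : (P : J) - β q ∈ J1
    · rw [ctlInd_of_mem hc, if_pos (hiff.1 hc)]
    · rw [ctlInd_of_not_mem hc, if_neg (fun h => hc (hiff.2 h))]
  have e : (fun PQ : Submodule.torsionBy ℤ J (n : ℤ) × Submodule.torsionBy ℤ J (n : ℤ) =>
      f (PQ.1 + PQ.2)) =
      ∑ q : Submodule.torsionBy ℤ J (n : ℤ) ⧸ M1,
        (fun PQ : Submodule.torsionBy ℤ J (n : ℤ) × Submodule.torsionBy ℤ J (n : ℤ) =>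
          ctlInd J1 n (β q) PQ.1 * f (PQ.1 + PQ.2)) := by
    funext PQ
    rw [Finset.sum_apply]
    simp only [hind]
    rw [Finset.sum_eq_single (QuotientAddGroup.mk PQ.1 : _ ⧸ M1)]
    · rw [if_pos rfl, one_mul]
    · intro q _ hq
      rw [if_neg (Ne.symm hq), zero_mul]
    · intro h; exact (h (Finset.mem_univ _)).elim
  rw [e]
  exact Submodule.sum_mem _ fun q _ => hf (β q) (hβfix q)


/-- comultiplication of a coordinate function, cut down to a coset in the first variable -/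
theorem epmctl_comul_psi_cut {p : ℕ} (hp : p.Prime) (hA : A.LiesOverPrime p)
    (hK : EpmChartAt A J J1 g z n) (hn : 0 < n) [Finite (Submodule.torsionBy ℤ J (n : ℤ))]
    {σ : AlgebraicClosure ℚ ≃ₐ[ℚ] AlgebraicClosure ℚ} (hσ : σ ∈ A.decompositionSubgroup ℚ)
    {b : J} (hb : ∀ γ ∈ A.inertiaSubgroupIn ℚ, γ • b = b) (i : Fin g)
    (b₁ : J) (hb₁ : ∀ γ ∈ A.inertiaSubgroupIn ℚ, γ • b₁ = b₁) :
    (fun PQ : Submodule.torsionBy ℤ J (n : ℤ) × Submodule.torsionBy ℤ J (n : ℤ) =>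
      ctlInd J1 n b₁ PQ.1 * ctlPsi J1 z n σ b i (PQ.1 + PQ.2)) ∈
      Submodule.span A (ctlTens A (ctlHt A J1 z n)) := by
  classical
  haveI : Fintype (Submodule.torsionBy ℤ J (n : ℤ)) := Fintype.ofFinite _
  have hσ' : σ⁻¹ ∈ A.decompositionSubgroup ℚ := Subgroup.inv_mem _ hσ
  set b₂ : J := b - b₁ with hb₂def
  have hb₂ : ∀ γ ∈ A.inertiaSubgroupIn ℚ, γ • b₂ = b₂ := fun γ hγ => by
    rw [hb₂def, smul_sub, hb γ hγ, hb₁ γ hγ]
  -- Lagrange
  obtain ⟨d, -, hd0, hδ⟩ := ctl_exists_delta (Ht := ctlHt A J1 z n) (epmctl_integral hK)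
    (epmctl_separates hK hn)
  -- the finitely many coordinates that occur
  set v : J → Submodule.torsionBy ℤ J (n : ℤ) × Fin g → AlgebraicClosure ℚ := fun β Pj =>
    if (Pj.1 : J) - β ∈ J1 then z (σ⁻¹ • ((Pj.1 : J) - β)) Pj.2 else 0 with hv
  have hvmem : ∀ β Pj, v β Pj ∈ A.nonunits := by
    intro β Pj
    rw [hv]
    dsimp only
    split_ifs with h
    · exact hK.mem_nonunits _ ((epmctl_smul_mem_iff hK hσ').2 h) _
    · exact zero_mem _
  set S : Finset (AlgebraicClosure ℚ) :=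
    Finset.univ.image (v b₁) ∪ Finset.univ.image (v b₂) with hS
  have hSmem : ∀ s ∈ S, s ∈ A.nonunits := by
    intro s hs
    rcases Finset.mem_union.1 hs with h | h
    · obtain ⟨Pj, -, rfl⟩ := Finset.mem_image.1 h; exact hvmem _ _
    · obtain ⟨Pj, -, rfl⟩ := Finset.mem_image.1 h; exact hvmem _ _
  obtain ⟨ϖ, hϖ, hϖ0, hdiv⟩ := ctl_exists_common_dvd A hp hA S hSmem
  have hσϖ : σ ϖ ∈ A.nonunits := ctl_decomp_mem_nonunits A hσ hϖ
  obtain ⟨N, a₀, ha₀, hN⟩ := ctl_exists_pow_eq_mul A hp hA hσϖ (pow_ne_zero 2 hd0)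
  obtain ⟨F, hFA, hF⟩ := hK.add_approx ϖ hϖ hϖ0 N
  -- main term
  set Main : Submodule.torsionBy ℤ J (n : ℤ) × Submodule.torsionBy ℤ J (n : ℤ) →
      AlgebraicClosure ℚ := fun PQ =>
    ∑ m ∈ (F i).support, σ ((F i).coeff m) *
      ((ctlInd J1 n b₁ PQ.1 * ∏ j, (ctlPsi J1 z n σ b₁ j PQ.1) ^ (m (Sum.inl j))) *
        (ctlInd J1 n b₂ PQ.2 * ∏ j, (ctlPsi J1 z n σ b₂ j PQ.2) ^ (m (Sum.inr j)))) with hMain
  have hMainmem : Main ∈ Submodule.span A (ctlTens A (ctlHt A J1 z n)) := by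
    have e : Main = ∑ m ∈ (F i).support,
        (⟨σ ((F i).coeff m), ctl_decomp_mem A hσ (hFA i m)⟩ : A) •
          (fun PQ : Submodule.torsionBy ℤ J (n : ℤ) × Submodule.torsionBy ℤ J (n : ℤ) =>
            (ctlInd J1 n b₁ * ∏ j, (ctlPsi J1 z n σ b₁ j) ^ (m (Sum.inl j))) PQ.1 *
            (ctlInd J1 n b₂ * ∏ j, (ctlPsi J1 z n σ b₂ j) ^ (m (Sum.inr j))) PQ.2) := by
      funext PQ
      rw [hMain, Finset.sum_apply]
      refine Finset.sum_congr rfl fun m _ => ?_
      simp only [Pi.smul_apply, Pi.mul_apply, Finset.prod_apply, Pi.pow_apply]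
      rfl
    rw [e]
    refine Submodule.sum_mem _ fun m _ => Submodule.smul_mem _ _ (ctl_tens_mem ?_ ?_)
    · exact mul_mem (ctlInd_mem_ctlHt _)
        (Subalgebra.prod_mem _ fun j _ => pow_mem (ctlPsi_mem_ctlHt hσ hb₁ j) _)
    · exact mul_mem (ctlInd_mem_ctlHt _)
        (Subalgebra.prod_mem _ fun j _ => pow_mem (ctlPsi_mem_ctlHt hσ hb₂ j) _)
  -- error term
  set U : Submodule.torsionBy ℤ J (n : ℤ) × Submodule.torsionBy ℤ J (n : ℤ) →
      AlgebraicClosure ℚ := fun PQ =>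
    ctlInd J1 n b₁ PQ.1 * ctlPsi J1 z n σ b i (PQ.1 + PQ.2) with hU
  have hE : ∀ PQ, ∃ a ∈ A, U PQ - Main PQ = d ^ 2 * a := by
    rintro ⟨P, Q⟩
    by_cases hP : (P : J) - b₁ ∈ J1
    swap
    · refine ⟨0, zero_mem A, ?_⟩
      rw [hU, hMain]
      simp only [ctlInd_of_not_mem hP, zero_mul, mul_zero, Finset.sum_const_zero, sub_zero]
    have hsum : ((P + Q : Submodule.torsionBy ℤ J (n : ℤ)) : J) - b =
        ((P : J) - b₁) + ((Q : J) - b₂) := by
      rw [Submodule.coe_add, hb₂def]; abel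
    by_cases hQ : (Q : J) - b₂ ∈ J1
    swap
    · refine ⟨0, zero_mem A, ?_⟩
      have hPQ : ((P + Q : Submodule.torsionBy ℤ J (n : ℤ)) : J) - b ∉ J1 := by
        rw [hsum]
        intro h
        apply hQ
        simpa using J1.sub_mem h hP
      rw [hU, hMain]
      simp only [ctlInd_of_not_mem hQ, ctlPsi_of_not_mem hPQ, zero_mul, mul_zero,
        Finset.sum_const_zero, sub_zero]
    -- both in the cosets
    have hPQ : ((P + Q : Submodule.torsionBy ℤ J (n : ℤ)) : J) - b ∈ J1 := by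
      rw [hsum]; exact J1.add_mem hP hQ
    set x : J := σ⁻¹ • ((P : J) - b₁) with hx
    set y : J := σ⁻¹ • ((Q : J) - b₂) with hy
    have hxJ : x ∈ J1 := (epmctl_smul_mem_iff hK hσ').2 hP
    have hyJ : y ∈ J1 := (epmctl_smul_mem_iff hK hσ').2 hQ
    have hxy : σ⁻¹ • (((P + Q : Submodule.torsionBy ℤ J (n : ℤ)) : J) - b) = x + y := by
      rw [hsum, smul_add]
    have hxdiv : ∀ j, ∃ a ∈ A, z x j = ϖ * a := by
      intro j
      have hmem : v b₁ (P, j) ∈ S :=
        Finset.mem_union_left _ (Finset.mem_image_of_mem _ (Finset.mem_univ _))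
      have hval : v b₁ (P, j) = z x j := by
        rw [hv]; dsimp only; rw [if_pos hP]
      rw [← hval]
      exact hdiv _ hmem
    have hydiv : ∀ j, ∃ a ∈ A, z y j = ϖ * a := by
      intro j
      have hmem : v b₂ (Q, j) ∈ S :=
        Finset.mem_union_right _ (Finset.mem_image_of_mem _ (Finset.mem_univ _))
      have hval : v b₂ (Q, j) = z y j := by
        rw [hv]; dsimp only; rw [if_pos hQ]
      rw [← hval]
      exact hdiv _ hmem
    obtain ⟨a, ha, hFa⟩ := hF x hxJ y hyJ hxdiv hydiv i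
    refine ⟨a₀ * σ a, mul_mem ha₀ (ctl_decomp_mem A hσ ha), ?_⟩
    have hUval : U (P, Q) = σ (z (x + y) i) := by
      rw [hU]
      simp only
      rw [ctlInd_of_mem hP, ctlPsi_of_mem hPQ, one_mul, hxy]
    have hMainval : Main (P, Q) = σ (MvPolynomial.eval (Sum.elim (z x) (z y)) (F i)) := by
      rw [hMain, MvPolynomial.eval_eq', map_sum]
      simp only
      refine Finset.sum_congr rfl fun m _ => ?_
      rw [map_mul, map_prod, Fintype.prod_sum_type, ctlInd_of_mem hP, ctlInd_of_mem hQ,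
        one_mul, one_mul]
      congr 1
      congr 1
      · refine Finset.prod_congr rfl fun j _ => ?_
        rw [map_pow, ctlPsi_of_mem hP]; rfl
      · refine Finset.prod_congr rfl fun j _ => ?_
        rw [map_pow, ctlPsi_of_mem hQ]; rfl
    rw [hUval, hMainval, ← map_sub, hFa, map_mul, map_pow, hN]
    ring
  choose E hEA hEeq using hE
  have hUeq : U = Main + fun PQ => d ^ 2 * E PQ := by
    funext PQ
    rw [Pi.add_apply, ← hEeq PQ]; ring
  show U ∈ _
  rw [hUeq]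
  exact add_mem hMainmem (ctl_delta_sq_mem hδ E hEA)


/-- (P5) `Ht` is closed under the comultiplication -/
theorem epmctl_comul_mem {p : ℕ} (hp : p.Prime) (hA : A.LiesOverPrime p)
    (hK : EpmChartAt A J J1 g z n) (hn : 0 < n) [Finite (Submodule.torsionBy ℤ J (n : ℤ))] :
    ∀ h ∈ ctlHt A J1 z n,
      (fun PQ : Submodule.torsionBy ℤ J (n : ℤ) × Submodule.torsionBy ℤ J (n : ℤ) =>
        h (PQ.1 + PQ.2)) ∈ Submodule.span A (ctlTens A (ctlHt A J1 z n)) := by
  intro h hh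
  induction hh using Algebra.adjoin_induction with
  | mem f hf =>
    rcases hf with ⟨b, rfl⟩ | ⟨σ, hσ, b, hb, i, rfl⟩
    · exact epmctl_comul_of_cut hK hn _ fun b₁ _ => ctl_comul_ind_cut b₁ b
    · exact epmctl_comul_of_cut hK hn _ fun b₁ hb₁ => epmctl_comul_psi_cut hp hA hK hn hσ hb i b₁ hb₁
  | algebraMap r =>
    have e : (fun PQ : Submodule.torsionBy ℤ J (n : ℤ) × Submodule.torsionBy ℤ J (n : ℤ) =>
        (algebraMap A (Submodule.torsionBy ℤ J (n : ℤ) → AlgebraicClosure ℚ) r) (PQ.1 + PQ.2)) =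
        r • (1 : Submodule.torsionBy ℤ J (n : ℤ) × Submodule.torsionBy ℤ J (n : ℤ) →
          AlgebraicClosure ℚ) := by
      funext PQ
      rw [Pi.smul_apply, Pi.one_apply, Algebra.smul_def, mul_one]
      rfl
    rw [e]
    exact Submodule.smul_mem _ _ ctl_tensSpan_one
  | add x y _ _ hx hy =>
    have e : (fun PQ : Submodule.torsionBy ℤ J (n : ℤ) × Submodule.torsionBy ℤ J (n : ℤ) =>
        (x + y) (PQ.1 + PQ.2)) = (fun PQ => x (PQ.1 + PQ.2)) + fun PQ => y (PQ.1 + PQ.2) := by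
      funext PQ; rfl
    rw [e]; exact add_mem hx hy
  | mul x y _ _ hx hy =>
    have e : (fun PQ : Submodule.torsionBy ℤ J (n : ℤ) × Submodule.torsionBy ℤ J (n : ℤ) =>
        (x * y) (PQ.1 + PQ.2)) = (fun PQ => x (PQ.1 + PQ.2)) * fun PQ => y (PQ.1 + PQ.2) := by
      funext PQ; rfl
    rw [e]; exact ctl_tensSpan_mul hx hy

end Comul

/-- **EPM-CTL**: a kernel chart at `n` gives a local Hopf lattice on the finite group `J[n]`. -/
theorem stmtEpmCTL : StmtEpmCTL := by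
  intro p hp A hA J instJ instAct J1 g z n hK hn hfin _
  exact ⟨ctlHt A J1 z n,
    { integral := epmctl_integral hK
      separates := epmctl_separates hK hn
      decomp_stable := epmctl_decomp_stable hK
      inertia_span := epmctl_inertia_span hK hn
      comul_mem := epmctl_comul_mem hp hA hK hn }⟩

end Fermat.Agent.R38


end ZBW1_001_4

/-! ### bundled: `Fermat.Agent.W1.PlanDescent` -/
section ZBW1_001_5

/-!
# W1 ALG-A (Galois descent `Ht → H = Ht ∩ Map_G`): the three bricks, exact statements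

`K = ℚ̄`, `G = Gal(ℚ̄/ℚ)`, `A ⊂ ℚ̄` a valuation subring over `p`, `D ⊃ I` decomposition and
inertia group of `A`, `M` a finite `G`-set (continuous action `act`).
For `F : M → ℚ̄` and `σ ∈ G` the twist is `σ⋆F := P ↦ σ (F (σ⁻¹ P))`; `F` is `S`-equivariant
(`F (σ P) = σ (F P)` for `σ ∈ S`) iff `σ⋆F = F` for `σ ∈ S`.

`LocalToGlobalStatement` (PlanAlg) is assembled in `LocalToGlobal.lean` (helper44) from

* **P1** `DescLagrangeStatement`: a separating `A`-subalgebra `Ht` of integral functions contains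
  `p^N · Map(M, A)` for some `N`.
  *Proof.* `e_P := ∏_{Q ≠ P} (h_{PQ} - h_{PQ}(Q))` with `h_{PQ}(P) ≠ h_{PQ}(Q)` is `d_P · δ_P`,
  `d_P ≠ 0` in `A`; every nonzero element of `A` divides a power of `p`.
* **P2** `DescInertiaStatement` (`I → D`, unramified descent): an `I`-equivariant `f ∈ Ht` is an
  `A`-combination of `D`-equivariant elements of `Ht` (`Ht` stable under the twists by `D`).
  *Proof.* `F₀/ℚ` finite normal containing the values of `f` and trivialising `M`; `φ ∈ D` a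
  Frobenius (`Common.exists_isFrobeniusAt`), `m ≥ 1` with `φ^m|F₀ = 1`, so `x^{p^m} ≡ x mod 𝔪_A`
  on `A ∩ F₀`; `ζ` a primitive root of unity of order `p^m - 1`.  If `τ ∈ D` fixes `ζ` then `τ`
  is trivial on the residue field of `A ∩ F₀`, so `τ|F₀ = ι|F₀` with `ι ∈ I`
  (`S14.exists_inertia_agree`), hence `τ⋆f = f`.  So `f_ξ := τ⋆f` (`τ ζ = ξ`) is well defined on
  the finite orbit `T = D ζ`; `g_j := Σ_{ξ ∈ T} ξ^j • f_ξ ∈ Ht` is `D`-equivariant, and
  `f = Σ_j c_j g_j` with `c_j ∈ A` the coefficients of the Lagrange polynomial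
  `∏_{ξ ≠ ζ} (X - ξ)/(ζ - ξ)` (`ζ - ξ ∈ Aˣ`: else `N = 1 + η + … + η^{N-1} ∈ 𝔪_A`, `η = ξ/ζ`).
* **P3** `DescApproxStatement` (`D → G`, approximation): a `D`-equivariant integral `g` is
  congruent modulo `p^k · Map(M, A)` to a `G`-equivariant function.
  *Proof.* `F₀` as above, `Γ = Gal(F₀/ℚ)`.  Call `γ ∈ G` *bad* if `γ|F₀ ∉ D|F₀`
  (⇔ `γ⁻¹A ∩ F₀ ≠ A ∩ F₀`, `S14.exists_fixing_smul_eq`).  Valuation rings over `p` are
  incomparable, so for bad `γ` there is `t_γ ∈ F₀ ∩ Aˣ` with `γ t_γ ∈ 𝔪_A`.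
  `ψ(t) := s/(1 + s - s²)`, `s = t^{q-1}`, `q = p^m`: for every `γ`, `γ ψ(t) ∈ A`, `≡ 1` if
  `γ t ∈ Aˣ`, `≡ 0 mod 𝔪_A` otherwise.  `e := ∏_{bad classes} ψ(t_γ)`, `u₀ := 1 - (1 - e^a)^b`
  (`a`, then `b` large), `u := ∏` of the `D`-conjugates of `u₀`:  `u` is `D`-invariant,
  `u - 1 ∈ p^k A`, `γ(u · g(P)) ∈ p^k A` for bad `γ`.  `h :=` sum of the finitely many distinct
  twists `γ⋆(u g)`, `γ ∈ G`.
-/

set_option autoImplicit false

namespace Fermat.Agent.W1

/-- **P1** (Lagrange interpolation): `p^N · Map(M, A) ⊂ Ht`. -/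
def DescLagrangeStatement : Prop :=
  ∀ (p : ℕ) (_ : p.Prime) (A : ValuationSubring (AlgebraicClosure ℚ)) (_ : A.LiesOverPrime p)
    (M : Type) (_ : Finite M) (Ht : Subalgebra A (M → AlgebraicClosure ℚ)),
    (∀ h ∈ Ht, ∀ P : M, h P ∈ A) →
    (∀ P Q : M, (∀ h ∈ Ht, h P = h Q) → P = Q) →
    ∃ N : ℕ, ∀ F : M → AlgebraicClosure ℚ, (∀ P, F P ∈ A) →
      (fun P => (p : AlgebraicClosure ℚ) ^ N * F P) ∈ Ht

/-- **P2** (`I → D`): an inertia-equivariant element of a `D`-stable `A`-subalgebra `Ht` is an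
`A`-linear combination of `D`-equivariant elements of `Ht`. -/
def DescInertiaStatement : Prop :=
  ∀ (p : ℕ) (_ : p.Prime) (A : ValuationSubring (AlgebraicClosure ℚ)) (_ : A.LiesOverPrime p)
    (M : Type) (_ : AddCommGroup M) (_ : Finite M)
    (act : (AlgebraicClosure ℚ ≃ₐ[ℚ] AlgebraicClosure ℚ) → M → M) (_ : IsContAction act)
    (Ht : Subalgebra A (M → AlgebraicClosure ℚ)),
    (∀ σ ∈ A.decompositionSubgroup ℚ, ∀ h ∈ Ht, (fun P : M => σ (h (act σ⁻¹ P))) ∈ Ht) →
    ∀ f ∈ Ht, (∀ σ ∈ A.inertiaSubgroupIn ℚ, ∀ P : M, f (act σ P) = σ (f P)) →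
      f ∈ Submodule.span A {g : M → AlgebraicClosure ℚ | g ∈ Ht ∧
        ∀ σ ∈ A.decompositionSubgroup ℚ, ∀ P : M, g (act σ P) = σ (g P)}

/-- **P3** (`D → G`): a `D`-equivariant function with values in `A` is congruent modulo `p^k` to
a `G`-equivariant function. -/
def DescApproxStatement : Prop :=
  ∀ (p : ℕ) (_ : p.Prime) (A : ValuationSubring (AlgebraicClosure ℚ)) (_ : A.LiesOverPrime p)
    (M : Type) (_ : AddCommGroup M) (_ : Finite M)
    (act : (AlgebraicClosure ℚ ≃ₐ[ℚ] AlgebraicClosure ℚ) → M → M) (_ : IsContAction act)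
    (g : M → AlgebraicClosure ℚ), (∀ P, g P ∈ A) →
    (∀ σ ∈ A.decompositionSubgroup ℚ, ∀ P : M, g (act σ P) = σ (g P)) →
    ∀ k : ℕ, ∃ h : M → AlgebraicClosure ℚ,
      (∀ (σ : AlgebraicClosure ℚ ≃ₐ[ℚ] AlgebraicClosure ℚ) (P : M), h (act σ P) = σ (h P)) ∧
      ∀ P : M, ∃ a ∈ A, h P - g P = (p : AlgebraicClosure ℚ) ^ k * a

/-- The assembly (helper44, `LocalToGlobal.lean`). -/
def DescAssemblyStatement : Prop :=
  DescLagrangeStatement → DescInertiaStatement → DescApproxStatement → LocalToGlobalStatement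

end Fermat.Agent.W1


end ZBW1_001_5

/-! ### bundled: `Fermat.Agent.W1.DescentBasic` -/
section ZBW1_001_6

/-!
# W1 ALG-A: basic facts on a valuation subring `A ⊂ ℚ̄` over `p`

* `desc_mem_of_isIntegral` : algebraic integers lie in `A`;
* `desc_inv_mem_of_not_dvd` : integers prime to `p` are units of `A`;
* `desc_arch` : every nonzero `d ∈ ℚ̄` divides a power of `p` in `A` (`p^N = d·a`, `a ∈ A`);
* `desc_rat_mem_iff` : `A ∩ ℚ = ℤ_(p)`;
* `desc_pow_mul_mem_iff`-type helpers for congruences modulo `p^k`.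
-/

set_option autoImplicit false

namespace Fermat.Agent.W1

open Fermat.Agent.Common

local notation "Qb" => AlgebraicClosure ℚ

theorem desc_mem_of_isIntegral (A : ValuationSubring Qb) {x : Qb} (hx : IsIntegral ℤ x) :
    x ∈ A := by
  have h1 : IsIntegral A x := by
    obtain ⟨P, hP, hPx⟩ := hx
    refine ⟨P.map (algebraMap ℤ A), hP.map _, ?_⟩
    rw [Polynomial.eval₂_map]
    have : (algebraMap A Qb).comp (algebraMap ℤ A) = algebraMap ℤ Qb := by
      ext z; simp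
    rw [this]; exact hPx
  obtain ⟨y, hy⟩ := IsIntegrallyClosed.isIntegral_iff.mp h1
  rw [← hy]
  exact y.2

theorem desc_inv_mem_of_not_nonunits (A : ValuationSubring Qb) {c : Qb} (hc : c ∈ A)
    (hc' : c ∉ A.nonunits) : c⁻¹ ∈ A := by
  rw [ValuationSubring.mem_nonunits_iff, not_lt] at hc'
  have h1 := (ValuationSubring.valuation_le_one_iff A c).mpr hc
  have h2 : A.valuation c = 1 := le_antisymm h1 hc'
  rw [← ValuationSubring.valuation_le_one_iff, map_inv₀, h2, inv_one]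

theorem desc_inv_mem_of_not_dvd {p : ℕ} (hp : p.Prime) (A : ValuationSubring Qb)
    (hA : A.LiesOverPrime p) (z : ℤ) (hz : ¬ (p : ℤ) ∣ z) : ((z : Qb))⁻¹ ∈ A :=
  desc_inv_mem_of_not_nonunits A (intCast_mem_valuationSubring A z)
    (intCast_not_mem_nonunits hp A hA z hz)

theorem desc_natCast_mem (A : ValuationSubring Qb) (n : ℕ) : (n : Qb) ∈ A := by
  have := intCast_mem_valuationSubring A (n : ℤ)
  simpa using this

theorem desc_p_pow_mem {p : ℕ} (A : ValuationSubring Qb) (N : ℕ) : (p : Qb) ^ N ∈ A :=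
  pow_mem (desc_natCast_mem A p) N

/-- Every nonzero element of `ℚ̄` divides a power of `p` in `A`. -/
theorem desc_arch {p : ℕ} (hp : p.Prime) (A : ValuationSubring Qb) (hA : A.LiesOverPrime p)
    {d : Qb} (hd : d ≠ 0) : ∃ N : ℕ, ∃ a ∈ A, (p : Qb) ^ N = d * a := by
  have halg : IsAlgebraic ℤ d⁻¹ := by
    have : Algebra.IsAlgebraic ℚ Qb := AlgebraicClosure.isAlgebraic ℚ
    exact (IsFractionRing.isAlgebraic_iff ℤ ℚ Qb).mpr (Algebra.IsAlgebraic.isAlgebraic _)
  obtain ⟨n, hn0, hn⟩ := halg.exists_integral_multiple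
  have hmem : n • d⁻¹ ∈ A := desc_mem_of_isIntegral A hn
  have hfin : FiniteMultiplicity (p : ℤ) n := by
    rw [Int.finiteMultiplicity_iff]
    refine ⟨?_, hn0⟩
    simpa using hp.one_lt.ne'
  obtain ⟨c, hc, hpc⟩ := hfin.exists_eq_pow_mul_and_not_dvd
  refine ⟨multiplicity (p : ℤ) n, (n • d⁻¹) * ((c : Qb))⁻¹,
    A.mul_mem _ _ hmem (desc_inv_mem_of_not_dvd hp A hA c hpc), ?_⟩
  have hc0 : (c : Qb) ≠ 0 := by
    intro h
    have : c = 0 := by exact_mod_cast h
    exact hpc (this ▸ dvd_zero _)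
  have hn' : (n : Qb) = (p : Qb) ^ multiplicity (p : ℤ) n * (c : Qb) := by
    have := congrArg (fun t : ℤ => (t : Qb)) hc
    simpa using this
  rw [zsmul_eq_mul, hn']
  field_simp

/-- `A ∩ ℚ = ℤ_(p)`. -/
theorem desc_rat_mem_iff {p : ℕ} (hp : p.Prime) (A : ValuationSubring Qb)
    (hA : A.LiesOverPrime p) (q : ℚ) :
    algebraMap ℚ Qb q ∈ A ↔ q ∈ GaloisRep.ratLocalizedAt p := by
  have : Fact p.Prime := ⟨hp⟩
  rw [Fermat.Agent.S28.mem_ratLocalizedAt_iff]
  have hq : algebraMap ℚ Qb q = (q.num : Qb) * ((q.den : ℤ) : Qb)⁻¹ := by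
    have h1 : (q : Qb) = (q.num : Qb) / (q.den : Qb) := by
      exact_mod_cast congrArg (fun t : ℚ => (t : Qb)) (Rat.num_div_den q).symm
    rw [eq_ratCast, h1, div_eq_mul_inv]
    simp
  constructor
  · intro h hdvd
    -- then `p ∤ num`, so `num` is a unit, but `num = q * den ∈ 𝔪`
    have hnum : ¬ (p : ℤ) ∣ q.num := by
      intro hn
      have h1 : p ∣ q.num.natAbs := Int.natCast_dvd.mp hn
      have h2 := Nat.dvd_gcd h1 hdvd
      rw [q.reduced] at h2
      exact hp.one_lt.ne' (Nat.dvd_one.mp h2)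
    have hunit := intCast_not_mem_nonunits hp A hA q.num hnum
    apply hunit
    have hden0 : ((q.den : ℤ) : Qb) ≠ 0 := by
      have := q.den_ne_zero
      exact_mod_cast this
    have hnumeq : (q.num : Qb) = algebraMap ℚ Qb q * ((q.den : ℤ) : Qb) := by
      rw [hq]; field_simp
    rw [hnumeq, ValuationSubring.mem_nonunits_iff, map_mul]
    have h1 := (ValuationSubring.valuation_le_one_iff A _).mpr h
    obtain ⟨m, hm⟩ := hdvd
    have hden_mem : ((q.den : ℤ) : Qb) ∈ A.nonunits := by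
      have h3 : ((q.den : ℤ) : Qb) = (p : Qb) * (m : Qb) := by
        rw [hm]; push_cast; ring
      rw [h3, ValuationSubring.mem_nonunits_iff, map_mul]
      have h4 := (ValuationSubring.mem_nonunits_iff A).mp hA
      have h5 := (ValuationSubring.valuation_le_one_iff A _).mpr (desc_natCast_mem A m)
      exact mul_lt_one_of_nonneg_of_lt_one_left zero_le h4 h5
    exact mul_lt_one_of_nonneg_of_lt_one_right h1 zero_le
      ((ValuationSubring.mem_nonunits_iff A).mp hden_mem)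
  · intro h
    rw [hq]
    refine A.mul_mem _ _ (intCast_mem_valuationSubring A _)
      (desc_inv_mem_of_not_dvd hp A hA _ ?_)
    intro hd
    exact h (Int.natCast_dvd_natCast.mp hd)

end Fermat.Agent.W1


end ZBW1_001_6

/-! ### bundled: `Fermat.Agent.W1.DescentLagrange` -/
section ZBW1_001_7

/-!
# W1 ALG-A, brick P1: Lagrange interpolation

`descLagrange : DescLagrangeStatement`: a separating `A`-subalgebra `Ht ⊂ Map(M, ℚ̄)` of
`A`-valued functions contains `p^N · Map(M, A)` for some `N`.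
-/

set_option autoImplicit false

namespace Fermat.Agent.W1

local notation "Qb" => AlgebraicClosure ℚ

/-- constant functions with value in `A` lie in every `A`-subalgebra -/
theorem desc_const_mem {A : ValuationSubring Qb} {M : Type} (Ht : Subalgebra A (M → Qb))
    {a : Qb} (ha : a ∈ A) : (fun _ : M => a) ∈ Ht := by
  have := Ht.algebraMap_mem ⟨a, ha⟩
  exact this

/-- scalar multiples by elements of `A` -/
theorem desc_mul_mem {A : ValuationSubring Qb} {M : Type} (Ht : Subalgebra A (M → Qb))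
    {a : Qb} (ha : a ∈ A) {f : M → Qb} (hf : f ∈ Ht) : (fun P => a * f P) ∈ Ht := by
  have := Ht.smul_mem hf (⟨a, ha⟩ : A)
  exact this

theorem descLagrange : DescLagrangeStatement := by
  intro p hp A hA M _ Ht hint hsep
  classical
  haveI := Fintype.ofFinite M
  have hex : ∀ P Q : M, P ≠ Q → ∃ h ∈ Ht, h P ≠ h Q := by
    intro P Q hPQ
    by_contra hcon
    push Not at hcon
    exact hPQ (hsep P Q hcon)
  choose! sepf hsepf_mem hsepf_ne using hex
  -- the interpolation functions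
  set e : M → (M → Qb) := fun P =>
    ∏ Q ∈ Finset.univ.erase P, (sepf P Q - fun _ => sepf P Q Q) with he
  have he_mem : ∀ P, e P ∈ Ht := by
    intro P
    refine Subalgebra.prod_mem _ fun Q hQ => ?_
    have hQP : P ≠ Q := (Finset.ne_of_mem_erase hQ).symm
    exact Ht.sub_mem (hsepf_mem P Q hQP)
      (desc_const_mem Ht (hint _ (hsepf_mem P Q hQP) Q))
  have he_apply : ∀ P Q', e P Q' = ∏ Q ∈ Finset.univ.erase P, (sepf P Q Q' - sepf P Q Q) := by
    intro P Q'
    simp only [he, Finset.prod_apply, Pi.sub_apply]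
  have he_off : ∀ P Q', Q' ≠ P → e P Q' = 0 := by
    intro P Q' hne
    rw [he_apply]
    exact Finset.prod_eq_zero (Finset.mem_erase.mpr ⟨hne, Finset.mem_univ _⟩) (sub_self _)
  have he_diag : ∀ P, e P P ≠ 0 := by
    intro P
    rw [he_apply, Finset.prod_ne_zero_iff]
    intro Q hQ
    have hQP : P ≠ Q := (Finset.ne_of_mem_erase hQ).symm
    exact sub_ne_zero.mpr (hsepf_ne P Q hQP)
  have he_int : ∀ P, e P P ∈ A := fun P => hint _ (he_mem P) P
  set d : Qb := ∏ P : M, e P P with hd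
  have hd0 : d ≠ 0 := Finset.prod_ne_zero_iff.mpr fun P _ => he_diag P
  obtain ⟨N, a, ha, hNa⟩ := desc_arch hp A hA hd0
  refine ⟨N, fun F hF => ?_⟩
  -- the coefficients
  set c : M → Qb := fun P => a * F P * ∏ P' ∈ Finset.univ.erase P, e P' P' with hc
  have hc_mem : ∀ P, c P ∈ A := fun P =>
    A.mul_mem _ _ (A.mul_mem _ _ ha (hF P)) (Subring.prod_mem A.toSubring fun P' _ => he_int P')
  have hsum : (fun P => (p : Qb) ^ N * F P) = ∑ P : M, fun Q => c P * e P Q := by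
    funext Q
    rw [Finset.sum_apply, Finset.sum_eq_single Q]
    · rw [hNa, hd, ← Finset.mul_prod_erase Finset.univ (fun P => e P P) (Finset.mem_univ Q)]
      simp only [hc]
      ring
    · intro P _ hPQ
      rw [he_off P Q (Ne.symm hPQ), mul_zero]
    · intro h
      exact absurd (Finset.mem_univ Q) h
  rw [hsum]
  exact Subalgebra.sum_mem _ fun P _ => desc_mul_mem Ht (hc_mem P) (he_mem P)

end Fermat.Agent.W1


end ZBW1_001_7

/-! ### bundled: `Fermat.Agent.W1.HopfCore` -/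
section ZBW1_001_8

/-!
# W1-GL(a'): antipode and counit of a Hopf lattice are automatic

`IsHopfLattice.of_core`: for a finite group `M`, an `R`-subalgebra `H ⊂ Map(M, ℚ̄)` which is
finitely generated as a module, Galois equivariant (for a map `act` fixing `0`), separates points
and is closed under the comultiplication is a Hopf lattice: closure under the antipode
(`h (-P) = h ((n-1) • P)`, iterate the comultiplication) and integrality of `h 0`
(`h 0` is rational and integral over the integrally closed ring `R`) follow.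
-/

set_option autoImplicit false
set_option linter.unusedSectionVars false

namespace Fermat.Agent.W1

section Core

variable {R : Subring ℚ} {M : Type} [AddCommGroup M]
  {act : (AlgebraicClosure ℚ ≃ₐ[ℚ] AlgebraicClosure ℚ) → M → M}
  {H : Subalgebra R (M → AlgebraicClosure ℚ)}

/-- If `H` is stable under pull-back along `p`, it is stable under `h ↦ (P ↦ h (p P + P))`. -/
theorem core_shift_mem
    (hcomul : ∀ h ∈ H, (fun PQ : M × M => h (PQ.1 + PQ.2)) ∈
      Submodule.span R {F : M × M → AlgebraicClosure ℚ |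
        ∃ a ∈ H, ∃ b ∈ H, F = fun PQ => a PQ.1 * b PQ.2})
    (p : M → M) (hp : ∀ a ∈ H, (fun P => a (p P)) ∈ H) :
    ∀ h ∈ H, (fun P => h (p P + P)) ∈ H := by
  intro h hh
  -- the linear map `F ↦ (P ↦ F (p P, P))`
  let L : (M × M → AlgebraicClosure ℚ) →ₗ[R] (M → AlgebraicClosure ℚ) :=
    { toFun := fun F P => F (p P, P)
      map_add' := fun F G => rfl
      map_smul' := fun r F => rfl }
  have h1 : Submodule.span R {F : M × M → AlgebraicClosure ℚ |
      ∃ a ∈ H, ∃ b ∈ H, F = fun PQ => a PQ.1 * b PQ.2} ≤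
      (Subalgebra.toSubmodule H).comap L := by
    rw [Submodule.span_le]
    rintro F ⟨a, ha, b, hb, rfl⟩
    show (fun P => a (p P) * b P) ∈ H
    exact H.mul_mem (hp a ha) hb
  exact h1 (hcomul h hh)

/-- `H` is stable under pull-back along multiplication by `k + 1`. -/
theorem core_nsmul_mem
    (hcomul : ∀ h ∈ H, (fun PQ : M × M => h (PQ.1 + PQ.2)) ∈
      Submodule.span R {F : M × M → AlgebraicClosure ℚ |
        ∃ a ∈ H, ∃ b ∈ H, F = fun PQ => a PQ.1 * b PQ.2})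
    (k : ℕ) : ∀ h ∈ H, (fun P : M => h ((k + 1) • P)) ∈ H := by
  induction k with
  | zero => intro h hh; simpa using hh
  | succ k ih =>
    intro h hh
    have := core_shift_mem hcomul (fun P => (k + 1) • P) ih h hh
    convert this using 2 with P
    rw [add_smul (k + 1) 1 P, one_smul]

/-- Closure under the antipode is automatic for a finite group. -/
theorem core_antipode_mem [Finite M]
    (hcomul : ∀ h ∈ H, (fun PQ : M × M => h (PQ.1 + PQ.2)) ∈
      Submodule.span R {F : M × M → AlgebraicClosure ℚ |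
        ∃ a ∈ H, ∃ b ∈ H, F = fun PQ => a PQ.1 * b PQ.2}) :
    ∀ h ∈ H, (fun P : M => h (-P)) ∈ H := by
  intro h hh
  have hcard : 0 < Nat.card M := Nat.card_pos
  obtain ⟨k, hk⟩ : ∃ k, Nat.card M = k + 1 := ⟨Nat.card M - 1, by omega⟩
  rcases Nat.eq_zero_or_pos k with rfl | hkpos
  · -- `M` is trivial
    have hsub : Subsingleton M := (Nat.card_eq_one_iff_unique.1 (by simpa using hk)).1
    convert hh using 2 with P
    exact congrArg _ (Subsingleton.elim _ _)
  · obtain ⟨j, rfl⟩ : ∃ j, k = j + 1 := ⟨k - 1, by omega⟩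
    have := core_nsmul_mem hcomul j h hh
    convert this using 2 with P
    have h1 : (Nat.card M) • P = 0 := card_nsmul_eq_zero' (G := M) (x := P)
    rw [hk, add_smul, one_smul] at h1
    exact congrArg h (neg_eq_of_add_eq_zero_left h1)

variable [IsPrincipalIdealRing R] [IsFractionRing R ℚ]

/-- Integrality of the values at `0` is automatic. -/
theorem core_counit_mem (hfg : (Subalgebra.toSubmodule H).FG)
    (hequiv : ∀ h ∈ H, ∀ (σ : AlgebraicClosure ℚ ≃ₐ[ℚ] AlgebraicClosure ℚ) (P : M),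
      h (act σ P) = σ (h P))
    (hact0 : ∀ σ, act σ 0 = 0) :
    ∀ h ∈ H, ∃ r : R, h 0 = algebraMap R (AlgebraicClosure ℚ) r := by
  intro h hh
  have : Module.Finite R H := Module.Finite.iff_fg.2 hfg
  -- `h 0` is rational
  have hGal : IsGalois ℚ (AlgebraicClosure ℚ) := by
    have h1 : @IsGalois ℚ _ (AlgebraicClosure ℚ) _ (AlgebraicClosure.instAlgebra ℚ) :=
      inferInstance
    convert h1
    exact Subsingleton.elim _ _
  obtain ⟨q, hq⟩ : ∃ q : ℚ, algebraMap ℚ (AlgebraicClosure ℚ) q = h 0 :=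
    (InfiniteGalois.mem_range_algebraMap_iff_fixed (h 0)).2 fun σ => by
      rw [← hequiv h hh σ 0, hact0]
  -- `h 0` is integral over `R`
  have hint : IsIntegral R (⟨h, hh⟩ : H) := Algebra.IsIntegral.isIntegral _
  have hint0 : IsIntegral R (h 0) :=
    hint.map ((Pi.evalAlgHom R (fun _ : M => AlgebraicClosure ℚ) 0).comp H.val)
  rw [← hq] at hint0
  have hintq : IsIntegral R q :=
    (isIntegral_algHom_iff (IsScalarTower.toAlgHom R ℚ (AlgebraicClosure ℚ))
      (algebraMap ℚ (AlgebraicClosure ℚ)).injective).1 hint0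
  obtain ⟨r, hr⟩ := IsIntegrallyClosed.isIntegral_iff.1 hintq
  refine ⟨r, ?_⟩
  rw [← hq, ← hr, ← IsScalarTower.algebraMap_apply]

/-- **W1-GL(a')**: a finitely generated, equivariant, separating subalgebra closed under the
comultiplication is a Hopf lattice. -/
theorem IsHopfLattice.of_core [Finite M]
    (hfg : (Subalgebra.toSubmodule H).FG)
    (hequiv : ∀ h ∈ H, ∀ (σ : AlgebraicClosure ℚ ≃ₐ[ℚ] AlgebraicClosure ℚ) (P : M),
      h (act σ P) = σ (h P))
    (hsep : ∀ P Q : M, (∀ h ∈ H, h P = h Q) → P = Q)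
    (hcomul : ∀ h ∈ H, (fun PQ : M × M => h (PQ.1 + PQ.2)) ∈
      Submodule.span R {F : M × M → AlgebraicClosure ℚ |
        ∃ a ∈ H, ∃ b ∈ H, F = fun PQ => a PQ.1 * b PQ.2})
    (hact0 : ∀ σ, act σ 0 = 0) : IsHopfLattice R act H where
  fg := hfg
  equivariant := hequiv
  separates := hsep
  comul_mem := hcomul
  antipode_mem := core_antipode_mem hcomul
  counit_mem := core_counit_mem hfg hequiv hact0

end Core

end Fermat.Agent.W1


end ZBW1_001_8

/-! ### bundled: `Fermat.Agent.W1.DescInertia` -/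
section ZBW1_001_9
/-
W1 ALG-A, brick P2 (helper15): `descInertiaStatement : DescInertiaStatement`.

Unramified descent `I → D`: an inertia-equivariant element `f` of a `D`-stable `A`-subalgebra
`Ht ⊂ Map(M, ℚ̄)` is an `A`-linear combination of `D`-equivariant elements of `Ht`.

Proof.  `F₀/ℚ` finite normal such that the twist `σ⋆f` depends only on `σ|F₀`; `φ` a Frobenius at
`A`, `m ≥ 1` with `φ^m|F₀ = 1`, `n = p^m - 1`, `ζ` a primitive `n`-th root of unity.  Every
`x ∈ A ∩ F₀` is `≡ 0` or `≡ ζ^i` modulo `𝔪_A`; hence `τ ∈ D` with `τ ζ = ζ` is trivial on the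
residue field of `A ∩ F₀`, agrees on `F₀` with an element of `I`, and `τ⋆f = f`.  So
`f_ξ := τ⋆f` (`τ ζ = ξ`) is well defined on the orbit `T = D ζ`, the functions
`g_j := Σ_{ξ ∈ T} ξ^j f_ξ ∈ Ht` are `D`-equivariant and `f = Σ_j c_j g_j`, `c_j ∈ A` the coefficients
of the Lagrange polynomial `∏_{ξ ≠ ζ} (X - ξ)/(ζ - ξ)`.
-/

set_option autoImplicit false
set_option linter.style.haveILetI false

noncomputable section

namespace Fermat.Agent.W1.DI

open Polynomial

/-- `ℚ̄` -/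
abbrev Qb : Type := AlgebraicClosure ℚ

/-- `Gal(ℚ̄/ℚ)` -/
abbrev Gq : Type := AlgebraicClosure ℚ ≃ₐ[ℚ] AlgebraicClosure ℚ

section Twist

variable {M : Type} (act : Gq → M → M)

/-- the twist `σ⋆h = σ ∘ h ∘ σ⁻¹` -/
def tw (σ : Gq) (h : M → Qb) : M → Qb := fun P => σ (h (act σ⁻¹ P))

theorem tw_apply (σ : Gq) (h : M → Qb) (P : M) : tw act σ h P = σ (h (act σ⁻¹ P)) := rfl

variable {act}

theorem tw_sum {ι : Type*} (s : Finset ι) (σ : Gq) (c : ι → Qb) (F : ι → M → Qb) :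
    tw act σ (fun P => ∑ i ∈ s, c i * F i P) = fun P => ∑ i ∈ s, σ (c i) * tw act σ (F i) P := by
  funext P
  rw [tw_apply, map_sum]
  refine Finset.sum_congr rfl fun i _ => ?_
  rw [map_mul, tw_apply]

variable [AddCommGroup M]

theorem tw_one (hact : IsContAction act) (h : M → Qb) : tw act 1 h = h := by
  funext P
  rw [tw_apply, inv_one, hact.one]
  rfl

theorem tw_mul (hact : IsContAction act) (σ τ : Gq) (h : M → Qb) :
    tw act (σ * τ) h = tw act σ (tw act τ h) := by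
  funext P
  rw [tw_apply, tw_apply, tw_apply, mul_inv_rev, hact.mul]
  rfl

theorem tw_eq_self_iff (hact : IsContAction act) (σ : Gq) (g : M → Qb) :
    tw act σ g = g ↔ ∀ P, g (act σ P) = σ (g P) := by
  constructor
  · intro h P
    have h1 := congrFun h (act σ P)
    rw [tw_apply, ← hact.mul, inv_mul_cancel, hact.one] at h1
    exact h1.symm
  · intro h
    funext P
    rw [tw_apply, ← h, ← hact.mul, mul_inv_cancel, hact.one]

theorem tw_eq_of_eq (hact : IsContAction act) {σ τ : Gq} {f : M → Qb}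
    (h : tw act (τ⁻¹ * σ) f = f) : tw act σ f = tw act τ f := by
  have h1 : σ = τ * (τ⁻¹ * σ) := by group
  rw [h1, tw_mul hact, h]

/-- the finite normal field of definition of `f` and of the action on `M` -/
theorem exists_field [Finite M] (hact : IsContAction act) (f : M → Qb) :
    ∃ F₀ : IntermediateField ℚ Qb, FiniteDimensional ℚ F₀ ∧ Normal ℚ F₀ ∧
      ∀ σ : Gq, (∀ x ∈ F₀, σ x = x) → tw act σ f = f := by
  classical
  haveI := Fermat.Agent.Common.isAlgClosure_rat_qbar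
  haveI : Algebra.IsAlgebraic ℚ Qb := IsAlgClosure.isAlgebraic
  haveI : Normal ℚ Qb := IsAlgClosure.normal ℚ Qb
  choose E hEfin hE using hact.open_stab
  haveI : ∀ P, FiniteDimensional ℚ (E P) := hEfin
  haveI : Finite (Set.range f) := Set.finite_range f
  haveI : FiniteDimensional ℚ (IntermediateField.adjoin ℚ (Set.range f)) :=
    IntermediateField.finiteDimensional_adjoin
      (fun x _ => (Algebra.IsAlgebraic.isAlgebraic (R := ℚ) x).isIntegral)
  set E₁ : IntermediateField ℚ Qb := (⨆ P, E P) ⊔ IntermediateField.adjoin ℚ (Set.range f)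
    with hE₁
  haveI : FiniteDimensional ℚ E₁ := IntermediateField.finiteDimensional_sup _ _
  have hle : E₁ ≤ IntermediateField.normalClosure ℚ E₁ Qb := E₁.le_normalClosure
  refine ⟨IntermediateField.normalClosure ℚ E₁ Qb, inferInstance,
    normalClosure.normal (F := ℚ) (K := E₁) (L := Qb), ?_⟩
  intro σ hσ
  funext P
  rw [tw_apply]
  have hP : act σ⁻¹ P = P := by
    apply hE P σ⁻¹
    intro a ha
    have ha' : a ∈ IntermediateField.normalClosure ℚ E₁ Qb :=
      hle (le_sup_left (a := ⨆ P, E P) (le_iSup E P ha))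
    have h1 := hσ a ha'
    calc σ⁻¹ a = σ⁻¹ (σ a) := by rw [h1]
      _ = a := by simp
  rw [hP]
  apply hσ
  exact hle (le_sup_right (a := ⨆ P, E P) (IntermediateField.subset_adjoin ℚ _ ⟨P, rfl⟩))

end Twist

section Valuation

variable (A : ValuationSubring Qb)

/-- some positive power of an automorphism is trivial on a finite subextension -/
theorem exists_pow_fix (F₀ : IntermediateField ℚ Qb) [FiniteDimensional ℚ F₀] (φ : Gq) :
    ∃ m : ℕ, 0 < m ∧ ∀ x ∈ F₀, (φ ^ m) x = x := by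
  haveI : Finite (F₀ →ₐ[ℚ] Qb) := inferInstance
  let r : ℕ → (F₀ →ₐ[ℚ] Qb) := fun i => ((φ ^ i : Gq) : Qb →ₐ[ℚ] Qb).comp F₀.val
  obtain ⟨i, j, hij, h⟩ := Finite.exists_ne_map_eq_of_infinite r
  have key : ∀ i j : ℕ, i < j → r i = r j → ∃ m : ℕ, 0 < m ∧ ∀ x ∈ F₀, (φ ^ m) x = x := by
    intro i j hlt h
    refine ⟨j - i, Nat.sub_pos_of_lt hlt, fun x hx => ?_⟩
    have h1 : (φ ^ i) x = (φ ^ j) x := DFunLike.congr_fun h ⟨x, hx⟩
    have h2 : (φ ^ i) x = (φ ^ i) ((φ ^ (j - i)) x) := by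
      rw [← AlgEquiv.mul_apply, ← pow_add, Nat.add_sub_cancel' hlt.le]
      exact h1
    exact ((φ ^ i).injective h2).symm
  rcases lt_or_gt_of_ne hij with hlt | hlt
  · exact key i j hlt h
  · exact key j i hlt h.symm

/-- powers of a Frobenius element are Frobenius elements -/
theorem isFrobeniusAt_pow {p : ℕ} {φ : Gq} (hφ : A.IsFrobeniusAt φ p) :
    ∀ m : ℕ, A.IsFrobeniusAt (φ ^ m) (p ^ m) := by
  obtain ⟨hD, hres⟩ := hφ
  intro m
  induction m with
  | zero =>
    have hmem : φ ^ 0 ∈ A.decompositionSubgroup ℚ := Subgroup.pow_mem _ hD _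
    refine ⟨hmem, fun r => ?_⟩
    have h1 : (⟨φ ^ 0, hmem⟩ : A.decompositionSubgroup ℚ) = 1 := Subtype.ext (pow_zero φ)
    rw [h1, one_smul, pow_zero, pow_one]
  | succ m ih =>
    obtain ⟨hDm, hresm⟩ := ih
    have hmem : φ ^ (m + 1) ∈ A.decompositionSubgroup ℚ := Subgroup.pow_mem _ hD _
    refine ⟨hmem, fun r => ?_⟩
    have h1 : (⟨φ ^ (m + 1), hmem⟩ : A.decompositionSubgroup ℚ) =
        ⟨φ ^ m, hDm⟩ * ⟨φ, hD⟩ := by
      apply Subtype.ext
      exact pow_succ φ m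
    rw [h1, mul_smul, hres, hresm, ← pow_mul, pow_succ, mul_comm]

/-- a root of unity of order prime to `p`, different from `1`, is not `≡ 1` -/
theorem one_sub_val_eq_one {p : ℕ} (hp : p.Prime) (hA : A.LiesOverPrime p) {n : ℕ}
    (hn : ¬ p ∣ n) {η : Qb} (hη : η ^ n = 1) (hη1 : η ≠ 1) : A.valuation (η - 1) = 1 := by
  set v := A.valuation with hv
  have hn0 : n ≠ 0 := fun h => hn (h ▸ dvd_zero p)
  have hηv : v η = 1 := by
    have h1 : v η ^ n = 1 := by rw [← map_pow, hη, map_one]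
    exact (pow_eq_one_iff.1 h1).resolve_right hn0
  have hle : v (η - 1) ≤ 1 := by
    refine (Valuation.map_sub v _ _).trans ?_
    rw [hηv, map_one, max_self]
  refine le_antisymm hle ?_
  by_contra hlt
  rw [not_le] at hlt
  have hpow : ∀ i : ℕ, v (η ^ i - 1) < 1 := by
    intro i
    induction i with
    | zero =>
      rw [pow_zero, sub_self, map_zero]
      exact zero_lt_one
    | succ i ih =>
      have h1 : η ^ (i + 1) - 1 = η * (η ^ i - 1) + (η - 1) := by ring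
      rw [h1]
      refine Valuation.map_add_lt v ?_ hlt
      rw [map_mul, hηv, one_mul]
      exact ih
  have hsum : ∑ i ∈ Finset.range n, η ^ i = 0 := by
    have h1 := mul_geom_sum η n
    rw [hη, sub_self] at h1
    rcases mul_eq_zero.1 h1 with h | h
    · exact absurd (sub_eq_zero.1 h) hη1
    · exact h
  have hn' : (n : Qb) = -∑ i ∈ Finset.range n, (η ^ i - 1) := by
    rw [Finset.sum_sub_distrib, hsum, Finset.sum_const, Finset.card_range, nsmul_eq_mul, mul_one]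
    ring
  have h2 : v (n : Qb) < 1 := by
    rw [hn', Valuation.map_neg]
    exact Valuation.map_sum_lt' v zero_lt_one (fun i _ => hpow i)
  have h3 : v ((n : ℤ) : Qb) = 1 :=
    Fermat.Agent.ES.LR.arch_val_eq_one A hp hA (fun h => hn (Int.natCast_dvd_natCast.1 h))
  rw [Int.cast_natCast] at h3
  rw [h3] at h2
  exact lt_irrefl _ h2

/-- roots of unity lie in `A` -/
theorem rootOfUnity_val {n : ℕ} (hn : n ≠ 0) {ξ : Qb} (hξ : ξ ^ n = 1) : A.valuation ξ = 1 := by
  have h1 : A.valuation ξ ^ n = 1 := by rw [← map_pow, hξ, map_one]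
  exact (pow_eq_one_iff.1 h1).resolve_right hn

/-- the residue classes of the solutions of `x ^ q ≡ x`, `q = n + 1`, are `0` and the `n`-th
roots of unity -/
theorem exists_root_congr {n : ℕ} (hn : 0 < n) {ζ : Qb} (hζ : IsPrimitiveRoot ζ n) {x : Qb}
    (hx : x ∈ A) (hxq : x ^ (n + 1) - x ∈ A.nonunits) :
    x ∈ A.nonunits ∨ ∃ ξ : Qb, ξ ^ n = 1 ∧ x - ξ ∈ A.nonunits := by
  classical
  set v := A.valuation with hv
  by_cases hxu : x ∈ A.nonunits
  · exact Or.inl hxu
  right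
  have hxv : v x = 1 := by
    apply le_antisymm ((ValuationSubring.valuation_le_one_iff A _).2 hx)
    by_contra h
    exact hxu ((ValuationSubring.mem_nonunits_iff (A := A)).2 (not_le.1 h))
  have h1 : v (x ^ n - 1) < 1 := by
    have h2 : x ^ (n + 1) - x = x * (x ^ n - 1) := by ring
    have h3 := (ValuationSubring.mem_nonunits_iff (A := A)).1 hxq
    rwa [h2, map_mul, hxv, one_mul] at h3
  have h4 : x ^ n - 1 = ∏ ξ ∈ nthRootsFinset n (1 : Qb), (x - ξ) := by
    have h5 := congrArg (Polynomial.eval x) (X_pow_sub_one_eq_prod hn hζ)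
    rw [Polynomial.eval_prod] at h5
    simpa using h5
  by_contra hcon
  push Not at hcon
  have h6 : ∀ ξ ∈ nthRootsFinset n (1 : Qb), v (x - ξ) = 1 := by
    intro ξ hξ
    have hξ' : ξ ^ n = 1 := (mem_nthRootsFinset hn 1).1 hξ
    have hle : v (x - ξ) ≤ 1 := by
      refine (Valuation.map_sub v _ _).trans ?_
      rw [hxv, rootOfUnity_val A hn.ne' hξ', max_self]
    refine le_antisymm hle ?_
    by_contra h
    exact hcon ξ hξ' ((ValuationSubring.mem_nonunits_iff (A := A)).2 (not_le.1 h))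
  rw [h4, map_prod, Finset.prod_eq_one h6] at h1
  exact lt_irrefl _ h1

end Valuation

section Main

variable {M : Type} [AddCommGroup M] {act : Gq → M → M}

/-- an element of `D` fixing `ζ` fixes `f` under the twist -/
theorem tw_eq_self_of_fix (hact : IsContAction act) (A : ValuationSubring Qb)
    (F₀ : IntermediateField ℚ Qb) [Normal ℚ F₀] {f : M → Qb}
    (hF₀ : ∀ σ : Gq, (∀ x ∈ F₀, σ x = x) → tw act σ f = f)
    (hI : ∀ σ ∈ A.inertiaSubgroupIn ℚ, ∀ P : M, f (act σ P) = σ (f P))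
    {n : ℕ} (hn : 0 < n) {ζ : Qb} (hζ : IsPrimitiveRoot ζ n)
    (hq : ∀ x ∈ F₀, x ∈ A → x ^ (n + 1) - x ∈ A.nonunits)
    {τ : Gq} (hτ : τ ∈ A.decompositionSubgroup ℚ) (hτζ : τ ζ = ζ) : tw act τ f = f := by
  have hroot : ∀ ξ : Qb, ξ ^ n = 1 → τ ξ = ξ := by
    intro ξ hξ
    haveI : NeZero n := ⟨hn.ne'⟩
    obtain ⟨i, -, rfl⟩ := hζ.eq_pow_of_pow_eq_one hξ
    rw [map_pow, hτζ]
  have hres : ∀ x ∈ F₀, x ∈ A → τ x - x ∈ A.nonunits := by
    intro x hxF hxA
    rcases exists_root_congr A hn hζ hxA (hq x hxF hxA) with h | ⟨ξ, hξ, h⟩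
    · have h1 : τ x ∈ A.nonunits :=
        (Fermat.Agent.S05.apply_mem_nonunits_iff_of_mem_decomposition hτ x).2 h
      rw [ValuationSubring.mem_nonunits_iff] at h h1 ⊢
      exact Valuation.map_sub_lt _ h1 h
    · have h1 : τ (x - ξ) ∈ A.nonunits :=
        (Fermat.Agent.S05.apply_mem_nonunits_iff_of_mem_decomposition hτ _).2 h
      rw [map_sub, hroot ξ hξ] at h1
      have h2 : τ x - x = (τ x - ξ) - (x - ξ) := by ring
      rw [h2]
      rw [ValuationSubring.mem_nonunits_iff] at h h1 ⊢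
      exact Valuation.map_sub_lt _ h1 h
  obtain ⟨ι, hι, hιF⟩ := Fermat.Agent.S14.exists_inertia_agree F₀ A τ hτ
    (fun x hx => Fermat.Agent.Common.apply_mem_of_normal F₀ τ hx) hres
  have h1 : tw act τ f = tw act ι f := by
    apply tw_eq_of_eq hact
    apply hF₀
    intro x hx
    rw [AlgEquiv.mul_apply, ← hιF x hx]
    simp
  rw [h1]
  exact (tw_eq_self_iff hact ι f).2 (hI ι hι)

/-- **P2** (`I → D`, unramified descent) -/
theorem descInertiaStatement : DescInertiaStatement := by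
  intro p hp A hA M _ _ act hact Ht hD f hf hI
  classical
  obtain ⟨F₀, hfin, hnorm, hF₀⟩ := exists_field hact f
  haveI := hfin
  haveI := hnorm
  obtain ⟨φ, hφ⟩ := Fermat.Agent.Common.exists_isFrobeniusAt_of_liesOverPrime p hp A hA
  obtain ⟨m, hm, hφm⟩ := exists_pow_fix F₀ φ
  have hpm : 2 ≤ p ^ m := by
    calc 2 ≤ p := hp.two_le
      _ = p ^ 1 := (pow_one p).symm
      _ ≤ p ^ m := Nat.pow_le_pow_right hp.pos hm
  set n := p ^ m - 1 with hn_def
  have hn : 0 < n := by omega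
  have hn1 : n + 1 = p ^ m := by omega
  have hpn : ¬ p ∣ n := by
    intro h
    have h2 : p ∣ p ^ m := dvd_pow_self p hm.ne'
    have h3 : p ∣ p ^ m - n := Nat.dvd_sub h2 h
    have e : p ^ m - n = 1 := by omega
    rw [e] at h3
    exact hp.one_lt.ne' (Nat.dvd_one.1 h3)
  obtain ⟨ζ, hζ⟩ : ∃ ζ : Qb, IsPrimitiveRoot ζ n := by
    haveI : NeZero (n : Qb) := ⟨Nat.cast_ne_zero.2 hn.ne'⟩
    exact HasEnoughRootsOfUnity.exists_primitiveRoot Qb n
  have hq : ∀ x ∈ F₀, x ∈ A → x ^ (n + 1) - x ∈ A.nonunits := by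
    intro x hxF hxA
    have h1 := Fermat.Agent.Cheb.sub_pow_mem_nonunits_of_isFrobeniusAt A (φ ^ m) (p ^ m)
      (isFrobeniusAt_pow A hφ m) x hxA
    rw [hφm x hxF] at h1
    rw [hn1]
    rw [ValuationSubring.mem_nonunits_iff] at h1 ⊢
    rwa [← Valuation.map_neg, neg_sub]
  have hK : ∀ τ ∈ A.decompositionSubgroup ℚ, τ ζ = ζ → tw act τ f = f :=
    fun τ hτ hτζ => tw_eq_self_of_fix hact A F₀ hF₀ hI hn hζ hq hτ hτζ
  -- the orbit of `ζ`
  set T : Finset Qb := (nthRootsFinset n (1 : Qb)).filter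
    (fun ξ => ∃ τ ∈ A.decompositionSubgroup ℚ, τ ζ = ξ) with hT
  have hTmem : ∀ ξ, ξ ∈ T ↔ ∃ τ ∈ A.decompositionSubgroup ℚ, τ ζ = ξ := by
    intro ξ
    rw [hT, Finset.mem_filter, mem_nthRootsFinset hn]
    constructor
    · exact fun h => h.2
    · rintro ⟨τ, hτ, rfl⟩
      exact ⟨by rw [← map_pow, hζ.pow_eq_one, map_one], τ, hτ, rfl⟩
  have hTroot : ∀ ξ ∈ T, ξ ^ n = 1 := by
    intro ξ hξ
    rw [hT, Finset.mem_filter, mem_nthRootsFinset hn] at hξ
    exact hξ.1
  have hζT : ζ ∈ T := (hTmem ζ).2 ⟨1, Subgroup.one_mem _, rfl⟩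
  let rep : Qb → Gq := fun ξ =>
    if h : ∃ τ ∈ A.decompositionSubgroup ℚ, τ ζ = ξ then h.choose else 1
  have hrep : ∀ ξ ∈ T, rep ξ ∈ A.decompositionSubgroup ℚ ∧ rep ξ ζ = ξ := by
    intro ξ hξ
    have h := (hTmem ξ).1 hξ
    simp only [rep, dif_pos h]
    exact h.choose_spec
  let Fξ : Qb → M → Qb := fun ξ => tw act (rep ξ) f
  have hW : ∀ τ ∈ A.decompositionSubgroup ℚ, tw act τ f = Fξ (τ ζ) := by
    intro τ hτ
    have hmem : τ ζ ∈ T := (hTmem _).2 ⟨τ, hτ, rfl⟩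
    obtain ⟨h1, h2⟩ := hrep _ hmem
    apply tw_eq_of_eq hact
    apply hK
    · exact Subgroup.mul_mem _ (Subgroup.inv_mem _ h1) hτ
    · rw [AlgEquiv.mul_apply]
      show (rep (τ ζ)).symm (τ ζ) = ζ
      rw [AlgEquiv.symm_apply_eq]
      exact h2.symm
  have hFζ : Fξ ζ = f := by
    have h1 := hW 1 (Subgroup.one_mem _)
    rw [tw_one hact] at h1
    exact h1.symm
  have hFmem : ∀ ξ ∈ T, Fξ ξ ∈ Ht := by
    intro ξ hξ
    have h1 := hD (rep ξ) (hrep ξ hξ).1 f hf
    exact h1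
  have hTA : ∀ ξ ∈ T, ∀ j : ℕ, ξ ^ j ∈ A := by
    intro ξ hξ j
    rw [← ValuationSubring.valuation_le_one_iff, map_pow, rootOfUnity_val A hn.ne' (hTroot ξ hξ),
      one_pow]
  -- the `D`-equivariant functions `g_j`
  let g : ℕ → M → Qb := fun j P => ∑ ξ ∈ T, ξ ^ j * Fξ ξ P
  have hgHt : ∀ j, g j ∈ Ht := by
    intro j
    have h1 : g j = ∑ ξ ∈ T.attach, (⟨ξ.1 ^ j, hTA ξ.1 ξ.2 j⟩ : A) • Fξ ξ.1 := by
      funext P
      rw [Finset.sum_apply]
      show ∑ ξ ∈ T, ξ ^ j * Fξ ξ P = _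
      rw [← Finset.sum_attach]
      rfl
    rw [h1]
    exact Subalgebra.sum_mem _ fun ξ _ => Subalgebra.smul_mem _ (hFmem ξ.1 ξ.2) _
  have hgD : ∀ j, ∀ σ ∈ A.decompositionSubgroup ℚ, ∀ P : M, g j (act σ P) = σ (g j P) := by
    intro j σ hσ
    rw [← tw_eq_self_iff hact]
    have h1 : tw act σ (g j) = fun P => ∑ ξ ∈ T, σ (ξ ^ j) * tw act σ (Fξ ξ) P :=
      tw_sum T σ (fun ξ => ξ ^ j) Fξ
    rw [h1]
    funext P
    have h2 : ∀ ξ ∈ T, σ (ξ ^ j) * tw act σ (Fξ ξ) P = (σ ξ) ^ j * Fξ (σ ξ) P := by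
      intro ξ hξ
      obtain ⟨h3, h4⟩ := hrep ξ hξ
      have h5 : tw act σ (Fξ ξ) = Fξ (σ ξ) := by
        show tw act σ (tw act (rep ξ) f) = _
        rw [← tw_mul hact, hW _ (Subgroup.mul_mem _ hσ h3), AlgEquiv.mul_apply, h4]
      rw [h5, map_pow]
    rw [Finset.sum_congr rfl h2]
    refine Finset.sum_nbij' (fun ξ => σ ξ) (fun ξ => σ⁻¹ ξ) ?_ ?_ ?_ ?_ ?_
    · intro ξ hξ
      obtain ⟨τ, hτ, rfl⟩ := (hTmem ξ).1 hξ
      exact (hTmem _).2 ⟨σ * τ, Subgroup.mul_mem _ hσ hτ, rfl⟩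
    · intro ξ hξ
      obtain ⟨τ, hτ, rfl⟩ := (hTmem ξ).1 hξ
      exact (hTmem _).2 ⟨σ⁻¹ * τ, Subgroup.mul_mem _ (Subgroup.inv_mem _ hσ) hτ, rfl⟩
    · intro ξ _
      simp
    · intro ξ _
      simp
    · intro ξ _
      rfl
  -- the Lagrange polynomial
  have hunit : ∀ ξ ∈ T.erase ζ, A.valuation (ζ - ξ) = 1 := by
    intro ξ hξ
    rw [Finset.mem_erase] at hξ
    have hζ0 : ζ ≠ 0 := hζ.ne_zero hn.ne'
    have h1 : (ξ / ζ) ^ n = 1 := by rw [div_pow, hTroot ξ hξ.2, hζ.pow_eq_one, div_one]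
    have h2 : ξ / ζ ≠ 1 := by
      intro h
      apply hξ.1
      field_simp at h
      exact h
    have h3 := one_sub_val_eq_one A hp hA hpn h1 h2
    have h4 : ζ - ξ = -(ζ * (ξ / ζ - 1)) := by field_simp; ring
    rw [h4, Valuation.map_neg, map_mul, h3, mul_one]
    exact rootOfUnity_val A hn.ne' hζ.pow_eq_one
  set L : Qb[X] := ∏ ξ ∈ T.erase ζ, (C (ζ - ξ)⁻¹ * (X - C ξ)) with hL
  have hLζ : L.eval ζ = 1 := by
    rw [hL, Polynomial.eval_prod]
    refine Finset.prod_eq_one fun ξ hξ => ?_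
    have h0 : ζ - ξ ≠ 0 := by
      intro h
      have := hunit ξ hξ
      rw [h, map_zero] at this
      exact zero_ne_one this
    simp only [eval_mul, eval_C, eval_sub, eval_X]
    exact inv_mul_cancel₀ h0
  have hLξ : ∀ ξ ∈ T, ξ ≠ ζ → L.eval ξ = 0 := by
    intro ξ hξ hne
    rw [hL, Polynomial.eval_prod]
    refine Finset.prod_eq_zero (Finset.mem_erase.2 ⟨hne, hξ⟩) ?_
    simp
  have hLA : ∀ j, L.coeff j ∈ A := by
    have hmem : L ∈ Polynomial.lifts (A.subtype) := by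
      rw [hL]
      refine Subsemiring.prod_mem _ fun ξ hξ => ?_
      have hξT : ξ ∈ T := (Finset.mem_erase.1 hξ).2
      have h1 : (ζ - ξ)⁻¹ ∈ A := by
        rw [← ValuationSubring.valuation_le_one_iff, map_inv₀, hunit ξ hξ, inv_one]
      have h2 : ξ ∈ A := by
        have := hTA ξ hξT 1
        rwa [pow_one] at this
      have h3 : C (ζ - ξ)⁻¹ * (X - C ξ) =
          C (A.subtype ⟨(ζ - ξ)⁻¹, h1⟩) * (X + C (A.subtype (-⟨ξ, h2⟩))) := by
        show C (ζ - ξ)⁻¹ * (X - C ξ) = C (ζ - ξ)⁻¹ * (X + C (-ξ))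
        rw [C_neg, ← sub_eq_add_neg]
      rw [h3]
      exact Subsemiring.mul_mem _ (Polynomial.C_mem_lifts _ _)
        (Subsemiring.add_mem _ (Polynomial.X_mem_lifts _) (Polynomial.C_mem_lifts _ _))
    intro j
    obtain ⟨a, ha⟩ := (Polynomial.lifts_iff_coeff_lifts L).1 hmem j
    rw [← ha]
    exact a.2
  -- the decomposition of `f`
  have hfsum : f = ∑ j ∈ Finset.range (L.natDegree + 1), (⟨L.coeff j, hLA j⟩ : A) • g j := by
    funext P
    rw [Finset.sum_apply]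
    show f P = ∑ j ∈ Finset.range (L.natDegree + 1), L.coeff j * ∑ ξ ∈ T, ξ ^ j * Fξ ξ P
    have h1 : ∀ j ∈ Finset.range (L.natDegree + 1),
        L.coeff j * ∑ ξ ∈ T, ξ ^ j * Fξ ξ P = ∑ ξ ∈ T, (L.coeff j * ξ ^ j) * Fξ ξ P := by
      intro j _
      rw [Finset.mul_sum]
      exact Finset.sum_congr rfl fun ξ _ => (mul_assoc _ _ _).symm
    rw [Finset.sum_congr rfl h1, Finset.sum_comm]
    have h2 : ∀ ξ ∈ T, ∑ j ∈ Finset.range (L.natDegree + 1), (L.coeff j * ξ ^ j) * Fξ ξ P =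
        L.eval ξ * Fξ ξ P := by
      intro ξ _
      rw [← Finset.sum_mul, ← Polynomial.eval_eq_sum_range]
    rw [Finset.sum_congr rfl h2, Finset.sum_eq_single ζ, hLζ, one_mul, hFζ]
    · intro ξ hξ hne
      rw [hLξ ξ hξ hne, zero_mul]
    · intro h
      exact absurd hζT h
  rw [hfsum]
  refine Submodule.sum_mem _ fun j _ => Submodule.smul_mem _ _ (Submodule.subset_span ?_)
  exact ⟨hgHt j, hgD j⟩

end Main

end Fermat.Agent.W1.DI

end
end ZBW1_001_9

/-! ### bundled: `Fermat.Agent.W1.DescApprox` -/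
section ZBW1_001_10

/-!
# W1 ALG-A, piece P3: `DescApproxStatement` (`D → G`, approximation)

A `D`-equivariant function `g : M → ℚ̄` with values in `A` is congruent modulo `p^k · Map(M, A)`
to a `G`-equivariant function.  See `PlanDescent.lean` for the plan of the proof.
All helper names carry the prefix `da_`.
-/

set_option autoImplicit false

namespace Fermat.Agent.W1

open Fermat.Agent.Common

local notation "Qb" => AlgebraicClosure ℚ
local notation "GQ" => (AlgebraicClosure ℚ ≃ₐ[ℚ] AlgebraicClosure ℚ)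

/-! ### Part 0: valuation basics -/

theorem da_val_p_lt_one {p : ℕ} (A : ValuationSubring Qb) (hA : A.LiesOverPrime p) :
    A.valuation (p : Qb) < 1 :=
  (ValuationSubring.mem_nonunits_iff A).mp hA

theorem da_val_p_ne_zero {p : ℕ} (hp : p.Prime) (A : ValuationSubring Qb) :
    A.valuation (p : Qb) ≠ 0 := by
  rw [Valuation.ne_zero_iff]
  exact_mod_cast hp.ne_zero

/-- `v(p)^c · v(y) ≤ 1` for some `c`. -/
theorem da_exists_pow_mul_le_one {p : ℕ} (hp : p.Prime) (A : ValuationSubring Qb)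
    (hA : A.LiesOverPrime p) (y : Qb) :
    ∃ c : ℕ, A.valuation (p : Qb) ^ c * A.valuation y ≤ 1 := by
  by_cases hy : y = 0
  · exact ⟨0, by simp [hy]⟩
  obtain ⟨N, a, ha, hN⟩ := desc_arch hp A hA (inv_ne_zero hy)
  refine ⟨N, ?_⟩
  have h1 : (p : Qb) ^ N * y = a := by
    rw [hN]; field_simp
  rw [← map_pow, ← map_mul, h1]
  exact (ValuationSubring.valuation_le_one_iff A a).mpr ha

/-- A rational number in the maximal ideal of `A` is divisible by `p` in `A`. -/
theorem da_rat_val_le {p : ℕ} (hp : p.Prime) (A : ValuationSubring Qb)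
    (hA : A.LiesOverPrime p) (c : ℚ) (hc : A.valuation (algebraMap ℚ Qb c) < 1) :
    A.valuation (algebraMap ℚ Qb c) ≤ A.valuation (p : Qb) := by
  have hp0 : (p : ℚ) ≠ 0 := by exact_mod_cast hp.ne_zero
  have hpv := da_val_p_ne_zero hp A
  -- it is enough to show that `c / p ∈ A`
  suffices h : algebraMap ℚ Qb (c / p) ∈ A by
    have h1 := (ValuationSubring.valuation_le_one_iff A _).mpr h
    rw [map_div₀, map_div₀, map_natCast] at h1
    rwa [div_le_one₀ (zero_lt_iff.mpr hpv)] at h1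
  by_cases hc0 : c = 0
  · simp [hc0, A.zero_mem]
  rw [desc_rat_mem_iff hp A hA]
  have : Fact p.Prime := ⟨hp⟩
  rw [Fermat.Agent.S28.mem_ratLocalizedAt_iff]
  -- `c ∈ A`, so `p ∤ c.den`; `c⁻¹ ∉ A`, so `p ∣ c.num`
  have hcA : algebraMap ℚ Qb c ∈ A := (ValuationSubring.valuation_le_one_iff A _).mp hc.le
  have hden : ¬ p ∣ c.den := by
    have := (desc_rat_mem_iff hp A hA c).mp hcA
    rwa [Fermat.Agent.S28.mem_ratLocalizedAt_iff] at this
  have hnum : (p : ℤ) ∣ c.num := by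
    by_contra hn
    have h1 : ((c.num : ℤ) : Qb)⁻¹ ∈ A := desc_inv_mem_of_not_dvd hp A hA c.num hn
    have h2 : A.valuation ((c.num : ℤ) : Qb) = 1 := by
      have h3 := (ValuationSubring.valuation_le_one_iff A _).mpr h1
      have h4 := (ValuationSubring.valuation_le_one_iff A _).mpr
        (intCast_mem_valuationSubring A c.num)
      rw [map_inv₀] at h3
      have hne : A.valuation ((c.num : ℤ) : Qb) ≠ 0 := by
        rw [Valuation.ne_zero_iff]
        exact_mod_cast Rat.num_ne_zero.mpr hc0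
      rw [inv_le_one₀ (zero_lt_iff.mpr hne)] at h3
      exact le_antisymm h4 h3
    have h5 : ((c.num : ℤ) : Qb) = algebraMap ℚ Qb c * ((c.den : ℕ) : Qb) := by
      have h6 : (c : Qb) = (c.num : Qb) / (c.den : Qb) := by
        exact_mod_cast congrArg (fun t : ℚ => (t : Qb)) (Rat.num_div_den c).symm
      have hd0 : ((c.den : ℕ) : Qb) ≠ 0 := by exact_mod_cast c.den_ne_zero
      rw [eq_ratCast, h6]; field_simp
    rw [h5, map_mul] at h2
    have h7 := (ValuationSubring.valuation_le_one_iff A _).mpr (desc_natCast_mem A c.den)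
    have h8 : A.valuation (algebraMap ℚ Qb c) * A.valuation ((c.den : ℕ) : Qb) < 1 :=
      mul_lt_one_of_nonneg_of_lt_one_left zero_le hc h7
    exact absurd h2 h8.ne
  obtain ⟨m, hm⟩ := hnum
  have hcp : c / p = (m : ℚ) / ((c.den : ℤ) : ℚ) := by
    have hd0 : ((c.den : ℤ) : ℚ) ≠ 0 := by exact_mod_cast c.den_ne_zero
    have h6 : (c.num : ℚ) / ((c.den : ℤ) : ℚ) = c := by
      exact_mod_cast Rat.num_div_den c
    calc c / p = ((c.num : ℚ) / ((c.den : ℤ) : ℚ)) / p := by rw [h6]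
      _ = (m : ℚ) / ((c.den : ℤ) : ℚ) := by
        rw [hm]; push_cast; field_simp
  rw [hcp]
  intro hd
  have h9 : (((m : ℚ) / ((c.den : ℤ) : ℚ)).den : ℤ) ∣ (c.den : ℤ) := by
    have := Rat.den_dvd m (c.den : ℤ)
    rwa [Rat.divInt_eq_div] at this
  have h10 : ((m : ℚ) / ((c.den : ℤ) : ℚ)).den ∣ c.den := Int.natCast_dvd_natCast.mp h9
  exact hden (dvd_trans hd h10)


/-- An element of the maximal ideal of `A` has a power divisible by `p`. -/
theorem da_exists_pow_le {p : ℕ} (hp : p.Prime) (A : ValuationSubring Qb)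
    (hA : A.LiesOverPrime p) (x : Qb) (hx : A.valuation x < 1) :
    ∃ n : ℕ, A.valuation x ^ n ≤ A.valuation (p : Qb) := by
  by_cases hx0 : x = 0
  · exact ⟨1, by simp [hx0]⟩
  have halg : IsAlgebraic ℚ x := (Fermat.Agent.S05.isAlgebraic_rat_qbar).isAlgebraic x
  obtain ⟨n, hn, c, hc, hval⟩ :=
    Fermat.Agent.S05.exists_pow_valuation_eq_algebraMap (K := ℚ) A hx0 halg
  refine ⟨n, ?_⟩
  rw [← map_pow, hval]
  apply da_rat_val_le hp A hA c
  rw [← hval, map_pow]
  exact pow_lt_one₀ zero_le hx hn.ne'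

/-- Uniform version: `v(x)^n ≤ v(p)^K`. -/
theorem da_exists_pow_le_pow {p : ℕ} (hp : p.Prime) (A : ValuationSubring Qb)
    (hA : A.LiesOverPrime p) (x : Qb) (hx : A.valuation x < 1) (K : ℕ) :
    ∃ n : ℕ, ∀ n' : ℕ, n ≤ n' → A.valuation x ^ n' ≤ A.valuation (p : Qb) ^ K := by
  obtain ⟨n, hn⟩ := da_exists_pow_le hp A hA x hx
  refine ⟨n * K, fun n' hn' => ?_⟩
  calc A.valuation x ^ n' ≤ A.valuation x ^ (n * K) :=
        pow_le_pow_of_le_one zero_le hx.le hn'
    _ = (A.valuation x ^ n) ^ K := pow_mul _ _ _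
    _ ≤ A.valuation (p : Qb) ^ K := pow_le_pow_left₀ zero_le hn K

/-! ### Part 1: the field `F₀` -/

/-- A finite normal extension `F₀/ℚ` containing the values of `g` and trivialising `M`. -/
theorem da_exists_field {M : Type} [AddCommGroup M] [Finite M]
    (act : GQ → M → M) (hact : IsContAction act) (g : M → Qb) :
    ∃ F₀ : IntermediateField ℚ Qb, FiniteDimensional ℚ F₀ ∧
      (∀ (σ : GQ) (x : Qb), x ∈ F₀ → σ x ∈ F₀) ∧ (∀ P, g P ∈ F₀) ∧
      (∀ σ : GQ, (∀ x ∈ F₀, σ x = x) → ∀ P, act σ P = P) := by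
  classical
  have hn := Fermat.Agent.S31.qbar_normal
  choose E hEfin hE using hact.open_stab
  have halg : ∀ P, IsIntegral ℚ (g P) := fun P => hn.isIntegral (g P)
  set K : IntermediateField ℚ Qb := ⨆ P, (E P ⊔ IntermediateField.adjoin ℚ {g P}) with hK
  have : ∀ P, FiniteDimensional ℚ (E P) := hEfin
  have : ∀ P, FiniteDimensional ℚ (IntermediateField.adjoin ℚ {g P}) :=
    fun P => IntermediateField.adjoin.finiteDimensional (halg P)
  have : FiniteDimensional ℚ K := IntermediateField.finiteDimensional_iSup_of_finite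
  have hle : ∀ P, E P ⊔ IntermediateField.adjoin ℚ {g P} ≤ K :=
    fun P => le_iSup (fun P => E P ⊔ IntermediateField.adjoin ℚ {g P}) P
  refine ⟨IntermediateField.normalClosure ℚ K Qb, inferInstance, ?_, ?_, ?_⟩
  · intro σ x hx
    have hnorm : Normal ℚ (IntermediateField.normalClosure ℚ K Qb) :=
      normalClosure.normal ℚ K Qb
    have := (IntermediateField.normal_iff_forall_map_le'.mp hnorm) σ
    exact this ⟨x, hx, rfl⟩
  · intro P
    exact (IntermediateField.le_normalClosure K)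
      (hle P (le_sup_right (a := E P) (IntermediateField.mem_adjoin_simple_self ℚ (g P))))
  · intro σ hσ P
    apply hE P σ
    intro a ha
    apply hσ
    exact (IntermediateField.le_normalClosure K) (hle P (le_sup_left (a := E P) ha))

/-! ### Part 2: a power `q` of `p` with `x^q ≡ x` on `A ∩ F₀` -/

theorem da_frob_sub_pow {p : ℕ} (A : ValuationSubring Qb) (φ : GQ)
    (hφ : A.IsFrobeniusAt φ p) (x : Qb) (hx : x ∈ A) :
    A.valuation (φ x - x ^ p) < 1 := by
  have h1 := hφ.smul_residue_eq (IsLocalRing.residue A ⟨x, hx⟩)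
  rw [← IsLocalRing.ResidueField.residue_smul, ← map_pow, ← sub_eq_zero, ← map_sub,
    IsLocalRing.residue_eq_zero_iff] at h1
  rw [← ValuationSubring.mem_nonunits_iff, ValuationSubring.mem_nonunits_iff_exists_mem_maximalIdeal]
  have hmem : φ x - x ^ p ∈ A :=
    sub_mem (Fermat.Agent.S05.apply_mem_of_mem_decomposition hφ.mem_decompositionSubgroup hx)
      (pow_mem hx p)
  exact ⟨hmem, h1⟩

theorem da_frob_pow_sub_pow {p : ℕ} (A : ValuationSubring Qb) (φ : GQ)
    (hφ : A.IsFrobeniusAt φ p) (j : ℕ) (x : Qb) (hx : x ∈ A) :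
    A.valuation ((φ ^ j) x - x ^ (p ^ j)) < 1 := by
  have halg := Fermat.Agent.S05.isAlgebraic_rat_qbar
  induction j with
  | zero => simp
  | succ j ih =>
    have h1 : (φ ^ (j + 1)) x - x ^ (p ^ (j + 1)) =
        φ ((φ ^ j) x - x ^ (p ^ j)) + (φ (x ^ (p ^ j)) - (x ^ (p ^ j)) ^ p) := by
      rw [pow_succ' φ, AlgEquiv.mul_apply, pow_succ p, pow_mul, map_sub]
      ring
    rw [h1]
    apply Valuation.map_add_lt
    · rw [Fermat.Agent.S05.valuation_apply_of_mem_decomposition hφ.mem_decompositionSubgroup]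
      exact ih
    · exact da_frob_sub_pow A φ hφ _ (pow_mem hx _)

theorem da_exists_frob_fix (F₀ : IntermediateField ℚ Qb) [FiniteDimensional ℚ F₀] (φ : GQ) :
    ∃ m : ℕ, 0 < m ∧ ∀ x ∈ F₀, (φ ^ m) x = x := by
  obtain ⟨i, j, hij, h⟩ := Finite.exists_ne_map_eq_of_infinite
    (fun j : ℕ => ((φ ^ j : GQ) : Qb →ₐ[ℚ] Qb).comp F₀.val)
  wlog hlt : i < j generalizing i j
  · exact this j i hij.symm h.symm (lt_of_le_of_ne (not_lt.mp hlt) hij.symm)
  refine ⟨j - i, Nat.sub_pos_of_lt hlt, fun x hx => ?_⟩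
  have h1 : (φ ^ i) x = (φ ^ j) x := DFunLike.congr_fun h ⟨x, hx⟩
  have h2 : φ ^ j = φ ^ i * φ ^ (j - i) := by
    rw [← pow_add, Nat.add_sub_cancel' hlt.le]
  rw [h2, AlgEquiv.mul_apply] at h1
  exact ((φ ^ i).injective h1).symm

theorem da_exists_q {p : ℕ} (hp : p.Prime) (A : ValuationSubring Qb)
    (hA : A.LiesOverPrime p) (F₀ : IntermediateField ℚ Qb) [FiniteDimensional ℚ F₀] :
    ∃ q : ℕ, 2 ≤ q ∧ ∀ x ∈ F₀, A.valuation x = 1 → A.valuation (x ^ (q - 1) - 1) < 1 := by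
  obtain ⟨φ, hφ⟩ := exists_isFrobeniusAt_of_liesOverPrime p hp A hA
  obtain ⟨m, hm, hfix⟩ := da_exists_frob_fix F₀ φ
  have hq1 : 1 ≤ p ^ m := Nat.one_le_pow _ _ hp.pos
  refine ⟨p ^ m, ?_, fun x hx hvx => ?_⟩
  · calc 2 ≤ p := hp.two_le
      _ = p ^ 1 := (pow_one p).symm
      _ ≤ p ^ m := Nat.pow_le_pow_right hp.pos hm
  · have hxA : x ∈ A := (A.valuation_le_one_iff x).mp hvx.le
    have h1 := da_frob_pow_sub_pow A φ hφ m x hxA
    rw [hfix x hx] at h1
    have h2 : x - x ^ (p ^ m) = - (x * (x ^ (p ^ m - 1) - 1)) := by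
      have h3 : x ^ (p ^ m) = x * x ^ (p ^ m - 1) := by
        rw [← pow_succ', Nat.sub_add_cancel hq1]
      rw [h3]; ring
    rw [h2, Valuation.map_neg, map_mul, hvx, one_mul] at h1
    exact h1

/-! ### Part 3: the function `ψ` -/

/-- `ψ(y) = s / (1 + s - s²)`, `s = y^(q-1)`. -/
noncomputable def da_psi (q : ℕ) (y : Qb) : Qb :=
  y ^ (q - 1) / (1 + y ^ (q - 1) - (y ^ (q - 1)) ^ 2)

theorem da_psi_map (q : ℕ) (σ : GQ) (y : Qb) : σ (da_psi q y) = da_psi q (σ y) := by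
  simp only [da_psi, map_div₀, map_sub, map_add, map_pow, map_one]

theorem da_psi_mem (q : ℕ) (F₀ : IntermediateField ℚ Qb) {y : Qb} (hy : y ∈ F₀) :
    da_psi q y ∈ F₀ := by
  unfold da_psi
  exact F₀.div_mem (pow_mem hy _)
    (F₀.sub_mem (F₀.add_mem F₀.one_mem (pow_mem hy _)) (pow_mem (pow_mem hy _) _))

theorem da_core_unit (A : ValuationSubring Qb) (s : Qb) (hs : A.valuation (s - 1) < 1) :
    A.valuation (s / (1 + s - s ^ 2) - 1) < 1 := by
  have hs1 : A.valuation s = 1 := by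
    have : s = 1 + (s - 1) := by ring
    rw [this]; exact Valuation.map_one_add_of_lt _ hs
  have hden : A.valuation (1 + s - s ^ 2) = 1 := by
    have : 1 + s - s ^ 2 = 1 + (-(s * (s - 1))) := by ring
    rw [this]
    apply Valuation.map_one_add_of_lt
    rw [Valuation.map_neg, map_mul, hs1, one_mul]; exact hs
  have hden0 : 1 + s - s ^ 2 ≠ 0 := by
    intro h; rw [h, map_zero] at hden; exact zero_ne_one hden
  have h1 : s / (1 + s - s ^ 2) - 1 = ((s - 1) * (s + 1)) / (1 + s - s ^ 2) := by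
    field_simp; ring
  rw [h1, map_div₀, hden, div_one, map_mul]
  have h2 : A.valuation (s + 1) ≤ 1 :=
    Valuation.map_add_le _ hs1.le (by simp)
  exact mul_lt_one_of_nonneg_of_lt_one_left zero_le hs h2

theorem da_core_small (A : ValuationSubring Qb) (s : Qb) (hs : A.valuation s < 1) :
    A.valuation (s / (1 + s - s ^ 2)) < 1 := by
  have hden : A.valuation (1 + s - s ^ 2) = 1 := by
    have : 1 + s - s ^ 2 = 1 + (s * (1 - s)) := by ring
    rw [this]; apply Valuation.map_one_add_of_lt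
    rw [map_mul]
    have : A.valuation (1 - s) ≤ 1 := Valuation.map_sub_le _ (by simp) hs.le
    exact mul_lt_one_of_nonneg_of_lt_one_left zero_le hs this
  rw [map_div₀, hden, div_one]; exact hs

theorem da_core_big (A : ValuationSubring Qb) (s : Qb) (hs : 1 < A.valuation s) :
    A.valuation (s / (1 + s - s ^ 2)) < 1 := by
  have hs0 : A.valuation s ≠ 0 := (zero_lt_one.trans hs).ne'
  have hpos : 0 < A.valuation s := zero_lt_one.trans hs
  have h1 : A.valuation (1 + s) < A.valuation (s ^ 2) := by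
    have h2 : A.valuation (1 + s) ≤ A.valuation s :=
      Valuation.map_add_le _ (by simpa using hs.le) le_rfl
    apply lt_of_le_of_lt h2
    rw [map_pow, sq]
    exact lt_mul_of_one_lt_left hpos hs
  have hden : A.valuation (1 + s - s ^ 2) = A.valuation (s ^ 2) :=
    Valuation.map_sub_eq_of_lt_right _ h1
  rw [map_div₀, hden, map_pow, sq, div_mul_cancel_left₀ hs0]
  exact inv_lt_one_of_one_lt₀ hs

theorem da_psi_unit {q : ℕ} (A : ValuationSubring Qb) (y : Qb)
    (h : A.valuation (y ^ (q - 1) - 1) < 1) : A.valuation (da_psi q y - 1) < 1 :=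
  da_core_unit A _ h

theorem da_psi_nonunit {q : ℕ} (hq : 2 ≤ q) (A : ValuationSubring Qb) (y : Qb)
    (hy : A.valuation y ≠ 1) : A.valuation (da_psi q y) < 1 := by
  rcases lt_or_gt_of_ne hy with h | h
  · apply da_core_small; rw [map_pow]; exact pow_lt_one₀ zero_le h (by omega)
  · apply da_core_big; rw [map_pow]; exact one_lt_pow₀ h (by omega)

theorem da_le_one_of_sub_one_lt (A : ValuationSubring Qb) (x : Qb)
    (h : A.valuation (x - 1) < 1) : A.valuation x = 1 := by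
  have : x = 1 + (x - 1) := by ring
  rw [this]; exact Valuation.map_one_add_of_lt _ h

theorem da_psi_le_one {q : ℕ} (hq : 2 ≤ q) (A : ValuationSubring Qb) (y : Qb)
    (hqy : A.valuation y = 1 → A.valuation (y ^ (q - 1) - 1) < 1) :
    A.valuation (da_psi q y) ≤ 1 := by
  by_cases hy : A.valuation y = 1
  · exact (da_le_one_of_sub_one_lt A _ (da_psi_unit A y (hqy hy))).le
  · exact (da_psi_nonunit hq A y hy).le


/-! ### Part 4: bad automorphisms and the elements `t_γ` -/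

/-- `γ` is *bad* for `(A, F₀)` if `γ⁻¹ A ∩ F₀ ≠ A ∩ F₀`. -/
def da_Bad (A : ValuationSubring Qb) (F₀ : IntermediateField ℚ Qb) (γ : GQ) : Prop :=
  ∃ x ∈ F₀, ¬ (x ∈ A ↔ γ x ∈ A)

/-- Restriction of an automorphism of `ℚ̄` to `F₀`. -/
noncomputable def da_res (F₀ : IntermediateField ℚ Qb) (γ : GQ) : F₀ →ₐ[ℚ] Qb :=
  (γ : Qb →ₐ[ℚ] Qb).comp F₀.val

theorem da_res_apply (F₀ : IntermediateField ℚ Qb) (γ : GQ) (x : F₀) :
    da_res F₀ γ x = γ x := rfl

theorem da_res_eq_iff (F₀ : IntermediateField ℚ Qb) (γ γ' : GQ) :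
    da_res F₀ γ = da_res F₀ γ' ↔ ∀ x ∈ F₀, γ x = γ' x := by
  constructor
  · intro h x hx
    exact DFunLike.congr_fun h ⟨x, hx⟩
  · intro h
    ext x
    exact h x x.2

open scoped Pointwise in
/-- A good automorphism agrees on `F₀` with an element of the decomposition group. -/
theorem da_good_rep (A : ValuationSubring Qb) (F₀ : IntermediateField ℚ Qb) (γ : GQ)
    (h : ¬ da_Bad A F₀ γ) :
    ∃ δ ∈ A.decompositionSubgroup ℚ, ∀ x ∈ F₀, γ x = δ x := by
  have h' : ∀ x ∈ F₀, x ∈ A ↔ x ∈ γ⁻¹ • A := by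
    intro x hx
    rw [ValuationSubring.mem_inv_pointwise_smul_iff]
    by_contra hne
    exact h ⟨x, hx, hne⟩
  obtain ⟨ρ, hρ, hρA⟩ := Fermat.Agent.S14.exists_fixing_smul_eq F₀ A (γ⁻¹ • A) h'
  refine ⟨γ * ρ, ?_, fun x hx => ?_⟩
  · show γ * ρ ∈ MulAction.stabilizer _ A
    rw [MulAction.mem_stabilizer_iff, mul_smul, hρA, smul_inv_smul]
  · rw [AlgEquiv.mul_apply, hρ x hx]

theorem da_exists_t_aux (A : ValuationSubring Qb) (F₀ : IntermediateField ℚ Qb) (γ : GQ)
    (x : Qb) (hx : x ∈ F₀) (h1 : A.valuation x ≤ 1) (h2 : 1 < A.valuation (γ x)) :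
    ∃ t ∈ F₀, A.valuation t = 1 ∧ A.valuation (γ t) < 1 := by
  rcases h1.lt_or_eq with h | h
  · refine ⟨(1 + x)⁻¹, F₀.inv_mem (F₀.add_mem F₀.one_mem hx), ?_, ?_⟩
    · rw [map_inv₀, Valuation.map_one_add_of_lt _ h, inv_one]
    · rw [map_inv₀, map_inv₀, map_add, map_one]
      have h3 : A.valuation (1 + γ x) = A.valuation (γ x) :=
        Valuation.map_add_eq_of_lt_right _ (by simpa using h2)
      rw [h3]; exact inv_lt_one_of_one_lt₀ h2
  · refine ⟨x⁻¹, F₀.inv_mem hx, ?_, ?_⟩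
    · rw [map_inv₀, h, inv_one]
    · rw [map_inv₀, map_inv₀]; exact inv_lt_one_of_one_lt₀ h2

/-- For a bad `γ` there is a unit `t ∈ F₀` of `A` with `γ t ∈ 𝔪_A`. -/
theorem da_exists_t {p : ℕ} (hp : p.Prime) (A : ValuationSubring Qb)
    (hA : A.LiesOverPrime p) (F₀ : IntermediateField ℚ Qb) (γ : GQ) (h : da_Bad A F₀ γ) :
    ∃ t ∈ F₀, A.valuation t = 1 ∧ A.valuation (γ t) < 1 := by
  obtain ⟨x, hx, hne⟩ := h
  by_cases hxA : x ∈ A
  · have h2 : γ x ∉ A := fun h' => hne ⟨fun _ => h', fun _ => hxA⟩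
    exact da_exists_t_aux A F₀ γ x hx ((A.valuation_le_one_iff x).mpr hxA)
      (by rwa [← not_le, A.valuation_le_one_iff])
  · have h2 : γ x ∈ A := by
      by_contra h'
      exact hne ⟨fun h'' => absurd h'' hxA, fun h'' => absurd h'' h'⟩
    have hx0 : x ≠ 0 := fun h0 => hxA (h0 ▸ A.zero_mem)
    have hγx0 : γ x ≠ 0 := by simpa using hx0
    have hvx : 1 < A.valuation x := by rwa [← not_le, A.valuation_le_one_iff]
    have hz : A.valuation x⁻¹ < 1 := by
      rw [map_inv₀]; exact inv_lt_one_of_one_lt₀ hvx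
    have hγz : 1 ≤ A.valuation (γ x⁻¹) := by
      rw [map_inv₀, map_inv₀]
      exact (one_le_inv₀ (zero_lt_iff.mpr ((Valuation.ne_zero_iff _).mpr hγx0))).mpr
        ((A.valuation_le_one_iff _).mpr h2)
    rcases hγz.lt_or_eq with h3 | h3
    · exact da_exists_t_aux A F₀ γ x⁻¹ (F₀.inv_mem hx) hz.le h3
    · obtain ⟨n, hn⟩ := da_exists_pow_le hp A hA x⁻¹ hz
      have hpv := da_val_p_ne_zero hp A
      refine da_exists_t_aux A F₀ γ ((x⁻¹) ^ n / (p : Qb))
        (F₀.div_mem (pow_mem (F₀.inv_mem hx) n) (natCast_mem F₀ p)) ?_ ?_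
      · rw [map_div₀, map_pow]
        exact div_le_one_of_le₀ hn zero_le
      · rw [map_div₀, map_pow, map_natCast, map_div₀, map_pow, ← h3, one_pow, one_div]
        exact (one_lt_inv₀ (zero_lt_iff.mpr hpv)).mpr (da_val_p_lt_one A hA)

/-! ### Part 5: products congruent to `1` -/

theorem da_prod_sub_one_le (A : ValuationSubring Qb) {ι : Type*} (s : Finset ι) (f : ι → Qb)
    (c : A.ValueGroup) (hc : c ≤ 1) (h : ∀ i ∈ s, A.valuation (f i - 1) ≤ c) :
    A.valuation (∏ i ∈ s, f i - 1) ≤ c := by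
  refine Finset.prod_induction f (fun x => A.valuation (x - 1) ≤ c) ?_ ?_ h
  · intro a b ha hb
    have h1 : a * b - 1 = a * (b - 1) + (a - 1) := by ring
    have ha1 : A.valuation a ≤ 1 := by
      have : a = (a - 1) + 1 := by ring
      rw [this]
      exact Valuation.map_add_le _ (ha.trans hc) (by simp)
    rw [h1]
    refine Valuation.map_add_le _ ?_ ha
    rw [map_mul]
    exact mul_le_of_le_one_of_le ha1 hb
  · simp

theorem da_prod_sub_one_lt (A : ValuationSubring Qb) {ι : Type*} (s : Finset ι) (f : ι → Qb)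
    (h : ∀ i ∈ s, A.valuation (f i - 1) < 1) :
    A.valuation (∏ i ∈ s, f i - 1) < 1 := by
  refine Finset.prod_induction f (fun x => A.valuation (x - 1) < 1) ?_ ?_ h
  · intro a b ha hb
    have h1 : a * b - 1 = a * (b - 1) + (a - 1) := by ring
    have ha1 : A.valuation a = 1 := da_le_one_of_sub_one_lt A a ha
    rw [h1]
    refine Valuation.map_add_lt _ ?_ ha
    rw [map_mul, ha1, one_mul]
    exact hb
  · simp

theorem da_pow_sub_one_lt (A : ValuationSubring Qb) (x : Qb) (h : A.valuation (x - 1) < 1)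
    (n : ℕ) : A.valuation (x ^ n - 1) < 1 := by
  have := da_prod_sub_one_lt A (Finset.range n) (fun _ => x) (fun _ _ => h)
  simpa using this

/-- `v(1 - (1 - y)^b) ≤ v(y)` if `v(y) ≤ 1`. -/
theorem da_one_sub_pow_le (A : ValuationSubring Qb) (y : Qb) (hy : A.valuation y ≤ 1) (b : ℕ) :
    A.valuation (1 - (1 - y) ^ b) ≤ A.valuation y := by
  have h1 : 1 - (1 - y) ^ b = y * ∑ i ∈ Finset.range b, (1 - y) ^ i := by
    rw [← mul_neg_geom_sum (1 - y) b]; ring
  have h2 : A.valuation (1 - y) ≤ 1 := Valuation.map_sub_le _ (by simp) hy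
  have h3 : A.valuation (∑ i ∈ Finset.range b, (1 - y) ^ i) ≤ 1 := by
    apply Valuation.map_sum_le
    intro i _
    rw [map_pow]
    exact pow_le_one₀ zero_le h2
  rw [h1, map_mul]
  exact mul_le_of_le_of_le_one le_rfl h3

/-! ### Part 6: the element `e` -/

theorem da_exists_e {p : ℕ} (hp : p.Prime) (A : ValuationSubring Qb)
    (hA : A.LiesOverPrime p) (F₀ : IntermediateField ℚ Qb) [FiniteDimensional ℚ F₀]
    (hF : ∀ (σ : GQ) (x : Qb), x ∈ F₀ → σ x ∈ F₀) :
    ∃ e ∈ F₀, A.valuation (e - 1) < 1 ∧ (∀ σ : GQ, A.valuation (σ e) ≤ 1) ∧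
      ∀ γ : GQ, da_Bad A F₀ γ → A.valuation (γ e) < 1 := by
  classical
  obtain ⟨q, hq2, hq⟩ := da_exists_q hp A hA F₀
  have hr : ∀ r : F₀ →ₐ[ℚ] Qb, ∃ t ∈ F₀, A.valuation t = 1 ∧
      ∀ γ : GQ, da_Bad A F₀ γ → da_res F₀ γ = r → A.valuation (γ t) < 1 := by
    intro r
    by_cases h : ∃ γ : GQ, da_Bad A F₀ γ ∧ da_res F₀ γ = r
    · obtain ⟨γ₀, hb, hr⟩ := h
      obtain ⟨t, htF, ht1, ht2⟩ := da_exists_t hp A hA F₀ γ₀ hb
      refine ⟨t, htF, ht1, fun γ _ hγr => ?_⟩
      have h3 : γ t = γ₀ t := (da_res_eq_iff F₀ γ γ₀).mp (hγr.trans hr.symm) t htF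
      rw [h3]; exact ht2
    · exact ⟨1, F₀.one_mem, by simp, fun γ hb hγr => absurd ⟨γ, hb, hγr⟩ h⟩
  choose t htF ht1 ht2 using hr
  have hle : ∀ (σ : GQ) (r : F₀ →ₐ[ℚ] Qb), A.valuation (σ (da_psi q (t r))) ≤ 1 := by
    intro σ r
    rw [da_psi_map]
    exact da_psi_le_one hq2 A _ (hq _ (hF σ _ (htF r)))
  refine ⟨∏ r, da_psi q (t r), prod_mem (fun r _ => da_psi_mem q F₀ (htF r)), ?_, ?_, ?_⟩
  · apply da_prod_sub_one_lt
    intro r _
    exact da_psi_unit A _ (hq _ (htF r) (ht1 r))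
  · intro σ
    rw [map_prod, map_prod]
    exact Finset.prod_le_one' (fun r _ => hle σ r)
  · intro γ hγ
    rw [map_prod, map_prod, ← Finset.mul_prod_erase Finset.univ _ (Finset.mem_univ (da_res F₀ γ))]
    apply mul_lt_one_of_nonneg_of_lt_one_left zero_le
    · rw [da_psi_map]
      exact da_psi_nonunit hq2 A _ (ht2 _ γ hγ rfl).ne
    · exact Finset.prod_le_one' (fun r _ => hle γ r)

/-! ### Part 7: the elements `u₀` and `u` -/

theorem da_exists_u0 {p : ℕ} (hp : p.Prime) (A : ValuationSubring Qb)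
    (hA : A.LiesOverPrime p) (F₀ : IntermediateField ℚ Qb) [FiniteDimensional ℚ F₀]
    (hF : ∀ (σ : GQ) (x : Qb), x ∈ F₀ → σ x ∈ F₀) (K : ℕ) :
    ∃ u₀ ∈ F₀, A.valuation (u₀ - 1) ≤ A.valuation (p : Qb) ^ K ∧
      (∀ σ : GQ, A.valuation (σ u₀) ≤ 1) ∧
      ∀ γ : GQ, da_Bad A F₀ γ → A.valuation (γ u₀) ≤ A.valuation (p : Qb) ^ K := by
  classical
  obtain ⟨e, heF, he1, heσ, hebad⟩ := da_exists_e hp A hA F₀ hF
  have ha : ∃ a : ℕ, ∀ γ : GQ, da_Bad A F₀ γ →
      A.valuation (γ e) ^ a ≤ A.valuation (p : Qb) ^ K := by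
    have h1 : ∀ r : F₀ →ₐ[ℚ] Qb, ∃ n : ℕ, ∀ n', n ≤ n' → A.valuation (r ⟨e, heF⟩) < 1 →
        A.valuation (r ⟨e, heF⟩) ^ n' ≤ A.valuation (p : Qb) ^ K := by
      intro r
      by_cases h : A.valuation (r ⟨e, heF⟩) < 1
      · obtain ⟨n, hn⟩ := da_exists_pow_le_pow hp A hA _ h K
        exact ⟨n, fun n' hn' _ => hn n' hn'⟩
      · exact ⟨0, fun _ _ h' => absurd h' h⟩
    choose n hn using h1
    refine ⟨∑ r, n r, fun γ hγ => ?_⟩
    exact hn (da_res F₀ γ) _
      (Finset.single_le_sum (fun _ _ => Nat.zero_le _) (Finset.mem_univ _)) (hebad γ hγ)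
  obtain ⟨a, ha⟩ := ha
  have he1a : A.valuation (e ^ a - 1) < 1 := da_pow_sub_one_lt A e he1 a
  obtain ⟨b, hb⟩ := da_exists_pow_le_pow hp A hA (e ^ a - 1) he1a K
  have hσ : ∀ σ : GQ, σ (1 - (1 - e ^ a) ^ b) = 1 - (1 - (σ e) ^ a) ^ b := by
    intro σ
    simp only [map_sub, map_pow, map_one]
  have hσle : ∀ σ : GQ, A.valuation ((σ e) ^ a) ≤ 1 := by
    intro σ
    rw [map_pow]
    exact pow_le_one₀ zero_le (heσ σ)
  refine ⟨1 - (1 - e ^ a) ^ b,
    F₀.sub_mem F₀.one_mem (pow_mem (F₀.sub_mem F₀.one_mem (pow_mem heF a)) b), ?_, ?_, ?_⟩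
  · have h1 : 1 - (1 - e ^ a) ^ b - 1 = - ((1 - e ^ a) ^ b) := by ring
    rw [h1, Valuation.map_neg, map_pow, Valuation.map_sub_swap]
    exact hb b le_rfl
  · intro σ
    rw [hσ]
    exact (da_one_sub_pow_le A _ (hσle σ) b).trans (hσle σ)
  · intro γ hγ
    rw [hσ]
    refine (da_one_sub_pow_le A _ (hσle γ) b).trans ?_
    rw [map_pow]
    exact ha γ hγ

theorem da_exists_u {p : ℕ} (hp : p.Prime) (A : ValuationSubring Qb)
    (hA : A.LiesOverPrime p) (F₀ : IntermediateField ℚ Qb) [FiniteDimensional ℚ F₀]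
    (hF : ∀ (σ : GQ) (x : Qb), x ∈ F₀ → σ x ∈ F₀) (K : ℕ) :
    ∃ u ∈ F₀, (∀ δ ∈ A.decompositionSubgroup ℚ, δ u = u) ∧
      A.valuation (u - 1) ≤ A.valuation (p : Qb) ^ K ∧
      ∀ γ : GQ, da_Bad A F₀ γ → A.valuation (γ u) ≤ A.valuation (p : Qb) ^ K := by
  classical
  have halg := Fermat.Agent.S05.isAlgebraic_rat_qbar
  obtain ⟨u₀, hu₀F, hu₀1, hu₀σ, hu₀bad⟩ := da_exists_u0 hp A hA F₀ hF K
  have hfin : Set.Finite {x : Qb | ∃ δ ∈ A.decompositionSubgroup ℚ, δ u₀ = x} := by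
    apply Set.Finite.subset (Set.finite_range (fun r : F₀ →ₐ[ℚ] Qb => r ⟨u₀, hu₀F⟩))
    rintro x ⟨δ, _, rfl⟩
    exact ⟨da_res F₀ δ, rfl⟩
  have hmemO : ∀ x, x ∈ hfin.toFinset ↔ ∃ δ ∈ A.decompositionSubgroup ℚ, δ u₀ = x :=
    fun x => by rw [Set.Finite.mem_toFinset]; rfl
  refine ⟨∏ x ∈ hfin.toFinset, x, ?_, ?_, ?_, ?_⟩
  · apply prod_mem
    intro x hx
    obtain ⟨δ, _, rfl⟩ := (hmemO x).mp hx
    exact hF δ _ hu₀F
  · intro δ hδ
    rw [map_prod]
    refine Finset.prod_nbij' (fun x => δ x) (fun x => δ⁻¹ x) ?_ ?_ ?_ ?_ ?_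
    · intro x hx
      obtain ⟨δ', hδ', rfl⟩ := (hmemO x).mp hx
      exact (hmemO _).mpr ⟨δ * δ', mul_mem hδ hδ', rfl⟩
    · intro x hx
      obtain ⟨δ', hδ', rfl⟩ := (hmemO x).mp hx
      exact (hmemO _).mpr ⟨δ⁻¹ * δ', mul_mem (inv_mem hδ) hδ', rfl⟩
    · intro x _
      show δ⁻¹ (δ x) = x
      rw [← AlgEquiv.mul_apply, inv_mul_cancel, AlgEquiv.one_apply]
    · intro x _
      show δ (δ⁻¹ x) = x
      rw [← AlgEquiv.mul_apply, mul_inv_cancel, AlgEquiv.one_apply]
    · intro x _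
      rfl
  · apply da_prod_sub_one_le A _ _ _ (pow_le_one₀ zero_le (da_val_p_lt_one A hA).le)
    intro x hx
    obtain ⟨δ, hδ, rfl⟩ := (hmemO x).mp hx
    have h1 : δ u₀ - 1 = δ (u₀ - 1) := by simp
    rw [h1, Fermat.Agent.S05.valuation_apply_of_mem_decomposition hδ]
    exact hu₀1
  · intro γ hγ
    rw [map_prod, map_prod]
    have h1 : u₀ ∈ hfin.toFinset := (hmemO _).mpr ⟨1, one_mem _, rfl⟩
    rw [← Finset.mul_prod_erase _ _ h1]
    apply mul_le_of_le_of_le_one (hu₀bad γ hγ)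
    apply Finset.prod_le_one'
    intro x hx
    obtain ⟨δ, hδ, rfl⟩ := (hmemO x).mp (Finset.mem_of_mem_erase hx)
    exact hu₀σ (γ * δ)


/-! ### Part 8: the assembly -/

/-- The twist of `f : M → ℚ̄` by `σ`. -/
noncomputable def da_tw {M : Type} (act : GQ → M → M) (σ : GQ) (f : M → Qb) : M → Qb :=
  fun P => σ (f (act σ⁻¹ P))

theorem da_tw_apply {M : Type} (act : GQ → M → M) (σ : GQ) (f : M → Qb) (P : M) :
    da_tw act σ f P = σ (f (act σ⁻¹ P)) := rfl

theorem da_tw_one {M : Type} [AddCommGroup M] (act : GQ → M → M) (hact : IsContAction act)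
    (f : M → Qb) : da_tw act 1 f = f := by
  funext P
  rw [da_tw_apply, inv_one, hact.one, AlgEquiv.one_apply]

theorem da_tw_mul {M : Type} [AddCommGroup M] (act : GQ → M → M) (hact : IsContAction act)
    (σ τ : GQ) (f : M → Qb) : da_tw act (σ * τ) f = da_tw act σ (da_tw act τ f) := by
  funext P
  rw [da_tw_apply, da_tw_apply, da_tw_apply, mul_inv_rev, hact.mul, AlgEquiv.mul_apply]

theorem da_act_inv_act {M : Type} [AddCommGroup M] (act : GQ → M → M) (hact : IsContAction act)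
    (σ : GQ) (P : M) : act σ⁻¹ (act σ P) = P := by
  rw [← hact.mul, inv_mul_cancel, hact.one]

theorem da_act_act_inv {M : Type} [AddCommGroup M] (act : GQ → M → M) (hact : IsContAction act)
    (σ : GQ) (P : M) : act σ (act σ⁻¹ P) = P := by
  rw [← hact.mul, mul_inv_cancel, hact.one]

/-- **P3** (`D → G`, approximation). -/
theorem descApprox : DescApproxStatement := by
  intro p hp A hA M _ _ act hact g hgA hgD k
  classical
  obtain ⟨F₀, hfd, hF, hgF, htriv⟩ := da_exists_field act hact g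
  have hpv := da_val_p_ne_zero hp A
  have hp1 := da_val_p_lt_one A hA
  -- the constant `c`
  have hc : ∃ c : ℕ, ∀ (σ : GQ) (Q : M),
      A.valuation (p : Qb) ^ c * A.valuation (σ (g Q)) ≤ 1 := by
    have hM : Fintype M := Fintype.ofFinite M
    have h1 : ∀ rQ : (F₀ →ₐ[ℚ] Qb) × M, ∃ c : ℕ,
        A.valuation (p : Qb) ^ c * A.valuation (rQ.1 ⟨g rQ.2, hgF rQ.2⟩) ≤ 1 :=
      fun rQ => da_exists_pow_mul_le_one hp A hA _
    choose c hc using h1
    refine ⟨∑ rQ, c rQ, fun σ Q => ?_⟩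
    have h2 := hc (da_res F₀ σ, Q)
    have h3 : c (da_res F₀ σ, Q) ≤ ∑ rQ, c rQ :=
      Finset.single_le_sum (fun _ _ => Nat.zero_le _) (Finset.mem_univ _)
    calc A.valuation (p : Qb) ^ (∑ rQ, c rQ) * A.valuation (σ (g Q))
        ≤ A.valuation (p : Qb) ^ (c (da_res F₀ σ, Q)) * A.valuation (σ (g Q)) :=
          mul_le_mul' (pow_le_pow_of_le_one zero_le hp1.le h3) le_rfl
      _ ≤ 1 := h2
  obtain ⟨c, hc⟩ := hc
  obtain ⟨u, huF, huD, hu1, hubad⟩ := da_exists_u hp A hA F₀ hF (k + c)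
  -- the function `f = u g` and its twists
  set f : M → Qb := fun P => u * g P with hf
  have hfF : ∀ P, f P ∈ F₀ := fun P => F₀.mul_mem huF (hgF P)
  have htw_res : ∀ σ σ' : GQ, da_res F₀ σ = da_res F₀ σ' → da_tw act σ f = da_tw act σ' f := by
    intro σ σ' h
    rw [da_res_eq_iff] at h
    funext P
    rw [da_tw_apply, da_tw_apply]
    have h1 : act σ'⁻¹ P = act σ⁻¹ P := by
      have h2 : ∀ x ∈ F₀, (σ'⁻¹ * σ) x = x := by
        intro x hx
        rw [AlgEquiv.mul_apply, h x hx, ← AlgEquiv.mul_apply, inv_mul_cancel, AlgEquiv.one_apply]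
      have h3 := htriv (σ'⁻¹ * σ) h2 (act σ⁻¹ P)
      rw [← hact.mul, mul_assoc, mul_inv_cancel, mul_one] at h3
      exact h3
    rw [h1]
    exact h _ (hfF _)
  have hgood : ∀ γ : GQ, ¬ da_Bad A F₀ γ → da_tw act γ f = f := by
    intro γ hγ
    obtain ⟨δ, hδ, hγδ⟩ := da_good_rep A F₀ γ hγ
    rw [htw_res γ δ ((da_res_eq_iff F₀ γ δ).mpr hγδ)]
    funext P
    rw [da_tw_apply, hf]
    show δ (u * g (act δ⁻¹ P)) = u * g P
    rw [map_mul, huD δ hδ, ← hgD δ hδ, da_act_act_inv act hact]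
  have hfin : (Set.range (fun σ : GQ => da_tw act σ f)).Finite := by
    apply Set.Finite.subset
      (Set.finite_range (Function.extend (da_res F₀) (fun σ : GQ => da_tw act σ f) 0))
    rintro _ ⟨σ, rfl⟩
    refine ⟨da_res F₀ σ, ?_⟩
    have hfac : Function.FactorsThrough (fun σ : GQ => da_tw act σ f) (da_res F₀) :=
      fun σ σ' h => htw_res σ σ' h
    exact hfac.extend_apply 0 σ
  have hmemO : ∀ f', f' ∈ hfin.toFinset ↔ ∃ σ : GQ, da_tw act σ f = f' :=
    fun f' => by rw [Set.Finite.mem_toFinset]; rfl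
  have hfO : f ∈ hfin.toFinset := (hmemO f).mpr ⟨1, da_tw_one act hact f⟩
  refine ⟨fun P => ∑ f' ∈ hfin.toFinset, f' P, ?_, ?_⟩
  · intro σ P
    show ∑ f' ∈ hfin.toFinset, f' (act σ P) = σ (∑ f' ∈ hfin.toFinset, f' P)
    rw [map_sum]
    symm
    refine Finset.sum_nbij' (fun f' => da_tw act σ f') (fun f' => da_tw act σ⁻¹ f')
      ?_ ?_ ?_ ?_ ?_
    · intro f' hf'
      obtain ⟨τ, rfl⟩ := (hmemO f').mp hf'
      exact (hmemO _).mpr ⟨σ * τ, da_tw_mul act hact σ τ f⟩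
    · intro f' hf'
      obtain ⟨τ, rfl⟩ := (hmemO f').mp hf'
      exact (hmemO _).mpr ⟨σ⁻¹ * τ, da_tw_mul act hact σ⁻¹ τ f⟩
    · intro f' _
      show da_tw act σ⁻¹ (da_tw act σ f') = f'
      rw [← da_tw_mul act hact, inv_mul_cancel, da_tw_one act hact]
    · intro f' _
      show da_tw act σ (da_tw act σ⁻¹ f') = f'
      rw [← da_tw_mul act hact, mul_inv_cancel, da_tw_one act hact]
    · intro f' _
      show σ (f' P) = da_tw act σ f' (act σ P)
      rw [da_tw_apply, da_act_inv_act act hact]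
  · intro P
    have hval : A.valuation ((∑ f' ∈ hfin.toFinset, f' P) - g P) ≤ A.valuation (p : Qb) ^ k := by
      rw [← Finset.add_sum_erase _ _ hfO]
      have h1 : f P + ∑ f' ∈ hfin.toFinset.erase f, f' P - g P =
          (u - 1) * g P + ∑ f' ∈ hfin.toFinset.erase f, f' P := by
        have hfP : f P = u * g P := rfl
        rw [hfP]; ring
      rw [h1]
      apply Valuation.map_add_le
      · rw [map_mul]
        have h2 : A.valuation (u - 1) ≤ A.valuation (p : Qb) ^ k :=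
          hu1.trans (pow_le_pow_of_le_one zero_le hp1.le (Nat.le_add_right k c))
        exact mul_le_of_le_of_le_one h2 ((A.valuation_le_one_iff _).mpr (hgA P))
      · apply Valuation.map_sum_le
        intro f' hf'
        obtain ⟨hne, hmem⟩ := Finset.mem_erase.mp hf'
        obtain ⟨γ, rfl⟩ := (hmemO f').mp hmem
        have hbad : da_Bad A F₀ γ := by
          by_contra hg
          exact hne (hgood γ hg)
        show A.valuation (γ (u * g (act γ⁻¹ P))) ≤ _
        rw [map_mul, map_mul]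
        calc A.valuation (γ u) * A.valuation (γ (g (act γ⁻¹ P)))
            ≤ A.valuation (p : Qb) ^ (k + c) * A.valuation (γ (g (act γ⁻¹ P))) :=
              mul_le_mul' (hubad γ hbad) le_rfl
          _ = A.valuation (p : Qb) ^ k *
                (A.valuation (p : Qb) ^ c * A.valuation (γ (g (act γ⁻¹ P)))) := by
              rw [pow_add, mul_assoc]
          _ ≤ A.valuation (p : Qb) ^ k * 1 := mul_le_mul' le_rfl (hc γ _)
          _ = A.valuation (p : Qb) ^ k := mul_one _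
    have hpk : (p : Qb) ^ k ≠ 0 := pow_ne_zero _ (by exact_mod_cast hp.ne_zero)
    refine ⟨((∑ f' ∈ hfin.toFinset, f' P) - g P) / (p : Qb) ^ k, ?_, ?_⟩
    · rw [← A.valuation_le_one_iff, map_div₀, map_pow]
      exact div_le_one_of_le₀ hval zero_le
    · show (∑ f' ∈ hfin.toFinset, f' P) - g P = _
      field_simp

end Fermat.Agent.W1


end ZBW1_001_10
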