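/- GENERATED FILE (helper35, build-time optimisation, NOTES/ZB.md): verbatim concatenation of the modules
   Fermat.Agent.Cheb.Moebius
   Fermat.Agent.Cheb.Cyclic
   Fermat.Agent.Cheb.Final
   Fermat.Agent.Cheb.Strong
   Do not edit; do not import together with these modules. -/
import Mathlib
import Fermat.Agent.ZB.W1_001
import Fermat.Agent.ZB.Cheb_001

/-! ### bundled: `Fermat.Agent.Cheb.Moebius` -/
section ZBCheb_002_0
/-
Weak Chebotarev (item 70), piece C3c: the two Möbius facts used by the inclusion–exclusion in C3b.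
(Owner: helper59.)

* `moebius_sum_divisors_eq` : `∑_{d ∣ g} μ(d) = [g = 1]`.
* `moebius_sum_filter_dvd`  : for `g ∣ n`, `n ≠ 0`: `∑_{d ∣ n, d ∣ g} μ(d) = [g = 1]` (ℤ and ℝ forms).
* `moebius_sum_div_eq_totient` : `∑_{d ∣ n} μ(d)/d = φ(n)/n` in `ℝ`.
* `moebius_sum_div_pos` : `0 < ∑_{d ∣ n} μ(d)/d` for `n ≠ 0`.
-/

set_option autoImplicit false

namespace Fermat.Agent.Cheb

open ArithmeticFunction Finset

/-- `∑_{d ∣ g} μ(d) = [g = 1]`. -/
theorem moebius_sum_divisors_eq (g : ℕ) :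
    ∑ d ∈ g.divisors, ArithmeticFunction.moebius d = if g = 1 then 1 else 0 := by
  have h := congrArg (fun f : ArithmeticFunction ℤ => f g) moebius_mul_coe_zeta
  simp only [coe_mul_zeta_apply, one_apply] at h
  exact h

/-- the divisors of `n` dividing `g` are the divisors of `g`, if `g ∣ n ≠ 0` -/
theorem divisors_filter_dvd_eq {n g : ℕ} (hn : n ≠ 0) (hg : g ∣ n) :
    n.divisors.filter (fun d => d ∣ g) = g.divisors := by
  have hg0 : g ≠ 0 := fun h => hn (by rw [h] at hg; exact Nat.eq_zero_of_zero_dvd hg)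
  ext d
  simp only [mem_filter, Nat.mem_divisors]
  exact ⟨fun h => ⟨h.2, hg0⟩, fun h => ⟨⟨h.1.trans hg, hn⟩, h.1⟩⟩

/-- for `g ∣ n`: `∑_{d ∣ n, d ∣ g} μ(d) = [g = 1]` -/
theorem moebius_sum_filter_dvd {n g : ℕ} (hn : n ≠ 0) (hg : g ∣ n) :
    ∑ d ∈ n.divisors with d ∣ g, ArithmeticFunction.moebius d = if g = 1 then 1 else 0 := by
  rw [divisors_filter_dvd_eq hn hg, moebius_sum_divisors_eq]

/-- real form, with the indicator inside the sum:
`∑_{d ∣ n} μ(d)·[d ∣ g] = [g = 1]` for `g ∣ n` -/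
theorem moebius_sum_indicator_dvd {n g : ℕ} (hn : n ≠ 0) (hg : g ∣ n) :
    ∑ d ∈ n.divisors, (ArithmeticFunction.moebius d : ℝ) * (if d ∣ g then 1 else 0) =
      if g = 1 then 1 else 0 := by
  have h := moebius_sum_filter_dvd hn hg
  have h2 : ∑ d ∈ n.divisors, (ArithmeticFunction.moebius d : ℝ) * (if d ∣ g then 1 else 0) =
      ((∑ d ∈ n.divisors with d ∣ g, ArithmeticFunction.moebius d : ℤ) : ℝ) := by
    rw [Int.cast_sum, Finset.sum_filter]
    refine Finset.sum_congr rfl fun d _ => ?_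
    split_ifs <;> simp
  rw [h2, h]
  split_ifs <;> simp

/-- `∑_{d ∣ n} μ(d)·(n/d) = φ(n)` (Möbius inversion of `∑_{d ∣ n} φ(d) = n`) -/
theorem moebius_sum_mul_eq_totient {n : ℕ} (hn : 0 < n) :
    ∑ x ∈ n.divisorsAntidiagonal, (ArithmeticFunction.moebius x.1 : ℝ) * (x.2 : ℝ) =
      (n.totient : ℝ) := by
  have key := (ArithmeticFunction.sum_eq_iff_sum_mul_moebius_eq (R := ℝ)
    (f := fun d => (d.totient : ℝ)) (g := fun d => (d : ℝ))).mp
    (fun m _ => by
      have := Nat.sum_totient m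
      exact_mod_cast this)
  exact key n hn

/-- `∑_{d ∣ n} μ(d)/d = φ(n)/n` -/
theorem moebius_sum_div_eq_totient {n : ℕ} (hn : n ≠ 0) :
    ∑ d ∈ n.divisors, (ArithmeticFunction.moebius d : ℝ) / (d : ℝ) =
      (n.totient : ℝ) / (n : ℝ) := by
  have hn0 : (n : ℝ) ≠ 0 := Nat.cast_ne_zero.mpr hn
  rw [eq_div_iff hn0, ← moebius_sum_mul_eq_totient (Nat.pos_of_ne_zero hn),
    Nat.sum_divisorsAntidiagonal (fun a b => (ArithmeticFunction.moebius a : ℝ) * (b : ℝ)),
    Finset.sum_mul]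
  refine Finset.sum_congr rfl fun d hd => ?_
  have hd0 : (d : ℝ) ≠ 0 := Nat.cast_ne_zero.mpr (Nat.pos_of_mem_divisors hd).ne'
  have hdn : d ∣ n := Nat.dvd_of_mem_divisors hd
  rw [Nat.cast_div hdn hd0]
  field_simp

/-- `0 < ∑_{d ∣ n} μ(d)/d` -/
theorem moebius_sum_div_pos {n : ℕ} (hn : n ≠ 0) :
    0 < ∑ d ∈ n.divisors, (ArithmeticFunction.moebius d : ℝ) / (d : ℝ) := by
  rw [moebius_sum_div_eq_totient hn]
  exact div_pos (Nat.cast_pos.mpr (Nat.totient_pos.mpr (Nat.pos_of_ne_zero hn)))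
    (Nat.cast_pos.mpr (Nat.pos_of_ne_zero hn))

end Fermat.Agent.Cheb


end ZBCheb_002_0

/-! ### bundled: `Fermat.Agent.Cheb.Cyclic` -/
section ZBCheb_002_1
/-
Weak Chebotarev, piece C3b (helper58): in a cyclic extension `F/E` of number fields there is a
degree one prime of `E`, of norm outside a given finite set, with exactly one prime of `F` above it.

Inputs: C1 (`StmtPrimeSum`), C2 (`StmtSplit`), C3a (`StmtCyclicSplit`) and the two Möbius facts
of `Moebius.lean` (piece C3c).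
-/

set_option autoImplicit false

namespace Fermat.Agent.Cheb

open NumberField IsDedekindDomain Filter Topology
open scoped ArithmeticFunction.Moebius

variable {E : Type} [Field E] [NumberField E]

/-- A finite linear combination of sets with log densities: if the indicator of `B` is the
linear combination `∑ c d • 1_{A d}`, then `B` has log density `∑ c d * δ d`. -/
theorem hasLogDensity_of_indicator_sum (hE : PrimeSummable E) (ι : Finset ℕ)
    (A : ℕ → Set (HeightOneSpectrum (𝓞 E))) (c δ : ℕ → ℝ)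
    (hA : ∀ d ∈ ι, HasLogDensity (A d) (δ d)) (B : Set (HeightOneSpectrum (𝓞 E)))
    (hB : ∀ v, B.indicator (fun _ => (1 : ℝ)) v =
      ∑ d ∈ ι, c d * (A d).indicator (fun _ => (1 : ℝ)) v) :
    HasLogDensity B (∑ d ∈ ι, c d * δ d) := by
  classical
  choose! C hC using hA
  refine ⟨∑ d ∈ ι, |c d| * C d, fun s hs hs2 => ?_⟩
  have hZ : B.primeIdealZetaSum s = ∑ d ∈ ι, c d * (A d).primeIdealZetaSum s := by
    rw [primeIdealZetaSum_eq_tsum_indicator]
    have h1 : ∀ v, B.indicator (nrm E s) v =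
        ∑ d ∈ ι, c d * (A d).indicator (nrm E s) v := by
      intro v
      have h2 : B.indicator (nrm E s) v = B.indicator (fun _ => (1 : ℝ)) v * nrm E s v := by
        by_cases hv : v ∈ B <;> simp [hv]
      rw [h2, hB v, Finset.sum_mul]
      refine Finset.sum_congr rfl fun d _ => ?_
      by_cases hv : v ∈ A d <;> simp [hv]
    rw [tsum_congr h1]
    rw [Summable.tsum_finsetSum]
    · refine Finset.sum_congr rfl fun d _ => ?_
      rw [tsum_mul_left, primeIdealZetaSum_eq_tsum_indicator]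
    · intro d _
      exact (summable_indicator hE (A d) hs).mul_left (c d)
  rw [hZ]
  have e : ∑ d ∈ ι, c d * (A d).primeIdealZetaSum s - (∑ d ∈ ι, c d * δ d) * Real.log (1 / (s - 1))
      = ∑ d ∈ ι, c d * ((A d).primeIdealZetaSum s - δ d * Real.log (1 / (s - 1))) := by
    rw [Finset.sum_mul, ← Finset.sum_sub_distrib]
    refine Finset.sum_congr rfl fun d _ => ?_
    ring
  rw [e]
  refine (Finset.abs_sum_le_sum_abs _ _).trans (Finset.sum_le_sum fun d hd => ?_)
  rw [abs_mul]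
  exact mul_le_mul_of_nonneg_left (hC d hd s hs hs2) (abs_nonneg _)

/-- Only finitely many primes of `E` have their norm in a given finite set. -/
theorem finite_setOf_absNorm_mem (S : Finset ℕ) :
    {v : HeightOneSpectrum (𝓞 E) | Ideal.absNorm v.asIdeal ∈ S}.Finite := by
  have h1 : {v : HeightOneSpectrum (𝓞 E) | Ideal.absNorm v.asIdeal ∈ S} =
      ⋃ m ∈ S, {v : HeightOneSpectrum (𝓞 E) | Ideal.absNorm v.asIdeal = m} := by
    ext v
    simp
  rw [h1]
  refine Set.Finite.biUnion S.finite_toSet fun m _ => ?_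
  have h2 : {I : Ideal (𝓞 E) | Ideal.absNorm I = m}.Finite :=
    Ideal.finite_setOfPred_absNorm_eq m
  refine (h2.preimage (f := fun v : HeightOneSpectrum (𝓞 E) => v.asIdeal) ?_).subset ?_
  · intro v _ w _ h
    exact HeightOneSpectrum.ext h
  · intro v hv
    exact hv

/-- The number of primes of `F` above a prime of `E` divides the degree (`F/E` Galois). -/
theorem ncard_primesOver_dvd_finrank (F : Type) [Field F] [NumberField F] [Algebra E F]
    [IsGalois E F] (v : HeightOneSpectrum (𝓞 E)) :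
    (Ideal.primesOver v.asIdeal (𝓞 F)).ncard ∣ Module.finrank E F := by
  have h := Ideal.ncard_primesOver_mul_ramificationIdxIn_mul_inertiaDegIn v.asIdeal (𝓞 F)
    (F ≃ₐ[E] F)
  rw [IsGalois.card_aut_eq_finrank] at h
  exact Dvd.intro _ h

/-- **Piece C3b.** -/
theorem stmtCyclic (hPS : StmtPrimeSum) (hSp : StmtSplit) (hCS : StmtCyclicSplit) :
    StmtCyclic := by
  intro E F _ _ _ _ _ _ _ S
  classical
  obtain ⟨hsum, -, hnonprime⟩ := hPS E
  have hE : PrimeSummable E := hsum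
  have hn0 : Module.finrank E F ≠ 0 := Module.finrank_pos.ne'
  -- for every `d ∣ n` the set `{v | d ∣ g v}` has density `1/d`
  have hdens : ∀ d ∈ (Module.finrank E F).divisors,
      HasLogDensity {v : HeightOneSpectrum (𝓞 E) |
        d ∣ (Ideal.primesOver v.asIdeal (𝓞 F)).ncard} (1 / (d : ℝ)) := by
    intro d hd
    obtain ⟨M, _, _, _, _, hMd, hM⟩ := hCS E F d (Nat.dvd_of_mem_divisors hd)
    have h1 := hSp E M
    rw [hMd] at h1
    have h2 : {v : HeightOneSpectrum (𝓞 E) | d ∣ (Ideal.primesOver v.asIdeal (𝓞 F)).ncard} =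
        {v : HeightOneSpectrum (𝓞 E) | SplitsCompletely M v} := by
      ext v
      exact (hM v).symm
    rw [h2]
    exact h1
  -- inclusion–exclusion
  have hB : HasLogDensity
      {v : HeightOneSpectrum (𝓞 E) | (Ideal.primesOver v.asIdeal (𝓞 F)).ncard = 1}
      (∑ d ∈ (Module.finrank E F).divisors,
        (ArithmeticFunction.moebius d : ℝ) * (1 / (d : ℝ))) := by
    refine hasLogDensity_of_indicator_sum hE (Module.finrank E F).divisors
      (fun d => {v : HeightOneSpectrum (𝓞 E) | d ∣ (Ideal.primesOver v.asIdeal (𝓞 F)).ncard})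
      (fun d => (ArithmeticFunction.moebius d : ℝ)) (fun d => 1 / (d : ℝ)) hdens _ ?_
    intro v
    have h := moebius_sum_indicator_dvd hn0 (ncard_primesOver_dvd_finrank F v)
    simp only [Set.indicator_apply, Set.mem_ofPred_eq]
    exact h.symm
  have hpos : 0 < ∑ d ∈ (Module.finrank E F).divisors,
      (ArithmeticFunction.moebius d : ℝ) * (1 / (d : ℝ)) := by
    have := moebius_sum_div_pos hn0
    simpa only [mul_one_div] using this
  have hbadS : HasLogDensity {v : HeightOneSpectrum (𝓞 E) | Ideal.absNorm v.asIdeal ∈ S} 0 :=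
    hasLogDensity_zero_of_finite (finite_setOf_absNorm_mem S)
  have hT := (hB.diff_zero hE hnonprime).diff_zero hE hbadS
  obtain ⟨v, hv⟩ := (hT.infinite hpos).nonempty
  refine ⟨v, ?_, ?_, ?_⟩
  · by_contra h
    exact hv.1.2 h
  · exact hv.2
  · exact hv.1.1

end Fermat.Agent.Cheb


end ZBCheb_002_1

/-! ### bundled: `Fermat.Agent.Cheb.Final` -/
section ZBCheb_002_2
/-
Weak Chebotarev (item 70): the final theorem, assembled from the pieces C1–C6.
-/

set_option autoImplicit false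

namespace Fermat.Agent.Cheb

/-- **Weak Chebotarev**: for `F/ℚ` finite Galois inside `ℚ̄`, a finite set `S` of primes and
`σ ∈ G_ℚ` there are a prime `ℓ ∉ S`, a valuation subring `A` of `ℚ̄` over `ℓ`, a Frobenius `τ` at `A`
and `m : ℕ` with `(τ ^ m)|F = σ|F`. -/
theorem weakChebotarev_holds : WeakChebotarev :=
  weakChebotarev (stmtCyclic stmtPrimeSum (stmtSplit stmtPrimeSum) stmtCyclicSplit)
    stmtStab stmtGlue

/-- Unfolded form of `weakChebotarev_holds`. -/
theorem exists_frobenius_pow_eq (F : IntermediateField ℚ (AlgebraicClosure ℚ))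
    [FiniteDimensional ℚ F] [IsGalois ℚ F] (S : Finset ℕ)
    (σ : AlgebraicClosure ℚ ≃ₐ[ℚ] AlgebraicClosure ℚ) :
    ∃ (ℓ : ℕ) (A : ValuationSubring (AlgebraicClosure ℚ))
      (τ : AlgebraicClosure ℚ ≃ₐ[ℚ] AlgebraicClosure ℚ) (m : ℕ),
      ℓ.Prime ∧ ℓ ∉ S ∧ A.LiesOverPrime ℓ ∧ A.IsFrobeniusAt τ ℓ ∧
        ∀ x ∈ F, (τ ^ m) x = σ x :=
  weakChebotarev_holds F S σ

end Fermat.Agent.Cheb


end ZBCheb_002_2

/-! ### bundled: `Fermat.Agent.Cheb.Strong` -/
section ZBCheb_002_3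
/-
Weak Chebotarev, GENERATOR form (helper26): for `F/ℚ` finite Galois inside `ℚ̄`, a finite set `S` of
primes and `σ ∈ G_ℚ` there are a prime `ℓ ∉ S` and a Frobenius `τ` at a place over `ℓ` such that
`τ|F` and `σ|F` generate the SAME cyclic subgroup of `Gal(F/ℚ)`:
`(τ ^ m)|F = σ|F` and `(σ ^ k)|F = τ|F`.

This is what is needed whenever the wanted property of `Frob_ℓ` only depends on the cyclic group it
generates (`ℓ ≡ 1 mod N`, distinct eigenvalues, non-vanishing of a restriction map, ...), e.g.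
for Taylor–Wiles primes.

Proof: as in `Assembly.lean`, with `E` the fixed field of `⟨σ|F⟩`, `v` a degree one prime of `E`
with a unique prime `P` of `F` above it, `P` unramified over `ℚ`.  A Frobenius `ψ` of `F/E` at `P`
is also a Frobenius of `F/ℚ` at `P` (the residue field of `v` is `𝔽_ℓ`), and the Frobenius at an
unramified prime is unique, so every Frobenius of `F/ℚ` at `P` lies in `Gal(F/E) = ⟨σ|F⟩`.
-/

set_option autoImplicit false
set_option linter.style.haveILetI false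

namespace Fermat.Agent.Cheb

open NumberField IsDedekindDomain
open scoped Pointwise

/-- The action of `Gal(F/E)` on `𝓞 F` is the restriction of the action of `Gal(F/ℚ)`. -/
lemma Strong.restrictScalars_smul {F : Type} [Field F] [NumberField F]
    (E : IntermediateField ℚ F) (ψ : F ≃ₐ[E] F) (x : 𝓞 F) :
    (ψ.restrictScalars ℚ) • x = ψ • x := by
  apply RingOfIntegers.ext
  rfl

/-- At an unramified prime `P` of `F/ℚ` lying over a degree one prime of the subfield `E`, every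
Frobenius element of `F/ℚ` at `P` fixes `E`. -/
theorem Strong.frob_mem_fixingSubgroup {F : Type} [Field F] [NumberField F] [IsGalois ℚ F]
    (E : IntermediateField ℚ F) [NumberField E] (P : Ideal (𝓞 F)) [P.IsPrime] (hP0 : P ≠ ⊥)
    (hunr : Algebra.IsUnramifiedAt ℤ P)
    (hdeg : Nat.card (𝓞 E ⧸ P.under (𝓞 E)) = Nat.card (ℤ ⧸ P.under ℤ))
    (φ : F ≃ₐ[ℚ] F) (hφ : IsArithFrobAt ℤ φ P) : φ ∈ E.fixingSubgroup := by
  let p : Ideal ℤ := P.under ℤ
  haveI hLO : P.LiesOver p := ⟨rfl⟩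
  haveI hpprime : p.IsPrime := inferInstance
  haveI : Finite (𝓞 F ⧸ P) := Ideal.finiteQuotientOfFreeOfNeBot P hP0
  have hp0 : p ≠ ⊥ := Ideal.under_ne_bot ℤ hP0
  haveI hpmax : p.IsMaximal := hpprime.isMaximal hp0
  haveI : Finite (ℤ ⧸ p) := Ideal.finiteQuotientOfFreeOfNeBot p hp0
  -- inertia is trivial
  have hI : Ideal.inertia (F ≃ₐ[ℚ] F) P = ⊥ := by
    have h1 : Nat.card (Ideal.inertia (F ≃ₐ[ℚ] F) P) = 1 := by
      rw [Ideal.card_inertia_eq_ramificationIdxIn p P,
        Ideal.ramificationIdxIn_eq_ramificationIdx p P (F ≃ₐ[ℚ] F)]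
      exact Ideal.ramificationIdx_eq_one_of_isUnramifiedAt
    exact Subgroup.card_eq_one.mp h1
  -- a Frobenius of `F/E` at `P`
  obtain ⟨ψ, hψ⟩ := IsArithFrobAt.exists_of_isInvariant (𝓞 E) (F ≃ₐ[E] F) P
  have hψ' : IsArithFrobAt ℤ (ψ.restrictScalars ℚ) P := by
    intro x
    have h := hψ x
    rw [hdeg] at h
    have e : (MulSemiringAction.toAlgHom ℤ (𝓞 F) (ψ.restrictScalars ℚ)) x =
        (MulSemiringAction.toAlgHom (𝓞 E) (𝓞 F) ψ) x :=
      Strong.restrictScalars_smul E ψ x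
    rw [e]
    exact h
  have hmem := IsArithFrobAt.mul_inv_mem_inertia hφ hψ'
  rw [hI, Subgroup.mem_bot] at hmem
  have hφψ : φ = ψ.restrictScalars ℚ := mul_inv_eq_one.mp hmem
  intro x
  rw [hφψ]
  exact ψ.commutes x

/-- `Nat.card (ℤ ⧸ P.under ℤ) = ℓ` when the prime number `ℓ` lies in the prime ideal `P`. -/
lemma Strong.card_under_int {F : Type} [Field F] [NumberField F] (P : Ideal (𝓞 F)) [P.IsPrime]
    (ℓ : ℕ) (hℓ : ℓ.Prime) (hℓP : (ℓ : 𝓞 F) ∈ P) : Nat.card (ℤ ⧸ P.under ℤ) = ℓ := by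
  have hmem : (ℓ : ℤ) ∈ P.under ℤ := by
    rw [Ideal.under_def, Ideal.mem_comap]
    simpa using hℓP
  have hle : Ideal.span {(ℓ : ℤ)} ≤ P.under ℤ := by
    rw [Ideal.span_le]
    intro x hx
    rw [Set.mem_singleton_iff] at hx
    rw [hx]
    exact hmem
  haveI : Fact ℓ.Prime := ⟨hℓ⟩
  haveI : (Ideal.span {(ℓ : ℤ)}).IsMaximal := Int.ideal_span_isMaximal_of_prime ℓ
  have hne : P.under ℤ ≠ ⊤ := Ideal.IsPrime.ne_top inferInstance
  have heq : Ideal.span {(ℓ : ℤ)} = P.under ℤ :=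
    Ideal.IsMaximal.eq_of_le inferInstance hne hle
  rw [← heq, Nat.card_congr (Int.quotientSpanNatEquivZMod ℓ).toEquiv, Nat.card_zmod]

/-- The generator form of weak Chebotarev. -/
def WeakChebotarevGen : Prop :=
  ∀ (F : IntermediateField ℚ (AlgebraicClosure ℚ)) [FiniteDimensional ℚ F] [IsGalois ℚ F]
    (S : Finset ℕ) (σ : AlgebraicClosure ℚ ≃ₐ[ℚ] AlgebraicClosure ℚ),
    ∃ (ℓ : ℕ) (A : ValuationSubring (AlgebraicClosure ℚ))
      (τ : AlgebraicClosure ℚ ≃ₐ[ℚ] AlgebraicClosure ℚ) (m k : ℕ),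
      ℓ.Prime ∧ ℓ ∉ S ∧ A.LiesOverPrime ℓ ∧ A.IsFrobeniusAt τ ℓ ∧
        (∀ x ∈ F, (τ ^ m) x = σ x) ∧ (∀ x ∈ F, (σ ^ k) x = τ x)

theorem weakChebotarevGen (hC : StmtCyclic) (hS : StmtStab) (hG : StmtGlue) :
    WeakChebotarevGen := by
  intro F _ _ S σ
  haveI : NumberField F :=
    { to_charZero := inferInstance, to_finiteDimensional := inferInstance }
  let σF : F ≃ₐ[ℚ] F := AlgEquiv.restrictNormal σ F
  have hσF : ∀ x : F, ((σF x : F) : AlgebraicClosure ℚ) = σ x := fun x =>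
    AlgEquiv.restrictNormal_commutes σ F x
  let H : Subgroup (F ≃ₐ[ℚ] F) := Subgroup.zpowers σF
  let E : IntermediateField ℚ F := IntermediateField.fixedField H
  haveI : NumberField E :=
    { to_charZero := inferInstance, to_finiteDimensional := inferInstance }
  have hfix : E.fixingSubgroup = H := IntermediateField.fixingSubgroup_fixedField H
  haveI : IsCyclic H := inferInstance
  haveI : IsCyclic E.fixingSubgroup := hfix ▸ ‹IsCyclic H›
  haveI : IsCyclic (F ≃ₐ[E] F) :=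
    isCyclic_of_surjective (IntermediateField.fixingSubgroupEquiv E)
      (IntermediateField.fixingSubgroupEquiv E).surjective
  obtain ⟨T, hT⟩ := C5.exists_finset_discr F
  obtain ⟨v, hvp, hvS, hv1⟩ := hC E F (S ∪ T)
  obtain ⟨P, hP⟩ := Set.ncard_eq_one.mp hv1
  have hPmem : P ∈ Ideal.primesOver v.asIdeal (𝓞 F) := by rw [hP]; exact Set.mem_singleton P
  haveI : P.IsPrime := hPmem.1
  have hPv : P.LiesOver v.asIdeal := hPmem.2
  have hPbot : P ≠ ⊥ := Ideal.ne_bot_of_mem_primesOver v.ne_bot hPmem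
  have hℓP : ((Ideal.absNorm v.asIdeal : ℕ) : 𝓞 F) ∈ P := by
    have h1 : ((Ideal.absNorm v.asIdeal : ℕ) : 𝓞 E) ∈ v.asIdeal := Ideal.absNorm_mem v.asIdeal
    have h2 := (Ideal.mem_of_liesOver P v.asIdeal _).mp h1
    rwa [map_natCast] at h2
  have hnd : ¬ ((Ideal.absNorm v.asIdeal : ℕ) : ℤ) ∣ discr F := fun h =>
    hvS (Finset.mem_union_right _ (hT _ hvp h))
  have hunr : Algebra.IsUnramifiedAt ℤ P :=
    (not_dvd_discr_iff_forall_mem F (𝓞 F) (Nat.prime_iff_prime_int.mp hvp)).mp hnd P inferInstance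
      (by rw [Int.cast_natCast]; exact hℓP)
  have hσmem : σF⁻¹ ∈ E.fixingSubgroup := by
    rw [hfix]
    exact Subgroup.inv_mem _ (Subgroup.mem_zpowers σF)
  have hstab : σF • P = P := by
    have := C5.smul_mem_primesOver E σF (fun x => hσmem x) v.asIdeal P hPmem
    rw [hP] at this
    exact this
  obtain ⟨φ, m, hφ, hσφ⟩ := hS F P hPbot hunr σF hstab
  obtain ⟨A, τ, hA, hτ, hτφ⟩ := hG F P _ hvp hℓP hunr φ hφ
  -- the new part: `φ` is a power of `σF`
  have hdeg : Nat.card (𝓞 E ⧸ P.under (𝓞 E)) = Nat.card (ℤ ⧸ P.under ℤ) := by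
    rw [Strong.card_under_int P _ hvp hℓP, ← hPv.over, Ideal.absNorm_apply,
      Submodule.cardQuot_apply]
  have hφH : φ ∈ H := by
    rw [← hfix]
    exact Strong.frob_mem_fixingSubgroup E P hPbot hunr hdeg φ hφ
  have hfin : IsOfFinOrder σF := isOfFinOrder_of_finite σF
  obtain ⟨k, hk⟩ := (hfin.mem_powers_iff_mem_zpowers).mpr hφH
  refine ⟨_, A, τ, m, k, hvp, fun h => hvS (Finset.mem_union_left _ h), hA, hτ, ?_, ?_⟩
  · intro x hx
    rw [C5.pow_apply_of_restrict τ φ hτφ m ⟨x, hx⟩, ← hσφ]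
    exact hσF ⟨x, hx⟩
  · intro x hx
    rw [C5.pow_apply_of_restrict σ σF (fun y => (hσF y).symm) k ⟨x, hx⟩]
    have hk' : σF ^ k = φ := hk
    rw [hk']
    exact (hτφ ⟨x, hx⟩).symm

/-- **Weak Chebotarev, generator form.** -/
theorem weakChebotarevGen_holds : WeakChebotarevGen :=
  weakChebotarevGen (stmtCyclic stmtPrimeSum (stmtSplit stmtPrimeSum) stmtCyclicSplit)
    stmtStab stmtGlue

/-- Unfolded form of `weakChebotarevGen_holds`: there are a prime `ℓ ∉ S` and a Frobenius `τ` at a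
place `A` of `ℚ̄` over `ℓ` such that `τ|F` and `σ|F` are powers of each other. -/
theorem exists_frobenius_generator (F : IntermediateField ℚ (AlgebraicClosure ℚ))
    [FiniteDimensional ℚ F] [IsGalois ℚ F] (S : Finset ℕ)
    (σ : AlgebraicClosure ℚ ≃ₐ[ℚ] AlgebraicClosure ℚ) :
    ∃ (ℓ : ℕ) (A : ValuationSubring (AlgebraicClosure ℚ))
      (τ : AlgebraicClosure ℚ ≃ₐ[ℚ] AlgebraicClosure ℚ) (m k : ℕ),
      ℓ.Prime ∧ ℓ ∉ S ∧ A.LiesOverPrime ℓ ∧ A.IsFrobeniusAt τ ℓ ∧
        (∀ x ∈ F, (τ ^ m) x = σ x) ∧ (∀ x ∈ F, (σ ^ k) x = τ x) :=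
  weakChebotarevGen_holds F S σ

end Fermat.Agent.Cheb


end ZBCheb_002_3
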