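/- GENERATED FILE (helper35, build-time optimisation, NOTES/ZB.md): verbatim concatenation of the modules
   Fermat.Agent.ES.RiemannVal
   Do not edit; do not import together with these modules. -/
import Fermat.Agent.ZB.S24_007
import Fermat.Prelude.Def_AlgebraicCurve_Repartitions
import Fermat.Agent.ZB.S20_010

/-! ### bundled: `Fermat.Agent.ES.RiemannVal` -/
section ZBES_029_0

/-!
# ES shared input (R), piece R2d: from the norm relation to pole bounds

`F/K` with the prelude's places, `J x : F` with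

  `x ^ d + ∑_{j=1}^{d} (∑_{i < m j} a j i • J ^ i) * x ^ (d - j) = 0`     (`a j i ∈ K`).

Then at every place `v`:
* `val_le_one_of_rel`       : `v(J) ≤ 1 → v(x) ≤ 1`  (`x` is integral over `K[J]`);
* `val_le_of_rel`           : `1 < v(J) → v(x) ≤ exp (-1) * v(J) ^ m`
  (`x J⁻ᵐ` is integral over `K[J⁻¹]` with nilpotent reduction).
-/

set_option autoImplicit false

open AlgebraicCurve WithZero

namespace Fermat.Agent.ES.R

variable {K F : Type*} [Field K] [Field F] [Algebra K F]

/-- values `< 1` are `≤ exp (-1)`. -/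
theorem le_exp_neg_one_of_lt_one {y : ℤᵐ⁰} (h : y < 1) : y ≤ exp (-1) := by
  rcases eq_or_ne y 0 with rfl | hy
  · exact zero_le
  · obtain ⟨n, rfl⟩ : ∃ n : ℤ, y = exp n := ⟨log y, (exp_log hy).symm⟩
    rw [← exp_zero, exp_lt_exp] at h
    rw [exp_le_exp]
    omega

theorem val_smul_le (v : Place K F) (a : K) (y : F) :
    v.adicValuation (a • y) ≤ v.adicValuation y := by
  rw [Algebra.smul_def, map_mul]
  exact mul_le_of_le_one_left' (v.adicValuation_algebraMap_le_one a)

/-- `x` is integral at the places where `J` is. -/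
theorem val_le_one_of_rel (v : Place K F) (d m : ℕ) (a : ℕ → ℕ → K) (J x : F)
    (hrel : x ^ d + ∑ j ∈ Finset.Icc 1 d,
      (∑ i ∈ Finset.range (m * j), a j i • J ^ i) * x ^ (d - j) = 0)
    (hJ : v.adicValuation J ≤ 1) : v.adicValuation x ≤ 1 := by
  by_contra hx
  rw [not_le] at hx
  set w := v.adicValuation with hw
  have hx0 : w x ≠ 0 := (zero_lt_one.trans hx).ne'
  have hcoef : ∀ j, w (∑ i ∈ Finset.range (m * j), a j i • J ^ i) ≤ 1 := fun j => by
    refine Valuation.map_sum_le w fun i _ => ?_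
    refine (val_smul_le v _ _).trans ?_
    rw [map_pow]
    exact pow_le_one' hJ i
  have hlt : w (∑ j ∈ Finset.Icc 1 d,
      (∑ i ∈ Finset.range (m * j), a j i • J ^ i) * x ^ (d - j)) < w x ^ d := by
    refine Valuation.map_sum_lt w (pow_ne_zero d hx0) fun j hj => ?_
    obtain ⟨hj1, hjd⟩ := Finset.mem_Icc.mp hj
    rw [map_mul, map_pow]
    calc w (∑ i ∈ Finset.range (m * j), a j i • J ^ i) * w x ^ (d - j)
        ≤ 1 * w x ^ (d - j) := mul_le_mul_left (hcoef j) _
      _ = w x ^ (d - j) := one_mul _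
      _ < w x ^ d := pow_lt_pow_right₀ hx (by omega)
  have heq : x ^ d = -∑ j ∈ Finset.Icc 1 d,
      (∑ i ∈ Finset.range (m * j), a j i • J ^ i) * x ^ (d - j) :=
    eq_neg_of_add_eq_zero_left hrel
  have : w (x ^ d) < w x ^ d := by rw [heq, Valuation.map_neg]; exact hlt
  rw [map_pow] at this
  exact lt_irrefl _ this

/-- At a pole of `J` the function `x` has a pole of order `< m · (pole order of J)`. -/
theorem val_le_of_rel (v : Place K F) (d m : ℕ) (a : ℕ → ℕ → K) (J x : F)
    (hrel : x ^ d + ∑ j ∈ Finset.Icc 1 d,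
      (∑ i ∈ Finset.range (m * j), a j i • J ^ i) * x ^ (d - j) = 0)
    (hJ : 1 < v.adicValuation J) :
    v.adicValuation x ≤ exp (-1) * v.adicValuation J ^ m := by
  set w := v.adicValuation with hw
  have hJ0 : w J ≠ 0 := (zero_lt_one.trans hJ).ne'
  have hJF : J ≠ 0 := fun h => hJ0 (by rw [h, map_zero])
  set u : F := x * (J ^ m)⁻¹ with hu
  have hxu : x = u * J ^ m := by
    rw [hu, mul_assoc, inv_mul_cancel₀ (pow_ne_zero m hJF), mul_one]
  suffices hlt : w u < 1 by
    rw [hxu, map_mul, map_pow]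
    exact mul_le_mul_left (le_exp_neg_one_of_lt_one hlt) _
  by_contra hu1
  rw [not_lt] at hu1
  have hu0 : w u ≠ 0 := (zero_lt_one.trans_le hu1).ne'
  have ht : w J⁻¹ < 1 := by
    rw [map_inv₀]
    exact inv_lt_one_of_one_lt₀ hJ
  -- the relation for `u`
  have hrelu : u ^ d + ∑ j ∈ Finset.Icc 1 d,
      (∑ i ∈ Finset.range (m * j), a j i • J⁻¹ ^ (m * j - i)) * u ^ (d - j) = 0 := by
    have hJd : (J ^ m) ^ d ≠ 0 := pow_ne_zero d (pow_ne_zero m hJF)
    have h1 : (u ^ d + ∑ j ∈ Finset.Icc 1 d,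
        (∑ i ∈ Finset.range (m * j), a j i • J⁻¹ ^ (m * j - i)) * u ^ (d - j)) * (J ^ m) ^ d
        = x ^ d + ∑ j ∈ Finset.Icc 1 d,
          (∑ i ∈ Finset.range (m * j), a j i • J ^ i) * x ^ (d - j) := by
      rw [add_mul, Finset.sum_mul, ← mul_pow, ← hxu]
      congr 1
      refine Finset.sum_congr rfl fun j hj => ?_
      obtain ⟨hj1, hjd⟩ := Finset.mem_Icc.mp hj
      have hsplit : (J ^ m) ^ d = (J ^ m) ^ j * (J ^ m) ^ (d - j) := by
        rw [← pow_add, Nat.add_sub_cancel' hjd]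
      rw [hsplit, hxu, mul_pow u, Finset.sum_mul, Finset.sum_mul]
      have : ∀ i ∈ Finset.range (m * j),
          a j i • J⁻¹ ^ (m * j - i) * u ^ (d - j) * ((J ^ m) ^ j * (J ^ m) ^ (d - j))
            = a j i • J ^ i * (u ^ (d - j) * (J ^ m) ^ (d - j)) := by
        intro i hi
        have hi' : i < m * j := Finset.mem_range.mp hi
        have hJpow : J⁻¹ ^ (m * j - i) * (J ^ m) ^ j = J ^ i := by
          rw [← pow_mul, inv_pow]
          have : J ^ (m * j) = J ^ (m * j - i) * J ^ i := by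
            rw [← pow_add, Nat.sub_add_cancel hi'.le]
          rw [this, ← mul_assoc, inv_mul_cancel₀ (pow_ne_zero _ hJF), one_mul]
        rw [smul_mul_assoc, smul_mul_assoc, smul_mul_assoc]
        congr 1
        rw [← hJpow]
        ring
      rw [Finset.sum_mul]
      exact Finset.sum_congr rfl this
    rw [hrel] at h1
    exact (mul_eq_zero.mp h1).resolve_right hJd
  have hcoef : ∀ j, 1 ≤ j → w (∑ i ∈ Finset.range (m * j), a j i • J⁻¹ ^ (m * j - i)) < 1 := by
    intro j _
    refine Valuation.map_sum_lt w one_ne_zero fun i hi => ?_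
    have hi' : i < m * j := Finset.mem_range.mp hi
    refine (val_smul_le v _ _).trans_lt ?_
    rw [map_pow]
    exact pow_lt_one₀ zero_le ht (by omega)
  have hlt : w (∑ j ∈ Finset.Icc 1 d,
      (∑ i ∈ Finset.range (m * j), a j i • J⁻¹ ^ (m * j - i)) * u ^ (d - j)) < w u ^ d := by
    refine Valuation.map_sum_lt w (pow_ne_zero d hu0) fun j hj => ?_
    obtain ⟨hj1, hjd⟩ := Finset.mem_Icc.mp hj
    rw [map_mul, map_pow]
    have hpos : 0 < w u ^ (d - j) := pow_pos (zero_lt_one.trans_le hu1) _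
    calc w (∑ i ∈ Finset.range (m * j), a j i • J⁻¹ ^ (m * j - i)) * w u ^ (d - j)
        < 1 * w u ^ (d - j) := by
          exact mul_lt_mul_of_pos_right (hcoef j hj1) hpos
      _ = w u ^ (d - j) := one_mul _
      _ ≤ w u ^ d := pow_le_pow_right₀ hu1 (by omega)
  have heq : u ^ d = -∑ j ∈ Finset.Icc 1 d,
      (∑ i ∈ Finset.range (m * j), a j i • J⁻¹ ^ (m * j - i)) * u ^ (d - j) :=
    eq_neg_of_add_eq_zero_left hrelu
  have : w (u ^ d) < w u ^ d := by rw [heq, Valuation.map_neg]; exact hlt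
  rw [map_pow] at this
  exact lt_irrefl _ this

end Fermat.Agent.ES.R


end ZBES_029_0
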