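/- GENERATED FILE (helper35, build-time optimisation, NOTES/ZB.md): verbatim concatenation of the modules
   Fermat.Agent.ES.I2aux.NilpTrace
   Do not edit; do not import together with these modules. -/
import Mathlib.RingTheory.Trace.Quotient
import Mathlib.LinearAlgebra.Trace
import Mathlib.RingTheory.Nilpotent.Lemmas
import Mathlib.LinearAlgebra.Eigenspace.Zero
import Fermat.Agent.ZB.ES_029

/-! ### bundled: `Fermat.Agent.ES.I2aux.NilpTrace` -/
section ZBES_030_0

/-!
# ES / I2aux: the trace of an element that is nilpotent modulo a maximal ideal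

`R` a Dedekind domain, `S` a finite torsion-free integrally closed domain over `R` (the integral
closure of `R` in a finite separable extension of its fraction field), `p` a maximal ideal of `R`.
If `x ∈ S` and `x ^ e ∈ p S`, then `Tr_{S/R} x ∈ p` (`nilpTrace_intTrace_mem`), and the same for
`w * x` with `w ∈ S` (`nilpTrace_intTrace_mul_mem`).

Used for `R = k[j]` (`ℓ ≥ 5`, `p = (j)`, `(j - 1728)`) and for `R = k[h, h⁻¹]`
(`ℓ ∈ {2, 3}`, `p = (h - c₀)`).
-/

set_option autoImplicit false

namespace Fermat.Agent.ES.I2aux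

open Module

/-- the trace of a nilpotent element of a finite free algebra over a field is `0` -/
theorem nilpTrace_trace_eq_zero {k B : Type*} [Field k] [CommRing B] [Algebra k B]
    [Module.Finite k B] (x : B) (hx : IsNilpotent x) : Algebra.trace k B x = 0 := by
  have h1 : IsNilpotent (Algebra.lmul k B x) := hx.map (Algebra.lmul k B)
  rw [Algebra.trace_apply]
  exact (LinearMap.isNilpotent_trace_of_isNilpotent h1).eq_zero

variable {R S : Type*} [CommRing R] [CommRing S] [Algebra R S] [IsDedekindDomain R] [IsDomain S]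
  [Module.IsTorsionFree R S] [Module.Finite R S] [IsIntegrallyClosed S]

/-- `x ^ e ∈ p S` ⇒ `Tr_{S/R} x ∈ p`. -/
theorem nilpTrace_intTrace_mem (p : Ideal R) [p.IsMaximal] (x : S) (e : ℕ)
    (hx : x ^ e ∈ p.map (algebraMap R S)) : Algebra.intTrace R S x ∈ p := by
  have h1 := Algebra.trace_quotient_eq_of_isDedekindDomain S p x
  have h2 : IsNilpotent (Ideal.Quotient.mk (p.map (algebraMap R S)) x) := by
    refine ⟨e, ?_⟩
    rw [← map_pow]
    exact Ideal.Quotient.eq_zero_iff_mem.2 hx
  let _ : Field (R ⧸ p) := Ideal.Quotient.field p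
  have : Module.Finite R (S ⧸ p.map (algebraMap R S)) := inferInstance
  have : Module.Finite (R ⧸ p) (S ⧸ p.map (algebraMap R S)) :=
    Module.Finite.of_restrictScalars_finite R (R ⧸ p) (S ⧸ p.map (algebraMap R S))
  have h3 : Algebra.trace (R ⧸ p) (S ⧸ p.map (algebraMap R S))
      (Ideal.Quotient.mk (p.map (algebraMap R S)) x) = 0 :=
    nilpTrace_trace_eq_zero _ h2
  rw [h1] at h3
  exact Ideal.Quotient.eq_zero_iff_mem.1 h3

/-- `x ^ e ∈ p S`, `w ∈ S` ⇒ `Tr_{S/R} (w x) ∈ p`. -/
theorem nilpTrace_intTrace_mul_mem (p : Ideal R) [p.IsMaximal] (w x : S) (e : ℕ)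
    (hx : x ^ e ∈ p.map (algebraMap R S)) : Algebra.intTrace R S (w * x) ∈ p := by
  refine nilpTrace_intTrace_mem p (w * x) e ?_
  rw [mul_pow]
  exact Ideal.mul_mem_left _ _ hx

end Fermat.Agent.ES.I2aux


end ZBES_030_0
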