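/- GENERATED FILE (helper35, build-time optimisation, NOTES/ZB.md): verbatim concatenation of the modules
   Fermat.Agent.S13.EDS
   Do not edit; do not import together with these modules. -/
import Mathlib.NumberTheory.EllipticDivisibilitySequence
import Mathlib.Algebra.MvPolynomial.CommRing
import Mathlib.RingTheory.Polynomial.Basic
import Mathlib.Tactic
import Fermat.Agent.ZB.ES_030

/-! ### bundled: `Fermat.Agent.S13.EDS` -/
section ZBS13_002_0

/-!
# S13 P1a — the elliptic relations for Mathlib's `normEDS`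

Main results (for every commutative ring `R`, `b c d : R`, `W := normEDS b c d`):

* `normEDS_rel`: `W (m + n) * W (m - n) = W (m + 1) * W (m - 1) * W n ^ 2 - W (n + 1) * W (n - 1) * W m ^ 2`;
* `normEDS_somos4`: `W (m + 2) * W (m - 2) = W (m + 1) * W (m - 1) * b ^ 2 - c * W m ^ 2`;
* `normEDS_rel₃`: `W (m+n) W (m-n) W r ^ 2 = W (m+r) W (m-r) W n ^ 2 - W (n+r) W (n-r) W m ^ 2`;
* `normEDS_isEllipticSequence`: Mathlib's `IsEllipticSequence (normEDS b c d)`.

Proof: strong induction on the top index, simultaneously for the "even system" of atoms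
`W (x + y) W (x - y)` and the "odd system" `W (x + y + 1) W (x - y)`; each relation of top index `s`
is (duality) literally a relation whose top atom is `W s * W 1`, and that one follows (Plücker)
from the defining recurrence of `W s` and relations of smaller top index.
-/

set_option autoImplicit false

namespace Fermat.Agent.S13

variable {R : Type*} [CommRing R]

/-- even-system atom (half-indices): `W (x + y) * W (x - y)` -/
def edsA0 (W : ℤ → R) (x y : ℤ) : R := W (x + y) * W (x - y)

/-- odd-system atom (half-indices): `W (x + y + 1) * W (x - y)` -/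
def edsA1 (W : ℤ → R) (x y : ℤ) : R := W (x + y + 1) * W (x - y)

/-- the three-term relation for an atom function -/
def edsRel (A : ℤ → ℤ → R) (a b c d : ℤ) : R := A a b * A c d - A a c * A b d + A a d * A b c

/-- Plücker: every relation is a combination of the relations with base pair `(1, 0)`. -/
theorem edsRel_plucker (A : ℤ → ℤ → R) (a b c d : ℤ) :
    A 1 0 ^ 2 * edsRel A a b c d =
      (A 1 0 * A c d) * edsRel A a b 1 0 + (A a 1 * A b 0 - A a 0 * A b 1) * edsRel A c d 1 0
      - (A 1 0 * A b d) * edsRel A a c 1 0 - (A a 1 * A c 0 - A a 0 * A c 1) * edsRel A b d 1 0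
      + (A 1 0 * A b c) * edsRel A a d 1 0 + (A a 1 * A d 0 - A a 0 * A d 1) * edsRel A b c 1 0 := by
  unfold edsRel
  ring

theorem edsRel_eq_zero_of_base [NoZeroDivisors R] (A : ℤ → ℤ → R) (hA : A 1 0 ≠ 0) (a b c d : ℤ)
    (hab : edsRel A a b 1 0 = 0) (hcd : edsRel A c d 1 0 = 0) (hac : edsRel A a c 1 0 = 0)
    (hbd : edsRel A b d 1 0 = 0) (had : edsRel A a d 1 0 = 0) (hbc : edsRel A b c 1 0 = 0) :
    edsRel A a b c d = 0 := by
  have h := edsRel_plucker A a b c d
  rw [hab, hcd, hac, hbd, had, hbc] at h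
  simp only [mul_zero, add_zero, sub_zero] at h
  rcases mul_eq_zero.1 h with h | h
  · exact absurd (pow_eq_zero_iff (two_ne_zero)|>.1 h) hA
  · exact h

/-- duality, case `ε = 0`, odd top index -/
theorem edsDual00 (W : ℤ → R) (u v : ℤ) :
    edsRel (edsA0 W) (v + u + 1) (v - u) 1 0 = edsRel (edsA0 W) (v + 1) v (u + 1) u := by
  unfold edsRel edsA0
  ring_nf

/-- duality, case `ε = 0`, even top index -/
theorem edsDual01 (W : ℤ → R) (u v : ℤ) :
    edsRel (edsA0 W) (v + u) (v - u) 1 0 = edsRel (edsA1 W) v (v - 1) u (u - 1) := by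
  unfold edsRel edsA0 edsA1
  ring_nf

/-- duality, case `ε = 1`, odd top index -/
theorem edsDual10 (W : ℤ → R) (u v : ℤ) :
    edsRel (edsA1 W) (v + u) (v - u) 1 0 = edsRel (edsA0 W) (v + 1) v (u + 1) (u - 1) := by
  unfold edsRel edsA0 edsA1
  ring_nf

/-- duality, case `ε = 1`, even top index -/
theorem edsDual11 (W : ℤ → R) (u v : ℤ) :
    edsRel (edsA1 W) (v + u) (v - u - 1) 1 0 = edsRel (edsA1 W) v (v - 1) (u + 1) (u - 1) := by
  unfold edsRel edsA1
  ring_nf

/-- The hypotheses on a sequence `W : ℤ → R` under which we prove the elliptic relations: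
it is odd, normalised, and satisfies the two duplication recurrences. -/
structure EdsHyp (W : ℤ → R) : Prop where
  zero : W 0 = 0
  one : W 1 = 1
  neg : ∀ n, W (-n) = -W n
  odd : ∀ m, W (2 * m + 1) = W (m + 2) * W m ^ 3 - W (m - 1) * W (m + 1) ^ 3
  even : ∀ m, W (2 * m) * W 2 =
    W (m - 1) ^ 2 * W m * W (m + 2) - W (m - 2) * W m * W (m + 1) ^ 2

namespace EdsHyp

variable {W : ℤ → R} (h : EdsHyp W)
include h

theorem negOne : W (-1) = -1 := by rw [h.neg, h.one]

theorem e0_zero (i : ℤ) : edsRel (edsA0 W) i 0 1 0 = 0 := by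
  have h0 := h.zero; have h1 := h.one; have hn := h.negOne
  simp only [edsRel, edsA0, add_zero, sub_zero, zero_add, zero_sub, h0, h1, hn]
  ring

theorem e0_one (i : ℤ) : edsRel (edsA0 W) i 1 1 0 = 0 := by
  have h0 := h.zero
  simp only [edsRel, edsA0, sub_self, h0]
  ring

theorem e1_zero (i : ℤ) : edsRel (edsA1 W) i 0 1 0 = 0 := by
  have h0 := h.zero; have h1 := h.one; have hn := h.negOne
  simp only [edsRel, edsA1, add_zero, sub_zero, zero_add, zero_sub, sub_self, h0, h1, hn]
  ring

theorem e1_one (i : ℤ) : edsRel (edsA1 W) i 1 1 0 = 0 := by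
  have h0 := h.zero
  simp only [edsRel, edsA1, sub_self, h0]
  ring

theorem e0_succ (j : ℤ) : edsRel (edsA0 W) (j + 1) j 1 0 = 0 := by
  have h1 := h.one
  have ho := h.odd j
  simp only [edsRel, edsA0]
  ring_nf
  simp only [h1, one_pow, mul_one]
  linear_combination (norm := ring_nf) ho

theorem e0_succ_succ (j : ℤ) : edsRel (edsA0 W) (j + 2) j 1 0 = 0 := by
  have h1 := h.one
  have he := h.even (j + 1)
  simp only [edsRel, edsA0]
  ring_nf
  simp only [h1, one_pow, mul_one]
  linear_combination (norm := ring_nf) he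

theorem e1_succ (j : ℤ) : edsRel (edsA1 W) (j + 1) j 1 0 = 0 := by
  have h1 := h.one
  have he := h.even (j + 1)
  simp only [edsRel, edsA1]
  ring_nf
  simp only [h1, one_pow, mul_one]
  linear_combination (norm := ring_nf) he

theorem e1_pred (v : ℤ) : edsRel (edsA1 W) v (v - 1) 1 0 = 0 := by
  have := h.e1_succ (v - 1)
  rwa [sub_add_cancel] at this

theorem e0_pred (v : ℤ) : edsRel (edsA0 W) (v + 1) (v - 1) 1 0 = 0 := by
  have := h.e0_succ_succ (v - 1)
  rwa [show v - 1 + 2 = v + 1 by ring] at this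

theorem a0_ne (h2 : W 2 ≠ 0) : edsA0 W 1 0 ≠ 0 := by
  have h1 := h.one
  simp only [edsA0, add_zero, sub_zero, h1, mul_one]
  intro h10
  exact h2 (by rw [← mul_one (W 2), h10, mul_zero])

theorem a1_ne (h2 : W 2 ≠ 0) : edsA1 W 1 0 ≠ 0 := by
  have h1 := h.one
  simp only [edsA1, add_zero, sub_zero, h1, mul_one]
  exact h2

section Main

variable [NoZeroDivisors R]

/-- The main induction: all relations with base pair `(1, 0)`, in both systems, by induction on the
top index. -/
theorem main (h2 : W 2 ≠ 0) (N : ℕ) : ∀ i j : ℤ, 0 ≤ j → j < i →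
    (i + j ≤ N → edsRel (edsA0 W) i j 1 0 = 0) ∧
    (i + j + 1 ≤ N → edsRel (edsA1 W) i j 1 0 = 0) := by
  induction N with
  | zero =>
    intro i j hj hij
    constructor <;> intro hN <;> exfalso <;> omega
  | succ N ih =>
    intro i j hj hij
    have ih0 : ∀ x y : ℤ, 0 ≤ y → y < x → x + y ≤ N → edsRel (edsA0 W) x y 1 0 = 0 :=
      fun x y hy hxy hN => (ih x y hy hxy).1 hN
    have ih1 : ∀ x y : ℤ, 0 ≤ y → y < x → x + y + 1 ≤ N → edsRel (edsA1 W) x y 1 0 = 0 :=
      fun x y hy hxy hN => (ih x y hy hxy).2 hN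
    constructor
    · intro hN
      rcases eq_or_lt_of_le hj with rfl | hj0
      · exact h.e0_zero i
      rcases eq_or_lt_of_le (show (1 : ℤ) ≤ j by omega) with rfl | hj1
      · exact h.e0_one i
      rcases eq_or_lt_of_le (show j + 1 ≤ i by omega) with rfl | hi1
      · exact h.e0_succ j
      rcases eq_or_lt_of_le (show j + 2 ≤ i by omega) with rfl | hi2
      · exact h.e0_succ_succ j
      by_cases hlt : i + j ≤ N
      · exact ih0 i j hj hij hlt
      rcases Int.even_or_odd' (i + j) with ⟨v, hv | hv⟩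
      · -- even top index
        obtain ⟨u, rfl⟩ : ∃ u, j = v - u := ⟨v - j, by ring⟩
        obtain rfl : i = v + u := by omega
        rw [edsDual01]
        refine edsRel_eq_zero_of_base _ (h.a1_ne h2) _ _ _ _ (h.e1_pred v) (h.e1_pred u)
          (ih1 _ _ ?_ ?_ ?_) (ih1 _ _ ?_ ?_ ?_) (ih1 _ _ ?_ ?_ ?_) (ih1 _ _ ?_ ?_ ?_) <;> omega
      · -- odd top index
        obtain ⟨u, rfl⟩ : ∃ u, j = v - u := ⟨v - j, by ring⟩
        obtain rfl : i = v + u + 1 := by omega
        rw [edsDual00]
        refine edsRel_eq_zero_of_base _ (h.a0_ne h2) _ _ _ _ (h.e0_succ v) (h.e0_succ u)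
          (ih0 _ _ ?_ ?_ ?_) (ih0 _ _ ?_ ?_ ?_) (ih0 _ _ ?_ ?_ ?_) (ih0 _ _ ?_ ?_ ?_) <;> omega
    · intro hN
      rcases eq_or_lt_of_le hj with rfl | hj0
      · exact h.e1_zero i
      rcases eq_or_lt_of_le (show (1 : ℤ) ≤ j by omega) with rfl | hj1
      · exact h.e1_one i
      rcases eq_or_lt_of_le (show j + 1 ≤ i by omega) with rfl | hi1
      · exact h.e1_succ j
      by_cases hlt : i + j + 1 ≤ N
      · exact ih1 i j hj hij hlt
      rcases Int.even_or_odd' (i + j + 1) with ⟨v, hv | hv⟩
      · -- even top index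
        obtain ⟨u, rfl⟩ : ∃ u, j = v - u - 1 := ⟨v - j - 1, by ring⟩
        obtain rfl : i = v + u := by omega
        rw [edsDual11]
        refine edsRel_eq_zero_of_base _ (h.a1_ne h2) _ _ _ _ (h.e1_pred v) (ih1 _ _ ?_ ?_ ?_)
          (ih1 _ _ ?_ ?_ ?_) (ih1 _ _ ?_ ?_ ?_) (ih1 _ _ ?_ ?_ ?_) (ih1 _ _ ?_ ?_ ?_) <;> omega
      · -- odd top index
        obtain ⟨u, rfl⟩ : ∃ u, j = v - u := ⟨v - j, by ring⟩
        obtain rfl : i = v + u := by omega
        rw [edsDual10]
        refine edsRel_eq_zero_of_base _ (h.a0_ne h2) _ _ _ _ (h.e0_succ v) (h.e0_pred u)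
          (ih0 _ _ ?_ ?_ ?_) (ih0 _ _ ?_ ?_ ?_) (ih0 _ _ ?_ ?_ ?_) (ih0 _ _ ?_ ?_ ?_) <;> omega

end Main

section Rel

variable [NoZeroDivisors R]

/-- The elliptic relation (with `r = 1`) for `0 ≤ n < m`. -/
theorem rel_of_lt (h2 : W 2 ≠ 0) {m n : ℤ} (hn : 0 ≤ n) (hnm : n < m) :
    W (m + n) * W (m - n) = W (m + 1) * W (m - 1) * W n ^ 2 - W (n + 1) * W (n - 1) * W m ^ 2 := by
  have key := (h.main h2 (m + n).toNat m n hn hnm).1 (by omega)
  have h1 := h.one
  simp only [edsRel, edsA0, add_zero, sub_zero, h1, mul_one] at key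
  linear_combination key

/-- The elliptic relation (with `r = 1`) for `0 ≤ m`, `0 ≤ n`. -/
theorem rel_of_nonneg (h2 : W 2 ≠ 0) {m n : ℤ} (hm : 0 ≤ m) (hn : 0 ≤ n) :
    W (m + n) * W (m - n) = W (m + 1) * W (m - 1) * W n ^ 2 - W (n + 1) * W (n - 1) * W m ^ 2 := by
  rcases lt_trichotomy n m with hlt | rfl | hlt
  · exact h.rel_of_lt h2 hn hlt
  · rw [sub_self, h.zero]; ring
  · have key := h.rel_of_lt h2 hm hlt
    have e : W (m - n) = -W (n - m) := by rw [← h.neg]; congr 1; ring
    rw [e, add_comm m n]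
    linear_combination -key

/-- The elliptic relation (with `r = 1`) for all integers, in a domain with `W 2 ≠ 0`. -/
theorem rel_of_ne (h2 : W 2 ≠ 0) (m n : ℤ) :
    W (m + n) * W (m - n) = W (m + 1) * W (m - 1) * W n ^ 2 - W (n + 1) * W (n - 1) * W m ^ 2 := by
  -- reduce to `0 ≤ n`
  have step : ∀ m n : ℤ, 0 ≤ m →
      W (m + n) * W (m - n) =
        W (m + 1) * W (m - 1) * W n ^ 2 - W (n + 1) * W (n - 1) * W m ^ 2 := by
    intro m n hm
    rcases le_total 0 n with hn | hn
    · exact h.rel_of_nonneg h2 hm hn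
    · have key := h.rel_of_nonneg h2 hm (show 0 ≤ -n by omega)
      have e1 : W (-n) = -W n := h.neg n
      have e2 : W (-n + 1) = -W (n - 1) := by rw [← h.neg]; congr 1; ring
      have e3 : W (-n - 1) = -W (n + 1) := by rw [← h.neg]; congr 1; ring
      have e4 : m + -n = m - n := by ring
      have e5 : m - -n = m + n := by ring
      rw [e1, e2, e3, e4, e5] at key
      linear_combination key
  rcases le_total 0 m with hm | hm
  · exact step m n hm
  · have key := step (-m) (-n) (by omega)
    have e1 : W (-m) = -W m := h.neg m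
    have e2 : W (-m + 1) = -W (m - 1) := by rw [← h.neg]; congr 1; ring
    have e3 : W (-m - 1) = -W (m + 1) := by rw [← h.neg]; congr 1; ring
    have e4 : W (-m + -n) = -W (m + n) := by rw [← h.neg]; congr 1; ring
    have e5 : W (-m - -n) = -W (m - n) := by rw [← h.neg]; congr 1; ring
    have e6 : W (-n) = -W n := h.neg n
    have e7 : W (-n + 1) = -W (n - 1) := by rw [← h.neg]; congr 1; ring
    have e8 : W (-n - 1) = -W (n + 1) := by rw [← h.neg]; congr 1; ring
    rw [e1, e2, e3, e4, e5, e6, e7, e8] at key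
    linear_combination key

end Rel

end EdsHyp

section NormEDS

theorem normEDS_edsHyp (b c d : R) : EdsHyp (normEDS b c d) where
  zero := normEDS_zero b c d
  one := normEDS_one b c d
  neg := normEDS_neg b c d
  odd := normEDS_odd b c d
  even m := by rw [normEDS_two]; exact normEDS_even b c d m

/-- The universal case. -/
theorem normEDS_rel_univ (m n : ℤ) :
    let W := normEDS (MvPolynomial.X 0 : MvPolynomial (Fin 3) ℤ) (MvPolynomial.X 1)
      (MvPolynomial.X 2)
    W (m + n) * W (m - n) = W (m + 1) * W (m - 1) * W n ^ 2 - W (n + 1) * W (n - 1) * W m ^ 2 := by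
  intro W
  refine (normEDS_edsHyp _ _ _).rel_of_ne ?_ m n
  rw [normEDS_two]
  exact MvPolynomial.X_ne_zero 0

/-- **The elliptic relation for `normEDS`** (the case `r = 1` of the general relation), in any
commutative ring. -/
theorem normEDS_rel (b c d : R) (m n : ℤ) :
    normEDS b c d (m + n) * normEDS b c d (m - n) =
      normEDS b c d (m + 1) * normEDS b c d (m - 1) * normEDS b c d n ^ 2 -
        normEDS b c d (n + 1) * normEDS b c d (n - 1) * normEDS b c d m ^ 2 := by
  have key := congrArg (MvPolynomial.eval₂Hom (Int.castRingHom R) ![b, c, d])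
    (normEDS_rel_univ m n)
  simpa only [map_mul, map_sub, map_pow, map_normEDS, MvPolynomial.eval₂Hom_X',
    Matrix.cons_val_zero, Matrix.cons_val_one, Matrix.cons_val_two, Matrix.head_cons,
    Matrix.tail_cons, Matrix.cons_val] using key

/-- The general elliptic-sequence relation for `normEDS`. -/
theorem normEDS_rel₃ (b c d : R) (m n r : ℤ) :
    normEDS b c d (m + n) * normEDS b c d (m - n) * normEDS b c d r ^ 2 =
      normEDS b c d (m + r) * normEDS b c d (m - r) * normEDS b c d n ^ 2 -
        normEDS b c d (n + r) * normEDS b c d (n - r) * normEDS b c d m ^ 2 := by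
  linear_combination normEDS b c d r ^ 2 * normEDS_rel b c d m n
    - normEDS b c d n ^ 2 * normEDS_rel b c d m r + normEDS b c d m ^ 2 * normEDS_rel b c d n r

/-- Somos-4 for `normEDS`. -/
theorem normEDS_somos4 (b c d : R) (m : ℤ) :
    normEDS b c d (m + 2) * normEDS b c d (m - 2) =
      normEDS b c d (m + 1) * normEDS b c d (m - 1) * b ^ 2 - c * normEDS b c d m ^ 2 := by
  have key := normEDS_rel b c d m 2
  have e1 : (2 : ℤ) + 1 = 3 := by norm_num
  have e2 : (2 : ℤ) - 1 = 1 := by norm_num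
  rw [e1, e2, normEDS_two, normEDS_three, normEDS_one] at key
  linear_combination key

/-- `normEDS b c d` is an elliptic sequence (Mathlib's `IsEllipticSequence`). -/
theorem normEDS_isEllipticSequence (b c d : R) : IsEllipticSequence (normEDS b c d) := by
  intro p q r
  rw [IsEllipticNet.rel]
  simp only [add_zero]
  linear_combination normEDS_rel₃ b c d p q r

end NormEDS

end Fermat.Agent.S13


end ZBS13_002_0
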