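/- GENERATED FILE (helper35, build-time optimisation, NOTES/ZB.md): verbatim concatenation of the modules
   Fermat.Agent.S13.Descent
   Fermat.Agent.S13.ZeroTors
   Fermat.Agent.S13.MFSomos
   Fermat.Agent.EC.DivUniversal
   Do not edit; do not import together with these modules. -/
import Mathlib
import Fermat.Agent.ZB.HW_002
import Fermat.Agent.ZB.S05_002
import Fermat.Agent.ZB.S13_002

/-! ### bundled: `Fermat.Agent.S13.Descent` -/
section ZBS13_003_0

/-!
# S13 / P1c: descent for elliptic sequences ("zero ⇒ torsion" glue)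

Pure sequence lemmas: if `w : ℤ → K` satisfies the two-index elliptic relation, `r ≥ 2` is its
first zero and `w (r + 1) ≠ 0`, then every zero of `w` is a multiple of `r`.
-/

set_option autoImplicit false

namespace Fermat.Agent.S13

section Seq

variable {K : Type*} [Field K]

/-- The two-index elliptic relation for a sequence `w : ℤ → K`. -/
def EllRel (w : ℤ → K) : Prop :=
  ∀ m n : ℤ, w (m + n) * w (m - n) =
    w (m + 1) * w (m - 1) * w n ^ 2 - w (n + 1) * w (n - 1) * w m ^ 2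

/-- If `r ≥ 4` is the first zero of an elliptic sequence with `w 1 = 1`, then `w (r + 1) ≠ 0`. -/
theorem descent_succ_ne_zero {w : ℤ → K} (hrel : EllRel w) (h1 : w 1 = 1) (r : ℕ) (hr : 4 ≤ r)
    (hr0 : w r = 0) (hmin : ∀ k : ℕ, 0 < k → k < r → w k ≠ 0) : w (r + 1) ≠ 0 := by
  have h := hrel ((r : ℤ) - 1) 2
  have e1 : ((r : ℤ) - 1 + 2) = r + 1 := by ring
  have e2 : ((r : ℤ) - 1 - 2) = ((r - 3 : ℕ) : ℤ) := by
    have : 3 ≤ r := by omega
    push_cast [this]; ring
  have e3 : ((r : ℤ) - 1 + 1) = r := by ring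
  have e4 : ((r : ℤ) - 1 - 1) = ((r - 2 : ℕ) : ℤ) := by
    have : 2 ≤ r := by omega
    push_cast [this]; ring
  have e5 : ((2 : ℤ) + 1) = ((3 : ℕ) : ℤ) := by norm_num
  have e6 : ((2 : ℤ) - 1) = 1 := by norm_num
  have e7 : ((r : ℤ) - 1) = ((r - 1 : ℕ) : ℤ) := by
    have : 1 ≤ r := by omega
    push_cast [this]; ring
  rw [e1, e2, e3, e4, e5, e6, hr0, h1, e7] at h
  have h3 : w ((3 : ℕ) : ℤ) ≠ 0 := hmin 3 (by norm_num) (by omega)
  have hr1 : w ((r - 1 : ℕ) : ℤ) ≠ 0 := hmin (r - 1) (by omega) (by omega)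
  intro h0
  rw [h0] at h
  have : w ((3 : ℕ) : ℤ) * w ((r - 1 : ℕ) : ℤ) ^ 2 = 0 := by linear_combination h
  rcases mul_eq_zero.1 this with h' | h'
  · exact h3 h'
  · exact hr1 ((pow_eq_zero_iff (two_ne_zero)).1 h')

/-- Descent: the zeros of an elliptic sequence are multiples of its first zero `r`, provided
`w (r + 1) ≠ 0`. -/
theorem descent_dvd {w : ℤ → K} (hrel : EllRel w) (r : ℕ) (hr : 2 ≤ r)
    (hr0 : w r = 0) (hmin : ∀ k : ℕ, 0 < k → k < r → w k ≠ 0) (hr1 : w (r + 1) ≠ 0) :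
    ∀ n : ℕ, w n = 0 → r ∣ n := by
  have hrm : w ((r - 1 : ℕ) : ℤ) ≠ 0 := hmin (r - 1) (by omega) (by omega)
  have ermi : ((r - 1 : ℕ) : ℤ) = (r : ℤ) - 1 := by
    have : 1 ≤ r := by omega
    push_cast [this]; ring
  intro n
  induction n using Nat.strong_induction_on with
  | _ n ih =>
    intro hn
    rcases Nat.lt_or_ge n r with hlt | hge
    · rcases Nat.eq_zero_or_pos n with h0 | hpos
      · subst h0; exact dvd_zero r
      · exact absurd hn (hmin n hpos hlt)
    · obtain ⟨j, rfl⟩ : ∃ j, n = r + j := ⟨n - r, by omega⟩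
      rcases Nat.eq_zero_or_pos j with h0 | hjpos
      · subst h0; simp
      rcases lt_trichotomy j r with hjr | hjr | hjr
      · -- `E(r, j)`
        exfalso
        have h := hrel (r : ℤ) (j : ℤ)
        have hnz : w ((r : ℤ) + j) = 0 := by
          have : ((r + j : ℕ) : ℤ) = (r : ℤ) + j := by push_cast; ring
          rw [← this]; exact hn
        rw [hnz, hr0] at h
        have hj : w (j : ℤ) ≠ 0 := hmin j hjpos hjr
        have : w ((r : ℤ) + 1) * w ((r : ℤ) - 1) * w (j : ℤ) ^ 2 = 0 := by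
          linear_combination -h
        rw [← ermi] at this
        rcases mul_eq_zero.1 this with h' | h'
        · rcases mul_eq_zero.1 h' with h'' | h''
          · exact hr1 h''
          · exact hrm h''
        · exact hj ((pow_eq_zero_iff (two_ne_zero)).1 h')
      · subst hjr
        exact ⟨2, by ring⟩
      · -- `E(j, r)`
        have h := hrel (j : ℤ) (r : ℤ)
        have hnz : w ((j : ℤ) + r) = 0 := by
          have : ((r + j : ℕ) : ℤ) = (j : ℤ) + r := by push_cast; ring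
          rw [← this]; exact hn
        rw [hnz, hr0] at h
        have : w ((r : ℤ) + 1) * w ((r : ℤ) - 1) * w (j : ℤ) ^ 2 = 0 := by
          linear_combination h
        rw [← ermi] at this
        have hj0 : w (j : ℤ) = 0 := by
          rcases mul_eq_zero.1 this with h' | h'
          · rcases mul_eq_zero.1 h' with h'' | h''
            · exact absurd h'' hr1
            · exact absurd h'' hrm
          · exact (pow_eq_zero_iff (two_ne_zero)).1 h'
        have := ih j (by omega) hj0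
        exact (Nat.dvd_add_right (dvd_refl r)).2 this

end Seq

end Fermat.Agent.S13


end ZBS13_003_0

/-! ### bundled: `Fermat.Agent.S13.ZeroTors` -/
section ZBS13_003_1

/-!
# S13 / P1c: "zero ⇒ torsion" from the elliptic relation + MF/Z (glue, helper77)

`zeroTors_abstract`: for a point `P` of an abelian group and a sequence `w : ℤ → K` such that
* `w` satisfies the two-index elliptic relation (`EllRel`, from `normEDS_rel`),
* (MF) if `k • P ≠ 0` for `0 < k ≤ N` then `w k ≠ 0` for `0 < k ≤ N`,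
* (Z) if `r ≥ 2` is the exact order of `P` then `w r = 0`,
* `w 2 = 0 → w 3 ≠ 0` and `w 2 ≠ 0 → w 3 = 0 → w 4 ≠ 0`,
we get `w n = 0 → n • P = 0` for all `n ≥ 1`.

`psiAt W x y n` is the value of the `n`-th division polynomial at `(x, y)`, and
`psiAt_three_ne_zero`, `psiAt_four_ne_zero` are the two curve facts.
-/

set_option autoImplicit false

namespace Fermat.Agent.S13

open WeierstrassCurve

section Abstract

variable {K : Type*} [Field K] {G : Type*} [AddCommGroup G]

theorem zeroTors_abstract (P : G) (w : ℤ → K) (hrel : EllRel w) (h1 : w 1 = 1)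
    (hMF : ∀ N : ℕ, (∀ k : ℕ, 0 < k → k ≤ N → k • P ≠ 0) → ∀ k : ℕ, 0 < k → k ≤ N → w k ≠ 0)
    (hZ : ∀ r : ℕ, 2 ≤ r → (∀ k : ℕ, 0 < k → k < r → k • P ≠ 0) → r • P = 0 → w r = 0)
    (h23 : w 2 = 0 → w 3 ≠ 0) (h34 : w 2 ≠ 0 → w 3 = 0 → w 4 ≠ 0)
    (n : ℕ) (hn : 0 < n) (h0 : w n = 0) : n • P = 0 := by
  classical
  by_contra hnP
  -- some multiple `k • P` with `0 < k ≤ n` vanishes
  have hex : ∃ k : ℕ, 0 < k ∧ k • P = 0 := by
    by_contra hne
    exact hMF n (fun k hk _ hk0 => hne ⟨k, hk, hk0⟩) n hn le_rfl h0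
  let r := Nat.find hex
  have hrpos : 0 < r := (Nat.find_spec hex).1
  have hr0 : r • P = 0 := (Nat.find_spec hex).2
  have hrmin : ∀ k : ℕ, 0 < k → k < r → k • P ≠ 0 := fun k hk hkr hkP =>
    Nat.find_min hex hkr ⟨hk, hkP⟩
  have hP : P ≠ 0 := by
    rintro rfl
    exact hnP (smul_zero n)
  have hr2 : 2 ≤ r := by
    rcases Nat.lt_or_ge r 2 with h | h
    · have : r = 1 := by omega
      rw [this, one_smul] at hr0
      exact absurd hr0 hP
    · exact h
  have hwr : w r = 0 := hZ r hr2 hrmin hr0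
  have hwmin : ∀ k : ℕ, 0 < k → k < r → w k ≠ 0 := fun k hk hkr =>
    hMF (r - 1) (fun j hj hjr => hrmin j hj (by omega)) k hk (by omega)
  have hwsucc : w ((r : ℤ) + 1) ≠ 0 := by
    rcases Nat.lt_or_ge r 4 with h4 | h4
    · have h23' : r = 2 ∨ r = 3 := by omega
      rcases h23' with h | h
      · have e : ((r : ℤ) + 1) = 3 := by rw [h]; norm_num
        rw [e]
        apply h23
        have : w ((2 : ℕ) : ℤ) = 0 := h ▸ hwr
        simpa using this
      · have e : ((r : ℤ) + 1) = 4 := by rw [h]; norm_num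
        rw [e]
        apply h34
        · have := hwmin 2 (by norm_num) (by omega)
          simpa using this
        · have : w ((3 : ℕ) : ℤ) = 0 := h ▸ hwr
          simpa using this
    · exact descent_succ_ne_zero hrel h1 r h4 hwr hwmin
  obtain ⟨c, hc⟩ := descent_dvd hrel r hr2 hwr hwmin hwsucc n h0
  apply hnP
  rw [hc, mul_comm, mul_smul, hr0, smul_zero]

end Abstract

section Curve

variable {K : Type*} [Field K] (W : WeierstrassCurve K)

/-- The value of the `n`-th division polynomial `ψ_n` at the point `(x, y)`. -/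
noncomputable def psiAt (x y : K) (n : ℤ) : K :=
  normEDS (2 * y + W.a₁ * x + W.a₃) (W.Ψ₃.eval x) (W.preΨ₄.eval x) n

@[simp] lemma psiAt_one (x y : K) : psiAt W x y 1 = 1 := by simp [psiAt]

@[simp] lemma psiAt_two (x y : K) : psiAt W x y 2 = 2 * y + W.a₁ * x + W.a₃ := by simp [psiAt]

@[simp] lemma psiAt_three (x y : K) : psiAt W x y 3 = W.Ψ₃.eval x := by simp [psiAt]

@[simp] lemma psiAt_four (x y : K) :
    psiAt W x y 4 = W.preΨ₄.eval x * (2 * y + W.a₁ * x + W.a₃) := by simp [psiAt]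

lemma psiAt_neg (x y : K) (n : ℤ) : psiAt W x y (-n) = -psiAt W x y n := by simp [psiAt]

/-- `4 Ψ₃ = Ψ₂Sq · (12 x + b₂) - (6 x² + b₂ x + b₄)²`. -/
lemma four_mul_eval_Ψ₃ (x : K) :
    4 * W.Ψ₃.eval x = Fermat.Agent.S05.cub W x * (12 * x + W.b₂) - Fermat.Agent.S05.dcub W x ^ 2 := by
  simp only [Ψ₃, Fermat.Agent.S05.cub, Fermat.Agent.S05.dcub, Polynomial.eval_add,
    Polynomial.eval_mul, Polynomial.eval_pow, Polynomial.eval_X, Polynomial.eval_C,
    Polynomial.eval_ofNat]
  linear_combination W.b_relation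

/-- `preΨ₄ = (6 x² + b₂ x + b₄) Ψ₃ - Ψ₂Sq²`. -/
lemma eval_preΨ₄ (x : K) :
    W.preΨ₄.eval x = Fermat.Agent.S05.dcub W x * W.Ψ₃.eval x - Fermat.Agent.S05.cub W x ^ 2 := by
  simp only [Ψ₃, preΨ₄, Fermat.Agent.S05.cub, Fermat.Agent.S05.dcub, Polynomial.eval_add,
    Polynomial.eval_mul, Polynomial.eval_pow, Polynomial.eval_X, Polynomial.eval_C,
    Polynomial.eval_ofNat]
  linear_combination (x ^ 2) * W.b_relation

set_option linter.unusedSectionVars false

variable [DecidableEq K]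

/-- At a nonsingular point with `ψ₂ = 0` (and `2 ≠ 0`), `ψ₃ ≠ 0`. -/
theorem psiAt_three_ne_zero (h2 : (2 : K) ≠ 0) {x y : K} (h : W.toAffine.Nonsingular x y)
    (hη : psiAt W x y 2 = 0) : psiAt W x y 3 ≠ 0 := by
  rw [psiAt_two] at hη
  rw [psiAt_three]
  have hη' : Fermat.Agent.S05.eta W x y = 0 := hη
  have hd := Fermat.Agent.S05.dcub_ne_zero_of_eta_eq_zero W h2 h hη'
  have hc : Fermat.Agent.S05.cub W x = 0 := by
    rw [← Fermat.Agent.S05.eta_sq W h.1, hη']; ring
  intro h3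
  have := four_mul_eval_Ψ₃ W x
  rw [h3, hc] at this
  apply hd
  have : Fermat.Agent.S05.dcub W x ^ 2 = 0 := by linear_combination this
  exact (pow_eq_zero_iff two_ne_zero).1 this

/-- At a point of the curve with `ψ₂ ≠ 0` and `ψ₃ = 0`, `ψ₄ ≠ 0`. -/
theorem psiAt_four_ne_zero {x y : K} (h : W.toAffine.Equation x y)
    (hη : psiAt W x y 2 ≠ 0) (h3 : psiAt W x y 3 = 0) : psiAt W x y 4 ≠ 0 := by
  rw [psiAt_two] at hη
  rw [psiAt_three] at h3
  rw [psiAt_four]
  have hc : Fermat.Agent.S05.cub W x = (2 * y + W.a₁ * x + W.a₃) ^ 2 := by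
    rw [← Fermat.Agent.S05.eta_sq W h]; rfl
  have h4 := eval_preΨ₄ W x
  rw [h3, hc] at h4
  rw [h4]
  simp only [mul_zero, zero_sub]
  exact mul_ne_zero (neg_ne_zero.2 (pow_ne_zero _ (pow_ne_zero _ hη))) hη

end Curve

end Fermat.Agent.S13


end ZBS13_003_1

/-! ### bundled: `Fermat.Agent.S13.MFSomos` -/
section ZBS13_003_2

/-!
# S13 / P1b: the multiplication formula below the first zero (helper77)

For an affine point `P = (x, y)` of a Weierstrass curve over a field with `2 ≠ 0`, with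
`w k := psiAt W x y k` (the value of the `k`-th division polynomial at `P`):

* `mf`: if `k • P ≠ 0` for all `0 < k ≤ N`, then for all `0 < k ≤ N`:
  `w k ≠ 0` and `(x - x(k • P)) * w k ^ 2 = w (k + 1) * w (k - 1)`;
* `mfZ`: if `r ≥ 2` is the exact order of `P` then `w r = 0`;
* `smul_eq_zero_iff_psiAt`: for `n ≥ 1`: `n • P = 0 ↔ w n = 0`.

Proof: `x`-only differential addition (`DivX.biq_eq`) + Somos-4 (`normEDS_somos4`), then the
descent of `ZeroTors.lean` with the full elliptic relation (`normEDS_rel`).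
-/

set_option autoImplicit false
set_option linter.unusedSectionVars false

namespace Fermat.Agent.S13

open WeierstrassCurve WeierstrassCurve.Affine Fermat.Agent.S05 Fermat.Agent.S13.DivX

variable {K : Type*} [Field K] [DecidableEq K] {W : WeierstrassCurve K}

lemma psiAt_zero (x y : K) : psiAt W x y 0 = 0 := by simp [psiAt]

lemma psiAt_somos4 (x y : K) (m : ℤ) :
    psiAt W x y (m + 2) * psiAt W x y (m - 2) =
      psiAt W x y (m + 1) * psiAt W x y (m - 1) * psiAt W x y 2 ^ 2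
        - psiAt W x y 3 * psiAt W x y m ^ 2 := by
  rw [psiAt_two, psiAt_three]
  exact normEDS_somos4 _ _ _ m

lemma psiAt_ellRel (x y : K) : EllRel (psiAt W x y) := fun m n =>
  normEDS_rel _ _ _ m n

/-- `w₂² = cub(x)` on the curve. -/
lemma psiAt_two_sq {x y : K} (h : W.toAffine.Equation x y) :
    psiAt W x y 2 ^ 2 = cub W x := by
  rw [psiAt_two, ← eta_sq W h]; rfl

/-- The MF property at the index `k`. -/
def MFAt (W : WeierstrassCurve K) (x y : K) (P : W.toAffine.Point) (k : ℕ) : Prop :=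
  psiAt W x y k ≠ 0 ∧
    (x - xOf (k • P)) * psiAt W x y k ^ 2 = psiAt W x y ((k : ℤ) + 1) * psiAt W x y ((k : ℤ) - 1)

lemma xOf_smul_ne {P : W.toAffine.Point} (hP : P ≠ 0) (k : ℕ) (hk : k • P ≠ 0)
    (hkm : (k - 1) • P ≠ 0) (hkp : (k + 1) • P ≠ 0) (hk1 : 1 ≤ k) : xOf (k • P) ≠ xOf P := by
  intro hx
  rcases eq_or_eq_neg_of_xOf_eq hk hP hx with h' | h'
  · apply hkm
    have : k • P = (k - 1) • P + P := by
      conv_lhs => rw [show k = (k - 1) + 1 by omega]
      rw [succ_nsmul]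
    rw [this] at h'
    simp at h'
    exact h'
  · apply hkp
    rw [succ_nsmul, h']
    simp

section MF

variable (h2 : (2 : K) ≠ 0) {x y : K} (h : W.toAffine.Nonsingular x y)

include h2

lemma mfAt_one : MFAt W x y (Point.some x y h) 1 := by
  refine ⟨by simp, ?_⟩
  simp [psiAt_zero]

lemma mfAt_two (hP2 : 2 • (Point.some x y h) ≠ 0) : MFAt W x y (Point.some x y h) 2 := by
  have hP : (Point.some x y h : W.toAffine.Point) ≠ 0 := Point.some_ne_zero h
  have hη : psiAt W x y 2 ≠ 0 := by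
    rw [psiAt_two]
    intro h0
    exact hP2 ((two_nsmul_eq_zero_iff hP).2 h0)
  refine ⟨by exact_mod_cast hη, ?_⟩
  have hd := xOf_two_nsmul hP hP2
  rw [xOf_some] at hd
  have hc := psiAt_two_sq (W := W) h.1
  have h3 := cub_mul_sub_dupNum W x
  have e1 : (((2 : ℕ) : ℤ) + 1) = 3 := by norm_num
  have e2 : (((2 : ℕ) : ℤ) - 1) = 1 := by norm_num
  have e3 : (((2 : ℕ) : ℤ)) = 2 := by norm_num
  rw [e1, e2, e3, psiAt_one, psiAt_three, hc, mul_one]
  simp only [Ψ₃, Polynomial.eval_add, Polynomial.eval_mul, Polynomial.eval_pow,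
    Polynomial.eval_X, Polynomial.eval_C, Polynomial.eval_ofNat]
  linear_combination h3 - hd

lemma mfAt_three (hP2 : 2 • (Point.some x y h) ≠ 0) (hP3 : 3 • (Point.some x y h) ≠ 0) :
    MFAt W x y (Point.some x y h) 3 := by
  have hP : (Point.some x y h : W.toAffine.Point) ≠ 0 := Point.some_ne_zero h
  obtain ⟨hw2, hf2⟩ := mfAt_two h2 h hP2
  have e1 : (((2 : ℕ) : ℤ) + 1) = 3 := by norm_num
  have e2 : (((2 : ℕ) : ℤ) - 1) = 1 := by norm_num
  have e3 : (((2 : ℕ) : ℤ)) = 2 := by norm_num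
  rw [e1, e2, e3, psiAt_one, mul_one] at hf2
  rw [e3] at hw2
  have hx : xOf (2 • (Point.some x y h)) ≠ xOf (Point.some x y h) :=
    xOf_smul_ne hP 2 hP2 (by simp [hP]) hP3 (by norm_num)
  rw [xOf_some] at hx
  have hw3 : psiAt W x y 3 ≠ 0 := by
    rw [← hf2]
    exact mul_ne_zero (sub_ne_zero.2 (Ne.symm hx)) (pow_ne_zero _ hw2)
  refine ⟨by exact_mod_cast hw3, ?_⟩
  obtain ⟨-, -, hS, -⟩ := xOf_add_sub h2 hP2 hP (by rw [xOf_some]; exact hx)
  have hadd : 2 • (Point.some x y h) + Point.some x y h = 3 • (Point.some x y h) := by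
    exact (succ_nsmul (Point.some x y h) 2).symm
  have hsub : 2 • (Point.some x y h) - Point.some x y h = Point.some x y h := by
    rw [two_nsmul]; simp
  rw [hadd, hsub, xOf_some] at hS
  have hc := psiAt_two_sq (W := W) h.1
  have h4 := eval_preΨ₄ W x
  have f1 : (((3 : ℕ) : ℤ) + 1) = 4 := by norm_num
  have f2 : (((3 : ℕ) : ℤ) - 1) = 2 := by norm_num
  have f3 : (((3 : ℕ) : ℤ)) = 3 := by norm_num
  rw [f1, f2, f3, psiAt_four, ← psiAt_two (W := W) x y]
  rw [hc] at hf2
  rw [psiAt_three] at hf2 ⊢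
  have hc' : psiAt W x y 2 * psiAt W x y 2 = cub W x := by rw [← hc]; ring
  set x₂ := xOf (2 • (Point.some x y h)) with hx₂
  set x₃ := xOf (3 • (Point.some x y h)) with hx₃
  set w₃ := Polynomial.eval x W.Ψ₃ with hw₃
  have key : (x - x₃) * w₃ ^ 2 = Polynomial.eval x W.preΨ₄ * cub W x := by
    simp only [sumNum] at hS
    rw [h4]
    simp only [cub, dcub] at hf2 ⊢
    linear_combination (exp := 1)
      (-(4 * x ^ 3 + W.b₂ * x ^ 2 + 2 * W.b₄ * x + W.b₆) ^ 2) * hS
      + (-((x - x₃) * (w₃ + (x - x₂) * (4 * x ^ 3 + W.b₂ * x ^ 2 + 2 * W.b₄ * x + W.b₆))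
          - (6 * x ^ 2 + W.b₂ * x + W.b₄) * (4 * x ^ 3 + W.b₂ * x ^ 2 + 2 * W.b₄ * x + W.b₆)))
        * hf2
  rw [key, ← hc']
  ring

omit h2 in
/-- The algebra of the induction step. -/
lemma mf_step_alg {a b c₀ d e X1 Xm Xk w2 w3 : K} (ha : a ≠ 0) (hb : b ≠ 0) (hc : c₀ ≠ 0)
    (hk : Xk * c₀ ^ 2 = d * b) (hkm : Xm * b ^ 2 = c₀ * a)
    (hs : e * a = d * b * w2 ^ 2 - w3 * c₀ ^ 2)
    (hbiq : X1 * Xm * Xk ^ 2 = Xk * w2 ^ 2 - w3) : X1 * d ^ 2 = e * c₀ := by
  have hne : a * c₀ * b ^ 2 ≠ 0 := mul_ne_zero (mul_ne_zero ha hc) (pow_ne_zero _ hb)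
  have key : (X1 * d ^ 2 - e * c₀) * (a * c₀ * b ^ 2) = 0 := by
    linear_combination (b ^ 2 * c₀ ^ 4) * hbiq
      + (w2 ^ 2 * b ^ 2 * c₀ ^ 2 - X1 * Xm * b ^ 2 * (Xk * c₀ ^ 2 + d * b)) * hk
      - (X1 * (d * b) ^ 2) * hkm - (b ^ 2 * c₀ ^ 2) * hs
  rcases mul_eq_zero.1 key with h' | h'
  · exact sub_eq_zero.1 h'
  · exact absurd h' hne

lemma mfAt_succ (k : ℕ) (hk : 3 ≤ k) (hPk : k • (Point.some x y h) ≠ 0)
    (hPkm : (k - 1) • (Point.some x y h) ≠ 0) (hPkp : (k + 1) • (Point.some x y h) ≠ 0)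
    (IHk : MFAt W x y (Point.some x y h) k) (IHkm : MFAt W x y (Point.some x y h) (k - 1))
    (IHkmm : MFAt W x y (Point.some x y h) (k - 2)) :
    MFAt W x y (Point.some x y h) (k + 1) := by
  have hP : (Point.some x y h : W.toAffine.Point) ≠ 0 := Point.some_ne_zero h
  have hx : xOf (k • (Point.some x y h)) ≠ xOf (Point.some x y h) :=
    xOf_smul_ne hP k hPk hPkm hPkp (by omega)
  have hbiq := biq_eq h2 hPk hP hx x
  have hadd : k • (Point.some x y h) + Point.some x y h = (k + 1) • (Point.some x y h) :=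
    (succ_nsmul (Point.some x y h) k).symm
  have hsub : k • (Point.some x y h) - Point.some x y h = (k - 1) • (Point.some x y h) := by
    have : k • (Point.some x y h) = (k - 1) • (Point.some x y h) + Point.some x y h := by
      conv_lhs => rw [show k = (k - 1) + 1 by omega]
      rw [succ_nsmul]
    rw [this]; simp
  rw [hadd, hsub, biq_comm₁₂, xOf_some, biq_self] at hbiq
  rw [xOf_some] at hx
  obtain ⟨hwk, hfk⟩ := IHk
  obtain ⟨hwkm, hfkm⟩ := IHkm
  obtain ⟨hwkmm, -⟩ := IHkmm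
  -- index bookkeeping
  have i1 : (((k - 1 : ℕ) : ℤ)) = (k : ℤ) - 1 := by
    have : 1 ≤ k := by omega
    push_cast [this]; ring
  have i2 : (((k - 2 : ℕ) : ℤ)) = (k : ℤ) - 2 := by
    have : 2 ≤ k := by omega
    push_cast [this]; ring
  have i3 : (((k + 1 : ℕ) : ℤ)) = (k : ℤ) + 1 := by push_cast; ring
  have j1 : ((k : ℤ) - 1 + 1) = k := by ring
  have j2 : ((k : ℤ) - 1 - 1) = (k : ℤ) - 2 := by ring
  have j3 : ((k : ℤ) + 1 + 1) = (k : ℤ) + 2 := by ring
  have j4 : ((k : ℤ) + 1 - 1) = k := by ring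
  rw [i1] at hwkm hfkm
  rw [j1, j2] at hfkm
  rw [i2] at hwkmm
  have hsom := psiAt_somos4 (W := W) x y (k : ℤ)
  have hc := psiAt_two_sq (W := W) h.1
  have h3 := cub_mul_sub_dupNum W x
  have hw3 : psiAt W x y 3 = 3 * x ^ 4 + W.b₂ * x ^ 3 + 3 * W.b₄ * x ^ 2 + 3 * W.b₆ * x + W.b₈ := by
    rw [psiAt_three]
    simp only [Ψ₃, Polynomial.eval_add, Polynomial.eval_mul, Polynomial.eval_pow,
      Polynomial.eval_X, Polynomial.eval_C, Polynomial.eval_ofNat]
  have hwkp : psiAt W x y ((k : ℤ) + 1) ≠ 0 := by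
    intro h0
    rw [h0, zero_mul] at hfk
    rcases mul_eq_zero.1 hfk with h' | h'
    · exact hx (sub_eq_zero.1 h').symm
    · exact hwk ((pow_eq_zero_iff two_ne_zero).1 h')
  refine ⟨by rw [i3]; exact hwkp, ?_⟩
  rw [i3, j3, j4]
  refine mf_step_alg (w2 := psiAt W x y 2) (w3 := psiAt W x y 3)
    (Xm := x - xOf ((k - 1) • Point.some x y h)) (Xk := x - xOf (k • Point.some x y h))
    hwkmm hwkm hwk hfk hfkm ?_ ?_
  · linear_combination hsom
  · rw [hc, hw3]
    linear_combination hbiq - h3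

theorem mf (N : ℕ) (hN : ∀ k : ℕ, 0 < k → k ≤ N → k • (Point.some x y h) ≠ 0) :
    ∀ k : ℕ, 0 < k → k ≤ N → MFAt W x y (Point.some x y h) k := by
  intro k
  induction k using Nat.strong_induction_on with
  | _ k ih =>
    intro hk hkN
    rcases Nat.lt_or_ge k 4 with h4 | h4
    · have : k = 1 ∨ k = 2 ∨ k = 3 := by omega
      rcases this with rfl | rfl | rfl
      · exact mfAt_one h2 h
      · exact mfAt_two h2 h (hN 2 (by norm_num) hkN)
      · exact mfAt_three h2 h (hN 2 (by norm_num) (by omega)) (hN 3 (by norm_num) hkN)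
    · obtain ⟨j, rfl⟩ : ∃ j, k = j + 1 := ⟨k - 1, by omega⟩
      exact mfAt_succ h2 h j (by omega) (hN j (by omega) (by omega))
        (hN (j - 1) (by omega) (by omega)) (hN (j + 1) (by omega) hkN)
        (ih j (by omega) (by omega) (by omega))
        (ih (j - 1) (by omega) (by omega) (by omega))
        (ih (j - 2) (by omega) (by omega) (by omega))

/-- (Z): at the exact order `r ≥ 2` of `P`, `ψ_r(P) = 0`. -/
theorem mfZ (r : ℕ) (hr : 2 ≤ r) (hmin : ∀ k : ℕ, 0 < k → k < r → k • (Point.some x y h) ≠ 0)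
    (hr0 : r • (Point.some x y h) = 0) : psiAt W x y r = 0 := by
  have hP : (Point.some x y h : W.toAffine.Point) ≠ 0 := Point.some_ne_zero h
  rcases Nat.lt_or_ge r 3 with h3 | h3
  · have : r = 2 := by omega
    subst this
    have := (two_nsmul_eq_zero_iff hP).1 hr0
    rw [etaOf_some] at this
    have e : (((2 : ℕ) : ℤ)) = 2 := by norm_num
    rw [e, psiAt_two]
    exact this
  · have hmf := mf h2 h (r - 1) (fun k hk hkr => hmin k hk (by omega))
    obtain ⟨hw1, hf1⟩ := hmf (r - 1) (by omega) le_rfl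
    obtain ⟨hw2, -⟩ := hmf (r - 2) (by omega) (by omega)
    have hneg : (r - 1) • (Point.some x y h) = -(Point.some x y h) := by
      have : r • (Point.some x y h) = (r - 1) • (Point.some x y h) + Point.some x y h := by
        conv_lhs => rw [show r = (r - 1) + 1 by omega]
        rw [succ_nsmul]
      rw [this] at hr0
      exact eq_neg_of_add_eq_zero_left hr0
    rw [hneg, xOf_neg, xOf_some, sub_self, zero_mul] at hf1
    have i1 : (((r - 1 : ℕ) : ℤ)) + 1 = (r : ℤ) := by
      have : 1 ≤ r := by omega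
      push_cast [this]; ring
    have i2 : (((r - 1 : ℕ) : ℤ)) - 1 = ((r - 2 : ℕ) : ℤ) := by
      have h1 : 1 ≤ r := by omega
      have h2' : 2 ≤ r := by omega
      push_cast [h1, h2']; ring
    rw [i1, i2] at hf1
    rcases mul_eq_zero.1 hf1.symm with h' | h'
    · exact h'
    · exact absurd h' hw2

/-- **Division polynomial criterion** at a point, for `n ≥ 1`: `ψ_n(P) = 0 ⇒ n • P = 0`. -/
theorem smul_eq_zero_of_psiAt_eq_zero (n : ℕ) (hn : 0 < n) (h0 : psiAt W x y n = 0) :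
    n • (Point.some x y h) = 0 :=
  zeroTors_abstract (Point.some x y h) (psiAt W x y) (psiAt_ellRel x y) (psiAt_one W x y)
    (fun N hN k hk hkN => (mf h2 h N hN k hk hkN).1)
    (fun r hr hmin hr0 => mfZ h2 h r hr hmin hr0)
    (fun h20 => psiAt_three_ne_zero W h2 h h20)
    (fun h20 h30 => psiAt_four_ne_zero W h.1 h20 h30) n hn h0

/-- **Division polynomial criterion** at a point, for a prime `p`:
`p • P = 0 ⇒ ψ_p(P) = 0`. -/
theorem psiAt_eq_zero_of_smul_eq_zero {p : ℕ} (hp : p.Prime)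
    (h0 : p • (Point.some x y h) = 0) : psiAt W x y p = 0 := by
  have hP : (Point.some x y h : W.toAffine.Point) ≠ 0 := Point.some_ne_zero h
  refine mfZ h2 h p hp.two_le (fun k hk hkp hk0 => ?_) h0
  -- `k • P = 0` and `p • P = 0` with `gcd k p = 1` give `P = 0`
  have hcop : Nat.Coprime k p :=
    Nat.Coprime.symm ((Nat.Prime.coprime_iff_not_dvd hp).2 (Nat.not_dvd_of_pos_of_lt hk hkp))
  have hg : (Nat.gcd k p : ℤ) = 1 := by exact_mod_cast hcop
  have hb := Int.gcd_eq_gcd_ab k p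
  have hz : ((k : ℤ) * Int.gcdA k p + (p : ℤ) * Int.gcdB k p) • (Point.some x y h) = 0 := by
    rw [add_smul, mul_comm (k : ℤ), mul_comm (p : ℤ), mul_smul, mul_smul, natCast_zsmul,
      natCast_zsmul, hk0, h0, smul_zero, smul_zero, add_zero]
  rw [← hb] at hz
  have : ((Nat.gcd k p : ℕ) : ℤ) • (Point.some x y h) = 0 := hz
  rw [hg, one_smul] at this
  exact hP this

end MF

end Fermat.Agent.S13


end ZBS13_003_2

/-! ### bundled: `Fermat.Agent.EC.DivUniversal` -/
section ZBS13_003_3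

/-!
# EC library: the division polynomial criterion over every field with `2 ≠ 0` (helper77)

* `ec_psiAt_eq_evalEval`: `psiAt W x y n = (W.ψ n).evalEval x y`;
* `ec_mfStmt`: `MFStmt E` for every Weierstrass curve over a field with `2 ≠ 0`;
* `ec_starAdd`, `ec_starMul`: the universal identities `StarAdd`, `StarMul` for every Weierstrass
  curve over every field (proved over `Frac ℤ[a₁, a₂, a₃, a₄, a₆]`, then specialised);
* `ec_crit`: for every affine point `P` of a Weierstrass curve over a field with `2 ≠ 0` and all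
  `n`: `n • P = 0 ↔ ΨSq_n(x(P)) = 0`, `x(n • P) * ΨSq_n(x(P)) = Φ_n(x(P))` if `n • P ≠ 0`, and
  `Φ_n`, `ΨSq_n` have no common zero at `x(P)`.
-/

set_option autoImplicit false
set_option linter.unusedSectionVars false

namespace Fermat.Agent.EC

open WeierstrassCurve WeierstrassCurve.Affine Polynomial Fermat.Agent.S05 Fermat.Agent.S13
  Fermat.Agent.S13.DivX

section Bridge

variable {K : Type*} [Field K] (W : WeierstrassCurve K)

/-- `psiAt` is the value of the bivariate division polynomial `ψ n` at `(x, y)`. -/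
theorem ec_psiAt_eq_evalEval (x y : K) (n : ℤ) : psiAt W x y n = (W.ψ n).evalEval x y := by
  have h1 : (W.ψ n).evalEval x y = (Polynomial.evalEvalRingHom x y) (W.ψ n) := rfl
  rw [h1, WeierstrassCurve.ψ, map_normEDS, psiAt]
  congr 1
  · simp [WeierstrassCurve.ψ₂, WeierstrassCurve.Affine.polynomialY, Polynomial.evalEvalRingHom]
    ring
  · simp [Polynomial.evalEvalRingHom]
  · simp [Polynomial.evalEvalRingHom]

variable [DecidableEq K]

/-- The multiplication formula below the first zero, in the form `MFStmt`. -/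
theorem ec_mfStmt (h2 : (2 : K) ≠ 0) : MFStmt W := by
  intro x y h N hN
  refine ⟨fun k hk hkN => ?_, fun h0 => ?_⟩
  · have := (mf h2 h N hN k hk hkN).2
    simp only [← ec_psiAt_eq_evalEval]
    linear_combination -this
  · rw [← ec_psiAt_eq_evalEval]
    rcases Nat.eq_zero_or_pos N with rfl | hNpos
    · exfalso
      rw [zero_add, one_nsmul] at h0
      exact Point.some_ne_zero h h0
    · exact mfZ h2 h (N + 1) (by omega) (fun k hk hkN => hN k hk (by omega)) h0

end Bridge

section Universal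

/-- `StarAdd` for a Weierstrass curve over a commutative ring. -/
def StarAddR {R : Type*} [CommRing R] (W : WeierstrassCurve R) (n : ℤ) : Prop :=
  W.Φ (n + 1) * W.ΨSq (n - 1) + W.Φ (n - 1) * W.ΨSq (n + 1) =
    2 * W.Φ n * X * (W.Φ n + X * W.ΨSq n) + C W.b₂ * X * W.Φ n * W.ΨSq n
      + C W.b₄ * (W.Φ n + X * W.ΨSq n) * W.ΨSq n + C W.b₆ * W.ΨSq n ^ 2

/-- `StarMul` for a Weierstrass curve over a commutative ring. -/
def StarMulR {R : Type*} [CommRing R] (W : WeierstrassCurve R) (n : ℤ) : Prop :=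
  W.Φ (n + 1) * W.Φ (n - 1) =
    X ^ 2 * W.Φ n ^ 2 - C W.b₄ * X * W.Φ n * W.ΨSq n
      - C W.b₆ * (W.Φ n + X * W.ΨSq n) * W.ΨSq n - C W.b₈ * W.ΨSq n ^ 2

variable {R S : Type*} [CommRing R] [CommRing S] (f : R →+* S) (W : WeierstrassCurve R)

lemma starAddR_map_iff_map_eq (n : ℤ) :
    StarAddR (W.map f) n ↔
      (W.Φ (n + 1) * W.ΨSq (n - 1) + W.Φ (n - 1) * W.ΨSq (n + 1)).map f =
        (2 * W.Φ n * X * (W.Φ n + X * W.ΨSq n) + C W.b₂ * X * W.Φ n * W.ΨSq n
          + C W.b₄ * (W.Φ n + X * W.ΨSq n) * W.ΨSq n + C W.b₆ * W.ΨSq n ^ 2).map f := by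
  unfold StarAddR
  simp only [map_Φ, map_ΨSq, WeierstrassCurve.map_b₂, WeierstrassCurve.map_b₄,
    WeierstrassCurve.map_b₆, Polynomial.map_add, Polynomial.map_mul, Polynomial.map_pow,
    Polynomial.map_X, Polynomial.map_C, Polynomial.map_ofNat]

lemma starMulR_map_iff_map_eq (n : ℤ) :
    StarMulR (W.map f) n ↔
      (W.Φ (n + 1) * W.Φ (n - 1)).map f =
        (X ^ 2 * W.Φ n ^ 2 - C W.b₄ * X * W.Φ n * W.ΨSq n
          - C W.b₆ * (W.Φ n + X * W.ΨSq n) * W.ΨSq n - C W.b₈ * W.ΨSq n ^ 2).map f := by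
  unfold StarMulR
  simp only [map_Φ, map_ΨSq, WeierstrassCurve.map_b₄, WeierstrassCurve.map_b₈,
    WeierstrassCurve.map_b₆, Polynomial.map_add, Polynomial.map_sub, Polynomial.map_mul,
    Polynomial.map_pow, Polynomial.map_X, Polynomial.map_C]

lemma starAddR_map {n : ℤ} (h : StarAddR W n) : StarAddR (W.map f) n :=
  (starAddR_map_iff_map_eq f W n).2 (congrArg (Polynomial.map f) h)

lemma starMulR_map {n : ℤ} (h : StarMulR W n) : StarMulR (W.map f) n :=
  (starMulR_map_iff_map_eq f W n).2 (congrArg (Polynomial.map f) h)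

lemma starAddR_of_map (hf : Function.Injective f) {n : ℤ} (h : StarAddR (W.map f) n) :
    StarAddR W n :=
  Polynomial.map_injective f hf ((starAddR_map_iff_map_eq f W n).1 h)

lemma starMulR_of_map (hf : Function.Injective f) {n : ℤ} (h : StarMulR (W.map f) n) :
    StarMulR W n :=
  Polynomial.map_injective f hf ((starMulR_map_iff_map_eq f W n).1 h)

/-- The universal Weierstrass curve over `ℤ[a₁, a₂, a₃, a₄, a₆]`. -/
noncomputable def univCurve : WeierstrassCurve (MvPolynomial (Fin 5) ℤ) :=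
  ⟨MvPolynomial.X 0, MvPolynomial.X 1, MvPolynomial.X 2, MvPolynomial.X 3, MvPolynomial.X 4⟩

/-- The specialisation map of the universal curve to a given curve. -/
noncomputable def univSpec (W : WeierstrassCurve R) : MvPolynomial (Fin 5) ℤ →+* R :=
  (MvPolynomial.aeval (R := ℤ) ![W.a₁, W.a₂, W.a₃, W.a₄, W.a₆]).toRingHom

lemma univCurve_map (W : WeierstrassCurve R) : univCurve.map (univSpec W) = W := by
  ext <;> simp [univCurve, univSpec, WeierstrassCurve.map]

section CharZero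

variable {K : Type*} [Field K] [CharZero K] (W : WeierstrassCurve K)

lemma ff_two_ne_zero : (2 : W.toAffine.FunctionField) ≠ 0 := by
  have h : (algebraMap K W.toAffine.FunctionField) 2 ≠ 0 :=
    (map_ne_zero (algebraMap K W.toAffine.FunctionField)).2 two_ne_zero
  rwa [map_ofNat] at h

/-- `MFStmt` at the function field of a curve in characteristic `0`. -/
theorem ec_mfStmt_WF [DecidableEq W.toAffine.FunctionField] : MFStmt (WF W) :=
  ec_mfStmt (WF W) (ff_two_ne_zero W)

theorem ec_starAdd_charZero (n : ℕ) (hn : 2 ≤ n) : StarAdd W (n : ℤ) := by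
  classical
  exact starAdd_of_MF W (ec_mfStmt_WF W) n hn

theorem ec_starMul_charZero (n : ℕ) (hn : 2 ≤ n) : StarMul W (n : ℤ) := by
  classical
  exact starMul_of_MF W (ec_mfStmt_WF W) n hn

end CharZero

/-- `StarAdd` for the universal curve. -/
theorem univ_starAddR (n : ℕ) (hn : 2 ≤ n) : StarAddR univCurve (n : ℤ) := by
  have hinj : Function.Injective
      (algebraMap (MvPolynomial (Fin 5) ℤ) (FractionRing (MvPolynomial (Fin 5) ℤ))) :=
    IsFractionRing.injective _ _
  have : CharZero (FractionRing (MvPolynomial (Fin 5) ℤ)) :=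
    charZero_of_injective_algebraMap hinj
  exact starAddR_of_map _ univCurve hinj (ec_starAdd_charZero _ n hn)

/-- `StarMul` for the universal curve. -/
theorem univ_starMulR (n : ℕ) (hn : 2 ≤ n) : StarMulR univCurve (n : ℤ) := by
  have hinj : Function.Injective
      (algebraMap (MvPolynomial (Fin 5) ℤ) (FractionRing (MvPolynomial (Fin 5) ℤ))) :=
    IsFractionRing.injective _ _
  have : CharZero (FractionRing (MvPolynomial (Fin 5) ℤ)) :=
    charZero_of_injective_algebraMap hinj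
  exact starMulR_of_map _ univCurve hinj (ec_starMul_charZero _ n hn)

/-- `StarAdd` for every Weierstrass curve over every commutative ring. -/
theorem ec_starAddR (W : WeierstrassCurve R) (n : ℕ) (hn : 2 ≤ n) : StarAddR W (n : ℤ) := by
  have := starAddR_map (univSpec W) univCurve (univ_starAddR n hn)
  rwa [univCurve_map] at this

/-- `StarMul` for every Weierstrass curve over every commutative ring. -/
theorem ec_starMulR (W : WeierstrassCurve R) (n : ℕ) (hn : 2 ≤ n) : StarMulR W (n : ℤ) := by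
  have := starMulR_map (univSpec W) univCurve (univ_starMulR n hn)
  rwa [univCurve_map] at this

end Universal

section Field

variable {K : Type*} [Field K] (W : WeierstrassCurve K)

theorem ec_starAdd (n : ℕ) (hn : 2 ≤ n) : StarAdd W (n : ℤ) := ec_starAddR W n hn

theorem ec_starMul (n : ℕ) (hn : 2 ≤ n) : StarMul W (n : ℤ) := ec_starMulR W n hn

variable {W} [DecidableEq K]

/-- **The division polynomial criterion** over any field with `2 ≠ 0`, at every affine point and
for every `n`. -/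
theorem ec_crit (h2 : (2 : K) ≠ 0) {P : W.toAffine.Point} (hP : P ≠ 0) (n : ℕ) : CritAt P n :=
  crit h2 (ec_starAdd W) (ec_starMul W) hP n

/-- `n • P = 0 ↔ ΨSq_n(x(P)) = 0`. -/
theorem ec_nsmul_eq_zero_iff (h2 : (2 : K) ≠ 0) {x y : K} (h : W.toAffine.Nonsingular x y)
    (n : ℕ) : n • (Point.some x y h) = 0 ↔ (W.ΨSq (n : ℤ)).eval x = 0 :=
  (ec_crit h2 (Point.some_ne_zero h) n).1

/-- `x(n • P) * ΨSq_n(x(P)) = Φ_n(x(P))` if `n • P ≠ 0`. -/
theorem ec_xOf_nsmul (h2 : (2 : K) ≠ 0) {x y : K} (h : W.toAffine.Nonsingular x y)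
    (n : ℕ) (hn : n • (Point.some x y h) ≠ 0) :
    xOf (n • (Point.some x y h)) * (W.ΨSq (n : ℤ)).eval x = (W.Φ (n : ℤ)).eval x :=
  (ec_crit h2 (Point.some_ne_zero h) n).2.1 hn

/-- `Φ_n` and `ΨSq_n` have no common zero among the `x`-coordinates of points. -/
theorem ec_Φ_ne_zero_of_ΨSq (h2 : (2 : K) ≠ 0) {x y : K} (h : W.toAffine.Nonsingular x y)
    (n : ℕ) (h0 : (W.ΨSq (n : ℤ)).eval x = 0) : (W.Φ (n : ℤ)).eval x ≠ 0 :=
  (ec_crit h2 (Point.some_ne_zero h) n).2.2 h0

end Field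

end Fermat.Agent.EC


end ZBS13_003_3
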