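/- GENERATED FILE (helper35, build-time optimisation, NOTES/ZB.md): verbatim concatenation of the modules
   Fermat.Agent.EC.DetCharLA
   Fermat.Agent.EC.DetChar
   Fermat.Agent.R38.RepAlg
   Do not edit; do not import together with these modules. -/
import Mathlib
import Fermat.Agent.ZB.S13_003
import Fermat.Agent.ZB.Cheb_002
import Fermat.Agent.ZB.S05_001
import Fermat.Agent.ZB.Cheb_001

/-! ### bundled: `Fermat.Agent.EC.DetCharLA` -/
section ZBEC_001_0
/-
# EC-DET, linear-algebra core (helper40)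

Abstract statements on a representation `ρ : G →* End_{𝔽_p}(V)`, `dim V = 2`:
Cayley–Hamilton comparison (`trace_det_of_rel`), fixed vectors of unipotent groups
(`exists_fixed_ne_zero`), and the abstract core of S41 R4 (`false_of_unip_normal`).
Mathlib only.
-/

set_option autoImplicit false

namespace Fermat.Agent.EC.DetChar

open Polynomial

section LA

variable {k : Type*} [Field k] {V : Type*} [AddCommGroup V] [Module k V]

/-- an endomorphism is scalar -/
def IsScalarEnd (x : Module.End k V) : Prop := ∃ r : k, x = r • (1 : Module.End k V)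

theorem isScalarEnd_smul {x : Module.End k V} (hx : IsScalarEnd x) (c : k) :
    IsScalarEnd (c • x) := by
  obtain ⟨r, rfl⟩ := hx
  exact ⟨c * r, by rw [smul_smul]⟩

theorem isScalarEnd_pow {x : Module.End k V} (hx : IsScalarEnd x) (m : ℕ) :
    IsScalarEnd (x ^ m) := by
  obtain ⟨r, rfl⟩ := hx
  exact ⟨r ^ m, by rw [_root_.smul_pow, one_pow]⟩

theorem isScalarEnd_mul {x y : Module.End k V} (hx : IsScalarEnd x) (hy : IsScalarEnd y) :
    IsScalarEnd (x * y) := by
  obtain ⟨r, rfl⟩ := hx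
  obtain ⟨s, rfl⟩ := hy
  exact ⟨r * s, by rw [smul_mul_smul_comm, one_mul]⟩

/-- Cayley–Hamilton in dimension two. -/
theorem cayley_hamilton_two (h2 : Module.finrank k V = 2) (x : Module.End k V) :
    x ^ 2 - (LinearMap.trace k V x) • x + (LinearMap.det x) • (1 : Module.End k V) = 0 := by
  have : Module.Finite k V := Module.finite_of_finrank_eq_succ h2
  have : Module.Free k V := inferInstance
  let b := Module.finBasisOfFinrankEq k V h2
  have hch := LinearMap.aeval_self_charpoly x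
  have hcp : x.charpoly = X ^ 2 - C (LinearMap.trace k V x) * X + C (LinearMap.det x) := by
    rw [← LinearMap.charpoly_toMatrix x b, Matrix.charpoly_fin_two,
      LinearMap.trace_eq_matrix_trace k b x, LinearMap.det_toMatrix b x]
  rw [hcp] at hch
  simpa [Algebra.smul_def, aeval_X, map_sub, map_add, map_mul] using hch

theorem exists_ne_zero_of_finrank_two (h2 : Module.finrank k V = 2) : ∃ v : V, v ≠ 0 := by
  have : Nontrivial V := Module.nontrivial_of_finrank_pos (R := k) (by rw [h2]; norm_num)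
  exact exists_ne 0

theorem smul_one_end_eq_zero (h2 : Module.finrank k V = 2) {r : k}
    (h : r • (1 : Module.End k V) = 0) : r = 0 := by
  obtain ⟨v, hv⟩ := exists_ne_zero_of_finrank_two (k := k) h2
  have h1 : (r • (1 : Module.End k V)) v = 0 := by rw [h]; rfl
  rw [LinearMap.smul_apply, Module.End.one_apply] at h1
  exact (smul_eq_zero.mp h1).resolve_right hv

/-- A non-scalar endomorphism of a plane killed by `X² − aX + ℓ` has trace `a` and
determinant `ℓ`. -/
theorem trace_det_of_rel (h2 : Module.finrank k V = 2) {x : Module.End k V} {a l : k}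
    (hrel : x ^ 2 - a • x + l • (1 : Module.End k V) = 0) (hns : ¬ IsScalarEnd x) :
    LinearMap.trace k V x = a ∧ LinearMap.det x = l := by
  have hch := cayley_hamilton_two h2 x
  have hsub : (LinearMap.trace k V x - a) • x
      = (LinearMap.det x - l) • (1 : Module.End k V) := by
    have h0 : (x ^ 2 - a • x + l • (1 : Module.End k V))
        - (x ^ 2 - (LinearMap.trace k V x) • x + (LinearMap.det x) • (1 : Module.End k V)) = 0 := by
      rw [hrel, hch, sub_zero]
    have h1 : (LinearMap.trace k V x - a) • x - (LinearMap.det x - l) • (1 : Module.End k V)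
        = (x ^ 2 - a • x + l • (1 : Module.End k V))
        - (x ^ 2 - (LinearMap.trace k V x) • x + (LinearMap.det x) • (1 : Module.End k V)) := by
      simp only [sub_smul]
      abel
    rw [h0] at h1
    exact sub_eq_zero.mp h1
  have htr : LinearMap.trace k V x = a := by
    by_contra hne
    have hne' : LinearMap.trace k V x - a ≠ 0 := sub_ne_zero.mpr hne
    apply hns
    refine ⟨(LinearMap.trace k V x - a)⁻¹ * (LinearMap.det x - l), ?_⟩
    rw [mul_smul, ← hsub, smul_smul, inv_mul_cancel₀ hne', one_smul]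
  refine ⟨htr, ?_⟩
  rw [htr, sub_self, zero_smul] at hsub
  exact sub_eq_zero.mp (smul_one_end_eq_zero h2 hsub.symm)

/-- determinant of a scalar endomorphism of a plane -/
theorem det_smul_one_two (h2 : Module.finrank k V = 2) (r : k) :
    LinearMap.det (r • (1 : Module.End k V)) = r ^ 2 := by
  have : Module.Finite k V := Module.finite_of_finrank_eq_succ h2
  rw [LinearMap.det_smul, h2]
  simp

theorem trace_smul_one_two (h2 : Module.finrank k V = 2) (r : k) :
    LinearMap.trace k V (r • (1 : Module.End k V)) = 2 * r := by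
  have : Module.Finite k V := Module.finite_of_finrank_eq_succ h2
  rw [map_smul, LinearMap.trace_one, h2]
  simp [mul_comm]

/-- In a plane: if `x = r` is scalar, killed by `X² − aX + ℓ` and `det x = ℓ`, and `2 ≠ 0`,
then `tr x = a`. -/
theorem trace_of_rel_scalar (h2 : Module.finrank k V = 2) {r a l : k}
    (hrel : (r • (1 : Module.End k V)) ^ 2 - a • (r • (1 : Module.End k V))
      + l • (1 : Module.End k V) = 0)
    (hdet : LinearMap.det (r • (1 : Module.End k V)) = l) (hl : l ≠ 0) :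
    LinearMap.trace k V (r • (1 : Module.End k V)) = a := by
  rw [det_smul_one_two h2] at hdet
  rw [trace_smul_one_two h2]
  have h1 : (r ^ 2 - a * r + l) • (1 : Module.End k V) = 0 := by
    rw [← hrel, _root_.smul_pow, one_pow, smul_smul, add_smul, sub_smul]
  have h3 := smul_one_end_eq_zero h2 h1
  have hr : r ≠ 0 := by
    rintro rfl
    apply hl
    rw [← hdet]
    ring
  have h4 : r * (2 * r - a) = 0 := by
    have : r * (2 * r - a) = (r ^ 2 - a * r + l) + (r ^ 2 - l) := by ring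
    rw [this, h3, hdet, sub_self, add_zero]
  rcases mul_eq_zero.mp h4 with h | h
  · exact absurd h hr
  · exact sub_eq_zero.mp h

end LA

section Unip

variable {R : Type*} [Ring R]

theorem one_add_pow_of_mul_self_eq_zero {n : R} (h : n * n = 0) (m : ℕ) :
    (1 + n) ^ m = 1 + m • n := by
  induction m with
  | zero => simp
  | succ m ih =>
    rw [pow_succ, ih, mul_add, mul_one, add_mul, one_mul, smul_mul_assoc, h, smul_zero, add_zero,
      succ_nsmul]
    abel

theorem pow_sub_one_sq_eq_zero {x : R} (h : (x - 1) * (x - 1) = 0) (m : ℕ) :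
    (x ^ m - 1) * (x ^ m - 1) = 0 := by
  have hx : x = 1 + (x - 1) := by abel
  have h1 : x ^ m = 1 + m • (x - 1) := by
    conv_lhs => rw [hx]
    exact one_add_pow_of_mul_self_eq_zero h m
  rw [h1, add_sub_cancel_left, smul_mul_smul_comm, h, smul_zero]

end Unip

section PG

variable {p : ℕ} [hp : Fact p.Prime] {V : Type*} [AddCommGroup V] [Module (ZMod p) V]
  {G : Type*} [Group G] (ρ : G →* Module.End (ZMod p) V)

theorem pow_p_eq_one_of_unip {x : Module.End (ZMod p) V} (h : (x - 1) * (x - 1) = 0) :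
    x ^ p = 1 := by
  have hx : x = 1 + (x - 1) := by abel
  have h1 : x ^ p = 1 + p • (x - 1) := by
    conv_lhs => rw [hx]
    exact one_add_pow_of_mul_self_eq_zero h p
  rw [h1]
  have : p • (x - 1) = 0 := by
    rw [← Nat.cast_smul_eq_nsmul (ZMod p), ZMod.natCast_self, zero_smul]
  rw [this, add_zero]

/-- A subgroup acting unipotently on a finite `𝔽_p`-module of order divisible by `p` has a
nonzero fixed vector. -/
theorem exists_fixed_ne_zero [Finite V] (hV : p ∣ Nat.card V) (H : Subgroup G)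
    (hH : ∀ σ ∈ H, (ρ σ - 1) * (ρ σ - 1) = 0) :
    ∃ v : V, v ≠ 0 ∧ ∀ σ ∈ H, ρ σ v = v := by
  let Q : Subgroup (Module.End (ZMod p) V)ˣ := H.map ρ.toHomUnits
  have hQ : IsPGroup p Q := by
    rintro ⟨u, hu⟩
    obtain ⟨σ, hσ, rfl⟩ := hu
    refine ⟨1, ?_⟩
    apply Subtype.ext
    apply Units.ext
    rw [pow_one]
    show ((ρ.toHomUnits σ : (Module.End (ZMod p) V)ˣ) : Module.End (ZMod p) V) ^ p = 1
    rw [MonoidHom.coe_toHomUnits]
    exact pow_p_eq_one_of_unip (hH σ hσ)
  have h0 : (0 : V) ∈ MulAction.fixedPoints Q V := by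
    rintro ⟨u, hu⟩
    show (u : Module.End (ZMod p) V) (0 : V) = 0
    exact map_zero _
  obtain ⟨b, hb, hne⟩ := hQ.exists_fixed_point_of_prime_dvd_card_of_fixed_point V hV h0
  refine ⟨b, fun h => hne h.symm, fun σ hσ => ?_⟩
  have := hb ⟨ρ.toHomUnits σ, Subgroup.mem_map_of_mem _ hσ⟩
  exact this

end PG

section Rep

variable {p : ℕ} [hp : Fact p.Prime] {V : Type*} [AddCommGroup V] [Module (ZMod p) V]
  {G : Type*} [Group G] (ρ : G →* Module.End (ZMod p) V)

/-- irreducibility of a representation on an `𝔽_p`-module (no nontriviality clause) -/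
def RepIrred : Prop :=
  ∀ N : Submodule (ZMod p) V, (∀ g : G, ∀ x ∈ N, ρ g x ∈ N) → N = ⊥ ∨ N = ⊤

variable {ρ}

/-- A normal subgroup acting unipotently acts trivially on an irreducible module. -/
theorem trivial_of_unip_normal [Finite V] (hV : p ∣ Nat.card V) (hirr : RepIrred ρ)
    (H : Subgroup G) [hN : H.Normal] (hH : ∀ σ ∈ H, (ρ σ - 1) * (ρ σ - 1) = 0) :
    ∀ σ ∈ H, ρ σ = 1 := by
  let N : Submodule (ZMod p) V :=
    { carrier := {v | ∀ σ ∈ H, ρ σ v = v}
      add_mem' := fun {a b} ha hb σ hσ => by rw [map_add, ha σ hσ, hb σ hσ]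
      zero_mem' := fun σ _ => map_zero _
      smul_mem' := fun r v hv σ hσ => by rw [map_smul, hv σ hσ] }
  have hst : ∀ g : G, ∀ x ∈ N, ρ g x ∈ N := by
    intro g x hx σ hσ
    have h1 : g⁻¹ * σ * g ∈ H := by
      have := hN.conj_mem σ hσ g⁻¹
      rwa [inv_inv] at this
    have h2 : σ * g = g * (g⁻¹ * σ * g) := by group
    calc ρ σ (ρ g x) = ρ (σ * g) x := by rw [map_mul]; rfl
      _ = ρ (g * (g⁻¹ * σ * g)) x := by rw [h2]
      _ = ρ g (ρ (g⁻¹ * σ * g) x) := by rw [map_mul]; rfl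
      _ = ρ g x := by rw [hx _ h1]
  obtain ⟨v, hv0, hv⟩ := exists_fixed_ne_zero ρ hV H hH
  rcases hirr N hst with h | h
  · exfalso
    apply hv0
    have : v ∈ N := hv
    rw [h] at this
    exact (Submodule.mem_bot _).mp this
  · intro σ hσ
    apply LinearMap.ext
    intro x
    have hx : x ∈ N := by rw [h]; exact Submodule.mem_top
    exact hx σ hσ

/-- With commutative image, an element whose square acts trivially acts as `±1` on an irreducible
module. -/
theorem involution_scalar (hirr : RepIrred ρ) (hcomm : ∀ g h : G, ρ g * ρ h = ρ h * ρ g)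
    (c : G) (hc : ρ c * ρ c = 1) : ρ c = 1 ∨ ρ c = -1 := by
  have hst : ∀ g : G, ∀ x ∈ LinearMap.ker (ρ c - 1), ρ g x ∈ LinearMap.ker (ρ c - 1) := by
    intro g x hx
    rw [LinearMap.mem_ker] at hx ⊢
    have h1 : (ρ c - 1) (ρ g x) = ((ρ c - 1) * ρ g) x := rfl
    have h2 : (ρ c - 1) * ρ g = ρ g * (ρ c - 1) := by
      rw [sub_mul, mul_sub, hcomm c g, one_mul, mul_one]
    rw [h1, h2]
    show ρ g ((ρ c - 1) x) = 0
    rw [hx, map_zero]
  rcases hirr _ hst with h | h
  · right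
    apply LinearMap.ext
    intro v
    have h1 : (ρ c + 1) v ∈ LinearMap.ker (ρ c - 1) := by
      rw [LinearMap.mem_ker]
      have : (ρ c - 1) ((ρ c + 1) v) = ((ρ c - 1) * (ρ c + 1)) v := rfl
      rw [this]
      have h3 : (ρ c - 1) * (ρ c + 1) = 0 := by
        rw [sub_mul, mul_add, one_mul, mul_one, hc]
        abel
      rw [h3]
      rfl
    rw [h, Submodule.mem_bot] at h1
    rw [LinearMap.add_apply, Module.End.one_apply] at h1
    rw [LinearMap.neg_apply, Module.End.one_apply]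
    exact eq_neg_of_add_eq_zero_left h1
  · left
    have h1 : ρ c - 1 = 0 := LinearMap.ker_eq_top.mp h
    exact sub_eq_zero.mp h1

/-- An irreducible representation on a plane has a non-scalar element. -/
theorem exists_nonscalar (h2 : Module.finrank (ZMod p) V = 2) (hirr : RepIrred ρ) :
    ∃ σ : G, ¬ IsScalarEnd (ρ σ) := by
  by_contra hcon
  have hcon : ∀ σ : G, IsScalarEnd (ρ σ) := fun σ => not_not.mp fun h => hcon ⟨σ, h⟩
  obtain ⟨v, hv⟩ := exists_ne_zero_of_finrank_two (k := ZMod p) h2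
  have hst : ∀ g : G, ∀ x ∈ Submodule.span (ZMod p) {v}, ρ g x ∈ Submodule.span (ZMod p) {v} := by
    intro g x hx
    obtain ⟨r, hr⟩ := hcon g
    rw [hr, LinearMap.smul_apply, Module.End.one_apply]
    exact Submodule.smul_mem _ _ hx
  rcases hirr _ hst with h | h
  · apply hv
    have : v ∈ Submodule.span (ZMod p) {v} := Submodule.mem_span_singleton_self v
    rw [h] at this
    exact (Submodule.mem_bot _).mp this
  · have h1 : Module.finrank (ZMod p) (Submodule.span (ZMod p) {v}) = 1 :=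
      finrank_span_singleton hv
    rw [h, finrank_top, h2] at h1
    norm_num at h1

/-- If `det ∘ ρ` agrees with a character `χ` on the non-scalar elements and some element is
non-scalar, then `det ∘ ρ = χ`. -/
theorem det_eq_char_of_nonscalar (h2 : Module.finrank (ZMod p) V = 2) (χ : G →* (ZMod p)ˣ)
    (hA : ∀ σ : G, ¬ IsScalarEnd (ρ σ) → LinearMap.det (ρ σ) = (χ σ : ZMod p))
    {σ₀ : G} (h₀ : ¬ IsScalarEnd (ρ σ₀)) (σ : G) :
    LinearMap.det (ρ σ) = (χ σ : ZMod p) := by
  by_cases hs : IsScalarEnd (ρ σ)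
  · obtain ⟨r, hr⟩ := hs
    have hr0 : r ≠ 0 := by
      rintro rfl
      rw [zero_smul] at hr
      have h1 : ρ σ * ρ σ⁻¹ = 1 := by rw [← map_mul, mul_inv_cancel, map_one]
      rw [hr, zero_mul] at h1
      have h3 : (1 : ZMod p) • (1 : Module.End (ZMod p) V) = 0 := by rw [one_smul, ← h1]
      exact one_ne_zero (smul_one_end_eq_zero h2 h3)
    have hns : ¬ IsScalarEnd (ρ (σ * σ₀)) := by
      rintro ⟨t, ht⟩
      apply h₀
      refine ⟨r⁻¹ * t, ?_⟩
      rw [map_mul, hr, smul_mul_assoc, one_mul] at ht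
      rw [mul_smul, ← ht, smul_smul, inv_mul_cancel₀ hr0, one_smul]
    have h1 := hA _ hns
    have h3 := hA _ h₀
    rw [map_mul, map_mul, map_mul, Units.val_mul, h3] at h1
    exact mul_right_cancel₀ (Units.ne_zero (χ σ₀)) h1
  · exact hA σ hs

/-- **Abstract core of R4.**  Let `ρ` be an irreducible representation on an `𝔽_p`-plane, `p` odd,
whose determinant agrees with a character `χ` on the non-scalar elements.  Then there is no
normal subgroup `H` with abelian quotient acting unipotently, together with an element `c` with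
`c² ∈ H` and `χ(c) = −1`. -/
theorem false_of_unip_normal (hp2 : p ≠ 2) (h2 : Module.finrank (ZMod p) V = 2)
    (hirr : RepIrred ρ) (χ : G →* (ZMod p)ˣ)
    (hA : ∀ σ : G, ¬ IsScalarEnd (ρ σ) → LinearMap.det (ρ σ) = (χ σ : ZMod p))
    (H : Subgroup G) [hN : H.Normal] (hab : ∀ g h : G, g * h * g⁻¹ * h⁻¹ ∈ H)
    (hH : ∀ σ ∈ H, (ρ σ - 1) * (ρ σ - 1) = 0)
    (c : G) (hc : c * c ∈ H) (hχc : χ c = -1) : False := by
  have hfin : Module.Finite (ZMod p) V := Module.finite_of_finrank_eq_succ h2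
  have hFin : Finite V := Module.finite_of_finite (ZMod p)
  have hcard : Nat.card V = p ^ 2 := by
    rw [Module.natCard_eq_pow_finrank (K := ZMod p), Nat.card_zmod, h2]
  have hV : p ∣ Nat.card V := by rw [hcard]; exact dvd_pow_self p two_ne_zero
  have htriv := trivial_of_unip_normal hV hirr H hH
  have hcomm : ∀ g h : G, ρ g * ρ h = ρ h * ρ g := by
    intro g h
    have h1 := htriv _ (hab g h)
    rw [map_mul, map_mul, map_mul] at h1
    have h3 : ρ g * ρ h = (ρ g * ρ h * ρ g⁻¹ * ρ h⁻¹) * (ρ h * ρ g) := by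
      have e1 : ρ h⁻¹ * ρ h = 1 := by rw [← map_mul, inv_mul_cancel, map_one]
      have e2 : ρ g⁻¹ * ρ g = 1 := by rw [← map_mul, inv_mul_cancel, map_one]
      calc ρ g * ρ h = ρ g * ρ h * 1 := by rw [mul_one]
        _ = ρ g * ρ h * (ρ g⁻¹ * ρ g) := by rw [e2]
        _ = ρ g * ρ h * (ρ g⁻¹ * 1 * ρ g) := by rw [mul_one]
        _ = ρ g * ρ h * (ρ g⁻¹ * (ρ h⁻¹ * ρ h) * ρ g) := by rw [e1]
        _ = (ρ g * ρ h * ρ g⁻¹ * ρ h⁻¹) * (ρ h * ρ g) := by simp only [mul_assoc]
    rw [h3, h1, one_mul]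
  have hcc : ρ c * ρ c = 1 := by rw [← map_mul]; exact htriv _ hc
  obtain ⟨σ₀, h₀⟩ := exists_nonscalar h2 hirr
  have hdet := det_eq_char_of_nonscalar h2 χ hA h₀
  have hε : LinearMap.det (ρ c) = 1 := by
    rcases involution_scalar hirr hcomm c hcc with h | h
    · rw [h, map_one]
    · have : (-1 : Module.End (ZMod p) V) = (-1 : ZMod p) • (1 : Module.End (ZMod p) V) := by
        rw [neg_smul, one_smul]
      rw [h, this, det_smul_one_two h2]
      ring
  have h1 := hdet c
  rw [hε, hχc] at h1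
  have h3 : ((-1 : (ZMod p)ˣ) : ZMod p) = -1 := by simp
  rw [h3] at h1
  have h4 : (2 : ZMod p) = 0 := by
    have : (2 : ZMod p) = 1 - (-1) := by ring
    rw [this, ← h1, sub_self]
  have h5 : ((2 : ℕ) : ZMod p) = 0 := by exact_mod_cast h4
  rw [ZMod.natCast_eq_zero_iff] at h5
  have := (Nat.prime_dvd_prime_iff_eq hp.out Nat.prime_two).mp h5
  exact hp2 this

end Rep

end Fermat.Agent.EC.DetChar


end ZBEC_001_0

/-! ### bundled: `Fermat.Agent.EC.DetChar` -/
section ZBEC_001_1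
/-
# EC-DET and the abstract form of S41 R4 (helper40)

`E : WeierstrassCurve ℚ`, `V = E[p](ℚ̄)` (`TorsQbar E p`), `ρ̄ = rhoBar E p`, `p` prime.
Hypotheses, all abstract:
* (CARD) `Nat.card (TorsQbar E p) = p ^ 2`            (EC/Tors.lean, helper77);
* (REL)  `FrobRel E p a S₀`: `τ² − a_ℓ τ + ℓ = 0` on `V` for every Frobenius `τ` at `ℓ ∉ S₀`
         (RED link, helper13; `a = W.apOfModel` after transport, helper6);
* (IRR)  `GaloisRepIsIrreducible ℚ E p`, or only "some `ρ̄(σ₀)` is not scalar".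

Results (no Weil pairing, no isogenies: Cayley–Hamilton + the generator form of weak Chebotarev):
* `det_rhoBar_eq_cycloChar`, `det_rhoBar_eq_cycloChar_of_irred` : `det ρ̄(σ) = χ_p(σ)`;
* `trace_rhoBar_frob`, `trace_rhoBar_frob_of_irred`, `galoisTrace_frob_of_irred` :
  `tr ρ̄(τ) = a_ℓ mod p` for a Frobenius `τ` at `ℓ ∉ S₀`, `ℓ ≠ p`;
* `exists_prime_modEq_one_not_dvd` (R4): for `p` odd and every `M > 0` there is a prime `ℓ ∉ S₀`,
  `ℓ ≡ 1 mod M`, with `¬ p ∣ a ℓ − (ℓ + 1)`.
-/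

set_option autoImplicit false

noncomputable section

namespace Fermat.Agent.EC.DetChar

open WeierstrassCurve WeierstrassCurve.Affine WeierstrassCurve.Affine.Point
open Fermat.Agent.ES Fermat.Agent.S42

/-- `E[p](ℚ̄)` -/
abbrev TorsQbar (E : WeierstrassCurve ℚ) (p : ℕ) : Type :=
  Submodule.torsionBy ℤ (E⁄(AlgebraicClosure ℚ)).Point p

/-- the mod-`p` representation `G_ℚ → End(E[p])` -/
abbrev rhoBar (E : WeierstrassCurve ℚ) (p : ℕ) : GQ →* Module.End (ZMod p) (TorsQbar E p) :=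
  galoisRepModuleEnd (S := ℚ) (K := AlgebraicClosure ℚ) E p

/-- **(REL)** the Frobenius relation `τ² − a_ℓ τ + ℓ = 0` on `E[p]` for all primes `ℓ ∉ S₀`. -/
def FrobRel (E : WeierstrassCurve ℚ) (p : ℕ) (a : ℕ → ℤ) (S₀ : Finset ℕ) : Prop :=
  ∀ ℓ : ℕ, ℓ.Prime → ℓ ∉ S₀ → ∀ A : ValuationSubring (AlgebraicClosure ℚ), A.LiesOverPrime ℓ →
    ∀ τ : GQ, A.IsFrobeniusAt τ ℓ → ∀ x : TorsQbar E p,
      τ • τ • x - a ℓ • τ • x + (ℓ : ℤ) • x = 0

variable {E : WeierstrassCurve ℚ} {p : ℕ}

theorem rhoBar_apply (σ : GQ) (x : TorsQbar E p) : rhoBar E p σ x = σ • x := rfl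

/-- (REL) as an identity of endomorphisms. -/
theorem frobRel_end {a : ℕ → ℤ} {S₀ : Finset ℕ} (hrel : FrobRel E p a S₀) {ℓ : ℕ}
    (hℓ : ℓ.Prime) (hℓS : ℓ ∉ S₀) {A : ValuationSubring (AlgebraicClosure ℚ)}
    (hA : A.LiesOverPrime ℓ) {τ : GQ} (hτ : A.IsFrobeniusAt τ ℓ) :
    rhoBar E p τ ^ 2 - (a ℓ : ZMod p) • rhoBar E p τ
      + (ℓ : ZMod p) • (1 : Module.End (ZMod p) (TorsQbar E p)) = 0 := by
  apply LinearMap.ext
  intro x
  have h := hrel ℓ hℓ hℓS A hA τ hτ x
  rw [LinearMap.add_apply, LinearMap.sub_apply, LinearMap.smul_apply, LinearMap.smul_apply,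
    Module.End.one_apply, LinearMap.zero_apply, pow_two, Module.End.mul_apply, rhoBar_apply,
    rhoBar_apply, Int.cast_smul_eq_zsmul, Nat.cast_smul_eq_nsmul]
  rw [← h, natCast_zsmul]


theorem exists_level (hfin : Finite (TorsQbar E p)) (n : ℕ) [NeZero n] :
    ∃ F : IntermediateField ℚ (AlgebraicClosure ℚ), FiniteDimensional ℚ F ∧ IsGalois ℚ F ∧
      (∀ σ σ' : GQ, (∀ x ∈ F, σ x = σ' x) → rhoBar E p σ = rhoBar E p σ') ∧
      (∀ σ σ' : GQ, (∀ x ∈ F, σ x = σ' x) → cycloChar n σ = cycloChar n σ') := by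
  classical
  obtain ⟨E₀, hE₀, hE₀triv⟩ := finite_level_of_finite_torsion E p hfin
  have : NeZero (n : AlgebraicClosure ℚ) := ⟨Nat.cast_ne_zero.mpr (NeZero.ne n)⟩
  obtain ⟨ζ, hζ⟩ := HasEnoughRootsOfUnity.exists_primitiveRoot (AlgebraicClosure ℚ) n
  have hint : IsIntegral ℚ ζ := (hζ.isIntegral (Nat.pos_of_ne_zero (NeZero.ne n))).tower_top
  have hK : FiniteDimensional ℚ (IntermediateField.adjoin ℚ {ζ}) :=
    IntermediateField.adjoin.finiteDimensional hint
  obtain ⟨F, hFfin, hFnorm, hle⟩ := stmtHull {E₀, IntermediateField.adjoin ℚ {ζ}} (by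
    intro K hK'
    rw [Finset.mem_insert, Finset.mem_singleton] at hK'
    rcases hK' with rfl | rfl
    · exact hE₀
    · exact hK)
  have hE₀F : E₀ ≤ F := hle E₀ (by simp)
  have hζF : ζ ∈ F :=
    hle (IntermediateField.adjoin ℚ {ζ}) (by simp)
      (IntermediateField.subset_adjoin ℚ {ζ} (Set.mem_singleton ζ))
  refine ⟨F, hFfin, ?_, ?_, ?_⟩
  · exact IsGalois.mk
  · intro σ σ' h
    have hfix : FixesField E₀ (σ'⁻¹ * σ) := by
      intro x hx
      rw [AlgEquiv.mul_apply, h x (hE₀F hx)]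
      exact σ'.symm_apply_apply x
    have h1 : rhoBar E p (σ'⁻¹ * σ) = 1 := by
      apply LinearMap.ext
      intro x
      exact hE₀triv _ hfix x
    have h2 : σ = σ' * (σ'⁻¹ * σ) := by group
    rw [h2, map_mul, h1, mul_one]
  · intro σ σ' h
    have h1 := cycloChar_spec n σ hζ
    have h2 := cycloChar_spec n σ' hζ
    rw [h ζ hζF, h2] at h1
    have h3 := hζ.pow_inj (ZMod.val_lt _) (ZMod.val_lt _) h1
    apply Units.ext
    exact (ZMod.val_injective n h3).symm



section Main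

variable [hpF : Fact p.Prime]

theorem finite_of_card (hcard : Nat.card (TorsQbar E p) = p ^ 2) : Finite (TorsQbar E p) := by
  apply Nat.finite_of_card_ne_zero
  rw [hcard]
  exact pow_ne_zero _ hpF.out.ne_zero

theorem finrank_of_card (hcard : Nat.card (TorsQbar E p) = p ^ 2) :
    Module.finrank (ZMod p) (TorsQbar E p) = 2 := by
  have hfin : Finite (TorsQbar E p) := finite_of_card hcard
  have hmf : Module.Finite (ZMod p) (TorsQbar E p) := Module.Finite.of_finite
  have h := Module.natCard_eq_pow_finrank (K := ZMod p) (V := TorsQbar E p)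
  rw [hcard, Nat.card_zmod] at h
  exact (Nat.pow_right_injective hpF.out.two_le h).symm

/-- **(A)** for a non-scalar `ρ̄(σ)`: `det ρ̄(σ) = χ_p(σ)`. -/
theorem det_of_nonscalar (hcard : Nat.card (TorsQbar E p) = p ^ 2) {a : ℕ → ℤ} {S₀ : Finset ℕ}
    (hrel : FrobRel E p a S₀) (σ : GQ) (hns : ¬ IsScalarEnd (rhoBar E p σ)) :
    LinearMap.det (rhoBar E p σ) = ((cycloChar p σ : (ZMod p)ˣ) : ZMod p) := by
  have h2 := finrank_of_card hcard
  obtain ⟨F, hFfin, hFgal, hρ, hχ⟩ := exists_level (finite_of_card hcard) p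
  obtain ⟨ℓ, A, τ, m, k, hℓ, hℓS, hA, hτ, h1, -⟩ :=
    Fermat.Agent.Cheb.exists_frobenius_generator F (insert p S₀) σ
  have hℓp : ℓ ≠ p := fun h => hℓS (h ▸ Finset.mem_insert_self _ _)
  have hℓS₀ : ℓ ∉ S₀ := fun h => hℓS (Finset.mem_insert_of_mem h)
  have hρσ : rhoBar E p σ = rhoBar E p τ ^ m := by
    rw [← map_pow]
    exact (hρ _ _ h1).symm
  have hχσ : cycloChar p σ = cycloChar p τ ^ m := by
    rw [← map_pow]
    exact (hχ _ _ h1).symm
  have hnsτ : ¬ IsScalarEnd (rhoBar E p τ) := fun h => hns (hρσ ▸ isScalarEnd_pow h m)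
  have hdet := (trace_det_of_rel h2 (frobRel_end hrel hℓ hℓS₀ hA hτ) hnsτ).2
  have hfrob := cycloChar_frob p hpF.out ℓ hℓ hℓp A hA τ hτ
  rw [hρσ, hχσ, map_pow, hdet, Units.val_pow_eq_pow_val, hfrob]

/-- **EC-DET (determinant).**  If some `ρ̄(σ₀)` is not scalar, `det ρ̄ = χ_p`. -/
theorem det_rhoBar_eq_cycloChar (hcard : Nat.card (TorsQbar E p) = p ^ 2) {a : ℕ → ℤ}
    {S₀ : Finset ℕ} (hrel : FrobRel E p a S₀) {σ₀ : GQ} (h₀ : ¬ IsScalarEnd (rhoBar E p σ₀))
    (σ : GQ) :
    LinearMap.det (rhoBar E p σ) = ((cycloChar p σ : (ZMod p)ˣ) : ZMod p) :=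
  det_eq_char_of_nonscalar (finrank_of_card hcard) (cycloChar p)
    (fun σ hσ => det_of_nonscalar hcard hrel σ hσ) h₀ σ

/-- **EC-DET (trace).**  If some `ρ̄(σ₀)` is not scalar, then `tr ρ̄(τ) = a_ℓ` for every Frobenius
`τ` at a prime `ℓ ∉ S₀`, `ℓ ≠ p`. -/
theorem trace_rhoBar_frob (hcard : Nat.card (TorsQbar E p) = p ^ 2) {a : ℕ → ℤ}
    {S₀ : Finset ℕ} (hrel : FrobRel E p a S₀) {σ₀ : GQ} (h₀ : ¬ IsScalarEnd (rhoBar E p σ₀))
    {ℓ : ℕ} (hℓ : ℓ.Prime) (hℓS : ℓ ∉ S₀) (hℓp : ℓ ≠ p)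
    {A : ValuationSubring (AlgebraicClosure ℚ)} (hA : A.LiesOverPrime ℓ) {τ : GQ}
    (hτ : A.IsFrobeniusAt τ ℓ) :
    LinearMap.trace (ZMod p) (TorsQbar E p) (rhoBar E p τ) = (a ℓ : ZMod p) := by
  have h2 := finrank_of_card hcard
  have hr := frobRel_end hrel hℓ hℓS hA hτ
  by_cases hs : IsScalarEnd (rhoBar E p τ)
  · obtain ⟨r, hr'⟩ := hs
    have hdet := det_rhoBar_eq_cycloChar hcard hrel h₀ τ
    rw [cycloChar_frob p hpF.out ℓ hℓ hℓp A hA τ hτ] at hdet
    have hl0 : (ℓ : ZMod p) ≠ 0 := by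
      intro h0
      rw [ZMod.natCast_eq_zero_iff] at h0
      exact hℓp ((Nat.prime_dvd_prime_iff_eq hpF.out hℓ).mp h0).symm
    rw [hr'] at hr hdet ⊢
    exact trace_of_rel_scalar h2 hr hdet hl0
  · exact (trace_det_of_rel h2 hr hs).1

/-- a natural number prime to the residue characteristic is a unit of the valuation ring -/
theorem natCast_not_mem_nonunits_of_coprime (A : ValuationSubring (AlgebraicClosure ℚ)) {n ℓ : ℕ}
    (hcop : Nat.Coprime n ℓ) (hA : A.LiesOverPrime ℓ) :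
    ((n : ℕ) : AlgebraicClosure ℚ) ∉ A.nonunits := by
  intro h
  obtain ⟨u, v, huv⟩ := Nat.Coprime.isCoprime hcop
  have h1 : ((u : AlgebraicClosure ℚ) * ((n : ℕ) : AlgebraicClosure ℚ)
      + (v : AlgebraicClosure ℚ) * (ℓ : AlgebraicClosure ℚ)) = 1 := by
    have := congrArg (fun z : ℤ => (z : AlgebraicClosure ℚ)) huv
    simpa using this
  have hu : (u : AlgebraicClosure ℚ) ∈ A := intCast_mem A u
  have hv : (v : AlgebraicClosure ℚ) ∈ A := intCast_mem A v
  have h2 : A.valuation ((u : AlgebraicClosure ℚ) * ((n : ℕ) : AlgebraicClosure ℚ)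
      + (v : AlgebraicClosure ℚ) * (ℓ : AlgebraicClosure ℚ)) < 1 := by
    apply Valuation.map_add_lt
    · rw [map_mul]
      calc A.valuation (u : AlgebraicClosure ℚ) * A.valuation ((n : ℕ) : AlgebraicClosure ℚ)
          ≤ 1 * A.valuation ((n : ℕ) : AlgebraicClosure ℚ) :=
            mul_le_mul_left ((A.valuation_le_one_iff _).mpr hu) _
        _ = A.valuation ((n : ℕ) : AlgebraicClosure ℚ) := one_mul _
        _ < 1 := A.mem_nonunits_iff.mp h
    · rw [map_mul]
      calc A.valuation (v : AlgebraicClosure ℚ) * A.valuation (ℓ : AlgebraicClosure ℚ)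
          ≤ 1 * A.valuation (ℓ : AlgebraicClosure ℚ) :=
            mul_le_mul_left ((A.valuation_le_one_iff _).mpr hv) _
        _ = A.valuation (ℓ : AlgebraicClosure ℚ) := one_mul _
        _ < 1 := A.mem_nonunits_iff.mp hA
  rw [h1, map_one] at h2
  exact lt_irrefl _ h2

/-- a Frobenius at `ℓ ∤ n` with trivial mod-`n` cyclotomic character has `ℓ ≡ 1 mod n` -/
theorem modEq_one_of_cycloChar_eq_one {n : ℕ} [NeZero n] {ℓ : ℕ}
    (hcop : Nat.Coprime n ℓ) {A : ValuationSubring (AlgebraicClosure ℚ)}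
    (hA : A.LiesOverPrime ℓ) {τ : GQ} (hτ : A.IsFrobeniusAt τ ℓ)
    (h1 : cycloChar n τ = 1) : ℓ ≡ 1 [MOD n] := by
  have : NeZero (n : AlgebraicClosure ℚ) := ⟨Nat.cast_ne_zero.mpr (NeZero.ne n)⟩
  obtain ⟨ζ, hζ⟩ := HasEnoughRootsOfUnity.exists_primitiveRoot (AlgebraicClosure ℚ) n
  have hfrob : τ ζ = ζ ^ ℓ :=
    Fermat.Agent.S31.frob_rootOfUnity A (natCast_not_mem_nonunits_of_coprime A hcop hA)
      (NeZero.ne n) hτ hζ.pow_eq_one
  have hspec := cycloChar_spec n τ hζ
  rw [h1, hfrob] at hspec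
  -- `ζ ^ ℓ = ζ ^ (1 : ZMod n).val`
  have hfo : IsOfFinOrder ζ :=
    isOfFinOrder_iff_pow_eq_one.mpr ⟨n, Nat.pos_of_ne_zero (NeZero.ne n), hζ.pow_eq_one⟩
  have hd : ζ ^ ℓ = ζ ^ 1 ↔ ℓ ≡ 1 [MOD n] := by
    have := hfo.pow_eq_pow_iff_modEq (n := ℓ) (m := 1)
    rwa [← hζ.eq_orderOf] at this
  by_cases hn1 : n = 1
  · subst hn1
    exact Nat.modEq_one
  · have hlt : 1 < n := lt_of_le_of_ne (Nat.pos_of_ne_zero (NeZero.ne n)) (Ne.symm hn1)
    have : Fact (1 < n) := ⟨hlt⟩
    have hv : ((1 : (ZMod n)ˣ) : ZMod n).val = 1 := by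
      rw [Units.val_one, ZMod.val_one]
    rw [hv] at hspec
    exact hd.mp hspec

theorem cycloChar_complexConj : cycloChar p complexConjugation = -1 := by
  have hp := hpF.out
  have : NeZero (p : AlgebraicClosure ℚ) := ⟨Nat.cast_ne_zero.mpr hp.ne_zero⟩
  obtain ⟨ζ, hζ⟩ := HasEnoughRootsOfUnity.exists_primitiveRoot (AlgebraicClosure ℚ) p
  have h1 := Fermat.Agent.S30.complexConj_root p ζ hp.ne_zero hζ.pow_eq_one
  have hspec := cycloChar_spec p complexConjugation hζ
  rw [h1] at hspec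
  have hinv : ζ⁻¹ = ζ ^ (p - 1) := by
    have hζ0 : ζ ≠ 0 := hζ.ne_zero hp.ne_zero
    have : ζ * ζ ^ (p - 1) = 1 := by
      rw [← pow_succ', Nat.sub_add_cancel hp.one_le, hζ.pow_eq_one]
    exact inv_eq_of_mul_eq_one_right this
  rw [hinv] at hspec
  have h3 := hζ.pow_inj (Nat.sub_lt hp.pos Nat.one_pos) (ZMod.val_lt _) hspec
  apply Units.ext
  rw [Units.val_neg, Units.val_one]
  have h4 : ((cycloChar p complexConjugation : (ZMod p)ˣ) : ZMod p)
      = ((p - 1 : ℕ) : ZMod p) := by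
    rw [h3, ZMod.natCast_zmod_val]
  rw [h4, Nat.cast_sub hp.one_le, ZMod.natCast_self, Nat.cast_one, zero_sub]

/-- an irreducible `E[p]` of order `p²` has a non-scalar `ρ̄(σ₀)` -/
theorem exists_nonscalar_of_irred
    (hirr : GaloisRepIsIrreducible (K := AlgebraicClosure ℚ) ℚ E p)
    (hcard : Nat.card (TorsQbar E p) = p ^ 2) : ∃ σ₀ : GQ, ¬ IsScalarEnd (rhoBar E p σ₀) :=
  exists_nonscalar (finrank_of_card hcard) (fun N hN => hirr.2 N hN)

/-- **EC-DET (determinant), irreducible case.** -/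
theorem det_rhoBar_eq_cycloChar_of_irred
    (hirr : GaloisRepIsIrreducible (K := AlgebraicClosure ℚ) ℚ E p)
    (hcard : Nat.card (TorsQbar E p) = p ^ 2) {a : ℕ → ℤ} {S₀ : Finset ℕ}
    (hrel : FrobRel E p a S₀) (σ : GQ) :
    LinearMap.det (rhoBar E p σ) = ((cycloChar p σ : (ZMod p)ˣ) : ZMod p) := by
  obtain ⟨σ₀, h₀⟩ := exists_nonscalar_of_irred hirr hcard
  exact det_rhoBar_eq_cycloChar hcard hrel h₀ σ

/-- **EC-DET (trace), irreducible case.** -/
theorem trace_rhoBar_frob_of_irred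
    (hirr : GaloisRepIsIrreducible (K := AlgebraicClosure ℚ) ℚ E p)
    (hcard : Nat.card (TorsQbar E p) = p ^ 2) {a : ℕ → ℤ} {S₀ : Finset ℕ}
    (hrel : FrobRel E p a S₀) {ℓ : ℕ} (hℓ : ℓ.Prime) (hℓS : ℓ ∉ S₀) (hℓp : ℓ ≠ p)
    {A : ValuationSubring (AlgebraicClosure ℚ)} (hA : A.LiesOverPrime ℓ) {τ : GQ}
    (hτ : A.IsFrobeniusAt τ ℓ) :
    LinearMap.trace (ZMod p) (TorsQbar E p) (rhoBar E p τ) = (a ℓ : ZMod p) := by
  obtain ⟨σ₀, h₀⟩ := exists_nonscalar_of_irred hirr hcard
  exact trace_rhoBar_frob hcard hrel h₀ hℓ hℓS hℓp hA hτ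

/-- **EC-DET (trace), irreducible case, in terms of the prelude's `galoisTrace`.** -/
theorem galoisTrace_frob_of_irred
    (hirr : GaloisRepIsIrreducible (K := AlgebraicClosure ℚ) ℚ E p)
    (hcard : Nat.card (TorsQbar E p) = p ^ 2) {a : ℕ → ℤ} {S₀ : Finset ℕ}
    (hrel : FrobRel E p a S₀) {ℓ : ℕ} (hℓ : ℓ.Prime) (hℓS : ℓ ∉ S₀) (hℓp : ℓ ≠ p)
    {A : ValuationSubring (AlgebraicClosure ℚ)} (hA : A.LiesOverPrime ℓ) {τ : GQ}
    (hτ : A.IsFrobeniusAt τ ℓ) :
    galoisTrace (K := AlgebraicClosure ℚ) ℚ E p τ = (a ℓ : ZMod p) :=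
  trace_rhoBar_frob_of_irred hirr hcard hrel hℓ hℓS hℓp hA hτ

/-- **S41 R4 (abstract form).**  If `E[p]` is irreducible of order `p²` (`p` odd) and the
Frobenius relation `τ² − a_ℓ τ + ℓ = 0` holds on `E[p]` for all primes `ℓ ∉ S₀`, then for every
`M > 0` there is a prime `ℓ ∉ S₀`, `ℓ ≡ 1 mod M`, with `a_ℓ ≢ ℓ + 1 mod p`. -/
theorem exists_prime_modEq_one_not_dvd (hp2 : p ≠ 2)
    (hirr : GaloisRepIsIrreducible (K := AlgebraicClosure ℚ) ℚ E p)
    (hcard : Nat.card (TorsQbar E p) = p ^ 2) {a : ℕ → ℤ} {S₀ : Finset ℕ}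
    (hrel : FrobRel E p a S₀) {M : ℕ} (hM : 0 < M) :
    ∃ ℓ : ℕ, ℓ.Prime ∧ ℓ ∉ S₀ ∧ ℓ ≡ 1 [MOD M] ∧ ¬ (p : ℤ) ∣ a ℓ - (ℓ + 1) := by
  by_contra hcon
  have hp := hpF.out
  have hneg : ∀ ℓ : ℕ, ℓ.Prime → ℓ ∉ S₀ → ℓ ≡ 1 [MOD M] → (p : ℤ) ∣ a ℓ - (ℓ + 1) := by
    intro ℓ h1 h2 h3
    by_contra h4
    exact hcon ⟨ℓ, h1, h2, h3, h4⟩
  have h2 := finrank_of_card hcard
  have hirr' : RepIrred (rhoBar E p) := fun N hN => hirr.2 N hN
  have : NeZero (p * M) := ⟨Nat.mul_ne_zero hp.ne_zero hM.ne'⟩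
  refine false_of_unip_normal hp2 h2 hirr' (cycloChar p)
    (fun σ hσ => det_of_nonscalar hcard hrel σ hσ) (cycloChar (p * M)).ker ?_ ?_
    complexConjugation ?_ cycloChar_complexConj
  · intro g h
    rw [MonoidHom.mem_ker, map_mul, map_mul, map_mul, map_inv, map_inv]
    rw [mul_comm (cycloChar (p * M) g) (cycloChar (p * M) h), mul_assoc, mul_assoc,
      mul_inv_cancel_left, mul_inv_cancel]
  · intro σ hσ
    obtain ⟨F, hFfin, hFgal, hρ, hχ⟩ := exists_level (finite_of_card hcard) (p * M)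
    obtain ⟨ℓ, A, τ, m, k, hℓ, hℓS, hA, hτ, h1, h3⟩ :=
      Fermat.Agent.Cheb.exists_frobenius_generator F (S₀ ∪ (p * M).primeFactors) σ
    have hℓS₀ : ℓ ∉ S₀ := fun h => hℓS (Finset.mem_union_left _ h)
    have hndvd : ¬ ℓ ∣ p * M := by
      intro hd
      apply hℓS
      apply Finset.mem_union_right
      rw [Nat.mem_primeFactors]
      exact ⟨hℓ, hd, NeZero.ne _⟩
    have hcop : Nat.Coprime (p * M) ℓ := ((Nat.Prime.coprime_iff_not_dvd hℓ).mpr hndvd).symm
    have hχτ : cycloChar (p * M) τ = 1 := by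
      have := hχ (σ ^ k) τ h3
      rw [← this, map_pow, MonoidHom.mem_ker.mp hσ, one_pow]
    have hmod := modEq_one_of_cycloChar_eq_one hcop hA hτ hχτ
    have hmodM : ℓ ≡ 1 [MOD M] := hmod.of_mul_left p
    have hmodp : ℓ ≡ 1 [MOD p] := hmod.of_mul_right M
    have hdvd := hneg ℓ hℓ hℓS₀ hmodM
    have hl1 : (ℓ : ZMod p) = 1 := by
      have := (ZMod.natCast_eq_natCast_iff ℓ 1 p).mpr hmodp
      simpa using this
    have ha2 : ((a ℓ : ℤ) : ZMod p) = 2 := by
      have h0 : ((a ℓ - (ℓ + 1) : ℤ) : ZMod p) = 0 :=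
        (ZMod.intCast_zmod_eq_zero_iff_dvd _ p).mpr hdvd
      push_cast at h0
      rw [hl1] at h0
      linear_combination h0
    have hr := frobRel_end hrel hℓ hℓS₀ hA hτ
    rw [ha2, hl1, one_smul] at hr
    have hτu : (rhoBar E p τ - 1) * (rhoBar E p τ - 1) = 0 := by
      have : (rhoBar E p τ - 1) * (rhoBar E p τ - 1)
          = rhoBar E p τ ^ 2 - (2 : ZMod p) • rhoBar E p τ + 1 := by
        rw [sub_mul, mul_sub, mul_sub, one_mul, mul_one, mul_one, pow_two, two_smul]
        abel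
      rw [this, hr]
    have hρσ : rhoBar E p σ = rhoBar E p τ ^ m := by
      rw [← map_pow]
      exact (hρ _ _ h1).symm
    rw [hρσ]
    exact pow_sub_one_sq_eq_zero hτu m
  · rw [complexConjugation_mul_self]
    exact one_mem _

end Main

end Fermat.Agent.EC.DetChar

end
end ZBEC_001_1

/-! ### bundled: `Fermat.Agent.R38.RepAlg` -/
section ZBEC_001_2

/-!
# R38-REP, algebra: the Boston–Lenstra–Ribet factorisation in dimension two

`k` a field of characteristic `≠ 2`, `ρ : G →* A` with `k`-span of `ρ(G)` equal to `A`,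
`tr : A →ₗ[k] k`, `d : G →* k`, `Θ : G →* B` with
`Θ(g)² − tr(ρ g) Θ(g) + d(g) = 0` for all `g`, and `a, a' ∈ A` with `[a, a']² = 1`.
Then `Θ` factors through `ρ`: there is an algebra homomorphism `F : A →ₐ[k] B` with
`F (ρ g) = Θ g` (`r38rep_exists_algHom`).

Consequence (`r38rep_embed`): for `A = End E`, `dim E = 2`, `B = End U`, every `u ≠ 0` of `U`
gives an injective `G`-equivariant linear map `E → U`.
-/

set_option autoImplicit false

namespace Fermat.Agent.R38

section Key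

variable {k : Type*} [Field k] {G : Type*} [Group G]
  {A : Type*} [Ring A] [Algebra k A] {B : Type*} [Ring B] [Algebra k B]

/-- the `k`-span of the graph of `g ↦ (ρ g, Θ g)` -/
def r38repP (k : Type*) [Field k] {G : Type*} [Group G] {A : Type*} [Ring A] [Algebra k A]
    {B : Type*} [Ring B] [Algebra k B] (ρ : G →* A) (Θ : G →* B) : Submodule k (A × B) :=
  Submodule.span k (Set.range (ρ.prod Θ))

theorem r38rep_gen_mem (ρ : G →* A) (Θ : G →* B) (g : G) : (ρ g, Θ g) ∈ r38repP k ρ Θ :=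
  Submodule.subset_span ⟨g, rfl⟩

theorem r38rep_P_eq_adjoin (ρ : G →* A) (Θ : G →* B) :
    Subalgebra.toSubmodule (Algebra.adjoin k (Set.range (ρ.prod Θ))) = r38repP k ρ Θ := by
  have h1 := Algebra.adjoin_eq_span k (Set.range (ρ.prod Θ))
  have hcl : (Submonoid.closure (Set.range (ρ.prod Θ)) : Set (A × B)) = Set.range (ρ.prod Θ) := by
    rw [← MonoidHom.coe_mrange, Submonoid.closure_eq]
  rw [hcl] at h1
  exact h1

theorem r38rep_mul_mem (ρ : G →* A) (Θ : G →* B) {x y : A × B} (hx : x ∈ r38repP k ρ Θ)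
    (hy : y ∈ r38repP k ρ Θ) : x * y ∈ r38repP k ρ Θ := by
  rw [← r38rep_P_eq_adjoin, Subalgebra.mem_toSubmodule] at hx hy ⊢
  exact mul_mem hx hy

theorem r38rep_one_mem (ρ : G →* A) (Θ : G →* B) : (1 : A × B) ∈ r38repP k ρ Θ := by
  rw [← r38rep_P_eq_adjoin, Subalgebra.mem_toSubmodule]
  exact one_mem _

/-- rearranging the quadratic relation -/
theorem r38rep_quad_left (X : B) (t d : k) (h : X * X - t • X + d • (1 : B) = 0) :
    (t • (1 : B) - X) * X = d • (1 : B) := by
  have e : (t • (1 : B) - X) * X = -(X * X - t • X + d • (1 : B)) + d • (1 : B) := by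
    rw [sub_mul, smul_mul_assoc, one_mul]
    abel
  rw [e, h, neg_zero, zero_add]

/-- the anti-multiplicativity of `x ↦ tr x − Θ x`, on generators -/
theorem r38rep_S_gen (ρ : G →* A) (Θ : G →* B) (tr : A →ₗ[k] k) (d : G →* k)
    (hrel : ∀ g, Θ g * Θ g - tr (ρ g) • Θ g + d g • (1 : B) = 0) (g h : G) :
    tr (ρ g * ρ h) • (1 : B) - Θ g * Θ h
      = (tr (ρ h) • (1 : B) - Θ h) * (tr (ρ g) • (1 : B) - Θ g) := by
  have hg := r38rep_quad_left _ _ _ (hrel g)
  have hh := r38rep_quad_left _ _ _ (hrel h)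
  have hgh := r38rep_quad_left _ _ _ (hrel (g * h))
  rw [map_mul ρ, map_mul Θ, map_mul d] at hgh
  have hinv : Θ g * Θ h * Θ (g * h)⁻¹ = 1 := by
    rw [← map_mul, ← map_mul, mul_inv_cancel, map_one]
  have e1 : (tr (ρ h) • (1 : B) - Θ h) * (tr (ρ g) • (1 : B) - Θ g) * (Θ g * Θ h)
      = (d g * d h) • (1 : B) := by
    calc (tr (ρ h) • (1 : B) - Θ h) * (tr (ρ g) • (1 : B) - Θ g) * (Θ g * Θ h)
        = (tr (ρ h) • (1 : B) - Θ h) * (((tr (ρ g) • (1 : B) - Θ g) * Θ g) * Θ h) := by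
          simp only [mul_assoc]
      _ = (tr (ρ h) • (1 : B) - Θ h) * (d g • Θ h) := by
          rw [hg, smul_mul_assoc, one_mul]
      _ = d g • ((tr (ρ h) • (1 : B) - Θ h) * Θ h) := by
          rw [mul_smul_comm]
      _ = (d g * d h) • (1 : B) := by
          rw [hh, smul_smul]
  calc tr (ρ g * ρ h) • (1 : B) - Θ g * Θ h
      = (tr (ρ g * ρ h) • (1 : B) - Θ g * Θ h) * (Θ g * Θ h * Θ (g * h)⁻¹) := by
        rw [hinv, mul_one]
    _ = ((tr (ρ g * ρ h) • (1 : B) - Θ g * Θ h) * (Θ g * Θ h)) * Θ (g * h)⁻¹ := by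
        simp only [mul_assoc]
    _ = ((tr (ρ h) • (1 : B) - Θ h) * (tr (ρ g) • (1 : B) - Θ g) * (Θ g * Θ h))
          * Θ (g * h)⁻¹ := by
        rw [hgh, e1]
    _ = (tr (ρ h) • (1 : B) - Θ h) * (tr (ρ g) • (1 : B) - Θ g)
          * (Θ g * Θ h * Θ (g * h)⁻¹) := by
        simp only [mul_assoc]
    _ = (tr (ρ h) • (1 : B) - Θ h) * (tr (ρ g) • (1 : B) - Θ g) := by
        rw [hinv, mul_one]

/-- the anti-multiplicativity of `x ↦ tr x − Θ x` on the span -/
theorem r38rep_S (ρ : G →* A) (Θ : G →* B) (tr : A →ₗ[k] k) (d : G →* k)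
    (hrel : ∀ g, Θ g * Θ g - tr (ρ g) • Θ g + d g • (1 : B) = 0)
    {x y : A × B} (hx : x ∈ r38repP k ρ Θ) (hy : y ∈ r38repP k ρ Θ) :
    tr (x.1 * y.1) • (1 : B) - x.2 * y.2
      = (tr y.1 • (1 : B) - y.2) * (tr x.1 • (1 : B) - x.2) := by
  unfold r38repP at hx hy
  induction hx using Submodule.span_induction with
  | mem x hx =>
    obtain ⟨g, rfl⟩ := hx
    induction hy using Submodule.span_induction with
    | mem y hy =>
      obtain ⟨h, rfl⟩ := hy
      exact r38rep_S_gen ρ Θ tr d hrel g h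
    | zero => simp
    | add y z _ _ hy hz =>
      simp only [Prod.fst_add, Prod.snd_add, mul_add, map_add, add_smul]
      have e : (tr y.1 • (1 : B) + tr z.1 • (1 : B) - (y.2 + z.2))
          = (tr y.1 • (1 : B) - y.2) + (tr z.1 • (1 : B) - z.2) := by abel
      rw [e, add_mul, ← hy, ← hz]
      abel
    | smul c y _ hy =>
      simp only [Prod.smul_fst, Prod.smul_snd, mul_smul_comm, map_smul, smul_eq_mul]
      have e : ((c * tr y.1) • (1 : B) - c • y.2) = c • (tr y.1 • (1 : B) - y.2) := by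
        rw [smul_sub, smul_smul]
      rw [e, smul_mul_assoc, ← hy, smul_sub, smul_smul]
  | zero => simp
  | add x z _ _ hx hz =>
    simp only [Prod.fst_add, Prod.snd_add, add_mul, map_add, add_smul]
    have e : (tr x.1 • (1 : B) + tr z.1 • (1 : B) - (x.2 + z.2))
        = (tr x.1 • (1 : B) - x.2) + (tr z.1 • (1 : B) - z.2) := by abel
    rw [e, mul_add, ← hx, ← hz]
    abel
  | smul c x _ hx =>
    simp only [Prod.smul_fst, Prod.smul_snd, smul_mul_assoc, map_smul, smul_eq_mul]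
    have e : ((c * tr x.1) • (1 : B) - c • x.2) = c • (tr x.1 • (1 : B) - x.2) := by
      rw [smul_sub, smul_smul]
    rw [e, mul_smul_comm, ← hx, smul_sub, smul_smul]

/-- `n Y + Y n = tr(a) n` for `(0, n)` and `(a, Y)` in the span -/
theorem r38rep_anti (ρ : G →* A) (Θ : G →* B) (tr : A →ₗ[k] k) (d : G →* k)
    (hrel : ∀ g, Θ g * Θ g - tr (ρ g) • Θ g + d g • (1 : B) = 0)
    {n : B} (hn : ((0 : A), n) ∈ r38repP k ρ Θ) {y : A × B} (hy : y ∈ r38repP k ρ Θ) :
    n * y.2 + y.2 * n = tr y.1 • n := by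
  have h := r38rep_S ρ Θ tr d hrel hn hy
  simp only [zero_mul, map_zero, zero_smul, zero_sub] at h
  -- h : -(n * y.2) = (tr y.1 • 1 - y.2) * -n
  have e : (tr y.1 • (1 : B) - y.2) * -n = -(tr y.1 • n) + y.2 * n := by
    rw [mul_neg, sub_mul, smul_mul_assoc, one_mul]
    abel
  rw [e] at h
  have h' : n * y.2 = tr y.1 • n - y.2 * n := by
    have := congrArg (fun z => -z) h
    simp only [neg_neg, neg_add_rev] at this
    rw [this]
    abel
  rw [h']
  abel

/-- **Key lemma**: the span of the graph is a graph. -/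
theorem r38rep_key (h2 : (2 : k) ≠ 0) (ρ : G →* A) (Θ : G →* B) (tr : A →ₗ[k] k) (d : G →* k)
    (hrel : ∀ g, Θ g * Θ g - tr (ρ g) • Θ g + d g • (1 : B) = 0)
    (hspan : Submodule.span k (Set.range ρ) = ⊤)
    (a a' : A) (haa : (a * a' - a' * a) * (a * a' - a' * a) = 1)
    {n : B} (hn : ((0 : A), n) ∈ r38repP k ρ Θ) : n = 0 := by
  -- square zero
  have hsq : ∀ m : B, ((0 : A), m) ∈ r38repP k ρ Θ → m * m = 0 := by
    intro m hm
    have h := r38rep_anti ρ Θ tr d hrel hm hm
    simp only [map_zero, zero_smul] at h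
    have h' : (2 : k) • (m * m) = 0 := by rw [two_smul]; exact h
    rcases smul_eq_zero.mp h' with h0 | h0
    · exact absurd h0 h2
    · exact h0
  -- the first projection is onto
  have hsurj : ∀ x : A, ∃ Y : B, (x, Y) ∈ r38repP k ρ Θ := by
    intro x
    have hx : x ∈ Submodule.span k (Set.range ρ) := by rw [hspan]; trivial
    induction hx using Submodule.span_induction with
    | mem x hx =>
      obtain ⟨g, rfl⟩ := hx
      exact ⟨Θ g, r38rep_gen_mem ρ Θ g⟩
    | zero => exact ⟨0, Submodule.zero_mem _⟩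
    | add x y _ _ hx hy =>
      obtain ⟨X, hX⟩ := hx
      obtain ⟨Y, hY⟩ := hy
      exact ⟨X + Y, by simpa using Submodule.add_mem _ hX hY⟩
    | smul c x _ hx =>
      obtain ⟨X, hX⟩ := hx
      exact ⟨c • X, by simpa using Submodule.smul_mem _ c hX⟩
  -- `n` kills commutators
  have hcomm : ∀ m : B, ((0 : A), m) ∈ r38repP k ρ Θ → ∀ y ∈ r38repP k ρ Θ,
      ∀ z ∈ r38repP k ρ Θ, m * (y.2 * z.2 - z.2 * y.2) = 0 := by
    intro m hm y hy z hz
    have hmy : ((0 : A), m * y.2) ∈ r38repP k ρ Θ := by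
      have := r38rep_mul_mem ρ Θ hm hy
      have e : ((0 : A), m) * y = (0, m * y.2) := by
        ext <;> simp
      rwa [e] at this
    have h1 := r38rep_anti ρ Θ tr d hrel hmy hz
    have h2' := r38rep_anti ρ Θ tr d hrel hm hz
    -- h1 : m y z + z m y = t m y ;  h2' : m z + z m = t m
    have h3 : z.2 * m = tr z.1 • m - m * z.2 := by
      rw [← h2']
      abel
    have h4 : m * y.2 * z.2 + z.2 * (m * y.2) = tr z.1 • (m * y.2) := h1
    rw [← mul_assoc, h3, sub_mul, smul_mul_assoc] at h4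
    rw [mul_sub, ← mul_assoc, ← mul_assoc]
    have h5 : m * y.2 * z.2 - m * z.2 * y.2
        = (m * y.2 * z.2 + (tr z.1 • (m * y.2) - m * z.2 * y.2)) - tr z.1 • (m * y.2) := by
      abel
    rw [h5, h4, sub_self]
  obtain ⟨Y, hY⟩ := hsurj a
  obtain ⟨Y', hY'⟩ := hsurj a'
  set c : B := Y * Y' - Y' * Y with hc
  have hnc : ∀ m : B, ((0 : A), m) ∈ r38repP k ρ Θ → m * c = 0 := fun m hm =>
    hcomm m hm _ hY _ hY'
  -- (1, c * c) is in the span
  have hcP : (a * a' - a' * a, c) ∈ r38repP k ρ Θ := by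
    have h1 := r38rep_mul_mem ρ Θ hY hY'
    have h2' := r38rep_mul_mem ρ Θ hY' hY
    have := Submodule.sub_mem _ h1 h2'
    simpa using this
  have hccP : ((1 : A), c * c) ∈ r38repP k ρ Θ := by
    have := r38rep_mul_mem ρ Θ hcP hcP
    rw [Prod.mk_mul_mk, haa] at this
    exact this
  have hn' : ((0 : A), 1 - c * c) ∈ r38repP k ρ Θ := by
    have := Submodule.sub_mem _ (r38rep_one_mem (k := k) ρ Θ) hccP
    have e : (1 : A × B) - ((1 : A), c * c) = (0, 1 - c * c) := by
      ext <;> simp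
    rwa [e] at this
  have e1 : n = n * (1 - c * c) := by
    rw [mul_sub, mul_one, ← mul_assoc, hnc n hn, zero_mul, sub_zero]
  have e2 : (1 - c * c) * (1 - c * c) = 0 := hsq _ hn'
  calc n = n * (1 - c * c) := e1
    _ = n * (1 - c * c) * (1 - c * c) := congrArg (· * (1 - c * c)) e1
    _ = 0 := by rw [mul_assoc, e2, mul_zero]

/-- **The factorisation**: `Θ` factors through `ρ`. -/
theorem r38rep_exists_algHom (h2 : (2 : k) ≠ 0) (ρ : G →* A) (Θ : G →* B) (tr : A →ₗ[k] k)
    (d : G →* k) (hrel : ∀ g, Θ g * Θ g - tr (ρ g) • Θ g + d g • (1 : B) = 0)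
    (hspan : Submodule.span k (Set.range ρ) = ⊤)
    (a a' : A) (haa : (a * a' - a' * a) * (a * a' - a' * a) = 1) :
    ∃ F : A →ₐ[k] B, ∀ g, F (ρ g) = Θ g := by
  classical
  have hkey : ∀ n : B, ((0 : A), n) ∈ r38repP k ρ Θ → n = 0 := fun n hn =>
    r38rep_key h2 ρ Θ tr d hrel hspan a a' haa hn
  have huniq : ∀ (x : A) (Y Y' : B), (x, Y) ∈ r38repP k ρ Θ → (x, Y') ∈ r38repP k ρ Θ →
      Y = Y' := by
    intro x Y Y' hY hY'
    have := Submodule.sub_mem _ hY hY'
    rw [Prod.mk_sub_mk, sub_self] at this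
    exact sub_eq_zero.mp (hkey _ this)
  have hsurj : ∀ x : A, ∃ Y : B, (x, Y) ∈ r38repP k ρ Θ := by
    intro x
    have hx : x ∈ Submodule.span k (Set.range ρ) := by rw [hspan]; trivial
    induction hx using Submodule.span_induction with
    | mem x hx =>
      obtain ⟨g, rfl⟩ := hx
      exact ⟨Θ g, r38rep_gen_mem ρ Θ g⟩
    | zero => exact ⟨0, Submodule.zero_mem _⟩
    | add x y _ _ hx hy =>
      obtain ⟨X, hX⟩ := hx
      obtain ⟨Y, hY⟩ := hy
      exact ⟨X + Y, by simpa using Submodule.add_mem _ hX hY⟩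
    | smul c x _ hx =>
      obtain ⟨X, hX⟩ := hx
      exact ⟨c • X, by simpa using Submodule.smul_mem _ c hX⟩
  choose f hf using hsurj
  have hfeq : ∀ (x : A) (Y : B), (x, Y) ∈ r38repP k ρ Θ → f x = Y := fun x Y hY =>
    huniq x _ _ (hf x) hY
  refine ⟨AlgHom.ofLinearMap
    { toFun := f
      map_add' := fun x y => hfeq _ _ (by simpa using Submodule.add_mem _ (hf x) (hf y))
      map_smul' := fun c x => hfeq _ _ (by simpa using Submodule.smul_mem _ c (hf x)) }
    (hfeq _ _ (r38rep_one_mem (k := k) ρ Θ))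
    (fun x y => hfeq _ _ (by simpa using r38rep_mul_mem ρ Θ (hf x) (hf y))), fun g => ?_⟩
  exact hfeq _ _ (r38rep_gen_mem ρ Θ g)

end Key

section Embed

variable {k : Type*} [Field k] {G : Type*} [Group G]
  {E : Type*} [AddCommGroup E] [Module k E] {U : Type*} [AddCommGroup U] [Module k U]

/-- two endomorphisms of a plane whose commutator squares to `1` -/
theorem r38rep_exists_comm (hdim : Module.finrank k E = 2) :
    ∃ a a' : Module.End k E, (a * a' - a' * a) * (a * a' - a' * a) = 1 := by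
  classical
  have hfin : Module.Finite k E := Module.finite_of_finrank_eq_succ hdim
  let b : Module.Basis (Fin 2) k E := Module.finBasisOfFinrankEq k E hdim
  let e : Module.End k E ≃ₐ[k] Matrix (Fin 2) (Fin 2) k := LinearMap.toMatrixAlgEquiv b
  obtain ⟨M, M', h⟩ : ∃ M M' : Matrix (Fin 2) (Fin 2) k,
      (M * M' - M' * M) * (M * M' - M' * M) = 1 := by
    refine ⟨Matrix.of ![![0, 1], ![0, 0]], Matrix.of ![![0, 0], ![1, 0]], ?_⟩
    ext i j
    fin_cases i <;> fin_cases j <;> simp [Matrix.mul_apply, Fin.sum_univ_two]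
  refine ⟨e.symm M, e.symm M', ?_⟩
  rw [← map_mul, ← map_mul, ← map_sub, ← map_mul, h, map_one]

/-- a representation spanning `End E` has no proper nonzero stable subspace -/
theorem r38rep_irr_of_span (ρ : G →* Module.End k E)
    (h : Submodule.span k (Set.range ρ) = ⊤) (W : Submodule k E)
    (hW : ∀ g : G, ∀ x ∈ W, ρ g x ∈ W) : W = ⊥ ∨ W = ⊤ := by
  have hall : ∀ f : Module.End k E, ∀ x ∈ W, f x ∈ W := by
    intro f
    have hf : f ∈ Submodule.span k (Set.range ρ) := by rw [h]; trivial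
    induction hf using Submodule.span_induction with
    | mem y hy =>
      obtain ⟨g, rfl⟩ := hy
      exact hW g
    | zero => intro x _; simp
    | add y z _ _ hy hz =>
      intro x hx
      rw [LinearMap.add_apply]
      exact W.add_mem (hy x hx) (hz x hx)
    | smul c y _ hy =>
      intro x hx
      rw [LinearMap.smul_apply]
      exact W.smul_mem c (hy x hx)
  by_cases hbot : W = ⊥
  · exact Or.inl hbot
  right
  obtain ⟨w, hwW, hw0⟩ := (Submodule.ne_bot_iff W).mp hbot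
  obtain ⟨φ, hφ⟩ : ∃ φ : Module.Dual k E, φ w ≠ 0 := by
    by_contra hcon
    push Not at hcon
    exact hw0 ((Module.forall_dual_apply_eq_zero_iff k w).mp hcon)
  rw [eq_top_iff]
  intro v _
  have := hall (φ.smulRight ((φ w)⁻¹ • v)) w hwW
  rw [LinearMap.smulRight_apply, smul_smul, mul_inv_cancel₀ hφ, one_smul] at this
  exact this

/-- **The embedding**: if `Θ` satisfies the characteristic polynomials of the absolutely
irreducible two-dimensional `ρ`, every nonzero vector of `U` gives an equivariant embedding of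
`E` into `U`. -/
theorem r38rep_embed (h2 : (2 : k) ≠ 0) (hdim : Module.finrank k E = 2)
    (ρ : G →* Module.End k E) (Θ : G →* Module.End k U)
    (hrel : ∀ g, Θ g * Θ g - LinearMap.trace k E (ρ g) • Θ g
      + LinearMap.det (ρ g) • (1 : Module.End k U) = 0)
    (hspan : Submodule.span k (Set.range ρ) = ⊤) (u : U) (hu : u ≠ 0) :
    ∃ φ : E →ₗ[k] U, Function.Injective φ ∧ ∀ g x, φ (ρ g x) = Θ g (φ x) := by
  classical
  have hfin : Module.Finite k E := Module.finite_of_finrank_eq_succ hdim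
  obtain ⟨a, a', haa⟩ := r38rep_exists_comm (k := k) (E := E) hdim
  obtain ⟨F, hF⟩ := r38rep_exists_algHom h2 ρ Θ (LinearMap.trace k E)
    ((LinearMap.det : Module.End k E →* k).comp ρ) hrel hspan a a' haa
  let b : Module.Basis (Fin 2) k E := Module.finBasisOfFinrankEq k E hdim
  -- the rank one decomposition of the identity
  have hone : (1 : Module.End k E) = ∑ i, (b.coord i).smulRight (b i) := by
    apply LinearMap.ext
    intro x
    rw [Module.End.one_apply, LinearMap.sum_apply]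
    simp only [LinearMap.smulRight_apply, Module.Basis.coord_apply]
    exact (b.sum_repr x).symm
  have hu' : ∃ i, F ((b.coord i).smulRight (b i)) u ≠ 0 := by
    by_contra hcon
    push Not at hcon
    apply hu
    have h1 : F 1 u = u := by rw [map_one]; rfl
    rw [← h1, hone, map_sum, LinearMap.sum_apply]
    exact Finset.sum_eq_zero fun i _ => hcon i
  obtain ⟨i, hi⟩ := hu'
  let f : Module.Dual k E := b.coord i
  let φ : E →ₗ[k] U :=
    { toFun := fun e => F (f.smulRight e) u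
      map_add' := fun x y => by
        have : f.smulRight (x + y) = f.smulRight x + f.smulRight y := by
          apply LinearMap.ext
          intro z
          simp
        rw [this, map_add, LinearMap.add_apply]
      map_smul' := fun c x => by
        have : f.smulRight (c • x) = c • f.smulRight x := by
          apply LinearMap.ext
          intro z
          rw [LinearMap.smul_apply, LinearMap.smulRight_apply, LinearMap.smulRight_apply,
            smul_comm]
        rw [this, map_smul, LinearMap.smul_apply, RingHom.id_apply] }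
  have hφ : ∀ e, φ e = F (f.smulRight e) u := fun _ => rfl
  have hequiv : ∀ g x, φ (ρ g x) = Θ g (φ x) := by
    intro g x
    have : f.smulRight (ρ g x) = ρ g * f.smulRight x := by
      apply LinearMap.ext
      intro z
      simp
    rw [hφ, hφ, this, map_mul, hF, Module.End.mul_apply]
  refine ⟨φ, ?_, hequiv⟩
  rw [← LinearMap.ker_eq_bot]
  rcases r38rep_irr_of_span ρ hspan (LinearMap.ker φ) (fun g x hx => by
    rw [LinearMap.mem_ker] at hx ⊢
    rw [hequiv, hx, map_zero]) with h | h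
  · exact h
  · exfalso
    apply hi
    have : b i ∈ LinearMap.ker φ := by rw [h]; trivial
    exact LinearMap.mem_ker.mp this

end Embed

section Powers

variable {k : Type*} [Field k]

/-- the Lucas sequence `V_m(t, d)` -/
def r38repLuc (t d : k) : ℕ → k
  | 0 => 2
  | 1 => t
  | (m + 2) => t * r38repLuc t d (m + 1) - d * r38repLuc t d m

/-- the Lucas recursion, with the explicit sequence -/
theorem r38rep_lucas_pair {R : Type*} [Ring R] [Algebra k R] (X Y : R)
    (hXY : X * Y = 1) (hYX : Y * X = 1) (t d : k) (h : X + d • Y = t • (1 : R)) (m : ℕ) :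
    X ^ m + d ^ m • Y ^ m = r38repLuc t d m • (1 : R) ∧
      X ^ (m + 1) + d ^ (m + 1) • Y ^ (m + 1) = r38repLuc t d (m + 1) • (1 : R) := by
  induction m with
  | zero =>
    refine ⟨?_, ?_⟩
    · simp only [pow_zero, one_smul, r38repLuc]
      rw [two_smul]
    · simpa [r38repLuc] using h
  | succ m ih =>
    obtain ⟨h₀, h₁⟩ := ih
    refine ⟨h₁, ?_⟩
    have e1 : X * Y ^ (m + 1) = Y ^ m := by
      rw [pow_succ', ← mul_assoc, hXY, one_mul]
    have e2 : Y * X ^ (m + 1) = X ^ m := by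
      rw [pow_succ', ← mul_assoc, hYX, one_mul]
    have key : (X + d • Y) * (X ^ (m + 1) + d ^ (m + 1) • Y ^ (m + 1))
        = (X ^ (m + 1 + 1) + d ^ (m + 1 + 1) • Y ^ (m + 1 + 1)) + d • (X ^ m + d ^ m • Y ^ m) := by
      have e3 : X * X ^ (m + 1) = X ^ (m + 1 + 1) := (pow_succ' X (m + 1)).symm
      have e4 : Y * Y ^ (m + 1) = Y ^ (m + 1 + 1) := (pow_succ' Y (m + 1)).symm
      simp only [add_mul, mul_add, smul_mul_assoc, mul_smul_comm, e1, e2, e3, e4, smul_smul,
        smul_add]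
      rw [pow_succ d (m + 1), pow_succ' d m]
      abel
    rw [h, h₁, h₀] at key
    have : X ^ (m + 1 + 1) + d ^ (m + 1 + 1) • Y ^ (m + 1 + 1)
        = t • (1 : R) * r38repLuc t d (m + 1) • (1 : R) - d • r38repLuc t d m • (1 : R) := by
      rw [key]; abel
    rw [this, smul_mul_smul_comm, mul_one, smul_smul]
    show _ = (t * r38repLuc t d (m + 1) - d * r38repLuc t d m) • (1 : R)
    rw [sub_smul]

theorem r38rep_lucas {R : Type*} [Ring R] [Algebra k R] (X Y : R)
    (hXY : X * Y = 1) (hYX : Y * X = 1) (t d : k) (h : X + d • Y = t • (1 : R)) (m : ℕ) :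
    X ^ m + d ^ m • Y ^ m = r38repLuc t d m • (1 : R) :=
  (r38rep_lucas_pair X Y hXY hYX t d h m).1

/-- from the quadratic relation to the linear one -/
theorem r38rep_lin_of_quad {R : Type*} [Ring R] [Algebra k R] (X Y : R)
    (hXY : X * Y = 1) (t d : k) (h : X * X - t • X + d • (1 : R) = 0) :
    X + d • Y = t • (1 : R) := by
  have h1 := congrArg (· * Y) h
  simp only [add_mul, sub_mul, zero_mul, smul_mul_assoc, one_mul, mul_assoc, hXY, mul_one] at h1
  -- h1 : X - t • 1 + d • Y = 0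
  have : X + d • Y = (X - t • (1 : R) + d • Y) + t • (1 : R) := by abel
  rw [this, h1, zero_add]

/-- from the linear relation to the quadratic one -/
theorem r38rep_quad_of_lin {R : Type*} [Ring R] [Algebra k R] (X Y : R)
    (hYX : Y * X = 1) (t d : k) (h : X + d • Y = t • (1 : R)) :
    X * X - t • X + d • (1 : R) = 0 := by
  have h1 := congrArg (· * X) h
  simp only [add_mul, smul_mul_assoc, one_mul, hYX] at h1
  -- h1 : X * X + d • 1 = t • X
  rw [← h1]
  abel

/-- **Powers**: if `X` satisfies the characteristic polynomial of the invertible plane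
endomorphism `R`, then `X ^ m` satisfies the characteristic polynomial of `R ^ m`. -/
theorem r38rep_rel_pow {E : Type*} [AddCommGroup E] [Module k E]
    (hdim : Module.finrank k E = 2) {B : Type*} [Ring B] [Algebra k B]
    (R Ri : Module.End k E) (hR : R * Ri = 1) (hRi : Ri * R = 1)
    (X Y : B) (hXY : X * Y = 1) (hYX : Y * X = 1)
    (hrel : X * X - LinearMap.trace k E R • X + LinearMap.det R • (1 : B) = 0) (m : ℕ) :
    X ^ m * X ^ m - LinearMap.trace k E (R ^ m) • X ^ m
      + LinearMap.det (R ^ m) • (1 : B) = 0 := by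
  have hCH := Fermat.Agent.EC.DetChar.cayley_hamilton_two hdim R
  rw [pow_two] at hCH
  have hRlin := r38rep_lin_of_quad R Ri hR _ _ hCH
  have hXlin := r38rep_lin_of_quad X Y hXY _ _ hrel
  have hRm := r38rep_lucas R Ri hR hRi _ _ hRlin m
  have hXm := r38rep_lucas X Y hXY hYX _ _ hXlin m
  have hRRm : R ^ m * Ri ^ m = 1 := by
    rw [← (Commute.mul_pow (show Commute R Ri from by rw [Commute, SemiconjBy, hR, hRi]) m),
      hR, one_pow]
  have hYXm : Y ^ m * X ^ m = 1 := by
    rw [← (Commute.mul_pow (show Commute Y X from by rw [Commute, SemiconjBy, hXY, hYX]) m),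
      hYX, one_pow]
  have hCHm := Fermat.Agent.EC.DetChar.cayley_hamilton_two hdim (R ^ m)
  rw [pow_two] at hCHm
  have hdet : LinearMap.det (R ^ m) = LinearMap.det R ^ m :=
    map_pow (LinearMap.det : Module.End k E →* k) R m
  have hRmlin := r38rep_lin_of_quad (R ^ m) (Ri ^ m) hRRm _ _ hCHm
  rw [hdet, hRm] at hRmlin
  -- the Lucas number is the trace
  have hL : r38repLuc (LinearMap.trace k E R) (LinearMap.det R) m
      = LinearMap.trace k E (R ^ m) := by
    have h0 : (r38repLuc (LinearMap.trace k E R) (LinearMap.det R) m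
        - LinearMap.trace k E (R ^ m)) • (1 : Module.End k E) = 0 := by
      rw [sub_smul, hRmlin, sub_self]
    exact sub_eq_zero.mp (Fermat.Agent.EC.DetChar.smul_one_end_eq_zero hdim h0)
  rw [hL] at hXm
  rw [hdet]
  exact r38rep_quad_of_lin (X ^ m) (Y ^ m) hYXm _ _ hXm

end Powers

end Fermat.Agent.R38


end ZBEC_001_2
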