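/- GENERATED FILE (helper35, build-time optimisation, NOTES/ZB.md): verbatim concatenation of the modules
   Fermat.Agent.HW.Count
   Do not edit; do not import together with these modules. -/
import Mathlib.AlgebraicGeometry.EllipticCurve.Affine.Point
import Mathlib.AlgebraicGeometry.EllipticCurve.DivisionPolynomial.Basic
import Mathlib.NumberTheory.LegendreSymbol.QuadraticChar.Basic
import Mathlib.FieldTheory.Finite.Basic
import Mathlib.FieldTheory.RatFunc.Basic
import Mathlib.Tactic.ComputeDegree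
import Fermat.Prelude.Def_FLTPrelim_Modularity
import Fermat.Agent.ZB.S13_002

/-! ### bundled: `Fermat.Agent.HW.Count` -/
section ZBHW_004_0
/-
HW brick, step 5 (COUNT): the height of the `x`-coordinate function of `φ - 1` is `#E(F_q)`.

`F` a finite field with `q` elements, of odd characteristic, `W` a Weierstrass curve over `F` with
`Δ ≠ 0`, `f = Ψ₂Sq = 4X³ + b₂X² + 2b₄X + b₆`.  The `x`-coordinate of `φ(P) - P` is
`N / D` with `N = G(X^q, X) + f^((q+1)/2)`, `D = 2 (X^q - X)²`, where
`G(u, v) = 2(u+v)uv + b₂uv + b₄(u+v) + b₆`.  We show that `N / D = N₁ / D₁` with `N₁`, `D₁` coprime,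
`deg N₁ = #E(F_q)` and `deg D₁ = #E(F_q) - 1`.
-/

set_option autoImplicit false

open Polynomial

namespace Fermat.Agent.HW.Count

section Poly

variable {F : Type*} [Field F] [Fintype F] (W : WeierstrassCurve F)

/-- The numerator `N = G(X^q, X) + f^((q+1)/2)` of the `x`-coordinate of `φ - 1`. -/
noncomputable def numPoly : F[X] :=
  C 2 * (X ^ Fintype.card F + X) * (X ^ Fintype.card F * X) + C W.b₂ * (X ^ Fintype.card F * X) +
    C W.b₄ * (X ^ Fintype.card F + X) + C W.b₆ + W.Ψ₂Sq ^ (Fintype.card F / 2 + 1)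

/-- The denominator `D = 2 (X^q - X)²` of the `x`-coordinate of `φ - 1`. -/
noncomputable def denPoly (F : Type*) [Field F] [Fintype F] : F[X] :=
  C 2 * (X ^ Fintype.card F - X) ^ 2

omit [Fintype F] in
theorem eval_Ψ₂Sq (c : F) :
    W.Ψ₂Sq.eval c = 4 * c ^ 3 + W.b₂ * c ^ 2 + 2 * W.b₄ * c + W.b₆ := by
  simp [WeierstrassCurve.Ψ₂Sq]

omit [Fintype F] in
theorem eval_derivative_Ψ₂Sq (c : F) :
    (derivative W.Ψ₂Sq).eval c = 12 * c ^ 2 + 2 * W.b₂ * c + 2 * W.b₄ := by
  simp only [WeierstrassCurve.Ψ₂Sq, derivative_add, derivative_mul, derivative_C, derivative_X_pow,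
    derivative_X, eval_add, eval_mul, eval_C, eval_pow, eval_X,
    zero_mul, zero_add, mul_one, add_zero, Nat.cast_ofNat, map_ofNat, eval_ofNat]
  norm_num
  ring

theorem eval_numPoly (c : F) :
    (numPoly W).eval c = W.Ψ₂Sq.eval c * (1 + W.Ψ₂Sq.eval c ^ (Fintype.card F / 2)) := by
  simp only [numPoly, eval_add, eval_mul, eval_C, eval_pow, eval_X, FiniteField.pow_card]
  rw [eval_Ψ₂Sq]
  ring

theorem two_mul_half_add_one (hF : ringChar F ≠ 2) :
    (2 : F) * ((Fintype.card F / 2 + 1 : ℕ) : F) = 1 := by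
  have h1 : Fintype.card F % 2 = 1 := FiniteField.odd_card_of_char_ne_two hF
  have h2 : ((2 * (Fintype.card F / 2 + 1) : ℕ) : F) = ((Fintype.card F + 1 : ℕ) : F) := by
    congr 1
    omega
  rw [Nat.cast_mul, Nat.cast_add (Fintype.card F), FiniteField.cast_card_eq_zero] at h2
  simpa using h2

theorem two_mul_eval_derivative_numPoly (hF : ringChar F ≠ 2) (c : F) :
    2 * (derivative (numPoly W)).eval c =
      (derivative W.Ψ₂Sq).eval c * (1 + W.Ψ₂Sq.eval c ^ (Fintype.card F / 2)) := by
  have hq : ((Fintype.card F : ℕ) : F) = 0 := FiniteField.cast_card_eq_zero F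
  have h2 := two_mul_half_add_one hF
  simp only [numPoly, derivative_add, derivative_mul, derivative_C, derivative_X,
    derivative_pow, eval_add, eval_mul, eval_C, eval_pow, eval_X,
    FiniteField.pow_card, hq, map_zero, zero_mul, zero_add, mul_one, add_zero,
    Nat.add_sub_cancel]
  rw [eval_derivative_Ψ₂Sq, eval_Ψ₂Sq]
  linear_combination (4 * c ^ 3 + W.b₂ * c ^ 2 + 2 * W.b₄ * c + W.b₆) ^ (Fintype.card F / 2) *
    (12 * c ^ 2 + 2 * W.b₂ * c + 2 * W.b₄) * h2

omit [Fintype F] in
theorem natDegree_Ψ₂Sq_le : W.Ψ₂Sq.natDegree ≤ 3 := by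
  rw [WeierstrassCurve.Ψ₂Sq]
  compute_degree

theorem card_ge_three (hF : ringChar F ≠ 2) : 3 ≤ Fintype.card F := by
  have h1 : Fintype.card F % 2 = 1 := FiniteField.odd_card_of_char_ne_two hF
  have h2 : 1 < Fintype.card F := Fintype.one_lt_card
  omega

omit [Fintype F] in
theorem two_ne_zero_of_char (hF : ringChar F ≠ 2) : (2 : F) ≠ 0 :=
  Ring.two_ne_zero hF

theorem numPoly_eq :
    numPoly W = C 2 * X ^ (2 * Fintype.card F + 1) +
      (C 2 * X ^ (Fintype.card F + 2) + C W.b₂ * X ^ (Fintype.card F + 1) +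
        C W.b₄ * X ^ Fintype.card F + C W.b₄ * X + C W.b₆ +
        W.Ψ₂Sq ^ (Fintype.card F / 2 + 1)) := by
  rw [numPoly]
  ring

theorem natDegree_numPoly (hF : ringChar F ≠ 2) :
    (numPoly W).natDegree = 2 * Fintype.card F + 1 := by
  have h3 := card_ge_three (F := F) hF
  have h1 : Fintype.card F % 2 = 1 := FiniteField.odd_card_of_char_ne_two hF
  have h2 : (2 : F) ≠ 0 := two_ne_zero_of_char hF
  have hf : (W.Ψ₂Sq ^ (Fintype.card F / 2 + 1)).natDegree ≤ 2 * Fintype.card F := by
    refine natDegree_pow_le.trans ?_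
    have := natDegree_Ψ₂Sq_le W
    calc (Fintype.card F / 2 + 1) * W.Ψ₂Sq.natDegree ≤ (Fintype.card F / 2 + 1) * 3 :=
          Nat.mul_le_mul_left _ this
      _ ≤ 2 * Fintype.card F := by omega
  have hlow : (C 2 * X ^ (Fintype.card F + 2) + C W.b₂ * X ^ (Fintype.card F + 1) +
        C W.b₄ * X ^ Fintype.card F + C W.b₄ * X + C W.b₆ +
        W.Ψ₂Sq ^ (Fintype.card F / 2 + 1)).natDegree ≤ 2 * Fintype.card F := by
    refine (natDegree_add_le _ _).trans (max_le ?_ hf)
    compute_degree
    omega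
  have htop : (C (2 : F) * X ^ (2 * Fintype.card F + 1)).natDegree = 2 * Fintype.card F + 1 :=
    natDegree_C_mul_X_pow _ _ h2
  rw [numPoly_eq W, natDegree_add_eq_left_of_natDegree_lt (by rw [htop]; omega), htop]

theorem numPoly_ne_zero (hF : ringChar F ≠ 2) : numPoly W ≠ 0 := by
  intro h
  have := natDegree_numPoly W hF
  rw [h, natDegree_zero] at this
  omega

omit [Fintype F] in
/-- `Δ ≠ 0`: a root of `f` is simple. -/
theorem eval_derivative_Ψ₂Sq_ne_zero (hF : ringChar F ≠ 2) (hΔ : W.Δ ≠ 0) {c : F}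
    (hc : W.Ψ₂Sq.eval c = 0) : (derivative W.Ψ₂Sq).eval c ≠ 0 := by
  have h2 : (2 : F) ≠ 0 := two_ne_zero_of_char hF
  have h4 : (4 : F) ≠ 0 := by
    have : (4 : F) = 2 * 2 := by norm_num
    rw [this]
    exact mul_ne_zero h2 h2
  set y : F := -(W.a₁ * c + W.a₃) / 2 with hy
  have hy2 : 2 * y + W.a₁ * c + W.a₃ = 0 := by
    rw [hy]
    field_simp
    ring
  rw [eval_Ψ₂Sq] at hc
  have heq : W.toAffine.Equation c y := by
    rw [WeierstrassCurve.Affine.equation_iff]
    have : (4 : F) * (y ^ 2 + W.a₁ * c * y + W.a₃ * y -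
        (c ^ 3 + W.a₂ * c ^ 2 + W.a₄ * c + W.a₆)) = 0 := by
      have e : (4 : F) * (y ^ 2 + W.a₁ * c * y + W.a₃ * y -
          (c ^ 3 + W.a₂ * c ^ 2 + W.a₄ * c + W.a₆)) =
          (2 * y + W.a₁ * c + W.a₃) ^ 2 -
            (4 * c ^ 3 + W.b₂ * c ^ 2 + 2 * W.b₄ * c + W.b₆) := by
        simp only [WeierstrassCurve.b₂, WeierstrassCurve.b₄, WeierstrassCurve.b₆]
        ring
      rw [e, hc, hy2]
      ring
    have := (mul_eq_zero.mp this).resolve_left h4
    exact sub_eq_zero.mp this
  have hns := (W.toAffine.equation_iff_nonsingular_of_Δ_ne_zero hΔ).mp heq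
  rw [WeierstrassCurve.Affine.nonsingular_iff] at hns
  rcases hns.2 with h | h
  · rw [eval_derivative_Ψ₂Sq]
    intro h0
    apply h
    have e : (12 : F) * c ^ 2 + 2 * W.b₂ * c + 2 * W.b₄ =
        4 * (3 * c ^ 2 + 2 * W.a₂ * c + W.a₄) + 2 * W.a₁ * (W.a₁ * c + W.a₃) := by
      simp only [WeierstrassCurve.b₂, WeierstrassCurve.b₄]
      ring
    rw [e] at h0
    have h5 : (4 : F) * (W.a₁ * y - (3 * c ^ 2 + 2 * W.a₂ * c + W.a₄)) = 0 := by
      linear_combination -h0 + 2 * W.a₁ * hy2
    exact sub_eq_zero.mp ((mul_eq_zero.mp h5).resolve_left h4)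
  · exfalso
    apply h
    linear_combination hy2

/-! ### The common factor of `N` and `D` -/

open scoped Classical in
/-- The exponent of `X - c` in `gcd(N, D)`: `1` if `f(c) = 0`, `0` if `f(c)` is a nonzero square,
`2` if `f(c)` is not a square. -/
noncomputable def mult (c : F) : ℕ :=
  if W.Ψ₂Sq.eval c = 0 then 1 else if IsSquare (W.Ψ₂Sq.eval c) then 0 else 2

theorem mult_le_two (c : F) : mult W c ≤ 2 := by
  rw [mult]
  split_ifs <;> omega

/-- The common factor `g = ∏ (X - c)^(mult c)`. -/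
noncomputable def gcdPoly : F[X] := ∏ c : F, (X - C c) ^ mult W c

/-- The reduced denominator `D₁ = 2 ∏ (X - c)^(2 - mult c)`. -/
noncomputable def den₁ : F[X] := C 2 * ∏ c : F, (X - C c) ^ (2 - mult W c)

theorem prod_X_sub_C_eq_X_pow_card_sub_X :
    ∏ c : F, (X - C c) = (X ^ Fintype.card F - X : F[X]) := by
  have hmonic : (X ^ Fintype.card F - X : F[X]).Monic := by
    apply monic_X_pow_sub
    rw [degree_X]
    exact_mod_cast Fintype.one_lt_card
  have hroots := FiniteField.roots_X_pow_card_sub_X F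
  have hcard : Multiset.card (X ^ Fintype.card F - X : F[X]).roots =
      (X ^ Fintype.card F - X : F[X]).natDegree := by
    rw [hroots, FiniteField.X_pow_card_sub_X_natDegree_eq F Fintype.one_lt_card]
    simp
  have := prod_multiset_X_sub_C_of_monic_of_roots_card_eq hmonic hcard
  rw [hroots] at this
  rw [← this]
  rfl

theorem denPoly_eq : denPoly F = gcdPoly W * den₁ W := by
  rw [denPoly, gcdPoly, den₁, ← prod_X_sub_C_eq_X_pow_card_sub_X, ← Finset.prod_pow,
    mul_left_comm, ← Finset.prod_mul_distrib]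
  congr 1
  refine Finset.prod_congr rfl fun c _ => ?_
  rw [← pow_add]
  congr 1
  have := mult_le_two W c
  omega

theorem natDegree_gcdPoly : (gcdPoly W).natDegree = ∑ c : F, mult W c := by
  rw [gcdPoly, natDegree_prod_of_monic _ _ fun c _ => (monic_X_sub_C c).pow _]
  refine Finset.sum_congr rfl fun c _ => ?_
  rw [natDegree_pow, natDegree_X_sub_C, mul_one]

theorem natDegree_den₁ (hF : ringChar F ≠ 2) :
    (den₁ W).natDegree = ∑ c : F, (2 - mult W c) := by
  have hm : (∏ c : F, (X - C c) ^ (2 - mult W c)).Monic :=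
    monic_prod_of_monic _ _ fun c _ => (monic_X_sub_C c).pow _
  rw [den₁, natDegree_C_mul (two_ne_zero_of_char hF),
    natDegree_prod_of_monic _ _ fun c _ => (monic_X_sub_C c).pow _]
  refine Finset.sum_congr rfl fun c _ => ?_
  rw [natDegree_pow, natDegree_X_sub_C, mul_one]

theorem gcdPoly_monic : (gcdPoly W).Monic :=
  monic_prod_of_monic _ _ fun c _ => (monic_X_sub_C c).pow _

/-- `f(c)^(q/2) = -1` for a non-square `f(c)`. -/
theorem pow_half_eq_neg_one (hF : ringChar F ≠ 2) {a : F} (ha : ¬ IsSquare a) :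
    a ^ (Fintype.card F / 2) = -1 := by
  have ha0 : a ≠ 0 := by
    rintro rfl
    exact ha (IsSquare.zero)
  rcases FiniteField.pow_dichotomy hF ha0 with h | h
  · exact absurd ((FiniteField.isSquare_iff hF ha0).mpr h) ha
  · exact h

theorem pow_mult_dvd_numPoly (hF : ringChar F ≠ 2) (c : F) :
    (X - C c) ^ mult W c ∣ numPoly W := by
  rw [mult]
  split_ifs with h0 hsq
  · rw [pow_one, dvd_iff_isRoot, IsRoot.def, eval_numPoly, h0, zero_mul]
  · rw [pow_zero]
    exact one_dvd _
  · have hN : (numPoly W).IsRoot c := by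
      rw [IsRoot.def, eval_numPoly, pow_half_eq_neg_one hF hsq]
      ring
    have hN' : (derivative (numPoly W)).IsRoot c := by
      have := two_mul_eval_derivative_numPoly W hF c
      rw [pow_half_eq_neg_one hF hsq] at this
      have h2 : (2 : F) * (derivative (numPoly W)).eval c = 0 := by
        rw [this]
        ring
      exact (mul_eq_zero.mp h2).resolve_left (two_ne_zero_of_char hF)
    have hlt := (one_lt_rootMultiplicity_iff_isRoot (numPoly_ne_zero W hF)).mpr ⟨hN, hN'⟩
    exact (pow_dvd_pow _ hlt).trans (pow_rootMultiplicity_dvd _ _)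

theorem gcdPoly_dvd_numPoly (hF : ringChar F ≠ 2) : gcdPoly W ∣ numPoly W := by
  rw [gcdPoly]
  refine Finset.prod_dvd_of_coprime ?_ fun c _ => pow_mult_dvd_numPoly W hF c
  intro a _ b _ hab
  exact ((pairwise_coprime_X_sub_C (K := F) (s := id) Function.injective_id) hab).pow

/-- The reduced numerator `N₁ = N / g`. -/
noncomputable def num₁ : F[X] := numPoly W /ₘ gcdPoly W

theorem numPoly_eq_mul (hF : ringChar F ≠ 2) : numPoly W = gcdPoly W * num₁ W := by
  rw [num₁]
  obtain ⟨r, hr⟩ := gcdPoly_dvd_numPoly W hF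
  rw [hr, mul_divByMonic_cancel_left _ (gcdPoly_monic W)]

theorem natDegree_num₁_add (hF : ringChar F ≠ 2) :
    (num₁ W).natDegree + ∑ c : F, mult W c = 2 * Fintype.card F + 1 := by
  have h := natDegree_numPoly W hF
  have hne := numPoly_ne_zero W hF
  rw [numPoly_eq_mul W hF] at h hne
  rw [natDegree_mul (left_ne_zero_of_mul hne) (right_ne_zero_of_mul hne),
    natDegree_gcdPoly] at h
  omega

theorem eval_gcdPoly_ne_zero {c : F} (hc : mult W c = 0) : (gcdPoly W).eval c ≠ 0 := by
  rw [gcdPoly, eval_prod]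
  refine Finset.prod_ne_zero_iff.mpr fun a _ => ?_
  rw [eval_pow, eval_sub, eval_X, eval_C]
  by_cases hac : a = c
  · subst hac
    rw [hc, pow_zero]
    exact one_ne_zero
  · exact pow_ne_zero _ (sub_ne_zero.mpr (Ne.symm hac))

theorem eval_num₁_ne_zero (hF : ringChar F ≠ 2) (hΔ : W.Δ ≠ 0) {c : F} (hc : mult W c < 2) :
    (num₁ W).eval c ≠ 0 := by
  classical
  intro h0
  have hmul := numPoly_eq_mul W hF
  rw [mult] at hc
  split_ifs at hc with hf hsq
  · -- `f(c) = 0`: `N'(c) ≠ 0`
    have hd := two_mul_eval_derivative_numPoly W hF c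
    have hne := eval_derivative_Ψ₂Sq_ne_zero W hF hΔ hf
    rw [hf, zero_pow (Nat.div_pos (card_ge_three (F := F) hF |>.trans' (by norm_num)) two_pos).ne',
      add_zero, mul_one] at hd
    have hg : (gcdPoly W).eval c = 0 := by
      rw [gcdPoly, eval_prod]
      refine Finset.prod_eq_zero (Finset.mem_univ c) ?_
      rw [eval_pow, eval_sub, eval_X, eval_C, sub_self, mult, if_pos hf, pow_one]
    have hder : (derivative (numPoly W)).eval c = 0 := by
      rw [hmul, derivative_mul, eval_add, eval_mul, eval_mul, hg, h0]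
      ring
    rw [hder, mul_zero] at hd
    exact hne hd.symm
  · -- `f(c)` a nonzero square: `N(c) ≠ 0`
    have hN : (numPoly W).eval c = 0 := by
      rw [hmul, eval_mul, h0, mul_zero]
    rw [eval_numPoly, (FiniteField.isSquare_iff hF hf).mp hsq] at hN
    have h2 : (2 : F) ≠ 0 := two_ne_zero_of_char hF
    have : W.Ψ₂Sq.eval c * 2 = 0 := by
      rw [← hN]
      ring
    rcases mul_eq_zero.mp this with h | h
    · exact hf h
    · exact h2 h
  · omega

theorem isCoprime_num₁_den₁ (hF : ringChar F ≠ 2) (hΔ : W.Δ ≠ 0) :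
    IsCoprime (num₁ W) (den₁ W) := by
  rw [den₁, isCoprime_mul_unit_left_right
    (Polynomial.isUnit_C.mpr (two_ne_zero_of_char hF).isUnit)]
  · refine IsCoprime.prod_right fun c _ => ?_
    by_cases hc : mult W c < 2
    · refine IsCoprime.pow_right ?_
      refine ((irreducible_X_sub_C c).coprime_iff_not_dvd.mpr ?_).symm
      rw [dvd_iff_isRoot]
      exact eval_num₁_ne_zero W hF hΔ hc
    · have : 2 - mult W c = 0 := by omega
      rw [this, pow_zero]
      exact isCoprime_one_right

/-! ### The number of points -/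

open scoped Classical in
theorem card_sqrts (hF : ringChar F ≠ 2) (c : F) :
    (Finset.univ.filter fun η : F => η ^ 2 = W.Ψ₂Sq.eval c).card = 2 - mult W c := by
  have h := quadraticChar_card_sqrts hF (W.Ψ₂Sq.eval c)
  have e : {x : F | x ^ 2 = W.Ψ₂Sq.eval c}.toFinset =
      Finset.univ.filter fun η : F => η ^ 2 = W.Ψ₂Sq.eval c := by
    ext
    simp
  rw [e] at h
  rw [mult]
  split_ifs with h0 hsq
  · rw [h0, MulChar.map_zero] at h
    rw [h0]
    omega
  · rw [(quadraticChar_one_iff_isSquare h0).mpr hsq] at h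
    omega
  · rw [(quadraticChar_neg_one_iff_not_isSquare).mpr hsq] at h
    omega

omit [Fintype F] in
theorem equation_iff_sq (hF : ringChar F ≠ 2) (c y : F) :
    W.toAffine.Equation c y ↔ (2 * y + W.a₁ * c + W.a₃) ^ 2 = W.Ψ₂Sq.eval c := by
  have h2 : (2 : F) ≠ 0 := two_ne_zero_of_char hF
  have h4 : (4 : F) ≠ 0 := by
    have : (4 : F) = 2 * 2 := by norm_num
    rw [this]
    exact mul_ne_zero h2 h2
  rw [WeierstrassCurve.Affine.equation_iff, eval_Ψ₂Sq]
  have e : (2 * y + W.a₁ * c + W.a₃) ^ 2 - (4 * c ^ 3 + W.b₂ * c ^ 2 + 2 * W.b₄ * c + W.b₆) =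
      (4 : F) * (y ^ 2 + W.a₁ * c * y + W.a₃ * y -
          (c ^ 3 + W.a₂ * c ^ 2 + W.a₄ * c + W.a₆)) := by
    simp only [WeierstrassCurve.b₂, WeierstrassCurve.b₄, WeierstrassCurve.b₆]
    ring
  constructor
  · intro h
    have : (2 * y + W.a₁ * c + W.a₃) ^ 2 -
        (4 * c ^ 3 + W.b₂ * c ^ 2 + 2 * W.b₄ * c + W.b₆) = 0 := by
      rw [e, h]
      ring
    exact sub_eq_zero.mp this
  · intro h
    have : (4 : F) * (y ^ 2 + W.a₁ * c * y + W.a₃ * y -
          (c ^ 3 + W.a₂ * c ^ 2 + W.a₄ * c + W.a₆)) = 0 := by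
      rw [← e, h]
      ring
    exact sub_eq_zero.mp ((mul_eq_zero.mp this).resolve_left h4)

open scoped Classical in
theorem card_equation (hF : ringChar F ≠ 2) (c : F) :
    (Finset.univ.filter fun y : F => W.toAffine.Equation c y).card = 2 - mult W c := by
  have h2 : (2 : F) ≠ 0 := two_ne_zero_of_char hF
  rw [← card_sqrts W hF c]
  refine Finset.card_bij (fun y _ => 2 * y + W.a₁ * c + W.a₃) ?_ ?_ ?_
  · intro y hy
    rw [Finset.mem_filter] at hy ⊢
    exact ⟨Finset.mem_univ _, (equation_iff_sq W hF c y).mp hy.2⟩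
  · intro y _ y' _ h
    have : 2 * (y - y') = 0 := by linear_combination h
    exact sub_eq_zero.mp ((mul_eq_zero.mp this).resolve_left h2)
  · intro η hη
    rw [Finset.mem_filter] at hη
    have e : 2 * ((η - W.a₁ * c - W.a₃) / 2) + W.a₁ * c + W.a₃ = η := by
      field_simp
      ring
    refine ⟨(η - W.a₁ * c - W.a₃) / 2, ?_, e⟩
    rw [Finset.mem_filter]
    refine ⟨Finset.mem_univ _, (equation_iff_sq W hF c _).mpr ?_⟩
    rw [e]
    exact hη.2

/-- Points as an option type. -/
def pointEquiv : W.toAffine.Point ≃ Option {xy : F × F // W.toAffine.Nonsingular xy.1 xy.2} where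
  toFun P := match P with
    | .zero => none
    | .some x y h => some ⟨(x, y), h⟩
  invFun o := match o with
    | none => .zero
    | some xy => .some xy.1.1 xy.1.2 xy.2
  left_inv P := by
    cases P <;> rfl
  right_inv o := by
    cases o <;> rfl

open scoped Classical in
theorem card_point (hF : ringChar F ≠ 2) (hΔ : W.Δ ≠ 0) :
    W.card = 1 + ∑ c : F, (2 - mult W c) := by
  rw [WeierstrassCurve.card, Nat.card_congr (pointEquiv W), Nat.card_eq_fintype_card,
    Fintype.card_option, Fintype.card_subtype, add_comm]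
  congr 1
  have e : (Finset.univ.filter fun xy : F × F => W.toAffine.Nonsingular xy.1 xy.2) =
      Finset.univ.filter fun xy : F × F => W.toAffine.Equation xy.1 xy.2 := by
    ext xy
    simp only [Finset.mem_filter, Finset.mem_univ, true_and]
    exact (W.toAffine.equation_iff_nonsingular_of_Δ_ne_zero hΔ).symm
  rw [e, Finset.card_filter, Fintype.sum_prod_type]
  refine Finset.sum_congr rfl fun c _ => ?_
  rw [← card_equation W hF c, Finset.card_filter]

theorem natDegree_den₁_add_one (hF : ringChar F ≠ 2) (hΔ : W.Δ ≠ 0) :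
    (den₁ W).natDegree + 1 = W.card := by
  rw [natDegree_den₁ W hF, card_point W hF hΔ, add_comm]

theorem natDegree_num₁ (hF : ringChar F ≠ 2) (hΔ : W.Δ ≠ 0) :
    (num₁ W).natDegree = W.card := by
  have h1 := natDegree_num₁_add W hF
  have h2 : ∑ c : F, (2 - mult W c) + ∑ c : F, mult W c = 2 * Fintype.card F := by
    rw [← Finset.sum_add_distrib]
    have : ∀ c ∈ (Finset.univ : Finset F), 2 - mult W c + mult W c = 2 := fun c _ => by
      have := mult_le_two W c
      omega
    rw [Finset.sum_congr rfl this, Finset.sum_const, Finset.card_univ, smul_eq_mul, mul_comm]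
  rw [card_point W hF hΔ]
  omega

/-- **COUNT**, polynomial form: `N · D₁ = N₁ · D` with `N₁`, `D₁` coprime, `deg N₁ = #E(F_q)`,
`deg D₁ + 1 = #E(F_q)`. -/
theorem count_poly (hF : ringChar F ≠ 2) (hΔ : W.Δ ≠ 0) :
    ∃ N₁ D₁ : F[X], IsCoprime N₁ D₁ ∧ numPoly W * D₁ = N₁ * denPoly F ∧
      N₁.natDegree = W.card ∧ D₁.natDegree + 1 = W.card :=
  ⟨num₁ W, den₁ W, isCoprime_num₁_den₁ W hF hΔ, by
    rw [numPoly_eq_mul W hF, denPoly_eq W]; ring, natDegree_num₁ W hF hΔ,
    natDegree_den₁_add_one W hF hΔ⟩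

end Poly

/-! ### Rational functions -/

section RatFunc

variable {K : Type*} [Field K]

/-- Numerator and denominator of a fraction of coprime polynomials have the expected degrees. -/
theorem natDegree_num_denom_of_isCoprime {a b : K[X]} (hab : IsCoprime a b) (hb : b ≠ 0) :
    (algebraMap K[X] (RatFunc K) a / algebraMap K[X] (RatFunc K) b).num.natDegree = a.natDegree ∧
    (algebraMap K[X] (RatFunc K) a / algebraMap K[X] (RatFunc K) b).denom.natDegree =
      b.natDegree := by
  set x : RatFunc K := algebraMap K[X] (RatFunc K) a / algebraMap K[X] (RatFunc K) b with hx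
  have hd0 : x.denom ≠ 0 := x.denom_ne_zero
  have hcop : IsCoprime x.num x.denom := x.isCoprime_num_denom
  have hcross : x.num * b = a * x.denom := by
    have h1 : algebraMap K[X] (RatFunc K) x.num / algebraMap K[X] (RatFunc K) x.denom =
        algebraMap K[X] (RatFunc K) a / algebraMap K[X] (RatFunc K) b := x.num_div_denom
    rw [div_eq_div_iff (RatFunc.algebraMap_ne_zero hd0) (RatFunc.algebraMap_ne_zero hb),
      ← map_mul, ← map_mul] at h1
    exact RatFunc.algebraMap_injective K h1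
  have hden1 : b ∣ x.denom := hab.symm.dvd_of_dvd_mul_left ⟨x.num, by rw [← hcross]; ring⟩
  have hden2 : x.denom ∣ b := hcop.symm.dvd_of_dvd_mul_left ⟨a, by rw [hcross]; ring⟩
  have hnum1 : a ∣ x.num := hab.dvd_of_dvd_mul_right ⟨x.denom, hcross⟩
  have hnum2 : x.num ∣ a := hcop.dvd_of_dvd_mul_right ⟨b, hcross.symm⟩
  refine ⟨?_, ?_⟩
  · by_cases ha : a = 0
    · have : x.num = 0 := by
        rw [ha] at hnum1
        exact zero_dvd_iff.mp hnum1
      rw [this, ha]
    · have hn0 : x.num ≠ 0 := fun h => ha (zero_dvd_iff.mp (h ▸ hnum2))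
      exact le_antisymm (natDegree_le_of_dvd hnum2 ha) (natDegree_le_of_dvd hnum1 hn0)
  · exact le_antisymm (natDegree_le_of_dvd hden2 hb) (natDegree_le_of_dvd hden1 hd0)

variable {F : Type*} [Field F] [Fintype F] [Algebra F K] (W : WeierstrassCurve F)

/-- **COUNT**: the rational function `N / D` over any field `K ⊇ F` has numerator of degree
`#E(F)` and denominator of degree `#E(F) - 1`. -/
theorem count_ratFunc (hF : ringChar F ≠ 2) (hΔ : W.Δ ≠ 0) :
    (algebraMap K[X] (RatFunc K) ((numPoly W).map (algebraMap F K)) /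
      algebraMap K[X] (RatFunc K) ((denPoly F).map (algebraMap F K))).num.natDegree = W.card ∧
    (algebraMap K[X] (RatFunc K) ((numPoly W).map (algebraMap F K)) /
      algebraMap K[X] (RatFunc K) ((denPoly F).map (algebraMap F K))).denom.natDegree + 1 =
        W.card := by
  have hinj : Function.Injective (algebraMap F K) := (algebraMap F K).injective
  have hg0 : gcdPoly W ≠ 0 := (gcdPoly_monic W).ne_zero
  have hD0 : den₁ W ≠ 0 := by
    intro h
    have := natDegree_den₁_add_one W hF hΔ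
    have h2 := isCoprime_num₁_den₁ W hF hΔ
    rw [h, isCoprime_zero_right] at h2
    have h3 := natDegree_num₁ W hF hΔ
    rw [natDegree_eq_zero_of_isUnit h2] at h3
    rw [h, natDegree_zero] at this
    omega
  have hmapg : (gcdPoly W).map (algebraMap F K) ≠ 0 :=
    (Polynomial.map_ne_zero_iff hinj).mpr hg0
  have hmapD : (den₁ W).map (algebraMap F K) ≠ 0 :=
    (Polynomial.map_ne_zero_iff hinj).mpr hD0
  have hcop : IsCoprime ((num₁ W).map (algebraMap F K)) ((den₁ W).map (algebraMap F K)) :=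
    (isCoprime_num₁_den₁ W hF hΔ).map (mapRingHom (algebraMap F K))
  have hfrac : algebraMap K[X] (RatFunc K) ((numPoly W).map (algebraMap F K)) /
      algebraMap K[X] (RatFunc K) ((denPoly F).map (algebraMap F K)) =
      algebraMap K[X] (RatFunc K) ((num₁ W).map (algebraMap F K)) /
        algebraMap K[X] (RatFunc K) ((den₁ W).map (algebraMap F K)) := by
    rw [numPoly_eq_mul W hF, denPoly_eq W, Polynomial.map_mul, Polynomial.map_mul, map_mul,
      map_mul]
    exact mul_div_mul_left _ _ (RatFunc.algebraMap_ne_zero hmapg)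
  obtain ⟨h1, h2⟩ := natDegree_num_denom_of_isCoprime hcop hmapD
  rw [hfrac, h1, h2, natDegree_map_eq_of_injective hinj, natDegree_map_eq_of_injective hinj]
  exact ⟨natDegree_num₁ W hF hΔ, natDegree_den₁_add_one W hF hΔ⟩

/-- **COUNT**, height form: `max (deg num) (deg denom) = #E(F)` for `N / D`. -/
theorem count_height (hF : ringChar F ≠ 2) (hΔ : W.Δ ≠ 0) :
    max (algebraMap K[X] (RatFunc K) ((numPoly W).map (algebraMap F K)) /
        algebraMap K[X] (RatFunc K) ((denPoly F).map (algebraMap F K))).num.natDegree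
      (algebraMap K[X] (RatFunc K) ((numPoly W).map (algebraMap F K)) /
        algebraMap K[X] (RatFunc K) ((denPoly F).map (algebraMap F K))).denom.natDegree =
      W.card := by
  obtain ⟨h1, h2⟩ := count_ratFunc (K := K) W hF hΔ
  rw [h1]
  exact max_eq_left (by omega)

omit [Fintype F] in
theorem map_Ψ₂Sq' : W.Ψ₂Sq.map (algebraMap F K) = (W.map (algebraMap F K)).Ψ₂Sq := by
  simp only [WeierstrassCurve.Ψ₂Sq, WeierstrassCurve.map_b₂, WeierstrassCurve.map_b₄,
    WeierstrassCurve.map_b₆, Polynomial.map_add, Polynomial.map_mul, Polynomial.map_pow,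
    Polynomial.map_C, Polynomial.map_X, map_mul, map_ofNat, Polynomial.map_ofNat]

/-- The numerator over `K`, in terms of the base change of `W`. -/
theorem map_numPoly :
    (numPoly W).map (algebraMap F K) =
      C 2 * (X ^ Fintype.card F + X) * (X ^ Fintype.card F * X) +
        C (W.map (algebraMap F K)).b₂ * (X ^ Fintype.card F * X) +
        C (W.map (algebraMap F K)).b₄ * (X ^ Fintype.card F + X) +
        C (W.map (algebraMap F K)).b₆ +
        (W.map (algebraMap F K)).Ψ₂Sq ^ (Fintype.card F / 2 + 1) := by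
  rw [← map_Ψ₂Sq']
  simp only [numPoly, WeierstrassCurve.map_b₂, WeierstrassCurve.map_b₄,
    WeierstrassCurve.map_b₆, Polynomial.map_add, Polynomial.map_mul, Polynomial.map_pow,
    Polynomial.map_C, Polynomial.map_X, map_ofNat, Polynomial.map_ofNat]

/-- The denominator over `K`. -/
theorem map_denPoly :
    (denPoly F).map (algebraMap F K) = C 2 * (X ^ Fintype.card F - X) ^ 2 := by
  simp only [denPoly, Polynomial.map_mul, Polynomial.map_pow, Polynomial.map_sub,
    Polynomial.map_X, map_ofNat, Polynomial.map_ofNat]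

end RatFunc

/-! ### The case `F = ZMod p` -/

section ZModP

variable (p : ℕ) [hp : Fact p.Prime] {K : Type*} [Field K] [Algebra (ZMod p) K]
  (W : WeierstrassCurve (ZMod p))

/-- The `x`-coordinate function of `φ - 1` over `K ⊇ 𝔽_p`:
`(G(X^p, X) + f^((p+1)/2)) / (2 (X^p - X)²)`, with `G(u,v) = 2(u+v)uv + b₂uv + b₄(u+v) + b₆` and
`f = Ψ₂Sq`, everything for the base change of `W` to `K`. -/
noncomputable def xFrobSubOne : RatFunc K :=
  algebraMap K[X] (RatFunc K)
      (C 2 * (X ^ p + X) * (X ^ p * X) + C (W.map (algebraMap (ZMod p) K)).b₂ * (X ^ p * X) +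
        C (W.map (algebraMap (ZMod p) K)).b₄ * (X ^ p + X) +
        C (W.map (algebraMap (ZMod p) K)).b₆ +
        (W.map (algebraMap (ZMod p) K)).Ψ₂Sq ^ ((p + 1) / 2)) /
    algebraMap K[X] (RatFunc K) (C 2 * (X ^ p - X) ^ 2)

theorem xFrobSubOne_eq (hp2 : p ≠ 2) :
    xFrobSubOne (K := K) p W =
      algebraMap K[X] (RatFunc K) ((numPoly W).map (algebraMap (ZMod p) K)) /
        algebraMap K[X] (RatFunc K) ((denPoly (ZMod p)).map (algebraMap (ZMod p) K)) := by
  have hodd : p % 2 = 1 := hp.out.eq_two_or_odd.resolve_left hp2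
  have e : (p + 1) / 2 = p / 2 + 1 := by omega
  rw [map_numPoly, map_denPoly, ZMod.card, xFrobSubOne, e]

/-- **COUNT** over `𝔽_p`: the height of the `x`-coordinate function of `φ - 1` is `#E(𝔽_p)`. -/
theorem count_height_zmod (hp2 : p ≠ 2) (hΔ : W.Δ ≠ 0) :
    max (xFrobSubOne (K := K) p W).num.natDegree (xFrobSubOne (K := K) p W).denom.natDegree =
      W.card := by
  have hF : ringChar (ZMod p) ≠ 2 := by
    rw [ZMod.ringChar_zmod_n]
    exact hp2
  rw [xFrobSubOne_eq p W hp2]
  exact count_height W hF hΔ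

/-- **COUNT** over `𝔽_p`, in terms of the trace of Frobenius. -/
theorem count_height_zmod_trace (hp2 : p ≠ 2) (hΔ : W.Δ ≠ 0) :
    ((max (xFrobSubOne (K := K) p W).num.natDegree
      (xFrobSubOne (K := K) p W).denom.natDegree : ℕ) : ℤ) = (p : ℤ) + 1 - W.traceOfFrobenius := by
  rw [count_height_zmod p W hp2 hΔ, WeierstrassCurve.traceOfFrobenius, Nat.card_eq_fintype_card,
    ZMod.card]
  ring

end ZModP

end Fermat.Agent.HW.Count


end ZBHW_004_0
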