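/- GENERATED FILE (helper35, build-time optimisation, NOTES/ZB.md): verbatim concatenation of the modules
   Fermat.Agent.HW.QuadForm
   Do not edit; do not import together with these modules. -/
import Mathlib.Algebra.Ring.Basic
import Mathlib.Algebra.Group.Hom.Basic
import Mathlib.Algebra.Module.Basic
import Mathlib.Tactic.Ring
import Mathlib.Tactic.Linarith
import Mathlib.Tactic.LinearCombination
import Mathlib.Tactic.Abel
import Mathlib.Tactic.NoncommRing
import Fermat.Agent.ZB.HW_004

/-! ### bundled: `Fermat.Agent.HW.QuadForm` -/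
section ZBHW_005_0
/-
HW brick, steps 4 + 6 (generic algebra, no elliptic curves).

* `IsParallelogram h` : `h (x + y) + h (x - y) = 2 * h x + 2 * h y` for `h : A → ℤ`.
* `hwPolar h x y = h (x + y) - h x - h y` is symmetric and biadditive (`hwPolarHom`), and
  `h (a • x + b • y + c • z)` is the expected quadratic expression (`IsParallelogram.map_lincomb₃`).
* `frobenius_relation_height_zero` : in a ring `R` with a multiplicative parallelogram function
  `h`, `h 1 = 1`, `h φ = p`, `h (φ - 1) = p + 1 - t`, one has `h (φ * φ - t • φ + p • 1) = 0`.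
* `hasse_bound` : if moreover `0 ≤ h`, then `t ^ 2 ≤ 4 * p`.
-/

set_option autoImplicit false

namespace Fermat.Agent.HW

section Parallelogram

variable {A : Type*} [AddCommGroup A]

/-- The parallelogram law for an integer valued function on an abelian group. -/
def IsParallelogram (h : A → ℤ) : Prop :=
  ∀ x y : A, h (x + y) + h (x - y) = 2 * h x + 2 * h y

/-- The polar form of `h`. -/
def hwPolar (h : A → ℤ) (x y : A) : ℤ := h (x + y) - h x - h y

variable {h : A → ℤ}

theorem IsParallelogram.map_zero (H : IsParallelogram h) : h 0 = 0 := by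
  have := H 0 0
  simp only [add_zero, sub_zero] at this
  linarith

theorem IsParallelogram.map_neg (H : IsParallelogram h) (x : A) : h (-x) = h x := by
  have := H 0 x
  simp only [zero_add, zero_sub] at this
  have h0 := H.map_zero
  linarith

theorem IsParallelogram.map_sub_comm (H : IsParallelogram h) (x y : A) : h (x - y) = h (y - x) := by
  rw [← H.map_neg (x - y), neg_sub]

theorem IsParallelogram.map_add_self (H : IsParallelogram h) (x : A) : h (x + x) = 4 * h x := by
  have := H x x
  rw [sub_self, H.map_zero] at this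
  linarith

/-- The key identity: `h (x + y + z) = h (x + y) + h (x + z) + h (y + z) - h x - h y - h z`. -/
theorem IsParallelogram.map_add_add (H : IsParallelogram h) (x y z : A) :
    h (x + y + z) = h (x + y) + h (x + z) + h (y + z) - h x - h y - h z := by
  have e1 := H (x + z) y
  have e3 := H (x + y) z
  have e4 := H x (z - y)
  have e5 := H y z
  have e6 := H.map_sub_comm y z
  have a1 : x + z + y = x + y + z := by abel
  have a2 : x + z - y = x + (z - y) := by abel
  have a3 : x + y - z = x - (z - y) := by abel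
  rw [a1, a2] at e1
  rw [a3] at e3
  linarith

theorem hwPolar_comm (h : A → ℤ) (x y : A) : hwPolar h x y = hwPolar h y x := by
  unfold hwPolar
  rw [add_comm x y]
  ring

theorem IsParallelogram.hwPolar_add_left (H : IsParallelogram h) (x y z : A) :
    hwPolar h (x + y) z = hwPolar h x z + hwPolar h y z := by
  unfold hwPolar
  rw [H.map_add_add x y z]
  ring

theorem IsParallelogram.hwPolar_add_right (H : IsParallelogram h) (x y z : A) :
    hwPolar h x (y + z) = hwPolar h x y + hwPolar h x z := by
  rw [hwPolar_comm, H.hwPolar_add_left, hwPolar_comm h y x, hwPolar_comm h z x]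

theorem IsParallelogram.hwPolar_self (H : IsParallelogram h) (x : A) :
    hwPolar h x x = 2 * h x := by
  unfold hwPolar
  rw [H.map_add_self]
  ring

theorem IsParallelogram.hwPolar_zero_left (H : IsParallelogram h) (y : A) :
    hwPolar h 0 y = 0 := by
  unfold hwPolar
  rw [zero_add, H.map_zero]
  ring

/-- The polar form as a biadditive map. -/
def hwPolarHom (H : IsParallelogram h) : A →+ A →+ ℤ :=
  AddMonoidHom.mk' (fun x => AddMonoidHom.mk' (fun y => hwPolar h x y) (H.hwPolar_add_right x))
    (fun x y => by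
      ext z
      exact H.hwPolar_add_left x y z)

@[simp] theorem hwPolarHom_apply (H : IsParallelogram h) (x y : A) :
    hwPolarHom H x y = hwPolar h x y := rfl

theorem IsParallelogram.hwPolar_zsmul_left (H : IsParallelogram h) (a : ℤ) (x y : A) :
    hwPolar h (a • x) y = a * hwPolar h x y := by
  have h1 := _root_.map_zsmul
    (AddMonoidHom.mk' (fun x => hwPolar h x y) (fun x x' => H.hwPolar_add_left x x' y)) a x
  rw [AddMonoidHom.mk'_apply, smul_eq_mul] at h1
  exact h1

theorem IsParallelogram.hwPolar_zsmul_right (H : IsParallelogram h) (a : ℤ) (x y : A) :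
    hwPolar h x (a • y) = a * hwPolar h x y := by
  rw [hwPolar_comm, H.hwPolar_zsmul_left, hwPolar_comm]

theorem IsParallelogram.map_add (_H : IsParallelogram h) (x y : A) :
    h (x + y) = h x + h y + hwPolar h x y := by
  unfold hwPolar
  ring

theorem IsParallelogram.map_sub (H : IsParallelogram h) (x y : A) :
    h (x - y) = h x + h y - hwPolar h x y := by
  have := H x y
  unfold hwPolar
  linarith

/-- `h (a • x) = a ^ 2 * h x`. -/
theorem IsParallelogram.map_zsmul (H : IsParallelogram h) (a : ℤ) (x : A) :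
    h (a • x) = a ^ 2 * h x := by
  have key : 2 * h (a • x) = 2 * (a ^ 2 * h x) := by
    rw [← H.hwPolar_self, H.hwPolar_zsmul_left, H.hwPolar_zsmul_right, H.hwPolar_self]
    ring
  linarith

theorem IsParallelogram.map_nsmul (H : IsParallelogram h) (n : ℕ) (x : A) :
    h (n • x) = (n : ℤ) ^ 2 * h x := by
  rw [← natCast_zsmul, H.map_zsmul]

/-- Quadratic expansion on two elements. -/
theorem IsParallelogram.map_lincomb₂ (H : IsParallelogram h) (a b : ℤ) (x y : A) :
    h (a • x + b • y) = a ^ 2 * h x + b ^ 2 * h y + a * b * hwPolar h x y := by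
  rw [H.map_add, H.map_zsmul, H.map_zsmul, H.hwPolar_zsmul_left, H.hwPolar_zsmul_right]
  ring

/-- Quadratic expansion on three elements. -/
theorem IsParallelogram.map_lincomb₃ (H : IsParallelogram h) (a b c : ℤ) (x y z : A) :
    h (a • x + b • y + c • z) = a ^ 2 * h x + b ^ 2 * h y + c ^ 2 * h z
      + a * b * hwPolar h x y + a * c * hwPolar h x z + b * c * hwPolar h y z := by
  rw [H.map_add (a • x + b • y), H.map_lincomb₂, H.hwPolar_add_left, H.map_zsmul,
    H.hwPolar_zsmul_left, H.hwPolar_zsmul_left, H.hwPolar_zsmul_right, H.hwPolar_zsmul_right]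
  ring

/-- A nonnegative parallelogram function satisfies Cauchy–Schwarz. -/
theorem IsParallelogram.hwPolar_sq_le (H : IsParallelogram h) (hpos : ∀ x, 0 ≤ h x) (x y : A) :
    hwPolar h x y ^ 2 ≤ 4 * h x * h y := by
  -- `0 ≤ h (a x + b y) = a² h x + a b B + b² h y` with `a = B`, `b = -2 h x`
  have h1 := hpos (hwPolar h x y • x + (-(2 * h x)) • y)
  rw [H.map_lincomb₂] at h1
  have hx := hpos x
  rcases hx.eq_or_lt with hx0 | hx0
  · -- `h x = 0`: then `B = 0`
    have hB : hwPolar h x y = 0 := by
      by_contra hne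
      -- `0 ≤ h (a x + y) = a B + h y` for all `a`
      have h2 := hpos ((-(h y + 1) * hwPolar h x y) • x + (1 : ℤ) • y)
      rw [H.map_lincomb₂, ← hx0] at h2
      have hsq : 0 < hwPolar h x y ^ 2 := by positivity
      have hy := hpos y
      nlinarith
    rw [hB, ← hx0]
    simp
  · have : h x * (4 * h x * h y - hwPolar h x y ^ 2) ≥ 0 := by nlinarith
    by_contra hlt
    rw [not_le] at hlt
    nlinarith

end Parallelogram

section Ring

variable {R : Type*} [Ring R] {h : R → ℤ}

/-- **Step 6.**  In a ring with a multiplicative parallelogram function `h` such that `h 1 = 1`,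
`h φ = p` and `h (φ - 1) = p + 1 - t`, the element `φ² - t φ + p` has `h = 0`. -/
theorem frobenius_relation_height_zero (H : IsParallelogram h)
    (hmul : ∀ a b : R, h (a * b) = h a * h b) (h1 : h 1 = 1) (φ : R) (p t : ℤ)
    (hφ : h φ = p) (hφ1 : h (φ - 1) = p + 1 - t) :
    h (φ * φ - t • φ + p • (1 : R)) = 0 := by
  have hφp : h (φ + 1) = p + 1 + t := by
    have := H φ 1
    rw [hφ, h1, hφ1] at this
    linarith
  have hφφ : h (φ * φ) = p ^ 2 := by rw [hmul, hφ]; ring
  have e1 : φ * φ + φ = φ * (φ + 1) := by noncomm_ring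
  have e2 : φ * φ - 1 = (φ - 1) * (φ + 1) := by noncomm_ring
  have B1 : hwPolar h φ 1 = t := by
    unfold hwPolar
    rw [hφp, hφ, h1]
    ring
  have B2 : hwPolar h (φ * φ) φ = p * t := by
    unfold hwPolar
    rw [e1, hmul, hφp, hφφ, hφ]
    ring
  have B3 : hwPolar h (φ * φ) 1 = t ^ 2 - 2 * p := by
    have := H.map_sub (φ * φ) 1
    rw [e2, hmul, hφ1, hφp, hφφ, h1] at this
    linarith
  have e3 : φ * φ - t • φ + p • (1 : R) = (1 : ℤ) • (φ * φ) + (-t) • φ + p • (1 : R) := by
    rw [one_smul, neg_smul, sub_eq_add_neg]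
  rw [e3, H.map_lincomb₃, hφφ, hφ, h1, B1, B2, B3]
  ring

/-- The same with integer casts instead of `•`. -/
theorem frobenius_relation_height_zero' (H : IsParallelogram h)
    (hmul : ∀ a b : R, h (a * b) = h a * h b) (h1 : h 1 = 1) (φ : R) (p t : ℤ)
    (hφ : h φ = p) (hφ1 : h (φ - 1) = p + 1 - t) :
    h (φ ^ 2 - (t : R) * φ + (p : R)) = 0 := by
  have := frobenius_relation_height_zero H hmul h1 φ p t hφ hφ1
  rwa [zsmul_eq_mul, zsmul_eq_mul, mul_one, ← pow_two] at this

/-- **Hasse bound** from nonnegativity. -/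
theorem hasse_bound (H : IsParallelogram h) (hpos : ∀ x, 0 ≤ h x) (h1 : h 1 = 1) (φ : R)
    (p t : ℤ) (hφ : h φ = p) (hφ1 : h (φ - 1) = p + 1 - t) : t ^ 2 ≤ 4 * p := by
  have hφp : h (φ + 1) = p + 1 + t := by
    have := H φ 1
    rw [hφ, h1, hφ1] at this
    linarith
  have B1 : hwPolar h φ 1 = t := by
    unfold hwPolar
    rw [hφp, hφ, h1]
    ring
  have := H.hwPolar_sq_le hpos φ 1
  rw [B1, hφ, h1] at this
  linarith

/-- Values on `m φ + n`. -/
theorem map_zsmul_add_zsmul_one (H : IsParallelogram h) (h1 : h 1 = 1) (φ : R)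
    (p t : ℤ) (hφ : h φ = p) (hφ1 : h (φ - 1) = p + 1 - t) (m n : ℤ) :
    h (m • φ + n • (1 : R)) = m ^ 2 * p + m * n * t + n ^ 2 := by
  have hφp : h (φ + 1) = p + 1 + t := by
    have := H φ 1
    rw [hφ, h1, hφ1] at this
    linarith
  have B1 : hwPolar h φ 1 = t := by
    unfold hwPolar
    rw [hφp, hφ, h1]
    ring
  rw [H.map_lincomb₂, hφ, h1, B1]
  ring

end Ring

end Fermat.Agent.HW


end ZBHW_005_0
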