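/- GENERATED FILE (helper35, build-time optimisation, NOTES/ZB.md): verbatim concatenation of the modules
   Fermat.Agent.HW.Height
   Fermat.Agent.HW.Adapt
   Fermat.Agent.HW.Main
   Fermat.Agent.HW.Final
   Do not edit; do not import together with these modules. -/
import Mathlib
import Fermat.Agent.ZB.EC_001
import Fermat.Agent.ZB.HW_001
import Fermat.Agent.ZB.HW_002
import Fermat.Agent.ZB.HW_004
import Fermat.Agent.ZB.HW_005

/-! ### bundled: `Fermat.Agent.HW.Height` -/
section ZBHW_003_0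

/-!
# HW brick, step 3: exact parallelogram law for heights of rational functions (helper46)

Pure algebra over `k[X]` (`k` a field).  For a Weierstrass curve `W` over `k` with `Δ ≠ 0`:

* `hwQ W u` : the addition-and-subtraction map of Mathlib (`WeierstrassCurve.addSubMap`) evaluated at a
  triple of polynomials, written out;
* `hwPdeg u` : projective degree `max deg (u i)` of a triple; `HwCoprime u` : the triple generates `⊤`;
* `hwPdeg_hwQ` : `hwQ` doubles the projective degree of coprime triples (no base point);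
* `hwT_coprime`, `hwPdeg_hwT` : Gauss: the triple `(a₁b₁ : a₁b₂ + a₂b₁ : a₂b₂)` of two coprime pairs is
  coprime, of degree `ht a + ht b`;
* `ht_add_ht_of_addSub` : if `R₊R₋·(R₁ − R₂)² = F(R₁,R₂)` and `(R₊ + R₋)(R₁ − R₂)² = G(R₁,R₂)`, then
  `ht R₊ + ht R₋ = 2 ht R₁ + 2 ht R₂`;
* `ht_of_double` : if `R'·Ψ₂Sq(R) = Φ₂(R)` then `ht R' = 4 ht R`.
Here `ht f = max f.num.natDegree f.denom.natDegree` (= `[k(X) : k(f)]`, `RatFunc.finrank_eq_max_natDegree`).
-/

namespace Fermat.Agent.HW

open Polynomial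

variable {k : Type*} [Field k]

/-- The addition-and-subtraction map on polynomial triples, written out. -/
noncomputable def hwQ (W : WeierstrassCurve k) (u : Fin 3 → k[X]) : Fin 3 → k[X] :=
  ![u 0 ^ 2 - C W.b₄ * u 0 * u 2 - C W.b₆ * u 1 * u 2 - C W.b₈ * u 2 ^ 2,
    C 2 * u 1 * u 0 + C W.b₂ * u 0 * u 2 + C W.b₄ * u 1 * u 2 + C W.b₆ * u 2 ^ 2,
    u 1 ^ 2 - C 4 * u 0 * u 2]

/-- Projective degree of a triple of polynomials. -/
noncomputable def hwPdeg (u : Fin 3 → k[X]) : ℕ :=
  max (u 0).natDegree (max (u 1).natDegree (u 2).natDegree)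

/-- A triple of polynomials without common zero. -/
def HwCoprime (u : Fin 3 → k[X]) : Prop := Ideal.span (Set.range u) = ⊤

lemma hwPdeg_le (u : Fin 3 → k[X]) (i : Fin 3) : (u i).natDegree ≤ hwPdeg u := by
  unfold hwPdeg
  fin_cases i <;> simp

lemma hwQ_eq_eval (W : WeierstrassCurve k) (u : Fin 3 → k[X]) (j : Fin 3) :
    hwQ W u j = MvPolynomial.eval u
      (WeierstrassCurve.addSubMap (W.map (algebraMap k k[X])) j) := by
  fin_cases j <;>
    simp [hwQ, WeierstrassCurve.addSubMap, Polynomial.algebraMap_eq, map_ofNat]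

/-- `hwQ` has no base point: it preserves coprimality. -/
lemma hwQ_coprime (W : WeierstrassCurve k) [W.IsElliptic] {u : Fin 3 → k[X]} (hu : HwCoprime u) :
    HwCoprime (hwQ W u) := by
  unfold HwCoprime at hu ⊢
  set J : Ideal k[X] := Ideal.span (Set.range (hwQ W u)) with hJ
  have hmem : ∀ j, hwQ W u j ∈ J := fun j => Ideal.subset_span ⟨j, rfl⟩
  have hpow : ∀ i, u i ^ 4 ∈ J := by
    intro i
    have h := WeierstrassCurve.addSubMapCoeff_condition (W.map (algebraMap k k[X])) u i
    rw [← h]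
    refine Ideal.sum_mem _ fun j _ => ?_
    rw [← hwQ_eq_eval]
    exact Ideal.mul_mem_left _ _ (hmem j)
  have hrad : Ideal.span (Set.range u) ≤ J.radical := by
    rw [Ideal.span_le]
    rintro _ ⟨i, rfl⟩
    exact ⟨4, hpow i⟩
  rw [hu, top_le_iff] at hrad
  exact Ideal.radical_eq_top.mp hrad

/-! ### Degree bound together with the top coefficient -/

/-- `p` has degree `≤ d` and coefficient `c` at `X ^ d`. -/
def HwTop (d : ℕ) (p : k[X]) (c : k) : Prop := p.natDegree ≤ d ∧ p.coeff d = c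

lemma HwTop.add {d : ℕ} {p q : k[X]} {a b : k} (hp : HwTop d p a) (hq : HwTop d q b) :
    HwTop d (p + q) (a + b) :=
  ⟨natDegree_add_le_of_degree_le hp.1 hq.1, by rw [coeff_add, hp.2, hq.2]⟩

lemma HwTop.sub {d : ℕ} {p q : k[X]} {a b : k} (hp : HwTop d p a) (hq : HwTop d q b) :
    HwTop d (p - q) (a - b) :=
  ⟨(natDegree_sub_le_of_le hp.1 hq.1).trans (by simp), by rw [coeff_sub, hp.2, hq.2]⟩

lemma HwTop.mul {d e : ℕ} {p q : k[X]} {a b : k} (hp : HwTop d p a) (hq : HwTop e q b) :
    HwTop (d + e) (p * q) (a * b) :=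
  ⟨natDegree_mul_le_of_le hp.1 hq.1, by
    rw [coeff_mul_add_eq_of_natDegree_le hp.1 hq.1, hp.2, hq.2]⟩

lemma HwTop.C_mul {d : ℕ} {p : k[X]} {a : k} (c : k) (hp : HwTop d p a) :
    HwTop d (C c * p) (c * a) :=
  ⟨(natDegree_C_mul_le c p).trans hp.1, by rw [coeff_C_mul, hp.2]⟩

lemma HwTop.sq {d : ℕ} {p : k[X]} {a : k} (hp : HwTop d p a) :
    HwTop (d + d) (p ^ 2) (a ^ 2) := by
  rw [pow_two, pow_two]; exact hp.mul hp

lemma hwTop_of_le {d : ℕ} {p : k[X]} (hp : p.natDegree ≤ d) : HwTop d p (p.coeff d) := ⟨hp, rfl⟩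

/-- The addition-and-subtraction map on triples of constants, written out. -/
def hwQk (W : WeierstrassCurve k) (x : Fin 3 → k) : Fin 3 → k :=
  ![x 0 ^ 2 - W.b₄ * x 0 * x 2 - W.b₆ * x 1 * x 2 - W.b₈ * x 2 ^ 2,
    2 * x 1 * x 0 + W.b₂ * x 0 * x 2 + W.b₄ * x 1 * x 2 + W.b₆ * x 2 ^ 2,
    x 1 ^ 2 - 4 * x 0 * x 2]

lemma hwQk_eq_eval (W : WeierstrassCurve k) (x : Fin 3 → k) (j : Fin 3) :
    hwQk W x j = MvPolynomial.eval x (WeierstrassCurve.addSubMap W j) := by
  fin_cases j <;> simp [hwQk, WeierstrassCurve.addSubMap, map_ofNat]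

lemma hwQk_ne_zero (W : WeierstrassCurve k) [W.IsElliptic] {x : Fin 3 → k} (hx : x ≠ 0) :
    hwQk W x ≠ 0 := by
  intro h
  apply WeierstrassCurve.addSubMap_ne_zero W hx
  funext j
  rw [← hwQk_eq_eval, h]

lemma hwQ_top (W : WeierstrassCurve k) {u : Fin 3 → k[X]} {d : ℕ}
    (hd : ∀ i, (u i).natDegree ≤ d) (j : Fin 3) :
    HwTop (d + d) (hwQ W u j) (hwQk W (fun i => (u i).coeff d) j) := by
  have h0 := hwTop_of_le (hd 0)
  have h1 := hwTop_of_le (hd 1)
  have h2 := hwTop_of_le (hd 2)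
  fin_cases j
  · simp only [hwQ, hwQk, Fin.zero_eta, Fin.isValue, Matrix.cons_val_zero, mul_assoc]
    exact (((h0.sq).sub ((h0.mul h2).C_mul _)).sub ((h1.mul h2).C_mul _)).sub ((h2.sq).C_mul _)
  · simp only [hwQ, hwQk, Fin.mk_one, Fin.isValue, Matrix.cons_val_one, Matrix.cons_val_zero,
      mul_assoc]
    exact ((((h1.mul h0).C_mul 2).add ((h0.mul h2).C_mul _)).add ((h1.mul h2).C_mul _)).add
      ((h2.sq).C_mul _)
  · simp only [hwQ, hwQk, Fin.reduceFinMk, Fin.isValue, Matrix.cons_val, mul_assoc]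
    exact (h1.sq).sub ((h0.mul h2).C_mul 4)

lemma hwCoprime_ne_zero {u : Fin 3 → k[X]} (hu : HwCoprime u) : u ≠ 0 := by
  rintro rfl
  unfold HwCoprime at hu
  have : Ideal.span (Set.range (0 : Fin 3 → k[X])) = ⊥ := by
    rw [Ideal.span_eq_bot]
    rintro _ ⟨i, rfl⟩
    rfl
  rw [this] at hu
  exact bot_ne_top hu

/-- At the projective degree, the vector of coefficients of a nonzero triple is nonzero. -/
lemma hwCoeff_ne_zero {u : Fin 3 → k[X]} (hu : u ≠ 0) :
    (fun i => (u i).coeff (hwPdeg u)) ≠ 0 := by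
  classical
  -- an index where the maximum is attained
  obtain ⟨i₀, hi₀⟩ : ∃ i, (u i).natDegree = hwPdeg u := by
    unfold hwPdeg
    rcases max_cases (u 0).natDegree (max (u 1).natDegree (u 2).natDegree) with h | h
    · exact ⟨0, h.1.symm⟩
    · rcases max_cases (u 1).natDegree (u 2).natDegree with h' | h'
      · exact ⟨1, by rw [h.1, h'.1]⟩
      · exact ⟨2, by rw [h.1, h'.1]⟩
  obtain ⟨i₁, hi₁⟩ : ∃ i, u i ≠ 0 := by
    by_contra hcon
    push Not at hcon
    exact hu (funext hcon)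
  intro hzero
  by_cases h0 : u i₀ = 0
  · -- then the degree is zero and `u i₁` is a nonzero constant
    have hd : hwPdeg u = 0 := by rw [← hi₀, h0, natDegree_zero]
    have h1 : (u i₁).natDegree = 0 := Nat.le_zero.mp (hd ▸ hwPdeg_le u i₁)
    have := congrFun hzero i₁
    simp only [Pi.zero_apply, hd] at this
    rw [← h1] at this
    exact hi₁ (leadingCoeff_eq_zero.mp this)
  · have := congrFun hzero i₀
    simp only [Pi.zero_apply] at this
    rw [← hi₀] at this
    exact h0 (leadingCoeff_eq_zero.mp this)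

/-- **No base point ⇒ exact doubling of the projective degree.** -/
theorem hwPdeg_hwQ (W : WeierstrassCurve k) [W.IsElliptic] {u : Fin 3 → k[X]} (hu : u ≠ 0) :
    hwPdeg (hwQ W u) = 2 * hwPdeg u := by
  set d := hwPdeg u with hd
  have htop := fun j => hwQ_top W (fun i => hwPdeg_le u i) j
  apply le_antisymm
  · unfold hwPdeg
    have h0 := (htop 0).1
    have h1 := (htop 1).1
    have h2 := (htop 2).1
    rw [← hd] at h0 h1 h2
    simp only [max_le_iff]
    refine ⟨by omega, by omega, by omega⟩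
  · have hne := hwQk_ne_zero W (hwCoeff_ne_zero hu)
    obtain ⟨j, hj⟩ : ∃ j, hwQk W (fun i => (u i).coeff (hwPdeg u)) j ≠ 0 := by
      by_contra hcon
      push Not at hcon
      exact hne (funext hcon)
    rw [← (htop j).2] at hj
    have := le_natDegree_of_ne_zero hj
    rw [← hd] at this
    calc 2 * d = d + d := two_mul d
      _ ≤ (hwQ W u j).natDegree := this
      _ ≤ hwPdeg (hwQ W u) := hwPdeg_le _ j

/-- Two coprime triples which are proportional have the same projective degree. -/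
theorem hwPdeg_eq_of_proportional {u w : Fin 3 → k[X]} (hu : HwCoprime u) (hw : HwCoprime w)
    {s t : k[X]} (hs : s ≠ 0) (ht : t ≠ 0) (h : ∀ i, s * u i = t * w i) :
    hwPdeg u = hwPdeg w := by
  -- `t ∣ s` and `s ∣ t`
  have hts : t ∣ s := by
    have : Ideal.span (Set.range fun i => s * u i) ≤ Ideal.span {t} := by
      rw [Ideal.span_le]
      rintro _ ⟨i, rfl⟩
      show s * u i ∈ Ideal.span {t}
      rw [h i]
      exact Ideal.mul_mem_right _ _ (Ideal.mem_span_singleton_self t)
    have hs' : s ∈ Ideal.span (Set.range fun i => s * u i) := by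
      have h1 : (1 : k[X]) ∈ Ideal.span (Set.range u) := by rw [hu]; trivial
      have : s * 1 ∈ Ideal.span (Set.range fun i => s * u i) := by
        refine Submodule.span_induction (p := fun x _ => s * x ∈
          Ideal.span (Set.range fun i => s * u i)) ?_ ?_ ?_ ?_ h1
        · rintro _ ⟨i, rfl⟩
          exact Ideal.subset_span ⟨i, rfl⟩
        · simp
        · intro x y _ _ hx hy
          rw [mul_add]; exact Ideal.add_mem _ hx hy
        · intro a x _ hx
          rw [smul_eq_mul, mul_left_comm]; exact Ideal.mul_mem_left _ _ hx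
      simpa using this
    exact Ideal.mem_span_singleton.mp (this hs')
  have hst : s ∣ t := by
    have : Ideal.span (Set.range fun i => t * w i) ≤ Ideal.span {s} := by
      rw [Ideal.span_le]
      rintro _ ⟨i, rfl⟩
      show t * w i ∈ Ideal.span {s}
      rw [← h i]
      exact Ideal.mul_mem_right _ _ (Ideal.mem_span_singleton_self s)
    have ht' : t ∈ Ideal.span (Set.range fun i => t * w i) := by
      have h1 : (1 : k[X]) ∈ Ideal.span (Set.range w) := by rw [hw]; trivial
      have : t * 1 ∈ Ideal.span (Set.range fun i => t * w i) := by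
        refine Submodule.span_induction (p := fun x _ => t * x ∈
          Ideal.span (Set.range fun i => t * w i)) ?_ ?_ ?_ ?_ h1
        · rintro _ ⟨i, rfl⟩
          exact Ideal.subset_span ⟨i, rfl⟩
        · simp
        · intro x y _ _ hx hy
          rw [mul_add]; exact Ideal.add_mem _ hx hy
        · intro a x _ hx
          rw [smul_eq_mul, mul_left_comm]; exact Ideal.mul_mem_left _ _ hx
      simpa using this
    exact Ideal.mem_span_singleton.mp (this ht')
  -- hence `s = t * e` with `e` a unit, and `w i = e * u i`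
  obtain ⟨e, he⟩ := hts
  obtain ⟨e', he'⟩ := hst
  have hee : e * e' = 1 := by
    have : s * (e' * e) = s * 1 := by
      rw [mul_one, ← mul_assoc, ← he', ← he]
    have := mul_left_cancel₀ hs this
    rw [mul_comm] at this
    exact this
  have heu : IsUnit e := IsUnit.of_mul_eq_one _ hee
  have hwi : ∀ i, w i = e * u i := by
    intro i
    have := h i
    rw [he, mul_assoc] at this
    exact (mul_left_cancel₀ ht this).symm
  have hdeg : ∀ i, (w i).natDegree = (u i).natDegree := by
    intro i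
    rw [hwi i]
    obtain ⟨c, hc, rfl⟩ := Polynomial.isUnit_iff.mp heu
    exact natDegree_C_mul (IsUnit.ne_zero hc)
  unfold hwPdeg
  rw [hdeg 0, hdeg 1, hdeg 2]

/-! ### Gauss: the symmetric triple of two fractions -/

/-- The triple `(a₁b₁ : a₁b₂ + a₂b₁ : a₂b₂)`, i.e. `(ab : a + b : 1)` for `a = a₁/a₂`, `b = b₁/b₂`. -/
noncomputable def hwT (a₁ a₂ b₁ b₂ : k[X]) : Fin 3 → k[X] :=
  ![a₁ * b₁, a₁ * b₂ + a₂ * b₁, a₂ * b₂]

lemma hwT_coprime {a₁ a₂ b₁ b₂ : k[X]} (ha : IsCoprime a₁ a₂) (hb : IsCoprime b₁ b₂) :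
    HwCoprime (hwT a₁ a₂ b₁ b₂) := by
  unfold HwCoprime
  by_contra hne
  obtain ⟨M, hM, hle⟩ := Ideal.exists_le_maximal _ hne
  have hprime : M.IsPrime := hM.isPrime
  have hmem : ∀ i, hwT a₁ a₂ b₁ b₂ i ∈ M := fun i => hle (Ideal.subset_span ⟨i, rfl⟩)
  have h0 : a₁ * b₁ ∈ M := hmem 0
  have h1 : a₁ * b₂ + a₂ * b₁ ∈ M := hmem 1
  have h2 : a₂ * b₂ ∈ M := hmem 2
  have hcop : ∀ {x y : k[X]}, IsCoprime x y → x ∈ M → y ∈ M → False := by
    intro x y hxy hx hy
    obtain ⟨c, d, hcd⟩ := hxy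
    apply hM.ne_top
    rw [Ideal.eq_top_iff_one, ← hcd]
    exact Ideal.add_mem _ (Ideal.mul_mem_left _ _ hx) (Ideal.mul_mem_left _ _ hy)
  rcases hprime.mem_or_mem h2 with h | h
  · -- `a₂ ∈ M`, so `a₁ ∉ M`, `b₁ ∈ M`, `b₂ ∈ M`
    have ha1 : a₁ ∉ M := fun h' => hcop ha h' h
    have hb1 : b₁ ∈ M := (hprime.mem_or_mem h0).resolve_left ha1
    have : a₁ * b₂ ∈ M := by
      have := Ideal.sub_mem _ h1 (Ideal.mul_mem_right b₁ _ h)
      simpa using this
    have hb2 : b₂ ∈ M := (hprime.mem_or_mem this).resolve_left ha1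
    exact hcop hb hb1 hb2
  · have hb1 : b₁ ∉ M := fun h' => hcop hb h' h
    have ha1 : a₁ ∈ M := (hprime.mem_or_mem h0).resolve_right hb1
    have : a₂ * b₁ ∈ M := by
      have := Ideal.sub_mem _ h1 (Ideal.mul_mem_right b₂ _ ha1)
      simpa using this
    have ha2 : a₂ ∈ M := (hprime.mem_or_mem this).resolve_right hb1
    exact hcop ha ha1 ha2

lemma hwPair_coeff_ne_zero {a₁ a₂ : k[X]} (h : a₁ ≠ 0 ∨ a₂ ≠ 0) :
    a₁.coeff (max a₁.natDegree a₂.natDegree) ≠ 0 ∨
      a₂.coeff (max a₁.natDegree a₂.natDegree) ≠ 0 := by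
  rcases le_total a₁.natDegree a₂.natDegree with hle | hle
  · rw [max_eq_right hle]
    by_cases h2 : a₂ = 0
    · have hd : a₂.natDegree = 0 := by rw [h2, natDegree_zero]
      have h1 : a₁ ≠ 0 := h.resolve_right (not_not.mpr h2)
      left
      rw [hd] at hle ⊢
      have : a₁.natDegree = 0 := Nat.le_zero.mp hle
      rw [← this]
      exact leadingCoeff_ne_zero.mpr h1
    · right; exact leadingCoeff_ne_zero.mpr h2
  · rw [max_eq_left hle]
    by_cases h1 : a₁ = 0
    · have hd : a₁.natDegree = 0 := by rw [h1, natDegree_zero]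
      have h2 : a₂ ≠ 0 := h.resolve_left (not_not.mpr h1)
      right
      rw [hd] at hle ⊢
      have : a₂.natDegree = 0 := Nat.le_zero.mp hle
      rw [← this]
      exact leadingCoeff_ne_zero.mpr h2
    · left; exact leadingCoeff_ne_zero.mpr h1

lemma hwCoprime_pair_ne {a₁ a₂ : k[X]} (ha : IsCoprime a₁ a₂) : a₁ ≠ 0 ∨ a₂ ≠ 0 := by
  by_contra hcon
  push Not at hcon
  obtain ⟨c, d, hcd⟩ := ha
  rw [hcon.1, hcon.2] at hcd
  simp at hcd

/-- **Gauss' lemma for heights**: `pdeg (ab : a + b : 1) = ht a + ht b`. -/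
theorem hwPdeg_hwT {a₁ a₂ b₁ b₂ : k[X]} (ha : a₁ ≠ 0 ∨ a₂ ≠ 0) (hb : b₁ ≠ 0 ∨ b₂ ≠ 0) :
    hwPdeg (hwT a₁ a₂ b₁ b₂) =
      max a₁.natDegree a₂.natDegree + max b₁.natDegree b₂.natDegree := by
  set d := max a₁.natDegree a₂.natDegree with hd
  set e := max b₁.natDegree b₂.natDegree with he
  have A1 : HwTop d a₁ (a₁.coeff d) := hwTop_of_le (le_max_left _ _)
  have A2 : HwTop d a₂ (a₂.coeff d) := hwTop_of_le (le_max_right _ _)
  have B1 : HwTop e b₁ (b₁.coeff e) := hwTop_of_le (le_max_left _ _)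
  have B2 : HwTop e b₂ (b₂.coeff e) := hwTop_of_le (le_max_right _ _)
  have T0 := A1.mul B1
  have T1 := (A1.mul B2).add (A2.mul B1)
  have T2 := A2.mul B2
  apply le_antisymm
  · unfold hwPdeg hwT
    simp only [Fin.isValue, Matrix.cons_val_zero, Matrix.cons_val_one, Matrix.cons_val, max_le_iff]
    exact ⟨T0.1, T1.1, T2.1⟩
  · -- one of the three top coefficients is nonzero
    have hA := hwPair_coeff_ne_zero ha
    have hB := hwPair_coeff_ne_zero hb
    rw [← hd] at hA
    rw [← he] at hB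
    have key : a₁.coeff d * b₁.coeff e ≠ 0 ∨
        a₁.coeff d * b₂.coeff e + a₂.coeff d * b₁.coeff e ≠ 0 ∨
        a₂.coeff d * b₂.coeff e ≠ 0 := by
      by_contra hcon
      push Not at hcon
      obtain ⟨h0, h1, h2⟩ := hcon
      rcases mul_eq_zero.mp h0 with hA1 | hB1
      · have hA2 : a₂.coeff d ≠ 0 := hA.resolve_left (not_not.mpr hA1)
        have hB2 : b₂.coeff e = 0 := (mul_eq_zero.mp h2).resolve_left hA2
        have hB1 : b₁.coeff e ≠ 0 := hB.resolve_right (not_not.mpr hB2)
        rw [hA1, zero_mul, zero_add] at h1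
        exact (mul_ne_zero hA2 hB1) h1
      · have hB2 : b₂.coeff e ≠ 0 := hB.resolve_left (not_not.mpr hB1)
        have hA2 : a₂.coeff d = 0 := (mul_eq_zero.mp h2).resolve_right hB2
        have hA1 : a₁.coeff d ≠ 0 := hA.resolve_right (not_not.mpr hA2)
        rw [hA2, zero_mul, add_zero] at h1
        exact (mul_ne_zero hA1 hB2) h1
    rcases key with h | h | h
    · rw [← T0.2] at h
      exact (le_natDegree_of_ne_zero h).trans (hwPdeg_le (hwT a₁ a₂ b₁ b₂) 0)
    · rw [← T1.2] at h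
      exact (le_natDegree_of_ne_zero h).trans (hwPdeg_le (hwT a₁ a₂ b₁ b₂) 1)
    · rw [← T2.2] at h
      exact (le_natDegree_of_ne_zero h).trans (hwPdeg_le (hwT a₁ a₂ b₁ b₂) 2)

/-! ### Rational functions -/

/-- The coprime polynomial triple representing `(fg : f + g : 1)`. -/
noncomputable def hwS (f g : RatFunc k) : Fin 3 → k[X] :=
  hwT f.num f.denom g.num g.denom

lemma hwS_coprime (f g : RatFunc k) : HwCoprime (hwS f g) :=
  hwT_coprime (RatFunc.isCoprime_num_denom f) (RatFunc.isCoprime_num_denom g)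

lemma hwPdeg_hwS (f g : RatFunc k) :
    hwPdeg (hwS f g) =
      max f.num.natDegree f.denom.natDegree + max g.num.natDegree g.denom.natDegree :=
  hwPdeg_hwT (Or.inr (RatFunc.denom_ne_zero f)) (Or.inr (RatFunc.denom_ne_zero g))

lemma hwS_num_eq (f : RatFunc k) :
    algebraMap k[X] (RatFunc k) f.num = f * algebraMap k[X] (RatFunc k) f.denom := by
  have hf := RatFunc.num_div_denom f
  have hf0 : algebraMap k[X] (RatFunc k) f.denom ≠ 0 :=
    RatFunc.algebraMap_ne_zero (RatFunc.denom_ne_zero f)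
  exact (div_eq_iff hf0).mp hf

lemma hwS_zero (f g : RatFunc k) :
    algebraMap k[X] (RatFunc k) (hwS f g 0) =
      f * g * algebraMap k[X] (RatFunc k) (f.denom * g.denom) := by
  simp only [hwS, hwT, Fin.isValue, Matrix.cons_val_zero, map_mul]
  rw [hwS_num_eq f, hwS_num_eq g]
  ring

lemma hwS_one (f g : RatFunc k) :
    algebraMap k[X] (RatFunc k) (hwS f g 1) =
      (f + g) * algebraMap k[X] (RatFunc k) (f.denom * g.denom) := by
  simp only [hwS, hwT, Fin.isValue, Matrix.cons_val_one, Matrix.cons_val_zero, map_mul, map_add]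
  rw [hwS_num_eq f, hwS_num_eq g]
  ring

lemma hwS_two (f g : RatFunc k) : hwS f g 2 = f.denom * g.denom := by
  simp [hwS, hwT]

lemma hwS_two_ne_zero (f g : RatFunc k) : hwS f g 2 ≠ 0 := by
  rw [hwS_two]
  exact mul_ne_zero (RatFunc.denom_ne_zero f) (RatFunc.denom_ne_zero g)

lemma hwQ_map_zero (W : WeierstrassCurve k) (u : Fin 3 → k[X]) :
    algebraMap k[X] (RatFunc k) (hwQ W u 0) =
      algebraMap k[X] (RatFunc k) (u 0) ^ 2
        - RatFunc.C W.b₄ * algebraMap k[X] (RatFunc k) (u 0) * algebraMap k[X] (RatFunc k) (u 2)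
        - RatFunc.C W.b₆ * algebraMap k[X] (RatFunc k) (u 1) * algebraMap k[X] (RatFunc k) (u 2)
        - RatFunc.C W.b₈ * algebraMap k[X] (RatFunc k) (u 2) ^ 2 := by
  simp [hwQ, RatFunc.algebraMap_C]

lemma hwQ_map_one (W : WeierstrassCurve k) (u : Fin 3 → k[X]) :
    algebraMap k[X] (RatFunc k) (hwQ W u 1) =
      2 * algebraMap k[X] (RatFunc k) (u 1) * algebraMap k[X] (RatFunc k) (u 0)
        + RatFunc.C W.b₂ * algebraMap k[X] (RatFunc k) (u 0) * algebraMap k[X] (RatFunc k) (u 2)
        + RatFunc.C W.b₄ * algebraMap k[X] (RatFunc k) (u 1) * algebraMap k[X] (RatFunc k) (u 2)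
        + RatFunc.C W.b₆ * algebraMap k[X] (RatFunc k) (u 2) ^ 2 := by
  simp [hwQ, RatFunc.algebraMap_C, map_ofNat]

lemma hwQ_map_two (W : WeierstrassCurve k) (u : Fin 3 → k[X]) :
    algebraMap k[X] (RatFunc k) (hwQ W u 2) =
      algebraMap k[X] (RatFunc k) (u 1) ^ 2
        - 4 * algebraMap k[X] (RatFunc k) (u 0) * algebraMap k[X] (RatFunc k) (u 2) := by
  simp [hwQ, map_ofNat]

/-- **Exact parallelogram law for heights** (generic case).  If `R₊`, `R₋` are the `x`-coordinate
functions of `α + β`, `α − β` and `R₁`, `R₂` those of `α`, `β`, i.e.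
`R₊R₋ (R₁ − R₂)² = F(R₁, R₂)` and `(R₊ + R₋)(R₁ − R₂)² = G(R₁, R₂)` with the biquadratic forms of
`WeierstrassCurve.addSubMap`, then `ht R₊ + ht R₋ = 2 ht R₁ + 2 ht R₂`. -/
theorem ht_add_ht_of_addSub (W : WeierstrassCurve k) [W.IsElliptic] (R₁ R₂ Rp Rm : RatFunc k)
    (h0 : Rp * Rm * (R₁ - R₂) ^ 2 =
      (R₁ * R₂) ^ 2 - RatFunc.C W.b₄ * (R₁ * R₂) - RatFunc.C W.b₆ * (R₁ + R₂) - RatFunc.C W.b₈)
    (h1 : (Rp + Rm) * (R₁ - R₂) ^ 2 =
      2 * (R₁ + R₂) * (R₁ * R₂) + RatFunc.C W.b₂ * (R₁ * R₂) + RatFunc.C W.b₄ * (R₁ + R₂)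
        + RatFunc.C W.b₆) :
    max Rp.num.natDegree Rp.denom.natDegree + max Rm.num.natDegree Rm.denom.natDegree =
      2 * max R₁.num.natDegree R₁.denom.natDegree +
        2 * max R₂.num.natDegree R₂.denom.natDegree := by
  set u := hwS R₁ R₂ with hu
  set v := hwQ W u with hv
  set w := hwS Rp Rm with hw
  have hinj : Function.Injective (algebraMap k[X] (RatFunc k)) := RatFunc.algebraMap_injective k
  have hucop : HwCoprime u := hwS_coprime R₁ R₂
  have hvcop : HwCoprime v := hwQ_coprime W hucop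
  have hwcop : HwCoprime w := hwS_coprime Rp Rm
  have key : ∀ i, w 2 * v i = v 2 * w i := by
    intro i
    apply hinj
    fin_cases i
    · simp only [Fin.zero_eta, Fin.isValue, map_mul, hv, hw, hu, hwQ_map_zero, hwQ_map_two,
        hwS_zero, hwS_one, hwS_two]
      linear_combination (-(algebraMap k[X] (RatFunc k) Rp.denom *
        algebraMap k[X] (RatFunc k) Rm.denom) * (algebraMap k[X] (RatFunc k) R₁.denom *
        algebraMap k[X] (RatFunc k) R₂.denom) ^ 2) * h0
    · simp only [Fin.mk_one, Fin.isValue, map_mul, hv, hw, hu, hwQ_map_one, hwQ_map_two,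
        hwS_zero, hwS_one, hwS_two]
      linear_combination (-(algebraMap k[X] (RatFunc k) Rp.denom *
        algebraMap k[X] (RatFunc k) Rm.denom) * (algebraMap k[X] (RatFunc k) R₁.denom *
        algebraMap k[X] (RatFunc k) R₂.denom) ^ 2) * h1
    · simp only [Fin.reduceFinMk, Fin.isValue, map_mul]
      ring
  have hw2 : w 2 ≠ 0 := hwS_two_ne_zero Rp Rm
  have hv2 : v 2 ≠ 0 := by
    intro hzero
    apply hwCoprime_ne_zero hvcop
    funext i
    have := key i
    rw [hzero, zero_mul] at this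
    exact (mul_eq_zero.mp this).resolve_left hw2
  have hdeg := hwPdeg_eq_of_proportional hvcop hwcop hw2 hv2 key
  have h2 := hwPdeg_hwQ W (hwCoprime_ne_zero hucop)
  rw [← hv] at h2
  rw [h2, hu, hw, hwPdeg_hwS, hwPdeg_hwS] at hdeg
  omega

/-- **Duplication**: if `R' · Ψ₂Sq(R) = Φ₂(R)` (so that `R'` is the `x`-coordinate function of `2α`),
then `ht R' = 4 ht R`. -/
theorem ht_of_double (W : WeierstrassCurve k) [W.IsElliptic] (R R' : RatFunc k)
    (h : R' * (4 * R ^ 3 + RatFunc.C W.b₂ * R ^ 2 + 2 * RatFunc.C W.b₄ * R + RatFunc.C W.b₆) =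
      R ^ 4 - RatFunc.C W.b₄ * R ^ 2 - 2 * RatFunc.C W.b₆ * R - RatFunc.C W.b₈) :
    max R'.num.natDegree R'.denom.natDegree = 4 * max R.num.natDegree R.denom.natDegree := by
  set u := hwS R R with hu
  set v := hwQ W u with hv
  set w : Fin 3 → k[X] := ![R'.num, R'.denom, 0] with hw
  have hinj : Function.Injective (algebraMap k[X] (RatFunc k)) := RatFunc.algebraMap_injective k
  have hucop : HwCoprime u := hwS_coprime R R
  have hvcop : HwCoprime v := hwQ_coprime W hucop
  have hwcop : HwCoprime w := by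
    unfold HwCoprime
    obtain ⟨c, d, hcd⟩ := RatFunc.isCoprime_num_denom R'
    rw [Ideal.eq_top_iff_one, ← hcd]
    refine Ideal.add_mem _ (Ideal.mul_mem_left _ _ (Ideal.subset_span ⟨0, ?_⟩))
      (Ideal.mul_mem_left _ _ (Ideal.subset_span ⟨1, ?_⟩))
    · simp [hw]
    · simp [hw]
  have hv2 : v 2 = 0 := by
    simp only [hv, hu, hwQ, hwS, hwT, Fin.isValue, Matrix.cons_val, Matrix.cons_val_one,
      Matrix.cons_val_zero]
    have : (C 4 : k[X]) = 4 := map_ofNat C 4
    rw [this]
    ring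
  have key : ∀ i, R'.denom * v i = v 1 * w i := by
    intro i
    fin_cases i
    · apply hinj
      simp only [Fin.zero_eta, Fin.isValue, map_mul, hv, hw, hu, hwQ_map_zero, hwQ_map_one,
        hwS_zero, hwS_one, hwS_two, Matrix.cons_val_zero, hwS_num_eq R']
      linear_combination (-(algebraMap k[X] (RatFunc k) R'.denom) *
        (algebraMap k[X] (RatFunc k) R.denom * algebraMap k[X] (RatFunc k) R.denom) ^ 2) * h
    · simp only [Fin.mk_one, Fin.isValue, hw, Matrix.cons_val_one, Matrix.cons_val_zero]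
      ring
    · simp only [Fin.reduceFinMk, Fin.isValue, hw, Matrix.cons_val, hv2, mul_zero]
  have hs : R'.denom ≠ 0 := RatFunc.denom_ne_zero R'
  have hv1 : v 1 ≠ 0 := by
    intro hzero
    apply hwCoprime_ne_zero hvcop
    funext i
    have := key i
    rw [hzero, zero_mul] at this
    exact (mul_eq_zero.mp this).resolve_left hs
  have hdeg := hwPdeg_eq_of_proportional hvcop hwcop hs hv1 key
  have h2 := hwPdeg_hwQ W (hwCoprime_ne_zero hucop)
  rw [← hv] at h2
  rw [h2, hu, hwPdeg_hwS] at hdeg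
  have hwdeg : hwPdeg w = max R'.num.natDegree R'.denom.natDegree := by
    simp [hwPdeg, hw]
  rw [hwdeg] at hdeg
  omega

end Fermat.Agent.HW



end ZBHW_003_0

/-! ### bundled: `Fermat.Agent.HW.Adapt` -/
section ZBHW_003_1

/-!
# HW brick: adaptors from the landed pieces to the `Stmt…` interface of `Plan.lean` (helper51)
-/

set_option autoImplicit false

open Polynomial

namespace Fermat.Agent.HW

noncomputable section

section Comp

variable (K : Type*) [Field K]

theorem stmtHtComp : StmtHtComp K := fun R T => hwTowerHeight_comp R T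

theorem stmtHtConst : StmtHtConst K := fun R => hwTowerHeight_eq_zero_iff R

end Comp

section Height

variable {K : Type*} [Field K] (E : WeierstrassCurve K)

theorem stmtHtAddSub : StmtHtAddSub E := by
  intro hΔ R₁ R₂ Rp Rm _ hs hpr
  have : E.IsElliptic := ⟨isUnit_iff_ne_zero.mpr hΔ⟩
  refine ht_add_ht_of_addSub E R₁ R₂ Rp Rm ?_ ?_
  · rw [hpr]; simp only [Fform, RatFunc.algebraMap_eq_C]; ring
  · rw [hs]; simp only [Gform, RatFunc.algebraMap_eq_C]; ring

theorem Ψ₂Sq_ne_zero_of_Δ (hΔ : E.Δ ≠ 0) : E.Ψ₂Sq ≠ 0 := by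
  intro h
  have c3 : (4 : K) = 0 := by
    have := congrArg (fun q : K[X] => q.coeff 3) h
    simpa [WeierstrassCurve.Ψ₂Sq, coeff_X, coeff_C, coeff_X_pow] using this
  have c2 : E.b₂ = 0 := by
    have := congrArg (fun q : K[X] => q.coeff 2) h
    simpa [WeierstrassCurve.Ψ₂Sq, coeff_X, coeff_C, coeff_X_pow] using this
  have c1 : 2 * E.b₄ = 0 := by
    have := congrArg (fun q : K[X] => q.coeff 1) h
    simpa [WeierstrassCurve.Ψ₂Sq, coeff_X, coeff_C, coeff_X_pow] using this
  have c0 : E.b₆ = 0 := by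
    have := congrArg (fun q : K[X] => q.coeff 0) h
    simpa [WeierstrassCurve.Ψ₂Sq, coeff_X, coeff_C, coeff_X_pow] using this
  apply hΔ
  rw [WeierstrassCurve.Δ, c2, c0]
  linear_combination (-4 * E.b₄ ^ 2) * c1

theorem psi2form_eq_aeval (R : RatFunc K) : Psi2form E R = aeval R E.Ψ₂Sq := by
  simp only [Psi2form, WeierstrassCurve.Ψ₂Sq, map_add, map_mul, map_pow, aeval_X, aeval_C,
    map_ofNat]

theorem stmtHtDup : StmtHtDup E := by
  intro hΔ R
  have : E.IsElliptic := ⟨isUnit_iff_ne_zero.mpr hΔ⟩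
  by_cases h0 : Psi2form E R = 0
  · -- then `R` is constant and `dupR = 0`
    have hc : ∃ c, R = RatFunc.C c := by
      by_contra hne
      have htr : Transcendental K R := RatFunc.transcendental_of_ne_C R hne
      rw [psi2form_eq_aeval] at h0
      exact Ψ₂Sq_ne_zero_of_Δ E hΔ ((transcendental_iff.mp htr) _ h0)
    have h1 : ht R = 0 := (hwTowerHeight_eq_zero_iff R).mpr hc
    have h2 : dupR E R = 0 := by unfold dupR; rw [h0, div_zero]
    rw [h1, h2]
    simp [ht]
  · refine ht_of_double E R (dupR E R) ?_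
    have : dupR E R * Psi2form E R = Fform E R R := by
      unfold dupR
      exact div_mul_cancel₀ _ h0
    simp only [Psi2form, Fform, RatFunc.algebraMap_eq_C] at this
    linear_combination this

end Height

section Count

variable (p : ℕ) [Fact p.Prime] (W : WeierstrassCurve (ZMod p))
  (K : Type*) [Field K] [Algebra (ZMod p) K]

theorem stmtCount : StmtCount p W K := by
  intro hp2 hΔ
  have h := Count.count_height_zmod (K := K) p W hp2 hΔ
  have e : (Gform (EK p W K) (RatFunc.X ^ p) (RatFunc.X : RatFunc K)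
        + Psi2form (EK p W K) (RatFunc.X : RatFunc K) ^ ((p + 1) / 2))
      / (2 * ((RatFunc.X : RatFunc K) ^ p - RatFunc.X) ^ 2) = Count.xFrobSubOne (K := K) p W := by
    unfold Count.xFrobSubOne
    congr 1
    · simp only [Gform, Psi2form, WeierstrassCurve.Ψ₂Sq, map_add, map_mul, map_pow,
        RatFunc.algebraMap_X, RatFunc.algebraMap_C, RatFunc.algebraMap_eq_C, map_ofNat]
      ring
    · simp only [map_mul, map_pow, map_sub, RatFunc.algebraMap_X, map_ofNat]
  unfold ht
  rw [e, h]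
  rfl

end Count

end

end Fermat.Agent.HW


end ZBHW_003_1

/-! ### bundled: `Fermat.Agent.HW.Main` -/
section ZBHW_003_2

/-!
# HW brick, piece HW-6: assembly of the Frobenius relation (helper51)
-/

set_option autoImplicit false

open Polynomial

namespace Fermat.Agent.HW

noncomputable section

section Subring

variable {K : Type*} [Field K] [DecidableEq K] {E : WeierstrassCurve K}

/-- the subring of represented endomorphisms -/
def reprSubring (I : ParInput E) : Subring (AddMonoid.End E.toAffine.Point) where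
  carrier := {α | IsRepr E α}
  mul_mem' := fun h h' => I.isRepr_mul h h'
  one_mem' := I.isRepr_one
  add_mem' := fun h h' => I.isRepr_add h h'
  zero_mem' := Or.inl rfl
  neg_mem' := fun h => I.isRepr_neg h

theorem mem_reprSubring (I : ParInput E) (α : AddMonoid.End E.toAffine.Point) :
    α ∈ reprSubring I ↔ IsRepr E α := Iff.rfl

end Subring

section RatFuncAux

variable {K : Type*} [Field K]

theorem ht_X_pow (n : ℕ) : ht ((RatFunc.X : RatFunc K) ^ n) = n := by
  have h := Count.natDegree_num_denom_of_isCoprime (K := K) (a := X ^ n) (b := 1)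
    isCoprime_one_right one_ne_zero
  have e : (RatFunc.X : RatFunc K) ^ n =
      algebraMap K[X] (RatFunc K) (X ^ n) / algebraMap K[X] (RatFunc K) 1 := by
    simp
  unfold ht
  rw [e, h.1, h.2]
  simp

theorem X_pow_ne_X {n : ℕ} (hn : 2 ≤ n) : (RatFunc.X : RatFunc K) ^ n ≠ RatFunc.X := by
  intro h
  have h1 := ht_X_pow (K := K) n
  rw [h] at h1
  have h2 : ht (RatFunc.X : RatFunc K) = 1 := ParInput.ht_X'
  omega

end RatFuncAux

section Frob

variable (p : ℕ) [Fact p.Prime] (W : WeierstrassCurve (ZMod p))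
  (K : Type*) [Field K] [DecidableEq K] [Algebra (ZMod p) K]

/-- the Frobenius relation in `End E(K)`, from the pieces -/
theorem frob_relation_end (I : ParInput (EK p W K)) (hF : StmtRepFrob p W K)
    (hp2 : p ≠ 2) (hΔ : W.Δ ≠ 0) :
    frobPt p W K * frobPt p W K
      - ((p : ℤ) + 1 - (Nat.card W.toAffine.Point : ℤ)) • frobPt p W K
      + (p : ℤ) • (1 : AddMonoid.End (EK p W K).toAffine.Point) = 0 := by
  have hp : p.Prime := Fact.out
  have hodd : p % 2 = 1 := hp.eq_two_or_odd.resolve_left hp2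
  set S := reprSubring I with hS
  set h : S → ℤ := fun a => hdeg (EK p W K) (a : AddMonoid.End (EK p W K).toAffine.Point) with hh
  have H : IsParallelogram h := fun x y => I.hdeg_par x.2 y.2
  have hmul : ∀ a b : S, h (a * b) = h a * h b := fun a b => I.hdeg_mul a.2 b.2
  have h1 : h 1 = 1 := I.hdeg_one
  have hrepφ := hF I.hyp
  set φ : S := ⟨frobPt p W K, Or.inr ⟨_, _, hrepφ⟩⟩ with hφdef
  have hφ : h φ = (p : ℤ) := by
    show hdeg (EK p W K) (frobPt p W K) = p
    rw [I.hdeg_eq hrepφ, ht_X_pow]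
  have hrep1 : Rep (EK p W K) (⇑(-1 : AddMonoid.End (EK p W K).toAffine.Point)) RatFunc.X (-1) :=
    I.rep_neg I.rep_one
  have hne : (RatFunc.X : RatFunc K) ^ p ≠ RatFunc.X := X_pow_ne_X hp.two_le
  have hrepsub := I.repAdd I.hyp _ _ _ _ _ _ hrepφ hrep1 hne
  have hφ1 : h (φ - 1) = (p : ℤ) + 1 - ((p : ℤ) + 1 - (Nat.card W.toAffine.Point : ℤ)) := by
    show hdeg (EK p W K) (frobPt p W K - 1) = _
    rw [sub_eq_add_neg, I.hdeg_eq hrepsub]
    have hc := stmtCount p W K hp2 hΔ
    have e : sumR (EK p W K) (RatFunc.X ^ p)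
        (Psi2form (EK p W K) (RatFunc.X : RatFunc K) ^ ((p - 1) / 2)) RatFunc.X (-1) =
        (Gform (EK p W K) (RatFunc.X ^ p) (RatFunc.X : RatFunc K)
          + Psi2form (EK p W K) (RatFunc.X : RatFunc K) ^ ((p + 1) / 2))
        / (2 * ((RatFunc.X : RatFunc K) ^ p - RatFunc.X) ^ 2) := by
      unfold sumR
      have e2 : (p + 1) / 2 = (p - 1) / 2 + 1 := by omega
      rw [e2, pow_succ]
      congr 1
      ring
    rw [e, hc]
    ring
  have key := frobenius_relation_height_zero H hmul h1 φ (p : ℤ)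
    ((p : ℤ) + 1 - (Nat.card W.toAffine.Point : ℤ)) hφ hφ1
  have hz := I.eq_zero_of_hdeg (Subtype.property _) key
  simpa using hz

/-- the Frobenius relation on points, from the pieces -/
theorem frob_relation_of (I : ParInput (EK p W K)) (hF : StmtRepFrob p W K)
    (hp2 : p ≠ 2) (hΔ : W.Δ ≠ 0) (P : (EK p W K).toAffine.Point) :
    frobPt p W K (frobPt p W K P)
      - ((p : ℤ) + 1 - (Nat.card W.toAffine.Point : ℤ)) • frobPt p W K P + (p : ℤ) • P = 0 := by
  have h := frob_relation_end p W K I hF hp2 hΔ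
  have := DFunLike.congr_fun h P
  exact this

end Frob

end

end Fermat.Agent.HW


end ZBHW_003_2

/-! ### bundled: `Fermat.Agent.HW.Final` -/
section ZBHW_003_3

/-!
# HW brick: the Frobenius relation `φ² − t φ + p = 0` (final statements)

For a prime `p ≠ 2`, a Weierstrass curve `W` over `ZMod p` with `Δ ≠ 0` and an algebraically closed
field `K ⊇ ZMod p`, the Frobenius endomorphism `φ` of `E(K)` (`E = W.map (algebraMap _ K)`)
satisfies `φ² − t φ + p = 0` with `t = p + 1 − #E(𝔽_p) = W.traceOfFrobenius`.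

Pieces: Defs/Plan/Par/Adapt/Main/Final (helper51), QuadForm (helper81), HeightComp + Eval
(helper44), Height + RepAdd (helper46), Count + RepFrob (helper22), RepBasic (helper81),
ChordPt (helper12).
-/

set_option autoImplicit false

open Polynomial

namespace Fermat.Agent.HW

noncomputable section

section General

variable {K : Type*} [Field K] [DecidableEq K] (E : WeierstrassCurve K)

/-- all inputs of `Par.lean`, from the landed pieces -/
theorem parInput (hyp : Hyp E) : ParInput E where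
  hyp := hyp
  existsPt := cp_stmtExistsPt E
  repId := repId E
  repNeg := repNeg E stmtRevRing (cp_stmtNegPt E)
  repEtaSq := repEtaSq E stmtRevRing stmtRevBase stmtRatExt (cp_stmtEtaSq E)
    (cp_stmtExistsPt E)
  repUnique := repUnique E stmtRatExt (cp_stmtEtaSq E) (cp_stmtExistsPt E) (cp_stmtFiberPt E)
  repNonconst := repNonconst E stmtRevBase (stmtHtConst K) (cp_stmtExistsPt E)
    (cp_stmtFiberPt E)
  repInj := repInj E (cp_stmtPtExt E) (cp_stmtExistsPt E)
  repComp := repComp E stmtRevRing stmtRevComp stmtRevFiber (cp_stmtFiberPt E)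
  repAdd := stmtRepAdd_of E stmtRevRing stmtRevBase stmtRatExt (cp_stmtEtaSq E)
    (cp_stmtChord E) (cp_stmtFiberPt E)
  repDup := stmtRepDup_of E stmtRevRing stmtRevBase stmtRevZeros (cp_stmtEtaSq E)
    (cp_stmtTangent E) (cp_stmtFiberPt E)
  sumProd := stmtSumProd E
  htComp := stmtHtComp K
  htAddSub := stmtHtAddSub E
  htDup := stmtHtDup E

/-- the represented endomorphisms form a subring, and `hdeg` is a multiplicative positive
quadratic form on it -/
theorem stmtIsReprRing : StmtIsReprRing E := fun hyp => (parInput E hyp).stmtIsReprRing hyp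

theorem stmtHdeg : StmtHdeg E := fun hyp => (parInput E hyp).stmtHdeg hyp

theorem stmtHdegEq : StmtHdegEq E := fun hyp => (parInput E hyp).stmtHdegEq hyp

end General

section Frob

variable (p : ℕ) [Fact p.Prime] (W : WeierstrassCurve (ZMod p))
  (K : Type*) [Field K] [DecidableEq K] [Algebra (ZMod p) K]

omit [DecidableEq K] in
theorem hyp_EK (hp2 : p ≠ 2) (hΔ : W.Δ ≠ 0) (hK : IsAlgClosed K) : Hyp (EK p W K) where
  algClosed := hK
  two_ne := by
    have hchar : CharP K p := charP_of_injective_algebraMap (algebraMap (ZMod p) K).injective p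
    intro h
    have h2 : ((2 : ℕ) : K) = 0 := by exact_mod_cast h
    rw [CharP.cast_eq_zero_iff K p] at h2
    have hp : p.Prime := Fact.out
    exact hp2 ((Nat.prime_dvd_prime_iff_eq hp Nat.prime_two).mp h2)
  disc_ne := by
    rw [WeierstrassCurve.map_Δ]
    exact fun h => hΔ ((algebraMap (ZMod p) K).injective (by rw [h, map_zero]))

/-- **Frobenius relation** (interface form). -/
theorem stmtFrobRelation : StmtFrobRelation p W K := by
  intro hp2 hΔ hK P
  exact frob_relation_of p W K (parInput _ (hyp_EK p W K hp2 hΔ hK))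
    (RepFrob.stmtRepFrob p W K) hp2 hΔ P

/-- **Frobenius relation** in `End E(K)`:  `φ² − t φ + p = 0`. -/
theorem frobPt_relation (hp2 : p ≠ 2) (hΔ : W.Δ ≠ 0) [hK : IsAlgClosed K] :
    frobPt p W K * frobPt p W K - W.traceOfFrobenius • frobPt p W K
      + (p : ℤ) • (1 : AddMonoid.End (EK p W K).toAffine.Point) = 0 := by
  have h := frob_relation_end p W K (parInput _ (hyp_EK p W K hp2 hΔ hK))
    (RepFrob.stmtRepFrob p W K) hp2 hΔ
  have e : W.traceOfFrobenius = (p : ℤ) + 1 - (Nat.card W.toAffine.Point : ℤ) := by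
    rw [WeierstrassCurve.traceOfFrobenius, WeierstrassCurve.card, Nat.card_eq_fintype_card,
      ZMod.card]
  rw [e]
  exact h

/-- **Frobenius relation** on points, with Mathlib's `Point.map` of the Frobenius
`x ↦ x ^ p` of `K` and the prelude's `traceOfFrobenius`:
`φ(φ P) − t • φ P + p • P = 0` for every `P ∈ E(K)`. -/
theorem frobenius_relation (hp2 : p ≠ 2) (hΔ : W.Δ ≠ 0) [IsAlgClosed K]
    (P : (WeierstrassCurve.Affine.baseChange W K).Point) :
    WeierstrassCurve.Affine.Point.map (W' := W) (FiniteField.frobeniusAlgHom (ZMod p) K)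
        (WeierstrassCurve.Affine.Point.map (W' := W) (FiniteField.frobeniusAlgHom (ZMod p) K) P)
      - W.traceOfFrobenius •
        WeierstrassCurve.Affine.Point.map (W' := W) (FiniteField.frobeniusAlgHom (ZMod p) K) P
      + (p : ℤ) • P = 0 := by
  have h := frobPt_relation p W K hp2 hΔ
  exact DFunLike.congr_fun h P

/-- the same for `frobPt` -/
theorem frobPt_relation_apply (hp2 : p ≠ 2) (hΔ : W.Δ ≠ 0) [IsAlgClosed K]
    (P : (EK p W K).toAffine.Point) :
    frobPt p W K (frobPt p W K P) - W.traceOfFrobenius • frobPt p W K P + (p : ℤ) • P = 0 := by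
  have h := frobPt_relation p W K hp2 hΔ
  exact DFunLike.congr_fun h P

end Frob

end

end Fermat.Agent.HW


end ZBHW_003_3
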