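/- GENERATED FILE (helper35, build-time optimisation, NOTES/ZB.md): verbatim concatenation of the modules
   Fermat.Agent.S13.Local.KeyAny
   Fermat.Agent.RED.Kernel
   Fermat.Agent.RED.Hom
   Fermat.Agent.S15.N3Sub
   Do not edit; do not import together with these modules. -/
import Mathlib
import Fermat.Agent.ZB.HW_003
import Fermat.Agent.ZB.S05_003

/-! ### bundled: `Fermat.Agent.S13.Local.KeyAny` -/
section ZBS13_004_0

/-!
# S13, piece P3': the key lemma in every residue characteristic (`(x, y)`-coordinates)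

`K` is a field with a valuation `v`, `W` a Weierstrass curve over `K` with integral coefficients.
Two distinct affine points `P = (x, y)`, `P' = (x', y')` with `x' ≡ x`, `y' ≡ y` modulo the maximal
ideal, such that the reduction of `P` is nonsingular (`F_y(P)` or `F_x(P)` is a unit), differ by a
point with non-integral `x`-coordinate (`key_nonsing_any`).  No hypothesis on `v 2`.
-/

set_option autoImplicit false
set_option linter.unusedSectionVars false
set_option linter.unusedVariables false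

namespace Fermat.Agent.S13

open WeierstrassCurve WeierstrassCurve.Affine

variable {K : Type*} [Field K] [DecidableEq K]
variable {Γ₀ : Type*} [LinearOrderedCommGroupWithZero Γ₀] (v : Valuation K Γ₀)

/-- `F_y = 2y + a₁x + a₃`. -/
def polyY (W : WeierstrassCurve K) (x y : K) : K := 2 * y + W.a₁ * x + W.a₃

/-- `-F_x = 3x² + 2a₂x + a₄ - a₁y`. -/
def polyX (W : WeierstrassCurve K) (x y : K) : K := 3 * x ^ 2 + 2 * W.a₂ * x + W.a₄ - W.a₁ * y

lemma sub_negY_eq_polyY (W : WeierstrassCurve K) (x y : K) :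
    y - W.toAffine.negY x y = polyY W x y := by
  simp only [polyY, Affine.negY]; ring

lemma keyAny_val_two_le : v (2 : K) ≤ 1 := by
  have : (2 : K) = 1 + 1 := by norm_num
  rw [this]
  exact v.map_add_le (le_of_eq v.map_one) (le_of_eq v.map_one)

lemma keyAny_val_three_le : v (3 : K) ≤ 1 := by
  have : (3 : K) = 2 + 1 := by norm_num
  rw [this]
  exact v.map_add_le (keyAny_val_two_le v) (le_of_eq v.map_one)

lemma keyAny_mul_le_one {a b : K} (ha : v a ≤ 1) (hb : v b ≤ 1) : v (a * b) ≤ 1 := by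
  rw [map_mul]
  calc v a * v b ≤ 1 * 1 := mul_le_mul' ha hb
    _ = 1 := one_mul 1

lemma keyAny_mul_lt_one {a b : K} (ha : v a ≤ 1) (hb : v b < 1) : v (a * b) < 1 := by
  rw [map_mul]
  calc v a * v b ≤ 1 * v b := mul_le_mul' ha le_rfl
    _ = v b := one_mul _
    _ < 1 := hb

lemma keyAny_pow_le_one {a : K} (ha : v a ≤ 1) (n : ℕ) : v (a ^ n) ≤ 1 := by
  rw [map_pow]
  exact pow_le_one₀ zero_le ha

lemma polyY_val_le {W : WeierstrassCurve K} (h₁ : v W.a₁ ≤ 1) (h₃ : v W.a₃ ≤ 1) {x y : K}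
    (hx : v x ≤ 1) (hy : v y ≤ 1) : v (polyY W x y) ≤ 1 := by
  simp only [polyY]
  exact v.map_add_le (v.map_add_le (keyAny_mul_le_one v (keyAny_val_two_le v) hy)
    (keyAny_mul_le_one v h₁ hx)) h₃

/-- Subtraction of affine points with distinct `x`, in `(x, y)`-coordinates. -/
theorem sub_xy_of_X_ne {W : WeierstrassCurve K} {x y x' y' : K}
    (h : W.toAffine.Nonsingular x y) (h' : W.toAffine.Nonsingular x' y') (hne : x' ≠ x) :
    ∃ (x'' y'' : K) (h'' : W.toAffine.Nonsingular x'' y''),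
      Point.some x' y' h' - Point.some x y h = Point.some x'' y'' h'' ∧
      x'' = ((y' - W.toAffine.negY x y) / (x' - x)) ^ 2
        + W.a₁ * ((y' - W.toAffine.negY x y) / (x' - x)) - W.a₂ - x' - x := by
  have hn : W.toAffine.Nonsingular x (W.toAffine.negY x y) := (Affine.nonsingular_neg ..).mpr h
  have hxy : ¬(x' = x ∧ y' = W.toAffine.negY x (W.toAffine.negY x y)) := fun hh => hne hh.1
  refine ⟨_, _, Affine.nonsingular_add h' hn hxy, ?_, ?_⟩
  · rw [sub_eq_add_neg (Point.some x' y' h'), Point.neg_some]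
    exact Point.add_some hxy
  · rw [Affine.slope_of_X_ne hne]
    simp only [Affine.addX]

/-- Doubling of an affine point with `F_y ≠ 0`, in `(x, y)`-coordinates. -/
theorem dbl_xy_of_polyY_ne {W : WeierstrassCurve K} {x y : K}
    (h : W.toAffine.Nonsingular x y) (hη : polyY W x y ≠ 0) :
    ∃ (x'' y'' : K) (h'' : W.toAffine.Nonsingular x'' y''),
      Point.some x y h + Point.some x y h = Point.some x'' y'' h'' ∧
      x'' = (polyX W x y / polyY W x y) ^ 2
        + W.a₁ * (polyX W x y / polyY W x y) - W.a₂ - x - x := by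
  have hy : y ≠ W.toAffine.negY x y := by
    intro hy
    apply hη
    rw [← sub_negY_eq_polyY, sub_eq_zero]
    exact hy
  have hxy : ¬(x = x ∧ y = W.toAffine.negY x y) := fun hh => hy hh.2
  refine ⟨_, _, Affine.nonsingular_add h h hxy, Point.add_some hxy, ?_⟩
  rw [Affine.slope_of_Y_ne rfl hy, sub_negY_eq_polyY]
  simp only [Affine.addX, polyX]

/-- A non-integral slope gives a non-integral `x`-coordinate. -/
lemma keyAny_addX_val {W : WeierstrassCurve K} (h₁ : v W.a₁ ≤ 1) (h₂ : v W.a₂ ≤ 1)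
    {x x' l : K} (hx : v x ≤ 1) (hx' : v x' ≤ 1) (hl : 1 < v l) :
    1 < v (l ^ 2 + W.a₁ * l - W.a₂ - x' - x) := by
  have hl0 : 0 < v l := lt_trans zero_lt_one hl
  have hl2 : v l < v (l ^ 2) := by
    rw [map_pow, sq]
    calc v l = 1 * v l := (one_mul _).symm
      _ < v l * v l := mul_lt_mul_of_pos_right hl hl0
  have h1l2 : 1 < v (l ^ 2) := lt_trans hl hl2
  have ha : v (W.a₁ * l) < v (l ^ 2) := by
    rw [map_mul]
    calc v W.a₁ * v l ≤ 1 * v l := mul_le_mul' h₁ le_rfl
      _ = v l := one_mul _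
      _ < v (l ^ 2) := hl2
  have e1 : v (l ^ 2 + W.a₁ * l) = v (l ^ 2) := v.map_add_eq_of_lt_left ha
  have e2 : v (l ^ 2 + W.a₁ * l - W.a₂) = v (l ^ 2) := by
    rw [v.map_sub_eq_of_lt_left (by rw [e1]; exact lt_of_le_of_lt h₂ h1l2), e1]
  have e3 : v (l ^ 2 + W.a₁ * l - W.a₂ - x') = v (l ^ 2) := by
    rw [v.map_sub_eq_of_lt_left (by rw [e2]; exact lt_of_le_of_lt hx' h1l2), e2]
  rw [v.map_sub_eq_of_lt_left (by rw [e3]; exact lt_of_le_of_lt hx h1l2), e3]
  exact h1l2

/-- **Slope criterion** in `(x, y)`-coordinates, any residue characteristic. -/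
theorem key_of_slope_any {W : WeierstrassCurve K} (h₁ : v W.a₁ ≤ 1) (h₂ : v W.a₂ ≤ 1)
    {x y x' y' : K} (h : W.toAffine.Nonsingular x y) (h' : W.toAffine.Nonsingular x' y')
    (hx : v x ≤ 1) (hx' : v x' ≤ 1) (hne : x' ≠ x)
    (hlt : v (x' - x) < v (y' - W.toAffine.negY x y)) :
    ∃ (x'' y'' : K) (h'' : W.toAffine.Nonsingular x'' y''),
      Point.some x' y' h' - Point.some x y h = Point.some x'' y'' h'' ∧ 1 < v x'' := by
  obtain ⟨x₃, y₃, h₃, hsub, hX⟩ := sub_xy_of_X_ne h h' hne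
  refine ⟨x₃, y₃, h₃, hsub, ?_⟩
  have hd0 : 0 < v (x' - x) := by
    rw [v.pos_iff]; exact sub_ne_zero.2 hne
  have hsl : 1 < v ((y' - W.toAffine.negY x y) / (x' - x)) := by
    rw [map_div₀]
    exact (one_lt_div₀ hd0).2 hlt
  rw [hX]
  exact keyAny_addX_val v h₁ h₂ hx hx' hsl

/-- **Key lemma, nonsingular reduction, any residue characteristic.** -/
theorem key_nonsing_any {W : WeierstrassCurve K} (h₁ : v W.a₁ ≤ 1) (h₂ : v W.a₂ ≤ 1)
    (h₃ : v W.a₃ ≤ 1)
    {x y x' y' : K} (h : W.toAffine.Nonsingular x y) (h' : W.toAffine.Nonsingular x' y')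
    (hx : v x ≤ 1) (hy : v y ≤ 1)
    (hxx : v (x' - x) < 1) (hyy : v (y' - y) < 1)
    (hne : Point.some x' y' h' ≠ Point.some x y h)
    (hns : v (polyY W x y) = 1 ∨ v (polyX W x y) = 1) :
    ∃ (x'' y'' : K) (h'' : W.toAffine.Nonsingular x'' y''),
      Point.some x' y' h' - Point.some x y h = Point.some x'' y'' h'' ∧ 1 < v x'' := by
  have hx' : v x' ≤ 1 := by
    have : x' = (x' - x) + x := by ring
    rw [this]; exact v.map_add_le hxx.le hx
  have hηle : v (polyY W x y) ≤ 1 := polyY_val_le v h₁ h₃ hx hy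
  have hd : v (polyY W x y) < 1 → v (polyX W x y) = 1 := by
    intro hlt
    rcases hns with h1 | h1
    · exact absurd h1 hlt.ne
    · exact h1
  by_cases hxe : x' = x
  · -- then `y' = negY x y`, and `P' - P = -(P + P)`
    have hxe' : x = x' := hxe.symm
    subst hxe'
    have hyy' : y' = W.toAffine.negY x y := by
      rcases Affine.Y_eq_of_X_eq h'.1 h.1 rfl with h1 | h1
      · subst h1; exact absurd rfl hne
      · exact h1
    subst hyy'
    have hP' : Point.some x (W.toAffine.negY x y) h' = -Point.some x y h := by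
      rw [Point.neg_some]
    have hηlt : v (polyY W x y) < 1 := by
      have : W.toAffine.negY x y - y = -polyY W x y := by
        rw [← sub_negY_eq_polyY]; ring
      rw [this, v.map_neg] at hyy
      exact hyy
    have hη0 : polyY W x y ≠ 0 := by
      intro h0
      apply hne
      have : y = W.toAffine.negY x y := by
        rw [← sub_eq_zero, sub_negY_eq_polyY]; exact h0
      rw [hP', Point.neg_some]
      congr 1
      exact this.symm
    obtain ⟨x₃, y₃, h₃', hadd, hX⟩ := dbl_xy_of_polyY_ne h hη0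
    have hsub : Point.some x (W.toAffine.negY x y) h' - Point.some x y h =
        Point.some x₃ (W.toAffine.negY x₃ y₃) ((Affine.nonsingular_neg ..).mpr h₃') := by
      have hneg3 : Point.some x₃ (W.toAffine.negY x₃ y₃) ((Affine.nonsingular_neg ..).mpr h₃') =
          -(Point.some x y h + Point.some x y h) := by
        rw [hadd, Point.neg_some]
      rw [hP', hneg3]
      abel
    refine ⟨_, _, _, hsub, ?_⟩
    have hη0' : 0 < v (polyY W x y) := by rw [v.pos_iff]; exact hη0
    have hsl : 1 < v (polyX W x y / polyY W x y) := by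
      rw [map_div₀, hd hηlt]
      exact (one_lt_div₀ hη0').2 hηlt
    rw [hX]
    exact keyAny_addX_val v h₁ h₂ hx hx hsl
  · apply key_of_slope_any v h₁ h₂ h h' hx hx' hxe
    have hd0 : 0 < v (x' - x) := by
      rw [v.pos_iff]; exact sub_ne_zero.2 hxe
    have hD : y' - W.toAffine.negY x y = (y' - y) + polyY W x y := by
      rw [← sub_negY_eq_polyY]; ring
    by_cases hη1 : v (polyY W x y) = 1
    · rw [hD, v.map_add_eq_of_lt_right (by rw [hη1]; exact hyy), hη1]
      exact hxx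
    · have hηlt : v (polyY W x y) < 1 := lt_of_le_of_ne hηle hη1
      have hFx := hd hηlt
      -- `Q = x'² + x'x + x² + a₂(x' + x) + a₄ - a₁y` is a unit
      have hQ : v (x' ^ 2 + x' * x + x ^ 2 + W.a₂ * (x' + x) + W.a₄ - W.a₁ * y) = 1 := by
        have e : x' ^ 2 + x' * x + x ^ 2 + W.a₂ * (x' + x) + W.a₄ - W.a₁ * y =
            polyX W x y + (x' - x) * (x' + 2 * x + W.a₂) := by
          simp only [polyX]; ring
        have hsm : v ((x' - x) * (x' + 2 * x + W.a₂)) < 1 := by
          rw [mul_comm]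
          apply keyAny_mul_lt_one v _ hxx
          exact v.map_add_le (v.map_add_le hx' (keyAny_mul_le_one v (keyAny_val_two_le v) hx)) h₂
        rw [e, v.map_add_eq_of_lt_left (by rw [hFx]; exact hsm), hFx]
      have hprod : v (y' - y) * v (y' + y + W.a₁ * x' + W.a₃) = v (x' - x) := by
        rw [← map_mul, ← mul_one (v (x' - x)), ← hQ, ← map_mul]
        congr 1
        have e := (Affine.equation_iff x y).1 h.1
        have e' := (Affine.equation_iff x' y').1 h'.1
        linear_combination e' - e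
      by_contra hcon
      rw [not_lt] at hcon
      have hD' : y' + y + W.a₁ * x' + W.a₃ =
          (y' - W.toAffine.negY x y) + W.a₁ * (x' - x) := by
        simp only [Affine.negY]; ring
      have hle : v (y' + y + W.a₁ * x' + W.a₃) ≤ v (x' - x) := by
        rw [hD']
        apply v.map_add_le hcon
        rw [map_mul]
        calc v W.a₁ * v (x' - x) ≤ 1 * v (x' - x) := mul_le_mul' h₁ le_rfl
          _ = v (x' - x) := one_mul _
      have : v (x' - x) < v (x' - x) := by
        calc v (x' - x) = v (y' - y) * v (y' + y + W.a₁ * x' + W.a₃) := hprod.symm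
          _ ≤ v (y' - y) * v (x' - x) := mul_le_mul' le_rfl hle
          _ < 1 * v (x' - x) := mul_lt_mul_of_pos_right hyy hd0
          _ = v (x' - x) := one_mul _
      exact lt_irrefl _ this

end Fermat.Agent.S13


end ZBS13_004_0

/-! ### bundled: `Fermat.Agent.RED.Kernel` -/
section ZBS13_004_1

/-!
# Brick RED, steps F2, F3, F4: the kernel of reduction

* `sub_inKer_of_res_eq` (F2): two integral points with the same reduction differ by a point of
  the kernel (from `Fermat.Agent.S13.key_nonsing_any`).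
* `add_ker_x` (F4): adding a nonzero point of the kernel to an integral point gives an integral
  point with the same `x`-coordinate modulo the maximal ideal (x-only formulas).
* `inKer_add` (F3): the kernel is closed under addition.
-/

set_option autoImplicit false
set_option linter.unusedSectionVars false

namespace Fermat.Agent.RED

open WeierstrassCurve Fermat.Agent.S05

variable {K : Type*} [Field K] [DecidableEq K] {A : ValuationSubring K}
  {W₀ : WeierstrassCurve A}

/-- membership in `A` in terms of the valuation -/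
theorem val_le_one_of_mem {x : K} (hx : x ∈ A) : A.valuation x ≤ 1 :=
  (A.valuation_le_one_iff x).2 hx

theorem residue_eq_iff_sub_mem_nonunits {a b : A} :
    IsLocalRing.residue A a = IsLocalRing.residue A b ↔ ((a : K) - (b : K)) ∈ A.nonunits := by
  rw [← sub_eq_zero, ← map_sub, IsLocalRing.residue_eq_zero_iff]
  have : ((a : K) - (b : K)) = ((a - b : A) : K) := by push_cast; rfl
  rw [this, ValuationSubring.coe_mem_nonunits_iff]

theorem residue_ne_zero_iff_val_eq_one {a : A} :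
    IsLocalRing.residue A a ≠ 0 ↔ A.valuation (a : K) = 1 := by
  rw [IsLocalRing.residue_ne_zero_iff_isUnit, ValuationSubring.valuation_eq_one_iff]

/-- **F2.**  Two distinct integral points with the same reduction differ by a nonzero point
of the kernel of reduction. -/
theorem sub_inKer_of_res_eq (hΔ : IsUnit W₀.Δ) {a₁ b₁ a₂ b₂ : A}
    (h₁ : (curveK A W₀).toAffine.Nonsingular (a₁ : K) (b₁ : K))
    (h₂ : (curveK A W₀).toAffine.Nonsingular (a₂ : K) (b₂ : K))
    (hx : IsLocalRing.residue A a₁ = IsLocalRing.residue A a₂)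
    (hy : IsLocalRing.residue A b₁ = IsLocalRing.residue A b₂) :
    InKer (Affine.Point.some _ _ h₁ - Affine.Point.some _ _ h₂) := by
  by_cases hne : Affine.Point.some _ _ h₁ = Affine.Point.some _ _ h₂
  · rw [hne, sub_self]; exact inKer_zero
  · -- nonsingularity of the reduction of the second point
    have hns := nonsingular_res hΔ h₂.1
    rw [Affine.nonsingular_iff'] at hns
    have hns' : A.valuation (Fermat.Agent.S13.polyY (curveK A W₀) (a₂ : K) (b₂ : K)) = 1 ∨
        A.valuation (Fermat.Agent.S13.polyX (curveK A W₀) (a₂ : K) (b₂ : K)) = 1 := by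
      rcases hns.2 with h | h
      · right
        have e : Fermat.Agent.S13.polyX (curveK A W₀) (a₂ : K) (b₂ : K) =
            ((3 * a₂ ^ 2 + 2 * W₀.a₂ * a₂ + W₀.a₄ - W₀.a₁ * b₂ : A) : K) := by
          simp only [Fermat.Agent.S13.polyX]; push_cast; rfl
        rw [e, ← residue_ne_zero_iff_val_eq_one]
        intro h0
        apply h
        have : (curveRes A W₀).a₁ * IsLocalRing.residue A b₂
            - (3 * IsLocalRing.residue A a₂ ^ 2 + 2 * (curveRes A W₀).a₂ * IsLocalRing.residue A a₂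
              + (curveRes A W₀).a₄)
            = -IsLocalRing.residue A (3 * a₂ ^ 2 + 2 * W₀.a₂ * a₂ + W₀.a₄ - W₀.a₁ * b₂) := by
          simp only [map_sub, map_add, map_mul, map_pow, map_ofNat]
          have e₂ : (curveRes A W₀).a₂ = IsLocalRing.residue A W₀.a₂ := rfl
          have e₄ : (curveRes A W₀).a₄ = IsLocalRing.residue A W₀.a₄ := rfl
          have e₁ : (curveRes A W₀).a₁ = IsLocalRing.residue A W₀.a₁ := rfl
          rw [e₁, e₂, e₄]
          ring
        rw [this, h0, neg_zero]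
      · left
        have e : Fermat.Agent.S13.polyY (curveK A W₀) (a₂ : K) (b₂ : K) =
            ((2 * b₂ + W₀.a₁ * a₂ + W₀.a₃ : A) : K) := by
          simp only [Fermat.Agent.S13.polyY]; push_cast; rfl
        rw [e, ← residue_ne_zero_iff_val_eq_one]
        intro h0
        apply h
        have : 2 * IsLocalRing.residue A b₂ + (curveRes A W₀).a₁ * IsLocalRing.residue A a₂
            + (curveRes A W₀).a₃ = IsLocalRing.residue A (2 * b₂ + W₀.a₁ * a₂ + W₀.a₃) := by
          simp only [map_add, map_mul, map_ofNat]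
          rfl
        rw [this, h0]
    obtain ⟨x'', y'', h'', hsub, hlt⟩ :=
      Fermat.Agent.S13.key_nonsing_any A.valuation
        (val_le_one_of_mem (curveK_a₁_mem A W₀)) (val_le_one_of_mem (curveK_a₂_mem A W₀))
        (val_le_one_of_mem (curveK_a₃_mem A W₀)) h₂ h₁
        (val_le_one_of_mem a₂.2) (val_le_one_of_mem b₂.2)
        (A.mem_nonunits_iff.1 (residue_eq_iff_sub_mem_nonunits.1 hx))
        (A.mem_nonunits_iff.1 (residue_eq_iff_sub_mem_nonunits.1 hy)) hne hns'
    rw [hsub, inKer_some_iff]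
    intro hmem
    exact absurd (val_le_one_of_mem hmem) (not_le.2 hlt)

/-- **F4.**  Adding a nonzero point of the kernel to an integral point: the sum is integral with
the same `x`-coordinate modulo the maximal ideal. -/
theorem add_ker_x {x₁ y₁ x₂ y₂ : K}
    (h₁ : (curveK A W₀).toAffine.Nonsingular x₁ y₁)
    (h₂ : (curveK A W₀).toAffine.Nonsingular x₂ y₂) (hx₁ : x₁ ∈ A) (hx₂ : x₂ ∉ A) :
    ∃ (X Y : K) (h : (curveK A W₀).toAffine.Nonsingular X Y),
      Affine.Point.some _ _ h₁ + Affine.Point.some _ _ h₂ = Affine.Point.some X Y h ∧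
      X ∈ A ∧ X - x₁ ∈ A.nonunits := by
  have hx : x₁ ≠ x₂ := fun h => hx₂ (h ▸ hx₁)
  obtain ⟨Xp, Yp, Xm, Ym, hp, hm, hadd, hsub, hmul, hsum⟩ := xo_add_sub_points h₁ h₂ hx
  obtain ⟨hb₂, hb₄, hb₆, hb₈⟩ := kernel_b_mem (W := curveK A W₀) A (curveK_a₁_mem A W₀)
    (curveK_a₂_mem A W₀) (curveK_a₃_mem A W₀) (curveK_a₄_mem A W₀) (curveK_a₆_mem A W₀)
  obtain ⟨hx₂0, hu⟩ := vs_inv_of_not_mem A hx₂
  set u : K := x₂⁻¹ with hudef
  have huA : u ∈ A := vs_mem_of_nonunits A hu
  have hxu : x₂ * u = 1 := mul_inv_cancel₀ hx₂0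
  -- `t = 1 - x₁ u` is a unit
  have hts : -(x₁ * u) ∈ A.nonunits := neg_mem (vs_mul_mem_nonunits A hx₁ hu)
  obtain ⟨ht0, htA, htinvA⟩ := vs_one_add A hts
  set t : K := 1 + -(x₁ * u) with htdef
  have htinv1 : t⁻¹ - 1 ∈ A.nonunits := by
    have : t⁻¹ - 1 = t⁻¹ * (x₁ * u) := by
      field_simp
      rw [htdef]; ring
    rw [this]
    exact vs_mul_mem_nonunits A htinvA (vs_mul_mem_nonunits A hx₁ hu)
  have hd2 : (x₁ - x₂) ^ 2 ≠ 0 := pow_ne_zero 2 (sub_ne_zero.2 hx)
  -- the sum and the product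
  set s : K := Xp + Xm with hsdef
  set p : K := Xp * Xm with hpdef
  set G' : K := 2 * x₁ * (x₁ * u + 1) + (curveK A W₀).b₂ * (x₁ * u)
    + (curveK A W₀).b₄ * (x₁ * u ^ 2 + u) + (curveK A W₀).b₆ * u ^ 2 with hG'
  set F' : K := x₁ ^ 2 - (curveK A W₀).b₄ * (x₁ * u) - (curveK A W₀).b₆ * (x₁ * u ^ 2 + u)
    - (curveK A W₀).b₈ * u ^ 2 with hF'
  have hsG : s = G' * (t⁻¹) ^ 2 := by
    have e1 : s = xoG (curveK A W₀) x₁ x₂ / (x₁ - x₂) ^ 2 := by
      rw [eq_div_iff hd2]; exact hsum
    rw [e1, hG', htdef, hudef]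
    simp only [xoG]
    have hne : x₂ - x₁ ≠ 0 := sub_ne_zero.2 (Ne.symm hx)
    have hne' : x₁ - x₂ ≠ 0 := sub_ne_zero.2 hx
    have ht' : (1 + -(x₁ * x₂⁻¹)) = (x₂ - x₁) / x₂ := by field_simp; ring
    rw [ht']
    field_simp
    ring
  have hpF : p = F' * (t⁻¹) ^ 2 := by
    have e1 : p = xoF (curveK A W₀) x₁ x₂ / (x₁ - x₂) ^ 2 := by
      rw [eq_div_iff hd2]; exact hmul
    rw [e1, hF', htdef, hudef]
    simp only [xoF]
    have hne : x₂ - x₁ ≠ 0 := sub_ne_zero.2 (Ne.symm hx)
    have hne' : x₁ - x₂ ≠ 0 := sub_ne_zero.2 hx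
    have ht' : (1 + -(x₁ * x₂⁻¹)) = (x₂ - x₁) / x₂ := by field_simp; ring
    rw [ht']
    field_simp
    ring
  have hG'A : G' ∈ A := by
    rw [hG']
    exact add_mem (add_mem (add_mem (mul_mem (mul_mem (ofNat_mem A 2) hx₁)
      (add_mem (mul_mem hx₁ huA) A.one_mem)) (mul_mem hb₂ (mul_mem hx₁ huA)))
      (mul_mem hb₄ (add_mem (mul_mem hx₁ (pow_mem huA 2)) huA))) (mul_mem hb₆ (pow_mem huA 2))
  have hF'A : F' ∈ A := by
    rw [hF']
    exact sub_mem (sub_mem (sub_mem (pow_mem hx₁ 2) (mul_mem hb₄ (mul_mem hx₁ huA)))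
      (mul_mem hb₆ (add_mem (mul_mem hx₁ (pow_mem huA 2)) huA))) (mul_mem hb₈ (pow_mem huA 2))
  have hu2 : u ^ 2 ∈ A.nonunits := by
    rw [pow_two]; exact vs_mul_mem_nonunits A huA hu
  have hG'2 : G' - 2 * x₁ ∈ A.nonunits := by
    have : G' - 2 * x₁ = u * (2 * x₁ * x₁ + (curveK A W₀).b₂ * x₁
        + (curveK A W₀).b₄ * (x₁ * u + 1) + (curveK A W₀).b₆ * u) := by
      rw [hG']; ring
    rw [this]
    refine vs_mul_mem_nonunits' A hu ?_
    exact add_mem (add_mem (add_mem (mul_mem (mul_mem (ofNat_mem A 2) hx₁) hx₁) (mul_mem hb₂ hx₁))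
      (mul_mem hb₄ (add_mem (mul_mem hx₁ huA) A.one_mem))) (mul_mem hb₆ huA)
  have hF'2 : F' - x₁ ^ 2 ∈ A.nonunits := by
    have : F' - x₁ ^ 2 = u * (-((curveK A W₀).b₄ * x₁) - (curveK A W₀).b₆ * (x₁ * u + 1)
        - (curveK A W₀).b₈ * u) := by
      rw [hF']; ring
    rw [this]
    refine vs_mul_mem_nonunits' A hu ?_
    exact sub_mem (sub_mem (neg_mem (mul_mem hb₄ hx₁))
      (mul_mem hb₆ (add_mem (mul_mem hx₁ huA) A.one_mem))) (mul_mem hb₈ huA)
  have htinv2A : (t⁻¹) ^ 2 ∈ A := pow_mem htinvA 2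
  have htinv2 : (t⁻¹) ^ 2 - 1 ∈ A.nonunits := by
    have : (t⁻¹) ^ 2 - 1 = (t⁻¹ - 1) * (t⁻¹ + 1) := by ring
    rw [this]
    exact vs_mul_mem_nonunits' A htinv1 (add_mem htinvA A.one_mem)
  have hsA : s ∈ A := by rw [hsG]; exact mul_mem hG'A htinv2A
  have hpA : p ∈ A := by rw [hpF]; exact mul_mem hF'A htinv2A
  have hs2 : s - 2 * x₁ ∈ A.nonunits := by
    have : s - 2 * x₁ = G' * ((t⁻¹) ^ 2 - 1) + (G' - 2 * x₁) := by rw [hsG]; ring
    rw [this]
    exact add_mem (vs_mul_mem_nonunits A hG'A htinv2) hG'2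
  have hp2 : p - x₁ ^ 2 ∈ A.nonunits := by
    have : p - x₁ ^ 2 = F' * ((t⁻¹) ^ 2 - 1) + (F' - x₁ ^ 2) := by rw [hpF]; ring
    rw [this]
    exact add_mem (vs_mul_mem_nonunits A hF'A htinv2) hF'2
  -- `Xp` is integral
  have hXpA : Xp ∈ A := by
    by_contra hXp
    obtain ⟨hXp0, hw⟩ := vs_inv_of_not_mem A hXp
    have hwA := vs_mem_of_nonunits A hw
    have key : (1 : K) = s * Xp⁻¹ - p * (Xp⁻¹) ^ 2 := by
      rw [hsdef, hpdef]
      field_simp
      ring
    have hmem : s * Xp⁻¹ - p * (Xp⁻¹) ^ 2 ∈ A.nonunits := by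
      refine sub_mem (vs_mul_mem_nonunits A hsA hw) (vs_mul_mem_nonunits A hpA ?_)
      rw [pow_two]; exact vs_mul_mem_nonunits A hwA hw
    rw [← key] at hmem
    have : A.valuation (1 : K) < 1 := A.mem_nonunits_iff.1 hmem
    rw [map_one] at this
    exact lt_irrefl _ this
  have hXmA : Xm ∈ A := by
    have : Xm = s - Xp := by rw [hsdef]; ring
    rw [this]; exact sub_mem hsA hXpA
  have hprod : (Xp - x₁) * (Xm - x₁) ∈ A.nonunits := by
    have : (Xp - x₁) * (Xm - x₁) = (p - x₁ ^ 2) - x₁ * (s - 2 * x₁) := by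
      rw [hsdef, hpdef]; ring
    rw [this]
    exact sub_mem hp2 (vs_mul_mem_nonunits A hx₁ hs2)
  refine ⟨Xp, Yp, hp, hadd, hXpA, ?_⟩
  rcases vs_prime A (sub_mem hXpA hx₁) (sub_mem hXmA hx₁) hprod with h | h
  · exact h
  · have : Xp - x₁ = (s - 2 * x₁) - (Xm - x₁) := by rw [hsdef]; ring
    rw [this]
    exact sub_mem hs2 h

/-- **F3.**  The kernel of reduction is closed under addition. -/
theorem inKer_add {P Q : (curveK A W₀).toAffine.Point} (hP : InKer P) (hQ : InKer Q) :
    InKer (P + Q) := by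
  rcases P with _ | ⟨x₁, y₁, h₁⟩
  · have : (Affine.Point.zero : (curveK A W₀).toAffine.Point) = 0 := rfl
    rw [this, zero_add]; exact hQ
  rcases Q with _ | ⟨x₂, y₂, h₂⟩
  · have : (Affine.Point.zero : (curveK A W₀).toAffine.Point) = 0 := rfl
    rw [this, add_zero]; exact hP
  rw [inKer_some_iff] at hP hQ
  -- the sum
  rcases hR : Affine.Point.some _ _ h₁ + Affine.Point.some _ _ h₂ with _ | ⟨X, Y, h⟩
  · exact inKer_zero
  · rw [inKer_some_iff]
    intro hX
    -- `P = R + (-Q)` would be integral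
    have hnegQ : (curveK A W₀).toAffine.Nonsingular x₂ ((curveK A W₀).toAffine.negY x₂ y₂) :=
      (Affine.nonsingular_neg ..).mpr h₂
    obtain ⟨X', Y', h', hadd, hX', -⟩ := add_ker_x h hnegQ hX hQ
    have hneg : Affine.Point.some x₂ ((curveK A W₀).toAffine.negY x₂ y₂) hnegQ =
        -Affine.Point.some x₂ y₂ h₂ := (Affine.Point.neg_some h₂).symm
    rw [hneg, ← hR] at hadd
    have hP' : Affine.Point.some _ _ h₁ = Affine.Point.some X' Y' h' := by
      rw [← hadd]
      abel
    have hxe : x₁ = X' := by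
      injection hP'
    exact hP (hxe ▸ hX')

end Fermat.Agent.RED


end ZBS13_004_1

/-! ### bundled: `Fermat.Agent.RED.Hom` -/
section ZBS13_004_2

/-!
# Brick RED: the reduction map is a homomorphism

`Fermat.Agent.RED.red hΔ : (curveK A W₀).toAffine.Point →+ (curveRes A W₀).toAffine.Point`,
with kernel `{P | InKer P}` (`red_eq_zero_iff`).
-/

set_option autoImplicit false
set_option linter.unusedSectionVars false

namespace Fermat.Agent.RED

open WeierstrassCurve

variable {K : Type*} [Field K] [DecidableEq K] {A : ValuationSubring K}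
  [DecidableEq (IsLocalRing.ResidueField A)] {W₀ : WeierstrassCurve A}

theorem coe_negY (a b : A) :
    ((W₀.toAffine.negY a b : A) : K) = (curveK A W₀).toAffine.negY (a : K) (b : K) :=
  (Affine.map_negY (W' := W₀) A.subtype a b).symm

theorem residue_negY (a b : A) :
    IsLocalRing.residue A (W₀.toAffine.negY a b) =
      (curveRes A W₀).toAffine.negY (IsLocalRing.residue A a) (IsLocalRing.residue A b) :=
  (Affine.map_negY (W' := W₀) (IsLocalRing.residue A) a b).symm

/-- the opposite of an integral point, in coordinates of `A` -/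
theorem neg_some_coe {a b : A} (h : (curveK A W₀).toAffine.Nonsingular (a : K) (b : K)) :
    ∃ h' : (curveK A W₀).toAffine.Nonsingular (a : K) ((W₀.toAffine.negY a b : A) : K),
      -Affine.Point.some _ _ h = Affine.Point.some _ _ h' := by
  have h0 : (curveK A W₀).toAffine.Nonsingular (a : K)
      ((curveK A W₀).toAffine.negY (a : K) (b : K)) := (Affine.nonsingular_neg ..).mpr h
  have h' : (curveK A W₀).toAffine.Nonsingular (a : K) ((W₀.toAffine.negY a b : A) : K) := by
    rw [coe_negY]; exact h0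
  refine ⟨h', ?_⟩
  rw [Affine.Point.neg_some]
  exact some_congr _ _ rfl (coe_negY a b).symm

/-- Two integral points. -/
theorem redPt_add_int_int (hΔ : IsUnit W₀.Δ) {a₁ b₁ a₂ b₂ : A}
    (h₁ : (curveK A W₀).toAffine.Nonsingular (a₁ : K) (b₁ : K))
    (h₂ : (curveK A W₀).toAffine.Nonsingular (a₂ : K) (b₂ : K)) :
    redPt hΔ (Affine.Point.some _ _ h₁ + Affine.Point.some _ _ h₂) =
      redPt hΔ (Affine.Point.some _ _ h₁) + redPt hΔ (Affine.Point.some _ _ h₂) := by
  by_cases hne : IsLocalRing.residue A a₁ = IsLocalRing.residue A a₂ ∧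
      IsLocalRing.residue A b₁ = (curveRes A W₀).toAffine.negY (IsLocalRing.residue A a₂)
        (IsLocalRing.residue A b₂)
  · obtain ⟨hx, hy⟩ := hne
    rw [redPt_coe hΔ h₁, redPt_coe hΔ h₂, Affine.Point.add_of_Y_eq hx hy]
    rw [redPt_eq_zero_iff]
    obtain ⟨h₂', hneg⟩ := neg_some_coe h₂
    have hker := sub_inKer_of_res_eq hΔ h₁ h₂' hx (by rw [hy, residue_negY])
    rw [← hneg, sub_neg_eq_add] at hker
    exact hker
  · exact redPt_add_of_ne hΔ h₁ h₂ hne

/-- An integral point plus a nonzero point of the kernel. -/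
theorem redPt_add_int_ker (hΔ : IsUnit W₀.Δ) {a b : A} {x₂ y₂ : K}
    (h₁ : (curveK A W₀).toAffine.Nonsingular (a : K) (b : K))
    (h₂ : (curveK A W₀).toAffine.Nonsingular x₂ y₂) (hx₂ : x₂ ∉ A) :
    redPt hΔ (Affine.Point.some _ _ h₁ + Affine.Point.some _ _ h₂) =
      redPt hΔ (Affine.Point.some _ _ h₁) + redPt hΔ (Affine.Point.some _ _ h₂) := by
  obtain ⟨X, Y, h, hadd, hXA, hXx⟩ := add_ker_x h₁ h₂ a.2 hx₂
  rw [redPt_some_of_not_mem hΔ h₂ hx₂, add_zero, hadd]
  have hYA : Y ∈ A := y_mem_of_x_mem A W₀ h.1 hXA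
  -- name the coordinates
  obtain ⟨c, hc⟩ : ∃ c : A, (c : K) = X := ⟨⟨X, hXA⟩, rfl⟩
  obtain ⟨d, hd⟩ : ∃ d : A, (d : K) = Y := ⟨⟨Y, hYA⟩, rfl⟩
  subst hc; subst hd
  rw [redPt_coe hΔ h, redPt_coe hΔ h₁]
  have hca : IsLocalRing.residue A c = IsLocalRing.residue A a :=
    residue_eq_iff_sub_mem_nonunits.2 hXx
  have ec := nonsingular_res hΔ h.1
  have ea := nonsingular_res hΔ h₁.1
  by_cases hdb : IsLocalRing.residue A d = IsLocalRing.residue A b
  · exact some_congr _ _ hca hdb
  · exfalso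
    -- `R + (-P) = Q` with `R`, `-P` integral and non-opposite reductions
    obtain ⟨h₁', hneg⟩ := neg_some_coe h₁
    have hne : ¬(IsLocalRing.residue A c = IsLocalRing.residue A a ∧
        IsLocalRing.residue A d = (curveRes A W₀).toAffine.negY (IsLocalRing.residue A a)
          (IsLocalRing.residue A (W₀.toAffine.negY a b))) := by
      rintro ⟨-, hy⟩
      rw [residue_negY, Affine.negY_negY] at hy
      exact hdb hy
    have hF1 := redPt_add_of_ne hΔ h h₁' hne
    have hQ : Affine.Point.some _ _ h + Affine.Point.some _ _ h₁' = Affine.Point.some _ _ h₂ := by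
      rw [← hneg, ← hadd]
      abel
    rw [hQ, redPt_some_of_not_mem hΔ h₂ hx₂, redPt_coe hΔ h, redPt_coe hΔ h₁',
      Affine.Point.add_some hne] at hF1
    exact Affine.Point.some_ne_zero _ hF1.symm

/-- **The reduction map is additive.** -/
theorem redPt_add (hΔ : IsUnit W₀.Δ) (P Q : (curveK A W₀).toAffine.Point) :
    redPt hΔ (P + Q) = redPt hΔ P + redPt hΔ Q := by
  rcases P with _ | ⟨x₁, y₁, h₁⟩
  · have : (Affine.Point.zero : (curveK A W₀).toAffine.Point) = 0 := rfl
    rw [this, zero_add, redPt_zero, zero_add]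
  rcases Q with _ | ⟨x₂, y₂, h₂⟩
  · have : (Affine.Point.zero : (curveK A W₀).toAffine.Point) = 0 := rfl
    rw [this, add_zero, redPt_zero, add_zero]
  by_cases hx₁ : x₁ ∈ A
  · have hy₁ : y₁ ∈ A := y_mem_of_x_mem A W₀ h₁.1 hx₁
    by_cases hx₂ : x₂ ∈ A
    · have hy₂ : y₂ ∈ A := y_mem_of_x_mem A W₀ h₂.1 hx₂
      exact redPt_add_int_int hΔ (a₁ := ⟨x₁, hx₁⟩) (b₁ := ⟨y₁, hy₁⟩) (a₂ := ⟨x₂, hx₂⟩)
        (b₂ := ⟨y₂, hy₂⟩) h₁ h₂
    · exact redPt_add_int_ker hΔ (a := ⟨x₁, hx₁⟩) (b := ⟨y₁, hy₁⟩) h₁ h₂ hx₂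
  · by_cases hx₂ : x₂ ∈ A
    · have hy₂ : y₂ ∈ A := y_mem_of_x_mem A W₀ h₂.1 hx₂
      rw [add_comm, add_comm (redPt hΔ _)]
      exact redPt_add_int_ker hΔ (a := ⟨x₂, hx₂⟩) (b := ⟨y₂, hy₂⟩) h₂ h₁ hx₁
    · have hker := inKer_add (P := Affine.Point.some _ _ h₁) (Q := Affine.Point.some _ _ h₂)
        hx₁ hx₂
      rw [(redPt_eq_zero_iff hΔ _).2 hker, redPt_some_of_not_mem hΔ h₁ hx₁,
        redPt_some_of_not_mem hΔ h₂ hx₂, add_zero]

/-- **The reduction homomorphism** at a place of good reduction. -/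
noncomputable def red (hΔ : IsUnit W₀.Δ) :
    (curveK A W₀).toAffine.Point →+ (curveRes A W₀).toAffine.Point where
  toFun := redPt hΔ
  map_zero' := rfl
  map_add' := redPt_add hΔ

@[simp] theorem red_apply (hΔ : IsUnit W₀.Δ) (P : (curveK A W₀).toAffine.Point) :
    red hΔ P = redPt hΔ P := rfl

theorem red_eq_zero_iff (hΔ : IsUnit W₀.Δ) (P : (curveK A W₀).toAffine.Point) :
    red hΔ P = 0 ↔ InKer P := redPt_eq_zero_iff hΔ P

/-- The kernel of reduction has no `n`-torsion for `n` a unit of `A`. -/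
theorem eq_zero_of_red_eq_zero_of_nsmul (hΔ : IsUnit W₀.Δ) {n : ℕ} (hn : (n : K) ∉ A.nonunits)
    {P : (curveK A W₀).toAffine.Point} (hP : n • P = 0) (hred : red hΔ P = 0) : P = 0 := by
  rw [red_eq_zero_iff] at hred
  rcases P with _ | ⟨x, y, h⟩
  · rfl
  · exact absurd (Fermat.Agent.S05.no_torsion_of_not_mem A (curveK A W₀) (curveK_a₁_mem A W₀)
      (curveK_a₂_mem A W₀) (curveK_a₃_mem A W₀) (curveK_a₄_mem A W₀) (curveK_a₆_mem A W₀)
      n hn h hP) hred

/-- Reduction is injective on `n`-torsion, `n` a unit of `A`. -/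
theorem red_injOn_torsion (hΔ : IsUnit W₀.Δ) {n : ℕ} (hn : (n : K) ∉ A.nonunits)
    {P Q : (curveK A W₀).toAffine.Point} (hP : n • P = 0) (hQ : n • Q = 0)
    (h : red hΔ P = red hΔ Q) : P = Q := by
  have h1 : n • (P - Q) = 0 := by rw [smul_sub, hP, hQ, sub_zero]
  have h2 : red hΔ (P - Q) = 0 := by rw [map_sub, h, sub_self]
  exact sub_eq_zero.1 (eq_zero_of_red_eq_zero_of_nsmul hΔ hn h1 h2)

end Fermat.Agent.RED


end ZBS13_004_2

/-! ### bundled: `Fermat.Agent.S15.N3Sub` -/
section ZBS13_004_3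

/-!
# S15 / block N3, piece N3-SUB (helper8): the kernel of reduction over a valuation ring

`K` a field, `A` a valuation subring (any rank, any residue characteristic), `W` a Weierstrass
curve over `K` with `a₁, …, a₆ ∈ A` (`N3Int A W`), `v = A.valuation`.

* `n3subKer A W hW : AddSubgroup W.toAffine.Point` : `E₁ = {O} ∪ {P : x(P) ∉ A}`
  (`n3sub_mem_ker_some : (x, y) ∈ E₁ ↔ x ∉ A`, `n3sub_zero_mem`); closed under addition by
  `RED.inKer_add`.
* on `E₁ ∖ O`: `n3sub_val_lt : v x < v y`, `n3sub_val_sq : v y ^ 2 = v x ^ 3`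
  ("`v(y) = (3/2) v(x)`"), `n3sub_val_eta : v (2y + a₁x + a₃) = v y` if `v 2 = 1`.
* outside `E₁`: `n3sub_y_mem : x ∈ A → y ∈ A`, `n3sub_eta_mem`.
* `n3sub_mem_of_nsmul_mem` : if `N • Q = 0`, `N` prime, `N ∤ k` and `k • Q ∈ E₁` then `Q ∈ E₁`
  (so all multiples of `Q` lie in `E₁`: `n3sub_nsmul_mem`).
-/

set_option autoImplicit false
set_option linter.unusedSectionVars false
set_option linter.unusedVariables false

namespace Fermat.Agent.S15

open WeierstrassCurve WeierstrassCurve.Affine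

variable {K : Type*} [Field K] [DecidableEq K] (A : ValuationSubring K) (W : WeierstrassCurve K)

/-- the coefficients of `W` lie in `A` -/
structure N3Int : Prop where
  h₁ : W.a₁ ∈ A
  h₂ : W.a₂ ∈ A
  h₃ : W.a₃ ∈ A
  h₄ : W.a₄ ∈ A
  h₆ : W.a₆ ∈ A

variable {A W}

/-- the model over `A` -/
def N3Int.model (hW : N3Int A W) : WeierstrassCurve A :=
  ⟨⟨W.a₁, hW.h₁⟩, ⟨W.a₂, hW.h₂⟩, ⟨W.a₃, hW.h₃⟩, ⟨W.a₄, hW.h₄⟩, ⟨W.a₆, hW.h₆⟩⟩

theorem N3Int.curveK_model (hW : N3Int A W) : Fermat.Agent.RED.curveK A hW.model = W := rfl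

/-- the kernel predicate: `P = O` or `x(P) ∉ A` -/
def n3subInKer (A : ValuationSubring K) {W : WeierstrassCurve K} : W.toAffine.Point → Prop
  | .zero => True
  | .some x _ _ => x ∉ A

theorem n3sub_inKer_zero : n3subInKer A (0 : W.toAffine.Point) := trivial

theorem n3sub_inKer_some {x y : K} (h : W.toAffine.Nonsingular x y) :
    n3subInKer A (Point.some x y h) ↔ x ∉ A := Iff.rfl

theorem n3sub_inKer_iff_red (hW : N3Int A W) (Q : W.toAffine.Point) :
    n3subInKer A Q ↔ Fermat.Agent.RED.InKer (A := A) (W₀ := hW.model) Q := by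
  cases Q with
  | zero => exact Iff.rfl
  | some x y h => exact Iff.rfl

theorem n3sub_inKer_neg {Q : W.toAffine.Point} (hQ : n3subInKer A Q) : n3subInKer A (-Q) := by
  cases Q with
  | zero => exact hQ
  | some x y h => exact hQ

theorem n3sub_inKer_add (hW : N3Int A W) {P Q : W.toAffine.Point} (hP : n3subInKer A P)
    (hQ : n3subInKer A Q) : n3subInKer A (P + Q) := by
  rw [n3sub_inKer_iff_red hW] at hP hQ ⊢
  exact Fermat.Agent.RED.inKer_add hP hQ

/-- **the kernel of reduction** `E₁ = {O} ∪ {P : x(P) ∉ A}` -/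
def n3subKer (A : ValuationSubring K) (W : WeierstrassCurve K) (hW : N3Int A W) :
    AddSubgroup W.toAffine.Point where
  carrier := {P : W.toAffine.Point | n3subInKer A P}
  zero_mem' := n3sub_inKer_zero (A := A) (W := W)
  add_mem' := fun {P Q} hP hQ => n3sub_inKer_add (A := A) (W := W) hW hP hQ
  neg_mem' := fun {P} hP => n3sub_inKer_neg (A := A) (W := W) hP

theorem n3sub_mem_ker_iff (hW : N3Int A W) (P : W.toAffine.Point) :
    P ∈ n3subKer A W hW ↔ n3subInKer A P := Iff.rfl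

theorem n3sub_zero_mem (hW : N3Int A W) : (0 : W.toAffine.Point) ∈ n3subKer A W hW :=
  (n3subKer A W hW).zero_mem

theorem n3sub_mem_ker_some (hW : N3Int A W) {x y : K} (h : W.toAffine.Nonsingular x y) :
    Point.some x y h ∈ n3subKer A W hW ↔ x ∉ A := Iff.rfl

theorem n3sub_nsmul_mem (hW : N3Int A W) {Q : W.toAffine.Point} (hQ : Q ∈ n3subKer A W hW)
    (k : ℕ) : k • Q ∈ n3subKer A W hW := (n3subKer A W hW).nsmul_mem hQ k

/-- if one multiple `k • Q`, `N ∤ k`, of a point of prime order `N` lies in `E₁`, so does `Q` -/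
theorem n3sub_mem_of_nsmul_mem (hW : N3Int A W) {N : ℕ} (hN : N.Prime) {Q : W.toAffine.Point}
    (hQ : N • Q = 0) {k : ℕ} (hk : ¬ N ∣ k) (h : k • Q ∈ n3subKer A W hW) :
    Q ∈ n3subKer A W hW := by
  have hcop : Nat.Coprime k N := ((Nat.Prime.coprime_iff_not_dvd hN).2 hk).symm
  -- `a k ≡ 1 mod N`
  obtain ⟨a, -, ha⟩ := Nat.exists_mul_mod_eq_one_of_coprime hcop hN.one_lt
  have h1 : (k * a) • Q = Q := by
    have h2 : k * a = N * (k * a / N) + 1 := by
      have := Nat.div_add_mod (k * a) N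
      rw [ha] at this
      exact this.symm
    rw [h2, add_smul, one_smul, mul_comm, mul_smul, hQ, smul_zero, zero_add]
  rw [← h1, mul_comm, mul_smul]
  exact n3sub_nsmul_mem hW h a

/-! ### Valuations of the coordinates -/

section Val

variable {x y : K}

/-- `x ∈ A ⇒ y ∈ A` -/
theorem n3sub_y_mem (hW : N3Int A W) (h : W.toAffine.Equation x y) (hx : x ∈ A) : y ∈ A :=
  Fermat.Agent.RED.y_mem_of_x_mem A hW.model (x := x) (y := y) h hx

/-- `x ∈ A ⇒ η = 2y + a₁x + a₃ ∈ A` -/
theorem n3sub_eta_mem (hW : N3Int A W) (h : W.toAffine.Equation x y) (hx : x ∈ A) :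
    2 * y + W.a₁ * x + W.a₃ ∈ A := by
  have hy := n3sub_y_mem hW h hx
  have h2 : (2 : K) ∈ A := by
    have : (2 : K) = 1 + 1 := by norm_num
    rw [this]
    exact add_mem A.one_mem A.one_mem
  exact add_mem (add_mem (mul_mem h2 hy) (mul_mem hW.h₁ hx)) hW.h₃

/-- the cubic `x³ + a₂x² + a₄x + a₆` has the valuation of `x³` if `x ∉ A` -/
theorem n3sub_val_cubic (hW : N3Int A W) (hx : x ∉ A) :
    A.valuation (x ^ 3 + W.a₂ * x ^ 2 + W.a₄ * x + W.a₆) = A.valuation x ^ 3 := by
  have hv : 1 < A.valuation x := by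
    rw [← not_le, A.valuation_le_one_iff]
    exact hx
  have h0 : (0 : A.ValueGroup) < 1 := zero_lt_one
  have hpos : 0 < A.valuation x := h0.trans hv
  have hv2 : A.valuation x < A.valuation x ^ 2 := by
    calc A.valuation x = A.valuation x * 1 := (mul_one _).symm
      _ < A.valuation x * A.valuation x := by
        exact mul_lt_mul_of_pos_left hv hpos
      _ = A.valuation x ^ 2 := (sq _).symm
  have hv3 : A.valuation x ^ 2 < A.valuation x ^ 3 := by
    have hpos2 : 0 < A.valuation x ^ 2 := pow_pos hpos 2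
    calc A.valuation x ^ 2 = A.valuation x ^ 2 * 1 := (mul_one _).symm
      _ < A.valuation x ^ 2 * A.valuation x := mul_lt_mul_of_pos_left hv hpos2
      _ = A.valuation x ^ 3 := (pow_succ _ 2).symm
  have ha₂ : A.valuation W.a₂ ≤ 1 := (A.valuation_le_one_iff _).2 hW.h₂
  have ha₄ : A.valuation W.a₄ ≤ 1 := (A.valuation_le_one_iff _).2 hW.h₄
  have ha₆ : A.valuation W.a₆ ≤ 1 := (A.valuation_le_one_iff _).2 hW.h₆
  have e2 : A.valuation (W.a₂ * x ^ 2) < A.valuation x ^ 3 := by
    rw [map_mul, map_pow]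
    exact lt_of_le_of_lt (mul_le_of_le_one_left' ha₂) hv3
  have e4 : A.valuation (W.a₄ * x) < A.valuation x ^ 3 := by
    rw [map_mul]
    exact lt_of_le_of_lt (mul_le_of_le_one_left' ha₄) (hv2.trans hv3)
  have e6 : A.valuation W.a₆ < A.valuation x ^ 3 :=
    lt_of_le_of_lt ha₆ (hv.trans (hv2.trans hv3))
  have e3 : A.valuation (x ^ 3) = A.valuation x ^ 3 := map_pow _ _ _
  have s1 : A.valuation (x ^ 3 + W.a₂ * x ^ 2) = A.valuation x ^ 3 := by
    rw [Valuation.map_add_eq_of_lt_left _ (by rw [e3]; exact e2), e3]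
  have s2 : A.valuation (x ^ 3 + W.a₂ * x ^ 2 + W.a₄ * x) = A.valuation x ^ 3 := by
    rw [Valuation.map_add_eq_of_lt_left _ (by rw [s1]; exact e4), s1]
  rw [Valuation.map_add_eq_of_lt_left _ (by rw [s2]; exact e6), s2]

/-- on `E₁ ∖ O`: `v x < v y` -/
theorem n3sub_val_lt (hW : N3Int A W) (h : W.toAffine.Equation x y) (hx : x ∉ A) :
    A.valuation x < A.valuation y := by
  have hv : 1 < A.valuation x := by
    rw [← not_le, A.valuation_le_one_iff]
    exact hx
  have h0 : (0 : A.ValueGroup) < 1 := zero_lt_one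
  have hpos : 0 < A.valuation x := h0.trans hv
  by_contra hle
  rw [not_lt] at hle
  have heq := (Affine.equation_iff _ _).1 h
  have hcub := n3sub_val_cubic hW hx
  rw [← heq] at hcub
  have ha₁ : A.valuation W.a₁ ≤ 1 := (A.valuation_le_one_iff _).2 hW.h₁
  have ha₃ : A.valuation W.a₃ ≤ 1 := (A.valuation_le_one_iff _).2 hW.h₃
  have hxx : A.valuation x * A.valuation x = A.valuation x ^ 2 := (sq _).symm
  have b1 : A.valuation (y ^ 2) ≤ A.valuation x ^ 2 := by
    rw [map_pow]
    exact pow_le_pow_left₀ zero_le hle 2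
  have b2 : A.valuation (W.a₁ * x * y) ≤ A.valuation x ^ 2 := by
    rw [map_mul, map_mul, ← hxx]
    calc A.valuation W.a₁ * A.valuation x * A.valuation y
        ≤ 1 * A.valuation x * A.valuation x := by
          gcongr
      _ = A.valuation x * A.valuation x := by rw [one_mul]
  have b3 : A.valuation (W.a₃ * y) ≤ A.valuation x ^ 2 := by
    rw [map_mul, ← hxx]
    calc A.valuation W.a₃ * A.valuation y ≤ 1 * A.valuation x := by gcongr
      _ = A.valuation x := one_mul _
      _ ≤ A.valuation x * A.valuation x := by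
        calc A.valuation x = A.valuation x * 1 := (mul_one _).symm
          _ ≤ A.valuation x * A.valuation x := by gcongr
  have b : A.valuation (y ^ 2 + W.a₁ * x * y + W.a₃ * y) ≤ A.valuation x ^ 2 :=
    (A.valuation.map_add_le (A.valuation.map_add_le b1 b2) b3)
  rw [hcub] at b
  have hv3 : A.valuation x ^ 2 < A.valuation x ^ 3 := by
    have hpos2 : 0 < A.valuation x ^ 2 := pow_pos hpos 2
    calc A.valuation x ^ 2 = A.valuation x ^ 2 * 1 := (mul_one _).symm
      _ < A.valuation x ^ 2 * A.valuation x := mul_lt_mul_of_pos_left hv hpos2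
      _ = A.valuation x ^ 3 := (pow_succ _ 2).symm
  exact absurd b (not_le.2 hv3)

/-- on `E₁ ∖ O`: `v(y + a₁x + a₃) = v y` -/
theorem n3sub_val_negY (hW : N3Int A W) (h : W.toAffine.Equation x y) (hx : x ∉ A) :
    A.valuation (y + W.a₁ * x + W.a₃) = A.valuation y := by
  have hlt := n3sub_val_lt hW h hx
  have hv : 1 < A.valuation x := by
    rw [← not_le, A.valuation_le_one_iff]
    exact hx
  have ha₁ : A.valuation W.a₁ ≤ 1 := (A.valuation_le_one_iff _).2 hW.h₁
  have ha₃ : A.valuation W.a₃ ≤ 1 := (A.valuation_le_one_iff _).2 hW.h₃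
  have e1 : A.valuation (W.a₁ * x) < A.valuation y := by
    rw [map_mul]
    exact lt_of_le_of_lt (mul_le_of_le_one_left' ha₁) hlt
  have e3 : A.valuation W.a₃ < A.valuation y := lt_of_le_of_lt ha₃ (hv.trans hlt)
  have s1 : A.valuation (y + W.a₁ * x) = A.valuation y :=
    Valuation.map_add_eq_of_lt_left _ e1
  rw [Valuation.map_add_eq_of_lt_left _ (by rw [s1]; exact e3), s1]

/-- on `E₁ ∖ O`: `v(y)² = v(x)³` -/
theorem n3sub_val_sq (hW : N3Int A W) (h : W.toAffine.Equation x y) (hx : x ∉ A) :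
    A.valuation y ^ 2 = A.valuation x ^ 3 := by
  have heq := (Affine.equation_iff _ _).1 h
  have hcub := n3sub_val_cubic hW hx
  rw [← heq] at hcub
  have e : y ^ 2 + W.a₁ * x * y + W.a₃ * y = y * (y + W.a₁ * x + W.a₃) := by ring
  rw [e, map_mul, n3sub_val_negY hW h hx] at hcub
  rw [sq]
  exact hcub

/-- on `E₁ ∖ O`: `v(η) = v(y)` for `η = 2y + a₁x + a₃`, if `2` is a unit of `A` -/
theorem n3sub_val_eta (hW : N3Int A W) (h2 : A.valuation (2 : K) = 1)
    (h : W.toAffine.Equation x y) (hx : x ∉ A) :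
    A.valuation (2 * y + W.a₁ * x + W.a₃) = A.valuation y := by
  have hlt := n3sub_val_lt hW h hx
  have hv : 1 < A.valuation x := by
    rw [← not_le, A.valuation_le_one_iff]
    exact hx
  have ha₁ : A.valuation W.a₁ ≤ 1 := (A.valuation_le_one_iff _).2 hW.h₁
  have ha₃ : A.valuation W.a₃ ≤ 1 := (A.valuation_le_one_iff _).2 hW.h₃
  have e0 : A.valuation (2 * y) = A.valuation y := by rw [map_mul, h2, one_mul]
  have e1 : A.valuation (W.a₁ * x) < A.valuation (2 * y) := by
    rw [map_mul, e0]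
    exact lt_of_le_of_lt (mul_le_of_le_one_left' ha₁) hlt
  have e3 : A.valuation W.a₃ < A.valuation y := lt_of_le_of_lt ha₃ (hv.trans hlt)
  have s1 : A.valuation (2 * y + W.a₁ * x) = A.valuation y := by
    rw [Valuation.map_add_eq_of_lt_left _ e1, e0]
  rw [Valuation.map_add_eq_of_lt_left _ (by rw [s1]; exact e3), s1]

/-- on `E₁ ∖ O`: `y ∉ A` -/
theorem n3sub_y_not_mem (hW : N3Int A W) (h : W.toAffine.Equation x y) (hx : x ∉ A) : y ∉ A := by
  intro hy
  have hlt := n3sub_val_lt hW h hx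
  have hv : 1 < A.valuation x := by
    rw [← not_le, A.valuation_le_one_iff]
    exact hx
  have : A.valuation y ≤ 1 := (A.valuation_le_one_iff _).2 hy
  exact absurd (hv.trans hlt) (not_lt.2 this)

end Val

end Fermat.Agent.S15


end ZBS13_004_3
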