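/- GENERATED FILE (helper35, build-time optimisation, NOTES/ZB.md): verbatim concatenation of the modules
   Fermat.Agent.EC.Pencil
   Fermat.Agent.EC.Tors
   Do not edit; do not import together with these modules. -/
import Mathlib
import Fermat.Agent.ZB.S13_004
import Fermat.Agent.ZB.S13_003

/-! ### bundled: `Fermat.Agent.EC.Pencil` -/
section ZBEC_002_0

/-!
# EC library: the generic member of a pencil `Φ - x₀ Ψ` is separable (helper77)

Pure polynomial algebra over an algebraically closed field.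
-/

set_option autoImplicit false

namespace Fermat.Agent.EC

open Polynomial

variable {K : Type*} [Field K]

/-- Degree and monicity of `Φ - C x₀ * Ψ` for `Φ` monic of degree `N > deg Ψ`. -/
lemma pencil_natDegree {Φ Ψ : K[X]} {N : ℕ} (hΦd : Φ.natDegree = N) (hΨd : Ψ.natDegree < N)
    (x₀ : K) : (Φ - C x₀ * Ψ).natDegree = N := by
  rw [natDegree_sub_eq_left_of_natDegree_lt, hΦd]
  rw [hΦd]
  exact lt_of_le_of_lt (natDegree_C_mul_le _ _) hΨd

lemma pencil_ne_zero {Φ Ψ : K[X]} {N : ℕ} (hN : 1 ≤ N) (hΦd : Φ.natDegree = N)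
    (hΨd : Ψ.natDegree < N) (x₀ : K) : Φ - C x₀ * Ψ ≠ 0 := by
  intro h
  have := pencil_natDegree hΦd hΨd x₀
  rw [h, natDegree_zero] at this
  omega

/-- A multiple root of `Φ - C x₀ * Ψ` is a root of the Wronskian. -/
lemma pencil_wronskian_root {Φ Ψ : K[X]} {x₀ a : K} (h0 : (Φ - C x₀ * Ψ).IsRoot a)
    (h1 : (derivative (Φ - C x₀ * Ψ)).IsRoot a) :
    (derivative Φ * Ψ - Φ * derivative Ψ).IsRoot a := by
  simp only [IsRoot.def, eval_sub, eval_mul, eval_C, derivative_sub, derivative_mul,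
    derivative_C, zero_mul, zero_add] at h0 h1 ⊢
  have e0 : Φ.eval a = x₀ * Ψ.eval a := by linear_combination h0
  have e1 : (derivative Φ).eval a = x₀ * (derivative Ψ).eval a := by linear_combination h1
  rw [e0, e1]
  ring

variable [IsAlgClosed K] [DecidableEq K]

/-- **Generic separability of a pencil.**  If `Φ` is monic of degree `N ≥ 1`, `deg Ψ < N`,
`Φ` and `Ψ` have no common root and the Wronskian `Φ' Ψ - Φ Ψ'` is nonzero, then for all `x₀`
outside a finite set, `Φ - x₀ Ψ` has exactly `N` distinct roots. -/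
theorem pencil_card_roots (Φ Ψ : K[X]) (N : ℕ) (hN : 1 ≤ N)
    (hΦd : Φ.natDegree = N) (hΨd : Ψ.natDegree < N)
    (hcop : ∀ a : K, Ψ.eval a = 0 → Φ.eval a ≠ 0)
    (hw : derivative Φ * Ψ - Φ * derivative Ψ ≠ 0) :
    ∃ B : Finset K, ∀ x₀ : K, x₀ ∉ B → (Φ - C x₀ * Ψ).roots.toFinset.card = N := by
  refine ⟨(derivative Φ * Ψ - Φ * derivative Ψ).roots.toFinset.image
    (fun a => Φ.eval a / Ψ.eval a), fun x₀ hx₀ => ?_⟩
  have hf0 : Φ - C x₀ * Ψ ≠ 0 := pencil_ne_zero hN hΦd hΨd x₀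
  have hdeg := pencil_natDegree hΦd hΨd x₀
  have hnodup : (Φ - C x₀ * Ψ).roots.Nodup := by
    rw [Multiset.nodup_iff_count_le_one]
    intro a
    rw [count_roots]
    by_contra hcon
    have hlt : 1 < (Φ - C x₀ * Ψ).rootMultiplicity a := by omega
    obtain ⟨h0, h1⟩ := (one_lt_rootMultiplicity_iff_isRoot hf0).1 hlt
    have hwr := pencil_wronskian_root h0 h1
    have hΨa : Ψ.eval a ≠ 0 := by
      intro hΨ
      apply hcop a hΨ
      have := h0
      simp only [IsRoot.def, eval_sub, eval_mul, eval_C, hΨ, mul_zero, sub_zero] at this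
      exact this
    apply hx₀
    rw [Finset.mem_image]
    refine ⟨a, ?_, ?_⟩
    · rw [Multiset.mem_toFinset, mem_roots hw]
      exact hwr
    · have := h0
      simp only [IsRoot.def, eval_sub, eval_mul, eval_C] at this
      field_simp
      linear_combination this
  rw [Multiset.toFinset_card_of_nodup hnodup, ← hdeg]
  exact IsAlgClosed.card_roots_eq_natDegree

end EC
end Agent
end Fermat
end ZBEC_002_0

/-! ### bundled: `Fermat.Agent.EC.Tors` -/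
section ZBEC_002_1

/-!
# EC library: `#E[n] = n²` and divisibility of `E(K)` (helper77)

`K` an algebraically closed field with `2 ≠ 0`, `W` a Weierstrass curve over `K` with `Δ ≠ 0`,
`n : ℕ` with `(n : K) ≠ 0`.  Then

* `ec_nsmul_surjective`: multiplication by `n` is surjective on `W(K)`;
* `ec_card_torsion`: `Nat.card {P // n • P = 0} = n ^ 2`;
* `ec_card_torsionBy`: `Nat.card (Submodule.torsionBy ℤ W(K) n) = n ^ 2`, `ec_finite_torsionBy`.

Proof: `x(n • Q) = Φ_n(x(Q)) / ΨSq_n(x(Q))` (`ec_crit`), so the fibre of `[n]` over a point `Q₀` is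
in bijection with the roots of `Φ_n - x(Q₀) ΨSq_n`, a monic polynomial of degree `n²`, which is
separable for generic `x(Q₀)` because the Wronskian of `(Φ_n, ΨSq_n)` has leading coefficient `n²`.
-/

set_option autoImplicit false
set_option linter.unusedSectionVars false

namespace Fermat.Agent.EC

open WeierstrassCurve WeierstrassCurve.Affine Polynomial Fermat.Agent.S05 Fermat.Agent.S13
  Fermat.Agent.S13.DivX

section Wronskian

variable {K : Type*} [Field K] (W : WeierstrassCurve K)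

lemma ec_natDegree_Φ (n : ℕ) : (W.Φ (n : ℤ)).natDegree = n ^ 2 := by
  rw [WeierstrassCurve.natDegree_Φ, Int.natAbs_natCast]

lemma ec_coeff_Φ (n : ℕ) : (W.Φ (n : ℤ)).coeff (n ^ 2) = 1 := by
  have := W.coeff_Φ (n : ℤ)
  rwa [Int.natAbs_natCast] at this

lemma ec_natDegree_ΨSq_le (n : ℕ) : (W.ΨSq (n : ℤ)).natDegree ≤ n ^ 2 - 1 := by
  have := W.natDegree_ΨSq_le (n : ℤ)
  rwa [Int.natAbs_natCast] at this

lemma ec_coeff_ΨSq (n : ℕ) : (W.ΨSq (n : ℤ)).coeff (n ^ 2 - 1) = (n : K) ^ 2 := by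
  have := W.coeff_ΨSq (n : ℤ)
  rw [Int.natAbs_natCast] at this
  rw [this]
  push_cast
  ring

lemma ec_natDegree_ΨSq_lt {n : ℕ} (hn : 1 ≤ n) : (W.ΨSq (n : ℤ)).natDegree < n ^ 2 := by
  have h1 := ec_natDegree_ΨSq_le W n
  have h2 : 1 ≤ n ^ 2 := Nat.one_le_pow _ _ hn
  omega

/-- The Wronskian of `(Φ_n, ΨSq_n)` has coefficient `n²` in degree `2n² - 2`. -/
lemma ec_wronskian_coeff {n : ℕ} (hn : 1 ≤ n) :
    (derivative (W.Φ (n : ℤ)) * W.ΨSq (n : ℤ) - W.Φ (n : ℤ) * derivative (W.ΨSq (n : ℤ))).coeff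
      ((n ^ 2 - 1) + (n ^ 2 - 1)) = (n : K) ^ 2 := by
  have hN : 1 ≤ n ^ 2 := Nat.one_le_pow _ _ hn
  obtain ⟨m, hm⟩ : ∃ m, n ^ 2 = m + 1 := ⟨n ^ 2 - 1, by omega⟩
  have hm1 : n ^ 2 - 1 = m := by omega
  have hmK : (n : K) ^ 2 = (m : K) + 1 := by
    have := congrArg (Nat.cast : ℕ → K) hm
    push_cast at this
    exact this
  have hΦd : (W.Φ (n : ℤ)).natDegree = m + 1 := by rw [ec_natDegree_Φ, hm]
  have hΦc : (W.Φ (n : ℤ)).coeff (m + 1) = 1 := by rw [← hm]; exact ec_coeff_Φ W n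
  have hΨd : (W.ΨSq (n : ℤ)).natDegree ≤ m := by rw [← hm1]; exact ec_natDegree_ΨSq_le W n
  have hΨc : (W.ΨSq (n : ℤ)).coeff m = (n : K) ^ 2 := by rw [← hm1]; exact ec_coeff_ΨSq W n
  rw [hm1, coeff_sub]
  have hd1 : (derivative (W.Φ (n : ℤ))).natDegree ≤ m := by
    refine le_trans (natDegree_derivative_le _) ?_
    rw [hΦd]; simp
  have e1 : (derivative (W.Φ (n : ℤ)) * W.ΨSq (n : ℤ)).coeff (m + m) =
      ((m : K) + 1) * (n : K) ^ 2 := by
    rw [coeff_mul_add_eq_of_natDegree_le hd1 hΨd, coeff_derivative, hΨc, hΦc]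
    ring
  rcases Nat.eq_zero_or_pos m with hm0 | hmpos
  · -- `n = 1`
    subst hm0
    have hn1 : n = 1 := by
      have : n ^ 2 = 1 := hm
      rcases Nat.lt_or_ge n 2 with h | h
      · omega
      · have h4 : 2 * 2 ≤ n * n := Nat.mul_le_mul h h
        rw [sq] at this
        omega
    subst hn1
    simp
  · obtain ⟨r, hr⟩ : ∃ r, m = r + 1 := ⟨m - 1, by omega⟩
    have hrK : (m : K) = (r : K) + 1 := by
      have := congrArg (Nat.cast : ℕ → K) hr
      push_cast at this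
      exact this
    have hd2 : (derivative (W.ΨSq (n : ℤ))).natDegree ≤ r := by
      refine le_trans (natDegree_derivative_le _) ?_
      omega
    have e2 : (W.Φ (n : ℤ) * derivative (W.ΨSq (n : ℤ))).coeff (m + m) =
        (n : K) ^ 2 * (m : K) := by
      have hidx : m + m = (m + 1) + r := by omega
      rw [hidx, coeff_mul_add_eq_of_natDegree_le (le_of_eq hΦd) hd2, coeff_derivative, hΦc,
        ← hr, hΨc, hrK]
      ring
    rw [e1, e2]
    ring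

lemma ec_wronskian_ne_zero {n : ℕ} (hn : (n : K) ≠ 0) :
    derivative (W.Φ (n : ℤ)) * W.ΨSq (n : ℤ) - W.Φ (n : ℤ) * derivative (W.ΨSq (n : ℤ)) ≠ 0 := by
  have hn1 : 1 ≤ n := by
    rcases Nat.eq_zero_or_pos n with rfl | h
    · simp at hn
    · exact h
  intro h0
  have := ec_wronskian_coeff W hn1
  rw [h0, coeff_zero] at this
  exact pow_ne_zero 2 hn this.symm

end Wronskian

section Count

variable {K : Type*} [Field K] [IsAlgClosed K] [DecidableEq K] {W : WeierstrassCurve K}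

/-- Over an algebraically closed field every `x` is the `x`-coordinate of a point. -/
lemma ec_exists_point (hΔ : W.Δ ≠ 0) (x : K) : ∃ y : K, W.toAffine.Nonsingular x y := by
  have hdeg : (X ^ 2 + C (W.a₁ * x + W.a₃) * X
      - C (x ^ 3 + W.a₂ * x ^ 2 + W.a₄ * x + W.a₆) : K[X]).natDegree = 2 := by
    compute_degree!
  have hq : (X ^ 2 + C (W.a₁ * x + W.a₃) * X
      - C (x ^ 3 + W.a₂ * x ^ 2 + W.a₄ * x + W.a₆) : K[X]).degree ≠ 0 := by
    intro h0
    have := natDegree_eq_zero_iff_degree_le_zero.2 (le_of_eq h0)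
    rw [hdeg] at this
    exact absurd this (by norm_num)
  obtain ⟨y, hy⟩ := IsAlgClosed.exists_root _ hq
  refine ⟨y, (W.toAffine.equation_iff_nonsingular_of_Δ_ne_zero hΔ).1 ?_⟩
  rw [WeierstrassCurve.Affine.equation_iff]
  simp only [IsRoot.def, eval_sub, eval_add, eval_mul, eval_pow, eval_X, eval_C] at hy
  linear_combination hy

/-- `Φ_n` and `ΨSq_n` have no common root. -/
lemma ec_no_common_root (hΔ : W.Δ ≠ 0) (h2 : (2 : K) ≠ 0) (n : ℕ) (a : K)
    (h0 : (W.ΨSq (n : ℤ)).eval a = 0) : (W.Φ (n : ℤ)).eval a ≠ 0 := by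
  obtain ⟨y, hy⟩ := ec_exists_point hΔ a
  exact ec_Φ_ne_zero_of_ΨSq h2 hy n h0

/-- If `x₁` is a root of `Φ_n - x₀ ΨSq_n` then `n • (x₁, y₁) ≠ 0` has `x`-coordinate `x₀`. -/
lemma ec_nsmul_of_root (h2 : (2 : K) ≠ 0) (n : ℕ) {x₀ x₁ y₁ : K}
    (h₁ : W.toAffine.Nonsingular x₁ y₁)
    (hroot : (W.Φ (n : ℤ) - C x₀ * W.ΨSq (n : ℤ)).eval x₁ = 0) :
    n • Point.some x₁ y₁ h₁ ≠ 0 ∧ xOf (n • Point.some x₁ y₁ h₁) = x₀ := by
  simp only [eval_sub, eval_mul, eval_C] at hroot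
  have hΨ : (W.ΨSq (n : ℤ)).eval x₁ ≠ 0 := by
    intro h0
    apply ec_Φ_ne_zero_of_ΨSq h2 h₁ n h0
    rw [h0, mul_zero, sub_zero] at hroot
    exact hroot
  have hne : n • Point.some x₁ y₁ h₁ ≠ 0 := fun h0 =>
    hΨ ((ec_nsmul_eq_zero_iff h2 h₁ n).1 h0)
  refine ⟨hne, ?_⟩
  have := ec_xOf_nsmul h2 h₁ n hne
  apply mul_right_cancel₀ hΨ
  rw [this]
  linear_combination hroot

/-- If `n • Q = ± Q₀ ≠ 0` then `x(Q)` is a root of `Φ_n - x(Q₀) ΨSq_n`. -/
lemma ec_root_of_nsmul (h2 : (2 : K) ≠ 0) (n : ℕ) {Q Q₀ : W.toAffine.Point} (hQ₀ : Q₀ ≠ 0)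
    (h : n • Q = Q₀ ∨ n • Q = -Q₀) :
    (W.Φ (n : ℤ) - C (xOf Q₀) * W.ΨSq (n : ℤ)).eval (xOf Q) = 0 := by
  have hnQ : n • Q ≠ 0 := by
    rcases h with h | h
    · rw [h]; exact hQ₀
    · rw [h]; exact neg_ne_zero.2 hQ₀
  have hx : xOf (n • Q) = xOf Q₀ := by
    rcases h with h | h
    · rw [h]
    · rw [h, xOf_neg]
  cases Q with
  | zero => exact absurd (smul_zero n) hnQ
  | some x y hxy =>
    have := ec_xOf_nsmul h2 hxy n hnQ
    simp only [eval_sub, eval_mul, eval_C, xOf_some]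
    rw [← hx, ← this]
    ring

/-- **Divisibility**: multiplication by `n` is surjective on `W(K)` if `(n : K) ≠ 0`. -/
theorem ec_nsmul_surjective (hΔ : W.Δ ≠ 0) (h2 : (2 : K) ≠ 0) {n : ℕ} (hn : (n : K) ≠ 0) :
    Function.Surjective (fun Q : W.toAffine.Point => n • Q) := by
  have hn1 : 1 ≤ n := by
    rcases Nat.eq_zero_or_pos n with rfl | h
    · simp at hn
    · exact h
  intro Q₀
  by_cases hQ₀ : Q₀ = 0
  · exact ⟨0, by simp [hQ₀]⟩
  have hdeg : (W.Φ (n : ℤ) - C (xOf Q₀) * W.ΨSq (n : ℤ)).natDegree = n ^ 2 :=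
    pencil_natDegree (ec_natDegree_Φ W n) (ec_natDegree_ΨSq_lt W hn1) _
  have hq : (W.Φ (n : ℤ) - C (xOf Q₀) * W.ΨSq (n : ℤ)).degree ≠ 0 := by
    intro h0
    have := natDegree_eq_zero_iff_degree_le_zero.2 (le_of_eq h0)
    rw [hdeg] at this
    have h1 : 1 ≤ n ^ 2 := Nat.one_le_pow _ _ hn1
    omega
  obtain ⟨x₁, hx₁⟩ := IsAlgClosed.exists_root _ hq
  obtain ⟨y₁, h₁⟩ := ec_exists_point hΔ x₁
  obtain ⟨hne, hx⟩ := ec_nsmul_of_root h2 n h₁ hx₁
  rcases eq_or_eq_neg_of_xOf_eq hne hQ₀ hx with h | h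
  · exact ⟨_, h⟩
  · refine ⟨-Point.some x₁ y₁ h₁, ?_⟩
    simp only [smul_neg, h, neg_neg]

/-- There is a point `Q₀ ≠ 0` whose fibre under `[n]` has exactly `n²` elements. -/
theorem ec_card_fibre (hΔ : W.Δ ≠ 0) (h2 : (2 : K) ≠ 0) {n : ℕ} (hn : (n : K) ≠ 0) :
    ∃ Q₀ : W.toAffine.Point,
      Nat.card {Q : W.toAffine.Point // n • Q = Q₀} = n ^ 2 := by
  have hn1 : 1 ≤ n := by
    rcases Nat.eq_zero_or_pos n with rfl | h
    · simp at hn
    · exact h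
  have hN1 : 1 ≤ n ^ 2 := Nat.one_le_pow _ _ hn1
  obtain ⟨B, hB⟩ := pencil_card_roots (W.Φ (n : ℤ)) (W.ΨSq (n : ℤ)) (n ^ 2) hN1
    (ec_natDegree_Φ W n) (ec_natDegree_ΨSq_lt W hn1) (ec_no_common_root hΔ h2 n)
    (ec_wronskian_ne_zero W hn)
  -- a generic `x₀`
  obtain ⟨x₀, hx₀⟩ := Infinite.exists_notMem_finset (B ∪ (W.ΨSq (2 : ℕ)).roots.toFinset)
  rw [Finset.mem_union, not_or] at hx₀
  obtain ⟨hxB, hx2⟩ := hx₀
  have h4 : (4 : K) ≠ 0 := by
    have : (4 : K) = 2 * 2 := by norm_num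
    rw [this]
    exact mul_ne_zero h2 h2
  have hΨ2 : W.ΨSq ((2 : ℕ) : ℤ) ≠ 0 := by
    have : ((2 : ℕ) : ℤ) = 2 := by norm_num
    rw [this, ΨSq_two]
    exact W.Ψ₂Sq_ne_zero h4
  obtain ⟨y₀, h₀⟩ := ec_exists_point hΔ x₀
  have hQ₀ : (Point.some x₀ y₀ h₀ : W.toAffine.Point) ≠ 0 := Point.some_ne_zero h₀
  have h2Q₀ : 2 • (Point.some x₀ y₀ h₀ : W.toAffine.Point) ≠ 0 := by
    intro h0
    apply hx2
    rw [Multiset.mem_toFinset, mem_roots hΨ2]
    exact (ec_nsmul_eq_zero_iff h2 h₀ 2).1 h0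
  have hQ₀neg : (Point.some x₀ y₀ h₀ : W.toAffine.Point) ≠ -Point.some x₀ y₀ h₀ := by
    intro h
    apply h2Q₀
    rw [two_nsmul]
    nth_rewrite 1 [h]
    exact neg_add_cancel _
  refine ⟨Point.some x₀ y₀ h₀, ?_⟩
  have hf0 : W.Φ (n : ℤ) - C x₀ * W.ΨSq (n : ℤ) ≠ 0 :=
    pencil_ne_zero hN1 (ec_natDegree_Φ W n) (ec_natDegree_ΨSq_lt W hn1) x₀
  rw [← hB x₀ hxB, ← Nat.card_eq_finsetCard]
  -- the bijection `Q ↦ x(Q)`
  have hmem : ∀ Q : {Q : W.toAffine.Point // n • Q = Point.some x₀ y₀ h₀},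
      xOf Q.1 ∈ (W.Φ (n : ℤ) - C x₀ * W.ΨSq (n : ℤ)).roots.toFinset := by
    intro Q
    rw [Multiset.mem_toFinset, mem_roots hf0, IsRoot.def]
    have := ec_root_of_nsmul h2 n hQ₀ (Or.inl Q.2)
    rw [xOf_some] at this
    exact this
  refine Nat.card_eq_of_bijective (fun Q => ⟨xOf Q.1, hmem Q⟩) ⟨?_, ?_⟩
  · -- injective
    intro Q Q' hQQ'
    have hx : xOf Q.1 = xOf Q'.1 := congrArg Subtype.val hQQ'
    have hQne : Q.1 ≠ 0 := by
      intro h0
      have := Q.2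
      rw [h0, smul_zero] at this
      exact hQ₀ this.symm
    have hQ'ne : Q'.1 ≠ 0 := by
      intro h0
      have := Q'.2
      rw [h0, smul_zero] at this
      exact hQ₀ this.symm
    rcases eq_or_eq_neg_of_xOf_eq hQne hQ'ne hx with h | h
    · exact Subtype.ext h
    · exfalso
      apply hQ₀neg
      have h1 := Q.2
      rw [h, smul_neg, Q'.2] at h1
      exact h1.symm
  · -- surjective
    rintro ⟨x₁, hx₁⟩
    rw [Multiset.mem_toFinset, mem_roots hf0, IsRoot.def] at hx₁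
    obtain ⟨y₁, h₁⟩ := ec_exists_point hΔ x₁
    obtain ⟨hne, hx⟩ := ec_nsmul_of_root h2 n h₁ hx₁
    have hx' : xOf (n • Point.some x₁ y₁ h₁) = xOf (Point.some x₀ y₀ h₀) := by
      rw [hx, xOf_some]
    rcases eq_or_eq_neg_of_xOf_eq hne hQ₀ hx' with h | h
    · exact ⟨⟨Point.some x₁ y₁ h₁, h⟩, Subtype.ext (xOf_some h₁)⟩
    · refine ⟨⟨-Point.some x₁ y₁ h₁, by simp only [smul_neg, h, neg_neg]⟩, Subtype.ext ?_⟩
      change xOf (-Point.some x₁ y₁ h₁) = x₁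
      rw [xOf_neg, xOf_some]

/-- **`#E[n] = n²`** over an algebraically closed field with `2 ≠ 0`, `(n : K) ≠ 0`. -/
theorem ec_card_torsion (hΔ : W.Δ ≠ 0) (h2 : (2 : K) ≠ 0) {n : ℕ} (hn : (n : K) ≠ 0) :
    Nat.card {P : W.toAffine.Point // n • P = 0} = n ^ 2 := by
  obtain ⟨Q₀, hcard⟩ := ec_card_fibre hΔ h2 hn
  obtain ⟨Q₁, hQ₁⟩ := ec_nsmul_surjective hΔ h2 hn Q₀
  rw [← hcard]
  refine Nat.card_congr
    { toFun := fun P => ⟨Q₁ + P.1, by
        change n • (Q₁ + P.1) = Q₀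
        rw [smul_add, P.2, add_zero]; exact hQ₁⟩
      invFun := fun Q => ⟨Q.1 - Q₁, by
        change n • (Q.1 - Q₁) = 0
        rw [smul_sub, Q.2]
        change Q₀ - n • Q₁ = 0
        rw [sub_eq_zero]; exact hQ₁.symm⟩
      left_inv := fun P => Subtype.ext (by simp)
      right_inv := fun Q => Subtype.ext (by simp) }

/-- `E[n]` is finite. -/
theorem ec_finite_torsion (hΔ : W.Δ ≠ 0) (h2 : (2 : K) ≠ 0) {n : ℕ} (hn : (n : K) ≠ 0) :
    Finite {P : W.toAffine.Point // n • P = 0} := by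
  apply Nat.finite_of_card_ne_zero
  rw [ec_card_torsion hΔ h2 hn]
  have hn1 : n ≠ 0 := by
    rintro rfl
    simp at hn
  exact pow_ne_zero 2 hn1

/-- `#E[n] = n²`, for `Submodule.torsionBy ℤ`. -/
theorem ec_card_torsionBy (hΔ : W.Δ ≠ 0) (h2 : (2 : K) ≠ 0) {n : ℕ} (hn : (n : K) ≠ 0) :
    Nat.card (Submodule.torsionBy ℤ W.toAffine.Point (n : ℤ)) = n ^ 2 := by
  rw [← ec_card_torsion hΔ h2 hn]
  refine Nat.card_congr (Equiv.subtypeEquivRight fun P => ?_)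
  rw [Submodule.mem_torsionBy_iff, natCast_zsmul]

/-- `E[n]` is finite, for `Submodule.torsionBy ℤ`. -/
theorem ec_finite_torsionBy (hΔ : W.Δ ≠ 0) (h2 : (2 : K) ≠ 0) {n : ℕ} (hn : (n : K) ≠ 0) :
    Finite (Submodule.torsionBy ℤ W.toAffine.Point (n : ℤ)) := by
  apply Nat.finite_of_card_ne_zero
  rw [ec_card_torsionBy hΔ h2 hn]
  have hn1 : n ≠ 0 := by
    rintro rfl
    simp at hn
  exact pow_ne_zero 2 hn1

end Count

end Fermat.Agent.EC


end ZBEC_002_1
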