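/- GENERATED FILE (helper35, build-time optimisation, NOTES/ZB.md): verbatim concatenation of the modules
   Fermat.Agent.ES.HeckeP
   Fermat.Agent.ES.PeriodHeckeP
   Fermat.Agent.ES.PeriodEigen
   Fermat.Agent.ES.HeckePPar
   Fermat.Agent.ES.EigenSupport
   Fermat.Agent.ES.Top2
   Fermat.Agent.ES.Faith
   Fermat.Agent.ES.HeckeHomEq
   Fermat.Agent.ES.HeckeCommP
   Fermat.Agent.ES.EigenSupportGen
   Fermat.Agent.ES.TopFaith
   Fermat.Agent.RIB.MP.TorsDivPlan
   Fermat.Agent.ES.RC.HeckeProdLaurent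
   Fermat.Agent.R38.PlanHol
   Fermat.Agent.R38.HolKillFinal
   Do not edit; do not import together with these modules. -/
import Mathlib
import Fermat.Prelude.Sol.S_ModularForm_heckeT_slash_eq_self_of_mem_Gamma0
import Fermat.Prelude.Def_ModularCurve_PeriodMap
import Fermat.Agent.ZB.S21_001
import Fermat.Agent.ZB.S21_002
import Fermat.Agent.ZB.S49_001
import Fermat.Agent.ZB.ES_008
import Fermat.Agent.ZB.ES_001
import Fermat.Agent.ZB.Cheb_001
import Fermat.Agent.ZB.S22_002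
import Fermat.Agent.ZB.S41_001
import Fermat.Agent.ZB.ES_002
import Fermat.Agent.ZB.S24_006

/-! ### bundled: `Fermat.Agent.ES.HeckeP` -/
section ZBES_009_0

/-!
# ESpkg-G1, piece A4 (part 1): Hecke operators on `Hom(Γ₀(N), A)`

For a prime `p ∤ N` the prelude's coset law
`heckeRep p x * g = g' * heckeRep p (ḡ • x)` (`x ∈ ℙ¹(𝔽_p)`, `g, g' ∈ Γ₀(N)`)
defines `κ(g, x) := g'` with the cocycle identity `κ(gh, x) = κ(g, x) κ(h, x·g)`.  The Hecke
operator on homomorphisms is `(T_p φ)(g) = ∑_x φ(κ(g, x))`.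
-/

set_option autoImplicit false

noncomputable section

namespace Fermat.Agent.ES.HeckeP

open Matrix Matrix.SpecialLinearGroup CongruenceSubgroup
open P2MW.S_ModularForm_heckeT_slash_eq_self_of_mem_Gamma0.ModularForm.HeckeSlashInvariance
open scoped MatrixGroups

variable {p : ℕ} [Fact p.Prime] {N : ℕ}

/-- `g ↦ redMatrix p g` is an anti-homomorphism. -/
theorem redMatrix_mul (g h : SL(2, ℤ)) : redMatrix p (g * h) = redMatrix p h * redMatrix p g := by
  apply Matrix.GeneralLinearGroup.ext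
  intro i j
  rw [Matrix.GeneralLinearGroup.coe_mul, Matrix.mul_apply, Fin.sum_univ_two]
  fin_cases i <;> fin_cases j <;>
    simp [redMatrix, Matrix.SpecialLinearGroup.coe_mul, Matrix.mul_apply, Fin.sum_univ_two] <;>
    ring

theorem redMatrix_one : redMatrix p (1 : SL(2, ℤ)) = 1 := by
  apply Matrix.GeneralLinearGroup.ext
  intro i j
  fin_cases i <;> fin_cases j <;> simp [redMatrix]

/-- The right action of `SL(2,ℤ)` on the index set `ℙ¹(𝔽_p)`. -/
def idx (g : SL(2, ℤ)) (x : OnePoint (ZMod p)) : OnePoint (ZMod p) := redMatrix p g • x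

theorem idx_mul (g h : SL(2, ℤ)) (x : OnePoint (ZMod p)) : idx (g * h) x = idx h (idx g x) := by
  rw [idx, idx, idx, redMatrix_mul, mul_smul]

theorem idx_one (x : OnePoint (ZMod p)) : idx (1 : SL(2, ℤ)) x = x := by
  rw [idx, redMatrix_one, one_smul]

/-- `x ↦ x·g` as a permutation. -/
def idxPerm (g : SL(2, ℤ)) : Equiv.Perm (OnePoint (ZMod p)) := MulAction.toPerm (redMatrix p g)

theorem idxPerm_apply (g : SL(2, ℤ)) (x : OnePoint (ZMod p)) : idxPerm g x = idx g x := rfl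

theorem exists_kap (hpN : ¬ p ∣ N) (g : Gamma0 N) (x : OnePoint (ZMod p)) :
    ∃ g' : Gamma0 N, heckeRep p x * mapGL ℝ (g : SL(2, ℤ)) =
      mapGL ℝ (g' : SL(2, ℤ)) * heckeRep p (idx (g : SL(2, ℤ)) x) := by
  have hcN : (N : ℤ) ∣ (g : SL(2, ℤ)) 1 0 :=
    (ZMod.intCast_zmod_eq_zero_iff_dvd _ _).mp (Gamma0_mem.mp g.2)
  obtain ⟨g', hg', hmul⟩ := heckeRep_mul hpN (g : SL(2, ℤ)) hcN x
  exact ⟨⟨g', Gamma0_mem.mpr ((ZMod.intCast_zmod_eq_zero_iff_dvd _ _).mpr hg')⟩, hmul⟩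

/-- The element `κ(g, x) ∈ Γ₀(N)` with `α_x g = κ(g, x) α_{x·g}`. -/
def kap (hpN : ¬ p ∣ N) (g : Gamma0 N) (x : OnePoint (ZMod p)) : Gamma0 N :=
  Classical.choose (exists_kap hpN g x)

theorem kap_spec (hpN : ¬ p ∣ N) (g : Gamma0 N) (x : OnePoint (ZMod p)) :
    heckeRep p x * mapGL ℝ (g : SL(2, ℤ)) =
      mapGL ℝ (kap hpN g x : SL(2, ℤ)) * heckeRep p (idx (g : SL(2, ℤ)) x) :=
  Classical.choose_spec (exists_kap hpN g x)

theorem kap_unique (hpN : ¬ p ∣ N) (g : Gamma0 N) (x : OnePoint (ZMod p)) (g' : Gamma0 N)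
    (h : heckeRep p x * mapGL ℝ (g : SL(2, ℤ)) =
      mapGL ℝ (g' : SL(2, ℤ)) * heckeRep p (idx (g : SL(2, ℤ)) x)) : kap hpN g x = g' := by
  have h1 := kap_spec hpN g x
  rw [h] at h1
  have h2 := mul_right_cancel h1
  exact (Subtype.ext (mapGL_injective h2)).symm

theorem kap_mul (hpN : ¬ p ∣ N) (g h : Gamma0 N) (x : OnePoint (ZMod p)) :
    kap hpN (g * h) x = kap hpN g x * kap hpN h (idx (g : SL(2, ℤ)) x) := by
  apply kap_unique
  rw [Subgroup.coe_mul, Subgroup.coe_mul, map_mul, map_mul, ← mul_assoc, kap_spec hpN g x,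
    mul_assoc, kap_spec hpN h, ← mul_assoc, idx_mul]

theorem kap_one (hpN : ¬ p ∣ N) (x : OnePoint (ZMod p)) : kap hpN (1 : Gamma0 N) x = 1 := by
  apply kap_unique
  rw [Subgroup.coe_one, map_one, mul_one, one_mul, idx_one]

/-- If `x·g = x` then `κ(g, x) = α_x g α_x⁻¹`. -/
theorem kap_of_idx_eq (hpN : ¬ p ∣ N) (g : Gamma0 N) (x : OnePoint (ZMod p))
    (hx : idx (g : SL(2, ℤ)) x = x) :
    mapGL ℝ (kap hpN g x : SL(2, ℤ)) = heckeRep p x * mapGL ℝ (g : SL(2, ℤ)) * (heckeRep p x)⁻¹ := by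
  have h := kap_spec hpN g x
  rw [hx] at h
  rw [h, mul_inv_cancel_right]

section hom

variable {A : Type*} [AddCommGroup A]

/-- The Hecke operator `T_p` on `Hom(Γ₀(N), A)`. -/
def heckeHom (hpN : ¬ p ∣ N) (φ : Additive (Gamma0 N) →+ A) : Additive (Gamma0 N) →+ A where
  toFun g := ∑ x : OnePoint (ZMod p), φ (Additive.ofMul (kap hpN (Additive.toMul g) x))
  map_zero' := by
    simp only [toMul_zero, kap_one, ofMul_one, map_zero, Finset.sum_const_zero]
  map_add' g h := by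
    simp only [toMul_add, kap_mul, ofMul_mul, map_add, Finset.sum_add_distrib]
    congr 1
    exact Equiv.sum_comp (idxPerm ((Additive.toMul g : Gamma0 N) : SL(2, ℤ)))
      (fun x => φ (Additive.ofMul (kap hpN (Additive.toMul h) x)))

theorem heckeHom_apply (hpN : ¬ p ∣ N) (φ : Additive (Gamma0 N) →+ A) (g : Gamma0 N) :
    heckeHom hpN φ (Additive.ofMul g) = ∑ x : OnePoint (ZMod p), φ (Additive.ofMul (kap hpN g x)) :=
  rfl

theorem heckeHom_add (hpN : ¬ p ∣ N) (φ ψ : Additive (Gamma0 N) →+ A) :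
    heckeHom hpN (φ + ψ) = heckeHom hpN φ + heckeHom hpN ψ := by
  refine AddMonoidHom.ext fun g => ?_
  obtain ⟨g, rfl⟩ : ∃ g' : Gamma0 N, Additive.ofMul g' = g := ⟨Additive.toMul g, rfl⟩
  rw [AddMonoidHom.add_apply, heckeHom_apply, heckeHom_apply, heckeHom_apply,
    ← Finset.sum_add_distrib]
  rfl

theorem heckeHom_zero (hpN : ¬ p ∣ N) : heckeHom hpN (0 : Additive (Gamma0 N) →+ A) = 0 := by
  refine AddMonoidHom.ext fun g => ?_
  obtain ⟨g, rfl⟩ : ∃ g' : Gamma0 N, Additive.ofMul g' = g := ⟨Additive.toMul g, rfl⟩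
  rw [heckeHom_apply]
  simp

/-- Naturality in the coefficient group. -/
theorem heckeHom_comp (hpN : ¬ p ∣ N) {B : Type*} [AddCommGroup B] (f : A →+ B)
    (φ : Additive (Gamma0 N) →+ A) : heckeHom hpN (f.comp φ) = f.comp (heckeHom hpN φ) := by
  refine AddMonoidHom.ext fun g => ?_
  obtain ⟨g, rfl⟩ : ∃ g' : Gamma0 N, Additive.ofMul g' = g := ⟨Additive.toMul g, rfl⟩
  rw [AddMonoidHom.comp_apply, heckeHom_apply, heckeHom_apply, map_sum]
  rfl

/-- `T_p` as a linear map. -/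
def heckeHomL (hpN : ¬ p ∣ N) (R : Type*) [Semiring R] [Module R A] :
    (Additive (Gamma0 N) →+ A) →ₗ[R] (Additive (Gamma0 N) →+ A) where
  toFun := heckeHom hpN
  map_add' := heckeHom_add hpN
  map_smul' c φ := by
    refine AddMonoidHom.ext fun g => ?_
    obtain ⟨g, rfl⟩ : ∃ g' : Gamma0 N, Additive.ofMul g' = g := ⟨Additive.toMul g, rfl⟩
    rw [RingHom.id_apply, AddMonoidHom.smul_apply, heckeHom_apply, heckeHom_apply,
      Finset.smul_sum]
    rfl

theorem heckeHomL_apply (hpN : ¬ p ∣ N) (R : Type*) [Semiring R] [Module R A]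
    (φ : Additive (Gamma0 N) →+ A) : heckeHomL hpN R φ = heckeHom hpN φ := rfl

end hom

end Fermat.Agent.ES.HeckeP

end
end ZBES_009_0

/-! ### bundled: `Fermat.Agent.ES.PeriodHeckeP` -/
section ZBES_009_1

/-!
# The period map intertwines `T_p` on cusp forms with `HeckeP.heckeHom` on `Hom(Γ₀(N), ℂ)`

`periodMap N (T_p f) = HeckeP.heckeHom hpN (periodMap N f)` for a prime `p ∤ N`
(ESpkg-G1, bridge between S21 and pieces A4/A5).
-/

set_option autoImplicit false

namespace Fermat.Agent.ES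

open UpperHalfPlane ModularForm CongruenceSubgroup ModularCurve ModularCurve.Period
open scoped MatrixGroups ModularForm

variable {N p : ℕ} [NeZero N] [hp : Fact p.Prime]

/-- **Hecke-equivariance of the period map** (prime `p ∤ N`, helper94's `HeckeP.heckeHom`). -/
theorem periodMap_heckeTLin_eq_heckeP (hpN : ¬ p ∣ N) (f : CuspForm (Gamma0 N) 2) :
    periodMap N (CuspForm.heckeTLin 2 hp.out hpN f) = HeckeP.heckeHom hpN (periodMap N f) := by
  refine AddMonoidHom.ext fun γ => ?_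
  obtain ⟨γ, rfl⟩ : ∃ γ' : Gamma0 N, Additive.ofMul γ' = γ := ⟨Additive.toMul γ, rfl⟩
  rw [HeckeP.heckeHom_apply]
  exact periodMap_heckeTLin_apply hpN f γ (fun x => HeckeP.kap hpN γ x)
    (fun x => HeckeP.kap_spec hpN γ x)

/-- Eigenvector form: if `T_p f = c • f` then `HeckeP.heckeHom (periodMap f) = c • periodMap f`. -/
theorem heckeP_periodMap_eq_smul (hpN : ¬ p ∣ N) (f : CuspForm (Gamma0 N) 2) (c : ℂ)
    (hf : CuspForm.heckeTLin 2 hp.out hpN f = c • f) :
    HeckeP.heckeHom hpN (periodMap N f) = c • periodMap N f := by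
  rw [← periodMap_heckeTLin_eq_heckeP, hf, Fermat.Agent.S21.periodMap_smul]

end Fermat.Agent.ES


end ZBES_009_1

/-! ### bundled: `Fermat.Agent.ES.PeriodEigen` -/
section ZBES_009_2

/-!
# The period class of a normalized eigenform is a Hecke eigenvector in `Hom_par(Γ₀(M), ℂ)`

Input of ESpkg-G1 piece A5 from the analytic side: for a normalized eigenform `g` of level `M`
there is a nonzero parabolic homomorphism `φ : Γ₀(M) → ℂ` with
`T_ℓ φ = a_ℓ(g) • φ` for every prime `ℓ ∤ M` (`T_ℓ = HeckeP.heckeHom`).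
-/

set_option autoImplicit false

namespace Fermat.Agent.ES

open UpperHalfPlane ModularForm CongruenceSubgroup ModularCurve ModularCurve.Period
open ModularFormClass
open scoped MatrixGroups ModularForm

variable {M : ℕ} [NeZero M]

/-- The period map of level `M` is injective on cusp forms. -/
theorem periodMap_eq_zero_iff (f : CuspForm (Gamma0 M) 2) : periodMap M f = 0 ↔ f = 0 := by
  constructor
  · intro h
    have h0 : periodMap M (0 : CuspForm (Gamma0 M) 2) = 0 :=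
      (Fermat.Agent.S21.periodMapLinear M).map_zero
    have h1 : periodHomPair M (f, 0) = periodHomPair M (0, 0) := by
      rw [Fermat.Agent.S21.periodHomPair_apply, Fermat.Agent.S21.periodHomPair_apply, h, h0]
    have := Fermat.Agent.S21.periodHomPair_injective M h1
    exact (Prod.mk.inj this).1
  · rintro rfl
    exact (Fermat.Agent.S21.periodMapLinear M).map_zero

/-- The period class of a normalized eigenform is an eigenvector of every `T_ℓ`, `ℓ ∤ M`. -/
theorem heckeP_periodMap_eigenform (g : CuspForm (Gamma0 M) 2) (hg : g.IsNormalizedEigenform)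
    {ℓ : ℕ} [hℓ : Fact ℓ.Prime] (hℓM : ¬ ℓ ∣ M) :
    HeckeP.heckeHom hℓM (periodMap M g) = qCoeff ⇑g ℓ • periodMap M g :=
  heckeP_periodMap_eq_smul hℓM g _ (Fermat.Agent.S42.heckeTLin_apply_eq_smul g hg hℓ.out hℓM)

/-- **Analytic input of A5.** Every normalized eigenform of level `M` gives a nonzero parabolic
homomorphism `Γ₀(M) → ℂ` which is a simultaneous eigenvector of the operators `T_ℓ`, `ℓ ∤ M`,
with eigenvalues `a_ℓ(g)`. -/
theorem exists_eigen_parabolicHom (g : CuspForm (Gamma0 M) 2) (hg : g.IsNormalizedEigenform) :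
    ∃ φ : Additive (Gamma0 M) →+ ℂ, φ ≠ 0 ∧ φ ∈ parabolicHoms ℂ (Gamma0 M) ℂ ∧
      ∀ (ℓ : ℕ) [Fact ℓ.Prime] (hℓM : ¬ ℓ ∣ M),
        HeckeP.heckeHom hℓM φ = qCoeff ⇑g ℓ • φ := by
  refine ⟨periodMap M g, ?_, Fermat.Agent.S21.periodMap_mem_parabolicHoms M g, ?_⟩
  · intro h
    exact Fermat.Agent.S42.normalizedEigenform_ne_zero g hg ((periodMap_eq_zero_iff g).mp h)
  · intro ℓ _ hℓM
    exact heckeP_periodMap_eigenform g hg hℓM

end Fermat.Agent.ES


end ZBES_009_2

/-! ### bundled: `Fermat.Agent.ES.HeckePPar` -/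
section ZBES_009_3

/-!
# ESpkg-G1, piece A4 (part 2): `T_p` preserves parabolic homomorphisms

If `tr(g)² = 4` then for every cycle `x₀ → x₁ → … → x_{r-1} → x₀` of `x ↦ x·g` on `ℙ¹(𝔽_p)` the
product `κ(g,x₀) ⋯ κ(g,x_{r-1}) = κ(g^r, x₀) = α_{x₀} g^r α_{x₀}⁻¹` has trace `tr(g^r) = ±2`.
Hence a parabolic `φ` has `∑_x φ(κ(g,x)) = 0`.
-/

set_option autoImplicit false

noncomputable section

namespace Fermat.Agent.ES.HeckeP

open Matrix Matrix.SpecialLinearGroup CongruenceSubgroup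
open P2MW.S_ModularForm_heckeT_slash_eq_self_of_mem_Gamma0.ModularForm.HeckeSlashInvariance
open scoped MatrixGroups

/-- A sum over a finite set stable under a permutation vanishes if it vanishes on every cycle. -/
theorem sum_eq_zero_of_cycle_sums {X A : Type*} [DecidableEq X] [AddCommMonoid A]
    (σ : Equiv.Perm X) (f : X → A) (s : Finset X) (hs : ∀ x ∈ s, σ x ∈ s)
    (h : ∀ x ∈ s, ∃ r : ℕ, 0 < r ∧ (σ ^ r) x = x ∧
      (∀ i < r, ∀ j < r, (σ ^ i) x = (σ ^ j) x → i = j) ∧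
      ∑ j ∈ Finset.range r, f ((σ ^ j) x) = 0) :
    ∑ x ∈ s, f x = 0 := by
  induction s using Finset.strongInduction with
  | H s ih =>
    rcases s.eq_empty_or_nonempty with rfl | ⟨x, hx⟩
    · simp
    obtain ⟨r, hr0, hrx, hinj, hsum⟩ := h x hx
    set O : Finset X := (Finset.range r).image (fun j => (σ ^ j) x) with hO
    have hpow : ∀ j : ℕ, (σ ^ j) x ∈ s := by
      intro j
      induction j with
      | zero => simpa using hx
      | succ j ihj =>
        rw [pow_succ', Equiv.Perm.mul_apply]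
        exact hs _ ihj
    have hOs : O ⊆ s := by
      intro y hy
      rw [hO, Finset.mem_image] at hy
      obtain ⟨j, _, rfl⟩ := hy
      exact hpow j
    have hxO : x ∈ O := by
      rw [hO, Finset.mem_image]
      exact ⟨0, Finset.mem_range.2 hr0, by simp⟩
    have hsumO : ∑ y ∈ O, f y = 0 := by
      rw [hO, Finset.sum_image, hsum]
      intro i hi j hj hij
      exact hinj i (Finset.mem_range.1 hi) j (Finset.mem_range.1 hj) hij
    have hstab : ∀ y ∈ s \ O, σ y ∈ s \ O := by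
      intro y hy
      rw [Finset.mem_sdiff] at hy ⊢
      refine ⟨hs y hy.1, fun hσy => hy.2 ?_⟩
      rw [hO, Finset.mem_image] at hσy ⊢
      obtain ⟨j, hj, hjy⟩ := hσy
      rcases Nat.eq_zero_or_pos j with rfl | hjpos
      · -- σ y = x = σ^r x
        refine ⟨r - 1, Finset.mem_range.2 (by omega), ?_⟩
        apply σ.injective
        show σ ((σ ^ (r - 1)) x) = σ y
        rw [← Equiv.Perm.mul_apply, ← pow_succ', Nat.sub_add_cancel hr0, hrx, ← hjy]
        simp
      · refine ⟨j - 1, Finset.mem_range.2 (by have := Finset.mem_range.1 hj; omega), ?_⟩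
        apply σ.injective
        show σ ((σ ^ (j - 1)) x) = σ y
        rw [← Equiv.Perm.mul_apply, ← pow_succ', Nat.sub_add_cancel hjpos, hjy]
    have hlt : s \ O ⊂ s := by
      refine ⟨Finset.sdiff_subset, fun hsub => ?_⟩
      have := hsub hx
      rw [Finset.mem_sdiff] at this
      exact this.2 hxO
    have h' := ih (s \ O) hlt hstab (fun y hy => h y (Finset.mem_sdiff.1 hy).1)
    rw [← Finset.sum_sdiff hOs, h', hsumO, add_zero]

/-- Version for a whole finite type, with minimal periods. -/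
theorem sum_univ_eq_zero_of_cycle_sums {X A : Type*} [Fintype X] [DecidableEq X]
    [AddCommMonoid A] (σ : Equiv.Perm X) (f : X → A)
    (h : ∀ (x : X) (r : ℕ), 0 < r → (σ ^ r) x = x → ∑ j ∈ Finset.range r, f ((σ ^ j) x) = 0) :
    ∑ x, f x = 0 := by
  refine sum_eq_zero_of_cycle_sums σ f Finset.univ (fun _ _ => Finset.mem_univ _) ?_
  intro x _
  have hper : x ∈ Function.periodicPts σ := by
    refine Function.mk_mem_periodicPts (orderOf_pos σ) ?_
    show (σ : X → X)^[orderOf σ] x = x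
    rw [Equiv.Perm.iterate_eq_pow, pow_orderOf_eq_one]
    rfl
  have hr0 := Function.minimalPeriod_pos_of_mem_periodicPts hper
  have hrx : (σ ^ Function.minimalPeriod σ x) x = x := by
    have := Function.isPeriodicPt_minimalPeriod σ x
    rw [Function.IsPeriodicPt, Function.IsFixedPt, Equiv.Perm.iterate_eq_pow] at this
    exact this
  refine ⟨Function.minimalPeriod σ x, hr0, hrx, ?_, h x _ hr0 hrx⟩
  intro i hi j hj hij
  have hinj := Function.iterate_injOn_Iio_minimalPeriod (f := (σ : X → X)) (x := x)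
  refine hinj (Set.mem_Iio.2 hi) (Set.mem_Iio.2 hj) ?_
  show (σ : X → X)^[i] x = (σ : X → X)^[j] x
  rw [Equiv.Perm.iterate_eq_pow, Equiv.Perm.iterate_eq_pow]
  exact hij

variable {p : ℕ} [Fact p.Prime] {N : ℕ}

theorem idx_pow (g : SL(2, ℤ)) (j : ℕ) (x : OnePoint (ZMod p)) :
    idx (g ^ j) x = ((idxPerm g) ^ j) x := by
  induction j with
  | zero => rw [pow_zero, pow_zero, idx_one]; rfl
  | succ j ih =>
    rw [pow_succ, idx_mul, ih, pow_succ', Equiv.Perm.mul_apply]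
    rfl

section hom

variable {A : Type*} [AddCommGroup A]

theorem sum_range_kap (hpN : ¬ p ∣ N) (φ : Additive (Gamma0 N) →+ A) (g : Gamma0 N)
    (x : OnePoint (ZMod p)) (n : ℕ) :
    ∑ j ∈ Finset.range n, φ (Additive.ofMul
        (kap hpN g (((idxPerm (g : SL(2, ℤ))) ^ j) x))) =
      φ (Additive.ofMul (kap hpN (g ^ n) x)) := by
  induction n with
  | zero => simp [kap_one]
  | succ n ih =>
    rw [Finset.sum_range_succ, ih, pow_succ, kap_mul, ofMul_mul, map_add, Subgroup.coe_pow,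
      idx_pow]

/-- trace of a power of an element of `SL(2,ℤ)` with `tr² = 4`. -/
theorem trace_pow_sq_eq_four (g : SL(2, ℤ))
    (hg : (g : Matrix (Fin 2) (Fin 2) ℤ).trace ^ 2 = 4) (n : ℕ) :
    ((g ^ n : SL(2, ℤ)) : Matrix (Fin 2) (Fin 2) ℤ).trace ^ 2 = 4 := by
  -- Cayley–Hamilton: g² = tr(g) g - 1
  set t : ℤ := (g : Matrix (Fin 2) (Fin 2) ℤ).trace with ht
  have hdet : (g : Matrix (Fin 2) (Fin 2) ℤ) 0 0 * (g : Matrix (Fin 2) (Fin 2) ℤ) 1 1 -
      (g : Matrix (Fin 2) (Fin 2) ℤ) 0 1 * (g : Matrix (Fin 2) (Fin 2) ℤ) 1 0 = 1 := by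
    have h := g.det_coe
    rwa [Matrix.det_fin_two] at h
  have hCH : (g : Matrix (Fin 2) (Fin 2) ℤ) * (g : Matrix (Fin 2) (Fin 2) ℤ) =
      t • (g : Matrix (Fin 2) (Fin 2) ℤ) - 1 := by
    ext i j
    rw [Matrix.sub_apply, Matrix.smul_apply, smul_eq_mul, Matrix.mul_apply, Fin.sum_univ_two, ht,
      Matrix.trace_fin_two]
    fin_cases i <;> fin_cases j
    · show (g : Matrix (Fin 2) (Fin 2) ℤ) 0 0 * (g : Matrix (Fin 2) (Fin 2) ℤ) 0 0 +
          (g : Matrix (Fin 2) (Fin 2) ℤ) 0 1 * (g : Matrix (Fin 2) (Fin 2) ℤ) 1 0 =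
        ((g : Matrix (Fin 2) (Fin 2) ℤ) 0 0 + (g : Matrix (Fin 2) (Fin 2) ℤ) 1 1) *
          (g : Matrix (Fin 2) (Fin 2) ℤ) 0 0 - (1 : Matrix (Fin 2) (Fin 2) ℤ) 0 0
      rw [Matrix.one_apply_eq]
      linear_combination (-1 : ℤ) * hdet
    · show (g : Matrix (Fin 2) (Fin 2) ℤ) 0 0 * (g : Matrix (Fin 2) (Fin 2) ℤ) 0 1 +
          (g : Matrix (Fin 2) (Fin 2) ℤ) 0 1 * (g : Matrix (Fin 2) (Fin 2) ℤ) 1 1 =
        ((g : Matrix (Fin 2) (Fin 2) ℤ) 0 0 + (g : Matrix (Fin 2) (Fin 2) ℤ) 1 1) *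
          (g : Matrix (Fin 2) (Fin 2) ℤ) 0 1 - (1 : Matrix (Fin 2) (Fin 2) ℤ) 0 1
      rw [Matrix.one_apply_ne (by decide : (0 : Fin 2) ≠ 1)]
      ring
    · show (g : Matrix (Fin 2) (Fin 2) ℤ) 1 0 * (g : Matrix (Fin 2) (Fin 2) ℤ) 0 0 +
          (g : Matrix (Fin 2) (Fin 2) ℤ) 1 1 * (g : Matrix (Fin 2) (Fin 2) ℤ) 1 0 =
        ((g : Matrix (Fin 2) (Fin 2) ℤ) 0 0 + (g : Matrix (Fin 2) (Fin 2) ℤ) 1 1) *
          (g : Matrix (Fin 2) (Fin 2) ℤ) 1 0 - (1 : Matrix (Fin 2) (Fin 2) ℤ) 1 0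
      rw [Matrix.one_apply_ne (by decide : (1 : Fin 2) ≠ 0)]
      ring
    · show (g : Matrix (Fin 2) (Fin 2) ℤ) 1 0 * (g : Matrix (Fin 2) (Fin 2) ℤ) 0 1 +
          (g : Matrix (Fin 2) (Fin 2) ℤ) 1 1 * (g : Matrix (Fin 2) (Fin 2) ℤ) 1 1 =
        ((g : Matrix (Fin 2) (Fin 2) ℤ) 0 0 + (g : Matrix (Fin 2) (Fin 2) ℤ) 1 1) *
          (g : Matrix (Fin 2) (Fin 2) ℤ) 1 1 - (1 : Matrix (Fin 2) (Fin 2) ℤ) 1 1
      rw [Matrix.one_apply_eq]
      linear_combination (-1 : ℤ) * hdet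
  have hrec : ∀ n : ℕ, ((g : Matrix (Fin 2) (Fin 2) ℤ) ^ (n + 2)).trace =
      t * ((g : Matrix (Fin 2) (Fin 2) ℤ) ^ (n + 1)).trace -
        ((g : Matrix (Fin 2) (Fin 2) ℤ) ^ n).trace := by
    intro n
    have : (g : Matrix (Fin 2) (Fin 2) ℤ) ^ (n + 2) =
        t • (g : Matrix (Fin 2) (Fin 2) ℤ) ^ (n + 1) - (g : Matrix (Fin 2) (Fin 2) ℤ) ^ n := by
      rw [pow_add, pow_two, hCH, mul_sub, mul_one, Matrix.mul_smul, ← pow_succ]
    rw [this, Matrix.trace_sub, Matrix.trace_smul, smul_eq_mul]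
  have ht2 : t = 2 ∨ t = -2 := by
    have h1 : (t - 2) * (t + 2) = 0 := by linear_combination hg
    rcases mul_eq_zero.1 h1 with h | h
    · left; omega
    · right; omega
  have key : ∀ n : ℕ, ((g : Matrix (Fin 2) (Fin 2) ℤ) ^ n).trace ^ 2 = 4 ∧
      ((g : Matrix (Fin 2) (Fin 2) ℤ) ^ (n + 1)).trace =
        (t / 2) * ((g : Matrix (Fin 2) (Fin 2) ℤ) ^ n).trace := by
    intro n
    induction n with
    | zero =>
      refine ⟨by simp, ?_⟩
      rw [pow_zero, zero_add, pow_one]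
      rcases ht2 with h | h <;> rw [← ht, h] <;> simp
    | succ n ih =>
      obtain ⟨ih1, ih2⟩ := ih
      have e2 : ((g : Matrix (Fin 2) (Fin 2) ℤ) ^ (n + 1 + 1)).trace =
          (t / 2) * ((g : Matrix (Fin 2) (Fin 2) ℤ) ^ (n + 1)).trace := by
        rw [hrec n, ih2]
        rcases ht2 with h | h <;> rw [h] <;> norm_num <;> ring
      refine ⟨?_, e2⟩
      rw [ih2, mul_pow, ih1]
      rcases ht2 with h | h <;> rw [h] <;> norm_num
  rw [Matrix.SpecialLinearGroup.coe_pow]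
  exact (key n).1

theorem trace_mapGL (g : SL(2, ℤ)) :
    ((mapGL ℝ g : GL (Fin 2) ℝ) : Matrix (Fin 2) (Fin 2) ℝ).trace =
      (((g : Matrix (Fin 2) (Fin 2) ℤ).trace : ℤ) : ℝ) := by
  rw [Matrix.trace_fin_two, Matrix.trace_fin_two]
  push_cast
  simp

/-- `T_p` preserves parabolic homomorphisms. -/
theorem heckeHom_isParabolicHom (hpN : ¬ p ∣ N) {φ : Additive (Gamma0 N) →+ A}
    (hφ : ModularCurve.Period.IsParabolicHom (Gamma0 N) φ) :
    ModularCurve.Period.IsParabolicHom (Gamma0 N) (heckeHom hpN φ) := by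
  classical
  intro g hg
  rw [heckeHom_apply]
  refine sum_univ_eq_zero_of_cycle_sums (idxPerm (g : SL(2, ℤ)))
    (fun x => φ (Additive.ofMul (kap hpN g x))) ?_
  intro x r _ hrx
  rw [sum_range_kap]
  refine hφ _ ?_
  have hidx : idx (((g ^ r : Gamma0 N) : SL(2, ℤ))) x = x := by
    rw [Subgroup.coe_pow, idx_pow]
    exact hrx
  have h1 := kap_of_idx_eq hpN (g ^ r) x hidx
  have h2 : (((kap hpN (g ^ r) x : Gamma0 N) : SL(2, ℤ)) : Matrix (Fin 2) (Fin 2) ℤ).trace =
      (((g ^ r : Gamma0 N) : SL(2, ℤ)) : Matrix (Fin 2) (Fin 2) ℤ).trace := by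
    have h3 := congrArg (fun M : GL (Fin 2) ℝ => (M : Matrix (Fin 2) (Fin 2) ℝ).trace) h1
    simp only [Matrix.GeneralLinearGroup.coe_mul] at h3
    have h4 : ((heckeRep p x : GL (Fin 2) ℝ) : Matrix (Fin 2) (Fin 2) ℝ) *
        ((mapGL ℝ ((g ^ r : Gamma0 N) : SL(2, ℤ)) : GL (Fin 2) ℝ) : Matrix (Fin 2) (Fin 2) ℝ) *
        (((heckeRep p x)⁻¹ : GL (Fin 2) ℝ) : Matrix (Fin 2) (Fin 2) ℝ) =
        (((heckeRep p x : GL (Fin 2) ℝ) : (Matrix (Fin 2) (Fin 2) ℝ)ˣ) : Matrix (Fin 2) (Fin 2) ℝ) *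
        ((mapGL ℝ ((g ^ r : Gamma0 N) : SL(2, ℤ)) : GL (Fin 2) ℝ) : Matrix (Fin 2) (Fin 2) ℝ) *
        ((((heckeRep p x : GL (Fin 2) ℝ) : (Matrix (Fin 2) (Fin 2) ℝ)ˣ)⁻¹ :
          (Matrix (Fin 2) (Fin 2) ℝ)ˣ) : Matrix (Fin 2) (Fin 2) ℝ) := rfl
    rw [h4, Matrix.trace_units_conj, trace_mapGL, trace_mapGL] at h3
    exact_mod_cast h3
  rw [h2, Subgroup.coe_pow]
  exact trace_pow_sq_eq_four _ hg r

theorem heckeHom_mem_parabolicHoms (hpN : ¬ p ∣ N) (R : Type*) [Semiring R] [Module R A]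
    {φ : Additive (Gamma0 N) →+ A}
    (hφ : φ ∈ ModularCurve.Period.parabolicHoms R (Gamma0 N) A) :
    heckeHom hpN φ ∈ ModularCurve.Period.parabolicHoms R (Gamma0 N) A :=
  heckeHom_isParabolicHom hpN hφ

end hom

end Fermat.Agent.ES.HeckeP

end
end ZBES_009_3

/-! ### bundled: `Fermat.Agent.ES.EigenSupport` -/
section ZBES_009_4

/-!
# ESpkg-G1 piece A5: every eigensystem mod `𝔪` occurs in `Hom_par(Γ₀(M), 𝔽_p)` (helper39)

* `eigenSupport_words` : for a normalized eigenform `g` of level `M` and a proper ideal `𝔪 ∋ p` of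
  `ℤ̄` there is an INTEGRAL parabolic homomorphism `x : Γ₀(M) → ℤ` whose reduction mod `p` is
  nonzero and is killed by every word `w` in the Hecke operators `T_ℓ` (`ℓ ∤ M p`,
  `T_ℓ = HeckeP.heckeHom`) whose value on the eigensystem of `g` lies in `𝔪`.
* `supp_of_multiplier` : the `supp` field of `ESData M p V` for every Hecke module `V` with an
  injective Hecke-equivariant map `μ : V → Hom(Γ₀(M), 𝔽_p)` whose image contains the reductions of
  the integral parabolic homomorphisms.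
-/

set_option autoImplicit false

namespace Fermat.Agent.ES

open CongruenceSubgroup ModularCurve ModularCurve.Period ModularFormClass
open scoped MatrixGroups

variable (M p : ℕ)

/-- the good primes `ℓ ∤ M p`, as a type -/
abbrev GoodPrime : Type := ↥(goodPrimes M p)

variable {M p}

lemma GoodPrime.not_dvd (ℓ : GoodPrime M p) : ¬ ((ℓ : Nat.Primes) : ℕ) ∣ M :=
  fun h => ℓ.2 (dvd_mul_of_dvd_left h p)

variable (M p)

/-- the operator `T_ℓ` on `Hom(Γ₀(M), A)`, for a good prime `ℓ` -/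
noncomputable def heckeOp (ℓ : GoodPrime M p) (A : Type) [AddCommGroup A] :
    (Additive (Gamma0 M) →+ A) →+ (Additive (Gamma0 M) →+ A) :=
  haveI : Fact ((ℓ : Nat.Primes) : ℕ).Prime := ⟨ℓ.1.2⟩
  (HeckeP.heckeHomL (GoodPrime.not_dvd ℓ) ℤ).toAddMonoidHom

variable {M p}

lemma heckeOp_apply (ℓ : GoodPrime M p) (A : Type) [AddCommGroup A]
    (φ : Additive (Gamma0 M) →+ A) :
    heckeOp M p ℓ A φ =
      @HeckeP.heckeHom ((ℓ : Nat.Primes) : ℕ) ⟨ℓ.1.2⟩ M A _ (GoodPrime.not_dvd ℓ) φ := rfl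

lemma heckeOp_natural (ℓ : GoodPrime M p) (A A' : Type) [AddCommGroup A] [AddCommGroup A']
    (f : A →+ A') (φ : Additive (Gamma0 M) →+ A) :
    heckeOp M p ℓ A' (f.comp φ) = f.comp (heckeOp M p ℓ A φ) := by
  have : Fact ((ℓ : Nat.Primes) : ℕ).Prime := ⟨ℓ.1.2⟩
  rw [heckeOp_apply, heckeOp_apply]
  exact HeckeP.heckeHom_comp (GoodPrime.not_dvd ℓ) f φ

/-- the set of elements of trace `±2` -/
def parabolicSet (M : ℕ) : Set (Gamma0 M) :=
  {γ | ((γ : SL(2, ℤ)) : Matrix (Fin 2) (Fin 2) ℤ).trace ^ 2 = 4}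

lemma mem_intHoms_parabolicSet {φ : Additive (Gamma0 M) →+ ℤ} :
    φ ∈ intHoms (Gamma0 M) (parabolicSet M) ↔ IsParabolicHom (Gamma0 M) φ := Iff.rfl

/-- **A5 (word form).** -/
theorem eigenSupport_words [NeZero M] [Fact p.Prime] (g : CuspForm (Gamma0 M) 2)
    (hg : g.IsNormalizedEigenform) (𝔪 : Ideal Zbar) (h𝔪 : 𝔪 ≠ ⊤) (hp : (p : Zbar) ∈ 𝔪) :
    ∃ x : Additive (Gamma0 M) →+ ℤ, IsParabolicHom (Gamma0 M) x ∧
      (Int.castAddHom (ZMod p)).comp x ≠ 0 ∧
      ∀ w : FreeAlgebra ℤ (GoodPrime M p),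
        (∃ z ∈ 𝔪, (z : ℂ) = FreeAlgebra.lift ℤ
          (fun ℓ : GoodPrime M p => qCoeff ⇑g ((ℓ : Nat.Primes) : ℕ)) w) →
        wordOp (heckeOp M p) (ZMod p) w ((Int.castAddHom (ZMod p)).comp x) = 0 := by
  obtain ⟨v, hv0, hvP, hv⟩ := exists_eigen_parabolicHom g hg
  have : Group.FG (Gamma0 M) := (Group.fg_iff_subgroup_fg _).mpr (Fermat.Agent.S22.gamma0_fg M)
  obtain ⟨x, hxP, hx0, hx⟩ := exists_modp_eigen_hom_words (G := Gamma0 M)
    (T := heckeOp M p) (parabolicSet M)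
    (fun ℓ A A' _ _ f φ => heckeOp_natural ℓ A A' f φ)
    (fun ℓ φ hφ => by
      have : Fact ((ℓ : Nat.Primes) : ℕ).Prime := ⟨ℓ.1.2⟩
      rw [mem_intHoms_parabolicSet] at hφ ⊢
      rw [heckeOp_apply]
      exact HeckeP.heckeHom_isParabolicHom (GoodPrime.not_dvd ℓ) hφ)
    (fun ℓ : GoodPrime M p => qCoeff ⇑g ((ℓ : Nat.Primes) : ℕ)) v hv0
    (fun γ hγ => hvP γ hγ)
    (fun ℓ => by
      have : Fact ((ℓ : Nat.Primes) : ℕ).Prime := ⟨ℓ.1.2⟩
      rw [heckeOp_apply]
      exact hv _ (GoodPrime.not_dvd ℓ))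
    (algebraMap Zbar ℂ) Subtype.val_injective p 𝔪 h𝔪 hp
  exact ⟨x, hxP, hx0, fun w hw => hx w hw⟩

/-! ### Transfer to a Hecke module `V` -/

variable (M p) in
/-- the commutative image of a word -/
noncomputable def wordPoly : FreeAlgebra ℤ (GoodPrime M p) →ₐ[ℤ] HeckeAlg :=
  FreeAlgebra.lift ℤ (fun ℓ : GoodPrime M p => heckeGen (ℓ : Nat.Primes))

@[simp] lemma wordPoly_ι (ℓ : GoodPrime M p) :
    wordPoly M p (FreeAlgebra.ι ℤ ℓ) = heckeGen (ℓ : Nat.Primes) := by
  simp [wordPoly]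

lemma exists_word_of_mem_supported {t : HeckeAlg}
    (ht : t ∈ MvPolynomial.supported ℤ (goodPrimes M p)) : ∃ w, wordPoly M p w = t := by
  have h1 : MvPolynomial.supported ℤ (goodPrimes M p) ≤ (wordPoly M p).range := by
    rw [MvPolynomial.supported_eq_adjoin_X]
    refine Algebra.adjoin_le ?_
    rintro _ ⟨ℓ, hℓ, rfl⟩
    exact ⟨FreeAlgebra.ι ℤ (⟨ℓ, hℓ⟩ : GoodPrime M p), wordPoly_ι (⟨ℓ, hℓ⟩ : GoodPrime M p)⟩
  exact h1 ht

lemma heckeValue_wordPoly (g : CuspForm (Gamma0 M) 2) (w : FreeAlgebra ℤ (GoodPrime M p)) :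
    heckeValue g (wordPoly M p w) = FreeAlgebra.lift ℤ
      (fun ℓ : GoodPrime M p => qCoeff ⇑g ((ℓ : Nat.Primes) : ℕ)) w := by
  have h : (MvPolynomial.aeval (fun ℓ : Nat.Primes => qCoeff ⇑g (ℓ : ℕ))).comp (wordPoly M p)
      = FreeAlgebra.lift ℤ (fun ℓ : GoodPrime M p => qCoeff ⇑g ((ℓ : Nat.Primes) : ℕ)) := by
    apply FreeAlgebra.hom_ext
    funext ℓ
    simp [heckeGen]
  exact DFunLike.congr_fun h w

/-- `μ` intertwines polynomials with words -/
lemma multiplier_wordPoly {V : Type} [AddCommGroup V] [Module HeckeAlg V]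
    (μ : V →+ (Additive (Gamma0 M) →+ ZMod p))
    (hμT : ∀ (ℓ : GoodPrime M p) (v : V),
      μ (heckeGen (ℓ : Nat.Primes) • v) = heckeOp M p ℓ (ZMod p) (μ v))
    (w : FreeAlgebra ℤ (GoodPrime M p)) (v : V) :
    μ (wordPoly M p w • v) = wordOp (heckeOp M p) (ZMod p) w (μ v) := by
  induction w using FreeAlgebra.induction generalizing v with
  | grade0 r =>
    simp only [AlgHom.commutes, Module.algebraMap_end_apply, algebraMap_smul]
    exact map_zsmul μ r v
  | grade1 ℓ => rw [wordPoly_ι, wordOp_ι, hμT]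
  | mul a b ha hb =>
    simp only [map_mul, Module.End.mul_apply]
    rw [mul_smul, ha, hb]
  | add a b ha hb =>
    simp only [map_add, LinearMap.add_apply]
    rw [add_smul, map_add, ha, hb]

/-- **A5 (module form).**  The `supp` field of `ESData M p V` holds for every Hecke module `V`
with an injective map `μ : V → Hom(Γ₀(M), 𝔽_p)`, equivariant for the good `T_ℓ`, whose image
contains the reductions of the integral parabolic homomorphisms. -/
theorem supp_of_multiplier [NeZero M] [Fact p.Prime] {V : Type} [AddCommGroup V]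
    [Module HeckeAlg V] (μ : V →+ (Additive (Gamma0 M) →+ ZMod p)) (hμ : Function.Injective μ)
    (hμT : ∀ (ℓ : GoodPrime M p) (v : V),
      μ (heckeGen (ℓ : Nat.Primes) • v) = heckeOp M p ℓ (ZMod p) (μ v))
    (hμS : ∀ x : Additive (Gamma0 M) →+ ℤ, IsParabolicHom (Gamma0 M) x →
      (Int.castAddHom (ZMod p)).comp x ∈ Set.range μ) :
    ∀ g : CuspForm (Gamma0 M) 2, g.IsNormalizedEigenform →
      ∀ 𝔪 : Ideal Zbar, 𝔪.IsMaximal → (p : Zbar) ∈ 𝔪 →
        ∃ v : V, v ≠ 0 ∧ ∀ t ∈ MvPolynomial.supported ℤ (goodPrimes M p),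
          (∃ z ∈ 𝔪, (z : ℂ) = heckeValue g t) → t • v = 0 := by
  intro g hg 𝔪 h𝔪 hp
  obtain ⟨x, hxP, hx0, hx⟩ := eigenSupport_words g hg 𝔪 h𝔪.ne_top hp
  obtain ⟨v, hv⟩ := hμS x hxP
  refine ⟨v, ?_, ?_⟩
  · rintro rfl
    rw [map_zero] at hv
    exact hx0 hv.symm
  · intro t ht hz
    obtain ⟨w, rfl⟩ := exists_word_of_mem_supported ht
    apply hμ
    rw [map_zero, multiplier_wordPoly μ hμT, hv]
    apply hx w
    obtain ⟨z, hz𝔪, hzv⟩ := hz
    exact ⟨z, hz𝔪, by rw [hzv, heckeValue_wordPoly]⟩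


end Fermat.Agent.ES


end ZBES_009_4

/-! ### bundled: `Fermat.Agent.ES.Top2` -/
section ZBES_009_5

/-!
# ESpkg, G1: the contract `TorsionUnif` (uniformization of the `p`-power torsion of `J₀(M)(ℚ̄)`)
and the package on `J := ` the `p`-divisible part of the `p`-power torsion of `JZero M`

`TorsionUnif M p`: there is `μ : J[p^∞] → Hom(Γ₀(M), ℂˣ)` (the multiplier of a root of the Kummer
function), additive, injective, Hecke-equivariant for the good primes, and onto the classes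
`e(φ / pⁿ)`, `φ ∈ Hom_par(Γ₀(M), ℤ)`.
-/

set_option autoImplicit false

noncomputable section

namespace Fermat.Agent.ES

open ModularCurve AlgebraicCurve CongruenceSubgroup ModularCurve.Period
open scoped MatrixGroups

/-! ## Generalities on towers -/

section Tower

variable (p : ℕ) {J : Type*} [AddCommGroup J]

/-- `x` is the bottom of a `p`-divisible tower -/
def HasPTower (x : J) : Prop := ∃ y : ℕ → J, y 0 = x ∧ ∀ n, p • y (n + 1) = y n

variable (J) in
/-- the `p`-divisible part of the `p`-power torsion -/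
def pDivTors : AddSubgroup J where
  carrier := {x | IsPPowerTorsion p x ∧ HasPTower p x}
  zero_mem' := ⟨⟨0, by simp⟩, fun _ => 0, rfl, fun _ => by simp⟩
  add_mem' := by
    rintro x y ⟨⟨a, ha⟩, u, hu0, hu⟩ ⟨⟨b, hb⟩, v, hv0, hv⟩
    refine ⟨⟨a + b, ?_⟩, fun n => u n + v n, by simp only [hu0, hv0],
      fun n => by simp only [smul_add, hu, hv]⟩
    have h1 : p ^ (a + b) • x = 0 := by rw [pow_add, mul_comm, mul_smul, ha, smul_zero]
    have h2 : p ^ (a + b) • y = 0 := by rw [pow_add, mul_smul, hb, smul_zero]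
    rw [smul_add, h1, h2, add_zero]
  neg_mem' := by
    rintro x ⟨⟨a, ha⟩, u, hu0, hu⟩
    exact ⟨⟨a, by rw [smul_neg, ha, neg_zero]⟩, fun n => - u n, by simp only [hu0],
      fun n => by simp only [smul_neg, hu]⟩

variable {p}

theorem mem_pDivTors {x : J} : x ∈ pDivTors p J ↔ IsPPowerTorsion p x ∧ HasPTower p x := Iff.rfl

theorem IsPPowerTorsion.map {J' : Type*} [AddCommGroup J'] (f : J →+ J') {x : J}
    (hx : IsPPowerTorsion p x) : IsPPowerTorsion p (f x) := by
  obtain ⟨a, ha⟩ := hx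
  exact ⟨a, by rw [← map_nsmul, ha, map_zero]⟩

theorem HasPTower.map {J' : Type*} [AddCommGroup J'] (f : J →+ J') {x : J}
    (hx : HasPTower p x) : HasPTower p (f x) := by
  obtain ⟨u, hu0, hu⟩ := hx
  exact ⟨fun n => f (u n), by simp only [hu0], fun n => by simp only [← map_nsmul, hu]⟩

theorem map_mem_pDivTors (f : J →+ J) {x : J} (hx : x ∈ pDivTors p J) : f x ∈ pDivTors p J :=
  ⟨hx.1.map f, hx.2.map f⟩

theorem exists_mem_pDivTors_smul_eq {x : J} (hx : x ∈ pDivTors p J) :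
    ∃ y ∈ pDivTors p J, p • y = x := by
  obtain ⟨⟨a, ha⟩, u, hu0, hu⟩ := hx
  refine ⟨u 1, ⟨⟨a + 1, ?_⟩, fun n => u (n + 1), rfl, fun n => hu (n + 1)⟩, by rw [hu 0, hu0]⟩
  rw [pow_succ, mul_smul, hu 0, hu0, ha]

end Tower

/-! ## The characters `e(φ / n)` -/

section ExpChar

/-- the standard primitive `n`-th root of unity `exp(2πi/n)`, as a unit -/
def zetaUnit (n : ℕ) : ℂˣ :=
  Units.mk0 (Complex.exp (2 * Real.pi * Complex.I / n)) (Complex.exp_ne_zero _)

theorem zetaUnit_val (n : ℕ) :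
    ((zetaUnit n : ℂˣ) : ℂ) = Complex.exp (2 * Real.pi * Complex.I / n) := rfl

theorem zetaUnit_isPrimitiveRoot {n : ℕ} (hn : n ≠ 0) : IsPrimitiveRoot (zetaUnit n) n := by
  have h := Complex.isPrimitiveRoot_exp n hn
  rw [← zetaUnit_val] at h
  exact IsPrimitiveRoot.coe_units_iff.mp h

theorem zetaUnit_pow_mul (m n : ℕ) (hm : m ≠ 0) : zetaUnit (m * n) ^ m = zetaUnit n := by
  apply Units.ext
  rw [Units.val_pow_eq_pow_val, zetaUnit_val, zetaUnit_val, ← Complex.exp_nat_mul]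
  congr 1
  push_cast
  have hm' : (m : ℂ) ≠ 0 := Nat.cast_ne_zero.mpr hm
  by_cases hn : (n : ℂ) = 0
  · rw [hn]; simp
  · field_simp

/-- `k ↦ exp(2πi k/n)`, additively -/
def expHom (n : ℕ) : ℤ →+ Additive ℂˣ :=
  zmultiplesHom (Additive ℂˣ) (Additive.ofMul (zetaUnit n))

theorem expHom_apply (n : ℕ) (k : ℤ) : expHom n k = Additive.ofMul (zetaUnit n ^ k) := by
  rw [expHom, zmultiplesHom_apply, ← ofMul_zpow]

theorem expHom_eq_zero_iff {n : ℕ} (hn : n ≠ 0) (k : ℤ) : expHom n k = 0 ↔ (n : ℤ) ∣ k := by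
  rw [expHom_apply]
  show zetaUnit n ^ k = 1 ↔ _
  exact (zetaUnit_isPrimitiveRoot hn).zpow_eq_one_iff_dvd k

theorem nsmul_expHom (m n : ℕ) (hm : m ≠ 0) (k : ℤ) : m • expHom (m * n) k = expHom n k := by
  rw [expHom_apply, expHom_apply, ← ofMul_pow]
  congr 1
  have h : (zetaUnit (m * n) ^ k) ^ m = (zetaUnit (m * n) ^ m) ^ k := by
    rw [← zpow_natCast (zetaUnit (m * n) ^ k) m, ← zpow_mul, mul_comm k (m : ℤ), zpow_mul,
      zpow_natCast]
  rw [h, zetaUnit_pow_mul m n hm]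

variable (M : ℕ)

/-- the group of characters of `Γ₀(M)`, additively -/
abbrev CharGrp : Type := Additive (Gamma0 M) →+ Additive ℂˣ

/-- the character `e(φ/n) : γ ↦ exp(2πi φ(γ)/n)` -/
def expChar (n : ℕ) (φ : Additive (Gamma0 M) →+ ℤ) : CharGrp M := (expHom n).comp φ

variable {M}

theorem expChar_apply (n : ℕ) (φ : Additive (Gamma0 M) →+ ℤ) (γ : Additive (Gamma0 M)) :
    expChar M n φ γ = expHom n (φ γ) := rfl

theorem nsmul_expChar (m n : ℕ) (hm : m ≠ 0) (φ : Additive (Gamma0 M) →+ ℤ) :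
    m • expChar M (m * n) φ = expChar M n φ := by
  refine DFunLike.ext _ _ fun γ => ?_
  rw [AddMonoidHom.nsmul_apply, expChar_apply, expChar_apply, nsmul_expHom m n hm]

theorem expChar_eq_zero_iff {n : ℕ} (hn : n ≠ 0) (φ : Additive (Gamma0 M) →+ ℤ) :
    expChar M n φ = 0 ↔ ∀ γ, (n : ℤ) ∣ φ γ := by
  rw [DFunLike.ext_iff]
  exact forall_congr' fun γ => by rw [expChar_apply, AddMonoidHom.zero_apply, expHom_eq_zero_iff hn]

end ExpChar

/-! ## The contract of G1 -/

section Contract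

variable (M p : ℕ) [NeZero M]

/-- **The G1 contract**: `μ` is the multiplier map on the `p`-power torsion of `J₀(M)(ℚ̄)`. -/
structure TorsionUnifData (μ : JZero M → CharGrp M) : Prop where
  /-- additive on `p`-power torsion -/
  map_add : ∀ x y : JZero M, IsPPowerTorsion p x → IsPPowerTorsion p y → μ (x + y) = μ x + μ y
  /-- injective on `p`-power torsion -/
  inj : ∀ x : JZero M, IsPPowerTorsion p x → μ x = 0 → x = 0
  /-- Hecke-equivariant for the good primes (`T_ℓ` on `Hom(Γ₀(M), A)` is `heckeOp`) -/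
  hecke : ∀ (ℓ : GoodPrime M p) (x : JZero M), IsPPowerTorsion p x →
    μ (heckeOperatorBar M (ℓ : Nat.Primes) x) = heckeOp M p ℓ (Additive ℂˣ) (μ x)
  /-- onto the classes `e(φ/pⁿ)`, `φ` integral and parabolic -/
  surj : ∀ φ : Additive (Gamma0 M) →+ ℤ, IsParabolicHom (Gamma0 M) φ → ∀ n : ℕ,
    ∃ x : JZero M, p ^ n • x = 0 ∧ μ x = expChar M (p ^ n) φ

/-- **The G1 contract** (existence form). -/
def TorsionUnif : Prop := ∃ μ : JZero M → CharGrp M, TorsionUnifData M p μ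

/-- the Hecke operators `heckeOp` commute on `Hom(Γ₀(M), A)` (helper39, `ES/HeckeComm.lean`) -/
def HeckeOpComm : Prop :=
  ∀ (ℓ ℓ' : GoodPrime M p) (φ : CharGrp M),
    heckeOp M p ℓ (Additive ℂˣ) (heckeOp M p ℓ' (Additive ℂˣ) φ) =
      heckeOp M p ℓ' (Additive ℂˣ) (heckeOp M p ℓ (Additive ℂˣ) φ)

/-- Galois commutes with the good Hecke operators on `p`-power torsion. -/
def TorsGaloisHecke : Prop :=
  ∀ (σ : GQ) (ℓ : GoodPrime M p) (x : JZero M), IsPPowerTorsion p x →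
    σ • heckeOperatorBar M (ℓ : Nat.Primes) x = heckeOperatorBar M (ℓ : Nat.Primes) (σ • x)

end Contract

end Fermat.Agent.ES

end
end ZBES_009_5

/-! ### bundled: `Fermat.Agent.ES.Faith` -/
section ZBES_009_6

/-!
# The faithfulness clause `S31.ESFaith` from the multiplier contract of ESpkg-G1 (helper31)

`Λ = intHoms (Gamma0 N) (parabolicSet N)` is the lattice of integral parabolic homomorphisms, on
which the words in the good Hecke operators act (`wordOp (heckeOp N p) ℤ`).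

* `period_wordForms` : the period map intertwines `heckeEvalForms (wordPoly w)` with `wordOp w`;
* `heckeEvalForms_eq_zero_of_wordOp` (**faithfulness**, from S21): a word which kills `Λ` kills
  the cusp forms of weight 2 and level `N`;
* `esFaith_of_contract` : `S31.ESFaith N p J` for every Hecke module `J` satisfying the
  contract `FaithContract N p J e`: for every `n` and every `φ ∈ Λ` there is `x ∈ J[pⁿ]` such
  that every word `w` with `wordPoly w • x = 0` kills `e n ∘ φ ∈ Hom(Γ₀(N), A)`, where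
  `e n : ℤ →+ A` has kernel `pⁿ ℤ`.
  (From a multiplier map `μ : J → Hom(Γ₀(N), A)`, equivariant for the good Hecke operators on
  `J[pⁿ]`, with `μ x = e n ∘ φ`: `faithContract_of_multiplier`.)
-/

set_option autoImplicit false

namespace Fermat.Agent.ES

open CongruenceSubgroup ModularCurve ModularCurve.Period
open scoped MatrixGroups

variable {N p : ℕ}

/-! ### Words and the period map -/

/-- the operator on cusp forms of a word -/
noncomputable def wordForms (N p : ℕ) [NeZero N] :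
    FreeAlgebra ℤ (GoodPrime N p) →ₐ[ℤ] Module.End ℂ (CuspForm (Gamma0 N) 2) :=
  (CuspForm.heckeAlgebra N 2 ∅).val.comp
    ((MvPolynomial.aeval (CuspForm.heckeFormsGen N 2)).comp (wordPoly N p))

theorem wordForms_apply [NeZero N] (w : FreeAlgebra ℤ (GoodPrime N p)) :
    wordForms N p w = ((CuspForm.heckeEvalForms N 2 (wordPoly N p w) :
      CuspForm.heckeAlgebra N 2 ∅) : Module.End ℂ (CuspForm (Gamma0 N) 2)) := rfl

theorem wordForms_ι [NeZero N] (ℓ : GoodPrime N p) :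
    wordForms N p (FreeAlgebra.ι ℤ ℓ) = CuspForm.heckeTLin 2 ℓ.1.2 (GoodPrime.not_dvd ℓ) := by
  rw [wordForms_apply, wordPoly_ι,
    CuspForm.heckeEvalForms_heckeGen_of_not_dvd (GoodPrime.not_dvd ℓ), CuspForm.heckeAlgebra.coe_T]

/-- words act `ℂ`-linearly on `Hom(Γ₀(N), ℂ)` -/
theorem wordOp_smul (w : FreeAlgebra ℤ (GoodPrime N p)) (c : ℂ)
    (φ : Additive (Gamma0 N) →+ ℂ) :
    wordOp (heckeOp N p) ℂ w (c • φ) = c • wordOp (heckeOp N p) ℂ w φ := by
  have hsmul : ∀ ψ : Additive (Gamma0 N) →+ ℂ, c • ψ = (AddMonoidHom.mulLeft c).comp ψ := by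
    intro ψ
    refine DFunLike.ext _ _ (fun g => ?_)
    rfl
  rw [hsmul, hsmul, wordOp_natural (fun ℓ A A' _ _ f ψ => heckeOp_natural ℓ A A' f ψ)]

/-- the period map intertwines the action of words -/
theorem period_wordForms [NeZero N] (w : FreeAlgebra ℤ (GoodPrime N p))
    (f : CuspForm (Gamma0 N) 2) :
    periodMap N (wordForms N p w f) = wordOp (heckeOp N p) ℂ w (periodMap N f) := by
  induction w using FreeAlgebra.induction generalizing f with
  | grade0 r =>
    rw [AlgHom.commutes, AlgHom.commutes, Module.algebraMap_end_apply,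
      Module.algebraMap_end_apply]
    exact map_zsmul (Fermat.Agent.S21.periodMapLinear N) r f
  | grade1 ℓ =>
    have : Fact ((ℓ : Nat.Primes) : ℕ).Prime := ⟨ℓ.1.2⟩
    rw [wordForms_ι, wordOp_ι, heckeOp_apply]
    exact periodMap_heckeTLin_eq_heckeP (GoodPrime.not_dvd ℓ) f
  | mul a b ha hb =>
    rw [map_mul, map_mul, Module.End.mul_apply, Module.End.mul_apply, ha, hb]
  | add a b ha hb =>
    rw [map_add, map_add, LinearMap.add_apply, LinearMap.add_apply,
      Fermat.Agent.S21.periodMap_add, ha, hb]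

/-- **Faithfulness.** A word which kills the integral parabolic homomorphisms kills the cusp
forms. -/
theorem wordForms_eq_zero_of_wordOp [NeZero N] (w : FreeAlgebra ℤ (GoodPrime N p))
    (hw : ∀ φ : Additive (Gamma0 N) →+ ℤ, IsParabolicHom (Gamma0 N) φ →
      wordOp (heckeOp N p) ℤ w φ = 0) :
    wordForms N p w = 0 := by
  have : Group.FG (Gamma0 N) := (Group.fg_iff_subgroup_fg _).mpr (Fermat.Agent.S22.gamma0_fg N)
  refine LinearMap.ext fun f => ?_
  rw [LinearMap.zero_apply, ← periodMap_eq_zero_iff, period_wordForms]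
  -- the period class is a combination of integral parabolic classes
  have hmem := mem_span_range_castHomC (G := Gamma0 N) (P := parabolicSet N) (periodMap N f)
    (fun γ hγ => Fermat.Agent.S21.periodMap_mem_parabolicHoms N f γ hγ)
  refine Submodule.span_induction (p := fun v _ => wordOp (heckeOp N p) ℂ w v = 0)
    ?_ ?_ ?_ ?_ hmem
  · rintro _ ⟨x, rfl⟩
    have h1 := wordOp_natural (T := heckeOp N p)
      (fun ℓ A A' _ _ f ψ => heckeOp_natural ℓ A A' f ψ) w ℤ ℂ (Int.castAddHom ℂ)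
      (x : Additive (Gamma0 N) →+ ℤ)
    have h2 : castHomC (x : Additive (Gamma0 N) →+ ℤ) =
        (Int.castAddHom ℂ).comp (x : Additive (Gamma0 N) →+ ℤ) := by
      refine DFunLike.ext _ _ (fun g => ?_)
      rfl
    show wordOp (heckeOp N p) ℂ w (castHomC (x : Additive (Gamma0 N) →+ ℤ)) = 0
    rw [h2, h1, hw _ x.2, AddMonoidHom.comp_zero]
  · exact map_zero _
  · intro u v _ _ hu hv
    rw [map_add, hu, hv, add_zero]
  · intro c v _ hv
    rw [wordOp_smul, hv, smul_zero]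

/-- the element of the Hecke algebra of a word vanishes if the word kills the lattice -/
theorem heckeEvalForms_eq_zero_of_wordOp [NeZero N] (w : FreeAlgebra ℤ (GoodPrime N p))
    (hw : ∀ φ : Additive (Gamma0 N) →+ ℤ, IsParabolicHom (Gamma0 N) φ →
      wordOp (heckeOp N p) ℤ w φ = 0) :
    CuspForm.heckeEvalForms N 2 (wordPoly N p w) = 0 := by
  apply Subtype.ext
  rw [← wordForms_apply, wordForms_eq_zero_of_wordOp w hw]
  rfl

/-! ### The words in a set of letters -/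

/-- the words in the letters of `Sg` -/
def wordsIn (N p : ℕ) (Sg : Set Nat.Primes) : Subalgebra ℤ (FreeAlgebra ℤ (GoodPrime N p)) :=
  Algebra.adjoin ℤ ((FreeAlgebra.ι ℤ) '' {ℓ : GoodPrime N p | (ℓ : Nat.Primes) ∈ Sg})

theorem map_wordPoly_wordsIn {Sg : Set Nat.Primes} (hSg : Sg ⊆ goodPrimes N p) :
    (wordsIn N p Sg).map (wordPoly N p) = MvPolynomial.supported ℤ Sg := by
  rw [wordsIn, AlgHom.map_adjoin, MvPolynomial.supported_eq_adjoin_X, Set.image_image]
  congr 1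
  ext t
  constructor
  · rintro ⟨ℓ, hℓ, rfl⟩
    exact ⟨(ℓ : Nat.Primes), hℓ, (wordPoly_ι ℓ).symm⟩
  · rintro ⟨ℓ, hℓ, rfl⟩
    exact ⟨⟨ℓ, hSg hℓ⟩, hℓ, wordPoly_ι _⟩

/-! ### The lattice and the action of words -/

/-- the good Hecke operators preserve the integral parabolic homomorphisms -/
theorem heckeOp_mem_intHoms (ℓ : GoodPrime N p) (φ : Additive (Gamma0 N) →+ ℤ)
    (hφ : φ ∈ intHoms (Gamma0 N) (parabolicSet N)) :
    heckeOp N p ℓ ℤ φ ∈ intHoms (Gamma0 N) (parabolicSet N) := by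
  have : Fact ((ℓ : Nat.Primes) : ℕ).Prime := ⟨ℓ.1.2⟩
  rw [mem_intHoms_parabolicSet] at hφ ⊢
  rw [heckeOp_apply]
  exact HeckeP.heckeHom_isParabolicHom (GoodPrime.not_dvd ℓ) hφ

theorem wordOp_mem_intHoms (w : FreeAlgebra ℤ (GoodPrime N p)) (φ : Additive (Gamma0 N) →+ ℤ)
    (hφ : φ ∈ intHoms (Gamma0 N) (parabolicSet N)) :
    wordOp (heckeOp N p) ℤ w φ ∈ intHoms (Gamma0 N) (parabolicSet N) :=
  wordOp_mem (intHoms (Gamma0 N) (parabolicSet N)).toAddSubgroup heckeOp_mem_intHoms w φ hφ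

/-- the action of the words on the lattice of integral parabolic homomorphisms -/
noncomputable def wordLattice (N p : ℕ) (Sg : Set Nat.Primes) :
    ↥(wordsIn N p Sg) →+ Module.End ℤ ↥(intHoms (Gamma0 N) (parabolicSet N)) where
  toFun w := (wordOp (heckeOp N p) ℤ (w : FreeAlgebra ℤ (GoodPrime N p))).restrict
    (fun φ hφ => wordOp_mem_intHoms _ φ hφ)
  map_zero' := by
    refine LinearMap.ext fun φ => Subtype.ext ?_
    simp
  map_add' a b := by
    refine LinearMap.ext fun φ => Subtype.ext ?_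
    simp

theorem wordLattice_apply (Sg : Set Nat.Primes) (w : ↥(wordsIn N p Sg))
    (φ : ↥(intHoms (Gamma0 N) (parabolicSet N))) :
    ((wordLattice N p Sg w φ : ↥(intHoms (Gamma0 N) (parabolicSet N))) :
        Additive (Gamma0 N) →+ ℤ) =
      wordOp (heckeOp N p) ℤ (w : FreeAlgebra ℤ (GoodPrime N p)) (φ : Additive (Gamma0 N) →+ ℤ) :=
  rfl

/-! ### The contract and the faithfulness clause -/

/-- **The contract for faithfulness** (to be provided by ESpkg-G1): for every `n` and every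
integral parabolic homomorphism `φ` there is `x ∈ J[pⁿ]` such that every word `w` in the good
Hecke operators with `wordPoly w • x = 0` kills `e n ∘ φ`. -/
def FaithContract (N p : ℕ) (J : Type) [AddCommGroup J] [Module HeckeAlg J] {A : Type}
    [AddCommGroup A] (e : ℕ → ℤ →+ A) : Prop :=
  ∀ n : ℕ, ∀ φ : Additive (Gamma0 N) →+ ℤ, IsParabolicHom (Gamma0 N) φ →
    ∃ x : J, p ^ n • x = 0 ∧ ∀ w : FreeAlgebra ℤ (GoodPrime N p), wordPoly N p w • x = 0 →
      wordOp (heckeOp N p) A w ((e n).comp φ) = 0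

/-- a multiplier map intertwines polynomials with words on the `pⁿ`-torsion -/
theorem multiplier_wordPoly_torsion {J : Type} [AddCommGroup J] [Module HeckeAlg J] {A : Type}
    [AddCommGroup A] (μ : J →+ (Additive (Gamma0 N) →+ A)) (n : ℕ)
    (hμT : ∀ (ℓ : GoodPrime N p) (x : J), p ^ n • x = 0 →
      μ (heckeGen (ℓ : Nat.Primes) • x) = heckeOp N p ℓ A (μ x))
    (w : FreeAlgebra ℤ (GoodPrime N p)) (x : J) (hx : p ^ n • x = 0) :
    μ (wordPoly N p w • x) = wordOp (heckeOp N p) A w (μ x) := by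
  have htors : ∀ (t : HeckeAlg) (y : J), p ^ n • y = 0 → p ^ n • (t • y) = 0 := by
    intro t y hy
    rw [smul_comm, hy, smul_zero]
  induction w using FreeAlgebra.induction generalizing x with
  | grade0 r =>
    simp only [AlgHom.commutes, Module.algebraMap_end_apply, algebraMap_smul]
    exact map_zsmul μ r x
  | grade1 ℓ => rw [wordPoly_ι, wordOp_ι, hμT ℓ x hx]
  | mul a b ha hb =>
    simp only [map_mul, Module.End.mul_apply]
    rw [mul_smul, ha _ (htors _ x hx), hb x hx]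
  | add a b ha hb =>
    simp only [map_add, LinearMap.add_apply]
    rw [add_smul, map_add, ha x hx, hb x hx]

/-- **The contract from a multiplier map** `μ : J → Hom(Γ₀(N), A)`, equivariant for the good
Hecke operators on `J[pⁿ]`, whose values on `J[pⁿ]` contain `e n ∘ φ` for every integral parabolic
`φ`. -/
theorem faithContract_of_multiplier {J : Type} [AddCommGroup J] [Module HeckeAlg J] {A : Type}
    [AddCommGroup A] (e : ℕ → ℤ →+ A) (μ : J →+ (Additive (Gamma0 N) →+ A))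
    (hμT : ∀ (n : ℕ) (ℓ : GoodPrime N p) (x : J), p ^ n • x = 0 →
      μ (heckeGen (ℓ : Nat.Primes) • x) = heckeOp N p ℓ A (μ x))
    (hμS : ∀ n : ℕ, ∀ φ : Additive (Gamma0 N) →+ ℤ, IsParabolicHom (Gamma0 N) φ →
      ∃ x : J, p ^ n • x = 0 ∧ μ x = (e n).comp φ) :
    FaithContract N p J e := by
  intro n φ hφ
  obtain ⟨x, hx, hμx⟩ := hμS n φ hφ
  refine ⟨x, hx, fun w hw => ?_⟩
  rw [← hμx, ← multiplier_wordPoly_torsion μ n (hμT n) w x hx, hw, map_zero]

/-- **The faithfulness clause from the contract.** -/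
theorem esFaith_of_contract [NeZero N] {J : Type} [AddCommGroup J] [Module HeckeAlg J]
    {A : Type} [AddCommGroup A] (e : ℕ → ℤ →+ A)
    (he : ∀ (n : ℕ) (k : ℤ), e n k = 0 → ((p ^ n : ℕ) : ℤ) ∣ k) (hp0 : p ≠ 0)
    (hc : FaithContract N p J e) : Fermat.Agent.S31.ESFaith N p J := by
  have hfg : Group.FG (Gamma0 N) :=
    (Group.fg_iff_subgroup_fg _).mpr (Fermat.Agent.S22.gamma0_fg N)
  have hfin := finite_intHoms (Gamma0 N) (parabolicSet N)
  have hfree := free_intHoms (Gamma0 N) (parabolicSet N)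
  intro Sg hSg
  have hmap := map_wordPoly_wordsIn (N := N) (p := p) hSg
  refine Fermat.Agent.S31.esFaithOn_of_words Sg
    (ab := (wordPoly N p).toRingHom.toAddMonoidHom.comp (wordsIn N p Sg).toSubring.subtype.toAddMonoidHom)
    (op := wordLattice N p Sg) ?_ ?_ ?_ ?_
  · intro t ht
    rw [← hmap] at ht
    obtain ⟨w, hw, rfl⟩ := ht
    exact ⟨⟨w, hw⟩, rfl⟩
  · intro w
    rw [← hmap]
    exact ⟨w.1, w.2, rfl⟩
  · intro w hw
    apply heckeEvalForms_eq_zero_of_wordOp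
    intro φ hφ
    have := congrArg (fun f : Module.End ℤ ↥(intHoms (Gamma0 N) (parabolicSet N)) =>
      ((f ⟨φ, hφ⟩ : ↥(intHoms (Gamma0 N) (parabolicSet N))) : Additive (Gamma0 N) →+ ℤ)) hw
    exact this
  · intro n w hkill v
    obtain ⟨x, hx, hxw⟩ := hc n v.1 v.2
    have h1 := hxw w.1 (hkill x hx)
    rw [wordOp_natural (fun ℓ A A' _ _ f ψ => heckeOp_natural ℓ A A' f ψ)] at h1
    -- the values of `ψ = w φ` are divisible by `pⁿ`
    set ψ : Additive (Gamma0 N) →+ ℤ := wordOp (heckeOp N p) ℤ w.1 v.1 with hψ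
    have hψmem : ψ ∈ intHoms (Gamma0 N) (parabolicSet N) := wordOp_mem_intHoms _ _ v.2
    have hred : (Int.castAddHom (ZMod (p ^ n))).comp ψ = 0 := by
      refine DFunLike.ext _ _ (fun g => ?_)
      have h2 : e n (ψ g) = 0 := DFunLike.congr_fun h1 g
      have h3 := he n (ψ g) h2
      show ((ψ g : ℤ) : ZMod (p ^ n)) = 0
      exact (ZMod.intCast_zmod_eq_zero_iff_dvd _ _).mpr h3
    obtain ⟨y, hy, hψy⟩ := exists_eq_nsmul_of_castHom_eq_zero (p ^ n) (pow_ne_zero n hp0) ψ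
      hψmem hred
    refine ⟨⟨y, hy⟩, Subtype.ext ?_⟩
    rw [wordLattice_apply, ← hψ, hψy]
    rfl

end Fermat.Agent.ES


end ZBES_009_6

/-! ### bundled: `Fermat.Agent.ES.HeckeHomEq` -/
section ZBES_009_7

/-!
# The two Hecke operators on `Hom(Γ₀(N), B)` agree at prime level

`heckeHom` (helper35, representatives `HeckeRep n`, any `n` coprime to `N`) and `HeckeP.heckeHom`
(helper94, the prelude's representatives `heckeRep p x`, `x ∈ ℙ¹(𝔽_p)`, `p ∤ N` prime) coincide
for `n = p`:  `heckeHom hnM φ = HeckeP.heckeHom hpN φ`.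
-/

set_option autoImplicit false

noncomputable section

namespace Fermat.Agent.ES

open Matrix CongruenceSubgroup
open P2MW.S_ModularForm_heckeT_slash_eq_self_of_mem_Gamma0.ModularForm.HeckeSlashInvariance
  (heckeRep redMatrix)
open scoped MatrixGroups

variable {p : ℕ} [hp : Fact p.Prime]

/-- The representative attached to a point of `ℙ¹(𝔽_p)`. -/
def repOfPoint : OnePoint (ZMod p) → HeckeRep p
  | none => ⟨p, 0, 1, mul_one p, Nat.one_pos⟩
  | some j =>
    haveI : NeZero p := ⟨hp.out.ne_zero⟩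
    ⟨1, j.val, p, one_mul p, ZMod.val_lt j⟩

theorem repOfPoint_injective : Function.Injective (repOfPoint (p := p)) := by
  haveI : NeZero p := ⟨hp.out.ne_zero⟩
  intro x y h
  rcases x with _ | j <;> rcases y with _ | j'
  · rfl
  · exfalso
    have := congrArg HeckeRep.a h
    simp only [repOfPoint] at this
    exact hp.out.one_lt.ne' this
  · exfalso
    have := congrArg HeckeRep.a h
    simp only [repOfPoint] at this
    exact hp.out.one_lt.ne this
  · have := congrArg HeckeRep.b h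
    simp only [repOfPoint] at this
    rw [ZMod.val_injective p this]

theorem repOfPoint_surjective : Function.Surjective (repOfPoint (p := p)) := by
  haveI : NeZero p := ⟨hp.out.ne_zero⟩
  intro A
  have had := A.had
  have hb := A.hb
  rcases (Nat.dvd_prime hp.out).mp ⟨A.d, had.symm⟩ with ha | ha
  · have hd : A.d = p := by rw [ha, one_mul] at had; exact had
    refine ⟨some (A.b : ZMod p), ?_⟩
    apply HeckeRep.ext
    · exact ha.symm
    · show ((A.b : ZMod p)).val = A.b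
      exact ZMod.val_natCast_of_lt (lt_of_lt_of_eq hb hd)
    · exact hd.symm
  · have hd : A.d = 1 := by
      rw [ha] at had
      exact Nat.eq_of_mul_eq_mul_left hp.out.pos (by rw [had, mul_one])
    refine ⟨none, ?_⟩
    apply HeckeRep.ext
    · exact ha.symm
    · show 0 = A.b
      rw [hd] at hb
      omega
    · exact hd.symm

/-- `ℙ¹(𝔽_p) ≃ HeckeRep p`. -/
def repEquiv : OnePoint (ZMod p) ≃ HeckeRep p :=
  Equiv.ofBijective repOfPoint ⟨repOfPoint_injective, repOfPoint_surjective⟩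

@[simp] theorem repEquiv_apply (x : OnePoint (ZMod p)) : repEquiv x = repOfPoint x := rfl

/-- The prelude's real matrix `heckeRep p x` is the cast of the integer matrix of `repOfPoint x`. -/
theorem val_heckeRep_eq (x : OnePoint (ZMod p)) :
    ((heckeRep p x : GL (Fin 2) ℝ) : Matrix (Fin 2) (Fin 2) ℝ)
      = (repOfPoint x).mat.map (Int.cast : ℤ → ℝ) := by
  have hp0 : p ≠ 0 := hp.out.ne_zero
  rcases x with _ | j
  · show ((ModularForm.heckeDiagMatrix p : GL (Fin 2) ℝ) : Matrix (Fin 2) (Fin 2) ℝ) = _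
    rw [ModularForm.val_heckeDiagMatrix hp0]
    ext i k
    fin_cases i <;> fin_cases k <;> simp [repOfPoint, HeckeRep.mat]
  · show ((ModularForm.heckeMatrix p j.val : GL (Fin 2) ℝ) : Matrix (Fin 2) (Fin 2) ℝ) = _
    rw [ModularForm.val_heckeMatrix hp0]
    ext i k
    fin_cases i <;> fin_cases k <;> simp [repOfPoint, HeckeRep.mat]

variable {N : ℕ}

/-- The integer form of the prelude's coset law. -/
theorem repOfPoint_mat_mul (hpN : ¬ p ∣ N) (γ : Gamma0 N) (x : OnePoint (ZMod p)) :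
    (repOfPoint x).mat * ((γ : SL(2, ℤ)) : Matrix (Fin 2) (Fin 2) ℤ)
      = (((HeckeP.kap hpN γ x : Gamma0 N) : SL(2, ℤ)) : Matrix (Fin 2) (Fin 2) ℤ)
          * (repOfPoint (HeckeP.idx (γ : SL(2, ℤ)) x)).mat := by
  have h := congrArg (fun g : GL (Fin 2) ℝ => (g : Matrix (Fin 2) (Fin 2) ℝ))
    (HeckeP.kap_spec hpN γ x)
  simp only [Matrix.GeneralLinearGroup.coe_mul, val_heckeRep_eq,
    Matrix.SpecialLinearGroup.mapGL_coe_matrix] at h
  have hinj : Function.Injective (fun A : Matrix (Fin 2) (Fin 2) ℤ => A.map (Int.cast : ℤ → ℝ)) :=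
    Matrix.map_injective Int.cast_injective
  apply hinj
  simp only [Matrix.map_mul_intCast]
  have key : ∀ g : SL(2, ℤ),
      ((SpecialLinearGroup.map (algebraMap ℤ ℝ) g : SL(2, ℝ)) : Matrix (Fin 2) (Fin 2) ℝ)
        = (g : Matrix (Fin 2) (Fin 2) ℤ).map (Int.cast : ℤ → ℝ) := by
    intro g
    ext i j
    simp
  rw [key, key] at h
  exact h

variable {B : Type*} [AddCommGroup B]

/-- **The two Hecke operators agree.** -/
theorem heckeHom_eq_heckeP (hpN : ¬ p ∣ N) (φ : Additive (Gamma0 N) →+ B) :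
    haveI : NeZero p := ⟨hp.out.ne_zero⟩
    heckeHom (n := p) ((Nat.Prime.coprime_iff_not_dvd hp.out).mpr hpN) φ
      = HeckeP.heckeHom hpN φ := by
  haveI : NeZero p := ⟨hp.out.ne_zero⟩
  refine AddMonoidHom.ext fun γ => ?_
  obtain ⟨γ, rfl⟩ : ∃ γ' : Gamma0 N, Additive.ofMul γ' = γ := ⟨Additive.toMul γ, rfl⟩
  rw [heckeHom_apply, HeckeP.heckeHom_apply, ← Equiv.sum_comp (repEquiv (p := p))]
  refine Finset.sum_congr rfl fun x _ => ?_
  have := (HeckeRep.next_coc_unique ((Nat.Prime.coprime_iff_not_dvd hp.out).mpr hpN)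
    (repOfPoint_mat_mul hpN γ x)).2
  rw [repEquiv_apply, this]

end Fermat.Agent.ES

end
end ZBES_009_7

/-! ### bundled: `Fermat.Agent.ES.HeckeCommP` -/
section ZBES_009_8

/-!
# ESpkg COMM, group side, prime form (helper39)

* `heckeP_comm` : `HeckeP.heckeHom` at two primes `ℓ, ℓ' ∤ M` commute on `Hom(Γ₀(M), B)`;
* `heckeOp_comm` : the operators `heckeOp M p ℓ` (good primes) commute;
* `wordOp_heckeOp_comm` : all words in the good Hecke operators commute.
-/

set_option autoImplicit false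

namespace Fermat.Agent.ES

open CongruenceSubgroup

variable {M : ℕ} {B : Type*} [AddCommGroup B]

/-- the Hecke operators at primes `ℓ, ℓ' ∤ M` commute on `Hom(Γ₀(M), B)` -/
theorem heckeP_comm {ℓ ℓ' : ℕ} [hℓ : Fact ℓ.Prime] [hℓ' : Fact ℓ'.Prime] (hℓM : ¬ ℓ ∣ M)
    (hℓ'M : ¬ ℓ' ∣ M) (φ : Additive (Gamma0 M) →+ B) :
    HeckeP.heckeHom hℓM (HeckeP.heckeHom hℓ'M φ) = HeckeP.heckeHom hℓ'M (HeckeP.heckeHom hℓM φ) := by
  by_cases h : ℓ = ℓ'
  · subst h
    rfl
  · have : NeZero ℓ := ⟨hℓ.out.ne_zero⟩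
    have : NeZero ℓ' := ⟨hℓ'.out.ne_zero⟩
    have hc : Nat.Coprime ℓ ℓ' := (Nat.coprime_primes hℓ.out hℓ'.out).mpr h
    rw [← heckeHom_eq_heckeP hℓM, ← heckeHom_eq_heckeP hℓ'M, ← heckeHom_eq_heckeP hℓM,
      ← heckeHom_eq_heckeP hℓ'M]
    exact heckeHom_comm _ _ hc φ

variable {p : ℕ}

/-- the good Hecke operators commute -/
theorem heckeOp_comm (ℓ ℓ' : GoodPrime M p) (A : Type) [AddCommGroup A]
    (φ : Additive (Gamma0 M) →+ A) :
    heckeOp M p ℓ A (heckeOp M p ℓ' A φ) = heckeOp M p ℓ' A (heckeOp M p ℓ A φ) := by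
  have : Fact ((ℓ : Nat.Primes) : ℕ).Prime := ⟨ℓ.1.2⟩
  have : Fact ((ℓ' : Nat.Primes) : ℕ).Prime := ⟨ℓ'.1.2⟩
  simp only [heckeOp_apply]
  exact heckeP_comm _ _ φ

/-- all words in the good Hecke operators commute -/
theorem wordOp_heckeOp_comm (A : Type) [AddCommGroup A] (w w' : FreeAlgebra ℤ (GoodPrime M p)) :
    wordOp (heckeOp M p) A w * wordOp (heckeOp M p) A w'
      = wordOp (heckeOp M p) A w' * wordOp (heckeOp M p) A w := by
  have hgen : ∀ ℓ ℓ' : GoodPrime M p,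
      wordOp (heckeOp M p) A (FreeAlgebra.ι ℤ ℓ) * wordOp (heckeOp M p) A (FreeAlgebra.ι ℤ ℓ')
        = wordOp (heckeOp M p) A (FreeAlgebra.ι ℤ ℓ') * wordOp (heckeOp M p) A (FreeAlgebra.ι ℤ ℓ) := by
    intro ℓ ℓ'
    apply LinearMap.ext
    intro φ
    simp only [Module.End.mul_apply, wordOp_ι]
    exact heckeOp_comm ℓ ℓ' A φ
  -- first: a generator commutes with every word
  have h1 : ∀ (ℓ : GoodPrime M p) (w : FreeAlgebra ℤ (GoodPrime M p)),
      Commute (wordOp (heckeOp M p) A (FreeAlgebra.ι ℤ ℓ)) (wordOp (heckeOp M p) A w) := by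
    intro ℓ w
    induction w using FreeAlgebra.induction with
    | grade0 r =>
      rw [AlgHom.commutes]
      exact (Algebra.commutes r _).symm
    | grade1 ℓ' => exact hgen ℓ ℓ'
    | mul a b ha hb => rw [map_mul]; exact ha.mul_right hb
    | add a b ha hb => rw [map_add]; exact ha.add_right hb
  have h2 : Commute (wordOp (heckeOp M p) A w) (wordOp (heckeOp M p) A w') := by
    induction w using FreeAlgebra.induction with
    | grade0 r =>
      rw [AlgHom.commutes]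
      exact Algebra.commutes r _
    | grade1 ℓ => exact h1 ℓ w'
    | mul a b ha hb => rw [map_mul]; exact ha.mul_left hb
    | add a b ha hb => rw [map_add]; exact ha.add_left hb
  exact h2

end Fermat.Agent.ES


end ZBES_009_8

/-! ### bundled: `Fermat.Agent.ES.EigenSupportGen` -/
section ZBES_009_9

/-!
# ESpkg-G1 piece A5, general coefficient form (helper39)

`supp_of_multiplier_gen` : the `supp` clause for a Hecke module `V` with an injective
Hecke-equivariant map `μ : V → Hom(Γ₀(M), Co)` into homomorphisms with values in ANY abelian group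
`Co` (e.g. `Additive ℂˣ`), given an injective `ε : ZMod p → Co` (e.g. `k ↦ exp(2πi k / p)`) such that
`ε ∘ (x mod p)` lies in the image of `μ` for every integral parabolic homomorphism `x`.
The vector produced is killed by `p`.
-/

set_option autoImplicit false

namespace Fermat.Agent.ES

open CongruenceSubgroup ModularCurve ModularCurve.Period ModularFormClass
open scoped MatrixGroups

variable {M p : ℕ}

/-- `μ` intertwines polynomials with words (general coefficients) -/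
lemma multiplier_wordPoly_gen {V : Type} [AddCommGroup V] [Module HeckeAlg V] {Co : Type}
    [AddCommGroup Co] (μ : V →+ (Additive (Gamma0 M) →+ Co))
    (hμT : ∀ (ℓ : GoodPrime M p) (v : V),
      μ (heckeGen (ℓ : Nat.Primes) • v) = heckeOp M p ℓ Co (μ v))
    (w : FreeAlgebra ℤ (GoodPrime M p)) (v : V) :
    μ (wordPoly M p w • v) = wordOp (heckeOp M p) Co w (μ v) := by
  induction w using FreeAlgebra.induction generalizing v with
  | grade0 r =>
    simp only [AlgHom.commutes, Module.algebraMap_end_apply, algebraMap_smul]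
    exact map_zsmul μ r v
  | grade1 ℓ => rw [wordPoly_ι, wordOp_ι, hμT]
  | mul a b ha hb =>
    simp only [map_mul, Module.End.mul_apply]
    rw [mul_smul, ha, hb]
  | add a b ha hb =>
    simp only [map_add, LinearMap.add_apply]
    rw [add_smul, map_add, ha, hb]

/-- **A5 (module form, general coefficients).** -/
theorem supp_of_multiplier_gen [NeZero M] [Fact p.Prime] {V : Type} [AddCommGroup V]
    [Module HeckeAlg V] {Co : Type} [AddCommGroup Co]
    (μ : V →+ (Additive (Gamma0 M) →+ Co)) (hμ : Function.Injective μ)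
    (hμT : ∀ (ℓ : GoodPrime M p) (v : V),
      μ (heckeGen (ℓ : Nat.Primes) • v) = heckeOp M p ℓ Co (μ v))
    (ε : ZMod p →+ Co) (hε : Function.Injective ε)
    (hμS : ∀ x : Additive (Gamma0 M) →+ ℤ, IsParabolicHom (Gamma0 M) x →
      ∃ v : V, p • v = 0 ∧ μ v = ε.comp ((Int.castAddHom (ZMod p)).comp x)) :
    ∀ g : CuspForm (Gamma0 M) 2, g.IsNormalizedEigenform →
      ∀ 𝔪 : Ideal Zbar, 𝔪.IsMaximal → (p : Zbar) ∈ 𝔪 →
        ∃ v : V, v ≠ 0 ∧ p • v = 0 ∧ ∀ t ∈ MvPolynomial.supported ℤ (goodPrimes M p),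
          (∃ z ∈ 𝔪, (z : ℂ) = heckeValue g t) → t • v = 0 := by
  intro g hg 𝔪 h𝔪 hp
  obtain ⟨x, hxP, hx0, hx⟩ := eigenSupport_words g hg 𝔪 h𝔪.ne_top hp
  obtain ⟨v, hpv, hv⟩ := hμS x hxP
  refine ⟨v, ?_, hpv, ?_⟩
  · rintro rfl
    rw [map_zero] at hv
    apply hx0
    refine DFunLike.ext _ _ (fun γ => ?_)
    apply hε
    have h1 := (DFunLike.congr_fun hv γ).symm
    simp only [AddMonoidHom.zero_apply, map_zero] at h1 ⊢
    exact h1
  · intro t ht hz
    obtain ⟨w, rfl⟩ := exists_word_of_mem_supported ht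
    apply hμ
    rw [map_zero, multiplier_wordPoly_gen μ hμT, hv,
      wordOp_natural (fun ℓ A A' _ _ f φ => heckeOp_natural ℓ A A' f φ) w (ZMod p) Co ε]
    have h0 : wordOp (heckeOp M p) (ZMod p) w ((Int.castAddHom (ZMod p)).comp x) = 0 := by
      apply hx w
      obtain ⟨z, hz𝔪, hzv⟩ := hz
      exact ⟨z, hz𝔪, by rw [hzv, heckeValue_wordPoly]⟩
    rw [h0]
    refine DFunLike.ext _ _ (fun γ => ?_)
    simp

end Fermat.Agent.ES


end ZBES_009_9

/-! ### bundled: `Fermat.Agent.ES.TopFaith` -/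
section ZBES_009_10

/-!
# ESpkg, assembly on the `p`-divisible torsion: `TorsionUnif` ⇒ `S31.ESPkgFaith` (helper31)

`J := PDiv M p = pDivTors p (JZero M)`, the `p`-divisible part of the `p`-power torsion of
`J₀(M)(ℚ̄)`, with

* the Galois action restricted from `JZero M` (`pDivGalois`);
* the Hecke module structure `pDivModule M p`: `T_ℓ` = restriction of the prelude operator
  `heckeOperatorBar M ℓ` for the good primes `ℓ ∤ M p`, `0` for the bad primes.  The operators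
  commute on `PDiv M p` as soon as the G1 contract `TorsionUnif M p` holds (`μ` injective and
  equivariant, and the operators `heckeOp` on `Hom(Γ₀(M), ℂˣ)` commute: `heckeOp_comm`).

Main results:

* `esDataInf_pDiv` : `TorsionUnifData M p μ → StmtFiniteLevel M p → StmtFrob M p → StmtUnram M p →
  ESDataInf M p (PDiv M p)`;
* `esFaith_pDiv` : `TorsionUnifData M p μ → S31.ESFaith M p (PDiv M p)`;
* `esPkgFaith_of_torsionUnif` : `TorsionUnif M p → StmtFiniteLevel M p → StmtFrob M p →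
  StmtUnram M p → S31.ESPkgFaith M p`;
* `esPkgInf_of_torsionUnif` : the same hypotheses give `ESPkgInf M p`.

The clauses `finite`, `divisible`, `smul_comm`, `supp` and the faithfulness clause need nothing
beyond the contract.
-/

set_option autoImplicit false
set_option linter.style.haveILetI false
set_option linter.unusedSectionVars false

noncomputable section

namespace Fermat.Agent.ES

open ModularCurve AlgebraicCurve CongruenceSubgroup ModularCurve.Period
open scoped MatrixGroups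

/-! ## Generic: a Hecke module from a family of endomorphisms -/

section Family

variable {J : Type} [AddCommGroup J]

/-- the family of endomorphisms commutes -/
def TfComm (T : Nat.Primes → Module.End ℤ J) : Prop := ∀ ℓ ℓ' : Nat.Primes, T ℓ * T ℓ' = T ℓ' * T ℓ

theorem isMulCommutative_adjoin_tf {T : Nat.Primes → Module.End ℤ J} (h : TfComm T) :
    IsMulCommutative (Algebra.adjoin ℤ (Set.range T)) :=
  Algebra.isMulCommutative_adjoin ℤ (by
    rintro _ ⟨ℓ, rfl⟩ _ ⟨ℓ', rfl⟩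
    exact h ℓ ℓ')

open scoped IsMulCommutative in
/-- evaluation of Hecke polynomials at a commuting family (into the commutative subalgebra) -/
def tfEvalSub {T : Nat.Primes → Module.End ℤ J} (h : TfComm T) :
    HeckeAlg →ₐ[ℤ] (Algebra.adjoin ℤ (Set.range T) : Subalgebra ℤ (Module.End ℤ J)) :=
  haveI := isMulCommutative_adjoin_tf h
  MvPolynomial.aeval fun ℓ =>
    (⟨T ℓ, Algebra.subset_adjoin (Set.mem_range_self ℓ)⟩ : Algebra.adjoin ℤ (Set.range T))

/-- evaluation of Hecke polynomials at a commuting family -/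
def tfEval {T : Nat.Primes → Module.End ℤ J} (h : TfComm T) : HeckeAlg →+* Module.End ℤ J :=
  ((Algebra.adjoin ℤ (Set.range T)).val.comp (tfEvalSub h)).toRingHom

open scoped IsMulCommutative in
theorem tfEval_heckeGen {T : Nat.Primes → Module.End ℤ J} (h : TfComm T) (ℓ : Nat.Primes) :
    tfEval h (heckeGen ℓ) = T ℓ := by
  have := isMulCommutative_adjoin_tf h
  show ((tfEvalSub h (heckeGen ℓ) : Algebra.adjoin ℤ (Set.range T)) : Module.End ℤ J) = _
  have : tfEvalSub h (heckeGen ℓ) = ⟨T ℓ, Algebra.subset_adjoin (Set.mem_range_self ℓ)⟩ :=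
    MvPolynomial.aeval_X _ ℓ
  rw [this]

theorem tfEval_X {T : Nat.Primes → Module.End ℤ J} (h : TfComm T) (ℓ : Nat.Primes) :
    tfEval h (MvPolynomial.X ℓ) = T ℓ := tfEval_heckeGen h ℓ

theorem tfEval_C {T : Nat.Primes → Module.End ℤ J} (h : TfComm T) (a : ℤ) :
    tfEval h (MvPolynomial.C a) = (a : Module.End ℤ J) := by
  rw [← MvPolynomial.algebraMap_eq, eq_intCast, map_intCast]

open Classical in
/-- the Hecke module structure of a family of endomorphisms (genuine if the family commutes) -/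
@[implicit_reducible]
def tfModule (T : Nat.Primes → Module.End ℤ J) : Module HeckeAlg J :=
  if h : TfComm T then Module.compHom J (tfEval h)
  else Module.compHom J (MvPolynomial.eval₂Hom (Int.castRingHom ℤ) (0 : Nat.Primes → ℤ))

theorem tfModule_smul_def {T : Nat.Primes → Module.End ℤ J} (h : TfComm T) (t : HeckeAlg)
    (x : J) : (letI := tfModule T; t • x) = tfEval h t x := by
  have e : tfModule T = Module.compHom J (tfEval h) := dif_pos h
  rw [e]
  rfl

theorem tfModule_heckeGen_smul {T : Nat.Primes → Module.End ℤ J} (h : TfComm T)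
    (ℓ : Nat.Primes) (x : J) : (letI := tfModule T; heckeGen ℓ • x) = T ℓ x := by
  rw [tfModule_smul_def h, tfEval_heckeGen]

/-- an additive map commuting with the family commutes with all Hecke polynomials -/
theorem tfEval_comm_of_comm {T : Nat.Primes → Module.End ℤ J} (h : TfComm T) (f : J →+ J)
    (hf : ∀ (ℓ : Nat.Primes) (x : J), f (T ℓ x) = T ℓ (f x)) (t : HeckeAlg) (x : J) :
    f (tfEval h t x) = tfEval h t (f x) := by
  induction t using MvPolynomial.induction_on generalizing x with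
  | C a =>
      rw [tfEval_C, Module.End.intCast_apply, Module.End.intCast_apply]
      exact map_zsmul f a x
  | add s t hs ht =>
      rw [map_add, LinearMap.add_apply, LinearMap.add_apply, map_add, hs, ht]
  | mul_X s ℓ hs =>
      rw [map_mul, Module.End.mul_apply, Module.End.mul_apply, hs, tfEval_X, hf]

end Family

/-! ## Torsion generalities -/

section Torsion

variable {p : ℕ} {J : Type*} [AddCommGroup J]

theorem isPPowerTorsion_zero : IsPPowerTorsion p (0 : J) := ⟨0, smul_zero _⟩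

theorem IsPPowerTorsion.add {x y : J} (hx : IsPPowerTorsion p x) (hy : IsPPowerTorsion p y) :
    IsPPowerTorsion p (x + y) := by
  obtain ⟨a, ha⟩ := hx
  obtain ⟨b, hb⟩ := hy
  refine ⟨a + b, ?_⟩
  have h1 : p ^ (a + b) • x = 0 := by rw [pow_add, mul_comm, mul_smul, ha, smul_zero]
  have h2 : p ^ (a + b) • y = 0 := by rw [pow_add, mul_smul, hb, smul_zero]
  rw [smul_add, h1, h2, add_zero]

theorem IsPPowerTorsion.neg {x : J} (hx : IsPPowerTorsion p x) : IsPPowerTorsion p (-x) := by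
  obtain ⟨a, ha⟩ := hx
  exact ⟨a, by rw [smul_neg, ha, neg_zero]⟩

theorem IsPPowerTorsion.nsmul {x : J} (hx : IsPPowerTorsion p x) (k : ℕ) :
    IsPPowerTorsion p (k • x) := by
  obtain ⟨a, ha⟩ := hx
  exact ⟨a, by rw [smul_comm, ha, smul_zero]⟩

theorem isPPowerTorsion_of_pow_smul {x : J} {n : ℕ} (hx : p ^ n • x = 0) :
    IsPPowerTorsion p x := ⟨n, hx⟩

end Torsion

/-! ## The multiplier contract, for a general coefficient group -/

section Raw

variable (M p : ℕ) [NeZero M]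

/-- The multiplier contract for a general coefficient group `A` and a compatible system
`e n : ℤ → A` with kernel `pⁿ ℤ` (`TorsionUnifData M p μ` is the case `A = ℂˣ`,
`e n = exp(2πi · / pⁿ)`). -/
structure MultData {A : Type} [AddCommGroup A] (e : ℕ → ℤ →+ A)
    (μ : JZero M → (Additive (Gamma0 M) →+ A)) : Prop where
  /-- additive on `p`-power torsion -/
  map_add : ∀ x y : JZero M, IsPPowerTorsion p x → IsPPowerTorsion p y → μ (x + y) = μ x + μ y
  /-- injective on `p`-power torsion -/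
  inj : ∀ x : JZero M, IsPPowerTorsion p x → μ x = 0 → x = 0
  /-- Hecke-equivariant for the good primes -/
  hecke : ∀ (ℓ : GoodPrime M p) (x : JZero M), IsPPowerTorsion p x →
    μ (heckeOperatorBar M (ℓ : Nat.Primes) x) = heckeOp M p ℓ A (μ x)
  /-- onto the classes `e n ∘ φ`, `φ` integral and parabolic -/
  surj : ∀ φ : Additive (Gamma0 M) →+ ℤ, IsParabolicHom (Gamma0 M) φ → ∀ n : ℕ,
    ∃ x : JZero M, p ^ n • x = 0 ∧ μ x = (e n).comp φ
  /-- the system `e` is compatible -/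
  tower : ∀ (n : ℕ) (k : ℤ), p • e (n + 1) k = e n k
  /-- `e 0 = 0` -/
  zero : ∀ k : ℤ, e 0 k = 0
  /-- the kernel of `e n` is `pⁿ ℤ` -/
  ker : ∀ (n : ℕ) (k : ℤ), e n k = 0 → ((p ^ n : ℕ) : ℤ) ∣ k
  /-- the `pⁿ`-torsion of `A` is finite -/
  fin : ∀ n : ℕ, {a : A | p ^ n • a = 0}.Finite

variable {M p} {A : Type} [AddCommGroup A] {e : ℕ → ℤ →+ A}
  {μ : JZero M → (Additive (Gamma0 M) →+ A)}

theorem MultData.map_zero (hμ : MultData M p e μ) : μ 0 = 0 := by
  have h := hμ.map_add 0 0 isPPowerTorsion_zero isPPowerTorsion_zero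
  rw [add_zero] at h
  exact left_eq_add.mp h

theorem MultData.map_neg (hμ : MultData M p e μ) {x : JZero M}
    (hx : IsPPowerTorsion p x) : μ (-x) = - μ x := by
  have h := hμ.map_add x (-x) hx hx.neg
  rw [add_neg_cancel, hμ.map_zero] at h
  exact eq_neg_of_add_eq_zero_right h.symm

theorem MultData.map_sub (hμ : MultData M p e μ) {x y : JZero M}
    (hx : IsPPowerTorsion p x) (hy : IsPPowerTorsion p y) : μ (x - y) = μ x - μ y := by
  rw [sub_eq_add_neg, hμ.map_add x (-y) hx hy.neg, hμ.map_neg hy, sub_eq_add_neg]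

theorem MultData.map_nsmul (hμ : MultData M p e μ) {x : JZero M}
    (hx : IsPPowerTorsion p x) (k : ℕ) : μ (k • x) = k • μ x := by
  induction k with
  | zero => rw [zero_nsmul, zero_nsmul, hμ.map_zero]
  | succ k ih => rw [succ_nsmul, succ_nsmul, hμ.map_add _ _ (hx.nsmul k) hx, ih]

theorem MultData.eq_of_eq (hμ : MultData M p e μ) {x y : JZero M}
    (hx : IsPPowerTorsion p x) (hy : IsPPowerTorsion p y) (h : μ x = μ y) : x = y := by
  have h1 : μ (x - y) = 0 := by rw [hμ.map_sub hx hy, h, sub_self]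
  exact sub_eq_zero.mp (hμ.inj (x - y) (by simpa [sub_eq_add_neg] using hx.add hy.neg) h1)

theorem MultData.pow_smul_e (hμ : MultData M p e μ) (n : ℕ) (k : ℤ) : p ^ n • e n k = 0 := by
  induction n with
  | zero => rw [hμ.zero, smul_zero]
  | succ n ih => rw [pow_succ, mul_smul, hμ.tower, ih]

/-- the tower over `e n ∘ φ`: the solution of `μ x = e n ∘ φ` is `p`-divisible -/
theorem MultData.surj_pDiv (hμ : MultData M p e μ)
    (φ : Additive (Gamma0 M) →+ ℤ) (hφ : IsParabolicHom (Gamma0 M) φ) (n : ℕ) :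
    ∃ x ∈ pDivTors p (JZero M), p ^ n • x = 0 ∧ μ x = (e n).comp φ := by
  choose x hx hμx using hμ.surj φ hφ
  have hstep : ∀ k, p • x (k + 1) = x k := by
    intro k
    refine hμ.eq_of_eq ((isPPowerTorsion_of_pow_smul (hx (k + 1))).nsmul p)
      (isPPowerTorsion_of_pow_smul (hx k)) ?_
    rw [hμ.map_nsmul (isPPowerTorsion_of_pow_smul (hx (k + 1))), hμx, hμx]
    refine DFunLike.ext _ _ fun γ => ?_
    rw [AddMonoidHom.nsmul_apply, AddMonoidHom.comp_apply, AddMonoidHom.comp_apply, hμ.tower]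
  exact ⟨x n, ⟨isPPowerTorsion_of_pow_smul (hx n), fun j => x (n + j), rfl,
    fun j => hstep (n + j)⟩, hx n, hμx n⟩

/-- the character `ZMod p → A` induced by `e 1` -/
def MultData.eps (hμ : MultData M p e μ) : ZMod p →+ A :=
  ZMod.lift p ⟨e 1, by
    have h := hμ.pow_smul_e 1 1
    rw [pow_one] at h
    have h2 : ((p : ℕ) : ℤ) = p • (1 : ℤ) := by simp
    show e 1 ((p : ℕ) : ℤ) = 0
    rw [h2, _root_.map_nsmul (e 1) p (1 : ℤ), h]⟩

theorem MultData.eps_intCast (hμ : MultData M p e μ) (k : ℤ) :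
    hμ.eps ((k : ℤ) : ZMod p) = e 1 k := ZMod.lift_coe p _ k

theorem MultData.eps_injective (hμ : MultData M p e μ) : Function.Injective hμ.eps := by
  rw [injective_iff_map_eq_zero]
  intro a ha
  obtain ⟨k, rfl⟩ := ZMod.intCast_surjective a
  rw [hμ.eps_intCast] at ha
  have h := hμ.ker 1 k ha
  rw [pow_one] at h
  exact (ZMod.intCast_zmod_eq_zero_iff_dvd k p).mpr h

/-- the set of homomorphisms `Γ₀(M) → A` killed by `pⁿ` is finite -/
theorem MultData.finite_hom (hμ : MultData M p e μ) (n : ℕ) :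
    {χ : Additive (Gamma0 M) →+ A | p ^ n • χ = 0}.Finite := by
  have hfg : Group.FG (Gamma0 M) :=
    (Group.fg_iff_subgroup_fg _).mpr (Fermat.Agent.S22.gamma0_fg M)
  obtain ⟨S, hS⟩ := Group.fg_def.mp hfg
  -- evaluation at the generators
  let ev : (Additive (Gamma0 M) →+ A) → (S → A) := fun χ s => χ (Additive.ofMul (s : Gamma0 M))
  have hinj : Function.Injective ev := by
    intro χ χ' h
    have h1 : AddMonoidHom.toMultiplicative χ = AddMonoidHom.toMultiplicative χ' := by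
      refine MonoidHom.eq_of_eqOn_dense hS ?_
      intro s hs
      exact congrFun h ⟨s, hs⟩
    exact AddMonoidHom.toMultiplicative.injective h1
  have hfin : {f : S → A | ∀ s : S, f s ∈ {a : A | p ^ n • a = 0}}.Finite :=
    Set.Finite.pi' (fun _ => hμ.fin n)
  refine Set.Finite.of_finite_image (f := ev) (hfin.subset ?_) hinj.injOn
  rintro _ ⟨χ, hχ, rfl⟩ s
  show p ^ n • χ (Additive.ofMul (s : Gamma0 M)) = 0
  rw [← AddMonoidHom.nsmul_apply, show p ^ n • χ = 0 from hχ, AddMonoidHom.zero_apply]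

end Raw

/-! ## The `p`-divisible torsion `PDiv M p` with its Galois action and Hecke operators -/

section PDiv

variable (M p : ℕ) [NeZero M]

/-- the `p`-divisible part of the `p`-power torsion of `J₀(M)(ℚ̄)` -/
abbrev PDiv : Type := ↥(pDivTors p (JZero M))

/-- the Galois action on `PDiv M p` -/
@[implicit_reducible]
def pDivGalois : DistribMulAction GQ (PDiv M p) where
  smul σ x := ⟨σ • (x : JZero M),
    map_mem_pDivTors (DistribSMul.toAddMonoidHom (JZero M) σ) x.2⟩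
  one_smul x := Subtype.ext (one_smul GQ (x : JZero M))
  mul_smul σ τ x := Subtype.ext (mul_smul σ τ (x : JZero M))
  smul_zero σ := Subtype.ext (smul_zero σ)
  smul_add σ x y := Subtype.ext (smul_add σ (x : JZero M) (y : JZero M))

theorem pDivGalois_coe (σ : GQ) (x : PDiv M p) :
    ((letI := pDivGalois M p; σ • x : PDiv M p) : JZero M) = σ • (x : JZero M) := rfl

/-- restriction of an additive endomorphism of `JZero M` to `PDiv M p` -/
def pDivRestrict (f : JZero M →+ JZero M) : Module.End ℤ (PDiv M p) :=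
  AddMonoidHom.toIntLinearMap
    { toFun := fun x => (⟨f x, map_mem_pDivTors f x.2⟩ : PDiv M p)
      map_zero' := Subtype.ext (map_zero f)
      map_add' := fun _ _ => Subtype.ext (map_add f _ _) }

theorem pDivRestrict_coe (f : JZero M →+ JZero M) (x : PDiv M p) :
    (pDivRestrict M p f x : JZero M) = f x := rfl

open Classical in
/-- `T_ℓ` on `PDiv M p` for a good prime, `0` for a bad prime -/
def pDivOp (ℓ : Nat.Primes) : Module.End ℤ (PDiv M p) :=
  if (ℓ : ℕ) ∣ M * p then 0 else pDivRestrict M p (heckeOperatorBar M ℓ).toAddMonoidHom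

variable {M p}

theorem pDivOp_of_bad {ℓ : Nat.Primes} (h : (ℓ : ℕ) ∣ M * p) : pDivOp M p ℓ = 0 := by
  classical
  rw [pDivOp, if_pos h]

theorem pDivOp_of_good {ℓ : Nat.Primes} (h : ¬ (ℓ : ℕ) ∣ M * p) (x : PDiv M p) :
    (pDivOp M p ℓ x : JZero M) = heckeOperatorBar M ℓ x := by
  classical
  rw [pDivOp, if_neg h]
  rfl

theorem coe_nsmul_pDiv (k : ℕ) (x : PDiv M p) : ((k • x : PDiv M p) : JZero M) = k • (x : JZero M) :=
  AddSubgroup.coe_nsmul _ _ _

theorem pDiv_smul_eq_zero_iff (k : ℕ) (x : PDiv M p) : k • x = 0 ↔ k • (x : JZero M) = 0 := by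
  rw [← coe_nsmul_pDiv, ← AddSubgroup.coe_zero (pDivTors p (JZero M))]
  exact Subtype.ext_iff

theorem isPPowerTorsion_coe (x : PDiv M p) : IsPPowerTorsion p (x : JZero M) := x.2.1

theorem isPPowerTorsion_pDiv (x : PDiv M p) : IsPPowerTorsion p x := by
  obtain ⟨a, ha⟩ := x.2.1
  exact ⟨a, (pDiv_smul_eq_zero_iff _ _).mpr ha⟩

/-- Galois commutes with the Hecke operators on `PDiv M p` -/
theorem pDivOp_galois (σ : GQ) (ℓ : Nat.Primes) (x : PDiv M p) :
    (letI := pDivGalois M p; σ • pDivOp M p ℓ x) = pDivOp M p ℓ (letI := pDivGalois M p; σ • x) := by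
  letI := pDivGalois M p
  by_cases h : (ℓ : ℕ) ∣ M * p
  · rw [pDivOp_of_bad h, LinearMap.zero_apply, LinearMap.zero_apply, smul_zero]
  · apply Subtype.ext
    rw [pDivOp_of_good h, pDivGalois_coe, pDivOp_of_good h, pDivGalois_coe]
    exact galois_heckeOperatorBar M σ ℓ x

variable {A : Type} [AddCommGroup A] {e : ℕ → ℤ →+ A}
  {μ : JZero M → (Additive (Gamma0 M) →+ A)}

/-- the multiplier map on `PDiv M p`, as an additive map -/
def MultData.toHom (hμ : MultData M p e μ) : PDiv M p →+ (Additive (Gamma0 M) →+ A) where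
  toFun x := μ x
  map_zero' := hμ.map_zero
  map_add' x y := hμ.map_add x y x.2.1 y.2.1

theorem MultData.toHom_apply (hμ : MultData M p e μ) (x : PDiv M p) : hμ.toHom x = μ x := rfl

theorem MultData.toHom_injective (hμ : MultData M p e μ) : Function.Injective hμ.toHom := by
  rw [injective_iff_map_eq_zero]
  intro x hx
  exact Subtype.ext (hμ.inj x x.2.1 hx)

theorem MultData.toHom_pDivOp (hμ : MultData M p e μ) (ℓ : GoodPrime M p) (x : PDiv M p) :
    hμ.toHom (pDivOp M p (ℓ : Nat.Primes) x) = heckeOp M p ℓ A (hμ.toHom x) := by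
  rw [hμ.toHom_apply, hμ.toHom_apply, pDivOp_of_good ℓ.2]
  exact hμ.hecke ℓ x x.2.1

/-- the Hecke operators commute on `PDiv M p` -/
theorem MultData.tfComm (hμ : MultData M p e μ) : TfComm (pDivOp M p) := by
  intro ℓ ℓ'
  by_cases h : (ℓ : ℕ) ∣ M * p
  · rw [pDivOp_of_bad h, zero_mul, mul_zero]
  by_cases h' : (ℓ' : ℕ) ∣ M * p
  · rw [pDivOp_of_bad h', zero_mul, mul_zero]
  refine LinearMap.ext fun x => hμ.toHom_injective ?_
  rw [Module.End.mul_apply, Module.End.mul_apply]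
  have e1 := hμ.toHom_pDivOp ⟨ℓ, h⟩
  have e2 := hμ.toHom_pDivOp ⟨ℓ', h'⟩
  simp only at e1 e2
  rw [e1, e2, e2, e1]
  exact heckeOp_comm ⟨ℓ, h⟩ ⟨ℓ', h'⟩ A (hμ.toHom x)

variable (M p)

/-- the Hecke module structure on `PDiv M p` -/
@[implicit_reducible]
def pDivModule : Module HeckeAlg (PDiv M p) := tfModule (pDivOp M p)

variable {M p}

theorem MultData.heckeGen_smul (hμ : MultData M p e μ) (ℓ : Nat.Primes) (x : PDiv M p) :
    (letI := pDivModule M p; heckeGen ℓ • x) = pDivOp M p ℓ x :=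
  tfModule_heckeGen_smul hμ.tfComm ℓ x

/-! ## The clauses of `ESDataInf M p (PDiv M p)` -/

theorem MultData.pDiv_smul_def (hμ : MultData M p e μ) (t : HeckeAlg) (x : PDiv M p) :
    (letI := pDivModule M p; t • x) = tfEval hμ.tfComm t x :=
  tfModule_smul_def hμ.tfComm t x

theorem MultData.pDiv_finite (hμ : MultData M p e μ) (n : ℕ) :
    {x : PDiv M p | p ^ n • x = 0}.Finite := by
  refine Set.Finite.of_finite_image (f := hμ.toHom) ((hμ.finite_hom n).subset ?_)
    hμ.toHom_injective.injOn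
  rintro _ ⟨x, hx, rfl⟩
  show p ^ n • hμ.toHom x = 0
  rw [← _root_.map_nsmul, show p ^ n • x = 0 from hx, _root_.map_zero]

theorem pDiv_divisible (x : PDiv M p) : ∃ y : PDiv M p, IsPPowerTorsion p y ∧ p • y = x := by
  obtain ⟨y, hy, hyx⟩ := exists_mem_pDivTors_smul_eq x.2
  exact ⟨⟨y, hy⟩, isPPowerTorsion_pDiv _, Subtype.ext (by rw [coe_nsmul_pDiv]; exact hyx)⟩

theorem MultData.pDiv_smul_comm (hμ : MultData M p e μ) (σ : GQ) (t : HeckeAlg)
    (x : PDiv M p) :
    (letI := pDivModule M p; letI := pDivGalois M p; σ • t • x) =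
      (letI := pDivModule M p; letI := pDivGalois M p; t • σ • x) := by
  letI := pDivGalois M p
  rw [hμ.pDiv_smul_def, hμ.pDiv_smul_def]
  exact tfEval_comm_of_comm hμ.tfComm (DistribSMul.toAddMonoidHom (PDiv M p) σ)
    (fun ℓ y => pDivOp_galois σ ℓ y) t x

/-- **The `p`-adic Eichler–Shimura data on `PDiv M p`** from the multiplier contract and the
clauses `StmtFiniteLevel`, `StmtFrob`, `StmtUnram` about `J₀(M)(ℚ̄)`. -/
theorem MultData.esDataInf [Fact p.Prime] (hμ : MultData M p e μ)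
    (hlev : StmtFiniteLevel M p) (hfrob : StmtFrob M p) (hunr : StmtUnram M p) :
    letI := pDivModule M p
    letI := pDivGalois M p
    ESDataInf M p (PDiv M p) := by
  letI := pDivModule M p
  letI := pDivGalois M p
  refine
    { finite := hμ.pDiv_finite
      divisible := fun x _ => pDiv_divisible x
      smul_comm := hμ.pDiv_smul_comm
      finite_level := ?_
      frob := ?_
      unram := ?_
      supp := ?_ }
  · intro x _
    obtain ⟨E, hE, h⟩ := hlev x x.2.1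
    exact ⟨E, hE, fun σ hσ => Subtype.ext (h σ hσ)⟩
  · intro ℓ hℓ hgood A' hA τ hτ x _
    have h1 := hfrob ℓ hℓ hgood A' hA τ hτ x x.2.1
    have h2 := hμ.heckeGen_smul ⟨ℓ, hℓ⟩ (τ • x)
    rw [h2]
    apply Subtype.ext
    rw [AddSubgroup.coe_add, AddSubgroup.coe_sub, coe_nsmul_pDiv,
      pDivOp_of_good (ℓ := ⟨ℓ, hℓ⟩) hgood]
    exact h1
  · intro ℓ hℓ hgood A' hA σ hσ x _
    exact Subtype.ext (hunr ℓ hℓ hgood A' hA σ hσ x x.2.1)
  · refine supp_of_multiplier_gen hμ.toHom hμ.toHom_injective ?_ hμ.eps hμ.eps_injective ?_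
    · intro ℓ v
      rw [hμ.heckeGen_smul]
      exact hμ.toHom_pDivOp ℓ v
    · intro φ hφ
      obtain ⟨x, hx, hpx, hμx⟩ := hμ.surj_pDiv φ hφ 1
      rw [pow_one] at hpx
      refine ⟨⟨x, hx⟩, (pDiv_smul_eq_zero_iff _ _).mpr hpx, ?_⟩
      rw [hμ.toHom_apply]
      show μ x = _
      rw [hμx]
      refine DFunLike.ext _ _ fun γ => ?_
      rw [AddMonoidHom.comp_apply, AddMonoidHom.comp_apply, AddMonoidHom.comp_apply]
      exact (hμ.eps_intCast (φ γ)).symm

/-- **The faithfulness clause on `PDiv M p`** from the multiplier contract. -/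
theorem MultData.esFaith (hμ : MultData M p e μ) (hp0 : p ≠ 0) :
    letI := pDivModule M p
    Fermat.Agent.S31.ESFaith M p (PDiv M p) := by
  letI := pDivModule M p
  refine esFaith_of_contract e hμ.ker hp0 (faithContract_of_multiplier e hμ.toHom ?_ ?_)
  · intro n ℓ x _
    rw [hμ.heckeGen_smul]
    exact hμ.toHom_pDivOp ℓ x
  · intro n φ hφ
    obtain ⟨x, hx, hpx, hμx⟩ := hμ.surj_pDiv φ hφ n
    exact ⟨⟨x, hx⟩, (pDiv_smul_eq_zero_iff _ _).mpr hpx, hμx⟩

end PDiv

/-! ## The case `A = ℂˣ`: from the G1 contract `TorsionUnif` -/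

section Final

variable {M p : ℕ} [NeZero M]

/-- the `k`-torsion of `ℂˣ` is finite -/
theorem finite_torsion_additive_units (k : ℕ) (hk : k ≠ 0) :
    {a : Additive ℂˣ | k • a = 0}.Finite := by
  haveI : NeZero k := ⟨hk⟩
  have h : ((rootsOfUnity k ℂ : Subgroup ℂˣ) : Set ℂˣ).Finite :=
    Set.finite_coe_iff.mp (inferInstanceAs (Finite (rootsOfUnity k ℂ)))
  refine (h.preimage (f := Additive.toMul) Additive.toMul.injective.injOn).subset ?_
  intro a ha
  show Additive.toMul a ∈ rootsOfUnity k ℂ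
  rw [mem_rootsOfUnity]
  have h1 : Additive.toMul (k • a) = 1 := by
    rw [show k • a = 0 from ha]
    rfl
  rwa [toMul_nsmul] at h1

/-- the G1 contract is the multiplier contract for `A = ℂˣ`, `e n = exp(2πi · / pⁿ)` -/
theorem multData_of_torsionUnifData {μ : JZero M → CharGrp M} (hp0 : p ≠ 0)
    (h : TorsionUnifData M p μ) : MultData M p (fun n => expHom (p ^ n)) μ where
  map_add := h.map_add
  inj := h.inj
  hecke := h.hecke
  surj := h.surj
  tower := fun n k => by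
    show p • expHom (p ^ (n + 1)) k = expHom (p ^ n) k
    rw [pow_succ']
    exact nsmul_expHom p (p ^ n) hp0 k
  zero := fun k => by
    show expHom (p ^ 0) k = 0
    rw [pow_zero]
    exact (expHom_eq_zero_iff one_ne_zero k).mpr (by simp)
  ker := fun n k hk => (expHom_eq_zero_iff (pow_ne_zero n hp0) k).mp hk
  fin := fun n => finite_torsion_additive_units (p ^ n) (pow_ne_zero n hp0)

/-- **ASM + FAITH**: the G1 contract `TorsionUnif M p` and the clauses `StmtFiniteLevel`,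
`StmtFrob`, `StmtUnram` give the package `S31.ESPkgFaith M p` consumed by S30/S31 (on the
`p`-divisible torsion `PDiv M p` of `J₀(M)(ℚ̄)`). -/
theorem esPkgFaith_of_torsionUnif [Fact p.Prime] (hμ : TorsionUnif M p)
    (hlev : StmtFiniteLevel M p) (hfrob : StmtFrob M p) (hunr : StmtUnram M p) :
    Fermat.Agent.S31.ESPkgFaith M p := by
  obtain ⟨μ, h⟩ := hμ
  have hp0 : p ≠ 0 := (Fact.out : p.Prime).ne_zero
  have hm := multData_of_torsionUnifData hp0 h
  exact ⟨PDiv M p, inferInstance, pDivModule M p, pDivGalois M p,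
    hm.esDataInf hlev hfrob hunr, hm.esFaith hp0⟩

/-- the same hypotheses give the `p`-adic package `ESPkgInf M p` -/
theorem esPkgInf_of_torsionUnif [Fact p.Prime] (hμ : TorsionUnif M p)
    (hlev : StmtFiniteLevel M p) (hfrob : StmtFrob M p) (hunr : StmtUnram M p) :
    ESPkgInf M p := by
  obtain ⟨J, i1, i2, i3, h, -⟩ := esPkgFaith_of_torsionUnif hμ hlev hfrob hunr
  exact ⟨J, i1, i2, i3, h⟩

end Final

end Fermat.Agent.ES

end
end ZBES_009_10

/-! ### bundled: `Fermat.Agent.RIB.MP.TorsDivPlan` -/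
section ZBES_009_11
/-
RIB-MP, piece MP-DIV (helper15): for `p ≥ 5` the `p`-power torsion of `J₀(M)(ℚ̄)` is `p`-divisible,
i.e. `J₀(M)[p^∞] = PDiv M p`.  INTERFACE (Props only).

Route.  `μ y` (`ES.muMap`) is a parabolic character `Γ₀(M) → μ_{pᵃ}` (`STB.stb_p2_muMap_par`).
* `StmtParLift` : for `n` prime to `6`, every parabolic `χ : Γ → ℤ/n` (`Γ ≤ SL₂(ℤ)` of finite
  index, `-1 ∈ Γ`) is the reduction of a parabolic `φ : Γ → ℤ`.
  [S41/PD normal forms: NF2 (`a U = 0`) gives `ē = a S ∈ ker (1 + S) ∩ (T - 1) M̄`,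
  `M̄ = (Q → ℤ/n)`, `Q = SL₂(ℤ) ⧸ Γ`; `StmtLatLift` lifts `ē` to `e ∈ Z*(ℤ)`;
  `S41.PD.exists_NF2_of_isZs` gives `φ`; cocycles which agree at `S` and `U` are equal.]
* `StmtLatLift` : PURE ALGEBRA on a finite transitive `SL₂(ℤ)`-set `Q` on which `-1` acts
  trivially, `n` odd:  `ker (1 + S) ∩ (T - 1) M → ker (1 + S̄) ∩ (T̄ - 1) M̄` is onto.
  [Proof: lift `m̄` to `m₀`, `e₀ := T m₀ - m₀`; `(1 + S) e₀ = n f` with `f` `S`-invariant, even at
  the fixed points of `S` (`n` odd), of total sum `0`; so `f = (1 + S) k` with `∑ k = 0`;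
  `ker ∑ ⊆ ker (1 + S) + (T - 1) M` because `⟨S, T⟩` is transitive on `Q`
  (`δ_q - δ_{S q} ∈ ker (1 + S)`, `δ_q - δ_{T q} ∈ (T - 1) M`); write `k = a + g`, `g ∈ (T - 1) M`;
  then `e := e₀ - n g`.]
* then `muSurj` + `muInj` build the `p`-tower of `y` from `φ`.
-/

set_option autoImplicit false

namespace Fermat.Agent.RIB.MP

open scoped MatrixGroups
open ModularGroup (S T)
open ModularCurve ModularCurve.Period Fermat.Agent.ES Fermat.Agent.S41.PD

/-- **MP-DIV / LAT** (pure algebra): `Z*(ℤ) → Z*(ℤ/n)` is onto for odd `n`. -/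
def StmtLatLift : Prop :=
  ∀ (Q : Type) [Fintype Q] [MulAction SL(2, ℤ) Q] [MulAction.IsPretransitive SL(2, ℤ) Q],
    (∀ q : Q, (-1 : SL(2, ℤ)) • q = q) →
    ∀ n : ℕ, Odd n → ∀ e' m' : Q → ZMod n, e' + rho S e' = 0 → e' = rho T m' - m' →
      ∃ e : Q → ℤ, IsZs e ∧ ∀ q, ((e q : ℤ) : ZMod n) = e' q

/-- **MP-DIV / PAR**: parabolic characters with values in `ℤ/n`, `n` prime to `6`, lift to
parabolic homomorphisms with values in `ℤ`. -/
def StmtParLift : Prop :=
  ∀ (Γ : Subgroup SL(2, ℤ)) [Fintype (SL(2, ℤ) ⧸ Γ)], (-1 : SL(2, ℤ)) ∈ Γ →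
    ∀ n : ℕ, n.Coprime 6 → ∀ χ : Additive Γ →+ ZMod n, IsParabolicHom Γ χ →
      ∃ φ : Additive Γ →+ ℤ, IsParabolicHom Γ φ ∧
        ∀ γ : Additive Γ, ((φ γ : ℤ) : ZMod n) = χ γ

/-- **MP-DIV** (`StmtTorsDiv` of the MP plan v2): for `p ≥ 5` the `p`-power torsion of
`J₀(M)(ℚ̄)` is `p`-divisible. -/
def StmtTorsDivMP : Prop :=
  ∀ (M p : ℕ) [NeZero M], p.Prime → 5 ≤ p → ∀ x : JZero M, IsPPowerTorsion p x →
    x ∈ pDivTors p (JZero M)

end Fermat.Agent.RIB.MP


end ZBES_009_11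

/-! ### bundled: `Fermat.Agent.ES.RC.HeckeProdLaurent` -/
section ZBES_009_12

/-!
# ESpkg-G1, analytic seam of HKb: the Laurent expansion of `∏_A f ∘ A`

For a prime `ℓ` and `f` holomorphic on `ℍ`, `1`-periodic and meromorphic at `i∞`
(`IsMerInf f`, e.g. `IsModFun M f`), the function
`heckeProd ℓ f : τ ↦ f(ℓτ) · ∏_{b<ℓ} f((τ + b)/ℓ)` is again in `merInf` and its Laurent expansion is
`kronHecke ℓ ζ (laurentOf f) = F(q^ℓ) · ∏_{b<ℓ} F(ζ^b q^{1/ℓ})`:

* `rc_isMerInf_heckeProd`, `rc_laurentOf_heckeProd`.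
-/

set_option autoImplicit false

noncomputable section

namespace Fermat.Agent.ES.RC

open UpperHalfPlane ModularForm Filter Asymptotics Complex
open Fermat.Agent.S23 Fermat.Agent.S28 Fermat.Agent.ES
open scoped Manifold Topology Real

local notation "Δ" => ModularForm.discriminant
local notation "𝕢" => Function.Periodic.qParam

variable (ℓ : ℕ) [NeZero ℓ]

theorem rc_natCast_pos : (0 : ℤ) < (ℓ : ℤ) := Nat.cast_pos.mpr (Nat.pos_of_ne_zero (NeZero.ne ℓ))

/-- The point `(τ + b) / ℓ`. -/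
def rcBeta (b : ℕ) (z : ℍ) : ℍ := P8_betaPt 1 (b : ℤ) (ℓ : ℤ) one_pos (rc_natCast_pos ℓ) z

theorem rc_coe_beta (b : ℕ) (z : ℍ) :
    ((rcBeta ℓ b z : ℍ) : ℂ) = ((z : ℂ) + (b : ℂ)) / (ℓ : ℂ) := by
  rw [rcBeta, P8_coe_betaPt]
  push_cast
  rw [one_mul]

/-- `τ ↦ ∏_{b<ℓ} f((τ + b)/ℓ)`. -/
def rcNormFun (f : ℍ → ℂ) : ℍ → ℂ := fun z => ∏ b ∈ Finset.range ℓ, f (rcBeta ℓ b z)

theorem rc_normFun_apply (f : ℍ → ℂ) (z : ℍ) :
    rcNormFun ℓ f z = ∏ b ∈ Finset.range ℓ, f (rcBeta ℓ b z) := rfl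

theorem rc_normFun_mul (f g : ℍ → ℂ) (z : ℍ) :
    rcNormFun ℓ (fun z => f z * g z) z = rcNormFun ℓ f z * rcNormFun ℓ g z := by
  simp only [rc_normFun_apply, Finset.prod_mul_distrib]

theorem rc_normFun_pow (f : ℍ → ℂ) (k : ℕ) (z : ℍ) :
    rcNormFun ℓ (fun z => f z ^ k) z = rcNormFun ℓ f z ^ k := by
  simp only [rc_normFun_apply, Finset.prod_pow]

theorem rc_mdiff_normFun {f : ℍ → ℂ} (hf : MDiff f) : MDiff (rcNormFun ℓ f) := by
  have h : ∀ s : Finset ℕ, MDiff (fun z : ℍ => ∏ b ∈ s, f (rcBeta ℓ b z)) := by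
    intro s
    classical
    induction s using Finset.induction_on with
    | empty => simpa using (mdifferentiable_const : MDiff (fun _ : ℍ => (1 : ℂ)))
    | insert b s hb ih =>
      simp only [Finset.prod_insert hb]
      exact (rc_mdiff_comp_beta 1 b ℓ one_pos (rc_natCast_pos ℓ) hf).mul ih
  exact h _

/-- a product over a period of an `ℓ`-periodic sequence is shift invariant -/
theorem rc_prod_range_shift (φ : ℕ → ℂ) (h : φ ℓ = φ 0) :
    ∏ b ∈ Finset.range ℓ, φ (b + 1) = ∏ b ∈ Finset.range ℓ, φ b := by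
  have h1 := Finset.prod_range_succ' φ ℓ
  have h2 := Finset.prod_range_succ φ ℓ
  have hℓ : 0 < ℓ := Nat.pos_of_ne_zero (NeZero.ne ℓ)
  by_cases h0 : φ 0 = 0
  · have e1 : ∏ b ∈ Finset.range ℓ, φ b = 0 :=
      Finset.prod_eq_zero (Finset.mem_range.mpr hℓ) h0
    have e2 : ∏ b ∈ Finset.range ℓ, φ (b + 1) = 0 := by
      refine Finset.prod_eq_zero (Finset.mem_range.mpr (Nat.sub_lt hℓ one_pos)) ?_
      have e3 : ℓ - 1 + 1 = ℓ := by omega
      rw [e3, h, h0]
    rw [e1, e2]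
  · rw [h1, h] at h2
    exact mul_right_cancel₀ h0 h2

theorem rc_normFun_periodic {f : ℍ → ℂ} (hf : Function.Periodic (f ∘ ofComplex) 1) :
    Function.Periodic (rcNormFun ℓ f ∘ ofComplex) 1 := by
  have hℓC : (ℓ : ℂ) ≠ 0 := Nat.cast_ne_zero.mpr (NeZero.ne ℓ)
  intro w
  simp only [Function.comp_apply]
  by_cases hw : 0 < w.im
  · have hw1 : 0 < (w + 1).im := by simpa using hw
    rw [ofComplex_apply_of_im_pos hw, ofComplex_apply_of_im_pos hw1, rc_normFun_apply,
      rc_normFun_apply]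
    have e1 : ∀ b : ℕ, rcBeta ℓ b ⟨w + 1, hw1⟩ = rcBeta ℓ (b + 1) ⟨w, hw⟩ := by
      intro b
      apply UpperHalfPlane.ext
      rw [rc_coe_beta, rc_coe_beta]
      show (w + 1 + (b : ℂ)) / (ℓ : ℂ) = (w + ((b + 1 : ℕ) : ℂ)) / (ℓ : ℂ)
      push_cast
      ring_nf
    simp only [e1]
    refine rc_prod_range_shift ℓ (fun b => f (rcBeta ℓ b ⟨w, hw⟩)) ?_
    refine rc_periodic_int hf _ _ 1 ?_
    rw [rc_coe_beta, rc_coe_beta]
    push_cast
    field_simp
    ring
  · have hw1 : ¬ 0 < (w + 1).im := by simpa using hw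
    rw [ofComplex_apply_of_im_nonpos (not_lt.mp hw), ofComplex_apply_of_im_nonpos (not_lt.mp hw1)]

theorem rc_isBounded_normFun {g : ℍ → ℂ} (hg : IsBoundedAtImInfty g) :
    IsBoundedAtImInfty (rcNormFun ℓ g) := by
  have h : ∀ b ∈ Finset.range ℓ, (fun z : ℍ => g (rcBeta ℓ b z)) =O[atImInfty]
      (fun _ : ℍ => (1 : ℝ)) := fun b _ =>
    rc_isBounded_comp_beta 1 b ℓ one_pos (rc_natCast_pos ℓ) hg
  have h2 := IsBigO.finsetProd h
  refine h2.congr' (Eventually.of_forall fun z => rfl) (Eventually.of_forall fun z => ?_)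
  simp

/-- `Δ(τ) / ∏_b Δ((τ + b)/ℓ)` is bounded at `i∞`. -/
theorem rc_isBounded_disc_div_normFun :
    IsBoundedAtImInfty (fun z : ℍ => Δ z * (rcNormFun ℓ Δ z)⁻¹) := by
  have h1 := rc_discriminant_isBigO_exp
  have h : ∀ b ∈ Finset.range ℓ, (fun z : ℍ => (Δ (rcBeta ℓ b z))⁻¹) =O[atImInfty]
      (fun z : ℍ => (Real.exp (-2 * π * (((1 : ℤ) : ℝ) / ((ℓ : ℤ) : ℝ) * z.im)))⁻¹) := fun b _ =>
    rc_inv_discriminant_comp_beta_isBigO 1 b ℓ one_pos (rc_natCast_pos ℓ)
  have h2 := IsBigO.finsetProd h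
  have h3 := h1.mul h2
  refine h3.congr' (Eventually.of_forall fun z => ?_) (Eventually.of_forall fun z => ?_)
  · simp only [rc_normFun_apply, Finset.prod_inv_distrib]
  · have hℓ : ((ℓ : ℤ) : ℝ) ≠ 0 := by exact_mod_cast NeZero.ne ℓ
    simp only [Pi.one_apply, Finset.prod_const, Finset.card_range]
    rw [← Real.exp_neg, ← Real.exp_nat_mul, ← Real.exp_add]
    have : -2 * π * z.im + (ℓ : ℝ) * -(-2 * π * (((1 : ℤ) : ℝ) / ((ℓ : ℤ) : ℝ) * z.im)) = 0 := by
      push_cast at hℓ ⊢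
      field_simp
      ring
    rw [this, Real.exp_zero]

theorem rc_periodic_of_isMerInf {f : ℍ → ℂ} (hf : IsMerInf f) :
    Function.Periodic (f ∘ ofComplex) 1 := by
  obtain ⟨m, hm⟩ := hf
  have h1 := hm.2.1
  have h2 : Function.Periodic ((fun z : ℍ => Δ z) ∘ ofComplex) 1 :=
    bridge_isHPB_discriminant.2.1
  intro w
  have e1 := h1 w
  have e2 := h2 w
  simp only [Function.comp_apply] at e1 e2 ⊢
  rw [e2] at e1
  exact mul_right_cancel₀ (pow_ne_zero m (discriminant_ne_zero _)) e1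

theorem rc_normFun_disc_ne_zero (z : ℍ) : rcNormFun ℓ Δ z ≠ 0 := by
  rw [rc_normFun_apply]
  exact Finset.prod_ne_zero_iff.mpr fun b _ => discriminant_ne_zero _

/-- `τ ↦ ∏_{b<ℓ} f((τ + b)/ℓ)` is in `merInf` if `f` is. -/
theorem rc_isMerInf_normFun {f : ℍ → ℂ} (hf : IsMerInf f) : IsMerInf (rcNormFun ℓ f) := by
  have hper := rc_periodic_of_isMerInf hf
  have hmd := IsMerInf.mdiff hf
  obtain ⟨m, hm⟩ := hf
  refine ⟨m, (rc_mdiff_normFun ℓ hmd).mul (mdiff_discriminant_pow m), ?_, ?_⟩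
  · have h1 := rc_normFun_periodic ℓ hper
    have h2 : Function.Periodic ((fun z : ℍ => Δ z) ∘ ofComplex) 1 :=
      bridge_isHPB_discriminant.2.1
    intro w
    have e1 := h1 w
    have e2 := h2 w
    simp only [Function.comp_apply] at e1 e2 ⊢
    rw [e1, e2]
  · have h1 := rc_isBounded_normFun ℓ hm.2.2
    have h2 := rc_isBounded_pow (rc_isBounded_disc_div_normFun ℓ) m
    have h3 := h1.mul h2
    refine h3.congr' (Eventually.of_forall fun z => ?_) (Eventually.of_forall fun z => rfl)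
    simp only [Pi.mul_apply]
    rw [rc_normFun_mul, rc_normFun_pow]
    have hne := rc_normFun_disc_ne_zero ℓ z
    rw [mul_pow, inv_pow]
    field_simp

/-! ### The Laurent expansion of `rcNormFun` -/

theorem rc_isMerInf_prod {ι : Type*} (s : Finset ι) (F : ι → ℍ → ℂ)
    (hF : ∀ i ∈ s, IsMerInf (F i)) : IsMerInf (fun z => ∏ i ∈ s, F i z) := by
  have h : IsMerInf (∏ i ∈ s, F i) := merInf.prod_mem hF
  convert h using 1
  funext z
  rw [Finset.prod_apply]

theorem rc_laurentOf_prod {ι : Type*} (s : Finset ι) (F : ι → ℍ → ℂ)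
    (hF : ∀ i ∈ s, IsMerInf (F i)) :
    laurentOf (fun z => ∏ i ∈ s, F i z) = ∏ i ∈ s, laurentOf (F i) := by
  classical
  induction s using Finset.induction_on with
  | empty =>
    simp only [Finset.prod_empty]
    exact laurentOf_one
  | insert a s ha ih =>
    have h1 : IsMerInf (F a) := hF a (Finset.mem_insert_self a s)
    have h2 : ∀ i ∈ s, IsMerInf (F i) := fun i hi => hF i (Finset.mem_insert_of_mem hi)
    have h3 := rc_isMerInf_prod s F h2
    rw [Finset.prod_insert ha, ← ih h2, ← laurentOf_mul h1 h3]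
    congr 1
    funext z
    rw [Finset.prod_insert ha]
    rfl

omit [NeZero ℓ] in
theorem rc_root_pow (b : ℕ) : rcRoot (b : ℤ) (ℓ : ℤ) = rcRoot 1 (ℓ : ℤ) ^ b := by
  apply Units.ext
  rw [Units.val_pow_eq_pow_val, rc_coe_root, rc_coe_root, ← Complex.exp_nat_mul]
  congr 1
  push_cast
  ring

theorem rc_isPrimitiveRoot_root : IsPrimitiveRoot (rcRoot 1 (ℓ : ℤ)) ℓ := by
  have h := Complex.isPrimitiveRoot_exp ℓ (NeZero.ne ℓ)
  rw [← IsPrimitiveRoot.coe_units_iff]
  convert h using 1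
  rw [rc_coe_root]
  congr 1
  push_cast
  ring

theorem rc_beta_scaleN (b : ℕ) (z : ℍ) :
    rcBeta ℓ b (scaleN ℓ z) = rcShift (b : ℤ) (ℓ : ℤ) (rc_natCast_pos ℓ) z := by
  have hℓC : (ℓ : ℂ) ≠ 0 := Nat.cast_ne_zero.mpr (NeZero.ne ℓ)
  apply UpperHalfPlane.ext
  rw [rc_coe_beta, rc_coe_shift, coe_scaleN]
  push_cast
  field_simp

/-- The Laurent expansion of `τ ↦ ∏_{b<ℓ} f((τ + b)/ℓ)` is `∏_{b<ℓ} F(ζ^b q^{1/ℓ})`,
`ζ = exp (2πi/ℓ)`. -/
theorem rc_laurentOf_normFun {f : ℍ → ℂ} (hf : IsMerInf f) :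
    laurentOf (rcNormFun ℓ f) = kronNorm ℓ (rcRoot 1 (ℓ : ℤ)) (laurentOf f) := by
  have hH := rc_isMerInf_normFun ℓ hf
  have h1 := laurentOf_comp_scaleN ℓ hH
  have h2 : (fun z => rcNormFun ℓ f (scaleN ℓ z)) =
      fun z => ∏ b ∈ Finset.range ℓ, f (rcShift (b : ℤ) (ℓ : ℤ) (rc_natCast_pos ℓ) z) := by
    funext z
    rw [rc_normFun_apply]
    exact Finset.prod_congr rfl fun b _ => by rw [rc_beta_scaleN]
  rw [h2, rc_laurentOf_prod _ _ (fun b _ => rc_isMerInf_shift _ _ _ hf)] at h1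
  have h3 : ∏ b ∈ Finset.range ℓ,
      laurentOf (fun z => f (rcShift (b : ℤ) (ℓ : ℤ) (rc_natCast_pos ℓ) z)) =
      kronRotProd ℓ (rcRoot 1 (ℓ : ℤ)) (laurentOf f) := by
    rw [kronRotProd]
    exact Finset.prod_congr rfl fun b _ => by rw [rc_laurentOf_shift _ _ _ hf, rc_root_pow]
  rw [h3] at h1
  exact (kronNorm_unique ℓ _ _ _ h1.symm).symm

/-! ### `heckeProd` for a prime -/

theorem rc_prod_zmod (φ : ℕ → ℂ) : ∏ j : ZMod ℓ, φ j.val = ∏ b ∈ Finset.range ℓ, φ b := by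
  obtain ⟨n, rfl⟩ : ∃ n, ℓ = n + 1 := Nat.exists_eq_succ_of_ne_zero (NeZero.ne ℓ)
  exact Fin.prod_univ_eq_prod_range φ (n + 1)

theorem rc_act_none [hp : Fact ℓ.Prime] (τ : ℍ) :
    (repOfPoint (p := ℓ) none).act τ = scaleN ℓ τ := by
  apply UpperHalfPlane.ext
  rw [HeckeRep.coe_act, coe_scaleN]
  simp [repOfPoint]

theorem rc_act_some [hp : Fact ℓ.Prime] (j : ZMod ℓ) (τ : ℍ) :
    (repOfPoint (p := ℓ) (some j)).act τ = rcBeta ℓ j.val τ := by
  apply UpperHalfPlane.ext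
  rw [HeckeRep.coe_act, rc_coe_beta]
  simp [repOfPoint]

/-- For a prime `ℓ`: `∏_A f(Aτ) = f(ℓτ) · ∏_{b<ℓ} f((τ + b)/ℓ)`. -/
theorem rc_heckeProd_eq (hℓ : ℓ.Prime) (f : ℍ → ℂ) (τ : ℍ) :
    heckeProd ℓ f τ = f (scaleN ℓ τ) * rcNormFun ℓ f τ := by
  have : Fact ℓ.Prime := ⟨hℓ⟩
  rw [heckeProd_apply, ← Equiv.prod_comp (repEquiv (p := ℓ)), rc_normFun_apply,
    ← rc_prod_zmod ℓ (fun b => f (rcBeta ℓ b τ))]
  simp only [repEquiv_apply]
  have h := Fintype.prod_option (fun x : Option (ZMod ℓ) => f ((repOfPoint (p := ℓ) x).act τ))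
  rw [rc_act_none] at h
  simp only [rc_act_some] at h
  rw [← h]
  rfl

/-- **`heckeProd ℓ f` is meromorphic at `i∞`.** -/
theorem rc_isMerInf_heckeProd (hℓ : ℓ.Prime) {f : ℍ → ℂ} (hf : IsMerInf f) :
    IsMerInf (heckeProd ℓ f) := by
  have h1 := isMerInf_comp_scaleN ℓ hf
  have h2 := rc_isMerInf_normFun ℓ hf
  have h3 := h1.mul h2
  convert h3 using 1
  funext τ
  exact rc_heckeProd_eq ℓ hℓ f τ

/-- The Laurent expansion of `heckeProd ℓ f`, with `ζ = exp (2πi/ℓ)`. -/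
theorem rc_laurentOf_heckeProd_root (hℓ : ℓ.Prime) {f : ℍ → ℂ} (hf : IsMerInf f) :
    laurentOf (heckeProd ℓ f) = kronHecke ℓ (rcRoot 1 (ℓ : ℤ)) (laurentOf f) := by
  have h1 := isMerInf_comp_scaleN ℓ hf
  have h2 := rc_isMerInf_normFun ℓ hf
  have h3 : heckeProd ℓ f = (fun z => f (scaleN ℓ z)) * rcNormFun ℓ f := by
    funext τ
    exact rc_heckeProd_eq ℓ hℓ f τ
  rw [h3, laurentOf_mul h1 h2, laurentOf_comp_scaleN ℓ hf, rc_laurentOf_normFun ℓ hf]
  rfl

/-- **The Laurent expansion of `heckeProd ℓ f` is `kronHecke ℓ ζ (laurentOf f)`**, for every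
primitive `ℓ`-th root of unity `ζ`. -/
theorem rc_laurentOf_heckeProd (hℓ : ℓ.Prime) (ζ : ℂˣ) (hζ : IsPrimitiveRoot ζ ℓ)
    {f : ℍ → ℂ} (hf : IsMerInf f) :
    laurentOf (heckeProd ℓ f) = kronHecke ℓ ζ (laurentOf f) := by
  rw [rc_laurentOf_heckeProd_root ℓ hℓ hf, kronHecke, kronHecke,
    kronNorm_eq_of_isPrimitiveRoot ℓ ζ (rcRoot 1 (ℓ : ℤ)) hζ (rc_isPrimitiveRoot_root ℓ)]

end Fermat.Agent.ES.RC

end
end ZBES_009_12

/-! ### bundled: `Fermat.Agent.R38.PlanHol` -/
section ZBES_009_13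
/-
ROW 38, PKG-TRES, step T3 by the route HOL-dlog — INTERFACE of the sub-captain (helper83).
Plan and piece table: NOTES/R38-HOL.md.  Definitions and statements only.

Setting: `ℓ ≥ 5` a prime, `ℓ ∤ N`, `A ⊂ ℚ̄` a valuation ring over `ℓ`, `k = kA A`,
`F̄ = modularFunctionFieldFullC k N ⊂ k((q))` (function field of `C = X₀(N) mod ℓ`), `j̄ = jqModC k`,
`θ = q d/dq` (`S28.Deriv.thetaFun`), `B̄` = integral closure of `k[j̄]` in `F̄` (`HolInt`),
`𝔑 = {y ∈ B̄ : y² ∈ (j̄ − 1728) B̄, y³ ∈ j̄ (j̄ − 1728) B̄}` (`HolN`; the radical of `j̄(j̄ − 1728) B̄`),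
`W = {w : InW N A w}` (functions of `C` regular outside the cusp `∞`),
`S̄ = holSpan N k` = the `k`-span of the reductions of the cusp forms of weight `2`, level `N`,
with integer `q`-expansion.

TARGET  `StmtHolSpan` : `r ∈ F̄ˣ` with `ℓ ∣ ord_Q r` at ALL places `Q` of `F̄`  ⇒  `dlog r = θr / r ∈ S̄`.
        = `StmtHolRes` (`a₀ (w · dlog r) = 0` for `w ∈ W`; `ES.I2.res_main` with `fq := dlog r`,
          `y := j̄ (j̄ − 1728) θr / (r θj̄)`)  +  (DUAL) `r38hold_dual` (helper41, landed).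
PIECES of `StmtHolRes` (the hypotheses of `res_main` for `y`):
* `StmtHolDer`    (DER)   `θ f = g · θ j̄` with `g ∈ F̄` for `f ∈ F̄`   (`D := θ / θ j̄` preserves `F̄`);
* `StmtHolDerTau` (DER-τ) `θ (τ f) = τ g · θ (τ j̄)` for every `k`-algebra map `τ : F̄ → k((Q))`;
* `StmtHolNIdeal` (𝔑)     `𝔑` is an ideal of `B̄`;
* `StmtHolLift`   (B1-LIFT) every element of `B̄` is the reduction of an `A`-integral function of
                          `F_N` with poles only at the cusps (DEU, lifting of sections);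
* `StmtHolMF`     (B1-MF) characteristic `0`: for `C ∈ F_N` with poles only at the cusps,
                          `Yt = j (j − 1728) θC / θj`, `Yt² / (j − 1728)`, `Yt³ / (j (j − 1728))`
                          lie in `F_N` and have poles only at the cusps;
* `StmtHolB1`     (B1)    `D′ (B̄) ⊂ 𝔑`, `D′ := j̄ (j̄ − 1728) θ / θ j̄`;
* `StmtHolDed`    (DED)   `ℓ ∣ ord_Q r` at the finite places  ⇒  `θ r = r · Σ cᵢ θ dᵢ`, `cᵢ, dᵢ ∈ B̄`;
* `StmtHolOrd`    (ORD)   `ℓ ∣ ord_Q r` at all places ⇒ `ℓ ∣ ord (τ r)` for the embeddings `τ`;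
* `StmtHolCusp`   (CUSP)  `ℓ ∣ ord (τ r)` ⇒ `τ y` has `Q`-order `> −N`.
HECKE:
* `r38holModule k` : the formal Hecke module structure on `k((q))` (`T_ℓ ↦ r38heckeT ℓ`,
                    through `ES.tfModule`; genuine because the formal operators commute);
* `StmtHolKill`   (KILL)  a good Hecke polynomial killing `S₂(Γ₀(N))` kills `S̄`.
-/

set_option autoImplicit false
set_option linter.style.haveILetI false

noncomputable section

namespace Fermat.Agent.R38

open ModularCurve AlgebraicCurve HahnSeries Fermat.Agent.ES Fermat.Agent.S24 Fermat.Agent.ES.M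
open Fermat.Agent.ES.I2 Fermat.Agent.S28.Deriv

/-! ### Definitions -/

section Defs

variable (k : Type) [Field k] (N : ℕ) [NeZero N]

/-- `z ∈ B̄`: an element of `F̄` integral over `k[j̄]`. -/
def HolInt (z : LaurentSeries k) : Prop :=
  z ∈ modularFunctionFieldFullC k N ∧ IntJ (jqModC k) z

/-- `y ∈ 𝔑`: `y ∈ B̄`, `y² ∈ (j̄ − 1728) B̄` and `y³ ∈ j̄ (j̄ − 1728) B̄`. -/
def HolN (y : LaurentSeries k) : Prop :=
  HolInt k N y ∧ (∃ y2, HolInt k N y2 ∧ y ^ 2 = y2 * (jqModC k - 1728)) ∧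
    ∃ y1, HolInt k N y1 ∧ y ^ 3 = y1 * jqModC k * (jqModC k - 1728)

/-- the reductions of the cusp forms of weight `2` and level `N` with integer `q`-expansion -/
def holForms : Set (LaurentSeries k) :=
  {s | ∃ (f : CuspForm (CongruenceSubgroup.Gamma0 N) 2) (z : ℕ → ℤ),
    (∀ n, ModularFormClass.qCoeff f n = (z n : ℂ)) ∧
      s = coeffMap (Int.castRingHom k) (fqZ z)}

/-- `S̄`: the `k`-span of the reduced cusp forms -/
def holSpan : Submodule k (LaurentSeries k) := Submodule.span k (holForms k N)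

/-- the element `j̄` of `F̄` -/
abbrev holJ : ↥(modularFunctionFieldFullC k N) := ⟨jqModC k, jqModC_mem_full k N⟩

/-- `r ∈ F̄` and `ℓ ∣ ord_Q r` at ALL places `Q` of `F̄` (the output of (FAC-p)).
(Stated for a generic field `k` so that the instances on `F̄` are found quickly; use it at
`k := kA A`.) -/
def HolDiv (ℓ : ℕ) (r : LaurentSeries k) : Prop :=
  ∃ hr : r ∈ modularFunctionFieldFullC k N,
    ∀ Q : Place k ↥(modularFunctionFieldFullC k N), (ℓ : ℤ) ∣ Q.ord ⟨r, hr⟩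

end Defs

/-! ### The formal Hecke module -/

section Hecke

variable (k : Type) [Field k]

/-- the formal weight-2 Hecke operator `T_ℓ` on `k((q))` as an additive endomorphism -/
def r38holOp (ℓ : Nat.Primes) : Module.End ℤ (LaurentSeries k) :=
  haveI : NeZero (ℓ : ℕ) := ⟨ℓ.2.ne_zero⟩
  (AddMonoidHom.mk' (r38heckeT (k := k) (ℓ : ℕ)) (r38heckeT_add (ℓ : ℕ))).toIntLinearMap

theorem r38holOp_apply (ℓ : Nat.Primes) (b : LaurentSeries k) :
    r38holOp k ℓ b = (haveI : NeZero (ℓ : ℕ) := ⟨ℓ.2.ne_zero⟩; r38heckeT (ℓ : ℕ) b) := rfl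

/-- the formal Hecke module structure on `k((q))`: `heckeGen ℓ • b = r38heckeT ℓ b`
(`ES.tfModule`; it is genuine as soon as `TfComm (r38holOp k)` is known — piece KILL). -/
@[implicit_reducible]
def r38holModule : Module HeckeAlg (LaurentSeries k) := tfModule (r38holOp k)

end Hecke

/-! ### The pieces in characteristic `ℓ` (generic field `k`) -/

/-- **(𝔑)** `𝔑` is an ideal of `B̄` (pure algebra: `B̄` is integrally closed in `F̄`). -/
def StmtHolNIdeal : Prop :=
  ∀ (k : Type) [Field k] (N : ℕ) [NeZero N],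
    (∀ a b, HolN k N a → HolN k N b → HolN k N (a + b)) ∧
    (∀ c y, HolInt k N c → HolN k N y → HolN k N (c * y))

/-- **(DER)** `D = θ / θ j̄` preserves `F̄`. -/
def StmtHolDer : Prop :=
  ∀ (k : Type) [Field k] (ℓ : ℕ) [Fact ℓ.Prime] [CharP k ℓ] [PerfectRing k ℓ]
    (N : ℕ) [NeZero N], ((N : ℕ) : k) ≠ 0 →
    ∀ f : LaurentSeries k, f ∈ modularFunctionFieldFullC k N →
      ∃ g ∈ modularFunctionFieldFullC k N, thetaFun f = g * thetaFun (jqModC k)

/-- **(DER-τ)** every `k`-algebra map `τ : F̄ → k((Q))` commutes with `D`: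
`θ (τ f) = τ (D f) · θ (τ j̄)`. -/
def StmtHolDerTau : Prop :=
  ∀ (k : Type) [Field k] (ℓ : ℕ) [Fact ℓ.Prime] [CharP k ℓ] [PerfectRing k ℓ]
    (N : ℕ) [NeZero N], ((N : ℕ) : k) ≠ 0 →
    ∀ (τ : ↥(modularFunctionFieldFullC k N) →ₐ[k] LaurentSeries k)
      (f g : ↥(modularFunctionFieldFullC k N)),
      thetaFun (f : LaurentSeries k) = (g : LaurentSeries k) * thetaFun (jqModC k) →
        thetaFun (τ f) = τ g * thetaFun (τ (holJ k N))

/-- **(ORD)** divisibility of the orders at all places gives divisibility of the `Q`-order of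
`τ r` for every embedding `τ` over `j̄ ↦ j̄(Q^N)` (`S24.exists_place_of_valuation`). -/
def StmtHolOrd : Prop :=
  ∀ (k : Type) [Field k] (ℓ : ℕ) [Fact ℓ.Prime] [CharP k ℓ] [PerfectRing k ℓ]
    (N : ℕ) [NeZero N], ((N : ℕ) : k) ≠ 0 →
    ∀ (τ : ↥(modularFunctionFieldFullC k N) →ₐ[k] LaurentSeries k),
      τ (holJ k N) = qExpand k N (jqModC k) →
      ∀ r : ↥(modularFunctionFieldFullC k N), r ≠ 0 →
        (∀ Q : Place k ↥(modularFunctionFieldFullC k N), (ℓ : ℤ) ∣ Q.ord r) →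
          (ℓ : ℤ) ∣ (τ r).order

/-- **(CUSP)** if `ℓ ∣ ord (τ r)` and `y · θ j̄ · r = θ r · j̄ (j̄ − 1728)`, then `τ y` has `Q`-order
`> −N` (the differential `dlog r` is regular at the cusp of `τ`). -/
def StmtHolCusp : Prop :=
  ∀ (k : Type) [Field k] (ℓ : ℕ) [Fact ℓ.Prime] [CharP k ℓ] [PerfectRing k ℓ]
    (N : ℕ) [NeZero N], ((N : ℕ) : k) ≠ 0 →
    ∀ (τ : ↥(modularFunctionFieldFullC k N) →ₐ[k] LaurentSeries k),
      τ (holJ k N) = qExpand k N (jqModC k) →
      ∀ r y : ↥(modularFunctionFieldFullC k N), r ≠ 0 → (ℓ : ℤ) ∣ (τ r).order →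
        (y : LaurentSeries k) * thetaFun (jqModC k) * (r : LaurentSeries k) =
            thetaFun (r : LaurentSeries k) * jqModC k * (jqModC k - 1728) →
        ∀ m : ℤ, m ≤ -(N : ℤ) → (τ y).coeff m = 0

/-- **(DED)** the Dedekind trick: if `ℓ ∣ ord_Q r` at every place `Q` where `j̄` is regular, then
`θ r = r · Σ cᵢ θ dᵢ` with `cᵢ, dᵢ ∈ B̄`
(`r B̄ = 𝔞^ℓ`, `𝔞^ℓ` is generated by `ℓ`-th powers: `r = Σ dᵢ aᵢ^ℓ`, `cᵢ = aᵢ^ℓ / r`). -/
def StmtHolDed : Prop :=
  ∀ (k : Type) [Field k] (ℓ : ℕ) [Fact ℓ.Prime] [CharP k ℓ] [PerfectRing k ℓ]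
    (N : ℕ) [NeZero N], ((N : ℕ) : k) ≠ 0 →
    ∀ r : ↥(modularFunctionFieldFullC k N), r ≠ 0 →
      (∀ Q : Place k ↥(modularFunctionFieldFullC k N), 0 ≤ Q.ord (holJ k N) →
        (ℓ : ℤ) ∣ Q.ord r) →
      ∃ (n : ℕ) (c d : Fin n → LaurentSeries k),
        (∀ i, HolInt k N (c i)) ∧ (∀ i, HolInt k N (d i)) ∧
          thetaFun (r : LaurentSeries k) = (r : LaurentSeries k) * ∑ i, c i * thetaFun (d i)

/-! ### The pieces at `(N, A)` -/

section AtNA

variable (N : ℕ) [NeZero N] (A : ValuationSubring Kb)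

/-- **(B1-LIFT)** every element of `B̄` is the reduction of an `A`-integral function with poles
only at the cusps. -/
def StmtHolLift : Prop :=
  ∀ c : LaurentSeries (kA A), HolInt (kA A) N c →
    ∃ (C : LaurentSeries A) (hC : kronIncl A C ∈ modularFunctionFieldBar N),
      PolesAtCusps N ⟨kronIncl A C, hC⟩ ∧ kronRed A C = c

/-- **(B1)** `D′ (B̄) ⊂ 𝔑`. -/
def StmtHolB1 : Prop :=
  ∀ c : LaurentSeries (kA A), HolInt (kA A) N c →
    ∃ y : LaurentSeries (kA A), HolN (kA A) N y ∧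
      y * thetaFun (jqModC (kA A)) = thetaFun c * jqModC (kA A) * (jqModC (kA A) - 1728)

/-- **(RES)** the residue theorem for `dlog r`: `a₀ (w · dlog r) = 0` for `w ∈ W`. -/
def StmtHolRes (ℓ : ℕ) : Prop :=
  ∀ r : LaurentSeries (kA A), r ≠ 0 → HolDiv (kA A) N ℓ r →
    ∀ w : LaurentSeries (kA A), InW N A w → (w * r38dlog r).coeff 0 = 0

/-- **(HOL-SPAN)** the target: `dlog r ∈ S̄`. -/
def StmtHolSpan (ℓ : ℕ) : Prop :=
  ∀ r : LaurentSeries (kA A), r ≠ 0 → HolDiv (kA A) N ℓ r → r38dlog r ∈ holSpan (kA A) N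

end AtNA

/-- **(B1-MF)** characteristic `0`: for `C ∈ F_N` with poles only at the cusps the functions
`Yt = j (j − 1728) θC / θj = −θC · E₄E₆ / Δ`, `Y2 = Yt² / (j − 1728)`, `Y1 = Yt³ / (j (j − 1728))`
lie in `F_N` and have poles only at the cusps
(`C = Σ cᵢ Gᵢ / Δ^m`; `θ (G / Δ^m) = ∂G / Δ^m`, Serre derivative; `ES/Riemann.lean`, `ES/I2/MF.lean`). -/
def StmtHolMF (N : ℕ) [NeZero N] : Prop :=
  ∀ C : FF N, PolesAtCusps N C →
    ∃ Yt Y1 Y2 : FF N, PolesAtCusps N Yt ∧ PolesAtCusps N Y1 ∧ PolesAtCusps N Y2 ∧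
      (Yt : LaurentSeries Kb) * thetaFun jBar =
          thetaFun (C : LaurentSeries Kb) * jBar * (jBar - 1728) ∧
      (Yt : LaurentSeries Kb) ^ 2 = (Y2 : LaurentSeries Kb) * (jBar - 1728) ∧
      (Yt : LaurentSeries Kb) ^ 3 = (Y1 : LaurentSeries Kb) * jBar * (jBar - 1728)

/-! ### The `All` versions and the glue -/

def StmtHolLiftAll : Prop :=
  ∀ (N : ℕ) [NeZero N] (ℓ : ℕ), ℓ.Prime → 5 ≤ ℓ → ¬ ℓ ∣ N →
    ∀ A : ValuationSubring Kb, A.LiesOverPrime ℓ → StmtHolLift N A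

def StmtHolMFAll : Prop := ∀ (N : ℕ) [NeZero N], StmtHolMF N

def StmtHolB1All : Prop :=
  ∀ (N : ℕ) [NeZero N] (ℓ : ℕ), ℓ.Prime → 5 ≤ ℓ → ¬ ℓ ∣ N →
    ∀ A : ValuationSubring Kb, A.LiesOverPrime ℓ → StmtHolB1 N A

def StmtHolResAll : Prop :=
  ∀ (N : ℕ) [NeZero N] (ℓ : ℕ), ℓ.Prime → 5 ≤ ℓ → ¬ ℓ ∣ N →
    ∀ A : ValuationSubring Kb, A.LiesOverPrime ℓ → StmtHolRes N A ℓ

def StmtHolSpanAll : Prop :=
  ∀ (N : ℕ) [NeZero N] (ℓ : ℕ), ℓ.Prime → 5 ≤ ℓ → ¬ ℓ ∣ N →
    ∀ A : ValuationSubring Kb, A.LiesOverPrime ℓ → StmtHolSpan N A ℓ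

/-- piece B1-asm: lifting + the characteristic-`0` functions + `ES.I2.stmtIRAll` -/
def StmtHolB1Glue : Prop := StmtHolLiftAll → StmtHolMFAll → StmtHolB1All

/-- piece RES-asm: `ES.I2.res_main` with `fq := dlog r` -/
def StmtHolResGlue : Prop :=
  StmtHolNIdeal → StmtHolDer → StmtHolDerTau → StmtHolOrd → StmtHolCusp → StmtHolDed →
    StmtHolB1All → StmtHolResAll

/-- piece SPAN-asm: (RES) + (DUAL) (`r38hold_dual`) + `a₀ (dlog r) = ord_q r = 0` in `k` -/
def StmtHolSpanGlue : Prop := StmtHolOrd → StmtHolResAll → StmtHolSpanAll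

/-- **(KILL)** a Hecke polynomial in the `T_ℓ`, `ℓ ∤ N`, which acts as zero on `S₂(Γ₀(N))`
kills the reduced cusp forms (formal Hecke action on `k((q))`). -/
def StmtHolKill : Prop :=
  ∀ (N : ℕ) [NeZero N] (k : Type) [Field k] (S : Set Nat.Primes),
    (∀ ℓ ∈ S, ¬ ((ℓ : Nat.Primes) : ℕ) ∣ N) →
    ∀ t ∈ MvPolynomial.supported ℤ S, KillsForms N t →
      ∀ s ∈ holSpan k N, (letI := r38holModule k; t • s) = 0

/-- the formal Hecke operators commute (part of piece KILL; makes `r38holModule` genuine) -/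
def StmtHolComm : Prop := ∀ (k : Type) [Field k], TfComm (r38holOp k)

end Fermat.Agent.R38

end


end ZBES_009_13

/-! ### bundled: `Fermat.Agent.R38.HolKillFinal` -/
section ZBES_009_14

/-!
# Row 38, PKG-TRES, route HOL-dlog, piece HOL-KILL — the Props of `R38/PlanHol.lean` (helper52)

* `stmtHolComm : StmtHolComm` — the formal Hecke operators `r38holOp k ℓ` commute, so the module
  structure `r38holModule k` is the genuine one (`r38hol_smul_def`);
* `r38hol_eval_eq` — `tfEval h t b = r38hkillEval k t b` (the two formal evaluations agree);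
* `stmtHolKill : StmtHolKill` — a good Hecke polynomial killing `S₂(Γ₀(N))` kills `S̄ = holSpan`.
* API for the glue (T2 induction): `r38hol_smul_def`, `r38hol_heckeGen_smul`, `r38hol_C_smul`,
  `r38hol_add_smul`, `r38hol_mul_smul`, `r38hol_smul_add`, `r38hol_smul_zero`,
  `r38hol_smul_ksmul` (`k`-linearity), `r38hol_smul_eq_zero_of_eigen`.
-/

set_option autoImplicit false
set_option linter.unusedSectionVars false
set_option linter.style.haveILetI false

noncomputable section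

namespace Fermat.Agent.R38

open HahnSeries ModularCurve Fermat.Agent.ES Fermat.Agent.ES.I2

section

variable (k : Type) [Field k]

/-- **(COMM)** the formal Hecke operators commute -/
theorem r38hol_tfComm : TfComm (r38holOp k) := by
  intro ℓ ℓ'
  by_cases h : ℓ = ℓ'
  · subst h
    rfl
  · haveI : NeZero (ℓ : ℕ) := ⟨ℓ.2.ne_zero⟩
    haveI : NeZero (ℓ' : ℕ) := ⟨ℓ'.2.ne_zero⟩
    have hne : (ℓ : ℕ) ≠ (ℓ' : ℕ) := fun e => h (Subtype.ext e)
    apply LinearMap.ext
    intro b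
    exact r38hkill_comm k ℓ.2 ℓ'.2 hne b

theorem stmtHolComm : StmtHolComm := fun k _ => r38hol_tfComm k

/-- the module structure `r38holModule` is the evaluation at the formal Hecke operators -/
theorem r38hol_smul_def (t : HeckeAlg) (b : LaurentSeries k) :
    (letI := r38holModule k; t • b) = tfEval (r38hol_tfComm k) t b :=
  tfModule_smul_def (r38hol_tfComm k) t b

/-- the two formal evaluations agree -/
theorem r38hol_eval_eq (t : HeckeAlg) (b : LaurentSeries k) :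
    tfEval (r38hol_tfComm k) t b = r38hkillEval k t b := by
  induction t using MvPolynomial.induction_on generalizing b with
  | C a =>
    rw [tfEval_C, Module.End.intCast_apply, r38hkillEval_C_apply, Int.cast_smul_eq_zsmul]
  | add s t hs ht =>
    rw [map_add, LinearMap.add_apply, hs, ht, r38hkillEval_add_apply]
  | mul_X s ℓ hs =>
    rw [map_mul, Module.End.mul_apply, tfEval_X, hs, r38hkillEval_mul_apply,
      r38hkillEval_X_apply]
    rfl

theorem r38hol_smul_eq (t : HeckeAlg) (b : LaurentSeries k) :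
    (letI := r38holModule k; t • b) = r38hkillEval k t b := by
  rw [r38hol_smul_def, r38hol_eval_eq]

/-! ### API of the formal module structure -/

theorem r38hol_heckeGen_smul (ℓ : Nat.Primes) (b : LaurentSeries k) :
    (letI := r38holModule k; heckeGen ℓ • b) =
      (haveI : NeZero (ℓ : ℕ) := ⟨ℓ.2.ne_zero⟩; r38heckeT (ℓ : ℕ) b) := by
  rw [r38hol_smul_eq]
  exact r38hkillEval_heckeGen_apply k ℓ b

theorem r38hol_X_smul (ℓ : Nat.Primes) (b : LaurentSeries k) :
    (letI := r38holModule k; (MvPolynomial.X ℓ : HeckeAlg) • b) =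
      (haveI : NeZero (ℓ : ℕ) := ⟨ℓ.2.ne_zero⟩; r38heckeT (ℓ : ℕ) b) :=
  r38hol_heckeGen_smul k ℓ b

theorem r38hol_C_smul (a : ℤ) (b : LaurentSeries k) :
    (letI := r38holModule k; (MvPolynomial.C a : HeckeAlg) • b) = ((a : ℤ) : k) • b := by
  rw [r38hol_smul_eq, r38hkillEval_C_apply]

theorem r38hol_add_smul (s t : HeckeAlg) (b : LaurentSeries k) :
    (letI := r38holModule k; (s + t) • b) =
      (letI := r38holModule k; s • b) + (letI := r38holModule k; t • b) := by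
  rw [r38hol_smul_eq, r38hol_smul_eq, r38hol_smul_eq, r38hkillEval_add_apply]

theorem r38hol_mul_smul (s t : HeckeAlg) (b : LaurentSeries k) :
    (letI := r38holModule k; (s * t) • b) =
      (letI := r38holModule k; s • (letI := r38holModule k; t • b)) := by
  rw [r38hol_smul_eq, r38hol_smul_eq, r38hol_smul_eq, r38hkillEval_mul_apply]

theorem r38hol_smul_add (t : HeckeAlg) (b c : LaurentSeries k) :
    (letI := r38holModule k; t • (b + c)) =
      (letI := r38holModule k; t • b) + (letI := r38holModule k; t • c) := by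
  rw [r38hol_smul_eq, r38hol_smul_eq, r38hol_smul_eq, map_add]

theorem r38hol_smul_zero (t : HeckeAlg) :
    (letI := r38holModule k; t • (0 : LaurentSeries k)) = 0 := by
  rw [r38hol_smul_eq, map_zero]

/-- the formal Hecke action is `k`-linear -/
theorem r38hol_smul_ksmul (t : HeckeAlg) (c : k) (b : LaurentSeries k) :
    (letI := r38holModule k; t • (c • b)) = c • (letI := r38holModule k; t • b) := by
  rw [r38hol_smul_eq, r38hol_smul_eq, map_smul]

/-- **eigen form**: `t • b = 0` and `t • b = n₀ b`, `n₀ ≠ 0` in `k`  ⇒  `b = 0` -/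
theorem r38hol_smul_eq_zero_of_eigen {t : HeckeAlg} {b : LaurentSeries k}
    (h0 : (letI := r38holModule k; t • b) = 0) (n₀ : ℤ) (hn : ((n₀ : ℤ) : k) ≠ 0)
    (he : (letI := r38holModule k; t • b) = ((n₀ : ℤ) : k) • b) : b = 0 := by
  rw [h0] at he
  exact (smul_eq_zero.mp he.symm).resolve_left hn

end

/-- **(KILL)** a Hecke polynomial in the `T_ℓ`, `ℓ ∤ N`, which acts as zero on `S₂(Γ₀(N))`
kills the span `S̄` of the reduced cusp forms. -/
theorem stmtHolKill : StmtHolKill := by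
  intro N _ k _ S hS t ht hkill s hs
  rw [r38hol_smul_eq]
  have hkill' : CuspForm.heckeEvalForms N 2 t = 0 := hkill
  refine Submodule.span_induction (p := fun s _ => r38hkillEval k t s = 0) ?_ ?_ ?_ ?_ hs
  · rintro x ⟨f, z, hz, rfl⟩
    exact r38hkill_series S hS t ht hkill' f z hz
  · exact map_zero _
  · intro x y _ _ hx hy
    rw [map_add, hx, hy, add_zero]
  · intro c x _ hx
    rw [map_smul, hx, smul_zero]

end Fermat.Agent.R38

end


end ZBES_009_14
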