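/- GENERATED FILE (helper35, build-time optimisation, NOTES/ZB.md): verbatim concatenation of the modules
   Fermat.Agent.ES.I2.Embed
   Fermat.Agent.ES.I2.TraceNorm
   Fermat.Agent.R38.HolDerFull
   Fermat.Agent.R38.HolCusp
   Fermat.Agent.R38.HolPieces
   Fermat.Agent.ES.I2aux.PT
   Do not edit; do not import together with these modules. -/
import Mathlib
import Fermat.Agent.ZB.ES_001
import Fermat.Agent.ZB.S24_011
import Fermat.Agent.ZB.S28_002
import Fermat.Agent.ZB.S28_003
import Fermat.Agent.ZB.ES_002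
import Fermat.Agent.ZB.S24_005
import Fermat.Agent.ZB.ES_009

/-! ### bundled: `Fermat.Agent.ES.I2.Embed` -/
section ZBES_021_0

/-!
# ES-I2, abstract core 1: trace and norm as sum / product over a full set of embeddings into a
(not necessarily algebraically closed) field
-/

set_option autoImplicit false

noncomputable section

namespace Fermat.Agent.ES.I2

open Module

variable {K L Ω : Type*} [Field K] [Field L] [Field Ω] [Algebra K L] [Algebra K Ω]
  [FiniteDimensional K L] [Algebra.IsSeparable K L]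

/-- An injective family of `[L : K]` embeddings `L →ₐ[K] Ω`, composed with `Ω → Ω̄`, is a
bijection onto all embeddings into the algebraic closure. -/
theorem bijective_comp_algebraicClosure {I : Type*} [Fintype I]
    (hcard : Fintype.card I = finrank K L) (σ : I → (L →ₐ[K] Ω)) (hσ : Function.Injective σ) :
    Function.Bijective
      (fun i => (IsScalarTower.toAlgHom K Ω (AlgebraicClosure Ω)).comp (σ i)) := by
  rw [Fintype.bijective_iff_injective_and_card]
  refine ⟨fun i j hij => hσ ?_, ?_⟩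
  · ext z
    have := congrArg (fun f : L →ₐ[K] AlgebraicClosure Ω => f z) hij
    exact (algebraMap Ω (AlgebraicClosure Ω)).injective this
  · rw [hcard, AlgHom.card]

theorem trace_eq_sum_of_embeddings {I : Type*} [Fintype I]
    (hcard : Fintype.card I = finrank K L) (σ : I → (L →ₐ[K] Ω)) (hσ : Function.Injective σ)
    (z : L) : algebraMap K Ω (Algebra.trace K L z) = ∑ i, σ i z := by
  apply (algebraMap Ω (AlgebraicClosure Ω)).injective
  rw [← IsScalarTower.algebraMap_apply, trace_eq_sum_embeddings (AlgebraicClosure Ω), map_sum]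
  exact (Fintype.sum_bijective _ (bijective_comp_algebraicClosure hcard σ hσ) _ _
    (fun i => rfl)).symm

theorem norm_eq_prod_of_embeddings {I : Type*} [Fintype I]
    (hcard : Fintype.card I = finrank K L) (σ : I → (L →ₐ[K] Ω)) (hσ : Function.Injective σ)
    (z : L) : algebraMap K Ω (Algebra.norm K z) = ∏ i, σ i z := by
  apply (algebraMap Ω (AlgebraicClosure Ω)).injective
  rw [← IsScalarTower.algebraMap_apply, Algebra.norm_eq_prod_embeddings K (AlgebraicClosure Ω),
    map_prod]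
  exact (Fintype.prod_bijective _ (bijective_comp_algebraicClosure hcard σ hσ) _ _
    (fun i => rfl)).symm

end Fermat.Agent.ES.I2

end
end ZBES_021_0

/-! ### bundled: `Fermat.Agent.ES.I2.TraceNorm` -/
section ZBES_021_1
/-
ES / I2, piece `I2-TN` (helper83): trace and norm over the `j`-line through a full family of
embeddings.

`stmtTN : StmtTN` (`ES/I2/Plan2.lean`): `k` perfect of characteristic `ℓ`, `(N : k) ≠ 0`,
`τ i : F_k → k((Q))`, `i < ψ(N)`, pairwise distinct `k`-algebra maps with `τ i j̄ = J = j̄(Q^N)`;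
for `z ∈ F_k` integral over `k[j̄]` the sum and the product of the `τ i z` are polynomials in `J`.

Proof: `K₀ = k(j̄)`, `[F_k : K₀] = ψ(N)` (S28), separable (`INJ.isSeparable_of_theta`); the `τ i`
are all the `K₀`-embeddings of `F_k` into `k((Q))` (a `K₀`-algebra through `q ↦ Q^N`), so
`∑ τ i z = Tr z`, `∏ τ i z = Nm z` (`ES/I2/Embed.lean`), which are integral over `k[j̄]`, hence in
`k[j̄]` (`k[X]` is integrally closed, `K₀ = Frac k[j̄]`).
-/

set_option autoImplicit false
set_option linter.style.haveILetI false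

noncomputable section

namespace Fermat.Agent.ES.I2

open ModularCurve IntermediateField Polynomial Fermat.Agent.S28 Fermat.Agent.S24

/-- **abstract form**: a full family of embeddings over `K`, and an element integral over an
integrally closed `R` with `Frac R = K`. -/
theorem tn_abstract {R K L Ω : Type*} [CommRing R] [IsDomain R] [IsIntegrallyClosed R]
    [Field K] [Field L] [Field Ω] [Algebra R K] [IsFractionRing R K] [Algebra K L] [Algebra R L]
    [IsScalarTower R K L] [FiniteDimensional K L] [Algebra.IsSeparable K L]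
    {I : Type*} [Fintype I] (hcard : Fintype.card I = Module.finrank K L)
    (φ : K →+* Ω) (τ : I → (L →+* Ω)) (hτ : Function.Injective τ)
    (hcomp : ∀ i x, τ i (algebraMap K L x) = φ x) (z : L) (hz : IsIntegral R z) :
    (∃ r : R, ∑ i, τ i z = φ (algebraMap R K r)) ∧
      (∃ r : R, ∏ i, τ i z = φ (algebraMap R K r)) := by
  letI : Algebra K Ω := φ.toAlgebra
  let σ : I → (L →ₐ[K] Ω) := fun i => { τ i with commutes' := fun x => hcomp i x }
  have hσ : Function.Injective σ := by
    intro i j hij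
    apply hτ
    ext x
    exact congrArg (fun f : L →ₐ[K] Ω => f x) hij
  have h1 := trace_eq_sum_of_embeddings hcard σ hσ z
  have h2 := norm_eq_prod_of_embeddings hcard σ hσ z
  obtain ⟨r, hr⟩ := IsIntegrallyClosed.isIntegral_iff.mp
    (Algebra.isIntegral_trace (R := R) (L := K) hz)
  obtain ⟨s, hs⟩ := IsIntegrallyClosed.isIntegral_iff.mp
    (Algebra.isIntegral_norm K hz)
  refine ⟨⟨r, ?_⟩, ⟨s, ?_⟩⟩
  · rw [hr]
    exact h1.symm
  · rw [hs]
    exact h2.symm

section Concrete

variable (k : Type) [Field k] (N : ℕ) [NeZero N]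

/-- `θ j ≠ 0` in every characteristic (the coefficient of `q⁻¹` is `-1`). -/
theorem tn_thetaFun_jqModC_ne_zero : Deriv.thetaFun (jqModC k) ≠ 0 := by
  intro h0
  have h1 := congrArg (fun z : LaurentSeries k => z.coeff (-1)) h0
  simp only [Deriv.thetaFun_coeff, HahnSeries.coeff_zero, coeff_jqModC_neg_one] at h1
  simp at h1

omit [NeZero N] in
theorem tn_le : k⟮jqModC k⟯ ≤ modularFunctionFieldFullC k N := UB.K0_le_full k N

/-- `F_k` as an extension of `K₀ = k(j̄)`. -/
abbrev tnL : IntermediateField k⟮jqModC k⟯ (LaurentSeries k) := extendScalars (tn_le k N)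

/-- the identification `tnL → F_k` -/
def tnToFull : ↥(tnL k N) →+* ↥(modularFunctionFieldFullC k N) where
  toFun x := ⟨x.1, x.2⟩
  map_one' := rfl
  map_mul' _ _ := rfl
  map_zero' := rfl
  map_add' _ _ := rfl

omit [NeZero N] in
@[simp] theorem tnToFull_coe (x : ↥(tnL k N)) :
    ((tnToFull k N x : ↥(modularFunctionFieldFullC k N)) : LaurentSeries k) = x.1 := rfl

omit [NeZero N] in
/-- a `k`-algebra map on `F_k` which sends `j̄` to `J = j̄(Q^N)` is `q ↦ Q^N` on `k(j̄)`. -/
theorem tn_comp {M : ℕ} [NeZero M]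
    (τ : ↥(modularFunctionFieldFullC k N) →ₐ[k] LaurentSeries k)
    (hj : τ ⟨jqModC k, jqModC_mem_full k N⟩ = qExpand k M (jqModC k))
    (x : ↥(k⟮jqModC k⟯)) :
    τ ⟨x.1, tn_le k N x.2⟩ = qExpand k M (x : LaurentSeries k) := by
  have h : τ.comp (IntermediateField.inclusion (tn_le k N)) =
      (qExpandAlgHomC k M).comp (k⟮jqModC k⟯).val := by
    apply IntermediateField.adjoin_algHom_ext
    intro y hy
    rw [Set.mem_singleton_iff] at hy
    subst hy
    exact hj
  exact congrArg (fun f : ↥(k⟮jqModC k⟯) →ₐ[k] LaurentSeries k => f x) h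

/-- `F_k / k(j̄)` is finite of degree `ψ(N)`. -/
theorem tn_finite : FiniteDimensional ↥(k⟮jqModC k⟯) ↥(tnL k N) :=
  (UB.finrank_full_le k (NeZero.ne N) (fun r hr _ => @ub_modEq k _ r ⟨hr.ne_zero⟩ hr)).1

theorem tn_finrank (hN : (N : k) ≠ 0) :
    Module.finrank ↥(k⟮jqModC k⟯) ↥(tnL k N) = dedekindPsi N := by
  rw [← relfinrank_full_eq_dedekindPsi k N hN]
  exact (relfinrank_eq_finrank_of_le (tn_le k N)).symm

/-- `F_k / k(j̄)` is separable (`k` perfect). -/
theorem tn_separable (ℓ : ℕ) [Fact ℓ.Prime] [CharP k ℓ] [PerfectRing k ℓ] :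
    Algebra.IsSeparable ↥(k⟮jqModC k⟯) ↥(tnL k N) := by
  have := tn_finite k N
  refine ⟨fun x => ?_⟩
  have hx : IsIntegral ↥(k⟮jqModC k⟯) x := IsIntegral.of_finite _ x
  have hx' : IsIntegral ↥(k⟮jqModC k⟯) (x : LaurentSeries k) := by
    have := hx.map (tnL k N).val
    exact this
  have h := Fermat.Agent.INJ.isSeparable_of_theta ℓ (red_transcendental_jqModC k)
    (tn_thetaFun_jqModC_ne_zero k) hx'
  show (minpoly ↥(k⟮jqModC k⟯) x).Separable
  rw [IntermediateField.minpoly_eq]
  exact h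

end Concrete

/-- **(TN)**: trace and norm through a full family of embeddings. -/
theorem stmtTN : StmtTN := by
  intro k _ ℓ _ _ _ N _ hN τ hτ hj z hz
  have htr : Transcendental k (jqModC k) := red_transcendental_jqModC k
  letI algRK : Algebra k[X] ↥(k⟮jqModC k⟯) := polyAlgebraAdjoin (K := k) (jqModC k)
  haveI : IsFractionRing k[X] ↥(k⟮jqModC k⟯) :=
    polyAlgebraAdjoin_isFractionRing (K := k) (jqModC k) htr
  letI algRL : Algebra k[X] ↥(tnL k N) :=
    ((algebraMap ↥(k⟮jqModC k⟯) ↥(tnL k N)).comp (algebraMap k[X] ↥(k⟮jqModC k⟯))).toAlgebra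
  haveI : IsScalarTower k[X] ↥(k⟮jqModC k⟯) ↥(tnL k N) :=
    IsScalarTower.of_algebraMap_eq (fun _ => rfl)
  haveI := tn_finite k N
  haveI := tn_separable k N ℓ
  have hcard : Fintype.card (Fin (dedekindPsi N)) = Module.finrank ↥(k⟮jqModC k⟯) ↥(tnL k N) := by
    rw [Fintype.card_fin, tn_finrank k N hN]
  -- the data of the abstract form
  let φ : ↥(k⟮jqModC k⟯) →+* LaurentSeries k :=
    (qExpand k N).comp (k⟮jqModC k⟯).val.toRingHom
  let τ' : Fin (dedekindPsi N) → (↥(tnL k N) →+* LaurentSeries k) :=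
    fun i => (τ i).toRingHom.comp (tnToFull k N)
  have hτ' : Function.Injective τ' := by
    intro i i' h
    apply hτ
    apply AlgHom.ext
    intro y
    have := congrArg (fun f : ↥(tnL k N) →+* LaurentSeries k => f ⟨y.1, y.2⟩) h
    exact this
  have hcomp : ∀ i (x : ↥(k⟮jqModC k⟯)), τ' i (algebraMap ↥(k⟮jqModC k⟯) ↥(tnL k N) x) = φ x :=
    fun i x => tn_comp k N (τ i) (hj i) x
  let z' : ↥(tnL k N) := ⟨z.1, z.2⟩
  have hcoe : ∀ p : k[X], ((algebraMap k[X] ↥(tnL k N) p : ↥(tnL k N)) : LaurentSeries k) =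
      Polynomial.aeval (jqModC k) p := by
    intro p
    show ((Polynomial.aeval (AdjoinSimple.gen k (jqModC k)) p : ↥(k⟮jqModC k⟯)) :
      LaurentSeries k) = _
    rw [← IntermediateField.coe_val, ← Polynomial.aeval_algHom_apply]
    simp
  have hz' : IsIntegral k[X] z' := by
    obtain ⟨p, hp, hpz⟩ := hz
    refine ⟨p, hp, ?_⟩
    apply Subtype.val_injective
    have h1 := Polynomial.hom_eval₂ p (algebraMap k[X] ↥(tnL k N))
      ((tnL k N).val.toRingHom) z'
    have h2 : ((tnL k N).val.toRingHom).comp (algebraMap k[X] ↥(tnL k N)) =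
        (Polynomial.aeval (jqModC k)).toRingHom := RingHom.ext hcoe
    rw [h2] at h1
    exact h1.trans hpz
  obtain ⟨⟨r, hr⟩, ⟨s, hs⟩⟩ := tn_abstract hcard φ τ' hτ' hcomp z' hz'
  have hφ : ∀ p : k[X], φ (algebraMap k[X] ↥(k⟮jqModC k⟯) p) =
      Polynomial.aeval (qExpand k N (jqModC k)) p := by
    intro p
    show qExpand k N ((Polynomial.aeval (AdjoinSimple.gen k (jqModC k)) p : ↥(k⟮jqModC k⟯)) :
      LaurentSeries k) = _
    rw [← IntermediateField.coe_val, ← Polynomial.aeval_algHom_apply]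
    have : Polynomial.aeval (qExpand k N (jqModC k)) p =
        qExpandAlgHomC k N (Polynomial.aeval (jqModC k) p) := by
      rw [← Polynomial.aeval_algHom_apply]
      rfl
    rw [this]
    simp
  refine ⟨⟨r, ?_⟩, ⟨s, ?_⟩⟩
  · rw [← hφ, ← hr]
    rfl
  · rw [← hφ, ← hs]
    rfl

end Fermat.Agent.ES.I2

end
end ZBES_021_1

/-! ### bundled: `Fermat.Agent.R38.HolDerFull` -/
section ZBES_021_2
/-
ROW 38, PKG-TRES, route HOL-dlog (sub-captain helper83), piece **HOL-DER**, concrete part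
(helper55): the instance `Kf = F̄ = modularFunctionFieldFullC k N`, `s = t = j̄ = jqModC k` of
`R38/HolDer.lean` and of `R38/TresDlogAlg.lean`.

* `r38hderJ k N` : `j̄` as an element of `F̄`;
* `r38hder_full_transcendental`, `r38hder_full_finite` : the hypotheses `hs`, `hfin`
  (`Transcendental k s`, `FiniteDimensional k⟮s⟯ F̄`) of `tres1_*` and of `r38hder_exists`;
* `r38hder_full_exists` : `θ f = g · θ j̄`, `θ (τ f) = τ g · θ (τ j̄)` with `g ∈ F̄`;
* `r38hder_full_mem`  : `f ∈ F̄ → θ f / θ j̄ ∈ F̄`   (`D = θ / θ j̄` preserves `F̄`);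
* `r38hder_full_comm` : `τ (θ f / θ j̄) = θ (τ f) / θ (τ j̄)` for a `k`-algebra map
  `τ : F̄ → k((q))` with `θ (τ j̄) ≠ 0`.
-/

set_option autoImplicit false
set_option linter.style.haveILetI false

noncomputable section

namespace Fermat.Agent.R38

open ModularCurve IntermediateField Fermat.Agent.S28 Fermat.Agent.S28.Deriv Fermat.Agent.ES.I2

section Full

variable (k : Type) [Field k] (N : ℕ) [NeZero N]

/-- `j̄` as an element of `F̄` -/
def r38hderJ : ↥(modularFunctionFieldFullC k N) := ⟨jqModC k, jqModC_mem_full k N⟩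

omit [NeZero N] in
@[simp] theorem r38hderJ_coe : ((r38hderJ k N : ↥(modularFunctionFieldFullC k N)) :
    LaurentSeries k) = jqModC k := rfl

omit [NeZero N] in
theorem r38hder_full_transcendental : Transcendental k (r38hderJ k N) := by
  intro h
  exact red_transcendental_jqModC k (h.algHom (modularFunctionFieldFullC k N).val)

omit [NeZero N] in
theorem r38hder_lift_eq :
    IntermediateField.lift (k⟮r38hderJ k N⟯) = k⟮jqModC k⟯ :=
  lift_adjoin_simple k _ _

/-- `k(j̄) ⊂ k((q))` and `k(j̄) ⊂ F̄` -/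
def r38hderE1 : ↥(k⟮jqModC k⟯) ≃+* ↥(k⟮r38hderJ k N⟯) where
  toFun x := ⟨⟨x.1, tn_le k N x.2⟩,
    (mem_lift (⟨x.1, tn_le k N x.2⟩ : ↥(modularFunctionFieldFullC k N))).mp
      (by rw [r38hder_lift_eq]; exact x.2)⟩
  invFun y := ⟨y.1.1, by rw [← r38hder_lift_eq k N]; exact (mem_lift y.1).mpr y.2⟩
  left_inv _ := rfl
  right_inv _ := rfl
  map_mul' _ _ := rfl
  map_add' _ _ := rfl

/-- `F̄` over `k(j̄)` and `F̄` over `k` -/
def r38hderE2 : ↥(tnL k N) ≃+* ↥(modularFunctionFieldFullC k N) where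
  toFun x := ⟨x.1, x.2⟩
  invFun y := ⟨y.1, y.2⟩
  left_inv _ := rfl
  right_inv _ := rfl
  map_mul' _ _ := rfl
  map_add' _ _ := rfl

/-- `F̄` is finite over `k(j̄)` (`k(j̄)` formed inside `F̄`). -/
theorem r38hder_full_finite :
    FiniteDimensional (k⟮r38hderJ k N⟯) ↥(modularFunctionFieldFullC k N) := by
  haveI := tn_finite k N
  exact Module.Finite.of_equiv_equiv (r38hderE1 k N) (r38hderE2 k N) (RingHom.ext fun _ => rfl)

/-- **HOL-DER** for `F̄`: `θ f = g · θ j̄` and `θ (τ f) = τ g · θ (τ j̄)` with `g ∈ F̄`. -/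
theorem r38hder_full_exists (p : ℕ) [hp : Fact p.Prime] [CharP k p] [PerfectRing k p]
    (τ : ↥(modularFunctionFieldFullC k N) →+* LaurentSeries k)
    (f : ↥(modularFunctionFieldFullC k N)) :
    ∃ g : ↥(modularFunctionFieldFullC k N),
      thetaFun (f : LaurentSeries k) = (g : LaurentSeries k) * thetaFun (jqModC k) ∧
        thetaFun (τ f) = τ g * thetaFun (τ (r38hderJ k N)) :=
  r38hder_exists p (modularFunctionFieldFullC k N) (r38hder_full_transcendental k N)
    (r38hder_full_finite k N) (jqModC_mem_full k N) (tn_thetaFun_jqModC_ne_zero k) τ f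

/-- **HOL-DER**: `D = θ / θ j̄` preserves `F̄`. -/
theorem r38hder_full_mem (p : ℕ) [hp : Fact p.Prime] [CharP k p] [PerfectRing k p]
    {f : LaurentSeries k} (hf : f ∈ modularFunctionFieldFullC k N) :
    thetaFun f / thetaFun (jqModC k) ∈ modularFunctionFieldFullC k N := by
  obtain ⟨g, hg, -⟩ := r38hder_full_exists k N p
    (modularFunctionFieldFullC k N).val.toRingHom ⟨f, hf⟩
  have h : thetaFun f = (g : LaurentSeries k) * thetaFun (jqModC k) := hg
  rw [h, mul_div_assoc, div_self (tn_thetaFun_jqModC_ne_zero k), mul_one]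
  exact g.2

/-- **HOL-DER**: `D = θ / θ j̄` commutes with ring homomorphisms `τ : F̄ → k((q))`:
`τ (θ f / θ j̄) = θ (τ f) / θ (τ j̄)`. -/
theorem r38hder_full_comm (p : ℕ) [hp : Fact p.Prime] [CharP k p] [PerfectRing k p]
    (τ : ↥(modularFunctionFieldFullC k N) →+* LaurentSeries k)
    (hτ : thetaFun (τ (r38hderJ k N)) ≠ 0) {f : LaurentSeries k}
    (hf : f ∈ modularFunctionFieldFullC k N) :
    τ ⟨thetaFun f / thetaFun (jqModC k), r38hder_full_mem k N p hf⟩ =
      thetaFun (τ ⟨f, hf⟩) / thetaFun (τ (r38hderJ k N)) := by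
  obtain ⟨g, hg, hg'⟩ := r38hder_full_exists k N p τ ⟨f, hf⟩
  have h : thetaFun f = (g : LaurentSeries k) * thetaFun (jqModC k) := hg
  have h1 : (⟨thetaFun f / thetaFun (jqModC k), r38hder_full_mem k N p hf⟩ :
      ↥(modularFunctionFieldFullC k N)) = g := by
    apply Subtype.ext
    show thetaFun f / thetaFun (jqModC k) = (g : LaurentSeries k)
    rw [h, mul_div_assoc, div_self (tn_thetaFun_jqModC_ne_zero k), mul_one]
  rw [h1, hg', mul_div_assoc, div_self hτ, mul_one]

end Full

end Fermat.Agent.R38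

end


end ZBES_021_2

/-! ### bundled: `Fermat.Agent.R38.HolCusp` -/
section ZBES_021_3
/-
ROW 38, PKG-TRES, route HOL-dlog (sub-captain helper83), piece **HOL-CUSP** (helper55).

`k` a perfect field of characteristic `p`, `(N : k) ≠ 0`, `F̄ = modularFunctionFieldFullC k N`,
`r ∈ F̄ˣ` with `p ∣ ord_Q r` at ALL places `Q` of `F̄` (the output of FAC-p, `R38.StmtFacP`).

* `r38hcuspD k N p r = θ r / θ j̄ ∈ F̄`,
  `r38hcuspY k N p r = j̄ (j̄ − 1728) · θ r / (θ j̄ · r) ∈ F̄` — the function `y` of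
  `ES.I2.res_main` for `fq = dlog r = r38dlog r`;
* `r38hcusp_rel`  : `y · θ j̄ = dlog r · j̄ · (j̄ − 1728)`  (the hypothesis `hrel` of `res_main`);
* `r38hcusp_dvd_order` : for a `k`-algebra map `τ : F → k((Q))` (with a pole), `n ∣ ord_Q r` at
  all places `Q` of `F` ⇒ `n ∣ ord (τ r)`;
* `r38hcusp_main` : for `τ : F̄ → k((Q))` with `τ j̄ = j̄(Q^N)`:  `τ y` has `Q`-order `> −N`
  (the hypothesis `hyord` of `res_main`);
* `r38hcusp_dlog_coeff_le` : `dlog r ∈ q k[[q]]` (hypothesis `hb0` of HOL-DUAL).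
-/

set_option autoImplicit false
set_option linter.style.haveILetI false
set_option linter.unusedSectionVars false

noncomputable section

namespace Fermat.Agent.R38

open ModularCurve AlgebraicCurve IntermediateField WithZero
  Fermat.Agent.S28 Fermat.Agent.S28.Deriv Fermat.Agent.S24 Fermat.Agent.ES.I2 Fermat.Agent.ES.M

/-! ### places and embeddings into `k((Q))` -/

section Place

variable {k : Type*} [Field k] {F : Type*} [Field F] [Algebra k F]

/-- the valuation of `F` through `τ : F → k((Q))` -/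
def r38hcuspVal (τ : F →+* LaurentSeries k) : Valuation F ℤᵐ⁰ :=
  (Valued.v : Valuation (LaurentSeries k) ℤᵐ⁰).comap τ

theorem r38hcuspVal_apply (τ : F →+* LaurentSeries k) (f : F) :
    r38hcuspVal τ f = Valued.v (τ f) := rfl

theorem r38hcusp_vord (τ : F →+* LaurentSeries k) {f : F} (hf : f ≠ 0) :
    vord (r38hcuspVal τ) f = (τ f).order := by
  have hf' : τ f ≠ 0 := (map_ne_zero τ).mpr hf
  rw [vord, r38hcuspVal_apply, laurent_valued_eq_exp_neg_order hf', log_exp, neg_neg]

theorem r38hcusp_val_le_one_iff (f : LaurentSeries k) :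
    (Valued.v f : ℤᵐ⁰) ≤ 1 ↔ ∀ n : ℤ, n < 0 → f.coeff n = 0 := by
  have h := LaurentSeries.valuation_le_iff_coeff_lt_eq_zero (K := k) (D := 0) (f := f)
  simpa using h

/-- **divisibility of the order at all places passes to every embedding into `k((Q))`** -/
theorem r38hcusp_dvd_order (τ : F →ₐ[k] LaurentSeries k)
    (hpole : ∃ x : F, x ≠ 0 ∧ 0 < (τ x).order) {r : F} (hr : r ≠ 0) (n : ℤ)
    (hn : ∀ Q : Place k F, n ∣ Q.ord r) : n ∣ (τ r).order := by
  have hK : ∀ a : k, r38hcuspVal (τ : F →+* LaurentSeries k) (algebraMap k F a) ≤ 1 := by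
    intro a
    rw [r38hcuspVal_apply, r38hcusp_val_le_one_iff]
    intro m hm
    have h1 : (τ : F →+* LaurentSeries k) (algebraMap k F a) =
        algebraMap k (LaurentSeries k) a := τ.commutes a
    rw [h1, algebraMap_eq_C, HahnSeries.C_apply, HahnSeries.coeff_single_of_ne hm.ne]
  have hx : ∃ x : F, x ≠ 0 ∧ r38hcuspVal (τ : F →+* LaurentSeries k) x < 1 := by
    obtain ⟨x, hx0, hx1⟩ := hpole
    refine ⟨x, hx0, ?_⟩
    have hx' : τ x ≠ 0 := (map_ne_zero τ).mpr hx0
    rw [r38hcuspVal_apply]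
    show (Valued.v (τ x) : ℤᵐ⁰) < 1
    rw [laurent_valued_eq_exp_neg_order hx', ← WithZero.exp_zero, WithZero.exp_lt_exp]
    omega
  obtain ⟨w, e₀, -, -, hord⟩ := exists_place_of_valuation (K := k)
    (r38hcuspVal (τ : F →+* LaurentSeries k)) hK hx
  have h := hord r hr
  rw [r38hcusp_vord _ hr] at h
  have h2 : (τ r).order = e₀ * w.ord r := h
  rw [h2]
  exact Dvd.dvd.mul_left (hn w) e₀

end Place

/-! ### the function `y` of the residue theorem -/

section Main

variable (k : Type) [Field k] (N : ℕ) [NeZero N] (p : ℕ) [hp : Fact p.Prime] [CharP k p]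
  [PerfectRing k p]

/-- `D r = θ r / θ j̄ ∈ F̄` -/
def r38hcuspD (r : ↥(modularFunctionFieldFullC k N)) : ↥(modularFunctionFieldFullC k N) :=
  ⟨thetaFun (r : LaurentSeries k) / thetaFun (jqModC k), r38hder_full_mem k N p r.2⟩

/-- `y = j̄ (j̄ − 1728) · D r / r ∈ F̄` -/
def r38hcuspY (r : ↥(modularFunctionFieldFullC k N)) : ↥(modularFunctionFieldFullC k N) :=
  r38hderJ k N * (r38hderJ k N - 1728) * r38hcuspD k N p r * r⁻¹

theorem r38hcuspY_coe (r : ↥(modularFunctionFieldFullC k N)) :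
    ((r38hcuspY k N p r : ↥(modularFunctionFieldFullC k N)) : LaurentSeries k) =
      jqModC k * (jqModC k - 1728) *
        (thetaFun (r : LaurentSeries k) / thetaFun (jqModC k)) * (r : LaurentSeries k)⁻¹ := rfl

/-- the hypothesis `hrel` of `ES.I2.res_main` for `fq = dlog r` -/
theorem r38hcusp_rel (r : ↥(modularFunctionFieldFullC k N)) :
    ((r38hcuspY k N p r : ↥(modularFunctionFieldFullC k N)) : LaurentSeries k) *
        thetaFun (jqModC k) =
      r38dlog (r : LaurentSeries k) * jqModC k * (jqModC k - 1728) := by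
  have h : (thetaFun (jqModC k))⁻¹ * thetaFun (jqModC k) = 1 :=
    inv_mul_cancel₀ (tn_thetaFun_jqModC_ne_zero k)
  rw [r38hcuspY_coe, r38dlog, div_eq_mul_inv]
  linear_combination (jqModC k * (jqModC k - 1728) * thetaFun (r : LaurentSeries k) *
    (r : LaurentSeries k)⁻¹) * h

theorem r38hcusp_order_J : (qExpand k N (jqModC k)).order = -(N : ℤ) := by
  rw [Fermat.Agent.S28.order_qExpand, Fermat.Agent.S28.order_jqModC, mul_neg, mul_one]

theorem r38hcusp_J_ne_zero : qExpand k N (jqModC k) ≠ 0 := by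
  intro h
  have h1 := r38hcusp_order_J k N
  rw [h, HahnSeries.order_zero] at h1
  have : 0 < N := Nat.pos_of_ne_zero (NeZero.ne N)
  omega

theorem r38hcusp_theta_J_ne_zero (hNk : ((N : ℕ) : k) ≠ 0) :
    thetaFun (qExpand k N (jqModC k)) ≠ 0 := by
  have hak : (((qExpand k N (jqModC k)).order : ℤ) : k) ≠ 0 := by
    rw [r38hcusp_order_J, Int.cast_neg, Int.cast_natCast]
    exact neg_ne_zero.mpr hNk
  have h1 := r38hcusp_order_theta (r38hcusp_J_ne_zero k N) hak
  intro h
  rw [h, HahnSeries.order_zero, r38hcusp_order_J] at h1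
  have : 0 < N := Nat.pos_of_ne_zero (NeZero.ne N)
  omega

/-- an embedding with `τ j̄ = j̄(Q^N)` has a pole -/
theorem r38hcusp_pole (τ : ↥(modularFunctionFieldFullC k N) →ₐ[k] LaurentSeries k)
    (hj : τ (r38hderJ k N) = qExpand k N (jqModC k)) :
    ∃ x : ↥(modularFunctionFieldFullC k N), x ≠ 0 ∧ 0 < (τ x).order := by
  have hJ0 : r38hderJ k N ≠ 0 := by
    intro h
    have h1 : τ (r38hderJ k N) = 0 := by rw [h, map_zero]
    rw [hj] at h1
    exact r38hcusp_J_ne_zero k N h1
  refine ⟨(r38hderJ k N)⁻¹, inv_ne_zero hJ0, ?_⟩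
  have h2 : τ (r38hderJ k N)⁻¹ = (qExpand k N (jqModC k))⁻¹ := by
    rw [← hj]
    exact map_inv₀ (τ : ↥(modularFunctionFieldFullC k N) →+* LaurentSeries k) _
  rw [h2, r38hcusp_order_inv (r38hcusp_J_ne_zero k N), r38hcusp_order_J]
  have : 0 < N := Nat.pos_of_ne_zero (NeZero.ne N)
  omega

/-- **HOL-CUSP** (the hypothesis `hyord` of `ES.I2.res_main`): if `p ∣ ord_Q r` at all places of
`F̄`, then `τ y` has `Q`-order `> −N` for every `k`-embedding `τ` with `τ j̄ = j̄(Q^N)`. -/
theorem r38hcusp_main (hNk : ((N : ℕ) : k) ≠ 0)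
    (τ : ↥(modularFunctionFieldFullC k N) →ₐ[k] LaurentSeries k)
    (hj : τ (r38hderJ k N) = qExpand k N (jqModC k))
    (r : ↥(modularFunctionFieldFullC k N)) (hr : r ≠ 0)
    (hord : ∀ Q : Place k ↥(modularFunctionFieldFullC k N), (p : ℤ) ∣ Q.ord r) :
    ∀ m : ℤ, m ≤ -(N : ℤ) → (τ (r38hcuspY k N p r)).coeff m = 0 := by
  intro m hm
  have hN : 0 < N := Nat.pos_of_ne_zero (NeZero.ne N)
  have hdvd : (p : ℤ) ∣ (τ r).order :=
    r38hcusp_dvd_order τ (r38hcusp_pole k N τ hj) hr (p : ℤ) hord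
  have hτr : τ r ≠ 0 := (map_ne_zero τ).mpr hr
  have hj' : (τ : ↥(modularFunctionFieldFullC k N) →+* LaurentSeries k) (r38hderJ k N) =
      qExpand k N (jqModC k) := hj
  have hθ : thetaFun ((τ : ↥(modularFunctionFieldFullC k N) →+* LaurentSeries k)
      (r38hderJ k N)) ≠ 0 := by
    rw [hj']
    exact r38hcusp_theta_J_ne_zero k N hNk
  have hcomm : (τ : ↥(modularFunctionFieldFullC k N) →+* LaurentSeries k)
      (r38hcuspD k N p r) = thetaFun (τ r) / thetaFun (qExpand k N (jqModC k)) := by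
    have h := r38hder_full_comm k N p
      (τ : ↥(modularFunctionFieldFullC k N) →+* LaurentSeries k) hθ r.2
    rw [hj'] at h
    exact h
  have h1728 : (τ : ↥(modularFunctionFieldFullC k N) →+* LaurentSeries k) 1728 =
      HahnSeries.C (1728 : k) := by
    rw [map_ofNat, map_ofNat]
  have hY : τ (r38hcuspY k N p r) =
      qExpand k N (jqModC k) * (qExpand k N (jqModC k) - HahnSeries.C (1728 : k)) *
        (thetaFun (τ r) * (thetaFun (qExpand k N (jqModC k)))⁻¹) * (τ r)⁻¹ := by
    show (τ : ↥(modularFunctionFieldFullC k N) →+* LaurentSeries k) (r38hcuspY k N p r) = _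
    rw [r38hcuspY, map_mul, map_mul, map_mul, map_sub, map_inv₀, hcomm, hj', h1728,
      div_eq_mul_inv]
    rfl
  rw [hY]
  exact r38hcusp_abs p hN hNk (r38hcusp_J_ne_zero k N) (r38hcusp_order_J k N) (1728 : k) hτr
    hdvd m hm

/-- `dlog r ∈ q k[[q]]` if `p ∣ ord_Q r` at all places of `F̄` (the cusp `∞` is a place). -/
theorem r38hcusp_dlog_coeff_le (r : ↥(modularFunctionFieldFullC k N)) (hr : r ≠ 0)
    (hord : ∀ Q : Place k ↥(modularFunctionFieldFullC k N), (p : ℤ) ∣ Q.ord r) :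
    ∀ m : ℤ, m ≤ 0 → (r38dlog (r : LaurentSeries k)).coeff m = 0 := by
  intro m hm
  have hr' : (r : LaurentSeries k) ≠ 0 := fun h => hr (Subtype.ext h)
  have hpole : ∃ x : ↥(modularFunctionFieldFullC k N),
      x ≠ 0 ∧ 0 < ((modularFunctionFieldFullC k N).val x).order := by
    have hj0 : jqModC k ≠ 0 := jqModC_ne_zero_of_nontrivial k
    have hJ0 : r38hderJ k N ≠ 0 := fun h => hj0 (congrArg Subtype.val h)
    refine ⟨(r38hderJ k N)⁻¹, inv_ne_zero hJ0, ?_⟩
    show 0 < ((jqModC k)⁻¹).order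
    rw [r38hcusp_order_inv hj0, Fermat.Agent.S28.order_jqModC]
    omega
  have hdvd := r38hcusp_dvd_order (modularFunctionFieldFullC k N).val hpole hr (p : ℤ) hord
  exact r38hcusp_dlog_coeff p hr' hdvd m hm

end Main

end Fermat.Agent.R38

end


end ZBES_021_3

/-! ### bundled: `Fermat.Agent.R38.HolPieces` -/
section ZBES_021_4

/-!
# Row 38, PKG-TRES, route HOL-dlog: the pieces DER, DER-τ, ORD, CUSP in the interface shapes

Wrappers (helper83) of helper55's `R38/HolDerFull.lean`, `R38/HolCusp.lean`: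
`stmtHolDer : StmtHolDer`, `stmtHolDerTau : StmtHolDerTau`, `stmtHolOrd : StmtHolOrd`,
`stmtHolCusp : StmtHolCusp` (Props of `R38/PlanHol.lean`).
-/

set_option autoImplicit false
set_option linter.style.haveILetI false

noncomputable section

namespace Fermat.Agent.R38

open ModularCurve AlgebraicCurve HahnSeries Fermat.Agent.ES Fermat.Agent.S24 Fermat.Agent.ES.M
open Fermat.Agent.ES.I2 Fermat.Agent.S28.Deriv

/-- **(DER)** -/
theorem stmtHolDer : StmtHolDer := by
  intro k _ ℓ _ _ _ N _ _ f hf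
  obtain ⟨g, hg, -⟩ := r38hder_full_exists k N ℓ
    (modularFunctionFieldFullC k N).val.toRingHom ⟨f, hf⟩
  exact ⟨g, g.2, hg⟩

/-- **(DER-τ)** -/
theorem stmtHolDerTau : StmtHolDerTau := by
  intro k _ ℓ _ _ _ N _ _ τ f g hfg
  obtain ⟨g', hg', hτ⟩ := r38hder_full_exists k N ℓ
    (τ : ↥(modularFunctionFieldFullC k N) →+* LaurentSeries k) f
  have hθ : thetaFun (jqModC k) ≠ 0 := tn_thetaFun_jqModC_ne_zero k
  have hgg : g = g' := by
    apply Subtype.ext
    have h : (g : LaurentSeries k) * thetaFun (jqModC k) =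
        (g' : LaurentSeries k) * thetaFun (jqModC k) := by rw [← hfg, ← hg']
    exact mul_right_cancel₀ hθ h
  rw [hgg]
  exact hτ

/-- **(ORD)** -/
theorem stmtHolOrd : StmtHolOrd := by
  intro k _ ℓ _ _ _ N _ _ τ hj r hr hQ
  exact r38hcusp_dvd_order τ (r38hcusp_pole k N τ hj) hr (ℓ : ℤ) hQ

/-- **(CUSP)** -/
theorem stmtHolCusp : StmtHolCusp := by
  intro k _ ℓ _ _ _ N _ hNk τ hj r y hr hdvd hrel m hm
  have hN : 0 < N := Nat.pos_of_ne_zero (NeZero.ne N)
  have hτr : τ r ≠ 0 := (map_ne_zero τ).mpr hr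
  have hr' : (r : LaurentSeries k) ≠ 0 := fun h => hr (Subtype.ext h)
  have hθj : thetaFun (jqModC k) ≠ 0 := tn_thetaFun_jqModC_ne_zero k
  have hj' : (τ : ↥(modularFunctionFieldFullC k N) →+* LaurentSeries k) (r38hderJ k N) =
      qExpand k N (jqModC k) := hj
  have hθ : thetaFun ((τ : ↥(modularFunctionFieldFullC k N) →+* LaurentSeries k)
      (r38hderJ k N)) ≠ 0 := by
    rw [hj']
    exact r38hcusp_theta_J_ne_zero k N hNk
  -- `y` is the function of helper55
  have hy : y = r38hcuspY k N ℓ r := by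
    apply Subtype.ext
    rw [r38hcuspY_coe]
    have h1 : (y : LaurentSeries k) * (thetaFun (jqModC k) * (r : LaurentSeries k)) =
        thetaFun (r : LaurentSeries k) * jqModC k * (jqModC k - 1728) := by
      rw [← mul_assoc]; exact hrel
    have h2 : thetaFun (jqModC k) * (r : LaurentSeries k) ≠ 0 := mul_ne_zero hθj hr'
    rw [eq_div_iff h2 |>.mpr h1, div_eq_mul_inv, mul_inv, div_eq_mul_inv]
    ring
  have hcomm : (τ : ↥(modularFunctionFieldFullC k N) →+* LaurentSeries k)
      (r38hcuspD k N ℓ r) = thetaFun (τ r) / thetaFun (qExpand k N (jqModC k)) := by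
    have h := r38hder_full_comm k N ℓ
      (τ : ↥(modularFunctionFieldFullC k N) →+* LaurentSeries k) hθ r.2
    rw [hj'] at h
    exact h
  have h1728 : (τ : ↥(modularFunctionFieldFullC k N) →+* LaurentSeries k) 1728 =
      HahnSeries.C (1728 : k) := by
    rw [map_ofNat, map_ofNat]
  have hY : τ (r38hcuspY k N ℓ r) =
      qExpand k N (jqModC k) * (qExpand k N (jqModC k) - HahnSeries.C (1728 : k)) *
        (thetaFun (τ r) * (thetaFun (qExpand k N (jqModC k)))⁻¹) * (τ r)⁻¹ := by
    show (τ : ↥(modularFunctionFieldFullC k N) →+* LaurentSeries k) (r38hcuspY k N ℓ r) = _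
    rw [r38hcuspY, map_mul, map_mul, map_mul, map_sub, map_inv₀, hcomm, hj', h1728,
      div_eq_mul_inv]
    rfl
  rw [hy, hY]
  exact r38hcusp_abs ℓ hN hNk (r38hcusp_J_ne_zero k N) (r38hcusp_order_J k N) (1728 : k) hτr
    hdvd m hm

end Fermat.Agent.R38

end


end ZBES_021_4

/-! ### bundled: `Fermat.Agent.ES.I2aux.PT` -/
section ZBES_021_5
/-
ES / I2aux, piece `aux-PT` (helper83): partial traces through the fibres of `i ↦ τ_i h`.

`stmtPT : StmtPT` (`ES/I2aux/PlanPT.lean`).

* `pt_abstract` : fields `K₀ ⊂ K₁ ⊂ L` (finite, `L / K₀` separable), a full injective family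
  `τ i : L → Ω`, `i ∈ I`, `|I| = [L : K₀]`, of embeddings with the same restriction to `K₀`.  Then
  every fibre of `i ↦ τ i |_{K₁}` has exactly `[L : K₁]` elements and
  `∑_{i ∈ fibre} τ i x = τ i₁ (Tr_{L / K₁} x)`.
-/

set_option autoImplicit false
set_option linter.style.haveILetI false

noncomputable section

namespace Fermat.Agent.ES.I2aux

open ModularCurve IntermediateField Fermat.Agent.ES Fermat.Agent.S24 Fermat.Agent.ES.M
open Fermat.Agent.ES.I2 Module

section Abstract

variable {K₀ K₁ L Ω : Type*} [Field K₀] [Field K₁] [Field L] [Field Ω]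
  [Algebra K₀ K₁] [Algebra K₁ L] [Algebra K₀ L] [IsScalarTower K₀ K₁ L]
  [FiniteDimensional K₀ L] {I : Type*}

omit [Field K₀] [Algebra K₀ K₁] [Algebra K₀ L] [IsScalarTower K₀ K₁ L] [FiniteDimensional K₀ L] in
/-- a fibre of `i ↦ τ i |_{K₁}` has at most `[L : K₁]` elements. -/
theorem pt_card_fibre_le [FiniteDimensional K₁ L] (τ : I → (L →+* Ω)) (hτ : Function.Injective τ)
    (ρ : K₁ →+* Ω) (S : Finset I) (hS : ∀ i ∈ S, (τ i).comp (algebraMap K₁ L) = ρ) :
    S.card ≤ finrank K₁ L := by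
  letI : Algebra K₁ Ω := ρ.toAlgebra
  let σ : ↥S → (L →ₐ[K₁] Ω) := fun i =>
    { τ i.1 with commutes' := fun x => congrArg (fun f : K₁ →+* Ω => f x) (hS i.1 i.2) }
  have hσ : Function.Injective σ := by
    intro i j hij
    apply Subtype.ext
    apply hτ
    ext x
    exact congrArg (fun f : L →ₐ[K₁] Ω => f x) hij
  have h1 : Nat.card ↥S ≤ Nat.card (L →ₐ[K₁] Ω) := Nat.card_le_card_of_injective σ hσ
  have h2 := card_algHom_le_finrank K₁ L Ω
  have h3 : Nat.card ↥S = S.card := by
    rw [Nat.card_eq_fintype_card, Fintype.card_coe]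
  omega

/-- **partial traces**, abstract form. -/
theorem pt_abstract [Fintype I] [Algebra.IsSeparable K₀ L]
    (hcard : Fintype.card I = finrank K₀ L)
    (φ₀ : K₀ →+* Ω) (τ : I → (L →+* Ω)) (hτ : Function.Injective τ)
    (hcomp : ∀ i x, τ i (algebraMap K₀ L x) = φ₀ x) (i₁ : I) (S : Finset I)
    (hS : ∀ i, i ∈ S ↔ (τ i).comp (algebraMap K₁ L) = (τ i₁).comp (algebraMap K₁ L)) :
    S.card = finrank K₁ L ∧
      ∀ x : L, ∑ i ∈ S, τ i x = τ i₁ (algebraMap K₁ L (Algebra.trace K₁ L x)) := by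
  classical
  haveI : FiniteDimensional K₀ K₁ := FiniteDimensional.left K₀ K₁ L
  haveI : FiniteDimensional K₁ L := FiniteDimensional.right K₀ K₁ L
  have hmul : finrank K₀ K₁ * finrank K₁ L = finrank K₀ L := Module.finrank_mul_finrank K₀ K₁ L
  -- the restrictions to `K₁`, as `K₀`-embeddings
  have hScard : S.card = finrank K₁ L := by
    letI : Algebra K₀ Ω := φ₀.toAlgebra
    let ρ : I → (K₁ →ₐ[K₀] Ω) := fun i =>
      { (τ i).comp (algebraMap K₁ L) with
        commutes' := fun a => by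
          show τ i (algebraMap K₁ L (algebraMap K₀ K₁ a)) = φ₀ a
          rw [← IsScalarTower.algebraMap_apply]
          exact hcomp i a }
    have hρ : ∀ i i', ρ i = ρ i' ↔
        (τ i).comp (algebraMap K₁ L) = (τ i').comp (algebraMap K₁ L) := by
      intro i i'
      constructor
      · intro h
        ext a
        exact congrArg (fun f : K₁ →ₐ[K₀] Ω => f a) h
      · intro h
        ext a
        exact congrArg (fun f : K₁ →+* Ω => f a) h
    let E : Finset (K₁ →ₐ[K₀] Ω) := Finset.univ.image ρ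
    have hE : E.card ≤ finrank K₀ K₁ := by
      have h1 : Nat.card ↥E ≤ Nat.card (K₁ →ₐ[K₀] Ω) :=
        Nat.card_le_card_of_injective Subtype.val Subtype.val_injective
      have h2 := card_algHom_le_finrank K₀ K₁ Ω
      have h3 : Nat.card ↥E = E.card := by
        rw [Nat.card_eq_fintype_card, Fintype.card_coe]
      omega
    have hfib : ∀ r ∈ E, (Finset.univ.filter (fun i => ρ i = r)).card ≤ finrank K₁ L := by
      intro r _
      refine pt_card_fibre_le τ hτ (r : K₁ →+* Ω) _ fun i hi => ?_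
      rw [Finset.mem_filter] at hi
      rw [← hi.2]
      rfl
    have hsum : Fintype.card I = ∑ r ∈ E, (Finset.univ.filter (fun i => ρ i = r)).card := by
      rw [← Finset.card_univ]
      exact Finset.card_eq_sum_card_image ρ Finset.univ
    have hfull : ∀ r ∈ E, (Finset.univ.filter (fun i => ρ i = r)).card = finrank K₁ L := by
      by_contra hcon
      rw [not_forall] at hcon
      obtain ⟨r₀, hcon⟩ := hcon
      rw [Classical.not_imp] at hcon
      obtain ⟨hr₀, hne⟩ := hcon
      have hlt := lt_of_le_of_ne (hfib r₀ hr₀) hne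
      have h1 : ∑ r ∈ E, (Finset.univ.filter (fun i => ρ i = r)).card <
          ∑ _r ∈ E, finrank K₁ L := Finset.sum_lt_sum hfib ⟨r₀, hr₀, hlt⟩
      rw [Finset.sum_const, smul_eq_mul, ← hsum, hcard, ← hmul] at h1
      exact absurd (Nat.mul_le_mul_right (finrank K₁ L) hE) (not_le.mpr h1)
    have hSeq : S = Finset.univ.filter (fun i => ρ i = ρ i₁) := by
      ext i
      rw [hS, Finset.mem_filter, hρ]
      simp
    rw [hSeq]
    exact hfull (ρ i₁) (Finset.mem_image_of_mem ρ (Finset.mem_univ i₁))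
  refine ⟨hScard, fun x => ?_⟩
  -- the trace
  letI : Algebra K₁ Ω := ((τ i₁).comp (algebraMap K₁ L)).toAlgebra
  haveI : Algebra.IsSeparable K₁ L := Algebra.isSeparable_tower_top_of_isSeparable K₀ K₁ L
  let σ : ↥S → (L →ₐ[K₁] Ω) := fun i =>
    { τ i.1 with commutes' := fun a => congrArg (fun f : K₁ →+* Ω => f a) ((hS i.1).mp i.2) }
  have hσ : Function.Injective σ := by
    intro i j hij
    apply Subtype.ext
    apply hτ
    ext y
    exact congrArg (fun f : L →ₐ[K₁] Ω => f y) hij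
  have hc : Fintype.card ↥S = finrank K₁ L := by rw [Fintype.card_coe, hScard]
  have h := trace_eq_sum_of_embeddings hc σ hσ x
  rw [← Finset.sum_coe_sort S (fun i => τ i x)]
  exact h.symm

end Abstract

section Concrete

variable (k : Type) [Field k] (N : ℕ) [NeZero N] (h : LaurentSeries k)
  (hle : k⟮h⟯ ≤ modularFunctionFieldFullC k N)

/-- the identification `ptL → F_k` -/
def ptToFull : ↥(ptL k N h hle) →+* ↥(modularFunctionFieldFullC k N) where
  toFun x := ⟨x.1, x.2⟩
  map_one' := rfl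
  map_mul' _ _ := rfl
  map_zero' := rfl
  map_add' _ _ := rfl

end Concrete

/-- **(PT)**: partial traces through the fibres of `i ↦ τ_i h`. -/
theorem stmtPT : StmtPT := by
  intro k _ ℓ _ _ _ N _ hN τ hτ hj h hle hjh
  have h01 : k⟮jqModC k⟯ ≤ k⟮h⟯ := by
    rw [adjoin_simple_le_iff]
    exact hjh
  letI a01 : Algebra ↥(k⟮jqModC k⟯) ↥(k⟮h⟯) :=
    (IntermediateField.inclusion h01).toRingHom.toAlgebra
  letI a0L : Algebra ↥(k⟮jqModC k⟯) ↥(ptL k N h hle) :=
    ((algebraMap ↥(k⟮h⟯) ↥(ptL k N h hle)).comp (algebraMap ↥(k⟮jqModC k⟯) ↥(k⟮h⟯))).toAlgebra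
  letI m0L : Module ↥(k⟮jqModC k⟯) ↥(ptL k N h hle) := a0L.toModule
  haveI : IsScalarTower ↥(k⟮jqModC k⟯) ↥(k⟮h⟯) ↥(ptL k N h hle) :=
    IsScalarTower.of_algebraMap_eq (fun _ => rfl)
  -- transfer of the facts on `F_k / k(j̄)`
  let e₀ : ↥(tnL k N) →ₐ[↥(k⟮jqModC k⟯)] ↥(ptL k N h hle) :=
    { toFun := fun x => ⟨x.1, x.2⟩
      map_one' := rfl
      map_mul' := fun _ _ => rfl
      map_zero' := rfl
      map_add' := fun _ _ => rfl
      commutes' := fun _ => rfl }
  have he₀ : Function.Bijective e₀ :=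
    ⟨fun x y hxy => Subtype.ext (congrArg Subtype.val hxy), fun y => ⟨⟨y.1, y.2⟩, rfl⟩⟩
  let e : ↥(tnL k N) ≃ₐ[↥(k⟮jqModC k⟯)] ↥(ptL k N h hle) := AlgEquiv.ofBijective e₀ he₀
  haveI := tn_finite k N
  haveI := tn_separable k N ℓ
  haveI : FiniteDimensional ↥(k⟮jqModC k⟯) ↥(ptL k N h hle) :=
    Module.Finite.equiv e.toLinearEquiv
  haveI : Algebra.IsSeparable ↥(k⟮jqModC k⟯) ↥(ptL k N h hle) :=
    AlgEquiv.Algebra.isSeparable e
  have hcard : Fintype.card (Fin (dedekindPsi N)) =
      finrank ↥(k⟮jqModC k⟯) ↥(ptL k N h hle) := by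
    rw [Fintype.card_fin, ← e.toLinearEquiv.finrank_eq, tn_finrank k N hN]
  haveI : FiniteDimensional ↥(k⟮h⟯) ↥(ptL k N h hle) :=
    FiniteDimensional.right ↥(k⟮jqModC k⟯) ↥(k⟮h⟯) ↥(ptL k N h hle)
  -- the data of the abstract form
  let φ₀ : ↥(k⟮jqModC k⟯) →+* LaurentSeries k :=
    (qExpand k N).comp (k⟮jqModC k⟯).val.toRingHom
  let τ' : Fin (dedekindPsi N) → (↥(ptL k N h hle) →+* LaurentSeries k) :=
    fun i => (τ i).toRingHom.comp (ptToFull k N h hle)
  have hτ' : Function.Injective τ' := by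
    intro i i' H
    apply hτ
    apply AlgHom.ext
    intro y
    exact congrArg (fun f : ↥(ptL k N h hle) →+* LaurentSeries k => f ⟨y.1, y.2⟩) H
  have hcomp : ∀ i (x : ↥(k⟮jqModC k⟯)),
      τ' i (algebraMap ↥(k⟮jqModC k⟯) ↥(ptL k N h hle) x) = φ₀ x :=
    fun i x => tn_comp k N (τ i) (hj i) x
  have hfib : ∀ i i₁ : Fin (dedekindPsi N),
      (τ' i).comp (algebraMap ↥(k⟮h⟯) ↥(ptL k N h hle)) =
        (τ' i₁).comp (algebraMap ↥(k⟮h⟯) ↥(ptL k N h hle)) ↔
      τ i ⟨h, hle (mem_adjoin_simple_self k h)⟩ = τ i₁ ⟨h, hle (mem_adjoin_simple_self k h)⟩ := by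
    intro i i₁
    constructor
    · intro H
      exact congrArg (fun f : ↥(k⟮h⟯) →+* LaurentSeries k =>
        f ⟨h, mem_adjoin_simple_self k h⟩) H
    · intro H
      have H' : (τ i).comp (IntermediateField.inclusion hle) =
          (τ i₁).comp (IntermediateField.inclusion hle) := by
        apply IntermediateField.adjoin_algHom_ext
        intro y hy
        rw [Set.mem_singleton_iff] at hy
        subst hy
        exact H
      ext a : 1
      exact congrArg (fun f : ↥(k⟮h⟯) →ₐ[k] LaurentSeries k => f a) H'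
  refine ⟨⟨finrank ↥(k⟮h⟯) ↥(ptL k N h hle), Module.finrank_pos, fun i₁ => ?_⟩,
    fun i₁ x => ?_⟩
  · exact (pt_abstract (K₁ := ↥(k⟮h⟯)) hcard φ₀ τ' hτ' hcomp i₁ _
      (fun i => by
        classical
        rw [Finset.mem_filter, hfib]
        simp)).1
  · exact (pt_abstract (K₁ := ↥(k⟮h⟯)) hcard φ₀ τ' hτ' hcomp i₁ _
      (fun i => by
        classical
        rw [Finset.mem_filter, hfib]
        simp)).2 x

end Fermat.Agent.ES.I2aux

end
end ZBES_021_5
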