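/- GENERATED FILE (helper35, build-time optimisation, NOTES/ZB.md): verbatim concatenation of the modules
   Fermat.Agent.ES.HFinite
   Fermat.Agent.ES.HModular
   Fermat.Agent.ES.HFinal
   Fermat.Agent.ES.BaseChangeUp
   Fermat.Agent.ES.LR.Final
   Fermat.Agent.ES.I2.Int
   Fermat.Agent.ES.I2.IR
   Fermat.Agent.ES.I2.Tau
   Fermat.Agent.ES.I2.S2
   Fermat.Agent.ES.M.LemmaW
   Fermat.Agent.R38.HolB1Ram
   Fermat.Agent.R38.HolB1Der
   Fermat.Agent.R38.HolB1MF
   Fermat.Agent.ES.G2.GenInt
   Do not edit; do not import together with these modules. -/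
import Fermat.Prelude.Def_AlgebraicCurve_Correspondence
import Fermat.Agent.ZB.S24_012
import Fermat.Prelude.Def_ModularCurve_HeckeOperatorTotal
import Fermat.Agent.ZB.S24_003
import Fermat.Agent.ZB.S24_001
import Mathlib
import Fermat.Agent.ZB.ES_019
import Fermat.Agent.ZB.S28_002
import Fermat.Agent.ZB.ES_002
import Fermat.Agent.ZB.ES_001
import Fermat.Agent.ZB.S24_011
import Fermat.Agent.ZB.ES_021
import Fermat.Agent.ZB.INJ_012
import Fermat.Agent.ZB.ES_026
import Fermat.Agent.ZB.ES_020
import Fermat.Agent.ZB.S24_017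
import Fermat.Agent.ZB.S24_018
import Fermat.Agent.ZB.S24_016
import Fermat.Agent.ZB.S24_013
import Fermat.Agent.ZB.S24_007
import Fermat.Agent.ZB.S28_003
import Fermat.Agent.ZB.ES_009

/-! ### bundled: `Fermat.Agent.ES.HFinite` -/
section ZBES_003_0

/-!
# ESpkg, piece (H), part (c), generic half: finiteness along a homomorphism

For `K`-algebra homomorphism `φ : F →ₐ[K] F'` of function fields of one variable, `F'` is a
finite `F`-module along `φ` as soon as `F'` is finite over `K(φ y)` for some `y : F`; this is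
the case when `y` is transcendental and `F'` is finite over `K(x')` for a transcendental `x'`.
-/

set_option autoImplicit false

noncomputable section

open AlgebraicCurve IntermediateField

namespace Fermat.Agent.ES.H

open Fermat.Agent.S24

variable {K F F' : Type*} [Field K] [Field F] [Field F'] [Algebra K F] [Algebra K F']

/-- Elements of `K(φ y)` are in the image of `φ`. -/
theorem exists_apply_eq_of_mem_adjoin (φ : F →ₐ[K] F') (y : F) {c : F'} (hc : c ∈ K⟮φ y⟯) :
    ∃ c' : F, φ c' = c := by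
  have hle : K⟮φ y⟯ ≤ φ.fieldRange := by
    rw [IntermediateField.adjoin_le_iff]
    rintro _ rfl
    exact ⟨y, rfl⟩
  exact hle hc

/-- `F'` is finite along `φ` if it is finite over `K(φ y)`. -/
theorem finiteAlong_of_finiteDimensional_adjoin (φ : F →ₐ[K] F') (y : F)
    [FiniteDimensional K⟮φ y⟯ F'] : FiniteAlong K φ := by
  let _ := algebraAlong φ
  show Module.Finite F F'
  obtain ⟨s, hs⟩ := (Module.finite_def (R := K⟮φ y⟯) (M := F')).mp inferInstance
  refine Module.finite_def.mpr ⟨s, ?_⟩
  have key : ∀ z : F', z ∈ Submodule.span K⟮φ y⟯ (s : Set F') →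
      z ∈ Submodule.span F (s : Set F') := by
    intro z hz
    induction hz using Submodule.span_induction with
    | mem x hx => exact Submodule.subset_span hx
    | zero => exact zero_mem _
    | add x y _ _ hx hy => exact add_mem hx hy
    | smul c x _ hx =>
      obtain ⟨c', hc'⟩ := exists_apply_eq_of_mem_adjoin φ y c.2
      have h : c • x = c' • x := by
        show (c : F') * x = φ c' * x
        rw [hc']
      rw [h]
      exact Submodule.smul_mem _ _ hx
  rw [eq_top_iff]
  intro z _
  exact key z (hs ▸ Submodule.mem_top)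

/-- The image of a transcendental element under a `K`-algebra homomorphism of fields is
transcendental. -/
theorem transcendental_apply (φ : F →ₐ[K] F') {y : F} (hy : Transcendental K y) :
    Transcendental K (φ y) := fun h =>
  hy ((isAlgebraic_algHom_iff φ φ.toRingHom.injective).mp h)

/-- `F'` is finite along any `K`-homomorphism from a field containing a transcendental, if `F'`
is a function field of one variable. -/
theorem finiteAlong_of_transcendental (φ : F →ₐ[K] F') (x' : F') (hx' : Transcendental K x')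
    [FiniteDimensional K⟮x'⟯ F'] (y : F) (hy : Transcendental K y) : FiniteAlong K φ := by
  have : FiniteDimensional K⟮φ y⟯ F' :=
    pd_finiteDimensional_adjoin_of_transcendental x' hx' (φ y) (transcendental_apply φ hy)
  exact finiteAlong_of_finiteDimensional_adjoin φ y

/-- Integrality along `φ` from finiteness along `φ`. -/
theorem isIntegral_of_finiteAlong (φ : F →ₐ[K] F') (h : FiniteAlong K φ) :
    φ.toRingHom.IsIntegral := by
  let _ := algebraAlong φ
  have : Module.Finite F F' := h
  exact (Algebra.IsIntegral.of_finite F F').isIntegral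

end Fermat.Agent.ES.H

end
end ZBES_003_0

/-! ### bundled: `Fermat.Agent.ES.HModular` -/
section ZBES_003_1

/-!
# ESpkg, piece (H), parts (a) and (c) for the modular function fields

* `finiteDimensional_adjoin_jF N` : `FF N` is finite over `ℚ̄(j)`;
* `hasPrincipalDivisors_FF N` : `HasPrincipalDivisors ℚ̄ (FF N)`;
* `finiteAlong_heckeAlphaBar`, `finiteAlong_heckeBetaBar` : both degeneracy maps
  `FF N → FF (N ℓ)` are finite;
* `heckeAlphaBarIntegral`, `heckeBetaBarIntegral` : and integral.
-/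

set_option autoImplicit false

noncomputable section

open AlgebraicCurve ModularCurve IntermediateField

namespace Fermat.Agent.ES.H

open Fermat.Agent.S24

/-- The function field of `X₀(N)` over `ℚ̄` is finite over `ℚ̄(j)`. -/
theorem finiteDimensional_adjoin_jF (N : ℕ) [NeZero N] : FiniteDimensional Kb⟮jF N⟯ (FF N) := by
  obtain ⟨R⟩ := exists_realization N
  have := R.finite_range
  exact finiteDimensional_adjoin_of_fixed R.φ R.act (jF N) R.fixed

/-- The function field of `X₀(N)` over `ℚ̄` has principal divisors. -/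
theorem hasPrincipalDivisors_FF (N : ℕ) [NeZero N] : HasPrincipalDivisors Kb (FF N) :=
  haveI := finiteDimensional_adjoin_jF N
  hasPrincipalDivisors_of_transcendental (jF N) (transcendental_jF N)

/-- Every place of the function field of `X₀(N)` over `ℚ̄` has residue field `ℚ̄`. -/
theorem residue_bijective_FF (N : ℕ) [NeZero N] (v : Place Kb (FF N)) :
    Function.Bijective (algebraMap Kb v.ResidueField) :=
  haveI := finiteDimensional_adjoin_jF N
  algebraMap_residueField_bijective (jF N) (transcendental_jF N)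
    (Algebra.IsAlgebraic.of_finite _ _) v

variable (N ℓ : ℕ) [NeZero N] [NeZero ℓ]

/-- The degeneracy map `α` is finite. -/
theorem finiteAlong_heckeAlphaBar : FiniteAlong Kb (heckeAlphaBar Kb N ℓ) :=
  haveI := finiteDimensional_adjoin_jF (N * ℓ)
  finiteAlong_of_transcendental (heckeAlphaBar Kb N ℓ) (jF (N * ℓ)) (transcendental_jF (N * ℓ))
    (jF N) (transcendental_jF N)

/-- The degeneracy map `β` is finite. -/
theorem finiteAlong_heckeBetaBar : FiniteAlong Kb (heckeBetaBar Kb N ℓ) :=
  haveI := finiteDimensional_adjoin_jF (N * ℓ)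
  finiteAlong_of_transcendental (heckeBetaBar Kb N ℓ) (jF (N * ℓ)) (transcendental_jF (N * ℓ))
    (jF N) (transcendental_jF N)

/-- The degeneracy map `α` is integral. -/
theorem heckeAlphaBarIntegral : HeckeAlphaBarIntegral Kb N ℓ :=
  isIntegral_of_finiteAlong _ (finiteAlong_heckeAlphaBar N ℓ)

/-- The degeneracy map `β` is integral. -/
theorem heckeBetaBarIntegral : HeckeBetaBarIntegral Kb N ℓ :=
  isIntegral_of_finiteAlong _ (finiteAlong_heckeBetaBar N ℓ)

end Fermat.Agent.ES.H

end
end ZBES_003_1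

/-! ### bundled: `Fermat.Agent.ES.HFinal` -/
section ZBES_003_2

/-!
# ESpkg, piece (H): `HeckeInputsAlong ℚ̄ N ℓ`, assembly

`heckeInputsAlong_of` reduces `ModularCurve.HeckeInputsAlong (AlgebraicClosure ℚ) N ℓ` to the two
generic function-field statements (fundamental identity along `β`, norm formula along `α`);
everything else (integrality and finiteness of `α`, `β`, principal divisors) is proved in
`HModular.lean`.
-/

set_option autoImplicit false

noncomputable section

open AlgebraicCurve ModularCurve IntermediateField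

namespace Fermat.Agent.ES.H

open Fermat.Agent.S24

variable {K F F' : Type*} [Field K] [Field F] [Field F'] [Algebra K F] [Algebra K F']

/-- Glue: the fundamental identity along `φ` from the sum formula `Σ e·f = n` for the algebra
structure along `φ`. -/
theorem fundamentalIdentityAlong_of_sumRamificationInertia (φ : F →ₐ[K] F')
    (hφ : φ.toRingHom.IsIntegral) [HasPrincipalDivisors K F']
    (h : letI := algebraAlong φ
      haveI := isScalarTower_along φ
      haveI := isIntegral_along φ hφ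
      SumRamificationInertia K F F') :
    FundamentalIdentityAlong K φ hφ := by
  let _ := algebraAlong φ
  have := isScalarTower_along φ
  have := isIntegral_along φ hφ
  have : SumRamificationInertia K F F' := h
  show FundamentalIdentity K F F'
  infer_instance

variable (N ℓ : ℕ) [NeZero N] [NeZero ℓ]

/-- Assembly of `HeckeInputsAlong` from the two generic function-field statements. -/
theorem heckeInputsAlong_of
    (hFI : haveI := hasPrincipalDivisors_FF (N * ℓ)
      FundamentalIdentityAlong Kb (heckeBetaBar Kb N ℓ) (heckeBetaBarIntegral N ℓ))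
    (hN : NormFormulaAlong Kb (heckeAlphaBar Kb N ℓ) (finiteAlong_heckeAlphaBar N ℓ)) :
    HeckeInputsAlong (AlgebraicClosure ℚ) N ℓ :=
  ⟨heckeAlphaBarIntegral N ℓ, heckeBetaBarIntegral N ℓ, hasPrincipalDivisors_FF (N * ℓ),
    finiteAlong_heckeAlphaBar N ℓ, hFI, hN⟩

end Fermat.Agent.ES.H

end
end ZBES_003_2

/-! ### bundled: `Fermat.Agent.ES.BaseChangeUp` -/
section ZBES_003_3

/-!
# ESpkg-G1, piece BCu: places of `K_ℚ̄` extend to places of `K_ℂ` with the same orders

`K_ℚ̄ = modularFunctionFieldBar M ⊂ ℚ̄((q))`, `K_ℂ = modularFunctionFieldFullC ℂ M ⊂ ℂ((q))`,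
`ι = iotaC M : K_ℚ̄ → K_ℂ` the coefficientwise embedding (`ES/IotaC.lean`).

* `baseChangeUp` : for every place `v` of `K_ℚ̄ / ℚ̄` there is a place `w` of `K_ℂ / ℂ` with
  `w.ord (ι f) = v.ord f` for all `f` (ramification index `1`).
* `baseChangeUp_dvd` : consequently, `n ∣ w.ord (ι u)` for all places `w` of `K_ℂ` implies
  `n ∣ v.ord u` for all places `v` of `K_ℚ̄`.

Generic proof: `ES/BaseChangeUpCore.lean` (linear disjointness of `ℂ` and `K_ℚ̄` over `ℚ̄`,
residue field `ℚ̄`) and `ES/BaseChangeUpDvr.lean`.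
-/

set_option autoImplicit false

noncomputable section

namespace Fermat.Agent.ES

open AlgebraicCurve ModularCurve IntermediateField Fermat.Agent.S24

attribute [local instance] algKbC

variable (M : ℕ) [NeZero M]

/-- `K_ℂ` is generated, as a field, by `ℂ` and `ι K_ℚ̄`. -/
theorem iotaC_generates (y : modularFunctionFieldFullC ℂ M) :
    y ∈ Subfield.closure
      (Set.range (algebraMap ℂ (modularFunctionFieldFullC ℂ M)) ∪ Set.range (iotaC M)) := by
  set S : Subfield (LaurentSeries ℂ) := (Subfield.closure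
    (Set.range (algebraMap ℂ (modularFunctionFieldFullC ℂ M)) ∪ Set.range (iotaC M))).map
      (modularFunctionFieldFullC ℂ M).val.toRingHom with hS
  have key : ∀ x : LaurentSeries ℂ, x ∈ modularFunctionFieldFullC ℂ M → x ∈ S := by
    intro x hx
    unfold modularFunctionFieldFullC at hx
    induction hx using IntermediateField.adjoin_induction with
    | mem x hx =>
      obtain ⟨d, hne, hd, rfl⟩ := hx
      have h1 : qExpand Kb d (jqModC Kb) ∈ modularFunctionFieldBar M := by
        show qExpand Kb d (jqModC Kb) ∈ laurentBaseChange Kb (modularFunctionFieldFull M)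
        rw [Fermat.Agent.ES.G2.hdeg_laurentBaseChange_full Kb M]
        exact jqModCd_mem_full Kb M hd
      have h2 : ((iotaC M ⟨_, h1⟩ : modularFunctionFieldFullC ℂ M) : LaurentSeries ℂ) =
          qExpand ℂ d (jqModC ℂ) := by
        rw [iotaC_coe, coeffMap_qExpand, coeffMap_jqModC]
      rw [hS, Subfield.mem_map]
      exact ⟨iotaC M ⟨_, h1⟩, Subfield.subset_closure (Or.inr ⟨_, rfl⟩), h2⟩
    | algebraMap c =>
      rw [hS, Subfield.mem_map]
      exact ⟨algebraMap ℂ (modularFunctionFieldFullC ℂ M) c,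
        Subfield.subset_closure (Or.inl ⟨c, rfl⟩), rfl⟩
    | add x y _ _ ihx ihy => exact S.add_mem ihx ihy
    | inv x _ ih => exact S.inv_mem ih
    | mul x y _ _ ihx ihy => exact S.mul_mem ihx ihy
  have hy := key y y.2
  rw [hS, Subfield.mem_map] at hy
  obtain ⟨z, hz, hzy⟩ := hy
  have : z = y := Subtype.ext hzy
  rwa [this] at hz

/-- **BCu**: every place of `K_ℚ̄` extends to a place of `K_ℂ` with the same orders. -/
theorem baseChangeUp (v : Place Kb (modularFunctionFieldBar M)) :
    ∃ w : Place ℂ (modularFunctionFieldFullC ℂ M),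
      ∀ f : modularFunctionFieldBar M, w.ord (iotaC M f) = v.ord f :=
  bcu_exists_place_extends (iotaC M) (fun _ => rfl) v
    (Fermat.Agent.ES.H.residue_bijective_FF M v).surjective (iotaC_generates M)

/-- Divisibility of orders descends from `K_ℂ` to `K_ℚ̄`. -/
theorem baseChangeUp_dvd (n : ℤ) (u : modularFunctionFieldBar M)
    (h : ∀ w : Place ℂ (modularFunctionFieldFullC ℂ M), n ∣ w.ord (iotaC M u))
    (v : Place Kb (modularFunctionFieldBar M)) : n ∣ v.ord u := by
  obtain ⟨w, hw⟩ := baseChangeUp M v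
  rw [← hw u]
  exact h w

end Fermat.Agent.ES

end
end ZBES_003_3

/-! ### bundled: `Fermat.Agent.ES.LR.Final` -/
section ZBES_003_4
/-
ES-LR (Lemma R, part (a)) for the modular function fields (helper15):
`stmtLRaAll : Fermat.Agent.ES.M.StmtLRaAll`.

`x ∈ F_N` with poles only at cusps (regular wherever `j` is) and Gauss norm `≤ 1` (fraction form)
has an `A`-integral `q`-expansion.  Proof:
1. `x` is integral over `ℚ̄[j]` (places of `F_N` over the affine `j`-line = primes of the integral
   closure of `ℚ̄[j]`, a Dedekind domain: `Fermat.Agent.S24.placeOfPrime`);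
2. for a common denominator `c ∈ A` of the coefficients of an integrality equation, `c · x` is a
   root of a monic polynomial over `A((q))` (`Polynomial.scaleRoots`; `j` has integer coefficients);
3. `A((q))` is integrally closed in its fraction field: `c · x ∈ A((q))` (`kronInt_of_monic`);
4. Gauss: bounded denominators + Gauss norm `≤ 1` ⟹ integral (`kronInt_of_bounded`).
No hypothesis on `N` and `ℓ` is used.
-/

set_option autoImplicit false
set_option linter.style.haveILetI false

noncomputable section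

namespace Fermat.Agent.ES.LR

open Fermat.Agent.ES Fermat.Agent.ES.M Fermat.Agent.S24 ModularCurve AlgebraicCurve Polynomial
  IsDedekindDomain

/-! ### Step 1: poles only at cusps ⟹ integral over `ℚ̄[j]` -/

theorem lr_isIntegral (N : ℕ) [NeZero N] (x : FF N) (hx : PolesAtCusps N x) :
    letI := polyAlgebra (K := Kb) (jF N)
    IsIntegral Kb[X] x := by
  letI := polyAlgebra (K := Kb) (jF N)
  haveI := Fermat.Agent.ES.H.finiteDimensional_adjoin_jF N
  obtain ⟨hDed, hFrac, -⟩ := intClosure_facts (K := Kb) (jF N) (transcendental_jF N)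
  have hj0 : jF N ≠ 0 := fun h => transcendental_jF N (h ▸ isAlgebraic_zero)
  have hall : ∀ w : HeightOneSpectrum (intClosure (K := Kb) (jF N)),
      w.valuation (FF N) x ≤ 1 := by
    intro w
    set P : Place Kb (FF N) := placeOfPrime (PlacesAux.hK (K := Kb) (jF N)) w with hP
    have hjmem : jF N ∈ P.toValuationSubring := by
      rw [hP, placeOfPrime_toValuationSubring, Valuation.mem_valuationSubring_iff]
      have h1 := w.valuation_le_one (K := FF N)
        (algebraMap Kb[X] (intClosure (K := Kb) (jF N)) X)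
      have h2 : algebraMap (intClosure (K := Kb) (jF N)) (FF N)
          (algebraMap Kb[X] (intClosure (K := Kb) (jF N)) X) = jF N :=
        PlacesAux.algebraMap_X (K := Kb) (jF N)
      exact le_of_eq_of_le (congrArg (w.valuation (FF N)) h2).symm h1
    have hj : 0 ≤ P.ord (jF N) := (PlaceAux.ord_nonneg_iff P hj0).2 hjmem
    have hxmem := PlaceAux.mem_of_ord_nonneg P (hx P hj)
    rwa [hP, placeOfPrime_toValuationSubring, Valuation.mem_valuationSubring_iff] at hxmem
  obtain ⟨r, hr⟩ := HeightOneSpectrum.mem_integers_of_valuation_le_one (FF N) x hall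
  rw [← hr]
  exact r.2

/-! ### Step 2: scaling -/

variable {L : Type*} [Field L] {A : ValuationSubring L}

/-- a common denominator in `A` -/
theorem exists_common_denom (S : Finset L) :
    ∃ c : L, c ≠ 0 ∧ c ∈ A ∧ ∀ a ∈ S, c * a ∈ A := by
  classical
  induction S using Finset.induction_on with
  | empty => exact ⟨1, one_ne_zero, A.one_mem, fun a ha => absurd ha (Finset.notMem_empty a)⟩
  | insert a S _ ih =>
    obtain ⟨c, hc0, hcA, hc⟩ := ih
    by_cases ha : a ∈ A
    · refine ⟨c, hc0, hcA, fun b hb => ?_⟩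
      rcases Finset.mem_insert.1 hb with rfl | hb
      · exact A.mul_mem _ _ hcA ha
      · exact hc b hb
    · have ha0 : a ≠ 0 := fun h => ha (h ▸ A.zero_mem)
      have hinv : a⁻¹ ∈ A := (A.mem_or_inv_mem a).resolve_left ha
      refine ⟨c * a⁻¹, mul_ne_zero hc0 (inv_ne_zero ha0), A.mul_mem _ _ hcA hinv, fun b hb => ?_⟩
      rcases Finset.mem_insert.1 hb with rfl | hb
      · rw [mul_assoc, inv_mul_cancel₀ ha0, mul_one]
        exact hcA
      · rw [mul_assoc, mul_comm a⁻¹ b, ← mul_assoc]
        exact A.mul_mem _ _ (hc b hb) hinv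

/-- `c · f(J)` is integral if `J` is and `c` clears the denominators of `f` -/
theorem kronInt_C_mul_aeval {J : LaurentSeries L} (hJ : KronInt A J) (f : L[X]) {c : L}
    (hc : ∀ k, c * f.coeff k ∈ A) :
    KronInt A (HahnSeries.C c * Polynomial.aeval J f) := by
  rw [← mem_intSub, Polynomial.aeval_eq_sum_range, Finset.mul_sum]
  refine Subring.sum_mem _ fun k _ => ?_
  rw [Algebra.smul_def, ← mul_assoc, LaurentSeries.algebraMap_apply, ← map_mul]
  exact Subring.mul_mem _ (mem_intSub.2 (kronInt_C (hc k)))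
    (Subring.pow_mem _ (mem_intSub.2 hJ) _)

/-- a root of a monic polynomial over `L[J]`, `J` integral, which is a fraction of integral
series, has bounded denominators -/
theorem exists_kronInt_C_mul (hA : Arch A) {J : LaurentSeries L} (hJ : KronInt A J)
    {z Y₁ Y₂ : LaurentSeries L} (hY₁ : KronInt A Y₁) (hY₂ : KronInt A Y₂) (hY₂0 : Y₂ ≠ 0)
    (hfrac : z * Y₂ = Y₁) (p : L[X][X]) (hp : p.Monic)
    (hz : Polynomial.eval₂ (Polynomial.aeval J).toRingHom z p = 0) :
    ∃ c : L, c ≠ 0 ∧ KronInt A (HahnSeries.C c * z) := by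
  classical
  obtain ⟨c, hc0, hcA, hc⟩ := exists_common_denom (A := A)
    (p.support.biUnion fun i => (p.coeff i).coeffs)
  refine ⟨c, hc0, ?_⟩
  have hcoef : ∀ i k, c * (p.coeff i).coeff k ∈ A := by
    intro i k
    by_cases h0 : (p.coeff i).coeff k = 0
    · rw [h0, mul_zero]
      exact A.zero_mem
    · apply hc
      rw [Finset.mem_biUnion]
      refine ⟨i, ?_, Polynomial.coeff_mem_coeffs h0⟩
      rw [Polynomial.mem_support_iff]
      intro h
      rw [h, Polynomial.coeff_zero] at h0
      exact h0 rfl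
  set φ : L[X] →+* LaurentSeries L := (Polynomial.aeval J).toRingHom with hφ
  set P : (LaurentSeries L)[X] := p.map φ with hP
  have hPmonic : P.Monic := hp.map φ
  have hPz : P.eval z = 0 := by
    rw [hP, Polynomial.eval_map]
    exact hz
  set Q : (LaurentSeries L)[X] := Polynomial.scaleRoots P (HahnSeries.C c) with hQ
  have hQmonic : Q.Monic := (Polynomial.monic_scaleRoots_iff _).2 hPmonic
  have hQz : Q.eval (HahnSeries.C c * z) = 0 := by
    have h1 := Polynomial.scaleRoots_eval₂_eq_zero (RingHom.id (LaurentSeries L))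
      (p := P) (r := z) (s := HahnSeries.C c) (by rwa [Polynomial.eval₂_id])
    rwa [Polynomial.eval₂_id, RingHom.id_apply] at h1
  have hCc : KronInt A (HahnSeries.C c : LaurentSeries L) := kronInt_C hcA
  have hQc : ∀ n, KronInt A (Q.coeff n) := by
    intro n
    rw [hQ, Polynomial.coeff_scaleRoots]
    rcases lt_trichotomy n P.natDegree with h | h | h
    · have h1 : P.natDegree - n = (P.natDegree - n - 1) + 1 := by omega
      have h2 : P.coeff n * HahnSeries.C c ^ (P.natDegree - n) =
          (HahnSeries.C c * P.coeff n) * HahnSeries.C c ^ (P.natDegree - n - 1) := by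
        conv_lhs => rw [h1, pow_succ]
        ring
      rw [h2]
      refine KronInt.mul ?_ (hCc.pow _)
      rw [hP, Polynomial.coeff_map]
      exact kronInt_C_mul_aeval hJ (p.coeff n) (hcoef n)
    · rw [h, Nat.sub_self, pow_zero, mul_one, Polynomial.coeff_natDegree, hPmonic.leadingCoeff]
      exact KronInt.one
    · rw [Polynomial.coeff_eq_zero_of_natDegree_lt h, zero_mul]
      intro m
      rw [HahnSeries.coeff_zero]
      exact A.zero_mem
  refine kronInt_of_monic hA (Y₁ := HahnSeries.C c * Y₁) (hCc.mul hY₁) hY₂ hY₂0 ?_ Q hQmonic hQc hQz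
  rw [mul_assoc, hfrac]

/-! ### Assembly -/

/-- `j(q)` has integer coefficients -/
theorem kronInt_jBar (A : ValuationSubring Kb) : KronInt A jBar := by
  have h : jBar = coeffMap (Int.castRingHom Kb) (jqModC ℤ) := by
    rw [jBar, coeffEmb, ← jqModC_rat, coeffMap_jqModC, coeffMap_jqModC]
  intro n
  rw [h, coeffMap_coeff]
  exact arch_intCast_mem A _

/-- **Lemma R (a)** for a rank one valuation subring of `ℚ̄` -/
theorem stmtLRa_of_arch (N : ℕ) [NeZero N] (A : ValuationSubring Kb) (hA : Arch A) :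
    StmtLRa N A := by
  intro x hx hG
  obtain ⟨w, Y₁, Y₂, -, -, hY₂, hfrac, -⟩ := hG
  letI := polyAlgebra (K := Kb) (jF N)
  obtain ⟨p, hp, hpz⟩ := lr_isIntegral N x hx
  have hY₂0 : kronIncl A Y₂ ≠ 0 := by
    intro h0
    apply hY₂
    have h1 : Y₂ = 0 := kronIncl_injective (A := A) (h0.trans (map_zero _).symm)
    rw [h1, map_zero]
  have hcomp : (modularFunctionFieldBar N).val.toRingHom.comp (algebraMap Kb[X] (FF N)) =
      (Polynomial.aeval jBar).toRingHom := by
    have h1 : (Polynomial.aeval (R := Kb) jBar) =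
        (modularFunctionFieldBar N).val.comp (Polynomial.aeval (jF N)) :=
      Polynomial.aeval_algHom (modularFunctionFieldBar N).val (jF N)
    rw [h1]
    rfl
  have hz : Polynomial.eval₂ (Polynomial.aeval jBar).toRingHom (x : LaurentSeries Kb) p = 0 := by
    have h1 := Polynomial.hom_eval₂ p (algebraMap Kb[X] (FF N))
      (modularFunctionFieldBar N).val.toRingHom x
    rw [hpz, map_zero, hcomp] at h1
    exact h1.symm
  obtain ⟨c, hc0, hcx⟩ := exists_kronInt_C_mul hA (kronInt_jBar A) (kronInt_kronIncl Y₁)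
    (kronInt_kronIncl Y₂) hY₂0 hfrac p hp hz
  exact kronInt_of_bounded hA hc0 hcx (kronInt_kronIncl Y₁) ((kronPrim_kronIncl_iff Y₂).2 hY₂)
    hfrac

/-- **Lemma R (a)**, all levels and all primes (no good-reduction hypothesis is needed) -/
theorem stmtLRa (N : ℕ) [NeZero N] (ℓ : ℕ) (hℓ : ℓ.Prime) (A : ValuationSubring Kb)
    (hA : A.LiesOverPrime ℓ) : StmtLRa N A :=
  stmtLRa_of_arch N A (arch_Qbar A hℓ hA)

/-- the input `StmtLRaAll` of the route-2 glue -/
theorem stmtLRaAll : StmtLRaAll :=
  fun N _ ℓ hℓ _ A hA => stmtLRa N ℓ hℓ A hA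

end Fermat.Agent.ES.LR

end
end ZBES_003_4

/-! ### bundled: `Fermat.Agent.ES.I2.Int` -/
section ZBES_003_5

/-!
# ES / I2 — piece (Int): integrality at the other cusps  (helper59)

`A ⊂ ℚ̄` a valuation ring over `ℓ ∤ N`.  If `Y ∈ A((q))` lies in `F_N` and is integral over
`ℚ̄[j]`, then `σ(Y) ∈ A((Q))` for every embedding `σ : F_N → ℚ̄((Q))` with a type.

Proof.  As in (RedF): with `ψ(N)` monomials `x i` in the `j(q^d)` whose reductions are independent
over `k(j̄)` there is a relation `D(j) Y = ∑ P i (j) x i`, `D, P i ∈ A[X]`, `D̄ ≠ 0`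
(`int_exists_relation`).  Apply `σ`: `σ(j) = j(Q^N) =: J`, `σ(x i)` is a monomial in the
`j(c Q^m)`, `c` a root of unity, so `D(J) σ(Y) = ∑ P i (J) σ(x i)` is a fraction form of `σ(Y)` with
integral numerator and primitive denominator; `σ(Y)` is integral over `ℚ̄[J]`.  Conclude with
`exists_kronInt_C_mul` and the Gauss step `kronInt_of_bounded` (ES/LR).
-/

set_option autoImplicit false

noncomputable section

namespace Fermat.Agent.ES.I2

open ModularCurve AlgebraicCurve HahnSeries Polynomial IntermediateField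
open Fermat.Agent.ES Fermat.Agent.S24 Fermat.Agent.S28 Fermat.Agent.ES.M Fermat.Agent.ES.LR

section Abstract

variable {K : Type*} [Field K] {A : ValuationSubring K} {ι : Type*} [Fintype ι]

/-- The relation behind (RedF): if the image of `Y ∈ A((q))` in `K((q))` is a `K(t)`-combination
of the `x i` (whose reductions are independent over `k(t̄)`), then `D(t) Y = ∑ P i (t) x i` with
`D, P i ∈ A[X]` and `D̄ ≠ 0`. -/
theorem int_exists_relation (x : ι → LaurentSeries A) (t : LaurentSeries A)
    (ht : Transcendental (IsLocalRing.ResidueField A) (coeffMap (IsLocalRing.residue A) t))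
    (hind : ∀ c : ι → LaurentSeries (IsLocalRing.ResidueField A),
      (∀ i, c i ∈ adjoin (IsLocalRing.ResidueField A) {coeffMap (IsLocalRing.residue A) t}) →
      ∑ i, c i * coeffMap (IsLocalRing.residue A) (x i) = 0 → ∀ i, c i = 0)
    (Y : LaurentSeries A) (c : ι → LaurentSeries K)
    (hc : ∀ i, c i ∈ adjoin K {coeffMap (algebraMap A K) t})
    (hY : coeffMap (algebraMap A K) Y = ∑ i, c i * coeffMap (algebraMap A K) (x i)) :
    ∃ (D : Polynomial A) (P : ι → Polynomial A), D.map (IsLocalRing.residue A) ≠ 0 ∧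
      aeval t D * Y = ∑ i, aeval t (P i) * x i := by
  classical
  obtain ⟨D, hD, hDP⟩ := redDVR_exists_common_denominator (A := A)
    (coeffMap (algebraMap A K) t) c hc Finset.univ
  choose P hP using fun i => hDP i (Finset.mem_univ i)
  have hD0 : D ≠ 0 := by
    rintro rfl
    rw [Polynomial.map_zero, map_zero] at hD
    exact hD rfl
  -- the relation over `A`
  have h1 : aeval t D * Y = ∑ i, aeval t (P i) * x i := by
    apply redDVR_coeffMap_injective (algebraMap A K) (IsFractionRing.injective A K)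
    rw [map_mul, map_sum, hY, Finset.mul_sum]
    simp_rw [map_mul, redDVR_coeffMap_aeval, ← hP]
    exact Finset.sum_congr rfl fun i _ => by ring
  -- joint normalisation of `D` and the `P i`
  let Q : Option ι → Polynomial A := fun o => o.elim D P
  obtain ⟨a, Q', ha, hQQ', o₀, ho₀⟩ := redF_exists_primitive A Q ⟨none, hD0⟩
  have hDa : D = C a * Q' none := hQQ' none
  have hPa : ∀ i, P i = C a * Q' (some i) := fun i => hQQ' (some i)
  have h2 : aeval t (Q' none) * Y = ∑ i, aeval t (Q' (some i)) * x i := by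
    have h3 : algebraMap A (LaurentSeries A) a *
        (aeval t (Q' none) * Y - ∑ i, aeval t (Q' (some i)) * x i) = 0 := by
      rw [mul_sub, Finset.mul_sum, sub_eq_zero]
      have e1 : algebraMap A (LaurentSeries A) a * (aeval t (Q' none) * Y) = aeval t D * Y := by
        rw [hDa, map_mul, aeval_C, mul_assoc]
      have e2 : ∀ i, algebraMap A (LaurentSeries A) a * (aeval t (Q' (some i)) * x i)
          = aeval t (P i) * x i := fun i => by
        rw [hPa i, map_mul, aeval_C, mul_assoc]
      rw [e1, h1]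
      exact Finset.sum_congr rfl fun i _ => (e2 i).symm
    exact sub_eq_zero.mp (redDVR_eq_zero_of_mul ha h3)
  refine ⟨Q' none, fun i => Q' (some i), ?_, h2⟩
  -- reduce
  have h4 := congrArg (coeffMap (IsLocalRing.residue A)) h2
  rw [map_mul, map_sum] at h4
  simp_rw [map_mul, redDVR_coeffMap_aeval] at h4
  set r := IsLocalRing.residue A with hr
  have hmemc : ∀ Q₀ : Polynomial A,
      aeval (coeffMap r t) (Q₀.map r) ∈ adjoin (IsLocalRing.ResidueField A) {coeffMap r t} :=
    fun Q₀ => IntermediateField.algebra_adjoin_le_adjoin _ _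
      (Polynomial.aeval_mem_adjoin_singleton _ _)
  intro hD'
  rw [hD', map_zero, zero_mul] at h4
  have h5 := hind (fun i => aeval (coeffMap r t) ((Q' (some i)).map r))
    (fun i => hmemc _) h4.symm
  cases o₀ with
  | none => exact ho₀ hD'
  | some i => exact ho₀ (transcendental_iff.mp ht _ (h5 i))

end Abstract

section Roots

variable (A : ValuationSubring Kb)

/-- powers (with integer exponents) of a root of unity lie in `A` -/
theorem int_zpow_mem (c : Kbˣ) (δ : ℕ) (hδ : δ ≠ 0) (hc : c ^ δ = 1) (n : ℤ) :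
    ((c ^ n : Kbˣ) : Kb) ∈ A := by
  apply arch_mem_of_isIntegral
  have h1 : ((c ^ n : Kbˣ) : Kb) ^ δ = 1 := by
    rw [← Units.val_pow_eq_pow_val, ← zpow_natCast, ← zpow_mul, mul_comm, zpow_mul, zpow_natCast,
      hc, one_zpow, Units.val_one]
  exact IsIntegral.of_pow (Nat.pos_of_ne_zero hδ) (by rw [h1]; exact isIntegral_one)

/-- `f(c q)` is integral if `f` is and `c` is a root of unity -/
theorem int_kronInt_kronRot (c : Kbˣ) (δ : ℕ) (hδ : δ ≠ 0) (hc : c ^ δ = 1)
    {f : LaurentSeries Kb} (hf : KronInt A f) : KronInt A (kronRot c f) := by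
  intro n
  rw [kronRot_coeff]
  exact A.mul_mem _ _ (int_zpow_mem A c δ hδ hc n) (hf n)

end Roots

section Concrete

variable (N : ℕ) [NeZero N] (A : ValuationSubring Kb)

theorem int_jBar_eq : jBar = jqModC Kb := by
  rw [jBar, coeffEmb, ← jqModC_rat, coeffMap_jqModC]

/-- `σ(j) = j(Q^N)` for an embedding with a type -/
theorem int_sigma_jF (σ : FF N →ₐ[Kb] LaurentSeries Kb) (hσ : HasType N σ) :
    σ (jF N) = qExpand Kb N jBar := by
  obtain ⟨a, δ, m, c, h1, h2, h3, h4⟩ := hσ 1 (one_dvd N)
  have ha : a = 1 := Nat.eq_one_of_mul_eq_one_right h1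
  have hδ : δ = 1 := Nat.eq_one_of_mul_eq_one_left h1
  subst ha
  subst hδ
  rw [mul_one, mul_one] at h2
  rw [pow_one] at h3
  subst h2
  subst h3
  rw [← jdF_one, h4, substQ_eq, kronRot_one]

/-- `σ(j(q^d))` is integral for an embedding with a type -/
theorem int_kronInt_sigma_jdF (σ : FF N →ₐ[Kb] LaurentSeries Kb) (hσ : HasType N σ)
    (d : ℕ) (hd : d ∣ N) : KronInt A (σ (jdF N d hd)) := by
  obtain ⟨a, δ, m, c, h1, h2, h3, h4⟩ := hσ d hd
  have hd0 : d ≠ 0 := fun h => NeZero.ne N (by subst h; simpa using hd)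
  have hδ : δ ≠ 0 := by
    rintro rfl
    exact hd0 (by rw [← h1, mul_zero])
  have ha : a ≠ 0 := by
    rintro rfl
    exact hd0 (by rw [← h1, zero_mul])
  have hm : m ≠ 0 := by
    rintro rfl
    rw [zero_mul] at h2
    exact (mul_ne_zero (NeZero.ne N) ha) h2.symm
  have : NeZero m := ⟨hm⟩
  rw [h4, substQ_eq]
  exact (int_kronInt_kronRot A c δ hδ h3 (kronInt_jBar A)).qExpand m

/-- `σ` of a monomial in the `j(q^d)` is integral -/
theorem int_kronInt_sigma_monomial (σ : FF N →ₐ[Kb] LaurentSeries Kb) (hσ : HasType N σ)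
    {x : LaurentSeries ℤ} (hx : x ∈ Submonoid.closure (gensZ N)) :
    ∃ h : coeffMap (Int.castRingHom Kb) x ∈ modularFunctionFieldBar N,
      KronInt A (σ ⟨coeffMap (Int.castRingHom Kb) x, h⟩) := by
  induction hx using Submonoid.closure_induction with
  | mem z hz =>
    obtain ⟨d, hne, hd, rfl⟩ := hz
    have e : coeffMap (Int.castRingHom Kb) (qExpand ℤ d (jqModC ℤ)) =
        ((jdF N d hd : FF N) : LaurentSeries Kb) := by
      rw [jdF_coe, coeffMap_qExpand, coeffMap_jqModC, ← jqModC_rat, G2.hdeg_coeffEmb_gen]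
    have hmem : coeffMap (Int.castRingHom Kb) (qExpand ℤ d (jqModC ℤ)) ∈
        modularFunctionFieldBar N := by
      rw [e]
      exact (jdF N d hd).2
    refine ⟨hmem, ?_⟩
    have e2 : (⟨coeffMap (Int.castRingHom Kb) (qExpand ℤ d (jqModC ℤ)), hmem⟩ : FF N) =
        jdF N d hd := Subtype.ext e
    rw [e2]
    exact int_kronInt_sigma_jdF N A σ hσ d hd
  | one =>
    have hmem : coeffMap (Int.castRingHom Kb) (1 : LaurentSeries ℤ) ∈
        modularFunctionFieldBar N := by
      rw [map_one]
      exact one_mem _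
    refine ⟨hmem, ?_⟩
    have e2 : (⟨coeffMap (Int.castRingHom Kb) (1 : LaurentSeries ℤ), hmem⟩ : FF N) = 1 :=
      Subtype.ext (map_one _)
    rw [e2, map_one]
    exact KronInt.one
  | mul a b _ _ ha hb =>
    obtain ⟨ha1, ha2⟩ := ha
    obtain ⟨hb1, hb2⟩ := hb
    have hmem : coeffMap (Int.castRingHom Kb) (a * b) ∈ modularFunctionFieldBar N := by
      rw [map_mul]
      exact mul_mem ha1 hb1
    refine ⟨hmem, ?_⟩
    have e2 : (⟨coeffMap (Int.castRingHom Kb) (a * b), hmem⟩ : FF N) =
        (⟨coeffMap (Int.castRingHom Kb) a, ha1⟩ : FF N) *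
          (⟨coeffMap (Int.castRingHom Kb) b, hb1⟩ : FF N) := Subtype.ext (map_mul _ _ _)
    rw [e2, map_mul]
    exact ha2.mul hb2

end Concrete

section Main

variable (N : ℕ) [NeZero N] (A : ValuationSubring Kb)

/-- `j(Q^N)` is transcendental over the residue field -/
theorem int_transcendental_qExpand (k : Type*) [Field k] :
    Transcendental k (qExpand k N (jqModC k)) := by
  have h := red_transcendental_jqModC k
  intro halg
  apply h
  have h1 : IsAlgebraic k (qExpandAlgHomC k N (jqModC k)) := halg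
  exact (isAlgebraic_algHom_iff (qExpandAlgHomC k N) (qExpandAlgHomC k N).toRingHom.injective).1 h1

/-- polynomials over `A` in an integral series are integral -/
theorem int_kronInt_aeval {J : LaurentSeries Kb} (hJ : KronInt A J) (P : Polynomial A) :
    KronInt A (aeval J (P.map (algebraMap A Kb))) := by
  have h := kronInt_C_mul_aeval (A := A) hJ (P.map (algebraMap A Kb)) (c := 1) (fun k => by
    rw [one_mul, Polynomial.coeff_map]
    exact (P.coeff k).2)
  rwa [map_one, one_mul] at h

/-- sums of integral series are integral -/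
theorem int_kronInt_sum {ι : Type*} (s : Finset ι) (f : ι → LaurentSeries Kb)
    (hf : ∀ i ∈ s, KronInt A (f i)) : KronInt A (∑ i ∈ s, f i) := by
  rw [← mem_intSub]
  exact Subring.sum_mem _ fun i hi => mem_intSub.2 (hf i hi)

/-- `D(j(Q^N))` is primitive if `D̄ ≠ 0` -/
theorem int_kronPrim_aeval (D : Polynomial A) (hD : D.map (IsLocalRing.residue A) ≠ 0) :
    KronPrim A (aeval (qExpand Kb N jBar) (D.map (algebraMap A Kb))) := by
  have h1 : aeval (qExpand Kb N jBar) (D.map (algebraMap A Kb)) =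
      kronIncl A (aeval (qExpand A N (jqModC A)) D) := by
    have h2 := redDVR_coeffMap_aeval (algebraMap A Kb) (qExpand A N (jqModC A)) D
    rw [coeffMap_qExpand, coeffMap_jqModC, ← int_jBar_eq] at h2
    exact h2.symm
  rw [h1, kronPrim_kronIncl_iff]
  have h3 := redDVR_coeffMap_aeval (IsLocalRing.residue A) (qExpand A N (jqModC A)) D
  rw [coeffMap_qExpand, coeffMap_jqModC] at h3
  intro h0
  apply hD
  have h4 : aeval (qExpand (kA A) N (jqModC (kA A))) (D.map (IsLocalRing.residue A)) = 0 := by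
    rw [← h3]
    exact h0
  exact transcendental_iff.mp (int_transcendental_qExpand N (kA A)) _ h4

/-- **(Int)**: an `A`-integral element of `F_N` which is integral over `ℚ̄[j]` has `A`-integral
expansion under every embedding with a type. -/
theorem stmtInt (ℓ : ℕ) (hℓ : ℓ.Prime) (hℓN : ¬ ℓ ∣ N) (hA : A.LiesOverPrime ℓ) :
    StmtInt N A := by
  intro σ hσ Y hY hint
  have hArch : Arch A := arch_Qbar A hℓ hA
  -- the relation, as in (RedF)
  have hNk := redF_natCast_ne_zero N A ℓ hℓ hℓN hA
  obtain ⟨x, hx, hli⟩ := exists_monomials_full (k := kA A) N (primeHyp_of_dvd (kA A) N hNk)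
  set X : Fin (dedekindPsi N) → LaurentSeries A := fun i => coeffMap (Int.castRingHom A) (x i)
    with hX
  set t : LaurentSeries A := jqModC A with htdef
  have htk : coeffMap (IsLocalRing.residue A) t = jqModC (kA A) := coeffMap_jqModC _
  have htK : coeffMap (algebraMap A Kb) t = jqModC Kb := coeffMap_jqModC _
  have hXk : ∀ i, coeffMap (IsLocalRing.residue A) (X i) =
      coeffMap (Int.castRingHom (kA A)) (x i) := fun i => by
    rw [hX, coeffMap_coeffMap]
    exact coeffMap_congr (RingHom.ext_int _ _) _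
  have hXK : ∀ i, coeffMap (algebraMap A Kb) (X i) = coeffMap (Int.castRingHom Kb) (x i) :=
    fun i => by
      rw [hX, coeffMap_coeffMap]
      exact coeffMap_congr (RingHom.ext_int _ _) _
  have ht : Transcendental (IsLocalRing.ResidueField A) (coeffMap (IsLocalRing.residue A) t) := by
    rw [htk]
    exact red_transcendental_jqModC _
  have hind : ∀ c : Fin (dedekindPsi N) → LaurentSeries (IsLocalRing.ResidueField A),
      (∀ i, c i ∈ adjoin (IsLocalRing.ResidueField A) {coeffMap (IsLocalRing.residue A) t}) →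
      ∑ i, c i * coeffMap (IsLocalRing.residue A) (X i) = 0 → ∀ i, c i = 0 := by
    intro c hc hsum
    rw [htk] at hc
    simp_rw [hXk] at hsum
    have h0 := Fintype.linearIndependent_iff.mp hli (fun i => ⟨c i, hc i⟩) (by
      rw [← hsum]
      exact Finset.sum_congr rfl fun i _ => rfl)
    intro i
    exact congrArg Subtype.val (h0 i)
  have hindK := redF_indep X t ht hind
  have hliK : LinearIndependent (adjoin Kb {jqModC Kb})
      (fun i => coeffMap (Int.castRingHom Kb) (x i)) := by
    rw [Fintype.linearIndependent_iff]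
    intro g hg i
    have h1 := hindK (fun i => (g i : LaurentSeries Kb)) (fun i => by rw [htK]; exact (g i).2)
      (by
        simp_rw [hXK]
        rw [← hg]
        exact Finset.sum_congr rfl fun i _ => rfl) i
    exact Subtype.ext h1
  have hfin := UB.finrank_full_le Kb (NeZero.ne N)
    (fun r hr _ => @ub_modEq Kb _ r ⟨hr.ne_zero⟩ hr)
  have hm : ∀ i, coeffMap (Int.castRingHom Kb) (x i) ∈ modularFunctionFieldFullC Kb N :=
    fun i => redF_mem_full N Kb (hx i)
  have hYF : kronIncl A Y ∈ modularFunctionFieldFullC Kb N := by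
    rw [← G2.hdeg_laurentBaseChange_full]
    exact hY
  obtain ⟨c, hc, hfc⟩ := exists_coeffs_of_linearIndependent (UB.K0 Kb)
    (modularFunctionFieldFullC Kb N) (UB.K0_le_full Kb N) hfin.1 hfin.2
    (fun i => coeffMap (Int.castRingHom Kb) (x i)) hm hliK _ hYF
  obtain ⟨D, P, hD, hrel⟩ := int_exists_relation X t ht hind Y c (by rw [htK]; exact hc)
    (by simp_rw [hXK]; exact hfc)
  -- the relation in `ℚ̄((q))`
  have hrelK : aeval jBar (D.map (algebraMap A Kb)) * kronIncl A Y =
      ∑ i, aeval jBar ((P i).map (algebraMap A Kb)) * coeffMap (Int.castRingHom Kb) (x i) := by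
    have h1 := congrArg (coeffMap (algebraMap A Kb)) hrel
    rw [map_mul, map_sum] at h1
    simp_rw [map_mul, redDVR_coeffMap_aeval, htK, hXK] at h1
    rw [int_jBar_eq]
    exact h1
  -- the relation in `F_N`
  choose hxm hxi using fun i => int_kronInt_sigma_monomial N A σ hσ (hx i)
  have hco : ∀ p : Kb[X], ((aeval (jF N) p : FF N) : LaurentSeries Kb) = aeval jBar p := by
    intro p
    exact (Polynomial.aeval_algHom_apply (modularFunctionFieldBar N).val (jF N) p).symm
  have hrelF : aeval (jF N) (D.map (algebraMap A Kb)) * (⟨kronIncl A Y, hY⟩ : FF N) =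
      ∑ i, aeval (jF N) ((P i).map (algebraMap A Kb)) *
        (⟨coeffMap (Int.castRingHom Kb) (x i), hxm i⟩ : FF N) := by
    apply Subtype.ext
    have h1 : ((∑ i, aeval (jF N) ((P i).map (algebraMap A Kb)) *
        (⟨coeffMap (Int.castRingHom Kb) (x i), hxm i⟩ : FF N) : FF N) : LaurentSeries Kb) =
        ∑ i, aeval jBar ((P i).map (algebraMap A Kb)) * coeffMap (Int.castRingHom Kb) (x i) := by
      rw [← IntermediateField.coe_val, map_sum]
      refine Finset.sum_congr rfl fun i _ => ?_
      rw [map_mul, IntermediateField.coe_val, hco]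
    rw [h1, ← hrelK]
    show ((aeval (jF N) (D.map (algebraMap A Kb)) : FF N) : LaurentSeries Kb) * kronIncl A Y = _
    rw [hco]
  -- apply `σ`
  set J : LaurentSeries Kb := qExpand Kb N jBar with hJdef
  have hJ : KronInt A J := (kronInt_jBar A).qExpand N
  have hσa : ∀ p : Kb[X], σ (aeval (jF N) p) = aeval J p := by
    intro p
    rw [← Polynomial.aeval_algHom_apply, int_sigma_jF N σ hσ]
  have hrelσ : σ ⟨kronIncl A Y, hY⟩ * aeval J (D.map (algebraMap A Kb)) =
      ∑ i, aeval J ((P i).map (algebraMap A Kb)) *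
        σ ⟨coeffMap (Int.castRingHom Kb) (x i), hxm i⟩ := by
    have h1 := congrArg σ hrelF
    rw [map_mul, map_sum, hσa] at h1
    rw [mul_comm, h1]
    refine Finset.sum_congr rfl fun i _ => ?_
    rw [map_mul, hσa]
  have hY₁ : KronInt A (∑ i, aeval J ((P i).map (algebraMap A Kb)) *
      σ ⟨coeffMap (Int.castRingHom Kb) (x i), hxm i⟩) :=
    int_kronInt_sum A _ _ fun i _ => (int_kronInt_aeval A hJ (P i)).mul (hxi i)
  have hY₂ : KronPrim A (aeval J (D.map (algebraMap A Kb))) := int_kronPrim_aeval N A D hD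
  have hY₂0 : aeval J (D.map (algebraMap A Kb)) ≠ 0 := by
    intro h0
    obtain ⟨-, n, hn⟩ := hY₂
    apply hn
    rw [h0, HahnSeries.coeff_zero]
    exact (ValuationSubring.mem_nonunits_iff_exists_mem_maximalIdeal).2
      ⟨A.zero_mem, Ideal.zero_mem _⟩
  -- the monic relation
  obtain ⟨p, hp, hpz⟩ := hint
  have hz : Polynomial.eval₂ (Polynomial.aeval J).toRingHom (σ ⟨kronIncl A Y, hY⟩) p = 0 := by
    have hcomp1 : (modularFunctionFieldBar N).val.toRingHom.comp
        (Polynomial.aeval (R := Kb) (jF N)).toRingHom = (Polynomial.aeval jBar).toRingHom := by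
      apply RingHom.ext
      intro q
      exact hco q
    have hcomp2 : σ.toRingHom.comp (Polynomial.aeval (R := Kb) (jF N)).toRingHom =
        (Polynomial.aeval J).toRingHom := by
      apply RingHom.ext
      intro q
      exact hσa q
    have h1 := Polynomial.hom_eval₂ p (Polynomial.aeval (R := Kb) (jF N)).toRingHom
      (modularFunctionFieldBar N).val.toRingHom (⟨kronIncl A Y, hY⟩ : FF N)
    rw [hcomp1] at h1
    have h2 : Polynomial.eval₂ (Polynomial.aeval (R := Kb) (jF N)).toRingHom
        (⟨kronIncl A Y, hY⟩ : FF N) p = 0 := by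
      apply Subtype.ext
      exact h1.trans hpz
    have h3 := Polynomial.hom_eval₂ p (Polynomial.aeval (R := Kb) (jF N)).toRingHom
      σ.toRingHom (⟨kronIncl A Y, hY⟩ : FF N)
    rw [hcomp2, h2, map_zero] at h3
    exact h3.symm
  obtain ⟨c₀, hc₀, hcx⟩ := exists_kronInt_C_mul hArch hJ hY₁ hY₂.1 hY₂0 hrelσ p hp hz
  exact kronInt_of_bounded hArch hc₀ hcx hY₁ hY₂ hrelσ

/-- **(Int)** for all good `(N, ℓ, A)`. -/
theorem stmtIntAll : StmtIntAll := by
  intro N _ ℓ hℓ hℓN A hA
  exact stmtInt N A ℓ hℓ hℓN hA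

end Main

end Fermat.Agent.ES.I2

end
end ZBES_003_5

/-! ### bundled: `Fermat.Agent.ES.I2.IR` -/
section ZBES_003_6

/-!
# ES / I2 — piece (IR): reduction preserves integrality over the `j`-line  (helper59)

`stmtIRGlue : StmtEAll → StmtIntAll → StmtIRAll`.

`Y ∈ A((q)) ∩ F_N` integral over `ℚ̄[j]`.  Its minimal polynomial `μ` over `ℚ̄(j)` has coefficients
in `ℚ̄[j]` (`ℚ̄[j]` is integrally closed).  The `ψ(N)` embeddings `σ i : F_N → ℚ̄((Q))` of `(E)` are
all the embeddings over `ℚ̄(j)` (`bijective_comp_algebraicClosure`), so the roots of `μ` are the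
`σ i Y`, which are `A`-integral by `(Int)`; hence the coefficients `P(j)` of `μ` have
`P(j(Q^N)) ∈ A((Q))` (`ir_coeff_mem`), so `P ∈ A[X]` (`ir_exists_poly`).  Reduce `μ` modulo `𝔪_A`.
-/

set_option autoImplicit false
set_option linter.style.haveILetI false

noncomputable section

namespace Fermat.Agent.ES.I2

open ModularCurve AlgebraicCurve Polynomial IntermediateField Module
open Fermat.Agent.ES Fermat.Agent.S24 Fermat.Agent.S28 Fermat.Agent.ES.M Fermat.Agent.ES.LR

section Abstract

/-- a product of linear factors with roots in a subring has coefficients in the subring -/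
theorem ir_prod_coeff_mem {Ω : Type*} [Field Ω] (T : Subring Ω) (m : Multiset Ω)
    (hm : ∀ r ∈ m, r ∈ T) (n : ℕ) : ((m.map fun r => X - C r).prod).coeff n ∈ T := by
  have h : (m.map fun r => X - C r).prod ∈ (Polynomial.mapRingHom T.subtype).range := by
    apply Subring.multiset_prod_mem
    intro p hp
    rw [Multiset.mem_map] at hp
    obtain ⟨r, hr, rfl⟩ := hp
    refine ⟨X - C ⟨r, hm r hr⟩, ?_⟩
    simp
  obtain ⟨q, hq⟩ := h
  rw [← hq]
  simp only [coe_mapRingHom, coeff_map, Subring.subtype_apply]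
  exact (q.coeff n).2

/-- **Conjugates**: if all conjugates `σ i y` lie in a subring `S` of `Ω`, the coefficients of the
minimal polynomial of `y` lie in `S`. -/
theorem ir_coeff_mem {K0 L Ω : Type*} [Field K0] [Field L] [Field Ω] [Algebra K0 L]
    [FiniteDimensional K0 L] [Algebra.IsSeparable K0 L] {I : Type*} [Fintype I]
    (hcard : Fintype.card I = finrank K0 L) (ι : K0 →+* Ω) (σ : I → (L →+* Ω))
    (hσι : ∀ i x, σ i (algebraMap K0 L x) = ι x) (hσ : Function.Injective σ)
    (S : Subring Ω) (y : L) (hy : ∀ i, σ i y ∈ S) (n : ℕ) :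
    ι ((minpoly K0 y).coeff n) ∈ S := by
  letI : Algebra K0 Ω := ι.toAlgebra
  let σ' : I → (L →ₐ[K0] Ω) := fun i => { σ i with commutes' := fun x => hσι i x }
  have hσ' : Function.Injective σ' := fun i j h => hσ (by
    ext z
    exact congrArg (fun f : L →ₐ[K0] Ω => f z) h)
  have hbij := bijective_comp_algebraicClosure hcard σ' hσ'
  have halg : Algebra.IsAlgebraic K0 L := Algebra.IsAlgebraic.of_finite K0 L
  set T : Subring (AlgebraicClosure Ω) := S.map (algebraMap Ω (AlgebraicClosure Ω)) with hT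
  have hroots : ∀ r ∈ ((minpoly K0 y).map (algebraMap K0 (AlgebraicClosure Ω))).roots, r ∈ T := by
    intro r hr
    have h1 : r ∈ (minpoly K0 y).rootSet (AlgebraicClosure Ω) := by
      rw [Polynomial.rootSet, Polynomial.aroots]
      simpa using hr
    rw [← halg.range_eval_eq_rootSet_minpoly (AlgebraicClosure Ω) y] at h1
    obtain ⟨φ, rfl⟩ := h1
    obtain ⟨i, rfl⟩ := hbij.2 φ
    exact ⟨σ i y, hy i, rfl⟩
  have hmonic : ((minpoly K0 y).map (algebraMap K0 (AlgebraicClosure Ω))).Monic :=
    (minpoly.monic (Algebra.IsIntegral.isIntegral y)).map _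
  have hsplit := (IsAlgClosed.splits ((minpoly K0 y).map
    (algebraMap K0 (AlgebraicClosure Ω)))).eq_prod_roots_of_monic hmonic
  have h2 := ir_prod_coeff_mem T _ hroots n
  rw [← hsplit, Polynomial.coeff_map] at h2
  obtain ⟨s, hs, hs'⟩ := h2
  have h3 : algebraMap K0 (AlgebraicClosure Ω) ((minpoly K0 y).coeff n) =
      algebraMap Ω (AlgebraicClosure Ω) (ι ((minpoly K0 y).coeff n)) :=
    IsScalarTower.algebraMap_apply K0 Ω (AlgebraicClosure Ω) _
  rw [h3] at hs'
  have h4 := (algebraMap Ω (AlgebraicClosure Ω)).injective hs'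
  rw [← h4]
  exact hs

end Abstract

section Poly

variable (N : ℕ) [NeZero N] (A : ValuationSubring Kb)

/-- a polynomial `P` over `ℚ̄` with `P(j(Q^N))` integral has coefficients in `A` -/
theorem ir_exists_poly (P : Kb[X]) (h : KronInt A (aeval (qExpand Kb N jBar) P)) :
    ∃ P' : Polynomial A, P'.map (algebraMap A Kb) = P := by
  classical
  by_cases hP : P = 0
  · exact ⟨0, by rw [hP, Polynomial.map_zero]⟩
  -- clear denominators
  obtain ⟨c₁, hc₁0, hc₁A, hc₁⟩ := exists_common_denom (A := A) P.coeffs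
  have hl₁ : C c₁ * P ∈ Polynomial.lifts (algebraMap A Kb) := by
    rw [Polynomial.lifts_iff_coeff_lifts]
    intro n
    rw [Polynomial.coeff_C_mul]
    by_cases h0 : P.coeff n = 0
    · exact ⟨0, by rw [h0, mul_zero, map_zero]⟩
    · exact ⟨⟨_, hc₁ _ (Polynomial.coeff_mem_coeffs h0)⟩, rfl⟩
  obtain ⟨P₁, hP₁⟩ := (Polynomial.mem_lifts _).1 hl₁
  have hP₁0 : P₁ ≠ 0 := by
    rintro rfl
    rw [Polynomial.map_zero] at hP₁
    exact (mul_ne_zero (by rwa [Ne, Polynomial.C_eq_zero]) hP) hP₁.symm
  -- normalise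
  obtain ⟨a, P'', ha, hPP'', i, hprim'⟩ :=
    redF_exists_primitive A (fun _ : Unit => P₁) ⟨(), hP₁0⟩
  have hprim : (P'' ()).map (IsLocalRing.residue A) ≠ 0 := hprim'
  have haK : (a : Kb) ≠ 0 := fun h0 => ha (Subtype.ext h0)
  have hrel : P = C ((a : Kb) / c₁) * (P'' ()).map (algebraMap A Kb) := by
    have h1 : C c₁ * P = C (a : Kb) * (P'' ()).map (algebraMap A Kb) := by
      rw [← hP₁, hPP'' (), Polynomial.map_mul, Polynomial.map_C]
      rfl
    have h2 : C ((a : Kb) / c₁) * (P'' ()).map (algebraMap A Kb) =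
        C c₁⁻¹ * (C (a : Kb) * (P'' ()).map (algebraMap A Kb)) := by
      rw [← mul_assoc, ← C_mul, div_eq_inv_mul]
    rw [h2, ← h1, ← mul_assoc, ← C_mul, inv_mul_cancel₀ hc₁0, C_1, one_mul]
  -- the unit coefficient
  obtain ⟨hint, n, hn⟩ := int_kronPrim_aeval N A (P'' ()) hprim
  set v : Kb := (aeval (qExpand Kb N jBar) ((P'' ()).map (algebraMap A Kb))).coeff n with hv
  have hvA : v ∈ A := hint n
  have hvinv : v⁻¹ ∈ A := by
    by_contra hcon
    apply hn
    rw [ValuationSubring.mem_nonunits_iff]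
    have hv1 : A.valuation v ≤ 1 := (A.valuation_le_one_iff v).2 hvA
    rcases lt_or_eq_of_le hv1 with hlt | heq
    · exact hlt
    · exfalso
      apply hcon
      rw [← A.valuation_le_one_iff, map_inv₀, heq, inv_one]
  have hv0 : v ≠ 0 := by
    rintro h0
    apply hn
    rw [h0]
    exact (ValuationSubring.mem_nonunits_iff_exists_mem_maximalIdeal).2
      ⟨A.zero_mem, Ideal.zero_mem _⟩
  have hu : (a : Kb) / c₁ ∈ A := by
    have h3 := h n
    rw [hrel, map_mul, aeval_C, LaurentSeries.algebraMap_apply, HahnSeries.C_mul_eq_smul,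
      HahnSeries.coeff_smul, smul_eq_mul] at h3
    have h4 : (a : Kb) / c₁ = ((a : Kb) / c₁ * v) * v⁻¹ := by
      rw [mul_assoc, mul_inv_cancel₀ hv0, mul_one]
    rw [h4]
    exact A.mul_mem _ _ h3 hvinv
  refine ⟨C ⟨(a : Kb) / c₁, hu⟩ * P'' (), ?_⟩
  rw [Polynomial.map_mul, Polynomial.map_C, hrel]
  rfl

end Poly

section Main

variable (N : ℕ) [NeZero N] (A : ValuationSubring Kb)

/-- two embeddings with a type agree on `ℚ̄(j)` -/
theorem ir_agree (σ τ : FF N →ₐ[Kb] LaurentSeries Kb) (hσ : HasType N σ) (hτ : HasType N τ)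
    (x : Kb⟮jF N⟯) : σ (algebraMap Kb⟮jF N⟯ (FF N) x) = τ (algebraMap Kb⟮jF N⟯ (FF N) x) := by
  have h : σ.comp (IsScalarTower.toAlgHom Kb Kb⟮jF N⟯ (FF N)) =
      τ.comp (IsScalarTower.toAlgHom Kb Kb⟮jF N⟯ (FF N)) := by
    apply IntermediateField.adjoin_algHom_ext
    intro z hz
    rw [Set.mem_singleton_iff] at hz
    subst hz
    show σ (jF N) = τ (jF N)
    rw [int_sigma_jF N σ hσ, int_sigma_jF N τ hτ]
  exact DFunLike.congr_fun h x

/-- the relation over `A` and its reduction -/
theorem ir_reduce (Y : LaurentSeries A) (μA : Polynomial (Polynomial A))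
    (h : Polynomial.eval₂ (Polynomial.aeval jBar).toRingHom (kronIncl A Y)
      (μA.map (Polynomial.mapRingHom (algebraMap A Kb))) = 0) :
    Polynomial.eval₂ (Polynomial.aeval (jqModC (kA A))).toRingHom (kronRed A Y)
      (μA.map (Polynomial.mapRingHom (IsLocalRing.residue A))) = 0 := by
  have hcompK : (kronIncl A).comp (Polynomial.aeval (jqModC A)).toRingHom =
      (Polynomial.aeval jBar).toRingHom.comp (Polynomial.mapRingHom (algebraMap A Kb)) := by
    apply RingHom.ext
    intro P
    have h1 := redDVR_coeffMap_aeval (algebraMap A Kb) (jqModC A) P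
    rw [coeffMap_jqModC, ← int_jBar_eq] at h1
    exact h1
  have hcompk : (kronRed A).comp (Polynomial.aeval (jqModC A)).toRingHom =
      (Polynomial.aeval (jqModC (kA A))).toRingHom.comp
        (Polynomial.mapRingHom (IsLocalRing.residue A)) := by
    apply RingHom.ext
    intro P
    have h1 := redDVR_coeffMap_aeval (IsLocalRing.residue A) (jqModC A) P
    rw [coeffMap_jqModC] at h1
    exact h1
  have h0 : Polynomial.eval₂ (Polynomial.aeval (jqModC A)).toRingHom Y μA = 0 := by
    apply kronIncl_injective (A := A)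
    rw [map_zero, Polynomial.hom_eval₂, hcompK, ← Polynomial.eval₂_map]
    exact h
  have h1 := congrArg (kronRed A) h0
  rw [map_zero, Polynomial.hom_eval₂, hcompk, ← Polynomial.eval₂_map] at h1
  exact h1

/-- **(IR)** from `(E)` and `(Int)`. -/
theorem ir_stmtIR (hE : StmtE N) (hInt : StmtInt N A) : StmtIR N A := by
  intro Y hY hint
  obtain ⟨σ, hσinj, hσtype, i₀, -⟩ := hE
  -- the tower `ℚ̄[X] → ℚ̄(j) → F`
  haveI hfd : FiniteDimensional Kb⟮jF N⟯ (FF N) := H.finiteDimensional_adjoin_jF N
  haveI : CharZero Kb⟮jF N⟯ := charZero_of_injective_algebraMap (algebraMap Kb Kb⟮jF N⟯).injective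
  haveI : Algebra.IsAlgebraic Kb⟮jF N⟯ (FF N) := Algebra.IsAlgebraic.of_finite _ _
  haveI : PerfectField Kb⟮jF N⟯ := PerfectField.ofCharZero
  haveI : Algebra.IsSeparable Kb⟮jF N⟯ (FF N) :=
    Algebra.IsAlgebraic.isSeparable_of_perfectField
  letI := polyAlgebra (K := Kb) (jF N)
  letI := polyAlgebraAdjoin (K := Kb) (jF N)
  haveI := polyAlgebraAdjoin_tower (K := Kb) (jF N)
  haveI := polyAlgebraAdjoin_isFractionRing (K := Kb) (jF N) (transcendental_jF N)
  have hco : ∀ p : Kb[X], ((aeval (jF N) p : FF N) : LaurentSeries Kb) = aeval jBar p := by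
    intro p
    exact (Polynomial.aeval_algHom_apply (modularFunctionFieldBar N).val (jF N) p).symm
  have hcomp : (modularFunctionFieldBar N).val.toRingHom.comp (algebraMap Kb[X] (FF N)) =
      (Polynomial.aeval jBar).toRingHom := by
    apply RingHom.ext
    intro q
    exact hco q
  set y : FF N := ⟨kronIncl A Y, hY⟩ with hy
  -- `y` is integral over `ℚ̄[X]`
  have hyint : IsIntegral Kb[X] y := by
    obtain ⟨p, hp, hpz⟩ := hint
    refine ⟨p, hp, ?_⟩
    apply Subtype.ext
    have h1 := Polynomial.hom_eval₂ p (algebraMap Kb[X] (FF N))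
      (modularFunctionFieldBar N).val.toRingHom y
    rw [hcomp] at h1
    exact h1.trans hpz
  have hmin : minpoly Kb⟮jF N⟯ y = (minpoly Kb[X] y).map (algebraMap Kb[X] Kb⟮jF N⟯) :=
    minpoly.isIntegrallyClosed_eq_field_fractions' Kb⟮jF N⟯ hyint
  -- the conjugates
  have hcard : Fintype.card (Fin (dedekindPsi N)) = finrank Kb⟮jF N⟯ (FF N) := by
    rw [Fintype.card_fin, INJ.hmMem_finrank_jF]
  have hcoef : ∀ n, KronInt A (aeval (qExpand Kb N jBar) ((minpoly Kb[X] y).coeff n)) := by
    intro n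
    have h1 := ir_coeff_mem hcard
      ((σ i₀).toRingHom.comp (algebraMap Kb⟮jF N⟯ (FF N)))
      (fun i => (σ i).toRingHom)
      (fun i x => ir_agree N (σ i) (σ i₀) (hσtype i) (hσtype i₀) x)
      (fun i j hij => hσinj (AlgHom.ext fun z =>
        congrArg (fun f : FF N →+* LaurentSeries Kb => f z) hij))
      (intSub A) y (fun i => mem_intSub.2 (hInt (σ i) (hσtype i) Y hY hint)) n
    rw [mem_intSub, hmin, Polynomial.coeff_map] at h1
    have h2 : ((σ i₀).toRingHom.comp (algebraMap Kb⟮jF N⟯ (FF N)))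
        (algebraMap Kb[X] Kb⟮jF N⟯ ((minpoly Kb[X] y).coeff n)) =
        aeval (qExpand Kb N jBar) ((minpoly Kb[X] y).coeff n) := by
      show σ i₀ (algebraMap Kb⟮jF N⟯ (FF N) (algebraMap Kb[X] Kb⟮jF N⟯ _)) = _
      rw [← IsScalarTower.algebraMap_apply Kb[X] Kb⟮jF N⟯ (FF N)]
      show σ i₀ (aeval (jF N) _) = _
      rw [← Polynomial.aeval_algHom_apply, int_sigma_jF N (σ i₀) (hσtype i₀)]
    rw [h2] at h1
    exact h1
  -- lift the minimal polynomial to `A[X][T]`
  have hlift : minpoly Kb[X] y ∈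
      Polynomial.lifts (Polynomial.mapRingHom (algebraMap A Kb)) := by
    rw [Polynomial.lifts_iff_coeff_lifts]
    intro n
    obtain ⟨P', hP'⟩ := ir_exists_poly N A _ (hcoef n)
    exact ⟨P', hP'⟩
  obtain ⟨μA, hμA, -, hμAmonic⟩ :=
    Polynomial.lifts_and_degree_eq_and_monic hlift (minpoly.monic hyint)
  refine ⟨μA.map (Polynomial.mapRingHom (IsLocalRing.residue A)), hμAmonic.map _, ?_⟩
  apply ir_reduce A Y μA
  rw [hμA]
  have h1 := Polynomial.hom_eval₂ (minpoly Kb[X] y) (algebraMap Kb[X] (FF N))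
    (modularFunctionFieldBar N).val.toRingHom y
  rw [hcomp] at h1
  have h2 : Polynomial.eval₂ (algebraMap Kb[X] (FF N)) y (minpoly Kb[X] y) = 0 :=
    minpoly.aeval Kb[X] y
  rw [h2, map_zero] at h1
  exact h1.symm

/-- piece `I2-IR` -/
theorem stmtIRGlue : StmtIRGlue := by
  intro hE hInt N _ ℓ hℓ hℓN A hA
  exact ir_stmtIR N A (hE N) (hInt N ℓ hℓ hℓN A hA)

end Main

end Fermat.Agent.ES.I2

end
end ZBES_003_6

/-! ### bundled: `Fermat.Agent.ES.I2.Tau` -/
section ZBES_003_7

/-!
# ES / I2, piece Tau: the reduced embeddings `τ_i = R σ_i : F_k → k((Q))`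

`stmtTauGlue : StmtTauGlue` (= `StmtEAll → StmtRegAll → StmtIntAll → StmtRedAll → StmtTauAll`).
-/

set_option autoImplicit false

noncomputable section

namespace Fermat.Agent.ES.I2

open ModularCurve AlgebraicCurve Fermat.Agent.ES Fermat.Agent.S24 Fermat.Agent.ES.M

section Aux

variable (N : ℕ) [NeZero N]

/-- poles only at cusps ⇒ integral over `ℚ̄[j]`, in the explicit form -/
theorem tau_intJ_of_polesAtCusps (x : FF N) (hx : PolesAtCusps N x) :
    IntJ jBar (x : LaurentSeries Kb) := by
  let _ := polyAlgebra (K := Kb) (jF N)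
  obtain ⟨p, hp, hpz⟩ := Fermat.Agent.ES.LR.lr_isIntegral N x hx
  have hcomp : (modularFunctionFieldBar N).val.toRingHom.comp (algebraMap (Polynomial Kb) (FF N)) =
      (Polynomial.aeval jBar).toRingHom := by
    have h1 : (Polynomial.aeval (R := Kb) jBar) =
        (modularFunctionFieldBar N).val.comp (Polynomial.aeval (jF N)) :=
      Polynomial.aeval_algHom (modularFunctionFieldBar N).val (jF N)
    rw [h1]
    rfl
  refine ⟨p, hp, ?_⟩
  have h1 := Polynomial.hom_eval₂ p (algebraMap (Polynomial Kb) (FF N))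
    (modularFunctionFieldBar N).val.toRingHom x
  rw [hpz, map_zero, hcomp] at h1
  exact h1.symm

omit [NeZero N] in
/-- the polynomial of the cuspidal norm relation -/
def tauPoly (ψ : ℕ) (a : ℕ → ℕ → Kb) : Polynomial (Polynomial Kb) :=
  Polynomial.X ^ ψ + ∑ j ∈ Finset.Icc 1 ψ,
    Polynomial.C (∑ i ∈ Finset.range j, Polynomial.C (a j i) * Polynomial.X ^ i) *
      Polynomial.X ^ (ψ - j)

theorem tauPoly_monic (ψ : ℕ) (a : ℕ → ℕ → Kb) : (tauPoly ψ a).Monic := by
  classical
  refine Polynomial.monic_X_pow_add ?_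
  refine lt_of_le_of_lt (Polynomial.degree_sum_le _ _) ?_
  refine (Finset.sup_lt_iff (WithBot.bot_lt_coe ψ)).2 ?_
  intro j hj
  rw [Finset.mem_Icc] at hj
  refine lt_of_le_of_lt (Polynomial.degree_C_mul_X_pow_le _ _) ?_
  exact WithBot.coe_lt_coe.2 (by omega : ψ - j < ψ)

theorem tau_eval₂_tauPoly (ψ : ℕ) (a : ℕ → ℕ → Kb) (J z : LaurentSeries Kb) :
    (tauPoly ψ a).eval₂ (Polynomial.aeval J).toRingHom z =
      z ^ ψ + ∑ j ∈ Finset.Icc 1 ψ,
        (∑ i ∈ Finset.range j, HahnSeries.C (a j i) * J ^ i) * z ^ (ψ - j) := by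
  rw [tauPoly, Polynomial.eval₂_add, Polynomial.eval₂_X_pow, Polynomial.eval₂_finsetSum]
  congr 1
  refine Finset.sum_congr rfl fun j _ => ?_
  rw [Polynomial.eval₂_mul, Polynomial.eval₂_C, Polynomial.eval₂_X_pow]
  congr 1
  show Polynomial.aeval J _ = _
  rw [map_sum]
  refine Finset.sum_congr rfl fun i _ => ?_
  rw [map_mul, Polynomial.aeval_C, map_pow, Polynomial.aeval_X, algebraMap_eq_hahnC]

omit [NeZero N] in
/-- the norm relation of a cusp form is a monic relation over `ℚ̄[j]` -/
theorem tau_intJ_of_cuspRel {x : LaurentSeries Kb} (hx : CuspRel N x) : IntJ jBar x := by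
  obtain ⟨a, ha⟩ := hx
  exact ⟨tauPoly (dedekindPsi N) a, tauPoly_monic _ a, (tau_eval₂_tauPoly _ a jBar x).trans ha⟩

/-- an algebra embedding of `F_N` transports polynomial relations over `ℚ̄[j]` -/
theorem tau_eval₂_algHom (σ : FF N →ₐ[Kb] LaurentSeries Kb) (x : FF N)
    (p : Polynomial (Polynomial Kb))
    (h : p.eval₂ (Polynomial.aeval jBar).toRingHom (x : LaurentSeries Kb) = 0) :
    p.eval₂ (Polynomial.aeval (σ (jF N))).toRingHom (σ x) = 0 := by
  have hval : ∀ (φ : FF N →ₐ[Kb] LaurentSeries Kb),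
      p.eval₂ (Polynomial.aeval (φ (jF N))).toRingHom (φ x) =
        φ (p.eval₂ (Polynomial.aeval (jF N)).toRingHom x) := by
    intro φ
    have h1 := Polynomial.hom_eval₂ p (Polynomial.aeval (R := Kb) (jF N)).toRingHom
      φ.toRingHom x
    have h2 : φ.toRingHom.comp (Polynomial.aeval (R := Kb) (jF N)).toRingHom =
        (Polynomial.aeval (φ (jF N))).toRingHom := by
      have h3 : (Polynomial.aeval (R := Kb) (φ (jF N))) = φ.comp (Polynomial.aeval (jF N)) :=
        Polynomial.aeval_algHom φ (jF N)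
      rw [h3]
      rfl
    rw [h2] at h1
    exact h1.symm
  have h0 : p.eval₂ (Polynomial.aeval (jF N)).toRingHom x = 0 := by
    have h1 := hval (modularFunctionFieldBar N).val
    have h2 : (modularFunctionFieldBar N).val (jF N) = jBar := rfl
    have h3 : (modularFunctionFieldBar N).val x = (x : LaurentSeries Kb) := rfl
    rw [h2, h3, h] at h1
    exact (modularFunctionFieldBar N).val.injective (h1.symm.trans (map_zero _).symm)
  rw [hval σ, h0, map_zero]

/-- `σ j = j(Q^N)` for an embedding with a type -/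
theorem tau_sigma_jF {σ : FF N →ₐ[Kb] LaurentSeries Kb} (hσ : HasType N σ) :
    σ (jF N) = qExpand Kb N jBar := by
  obtain ⟨a, δ, m, c, h1, h2, h3, h4⟩ := hσ 1 (one_dvd N)
  have ha : a = 1 := Nat.eq_one_of_mul_eq_one_right h1
  have hδ : δ = 1 := Nat.eq_one_of_mul_eq_one_left h1
  subst ha hδ
  rw [mul_one, mul_one] at h2
  subst h2
  rw [pow_one] at h3
  subst h3
  rw [jdF_one] at h4
  rw [h4, substQ_eq, kronRot_one]

omit [NeZero N] in
/-- `ord_Q j(Q^N) = -N` -/
theorem tau_qExpand_jBar_coeff [NeZero N] (m : ℤ) (hm : m < -(N : ℤ)) :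
    (qExpand Kb N jBar).coeff m = 0 := by
  by_cases hdvd : (N : ℤ) ∣ m
  · obtain ⟨t, rfl⟩ := hdvd
    rw [qExpand_coeff_mul]
    apply jBar_coeff_of_lt
    have hN : (0 : ℤ) < N := by exact_mod_cast Nat.pos_of_ne_zero (NeZero.ne N)
    by_contra hcon
    rw [not_lt] at hcon
    have : -(N : ℤ) ≤ (N : ℤ) * t := by nlinarith
    omega
  · exact qExpand_coeff_of_not_dvd N _ hdvd

end Aux

section Models

variable (N : ℕ) [NeZero N] (A : ValuationSubring Kb)

/-- `j(q^d)` with coefficients in `A` -/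
def tauJd (d : ℕ) [NeZero d] : LaurentSeries A :=
  coeffMap (Int.castRingHom A) (qExpand ℤ d (jqModC ℤ))

theorem kronIncl_tauJd (d : ℕ) [NeZero d] : kronIncl A (tauJd A d) = jdBar d := by
  have h1 : kronIncl A (tauJd A d) =
      coeffMap (A.subtype.comp (Int.castRingHom A)) (qExpand ℤ d (jqModC ℤ)) := by
    rw [tauJd]
    exact (coeffMap_coeffMap _ _ _)
  have h2 : jdBar d = coeffMap (algebraMap ℚ Kb) (qExpand ℚ d (jqModC ℚ)) := rfl
  rw [h1, h2, RingHom.ext_int (A.subtype.comp (Int.castRingHom A)) (Int.castRingHom Kb),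
    coeffMap_qExpand_comm, coeffMap_jqModC, coeffMap_qExpand_comm, coeffMap_jqModC]

theorem kronRed_tauJd (d : ℕ) [NeZero d] :
    kronRed A (tauJd A d) = qExpand (kA A) d (jqModC (kA A)) := by
  have h1 : kronRed A (tauJd A d) =
      coeffMap ((IsLocalRing.residue A).comp (Int.castRingHom A)) (qExpand ℤ d (jqModC ℤ)) := by
    rw [tauJd]
    exact (coeffMap_coeffMap _ _ _)
  rw [h1, coeffMap_qExpand_comm, coeffMap_jqModC]

theorem kronIncl_qExpand (n : ℕ) [NeZero n] (Y : LaurentSeries A) :
    kronIncl A (qExpand A n Y) = qExpand Kb n (kronIncl A Y) :=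
  coeffMap_qExpand_comm _ _ _

theorem kronRed_qExpand (n : ℕ) [NeZero n] (Y : LaurentSeries A) :
    kronRed A (qExpand A n Y) = qExpand (kA A) n (kronRed A Y) :=
  coeffMap_qExpand_comm _ _ _

omit [NeZero N] in
theorem tau_coeff_eq_zero_of_kronIncl {Z : LaurentSeries A} {m : ℤ}
    (h : (kronIncl A Z).coeff m = 0) : (kronRed A Z).coeff m = 0 := by
  rw [coeffMap_coeff] at h ⊢
  have : Z.coeff m = 0 := Subtype.ext h
  rw [this, map_zero]

end Models

/-- **piece I2-Tau** -/
theorem stmtTauGlue : StmtTauGlue := by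
  intro hE hReg hInt hRed N _ ℓ hℓ hℓN A hA
  obtain ⟨σ, hσinj, hσtype, i₀, hi₀⟩ := hE N
  obtain ⟨R, hRcompat, hRinj⟩ := hRed N ℓ hℓ hℓN A hA
  have hInt' := hInt N ℓ hℓ hℓN A hA
  have hReg' := hReg N
  refine ⟨fun i => R (σ i), i₀, ⟨?_, ?_, ?_, ?_, ?_⟩⟩
  · intro i i' h
    exact hσinj (hRinj _ _ (hσtype i) (hσtype i') h)
  · -- `τ i₀` is the expansion at `∞`
    refine IntermediateField.algHom_ext_of_eq_adjoin (kA A) (rfl :
      modularFunctionFieldFullC (kA A) N = IntermediateField.adjoin (kA A)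
        (divisorExpansionsC (kA A) N)) ?_
    rintro x ⟨d, hdne, hd, rfl⟩
    have := hdne
    have hY : kronIncl A (tauJd A d) ∈ modularFunctionFieldBar N := by
      rw [kronIncl_tauJd]
      exact jdBar_mem N d hd
    have hYk : kronRed A (tauJd A d) ∈ modularFunctionFieldFullC (kA A) N := by
      rw [kronRed_tauJd]
      exact jqModCd_mem_full _ N hd
    have h1 := hRcompat (σ i₀) (hσtype i₀) (tauJd A d) (qExpand A N (tauJd A d)) hY hYk (by
      rw [hi₀, iotaN_apply, kronIncl_qExpand])
    have h2 : (⟨kronRed A (tauJd A d), hYk⟩ : ↥(modularFunctionFieldFullC (kA A) N)) =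
        ⟨qExpand (kA A) d (jqModC (kA A)), jqModCd_mem_full _ N hd⟩ :=
      Subtype.ext (kronRed_tauJd A d)
    rw [h2] at h1
    show R (σ i₀) ⟨qExpand (kA A) d (jqModC (kA A)), _⟩ = iotaK (kA A) N ⟨_, _⟩
    rw [h1, iotaK_apply, kronRed_qExpand, kronRed_tauJd]
  · -- `τ i j̄ = j̄(Q^N)`
    intro i
    have hY : kronIncl A (tauJd A 1) ∈ modularFunctionFieldBar N := by
      rw [kronIncl_tauJd]
      exact jdBar_mem N 1 (one_dvd N)
    have hYk : kronRed A (tauJd A 1) ∈ modularFunctionFieldFullC (kA A) N := by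
      rw [kronRed_tauJd]
      exact jqModCd_mem_full _ N (one_dvd N)
    have hj : (⟨kronIncl A (tauJd A 1), hY⟩ : FF N) = jF N := by
      rw [← jdF_one]
      exact Subtype.ext (kronIncl_tauJd A 1)
    have h1 := hRcompat (σ i) (hσtype i) (tauJd A 1) (qExpand A N (tauJd A 1)) hY hYk (by
      rw [hj, tau_sigma_jF N (hσtype i), kronIncl_qExpand, kronIncl_tauJd]
      have : jdBar 1 = jBar := by
        show coeffEmb Kb (qExpand ℚ 1 jq) = coeffEmb Kb jq
        rw [qExpand_one_apply]
      rw [this])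
    have h2 : (⟨kronRed A (tauJd A 1), hYk⟩ : ↥(modularFunctionFieldFullC (kA A) N)) =
        ⟨jqModC (kA A), jqModC_mem_full (kA A) N⟩ :=
      Subtype.ext ((kronRed_tauJd A 1).trans (qExpand_one_apply _))
    rw [h2] at h1
    rw [h1, kronRed_qExpand, kronRed_tauJd, qExpand_one_apply]
  · -- regularity at the other cusps
    intro i hi s hs hsF m hm
    obtain ⟨Y, hY, hreg, rfl⟩ := hs
    have hIntJ := tau_intJ_of_polesAtCusps N ⟨kronIncl A Y, hY⟩ hreg.polesAtCusps
    obtain ⟨Z, hZ⟩ := (hInt' (σ i) (hσtype i) Y hY hIntJ).exists_lift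
    have hne : σ i ≠ iotaN N := fun h => hi (hσinj (h.trans hi₀.symm))
    rw [hRcompat (σ i) (hσtype i) Y Z hY hsF hZ.symm]
    apply tau_coeff_eq_zero_of_kronIncl
    rw [hZ]
    exact hReg' (σ i) (hσtype i) hne ⟨kronIncl A Y, hY⟩ hreg m hm
  · -- the cuspidal norm relation
    intro i Y hY hYk hcusp m hm
    have hIntJ := tau_intJ_of_cuspRel N hcusp
    obtain ⟨Z, hZ⟩ := (hInt' (σ i) (hσtype i) Y hY hIntJ).exists_lift
    rw [hRcompat (σ i) (hσtype i) Y Z hY hYk hZ.symm]
    apply tau_coeff_eq_zero_of_kronIncl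
    rw [hZ]
    obtain ⟨a, ha⟩ := hcusp
    have hrel := tau_eval₂_algHom N (σ i) ⟨kronIncl A Y, hY⟩ (tauPoly (dedekindPsi N) a)
      ((tau_eval₂_tauPoly _ a jBar _).trans ha)
    rw [tau_eval₂_tauPoly, tau_sigma_jF N (hσtype i)] at hrel
    exact tau_newton N (Nat.pos_of_ne_zero (NeZero.ne N)) (qExpand Kb N jBar)
      (σ i ⟨kronIncl A Y, hY⟩) (tau_qExpand_jBar_coeff N) (dedekindPsi N) a hrel m hm

end Fermat.Agent.ES.I2

end
end ZBES_003_7

/-! ### bundled: `Fermat.Agent.ES.I2.S2` -/
section ZBES_003_8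

/-!
# ES-I2, piece I2-S2: the elements of `W` are integral over `k[j̄]`, and `τ_i W ⊆ k[[Q]]`

* `s2_intJ_of_isIntegral_adjoin` : transitivity of integrality in the explicit form `IntJ`.
* `s2_intJ_of_regOut` : a function regular outside `∞` is `IntJ` over `ℚ̄[j]` (Lemma R).
* `stmtS2_of` : `StmtIR N A → StmtRedF N A → StmtS2 N A`.
* `stmtS2Glue : StmtS2Glue` (`= StmtIRAll → StmtS2All`).
-/

set_option autoImplicit false
set_option linter.unusedSectionVars false
set_option linter.style.haveILetI false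
set_option synthInstance.maxHeartbeats 400000

noncomputable section

namespace Fermat.Agent.ES.I2

open ModularCurve AlgebraicCurve Polynomial
open Fermat.Agent.ES Fermat.Agent.S24 Fermat.Agent.ES.M

/-! ### `IntJ` and integrality -/

section Generic

variable {K : Type*} [Field K]

/-- constants are `IntJ` -/
theorem s2_intJ_algebraMap (x : LaurentSeries K) (c : K) :
    IntJ x (algebraMap K (LaurentSeries K) c) := by
  refine ⟨X - C (C c), monic_X_sub_C _, ?_⟩
  rw [eval₂_sub, eval₂_X, eval₂_C]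
  show _ - Polynomial.aeval x (C c) = 0
  rw [aeval_C, sub_self]

/-- **transitivity**: an element integral over a `K`-subalgebra generated by `IntJ` elements is
`IntJ`. -/
theorem s2_intJ_of_isIntegral_adjoin (x : LaurentSeries K) (S : Set (LaurentSeries K))
    (hS : ∀ s ∈ S, IntJ x s) (w : LaurentSeries K) (hw : IsIntegral (Algebra.adjoin K S) w) :
    IntJ x w := by
  letI alg : Algebra K[X] (LaurentSeries K) := (Polynomial.aeval x).toRingHom.toAlgebra
  have hC : ∀ z ∈ Algebra.adjoin K S, IsIntegral K[X] z := by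
    intro z hz
    induction hz using Algebra.adjoin_induction with
    | mem s hs => exact hS s hs
    | algebraMap c => exact s2_intJ_algebraMap x c
    | add a b _ _ ha hb => exact ha.add hb
    | mul a b _ _ ha hb => exact ha.mul hb
  obtain ⟨p, hp, hpw⟩ := hw
  let φ : Algebra.adjoin K S →+* integralClosure K[X] (LaurentSeries K) :=
    { toFun := fun z => ⟨(z : LaurentSeries K), hC z z.2⟩
      map_one' := rfl
      map_mul' := fun _ _ => rfl
      map_zero' := rfl
      map_add' := fun _ _ => rfl }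
  have h1 : IsIntegral (integralClosure K[X] (LaurentSeries K)) w := by
    refine ⟨p.map φ, hp.map φ, ?_⟩
    rw [eval₂_map]
    exact hpw
  exact isIntegral_trans (R := K[X]) w h1

end Generic

/-! ### The functions regular outside `∞` -/

section Modular

variable (N : ℕ) [NeZero N] (A : ValuationSubring Kb)

/-- a function regular outside the cusp `∞` is integral over `ℚ̄[j]` (Lemma R). -/
theorem s2_intJ_of_regOut (x : FF N) (hx : RegOut N x) : IntJ jBar (x : LaurentSeries Kb) := by
  have h := Fermat.Agent.ES.LR.lr_isIntegral N x hx.polesAtCusps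
  letI := polyAlgebra (K := Kb) (jF N)
  obtain ⟨p, hp, hpx⟩ := h
  refine ⟨p, hp, ?_⟩
  have h1 := congrArg ((modularFunctionFieldBar N).val : FF N → LaurentSeries Kb) hpx
  rw [map_zero] at h1
  rw [← h1]
  have h2 := Polynomial.hom_eval₂ p (algebraMap Kb[X] (FF N))
    ((modularFunctionFieldBar N).val : FF N →+* LaurentSeries Kb) x
  rw [RingHom.coe_coe] at h2
  rw [h2]
  congr 1
  refine Polynomial.ringHom_ext (fun a => ?_) ?_
  · show Polynomial.aeval jBar (C a) =
      (((Polynomial.aeval (jF N) (C a) : FF N)) : LaurentSeries Kb)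
    rw [aeval_C, aeval_C]
    rfl
  · show Polynomial.aeval jBar (X : Kb[X]) =
      (((Polynomial.aeval (jF N) (X : Kb[X]) : FF N)) : LaurentSeries Kb)
    rw [aeval_X, aeval_X]
    rfl

variable {N A}

theorem s2_redR_intJ (hIR : StmtIR N A) {s : LaurentSeries (kA A)} (hs : s ∈ redR N A) :
    IntJ (jqModC (kA A)) s := by
  obtain ⟨Y, hY, hreg, rfl⟩ := hs
  exact hIR Y hY (s2_intJ_of_regOut N ⟨kronIncl A Y, hY⟩ hreg)

/-- **(S2), first half** -/
theorem s2_intJ_of_inW (hIR : StmtIR N A) (w : LaurentSeries (kA A)) (hw : InW N A w) :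
    IntJ (jqModC (kA A)) w :=
  s2_intJ_of_isIntegral_adjoin _ (redR N A) (fun _ hs => s2_redR_intJ hIR hs) w hw.2

end Modular

/-! ### `k[[Q]]` is integrally closed in `k((Q))` -/

section PowerSeries

variable {K : Type*} [Field K]

theorem s2_val_le_one_iff (f : LaurentSeries K) :
    Valued.v f ≤ (1 : WithZero (Multiplicative ℤ)) ↔ ∀ m : ℤ, m < 0 → f.coeff m = 0 := by
  have h := LaurentSeries.valuation_le_iff_coeff_lt_eq_zero K (D := 0) (f := f)
  simpa using h

/-- a ring homomorphism into `k((Q))` that sends a subring into `k[[Q]]` sends the elements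
integral over the subring into `k[[Q]]`. -/
theorem s2_val_le_one_of_isIntegral {T : Type*} [CommRing T] (ψ : T →+* LaurentSeries K)
    (hψ : ∀ z : T, Valued.v (ψ z) ≤ (1 : WithZero (Multiplicative ℤ)))
    (x : LaurentSeries K) (p : Polynomial T) (hp : p.Monic) (hx : p.eval₂ ψ x = 0) :
    Valued.v x ≤ (1 : WithZero (Multiplicative ℤ)) := by
  set v : Valuation (LaurentSeries K) (WithZero (Multiplicative ℤ)) := Valued.v with hv
  let φ : T →+* v.integer := ψ.codRestrict v.integer (fun z => hψ z)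
  have h1 : IsIntegral v.integer x := by
    refine ⟨p.map φ, hp.map φ, ?_⟩
    rw [eval₂_map]
    exact hx
  exact (Valuation.integer.integers v).isIntegral_iff_v_le_one.mp h1

end PowerSeries

section GenericTau

variable {K : Type*} [Field K]

/-- generic form of the second half of (S2). -/
theorem s2_tau_generic (F : IntermediateField K (LaurentSeries K))
    (τ : F →ₐ[K] LaurentSeries K) (S : Set (LaurentSeries K)) (hSF : ∀ s ∈ S, s ∈ F)
    (hreg : ∀ s (_ : s ∈ S) (hsF : s ∈ F), ∀ m : ℤ, m < 0 → (τ ⟨s, hsF⟩).coeff m = 0)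
    (w : LaurentSeries K) (hwF : w ∈ F) (hw : IsIntegral (Algebra.adjoin K S) w)
    (m : ℤ) (hm : m < 0) : (τ ⟨w, hwF⟩).coeff m = 0 := by
  set v : Valuation (LaurentSeries K) (WithZero (Multiplicative ℤ)) := Valued.v with hv
  have hle : Algebra.adjoin K S ≤ F.toSubalgebra := Algebra.adjoin_le hSF
  let incl : Algebra.adjoin K S →+* F :=
    { toFun := fun z => ⟨(z : LaurentSeries K), hle z.2⟩
      map_one' := rfl
      map_mul' := fun _ _ => rfl
      map_zero' := rfl
      map_add' := fun _ _ => rfl }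
  let ψ : Algebra.adjoin K S →+* LaurentSeries K := (τ : F →+* LaurentSeries K).comp incl
  let OF : Subalgebra K F :=
    { carrier := {z | v (τ z) ≤ 1}
      mul_mem' := fun {a b} ha hb => by
        show v (τ (a * b)) ≤ 1
        rw [map_mul, v.map_mul]
        exact mul_le_one' ha hb
      add_mem' := fun {a b} ha hb => by
        show v (τ (a + b)) ≤ 1
        rw [map_add]
        exact (v.map_add _ _).trans (max_le ha hb)
      algebraMap_mem' := fun c => by
        show v (τ (algebraMap K F c)) ≤ 1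
        rw [τ.commutes, hv, s2_val_le_one_iff]
        intro m hm
        rw [algebraMap_eq_hahnC, HahnSeries.C_apply, HahnSeries.coeff_single_of_ne hm.ne] }
  have hOF : Algebra.adjoin K S ≤ OF.map F.val := by
    refine Algebra.adjoin_le ?_
    intro s hs
    refine ⟨⟨s, hSF s hs⟩, ?_, rfl⟩
    show v (τ ⟨s, hSF s hs⟩) ≤ 1
    rw [hv, s2_val_le_one_iff]
    exact hreg s hs (hSF s hs)
  have hψ : ∀ z : Algebra.adjoin K S, v (ψ z) ≤ 1 := by
    rintro ⟨z, hz⟩
    obtain ⟨z', hz', hzz⟩ := hOF hz
    have h1 : incl ⟨z, hz⟩ = z' := Subtype.ext hzz.symm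
    show v (τ (incl ⟨z, hz⟩)) ≤ 1
    rw [h1]
    exact hz'
  obtain ⟨p, hp, hpw⟩ := hw
  have hx : p.eval₂ ψ (τ ⟨w, hwF⟩) = 0 := by
    have h2 : p.eval₂ incl (⟨w, hwF⟩ : F) = 0 := by
      apply Subtype.ext
      have h3 := Polynomial.hom_eval₂ p incl (algebraMap F (LaurentSeries K)) ⟨w, hwF⟩
      exact h3.trans hpw
    have h4 := Polynomial.hom_eval₂ p incl (τ : F →+* LaurentSeries K) ⟨w, hwF⟩
    rw [h2, map_zero] at h4
    exact h4.symm
  exact (s2_val_le_one_iff _).mp (s2_val_le_one_of_isIntegral ψ hψ _ p hp hx) m hm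

end GenericTau

section Modular2

variable {N : ℕ} [NeZero N] {A : ValuationSubring Kb}

/-- **(S2), second half** -/
theorem s2_tau_coeff (hRF : StmtRedF N A)
    (τ : Fin (dedekindPsi N) →
      (↥(modularFunctionFieldFullC (kA A) N) →ₐ[kA A] LaurentSeries (kA A)))
    (i₀ : Fin (dedekindPsi N)) (hτ : IsTau N A τ i₀)
    (w : LaurentSeries (kA A)) (hw : InW N A w) (i : Fin (dedekindPsi N)) (hi : i ≠ i₀)
    (m : ℤ) (hm : m < 0) : (τ i ⟨w, hw.1⟩).coeff m = 0 := by
  refine s2_tau_generic (modularFunctionFieldFullC (kA A) N) (τ i) (redR N A) ?_ ?_ w hw.1 hw.2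
    m hm
  · rintro s ⟨Y, hY, -, rfl⟩
    exact hRF Y hY
  · intro s hs hsF m hm
    exact hτ.reg i hi s hs hsF m hm

/-- `(IR) ⇒ (S2)` at one level -/
theorem stmtS2_of (hIR : StmtIR N A) (hRF : StmtRedF N A) : StmtS2 N A :=
  ⟨fun w hw => s2_intJ_of_inW hIR w hw,
    fun τ i₀ hτ w hw i hi m hm => s2_tau_coeff hRF τ i₀ hτ w hw i hi m hm⟩

end Modular2

/-- piece `I2-S2` -/
theorem stmtS2Glue : StmtS2Glue := by
  intro hIR N _ ℓ hℓ hℓN A hA
  exact stmtS2_of (hIR N ℓ hℓ hℓN A hA) (Fermat.Agent.ES.M.stmtRedF N A ℓ hℓ hℓN hA)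

end Fermat.Agent.ES.I2

end
end ZBES_003_8

/-! ### bundled: `Fermat.Agent.ES.M.LemmaW` -/
section ZBES_003_9

/-!
# ES / M — route 2, glue piece LW: divisors `div f / p`, the spaces `L(D + n ∞)` and Lemma W

`stmtLWApi : StmtLWApi` — for every `N`, `A` the calculus `GRApi N A` of the Gauss reduction gives
the API `LWApi N A`:

* `lw_exists_div`   : the divisor `div f / p` (degree `0`);
* `lw_regOut`       : `b ∈ L(div f / p + n ∞)` ⇒ `b ^ p * f` is regular outside `∞` and has pole
  order `≤ p n` at `∞`;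
* `lw_mem_Wn`       : **Lemma W** — if moreover `f ≡ 1`, the reduction of `b` lies in `W_n`;
* `lw_exists_indep` : Riemann's inequality gives `deg D + 1 - g` independent elements of `L(D)`;
* `lw_rr_finite`    : `L(D)` is finite-dimensional.
-/

set_option autoImplicit false

noncomputable section

namespace Fermat.Agent.ES.M

open ModularCurve AlgebraicCurve HahnSeries Fermat.Agent.ES Fermat.Agent.S24

variable (N : ℕ) [NeZero N] (A : ValuationSubring Kb)

/-- the divisor `div f / p` -/
theorem lw_exists_div (p : ℕ) (hp : 0 < p) (f : FF N) (hf : f ≠ 0)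
    (hdiv : ∀ P : Place Kb (FF N), (p : ℤ) ∣ P.ord f) :
    ∃ D : Divisor Kb (FF N), (∀ P : Place Kb (FF N), (p : ℤ) * D P = P.ord f) ∧
      Divisor.degree D = 0 := by
  have := Fermat.Agent.ES.H.hasPrincipalDivisors_FF N
  obtain ⟨D₀, hD₀, hdeg⟩ := HasPrincipalDivisors.exists_divisor (K := Kb) f hf
  have h0 : (fun n : ℤ => n / (p : ℤ)) 0 = 0 := Int.zero_ediv _
  have hval : ∀ P : Place Kb (FF N), (p : ℤ) * (D₀.mapRange (fun n : ℤ => n / (p : ℤ)) h0) P
      = P.ord f := by
    intro P
    rw [Finsupp.mapRange_apply, hD₀]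
    exact Int.mul_ediv_cancel' (hdiv P)
  refine ⟨D₀.mapRange (fun n : ℤ => n / (p : ℤ)) h0, hval, ?_⟩
  have hpD : (p : ℤ) • (D₀.mapRange (fun n : ℤ => n / (p : ℤ)) h0) = D₀ := by
    ext P
    rw [Finsupp.smul_apply, smul_eq_mul, hval P, hD₀]
  have h := congrArg Divisor.degree hpD
  rw [map_zsmul, hdeg, smul_eq_mul] at h
  rcases mul_eq_zero.1 h with h | h
  · exact absurd h (by exact_mod_cast hp.ne')
  · exact h

variable {N}

omit [NeZero N] in
/-- a place that is not the cusp `∞` is different from it -/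
theorem lw_ne_of_not_isCuspInfty {P Pinf : Place Kb (FF N)} (hinf : IsCuspInfty N Pinf)
    (hP : ¬ IsCuspInfty N P) : P ≠ Pinf := fun h => hP (h ▸ hinf)

omit [NeZero N] in
/-- the order of `b ^ p * f` when `div f = p D` -/
theorem lw_ord_pow_mul (p : ℕ) {f b : FF N} (hf : f ≠ 0) (hb : b ≠ 0)
    (D : Divisor Kb (FF N)) (P : Place Kb (FF N)) (hD : (p : ℤ) * D P = P.ord f) :
    P.ord (b ^ p * f) = (p : ℤ) * (P.ord b + D P) := by
  rw [P.ord_mul (pow_ne_zero p hb) hf]
  have h1 : P.ord (b ^ p) = (p : ℤ) * P.ord b := by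
    have := P.ord_zpow b (p : ℤ)
    rwa [zpow_natCast] at this
  rw [h1, ← hD]
  ring

omit [NeZero N] in
/-- `b ∈ L(div f / p + n ∞)` ⇒ `b ^ p * f` is regular outside `∞`, pole order `≤ p n` at `∞` -/
theorem lw_regOut (p : ℕ) (hp : 0 < p) (f : FF N) (D : Divisor Kb (FF N))
    (hD : ∀ P : Place Kb (FF N), (p : ℤ) * D P = P.ord f)
    (Pinf : Place Kb (FF N)) (hinf : IsCuspInfty N Pinf) (n : ℕ) (b : FF N)
    (hb : b ∈ riemannRochSpace (D + Finsupp.single Pinf (n : ℤ))) :
    RegOut N (b ^ p * f) ∧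
      ∀ m : ℤ, m < -((p : ℤ) * n) → ((b ^ p * f : FF N) : LaurentSeries Kb).coeff m = 0 := by
  classical
  rcases eq_or_ne f 0 with rfl | hf
  · refine ⟨fun P _ => ?_, fun m _ => ?_⟩
    · rw [mul_zero, Place.ord_zero]
    · rw [mul_zero]; rfl
  rcases eq_or_ne b 0 with rfl | hb0
  · refine ⟨fun P _ => ?_, fun m _ => ?_⟩
    · rw [zero_pow hp.ne', zero_mul, Place.ord_zero]
    · rw [zero_pow hp.ne', zero_mul]; rfl
  rw [mem_riemannRochSpace_iff] at hb
  have hpz : (0 : ℤ) < p := by exact_mod_cast hp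
  refine ⟨fun P hP => ?_, fun m hm => ?_⟩
  · have hne := lw_ne_of_not_isCuspInfty hinf hP
    rcases hb P with h | h
    · exact absurd h hb0
    · rw [Finsupp.add_apply, Finsupp.single_apply, if_neg (Ne.symm hne), add_zero] at h
      rw [lw_ord_pow_mul p hf hb0 D P (hD P)]
      exact mul_nonneg hpz.le (by linarith)
  · have hx0 : b ^ p * f ≠ 0 := mul_ne_zero (pow_ne_zero p hb0) hf
    have hord : -((p : ℤ) * n) ≤ ((b ^ p * f : FF N) : LaurentSeries Kb).order := by
      rw [← hinf _ hx0, lw_ord_pow_mul p hf hb0 D Pinf (hD Pinf)]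
      rcases hb Pinf with h | h
      · exact absurd h hb0
      · rw [Finsupp.add_apply, Finsupp.single_apply, if_pos rfl] at h
        have h2 : -(n : ℤ) ≤ Pinf.ord b + D Pinf := by linarith
        nlinarith
    exact HahnSeries.coeff_eq_zero_of_lt_order (lt_of_lt_of_le hm hord)

/-- vanishing of the low coefficients passes to `p`-th roots (over a field) -/
theorem lw_coeff_of_pow {k : Type*} [Field k] (p : ℕ) (hp : 0 < p) (n : ℕ)
    (w : LaurentSeries k)
    (h : ∀ m : ℤ, m < -((p : ℤ) * n) → (w ^ p).coeff m = 0) :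
    ∀ m : ℤ, m < -(n : ℤ) → w.coeff m = 0 := by
  intro m hm
  rcases eq_or_ne w 0 with rfl | hw
  · rfl
  have hwp : w ^ p ≠ 0 := pow_ne_zero p hw
  have h1 : -((p : ℤ) * n) ≤ (w ^ p).order := by
    by_contra hlt
    push Not at hlt
    exact hwp (HahnSeries.coeff_order_eq_zero.1 (h _ hlt))
  rw [HahnSeries.order_pow, nsmul_eq_mul] at h1
  have hpz : (0 : ℤ) < p := by exact_mod_cast hp
  have h2 : -(n : ℤ) ≤ w.order := by
    by_contra hlt
    push Not at hlt
    nlinarith
  exact HahnSeries.coeff_eq_zero_of_lt_order (lt_of_lt_of_le hm h2)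

variable {A}

/-- **Lemma W**: the reduction of `b ∈ L(div f / p + n ∞)` lies in `W_n` when `f ≡ 1`. -/
theorem lw_mem_Wn (gr : GRApi N A) (hRedF : StmtRedF N A) (hLRa : StmtLRa N A)
    (p : ℕ) (hp : 0 < p) (f : FF N) (hf1 : GaussRed N A f 1) (D : Divisor Kb (FF N))
    (hD : ∀ P : Place Kb (FF N), (p : ℤ) * D P = P.ord f)
    (Pinf : Place Kb (FF N)) (hinf : IsCuspInfty N Pinf) (n : ℕ) (b : FF N)
    (hb : b ∈ riemannRochSpace (D + Finsupp.single Pinf (n : ℤ)))
    (w : LaurentSeries (kA A)) (hw : GaussRed N A b w) : w ∈ Wn N A n := by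
  obtain ⟨hreg, hcoef⟩ := lw_regOut p hp f D hD Pinf hinf n b hb
  have hx : GaussRed N A (b ^ p * f) (w ^ p) := by
    have := gr.mul _ _ _ _ (gr.pow _ _ p hw) hf1
    rwa [mul_one] at this
  have hint : KronInt A ((b ^ p * f : FF N) : LaurentSeries Kb) :=
    hLRa _ hreg.polesAtCusps ⟨_, hx⟩
  obtain ⟨Y, hY⟩ := hint.exists_lift
  have hYmem : kronIncl A Y ∈ modularFunctionFieldBar N := by
    rw [hY]; exact (b ^ p * f).2
  have hxY : (⟨kronIncl A Y, hYmem⟩ : FF N) = b ^ p * f := Subtype.ext hY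
  have hred : kronRed A Y = w ^ p := by
    refine gr.unique (b ^ p * f) _ _ ?_ hx
    have := gr.of_incl Y hYmem
    rwa [hxY] at this
  have hmemR : w ^ p ∈ redR N A := ⟨Y, hYmem, by rw [hxY]; exact hreg, hred⟩
  rw [mem_Wn]
  refine ⟨⟨gr.mem_fullC hRedF b w hw, ?_⟩, ?_⟩
  · have hmem : w ^ p ∈ Algebra.adjoin (kA A) (redR N A) := Algebra.subset_adjoin hmemR
    have h1 : IsIntegral (Algebra.adjoin (kA A) (redR N A)) (w ^ p) :=
      isIntegral_algebraMap (R := Algebra.adjoin (kA A) (redR N A)) (x := ⟨w ^ p, hmem⟩)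
    exact IsIntegral.of_pow hp h1
  · refine lw_coeff_of_pow p hp n w fun m hm => ?_
    rw [← hred]
    have h1 : Y.coeff m = 0 := by
      apply Subtype.ext
      have h2 := hcoef m hm
      rw [← hY] at h2
      exact h2
    show IsLocalRing.residue A (Y.coeff m) = 0
    rw [h1, map_zero]

variable (N)

/-- `L(D)` is finite-dimensional -/
theorem lw_rr_finite (D : Divisor Kb (FF N)) : Module.Finite Kb ↥(riemannRochSpace D) := by
  have := Fermat.Agent.ES.H.hasPrincipalDivisors_FF N
  obtain ⟨P, -, -⟩ := exists_isCuspInfty N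
  exact Fermat.Agent.ES.R.rr_finite P (Fermat.Agent.ES.H.residue_bijective_FF N) D

/-- Riemann's inequality gives independent elements -/
theorem lw_exists_indep (hR : StmtR N) (D : Divisor Kb (FF N)) (r : ℕ)
    (hr : (r : ℤ) ≤ Divisor.degree D + 1 - (gN N : ℤ)) :
    ∃ a : Fin r → FF N, LinearIndependent Kb a ∧ ∀ i, a i ∈ riemannRochSpace D := by
  have := lw_rr_finite N D
  have h1 : r ≤ Module.finrank Kb ↥(riemannRochSpace D) := by
    have := hR D
    omega
  obtain ⟨a', ha'⟩ := exists_linearIndependent_of_le_finrank h1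
  refine ⟨fun i => ((a' i : ↥(riemannRochSpace D)) : FF N), ?_, fun i => (a' i).2⟩
  exact ha'.map' (riemannRochSpace D).subtype (Submodule.ker_subtype _)

/-- the API `LWApi N A` -/
theorem lwApi (gr : GRApi N A) : LWApi N A where
  exists_div := lw_exists_div N
  regOut := fun p hp f D hD Pinf hinf n b hb => lw_regOut p hp f D hD Pinf hinf n b hb
  mem_Wn := fun hRedF hLRa p hp f _ hf1 D hD Pinf hinf n b hb w hw =>
    lw_mem_Wn gr hRedF hLRa p hp f hf1 D hD Pinf hinf n b hb w hw
  exists_indep := lw_exists_indep N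
  rr_finite := lw_rr_finite N

/-- **piece LW** -/
theorem stmtLWApi : StmtLWApi := fun N _ _ gr => lwApi N gr

end Fermat.Agent.ES.M

end
end ZBES_003_9

/-! ### bundled: `Fermat.Agent.R38.HolB1Ram` -/
section ZBES_003_10

/-!
# R38 / HOL-B1 (char 0), part 1: the ramification of `F_N / ℚ̄(j)` over the finite `j`-line

From the realization of `S24` (the places of `F_N` over a point of the `j`-line are the
restrictions of the translates of one place of the big field, with the local property (L)):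

* `r38hb1_ram_gen`  : over `c ≠ 0, 1728` the extension is unramified: `ord_v (j - c) = 1`;
* `r38hb1_ram_1728` : over `1728` the ramification index divides `2`;
* `r38hb1_ram_zero` : over `0` the ramification index divides `3`.
-/

set_option autoImplicit false
set_option linter.style.haveILetI false

noncomputable section

open AlgebraicCurve IntermediateField
open scoped MatrixGroups

namespace Fermat.Agent.R38

open Fermat.Agent.S24

theorem r38hb1_neg_one_mem (N : ℕ) : (-1 : SL(2, ℤ)) ∈ CongruenceSubgroup.Gamma0 N := by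
  rw [CongruenceSubgroup.Gamma0_mem]
  simp

/-- the generic ramification bound from a realization: if `ε ^ k = ± 1` and a place of the
realization over `j = c` has the local property with respect to `ε`, then every place of `F_N`
over `j = c` has `ord_v (j - c) ∣ k`. -/
theorem r38hb1_ord_dvd (N : ℕ) [NeZero N] (R : Realization N) (c : Kb) (ε : SL(2, ℤ)) (k : ℕ)
    (hk : ε ^ k = 1 ∨ ε ^ k = -1)
    (hloc : ∃ w : Place Kb R.M, LocalProp (R.φ (jF N - algebraMap Kb (FF N) c)) (R.act ε) w)
    (v : Place Kb (FF N)) (hv : 0 < v.ord (jF N - algebraMap Kb (FF N) c)) :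
    v.ord (jF N - algebraMap Kb (FF N) c) ∣ (k : ℤ) := by
  haveI := R.finite_range
  haveI hfin : FiniteDimensional Kb⟮jF N⟯ (FF N) :=
    Fermat.Agent.ES.H.finiteDimensional_adjoin_jF N
  have hxj : jF N - algebraMap Kb (FF N) c ∈ Kb⟮jF N⟯ :=
    sub_mem (mem_adjoin_simple_self Kb (jF N)) (IntermediateField.algebraMap_mem _ c)
  have hjx : jF N ∈ Kb⟮jF N - algebraMap Kb (FF N) c⟯ := by
    have h1 : (jF N - algebraMap Kb (FF N) c) + algebraMap Kb (FF N) c = jF N := by ring
    have h2 := add_mem (mem_adjoin_simple_self Kb (jF N - algebraMap Kb (FF N) c))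
      (IntermediateField.algebraMap_mem Kb⟮jF N - algebraMap Kb (FF N) c⟯ c)
    rwa [h1] at h2
  have htr : Transcendental Kb (jF N - algebraMap Kb (FF N) c) := transcendental_jF_sub N c
  haveI : FiniteDimensional Kb⟮jF N - algebraMap Kb (FF N) c⟯ (FF N) :=
    finiteDimensional_adjoin_jF_sub N c hfin
  obtain ⟨w, hw, -, hL⟩ := hloc
  have hfix : ∀ γ, R.act γ (R.φ (jF N - algebraMap Kb (FF N) c)) =
      R.φ (jF N - algebraMap Kb (FF N) c) :=
    fun γ => act_fix_of_mem_adjoin R.φ R.act R.act_j hxj γ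
  obtain ⟨g, hg⟩ := exists_restrPlace_eq R.φ R.act R.fixed w hjx hw hfix
    (fun v S' hv hvS hS' => exists_ord_neg _ htr v S' hv hvS hS') v hv
  rw [← hg]
  refine restrPlace_ord_dvd R.φ R.act w hw hfix ε g hL k ?_
  refine (R.stab_iff _).mpr ?_
  rcases hk with h | h
  · rw [h, mul_one, inv_mul_cancel]
    exact one_mem _
  · have h1 : g⁻¹ * ε ^ k * g = -1 := by
      rw [h, mul_neg, mul_one, neg_mul, inv_mul_cancel]
    rw [h1]
    exact r38hb1_neg_one_mem N

/-- over `c ≠ 0, 1728` the extension `F_N / ℚ̄(j)` is unramified. -/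
theorem r38hb1_ram_gen (N : ℕ) [NeZero N] (c : Kb) (hc0 : c ≠ 0) (hc : c ≠ 1728)
    (v : Place Kb (FF N)) (hv : 0 < v.ord (jF N - algebraMap Kb (FF N) c)) :
    v.ord (jF N - algebraMap Kb (FF N) c) = 1 := by
  obtain ⟨R⟩ := exists_realization N
  have h := r38hb1_ord_dvd N R c 1 1 (Or.inl (pow_one 1)) (R.loc_gen c hc0 hc) v hv
  exact Int.eq_one_of_dvd_one hv.le h

/-- over `1728` the ramification index divides `2`. -/
theorem r38hb1_ram_1728 (N : ℕ) [NeZero N]
    (v : Place Kb (FF N)) (hv : 0 < v.ord (jF N - algebraMap Kb (FF N) 1728)) :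
    v.ord (jF N - algebraMap Kb (FF N) 1728) ∣ 2 := by
  obtain ⟨R⟩ := exists_realization N
  exact r38hb1_ord_dvd N R 1728 ModularGroup.S 2 (Or.inr S_sq_eq_neg_one) R.loc_1728 v hv

/-- over `0` the ramification index divides `3`. -/
theorem r38hb1_ram_zero (N : ℕ) [NeZero N]
    (v : Place Kb (FF N)) (hv : 0 < v.ord (jF N)) : v.ord (jF N) ∣ 3 := by
  obtain ⟨R⟩ := exists_realization N
  have h0 : jF N - algebraMap Kb (FF N) 0 = jF N := by rw [map_zero, sub_zero]
  have hloc : ∃ w : Place Kb R.M,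
      LocalProp (R.φ (jF N - algebraMap Kb (FF N) 0)) (R.act (ModularGroup.S * ModularGroup.T)) w := by
    rw [h0]; exact R.loc_zero
  have h := r38hb1_ord_dvd N R 0 (ModularGroup.S * ModularGroup.T) 3 (Or.inr ST_cube_eq_neg_one)
    hloc v (by rw [h0]; exact hv)
  rwa [h0] at h

end Fermat.Agent.R38

end
end ZBES_003_10

/-! ### bundled: `Fermat.Agent.R38.HolB1Der` -/
section ZBES_003_11

/-!
# R38 / HOL-B1 (char 0), part 2: the derivation `D′ = j (j − 1728) d/dj` on `F_N`

Route RAM (no modular forms): for `C ∈ F_N` with poles only at the cusps the functions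
`Yt = j (j − 1728) θC / θj`, `Y2 = Yt² / (j − 1728)`, `Y1 = Yt³ / (j (j − 1728))` lie in `F_N` and
have poles only at the cusps.

* `r38hb1_gen_deriv` : a derivation `δ : F → M` is computed from the differential coefficients at
  any place: `(dj/dπ) • δ X = (dX/dπ) • δ j` (`Ω[F/K] = F dπ`);
* `r38hb1_gen_ord`, `r38hb1_gen_main` : the local estimate at a place over the finite `j`-line
  (`S24.DerivLemma`: `d(O_v) ⊂ O_v dπ`, `ord_v (dj) = e − 1`), with the ramification bounds
  `e ∣ 3` over `0`, `e ∣ 2` over `1728`, `e = 1` elsewhere as hypotheses;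
* `r38hb1_theta` : `θ = q d/dq` as a derivation `F_N → ℚ̄((q))`;
* `r38hb1_main` : the statement for `F_N` (`= StmtHolMF N` of `R38/PlanHol.lean`, with the
  numeral `1728` of `F_N`).
-/

set_option autoImplicit false
set_option linter.style.haveILetI false
set_option linter.unusedSectionVars false

noncomputable section

open AlgebraicCurve IntermediateField KaehlerDifferential ModularCurve HahnSeries
open Fermat.Agent.S24 Fermat.Agent.ES.M Fermat.Agent.S28.Deriv

namespace Fermat.Agent.R38

/-! ### Generic part -/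

section GenericDeriv

variable {K F M : Type*} [Field K] [Field F] [Algebra K F] [AddCommGroup M] [Module K M]
  [Module F M] [IsScalarTower K F M] [CharZero K]

/-- a derivation `δ : F → M` is computed from the differential coefficients at any place:
`(dj/dπ) • δ X = (dX/dπ) • δ j`. -/
theorem r38hb1_gen_deriv (δ : Derivation K F M) {x₀ : F} (hx₀ : Transcendental K x₀)
    (halg : Algebra.IsAlgebraic K⟮x₀⟯ F) (v : Place K F) (X j : F) :
    v.differentialCoeff (D K F j) • δ X = v.differentialCoeff (D K F X) • δ j := by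
  haveI := DiffSpan.dCoordGenerates hx₀ halg v
  have hX : δ X = v.differentialCoeff (D K F X) • δ.liftKaehlerDifferential v.dCoord := by
    rw [← map_smul, v.differentialCoeff_smul_dCoord, Derivation.liftKaehlerDifferential_comp_D]
  have hj : δ j = v.differentialCoeff (D K F j) • δ.liftKaehlerDifferential v.dCoord := by
    rw [← map_smul, v.differentialCoeff_smul_dCoord, Derivation.liftKaehlerDifferential_comp_D]
  rw [hX, hj, smul_smul, smul_smul, mul_comm]

end GenericDeriv

section GenericOrd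

variable {K F : Type*} [Field K] [Field F] [Algebra K F] [CharZero K]
  {j : F} (hjt : Transcendental K j) (halg : Algebra.IsAlgebraic K⟮j⟯ F)
  (v : Place K F)
  (hres : ∀ a ∈ v.toValuationSubring, ∃ c : K,
    a - algebraMap K F c ∈ v.toValuationSubring.nonunits)

include hjt halg hres

theorem r38hb1_gen_dj_ne_zero (c : K) (hj : 0 < v.ord (j - algebraMap K F c)) :
    v.differentialCoeff (D K F j) ≠ 0 := by
  have h1 : D K F j = D K F (j - algebraMap K F c) := by
    rw [map_sub, Derivation.map_algebraMap, sub_zero]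
  rw [h1]
  exact DerivLemma.differentialCoeff_D_ne_zero hjt halg v hres hj.ne'

/-- local estimate: if `Y · (dj/dπ) = W · (dX/dπ)`, `X ∈ O_v` and `ord_v (j - c) = e > 0`,
then `Y = 0` or `ord_v W - (e - 1) ≤ ord_v Y`. -/
theorem r38hb1_gen_ord (X Y W : F) (c : K) (hj : 0 < v.ord (j - algebraMap K F c))
    (hX : X ∈ v.toValuationSubring) (hW : W ≠ 0)
    (hY : Y * v.differentialCoeff (D K F j) = W * v.differentialCoeff (D K F X)) :
    Y = 0 ∨ v.ord W - (v.ord (j - algebraMap K F c) - 1) ≤ v.ord Y := by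
  have hb := DerivLemma.ordDifferential_D_of_zero hjt halg v hres j c hj
  rw [Place.ordDifferential] at hb
  have ha := DerivLemma.differentialCoeff_D_mem hjt halg v hres hX
  have hb0 := r38hb1_gen_dj_ne_zero hjt halg v hres c hj
  by_cases ha0 : v.differentialCoeff (D K F X) = 0
  · left
    rw [ha0, mul_zero] at hY
    exact (mul_eq_zero.mp hY).resolve_right hb0
  · right
    have hY0 : Y ≠ 0 := by
      intro h0
      rw [h0, zero_mul] at hY
      exact (mul_ne_zero hW ha0) hY.symm
    have h2 := congrArg v.ord hY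
    rw [v.ord_mul hY0 hb0, v.ord_mul hW ha0, hb] at h2
    have h3 := DerivLemma.ord_nonneg_of_mem v ha
    omega

omit hjt halg hres in
theorem r38hb1_gen_ord_div {a b : F} (ha : a ≠ 0) (hb : b ≠ 0) :
    v.ord (a / b) = v.ord a - v.ord b := by
  rw [div_eq_mul_inv, v.ord_mul ha (inv_ne_zero hb), v.ord_inv]
  ring

omit hjt halg hres in
theorem r38hb1_gen_ord_pow (a : F) (n : ℕ) : v.ord (a ^ n) = n * v.ord a := by
  have := v.ord_zpow a n
  rwa [zpow_natCast] at this

omit hjt halg hres in
/-- `ord_v (j - c') = 0` if `j ∈ O_v` reduces to `c ≠ c'`. -/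
theorem r38hb1_gen_ord_other {c c' : K} (hcc : c ≠ c')
    (hj : 0 < v.ord (j - algebraMap K F c)) : v.ord (j - algebraMap K F c') = 0 := by
  have h1 := DegreeCountAux.not_pos_of_pos_of_ne v j hcc hj
  have hjc : j - algebraMap K F c ≠ 0 := by
    intro h0
    rw [h0, v.ord_zero] at hj
    exact lt_irrefl _ hj
  have hmem : j - algebraMap K F c ∈ v.toValuationSubring :=
    PlaceAux.mem_of_ord_nonneg v hj.le
  have hmem' : j - algebraMap K F c' ∈ v.toValuationSubring := by
    have h2 : j - algebraMap K F c' = (j - algebraMap K F c) + algebraMap K F (c - c') := by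
      rw [map_sub]; ring
    rw [h2]
    exact v.toValuationSubring.add_mem _ _ hmem (v.algebraMap_mem' _)
  have h3 := DerivLemma.ord_nonneg_of_mem v hmem'
  omega

/-- **the local statement**: at a place `v` where `j` is regular, with the ramification bounds of
`j` at `v`, the functions `Y = j (j − 1728) dX/dj`, `Y² / (j − 1728)`, `Y³ / (j (j − 1728))` are
regular at `v` if `X` is. -/
theorem r38hb1_gen_main (X Y : F) (hv : j ∈ v.toValuationSubring)
    (hram0 : 0 < v.ord j → v.ord j ∣ 3)
    (hram1 : 0 < v.ord (j - algebraMap K F 1728) → v.ord (j - algebraMap K F 1728) ∣ 2)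
    (hramg : ∀ c : K, c ≠ 0 → c ≠ 1728 → 0 < v.ord (j - algebraMap K F c) →
      v.ord (j - algebraMap K F c) = 1)
    (hX : X ∈ v.toValuationSubring)
    (hY : Y * v.differentialCoeff (D K F j) =
      (j * (j - algebraMap K F 1728)) * v.differentialCoeff (D K F X)) :
    0 ≤ v.ord Y ∧ 0 ≤ v.ord (Y ^ 2 / (j - algebraMap K F 1728)) ∧
      0 ≤ v.ord (Y ^ 3 / (j * (j - algebraMap K F 1728))) := by
  have hj0 : j ≠ 0 := fun h => hjt (h ▸ isAlgebraic_zero)
  have hjc : ∀ c : K, j - algebraMap K F c ≠ 0 := fun c h =>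
    hjt (by
      have h1 : j = algebraMap K F c := sub_eq_zero.mp h
      rw [h1]
      exact isAlgebraic_algebraMap c)
  have h1728 : (1728 : K) ≠ 0 := by norm_num
  have hW : j * (j - algebraMap K F 1728) ≠ 0 := mul_ne_zero hj0 (hjc 1728)
  obtain ⟨c, hc⟩ := hres j hv
  have hpos : 0 < v.ord (j - algebraMap K F c) :=
    (PlaceAux.ord_pos_iff_mem_nonunits v (hjc c)).mpr hc
  by_cases hY0 : Y = 0
  · subst hY0
    simp
  rcases r38hb1_gen_ord hjt halg v hres X Y _ c hpos hX hW hY with h0 | hle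
  · exact absurd h0 hY0
  rw [v.ord_mul hj0 (hjc 1728)] at hle
  rw [r38hb1_gen_ord_div v (pow_ne_zero 2 hY0) (hjc 1728),
    r38hb1_gen_ord_div v (pow_ne_zero 3 hY0) hW, v.ord_mul hj0 (hjc 1728),
    r38hb1_gen_ord_pow, r38hb1_gen_ord_pow]
  push_cast
  by_cases hc0 : c = 0
  · subst hc0
    rw [map_zero, sub_zero] at hpos hle
    have h2 : v.ord (j - algebraMap K F 1728) = 0 := by
      have := r38hb1_gen_ord_other (j := j) v (c := 0) (c' := 1728) h1728.symm
        (by rw [map_zero, sub_zero]; exact hpos)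
      exact this
    have h3 := Int.le_of_dvd (by norm_num) (hram0 hpos)
    rw [h2] at hle ⊢
    refine ⟨?_, ?_, ?_⟩ <;> omega
  by_cases hc1 : c = 1728
  · subst hc1
    have h2 : v.ord j = 0 := by
      have := r38hb1_gen_ord_other (j := j) v (c := 1728) (c' := 0) h1728 hpos
      rwa [map_zero, sub_zero] at this
    have h3 := Int.le_of_dvd (by norm_num) (hram1 hpos)
    rw [h2] at hle ⊢
    refine ⟨?_, ?_, ?_⟩ <;> omega
  · have h2 : v.ord j = 0 := by
      have := r38hb1_gen_ord_other (j := j) v (c := c) (c' := 0) hc0 hpos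
      rwa [map_zero, sub_zero] at this
    have h2' : v.ord (j - algebraMap K F 1728) = 0 :=
      r38hb1_gen_ord_other (j := j) v (c := c) (c' := 1728) hc1 hpos
    have h3 := hramg c hc0 hc1 hpos
    rw [h2, h2', h3] at hle
    rw [h2, h2']
    refine ⟨?_, ?_, ?_⟩ <;> omega

end GenericOrd

/-! ### The function field `F_N` -/

section Modular

theorem r38hb1_coe_smul (N : ℕ) [NeZero N] (c : Kb) (X : FF N) :
    ((c • X : FF N) : LaurentSeries Kb) = HahnSeries.C c * (X : LaurentSeries Kb) := by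
  rw [Algebra.smul_def]
  show ((algebraMap Kb (FF N) c : FF N) : LaurentSeries Kb) * _ = _
  congr 1
  show algebraMap Kb (LaurentSeries Kb) c = _
  exact algebraMap_eq_hahnC c

theorem r38hb1_smul_eq (c : Kb) (m : LaurentSeries Kb) : c • m = HahnSeries.C c * m :=
  (HahnSeries.C_mul_eq_smul).symm

instance r38hb1_tower (N : ℕ) [NeZero N] : IsScalarTower Kb (FF N) (LaurentSeries Kb) :=
  ⟨fun c X m => by
    show ((c • X : FF N) : LaurentSeries Kb) * m = c • ((X : LaurentSeries Kb) * m)
    rw [r38hb1_coe_smul, r38hb1_smul_eq, mul_assoc]⟩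

/-- `θ` as a `ℚ̄`-linear map on `F_N`. -/
def r38hb1_thetaLin (N : ℕ) [NeZero N] : FF N →ₗ[Kb] LaurentSeries Kb where
  toFun X := thetaFun (X : LaurentSeries Kb)
  map_add' X Y := by
    show thetaFun (((X + Y : FF N)) : LaurentSeries Kb) = _
    rw [show (((X + Y : FF N)) : LaurentSeries Kb) = (X : LaurentSeries Kb) + Y from rfl,
      thetaFun_add]
  map_smul' c X := by
    show thetaFun (((c • X : FF N)) : LaurentSeries Kb) = c • thetaFun (X : LaurentSeries Kb)
    rw [r38hb1_coe_smul, r38hb1_smul_eq, thetaFun_mul, thetaFun_C, mul_zero, add_zero]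

/-- `θ` as a derivation `F_N → ℚ̄((q))`. -/
def r38hb1_theta (N : ℕ) [NeZero N] : Derivation Kb (FF N) (LaurentSeries Kb) :=
  Derivation.mk' (r38hb1_thetaLin N) (fun a b => by
    show thetaFun (((a * b : FF N)) : LaurentSeries Kb) =
      a • thetaFun (b : LaurentSeries Kb) + b • thetaFun (a : LaurentSeries Kb)
    rw [show (((a * b : FF N)) : LaurentSeries Kb) = (a : LaurentSeries Kb) * b from rfl,
      thetaFun_mul]
    rfl)

theorem r38hb1_theta_apply (N : ℕ) [NeZero N] (X : FF N) :
    r38hb1_theta N X = thetaFun (X : LaurentSeries Kb) := rfl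

/-- `(dj/dπ) · θ X = (dX/dπ) · θ j` at every place of `F_N`. -/
theorem r38hb1_theta_coeff (N : ℕ) [NeZero N] (v : Place Kb (FF N)) (X j : FF N) :
    ((v.differentialCoeff (D Kb (FF N) j) : FF N) : LaurentSeries Kb) *
        thetaFun (X : LaurentSeries Kb) =
      ((v.differentialCoeff (D Kb (FF N) X) : FF N) : LaurentSeries Kb) *
        thetaFun (j : LaurentSeries Kb) := by
  haveI := Fermat.Agent.ES.H.finiteDimensional_adjoin_jF N
  have halg : Algebra.IsAlgebraic Kb⟮jF N⟯ (FF N) := Algebra.IsAlgebraic.of_finite _ _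
  exact @r38hb1_gen_deriv Kb (FF N) (LaurentSeries Kb) _ _ _ _ _ _ _ _ (r38hb1_theta N) (jF N)
    (transcendental_jF N) halg v X j

theorem r38hb1_theta_jBar_ne_zero : thetaFun (jBar : LaurentSeries Kb) ≠ 0 := by
  intro h
  have h1 := congrArg (fun f : LaurentSeries Kb => f.coeff (-1)) h
  simp only [thetaFun_coeff, HahnSeries.coeff_zero] at h1
  have h2 : (jBar : LaurentSeries Kb).coeff (-1) ≠ 0 := by
    have h3 : (jBar : LaurentSeries Kb) ≠ 0 := by
      intro h0
      have := order_jBar
      rw [h0, HahnSeries.order_zero] at this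
      omega
    intro h5
    apply h3
    rw [← HahnSeries.coeff_order_eq_zero, order_jBar]
    exact h5
  rcases mul_eq_zero.mp h1 with h4 | h4
  · norm_num at h4
  · exact h2 h4

/-- **(B1-MF)**, route RAM: for `C ∈ F_N` with poles only at the cusps, the functions
`Yt = j (j − 1728) θC / θj`, `Y2 = Yt² / (j − 1728)`, `Y1 = Yt³ / (j (j − 1728))` lie in `F_N` and
have poles only at the cusps. -/
theorem r38hb1_main (N : ℕ) [NeZero N] (C : FF N) (hC : PolesAtCusps N C) :
    ∃ Yt Y1 Y2 : FF N, PolesAtCusps N Yt ∧ PolesAtCusps N Y1 ∧ PolesAtCusps N Y2 ∧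
      (Yt : LaurentSeries Kb) * thetaFun jBar =
          thetaFun (C : LaurentSeries Kb) * jBar * (jBar - 1728) ∧
      (Yt : LaurentSeries Kb) ^ 2 = (Y2 : LaurentSeries Kb) * (jBar - 1728) ∧
      (Yt : LaurentSeries Kb) ^ 3 = (Y1 : LaurentSeries Kb) * jBar * (jBar - 1728) := by
  classical
  haveI hfin := Fermat.Agent.ES.H.finiteDimensional_adjoin_jF N
  have htr := transcendental_jF N
  have halg : Algebra.IsAlgebraic Kb⟮jF N⟯ (FF N) := Algebra.IsAlgebraic.of_finite _ _
  have hres : ∀ v : Place Kb (FF N), ∀ a ∈ v.toValuationSubring, ∃ c : Kb,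
      a - algebraMap Kb (FF N) c ∈ v.toValuationSubring.nonunits :=
    fun v a ha => exists_sub_mem_nonunits (jF N) htr halg v a ha
  set φ : FF N →+* LaurentSeries Kb :=
    (ModularCurve.modularFunctionFieldBar N).toSubfield.subtype with hφd
  have hφ : ∀ y : FF N, φ y = (y : LaurentSeries Kb) := fun _ => rfl
  have hinj : Function.Injective φ := Subtype.val_injective
  have hφj : φ (jF N) = jBar := rfl
  have hφc : φ (algebraMap Kb (FF N) 1728) = 1728 := by
    rw [map_ofNat, map_ofNat]
  have hj0 : jF N ≠ 0 := jF_ne_zero N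
  have hj1 : jF N - algebraMap Kb (FF N) 1728 ≠ 0 := jF_sub_ne_zero N 1728
  -- the place at infinity
  obtain ⟨v₀, hv₀, -⟩ := exists_isCuspInfty N
  have hb₀ : v₀.differentialCoeff (D Kb (FF N) (jF N)) ≠ 0 :=
    DerivLemma.differentialCoeff_D_ne_zero htr halg v₀ (hres v₀)
      (by rw [hv₀.ord_jF]; norm_num)
  set a₀ := v₀.differentialCoeff (D Kb (FF N) C) with ha₀
  set b₀ := v₀.differentialCoeff (D Kb (FF N) (jF N)) with hb₀d
  set W : FF N := jF N * (jF N - algebraMap Kb (FF N) 1728) with hW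
  have hW0 : W ≠ 0 := mul_ne_zero hj0 hj1
  set Yt : FF N := W * a₀ / b₀ with hYt
  have hYb₀ : Yt * b₀ = W * a₀ := by
    rw [hYt, div_mul_cancel₀ _ hb₀]
  have h0 := r38hb1_theta_coeff N v₀ C (jF N)
  -- independence of the place
  have key : ∀ v : Place Kb (FF N),
      Yt * v.differentialCoeff (D Kb (FF N) (jF N)) =
        W * v.differentialCoeff (D Kb (FF N) C) := by
    intro v
    have h1 := r38hb1_theta_coeff N v C (jF N)
    have h2 : a₀ * v.differentialCoeff (D Kb (FF N) (jF N)) =
        v.differentialCoeff (D Kb (FF N) C) * b₀ := by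
      apply hinj
      rw [map_mul, map_mul, hφ, hφ, hφ, hφ]
      apply mul_right_cancel₀ r38hb1_theta_jBar_ne_zero
      have e1 : (jF N : LaurentSeries Kb) = jBar := rfl
      rw [e1] at h0 h1
      linear_combination (b₀ : LaurentSeries Kb) * h1 -
        ((v.differentialCoeff (D Kb (FF N) (jF N)) : FF N) : LaurentSeries Kb) * h0
    have h3 : Yt * v.differentialCoeff (D Kb (FF N) (jF N)) * b₀ =
        W * v.differentialCoeff (D Kb (FF N) C) * b₀ := by
      linear_combination (v.differentialCoeff (D Kb (FF N) (jF N))) * hYb₀ + W * h2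
    exact mul_right_cancel₀ hb₀ h3
  -- the local estimates
  have hloc : ∀ v : Place Kb (FF N), 0 ≤ v.ord (jF N) →
      0 ≤ v.ord Yt ∧ 0 ≤ v.ord (Yt ^ 2 / (jF N - algebraMap Kb (FF N) 1728)) ∧
        0 ≤ v.ord (Yt ^ 3 / (jF N * (jF N - algebraMap Kb (FF N) 1728))) := by
    intro v hv
    refine r38hb1_gen_main htr halg v (hres v) C Yt (PlaceAux.mem_of_ord_nonneg v hv)
      (fun h => r38hb1_ram_zero N v h) (fun h => r38hb1_ram_1728 N v h)
      (fun c hc0 hc1 h => r38hb1_ram_gen N c hc0 hc1 v h)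
      (PlaceAux.mem_of_ord_nonneg v (hC v hv)) (key v)
  refine ⟨Yt, Yt ^ 3 / (jF N * (jF N - algebraMap Kb (FF N) 1728)),
    Yt ^ 2 / (jF N - algebraMap Kb (FF N) 1728), fun v hv => (hloc v hv).1,
    fun v hv => (hloc v hv).2.2, fun v hv => (hloc v hv).2.1, ?_, ?_, ?_⟩
  · -- `Yt θj = θC j (j − 1728)`
    have e1 : (jF N : LaurentSeries Kb) = jBar := rfl
    rw [e1] at h0
    have h4 : (Yt : LaurentSeries Kb) * (b₀ : LaurentSeries Kb) =
        jBar * (jBar - 1728) * (a₀ : LaurentSeries Kb) := by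
      have := congrArg φ hYb₀
      rw [map_mul, map_mul, hW, map_mul, map_sub, hφj, hφc] at this
      exact this
    have hb₀' : (b₀ : LaurentSeries Kb) ≠ 0 := fun h => hb₀ (hinj (by rw [hφ, h, map_zero]))
    apply mul_right_cancel₀ hb₀'
    linear_combination thetaFun jBar * h4 - jBar * (jBar - 1728) * h0
  · have h5 : Yt ^ 2 = Yt ^ 2 / (jF N - algebraMap Kb (FF N) 1728) *
        (jF N - algebraMap Kb (FF N) 1728) := by
      rw [div_mul_cancel₀ _ hj1]
    have := congrArg φ h5
    rw [map_pow, map_mul, map_sub, hφj, hφc] at this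
    exact this
  · have h5 : Yt ^ 3 = Yt ^ 3 / (jF N * (jF N - algebraMap Kb (FF N) 1728)) *
        (jF N * (jF N - algebraMap Kb (FF N) 1728)) := by
      rw [div_mul_cancel₀ _ hW0]
    have := congrArg φ h5
    rw [map_pow, map_mul, map_mul, map_sub, hφj, hφc, ← mul_assoc] at this
    exact this

end Modular

end Fermat.Agent.R38

end
end ZBES_003_11

/-! ### bundled: `Fermat.Agent.R38.HolB1MF` -/
section ZBES_003_12

/-!
# R38 / HOL-B1-MF: `stmtHolMFAll : StmtHolMFAll`

Characteristic `0`: for `C ∈ F_N` with poles only at the cusps, the functions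
`Yt = j (j − 1728) θC / θj`, `Y2 = Yt² / (j − 1728)`, `Y1 = Yt³ / (j (j − 1728))` lie in `F_N` and
have poles only at the cusps.  Route RAM (`R38/HolB1Ram.lean`, `R38/HolB1Der.lean`): the derivative
lemma of `S24` at every place and the ramification of `F_N / ℚ̄(j)` over `0`, `1728`; no modular
forms are used.
-/

set_option autoImplicit false

namespace Fermat.Agent.R38

/-- **(B1-MF)** at level `N`. -/
theorem stmtHolMF (N : ℕ) [NeZero N] : StmtHolMF N := fun C hC => r38hb1_main N C hC

/-- **(B1-MF)**. -/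
theorem stmtHolMFAll : StmtHolMFAll := fun N _ => stmtHolMF N

end Fermat.Agent.R38


end ZBES_003_12

/-! ### bundled: `Fermat.Agent.ES.G2.GenInt` -/
section ZBES_003_13
/-
ES / G2, piece PR-3 (helper65): the field `gen` of `PlaceRedData`.

`pr3_gen` : for `ℓ ∤ N` and a valuation subring `A ⊂ ℚ̄` over `ℓ`, every principal divisor of
`F_N = modularFunctionFieldBar N` is a difference of divisors of `A`-integral elements of `F_N`
with non-zero reduction in `F_k` (prelude `PrincipalGeneratedByIntegral`).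
Proof: `stmtPrim` (`u · y₂ = c · y₁`, `y₁, y₂` primitive integral) + `stmtRedFAll`
(the reduction of an integral element of `F_N` lies in `F_k`).
-/

set_option autoImplicit false

noncomputable section

namespace Fermat.Agent.ES.G2

open ModularCurve AlgebraicCurve Fermat.Agent.ES

/-- the divisor of a primitive integral element of `F_N` is an integral principal divisor -/
theorem pr3_mem_integral (N : ℕ) [NeZero N] (ℓ : ℕ) (hℓ : ℓ.Prime) (hℓN : ¬ ℓ ∣ N)
    (A : ValuationSubring Qb) (hA : A.LiesOverPrime ℓ) {y : LaurentSeries Qb}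
    (hym : y ∈ modularFunctionFieldBar N) (hy : KronPrim A y)
    (D : Divisor Qb (modularFunctionFieldBar N))
    (hD : ∀ P : Place Qb (modularFunctionFieldBar N),
      D P = P.ord (⟨y, hym⟩ : modularFunctionFieldBar N)) :
    D ∈ integralPrincipalDivisors A (IsLocalRing.residue A) N := by
  obtain ⟨Y, hY⟩ := hy.1.exists_lift
  have hYm : kronIncl A Y ∈ modularFunctionFieldBar N := by rw [hY]; exact hym
  have hred : kronRed A Y ≠ 0 := by
    rw [← kronPrim_kronIncl_iff, hY]
    exact hy
  refine ⟨Y, hYm, Fermat.Agent.ES.M.stmtRedFAll N ℓ hℓ hℓN A hA Y hYm, hred, ?_⟩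
  intro P
  rw [hD P]
  congr 1
  exact Subtype.ext hY.symm

/-- **PR-3**: principal divisors of `F_N` are generated by integral principal divisors. -/
theorem pr3_gen (N : ℕ) [NeZero N] (ℓ : ℕ) (hℓ : ℓ.Prime) (hℓN : ¬ ℓ ∣ N)
    (A : ValuationSubring Qb) (hA : A.LiesOverPrime ℓ) :
    PrincipalGeneratedByIntegral A (IsLocalRing.residue A) N := by
  intro D hD
  obtain ⟨u, hu0, hDu⟩ := hD
  obtain ⟨c, y₁, y₂, hc, hy₁m, hy₂m, hy₁, hy₂, hrel⟩ := stmtPrim N ℓ hℓ A hA u hu0
  have := Fermat.Agent.ES.H.hasPrincipalDivisors_FF N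
  -- `y₁, y₂ ≠ 0`
  have hne : ∀ {y : LaurentSeries Qb}, KronPrim A y → y ≠ 0 := by
    rintro y ⟨_, n, hn⟩ h
    apply hn
    rw [h, HahnSeries.coeff_zero, ValuationSubring.mem_nonunits_iff, map_zero]
    exact zero_lt_one
  have hy₁0 : (⟨y₁, hy₁m⟩ : modularFunctionFieldBar N) ≠ 0 :=
    fun h => hne hy₁ (congrArg Subtype.val h)
  have hy₂0 : (⟨y₂, hy₂m⟩ : modularFunctionFieldBar N) ≠ 0 :=
    fun h => hne hy₂ (congrArg Subtype.val h)
  obtain ⟨D₁, hD₁, -⟩ := HasPrincipalDivisors.exists_divisor (K := Qb) _ hy₁0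
  obtain ⟨D₂, hD₂, -⟩ := HasPrincipalDivisors.exists_divisor (K := Qb) _ hy₂0
  have hrel' : u * (⟨y₂, hy₂m⟩ : modularFunctionFieldBar N) =
      algebraMap Qb (modularFunctionFieldBar N) c * ⟨y₁, hy₁m⟩ := by
    apply Subtype.ext
    rw [MulMemClass.coe_mul, MulMemClass.coe_mul]
    show (u : LaurentSeries Qb) * y₂ = algebraMap Qb (LaurentSeries Qb) c * y₁
    rw [hrel, Fermat.Agent.ES.M.algebraMap_eq_hahnC]
  have hcF : algebraMap Qb (modularFunctionFieldBar N) c ≠ 0 := by
    simpa using hc
  have hD12 : D = D₁ - D₂ := by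
    ext P
    have h1 := congrArg P.ord hrel'
    rw [P.ord_mul hu0 hy₂0, P.ord_mul hcF hy₁0, Fermat.Agent.S24.PlaceAux.ord_algebraMap,
      zero_add] at h1
    rw [Finsupp.sub_apply, hDu P, hD₁ P, hD₂ P]
    omega
  rw [hD12]
  exact AddSubgroup.sub_mem _
    (AddSubgroup.subset_closure (pr3_mem_integral N ℓ hℓ hℓN A hA hy₁m hy₁ D₁ hD₁))
    (AddSubgroup.subset_closure (pr3_mem_integral N ℓ hℓ hℓN A hA hy₂m hy₂ D₂ hD₂))

end Fermat.Agent.ES.G2

end
end ZBES_003_13
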