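/- GENERATED FILE (helper35, build-time optimisation, NOTES/ZB.md): verbatim concatenation of the modules
   Fermat.Agent.ES.HbNormAbs
   Fermat.Agent.ES.Hb
   Fermat.Agent.ES.HInputs
   Fermat.Agent.ES.G2.Frob
   Fermat.Agent.ES.G2.S37Plan
   Fermat.Agent.STB.Stmt
   Fermat.Agent.ES.G2.Main
   Fermat.Agent.ES.FaithOfInputs
   Fermat.Agent.ES.G2.S37Kron
   Fermat.Agent.R38.TresGeo
   Fermat.Agent.R38.TresEisNF
   Fermat.Agent.S36.Plan
   Do not edit; do not import together with these modules. -/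
import Mathlib
import Fermat.Agent.ZB.ES_004
import Fermat.Agent.ZB.S24_011
import Fermat.Agent.ZB.ES_003
import Fermat.Agent.ZB.ES_001
import Fermat.Agent.ZB.Cheb_001
import Fermat.Agent.ZB.ES_009
import Fermat.Agent.ZB.ES_002

/-! ### bundled: `Fermat.Agent.ES.HbNormAbs` -/
section ZBES_005_0

/-!
# ES (H), piece Hb (abstract part): valuation of a norm in an extension of a DVR

`A` a discrete valuation ring with fraction field `F`, `B` a Dedekind domain, finite and torsion-free
over `A`, with fraction field `F'`.  Then `B` has finitely many nonzero primes and for `f ≠ 0` in `F'`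
`v_𝔪 (N_{F'/F} f) = ∏_P v_P(f) ^ f(P|𝔪)`.
-/

set_option autoImplicit false
set_option linter.unusedSectionVars false
set_option linter.overlappingInstances false
set_option linter.style.haveILetI false

open IsDedekindDomain WithZero

namespace Fermat.Agent.ES.H

section

variable {A B : Type*} [CommRing A] [IsDomain A] [IsDiscreteValuationRing A]
  [CommRing B] [IsDomain B] [IsDedekindDomain B] [Algebra A B] [Module.Finite A B]
  [Module.IsTorsionFree A B]

/-- Every nonzero prime of `B` lies over the maximal ideal of `A`. -/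
theorem liesOver_maximalIdeal (P : HeightOneSpectrum B) :
    P.asIdeal.LiesOver (IsLocalRing.maximalIdeal A) := by
  constructor
  have hint : Algebra.IsIntegral A B := inferInstance
  have hprime : (P.asIdeal.under A).IsPrime := inferInstance
  have hne : P.asIdeal.under A ≠ ⊥ := by
    intro h
    have := Ideal.eq_bot_of_comap_eq_bot (R := A) (I := P.asIdeal) h
    exact P.ne_bot this
  have hmax : (P.asIdeal.under A).IsMaximal := Ring.DimensionLEOne.maximalOfPrime hne hprime
  exact (IsLocalRing.eq_maximalIdeal hmax).symm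

/-- `B` has finitely many nonzero primes. -/
theorem finite_heightOneSpectrum (A : Type*) {B : Type*} [CommRing A] [IsDomain A]
    [IsDiscreteValuationRing A] [CommRing B] [IsDomain B] [IsDedekindDomain B] [Algebra A B]
    [Module.Finite A B] [Module.IsTorsionFree A B] : Finite (HeightOneSpectrum B) := by
  have hfin : ((IsLocalRing.maximalIdeal A).primesOver B).Finite :=
    Algebra.QuasiFinite.finite_primesOver (IsLocalRing.maximalIdeal A)
  haveI : Finite ((IsLocalRing.maximalIdeal A).primesOver B) := hfin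
  let g : HeightOneSpectrum B → (IsLocalRing.maximalIdeal A).primesOver B :=
    fun P => ⟨P.asIdeal, P.isPrime, liesOver_maximalIdeal P⟩
  have hg : Function.Injective g := by
    intro P Q h
    have h' : P.asIdeal = Q.asIdeal := congrArg Subtype.val h
    exact HeightOneSpectrum.ext h'
  exact Finite.of_injective g hg

/-- If `(a) = 𝔪 ^ k` then `v_𝔪 (a) = exp (-k)`. -/
theorem intValuation_eq_of_span_eq_pow (v : HeightOneSpectrum A) {a : A} {k : ℕ}
    (h : Ideal.span {a} = v.asIdeal ^ k) : v.intValuation a = exp (-(k : ℤ)) := by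
  have ha0 : a ≠ 0 := by
    rintro rfl
    rw [Ideal.span_singleton_eq_bot.mpr rfl] at h
    exact (pow_ne_zero k v.ne_bot) h.symm
  rw [v.intValuation_if_neg ha0, h]
  congr 2
  rw [Associates.mk_pow, Associates.count_pow (Associates.mk_ne_zero.mpr v.ne_bot)
    v.associates_irreducible, Associates.count_self v.associates_irreducible, mul_one]

theorem exp_sum_eq_prod {ι : Type*} (s : Finset ι) (f : ι → ℤ) :
    (exp (∑ i ∈ s, f i) : ℤᵐ⁰) = ∏ i ∈ s, exp (f i) := by
  classical
  induction s using Finset.induction_on with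
  | empty => simp
  | insert i s hi ih => rw [Finset.sum_insert hi, Finset.prod_insert hi, exp_add, ih]

/-- The valuation of the integral norm of `b ≠ 0`. -/
theorem intValuation_intNorm [PerfectField (FractionRing A)] [Fintype (HeightOneSpectrum B)]
    (b : B) (hb : b ≠ 0) :
    (IsDiscreteValuationRing.maximalIdeal A).intValuation (Algebra.intNorm A B b)
      = ∏ P : HeightOneSpectrum B, (P.intValuation b) ^ (P.asIdeal.inertiaDeg A) := by
  classical
  set 𝔪 := IsDiscreteValuationRing.maximalIdeal A with h𝔪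
  have h𝔪ideal : 𝔪.asIdeal = IsLocalRing.maximalIdeal A := rfl
  have hI : (Ideal.span {b} : Ideal B) ≠ 0 := by
    rw [Ne, Ideal.zero_eq_bot, Ideal.span_singleton_eq_bot]
    exact hb
  let n : HeightOneSpectrum B → ℕ := fun P =>
    (Associates.mk P.asIdeal).count (Associates.mk (Ideal.span {b} : Ideal B)).factors
  have hfact : ∏ P : HeightOneSpectrum B, P.asIdeal ^ n P = Ideal.span {b} := by
    have := Ideal.finprod_heightOneSpectrum_factorization hI
    rw [finprod_eq_prod_of_fintype] at this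
    exact this
  have hrel : ∀ P : HeightOneSpectrum B,
      Ideal.relNorm A P.asIdeal = 𝔪.asIdeal ^ (P.asIdeal.inertiaDeg A) := by
    intro P
    haveI : P.asIdeal.LiesOver 𝔪.asIdeal := liesOver_maximalIdeal P
    haveI : P.asIdeal.IsMaximal := P.isMaximal
    haveI : 𝔪.asIdeal.IsMaximal := 𝔪.isMaximal
    exact Ideal.relNorm_eq_pow_of_isMaximal P.asIdeal 𝔪.asIdeal
  have hspan : Ideal.span {Algebra.intNorm A B b} =
      𝔪.asIdeal ^ (∑ P : HeightOneSpectrum B, P.asIdeal.inertiaDeg A * n P) := by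
    rw [← Ideal.relNorm_singleton, ← hfact, map_prod, ← Finset.prod_pow_eq_pow_sum]
    refine Finset.prod_congr rfl fun P _ => ?_
    rw [map_pow, hrel P, pow_mul]
  rw [intValuation_eq_of_span_eq_pow 𝔪 hspan]
  have hP : ∀ P : HeightOneSpectrum B,
      (P.intValuation b) ^ (P.asIdeal.inertiaDeg A) =
        exp (-((P.asIdeal.inertiaDeg A * n P : ℕ) : ℤ)) := by
    intro P
    rw [P.intValuation_if_neg hb, ← exp_nsmul]
    congr 1
    simp only [n]
    push_cast
    ring
  simp_rw [hP]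
  rw [← exp_sum_eq_prod]
  congr 1
  push_cast
  rw [Finset.sum_neg_distrib]

end

/-- **Norm formula** for an extension `B/A` of a discrete valuation ring by a Dedekind domain:
`B` has finitely many nonzero primes and `v_𝔪 (N f) = ∏_P v_P(f) ^ f(P|𝔪)`. -/
theorem valuation_norm_eq_finprod
    {A B F F' : Type*} [CommRing A] [IsDomain A] [IsDiscreteValuationRing A]
    [CommRing B] [IsDomain B] [IsDedekindDomain B] [Algebra A B] [Module.Finite A B]
    [Module.IsTorsionFree A B]
    [Field F] [Field F'] [Algebra A F] [IsFractionRing A F] [Algebra B F'] [IsFractionRing B F']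
    [Algebra F F'] [Algebra A F'] [IsScalarTower A F F'] [IsScalarTower A B F'] [CharZero F]
    (f : F') (hf : f ≠ 0) :
    (Set.univ : Set (HeightOneSpectrum B)).Finite ∧
    (IsDiscreteValuationRing.maximalIdeal A).valuation F (Algebra.norm F f)
      = ∏ᶠ P : HeightOneSpectrum B, (P.valuation F' f) ^ (P.asIdeal.inertiaDeg A) := by
  classical
  haveI hfin : Finite (HeightOneSpectrum B) := finite_heightOneSpectrum A
  letI : Fintype (HeightOneSpectrum B) := Fintype.ofFinite _
  refine ⟨Set.finite_univ, ?_⟩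
  rw [finprod_eq_prod_of_fintype]
  -- characteristic zero, perfect
  haveI : CharZero A := (algebraMap A F).charZero
  haveI : CharZero (FractionRing A) :=
    charZero_of_injective_algebraMap (IsFractionRing.injective A (FractionRing A))
  haveI : PerfectField (FractionRing A) := inferInstance
  haveI : IsIntegralClosure B A F' := IsIntegralClosure.of_isIntegrallyClosed B A F'
  haveI : FiniteDimensional F F' := Module.Finite.of_isLocalization A B (nonZeroDivisors A)
  set 𝔪 := IsDiscreteValuationRing.maximalIdeal A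
  -- the right-hand side as a function
  let Φ : F' → ℤᵐ⁰ := fun g =>
    ∏ P : HeightOneSpectrum B, (P.valuation F' g) ^ (P.asIdeal.inertiaDeg A)
  have hΦmul : ∀ g h : F', Φ (g * h) = Φ g * Φ h := by
    intro g h
    simp only [Φ, map_mul, mul_pow, Finset.prod_mul_distrib]
  -- the case of an element of `B`
  have hB : ∀ b : B, b ≠ 0 →
      𝔪.valuation F (Algebra.norm F (algebraMap B F' b)) = Φ (algebraMap B F' b) := by
    intro b hb
    rw [← Algebra.algebraMap_intNorm (A := A) (B := B) (K := F) (L := F') b,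
      HeightOneSpectrum.valuation_of_algebraMap, intValuation_intNorm b hb]
    refine Finset.prod_congr rfl fun P _ => ?_
    rw [HeightOneSpectrum.valuation_of_algebraMap]
  obtain ⟨b₁, b₂, hb₂, hfb⟩ := IsFractionRing.div_surjective (A := B) f
  have hb₂0 : b₂ ≠ 0 := nonZeroDivisors.ne_zero hb₂
  have hβ₂0 : algebraMap B F' b₂ ≠ 0 := by
    rw [Ne, map_eq_zero_iff _ (IsFractionRing.injective B F')]
    exact hb₂0
  have hb₁0 : b₁ ≠ 0 := by
    rintro rfl
    rw [map_zero, zero_div] at hfb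
    exact hf hfb.symm
  have hmul : f * algebraMap B F' b₂ = algebraMap B F' b₁ := by
    rw [← hfb]
    field_simp
  have h1 : 𝔪.valuation F (Algebra.norm F f) * 𝔪.valuation F (Algebra.norm F (algebraMap B F' b₂))
      = 𝔪.valuation F (Algebra.norm F (algebraMap B F' b₁)) := by
    rw [← map_mul, ← map_mul, hmul]
  have h2 : Φ f * Φ (algebraMap B F' b₂) = Φ (algebraMap B F' b₁) := by
    rw [← hΦmul, hmul]
  rw [hB b₁ hb₁0, hB b₂ hb₂0, ← h2] at h1
  have hne : Φ (algebraMap B F' b₂) ≠ 0 := by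
    simp only [Φ]
    rw [Finset.prod_ne_zero_iff]
    intro P _
    apply pow_ne_zero
    rw [Valuation.ne_zero_iff]
    exact hβ₂0
  exact mul_right_cancel₀ hne h1

end Fermat.Agent.ES.H


end ZBES_005_0

/-! ### bundled: `Fermat.Agent.ES.Hb` -/
section ZBES_005_1

/-!
# ESpkg (H), piece Hb — `Σ e·f = n` and the norm formula for finite extensions of function fields

`K` algebraically closed of characteristic `0`, `F'/F` a finite extension of fields over `K` such
that all residue fields of places of `F` and `F'` are `K`.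
-/

set_option autoImplicit false
set_option linter.unusedSectionVars false
set_option linter.style.haveILetI false

noncomputable section

open AlgebraicCurve IsDedekindDomain WithZero

namespace Fermat.Agent.ES.H

open Fermat.Agent.S24

variable {K F F' : Type*} [Field K] [Field F] [Field F'] [Algebra K F] [Algebra K F']
  [Algebra F F'] [IsScalarTower K F F']

section Inertia

/-- The prelude's inertia degree is `1` when both residue fields are `K`. -/
theorem inertiaDeg_eq_one [Algebra.IsIntegral F F']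
    (hresF' : ∀ w : Place K F', Function.Bijective (algebraMap K w.ResidueField))
    (w : Place K F') : w.inertiaDeg F = 1 := by
  have hcomp : ∀ a : K, algebraMap (w.restrict F).ResidueField w.ResidueField
      (algebraMap K (w.restrict F).ResidueField a) = algebraMap K w.ResidueField a := fun a =>
    (IsScalarTower.algebraMap_apply K (w.restrict F).ResidueField w.ResidueField a).symm
  have hsurj : Function.Surjective (algebraMap (w.restrict F).ResidueField w.ResidueField) := by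
    intro y
    obtain ⟨a, ha⟩ := (hresF' w).2 y
    exact ⟨algebraMap K _ a, by rw [hcomp, ha]⟩
  have hinj : Function.Injective (algebraMap (w.restrict F).ResidueField w.ResidueField) :=
    (algebraMap (w.restrict F).ResidueField w.ResidueField).injective
  unfold Place.inertiaDeg
  rw [← (LinearEquiv.ofBijective (Algebra.linearMap (w.restrict F).ResidueField w.ResidueField)
    ⟨hinj, hsurj⟩).finrank_eq, Module.finrank_self]

end Inertia

section Main

variable [IsAlgClosed K] [FiniteDimensional F F'] [CharZero F]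

/-- Mathlib's inertia degree of a prime of `B_v` over `O_v` is `1`. -/
theorem ideal_inertiaDeg_eq_one
    (hresF : ∀ v : Place K F, Function.Bijective (algebraMap K v.ResidueField))
    (v : Place K F) (P : HeightOneSpectrum (Bv F' v)) :
    P.asIdeal.inertiaDeg v.toValuationSubring = 1 := by
  haveI := liesOver_maximalIdeal (A := v.toValuationSubring) P
  haveI : P.asIdeal.IsMaximal := P.isMaximal
  haveI : (IsLocalRing.maximalIdeal v.toValuationSubring).IsMaximal :=
    IsLocalRing.maximalIdeal.isMaximal _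
  rw [Ideal.inertiaDeg_eq_of_isMaximal (IsLocalRing.maximalIdeal v.toValuationSubring) P.asIdeal]
  let e : K ≃+* (v.toValuationSubring ⧸ IsLocalRing.maximalIdeal v.toValuationSubring) :=
    RingEquiv.ofBijective (algebraMap K v.ResidueField) (hresF v)
  exact polyClosure_finrank_eq_one
    (k' := v.toValuationSubring ⧸ IsLocalRing.maximalIdeal v.toValuationSubring)
    (L := (Bv F' v) ⧸ P.asIdeal)
    ((Ideal.Quotient.maximal_ideal_iff_isField_quotient _).mp inferInstance) e

theorem log_prod_ne_zero {ι : Type*} (s : Finset ι) (g : ι → ℤᵐ⁰) (hg : ∀ i ∈ s, g i ≠ 0) :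
    log (∏ i ∈ s, g i) = ∑ i ∈ s, log (g i) := by
  classical
  induction s using Finset.induction_on with
  | empty => simp
  | insert a s ha ih =>
    rw [Finset.prod_insert ha, Finset.sum_insert ha,
      log_mul (hg a (Finset.mem_insert_self a s))
        (Finset.prod_ne_zero_iff.mpr fun i hi => hg i (Finset.mem_insert_of_mem hi)),
      ih fun i hi => hg i (Finset.mem_insert_of_mem hi)]

/-- The norm formula in terms of the primes of `B_v`. -/
theorem ord_norm_eq_sum
    (hresF : ∀ v : Place K F, Function.Bijective (algebraMap K v.ResidueField))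
    (v : Place K F) [Fintype (HeightOneSpectrum (Bv F' v))] (f : F') (hf : f ≠ 0) :
    v.ord (Algebra.norm F f) = ∑ P : HeightOneSpectrum (Bv F' v), (placeOf v P).ord f := by
  have h := (valuation_norm_eq_finprod (A := v.toValuationSubring) (B := Bv F' v) (F := F)
    (F' := F') f hf).2
  rw [finprod_eq_prod_of_fintype] at h
  have h1 : v.adicValuation (Algebra.norm F f) =
      ∏ P : HeightOneSpectrum (Bv F' v), P.valuation F' f := by
    refine h.trans (Finset.prod_congr rfl fun P _ => ?_)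
    rw [ideal_inertiaDeg_eq_one hresF v P, pow_one]
  unfold Place.ord
  rw [h1, log_prod_ne_zero _ _ fun P _ => (Valuation.ne_zero_iff _).mpr hf, ← Finset.sum_neg_distrib]
  exact Finset.sum_congr rfl fun P _ => (placeOf_ord v P hf).symm

/-- The finite set of places over `v`. -/
theorem sum_placeOf_eq_sum_image (v : Place K F) [Fintype (HeightOneSpectrum (Bv F' v))]
    [DecidableEq (Place K F')] (g : Place K F' → ℤ) :
    ∑ P : HeightOneSpectrum (Bv F' v), g (placeOf v P) =
      ∑ w ∈ Finset.univ.image (placeOf (F' := F') v), g w :=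
  (Finset.sum_image fun _ _ _ _ h => placeOf_injective v h).symm

theorem mem_image_placeOf_iff (v : Place K F) [Fintype (HeightOneSpectrum (Bv F' v))]
    [DecidableEq (Place K F')] (w : Place K F') :
    w ∈ Finset.univ.image (placeOf (F' := F') v) ↔ w.restrict F = v := by
  rw [restrict_eq_iff, Finset.mem_image]
  simp

end Main

section Final

variable [IsAlgClosed K] [CharZero K] [FiniteDimensional F F']

/-- **Norm formula**: `div (N_{F'/F} f)` is the push-forward of `div f`. -/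
theorem pushforwardNormFormula
    (hresF : ∀ v : Place K F, Function.Bijective (algebraMap K v.ResidueField))
    (hresF' : ∀ w : Place K F', Function.Bijective (algebraMap K w.ResidueField)) :
    Divisor.PushforwardNormFormula K F F' := by
  classical
  haveI : CharZero F := charZero_of_injective_algebraMap (algebraMap K F).injective
  intro f hf D hD v
  haveI : Finite (HeightOneSpectrum (Bv F' v)) := finite_heightOneSpectrum v.toValuationSubring
  haveI : Fintype (HeightOneSpectrum (Bv F' v)) := Fintype.ofFinite _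
  rw [Divisor.pushforward_apply, ord_norm_eq_sum hresF v f hf,
    sum_placeOf_eq_sum_image v fun w => w.ord f]
  have h1 : ∀ w ∈ D.support, (if w.restrict F = v then D w * (w.inertiaDeg F : ℤ) else 0) =
      if w ∈ Finset.univ.image (placeOf (F' := F') v) then w.ord f else 0 := by
    intro w _
    simp only [mem_image_placeOf_iff, inertiaDeg_eq_one hresF' w, hD w, Nat.cast_one, mul_one]
  rw [Finset.sum_congr rfl h1, Finset.sum_ite_mem]
  refine Finset.sum_subset Finset.inter_subset_right fun w hw hnot => ?_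
  have : w ∉ D.support := fun h => hnot (Finset.mem_inter.mpr ⟨h, hw⟩)
  rw [Finsupp.notMem_support_iff, hD w] at this
  exact this

/-- **Fundamental identity** `Σ e·f = n`. -/
theorem sumRamificationInertia [HasPrincipalDivisors K F']
    (hresF : ∀ v : Place K F, Function.Bijective (algebraMap K v.ResidueField))
    (hresF' : ∀ w : Place K F', Function.Bijective (algebraMap K w.ResidueField)) :
    SumRamificationInertia K F F' := by
  classical
  haveI : CharZero F := charZero_of_injective_algebraMap (algebraMap K F).injective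
  refine ⟨fun v => ?_⟩
  haveI : Finite (HeightOneSpectrum (Bv F' v)) := finite_heightOneSpectrum v.toValuationSubring
  haveI : Fintype (HeightOneSpectrum (Bv F' v)) := Fintype.ofFinite _
  obtain ⟨π, hπ⟩ := IsDiscreteValuationRing.exists_irreducible v.toValuationSubring
  have hπord : v.ord (π : F) = 1 := v.ord_coe_irreducible hπ
  have hπ0 : (π : F) ≠ 0 := by
    intro h
    rw [h, v.ord_zero] at hπord
    exact zero_ne_one hπord
  have hfib : v.fiber F' = Finset.univ.image (placeOf (F' := F') v) := by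
    ext w
    rw [Place.mem_fiber, mem_image_placeOf_iff]
  have hterm : ∀ w ∈ v.fiber F', (w.ramificationIndex F : ℤ) * (w.inertiaDeg F : ℤ) =
      w.ord (algebraMap F F' (π : F)) := by
    intro w hw
    rw [w.ord_restrict (π : F), Place.mem_fiber.mp hw, hπord, inertiaDeg_eq_one hresF' w]
    simp
  rw [Finset.sum_congr rfl hterm, hfib,
    ← sum_placeOf_eq_sum_image v fun w => w.ord (algebraMap F F' (π : F)),
    ← ord_norm_eq_sum hresF v _ ((map_ne_zero _).mpr hπ0), Algebra.norm_algebraMap,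
    ← zpow_natCast, v.ord_zpow, hπord, mul_one]

end Final

end Fermat.Agent.ES.H

end
end ZBES_005_1

/-! ### bundled: `Fermat.Agent.ES.HInputs` -/
section ZBES_005_2

/-!
# ESpkg, piece (H): `HeckeInputsAlong ℚ̄ N ℓ`

The Hecke operator `T_ℓ` on `J₀(N)` of the prelude (`ModularCurve.heckeOperatorAlong`) is the
genuine push-pull correspondence: all inputs of `ModularCurve.HeckeInputsAlong` hold.
-/

set_option autoImplicit false

noncomputable section

open AlgebraicCurve ModularCurve IntermediateField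

namespace Fermat.Agent.ES.H

open Fermat.Agent.S24

variable (N ℓ : ℕ) [NeZero N] [NeZero ℓ]

/-- The fundamental identity along `β`. -/
theorem fundamentalIdentityAlong_heckeBetaBar :
    haveI := hasPrincipalDivisors_FF (N * ℓ)
    FundamentalIdentityAlong Kb (heckeBetaBar Kb N ℓ) (heckeBetaBarIntegral N ℓ) := by
  have hP := hasPrincipalDivisors_FF (N * ℓ)
  refine fundamentalIdentityAlong_of_sumRamificationInertia (heckeBetaBar Kb N ℓ)
    (heckeBetaBarIntegral N ℓ) ?_
  let _ := algebraAlong (heckeBetaBar Kb N ℓ)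
  have := isScalarTower_along (heckeBetaBar Kb N ℓ)
  have : FiniteDimensional (FF N) (FF (N * ℓ)) := finiteAlong_heckeBetaBar N ℓ
  exact sumRamificationInertia (residue_bijective_FF N) (residue_bijective_FF (N * ℓ))

/-- The norm formula along `α`. -/
theorem normFormulaAlong_heckeAlphaBar :
    NormFormulaAlong Kb (heckeAlphaBar Kb N ℓ) (finiteAlong_heckeAlphaBar N ℓ) := by
  let _ := algebraAlong (heckeAlphaBar Kb N ℓ)
  have := isScalarTower_along (heckeAlphaBar Kb N ℓ)
  have : FiniteDimensional (FF N) (FF (N * ℓ)) := finiteAlong_heckeAlphaBar N ℓ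
  exact pushforwardNormFormula (residue_bijective_FF N) (residue_bijective_FF (N * ℓ))

/-- **Piece (H)**: all inputs of the prelude's Hecke operator `T_ℓ` on `J₀(N)` hold. -/
theorem heckeInputsAlong : HeckeInputsAlong (AlgebraicClosure ℚ) N ℓ :=
  heckeInputsAlong_of N ℓ (fundamentalIdentityAlong_heckeBetaBar N ℓ)
    (normFormulaAlong_heckeAlphaBar N ℓ)

/-- The prelude's Hecke operator is the push-pull correspondence. -/
theorem heckeOperatorAlong_eq_heckePic0Bar :
    haveI := hasPrincipalDivisors_FF (N * ℓ)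
    heckeOperatorAlong (AlgebraicClosure ℚ) N ℓ =
      heckePic0Bar (heckeAlphaBarIntegral N ℓ) (heckeBetaBarIntegral N ℓ)
        (fundamentalIdentityAlong_heckeBetaBar N ℓ) (finiteAlong_heckeAlphaBar N ℓ)
        (normFormulaAlong_heckeAlphaBar N ℓ) :=
  haveI := hasPrincipalDivisors_FF (N * ℓ)
  heckeOperatorAlong_eq _ _ _ _ _

end Fermat.Agent.ES.H

end
end ZBES_005_2

/-! ### bundled: `Fermat.Agent.ES.G2.Frob` -/
section ZBES_005_3

/-!
# ES / G2, piece FROB: the Eichler–Shimura relation on `J₀(M)[p^∞]`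

`stmtFrobOfInj : StmtFrobOfInj`, i.e.
`StmtInj → StmtPrim → StmtHeckeNorm → ∀ M p, Fermat.Agent.ES.StmtFrob M p`.

Proof.  `x = [D]`, `p^n x = 0`, so `p^n D = div u`.  Then
`p^n (τ²D − T_ℓ(τD) + ℓ D) = div w` with `w = τ²u · u^ℓ / N_α(β(τu))`, where `N_α(β v)` has
`q`-expansion `kronHecke ℓ ζ v` (`StmtHeckeNorm`).  By Kronecker's congruence (K6 of
`ES/Kronecker.lean`) `w ≡ 1` in fraction form (`ReducesToOne`), hence `w = h^{p^n}` by `StmtInj`
and `τ²D − T_ℓ(τD) + ℓ D = div h`.
-/

set_option autoImplicit false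
set_option linter.style.haveILetI false

noncomputable section

namespace Fermat.Agent.ES.G2

open ModularCurve AlgebraicCurve Fermat.Agent.ES HahnSeries

namespace FrobAux

/-! ### Generic lemmas on divisors of functions -/

section Generic

variable {K F : Type*} [Field K] [Field F] [Algebra K F]

/-- the Galois translate of `div u` is `div (g u)` -/
theorem smul_apply_of_ord (g : SemilinearAut K F) {D : Divisor K F} {u : F}
    (hD : ∀ v : Place K F, D v = v.ord u) (w : Place K F) :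
    (g • D) w = w.ord (g • u) := by
  rw [SemilinearAut.divisor_smul_apply, hD]
  have h := SemilinearAut.ord_smul g (g⁻¹ • w) u
  rw [smul_inv_smul] at h
  exact h.symm

end Generic

section Corr

variable {K F F' : Type*} [Field K] [Field F] [Field F'] [Algebra K F] [Algebra K F']
variable [HasPrincipalDivisors K F']

/-- the correspondence `ψ_* φ^*` maps `div u` to `div (N_ψ (φ u))` -/
theorem correspondence_apply_of_ord (φ ψ : F →ₐ[K] F') (hφ : φ.toRingHom.IsIntegral)
    (hψ : ψ.toRingHom.IsIntegral) (hfin : FiniteAlong K ψ) (hN : NormFormulaAlong K ψ hfin)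
    {D : Divisor K F} {u : F} (hu : u ≠ 0) (hD : ∀ v : Place K F, D v = v.ord u)
    (v : Place K F) :
    Divisor.correspondence φ ψ hφ hψ D v =
      v.ord (letI := ψ.toRingHom.toAlgebra; Algebra.norm F (φ u)) := by
  rw [Divisor.correspondence_apply]
  have h1 : ∀ w : Place K F', Divisor.pullbackAlong φ hφ D w = w.ord (φ u) := by
    intro w
    letI := algebraAlong φ
    haveI := isScalarTower_along φ
    haveI := isIntegral_along φ hφ
    exact Divisor.pullback_apply_eq_ord hD w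
  have hφu : φ u ≠ 0 := by
    intro h
    exact hu (φ.toRingHom.injective (by simpa using h))
  letI := algebraAlong ψ
  haveI := isScalarTower_along ψ
  haveI := isIntegral_along ψ hψ
  haveI : Module.Finite F F' := hfin
  exact hN (φ u) hφu _ h1 v

end Corr

section Key

variable {K F F' : Type*} [Field K] [Field F] [Field F'] [Algebra K F] [Algebra K F']
variable [HasPrincipalDivisors K F']

/-- `N_ψ (φ v)`: the norm along `ψ` of the pull-back along `φ` -/
def frobNorm (φ ψ : F →ₐ[K] F') (v : F) : F :=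
  letI := ψ.toRingHom.toAlgebra
  Algebra.norm F (φ v)

omit [HasPrincipalDivisors K F'] in
theorem frobNorm_mul (φ ψ : F →ₐ[K] F') (a b : F) :
    frobNorm φ ψ (a * b) = frobNorm φ ψ a * frobNorm φ ψ b := by
  letI := ψ.toRingHom.toAlgebra
  show Algebra.norm F (φ (a * b)) = Algebra.norm F (φ a) * Algebra.norm F (φ b)
  rw [map_mul, map_mul]

omit [HasPrincipalDivisors K F'] in
theorem frobNorm_ne_zero (φ ψ : F →ₐ[K] F') (hfin : FiniteAlong K ψ) {a : F} (ha : a ≠ 0) :
    frobNorm φ ψ a ≠ 0 := by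
  letI := algebraAlong ψ
  haveI : Module.Finite F F' := hfin
  have hφa : φ a ≠ 0 := fun h0 => ha (φ.toRingHom.injective (by simpa using h0))
  exact Algebra.norm_ne_zero_iff.mpr hφa

omit [HasPrincipalDivisors K F'] in
/-- the function `w` for a quotient `f = Y₁ / Y₂` -/
theorem frob_w_mul (g : SemilinearAut K F) (φ ψ : F →ₐ[K] F') (hfin : FiniteAlong K ψ) (ℓ : ℕ)
    {Y₁ Y₂ : F} (hY₁ : Y₁ ≠ 0) (hY₂ : Y₂ ≠ 0) :
    ((g • g • (Y₁ / Y₂)) * (Y₁ / Y₂) ^ ℓ / frobNorm φ ψ (g • (Y₁ / Y₂))) *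
        (frobNorm φ ψ (g • Y₁) * (Y₂ ^ ℓ * (g • g • Y₂)))
      = (Y₁ ^ ℓ * (g • g • Y₁)) * frobNorm φ ψ (g • Y₂) := by
  have hgY₁0 : g • Y₁ ≠ 0 := by simpa using hY₁
  have hgY₂0 : g • Y₂ ≠ 0 := by simpa using hY₂
  have hggY₂0 : g • g • Y₂ ≠ 0 := by simpa using hY₂
  have hgf' : g • (Y₁ / Y₂) = (g • Y₁) / (g • Y₂) :=
    map_div₀ (SemilinearAut.toRingAut g) Y₁ Y₂
  have hggf' : g • g • (Y₁ / Y₂) = (g • g • Y₁) / (g • g • Y₂) := by
    rw [hgf']
    exact map_div₀ (SemilinearAut.toRingAut g) (g • Y₁) (g • Y₂)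
  have hn₁0 := frobNorm_ne_zero φ ψ hfin hgY₁0
  have hn₂0 := frobNorm_ne_zero φ ψ hfin hgY₂0
  have hnrm : frobNorm φ ψ (g • (Y₁ / Y₂)) = frobNorm φ ψ (g • Y₁) / frobNorm φ ψ (g • Y₂) := by
    rw [eq_div_iff hn₂0, ← frobNorm_mul, hgf', div_mul_cancel₀ _ hgY₂0]
  rw [hnrm, hggf', div_pow]
  field_simp

omit [HasPrincipalDivisors K F'] in
theorem frob_w_ne_zero (g : SemilinearAut K F) (φ ψ : F →ₐ[K] F') (hfin : FiniteAlong K ψ) (ℓ : ℕ)
    {f : F} (hf : f ≠ 0) : (g • g • f) * f ^ ℓ / frobNorm φ ψ (g • f) ≠ 0 := by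
  have hgf : g • f ≠ 0 := by simpa using hf
  have hggf : g • g • f ≠ 0 := by simpa using hf
  exact div_ne_zero (mul_ne_zero hggf (pow_ne_zero ℓ hf)) (frobNorm_ne_zero φ ψ hfin hgf)

/-- If `m • D = div f` then `m • (g² D − T (g D) + ℓ D) = div w`,
`w = g²f · f^ℓ / N_ψ(φ(g f))`, `T = ψ_* φ^*`. -/
theorem frob_ord_w (g : SemilinearAut K F) (φ ψ : F →ₐ[K] F')
    (hφ : φ.toRingHom.IsIntegral) (hψ : ψ.toRingHom.IsIntegral)
    (hfin : FiniteAlong K ψ) (hN : NormFormulaAlong K ψ hfin)
    (D : Divisor K F) (m : ℕ) (ℓ : ℕ)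
    (f : F) (hf : f ≠ 0) (hD : ∀ v : Place K F, (m : ℤ) * D v = v.ord f) (v : Place K F) :
    v.ord ((g • g • f) * f ^ ℓ / frobNorm φ ψ (g • f)) =
      (m : ℤ) * ((g • g • D) v - Divisor.correspondence φ ψ hφ hψ (g • D) v + (ℓ : ℤ) * D v) := by
  show v.ord ((g • g • f) * f ^ ℓ /
        (letI := ψ.toRingHom.toAlgebra; Algebra.norm F (φ (g • f)))) = _
  have hgf : g • f ≠ 0 := by simpa using hf
  have hggf : g • g • f ≠ 0 := by simpa using hf
  have hφgf : φ (g • f) ≠ 0 := fun h0 => hgf (φ.toRingHom.injective (by simpa using h0))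
  have hfl : f ^ ℓ ≠ 0 := pow_ne_zero ℓ hf
  letI := algebraAlong ψ
  haveI := isScalarTower_along ψ
  haveI := isIntegral_along ψ hψ
  haveI : Module.Finite F F' := hfin
  set nrm : F := Algebra.norm F (φ (g • f)) with hnrm
  have hnrm0 : nrm ≠ 0 := Algebra.norm_ne_zero_iff.mpr hφgf
  set Dg : Divisor K F := (m : ℤ) • (g • D) with hDg
  have hDm : ∀ v : Place K F, ((m : ℤ) • D) v = v.ord f := by
    intro v
    rw [Finsupp.smul_apply, smul_eq_mul, hD]
  have hDg' : ∀ v : Place K F, Dg v = v.ord (g • f) := by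
    intro v
    rw [hDg, ← smul_comm]
    exact smul_apply_of_ord g hDm v
  have hDgg : ∀ v : Place K F, ((m : ℤ) • (g • g • D)) v = v.ord (g • g • f) := by
    intro v
    rw [← smul_comm g (m : ℤ)]
    exact smul_apply_of_ord g hDg' v
  have hcorr : (m : ℤ) * Divisor.correspondence φ ψ hφ hψ (g • D) v = v.ord nrm := by
    have h1 := correspondence_apply_of_ord φ ψ hφ hψ hfin hN hgf hDg' v
    rw [hDg, map_zsmul, Finsupp.smul_apply, smul_eq_mul] at h1
    exact h1
  have h2 : v.ord ((g • g • f) * f ^ ℓ / nrm)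
      = v.ord (g • g • f) + (ℓ : ℤ) * v.ord f - v.ord nrm := by
    have h3 : v.ord (f ^ ℓ) = (ℓ : ℤ) * v.ord f := by
      have := v.ord_zpow f (ℓ : ℤ)
      rwa [zpow_natCast] at this
    rw [div_eq_mul_inv, v.ord_mul (mul_ne_zero hggf hfl) (inv_ne_zero hnrm0), v.ord_inv,
      v.ord_mul hggf hfl, h3]
    ring
  have h4 := hDgg v
  rw [Finsupp.smul_apply, smul_eq_mul] at h4
  rw [h2, ← h4, ← hcorr, ← hD v]
  ring

/-- If `m • D = div f` and `g²f · f^ℓ / N_ψ(φ(g f))` is an `m`-th power, then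
`g² [D] − T (g [D]) + ℓ [D] = 0`, `T = ψ_* φ^*`. -/
theorem frob_mk_eq_zero_of_pow (g : SemilinearAut K F) (φ ψ : F →ₐ[K] F')
    (hφ : φ.toRingHom.IsIntegral) (hψ : ψ.toRingHom.IsIntegral)
    (hFI : FundamentalIdentityAlong K φ hφ)
    (hfin : FiniteAlong K ψ) (hN : NormFormulaAlong K ψ hfin)
    (D : Divisor.degZero (K := K) (F := F)) (m : ℕ) (hm : m ≠ 0) (ℓ : ℕ)
    (f : F) (hf : f ≠ 0) (hD : ∀ v : Place K F, (m : ℤ) * (D : Divisor K F) v = v.ord f)
    (h : F)
    (hh : h ^ m = (g • g • f) * f ^ ℓ / frobNorm φ ψ (g • f)) :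
    g • g • Pic0.mk D - Pic0.correspondence φ ψ hφ hψ hFI hfin hN (g • Pic0.mk D)
      + ℓ • Pic0.mk D = 0 := by
  have hm' : (m : ℤ) ≠ 0 := by exact_mod_cast hm
  have hgf : g • f ≠ 0 := by simpa using hf
  have hggf : g • g • f ≠ 0 := by simpa using hf
  have hφgf : φ (g • f) ≠ 0 := fun h0 => hgf (φ.toRingHom.injective (by simpa using h0))
  have hfl : f ^ ℓ ≠ 0 := pow_ne_zero ℓ hf
  have hw := frob_ord_w g φ ψ hφ hψ hfin hN (D : Divisor K F) m ℓ f hf hD
  have hh0 : h ≠ 0 := by
    intro h0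
    rw [h0, zero_pow hm] at hh
    exact div_ne_zero (mul_ne_zero hggf hfl) (frobNorm_ne_zero φ ψ hfin hgf) hh.symm
  have hord : ∀ v : Place K F, v.ord h =
      (g • g • (D : Divisor K F)) v - Divisor.correspondence φ ψ hφ hψ (g • (D : Divisor K F)) v
        + (ℓ : ℤ) * (D : Divisor K F) v := by
    intro v
    have h1 : v.ord (h ^ m) = (m : ℤ) * v.ord h := by
      have := v.ord_zpow h (m : ℤ)
      rwa [zpow_natCast] at this
    have h5 := hw v
    rw [← hh, h1] at h5
    exact mul_left_cancel₀ hm' h5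
  rw [SemilinearAut.pic0_smul_mk, SemilinearAut.pic0_smul_mk, Pic0.correspondence_mk]
  show Pic0.mk (SemilinearAut.degZeroSMulHom g (SemilinearAut.degZeroSMulHom g D)
      - Pic0.degZeroCorrespondence φ ψ hφ hψ hFI (SemilinearAut.degZeroSMulHom g D)
      + ℓ • D) = 0
  refine (QuotientAddGroup.eq_zero_iff _).mpr ?_
  rw [AddSubgroup.mem_addSubgroupOf]
  refine ⟨h, hh0, fun v => ?_⟩
  rw [hord v]
  simp only [AddSubgroup.coe_add, AddSubgroup.coe_sub, AddSubgroup.coe_nsmul,
    SemilinearAut.coe_degZeroSMulHom, Pic0.coe_degZeroCorrespondence,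
    Finsupp.add_apply, Finsupp.sub_apply, Finsupp.smul_apply, nsmul_eq_mul]

end Key

end FrobAux

section Concrete

open FrobAux

/-- a primitive series is nonzero -/
theorem frob_ne_zero_of_kronPrim {L : Type*} [Field L] {A : ValuationSubring L}
    {y : LaurentSeries L} (hy : KronPrim A y) : y ≠ 0 := by
  rintro rfl
  obtain ⟨n, hn⟩ := hy.2
  apply hn
  rw [HahnSeries.coeff_zero]
  exact (ValuationSubring.mem_nonunits_iff_or (A := A)).mpr (Or.inl rfl)

/-- a primitive `ℓ`-th root of unity in `ℚ̄` -/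
theorem frob_exists_primitiveRoot (ℓ : ℕ) (hℓ : ℓ ≠ 0) : ∃ ζ : Qbˣ, IsPrimitiveRoot ζ ℓ := by
  haveI : NeZero ((ℓ : ℕ) : Qb) := ⟨by exact_mod_cast hℓ⟩
  haveI := IsSepClosed.hasEnoughRootsOfUnity Qb ℓ
  obtain ⟨ζ, hζ⟩ := HasEnoughRootsOfUnity.exists_primitiveRoot Qb ℓ
  obtain ⟨u, rfl⟩ := hζ.isUnit hℓ
  exact ⟨u, IsPrimitiveRoot.coe_units_iff.mp hζ⟩

/-- the Hecke operator of the prelude, on a class `[D]` -/
theorem frob_heckeOperatorBar_eq (M : ℕ) [NeZero M] (ℓ : ℕ) (hℓ : ℓ.Prime) :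
    haveI : NeZero ℓ := ⟨hℓ.ne_zero⟩
    haveI := Fermat.Agent.ES.H.hasPrincipalDivisors_FF (M * ℓ)
    ∀ x : JZero M, heckeOperatorBar M ⟨ℓ, hℓ⟩ x =
      Pic0.correspondence (heckeBetaBar Qb M ℓ) (heckeAlphaBar Qb M ℓ)
        (Fermat.Agent.ES.H.heckeBetaBarIntegral M ℓ) (Fermat.Agent.ES.H.heckeAlphaBarIntegral M ℓ)
        (Fermat.Agent.ES.H.fundamentalIdentityAlong_heckeBetaBar M ℓ)
        (Fermat.Agent.ES.H.finiteAlong_heckeAlphaBar M ℓ)
        (Fermat.Agent.ES.H.normFormulaAlong_heckeAlphaBar M ℓ) x := by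
  haveI : NeZero ℓ := ⟨hℓ.ne_zero⟩
  haveI := Fermat.Agent.ES.H.hasPrincipalDivisors_FF (M * ℓ)
  intro x
  have h1 : heckeOperatorBar M ⟨ℓ, hℓ⟩ x = heckeOperatorAlong Qb M ℓ x := rfl
  rw [h1, Fermat.Agent.ES.H.heckeOperatorAlong_eq_heckePic0Bar M ℓ]
  rfl

/-- **piece FROB.** -/
theorem stmtFrobOfInj : StmtFrobOfInj := by
  intro hInj hPrim hHN M p _ ℓ hℓ hgood A hA τ hτ x hx
  obtain ⟨n, hn⟩ := hx
  haveI : NeZero ℓ := ⟨hℓ.ne_zero⟩
  haveI := Fermat.Agent.ES.H.hasPrincipalDivisors_FF (M * ℓ)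
  have hp0 : p ≠ 0 := by
    rintro rfl
    exact hgood (by simp)
  have hℓM : ¬ ℓ ∣ M := fun h => hgood (dvd_mul_of_dvd_left h p)
  have hℓp : ¬ ℓ ∣ p ^ n := fun h => hgood (dvd_mul_of_dvd_right (hℓ.dvd_of_dvd_pow h) M)
  have hm0 : p ^ n ≠ 0 := pow_ne_zero n hp0
  obtain ⟨D, rfl⟩ := Pic0.mk_surjective x
  -- `p^n D` is principal
  have hprinc : (p ^ n • D) ∈
      (Divisor.principal (K := Qb) (F := modularFunctionFieldBar M)).addSubgroupOf
        (Divisor.degZero (K := Qb) (F := modularFunctionFieldBar M)) := by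
    have h1 : Pic0.mk (p ^ n • D) = 0 := hn
    exact (QuotientAddGroup.eq_zero_iff _).mp h1
  rw [AddSubgroup.mem_addSubgroupOf] at hprinc
  obtain ⟨f, hf, hfD⟩ := hprinc
  have hfD' : ∀ v : Place Qb (modularFunctionFieldBar M),
      ((p ^ n : ℕ) : ℤ) * (D : Divisor Qb (modularFunctionFieldBar M)) v = v.ord f := by
    intro v
    rw [← hfD v]
    simp [Finsupp.smul_apply]
  -- PRIM
  obtain ⟨c, y₁, y₂, hc, hy₁, hy₂, hp₁, hp₂, hfy⟩ := hPrim M ℓ hℓ A hA f hf
  obtain ⟨Y₁, hY₁s⟩ : ∃ Y₁ : modularFunctionFieldBar M, (Y₁ : LaurentSeries Qb) = y₁ :=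
    ⟨⟨y₁, hy₁⟩, rfl⟩
  obtain ⟨Y₂, hY₂s⟩ : ∃ Y₂ : modularFunctionFieldBar M, (Y₂ : LaurentSeries Qb) = y₂ :=
    ⟨⟨y₂, hy₂⟩, rfl⟩
  have hY₁ : Y₁ ≠ 0 := by
    intro h
    apply frob_ne_zero_of_kronPrim hp₁
    rw [← hY₁s, h]
    rfl
  have hY₂ : Y₂ ≠ 0 := by
    intro h
    apply frob_ne_zero_of_kronPrim hp₂
    rw [← hY₂s, h]
    rfl
  have hfY : f * Y₂ = algebraMap Qb (modularFunctionFieldBar M) c * Y₁ := by
    apply Subtype.ext
    show (f : LaurentSeries Qb) * (Y₂ : LaurentSeries Qb)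
      = algebraMap Qb (LaurentSeries Qb) c * (Y₁ : LaurentSeries Qb)
    rw [hY₁s, hY₂s, hfy, ModularCurve.algebraMap_laurentSeries_eq_single]
    rfl
  obtain ⟨f', hf'⟩ : ∃ f' : modularFunctionFieldBar M, f' = Y₁ / Y₂ := ⟨_, rfl⟩
  have hf'0 : f' ≠ 0 := hf' ▸ div_ne_zero hY₁ hY₂
  have hff' : f = algebraMap Qb (modularFunctionFieldBar M) c * f' := by
    rw [hf', mul_div_assoc', ← hfY, mul_div_cancel_right₀ _ hY₂]
  have hcF : algebraMap Qb (modularFunctionFieldBar M) c ≠ 0 := by rwa [Ne, map_eq_zero]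
  have hordf : ∀ v : Place Qb (modularFunctionFieldBar M), v.ord f' = v.ord f := by
    intro v
    rw [hff', v.ord_mul hcF hf'0, Fermat.Agent.S24.PlaceAux.ord_algebraMap v c, zero_add]
  have hD' : ∀ v : Place Qb (modularFunctionFieldBar M),
      ((p ^ n : ℕ) : ℤ) * (D : Divisor Qb (modularFunctionFieldBar M)) v = v.ord f' := by
    intro v
    rw [hordf v, hfD' v]
  -- the root of unity
  obtain ⟨ζ, hζ⟩ := frob_exists_primitiveRoot ℓ hℓ.ne_zero
  have hζ1 : ζ ^ ℓ = 1 := hζ.pow_eq_one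
  -- the Galois element
  obtain ⟨g, hg⟩ : ∃ g : SemilinearAut Qb (modularFunctionFieldBar M),
      g = arithmeticGalois (modularFunctionFieldFull M) τ := ⟨_, rfl⟩
  have hgs : ∀ v : modularFunctionFieldBar M,
      ((g • v : modularFunctionFieldBar M) : LaurentSeries Qb)
        = coeffMap (τ : Qb →+* Qb) (v : LaurentSeries Qb) := by
    intro v
    rw [hg]
    rfl
  have hgx : ∀ z : JZero M, τ • z = g • z := by
    intro z
    rw [hg]
    rfl
  -- the norms
  have hHN' : ∀ v : modularFunctionFieldBar M,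
      ((frobNorm (heckeBetaBar Qb M ℓ) (heckeAlphaBar Qb M ℓ) v : modularFunctionFieldBar M) :
        LaurentSeries Qb) = kronHecke ℓ ζ (v : LaurentSeries Qb) :=
    fun v => hHN M ℓ hℓ hℓM ζ hζ v
  obtain ⟨n₁, hn₁⟩ : ∃ n₁ : modularFunctionFieldBar M,
      n₁ = frobNorm (heckeBetaBar Qb M ℓ) (heckeAlphaBar Qb M ℓ) (g • Y₁) := ⟨_, rfl⟩
  obtain ⟨n₂, hn₂⟩ : ∃ n₂ : modularFunctionFieldBar M,
      n₂ = frobNorm (heckeBetaBar Qb M ℓ) (heckeAlphaBar Qb M ℓ) (g • Y₂) := ⟨_, rfl⟩
  have hn₁s : (n₁ : LaurentSeries Qb) = kronHecke ℓ ζ (coeffMap (τ : Qb →+* Qb) y₁) := by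
    rw [hn₁, hHN', hgs, hY₁s]
  have hn₂s : (n₂ : LaurentSeries Qb) = kronHecke ℓ ζ (coeffMap (τ : Qb →+* Qb) y₂) := by
    rw [hn₂, hHN', hgs, hY₂s]
  obtain ⟨a₁, ha₁⟩ : ∃ a₁ : modularFunctionFieldBar M, a₁ = g • g • Y₁ := ⟨_, rfl⟩
  obtain ⟨a₂, ha₂⟩ : ∃ a₂ : modularFunctionFieldBar M, a₂ = g • g • Y₂ := ⟨_, rfl⟩
  have ha₁s : (a₁ : LaurentSeries Qb)
      = coeffMap (τ : Qb →+* Qb) (coeffMap (τ : Qb →+* Qb) y₁) := by
    rw [ha₁, hgs, hgs, hY₁s]
  have ha₂s : (a₂ : LaurentSeries Qb)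
      = coeffMap (τ : Qb →+* Qb) (coeffMap (τ : Qb →+* Qb) y₂) := by
    rw [ha₂, hgs, hgs, hY₂s]
  obtain ⟨w, hw⟩ : ∃ w : modularFunctionFieldBar M, w =
    (g • g • f') * f' ^ ℓ /
      frobNorm (heckeBetaBar Qb M ℓ) (heckeAlphaBar Qb M ℓ) (g • f') := ⟨_, rfl⟩
  have hw0 : w ≠ 0 :=
    hw ▸ frob_w_ne_zero g _ _ (Fermat.Agent.ES.H.finiteAlong_heckeAlphaBar M ℓ) ℓ hf'0
  have hwmul : w * (n₁ * (Y₂ ^ ℓ * a₂)) = (Y₁ ^ ℓ * a₁) * n₂ := by
    rw [hw, hn₁, hn₂, ha₁, ha₂, hf']
    exact frob_w_mul g (heckeBetaBar Qb M ℓ) (heckeAlphaBar Qb M ℓ)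
      (Fermat.Agent.ES.H.finiteAlong_heckeAlphaBar M ℓ) ℓ hY₁ hY₂
  have hwmuls : (w : LaurentSeries Qb) * ((n₁ : LaurentSeries Qb) *
      ((Y₂ : LaurentSeries Qb) ^ ℓ * (a₂ : LaurentSeries Qb)))
        = ((Y₁ : LaurentSeries Qb) ^ ℓ * (a₁ : LaurentSeries Qb)) * (n₂ : LaurentSeries Qb) :=
    congrArg Subtype.val hwmul
  rw [hn₁s, hn₂s, ha₁s, ha₂s, hY₁s, hY₂s] at hwmuls
  -- `w` reduces to one
  have hred : ReducesToOne A M w := by
    refine ⟨(y₁ ^ ℓ * coeffMap (τ : Qb →+* Qb) (coeffMap (τ : Qb →+* Qb) y₁)) *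
        kronHecke ℓ ζ (coeffMap (τ : Qb →+* Qb) y₂),
      kronHecke ℓ ζ (coeffMap (τ : Qb →+* Qb) y₁) *
        (y₂ ^ ℓ * coeffMap (τ : Qb →+* Qb) (coeffMap (τ : Qb →+* Qb) y₂)), ?_, ?_, ?_, ?_, ?_, ?_⟩
    · rw [← hn₂s, ← ha₁s]
      exact mul_mem (mul_mem (pow_mem hy₁ ℓ) a₁.2) n₂.2
    · rw [← hn₁s, ← ha₂s]
      exact mul_mem n₁.2 (mul_mem (pow_mem hy₂ ℓ) a₂.2)
    · exact (kronPrim_frob_rhs τ hτ hp₁).mul (kronPrim_kronHecke_frob hℓ hA ζ hζ1 τ hτ hp₂)
    · exact (kronPrim_kronHecke_frob hℓ hA ζ hζ1 τ hτ hp₁).mul (kronPrim_frob_rhs τ hτ hp₂)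
    · have hP₁ := (kronPrim_frob_rhs τ hτ hp₁).1
      have hP₂ := (kronPrim_frob_rhs τ hτ hp₂).1
      have hH₁ := (kronPrim_kronHecke_frob hℓ hA ζ hζ1 τ hτ hp₁).1
      have hH₂ := (kronPrim_kronHecke_frob hℓ hA ζ hζ1 τ hτ hp₂).1
      have e1 := KronCongr.mul (A := A) hP₁ hP₁ hH₂ hP₂ (KronCongr.refl _)
        (kronHecke_frob_congr hℓ hA ζ hζ1 τ hτ hp₂.1)
      have e2 := KronCongr.mul (A := A) hP₁ hH₁ hP₂ hP₂
        (kronHecke_frob_congr hℓ hA ζ hζ1 τ hτ hp₁.1).symm (KronCongr.refl _)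
      exact e1.trans e2
    · exact hwmuls
  have hordw := frob_ord_w g (heckeBetaBar Qb M ℓ) (heckeAlphaBar Qb M ℓ)
    (Fermat.Agent.ES.H.heckeBetaBarIntegral M ℓ) (Fermat.Agent.ES.H.heckeAlphaBarIntegral M ℓ)
    (Fermat.Agent.ES.H.finiteAlong_heckeAlphaBar M ℓ)
    (Fermat.Agent.ES.H.normFormulaAlong_heckeAlphaBar M ℓ)
    (D : Divisor Qb (modularFunctionFieldBar M)) (p ^ n) ℓ f' hf'0 hD'
  rw [← hw] at hordw
  have hdiv : ∀ P : Place Qb (modularFunctionFieldBar M), ((p ^ n : ℕ) : ℤ) ∣ P.ord w := by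
    intro P
    rw [hordw P]
    exact dvd_mul_right _ _
  obtain ⟨h, hh⟩ := hInj M ℓ hℓ hℓM A hA (p ^ n) hℓp w hw0 hred hdiv
  rw [hw] at hh
  rw [hgx, hgx]
  have hT := frob_heckeOperatorBar_eq M ℓ hℓ (g • Pic0.mk D)
  have key := frob_mk_eq_zero_of_pow g (heckeBetaBar Qb M ℓ) (heckeAlphaBar Qb M ℓ)
    (Fermat.Agent.ES.H.heckeBetaBarIntegral M ℓ) (Fermat.Agent.ES.H.heckeAlphaBarIntegral M ℓ)
    (Fermat.Agent.ES.H.fundamentalIdentityAlong_heckeBetaBar M ℓ)
    (Fermat.Agent.ES.H.finiteAlong_heckeAlphaBar M ℓ)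
    (Fermat.Agent.ES.H.normFormulaAlong_heckeAlphaBar M ℓ)
    D (p ^ n) hm0 ℓ f' hf'0 hD' h hh
  exact (congrArg (fun t => g • g • Pic0.mk D - t + ℓ • Pic0.mk D) hT).trans key

end Concrete

end Fermat.Agent.ES.G2

end
end ZBES_005_3

/-! ### bundled: `Fermat.Agent.ES.G2.S37Plan` -/
section ZBES_005_4

/-!
# S37-in by the BOUNDEDNESS TRICK (no reduction of places): interface

`F = F_N ⊂ ℚ̄((q))`, `A ⊂ ℚ̄` a valuation ring over `ℓ ∤ N p`, `I` its inertia group, `φ` a Frobenius,
`T = heckeOperatorBar N ℓ`, `Ψ = φ² − T φ + ℓ`.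

* S37 ⇔ `(K4)`: the subgroup `K̄ = ⟨(σ − 1) x, Ψ x⟩ ⊂ J₀(N)` meets `J₀(N)[p^∞]` trivially
  (`ES/G2/S37Glue2.lean`).
* `(K4)` ⇐ `StmtInj` + `[CONG]`: if `div w = m E` with `E = Σ (σ_i − 1) D_i + Ψ D_z`, then `w` is
  Gauss-constant.
* `[CONG]`: Riemann gives `n D = A_n − g P₀ + div f_n` with `A_n ≥ 0` of degree `g`, so
  `y_n := w ^ n / G_n ^ m` (`G_n` Gauss-constant by Kronecker) has at most `m C` poles, `C`
  independent of `n`, whereas `y_n ≡ c · w ^ n`.  If `w` is not Gauss-constant the `n (J + 1)`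
  functions `w ^ i y_n ^ j` are linearly independent (`StmtGCIndep`) and lie in a Riemann–Roch
  space of dimension `≤ (n − 1) d + J m C + 1`: contradiction for `n = m C + 1`, `J` large.

This file fixes the predicate `GaussConst` and the statements of the three concrete inputs:
`StmtGCInertia`, `StmtGCFrob` (Kronecker, extracted from `Unram.lean` / `Frob.lean`) and
`StmtGCIndep` (linear independence from the reduction).
-/

set_option autoImplicit false

noncomputable section

namespace Fermat.Agent.ES.G2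

open ModularCurve AlgebraicCurve Fermat.Agent.ES

/-- `u` is a nonzero constant times a function which reduces to one at `A`
("the Gauss reduction of `u` is a constant"). -/
def GaussConst (A : ValuationSubring Qb) (N : ℕ) [NeZero N]
    (u : modularFunctionFieldBar N) : Prop :=
  ∃ c : Qb, c ≠ 0 ∧ ReducesToOne A N (algebraMap Qb (modularFunctionFieldBar N) c * u)

/-- the multiplicative operator attached to `σ − 1` -/
def gcInertiaOp (N : ℕ) [NeZero N] (σ : Qb ≃ₐ[ℚ] Qb) (f : modularFunctionFieldBar N) :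
    modularFunctionFieldBar N :=
  (arithmeticGalois (modularFunctionFieldFull N) σ • f) / f

/-- the multiplicative operator attached to `Ψ = τ² − T_ℓ τ + ℓ`
(the function `w` of `Frob.lean`) -/
def gcFrobOp (N : ℕ) [NeZero N] (ℓ : ℕ) [NeZero ℓ] (τ : Qb ≃ₐ[ℚ] Qb)
    (f : modularFunctionFieldBar N) : modularFunctionFieldBar N :=
  (arithmeticGalois (modularFunctionFieldFull N) τ •
      arithmeticGalois (modularFunctionFieldFull N) τ • f) * f ^ ℓ /
    FrobAux.frobNorm (heckeBetaBar Qb N ℓ) (heckeAlphaBar Qb N ℓ)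
      (arithmeticGalois (modularFunctionFieldFull N) τ • f)

/-- piece `S37-KRON (a)`: `σ f / f` is Gauss-constant for `σ` in the inertia group. -/
def StmtGCInertia : Prop :=
  StmtPrim → ∀ (N : ℕ) [NeZero N] (ℓ : ℕ), ℓ.Prime →
    ∀ A : ValuationSubring Qb, A.LiesOverPrime ℓ →
      ∀ σ ∈ A.inertiaSubgroupIn ℚ, ∀ f : modularFunctionFieldBar N, f ≠ 0 →
        GaussConst A N (gcInertiaOp N σ f)

/-- piece `S37-KRON (b)`: `τ² f · f^ℓ / N_α(β(τ f))` is Gauss-constant for a Frobenius `τ`. -/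
def StmtGCFrob : Prop :=
  StmtPrim → StmtHeckeNorm → ∀ (N : ℕ) [NeZero N] (ℓ : ℕ) [NeZero ℓ], ℓ.Prime → ¬ ℓ ∣ N →
    ∀ A : ValuationSubring Qb, A.LiesOverPrime ℓ →
      ∀ τ : Qb ≃ₐ[ℚ] Qb, A.IsFrobeniusAt τ ℓ → ∀ f : modularFunctionFieldBar N, f ≠ 0 →
        GaussConst A N (gcFrobOp N ℓ τ f)

/-- piece `S37-INDEP`: if `x` is not Gauss-constant and `y ≡ c · x ^ n`, then the functions
`x ^ i y ^ j` (`i < n`, `j < J`) are linearly independent over `ℚ̄`. -/
def StmtGCIndep : Prop :=
  StmtPrim → ∀ (N : ℕ) [NeZero N] (ℓ : ℕ), ℓ.Prime →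
    ∀ A : ValuationSubring Qb, A.LiesOverPrime ℓ →
      ∀ x y : modularFunctionFieldBar N, x ≠ 0 → y ≠ 0 → ¬ GaussConst A N x →
        ∀ n : ℕ, 0 < n → GaussConst A N (y / x ^ n) →
          ∀ J : ℕ, LinearIndependent Qb
            (fun ij : Fin n × Fin J => x ^ (ij.1 : ℕ) * y ^ (ij.2 : ℕ))

/-- the target of S37-in: for every `N`, `p` the glue inputs exist when the Hecke operators
commute. -/
def StmtS37In : Prop :=
  ∀ (N p : ℕ) [NeZero N], HeckeOperatorsCommuteBar N → GlueInputsJZero N p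

end Fermat.Agent.ES.G2

end
end ZBES_005_4

/-! ### bundled: `Fermat.Agent.STB.Stmt` -/
section ZBES_005_5

/-!
# STB (phase 2 of item 34, S35): the statements

`M = M₁ * q`, `q ∤ M₁`.  `α, β : F_{M₁} → F_{M₁ q}` are the two degeneracy embeddings of the
prelude (`heckeAlphaBar`, `heckeBetaBar`).

* `stbNormAlpha`, `stbNormBeta` : the norms `F_{M₁ q} → F_{M₁}` along `α`, `β`.
* `stbPushAlpha`, `stbPushBeta` : the push-forwards `J₀(M₁ q) → J₀(M₁)` along `α`, `β`.
* `stbFrobExpr g Q u` : `(g² − Q)(g² − 1) u` written multiplicatively.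
* `StmtNewFrobKummerAt M₁ q` : (P7-a) in Kummer form — THE TARGET OF STB-MG.
* `StmtNewFrobJ M₁ q p` : (P7-a) on `J₀(M₁ q)[p^∞]` — proved from the Kummer form in `JForm.lean`.

See NOTES/S35-plan.md.
-/

set_option autoImplicit false

noncomputable section

namespace Fermat.Agent.STB

open ModularCurve AlgebraicCurve Fermat.Agent.ES Fermat.Agent.ES.G2 Fermat.Agent.ES.H
open Fermat.Agent.S24

variable (M₁ q : ℕ) [NeZero M₁] [NeZero q]

/-- the norm `F_{M₁ q} → F_{M₁}` along an embedding -/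
def stbNormAlong (φ : modularFunctionFieldBar M₁ →ₐ[Kb] modularFunctionFieldBar (M₁ * q))
    (y : modularFunctionFieldBar (M₁ * q)) : modularFunctionFieldBar M₁ :=
  letI := algebraAlong φ
  Algebra.norm (modularFunctionFieldBar M₁) y

/-- the norm `F_{M₁ q} → F_{M₁}` along `α` -/
def stbNormAlpha (y : modularFunctionFieldBar (M₁ * q)) : modularFunctionFieldBar M₁ :=
  stbNormAlong M₁ q (heckeAlphaBar Kb M₁ q) y

/-- the norm `F_{M₁ q} → F_{M₁}` along `β` -/
def stbNormBeta (y : modularFunctionFieldBar (M₁ * q)) : modularFunctionFieldBar M₁ :=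
  stbNormAlong M₁ q (heckeBetaBar Kb M₁ q) y

/-- the push-forward `J₀(M₁ q) → J₀(M₁)` along a finite embedding -/
def stbPushAlong (φ : modularFunctionFieldBar M₁ →ₐ[Kb] modularFunctionFieldBar (M₁ * q))
    (hfin : FiniteAlong Kb φ) : JZero (M₁ * q) →+ JZero M₁ :=
  letI := algebraAlong φ
  haveI := isScalarTower_along φ
  haveI : FiniteDimensional (FF M₁) (FF (M₁ * q)) := hfin
  haveI : Algebra.IsIntegral (FF M₁) (FF (M₁ * q)) := Algebra.IsIntegral.of_finite _ _
  haveI := hasPrincipalDivisors_FF (M₁ * q)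
  Pic0.pushforwardHom Kb (FF M₁) (FF (M₁ * q))
    (pushforwardNormFormula (residue_bijective_FF M₁) (residue_bijective_FF (M₁ * q)))

/-- the push-forward `α_* : J₀(M₁ q) → J₀(M₁)` -/
def stbPushAlpha : JZero (M₁ * q) →+ JZero M₁ :=
  stbPushAlong M₁ q (heckeAlphaBar Kb M₁ q) (finiteAlong_heckeAlphaBar M₁ q)

/-- the push-forward `β_* : J₀(M₁ q) → J₀(M₁)` -/
def stbPushBeta : JZero (M₁ * q) →+ JZero M₁ :=
  stbPushAlong M₁ q (heckeBetaBar Kb M₁ q) (finiteAlong_heckeBetaBar M₁ q)

/-- the `q`-new part of `J₀(M₁ q)` -/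
def stbNew : AddSubgroup (JZero (M₁ * q)) :=
  (stbPushAlpha M₁ q).ker ⊓ (stbPushBeta M₁ q).ker

variable {M₁ q}

theorem mem_stbNew {x : JZero (M₁ * q)} :
    x ∈ stbNew M₁ q ↔ stbPushAlpha M₁ q x = 0 ∧ stbPushBeta M₁ q x = 0 := by
  simp [stbNew, AddSubgroup.mem_inf, AddMonoidHom.mem_ker]

/-- `(g² − Q)(g² − 1) u`, multiplicatively:  `g⁴u · u^Q / (g²u)^(Q+1)`. -/
def stbFrobExpr {F : Type*} [Field F] (g : F → F) (Q : ℕ) (u : F) : F :=
  g (g (g (g u))) * u ^ Q / (g (g u)) ^ (Q + 1)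

variable (M₁ q)

/-- **(P7-a) in Kummer form** at level `M₁ q`: if `m ∣ div u` and the norms of `u` along `α` and
`β` are constants times `m`-th powers, then `(φ² − q²)(φ² − 1)u` is an `m`-th power, for every
Frobenius element `φ` at a place `A` of `ℚ̄` over `q`. -/
def StmtNewFrobKummerAt : Prop :=
  ∀ A : ValuationSubring Qb, A.LiesOverPrime q →
    ∀ m : ℕ, ¬ q ∣ m →
      ∀ σ : Qb ≃ₐ[ℚ] Qb, A.IsFrobeniusAt σ q →
        ∀ u : modularFunctionFieldBar (M₁ * q), u ≠ 0 →
          (∀ P : Place Qb (modularFunctionFieldBar (M₁ * q)), (m : ℤ) ∣ P.ord u) →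
          (∃ (c : Qb) (f : modularFunctionFieldBar M₁),
            stbNormAlpha M₁ q u = algebraMap Qb (modularFunctionFieldBar M₁) c * f ^ m) →
          (∃ (c : Qb) (f : modularFunctionFieldBar M₁),
            stbNormBeta M₁ q u = algebraMap Qb (modularFunctionFieldBar M₁) c * f ^ m) →
            ∃ h : modularFunctionFieldBar (M₁ * q),
              h ^ m = stbFrobExpr
                (fun y => arithmeticGalois (modularFunctionFieldFull (M₁ * q)) σ • y)
                (q ^ 2) u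

/-- (P7-a) in Kummer form, all levels. -/
def StmtNewFrobKummer : Prop :=
  ∀ (M₁ q : ℕ) [NeZero M₁] [NeZero q], q.Prime → ¬ q ∣ M₁ → StmtNewFrobKummerAt M₁ q

/-- **(P7-a)** on `J₀(M₁ q)[p^∞]`: `(σ² − 1)(σ² − q²) = 0` on the `p`-power torsion of the
`q`-new part, for every Frobenius element `σ` at `q`. -/
def StmtNewFrobJ (p : ℕ) : Prop :=
  ∀ A : ValuationSubring Qb, A.LiesOverPrime q →
    ∀ σ : Qb ≃ₐ[ℚ] Qb, A.IsFrobeniusAt σ q →
      ∀ x : JZero (M₁ * q), (∃ n : ℕ, p ^ n • x = 0) → x ∈ stbNew M₁ q →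
        σ • σ • σ • σ • x + q ^ 2 • x = (q ^ 2 + 1) • (σ • σ • x)

end Fermat.Agent.STB

end
end ZBES_005_5

/-! ### bundled: `Fermat.Agent.ES.G2.Main` -/
section ZBES_005_6

/-!
# ES / G2 (item 37): assembly

All consumer pieces are proved (`PRIM`, `POW`, `HN`, `UNRAM`, `FROB`); the clauses `frob` and
`unram` of the Eichler–Shimura package for `J₀(M)(ℚ̄)` follow from the single statement
`StmtInjPrime` (equivalently from `Fermat.Agent.INJ.StmtINJAll`).
-/

set_option autoImplicit false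

namespace Fermat.Agent.ES.G2

/-- `(INJ)` for all exponents prime to `ℓ`, from prime exponents. -/
theorem stmtInj_of_stmtInjPrime (h : StmtInjPrime) : StmtInj :=
  stmtInjOfPrime stmtPrim h

/-- clause `unram` of the ES package, from `(INJ)` for prime exponents. -/
theorem stmtUnram_of_stmtInjPrime (h : StmtInjPrime) (M p : ℕ) [NeZero M] :
    Fermat.Agent.ES.StmtUnram M p :=
  stmtUnramOfInj (stmtInj_of_stmtInjPrime h) stmtPrim M p

/-- clause `frob` of the ES package, from `(INJ)` for prime exponents. -/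
theorem stmtFrob_of_stmtInjPrime (h : StmtInjPrime) (M p : ℕ) [NeZero M] :
    Fermat.Agent.ES.StmtFrob M p :=
  stmtFrobOfInj (stmtInj_of_stmtInjPrime h) stmtPrim stmtHeckeNorm M p

/-- clause `unram`, from the target of the INJ campaign. -/
theorem stmtUnram_of_stmtINJAll (h : Fermat.Agent.INJ.StmtINJAll) (M p : ℕ) [NeZero M] :
    Fermat.Agent.ES.StmtUnram M p :=
  stmtUnram_of_stmtInjPrime (stmtInjPrime_of_stmtINJAll h) M p

/-- clause `frob`, from the target of the INJ campaign. -/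
theorem stmtFrob_of_stmtINJAll (h : Fermat.Agent.INJ.StmtINJAll) (M p : ℕ) [NeZero M] :
    Fermat.Agent.ES.StmtFrob M p :=
  stmtFrob_of_stmtInjPrime (stmtInjPrime_of_stmtINJAll h) M p

end Fermat.Agent.ES.G2


end ZBES_005_6

/-! ### bundled: `Fermat.Agent.ES.FaithOfInputs` -/
section ZBES_005_7

/-!
# The faithful `p`-adic Eichler–Shimura package from the two remaining inputs

`esPkgFaith_of_inputs` : `S31.ESPkgFaith N p` (what S30, S31 consume) from

* `Fermat.Agent.INJ.StmtINJAll` (G2: injectivity of reduction on prime-to-`ℓ` torsion), and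
* `Fermat.Agent.ES.TorsionUnif N p` (G1: the multiplier map on the `p`-power torsion).
-/

set_option autoImplicit false

namespace Fermat.Agent.ES

theorem esPkgFaith_of_inputs (hINJ : Fermat.Agent.INJ.StmtINJAll) {N p : ℕ} [NeZero N]
    (hp : p.Prime) (hUT : TorsionUnif N p) : Fermat.Agent.S31.ESPkgFaith N p :=
  haveI : Fact p.Prime := ⟨hp⟩
  esPkgFaith_of_torsionUnif hUT (stmtFiniteLevel N p hp.ne_zero)
    (G2.stmtFrob_of_stmtINJAll hINJ N p) (G2.stmtUnram_of_stmtINJAll hINJ N p)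

theorem esPkgInf_of_inputs (hINJ : Fermat.Agent.INJ.StmtINJAll) {N p : ℕ} [NeZero N]
    (hp : p.Prime) (hUT : TorsionUnif N p) : ESPkgInf N p :=
  haveI : Fact p.Prime := ⟨hp⟩
  esPkgInf_of_torsionUnif hUT (stmtFiniteLevel N p hp.ne_zero)
    (G2.stmtFrob_of_stmtINJAll hINJ N p) (G2.stmtUnram_of_stmtINJAll hINJ N p)

end Fermat.Agent.ES


end ZBES_005_7

/-! ### bundled: `Fermat.Agent.ES.G2.S37Kron` -/
section ZBES_005_8

/-!
# ES / G2 (item 37), piece `S37-KRON`: Kronecker's congruences for ARBITRARY functions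

For every `f ∈ F_N^×` (no hypothesis on its divisor):

* `stmtGCInertia : StmtGCInertia` : `σ f / f` is Gauss-constant for `σ` in the inertia group of `A`;
* `stmtGCFrob : StmtGCFrob` : `Ψ^mult f := τ² f · f^ℓ / N_α(β(τ f))` is Gauss-constant for every
  Frobenius element `τ` at `A` (`ℓ ∤ N`).

Also the calculus `ReducesToOne.one/.mul/.inv/.div/.pow/.ne_zero`,
`GaussConst.of_reducesToOne/.const/.one/.mul/.inv/.div/.pow/.ne_zero/.const_mul/.list_prod`,
`gaussConst_iff`, and the multiplicativity of the operators `gcInertiaOp`, `gcFrobOp`.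
These are step (a) of the boundedness trick (helper99) for S37.
-/

set_option autoImplicit false
set_option linter.style.haveILetI false

noncomputable section

namespace Fermat.Agent.ES.G2

open ModularCurve AlgebraicCurve Fermat.Agent.ES HahnSeries FrobAux

/-- the constant series `1` is primitive -/
theorem s37Kron_kronPrim_one {L : Type*} [Field L] {A : ValuationSubring L} :
    KronPrim A (1 : LaurentSeries L) := by
  have h := (kronPrim_kronIncl_iff (A := A) (1 : LaurentSeries A)).mpr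
    (by rw [map_one]; exact one_ne_zero)
  rwa [map_one] at h

section Calculus

variable {A : ValuationSubring Qb} {N : ℕ} [NeZero N]

theorem ReducesToOne.one : ReducesToOne A N (1 : modularFunctionFieldBar N) :=
  ⟨1, 1, one_mem _, one_mem _, s37Kron_kronPrim_one, s37Kron_kronPrim_one, KronCongr.refl _,
    by
      show (1 : LaurentSeries Qb) * 1 = 1
      rw [mul_one]⟩

theorem ReducesToOne.ne_zero {u : modularFunctionFieldBar N} (hu : ReducesToOne A N u) :
    u ≠ 0 := by
  obtain ⟨y₁, y₂, -, -, hp₁, -, -, he⟩ := hu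
  rintro rfl
  apply frob_ne_zero_of_kronPrim hp₁
  rw [← he]
  show (0 : LaurentSeries Qb) * y₂ = 0
  rw [zero_mul]

theorem ReducesToOne.mul {u v : modularFunctionFieldBar N} (hu : ReducesToOne A N u)
    (hv : ReducesToOne A N v) : ReducesToOne A N (u * v) := by
  obtain ⟨y₁, y₂, hy₁, hy₂, hp₁, hp₂, hc, he⟩ := hu
  obtain ⟨z₁, z₂, hz₁, hz₂, hq₁, hq₂, hd, hf⟩ := hv
  refine ⟨y₁ * z₁, y₂ * z₂, mul_mem hy₁ hz₁, mul_mem hy₂ hz₂, hp₁.mul hq₁, hp₂.mul hq₂,
    KronCongr.mul hp₁.1 hp₂.1 hq₁.1 hq₂.1 hc hd, ?_⟩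
  show ((u : LaurentSeries Qb) * (v : LaurentSeries Qb)) * (y₂ * z₂) = y₁ * z₁
  rw [← he, ← hf]
  ring

theorem ReducesToOne.inv {u : modularFunctionFieldBar N} (hu : ReducesToOne A N u) :
    ReducesToOne A N u⁻¹ := by
  have hu0 := hu.ne_zero
  obtain ⟨y₁, y₂, hy₁, hy₂, hp₁, hp₂, hc, he⟩ := hu
  refine ⟨y₂, y₁, hy₂, hy₁, hp₂, hp₁, hc.symm, ?_⟩
  have e : u * (⟨y₂, hy₂⟩ : modularFunctionFieldBar N) = ⟨y₁, hy₁⟩ := Subtype.ext he
  have e' : u⁻¹ * (⟨y₁, hy₁⟩ : modularFunctionFieldBar N) = ⟨y₂, hy₂⟩ := by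
    rw [← e, ← mul_assoc, inv_mul_cancel₀ hu0, one_mul]
  exact congrArg Subtype.val e'

theorem ReducesToOne.div {u v : modularFunctionFieldBar N} (hu : ReducesToOne A N u)
    (hv : ReducesToOne A N v) : ReducesToOne A N (u / v) := by
  rw [div_eq_mul_inv]
  exact hu.mul hv.inv

theorem ReducesToOne.pow {u : modularFunctionFieldBar N} (hu : ReducesToOne A N u) (n : ℕ) :
    ReducesToOne A N (u ^ n) := by
  induction n with
  | zero => rw [pow_zero]; exact ReducesToOne.one
  | succ n ih => rw [pow_succ]; exact ih.mul hu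

/-- `GaussConst` in the form `u = c · u₁`, `u₁ ≡ 1` -/
theorem gaussConst_iff {u : modularFunctionFieldBar N} :
    GaussConst A N u ↔ ∃ (c : Qb) (u₁ : modularFunctionFieldBar N), c ≠ 0 ∧
      ReducesToOne A N u₁ ∧ u = algebraMap Qb (modularFunctionFieldBar N) c * u₁ := by
  constructor
  · rintro ⟨c, hc, h⟩
    refine ⟨c⁻¹, _, inv_ne_zero hc, h, ?_⟩
    rw [← mul_assoc, ← map_mul, inv_mul_cancel₀ hc, map_one, one_mul]
  · rintro ⟨c, u₁, hc, h, rfl⟩
    refine ⟨c⁻¹, inv_ne_zero hc, ?_⟩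
    rw [← mul_assoc, ← map_mul, inv_mul_cancel₀ hc, map_one, one_mul]
    exact h

theorem GaussConst.of_reducesToOne {u : modularFunctionFieldBar N} (h : ReducesToOne A N u) :
    GaussConst A N u :=
  ⟨1, one_ne_zero, by rw [map_one, one_mul]; exact h⟩

theorem GaussConst.const {c : Qb} (hc : c ≠ 0) :
    GaussConst A N (algebraMap Qb (modularFunctionFieldBar N) c) :=
  ⟨c⁻¹, inv_ne_zero hc, by
    rw [← map_mul, inv_mul_cancel₀ hc, map_one]
    exact ReducesToOne.one⟩

theorem GaussConst.one : GaussConst A N (1 : modularFunctionFieldBar N) :=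
  GaussConst.of_reducesToOne ReducesToOne.one

theorem GaussConst.ne_zero {u : modularFunctionFieldBar N} (hu : GaussConst A N u) : u ≠ 0 := by
  obtain ⟨c, -, h⟩ := hu
  exact right_ne_zero_of_mul h.ne_zero

theorem GaussConst.mul {u v : modularFunctionFieldBar N} (hu : GaussConst A N u)
    (hv : GaussConst A N v) : GaussConst A N (u * v) := by
  obtain ⟨c, hc, h⟩ := hu
  obtain ⟨d, hd, h'⟩ := hv
  refine ⟨c * d, mul_ne_zero hc hd, ?_⟩
  have e : algebraMap Qb (modularFunctionFieldBar N) (c * d) * (u * v) =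
      (algebraMap Qb (modularFunctionFieldBar N) c * u) *
        (algebraMap Qb (modularFunctionFieldBar N) d * v) := by
    rw [map_mul]; ring
  rw [e]
  exact h.mul h'

theorem GaussConst.inv {u : modularFunctionFieldBar N} (hu : GaussConst A N u) :
    GaussConst A N u⁻¹ := by
  obtain ⟨c, hc, h⟩ := hu
  refine ⟨c⁻¹, inv_ne_zero hc, ?_⟩
  have e : algebraMap Qb (modularFunctionFieldBar N) c⁻¹ * u⁻¹ =
      (algebraMap Qb (modularFunctionFieldBar N) c * u)⁻¹ := by
    rw [map_inv₀, mul_inv]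
  rw [e]
  exact h.inv

theorem GaussConst.div {u v : modularFunctionFieldBar N} (hu : GaussConst A N u)
    (hv : GaussConst A N v) : GaussConst A N (u / v) := by
  rw [div_eq_mul_inv]
  exact hu.mul hv.inv

theorem GaussConst.pow {u : modularFunctionFieldBar N} (hu : GaussConst A N u) (n : ℕ) :
    GaussConst A N (u ^ n) := by
  induction n with
  | zero => rw [pow_zero]; exact GaussConst.one
  | succ n ih => rw [pow_succ]; exact ih.mul hu

theorem GaussConst.const_mul {c : Qb} (hc : c ≠ 0) {u : modularFunctionFieldBar N}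
    (hu : GaussConst A N u) :
    GaussConst A N (algebraMap Qb (modularFunctionFieldBar N) c * u) :=
  (GaussConst.const hc).mul hu

theorem GaussConst.list_prod {l : List (modularFunctionFieldBar N)}
    (h : ∀ u ∈ l, GaussConst A N u) : GaussConst A N l.prod := by
  induction l with
  | nil => rw [List.prod_nil]; exact GaussConst.one
  | cons a l ih =>
    rw [List.prod_cons]
    exact (h a (List.mem_cons_self)).mul (ih fun u hu => h u (List.mem_cons_of_mem _ hu))

theorem GaussConst.finset_prod {ι : Type*} (s : Finset ι) (u : ι → modularFunctionFieldBar N)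
    (h : ∀ i ∈ s, GaussConst A N (u i)) : GaussConst A N (∏ i ∈ s, u i) := by
  classical
  induction s using Finset.induction_on with
  | empty => rw [Finset.prod_empty]; exact GaussConst.one
  | insert a s ha ih =>
    rw [Finset.prod_insert ha]
    exact (h a (Finset.mem_insert_self a s)).mul
      (ih fun i hi => h i (Finset.mem_insert_of_mem hi))

end Calculus

/-! ### The operators are multiplicative -/

section Generic

variable {K F F' : Type*} [Field K] [Field F] [Field F'] [Algebra K F] [Algebra K F']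

/-- the norm along `ψ` of a constant -/
theorem s37Kron_frobNorm_algebraMap (φ ψ : F →ₐ[K] F') (c : K) :
    frobNorm φ ψ (algebraMap K F c) =
      algebraMap K F c ^ (letI := ψ.toRingHom.toAlgebra; Module.finrank F F') := by
  letI := ψ.toRingHom.toAlgebra
  show Algebra.norm F (φ (algebraMap K F c)) = _
  have h : φ (algebraMap K F c) = algebraMap F F' (algebraMap K F c) := by
    rw [AlgHom.commutes]
    exact (ψ.commutes c).symm
  rw [h, Algebra.norm_algebraMap]

/-- `Ψ^mult` is multiplicative -/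
theorem s37Kron_w_mul (g : SemilinearAut K F) (φ ψ : F →ₐ[K] F') (ℓ : ℕ) (a b : F) :
    (g • g • (a * b)) * (a * b) ^ ℓ / frobNorm φ ψ (g • (a * b)) =
      ((g • g • a) * a ^ ℓ / frobNorm φ ψ (g • a)) *
        ((g • g • b) * b ^ ℓ / frobNorm φ ψ (g • b)) := by
  have h1 : g • (a * b) = g • a * g • b := smul_mul' g a b
  have h2 : g • g • (a * b) = (g • g • a) * (g • g • b) := by
    rw [h1]
    exact smul_mul' g _ _
  have h3 : frobNorm φ ψ (g • (a * b)) = frobNorm φ ψ (g • a) * frobNorm φ ψ (g • b) := by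
    rw [h1]
    exact frobNorm_mul _ _ _ _
  rw [h3, h2, mul_pow, mul_mul_mul_comm, mul_div_mul_comm]

/-- `Ψ^mult` of a constant is a constant -/
theorem s37Kron_w_algebraMap (g : SemilinearAut K F) (φ ψ : F →ₐ[K] F') (ℓ : ℕ) (c : K) :
    ∃ d : K, (g • g • algebraMap K F c) * algebraMap K F c ^ ℓ /
        frobNorm φ ψ (g • algebraMap K F c) = algebraMap K F d ∧ (c ≠ 0 → d ≠ 0) := by
  obtain ⟨b, hb⟩ : ∃ b : K ≃+* K, b = SemilinearAut.baseAut g := ⟨_, rfl⟩
  obtain ⟨e, he⟩ : ∃ e : ℕ, e = (letI := ψ.toRingHom.toAlgebra; Module.finrank F F') :=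
    ⟨_, rfl⟩
  have h1 : g • algebraMap K F c = algebraMap K F (b c) := by
    rw [hb]
    exact SemilinearAut.smul_algebraMap g c
  have h2 : g • g • algebraMap K F c = algebraMap K F (b (b c)) := by
    rw [h1, hb]
    exact SemilinearAut.smul_algebraMap g _
  have h3 : frobNorm φ ψ (algebraMap K F (b c)) = algebraMap K F (b c) ^ e := by
    rw [he]
    exact s37Kron_frobNorm_algebraMap φ ψ (b c)
  refine ⟨b (b c) * c ^ ℓ / (b c) ^ e, ?_, ?_⟩
  · rw [h2, h1, h3, map_div₀, map_mul, map_pow, map_pow]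
  · intro hc
    have hbc : b c ≠ 0 := (map_ne_zero _).mpr hc
    exact div_ne_zero (mul_ne_zero ((map_ne_zero _).mpr hbc) (pow_ne_zero _ hc))
      (pow_ne_zero _ hbc)

/-- `σ f / f` is multiplicative -/
theorem s37Kron_i_mul (g : SemilinearAut K F) (a b : F) :
    (g • (a * b)) / (a * b) = ((g • a) / a) * ((g • b) / b) := by
  rw [smul_mul', mul_div_mul_comm]

/-- `σ c / c` is a constant -/
theorem s37Kron_i_algebraMap (g : SemilinearAut K F) (c : K) :
    ∃ d : K, (g • algebraMap K F c) / algebraMap K F c = algebraMap K F d ∧ (c ≠ 0 → d ≠ 0) := by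
  refine ⟨SemilinearAut.baseAut g c / c, ?_, ?_⟩
  · rw [SemilinearAut.smul_algebraMap, map_div₀]
  · intro hc
    exact div_ne_zero ((map_ne_zero _).mpr hc) hc

end Generic

section Ops

variable {N : ℕ} [NeZero N]

theorem gcInertiaOp_mul (σ : Qb ≃ₐ[ℚ] Qb) (a b : modularFunctionFieldBar N) :
    gcInertiaOp N σ (a * b) = gcInertiaOp N σ a * gcInertiaOp N σ b :=
  s37Kron_i_mul (arithmeticGalois (modularFunctionFieldFull N) σ) a b

theorem gcInertiaOp_algebraMap (σ : Qb ≃ₐ[ℚ] Qb) (c : Qb) :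
    ∃ d : Qb, gcInertiaOp N σ (algebraMap Qb (modularFunctionFieldBar N) c) =
      algebraMap Qb (modularFunctionFieldBar N) d ∧ (c ≠ 0 → d ≠ 0) :=
  s37Kron_i_algebraMap (arithmeticGalois (modularFunctionFieldFull N) σ) c

theorem gcFrobOp_mul (ℓ : ℕ) [NeZero ℓ] (τ : Qb ≃ₐ[ℚ] Qb) (a b : modularFunctionFieldBar N) :
    gcFrobOp N ℓ τ (a * b) = gcFrobOp N ℓ τ a * gcFrobOp N ℓ τ b :=
  s37Kron_w_mul (arithmeticGalois (modularFunctionFieldFull N) τ)
    (heckeBetaBar Qb N ℓ) (heckeAlphaBar Qb N ℓ) ℓ a b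

theorem gcFrobOp_algebraMap (ℓ : ℕ) [NeZero ℓ] (τ : Qb ≃ₐ[ℚ] Qb) (c : Qb) :
    ∃ d : Qb, gcFrobOp N ℓ τ (algebraMap Qb (modularFunctionFieldBar N) c) =
      algebraMap Qb (modularFunctionFieldBar N) d ∧ (c ≠ 0 → d ≠ 0) :=
  s37Kron_w_algebraMap (arithmeticGalois (modularFunctionFieldFull N) τ)
    (heckeBetaBar Qb N ℓ) (heckeAlphaBar Qb N ℓ) ℓ c

end Ops

/-! ### The two Kronecker congruences -/

section Main

variable {N : ℕ} [NeZero N] {A : ValuationSubring Qb}

/-- a multiplicative operator which maps constants to constants and primitive series to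
functions reducing to one maps every nonzero function to a Gauss-constant function -/
theorem s37Kron_gaussConst_of_mul (hPrim : StmtPrim) {ℓ : ℕ} (hℓ : ℓ.Prime)
    (hA : A.LiesOverPrime ℓ)
    (Op : modularFunctionFieldBar N → modularFunctionFieldBar N)
    (hmul : ∀ a b, Op (a * b) = Op a * Op b)
    (hconst : ∀ c : Qb, ∃ d : Qb, Op (algebraMap Qb (modularFunctionFieldBar N) c) =
      algebraMap Qb (modularFunctionFieldBar N) d ∧ (c ≠ 0 → d ≠ 0))
    (hprim : ∀ (y : LaurentSeries Qb) (hy : y ∈ modularFunctionFieldBar N), KronPrim A y →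
      ReducesToOne A N (Op ⟨y, hy⟩))
    (f : modularFunctionFieldBar N) (hf : f ≠ 0) : GaussConst A N (Op f) := by
  obtain ⟨c, y₁, y₂, hc, hy₁, hy₂, hP₁, hP₂, he⟩ := hPrim N ℓ hℓ A hA f hf
  have h1 := hprim y₁ hy₁ hP₁
  have h2 := hprim y₂ hy₂ hP₂
  obtain ⟨Y₁, hY₁⟩ : ∃ Y₁ : modularFunctionFieldBar N, Y₁ = ⟨y₁, hy₁⟩ := ⟨_, rfl⟩
  obtain ⟨Y₂, hY₂⟩ : ∃ Y₂ : modularFunctionFieldBar N, Y₂ = ⟨y₂, hy₂⟩ := ⟨_, rfl⟩
  rw [← hY₁] at h1
  rw [← hY₂] at h2
  have heF : f * Y₂ = algebraMap Qb (modularFunctionFieldBar N) c * Y₁ := by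
    apply Subtype.ext
    show (f : LaurentSeries Qb) * (Y₂ : LaurentSeries Qb)
      = algebraMap Qb (LaurentSeries Qb) c * (Y₁ : LaurentSeries Qb)
    rw [hY₁, hY₂]
    show (f : LaurentSeries Qb) * y₂ = algebraMap Qb (LaurentSeries Qb) c * y₁
    rw [he, ModularCurve.algebraMap_laurentSeries_eq_single]
    rfl
  obtain ⟨d, hd, hd0⟩ := hconst c
  have hm : Op f * Op Y₂ = algebraMap Qb (modularFunctionFieldBar N) d * Op Y₁ := by
    rw [← hmul, heF, hmul, hd]
  have hfin : Op f = algebraMap Qb (modularFunctionFieldBar N) d * (Op Y₁ / Op Y₂) := by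
    rw [mul_div_assoc', ← hm, mul_div_cancel_right₀ _ h2.ne_zero]
  rw [hfin]
  exact GaussConst.const_mul (hd0 hc) (GaussConst.of_reducesToOne (h1.div h2))

/-- inertia: `σ Y / Y ≡ 1` for a primitive `Y` -/
theorem s37Kron_inertia_prim {σ : Qb ≃ₐ[ℚ] Qb} (hσ : σ ∈ A.inertiaSubgroupIn ℚ)
    {y : LaurentSeries Qb} (hy : y ∈ modularFunctionFieldBar N) (hP : KronPrim A y) :
    ReducesToOne A N (gcInertiaOp N σ ⟨y, hy⟩) := by
  have hσdec : σ ∈ A.decompositionSubgroup ℚ := kron_mem_decomposition_of_mem_inertia hσ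
  have hY0 : (⟨y, hy⟩ : modularFunctionFieldBar N) ≠ 0 :=
    fun h => frob_ne_zero_of_kronPrim hP (congrArg Subtype.val h)
  refine ⟨coeffMap (σ : Qb →+* Qb) y, y, coeffMap_mem_laurentBaseChange σ hy, hy,
    hP.coeffMap_of_mem_decomposition σ hσdec, hP, kron_inertia_congr hσ hP.1, ?_⟩
  have e : gcInertiaOp N σ ⟨y, hy⟩ * (⟨y, hy⟩ : modularFunctionFieldBar N) =
      arithmeticGalois (modularFunctionFieldFull N) σ • (⟨y, hy⟩ : modularFunctionFieldBar N) :=
    div_mul_cancel₀ _ hY0
  exact congrArg Subtype.val e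

/-- **piece `S37-KRON (a)`.** -/
theorem stmtGCInertia : StmtGCInertia := by
  intro hPrim N _ ℓ hℓ A hA σ hσ f hf
  exact s37Kron_gaussConst_of_mul hPrim hℓ hA (gcInertiaOp N σ) (gcInertiaOp_mul σ)
    (gcInertiaOp_algebraMap σ) (fun y hy hP => s37Kron_inertia_prim hσ hy hP) f hf

/-- Frobenius: `τ² Y · Y^ℓ / N_α(β(τ Y)) ≡ 1` for a primitive `Y` -/
theorem s37Kron_frob_prim (hHN : StmtHeckeNorm) {ℓ : ℕ} [NeZero ℓ] (hℓ : ℓ.Prime)
    (hℓN : ¬ ℓ ∣ N) (hA : A.LiesOverPrime ℓ) {τ : Qb ≃ₐ[ℚ] Qb} (hτ : A.IsFrobeniusAt τ ℓ)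
    {y : LaurentSeries Qb} (hy : y ∈ modularFunctionFieldBar N) (hP : KronPrim A y) :
    ReducesToOne A N (gcFrobOp N ℓ τ ⟨y, hy⟩) := by
  obtain ⟨ζ, hζ⟩ := frob_exists_primitiveRoot ℓ hℓ.ne_zero
  have hζ1 : ζ ^ ℓ = 1 := hζ.pow_eq_one
  obtain ⟨Y, hYs⟩ : ∃ Y : modularFunctionFieldBar N, (Y : LaurentSeries Qb) = y :=
    ⟨⟨y, hy⟩, rfl⟩
  have hYe : (⟨y, hy⟩ : modularFunctionFieldBar N) = Y := Subtype.ext hYs.symm
  rw [hYe]
  have hY0 : Y ≠ 0 := by
    intro h
    apply frob_ne_zero_of_kronPrim hP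
    rw [← hYs, h]
    rfl
  obtain ⟨g, hg⟩ : ∃ g : SemilinearAut Qb (modularFunctionFieldBar N),
      g = arithmeticGalois (modularFunctionFieldFull N) τ := ⟨_, rfl⟩
  have hgs : ∀ v : modularFunctionFieldBar N,
      ((g • v : modularFunctionFieldBar N) : LaurentSeries Qb)
        = coeffMap (τ : Qb →+* Qb) (v : LaurentSeries Qb) := by
    intro v
    rw [hg]
    rfl
  have hHN' : ∀ v : modularFunctionFieldBar N,
      ((frobNorm (heckeBetaBar Qb N ℓ) (heckeAlphaBar Qb N ℓ) v : modularFunctionFieldBar N) :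
        LaurentSeries Qb) = kronHecke ℓ ζ (v : LaurentSeries Qb) :=
    fun v => hHN N ℓ hℓ hℓN ζ hζ v
  obtain ⟨n₁, hn₁⟩ : ∃ n₁ : modularFunctionFieldBar N,
      n₁ = frobNorm (heckeBetaBar Qb N ℓ) (heckeAlphaBar Qb N ℓ) (g • Y) := ⟨_, rfl⟩
  have hn₁s : (n₁ : LaurentSeries Qb) = kronHecke ℓ ζ (coeffMap (τ : Qb →+* Qb) y) := by
    rw [hn₁, hHN', hgs, hYs]
  have hn₁0 : n₁ ≠ 0 :=
    hn₁ ▸ frobNorm_ne_zero _ _ (Fermat.Agent.ES.H.finiteAlong_heckeAlphaBar N ℓ)
      (by simpa using hY0)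
  obtain ⟨a₁, ha₁⟩ : ∃ a₁ : modularFunctionFieldBar N, a₁ = g • g • Y := ⟨_, rfl⟩
  have ha₁s : (a₁ : LaurentSeries Qb)
      = coeffMap (τ : Qb →+* Qb) (coeffMap (τ : Qb →+* Qb) y) := by
    rw [ha₁, hgs, hgs, hYs]
  have hw : gcFrobOp N ℓ τ Y = a₁ * Y ^ ℓ / n₁ := by
    rw [ha₁, hn₁, hg]
    rfl
  have hwmul : gcFrobOp N ℓ τ Y * n₁ = Y ^ ℓ * a₁ := by
    rw [hw, div_mul_cancel₀ _ hn₁0, mul_comm]
  have hwmuls : ((gcFrobOp N ℓ τ Y : modularFunctionFieldBar N) : LaurentSeries Qb) *
      (n₁ : LaurentSeries Qb) = (Y : LaurentSeries Qb) ^ ℓ * (a₁ : LaurentSeries Qb) :=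
    congrArg Subtype.val hwmul
  rw [hn₁s, ha₁s, hYs] at hwmuls
  refine ⟨y ^ ℓ * coeffMap (τ : Qb →+* Qb) (coeffMap (τ : Qb →+* Qb) y),
    kronHecke ℓ ζ (coeffMap (τ : Qb →+* Qb) y), ?_, ?_, kronPrim_frob_rhs τ hτ hP,
    kronPrim_kronHecke_frob hℓ hA ζ hζ1 τ hτ hP,
    (kronHecke_frob_congr hℓ hA ζ hζ1 τ hτ hP.1).symm, hwmuls⟩
  · rw [← ha₁s]
    exact mul_mem (pow_mem hy ℓ) a₁.2
  · rw [← hn₁s]
    exact n₁.2

/-- **piece `S37-KRON (b)`.** -/
theorem stmtGCFrob : StmtGCFrob := by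
  intro hPrim hHN N _ ℓ _ hℓ hℓN A hA τ hτ f hf
  exact s37Kron_gaussConst_of_mul hPrim hℓ hA (gcFrobOp N ℓ τ) (gcFrobOp_mul ℓ τ)
    (gcFrobOp_algebraMap ℓ τ) (fun y hy hP => s37Kron_frob_prim hHN hℓ hℓN hA hτ hy hP) f hf

end Main

end Fermat.Agent.ES.G2

end
end ZBES_005_8

/-! ### bundled: `Fermat.Agent.R38.TresGeo` -/
section ZBES_005_9

/-!
# Row 38, PKG-TRES, piece TRES-BR (part 1): `GaussConst` ⇔ the Gauss reduction is a constant (helper42)

`N` any level, `A ⊂ ℚ̄` a valuation ring over a prime, `u ∈ F_N^×`.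

* `tresgeo_red_of_gaussConst` : `GaussConst A N u ⇒ R38Red A u 1`;
* `tresgeo_gaussConst_of_red` : `R38Red A u (C a) ⇒ GaussConst A N u`  (uses `ES.G2.stmtPrim`);
* `tresgeo_gaussConst_iff`    : `GaussConst A N u ⇔ ∃ a, R38Red A u (C a)`;
* `tresgeo_red_of_gaussRed`   : the fraction-form reduction `ES.M.GaussRed N A x w` of a function with
  `w ≠ 0` is a Gauss reduction `R38Red A x w`;
* `tresgeo_exists_red`        : every `u ∈ F_N^×` has a Gauss reduction.
-/

set_option autoImplicit false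
set_option linter.unusedSectionVars false
set_option linter.style.haveILetI false

noncomputable section

namespace Fermat.Agent.R38

open HahnSeries ModularCurve AlgebraicCurve Fermat.Agent.ES Fermat.Agent.ES.G2 Fermat.Agent.ES.M

variable {N : ℕ} [NeZero N] {A : ValuationSubring (AlgebraicClosure ℚ)}

theorem tresgeo_coe_algebraMap (c : AlgebraicClosure ℚ) :
    ((algebraMap (AlgebraicClosure ℚ) (modularFunctionFieldBar N) c : modularFunctionFieldBar N) :
      LaurentSeries (AlgebraicClosure ℚ)) = HahnSeries.C c := by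
  rw [← algebraMap_eq_hahnC]
  rfl

theorem tresgeo_C_mem (c : AlgebraicClosure ℚ) :
    (HahnSeries.C c : LaurentSeries (AlgebraicClosure ℚ)) ∈ modularFunctionFieldBar N := by
  rw [← tresgeo_coe_algebraMap (N := N) c]
  exact Subtype.property _

/-- every nonzero function has a Gauss reduction -/
theorem tresgeo_exists_red {ℓ : ℕ} (hℓ : ℓ.Prime) (hA : A.LiesOverPrime ℓ)
    {u : modularFunctionFieldBar N} (hu : u ≠ 0) :
    ∃ r : LaurentSeries (IsLocalRing.ResidueField A),
      R38Red A (u : LaurentSeries (AlgebraicClosure ℚ)) r := by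
  obtain ⟨c, y₁, y₂, hc, -, -, hp₁, hp₂, he⟩ := stmtPrim N ℓ hℓ A hA u hu
  exact r38red_of_prim hc hp₁ hp₂ he

/-- a Gauss-constant function reduces to `1` -/
theorem tresgeo_red_of_gaussConst {u : modularFunctionFieldBar N} (h : GaussConst A N u) :
    R38Red A (u : LaurentSeries (AlgebraicClosure ℚ)) 1 := by
  obtain ⟨c, hc, y₁, y₂, -, -, hp₁, hp₂, hcong, he⟩ := h
  obtain ⟨Y₁, rfl⟩ := hp₁.1.exists_lift
  obtain ⟨Y₂, rfl⟩ := hp₂.1.exists_lift
  have h1 := (kronPrim_kronIncl_iff Y₁).1 hp₁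
  have h2 := (kronPrim_kronIncl_iff Y₂).1 hp₂
  have h3 := (kronCongr_kronIncl_iff Y₁ Y₂).1 hcong
  refine ⟨c⁻¹, Y₁, Y₂, inv_ne_zero hc, h1, h2, ?_, by rw [one_mul, h3]⟩
  have he' : HahnSeries.C c * (u : LaurentSeries (AlgebraicClosure ℚ)) * kronIncl A Y₂
      = kronIncl A Y₁ := by
    rw [← tresgeo_coe_algebraMap (N := N) c]
    exact he
  have hC : (HahnSeries.C c : LaurentSeries (AlgebraicClosure ℚ)) ≠ 0 := r38red_C_ne_zero hc
  rw [← he', map_inv₀]
  field_simp

/-- a function whose Gauss reduction is a constant is Gauss-constant -/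
theorem tresgeo_gaussConst_of_red {ℓ : ℕ} (hℓ : ℓ.Prime) (hA : A.LiesOverPrime ℓ)
    {u : modularFunctionFieldBar N} (hu : u ≠ 0) {a : IsLocalRing.ResidueField A}
    (h : R38Red A (u : LaurentSeries (AlgebraicClosure ℚ)) (HahnSeries.C a)) :
    GaussConst A N u := by
  obtain ⟨c, y₁, y₂, hc, hy₁, hy₂, hp₁, hp₂, he⟩ := stmtPrim N ℓ hℓ A hA u hu
  obtain ⟨Y₁, rfl⟩ := hp₁.1.exists_lift
  obtain ⟨Y₂, rfl⟩ := hp₂.1.exists_lift
  have h1 := (kronPrim_kronIncl_iff Y₁).1 hp₁
  have h2 := (kronPrim_kronIncl_iff Y₂).1 hp₂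
  have hred : R38Red A (u : LaurentSeries (AlgebraicClosure ℚ))
      (kronRed A Y₁ * (kronRed A Y₂)⁻¹) :=
    ⟨c, Y₁, Y₂, hc, h1, h2, he, by rw [mul_assoc, inv_mul_cancel₀ h2, mul_one]⟩
  obtain ⟨b, hb, hb'⟩ := h.unique hred
  have ha : a ≠ 0 := by
    rintro rfl
    exact h.ne_zero_right (by rw [map_zero])
  -- `Ȳ₁ = C (b a) Ȳ₂`
  have e1 : kronRed A Y₁ = HahnSeries.C (b * a) * kronRed A Y₂ := by
    have : kronRed A Y₁ = (kronRed A Y₁ * (kronRed A Y₂)⁻¹) * kronRed A Y₂ := by
      rw [mul_assoc, inv_mul_cancel₀ h2, mul_one]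
    rw [this, hb', map_mul]
  obtain ⟨α, hα⟩ := IsLocalRing.residue_surjective (R := A) (b * a)
  have hba : b * a ≠ 0 := mul_ne_zero hb ha
  have hα0 : (α : AlgebraicClosure ℚ) ≠ 0 := by
    intro h0
    have : α = 0 := Subtype.ext h0
    rw [this, map_zero] at hα
    exact hba hα.symm
  -- the new denominator `C α * Y₂`
  have e2 : kronRed A (HahnSeries.C α * Y₂) = kronRed A Y₁ := by
    rw [map_mul, r38red_coeffMap_C, hα, e1]
  have e3 : kronIncl A (HahnSeries.C α * Y₂)
      = HahnSeries.C (α : AlgebraicClosure ℚ) * kronIncl A Y₂ := by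
    rw [map_mul, r38red_coeffMap_C]
    rfl
  refine ⟨(c * (α : AlgebraicClosure ℚ))⁻¹, inv_ne_zero (mul_ne_zero hc hα0),
    kronIncl A Y₁, kronIncl A (HahnSeries.C α * Y₂), hy₁, ?_, hp₁, ?_, ?_, ?_⟩
  · rw [e3]
    exact mul_mem (tresgeo_C_mem _) hy₂
  · rw [kronPrim_kronIncl_iff, e2]; exact h1
  · rw [kronCongr_kronIncl_iff, e2]
  · have hCc : (HahnSeries.C c : LaurentSeries (AlgebraicClosure ℚ)) ≠ 0 := r38red_C_ne_zero hc
    have hCα : (HahnSeries.C (α : AlgebraicClosure ℚ) : LaurentSeries (AlgebraicClosure ℚ)) ≠ 0 :=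
      r38red_C_ne_zero hα0
    show ((algebraMap (AlgebraicClosure ℚ) (modularFunctionFieldBar N)
      (c * (α : AlgebraicClosure ℚ))⁻¹ : modularFunctionFieldBar N) :
        LaurentSeries (AlgebraicClosure ℚ)) * (u : LaurentSeries (AlgebraicClosure ℚ))
        * kronIncl A (HahnSeries.C α * Y₂) = kronIncl A Y₁
    rw [tresgeo_coe_algebraMap, e3, map_inv₀, map_mul]
    have e4 : (HahnSeries.C c * HahnSeries.C (α : AlgebraicClosure ℚ))⁻¹
        * (u : LaurentSeries (AlgebraicClosure ℚ))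
        * (HahnSeries.C (α : AlgebraicClosure ℚ) * kronIncl A Y₂)
        = (HahnSeries.C c * HahnSeries.C (α : AlgebraicClosure ℚ))⁻¹
          * HahnSeries.C (α : AlgebraicClosure ℚ)
          * ((u : LaurentSeries (AlgebraicClosure ℚ)) * kronIncl A Y₂) := by ring
    rw [e4, he]
    field_simp

/-- **`GaussConst` ⇔ the Gauss reduction is a constant** -/
theorem tresgeo_gaussConst_iff {ℓ : ℕ} (hℓ : ℓ.Prime) (hA : A.LiesOverPrime ℓ)
    {u : modularFunctionFieldBar N} (hu : u ≠ 0) :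
    GaussConst A N u ↔ ∃ a : IsLocalRing.ResidueField A,
      R38Red A (u : LaurentSeries (AlgebraicClosure ℚ)) (HahnSeries.C a) :=
  ⟨fun h => ⟨1, by rw [map_one]; exact tresgeo_red_of_gaussConst h⟩,
    fun ⟨_, h⟩ => tresgeo_gaussConst_of_red hℓ hA hu h⟩

/-- the fraction-form reduction of `ES/M/Plan.lean` is a Gauss reduction -/
theorem tresgeo_red_of_gaussRed {x : modularFunctionFieldBar N}
    {w : LaurentSeries (IsLocalRing.ResidueField A)} (h : GaussRed N A x w) (hw : w ≠ 0) :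
    R38Red A (x : LaurentSeries (AlgebraicClosure ℚ)) w := by
  obtain ⟨Y₁, Y₂, -, -, h2, hx, hr⟩ := h
  refine ⟨1, Y₁, Y₂, one_ne_zero, ?_, h2, by rw [map_one, one_mul]; exact hx, hr⟩
  rw [← hr]
  exact mul_ne_zero hw h2

end Fermat.Agent.R38

end
end ZBES_005_9

/-! ### bundled: `Fermat.Agent.R38.TresEisNF` -/
section ZBES_005_10
/-
ROW 38, piece PKG-TRES / FAC-EIS (D) EIS-NF (helper47):
THE NORM FORMULA `div (N_{F'/F} f) = (push-forward of div f)` AND `Σ e·f = n` FOR A FINITE
SEPARABLE EXTENSION OF FUNCTION FIELDS OVER AN ALGEBRAICALLY CLOSED FIELD OF ANY CHARACTERISTIC.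

This is `ES/Hb.lean` (`pushforwardNormFormula`, `sumRamificationInertia`, characteristic `0`) with
`[CharZero K]` replaced by `[Algebra.IsSeparable F F']`.  The only real change: Mathlib's
`Ideal.relNorm_eq_pow_of_isMaximal` needs a perfect fraction field; when all inertia degrees are `1`
(residue fields `= K` algebraically closed) `relNorm P = 𝔪` follows by counting:
`relNorm P = 𝔪 ^ s_P` with `s_P ≥ 1`, `Σ e_P s_P = n` (`relNorm_algebraMap`) and `Σ e_P = n`
(`Ideal.sum_ramification_inertia_eq_finrank`).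

* `tres4nf_relNorm_eq`            : `relNorm P = 𝔪` (all inertia degrees `1`);
* `tres4nf_valuation_norm`        : `v_𝔪 (N f) = ∏_P v_P(f) ^ f(P|𝔪)` for `B/A`, `A` a DVR;
* `tres4nf_ord_norm_eq_sum`       : `ord_v (N f) = Σ_{w ∣ v} ord_w f`;
* `tres4nf_pushforwardNormFormula`: `Divisor.PushforwardNormFormula K F F'`;
* `tres4nf_sumRamificationInertia`: `SumRamificationInertia K F F'`.
-/

set_option autoImplicit false
set_option linter.unusedSectionVars false
set_option linter.unusedVariables false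
set_option linter.overlappingInstances false
set_option linter.style.haveILetI false

noncomputable section

open AlgebraicCurve IsDedekindDomain WithZero

namespace Fermat.Agent.R38

open Fermat.Agent.S24 Fermat.Agent.ES.H

/-! ## the abstract part: an extension `B/A` of a discrete valuation ring by a Dedekind domain -/

section abstract

variable {A B : Type*} [CommRing A] [IsDomain A] [IsDiscreteValuationRing A]
  [CommRing B] [IsDomain B] [IsDedekindDomain B] [Algebra A B] [Module.Finite A B]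
  [Module.IsTorsionFree A B]

/-- the relative norm of a prime over `𝔪` is a power `𝔪 ^ s`, `s ≥ 1` -/
theorem tres4nf_exponent (Q : Ideal B) (hQ : Q ∈ (IsLocalRing.maximalIdeal A).primesOver B) :
    ∃ s : ℕ, Ideal.relNorm A Q = IsLocalRing.maximalIdeal A ^ s ∧ 1 ≤ s := by
  haveI : Q.IsPrime := hQ.1
  haveI : Q.LiesOver (IsLocalRing.maximalIdeal A) := hQ.2
  obtain ⟨s, hs⟩ := Ideal.exists_relNorm_eq_pow_of_isPrime Q (IsLocalRing.maximalIdeal A)
  refine ⟨s, hs, ?_⟩
  by_contra h
  have h0 : s = 0 := by omega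
  subst h0
  rw [pow_zero, Ideal.one_eq_top] at hs
  have hle := Ideal.relNorm_le_comap A Q
  rw [hs] at hle
  have hcomap : Ideal.comap (algebraMap A B) Q = IsLocalRing.maximalIdeal A :=
    (Ideal.LiesOver.over (P := Q) (p := IsLocalRing.maximalIdeal A)).symm
  rw [hcomap] at hle
  exact (Ideal.IsPrime.ne_top inferInstance) (top_le_iff.mp hle)

/-- if all inertia degrees are `1`, the relative norm of a prime is the maximal ideal -/
theorem tres4nf_relNorm_eq (hf1 : ∀ P : HeightOneSpectrum B, P.asIdeal.inertiaDeg A = 1)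
    (P : HeightOneSpectrum B) :
    Ideal.relNorm A P.asIdeal = IsLocalRing.maximalIdeal A := by
  classical
  have hp0 : IsLocalRing.maximalIdeal A ≠ ⊥ := IsDiscreteValuationRing.not_a_field A
  have hp1 : IsLocalRing.maximalIdeal A ≠ 1 := by
    rw [Ideal.one_eq_top]
    exact Ideal.IsPrime.ne_top inferInstance
  -- the exponents
  have hex := fun Q hQ => tres4nf_exponent (A := A) (B := B) Q hQ
  choose! s hs hs1 using hex
  -- `Σ s e = n`
  have h1 : Ideal.relNorm A (Ideal.map (algebraMap A B) (IsLocalRing.maximalIdeal A))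
      = IsLocalRing.maximalIdeal A ^ Module.finrank A B := Ideal.relNorm_algebraMap B _
  have h2 := Ideal.map_algebraMap_eq_finsetProd_pow (R := B)
    (p := IsLocalRing.maximalIdeal A) hp0
  rw [h2, map_prod] at h1
  have h3 : ∀ Q ∈ ((IsLocalRing.maximalIdeal A).primesOver B).toFinset,
      Ideal.relNorm A (Q ^ Q.ramificationIdx A)
        = IsLocalRing.maximalIdeal A ^ (s Q * Q.ramificationIdx A) := by
    intro Q hQ
    rw [Set.mem_toFinset] at hQ
    rw [map_pow, hs Q hQ, pow_mul]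
  rw [Finset.prod_congr rfl h3, Finset.prod_pow_eq_pow_sum] at h1
  have h4 : ∑ Q ∈ ((IsLocalRing.maximalIdeal A).primesOver B).toFinset,
      s Q * Q.ramificationIdx A = Module.finrank A B :=
    ((IsLeftCancelMulZero.mul_left_cancel_of_ne_zero hp0).pow_injective hp1) h1
  -- `Σ e = n`
  have h5 := Ideal.sum_ramification_inertia_eq_finrank (IsLocalRing.maximalIdeal A) B
  have h6 : ∑ Q ∈ ((IsLocalRing.maximalIdeal A).primesOver B).toFinset,
      Q.ramificationIdx A = Module.finrank A B := by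
    rw [← h5, ← Finset.sum_set_coe]
    refine Finset.sum_congr rfl fun q _ => ?_
    haveI : q.1.IsPrime := q.2.1
    haveI : q.1.LiesOver (IsLocalRing.maximalIdeal A) := q.2.2
    have hq0 : q.1 ≠ ⊥ := Ideal.ne_bot_of_liesOver_of_ne_bot hp0 q.1
    have := hf1 ⟨q.1, q.2.1, hq0⟩
    rw [this, mul_one]
  -- termwise
  have h7 : ∀ Q ∈ ((IsLocalRing.maximalIdeal A).primesOver B).toFinset,
      Q.ramificationIdx A ≤ s Q * Q.ramificationIdx A := by
    intro Q hQ
    rw [Set.mem_toFinset] at hQ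
    exact Nat.le_mul_of_pos_left _ (hs1 Q hQ)
  have h8 := (Finset.sum_eq_sum_iff_of_le h7).mp (h6.trans h4.symm)
  have hP : P.asIdeal ∈ (IsLocalRing.maximalIdeal A).primesOver B :=
    ⟨P.isPrime, liesOver_maximalIdeal P⟩
  have h9 := h8 P.asIdeal (Set.mem_toFinset.mpr hP)
  haveI : P.asIdeal.IsPrime := P.isPrime
  have he : 0 < P.asIdeal.ramificationIdx A := Ideal.ramificationIdx_pos _ A
  have hsP : s P.asIdeal = 1 := by
    have : 1 * P.asIdeal.ramificationIdx A = s P.asIdeal * P.asIdeal.ramificationIdx A := by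
      rw [one_mul]
      exact h9
    exact (Nat.eq_of_mul_eq_mul_right he this).symm
  rw [hs P.asIdeal hP, hsP, pow_one]

/-- The valuation of the integral norm of `b ≠ 0` (all inertia degrees `1`). -/
theorem tres4nf_intValuation_intNorm [Fintype (HeightOneSpectrum B)]
    (hf1 : ∀ P : HeightOneSpectrum B, P.asIdeal.inertiaDeg A = 1) (b : B) (hb : b ≠ 0) :
    (IsDiscreteValuationRing.maximalIdeal A).intValuation (Algebra.intNorm A B b)
      = ∏ P : HeightOneSpectrum B, (P.intValuation b) ^ (P.asIdeal.inertiaDeg A) := by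
  classical
  set 𝔪 := IsDiscreteValuationRing.maximalIdeal A with h𝔪
  have h𝔪ideal : 𝔪.asIdeal = IsLocalRing.maximalIdeal A := rfl
  have hI : (Ideal.span {b} : Ideal B) ≠ 0 := by
    rw [Ne, Ideal.zero_eq_bot, Ideal.span_singleton_eq_bot]
    exact hb
  let n : HeightOneSpectrum B → ℕ := fun P =>
    (Associates.mk P.asIdeal).count (Associates.mk (Ideal.span {b} : Ideal B)).factors
  have hfact : ∏ P : HeightOneSpectrum B, P.asIdeal ^ n P = Ideal.span {b} := by
    have := Ideal.finprod_heightOneSpectrum_factorization hI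
    rw [finprod_eq_prod_of_fintype] at this
    exact this
  have hrel : ∀ P : HeightOneSpectrum B,
      Ideal.relNorm A P.asIdeal = 𝔪.asIdeal ^ (P.asIdeal.inertiaDeg A) := by
    intro P
    rw [hf1 P, pow_one, h𝔪ideal]
    exact tres4nf_relNorm_eq hf1 P
  have hspan : Ideal.span {Algebra.intNorm A B b} =
      𝔪.asIdeal ^ (∑ P : HeightOneSpectrum B, P.asIdeal.inertiaDeg A * n P) := by
    rw [← Ideal.relNorm_singleton, ← hfact, map_prod, ← Finset.prod_pow_eq_pow_sum]
    refine Finset.prod_congr rfl fun P _ => ?_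
    rw [map_pow, hrel P, pow_mul]
  rw [intValuation_eq_of_span_eq_pow 𝔪 hspan]
  have hP : ∀ P : HeightOneSpectrum B,
      (P.intValuation b) ^ (P.asIdeal.inertiaDeg A) =
        exp (-((P.asIdeal.inertiaDeg A * n P : ℕ) : ℤ)) := by
    intro P
    rw [P.intValuation_if_neg hb, ← exp_nsmul]
    congr 1
    simp only [n]
    push_cast
    ring
  simp_rw [hP]
  rw [← exp_sum_eq_prod]
  congr 1
  push_cast
  rw [Finset.sum_neg_distrib]

end abstract

/-- **Norm formula** for an extension `B/A` of a discrete valuation ring by a Dedekind domain, all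
of whose inertia degrees are `1` (no hypothesis on the characteristic):
`B` has finitely many nonzero primes and `v_𝔪 (N f) = ∏_P v_P(f) ^ f(P|𝔪)`. -/
theorem tres4nf_valuation_norm
    {A B F F' : Type*} [CommRing A] [IsDomain A] [IsDiscreteValuationRing A]
    [CommRing B] [IsDomain B] [IsDedekindDomain B] [Algebra A B] [Module.Finite A B]
    [Module.IsTorsionFree A B]
    [Field F] [Field F'] [Algebra A F] [IsFractionRing A F] [Algebra B F'] [IsFractionRing B F']
    [Algebra F F'] [Algebra A F'] [IsScalarTower A F F'] [IsScalarTower A B F']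
    (hf1 : ∀ P : HeightOneSpectrum B, P.asIdeal.inertiaDeg A = 1)
    (f : F') (hf : f ≠ 0) :
    (Set.univ : Set (HeightOneSpectrum B)).Finite ∧
    (IsDiscreteValuationRing.maximalIdeal A).valuation F (Algebra.norm F f)
      = ∏ᶠ P : HeightOneSpectrum B, (P.valuation F' f) ^ (P.asIdeal.inertiaDeg A) := by
  classical
  haveI hfin : Finite (HeightOneSpectrum B) := finite_heightOneSpectrum A
  letI : Fintype (HeightOneSpectrum B) := Fintype.ofFinite _
  refine ⟨Set.finite_univ, ?_⟩
  rw [finprod_eq_prod_of_fintype]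
  haveI : IsIntegralClosure B A F' := IsIntegralClosure.of_isIntegrallyClosed B A F'
  haveI : FiniteDimensional F F' := Module.Finite.of_isLocalization A B (nonZeroDivisors A)
  set 𝔪 := IsDiscreteValuationRing.maximalIdeal A
  -- the right-hand side as a function
  let Φ : F' → ℤᵐ⁰ := fun g =>
    ∏ P : HeightOneSpectrum B, (P.valuation F' g) ^ (P.asIdeal.inertiaDeg A)
  have hΦmul : ∀ g h : F', Φ (g * h) = Φ g * Φ h := by
    intro g h
    simp only [Φ, map_mul, mul_pow, Finset.prod_mul_distrib]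
  -- the case of an element of `B`
  have hB : ∀ b : B, b ≠ 0 →
      𝔪.valuation F (Algebra.norm F (algebraMap B F' b)) = Φ (algebraMap B F' b) := by
    intro b hb
    rw [← Algebra.algebraMap_intNorm (A := A) (B := B) (K := F) (L := F') b,
      HeightOneSpectrum.valuation_of_algebraMap, tres4nf_intValuation_intNorm hf1 b hb]
    refine Finset.prod_congr rfl fun P _ => ?_
    rw [HeightOneSpectrum.valuation_of_algebraMap]
  obtain ⟨b₁, b₂, hb₂, hfb⟩ := IsFractionRing.div_surjective (A := B) f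
  have hb₂0 : b₂ ≠ 0 := nonZeroDivisors.ne_zero hb₂
  have hβ₂0 : algebraMap B F' b₂ ≠ 0 := by
    rw [Ne, map_eq_zero_iff _ (IsFractionRing.injective B F')]
    exact hb₂0
  have hb₁0 : b₁ ≠ 0 := by
    rintro rfl
    rw [map_zero, zero_div] at hfb
    exact hf hfb.symm
  have hmul : f * algebraMap B F' b₂ = algebraMap B F' b₁ := by
    rw [← hfb]
    field_simp
  have h1 : 𝔪.valuation F (Algebra.norm F f) * 𝔪.valuation F (Algebra.norm F (algebraMap B F' b₂))
      = 𝔪.valuation F (Algebra.norm F (algebraMap B F' b₁)) := by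
    rw [← map_mul, ← map_mul, hmul]
  have h2 : Φ f * Φ (algebraMap B F' b₂) = Φ (algebraMap B F' b₁) := by
    rw [← hΦmul, hmul]
  rw [hB b₁ hb₁0, hB b₂ hb₂0, ← h2] at h1
  have hne : Φ (algebraMap B F' b₂) ≠ 0 := by
    simp only [Φ]
    rw [Finset.prod_ne_zero_iff]
    intro P _
    apply pow_ne_zero
    rw [Valuation.ne_zero_iff]
    exact hβ₂0
  exact mul_right_cancel₀ hne h1

/-! ## the local dictionary at a place `v` of `F`, `F'/F` finite separable -/

section placesOver

variable {K F F' : Type*} [Field K] [Field F] [Field F'] [Algebra K F] [Algebra K F']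
  [Algebra F F'] [IsScalarTower K F F'] [FiniteDimensional F F'] [Algebra.IsSeparable F F']

theorem tres4nf_isDedekindDomain_Bv (v : Place K F) : IsDedekindDomain (Bv F' v) :=
  integralClosure.isDedekindDomain v.toValuationSubring F F'

theorem tres4nf_isFractionRing_Bv (v : Place K F) : IsFractionRing (Bv F' v) F' :=
  integralClosure.isFractionRing_of_finite_extension F F'

theorem tres4nf_finite_Bv (v : Place K F) : Module.Finite v.toValuationSubring (Bv F' v) :=
  IsIntegralClosure.finite v.toValuationSubring F F' (Bv F' v)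

theorem tres4nf_isTorsionFree_Bv (v : Place K F) :
    Module.IsTorsionFree v.toValuationSubring (Bv F' v) :=
  IsIntegralClosure.isTorsionFree v.toValuationSubring F'

attribute [local instance] tres4nf_isDedekindDomain_Bv tres4nf_isFractionRing_Bv
  tres4nf_finite_Bv tres4nf_isTorsionFree_Bv

/-- The place of `F'` attached to a nonzero prime of `B_v`. -/
def tres4nf_placeOf (v : Place K F) (P : HeightOneSpectrum (Bv F' v)) : Place K F' :=
  placeOfPrime (hK_Bv v) P

theorem tres4nf_placeOf_ord (v : Place K F) (P : HeightOneSpectrum (Bv F' v)) {f : F'}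
    (hf : f ≠ 0) : (tres4nf_placeOf v P).ord f = - log (P.valuation F' f) :=
  placeOfPrime_ord (hK_Bv v) P hf

theorem tres4nf_placeOf_injective (v : Place K F) :
    Function.Injective (tres4nf_placeOf (F' := F') v) :=
  placeOfPrime_injective (hK_Bv v)

theorem tres4nf_placeOf_restrict (v : Place K F) (P : HeightOneSpectrum (Bv F' v)) :
    (tres4nf_placeOf v P).restrict F = v := by
  symm
  apply Place.ext
  refine ValuationSubring.eq_of_le_of_ne_top _ ?_ ((tres4nf_placeOf v P).restrict F).ne_top'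
  intro a ha
  rw [Place.restrict_toValuationSubring, ValuationSubring.mem_comap]
  show algebraMap F F' a ∈ (P.valuation F').valuationSubring
  rw [Valuation.mem_valuationSubring_iff]
  have hint : IsIntegral v.toValuationSubring (algebraMap F F' a) := by
    have : algebraMap F F' a = algebraMap v.toValuationSubring F' ⟨a, ha⟩ := rfl
    rw [this]
    exact isIntegral_algebraMap
  have : algebraMap F F' a = algebraMap (Bv F' v) F' ⟨algebraMap F F' a, hint⟩ := rfl
  rw [this]
  exact P.valuation_le_one _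

theorem tres4nf_exists_placeOf_eq (v : Place K F) (w : Place K F') (hw : w.restrict F = v) :
    ∃ P : HeightOneSpectrum (Bv F' v), tres4nf_placeOf v P = w := by
  refine exists_placeOfPrime_eq (hK_Bv v) w ?_
  rintro ⟨b, hb⟩
  show b ∈ w.toValuationSubring
  -- `b` is integral over `O_v ⊆ O_w`, and `O_w` is integrally closed
  have hle : ∀ a : v.toValuationSubring,
      algebraMap v.toValuationSubring F' a ∈ w.toValuationSubring := by
    intro a
    have ha : (a : F) ∈ (w.restrict F).toValuationSubring := by rw [hw]; exact a.2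
    exact ha
  let ι : v.toValuationSubring →+* w.toValuationSubring :=
    (algebraMap v.toValuationSubring F').codRestrict w.toValuationSubring.toSubring hle
  have hb' : IsIntegral w.toValuationSubring b := by
    obtain ⟨p, hp, hpb⟩ := hb
    refine ⟨p.map ι, hp.map _, ?_⟩
    rw [← hpb, Polynomial.eval₂_map]
    rfl
  obtain ⟨y, hy⟩ := IsIntegrallyClosed.isIntegral_iff.mp hb'
  rw [← hy]
  exact y.2

/-- The places over `v` are exactly the `tres4nf_placeOf v P`. -/
theorem tres4nf_restrict_eq_iff (v : Place K F) (w : Place K F') :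
    w.restrict F = v ↔ ∃ P : HeightOneSpectrum (Bv F' v), tres4nf_placeOf v P = w :=
  ⟨tres4nf_exists_placeOf_eq v w, fun ⟨P, hP⟩ => hP ▸ tres4nf_placeOf_restrict v P⟩

/-! ## `Σ e·f = n` and the norm formula -/

variable [IsAlgClosed K]

/-- Mathlib's inertia degree of a prime of `B_v` over `O_v` is `1`. -/
theorem tres4nf_ideal_inertiaDeg_eq_one
    (hresF : ∀ v : Place K F, Function.Bijective (algebraMap K v.ResidueField))
    (v : Place K F) (P : HeightOneSpectrum (Bv F' v)) :
    P.asIdeal.inertiaDeg v.toValuationSubring = 1 := by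
  haveI := liesOver_maximalIdeal (A := v.toValuationSubring) P
  haveI : P.asIdeal.IsMaximal := P.isMaximal
  haveI : (IsLocalRing.maximalIdeal v.toValuationSubring).IsMaximal :=
    IsLocalRing.maximalIdeal.isMaximal _
  rw [Ideal.inertiaDeg_eq_of_isMaximal (IsLocalRing.maximalIdeal v.toValuationSubring) P.asIdeal]
  let e : K ≃+* (v.toValuationSubring ⧸ IsLocalRing.maximalIdeal v.toValuationSubring) :=
    RingEquiv.ofBijective (algebraMap K v.ResidueField) (hresF v)
  exact polyClosure_finrank_eq_one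
    (k' := v.toValuationSubring ⧸ IsLocalRing.maximalIdeal v.toValuationSubring)
    (L := (Bv F' v) ⧸ P.asIdeal)
    ((Ideal.Quotient.maximal_ideal_iff_isField_quotient _).mp inferInstance) e

/-- The norm formula in terms of the primes of `B_v`. -/
theorem tres4nf_ord_norm_eq_sum
    (hresF : ∀ v : Place K F, Function.Bijective (algebraMap K v.ResidueField))
    (v : Place K F) [Fintype (HeightOneSpectrum (Bv F' v))] (f : F') (hf : f ≠ 0) :
    v.ord (Algebra.norm F f) =
      ∑ P : HeightOneSpectrum (Bv F' v), (tres4nf_placeOf v P).ord f := by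
  have h := (tres4nf_valuation_norm (A := v.toValuationSubring) (B := Bv F' v) (F := F)
    (F' := F') (fun P => tres4nf_ideal_inertiaDeg_eq_one hresF v P) f hf).2
  rw [finprod_eq_prod_of_fintype] at h
  have h1 : v.adicValuation (Algebra.norm F f) =
      ∏ P : HeightOneSpectrum (Bv F' v), P.valuation F' f := by
    refine h.trans (Finset.prod_congr rfl fun P _ => ?_)
    rw [tres4nf_ideal_inertiaDeg_eq_one hresF v P, pow_one]
  unfold Place.ord
  rw [h1, log_prod_ne_zero _ _ fun P _ => (Valuation.ne_zero_iff _).mpr hf,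
    ← Finset.sum_neg_distrib]
  exact Finset.sum_congr rfl fun P _ => (tres4nf_placeOf_ord v P hf).symm

/-- The finite set of places over `v`. -/
theorem tres4nf_sum_placeOf_eq_sum_image (v : Place K F)
    [Fintype (HeightOneSpectrum (Bv F' v))] [DecidableEq (Place K F')] (g : Place K F' → ℤ) :
    ∑ P : HeightOneSpectrum (Bv F' v), g (tres4nf_placeOf v P) =
      ∑ w ∈ Finset.univ.image (tres4nf_placeOf (F' := F') v), g w :=
  (Finset.sum_image fun _ _ _ _ h => tres4nf_placeOf_injective v h).symm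

theorem tres4nf_mem_image_placeOf_iff (v : Place K F)
    [Fintype (HeightOneSpectrum (Bv F' v))] [DecidableEq (Place K F')] (w : Place K F') :
    w ∈ Finset.univ.image (tres4nf_placeOf (F' := F') v) ↔ w.restrict F = v := by
  rw [tres4nf_restrict_eq_iff, Finset.mem_image]
  simp

/-- **Norm formula**: `div (N_{F'/F} f)` is the push-forward of `div f` (`F'/F` finite separable,
`K` algebraically closed of any characteristic). -/
theorem tres4nf_pushforwardNormFormula
    (hresF : ∀ v : Place K F, Function.Bijective (algebraMap K v.ResidueField))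
    (hresF' : ∀ w : Place K F', Function.Bijective (algebraMap K w.ResidueField)) :
    Divisor.PushforwardNormFormula K F F' := by
  classical
  intro f hf D hD v
  haveI : Finite (HeightOneSpectrum (Bv F' v)) := finite_heightOneSpectrum v.toValuationSubring
  haveI : Fintype (HeightOneSpectrum (Bv F' v)) := Fintype.ofFinite _
  rw [Divisor.pushforward_apply, tres4nf_ord_norm_eq_sum hresF v f hf,
    tres4nf_sum_placeOf_eq_sum_image v fun w => w.ord f]
  have h1 : ∀ w ∈ D.support, (if w.restrict F = v then D w * (w.inertiaDeg F : ℤ) else 0) =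
      if w ∈ Finset.univ.image (tres4nf_placeOf (F' := F') v) then w.ord f else 0 := by
    intro w _
    simp only [tres4nf_mem_image_placeOf_iff, inertiaDeg_eq_one hresF' w, hD w, Nat.cast_one,
      mul_one]
  rw [Finset.sum_congr rfl h1, Finset.sum_ite_mem]
  refine Finset.sum_subset Finset.inter_subset_right fun w hw hnot => ?_
  have : w ∉ D.support := fun h => hnot (Finset.mem_inter.mpr ⟨h, hw⟩)
  rw [Finsupp.notMem_support_iff, hD w] at this
  exact this

/-- **Fundamental identity** `Σ e·f = n` (`F'/F` finite separable, `K` algebraically closed of any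
characteristic). -/
theorem tres4nf_sumRamificationInertia [HasPrincipalDivisors K F']
    (hresF : ∀ v : Place K F, Function.Bijective (algebraMap K v.ResidueField))
    (hresF' : ∀ w : Place K F', Function.Bijective (algebraMap K w.ResidueField)) :
    SumRamificationInertia K F F' := by
  classical
  refine ⟨fun v => ?_⟩
  haveI : Finite (HeightOneSpectrum (Bv F' v)) := finite_heightOneSpectrum v.toValuationSubring
  haveI : Fintype (HeightOneSpectrum (Bv F' v)) := Fintype.ofFinite _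
  obtain ⟨π, hπ⟩ := IsDiscreteValuationRing.exists_irreducible v.toValuationSubring
  have hπord : v.ord (π : F) = 1 := v.ord_coe_irreducible hπ
  have hπ0 : (π : F) ≠ 0 := by
    intro h
    rw [h, v.ord_zero] at hπord
    exact zero_ne_one hπord
  have hfib : v.fiber F' = Finset.univ.image (tres4nf_placeOf (F' := F') v) := by
    ext w
    rw [Place.mem_fiber, tres4nf_mem_image_placeOf_iff]
  have hterm : ∀ w ∈ v.fiber F', (w.ramificationIndex F : ℤ) * (w.inertiaDeg F : ℤ) =
      w.ord (algebraMap F F' (π : F)) := by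
    intro w hw
    rw [w.ord_restrict (π : F), Place.mem_fiber.mp hw, hπord, inertiaDeg_eq_one hresF' w]
    simp
  rw [Finset.sum_congr rfl hterm, hfib,
    ← tres4nf_sum_placeOf_eq_sum_image v fun w => w.ord (algebraMap F F' (π : F)),
    ← tres4nf_ord_norm_eq_sum hresF v _ ((map_ne_zero _).mpr hπ0), Algebra.norm_algebraMap,
    ← zpow_natCast, v.ord_zpow, hπord, mul_one]

end placesOver

end Fermat.Agent.R38

end


end ZBES_005_10

/-! ### bundled: `Fermat.Agent.S36.Plan` -/
section ZBES_005_11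

/-!
# S36 (Carayol at `q² ∥ M`): the interface

`M = M₁ * q` with `q ∣ M₁`, `q² ∤ M₁` (so `q² ∥ M`); `p ≠ q` an odd prime.
`α, β : F_{M₁} → F_{M₁ q}` are the two degeneracy embeddings of the prelude, exactly as in STB
(`Fermat.Agent.STB.stbNormAlpha/Beta`, `stbPushAlpha/Beta`, `stbNew`; these are defined for all
`M₁, q`, in particular for `q ∣ M₁`).

* `StmtCarayolKummerAt M₁ q p` : **(G36-K)**, the geometric clause in Kummer form — THE TARGET of
  the geometric part of S36: a function `u` whose divisor is divisible by `p ^ n`, whose two norms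
  to level `M₁` are constants times `p ^ n`-th powers and which is multiplied by constants times
  `p ^ n`-th powers under the inertia group at `A ∣ q`, has `u ^ c` = constant times a
  `p ^ n`-th power, `c ≠ 0` independent of `n` and `u`.
* `StmtCarayolJ M₁ q p` : **(G36-J)**, the same on `J₀(M₁ q)[p^∞]`: the inertia invariants of
  the `p`-power torsion of the `q`-new part are killed by a constant `c ≠ 0`.
  (`S36/JForm.lean`: `StmtCarayolKummerAt → StmtCarayolJ`.)
* `StmtCarayol` : (G36-J) at all levels `M₁ q`, `q ∥ M₁`, and all odd primes `p ≠ q`.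

See NOTES/S36-plan.md.
-/

set_option autoImplicit false

noncomputable section

namespace Fermat.Agent.S36

open ModularCurve AlgebraicCurve Fermat.Agent.ES Fermat.Agent.ES.G2 Fermat.Agent.ES.H
open Fermat.Agent.S24 Fermat.Agent.STB

variable (M₁ q p : ℕ) [NeZero M₁] [NeZero q]

/-- **(G36-K)** the geometric clause of S36 in Kummer form, at level `M₁ q` (used for `q ∥ M₁`)
and the prime `p` (used for `p ≠ q`, `p ≠ 2`). -/
def StmtCarayolKummerAt : Prop :=
  ∀ A : ValuationSubring Qb, A.LiesOverPrime q →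
    ∃ c : ℕ, c ≠ 0 ∧
      ∀ (n : ℕ) (u : modularFunctionFieldBar (M₁ * q)), u ≠ 0 →
        (∀ P : Place Qb (modularFunctionFieldBar (M₁ * q)), ((p ^ n : ℕ) : ℤ) ∣ P.ord u) →
        (∃ (a : Qb) (f : modularFunctionFieldBar M₁),
          stbNormAlpha M₁ q u = algebraMap Qb (modularFunctionFieldBar M₁) a * f ^ (p ^ n)) →
        (∃ (a : Qb) (f : modularFunctionFieldBar M₁),
          stbNormBeta M₁ q u = algebraMap Qb (modularFunctionFieldBar M₁) a * f ^ (p ^ n)) →
        (∀ σ ∈ A.inertiaSubgroupIn ℚ,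
          ∃ (a : Qb) (h : modularFunctionFieldBar (M₁ * q)),
            arithmeticGalois (modularFunctionFieldFull (M₁ * q)) σ • u =
              algebraMap Qb (modularFunctionFieldBar (M₁ * q)) a * h ^ (p ^ n) * u) →
          ∃ (a : Qb) (h : modularFunctionFieldBar (M₁ * q)),
            u ^ c = algebraMap Qb (modularFunctionFieldBar (M₁ * q)) a * h ^ (p ^ n)

/-- **(G36-J)** the geometric clause of S36 on `J₀(M₁ q)[p^∞]`: the inertia invariants (at a
place `A ∣ q`) of the `p`-power torsion of the `q`-new part are killed by a constant. -/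
def StmtCarayolJ : Prop :=
  ∀ A : ValuationSubring Qb, A.LiesOverPrime q →
    ∃ c : ℕ, c ≠ 0 ∧
      ∀ x : JZero (M₁ * q), (∃ n : ℕ, p ^ n • x = 0) → x ∈ stbNew M₁ q →
        (∀ σ ∈ A.inertiaSubgroupIn ℚ, σ • x = x) → c • x = 0

/-- (G36-K) at all levels. -/
def StmtCarayolKummer : Prop :=
  ∀ (M₁ q p : ℕ) [NeZero M₁] [NeZero q], q.Prime → p.Prime → p ≠ q → p ≠ 2 →
    q ∣ M₁ → ¬ q ^ 2 ∣ M₁ → StmtCarayolKummerAt M₁ q p

/-- **(G36)** = (G36-J) at all levels: the single geometric input of S36. -/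
def StmtCarayol : Prop :=
  ∀ (M₁ q p : ℕ) [NeZero M₁] [NeZero q], q.Prime → p.Prime → p ≠ q → p ≠ 2 →
    q ∣ M₁ → ¬ q ^ 2 ∣ M₁ → StmtCarayolJ M₁ q p

end Fermat.Agent.S36

end
end ZBES_005_11
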