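/- GENERATED FILE (helper35, build-time optimisation, NOTES/ZB.md): verbatim concatenation of the modules
   Fermat.Agent.INJ.Descent
   Fermat.Agent.UNIP.Descent
   Fermat.Agent.STB.Descent
   Do not edit; do not import together with these modules. -/
import Mathlib
import Fermat.Agent.ZB.Cheb_001
import Fermat.Agent.ZB.S28_002
import Fermat.Agent.ZB.STB_005
import Fermat.Agent.ZB.ES_005
import Fermat.Agent.ZB.ES_001
import Fermat.Agent.ZB.ES_003

/-! ### bundled: `Fermat.Agent.INJ.Descent` -/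
section ZBINJ_025_0

/-!
# (INJ) — descent of `p`-th powers along a finite extension of degree prime to `p`

If `L/K` is a finite field extension of degree `n` prime to `p` and `u ∈ K` is a `p`-th power in
`L`, then `u` is a `p`-th power in `K` (take norms: `N(h)^p = u^n`, then Bézout).
-/

set_option autoImplicit false

namespace Fermat.Agent.INJ

/-- **Norm descent.** -/
theorem descent_pow {K L : Type*} [Field K] [Field L] [Algebra K L] [FiniteDimensional K L]
    {p : ℕ} (hp : Nat.Coprime (Module.finrank K L) p) (u : K) (h : L)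
    (hu : algebraMap K L u = h ^ p) : ∃ g : K, u = g ^ p := by
  by_cases hu0 : u = 0
  · subst hu0
    by_cases hp0 : p = 0
    · subst hp0
      rw [map_zero, pow_zero] at hu
      exact absurd hu zero_ne_one
    · exact ⟨0, (zero_pow hp0).symm⟩
  have hn : Algebra.norm K h ^ p = u ^ Module.finrank K L := by
    rw [← map_pow, ← hu, Algebra.norm_algebraMap]
  -- Bézout: `n * a + p * b = 1`
  have hgcd : (Module.finrank K L : ℤ) * Nat.gcdA (Module.finrank K L) p +
      (p : ℤ) * Nat.gcdB (Module.finrank K L) p = 1 := by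
    have := Nat.gcd_eq_gcd_ab (Module.finrank K L) p
    rw [hp.gcd_eq_one] at this
    exact_mod_cast this.symm
  set a : ℤ := Nat.gcdA (Module.finrank K L) p
  set b : ℤ := Nat.gcdB (Module.finrank K L) p
  refine ⟨Algebra.norm K h ^ a * u ^ b, ?_⟩
  have h1 : u ^ ((Module.finrank K L : ℤ) * a) = (Algebra.norm K h ^ a) ^ p := by
    rw [zpow_mul, zpow_natCast, ← hn, ← zpow_natCast, ← zpow_mul, mul_comm, zpow_mul, zpow_natCast]
  have h2 : u ^ ((p : ℤ) * b) = (u ^ b) ^ p := by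
    rw [mul_comm, zpow_mul, zpow_natCast]
  calc u = u ^ (1 : ℤ) := (zpow_one u).symm
    _ = u ^ ((Module.finrank K L : ℤ) * a + (p : ℤ) * b) := by rw [hgcd]
    _ = (Algebra.norm K h ^ a) ^ p * (u ^ b) ^ p := by rw [zpow_add₀ hu0, h1, h2]
    _ = (Algebra.norm K h ^ a * u ^ b) ^ p := (mul_pow _ _ _).symm

/-- **Norm descent**, for a tower of intermediate fields `K ≤ L` of a field `Ω` over `k`. -/
theorem descent_pow_intermediate {k Ω : Type*} [Field k] [Field Ω] [Algebra k Ω]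
    (K L : IntermediateField k Ω) (hKL : K ≤ L)
    [FiniteDimensional K (IntermediateField.extendScalars hKL)]
    {p : ℕ} (hp : Nat.Coprime (Module.finrank K (IntermediateField.extendScalars hKL)) p)
    (u h : Ω) (huK : u ∈ K) (hhL : h ∈ L) (hu : u = h ^ p) : ∃ g ∈ K, u = g ^ p := by
  have hh' : h ∈ IntermediateField.extendScalars hKL := hhL
  obtain ⟨g, hg⟩ := descent_pow (K := K) (L := IntermediateField.extendScalars hKL) hp
    ⟨u, huK⟩ ⟨h, hh'⟩ (by
      apply Subtype.ext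
      simpa using hu)
  refine ⟨g, g.2, ?_⟩
  have := congrArg Subtype.val hg
  simpa using this

end Fermat.Agent.INJ


end ZBINJ_025_0

/-! ### bundled: `Fermat.Agent.UNIP.Descent` -/
section ZBINJ_025_1
/-
UNIP (item 34, S34/S35), piece U11 "Descent" (helper20).

`StmtUnipKummerAt N q` : the body of `StmtUnipKummer` (`UNIP/Stmt.lean`) at a fixed level `N` and a
fixed prime `q`.
* `stmtUnipKummer_iff` : `StmtUnipKummer ↔ ∀ N q, q prime, q ∥ N → StmtUnipKummerAt N q`.
* `unipKummerAt_descent` : if `q' ∤ N` is a prime with `q' + 1 = q ^ k`, then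
  `StmtUnipKummerAt (N * q') q → StmtUnipKummerAt N q`  (norm descent: `[F_{Nq'} : F_N] = q' + 1` is
  prime to every `m` prime to `q`).
* `stmtUnipKummer_of_aux` : it is enough to prove `StmtUnipKummerAt N q` for the levels `N` with
  `q ∥ N`, `(q = 2 → 3 ∣ N)` and `(q = 3 → 2 ∣ N)`  (the levels where the base line of the INJ/KEY
  route is available: `j`-line for `q ≥ 5`, `X₀(2)`-line for `q = 3`, `X₀(3)`-line for `q = 2`).
-/

set_option autoImplicit false

noncomputable section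

namespace Fermat.Agent.UNIP

open ModularCurve AlgebraicCurve Fermat.Agent.ES Fermat.Agent.ES.G2

/-- (UNIP) in Kummer form at a fixed level `N` and prime `q`. -/
def StmtUnipKummerAt (N : ℕ) [NeZero N] (q : ℕ) : Prop :=
  ∀ A : ValuationSubring Qb, A.LiesOverPrime q →
    ∀ m : ℕ, ¬ q ∣ m →
      ∀ σ ∈ A.inertiaSubgroupIn ℚ, ∀ τ ∈ A.inertiaSubgroupIn ℚ,
        ∀ u : modularFunctionFieldBar N, u ≠ 0 →
          (∀ P : Place Qb (modularFunctionFieldBar N), (m : ℤ) ∣ P.ord u) →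
            ∃ h : modularFunctionFieldBar N,
              h ^ m =
                (arithmeticGalois (modularFunctionFieldFull N) τ •
                    ((arithmeticGalois (modularFunctionFieldFull N) σ • u) / u)) /
                  ((arithmeticGalois (modularFunctionFieldFull N) σ • u) / u)

theorem stmtUnipKummer_iff :
    StmtUnipKummer ↔
      ∀ (N : ℕ) [NeZero N] (q : ℕ), q.Prime → q ∣ N → ¬ q ^ 2 ∣ N → StmtUnipKummerAt N q :=
  Iff.rfl

section Generic

variable {k E : Type*} [Field k] [Field E] [Algebra k E]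

theorem unip_finite_extendScalars {A B : IntermediateField k E} (h : A ≤ B)
    (hfin : A.relfinrank B ≠ 0) : FiniteDimensional A (IntermediateField.extendScalars h) := by
  have h1 : A.relrank B < Cardinal.aleph0 := by
    by_contra hge
    exact hfin (by
      rw [IntermediateField.relfinrank_eq_toNat_relrank, Cardinal.toNat_eq_zero]
      exact Or.inr (not_lt.mp hge))
  rw [IntermediateField.relrank_eq_rank_of_le h] at h1
  exact Module.rank_lt_aleph0_iff.mp h1

/-- norm descent for `A ≤ B` in terms of `relfinrank` -/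
theorem unip_descent_generic {A B : IntermediateField k E} (h : A ≤ B)
    (hfin : A.relfinrank B ≠ 0) {m : ℕ} (hcop : Nat.Coprime (A.relfinrank B) m)
    (u h' : E) (hu : u ∈ A) (hh : h' ∈ B) (huh : u = h' ^ m) : ∃ g ∈ A, u = g ^ m := by
  haveI := unip_finite_extendScalars h hfin
  refine Fermat.Agent.INJ.descent_pow_intermediate A B h ?_ u h' hu hh huh
  rw [← IntermediateField.relfinrank_eq_finrank_of_le h]
  exact hcop

end Generic

theorem unip_isIntegral_of_finite {R S : Type*} [Field R] [Field S] (f : R →+* S)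
    (h : letI := f.toAlgebra; FiniteDimensional R S) : f.IsIntegral := by
  letI := f.toAlgebra
  intro x
  exact Algebra.IsIntegral.isIntegral (R := R) x

/-- the `q`-expansion of `(τ − 1)(σ − 1) u` -/
theorem unip_coe_double (N : ℕ) (σ τ : Qb ≃ₐ[ℚ] Qb) (u : modularFunctionFieldBar N) :
    (((arithmeticGalois (modularFunctionFieldFull N) τ •
        ((arithmeticGalois (modularFunctionFieldFull N) σ • u) / u)) /
          ((arithmeticGalois (modularFunctionFieldFull N) σ • u) / u) :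
            modularFunctionFieldBar N) : LaurentSeries Qb) =
      coeffMap (τ : Qb →+* Qb)
          (coeffMap (σ : Qb →+* Qb) (u : LaurentSeries Qb) / (u : LaurentSeries Qb)) /
        (coeffMap (σ : Qb →+* Qb) (u : LaurentSeries Qb) / (u : LaurentSeries Qb)) := rfl

/-- divisibility of the orders pulls back along `F_N ⊂ F_{N q'}` -/
theorem unip_dvd_ord_pullback (N q' : ℕ) [NeZero N] [NeZero q'] [NeZero (N * q')]
    (hq' : q'.Prime) (hq'N : ¬ q' ∣ N) (m : ℕ) (u : modularFunctionFieldBar N)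
    (hdvd : ∀ P : Place Qb (modularFunctionFieldBar N), (m : ℤ) ∣ P.ord u)
    (P : Place Qb (modularFunctionFieldBar (N * q'))) :
    (m : ℤ) ∣ P.ord (heckeAlphaBar Qb N q' u) := by
  have hαint : (heckeAlphaBar Qb N q').toRingHom.IsIntegral :=
    unip_isIntegral_of_finite _ (hdeg_finiteDimensional N q' hq' hq'N)
  rw [Place.ord_restrictAlong (heckeAlphaBar Qb N q') hαint P u]
  exact Dvd.dvd.mul_left (hdvd _) _

/-- the `q`-expansion of `(τ − 1)(σ − 1) (α u)` is that of `(τ − 1)(σ − 1) u` -/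
theorem unip_coe_double_alpha (N q' : ℕ) [NeZero N] [NeZero q'] (σ τ : Qb ≃ₐ[ℚ] Qb) (u : modularFunctionFieldBar N) :
    (((arithmeticGalois (modularFunctionFieldFull (N * q')) τ •
        ((arithmeticGalois (modularFunctionFieldFull (N * q')) σ • (heckeAlphaBar Qb N q' u)) /
          (heckeAlphaBar Qb N q' u))) /
          ((arithmeticGalois (modularFunctionFieldFull (N * q')) σ • (heckeAlphaBar Qb N q' u)) /
            (heckeAlphaBar Qb N q' u)) :
            modularFunctionFieldBar (N * q')) : LaurentSeries Qb) =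
      coeffMap (τ : Qb →+* Qb)
          (coeffMap (σ : Qb →+* Qb) (u : LaurentSeries Qb) / (u : LaurentSeries Qb)) /
        (coeffMap (σ : Qb →+* Qb) (u : LaurentSeries Qb) / (u : LaurentSeries Qb)) := by
  rw [unip_coe_double, coe_heckeAlphaBar]

/-- **Norm descent of (UNIP)** along `F_N ⊂ F_{N'}`, `N' = N * q'`, when the degree `q' + 1` is a
power of `q`. -/
theorem unipKummerAt_descent (N q q' : ℕ) [NeZero N] [NeZero q'] [NeZero (N * q')]
    (hq : q.Prime) (hq' : q'.Prime) (hq'N : ¬ q' ∣ N) (k : ℕ) (hk : q' + 1 = q ^ k)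
    (H : StmtUnipKummerAt (N * q') q) : StmtUnipKummerAt N q := by
  intro A hA m hm σ hσ τ hτ u hu hdvd
  have hle : modularFunctionFieldBar N ≤ modularFunctionFieldBar (N * q') := hdeg_bar_le N q'
  have hrel : (modularFunctionFieldBar N).relfinrank (modularFunctionFieldBar (N * q')) = q' + 1 :=
    hdeg_relfinrank N q' hq' hq'N
  have hαu : heckeAlphaBar Qb N q' u ≠ 0 :=
    (map_ne_zero_iff _ (heckeAlphaBar Qb N q').toRingHom.injective).mpr hu
  obtain ⟨h', hh'⟩ := H A hA m hm σ hσ τ hτ (heckeAlphaBar Qb N q' u) hαu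
    (unip_dvd_ord_pullback N q' hq' hq'N m u hdvd)
  -- descend
  have hcop : Nat.Coprime ((modularFunctionFieldBar N).relfinrank
      (modularFunctionFieldBar (N * q'))) m := by
    rw [hrel, hk]
    exact Nat.Coprime.pow_left k ((Nat.Prime.coprime_iff_not_dvd hq).mpr hm)
  have hw' : coeffMap (τ : Qb →+* Qb)
          (coeffMap (σ : Qb →+* Qb) (u : LaurentSeries Qb) / (u : LaurentSeries Qb)) /
        (coeffMap (σ : Qb →+* Qb) (u : LaurentSeries Qb) / (u : LaurentSeries Qb)) =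
      (h' : LaurentSeries Qb) ^ m := by
    rw [← unip_coe_double_alpha N q' σ τ u, ← hh']
    exact SubmonoidClass.coe_pow h' m
  have hwmem : coeffMap (τ : Qb →+* Qb)
          (coeffMap (σ : Qb →+* Qb) (u : LaurentSeries Qb) / (u : LaurentSeries Qb)) /
        (coeffMap (σ : Qb →+* Qb) (u : LaurentSeries Qb) / (u : LaurentSeries Qb)) ∈
      modularFunctionFieldBar N := by
    rw [← unip_coe_double N σ τ u]
    exact Subtype.property _
  obtain ⟨g, hg, hgw⟩ := unip_descent_generic hle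
    (by rw [hrel]; exact Nat.succ_ne_zero q') hcop _ (h' : LaurentSeries Qb) hwmem h'.2 hw'
  refine ⟨⟨g, hg⟩, ?_⟩
  apply Subtype.ext
  rw [unip_coe_double, hgw]
  exact (SubmonoidClass.coe_pow (⟨g, hg⟩ : modularFunctionFieldBar N) m).symm

/-- **U11.** It is enough to prove (UNIP) at the levels where the base line of the KEY route is
available. -/
theorem stmtUnipKummer_of_aux
    (H : ∀ (N : ℕ) [NeZero N] (q : ℕ), q.Prime → q ∣ N → ¬ q ^ 2 ∣ N →
      (q = 2 → 3 ∣ N) → (q = 3 → 2 ∣ N) → StmtUnipKummerAt N q) :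
    StmtUnipKummer := by
  rw [stmtUnipKummer_iff]
  intro N _ q hq hqN hq2
  by_cases h2 : q = 2
  · subst h2
    by_cases h3 : 3 ∣ N
    · exact H N 2 hq hqN hq2 (fun _ => h3) (fun h => absurd h (by decide))
    · have : NeZero (N * 3) := ⟨Nat.mul_ne_zero (NeZero.ne N) (by decide)⟩
      refine unipKummerAt_descent N 2 3 hq (by decide) h3 2 (by norm_num) ?_
      refine H (N * 3) 2 hq (Dvd.dvd.mul_right hqN 3) ?_ (fun _ => Dvd.intro_left N rfl)
        (fun h => absurd h (by decide))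
      intro h4
      have hc : Nat.Coprime (2 ^ 2) 3 := by decide
      exact hq2 (hc.dvd_of_dvd_mul_right h4)
  · by_cases h3 : q = 3
    · subst h3
      by_cases h2' : 2 ∣ N
      · exact H N 3 hq hqN hq2 (fun h => absurd h (by decide)) (fun _ => h2')
      · have : NeZero (N * 2) := ⟨Nat.mul_ne_zero (NeZero.ne N) (by decide)⟩
        refine unipKummerAt_descent N 3 2 hq (by decide) h2' 1 (by norm_num) ?_
        refine H (N * 2) 3 hq (Dvd.dvd.mul_right hqN 2) ?_ (fun h => absurd h (by decide))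
          (fun _ => Dvd.intro_left N rfl)
        intro h4
        have hc : Nat.Coprime (3 ^ 2) 2 := by decide
        exact hq2 (hc.dvd_of_dvd_mul_right h4)
    · exact H N q hq hqN hq2 (fun h => absurd h h2) (fun h => absurd h h3)

end Fermat.Agent.UNIP

end
end ZBINJ_025_1

/-! ### bundled: `Fermat.Agent.STB.Descent` -/
section ZBINJ_025_2
/-
S35 phase 2 (plan "STB", NOTES/S35-plan.md §1 (D)), piece STB-D "Descent" (helper18).

Levels `N = M₁ q`, `N' = M₁ q' q` (`q' ∤ N` a prime with `q' + 1` a power of `q` and prime to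
`q + 1`; in practice `(q, q') = (2, 3)` or `(3, 2)`).  `F_N = modularFunctionFieldBar N`.

* `stbdUp M₁ q q'` : the inclusion `F_{M₁ q} → F_{M₁ q' q}`;
* `stb_d_deg_alpha`, `stb_d_deg_beta` : `[F_{Nℓ} : F_N] = ℓ + 1` along `α` and along `β`;
* `stb_d_norm_alpha`, `stb_d_norm_beta` : THE HYPOTHESIS ASCENDS,
    `N_{α'} (u) = N_α (u)`, `N_{β'} (u) = N_β (u)` for `u ∈ F_{M₁ q}`
  (`α, β : F_{M₁} → F_{M₁ q}`, `α', β' : F_{M₁ q'} → F_{M₁ q' q}`);
* `stb_d_dvd_ord` : `m ∣ div u` ascends;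
* `stb_d_pow_descent` : THE CONCLUSION DESCENDS, `w ∈ F_{M₁ q}` an `m`-th power in `F_{M₁ q' q}`,
  `gcd(q' + 1, m) = 1` ⇒ `w` is an `m`-th power in `F_{M₁ q}`;
* `newFrobKummerAt_descent` : `StmtNewFrobKummerAt (M₁ * q') q → StmtNewFrobKummerAt M₁ q`
  (`StmtNewFrobKummerAt` = Kummer form of (P7-a), `STB/Stmt.lean`);
* `stmtNewFrobKummer_of_aux` : **STB-D**, it is enough to prove `StmtNewFrobKummerAt M₁ q` at the
  levels with `(q = 2 → 3 ∣ M₁)` and `(q = 3 → 2 ∣ M₁)`.
-/

set_option autoImplicit false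

noncomputable section

namespace Fermat.Agent.STB

open ModularCurve AlgebraicCurve Fermat.Agent.ES Fermat.Agent.ES.G2 Fermat.Agent.UNIP Module

section Generic

/-- degree comparison: `w ∘ φ = ψ` ⇒ `deg φ ≤ deg ψ` -/
theorem stbdDeg_le_of_comp {F F' F'' : Type*} [Field F] [Field F'] [Field F'']
    (φ : F →+* F') (ψ : F →+* F'') (w : F' →+* F'') (hw : ∀ c, w (φ c) = ψ c)
    (hfin : stbdDeg ψ ≠ 0) : stbdDeg φ ≤ stbdDeg ψ := by
  let _ : Algebra F F' := φ.toAlgebra
  let _ : Algebra F F'' := ψ.toAlgebra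
  have : Module.Finite F F'' := Module.finite_of_finrank_pos (Nat.pos_of_ne_zero hfin)
  let wa : F' →ₐ[F] F'' := { w with commutes' := hw }
  exact LinearMap.finrank_le_finrank_of_injective (f := wa.toLinearMap) wa.toRingHom.injective

end Generic

section Degrees

variable (N ℓ : ℕ) [NeZero N] [NeZero ℓ]

theorem stb_d_deg_alpha (hℓ : ℓ.Prime) (hℓN : ¬ ℓ ∣ N) :
    stbdDeg (heckeAlphaBar Qb N ℓ).toRingHom = ℓ + 1 :=
  hdeg_finrank N ℓ hℓ hℓN

theorem stb_d_deg_beta_ne_zero : stbdDeg (heckeBetaBar Qb N ℓ).toRingHom ≠ 0 := by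
  have hfin : FiniteAlong Qb (heckeBetaBar Qb N ℓ) := H.finiteAlong_heckeBetaBar N ℓ
  let _ := algebraAlong (heckeBetaBar Qb N ℓ)
  have : Module.Finite (modularFunctionFieldBar N) (modularFunctionFieldBar (N * ℓ)) := hfin
  exact (Module.finrank_pos (R := modularFunctionFieldBar N)
    (M := modularFunctionFieldBar (N * ℓ))).ne'

theorem stb_d_deg_beta (hℓ : ℓ.Prime) (hℓN : ¬ ℓ ∣ N) :
    stbdDeg (heckeBetaBar Qb N ℓ).toRingHom = ℓ + 1 := by
  obtain ⟨w, hwα, hwβ⟩ := exists_swap N ℓ ((Nat.Prime.coprime_iff_not_dvd hℓ).2 hℓN)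
  have hα := stb_d_deg_alpha N ℓ hℓ hℓN
  apply le_antisymm
  · have h1 := stbdDeg_le_of_comp (heckeBetaBar Qb N ℓ).toRingHom
      (heckeAlphaBar Qb N ℓ).toRingHom w.toRingHom hwβ (by rw [hα]; exact Nat.succ_ne_zero ℓ)
    rwa [hα] at h1
  · have h1 := stbdDeg_le_of_comp (heckeAlphaBar Qb N ℓ).toRingHom
      (heckeBetaBar Qb N ℓ).toRingHom w.toRingHom hwα (stb_d_deg_beta_ne_zero N ℓ)
    rwa [hα] at h1

end Degrees

section Levels

variable (M₁ q q' : ℕ)

theorem stb_d_level_eq :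
    modularFunctionFieldBar (M₁ * q * q') = modularFunctionFieldBar (M₁ * q' * q) := by
  rw [Nat.mul_right_comm]

theorem stb_d_le : modularFunctionFieldBar (M₁ * q) ≤ modularFunctionFieldBar (M₁ * q' * q) := by
  rw [← stb_d_level_eq]
  exact hdeg_bar_le (M₁ * q) q'

/-- the inclusion `F_{M₁ q} → F_{M₁ q' q}` -/
def stbdUp : modularFunctionFieldBar (M₁ * q) →ₐ[Qb] modularFunctionFieldBar (M₁ * q' * q) :=
  IntermediateField.inclusion (stb_d_le M₁ q q')

@[simp]
theorem coe_stbdUp (x : modularFunctionFieldBar (M₁ * q)) :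
    (stbdUp M₁ q q' x : LaurentSeries Qb) = (x : LaurentSeries Qb) :=
  IntermediateField.coe_inclusion _ x

theorem stbdUp_injective : Function.Injective (stbdUp M₁ q q') :=
  (stbdUp M₁ q q').toRingHom.injective

section Up

variable [NeZero q'] [NeZero (M₁ * q)]

theorem stb_d_relfinrank (hq' : q'.Prime) (hq'N : ¬ q' ∣ M₁ * q) :
    (modularFunctionFieldBar (M₁ * q)).relfinrank (modularFunctionFieldBar (M₁ * q' * q))
      = q' + 1 := by
  rw [← stb_d_level_eq]
  exact hdeg_relfinrank (M₁ * q) q' hq' hq'N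

theorem stbdUp_isIntegral (hq' : q'.Prime) (hq'N : ¬ q' ∣ M₁ * q) :
    (stbdUp M₁ q q').toRingHom.IsIntegral :=
  unip_isIntegral_of_finite _ (hdeg_finite_inclusion (stb_d_le M₁ q q')
    (by rw [stb_d_relfinrank M₁ q q' hq' hq'N]; exact Nat.succ_ne_zero q'))

/-- `m ∣ div u` ascends. -/
theorem stb_d_dvd_ord (hq' : q'.Prime) (hq'N : ¬ q' ∣ M₁ * q) (m : ℕ)
    (u : modularFunctionFieldBar (M₁ * q))
    (hdvd : ∀ P : Place Qb (modularFunctionFieldBar (M₁ * q)), (m : ℤ) ∣ P.ord u)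
    (P : Place Qb (modularFunctionFieldBar (M₁ * q' * q))) :
    (m : ℤ) ∣ P.ord (stbdUp M₁ q q' u) := by
  rw [Place.ord_restrictAlong (stbdUp M₁ q q') (stbdUp_isIntegral M₁ q q' hq' hq'N) P u]
  exact Dvd.dvd.mul_left (hdvd _) _

/-- **The conclusion descends.** -/
theorem stb_d_pow_descent (hq' : q'.Prime) (hq'N : ¬ q' ∣ M₁ * q) (m : ℕ)
    (hcop : Nat.Coprime (q' + 1) m) (w : modularFunctionFieldBar (M₁ * q))
    (h' : modularFunctionFieldBar (M₁ * q' * q)) (hh : stbdUp M₁ q q' w = h' ^ m) :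
    ∃ h : modularFunctionFieldBar (M₁ * q), w = h ^ m := by
  have hrel := stb_d_relfinrank M₁ q q' hq' hq'N
  have hw' : (w : LaurentSeries Qb) = (h' : LaurentSeries Qb) ^ m := by
    rw [← coe_stbdUp M₁ q q' w, hh]
    exact SubmonoidClass.coe_pow h' m
  obtain ⟨g, hg, hgw⟩ := unip_descent_generic (stb_d_le M₁ q q')
    (by rw [hrel]; exact Nat.succ_ne_zero q') (by rw [hrel]; exact hcop)
    (w : LaurentSeries Qb) (h' : LaurentSeries Qb) w.2 h'.2 hw'
  refine ⟨⟨g, hg⟩, Subtype.ext ?_⟩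
  rw [hgw]
  exact (SubmonoidClass.coe_pow (⟨g, hg⟩ : modularFunctionFieldBar (M₁ * q)) m).symm


end Up

section Square

variable [NeZero M₁] [NeZero q] [NeZero q']

theorem stb_d_sq_alpha [NeZero (M₁ * q')] (x : modularFunctionFieldBar M₁) :
    (heckeAlphaBar Qb (M₁ * q') q).toRingHom ((heckeAlphaBar Qb M₁ q').toRingHom x) =
      (stbdUp M₁ q q').toRingHom ((heckeAlphaBar Qb M₁ q).toRingHom x) := by
  apply Subtype.ext
  show ((heckeAlphaBar Qb (M₁ * q') q (heckeAlphaBar Qb M₁ q' x) :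
      modularFunctionFieldBar (M₁ * q' * q)) : LaurentSeries Qb) =
    ((stbdUp M₁ q q' (heckeAlphaBar Qb M₁ q x) : modularFunctionFieldBar (M₁ * q' * q)) :
      LaurentSeries Qb)
  rw [coe_heckeAlphaBar, coe_heckeAlphaBar, coe_stbdUp, coe_heckeAlphaBar]

theorem stb_d_sq_beta (x : modularFunctionFieldBar M₁) :
    (heckeBetaBar Qb (M₁ * q') q).toRingHom ((heckeAlphaBar Qb M₁ q').toRingHom x) =
      (stbdUp M₁ q q').toRingHom ((heckeBetaBar Qb M₁ q).toRingHom x) := by
  apply Subtype.ext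
  show ((heckeBetaBar Qb (M₁ * q') q (heckeAlphaBar Qb M₁ q' x) :
      modularFunctionFieldBar (M₁ * q' * q)) : LaurentSeries Qb) =
    ((stbdUp M₁ q q' (heckeBetaBar Qb M₁ q x) : modularFunctionFieldBar (M₁ * q' * q)) :
      LaurentSeries Qb)
  rw [coe_heckeBetaBar, coe_heckeAlphaBar, coe_stbdUp, coe_heckeBetaBar]

variable [NeZero (M₁ * q')]

/-- **The hypothesis ascends**, `α`: `N_{α'} (u) = N_α (u)`. -/
theorem stb_d_norm_alpha (hq : q.Prime) (hq' : q'.Prime) (hqM : ¬ q ∣ M₁) (hq'M : ¬ q' ∣ M₁)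
    (hne : q ≠ q') (hcop : Nat.Coprime (q + 1) (q' + 1))
    (u : modularFunctionFieldBar (M₁ * q)) :
    stbdNorm (heckeAlphaBar Qb (M₁ * q') q).toRingHom ((stbdUp M₁ q q').toRingHom u) =
      (heckeAlphaBar Qb M₁ q').toRingHom (stbdNorm (heckeAlphaBar Qb M₁ q).toRingHom u) := by
  have hqM' : ¬ q ∣ M₁ * q' := fun h =>
    (hq.dvd_mul.mp h).elim hqM fun h2 => hne ((Nat.prime_dvd_prime_iff_eq hq hq').mp h2)
  have h1 := stb_d_deg_alpha M₁ q hq hqM
  have h2 := stb_d_deg_alpha M₁ q' hq' hq'M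
  have h3 := stb_d_deg_alpha (M₁ * q') q hq hqM'
  refine stb_d_norm_square_hom (heckeAlphaBar Qb M₁ q).toRingHom
    (heckeAlphaBar Qb M₁ q').toRingHom (heckeAlphaBar Qb (M₁ * q') q).toRingHom
    (stbdUp M₁ q q').toRingHom (stb_d_sq_alpha M₁ q q') ?_ ?_ ?_ ?_ u
  · rw [h1]; exact Nat.succ_ne_zero q
  · rw [h2]; exact Nat.succ_ne_zero q'
  · rw [h3, h1]
  · rw [h1, h2]; exact hcop

/-- **The hypothesis ascends**, `β`: `N_{β'} (u) = N_β (u)`. -/
theorem stb_d_norm_beta (hq : q.Prime) (hq' : q'.Prime) (hqM : ¬ q ∣ M₁) (hq'M : ¬ q' ∣ M₁)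
    (hne : q ≠ q') (hcop : Nat.Coprime (q + 1) (q' + 1))
    (u : modularFunctionFieldBar (M₁ * q)) :
    stbdNorm (heckeBetaBar Qb (M₁ * q') q).toRingHom ((stbdUp M₁ q q').toRingHom u) =
      (heckeAlphaBar Qb M₁ q').toRingHom (stbdNorm (heckeBetaBar Qb M₁ q).toRingHom u) := by
  have hqM' : ¬ q ∣ M₁ * q' := fun h =>
    (hq.dvd_mul.mp h).elim hqM fun h2 => hne ((Nat.prime_dvd_prime_iff_eq hq hq').mp h2)
  have h1 := stb_d_deg_beta M₁ q hq hqM
  have h2 := stb_d_deg_alpha M₁ q' hq' hq'M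
  have h3 := stb_d_deg_beta (M₁ * q') q hq hqM'
  refine stb_d_norm_square_hom (heckeBetaBar Qb M₁ q).toRingHom
    (heckeAlphaBar Qb M₁ q').toRingHom (heckeBetaBar Qb (M₁ * q') q).toRingHom
    (stbdUp M₁ q q').toRingHom (stb_d_sq_beta M₁ q q') ?_ ?_ ?_ ?_ u
  · rw [h1]; exact Nat.succ_ne_zero q
  · rw [h2]; exact Nat.succ_ne_zero q'
  · rw [h3, h1]
  · rw [h1, h2]; exact hcop

end Square

end Levels

section Bridge

variable (M₁ q : ℕ) [NeZero M₁] [NeZero q]

theorem stbNormAlpha_eq_stbdNorm (y : modularFunctionFieldBar (M₁ * q)) :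
    stbNormAlpha M₁ q y = stbdNorm (heckeAlphaBar Qb M₁ q).toRingHom y := rfl

omit [NeZero M₁] in
theorem stbNormBeta_eq_stbdNorm [NeZero M₁] (y : modularFunctionFieldBar (M₁ * q)) :
    stbNormBeta M₁ q y = stbdNorm (heckeBetaBar Qb M₁ q).toRingHom y := rfl

end Bridge

section Expr

/-- the `q`-expansion of `(g² − Q)(g² − 1) u` -/
theorem coe_stbFrobExpr (N : ℕ) (σ : Qb ≃ₐ[ℚ] Qb) (Q : ℕ) (u : modularFunctionFieldBar N) :
    ((stbFrobExpr (fun y => arithmeticGalois (modularFunctionFieldFull N) σ • y) Q u :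
        modularFunctionFieldBar N) : LaurentSeries Qb) =
      stbFrobExpr (fun y => coeffMap (σ : Qb →+* Qb) y) Q (u : LaurentSeries Qb) := rfl

theorem stbdUp_stbFrobExpr (M₁ q q' : ℕ) (σ : Qb ≃ₐ[ℚ] Qb) (Q : ℕ)
    (u : modularFunctionFieldBar (M₁ * q)) :
    stbdUp M₁ q q'
        (stbFrobExpr (fun y => arithmeticGalois (modularFunctionFieldFull (M₁ * q)) σ • y) Q u) =
      stbFrobExpr (fun y => arithmeticGalois (modularFunctionFieldFull (M₁ * q' * q)) σ • y) Q
        (stbdUp M₁ q q' u) := by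
  apply Subtype.ext
  rw [coe_stbdUp, coe_stbFrobExpr, coe_stbFrobExpr, coe_stbdUp]

end Expr

section Main

/-- **Descent of (P7-a)** along `F_{M₁ q} ⊂ F_{M₁ q' q}`: the hypotheses ascend (norm square with
coprime degrees), the conclusion descends (`[F_{M₁ q' q} : F_{M₁ q}] = q' + 1 = q ^ k` is prime
to `m`). -/
theorem newFrobKummerAt_descent (M₁ q q' : ℕ) [NeZero M₁] [NeZero q] [NeZero q']
    [NeZero (M₁ * q)] [NeZero (M₁ * q')]
    (hq : q.Prime) (hq' : q'.Prime) (hqM : ¬ q ∣ M₁) (hq'M : ¬ q' ∣ M₁) (hne : q ≠ q')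
    (hcop : Nat.Coprime (q + 1) (q' + 1)) (k : ℕ) (hk : q' + 1 = q ^ k)
    (H : StmtNewFrobKummerAt (M₁ * q') q) : StmtNewFrobKummerAt M₁ q := by
  intro A hA m hm σ hσ u hu hdvd hα hβ
  obtain ⟨c, f, hf⟩ := hα
  obtain ⟨c', f', hf'⟩ := hβ
  have hq'N : ¬ q' ∣ M₁ * q := fun h =>
    (hq'.dvd_mul.mp h).elim hq'M fun h2 => hne ((Nat.prime_dvd_prime_iff_eq hq' hq).mp h2).symm
  have hup0 : stbdUp M₁ q q' u ≠ 0 :=
    (map_ne_zero_iff _ (stbdUp_injective M₁ q q')).mpr hu
  have hcm : Nat.Coprime (q' + 1) m := by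
    rw [hk]
    exact Nat.Coprime.pow_left k ((Nat.Prime.coprime_iff_not_dvd hq).mpr hm)
  have hNα : stbNormAlpha (M₁ * q') q (stbdUp M₁ q q' u) =
      algebraMap Qb (modularFunctionFieldBar (M₁ * q')) c * (heckeAlphaBar Qb M₁ q' f) ^ m := by
    have h1 := stb_d_norm_alpha M₁ q q' hq hq' hqM hq'M hne hcop u
    have h2 : stbdNorm (heckeAlphaBar Qb M₁ q).toRingHom u =
        algebraMap Qb (modularFunctionFieldBar M₁) c * f ^ m := hf
    rw [h2] at h1
    refine Eq.trans (b := heckeAlphaBar Qb M₁ q'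
      (algebraMap Qb (modularFunctionFieldBar M₁) c * f ^ m)) h1 ?_
    rw [map_mul, map_pow, AlgHom.commutes]
  have hNβ : stbNormBeta (M₁ * q') q (stbdUp M₁ q q' u) =
      algebraMap Qb (modularFunctionFieldBar (M₁ * q')) c' * (heckeAlphaBar Qb M₁ q' f') ^ m := by
    have h1 := stb_d_norm_beta M₁ q q' hq hq' hqM hq'M hne hcop u
    have h2 : stbdNorm (heckeBetaBar Qb M₁ q).toRingHom u =
        algebraMap Qb (modularFunctionFieldBar M₁) c' * f' ^ m := hf'
    rw [h2] at h1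
    refine Eq.trans (b := heckeAlphaBar Qb M₁ q'
      (algebraMap Qb (modularFunctionFieldBar M₁) c' * f' ^ m)) h1 ?_
    rw [map_mul, map_pow, AlgHom.commutes]
  obtain ⟨h', hh'⟩ := H A hA m hm σ hσ (stbdUp M₁ q q' u) hup0
    (stb_d_dvd_ord M₁ q q' hq' hq'N m u hdvd) ⟨c, _, hNα⟩ ⟨c', _, hNβ⟩
  obtain ⟨h, hh⟩ := stb_d_pow_descent M₁ q q' hq' hq'N m hcm
    (stbFrobExpr (fun y => arithmeticGalois (modularFunctionFieldFull (M₁ * q)) σ • y)
      (q ^ 2) u) h' (by rw [stbdUp_stbFrobExpr, hh'])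
  exact ⟨h, hh.symm⟩

/-- **STB-D.** It is enough to prove (P7-a) in Kummer form at the levels `M₁ q` where the base
line of the KEY route is available: `(q = 2 → 3 ∣ M₁)` and `(q = 3 → 2 ∣ M₁)`. -/
theorem stmtNewFrobKummer_of_aux
    (H : ∀ (M₁ q : ℕ) [NeZero M₁] [NeZero q], q.Prime → ¬ q ∣ M₁ →
      (q = 2 → 3 ∣ M₁) → (q = 3 → 2 ∣ M₁) → StmtNewFrobKummerAt M₁ q) :
    StmtNewFrobKummer := by
  intro M₁ q _ _ hq hqM
  have hM0 : M₁ ≠ 0 := NeZero.ne M₁
  have : NeZero (M₁ * q) := ⟨Nat.mul_ne_zero hM0 hq.ne_zero⟩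
  by_cases h2 : q = 2
  · subst h2
    by_cases h3 : 3 ∣ M₁
    · exact H M₁ 2 hq hqM (fun _ => h3) (fun h => absurd h (by decide))
    · have : NeZero (M₁ * 3) := ⟨Nat.mul_ne_zero hM0 (by decide)⟩
      refine newFrobKummerAt_descent M₁ 2 3 hq (by decide) hqM h3 (by decide) (by decide) 2
        (by norm_num) ?_
      refine H (M₁ * 3) 2 hq ?_ (fun _ => Dvd.intro_left M₁ rfl) (fun h => absurd h (by decide))
      intro h4
      exact hqM ((Nat.Coprime.dvd_mul_right (by decide : Nat.Coprime 2 3)).mp h4)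
  · by_cases h3 : q = 3
    · subst h3
      by_cases h2' : 2 ∣ M₁
      · exact H M₁ 3 hq hqM (fun h => absurd h (by decide)) (fun _ => h2')
      · have : NeZero (M₁ * 2) := ⟨Nat.mul_ne_zero hM0 (by decide)⟩
        refine newFrobKummerAt_descent M₁ 3 2 hq (by decide) hqM h2' (by decide) (by decide) 1
          (by norm_num) ?_
        refine H (M₁ * 2) 3 hq ?_ (fun h => absurd h (by decide)) (fun _ => Dvd.intro_left M₁ rfl)
        intro h4
        exact hqM ((Nat.Coprime.dvd_mul_right (by decide : Nat.Coprime 3 2)).mp h4)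
    · exact H M₁ q hq hqM (fun h => absurd h h2) (fun h => absurd h h3)

end Main

end Fermat.Agent.STB

end
end ZBINJ_025_2
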