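/- GENERATED FILE (helper35, build-time optimisation, NOTES/ZB.md): verbatim concatenation of the modules
   Fermat.Agent.INJ.NumField
   Fermat.Agent.INJ.StmtNF
   Fermat.Agent.INJ.InjH2Aux
   Fermat.Agent.INJ.NFEmb
   Fermat.Agent.UNIP.MGSetup
   Fermat.Agent.UNIP.MGPrimePow
   Fermat.Agent.UNIP.MGChartsField
   Fermat.Agent.UNIP.Rational
   Fermat.Agent.ES.I2.E
   Do not edit; do not import together with these modules. -/
import Mathlib
import Fermat.Prelude.Def_ModularCurve_ReductionModL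
import Fermat.Prelude.Def_FLTPrelim_Ramification
import Fermat.Agent.ZB.INJ_003
import Fermat.Agent.ZB.S20_001
import Fermat.Agent.ZB.INJ_025
import Fermat.Agent.ZB.ES_003
import Fermat.Prelude.Def_ModularCurve_ArithmeticGalois
import Fermat.Agent.ZB.ES_001

/-! ### bundled: `Fermat.Agent.INJ.NumField` -/
section ZBINJ_005_0

/-!
# (INJ) B-glue, piece K1: descent of elements of `F_N = ℚ̄(j(q^d) : d ∣ N)` to a number field

* `nf_coeffMap_mem_fullC` : a ring homomorphism of fields `f : K → K'` maps (coefficientwise)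
  `modularFunctionFieldFullC K N` into `modularFunctionFieldFullC K' N`.
* `nf_exists_descent` : every `y ∈ modularFunctionFieldBar N` is `coeffMap (K₀ ↪ ℚ̄) y₀` for a
  number field `K₀ ⊂ ℚ̄` and some `y₀ ∈ modularFunctionFieldFullC K₀ N`.
* `nf_exists_descent_finset` : the same for finitely many elements at once, with `K₀` containing
  a prescribed finite set of constants.
-/

set_option autoImplicit false

open ModularCurve

namespace Fermat.Agent.INJ

/-- `ℚ̄` -/
abbrev NfQb : Type := AlgebraicClosure ℚ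

section General

variable {K K' : Type*} [Field K] [Field K']

theorem nf_coeffMap_algebraMap (f : K →+* K') (c : K) :
    coeffMap f (algebraMap K (LaurentSeries K) c) = algebraMap K' (LaurentSeries K') (f c) := by
  rw [algebraMap_laurentSeries_eq_single, algebraMap_laurentSeries_eq_single, coeffMap_single]

theorem nf_coeffMap_injective (f : K →+* K') : Function.Injective (coeffMap f) := by
  intro x y h
  ext n
  have := congrArg (fun z => z.coeff n) h
  simp only [coeffMap_coeff] at this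
  exact f.injective this

/-- `coeffMap f` maps `F_N` over `K` into `F_N` over `K'`. -/
theorem nf_coeffMap_mem_fullC (f : K →+* K') (N : ℕ) {x : LaurentSeries K}
    (hx : x ∈ modularFunctionFieldFullC K N) :
    coeffMap f x ∈ modularFunctionFieldFullC K' N := by
  have hx' : x ∈ Subfield.closure
      (Set.range (algebraMap K (LaurentSeries K)) ∪ divisorExpansionsC K N) := hx
  clear hx
  induction hx' using Subfield.closure_induction with
  | mem y hy =>
      rcases hy with ⟨a, rfl⟩ | ⟨d, hd, hdN, rfl⟩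
      · rw [nf_coeffMap_algebraMap]
        exact (modularFunctionFieldFullC K' N).algebraMap_mem _
      · have : coeffMap f (qExpand K d (jqModC K)) = qExpand K' d (jqModC K') :=
          coeffMap_jqNModC f d
        rw [this]
        exact jqModCd_mem_full K' N hdN
  | one => simp
  | add x y _ _ hx hy => simpa using add_mem hx hy
  | neg x _ hx => simpa using neg_mem hx
  | inv x _ hx => simpa using inv_mem hx
  | mul x y _ _ hx hy => simpa using mul_mem hx hy

end General

section Descent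

variable (N : ℕ)

/-- the descent predicate -/
def NfDescends (y : LaurentSeries NfQb) : Prop :=
  ∃ K₀ : IntermediateField ℚ NfQb, FiniteDimensional ℚ K₀ ∧
    ∃ y₀ : LaurentSeries K₀, y₀ ∈ modularFunctionFieldFullC K₀ N ∧
      coeffMap (algebraMap K₀ NfQb) y₀ = y

variable {N}

theorem nf_coeffMap_inclusion {K₀ K₁ : IntermediateField ℚ NfQb} (h : K₀ ≤ K₁)
    (y₀ : LaurentSeries K₀) :
    coeffMap (algebraMap K₁ NfQb) (coeffMap (IntermediateField.inclusion h).toRingHom y₀)
      = coeffMap (algebraMap K₀ NfQb) y₀ := by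
  rw [coeffMap_coeffMap]
  exact coeffMap_congr (RingHom.ext fun c => rfl) y₀

/-- enlarging the number field -/
theorem NfDescends.mono_aux {K₀ K₁ : IntermediateField ℚ NfQb} (h : K₀ ≤ K₁)
    {y₀ : LaurentSeries K₀} (hy₀ : y₀ ∈ modularFunctionFieldFullC K₀ N) :
    coeffMap (IntermediateField.inclusion h).toRingHom y₀ ∈ modularFunctionFieldFullC K₁ N :=
  nf_coeffMap_mem_fullC _ N hy₀

theorem nfDescends_algebraMap (c : NfQb) :
    NfDescends N (algebraMap NfQb (LaurentSeries NfQb) c) := by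
  have hc : IsIntegral ℚ c := (AlgebraicClosure.isAlgebraic ℚ).isIntegral.isIntegral c
  refine ⟨IntermediateField.adjoin ℚ {c}, IntermediateField.adjoin.finiteDimensional hc,
    algebraMap _ _ (⟨c, IntermediateField.mem_adjoin_simple_self ℚ c⟩ : IntermediateField.adjoin ℚ {c}),
    (modularFunctionFieldFullC _ N).algebraMap_mem _, ?_⟩
  rw [nf_coeffMap_algebraMap]
  rfl

theorem nfDescends_coeffEmb {z : LaurentSeries ℚ} (hz : z ∈ modularFunctionFieldFull N) :
    NfDescends N (coeffEmb NfQb z) := by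
  refine ⟨⊥, inferInstance, coeffMap (algebraMap ℚ (⊥ : IntermediateField ℚ NfQb)) z,
    nf_coeffMap_mem_fullC _ N (by rw [modularFunctionFieldFullC_rat]; exact hz), ?_⟩
  rw [coeffMap_coeffMap]
  exact coeffMap_congr (RingHom.ext fun c => rfl) z

theorem NfDescends.binary {y y' : LaurentSeries NfQb} (hy : NfDescends N y)
    (hy' : NfDescends N y') :
    ∃ K₀ : IntermediateField ℚ NfQb, FiniteDimensional ℚ K₀ ∧
      ∃ y₀ y₀' : LaurentSeries K₀, y₀ ∈ modularFunctionFieldFullC K₀ N ∧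
        y₀' ∈ modularFunctionFieldFullC K₀ N ∧
        coeffMap (algebraMap K₀ NfQb) y₀ = y ∧ coeffMap (algebraMap K₀ NfQb) y₀' = y' := by
  obtain ⟨K₁, hK₁, y₁, hy₁, rfl⟩ := hy
  obtain ⟨K₂, hK₂, y₂, hy₂, rfl⟩ := hy'
  have h1 : K₁ ≤ K₁ ⊔ K₂ := le_sup_left
  have h2 : K₂ ≤ K₁ ⊔ K₂ := le_sup_right
  exact ⟨K₁ ⊔ K₂, IntermediateField.finiteDimensional_sup K₁ K₂, _, _,
    NfDescends.mono_aux h1 hy₁, NfDescends.mono_aux h2 hy₂,
    nf_coeffMap_inclusion h1 y₁, nf_coeffMap_inclusion h2 y₂⟩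

/-- **K1.** Every element of `F_N` over `ℚ̄` is defined over a number field. -/
theorem nf_exists_descent {y : LaurentSeries NfQb} (hy : y ∈ modularFunctionFieldBar N) :
    NfDescends N y := by
  have hy' := mem_laurentBaseChange_iff.mp hy
  clear hy
  induction hy' using Subfield.closure_induction with
  | mem y hy =>
      rcases hy with ⟨a, rfl⟩ | ⟨z, hz, rfl⟩
      · exact nfDescends_algebraMap a
      · exact nfDescends_coeffEmb hz
  | one =>
      have := nfDescends_algebraMap (N := N) (1 : NfQb)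
      rwa [map_one] at this
  | add x y _ _ hx hy =>
      obtain ⟨K₀, hK₀, x₀, y₀, hx₀, hy₀, rfl, rfl⟩ := hx.binary hy
      exact ⟨K₀, hK₀, x₀ + y₀, add_mem hx₀ hy₀, map_add _ _ _⟩
  | neg x _ hx =>
      obtain ⟨K₀, hK₀, x₀, hx₀, rfl⟩ := hx
      exact ⟨K₀, hK₀, -x₀, neg_mem hx₀, map_neg _ _⟩
  | inv x _ hx =>
      obtain ⟨K₀, hK₀, x₀, hx₀, rfl⟩ := hx
      exact ⟨K₀, hK₀, x₀⁻¹, inv_mem hx₀, map_inv₀ _ _⟩
  | mul x y _ _ hx hy =>
      obtain ⟨K₀, hK₀, x₀, y₀, hx₀, hy₀, rfl, rfl⟩ := hx.binary hy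
      exact ⟨K₀, hK₀, x₀ * y₀, mul_mem hx₀ hy₀, map_mul _ _ _⟩

/-- the descent can be done over any larger number field -/
theorem NfDescends.exists_of_le {y : LaurentSeries NfQb} (hy : NfDescends N y) :
    ∃ K₀ : IntermediateField ℚ NfQb, FiniteDimensional ℚ K₀ ∧
      ∀ K₁ : IntermediateField ℚ NfQb, K₀ ≤ K₁ →
        ∃ y₁ : LaurentSeries K₁, y₁ ∈ modularFunctionFieldFullC K₁ N ∧
          coeffMap (algebraMap K₁ NfQb) y₁ = y := by
  obtain ⟨K₀, hK₀, y₀, hy₀, rfl⟩ := hy
  exact ⟨K₀, hK₀, fun K₁ h => ⟨_, NfDescends.mono_aux h hy₀, nf_coeffMap_inclusion h y₀⟩⟩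

/-- **K1, finite sets.** Finitely many elements of `F_N` and finitely many constants live over
one number field. -/
theorem nf_exists_descent_finset (S : Finset NfQb) (Y : Finset (LaurentSeries NfQb))
    (hY : ∀ y ∈ Y, y ∈ modularFunctionFieldBar N) :
    ∃ K₀ : IntermediateField ℚ NfQb, FiniteDimensional ℚ K₀ ∧ (∀ s ∈ S, s ∈ K₀) ∧
      ∀ K₁ : IntermediateField ℚ NfQb, K₀ ≤ K₁ → ∀ y ∈ Y,
        ∃ y₁ : LaurentSeries K₁, y₁ ∈ modularFunctionFieldFullC K₁ N ∧
          coeffMap (algebraMap K₁ NfQb) y₁ = y := by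
  classical
  induction Y using Finset.induction_on with
  | empty =>
      refine ⟨IntermediateField.adjoin ℚ (S : Set NfQb), ?_, ?_, ?_⟩
      · exact IntermediateField.finiteDimensional_adjoin
          (fun x _ => (AlgebraicClosure.isAlgebraic ℚ).isIntegral.isIntegral x)
      · exact fun s hs => IntermediateField.subset_adjoin ℚ _ hs
      · intro K₁ _ y hy
        exact absurd hy (Finset.notMem_empty y)
  | insert a Y _ ih =>
      obtain ⟨K₀, hK₀, hS, hK⟩ := ih (fun y hy => hY y (Finset.mem_insert_of_mem hy))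
      obtain ⟨Ka, hKa, hKa'⟩ :=
        (nf_exists_descent (hY a (Finset.mem_insert_self a Y))).exists_of_le
      refine ⟨K₀ ⊔ Ka, IntermediateField.finiteDimensional_sup K₀ Ka,
        fun s hs => (le_sup_left : K₀ ≤ K₀ ⊔ Ka) (hS s hs), ?_⟩
      intro K₁ hK₁ y hy
      rcases Finset.mem_insert.mp hy with rfl | hy
      · exact hKa' K₁ (le_trans le_sup_right hK₁)
      · exact hK K₁ (le_trans le_sup_left hK₁) y hy

end Descent

end Fermat.Agent.INJ


end ZBINJ_005_0

/-! ### bundled: `Fermat.Agent.INJ.StmtNF` -/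
section ZBINJ_005_1

/-!
# (INJ): the number-field form of the statement

`K₀ ⊂ ℚ̄` a number field, `A ⊂ ℚ̄` a valuation ring over `ℓ`, `A₀ = A ∩ K₀` (`nfSub A K₀`,
a discrete valuation ring by `nf_isDiscreteValuationRing_comap`), `nfRes A K₀ : A₀ → k(A)` the
reduction, `F = F_N(K₀) = modularFunctionFieldFullC K₀ N ⊂ K₀((q))`.

`StmtInjNF N ℓ p`: if `Y₁ Y₂ ∈ A₀((q))` have images in `F`, equal nonzero reductions, the divisor of
`w = Y₁ / Y₂` (places of `F / K₀`) is divisible by `p`, `K₀ ∋ ζ_p, ζ_{6N}` and `h ∈ K₀((q))`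
satisfies `h ^ p = w`, then `h ∈ F`.

* Layer 1 (`INJ/InjDescent.lean`): `StmtInjNF N ℓ p → StmtINJ N ℓ p`.
* Layer 2 (`INJ/InjCore.lean`, `INJ/Inj.lean`): `StmtInjNF N ℓ p` from the tame specialization
  theorem.
-/

set_option autoImplicit false

namespace Fermat.Agent.INJ

open ModularCurve AlgebraicCurve

/-- `A₀ = A ∩ K₀`, a valuation subring of the number field `K₀`. -/
noncomputable abbrev nfSub (A : ValuationSubring NfQb) (K₀ : IntermediateField ℚ NfQb) :
    ValuationSubring K₀ :=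
  A.comap (algebraMap K₀ NfQb)

/-- the inclusion `A ∩ K₀ → A` -/
noncomputable def nfSubIncl (A : ValuationSubring NfQb) (K₀ : IntermediateField ℚ NfQb) :
    nfSub A K₀ →+* A where
  toFun x := ⟨algebraMap K₀ NfQb (x : K₀), x.2⟩
  map_one' := Subtype.ext (map_one _)
  map_mul' x y := Subtype.ext (map_mul _ _ _)
  map_zero' := Subtype.ext (map_zero _)
  map_add' x y := Subtype.ext (map_add _ _ _)

@[simp] theorem coe_nfSubIncl (A : ValuationSubring NfQb) (K₀ : IntermediateField ℚ NfQb)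
    (x : nfSub A K₀) : ((nfSubIncl A K₀ x : A) : NfQb) = algebraMap K₀ NfQb (x : K₀) := rfl

/-- the reduction `A ∩ K₀ → k(A)` -/
noncomputable def nfRes (A : ValuationSubring NfQb) (K₀ : IntermediateField ℚ NfQb) :
    nfSub A K₀ →+* IsLocalRing.ResidueField A :=
  (IsLocalRing.residue A).comp (nfSubIncl A K₀)

theorem nfRes_apply (A : ValuationSubring NfQb) (K₀ : IntermediateField ℚ NfQb)
    (x : nfSub A K₀) : nfRes A K₀ x = IsLocalRing.residue A (nfSubIncl A K₀ x) := rfl

/-- **(INJ), number-field form.** -/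
def StmtInjNF (N ℓ p : ℕ) : Prop :=
  ∀ A : ValuationSubring NfQb, A.LiesOverPrime ℓ →
  ∀ K₀ : IntermediateField ℚ NfQb, FiniteDimensional ℚ K₀ →
    (∃ ζ : K₀, IsPrimitiveRoot ζ p) → (∃ ζ : K₀, IsPrimitiveRoot ζ (6 * N)) →
    ∀ (Y₁ Y₂ : LaurentSeries (nfSub A K₀)) (h : LaurentSeries K₀)
      (h₁ : coeffMap (algebraMap (nfSub A K₀) K₀) Y₁ ∈ modularFunctionFieldFullC K₀ N)
      (h₂ : coeffMap (algebraMap (nfSub A K₀) K₀) Y₂ ∈ modularFunctionFieldFullC K₀ N),
      coeffMap (nfRes A K₀) Y₁ = coeffMap (nfRes A K₀) Y₂ →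
      coeffMap (nfRes A K₀) Y₂ ≠ 0 →
      h ^ p * coeffMap (algebraMap (nfSub A K₀) K₀) Y₂
        = coeffMap (algebraMap (nfSub A K₀) K₀) Y₁ →
      (∀ Q : Place K₀ (modularFunctionFieldFullC K₀ N),
        (p : ℤ) ∣ Q.ord (⟨_, h₁⟩ : modularFunctionFieldFullC K₀ N)
          - Q.ord (⟨_, h₂⟩ : modularFunctionFieldFullC K₀ N)) →
      h ∈ modularFunctionFieldFullC K₀ N

end Fermat.Agent.INJ


end ZBINJ_005_1

/-! ### bundled: `Fermat.Agent.INJ.InjH2Aux` -/
section ZBINJ_005_2

/-!
# (INJ) instantiation pieces INST-h2 / INST-h3: line-independent auxiliary lemmas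

* `injH_order_hm2`, `injH_order_hm3` : the Hauptmoduln have order `-1`;
* `injH_kumField_le_sup` : `kumField E N h ≤ F_N ⊔ E(h)`;
* `injH_quot` : from `h ^ p * y₂ = y₁`, `y₂ ≠ 0`: `h ^ p = y₁ / y₂` in `F_N`;
* `injH_ne_zero_of_red` : a series with nonzero reduction is nonzero.
-/

set_option autoImplicit false

namespace Fermat.Agent.INJ

open Polynomial ModularCurve IntermediateField AlgebraicCurve

section Order

variable (K : Type*) [Field K]

theorem injH_order_q_inv_mul_unit (u : PowerSeries ℤ) (hu : PowerSeries.constantCoeff u = 1) :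
    (HahnSeries.single (-1 : ℤ) (1 : K) *
      HahnSeries.ofPowerSeries ℤ K (u.map (Int.castRingHom K))).order = -1 := by
  set y : LaurentSeries K := HahnSeries.ofPowerSeries ℤ K (u.map (Int.castRingHom K)) with hy
  have hcoeff : ∀ n : ℤ, (HahnSeries.single (-1 : ℤ) (1 : K) * y).coeff n = y.coeff (n + 1) := by
    intro n
    have h := HahnSeries.coeff_single_mul_add (r := (1 : K)) (x := y) (a := n + 1) (b := (-1 : ℤ))
    rw [one_mul] at h
    rw [← h]
    congr 1
    ring
  have hy0 : y.coeff 0 = 1 := by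
    have h := HahnSeries.ofPowerSeries_apply_coeff (Γ := ℤ) (R := K)
      (u.map (Int.castRingHom K)) 0
    rw [hy]
    simp only [Nat.cast_zero] at h
    rw [h, PowerSeries.coeff_map, PowerSeries.coeff_zero_eq_constantCoeff_apply, hu, map_one]
  have hyneg : ∀ n : ℤ, n < 0 → y.coeff n = 0 := by
    intro n hn
    rw [hy]
    exact ofPowerSeries_coeff_of_neg _ hn
  have hne : HahnSeries.single (-1 : ℤ) (1 : K) * y ≠ 0 := by
    intro h0
    have := congrArg (fun z : LaurentSeries K => z.coeff (-1)) h0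
    simp only [hcoeff, HahnSeries.coeff_zero] at this
    rw [show (-1 : ℤ) + 1 = 0 by norm_num, hy0] at this
    exact one_ne_zero this
  apply le_antisymm
  · apply HahnSeries.order_le_of_coeff_ne_zero
    rw [hcoeff, show (-1 : ℤ) + 1 = 0 by norm_num, hy0]
    exact one_ne_zero
  · rw [HahnSeries.le_order_iff_forall hne]
    intro n hn
    rw [hcoeff]
    exact hyneg _ (by omega)

theorem injH_order_hm2 : (hm2 K).order = -1 := by
  rw [hm2_eq]
  exact injH_order_q_inv_mul_unit K hm2U constantCoeff_hm2U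

theorem injH_order_hm3 : (hm3 K).order = -1 := by
  rw [hm3_eq]
  exact injH_order_q_inv_mul_unit K hm3U constantCoeff_hm3U

end Order

section Kum

variable (E : Type*) [Field E] (N : ℕ) (h : LaurentSeries E)

theorem injH_kumField_le_sup :
    kumField E N h ≤ modularFunctionFieldFullC E N ⊔ E⟮h⟯ := by
  rw [kumField, IntermediateField.adjoin_le_iff]
  rintro y (hy | hy)
  · exact (le_sup_left : modularFunctionFieldFullC E N ≤ _) hy
  · rw [Set.mem_singleton_iff] at hy
    subst hy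
    exact (le_sup_right : E⟮y⟯ ≤ modularFunctionFieldFullC E N ⊔ E⟮y⟯)
      (IntermediateField.mem_adjoin_simple_self E y)

end Kum

section Quot

variable {E : Type*} [Field E] (F : IntermediateField E (LaurentSeries E))

theorem injH_quot {p : ℕ} (h : LaurentSeries E) (y₁ y₂ : F) (hy₂ : y₂ ≠ 0)
    (hpow : h ^ p * (y₂ : LaurentSeries E) = (y₁ : LaurentSeries E)) :
    h ^ p = ((y₁ / y₂ : F) : LaurentSeries E) := by
  have h2 : (y₂ : LaurentSeries E) ≠ 0 := fun h0 => hy₂ (Subtype.ext h0)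
  rw [IntermediateField.coe_div, eq_div_iff h2]
  exact hpow

theorem injH_root_ne_zero {p : ℕ} (h : LaurentSeries E) (y₁ y₂ : LaurentSeries E) (hy₁ : y₁ ≠ 0)
    (hp : p ≠ 0) (hpow : h ^ p * y₂ = y₁) : h ≠ 0 := by
  rintro rfl
  rw [zero_pow hp, zero_mul] at hpow
  exact hy₁ hpow.symm

end Quot

section Red

variable {A k E : Type*} [CommRing A] [CommRing k] [CommRing E]

theorem injH_ne_zero_of_red (r : A →+* k) (Y : LaurentSeries A)
    (hne : coeffMap r Y ≠ 0) : Y ≠ 0 := by
  rintro rfl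
  exact hne (map_zero _)

theorem injH_coeffMap_ne_zero (f : A →+* E) (hf : Function.Injective f) (Y : LaurentSeries A)
    (hY : Y ≠ 0) : coeffMap f Y ≠ 0 := by
  intro h0
  apply hY
  ext n
  have := congrArg (fun z : LaurentSeries E => z.coeff n) h0
  simp only [coeffMap_coeff, HahnSeries.coeff_zero] at this
  rw [HahnSeries.coeff_zero]
  exact hf (by rw [this, map_zero])

end Red

end Fermat.Agent.INJ


end ZBINJ_005_2

/-! ### bundled: `Fermat.Agent.INJ.NFEmb` -/
section ZBINJ_005_3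

/-!
# (INJ) B-glue: the embedding `F_N(K) → F_N(ℚ̄)` for a subfield `K ⊆ ℚ̄`

`nfEmb K₀ N : modularFunctionFieldFullC K₀ N →+* modularFunctionFieldBar N` (coefficientwise
inclusion), the algebra structures it induces and the fact that `F_N(ℚ̄)` is generated over `ℚ̄`
by the image.
-/

set_option autoImplicit false

open ModularCurve

namespace Fermat.Agent.INJ

/-- `F_N` over `ℚ̄` in the two descriptions of the prelude -/
theorem nf_fullC_le_bar (N : ℕ) :
    modularFunctionFieldFullC NfQb N ≤ modularFunctionFieldBar N := by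
  rw [modularFunctionFieldFullC, IntermediateField.adjoin_le_iff]
  rintro _ ⟨d, hd, hdN, rfl⟩
  have h1 : qExpand NfQb d (jqModC NfQb) = coeffEmb NfQb (qExpand ℚ d jq) := by
    have := coeffMap_jqNModC (algebraMap ℚ NfQb) d
    rw [jqNModC, jqNModC, jqModC_rat] at this
    exact this.symm
  rw [h1]
  exact coeffEmb_mem_laurentBaseChange NfQb (jqd_mem_full N hdN)

theorem nf_bar_le_fullC (N : ℕ) :
    modularFunctionFieldBar N ≤ modularFunctionFieldFullC NfQb N := by
  show laurentBaseChange NfQb (modularFunctionFieldFull N) ≤ _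
  rw [laurentBaseChange, IntermediateField.adjoin_le_iff]
  rintro _ ⟨x, hx, rfl⟩
  exact nf_coeffMap_mem_fullC (algebraMap ℚ NfQb) N
    (by rw [modularFunctionFieldFullC_rat]; exact hx)

theorem nf_bar_eq_fullC (N : ℕ) :
    modularFunctionFieldBar N = modularFunctionFieldFullC NfQb N :=
  le_antisymm (nf_bar_le_fullC N) (nf_fullC_le_bar N)

variable (K₀ : IntermediateField ℚ NfQb) (N : ℕ)

theorem nf_coeffMap_mem_bar {x : LaurentSeries K₀} (hx : x ∈ modularFunctionFieldFullC K₀ N) :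
    coeffMap (algebraMap K₀ NfQb) x ∈ modularFunctionFieldBar N :=
  nf_fullC_le_bar N (nf_coeffMap_mem_fullC _ N hx)

/-- the embedding `F_N(K₀) → F_N(ℚ̄)` -/
noncomputable def nfEmb : modularFunctionFieldFullC K₀ N →+* modularFunctionFieldBar N where
  toFun x := ⟨coeffMap (algebraMap K₀ NfQb) x, nf_coeffMap_mem_bar K₀ N x.2⟩
  map_one' := by ext1; simp
  map_mul' x y := by ext1; simp
  map_zero' := by ext1; simp
  map_add' x y := by ext1; simp

@[simp]
theorem nfEmb_coe (x : modularFunctionFieldFullC K₀ N) :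
    ((nfEmb K₀ N x : modularFunctionFieldBar N) : LaurentSeries NfQb)
      = coeffMap (algebraMap K₀ NfQb) (x : LaurentSeries K₀) := rfl

theorem nfEmb_injective : Function.Injective (nfEmb K₀ N) := (nfEmb K₀ N).injective

theorem nfEmb_algebraMap (c : K₀) :
    nfEmb K₀ N (algebraMap K₀ (modularFunctionFieldFullC K₀ N) c)
      = algebraMap NfQb (modularFunctionFieldBar N) (algebraMap K₀ NfQb c) := by
  ext1
  show coeffMap (algebraMap K₀ NfQb) (algebraMap K₀ (LaurentSeries K₀) c) = _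
  rw [nf_coeffMap_algebraMap]
  rfl

/-- `F_N(ℚ̄)` is generated over `ℚ̄` by the image of `F_N(K₀)`. -/
theorem nfEmb_adjoin_range :
    IntermediateField.adjoin NfQb (Set.range (nfEmb K₀ N)) = ⊤ := by
  apply IntermediateField.lift_injective
  rw [IntermediateField.lift_top, IntermediateField.lift_adjoin]
  apply le_antisymm
  · rw [IntermediateField.adjoin_le_iff]
    rintro _ ⟨_, ⟨y, rfl⟩, rfl⟩
    exact (nfEmb K₀ N y).2
  · refine le_trans (nf_bar_le_fullC N) ?_
    rw [modularFunctionFieldFullC, IntermediateField.adjoin_le_iff]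
    rintro _ ⟨d, hd, hdN, rfl⟩
    refine IntermediateField.subset_adjoin NfQb _
      ⟨nfEmb K₀ N ⟨qExpand K₀ d (jqModC K₀), jqModCd_mem_full K₀ N hdN⟩, ⟨_, rfl⟩, ?_⟩
    exact coeffMap_jqNModC (algebraMap K₀ NfQb) d

end Fermat.Agent.INJ


end ZBINJ_005_3

/-! ### bundled: `Fermat.Agent.UNIP.MGSetup` -/
section ZBINJ_005_4

/-!
# UNIP MG-1: set-up of the modular glue

`Qb = ℚ̄`, `K₀ ⊆ Qb` an intermediate field (in the application `E′ = E₀·K₁`, `E₀ = ℚ̄^I`),
`F_N(K₀) = modularFunctionFieldFullC K₀ N ⊆ K₀((Q))`, `nfEmb K₀ N : F_N(K₀) →+* F_N(ℚ̄)`.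

* `mgRestrict σ hσ : K₀ →+* K₀` : restriction of `σ ∈ G_ℚ` to a `σ`-stable field `K₀`;
* `mgAct σ hσ : F_N(K₀) →+* F_N(K₀)` : the coefficientwise action;
* `nfEmb_mgAct` : `nfEmb (mgAct σ x) = arithmeticGalois σ • nfEmb x`;
* `mgDD σ τ u = (τ − 1)(σ − 1) u = τ(σu / u) / (σu / u)` on `F_N(K₀)`, `nfEmb_mgDD`;
* `StmtUnipField N q` : the statement over a field of definition `K₀` of `u` (chosen by the
  prover, depending on `u`), `unipKummerAt_of_field : StmtUnipField N q → StmtUnipKummerAt N q`,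
  and with U11 `stmtUnipKummer_of_field`.
-/

set_option autoImplicit false

noncomputable section

namespace Fermat.Agent.UNIP

open ModularCurve AlgebraicCurve Fermat.Agent.ES Fermat.Agent.ES.G2 Fermat.Agent.INJ

variable (K₀ : IntermediateField ℚ Qb) (N : ℕ)

/-- restriction of `σ` to a `σ`-stable intermediate field -/
def mgRestrict (σ : Qb ≃ₐ[ℚ] Qb) (hσ : ∀ x ∈ K₀, σ x ∈ K₀) : K₀ →+* K₀ where
  toFun x := ⟨σ x, hσ x x.2⟩
  map_one' := by
    apply Subtype.ext
    show σ (1 : Qb) = 1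
    exact map_one σ
  map_mul' x y := by
    apply Subtype.ext
    show σ ((x : Qb) * (y : Qb)) = σ x * σ y
    exact map_mul σ _ _
  map_zero' := by
    apply Subtype.ext
    show σ (0 : Qb) = 0
    exact map_zero σ
  map_add' x y := by
    apply Subtype.ext
    show σ ((x : Qb) + (y : Qb)) = σ x + σ y
    exact map_add σ _ _

@[simp]
theorem mgRestrict_coe (σ : Qb ≃ₐ[ℚ] Qb) (hσ : ∀ x ∈ K₀, σ x ∈ K₀) (x : K₀) :
    ((mgRestrict K₀ σ hσ x : K₀) : Qb) = σ x := rfl

theorem mgRestrict_comp (σ : Qb ≃ₐ[ℚ] Qb) (hσ : ∀ x ∈ K₀, σ x ∈ K₀) :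
    (algebraMap K₀ Qb).comp (mgRestrict K₀ σ hσ) = (σ : Qb →+* Qb).comp (algebraMap K₀ Qb) :=
  RingHom.ext fun _ => rfl

/-- the coefficientwise action of `σ` on `F_N(K₀)` -/
def mgAct (σ : Qb ≃ₐ[ℚ] Qb) (hσ : ∀ x ∈ K₀, σ x ∈ K₀) :
    modularFunctionFieldFullC K₀ N →+* modularFunctionFieldFullC K₀ N where
  toFun x := ⟨coeffMap (mgRestrict K₀ σ hσ) (x : LaurentSeries K₀),
    nf_coeffMap_mem_fullC (mgRestrict K₀ σ hσ) N x.2⟩
  map_one' := Subtype.ext (map_one (coeffMap (mgRestrict K₀ σ hσ)))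
  map_mul' _ _ := Subtype.ext (map_mul (coeffMap (mgRestrict K₀ σ hσ)) _ _)
  map_zero' := Subtype.ext (map_zero (coeffMap (mgRestrict K₀ σ hσ)))
  map_add' _ _ := Subtype.ext (map_add (coeffMap (mgRestrict K₀ σ hσ)) _ _)

@[simp]
theorem mgAct_coe (σ : Qb ≃ₐ[ℚ] Qb) (hσ : ∀ x ∈ K₀, σ x ∈ K₀)
    (x : modularFunctionFieldFullC K₀ N) :
    ((mgAct K₀ N σ hσ x : modularFunctionFieldFullC K₀ N) : LaurentSeries K₀)
      = coeffMap (mgRestrict K₀ σ hσ) (x : LaurentSeries K₀) := rfl

/-- `nfEmb` intertwines the action on `F_N(K₀)` with the arithmetic Galois action on `F_N(ℚ̄)`. -/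
theorem nfEmb_mgAct (σ : Qb ≃ₐ[ℚ] Qb) (hσ : ∀ x ∈ K₀, σ x ∈ K₀)
    (x : modularFunctionFieldFullC K₀ N) :
    nfEmb K₀ N (mgAct K₀ N σ hσ x)
      = arithmeticGalois (modularFunctionFieldFull N) σ • nfEmb K₀ N x := by
  apply Subtype.ext
  show coeffMap (algebraMap K₀ Qb) (coeffMap (mgRestrict K₀ σ hσ) (x : LaurentSeries K₀))
    = coeffMap (σ : Qb →+* Qb) (coeffMap (algebraMap K₀ Qb) (x : LaurentSeries K₀))
  rw [coeffMap_coeffMap, coeffMap_coeffMap, mgRestrict_comp]

theorem mgAct_injective (σ : Qb ≃ₐ[ℚ] Qb) (hσ : ∀ x ∈ K₀, σ x ∈ K₀) :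
    Function.Injective (mgAct K₀ N σ hσ) := (mgAct K₀ N σ hσ).injective

/-- constants: `mgAct σ (c) = σ c` -/
theorem mgAct_algebraMap (σ : Qb ≃ₐ[ℚ] Qb) (hσ : ∀ x ∈ K₀, σ x ∈ K₀) (c : K₀) :
    mgAct K₀ N σ hσ (algebraMap K₀ (modularFunctionFieldFullC K₀ N) c)
      = algebraMap K₀ (modularFunctionFieldFullC K₀ N) (mgRestrict K₀ σ hσ c) := by
  apply Subtype.ext
  show coeffMap (mgRestrict K₀ σ hσ) (algebraMap K₀ (LaurentSeries K₀) c) = _
  rw [nf_coeffMap_algebraMap]
  rfl

/-- `(τ − 1)(σ − 1) u = τ(σu / u) / (σu / u)` on `F_N(K₀)` -/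
def mgDD (σ τ : Qb ≃ₐ[ℚ] Qb) (hσ : ∀ x ∈ K₀, σ x ∈ K₀) (hτ : ∀ x ∈ K₀, τ x ∈ K₀)
    (u : modularFunctionFieldFullC K₀ N) : modularFunctionFieldFullC K₀ N :=
  (mgAct K₀ N τ hτ ((mgAct K₀ N σ hσ u) / u)) / ((mgAct K₀ N σ hσ u) / u)

theorem nfEmb_mgDD (σ τ : Qb ≃ₐ[ℚ] Qb) (hσ : ∀ x ∈ K₀, σ x ∈ K₀) (hτ : ∀ x ∈ K₀, τ x ∈ K₀)
    (u : modularFunctionFieldFullC K₀ N) :
    nfEmb K₀ N (mgDD K₀ N σ τ hσ hτ u)
      = (arithmeticGalois (modularFunctionFieldFull N) τ •
            ((arithmeticGalois (modularFunctionFieldFull N) σ • nfEmb K₀ N u) / nfEmb K₀ N u)) /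
          ((arithmeticGalois (modularFunctionFieldFull N) σ • nfEmb K₀ N u) / nfEmb K₀ N u) := by
  unfold mgDD
  rw [map_div₀, nfEmb_mgAct, map_div₀, nfEmb_mgAct]

theorem mgDD_ne_zero (σ τ : Qb ≃ₐ[ℚ] Qb) (hσ : ∀ x ∈ K₀, σ x ∈ K₀) (hτ : ∀ x ∈ K₀, τ x ∈ K₀)
    {u : modularFunctionFieldFullC K₀ N} (hu : u ≠ 0) : mgDD K₀ N σ τ hσ hτ u ≠ 0 := by
  have h1 : mgAct K₀ N σ hσ u ≠ 0 :=
    (map_ne_zero_iff _ (mgAct_injective K₀ N σ hσ)).mpr hu
  have h2 : mgAct K₀ N σ hσ u / u ≠ 0 := div_ne_zero h1 hu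
  exact div_ne_zero ((map_ne_zero_iff _ (mgAct_injective K₀ N τ hτ)).mpr h2) h2

/-- a field containing a number field in which `y` is defined also contains `y` -/
theorem mg_exists_descent (S : Finset Qb) {y : LaurentSeries Qb}
    (hy : y ∈ modularFunctionFieldBar N) :
    ∃ K₁ : IntermediateField ℚ Qb, FiniteDimensional ℚ K₁ ∧ (∀ s ∈ S, s ∈ K₁) ∧
      ∀ K₂ : IntermediateField ℚ Qb, K₁ ≤ K₂ →
        ∃ y₂ : modularFunctionFieldFullC K₂ N, nfEmb K₂ N y₂ = ⟨y, hy⟩ := by
  classical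
  obtain ⟨K₁, hfin, hS, hK⟩ := nf_exists_descent_finset (N := N) S {y}
    (fun z hz => by rw [Finset.mem_singleton] at hz; rw [hz]; exact hy)
  refine ⟨K₁, hfin, hS, fun K₂ h12 => ?_⟩
  obtain ⟨y₂, hy₂, he⟩ := hK K₂ h12 y (Finset.mem_singleton_self y)
  exact ⟨⟨y₂, hy₂⟩, Subtype.ext he⟩

/-- **(UNIP) over the fields of definition.**  `q ∥ N`; for every valuation ring `A` of `ℚ̄` over
`q`, every `m` prime to `q`, all `σ, τ` in the inertia group of `A` and every `u ∈ F_N(ℚ̄)^×` with
divisor in `m · Div` there is a field `K₀ ⊆ ℚ̄` (in the application `E′ = ℚ̄^I · K₁`, depending on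
`u`), stable under `σ` and `τ`, over which `u` is defined, `u = nfEmb u₀`, and such that
`(τ − 1)(σ − 1) u₀` is an `m`-th power in `F_N(K₀)`. -/
def StmtUnipField (N : ℕ) [NeZero N] (q : ℕ) : Prop :=
  ∀ A : ValuationSubring Qb, A.LiesOverPrime q →
    ∀ m : ℕ, ¬ q ∣ m →
      ∀ σ ∈ A.inertiaSubgroupIn ℚ, ∀ τ ∈ A.inertiaSubgroupIn ℚ,
        ∀ u : modularFunctionFieldBar N, u ≠ 0 →
          (∀ P : Place Qb (modularFunctionFieldBar N), (m : ℤ) ∣ P.ord u) →
            ∃ (K₀ : IntermediateField ℚ Qb)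
              (hσ : ∀ x ∈ K₀, σ x ∈ K₀) (hτ : ∀ x ∈ K₀, τ x ∈ K₀)
              (u₀ : modularFunctionFieldFullC K₀ N),
              nfEmb K₀ N u₀ = u ∧
                ∃ k : modularFunctionFieldFullC K₀ N, k ^ m = mgDD K₀ N σ τ hσ hτ u₀

/-- MG-1: the statement over the fields of definition gives `StmtUnipKummerAt`. -/
theorem unipKummerAt_of_field (N : ℕ) [NeZero N] (q : ℕ) (h : StmtUnipField N q) :
    StmtUnipKummerAt N q := by
  intro A hA m hm σ hσ τ hτ u hu hdiv
  obtain ⟨K₀, hσK, hτK, u₀, hu₀, k, hk⟩ := h A hA m hm σ hσ τ hτ u hu hdiv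
  refine ⟨nfEmb K₀ N k, ?_⟩
  rw [← map_pow, hk, nfEmb_mgDD, hu₀]

/-- MG-1 + U11: it suffices to prove `StmtUnipField N q` at the levels `N` where the base line of
the INJ/KEY route exists (`3 ∣ N` if `q = 2`, `2 ∣ N` if `q = 3`). -/
theorem stmtUnipKummer_of_field
    (h : ∀ (N : ℕ) [NeZero N] (q : ℕ), q.Prime → q ∣ N → ¬ q ^ 2 ∣ N →
      (q = 2 → 3 ∣ N) → (q = 3 → 2 ∣ N) → StmtUnipField N q) : StmtUnipKummer :=
  stmtUnipKummer_of_aux fun N _ q hq hqN hq2 h2 h3 =>
    unipKummerAt_of_field N q (h N q hq hqN hq2 h2 h3)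

end Fermat.Agent.UNIP

end
end ZBINJ_005_4

/-! ### bundled: `Fermat.Agent.UNIP.MGPrimePow` -/
section ZBINJ_005_5

/-!
# UNIP MG-7: prime powers suffice

* `mg_pow_of_prime_powers` : in a field, an element which is a `p ^ r`-th power for every prime
  power `p ^ r` dividing `m ≠ 0` is an `m`-th power (Bézout).
* `StmtUnipKummerAtPP N q` : `StmtUnipKummerAt N q` for exponents `m = p ^ r`, `p ≠ q` prime;
  `unipKummerAt_of_primePow : StmtUnipKummerAtPP N q → StmtUnipKummerAt N q`.
* `StmtUnipFieldPP N q` : the statement over a field of definition (`MGSetup.lean`) for prime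
  power exponents — THE TARGET OF MG-5;  `stmtUnipKummer_of_fieldPP`.
-/

set_option autoImplicit false

noncomputable section

namespace Fermat.Agent.UNIP

open ModularCurve AlgebraicCurve Fermat.Agent.ES Fermat.Agent.ES.G2 Fermat.Agent.INJ

/-- coprime exponents: `w = x ^ a = y ^ b`, `gcd a b = 1` ⇒ `w` is an `a b`-th power. -/
theorem mg_pow_mul_of_coprime {F : Type*} [Field F] {w x y : F} {a b : ℕ}
    (hab : Nat.Coprime a b) (hx : x ^ a = w) (hy : y ^ b = w) : ∃ h : F, h ^ (a * b) = w := by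
  by_cases hw : w = 0
  · by_cases ha : a = 0
    · subst ha
      rw [pow_zero] at hx
      exact absurd hw (hx ▸ one_ne_zero)
    · by_cases hb : b = 0
      · subst hb
        rw [pow_zero] at hy
        exact absurd hw (hy ▸ one_ne_zero)
      · exact ⟨0, by rw [zero_pow (Nat.mul_ne_zero ha hb), hw]⟩
  · -- Bézout
    have hbez : (a : ℤ) * Nat.gcdA a b + (b : ℤ) * Nat.gcdB a b = 1 := by
      have := Nat.gcd_eq_gcd_ab a b
      rw [hab.gcd_eq_one] at this
      exact_mod_cast this.symm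
    refine ⟨y ^ (Nat.gcdA a b) * x ^ (Nat.gcdB a b), ?_⟩
    have ey : (y ^ (Nat.gcdA a b)) ^ (a * b) = (y ^ b) ^ ((a : ℤ) * Nat.gcdA a b) := by
      rw [← zpow_natCast (y ^ Nat.gcdA a b) (a * b), ← zpow_mul, ← zpow_natCast y b, ← zpow_mul]
      congr 1
      push_cast
      ring
    have ex : (x ^ (Nat.gcdB a b)) ^ (a * b) = (x ^ a) ^ ((b : ℤ) * Nat.gcdB a b) := by
      rw [← zpow_natCast (x ^ Nat.gcdB a b) (a * b), ← zpow_mul, ← zpow_natCast x a, ← zpow_mul]
      congr 1
      push_cast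
      ring
    rw [mul_pow, ey, ex, hx, hy, ← zpow_add₀ hw, hbez, zpow_one]

/-- An element which is a `p ^ r`-th power for every prime power dividing `m` is an `m`-th
power. -/
theorem mg_pow_of_prime_powers {F : Type*} [Field F] (w : F) (m : ℕ)
    (h : ∀ p r : ℕ, p.Prime → p ^ r ∣ m → ∃ h : F, h ^ (p ^ r) = w) (hm : m ≠ 0) :
    ∃ h : F, h ^ m = w := by
  induction m using Nat.recOnPosPrimePosCoprime with
  | prime_pow p n hp hn => exact h p n hp dvd_rfl
  | zero => exact absurd rfl hm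
  | one => exact ⟨w, pow_one w⟩
  | coprime a b ha hb hab iha ihb =>
    obtain ⟨x, hx⟩ := iha (fun p r hp hd => h p r hp (hd.mul_right b)) (by omega)
    obtain ⟨y, hy⟩ := ihb (fun p r hp hd => h p r hp (hd.mul_left a)) (by omega)
    exact mg_pow_mul_of_coprime hab hx hy

/-- (UNIP) in Kummer form at level `N` and prime `q`, for prime power exponents only. -/
def StmtUnipKummerAtPP (N : ℕ) [NeZero N] (q : ℕ) : Prop :=
  ∀ A : ValuationSubring Qb, A.LiesOverPrime q →
    ∀ p : ℕ, p.Prime → p ≠ q → ∀ r : ℕ,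
      ∀ σ ∈ A.inertiaSubgroupIn ℚ, ∀ τ ∈ A.inertiaSubgroupIn ℚ,
        ∀ u : modularFunctionFieldBar N, u ≠ 0 →
          (∀ P : Place Qb (modularFunctionFieldBar N), ((p ^ r : ℕ) : ℤ) ∣ P.ord u) →
            ∃ h : modularFunctionFieldBar N,
              h ^ (p ^ r) =
                (arithmeticGalois (modularFunctionFieldFull N) τ •
                    ((arithmeticGalois (modularFunctionFieldFull N) σ • u) / u)) /
                  ((arithmeticGalois (modularFunctionFieldFull N) σ • u) / u)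

/-- MG-7: prime power exponents suffice. -/
theorem unipKummerAt_of_primePow (N : ℕ) [NeZero N] (q : ℕ) (hq : q.Prime)
    (h : StmtUnipKummerAtPP N q) : StmtUnipKummerAt N q := by
  intro A hA m hm σ hσ τ hτ u hu hdiv
  have hm0 : m ≠ 0 := by
    rintro rfl
    exact hm (dvd_zero q)
  refine mg_pow_of_prime_powers _ m (fun p r hp hd => ?_) hm0
  by_cases hr : r = 0
  · subst hr
    exact ⟨_, pow_one _⟩
  have hpq : p ≠ q := by
    rintro rfl
    exact hm (dvd_trans (dvd_pow_self p hr) hd)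
  refine h A hA p hp hpq r σ hσ τ hτ u hu (fun P => ?_)
  have h1 : ((p ^ r : ℕ) : ℤ) ∣ (m : ℤ) := by exact_mod_cast hd
  exact dvd_trans h1 (hdiv P)

/-- **Target of MG-5.**  (UNIP) over a field of definition `K₀` of `u` (chosen by the prover,
depending on `u`; in the application `E′ = ℚ̄^I · K₁`), for prime power exponents. -/
def StmtUnipFieldPP (N : ℕ) [NeZero N] (q : ℕ) : Prop :=
  ∀ A : ValuationSubring Qb, A.LiesOverPrime q →
    ∀ p : ℕ, p.Prime → p ≠ q → ∀ r : ℕ,
      ∀ σ ∈ A.inertiaSubgroupIn ℚ, ∀ τ ∈ A.inertiaSubgroupIn ℚ,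
        ∀ u : modularFunctionFieldBar N, u ≠ 0 →
          (∀ P : Place Qb (modularFunctionFieldBar N), ((p ^ r : ℕ) : ℤ) ∣ P.ord u) →
            ∃ (K₀ : IntermediateField ℚ Qb)
              (hσ : ∀ x ∈ K₀, σ x ∈ K₀) (hτ : ∀ x ∈ K₀, τ x ∈ K₀)
              (u₀ : modularFunctionFieldFullC K₀ N),
              nfEmb K₀ N u₀ = u ∧
                ∃ k : modularFunctionFieldFullC K₀ N, k ^ (p ^ r) = mgDD K₀ N σ τ hσ hτ u₀

theorem unipKummerAtPP_of_field (N : ℕ) [NeZero N] (q : ℕ) (h : StmtUnipFieldPP N q) :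
    StmtUnipKummerAtPP N q := by
  intro A hA p hp hpq r σ hσ τ hτ u hu hdiv
  obtain ⟨K₀, hσK, hτK, u₀, hu₀, k, hk⟩ := h A hA p hp hpq r σ hσ τ hτ u hu hdiv
  refine ⟨nfEmb K₀ N k, ?_⟩
  rw [← map_pow, hk, nfEmb_mgDD, hu₀]

/-- MG-1 + MG-7 + U11: `StmtUnipKummer` from the prime-power statement over fields of
definition at the levels where the base line of the INJ/KEY route exists. -/
theorem stmtUnipKummer_of_fieldPP
    (h : ∀ (N : ℕ) [NeZero N] (q : ℕ), q.Prime → q ∣ N → ¬ q ^ 2 ∣ N →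
      (q = 2 → 3 ∣ N) → (q = 3 → 2 ∣ N) → StmtUnipFieldPP N q) : StmtUnipKummer :=
  stmtUnipKummer_of_aux fun N _ q hq hqN hq2 h2 h3 =>
    unipKummerAt_of_primePow N q hq (unipKummerAtPP_of_field N q (h N q hq hqN hq2 h2 h3))

end Fermat.Agent.UNIP

end
end ZBINJ_005_5

/-! ### bundled: `Fermat.Agent.UNIP.MGChartsField` -/
section ZBINJ_005_6
/-
UNIP / MG-4 (helper16), field part: `F_N(E') = F_N(E₀)(α)` if `E' = E₀(α)`.

`E₀ ⊆ E'` fields, `K = F_N(E₀) = modularFunctionFieldFullC E₀ N`,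
`L = F_N(E') = modularFunctionFieldFullC E' N`.

* `mgcEmb E₀ E' N : K →+* L` (coefficientwise), `mgcAlgebra E₀ E' N : Algebra K L`;
* `mgc_adjoin_eq_top` : a subfield of `L` containing the image of `K` and a generator `α` of
  `E' / E₀` is `L`;
* `mgc_algebra_adjoin_eq_top` : `Algebra.adjoin K {α} = ⊤` in `L` for `α` algebraic over `E₀`
  (the hypothesis of `PowerBasis.ofAdjoinEqTop`, hence of U8 `normalBC_tot`).
-/

set_option autoImplicit false
set_option linter.style.haveILetI false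

open ModularCurve Fermat.Agent.INJ

namespace Fermat.Agent.UNIP

section Field

variable (E₀ E' : Type*) [Field E₀] [Field E'] [Algebra E₀ E'] (N : ℕ)

/-- The embedding `F_N(E₀) → F_N(E')`, coefficientwise. -/
noncomputable def mgcEmb :
    modularFunctionFieldFullC E₀ N →+* modularFunctionFieldFullC E' N where
  toFun x := ⟨coeffMap (algebraMap E₀ E') (x : LaurentSeries E₀),
    nf_coeffMap_mem_fullC (algebraMap E₀ E') N x.2⟩
  map_one' := Subtype.ext (map_one (coeffMap (algebraMap E₀ E')))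
  map_mul' _ _ := Subtype.ext (map_mul (coeffMap (algebraMap E₀ E')) _ _)
  map_zero' := Subtype.ext (map_zero (coeffMap (algebraMap E₀ E')))
  map_add' _ _ := Subtype.ext (map_add (coeffMap (algebraMap E₀ E')) _ _)

@[simp]
theorem mgcEmb_coe (x : modularFunctionFieldFullC E₀ N) :
    ((mgcEmb E₀ E' N x : modularFunctionFieldFullC E' N) : LaurentSeries E')
      = coeffMap (algebraMap E₀ E') (x : LaurentSeries E₀) := rfl

theorem mgcEmb_injective : Function.Injective (mgcEmb E₀ E' N) := (mgcEmb E₀ E' N).injective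

/-- constants -/
theorem mgcEmb_algebraMap (c : E₀) :
    mgcEmb E₀ E' N (algebraMap E₀ (modularFunctionFieldFullC E₀ N) c)
      = algebraMap E' (modularFunctionFieldFullC E' N) (algebraMap E₀ E' c) := by
  apply Subtype.ext
  show coeffMap (algebraMap E₀ E') (algebraMap E₀ (LaurentSeries E₀) c) = _
  rw [nf_coeffMap_algebraMap]
  rfl

/-- the generators `j(Q^d)` -/
theorem mgcEmb_jqd {d : ℕ} [NeZero d] (hd : d ∣ N) :
    mgcEmb E₀ E' N ⟨qExpand E₀ d (jqModC E₀), jqModCd_mem_full E₀ N hd⟩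
      = ⟨qExpand E' d (jqModC E'), jqModCd_mem_full E' N hd⟩ := by
  apply Subtype.ext
  exact coeffMap_jqNModC (algebraMap E₀ E') d

/-- The algebra structure of `F_N(E')` over `F_N(E₀)`. -/
@[reducible]
noncomputable def mgcAlgebra :
    Algebra (modularFunctionFieldFullC E₀ N) (modularFunctionFieldFullC E' N) :=
  (mgcEmb E₀ E' N).toAlgebra

/-- A subfield of `F_N(E')` containing the image of `F_N(E₀)` and the constants `E'` is
everything. -/
theorem mgc_subfield_eq_top (S : Subfield (modularFunctionFieldFullC E' N))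
    (hK : ∀ x : modularFunctionFieldFullC E₀ N, mgcEmb E₀ E' N x ∈ S)
    (hE : ∀ c : E', algebraMap E' (modularFunctionFieldFullC E' N) c ∈ S) : S = ⊤ := by
  rw [eq_top_iff]
  rintro ⟨y, hy⟩ -
  have key : ∀ (z : LaurentSeries E') (hz : z ∈ modularFunctionFieldFullC E' N),
      (⟨z, hz⟩ : modularFunctionFieldFullC E' N) ∈ S := by
    intro z hz
    unfold modularFunctionFieldFullC at hz
    induction hz using IntermediateField.adjoin_induction with
    | mem x hx =>
      obtain ⟨d, hd, hdN, rfl⟩ := hx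
      have := hK ⟨qExpand E₀ d (jqModC E₀), jqModCd_mem_full E₀ N hdN⟩
      rw [mgcEmb_jqd E₀ E' N hdN] at this
      exact this
    | algebraMap c =>
      have h1 := hE c
      have h2 : algebraMap E' (modularFunctionFieldFullC E' N) c
          = ⟨algebraMap E' (LaurentSeries E') c,
              (modularFunctionFieldFullC E' N).algebraMap_mem c⟩ :=
        Subtype.ext (IntermediateField.coe_algebraMap_apply _ c)
      rw [h2] at h1
      exact h1
    | add x y hx hy ihx ihy =>
      have := S.add_mem ihx ihy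
      exact this
    | inv x hx ihx =>
      have := S.inv_mem ihx
      exact this
    | mul x y hx hy ihx ihy =>
      have := S.mul_mem ihx ihy
      exact this
  exact key y hy

/-- A subfield of `F_N(E')` containing the image of `F_N(E₀)` and a generator `α` of `E'` over
`E₀` is everything. -/
theorem mgc_adjoin_eq_top {α : E'} (hα : Algebra.adjoin E₀ ({α} : Set E') = ⊤)
    (S : Subfield (modularFunctionFieldFullC E' N))
    (hK : ∀ x : modularFunctionFieldFullC E₀ N, mgcEmb E₀ E' N x ∈ S)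
    (hαS : algebraMap E' (modularFunctionFieldFullC E' N) α ∈ S) : S = ⊤ := by
  refine mgc_subfield_eq_top E₀ E' N S hK fun c => ?_
  have hc : c ∈ Algebra.adjoin E₀ ({α} : Set E') := by rw [hα]; exact Algebra.mem_top
  induction hc using Algebra.adjoin_induction with
  | mem x hx =>
    rw [Set.mem_singleton_iff] at hx
    rw [hx]
    exact hαS
  | algebraMap r =>
    rw [← mgcEmb_algebraMap]
    exact hK _
  | add x y _ _ ihx ihy =>
    rw [map_add]
    exact S.add_mem ihx ihy
  | mul x y _ _ ihx ihy =>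
    rw [map_mul]
    exact S.mul_mem ihx ihy

/-- `F_N(E') = F_N(E₀)[α]` if `E' = E₀[α]`, `α` algebraic over `E₀`. -/
theorem mgc_algebra_adjoin_eq_top {α : E'} (hα : Algebra.adjoin E₀ ({α} : Set E') = ⊤)
    (halg : IsAlgebraic E₀ α) :
    letI := mgcAlgebra E₀ E' N
    Algebra.adjoin (modularFunctionFieldFullC E₀ N)
      ({algebraMap E' (modularFunctionFieldFullC E' N) α} :
        Set (modularFunctionFieldFullC E' N)) = ⊤ := by
  letI := mgcAlgebra E₀ E' N
  -- `α` is algebraic over `F_N(E₀)`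
  have halg' : IsAlgebraic (modularFunctionFieldFullC E₀ N)
      (algebraMap E' (modularFunctionFieldFullC E' N) α) := by
    obtain ⟨P, hP0, hP⟩ := halg
    refine ⟨P.map (algebraMap E₀ (modularFunctionFieldFullC E₀ N)),
      (Polynomial.map_ne_zero_iff (algebraMap E₀ _).injective).2 hP0, ?_⟩
    have h1 : (algebraMap (modularFunctionFieldFullC E₀ N) (modularFunctionFieldFullC E' N)).comp
        (algebraMap E₀ (modularFunctionFieldFullC E₀ N))
        = (algebraMap E' (modularFunctionFieldFullC E' N)).comp (algebraMap E₀ E') :=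
      RingHom.ext fun c => mgcEmb_algebraMap E₀ E' N c
    rw [Polynomial.aeval_def, Polynomial.eval₂_map, h1, ← Polynomial.eval₂_map,
      Polynomial.eval₂_hom, Polynomial.eval_map, ← Polynomial.aeval_def, hP, map_zero]
  rw [← IntermediateField.adjoin_simple_toSubalgebra_of_isAlgebraic halg']
  have htop : (IntermediateField.adjoin (modularFunctionFieldFullC E₀ N)
      ({algebraMap E' (modularFunctionFieldFullC E' N) α} :
        Set (modularFunctionFieldFullC E' N))).toSubfield = ⊤ :=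
    mgc_adjoin_eq_top E₀ E' N hα _
      (fun x => IntermediateField.algebraMap_mem _ x)
      (IntermediateField.subset_adjoin _ _ (Set.mem_singleton _))
  rw [eq_top_iff]
  intro y _
  have : y ∈ (IntermediateField.adjoin (modularFunctionFieldFullC E₀ N)
      ({algebraMap E' (modularFunctionFieldFullC E' N) α} :
        Set (modularFunctionFieldFullC E' N))).toSubfield := by
    rw [htop]; exact Subfield.mem_top y
  exact this

end Field

end Fermat.Agent.UNIP


end ZBINJ_005_6

/-! ### bundled: `Fermat.Agent.UNIP.Rational` -/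
section ZBINJ_005_7

/-!
# UNIP D8 (S34 / S35, direct route of `NOTES/S34-plan.md`): places become rational over a
finite extension of the base field

`F = F_N(ℚ̄) = modularFunctionFieldBar N`, `P` a place of `F / ℚ̄`.

* `RatStable N E P` : `P` is fixed by every `σ ∈ Gal(ℚ̄/ℚ)` fixing the subfield `E ⊆ ℚ̄` pointwise.
* `rat_exists_stable_finset` : finitely many places are stable over one number field `K₀`, which can
  be taken Galois over `ℚ` and containing a given number field.
* `RatStable.mono`, `RatStable.smul` (stability of the Galois conjugates, `K₀ / ℚ` normal).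
* `RatStable.exists_const` : if `P` is stable over `E` (an arbitrary subfield of `ℚ̄`, e.g.
  `E = K₀ · ℚ̄^I`), then `P ∩ F_N(E)` is `E`-rational: every `f ∈ F_N(E)` which is regular at `P`
  is congruent modulo `𝔪_P` to a constant `c ∈ E`.
-/

set_option autoImplicit false

noncomputable section

namespace Fermat.Agent.UNIP

open AlgebraicCurve ModularCurve Fermat.Agent.S24 Fermat.Agent.INJ

section Abstract

variable {K F : Type*} [Field K] [Field F] [Algebra K F]

/-- The valuation rings of two distinct places are incomparable. -/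
theorem rat_exists_not_mem {P Q : Place K F} (h : Q ≠ P) :
    ∃ y : F, y ∈ P.toValuationSubring ∧ y ∉ Q.toValuationSubring := by
  by_contra hcon
  push Not at hcon
  have hle : P.toValuationSubring ≤ Q.toValuationSubring := fun y hy => hcon y hy
  have : IsPrincipalIdealRing P.toValuationSubring := P.isPrincipalIdealRing'
  exact h (Place.ext (ValuationSubring.eq_of_le_of_ne_top _ hle Q.ne_top')).symm

/-- A place is cut out by finitely many functions: a function `t` vanishing at `P` and finitely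
many functions `y`, regular at `P`, such that `P` is the only zero of `t` at which all `y` are
regular. -/
theorem rat_exists_finset_char [HasPrincipalDivisors K F] (P : Place K F) :
    ∃ (t : F) (Y : Finset F), 0 < P.ord t ∧ (∀ y ∈ Y, y ∈ P.toValuationSubring) ∧
      ∀ Q : Place K F, 0 < Q.ord t → (∀ y ∈ Y, y ∈ Q.toValuationSubring) → Q = P := by
  classical
  obtain ⟨π, hπ⟩ := IsDiscreteValuationRing.exists_irreducible P.toValuationSubring
  have hπ0 : (π : F) ≠ 0 := by
    simpa [ne_eq, ZeroMemClass.coe_eq_zero] using hπ.ne_zero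
  have hπord : P.ord (π : F) = 1 := P.ord_coe_irreducible hπ
  obtain ⟨D, hD, -⟩ := HasPrincipalDivisors.exists_divisor (K := K) (π : F) hπ0
  have hchoice : ∀ Q : Place K F, ∃ y : F, y ∈ P.toValuationSubring ∧
      (Q ≠ P → y ∉ Q.toValuationSubring) := by
    intro Q
    by_cases hQ : Q = P
    · exact ⟨0, zero_mem _, fun h => absurd hQ h⟩
    · obtain ⟨y, hy, hy'⟩ := rat_exists_not_mem hQ
      exact ⟨y, hy, fun _ => hy'⟩
  choose y hyP hyQ using hchoice
  refine ⟨(π : F), D.support.image y, by rw [hπord]; exact one_pos, ?_, ?_⟩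
  · intro z hz
    obtain ⟨Q, -, rfl⟩ := Finset.mem_image.1 hz
    exact hyP Q
  · intro Q hQ hY
    by_contra hne
    have hmem : Q ∈ D.support := by
      rw [Finsupp.mem_support_iff, hD Q]
      exact hQ.ne'
    exact hyQ Q hne (hY _ (Finset.mem_image_of_mem y hmem))

/-- a nonzero constant is not in the maximal ideal of a place -/
theorem rat_const_eq_zero_of_mem_nonunits (P : Place K F) {a : K}
    (h : algebraMap K F a ∈ P.toValuationSubring.nonunits) : a = 0 := by
  by_contra ha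
  have hne : algebraMap K F a ≠ 0 := by simpa using ha
  have h1 := (PlaceAux.ord_pos_iff_mem_nonunits P hne).2 h
  have h2 : P.ord (algebraMap K F a) = 0 := PlaceAux.ord_algebraMap P a
  omega

/-- the maximal ideal of the translate of a place -/
theorem rat_smul_mem_nonunits (g : SemilinearAut K F) (P : Place K F) {x : F}
    (hx : x ∈ P.toValuationSubring.nonunits) : g • x ∈ (g • P).toValuationSubring.nonunits := by
  rcases eq_or_ne x 0 with rfl | hx0
  · rw [smul_zero]
    exact (ValuationSubring.mem_nonunits_iff _).2 (by simp)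
  · have hgx : g • x ≠ 0 := by
      intro h
      apply hx0
      have := congrArg (g⁻¹ • ·) h
      simpa using this
    rw [← PlaceAux.ord_pos_iff_mem_nonunits (g • P) hgx, SemilinearAut.ord_smul]
    exact (PlaceAux.ord_pos_iff_mem_nonunits P hx0).2 hx

theorem rat_sub_mem_nonunits (A : ValuationSubring F) {x y : F} (hx : x ∈ A.nonunits)
    (hy : y ∈ A.nonunits) : x - y ∈ A.nonunits := by
  rw [ValuationSubring.mem_nonunits_iff] at hx hy ⊢
  exact lt_of_le_of_lt (A.valuation.map_sub x y) (max_lt hx hy)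

end Abstract

section Galois

variable (N : ℕ)

/-- the arithmetic Galois action on `F_N(ℚ̄)` -/
abbrev ratGal (σ : Kb ≃ₐ[ℚ] Kb) : SemilinearAut Kb (FF N) :=
  arithmeticGalois (modularFunctionFieldFull N) σ

/-- Functions defined over `E` are fixed by the automorphisms fixing `E`. -/
theorem rat_smul_nfEmb (E : IntermediateField ℚ Kb) (σ : Kb ≃ₐ[ℚ] Kb) (hσ : ∀ x ∈ E, σ x = x)
    (f : modularFunctionFieldFullC E N) :
    ratGal N σ • (nfEmb E N f) = nfEmb E N f := by
  apply Subtype.ext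
  rw [coe_arithmeticGalois_smul, nfEmb_coe, coeffMap_coeffMap]
  have h : ((σ : Kb →+* Kb).comp (algebraMap E Kb)) = algebraMap E Kb := by
    refine RingHom.ext fun c => ?_
    exact hσ (c : Kb) c.2
  exact coeffMap_congr h _

theorem rat_smul_const (σ : Kb ≃ₐ[ℚ] Kb) (c : Kb) :
    ratGal N σ • algebraMap Kb (FF N) c = algebraMap Kb (FF N) (σ c) :=
  SemilinearAut.smul_algebraMap _ c

/-- `P` is fixed by every automorphism of `ℚ̄` fixing the subfield `E` pointwise. -/
def RatStable (E : IntermediateField ℚ Kb) (P : Place Kb (FF N)) : Prop :=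
  ∀ σ : Kb ≃ₐ[ℚ] Kb, (∀ x ∈ E, σ x = x) → ratGal N σ • P = P

variable {N}

theorem RatStable.mono {E E' : IntermediateField ℚ Kb} (h : E ≤ E') {P : Place Kb (FF N)}
    (hP : RatStable N E P) : RatStable N E' P :=
  fun σ hσ => hP σ fun x hx => hσ x (h hx)

variable (N) in
/-- **Stability.**  Every place of `F_N(ℚ̄)` is fixed by `Gal(ℚ̄/K₀)` for some number field
`K₀`. -/
theorem rat_exists_stable [NeZero N] (P : Place Kb (FF N)) :
    ∃ K₀ : IntermediateField ℚ Kb, FiniteDimensional ℚ K₀ ∧ RatStable N K₀ P := by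
  classical
  have := Fermat.Agent.ES.H.hasPrincipalDivisors_FF N
  obtain ⟨t, Y, ht, hY, hchar⟩ := rat_exists_finset_char P
  obtain ⟨K₀, hK₀, -, hdesc⟩ := nf_exists_descent_finset (N := N) ∅
    ((insert t Y).image (fun y : FF N => (y : LaurentSeries Kb)))
    (by
      intro y hy
      obtain ⟨z, -, rfl⟩ := Finset.mem_image.1 hy
      exact z.2)
  refine ⟨K₀, hK₀, fun σ hσ => ?_⟩
  have hfix : ∀ y ∈ insert t Y, ratGal N σ • y = y := by
    intro y hy
    obtain ⟨y₁, hy₁, hy₁'⟩ := hdesc K₀ le_rfl (y : LaurentSeries Kb)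
      (Finset.mem_image_of_mem _ hy)
    have : y = nfEmb K₀ N ⟨y₁, hy₁⟩ := Subtype.ext hy₁'.symm
    rw [this]
    exact rat_smul_nfEmb N K₀ σ hσ _
  apply hchar
  · have h1 := SemilinearAut.ord_smul (ratGal N σ) P t
    rw [hfix t (Finset.mem_insert_self t Y)] at h1
    rw [h1]
    exact ht
  · intro y hy
    have h1 := hfix y (Finset.mem_insert_of_mem hy)
    rw [SemilinearAut.smul_toValuationSubring,
      ValuationSubring.mem_pointwise_smul_iff_inv_smul_mem]
    have h2 : (ratGal N σ)⁻¹ • y = y := by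
      conv_lhs => rw [← h1]
      exact inv_smul_smul _ _
    rw [h2]
    exact hY y hy

/-- **Rationality.**  If `P` is stable over the subfield `E ⊆ ℚ̄`, then every function
`f ∈ F_N(E)` regular at `P` is congruent modulo `𝔪_P` to a constant `c ∈ E`. -/
theorem RatStable.exists_const [NeZero N] {E : IntermediateField ℚ Kb} {P : Place Kb (FF N)}
    (hP : RatStable N E P) (f : modularFunctionFieldFullC E N)
    (hf : nfEmb E N f ∈ P.toValuationSubring) :
    ∃ c : E, nfEmb E N f - algebraMap Kb (FF N) (c : Kb) ∈ P.toValuationSubring.nonunits := by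
  have : IsAlgClosure ℚ Kb := ⟨inferInstance, AlgebraicClosure.isAlgebraic ℚ⟩
  have : IsGalois ℚ Kb := inferInstance
  have := Fermat.Agent.ES.H.finiteDimensional_adjoin_jF N
  have halg : Algebra.IsAlgebraic (IntermediateField.adjoin Kb {jF N}) (FF N) :=
    Algebra.IsAlgebraic.of_finite _ _
  obtain ⟨c, hc⟩ := exists_sub_mem_nonunits (jF N) (transcendental_jF N) halg P _ hf
  have hcE : c ∈ E := by
    rw [← InfiniteGalois.fixedField_fixingSubgroup E, IntermediateField.mem_fixedField_iff]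
    intro σ hσ
    have hσ' : ∀ x ∈ E, σ x = x := fun x hx => hσ ⟨x, hx⟩
    have h1 := rat_smul_mem_nonunits (ratGal N σ) P hc
    rw [hP σ hσ', smul_sub, rat_smul_nfEmb N E σ hσ', rat_smul_const] at h1
    have h2 : algebraMap Kb (FF N) (σ c - c) ∈ P.toValuationSubring.nonunits := by
      have e : algebraMap Kb (FF N) (σ c - c) = (nfEmb E N f - algebraMap Kb (FF N) c) -
          (nfEmb E N f - algebraMap Kb (FF N) (σ c)) := by
        rw [map_sub]; ring
      rw [e]
      exact rat_sub_mem_nonunits _ hc h1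
    exact sub_eq_zero.1 (rat_const_eq_zero_of_mem_nonunits P h2)
  exact ⟨⟨c, hcE⟩, hc⟩

set_option synthInstance.maxHeartbeats 400000 in
/-- the same, with the constant subtracted inside `F_N(E)` -/
theorem RatStable.exists_const' [NeZero N] {E : IntermediateField ℚ Kb} {P : Place Kb (FF N)}
    (hP : RatStable N E P) (f : modularFunctionFieldFullC E N)
    (hf : nfEmb E N f ∈ P.toValuationSubring) :
    ∃ c : E, nfEmb E N (f - algebraMap E (modularFunctionFieldFullC E N) c) ∈
      P.toValuationSubring.nonunits := by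
  obtain ⟨c, hc⟩ := hP.exists_const f hf
  refine ⟨c, ?_⟩
  rw [map_sub, nfEmb_algebraMap]
  exact hc

set_option synthInstance.maxHeartbeats 400000 in
/-- `ord` version (NB `ord 0 = 0` in the prelude, so the constant case is an alternative). -/
theorem RatStable.exists_eq_or_ord_pos [NeZero N] {E : IntermediateField ℚ Kb}
    {P : Place Kb (FF N)} (hP : RatStable N E P) (f : modularFunctionFieldFullC E N)
    (hf : 0 ≤ P.ord (nfEmb E N f)) :
    ∃ c : E, f = algebraMap E (modularFunctionFieldFullC E N) c ∨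
      0 < P.ord (nfEmb E N (f - algebraMap E (modularFunctionFieldFullC E N) c)) := by
  obtain ⟨c, hc⟩ := hP.exists_const' f (PlaceAux.mem_of_ord_nonneg P hf)
  refine ⟨c, ?_⟩
  rcases eq_or_ne (f - algebraMap E (modularFunctionFieldFullC E N) c) 0 with h | h
  · exact Or.inl (sub_eq_zero.1 h)
  · right
    have hne : nfEmb E N (f - algebraMap E (modularFunctionFieldFullC E N) c) ≠ 0 := by
      rw [Ne, map_eq_zero_iff _ (nfEmb_injective E N)]
      exact h
    exact (PlaceAux.ord_pos_iff_mem_nonunits P hne).2 hc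

/-- The Galois conjugates of a place which is stable over a field `K₀` normal over `ℚ` are stable
over `K₀`. -/
theorem RatStable.smul {K₀ : IntermediateField ℚ Kb} [Normal ℚ K₀] {P : Place Kb (FF N)}
    (hP : RatStable N K₀ P) (τ : Kb ≃ₐ[ℚ] Kb) : RatStable N K₀ (ratGal N τ • P) := by
  intro σ hσ
  have : IsAlgClosure ℚ Kb := ⟨inferInstance, AlgebraicClosure.isAlgebraic ℚ⟩
  have : Normal ℚ Kb := IsAlgClosure.normal ℚ Kb
  have hτ : ∀ x ∈ K₀, τ x ∈ K₀ := by
    intro x hx
    have h := IntermediateField.normal_iff_forall_map_le'.1 (inferInstance : Normal ℚ K₀) τ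
    exact h ⟨x, hx, rfl⟩
  have hfix : ∀ x ∈ K₀, (τ⁻¹ * σ * τ) x = x := by
    intro x hx
    show τ⁻¹ (σ (τ x)) = x
    rw [hσ _ (hτ x hx)]
    exact τ.symm_apply_apply x
  have h1 := hP (τ⁻¹ * σ * τ) hfix
  have e : ratGal N σ * ratGal N τ = ratGal N τ * ratGal N (τ⁻¹ * σ * τ) := by
    show arithmeticGalois _ σ * arithmeticGalois _ τ = arithmeticGalois _ τ *
      arithmeticGalois _ (τ⁻¹ * σ * τ)
    rw [← map_mul, ← map_mul]
    congr 1
    group
  rw [← mul_smul, e, mul_smul, h1]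

variable (N) in
/-- **D8.**  Finitely many places of `F_N(ℚ̄)` are stable over one number field `K₀`, which can be
taken Galois over `ℚ` and containing a given number field `E₁`.  By `RatStable.mono` and
`RatStable.exists_const` they are then `E`-rational for every subfield `E ⊇ K₀` of `ℚ̄`, and so are
their Galois conjugates (`RatStable.smul`). -/
theorem rat_exists_stable_finset [NeZero N] (S : Finset (Place Kb (FF N)))
    (E₁ : IntermediateField ℚ Kb) (hE₁ : FiniteDimensional ℚ E₁) :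
    ∃ K₀ : IntermediateField ℚ Kb, E₁ ≤ K₀ ∧ FiniteDimensional ℚ K₀ ∧ IsGalois ℚ K₀ ∧
      ∀ P ∈ S, RatStable N K₀ P := by
  classical
  have : IsAlgClosure ℚ Kb := ⟨inferInstance, AlgebraicClosure.isAlgebraic ℚ⟩
  have : IsGalois ℚ Kb := inferInstance
  -- one number field for all places
  have key : ∃ K₁ : IntermediateField ℚ Kb, E₁ ≤ K₁ ∧ FiniteDimensional ℚ K₁ ∧
      ∀ P ∈ S, RatStable N K₁ P := by
    induction S using Finset.induction_on with
    | empty => exact ⟨E₁, le_rfl, hE₁, fun P hP => absurd hP (Finset.notMem_empty P)⟩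
    | insert a S _ ih =>
        obtain ⟨K₁, h1, h2, h3⟩ := ih
        obtain ⟨Ka, ha1, ha2⟩ := rat_exists_stable N a
        refine ⟨K₁ ⊔ Ka, le_trans h1 le_sup_left, IntermediateField.finiteDimensional_sup K₁ Ka,
          fun P hP => ?_⟩
        rcases Finset.mem_insert.1 hP with rfl | hP
        · exact ha2.mono le_sup_right
        · exact (h3 P hP).mono le_sup_left
  obtain ⟨K₁, h1, h2, h3⟩ := key
  refine ⟨IntermediateField.normalClosure ℚ K₁ Kb,
    le_trans h1 (IntermediateField.le_normalClosure K₁),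
    normalClosure.is_finiteDimensional ℚ K₁ Kb, IsGalois.normalClosure ℚ K₁ Kb,
    fun P hP => (h3 P hP).mono (IntermediateField.le_normalClosure K₁)⟩

end Galois

end Fermat.Agent.UNIP

end
end ZBINJ_005_7

/-! ### bundled: `Fermat.Agent.ES.I2.E` -/
section ZBINJ_005_8

/-!
# ES / I2, piece E: the `ψ(N)` embeddings of `F_N` over `ℚ̄(j)` into `ℚ̄((Q))`, with their types

`stmtE N : StmtE N`.

Proof (formal, no analysis).  `Ω` := an algebraic closure of `ℚ̄((Q))`; `F_N / ℚ̄(j)` is separable of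
degree `ψ(N)` (`S28.relfinrank_full_eq_dedekindPsi`), so there are `ψ(N)` embeddings `φ : F_N → Ω`
over `ℚ̄(j)` (embedded by `q ↦ Q^N`).  By induction along `d → p d` (modular equation of level `p`,
split over `ℚ̄((q))` by `i2e_modEq_roots`) every `φ (j(q^d))` is `j(c Q^m)` with a type.  So `φ`
takes values in `ℚ̄((Q))`.
-/

set_option autoImplicit false

noncomputable section

namespace Fermat.Agent.ES.I2

open ModularCurve HahnSeries IntermediateField Fermat.Agent.ES Fermat.Agent.S28 Fermat.Agent.S24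
open Fermat.Agent.ES.M

/-- the target of the embeddings: an algebraic closure of `ℚ̄((Q))` (a type synonym, so that it
carries no algebra structure over `F_N` by default) -/
def I2EΩ : Type := AlgebraicClosure (LaurentSeries Kb)

instance : Field I2EΩ := inferInstanceAs (Field (AlgebraicClosure (LaurentSeries Kb)))

instance : IsAlgClosed I2EΩ := inferInstanceAs (IsAlgClosed (AlgebraicClosure (LaurentSeries Kb)))

/-- `ℚ̄((Q)) → Ω` -/
def i2eι : LaurentSeries Kb →+* I2EΩ :=
  algebraMap (LaurentSeries Kb) (AlgebraicClosure (LaurentSeries Kb))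

theorem i2eι_injective : Function.Injective i2eι :=
  (algebraMap (LaurentSeries Kb) (AlgebraicClosure (LaurentSeries Kb))).injective

theorem i2e_jBar_eq : jBar = jqModC Kb := by
  rw [jBar, coeffEmb, ← jqModC_rat, coeffMap_jqModC]

variable (N : ℕ) [NeZero N]

theorem i2e_jF_coe : ((jF N : FF N) : LaurentSeries Kb) = jqModC Kb := i2e_jBar_eq

theorem i2e_jdF_coe (d : ℕ) [NeZero d] (hd : d ∣ N) :
    ((jdF N d hd : FF N) : LaurentSeries Kb) = qExpand Kb d (jqModC Kb) := by
  rw [jdF_coe, coeffEmb, coeffMap_qExpand, ← jqModC_rat, coeffMap_jqModC]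

theorem i2e_jdF_coe' (d : ℕ) (hd : d ∣ N) (hd0 : d ≠ 0) :
    ((jdF N d hd : FF N) : LaurentSeries Kb) = UB.jd Kb d := by
  have : NeZero d := ⟨hd0⟩
  rw [i2e_jdF_coe, UB.jd_eq]

/-- a ring homomorphism `F_N → Ω` over `ℚ̄(j)` -/
structure I2EAdm (φ : FF N →+* I2EΩ) : Prop where
  const : ∀ a : Kb, φ (algebraMap Kb (FF N) a) = i2eι (HahnSeries.C a)
  j : φ (jF N) = i2eι (qExpand Kb N (jqModC Kb))

/-- the type of `φ` at `d` -/
def I2ETypeAt (φ : FF N →+* I2EΩ) (d : ℕ) (hd : d ∣ N) : Prop :=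
  ∃ (a δ m : ℕ) (c : Kbˣ), a * δ = d ∧ m * δ = N * a ∧ c ^ δ = 1 ∧
    φ (jdF N d hd) = i2eι (substQ c m (jqModC Kb))

theorem i2e_exists_primitiveRoot (p : ℕ) (hp : p ≠ 0) : ∃ ζ : Kbˣ, IsPrimitiveRoot ζ p := by
  have : NeZero ((p : ℕ) : Kb) := ⟨by exact_mod_cast hp⟩
  have := IsSepClosed.hasEnoughRootsOfUnity Kb p
  obtain ⟨ζ, hζ⟩ := HasEnoughRootsOfUnity.exists_primitiveRoot Kb p
  obtain ⟨u, rfl⟩ := hζ.isUnit hp
  exact ⟨u, IsPrimitiveRoot.coe_units_iff.mp hζ⟩

theorem i2e_exists_root (p : ℕ) (hp : 0 < p) (c : Kbˣ) : ∃ c' : Kbˣ, c' ^ p = c := by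
  obtain ⟨z, hz⟩ := IsAlgClosed.exists_pow_nat_eq (c : Kb) hp
  have hz0 : z ≠ 0 := by
    rintro rfl
    rw [zero_pow hp.ne'] at hz
    exact c.ne_zero hz.symm
  exact ⟨Units.mk0 z hz0, Units.ext (by simpa using hz)⟩

/-- the modular equation inside `F_N` -/
theorem i2e_modEq_FF {p : ℕ} [NeZero p] {Φ : Polynomial (Polynomial Kb)}
    (h1 : Φ.eval₂ (Polynomial.aeval (jqModC Kb)).toRingHom (qExpand Kb p (jqModC Kb)) = 0)
    (h2 : Φ.eval₂ (Polynomial.aeval (qExpand Kb p (jqModC Kb))).toRingHom (jqModC Kb) = 0)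
    (d : ℕ) (hd : d ∣ N) (hpd : p * d ∣ N) :
    Φ.eval₂ (Polynomial.aeval (R := Kb) (jdF N d hd)).toRingHom (jdF N (p * d) hpd) = 0 := by
  have hd0 : d ≠ 0 := fun h => NeZero.ne N (by subst h; simpa using hd)
  have hpd0 : p * d ≠ 0 := Nat.mul_ne_zero (NeZero.ne p) hd0
  obtain ⟨s1, -⟩ := UB.ModEq.shift Kb h1 h2 (d := d) hd0
  have hv : Function.Injective ((modularFunctionFieldBar N).val.toRingHom) :=
    (modularFunctionFieldBar N).val.toRingHom.injective
  apply hv
  rw [Polynomial.hom_eval₂, map_zero]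
  have e : ((modularFunctionFieldBar N).val.toRingHom).comp
      (Polynomial.aeval (R := Kb) (jdF N d hd)).toRingHom =
      (Polynomial.aeval (R := Kb) (UB.jd Kb d)).toRingHom := by
    refine Polynomial.ringHom_ext (fun a => ?_) ?_
    · simp only [RingHom.comp_apply, AlgHom.toRingHom_eq_coe, RingHom.coe_coe,
        Polynomial.aeval_C]
      rfl
    · simp only [RingHom.comp_apply, AlgHom.toRingHom_eq_coe, RingHom.coe_coe,
        Polynomial.aeval_X]
      exact i2e_jdF_coe' N d hd hd0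
  rw [e]
  have e2 : ((modularFunctionFieldBar N).val.toRingHom) (jdF N (p * d) hpd)
      = UB.jd Kb (p * d) := i2e_jdF_coe' N (p * d) hpd hpd0
  rw [e2]
  exact s1

/-- **the inductive step** `d → p d` -/
theorem i2e_type_step (φ : FF N →+* I2EΩ) (hφ : I2EAdm N φ) (p d : ℕ) (hp : p.Prime)
    (hd : d ∣ N) (hpd : p * d ∣ N) (h : I2ETypeAt N φ d hd) : I2ETypeAt N φ (p * d) hpd := by
  obtain ⟨a, δ, m, c, had, hmd, hc, hφd⟩ := h
  have : NeZero p := ⟨hp.ne_zero⟩
  have hN0 : N ≠ 0 := NeZero.ne N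
  have hd0 : d ≠ 0 := fun h => hN0 (by subst h; simpa using hd)
  have ha0 : a ≠ 0 := by
    rintro rfl
    rw [zero_mul] at had
    exact hd0 had.symm
  have hδ0 : δ ≠ 0 := by
    rintro rfl
    rw [mul_zero] at had
    exact hd0 had.symm
  obtain ⟨t, ht⟩ := hpd
  have ht0 : t ≠ 0 := by
    rintro rfl
    rw [mul_zero] at ht
    exact hN0 ht
  have hm : m = p * (a * a * t) := by
    have h1 : m * δ = (p * (a * a * t)) * δ := by
      rw [hmd, ht, ← had]; ring
    exact Nat.eq_of_mul_eq_mul_right (Nat.pos_of_ne_zero hδ0) h1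
  have hm'0 : a * a * t ≠ 0 := Nat.mul_ne_zero (Nat.mul_ne_zero ha0 ha0) ht0
  have hm0 : m ≠ 0 := by rw [hm]; exact Nat.mul_ne_zero hp.ne_zero hm'0
  have : NeZero (a * a * t) := ⟨hm'0⟩
  have : NeZero m := ⟨hm0⟩
  obtain ⟨c', hc'⟩ := i2e_exists_root p hp.pos c
  obtain ⟨ζ, hζ⟩ := i2e_exists_primitiveRoot p hp.ne_zero
  obtain ⟨Φ, hΦm, hΦd, h1, h2⟩ := ub_modEq Kb p hp
  have hF := i2e_modEq_FF N h1 h2 d hd ⟨t, ht⟩
  have hΩ : Φ.eval₂ (φ.comp (Polynomial.aeval (R := Kb) (jdF N d hd)).toRingHom)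
      (φ (jdF N (p * d) ⟨t, ht⟩)) = 0 := by
    rw [← Polynomial.hom_eval₂, hF, map_zero]
  have hsub : ∀ f : LaurentSeries Kb,
      substQ c' (a * a * t) (qExpand Kb p f) = substQ c m f := by
    intro f
    rw [i2e_substQ_qExpand, hc', hm]
  have hs : φ.comp (Polynomial.aeval (R := Kb) (jdF N d hd)).toRingHom =
      (i2eι.comp (substQ c' (a * a * t))).comp
        (Polynomial.aeval (R := Kb) (qExpand Kb p (jqModC Kb))).toRingHom := by
    refine Polynomial.ringHom_ext (fun x => ?_) ?_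
    · simp only [RingHom.comp_apply, AlgHom.toRingHom_eq_coe, RingHom.coe_coe,
        Polynomial.aeval_C]
      rw [hφ.const, Fermat.Agent.ES.M.algebraMap_eq_hahnC, i2e_substQ_C]
    · simp only [RingHom.comp_apply, AlgHom.toRingHom_eq_coe, RingHom.coe_coe,
        Polynomial.aeval_X]
      rw [hφd, hsub]
  rw [hs] at hΩ
  rcases i2e_modEq_roots hp ζ hζ hΦm hΦd h1 h2 (i2eι.comp (substQ c' (a * a * t))) _ hΩ
    with h | ⟨b, -, h⟩
  · refine ⟨p * a, δ, p * m, c ^ p, ?_, ?_, ?_, ?_⟩
    · rw [mul_assoc, had]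
    · rw [mul_assoc, hmd]; ring
    · rw [← pow_mul, mul_comm, pow_mul, hc, one_pow]
    · rw [h, RingHom.comp_apply, hsub, i2e_substQ_qExpand]
  · refine ⟨a, p * δ, a * a * t, c' * ζ ^ b, ?_, ?_, ?_, ?_⟩
    · rw [← had]; ring
    · rw [← hmd, hm]; ring
    · rw [mul_pow, pow_mul, hc', hc, ← pow_mul, mul_comm b, mul_assoc, pow_mul,
        hζ.pow_eq_one, one_pow, mul_one]
    · rw [h, RingHom.comp_apply, i2e_substQ_kronRot]

/-- every admissible `φ` has a type at every `d ∣ N` -/
theorem i2e_type (φ : FF N →+* I2EΩ) (hφ : I2EAdm N φ) :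
    ∀ (d : ℕ) (hd : d ∣ N), I2ETypeAt N φ d hd := by
  intro d
  induction d using Nat.strong_induction_on with
  | _ d ih =>
    intro hd
    have hd0 : d ≠ 0 := fun h => NeZero.ne N (by subst h; simpa using hd)
    rcases eq_or_ne d 1 with rfl | hd1
    · refine ⟨1, 1, N, 1, rfl, by ring, one_pow _, ?_⟩
      rw [jdF_one, hφ.j, i2e_substQ_one]
    · obtain ⟨e, he⟩ := Nat.minFac_dvd d
      have hp := Nat.minFac_prime hd1
      have he0 : e ≠ 0 := by
        rintro rfl
        rw [mul_zero] at he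
        exact hd0 he
      have hlt : e < d := by
        rw [he]
        exact lt_mul_of_one_lt_left (Nat.pos_of_ne_zero he0) hp.one_lt
      have hed : e ∣ N := (Dvd.intro_left _ he.symm).trans hd
      have h := i2e_type_step N φ hφ d.minFac e hp hed (he ▸ hd) (ih e hlt hed)
      obtain ⟨a, δ, m, c, h1, h2, h3, h4⟩ := h
      refine ⟨a, δ, m, c, h1.trans he.symm, h2, h3, ?_⟩
      rw [← h4]
      congr 1
      exact Subtype.ext (by
        rw [i2e_jdF_coe' N d hd hd0, i2e_jdF_coe' N _ (he ▸ hd) (by rw [← he]; exact hd0), ← he])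

/-! ## Corestriction to `ℚ̄((Q))` -/

/-- an admissible `φ` takes values in `ℚ̄((Q))` -/
theorem i2e_range (φ : FF N →+* I2EΩ) (hφ : I2EAdm N φ) (x : FF N) :
    ∃ y : LaurentSeries Kb, i2eι y = φ x := by
  refine FF_induction (p := fun x => ∃ y : LaurentSeries Kb, i2eι y = φ x) ?_ ?_ ?_ ?_ ?_ x
  · intro d hd
    obtain ⟨a, δ, m, c, -, -, -, h⟩ := i2e_type N φ hφ d hd
    exact ⟨_, h.symm⟩
  · intro a
    exact ⟨_, (hφ.const a).symm⟩
  · rintro x y ⟨u, hu⟩ ⟨v, hv⟩
    exact ⟨u + v, by rw [map_add, map_add, hu, hv]⟩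
  · rintro x y ⟨u, hu⟩ ⟨v, hv⟩
    exact ⟨u * v, by rw [map_mul, map_mul, hu, hv]⟩
  · rintro x ⟨u, hu⟩
    exact ⟨u⁻¹, by rw [map_inv₀, map_inv₀, hu]⟩

/-- the corestriction of an admissible `φ` -/
def i2eCore (φ : FF N →+* I2EΩ) (hφ : I2EAdm N φ) : FF N →ₐ[Kb] LaurentSeries Kb where
  toFun x := (i2e_range N φ hφ x).choose
  map_one' := i2eι_injective (by rw [(i2e_range N φ hφ 1).choose_spec, map_one, map_one])
  map_mul' x y := i2eι_injective (by
    rw [(i2e_range N φ hφ (x * y)).choose_spec, map_mul, map_mul,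
      (i2e_range N φ hφ x).choose_spec, (i2e_range N φ hφ y).choose_spec])
  map_zero' := i2eι_injective (by rw [(i2e_range N φ hφ 0).choose_spec, map_zero, map_zero])
  map_add' x y := i2eι_injective (by
    rw [(i2e_range N φ hφ (x + y)).choose_spec, map_add, map_add,
      (i2e_range N φ hφ x).choose_spec, (i2e_range N φ hφ y).choose_spec])
  commutes' a := i2eι_injective (by
    rw [(i2e_range N φ hφ _).choose_spec, hφ.const, Fermat.Agent.ES.M.algebraMap_eq_hahnC])

theorem i2eCore_spec (φ : FF N →+* I2EΩ) (hφ : I2EAdm N φ) (x : FF N) :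
    i2eι (i2eCore N φ hφ x) = φ x := (i2e_range N φ hφ x).choose_spec

theorem i2eCore_hasType (φ : FF N →+* I2EΩ) (hφ : I2EAdm N φ) : HasType N (i2eCore N φ hφ) := by
  intro d hd
  obtain ⟨a, δ, m, c, h1, h2, h3, h4⟩ := i2e_type N φ hφ d hd
  refine ⟨a, δ, m, c, h1, h2, h3, i2eι_injective ?_⟩
  rw [i2eCore_spec, h4, i2e_jBar_eq]

/-! ## Counting -/

/-- `ℚ̄(j) ⊂ F_N` -/
abbrev i2eE : IntermediateField Kb (FF N) := Kb⟮jF N⟯

/-- `ι ∘ ι₀ : F_N → Ω` -/
def i2eBase : FF N →+* I2EΩ := i2eι.comp (iotaN N).toRingHom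

theorem i2eBase_apply (x : FF N) :
    i2eBase N x = i2eι (qExpand Kb N (x : LaurentSeries Kb)) := rfl

/-- `Ω` as an algebra over `ℚ̄(j)`, through `q ↦ Q^N` -/
@[reducible] def i2eAlgebra : Algebra (i2eE N) I2EΩ :=
  ((i2eBase N).comp (algebraMap (i2eE N) (FF N))).toAlgebra

theorem i2e_dedekindPsi_ne_zero : dedekindPsi N ≠ 0 := by
  unfold dedekindPsi
  have h1 : (1 : ℕ) ∈ N.divisors.filter (fun d => Squarefree d) := by
    simp [NeZero.ne N]
  have := Finset.single_le_sum (f := fun d => N / d) (fun _ _ => Nat.zero_le _) h1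
  have hN : 0 < N := Nat.pos_of_ne_zero (NeZero.ne N)
  simp only [Nat.div_one] at this
  omega

/-- `[F_N : ℚ̄(j)] = ψ(N)` -/
theorem i2e_finrank : Module.finrank (i2eE N) (FF N) = dedekindPsi N := by
  have hN : ((N : ℕ) : Kb) ≠ 0 := Nat.cast_ne_zero.2 (NeZero.ne N)
  have h0 := relfinrank_full_eq_dedekindPsi Kb N hN
  rw [← Fermat.Agent.INJ.nf_bar_eq_fullC N] at h0
  have h1 := IntermediateField.finrank_comap
    (A := (adjoin Kb {jqModC Kb} : IntermediateField Kb (LaurentSeries Kb)))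
    (modularFunctionFieldBar N).val
  rw [IntermediateField.fieldRange_val] at h1
  have hcomap : (adjoin Kb {jqModC Kb} : IntermediateField Kb (LaurentSeries Kb)).comap
      (modularFunctionFieldBar N).val = i2eE N := by
    have hlift : IntermediateField.lift (Kb⟮jF N⟯ : IntermediateField Kb (FF N)) =
        (adjoin Kb {jqModC Kb} : IntermediateField Kb (LaurentSeries Kb)) := by
      rw [IntermediateField.lift_adjoin_simple, i2e_jF_coe]
    ext x
    have h2 : x ∈ (adjoin Kb {jqModC Kb} : IntermediateField Kb (LaurentSeries Kb)).comap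
        (modularFunctionFieldBar N).val ↔
        (x : LaurentSeries Kb) ∈
          (adjoin Kb {jqModC Kb} : IntermediateField Kb (LaurentSeries Kb)) := Iff.rfl
    rw [h2, ← hlift]
    exact IntermediateField.mem_lift x
  rw [hcomap] at h1
  rw [h1, h0]

/-- the `ψ(N)` embeddings of `F_N` into `Ω` over `ℚ̄(j)` -/
theorem i2e_exists_family :
    ∃ φ : Fin (dedekindPsi N) → (FF N →+* I2EΩ),
      Function.Injective φ ∧ (∀ i, I2EAdm N (φ i)) ∧ ∃ i₀, φ i₀ = i2eBase N := by
  let _ := i2eAlgebra N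
  have hfr := i2e_finrank N
  have hψ := i2e_dedekindPsi_ne_zero N
  have hfd : FiniteDimensional (i2eE N) (FF N) :=
    FiniteDimensional.of_finrank_pos (by rw [hfr]; exact Nat.pos_of_ne_zero hψ)
  have hcz : CharZero (i2eE N) := charZero_of_injective_algebraMap (algebraMap Kb (i2eE N)).injective
  have halg : Algebra.IsAlgebraic (i2eE N) (FF N) := Algebra.IsAlgebraic.of_finite _ _
  have hsep : Algebra.IsSeparable (i2eE N) (FF N) := Algebra.IsAlgebraic.isSeparable_of_perfectField
  have hcard : Nat.card (FF N →ₐ[i2eE N] I2EΩ) = dedekindPsi N :=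
    (AlgHom.natCard_of_splits (i2eE N) (FF N) I2EΩ (fun _ => IsAlgClosed.splits _)).trans hfr
  have : Finite (FF N →ₐ[i2eE N] I2EΩ) :=
    Nat.finite_of_card_ne_zero (by rw [hcard]; exact hψ)
  let e : (FF N →ₐ[i2eE N] I2EΩ) ≃ Fin (dedekindPsi N) := Finite.equivFinOfCardEq hcard
  have hcomm : ∀ (ψ : FF N →ₐ[i2eE N] I2EΩ) (x : i2eE N),
      ψ (x : FF N) = i2eBase N (x : FF N) := fun ψ x => ψ.commutes x
  refine ⟨fun i => (e.symm i).toRingHom, ?_, ?_, ?_⟩
  · intro i i' h
    apply e.symm.injective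
    apply AlgHom.coe_ringHom_injective
    exact h
  · intro i
    constructor
    · intro a
      have h1 := hcomm (e.symm i) (algebraMap Kb (i2eE N) a)
      have h2 : ((algebraMap Kb (i2eE N) a : i2eE N) : FF N) = algebraMap Kb (FF N) a := rfl
      rw [h2] at h1
      show (e.symm i) (algebraMap Kb (FF N) a) = _
      rw [h1, i2eBase_apply]
      have h3 : ((algebraMap Kb (FF N) a : FF N) : LaurentSeries Kb) = HahnSeries.C a := by
        show algebraMap Kb (LaurentSeries Kb) a = _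
        exact Fermat.Agent.ES.M.algebraMap_eq_hahnC a
      rw [h3, qExpand_C]
    · have h1 := hcomm (e.symm i) ⟨jF N, mem_adjoin_simple_self Kb (jF N)⟩
      show (e.symm i) (jF N) = _
      rw [h1, i2eBase_apply, i2e_jF_coe]
  · refine ⟨e { i2eBase N with commutes' := fun r => rfl }, ?_⟩
    simp only [Equiv.symm_apply_apply]

/-- **piece I2-E**: the `ψ(N)` embeddings of `F_N` over `ℚ̄(j)` into `ℚ̄((Q))`, with types -/
theorem stmtE : StmtE N := by
  obtain ⟨φ, hinj, hadm, i₀, hi₀⟩ := i2e_exists_family N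
  refine ⟨fun i => i2eCore N (φ i) (hadm i), ?_, fun i => i2eCore_hasType N (φ i) (hadm i),
    i₀, ?_⟩
  · intro i i' h
    apply hinj
    ext x
    rw [← i2eCore_spec N (φ i) (hadm i) x, ← i2eCore_spec N (φ i') (hadm i') x]
    exact congrArg (fun σ : FF N →ₐ[Kb] LaurentSeries Kb => i2eι (σ x)) h
  · ext1 x
    apply i2eι_injective
    rw [i2eCore_spec, hi₀]
    rfl

theorem stmtEAll : StmtEAll := fun N _ => stmtE N

end Fermat.Agent.ES.I2

end
end ZBINJ_005_8
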