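/- GENERATED FILE (helper35, build-time optimisation, NOTES/ZB.md): verbatim concatenation of the modules
   Fermat.Agent.INJ.BGConstJ
   Do not edit; do not import together with these modules. -/
import Fermat.Agent.ZB.S18_001
import Fermat.Prelude.Def_ModularCurve_X0ModL
import Fermat.Agent.ZB.INJ_012

/-! ### bundled: `Fermat.Agent.INJ.BGConstJ` -/
section ZBINJ_011_0

/-!
# INJ B-glue, piece BG-const for `t = j`

`j = q⁻¹ + 744 + …` has order `-1` over every field `E`; hence inside
`modularFunctionFieldFullC E N ⊆ E((q))`: `j` is transcendental, the field of constants is `E`,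
and the cusp `∞` is a place with `ord j = -1`.
-/

set_option autoImplicit false

noncomputable section

open AlgebraicCurve HahnSeries ModularCurve

namespace Fermat.Agent.INJ

variable (E : Type*) [Field E]

theorem bgConst_order_jqModC : (jqModC E).order = -1 := by
  have h0 : jqModC E ≠ 0 := jqModC_ne_zero_of_nontrivial E
  apply le_antisymm
  · exact HahnSeries.order_le_of_coeff_ne_zero (by rw [coeff_jqModC_neg_one]; exact one_ne_zero)
  · rw [HahnSeries.le_order_iff_forall h0]
    intro n hn
    exact coeff_jqModC_of_lt E hn

variable (N : ℕ)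

/-- `j` as an element of `modularFunctionFieldFullC E N` -/
def bgJ : modularFunctionFieldFullC E N := ⟨jqModC E, jqModC_mem_full E N⟩

theorem bgConst_transcendental_bgJ : Transcendental E (bgJ E N) :=
  bgConst_transcendental _ (bgJ E N) (by
    show (jqModC E).order ≠ 0
    rw [bgConst_order_jqModC]; norm_num)

theorem bgConst_exists_place_bgJ :
    ∃ P₀ : Place E (modularFunctionFieldFullC E N), P₀.ord (bgJ E N) = -1 := by
  obtain ⟨P₀, -, h, -⟩ := bgConst_exists_place _ (bgJ E N) (bgConst_order_jqModC E)
  exact ⟨P₀, h⟩

end Fermat.Agent.INJ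

end
end ZBINJ_011_0
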