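/- GENERATED FILE (helper35, build-time optimisation, NOTES/ZB.md): verbatim concatenation of the modules
   Fermat.Agent.INJ.AbhyankarDVR
   Fermat.Agent.INJ.AbhyankarPlace
   Fermat.Agent.INJ.KummerUnram
   Fermat.Agent.INJ.PlaceExt
   Fermat.Agent.INJ.InjCore
   Fermat.Agent.INJ.DescentLevel
   Fermat.Agent.INJ.NTamePlaces
   Fermat.Agent.INJ.NTameWire
   Fermat.Agent.INJ.NormalTame
   Do not edit; do not import together with these modules. -/
import Mathlib
import Fermat.Agent.ZB.S24_007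
import Fermat.Agent.ZB.S24_005
import Fermat.Agent.ZB.INJ_010
import Fermat.Agent.ZB.INJ_002
import Fermat.Agent.ZB.INJ_020
import Fermat.Agent.ZB.INJ_021
import Fermat.Agent.ZB.INJ_022
import Fermat.Agent.ZB.S18_001
import Fermat.Agent.ZB.INJ_023
import Fermat.Agent.ZB.INJ_004
import Fermat.Agent.ZB.INJ_003
import Fermat.Agent.ZB.INJ_001
import Fermat.Agent.ZB.INJ_025
import Fermat.Agent.ZB.S28_002
import Fermat.Agent.ZB.INJ_036
import Fermat.Agent.ZB.INJ_027
import Fermat.Agent.ZB.INJ_035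

/-! ### bundled: `Fermat.Agent.INJ.AbhyankarDVR` -/
section ZBINJ_009_0

/-!
# INJ piece A4a — Abhyankar's lemma for discrete valuations (tame Kummer base change)

`L ⊂ L'` fields, `v` a `ℤᵐ⁰`-valued valuation on `L'`, `u ∈ L` a uniformiser of `v|_L`,
`τ ∈ L` with `v τ = (v u)^k`, `s ∈ L'` with `s^e = τ`, `k ∣ e`, `k ≠ 0` in the residue field.
Then `v s` generates the value group of `v` on `L[s]`, i.e. `s` is a uniformiser:
`L(s)` is unramified over the Kummer extension `K(s)` of any subfield `K ∋ τ` of `L`.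

Main results (namespace `Fermat.Agent.INJ.Abh`):
* `val_sum_distinct` : a finite sum whose nonzero terms have pairwise distinct values has the
  value of one of its terms.
* `unitKummer_value` : unit Kummer extensions are unramified (value group does not grow).
* `abhyankar_value` : the statement above.
-/

set_option autoImplicit false

open Polynomial WithZero

namespace Fermat.Agent.INJ.Abh

variable {L' : Type*} [Field L']

/-- A finite sum whose nonzero terms have pairwise distinct values is zero or has the value of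
one of its nonzero terms. -/
theorem val_sum_distinct (v : Valuation L' ℤᵐ⁰) {ι : Type*} (S : Finset ι) (f : ι → L')
    (hdist : ∀ i ∈ S, ∀ j ∈ S, f i ≠ 0 → f j ≠ 0 → v (f i) = v (f j) → i = j) :
    (∑ i ∈ S, f i = 0 ∧ ∀ i ∈ S, f i = 0) ∨
      ∃ j ∈ S, f j ≠ 0 ∧ v (∑ i ∈ S, f i) = v (f j) := by
  classical
  induction S using Finset.induction_on with
  | empty => left; simp
  | insert a S ha ih =>
    have ih' := ih (fun i hi j hj => hdist i (Finset.mem_insert_of_mem hi) j
      (Finset.mem_insert_of_mem hj))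
    rw [Finset.sum_insert ha]
    by_cases hfa : f a = 0
    · rcases ih' with ⟨h0, hall⟩ | ⟨j, hj, hj0, hjv⟩
      · left
        refine ⟨by rw [hfa, h0, add_zero], fun i hi => ?_⟩
        rcases Finset.mem_insert.mp hi with rfl | hi
        · exact hfa
        · exact hall i hi
      · right
        exact ⟨j, Finset.mem_insert_of_mem hj, hj0, by rw [hfa, zero_add, hjv]⟩
    · right
      rcases ih' with ⟨h0, _⟩ | ⟨j, hj, hj0, hjv⟩
      · exact ⟨a, Finset.mem_insert_self a S, hfa, by rw [h0, add_zero]⟩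
      · have hne : v (f a) ≠ v (∑ i ∈ S, f i) := by
          rw [hjv]
          intro h
          have := hdist a (Finset.mem_insert_self a S) j (Finset.mem_insert_of_mem hj) hfa hj0 h
          exact ha (this ▸ hj)
        rw [Valuation.map_add_of_distinct_val v hne]
        rcases le_total (v (f a)) (v (∑ i ∈ S, f i)) with h | h
        · exact ⟨j, Finset.mem_insert_of_mem hj, hj0, by rw [max_eq_right h, hjv]⟩
        · exact ⟨a, Finset.mem_insert_self a S, hfa, by rw [max_eq_left h]⟩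

/-- Totally ramified step: if the `c i` have values in `⟨γ^m⟩` and `v s = γ ≠ 1`, then
`∑_{i<m} c_i s^i` has value in `⟨γ⟩`. -/
theorem val_sum_pow_mem (v : Valuation L' ℤᵐ⁰) (s : L') (hs0 : s ≠ 0) (hs1 : v s ≠ 1)
    (m : ℕ) (c : ℕ → L')
    (hc : ∀ i < m, c i ≠ 0 → ∃ n : ℤ, v (c i) = v s ^ ((m : ℤ) * n))
    (hx : ∑ i ∈ Finset.range m, c i * s ^ i ≠ 0) :
    ∃ n : ℤ, v (∑ i ∈ Finset.range m, c i * s ^ i) = v s ^ n := by
  have hγ0 : 0 < v s := by
    rw [zero_lt_iff]
    exact (Valuation.ne_zero_iff v).mpr hs0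
  have hinj := zpow_right_injective₀ hγ0 hs1
  have hval : ∀ i < m, c i * s ^ i ≠ 0 → ∃ n : ℤ, v (c i * s ^ i) = v s ^ ((m : ℤ) * n + i) := by
    intro i hi h0
    have hci : c i ≠ 0 := left_ne_zero_of_mul h0
    obtain ⟨n, hn⟩ := hc i hi hci
    refine ⟨n, ?_⟩
    rw [map_mul, map_pow, hn, zpow_add₀ hγ0.ne', zpow_natCast]
  have hdist : ∀ i ∈ Finset.range m, ∀ j ∈ Finset.range m, c i * s ^ i ≠ 0 → c j * s ^ j ≠ 0 →
      v (c i * s ^ i) = v (c j * s ^ j) → i = j := by
    intro i hi j hj hi0 hj0 hij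
    have hi' := Finset.mem_range.mp hi
    have hj' := Finset.mem_range.mp hj
    obtain ⟨n, hn⟩ := hval i hi' hi0
    obtain ⟨n', hn'⟩ := hval j hj' hj0
    rw [hn, hn'] at hij
    have h := hinj hij
    -- m*n + i = m*n' + j with i, j < m
    have h1 : ((i : ℤ) - j) = (m : ℤ) * (n' - n) := by
      linarith
    have h2 : (m : ℤ) ∣ (i : ℤ) - j := ⟨_, h1⟩
    have h3 : |(i : ℤ) - j| < m := by
      rw [abs_lt]
      constructor <;> omega
    have h4 : (i : ℤ) - j = 0 := Int.eq_zero_of_abs_lt_dvd h2 h3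
    omega
  rcases val_sum_distinct v (Finset.range m) (fun i => c i * s ^ i) hdist with
    ⟨h0, _⟩ | ⟨j, hj, hj0, hjv⟩
  · exact absurd h0 hx
  · obtain ⟨n, hn⟩ := hval j (Finset.mem_range.mp hj) hj0
    exact ⟨_, hjv.trans hn⟩


/-! ## Unit Kummer extensions are unramified -/

section Kummer

variable {L : Type*} [Field L] [Algebra L L'] (v : Valuation L' ℤᵐ⁰)

/-- The valuation ring of `v|_L`. -/
abbrev OL : ValuationSubring L := (v.comap (algebraMap L L')).valuationSubring

/-- The valuation ring of `v`. -/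
abbrev OL' : ValuationSubring L' := v.valuationSubring

theorem mem_OL {a : L} : a ∈ OL (L := L) v ↔ v (algebraMap L L' a) ≤ 1 := Iff.rfl

/-- The inclusion `O_L → O_{L'}`. -/
def incl : OL (L := L) v →+* OL' v :=
  ((algebraMap L L').comp (OL (L := L) v).subtype).codRestrict (OL' v).toSubring
    (fun a => a.2)

@[simp] theorem incl_coe (a : OL (L := L) v) : ((incl v a : OL' v) : L') = algebraMap L L' a := rfl

theorem isUnit_OL_iff (a : OL (L := L) v) : IsUnit a ↔ v (algebraMap L L' a) = 1 := by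
  rw [ValuationSubring.valuation_eq_one_iff]
  have h := (Valuation.isEquiv_valuation_valuationSubring (v.comap (algebraMap L L')))
  exact (Valuation.isEquiv_iff_val_eq_one.mp h).symm

theorem isUnit_OL'_iff (a : OL' v) : IsUnit a ↔ v (a : L') = 1 := by
  rw [ValuationSubring.valuation_eq_one_iff]
  have h := (Valuation.isEquiv_valuation_valuationSubring v)
  exact (Valuation.isEquiv_iff_val_eq_one.mp h).symm

instance : IsLocalHom (incl (L := L) v) where
  map_nonunit a ha := by
    rw [isUnit_OL_iff]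
    rw [isUnit_OL'_iff] at ha
    exact ha

theorem residue_OL'_eq_zero_iff (a : OL' v) :
    IsLocalRing.residue (OL' v) a = 0 ↔ v (a : L') < 1 := by
  rw [IsLocalRing.residue_eq_zero_iff, IsLocalRing.mem_maximalIdeal, mem_nonunits_iff,
    isUnit_OL'_iff]
  have h1 : v (a : L') ≤ 1 := a.2
  exact ⟨fun h => lt_of_le_of_ne h1 h, fun h => h.ne⟩

theorem residue_OL_eq_zero_iff (a : OL (L := L) v) :
    IsLocalRing.residue (OL (L := L) v) a = 0 ↔ v (algebraMap L L' a) < 1 := by
  rw [IsLocalRing.residue_eq_zero_iff, IsLocalRing.mem_maximalIdeal, mem_nonunits_iff,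
    isUnit_OL_iff]
  have h1 : v (algebraMap L L' a) ≤ 1 := a.2
  exact ⟨fun h => lt_of_le_of_ne h1 h, fun h => h.ne⟩

/-- Evaluation of an integral polynomial at an integral element, in `O_{L'}`. -/
noncomputable def ev' (z₀ : OL' v) (Q : (OL (L := L) v)[X]) : OL' v := Q.eval₂ (incl v) z₀

/-- Evaluation of an integral polynomial at an integral element, in `L'`. -/
noncomputable def ev (z₀ : OL' v) (Q : (OL (L := L) v)[X]) : L' := (ev' v z₀ Q : L')

theorem ev_add (z₀ : OL' v) (P Q : (OL (L := L) v)[X]) : ev v z₀ (P + Q) = ev v z₀ P + ev v z₀ Q := by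
  simp [ev, ev', Polynomial.eval₂_add]

theorem ev_mul (z₀ : OL' v) (P Q : (OL (L := L) v)[X]) : ev v z₀ (P * Q) = ev v z₀ P * ev v z₀ Q := by
  simp [ev, ev', Polynomial.eval₂_mul]

theorem ev_sub (z₀ : OL' v) (P Q : (OL (L := L) v)[X]) : ev v z₀ (P - Q) = ev v z₀ P - ev v z₀ Q := by
  simp [ev, ev', Polynomial.eval₂_sub]

theorem ev_C (z₀ : OL' v) (a : OL (L := L) v) : ev v z₀ (C a) = algebraMap L L' a := by
  simp [ev, ev']

theorem ev_X (z₀ : OL' v) : ev (L := L) v z₀ X = (z₀ : L') := by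
  simp [ev, ev']

theorem ev_pow (z₀ : OL' v) (P : (OL (L := L) v)[X]) (n : ℕ) : ev v z₀ (P ^ n) = ev v z₀ P ^ n := by
  simp [ev, ev', Polynomial.eval₂_pow]

theorem ev_le_one (z₀ : OL' v) (Q : (OL (L := L) v)[X]) : v (ev v z₀ Q) ≤ 1 := (ev' v z₀ Q).2


theorem residue_ev' (z₀ : OL' v) (Q : (OL (L := L) v)[X]) :
    IsLocalRing.residue (OL' v) (ev' v z₀ Q) =
      (Q.map (IsLocalRing.residue (OL (L := L) v))).eval₂
        (IsLocalRing.ResidueField.map (incl (L := L) v)) (IsLocalRing.residue (OL' v) z₀) := by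
  rw [ev', Polynomial.hom_eval₂, Polynomial.eval₂_map,
    IsLocalRing.ResidueField.map_comp_residue]

/-- Powers of an element `< 1` of `ℤᵐ⁰` become arbitrarily small. -/
theorem exists_pow_lt {a x : ℤᵐ⁰} (ha0 : a ≠ 0) (ha1 : a < 1) (hx : x ≠ 0) :
    ∃ N : ℕ, a ^ N < x := by
  obtain ⟨α, rfl⟩ : ∃ α : ℤ, a = exp α := ⟨log a, (exp_log ha0).symm⟩
  obtain ⟨ξ, rfl⟩ : ∃ ξ : ℤ, x = exp ξ := ⟨log x, (exp_log hx).symm⟩
  have hα : α < 0 := by
    have : exp α < exp (0 : ℤ) := by rw [exp_zero]; exact ha1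
    exact exp_lt_exp.mp this
  refine ⟨(|ξ| + 1).toNat, ?_⟩
  rw [← exp_nsmul, exp_lt_exp]
  have h1 : ((|ξ| + 1).toNat : ℤ) = |ξ| + 1 := Int.toNat_of_nonneg (by positivity)
  rw [nsmul_eq_mul, h1]
  have h2 : -|ξ| ≤ ξ := neg_abs_le _
  nlinarith [abs_nonneg ξ]

/-- If `a` lies in the maximal ideal and `u` is a uniformiser, then `u ∣ a`. -/
theorem dvd_of_lt_one (u : L) (hu1 : v (algebraMap L L' u) < 1)
    (hunif : ∀ a : L, a ≠ 0 → ∃ n : ℤ, v (algebraMap L L' a) = v (algebraMap L L' u) ^ n)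
    (a : OL (L := L) v) (ha : v (algebraMap L L' a) < 1) :
    (⟨u, hu1.le⟩ : OL (L := L) v) ∣ a := by
  have hint := Valuation.valuationSubring.integers (v.comap (algebraMap L L'))
  apply hint.dvd_of_le
  show v (algebraMap L L' (a : L)) ≤ v (algebraMap L L' u)
  by_cases ha0 : (a : L) = 0
  · rw [ha0, map_zero, map_zero]; exact zero_le
  obtain ⟨n, hn⟩ := hunif a ha0
  have hu0 : 0 < v (algebraMap L L' u) := by
    rw [zero_lt_iff]
    intro h0
    rw [h0] at hn
    have : v (algebraMap L L' (a : L)) ≠ 0 :=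
      (Valuation.ne_zero_iff v).mpr (by simpa using ha0)
    rcases eq_or_ne n 0 with rfl | hn0
    · rw [zpow_zero] at hn; rw [hn] at ha; exact lt_irrefl _ ha
    · rw [zero_zpow n hn0] at hn; exact this hn
  rw [hn] at ha ⊢
  have h1 : (1 : ℤ) ≤ n := by
    by_contra hcon
    have hn0 : n ≤ 0 := by omega
    have : v (algebraMap L L' u) ^ (0 : ℤ) ≤ v (algebraMap L L' u) ^ n :=
      zpow_le_zpow_right_of_le_one₀ hu0 hu1.le hn0
    rw [zpow_zero] at this
    exact absurd ha (not_lt.mpr this)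
  have := zpow_le_zpow_right_of_le_one₀ hu0 hu1.le h1
  simpa using this

/-- A polynomial with zero reduction is divisible by the uniformiser. -/
theorem C_dvd_of_map_eq_zero (u : L) (hu1 : v (algebraMap L L' u) < 1)
    (hunif : ∀ a : L, a ≠ 0 → ∃ n : ℤ, v (algebraMap L L' a) = v (algebraMap L L' u) ^ n)
    (P : (OL (L := L) v)[X]) (hP : P.map (IsLocalRing.residue (OL (L := L) v)) = 0) :
    C (⟨u, hu1.le⟩ : OL (L := L) v) ∣ P := by
  rw [Polynomial.C_dvd_iff_dvd_coeff]
  intro i
  apply dvd_of_lt_one v u hu1 hunif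
  rw [← residue_OL_eq_zero_iff]
  have := congrArg (fun p => p.coeff i) hP
  simpa using this


/-- `ev` as a ring homomorphism. -/
noncomputable def evHom (z₀ : OL' v) : (OL (L := L) v)[X] →+* L' :=
  (OL' v).subtype.comp (Polynomial.eval₂RingHom (incl (L := L) v) z₀)

theorem ev_eq (z₀ : OL' v) (Q : (OL (L := L) v)[X]) : ev v z₀ Q = evHom v z₀ Q := rfl

/-- Key step: there is a `v`-unit `c` such that every integral polynomial expression in `z` of
value `< 1`, multiplied by `c`, is `u` times an integral polynomial expression in `z`. -/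
theorem kummer_step (u ω : L) (hu1 : v (algebraMap L L' u) < 1)
    (hunif : ∀ a : L, a ≠ 0 → ∃ n : ℤ, v (algebraMap L L' a) = v (algebraMap L L' u) ^ n)
    (z₀ : OL' v) (k : ℕ) (hz : (z₀ : L') ^ k = algebraMap L L' ω)
    (hω : v (algebraMap L L' ω) = 1) (hkv : v (k : L') = 1) :
    ∃ c : L', v c = 1 ∧ ∀ Q : (OL (L := L) v)[X], v (ev v z₀ Q) < 1 →
      ∃ Y : (OL (L := L) v)[X], ev v z₀ Q * c = algebraMap L L' u * ev v z₀ Y := by
  classical
  set O := OL (L := L) v with hO
  set res := IsLocalRing.residue O with hres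
  set ρ := IsLocalRing.ResidueField.map (incl (L := L) v) with hρ
  set zb := IsLocalRing.residue (OL' v) z₀ with hzb
  let ω₀ : O := ⟨ω, hω.le⟩
  let u₀ : O := ⟨u, hu1.le⟩
  have hωb : res ω₀ ≠ 0 := by
    rw [Ne, residue_OL_eq_zero_iff]
    show ¬ v (algebraMap L L' ω) < 1
    rw [hω]; exact lt_irrefl _
  have hkb : ((k : ℕ) : IsLocalRing.ResidueField O) ≠ 0 := by
    have : ((k : ℕ) : IsLocalRing.ResidueField O) = res (k : O) := by simp
    rw [this, Ne, residue_OL_eq_zero_iff]
    have h2 : algebraMap L L' (((k : O) : L)) = (k : L') := by simp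
    rw [h2, hkv]; exact lt_irrefl _
  have hsep : (X ^ k - C (res ω₀) : (IsLocalRing.ResidueField O)[X]).Separable :=
    separable_X_pow_sub_C (res ω₀) hkb hωb
  let evρ : (IsLocalRing.ResidueField O)[X] →+* IsLocalRing.ResidueField (OL' v) :=
    Polynomial.eval₂RingHom ρ zb
  have hres_ev : ∀ Q : O[X], IsLocalRing.residue (OL' v) (ev' v z₀ Q) = evρ (Q.map res) :=
    fun Q => residue_ev' v z₀ Q
  let I : Ideal (IsLocalRing.ResidueField O)[X] := RingHom.ker evρ
  let h := Submodule.IsPrincipal.generator I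
  have hhI : h ∈ I := Submodule.IsPrincipal.generator_mem I
  have hg₀ : ev' v z₀ (X ^ k - C ω₀ : O[X]) = 0 := by
    apply Subtype.ext
    simp only [ev', eval₂_sub, eval₂_pow, eval₂_X, eval₂_C]
    show (z₀ : L') ^ k - algebraMap L L' ω = 0
    rw [hz, sub_self]
  have hgI : (X ^ k - C (res ω₀) : (IsLocalRing.ResidueField O)[X]) ∈ I := by
    rw [RingHom.mem_ker]
    have := hres_ev (X ^ k - C ω₀)
    rw [hg₀, map_zero] at this
    rw [this]
    simp
  obtain ⟨h₂, hh₂⟩ := (Submodule.IsPrincipal.mem_iff_generator_dvd I).mp hgI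
  rw [hh₂] at hsep
  obtain ⟨a, b, hab⟩ := hsep.isCoprime
  have hsurj := Polynomial.map_surjective res IsLocalRing.residue_surjective
  obtain ⟨H, hH⟩ := hsurj h
  obtain ⟨H₂, hH₂⟩ := hsurj h₂
  obtain ⟨B, hB⟩ := hsurj b
  have hevh : evρ h = 0 := hhI
  refine ⟨ev v z₀ (B * H₂), ?_, ?_⟩
  · -- `c` is a unit
    have h1 : IsLocalRing.residue (OL' v) (ev' v z₀ (B * H₂)) = 1 := by
      rw [hres_ev, Polynomial.map_mul, hB, hH₂]
      have : b * h₂ = 1 - a * h := by rw [← hab]; ring
      rw [this, map_sub, map_one, map_mul, hevh, mul_zero, sub_zero]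
    have h2 : ¬ v (ev v z₀ (B * H₂)) < 1 := by
      rw [ev, ← residue_OL'_eq_zero_iff, h1]
      exact one_ne_zero
    exact le_antisymm (ev_le_one v z₀ _) (not_lt.mp h2)
  · intro Q hQ
    have hQ0 : evρ (Q.map res) = 0 := by
      rw [← hres_ev, residue_OL'_eq_zero_iff]
      exact hQ
    have hQI : Q.map res ∈ I := hQ0
    obtain ⟨q₁, hq₁⟩ := (Submodule.IsPrincipal.mem_iff_generator_dvd I).mp hQI
    obtain ⟨Q₁, hQ₁⟩ := hsurj q₁
    have hP₁ : (Q - H * Q₁).map res = 0 := by
      rw [Polynomial.map_sub, Polynomial.map_mul, hH, hQ₁, hq₁, sub_self]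
    have hP₂ : (H * H₂ - (X ^ k - C ω₀)).map res = 0 := by
      rw [Polynomial.map_sub, Polynomial.map_mul, hH, hH₂, Polynomial.map_sub,
        Polynomial.map_pow, Polynomial.map_X, Polynomial.map_C, ← hh₂, sub_self]
    obtain ⟨P₁, hP₁'⟩ := C_dvd_of_map_eq_zero v u hu1 hunif _ hP₁
    obtain ⟨P₂, hP₂'⟩ := C_dvd_of_map_eq_zero v u hu1 hunif _ hP₂
    refine ⟨Q₁ * B * P₂ + P₁ * B * H₂, ?_⟩
    have hpoly : Q * (B * H₂) = Q₁ * B * (X ^ k - C ω₀) +
        C u₀ * (Q₁ * B * P₂ + P₁ * B * H₂) := by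
      have e1 : Q = H * Q₁ + C u₀ * P₁ := by rw [← hP₁']; ring
      have e2 : H * H₂ = (X ^ k - C ω₀) + C u₀ * P₂ := by rw [← hP₂']; ring
      calc Q * (B * H₂) = (H * Q₁ + C u₀ * P₁) * (B * H₂) := by rw [← e1]
        _ = Q₁ * B * (H * H₂) + C u₀ * (P₁ * B * H₂) := by ring
        _ = Q₁ * B * ((X ^ k - C ω₀) + C u₀ * P₂) + C u₀ * (P₁ * B * H₂) := by rw [e2]
        _ = _ := by ring
    have hg₀' : ev v z₀ (X ^ k - C ω₀ : O[X]) = 0 := by
      rw [ev, hg₀]; rfl
    rw [← ev_mul, hpoly, ev_add, ev_mul, hg₀', mul_zero, zero_add, ev_mul, ev_C]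


/-- Values of integral polynomial expressions in a unit Kummer generator are powers of `v u`. -/
theorem kummer_value_int (u ω : L) (hu0 : u ≠ 0) (hu1 : v (algebraMap L L' u) < 1)
    (hunif : ∀ a : L, a ≠ 0 → ∃ n : ℤ, v (algebraMap L L' a) = v (algebraMap L L' u) ^ n)
    (z₀ : OL' v) (k : ℕ) (hz : (z₀ : L') ^ k = algebraMap L L' ω)
    (hω : v (algebraMap L L' ω) = 1) (hkv : v (k : L') = 1)
    (Q : (OL (L := L) v)[X]) (hQ : ev v z₀ Q ≠ 0) :
    ∃ n : ℤ, v (ev v z₀ Q) = v (algebraMap L L' u) ^ n := by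
  obtain ⟨c, hc, hstep⟩ := kummer_step v u ω hu1 hunif z₀ k hz hω hkv
  have hγ0 : v (algebraMap L L' u) ≠ 0 :=
    (Valuation.ne_zero_iff v).mpr (by simpa using hu0)
  have key : ∀ N : ℕ, ∀ Q : (OL (L := L) v)[X], ev v z₀ Q ≠ 0 →
      v (algebraMap L L' u) ^ N < v (ev v z₀ Q) →
      ∃ n : ℤ, v (ev v z₀ Q) = v (algebraMap L L' u) ^ n := by
    intro N
    induction N with
    | zero =>
      intro Q _ hlt
      rw [pow_zero] at hlt
      exact absurd (ev_le_one v z₀ Q) (not_le.mpr hlt)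
    | succ N ih =>
      intro Q hQ hlt
      rcases (ev_le_one v z₀ Q).lt_or_eq with h1 | h1
      · obtain ⟨Y, hY⟩ := hstep Q h1
        have hval : v (ev v z₀ Q) = v (algebraMap L L' u) * v (ev v z₀ Y) := by
          have := congrArg v hY
          rwa [map_mul, map_mul, hc, mul_one] at this
        have hY0 : ev v z₀ Y ≠ 0 := by
          intro h0
          rw [h0, map_zero, mul_zero] at hval
          exact hQ ((Valuation.zero_iff v).mp hval)
        have hlt' : v (algebraMap L L' u) ^ N < v (ev v z₀ Y) := by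
          rw [hval, pow_succ'] at hlt
          exact lt_of_mul_lt_mul_left' hlt
        obtain ⟨n, hn⟩ := ih Y hY0 hlt'
        refine ⟨n + 1, ?_⟩
        rw [hval, hn, zpow_add₀ hγ0, zpow_one, mul_comm]
      · exact ⟨0, by rw [h1, zpow_zero]⟩
  obtain ⟨N, hN⟩ := exists_pow_lt hγ0 hu1 ((Valuation.ne_zero_iff v).mpr hQ)
  exact key N Q hQ hN

/-- **Unit Kummer extensions are unramified**: if `z^k = ω ∈ L` with `v ω = 1` and `v k = 1`,
and `u` is a uniformiser of `v|_L`, then every nonzero element of `L[z]` has value in `⟨v u⟩`. -/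
theorem unitKummer_value (u ω : L) (hu0 : u ≠ 0) (hu1 : v (algebraMap L L' u) < 1)
    (hunif : ∀ a : L, a ≠ 0 → ∃ n : ℤ, v (algebraMap L L' a) = v (algebraMap L L' u) ^ n)
    (z : L') (k : ℕ) (hz : z ^ k = algebraMap L L' ω)
    (hω : v (algebraMap L L' ω) = 1) (hkv : v (k : L') = 1)
    (Q : L[X]) (hQ : aeval z Q ≠ 0) :
    ∃ n : ℤ, v (aeval z Q) = v (algebraMap L L' u) ^ n := by
  have hk0 : k ≠ 0 := by
    rintro rfl
    simp at hkv
  have hz1 : v z = 1 := by
    have h := congrArg v hz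
    rw [map_pow, hω] at h
    exact (pow_left_inj₀ zero_le zero_le hk0).mp (h.trans (one_pow k).symm)
  let z₀ : OL' v := ⟨z, hz1.le⟩
  have hγ0 : v (algebraMap L L' u) ≠ 0 :=
    (Valuation.ne_zero_iff v).mpr (by simpa using hu0)
  -- every element of `L[z]` is `u^{-j}` times an integral expression
  have hrep : ∀ Q : L[X], ∃ (j : ℕ) (Y : (OL (L := L) v)[X]),
      algebraMap L L' u ^ j * aeval z Q = ev v z₀ Y := by
    intro Q
    induction Q using Polynomial.induction_on' with
    | add p q hp hq =>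
      obtain ⟨j, Y, hY⟩ := hp
      obtain ⟨j', Y', hY'⟩ := hq
      refine ⟨j + j', C (⟨u, hu1.le⟩ : OL (L := L) v) ^ j' * Y +
        C (⟨u, hu1.le⟩ : OL (L := L) v) ^ j * Y', ?_⟩
      rw [map_add, ev_add, ev_mul, ev_mul, ev_pow, ev_pow, ev_C, ← hY, ← hY']
      show algebraMap L L' u ^ (j + j') * _ = algebraMap L L' u ^ j' * _ +
        algebraMap L L' u ^ j * _
      ring
    | monomial n a =>
      by_cases ha : a = 0
      · exact ⟨0, 0, by simp [ha, ev, ev']⟩
      obtain ⟨m, hm⟩ := hunif a ha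
      -- `u^j * a` is integral for `j = (-m).toNat`
      have hint : v (algebraMap L L' (u ^ (-m).toNat * a)) ≤ 1 := by
        rw [map_mul, map_mul, map_pow, map_pow, hm, ← zpow_natCast, ← zpow_add₀ hγ0]
        have h0 : (0 : ℤ) ≤ ((-m).toNat : ℤ) + m := by
          have := Int.self_le_toNat (-m)
          omega
        have := zpow_le_zpow_right_of_le_one₀ (zero_lt_iff.mpr hγ0) hu1.le h0
        simpa using this
      refine ⟨(-m).toNat, C (⟨u ^ (-m).toNat * a, hint⟩ : OL (L := L) v) * X ^ n, ?_⟩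
      rw [ev_mul, ev_C, ev_pow, ev_X, Polynomial.aeval_monomial]
      show _ = algebraMap L L' (u ^ (-m).toNat * a) * z ^ n
      rw [map_mul, map_pow]
      ring
  obtain ⟨j, Y, hY⟩ := hrep Q
  have hY0 : ev v z₀ Y ≠ 0 := by
    rw [← hY]
    exact mul_ne_zero (pow_ne_zero _ (by simpa using hu0)) hQ
  obtain ⟨n, hn⟩ := kummer_value_int v u ω hu0 hu1 hunif z₀ k hz hω hkv Y hY0
  refine ⟨n - j, ?_⟩
  have h := congrArg v hY
  rw [map_mul, map_pow, hn] at h
  rw [zpow_sub₀ hγ0, zpow_natCast, ← h, mul_comm, mul_div_assoc,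
    div_self (pow_ne_zero _ hγ0), mul_one]


/-! ## Abhyankar's lemma -/

/-- **Abhyankar's lemma, valuation form.**  `u ∈ L` a uniformiser of `v|_L`, `τ ∈ L` with
`v τ = (v u)^k`, `s^e = τ` with `k ∣ e`, and `k` a `v`-unit (tameness).  Then every nonzero
element of `L[s]` has value in `⟨v s⟩`: `s` is a uniformiser of `v` on `L[s]`. -/
theorem abhyankar_value (u τ : L) (hu0 : u ≠ 0) (hu1 : v (algebraMap L L' u) < 1)
    (hunif : ∀ a : L, a ≠ 0 → ∃ n : ℤ, v (algebraMap L L' a) = v (algebraMap L L' u) ^ n)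
    (s : L') (e k : ℕ) (hke : k ∣ e) (he : e ≠ 0) (hs : s ^ e = algebraMap L L' τ)
    (hτ : v (algebraMap L L' τ) = v (algebraMap L L' u) ^ k) (hkv : v (k : L') = 1)
    (P : L[X]) (hP : aeval s P ≠ 0) :
    ∃ n : ℤ, v (aeval s P) = v s ^ n := by
  classical
  obtain ⟨m, rfl⟩ := hke
  have hk0 : k ≠ 0 := fun h => he (by rw [h, zero_mul])
  have hm0 : m ≠ 0 := fun h => he (by rw [h, mul_zero])
  have hφu0 : algebraMap L L' u ≠ 0 := by simpa using hu0
  have hγ0 : v (algebraMap L L' u) ≠ 0 := (Valuation.ne_zero_iff v).mpr hφu0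
  set z : L' := s ^ m / algebraMap L L' u with hzdef
  have hzk : z ^ k = algebraMap L L' (τ / u ^ k) := by
    rw [hzdef, div_pow, ← pow_mul, mul_comm m k, hs, map_div₀, map_pow]
  have hω : v (algebraMap L L' (τ / u ^ k)) = 1 := by
    rw [map_div₀, map_div₀, map_pow, map_pow, hτ, div_self (pow_ne_zero _ hγ0)]
  have hz1 : v z = 1 := by
    have h := congrArg v hzk
    rw [map_pow, hω] at h
    exact (pow_left_inj₀ zero_le zero_le hk0).mp (h.trans (one_pow k).symm)
  have hsm : s ^ m = z * algebraMap L L' u := by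
    rw [hzdef, div_mul_cancel₀ _ hφu0]
  have hvs : v s ^ m = v (algebraMap L L' u) := by
    rw [← map_pow, hsm, map_mul, hz1, one_mul]
  have hs0 : s ≠ 0 := by
    rintro rfl
    rw [map_zero, zero_pow hm0] at hvs
    exact hγ0 hvs.symm
  have hs1 : v s ≠ 1 := by
    intro h
    rw [h, one_pow] at hvs
    rw [← hvs] at hu1
    exact lt_irrefl _ hu1
  -- representation of elements of `L[s]`
  have hrep : ∀ P : L[X], ∃ c : ℕ → L[X],
      aeval s P = ∑ i ∈ Finset.range m, aeval z (c i) * s ^ i := by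
    intro P
    induction P using Polynomial.induction_on' with
    | add p q hp hq =>
      obtain ⟨c, hc⟩ := hp
      obtain ⟨c', hc'⟩ := hq
      refine ⟨fun i => c i + c' i, ?_⟩
      rw [map_add, hc, hc', ← Finset.sum_add_distrib]
      refine Finset.sum_congr rfl fun i _ => ?_
      rw [map_add, add_mul]
    | monomial n a =>
      refine ⟨fun i => if i = n % m then C (a * u ^ (n / m)) * X ^ (n / m) else 0, ?_⟩
      have hmem : n % m ∈ Finset.range m := Finset.mem_range.mpr (Nat.mod_lt _ (Nat.pos_of_ne_zero hm0))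
      rw [Finset.sum_eq_single_of_mem (n % m) hmem]
      · simp only [if_true, map_mul, aeval_C, map_pow, aeval_X, Polynomial.aeval_monomial]
        have h1 : algebraMap L L' u ^ (n / m) * z ^ (n / m) = (s ^ m) ^ (n / m) := by
          rw [hsm, mul_pow, mul_comm]
        have h2 : s ^ n = (s ^ m) ^ (n / m) * s ^ (n % m) := by
          rw [← pow_mul, ← pow_add, Nat.div_add_mod]
        rw [h2, ← h1]
        ring
      · intro i _ hi
        simp [hi]
  obtain ⟨c, hc⟩ := hrep P
  rw [hc] at hP ⊢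
  refine val_sum_pow_mem v s hs0 hs1 m (fun i => aeval z (c i)) ?_ hP
  intro i _ hci
  obtain ⟨n, hn⟩ := unitKummer_value v u (τ / u ^ k) hu0 hu1 hunif z k hzk hω hkv (c i) hci
  refine ⟨n, ?_⟩
  rw [hn, ← hvs, ← zpow_natCast, ← zpow_mul]

/-- `abhyankar_value` for all elements of `L'` when `L' = L[s]`. -/
theorem abhyankar_value_of_adjoin (u τ : L) (hu0 : u ≠ 0) (hu1 : v (algebraMap L L' u) < 1)
    (hunif : ∀ a : L, a ≠ 0 → ∃ n : ℤ, v (algebraMap L L' a) = v (algebraMap L L' u) ^ n)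
    (s : L') (e k : ℕ) (hke : k ∣ e) (he : e ≠ 0) (hs : s ^ e = algebraMap L L' τ)
    (hτ : v (algebraMap L L' τ) = v (algebraMap L L' u) ^ k) (hkv : v (k : L') = 1)
    (hgen : Algebra.adjoin L {s} = ⊤) (x : L') (hx : x ≠ 0) :
    ∃ n : ℤ, v x = v s ^ n := by
  have hx' : x ∈ Algebra.adjoin L {s} := by rw [hgen]; exact Algebra.mem_top
  rw [Algebra.adjoin_singleton_eq_range_aeval] at hx'
  obtain ⟨P, rfl⟩ := hx'
  exact abhyankar_value v u τ hu0 hu1 hunif s e k hke he hs hτ hkv P hx

/-- `abhyankar_value` for all elements of `L'` when `L' = L(s)`. -/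
theorem abhyankar_value_of_adjoin_field (u τ : L) (hu0 : u ≠ 0)
    (hu1 : v (algebraMap L L' u) < 1)
    (hunif : ∀ a : L, a ≠ 0 → ∃ n : ℤ, v (algebraMap L L' a) = v (algebraMap L L' u) ^ n)
    (s : L') (e k : ℕ) (hke : k ∣ e) (he : e ≠ 0) (hs : s ^ e = algebraMap L L' τ)
    (hτ : v (algebraMap L L' τ) = v (algebraMap L L' u) ^ k) (hkv : v (k : L') = 1)
    (hgen : IntermediateField.adjoin L {s} = ⊤) (x : L') (hx : x ≠ 0) :
    ∃ n : ℤ, v x = v s ^ n := by
  have hint : IsIntegral L s := by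
    refine ⟨X ^ e - C τ, monic_X_pow_sub_C τ he, ?_⟩
    simp [hs]
  have h1 : Algebra.adjoin L {s} = ⊤ := by
    have := IntermediateField.adjoin_simple_toSubalgebra_of_isAlgebraic hint.isAlgebraic
    rw [← this, hgen]
    rfl
  exact abhyankar_value_of_adjoin v u τ hu0 hu1 hunif s e k hke he hs hτ hkv h1 x hx

/-- Normalised form: if moreover `v` takes the value `exp (-1)`, then `v s = exp (-1)`. -/
theorem abhyankar_uniformizer (u τ : L) (hu0 : u ≠ 0) (hu1 : v (algebraMap L L' u) < 1)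
    (hunif : ∀ a : L, a ≠ 0 → ∃ n : ℤ, v (algebraMap L L' a) = v (algebraMap L L' u) ^ n)
    (s : L') (e k : ℕ) (hke : k ∣ e) (he : e ≠ 0) (hs : s ^ e = algebraMap L L' τ)
    (hτ : v (algebraMap L L' τ) = v (algebraMap L L' u) ^ k) (hkv : v (k : L') = 1)
    (hk0 : k ≠ 0)
    (hgen : IntermediateField.adjoin L {s} = ⊤) (ϖ : L') (hϖ : v ϖ = exp (-1 : ℤ)) :
    v s = exp (-1 : ℤ) := by
  have hϖ0 : ϖ ≠ 0 := by
    rintro rfl
    rw [map_zero] at hϖ
    exact exp_ne_zero hϖ.symm
  obtain ⟨n, hn⟩ := abhyankar_value_of_adjoin_field v u τ hu0 hu1 hunif s e k hke he hs hτ hkv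
    hgen ϖ hϖ0
  have hs0 : v s ≠ 0 := by
    intro h0
    rw [hϖ, h0] at hn
    rcases eq_or_ne n 0 with rfl | hn0
    · rw [zpow_zero] at hn
      have : (-1 : ℤ) = 0 := exp_injective (hn.trans exp_zero.symm)
      omega
    · rw [zero_zpow n hn0] at hn
      exact exp_ne_zero hn
  obtain ⟨α, hα⟩ : ∃ α : ℤ, v s = exp α := ⟨log (v s), (exp_log hs0).symm⟩
  -- `v s < 1`
  have hlt : v s < 1 := by
    have hse : v s ^ e = v (algebraMap L L' u) ^ k := by rw [← map_pow, hs, hτ]
    have hu_lt : v (algebraMap L L' u) ^ k < 1 := pow_lt_one₀ zero_le hu1 hk0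
    rw [← hse] at hu_lt
    by_contra hcon
    have : 1 ≤ v s ^ e := one_le_pow₀ (not_lt.mp hcon)
    exact absurd hu_lt (not_lt.mpr this)
  rw [hα] at hn hlt ⊢
  rw [hϖ, ← exp_zsmul, exp_inj] at hn
  have hα0 : α < 0 := by
    have : exp α < exp (0 : ℤ) := by rw [exp_zero]; exact hlt
    exact exp_lt_exp.mp this
  have : α = -1 := by
    have h1 : n * α = -1 := by rw [← smul_eq_mul]; exact hn.symm
    have h2 : α ∣ -1 := ⟨n, by rw [mul_comm]; exact h1.symm⟩
    have h3 : α ∣ 1 := (Int.dvd_neg).mp h2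
    rcases Int.isUnit_iff.mp (isUnit_of_dvd_one h3) with h | h <;> omega
  rw [this]

end Kummer

end Fermat.Agent.INJ.Abh


end ZBINJ_009_0

/-! ### bundled: `Fermat.Agent.INJ.AbhyankarPlace` -/
section ZBINJ_009_1

/-!
# INJ piece A4a (Place form) — Abhyankar's lemma for the prelude's places

`E` a field of characteristic `0`, `L/E` and `L'/L` field extensions, `L' = L(s)` with
`s ^ e = τ ∈ L`.

* `Fermat.Agent.INJ.AbhP.exists_place_restrict` (Br0): a place of `L'/E` restricts to a place of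
  `L/E` (with a ramification index `ε > 0`) as soon as `L'/L` is algebraic.
* `Fermat.Agent.INJ.AbhP.place_ord_root_eq_one` (Br1, Abhyankar): if `ord_P τ ∣ e` for every place
  `P` of `L` with `ord_P τ > 0`, then `ord_{P'} s = 1` at every place `P'` of `L'` with
  `ord_{P'} s > 0`.
* `Fermat.Agent.INJ.AbhP.exists_place_restrict_unramified` (Br2): at a place `P'` with
  `ord_{P'} s = 0` the restriction `P` to `L` satisfies `ord_{P'} = ord_P` on `L`.
-/

set_option autoImplicit false

open AlgebraicCurve WithZero Polynomial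

namespace Fermat.Agent.INJ.AbhP

open Fermat.Agent.S24 Fermat.Agent.INJ.Abh

variable {E L L' : Type*} [Field E] [Field L] [Field L'] [Algebra E L] [Algebra E L']
  [Algebra L L'] [IsScalarTower E L L']

theorem adic_eq_exp (P' : Place E L') {x : L'} (hx : x ≠ 0) :
    P'.adicValuation x = exp (-(P'.ord x)) :=
  PlaceAux.adicValuation_eq_exp_neg_ord P' hx

/-- Constants are units at every place. -/
theorem adic_const (P' : Place E L') {a : E} (ha : a ≠ 0) :
    P'.adicValuation (algebraMap E L' a) = 1 := by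
  have h1 : P'.adicValuation (algebraMap E L' a) ≤ 1 :=
    (PlaceAux.mem_iff_adicValuation_le_one P' _).mp (P'.algebraMap_mem' a)
  have h2 : P'.adicValuation (algebraMap E L' a⁻¹) ≤ 1 :=
    (PlaceAux.mem_iff_adicValuation_le_one P' _).mp (P'.algebraMap_mem' a⁻¹)
  rw [map_inv₀, map_inv₀] at h2
  have h0 : P'.adicValuation (algebraMap E L' a) ≠ 0 :=
    P'.adicValuation_ne_zero (by simpa using ha)
  have h3 : 1 ≤ P'.adicValuation (algebraMap E L' a) := by
    rwa [inv_le_one₀ (zero_lt_iff.mpr h0)] at h2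
  exact le_antisymm h1 h3

/-- There is an element of order `1` at every place. -/
theorem exists_ord_eq_one (P' : Place E L') : ∃ ϖ : L', ϖ ≠ 0 ∧ P'.ord ϖ = 1 := by
  obtain ⟨π, hπ⟩ := IsDiscreteValuationRing.exists_irreducible P'.toValuationSubring
  refine ⟨(π : L'), ?_, P'.ord_coe_irreducible hπ⟩
  simpa [ne_eq, ZeroMemClass.coe_eq_zero] using hπ.ne_zero

/-- (Br0) Restriction of a place along an algebraic extension. -/
theorem exists_place_restrict [Algebra.IsAlgebraic L L'] (P' : Place E L') :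
    ∃ (P : Place E L) (ε : ℤ), 0 < ε ∧
      ∀ y : L, y ≠ 0 → P'.ord (algebraMap L L' y) = ε * P.ord y := by
  classical
  set v : Valuation L ℤᵐ⁰ := P'.adicValuation.comap (algebraMap L L') with hv
  have hK : ∀ a : E, v (algebraMap E L a) ≤ 1 := by
    intro a
    show P'.adicValuation (algebraMap L L' (algebraMap E L a)) ≤ 1
    rw [← IsScalarTower.algebraMap_apply]
    exact (PlaceAux.mem_iff_adicValuation_le_one P' _).mp (P'.algebraMap_mem' a)
  -- nontriviality: a uniformiser of `P'` is algebraic over `L`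
  have hx : ∃ x : L, x ≠ 0 ∧ v x < 1 := by
    by_contra hcon
    push Not at hcon
    have htriv : ∀ x : L, x ≠ 0 → P'.adicValuation (algebraMap L L' x) = 1 := by
      intro x hx0
      have h1 : 1 ≤ v x := hcon x hx0
      have h2 : 1 ≤ v x⁻¹ := hcon x⁻¹ (inv_ne_zero hx0)
      rw [map_inv₀] at h2
      have h0 : v x ≠ 0 := (Valuation.ne_zero_iff v).mpr hx0
      have h3 : v x ≤ 1 := by
        rwa [one_le_inv₀ (zero_lt_iff.mpr h0)] at h2
      exact le_antisymm h3 h1
    obtain ⟨ϖ, hϖ0, hϖ⟩ := exists_ord_eq_one P'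
    have hvϖ : P'.adicValuation ϖ = exp (-1 : ℤ) := by rw [adic_eq_exp P' hϖ0, hϖ]
    have halg : IsAlgebraic L ϖ := Algebra.IsAlgebraic.isAlgebraic ϖ
    have hint : IsIntegral L ϖ := halg.isIntegral
    set g := minpoly L ϖ with hg
    have hg0 : g.coeff 0 ≠ 0 := minpoly.coeff_zero_ne_zero hint hϖ0
    have hsum : ∑ i ∈ Finset.range (g.natDegree + 1), algebraMap L L' (g.coeff i) * ϖ ^ i = 0 := by
      have := minpoly.aeval L ϖ
      rw [Polynomial.aeval_eq_sum_range] at this
      simpa [Algebra.smul_def] using this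
    have hdist : ∀ i ∈ Finset.range (g.natDegree + 1), ∀ j ∈ Finset.range (g.natDegree + 1),
        algebraMap L L' (g.coeff i) * ϖ ^ i ≠ 0 → algebraMap L L' (g.coeff j) * ϖ ^ j ≠ 0 →
        P'.adicValuation (algebraMap L L' (g.coeff i) * ϖ ^ i) =
          P'.adicValuation (algebraMap L L' (g.coeff j) * ϖ ^ j) → i = j := by
      intro i _ j _ hi hj hij
      have hci : g.coeff i ≠ 0 := by
        intro h; apply hi; rw [h, map_zero, zero_mul]
      have hcj : g.coeff j ≠ 0 := by
        intro h; apply hj; rw [h, map_zero, zero_mul]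
      rw [map_mul, map_mul, htriv _ hci, htriv _ hcj, one_mul, one_mul, map_pow, map_pow, hvϖ,
        ← exp_nsmul, ← exp_nsmul, exp_inj] at hij
      simp only [nsmul_eq_mul] at hij
      have : (i : ℤ) = j := by linarith
      exact_mod_cast this
    rcases val_sum_distinct P'.adicValuation _ _ hdist with ⟨_, hall⟩ | ⟨j, _, hj0, hjv⟩
    · have := hall 0 (Finset.mem_range.mpr (Nat.succ_pos _))
      rw [pow_zero, mul_one] at this
      exact hg0 (by simpa using this)
    · rw [hsum, map_zero] at hjv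
      exact hj0 ((Valuation.zero_iff _).mp hjv.symm)
  obtain ⟨P, e₀, he₀, _, hord⟩ := exists_place_of_valuation (K := E) v hK hx
  refine ⟨P, e₀, he₀, fun y hy => ?_⟩
  have := hord y hy
  rw [← this]
  rfl


/-- `L' = L(s)` with `s` a root of `X^e - τ` is algebraic over `L`. -/
theorem isAlgebraic_of_adjoin_root (τ : L) (s : L') (e : ℕ) (he : e ≠ 0)
    (hs : s ^ e = algebraMap L L' τ) (hgen : IntermediateField.adjoin L {s} = ⊤) :
    Algebra.IsAlgebraic L L' ∧ Algebra.adjoin L {s} = ⊤ := by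
  have hint : IsIntegral L s := by
    refine ⟨X ^ e - C τ, monic_X_pow_sub_C τ he, ?_⟩
    simp [hs]
  have h1 : Algebra.adjoin L {s} = ⊤ := by
    have := IntermediateField.adjoin_simple_toSubalgebra_of_isAlgebraic hint.isAlgebraic
    rw [← this, hgen]
    rfl
  refine ⟨⟨fun x => ?_⟩, h1⟩
  have hx : x ∈ Algebra.adjoin L {s} := by rw [h1]; exact Algebra.mem_top
  have : IsIntegral L x := by
    refine IsIntegral.of_mem_of_fg (Algebra.adjoin L {s}) ?_ x hx
    exact hint.fg_adjoin_singleton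
  exact this.isAlgebraic

/-- (Br1) **Abhyankar's lemma for places.**  `L' = L(s)`, `s ^ e = τ`, and `ord_P τ ∣ e` at every
place `P` of `L/E` with `ord_P τ > 0` (`E` of characteristic `0`).  Then `ord_{P'} s = 1` at
every place `P'` of `L'/E` with `ord_{P'} s > 0`. -/
theorem place_ord_root_eq_one [CharZero E] (τ : L) (s : L') (e : ℕ) (he : e ≠ 0)
    (hs : s ^ e = algebraMap L L' τ) (hgen : IntermediateField.adjoin L {s} = ⊤)
    (hdvd : ∀ P : Place E L, 0 < P.ord τ → P.ord τ ∣ (e : ℤ))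
    (P' : Place E L') (hP' : 0 < P'.ord s) : P'.ord s = 1 := by
  classical
  have : Algebra.IsAlgebraic L L' := (isAlgebraic_of_adjoin_root τ s e he hs hgen).1
  obtain ⟨P, ε, hε, hres⟩ := exists_place_restrict (E := E) (L := L) P'
  have hs0 : s ≠ 0 := by
    rintro rfl
    simp at hP'
  have hτ0 : τ ≠ 0 := by
    rintro rfl
    rw [map_zero] at hs
    exact hs0 (pow_eq_zero_iff he |>.mp hs)
  have hφ : ∀ y : L, y ≠ 0 → algebraMap L L' y ≠ 0 := fun y hy => by simpa using hy
  -- `ord_{P'} τ = e * ord_{P'} s = ε * ord_P τ`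
  have hordτ : (e : ℤ) * P'.ord s = ε * P.ord τ := by
    rw [← hres τ hτ0, ← hs, ← zpow_natCast, P'.ord_zpow]
  have hkpos : 0 < P.ord τ := by
    have h1 : 0 < (e : ℤ) * P'.ord s := mul_pos (by exact_mod_cast Nat.pos_of_ne_zero he) hP'
    rw [hordτ] at h1
    exact (mul_pos_iff_of_pos_left hε).mp h1
  obtain ⟨k, hk⟩ : ∃ k : ℕ, P.ord τ = k := ⟨(P.ord τ).toNat, (Int.toNat_of_nonneg hkpos.le).symm⟩
  have hk0 : k ≠ 0 := by
    rintro rfl
    rw [hk] at hkpos
    simp at hkpos
  have hke : k ∣ e := by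
    have := hdvd P hkpos
    rw [hk] at this
    exact_mod_cast this
  obtain ⟨u, hu0, hu⟩ := exists_ord_eq_one P
  obtain ⟨ϖ, hϖ0, hϖ⟩ := exists_ord_eq_one P'
  set v := P'.adicValuation with hv
  have hvL : ∀ y : L, y ≠ 0 → v (algebraMap L L' y) = exp (-(ε * P.ord y)) := by
    intro y hy
    rw [hv, adic_eq_exp P' (hφ y hy), hres y hy]
  have hvu : v (algebraMap L L' u) = exp (-ε) := by rw [hvL u hu0, hu, mul_one]
  have hu1 : v (algebraMap L L' u) < 1 := by
    rw [hvu, ← exp_zero, exp_lt_exp]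
    omega
  have hunif : ∀ a : L, a ≠ 0 → ∃ n : ℤ, v (algebraMap L L' a) = v (algebraMap L L' u) ^ n := by
    intro a ha
    refine ⟨P.ord a, ?_⟩
    rw [hvL a ha, hvu, ← exp_zsmul, smul_eq_mul]
    congr 1
    ring
  have hτv : v (algebraMap L L' τ) = v (algebraMap L L' u) ^ k := by
    rw [hvL τ hτ0, hvu, hk, ← exp_nsmul, nsmul_eq_mul]
    congr 1
    ring
  have hkv : v (k : L') = 1 := by
    have h1 : (k : L') = algebraMap E L' (k : E) := by simp
    rw [h1]
    exact adic_const P' (by exact_mod_cast hk0)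
  have hvϖ : v ϖ = exp (-1 : ℤ) := by rw [hv, adic_eq_exp P' hϖ0, hϖ]
  have hfin := abhyankar_uniformizer v u τ hu0 hu1 hunif s e k hke he hs hτv hkv hk0 hgen ϖ hvϖ
  rw [hv, adic_eq_exp P' hs0, exp_inj] at hfin
  omega

/-- (Br2) **Unramified base change.**  `L' = L(s)`, `s ^ e = τ ≠ 0` (`E` of characteristic `0`).
At a place `P'` of `L'/E` with `ord_{P'} s = 0` the restriction `P` of `P'` to `L` is unramified
in `L'`: `ord_{P'} y = ord_P y` for all `y ∈ L`. -/
theorem exists_place_restrict_unramified [CharZero E] (τ : L) (s : L') (e : ℕ) (he : e ≠ 0)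
    (hs : s ^ e = algebraMap L L' τ) (hs0 : s ≠ 0)
    (hgen : IntermediateField.adjoin L {s} = ⊤)
    (P' : Place E L') (hP' : P'.ord s = 0) :
    ∃ P : Place E L, ∀ y : L, P'.ord (algebraMap L L' y) = P.ord y := by
  classical
  obtain ⟨halg, hadj⟩ := isAlgebraic_of_adjoin_root τ s e he hs hgen
  obtain ⟨P, ε, hε, hres⟩ := exists_place_restrict (E := E) (L := L) P'
  have hτ0 : τ ≠ 0 := by
    rintro rfl
    rw [map_zero] at hs
    exact hs0 (pow_eq_zero_iff he |>.mp hs)
  have hφ : ∀ y : L, y ≠ 0 → algebraMap L L' y ≠ 0 := fun y hy => by simpa using hy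
  obtain ⟨u, hu0, hu⟩ := exists_ord_eq_one P
  obtain ⟨ϖ, hϖ0, hϖ⟩ := exists_ord_eq_one P'
  set v := P'.adicValuation with hv
  have hvL : ∀ y : L, y ≠ 0 → v (algebraMap L L' y) = exp (-(ε * P.ord y)) := by
    intro y hy
    rw [hv, adic_eq_exp P' (hφ y hy), hres y hy]
  have hvu : v (algebraMap L L' u) = exp (-ε) := by rw [hvL u hu0, hu, mul_one]
  have hu1 : v (algebraMap L L' u) < 1 := by
    rw [hvu, ← exp_zero, exp_lt_exp]
    omega
  have hunif : ∀ a : L, a ≠ 0 → ∃ n : ℤ, v (algebraMap L L' a) = v (algebraMap L L' u) ^ n := by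
    intro a ha
    refine ⟨P.ord a, ?_⟩
    rw [hvL a ha, hvu, ← exp_zsmul, smul_eq_mul]
    congr 1
    ring
  have hvs : v s = 1 := by rw [hv, adic_eq_exp P' hs0, hP', neg_zero, exp_zero]
  have hω : v (algebraMap L L' τ) = 1 := by rw [← hs, map_pow, hvs, one_pow]
  have hkv : v (e : L') = 1 := by
    have h1 : (e : L') = algebraMap E L' (e : E) := by simp
    rw [h1]
    exact adic_const P' (by exact_mod_cast he)
  have hvϖ : v ϖ = exp (-1 : ℤ) := by rw [hv, adic_eq_exp P' hϖ0, hϖ]
  -- `ϖ` is a polynomial in `s`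
  have hϖmem : ϖ ∈ Algebra.adjoin L {s} := by rw [hadj]; exact Algebra.mem_top
  rw [Algebra.adjoin_singleton_eq_range_aeval] at hϖmem
  obtain ⟨Q, hQ⟩ := hϖmem
  have hQ' : aeval s Q = ϖ := hQ
  obtain ⟨n, hn⟩ := unitKummer_value v u τ hu0 hu1 hunif s e hs hω hkv Q (hQ' ▸ hϖ0)
  rw [hQ', hvϖ, hvu, ← exp_zsmul, exp_inj, smul_eq_mul] at hn
  have hε1 : ε = 1 := by
    have h1 : ε ∣ 1 := ⟨n, by rw [mul_comm]; linear_combination -hn⟩
    exact Int.eq_one_of_dvd_one hε.le h1
  refine ⟨P, fun y => ?_⟩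
  rcases eq_or_ne y 0 with rfl | hy
  · simp
  · rw [hres y hy, hε1, one_mul]


/-- **Hypothesis (b) of Part A passes from `(L, t)` to `(L(s), s)`, `s ^ e = t - c₀`.**
If `L/E(t)` is unramified at the places where `t` is finite and no `t - c` (`c ∈ Σ`) vanishes,
and the ramification indices over `t = c₀` divide `e`, then `L(s)/E(s)` is unramified at the
places where `s` is finite and no `t - c` (`c ∈ Σ`, `c ≠ c₀`) vanishes — in particular over
`s = 0`. -/
theorem unramified_base_change [CharZero E] (t : L) (c₀ : E) (S : Finset E)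
    (s : L') (e : ℕ) (he : e ≠ 0) (hs0 : s ≠ 0)
    (hs : s ^ e = algebraMap L L' (t - algebraMap E L c₀))
    (hgen : IntermediateField.adjoin L {s} = ⊤)
    (hb : ∀ P : Place E L, 0 ≤ P.ord t → (∀ c ∈ S, P.ord (t - algebraMap E L c) = 0) →
      ∃ g : E[X], P.ord (aeval t g) = 1)
    (hram : ∀ P : Place E L, 0 < P.ord (t - algebraMap E L c₀) →
      P.ord (t - algebraMap E L c₀) ∣ (e : ℤ))
    (P' : Place E L') (hP' : 0 ≤ P'.ord s)
    (hS : ∀ c ∈ S, c ≠ c₀ → P'.ord (s ^ e - algebraMap E L' (c - c₀)) = 0) :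
    ∃ g' : E[X], P'.ord (aeval s g') = 1 := by
  classical
  rcases hP'.lt_or_eq with hpos | hzero
  · exact ⟨X, by rw [aeval_X]; exact place_ord_root_eq_one _ s e he hs hgen hram P' hpos⟩
  · obtain ⟨P, hP⟩ := exists_place_restrict_unramified (E := E) _ s e he hs hs0 hgen P' hzero.symm
    have hφt : algebraMap L L' t = s ^ e + algebraMap E L' c₀ := by
      rw [hs, map_sub, ← IsScalarTower.algebraMap_apply]
      ring
    have hsmem : s ∈ P'.toValuationSubring := PlaceAux.mem_of_ord_nonneg P' hP'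
    have ht : 0 ≤ P.ord t := by
      rw [← hP]
      rcases eq_or_ne (algebraMap L L' t) 0 with h0 | h0
      · rw [h0]; simp
      · rw [PlaceAux.ord_nonneg_iff P' h0, hφt]
        exact add_mem (pow_mem hsmem e) (P'.algebraMap_mem' c₀)
    have hall : ∀ c ∈ S, P.ord (t - algebraMap E L c) = 0 := by
      intro c hc
      rw [← hP]
      by_cases hcc : c = c₀
      · rw [hcc, ← hs, ← zpow_natCast, P'.ord_zpow, ← hzero, mul_zero]
      · have := hS c hc hcc
        rw [map_sub, ← IsScalarTower.algebraMap_apply, hφt]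
        rw [map_sub] at this
        rw [← this]
        congr 1
        ring
    obtain ⟨g, hg⟩ := hb P ht hall
    refine ⟨g.comp (X ^ e + C c₀), ?_⟩
    rw [← hg, ← hP]
    congr 1
    rw [Polynomial.aeval_comp, map_add, map_pow, aeval_X, aeval_C,
      ← hφt, ← Polynomial.aeval_algebraMap_apply]

end Fermat.Agent.INJ.AbhP


end ZBINJ_009_1

/-! ### bundled: `Fermat.Agent.INJ.KummerUnram` -/
section ZBINJ_009_2

/-!
# INJ piece B2-kum — Kummer extensions by a `p`-th root of an element with divisor in `p·Div`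
are unramified everywhere

`E` a field of characteristic `0`, `L/E` a field extension, `L' = L(h)` with `h ^ p = u ∈ L`,
`u ≠ 0`.  If `p ∣ ord_P u` at the places `P` of `L/E`, then every place `P'` of `L'/E` restricts
to a place `P` of `L/E` which is unramified in `L'`: `ord_{P'} y = ord_P y` for all `y ∈ L`.

* `Fermat.Agent.INJ.KumU.exists_place_restrict_kummer` : the statement for one place `P'`, with
  the divisibility hypothesis for all places of `L`.
* `Fermat.Agent.INJ.KumU.exists_place_restrict_kummer'` : the same with the divisibility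
  hypothesis only at the restriction of `P'` (stated through any pair `(P, ε)` as produced by
  `AbhP.exists_place_restrict`).
* `Fermat.Agent.INJ.KumU.ord_root` : `p * ord_{P'} h = ord_P u`.
-/

set_option autoImplicit false

open AlgebraicCurve WithZero Polynomial

namespace Fermat.Agent.INJ.KumU

open Fermat.Agent.S24 Fermat.Agent.INJ.Abh Fermat.Agent.INJ.AbhP

variable {E L L' : Type*} [Field E] [Field L] [Field L'] [Algebra E L] [Algebra E L']
  [Algebra L L'] [IsScalarTower E L L']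

/-- `adjoin L {h * c} = adjoin L {h}` for a nonzero `c ∈ L`. -/
theorem adjoin_mul_base (h : L') (c : L) (hc : c ≠ 0)
    (hgen : IntermediateField.adjoin L {h} = ⊤) :
    IntermediateField.adjoin L {h * algebraMap L L' c} = ⊤ := by
  rw [eq_top_iff, ← hgen, IntermediateField.adjoin_le_iff]
  rintro x (rfl : x = h)
  have h1 : x * algebraMap L L' c ∈ IntermediateField.adjoin L {x * algebraMap L L' c} :=
    IntermediateField.mem_adjoin_simple_self L _
  have h2 : algebraMap L L' c⁻¹ ∈ IntermediateField.adjoin L {x * algebraMap L L' c} :=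
    IntermediateField.algebraMap_mem _ _
  have h3 := mul_mem h1 h2
  have hc' : algebraMap L L' c ≠ 0 := by simpa using hc
  rwa [map_inv₀, mul_assoc, mul_inv_cancel₀ hc', mul_one] at h3

/-- The version with the divisibility hypothesis at the restriction of `P'` only. -/
theorem exists_place_restrict_kummer' [CharZero E] (u : L) (h : L') (p : ℕ) (hp : p ≠ 0)
    (hh : h ^ p = algebraMap L L' u) (hh0 : h ≠ 0)
    (hgen : IntermediateField.adjoin L {h} = ⊤)
    (P' : Place E L') (P : Place E L) (ε : ℤ)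
    (hres : ∀ y : L, y ≠ 0 → P'.ord (algebraMap L L' y) = ε * P.ord y)
    (hdiv : (p : ℤ) ∣ P.ord u) :
    ∃ Q : Place E L, ∀ y : L, P'.ord (algebraMap L L' y) = Q.ord y := by
  classical
  obtain ⟨k, hk⟩ := hdiv
  obtain ⟨ϖ, hϖ0, hϖ⟩ := exists_ord_eq_one P
  have hu0 : u ≠ 0 := by
    rintro rfl
    rw [map_zero] at hh
    exact hh0 (pow_eq_zero_iff hp |>.mp hh)
  have hpZ : (p : ℤ) ≠ 0 := by exact_mod_cast hp
  -- the normalising constant `c = ϖ^(-k)`
  set c : L := ϖ ^ (-k) with hc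
  have hc0 : c ≠ 0 := zpow_ne_zero _ hϖ0
  have hc' : algebraMap L L' c ≠ 0 := by simpa using hc0
  set s : L' := h * algebraMap L L' c with hs
  have hs0 : s ≠ 0 := mul_ne_zero hh0 hc'
  have hspow : s ^ p = algebraMap L L' (u * c ^ p) := by
    rw [hs, mul_pow, hh, map_mul, map_pow]
  have hgen' : IntermediateField.adjoin L {s} = ⊤ := adjoin_mul_base h c hc0 hgen
  -- orders
  have hordh : (p : ℤ) * P'.ord h = ε * ((p : ℤ) * k) := by
    have h1 : P'.ord (h ^ p) = (p : ℤ) * P'.ord h := by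
      rw [← zpow_natCast, P'.ord_zpow]
    rw [← h1, hh, hres u hu0, hk]
  have hordh' : P'.ord h = ε * k := by
    have : (p : ℤ) * P'.ord h = (p : ℤ) * (ε * k) := by rw [hordh]; ring
    exact mul_left_cancel₀ hpZ this
  have hordc : P'.ord (algebraMap L L' c) = ε * (-k) := by
    rw [hres c hc0, hc, P.ord_zpow, hϖ, mul_one]
  have hords : P'.ord s = 0 := by
    rw [hs, P'.ord_mul hh0 hc', hordh', hordc]
    ring
  exact exists_place_restrict_unramified (E := E) (u * c ^ p) s p hp hspow hs0 hgen' P' hords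

/-- (B2-kum) **Kummer extensions by a `p`-th root of `u` with `div u ∈ p·Div` are unramified.**
`L' = L(h)`, `h ^ p = u ≠ 0`, `p ∣ ord_P u` for every place `P` of `L/E` (`E` of
characteristic `0`).  Then every place `P'` of `L'/E` lies over a place `P` of `L/E` with
`ord_{P'} y = ord_P y` for all `y ∈ L`. -/
theorem exists_place_restrict_kummer [CharZero E] (u : L) (h : L') (p : ℕ) (hp : p ≠ 0)
    (hh : h ^ p = algebraMap L L' u) (hh0 : h ≠ 0)
    (hgen : IntermediateField.adjoin L {h} = ⊤)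
    (hdiv : ∀ P : Place E L, (p : ℤ) ∣ P.ord u)
    (P' : Place E L') :
    ∃ P : Place E L, ∀ y : L, P'.ord (algebraMap L L' y) = P.ord y := by
  classical
  obtain ⟨halg, -⟩ := isAlgebraic_of_adjoin_root u h p hp hh hgen
  obtain ⟨P, ε, -, hres⟩ := exists_place_restrict (E := E) (L := L) P'
  exact exists_place_restrict_kummer' u h p hp hh hh0 hgen P' P ε hres (hdiv P)

omit [IsScalarTower E L L'] in
/-- In the situation of `exists_place_restrict_kummer`: `p * ord_{P'} h = ord_P u` for the place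
`P` below `P'`. -/
theorem ord_root (u : L) (h : L') (p : ℕ)
    (hh : h ^ p = algebraMap L L' u)
    (P' : Place E L') (P : Place E L)
    (hP : ∀ y : L, P'.ord (algebraMap L L' y) = P.ord y) :
    (p : ℤ) * P'.ord h = P.ord u := by
  rw [← hP u, ← hh, ← zpow_natCast, P'.ord_zpow]

end Fermat.Agent.INJ.KumU


end ZBINJ_009_2

/-! ### bundled: `Fermat.Agent.INJ.PlaceExt` -/
section ZBINJ_009_3

/-!
# (INJ) piece B2-ext: places extend along algebraic constant field extensions, unramified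

Setting: `E ⊆ K` fields, `K / E` separable algebraic (e.g. algebraic in characteristic `0`),
`Lf / E` a field extension, `L' / K` a field extension containing `Lf` with `L' = Lf · K`.

* `Fermat.Agent.INJ.PlaceExt.chevalley`: Chevalley's extension theorem for valuation subrings
  (from Mathlib's `LocalSubring.exists_le_valuationSubring`).
* `Fermat.Agent.INJ.PlaceExt.dvr_of_piDisc`: DVR criterion (all values are powers of `v ϖ`).
* `Fermat.Agent.INJ.PlaceExt.place_of_valuationSubring`: every valuation subring of `L'` over a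
  place `P` of `Lf / E` is (the valuation ring of) a place `P'` of `L' / K`, with
  `ord_{P'} = ord_P` on `Lf`  (helper66's `piDisc_adjoin` = B2-UL).
* `Fermat.Agent.INJ.PlaceExt.exists_place_extend` (**B2-ext**): every place `P` of `Lf / E` extends
  to a place `P'` of `L' / K` with `ord_{P'} = ord_P` on `Lf`.  Variants `exists_place_extend'`
  (generation hypothesis `K(Lf) = L'`), `exists_place_extend_of_adjoin_image`.
* `Fermat.Agent.INJ.PlaceExt.exists_place_restrict_const`: conversely every place `P'` of `L' / K`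
  restricts to a place `P` of `Lf / E` with `ord_{P'} = ord_P` on `Lf`.
-/

set_option autoImplicit false

open AlgebraicCurve Polynomial

namespace Fermat.Agent.INJ.PlaceExt

/-- **Chevalley's extension theorem** for valuation subrings along a field extension. -/
theorem chevalley {F L : Type*} [Field F] [Field L] [Algebra F L] (O : ValuationSubring F) :
    ∃ V : ValuationSubring L, V.comap (algebraMap F L) = O := by
  classical
  obtain ⟨V, hV⟩ := LocalSubring.exists_le_valuationSubring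
    (O.toLocalSubring.map (algebraMap F L))
  obtain ⟨hle, hloc⟩ := LocalSubring.le_def.mp hV
  refine ⟨V, ?_⟩
  have hOV : ∀ x : F, x ∈ O → algebraMap F L x ∈ V := fun x hx =>
    hle (Subring.mem_map.mpr ⟨x, hx, rfl⟩)
  apply le_antisymm
  · intro x hx
    rw [ValuationSubring.mem_comap] at hx
    by_contra hxO
    have hx0 : x ≠ 0 := fun h => hxO (h ▸ O.zero_mem)
    have hxi : x⁻¹ ∈ O := (O.mem_or_inv_mem x).resolve_left hxO
    have hmem : algebraMap F L x⁻¹ ∈ (O.toLocalSubring.map (algebraMap F L)).toSubring :=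
      Subring.mem_map.mpr ⟨x⁻¹, hxi, rfl⟩
    have hunit : IsUnit (Subring.inclusion hle ⟨algebraMap F L x⁻¹, hmem⟩) := by
      refine isUnit_iff_exists_inv.mpr ⟨⟨algebraMap F L x, hx⟩, Subtype.ext ?_⟩
      simp [hx0]
    have h2 := hloc.map_nonunit _ hunit
    obtain ⟨⟨y, hy⟩, hy'⟩ := isUnit_iff_exists_inv.mp h2
    obtain ⟨z, hz, rfl⟩ := Subring.mem_map.mp hy
    have h3 : algebraMap F L x⁻¹ * algebraMap F L z = 1 := congrArg Subtype.val hy'
    rw [← map_mul, ← map_one (algebraMap F L)] at h3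
    have h4 : x⁻¹ * z = 1 := (algebraMap F L).injective h3
    have h5 : z = x := by
      field_simp at h4
      exact h4
    exact hxO (h5 ▸ hz)
  · intro x hx
    exact hOV x hx

section DVR

variable {L : Type*} [Field L] (V : ValuationSubring L) (ϖ : L)

/-- **DVR criterion.**  A valuation subring all of whose nonzero values are integral powers of the
value of one element `ϖ` with `v ϖ < 1` is a discrete valuation ring with uniformizer `ϖ`. -/
theorem dvr_of_piDisc (hϖ : V.valuation ϖ < 1) (hϖ0 : ϖ ≠ 0)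
    (hdisc : ∀ x : L, x ≠ 0 → ∃ n : ℤ, V.valuation x = V.valuation ϖ ^ n) :
    V ≠ ⊤ ∧ IsPrincipalIdealRing V ∧ ∃ p : V, (p : L) = ϖ ∧ Irreducible p := by
  classical
  set γ := V.valuation ϖ with hγ
  have hγ0 : 0 < γ := zero_lt_iff.mpr ((Valuation.ne_zero_iff _).mpr hϖ0)
  have hγ1 : γ ≠ 1 := hϖ.ne
  have hϖV : ϖ ∈ V := (V.valuation_le_one_iff ϖ).mp hϖ.le
  set p : V := ⟨ϖ, hϖV⟩ with hp
  have hp0 : p ≠ 0 := fun h => hϖ0 (congrArg Subtype.val h)
  have hpnu : ¬ IsUnit p := by
    rw [V.valuation_eq_one_iff]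
    exact hγ1
  -- every nonzero element of `V` is a unit times a natural power of `p`
  have hfac : ∀ x : V, x ≠ 0 → ∃ (n : ℕ) (u : Vˣ), x = u * p ^ n := by
    intro x hx
    have hx0 : (x : L) ≠ 0 := fun h => hx (Subtype.ext h)
    obtain ⟨n, hn⟩ := hdisc x hx0
    have hn0 : 0 ≤ n := by
      have h1 : V.valuation (x : L) ≤ 1 := V.valuation_le_one x
      rw [hn] at h1
      exact (zpow_le_one_iff_right_of_lt_one₀ hγ0 hϖ).mp h1
    obtain ⟨k, rfl⟩ := Int.eq_ofNat_of_zero_le hn0
    rw [zpow_natCast] at hn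
    have hval : V.valuation ((x : L) * (ϖ ^ k)⁻¹) = 1 := by
      rw [map_mul, map_inv₀, map_pow, hn]
      exact mul_inv_cancel₀ (pow_ne_zero k hγ0.ne')
    have hmem : (x : L) * (ϖ ^ k)⁻¹ ∈ V := (V.valuation_le_one_iff _).mp hval.le
    have hu : IsUnit (⟨(x : L) * (ϖ ^ k)⁻¹, hmem⟩ : V) := by
      rw [V.valuation_eq_one_iff]
      exact hval
    refine ⟨k, hu.unit, Subtype.ext ?_⟩
    have hϖk : ϖ ^ k ≠ 0 := pow_ne_zero k hϖ0
    show (x : L) = (x : L) * (ϖ ^ k)⁻¹ * ϖ ^ k
    field_simp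
  have hirr : Irreducible p := by
    refine ⟨hpnu, fun a b hab => ?_⟩
    have ha0 : a ≠ 0 := by
      rintro rfl
      rw [zero_mul] at hab
      exact hp0 hab
    have hb0 : b ≠ 0 := by
      rintro rfl
      rw [mul_zero] at hab
      exact hp0 hab
    obtain ⟨m, u, rfl⟩ := hfac a ha0
    obtain ⟨k, w, rfl⟩ := hfac b hb0
    have h1 : V.valuation (p : L) = V.valuation (((u : V) * p ^ m * ((w : V) * p ^ k) : V) : L) := by
      rw [← hab]
    have hu1 : V.valuation ((u : V) : L) = 1 := (V.valuation_eq_one_iff _).mp u.isUnit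
    have hw1 : V.valuation ((w : V) : L) = 1 := (V.valuation_eq_one_iff _).mp w.isUnit
    have hpγ : V.valuation (p : L) = γ := rfl
    simp only [MulMemClass.coe_mul, SubmonoidClass.coe_pow, map_mul, map_pow, hu1, hw1, one_mul,
      hpγ] at h1
    rw [← pow_add] at h1
    have h2 : γ ^ (1 : ℤ) = γ ^ ((m + k : ℕ) : ℤ) := by
      rw [zpow_one, zpow_natCast]
      exact h1
    have h3 : (1 : ℤ) = ((m + k : ℕ) : ℤ) := (zpow_right_inj₀ hγ0 hγ1).mp h2
    have h4 : m + k = 1 := by exact_mod_cast h3.symm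
    rcases Nat.eq_zero_or_pos m with hm | hm
    · left
      rw [hm, pow_zero, mul_one]
      exact u.isUnit
    · right
      have hk : k = 0 := by omega
      rw [hk, pow_zero, mul_one]
      exact w.isUnit
  have hdvr : IsDiscreteValuationRing V := by
    apply IsDiscreteValuationRing.ofHasUnitMulPowIrreducibleFactorization
    refine ⟨p, hirr, fun {x} hx => ?_⟩
    obtain ⟨n, u, rfl⟩ := hfac x hx
    exact ⟨n, u, by rw [mul_comm]⟩
  refine ⟨?_, inferInstance, p, rfl, hirr⟩
  intro htop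
  have h1 : ϖ⁻¹ ∈ V := by
    rw [htop]
    exact ValuationSubring.mem_top _
  have h2 : V.valuation ϖ⁻¹ ≤ 1 := (V.valuation_le_one_iff _).mpr h1
  rw [map_inv₀, inv_le_one₀ hγ0] at h2
  exact absurd hϖ (not_lt.mpr h2)

end DVR

section Main

variable {E Lf K L' : Type*} [Field E] [Field Lf] [Field K] [Field L']
  [Algebra E Lf] [Algebra E K] [Algebra K L'] [Algebra Lf L'] [Algebra E L']
  [IsScalarTower E Lf L'] [IsScalarTower E K L']

/-- **B2-ext, valuation-subring form.**  `K/E` separable algebraic, `L' = Lf·K`.  Every valuation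
subring `V` of `L'` lying over (the valuation ring of) a place `P` of `Lf/E` is the valuation ring
of a place `P'` of `L'/K`, and `P'` is unramified over `P`: `ord_{P'} = ord_P` on `Lf`. -/
theorem place_of_valuationSubring [Algebra.IsSeparable E K]
    (hgen : IntermediateField.adjoin Lf (Set.range (algebraMap K L')) = ⊤)
    (P : Place E Lf) (V : ValuationSubring L')
    (hV : V.comap (algebraMap Lf L') = P.toValuationSubring) :
    ∃ P' : Place K L', P'.toValuationSubring = V ∧
      ∀ x : Lf, P'.ord (algebraMap Lf L' x) = P.ord x := by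
  classical
  have hmemV : ∀ x : Lf, x ∈ P.toValuationSubring ↔ algebraMap Lf L' x ∈ V := by
    intro x
    rw [← hV, ValuationSubring.mem_comap]
  -- a uniformizer of `P`
  obtain ⟨π, hπ⟩ := IsDiscreteValuationRing.exists_irreducible P.toValuationSubring
  have hπ0 : (π : Lf) ≠ 0 := by
    simpa [ne_eq, ZeroMemClass.coe_eq_zero] using hπ.ne_zero
  have hπord : P.ord (π : Lf) = 1 := P.ord_coe_irreducible hπ
  -- units of `O_P` have value one
  have hunit : ∀ u : P.toValuationSubringˣ,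
      V.valuation (algebraMap Lf L' ((u : P.toValuationSubring) : Lf)) = 1 := by
    intro u
    have h1 : V.valuation (algebraMap Lf L' ((u : P.toValuationSubring) : Lf)) ≤ 1 :=
      (V.valuation_le_one_iff _).mpr ((hmemV _).mp (u : P.toValuationSubring).2)
    have h2 : V.valuation (algebraMap Lf L' (((u⁻¹ : P.toValuationSubringˣ) :
        P.toValuationSubring) : Lf)) ≤ 1 :=
      (V.valuation_le_one_iff _).mpr
        ((hmemV _).mp ((u⁻¹ : P.toValuationSubringˣ) : P.toValuationSubring).2)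
    have h3 : ((u : P.toValuationSubring) : Lf) *
        (((u⁻¹ : P.toValuationSubringˣ) : P.toValuationSubring) : Lf) = 1 := by
      exact_mod_cast congrArg Subtype.val u.mul_inv
    have h4 : V.valuation (algebraMap Lf L' ((u : P.toValuationSubring) : Lf)) *
        V.valuation (algebraMap Lf L' (((u⁻¹ : P.toValuationSubringˣ) :
          P.toValuationSubring) : Lf)) = 1 := by
      rw [← map_mul, ← map_mul, h3, map_one, map_one]
    refine le_antisymm h1 ?_
    by_contra hlt
    rw [not_le] at hlt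
    have : V.valuation (algebraMap Lf L' ((u : P.toValuationSubring) : Lf)) *
        V.valuation (algebraMap Lf L' (((u⁻¹ : P.toValuationSubringˣ) :
          P.toValuationSubring) : Lf)) < 1 := by
      calc _ ≤ V.valuation (algebraMap Lf L' ((u : P.toValuationSubring) : Lf)) * 1 :=
            mul_le_mul_right h2 _
        _ = V.valuation (algebraMap Lf L' ((u : P.toValuationSubring) : Lf)) := mul_one _
        _ < 1 := hlt
    rw [h4] at this
    exact lt_irrefl _ this
  -- `v π < 1`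
  have hπV : V.valuation (algebraMap Lf L' (π : Lf)) < 1 := by
    have h1 : V.valuation (algebraMap Lf L' (π : Lf)) ≤ 1 :=
      (V.valuation_le_one_iff _).mpr ((hmemV _).mp π.2)
    refine lt_of_le_of_ne h1 fun h => ?_
    have h2 : V.valuation (algebraMap Lf L' (π : Lf)⁻¹) ≤ 1 := by
      rw [map_inv₀, map_inv₀, h, inv_one]
    have h3 : (π : Lf)⁻¹ ∈ P.toValuationSubring :=
      (hmemV _).mpr ((V.valuation_le_one_iff _).mp h2)
    apply hπ.not_isUnit
    refine isUnit_iff_exists_inv.mpr ⟨⟨(π : Lf)⁻¹, h3⟩, Subtype.ext ?_⟩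
    show (π : Lf) * (π : Lf)⁻¹ = 1
    exact mul_inv_cancel₀ hπ0
  -- `V` is `π`-discrete on `Lf`
  have hF : ∀ x : Lf, x ≠ 0 → ∃ n : ℤ,
      V.valuation (algebraMap Lf L' x) = V.valuation (algebraMap Lf L' (π : Lf)) ^ n := by
    intro x hx
    obtain ⟨u, hu⟩ := P.exists_unit_mul_zpow hx hπ
    refine ⟨P.ord x, ?_⟩
    conv_lhs => rw [hu]
    rw [map_mul, map_mul, hunit u, one_mul, map_zpow₀, map_zpow₀]
  -- the constants are roots of monic separable polynomials over `V ∩ Lf`
  let φ : E →+* (V.comap (algebraMap Lf L')) :=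
    (algebraMap E Lf).codRestrict (V.comap (algebraMap Lf L')).toSubring
      (fun a => by
        show algebraMap E Lf a ∈ V.comap (algebraMap Lf L')
        rw [hV]
        exact P.algebraMap_mem' a)
  have hφ : ((algebraMap Lf L').comp (V.comap (algebraMap Lf L')).subtype).comp φ
      = (algebraMap K L').comp (algebraMap E K) := by
    ext a
    show algebraMap Lf L' (algebraMap E Lf a) = algebraMap K L' (algebraMap E K a)
    rw [← IsScalarTower.algebraMap_apply, ← IsScalarTower.algebraMap_apply]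
  have hS : ∀ α ∈ Set.range (algebraMap K L'),
      ∃ f : Polynomial (V.comap (algebraMap Lf L')), f.Monic ∧ f.Separable ∧
        Polynomial.eval₂ ((algebraMap Lf L').comp (V.comap (algebraMap Lf L')).subtype) α f
          = 0 := by
    rintro _ ⟨a, rfl⟩
    have hsep : (minpoly E a).Separable := Algebra.IsSeparable.isSeparable E a
    have hint : IsIntegral E a := Algebra.IsSeparable.isIntegral E a
    refine ⟨(minpoly E a).map φ, (minpoly.monic hint).map φ, hsep.map, ?_⟩
    rw [Polynomial.eval₂_map, hφ, ← Polynomial.hom_eval₂, ← Polynomial.aeval_def, minpoly.aeval,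
      map_zero]
  have hdisc : ∀ x : L', x ≠ 0 → ∃ n : ℤ,
      V.valuation x = V.valuation (algebraMap Lf L' (π : Lf)) ^ n := by
    intro x hx
    exact piDisc_adjoin V (π : Lf) hπV hπ0 hF _ hS x (by rw [hgen]; trivial) hx
  have hϖ0 : algebraMap Lf L' (π : Lf) ≠ 0 := by simpa using hπ0
  obtain ⟨hne, hpid, p, hpcoe, hpirr⟩ := dvr_of_piDisc V _ hπV hϖ0 hdisc
  -- the constants lie in `V`
  have hK : ∀ a : K, algebraMap K L' a ∈ V := by
    intro a
    have hsep : (minpoly E a).Separable := Algebra.IsSeparable.isSeparable E a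
    have hint : IsIntegral E a := Algebra.IsSeparable.isIntegral E a
    have hintV : IsIntegral V (algebraMap K L' a) := by
      refine ⟨((minpoly E a).map φ).map
        (show (V.comap (algebraMap Lf L')) →+* V from
          { toFun := fun x => ⟨algebraMap Lf L' (x : Lf), x.2⟩
            map_one' := Subtype.ext (map_one _)
            map_mul' := fun x y => Subtype.ext (map_mul _ _ _)
            map_zero' := Subtype.ext (map_zero _)
            map_add' := fun x y => Subtype.ext (map_add _ _ _) }),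
        ((minpoly.monic hint).map φ).map _, ?_⟩
      rw [Polynomial.eval₂_map, Polynomial.eval₂_map]
      have : ((algebraMap V L').comp
          (show (V.comap (algebraMap Lf L')) →+* V from
          { toFun := fun x => ⟨algebraMap Lf L' (x : Lf), x.2⟩
            map_one' := Subtype.ext (map_one _)
            map_mul' := fun x y => Subtype.ext (map_mul _ _ _)
            map_zero' := Subtype.ext (map_zero _)
            map_add' := fun x y => Subtype.ext (map_add _ _ _) })).comp φ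
          = (algebraMap K L').comp (algebraMap E K) := by
        rw [← hφ]
        rfl
      rw [this, ← Polynomial.hom_eval₂, ← Polynomial.aeval_def, minpoly.aeval, map_zero]
    obtain ⟨y, hy⟩ := IsIntegrallyClosed.isIntegral_iff.mp hintV
    rw [← hy]
    exact y.2
  refine ⟨⟨V, hK, hne, hpid⟩, rfl, fun x => ?_⟩
  rcases eq_or_ne x 0 with rfl | hx
  · simp
  obtain ⟨u, hu⟩ := P.exists_unit_mul_zpow hx hπ
  -- the unit `u` of `O_P` as a unit of `V`
  have hu1 : V.valuation (algebraMap Lf L' ((u : P.toValuationSubring) : Lf)) = 1 := hunit u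
  have humem : algebraMap Lf L' ((u : P.toValuationSubring) : Lf) ∈ V :=
    (V.valuation_le_one_iff _).mp hu1.le
  have huV : IsUnit (⟨_, humem⟩ : V) := by
    rw [V.valuation_eq_one_iff]
    exact hu1
  set P' : Place K L' := ⟨V, hK, hne, hpid⟩ with hP'
  have key := P'.ord_unit_smul_zpow huV.unit hpirr (P.ord x)
  have hx' : algebraMap Lf L' x
      = (((huV.unit : P'.toValuationSubringˣ) : P'.toValuationSubring) : L') *
          ((p : L') ^ (P.ord x)) := by
    conv_lhs => rw [hu]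
    rw [map_mul, map_zpow₀, hpcoe]
    rfl
  rw [hx']
  exact key

/-- **B2-ext.**  `K/E` separable algebraic, `L' = Lf·K`: every place `P` of `Lf/E` extends to a
place `P'` of `L'/K` which is unramified over `P`: `ord_{P'} = ord_P` on `Lf`. -/
theorem exists_place_extend [Algebra.IsSeparable E K]
    (hgen : IntermediateField.adjoin Lf (Set.range (algebraMap K L')) = ⊤)
    (P : Place E Lf) :
    ∃ P' : Place K L', ∀ x : Lf, P'.ord (algebraMap Lf L' x) = P.ord x := by
  obtain ⟨V, hV⟩ := chevalley (L := L') P.toValuationSubring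
  obtain ⟨P', -, h⟩ := place_of_valuationSubring hgen P V hV
  exact ⟨P', h⟩

/-- The two ways of saying `L' = Lf · K`. -/
theorem adjoin_range_swap
    (hgen : IntermediateField.adjoin K (Set.range (algebraMap Lf L')) = ⊤) :
    IntermediateField.adjoin Lf (Set.range (algebraMap K L')) = ⊤ := by
  rw [eq_top_iff]
  intro x _
  set M : IntermediateField Lf L' := IntermediateField.adjoin Lf (Set.range (algebraMap K L'))
    with hM
  have hKM : ∀ a : K, algebraMap K L' a ∈ M.toSubfield := fun a =>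
    IntermediateField.subset_adjoin Lf _ ⟨a, rfl⟩
  let M' : IntermediateField K L' := M.toSubfield.toIntermediateField hKM
  have hle : IntermediateField.adjoin K (Set.range (algebraMap Lf L')) ≤ M' := by
    rw [IntermediateField.adjoin_le_iff]
    rintro _ ⟨y, rfl⟩
    show algebraMap Lf L' y ∈ M
    exact M.algebraMap_mem y
  have hx : x ∈ M' := hle (by rw [hgen]; trivial)
  exact hx

/-- **B2-ext**, with the generation hypothesis in the form `K(Lf) = L'`. -/
theorem exists_place_extend' [Algebra.IsSeparable E K]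
    (hgen : IntermediateField.adjoin K (Set.range (algebraMap Lf L')) = ⊤)
    (P : Place E Lf) :
    ∃ P' : Place K L', ∀ x : Lf, P'.ord (algebraMap Lf L' x) = P.ord x :=
  exists_place_extend (adjoin_range_swap hgen) P

/-- **B2-ext**, with the generation hypothesis in the form `K(S) = L'`, `S ⊆ Lf`. -/
theorem exists_place_extend_of_adjoin_image [Algebra.IsSeparable E K] (S : Set Lf)
    (hgen : IntermediateField.adjoin K ((algebraMap Lf L') '' S) = ⊤)
    (P : Place E Lf) :
    ∃ P' : Place K L', ∀ x : Lf, P'.ord (algebraMap Lf L' x) = P.ord x := by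
  refine exists_place_extend' ?_ P
  rw [eq_top_iff, ← hgen]
  exact IntermediateField.adjoin.mono K _ _ (Set.image_subset_range _ _)

/-- The characteristic `0` form of **B2-ext** (the shape `hext` of `ramB_assemble`). -/
theorem exists_place_extend_charZero [CharZero E] [Algebra.IsAlgebraic E K]
    (hgen : IntermediateField.adjoin K (Set.range (algebraMap Lf L')) = ⊤) :
    ∀ Q : Place E Lf, ∃ v : Place K L', ∀ y : Lf, v.ord (algebraMap Lf L' y) = Q.ord y :=
  fun Q => exists_place_extend' hgen Q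

/-- `L' = Lf · K` is algebraic over `Lf` when `K / E` is algebraic. -/
theorem isAlgebraic_of_gen [Algebra.IsAlgebraic E K]
    (hgen : IntermediateField.adjoin Lf (Set.range (algebraMap K L')) = ⊤) :
    Algebra.IsAlgebraic Lf L' := by
  have h1 : ∀ x ∈ Set.range (algebraMap K L'), IsIntegral Lf x := by
    rintro _ ⟨a, rfl⟩
    have ha : IsIntegral E a := (Algebra.IsAlgebraic.isAlgebraic a).isIntegral
    have h2 : IsIntegral E (algebraMap K L' a) := ha.map (IsScalarTower.toAlgHom E K L')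
    exact h2.tower_top
  have h3 : Algebra.IsAlgebraic Lf
      (IntermediateField.adjoin Lf (Set.range (algebraMap K L'))) :=
    IntermediateField.isAlgebraic_adjoin h1
  rw [hgen] at h3
  exact (IntermediateField.topEquiv (F := Lf) (E := L')).isAlgebraic

/-- **Restriction along a constant field extension is unramified.**  `K/E` separable algebraic,
`L' = Lf·K`: every place `P'` of `L'/K` restricts to a place `P` of `Lf/E`, and
`ord_{P'} = ord_P` on `Lf`. -/
theorem exists_place_restrict_const [Algebra.IsSeparable E K]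
    (hgen : IntermediateField.adjoin Lf (Set.range (algebraMap K L')) = ⊤)
    (P' : Place K L') :
    ∃ P : Place E Lf, ∀ x : Lf, P'.ord (algebraMap Lf L' x) = P.ord x := by
  classical
  have : Algebra.IsAlgebraic Lf L' := isAlgebraic_of_gen (E := E) (K := K) hgen
  -- `P'` as a place over `E`
  let P'E : Place E L' :=
    ⟨P'.toValuationSubring, fun a => by
      rw [IsScalarTower.algebraMap_apply E K L']
      exact P'.algebraMap_mem' _, P'.ne_top', P'.isPrincipalIdealRing'⟩
  have hordE : ∀ x : L', P'E.ord x = P'.ord x := fun x => rfl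
  obtain ⟨P, ε, hε, hres⟩ := AbhP.exists_place_restrict (E := E) (L := Lf) P'E
  have hV : P'.toValuationSubring.comap (algebraMap Lf L') = P.toValuationSubring := by
    ext x
    rw [ValuationSubring.mem_comap]
    rcases eq_or_ne x 0 with rfl | hx
    · simp [zero_mem]
    have hx' : algebraMap Lf L' x ≠ 0 := by simpa using hx
    rw [← Fermat.Agent.S24.PlaceAux.ord_nonneg_iff P' hx',
      ← Fermat.Agent.S24.PlaceAux.ord_nonneg_iff P hx, ← hordE, hres x hx]
    constructor
    · intro h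
      by_contra hneg
      rw [not_le] at hneg
      have := mul_neg_of_pos_of_neg hε hneg
      omega
    · intro h
      exact mul_nonneg hε.le h
  obtain ⟨P'', hP'', h⟩ := place_of_valuationSubring hgen P P'.toValuationSubring hV
  have : P'' = P' := Place.ext hP''
  subst this
  exact ⟨P, h⟩

end Main

end Fermat.Agent.INJ.PlaceExt


end ZBINJ_009_3

/-! ### bundled: `Fermat.Agent.INJ.InjCore` -/
section ZBINJ_009_4

/-!
# (INJ) B-glue: the line-independent core

`A₀` a discrete valuation ring, `E = Frac A₀` of characteristic `0`, `r : A₀ → k` with kernel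
`(π)`, `F = modularFunctionFieldFullC E N ⊂ E((q))` with Gauss key data `kd` for a coordinate `t₀`
of order `-1`, `Y₁ ≡ Y₂ ≢ 0 mod π` in `A₀((q))` with images in `F`, `h ∈ E((q))` with
`h ^ p = Y₁ / Y₂`, `h ∉ F`.  If `Lf = F(h)` satisfies the hypotheses `(a)` (for `F`), finiteness,
`(b)`, `(b')` of the tame specialization theorem, we get a contradiction.
-/

set_option autoImplicit false
set_option linter.unusedSectionVars false
set_option linter.style.haveILetI false

noncomputable section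

namespace Fermat.Agent.INJ

open Polynomial ModularCurve IntermediateField AlgebraicCurve Fermat.Agent.S28

open ChartGB

section Alg

variable (A₀ : Type*) {E : Type*} [CommRing A₀] [Field E] [Algebra A₀ E]
  (Lf : IntermediateField E (LaurentSeries E))

/-- the `A₀`-algebra structure of an intermediate field of `E((q)) / E` -/
@[reducible] def coreAlg : Algebra A₀ Lf :=
  ((algebraMap E Lf).comp (algebraMap A₀ E)).toAlgebra

theorem coreAlg_algebraMap (a : A₀) :
    letI := coreAlg A₀ Lf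
    algebraMap A₀ Lf a = algebraMap E Lf (algebraMap A₀ E a) := rfl

theorem coreAlg_isScalarTower :
    letI := coreAlg A₀ Lf
    IsScalarTower A₀ E Lf := by
  letI := coreAlg A₀ Lf
  exact IsScalarTower.of_algebraMap_eq (fun _ => rfl)

end Alg

section NotDvd

universe u

variable {A E k : Type u} [CommRing A] [IsDomain A] [IsDiscreteValuationRing A]
  [Field E] [Algebra A E] [IsFractionRing A E] [CharZero E]
  [Field k] {r : A →+* k}
  {F : IntermediateField E (LaurentSeries E)} {t₀ : LaurentSeries A} {n : ℕ}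
  {x : Fin n → LaurentSeries A}
variable {Lf : Type u} [Field Lf] [Algebra E Lf] [Algebra A Lf] [IsScalarTower A E Lf]
  (e : Lf →ₐ[E] LaurentSeries E)

/-- an element of `F` with nonzero Gauss reduction is not divisible by `π` in the integral
closure of `A[τ]` -/
theorem core_not_dvd (kd : GaussKD r F t₀ x) {π : A} (hπ : Irreducible π) (hrπ : r π = 0)
    (hr : ∀ a, r a = 0 → π ∣ a)
    (hF : ∀ f ∈ F, ∃ z : Lf, e z = f) {τ : Lf} (hτ : e τ = coeffMap (algebraMap A E) t₀)
    (hτtr : Transcendental E τ)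
    (z : Lf) (hzF : e z ∈ F) (hzg : e z ∈ gaussRing (algebraMap A E) r)
    (hred : gaussRed r (IsFractionRing.injective A E) ⟨e z, hzg⟩ ≠ 0) :
    ¬ ∃ z' : Lf, IsIntegral (Algebra.adjoin A {τ}) z' ∧ z = algebraMap A Lf π * z' := by
  rintro ⟨z', hz', hzz'⟩
  have hz0 : z ≠ 0 := by
    rintro rfl
    apply hred
    have : (⟨e 0, hzg⟩ : gaussRing (algebraMap A E) r) = 0 := Subtype.ext (map_zero e)
    rw [this, map_zero]
  have hinvg : e z⁻¹ ∈ gaussRing (algebraMap A E) r := by
    rw [map_inv₀]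
    exact inv_mem_gaussRing r (IsFractionRing.injective A E) ⟨e z, hzg⟩ hred
  have hinvF : e z⁻¹ ∈ F := by
    rw [map_inv₀]
    exact F.inv_mem hzF
  obtain ⟨g, hg, hgint⟩ := bgInt_exists_mul_isIntegral e kd hπ.ne_zero hπ.not_isUnit hr hF hτ
    z⁻¹ hinvF hinvg
  -- `g(τ) = π * (z' * (g(τ) z⁻¹))`
  have hπ0 : algebraMap A Lf π ≠ 0 := by
    rw [IsScalarTower.algebraMap_apply A E Lf]
    intro h0
    have h1 : algebraMap A E π = 0 := (algebraMap E Lf).injective (by rw [h0, map_zero])
    exact hπ.ne_zero (IsFractionRing.injective A E (by rw [h1, map_zero]))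
  have hkey : aeval τ g = algebraMap A Lf π * (z' * (aeval τ g * z⁻¹)) := by
    have : z * z⁻¹ = 1 := mul_inv_cancel₀ hz0
    calc aeval τ g = aeval τ g * (z * z⁻¹) := by rw [this, mul_one]
      _ = algebraMap A Lf π * (z' * (aeval τ g * z⁻¹)) := by rw [hzz']; ring
  have hint : IsIntegral (Algebra.adjoin A {τ}) (z' * (aeval τ g * z⁻¹)) := hz'.mul hgint
  -- the quotient lies in `E(τ)`
  have hgmem : aeval τ g ∈ E⟮τ⟯ :=
    mem_adjoinSimple_of_mem_adjoin (A₀ := A) (E := E) τ (by
      rw [Algebra.adjoin_singleton_eq_range_aeval]; exact ⟨g, rfl⟩)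
  have hπmem : algebraMap A Lf π ∈ E⟮τ⟯ := by
    rw [IsScalarTower.algebraMap_apply A E Lf]
    exact E⟮τ⟯.algebraMap_mem _
  have hq : z' * (aeval τ g * z⁻¹) = (algebraMap A Lf π)⁻¹ * aeval τ g :=
    (eq_inv_mul_iff_mul_eq₀ hπ0).mpr hkey.symm
  have hqmem : z' * (aeval τ g * z⁻¹) ∈ E⟮τ⟯ := by
    rw [hq]
    exact mul_mem (inv_mem hπmem) hgmem
  obtain ⟨P, hP⟩ := bgInt_exists_aeval_of_isIntegral hτtr
    (⟨z' * (aeval τ g * z⁻¹), hqmem⟩ : E⟮τ⟯) hint
  have hP' : z' * (aeval τ g * z⁻¹) = aeval τ P := hP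
  rw [hP'] at hkey
  have hkey' : aeval τ g = aeval τ (C π * P) := by
    rw [hkey, map_mul, aeval_C]
  have heq : g = C π * P := chart_aeval_injective hτtr hkey'
  apply hg
  rw [heq, Polynomial.map_mul, Polynomial.map_C, hrπ, map_zero, zero_mul]

end NotDvd

section Helpers

variable {A₀ Lf : Type*} [CommRing A₀] [Field Lf] [Algebra A₀ Lf]

theorem core_isIntegral_aeval (τ : Lf) (q : A₀[X]) :
    IsIntegral (Algebra.adjoin A₀ {τ}) (aeval τ q) := by
  have hmem : aeval τ q ∈ Algebra.adjoin A₀ {τ} := by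
    rw [Algebra.adjoin_singleton_eq_range_aeval]; exact ⟨q, rfl⟩
  exact isIntegral_algebraMap (R := Algebra.adjoin A₀ {τ}) (x := ⟨aeval τ q, hmem⟩)

theorem core_isIntegral_aeval_mul (τ : Lf) (q : A₀[X]) {z : Lf}
    (hz : IsIntegral (Algebra.adjoin A₀ {τ}) z) :
    IsIntegral (Algebra.adjoin A₀ {τ}) (aeval τ q * z) :=
  (core_isIntegral_aeval τ q).mul hz

end Helpers

section Red

variable {A E k : Type*} [CommRing A] [Field E] [Field k] {ι : A →+* E} (r : A →+* k)
  (hι : Function.Injective ι)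

include hι in
theorem core_gaussRed_ne_zero {z : LaurentSeries E} (T : LaurentSeries A)
    (hz : z = coeffMap ι T) (hT : coeffMap r T ≠ 0) :
    ∃ hzg : z ∈ gaussRing ι r, gaussRed r hι ⟨z, hzg⟩ ≠ 0 := by
  subst hz
  refine ⟨coeffMap_mem_gaussRing ι r T, ?_⟩
  rw [gaussRed_coeffMap]
  exact hT

end Red

section Root

variable {F Lf : Type*} [Field F] [Field Lf] [Algebra F Lf]

/-- if `w = y ^ p` in `F` and `h ^ p = w` then `h ∈ F` (given `ζ_p ∈ F`) -/
theorem core_mem_of_pow_eq {p : ℕ} (hp : 0 < p) {ζ : F} (hζ : IsPrimitiveRoot ζ p) {w : F}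
    {h : Lf} (hh : h ^ p = algebraMap F Lf w) (y : F) (hy : y ^ p = w) :
    ∃ z : F, algebraMap F Lf z = h := by
  haveI : NeZero p := ⟨hp.ne'⟩
  rcases eq_or_ne y 0 with rfl | hy0
  · rw [zero_pow hp.ne'] at hy
    rw [← hy, map_zero] at hh
    exact ⟨0, by rw [map_zero]; exact (pow_eq_zero_iff hp.ne').mp hh |>.symm⟩
  have hy0' : algebraMap F Lf y ≠ 0 := by simpa using hy0
  have h1 : (h / algebraMap F Lf y) ^ p = 1 := by
    rw [div_pow, hh, ← hy, map_pow, div_self (pow_ne_zero _ hy0')]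
  have hζ' : IsPrimitiveRoot (algebraMap F Lf ζ) p :=
    hζ.map_of_injective (algebraMap F Lf).injective
  obtain ⟨i, -, hi⟩ := hζ'.eq_pow_of_pow_eq_one h1
  refine ⟨ζ ^ i * y, ?_⟩
  rw [map_mul, map_pow, hi, div_mul_cancel₀ _ hy0']

end Root

section Core

variable {A₀ E k : Type} [CommRing A₀] [IsDomain A₀] [IsDiscreteValuationRing A₀]
  [Field E] [Algebra A₀ E] [IsFractionRing A₀ E] [CharZero E]
  [Field k] (r : A₀ →+* k) (N : ℕ) (h : LaurentSeries E)

local notation "FN" => modularFunctionFieldFullC E N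
local notation "LN" => kumField E N h
local notation "ι" => algebraMap A₀ E

/-- **The line-independent core of (INJ).** -/
theorem injCore (hTS : TameSpecStmt.{0})
    {π : A₀} (hπ : Irreducible π) (hrπ : r π = 0) (hr : ∀ a, r a = 0 → π ∣ a)
    {t₀ : LaurentSeries A₀} {n : ℕ} {x : Fin n → LaurentSeries A₀}
    (kd : GaussKD r FN t₀ x)
    (ht₀ : (coeffMap ι t₀).order = -1)
    {p : ℕ} (hp : p.Prime) (hpπ : ¬ π ∣ (p : A₀))
    (ζ u : A₀) (hζ : IsPrimitiveRoot ζ p) (hζu : (ζ - 1) * u = 1)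
    (Y₁ Y₂ : LaurentSeries A₀)
    (h₁ : coeffMap ι Y₁ ∈ FN) (h₂ : coeffMap ι Y₂ ∈ FN)
    (hred : coeffMap r Y₁ = coeffMap r Y₂) (hne : coeffMap r Y₂ ≠ 0)
    (hh : h ^ p * coeffMap ι Y₂ = coeffMap ι Y₁)
    (hnot : h ∉ FN)
    (hgoodF : ∀ [Algebra A₀ FN] [IsScalarTower A₀ E FN],
      TSGoodBasis (A₀ := A₀) (E := E) (Lf := FN) π ⟨coeffMap ι t₀, kd.t_mem⟩)
    (hfin : FiniteDimensional
      E⟮(⟨coeffMap ι t₀, le_kumField E N h kd.t_mem⟩ : LN)⟯ LN)
    (S : Finset A₀) (hS : ∀ c ∈ S, ∀ c' ∈ S, c ≠ c' → ¬ π ∣ c - c')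
    (e : ℕ) (he : IsUnit (e : A₀)) (hζe : ∃ ζ : A₀, IsPrimitiveRoot ζ e)
    (hram : ∀ [Algebra A₀ LN] [IsScalarTower A₀ E LN],
      TSUnramified (A₀ := A₀) (E := E) (Lf := LN)
        ⟨coeffMap ι t₀, le_kumField E N h kd.t_mem⟩ S ∧
      TSTame (A₀ := A₀) (E := E) (Lf := LN)
        ⟨coeffMap ι t₀, le_kumField E N h kd.t_mem⟩ S e) :
    False := by
  classical
  have hinj : Function.Injective ι := IsFractionRing.injective A₀ E
  have hcinj : Function.Injective (coeffMap ι) := coeffMap_inj_of_injective ι hinj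
  -- instances
  letI algF : Algebra A₀ FN := coreAlg A₀ FN
  haveI towF : IsScalarTower A₀ E FN := coreAlg_isScalarTower A₀ FN
  letI algL : Algebra A₀ LN := coreAlg A₀ LN
  haveI towL : IsScalarTower A₀ E LN := coreAlg_isScalarTower A₀ LN
  letI algFL : Algebra FN LN := kumAlgebra E N h
  haveI towEFL : IsScalarTower E FN LN := kum_isScalarTower E N h
  haveI towAFL : IsScalarTower A₀ FN LN := IsScalarTower.of_algebraMap_eq (fun a => by
    show algebraMap E LN (ι a) = kumIncl E N h (algebraMap E FN (ι a))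
    exact ((kumIncl E N h).commutes _).symm)
  -- the coordinate
  set tF : FN := ⟨coeffMap ι t₀, kd.t_mem⟩ with htFdef
  set tL : LN := ⟨coeffMap ι t₀, le_kumField E N h kd.t_mem⟩ with htLdef
  have htrF : Transcendental E tF :=
    bgConst_transcendental FN tF (by
      show (coeffMap ι t₀).order ≠ 0
      rw [ht₀]; norm_num)
  have htrL : Transcendental E tL :=
    bgConst_transcendental LN tL (by
      show (coeffMap ι t₀).order ≠ 0
      rw [ht₀]; norm_num)
  have htLF : algebraMap FN LN tF = tL := by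
    apply Subtype.ext
    rw [kum_algebraMap_eq, coe_kumIncl]
  -- `Y₁ - Y₂ = π D`
  obtain ⟨D, hD⟩ := exists_eq_C_mul_of_coeffMap_eq_zero r hr (Y₁ - Y₂)
    (by rw [map_sub, hred, sub_self])
  have hιπ : ι π ≠ 0 := fun h0 => hπ.ne_zero (hinj (by rw [h0, map_zero]))
  have hDeq : coeffMap ι Y₁ - coeffMap ι Y₂ = HahnSeries.C (ι π) * coeffMap ι D := by
    rw [← map_sub, hD, map_mul, coeffMap_hahnC]
  have hCeq : (HahnSeries.C (ι π) : LaurentSeries E) = algebraMap E (LaurentSeries E) (ι π) :=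
    (algebraMap_laurentSeries_eq_single E (ι π)).symm
  have hCmem : (HahnSeries.C (ι π) : LaurentSeries E) ∈ FN := by
    rw [hCeq]
    exact IntermediateField.algebraMap_mem FN _
  have hC0 : (HahnSeries.C (ι π) : LaurentSeries E) ≠ 0 := by
    intro h0
    apply hιπ
    have := congrArg (fun z : LaurentSeries E => z.coeff 0) h0
    simpa using this
  have hDmem : coeffMap ι D ∈ FN := by
    have h1 : coeffMap ι D = (HahnSeries.C (ι π))⁻¹ * (coeffMap ι Y₁ - coeffMap ι Y₂) := by
      rw [hDeq, ← mul_assoc, inv_mul_cancel₀ hC0, one_mul]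
    rw [h1]
    exact mul_mem (inv_mem hCmem) (sub_mem h₁ h₂)
  set y₁ : FN := ⟨coeffMap ι Y₁, h₁⟩ with hy₁def
  set y₂ : FN := ⟨coeffMap ι Y₂, h₂⟩ with hy₂def
  set d : FN := ⟨coeffMap ι D, hDmem⟩ with hddef
  have hy₂0 : y₂ ≠ 0 := by
    intro h0
    apply hne
    have h1 : coeffMap ι Y₂ = 0 := congrArg Subtype.val h0
    have h2 : Y₂ = 0 := hcinj (by rw [h1, map_zero])
    rw [h2, map_zero]
  have hyd : y₁ - y₂ = algebraMap A₀ FN π * d := by
    apply Subtype.ext
    show coeffMap ι Y₁ - coeffMap ι Y₂ = _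
    rw [hDeq, hCeq]
    rfl
  -- common denominator
  have hFF : ∀ f ∈ FN, ∃ z : FN, (FN).val z = f := fun f hf => ⟨⟨f, hf⟩, rfl⟩
  have hτF : (FN).val tF = coeffMap ι t₀ := rfl
  obtain ⟨g₁, hg₁, hi₁⟩ := bgInt_exists_mul_isIntegral (FN).val kd hπ.ne_zero hπ.not_isUnit hr
    hFF hτF y₁ h₁ (coeffMap_mem_gaussRing ι r Y₁)
  obtain ⟨g₂, hg₂, hi₂⟩ := bgInt_exists_mul_isIntegral (FN).val kd hπ.ne_zero hπ.not_isUnit hr
    hFF hτF y₂ h₂ (coeffMap_mem_gaussRing ι r Y₂)
  obtain ⟨g₃, hg₃, hi₃⟩ := bgInt_exists_mul_isIntegral (FN).val kd hπ.ne_zero hπ.not_isUnit hr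
    hFF hτF d hDmem (coeffMap_mem_gaussRing ι r D)
  set g : A₀[X] := g₁ * g₂ * g₃ with hgdef
  have hg : g.map r ≠ 0 := by
    rw [hgdef, Polynomial.map_mul, Polynomial.map_mul]
    exact mul_ne_zero (mul_ne_zero hg₁ hg₂) hg₃
  have hG₁ : IsIntegral (Algebra.adjoin A₀ {tF}) (aeval tF g * y₁) := by
    have : aeval tF g * y₁ = aeval tF (g₂ * g₃) * (aeval tF g₁ * y₁) := by
      rw [hgdef]; simp only [map_mul]; ring
    rw [this]; exact core_isIntegral_aeval_mul _ _ hi₁
  have hG₂ : IsIntegral (Algebra.adjoin A₀ {tF}) (aeval tF g * y₂) := by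
    have : aeval tF g * y₂ = aeval tF (g₁ * g₃) * (aeval tF g₂ * y₂) := by
      rw [hgdef]; simp only [map_mul]; ring
    rw [this]; exact core_isIntegral_aeval_mul _ _ hi₂
  have hG₃ : IsIntegral (Algebra.adjoin A₀ {tF}) (aeval tF g * d) := by
    have : aeval tF g * d = aeval tF (g₁ * g₂) * (aeval tF g₃ * d) := by
      rw [hgdef]; simp only [map_mul]; ring
    rw [this]; exact core_isIntegral_aeval_mul _ _ hi₃
  -- reductions
  have hrg : coeffMap r (aeval t₀ g) ≠ 0 := by
    rw [redDVR_coeffMap_aeval]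
    intro h0
    exact hg ((transcendental_iff.mp kd.transc) _ h0)
  have hne₁ : coeffMap r Y₁ ≠ 0 := by rw [hred]; exact hne
  have hGcoe : ((aeval tF g : FN) : LaurentSeries E) = coeffMap ι (aeval t₀ g) :=
    bgInt_map_aeval (FN).val hτF g
  -- `s = g(t) y₂`, `W = s ^ (p - 1) * (g(t) y₁)`
  set s : FN := aeval tF g * y₂ with hsdef
  set W : FN := s ^ (p - 1) * (aeval tF g * y₁) with hWdef
  have hs0 : s ≠ 0 := by
    rw [hsdef]
    refine mul_ne_zero ?_ hy₂0
    intro h0
    apply hrg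
    have h1 : coeffMap ι (aeval t₀ g) = 0 := by rw [← hGcoe, h0]; rfl
    have h2 : aeval t₀ g = 0 := hcinj (by rw [h1, map_zero])
    rw [h2, map_zero]
  have hscoe : ((s : FN) : LaurentSeries E) = coeffMap ι (aeval t₀ g * Y₂) := by
    rw [map_mul, ← hGcoe]; rfl
  have hWcoe : ((W : FN) : LaurentSeries E) =
      coeffMap ι ((aeval t₀ g * Y₂) ^ (p - 1) * (aeval t₀ g * Y₁)) := by
    rw [map_mul, map_pow, ← hscoe, map_mul, ← hGcoe]; rfl
  have hsred : coeffMap r (aeval t₀ g * Y₂) ≠ 0 := by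
    rw [map_mul]; exact mul_ne_zero hrg hne
  have hWred : coeffMap r ((aeval t₀ g * Y₂) ^ (p - 1) * (aeval t₀ g * Y₁)) ≠ 0 := by
    rw [map_mul, map_pow, map_mul (coeffMap r) (aeval t₀ g) Y₁]
    exact mul_ne_zero (pow_ne_zero _ hsred) (mul_ne_zero hrg hne₁)
  have hsint : IsIntegral (Algebra.adjoin A₀ {tF}) s := hG₂
  have hWint : IsIntegral (Algebra.adjoin A₀ {tF}) W := (hG₂.pow _).mul hG₁
  -- the norm of `W`
  obtain ⟨hWg, hWgred⟩ := core_gaussRed_ne_zero r hinj _ hWcoe hWred
  obtain ⟨nW, -, hnW, hnorm⟩ := bgInt_norm (FN).val kd hπ hrπ hr hFF hτF htrF W W.2 hWg hWgred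
    hWint
  -- the Kummer generator
  set hL : LN := kumGen E N h with hLdef
  set w : FN := y₁ / y₂ with hwdef
  have hY₂0 : coeffMap ι Y₂ ≠ 0 := fun h0 => hy₂0 (Subtype.ext h0)
  have hhL : hL ^ p = algebraMap FN LN w := by
    apply Subtype.ext
    rw [kum_algebraMap_eq, coe_kumIncl]
    show h ^ p = coeffMap ι Y₁ / coeffMap ι Y₂
    rw [eq_div_iff hY₂0]; exact hh
  have hAFinj : Function.Injective (algebraMap A₀ FN) := by
    intro a b hab
    have h1 : algebraMap E FN (ι a) = algebraMap E FN (ι b) := hab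
    exact hinj ((algebraMap E FN).injective h1)
  have hζF : IsPrimitiveRoot (algebraMap A₀ FN ζ) p := hζ.map_of_injective hAFinj
  have hwnot : ∀ y : FN, y ^ p ≠ w := by
    intro y hy
    obtain ⟨z, hz⟩ := core_mem_of_pow_eq hp.pos hζF hhL y hy
    apply hnot
    have hz' : ((z : FN) : LaurentSeries E) = h := by
      have := congrArg Subtype.val hz
      rwa [kum_algebraMap_eq, coe_kumIncl] at this
    rw [← hz']; exact z.2
  have htop : FN⟮hL⟯ = ⊤ := kumField_adjoin_gen E N h
  have hdeg : Module.finrank FN LN = p := bg_finrank hp hζF hhL htop hwnot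
  set H : LN := hL * algebraMap FN LN s with hHdef
  have hgenH : FN⟮H⟯ = ⊤ := KumU.adjoin_mul_base hL s hs0 htop
  have hHW : H ^ p = algebraMap FN LN W := by
    rw [hHdef, mul_pow, hhL, ← map_pow, ← map_mul]
    congr 1
    have hpow : s ^ p = s ^ (p - 1) * s := by
      rw [← pow_succ, Nat.sub_add_cancel hp.pos]
    rw [hWdef, hwdef, hpow, hsdef]
    field_simp
  have hgoodL : TSGoodBasis (A₀ := A₀) (E := E) (Lf := LN) π (algebraMap FN LN tF) :=
    BGBasis.tsGoodBasis_kummer π hπ.prime tF hp.pos hpπ H W hHW hWint hdeg hgenH nW hnW hnorm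
      hgoodF
  rw [htLF] at hgoodL
  -- the tame specialization theorem
  obtain ⟨P₀, -, hP₀, -⟩ := bgConst_exists_place LN tL ht₀
  haveI := hfin
  have hprime : Prime (algebraMap A₀ (integralClosure (Algebra.adjoin A₀ {tL}) LN) π) :=
    hTS A₀ E LN π hπ tL htrL (bgConst_mem_range_of_isAlgebraic LN) hgoodL S hS hram.1 e he hζe
      hram.2 ⟨P₀, hP₀⟩
  -- the automorphism
  obtain ⟨σ, hσfix, hσh⟩ := bg_aut' hp hζF hhL htop hwnot
  have hAL : ∀ a : A₀, algebraMap A₀ LN a = algebraMap FN LN (algebraMap A₀ FN a) :=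
    fun a => IsScalarTower.algebraMap_apply A₀ FN LN a
  have hσA : ∀ a : A₀, σ (algebraMap A₀ LN a) = algebraMap A₀ LN a := by
    intro a
    rw [hAL, hσfix]
  have hσt : σ tL = tL := by rw [← htLF, hσfix]
  have hσh' : σ hL = algebraMap A₀ LN ζ * hL := by rw [hσh, hAL]
  -- integrality in `Lf`
  have hintL : ∀ z : FN, IsIntegral (Algebra.adjoin A₀ {tF}) z →
      IsIntegral (Algebra.adjoin A₀ {tL}) (algebraMap FN LN z) := by
    intro z hz
    have := BGBasis.isIntegral_adjoin_map (Lf := LN) tF z hz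
    rwa [htLF] at this
  have hsC : IsIntegral (Algebra.adjoin A₀ {tL}) (algebraMap FN LN s) := hintL s hsint
  have hcC : IsIntegral (Algebra.adjoin A₀ {tL}) (algebraMap FN LN (aeval tF g * d)) :=
    hintL _ hG₃
  have hshC : IsIntegral (Algebra.adjoin A₀ {tL}) (algebraMap FN LN s * hL) := by
    have hH : IsIntegral (Algebra.adjoin A₀ {tL}) H := by
      apply IsIntegral.of_pow hp.pos
      rw [hHW]
      exact hintL W hWint
    rwa [hHdef, mul_comm] at hH
  -- `s` is not divisible by `π`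
  have hFL : ∀ f ∈ FN, ∃ z : LN, (LN).val z = f :=
    fun f hf => ⟨⟨f, le_kumField E N h hf⟩, rfl⟩
  have hτL : (LN).val tL = coeffMap ι t₀ := rfl
  have hsLcoe : (LN).val (algebraMap FN LN s) = coeffMap ι (aeval t₀ g * Y₂) := by
    rw [← hscoe, kum_algebraMap_eq]
    exact coe_kumIncl E N h s
  have hsLF : (LN).val (algebraMap FN LN s) ∈ FN := by
    rw [hsLcoe, ← hscoe]; exact s.2
  obtain ⟨hsg, hsgred⟩ := core_gaussRed_ne_zero r hinj _ hsLcoe hsred
  have hs : ¬ ∃ z' : LN, IsIntegral (Algebra.adjoin A₀ {tL}) z' ∧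
      algebraMap FN LN s = algebraMap A₀ LN π * z' :=
    core_not_dvd (LN).val kd hπ hrπ hr hFL hτL htrL (algebraMap FN LN s) hsLF hsg hsgred
  -- the product formula
  have hζL : IsPrimitiveRoot (algebraMap A₀ LN ζ) p := by
    rw [hAL]
    exact hζF.map_of_injective (algebraMap FN LN).injective
  have hprod : ∏ i ∈ Finset.range p, (hL - algebraMap A₀ LN ζ ^ i) = hL ^ p - 1 := by
    have h1 := X_pow_sub_C_eq_prod hζL hp.pos (one_pow p : (1 : LN) ^ p = 1)
    have h2 := congrArg (Polynomial.eval hL) h1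
    rw [Polynomial.eval_sub, Polynomial.eval_pow, Polynomial.eval_X, Polynomial.eval_C,
      Polynomial.eval_prod] at h2
    rw [h2]
    refine Finset.prod_congr rfl fun i _ => ?_
    rw [Polynomial.eval_sub, Polynomial.eval_X, Polynomial.eval_C, mul_one]
  -- the congruence
  have hw : (hL ^ p - 1) * algebraMap FN LN s
      = algebraMap A₀ LN π * algebraMap FN LN (aeval tF g * d) := by
    rw [hhL, hAL, ← map_one (algebraMap FN LN), ← map_sub, ← map_mul, ← map_mul]
    congr 1
    have h1 : (w - 1) * y₂ = y₁ - y₂ := by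
      rw [hwdef]; field_simp
    calc (w - 1) * s = aeval tF g * ((w - 1) * y₂) := by rw [hsdef]; ring
      _ = aeval tF g * (algebraMap A₀ FN π * d) := by rw [h1, hyd]
      _ = algebraMap A₀ FN π * (aeval tF g * d) := by ring
  exact endGame π tL hprime σ hσA hσt ζ u hζu hsC hsC hcC (hσfix s) hs hs hshC hσh' hprod hw

end Core

/-- `InjCoreStmt` follows from the tame specialization theorem. -/
theorem injCoreStmt_of_tameSpec (hTS : TameSpecStmt.{0}) : InjCoreStmt := by
  intro A₀ E k _ _ _ _ _ _ _ _ r N h π hπ hrπ hr t₀ n x kd ht₀ p hp hpπ ζ u hζ hζu Y₁ Y₂ h₁ h₂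
    hred hne hh hnot hgoodF hfin S hS e he hζe hram
  exact injCore r N h hTS hπ hrπ hr kd ht₀ hp hpπ ζ u hζ hζu Y₁ Y₂ h₁ h₂ hred hne hh hnot
    hgoodF hfin S hS e he hζe hram

end Fermat.Agent.INJ

end
end ZBINJ_009_4

/-! ### bundled: `Fermat.Agent.INJ.DescentLevel` -/
section ZBINJ_009_5

/-!
# (INJ) DESCENT-LEVEL: descent of `StmtINJ` along `F_N ⊆ F_{N'}`

`F_N = modularFunctionFieldBar N ⊆ ℚ̄((q))`.  If `F_N ⊆ F_{N'}` has finite degree prime to `p`,
then `StmtINJ N' ℓ p → StmtINJ N ℓ p`: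

* a place of `F_{N'}` restricts to a place of `F_N` (`AbhP.exists_place_restrict`), so the
  divisor hypothesis at level `N` gives the divisor hypothesis at level `N'`;
* `w = Y₁ / Y₂ ∈ F_N` is then a `p`-th power in `F_{N'}`, hence in `F_N` by the norm
  (`descent_pow_intermediate`).

Instances: `N' = N * ℓ'` for a prime `ℓ' ∤ N` (degree `ℓ' + 1`), in particular
`N' = lcm 2 N` for `p ≠ 3` and `N' = lcm 3 N` for `p ≠ 2` — the auxiliary levels of the
Hauptmodul lines of `X₀(2)` (`ℓ = 3`) and `X₀(3)` (`ℓ = 2`).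
-/

set_option autoImplicit false

namespace Fermat.Agent.INJ

open ModularCurve AlgebraicCurve IntermediateField

/-- the coefficientwise inclusion `A((q)) → ℚ̄((q))` is injective -/
theorem dl_coeffMap_subtype_ne_zero (A : ValuationSubring (AlgebraicClosure ℚ))
    {Y : LaurentSeries A} (hY : coeffMap (IsLocalRing.residue A) Y ≠ 0) :
    coeffMap A.subtype Y ≠ 0 := by
  intro h0
  apply hY
  have hY0 : Y = 0 := by
    ext k
    have h1 := congrArg (fun z : LaurentSeries (AlgebraicClosure ℚ) => z.coeff k) h0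
    simp only [coeffMap_coeff, HahnSeries.coeff_zero] at h1
    rw [HahnSeries.coeff_zero]
    simpa using h1
  rw [hY0, map_zero]

/-- Finite-dimensionality of `extendScalars` from `relfinrank ≠ 0`. -/
theorem dl_finite_extendScalars {k Ω : Type*} [Field k] [Field Ω] [Algebra k Ω]
    {K L : IntermediateField k Ω} (hle : K ≤ L) (hfin : K.relfinrank L ≠ 0) :
    FiniteDimensional K (IntermediateField.extendScalars hle) := by
  have h1 : K.relrank L < Cardinal.aleph0 := by
    by_contra hge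
    exact hfin (by
      rw [relfinrank_eq_toNat_relrank, Cardinal.toNat_eq_zero]
      exact Or.inr (not_lt.mp hge))
  rw [relrank_eq_rank_of_le hle] at h1
  exact Module.rank_lt_aleph0_iff.mp h1

/-- Norm descent for intermediate fields, in terms of `relfinrank`. -/
theorem dl_descent_pow {k Ω : Type*} [Field k] [Field Ω] [Algebra k Ω]
    {K L : IntermediateField k Ω} (hle : K ≤ L) (hfin : K.relfinrank L ≠ 0)
    {p : ℕ} (hcop : Nat.Coprime (K.relfinrank L) p)
    (u h : Ω) (huK : u ∈ K) (hhL : h ∈ L) (hu : u = h ^ p) : ∃ g ∈ K, u = g ^ p := by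
  have hrk : Module.finrank K (IntermediateField.extendScalars hle) = K.relfinrank L :=
    (IntermediateField.relfinrank_eq_finrank_of_le hle).symm
  have hfd : FiniteDimensional K (IntermediateField.extendScalars hle) :=
    dl_finite_extendScalars hle hfin
  exact descent_pow_intermediate K L hle (p := p) (by rw [hrk]; exact hcop) u h huK hhL hu

/-- Restriction of places for intermediate fields `K ≤ L` of finite relative degree. -/
theorem dl_place_restrict {k Ω : Type*} [Field k] [Field Ω] [Algebra k Ω]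
    {K L : IntermediateField k Ω} (hle : K ≤ L) (hfin : K.relfinrank L ≠ 0)
    (P' : Place k L) :
    ∃ (P : Place k K) (ε : ℤ), 0 < ε ∧
      ∀ (y : Ω) (hy : y ∈ K), y ≠ 0 → P'.ord (⟨y, hle hy⟩ : L) = ε * P.ord (⟨y, hy⟩ : K) := by
  let alg : Algebra K L := (IntermediateField.inclusion hle).toRingHom.toAlgebra
  have htower : IsScalarTower k K L := IsScalarTower.of_algebraMap_eq (fun _ => rfl)
  have hfd : FiniteDimensional K L := Fermat.Agent.ES.G2.hdeg_finite_inclusion hle hfin
  obtain ⟨P, ε, hε, hP⟩ := AbhP.exists_place_restrict (E := k) (L := K) (L' := L) P'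
  refine ⟨P, ε, hε, fun y hy hy0 => ?_⟩
  have e1 := hP ⟨y, hy⟩ (fun h0 => hy0 (congrArg Subtype.val h0))
  have a1 : algebraMap K L ⟨y, hy⟩ = ⟨y, hle hy⟩ := rfl
  rw [a1] at e1
  exact e1

/-- **DESCENT-LEVEL**, generic form. -/
theorem stmtINJ_descent_of_le (N N' ℓ p : ℕ)
    (hle : modularFunctionFieldBar N ≤ modularFunctionFieldBar N')
    (hfin : (modularFunctionFieldBar N).relfinrank (modularFunctionFieldBar N') ≠ 0)
    (hcop : Nat.Coprime ((modularFunctionFieldBar N).relfinrank (modularFunctionFieldBar N')) p)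
    (h : StmtINJ N' ℓ p) : StmtINJ N ℓ p := by
  intro A hA Y₁ Y₂ h₁ h₂ hred hne hpl
  have h₁' : coeffMap A.subtype Y₁ ∈ modularFunctionFieldBar N' := hle h₁
  have h₂' : coeffMap A.subtype Y₂ ∈ modularFunctionFieldBar N' := hle h₂
  have hy₂ : coeffMap A.subtype Y₂ ≠ 0 := dl_coeffMap_subtype_ne_zero A hne
  have hy₁ : coeffMap A.subtype Y₁ ≠ 0 := dl_coeffMap_subtype_ne_zero A (by rw [hred]; exact hne)
  obtain ⟨h', hh'⟩ := h A hA Y₁ Y₂ h₁' h₂' hred hne (fun P' => by
    obtain ⟨P, ε, -, hP⟩ := dl_place_restrict hle hfin P'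
    rw [hP _ h₁ hy₁, hP _ h₂ hy₂, ← mul_sub]
    exact Dvd.dvd.mul_left (hpl P) ε)
  -- `u = Y₁ / Y₂` is a `p`-th power in `F_{N'}`
  have hval : (h' : LaurentSeries (AlgebraicClosure ℚ)) ^ p * coeffMap A.subtype Y₂
      = coeffMap A.subtype Y₁ := by
    have := congrArg Subtype.val hh'
    simpa using this
  have hu : coeffMap A.subtype Y₁ * (coeffMap A.subtype Y₂)⁻¹
      = (h' : LaurentSeries (AlgebraicClosure ℚ)) ^ p := by
    rw [← hval, mul_assoc, mul_inv_cancel₀ hy₂, mul_one]
  obtain ⟨g, hg, hug⟩ := dl_descent_pow hle hfin hcop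
    (coeffMap A.subtype Y₁ * (coeffMap A.subtype Y₂)⁻¹) (h' : LaurentSeries (AlgebraicClosure ℚ))
    (mul_mem h₁ (inv_mem h₂)) h'.2 hu
  refine ⟨⟨g, hg⟩, ?_⟩
  apply Subtype.ext
  show g ^ p * coeffMap A.subtype Y₂ = coeffMap A.subtype Y₁
  rw [← hug, mul_assoc, inv_mul_cancel₀ hy₂, mul_one]

/-- **DESCENT-LEVEL** along `N ∣ N * ℓ'`, `ℓ'` a prime not dividing `N`, `p` prime to `ℓ' + 1`. -/
theorem stmtINJ_descent_mul_prime (N ℓ' ℓ p : ℕ) (hN : N ≠ 0) (hℓ' : ℓ'.Prime) (hℓ'N : ¬ ℓ' ∣ N)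
    (hcop : Nat.Coprime (ℓ' + 1) p) (h : StmtINJ (N * ℓ') ℓ p) : StmtINJ N ℓ p := by
  have : NeZero N := ⟨hN⟩
  have : NeZero ℓ' := ⟨hℓ'.ne_zero⟩
  have hdeg := Fermat.Agent.ES.G2.hdeg_relfinrank N ℓ' hℓ' hℓ'N
  refine stmtINJ_descent_of_le N (N * ℓ') ℓ p (Fermat.Agent.ES.G2.hdeg_bar_le N ℓ') ?_ ?_ h
  · rw [hdeg]; exact Nat.succ_ne_zero ℓ'
  · rw [hdeg]; exact hcop

/-- **DESCENT-LEVEL** along `N ∣ lcm ℓ' N`, `ℓ'` prime, `p` prime to `ℓ' + 1`. -/
theorem stmtINJ_descent_lcm (N ℓ' ℓ p : ℕ) (hN : N ≠ 0) (hℓ' : ℓ'.Prime)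
    (hcop : Nat.Coprime (ℓ' + 1) p) (h : StmtINJ (Nat.lcm ℓ' N) ℓ p) : StmtINJ N ℓ p := by
  by_cases hd : ℓ' ∣ N
  · rwa [Nat.lcm_eq_right hd] at h
  · have hc : Nat.Coprime ℓ' N := (Nat.Prime.coprime_iff_not_dvd hℓ').mpr hd
    rw [hc.lcm_eq_mul, Nat.mul_comm] at h
    exact stmtINJ_descent_mul_prime N ℓ' ℓ p hN hℓ' hd hcop h

/-- **DESCENT-LEVEL for `ℓ = 3`**: the auxiliary level `lcm 2 N` (Hauptmodul line of `X₀(2)`). -/
theorem stmtINJ_descent_three (N p : ℕ) (hN : N ≠ 0) (hp : p.Prime) (hp3 : 3 ≠ p)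
    (h : StmtINJ (Nat.lcm 2 N) 3 p) : StmtINJ N 3 p := by
  refine stmtINJ_descent_lcm N 2 3 p hN Nat.prime_two ?_ h
  exact (Nat.coprime_primes Nat.prime_three hp).mpr hp3

/-- **DESCENT-LEVEL for `ℓ = 2`**: the auxiliary level `lcm 3 N` (Hauptmodul line of `X₀(3)`). -/
theorem stmtINJ_descent_two (N p : ℕ) (hN : N ≠ 0) (hp : p.Prime) (hp2 : 2 ≠ p)
    (h : StmtINJ (Nat.lcm 3 N) 2 p) : StmtINJ N 2 p := by
  refine stmtINJ_descent_lcm N 3 2 p hN Nat.prime_three ?_ h
  have h2 : Nat.Coprime 2 p := (Nat.coprime_primes Nat.prime_two hp).mpr hp2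
  have : (3 + 1 : ℕ) = 2 ^ 2 := by norm_num
  rw [this]
  exact Nat.Coprime.pow_left 2 h2

/-- The auxiliary levels are prime to `ℓ`. -/
theorem dl_not_dvd_lcm_two {N : ℕ} (h3 : ¬ 3 ∣ N) : ¬ 3 ∣ Nat.lcm 2 N := by
  intro h
  have h1 : Nat.lcm 2 N ∣ 2 * N := Nat.lcm_dvd_mul 2 N
  have h2 : 3 ∣ 2 * N := dvd_trans h h1
  rcases (Nat.Prime.dvd_mul Nat.prime_three).mp h2 with h2 | h2
  · exact absurd h2 (by norm_num)
  · exact h3 h2

theorem dl_not_dvd_lcm_three {N : ℕ} (h2 : ¬ 2 ∣ N) : ¬ 2 ∣ Nat.lcm 3 N := by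
  intro h
  have h1 : Nat.lcm 3 N ∣ 3 * N := Nat.lcm_dvd_mul 3 N
  have h3 : 2 ∣ 3 * N := dvd_trans h h1
  rcases (Nat.Prime.dvd_mul Nat.prime_two).mp h3 with h3 | h3
  · exact absurd h3 (by norm_num)
  · exact h2 h3

end Fermat.Agent.INJ


end ZBINJ_009_5

/-! ### bundled: `Fermat.Agent.INJ.NTamePlaces` -/
section ZBINJ_009_6

/-!
# INJ piece T4b: the hypotheses of (N-good) for the Kummer base change `(Lf(s), s)`

Setting of `NTameStmt` (TSPlan.lean): `τ : Lf`, `c : A₀`, `L' = Lf(s)`, `s ^ e = τ - c`,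
the ramification indices of `Lf` over `τ = c` divide `e`, and every irreducible `r ∈ A₀[τ]` through
the point `m` is unramified at the places `P` with `ord_P (τ - c) = 0`.

`Fermat.Agent.INJ.NTame.ntame_places`: then every irreducible `r' ∈ A₀[s]` through a point `m'`
over `m` is unramified in `L'`: `0 < ord_{P'} r' → ord_{P'} r' = 1`.

Proof: `r' = f(s)`, `f` irreducible in `A₀[X]`.
* `ord_{P'} s < 0` is impossible (leading term).
* `ord_{P'} s > 0`: Abhyankar (`AbhP.place_ord_root_eq_one`) gives `ord s = 1`; `f(0) = 0`, so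
  `f ~ X`.
* `ord_{P'} s = 0`: `P'` restricts to a place `P` of `Lf` with the same `ord`
  (`AbhP.exists_place_restrict_unramified`); `f ∣ g (X ^ e + c)` with `g` irreducible
  (`exists_irreducible_comp_dvd`), `r := g(τ) ∈ m`, `ord_P r = 1`, so `ord_{P'} f(s) ≤ 1`.
-/

set_option autoImplicit false
set_option linter.unusedSectionVars false

open AlgebraicCurve WithZero Polynomial

namespace Fermat.Agent.INJ.NTame

open Fermat.Agent.S24 Fermat.Agent.INJ.AbhP

section val

variable {A₀ K : Type*} [CommRing A₀] [Field K] [Algebra A₀ K] (v : Valuation K ℤᵐ⁰)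

theorem val_aeval_le_one (hA : ∀ a : A₀, v (algebraMap A₀ K a) ≤ 1) {s : K} (hs : v s ≤ 1)
    (h : A₀[X]) : v (aeval s h) ≤ 1 := by
  rw [aeval_eq_sum_range]
  refine v.map_sum_le fun i _ => ?_
  rw [Algebra.smul_def, map_mul, map_pow]
  exact mul_le_one' (hA _) (pow_le_one' hs i)

theorem val_aeval_of_one_lt (hA : ∀ a : A₀, a ≠ 0 → v (algebraMap A₀ K a) = 1) {s : K}
    (hs : 1 < v s) {f : A₀[X]} (hf : f ≠ 0) : v (aeval s f) = v s ^ f.natDegree := by
  have hs0 : v s ≠ 0 := (zero_lt_one.trans hs).ne'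
  have hlead : v (f.coeff f.natDegree • s ^ f.natDegree) = v s ^ f.natDegree := by
    rw [Algebra.smul_def, map_mul, hA (f.coeff f.natDegree) (leadingCoeff_ne_zero.mpr hf),
      one_mul, map_pow]
  have hlt : v (∑ i ∈ Finset.range f.natDegree, f.coeff i • s ^ i) < v s ^ f.natDegree := by
    refine v.map_sum_lt (pow_ne_zero _ hs0) fun i hi => ?_
    rw [Algebra.smul_def, map_mul, map_pow]
    have h1 : v (algebraMap A₀ K (f.coeff i)) ≤ 1 := by
      rcases eq_or_ne (f.coeff i) 0 with h0 | h0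
      · rw [h0, map_zero, map_zero]; exact zero_le_one
      · exact (hA _ h0).le
    calc v (algebraMap A₀ K (f.coeff i)) * v s ^ i ≤ 1 * v s ^ i := by gcongr
      _ = v s ^ i := one_mul _
      _ < v s ^ f.natDegree := pow_lt_pow_right₀ hs (Finset.mem_range.mp hi)
  rw [aeval_eq_sum_range, Finset.sum_range_succ, add_comm,
    Valuation.map_add_eq_of_lt_left v (by rw [hlead]; exact hlt), hlead]

theorem coeff_zero_eq_zero_of_val_lt_one (hA : ∀ a : A₀, a ≠ 0 → v (algebraMap A₀ K a) = 1)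
    {s : K} (hs : v s < 1) {f : A₀[X]} (hf : v (aeval s f) < 1) : f.coeff 0 = 0 := by
  by_contra h0
  have hA' : ∀ a : A₀, v (algebraMap A₀ K a) ≤ 1 := fun a => by
    rcases eq_or_ne a 0 with h | h
    · rw [h, map_zero, map_zero]; exact zero_le_one
    · exact (hA a h).le
  have hdec : aeval s f = aeval s f.divX * s + algebraMap A₀ K (f.coeff 0) := by
    conv_lhs => rw [← divX_mul_X_add f]
    simp
  have h1 : v (aeval s f.divX * s) < 1 := by
    rw [map_mul]
    calc v (aeval s f.divX) * v s ≤ 1 * v s := by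
          gcongr
          exact val_aeval_le_one v hA' hs.le _
      _ = v s := one_mul _
      _ < 1 := hs
  have h2 : v (aeval s f) = 1 := by
    rw [hdec, add_comm, Valuation.map_add_eq_of_lt_left v (by rw [hA _ h0]; exact h1), hA _ h0]
  rw [h2] at hf
  exact lt_irrefl _ hf

end val

section ord

variable {A₀ E L' : Type*} [CommRing A₀] [IsDomain A₀] [Field E] [Algebra A₀ E]
  [IsFractionRing A₀ E] [Field L'] [Algebra E L'] [Algebra A₀ L'] [IsScalarTower A₀ E L']

theorem adic_algebraMap_base (P' : Place E L') {a : A₀} (ha : a ≠ 0) :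
    P'.adicValuation (algebraMap A₀ L' a) = 1 := by
  rw [IsScalarTower.algebraMap_apply A₀ E L']
  exact adic_const P' (by
    rwa [ne_eq, map_eq_zero_iff _ (IsFractionRing.injective A₀ E)])

theorem ord_lt_zero_iff (P' : Place E L') {x : L'} (hx : x ≠ 0) :
    P'.ord x < 0 ↔ 1 < P'.adicValuation x := by
  rw [adic_eq_exp P' hx, ← WithZero.exp_zero, WithZero.exp_lt_exp]
  omega

theorem ord_pos_iff_adic (P' : Place E L') {x : L'} (hx : x ≠ 0) :
    0 < P'.ord x ↔ P'.adicValuation x < 1 := by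
  rw [adic_eq_exp P' hx, ← WithZero.exp_zero, WithZero.exp_lt_exp]
  omega

theorem ord_nonneg_iff_adic (P' : Place E L') {x : L'} (hx : x ≠ 0) :
    0 ≤ P'.ord x ↔ P'.adicValuation x ≤ 1 := by
  rw [adic_eq_exp P' hx, ← WithZero.exp_zero, WithZero.exp_le_exp]
  omega

/-- `ord (h(s)) ≥ 0` at a place where `ord s ≥ 0`. -/
theorem ord_aeval_nonneg (P' : Place E L') {s : L'} (hs : 0 ≤ P'.ord s) (h : A₀[X]) :
    0 ≤ P'.ord (aeval s h) := by
  rcases eq_or_ne (aeval s h) 0 with h0 | h0
  · rw [h0, Place.ord_zero]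
  · rw [ord_nonneg_iff_adic P' h0]
    refine val_aeval_le_one _ (fun a => ?_) ?_ h
    · rcases eq_or_ne a 0 with h | h
      · rw [h, map_zero, map_zero]; exact zero_le_one
      · exact (adic_algebraMap_base P' h).le
    · rcases eq_or_ne s 0 with h | h
      · rw [h, map_zero]; exact zero_le_one
      · exact (ord_nonneg_iff_adic P' h).mp hs

/-- `ord (f(s)) ≤ 0` at a place where `ord s < 0`. -/
theorem ord_aeval_nonpos_of_neg (P' : Place E L') {s : L'} (hs : P'.ord s < 0) (f : A₀[X]) :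
    P'.ord (aeval s f) ≤ 0 := by
  rcases eq_or_ne (aeval s f) 0 with h0 | h0
  · rw [h0, Place.ord_zero]
  · have hs0 : s ≠ 0 := by
      rintro rfl
      rw [Place.ord_zero] at hs
      exact lt_irrefl _ hs
    have hf : f ≠ 0 := by
      rintro rfl
      exact h0 (map_zero _)
    have h1 : 1 < P'.adicValuation s := (ord_lt_zero_iff P' hs0).mp hs
    have h2 := val_aeval_of_one_lt P'.adicValuation (fun a ha => adic_algebraMap_base P' ha) h1 hf
    by_contra hcon
    push Not at hcon
    have h3 := (ord_pos_iff_adic P' h0).mp hcon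
    rw [h2] at h3
    exact absurd h3 (not_lt.mpr (one_le_pow₀ h1.le))

/-- At a place where `ord s > 0`, `ord (f(s)) > 0` forces `f(0) = 0`. -/
theorem coeff_zero_eq_zero_of_ord_pos (P' : Place E L') {s : L'} (hs : 0 < P'.ord s)
    {f : A₀[X]} (hf : 0 < P'.ord (aeval s f)) : f.coeff 0 = 0 := by
  have hs0 : s ≠ 0 := by
    rintro rfl
    rw [Place.ord_zero] at hs
    exact lt_irrefl _ hs
  have hf0 : aeval s f ≠ 0 := by
    intro h
    rw [h, Place.ord_zero] at hf
    exact lt_irrefl _ hf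
  exact coeff_zero_eq_zero_of_val_lt_one P'.adicValuation
    (fun a ha => adic_algebraMap_base P' ha) ((ord_pos_iff_adic P' hs0).mp hs)
    ((ord_pos_iff_adic P' hf0).mp hf)

end ord

section main

variable {A₀ E Lf L' : Type*} [CommRing A₀] [IsDomain A₀] [UniqueFactorizationMonoid A₀]
  [Field E] [Algebra A₀ E] [IsFractionRing A₀ E] [CharZero E]
  [Field Lf] [Algebra E Lf] [Algebra A₀ Lf] [IsScalarTower A₀ E Lf]
  [Field L'] [Algebra E L'] [Algebra Lf L'] [Algebra A₀ L']
  [IsScalarTower E Lf L'] [IsScalarTower A₀ E L'] [IsScalarTower A₀ Lf L']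

/-- **T4b.**  The unramifiedness hypothesis of `NGoodStmt` for `(L', s)` at an ideal `m'` lying
over `m`, from the hypotheses of `NTameStmt` for `(Lf, τ)` at `m`. -/
theorem ntame_places (τ : Lf) (hτ : Transcendental E τ) (c : A₀) (e : ℕ) (he : e ≠ 0)
    (s : L') (hs : s ^ e = algebraMap Lf L' (τ - algebraMap A₀ Lf c))
    (hgen : IntermediateField.adjoin Lf {s} = ⊤) (hstr : Transcendental E s)
    (htame : ∀ P : Place E Lf, 0 < P.ord (τ - algebraMap A₀ Lf c) →
      P.ord (τ - algebraMap A₀ Lf c) ∣ (e : ℤ))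
    (m : Ideal (integralClosure (Algebra.adjoin A₀ {τ}) Lf))
    (m' : Ideal (integralClosure (Algebra.adjoin A₀ {s}) L'))
    (hmm' : ∀ (x : integralClosure (Algebra.adjoin A₀ {τ}) Lf)
      (x' : integralClosure (Algebra.adjoin A₀ {s}) L'),
      (x' : L') = algebraMap Lf L' (x : Lf) → x' ∈ m' → x ∈ m)
    (hunr : ∀ (P : Place E Lf) (r : Algebra.adjoin A₀ {τ}), Irreducible r →
      algebraMap (Algebra.adjoin A₀ {τ}) (integralClosure (Algebra.adjoin A₀ {τ}) Lf) r ∈ m →
      0 < P.ord (r : Lf) → P.ord (τ - algebraMap A₀ Lf c) = 0 → P.ord (r : Lf) = 1)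
    (P' : Place E L') (r' : Algebra.adjoin A₀ {s}) (hr' : Irreducible r')
    (hr'm : algebraMap (Algebra.adjoin A₀ {s}) (integralClosure (Algebra.adjoin A₀ {s}) L') r'
      ∈ m')
    (hpos : 0 < P'.ord (r' : L')) : P'.ord (r' : L') = 1 := by
  classical
  have hinj : Function.Injective (algebraMap A₀ E) := IsFractionRing.injective A₀ E
  have hsA : Transcendental A₀ s := hstr.restrictScalars hinj
  have hτA : Transcendental A₀ τ := hτ.restrictScalars hinj
  obtain ⟨f, rfl⟩ := exists_eq_adjoinEquiv hsA r'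
  have hf : Irreducible f := (irreducible_adjoinEquiv_iff hsA f).mp hr'
  rw [adjoinEquiv_coe] at hpos ⊢
  have hs0 : s ≠ 0 := fun h => hstr (h ▸ isAlgebraic_zero)
  have hφτ : algebraMap Lf L' τ = s ^ e + algebraMap A₀ L' c := by
    rw [hs, map_sub, ← IsScalarTower.algebraMap_apply A₀ Lf L']
    ring
  rcases lt_trichotomy (P'.ord s) 0 with hneg | hzero | hspos
  · -- the pole of `s`
    exfalso
    have := ord_aeval_nonpos_of_neg P' hneg f
    omega
  · -- `ord s = 0`: unramified base change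
    obtain ⟨P, hP⟩ := exists_place_restrict_unramified (E := E)
      (τ - algebraMap A₀ Lf c) s e he hs hs0 hgen P' hzero
    obtain ⟨g, hg, h, hfg⟩ := exists_irreducible_comp_dvd e he c hf
    have key : algebraMap Lf L' (aeval τ g) = aeval s f * aeval s h := by
      rw [← map_mul, ← hfg, aeval_comp, ← aeval_algebraMap_apply, hφτ]
      simp
    have hr : Irreducible (adjoinEquiv hτA g) := (irreducible_adjoinEquiv_iff hτA g).mpr hg
    have hrm : algebraMap (Algebra.adjoin A₀ {τ}) (integralClosure (Algebra.adjoin A₀ {τ}) Lf)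
        (adjoinEquiv hτA g) ∈ m := by
      refine hmm' _ (algebraMap (Algebra.adjoin A₀ {s})
        (integralClosure (Algebra.adjoin A₀ {s}) L') (adjoinEquiv hsA f) *
        algebraMap (Algebra.adjoin A₀ {s})
        (integralClosure (Algebra.adjoin A₀ {s}) L') (adjoinEquiv hsA h)) ?_
        (m'.mul_mem_right _ hr'm)
      exact key.symm
    have hg0 : aeval τ g ≠ 0 := fun h0 => hg.ne_zero (transcendental_iff.mp hτA g h0)
    have hprod : aeval s f * aeval s h ≠ 0 := by
      rw [← key]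
      simpa using hg0
    have hf0 : aeval s f ≠ 0 := left_ne_zero_of_mul hprod
    have hh0 : aeval s h ≠ 0 := right_ne_zero_of_mul hprod
    have hPr : P.ord (aeval τ g) = P'.ord (aeval s f) + P'.ord (aeval s h) := by
      rw [← hP, key, Place.ord_mul P' hf0 hh0]
    have h0 : 0 ≤ P'.ord (aeval s h) := ord_aeval_nonneg P' hzero.ge h
    have hτc : P.ord (τ - algebraMap A₀ Lf c) = 0 := by
      rw [← hP, ← hs, ← zpow_natCast, Place.ord_zpow, hzero, mul_zero]
    have h1 := hunr P (adjoinEquiv hτA g) hr hrm (by rw [adjoinEquiv_coe]; omega) hτc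
    rw [adjoinEquiv_coe] at h1
    omega
  · -- `ord s > 0`: Abhyankar
    have h1 := place_ord_root_eq_one (E := E) (τ - algebraMap A₀ Lf c) s e he hs hgen htame
      P' hspos
    have hc0 : f.coeff 0 = 0 := coeff_zero_eq_zero_of_ord_pos P' hspos hpos
    obtain ⟨q, hq⟩ : X ∣ f := X_dvd_iff.mpr hc0
    have hqu : IsUnit q := (hf.isUnit_or_isUnit hq).resolve_left not_isUnit_X
    obtain ⟨u, hu, rfl⟩ := Polynomial.isUnit_iff.mp hqu
    have hu0 : algebraMap A₀ L' u ≠ 0 := by
      rw [IsScalarTower.algebraMap_apply A₀ E L']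
      simpa [map_eq_zero_iff _ hinj] using hu.ne_zero
    have hou : P'.ord (algebraMap A₀ L' u) = 0 := by
      rw [IsScalarTower.algebraMap_apply A₀ E L']
      exact PlaceAux.ord_algebraMap P' _
    rw [hq, map_mul, aeval_X, aeval_C, Place.ord_mul P' hs0 hu0, h1, hou, add_zero]

end main

end Fermat.Agent.INJ.NTame


end ZBINJ_009_6

/-! ### bundled: `Fermat.Agent.INJ.NTameWire` -/
section ZBINJ_009_7

/-!
# INJ piece T4: `NTameStmt` from `NGoodStmt`, the Kummer setup (T4a), the places (T4b) and the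
descent to invariants (T4c)

`NTameDescentStmt` is the exact statement of T4c: if `π` is locally prime in
`C' = integralClosure A₀[s] L'` at every maximal ideal `m'` over `m`, then `π` is locally prime in
`C = integralClosure A₀[τ] Lf` at `m` (`L'/Lf` finite Galois, `s ^ e = τ - c`).

`nTameStmt_of : NGoodStmt → NTameDescentStmt → NTameStmt`.
-/

set_option autoImplicit false
set_option linter.style.haveILetI false

namespace Fermat.Agent.INJ

open Polynomial IntermediateField AlgebraicCurve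

universe u

/-- **T4c (statement)**: descent of local primeness of `π` along the Kummer base change. -/
def NTameDescentStmt : Prop :=
  ∀ (A₀ E Lf L' : Type u) [CommRing A₀] [IsDomain A₀] [IsDiscreteValuationRing A₀]
    [Field E] [Algebra A₀ E] [IsFractionRing A₀ E] [CharZero E]
    [Field Lf] [Algebra E Lf] [Algebra A₀ Lf] [IsScalarTower A₀ E Lf]
    [Field L'] [Algebra E L'] [Algebra Lf L'] [Algebra A₀ L']
    [IsScalarTower E Lf L'] [IsScalarTower A₀ E L'] [IsScalarTower A₀ Lf L']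
    [FiniteDimensional Lf L'] [IsGalois Lf L']
    (π : A₀) (τ : Lf) (c : A₀) (e : ℕ) (_ : e ≠ 0) (s : L')
    (_ : s ^ e = algebraMap Lf L' (τ - algebraMap A₀ Lf c))
    (m : Ideal (integralClosure (Algebra.adjoin A₀ {τ}) Lf)) (_ : m.IsMaximal)
    (_ : algebraMap A₀ (integralClosure (Algebra.adjoin A₀ {τ}) Lf) π ∈ m)
    (_ : ∀ m' : Ideal (integralClosure (Algebra.adjoin A₀ {s}) L'), m'.IsMaximal →
       algebraMap A₀ (integralClosure (Algebra.adjoin A₀ {s}) L') π ∈ m' →
       (∀ (x : integralClosure (Algebra.adjoin A₀ {τ}) Lf)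
          (x' : integralClosure (Algebra.adjoin A₀ {s}) L'),
          (x' : L') = algebraMap Lf L' (x : Lf) → (x' ∈ m' ↔ x ∈ m)) →
       LocDomainAt (integralClosure (Algebra.adjoin A₀ {s}) L')
         (algebraMap A₀ (integralClosure (Algebra.adjoin A₀ {s}) L') π) m'),
    LocDomainAt (integralClosure (Algebra.adjoin A₀ {τ}) Lf)
      (algebraMap A₀ (integralClosure (Algebra.adjoin A₀ {τ}) Lf) π) m

/-- **T4.**  (N-tame) follows from (N-good) and the descent T4c. -/
theorem nTameStmt_of (hN : NGoodStmt.{u}) (hD : NTameDescentStmt.{u}) : NTameStmt.{u} := by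
  intro A₀ E Lf _ _ _ _ _ _ _ _ _ _ _ π hπ τ hτ _ hgb c e he hζ htame hP₀ m hmax hπm _ hunr
  have he0 : e ≠ 0 := by
    rintro rfl
    simp at he
  obtain ⟨L', hF, hAE, hAL, hAA, hT1, hT2, hT3, s, hs, hgen, hstr, hfd, hgb', hfdL, hgal⟩ :=
    exists_kummerSetup π hπ τ hτ hgb c e he hζ hP₀
  letI := hF
  letI := hAE
  letI := hAL
  letI := hAA
  haveI := hT1
  haveI := hT2
  haveI := hT3
  haveI := hfd
  haveI := hfdL
  haveI := hgal
  refine hD A₀ E Lf L' π τ c e he0 s hs m hmax hπm ?_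
  intro m' hm' hπm' hcompat
  refine hN A₀ E L' π hπ s hstr hgb' m' hm' hπm' ?_
  intro P' r' hr' hr'm hpos
  exact NTame.ntame_places τ hτ c e he0 s hs hgen hstr htame m m'
    (fun x x' hx hx' => (hcompat x x' hx).mp hx') hunr P' r' hr' hr'm hpos

end Fermat.Agent.INJ


end ZBINJ_009_7

/-! ### bundled: `Fermat.Agent.INJ.NormalTame` -/
section ZBINJ_009_8

/-!
# (INJ) piece NORM, N3: `NTameNormalStmt` from `NGoodNormalStmt` and the descent of normality

Mirror of `NTameWire.lean` with `NormalAt` in place of `LocDomainAt`.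

* `kummer_card` : for `L' = Lf(s)`, `s ^ e = a`, `X ^ e - a` irreducible, `L' / Lf` Galois:
  `Nat.card (L' ≃ₐ[Lf] L') = e`;
* `NTameNormalDescentStmt` : the statement of the descent (N2, concrete form): normality of
  `C' / π` at the maximal ideals `m'` over `m` implies normality of `C / π` at `m`, when the order
  of the Galois group is a unit of `A₀`;
* `nTameNormalStmt_of : NGoodNormalStmt → NTameNormalDescentStmt → NTameNormalStmt`.
-/

set_option autoImplicit false
set_option linter.style.haveILetI false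

namespace Fermat.Agent.INJ.Norm

open Polynomial IntermediateField AlgebraicCurve

universe u

/-- The Galois group of the Kummer extension `Lf(s) / Lf`, `s ^ e = a`, `X ^ e - a` irreducible,
has order `e`. -/
theorem kummer_card {Lf L' : Type*} [Field Lf] [Field L'] [Algebra Lf L']
    [FiniteDimensional Lf L'] [IsGalois Lf L']
    {e : ℕ} (he : e ≠ 0) {a : Lf} (hirr : Irreducible (X ^ e - C a : Lf[X])) (s : L')
    (hs : s ^ e = algebraMap Lf L' a) (hgen : IntermediateField.adjoin Lf {s} = ⊤) :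
    Nat.card (L' ≃ₐ[Lf] L') = e := by
  have hint : IsIntegral Lf s := IsIntegral.of_finite Lf s
  have hmin : (X ^ e - C a : Lf[X]) = minpoly Lf s := by
    refine minpoly.eq_of_irreducible_of_monic hirr ?_ (monic_X_pow_sub_C a he)
    rw [map_sub, map_pow, aeval_X, aeval_C, hs, sub_self]
  rw [IsGalois.card_aut_eq_finrank, ← IntermediateField.finrank_top', ← hgen,
    IntermediateField.adjoin.finrank hint, ← hmin, natDegree_X_pow_sub_C]

/-- **N2, concrete statement**: descent of normality of the special fibre along the Kummer base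
change, when the order of the Galois group is invertible. -/
def NTameNormalDescentStmt : Prop :=
  ∀ (A₀ E Lf L' : Type u) [CommRing A₀] [IsDomain A₀] [IsDiscreteValuationRing A₀]
    [Field E] [Algebra A₀ E] [IsFractionRing A₀ E] [CharZero E]
    [Field Lf] [Algebra E Lf] [Algebra A₀ Lf] [IsScalarTower A₀ E Lf]
    [Field L'] [Algebra E L'] [Algebra Lf L'] [Algebra A₀ L']
    [IsScalarTower E Lf L'] [IsScalarTower A₀ E L'] [IsScalarTower A₀ Lf L']
    [FiniteDimensional Lf L'] [IsGalois Lf L']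
    (π : A₀) (τ : Lf) (c : A₀) (e : ℕ) (_ : e ≠ 0) (s : L')
    (_ : s ^ e = algebraMap Lf L' (τ - algebraMap A₀ Lf c))
    (_ : IsUnit ((Nat.card (L' ≃ₐ[Lf] L') : ℕ) : A₀))
    (m : Ideal (integralClosure (Algebra.adjoin A₀ {τ}) Lf)) (_ : m.IsMaximal)
    (_ : algebraMap A₀ (integralClosure (Algebra.adjoin A₀ {τ}) Lf) π ∈ m)
    (_ : ∀ m' : Ideal (integralClosure (Algebra.adjoin A₀ {s}) L'), m'.IsMaximal →
       algebraMap A₀ (integralClosure (Algebra.adjoin A₀ {s}) L') π ∈ m' →
       (∀ (x : integralClosure (Algebra.adjoin A₀ {τ}) Lf)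
          (x' : integralClosure (Algebra.adjoin A₀ {s}) L'),
          (x' : L') = algebraMap Lf L' (x : Lf) → (x' ∈ m' ↔ x ∈ m)) →
       NormalAt (integralClosure (Algebra.adjoin A₀ {s}) L')
         (algebraMap A₀ (integralClosure (Algebra.adjoin A₀ {s}) L') π) m'),
    NormalAt (integralClosure (Algebra.adjoin A₀ {τ}) Lf)
      (algebraMap A₀ (integralClosure (Algebra.adjoin A₀ {τ}) Lf) π) m

/-- **N3.**  (N-tame, normal form) follows from (N-good, normal form) and the descent N2. -/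
theorem nTameNormalStmt_of (hN : NGoodNormalStmt.{u}) (hD : NTameNormalDescentStmt.{u}) :
    NTameNormalStmt.{u} := by
  intro A₀ E Lf _ _ _ _ _ _ _ _ _ _ _ π hπ τ hτ _ hgb c e he hζ htame hP₀ m hmax hπm _ hunr
  have he0 : e ≠ 0 := by
    rintro rfl
    simp at he
  have hirr : Irreducible (X ^ e - C (τ - algebraMap A₀ Lf c) : Lf[X]) := by
    obtain ⟨P₀, hP₀'⟩ := hP₀
    exact irreducible_X_pow_sub_C_of_ord he0 P₀ hP₀'
  obtain ⟨L', hF, hAE, hAL, hAA, hT1, hT2, hT3, s, hs, hgen, hstr, hfd, hgb', hfdL, hgal⟩ :=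
    exists_kummerSetup π hπ τ hτ hgb c e he hζ hP₀
  letI := hF
  letI := hAE
  letI := hAL
  letI := hAA
  haveI := hT1
  haveI := hT2
  haveI := hT3
  haveI := hfd
  haveI := hfdL
  haveI := hgal
  have hcard : IsUnit ((Nat.card (L' ≃ₐ[Lf] L') : ℕ) : A₀) := by
    rw [kummer_card he0 hirr s hs hgen]
    exact he
  refine hD A₀ E Lf L' π τ c e he0 s hs hcard m hmax hπm ?_
  intro m' hm' hπm' hcompat
  refine hN A₀ E L' π hπ s hstr hgb' m' hm' hπm' ?_
  intro P' r' hr' hr'm hpos
  exact NTame.ntame_places τ hτ c e he0 s hs hgen hstr htame m m'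
    (fun x x' hx hx' => (hcompat x x' hx).mp hx') hunr P' r' hr' hr'm hpos

end Fermat.Agent.INJ.Norm


end ZBINJ_009_8
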