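/- GENERATED FILE (helper35, build-time optimisation, NOTES/ZB.md): verbatim concatenation of the modules
   Fermat.Agent.UNIP.PowerInd
   Fermat.Agent.UNIP.LocalShape
   Fermat.Agent.UNIP.MGGalAct
   Fermat.Agent.UNIP.Adapter
   Fermat.Agent.UNIP.LocalShapeChart
   Fermat.Agent.UNIP.ATSmall
   Fermat.Agent.UNIP.AbstractT
   Fermat.Agent.UNIP.MGConcrete
   Fermat.Agent.S33.WildHor
   Fermat.Agent.STB.GluingInv
   Fermat.Agent.STB.GluingChart
   Do not edit; do not import together with these modules. -/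
import Mathlib
import Fermat.Agent.ZB.INJ_005
import Fermat.Agent.ZB.UNIP_001
import Fermat.Agent.ZB.UNIP_004
import Fermat.Agent.ZB.UNIP_006
import Fermat.Agent.ZB.INJ_031
import Fermat.Agent.ZB.S24_011
import Fermat.Prelude.Def_AlgebraicCurve_BaseChangeGalois
import Fermat.Agent.ZB.S28_002
import Fermat.Agent.ZB.INJ_011
import Fermat.Agent.ZB.S24_007
import Fermat.Agent.ZB.ES_003
import Fermat.Agent.ZB.UNIP_005

/-! ### bundled: `Fermat.Agent.UNIP.PowerInd` -/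
section ZBUNIP_007_0

/-!
# UNIP D5 (S34 / S35, direct route of `NOTES/S34-plan.md`): Step 2 (e) — from exponent `p` to `p ^ r`

Abstract setting (no modular forms):

* `F` a field (the function field `F′`);
* `V : κ → ValuationSubring F` the *vertical* valuation rings (the components of the special fibre);
* `O : ι → Subring F` the local rings `B′_𝔫` of the closed points `𝔫` (of all charts), each of them a
  local ring that is integrally closed in `F`; `J i` the ideal `π′ · O i`;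
* `inc i c` : the point `i` lies on the component `c`; then `J i ⊆ 𝔪 (V c)`;
* `ζ ∈ F` a primitive `p`-th root of unity lying in every `O i`, `V c`, with `ζ ^ k - 1` a unit there
  for `0 < k < p`.

`PwiShape V O J inc m w` ("`w` has the local shape for the exponent `m`"):
`w ≡ 1` at every vertical valuation, and at every closed point `w = ε · γ ^ m` with `ε ∈ O i`,
`ε ≡ 1 mod J i`, and `γ ≡ 1` at the vertical valuations through the point.

`pwi_exists_pow_eq` : if every `w` of shape `p` is a `p`-th power (Step 2 (a)–(d)), every point lies on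
a component and the incidence graph of the components is connected, then every `w` of shape
`p ^ r` is a `p ^ r`-th power.
-/

set_option autoImplicit false

namespace Fermat.Agent.UNIP

open Polynomial

variable {F : Type*} [Field F]

section Val

variable (V : ValuationSubring F)

theorem pwi_val_eq_one {x : F} (h : x - 1 ∈ V.nonunits) : V.valuation x = 1 := by
  rw [ValuationSubring.mem_nonunits_iff] at h
  have h1 : V.valuation (1 + (x - 1)) = 1 := V.valuation.map_one_add_of_lt h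
  rwa [add_sub_cancel] at h1

theorem pwi_mem_of_congr {x : F} (h : x - 1 ∈ V.nonunits) : x ∈ V :=
  (V.valuation_le_one_iff x).1 (pwi_val_eq_one V h).le

theorem pwi_congr_one : (1 : F) - 1 ∈ V.nonunits := by
  rw [sub_self]
  exact V.nonunits.zero_mem

theorem pwi_congr_mul {x y : F} (hx : x - 1 ∈ V.nonunits) (hy : y - 1 ∈ V.nonunits) :
    x * y - 1 ∈ V.nonunits := by
  have e : x * y - 1 = (x - 1) * y + (y - 1) := by ring
  rw [e]
  refine V.nonunits.add_mem ?_ hy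
  rw [ValuationSubring.mem_nonunits_iff, map_mul, pwi_val_eq_one V hy, mul_one]
  exact (ValuationSubring.mem_nonunits_iff V).1 hx

theorem pwi_congr_pow {x : F} (hx : x - 1 ∈ V.nonunits) (n : ℕ) : x ^ n - 1 ∈ V.nonunits := by
  induction n with
  | zero => rw [pow_zero]; exact pwi_congr_one V
  | succ n ih => rw [pow_succ]; exact pwi_congr_mul V ih hx

/-- multiplication of a non-unit by an element of `V` -/
theorem pwi_mul_mem_nonunits {a x : F} (ha : a ∈ V) (hx : x ∈ V.nonunits) :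
    a * x ∈ V.nonunits := by
  rw [ValuationSubring.mem_nonunits_iff] at hx ⊢
  rw [map_mul]
  exact Right.mul_lt_one_of_le_of_lt ((V.valuation_le_one_iff a).2 ha) hx

end Val

section Roots

/-- `∏_{k<p} (h - ζ^k) = h^p - 1`. -/
theorem pwi_prod_sub {p : ℕ} (hp : 0 < p) {ζ : F} (hζ : IsPrimitiveRoot ζ p) (h : F) :
    ∏ k ∈ Finset.range p, (h - ζ ^ k) = h ^ p - 1 := by
  have key := X_pow_sub_C_eq_prod hζ hp (one_pow p)
  have := congrArg (Polynomial.eval h) key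
  simp only [eval_sub, eval_pow, eval_X, eval_C, eval_prod, mul_one] at this
  exact this.symm

variable (V : ValuationSubring F)

theorem pwi_val_root {p : ℕ} (hp : 0 < p) {ζ : F} (hζ : IsPrimitiveRoot ζ p) :
    V.valuation ζ = 1 := by
  have h1 : V.valuation ζ ^ p = 1 := by rw [← map_pow, hζ.pow_eq_one, map_one]
  exact (pow_eq_one_iff_of_nonneg zero_le hp.ne').1 h1

theorem pwi_root_mem {p : ℕ} (hp : 0 < p) {ζ : F} (hζ : IsPrimitiveRoot ζ p) (k : ℕ) :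
    ζ ^ k ∈ V :=
  (V.valuation_le_one_iff _).1 (by rw [map_pow, pwi_val_root V hp hζ, one_pow])

theorem pwi_root_inv_mem {p : ℕ} (hp : 0 < p) {ζ : F} (hζ : IsPrimitiveRoot ζ p) (k : ℕ) :
    (ζ ^ k)⁻¹ ∈ V :=
  (V.valuation_le_one_iff _).1 (by rw [map_inv₀, map_pow, pwi_val_root V hp hζ, one_pow, inv_one])

/-- A `p`-th root of an element `≡ 1` is congruent to a `p`-th root of unity. -/
theorem pwi_exists_root_val {p : ℕ} (hp : 0 < p) {ζ : F} (hζ : IsPrimitiveRoot ζ p) {h : F}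
    (hh : h ^ p - 1 ∈ V.nonunits) : ∃ k, k < p ∧ h - ζ ^ k ∈ V.nonunits := by
  by_contra hcon
  push Not at hcon
  have hv : V.valuation h = 1 := by
    have h1 : V.valuation h ^ p = 1 := by rw [← map_pow]; exact pwi_val_eq_one V hh
    exact (pow_eq_one_iff_of_nonneg zero_le hp.ne').1 h1
  have hmem : h ∈ V := (V.valuation_le_one_iff h).1 hv.le
  have hall : ∀ k ∈ Finset.range p, V.valuation (h - ζ ^ k) = 1 := by
    intro k hk
    have hk' := Finset.mem_range.1 hk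
    have h1 : h - ζ ^ k ∈ V := V.sub_mem hmem (pwi_root_mem V hp hζ k)
    have h2 : V.valuation (h - ζ ^ k) ≤ 1 := (V.valuation_le_one_iff _).2 h1
    have h3 : ¬ V.valuation (h - ζ ^ k) < 1 := fun hlt =>
      hcon k hk' ((ValuationSubring.mem_nonunits_iff V).2 hlt)
    exact le_antisymm h2 (not_lt.1 h3)
  have hprod : V.valuation (h ^ p - 1) = 1 := by
    rw [← pwi_prod_sub hp hζ h, map_prod]
    exact Finset.prod_eq_one hall
  have := (ValuationSubring.mem_nonunits_iff V).1 hh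
  rw [hprod] at this
  exact lt_irrefl _ this

/-- The root of unity in `pwi_exists_root_val` is unique. -/
theorem pwi_root_unique {p : ℕ} (hp : 0 < p) {ζ : F} (hζ : IsPrimitiveRoot ζ p)
    (hζV : ∀ k, 0 < k → k < p → ζ ^ k - 1 ∉ V.nonunits) {h : F} {j k : ℕ} (hj : j < p)
    (hk : k < p) (h1 : h - ζ ^ j ∈ V.nonunits) (h2 : h - ζ ^ k ∈ V.nonunits) : j = k := by
  have aux : ∀ {a b : ℕ}, a < b → b < p → h - ζ ^ a ∈ V.nonunits → h - ζ ^ b ∈ V.nonunits →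
      False := by
    intro a b hab hb ha' hb'
    have e : ζ ^ (b - a) - 1 = (ζ ^ a)⁻¹ * ((h - ζ ^ a) - (h - ζ ^ b)) := by
      have hz : ζ ^ a ≠ 0 := pow_ne_zero _ (hζ.ne_zero hp.ne')
      have e2 : ζ ^ b = ζ ^ a * ζ ^ (b - a) := by
        rw [← pow_add, Nat.add_sub_cancel' hab.le]
      rw [e2]
      field_simp
      ring
    apply hζV (b - a) (Nat.sub_pos_of_lt hab) (lt_of_le_of_lt (Nat.sub_le _ _) hb)
    rw [e]
    exact pwi_mul_mem_nonunits V (pwi_root_inv_mem V hp hζ a) (V.nonunits.sub_mem ha' hb')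
  rcases lt_trichotomy j k with hlt | heq | hgt
  · exact (aux hlt hk h1 h2).elim
  · exact heq
  · exact (aux hgt hj h2 h1).elim

end Roots

section LocalRing

variable {R : Type*} [CommRing R] [IsLocalRing R]

/-- In a local ring, if a finite product of elements with pairwise unit differences lies in a
proper ideal, then one of the factors lies in the ideal. -/
theorem pwi_exists_mem_of_prod_mem (J : Ideal R) (hJ : J ≠ ⊤) (s : Finset ℕ) (a : ℕ → R)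
    (hdiff : ∀ j ∈ s, ∀ k ∈ s, j ≠ k → IsUnit (a j - a k)) (hprod : ∏ k ∈ s, a k ∈ J) :
    ∃ k ∈ s, a k ∈ J := by
  classical
  by_cases hall : ∀ k ∈ s, IsUnit (a k)
  · exfalso
    apply hJ
    have hu : IsUnit (∏ k ∈ s, a k) := by
      rw [IsUnit.prod_iff]
      exact hall
    exact Ideal.eq_top_of_isUnit_mem J hprod hu
  · push Not at hall
    obtain ⟨k₀, hk₀, hnu⟩ := hall
    refine ⟨k₀, hk₀, ?_⟩
    have hothers : ∀ j ∈ s.erase k₀, IsUnit (a j) := by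
      intro j hj
      obtain ⟨hjk, hjs⟩ := Finset.mem_erase.1 hj
      by_contra hju
      have h1 : a j ∈ IsLocalRing.maximalIdeal R := (IsLocalRing.mem_maximalIdeal _).2 hju
      have h2 : a k₀ ∈ IsLocalRing.maximalIdeal R := (IsLocalRing.mem_maximalIdeal _).2 hnu
      have h3 : a j - a k₀ ∈ IsLocalRing.maximalIdeal R := Ideal.sub_mem _ h1 h2
      exact (IsLocalRing.mem_maximalIdeal _).1 h3 (hdiff j hjs k₀ hk₀ hjk)
    have hu : IsUnit (∏ j ∈ s.erase k₀, a j) := by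
      rw [IsUnit.prod_iff]
      exact hothers
    obtain ⟨u, hu'⟩ := hu
    have hsplit : ∏ k ∈ s, a k = a k₀ * ∏ j ∈ s.erase k₀, a j :=
      (Finset.mul_prod_erase s a hk₀).symm
    have h4 : a k₀ = (∏ k ∈ s, a k) * ((u⁻¹ : Rˣ) : R) := by
      rw [hsplit, ← hu', mul_assoc, Units.mul_inv, mul_one]
    rw [h4]
    exact Ideal.mul_mem_right _ _ hprod

end LocalRing

section Main

/-- the inverse of a power of a root of unity is a power of it -/
theorem pwi_inv_pow_mem (O : Subring F) {p : ℕ} (hp : 0 < p) {ζ : F} (hζp : ζ ^ p = 1)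
    (hζO : ζ ∈ O) (k : ℕ) : (ζ ^ k)⁻¹ ∈ O := by
  have e : (ζ ^ k)⁻¹ = ζ ^ (k * (p - 1)) := by
    apply inv_eq_of_mul_eq_one_right
    rw [← pow_add]
    have : k + k * (p - 1) = p * k := by
      obtain ⟨q, rfl⟩ : ∃ q, p = q + 1 := ⟨p - 1, by omega⟩
      simp only [Nat.add_sub_cancel]; ring
    rw [this, pow_mul, hζp, one_pow]
  rw [e]
  exact O.pow_mem hζO _

variable {ι κ : Type*}

/-- `w` has the local shape for the exponent `m`: `w ≡ 1` at every vertical valuation, and at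
every closed point `w = ε · γ ^ m` with `ε ∈ O i`, `ε ≡ 1 mod J i`, and `γ ≡ 1` at the vertical
valuations through the point. -/
def PwiShape (V : κ → ValuationSubring F) (O : ι → Subring F) (J : ∀ i, Ideal (O i))
    (inc : ι → κ → Prop) (m : ℕ) (w : F) : Prop :=
  (∀ c, w - 1 ∈ (V c).nonunits) ∧
    ∀ i, ∃ ε γ : F, ∃ hε : ε ∈ O i, (⟨ε, hε⟩ - 1 : O i) ∈ J i ∧
      (∀ c, inc i c → γ - 1 ∈ (V c).nonunits) ∧ w = ε * γ ^ m

variable {V : κ → ValuationSubring F} {O : ι → Subring F} {J : ∀ i, Ideal (O i)}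
  {inc : ι → κ → Prop}

/-- Shape for `m * n` gives shape for `m`. -/
theorem PwiShape.of_mul {m n : ℕ} {w : F} (h : PwiShape V O J inc (m * n) w) :
    PwiShape V O J inc m w := by
  refine ⟨h.1, fun i => ?_⟩
  obtain ⟨ε, γ, hε, hεJ, hγ, hw⟩ := h.2 i
  refine ⟨ε, γ ^ n, hε, hεJ, fun c hc => pwi_congr_pow (V c) (hγ c hc) n, ?_⟩
  rw [hw, ← pow_mul, mul_comm n m]

/-- The trivial case `m = 1`... every `w` is a first power. -/
theorem pwi_pow_one (w : F) : ∃ h : F, h ^ (1 : ℕ) = w := ⟨w, pow_one w⟩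

/-- The key step: a `p`-th root `h₀` of a `w` of shape `p * n` can be normalised by a `p`-th root
of unity to have shape `n`. -/
theorem pwi_step
    (hloc : ∀ i, IsLocalRing (O i)) (hJ : ∀ i, J i ≠ ⊤)
    (hic : ∀ i (x : F), IsIntegral (O i) x → x ∈ O i)
    (hJV : ∀ i c, inc i c → ∀ x : O i, x ∈ J i → (x : F) ∈ (V c).nonunits)
    (hpt : ∀ i, ∃ c, inc i c)
    (hconn : ∀ c c' : κ, Relation.ReflTransGen (fun a b => ∃ i, inc i a ∧ inc i b) c c')
    {p : ℕ} (hp : 0 < p) {ζ : F} (hζ : IsPrimitiveRoot ζ p)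
    (hζO : ∀ i, ζ ∈ O i)
    (hζu : ∀ i k, 0 < k → k < p → (ζ ^ k - 1)⁻¹ ∈ O i)
    (hζV : ∀ c k, 0 < k → k < p → ζ ^ k - 1 ∉ (V c).nonunits)
    {n : ℕ} {w h₀ : F} (hw : PwiShape V O J inc (p * n) w) (hh₀ : h₀ ^ p = w) :
    ∃ h' : F, h' ^ p = w ∧ PwiShape V O J inc n h' := by
  classical
  have hζ0 : ζ ≠ 0 := hζ.ne_zero hp.ne'
  -- the root of unity on each component
  have hcomp : ∀ c, ∃ k, k < p ∧ h₀ - ζ ^ k ∈ (V c).nonunits := fun c =>
    pwi_exists_root_val (V c) hp hζ (by rw [hh₀]; exact hw.1 c)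
  choose kc hkc hkc' using hcomp
  -- the root of unity at each closed point
  have hpoint : ∀ i, ∃ ε γ : F, ∃ k, k < p ∧ ε ∈ O i ∧
      (∃ hd : ε - ζ ^ k ∈ O i, (⟨ε - ζ ^ k, hd⟩ : O i) ∈ J i) ∧
      (∀ c, inc i c → γ - 1 ∈ (V c).nonunits) ∧ h₀ = ε * γ ^ n := by
    intro i
    have := hloc i
    obtain ⟨ε, γ, hε, hεJ, hγ, hwε⟩ := hw.2 i
    obtain ⟨c₀, hc₀⟩ := hpt i
    have hγ0 : γ ≠ 0 := by
      rintro rfl
      have := pwi_val_eq_one (V c₀) (hγ c₀ hc₀)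
      simp at this
    set T : F := h₀ * (γ ^ n)⁻¹ with hT
    have hTp : T ^ p = ε := by
      have h1 : (γ ^ n) ^ p ≠ 0 := pow_ne_zero _ (pow_ne_zero _ hγ0)
      rw [hT, mul_pow, hh₀, hwε, inv_pow, pow_mul', mul_assoc, mul_inv_cancel₀ h1, mul_one]
    have hTint : IsIntegral (O i) T := by
      refine ⟨X ^ p - C (⟨ε, hε⟩ : O i), monic_X_pow_sub_C _ hp.ne', ?_⟩
      rw [eval₂_sub, eval₂_pow, eval₂_X, eval₂_C, hTp]
      exact sub_self _
    have hTO : T ∈ O i := hic i T hTint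
    -- the product formula in `O i`
    let a : ℕ → O i := fun k => ⟨T, hTO⟩ - ⟨ζ, hζO i⟩ ^ k
    have hacoe : ∀ k, ((a k : O i) : F) = T - ζ ^ k := fun k => by simp [a]
    have hprodJ : ∏ k ∈ Finset.range p, a k ∈ J i := by
      have e : ∏ k ∈ Finset.range p, a k = (⟨ε, hε⟩ - 1 : O i) := by
        apply Subtype.ext
        have e1 : ((∏ k ∈ Finset.range p, a k : O i) : F) =
            ∏ k ∈ Finset.range p, ((a k : O i) : F) := map_prod (O i).subtype _ _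
        rw [e1]
        simp only [hacoe]
        rw [pwi_prod_sub hp hζ T, hTp]
        rfl
      rw [e]
      exact hεJ
    have hdiff : ∀ j ∈ Finset.range p, ∀ k ∈ Finset.range p, j ≠ k → IsUnit (a j - a k) := by
      have aux : ∀ {u v : ℕ}, u < v → v < p → IsUnit (a u - a v) := by
        intro u v huv hv
        have hinv := hζu i (v - u) (Nat.sub_pos_of_lt huv) (lt_of_le_of_lt (Nat.sub_le _ _) hv)
        have e2 : ζ ^ v = ζ ^ u * ζ ^ (v - u) := by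
          rw [← pow_add, Nat.add_sub_cancel' huv.le]
        have hz1 : ζ ^ (v - u) - 1 ≠ 0 := by
          intro h0
          have hdvd : p ∣ v - u := (hζ.pow_eq_one_iff_dvd _).1 (sub_eq_zero.1 h0)
          have := Nat.le_of_dvd (Nat.sub_pos_of_lt huv) hdvd
          omega
        have hzinv : (ζ ^ u)⁻¹ ∈ O i := pwi_inv_pow_mem (O i) hp hζ.pow_eq_one (hζO i) u
        have hval : ((a u - a v : O i) : F) = ζ ^ v - ζ ^ u := by
          rw [AddSubgroupClass.coe_sub, hacoe, hacoe]; ring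
        refine IsUnit.of_mul_eq_one (⟨(ζ ^ u)⁻¹, hzinv⟩ * ⟨(ζ ^ (v - u) - 1)⁻¹, hinv⟩) ?_
        apply Subtype.ext
        rw [Subring.coe_mul, hval, Subring.coe_mul, Subring.coe_one, e2]
        have hz : ζ ^ u ≠ 0 := pow_ne_zero _ hζ0
        show (ζ ^ u * ζ ^ (v - u) - ζ ^ u) * ((ζ ^ u)⁻¹ * (ζ ^ (v - u) - 1)⁻¹) = 1
        field_simp
      intro j hj k hk hjk
      rcases lt_or_gt_of_ne hjk with hlt | hgt
      · exact aux hlt (Finset.mem_range.1 hk)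
      · have := aux hgt (Finset.mem_range.1 hj)
        have e : a j - a k = -(a k - a j) := by ring
        rw [e]
        exact this.neg
    obtain ⟨k, hk, hkJ⟩ := pwi_exists_mem_of_prod_mem (J i) (hJ i) (Finset.range p) a hdiff hprodJ
    refine ⟨T, γ, k, Finset.mem_range.1 hk, hTO, ⟨?_, ?_⟩, hγ, ?_⟩
    · exact (O i).sub_mem hTO ((O i).pow_mem (hζO i) k)
    · have : (⟨T - ζ ^ k, (O i).sub_mem hTO ((O i).pow_mem (hζO i) k)⟩ : O i) = a k :=
        Subtype.ext (hacoe k).symm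
      rw [this]
      exact hkJ
    · rw [hT, mul_assoc, inv_mul_cancel₀ (pow_ne_zero _ hγ0), mul_one]
  choose ε γ ki hki hεO hεJ hγ hh₀ε using hpoint
  -- compatibility point / component
  have hik : ∀ i c, inc i c → ki i = kc c := by
    intro i c hic'
    refine pwi_root_unique (V c) hp hζ (hζV c) (hki i) (hkc c) ?_ (hkc' c)
    obtain ⟨hd, hdJ⟩ := hεJ i
    have h1 : (ε i - ζ ^ ki i) ∈ (V c).nonunits := hJV i c hic' _ hdJ
    have h2 : γ i ^ n - 1 ∈ (V c).nonunits := pwi_congr_pow (V c) (hγ i c hic') n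
    have e : h₀ - ζ ^ ki i = (ε i - ζ ^ ki i) * γ i ^ n + ζ ^ ki i * (γ i ^ n - 1) := by
      rw [hh₀ε i]; ring
    rw [e]
    refine (V c).nonunits.add_mem ?_ (pwi_mul_mem_nonunits (V c) (pwi_root_mem (V c) hp hζ _) h2)
    rw [mul_comm]
    exact pwi_mul_mem_nonunits (V c) (pwi_mem_of_congr (V c) h2) h1
  -- the root of unity is the same on all components
  have hadj : ∀ c c', (∃ i, inc i c ∧ inc i c') → kc c = kc c' := by
    rintro c c' ⟨i, h1, h2⟩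
    rw [← hik i c h1, ← hik i c' h2]
  have hconst : ∀ c c', kc c = kc c' := by
    intro c c'
    induction hconn c c' with
    | refl => rfl
    | tail _ hbc ih => exact ih.trans (hadj _ _ hbc)
  -- the common exponent
  obtain ⟨k, hk⟩ : ∃ k, ∀ c, kc c = k := by
    by_cases hne : Nonempty κ
    · obtain ⟨c₀⟩ := hne
      exact ⟨kc c₀, fun c => hconst c c₀⟩
    · exact ⟨0, fun c => (hne ⟨c⟩).elim⟩
  have hz : ζ ^ k ≠ 0 := pow_ne_zero _ hζ0
  refine ⟨(ζ ^ k)⁻¹ * h₀, ?_, ?_, ?_⟩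
  · rw [mul_pow, hh₀, inv_pow, ← pow_mul, mul_comm k p, pow_mul, hζ.pow_eq_one, one_pow, inv_one,
      one_mul]
  · intro c
    have e : (ζ ^ k)⁻¹ * h₀ - 1 = (ζ ^ k)⁻¹ * (h₀ - ζ ^ k) := by
      field_simp
    rw [e]
    have := hkc' c
    rw [hk c] at this
    exact pwi_mul_mem_nonunits (V c) (pwi_root_inv_mem (V c) hp hζ k) this
  · intro i
    obtain ⟨c, hc⟩ := hpt i
    have hkik : ki i = k := (hik i c hc).trans (hk c)
    have hzinv : (ζ ^ k)⁻¹ ∈ O i := pwi_inv_pow_mem (O i) hp hζ.pow_eq_one (hζO i) k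
    obtain ⟨hd, hdJ⟩ := hεJ i
    refine ⟨(ζ ^ k)⁻¹ * ε i, γ i, (O i).mul_mem hzinv (hεO i), ?_, hγ i, ?_⟩
    · have e : (⟨(ζ ^ k)⁻¹ * ε i, (O i).mul_mem hzinv (hεO i)⟩ - 1 : O i) =
          ⟨(ζ ^ k)⁻¹, hzinv⟩ * ⟨ε i - ζ ^ ki i, hd⟩ := by
        apply Subtype.ext
        rw [AddSubgroupClass.coe_sub, Subring.coe_mul, Subring.coe_one]
        show (ζ ^ k)⁻¹ * ε i - 1 = (ζ ^ k)⁻¹ * (ε i - ζ ^ ki i)
        rw [hkik]
        field_simp
      rw [e]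
      exact Ideal.mul_mem_left _ _ hdJ
    · rw [hh₀ε i]; ring

/-- **Step 2 (e)**: if every `w` of shape `p` is a `p`-th power, then every `w` of shape `p ^ r`
is a `p ^ r`-th power. -/
theorem pwi_exists_pow_eq
    (hloc : ∀ i, IsLocalRing (O i)) (hJ : ∀ i, J i ≠ ⊤)
    (hic : ∀ i (x : F), IsIntegral (O i) x → x ∈ O i)
    (hJV : ∀ i c, inc i c → ∀ x : O i, x ∈ J i → (x : F) ∈ (V c).nonunits)
    (hpt : ∀ i, ∃ c, inc i c)
    (hconn : ∀ c c' : κ, Relation.ReflTransGen (fun a b => ∃ i, inc i a ∧ inc i b) c c')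
    {p : ℕ} (hp : 0 < p) {ζ : F} (hζ : IsPrimitiveRoot ζ p)
    (hζO : ∀ i, ζ ∈ O i)
    (hζu : ∀ i k, 0 < k → k < p → (ζ ^ k - 1)⁻¹ ∈ O i)
    (hζV : ∀ c k, 0 < k → k < p → ζ ^ k - 1 ∉ (V c).nonunits)
    (hP : ∀ w : F, PwiShape V O J inc p w → ∃ h : F, h ^ p = w)
    (r : ℕ) : ∀ w : F, PwiShape V O J inc (p ^ r) w → ∃ h : F, h ^ (p ^ r) = w := by
  induction r with
  | zero =>
    intro w _
    exact ⟨w, by rw [pow_zero, pow_one]⟩
  | succ r ih =>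
    intro w hw
    have hw' : PwiShape V O J inc (p * p ^ r) w := by rwa [pow_succ'] at hw
    obtain ⟨h₀, hh₀⟩ := hP w hw'.of_mul
    obtain ⟨h', hh', hshape⟩ :=
      pwi_step hloc hJ hic hJV hpt hconn hp hζ hζO hζu hζV hw' hh₀
    obtain ⟨h'', hh''⟩ := ih h' hshape
    refine ⟨h'', ?_⟩
    rw [pow_succ, pow_mul, hh'', hh']

end Main

end Fermat.Agent.UNIP


end ZBUNIP_007_0

/-! ### bundled: `Fermat.Agent.UNIP.LocalShape` -/
section ZBUNIP_007_1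
/-
UNIP (S34/S35), direct route, piece D3 "LocalShape" = Step 1 (helper84).

Abstract setting.  `F` a field (the function field `F′ = E′(j_d)`), `σ τ : F →+* F` (two elements of
the inertia group acting on coefficients), `u ∈ F^×` with `m ∣ ord_P u` at the places of the tube
of a closed point `𝔫` of the special fibre, `w := (τ − 1)(σ − 1) u = τ(σu/u)/(σu/u)`.

* `ls_cheap`        : (β) for ONE vertical valuation ring `Ov`: if `σ f / f` is a unit of `Ov` and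
                      `τ` is trivial on the residue field, then `(τ − 1)(σ − 1) f ∈ 1 + 𝔪`.
                      No normalisation of `f`, no coordinates.
* `ls_tube_factor`  : bookkeeping in the tube.  `ι` = the height-one primes of `B_𝔫`,
                      `ord : ι → F → ℤ`, `σι : Perm ι` the action of `σ`.  If every point `i` of the
                      support of `u` that is moved by `σ` has a coordinate function `f_i`
                      (`ord j f_i = δ_ij` at the moved `j`; Lemma N), then `u = u₁ · g₀ ^ m` where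
                      `σ u₁ / u₁` has order `0` at EVERY `j ∈ ι`.
* `ls_shape`        : if `e := σ u₁ / u₁` is a unit of the local ring `R` (Lemma U) and `τ` is
                      trivial modulo `π` on `R`, then `w = ε · h ^ m`, `ε = τ e / e ∈ R^×`,
                      `ε − 1 ∈ π R`, `h = (τ − 1)(σ − 1) g₀`.
* `ls_local_shape`  : the three together.
* `ls_localSubring`, `ls_tau_localSubring`, `ls_exists_denominator` : the local ring `B_𝔫 ⊆ F` of a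
                      chart `B` at a prime `𝔫 ∋ π`; `τ` trivial mod `π` on `B` ⇒ on `B_𝔫`;
                      `ε ∈ 1 + π B_𝔫` ⇒ `∃ s ∉ 𝔫, c ∈ B : s ε = s + π c`.
* `ls_kummer_local` : the input of Step 2 (KummerSplit): `L ⊇ F`, `y ^ m = w = ε · h ^ m`,
                      `s ε = s + π c` ⇒ `T := s · y / h` is integral over `B` and
                      `s · y − T = T · (h − 1)`.
-/

set_option autoImplicit false

namespace Fermat.Agent.UNIP

section Cheap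

variable {F : Type*} [Field F]

/-- **(β), abstract.**  `Ov` a valuation ring of `F`, `τ` trivial on its residue field.  If
`x` is a unit of `Ov` then `τ x / x ∈ 1 + 𝔪`. -/
theorem ls_cheap_unit (Ov : ValuationSubring F) (τ : F →+* F)
    (hτ : ∀ x : F, x ∈ Ov → Ov.valuation (τ x - x) < 1)
    {x : F} (hx : Ov.valuation x = 1) :
    Ov.valuation (τ x / x - 1) < 1 := by
  have hx0 : x ≠ 0 := by
    intro h
    rw [h, map_zero] at hx
    exact zero_ne_one hx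
  have hmem : x ∈ Ov := (Ov.valuation_le_one_iff x).mp hx.le
  have h1 : τ x / x - 1 = (τ x - x) / x := by
    field_simp
  rw [h1, map_div₀, hx, div_one]
  exact hτ x hmem

/-- **(β), abstract.**  If `σ f / f` is a unit of `Ov` (`σ` preserves the valuation) and `τ` is
trivial on the residue field of `Ov`, then `(τ − 1)(σ − 1) f ∈ 1 + 𝔪`. -/
theorem ls_cheap (Ov : ValuationSubring F) (σ τ : F →+* F)
    (hτ : ∀ x : F, x ∈ Ov → Ov.valuation (τ x - x) < 1)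
    {f : F} (hσ : Ov.valuation (σ f / f) = 1) :
    Ov.valuation (τ (σ f / f) / (σ f / f) - 1) < 1 :=
  ls_cheap_unit Ov τ hτ hσ

/-- `σ` preserves the valuation of `Ov` as soon as it is trivial on the residue field and there is
a uniformizer `ϖ` (every `f ≠ 0` is `ϖ ^ k · unit`) with `σ ϖ / ϖ` a unit. -/
theorem ls_valuation_map_div_eq_one (Ov : ValuationSubring F) (σ : F →+* F)
    (hσ : ∀ x : F, x ∈ Ov → Ov.valuation (σ x - x) < 1)
    (ϖ : F) (hϖ : Ov.valuation (σ ϖ / ϖ) = 1)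
    {f : F} (k : ℤ) (hf : Ov.valuation (f * ϖ ^ k) = 1) :
    Ov.valuation (σ f / f) = 1 := by
  have hϖ0 : ϖ ≠ 0 := by
    intro h
    rw [h, map_zero, div_zero, map_zero] at hϖ
    exact zero_ne_one hϖ
  have hσϖ0 : σ ϖ ≠ 0 := (map_ne_zero σ).mpr hϖ0
  set x := f * ϖ ^ k with hxdef
  have hx0 : x ≠ 0 := by
    intro h
    rw [h, map_zero] at hf
    exact zero_ne_one hf
  have hf0 : f ≠ 0 := by
    intro h
    apply hx0
    rw [hxdef, h, zero_mul]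
  have hxmem : x ∈ Ov := (Ov.valuation_le_one_iff x).mp hf.le
  -- `σ x / x` is a unit: `σ x = x + (σ x - x)`
  have h1 : Ov.valuation (σ x) = 1 := by
    have h2 : σ x = x + (σ x - x) := by ring
    rw [h2]
    have h3 : Ov.valuation (σ x - x) < Ov.valuation x := by
      rw [hf]; exact hσ x hxmem
    rw [Valuation.map_add_eq_of_lt_left _ h3, hf]
  have h4 : σ f / f = (σ x / x) * ((σ ϖ / ϖ) ^ k)⁻¹ := by
    rw [hxdef, map_mul, map_zpow₀, div_zpow]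
    field_simp
  rw [h4, map_mul, map_inv₀, map_zpow₀, hϖ, one_zpow, inv_one, mul_one, map_div₀, h1, hf, div_one]

/-- `1 + 𝔪` is closed under products. -/
theorem ls_one_mul (Ov : ValuationSubring F) {x y : F}
    (hx : Ov.valuation (x - 1) < 1) (hy : Ov.valuation (y - 1) < 1) :
    Ov.valuation (x * y - 1) < 1 := by
  have hymem : Ov.valuation y ≤ 1 := by
    have h2 : y = (y - 1) + 1 := by ring
    rw [h2]
    refine le_trans (Valuation.map_add _ _ _) ?_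
    rw [map_one]
    exact max_le hy.le le_rfl
  have h1 : x * y - 1 = (x - 1) * y + (y - 1) := by ring
  rw [h1]
  refine lt_of_le_of_lt (Valuation.map_add _ _ _) (max_lt ?_ hy)
  rw [map_mul]
  calc Ov.valuation (x - 1) * Ov.valuation y ≤ Ov.valuation (x - 1) * 1 :=
        mul_le_mul_right hymem _
    _ = Ov.valuation (x - 1) := mul_one _
    _ < 1 := hx

/-- `1 + 𝔪` is closed under powers. -/
theorem ls_one_pow (Ov : ValuationSubring F) {x : F}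
    (hx : Ov.valuation (x - 1) < 1) (n : ℕ) :
    Ov.valuation (x ^ n - 1) < 1 := by
  induction n with
  | zero => simp
  | succ n ih =>
    rw [pow_succ]
    exact ls_one_mul Ov ih hx

end Cheap

section Tube

variable {F : Type*} [Field F] {ι : Type*}

theorem ls_ord_one (ord : ι → F → ℤ)
    (hmul : ∀ i x y, x ≠ 0 → y ≠ 0 → ord i (x * y) = ord i x + ord i y) (i : ι) :
    ord i 1 = 0 := by
  have h := hmul i 1 1 one_ne_zero one_ne_zero
  rw [mul_one] at h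
  linarith

theorem ls_ord_inv (ord : ι → F → ℤ)
    (hmul : ∀ i x y, x ≠ 0 → y ≠ 0 → ord i (x * y) = ord i x + ord i y) (i : ι)
    {x : F} (hx : x ≠ 0) : ord i x⁻¹ = -ord i x := by
  have h := hmul i x x⁻¹ hx (inv_ne_zero hx)
  rw [mul_inv_cancel₀ hx, ls_ord_one ord hmul i] at h
  linarith

theorem ls_ord_div (ord : ι → F → ℤ)
    (hmul : ∀ i x y, x ≠ 0 → y ≠ 0 → ord i (x * y) = ord i x + ord i y) (i : ι)
    {x y : F} (hx : x ≠ 0) (hy : y ≠ 0) : ord i (x / y) = ord i x - ord i y := by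
  rw [div_eq_mul_inv, hmul i x y⁻¹ hx (inv_ne_zero hy), ls_ord_inv ord hmul i hy]
  ring

theorem ls_ord_pow (ord : ι → F → ℤ)
    (hmul : ∀ i x y, x ≠ 0 → y ≠ 0 → ord i (x * y) = ord i x + ord i y) (i : ι)
    {x : F} (hx : x ≠ 0) (n : ℕ) : ord i (x ^ n) = n * ord i x := by
  induction n with
  | zero => simp [ls_ord_one ord hmul i]
  | succ n ih =>
    rw [pow_succ, hmul i _ _ (pow_ne_zero n hx) hx, ih]
    push_cast
    ring

theorem ls_ord_zpow (ord : ι → F → ℤ)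
    (hmul : ∀ i x y, x ≠ 0 → y ≠ 0 → ord i (x * y) = ord i x + ord i y) (i : ι)
    {x : F} (hx : x ≠ 0) (n : ℤ) : ord i (x ^ n) = n * ord i x := by
  obtain ⟨k, rfl | rfl⟩ := n.eq_nat_or_neg
  · rw [zpow_natCast, ls_ord_pow ord hmul i hx]
  · rw [zpow_neg, zpow_natCast, ls_ord_inv ord hmul i (pow_ne_zero k hx),
      ls_ord_pow ord hmul i hx]
    ring

theorem ls_ord_prod (ord : ι → F → ℤ)
    (hmul : ∀ i x y, x ≠ 0 → y ≠ 0 → ord i (x * y) = ord i x + ord i y) (i : ι)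
    {κ : Type*} (S : Finset κ) (f : κ → F) (hf : ∀ k ∈ S, f k ≠ 0) :
    ord i (∏ k ∈ S, f k) = ∑ k ∈ S, ord i (f k) := by
  classical
  induction S using Finset.induction_on with
  | empty => simp [ls_ord_one ord hmul i]
  | insert a S ha ih =>
    have hfa : f a ≠ 0 := hf a (Finset.mem_insert_self a S)
    have hfS : ∀ k ∈ S, f k ≠ 0 := fun k hk => hf k (Finset.mem_insert_of_mem hk)
    rw [Finset.prod_insert ha, Finset.sum_insert ha,
      hmul i _ _ hfa (Finset.prod_ne_zero_iff.mpr hfS), ih hfS]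

/-- **Step 1, bookkeeping in the tube.**  `ι` indexes the height-one primes of the local ring at a
closed point `𝔫` (horizontal and vertical), `ord i` the corresponding orders, `σι` the permutation
induced by `σ`.  Assume that every `i` in the support of `u` which is MOVED by `σ` has multiplicity
divisible by `m` and has a coordinate function `f` (a function whose divisor on the moved part
of the tube is `1 · i`).  Then `u = u₁ · g₀ ^ m` with `u₁` of order `0` at all moved `j`, and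
`σ u₁ / u₁` has order `0` at EVERY `j`. -/
theorem ls_tube_factor (σ : F →+* F) (ord : ι → F → ℤ)
    (hmul : ∀ i x y, x ≠ 0 → y ≠ 0 → ord i (x * y) = ord i x + ord i y)
    (σι : Equiv.Perm ι) (hσ : ∀ i x, x ≠ 0 → ord (σι i) (σ x) = ord i x)
    {u : F} (hu : u ≠ 0) (m : ℕ)
    (hfin : {i | σι i ≠ i ∧ ord i u ≠ 0}.Finite)
    (hm : ∀ i, σι i ≠ i → (m : ℤ) ∣ ord i u)
    (hcoord : ∀ i, σι i ≠ i → ord i u ≠ 0 →
      ∃ f : F, f ≠ 0 ∧ ord i f = 1 ∧ ∀ j, σι j ≠ j → j ≠ i → ord j f = 0) :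
    ∃ g₀ : F, g₀ ≠ 0 ∧ (∀ j, σι j ≠ j → ord j (u / g₀ ^ m) = 0) ∧
      ∀ j, ord j (σ (u / g₀ ^ m) / (u / g₀ ^ m)) = 0 := by
  classical
  -- the coordinate functions
  have hc : ∀ i : ι, ∃ f : F, f ≠ 0 ∧
      (σι i ≠ i → ord i u ≠ 0 → ∀ j, σι j ≠ j → ord j f = if j = i then 1 else 0) := by
    intro i
    by_cases h1 : σι i ≠ i ∧ ord i u ≠ 0
    · obtain ⟨f, hf0, hf1, hf⟩ := hcoord i h1.1 h1.2
      refine ⟨f, hf0, fun _ _ j hj => ?_⟩
      by_cases hji : j = i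
      · rw [if_pos hji, hji]; exact hf1
      · rw [if_neg hji]; exact hf j hj hji
    · exact ⟨1, one_ne_zero, fun h2 h3 => absurd ⟨h2, h3⟩ h1⟩
  choose f hf0 hf using hc
  set S : Finset ι := hfin.toFinset with hS
  have hmemS : ∀ i, i ∈ S ↔ σι i ≠ i ∧ ord i u ≠ 0 := fun i => by
    rw [hS, Set.Finite.mem_toFinset]; rfl
  -- the multiplicities
  set n : ι → ℤ := fun i => ord i u / (m : ℤ) with hn
  have hmn : ∀ i, σι i ≠ i → (m : ℤ) * n i = ord i u := fun i hi =>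
    Int.mul_ediv_cancel' (hm i hi)
  set g₀ : F := ∏ i ∈ S, f i ^ n i with hg₀
  have hg₀0 : g₀ ≠ 0 :=
    Finset.prod_ne_zero_iff.mpr fun i _ => zpow_ne_zero _ (hf0 i)
  have hordg : ∀ j, σι j ≠ j → (m : ℤ) * ord j g₀ = ord j u := by
    intro j hj
    rw [hg₀, ls_ord_prod ord hmul j S _ (fun i _ => zpow_ne_zero _ (hf0 i))]
    have h1 : ∀ i ∈ S, ord j (f i ^ n i) = if j = i then n i else 0 := by
      intro i hi
      rw [ls_ord_zpow ord hmul j (hf0 i), hf i ((hmemS i).mp hi).1 ((hmemS i).mp hi).2 j hj]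
      split_ifs <;> simp
    rw [Finset.sum_congr rfl h1, Finset.sum_ite_eq S j]
    by_cases hjS : j ∈ S
    · rw [if_pos hjS, hmn j hj]
    · rw [if_neg hjS, mul_zero]
      by_contra hne
      exact hjS ((hmemS j).mpr ⟨hj, fun h0 => hne h0.symm⟩)
  have hu₁0 : u / g₀ ^ m ≠ 0 := div_ne_zero hu (pow_ne_zero _ hg₀0)
  have hord₁ : ∀ j, σι j ≠ j → ord j (u / g₀ ^ m) = 0 := by
    intro j hj
    rw [ls_ord_div ord hmul j hu (pow_ne_zero _ hg₀0), ls_ord_pow ord hmul j hg₀0,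
      hordg j hj, sub_self]
  refine ⟨g₀, hg₀0, hord₁, fun j => ?_⟩
  rw [ls_ord_div ord hmul j ((map_ne_zero σ).mpr hu₁0) hu₁0]
  have h2 : ord j (σ (u / g₀ ^ m)) = ord (σι.symm j) (u / g₀ ^ m) := by
    have := hσ (σι.symm j) (u / g₀ ^ m) hu₁0
    rwa [Equiv.apply_symm_apply] at this
  rw [h2]
  by_cases hj : σι j = j
  · have : σι.symm j = j := by
      rw [Equiv.symm_apply_eq]; exact hj.symm
    rw [this, sub_self]
  · have hj' : σι (σι.symm j) ≠ σι.symm j := by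
      rw [Equiv.apply_symm_apply]
      intro h
      apply hj
      have h' := congrArg σι h
      rw [Equiv.apply_symm_apply] at h'
      exact h' 
    rw [hord₁ j hj, hord₁ _ hj', sub_self]

end Tube

section Shape

variable {F : Type*} [Field F]

/-- **Step 1, the shape.**  `R ⊆ F` the local ring at `𝔫`, `τ` trivial modulo `π` on `R`.  If
`σ u / u = e · (σ g₀ / g₀) ^ m` with `e ∈ R^×`, then
`w := (τ − 1)(σ − 1) u = ε · h ^ m`, `ε := τ e / e ∈ R^×`, `ε − 1 ∈ π R`,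
`h := (τ − 1)(σ − 1) g₀`. -/
theorem ls_shape (R : Subring F) (π : F) (hπ : π ∈ R) (σ τ : F →+* F)
    (hτ : ∀ x ∈ R, ∃ c ∈ R, τ x - x = π * c)
    {u g₀ e : F} (hu : u ≠ 0) (hg₀ : g₀ ≠ 0) (m : ℕ)
    (he : e ∈ R) (he' : e⁻¹ ∈ R) (hfac : σ (u / g₀ ^ m) / (u / g₀ ^ m) = e) :
    ∃ ε : F, ε ∈ R ∧ ε⁻¹ ∈ R ∧ (∃ c ∈ R, ε - 1 = π * c) ∧
      τ (σ u / u) / (σ u / u) = ε * (τ (σ g₀ / g₀) / (σ g₀ / g₀)) ^ m := by
  have hσu : σ u ≠ 0 := (map_ne_zero σ).mpr hu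
  have hσg : σ g₀ ≠ 0 := (map_ne_zero σ).mpr hg₀
  have he0 : e ≠ 0 := by
    rw [← hfac]
    exact div_ne_zero ((map_ne_zero σ).mpr (div_ne_zero hu (pow_ne_zero _ hg₀)))
      (div_ne_zero hu (pow_ne_zero _ hg₀))
  have hτe0 : τ e ≠ 0 := (map_ne_zero τ).mpr he0
  have hτR : ∀ x ∈ R, τ x ∈ R := by
    intro x hx
    obtain ⟨c, hc, hxc⟩ := hτ x hx
    have : τ x = x + π * c := by rw [← hxc]; ring
    rw [this]
    exact R.add_mem hx (R.mul_mem hπ hc)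
  have hsu : σ u / u = e * (σ g₀ / g₀) ^ m := by
    rw [← hfac, map_div₀, map_pow, div_pow]
    field_simp
  refine ⟨τ e / e, ?_, ?_, ?_, ?_⟩
  · rw [div_eq_mul_inv]
    exact R.mul_mem (hτR e he) he'
  · rw [inv_div, div_eq_mul_inv, ← map_inv₀]
    exact R.mul_mem he (hτR _ he')
  · obtain ⟨c, hc, hec⟩ := hτ e he
    refine ⟨c * e⁻¹, R.mul_mem hc he', ?_⟩
    have : τ e / e - 1 = (τ e - e) * e⁻¹ := by field_simp
    rw [this, hec]
    ring
  · rw [hsu, map_mul, map_pow]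
    have hx : (σ g₀ / g₀) ≠ 0 := div_ne_zero hσg hg₀
    have hτx : τ (σ g₀ / g₀) ≠ 0 := (map_ne_zero τ).mpr hx
    generalize σ g₀ / g₀ = x at hx hτx ⊢
    rw [div_pow]
    field_simp

/-- **Step 1, the shape**, version with an ideal `J` of the local ring `R` on which `τ` acts
trivially modulo `J` (no uniformizer). -/
theorem ls_shape_ideal (R : Subring F) (J : Ideal R) (σ τ : F →+* F)
    (hτ : ∀ x : R, ∃ h : τ (x : F) ∈ R, (⟨τ (x : F), h⟩ - x : R) ∈ J)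
    {u g₀ e : F} (hu : u ≠ 0) (hg₀ : g₀ ≠ 0) (m : ℕ)
    (he : e ∈ R) (he' : e⁻¹ ∈ R) (hfac : σ (u / g₀ ^ m) / (u / g₀ ^ m) = e) :
    ∃ ε : F, ∃ hε : ε ∈ R, (⟨ε, hε⟩ - 1 : R) ∈ J ∧
      τ (σ u / u) / (σ u / u) = ε * (τ (σ g₀ / g₀) / (σ g₀ / g₀)) ^ m := by
  have hσu : σ u ≠ 0 := (map_ne_zero σ).mpr hu
  have hσg : σ g₀ ≠ 0 := (map_ne_zero σ).mpr hg₀
  have he0 : e ≠ 0 := by
    rw [← hfac]
    exact div_ne_zero ((map_ne_zero σ).mpr (div_ne_zero hu (pow_ne_zero _ hg₀)))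
      (div_ne_zero hu (pow_ne_zero _ hg₀))
  have hτe0 : τ e ≠ 0 := (map_ne_zero τ).mpr he0
  have hsu : σ u / u = e * (σ g₀ / g₀) ^ m := by
    rw [← hfac, map_div₀, map_pow, div_pow]
    field_simp
  obtain ⟨hτe, hJ⟩ := hτ ⟨e, he⟩
  have hε : τ e / e ∈ R := by
    rw [div_eq_mul_inv]
    exact R.mul_mem hτe he'
  refine ⟨τ e / e, hε, ?_, ?_⟩
  · have h1 : (⟨τ e / e, hε⟩ - 1 : R) = (⟨τ e, hτe⟩ - ⟨e, he⟩) * ⟨e⁻¹, he'⟩ := by
      apply Subtype.ext
      push_cast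
      field_simp
    rw [h1]
    exact Ideal.mul_mem_right _ _ hJ
  · rw [hsu, map_mul, map_pow]
    have hx : (σ g₀ / g₀) ≠ 0 := div_ne_zero hσg hg₀
    have hτx : τ (σ g₀ / g₀) ≠ 0 := (map_ne_zero τ).mpr hx
    generalize σ g₀ / g₀ = x at hx hτx ⊢
    rw [div_pow]
    field_simp

end Shape

section Pwi

variable {F : Type*} [Field F] {κ ι : Type*}

/-- **D3, output = input of D5 / D4.**  `V c` the vertical valuation rings, `O i` the local rings of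
the closed points, `J i = π′ O i`.  Assume
* `σ` preserves the valuations `V c` and `τ` is trivial on their residue fields;
* `τ` is trivial modulo `J i` on `O i`;
* at every closed point `i` there is `g₀` with `σ u₁ / u₁ ∈ (O i)^×`, `u₁ := u / g₀ ^ m`
  (`ls_tube_factor` + Lemma U).
Then `w := (τ − 1)(σ − 1) u` has the local shape for the exponent `m`; moreover the `γ` of the
shape is `≡ 1` at ALL vertical valuations. -/
theorem ls_pwiShape (V : κ → ValuationSubring F) (O : ι → Subring F) (J : ∀ i, Ideal (O i))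
    (inc : ι → κ → Prop) (σ τ : F →+* F)
    (hσV : ∀ c (f : F), f ≠ 0 → (V c).valuation (σ f / f) = 1)
    (hτV : ∀ c (x : F), x ∈ V c → τ x - x ∈ (V c).nonunits)
    (hτO : ∀ i (x : O i), ∃ h : τ (x : F) ∈ O i, (⟨τ (x : F), h⟩ - x : O i) ∈ J i)
    (m : ℕ) {u : F} (hu : u ≠ 0)
    (hloc : ∀ i, ∃ g₀ e : F, g₀ ≠ 0 ∧ e ∈ O i ∧ e⁻¹ ∈ O i ∧
      σ (u / g₀ ^ m) / (u / g₀ ^ m) = e) :
    PwiShape V O J inc m (τ (σ u / u) / (σ u / u)) := by
  have hτV' : ∀ c (x : F), x ∈ V c → (V c).valuation (τ x - x) < 1 := fun c x hx =>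
    (ValuationSubring.mem_nonunits_iff (V c)).mp (hτV c x hx)
  have hcheap : ∀ c (f : F), f ≠ 0 →
      τ (σ f / f) / (σ f / f) - 1 ∈ (V c).nonunits := fun c f hf =>
    (ValuationSubring.mem_nonunits_iff (V c)).mpr (ls_cheap (V c) σ τ (hτV' c) (hσV c f hf))
  refine ⟨fun c => hcheap c u hu, fun i => ?_⟩
  obtain ⟨g₀, e, hg₀, he, he', hfac⟩ := hloc i
  obtain ⟨ε, hε, hεJ, hw⟩ := ls_shape_ideal (O i) (J i) σ τ (hτO i) hu hg₀ m he he' hfac
  exact ⟨ε, τ (σ g₀ / g₀) / (σ g₀ / g₀), hε, hεJ, fun c _ => hcheap c g₀ hg₀, hw⟩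

/-- **D3 = Step 1, abstract theorem.**  As `ls_pwiShape`, with the local factorisations produced
from coordinates in the tubes: for every closed point `i` a tube `T i` (the height-one primes of
`O i`) with order functions, the permutation induced by `σ`, coordinate functions at the points
of the support of `u` moved by `σ` (Lemma N), and the unit criterion (Lemma U). -/
theorem ls_pwiShape_of_tube (V : κ → ValuationSubring F) (O : ι → Subring F)
    (J : ∀ i, Ideal (O i)) (inc : ι → κ → Prop) (σ τ : F →+* F)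
    (hσV : ∀ c (f : F), f ≠ 0 → (V c).valuation (σ f / f) = 1)
    (hτV : ∀ c (x : F), x ∈ V c → τ x - x ∈ (V c).nonunits)
    (hτO : ∀ i (x : O i), ∃ h : τ (x : F) ∈ O i, (⟨τ (x : F), h⟩ - x : O i) ∈ J i)
    (m : ℕ) {u : F} (hu : u ≠ 0)
    {T : ι → Type*} (ord : ∀ i, T i → F → ℤ)
    (hmul : ∀ i (j : T i) (x y : F), x ≠ 0 → y ≠ 0 → ord i j (x * y) = ord i j x + ord i j y)
    (σT : ∀ i, Equiv.Perm (T i))
    (hσT : ∀ i (j : T i) (x : F), x ≠ 0 → ord i (σT i j) (σ x) = ord i j x)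
    (hfin : ∀ i, {j | σT i j ≠ j ∧ ord i j u ≠ 0}.Finite)
    (hm : ∀ i (j : T i), σT i j ≠ j → (m : ℤ) ∣ ord i j u)
    (hcoord : ∀ i (j : T i), σT i j ≠ j → ord i j u ≠ 0 →
      ∃ f : F, f ≠ 0 ∧ ord i j f = 1 ∧ ∀ j', σT i j' ≠ j' → j' ≠ j → ord i j' f = 0)
    (hU : ∀ i (x : F), x ≠ 0 → (∀ j, ord i j x = 0) →
      (∀ c, inc i c → (V c).valuation x = 1) → x ∈ O i ∧ x⁻¹ ∈ O i) :
    PwiShape V O J inc m (τ (σ u / u) / (σ u / u)) := by
  refine ls_pwiShape V O J inc σ τ hσV hτV hτO m hu fun i => ?_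
  obtain ⟨g₀, hg₀, -, hord⟩ := ls_tube_factor σ (ord i) (hmul i) (σT i) (hσT i) hu m (hfin i)
    (hm i) (hcoord i)
  have hu₁ : u / g₀ ^ m ≠ 0 := div_ne_zero hu (pow_ne_zero _ hg₀)
  have he0 : σ (u / g₀ ^ m) / (u / g₀ ^ m) ≠ 0 := div_ne_zero ((map_ne_zero σ).mpr hu₁) hu₁
  obtain ⟨he, he'⟩ := hU i _ he0 hord fun c _ => hσV c _ hu₁
  exact ⟨g₀, _, hg₀, he, he', rfl⟩

end Pwi

section Local

variable {F : Type*} [Field F] {B : Type*} [CommRing B] [Algebra B F]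

/-- The local ring `B_𝔫` of a chart `B` at a prime `𝔫`, as a subring of `F`:
`{x | ∃ b s, s ∉ 𝔫 ∧ s x = b}`. -/
def ls_localSubring (𝔫 : Ideal B) [h𝔫 : 𝔫.IsPrime] : Subring F where
  carrier := {x | ∃ b s : B, s ∉ 𝔫 ∧ algebraMap B F s * x = algebraMap B F b}
  mul_mem' := by
    rintro x y ⟨b, s, hs, hx⟩ ⟨b', s', hs', hy⟩
    refine ⟨b * b', s * s', fun h => ?_, ?_⟩
    · rcases h𝔫.mem_or_mem h with h' | h'
      · exact hs h'
      · exact hs' h'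
    · rw [map_mul, map_mul, ← hx, ← hy]; ring
  one_mem' := ⟨1, 1, fun h => h𝔫.ne_top ((Ideal.eq_top_iff_one 𝔫).mpr h), by simp⟩
  add_mem' := by
    rintro x y ⟨b, s, hs, hx⟩ ⟨b', s', hs', hy⟩
    refine ⟨b * s' + b' * s, s * s', fun h => ?_, ?_⟩
    · rcases h𝔫.mem_or_mem h with h' | h'
      · exact hs h'
      · exact hs' h'
    · rw [map_add, map_mul, map_mul, map_mul, ← hx, ← hy]; ring
  zero_mem' := ⟨0, 1, fun h => h𝔫.ne_top ((Ideal.eq_top_iff_one 𝔫).mpr h), by simp⟩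
  neg_mem' := by
    rintro x ⟨b, s, hs, hx⟩
    exact ⟨-b, s, hs, by rw [map_neg, ← hx]; ring⟩

theorem ls_mem_localSubring (𝔫 : Ideal B) [𝔫.IsPrime] {x : F} :
    x ∈ ls_localSubring (F := F) 𝔫 ↔
      ∃ b s : B, s ∉ 𝔫 ∧ algebraMap B F s * x = algebraMap B F b :=
  Iff.rfl

theorem ls_algebraMap_mem (𝔫 : Ideal B) [h𝔫 : 𝔫.IsPrime] (b : B) :
    algebraMap B F b ∈ ls_localSubring (F := F) 𝔫 :=
  ⟨b, 1, fun h => h𝔫.ne_top ((Ideal.eq_top_iff_one 𝔫).mpr h), by simp⟩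

/-- The output of Lemma U (`s ε = t`, `s, t ∉ 𝔫`) says that `ε` is a unit of `B_𝔫`. -/
theorem ls_unit_mem_localSubring (hinj : Function.Injective (algebraMap B F))
    (𝔫 : Ideal B) [𝔫.IsPrime] {ε : F} {s t : B} (hs : s ∉ 𝔫) (ht : t ∉ 𝔫)
    (h : algebraMap B F s * ε = algebraMap B F t) :
    ε ∈ ls_localSubring (F := F) 𝔫 ∧ ε⁻¹ ∈ ls_localSubring (F := F) 𝔫 := by
  refine ⟨⟨t, s, hs, h⟩, ⟨s, t, ht, ?_⟩⟩
  have ht0 : algebraMap B F t ≠ 0 := fun h0 =>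
    ht (by rw [hinj (h0.trans (map_zero _).symm)]; exact 𝔫.zero_mem)
  have hε : ε ≠ 0 := by
    rintro rfl
    rw [mul_zero] at h
    exact ht0 h.symm
  rw [← h]
  field_simp

/-- The ideal `ϖ · B_𝔫` of `B_𝔫`. -/
def ls_localIdeal (𝔫 : Ideal B) [𝔫.IsPrime] (ϖ : B) : Ideal (ls_localSubring (F := F) 𝔫) :=
  Ideal.span {⟨algebraMap B F ϖ, ls_algebraMap_mem 𝔫 ϖ⟩}

theorem ls_mem_localIdeal (𝔫 : Ideal B) [𝔫.IsPrime] (ϖ : B)
    {x : ls_localSubring (F := F) 𝔫} :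
    x ∈ ls_localIdeal (F := F) 𝔫 ϖ ↔
      ∃ y ∈ ls_localSubring (F := F) 𝔫, (x : F) = algebraMap B F ϖ * y := by
  rw [ls_localIdeal, Ideal.mem_span_singleton']
  constructor
  · rintro ⟨a, ha⟩
    refine ⟨a, a.2, ?_⟩
    rw [← ha]
    push_cast
    ring
  · rintro ⟨y, hy, hxy⟩
    refine ⟨⟨y, hy⟩, Subtype.ext ?_⟩
    push_cast
    rw [hxy]
    ring

/-- If `τ` is trivial modulo `ϖ` on the chart `B` and `ϖ ∈ 𝔫`, then `τ` preserves `B_𝔫` and is
trivial modulo `ϖ B_𝔫`. -/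
theorem ls_tau_localSubring (hinj : Function.Injective (algebraMap B F))
    (𝔫 : Ideal B) [h𝔫 : 𝔫.IsPrime] (ϖ : B) (hϖ : ϖ ∈ 𝔫) (τ : F →+* F)
    (hτB : ∀ b : B, ∃ c : B, τ (algebraMap B F b) = algebraMap B F (b + ϖ * c))
    (x : ls_localSubring (F := F) 𝔫) :
    ∃ h : τ (x : F) ∈ ls_localSubring (F := F) 𝔫,
      (⟨τ (x : F), h⟩ - x : ls_localSubring (F := F) 𝔫) ∈ ls_localIdeal (F := F) 𝔫 ϖ := by
  obtain ⟨x, b, s, hs, hx⟩ := x
  obtain ⟨cs, hcs⟩ := hτB s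
  obtain ⟨cb, hcb⟩ := hτB b
  have hs' : s + ϖ * cs ∉ 𝔫 := fun h => hs (by
    have h2 : s = (s + ϖ * cs) - ϖ * cs := by ring
    rw [h2]
    exact 𝔫.sub_mem h (𝔫.mul_mem_right _ hϖ))
  have hτx : algebraMap B F (s + ϖ * cs) * τ x = algebraMap B F (b + ϖ * cb) := by
    rw [← hcs, ← hcb, ← map_mul, hx]
  have hmem : τ x ∈ ls_localSubring (F := F) 𝔫 := ⟨_, _, hs', hτx⟩
  refine ⟨hmem, ?_⟩
  have hss' : s * (s + ϖ * cs) ∉ 𝔫 := fun h => by
    rcases h𝔫.mem_or_mem h with h' | h'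
    · exact hs h'
    · exact hs' h'
  have hne : algebraMap B F (s * (s + ϖ * cs)) ≠ 0 := fun h0 =>
    hss' (by rw [hinj (h0.trans (map_zero _).symm)]; exact 𝔫.zero_mem)
  rw [ls_mem_localIdeal]
  refine ⟨algebraMap B F (s * cb - cs * b) / algebraMap B F (s * (s + ϖ * cs)),
    ⟨s * cb - cs * b, s * (s + ϖ * cs), hss', by field_simp⟩, ?_⟩
  show τ x - x = _
  have h1 : algebraMap B F (s * (s + ϖ * cs)) * (τ x - x)
      = algebraMap B F ϖ * algebraMap B F (s * cb - cs * b) := by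
    have e1 : algebraMap B F (s * (s + ϖ * cs)) * (τ x - x)
        = algebraMap B F s * (algebraMap B F (s + ϖ * cs) * τ x)
          - algebraMap B F (s + ϖ * cs) * (algebraMap B F s * x) := by
      rw [map_mul]; ring
    rw [e1, hτx, hx, ← map_mul, ← map_mul, ← map_sub, ← map_mul]
    congr 1
    ring
  field_simp
  linear_combination h1

end Local

section Kummer

variable {F : Type*} [Field F] {B : Type*} [CommRing B] [Algebra B F]
  {L : Type*} [Field L] [Algebra F L] [Algebra B L] [IsScalarTower B F L]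

/-- **Step 1 ⇒ input of Step 2.**  `w = ε · γ ^ m` in `F` with `ε ∈ B_𝔫`, and `y ∈ L ⊇ F` with
`y ^ m = w`: there are `s ∈ B ∖ 𝔫` and `T ∈ L` integral over `B` with `T = s · y / γ`, so
`s · y − T = T · (γ − 1)`. -/
theorem ls_kummer_local (𝔫 : Ideal B) [𝔫.IsPrime] {m : ℕ} (hm : m ≠ 0)
    {w ε γ : F} (hγ : γ ≠ 0) (hε : ε ∈ ls_localSubring (F := F) 𝔫) (hw : w = ε * γ ^ m)
    {y : L} (hy : y ^ m = algebraMap F L w) :
    ∃ s : B, s ∉ 𝔫 ∧ ∃ T : L, IsIntegral B T ∧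
      T * algebraMap F L γ = algebraMap B L s * y ∧
      algebraMap B L s * y - T = T * (algebraMap F L γ - 1) := by
  obtain ⟨b, s, hs, hsε⟩ := hε
  have hγL : algebraMap F L γ ≠ 0 := (map_ne_zero _).mpr hγ
  refine ⟨s, hs, algebraMap B L s * y / algebraMap F L γ, ?_, by field_simp, by field_simp⟩
  -- `T ^ m = s ^ (m - 1) * b`
  have hT : (algebraMap B L s * y / algebraMap F L γ) ^ m
      = algebraMap B L (s ^ (m - 1) * b) := by
    have h1 : algebraMap B L b = algebraMap B L s * algebraMap F L ε := by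
      rw [IsScalarTower.algebraMap_apply B F L, IsScalarTower.algebraMap_apply B F L, ← hsε,
        map_mul]
    have h2 : algebraMap B L s ^ m = algebraMap B L s ^ (m - 1) * algebraMap B L s := by
      rw [← pow_succ, Nat.sub_add_cancel (Nat.one_le_iff_ne_zero.mpr hm)]
    rw [div_pow, mul_pow, hy, hw, map_mul, map_pow, map_mul, map_pow, h1, h2]
    field_simp
  refine ⟨Polynomial.X ^ m - Polynomial.C (s ^ (m - 1) * b),
    Polynomial.monic_X_pow_sub_C _ hm, ?_⟩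
  rw [Polynomial.eval₂_sub, Polynomial.eval₂_pow, Polynomial.eval₂_X, Polynomial.eval₂_C, hT,
    sub_self]

end Kummer

end Fermat.Agent.UNIP


end ZBUNIP_007_1

/-! ### bundled: `Fermat.Agent.UNIP.MGGalAct` -/
section ZBUNIP_007_2

/-!
# UNIP, piece MG-3 (`GalAct`): the action of inertia on `F_N(E′)` and on the chart `B₀[π′]`

`NfQb = ℚ̄`, `A ⊂ NfQb` a valuation subring, `I = A.inertiaSubgroupIn ℚ`, `E₀ = beta0Field A = NfQb^I`,
`E′` an intermediate field stable under `σ`, `F_N(K) = modularFunctionFieldFullC K N`.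
Built on MG-1 (`MGSetup`: `mgRestrict`, `mgAct`, `nfEmb_mgAct`), MG-2 (`MGPlaces`: `mgRingAut`,
`mgGal`) and MG-4 (`MGCharts`: `MgcChart R α = R[α]`, `nbcGen R α`).  All names here: `mga*`.

* `mgaCoeffHom f N : F_N(K) →+* F_N(K')` : the coefficientwise map of a ring homomorphism of fields
  (`mgaCoeffHom_comp`, `_id`, `_congr`, `_algebraMap`, `_injective`), `mgaCoeffEquiv`;
  `mgaConst K N : K →+* F_N(K)` (`= algebraMap`); `mgaIncl h N : F_N(K₀) →+* F_N(K₁)` for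
  `K₀ ≤ K₁`, `nfEmb_mgaIncl : nfEmb K₁ ∘ mgaIncl = nfEmb K₀`.
* `mgRestrict` is bijective (`mga_restrict_bijective`), `mgaRestrictEquiv K₀ σ hσ : K₀ ≃+* K₀`,
  `mga_stable_symm`; `mgAct = mgRingAut (mgaRestrictEquiv)` (`mga_act_eq_mgRingAut`,
  `mgGal_mgaRestrictEquiv_smul`), `mgaActEquiv`, `mga_act_bijective`, `mgAct_mgaConst`.
* stability criteria: `mga_stable_of_normal`, `mga_stable_sup`, `mga_stable_of_fix`,
  `mga_stable_beta0`, `mga_stable_beta0_sup` (`E′ = E₀ ⊔ K`, `K/ℚ` normal), `mga_stable_of_roots`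
  (`E′/E₀` normal in the form "all conjugates over `E₀` stay in `E′`").
* `mgAct_mgaIncl` : `σ` fixing `E₀` pointwise ⇒ `mgAct σ` is the identity on the image of
  `F_N(E₀)`.
* `mga_inertia_sub_eq_mul` : `σ ∈ I`, `π′` a uniformizer of `A ∩ E′` ⇒ `σ a − a ∈ π′ (A ∩ E′)` for
  `a ∈ A ∩ E′`;  `mga_inertia_unif_mem` : `(σ π′ − π′) / π′ ∈ A ∩ E′`.
* `mga_adjoin_tau`, `mga_adjoin_hτB`, `mga_adjoin_hτB_const` (abstract): `τ` fixes `R`,
  `τ α = α + α c₀`, `c₀ ∈ R[α]` ⇒ `τ b = b + α c` on `R[α]`  (the hypothesis `hτB` of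
  `ls_tau_localSubring`); `mga_adjoin_tau_mem` : `τ (R[α]) ⊆ R[α]`.
* `mga_galAct_chart` : the instantiation for `τ = mgAct σ`, `σ ∈ I`, `R → F_N(E′)` with image in
  the image of `F_N(E₀)`, `α = π′`.
* `mga_galAct_hτO` : the resulting hypothesis `hτO` of `ls_pwiShape` at a prime `𝔫 ∋ π′` of
  `R[π′]` (via `ls_tau_localSubring`).
-/

set_option autoImplicit false
set_option linter.style.haveILetI false
set_option linter.unusedSectionVars false

open ModularCurve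

namespace Fermat.Agent.UNIP

open Fermat.Agent.INJ

section Generic

variable {K K' K'' : Type*} [Field K] [Field K'] [Field K'']

/-- The coefficientwise map `F_N(K) → F_N(K')` of a ring homomorphism `K → K'`. -/
noncomputable def mgaCoeffHom (f : K →+* K') (N : ℕ) :
    modularFunctionFieldFullC K N →+* modularFunctionFieldFullC K' N where
  toFun x := ⟨coeffMap f x, nf_coeffMap_mem_fullC f N x.2⟩
  map_one' := by ext1; simp
  map_mul' x y := by ext1; simp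
  map_zero' := by ext1; simp
  map_add' x y := by ext1; simp

@[simp]
theorem mgaCoeffHom_coe (f : K →+* K') (N : ℕ) (x : modularFunctionFieldFullC K N) :
    ((mgaCoeffHom f N x : modularFunctionFieldFullC K' N) : LaurentSeries K')
      = coeffMap f (x : LaurentSeries K) := rfl

theorem mgaCoeffHom_comp (g : K' →+* K'') (f : K →+* K') (N : ℕ)
    (x : modularFunctionFieldFullC K N) :
    mgaCoeffHom g N (mgaCoeffHom f N x) = mgaCoeffHom (g.comp f) N x := by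
  ext1
  exact coeffMap_coeffMap g f _

theorem mgaCoeffHom_congr {f g : K →+* K'} (h : ∀ a, f a = g a) (N : ℕ)
    (x : modularFunctionFieldFullC K N) : mgaCoeffHom f N x = mgaCoeffHom g N x := by
  ext1
  exact coeffMap_congr (RingHom.ext h) _

theorem mgaCoeffHom_id (N : ℕ) (x : modularFunctionFieldFullC K N) :
    mgaCoeffHom (RingHom.id K) N x = x := by
  ext1
  exact coeffMap_id _

theorem mgaCoeffHom_injective (f : K →+* K') (N : ℕ) : Function.Injective (mgaCoeffHom f N) :=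
  (mgaCoeffHom f N).injective

theorem mgaCoeffHom_algebraMap (f : K →+* K') (N : ℕ) (c : K) :
    mgaCoeffHom f N (algebraMap K (modularFunctionFieldFullC K N) c)
      = algebraMap K' (modularFunctionFieldFullC K' N) (f c) := by
  ext1
  show coeffMap f (algebraMap K (LaurentSeries K) c) = algebraMap K' (LaurentSeries K') (f c)
  exact nf_coeffMap_algebraMap f c

/-- The constants `K → F_N(K)` as a ring homomorphism (`= algebraMap`; a name for it avoids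
expensive instance searches in contexts with many local instances). -/
noncomputable def mgaConst (K : Type*) [Field K] (N : ℕ) :
    K →+* modularFunctionFieldFullC K N :=
  algebraMap K (modularFunctionFieldFullC K N)

theorem mgaConst_apply (N : ℕ) (c : K) :
    mgaConst K N c = algebraMap K (modularFunctionFieldFullC K N) c := rfl

@[simp]
theorem mgaConst_coe (N : ℕ) (c : K) :
    ((mgaConst K N c : modularFunctionFieldFullC K N) : LaurentSeries K)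
      = algebraMap K (LaurentSeries K) c := rfl

theorem mgaCoeffHom_mgaConst (f : K →+* K') (N : ℕ) (c : K) :
    mgaCoeffHom f N (mgaConst K N c) = mgaConst K' N (f c) :=
  mgaCoeffHom_algebraMap f N c

/-- The coefficientwise isomorphism `F_N(K) ≃ F_N(K')` of an isomorphism `K ≃ K'`. -/
noncomputable def mgaCoeffEquiv (e : K ≃+* K') (N : ℕ) :
    modularFunctionFieldFullC K N ≃+* modularFunctionFieldFullC K' N :=
  RingEquiv.ofRingHom (mgaCoeffHom (e : K →+* K') N) (mgaCoeffHom (e.symm : K' →+* K) N)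
    (RingHom.ext fun x => by
      show mgaCoeffHom _ N (mgaCoeffHom _ N x) = x
      rw [mgaCoeffHom_comp,
        mgaCoeffHom_congr (g := RingHom.id K') (fun a => e.apply_symm_apply a), mgaCoeffHom_id])
    (RingHom.ext fun x => by
      show mgaCoeffHom _ N (mgaCoeffHom _ N x) = x
      rw [mgaCoeffHom_comp,
        mgaCoeffHom_congr (g := RingHom.id K) (fun a => e.symm_apply_apply a), mgaCoeffHom_id])

@[simp]
theorem mgaCoeffEquiv_apply (e : K ≃+* K') (N : ℕ) (x : modularFunctionFieldFullC K N) :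
    mgaCoeffEquiv e N x = mgaCoeffHom (e : K →+* K') N x := rfl

@[simp]
theorem mgaCoeffEquiv_symm_apply (e : K ≃+* K') (N : ℕ) (x : modularFunctionFieldFullC K' N) :
    (mgaCoeffEquiv e N).symm x = mgaCoeffHom (e.symm : K' →+* K) N x := rfl

theorem mgRingAut_eq_mgaCoeffHom (s : K ≃+* K) (N : ℕ) (x : modularFunctionFieldFullC K N) :
    mgRingAut N s x = mgaCoeffHom (s : K →+* K) N x := rfl

end Generic

section Chart

variable {R L : Type*} [CommRing R] [Field L] [Algebra R L]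

/-- **Abstract chart lemma.**  If `τ` fixes `R` and `τ α = α + α c₀` with `c₀ ∈ R[α]`, then
`τ b − b ∈ α R[α]` for every `b ∈ R[α]`. -/
theorem mga_adjoin_tau (τ : L →+* L) (α : L)
    (hR : ∀ r : R, τ (algebraMap R L r) = algebraMap R L r)
    (hα : ∃ c ∈ Algebra.adjoin R ({α} : Set L), τ α = α + α * c) :
    ∀ b ∈ Algebra.adjoin R ({α} : Set L),
      ∃ c ∈ Algebra.adjoin R ({α} : Set L), τ b = b + α * c := by
  have hαm : α ∈ Algebra.adjoin R ({α} : Set L) := Algebra.self_mem_adjoin_singleton R α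
  intro b hb
  induction hb using Algebra.adjoin_induction with
  | mem x hx =>
      rw [Set.mem_singleton_iff] at hx
      subst hx
      exact hα
  | algebraMap r => exact ⟨0, zero_mem _, by rw [hR, mul_zero, add_zero]⟩
  | add x y _ _ hx hy =>
      obtain ⟨c, hc, hxc⟩ := hx
      obtain ⟨d, hd, hyd⟩ := hy
      exact ⟨c + d, add_mem hc hd, by rw [map_add, hxc, hyd]; ring⟩
  | mul x y hxm hym hx hy =>
      obtain ⟨c, hc, hxc⟩ := hx
      obtain ⟨d, hd, hyd⟩ := hy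
      refine ⟨c * y + x * d + α * (c * d),
        add_mem (add_mem (mul_mem hc hym) (mul_mem hxm hd)) (mul_mem hαm (mul_mem hc hd)), ?_⟩
      rw [map_mul, hxc, hyd]
      ring

/-- The same in the shape of the hypothesis `hτB` of `ls_tau_localSubring`
(`B = R[α] = MgcChart R α`, `ϖ = nbcGen R α`). -/
theorem mga_adjoin_hτB (τ : L →+* L) (α : L)
    (hR : ∀ r : R, τ (algebraMap R L r) = algebraMap R L r)
    (hα : ∃ c ∈ Algebra.adjoin R ({α} : Set L), τ α = α + α * c)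
    (b : MgcChart R α) :
    ∃ c : MgcChart R α,
      τ (algebraMap (MgcChart R α) L b) = algebraMap (MgcChart R α) L (b + nbcGen R α * c) := by
  obtain ⟨c, hc, h⟩ := mga_adjoin_tau τ α hR hα b b.2
  exact ⟨⟨c, hc⟩, h⟩

/-- `τ` maps `R[α]` into itself. -/
theorem mga_adjoin_tau_mem (τ : L →+* L) (α : L)
    (hR : ∀ r : R, τ (algebraMap R L r) = algebraMap R L r)
    (hα : ∃ c ∈ Algebra.adjoin R ({α} : Set L), τ α = α + α * c)
    {b : L} (hb : b ∈ Algebra.adjoin R ({α} : Set L)) :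
    τ b ∈ Algebra.adjoin R ({α} : Set L) := by
  obtain ⟨c, hc, h⟩ := mga_adjoin_tau τ α hR hα b hb
  rw [h]
  exact add_mem hb (mul_mem (Algebra.self_mem_adjoin_singleton R α) hc)

/-- Abstract form of the chart statement with a field of constants `ι : E → L`: `τ` is
`s`-semilinear on the constants, fixes `R`, and `(s π′ − π′) / π′ ∈ R[π′]`. -/
theorem mga_adjoin_hτB_const {E : Type*} [Field E] (ι : E →+* L)
    (τ : L →+* L) (s : E →+* E) (hτs : ∀ c : E, τ (ι c) = ι (s c))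
    (hR : ∀ r : R, τ (algebraMap R L r) = algebraMap R L r)
    (π' : E) (hπ'0 : π' ≠ 0)
    (hc : ι ((s π' - π') / π') ∈ Algebra.adjoin R ({ι π'} : Set L))
    (b : MgcChart R (ι π')) :
    ∃ c : MgcChart R (ι π'),
      τ (algebraMap (MgcChart R (ι π')) L b)
        = algebraMap (MgcChart R (ι π')) L (b + nbcGen R (ι π') * c) := by
  refine mga_adjoin_hτB τ _ hR ⟨_, hc, ?_⟩ b
  rw [hτs, ← map_mul, ← map_add]
  congr 1
  field_simp
  ring

end Chart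

section Restrict

variable (K₀ : IntermediateField ℚ NfQb) (σ : NfQb ≃ₐ[ℚ] NfQb)

theorem mga_restrict_bijective (h : ∀ x ∈ K₀, σ x ∈ K₀) :
    Function.Bijective (mgRestrict K₀ σ h) := by
  haveI : Algebra.IsAlgebraic ℚ NfQb := AlgebraicClosure.isAlgebraic ℚ
  haveI : Algebra.IsAlgebraic ℚ K₀ :=
    Algebra.IsAlgebraic.of_injective K₀.val Subtype.val_injective
  let f : K₀ →ₐ[ℚ] K₀ :=
    AlgHom.codRestrict ((σ : NfQb →ₐ[ℚ] NfQb).comp K₀.val) K₀.toSubalgebra (fun x => h x x.2)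
  exact Algebra.IsAlgebraic.algHom_bijective f

/-- A `σ`-stable intermediate field of `ℚ̄` is `σ⁻¹`-stable. -/
theorem mga_stable_symm (h : ∀ x ∈ K₀, σ x ∈ K₀) : ∀ x ∈ K₀, σ.symm x ∈ K₀ := by
  intro x hx
  obtain ⟨y, hy⟩ := (mga_restrict_bijective K₀ σ h).2 ⟨x, hx⟩
  have h1 : σ (y : NfQb) = x := congrArg Subtype.val hy
  rw [← h1, AlgEquiv.symm_apply_apply]
  exact y.2

/-- The restriction of `σ` to a `σ`-stable intermediate field, as an automorphism. -/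
noncomputable def mgaRestrictEquiv (h : ∀ x ∈ K₀, σ x ∈ K₀) : K₀ ≃+* K₀ :=
  RingEquiv.ofBijective (mgRestrict K₀ σ h) (mga_restrict_bijective K₀ σ h)

@[simp]
theorem mgaRestrictEquiv_coe (h : ∀ x ∈ K₀, σ x ∈ K₀) (x : K₀) :
    ((mgaRestrictEquiv K₀ σ h x : K₀) : NfQb) = σ (x : NfQb) := rfl

theorem mgaRestrictEquiv_apply (h : ∀ x ∈ K₀, σ x ∈ K₀) (x : K₀) :
    mgaRestrictEquiv K₀ σ h x = mgRestrict K₀ σ h x := rfl

/-- the hypothesis `h` of MG-2 (`mg_nfEmb_smul`, `mg_restrict_smul`) -/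
theorem mgaRestrictEquiv_spec (h : ∀ x ∈ K₀, σ x ∈ K₀) (a : K₀) :
    σ (a : NfQb) = ((mgaRestrictEquiv K₀ σ h a : K₀) : NfQb) := rfl

theorem mgaRestrictEquiv_symm_coe (h : ∀ x ∈ K₀, σ x ∈ K₀) (x : K₀) :
    (((mgaRestrictEquiv K₀ σ h).symm x : K₀) : NfQb) = σ.symm (x : NfQb) := by
  have h1 : σ (((mgaRestrictEquiv K₀ σ h).symm x : K₀) : NfQb) = x := by
    rw [← mgaRestrictEquiv_coe K₀ σ h, RingEquiv.apply_symm_apply]
  rw [← h1, AlgEquiv.symm_apply_apply]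

variable (N : ℕ)

theorem mgAct_eq_mgaCoeffHom (h : ∀ x ∈ K₀, σ x ∈ K₀) (x : modularFunctionFieldFullC K₀ N) :
    mgAct K₀ N σ h x = mgaCoeffHom (mgRestrict K₀ σ h) N x := rfl

/-- MG-1's action is MG-2's action of the restricted automorphism. -/
theorem mga_act_eq_mgRingAut (h : ∀ x ∈ K₀, σ x ∈ K₀) (x : modularFunctionFieldFullC K₀ N) :
    mgAct K₀ N σ h x = mgRingAut N (mgaRestrictEquiv K₀ σ h) x := rfl

theorem mgGal_mgaRestrictEquiv_smul (h : ∀ x ∈ K₀, σ x ∈ K₀)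
    (x : modularFunctionFieldFullC K₀ N) :
    mgGal N (mgaRestrictEquiv K₀ σ h) • x = mgAct K₀ N σ h x := rfl

/-- **The action of `σ` on `F_N(E′)` is a ring automorphism.** -/
noncomputable def mgaActEquiv (h : ∀ x ∈ K₀, σ x ∈ K₀) :
    modularFunctionFieldFullC K₀ N ≃+* modularFunctionFieldFullC K₀ N :=
  mgRingAut N (mgaRestrictEquiv K₀ σ h)

@[simp]
theorem mgaActEquiv_apply (h : ∀ x ∈ K₀, σ x ∈ K₀) (x : modularFunctionFieldFullC K₀ N) :
    mgaActEquiv K₀ σ N h x = mgAct K₀ N σ h x := rfl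

theorem mgaActEquiv_symm_apply (h : ∀ x ∈ K₀, σ x ∈ K₀) (x : modularFunctionFieldFullC K₀ N) :
    (mgaActEquiv K₀ σ N h).symm x = mgAct K₀ N σ.symm (mga_stable_symm K₀ σ h) x := by
  apply Subtype.ext
  show coeffMap ((mgaRestrictEquiv K₀ σ h).symm : K₀ →+* K₀) (x : LaurentSeries K₀)
    = coeffMap (mgRestrict K₀ σ.symm (mga_stable_symm K₀ σ h)) (x : LaurentSeries K₀)
  refine coeffMap_congr (RingHom.ext fun a => Subtype.ext ?_) _
  exact mgaRestrictEquiv_symm_coe K₀ σ h a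

theorem mga_act_bijective (h : ∀ x ∈ K₀, σ x ∈ K₀) : Function.Bijective (mgAct K₀ N σ h) :=
  (mgaActEquiv K₀ σ N h).bijective

theorem mgAct_mgaConst (h : ∀ x ∈ K₀, σ x ∈ K₀) (c : K₀) :
    mgAct K₀ N σ h (mgaConst K₀ N c) = mgaConst K₀ N (mgRestrict K₀ σ h c) :=
  mgAct_algebraMap K₀ N σ h c

end Restrict

section Inclusion

variable {K₀ K₁ : IntermediateField ℚ NfQb}

/-- The inclusion `F_N(K₀) → F_N(K₁)` for `K₀ ≤ K₁`. -/
noncomputable def mgaIncl (h : K₀ ≤ K₁) (N : ℕ) :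
    modularFunctionFieldFullC K₀ N →+* modularFunctionFieldFullC K₁ N :=
  mgaCoeffHom (IntermediateField.inclusion h).toRingHom N

@[simp]
theorem mgaIncl_coe (h : K₀ ≤ K₁) (N : ℕ) (x : modularFunctionFieldFullC K₀ N) :
    ((mgaIncl h N x : modularFunctionFieldFullC K₁ N) : LaurentSeries K₁)
      = coeffMap (IntermediateField.inclusion h).toRingHom (x : LaurentSeries K₀) := rfl

theorem mgaIncl_injective (h : K₀ ≤ K₁) (N : ℕ) : Function.Injective (mgaIncl h N) :=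
  (mgaIncl h N).injective

theorem mgaIncl_mgaConst (h : K₀ ≤ K₁) (N : ℕ) (c : K₀) :
    mgaIncl h N (mgaConst K₀ N c) = mgaConst K₁ N (IntermediateField.inclusion h c) :=
  mgaCoeffHom_mgaConst _ N c

/-- `nfEmb K₁ ∘ (F_N(K₀) → F_N(K₁)) = nfEmb K₀`. -/
theorem nfEmb_mgaIncl (h : K₀ ≤ K₁) (N : ℕ) (x : modularFunctionFieldFullC K₀ N) :
    nfEmb K₁ N (mgaIncl h N x) = nfEmb K₀ N x := by
  apply Subtype.ext
  rw [nfEmb_coe, nfEmb_coe, mgaIncl_coe]
  exact nf_coeffMap_inclusion h _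

/-- The inclusions are compatible with the Galois actions. -/
theorem mgAct_mgaIncl_comm (h : K₀ ≤ K₁) (σ : NfQb ≃ₐ[ℚ] NfQb) (hσ₀ : ∀ x ∈ K₀, σ x ∈ K₀)
    (hσ₁ : ∀ x ∈ K₁, σ x ∈ K₁) (N : ℕ) (x : modularFunctionFieldFullC K₀ N) :
    mgAct K₁ N σ hσ₁ (mgaIncl h N x) = mgaIncl h N (mgAct K₀ N σ hσ₀ x) := by
  rw [mgAct_eq_mgaCoeffHom, mgAct_eq_mgaCoeffHom, mgaIncl, mgaCoeffHom_comp, mgaCoeffHom_comp]
  exact mgaCoeffHom_congr (fun a => Subtype.ext rfl) N x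

/-- **`σ` is the identity on the image of `F_N(E₀)`** when it fixes `E₀` pointwise. -/
theorem mgAct_mgaIncl (h : K₀ ≤ K₁) (σ : NfQb ≃ₐ[ℚ] NfQb) (hσ : ∀ x ∈ K₁, σ x ∈ K₁)
    (hfix : ∀ x ∈ K₀, σ x = x) (N : ℕ) (x : modularFunctionFieldFullC K₀ N) :
    mgAct K₁ N σ hσ (mgaIncl h N x) = mgaIncl h N x := by
  rw [mgAct_eq_mgaCoeffHom, mgaIncl, mgaCoeffHom_comp]
  refine mgaCoeffHom_congr (fun a => ?_) N x
  apply Subtype.ext
  exact hfix a a.2

end Inclusion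

section Stable

variable (σ : NfQb ≃ₐ[ℚ] NfQb)

/-- A normal extension of `ℚ` inside `ℚ̄` is stable under every automorphism. -/
theorem mga_stable_of_normal (K : IntermediateField ℚ NfQb) [Normal ℚ K] :
    ∀ x ∈ K, σ x ∈ K := by
  intro x hx
  have := AlgEquiv.restrictNormal_commutes σ K ⟨x, hx⟩
  rw [IntermediateField.algebraMap_apply, IntermediateField.algebraMap_apply] at this
  rw [← this]
  exact (AlgEquiv.restrictNormal σ K ⟨x, hx⟩).2

/-- A pointwise fixed intermediate field is stable. -/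
theorem mga_stable_of_fix {K : IntermediateField ℚ NfQb} (hfix : ∀ x ∈ K, σ x = x) :
    ∀ x ∈ K, σ x ∈ K := fun x hx => by rw [hfix x hx]; exact hx

/-- The compositum of two stable intermediate fields is stable. -/
theorem mga_stable_sup {K₁ K₂ : IntermediateField ℚ NfQb} (h₁ : ∀ x ∈ K₁, σ x ∈ K₁)
    (h₂ : ∀ x ∈ K₂, σ x ∈ K₂) : ∀ x ∈ K₁ ⊔ K₂, σ x ∈ K₁ ⊔ K₂ := by
  have hle : K₁ ⊔ K₂ ≤ (K₁ ⊔ K₂).comap (σ : NfQb →ₐ[ℚ] NfQb) := by
    refine sup_le (fun x hx => ?_) (fun x hx => ?_)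
    · exact (le_sup_left : K₁ ≤ K₁ ⊔ K₂) (h₁ x hx)
    · exact (le_sup_right : K₂ ≤ K₁ ⊔ K₂) (h₂ x hx)
  exact fun x hx => hle hx

/-- Inertia fixes `E₀` pointwise. -/
theorem mga_fix_beta0 {A : ValuationSubring NfQb} {σ : NfQb ≃ₐ[ℚ] NfQb}
    (hσ : σ ∈ A.inertiaSubgroupIn ℚ) : ∀ x ∈ beta0Field A, σ x = x :=
  fun _ hx => mem_beta0Field.mp hx σ hσ

theorem mga_stable_beta0 {A : ValuationSubring NfQb} {σ : NfQb ≃ₐ[ℚ] NfQb}
    (hσ : σ ∈ A.inertiaSubgroupIn ℚ) : ∀ x ∈ beta0Field A, σ x ∈ beta0Field A :=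
  mga_stable_of_fix σ (mga_fix_beta0 hσ)

/-- `E′ = E₀ ⊔ K` with `K/ℚ` normal is stable under inertia. -/
theorem mga_stable_beta0_sup {A : ValuationSubring NfQb} {σ : NfQb ≃ₐ[ℚ] NfQb}
    (hσ : σ ∈ A.inertiaSubgroupIn ℚ) (K : IntermediateField ℚ NfQb) [Normal ℚ K] :
    ∀ x ∈ beta0Field A ⊔ K, σ x ∈ beta0Field A ⊔ K :=
  mga_stable_sup σ (mga_stable_beta0 hσ) (mga_stable_of_normal σ K)

/-- `E′/E₀` normal (every `E₀`-conjugate of an element of `E′` lies in `E′`) and `σ` fixes `E₀`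
pointwise ⇒ `E′` is `σ`-stable. -/
theorem mga_stable_of_roots {E₀ E' : IntermediateField ℚ NfQb}
    (hfix : ∀ x ∈ E₀, σ x = x)
    (hN : ∀ x ∈ E', ∀ y : NfQb, Polynomial.aeval y (minpoly E₀ x) = 0 → y ∈ E') :
    ∀ x ∈ E', σ x ∈ E' := by
  intro x hx
  refine hN x hx (σ x) ?_
  let σ' : NfQb →ₐ[E₀] NfQb :=
    { (σ : NfQb →+* NfQb) with
      commutes' := fun c => hfix c c.2 }
  have h1 : Polynomial.aeval (σ' x) (minpoly E₀ x) = σ' (Polynomial.aeval x (minpoly E₀ x)) :=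
    Polynomial.aeval_algHom_apply σ' x _
  rw [minpoly.aeval, map_zero] at h1
  exact h1

end Stable

section Inertia

variable {A : ValuationSubring NfQb} {σ : NfQb ≃ₐ[ℚ] NfQb}

/-- **Inertia is trivial modulo the uniformizer of `A ∩ E′`.** -/
theorem mga_inertia_sub_eq_mul (hσ : σ ∈ A.inertiaSubgroupIn ℚ)
    (E' : IntermediateField ℚ NfQb) (hE' : ∀ x ∈ E', σ x ∈ E')
    {π' : NfQb} (hπ'E : π' ∈ E') (hπ'0 : π' ≠ 0)
    (hunif : ∀ x ∈ E', x ∈ A.nonunits → x / π' ∈ A)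
    {a : NfQb} (haE : a ∈ E') (haA : a ∈ A) :
    ∃ c ∈ E', c ∈ A ∧ σ a - a = π' * c := by
  refine ⟨(σ a - a) / π', E'.div_mem (E'.sub_mem (hE' a haE) haE) hπ'E, ?_, ?_⟩
  · exact hunif _ (E'.sub_mem (hE' a haE) haE)
      (Fermat.Agent.S05.inertia_apply_sub_mem_nonunits hσ haA)
  · field_simp

/-- **Inertia moves a uniformizer of `A ∩ E′` by a unit**: `(σ π′ − π′) / π′ ∈ A ∩ E′`. -/
theorem mga_inertia_unif_mem (hσ : σ ∈ A.inertiaSubgroupIn ℚ)
    {E' : IntermediateField ℚ NfQb} (hE' : ∀ x ∈ E', σ x ∈ E')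
    (π' : E') (hπ'A : (π' : NfQb) ∈ A)
    (hunif : ∀ x : E', (x : NfQb) ∈ A.nonunits → ((x / π' : E') : NfQb) ∈ A) :
    (((mgRestrict E' σ hE' π' - π') / π' : E') : NfQb) ∈ A :=
  hunif _ (Fermat.Agent.S05.inertia_apply_sub_mem_nonunits hσ hπ'A)

end Inertia

section ChartConcrete

variable {A : ValuationSubring NfQb} {σ : NfQb ≃ₐ[ℚ] NfQb}

/-- **MG-3, chart form.**  `σ ∈ I`, `E₀ ≤ E′` with `σ` fixing `E₀` pointwise and stabilising `E′`,
`π′` a uniformizer of `A ∩ E′`, `R → F_N(E′)` with image in the image of `F_N(E₀)`, and the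
constants `A ∩ E′` contained in `R[π′]`: then `σ b − b ∈ π′ R[π′]` for every `b ∈ R[π′]`
(the hypothesis `hτB` of `ls_tau_localSubring` for `B = R[π′]`, `ϖ = π′`). -/
theorem mga_galAct_chart (hσ : σ ∈ A.inertiaSubgroupIn ℚ)
    {E₀ E' : IntermediateField ℚ NfQb} (hE₀ : E₀ ≤ E') (hfix : ∀ x ∈ E₀, σ x = x)
    (hE' : ∀ x ∈ E', σ x ∈ E') (N : ℕ)
    (π' : E') (hπ'0 : π' ≠ 0) (hπ'A : (π' : NfQb) ∈ A)
    (hunif : ∀ x : E', (x : NfQb) ∈ A.nonunits → ((x / π' : E') : NfQb) ∈ A)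
    {R : Type*} [CommRing R] [Algebra R (modularFunctionFieldFullC E' N)]
    (hR : ∀ r : R, algebraMap R (modularFunctionFieldFullC E' N) r ∈
        Set.range (mgaIncl hE₀ N))
    (hA' : ∀ c : E', (c : NfQb) ∈ A → mgaConst E' N c ∈ MgcChart R (mgaConst E' N π'))
    (b : MgcChart R (mgaConst E' N π')) :
    ∃ c : MgcChart R (mgaConst E' N π'),
      mgAct E' N σ hE' (algebraMap _ (modularFunctionFieldFullC E' N) b)
        = algebraMap _ (modularFunctionFieldFullC E' N)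
            (b + nbcGen R (mgaConst E' N π') * c) := by
  have hR' : ∀ r : R, mgAct E' N σ hE' (algebraMap R (modularFunctionFieldFullC E' N) r)
      = algebraMap R (modularFunctionFieldFullC E' N) r := by
    intro r
    obtain ⟨x, hx⟩ := hR r
    exact (congrArg _ hx.symm).trans ((mgAct_mgaIncl hE₀ σ hE' hfix N x).trans hx)
  exact mga_adjoin_hτB_const (mgaConst E' N) (mgAct E' N σ hE') (mgRestrict E' σ hE')
    (fun c => mgAct_mgaConst E' σ N hE' c) hR' π' hπ'0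
    (hA' _ (mga_inertia_unif_mem hσ hE' π' hπ'A hunif)) b

/-- **MG-3, local form** (`hτO` of `ls_pwiShape`): at a prime `𝔫 ∋ π′` of the chart `R[π′]`,
`σ ∈ I` preserves the local ring `R[π′]_𝔫` and is trivial modulo `π′ R[π′]_𝔫`. -/
theorem mga_galAct_hτO (hσ : σ ∈ A.inertiaSubgroupIn ℚ)
    {E₀ E' : IntermediateField ℚ NfQb} (hE₀ : E₀ ≤ E') (hfix : ∀ x ∈ E₀, σ x = x)
    (hE' : ∀ x ∈ E', σ x ∈ E') (N : ℕ)
    (π' : E') (hπ'0 : π' ≠ 0) (hπ'A : (π' : NfQb) ∈ A)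
    (hunif : ∀ x : E', (x : NfQb) ∈ A.nonunits → ((x / π' : E') : NfQb) ∈ A)
    {R : Type*} [CommRing R] [Algebra R (modularFunctionFieldFullC E' N)]
    (hR : ∀ r : R, algebraMap R (modularFunctionFieldFullC E' N) r ∈
        Set.range (mgaIncl hE₀ N))
    (hA' : ∀ c : E', (c : NfQb) ∈ A → mgaConst E' N c ∈ MgcChart R (mgaConst E' N π'))
    (𝔫 : Ideal (MgcChart R (mgaConst E' N π'))) [𝔫.IsPrime]
    (hϖ : nbcGen R (mgaConst E' N π') ∈ 𝔫)
    (x : ls_localSubring (F := modularFunctionFieldFullC E' N) 𝔫) :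
    ∃ h : mgAct E' N σ hE' (x : modularFunctionFieldFullC E' N) ∈
          ls_localSubring (F := modularFunctionFieldFullC E' N) 𝔫,
      (⟨_, h⟩ - x : ls_localSubring (F := modularFunctionFieldFullC E' N) 𝔫) ∈
        ls_localIdeal (F := modularFunctionFieldFullC E' N) 𝔫 (nbcGen R (mgaConst E' N π')) :=
  ls_tau_localSubring (F := modularFunctionFieldFullC E' N) Subtype.val_injective 𝔫 _ hϖ _
    (mga_galAct_chart hσ hE₀ hfix hE' N π' hπ'0 hπ'A hunif hR hA') x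

end ChartConcrete

end Fermat.Agent.UNIP


end ZBUNIP_007_2

/-! ### bundled: `Fermat.Agent.UNIP.Adapter` -/
section ZBUNIP_007_3
/-
UNIP (S34/S35), direct route, piece AT-a "ADAPTER" D5 → D4 (helper84).

Chart setting of `INJ.zariski_connected_charts` for the field `F` itself: `A₀` a DVR, `π`,
`E = Frac A₀` (char 0), `u : F` transcendental over `E` (`u = t` or `t⁻¹`), `F / E(u)` finite,
`B_u = zchClosure {u}` the integral closure of `A₀[u]` in `F`.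
`V : κ → ValuationSubring F` the vertical valuation rings (`κ` finite).

* `ad_exists_primeTo_pow_mul_isIntegral` : every `x ∈ F` has a denominator `π ^ k · s`, `π ∤ s`.
* `ad_piLoc_of_vertical` (DICTIONARY): `x ∈ 𝔪(V c)` for all `c` ⇒ `EIPiLoc hu hπ x`
  (`x ∈ π · B_(π)`), from (SS1) `B_u ∩ ⋂ 𝔪(V c) = π B_u` and `B_u ⊆ V c`.
* `ad_arch_of_isDiscreteValuationRing` : a discrete valuation ring is archimedean.
* `ad_ksLocal` (ADAPTER): a datum `w = ε · γ ^ p` of `PwiShape` at a closed point `𝔫` (where `γ ≡ 1`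
  only at the `V c` through `𝔫`) gives the local hypothesis of the Kummer glue:
  `∃ s ∉ 𝔫, ∃ g, g ^ p · w ∈ B_u ∧ EIPiLoc (s − g)`  (`T := g · y`, `b := s`).
* `ad_global` : `PwiShape … w` ⇒ (G) `EIPiLoc (w − 1)`.
-/

set_option autoImplicit false
set_option linter.unusedSectionVars false
set_option linter.style.haveILetI false

namespace Fermat.Agent.UNIP

open Polynomial IntermediateField Fermat.Agent.INJ

section Denominators

variable {A₀ E F : Type*} [CommRing A₀] [IsDomain A₀] [IsDiscreteValuationRing A₀]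
  [Field E] [Algebra A₀ E] [IsFractionRing A₀ E] [CharZero E]
  [Field F] [Algebra E F] [Algebra A₀ F] [IsScalarTower A₀ E F]
  {π : A₀} {u : F}

theorem ad_mem_adjoinSimple (u : F) {x : F} (hx : x ∈ Algebra.adjoin A₀ {u}) :
    x ∈ E⟮u⟯ := by
  induction hx using Algebra.adjoin_induction with
  | mem x hx =>
    rw [Set.mem_singleton_iff] at hx
    rw [hx]
    exact mem_adjoin_simple_self E u
  | algebraMap r =>
    rw [IsScalarTower.algebraMap_apply A₀ E F]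
    exact E⟮u⟯.algebraMap_mem _
  | add x y _ _ hx hy => exact E⟮u⟯.add_mem hx hy
  | mul x y _ _ hx hy => exact E⟮u⟯.mul_mem hx hy

/-- the inclusion `A₀[u] → E(u)` -/
noncomputable def adIncl (u : F) : ↥(Algebra.adjoin A₀ {u}) →+* E⟮u⟯ where
  toFun x := ⟨x.1, ad_mem_adjoinSimple u x.2⟩
  map_one' := rfl
  map_mul' _ _ := rfl
  map_zero' := rfl
  map_add' _ _ := rfl

/-- Every `x ∈ F` is algebraic over `A₀[u]`. -/
theorem ad_isAlgebraic (u : F) [FiniteDimensional E⟮u⟯ F] (x : F) :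
    IsAlgebraic ↥(Algebra.adjoin A₀ {u}) x := by
  letI : Algebra ↥(Algebra.adjoin A₀ {u}) E⟮u⟯ := (adIncl (A₀ := A₀) (E := E) u).toAlgebra
  haveI : IsScalarTower ↥(Algebra.adjoin A₀ {u}) E⟮u⟯ F :=
    IsScalarTower.of_algebraMap_eq (fun _ => rfl)
  haveI : FaithfulSMul ↥(Algebra.adjoin A₀ {u}) E⟮u⟯ :=
    (faithfulSMul_iff_algebraMap_injective _ _).2 (fun x y h => by
      apply Subtype.ext
      exact congrArg (fun z : E⟮u⟯ => (z : F)) h)
  haveI : IsFractionRing ↥(Algebra.adjoin A₀ {u}) E⟮u⟯ :=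
    IsFractionRing.of_field _ _ (fun z => by
      obtain ⟨x, y, hxy⟩ := zch_exists_div (A₀ := A₀) u z.2
      have hx : aeval u x ∈ Algebra.adjoin A₀ ({u} : Set F) := by
        rw [Algebra.adjoin_singleton_eq_range_aeval]; exact ⟨x, rfl⟩
      have hy : aeval u y ∈ Algebra.adjoin A₀ ({u} : Set F) := by
        rw [Algebra.adjoin_singleton_eq_range_aeval]; exact ⟨y, rfl⟩
      refine ⟨⟨_, hx⟩, ⟨_, hy⟩, Subtype.ext ?_⟩
      rw [hxy]
      rfl)
  rw [IsFractionRing.isAlgebraic_iff ↥(Algebra.adjoin A₀ {u}) E⟮u⟯ F]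
  exact IsAlgebraic.of_finite E⟮u⟯ x

/-- **Denominators.**  Every `x ∈ F` becomes integral over `A₀[u]` after multiplication by
`π ^ k · s` with `s ∈ A₀[u]` prime to `π`. -/
theorem ad_exists_primeTo_pow_mul_isIntegral (hu : Transcendental E u) (hπ : Irreducible π)
    [FiniteDimensional E⟮u⟯ F] (x : F) :
    ∃ (k : ℕ) (s : F), EIPrimeTo π u s ∧
      IsIntegral ↥(Algebra.adjoin A₀ {u}) (algebraMap A₀ F π ^ k * s * x) := by
  obtain ⟨y, hy0, hy⟩ := (ad_isAlgebraic (A₀ := A₀) (E := E) u x).exists_integral_multiple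
  haveI := chart_ufm (A₀ := A₀) (E := E) hu
  have hprime := chart_prime (A₀ := A₀) (E := E) hu hπ
  obtain ⟨k, s, hs, hys⟩ := WfDvdMonoid.max_power_factor hy0 hprime.irreducible
  refine ⟨k, (s : F), (eiPrimeTo_iff s.2).mpr hs, ?_⟩
  have e : algebraMap A₀ F π ^ k * (s : F) * x = y • x := by
    rw [Algebra.smul_def, hys]
    rfl
  rw [e]
  exact hy

/-- **DICTIONARY.**  `V c` the vertical valuation rings, `B_u ⊆ V c`, and (SS1):
`B_u ∩ ⋂_c 𝔪(V c) = π B_u`.  Then every `x ∈ ⋂_c 𝔪(V c)` lies in `π · (B_u)_(π)`. -/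
theorem ad_piLoc_of_vertical (hu : Transcendental E u) (hπ : Irreducible π)
    [FiniteDimensional E⟮u⟯ F] {κ : Type*} (V : κ → ValuationSubring F)
    (hBV : ∀ c (b : F), IsIntegral ↥(Algebra.adjoin A₀ {u}) b → b ∈ V c)
    (hSS1 : ∀ b : F, IsIntegral ↥(Algebra.adjoin A₀ {u}) b → (∀ c, b ∈ (V c).nonunits) →
      ∃ b' : F, IsIntegral ↥(Algebra.adjoin A₀ {u}) b' ∧ b = algebraMap A₀ F π * b')
    {x : F} (hx : ∀ c, x ∈ (V c).nonunits) : EIPiLoc hu hπ x := by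
  have hπ0 : algebraMap A₀ F π ≠ 0 := ei_algebraMap_ne_zero (E := E) hπ
  obtain ⟨k, s, hs, hint⟩ := ad_exists_primeTo_pow_mul_isIntegral (E := E) hu hπ x
  have hsint : IsIntegral ↥(Algebra.adjoin A₀ {u}) s :=
    isIntegral_algebraMap (R := ↥(Algebra.adjoin A₀ {u})) (x := ⟨s, hs.1⟩)
  have hπint : IsIntegral ↥(Algebra.adjoin A₀ {u}) (algebraMap A₀ F π) :=
    isIntegral_algebraMap (R := ↥(Algebra.adjoin A₀ {u}))
      (x := algebraMap A₀ ↥(Algebra.adjoin A₀ {u}) π)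
  -- multiples of `x` by integral elements are in all `𝔪(V c)`
  have hmul : ∀ a : F, IsIntegral ↥(Algebra.adjoin A₀ {u}) a → ∀ c, a * x ∈ (V c).nonunits :=
    fun a ha c => pwi_mul_mem_nonunits (V c) (hBV c a ha) (hx c)
  -- descend the exponent of `π`
  have key : ∀ k : ℕ, IsIntegral ↥(Algebra.adjoin A₀ {u}) (algebraMap A₀ F π ^ k * s * x) →
      EIPiInt π u (s * x) := by
    intro k
    induction k with
    | zero =>
      intro h
      rw [pow_zero, one_mul] at h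
      exact hSS1 _ h (hmul s hsint)
    | succ k ih =>
      intro h
      obtain ⟨b', hb', hbb'⟩ := hSS1 _ h
        (fun c => hmul _ ((hπint.pow (k + 1)).mul hsint) c)
      apply ih
      have e : algebraMap A₀ F π ^ k * s * x = b' := by
        apply mul_left_cancel₀ hπ0
        rw [← hbb']
        ring
      rw [e]
      exact hb'
  exact (eiPiLoc_iff hu hπ).mpr ⟨s, hs, key k hint⟩

end Denominators

section Arch

variable {F : Type*} [Field F]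

/-- A discrete valuation ring `W` of `F` is archimedean: for `a ∈ 𝔪` and any `x ∈ F`, some
`a ^ N · x` lies in `𝔪`. -/
theorem ad_arch_of_isDiscreteValuationRing (W : ValuationSubring F)
    [IsDiscreteValuationRing W] {a : F} (ha : a ∈ W.nonunits) (x : F) :
    ∃ N : ℕ, a ^ N * x ∈ W.nonunits := by
  by_cases hxW : x ∈ W
  · exact ⟨1, by rw [pow_one, mul_comm]; exact pwi_mul_mem_nonunits W hxW ha⟩
  have hx0 : x ≠ 0 := fun h => hxW (h ▸ W.zero_mem)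
  have hyW : x⁻¹ ∈ W := (W.mem_or_inv_mem x).resolve_left hxW
  by_cases ha0 : a = 0
  · exact ⟨1, by rw [ha0, pow_one, zero_mul]; exact W.nonunits.zero_mem⟩
  have haW : a ∈ W := by
    rw [← W.valuation_le_one_iff]
    exact ((ValuationSubring.mem_nonunits_iff W).mp ha).le
  -- Krull: `x⁻¹ ∉ 𝔪 ^ N` for some `N`
  set y : W := ⟨x⁻¹, hyW⟩ with hy
  set a' : W := ⟨a, haW⟩ with ha'
  have hy0 : y ≠ 0 := fun h => inv_ne_zero hx0 (congrArg Subtype.val h)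
  have ha'm : a' ∈ IsLocalRing.maximalIdeal W := by
    rw [ValuationSubring.valuation_lt_one_iff]
    exact (ValuationSubring.mem_nonunits_iff W).mp ha
  have hN : ∃ N : ℕ, y ∉ IsLocalRing.maximalIdeal W ^ N := by
    by_contra hcon
    push Not at hcon
    have : y ∈ (⨅ N : ℕ, IsLocalRing.maximalIdeal W ^ N : Ideal W) := by
      rw [Ideal.mem_iInf]; exact hcon
    rw [Ideal.iInf_pow_eq_bot_of_isLocalRing _ Ideal.IsPrime.ne_top'] at this
    exact hy0 (by simpa using this)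
  obtain ⟨N, hN⟩ := hN
  -- `a ^ N ∈ 𝔪 ^ N`, so `y ∤`-comparison in the valuation ring gives `a ^ N = y * v`
  have haN : a' ^ N ∈ IsLocalRing.maximalIdeal W ^ N := Ideal.pow_mem_pow ha'm N
  have hdvd : y ∣ a' ^ N := by
    rcases ValuationRing.dvd_total y (a' ^ N) with h | h
    · exact h
    · exfalso
      obtain ⟨v, hv⟩ := h
      exact hN (by rw [hv]; exact Ideal.mul_mem_right _ _ haN)
  obtain ⟨v, hv⟩ := hdvd
  refine ⟨N + 1, ?_⟩
  have e : a ^ (N + 1) * x = a * (v : F) := by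
    have h1 : a ^ N = x⁻¹ * (v : F) := by
      have := congrArg Subtype.val hv
      simpa using this
    rw [pow_succ, h1]
    field_simp
  rw [e, mul_comm]
  exact pwi_mul_mem_nonunits W v.2 ha

end Arch

section Adapter

variable {A₀ E F : Type*} [CommRing A₀] [IsDomain A₀] [IsDiscreteValuationRing A₀]
  [Field E] [Algebra A₀ E] [IsFractionRing A₀ E] [CharZero E]
  [Field F] [Algebra E F] [Algebra A₀ F] [IsScalarTower A₀ E F]
  {π : A₀} {u : F} {κ ι : Type*}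

/-- **ADAPTER at one closed point.**  `𝔫` a prime of the chart `B_u`, `thr c` = "the component
`c` passes through `𝔫`"; for the other components there is `b ∈ B_u ∖ 𝔫` vanishing on `c`.
A datum `w = ε · γ ^ p` with `ε ∈ B_𝔫` and `γ ≡ 1` at the components through `𝔫` gives
`s ∉ 𝔫` and `g` with `g ^ p · w` integral and `s ≡ g` at ALL components. -/
theorem ad_ksLocal_point (hu : Transcendental E u) (hπ : Irreducible π)
    [Finite κ] (V : κ → ValuationSubring F)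
    (hBV : ∀ c (b : F), IsIntegral ↥(Algebra.adjoin A₀ {u}) b → b ∈ V c)
    (hdict : ∀ x : F, (∀ c, x ∈ (V c).nonunits) → EIPiLoc hu hπ x)
    (harch : ∀ c (a x : F), a ∈ (V c).nonunits → ∃ N : ℕ, a ^ N * x ∈ (V c).nonunits)
    (𝔫 : Ideal ↥(zchClosure (A₀ := A₀) ({u} : Set F))) [h𝔫 : 𝔫.IsPrime]
    (thr : κ → Prop)
    (hthr : ∀ c, ¬ thr c →
      ∃ b : ↥(zchClosure (A₀ := A₀) ({u} : Set F)), b ∉ 𝔫 ∧ (b : F) ∈ (V c).nonunits)
    {p : ℕ} (hp : 0 < p) {w ε γ : F} (hγ0 : γ ≠ 0)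
    (hε : ∃ b s₁ : ↥(zchClosure (A₀ := A₀) ({u} : Set F)), s₁ ∉ 𝔫 ∧ (s₁ : F) * ε = b)
    (hγ : ∀ c, thr c → γ - 1 ∈ (V c).nonunits) (hw : w = ε * γ ^ p) :
    ∃ s : ↥(zchClosure (A₀ := A₀) ({u} : Set F)), s ∉ 𝔫 ∧ ∃ g : F,
      IsIntegral ↥(Algebra.adjoin A₀ {u}) (g ^ p * w) ∧ EIPiLoc hu hπ ((s : F) - g) := by
  classical
  haveI : Fintype κ := Fintype.ofFinite κ
  obtain ⟨b, s₁, hs₁, hsb⟩ := hε
  have h1𝔫 : (1 : ↥(zchClosure (A₀ := A₀) ({u} : Set F))) ∉ 𝔫 := fun h =>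
    h𝔫.ne_top ((Ideal.eq_top_iff_one 𝔫).mpr h)
  -- the multipliers
  have hmult : ∀ c, ∃ bc : ↥(zchClosure (A₀ := A₀) ({u} : Set F)), bc ∉ 𝔫 ∧
      (bc : F) * ((γ - 1) / γ) ∈ (V c).nonunits := by
    intro c
    by_cases hc : thr c
    · refine ⟨1, h1𝔫, ?_⟩
      have h1 := hγ c hc
      have h2 : (V c).valuation γ = 1 := pwi_val_eq_one (V c) h1
      rw [ValuationSubring.mem_nonunits_iff] at h1 ⊢
      push_cast
      rw [one_mul, map_div₀, h2, div_one]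
      exact h1
    · obtain ⟨b', hb', hb'V⟩ := hthr c hc
      obtain ⟨N, hN⟩ := harch c (b' : F) ((γ - 1) / γ) hb'V
      refine ⟨b' ^ N, fun h => hb' (h𝔫.mem_of_pow_mem N h), ?_⟩
      push_cast
      exact hN
  choose bc hbc hbcV using hmult
  set b₀ : ↥(zchClosure (A₀ := A₀) ({u} : Set F)) := ∏ c, bc c with hb₀
  have hb₀𝔫 : b₀ ∉ 𝔫 := by
    intro h
    obtain ⟨c, -, hc⟩ := (Ideal.IsPrime.prod_mem_iff).mp h
    exact hbc c hc
  have hmemV : ∀ (x : ↥(zchClosure (A₀ := A₀) ({u} : Set F))) (c : κ), (x : F) ∈ V c :=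
    fun x c => hBV c _ (mem_zchClosure.mp x.2)
  refine ⟨b₀ * s₁, fun h => ?_, ((b₀ * s₁ : ↥(zchClosure (A₀ := A₀) ({u} : Set F))) : F) / γ,
    ?_, ?_⟩
  · rcases h𝔫.mem_or_mem h with h' | h'
    · exact hb₀𝔫 h'
    · exact hs₁ h'
  · -- `g ^ p * w = b₀ ^ p * s₁ ^ (p - 1) * b`
    have e : (((b₀ * s₁ : ↥(zchClosure (A₀ := A₀) ({u} : Set F))) : F) / γ) ^ p * w
        = ((b₀ ^ p * s₁ ^ (p - 1) * b : ↥(zchClosure (A₀ := A₀) ({u} : Set F))) : F) := by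
      have h2 : (s₁ : F) ^ p = (s₁ : F) ^ (p - 1) * (s₁ : F) := by
        rw [← pow_succ, Nat.sub_add_cancel hp]
      push_cast
      rw [hw, div_pow, mul_pow, h2, ← hsb]
      field_simp
    rw [e]
    exact mem_zchClosure.mp (b₀ ^ p * s₁ ^ (p - 1) * b).2
  · apply hdict
    intro c
    have e : ((b₀ * s₁ : ↥(zchClosure (A₀ := A₀) ({u} : Set F))) : F)
          - ((b₀ * s₁ : ↥(zchClosure (A₀ := A₀) ({u} : Set F))) : F) / γ
        = ((s₁ * ∏ c' ∈ Finset.univ.erase c, bc c' :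
            ↥(zchClosure (A₀ := A₀) ({u} : Set F))) : F) * ((bc c : F) * ((γ - 1) / γ)) := by
      have hprod : b₀ = bc c * ∏ c' ∈ Finset.univ.erase c, bc c' := by
        rw [hb₀, Finset.mul_prod_erase _ _ (Finset.mem_univ c)]
      rw [hprod]
      push_cast
      field_simp
    rw [e]
    exact pwi_mul_mem_nonunits (V c) (hmemV _ c) (hbcV c)

/-- **ADAPTER** `PwiShape ⇒ KSLocal'` at the chart `u`.  `hcov`: every maximal ideal `𝔫 ∋ π` of
`B_u` is a point `i` of the shape, with `O i ⊆ B_𝔫`, and every component `c` with `¬ inc i c`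
carries some `b ∈ B_u ∖ 𝔫` vanishing on `c`. -/
theorem ad_ksLocal' (hu : Transcendental E u) (hπ : Irreducible π)
    [Finite κ] (V : κ → ValuationSubring F) (O : ι → Subring F) (J : ∀ i, Ideal (O i))
    (inc : ι → κ → Prop)
    (hBV : ∀ c (b : F), IsIntegral ↥(Algebra.adjoin A₀ {u}) b → b ∈ V c)
    (hdict : ∀ x : F, (∀ c, x ∈ (V c).nonunits) → EIPiLoc hu hπ x)
    (harch : ∀ c (a x : F), a ∈ (V c).nonunits → ∃ N : ℕ, a ^ N * x ∈ (V c).nonunits)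
    (hcov : ∀ 𝔫 : Ideal ↥(zchClosure (A₀ := A₀) ({u} : Set F)), 𝔫.IsMaximal →
      algebraMap A₀ ↥(zchClosure (A₀ := A₀) ({u} : Set F)) π ∈ 𝔫 → ∃ i : ι,
        (∀ x ∈ O i, ∃ b s : ↥(zchClosure (A₀ := A₀) ({u} : Set F)), s ∉ 𝔫 ∧ (s : F) * x = b) ∧
        (∀ c, ¬ inc i c →
          ∃ b : ↥(zchClosure (A₀ := A₀) ({u} : Set F)), b ∉ 𝔫 ∧ (b : F) ∈ (V c).nonunits))
    {p : ℕ} (hp : 0 < p) {w : F} (hw0 : w ≠ 0) (hw : PwiShape V O J inc p w) :
    KSLocal' hu hπ p w := by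
  intro 𝔫 h𝔫 hπ𝔫
  haveI := h𝔫.isPrime
  obtain ⟨i, hOi, hinc⟩ := hcov 𝔫 h𝔫 hπ𝔫
  obtain ⟨ε, γ, hε, -, hγ, hwε⟩ := hw.2 i
  have hγ0 : γ ≠ 0 := by
    rintro rfl
    rw [zero_pow hp.ne', mul_zero] at hwε
    exact hw0 hwε
  exact ad_ksLocal_point hu hπ V hBV hdict harch 𝔫 (inc i) hinc hp hγ0 (hOi ε hε) hγ hwε

/-- **hP of D5 from the Kummer glue.**  In the chart setting for `F` (charts `t`, `t⁻¹`), under
the dictionary hypotheses, every `w` of shape `p` is a `p`-th power. -/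
theorem ad_hP (hπ : Irreducible π) {t : F} (ht : Transcendental E t)
    [FiniteDimensional E⟮t⟯ F]
    (hcl : ∀ x : F, IsAlgebraic E x → x ∈ (algebraMap E F).range)
    {p : ℕ} (hp : p.Prime) (hpu : IsUnit (p : A₀)) {ζ : A₀} (hζ : IsPrimitiveRoot ζ p)
    (hconst : ∀ c : E, c ≠ 0 →
      (∃ h : F, EIPiLoc ht hπ (algebraMap E F c * h ^ p - 1)) → ∃ d : E, d ^ p = c)
    [Finite κ] (V : κ → ValuationSubring F) (O : ι → Subring F) (J : ∀ i, Ideal (O i))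
    (inc : ι → κ → Prop)
    (hBV₁ : ∀ c (b : F), IsIntegral ↥(Algebra.adjoin A₀ {t}) b → b ∈ V c)
    (hBV₂ : ∀ c (b : F), IsIntegral ↥(Algebra.adjoin A₀ {t⁻¹}) b → b ∈ V c)
    (hSS1 : ∀ b : F, IsIntegral ↥(Algebra.adjoin A₀ {t}) b → (∀ c, b ∈ (V c).nonunits) →
      ∃ b' : F, IsIntegral ↥(Algebra.adjoin A₀ {t}) b' ∧ b = algebraMap A₀ F π * b')
    (harch : ∀ c (a x : F), a ∈ (V c).nonunits → ∃ N : ℕ, a ^ N * x ∈ (V c).nonunits)
    (hcov₁ : ∀ 𝔫 : Ideal ↥(zchClosure (A₀ := A₀) ({t} : Set F)), 𝔫.IsMaximal →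
      algebraMap A₀ ↥(zchClosure (A₀ := A₀) ({t} : Set F)) π ∈ 𝔫 → ∃ i : ι,
        (∀ x ∈ O i, ∃ b s : ↥(zchClosure (A₀ := A₀) ({t} : Set F)), s ∉ 𝔫 ∧ (s : F) * x = b) ∧
        (∀ c, ¬ inc i c →
          ∃ b : ↥(zchClosure (A₀ := A₀) ({t} : Set F)), b ∉ 𝔫 ∧ (b : F) ∈ (V c).nonunits))
    (hcov₂ : ∀ 𝔫 : Ideal ↥(zchClosure (A₀ := A₀) ({t⁻¹} : Set F)), 𝔫.IsMaximal →
      algebraMap A₀ ↥(zchClosure (A₀ := A₀) ({t⁻¹} : Set F)) π ∈ 𝔫 → ∃ i : ι,
        (∀ x ∈ O i, ∃ b s : ↥(zchClosure (A₀ := A₀) ({t⁻¹} : Set F)), s ∉ 𝔫 ∧ (s : F) * x = b) ∧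
        (∀ c, ¬ inc i c →
          ∃ b : ↥(zchClosure (A₀ := A₀) ({t⁻¹} : Set F)), b ∉ 𝔫 ∧ (b : F) ∈ (V c).nonunits))
    (w : F) (hw : PwiShape V O J inc p w) : ∃ h : F, h ^ p = w := by
  by_cases hw0 : w = 0
  · exact ⟨0, by rw [hw0, zero_pow hp.ne_zero]⟩
  have hdict₁ : ∀ x : F, (∀ c, x ∈ (V c).nonunits) → EIPiLoc ht hπ x := fun x hx =>
    ad_piLoc_of_vertical ht hπ V hBV₁ hSS1 hx
  have hdict₂ : ∀ x : F, (∀ c, x ∈ (V c).nonunits) →
      EIPiLoc (zch_transcendental_inv ht) hπ x := fun x hx =>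
    (eiPiLoc_inv_iff ht hπ).mpr (hdict₁ x hx)
  exact ks_main_pow' hπ ht hcl hp hpu hζ hconst hw0 (hdict₁ _ hw.1)
    (ad_ksLocal' ht hπ V O J inc hBV₁ hdict₁ harch hcov₁ hp.pos hw0 hw)
    (ad_ksLocal' (zch_transcendental_inv ht) hπ V O J inc hBV₂ hdict₂ harch hcov₂ hp.pos hw0 hw)

end Adapter

end Fermat.Agent.UNIP


end ZBUNIP_007_3

/-! ### bundled: `Fermat.Agent.UNIP.LocalShapeChart` -/
section ZBUNIP_007_4
/-
UNIP (S34/S35), direct route, piece D3 "LocalShape", chart assembly (helper84).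

Setting of D2 (`UNIP/UnitCrit.lean`): `A₀` a DVR with uniformizer `π`, `E = Frac A₀` of
characteristic `0`, `Lf / E(t)` finite, `B` a chart (`algebraMap B Lf` injective with image the
integral closure of `A₀[t]`), `𝔫` a prime of `B`, `vert` the vertical primes ((SS1)).
`g : SemilinearAut E Lf` (an element of the inertia group acting on coefficients) fixing `t` and
preserving `B`, `𝔫`.

* `LsTube B t 𝔫 P`      : the place `P` of `Lf / E` has its centre on `B` inside `𝔫`.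
* `ls_tubePerm`          : the permutation of the tube induced by `g`.
* `ls_local_factor_chart`: Step 1 at the point `𝔫`: if the places of the tube in the support of `u`
  that are moved by `g` have multiplicity divisible by `m` and coordinate functions (Lemma N), and
  `g` preserves the valuations of the vertical primes through `𝔫`, then `u = u₁ · g₀ ^ m` with
  `g u₁ / u₁ ∈ (B_𝔫)^×`   (Lemma U = `unip_unitCrit_unit`).
* `ls_localSubring_isLocalRing`, `ls_localIdeal_ne_top`, `ls_isIntegral_mem_localSubring`: the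
  hypotheses `hloc`, `hJ`, `hic` of `pwi_exists_pow_eq` for `O i = ls_localSubring 𝔫`.
-/

set_option autoImplicit false
set_option linter.unusedSectionVars false

namespace Fermat.Agent.UNIP

open AlgebraicCurve IntermediateField

section Tube

variable {E Lf B : Type*} [Field E] [Field Lf] [Algebra E Lf] [CommRing B] [Algebra B Lf]

/-- The place `P` lies in the tube of the prime `𝔫` of the chart `B` (coordinate `t`):
`B ⊆ O_P` and `𝔪_P ∩ B ⊆ 𝔫`. -/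
def LsTube (B : Type*) [CommRing B] [Algebra B Lf] (t : Lf) (𝔫 : Ideal B) (P : Place E Lf) :
    Prop :=
  0 ≤ P.ord t ∧ ∀ b : B, 0 < P.ord (algebraMap B Lf b) → b ∈ 𝔫

/-- `g` maps the tube of `𝔫` to itself, if `g` fixes `t`, `g⁻¹` maps `B` to `B` and `g` maps `𝔫`
into `𝔫`. -/
theorem LsTube.smul (hinj : Function.Injective (algebraMap B Lf)) {t : Lf} {𝔫 : Ideal B}
    (g : SemilinearAut E Lf) (hgt : g • t = t)
    (hgB : ∀ b : B, b ∈ 𝔫 → ∃ b' : B, b' ∈ 𝔫 ∧ g • algebraMap B Lf b = algebraMap B Lf b')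
    (hgB' : ∀ b : B, ∃ b' : B, g⁻¹ • algebraMap B Lf b = algebraMap B Lf b')
    {P : Place E Lf} (hP : LsTube B t 𝔫 P) : LsTube B t 𝔫 (g • P) := by
  refine ⟨?_, fun b hb => ?_⟩
  · have h := SemilinearAut.ord_smul g P t
    rw [hgt] at h
    rw [h]
    exact hP.1
  · obtain ⟨b', hb'⟩ := hgB' b
    have h1 : (g • P).ord (algebraMap B Lf b) = P.ord (algebraMap B Lf b') := by
      have h := SemilinearAut.ord_smul g P (g⁻¹ • algebraMap B Lf b)
      rw [smul_inv_smul] at h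
      rw [h, hb']
    rw [h1] at hb
    have hb'n : b' ∈ 𝔫 := hP.2 b' hb
    obtain ⟨b'', hb''n, hb''⟩ := hgB b' hb'n
    have h2 : algebraMap B Lf b = algebraMap B Lf b'' := by
      rw [← hb'', ← hb', smul_inv_smul]
    rw [hinj h2]
    exact hb''n

/-- The permutation of the tube of `𝔫` induced by `g`. -/
def ls_tubePerm (hinj : Function.Injective (algebraMap B Lf)) (t : Lf) (𝔫 : Ideal B)
    (g : SemilinearAut E Lf) (hgt : g • t = t)
    (hgB : ∀ b : B, b ∈ 𝔫 → ∃ b' : B, b' ∈ 𝔫 ∧ g • algebraMap B Lf b = algebraMap B Lf b')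
    (hgB' : ∀ b : B, b ∈ 𝔫 → ∃ b' : B, b' ∈ 𝔫 ∧ g⁻¹ • algebraMap B Lf b = algebraMap B Lf b')
    (hgB₀ : ∀ b : B, ∃ b' : B, g • algebraMap B Lf b = algebraMap B Lf b')
    (hgB₀' : ∀ b : B, ∃ b' : B, g⁻¹ • algebraMap B Lf b = algebraMap B Lf b') :
    Equiv.Perm {P : Place E Lf // LsTube B t 𝔫 P} where
  toFun P := ⟨g • P.1, LsTube.smul hinj g hgt hgB hgB₀' P.2⟩
  invFun P := ⟨g⁻¹ • P.1, LsTube.smul hinj g⁻¹
    (by rw [inv_smul_eq_iff, hgt]) hgB' (by simpa using hgB₀) P.2⟩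
  left_inv P := Subtype.ext (inv_smul_smul g P.1)
  right_inv P := Subtype.ext (smul_inv_smul g P.1)

end Tube

section Main

variable {A₀ E Lf B : Type*} [CommRing A₀] [IsDomain A₀] [IsDiscreteValuationRing A₀]
  [Field E] [CharZero E] [Algebra A₀ E] [IsFractionRing A₀ E]
  [Field Lf] [Algebra E Lf] [Algebra A₀ Lf] [IsScalarTower A₀ E Lf]
  [CommRing B] [Algebra B Lf]

/-- **Step 1 at a closed point of a chart.**  `B` a chart, `𝔫` a prime of `B`, `g` an automorphism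
(semilinear over `E`) fixing the coordinate `t`, preserving `B` and `𝔫` (together with `g⁻¹`), and
preserving the valuations of the vertical primes through `𝔫` (`hgV`).  Let `u ≠ 0`.  Assume that
every place `P` of the tube of `𝔫` with `g P ≠ P` and `ord_P u ≠ 0` has `m ∣ ord_P u` and a
coordinate function (Lemma N).  Then `u = u₁ · g₀ ^ m` with `g u₁ / u₁` a unit of `B_𝔫`. -/
theorem ls_local_factor_chart {π : A₀} (hπ : Irreducible π) (t : Lf)
    (ht : Transcendental E t) [FiniteDimensional E⟮t⟯ Lf]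
    (hinj : Function.Injective (algebraMap B Lf))
    (hB : ∀ x : Lf, x ∈ (algebraMap B Lf).range ↔ IsIntegral (Algebra.adjoin A₀ {t}) x)
    (ϖ : B) (hϖ : algebraMap B Lf ϖ = algebraMap A₀ Lf π)
    (𝔫 : Ideal B) [𝔫.IsPrime]
    (vert : Finset (Ideal B)) (hprime : ∀ 𝔭 ∈ vert, 𝔭.IsPrime) (hϖv : ∀ 𝔭 ∈ vert, ϖ ∈ 𝔭)
    (hSS1 : ∀ y : B, (∀ 𝔭 ∈ vert, y ∈ 𝔭) → ϖ ∣ y)
    (g : SemilinearAut E Lf) (hgt : g • t = t)
    (hgB : ∀ b : B, b ∈ 𝔫 → ∃ b' : B, b' ∈ 𝔫 ∧ g • algebraMap B Lf b = algebraMap B Lf b')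
    (hgB' : ∀ b : B, b ∈ 𝔫 → ∃ b' : B, b' ∈ 𝔫 ∧ g⁻¹ • algebraMap B Lf b = algebraMap B Lf b')
    (hgB₀ : ∀ b : B, ∃ b' : B, g • algebraMap B Lf b = algebraMap B Lf b')
    (hgB₀' : ∀ b : B, ∃ b' : B, g⁻¹ • algebraMap B Lf b = algebraMap B Lf b')
    (hgV : ∀ 𝔭 ∈ vert, 𝔭 ≤ 𝔫 → ∀ f : Lf, f ≠ 0 →
      ∃ s s' : B, s ∉ 𝔭 ∧ s' ∉ 𝔭 ∧ algebraMap B Lf s * (g • f / f) = algebraMap B Lf s')
    {u : Lf} (hu : u ≠ 0) (m : ℕ)
    (hfin : {P : Place E Lf | LsTube B t 𝔫 P ∧ g • P ≠ P ∧ P.ord u ≠ 0}.Finite)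
    (hm : ∀ P : Place E Lf, LsTube B t 𝔫 P → g • P ≠ P → (m : ℤ) ∣ P.ord u)
    (hcoord : ∀ P : Place E Lf, LsTube B t 𝔫 P → g • P ≠ P → P.ord u ≠ 0 →
      ∃ f : Lf, f ≠ 0 ∧ P.ord f = 1 ∧
        ∀ Q : Place E Lf, LsTube B t 𝔫 Q → g • Q ≠ Q → Q ≠ P → Q.ord f = 0) :
    ∃ g₀ e : Lf, g₀ ≠ 0 ∧ e ∈ ls_localSubring (F := Lf) 𝔫 ∧ e⁻¹ ∈ ls_localSubring (F := Lf) 𝔫 ∧
      (g • (u / g₀ ^ m)) / (u / g₀ ^ m) = e := by
  classical
  set T := {P : Place E Lf // LsTube B t 𝔫 P} with hT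
  set σT : Equiv.Perm T := ls_tubePerm hinj t 𝔫 g hgt hgB hgB' hgB₀ hgB₀' with hσT
  have hσT_ne : ∀ P : T, σT P ≠ P ↔ g • P.1 ≠ P.1 := fun P => by
    rw [not_iff_not]
    exact ⟨fun h => congrArg Subtype.val h, fun h => Subtype.ext h⟩
  set σ : Lf →+* Lf := (SemilinearAut.toRingAut g : Lf ≃+* Lf).toRingHom with hσ
  have hσ_apply : ∀ x : Lf, σ x = g • x := fun x => rfl
  obtain ⟨g₀, hg₀, -, hord⟩ := ls_tube_factor (F := Lf) (ι := T) σ (fun P x => P.1.ord x)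
    (fun P x y hx hy => Place.ord_mul P.1 hx hy) σT
    (fun P x _ => by
      show (g • P.1).ord (σ x) = P.1.ord x
      rw [hσ_apply]
      exact SemilinearAut.ord_smul g P.1 x)
    hu m
    (by
      refine Set.Finite.of_finite_image (f := Subtype.val) (hfin.subset ?_)
        Subtype.val_injective.injOn
      rintro _ ⟨P, ⟨h1, h2⟩, rfl⟩
      exact ⟨P.2, (hσT_ne P).mp h1, h2⟩)
    (fun P hP => hm P.1 P.2 ((hσT_ne P).mp hP))
    (fun P hP hPu => by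
      obtain ⟨f, hf0, hf1, hf⟩ := hcoord P.1 P.2 ((hσT_ne P).mp hP) hPu
      exact ⟨f, hf0, hf1, fun Q hQ hQP =>
        hf Q.1 Q.2 ((hσT_ne Q).mp hQ) fun h => hQP (Subtype.ext h)⟩)
  have hu₁ : u / g₀ ^ m ≠ 0 := div_ne_zero hu (pow_ne_zero _ hg₀)
  have hσu₁ : g • (u / g₀ ^ m) ≠ 0 := by
    rw [← hσ_apply]
    exact (map_ne_zero σ).mpr hu₁
  have he0 : (g • (u / g₀ ^ m)) / (u / g₀ ^ m) ≠ 0 := div_ne_zero hσu₁ hu₁
  obtain ⟨s, s', hs, hs', hss'⟩ := unip_unitCrit_unit hπ t ht hinj hB ϖ hϖ 𝔫 vert hprime hϖv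
    hSS1 ((g • (u / g₀ ^ m)) / (u / g₀ ^ m)) he0
    (fun P hP hc => hord ⟨P, hP, hc⟩)
    (fun 𝔭 h𝔭 hle => hgV 𝔭 h𝔭 hle _ hu₁)
  obtain ⟨he, he'⟩ := ls_unit_mem_localSubring hinj 𝔫 hs hs' hss'
  exact ⟨g₀, _, hg₀, he, he', rfl⟩

end Main

section LocalRing

variable {F : Type*} [Field F] {B : Type*} [CommRing B] [Algebra B F]

/-- An element `b / s` of `B_𝔫` with `b ∉ 𝔫` is a unit of `B_𝔫`. -/
theorem ls_isUnit_of_not_mem (hinj : Function.Injective (algebraMap B F))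
    (𝔫 : Ideal B) [𝔫.IsPrime] (x : ls_localSubring (F := F) 𝔫) {b s : B} (hb : b ∉ 𝔫)
    (hs : s ∉ 𝔫) (h : algebraMap B F s * (x : F) = algebraMap B F b) : IsUnit x := by
  obtain ⟨-, hx'⟩ := ls_unit_mem_localSubring hinj 𝔫 hs hb h
  have hb0 : algebraMap B F b ≠ 0 := fun h0 =>
    hb (by rw [hinj (h0.trans (map_zero _).symm)]; exact 𝔫.zero_mem)
  have hx0 : (x : F) ≠ 0 := by
    intro h0
    rw [h0, mul_zero] at h
    exact hb0 h.symm
  exact IsUnit.of_mul_eq_one ⟨(x : F)⁻¹, hx'⟩ (Subtype.ext (mul_inv_cancel₀ hx0))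

/-- `B_𝔫` is a local ring (hypothesis `hloc` of `pwi_exists_pow_eq`). -/
theorem ls_localSubring_isLocalRing (hinj : Function.Injective (algebraMap B F))
    (𝔫 : Ideal B) [𝔫.IsPrime] : IsLocalRing (ls_localSubring (F := F) 𝔫) := by
  refine IsLocalRing.of_isUnit_or_isUnit_one_sub_self fun x => ?_
  obtain ⟨b, s, hs, hx⟩ := x.2
  by_cases hb : b ∈ 𝔫
  · right
    refine ls_isUnit_of_not_mem hinj 𝔫 (1 - x) (b := s - b) (s := s) (fun h => hs ?_) hs ?_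
    · have h2 : s = (s - b) + b := by ring
      rw [h2]
      exact 𝔫.add_mem h hb
    · show algebraMap B F s * ((1 : F) - (x : F)) = _
      rw [mul_sub, hx, mul_one, map_sub]
  · left
    exact ls_isUnit_of_not_mem hinj 𝔫 x hb hs hx

/-- `ϖ B_𝔫` is a proper ideal if `ϖ ∈ 𝔫` (hypothesis `hJ` of `pwi_exists_pow_eq`). -/
theorem ls_localIdeal_ne_top (hinj : Function.Injective (algebraMap B F))
    (𝔫 : Ideal B) [𝔫.IsPrime] (ϖ : B) (hϖ : ϖ ∈ 𝔫) :
    ls_localIdeal (F := F) 𝔫 ϖ ≠ ⊤ := by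
  intro htop
  have h1 : (1 : ls_localSubring (F := F) 𝔫) ∈ ls_localIdeal (F := F) 𝔫 ϖ := by
    rw [htop]; exact Submodule.mem_top
  obtain ⟨y, ⟨b, s, hs, hy⟩, h1y⟩ := (ls_mem_localIdeal 𝔫 ϖ).mp h1
  apply hs
  have h2 : algebraMap B F s = algebraMap B F (ϖ * b) := by
    have : algebraMap B F s = algebraMap B F s * ((1 : ls_localSubring (F := F) 𝔫) : F) := by
      push_cast; ring
    rw [this, h1y, map_mul, ← hy]
    ring
  rw [hinj h2]
  exact 𝔫.mul_mem_right _ hϖ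

/-- The elements of `ϖ B_𝔫` lie in `𝔫 B_𝔫`: if `x ∈ ϖ B_𝔫` then `s x = b` with `s ∉ 𝔫`,
`b ∈ 𝔫`. -/
theorem ls_exists_of_mem_localIdeal (𝔫 : Ideal B) [h𝔫 : 𝔫.IsPrime] (ϖ : B)
    {x : ls_localSubring (F := F) 𝔫} (hx : x ∈ ls_localIdeal (F := F) 𝔫 ϖ) :
    ∃ c s : B, s ∉ 𝔫 ∧ algebraMap B F s * (x : F) = algebraMap B F (ϖ * c) := by
  obtain ⟨y, ⟨b, s, hs, hy⟩, hxy⟩ := (ls_mem_localIdeal 𝔫 ϖ).mp hx
  refine ⟨b, s, hs, ?_⟩
  rw [hxy, map_mul, ← hy]
  ring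

/-- `B_𝔫` is integrally closed in `F` if `B` is (hypothesis `hic` of `pwi_exists_pow_eq`). -/
theorem ls_isIntegral_mem_localSubring
    (hBic : ∀ x : F, IsIntegral B x → x ∈ (algebraMap B F).range)
    (𝔫 : Ideal B) [h𝔫 : 𝔫.IsPrime] (x : F) (hx : IsIntegral (ls_localSubring (F := F) 𝔫) x) :
    x ∈ ls_localSubring (F := F) 𝔫 := by
  classical
  obtain ⟨p, hp, hpx⟩ := hx
  -- a common denominator of the coefficients
  have hden : ∀ i : ℕ, ∃ b s : B, s ∉ 𝔫 ∧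
      algebraMap B F s * ((p.coeff i : ls_localSubring (F := F) 𝔫) : F) = algebraMap B F b :=
    fun i => (p.coeff i).2
  choose b s hs hbs using hden
  set d : B := ∏ i ∈ Finset.range p.natDegree, s i with hd
  have hd𝔫 : d ∉ 𝔫 := by
    rw [hd]
    intro h
    obtain ⟨i, -, hi⟩ := (Ideal.IsPrime.prod_mem_iff).mp h
    exact hs i hi
  have hdc : ∀ i ∈ Finset.range p.natDegree, ∃ c : B,
      algebraMap B F d * ((p.coeff i : ls_localSubring (F := F) 𝔫) : F) = algebraMap B F c := by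
    intro i hi
    refine ⟨(∏ j ∈ (Finset.range p.natDegree).erase i, s j) * b i, ?_⟩
    rw [hd, ← Finset.mul_prod_erase _ _ hi, map_mul, map_mul, ← hbs i]
    ring
  -- `d x` is integral over `B`
  have hint : IsIntegral B (algebraMap B F d * x) := by
    have hx' : Polynomial.eval₂ (algebraMap (ls_localSubring (F := F) 𝔫) F) x p = 0 := hpx
    rw [Polynomial.eval₂_eq_sum_range] at hx'
    have hn : p.natDegree = p.natDegree := rfl
    choose! c hc using hdc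
    refine ⟨Polynomial.X ^ p.natDegree +
      ∑ i ∈ Finset.range p.natDegree, Polynomial.C (d ^ (p.natDegree - 1 - i) * c i) *
        Polynomial.X ^ i, ?_, ?_⟩
    · refine Polynomial.monic_X_pow_add ?_
      refine lt_of_le_of_lt (Polynomial.degree_sum_le _ _) ?_
      rw [Finset.sup_lt_iff (by exact WithBot.bot_lt_coe _)]
      intro i hi
      refine lt_of_le_of_lt (Polynomial.degree_C_mul_X_pow_le _ _) ?_
      exact_mod_cast Finset.mem_range.mp hi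
    · rw [Polynomial.eval₂_add, Polynomial.eval₂_pow, Polynomial.eval₂_X,
        Polynomial.eval₂_finsetSum]
      simp only [Polynomial.eval₂_mul, Polynomial.eval₂_C, Polynomial.eval₂_pow,
        Polynomial.eval₂_X]
      rw [Finset.sum_range_succ, hp.coeff_natDegree] at hx'
      have key : ∀ i ∈ Finset.range p.natDegree,
          algebraMap B F (d ^ (p.natDegree - 1 - i) * c i) * (algebraMap B F d * x) ^ i
            = algebraMap B F d ^ p.natDegree *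
              (algebraMap (ls_localSubring (F := F) 𝔫) F (p.coeff i) * x ^ i) := by
        intro i hi
        have hi' : i < p.natDegree := Finset.mem_range.mp hi
        have e1 : p.natDegree = (p.natDegree - 1 - i) + 1 + i := by omega
        rw [map_mul, map_pow, ← hc i hi, mul_pow]
        have e2 : algebraMap B F d ^ p.natDegree
            = algebraMap B F d ^ (p.natDegree - 1 - i) * algebraMap B F d *
              algebraMap B F d ^ i := by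
          conv_lhs => rw [e1, pow_add, pow_succ]
        rw [e2]
        show _ = _ * (((p.coeff i : ls_localSubring (F := F) 𝔫) : F) * x ^ i)
        ring
      rw [Finset.sum_congr rfl key, ← Finset.mul_sum, mul_pow, ← mul_add, add_comm]
      have hx'' : ∑ i ∈ Finset.range p.natDegree,
          algebraMap (ls_localSubring (F := F) 𝔫) F (p.coeff i) * x ^ i + x ^ p.natDegree = 0 := by
        simpa using hx'
      rw [hx'', mul_zero]
  obtain ⟨b', hb'⟩ := hBic _ hint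
  exact ⟨b', d, hd𝔫, hb'.symm⟩

/-- **Vertical units from a valuation ring.**  `W` a valuation ring of `F` with `W ⊆ B_𝔭`
(`hW`).  Every unit `x` of `W` is a unit of `B_𝔭`: `s x = s'` with `s, s' ∉ 𝔭`.
(This turns `hσV` of `ls_pwiShape` into `hgV` of `ls_local_factor_chart`.) -/
theorem ls_vertical_unit_of_valuation (hinj : Function.Injective (algebraMap B F))
    (𝔭 : Ideal B) [h𝔭 : 𝔭.IsPrime] (W : ValuationSubring F)
    (hW : ∀ x : F, x ∈ W → ∃ b s : B, s ∉ 𝔭 ∧ algebraMap B F s * x = algebraMap B F b)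
    {x : F} (hx : W.valuation x = 1) :
    ∃ s s' : B, s ∉ 𝔭 ∧ s' ∉ 𝔭 ∧ algebraMap B F s * x = algebraMap B F s' := by
  have hx0 : x ≠ 0 := by
    intro h
    rw [h, map_zero] at hx
    exact zero_ne_one hx
  have hxW : x ∈ W := (W.valuation_le_one_iff x).mp hx.le
  have hxW' : x⁻¹ ∈ W := by
    rw [← W.valuation_le_one_iff, map_inv₀, hx, inv_one]
  obtain ⟨b, s, hs, hbs⟩ := hW x hxW
  obtain ⟨b₂, s₂, hs₂, hbs₂⟩ := hW x⁻¹ hxW'
  refine ⟨s, b, hs, fun hb => ?_, hbs⟩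
  have hprod : b * b₂ = s * s₂ := by
    apply hinj
    rw [map_mul, map_mul, ← hbs, ← hbs₂]
    field_simp
  have h3 : s * s₂ ∈ 𝔭 := by
    rw [← hprod]
    exact 𝔭.mul_mem_right _ hb
  rcases h𝔭.mem_or_mem h3 with h' | h'
  · exact hs h'
  · exact hs₂ h'

end LocalRing

end Fermat.Agent.UNIP


end ZBUNIP_007_4

/-! ### bundled: `Fermat.Agent.UNIP.ATSmall` -/
section ZBUNIP_007_5

/-!
# UNIP AT-c: the small lemmas of the assembly (helper76)

Per-point lemmas feeding the hypotheses of D5 `pwi_exists_pow_eq` and of the adapter `ad_hP`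
for `O i = ls_localSubring 𝔫`, `J i = ls_localIdeal 𝔫 ϖ`, `inc i c := 𝔪(V c) ∩ B ⊆ 𝔫`.

Generic (`B` any commutative ring with `Algebra B F`, `𝔫` a prime of `B`):
* `ats_hJV`  : `c` through `𝔫` ⇒ `J ⊆ 𝔪(V c)`                       (hypothesis `hJV`)
* `ats_hpt`  : every point lies on a component, from (SS1)          (hypothesis `hpt`)
* `ats_cov`  : a component not through `𝔫` has a function vanishing on it and not at `𝔫`.
Roots of unity (`ζ ∈ A₀` primitive `p`-th root, `p ∈ A₀^×`):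
* `ats_isUnit_pow_sub_one`, `ats_hζO`, `ats_hζu`, `ats_hζV`          (hypotheses `hζO hζu hζV`)
Chart (`B = zchClosure {u}`):
* `ats_SS1_inv` : (SS1) on the chart `t` implies (SS1) on the chart `t⁻¹`.
* `ats_hred`    : (SS1) ⇒ the special fibre is reduced in the form needed by `ks_const_pow`.
* `ats_hconst`  : units of `A₀` are `p`-th powers + (SS1) ⇒ the hypothesis `hconst` of `ad_hP`.
-/

set_option autoImplicit false
set_option linter.unusedSectionVars false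
set_option linter.style.haveILetI false

namespace Fermat.Agent.UNIP

open Polynomial IntermediateField Fermat.Agent.INJ

section Generic

variable {F : Type*} [Field F] {B : Type*} [CommRing B] [Algebra B F] {κ : Type*}

/-- an element of `W` which is not in `𝔪_W` has valuation `1`. -/
theorem ats_valuation_eq_one (W : ValuationSubring F) {x : F} (hx : x ∈ W)
    (hx' : x ∉ W.nonunits) : W.valuation x = 1 :=
  le_antisymm ((W.valuation_le_one_iff x).mpr hx)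
    (not_lt.mp fun h => hx' ((ValuationSubring.mem_nonunits_iff W).mpr h))

/-- **`hJV`**: if the component `W` passes through `𝔫` (`𝔪_W ∩ B ⊆ 𝔫`) and `ϖ ∈ 𝔪_W`, then
`ϖ B_𝔫 ⊆ 𝔪_W`. -/
theorem ats_hJV (W : ValuationSubring F) (hBW : ∀ b : B, algebraMap B F b ∈ W)
    (𝔫 : Ideal B) [𝔫.IsPrime] (ϖ : B) (hϖW : algebraMap B F ϖ ∈ W.nonunits)
    (hinc : ∀ b : B, algebraMap B F b ∈ W.nonunits → b ∈ 𝔫)
    (x : ls_localSubring (F := F) 𝔫) (hx : x ∈ ls_localIdeal (F := F) 𝔫 ϖ) :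
    (x : F) ∈ W.nonunits := by
  obtain ⟨y, ⟨b, s, hs, hy⟩, hxy⟩ := (ls_mem_localIdeal 𝔫 ϖ).mp hx
  have hs1 : W.valuation (algebraMap B F s) = 1 :=
    ats_valuation_eq_one W (hBW s) fun h => hs (hinc s h)
  have hy1 : W.valuation y ≤ 1 := by
    have h := congrArg W.valuation hy
    rw [map_mul, hs1, one_mul] at h
    rw [h]
    exact (W.valuation_le_one_iff _).mpr (hBW b)
  rw [ValuationSubring.mem_nonunits_iff] at hϖW ⊢
  rw [hxy, map_mul]
  exact mul_lt_one_of_lt_of_le hϖW hy1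

/-- **`hpt`**: every closed point of the special fibre lies on a component, by (SS1). -/
theorem ats_hpt [Finite κ] (V : κ → ValuationSubring F)
    (hBV : ∀ c (b : B), algebraMap B F b ∈ V c)
    (𝔫 : Ideal B) [h𝔫 : 𝔫.IsPrime] (ϖ : B) (hϖ : ϖ ∈ 𝔫)
    (hSS1 : ∀ b : B, (∀ c, algebraMap B F b ∈ (V c).nonunits) → ∃ b' : B, b = ϖ * b') :
    ∃ c, ∀ b : B, algebraMap B F b ∈ (V c).nonunits → b ∈ 𝔫 := by
  classical
  by_contra hcon
  simp only [not_exists, not_forall] at hcon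
  choose f hf hf' using hcon
  haveI : Fintype κ := Fintype.ofFinite κ
  have hprod : ∀ c, algebraMap B F (∏ c' : κ, f c') ∈ (V c).nonunits := by
    intro c
    rw [← Finset.mul_prod_erase Finset.univ f (Finset.mem_univ c), map_mul, mul_comm]
    exact pwi_mul_mem_nonunits (V c) (hBV c _) (hf c)
  obtain ⟨b', hb'⟩ := hSS1 _ hprod
  have hmem : ∏ c' : κ, f c' ∈ 𝔫 := by
    rw [hb']
    exact 𝔫.mul_mem_right _ hϖ
  obtain ⟨c, -, hc⟩ := Ideal.IsPrime.prod_mem_iff.mp hmem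
  exact hf' c hc

/-- a component not through `𝔫` has a function vanishing on it and not at `𝔫`. -/
theorem ats_cov (W : ValuationSubring F) (𝔫 : Ideal B)
    (h : ¬ ∀ b : B, algebraMap B F b ∈ W.nonunits → b ∈ 𝔫) :
    ∃ b : B, b ∉ 𝔫 ∧ algebraMap B F b ∈ W.nonunits := by
  simp only [not_forall] at h
  obtain ⟨b, hb, hb'⟩ := h
  exact ⟨b, hb', hb⟩

end Generic

section Roots

variable {A₀ : Type*} [CommRing A₀] [IsDomain A₀]

/-- `ζ ^ k − 1` is a unit of `A₀` for `0 < k < p` if `p` is. -/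
theorem ats_isUnit_pow_sub_one {p : ℕ} (hpu : IsUnit (p : A₀)) {ζ : A₀}
    (hζ : IsPrimitiveRoot ζ p) {k : ℕ} (hk0 : 0 < k) (hkp : k < p) : IsUnit (ζ ^ k - 1) := by
  obtain ⟨n, rfl⟩ : ∃ n, p = n + 1 := ⟨p - 1, by omega⟩
  obtain ⟨j, rfl⟩ : ∃ j, k = j + 1 := ⟨k - 1, by omega⟩
  have hprod := hζ.prod_one_sub_pow_eq_order
  have hj : j ∈ Finset.range n := Finset.mem_range.mpr (by omega)
  have hdvd : (1 - ζ ^ (j + 1)) ∣ ((n : A₀) + 1) := by
    rw [← hprod]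
    exact Finset.dvd_prod_of_mem _ hj
  have hu : IsUnit (1 - ζ ^ (j + 1)) := by
    refine isUnit_of_dvd_unit hdvd ?_
    have : ((n + 1 : ℕ) : A₀) = (n : A₀) + 1 := by push_cast; ring
    rwa [this] at hpu
  have : ζ ^ (j + 1) - 1 = -(1 - ζ ^ (j + 1)) := by ring
  rw [this]
  exact hu.neg

variable {F : Type*} [Field F] [Algebra A₀ F] {B : Type*} [CommRing B] [Algebra B F]
  [Algebra A₀ B] [IsScalarTower A₀ B F]

/-- **`hζO`**. -/
theorem ats_hζO (𝔫 : Ideal B) [𝔫.IsPrime] (ζ : A₀) :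
    algebraMap A₀ F ζ ∈ ls_localSubring (F := F) 𝔫 := by
  rw [IsScalarTower.algebraMap_apply A₀ B F]
  exact ls_algebraMap_mem 𝔫 _

/-- **`hζu`**. -/
theorem ats_hζu (𝔫 : Ideal B) [𝔫.IsPrime] {p : ℕ} (hpu : IsUnit (p : A₀)) {ζ : A₀}
    (hζ : IsPrimitiveRoot ζ p) {k : ℕ} (hk0 : 0 < k) (hkp : k < p) :
    (algebraMap A₀ F ζ ^ k - 1)⁻¹ ∈ ls_localSubring (F := F) 𝔫 := by
  obtain ⟨a, ha⟩ := ats_isUnit_pow_sub_one hpu hζ hk0 hkp
  have h1 : algebraMap A₀ F ζ ^ k - 1 = algebraMap A₀ F (a : A₀) := by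
    rw [ha, map_sub, map_pow, map_one]
  have h2 : (algebraMap A₀ F (a : A₀))⁻¹ = algebraMap A₀ F ((a⁻¹ : A₀ˣ) : A₀) := by
    apply inv_eq_of_mul_eq_one_right
    rw [← map_mul, Units.mul_inv, map_one]
  rw [h1, h2]
  exact ats_hζO 𝔫 _

/-- **`hζV`**. -/
theorem ats_hζV (W : ValuationSubring F) (hAW : ∀ a : A₀, algebraMap A₀ F a ∈ W) {p : ℕ}
    (hpu : IsUnit (p : A₀)) {ζ : A₀} (hζ : IsPrimitiveRoot ζ p) {k : ℕ} (hk0 : 0 < k)
    (hkp : k < p) : algebraMap A₀ F ζ ^ k - 1 ∉ W.nonunits := by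
  obtain ⟨a, ha⟩ := ats_isUnit_pow_sub_one hpu hζ hk0 hkp
  have h1 : algebraMap A₀ F ζ ^ k - 1 = algebraMap A₀ F (a : A₀) := by
    rw [ha, map_sub, map_pow, map_one]
  rw [h1, ValuationSubring.mem_nonunits_iff]
  intro hlt
  have h3 : W.valuation (algebraMap A₀ F (a : A₀)) * W.valuation (algebraMap A₀ F ((a⁻¹ : A₀ˣ) : A₀))
      = 1 := by
    rw [← map_mul, ← map_mul, Units.mul_inv, map_one, map_one]
  have h4 : W.valuation (algebraMap A₀ F ((a⁻¹ : A₀ˣ) : A₀)) ≤ 1 :=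
    (W.valuation_le_one_iff _).mpr (hAW _)
  have h5 := mul_lt_one_of_lt_of_le hlt h4
  rw [h3] at h5
  exact lt_irrefl _ h5

end Roots

section Chart

variable {A₀ E F : Type*} [CommRing A₀] [IsDomain A₀] [IsDiscreteValuationRing A₀]
  [Field E] [Algebra A₀ E] [IsFractionRing A₀ E] [CharZero E]
  [Field F] [Algebra E F] [Algebra A₀ F] [IsScalarTower A₀ E F]
  {π : A₀} {κ : Type*}

/-- a power in `𝔪_W` forces the element into `𝔪_W`. -/
theorem ats_mem_nonunits_of_pow (W : ValuationSubring F) {x : F} {n : ℕ}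
    (h : x ^ n ∈ W.nonunits) : x ∈ W.nonunits := by
  rw [ValuationSubring.mem_nonunits_iff] at h ⊢
  rw [map_pow] at h
  by_contra hx
  exact absurd h (not_lt.mpr (one_le_pow₀ (not_lt.mp hx)))

/-- **`hred`** from (SS1): the special fibre of the chart `u` is reduced, in the form needed by
`ks_const_pow`. -/
theorem ats_hred {u : F} (hu : Transcendental E u) (hπ : Irreducible π)
    (V : κ → ValuationSubring F)
    (hBV : ∀ c (b : F), IsIntegral ↥(Algebra.adjoin A₀ {u}) b → b ∈ V c)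
    (hπV : ∀ c, algebraMap A₀ F π ∈ (V c).nonunits)
    (hSS1 : ∀ b : F, IsIntegral ↥(Algebra.adjoin A₀ {u}) b → (∀ c, b ∈ (V c).nonunits) →
      ∃ b' : F, IsIntegral ↥(Algebra.adjoin A₀ {u}) b' ∧ b = algebraMap A₀ F π * b')
    {p : ℕ} (z : F) (hz : z ∈ eiLoc hu hπ) (hzp : EIPiLoc hu hπ (z ^ p)) :
    EIPiLoc hu hπ z := by
  obtain ⟨s, hs, hsz⟩ := hz
  have hsloc : s ∈ eiLoc hu hπ :=
    eiLoc_of_isIntegral hu hπ
      (isIntegral_algebraMap (R := ↥(Algebra.adjoin A₀ {u})) (x := ⟨s, hs.1⟩))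
  -- `b := s z` is integral and `b ^ p ∈ π C_(π)`, hence `b ^ p ∈ π C`
  have hbp : EIPiLoc hu hπ ((s * z) ^ p) := by
    rw [mul_pow]
    exact hzp.mul_left hu hπ (Subring.pow_mem _ hsloc p)
  obtain ⟨c, hc, hbc⟩ := hbp.piInt hu hπ (hsz.pow p)
  have hbV : ∀ c', s * z ∈ (V c').nonunits := by
    intro c'
    apply ats_mem_nonunits_of_pow (V c') (n := p)
    rw [hbc, mul_comm]
    exact pwi_mul_mem_nonunits (V c') (hBV c' c hc) (hπV c')
  obtain ⟨b', hb', hsb'⟩ := hSS1 _ hsz hbV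
  exact (eiPiLoc_iff hu hπ).mpr ⟨s, hs, b', hb', hsb'⟩

/-- **`hconst`**: if the units of `A₀` are `p`-th powers and (SS1) holds on the chart `u`, the
constants `c ∈ E^×` with `c h ^ p ≡ 1` on the special fibre are `p`-th powers. -/
theorem ats_hconst {u : F} (hu : Transcendental E u) (hπ : Irreducible π)
    (V : κ → ValuationSubring F)
    (hBV : ∀ c (b : F), IsIntegral ↥(Algebra.adjoin A₀ {u}) b → b ∈ V c)
    (hπV : ∀ c, algebraMap A₀ F π ∈ (V c).nonunits)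
    (hSS1 : ∀ b : F, IsIntegral ↥(Algebra.adjoin A₀ {u}) b → (∀ c, b ∈ (V c).nonunits) →
      ∃ b' : F, IsIntegral ↥(Algebra.adjoin A₀ {u}) b' ∧ b = algebraMap A₀ F π * b')
    {p : ℕ} (hp : 0 < p) (hunit : ∀ a : A₀, IsUnit a → ∃ d : A₀, d ^ p = a) :
    ∀ c : E, c ≠ 0 →
      (∃ h : F, EIPiLoc hu hπ (algebraMap E F c * h ^ p - 1)) → ∃ d : E, d ^ p = c :=
  ks_const_pow hu hπ hp hunit (fun z hz hzp => ats_hred hu hπ V hBV hπV hSS1 z hz hzp)

/-- **(SS1) on the chart `t⁻¹` from (SS1) on the chart `t`** (dictionary + A1). -/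
theorem ats_SS1_inv {t : F} (ht : Transcendental E t) (hπ : Irreducible π)
    [FiniteDimensional E⟮t⟯ F] (V : κ → ValuationSubring F)
    (hBV : ∀ c (b : F), IsIntegral ↥(Algebra.adjoin A₀ {t}) b → b ∈ V c)
    (hSS1 : ∀ b : F, IsIntegral ↥(Algebra.adjoin A₀ {t}) b → (∀ c, b ∈ (V c).nonunits) →
      ∃ b' : F, IsIntegral ↥(Algebra.adjoin A₀ {t}) b' ∧ b = algebraMap A₀ F π * b') :
    ∀ b : F, IsIntegral ↥(Algebra.adjoin A₀ {t⁻¹}) b → (∀ c, b ∈ (V c).nonunits) →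
      ∃ b' : F, IsIntegral ↥(Algebra.adjoin A₀ {t⁻¹}) b' ∧ b = algebraMap A₀ F π * b' := by
  intro b hb hbV
  have h1 : EIPiLoc ht hπ b := ad_piLoc_of_vertical ht hπ V hBV hSS1 hbV
  have h2 : EIPiLoc (zch_transcendental_inv ht) hπ b := (eiPiLoc_inv_iff ht hπ).mpr h1
  exact h2.piInt (zch_transcendental_inv ht) hπ hb

/-- **`hpt` in chart form**: every closed point `𝔫 ∋ π` of the chart `u` lies on a component. -/
theorem ats_hpt_chart [Finite κ] {u : F} (V : κ → ValuationSubring F)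
    (hBV : ∀ c (b : F), IsIntegral ↥(Algebra.adjoin A₀ {u}) b → b ∈ V c)
    (hSS1 : ∀ b : F, IsIntegral ↥(Algebra.adjoin A₀ {u}) b → (∀ c, b ∈ (V c).nonunits) →
      ∃ b' : F, IsIntegral ↥(Algebra.adjoin A₀ {u}) b' ∧ b = algebraMap A₀ F π * b')
    (𝔫 : Ideal ↥(zchClosure (A₀ := A₀) ({u} : Set F))) [𝔫.IsPrime]
    (hπ𝔫 : algebraMap A₀ ↥(zchClosure (A₀ := A₀) ({u} : Set F)) π ∈ 𝔫) :
    ∃ c, ∀ b : ↥(zchClosure (A₀ := A₀) ({u} : Set F)), (b : F) ∈ (V c).nonunits → b ∈ 𝔫 := by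
  refine ats_hpt (B := ↥(zchClosure (A₀ := A₀) ({u} : Set F))) V
    (fun c b => hBV c _ (mem_zchClosure.mp b.2)) 𝔫 _ hπ𝔫 ?_
  intro b hb
  obtain ⟨b', hb', hbb'⟩ := hSS1 _ (mem_zchClosure.mp b.2) hb
  exact ⟨⟨b', mem_zchClosure.mpr hb'⟩, Subtype.ext hbb'⟩

/-- **`hJV` in chart form.** -/
theorem ats_hJV_chart {u : F} (W : ValuationSubring F)
    (hBW : ∀ b : F, IsIntegral ↥(Algebra.adjoin A₀ {u}) b → b ∈ W)
    (hπW : algebraMap A₀ F π ∈ W.nonunits)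
    (𝔫 : Ideal ↥(zchClosure (A₀ := A₀) ({u} : Set F))) [𝔫.IsPrime]
    (hinc : ∀ b : ↥(zchClosure (A₀ := A₀) ({u} : Set F)), (b : F) ∈ W.nonunits → b ∈ 𝔫)
    (x : ls_localSubring (F := F) 𝔫)
    (hx : x ∈ ls_localIdeal (F := F) 𝔫
      (algebraMap A₀ ↥(zchClosure (A₀ := A₀) ({u} : Set F)) π)) :
    (x : F) ∈ W.nonunits :=
  ats_hJV (B := ↥(zchClosure (A₀ := A₀) ({u} : Set F))) W
    (fun b => hBW _ (mem_zchClosure.mp b.2)) 𝔫 _ hπW hinc x hx

end Chart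

end Fermat.Agent.UNIP


end ZBUNIP_007_5

/-! ### bundled: `Fermat.Agent.UNIP.AbstractT` -/
section ZBUNIP_007_6
/-
UNIP (S34/S35), direct route, piece AT-c1 "ASSEMBLY" (helper84): the abstract theorem (T′).

Chart setting for the function field `F / E(t)` over the DVR `A₀` (uniformizer `π`,
`E = Frac A₀` of characteristic `0`, `E` algebraically closed in `F`); charts
`B_t = zchClosure {t}`, `B_{t⁻¹} = zchClosure {t⁻¹}` (integral closures of `A₀[t]`, `A₀[t⁻¹]`);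
`V : κ → ValuationSubring F` the vertical valuation rings (components of the special fibre).

* `AtPt π u`        : the closed points of the special fibre of the chart `u` (maximal `𝔫 ∋ π`).
* `atO`, `atJ`, `atInc` : the data `O i = (B_u)_𝔫`, `J i = π (B_u)_𝔫`, `inc i c := 𝔪(V c) ∩ B_u ⊆ 𝔫`
  of `PwiShape` on `ι = AtPt π t ⊕ AtPt π t⁻¹`.
* `at_local_factor` : Step 1 at a closed point of a chart (`ls_local_factor_chart` for the chart
  `zchClosure {u}` with `vert` = the traces of the `V c`).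
* `at_pwiShape`     : `(τ − 1)(σ − 1) u` has the shape `PwiShape V atO atJ atInc m`.
* `at_hP`           : every `w` of shape `p` is a `p`-th power (`ad_hP`).
* `at_pow_of_shape` : shape `p ^ r` ⇒ `p ^ r`-th power (connected special fibre).
* `at_main`         : **(T′)**  `∃ h, h ^ (p ^ r) = τ (σ u / u) / (σ u / u)`, for a connected special
  fibre (`hconn`).
* `at_main_two`     : the same for two components `Vinf`, `V0` (`hconn` from D7 Crossing).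
-/

set_option autoImplicit false
set_option linter.unusedSectionVars false
set_option linter.unusedVariables false
set_option linter.style.haveILetI false

namespace Fermat.Agent.UNIP

open Polynomial IntermediateField Fermat.Agent.INJ AlgebraicCurve

section Chart

variable {A₀ E F : Type*} [CommRing A₀] [IsDomain A₀] [IsDiscreteValuationRing A₀]
  [Field E] [Algebra A₀ E] [IsFractionRing A₀ E] [CharZero E]
  [Field F] [Algebra E F] [Algebra A₀ F] [IsScalarTower A₀ E F]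
  {π : A₀} {κ : Type*}

/-- The trace of the maximal ideal of a valuation ring on a chart is a prime ideal. -/
theorem at_crossingIdeal_isPrime {S : Set F} (W : ValuationSubring F)
    (hW : ∀ x : F, IsIntegral (Algebra.adjoin A₀ S) x → x ∈ W) :
    (crossingIdeal (A₀ := A₀) S W hW).IsPrime := by
  refine ⟨fun h => ?_, fun {x y} hxy => ?_⟩
  · have h1 : (1 : zchClosure (A₀ := A₀) S) ∈ crossingIdeal (A₀ := A₀) S W hW := by
      rw [h]; exact Submodule.mem_top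
    exact crossing_one_not_mem_nonunits W h1
  · by_contra hcon
    rw [not_or] at hcon
    obtain ⟨hx, hy⟩ := hcon
    have hx1 : W.valuation (x : F) = 1 := ats_valuation_eq_one W (hW _ x.2) hx
    have hy1 : W.valuation (y : F) = 1 := ats_valuation_eq_one W (hW _ y.2) hy
    have hxy' : W.valuation ((x : F) * (y : F)) < 1 :=
      (ValuationSubring.mem_nonunits_iff W).mp hxy
    rw [map_mul, hx1, hy1, one_mul] at hxy'
    exact lt_irrefl _ hxy'

/-- **(T′b) Step 1 at a closed point of the chart `u`, general automorphism.**  `𝔫` a prime of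
`B_u = zchClosure {u}` containing `π`; `g` fixes `u`, preserves `B_u` and `𝔫` (together with
`g⁻¹`), and preserves the vertical valuations.  If the places of the tube of `𝔫` moved by `g` in
the support of `x` have multiplicity divisible by `m` and coordinate functions, then
`x = x₁ · g₀ ^ m` with `g x₁ / x₁` a unit of `(B_u)_𝔫`. -/
theorem at_local_factor (hπ : Irreducible π) {u : F} (hu : Transcendental E u)
    [FiniteDimensional E⟮u⟯ F] [Finite κ] (V : κ → ValuationSubring F)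
    (hBV : ∀ c (b : F), IsIntegral ↥(Algebra.adjoin A₀ {u}) b → b ∈ V c)
    (hπV : ∀ c, algebraMap A₀ F π ∈ (V c).nonunits)
    (hSS1 : ∀ b : F, IsIntegral ↥(Algebra.adjoin A₀ {u}) b → (∀ c, b ∈ (V c).nonunits) →
      ∃ b' : F, IsIntegral ↥(Algebra.adjoin A₀ {u}) b' ∧ b = algebraMap A₀ F π * b')
    (hVloc : ∀ c (x : F), x ∈ V c → ∃ b s : F, IsIntegral ↥(Algebra.adjoin A₀ {u}) b ∧
      IsIntegral ↥(Algebra.adjoin A₀ {u}) s ∧ s ∉ (V c).nonunits ∧ s * x = b)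
    (g : SemilinearAut E F) (hgu : g • u = u)
    (𝔫 : Ideal ↥(zchClosure (A₀ := A₀) ({u} : Set F))) [𝔫.IsPrime]
    (hgB : ∀ b : ↥(zchClosure (A₀ := A₀) ({u} : Set F)), b ∈ 𝔫 →
      ∃ b' : ↥(zchClosure (A₀ := A₀) ({u} : Set F)), b' ∈ 𝔫 ∧ g • (b : F) = b')
    (hgB' : ∀ b : ↥(zchClosure (A₀ := A₀) ({u} : Set F)), b ∈ 𝔫 →
      ∃ b' : ↥(zchClosure (A₀ := A₀) ({u} : Set F)), b' ∈ 𝔫 ∧ g⁻¹ • (b : F) = b')
    (hgB₀ : ∀ b : F, IsIntegral ↥(Algebra.adjoin A₀ {u}) b →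
      IsIntegral ↥(Algebra.adjoin A₀ {u}) (g • b))
    (hgB₀' : ∀ b : F, IsIntegral ↥(Algebra.adjoin A₀ {u}) b →
      IsIntegral ↥(Algebra.adjoin A₀ {u}) (g⁻¹ • b))
    (hgV : ∀ c (f : F), f ≠ 0 → (V c).valuation (g • f / f) = 1)
    {x : F} (hx : x ≠ 0) (m : ℕ)
    (hfin : {P : Place E F | LsTube ↥(zchClosure (A₀ := A₀) ({u} : Set F)) u 𝔫 P ∧
      g • P ≠ P ∧ P.ord x ≠ 0}.Finite)
    (hm : ∀ P : Place E F, LsTube ↥(zchClosure (A₀ := A₀) ({u} : Set F)) u 𝔫 P → g • P ≠ P →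
      (m : ℤ) ∣ P.ord x)
    (hcoord : ∀ P : Place E F, LsTube ↥(zchClosure (A₀ := A₀) ({u} : Set F)) u 𝔫 P →
      g • P ≠ P → P.ord x ≠ 0 → ∃ f : F, f ≠ 0 ∧ P.ord f = 1 ∧
        ∀ Q : Place E F, LsTube ↥(zchClosure (A₀ := A₀) ({u} : Set F)) u 𝔫 Q → g • Q ≠ Q →
          Q ≠ P → Q.ord f = 0) :
    ∃ g₀ e : F, g₀ ≠ 0 ∧ e ∈ ls_localSubring (F := F) 𝔫 ∧ e⁻¹ ∈ ls_localSubring (F := F) 𝔫 ∧
      (g • (x / g₀ ^ m)) / (x / g₀ ^ m) = e := by
  classical
  haveI : Fintype κ := Fintype.ofFinite κ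
  set B := ↥(zchClosure (A₀ := A₀) ({u} : Set F)) with hBdef
  have hinj : Function.Injective (algebraMap B F) := Subtype.val_injective
  have hB : ∀ y : F, y ∈ (algebraMap B F).range ↔ IsIntegral (Algebra.adjoin A₀ {u}) y := by
    intro y
    constructor
    · rintro ⟨b, rfl⟩
      exact mem_zchClosure.mp b.2
    · intro hy
      exact ⟨⟨y, mem_zchClosure.mpr hy⟩, rfl⟩
  set ϖ : B := algebraMap A₀ B π with hϖdef
  have hϖ : algebraMap B F ϖ = algebraMap A₀ F π := rfl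
  set vert : Finset (Ideal B) :=
    Finset.univ.image (fun c : κ => crossingIdeal (A₀ := A₀) {u} (V c) (hBV c)) with hvert
  have hvert_mem : ∀ 𝔭 ∈ vert, ∃ c : κ, 𝔭 = crossingIdeal (A₀ := A₀) {u} (V c) (hBV c) := by
    intro 𝔭 h𝔭
    obtain ⟨c, -, hc⟩ := Finset.mem_image.mp h𝔭
    exact ⟨c, hc.symm⟩
  have hprime : ∀ 𝔭 ∈ vert, 𝔭.IsPrime := by
    intro 𝔭 h𝔭
    obtain ⟨c, rfl⟩ := hvert_mem 𝔭 h𝔭
    exact at_crossingIdeal_isPrime (V c) (hBV c)
  have hϖv : ∀ 𝔭 ∈ vert, ϖ ∈ 𝔭 := by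
    intro 𝔭 h𝔭
    obtain ⟨c, rfl⟩ := hvert_mem 𝔭 h𝔭
    exact hπV c
  have hSS1' : ∀ y : B, (∀ 𝔭 ∈ vert, y ∈ 𝔭) → ϖ ∣ y := by
    intro y hy
    obtain ⟨b', hb', hyb'⟩ := hSS1 (y : F) (mem_zchClosure.mp y.2) (fun c =>
      hy _ (Finset.mem_image.mpr ⟨c, Finset.mem_univ c, rfl⟩))
    exact ⟨⟨b', mem_zchClosure.mpr hb'⟩, Subtype.ext hyb'⟩
  have hgB₁ : ∀ b : B, ∃ b' : B, g • algebraMap B F b = algebraMap B F b' := fun b =>
    ⟨⟨g • (b : F), mem_zchClosure.mpr (hgB₀ _ (mem_zchClosure.mp b.2))⟩, rfl⟩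
  have hgB₁' : ∀ b : B, ∃ b' : B, g⁻¹ • algebraMap B F b = algebraMap B F b' := fun b =>
    ⟨⟨g⁻¹ • (b : F), mem_zchClosure.mpr (hgB₀' _ (mem_zchClosure.mp b.2))⟩, rfl⟩
  have hgV' : ∀ 𝔭 ∈ vert, 𝔭 ≤ 𝔫 → ∀ f : F, f ≠ 0 →
      ∃ s s' : B, s ∉ 𝔭 ∧ s' ∉ 𝔭 ∧ algebraMap B F s * (g • f / f) = algebraMap B F s' := by
    intro 𝔭 h𝔭 _ f hf
    obtain ⟨c, rfl⟩ := hvert_mem 𝔭 h𝔭
    haveI := at_crossingIdeal_isPrime (A₀ := A₀) (S := {u}) (V c) (hBV c)
    refine ls_vertical_unit_of_valuation hinj _ (V c) ?_ (hgV c f hf)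
    intro y hy
    obtain ⟨b, s, hb, hs, hsV, hsy⟩ := hVloc c y hy
    exact ⟨⟨b, mem_zchClosure.mpr hb⟩, ⟨s, mem_zchClosure.mpr hs⟩, hsV, hsy⟩
  exact ls_local_factor_chart hπ u hu hinj hB ϖ hϖ 𝔫 vert hprime hϖv hSS1' g hgu hgB hgB'
    hgB₁ hgB₁' hgV' hx m hfin hm hcoord

/-- `g` is trivial modulo `π` on the chart `u`: `g b = b + π c` for `b ∈ B_u` (with `c ∈ B_u`). -/
def AtTrivMod (π : A₀) (u : F) (g : SemilinearAut E F) : Prop :=
  ∀ b : F, IsIntegral ↥(Algebra.adjoin A₀ {u}) b →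
    ∃ c : F, IsIntegral ↥(Algebra.adjoin A₀ {u}) c ∧ g • b = b + algebraMap A₀ F π * c

theorem AtTrivMod.isIntegral {u : F} {g : SemilinearAut E F} (hg : AtTrivMod π u g) {b : F}
    (hb : IsIntegral ↥(Algebra.adjoin A₀ {u}) b) :
    IsIntegral ↥(Algebra.adjoin A₀ {u}) (g • b) := by
  obtain ⟨c, hc, hgc⟩ := hg b hb
  rw [hgc]
  exact (zchClosure (A₀ := A₀) ({u} : Set F)).add_mem (mem_zchClosure.mpr hb)
    ((zchClosure (A₀ := A₀) ({u} : Set F)).mul_mem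
      ((zchClosure (A₀ := A₀) ({u} : Set F)).algebraMap_mem π) (mem_zchClosure.mpr hc))

theorem AtTrivMod.mem {u : F} {g : SemilinearAut E F} (hg : AtTrivMod π u g)
    (𝔫 : Ideal ↥(zchClosure (A₀ := A₀) ({u} : Set F)))
    (hπ𝔫 : algebraMap A₀ ↥(zchClosure (A₀ := A₀) ({u} : Set F)) π ∈ 𝔫)
    (b : ↥(zchClosure (A₀ := A₀) ({u} : Set F))) (hb : b ∈ 𝔫) :
    ∃ b' : ↥(zchClosure (A₀ := A₀) ({u} : Set F)), b' ∈ 𝔫 ∧ g • (b : F) = b' := by
  obtain ⟨c, hc, hgc⟩ := hg (b : F) (mem_zchClosure.mp b.2)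
  exact ⟨b + algebraMap A₀ ↥(zchClosure (A₀ := A₀) ({u} : Set F)) π *
      (⟨c, mem_zchClosure.mpr hc⟩ : ↥(zchClosure (A₀ := A₀) ({u} : Set F))),
    𝔫.add_mem hb (𝔫.mul_mem_right _ hπ𝔫), hgc⟩

/-- a trivial-mod-`π` automorphism, in the form `hτB` of `ls_tau_localSubring` -/
theorem AtTrivMod.chart {u : F} {g : SemilinearAut E F} (hg : AtTrivMod π u g)
    (b : ↥(zchClosure (A₀ := A₀) ({u} : Set F))) :
    ∃ c : ↥(zchClosure (A₀ := A₀) ({u} : Set F)),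
      (SemilinearAut.toRingAut g : F ≃+* F).toRingHom
          (algebraMap ↥(zchClosure (A₀ := A₀) ({u} : Set F)) F b) =
        algebraMap ↥(zchClosure (A₀ := A₀) ({u} : Set F)) F
          (b + algebraMap A₀ ↥(zchClosure (A₀ := A₀) ({u} : Set F)) π * c) := by
  obtain ⟨c, hc, hgc⟩ := hg (b : F) (mem_zchClosure.mp b.2)
  exact ⟨⟨c, mem_zchClosure.mpr hc⟩, hgc⟩

/-- `AtTrivMod` for the inverse chart: if `g` fixes `t` it fixes `t⁻¹`. -/
theorem at_smul_inv {t : F} {g : SemilinearAut E F} (hgt : g • t = t) : g • t⁻¹ = t⁻¹ := by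
  rw [smul_inv'' g t, hgt]

end Chart

section Main

variable {A₀ E F : Type*} [CommRing A₀] [IsDomain A₀] [IsDiscreteValuationRing A₀]
  [Field E] [Algebra A₀ E] [IsFractionRing A₀ E] [CharZero E]
  [Field F] [Algebra E F] [Algebra A₀ F] [IsScalarTower A₀ E F]
  {κ : Type*}

/-- The closed points of the special fibre of the chart `u`: the maximal ideals `𝔫 ∋ π` of
`B_u = zchClosure {u}`. -/
def AtPt (π : A₀) (u : F) : Type _ :=
  {𝔫 : Ideal ↥(zchClosure (A₀ := A₀) ({u} : Set F)) //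
    𝔫.IsMaximal ∧ algebraMap A₀ ↥(zchClosure (A₀ := A₀) ({u} : Set F)) π ∈ 𝔫}

/-- The local ring `(B_u)_𝔫 ⊆ F` at a closed point. -/
def atLoc {π : A₀} {u : F} (𝔫 : AtPt (F := F) π u) : Subring F :=
  ls_localSubring (F := F) (h𝔫 := 𝔫.2.1.isPrime) 𝔫.1

/-- The ideal `π (B_u)_𝔫`. -/
def atLocIdeal {π : A₀} {u : F} (𝔫 : AtPt (F := F) π u) : Ideal (atLoc 𝔫) :=
  haveI := 𝔫.2.1.isPrime
  ls_localIdeal (F := F) 𝔫.1 (algebraMap A₀ ↥(zchClosure (A₀ := A₀) ({u} : Set F)) π)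

/-- The component `W` passes through the closed point `𝔫`: `𝔪_W ∩ B_u ⊆ 𝔫`. -/
def atThrough {π : A₀} {u : F} (𝔫 : AtPt (F := F) π u) (W : ValuationSubring F) : Prop :=
  ∀ b : ↥(zchClosure (A₀ := A₀) ({u} : Set F)), (b : F) ∈ W.nonunits → b ∈ 𝔫.1

/-- `O i` of `PwiShape` on `ι = AtPt π t ⊕ AtPt π t⁻¹`. -/
def atO (π : A₀) (t : F) : AtPt (F := F) π t ⊕ AtPt (F := F) π t⁻¹ → Subring F
  | Sum.inl 𝔫 => atLoc 𝔫
  | Sum.inr 𝔫 => atLoc 𝔫

/-- `J i` of `PwiShape`. -/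
def atJ (π : A₀) (t : F) : (i : AtPt (F := F) π t ⊕ AtPt (F := F) π t⁻¹) → Ideal (atO π t i)
  | Sum.inl 𝔫 => atLocIdeal 𝔫
  | Sum.inr 𝔫 => atLocIdeal 𝔫

/-- `inc i c` of `PwiShape`. -/
def atInc (π : A₀) (t : F) (V : κ → ValuationSubring F) :
    AtPt (F := F) π t ⊕ AtPt (F := F) π t⁻¹ → κ → Prop
  | Sum.inl 𝔫, c => atThrough 𝔫 (V c)
  | Sum.inr 𝔫, c => atThrough 𝔫 (V c)

variable {π : A₀}

/-- `F / E(t⁻¹)` is finite. -/
theorem at_finiteDimensional_of_eq {K K' : IntermediateField E F} (h : K = K')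
    [FiniteDimensional K F] : FiniteDimensional K' F := by
  subst h; infer_instance

theorem at_finiteDimensional_inv (t : F) [FiniteDimensional E⟮t⟯ F] :
    FiniteDimensional E⟮t⁻¹⟯ F :=
  at_finiteDimensional_of_eq (zch_adjoin_inv t)

/-- the chart `B_u` is integrally closed in `F` -/
theorem at_chart_integrallyClosed (u : F) (x : F)
    (hx : IsIntegral ↥(zchClosure (A₀ := A₀) ({u} : Set F)) x) :
    x ∈ (algebraMap ↥(zchClosure (A₀ := A₀) ({u} : Set F)) F).range := by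
  have h1 : IsIntegral ↥(integralClosure ↥(Algebra.adjoin A₀ ({u} : Set F)) F) x := by
    obtain ⟨q, hq, hqx⟩ := hx
    let f : ↥(zchClosure (A₀ := A₀) ({u} : Set F)) →+*
        ↥(integralClosure ↥(Algebra.adjoin A₀ ({u} : Set F)) F) :=
      { toFun := fun b => ⟨b.1, b.2⟩
        map_one' := rfl
        map_mul' := fun _ _ => rfl
        map_zero' := rfl
        map_add' := fun _ _ => rfl }
    refine ⟨q.map f, hq.map f, ?_⟩
    rw [eval₂_map]
    exact hqx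
  have h2 : IsIntegral ↥(Algebra.adjoin A₀ ({u} : Set F)) x := isIntegral_trans x h1
  exact ⟨⟨x, mem_zchClosure.mpr h2⟩, rfl⟩

/-- **The shape.**  `(τ − 1)(σ − 1) u` has the shape `PwiShape V atO atJ atInc m`. -/
theorem at_pwiShape (hπ : Irreducible π) {t : F} (ht : Transcendental E t)
    [FiniteDimensional E⟮t⟯ F] [Finite κ] (V : κ → ValuationSubring F)
    (hBV₁ : ∀ c (b : F), IsIntegral ↥(Algebra.adjoin A₀ {t}) b → b ∈ V c)
    (hBV₂ : ∀ c (b : F), IsIntegral ↥(Algebra.adjoin A₀ {t⁻¹}) b → b ∈ V c)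
    (hπV : ∀ c, algebraMap A₀ F π ∈ (V c).nonunits)
    (hSS1 : ∀ b : F, IsIntegral ↥(Algebra.adjoin A₀ {t}) b → (∀ c, b ∈ (V c).nonunits) →
      ∃ b' : F, IsIntegral ↥(Algebra.adjoin A₀ {t}) b' ∧ b = algebraMap A₀ F π * b')
    (hVloc₁ : ∀ c (x : F), x ∈ V c → ∃ b s : F, IsIntegral ↥(Algebra.adjoin A₀ {t}) b ∧
      IsIntegral ↥(Algebra.adjoin A₀ {t}) s ∧ s ∉ (V c).nonunits ∧ s * x = b)
    (hVloc₂ : ∀ c (x : F), x ∈ V c → ∃ b s : F, IsIntegral ↥(Algebra.adjoin A₀ {t⁻¹}) b ∧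
      IsIntegral ↥(Algebra.adjoin A₀ {t⁻¹}) s ∧ s ∉ (V c).nonunits ∧ s * x = b)
    (σ τ : SemilinearAut E F) (hσt : σ • t = t)
    (hσB₁ : AtTrivMod π t σ) (hσB₁' : AtTrivMod π t σ⁻¹)
    (hσB₂ : AtTrivMod π t⁻¹ σ) (hσB₂' : AtTrivMod π t⁻¹ σ⁻¹)
    (hτB₁ : AtTrivMod π t τ) (hτB₂ : AtTrivMod π t⁻¹ τ)
    (hσV : ∀ c (f : F), f ≠ 0 → (V c).valuation (σ • f / f) = 1)
    (hτV : ∀ c (x : F), x ∈ V c → τ • x - x ∈ (V c).nonunits)
    {u : F} (hu : u ≠ 0) (m : ℕ)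
    (hfin₁ : ∀ 𝔫 : AtPt (F := F) π t, {P : Place E F |
      LsTube ↥(zchClosure (A₀ := A₀) ({t} : Set F)) t 𝔫.1 P ∧ σ • P ≠ P ∧ P.ord u ≠ 0}.Finite)
    (hm₁ : ∀ 𝔫 : AtPt (F := F) π t, ∀ P : Place E F,
      LsTube ↥(zchClosure (A₀ := A₀) ({t} : Set F)) t 𝔫.1 P → σ • P ≠ P → (m : ℤ) ∣ P.ord u)
    (hcoord₁ : ∀ 𝔫 : AtPt (F := F) π t, ∀ P : Place E F,
      LsTube ↥(zchClosure (A₀ := A₀) ({t} : Set F)) t 𝔫.1 P → σ • P ≠ P → P.ord u ≠ 0 →
      ∃ f : F, f ≠ 0 ∧ P.ord f = 1 ∧ ∀ Q : Place E F,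
        LsTube ↥(zchClosure (A₀ := A₀) ({t} : Set F)) t 𝔫.1 Q → σ • Q ≠ Q → Q ≠ P →
          Q.ord f = 0)
    (hfin₂ : ∀ 𝔫 : AtPt (F := F) π t⁻¹, {P : Place E F |
      LsTube ↥(zchClosure (A₀ := A₀) ({t⁻¹} : Set F)) t⁻¹ 𝔫.1 P ∧ σ • P ≠ P ∧
        P.ord u ≠ 0}.Finite)
    (hm₂ : ∀ 𝔫 : AtPt (F := F) π t⁻¹, ∀ P : Place E F,
      LsTube ↥(zchClosure (A₀ := A₀) ({t⁻¹} : Set F)) t⁻¹ 𝔫.1 P → σ • P ≠ P →
        (m : ℤ) ∣ P.ord u)
    (hcoord₂ : ∀ 𝔫 : AtPt (F := F) π t⁻¹, ∀ P : Place E F,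
      LsTube ↥(zchClosure (A₀ := A₀) ({t⁻¹} : Set F)) t⁻¹ 𝔫.1 P → σ • P ≠ P → P.ord u ≠ 0 →
      ∃ f : F, f ≠ 0 ∧ P.ord f = 1 ∧ ∀ Q : Place E F,
        LsTube ↥(zchClosure (A₀ := A₀) ({t⁻¹} : Set F)) t⁻¹ 𝔫.1 Q → σ • Q ≠ Q → Q ≠ P →
          Q.ord f = 0) :
    PwiShape V (atO π t) (atJ π t) (atInc π t V) m ((τ • (σ • u / u)) / (σ • u / u)) := by
  haveI : FiniteDimensional E⟮t⁻¹⟯ F := at_finiteDimensional_inv t
  have ht' : Transcendental E t⁻¹ := zch_transcendental_inv ht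
  have hσt' : σ • t⁻¹ = t⁻¹ := at_smul_inv hσt
  have hSS1' := ats_SS1_inv ht hπ V hBV₁ hSS1
  refine ls_pwiShape V (atO π t) (atJ π t) (atInc π t V)
    (SemilinearAut.toRingAut σ : F ≃+* F).toRingHom
    (SemilinearAut.toRingAut τ : F ≃+* F).toRingHom hσV hτV ?_ m hu ?_
  · rintro (𝔫 | 𝔫) x
    · haveI := 𝔫.2.1.isPrime
      exact ls_tau_localSubring Subtype.val_injective 𝔫.1 _ 𝔫.2.2 _ hτB₁.chart x
    · haveI := 𝔫.2.1.isPrime
      exact ls_tau_localSubring Subtype.val_injective 𝔫.1 _ 𝔫.2.2 _ hτB₂.chart x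
  · rintro (𝔫 | 𝔫)
    · haveI := 𝔫.2.1.isPrime
      exact at_local_factor hπ ht V hBV₁ hπV hSS1 hVloc₁ σ hσt 𝔫.1
        (hσB₁.mem 𝔫.1 𝔫.2.2) (hσB₁'.mem 𝔫.1 𝔫.2.2) (fun b hb => hσB₁.isIntegral hb)
        (fun b hb => hσB₁'.isIntegral hb) hσV hu m (hfin₁ 𝔫) (hm₁ 𝔫) (hcoord₁ 𝔫)
    · haveI := 𝔫.2.1.isPrime
      exact at_local_factor hπ ht' V hBV₂ hπV hSS1' hVloc₂ σ hσt' 𝔫.1
        (hσB₂.mem 𝔫.1 𝔫.2.2) (hσB₂'.mem 𝔫.1 𝔫.2.2) (fun b hb => hσB₂.isIntegral hb)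
        (fun b hb => hσB₂'.isIntegral hb) hσV hu m (hfin₂ 𝔫) (hm₂ 𝔫) (hcoord₂ 𝔫)

/-- **`hP`.**  Every `w` of shape `p` is a `p`-th power. -/
theorem at_hP (hπ : Irreducible π) {t : F} (ht : Transcendental E t)
    [FiniteDimensional E⟮t⟯ F]
    (hcl : ∀ x : F, IsAlgebraic E x → x ∈ (algebraMap E F).range)
    {p : ℕ} (hp : p.Prime) (hpu : IsUnit (p : A₀)) {ζ : A₀} (hζ : IsPrimitiveRoot ζ p)
    (hunit : ∀ a : A₀, IsUnit a → ∃ d : A₀, d ^ p = a)
    [Finite κ] (V : κ → ValuationSubring F)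
    (hBV₁ : ∀ c (b : F), IsIntegral ↥(Algebra.adjoin A₀ {t}) b → b ∈ V c)
    (hBV₂ : ∀ c (b : F), IsIntegral ↥(Algebra.adjoin A₀ {t⁻¹}) b → b ∈ V c)
    (hπV : ∀ c, algebraMap A₀ F π ∈ (V c).nonunits)
    (hSS1 : ∀ b : F, IsIntegral ↥(Algebra.adjoin A₀ {t}) b → (∀ c, b ∈ (V c).nonunits) →
      ∃ b' : F, IsIntegral ↥(Algebra.adjoin A₀ {t}) b' ∧ b = algebraMap A₀ F π * b')
    (harch : ∀ c (a x : F), a ∈ (V c).nonunits → ∃ N : ℕ, a ^ N * x ∈ (V c).nonunits)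
    (w : F) (hw : PwiShape V (atO π t) (atJ π t) (atInc π t V) p w) : ∃ h : F, h ^ p = w := by
  refine ad_hP hπ ht hcl hp hpu hζ (ats_hconst ht hπ V hBV₁ hπV hSS1 hp.pos hunit) V
    (atO π t) (atJ π t) (atInc π t V) hBV₁ hBV₂ hSS1 harch ?_ ?_ w hw
  · intro 𝔫 h𝔫 hπ𝔫
    refine ⟨Sum.inl ⟨𝔫, h𝔫, hπ𝔫⟩, fun x hx => ?_, fun c hc => ats_cov (V c) 𝔫 hc⟩
    obtain ⟨b, s, hs, hsx⟩ := hx
    exact ⟨b, s, hs, hsx⟩
  · intro 𝔫 h𝔫 hπ𝔫
    refine ⟨Sum.inr ⟨𝔫, h𝔫, hπ𝔫⟩, fun x hx => ?_, fun c hc => ats_cov (V c) 𝔫 hc⟩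
    obtain ⟨b, s, hs, hsx⟩ := hx
    exact ⟨b, s, hs, hsx⟩

/-- **Shape ⇒ power** (the second half of (T′), also used by phase 2).  In the chart setting with
connected special fibre, every `w` of shape `PwiShape V atO atJ atInc (p ^ r)` is a `p ^ r`-th power
in `F`. -/
theorem at_pow_of_shape (hπ : Irreducible π) {t : F} (ht : Transcendental E t)
    [FiniteDimensional E⟮t⟯ F]
    (hcl : ∀ x : F, IsAlgebraic E x → x ∈ (algebraMap E F).range)
    {p : ℕ} (hp : p.Prime) (hpu : IsUnit (p : A₀)) {ζ : A₀} (hζ : IsPrimitiveRoot ζ p)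
    (hunit : ∀ a : A₀, IsUnit a → ∃ d : A₀, d ^ p = a)
    [Finite κ] (V : κ → ValuationSubring F)
    (hBV₁ : ∀ c (b : F), IsIntegral ↥(Algebra.adjoin A₀ {t}) b → b ∈ V c)
    (hBV₂ : ∀ c (b : F), IsIntegral ↥(Algebra.adjoin A₀ {t⁻¹}) b → b ∈ V c)
    (hπV : ∀ c, algebraMap A₀ F π ∈ (V c).nonunits)
    (hSS1 : ∀ b : F, IsIntegral ↥(Algebra.adjoin A₀ {t}) b → (∀ c, b ∈ (V c).nonunits) →
      ∃ b' : F, IsIntegral ↥(Algebra.adjoin A₀ {t}) b' ∧ b = algebraMap A₀ F π * b')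
    (harch : ∀ c (a x : F), a ∈ (V c).nonunits → ∃ N : ℕ, a ^ N * x ∈ (V c).nonunits)
    (hconn : ∀ c c' : κ, Relation.ReflTransGen
      (fun a b => ∃ i, atInc π t V i a ∧ atInc π t V i b) c c')
    (r : ℕ) (w : F) (hw : PwiShape V (atO π t) (atJ π t) (atInc π t V) (p ^ r) w) :
    ∃ h : F, h ^ (p ^ r) = w := by
  have hSS1' := ats_SS1_inv ht hπ V hBV₁ hSS1
  have hAV : ∀ c (a : A₀), algebraMap A₀ F a ∈ V c := fun c a =>
    hBV₁ c _ (mem_zchClosure.mp ((zchClosure (A₀ := A₀) ({t} : Set F)).algebraMap_mem a))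
  have hζF : IsPrimitiveRoot (algebraMap A₀ F ζ) p :=
    hζ.map_of_injective (zch_algebraMap_injective (A₀ := A₀) (E := E) (L := F))
  refine pwi_exists_pow_eq (V := V) (O := atO π t) (J := atJ π t) (inc := atInc π t V)
    ?_ ?_ ?_ ?_ ?_ hconn hp.pos hζF ?_ ?_ ?_
    (at_hP hπ ht hcl hp hpu hζ hunit V hBV₁ hBV₂ hπV hSS1 harch) r w hw
  · rintro (𝔫 | 𝔫)
    · haveI := 𝔫.2.1.isPrime
      exact ls_localSubring_isLocalRing Subtype.val_injective 𝔫.1
    · haveI := 𝔫.2.1.isPrime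
      exact ls_localSubring_isLocalRing Subtype.val_injective 𝔫.1
  · rintro (𝔫 | 𝔫)
    · haveI := 𝔫.2.1.isPrime
      exact ls_localIdeal_ne_top Subtype.val_injective 𝔫.1 _ 𝔫.2.2
    · haveI := 𝔫.2.1.isPrime
      exact ls_localIdeal_ne_top Subtype.val_injective 𝔫.1 _ 𝔫.2.2
  · rintro (𝔫 | 𝔫)
    · haveI := 𝔫.2.1.isPrime
      exact ls_isIntegral_mem_localSubring (at_chart_integrallyClosed _) 𝔫.1
    · haveI := 𝔫.2.1.isPrime
      exact ls_isIntegral_mem_localSubring (at_chart_integrallyClosed _) 𝔫.1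
  · rintro (𝔫 | 𝔫) c hinc x hx
    · haveI := 𝔫.2.1.isPrime
      exact ats_hJV_chart (V c) (hBV₁ c) (hπV c) 𝔫.1 hinc x hx
    · haveI := 𝔫.2.1.isPrime
      exact ats_hJV_chart (V c) (hBV₂ c) (hπV c) 𝔫.1 hinc x hx
  · rintro (𝔫 | 𝔫)
    · haveI := 𝔫.2.1.isPrime
      exact ats_hpt_chart V hBV₁ hSS1 𝔫.1 𝔫.2.2
    · haveI := 𝔫.2.1.isPrime
      exact ats_hpt_chart V hBV₂ hSS1' 𝔫.1 𝔫.2.2
  · rintro (𝔫 | 𝔫)
    · haveI := 𝔫.2.1.isPrime
      exact ats_hζO 𝔫.1 ζ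
    · haveI := 𝔫.2.1.isPrime
      exact ats_hζO 𝔫.1 ζ
  · rintro (𝔫 | 𝔫) k hk0 hkp
    · haveI := 𝔫.2.1.isPrime
      exact ats_hζu 𝔫.1 hpu hζ hk0 hkp
    · haveI := 𝔫.2.1.isPrime
      exact ats_hζu 𝔫.1 hpu hζ hk0 hkp
  · intro c k hk0 hkp
    exact ats_hζV (V c) (hAV c) hpu hζ hk0 hkp

/-- **(T′), general form.**  Chart setting for `F / E(t)` over the DVR `A₀`, vertical valuation
rings `V c` (`c ∈ κ` finite) with (SS1) on the chart `t`, `V c = (B_u)_{𝔭_c}` on both charts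
(`hVloc`), connected special fibre (`hconn`); `p` a prime invertible in `A₀`, `ζ ∈ A₀` a primitive
`p`-th root of unity, the units of `A₀` are `p`-th powers.  `σ`, `τ` semilinear automorphisms
fixing `t`, trivial modulo `π` on the charts, `σ` preserving the vertical valuations and `τ` trivial
on their residue fields.  If `u ≠ 0` has, at every closed point `𝔫` of the special fibre, in the
tube of `𝔫`: finitely many places moved by `σ` in its support, all of multiplicity divisible by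
`p ^ r` and all with a coordinate function (`hcoord`), then `(τ − 1)(σ − 1) u` is a `p ^ r`-th
power in `F`. -/
theorem at_main (hπ : Irreducible π) {t : F} (ht : Transcendental E t)
    [FiniteDimensional E⟮t⟯ F]
    (hcl : ∀ x : F, IsAlgebraic E x → x ∈ (algebraMap E F).range)
    {p : ℕ} (hp : p.Prime) (hpu : IsUnit (p : A₀)) {ζ : A₀} (hζ : IsPrimitiveRoot ζ p)
    (hunit : ∀ a : A₀, IsUnit a → ∃ d : A₀, d ^ p = a)
    [Finite κ] (V : κ → ValuationSubring F)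
    (hBV₁ : ∀ c (b : F), IsIntegral ↥(Algebra.adjoin A₀ {t}) b → b ∈ V c)
    (hBV₂ : ∀ c (b : F), IsIntegral ↥(Algebra.adjoin A₀ {t⁻¹}) b → b ∈ V c)
    (hπV : ∀ c, algebraMap A₀ F π ∈ (V c).nonunits)
    (hSS1 : ∀ b : F, IsIntegral ↥(Algebra.adjoin A₀ {t}) b → (∀ c, b ∈ (V c).nonunits) →
      ∃ b' : F, IsIntegral ↥(Algebra.adjoin A₀ {t}) b' ∧ b = algebraMap A₀ F π * b')
    (harch : ∀ c (a x : F), a ∈ (V c).nonunits → ∃ N : ℕ, a ^ N * x ∈ (V c).nonunits)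
    (hVloc₁ : ∀ c (x : F), x ∈ V c → ∃ b s : F, IsIntegral ↥(Algebra.adjoin A₀ {t}) b ∧
      IsIntegral ↥(Algebra.adjoin A₀ {t}) s ∧ s ∉ (V c).nonunits ∧ s * x = b)
    (hVloc₂ : ∀ c (x : F), x ∈ V c → ∃ b s : F, IsIntegral ↥(Algebra.adjoin A₀ {t⁻¹}) b ∧
      IsIntegral ↥(Algebra.adjoin A₀ {t⁻¹}) s ∧ s ∉ (V c).nonunits ∧ s * x = b)
    (hconn : ∀ c c' : κ, Relation.ReflTransGen
      (fun a b => ∃ i, atInc π t V i a ∧ atInc π t V i b) c c')
    (σ τ : SemilinearAut E F) (hσt : σ • t = t)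
    (hσB₁ : AtTrivMod π t σ) (hσB₁' : AtTrivMod π t σ⁻¹)
    (hσB₂ : AtTrivMod π t⁻¹ σ) (hσB₂' : AtTrivMod π t⁻¹ σ⁻¹)
    (hτB₁ : AtTrivMod π t τ) (hτB₂ : AtTrivMod π t⁻¹ τ)
    (hσV : ∀ c (f : F), f ≠ 0 → (V c).valuation (σ • f / f) = 1)
    (hτV : ∀ c (x : F), x ∈ V c → τ • x - x ∈ (V c).nonunits)
    {u : F} (hu : u ≠ 0) (r : ℕ)
    (hfin₁ : ∀ 𝔫 : AtPt (F := F) π t, {P : Place E F |
      LsTube ↥(zchClosure (A₀ := A₀) ({t} : Set F)) t 𝔫.1 P ∧ σ • P ≠ P ∧ P.ord u ≠ 0}.Finite)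
    (hm₁ : ∀ 𝔫 : AtPt (F := F) π t, ∀ P : Place E F,
      LsTube ↥(zchClosure (A₀ := A₀) ({t} : Set F)) t 𝔫.1 P → σ • P ≠ P →
        ((p ^ r : ℕ) : ℤ) ∣ P.ord u)
    (hcoord₁ : ∀ 𝔫 : AtPt (F := F) π t, ∀ P : Place E F,
      LsTube ↥(zchClosure (A₀ := A₀) ({t} : Set F)) t 𝔫.1 P → σ • P ≠ P → P.ord u ≠ 0 →
      ∃ f : F, f ≠ 0 ∧ P.ord f = 1 ∧ ∀ Q : Place E F,
        LsTube ↥(zchClosure (A₀ := A₀) ({t} : Set F)) t 𝔫.1 Q → σ • Q ≠ Q → Q ≠ P →
          Q.ord f = 0)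
    (hfin₂ : ∀ 𝔫 : AtPt (F := F) π t⁻¹, {P : Place E F |
      LsTube ↥(zchClosure (A₀ := A₀) ({t⁻¹} : Set F)) t⁻¹ 𝔫.1 P ∧ σ • P ≠ P ∧
        P.ord u ≠ 0}.Finite)
    (hm₂ : ∀ 𝔫 : AtPt (F := F) π t⁻¹, ∀ P : Place E F,
      LsTube ↥(zchClosure (A₀ := A₀) ({t⁻¹} : Set F)) t⁻¹ 𝔫.1 P → σ • P ≠ P →
        ((p ^ r : ℕ) : ℤ) ∣ P.ord u)
    (hcoord₂ : ∀ 𝔫 : AtPt (F := F) π t⁻¹, ∀ P : Place E F,
      LsTube ↥(zchClosure (A₀ := A₀) ({t⁻¹} : Set F)) t⁻¹ 𝔫.1 P → σ • P ≠ P → P.ord u ≠ 0 →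
      ∃ f : F, f ≠ 0 ∧ P.ord f = 1 ∧ ∀ Q : Place E F,
        LsTube ↥(zchClosure (A₀ := A₀) ({t⁻¹} : Set F)) t⁻¹ 𝔫.1 Q → σ • Q ≠ Q → Q ≠ P →
          Q.ord f = 0) :
    ∃ h : F, h ^ (p ^ r) = (τ • (σ • u / u)) / (σ • u / u) :=
  at_pow_of_shape hπ ht hcl hp hpu hζ hunit V hBV₁ hBV₂ hπV hSS1 harch hconn r _
    (at_pwiShape hπ ht V hBV₁ hBV₂ hπV hSS1 hVloc₁ hVloc₂ σ τ hσt hσB₁ hσB₁' hσB₂ hσB₂'
      hτB₁ hτB₂ hσV hτV hu (p ^ r) hfin₁ hm₁ hcoord₁ hfin₂ hm₂ hcoord₂)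

/-- **`hconn` for two components** (D7 Crossing): if `κ = {c∞, c0}`, the two components meet at a
closed point of one of the two charts. -/
theorem at_hconn_two (hπ : Irreducible π) {t : F} (ht : Transcendental E t)
    [FiniteDimensional E⟮t⟯ F]
    (hcl : ∀ x : F, IsAlgebraic E x → x ∈ (algebraMap E F).range)
    (V : κ → ValuationSubring F)
    (hBV₁ : ∀ c (b : F), IsIntegral ↥(Algebra.adjoin A₀ {t}) b → b ∈ V c)
    (hBV₂ : ∀ c (b : F), IsIntegral ↥(Algebra.adjoin A₀ {t⁻¹}) b → b ∈ V c)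
    (hπV : ∀ c, algebraMap A₀ F π ∈ (V c).nonunits)
    (hSS1 : ∀ b : F, IsIntegral ↥(Algebra.adjoin A₀ {t}) b → (∀ c, b ∈ (V c).nonunits) →
      ∃ b' : F, IsIntegral ↥(Algebra.adjoin A₀ {t}) b' ∧ b = algebraMap A₀ F π * b')
    (c₁ c₂ : κ) (hκ : ∀ c, c = c₁ ∨ c = c₂) :
    ∀ c c' : κ, Relation.ReflTransGen
      (fun a b => ∃ i, atInc π t V i a ∧ atInc π t V i b) c c' := by
  have hSS1' := ats_SS1_inv ht hπ V hBV₁ hSS1
  have hA : ∀ c (a : A₀), algebraMap A₀ F a ∈ V c := fun c a =>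
    hBV₁ c _ (mem_zchClosure.mp ((zchClosure (A₀ := A₀) ({t} : Set F)).algebraMap_mem a))
  have htV : ∀ c, t ∈ V c := fun c =>
    hBV₁ c _ (isIntegral_algebraMap (R := ↥(Algebra.adjoin A₀ ({t} : Set F)))
      (x := ⟨t, Algebra.subset_adjoin (Set.mem_singleton t)⟩))
  have htV' : ∀ c, t⁻¹ ∈ V c := fun c =>
    hBV₂ c _ (isIntegral_algebraMap (R := ↥(Algebra.adjoin A₀ ({t⁻¹} : Set F)))
      (x := ⟨t⁻¹, Algebra.subset_adjoin (Set.mem_singleton t⁻¹)⟩))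
  have hall : ∀ {x : F}, x ∈ (V c₁).nonunits → x ∈ (V c₂).nonunits →
      ∀ c, x ∈ (V c).nonunits := by
    intro x h1 h2 c
    rcases hκ c with rfl | rfl
    · exact h1
    · exact h2
  have hcross := crossing_exists_maximal hπ ht hcl (V c₁) (V c₂) (hA c₁) (hA c₂) (htV c₁)
    (htV' c₁) (htV c₂) (htV' c₂) (hπV c₁) (hπV c₂)
    (fun x hx h1 h2 => hSS1 x hx (hall h1 h2)) (fun x hx h1 h2 => hSS1' x hx (hall h1 h2))
  have key : ∃ i, atInc π t V i c₁ ∧ atInc π t V i c₂ := by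
    rcases hcross with ⟨𝔫, h𝔫, h1, h2⟩ | ⟨𝔫, h𝔫, h1, h2⟩
    · exact ⟨Sum.inl ⟨𝔫, h𝔫, h1 _ (hπV c₁)⟩, h1, h2⟩
    · exact ⟨Sum.inr ⟨𝔫, h𝔫, h1 _ (hπV c₁)⟩, h1, h2⟩
  obtain ⟨i, hi1, hi2⟩ := key
  have hi : ∀ c, atInc π t V i c := by
    intro c
    rcases hκ c with rfl | rfl
    · exact hi1
    · exact hi2
  intro c c'
  exact Relation.ReflTransGen.single ⟨i, hi c, hi c'⟩

/-- **(T′) for two components**, with the global hypotheses on `div u`: finite support and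
`p ^ r ∣ ord_P u` at every place. -/
theorem at_main_two (hπ : Irreducible π) {t : F} (ht : Transcendental E t)
    [FiniteDimensional E⟮t⟯ F]
    (hcl : ∀ x : F, IsAlgebraic E x → x ∈ (algebraMap E F).range)
    {p : ℕ} (hp : p.Prime) (hpu : IsUnit (p : A₀)) {ζ : A₀} (hζ : IsPrimitiveRoot ζ p)
    (hunit : ∀ a : A₀, IsUnit a → ∃ d : A₀, d ^ p = a)
    [Finite κ] (V : κ → ValuationSubring F) (c₁ c₂ : κ) (hκ : ∀ c, c = c₁ ∨ c = c₂)
    (hBV₁ : ∀ c (b : F), IsIntegral ↥(Algebra.adjoin A₀ {t}) b → b ∈ V c)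
    (hBV₂ : ∀ c (b : F), IsIntegral ↥(Algebra.adjoin A₀ {t⁻¹}) b → b ∈ V c)
    (hπV : ∀ c, algebraMap A₀ F π ∈ (V c).nonunits)
    (hSS1 : ∀ b : F, IsIntegral ↥(Algebra.adjoin A₀ {t}) b → (∀ c, b ∈ (V c).nonunits) →
      ∃ b' : F, IsIntegral ↥(Algebra.adjoin A₀ {t}) b' ∧ b = algebraMap A₀ F π * b')
    (harch : ∀ c (a x : F), a ∈ (V c).nonunits → ∃ N : ℕ, a ^ N * x ∈ (V c).nonunits)
    (hVloc₁ : ∀ c (x : F), x ∈ V c → ∃ b s : F, IsIntegral ↥(Algebra.adjoin A₀ {t}) b ∧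
      IsIntegral ↥(Algebra.adjoin A₀ {t}) s ∧ s ∉ (V c).nonunits ∧ s * x = b)
    (hVloc₂ : ∀ c (x : F), x ∈ V c → ∃ b s : F, IsIntegral ↥(Algebra.adjoin A₀ {t⁻¹}) b ∧
      IsIntegral ↥(Algebra.adjoin A₀ {t⁻¹}) s ∧ s ∉ (V c).nonunits ∧ s * x = b)
    (σ τ : SemilinearAut E F) (hσt : σ • t = t)
    (hσB₁ : AtTrivMod π t σ) (hσB₁' : AtTrivMod π t σ⁻¹)
    (hσB₂ : AtTrivMod π t⁻¹ σ) (hσB₂' : AtTrivMod π t⁻¹ σ⁻¹)
    (hτB₁ : AtTrivMod π t τ) (hτB₂ : AtTrivMod π t⁻¹ τ)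
    (hσV : ∀ c (f : F), f ≠ 0 → (V c).valuation (σ • f / f) = 1)
    (hτV : ∀ c (x : F), x ∈ V c → τ • x - x ∈ (V c).nonunits)
    {u : F} (hu : u ≠ 0) (r : ℕ)
    (hfin : {P : Place E F | P.ord u ≠ 0}.Finite)
    (hm : ∀ P : Place E F, ((p ^ r : ℕ) : ℤ) ∣ P.ord u)
    (hcoord₁ : ∀ 𝔫 : AtPt (F := F) π t, ∀ P : Place E F,
      LsTube ↥(zchClosure (A₀ := A₀) ({t} : Set F)) t 𝔫.1 P → σ • P ≠ P → P.ord u ≠ 0 →
      ∃ f : F, f ≠ 0 ∧ P.ord f = 1 ∧ ∀ Q : Place E F,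
        LsTube ↥(zchClosure (A₀ := A₀) ({t} : Set F)) t 𝔫.1 Q → σ • Q ≠ Q → Q ≠ P →
          Q.ord f = 0)
    (hcoord₂ : ∀ 𝔫 : AtPt (F := F) π t⁻¹, ∀ P : Place E F,
      LsTube ↥(zchClosure (A₀ := A₀) ({t⁻¹} : Set F)) t⁻¹ 𝔫.1 P → σ • P ≠ P → P.ord u ≠ 0 →
      ∃ f : F, f ≠ 0 ∧ P.ord f = 1 ∧ ∀ Q : Place E F,
        LsTube ↥(zchClosure (A₀ := A₀) ({t⁻¹} : Set F)) t⁻¹ 𝔫.1 Q → σ • Q ≠ Q → Q ≠ P →
          Q.ord f = 0) :
    ∃ h : F, h ^ (p ^ r) = (τ • (σ • u / u)) / (σ • u / u) :=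
  at_main hπ ht hcl hp hpu hζ hunit V hBV₁ hBV₂ hπV hSS1 harch hVloc₁ hVloc₂
    (at_hconn_two hπ ht hcl V hBV₁ hBV₂ hπV hSS1 c₁ c₂ hκ) σ τ hσt hσB₁ hσB₁' hσB₂ hσB₂'
    hτB₁ hτB₂ hσV hτV hu r
    (fun 𝔫 => hfin.subset fun P hP => hP.2.2) (fun 𝔫 P _ _ => hm P) hcoord₁
    (fun 𝔫 => hfin.subset fun P hP => hP.2.2) (fun 𝔫 P _ _ => hm P) hcoord₂

end Main

end Fermat.Agent.UNIP


end ZBUNIP_007_6

/-! ### bundled: `Fermat.Agent.UNIP.MGConcrete` -/
section ZBUNIP_007_7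

/-!
# UNIP MG-5, part 1: the CONCRETE setting of the final instantiation of `at_main_two`

`A` a valuation subring of `ℚ̄` over `q`, `K₁` a number field (Galois over `ℚ`) in `ℚ̄`.

* `mgcE A K₁  = beta0Field A ⊔ K₁`                     (`E′`, an intermediate field of `ℚ̄/ℚ`)
* `mgcA A K₁  = beta0Ring A (mgcE A K₁)`               (`A′ = A ∩ E′`, a `ValuationSubring ↥E′`)
* `mgcF A K₁ N = modularFunctionFieldFullC ↥E′ N`      (`F′ = F_N(E′)`)
* `mgcT A K₁ N = bgJ ↥E′ N`                            (the coordinate `j`)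
* `mgcGal N σ hσ = mgGal N (mgaRestrictEquiv E′ σ hσ) : SemilinearAut ↥E′ ↥F′`

## Instances (IMPORTANT)

For `E : IntermediateField ℚ ℚ̄` the instance problems `Algebra ↥E ↥F_N(E)`, `Module …`,
`Algebra ↥(A ∩ E) ↥F_N(E)`, … are SLOW (they time out at the default `synthInstance` limit:
the instances of `IntermediateField` for `↥E → ℚ̄ → X` are tried first).  This file registers
the instances found by Lean for a GENERIC field `K` (`mgcAlgGen`, …) at `K := ↥E` with high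
priority (`mgcInstAlgebra`, `mgcInstModule`, `mgcInstSMul`, `mgcInstAlgebraA`, `mgcInstSMulA`,
`mgcInstModuleA`, `mgcInstTower`).  So: NO `letI` is needed for the algebra structures of the
concrete setting, and every generic lemma applies verbatim at `K := ↥E`.

The hypotheses of `at_main_two` which do not depend on the special fibre:
`mgc_transcendental`, `mgc_finiteDimensional`, `mgc_hcl`, `mgc_smul_T`.
-/

set_option autoImplicit false
set_option linter.style.haveILetI false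
set_option linter.unusedSectionVars false
set_option linter.unusedVariables false

noncomputable section

namespace Fermat.Agent.UNIP

open ModularCurve AlgebraicCurve Fermat.Agent.ES Fermat.Agent.ES.G2 Fermat.Agent.INJ
open IntermediateField

/-! ### the generic instances, named -/

section Generic

variable (K : Type*) [Field K] (N : ℕ)

/-- the `K`-algebra structure of `F_N(K)` (the one Lean finds) -/
@[reducible] def mgcAlgGen : Algebra K ↥(modularFunctionFieldFullC K N) := inferInstance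

/-- the `K`-module structure of `F_N(K)` (the one Lean finds) -/
@[reducible] def mgcModGen : Module K ↥(modularFunctionFieldFullC K N) := inferInstance

/-- the scalar multiplication of `K` on `F_N(K)` (the one Lean finds) -/
@[reducible] def mgcSMulGen : SMul K ↥(modularFunctionFieldFullC K N) := inferInstance

variable {K}

/-- the `A′`-algebra structure of `F_N(K)`, `A′` a valuation subring of `K` -/
@[reducible] def mgcAlgAGen (A' : ValuationSubring K) :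
    Algebra ↥A' ↥(modularFunctionFieldFullC K N) := inferInstance

set_option synthInstance.maxHeartbeats 400000 in
/-- the `A′`-module structure of `F_N(K)` -/
@[reducible] def mgcModAGen (A' : ValuationSubring K) :
    Module ↥A' ↥(modularFunctionFieldFullC K N) := inferInstance

set_option synthInstance.maxHeartbeats 400000 in
/-- the scalar multiplication of `A′` on `F_N(K)` -/
@[reducible] def mgcSMulAGen (A' : ValuationSubring K) :
    SMul ↥A' ↥(modularFunctionFieldFullC K N) := inferInstance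

set_option synthInstance.maxHeartbeats 400000 in
theorem mgcTowerGen (A' : ValuationSubring K) :
    IsScalarTower ↥A' K ↥(modularFunctionFieldFullC K N) := inferInstance

theorem mgcAlgAGen_algebraMap (A' : ValuationSubring K) (a : ↥A') :
    algebraMap ↥A' ↥(modularFunctionFieldFullC K N) a
      = algebraMap K ↥(modularFunctionFieldFullC K N) (a : K) := rfl

end Generic

/-! ### the fast instances for intermediate fields of `ℚ̄ / ℚ` -/

section Inst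

variable (E : IntermediateField ℚ Qb) (N : ℕ)

instance (priority := 100000) mgcInstAlgebra :
    Algebra ↥E ↥(modularFunctionFieldFullC ↥E N) := mgcAlgGen ↥E N

instance (priority := 100000) mgcInstModule :
    Module ↥E ↥(modularFunctionFieldFullC ↥E N) := mgcModGen ↥E N

instance (priority := 100000) mgcInstSMul :
    SMul ↥E ↥(modularFunctionFieldFullC ↥E N) := mgcSMulGen ↥E N

variable {E}

instance (priority := 100000) mgcInstAlgebraA (A' : ValuationSubring ↥E) :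
    Algebra ↥A' ↥(modularFunctionFieldFullC ↥E N) := mgcAlgAGen N A'

instance (priority := 100000) mgcInstModuleA (A' : ValuationSubring ↥E) :
    Module ↥A' ↥(modularFunctionFieldFullC ↥E N) := mgcModAGen N A'

instance (priority := 100000) mgcInstSMulA (A' : ValuationSubring ↥E) :
    SMul ↥A' ↥(modularFunctionFieldFullC ↥E N) := mgcSMulAGen N A'

instance (priority := 100000) mgcInstTower (A' : ValuationSubring ↥E) :
    IsScalarTower ↥A' ↥E ↥(modularFunctionFieldFullC ↥E N) := mgcTowerGen N A'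

end Inst

section Concrete

variable (A : ValuationSubring Qb) (K₁ : IntermediateField ℚ Qb) (N : ℕ)

/-- `E′ = ℚ̄^I · K₁` -/
abbrev mgcE : IntermediateField ℚ Qb := beta0Field A ⊔ K₁

/-- `A′ = A ∩ E′` -/
abbrev mgcA : ValuationSubring ↥(mgcE A K₁) := beta0Ring A (mgcE A K₁)

/-- `F′ = F_N(E′)` -/
abbrev mgcF : IntermediateField ↥(mgcE A K₁) (LaurentSeries ↥(mgcE A K₁)) :=
  modularFunctionFieldFullC ↥(mgcE A K₁) N

/-- the coordinate `j` of `F′` -/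
def mgcT : ↥(mgcF A K₁ N) := bgJ ↥(mgcE A K₁) N

theorem mgcT_coe : ((mgcT A K₁ N : ↥(mgcF A K₁ N)) : LaurentSeries ↥(mgcE A K₁))
    = jqModC ↥(mgcE A K₁) := rfl

theorem mgc_transcendental : Transcendental ↥(mgcE A K₁) (mgcT A K₁ N) :=
  bgConst_transcendental_bgJ ↥(mgcE A K₁) N

theorem mgc_finiteDimensional [NeZero N] :
    FiniteDimensional (↥(mgcE A K₁))⟮mgcT A K₁ N⟯ ↥(mgcF A K₁ N) :=
  bgFin_finiteDimensional_full (E := ↥(mgcE A K₁)) (N := N)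

theorem mgc_hcl (x : ↥(mgcF A K₁ N)) (hx : IsAlgebraic ↥(mgcE A K₁) x) :
    x ∈ (algebraMap ↥(mgcE A K₁) ↥(mgcF A K₁ N)).range :=
  bgConst_mem_range_of_isAlgebraic (mgcF A K₁ N) x hx

variable {A K₁}

/-- the semilinear automorphism of `F′` induced by `σ` -/
def mgcGal (σ : Qb ≃ₐ[ℚ] Qb) (hσ : ∀ x ∈ mgcE A K₁, σ x ∈ mgcE A K₁) :
    SemilinearAut ↥(mgcE A K₁) ↥(mgcF A K₁ N) :=
  mgGal N (mgaRestrictEquiv (mgcE A K₁) σ hσ)

theorem mgcGal_smul (σ : Qb ≃ₐ[ℚ] Qb) (hσ : ∀ x ∈ mgcE A K₁, σ x ∈ mgcE A K₁)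
    (x : ↥(mgcF A K₁ N)) : mgcGal N σ hσ • x = mgAct (mgcE A K₁) N σ hσ x := rfl

/-- `σ̂ j = j` -/
theorem mgc_smul_T (σ : Qb ≃ₐ[ℚ] Qb) (hσ : ∀ x ∈ mgcE A K₁, σ x ∈ mgcE A K₁) :
    mgcGal N σ hσ • mgcT A K₁ N = mgcT A K₁ N := by
  rw [mgcGal_smul]
  apply Subtype.ext
  rw [mgAct_coe]
  exact coeffMap_jqModC _

/-- the conclusion of `at_main_two` is `mgDD` -/
theorem mgc_mgDD_eq (σ τ : Qb ≃ₐ[ℚ] Qb) (hσ : ∀ x ∈ mgcE A K₁, σ x ∈ mgcE A K₁)
    (hτ : ∀ x ∈ mgcE A K₁, τ x ∈ mgcE A K₁) (u : ↥(mgcF A K₁ N)) :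
    (mgcGal N τ hτ • (mgcGal N σ hσ • u / u)) / (mgcGal N σ hσ • u / u)
      = mgDD (mgcE A K₁) N σ τ hσ hτ u := rfl

end Concrete

end Fermat.Agent.UNIP

end
end ZBUNIP_007_7

/-! ### bundled: `Fermat.Agent.S33.WildHor` -/
section ZBUNIP_007_8
/-
S33 v2 — C4 WILD, piece T4 "WildHor" = step (H) of NOTES/S33-C4.md (helper92).

HORIZONTAL FACTORISATION at a closed point `𝔫` of the special fibre:
    `u = ε · G ^ p`,   `ε ∈ O_𝔫^×`,   `G ∈ F^×`.

Abstract setting (everything that T5 has to supply is a hypothesis of the lemmas below):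

* `F` a field (the function field), `O : Subring F` the local ring `B_𝔫` (`UNIP.ls_localSubring`);
* `ι` the set of horizontal places with centre in `𝔫` ("the tube"), `ord : ι → F → ℤ` their orders
  (`hmul` = `Place.ord_mul`);  a *tube-unit* is `z ≠ 0` with `ord j z = 0` for all `j`
  (`WhTubeUnit`);
* `V`, resp. `V₁`, `V₂` : the valuation rings of the vertical primes through `𝔫`;
* `π` : the uniformizer of the base (a tube-unit which generates the value group of `V`, resp. `V₂`);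
* coordinates `f_P` at the places of the support of `u` in the tube (`UNIP.unip_tubeOrd_node/disc`);
* Lemma U / normality of `O` (`UNIP.unip_unitCrit_unit`, `UNIP.unip_unitCrit_mem`);
* at a node: the *branch order* `w` (the order at `𝔫` of the residue of a `V₂`-unit on the branch
  `O/𝔭₂`) and a *winding generator* `X` (tube-unit, `V₂`-unit, `w X = 1`).

Main results
* `wh_tube_factor` : `u = u₀ · G₀ ^ p` with `u₀` a tube-unit.
* `wh_smooth`      : (H) at a point with one vertical component.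
* `wh_node`        : (H) at a node, in terms of an abstract branch order `w`.
* `whOrd`, `wh_node_of_winding` : the branch order constructed from a winding generator `X` with
  `X̄` a uniformizer of the branch `O/𝔭₂` (`hDVR`), and (H) at a node in these terms.
* `wh_branch_of_frac` : `hDVR` for all `V₂`-units from `hDVR` for the elements of `O`.
* `wh_smooth_one`, `wh_node_one`, `wh_node_of_winding_one` : the same for `u ≡ 1` at the vertical
  valuation (normal form (N)).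
* `wh_depth_input` : the output in the shape consumed by (D) (T2 WildDepth): `G⁻¹ ∈ V^×` and
  `ε / (G⁻¹) ^ p = u`.
-/

set_option autoImplicit false

namespace Fermat.Agent.S33

open Fermat.Agent.UNIP

/-! ### Units of a valuation ring -/

section ValUnit

variable {F : Type*} [Field F]

theorem wh_val_ne_zero (V : ValuationSubring F) {x : F} (hx : V.valuation x = 1) : x ≠ 0 := by
  intro h
  rw [h, map_zero] at hx
  exact zero_ne_one hx

theorem wh_val_mul (V : ValuationSubring F) {x y : F} (hx : V.valuation x = 1)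
    (hy : V.valuation y = 1) : V.valuation (x * y) = 1 := by
  rw [map_mul, hx, hy, one_mul]

theorem wh_val_inv (V : ValuationSubring F) {x : F} (hx : V.valuation x = 1) :
    V.valuation x⁻¹ = 1 := by
  rw [map_inv₀, hx, inv_one]

theorem wh_val_div (V : ValuationSubring F) {x y : F} (hx : V.valuation x = 1)
    (hy : V.valuation y = 1) : V.valuation (x / y) = 1 := by
  rw [map_div₀, hx, hy, div_one]

theorem wh_val_pow (V : ValuationSubring F) {x : F} (hx : V.valuation x = 1) (n : ℕ) :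
    V.valuation (x ^ n) = 1 := by
  rw [map_pow, hx, one_pow]

theorem wh_val_zpow (V : ValuationSubring F) {x : F} (hx : V.valuation x = 1) (n : ℤ) :
    V.valuation (x ^ n) = 1 := by
  rw [map_zpow₀, hx, one_zpow]

/-- A unit of a subring `O ⊆ V` is a unit of `V`. -/
theorem wh_val_of_unit (O : Subring F) (V : ValuationSubring F) (hOV : ∀ x ∈ O, x ∈ V)
    {x : F} (hx0 : x ≠ 0) (hx : x ∈ O) (hx' : x⁻¹ ∈ O) : V.valuation x = 1 := by
  have h1 : V.valuation x ≤ 1 := (V.valuation_le_one_iff x).mpr (hOV x hx)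
  have h2 : V.valuation x⁻¹ ≤ 1 := (V.valuation_le_one_iff x⁻¹).mpr (hOV _ hx')
  have h3 : V.valuation x ≠ 0 := (Valuation.ne_zero_iff _).mpr hx0
  rw [map_inv₀, inv_le_one₀ (zero_lt_iff.mpr h3)] at h2
  exact le_antisymm h1 h2

/-- `1 + 𝔪 ⊆ V^×`. -/
theorem wh_val_of_one (V : ValuationSubring F) {x : F} (hx : V.valuation (x - 1) < 1) :
    V.valuation x = 1 := by
  have h := Valuation.map_add_eq_of_lt_left V.valuation (x := 1) (y := x - 1)
    (by rw [map_one]; exact hx)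
  rw [map_one] at h
  rw [← h]
  congr 1
  ring

/-- `𝔪` is an ideal of `V`. -/
theorem wh_val_mul_lt (V : ValuationSubring F) {x y : F} (hx : V.valuation x ≤ 1)
    (hy : V.valuation y < 1) : V.valuation (x * y) < 1 := by
  rw [map_mul]
  calc V.valuation x * V.valuation y ≤ 1 * V.valuation y := by gcongr
    _ = V.valuation y := one_mul _
    _ < 1 := hy

theorem wh_val_add_lt (V : ValuationSubring F) {x y : F} (hx : V.valuation x < 1)
    (hy : V.valuation y < 1) : V.valuation (x + y) < 1 :=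
  lt_of_le_of_lt (V.valuation.map_add x y) (max_lt hx hy)

theorem wh_val_sub_lt (V : ValuationSubring F) {x y : F} (hx : V.valuation x < 1)
    (hy : V.valuation y < 1) : V.valuation (x - y) < 1 :=
  lt_of_le_of_lt (V.valuation.map_sub x y) (max_lt hx hy)

/-- If `x ^ p` is a unit of `V` (`p ≠ 0`), so is `x`. -/
theorem wh_val_of_pow (V : ValuationSubring F) {x : F} {p : ℕ} (hp : p ≠ 0)
    (hx : V.valuation (x ^ p) = 1) : V.valuation x = 1 := by
  rw [map_pow] at hx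
  exact (pow_eq_one_iff_of_nonneg zero_le hp).mp hx

end ValUnit

/-! ### The tube -/

section Tube

variable {F : Type*} [Field F] {ι : Type*}

/-- `z` is a *tube-unit*: `z ≠ 0` has order `0` at every (horizontal) place of the tube. -/
def WhTubeUnit (ord : ι → F → ℤ) (z : F) : Prop :=
  z ≠ 0 ∧ ∀ j, ord j z = 0

theorem WhTubeUnit.mul {ord : ι → F → ℤ}
    (hmul : ∀ i x y, x ≠ 0 → y ≠ 0 → ord i (x * y) = ord i x + ord i y) {x y : F}
    (hx : WhTubeUnit ord x) (hy : WhTubeUnit ord y) : WhTubeUnit ord (x * y) :=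
  ⟨mul_ne_zero hx.1 hy.1, fun j => by rw [hmul j x y hx.1 hy.1, hx.2 j, hy.2 j, add_zero]⟩

theorem WhTubeUnit.inv {ord : ι → F → ℤ}
    (hmul : ∀ i x y, x ≠ 0 → y ≠ 0 → ord i (x * y) = ord i x + ord i y) {x : F}
    (hx : WhTubeUnit ord x) : WhTubeUnit ord x⁻¹ :=
  ⟨inv_ne_zero hx.1, fun j => by rw [ls_ord_inv ord hmul j hx.1, hx.2 j, neg_zero]⟩

theorem WhTubeUnit.div {ord : ι → F → ℤ}
    (hmul : ∀ i x y, x ≠ 0 → y ≠ 0 → ord i (x * y) = ord i x + ord i y) {x y : F}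
    (hx : WhTubeUnit ord x) (hy : WhTubeUnit ord y) : WhTubeUnit ord (x / y) := by
  rw [div_eq_mul_inv]
  exact hx.mul hmul (hy.inv hmul)

theorem WhTubeUnit.pow {ord : ι → F → ℤ}
    (hmul : ∀ i x y, x ≠ 0 → y ≠ 0 → ord i (x * y) = ord i x + ord i y) {x : F}
    (hx : WhTubeUnit ord x) (n : ℕ) : WhTubeUnit ord (x ^ n) :=
  ⟨pow_ne_zero n hx.1, fun j => by rw [ls_ord_pow ord hmul j hx.1, hx.2 j, mul_zero]⟩

theorem WhTubeUnit.zpow {ord : ι → F → ℤ}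
    (hmul : ∀ i x y, x ≠ 0 → y ≠ 0 → ord i (x * y) = ord i x + ord i y) {x : F}
    (hx : WhTubeUnit ord x) (n : ℤ) : WhTubeUnit ord (x ^ n) :=
  ⟨zpow_ne_zero n hx.1, fun j => by rw [ls_ord_zpow ord hmul j hx.1, hx.2 j, mul_zero]⟩

/-- **(H), bookkeeping in the tube.**  If `p ∣ ord_P u` at every place `P` of the tube and every
place of the support of `u` in the tube has a coordinate function, then `u = u₀ · G₀ ^ p` with
`u₀` a tube-unit. -/
theorem wh_tube_factor (ord : ι → F → ℤ)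
    (hmul : ∀ i x y, x ≠ 0 → y ≠ 0 → ord i (x * y) = ord i x + ord i y)
    {u : F} (hu : u ≠ 0) (p : ℕ)
    (hfin : {i | ord i u ≠ 0}.Finite)
    (hp : ∀ i, (p : ℤ) ∣ ord i u)
    (hcoord : ∀ i, ord i u ≠ 0 → ∃ f : F, f ≠ 0 ∧ ord i f = 1 ∧ ∀ j, j ≠ i → ord j f = 0) :
    ∃ G₀ : F, G₀ ≠ 0 ∧ WhTubeUnit ord (u / G₀ ^ p) := by
  classical
  have hc : ∀ i : ι, ∃ f : F, f ≠ 0 ∧
      (ord i u ≠ 0 → ∀ j, ord j f = if j = i then 1 else 0) := by
    intro i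
    by_cases h1 : ord i u ≠ 0
    · obtain ⟨f, hf0, hf1, hf⟩ := hcoord i h1
      refine ⟨f, hf0, fun _ j => ?_⟩
      by_cases hji : j = i
      · rw [if_pos hji, hji]; exact hf1
      · rw [if_neg hji]; exact hf j hji
    · exact ⟨1, one_ne_zero, fun h2 => absurd h2 h1⟩
  choose f hf0 hf using hc
  set S : Finset ι := hfin.toFinset with hS
  have hmemS : ∀ i, i ∈ S ↔ ord i u ≠ 0 := fun i => by
    rw [hS, Set.Finite.mem_toFinset]; rfl
  set n : ι → ℤ := fun i => ord i u / (p : ℤ) with hn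
  have hmn : ∀ i, (p : ℤ) * n i = ord i u := fun i => Int.mul_ediv_cancel' (hp i)
  set G₀ : F := ∏ i ∈ S, f i ^ n i with hG₀
  have hG₀0 : G₀ ≠ 0 := Finset.prod_ne_zero_iff.mpr fun i _ => zpow_ne_zero _ (hf0 i)
  have hordg : ∀ j, (p : ℤ) * ord j G₀ = ord j u := by
    intro j
    rw [hG₀, ls_ord_prod ord hmul j S _ (fun i _ => zpow_ne_zero _ (hf0 i))]
    have h1 : ∀ i ∈ S, ord j (f i ^ n i) = if j = i then n i else 0 := by
      intro i hi
      rw [ls_ord_zpow ord hmul j (hf0 i), hf i ((hmemS i).mp hi) j]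
      split_ifs <;> simp
    rw [Finset.sum_congr rfl h1, Finset.sum_ite_eq S j]
    by_cases hjS : j ∈ S
    · rw [if_pos hjS, hmn j]
    · rw [if_neg hjS, mul_zero]
      by_contra hne
      exact hjS ((hmemS j).mpr fun h0 => hne h0.symm)
  refine ⟨G₀, hG₀0, div_ne_zero hu (pow_ne_zero _ hG₀0), fun j => ?_⟩
  rw [ls_ord_div ord hmul j hu (pow_ne_zero _ hG₀0), ls_ord_pow ord hmul j hG₀0, hordg j,
    sub_self]

/-- **(H), normalisation at a vertical valuation.**  `u = u₀ · G₀ ^ p` with `u₀` a tube-unit, and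
`h ≠ 0`.  Then `u = u₁ · G₁ ^ p` with `u₁` a tube-unit and `u₁ = (u / h ^ p) · y ^ p` with `y` a
unit of `V` (so `u₁` is a unit of `V` as soon as `u / h ^ p` is). -/
theorem wh_vert_normalise (ord : ι → F → ℤ)
    (hmul : ∀ i x y, x ≠ 0 → y ≠ 0 → ord i (x * y) = ord i x + ord i y)
    (V : ValuationSubring F) {π : F} (hπ : WhTubeUnit ord π)
    (hπV : ∀ z : F, z ≠ 0 → ∃ k : ℤ, V.valuation (z / π ^ k) = 1)
    {u : F} (hu : u ≠ 0) (p : ℕ) {G₀ : F} (hG₀ : G₀ ≠ 0) (hu₀ : WhTubeUnit ord (u / G₀ ^ p))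
    {h : F} (hh : h ≠ 0) :
    ∃ G₁ y : F, G₁ ≠ 0 ∧ WhTubeUnit ord (u / G₁ ^ p) ∧ V.valuation y = 1 ∧
      u / G₁ ^ p = u / h ^ p * y ^ p := by
  obtain ⟨k, hk⟩ := hπV (h / G₀) (div_ne_zero hh hG₀)
  have hπ0 : π ≠ 0 := hπ.1
  have hπk : π ^ k ≠ 0 := zpow_ne_zero k hπ0
  refine ⟨G₀ * π ^ k, h / G₀ / π ^ k, mul_ne_zero hG₀ hπk, ?_, hk, ?_⟩
  · have e : u / (G₀ * π ^ k) ^ p = u / G₀ ^ p / (π ^ k) ^ p := by
      rw [mul_pow, div_div]
    rw [e]
    exact hu₀.div hmul ((hπ.zpow hmul k).pow hmul p)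
  · have h1 : h ^ p ≠ 0 := pow_ne_zero p hh
    have h2 : G₀ ^ p ≠ 0 := pow_ne_zero p hG₀
    have h3 : (π ^ k) ^ p ≠ 0 := pow_ne_zero p hπk
    rw [mul_pow, div_pow, div_pow]
    field_simp

end Tube

/-! ### (H) at a smooth point -/

section Smooth

variable {F : Type*} [Field F] {ι : Type*}

/-- **(H) at a point with ONE vertical component.**  `O = B_𝔫`, `V` the valuation ring of the
vertical prime through `𝔫`, `π` the uniformizer of the base.
`hU` = Lemma U (`UNIP.unip_unitCrit_unit`); `hcoord` = `UNIP.unip_tubeOrd_disc`;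
`hsplit` : `u ∈ V^× · F^{×p}` (e.g. `u` split at `V`, or `u ≡ 1` at `V`). -/
theorem wh_smooth (ord : ι → F → ℤ)
    (hmul : ∀ i x y, x ≠ 0 → y ≠ 0 → ord i (x * y) = ord i x + ord i y)
    (O : Subring F) (V : ValuationSubring F)
    (hU : ∀ z : F, WhTubeUnit ord z → V.valuation z = 1 → z ∈ O ∧ z⁻¹ ∈ O)
    {π : F} (hπ : WhTubeUnit ord π)
    (hπV : ∀ z : F, z ≠ 0 → ∃ k : ℤ, V.valuation (z / π ^ k) = 1)
    {u : F} (hu : u ≠ 0) (p : ℕ)
    (hfin : {i | ord i u ≠ 0}.Finite)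
    (hp : ∀ i, (p : ℤ) ∣ ord i u)
    (hcoord : ∀ i, ord i u ≠ 0 → ∃ f : F, f ≠ 0 ∧ ord i f = 1 ∧ ∀ j, j ≠ i → ord j f = 0)
    (hsplit : ∃ h : F, h ≠ 0 ∧ V.valuation (u / h ^ p) = 1) :
    ∃ G ε : F, G ≠ 0 ∧ ε ≠ 0 ∧ ε ∈ O ∧ ε⁻¹ ∈ O ∧ u = ε * G ^ p := by
  obtain ⟨G₀, hG₀, hu₀⟩ := wh_tube_factor ord hmul hu p hfin hp hcoord
  obtain ⟨h, hh, hV⟩ := hsplit
  obtain ⟨G₁, y, hG₁, hu₁, hy, e⟩ := wh_vert_normalise ord hmul V hπ hπV hu p hG₀ hu₀ hh
  have hV₁ : V.valuation (u / G₁ ^ p) = 1 := by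
    rw [e]
    exact wh_val_mul V hV (wh_val_pow V hy p)
  obtain ⟨h1, h2⟩ := hU _ hu₁ hV₁
  refine ⟨G₁, u / G₁ ^ p, hG₁, hu₁.1, h1, h2, ?_⟩
  rw [div_mul_cancel₀ _ (pow_ne_zero p hG₁)]

/-- `wh_smooth` for `u ≡ 1` at `V` (normal form (N)). -/
theorem wh_smooth_one (ord : ι → F → ℤ)
    (hmul : ∀ i x y, x ≠ 0 → y ≠ 0 → ord i (x * y) = ord i x + ord i y)
    (O : Subring F) (V : ValuationSubring F)
    (hU : ∀ z : F, WhTubeUnit ord z → V.valuation z = 1 → z ∈ O ∧ z⁻¹ ∈ O)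
    {π : F} (hπ : WhTubeUnit ord π)
    (hπV : ∀ z : F, z ≠ 0 → ∃ k : ℤ, V.valuation (z / π ^ k) = 1)
    {u : F} (p : ℕ)
    (hfin : {i | ord i u ≠ 0}.Finite)
    (hp : ∀ i, (p : ℤ) ∣ ord i u)
    (hcoord : ∀ i, ord i u ≠ 0 → ∃ f : F, f ≠ 0 ∧ ord i f = 1 ∧ ∀ j, j ≠ i → ord j f = 0)
    (hone : V.valuation (u - 1) < 1) :
    ∃ G ε : F, G ≠ 0 ∧ ε ≠ 0 ∧ ε ∈ O ∧ ε⁻¹ ∈ O ∧ u = ε * G ^ p := by
  have hV : V.valuation u = 1 := wh_val_of_one V hone
  exact wh_smooth ord hmul O V hU hπ hπV (wh_val_ne_zero V hV) p hfin hp hcoord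
    ⟨1, one_ne_zero, by rw [one_pow, div_one]; exact hV⟩

end Smooth

/-! ### (H) at a node, with an abstract branch order -/

section Node

variable {F : Type*} [Field F] {ι : Type*}

theorem wh_w_one (V₂ : ValuationSubring F) (w : F → ℤ)
    (hw1 : ∀ x y : F, V₂.valuation x = 1 → V₂.valuation y = 1 → w (x * y) = w x + w y) :
    w 1 = 0 := by
  have h := hw1 1 1 (map_one _) (map_one _)
  rw [mul_one] at h
  linarith

theorem wh_w_inv (V₂ : ValuationSubring F) (w : F → ℤ)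
    (hw1 : ∀ x y : F, V₂.valuation x = 1 → V₂.valuation y = 1 → w (x * y) = w x + w y)
    {x : F} (hx : V₂.valuation x = 1) : w x⁻¹ = -w x := by
  have h := hw1 x x⁻¹ hx (wh_val_inv V₂ hx)
  rw [mul_inv_cancel₀ (wh_val_ne_zero V₂ hx), wh_w_one V₂ w hw1] at h
  linarith

theorem wh_w_pow (V₂ : ValuationSubring F) (w : F → ℤ)
    (hw1 : ∀ x y : F, V₂.valuation x = 1 → V₂.valuation y = 1 → w (x * y) = w x + w y)
    {x : F} (hx : V₂.valuation x = 1) (n : ℕ) : w (x ^ n) = n * w x := by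
  induction n with
  | zero => simp [wh_w_one V₂ w hw1]
  | succ n ih =>
    rw [pow_succ, hw1 _ _ (wh_val_pow V₂ hx n) hx, ih]
    push_cast
    ring

theorem wh_w_zpow (V₂ : ValuationSubring F) (w : F → ℤ)
    (hw1 : ∀ x y : F, V₂.valuation x = 1 → V₂.valuation y = 1 → w (x * y) = w x + w y)
    {x : F} (hx : V₂.valuation x = 1) (n : ℤ) : w (x ^ n) = n * w x := by
  obtain ⟨k, rfl | rfl⟩ := n.eq_nat_or_neg
  · rw [zpow_natCast, wh_w_pow V₂ w hw1 hx]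
  · rw [zpow_neg, zpow_natCast, wh_w_inv V₂ w hw1 (wh_val_pow V₂ hx k), wh_w_pow V₂ w hw1 hx]
    ring

/-- **One-sided Lemma U at a node.**  `z` a tube-unit and a unit of `V₂` whose residue on the
branch `O/𝔭₂` has order `0` at `𝔫`.  Then `z ∈ O^×`  (no hypothesis on `V₁`!).
`hN` = normality of `O` (`UNIP.unip_unitCrit_mem`), `hw3` = the branch order is `≥ 0` on `O` and
`= 0` only on units. -/
theorem wh_node_unit (ord : ι → F → ℤ)
    (hmul : ∀ i x y, x ≠ 0 → y ≠ 0 → ord i (x * y) = ord i x + ord i y)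
    (O : Subring F) (V₁ V₂ : ValuationSubring F)
    (hN : ∀ z : F, z ≠ 0 → (∀ j, 0 ≤ ord j z) → z ∈ V₁ → z ∈ V₂ → z ∈ O)
    (w : F → ℤ)
    (hw1 : ∀ x y : F, V₂.valuation x = 1 → V₂.valuation y = 1 → w (x * y) = w x + w y)
    (hw3 : ∀ z : F, z ∈ O → V₂.valuation z = 1 → w z = 0 → z⁻¹ ∈ O)
    {z : F} (hz : WhTubeUnit ord z) (hz₂ : V₂.valuation z = 1) (hwz : w z = 0) :
    z ∈ O ∧ z⁻¹ ∈ O := by
  have key : ∀ x : F, WhTubeUnit ord x → V₂.valuation x = 1 → w x = 0 → x ∈ V₁ →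
      x ∈ O ∧ x⁻¹ ∈ O := by
    intro x hx hx₂ hwx hx₁
    have h1 : x ∈ O := hN x hx.1 (fun j => (hx.2 j).ge) hx₁
      ((V₂.valuation_le_one_iff x).mp hx₂.le)
    exact ⟨h1, hw3 x h1 hx₂ hwx⟩
  rcases V₁.mem_or_inv_mem z with h | h
  · exact key z hz hz₂ hwz h
  · have := key z⁻¹ (hz.inv hmul) (wh_val_inv V₂ hz₂)
      (by rw [wh_w_inv V₂ w hw1 hz₂, hwz, neg_zero]) h
    rw [inv_inv] at this
    exact ⟨this.2, this.1⟩

/-- **(H) at a node.**  `O = B_𝔫`, `V₁`, `V₂` the valuation rings of the two vertical primes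
through `𝔫`, `π` the uniformizer of the base, `w` the branch order on `O/𝔭₂`, `X` a winding
generator.  `hsplit` : `u ∈ V₂^× · F^{×p}` with a residue on the branch of order divisible by `p`
(e.g. `u = c · h ^ p · (1 + z)` with `c ∈ O^×`, `z ∈ 𝔪_{V₂}`: `wh_split_of_const`).
Only the branch `𝔭₂` is used. -/
theorem wh_node (ord : ι → F → ℤ)
    (hmul : ∀ i x y, x ≠ 0 → y ≠ 0 → ord i (x * y) = ord i x + ord i y)
    (O : Subring F) (V₁ V₂ : ValuationSubring F)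
    (hN : ∀ z : F, z ≠ 0 → (∀ j, 0 ≤ ord j z) → z ∈ V₁ → z ∈ V₂ → z ∈ O)
    {π : F} (hπ : WhTubeUnit ord π)
    (hπV : ∀ z : F, z ≠ 0 → ∃ k : ℤ, V₂.valuation (z / π ^ k) = 1)
    (w : F → ℤ)
    (hw1 : ∀ x y : F, V₂.valuation x = 1 → V₂.valuation y = 1 → w (x * y) = w x + w y)
    (hw3 : ∀ z : F, z ∈ O → V₂.valuation z = 1 → w z = 0 → z⁻¹ ∈ O)
    {X : F} (hX : WhTubeUnit ord X) (hX₂ : V₂.valuation X = 1) (hwX : w X = 1)
    {u : F} (hu : u ≠ 0) (p : ℕ)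
    (hfin : {i | ord i u ≠ 0}.Finite)
    (hp : ∀ i, (p : ℤ) ∣ ord i u)
    (hcoord : ∀ i, ord i u ≠ 0 → ∃ f : F, f ≠ 0 ∧ ord i f = 1 ∧ ∀ j, j ≠ i → ord j f = 0)
    (hsplit : ∃ h : F, h ≠ 0 ∧ V₂.valuation (u / h ^ p) = 1 ∧ (p : ℤ) ∣ w (u / h ^ p)) :
    ∃ G ε : F, G ≠ 0 ∧ ε ≠ 0 ∧ ε ∈ O ∧ ε⁻¹ ∈ O ∧ u = ε * G ^ p := by
  obtain ⟨G₀, hG₀, hu₀⟩ := wh_tube_factor ord hmul hu p hfin hp hcoord
  obtain ⟨h, hh, hV, a₀, ha₀⟩ := hsplit
  obtain ⟨G₁, y, hG₁, hu₁, hy, e⟩ := wh_vert_normalise ord hmul V₂ hπ hπV hu p hG₀ hu₀ hh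
  have hV₁ : V₂.valuation (u / G₁ ^ p) = 1 := by
    rw [e]
    exact wh_val_mul V₂ hV (wh_val_pow V₂ hy p)
  -- the branch order of `u₁ := u / G₁ ^ p` is `p * a`
  set a : ℤ := a₀ + w y with ha
  have hwu₁ : w (u / G₁ ^ p) = p * a := by
    rw [e, hw1 _ _ hV (wh_val_pow V₂ hy p), ha₀, wh_w_pow V₂ w hw1 hy, ha]
    ring
  -- `z := u₁ / (X ^ a) ^ p`
  have hXa : WhTubeUnit ord (X ^ a) := hX.zpow hmul a
  have hXa₂ : V₂.valuation (X ^ a) = 1 := wh_val_zpow V₂ hX₂ a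
  have hz : WhTubeUnit ord (u / G₁ ^ p / (X ^ a) ^ p) := hu₁.div hmul (hXa.pow hmul p)
  have hz₂ : V₂.valuation (u / G₁ ^ p / (X ^ a) ^ p) = 1 :=
    wh_val_div V₂ hV₁ (wh_val_pow V₂ hXa₂ p)
  have hwz : w (u / G₁ ^ p / (X ^ a) ^ p) = 0 := by
    rw [div_eq_mul_inv, hw1 _ _ hV₁ (wh_val_inv V₂ (wh_val_pow V₂ hXa₂ p)),
      wh_w_inv V₂ w hw1 (wh_val_pow V₂ hXa₂ p), wh_w_pow V₂ w hw1 hXa₂,
      wh_w_zpow V₂ w hw1 hX₂, hwX, hwu₁]
    ring
  obtain ⟨h1, h2⟩ := wh_node_unit ord hmul O V₁ V₂ hN w hw1 hw3 hz hz₂ hwz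
  refine ⟨G₁ * X ^ a, _, mul_ne_zero hG₁ hXa.1, hz.1, h1, h2, ?_⟩
  rw [mul_pow, div_div, div_mul_cancel₀ _ (mul_ne_zero (pow_ne_zero p hG₁)
    (pow_ne_zero p hXa.1))]

/-- The hypothesis `hsplit` of `wh_node` for `u = c · h ^ p · (1 + z)`, `c ∈ O^×`, `z ∈ 𝔪_{V₂}`.
`hw2` : the branch order only depends on the residue; `hw0` : it vanishes on `O^×`. -/
theorem wh_split_of_const (O : Subring F) (V₂ : ValuationSubring F) (hOV₂ : ∀ x ∈ O, x ∈ V₂)
    (w : F → ℤ)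
    (hw1 : ∀ x y : F, V₂.valuation x = 1 → V₂.valuation y = 1 → w (x * y) = w x + w y)
    (hw2 : ∀ x : F, V₂.valuation (x - 1) < 1 → w x = 0)
    (hw0 : ∀ x : F, x ≠ 0 → x ∈ O → x⁻¹ ∈ O → w x = 0)
    {u : F} (p : ℕ) {c h : F} (hc0 : c ≠ 0) (hc : c ∈ O) (hc' : c⁻¹ ∈ O) (hh : h ≠ 0)
    (hone : V₂.valuation (u / (c * h ^ p) - 1) < 1) :
    ∃ h : F, h ≠ 0 ∧ V₂.valuation (u / h ^ p) = 1 ∧ (p : ℤ) ∣ w (u / h ^ p) := by
  have hcV : V₂.valuation c = 1 := wh_val_of_unit O V₂ hOV₂ hc0 hc hc'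
  have h1 : V₂.valuation (u / (c * h ^ p)) = 1 := wh_val_of_one V₂ hone
  have e : u / h ^ p = c * (u / (c * h ^ p)) := by
    have := pow_ne_zero p hh
    field_simp
  refine ⟨h, hh, ?_, ?_⟩
  · rw [e]
    exact wh_val_mul V₂ hcV h1
  · rw [e, hw1 _ _ hcV h1, hw0 c hc0 hc hc', hw2 _ hone, add_zero]
    exact dvd_zero _

/-- `wh_node` for `u ≡ 1` at `V₂` (normal form (N)). -/
theorem wh_node_one (ord : ι → F → ℤ)
    (hmul : ∀ i x y, x ≠ 0 → y ≠ 0 → ord i (x * y) = ord i x + ord i y)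
    (O : Subring F) (V₁ V₂ : ValuationSubring F)
    (hN : ∀ z : F, z ≠ 0 → (∀ j, 0 ≤ ord j z) → z ∈ V₁ → z ∈ V₂ → z ∈ O)
    {π : F} (hπ : WhTubeUnit ord π)
    (hπV : ∀ z : F, z ≠ 0 → ∃ k : ℤ, V₂.valuation (z / π ^ k) = 1)
    (w : F → ℤ)
    (hw1 : ∀ x y : F, V₂.valuation x = 1 → V₂.valuation y = 1 → w (x * y) = w x + w y)
    (hw2 : ∀ x : F, V₂.valuation (x - 1) < 1 → w x = 0)
    (hw3 : ∀ z : F, z ∈ O → V₂.valuation z = 1 → w z = 0 → z⁻¹ ∈ O)
    {X : F} (hX : WhTubeUnit ord X) (hX₂ : V₂.valuation X = 1) (hwX : w X = 1)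
    {u : F} (p : ℕ)
    (hfin : {i | ord i u ≠ 0}.Finite)
    (hp : ∀ i, (p : ℤ) ∣ ord i u)
    (hcoord : ∀ i, ord i u ≠ 0 → ∃ f : F, f ≠ 0 ∧ ord i f = 1 ∧ ∀ j, j ≠ i → ord j f = 0)
    (hone : V₂.valuation (u - 1) < 1) :
    ∃ G ε : F, G ≠ 0 ∧ ε ≠ 0 ∧ ε ∈ O ∧ ε⁻¹ ∈ O ∧ u = ε * G ^ p := by
  have hV : V₂.valuation u = 1 := wh_val_of_one V₂ hone
  refine wh_node ord hmul O V₁ V₂ hN hπ hπV w hw1 hw3 hX hX₂ hwX (wh_val_ne_zero V₂ hV) p hfin hp
    hcoord ⟨1, one_ne_zero, ?_, ?_⟩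
  · rw [one_pow, div_one]; exact hV
  · rw [one_pow, div_one, hw2 u hone]
    exact dvd_zero _

end Node

/-! ### The branch order constructed from a winding generator -/

section Winding

variable {F : Type*} [Field F]

/-- `z ≡ X ^ m · η` modulo `𝔪_{V₂}` with `η ∈ O^×`: the residue of `z` on the branch `O/𝔭₂` is
`X̄ ^ m` times a unit. -/
def WhBranch (O : Subring F) (V₂ : ValuationSubring F) (X z : F) (m : ℤ) : Prop :=
  ∃ η : F, η ≠ 0 ∧ η ∈ O ∧ η⁻¹ ∈ O ∧ V₂.valuation (z - X ^ m * η) < 1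

/-- **Winding generator.**  `O = B_𝔫 ⊆ V₂ = B_{𝔭₂}`; `X ∈ 𝔪_O`, `X ∉ 𝔭₂`; `𝔭₂ O ⊆ 𝔪_O` (`rad`);
the residue of every unit of `V₂` on the branch `O/𝔭₂` is `X̄ ^ m · unit` (`dvr`: the branch is a
discrete valuation ring with uniformizer `X̄`). -/
structure WhWinding (O : Subring F) (V₂ : ValuationSubring F) (X : F) : Prop where
  le : ∀ x ∈ O, x ∈ V₂
  mem : X ∈ O
  not_unit : X⁻¹ ∉ O
  val : V₂.valuation X = 1
  rad : ∀ y ∈ O, V₂.valuation (y - 1) < 1 → y⁻¹ ∈ O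
  dvr : ∀ z : F, V₂.valuation z = 1 → ∃ m : ℤ, WhBranch O V₂ X z m

/-- The branch order attached to a winding generator. -/
noncomputable def whOrd (O : Subring F) (V₂ : ValuationSubring F) (X z : F) : ℤ :=
  open Classical in if h : ∃ m : ℤ, WhBranch O V₂ X z m then h.choose else 0

variable {O : Subring F} {V₂ : ValuationSubring F} {X : F}

theorem WhWinding.val_unit (hW : WhWinding O V₂ X) {η : F} (h0 : η ≠ 0) (h1 : η ∈ O)
    (h2 : η⁻¹ ∈ O) : V₂.valuation η = 1 :=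
  wh_val_of_unit O V₂ hW.le h0 h1 h2

theorem WhWinding.val_le (hW : WhWinding O V₂ X) {x : F} (hx : x ∈ O) : V₂.valuation x ≤ 1 :=
  (V₂.valuation_le_one_iff x).mpr (hW.le x hx)

/-- an element of `O` congruent to a unit of `O` modulo `𝔪_{V₂}` is a unit of `O`. -/
theorem WhWinding.rad' (hW : WhWinding O V₂ X) {y e : F} (hy : y ∈ O) (he0 : e ≠ 0)
    (he' : e⁻¹ ∈ O) (h : V₂.valuation (y - e) < 1) : y⁻¹ ∈ O := by
  have h1 : V₂.valuation (y * e⁻¹ - 1) < 1 := by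
    have e1 : y * e⁻¹ - 1 = e⁻¹ * (y - e) := by field_simp
    rw [e1]
    exact wh_val_mul_lt V₂ (hW.val_le he') h
  have h2 := hW.rad (y * e⁻¹) (O.mul_mem hy he') h1
  have e2 : y⁻¹ = e⁻¹ * (y * e⁻¹)⁻¹ := by
    rw [mul_inv, inv_inv, ← mul_assoc, mul_comm e⁻¹ y⁻¹, mul_assoc, inv_mul_cancel₀ he0,
      mul_one]
  rw [e2]
  exact O.mul_mem he' h2

/-- `X ^ (k + 1) · a` is not a unit of `O`. -/
theorem WhWinding.pow_not_unit (hW : WhWinding O V₂ X) (k : ℕ) {a : F} (ha : a ∈ O)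
    (h0 : X ^ (k + 1) * a ≠ 0) (h : (X ^ (k + 1) * a)⁻¹ ∈ O) : False := by
  apply hW.not_unit
  have hX0 : X ≠ 0 := wh_val_ne_zero V₂ hW.val
  have e : X⁻¹ = X ^ k * a * (X ^ (k + 1) * a)⁻¹ := by
    have ha0 : a ≠ 0 := right_ne_zero_of_mul h0
    rw [pow_succ]
    field_simp
  rw [e]
  exact O.mul_mem (O.mul_mem (O.pow_mem hW.mem k) ha) h

theorem WhBranch.val_eq (hW : WhWinding O V₂ X) {z : F} {m : ℤ} (h : WhBranch O V₂ X z m) :
    V₂.valuation z = 1 := by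
  obtain ⟨η, h0, h1, h2, h3⟩ := h
  have h4 : V₂.valuation (X ^ m * η) = 1 :=
    wh_val_mul V₂ (wh_val_zpow V₂ hW.val m) (hW.val_unit h0 h1 h2)
  have h5 := Valuation.map_add_eq_of_lt_left V₂.valuation (x := X ^ m * η)
    (y := z - X ^ m * η) (by rw [h4]; exact h3)
  rw [h4] at h5
  rw [← h5]
  congr 1
  ring

theorem WhBranch.mul (hW : WhWinding O V₂ X) {z z' : F} {m m' : ℤ}
    (h : WhBranch O V₂ X z m) (h' : WhBranch O V₂ X z' m') :
    WhBranch O V₂ X (z * z') (m + m') := by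
  have hz : V₂.valuation z = 1 := h.val_eq hW
  obtain ⟨η, h0, h1, h2, h3⟩ := h
  obtain ⟨η', h0', h1', h2', h3'⟩ := h'
  have hX0 : X ≠ 0 := wh_val_ne_zero V₂ hW.val
  refine ⟨η * η', mul_ne_zero h0 h0', O.mul_mem h1 h1', ?_, ?_⟩
  · rw [mul_inv]
    exact O.mul_mem h2 h2'
  · have e : z * z' - X ^ (m + m') * (η * η')
        = z * (z' - X ^ m' * η') + X ^ m' * η' * (z - X ^ m * η) := by
      rw [zpow_add₀ hX0]
      ring
    rw [e]
    refine wh_val_add_lt V₂ (wh_val_mul_lt V₂ hz.le h3') (wh_val_mul_lt V₂ ?_ h3)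
    exact (wh_val_mul V₂ (wh_val_zpow V₂ hW.val m') (hW.val_unit h0' h1' h2')).le

theorem WhBranch.inv (hW : WhWinding O V₂ X) {z : F} {m : ℤ}
    (h : WhBranch O V₂ X z m) : WhBranch O V₂ X z⁻¹ (-m) := by
  have hz : V₂.valuation z = 1 := h.val_eq hW
  obtain ⟨η, h0, h1, h2, h3⟩ := h
  have hX0 : X ≠ 0 := wh_val_ne_zero V₂ hW.val
  have hz0 : z ≠ 0 := wh_val_ne_zero V₂ hz
  have hXm : X ^ m ≠ 0 := zpow_ne_zero m hX0
  refine ⟨η⁻¹, inv_ne_zero h0, h2, by rw [inv_inv]; exact h1, ?_⟩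
  have e : z⁻¹ - X ^ (-m) * η⁻¹ = -(z⁻¹ * (X ^ m * η)⁻¹) * (z - X ^ m * η) := by
    rw [zpow_neg]
    field_simp
    ring
  rw [e]
  refine wh_val_mul_lt V₂ ?_ h3
  rw [Valuation.map_neg]
  exact (wh_val_mul V₂ (wh_val_inv V₂ hz) (wh_val_inv V₂
    (wh_val_mul V₂ (wh_val_zpow V₂ hW.val m) (hW.val_unit h0 h1 h2)))).le

theorem WhBranch.of_one {z : F} (h : V₂.valuation (z - 1) < 1) :
    WhBranch O V₂ X z 0 :=
  ⟨1, one_ne_zero, O.one_mem, by rw [inv_one]; exact O.one_mem, by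
    rw [zpow_zero, one_mul]; exact h⟩

theorem WhBranch.of_unit {z : F} (h0 : z ≠ 0) (h1 : z ∈ O)
    (h2 : z⁻¹ ∈ O) : WhBranch O V₂ X z 0 :=
  ⟨z, h0, h1, h2, by
    rw [zpow_zero, one_mul, sub_self, map_zero]; exact zero_lt_one⟩

theorem WhBranch.self : WhBranch O V₂ X X 1 :=
  ⟨1, one_ne_zero, O.one_mem, by rw [inv_one]; exact O.one_mem, by
    rw [zpow_one, mul_one, sub_self, map_zero]; exact zero_lt_one⟩

/-- `z ≡ X ^ (k + 1) · η` and `z ≡ η'` is impossible. -/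
theorem WhBranch.not_pos (hW : WhWinding O V₂ X) {z : F} {k : ℕ}
    (h : WhBranch O V₂ X z ((k : ℤ) + 1)) (h' : WhBranch O V₂ X z 0) : False := by
  obtain ⟨η, h0, h1, h2, h3⟩ := h
  obtain ⟨η', h0', h1', h2', h3'⟩ := h'
  rw [zpow_zero, one_mul] at h3'
  have e0 : X ^ ((k : ℤ) + 1) = X ^ (k + 1) := by
    rw [← zpow_natCast]; push_cast; rfl
  rw [e0] at h3
  -- `X ^ (k+1) η ≡ η'`
  have h4 : V₂.valuation (X ^ (k + 1) * η - η') < 1 := by
    have e : X ^ (k + 1) * η - η' = (z - η') - (z - X ^ (k + 1) * η) := by ring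
    rw [e]
    exact wh_val_sub_lt V₂ h3' h3
  have hy : X ^ (k + 1) * η ∈ O := O.mul_mem (O.pow_mem hW.mem _) h1
  have h5 := hW.rad' hy h0' h2' h4
  exact hW.pow_not_unit k h1
    (mul_ne_zero (pow_ne_zero _ (wh_val_ne_zero V₂ hW.val)) h0) h5

/-- The exponent `m` in `z ≡ X ^ m · η` is unique. -/
theorem WhBranch.unique (hW : WhWinding O V₂ X) {z : F} {m m' : ℤ}
    (h : WhBranch O V₂ X z m) (h' : WhBranch O V₂ X z m') : m = m' := by
  have key : ∀ (a b : ℤ), WhBranch O V₂ X z a → WhBranch O V₂ X z b → ¬ a < b := by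
    intro a b ha hb hab
    obtain ⟨k, hk⟩ := Int.lt.dest hab
    -- `1 = z · z⁻¹ ≡ X ^ (b - a) · unit`
    have hz0 : z ≠ 0 := wh_val_ne_zero V₂ (ha.val_eq hW)
    have h1 := hb.mul hW (ha.inv hW)
    rw [mul_inv_cancel₀ hz0] at h1
    have e : b + -a = (k : ℤ) + 1 := by
      rw [← hk]; push_cast; ring
    rw [e] at h1
    exact h1.not_pos hW (WhBranch.of_one (by rw [sub_self, map_zero]; exact zero_lt_one))
  rcases lt_trichotomy m m' with h1 | h1 | h1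
  · exact absurd h1 (key m m' h h')
  · exact h1
  · exact absurd h1 (key m' m h' h)

theorem whOrd_eq (hW : WhWinding O V₂ X) {z : F} {m : ℤ} (h : WhBranch O V₂ X z m) :
    whOrd O V₂ X z = m := by
  have hex : ∃ m : ℤ, WhBranch O V₂ X z m := ⟨m, h⟩
  unfold whOrd
  rw [dif_pos hex]
  exact WhBranch.unique hW hex.choose_spec h

theorem whOrd_spec (hW : WhWinding O V₂ X) {z : F} (hz : V₂.valuation z = 1) :
    WhBranch O V₂ X z (whOrd O V₂ X z) := by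
  obtain ⟨m, hm⟩ := hW.dvr z hz
  rw [whOrd_eq hW hm]
  exact hm

/-- (w1) the branch order is additive on the units of `V₂`. -/
theorem whOrd_mul (hW : WhWinding O V₂ X) {x y : F} (hx : V₂.valuation x = 1)
    (hy : V₂.valuation y = 1) :
    whOrd O V₂ X (x * y) = whOrd O V₂ X x + whOrd O V₂ X y :=
  whOrd_eq hW ((whOrd_spec hW hx).mul hW (whOrd_spec hW hy))

/-- (w2) the branch order vanishes on `1 + 𝔪_{V₂}`. -/
theorem whOrd_of_one (hW : WhWinding O V₂ X) {x : F} (hx : V₂.valuation (x - 1) < 1) :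
    whOrd O V₂ X x = 0 :=
  whOrd_eq hW (WhBranch.of_one hx)

/-- (w0) the branch order vanishes on `O^×`. -/
theorem whOrd_of_unit (hW : WhWinding O V₂ X) {x : F} (h0 : x ≠ 0) (h1 : x ∈ O)
    (h2 : x⁻¹ ∈ O) : whOrd O V₂ X x = 0 :=
  whOrd_eq hW (WhBranch.of_unit h0 h1 h2)

/-- (w3) an element of `O` which is a unit of `V₂` with branch order `0` is a unit of `O`. -/
theorem whOrd_unit (hW : WhWinding O V₂ X) {z : F} (hz : z ∈ O) (hz₂ : V₂.valuation z = 1)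
    (hwz : whOrd O V₂ X z = 0) : z⁻¹ ∈ O := by
  have h := whOrd_spec hW hz₂
  rw [hwz] at h
  obtain ⟨η, h0, h1, h2, h3⟩ := h
  rw [zpow_zero, one_mul] at h3
  exact hW.rad' hz h0 h2 h3

/-- the branch order of the winding generator is `1`. -/
theorem whOrd_self (hW : WhWinding O V₂ X) : whOrd O V₂ X X = 1 :=
  whOrd_eq hW WhBranch.self

/-- the branch order is `≥ 0` on `O`. -/
theorem whOrd_nonneg (hW : WhWinding O V₂ X) {z : F} (hz : z ∈ O) (hz₂ : V₂.valuation z = 1) :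
    0 ≤ whOrd O V₂ X z := by
  by_contra hneg
  rw [not_le] at hneg
  obtain ⟨k, hk⟩ := Int.lt.dest hneg
  -- `X ^ (k+1) · z` has branch order `0`, hence is a unit of `O`
  have hXk : V₂.valuation (X ^ (k + 1)) = 1 := wh_val_pow V₂ hW.val _
  have h1 : whOrd O V₂ X (X ^ (k + 1) * z) = 0 := by
    rw [whOrd_mul hW hXk hz₂]
    have h2 : whOrd O V₂ X (X ^ (k + 1)) = ((k : ℤ) + 1) := by
      have h3 : WhBranch O V₂ X (X ^ (k + 1)) ((k : ℤ) + 1) := by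
        refine ⟨1, one_ne_zero, O.one_mem, by rw [inv_one]; exact O.one_mem, ?_⟩
        have e0 : X ^ ((k : ℤ) + 1) = X ^ (k + 1) := by
          rw [← zpow_natCast]; push_cast; rfl
        rw [e0, mul_one, sub_self, map_zero]
        exact zero_lt_one
      exact whOrd_eq hW h3
    rw [h2]
    push_cast at hk
    linarith
  have h4 := whOrd_unit hW (O.mul_mem (O.pow_mem hW.mem _) hz) (wh_val_mul V₂ hXk hz₂) h1
  exact hW.pow_not_unit k hz
    (mul_ne_zero (pow_ne_zero _ (wh_val_ne_zero V₂ hW.val)) (wh_val_ne_zero V₂ hz₂)) h4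

/-- `dvr` for all units of `V₂` from `dvr` for the elements of `O` (`V₂ = O_{𝔭₂}`: every unit of
`V₂` is a quotient of two elements of `O` which are units of `V₂`). -/
theorem wh_branch_of_frac (hle : ∀ x ∈ O, x ∈ V₂) (hval : V₂.valuation X = 1)
    (hdvr : ∀ z : F, z ∈ O → V₂.valuation z = 1 → ∃ m : ℤ, WhBranch O V₂ X z m)
    (hfrac : ∀ z : F, V₂.valuation z = 1 →
      ∃ a b : F, a ∈ O ∧ b ∈ O ∧ V₂.valuation a = 1 ∧ V₂.valuation b = 1 ∧ z = a / b)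
    (z : F) (hz : V₂.valuation z = 1) : ∃ m : ℤ, WhBranch O V₂ X z m := by
  obtain ⟨a, b, ha, hb, ha₂, hb₂, rfl⟩ := hfrac z hz
  obtain ⟨m, η, h0, h1, h2, h3⟩ := hdvr a ha ha₂
  obtain ⟨m', η', h0', h1', h2', h3'⟩ := hdvr b hb hb₂
  have hX0 : X ≠ 0 := wh_val_ne_zero V₂ hval
  have hb0 : b ≠ 0 := wh_val_ne_zero V₂ hb₂
  have hη : V₂.valuation η = 1 := wh_val_of_unit O V₂ hle h0 h1 h2
  have hη' : V₂.valuation η' = 1 := wh_val_of_unit O V₂ hle h0' h1' h2'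
  have hXm' : X ^ m' ≠ 0 := zpow_ne_zero m' hX0
  refine ⟨m - m', η * η'⁻¹, mul_ne_zero h0 (inv_ne_zero h0'), O.mul_mem h1 h2', ?_, ?_⟩
  · rw [mul_inv, inv_inv]
    exact O.mul_mem h2 h1'
  · have e : a / b - X ^ (m - m') * (η * η'⁻¹)
        = b⁻¹ * (a - X ^ m * η) - (b⁻¹ * (X ^ m' * η')⁻¹ * (X ^ m * η)) * (b - X ^ m' * η') := by
      rw [zpow_sub₀ hX0]
      field_simp
      ring
    rw [e]
    refine wh_val_sub_lt V₂ (wh_val_mul_lt V₂ (wh_val_inv V₂ hb₂).le h3)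
      (wh_val_mul_lt V₂ ?_ h3')
    exact (wh_val_mul V₂ (wh_val_mul V₂ (wh_val_inv V₂ hb₂)
      (wh_val_inv V₂ (wh_val_mul V₂ (wh_val_zpow V₂ hval m') hη')))
      (wh_val_mul V₂ (wh_val_zpow V₂ hval m) hη)).le

/-- `dvr` on `O` from: `𝔪_O = (X) + 𝔭₂` (`hgen`) and Krull's intersection theorem on the branch
(`hkrull`: no unit of `V₂` in `O` is divisible by all powers of `X` modulo `𝔭₂`). -/
theorem wh_branch_of_gen (hval : V₂.valuation X = 1)
    (hgen : ∀ a : F, a ∈ O → a⁻¹ ∉ O → ∃ a' : F, a' ∈ O ∧ V₂.valuation (a - X * a') < 1)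
    (hkrull : ∀ z : F, z ∈ O → V₂.valuation z = 1 →
      ∃ M : ℕ, ∀ a : F, a ∈ O → ¬ V₂.valuation (z - X ^ M * a) < 1)
    (z : F) (hz : z ∈ O) (hz₂ : V₂.valuation z = 1) : ∃ m : ℤ, WhBranch O V₂ X z m := by
  classical
  obtain ⟨M, hM⟩ := hkrull z hz hz₂
  -- the largest `n` with `z ≡ X ^ n a`
  let P : ℕ → Prop := fun n => ∃ a : F, a ∈ O ∧ V₂.valuation (z - X ^ n * a) < 1
  have hP0 : P 0 := ⟨z, hz, by
    rw [pow_zero, one_mul, sub_self, map_zero]; exact zero_lt_one⟩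
  have hPM : ¬ P M := fun ⟨a, ha, h⟩ => hM a ha h
  have hex : ∃ n, ¬ P n := ⟨M, hPM⟩
  set n₁ := Nat.find hex with hn₁
  have hn₁P : ¬ P n₁ := Nat.find_spec hex
  have hn₁0 : n₁ ≠ 0 := fun h => hn₁P (h ▸ hP0)
  obtain ⟨n, hn⟩ := Nat.exists_eq_succ_of_ne_zero hn₁0
  have hPn : P n := by
    by_contra h
    have := Nat.find_min' hex h
    omega
  obtain ⟨a, ha, h⟩ := hPn
  have hXn : V₂.valuation (X ^ n) = 1 := wh_val_pow V₂ hval n
  have ha0 : a ≠ 0 := by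
    rintro rfl
    rw [mul_zero, sub_zero, hz₂] at h
    exact lt_irrefl _ h
  refine ⟨n, a, ha0, ha, ?_, by rw [zpow_natCast]; exact h⟩
  by_contra hau
  obtain ⟨a', ha', h'⟩ := hgen a ha hau
  apply hn₁P
  rw [hn]
  refine ⟨a', ha', ?_⟩
  have e : z - X ^ (n + 1) * a' = (z - X ^ n * a) + X ^ n * (a - X * a') := by ring
  rw [e]
  exact wh_val_add_lt V₂ h (wh_val_mul_lt V₂ hXn.le h')

/-- **A winding generator from primitive data.**  `O ⊆ V₂`, `X ∈ O` a non-unit of `O` and a unit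
of `V₂`, `𝔭₂ O ⊆ 𝔪_O` (`hrad`), `𝔪_O = (X) + 𝔭₂` (`hgen`), Krull on the branch (`hkrull`) and
`V₂ = O_{𝔭₂}` (`hfrac`). -/
theorem WhWinding.of_gen (hle : ∀ x ∈ O, x ∈ V₂) (hmem : X ∈ O) (hnu : X⁻¹ ∉ O)
    (hval : V₂.valuation X = 1)
    (hrad : ∀ y ∈ O, V₂.valuation (y - 1) < 1 → y⁻¹ ∈ O)
    (hgen : ∀ a : F, a ∈ O → a⁻¹ ∉ O → ∃ a' : F, a' ∈ O ∧ V₂.valuation (a - X * a') < 1)
    (hkrull : ∀ z : F, z ∈ O → V₂.valuation z = 1 →
      ∃ M : ℕ, ∀ a : F, a ∈ O → ¬ V₂.valuation (z - X ^ M * a) < 1)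
    (hfrac : ∀ z : F, V₂.valuation z = 1 →
      ∃ a b : F, a ∈ O ∧ b ∈ O ∧ V₂.valuation a = 1 ∧ V₂.valuation b = 1 ∧ z = a / b) :
    WhWinding O V₂ X where
  le := hle
  mem := hmem
  not_unit := hnu
  val := hval
  rad := hrad
  dvr := wh_branch_of_frac hle hval (wh_branch_of_gen hval hgen hkrull) hfrac

end Winding

/-! ### (H) at a node, in terms of a winding generator -/

section NodeWinding

variable {F : Type*} [Field F] {ι : Type*}

/-- **(H) at a node, winding generator form.**  `u = c · h ^ p · (1 + z)` with `c ∈ O^×`,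
`z ∈ 𝔪_{V₂}` (split at `V₂`), `p ∣ ord_P u` in the tube, coordinates, normality of `O` and a
winding generator `X` for the branch `𝔭₂` give `u = ε · G ^ p`, `ε ∈ O^×`. -/
theorem wh_node_of_winding (ord : ι → F → ℤ)
    (hmul : ∀ i x y, x ≠ 0 → y ≠ 0 → ord i (x * y) = ord i x + ord i y)
    (O : Subring F) (V₁ V₂ : ValuationSubring F)
    (hN : ∀ z : F, z ≠ 0 → (∀ j, 0 ≤ ord j z) → z ∈ V₁ → z ∈ V₂ → z ∈ O)
    {π : F} (hπ : WhTubeUnit ord π)
    (hπV : ∀ z : F, z ≠ 0 → ∃ k : ℤ, V₂.valuation (z / π ^ k) = 1)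
    {X : F} (hW : WhWinding O V₂ X) (hX : WhTubeUnit ord X)
    {u : F} (hu : u ≠ 0) (p : ℕ)
    (hfin : {i | ord i u ≠ 0}.Finite)
    (hp : ∀ i, (p : ℤ) ∣ ord i u)
    (hcoord : ∀ i, ord i u ≠ 0 → ∃ f : F, f ≠ 0 ∧ ord i f = 1 ∧ ∀ j, j ≠ i → ord j f = 0)
    (hsplit : ∃ c h : F, c ≠ 0 ∧ c ∈ O ∧ c⁻¹ ∈ O ∧ h ≠ 0 ∧
      V₂.valuation (u / (c * h ^ p) - 1) < 1) :
    ∃ G ε : F, G ≠ 0 ∧ ε ≠ 0 ∧ ε ∈ O ∧ ε⁻¹ ∈ O ∧ u = ε * G ^ p := by
  obtain ⟨c, h, hc0, hc, hc', hh, hone⟩ := hsplit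
  exact wh_node ord hmul O V₁ V₂ hN hπ hπV (whOrd O V₂ X)
    (fun _ _ hx hy => whOrd_mul hW hx hy)
    (fun _ hz hz₂ hwz => whOrd_unit hW hz hz₂ hwz)
    hX hW.val (whOrd_self hW) hu p hfin hp hcoord
    (wh_split_of_const O V₂ hW.le (whOrd O V₂ X)
      (fun _ _ hx hy => whOrd_mul hW hx hy)
      (fun _ hx => whOrd_of_one hW hx)
      (fun _ h0 h1 h2 => whOrd_of_unit hW h0 h1 h2) p hc0 hc hc' hh hone)

/-- `wh_node_of_winding` for `u ≡ 1` at `V₂` (normal form (N)). -/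
theorem wh_node_of_winding_one (ord : ι → F → ℤ)
    (hmul : ∀ i x y, x ≠ 0 → y ≠ 0 → ord i (x * y) = ord i x + ord i y)
    (O : Subring F) (V₁ V₂ : ValuationSubring F)
    (hN : ∀ z : F, z ≠ 0 → (∀ j, 0 ≤ ord j z) → z ∈ V₁ → z ∈ V₂ → z ∈ O)
    {π : F} (hπ : WhTubeUnit ord π)
    (hπV : ∀ z : F, z ≠ 0 → ∃ k : ℤ, V₂.valuation (z / π ^ k) = 1)
    {X : F} (hW : WhWinding O V₂ X) (hX : WhTubeUnit ord X)
    {u : F} (p : ℕ)
    (hfin : {i | ord i u ≠ 0}.Finite)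
    (hp : ∀ i, (p : ℤ) ∣ ord i u)
    (hcoord : ∀ i, ord i u ≠ 0 → ∃ f : F, f ≠ 0 ∧ ord i f = 1 ∧ ∀ j, j ≠ i → ord j f = 0)
    (hone : V₂.valuation (u - 1) < 1) :
    ∃ G ε : F, G ≠ 0 ∧ ε ≠ 0 ∧ ε ∈ O ∧ ε⁻¹ ∈ O ∧ u = ε * G ^ p :=
  wh_node_one ord hmul O V₁ V₂ hN hπ hπV (whOrd O V₂ X)
    (fun _ _ hx hy => whOrd_mul hW hx hy)
    (fun _ hx => whOrd_of_one hW hx)
    (fun _ hz hz₂ hwz => whOrd_unit hW hz hz₂ hwz)
    hX hW.val (whOrd_self hW) p hfin hp hcoord hone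

end NodeWinding

/-! ### The output in the shape consumed by (D) -/

section Depth

variable {F : Type*} [Field F]

/-- **Input of (D) from the output of (H).**  `u = ε · G ^ p` with `ε ∈ O^×`, `O ⊆ V` and `u` a
unit of `V`.  Then `G⁻¹` is a unit of `V` and `ε / (G⁻¹) ^ p = u`; so `ε / (G⁻¹) ^ p - 1` is as
deep at `V` as `u - 1`. -/
theorem wh_depth_input (O : Subring F) (V : ValuationSubring F) (hOV : ∀ x ∈ O, x ∈ V)
    {p : ℕ} (hp : p ≠ 0) {u G ε : F} (hε0 : ε ≠ 0) (hε : ε ∈ O) (hε' : ε⁻¹ ∈ O)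
    (hu : u = ε * G ^ p) (huV : V.valuation u = 1) :
    V.valuation G⁻¹ = 1 ∧ ε / G⁻¹ ^ p = u := by
  have hεV : V.valuation ε = 1 := wh_val_of_unit O V hOV hε0 hε hε'
  have hGp : V.valuation (G ^ p) = 1 := by
    have e : G ^ p = ε⁻¹ * u := by
      rw [hu, ← mul_assoc, inv_mul_cancel₀ hε0, one_mul]
    rw [e]
    exact wh_val_mul V (wh_val_inv V hεV) huV
  refine ⟨wh_val_inv V (wh_val_of_pow V hp hGp), ?_⟩
  rw [hu, inv_pow, div_inv_eq_mul]

end Depth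

end Fermat.Agent.S33


end ZBUNIP_007_8

/-! ### bundled: `Fermat.Agent.STB.GluingInv` -/
section ZBUNIP_007_9
/-
STB (S35, phase 2 of item 34), piece STB-G "gluing invariant" (helper76).  Mathlib only
(+ `UNIP/PowerInd.lean`, itself Mathlib only, for the congruence lemmas `pwi_congr_*`).

Abstract local algebra at a CROSSING point of the special fibre.

* `F` a field (the function field `F′`), `O ⊆ F` a local subring (the local ring `B′_𝔫` of the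
  crossing point), `Vinf V0` two valuation subrings of `F` containing `O` (the two vertical
  valuations through the point), `J` an ideal of `O` (`π′ O`);
* (SS1) `hinter` : `O ∩ 𝔪(Vinf) ∩ 𝔪(V0) ⊆ J`;
* (SS3) `hsum`   : `𝔫 = 𝔭_∞ + 𝔭_0`, `𝔭_c := O ∩ 𝔪(V_c)`;
* `hres` (normality of the branch `O / 𝔭_c` + `V_c = O_{𝔭_c}`): an element `a` of `F` with
  `a ^ n ≡ e` at `V_c` for a unit `e` of `O` is congruent at `V_c` to an element of `O`;
* `Φ : F →+* F` with `Φ 𝔪(V_c) ⊆ 𝔪(V_c)` and `Φ x ≡ x ^ Q` modulo the maximal ideal of `O`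
  (`Φ = σ²`, `Q = q²`: the crossing points are `𝔽_{q²}`-rational).

`stb_glue_frob` : if `y = ε γ ^ m` with `ε ∈ O^×` (local factor at the point), and `y ≡ t_c ^ m` at
`V_c` (`y` is "toric": trivialised by `t_∞`, `t_0` at the two vertical valuations), and `H ≡
Φ t_c / t_c ^ Q` at `V_c`, then `w′ := (Φ y / y ^ Q) / H ^ m` has the local shape of `PwiShape`:
`w′ = ε′ γ′ ^ m`, `ε′ ∈ O`, `ε′ ≡ 1 mod J`, `γ′ ≡ 1` at `Vinf` and `V0`.

(In the language of `NOTES/S35-plan.md` (B3): the gluing invariant `ζ(y; t_∞, t_0)` is the ratio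
of the values at `𝔫` of the two branch units `α_c ≡ t_c / γ`; `Φ` raises BOTH values to the
`Q`-th power, so the invariant of `Φ y / y ^ Q` w.r.t. `Φ t_c / t_c ^ Q` is trivial and the
pair of branch units lifts to a unit `δ ≡ 1 mod 𝔫` of `O`.)
-/

set_option autoImplicit false

namespace Fermat.Agent.STB

open Fermat.Agent.UNIP

variable {F : Type*} [Field F]

section Congr

variable (V : ValuationSubring F)

/-- `x ≡ 1` at `V` ⇒ `x ≠ 0`. -/
theorem stb_ne_zero_of_congr {x : F} (h : x - 1 ∈ V.nonunits) : x ≠ 0 := by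
  intro h0
  have := pwi_val_eq_one V h
  rw [h0, map_zero] at this
  exact zero_ne_one this

/-- `x ≡ 1` at `V` ⇒ `x⁻¹ ≡ 1`. -/
theorem stb_congr_inv {x : F} (h : x - 1 ∈ V.nonunits) : x⁻¹ - 1 ∈ V.nonunits := by
  have hx0 := stb_ne_zero_of_congr V h
  have hv := pwi_val_eq_one V h
  have e : x⁻¹ - 1 = x⁻¹ * (-(x - 1)) := by field_simp; ring
  rw [e]
  refine pwi_mul_mem_nonunits V ?_ (V.nonunits.neg_mem h)
  rw [← V.valuation_le_one_iff, map_inv₀, hv, inv_one]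

/-- `x ≡ 1`, `y ≡ 1` at `V` ⇒ `x / y ≡ 1`. -/
theorem stb_congr_div {x y : F} (hx : x - 1 ∈ V.nonunits) (hy : y - 1 ∈ V.nonunits) :
    x / y - 1 ∈ V.nonunits := by
  rw [div_eq_mul_inv]
  exact pwi_congr_mul V hx (stb_congr_inv V hy)

/-- A ring endomorphism preserving `𝔪(V)` preserves `1 + 𝔪(V)`. -/
theorem stb_congr_map (Φ : F →+* F) (hΦ : ∀ x ∈ V.nonunits, Φ x ∈ V.nonunits) {x : F}
    (hx : x - 1 ∈ V.nonunits) : Φ x - 1 ∈ V.nonunits := by
  have := hΦ _ hx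
  rwa [map_sub, map_one] at this

/-- `a ≡ b` at `V`, `b` a unit of `V` ⇒ `a / b ≡ 1`. -/
theorem stb_div_congr {a b : F} (hb : V.valuation b = 1) (h : a - b ∈ V.nonunits) :
    a / b - 1 ∈ V.nonunits := by
  have hb0 : b ≠ 0 := by
    intro h0
    rw [h0, map_zero] at hb
    exact zero_ne_one hb
  have e : a / b - 1 = b⁻¹ * (a - b) := by field_simp
  rw [e]
  refine pwi_mul_mem_nonunits V ?_ h
  rw [← V.valuation_le_one_iff, map_inv₀, hb, inv_one]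

/-- `a / b ≡ 1` at `V`, `b ∈ V` ⇒ `a ≡ b`. -/
theorem stb_sub_of_div_congr {a b : F} (hb : b ∈ V) (hb0 : b ≠ 0)
    (h : a / b - 1 ∈ V.nonunits) : a - b ∈ V.nonunits := by
  have e : a - b = b * (a / b - 1) := by field_simp
  rw [e]
  exact pwi_mul_mem_nonunits V hb h

/-- the valuation of an element congruent to a unit -/
theorem stb_val_of_sub {a b : F} (hb : V.valuation b = 1) (h : a - b ∈ V.nonunits) :
    V.valuation a = 1 := by
  have h1 := pwi_val_eq_one V (stb_div_congr V hb h)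
  rwa [map_div₀, hb, div_one] at h1

/-- a root of a unit is a unit -/
theorem stb_val_of_pow {a : F} {n : ℕ} (hn : 0 < n) (h : V.valuation (a ^ n) = 1) :
    V.valuation a = 1 := by
  rw [map_pow] at h
  exact (pow_eq_one_iff_of_nonneg zero_le hn.ne').1 h

/-- `a ≡ b` at `V`, both in `V` ⇒ `a ^ n ≡ b ^ n`. -/
theorem stb_pow_sub_pow {a b : F} (ha : a ∈ V) (hb : b ∈ V) (h : a - b ∈ V.nonunits) (n : ℕ) :
    a ^ n - b ^ n ∈ V.nonunits := by
  induction n with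
  | zero => simp [V.nonunits.zero_mem]
  | succ n ih =>
    have e : a ^ (n + 1) - b ^ (n + 1) = a ^ n * (a - b) + b * (a ^ n - b ^ n) := by ring
    rw [e]
    exact V.nonunits.add_mem (pwi_mul_mem_nonunits V (V.pow_mem ha n) h)
      (pwi_mul_mem_nonunits V hb ih)

end Congr

section Vertical

/-- **Vertical part of the shape.**  `y ≡ t ^ m`, `H ≡ Φ t / t ^ Q` at `V`, `Φ` preserves
`𝔪(V)` ⇒ `(Φ y / y ^ Q) / H ^ m ≡ 1` at `V`. -/
theorem stb_vertical (V : ValuationSubring F) (Φ : F →+* F)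
    (hΦ : ∀ x ∈ V.nonunits, Φ x ∈ V.nonunits) (Q m : ℕ) {y t H : F}
    (ht : y / t ^ m - 1 ∈ V.nonunits) (hH : H / (Φ t / t ^ Q) - 1 ∈ V.nonunits) :
    Φ y / y ^ Q / H ^ m - 1 ∈ V.nonunits := by
  have hr0 := stb_ne_zero_of_congr V ht
  have hy0 : y ≠ 0 := fun h => hr0 (by rw [h, zero_div])
  have htm0 : t ^ m ≠ 0 := fun h => hr0 (by rw [h, div_zero])
  have hH0' := stb_ne_zero_of_congr V hH
  have hH0 : H ≠ 0 := fun h => hH0' (by rw [h, zero_div])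
  have hT0 : Φ t / t ^ Q ≠ 0 := fun h => hH0' (by rw [h, div_zero])
  have hΦt0 : Φ t ≠ 0 := fun h => hT0 (by rw [h, zero_div])
  have htQ0 : t ^ Q ≠ 0 := fun h => hT0 (by rw [h, div_zero])
  have hΦy0 : Φ y ≠ 0 := (_root_.map_ne_zero Φ).2 hy0
  have h1 : Φ (y / t ^ m) / (y / t ^ m) ^ Q - 1 ∈ V.nonunits :=
    stb_congr_div V (stb_congr_map V Φ hΦ ht) (pwi_congr_pow V ht Q)
  have h2 : (H / (Φ t / t ^ Q)) ^ m - 1 ∈ V.nonunits := pwi_congr_pow V hH m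
  have h3 := stb_congr_div V h1 h2
  have ht0 : t ≠ 0 := fun h => hΦt0 (by rw [h, map_zero])
  have e : Φ y / y ^ Q / H ^ m
      = Φ (y / t ^ m) / (y / t ^ m) ^ Q / (H / (Φ t / t ^ Q)) ^ m := by
    rw [map_div₀, map_pow]
    simp only [div_pow]
    field_simp
    ring
  rw [e]
  exact h3

end Vertical

section Branch

variable (O : Subring F) [IsLocalRing O]

/-- an element of `O ∩ 𝔪(V)` is a nonunit of `O` (if `O ⊆ V`) -/
theorem stb_mem_maximalIdeal_of_nonunits (V : ValuationSubring F) (hOV : ∀ x ∈ O, x ∈ V)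
    (x : O) (hx : (x : F) ∈ V.nonunits) : x ∈ IsLocalRing.maximalIdeal O := by
  rw [IsLocalRing.mem_maximalIdeal, mem_nonunits_iff]
  intro hu
  obtain ⟨u, rfl⟩ := hu
  have h1 : ((u : O) : F) * (((u⁻¹ : Oˣ) : O) : F) = 1 := by
    rw [← Subring.coe_mul, Units.mul_inv, Subring.coe_one]
  rw [ValuationSubring.mem_nonunits_iff] at hx
  have h2 : V.valuation (((u⁻¹ : Oˣ) : O) : F) ≤ 1 :=
    (V.valuation_le_one_iff _).2 (hOV _ ((u⁻¹ : Oˣ) : O).2)
  have h3 : V.valuation (((u : O) : F) * (((u⁻¹ : Oˣ) : O) : F)) < 1 := by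
    rw [map_mul]
    exact mul_lt_one_of_lt_of_le hx h2
  rw [h1, map_one] at h3
  exact lt_irrefl _ h3

/-- the valuation of a unit of `O` is `1` (if `O ⊆ V`) -/
theorem stb_val_unit (V : ValuationSubring F) (hOV : ∀ x ∈ O, x ∈ V) {e : O} (he : IsUnit e) :
    V.valuation (e : F) = 1 := by
  have hle : V.valuation (e : F) ≤ 1 := (V.valuation_le_one_iff _).2 (hOV _ e.2)
  refine le_antisymm hle (not_lt.1 fun hlt => ?_)
  have := stb_mem_maximalIdeal_of_nonunits O V hOV e ((ValuationSubring.mem_nonunits_iff V).2 hlt)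
  exact (IsLocalRing.mem_maximalIdeal _).1 this he

/-- an element `≡ 1` modulo the maximal ideal is a unit -/
theorem stb_isUnit_of_sub_one {β : O} (h : β - 1 ∈ IsLocalRing.maximalIdeal O) : IsUnit β := by
  by_contra hu
  have h1 : β ∈ IsLocalRing.maximalIdeal O := (IsLocalRing.mem_maximalIdeal _).2 hu
  have h2 : (1 : O) ∈ IsLocalRing.maximalIdeal O := by
    have := Ideal.sub_mem _ h1 h
    rwa [sub_sub_cancel] at this
  exact (IsLocalRing.mem_maximalIdeal _).1 h2 isUnit_one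

omit [IsLocalRing O] in
/-- coercion of the inverse of a unit of `O` -/
theorem stb_coe_inv (u : Oˣ) : (((u⁻¹ : Oˣ) : O) : F) = (((u : O) : F))⁻¹ := by
  have h1 : ((u : O) : F) * (((u⁻¹ : Oˣ) : O) : F) = 1 := by
    rw [← Subring.coe_mul, Units.mul_inv, Subring.coe_one]
  exact eq_inv_of_mul_eq_one_right h1

/-- **Branch unit.**  `V` one of the two vertical valuations through the point, `y = ε γ ^ m` the
local factorisation, `y ≡ t ^ m` and `H ≡ Φ t / t ^ Q` at `V`.  Then `H / (Φ γ / γ ^ Q)` is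
congruent at `V` to a unit `β` of `O` with `β ≡ 1` modulo the maximal ideal of `O`
(`β = Φ α / α ^ Q`, `α ∈ O^×` the branch unit `≡ t / γ`). -/
theorem stb_branch (V : ValuationSubring F) (hOV : ∀ x ∈ O, x ∈ V)
    (hres : ∀ (a : F) (e : O) (n : ℕ), IsUnit e → 0 < n → a ^ n - (e : F) ∈ V.nonunits →
      ∃ α : O, a - (α : F) ∈ V.nonunits)
    (Φ : F →+* F) (Q : ℕ) (hΦ : ∀ x ∈ V.nonunits, Φ x ∈ V.nonunits)
    (hfrob : ∀ x : O, ∃ z ∈ IsLocalRing.maximalIdeal O, (z : F) = Φ (x : F) - (x : F) ^ Q)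
    {m : ℕ} (hm : 0 < m) {y γ t H : F} (ε : O) (hε : IsUnit ε) (hy : y = (ε : F) * γ ^ m)
    (ht : y / t ^ m - 1 ∈ V.nonunits) (hH : H / (Φ t / t ^ Q) - 1 ∈ V.nonunits) :
    ∃ β : O, β - 1 ∈ IsLocalRing.maximalIdeal O ∧
      H / (Φ γ / γ ^ Q) / (β : F) - 1 ∈ V.nonunits := by
  have hr0 := stb_ne_zero_of_congr V ht
  have hy0 : y ≠ 0 := fun h => hr0 (by rw [h, zero_div])
  have htm0 : t ^ m ≠ 0 := fun h => hr0 (by rw [h, div_zero])
  have ht0 : t ≠ 0 := fun h => htm0 (by rw [h, zero_pow hm.ne'])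
  have hγ0 : γ ≠ 0 := fun h => hy0 (by rw [hy, h, zero_pow hm.ne', mul_zero])
  have hvε : V.valuation (ε : F) = 1 := stb_val_unit O V hOV hε
  have hε0 : (ε : F) ≠ 0 := fun h => by
    rw [h, map_zero] at hvε
    exact zero_ne_one hvε
  have hH0' := stb_ne_zero_of_congr V hH
  have hH0 : H ≠ 0 := fun h => hH0' (by rw [h, zero_div])
  have hΦt0 : Φ t ≠ 0 := (_root_.map_ne_zero Φ).2 ht0
  have hΦγ0 : Φ γ ≠ 0 := (_root_.map_ne_zero Φ).2 hγ0
  -- the branch unit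
  have h_am : (t / γ) ^ m - (ε : F) ∈ V.nonunits := by
    have e : (t / γ) ^ m - (ε : F) = (ε : F) * ((y / t ^ m)⁻¹ - 1) := by
      rw [hy, div_pow]
      field_simp
    rw [e]
    exact pwi_mul_mem_nonunits V (hOV _ ε.2) (stb_congr_inv V ht)
  obtain ⟨α, hα⟩ := hres (t / γ) ε m hε hm h_am
  have hva : V.valuation (t / γ) = 1 := stb_val_of_pow V hm (stb_val_of_sub V hvε h_am)
  have haV : t / γ ∈ V := (V.valuation_le_one_iff _).1 hva.le
  have hα' : (α : F) - t / γ ∈ V.nonunits := by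
    have := V.nonunits.neg_mem hα
    rwa [neg_sub] at this
  have hvα : V.valuation (α : F) = 1 := stb_val_of_sub V hva hα'
  have hα0 : (α : F) ≠ 0 := fun h => by
    rw [h, map_zero] at hvα
    exact zero_ne_one hvα
  have hαu : IsUnit α := by
    by_contra hu
    have h1 : α ∈ IsLocalRing.maximalIdeal O := (IsLocalRing.mem_maximalIdeal _).2 hu
    have h2 : α ^ m ∈ IsLocalRing.maximalIdeal O := Ideal.pow_mem_of_mem _ h1 m hm
    have h3 : α ^ m - ε ∈ IsLocalRing.maximalIdeal O := by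
      apply stb_mem_maximalIdeal_of_nonunits O V hOV
      have e : ((α ^ m - ε : O) : F)
          = ((α : F) ^ m - (t / γ) ^ m) + ((t / γ) ^ m - (ε : F)) := by
        push_cast
        ring
      rw [e]
      exact V.nonunits.add_mem (stb_pow_sub_pow V (hOV _ α.2) haV hα' m) h_am
    have h4 : ε ∈ IsLocalRing.maximalIdeal O := by
      have := Ideal.sub_mem _ h2 h3
      rwa [sub_sub_cancel] at this
    exact (IsLocalRing.mem_maximalIdeal _).1 h4 hε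
  obtain ⟨z, hz, hzeq⟩ := hfrob α
  obtain ⟨u, hu⟩ := hαu
  refine ⟨1 + z * ((u⁻¹ : Oˣ) : O) ^ Q, ?_, ?_⟩
  · rw [add_sub_cancel_left]
    exact Ideal.mul_mem_right _ _ hz
  have hβ : (((1 + z * ((u⁻¹ : Oˣ) : O) ^ Q : O)) : F) = Φ (α : F) / (α : F) ^ Q := by
    push_cast
    rw [stb_coe_inv O u, hu, hzeq, inv_pow]
    field_simp
    ring
  have hβu : IsUnit (1 + z * ((u⁻¹ : Oˣ) : O) ^ Q) := by
    apply stb_isUnit_of_sub_one O
    rw [add_sub_cancel_left]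
    exact Ideal.mul_mem_right _ _ hz
  have hvβ := stb_val_unit O V hOV hβu
  rw [hβ] at hvβ ⊢
  have hvαQ : V.valuation ((α : F) ^ Q) = 1 := by rw [map_pow, hvα, one_pow]
  have hvΦα : V.valuation (Φ (α : F)) = 1 := by
    rw [map_div₀, hvαQ, div_one] at hvβ
    exact hvβ
  have hΦα0 : Φ (α : F) ≠ 0 := (_root_.map_ne_zero Φ).2 hα0
  have h1 : Φ (t / γ) / Φ (α : F) - 1 ∈ V.nonunits := by
    apply stb_div_congr V hvΦα
    have := hΦ _ hα
    rwa [map_sub] at this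
  have h2 : (t / γ) ^ Q / (α : F) ^ Q - 1 ∈ V.nonunits := by
    rw [← div_pow]
    exact pwi_congr_pow V (stb_div_congr V hvα hα) Q
  have h3 := pwi_congr_mul V hH (stb_congr_div V h1 h2)
  have e : H / (Φ γ / γ ^ Q) / (Φ (α : F) / (α : F) ^ Q)
      = H / (Φ t / t ^ Q) * (Φ (t / γ) / Φ (α : F) / ((t / γ) ^ Q / (α : F) ^ Q)) := by
    rw [map_div₀, div_pow]
    field_simp
  rw [e]
  exact h3

/-- **STB-G, main lemma (crossing point).**  See the header. -/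
theorem stb_glue_frob (J : Ideal O) (Vinf V0 : ValuationSubring F)
    (hOinf : ∀ x ∈ O, x ∈ Vinf) (hO0 : ∀ x ∈ O, x ∈ V0)
    (hinter : ∀ x : O, (x : F) ∈ Vinf.nonunits → (x : F) ∈ V0.nonunits → x ∈ J)
    (hsum : ∀ x ∈ IsLocalRing.maximalIdeal O, ∃ a b : O,
      (a : F) ∈ Vinf.nonunits ∧ (b : F) ∈ V0.nonunits ∧ x = a + b)
    (hresinf : ∀ (a : F) (e : O) (n : ℕ), IsUnit e → 0 < n →
      a ^ n - (e : F) ∈ Vinf.nonunits → ∃ α : O, a - (α : F) ∈ Vinf.nonunits)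
    (hres0 : ∀ (a : F) (e : O) (n : ℕ), IsUnit e → 0 < n →
      a ^ n - (e : F) ∈ V0.nonunits → ∃ α : O, a - (α : F) ∈ V0.nonunits)
    (Φ : F →+* F) (Q : ℕ)
    (hΦinf : ∀ x ∈ Vinf.nonunits, Φ x ∈ Vinf.nonunits)
    (hΦ0 : ∀ x ∈ V0.nonunits, Φ x ∈ V0.nonunits)
    (hfrob : ∀ x : O, ∃ z ∈ IsLocalRing.maximalIdeal O, (z : F) = Φ (x : F) - (x : F) ^ Q)
    {m : ℕ} (hm : 0 < m) {y γ tinf t0 H : F} (ε : O) (hε : IsUnit ε)
    (hy : y = (ε : F) * γ ^ m)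
    (htinf : y / tinf ^ m - 1 ∈ Vinf.nonunits) (ht0 : y / t0 ^ m - 1 ∈ V0.nonunits)
    (hHinf : H / (Φ tinf / tinf ^ Q) - 1 ∈ Vinf.nonunits)
    (hH0 : H / (Φ t0 / t0 ^ Q) - 1 ∈ V0.nonunits) :
    ∃ ε' γ' : F, ∃ hε' : ε' ∈ O, (⟨ε', hε'⟩ - 1 : O) ∈ J ∧
      γ' - 1 ∈ Vinf.nonunits ∧ γ' - 1 ∈ V0.nonunits ∧
      Φ y / y ^ Q / H ^ m = ε' * γ' ^ m := by
  obtain ⟨βi, hβi, hGi⟩ := stb_branch O Vinf hOinf hresinf Φ Q hΦinf hfrob hm ε hε hy htinf hHinf
  obtain ⟨βz, hβz, hGz⟩ := stb_branch O V0 hO0 hres0 Φ Q hΦ0 hfrob hm ε hε hy ht0 hH0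
  -- lift the pair `(βi, βz)` to a unit `δ`
  have hd : βi - βz ∈ IsLocalRing.maximalIdeal O := by
    have := Ideal.sub_mem _ hβi hβz
    rwa [sub_sub_sub_cancel_right] at this
  obtain ⟨a, b, ha, hb, hab⟩ := hsum _ hd
  have haM := stb_mem_maximalIdeal_of_nonunits O Vinf hOinf a ha
  set δ : O := βi - a with hδ
  have hδ1 : δ - 1 ∈ IsLocalRing.maximalIdeal O := by
    have e : δ - 1 = (βi - 1) - a := by rw [hδ]; ring
    rw [e]
    exact Ideal.sub_mem _ hβi haM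
  have hδu : IsUnit δ := stb_isUnit_of_sub_one O hδ1
  have hδi : (δ : F) - (βi : F) ∈ Vinf.nonunits := by
    have e : (δ : F) - (βi : F) = -(a : F) := by rw [hδ]; push_cast; ring
    rw [e]
    exact Vinf.nonunits.neg_mem ha
  have hδz : (δ : F) - (βz : F) ∈ V0.nonunits := by
    have e0 : δ = βz + b := by
      rw [hδ]
      have : βi = βz + (a + b) := by rw [← hab]; ring
      rw [this]; ring
    have e : (δ : F) - (βz : F) = (b : F) := by rw [e0]; push_cast; ring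
    rw [e]
    exact hb
  have hβiu := stb_isUnit_of_sub_one O hβi
  have hβzu := stb_isUnit_of_sub_one O hβz
  have hvβi := stb_val_unit O Vinf hOinf hβiu
  have hvβz := stb_val_unit O V0 hO0 hβzu
  have hvδ := stb_val_unit O Vinf hOinf hδu
  have hδ0 : (δ : F) ≠ 0 := fun h => by
    rw [h, map_zero] at hvδ
    exact zero_ne_one hvδ
  have hβi0 : (βi : F) ≠ 0 := fun h => by
    rw [h, map_zero] at hvβi
    exact zero_ne_one hvβi
  have hβz0 : (βz : F) ≠ 0 := fun h => by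
    rw [h, map_zero] at hvβz
    exact zero_ne_one hvβz
  have hvε := stb_val_unit O Vinf hOinf hε
  have hε0 : (ε : F) ≠ 0 := fun h => by
    rw [h, map_zero] at hvε
    exact zero_ne_one hvε
  have hr0 := stb_ne_zero_of_congr Vinf htinf
  have hy0 : y ≠ 0 := fun h => hr0 (by rw [h, zero_div])
  have hγ0 : γ ≠ 0 := fun h => hy0 (by rw [hy, h, zero_pow hm.ne', mul_zero])
  have hΦγ0 : Φ γ ≠ 0 := (_root_.map_ne_zero Φ).2 hγ0
  have hΦε0 : Φ (ε : F) ≠ 0 := (_root_.map_ne_zero Φ).2 hε0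
  have hH0' : H ≠ 0 := fun h => stb_ne_zero_of_congr Vinf hHinf (by rw [h, zero_div])
  -- `γ'`
  have hγi : (δ : F) / (H / (Φ γ / γ ^ Q)) - 1 ∈ Vinf.nonunits := by
    have e : (δ : F) / (H / (Φ γ / γ ^ Q))
        = (δ : F) / (βi : F) / (H / (Φ γ / γ ^ Q) / (βi : F)) := by
      field_simp
    rw [e]
    exact stb_congr_div Vinf (stb_div_congr Vinf hvβi hδi) hGi
  have hγz : (δ : F) / (H / (Φ γ / γ ^ Q)) - 1 ∈ V0.nonunits := by
    have e : (δ : F) / (H / (Φ γ / γ ^ Q))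
        = (δ : F) / (βz : F) / (H / (Φ γ / γ ^ Q) / (βz : F)) := by
      field_simp
    rw [e]
    exact stb_congr_div V0 (stb_div_congr V0 hvβz hδz) hGz
  have hγ'0 : (δ : F) / (H / (Φ γ / γ ^ Q)) ≠ 0 := stb_ne_zero_of_congr Vinf hγi
  -- `ε'`
  obtain ⟨z, -, hzeq⟩ := hfrob ε
  obtain ⟨uε, huε⟩ := hε
  obtain ⟨uδ, huδ⟩ := hδu
  set ε' : O := (z + ε ^ Q) * ((uε⁻¹ : Oˣ) : O) ^ Q * ((uδ⁻¹ : Oˣ) : O) ^ m with hε'
  have hε'F : (ε' : F) = Φ (ε : F) / (ε : F) ^ Q / (δ : F) ^ m := by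
    rw [hε']
    push_cast
    rw [stb_coe_inv O uε, stb_coe_inv O uδ, huε, huδ, hzeq, inv_pow, inv_pow]
    field_simp
    ring
  have hfac : Φ y / y ^ Q / H ^ m = (ε' : F) * ((δ : F) / (H / (Φ γ / γ ^ Q))) ^ m := by
    rw [hε'F, hy, map_mul, map_pow]
    simp only [div_pow, mul_pow]
    field_simp
    ring
  have hε'eq : (ε' : F) = Φ y / y ^ Q / H ^ m / ((δ : F) / (H / (Φ γ / γ ^ Q))) ^ m := by
    rw [hfac]
    field_simp
  refine ⟨(ε' : F), (δ : F) / (H / (Φ γ / γ ^ Q)), ε'.2, ?_, hγi, hγz, hfac⟩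
  apply hinter
  · show (((⟨(ε' : F), ε'.2⟩ : O) - 1 : O) : F) ∈ Vinf.nonunits
    push_cast
    rw [hε'eq]
    exact stb_congr_div Vinf (stb_vertical Vinf Φ hΦinf Q m htinf hHinf)
      (pwi_congr_pow Vinf hγi m)
  · show (((⟨(ε' : F), ε'.2⟩ : O) - 1 : O) : F) ∈ V0.nonunits
    push_cast
    rw [hε'eq]
    exact stb_congr_div V0 (stb_vertical V0 Φ hΦ0 Q m ht0 hH0)
      (pwi_congr_pow V0 hγz m)

end Branch

end Fermat.Agent.STB


end ZBUNIP_007_9

/-! ### bundled: `Fermat.Agent.STB.GluingChart` -/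
section ZBUNIP_007_10
/-
STB (S35, phase 2 of item 34), piece STB-G part 2 (helper76): the hypotheses (N) = `hres`,
(S) = `hsum`, (SS1-loc) = `hinter`, (Fr) = `hfrob` of `stb_glue_frob` for the local ring
`O = ls_localSubring 𝔫` of a chart `B`, from chart data.

* `stb_gc_dvd` (pure algebra, Mathlib only): `B` noetherian, primes `𝔭 ≤ 𝔫`, `𝔫` generated
  by `𝔭` and ONE element `Y` locally at `𝔫`.  Then `(B/𝔭)_𝔫` is a valuation ring, hence:
  `b ^ n e₂ ≡ e₁ s ^ n mod 𝔭` with `s ∉ 𝔭`, `e₁, e₂ ∉ 𝔫`, `0 < n` ⇒ `∃ u ∉ 𝔫, ∃ c, u b ≡ c s mod 𝔭`.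
* `stb_gc_res` **(N)** : `V` a valuation ring through `𝔫` with `V = B_𝔭` (`hVloc`):
  `a ^ n ≡ e` at `V`, `e ∈ O^×`, `0 < n` ⇒ `∃ α ∈ O, a ≡ α` at `V`.
  `stb_gc_res_unit` : the same with `α⁻¹ ∈ O`.
  `stb_gc_gen_node`, `stb_gc_gen_node'`, `stb_gc_gen_disc` : the hypothesis `hgen` from
  `NodesLocGen 𝔫 {ϖ, X, Y}` (`X ∈ 𝔭` resp. `Y ∈ 𝔭`) resp. `NodesLocGen 𝔫 {ϖ, s}`.
* `stb_gc_sum` **(S)** , `stb_gc_inter` **(SS1-loc)**, `stb_gc_frob` **(Fr)**.
* `stb_glue_frob_chart` : `stb_glue_frob` at a crossing point of a chart.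
-/

set_option autoImplicit false
set_option linter.unusedSectionVars false

namespace Fermat.Agent.STB

open Fermat.Agent.UNIP

section Algebra

variable {B : Type*} [CommRing B]

/-- **Branch is a valuation ring.**  `B` noetherian, `𝔭 ≤ 𝔫` primes, `𝔫 = 𝔭 + (Y)` locally at
`𝔫`.  If `b ^ n e₂ ≡ e₁ s ^ n mod 𝔭` with `s ∉ 𝔭`, `e₁, e₂ ∉ 𝔫`, `0 < n`, then `s` divides `b`
in `(B/𝔭)_𝔫`: `u b ≡ c s mod 𝔭` for some `u ∉ 𝔫`. -/
theorem stb_gc_dvd [IsNoetherianRing B] (𝔭 𝔫 : Ideal B) [h𝔭 : 𝔭.IsPrime] [h𝔫 : 𝔫.IsPrime]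
    (h𝔭𝔫 : 𝔭 ≤ 𝔫) (Y : B) (hY : Y ∈ 𝔫)
    (hgen : ∀ b ∈ 𝔫, ∃ u : B, u ∉ 𝔫 ∧ ∃ c : B, u * b - c * Y ∈ 𝔭)
    {b s e₁ e₂ : B} {n : ℕ} (hn : 0 < n) (hs : s ∉ 𝔭) (he₁ : e₁ ∉ 𝔫) (he₂ : e₂ ∉ 𝔫)
    (h : b ^ n * e₂ - e₁ * s ^ n ∈ 𝔭) :
    ∃ u c : B, u ∉ 𝔫 ∧ u * b - c * s ∈ 𝔭 := by
  classical
  -- the branch `R = B / 𝔭` and its prime `𝔫̄`
  let R := B ⧸ 𝔭
  let mk : B →+* R := Ideal.Quotient.mk 𝔭
  have hmk : Function.Surjective mk := Ideal.Quotient.mk_surjective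
  let 𝔫' : Ideal R := 𝔫.map mk
  have hmem : ∀ x : B, mk x ∈ 𝔫' ↔ x ∈ 𝔫 := fun x => Ideal.mem_quotient_iff_mem h𝔭𝔫
  have h𝔫' : 𝔫'.IsPrime :=
    Ideal.map_isPrime_of_surjective hmk (by rw [Ideal.mk_ker]; exact h𝔭𝔫)
  let S := Localization.AtPrime 𝔫'
  have hinjS : Function.Injective (algebraMap R S) :=
    IsLocalization.injective S (Ideal.primeCompl_le_nonZeroDivisors 𝔫')
  have : IsDomain S := IsLocalization.isDomain_localization (Ideal.primeCompl_le_nonZeroDivisors 𝔫')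
  have : IsNoetherianRing S := IsLocalization.isNoetherianRing 𝔫'.primeCompl S inferInstance
  have hunit : ∀ x : B, x ∉ 𝔫 → IsUnit (algebraMap R S (mk x)) := fun x hx =>
    (IsLocalization.AtPrime.isUnit_to_map_iff S 𝔫' (mk x)).2 (fun h => hx ((hmem x).1 h))
  -- the maximal ideal of `S` is generated by the image of `Y`
  have hprinc : (IsLocalRing.maximalIdeal S).IsPrincipal := by
    refine ⟨⟨algebraMap R S (mk Y), ?_⟩⟩
    apply le_antisymm
    · intro x hx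
      obtain ⟨r, t, rfl⟩ := IsLocalization.exists_mk'_eq 𝔫'.primeCompl x
      have hr : r ∈ 𝔫' := by
        have h1 : algebraMap R S r ∈ IsLocalRing.maximalIdeal S := by
          have h2 : algebraMap R S r = IsLocalization.mk' S r t * algebraMap R S t := by
            rw [IsLocalization.mk'_spec]
          rw [h2]
          exact Ideal.mul_mem_right _ _ hx
        exact (IsLocalization.AtPrime.to_map_mem_maximal_iff S 𝔫' r).1 h1
      obtain ⟨b₀, rfl⟩ := hmk r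
      have hb₀ : b₀ ∈ 𝔫 := (hmem b₀).1 hr
      obtain ⟨u, hu, c, huc⟩ := hgen b₀ hb₀
      have e1 : mk u * mk b₀ = mk c * mk Y := by
        rw [← map_mul, ← map_mul, ← sub_eq_zero, ← map_sub]
        exact Ideal.Quotient.eq_zero_iff_mem.2 huc
      obtain ⟨v, hv⟩ := hunit u hu
      have e2 : algebraMap R S (mk b₀) = ((v⁻¹ : Sˣ) : S) * algebraMap R S (mk c)
          * algebraMap R S (mk Y) := by
        have e3 : (v : S) * algebraMap R S (mk b₀) = algebraMap R S (mk c) * algebraMap R S (mk Y) := by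
          rw [hv, ← map_mul, e1, map_mul]
        rw [mul_assoc, ← e3, ← mul_assoc, Units.inv_mul, one_mul]
      rw [Submodule.mem_span_singleton]
      obtain ⟨w, hw⟩ := IsLocalization.map_units S t
      refine ⟨((w⁻¹ : Sˣ) : S) * (((v⁻¹ : Sˣ) : S) * algebraMap R S (mk c)), ?_⟩
      have e4 : IsLocalization.mk' S (mk b₀) t = ((w⁻¹ : Sˣ) : S) * algebraMap R S (mk b₀) := by
        rw [IsLocalization.mk'_eq_iff_eq_mul, mul_comm _ (algebraMap R S (t : R)), ← hw,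
          ← mul_assoc, Units.mul_inv, one_mul]
      rw [e4, e2, smul_eq_mul]
      ring
    · rw [Submodule.span_le, Set.singleton_subset_iff]
      exact (IsLocalization.AtPrime.to_map_mem_maximal_iff S 𝔫' (mk Y)).2 ((hmem Y).2 hY)
  have hval : ValuationRing S :=
    ((tfae_of_isNoetherianRing_of_isLocalRing_of_isDomain S).out 4 1).1 hprinc
  -- the images of `b`, `s`
  set b' : S := algebraMap R S (mk b) with hb'
  set s' : S := algebraMap R S (mk s) with hs'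
  have hs'0 : s' ≠ 0 := by
    intro h0
    have h1 : mk s = 0 := hinjS (by rw [← hs', h0, map_zero])
    exact hs (Ideal.Quotient.eq_zero_iff_mem.1 h1)
  obtain ⟨v₁, hv₁⟩ := hunit e₁ he₁
  obtain ⟨v₂, hv₂⟩ := hunit e₂ he₂
  have hrel : b' ^ n * (v₂ : S) = (v₁ : S) * s' ^ n := by
    rw [hv₁, hv₂, hb', hs', ← map_pow, ← map_pow, ← map_mul, ← map_mul, ← map_pow, ← map_pow,
      ← map_mul, ← map_mul]
    congr 1
    rw [← sub_eq_zero, ← map_sub]
    exact Ideal.Quotient.eq_zero_iff_mem.2 h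
  have hdvd : s' ∣ b' := by
    rcases ValuationRing.dvd_total s' b' with h1 | ⟨x, hx⟩
    · exact h1
    · -- `s' = b' x`: then `x` is a unit
      have hb'0 : b' ≠ 0 := fun h0 => hs'0 (by rw [hx, h0, zero_mul])
      have e1 : b' ^ n * (v₂ : S) = b' ^ n * ((v₁ : S) * x ^ n) := by
        rw [hrel, hx, mul_pow]; ring
      have e2 : (v₂ : S) = (v₁ : S) * x ^ n := mul_left_cancel₀ (pow_ne_zero n hb'0) e1
      have hxn : IsUnit (x ^ n) := by
        have e3 : x ^ n = ((v₁⁻¹ : Sˣ) : S) * (v₂ : S) := by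
          rw [e2, ← mul_assoc, Units.inv_mul, one_mul]
        rw [e3]
        exact ((v₁⁻¹ * v₂ : Sˣ)).isUnit
      have hxu : IsUnit x := (isUnit_pow_iff hn.ne').1 hxn
      obtain ⟨xu, rfl⟩ := hxu
      refine ⟨((xu⁻¹ : Sˣ) : S), ?_⟩
      rw [hx, mul_assoc, Units.mul_inv, mul_one]
  obtain ⟨x, hx⟩ := hdvd
  obtain ⟨r, t, rfl⟩ := IsLocalization.exists_mk'_eq 𝔫'.primeCompl x
  obtain ⟨c, rfl⟩ := hmk r
  obtain ⟨u, hu⟩ := hmk (t : R)
  have hu𝔫 : u ∉ 𝔫 := fun h0 => t.2 (by rw [← hu]; exact (hmem u).2 h0)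
  refine ⟨u, c, hu𝔫, ?_⟩
  apply Ideal.Quotient.eq_zero_iff_mem.1
  apply hinjS
  rw [map_zero, map_sub, map_sub, map_mul, map_mul, map_mul, map_mul, sub_eq_zero, hu]
  show algebraMap R S (t : R) * b' = algebraMap R S (mk c) * s'
  rw [hx]
  have e5 : algebraMap R S (t : R) * IsLocalization.mk' S (mk c) t = algebraMap R S (mk c) := by
    rw [mul_comm, IsLocalization.mk'_spec]
  rw [mul_comm s', ← mul_assoc, e5]

end Algebra

section Chart

variable {F : Type*} [Field F] {B : Type*} [CommRing B] [Algebra B F]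

/-- a nonzero-valued element of `V` outside `𝔪(V)` has valuation `1` -/
theorem stb_gc_val_eq_one (V : ValuationSubring F) {x : F} (hx : x ∈ V)
    (hx' : x ∉ V.nonunits) : V.valuation x = 1 :=
  le_antisymm ((V.valuation_le_one_iff x).2 hx)
    (not_lt.1 fun h => hx' ((ValuationSubring.mem_nonunits_iff V).2 h))

/-- the vertical prime `𝔪(V) ∩ B` of a chart `B ⊆ V` -/
def stbGcVert (V : ValuationSubring F) (hBV : ∀ b : B, algebraMap B F b ∈ V) : Ideal B where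
  carrier := {b | algebraMap B F b ∈ V.nonunits}
  add_mem' := fun {a b} ha hb => by
    show algebraMap B F (a + b) ∈ V.nonunits
    rw [map_add]
    exact V.nonunits.add_mem ha hb
  zero_mem' := by
    show algebraMap B F 0 ∈ V.nonunits
    rw [map_zero]
    exact V.nonunits.zero_mem
  smul_mem' := fun c x hx => by
    show algebraMap B F (c * x) ∈ V.nonunits
    rw [map_mul]
    exact pwi_mul_mem_nonunits V (hBV c) hx

theorem stb_gc_mem_vert (V : ValuationSubring F) (hBV : ∀ b : B, algebraMap B F b ∈ V) {b : B} :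
    b ∈ stbGcVert V hBV ↔ algebraMap B F b ∈ V.nonunits := Iff.rfl

theorem stb_gc_vert_isPrime (V : ValuationSubring F) (hBV : ∀ b : B, algebraMap B F b ∈ V) :
    (stbGcVert V hBV).IsPrime := by
  refine ⟨fun h => ?_, fun {x y} hxy => ?_⟩
  · have h1 : (1 : B) ∈ stbGcVert V hBV := by rw [h]; exact Submodule.mem_top
    rw [stb_gc_mem_vert, map_one, ValuationSubring.mem_nonunits_iff, map_one] at h1
    exact lt_irrefl _ h1
  · by_contra hcon
    rw [not_or] at hcon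
    have hx := stb_gc_val_eq_one V (hBV x) hcon.1
    have hy := stb_gc_val_eq_one V (hBV y) hcon.2
    rw [stb_gc_mem_vert, map_mul, ValuationSubring.mem_nonunits_iff, map_mul, hx, hy,
      one_mul] at hxy
    exact lt_irrefl _ hxy

variable (hinj : Function.Injective (algebraMap B F)) (𝔫 : Ideal B) [h𝔫 : 𝔫.IsPrime]

include hinj in
theorem stb_gc_algebraMap_ne_zero {s : B} (hs : s ∉ 𝔫) : algebraMap B F s ≠ 0 := fun h0 =>
  hs (by rw [hinj (h0.trans (map_zero _).symm)]; exact 𝔫.zero_mem)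

/-- `B_𝔫 ⊆ V` if `B ⊆ V` and `V` goes through `𝔫`. -/
theorem stb_gc_le (V : ValuationSubring F) (hBV : ∀ b : B, algebraMap B F b ∈ V)
    (hthrough : ∀ b : B, algebraMap B F b ∈ V.nonunits → b ∈ 𝔫) :
    ∀ x ∈ ls_localSubring (F := F) 𝔫, x ∈ V := by
  rintro x ⟨b, s, hs, hx⟩
  have hvs : V.valuation (algebraMap B F s) = 1 :=
    stb_gc_val_eq_one V (hBV s) (fun h => hs (hthrough s h))
  have hs0 : algebraMap B F s ≠ 0 := fun h0 => by
    rw [h0, map_zero] at hvs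
    exact zero_ne_one hvs
  have e : x = algebraMap B F b * (algebraMap B F s)⁻¹ := by
    rw [← hx]; field_simp
  rw [e, ← V.valuation_le_one_iff, map_mul, map_inv₀, hvs, inv_one, mul_one]
  exact (V.valuation_le_one_iff _).2 (hBV b)

include hinj in
/-- the numerator of a unit of `B_𝔫` is not in `𝔫` -/
theorem stb_gc_num_not_mem {e : ls_localSubring (F := F) 𝔫} (he : IsUnit e) {e₁ e₂ : B}
    (he₂ : e₂ ∉ 𝔫) (h : algebraMap B F e₂ * (e : F) = algebraMap B F e₁) : e₁ ∉ 𝔫 := by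
  intro he₁
  obtain ⟨u, rfl⟩ := he
  obtain ⟨f₁, f₂, hf₂, hf⟩ := ((u⁻¹ : (ls_localSubring (F := F) 𝔫)ˣ) :
    ls_localSubring (F := F) 𝔫).2
  rw [stb_coe_inv] at hf
  have hu0 : ((u : ls_localSubring (F := F) 𝔫) : F) ≠ 0 := by
    intro h0
    have h1 : ((u : ls_localSubring (F := F) 𝔫) : F) *
        (((u⁻¹ : (ls_localSubring (F := F) 𝔫)ˣ) : ls_localSubring (F := F) 𝔫) : F) = 1 := by
      rw [← Subring.coe_mul, Units.mul_inv, Subring.coe_one]
    rw [h0, zero_mul] at h1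
    exact zero_ne_one h1
  have e1 : algebraMap B F (e₁ * f₁) = algebraMap B F (e₂ * f₂) := by
    rw [map_mul, map_mul, ← h, ← hf]
    field_simp
  have e2 : e₂ * f₂ ∈ 𝔫 := by
    rw [← hinj e1]
    exact 𝔫.mul_mem_right _ he₁
  rcases h𝔫.mem_or_mem e2 with h' | h'
  · exact he₂ h'
  · exact hf₂ h'

include hinj in
/-- **(N), chart form.**  `V` a valuation ring through the prime `𝔫` of the noetherian chart `B`,
`V = B_𝔭` (`hVloc`), `𝔫 = 𝔭 + (Y)` locally at `𝔫` (`hgen`).  An element `a` of `F` with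
`a ^ n ≡ e` at `V`, `e` a unit of `B_𝔫`, `0 < n`, is congruent at `V` to an element of `B_𝔫`. -/
theorem stb_gc_res [IsNoetherianRing B] (V : ValuationSubring F)
    (hBV : ∀ b : B, algebraMap B F b ∈ V)
    (hthrough : ∀ b : B, algebraMap B F b ∈ V.nonunits → b ∈ 𝔫)
    (hVloc : ∀ x : F, x ∈ V → ∃ b s : B, algebraMap B F s ∉ V.nonunits ∧
      algebraMap B F s * x = algebraMap B F b)
    (Y : B) (hY : Y ∈ 𝔫)
    (hgen : ∀ b ∈ 𝔫, ∃ u : B, u ∉ 𝔫 ∧ ∃ c : B, algebraMap B F (u * b - c * Y) ∈ V.nonunits)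
    (a : F) (e : ls_localSubring (F := F) 𝔫) (n : ℕ) (he : IsUnit e) (hn : 0 < n)
    (h : a ^ n - (e : F) ∈ V.nonunits) :
    ∃ α : ls_localSubring (F := F) 𝔫, a - (α : F) ∈ V.nonunits := by
  have := stb_gc_vert_isPrime V hBV
  have hOV := stb_gc_le 𝔫 V hBV hthrough
  obtain ⟨e₁, e₂, he₂, hee⟩ := e.2
  have he₁ : e₁ ∉ 𝔫 := stb_gc_num_not_mem hinj 𝔫 he he₂ hee
  -- `e` is a unit of `V`
  have hve : V.valuation (e : F) = 1 := by
    obtain ⟨u, rfl⟩ := he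
    have h1 : ((u : ls_localSubring (F := F) 𝔫) : F) *
        (((u⁻¹ : (ls_localSubring (F := F) 𝔫)ˣ) : ls_localSubring (F := F) 𝔫) : F) = 1 := by
      rw [← Subring.coe_mul, Units.mul_inv, Subring.coe_one]
    have h2 := (V.valuation_le_one_iff _).2 (hOV _ (u : ls_localSubring (F := F) 𝔫).2)
    have h3 := (V.valuation_le_one_iff _).2
      (hOV _ ((u⁻¹ : (ls_localSubring (F := F) 𝔫)ˣ) : ls_localSubring (F := F) 𝔫).2)
    have h4 := congrArg V.valuation h1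
    rw [map_mul, map_one] at h4
    refine le_antisymm h2 (not_lt.1 fun hlt => ?_)
    have : V.valuation ((u : ls_localSubring (F := F) 𝔫) : F) *
        V.valuation (((u⁻¹ : (ls_localSubring (F := F) 𝔫)ˣ) :
          ls_localSubring (F := F) 𝔫) : F) < 1 := mul_lt_one_of_lt_of_le hlt h3
    rw [h4] at this
    exact lt_irrefl _ this
  have hva : V.valuation a = 1 := stb_val_of_pow V hn (stb_val_of_sub V hve h)
  have haV : a ∈ V := (V.valuation_le_one_iff _).1 hva.le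
  obtain ⟨b, s, hs, hsa⟩ := hVloc a haV
  have hvs : V.valuation (algebraMap B F s) = 1 := stb_gc_val_eq_one V (hBV s) hs
  have hs0 : algebraMap B F s ≠ 0 := fun h0 => by
    rw [h0, map_zero] at hvs
    exact zero_ne_one hvs
  have he₂0 : algebraMap B F e₂ ≠ 0 := stb_gc_algebraMap_ne_zero hinj 𝔫 he₂
  have hrel : b ^ n * e₂ - e₁ * s ^ n ∈ stbGcVert V hBV := by
    rw [stb_gc_mem_vert]
    have e : algebraMap B F (b ^ n * e₂ - e₁ * s ^ n)
        = algebraMap B F (s ^ n * e₂) * (a ^ n - (e : F)) := by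
      rw [map_sub, map_mul, map_mul, map_pow, map_pow, map_mul, map_pow, ← hsa, ← hee]
      ring
    rw [e]
    exact pwi_mul_mem_nonunits V (hBV _) h
  obtain ⟨u, c, hu, huc⟩ := stb_gc_dvd (stbGcVert V hBV) 𝔫 (fun x hx => hthrough x hx) Y hY
    (fun b hb => by
      obtain ⟨u, hu, c, hc⟩ := hgen b hb
      exact ⟨u, hu, c, hc⟩) hn hs he₁ he₂ hrel
  have hu0 : algebraMap B F u ≠ 0 := stb_gc_algebraMap_ne_zero hinj 𝔫 hu
  have hvu : V.valuation (algebraMap B F u) = 1 :=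
    stb_gc_val_eq_one V (hBV u) (fun h => hu (hthrough u h))
  refine ⟨⟨algebraMap B F c / algebraMap B F u, ⟨c, u, hu, by field_simp⟩⟩, ?_⟩
  show a - algebraMap B F c / algebraMap B F u ∈ V.nonunits
  have e : a - algebraMap B F c / algebraMap B F u
      = (algebraMap B F s * algebraMap B F u)⁻¹ * algebraMap B F (u * b - c * s) := by
    rw [map_sub, map_mul, map_mul, ← hsa]
    field_simp
  rw [e]
  refine pwi_mul_mem_nonunits V ?_ huc
  rw [← V.valuation_le_one_iff, map_inv₀, map_mul, hvs, hvu, one_mul, inv_one]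

include hinj in
/-- **(N), chart form, with a unit.** -/
theorem stb_gc_res_unit [IsNoetherianRing B] (V : ValuationSubring F)
    (hBV : ∀ b : B, algebraMap B F b ∈ V)
    (hthrough : ∀ b : B, algebraMap B F b ∈ V.nonunits → b ∈ 𝔫)
    (hVloc : ∀ x : F, x ∈ V → ∃ b s : B, algebraMap B F s ∉ V.nonunits ∧
      algebraMap B F s * x = algebraMap B F b)
    (Y : B) (hY : Y ∈ 𝔫)
    (hgen : ∀ b ∈ 𝔫, ∃ u : B, u ∉ 𝔫 ∧ ∃ c : B, algebraMap B F (u * b - c * Y) ∈ V.nonunits)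
    (a : F) (e : ls_localSubring (F := F) 𝔫) (n : ℕ) (he : IsUnit e) (hn : 0 < n)
    (h : a ^ n - (e : F) ∈ V.nonunits) :
    ∃ α : F, α ∈ ls_localSubring (F := F) 𝔫 ∧ α⁻¹ ∈ ls_localSubring (F := F) 𝔫 ∧
      a - α ∈ V.nonunits := by
  obtain ⟨α, hα⟩ := stb_gc_res hinj 𝔫 V hBV hthrough hVloc Y hY hgen a e n he hn h
  have hOV := stb_gc_le 𝔫 V hBV hthrough
  refine ⟨α, α.2, ?_, hα⟩
  obtain ⟨c, u, hu, hcu⟩ := α.2
  obtain ⟨e₁, e₂, he₂, hee⟩ := e.2
  have he₁ : e₁ ∉ 𝔫 := stb_gc_num_not_mem hinj 𝔫 he he₂ hee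
  have hu0 : algebraMap B F u ≠ 0 := stb_gc_algebraMap_ne_zero hinj 𝔫 hu
  have he₂0 : algebraMap B F e₂ ≠ 0 := stb_gc_algebraMap_ne_zero hinj 𝔫 he₂
  -- `α ^ n ≡ e` at `V`
  have hve : V.valuation (e : F) = 1 := by
    have h1 := stb_val_of_sub V (b := a ^ n) (a := (e : F))
    by_contra hne
    have hle := (V.valuation_le_one_iff _).2 (hOV _ e.2)
    have hlt : V.valuation (e : F) < 1 := lt_of_le_of_ne hle hne
    -- then `a ^ n ∈ 𝔪(V)`, so `a ∈ 𝔪(V)`, so `α ∈ 𝔪(V)`: all nonunits; but `e` is a unit of `B_𝔫`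
    have hmem : algebraMap B F e₁ ∈ V.nonunits := by
      rw [← hee]
      exact pwi_mul_mem_nonunits V (hBV _) ((ValuationSubring.mem_nonunits_iff V).2 hlt)
    exact he₁ (hthrough _ hmem)
  have hva : V.valuation a = 1 := stb_val_of_pow V hn (stb_val_of_sub V hve h)
  have haV : a ∈ V := (V.valuation_le_one_iff _).1 hva.le
  have hα' : (α : F) - a ∈ V.nonunits := by
    have := V.nonunits.neg_mem hα
    rwa [neg_sub] at this
  have hαn : (α : F) ^ n - (e : F) ∈ V.nonunits := by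
    have e : (α : F) ^ n - (e : F) = ((α : F) ^ n - a ^ n) + (a ^ n - (e : F)) := by ring
    rw [e]
    exact V.nonunits.add_mem (stb_pow_sub_pow V (hOV _ α.2) haV hα' n) h
  have hc : c ∉ 𝔫 := by
    intro hc
    have h1 : algebraMap B F (c ^ n * e₂ - e₁ * u ^ n) ∈ V.nonunits := by
      have e : algebraMap B F (c ^ n * e₂ - e₁ * u ^ n)
          = algebraMap B F (u ^ n * e₂) * ((α : F) ^ n - (e : F)) := by
        rw [map_sub, map_mul, map_mul, map_pow, map_pow, map_mul, map_pow, ← hcu, ← hee]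
        ring
      rw [e]
      exact pwi_mul_mem_nonunits V (hBV _) hαn
    have h2 : c ^ n * e₂ - e₁ * u ^ n ∈ 𝔫 := hthrough _ h1
    have h3 : c ^ n * e₂ ∈ 𝔫 := 𝔫.mul_mem_right _ (Ideal.pow_mem_of_mem _ hc n hn)
    have h4 : e₁ * u ^ n ∈ 𝔫 := by
      have := 𝔫.sub_mem h3 h2
      rwa [sub_sub_cancel] at this
    rcases h𝔫.mem_or_mem h4 with h' | h'
    · exact he₁ h'
    · exact hu (h𝔫.mem_of_pow_mem n h')
  have hc0 : algebraMap B F c ≠ 0 := stb_gc_algebraMap_ne_zero hinj 𝔫 hc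
  refine ⟨u, c, hc, ?_⟩
  have e : (α : F) = algebraMap B F c / algebraMap B F u := by
    rw [← hcu]; field_simp
  rw [e]
  field_simp

/-- `hgen` at a crossing point, branch with parameter `Y` (`ϖ, X ∈ 𝔪(V)`). -/
theorem stb_gc_gen_node (V : ValuationSubring F) (hBV : ∀ b : B, algebraMap B F b ∈ V)
    {ϖ X Y : B} (hgenN : NodesLocGen 𝔫 {ϖ, X, Y})
    (hϖ : algebraMap B F ϖ ∈ V.nonunits) (hX : algebraMap B F X ∈ V.nonunits) :
    ∀ b ∈ 𝔫, ∃ u : B, u ∉ 𝔫 ∧ ∃ c : B, algebraMap B F (u * b - c * Y) ∈ V.nonunits := by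
  intro b hb
  obtain ⟨u, hu, hub⟩ := hgenN b hb
  rw [Ideal.mem_span_insert] at hub
  obtain ⟨c₁, z, hz, hub⟩ := hub
  rw [Ideal.mem_span_pair] at hz
  obtain ⟨c₂, c₃, rfl⟩ := hz
  refine ⟨u, hu, c₃, ?_⟩
  have e : u * b - c₃ * Y = c₁ * ϖ + c₂ * X := by rw [hub]; ring
  rw [e, map_add, map_mul, map_mul]
  exact V.nonunits.add_mem (pwi_mul_mem_nonunits V (hBV _) hϖ)
    (pwi_mul_mem_nonunits V (hBV _) hX)

/-- `hgen` at a crossing point, branch with parameter `X` (`ϖ, Y ∈ 𝔪(V)`). -/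
theorem stb_gc_gen_node' (V : ValuationSubring F) (hBV : ∀ b : B, algebraMap B F b ∈ V)
    {ϖ X Y : B} (hgenN : NodesLocGen 𝔫 {ϖ, X, Y})
    (hϖ : algebraMap B F ϖ ∈ V.nonunits) (hY : algebraMap B F Y ∈ V.nonunits) :
    ∀ b ∈ 𝔫, ∃ u : B, u ∉ 𝔫 ∧ ∃ c : B, algebraMap B F (u * b - c * X) ∈ V.nonunits := by
  intro b hb
  obtain ⟨u, hu, hub⟩ := hgenN b hb
  rw [Ideal.mem_span_insert] at hub
  obtain ⟨c₁, z, hz, hub⟩ := hub
  rw [Ideal.mem_span_pair] at hz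
  obtain ⟨c₂, c₃, rfl⟩ := hz
  refine ⟨u, hu, c₂, ?_⟩
  have e : u * b - c₂ * X = c₁ * ϖ + c₃ * Y := by rw [hub]; ring
  rw [e, map_add, map_mul, map_mul]
  exact V.nonunits.add_mem (pwi_mul_mem_nonunits V (hBV _) hϖ)
    (pwi_mul_mem_nonunits V (hBV _) hY)

/-- `hgen` at a smooth point `𝔫 = (ϖ, s)`. -/
theorem stb_gc_gen_disc (V : ValuationSubring F) (hBV : ∀ b : B, algebraMap B F b ∈ V)
    {ϖ s : B} (hgenN : NodesLocGen 𝔫 {ϖ, s}) (hϖ : algebraMap B F ϖ ∈ V.nonunits) :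
    ∀ b ∈ 𝔫, ∃ u : B, u ∉ 𝔫 ∧ ∃ c : B, algebraMap B F (u * b - c * s) ∈ V.nonunits := by
  intro b hb
  obtain ⟨u, hu, hub⟩ := hgenN b hb
  rw [Ideal.mem_span_pair] at hub
  obtain ⟨c₁, c₂, hub⟩ := hub
  refine ⟨u, hu, c₂, ?_⟩
  have e : u * b - c₂ * s = c₁ * ϖ := by rw [← hub]; ring
  rw [e, map_mul]
  exact pwi_mul_mem_nonunits V (hBV _) hϖ

include hinj in
/-- an element `b / s` of `B_𝔫` with `b ∈ 𝔫` is a nonunit -/
theorem stb_gc_mem_maximalIdeal [IsLocalRing (ls_localSubring (F := F) 𝔫)]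
    (x : ls_localSubring (F := F) 𝔫) {b s : B} (hb : b ∈ 𝔫) (hs : s ∉ 𝔫)
    (h : algebraMap B F s * (x : F) = algebraMap B F b) :
    x ∈ IsLocalRing.maximalIdeal (ls_localSubring (F := F) 𝔫) := by
  rw [IsLocalRing.mem_maximalIdeal, mem_nonunits_iff]
  intro hu
  exact stb_gc_num_not_mem hinj 𝔫 hu hs h hb

include hinj in
/-- a nonunit of `B_𝔫` is `b / s` with `b ∈ 𝔫` -/
theorem stb_gc_exists_of_mem_maximalIdeal [IsLocalRing (ls_localSubring (F := F) 𝔫)]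
    (x : ls_localSubring (F := F) 𝔫)
    (hx : x ∈ IsLocalRing.maximalIdeal (ls_localSubring (F := F) 𝔫)) :
    ∃ b s : B, b ∈ 𝔫 ∧ s ∉ 𝔫 ∧ algebraMap B F s * (x : F) = algebraMap B F b := by
  obtain ⟨b, s, hs, h⟩ := x.2
  refine ⟨b, s, ?_, hs, h⟩
  by_contra hb
  have hb0 : algebraMap B F b ≠ 0 := stb_gc_algebraMap_ne_zero hinj 𝔫 hb
  have hs0 : algebraMap B F s ≠ 0 := stb_gc_algebraMap_ne_zero hinj 𝔫 hs
  have hx0 : (x : F) ≠ 0 := fun h0 => hb0 (by rw [← h, h0, mul_zero])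
  have hinv : (x : F)⁻¹ ∈ ls_localSubring (F := F) 𝔫 := ⟨s, b, hb, by rw [← h]; field_simp⟩
  have hu : IsUnit x :=
    IsUnit.of_mul_eq_one ⟨(x : F)⁻¹, hinv⟩ (Subtype.ext (mul_inv_cancel₀ hx0))
  exact (IsLocalRing.mem_maximalIdeal _).1 hx hu

include hinj in
/-- **(S), chart form**: `𝔫 = 𝔭_∞ + 𝔭_0` in `B_𝔫` at a crossing point `𝔫 = (ϖ, X, Y)`. -/
theorem stb_gc_sum [IsLocalRing (ls_localSubring (F := F) 𝔫)] (Vinf V0 : ValuationSubring F)
    (hBinf : ∀ b : B, algebraMap B F b ∈ Vinf) (hB0 : ∀ b : B, algebraMap B F b ∈ V0)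
    (hthroughinf : ∀ b : B, algebraMap B F b ∈ Vinf.nonunits → b ∈ 𝔫)
    (hthrough0 : ∀ b : B, algebraMap B F b ∈ V0.nonunits → b ∈ 𝔫)
    {ϖ X Y : B} (hgenN : NodesLocGen 𝔫 {ϖ, X, Y})
    (hϖ : algebraMap B F ϖ ∈ Vinf.nonunits) (hX : algebraMap B F X ∈ Vinf.nonunits)
    (hY : algebraMap B F Y ∈ V0.nonunits) :
    ∀ x ∈ IsLocalRing.maximalIdeal (ls_localSubring (F := F) 𝔫),
      ∃ a b : ls_localSubring (F := F) 𝔫,
        (a : F) ∈ Vinf.nonunits ∧ (b : F) ∈ V0.nonunits ∧ x = a + b := by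
  intro x hx
  obtain ⟨b, s, hb, hs, h⟩ := stb_gc_exists_of_mem_maximalIdeal hinj 𝔫 x hx
  obtain ⟨u, hu, hub⟩ := hgenN b hb
  rw [Ideal.mem_span_insert] at hub
  obtain ⟨c₁, z, hz, hub⟩ := hub
  rw [Ideal.mem_span_pair] at hz
  obtain ⟨c₂, c₃, rfl⟩ := hz
  have hus : u * s ∉ 𝔫 := fun h' => by
    rcases h𝔫.mem_or_mem h' with h'' | h''
    · exact hu h''
    · exact hs h''
  have hus0 : algebraMap B F (u * s) ≠ 0 := stb_gc_algebraMap_ne_zero hinj 𝔫 hus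
  have hvinf : Vinf.valuation (algebraMap B F (u * s)) = 1 :=
    stb_gc_val_eq_one Vinf (hBinf _) (fun h' => hus (hthroughinf _ h'))
  have hv0 : V0.valuation (algebraMap B F (u * s)) = 1 :=
    stb_gc_val_eq_one V0 (hB0 _) (fun h' => hus (hthrough0 _ h'))
  refine ⟨⟨algebraMap B F (c₁ * ϖ + c₂ * X) / algebraMap B F (u * s),
      ⟨c₁ * ϖ + c₂ * X, u * s, hus, by field_simp⟩⟩,
    ⟨algebraMap B F (c₃ * Y) / algebraMap B F (u * s), ⟨c₃ * Y, u * s, hus, by field_simp⟩⟩,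
    ?_, ?_, ?_⟩
  · show algebraMap B F (c₁ * ϖ + c₂ * X) / algebraMap B F (u * s) ∈ Vinf.nonunits
    rw [div_eq_inv_mul]
    refine pwi_mul_mem_nonunits Vinf ?_ ?_
    · rw [← Vinf.valuation_le_one_iff, map_inv₀, hvinf, inv_one]
    · rw [map_add, map_mul, map_mul]
      exact Vinf.nonunits.add_mem (pwi_mul_mem_nonunits Vinf (hBinf _) hϖ)
        (pwi_mul_mem_nonunits Vinf (hBinf _) hX)
  · show algebraMap B F (c₃ * Y) / algebraMap B F (u * s) ∈ V0.nonunits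
    rw [div_eq_inv_mul]
    refine pwi_mul_mem_nonunits V0 ?_ ?_
    · rw [← V0.valuation_le_one_iff, map_inv₀, hv0, inv_one]
    · rw [map_mul]
      exact pwi_mul_mem_nonunits V0 (hB0 _) hY
  · apply Subtype.ext
    show (x : F) = algebraMap B F (c₁ * ϖ + c₂ * X) / algebraMap B F (u * s)
      + algebraMap B F (c₃ * Y) / algebraMap B F (u * s)
    rw [← add_div, ← map_add]
    have e : c₁ * ϖ + c₂ * X + c₃ * Y = u * b := by rw [hub]; ring
    rw [e, eq_div_iff hus0, map_mul, map_mul, ← h]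
    ring

include hinj in
/-- **(SS1-loc), chart form.** -/
theorem stb_gc_inter (Vinf V0 : ValuationSubring F)
    (hBinf : ∀ b : B, algebraMap B F b ∈ Vinf) (hB0 : ∀ b : B, algebraMap B F b ∈ V0)
    (ϖ : B)
    (hSS1 : ∀ b : B, algebraMap B F b ∈ Vinf.nonunits → algebraMap B F b ∈ V0.nonunits →
      ∃ b' : B, b = ϖ * b') :
    ∀ x : ls_localSubring (F := F) 𝔫, (x : F) ∈ Vinf.nonunits → (x : F) ∈ V0.nonunits →
      x ∈ ls_localIdeal (F := F) 𝔫 ϖ := by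
  intro x hxinf hx0
  obtain ⟨b, s, hs, h⟩ := x.2
  have h1 : algebraMap B F b ∈ Vinf.nonunits := by
    rw [← h]; exact pwi_mul_mem_nonunits Vinf (hBinf s) hxinf
  have h2 : algebraMap B F b ∈ V0.nonunits := by
    rw [← h]; exact pwi_mul_mem_nonunits V0 (hB0 s) hx0
  obtain ⟨b', rfl⟩ := hSS1 b h1 h2
  rw [ls_mem_localIdeal]
  have hs0 : algebraMap B F s ≠ 0 := stb_gc_algebraMap_ne_zero hinj 𝔫 hs
  refine ⟨algebraMap B F b' / algebraMap B F s, ⟨b', s, hs, by field_simp⟩, ?_⟩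
  rw [map_mul] at h
  rw [eq_comm, mul_div_assoc', div_eq_iff hs0, ← h]
  ring

include hinj in
/-- **(Fr), chart form**: Frobenius congruence on `B` modulo `𝔫` ⇒ on `B_𝔫` modulo its maximal
ideal (and `Φ B_𝔫 ⊆ B_𝔫`). -/
theorem stb_gc_frob [IsLocalRing (ls_localSubring (F := F) 𝔫)] (Φ : F →+* F) (Q : ℕ)
    (hfrobB : ∀ b : B, ∃ c ∈ 𝔫, Φ (algebraMap B F b) = algebraMap B F b ^ Q + algebraMap B F c) :
    ∀ x : ls_localSubring (F := F) 𝔫,
      ∃ z ∈ IsLocalRing.maximalIdeal (ls_localSubring (F := F) 𝔫),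
        (z : F) = Φ (x : F) - (x : F) ^ Q := by
  intro x
  obtain ⟨b, s, hs, h⟩ := x.2
  obtain ⟨cb, hcb, hΦb⟩ := hfrobB b
  obtain ⟨cs, hcs, hΦs⟩ := hfrobB s
  have hs0 : algebraMap B F s ≠ 0 := stb_gc_algebraMap_ne_zero hinj 𝔫 hs
  have hsQ : s ^ Q ∉ 𝔫 := fun h' => hs (h𝔫.mem_of_pow_mem Q h')
  have hs₂ : s ^ Q + cs ∉ 𝔫 := fun h' => hsQ (by
    have := 𝔫.sub_mem h' hcs
    rwa [add_sub_cancel_right] at this)
  have hden : (s ^ Q + cs) * s ^ Q ∉ 𝔫 := fun h' => by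
    rcases h𝔫.mem_or_mem h' with h'' | h''
    · exact hs₂ h''
    · exact hsQ h''
  have hden0 : algebraMap B F ((s ^ Q + cs) * s ^ Q) ≠ 0 := stb_gc_algebraMap_ne_zero hinj 𝔫 hden
  have hs₂0 : algebraMap B F (s ^ Q + cs) ≠ 0 := stb_gc_algebraMap_ne_zero hinj 𝔫 hs₂
  have hnum : cb * s ^ Q - b ^ Q * cs ∈ 𝔫 :=
    𝔫.sub_mem (𝔫.mul_mem_right _ hcb) (𝔫.mul_mem_left _ hcs)
  have hx : (x : F) = algebraMap B F b / algebraMap B F s := by
    rw [← h]; field_simp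
  have hΦs' : Φ (algebraMap B F s) = algebraMap B F (s ^ Q + cs) := by
    rw [hΦs, map_add, map_pow]
  have key : algebraMap B F ((s ^ Q + cs) * s ^ Q) * (Φ (x : F) - (x : F) ^ Q)
      = algebraMap B F (cb * s ^ Q - b ^ Q * cs) := by
    rw [hx, map_div₀, hΦb, hΦs', div_pow]
    have hsQ0 : algebraMap B F s ^ Q ≠ 0 := pow_ne_zero _ hs0
    simp only [map_mul, map_sub, map_add, map_pow] at hs₂0 ⊢
    field_simp
    ring
  have hmem : Φ (x : F) - (x : F) ^ Q ∈ ls_localSubring (F := F) 𝔫 := ⟨_, _, hden, key⟩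
  exact ⟨⟨_, hmem⟩, stb_gc_mem_maximalIdeal hinj 𝔫 ⟨_, hmem⟩ hnum hden key, rfl⟩

include hinj in
/-- **STB-G, chart form (crossing point).**  `B` a noetherian chart, `𝔫` a prime of `B`
through which both vertical valuations `Vinf`, `V0` pass, `(SS1)` on `B`,
`𝔫 = (ϖ, X, Y)` locally with `X ∈ 𝔭_∞`, `Y ∈ 𝔭_0` (SS3), `V_c = B_{𝔭_c}`; `Φ` a ring
endomorphism of `F` preserving `𝔪(V_c)` and inducing the `Q`-th power map on `B / 𝔫`.
If `y = ε γ ^ m` with `ε` a unit of `B_𝔫`, `y ≡ t_c ^ m` and `H ≡ Φ t_c / t_c ^ Q` at `V_c`,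
then `w′ := (Φ y / y ^ Q) / H ^ m` has the shape of `PwiShape` at the point `𝔫`. -/
theorem stb_glue_frob_chart [IsNoetherianRing B] [IsLocalRing (ls_localSubring (F := F) 𝔫)]
    (Vinf V0 : ValuationSubring F)
    (hBinf : ∀ b : B, algebraMap B F b ∈ Vinf) (hB0 : ∀ b : B, algebraMap B F b ∈ V0)
    (hthroughinf : ∀ b : B, algebraMap B F b ∈ Vinf.nonunits → b ∈ 𝔫)
    (hthrough0 : ∀ b : B, algebraMap B F b ∈ V0.nonunits → b ∈ 𝔫)
    (hVlocinf : ∀ x : F, x ∈ Vinf → ∃ b s : B, algebraMap B F s ∉ Vinf.nonunits ∧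
      algebraMap B F s * x = algebraMap B F b)
    (hVloc0 : ∀ x : F, x ∈ V0 → ∃ b s : B, algebraMap B F s ∉ V0.nonunits ∧
      algebraMap B F s * x = algebraMap B F b)
    {ϖ X Y : B}
    (hSS1 : ∀ b : B, algebraMap B F b ∈ Vinf.nonunits → algebraMap B F b ∈ V0.nonunits →
      ∃ b' : B, b = ϖ * b')
    (hgenN : NodesLocGen 𝔫 {ϖ, X, Y})
    (hϖinf : algebraMap B F ϖ ∈ Vinf.nonunits) (hϖ0 : algebraMap B F ϖ ∈ V0.nonunits)
    (hX : algebraMap B F X ∈ Vinf.nonunits) (hY : algebraMap B F Y ∈ V0.nonunits)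
    (Φ : F →+* F) (Q : ℕ)
    (hΦinf : ∀ x ∈ Vinf.nonunits, Φ x ∈ Vinf.nonunits)
    (hΦ0 : ∀ x ∈ V0.nonunits, Φ x ∈ V0.nonunits)
    (hfrobB : ∀ b : B, ∃ c ∈ 𝔫, Φ (algebraMap B F b) = algebraMap B F b ^ Q + algebraMap B F c)
    {m : ℕ} (hm : 0 < m) {y γ ε tinf t0 H : F}
    (hε : ε ∈ ls_localSubring (F := F) 𝔫) (hε' : ε⁻¹ ∈ ls_localSubring (F := F) 𝔫)
    (hy : y = ε * γ ^ m)
    (htinf : y / tinf ^ m - 1 ∈ Vinf.nonunits) (ht0 : y / t0 ^ m - 1 ∈ V0.nonunits)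
    (hHinf : H / (Φ tinf / tinf ^ Q) - 1 ∈ Vinf.nonunits)
    (hH0 : H / (Φ t0 / t0 ^ Q) - 1 ∈ V0.nonunits) :
    ∃ ε' γ' : F, ∃ hε' : ε' ∈ ls_localSubring (F := F) 𝔫,
      (⟨ε', hε'⟩ - 1 : ls_localSubring (F := F) 𝔫) ∈ ls_localIdeal (F := F) 𝔫 ϖ ∧
      γ' - 1 ∈ Vinf.nonunits ∧ γ' - 1 ∈ V0.nonunits ∧
      Φ y / y ^ Q / H ^ m = ε' * γ' ^ m := by
  have hXn : X ∈ 𝔫 := hthroughinf X hX
  have hYn : Y ∈ 𝔫 := hthrough0 Y hY
  have hr0 := stb_ne_zero_of_congr Vinf htinf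
  have hy0 : y ≠ 0 := fun h => hr0 (by rw [h, zero_div])
  have hε0 : ε ≠ 0 := fun h => hy0 (by rw [hy, h, zero_mul])
  have hεu : IsUnit (⟨ε, hε⟩ : ls_localSubring (F := F) 𝔫) :=
    IsUnit.of_mul_eq_one ⟨ε⁻¹, hε'⟩ (Subtype.ext (mul_inv_cancel₀ hε0))
  exact stb_glue_frob (ls_localSubring (F := F) 𝔫) (ls_localIdeal (F := F) 𝔫 ϖ) Vinf V0
    (stb_gc_le 𝔫 Vinf hBinf hthroughinf) (stb_gc_le 𝔫 V0 hB0 hthrough0)
    (stb_gc_inter hinj 𝔫 Vinf V0 hBinf hB0 ϖ hSS1)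
    (stb_gc_sum hinj 𝔫 Vinf V0 hBinf hB0 hthroughinf hthrough0 hgenN hϖinf hX hY)
    (fun a e n he hn h => stb_gc_res hinj 𝔫 Vinf hBinf hthroughinf hVlocinf Y hYn
      (stb_gc_gen_node 𝔫 Vinf hBinf hgenN hϖinf hX) a e n he hn h)
    (fun a e n he hn h => stb_gc_res hinj 𝔫 V0 hB0 hthrough0 hVloc0 X hXn
      (stb_gc_gen_node' 𝔫 V0 hB0 hgenN hϖ0 hY) a e n he hn h)
    Φ Q hΦinf hΦ0 (stb_gc_frob hinj 𝔫 Φ Q hfrobB) hm ⟨ε, hε⟩ hεu hy htinf ht0 hHinf hH0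

end Chart

end Fermat.Agent.STB


end ZBUNIP_007_10
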