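/- GENERATED FILE (helper35, build-time optimisation, NOTES/ZB.md): verbatim concatenation of the modules
   Fermat.Agent.S34.ALAbstract
   Fermat.Agent.S34.ALMain
   Fermat.Agent.UNIP.Cheap
   Fermat.Agent.UNIP.MGVert
   Fermat.Agent.UNIP.MGVertInertia
   Fermat.Agent.UNIP.FrStab
   Fermat.Agent.STB.ToricTransfer
   Fermat.Agent.S36.ALQ
   Fermat.Agent.S36.N2W
   Fermat.Agent.S36.MidCuspPlan
   Do not edit; do not import together with these modules. -/
import Mathlib
import Fermat.Agent.ZB.S20_001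
import Fermat.Prelude.Def_ModularCurve_X0ModL
import Fermat.Agent.ZB.ES_001
import Fermat.Agent.ZB.S28_002
import Fermat.Agent.ZB.INJ_003
import Fermat.Agent.ZB.UNIP_007
import Fermat.Agent.ZB.UNIP_006
import Fermat.Agent.ZB.INJ_005
import Fermat.Agent.ZB.ES_002

/-! ### bundled: `Fermat.Agent.S34.ALAbstract` -/
section ZBS34_001_0

/-!
# Automorphisms of a finitely generated field from a symmetry of the relations

`exists_algEquiv_adjoin_of_rel` : let `x : ι → L` be a family in a field extension `L / K` and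
`σ : ι → ι` an involution such that every polynomial relation `p(x) = 0` over `K` implies
`p(x ∘ σ) = 0`.  Then there is a `K`-algebra automorphism `w` of `K(x)` with `w (x i) = x (σ i)`,
and `w ∘ w = id`.
-/

set_option autoImplicit false

noncomputable section

namespace Fermat.Agent.AL

open MvPolynomial

variable {K L : Type*} [Field K] [Field L] [Algebra K L] {ι : Type*}

section Ring

variable (x : ι → L) (σ : ι → ι)

theorem alAbs_aeval_comp (p : MvPolynomial ι K) :
    aeval (x ∘ σ) p = aeval x (rename σ p) := (aeval_rename σ x p).symm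

variable {x σ}

theorem alAbs_rel_symm (hσ : ∀ i, σ (σ i) = i)
    (hrel : ∀ p : MvPolynomial ι K, aeval x p = 0 → aeval (x ∘ σ) p = 0)
    (p : MvPolynomial ι K) (hp : aeval (x ∘ σ) p = 0) : aeval x p = 0 := by
  have h1 : aeval x (rename σ p) = 0 := by rw [← alAbs_aeval_comp]; exact hp
  have h2 := hrel _ h1
  rw [alAbs_aeval_comp, rename_rename] at h2
  have h3 : (σ ∘ σ) = id := funext hσ
  rwa [h3, rename_id_apply] at h2

theorem alAbs_ker_eq (hσ : ∀ i, σ (σ i) = i)
    (hrel : ∀ p : MvPolynomial ι K, aeval x p = 0 → aeval (x ∘ σ) p = 0) :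
    RingHom.ker (aeval x : MvPolynomial ι K →ₐ[K] L) =
      RingHom.ker (aeval (x ∘ σ) : MvPolynomial ι K →ₐ[K] L) := by
  ext p
  rw [RingHom.mem_ker, RingHom.mem_ker]
  exact ⟨hrel p, alAbs_rel_symm hσ hrel p⟩

theorem alAbs_range_eq (hσ : ∀ i, σ (σ i) = i) :
    (aeval (x ∘ σ) : MvPolynomial ι K →ₐ[K] L).range =
      (aeval x : MvPolynomial ι K →ₐ[K] L).range := by
  rw [← Algebra.adjoin_range_eq_range_aeval, ← Algebra.adjoin_range_eq_range_aeval]
  congr 1
  apply Set.Subset.antisymm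
  · rintro _ ⟨i, rfl⟩
    exact ⟨σ i, rfl⟩
  · rintro _ ⟨i, rfl⟩
    exact ⟨σ i, by simp [hσ i]⟩

/-- The automorphism of the range of `aeval x`. -/
def alAbsRangeEquiv (hσ : ∀ i, σ (σ i) = i)
    (hrel : ∀ p : MvPolynomial ι K, aeval x p = 0 → aeval (x ∘ σ) p = 0) :
    (aeval x : MvPolynomial ι K →ₐ[K] L).range ≃ₐ[K]
      (aeval x : MvPolynomial ι K →ₐ[K] L).range :=
  (Ideal.quotientKerAlgEquivOfSurjective
      (AlgHom.rangeRestrict_surjective (aeval x : MvPolynomial ι K →ₐ[K] L))).symm.trans <|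
    (Ideal.quotientEquivAlgOfEq K (by
      rw [AlgHom.ker_rangeRestrict, AlgHom.ker_rangeRestrict]
      exact alAbs_ker_eq hσ hrel)).trans <|
    (Ideal.quotientKerAlgEquivOfSurjective
      (AlgHom.rangeRestrict_surjective (aeval (x ∘ σ) : MvPolynomial ι K →ₐ[K] L))).trans <|
    Subalgebra.equivOfEq _ _ (alAbs_range_eq hσ)

theorem alAbsRangeEquiv_apply (hσ : ∀ i, σ (σ i) = i)
    (hrel : ∀ p : MvPolynomial ι K, aeval x p = 0 → aeval (x ∘ σ) p = 0)
    (p : MvPolynomial ι K) :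
    ((alAbsRangeEquiv hσ hrel ((aeval x : MvPolynomial ι K →ₐ[K] L).rangeRestrict p) :
      (aeval x : MvPolynomial ι K →ₐ[K] L).range) : L) = aeval (x ∘ σ) p := by
  unfold alAbsRangeEquiv
  simp only [AlgEquiv.trans_apply]
  rw [Ideal.quotientKerAlgEquivOfSurjective_symm_apply]
  rfl

theorem alAbsRangeEquiv_coe (hσ : ∀ i, σ (σ i) = i)
    (hrel : ∀ p : MvPolynomial ι K, aeval x p = 0 → aeval (x ∘ σ) p = 0)
    (a : (aeval x : MvPolynomial ι K →ₐ[K] L).range) (p : MvPolynomial ι K)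
    (hp : aeval x p = (a : L)) :
    ((alAbsRangeEquiv hσ hrel a : (aeval x : MvPolynomial ι K →ₐ[K] L).range) : L) =
      aeval (x ∘ σ) p := by
  have : a = (aeval x : MvPolynomial ι K →ₐ[K] L).rangeRestrict p := Subtype.ext hp.symm
  rw [this]
  exact alAbsRangeEquiv_apply hσ hrel p

theorem alAbsRangeEquiv_invol (hσ : ∀ i, σ (σ i) = i)
    (hrel : ∀ p : MvPolynomial ι K, aeval x p = 0 → aeval (x ∘ σ) p = 0)
    (a : (aeval x : MvPolynomial ι K →ₐ[K] L).range) :
    alAbsRangeEquiv hσ hrel (alAbsRangeEquiv hσ hrel a) = a := by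
  obtain ⟨p, hp⟩ := a.2
  apply Subtype.ext
  have h1 := alAbsRangeEquiv_coe hσ hrel a p hp
  have h2 := alAbsRangeEquiv_coe hσ hrel (alAbsRangeEquiv hσ hrel a) (rename σ p)
    (by rw [h1, alAbs_aeval_comp])
  rw [h2, alAbs_aeval_comp, rename_rename]
  have h3 : (σ ∘ σ) = id := funext hσ
  rw [h3, rename_id_apply]
  exact hp

end Ring

section Field

open IntermediateField
open scoped IntermediateField.algebraAdjoinAdjoin

variable {x : ι → L} {σ : ι → ι}

/-- The automorphism of `K[x]`. -/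
def alAbsAdjoinEquiv (hσ : ∀ i, σ (σ i) = i)
    (hrel : ∀ p : MvPolynomial ι K, aeval x p = 0 → aeval (x ∘ σ) p = 0) :
    Algebra.adjoin K (Set.range x) ≃ₐ[K] Algebra.adjoin K (Set.range x) :=
  (Subalgebra.equivOfEq _ _ (Algebra.adjoin_range_eq_range_aeval K x)).trans <|
    (alAbsRangeEquiv hσ hrel).trans
      (Subalgebra.equivOfEq _ _ (Algebra.adjoin_range_eq_range_aeval K x).symm)

theorem alAbsAdjoinEquiv_coe (hσ : ∀ i, σ (σ i) = i)
    (hrel : ∀ p : MvPolynomial ι K, aeval x p = 0 → aeval (x ∘ σ) p = 0)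
    (a : Algebra.adjoin K (Set.range x)) (p : MvPolynomial ι K) (hp : aeval x p = (a : L)) :
    ((alAbsAdjoinEquiv hσ hrel a : Algebra.adjoin K (Set.range x)) : L) = aeval (x ∘ σ) p := by
  unfold alAbsAdjoinEquiv
  simp only [AlgEquiv.trans_apply]
  exact alAbsRangeEquiv_coe hσ hrel _ p hp

theorem alAbsAdjoinEquiv_gen (hσ : ∀ i, σ (σ i) = i)
    (hrel : ∀ p : MvPolynomial ι K, aeval x p = 0 → aeval (x ∘ σ) p = 0) (i : ι) :
    ((alAbsAdjoinEquiv hσ hrel ⟨x i, Algebra.subset_adjoin ⟨i, rfl⟩⟩ :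
      Algebra.adjoin K (Set.range x)) : L) = x (σ i) := by
  rw [alAbsAdjoinEquiv_coe hσ hrel _ (X i) (by simp)]
  simp

theorem alAbsAdjoinEquiv_invol (hσ : ∀ i, σ (σ i) = i)
    (hrel : ∀ p : MvPolynomial ι K, aeval x p = 0 → aeval (x ∘ σ) p = 0)
    (a : Algebra.adjoin K (Set.range x)) :
    alAbsAdjoinEquiv hσ hrel (alAbsAdjoinEquiv hσ hrel a) = a := by
  unfold alAbsAdjoinEquiv
  simp only [AlgEquiv.trans_apply]
  apply Subtype.ext
  have := alAbsRangeEquiv_invol hσ hrel
    (Subalgebra.equivOfEq _ _ (Algebra.adjoin_range_eq_range_aeval K x) a)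
  have h2 := congrArg (fun z : (aeval x : MvPolynomial ι K →ₐ[K] L).range => (z : L)) this
  exact h2

/-- The automorphism of `K(x)`. -/
def alAbsFieldEquiv (hσ : ∀ i, σ (σ i) = i)
    (hrel : ∀ p : MvPolynomial ι K, aeval x p = 0 → aeval (x ∘ σ) p = 0) :
    adjoin K (Set.range x) ≃ₐ[K] adjoin K (Set.range x) :=
  IsFractionRing.algEquivOfAlgEquiv (alAbsAdjoinEquiv hσ hrel)

theorem alAbsFieldEquiv_algebraMap (hσ : ∀ i, σ (σ i) = i)
    (hrel : ∀ p : MvPolynomial ι K, aeval x p = 0 → aeval (x ∘ σ) p = 0)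
    (a : Algebra.adjoin K (Set.range x)) :
    alAbsFieldEquiv hσ hrel (algebraMap _ (adjoin K (Set.range x)) a) =
      algebraMap _ (adjoin K (Set.range x)) (alAbsAdjoinEquiv hσ hrel a) :=
  IsFractionRing.algEquivOfAlgEquiv_algebraMap _ a

theorem alAbsFieldEquiv_gen (hσ : ∀ i, σ (σ i) = i)
    (hrel : ∀ p : MvPolynomial ι K, aeval x p = 0 → aeval (x ∘ σ) p = 0) (i : ι) :
    ((alAbsFieldEquiv hσ hrel ⟨x i, subset_adjoin K _ ⟨i, rfl⟩⟩ : adjoin K (Set.range x)) : L) =
      x (σ i) := by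
  have h := alAbsFieldEquiv_algebraMap hσ hrel ⟨x i, Algebra.subset_adjoin ⟨i, rfl⟩⟩
  have h2 := congrArg (fun z : adjoin K (Set.range x) => (z : L)) h
  simp only [algebraAdjoinAdjoin.coe_algebraMap] at h2
  rw [alAbsAdjoinEquiv_gen] at h2
  exact h2

theorem alAbsFieldEquiv_invol (hσ : ∀ i, σ (σ i) = i)
    (hrel : ∀ p : MvPolynomial ι K, aeval x p = 0 → aeval (x ∘ σ) p = 0)
    (y : adjoin K (Set.range x)) :
    alAbsFieldEquiv hσ hrel (alAbsFieldEquiv hσ hrel y) = y := by
  obtain ⟨a, b, -, rfl⟩ := IsFractionRing.div_surjective (Algebra.adjoin K (Set.range x)) y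
  rw [map_div₀, map_div₀, alAbsFieldEquiv_algebraMap, alAbsFieldEquiv_algebraMap,
    alAbsFieldEquiv_algebraMap, alAbsFieldEquiv_algebraMap, alAbsAdjoinEquiv_invol,
    alAbsAdjoinEquiv_invol]

end Field

end Fermat.Agent.AL

end


end ZBS34_001_0

/-! ### bundled: `Fermat.Agent.S34.ALMain` -/
section ZBS34_001_1

/-!
# The Atkin–Lehner automorphism `w_q` of the function field of `X₀(qM)`, `q ∤ M` prime

For a field `K` with a ring homomorphism `K →+* ℂ` (e.g. `ℚ`, a number field, `ℚ̄`, `ℂ`) and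
`N = M * q` with `q` prime, `q ∤ M`:

* `alRel` : every polynomial relation over `K` between the `j(Q^e)`, `e ∣ N`, also holds after the
  swap `d ↔ d q` (`d ∣ M`) of the indices;
* `atkinLehner K ι hq hqM : F_N ≃ₐ[K] F_N` (`F_N = modularFunctionFieldFullC K N`), with
  `atkinLehner_low  : w (j(Q^d)) = j(Q^{dq})`, `atkinLehner_high : w (j(Q^{dq})) = j(Q^d)`,
  `atkinLehner_invol : w (w y) = y`.
-/

set_option autoImplicit false
set_option linter.unusedSectionVars false

noncomputable section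

namespace Fermat.Agent.AL

open ModularCurve MvPolynomial UpperHalfPlane
open Fermat.Agent.S23 Fermat.Agent.S24 Fermat.Agent.S28

/-! ### The index swap -/

/-- The swap `d ↔ d q` on the divisors of `N` (identity elsewhere). -/
def alSwap (q N e : ℕ) : ℕ := if e ∣ N then (if q ∣ e then e / q else e * q) else e

section Swap

variable {q M : ℕ} (hq : q.Prime) (hqM : ¬ q ∣ M)

include hq hqM

theorem alSwap_low {d : ℕ} (hd : d ∣ M) : alSwap q (M * q) d = d * q := by
  have h1 : d ∣ M * q := hd.mul_right q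
  have h2 : ¬ q ∣ d := fun h => hqM (h.trans hd)
  rw [alSwap, if_pos h1, if_neg h2]

theorem alSwap_high {d : ℕ} (hd : d ∣ M) : alSwap q (M * q) (d * q) = d := by
  have h1 : d * q ∣ M * q := Nat.mul_dvd_mul_right hd q
  rw [alSwap, if_pos h1, if_pos (Dvd.intro_left d rfl), Nat.mul_div_cancel _ hq.pos]

theorem al_divisor_cases {e : ℕ} (he : e ∣ M * q) :
    (e ∣ M) ∨ ∃ d, d ∣ M ∧ e = d * q := by
  by_cases h : q ∣ e
  · obtain ⟨d, rfl⟩ := h
    right
    refine ⟨d, ?_, mul_comm _ _⟩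
    rw [mul_comm M q] at he
    exact (Nat.mul_dvd_mul_iff_left hq.pos).mp he
  · left
    exact (Nat.Coprime.dvd_mul_right ((hq.coprime_iff_not_dvd.mpr h).symm)).mp he

theorem alSwap_dvd {e : ℕ} (he : e ∣ M * q) : alSwap q (M * q) e ∣ M * q := by
  rcases al_divisor_cases hq hqM he with h | ⟨d, hd, rfl⟩
  · rw [alSwap_low hq hqM h]; exact Nat.mul_dvd_mul_right h q
  · rw [alSwap_high hq hqM hd]; exact hd.mul_right q

theorem alSwap_invol (e : ℕ) : alSwap q (M * q) (alSwap q (M * q) e) = e := by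
  by_cases he : e ∣ M * q
  · rcases al_divisor_cases hq hqM he with h | ⟨d, hd, rfl⟩
    · rw [alSwap_low hq hqM h, alSwap_high hq hqM h]
    · rw [alSwap_high hq hqM hd, alSwap_low hq hqM hd]
  · have : alSwap q (M * q) e = e := by rw [alSwap, if_neg he]
    rw [this, this]

end Swap

/-! ### The generators -/

/-- The generator `j(Q^e)` for `e ∣ N` (and `0` otherwise). -/
def alGen (K : Type*) [CommRing K] (N e : ℕ) : LaurentSeries K :=
  if h : e = 0 then 0 else if e ∣ N then @qExpand K _ e ⟨h⟩ (jqModC K) else 0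

theorem alGen_of_dvd (K : Type*) [CommRing K] {N e : ℕ} [NeZero e] (he : e ∣ N) :
    alGen K N e = qExpand K e (jqModC K) := by
  rw [alGen, dif_neg (NeZero.ne e), if_pos he]

theorem alGen_of_not_dvd (K : Type*) [CommRing K] {N e : ℕ} (he : ¬ e ∣ N) :
    alGen K N e = 0 := by
  rw [alGen]
  split_ifs <;> rfl

theorem alGen_zero (K : Type*) [CommRing K] (N : ℕ) : alGen K N 0 = 0 := by
  rw [alGen, dif_pos rfl]

theorem coeffMap_alGen {K S : Type*} [CommRing K] [CommRing S] (f : K →+* S) (N e : ℕ) :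
    coeffMap f (alGen K N e) = alGen S N e := by
  by_cases h0 : e = 0
  · subst h0; rw [alGen_zero, alGen_zero, map_zero]
  · have : NeZero e := ⟨h0⟩
    by_cases he : e ∣ N
    · rw [alGen_of_dvd K he, alGen_of_dvd S he]
      exact coeffMap_jqNModC f e
    · rw [alGen_of_not_dvd K he, alGen_of_not_dvd S he, map_zero]

theorem range_alGen (K : Type*) [Field K] (N : ℕ) [NeZero N] :
    Set.range (alGen K N) = insert 0 (divisorExpansionsC K N) := by
  ext y
  constructor
  · rintro ⟨e, rfl⟩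
    by_cases h0 : e = 0
    · subst h0; rw [alGen_zero]; exact Set.mem_insert _ _
    · have : NeZero e := ⟨h0⟩
      by_cases he : e ∣ N
      · rw [alGen_of_dvd K he]
        exact Set.mem_insert_of_mem _ (mem_divisorExpansionsC K N he)
      · rw [alGen_of_not_dvd K he]; exact Set.mem_insert _ _
  · rintro (rfl | ⟨d, hd0, hd, rfl⟩)
    · exact ⟨0, alGen_zero K N⟩
    · exact ⟨d, alGen_of_dvd K hd⟩

theorem adjoin_range_alGen (K : Type*) [Field K] (N : ℕ) [NeZero N] :
    IntermediateField.adjoin K (Set.range (alGen K N)) = modularFunctionFieldFullC K N := by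
  rw [range_alGen, modularFunctionFieldFullC]
  apply le_antisymm
  · rw [IntermediateField.adjoin_le_iff]
    rintro y (rfl | hy)
    · exact zero_mem _
    · exact IntermediateField.subset_adjoin K _ hy
  · exact IntermediateField.adjoin.mono K _ _ (Set.subset_insert _ _)

/-! ### The function family -/

/-- The function `τ ↦ J(e τ)` for `e ∣ N` (and `0` otherwise). -/
def alFun (N e : ℕ) : ℍ → ℂ :=
  if h : e = 0 then 0 else if e ∣ N then fun τ => Jfun (@scaleN e ⟨h⟩ τ) else 0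

theorem alFun_of_dvd {N e : ℕ} [NeZero e] (he : e ∣ N) :
    alFun N e = fun τ => Jfun (scaleN e τ) := by
  rw [alFun, dif_neg (NeZero.ne e), if_pos he]

theorem alFun_of_not_dvd {N e : ℕ} (he : ¬ e ∣ N) : alFun N e = 0 := by
  rw [alFun]
  split_ifs <;> rfl

theorem alFun_zero (N : ℕ) : alFun N 0 = 0 := by
  rw [alFun, dif_pos rfl]

theorem alFun_isMerInf (N e : ℕ) : IsMerInf (alFun N e) := by
  by_cases h0 : e = 0
  · subst h0; rw [alFun_zero]; exact merInf.zero_mem
  · have : NeZero e := ⟨h0⟩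
    by_cases he : e ∣ N
    · rw [alFun_of_dvd he]; exact isMerInf_comp_scaleN e isMerInf_Jfun
    · rw [alFun_of_not_dvd he]; exact merInf.zero_mem

/-- The function family, in the algebra `merInf`. -/
def alFunM (N e : ℕ) : merInf := ⟨alFun N e, alFun_isMerInf N e⟩

theorem laurentExp_alFunM (N e : ℕ) : laurentExp (alFunM N e) = alGen ℂ N e := by
  rw [laurentExp_apply]
  show laurentOf (alFun N e) = _
  by_cases h0 : e = 0
  · subst h0; rw [alFun_zero, alGen_zero]; exact laurentOf_zero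
  · have : NeZero e := ⟨h0⟩
    by_cases he : e ∣ N
    · rw [alFun_of_dvd he, alGen_of_dvd ℂ he]; exact laurentOf_Jfun_scaleN e
    · rw [alFun_of_not_dvd he, alGen_of_not_dvd ℂ he]; exact laurentOf_zero

section Analytic

variable {q M : ℕ} [NeZero q] [NeZero M] (hq : q.Prime) (hqM : ¬ q ∣ M)
  (a b : ℤ) (h : (q : ℤ) * a - (M : ℤ) * b = 1)

include hq hqM

/-- `J_e ∘ W = J_{swap e}`. -/
theorem alFun_alW (e : ℕ) (τ : ℍ) :
    alFun (M * q) e (alW q M a b h τ) = alFun (M * q) (alSwap q (M * q) e) τ := by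
  by_cases he : e ∣ M * q
  · rcases al_divisor_cases hq hqM he with hd | ⟨d, hd, rfl⟩
    · have hd0 : e ≠ 0 := fun h0 => NeZero.ne M (by rw [h0, zero_dvd_iff] at hd; exact hd)
      have : NeZero e := ⟨hd0⟩
      have : NeZero (e * q) := ⟨Nat.mul_ne_zero hd0 (NeZero.ne q)⟩
      have h2 : e * q ∣ M * q := Nat.mul_dvd_mul_right hd q
      rw [alSwap_low hq hqM hd, alFun_of_dvd he, alFun_of_dvd h2]
      exact alW_J_low q M a b h hd τ
    · have hd0 : d ≠ 0 := fun h0 => NeZero.ne M (by rw [h0, zero_dvd_iff] at hd; exact hd)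
      have : NeZero d := ⟨hd0⟩
      have : NeZero (d * q) := ⟨Nat.mul_ne_zero hd0 (NeZero.ne q)⟩
      have h2 : d ∣ M * q := hd.mul_right q
      rw [alSwap_high hq hqM hd, alFun_of_dvd he, alFun_of_dvd h2]
      exact alW_J_high q M a b h hd τ
  · have : alSwap q (M * q) e = e := by rw [alSwap, if_neg he]
    rw [this, alFun_of_not_dvd he]
    rfl

end Analytic

/-! ### Stability of the relations -/

/-- Evaluation at a point, as an algebra homomorphism on `merInf`. -/
def alEval (τ : ℍ) : merInf →ₐ[ℂ] ℂ :=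
  (Pi.evalAlgHom ℂ (fun _ : ℍ => ℂ) τ).comp merInf.val

theorem alEval_apply (τ : ℍ) (f : merInf) : alEval τ f = (f : ℍ → ℂ) τ := rfl

theorem al_coeffMap_aeval {K : Type*} [Field K] (ι : K →+* ℂ) (y : ℕ → LaurentSeries K)
    (p : MvPolynomial ℕ K) :
    coeffMap ι (aeval y p) = aeval (fun e => coeffMap ι (y e)) (MvPolynomial.map ι p) := by
  rw [aeval_def, aeval_def, eval₂_map, eval₂_comp_left]
  congr 1
  ext c : 1
  simp only [RingHom.comp_apply]
  rw [algebraMap_laurentSeries_eq_single, algebraMap_laurentSeries_eq_single, coeffMap_single]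

theorem al_coeffMap_injective {K : Type*} [Field K] (ι : K →+* ℂ) :
    Function.Injective (coeffMap ι) := by
  intro x y hxy
  ext k
  have := congrArg (fun z : LaurentSeries ℂ => z.coeff k) hxy
  simp only [coeffMap_coeff] at this
  exact ι.injective this

section Rel

variable {q M : ℕ} [NeZero q] [NeZero M] (hq : q.Prime) (hqM : ¬ q ∣ M)

include hq hqM

/-- Stability of the relations over `ℂ`. -/
theorem alRel_complex (p : MvPolynomial ℕ ℂ) (hp : aeval (alGen ℂ (M * q)) p = 0) :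
    aeval (alGen ℂ (M * q) ∘ alSwap q (M * q)) p = 0 := by
  -- Bezout
  have hcop : IsCoprime (q : ℤ) (M : ℤ) :=
    Nat.isCoprime_iff_coprime.mpr ((Nat.Prime.coprime_iff_not_dvd hq).mpr hqM)
  obtain ⟨u, v, huv⟩ := hcop
  have hab : (q : ℤ) * u - (M : ℤ) * (-v) = 1 := by linear_combination huv
  -- the relation between functions
  have e1 : aeval (alGen ℂ (M * q)) p = laurentExp (aeval (alFunM (M * q)) p) := by
    rw [comp_aeval_apply]
    exact congrArg (fun f => aeval f p)
      (funext fun e => (laurentExp_alFunM (M * q) e).symm)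
  have h1 : aeval (alFunM (M * q)) p = 0 := by
    apply laurentExp_injective
    rw [← e1, hp, map_zero]
  have h2 : aeval (alFunM (M * q) ∘ alSwap q (M * q)) p = 0 := by
    apply Subtype.ext
    funext τ
    have e2 : alEval τ (aeval (alFunM (M * q) ∘ alSwap q (M * q)) p) =
        alEval (alW q M u (-v) hab τ) (aeval (alFunM (M * q)) p) := by
      rw [comp_aeval_apply, comp_aeval_apply]
      exact congrArg (fun f => aeval f p)
        (funext fun e => (alFun_alW hq hqM u (-v) hab e τ).symm)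
    rw [h1, map_zero] at e2
    exact e2
  have e3 : aeval (alGen ℂ (M * q) ∘ alSwap q (M * q)) p =
      laurentExp (aeval (alFunM (M * q) ∘ alSwap q (M * q)) p) := by
    rw [comp_aeval_apply]
    exact congrArg (fun f => aeval f p)
      (funext fun e => (laurentExp_alFunM (M * q) _).symm)
  rw [e3, h2, map_zero]

/-- **Stability of the relations** between the `j(Q^e)`, `e ∣ qM`, under the swap `d ↔ dq`. -/
theorem alRel {K : Type*} [Field K] (ι : K →+* ℂ) (p : MvPolynomial ℕ K)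
    (hp : aeval (alGen K (M * q)) p = 0) :
    aeval (alGen K (M * q) ∘ alSwap q (M * q)) p = 0 := by
  apply al_coeffMap_injective ι
  rw [map_zero, al_coeffMap_aeval]
  have h1 := al_coeffMap_aeval ι (alGen K (M * q)) p
  rw [hp, map_zero] at h1
  have h2 : (fun e => coeffMap ι (alGen K (M * q) e)) = alGen ℂ (M * q) :=
    funext fun e => coeffMap_alGen ι (M * q) e
  rw [h2] at h1
  have h3 := alRel_complex hq hqM _ h1.symm
  have h4 : (fun e => coeffMap ι ((alGen K (M * q) ∘ alSwap q (M * q)) e)) =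
      alGen ℂ (M * q) ∘ alSwap q (M * q) :=
    funext fun e => coeffMap_alGen ι (M * q) _
  rw [h4]
  exact h3

end Rel

/-! ### The automorphism -/

section Main

variable (K : Type*) [Field K] (ι : K →+* ℂ) {q M : ℕ} [NeZero q] [NeZero M] [NeZero (M * q)]
  (hq : q.Prime) (hqM : ¬ q ∣ M)

/-- The Atkin–Lehner automorphism of `K(range alGen)`. -/
def atkinLehnerAux : IntermediateField.adjoin K (Set.range (alGen K (M * q))) ≃ₐ[K]
    IntermediateField.adjoin K (Set.range (alGen K (M * q))) :=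
  alAbsFieldEquiv (x := alGen K (M * q)) (σ := alSwap q (M * q)) (alSwap_invol hq hqM)
    (fun p hp => alRel hq hqM ι p hp)

/-- **The Atkin–Lehner automorphism `w_q`** of `F_{Mq} = K(j(Q^e) : e ∣ Mq)`, `q ∤ M` prime. -/
def atkinLehner : modularFunctionFieldFullC K (M * q) ≃ₐ[K] modularFunctionFieldFullC K (M * q) :=
  (IntermediateField.equivOfEq (adjoin_range_alGen K (M * q)).symm).trans
    ((atkinLehnerAux K ι hq hqM).trans (IntermediateField.equivOfEq (adjoin_range_alGen K (M * q))))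

theorem alGen_mem (e : ℕ) : alGen K (M * q) e ∈ modularFunctionFieldFullC K (M * q) := by
  rw [← adjoin_range_alGen]
  exact IntermediateField.subset_adjoin K _ ⟨e, rfl⟩

/-- `w_q (j_e) = j_{swap e}`. -/
theorem atkinLehner_gen (e : ℕ) :
    ((atkinLehner K ι hq hqM ⟨alGen K (M * q) e, alGen_mem K e⟩ :
      modularFunctionFieldFullC K (M * q)) : LaurentSeries K) =
      alGen K (M * q) (alSwap q (M * q) e) :=
  alAbsFieldEquiv_gen (x := alGen K (M * q)) (σ := alSwap q (M * q)) (alSwap_invol hq hqM)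
    (fun p hp => alRel hq hqM ι p hp) e

/-- `w_q ∘ w_q = id`. -/
theorem atkinLehner_invol (y : modularFunctionFieldFullC K (M * q)) :
    atkinLehner K ι hq hqM (atkinLehner K ι hq hqM y) = y := by
  unfold atkinLehner
  simp only [AlgEquiv.trans_apply]
  apply Subtype.ext
  have h := alAbsFieldEquiv_invol (x := alGen K (M * q)) (σ := alSwap q (M * q))
    (alSwap_invol hq hqM) (fun p hp => alRel hq hqM ι p hp)
    (IntermediateField.equivOfEq (adjoin_range_alGen K (M * q)).symm y)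
  exact congrArg (fun z : IntermediateField.adjoin K (Set.range (alGen K (M * q))) =>
    (z : LaurentSeries K)) h

theorem atkinLehner_symm : (atkinLehner K ι hq hqM).symm = atkinLehner K ι hq hqM := by
  apply AlgEquiv.ext
  intro y
  rw [AlgEquiv.symm_apply_eq, atkinLehner_invol]

/-- `w_q (j(Q^d)) = j(Q^{dq})` for `d ∣ M`. -/
theorem atkinLehner_low {d : ℕ} [NeZero d] [NeZero (d * q)] (hd : d ∣ M) :
    ((atkinLehner K ι hq hqM
      ⟨qExpand K d (jqModC K), jqModCd_mem_full K (M * q) (hd.mul_right q)⟩ :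
      modularFunctionFieldFullC K (M * q)) : LaurentSeries K) =
      qExpand K (d * q) (jqModC K) := by
  have h1 := atkinLehner_gen K ι hq hqM d
  rw [alSwap_low hq hqM hd, alGen_of_dvd K (Nat.mul_dvd_mul_right hd q)] at h1
  rw [← h1]
  congr 2
  exact Subtype.ext (alGen_of_dvd K (hd.mul_right q)).symm

/-- `w_q (j(Q^{dq})) = j(Q^d)` for `d ∣ M`. -/
theorem atkinLehner_high {d : ℕ} [NeZero d] [NeZero (d * q)] (hd : d ∣ M) :
    ((atkinLehner K ι hq hqM
      ⟨qExpand K (d * q) (jqModC K), jqModCd_mem_full K (M * q) (Nat.mul_dvd_mul_right hd q)⟩ :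
      modularFunctionFieldFullC K (M * q)) : LaurentSeries K) =
      qExpand K d (jqModC K) := by
  have h1 := atkinLehner_gen K ι hq hqM (d * q)
  rw [alSwap_high hq hqM hd, alGen_of_dvd K (hd.mul_right q)] at h1
  rw [← h1]
  congr 2
  exact Subtype.ext (alGen_of_dvd K (Nat.mul_dvd_mul_right hd q)).symm

end Main

/-! ### Uniqueness, the values on `F_M`, and the action on coefficients -/

section Ext

variable (K : Type*) [Field K]

/-- Two ring homomorphisms on `F_N` which agree on the constants and on the generators are equal. -/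
theorem al_ringHom_ext {L : Type*} [DivisionRing L] (N : ℕ) [NeZero N]
    (φ₁ φ₂ : modularFunctionFieldFullC K N →+* L)
    (hK : ∀ c : K, φ₁ (algebraMap K _ c) = φ₂ (algebraMap K _ c))
    (hgen : ∀ (d : ℕ) [NeZero d] (hd : d ∣ N),
      φ₁ ⟨qExpand K d (jqModC K), jqModCd_mem_full K N hd⟩ =
        φ₂ ⟨qExpand K d (jqModC K), jqModCd_mem_full K N hd⟩) :
    φ₁ = φ₂ := by
  apply RingHom.ext
  rintro ⟨y, hy⟩
  refine IntermediateField.adjoin_induction (F := K) (s := divisorExpansionsC K N)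
    (p := fun x hx => φ₁ ⟨x, hx⟩ = φ₂ ⟨x, hx⟩) ?_ ?_ ?_ ?_ ?_ hy
  · rintro x ⟨d, hne, hdvd, rfl⟩
    exact @hgen d hne hdvd
  · intro c
    exact hK c
  · intro x y hx hy h1 h2
    have e : (⟨x + y, add_mem hx hy⟩ : modularFunctionFieldFullC K N) = ⟨x, hx⟩ + ⟨y, hy⟩ := rfl
    rw [e, map_add, map_add, h1, h2]
  · intro x hx h1
    have e : (⟨x⁻¹, inv_mem hx⟩ : modularFunctionFieldFullC K N) = (⟨x, hx⟩)⁻¹ := rfl
    rw [e, map_inv₀, map_inv₀, h1]
  · intro x y hx hy h1 h2
    have e : (⟨x * y, mul_mem hx hy⟩ : modularFunctionFieldFullC K N) = ⟨x, hx⟩ * ⟨y, hy⟩ := rfl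
    rw [e, map_mul, map_mul, h1, h2]

end Ext

section Values

variable (K : Type*) [Field K] (ι : K →+* ℂ) {q M : ℕ} [NeZero q] [NeZero M] [NeZero (M * q)]
  (hq : q.Prime) (hqM : ¬ q ∣ M)

theorem al_mem_of_mem_low {f : LaurentSeries K} (hf : f ∈ modularFunctionFieldFullC K M) :
    f ∈ modularFunctionFieldFullC K (M * q) :=
  full_degeneracyC_le K (Dvd.intro q rfl) hf

theorem al_qExpand_mem {f : LaurentSeries K} (hf : f ∈ modularFunctionFieldFullC K M) :
    qExpand K q f ∈ modularFunctionFieldFullC K (M * q) :=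
  full_degeneracyC_map_le K M q ⟨f, hf, rfl⟩

/-- **`w_q f = f(Q^q)` for `f ∈ F_M`.** -/
theorem atkinLehner_of_mem_low {f : LaurentSeries K} (hf : f ∈ modularFunctionFieldFullC K M) :
    ((atkinLehner K ι hq hqM ⟨f, al_mem_of_mem_low K hf⟩ :
      modularFunctionFieldFullC K (M * q)) : LaurentSeries K) = qExpand K q f := by
  set φ₁ : modularFunctionFieldFullC K M →+* LaurentSeries K :=
    ((modularFunctionFieldFullC K (M * q)).val : _ →+* LaurentSeries K).comp
      ((atkinLehner K ι hq hqM).toRingEquiv.toRingHom.comp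
        (IntermediateField.inclusion (full_degeneracyC_le K (Dvd.intro q rfl)) :
          modularFunctionFieldFullC K M →ₐ[K] modularFunctionFieldFullC K (M * q)).toRingHom)
    with hφ₁
  set φ₂ : modularFunctionFieldFullC K M →+* LaurentSeries K :=
    (qExpand K q).comp ((modularFunctionFieldFullC K M).val : _ →+* LaurentSeries K) with hφ₂
  have key : φ₁ = φ₂ := by
    apply al_ringHom_ext K M
    · intro c
      show ((atkinLehner K ι hq hqM (algebraMap K _ c) : modularFunctionFieldFullC K (M * q)) :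
        LaurentSeries K) = qExpand K q (algebraMap K (LaurentSeries K) c)
      rw [AlgEquiv.commutes]
      exact ((qExpandAlgHomC K q).commutes c).symm
    · intro d _ hd
      have : NeZero (d * q) := ⟨Nat.mul_ne_zero (NeZero.ne d) (NeZero.ne q)⟩
      show ((atkinLehner K ι hq hqM ⟨qExpand K d (jqModC K), _⟩ :
        modularFunctionFieldFullC K (M * q)) : LaurentSeries K) =
          qExpand K q (qExpand K d (jqModC K))
      rw [atkinLehner_low K ι hq hqM hd, qExpand_qExpand]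
      exact qExpand_congr (mul_comm d q) _
  exact congrArg (fun φ : modularFunctionFieldFullC K M →+* LaurentSeries K => φ ⟨f, hf⟩) key

/-- **`w_q (f(Q^q)) = f` for `f ∈ F_M`.** -/
theorem atkinLehner_qExpand {f : LaurentSeries K} (hf : f ∈ modularFunctionFieldFullC K M) :
    ((atkinLehner K ι hq hqM ⟨qExpand K q f, al_qExpand_mem K hf⟩ :
      modularFunctionFieldFullC K (M * q)) : LaurentSeries K) = f := by
  have h1 := atkinLehner_of_mem_low K ι hq hqM hf
  have h2 : (⟨qExpand K q f, al_qExpand_mem K hf⟩ : modularFunctionFieldFullC K (M * q)) =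
      atkinLehner K ι hq hqM ⟨f, al_mem_of_mem_low K hf⟩ := Subtype.ext h1.symm
  rw [h2, atkinLehner_invol]

end Values

section Galois

variable (K : Type*) [Field K] (ι : K →+* ℂ) {q M : ℕ} [NeZero q] [NeZero M] [NeZero (M * q)]
  (hq : q.Prime) (hqM : ¬ q ∣ M)

/-- The action on coefficients preserves `F_N`. -/
theorem al_coeffMap_mem (N : ℕ) [NeZero N] (σ : K →+* K) {y : LaurentSeries K}
    (hy : y ∈ modularFunctionFieldFullC K N) : coeffMap σ y ∈ modularFunctionFieldFullC K N := by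
  refine IntermediateField.adjoin_induction (F := K) (s := divisorExpansionsC K N)
    (p := fun x _ => coeffMap σ x ∈ modularFunctionFieldFullC K N) ?_ ?_ ?_ ?_ ?_ hy
  · rintro x ⟨d, hne, hdvd, rfl⟩
    have := hne
    have h := coeffMap_jqNModC σ d
    rw [jqNModC] at h
    rw [h]
    exact jqModCd_mem_full K N hdvd
  · intro c
    rw [algebraMap_laurentSeries_eq_single, coeffMap_single, ← algebraMap_laurentSeries_eq_single]
    exact IntermediateField.algebraMap_mem _ _
  · intro x y _ _ h1 h2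
    rw [map_add]; exact add_mem h1 h2
  · intro x _ h1
    rw [map_inv₀]; exact inv_mem h1
  · intro x y _ _ h1 h2
    rw [map_mul]; exact mul_mem h1 h2

/-- **`w_q` commutes with the action of ring endomorphisms of `K` on the coefficients.** -/
theorem atkinLehner_coeffMap (σ : K →+* K) (y : modularFunctionFieldFullC K (M * q)) :
    ((atkinLehner K ι hq hqM ⟨coeffMap σ (y : LaurentSeries K), al_coeffMap_mem K (M * q) σ y.2⟩ :
      modularFunctionFieldFullC K (M * q)) : LaurentSeries K) =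
      coeffMap σ ((atkinLehner K ι hq hqM y : modularFunctionFieldFullC K (M * q)) :
        LaurentSeries K) := by
  set τ : modularFunctionFieldFullC K (M * q) →+* modularFunctionFieldFullC K (M * q) :=
    ((coeffMap σ).comp ((modularFunctionFieldFullC K (M * q)).val : _ →+* LaurentSeries K)).codRestrict
      (modularFunctionFieldFullC K (M * q)).toSubfield.toSubring
      (fun z => al_coeffMap_mem K (M * q) σ z.2) with hτ
  set φ₁ : modularFunctionFieldFullC K (M * q) →+* LaurentSeries K :=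
    ((modularFunctionFieldFullC K (M * q)).val : _ →+* LaurentSeries K).comp
      ((atkinLehner K ι hq hqM).toRingEquiv.toRingHom.comp τ) with hφ₁
  set φ₂ : modularFunctionFieldFullC K (M * q) →+* LaurentSeries K :=
    (coeffMap σ).comp (((modularFunctionFieldFullC K (M * q)).val : _ →+* LaurentSeries K).comp
      (atkinLehner K ι hq hqM).toRingEquiv.toRingHom) with hφ₂
  have hgenfix : ∀ e : ℕ, coeffMap σ (alGen K (M * q) e) = alGen K (M * q) e :=
    fun e => coeffMap_alGen σ (M * q) e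
  have key : φ₁ = φ₂ := by
    apply al_ringHom_ext K (M * q)
    · intro c
      show ((atkinLehner K ι hq hqM (τ (algebraMap K _ c)) : modularFunctionFieldFullC K (M * q)) :
        LaurentSeries K) = coeffMap σ ((atkinLehner K ι hq hqM (algebraMap K _ c) :
          modularFunctionFieldFullC K (M * q)) : LaurentSeries K)
      have e1 : τ (algebraMap K _ c) = algebraMap K _ (σ c) := by
        apply Subtype.ext
        show coeffMap σ (algebraMap K (LaurentSeries K) c) = algebraMap K (LaurentSeries K) (σ c)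
        rw [algebraMap_laurentSeries_eq_single, coeffMap_single,
          ← algebraMap_laurentSeries_eq_single]
      rw [e1, AlgEquiv.commutes, AlgEquiv.commutes]
      show algebraMap K (LaurentSeries K) (σ c) = coeffMap σ (algebraMap K (LaurentSeries K) c)
      rw [algebraMap_laurentSeries_eq_single, algebraMap_laurentSeries_eq_single, coeffMap_single]
    · intro d _ hd
      show ((atkinLehner K ι hq hqM (τ ⟨qExpand K d (jqModC K), _⟩) :
        modularFunctionFieldFullC K (M * q)) : LaurentSeries K) =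
          coeffMap σ ((atkinLehner K ι hq hqM ⟨qExpand K d (jqModC K), _⟩ :
            modularFunctionFieldFullC K (M * q)) : LaurentSeries K)
      have e0 : (⟨qExpand K d (jqModC K), jqModCd_mem_full K (M * q) hd⟩ :
          modularFunctionFieldFullC K (M * q)) = ⟨alGen K (M * q) d, alGen_mem K d⟩ :=
        Subtype.ext (alGen_of_dvd K hd).symm
      have e1 : τ ⟨alGen K (M * q) d, alGen_mem K d⟩ = ⟨alGen K (M * q) d, alGen_mem K d⟩ :=
        Subtype.ext (hgenfix d)
      rw [e0, e1, atkinLehner_gen, hgenfix]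
  exact congrArg (fun φ : modularFunctionFieldFullC K (M * q) →+* LaurentSeries K => φ y) key

end Galois

end Fermat.Agent.AL

end


end ZBS34_001_1

/-! ### bundled: `Fermat.Agent.UNIP.Cheap` -/
section ZBS34_001_2
/-
UNIP (item 34, S34/S35), piece U6 "Cheap" (helper20): the cheap half (β) of `ESUnip`.

`A ⊂ ℚ̄` a valuation ring over a prime `ℓ`, `σ` in the inertia group of `A`, `F_N ⊂ ℚ̄((q))`.
* `cheap_infty` : for every `u ∈ F_N^×` there is a constant `c ≠ 0` such that
  `c · σ(u) / u` reduces to one at the Gauss valuation `v_∞` of the `q`-expansion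
  (`ReducesToOne`, `ES/G2/Plan.lean`).  No hypothesis on `N` (so also for `ℓ ∣ N`).
* `atkinLehnerBar` : the Atkin–Lehner involution `w_q` of `F_{Mq}` over `ℚ̄` (helper90's
  `AL.atkinLehner`, transported to `modularFunctionFieldBar (M * q)`), with its API.
* `cheap_zero` : the same at `v_0 = v_∞ ∘ w_q`.
* `cheap` : both together.
-/

set_option autoImplicit false

noncomputable section

namespace Fermat.Agent.UNIP

open ModularCurve AlgebraicCurve Fermat.Agent.ES Fermat.Agent.ES.G2 HahnSeries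

/-- the action of `σ ∈ G_ℚ` on `F_N ⊂ ℚ̄((q))` is the action on the coefficients -/
theorem cheap_smul_coe (N : ℕ) (σ : Qb ≃ₐ[ℚ] Qb) (Y : modularFunctionFieldBar N) :
    ((arithmeticGalois (modularFunctionFieldFull N) σ • Y : modularFunctionFieldBar N) :
      LaurentSeries Qb) = coeffMap (σ : Qb →+* Qb) (Y : LaurentSeries Qb) := rfl

/-- **(β) at `v_∞`**: for `σ` in the inertia group and `u ∈ F_N^×`, `σ(u)/u` is a constant times
an element which reduces to one. -/
theorem cheap_infty (N : ℕ) [NeZero N] (ℓ : ℕ) (hℓ : ℓ.Prime) (A : ValuationSubring Qb)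
    (hA : A.LiesOverPrime ℓ) (σ : Qb ≃ₐ[ℚ] Qb) (hσ : σ ∈ A.inertiaSubgroupIn ℚ)
    (u : modularFunctionFieldBar N) (hu : u ≠ 0) :
    ∃ c : Qb, c ≠ 0 ∧
      ReducesToOne A N (algebraMap Qb (modularFunctionFieldBar N) c *
        ((arithmeticGalois (modularFunctionFieldFull N) σ • u) / u)) := by
  obtain ⟨c, y₁, y₂, hc, hy₁, hy₂, hP₁, hP₂, he⟩ := stmtPrim N ℓ hℓ A hA u hu
  have hy₁0 : y₁ ≠ 0 := unram_ne_zero_of_kronPrim hP₁
  have hy₂0 : y₂ ≠ 0 := unram_ne_zero_of_kronPrim hP₂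
  set g := arithmeticGalois (modularFunctionFieldFull N) σ with hg
  have hσdec : σ ∈ A.decompositionSubgroup ℚ := kron_mem_decomposition_of_mem_inertia hσ
  have hσc : σ c ≠ 0 := (map_ne_zero_iff _ σ.injective).mpr hc
  have hσy₁0 : coeffMap (σ : Qb →+* Qb) y₁ ≠ 0 :=
    (map_ne_zero_iff _ (coeffMap (σ : Qb →+* Qb)).injective).mpr hy₁0
  have hσy₂0 : coeffMap (σ : Qb →+* Qb) y₂ ≠ 0 :=
    (map_ne_zero_iff _ (coeffMap (σ : Qb →+* Qb)).injective).mpr hy₂0
  have hu0 : (u : LaurentSeries Qb) ≠ 0 := fun h => hu (Subtype.ext h)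
  -- the conjugate relation
  have he' : coeffMap (σ : Qb →+* Qb) (u : LaurentSeries Qb) * coeffMap (σ : Qb →+* Qb) y₂ =
      HahnSeries.C (σ c) * coeffMap (σ : Qb →+* Qb) y₁ := by
    have := congrArg (coeffMap (σ : Qb →+* Qb)) he
    rw [map_mul, map_mul] at this
    rw [this]
    congr 1
    show coeffMap (σ : Qb →+* Qb) (HahnSeries.single 0 c) = HahnSeries.single 0 (σ c)
    rw [coeffMap_single]
    rfl
  refine ⟨c / σ c, div_ne_zero hc hσc, ?_⟩
  refine ⟨coeffMap (σ : Qb →+* Qb) y₁ * y₂, coeffMap (σ : Qb →+* Qb) y₂ * y₁,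
    mul_mem (coeffMap_mem_laurentBaseChange σ hy₁) hy₂,
    mul_mem (coeffMap_mem_laurentBaseChange σ hy₂) hy₁,
    (hP₁.coeffMap_of_mem_decomposition σ hσdec).mul hP₂,
    (hP₂.coeffMap_of_mem_decomposition σ hσdec).mul hP₁, ?_, ?_⟩
  · have c1 : KronCongr A (coeffMap (σ : Qb →+* Qb) y₁ * y₂) (y₁ * y₂) :=
      KronCongr.mul (hP₁.1.coeffMap_of_mem_decomposition σ hσdec) hP₁.1 hP₂.1 hP₂.1
        (kron_inertia_congr hσ hP₁.1) (KronCongr.refl (A := A) y₂)
    have c2 : KronCongr A (coeffMap (σ : Qb →+* Qb) y₂ * y₁) (y₂ * y₁) :=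
      KronCongr.mul (hP₂.1.coeffMap_of_mem_decomposition σ hσdec) hP₂.1 hP₁.1 hP₁.1
        (kron_inertia_congr hσ hP₂.1) (KronCongr.refl (A := A) y₁)
    rw [mul_comm y₂ y₁] at c2
    exact c1.trans c2.symm
  · -- the fraction
    show (algebraMap Qb (LaurentSeries Qb) (c / σ c) *
        (coeffMap (σ : Qb →+* Qb) (u : LaurentSeries Qb) / (u : LaurentSeries Qb))) *
          (coeffMap (σ : Qb →+* Qb) y₂ * y₁) = coeffMap (σ : Qb →+* Qb) y₁ * y₂
    have hCc : (HahnSeries.C c : LaurentSeries Qb) ≠ 0 :=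
      (map_ne_zero_iff _ HahnSeries.C_injective).mpr hc
    have hCσc : (HahnSeries.C (σ c) : LaurentSeries Qb) ≠ 0 :=
      (map_ne_zero_iff _ HahnSeries.C_injective).mpr hσc
    have hA1 : algebraMap Qb (LaurentSeries Qb) (c / σ c) =
        (HahnSeries.C c : LaurentSeries Qb) / HahnSeries.C (σ c) := by
      rw [LaurentSeries.algebraMap_apply, map_div₀]
    rw [hA1]
    field_simp
    -- goal: C c * σu * (σy₂ * y₁) = σy₁ * y₂ * (C σc * u)   (up to arrangement)
    have e1 : (HahnSeries.C c : LaurentSeries Qb) * y₁ = (u : LaurentSeries Qb) * y₂ := he.symm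
    linear_combination
      (y₁ * (HahnSeries.C c : LaurentSeries Qb)) * he' +
        (HahnSeries.C (σ c) * coeffMap (σ : Qb →+* Qb) y₁) * e1

/-! ### The Atkin–Lehner involution on `modularFunctionFieldBar (M * q)` -/

/-- an embedding `ℚ̄ → ℂ` (only used to have the relations between the `j(q^d)` stable under
the swap; `w_q` does not depend on it) -/
def cheapIota : Qb →+* ℂ :=
  letI : Algebra ℚ Qb := AlgebraicClosure.instAlgebra (k := ℚ) (R := ℚ)
  haveI : Algebra.IsAlgebraic ℚ Qb := AlgebraicClosure.isAlgebraic ℚ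
  (IsAlgClosed.lift (R := ℚ) (S := Qb) (M := ℂ)).toRingHom

section AL

variable {q M : ℕ} [NeZero q] [NeZero M] [NeZero (M * q)] (hq : q.Prime) (hqM : ¬ q ∣ M)

/-- the Atkin–Lehner involution `w_q` of `F_{Mq} = modularFunctionFieldBar (M * q)` -/
def atkinLehnerBar :
    modularFunctionFieldBar (M * q) ≃ₐ[Qb] modularFunctionFieldBar (M * q) :=
  (IntermediateField.equivOfEq (hdeg_laurentBaseChange_full Qb (M * q))).trans
    ((Fermat.Agent.AL.atkinLehner Qb cheapIota hq hqM).trans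
      (IntermediateField.equivOfEq (hdeg_laurentBaseChange_full Qb (M * q)).symm))

theorem cheap_mem_fullC {N : ℕ} {y : LaurentSeries Qb} (hy : y ∈ modularFunctionFieldBar N) :
    y ∈ modularFunctionFieldFullC Qb N := by
  rw [← hdeg_laurentBaseChange_full Qb N]; exact hy

theorem cheap_mem_bar {N : ℕ} {y : LaurentSeries Qb} (hy : y ∈ modularFunctionFieldFullC Qb N) :
    y ∈ modularFunctionFieldBar N := by
  show y ∈ laurentBaseChange Qb (modularFunctionFieldFull N)
  rw [hdeg_laurentBaseChange_full Qb N]; exact hy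

theorem atkinLehnerBar_coe (y : modularFunctionFieldBar (M * q)) :
    ((atkinLehnerBar hq hqM y : modularFunctionFieldBar (M * q)) : LaurentSeries Qb) =
      ((Fermat.Agent.AL.atkinLehner Qb cheapIota hq hqM
        ⟨(y : LaurentSeries Qb), cheap_mem_fullC y.2⟩ : modularFunctionFieldFullC Qb (M * q)) :
          LaurentSeries Qb) := by
  unfold atkinLehnerBar
  rw [AlgEquiv.trans_apply, AlgEquiv.trans_apply, IntermediateField.equivOfEq_apply]
  rfl

/-- `w_q` is an involution -/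
theorem atkinLehnerBar_invol (y : modularFunctionFieldBar (M * q)) :
    atkinLehnerBar hq hqM (atkinLehnerBar hq hqM y) = y := by
  apply Subtype.ext
  rw [atkinLehnerBar_coe]
  have h : (⟨((atkinLehnerBar hq hqM y : modularFunctionFieldBar (M * q)) : LaurentSeries Qb),
      cheap_mem_fullC (atkinLehnerBar hq hqM y).2⟩ : modularFunctionFieldFullC Qb (M * q)) =
      Fermat.Agent.AL.atkinLehner Qb cheapIota hq hqM
        ⟨(y : LaurentSeries Qb), cheap_mem_fullC y.2⟩ := Subtype.ext (atkinLehnerBar_coe hq hqM y)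
  rw [h, Fermat.Agent.AL.atkinLehner_invol]

/-- `w_q f = f(q^q)` for `f ∈ F_M` -/
theorem atkinLehnerBar_of_mem_low {f : LaurentSeries Qb} (hf : f ∈ modularFunctionFieldBar M)
    (hf' : f ∈ modularFunctionFieldBar (M * q)) :
    ((atkinLehnerBar hq hqM ⟨f, hf'⟩ : modularFunctionFieldBar (M * q)) : LaurentSeries Qb) =
      qExpand Qb q f := by
  rw [atkinLehnerBar_coe]
  exact Fermat.Agent.AL.atkinLehner_of_mem_low Qb cheapIota hq hqM (cheap_mem_fullC hf)

/-- `w_q (f(q^q)) = f` for `f ∈ F_M` -/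
theorem atkinLehnerBar_qExpand {f : LaurentSeries Qb} (hf : f ∈ modularFunctionFieldBar M)
    (hf' : qExpand Qb q f ∈ modularFunctionFieldBar (M * q)) :
    ((atkinLehnerBar hq hqM ⟨qExpand Qb q f, hf'⟩ : modularFunctionFieldBar (M * q)) :
      LaurentSeries Qb) = f := by
  rw [atkinLehnerBar_coe]
  exact Fermat.Agent.AL.atkinLehner_qExpand Qb cheapIota hq hqM (cheap_mem_fullC hf)

/-- `w_q` commutes with the Galois action on the coefficients -/
theorem atkinLehnerBar_smul (σ : Qb ≃ₐ[ℚ] Qb) (y : modularFunctionFieldBar (M * q)) :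
    atkinLehnerBar hq hqM (arithmeticGalois (modularFunctionFieldFull (M * q)) σ • y) =
      arithmeticGalois (modularFunctionFieldFull (M * q)) σ • atkinLehnerBar hq hqM y := by
  apply Subtype.ext
  rw [cheap_smul_coe, atkinLehnerBar_coe, atkinLehnerBar_coe]
  exact Fermat.Agent.AL.atkinLehner_coeffMap Qb cheapIota hq hqM (σ : Qb →+* Qb)
    ⟨(y : LaurentSeries Qb), cheap_mem_fullC y.2⟩

/-- **(β) at `v_0 = v_∞ ∘ w_q`** -/
theorem cheap_zero (A : ValuationSubring Qb) (hA : A.LiesOverPrime q) (σ : Qb ≃ₐ[ℚ] Qb)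
    (hσ : σ ∈ A.inertiaSubgroupIn ℚ) (u : modularFunctionFieldBar (M * q)) (hu : u ≠ 0) :
    ∃ c : Qb, c ≠ 0 ∧
      ReducesToOne A (M * q) (algebraMap Qb (modularFunctionFieldBar (M * q)) c *
        atkinLehnerBar hq hqM
          ((arithmeticGalois (modularFunctionFieldFull (M * q)) σ • u) / u)) := by
  have hwu : atkinLehnerBar hq hqM u ≠ 0 :=
    (map_ne_zero_iff _ (atkinLehnerBar hq hqM).injective).mpr hu
  obtain ⟨c, hc, h⟩ := cheap_infty (M * q) q hq A hA σ hσ (atkinLehnerBar hq hqM u) hwu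
  refine ⟨c, hc, ?_⟩
  rw [map_div₀, atkinLehnerBar_smul]
  exact h

/-- **(β), the cheap half of `ESUnip`**: for `σ` in the inertia group at `A` (over `q ∥ Mq`) and
`u ∈ F_{Mq}^×`, the element `σ(u)/u` is a constant times an element reducing to one, both at `v_∞`
and at `v_0 = v_∞ ∘ w_q`. -/
theorem cheap (A : ValuationSubring Qb) (hA : A.LiesOverPrime q) (σ : Qb ≃ₐ[ℚ] Qb)
    (hσ : σ ∈ A.inertiaSubgroupIn ℚ) (u : modularFunctionFieldBar (M * q)) (hu : u ≠ 0) :
    (∃ c : Qb, c ≠ 0 ∧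
      ReducesToOne A (M * q) (algebraMap Qb (modularFunctionFieldBar (M * q)) c *
        ((arithmeticGalois (modularFunctionFieldFull (M * q)) σ • u) / u))) ∧
    (∃ c : Qb, c ≠ 0 ∧
      ReducesToOne A (M * q) (algebraMap Qb (modularFunctionFieldBar (M * q)) c *
        atkinLehnerBar hq hqM
          ((arithmeticGalois (modularFunctionFieldFull (M * q)) σ • u) / u))) :=
  ⟨cheap_infty (M * q) q hq A hA σ hσ u hu, cheap_zero hq hqM A hA σ hσ u hu⟩

end AL

end Fermat.Agent.UNIP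

end
end ZBS34_001_2

/-! ### bundled: `Fermat.Agent.UNIP.MGVert` -/
section ZBS34_001_3

/-!
# UNIP MG-8 "Vert": the two vertical valuation subrings of `F_N(E)`, `N = M q`

`(A, ι, r, π)` a base (`VtBase ι r π`: a DVR `A` with fraction field `ι : A → E`, residue map
`r : A → k`, uniformizer `π`), `F = F_N(E) = modularFunctionFieldFullC E N ⊆ E((Q))`.

* `vt_frac_fullC` : every element of `F_N(E)` is a quotient of two series over `A`;
* `vtInf hB N : ValuationSubring F_N(E)` : `V_∞ = F ∩ gaussRing ι r`;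
* `vtZero hB ιC hq hqM : ValuationSubring F_{Mq}(E)` : `V_0 = V_∞.comap w_q`;
* `vtFam hB ιC hq hqM : Bool → ValuationSubring F_{Mq}(E)` : `true ↦ V_∞`, `false ↦ V_0`;
* (V-max) `vtFam_mem_nonunits_iff`, `vtFam_const_mem_nonunits_iff`, `vtFam_unif_mem_nonunits`,
  `vtFam_ne_top`;
* (V-int) `vtFam_const_mem`, `vtFam_gen_valuation`, `vtFam_mem_of_isIntegral`;
* (V-σ) `vtFam_hσV`, (V-τ) `vtFam_hτV` for `mgaCoeffHom s N`, `s` an inertial endomorphism of `E`;
* base change `vtFam_comap_baseChange`.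
-/

set_option autoImplicit false
set_option linter.unusedSectionVars false
set_option linter.style.haveILetI false

noncomputable section

namespace Fermat.Agent.UNIP

open ModularCurve Fermat.Agent.INJ Fermat.Agent.AL

section Frac

variable {A E k : Type*} [CommRing A] [Field E] [Field k]
  {ι : A →+* E} {r : A →+* k} {π : A}

/-- The embedding `F_N(E) ⊆ E((Q))` as a ring homomorphism. -/
def vtEmb (E : Type*) [Field E] (N : ℕ) : modularFunctionFieldFullC E N →+* LaurentSeries E :=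
  ((modularFunctionFieldFullC E N).val : _ →+* LaurentSeries E)

@[simp]
theorem vtEmb_apply (N : ℕ) (x : modularFunctionFieldFullC E N) :
    vtEmb E N x = (x : LaurentSeries E) := rfl

/-- **Every element of `F_N(E)` is a quotient of two series over `A`.** -/
theorem vt_frac_fullC (hB : VtBase ι r π) (N : ℕ) {x : LaurentSeries E}
    (hx : x ∈ modularFunctionFieldFullC E N) : VtFrac ι x := by
  have hx' : x ∈ Subfield.closure
      (Set.range (algebraMap E (LaurentSeries E)) ∪ divisorExpansionsC E N) := hx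
  clear hx
  induction hx' using Subfield.closure_induction with
  | mem y hy =>
      rcases hy with ⟨a, rfl⟩ | ⟨d, hd, hdN, rfl⟩
      · rw [algebraMap_laurentSeries_eq_single]
        exact vtFrac_C hB.frac a
      · have : coeffMap ι (qExpand A d (jqModC A)) = qExpand E d (jqModC E) :=
          coeffMap_jqNModC ι d
        rw [← this]
        exact vtFrac_coeffMap _
  | one => exact VtFrac.one
  | add x y _ _ hx hy => exact hx.add hB.inj hy
  | neg x _ hx => exact hx.neg
  | inv x _ hx => exact hx.inv hB.inj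
  | mul x y _ _ hx hy => exact hx.mul hB.inj hy

end Frac

section AtkinLehner

variable {K K' : Type*} [Field K] [Field K'] (ψ : K →+* K') (ιC : K →+* ℂ) (ιC' : K' →+* ℂ)
  {q M : ℕ} [NeZero q] [NeZero M] [NeZero (M * q)] (hq : q.Prime) (hqM : ¬ q ∣ M)

/-- **`w_q` commutes with the maps of the coefficient fields** (base change, Galois action). -/
theorem vt_atkinLehner_coeffHom (x : modularFunctionFieldFullC K (M * q)) :
    atkinLehner K' ιC' hq hqM (mgaCoeffHom ψ (M * q) x) =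
      mgaCoeffHom ψ (M * q) (atkinLehner K ιC hq hqM x) := by
  have key : ((atkinLehner K' ιC' hq hqM).toRingEquiv.toRingHom.comp (mgaCoeffHom ψ (M * q))) =
      (mgaCoeffHom ψ (M * q)).comp (atkinLehner K ιC hq hqM).toRingEquiv.toRingHom := by
    apply al_ringHom_ext K (M * q)
    · intro c
      show atkinLehner K' ιC' hq hqM (mgaCoeffHom ψ (M * q) (algebraMap K _ c)) =
        mgaCoeffHom ψ (M * q) (atkinLehner K ιC hq hqM (algebraMap K _ c))
      rw [AlgEquiv.commutes, mgaCoeffHom_algebraMap, AlgEquiv.commutes]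
    · intro d _ hd
      show atkinLehner K' ιC' hq hqM (mgaCoeffHom ψ (M * q) ⟨qExpand K d (jqModC K), _⟩) =
        mgaCoeffHom ψ (M * q) (atkinLehner K ιC hq hqM ⟨qExpand K d (jqModC K), _⟩)
      have e0 : (⟨qExpand K d (jqModC K), jqModCd_mem_full K (M * q) hd⟩ :
          modularFunctionFieldFullC K (M * q)) = ⟨alGen K (M * q) d, alGen_mem K d⟩ :=
        Subtype.ext (alGen_of_dvd K hd).symm
      have e1 : mgaCoeffHom ψ (M * q) ⟨alGen K (M * q) d, alGen_mem K d⟩ =
          ⟨alGen K' (M * q) d, alGen_mem K' d⟩ :=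
        Subtype.ext (coeffMap_alGen ψ (M * q) d)
      rw [e0, e1]
      apply Subtype.ext
      rw [atkinLehner_gen, mgaCoeffHom_coe, atkinLehner_gen, coeffMap_alGen]
  exact congrArg (fun φ : modularFunctionFieldFullC K (M * q) →+*
    modularFunctionFieldFullC K' (M * q) => φ x) key

end AtkinLehner

section Fam

variable {A E k : Type*} [CommRing A] [Field E] [Field k]
  {ι : A →+* E} {r : A →+* k} {π : A} (hB : VtBase ι r π)

/-- **`V_∞`**: the vertical valuation subring of `F_N(E)` at the component of the cusp `∞`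
(the Gauss valuation of the `Q`-expansion). -/
def vtInf (N : ℕ) : ValuationSubring (modularFunctionFieldFullC E N) :=
  vtSub hB (vtEmb E N) (fun x => vt_frac_fullC hB N x.2)

theorem mem_vtInf (N : ℕ) {x : modularFunctionFieldFullC E N} :
    x ∈ vtInf hB N ↔ (x : LaurentSeries E) ∈ gaussRing ι r := Iff.rfl

variable (ιC : E →+* ℂ) {q M : ℕ} [NeZero q] [NeZero M] [NeZero (M * q)]
  (hq : q.Prime) (hqM : ¬ q ∣ M)

/-- The `Q`-expansion at the cusp `0`: the embedding `F_{Mq}(E) ⊆ E((Q))` twisted by `w_q`. -/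
def vtEmb0 : modularFunctionFieldFullC E (M * q) →+* LaurentSeries E :=
  (vtEmb E (M * q)).comp (atkinLehner E ιC hq hqM).toRingEquiv.toRingHom

theorem vtEmb0_apply (x : modularFunctionFieldFullC E (M * q)) :
    vtEmb0 ιC hq hqM x =
      ((atkinLehner E ιC hq hqM x : modularFunctionFieldFullC E (M * q)) : LaurentSeries E) :=
  rfl

/-- The two `Q`-expansions: `true ↦` at `∞`, `false ↦` at `0`. -/
def vtEmbFam : Bool → (modularFunctionFieldFullC E (M * q) →+* LaurentSeries E)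
  | true => vtEmb E (M * q)
  | false => vtEmb0 ιC hq hqM

theorem vtEmbFam_true : vtEmbFam ιC hq hqM true = vtEmb E (M * q) := rfl

theorem vtEmbFam_false : vtEmbFam ιC hq hqM false = vtEmb0 ιC hq hqM := rfl

include hB in
theorem vt_frac_fam (c : Bool) (x : modularFunctionFieldFullC E (M * q)) :
    VtFrac ι (vtEmbFam ιC hq hqM c x) := by
  cases c
  · exact vt_frac_fullC hB (M * q) (atkinLehner E ιC hq hqM x).2
  · exact vt_frac_fullC hB (M * q) x.2

/-- **The two vertical valuation subrings** of `F_{Mq}(E)`: `vtFam true = V_∞`,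
`vtFam false = V_0 = V_∞.comap w_q`. -/
def vtFam (c : Bool) : ValuationSubring (modularFunctionFieldFullC E (M * q)) :=
  vtSub hB (vtEmbFam ιC hq hqM c) (vt_frac_fam hB ιC hq hqM c)

/-- **`V_0 = V_∞.comap w_q`**. -/
def vtZero : ValuationSubring (modularFunctionFieldFullC E (M * q)) :=
  vtFam hB ιC hq hqM false

theorem vtFam_true : vtFam hB ιC hq hqM true = vtInf hB (M * q) := rfl

theorem vtFam_false : vtFam hB ιC hq hqM false = vtZero hB ιC hq hqM := rfl

theorem vtZero_eq_comap :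
    vtZero hB ιC hq hqM =
      (vtInf hB (M * q)).comap (atkinLehner E ιC hq hqM).toRingEquiv.toRingHom := rfl

theorem mem_vtFam {c : Bool} {x : modularFunctionFieldFullC E (M * q)} :
    x ∈ vtFam hB ιC hq hqM c ↔ vtEmbFam ιC hq hqM c x ∈ gaussRing ι r := Iff.rfl

theorem mem_vtZero {x : modularFunctionFieldFullC E (M * q)} :
    x ∈ vtZero hB ιC hq hqM ↔ atkinLehner E ιC hq hqM x ∈ vtInf hB (M * q) := Iff.rfl

/-! ### The embeddings on constants and generators, and the action on coefficients -/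

/-- constants -/
theorem vtEmbFam_const (c : Bool) (a : E) :
    vtEmbFam ιC hq hqM c (mgaConst E (M * q) a) = HahnSeries.C a := by
  cases c
  · show ((atkinLehner E ιC hq hqM (algebraMap E _ a) : modularFunctionFieldFullC E (M * q)) :
      LaurentSeries E) = HahnSeries.C a
    rw [AlgEquiv.commutes]
    exact algebraMap_laurentSeries_eq_single E a
  · exact algebraMap_laurentSeries_eq_single E a

/-- generators: `j(Q^d) ↦ j(Q^{d'})` -/
theorem vtEmbFam_gen (c : Bool) {d : ℕ} [NeZero d] (hd : d ∣ M * q) :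
    ∃ (d' : ℕ) (_ : NeZero d'),
      vtEmbFam ιC hq hqM c ⟨qExpand E d (jqModC E), jqModCd_mem_full E (M * q) hd⟩ =
        qExpand E d' (jqModC E) := by
  cases c
  · have hd' : alSwap q (M * q) d ∣ M * q := alSwap_dvd hq hqM hd
    have hne : NeZero (alSwap q (M * q) d) :=
      ⟨fun h0 => NeZero.ne (M * q) (Nat.eq_zero_of_zero_dvd (h0 ▸ hd'))⟩
    refine ⟨alSwap q (M * q) d, hne, ?_⟩
    have e0 : (⟨qExpand E d (jqModC E), jqModCd_mem_full E (M * q) hd⟩ :
        modularFunctionFieldFullC E (M * q)) = ⟨alGen E (M * q) d, alGen_mem E d⟩ :=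
      Subtype.ext (alGen_of_dvd E hd).symm
    rw [e0, vtEmbFam_false, vtEmb0_apply, atkinLehner_gen, alGen_of_dvd E hd']
  · exact ⟨d, inferInstance, rfl⟩

/-- the action of a ring homomorphism on the coefficients (base change, Galois action) -/
theorem vtEmbFam_coeffHom {E' : Type*} [Field E'] (ψ : E →+* E') (ιC' : E' →+* ℂ) (c : Bool)
    (x : modularFunctionFieldFullC E (M * q)) :
    vtEmbFam ιC' hq hqM c (mgaCoeffHom ψ (M * q) x) = coeffMap ψ (vtEmbFam ιC hq hqM c x) := by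
  cases c
  · show ((atkinLehner E' ιC' hq hqM (mgaCoeffHom ψ (M * q) x) :
      modularFunctionFieldFullC E' (M * q)) : LaurentSeries E') = _
    rw [vt_atkinLehner_coeffHom ψ ιC ιC' hq hqM x]
    rfl
  · rfl

/-! ### (V-max) -/

/-- **(V-max)** the maximal ideal of `V c` is the kernel of the reduction of the `Q`-expansion at
the cusp `c`. -/
theorem vtFam_mem_nonunits_iff (c : Bool) {x : modularFunctionFieldFullC E (M * q)} :
    x ∈ (vtFam hB ιC hq hqM c).nonunits ↔
      ∃ h : vtEmbFam ιC hq hqM c x ∈ gaussRing ι r,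
        gaussRed r hB.inj ⟨vtEmbFam ιC hq hqM c x, h⟩ = 0 :=
  vtSub_mem_nonunits_iff hB _ _

theorem vtFam_valuation_eq_one_iff (c : Bool) {x : modularFunctionFieldFullC E (M * q)} :
    (vtFam hB ιC hq hqM c).valuation x = 1 ↔ VtUnit ι r (vtEmbFam ιC hq hqM c x) :=
  vtSub_valuation_eq_one_iff hB _ _

/-- **(V-int)** the constants of `A` lie in `V c` -/
theorem vtFam_const_mem (c : Bool) (a : A) :
    mgaConst E (M * q) (ι a) ∈ vtFam hB ιC hq hqM c :=
  vtSub_const_mem hB _ _ (vtEmbFam_const ιC hq hqM c (ι a))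

/-- **(V-max)** a constant of `A` lies in the maximal ideal of `V c` iff it reduces to `0` -/
theorem vtFam_const_mem_nonunits_iff (c : Bool) (a : A) :
    mgaConst E (M * q) (ι a) ∈ (vtFam hB ιC hq hqM c).nonunits ↔ r a = 0 :=
  vtSub_const_mem_nonunits_iff hB _ _ (vtEmbFam_const ιC hq hqM c (ι a))

/-- **(V-max)** `π ∈ 𝔪(V c)` -/
theorem vtFam_unif_mem_nonunits (c : Bool) :
    mgaConst E (M * q) (ι π) ∈ (vtFam hB ιC hq hqM c).nonunits :=
  vtSub_unif_mem_nonunits hB _ _ (vtEmbFam_const ιC hq hqM c (ι π))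

/-- **(V-max)** `V c ≠ ⊤` -/
theorem vtFam_ne_top (c : Bool) : vtFam hB ιC hq hqM c ≠ ⊤ :=
  vtSub_ne_top hB _ _ (vtEmbFam_const ιC hq hqM c (ι π))

/-! ### (V-int) -/

/-- `j(Q^d)` has nonzero reduction -/
theorem vt_coeffMap_gen_ne_zero (r : A →+* k) (d : ℕ) [NeZero d] :
    coeffMap r (qExpand A d (jqModC A)) ≠ 0 := by
  have h1 : coeffMap r (qExpand A d (jqModC A)) = qExpand k d (jqModC k) := coeffMap_jqNModC r d
  rw [h1]
  intro h0
  exact jqModC_ne_zero_of_nontrivial k (qExpand_injective d (by rw [h0, map_zero]))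

/-- **(V-int)** the generators `j(Q^d)`, `d ∣ M q`, are units of `V c` -/
theorem vtFam_gen_valuation (c : Bool) {d : ℕ} [NeZero d] (hd : d ∣ M * q) :
    (vtFam hB ιC hq hqM c).valuation
      ⟨qExpand E d (jqModC E), jqModCd_mem_full E (M * q) hd⟩ = 1 := by
  obtain ⟨d', hd', he⟩ := vtEmbFam_gen ιC hq hqM c hd
  have h1 : coeffMap ι (qExpand A d' (jqModC A)) = qExpand E d' (jqModC E) :=
    coeffMap_jqNModC ι d'
  exact vtSub_valuation_eq_one_of_eq_coeffMap hB _ _ (he.trans h1.symm)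
    (vt_coeffMap_gen_ne_zero r d')

theorem vtFam_gen_mem (c : Bool) {d : ℕ} [NeZero d] (hd : d ∣ M * q) :
    (⟨qExpand E d (jqModC E), jqModCd_mem_full E (M * q) hd⟩ :
      modularFunctionFieldFullC E (M * q)) ∈ vtFam hB ιC hq hqM c :=
  ((vt_valuation_eq_one_iff _ _).mp (vtFam_gen_valuation hB ιC hq hqM c hd)).2.1

theorem vtFam_gen_inv_mem (c : Bool) {d : ℕ} [NeZero d] (hd : d ∣ M * q) :
    (⟨qExpand E d (jqModC E), jqModCd_mem_full E (M * q) hd⟩ :
      modularFunctionFieldFullC E (M * q))⁻¹ ∈ vtFam hB ιC hq hqM c :=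
  ((vt_valuation_eq_one_iff _ _).mp (vtFam_gen_valuation hB ιC hq hqM c hd)).2.2

theorem vtFam_gen_not_mem_nonunits (c : Bool) {d : ℕ} [NeZero d] (hd : d ∣ M * q) :
    (⟨qExpand E d (jqModC E), jqModCd_mem_full E (M * q) hd⟩ :
      modularFunctionFieldFullC E (M * q)) ∉ (vtFam hB ιC hq hqM c).nonunits := by
  rw [ValuationSubring.mem_nonunits_iff, vtFam_gen_valuation hB ιC hq hqM c hd]
  exact lt_irrefl _

/-- **(V-int)** the charts lie in `V c`: an element of `F` integral over `R[S]`, where the image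
of `R` consists of constants of `A` and `S ⊆ V c` (e.g. `S = {j}`, `{j⁻¹}`, `{j, j⁻¹}`), lies in
`V c`. -/
theorem vtFam_mem_of_isIntegral (c : Bool) {R : Type*} [CommRing R]
    [Algebra R (modularFunctionFieldFullC E (M * q))]
    (hR : ∀ a : R, ∃ a' : A,
      algebraMap R (modularFunctionFieldFullC E (M * q)) a = mgaConst E (M * q) (ι a'))
    (S : Set (modularFunctionFieldFullC E (M * q))) (hS : ∀ s ∈ S, s ∈ vtFam hB ιC hq hqM c)
    {x : modularFunctionFieldFullC E (M * q)} (hx : IsIntegral (Algebra.adjoin R S) x) :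
    x ∈ vtFam hB ιC hq hqM c := by
  refine vt_mem_of_isIntegral _ (fun y => ?_) hx
  show ((y : Algebra.adjoin R S) : modularFunctionFieldFullC E (M * q)) ∈ vtFam hB ιC hq hqM c
  obtain ⟨y, hy⟩ := y
  show y ∈ vtFam hB ιC hq hqM c
  induction hy using Algebra.adjoin_induction with
  | mem s hs => exact hS s hs
  | algebraMap a =>
    obtain ⟨a', ha'⟩ := hR a
    rw [ha']
    exact vtFam_const_mem hB ιC hq hqM c a'
  | add s t _ _ hs ht => exact (vtFam hB ιC hq hqM c).add_mem _ _ hs ht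
  | mul s t _ _ hs ht => exact (vtFam hB ιC hq hqM c).mul_mem _ _ hs ht

/-! ### (V-σ), (V-τ) -/

/-- **(V-τ) = `hτV`**: `τ x − x ∈ 𝔪(V c)` for `x ∈ V c`, `τ` an endomorphism of `E` preserving `A`
and trivial on the residue field. -/
theorem vtFam_hτV {s : E →+* E} (hc : VtCompat ι r ι r s (RingHom.id k)) (c : Bool)
    {x : modularFunctionFieldFullC E (M * q)} (hx : x ∈ vtFam hB ιC hq hqM c) :
    mgaCoeffHom s (M * q) x - x ∈ (vtFam hB ιC hq hqM c).nonunits :=
  vtSub_sub_mem_nonunits hB _ _ hc (mgaCoeffHom s (M * q))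
    (fun y => vtEmbFam_coeffHom ιC hq hqM s ιC c y) hx

/-- **(V-σ) = `hσV`**: `v_c (σ f / f) = 1` for `f ≠ 0`, `σ` an endomorphism of `E` preserving
`A`, trivial on the residue field, moving the uniformizer by a unit. -/
theorem vtFam_hσV {s : E →+* E} (hc : VtCompat ι r ι r s (RingHom.id k))
    (hsπ : ∃ c : A, s (ι π) = ι π * ι c ∧ r c ≠ 0) (c : Bool)
    {f : modularFunctionFieldFullC E (M * q)} (hf : f ≠ 0) :
    (vtFam hB ιC hq hqM c).valuation (mgaCoeffHom s (M * q) f / f) = 1 :=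
  vtSub_valuation_div_eq_one hB _ _ hc hsπ (mgaCoeffHom s (M * q))
    (fun y => vtEmbFam_coeffHom ιC hq hqM s ιC c y) hf

theorem vtFam_map_mem {s : E →+* E} (hc : VtCompat ι r ι r s (RingHom.id k)) (c : Bool)
    {x : modularFunctionFieldFullC E (M * q)} (hx : x ∈ vtFam hB ιC hq hqM c) :
    mgaCoeffHom s (M * q) x ∈ vtFam hB ιC hq hqM c :=
  vtSub_map_mem hB _ _ hc (mgaCoeffHom s (M * q))
    (fun y => vtEmbFam_coeffHom ιC hq hqM s ιC c y) hx

end Fam

section BaseChangeFam

variable {A E k A' E' k' : Type*} [CommRing A] [Field E] [Field k]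
  [CommRing A'] [Field E'] [Field k']
  {ι : A →+* E} {r : A →+* k} {π : A} {ι' : A' →+* E'} {r' : A' →+* k'} {π' : A'}
  (hB : VtBase ι r π) (hB' : VtBase ι' r' π')
  (ιC : E →+* ℂ) (ιC' : E' →+* ℂ) {q M : ℕ} [NeZero q] [NeZero M] [NeZero (M * q)]
  (hq : q.Prime) (hqM : ¬ q ∣ M)

/-- **Base change**: the vertical valuations of `F_{Mq}(E')` restrict to those of `F_{Mq}(E)`. -/
theorem vtFam_comap_baseChange {ψ : E →+* E'} {κ : k →+* k'} (hc : VtCompat ι r ι' r' ψ κ)
    (c : Bool) :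
    (vtFam hB' ιC' hq hqM c).comap (mgaCoeffHom ψ (M * q)) = vtFam hB ιC hq hqM c :=
  vtSub_comap_baseChange hB hB' _ _ _ _ hc (mgaCoeffHom ψ (M * q))
    (fun y => vtEmbFam_coeffHom ιC hq hqM ψ ιC' c y)

theorem vtFam_baseChange_mem_nonunits_iff {ψ : E →+* E'} {κ : k →+* k'}
    (hc : VtCompat ι r ι' r' ψ κ) (c : Bool) (x : modularFunctionFieldFullC E (M * q)) :
    mgaCoeffHom ψ (M * q) x ∈ (vtFam hB' ιC' hq hqM c).nonunits ↔
      x ∈ (vtFam hB ιC hq hqM c).nonunits :=
  vtSub_baseChange_mem_nonunits_iff hB hB' _ _ _ _ hc (mgaCoeffHom ψ (M * q))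
    (fun y => vtEmbFam_coeffHom ιC hq hqM ψ ιC' c y) x

end BaseChangeFam

end Fermat.Agent.UNIP

end
end ZBS34_001_3

/-! ### bundled: `Fermat.Agent.UNIP.MGVertInertia` -/
section ZBS34_001_4

/-!
# UNIP MG-8 "Vert", part 2: the vertical valuations in the concrete setting

`A` a valuation subring of `ℚ̄`, `K₀ ⊆ ℚ̄` an intermediate field such that `A′ = A ∩ K₀`
(`beta0Ring A K₀`) is a discrete valuation ring with uniformizer `π`, level `M q`.

* `vt_compat_of_inertia`, `vt_unif_of_inertia` : `σ` in the inertia group of `A`, `K₀` stable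
  under `σ` ⇒ `mgRestrict K₀ σ` is an inertial automorphism of the base (`VtCompat`, `hsπ`);
* `vt_compat_of_le` : the inclusion `K₀ ≤ K₁` is compatible (`VtCompat`) — base change;
* `mgvV hπ ιC hq hqM : Bool → ValuationSubring F_{Mq}(K₀)` : the two vertical valuations
  (`true ↦ V_∞`, `false ↦ V_0`) with
  `mgv_hκ`, `mgv_hBV₁`, `mgv_hBV₂`, `mgv_hπV`, `mgv_harch`, `mgv_hσV`, `mgv_hτV`
  = the hypotheses `hκ`, `hBV₁`, `hBV₂`, `hπV`, `harch`, `hσV`, `hτV` of `mgc_main`
  (`at_main_two`), and `mgv_hζV`.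
-/

set_option autoImplicit false
set_option linter.unusedSectionVars false
set_option linter.style.haveILetI false

noncomputable section

namespace Fermat.Agent.UNIP

open ModularCurve AlgebraicCurve Fermat.Agent.ES Fermat.Agent.ES.G2 Fermat.Agent.INJ
open Fermat.Agent.AL

section Arch

variable {A E k : Type*} [CommRing A] [Field E] [Field k]
  {ι : A →+* E} {r : A →+* k} {π : A} {F : Type*} [Field F]
  (hB : VtBase ι r π) (e : F →+* LaurentSeries E) (hfrac : ∀ x : F, VtFrac ι (e x))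

/-- **harch**: the vertical valuation is archimedean (it is discrete of rank one). -/
theorem vtSub_arch {a : F} (ha : a ∈ (vtSub hB e hfrac).nonunits) (x : F) :
    ∃ n : ℕ, a ^ n * x ∈ (vtSub hB e hfrac).nonunits := by
  by_cases hxV : x ∈ vtSub hB e hfrac
  · exact ⟨1, by rw [pow_one, mul_comm]; exact vt_mul_mem_nonunits _ hxV ha⟩
  have hx0 : x ≠ 0 := fun h => hxV (h ▸ (vtSub hB e hfrac).zero_mem)
  have hex0 : e x ≠ 0 := (map_ne_zero e).mpr hx0
  obtain ⟨d, u, hu, h | h⟩ := vt_exists_pow_mul hB hex0 (hfrac x)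
  · exfalso
    apply hxV
    rw [mem_vtSub, h]
    exact (gaussRing ι r).mul_mem ((gaussRing ι r).pow_mem (hahnC_mem_gaussRing r π) d) hu.mem
  · -- `e x = π ^ (-d) * u⁻¹`, `e a = π * y`
    obtain ⟨hmem, hred⟩ := (vtSub_mem_nonunits_iff hB e hfrac).mp ha
    obtain ⟨y, hy⟩ := (gaussRed_eq_zero_iff_dvd r hB.inj hB.rπ hB.ker ⟨e a, hmem⟩).mp hred
    have hy' : e a = HahnSeries.C (ι π) * (y : LaurentSeries E) := hy
    have hCπ := hB.Cιπ_ne
    have hu0 := hu.ne_zero hB.inj
    have hx' : e x = (HahnSeries.C (ι π) ^ d)⁻¹ * u⁻¹ := by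
      rw [← mul_inv, ← h, inv_inv]
    refine ⟨d + 1, ?_⟩
    rw [vtSub_mem_nonunits_iff]
    have hval : e (a ^ (d + 1) * x) =
        HahnSeries.C (ι π) * ((y : LaurentSeries E) ^ (d + 1) * u⁻¹) := by
      rw [map_mul, map_pow, hy', hx', mul_pow, pow_succ]
      have h1 : (HahnSeries.C (ι π) : LaurentSeries E) ^ d *
          ((HahnSeries.C (ι π) : LaurentSeries E) ^ d)⁻¹ = 1 :=
        mul_inv_cancel₀ (pow_ne_zero _ hCπ)
      linear_combination (HahnSeries.C (ι π) * ((y : LaurentSeries E) ^ d * (y : LaurentSeries E))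
        * u⁻¹) * h1
    have hz : (y : LaurentSeries E) ^ (d + 1) * u⁻¹ ∈ gaussRing ι r :=
      (gaussRing ι r).mul_mem ((gaussRing ι r).pow_mem y.2 _) (hu.inv hB.inj).mem
    have hmem' : e (a ^ (d + 1) * x) ∈ gaussRing ι r := by
      rw [hval]
      exact (gaussRing ι r).mul_mem (hahnC_mem_gaussRing r π) hz
    refine ⟨hmem', ?_⟩
    exact (gaussRed_eq_zero_iff_dvd r hB.inj hB.rπ hB.ker ⟨_, hmem'⟩).mpr ⟨⟨_, hz⟩, hval⟩

end Arch

section Inertia

variable {A : ValuationSubring Qb} (K₀ : IntermediateField ℚ Qb)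

/-- **Inertia is an inertial automorphism of the base**: for `σ` in the inertia group of `A` and
`K₀` stable under `σ`, the restriction of `σ` to `K₀` preserves `A ∩ K₀` and is trivial on its
residue field. -/
theorem vt_compat_of_inertia {σ : Qb ≃ₐ[ℚ] Qb} (hσ : σ ∈ A.inertiaSubgroupIn ℚ)
    (hK : ∀ x ∈ K₀, σ x ∈ K₀) :
    VtCompat (algebraMap ↥(beta0Ring A K₀) ↥K₀) (IsLocalRing.residue ↥(beta0Ring A K₀))
      (algebraMap ↥(beta0Ring A K₀) ↥K₀) (IsLocalRing.residue ↥(beta0Ring A K₀))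
      (mgRestrict K₀ σ hK) (RingHom.id _) := by
  intro a
  have ha : (((a : ↥K₀) : Qb)) ∈ A := a.2
  have hσa : σ (((a : ↥K₀) : Qb)) ∈ A := (Fermat.Agent.S05.inertia_apply_mem_iff hσ _).mpr ha
  refine ⟨⟨mgRestrict K₀ σ hK a, hσa⟩, rfl, ?_⟩
  rw [RingHom.id_apply, ← sub_eq_zero, ← map_sub, IsLocalRing.residue_eq_zero_iff,
    beta0Ring_mem_maximalIdeal_iff]
  exact Fermat.Agent.S05.inertia_apply_sub_mem_nonunits hσ ha

/-- **Inertia moves the uniformizer by a unit.** -/
theorem vt_unif_of_inertia [IsDiscreteValuationRing ↥(beta0Ring A K₀)]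
    {π : ↥(beta0Ring A K₀)} (hπ : Irreducible π)
    {σ : Qb ≃ₐ[ℚ] Qb} (hσ : σ ∈ A.inertiaSubgroupIn ℚ) (hK : ∀ x ∈ K₀, σ x ∈ K₀) :
    ∃ c : ↥(beta0Ring A K₀),
      mgRestrict K₀ σ hK (algebraMap ↥(beta0Ring A K₀) ↥K₀ π) =
        algebraMap ↥(beta0Ring A K₀) ↥K₀ π * algebraMap ↥(beta0Ring A K₀) ↥K₀ c ∧
      IsLocalRing.residue ↥(beta0Ring A K₀) c ≠ 0 :=
  vt_unif_of_leftInverse (vtBase_residue hπ) (vt_compat_of_inertia K₀ hσ hK)
    (vt_compat_of_inertia K₀ (Fermat.Agent.S05.inv_mem_inertiaIn hσ) (mga_stable_symm K₀ σ hK))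
    (fun x => Subtype.ext (σ.symm_apply_apply _))

end Inertia

section Incl

variable {A : ValuationSubring Qb} {K₀ K₁ : IntermediateField ℚ Qb}

/-- **Base change**: the inclusion `K₀ ≤ K₁` maps `A ∩ K₀` into `A ∩ K₁` and induces a map of the
residue fields. -/
theorem vt_compat_of_le (h : K₀ ≤ K₁) :
    ∃ κ : IsLocalRing.ResidueField ↥(beta0Ring A K₀) →+*
        IsLocalRing.ResidueField ↥(beta0Ring A K₁),
      VtCompat (algebraMap ↥(beta0Ring A K₀) ↥K₀) (IsLocalRing.residue ↥(beta0Ring A K₀))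
        (algebraMap ↥(beta0Ring A K₁) ↥K₁) (IsLocalRing.residue ↥(beta0Ring A K₁))
        (IntermediateField.inclusion h).toRingHom κ := by
  haveI : IsLocalHom (beta0RingIncl (A := A) h) :=
    ⟨fun a ha => (beta0Ring_isUnit_iff a).mpr
      ((beta0Ring_isUnit_iff (beta0RingIncl (A := A) h a)).mp ha)⟩
  refine ⟨IsLocalRing.ResidueField.map (beta0RingIncl (A := A) h), fun a => ?_⟩
  exact ⟨beta0RingIncl h a, rfl, rfl⟩

end Incl

section Concrete

variable {A : ValuationSubring Qb} {K₀ : IntermediateField ℚ Qb}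
  [IsDiscreteValuationRing ↥(beta0Ring A K₀)] {π : ↥(beta0Ring A K₀)} (hπ : Irreducible π)
  (ιC : ↥K₀ →+* ℂ) {q M : ℕ} [NeZero q] [NeZero M] [NeZero (M * q)]
  (hq : q.Prime) (hqM : ¬ q ∣ M)

/-- **The two vertical valuation subrings of `F_{Mq}(K₀)`** over the discrete valuation ring
`A ∩ K₀`: `mgvV … true = V_∞` (Gauss valuation of the `Q`-expansion at `∞`),
`mgvV … false = V_0 = V_∞.comap w_q`. -/
def mgvV : Bool → ValuationSubring ↥(modularFunctionFieldFullC ↥K₀ (M * q)) :=
  vtFam (vtBase_residue hπ) ιC hq hqM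

theorem mgvV_true : mgvV hπ ιC hq hqM true = vtInf (vtBase_residue hπ) (M * q) := rfl

theorem mgvV_false :
    mgvV hπ ιC hq hqM false =
      (mgvV hπ ιC hq hqM true).comap (atkinLehner ↥K₀ ιC hq hqM).toRingEquiv.toRingHom := rfl

/-- **hκ** -/
theorem mgv_hκ (c : Bool) : c = true ∨ c = false := by
  cases c
  · exact Or.inr rfl
  · exact Or.inl rfl

theorem mgv_bgJ_eq :
    bgJ ↥K₀ (M * q) = ⟨qExpand ↥K₀ 1 (jqModC ↥K₀), jqModCd_mem_full ↥K₀ (M * q) (one_dvd _)⟩ :=
  Subtype.ext (qExpand_one_apply _).symm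

/-- `j` is a unit of `V c` -/
theorem mgv_T_valuation (c : Bool) : (mgvV hπ ιC hq hqM c).valuation (bgJ ↥K₀ (M * q)) = 1 := by
  rw [mgv_bgJ_eq]
  exact vtFam_gen_valuation (vtBase_residue hπ) ιC hq hqM c (one_dvd _)

theorem mgv_T_mem (c : Bool) : bgJ ↥K₀ (M * q) ∈ mgvV hπ ιC hq hqM c :=
  ((vt_valuation_eq_one_iff _ _).mp (mgv_T_valuation hπ ιC hq hqM c)).2.1

theorem mgv_T_inv_mem (c : Bool) : (bgJ ↥K₀ (M * q))⁻¹ ∈ mgvV hπ ιC hq hqM c :=
  ((vt_valuation_eq_one_iff _ _).mp (mgv_T_valuation hπ ιC hq hqM c)).2.2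

/-- **hBV₁**: the chart `j` lies in `V c` -/
theorem mgv_hBV₁ (c : Bool) (b : ↥(modularFunctionFieldFullC ↥K₀ (M * q)))
    (hb : IsIntegral ↥(Algebra.adjoin ↥(beta0Ring A K₀)
      ({bgJ ↥K₀ (M * q)} : Set ↥(modularFunctionFieldFullC ↥K₀ (M * q)))) b) :
    b ∈ mgvV hπ ιC hq hqM c :=
  vtFam_mem_of_isIntegral (vtBase_residue hπ) ιC hq hqM c (fun a => ⟨a, rfl⟩) _
    (by rintro s rfl; exact mgv_T_mem hπ ιC hq hqM c) hb

/-- **hBV₂**: the chart `1 / j` lies in `V c` -/
theorem mgv_hBV₂ (c : Bool) (b : ↥(modularFunctionFieldFullC ↥K₀ (M * q)))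
    (hb : IsIntegral ↥(Algebra.adjoin ↥(beta0Ring A K₀)
      ({(bgJ ↥K₀ (M * q))⁻¹} : Set ↥(modularFunctionFieldFullC ↥K₀ (M * q)))) b) :
    b ∈ mgvV hπ ιC hq hqM c :=
  vtFam_mem_of_isIntegral (vtBase_residue hπ) ιC hq hqM c (fun a => ⟨a, rfl⟩) _
    (by rintro s rfl; exact mgv_T_inv_mem hπ ιC hq hqM c) hb

/-- **hπV** -/
theorem mgv_hπV (c : Bool) :
    algebraMap ↥(beta0Ring A K₀) ↥(modularFunctionFieldFullC ↥K₀ (M * q)) π ∈
      (mgvV hπ ιC hq hqM c).nonunits :=
  vtFam_unif_mem_nonunits (vtBase_residue hπ) ιC hq hqM c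

/-- constants: `a ∈ A ∩ K₀` is in `𝔪(V c)` iff it is in the maximal ideal of `A` -/
theorem mgv_const_mem_nonunits_iff (c : Bool) (a : ↥(beta0Ring A K₀)) :
    algebraMap ↥(beta0Ring A K₀) ↥(modularFunctionFieldFullC ↥K₀ (M * q)) a ∈
      (mgvV hπ ιC hq hqM c).nonunits ↔ (((a : ↥K₀) : Qb)) ∈ A.nonunits := by
  rw [← beta0Ring_mem_maximalIdeal_iff, ← IsLocalRing.residue_eq_zero_iff]
  exact vtFam_const_mem_nonunits_iff (vtBase_residue hπ) ιC hq hqM c a

/-- **harch** -/
theorem mgv_harch (c : Bool) (a x : ↥(modularFunctionFieldFullC ↥K₀ (M * q)))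
    (ha : a ∈ (mgvV hπ ιC hq hqM c).nonunits) :
    ∃ n : ℕ, a ^ n * x ∈ (mgvV hπ ιC hq hqM c).nonunits :=
  vtSub_arch (vtBase_residue hπ) (vtEmbFam ιC hq hqM c)
    (vt_frac_fam (vtBase_residue hπ) ιC hq hqM c) ha x

/-- **hσV** -/
theorem mgv_hσV {σ : Qb ≃ₐ[ℚ] Qb} (hσ : σ ∈ A.inertiaSubgroupIn ℚ) (hK : ∀ x ∈ K₀, σ x ∈ K₀)
    (c : Bool) (f : ↥(modularFunctionFieldFullC ↥K₀ (M * q))) (hf : f ≠ 0) :
    (mgvV hπ ιC hq hqM c).valuation (mgAct K₀ (M * q) σ hK f / f) = 1 :=
  vtFam_hσV (vtBase_residue hπ) ιC hq hqM (vt_compat_of_inertia K₀ hσ hK)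
    (vt_unif_of_inertia K₀ hπ hσ hK) c hf

/-- **hτV** -/
theorem mgv_hτV {τ : Qb ≃ₐ[ℚ] Qb} (hτ : τ ∈ A.inertiaSubgroupIn ℚ) (hK : ∀ x ∈ K₀, τ x ∈ K₀)
    (c : Bool) (x : ↥(modularFunctionFieldFullC ↥K₀ (M * q)))
    (hx : x ∈ mgvV hπ ιC hq hqM c) :
    mgAct K₀ (M * q) τ hK x - x ∈ (mgvV hπ ιC hq hqM c).nonunits :=
  vtFam_hτV (vtBase_residue hπ) ιC hq hqM (vt_compat_of_inertia K₀ hτ hK) c hx

/-- `V c` is stable under inertia -/
theorem mgv_act_mem {σ : Qb ≃ₐ[ℚ] Qb} (hσ : σ ∈ A.inertiaSubgroupIn ℚ) (hK : ∀ x ∈ K₀, σ x ∈ K₀)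
    (c : Bool) (x : ↥(modularFunctionFieldFullC ↥K₀ (M * q)))
    (hx : x ∈ mgvV hπ ιC hq hqM c) : mgAct K₀ (M * q) σ hK x ∈ mgvV hπ ιC hq hqM c :=
  vtFam_map_mem (vtBase_residue hπ) ιC hq hqM (vt_compat_of_inertia K₀ hσ hK) c hx

end Concrete

section ConcreteIncl

variable {A : ValuationSubring Qb} {K₀ K₁ : IntermediateField ℚ Qb}
  [IsDiscreteValuationRing ↥(beta0Ring A K₀)] {π₀ : ↥(beta0Ring A K₀)} (hπ₀ : Irreducible π₀)
  [IsDiscreteValuationRing ↥(beta0Ring A K₁)] {π₁ : ↥(beta0Ring A K₁)} (hπ₁ : Irreducible π₁)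
  (ιC₀ : ↥K₀ →+* ℂ) (ιC₁ : ↥K₁ →+* ℂ) {q M : ℕ} [NeZero q] [NeZero M] [NeZero (M * q)]
  (hq : q.Prime) (hqM : ¬ q ∣ M)

/-- **Base change** `K₀ ≤ K₁`: the vertical valuations of `F_{Mq}(K₁)` restrict to those of
`F_{Mq}(K₀)`. -/
theorem mgv_comap_incl (h : K₀ ≤ K₁) (c : Bool) :
    (mgvV hπ₁ ιC₁ hq hqM c).comap (mgaIncl h (M * q)) = mgvV hπ₀ ιC₀ hq hqM c := by
  obtain ⟨κ, hκ⟩ := vt_compat_of_le (A := A) h
  exact vtFam_comap_baseChange (vtBase_residue hπ₀) (vtBase_residue hπ₁) ιC₀ ιC₁ hq hqM hκ c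

theorem mgv_incl_mem_nonunits_iff (h : K₀ ≤ K₁) (c : Bool)
    (x : ↥(modularFunctionFieldFullC ↥K₀ (M * q))) :
    mgaIncl h (M * q) x ∈ (mgvV hπ₁ ιC₁ hq hqM c).nonunits ↔
      x ∈ (mgvV hπ₀ ιC₀ hq hqM c).nonunits := by
  rw [← vt_mem_nonunits_comap, mgv_comap_incl hπ₀ hπ₁ ιC₀ ιC₁ hq hqM h c]

theorem mgv_incl_mem_iff (h : K₀ ≤ K₁) (c : Bool)
    (x : ↥(modularFunctionFieldFullC ↥K₀ (M * q))) :
    mgaIncl h (M * q) x ∈ mgvV hπ₁ ιC₁ hq hqM c ↔ x ∈ mgvV hπ₀ ιC₀ hq hqM c := by
  rw [← ValuationSubring.mem_comap, mgv_comap_incl hπ₀ hπ₁ ιC₀ ιC₁ hq hqM h c]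

end ConcreteIncl

end Fermat.Agent.UNIP

end
end ZBS34_001_4

/-! ### bundled: `Fermat.Agent.UNIP.FrStab` -/
section ZBS34_001_5
/-
UNIP (item 34, S34/S35), piece "FrStab" of U5 (helper20): the special fibre chart
`R_τ = ρ(B′_τ)` is stable under the twist `Θ = coeffMap θ` of `k₀((Q))` by a ring endomorphism
`θ` of the residue field (in the application `θ = Frob⁻¹`), as soon as `θ` LIFTS to the base ring
`A₀` (`ψ : A₀ →+* A₀`, `r (ψ a) = θ (r a)`; in the application `ψ` is the restriction of the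
inverse of a Frobenius element at `A`, which preserves the inertia field `E₀` and `A₀ = A ∩ E₀`).

Setting of `INJ/GaussRing.lean`: `ι : A →+* E` injective, `r : A →+* k`, `gaussRing ι r ⊂ E((Q))`,
`gaussRed r hι : gaussRing ι r →+* k((Q))`.

* `frStab_mem_gaussRing`, `frStab_gaussRed` : `coeffMap ψE` preserves the Gauss ring and
  `gaussRed (coeffMap ψE x) = coeffMap θ (gaussRed x)`.
* `frStab_isIntegral` : a `ψ`-semilinear ring endomorphism `Ψ` of an `A`-algebra `L` which maps the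
  generators `S` into `A[S]` preserves integrality over `A[S]`.
* `frStabHom` : the ring endomorphism of `F_N(E) = modularFunctionFieldFullC E N` induced by
  `coeffMap ψE`;  `frStab_chart` : it preserves the chart `B_τ` (elements integral over `A[τ]`)
  when `τ` is fixed.
* `frStab_N5` : the abstract form of (N5) of helper93's `nodes_main`, from (G3) and FrStab.
-/

set_option autoImplicit false
set_option linter.unusedSectionVars false
set_option linter.unusedVariables false

noncomputable section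

namespace Fermat.Agent.UNIP

open ModularCurve Fermat.Agent.INJ Polynomial

section Gauss

variable {A E k : Type*} [CommRing A] [Field E] [Field k] (ι : A →+* E) (r : A →+* k)
  (ψA : A →+* A) (ψE : E →+* E) (θ : k →+* k)

theorem frStab_coeffMap_comm (hψ : ∀ a, ψE (ι a) = ι (ψA a)) (T : LaurentSeries A) :
    coeffMap ψE (coeffMap ι T) = coeffMap ι (coeffMap ψA T) := by
  rw [coeffMap_coeffMap, coeffMap_coeffMap]
  exact coeffMap_congr (RingHom.ext hψ) T

theorem frStab_coeffMap_red (hθ : ∀ a, r (ψA a) = θ (r a)) (T : LaurentSeries A) :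
    coeffMap r (coeffMap ψA T) = coeffMap θ (coeffMap r T) := by
  rw [coeffMap_coeffMap, coeffMap_coeffMap]
  exact coeffMap_congr (RingHom.ext hθ) T

/-- `coeffMap ψE` preserves the Gauss ring. -/
theorem frStab_mem_gaussRing (hψ : ∀ a, ψE (ι a) = ι (ψA a)) (hθ : ∀ a, r (ψA a) = θ (r a))
    {x : LaurentSeries E} (hx : x ∈ gaussRing ι r) : coeffMap ψE x ∈ gaussRing ι r := by
  obtain ⟨T, b, hb, h⟩ := hx
  refine ⟨coeffMap ψA T, coeffMap ψA b, ?_, ?_⟩
  · rw [frStab_coeffMap_red r ψA θ hθ]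
    exact (map_ne_zero_iff _ (coeffMap θ).injective).mpr hb
  · rw [← frStab_coeffMap_comm ι ψA ψE hψ, ← frStab_coeffMap_comm ι ψA ψE hψ, ← map_mul, h]

variable {ι} (hι : Function.Injective ι)

/-- `gaussRed (coeffMap ψE x) = coeffMap θ (gaussRed x)`. -/
theorem frStab_gaussRed (hψ : ∀ a, ψE (ι a) = ι (ψA a)) (hθ : ∀ a, r (ψA a) = θ (r a))
    (x : gaussRing ι r) :
    gaussRed r hι ⟨coeffMap ψE (x : LaurentSeries E),
        frStab_mem_gaussRing ι r ψA ψE θ hψ hθ x.2⟩ =
      coeffMap θ (gaussRed r hι x) := by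
  obtain ⟨T, b, hb, h⟩ := x.2
  have hb' : coeffMap r (coeffMap ψA b) ≠ 0 := by
    rw [frStab_coeffMap_red r ψA θ hθ]
    exact (map_ne_zero_iff _ (coeffMap θ).injective).mpr hb
  have h' : coeffMap ι (coeffMap ψA b) * coeffMap ψE (x : LaurentSeries E) =
      coeffMap ι (coeffMap ψA T) := by
    rw [← frStab_coeffMap_comm ι ψA ψE hψ, ← frStab_coeffMap_comm ι ψA ψE hψ, ← map_mul, h]
  have e1 := gaussRed_eq r hι ⟨coeffMap ψE (x : LaurentSeries E),
    frStab_mem_gaussRing ι r ψA ψE θ hψ hθ x.2⟩ (coeffMap ψA T) (coeffMap ψA b) hb' h'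
  have e2 := gaussRed_eq r hι x T b hb h
  rw [e1, e2, frStab_coeffMap_red r ψA θ hθ, frStab_coeffMap_red r ψA θ hθ, map_div₀]

end Gauss

section Integral

variable {A L : Type*} [CommRing A] [CommRing L] [Algebra A L] (ψA : A →+* A) (Ψ : L →+* L)

/-- a semilinear ring endomorphism mapping the generators into `A[S]` preserves `A[S]` -/
theorem frStab_mem_adjoin (hΨ : ∀ a, Ψ (algebraMap A L a) = algebraMap A L (ψA a))
    (S : Set L) (hS : ∀ s ∈ S, Ψ s ∈ Algebra.adjoin A S) {x : L}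
    (hx : x ∈ Algebra.adjoin A S) : Ψ x ∈ Algebra.adjoin A S := by
  induction hx using Algebra.adjoin_induction with
  | mem x hx => exact hS x hx
  | algebraMap a => rw [hΨ]; exact Subalgebra.algebraMap_mem _ _
  | add x y _ _ hx hy => rw [map_add]; exact Subalgebra.add_mem _ hx hy
  | mul x y _ _ hx hy => rw [map_mul]; exact Subalgebra.mul_mem _ hx hy

/-- ... and integrality over `A[S]` -/
theorem frStab_isIntegral (hΨ : ∀ a, Ψ (algebraMap A L a) = algebraMap A L (ψA a))
    (S : Set L) (hS : ∀ s ∈ S, Ψ s ∈ Algebra.adjoin A S) {x : L}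
    (hx : IsIntegral (Algebra.adjoin A S) x) : IsIntegral (Algebra.adjoin A S) (Ψ x) := by
  obtain ⟨p, hp, hpx⟩ := hx
  let g : Algebra.adjoin A S →+* Algebra.adjoin A S :=
    { toFun := fun y => ⟨Ψ (y : L), frStab_mem_adjoin ψA Ψ hΨ S hS y.2⟩
      map_one' := Subtype.ext (map_one Ψ)
      map_mul' := fun y z => Subtype.ext (map_mul Ψ _ _)
      map_zero' := Subtype.ext (map_zero Ψ)
      map_add' := fun y z => Subtype.ext (map_add Ψ _ _) }
  refine ⟨p.map g, hp.map g, ?_⟩
  rw [eval₂_map]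
  have hcomp : (algebraMap (Algebra.adjoin A S) L).comp g =
      Ψ.comp (algebraMap (Algebra.adjoin A S) L) := RingHom.ext fun y => rfl
  rw [hcomp, ← hom_eval₂, hpx, map_zero]

end Integral

section Modular

variable {E : Type*} [Field E] (N : ℕ) [NeZero N] (ψE : E →+* E)

/-- the ring endomorphism of `F_N(E)` induced by `ψE` on the coefficients -/
def frStabHom : modularFunctionFieldFullC E N →+* modularFunctionFieldFullC E N where
  toFun y := ⟨coeffMap ψE (y : LaurentSeries E), Fermat.Agent.AL.al_coeffMap_mem E N ψE y.2⟩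
  map_one' := Subtype.ext (map_one (coeffMap ψE))
  map_mul' := fun y z => Subtype.ext (map_mul (coeffMap ψE) _ _)
  map_zero' := Subtype.ext (map_zero (coeffMap ψE))
  map_add' := fun y z => Subtype.ext (map_add (coeffMap ψE) _ _)

@[simp] theorem coe_frStabHom (y : modularFunctionFieldFullC E N) :
    ((frStabHom N ψE y : modularFunctionFieldFullC E N) : LaurentSeries E) =
      coeffMap ψE (y : LaurentSeries E) := rfl

theorem frStabHom_algebraMap_E (c : E) :
    frStabHom N ψE (algebraMap E (modularFunctionFieldFullC E N) c) =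
      algebraMap E (modularFunctionFieldFullC E N) (ψE c) := by
  apply Subtype.ext
  rw [coe_frStabHom]
  show coeffMap ψE (algebraMap E (LaurentSeries E) c) = algebraMap E (LaurentSeries E) (ψE c)
  rw [algebraMap_laurentSeries_eq_single, coeffMap_single,
    ← algebraMap_laurentSeries_eq_single]

variable {A : Type*} [CommRing A] [Algebra A E] (ψA : A →+* A)
  [Algebra A (modularFunctionFieldFullC E N)]
  [IsScalarTower A E (modularFunctionFieldFullC E N)]

theorem frStabHom_algebraMap (hψ : ∀ a, ψE (algebraMap A E a) = algebraMap A E (ψA a)) (a : A) :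
    frStabHom N ψE (algebraMap A (modularFunctionFieldFullC E N) a) =
      algebraMap A (modularFunctionFieldFullC E N) (ψA a) := by
  rw [IsScalarTower.algebraMap_apply A E (modularFunctionFieldFullC E N),
    IsScalarTower.algebraMap_apply A E (modularFunctionFieldFullC E N), frStabHom_algebraMap_E, hψ]

/-- **FrStab, chart form.**  `coeffMap ψE` preserves the chart `B_τ` (the elements of `F_N(E)`
integral over `A[τ]`) if it fixes `τ`. -/
theorem frStab_chart (hψ : ∀ a, ψE (algebraMap A E a) = algebraMap A E (ψA a))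
    (τ : modularFunctionFieldFullC E N)
    (hτ : coeffMap ψE (τ : LaurentSeries E) = (τ : LaurentSeries E))
    {x : modularFunctionFieldFullC E N} (hx : IsIntegral (Algebra.adjoin A {τ}) x) :
    IsIntegral (Algebra.adjoin A {τ}) (frStabHom N ψE x) := by
  refine frStab_isIntegral ψA (frStabHom N ψE) (frStabHom_algebraMap N ψE ψA hψ) {τ} ?_ hx
  rintro s rfl
  have : frStabHom N ψE s = s := Subtype.ext hτ
  rw [this]
  exact Algebra.subset_adjoin rfl

end Modular

section N5

variable {B R : Type*} [CommRing B] [CommRing R]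

/-- **(N5) from (G3) + FrStab**, abstract form.  `f g : B →+* R` (`f = ρ`, `g = ρ₀ = ρ ∘ w`),
`w : B → B` with `g = f ∘ w` and `f = g ∘ w`, `B' ⊆ B` (level `M`) with `f(B') = R`,
`Θ : R → R` with `f (w s) = (Θ (f s)) ^ q` for `s ∈ B'` (G3) and `Θ (f B') ⊆ f B'` (FrStab).
Then for every `x : R` there are `s h : B` with `f s = x`, `g s = (g h) ^ q`, and there are
`s h : B` with `g s = x`, `f s = (f h) ^ q`. -/
theorem frStab_N5 (f g : B →+* R) (w : B → B) (hgw : ∀ b, g b = f (w b))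
    (hfw : ∀ b, f b = g (w b)) (B' : Set B) (hsurj : ∀ x : R, ∃ s ∈ B', f s = x)
    (Θ : R → R) (q : ℕ) (hG3 : ∀ s ∈ B', f (w s) = (Θ (f s)) ^ q)
    (x : R) :
    (∃ s h : B, f s = x ∧ g s = (g h) ^ q) ∧ (∃ s h : B, g s = x ∧ f s = (f h) ^ q) := by
  obtain ⟨s, hs, hsx⟩ := hsurj x
  obtain ⟨s', hs', hs'x⟩ := hsurj (Θ x)
  constructor
  · refine ⟨s, w s', hsx, ?_⟩
    rw [hgw s, hG3 s hs, hsx, ← hfw s', hs'x]
  · refine ⟨w s, s', ?_, ?_⟩
    · rw [← hfw s, hsx]
    · rw [hG3 s hs, hsx, hs'x]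

end N5

end Fermat.Agent.UNIP

end
end ZBS34_001_5

/-! ### bundled: `Fermat.Agent.STB.ToricTransfer` -/
section ZBS34_001_6

/-!
# STB-MG-t: the toric transfer

`A` a valuation subring of `ℚ̄`, `E′` an intermediate field of `ℚ̄ / ℚ`, `hB : VtBase ι r π` a
discrete base with fraction field `E′`, compatible with `A`:

* `(c1)` `ι a ∈ A`;   `(c2)` `ι a ∈ 𝔪_A → r a = 0`

(for `A₀ = beta0Ring A E′ = A ∩ E′`, `ι = algebraMap`, `r = residue`: `stb_mgt_c1`, `stb_mgt_c2`).

* `stb_mgt_inf`  (t∞) : `ReducesToOne A N (nfEmb E′ N x₀) → x₀ - 1 ∈ 𝔪(vtInf hB N)`;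
* `stb_mgt_zero` (t0) : `ReducesToOne A (M q) (w_q (nfEmb E′ (M q) x₀)) → x₀ - 1 ∈ 𝔪(vtFam … false)`;
* `stb_mgt_fam`       : both, as a statement on `vtFam hB ιC hq hqM c`, `c : Bool`;
* `stb_mgt_htoric`    : the hypothesis `htoric` of `stb_main_points`.
-/

set_option autoImplicit false
set_option linter.unusedSectionVars false
set_option linter.style.haveILetI false

noncomputable section

namespace Fermat.Agent.STB

open ModularCurve Fermat.Agent.INJ Fermat.Agent.ES Fermat.Agent.ES.G2 Fermat.Agent.UNIP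

section Transfer

variable {A₀ k : Type*} [CommRing A₀] [Field k] {E' : IntermediateField ℚ Qb}
  {ι : A₀ →+* ↥E'} {r : A₀ →+* k} {π : A₀} (hB : VtBase ι r π) (A : ValuationSubring Qb)

/-- **(t∞)**  `x₀ ∈ F_N(E′)` reduces to one at `A` ⇒ `x₀ ≡ 1` at the vertical valuation `V_∞`. -/
theorem stb_mgt_inf (h1 : ∀ a, algebraMap ↥E' Qb (ι a) ∈ A)
    (h2 : ∀ a, algebraMap ↥E' Qb (ι a) ∈ A.nonunits → r a = 0)
    (N : ℕ) [NeZero N] {x₀ : modularFunctionFieldFullC ↥E' N}
    (hx : ReducesToOne A N (nfEmb E' N x₀)) :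
    x₀ - 1 ∈ (vtInf hB N).nonunits := by
  obtain ⟨y₁, y₂, -, -, hy₁, hy₂, hc, hxy⟩ := hx
  rw [vtInf, vtSub_mem_nonunits_iff]
  exact stb_mgt_core (ψ := algebraMap ↥E' Qb) hB h1 h2 (vt_frac_fullC hB N x₀.2) hy₁ hy₂ hc hxy

variable (ιC : ↥E' →+* ℂ) {q M : ℕ} [NeZero q] [NeZero M] [NeZero (M * q)]
  (hq : q.Prime) (hqM : ¬ q ∣ M)

/-- `w_q` over `ℚ̄` of the image of `x₀ ∈ F_{Mq}(E′)` is the image of `w_q x₀`. -/
theorem stb_mgt_atkinLehnerBar_nfEmb (x₀ : modularFunctionFieldFullC ↥E' (M * q)) :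
    ((atkinLehnerBar hq hqM (nfEmb E' (M * q) x₀) : modularFunctionFieldBar (M * q)) :
        LaurentSeries Qb) =
      coeffMap (algebraMap ↥E' Qb)
        ((Fermat.Agent.AL.atkinLehner ↥E' ιC hq hqM x₀ : modularFunctionFieldFullC ↥E' (M * q)) :
          LaurentSeries ↥E') := by
  rw [atkinLehnerBar_coe]
  have e : (⟨((nfEmb E' (M * q) x₀ : modularFunctionFieldBar (M * q)) : LaurentSeries Qb),
      cheap_mem_fullC (nfEmb E' (M * q) x₀).2⟩ : modularFunctionFieldFullC Qb (M * q)) =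
      mgaCoeffHom (algebraMap ↥E' Qb) (M * q) x₀ := Subtype.ext rfl
  rw [e, vt_atkinLehner_coeffHom (algebraMap ↥E' Qb) ιC cheapIota hq hqM x₀, mgaCoeffHom_coe]

/-- `w_q` commutes with `nfEmb`. -/
theorem stb_mgt_atkinLehnerBar_nfEmb' (x₀ : modularFunctionFieldFullC ↥E' (M * q)) :
    atkinLehnerBar hq hqM (nfEmb E' (M * q) x₀) =
      nfEmb E' (M * q) (Fermat.Agent.AL.atkinLehner ↥E' ιC hq hqM x₀) :=
  Subtype.ext (stb_mgt_atkinLehnerBar_nfEmb ιC hq hqM x₀)

/-- **(t0)**  `w_q x₀` reduces to one at `A` ⇒ `x₀ ≡ 1` at the vertical valuation `V_0`. -/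
theorem stb_mgt_zero (h1 : ∀ a, algebraMap ↥E' Qb (ι a) ∈ A)
    (h2 : ∀ a, algebraMap ↥E' Qb (ι a) ∈ A.nonunits → r a = 0)
    {x₀ : modularFunctionFieldFullC ↥E' (M * q)}
    (hx : ReducesToOne A (M * q) (atkinLehnerBar hq hqM (nfEmb E' (M * q) x₀))) :
    x₀ - 1 ∈ (vtFam hB ιC hq hqM false).nonunits := by
  obtain ⟨y₁, y₂, -, -, hy₁, hy₂, hc, hxy⟩ := hx
  rw [stb_mgt_atkinLehnerBar_nfEmb ιC hq hqM x₀] at hxy
  rw [vtFam_mem_nonunits_iff]
  have hfr : VtFrac ι ((Fermat.Agent.AL.atkinLehner ↥E' ιC hq hqM x₀ :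
      modularFunctionFieldFullC ↥E' (M * q)) : LaurentSeries ↥E') :=
    vt_frac_fullC hB (M * q) (Fermat.Agent.AL.atkinLehner ↥E' ιC hq hqM x₀).2
  have key := stb_mgt_core (ψ := algebraMap ↥E' Qb) hB h1 h2 hfr hy₁ hy₂ hc hxy
  have e : vtEmbFam ιC hq hqM false (x₀ - 1) =
      ((Fermat.Agent.AL.atkinLehner ↥E' ιC hq hqM x₀ : modularFunctionFieldFullC ↥E' (M * q)) :
        LaurentSeries ↥E') - 1 := by
    rw [map_sub, map_one]
    rfl
  obtain ⟨h, h0⟩ := key
  refine ⟨by rw [e]; exact h, ?_⟩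
  have e' : (⟨vtEmbFam ιC hq hqM false (x₀ - 1), by rw [e]; exact h⟩ : gaussRing ι r) =
      ⟨_, h⟩ := Subtype.ext e
  rw [e']
  exact h0

/-- **(t∞)** in the family. -/
theorem stb_mgt_true (h1 : ∀ a, algebraMap ↥E' Qb (ι a) ∈ A)
    (h2 : ∀ a, algebraMap ↥E' Qb (ι a) ∈ A.nonunits → r a = 0)
    {x₀ : modularFunctionFieldFullC ↥E' (M * q)}
    (hx : ReducesToOne A (M * q) (nfEmb E' (M * q) x₀)) :
    x₀ - 1 ∈ (vtFam hB ιC hq hqM true).nonunits :=
  stb_mgt_inf hB A h1 h2 (M * q) hx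

/-- **(t∞) and (t0) together**: the transfer at the cusp `c`, `w c = id` (`c = true`) or
`w c = w_q` (`c = false`). -/
theorem stb_mgt_fam (h1 : ∀ a, algebraMap ↥E' Qb (ι a) ∈ A)
    (h2 : ∀ a, algebraMap ↥E' Qb (ι a) ∈ A.nonunits → r a = 0)
    {x₀ : modularFunctionFieldFullC ↥E' (M * q)} (c : Bool)
    (hx : ReducesToOne A (M * q)
      (bif c then nfEmb E' (M * q) x₀ else atkinLehnerBar hq hqM (nfEmb E' (M * q) x₀))) :
    x₀ - 1 ∈ (vtFam hB ιC hq hqM c).nonunits := by
  cases c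
  · exact stb_mgt_zero hB A ιC hq hqM h1 h2 hx
  · exact stb_mgt_true hB A ιC hq hqM h1 h2 hx

/-- **The hypothesis `htoric` of `stb_main_points`** from the toric factors over `ℚ̄`
(`stb_a_exists_toric_kummer`), for descents `y₀, tt true, tt false ∈ F_{Mq}(E′)` of
`y, t, t′ ∈ F_{Mq}(ℚ̄)`. -/
theorem stb_mgt_htoric (h1 : ∀ a, algebraMap ↥E' Qb (ι a) ∈ A)
    (h2 : ∀ a, algebraMap ↥E' Qb (ι a) ∈ A.nonunits → r a = 0)
    {y₀ : modularFunctionFieldFullC ↥E' (M * q)}
    (tt : Bool → modularFunctionFieldFullC ↥E' (M * q)) (m : ℕ)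
    (k1 : ReducesToOne A (M * q)
      (nfEmb E' (M * q) y₀ / nfEmb E' (M * q) (tt true) ^ m))
    (k2 : ReducesToOne A (M * q)
      (atkinLehnerBar hq hqM (nfEmb E' (M * q) y₀ / nfEmb E' (M * q) (tt false) ^ m))) :
    ∀ c : Bool, y₀ / tt c ^ m - 1 ∈ (vtFam hB ιC hq hqM c).nonunits := by
  intro c
  cases c
  · refine stb_mgt_zero hB A ιC hq hqM h1 h2 ?_
    rw [map_div₀, map_pow]
    exact k2
  · refine stb_mgt_true hB A ιC hq hqM h1 h2 ?_
    rw [map_div₀, map_pow]
    exact k1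

/-- `stb_mgt_htoric` with the elements over `ℚ̄` named. -/
theorem stb_mgt_htoric_of_eq (h1 : ∀ a, algebraMap ↥E' Qb (ι a) ∈ A)
    (h2 : ∀ a, algebraMap ↥E' Qb (ι a) ∈ A.nonunits → r a = 0)
    {y t t' : modularFunctionFieldBar (M * q)}
    {y₀ t₀ t₀' : modularFunctionFieldFullC ↥E' (M * q)}
    (hy : nfEmb E' (M * q) y₀ = y) (ht : nfEmb E' (M * q) t₀ = t)
    (ht' : nfEmb E' (M * q) t₀' = t') (m : ℕ)
    (k1 : ReducesToOne A (M * q) (y / t ^ m))
    (k2 : ReducesToOne A (M * q) (atkinLehnerBar hq hqM (y / t' ^ m))) :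
    ∀ c : Bool, y₀ / (bif c then t₀ else t₀') ^ m - 1 ∈ (vtFam hB ιC hq hqM c).nonunits :=
  stb_mgt_htoric hB A ιC hq hqM h1 h2 (fun c => bif c then t₀ else t₀') m
    (by rw [hy]; show ReducesToOne A (M * q) (y / nfEmb E' (M * q) t₀ ^ m); rw [ht]; exact k1)
    (by rw [hy]; show ReducesToOne A (M * q)
          (atkinLehnerBar hq hqM (y / nfEmb E' (M * q) t₀' ^ m)); rw [ht']; exact k2)

end Transfer

/-! ### The base `A ∩ E′` -/

section Beta0

variable (A : ValuationSubring Qb) (E' : IntermediateField ℚ Qb)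

/-- `(c1)` for the base `A ∩ E′`. -/
theorem stb_mgt_c1 (a : ↥(beta0Ring A E')) :
    algebraMap ↥E' Qb (algebraMap ↥(beta0Ring A E') ↥E' a) ∈ A := a.2

/-- `(c2)` for the base `A ∩ E′`. -/
theorem stb_mgt_c2 (a : ↥(beta0Ring A E'))
    (h : algebraMap ↥E' Qb (algebraMap ↥(beta0Ring A E') ↥E' a) ∈ A.nonunits) :
    IsLocalRing.residue ↥(beta0Ring A E') a = 0 :=
  (IsLocalRing.residue_eq_zero_iff a).2 ((beta0Ring_mem_maximalIdeal_iff a).2 h)

variable {A E'} {π' : ↥(beta0Ring A E')}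
  (hB : VtBase (algebraMap ↥(beta0Ring A E') ↥E') (IsLocalRing.residue ↥(beta0Ring A E')) π')

/-- **(t∞)** for the base `A ∩ E′`. -/
theorem stb_mgt_inf_beta0 (N : ℕ) [NeZero N] {x₀ : modularFunctionFieldFullC ↥E' N}
    (hx : ReducesToOne A N (nfEmb E' N x₀)) :
    x₀ - 1 ∈ (vtInf hB N).nonunits :=
  stb_mgt_inf hB A (stb_mgt_c1 A E') (stb_mgt_c2 A E') N hx

variable (ιC : ↥E' →+* ℂ) {q M : ℕ} [NeZero q] [NeZero M] [NeZero (M * q)]
  (hq : q.Prime) (hqM : ¬ q ∣ M)

/-- **(t0)** for the base `A ∩ E′`. -/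
theorem stb_mgt_zero_beta0 {x₀ : modularFunctionFieldFullC ↥E' (M * q)}
    (hx : ReducesToOne A (M * q) (atkinLehnerBar hq hqM (nfEmb E' (M * q) x₀))) :
    x₀ - 1 ∈ (vtFam hB ιC hq hqM false).nonunits :=
  stb_mgt_zero hB A ιC hq hqM (stb_mgt_c1 A E') (stb_mgt_c2 A E') hx

/-- **`htoric`** for the base `A ∩ E′`. -/
theorem stb_mgt_htoric_beta0 {y₀ : modularFunctionFieldFullC ↥E' (M * q)}
    (tt : Bool → modularFunctionFieldFullC ↥E' (M * q)) (m : ℕ)
    (k1 : ReducesToOne A (M * q)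
      (nfEmb E' (M * q) y₀ / nfEmb E' (M * q) (tt true) ^ m))
    (k2 : ReducesToOne A (M * q)
      (atkinLehnerBar hq hqM (nfEmb E' (M * q) y₀ / nfEmb E' (M * q) (tt false) ^ m))) :
    ∀ c : Bool, y₀ / tt c ^ m - 1 ∈ (vtFam hB ιC hq hqM c).nonunits :=
  stb_mgt_htoric hB A ιC hq hqM (stb_mgt_c1 A E') (stb_mgt_c2 A E') tt m k1 k2

end Beta0

/-! ### Descent of the toric factors -/

section Descent

/-- Two elements of `F_N(ℚ̄)` descend to `F_N(E′)` for every `E′` containing a suitable number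
field. -/
theorem stb_mgt_exists_descent (N : ℕ) (t t' : modularFunctionFieldBar N) :
    ∃ K₀ : IntermediateField ℚ Qb, FiniteDimensional ℚ K₀ ∧
      ∀ E' : IntermediateField ℚ Qb, K₀ ≤ E' →
        ∃ t₀ t₀' : modularFunctionFieldFullC ↥E' N,
          nfEmb E' N t₀ = t ∧ nfEmb E' N t₀' = t' := by
  classical
  obtain ⟨K₀, hK₀, -, hK⟩ := nf_exists_descent_finset (N := N) ∅
    ({(t : LaurentSeries Qb), (t' : LaurentSeries Qb)} : Finset (LaurentSeries Qb))
    (by
      intro y hy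
      rw [Finset.mem_insert, Finset.mem_singleton] at hy
      rcases hy with rfl | rfl
      · exact t.2
      · exact t'.2)
  refine ⟨K₀, hK₀, fun E' hE => ?_⟩
  obtain ⟨t₀, ht₀, e⟩ := hK E' hE (t : LaurentSeries Qb)
    (by rw [Finset.mem_insert]; exact Or.inl rfl)
  obtain ⟨t₀', ht₀', e'⟩ := hK E' hE (t' : LaurentSeries Qb)
    (by rw [Finset.mem_insert, Finset.mem_singleton]; exact Or.inr rfl)
  exact ⟨⟨t₀, ht₀⟩, ⟨t₀', ht₀'⟩, Subtype.ext e, Subtype.ext e'⟩

end Descent

end Fermat.Agent.STB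

end
end ZBS34_001_6

/-! ### bundled: `Fermat.Agent.S36.ALQ` -/
section ZBS34_001_7

/-!
# The Atkin–Lehner involution `w_Q` at an exact divisor `Q ∥ N` (helper92; S36 piece N2-w)

`Q ∣ N`, `gcd(Q, N / Q) = 1` (e.g. `Q = q²`, `N = q² M'`, `q ∤ M'`).  For a field `K` with a ring
homomorphism `K →+* ℂ` and `F_N = modularFunctionFieldFullC K N = K(j(Q^e) : e ∣ N)`:

* `alqSwap Q N e = (Q / gcd e Q) * (e / gcd e Q)` (for `e ∣ N`) : the index swap, an involution of
  the divisors of `N`; `alqSwap_mul : alqSwap Q N (c * d) = (Q / c) * d` for `c ∣ Q`, `d ∣ N / Q`;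
* `alqRel` : every polynomial relation over `K` between the `j(Q^e)`, `e ∣ N`, also holds after
  the swap;
* `atkinLehnerQ K ι hQ hcop : F_N ≃ₐ[K] F_N`, with `atkinLehnerQ_gen`, `atkinLehnerQ_jq`
  (`w (j(Q^{cd})) = j(Q^{(Q/c) d})`), `atkinLehnerQ_invol`, `atkinLehnerQ_coeffMap`
  (it commutes with the action of ring endomorphisms of `K` on coefficients).

Fork of helper90's `S34/ALMain.lean` (the case `Q` prime); the abstract part
(`AL.alAbsFieldEquiv`) and the generators (`AL.alGen`, `AL.alFun`) are reused.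
-/

set_option autoImplicit false
set_option linter.unusedSectionVars false
set_option linter.style.haveILetI false

noncomputable section

namespace Fermat.Agent.S36

open ModularCurve MvPolynomial UpperHalfPlane
open Fermat.Agent.S23 Fermat.Agent.S24 Fermat.Agent.S28 Fermat.Agent.AL

/-! ### The index swap -/

/-- The swap `c d ↦ (Q / c) d` (`c ∣ Q`, `d ∣ N / Q`) on the divisors of `N` (identity
elsewhere). -/
def alqSwap (Q N e : ℕ) : ℕ :=
  if e ∣ N then (Q / Nat.gcd e Q) * (e / Nat.gcd e Q) else e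

section Swap

variable {Q N : ℕ} (hN : N ≠ 0) (hQ : Q ∣ N) (hcop : Nat.Coprime Q (N / Q))

include hN hQ hcop

theorem alq_Q_ne_zero : Q ≠ 0 := fun h => hN (by subst h; simpa using hQ)

theorem alq_M_ne_zero : N / Q ≠ 0 := by
  intro h
  have := Nat.div_mul_cancel hQ
  rw [h, zero_mul] at this
  exact hN this.symm

theorem alq_mul_dvd {c d : ℕ} (hc : c ∣ Q) (hd : d ∣ N / Q) : c * d ∣ N := by
  have := Nat.mul_dvd_mul hc hd
  rwa [Nat.mul_div_cancel' hQ] at this

theorem alq_divisor_cases {e : ℕ} (he : e ∣ N) : ∃ c d, c ∣ Q ∧ d ∣ N / Q ∧ e = c * d := by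
  have he' : e ∣ Q * (N / Q) := by rwa [Nat.mul_div_cancel' hQ]
  obtain ⟨c, d, hc, hd, rfl⟩ := (Nat.dvd_mul).1 he'
  exact ⟨c, d, hc, hd, rfl⟩

theorem alq_gcd {c d : ℕ} (hc : c ∣ Q) (hd : d ∣ N / Q) : Nat.gcd (c * d) Q = c := by
  have h1 : Nat.Coprime d Q := (Nat.Coprime.coprime_dvd_left hd hcop.symm)
  rw [Nat.Coprime.gcd_mul_right_cancel c h1]
  exact Nat.gcd_eq_left hc

theorem alqSwap_mul {c d : ℕ} (hc : c ∣ Q) (hd : d ∣ N / Q) :
    alqSwap Q N (c * d) = (Q / c) * d := by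
  have hc0 : c ≠ 0 := fun h => alq_Q_ne_zero hN hQ hcop (by subst h; simpa using hc)
  rw [alqSwap, if_pos (alq_mul_dvd hN hQ hcop hc hd), alq_gcd hN hQ hcop hc hd,
    Nat.mul_div_cancel_left d (Nat.pos_of_ne_zero hc0)]

theorem alqSwap_dvd {e : ℕ} (he : e ∣ N) : alqSwap Q N e ∣ N := by
  obtain ⟨c, d, hc, hd, rfl⟩ := alq_divisor_cases hN hQ hcop he
  rw [alqSwap_mul hN hQ hcop hc hd]
  exact alq_mul_dvd hN hQ hcop (Nat.div_dvd_of_dvd hc) hd

theorem alqSwap_invol (e : ℕ) : alqSwap Q N (alqSwap Q N e) = e := by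
  by_cases he : e ∣ N
  · obtain ⟨c, d, hc, hd, rfl⟩ := alq_divisor_cases hN hQ hcop he
    rw [alqSwap_mul hN hQ hcop hc hd, alqSwap_mul hN hQ hcop (Nat.div_dvd_of_dvd hc) hd,
      Nat.div_div_self hc (alq_Q_ne_zero hN hQ hcop)]
  · have : alqSwap Q N e = e := by rw [alqSwap, if_neg he]
    rw [this, this]

end Swap

/-! ### The analytic substitution on the function family -/

section Analytic

variable {Q N : ℕ} [NeZero N] [NeZero Q] [NeZero (N / Q)] (hQ : Q ∣ N)
  (hcop : Nat.Coprime Q (N / Q))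
  (a b : ℤ) (h : (Q : ℤ) * a - ((N / Q : ℕ) : ℤ) * b = 1)

include hQ hcop

/-- `J_e ∘ W = J_{swap e}`. -/
theorem alqFun_alW (e : ℕ) (τ : ℍ) :
    alFun N e (alW Q (N / Q) a b h τ) = alFun N (alqSwap Q N e) τ := by
  have hN : N ≠ 0 := NeZero.ne N
  by_cases he : e ∣ N
  · obtain ⟨c, d, hc, hd, rfl⟩ := alq_divisor_cases hN hQ hcop he
    have hc0 : c ≠ 0 := fun h0 => NeZero.ne Q (by subst h0; simpa using hc)
    have hd0 : d ≠ 0 := fun h0 => NeZero.ne (N / Q) (by subst h0; simpa using hd)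
    have hc'0 : Q / c ≠ 0 := by
      intro h0
      have := Nat.div_mul_cancel hc
      rw [h0, zero_mul] at this
      exact NeZero.ne Q this.symm
    haveI : NeZero c := ⟨hc0⟩
    haveI : NeZero d := ⟨hd0⟩
    haveI : NeZero (Q / c) := ⟨hc'0⟩
    haveI : NeZero (c * d) := ⟨Nat.mul_ne_zero hc0 hd0⟩
    haveI : NeZero (Q / c * d) := ⟨Nat.mul_ne_zero hc'0 hd0⟩
    have h2 : Q / c * d ∣ N := alq_mul_dvd hN hQ hcop (Nat.div_dvd_of_dvd hc) hd
    rw [alqSwap_mul hN hQ hcop hc hd, alFun_of_dvd he, alFun_of_dvd h2]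
    exact alq_J Q (N / Q) a b h c (Q / c) (Nat.mul_div_cancel' hc) hd τ
  · have : alqSwap Q N e = e := by rw [alqSwap, if_neg he]
    rw [this, alFun_of_not_dvd he]
    rfl

end Analytic

/-! ### Stability of the relations -/

section Rel

variable {Q N : ℕ} [NeZero N] (hQ : Q ∣ N) (hcop : Nat.Coprime Q (N / Q))

include hQ hcop

/-- Stability of the relations over `ℂ`. -/
theorem alqRel_complex (p : MvPolynomial ℕ ℂ) (hp : aeval (alGen ℂ N) p = 0) :
    aeval (alGen ℂ N ∘ alqSwap Q N) p = 0 := by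
  have hN : N ≠ 0 := NeZero.ne N
  haveI : NeZero Q := ⟨alq_Q_ne_zero hN hQ hcop⟩
  haveI : NeZero (N / Q) := ⟨alq_M_ne_zero hN hQ hcop⟩
  -- Bezout
  have hcop' : IsCoprime (Q : ℤ) ((N / Q : ℕ) : ℤ) := Nat.isCoprime_iff_coprime.mpr hcop
  obtain ⟨u, v, huv⟩ := hcop'
  have hab : (Q : ℤ) * u - ((N / Q : ℕ) : ℤ) * (-v) = 1 := by linear_combination huv
  -- the relation between functions
  have e1 : aeval (alGen ℂ N) p = laurentExp (aeval (alFunM N) p) := by
    rw [comp_aeval_apply]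
    exact congrArg (fun f => aeval f p)
      (funext fun e => (laurentExp_alFunM N e).symm)
  have h1 : aeval (alFunM N) p = 0 := by
    apply laurentExp_injective
    rw [← e1, hp, map_zero]
  have h2 : aeval (alFunM N ∘ alqSwap Q N) p = 0 := by
    apply Subtype.ext
    funext τ
    have e2 : alEval τ (aeval (alFunM N ∘ alqSwap Q N) p) =
        alEval (alW Q (N / Q) u (-v) hab τ) (aeval (alFunM N) p) := by
      rw [comp_aeval_apply, comp_aeval_apply]
      exact congrArg (fun f => aeval f p)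
        (funext fun e => (alqFun_alW hQ hcop u (-v) hab e τ).symm)
    rw [h1, map_zero] at e2
    exact e2
  have e3 : aeval (alGen ℂ N ∘ alqSwap Q N) p =
      laurentExp (aeval (alFunM N ∘ alqSwap Q N) p) := by
    rw [comp_aeval_apply]
    exact congrArg (fun f => aeval f p)
      (funext fun e => (laurentExp_alFunM N _).symm)
  rw [e3, h2, map_zero]

/-- **Stability of the relations** between the `j(Q^e)`, `e ∣ N`, under the swap. -/
theorem alqRel {K : Type*} [Field K] (ι : K →+* ℂ) (p : MvPolynomial ℕ K)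
    (hp : aeval (alGen K N) p = 0) :
    aeval (alGen K N ∘ alqSwap Q N) p = 0 := by
  apply al_coeffMap_injective ι
  rw [map_zero, al_coeffMap_aeval]
  have h1 := al_coeffMap_aeval ι (alGen K N) p
  rw [hp, map_zero] at h1
  have h2 : (fun e => coeffMap ι (alGen K N e)) = alGen ℂ N :=
    funext fun e => coeffMap_alGen ι N e
  rw [h2] at h1
  have h3 := alqRel_complex hQ hcop _ h1.symm
  have h4 : (fun e => coeffMap ι ((alGen K N ∘ alqSwap Q N) e)) =
      alGen ℂ N ∘ alqSwap Q N :=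
    funext fun e => coeffMap_alGen ι N _
  rw [h4]
  exact h3

end Rel

/-! ### The automorphism -/

section Main

variable (K : Type*) [Field K] (ι : K →+* ℂ) {Q N : ℕ} [NeZero N] (hQ : Q ∣ N)
  (hcop : Nat.Coprime Q (N / Q))

/-- The Atkin–Lehner automorphism of `K(range alGen)`. -/
def atkinLehnerQAux : IntermediateField.adjoin K (Set.range (alGen K N)) ≃ₐ[K]
    IntermediateField.adjoin K (Set.range (alGen K N)) :=
  alAbsFieldEquiv (x := alGen K N) (σ := alqSwap Q N) (alqSwap_invol (NeZero.ne N) hQ hcop)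
    (fun p hp => alqRel hQ hcop ι p hp)

/-- **The Atkin–Lehner automorphism `w_Q`** of `F_N = K(j(Q^e) : e ∣ N)`, `Q ∥ N`. -/
def atkinLehnerQ : modularFunctionFieldFullC K N ≃ₐ[K] modularFunctionFieldFullC K N :=
  (IntermediateField.equivOfEq (adjoin_range_alGen K N).symm).trans
    ((atkinLehnerQAux K ι hQ hcop).trans (IntermediateField.equivOfEq (adjoin_range_alGen K N)))

theorem alqGen_mem (e : ℕ) : alGen K N e ∈ modularFunctionFieldFullC K N := by
  rw [← adjoin_range_alGen]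
  exact IntermediateField.subset_adjoin K _ ⟨e, rfl⟩

/-- `w_Q (j_e) = j_{swap e}`. -/
theorem atkinLehnerQ_gen (e : ℕ) :
    ((atkinLehnerQ K ι hQ hcop ⟨alGen K N e, alqGen_mem K e⟩ :
      modularFunctionFieldFullC K N) : LaurentSeries K) =
      alGen K N (alqSwap Q N e) :=
  alAbsFieldEquiv_gen (x := alGen K N) (σ := alqSwap Q N)
    (alqSwap_invol (NeZero.ne N) hQ hcop) (fun p hp => alqRel hQ hcop ι p hp) e

/-- `w_Q ∘ w_Q = id`. -/
theorem atkinLehnerQ_invol (y : modularFunctionFieldFullC K N) :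
    atkinLehnerQ K ι hQ hcop (atkinLehnerQ K ι hQ hcop y) = y := by
  unfold atkinLehnerQ
  simp only [AlgEquiv.trans_apply]
  apply Subtype.ext
  have h := alAbsFieldEquiv_invol (x := alGen K N) (σ := alqSwap Q N)
    (alqSwap_invol (NeZero.ne N) hQ hcop) (fun p hp => alqRel hQ hcop ι p hp)
    (IntermediateField.equivOfEq (adjoin_range_alGen K N).symm y)
  exact congrArg (fun z : IntermediateField.adjoin K (Set.range (alGen K N)) =>
    (z : LaurentSeries K)) h

theorem atkinLehnerQ_symm : (atkinLehnerQ K ι hQ hcop).symm = atkinLehnerQ K ι hQ hcop := by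
  apply AlgEquiv.ext
  intro y
  rw [AlgEquiv.symm_apply_eq, atkinLehnerQ_invol]

/-- **`w_Q (j(Q^e)) = j(Q^{e'})`**, `e' = alqSwap Q N e`, for `e ∣ N`. -/
theorem atkinLehnerQ_jq {e : ℕ} [NeZero e] [NeZero (alqSwap Q N e)] (he : e ∣ N) :
    ((atkinLehnerQ K ι hQ hcop ⟨qExpand K e (jqModC K), jqModCd_mem_full K N he⟩ :
      modularFunctionFieldFullC K N) : LaurentSeries K) =
      qExpand K (alqSwap Q N e) (jqModC K) := by
  have h1 := atkinLehnerQ_gen K ι hQ hcop e
  rw [alGen_of_dvd K (alqSwap_dvd (NeZero.ne N) hQ hcop he)] at h1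
  rw [← h1]
  congr 2
  exact Subtype.ext (alGen_of_dvd K he).symm

/-- **`w_Q (j(Q^{cd})) = j(Q^{(Q/c)d})`** for `c ∣ Q`, `d ∣ N / Q`. -/
theorem atkinLehnerQ_jq_mul {c d : ℕ} [NeZero (c * d)] [NeZero (Q / c * d)] (hc : c ∣ Q)
    (hd : d ∣ N / Q) :
    ((atkinLehnerQ K ι hQ hcop ⟨qExpand K (c * d) (jqModC K),
        jqModCd_mem_full K N (alq_mul_dvd (NeZero.ne N) hQ hcop hc hd)⟩ :
      modularFunctionFieldFullC K N) : LaurentSeries K) =
      qExpand K (Q / c * d) (jqModC K) := by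
  have h1 := atkinLehnerQ_gen K ι hQ hcop (c * d)
  rw [alqSwap_mul (NeZero.ne N) hQ hcop hc hd,
    alGen_of_dvd K (alq_mul_dvd (NeZero.ne N) hQ hcop (Nat.div_dvd_of_dvd hc) hd)] at h1
  rw [← h1]
  congr 2
  exact Subtype.ext (alGen_of_dvd K (alq_mul_dvd (NeZero.ne N) hQ hcop hc hd)).symm

/-- **`w_Q` commutes with the action of ring endomorphisms of `K` on the coefficients.** -/
theorem atkinLehnerQ_coeffMap (σ : K →+* K) (y : modularFunctionFieldFullC K N) :
    ((atkinLehnerQ K ι hQ hcop ⟨coeffMap σ (y : LaurentSeries K), al_coeffMap_mem K N σ y.2⟩ :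
      modularFunctionFieldFullC K N) : LaurentSeries K) =
      coeffMap σ ((atkinLehnerQ K ι hQ hcop y : modularFunctionFieldFullC K N) :
        LaurentSeries K) := by
  set τ : modularFunctionFieldFullC K N →+* modularFunctionFieldFullC K N :=
    ((coeffMap σ).comp ((modularFunctionFieldFullC K N).val : _ →+* LaurentSeries K)).codRestrict
      (modularFunctionFieldFullC K N).toSubfield.toSubring
      (fun z => al_coeffMap_mem K N σ z.2) with hτ
  set φ₁ : modularFunctionFieldFullC K N →+* LaurentSeries K :=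
    ((modularFunctionFieldFullC K N).val : _ →+* LaurentSeries K).comp
      ((atkinLehnerQ K ι hQ hcop).toRingEquiv.toRingHom.comp τ) with hφ₁
  set φ₂ : modularFunctionFieldFullC K N →+* LaurentSeries K :=
    (coeffMap σ).comp (((modularFunctionFieldFullC K N).val : _ →+* LaurentSeries K).comp
      (atkinLehnerQ K ι hQ hcop).toRingEquiv.toRingHom) with hφ₂
  have hgenfix : ∀ e : ℕ, coeffMap σ (alGen K N e) = alGen K N e :=
    fun e => coeffMap_alGen σ N e
  have key : φ₁ = φ₂ := by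
    apply al_ringHom_ext K N
    · intro c
      show ((atkinLehnerQ K ι hQ hcop (τ (algebraMap K _ c)) : modularFunctionFieldFullC K N) :
        LaurentSeries K) = coeffMap σ ((atkinLehnerQ K ι hQ hcop (algebraMap K _ c) :
          modularFunctionFieldFullC K N) : LaurentSeries K)
      have e1 : τ (algebraMap K _ c) = algebraMap K _ (σ c) := by
        apply Subtype.ext
        show coeffMap σ (algebraMap K (LaurentSeries K) c) = algebraMap K (LaurentSeries K) (σ c)
        rw [algebraMap_laurentSeries_eq_single, coeffMap_single,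
          ← algebraMap_laurentSeries_eq_single]
      rw [e1, AlgEquiv.commutes, AlgEquiv.commutes]
      show algebraMap K (LaurentSeries K) (σ c) = coeffMap σ (algebraMap K (LaurentSeries K) c)
      rw [algebraMap_laurentSeries_eq_single, algebraMap_laurentSeries_eq_single, coeffMap_single]
    · intro d _ hd
      show ((atkinLehnerQ K ι hQ hcop (τ ⟨qExpand K d (jqModC K), _⟩) :
        modularFunctionFieldFullC K N) : LaurentSeries K) =
          coeffMap σ ((atkinLehnerQ K ι hQ hcop ⟨qExpand K d (jqModC K), _⟩ :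
            modularFunctionFieldFullC K N) : LaurentSeries K)
      have e0 : (⟨qExpand K d (jqModC K), jqModCd_mem_full K N hd⟩ :
          modularFunctionFieldFullC K N) = ⟨alGen K N d, alqGen_mem K d⟩ :=
        Subtype.ext (alGen_of_dvd K hd).symm
      have e1 : τ ⟨alGen K N d, alqGen_mem K d⟩ = ⟨alGen K N d, alqGen_mem K d⟩ :=
        Subtype.ext (hgenfix d)
      rw [e0, e1, atkinLehnerQ_gen, hgenfix]
  exact congrArg (fun φ : modularFunctionFieldFullC K N →+* LaurentSeries K => φ y) key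

end Main

/-! ### Compatibility with the degeneracy maps -/

section Lower

variable (K : Type*) [Field K] (ι : K →+* ℂ) {Q₁ N₁ r : ℕ} [NeZero N₁] [NeZero r]
  [NeZero (N₁ * r)] (hQ₁ : Q₁ ∣ N₁) (hcop₁ : Nat.Coprime Q₁ (N₁ / Q₁))
  (hQ : Q₁ * r ∣ N₁ * r) (hcop : Nat.Coprime (Q₁ * r) (N₁ * r / (Q₁ * r)))

include hQ₁ hcop₁ hQ hcop in
theorem alqSwap_lower {d : ℕ} (hd : d ∣ N₁) :
    alqSwap (Q₁ * r) (N₁ * r) d = alqSwap Q₁ N₁ d * r := by
  have hN₁ : N₁ ≠ 0 := NeZero.ne N₁
  have hr : r ≠ 0 := NeZero.ne r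
  obtain ⟨c, e, hc, he, rfl⟩ := alq_divisor_cases hN₁ hQ₁ hcop₁ hd
  have he' : e ∣ N₁ * r / (Q₁ * r) := by
    rwa [Nat.mul_div_mul_right _ _ (Nat.pos_of_ne_zero hr)]
  rw [alqSwap_mul hN₁ hQ₁ hcop₁ hc he,
    alqSwap_mul (NeZero.ne (N₁ * r)) hQ hcop (hc.mul_right r) he']
  obtain ⟨c', rfl⟩ := hc
  have hc0 : c ≠ 0 := fun h0 => alq_Q_ne_zero hN₁ hQ₁ hcop₁ (by rw [h0, zero_mul])
  rw [Nat.mul_div_cancel_left _ (Nat.pos_of_ne_zero hc0), mul_assoc,
    Nat.mul_div_cancel_left _ (Nat.pos_of_ne_zero hc0)]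
  ring

theorem alq_mem_of_mem_lower {f : LaurentSeries K} (hf : f ∈ modularFunctionFieldFullC K N₁) :
    f ∈ modularFunctionFieldFullC K (N₁ * r) :=
  full_degeneracyC_le K (Dvd.intro r rfl) hf

theorem alq_qExpand_mem {f : LaurentSeries K} (hf : f ∈ modularFunctionFieldFullC K N₁) :
    qExpand K r f ∈ modularFunctionFieldFullC K (N₁ * r) :=
  full_degeneracyC_map_le K N₁ r ⟨f, hf, rfl⟩

/-- **`w_{Q₁ r} f = (w_{Q₁} f)(Q^r)` for `f ∈ F_{N₁}`** (`Q₁ ∥ N₁`, `Q₁ r ∥ N₁ r`):
`w_{Q₁ r} ∘ α = β ∘ w_{Q₁}`. -/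
theorem atkinLehnerQ_of_lower {f : LaurentSeries K} (hf : f ∈ modularFunctionFieldFullC K N₁) :
    ((atkinLehnerQ K ι hQ hcop ⟨f, alq_mem_of_mem_lower K hf⟩ :
      modularFunctionFieldFullC K (N₁ * r)) : LaurentSeries K) =
      qExpand K r ((atkinLehnerQ K ι hQ₁ hcop₁ ⟨f, hf⟩ : modularFunctionFieldFullC K N₁) :
        LaurentSeries K) := by
  set φ₁ : modularFunctionFieldFullC K N₁ →+* LaurentSeries K :=
    ((modularFunctionFieldFullC K (N₁ * r)).val : _ →+* LaurentSeries K).comp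
      ((atkinLehnerQ K ι hQ hcop).toRingEquiv.toRingHom.comp
        (IntermediateField.inclusion (full_degeneracyC_le K (Dvd.intro r rfl)) :
          modularFunctionFieldFullC K N₁ →ₐ[K] modularFunctionFieldFullC K (N₁ * r)).toRingHom)
    with hφ₁
  set φ₂ : modularFunctionFieldFullC K N₁ →+* LaurentSeries K :=
    (qExpand K r).comp (((modularFunctionFieldFullC K N₁).val : _ →+* LaurentSeries K).comp
      (atkinLehnerQ K ι hQ₁ hcop₁).toRingEquiv.toRingHom) with hφ₂
  have key : φ₁ = φ₂ := by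
    apply al_ringHom_ext K N₁
    · intro c
      show ((atkinLehnerQ K ι hQ hcop (algebraMap K _ c) : modularFunctionFieldFullC K (N₁ * r)) :
        LaurentSeries K) = qExpand K r ((atkinLehnerQ K ι hQ₁ hcop₁ (algebraMap K _ c) :
          modularFunctionFieldFullC K N₁) : LaurentSeries K)
      rw [AlgEquiv.commutes, AlgEquiv.commutes]
      exact ((qExpandAlgHomC K r).commutes c).symm
    · intro d _ hd
      have hd' : d ∣ N₁ * r := hd.mul_right r
      have hs0 : alqSwap Q₁ N₁ d ≠ 0 := fun h0 => NeZero.ne N₁ (by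
        have := alqSwap_dvd (NeZero.ne N₁) hQ₁ hcop₁ hd
        rw [h0, zero_dvd_iff] at this
        exact this)
      haveI : NeZero (alqSwap Q₁ N₁ d) := ⟨hs0⟩
      haveI : NeZero (alqSwap (Q₁ * r) (N₁ * r) d) := ⟨by
        rw [alqSwap_lower hQ₁ hcop₁ hQ hcop hd]
        exact Nat.mul_ne_zero hs0 (NeZero.ne r)⟩
      show ((atkinLehnerQ K ι hQ hcop ⟨qExpand K d (jqModC K), _⟩ :
        modularFunctionFieldFullC K (N₁ * r)) : LaurentSeries K) =
          qExpand K r ((atkinLehnerQ K ι hQ₁ hcop₁ ⟨qExpand K d (jqModC K), _⟩ :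
            modularFunctionFieldFullC K N₁) : LaurentSeries K)
      rw [atkinLehnerQ_jq K ι hQ hcop hd', atkinLehnerQ_jq K ι hQ₁ hcop₁ hd, qExpand_qExpand]
      exact qExpand_congr (by rw [alqSwap_lower hQ₁ hcop₁ hQ hcop hd, mul_comm]) _
  exact congrArg (fun φ : modularFunctionFieldFullC K N₁ →+* LaurentSeries K => φ ⟨f, hf⟩) key

/-- **`w_{Q₁ r} (f(Q^r)) = w_{Q₁} f` for `f ∈ F_{N₁}`**: `w_{Q₁ r} ∘ β = α ∘ w_{Q₁}`. -/
theorem atkinLehnerQ_qExpand {f : LaurentSeries K} (hf : f ∈ modularFunctionFieldFullC K N₁) :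
    ((atkinLehnerQ K ι hQ hcop ⟨qExpand K r f, alq_qExpand_mem K hf⟩ :
      modularFunctionFieldFullC K (N₁ * r)) : LaurentSeries K) =
      ((atkinLehnerQ K ι hQ₁ hcop₁ ⟨f, hf⟩ : modularFunctionFieldFullC K N₁) :
        LaurentSeries K) := by
  set g : modularFunctionFieldFullC K N₁ := atkinLehnerQ K ι hQ₁ hcop₁ ⟨f, hf⟩ with hg
  have h1 := atkinLehnerQ_of_lower K ι hQ₁ hcop₁ hQ hcop g.2
  have hgg : atkinLehnerQ K ι hQ₁ hcop₁ ⟨(g : LaurentSeries K), g.2⟩ = ⟨f, hf⟩ := by
    rw [hg]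
    exact atkinLehnerQ_invol K ι hQ₁ hcop₁ ⟨f, hf⟩
  rw [hgg] at h1
  have h2 : (⟨qExpand K r f, alq_qExpand_mem K hf⟩ : modularFunctionFieldFullC K (N₁ * r)) =
      atkinLehnerQ K ι hQ hcop ⟨(g : LaurentSeries K), alq_mem_of_mem_lower K g.2⟩ :=
    Subtype.ext h1.symm
  rw [h2, atkinLehnerQ_invol]

end Lower

end Fermat.Agent.S36

end


end ZBS34_001_7

/-! ### bundled: `Fermat.Agent.S36.N2W` -/
section ZBS34_001_8

/-!
# S36 / G-N2, piece N2-w: the Atkin–Lehner involution `w_{q²}` at level `M q²` (helper92)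

Convention of `NOTES/S36-N2.md`: `q` prime, `q ∤ M`, `E` a field with `ι : E →+* ℂ`,
`F″ = modularFunctionFieldFullC E M`, `F′ = … E (M * q)`, `F = … E (M * q * q)`, `α` = inclusion,
`β = qExpand E q`, `w′ = AL.atkinLehner E ι hq hqM` (level `M * q`).

* `s36n2W E ι hq hqM : F ≃ₐ[E] F`, the specialisation `Q = q * q` of `atkinLehnerQ` (`ALQ.lean`);
* `s36n2W_invol`, `s36n2W_symm`, `s36n2W_coeffMap`;
* `s36n2W_low`, `s36n2W_mid`, `s36n2W_high` : `w j_d = j_{dqq}`, `w j_{dq} = j_{dq}`,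
  `w j_{dqq} = j_d` for `d ∣ M`;
* **(W1)** `s36n2W_alpha : w f = qExpand q (w′ f)`, **(W2)** `s36n2W_beta : w (qExpand q f) = w′ f`
  for `f ∈ F′`;
* `s36n2W_base`, `s36n2W_qExpand_sq` : `w f = f(Q^{q²})`, `w (f(Q^{q²})) = f` for `f ∈ F″`;
* `alq_eq_atkinLehner` : for `Q = q` prime `atkinLehnerQ` is helper90's `AL.atkinLehner`;
  `atkinLehnerQ_one` : `w_1 = id`.
-/

set_option autoImplicit false
set_option linter.unusedSectionVars false
set_option linter.style.haveILetI false

noncomputable section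

namespace Fermat.Agent.S36

open ModularCurve MvPolynomial
open Fermat.Agent.S23 Fermat.Agent.S24 Fermat.Agent.S28 Fermat.Agent.AL

/-! ### Two automorphisms with the same swap agree; `w_1 = id`; `w_q` of `S34/ALMain.lean` -/

section Compare

variable (K : Type*) [Field K] (ι : K →+* ℂ)

/-- an algebra endomorphism of `F_N` which fixes the generators is the identity -/
theorem alq_eq_id_of_gen {N : ℕ} [NeZero N]
    (w : modularFunctionFieldFullC K N ≃ₐ[K] modularFunctionFieldFullC K N)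
    (hw : ∀ (d : ℕ) [NeZero d] (hd : d ∣ N),
      w ⟨qExpand K d (jqModC K), jqModCd_mem_full K N hd⟩ =
        ⟨qExpand K d (jqModC K), jqModCd_mem_full K N hd⟩)
    (y : modularFunctionFieldFullC K N) : w y = y := by
  have key : (w.toRingEquiv.toRingHom : modularFunctionFieldFullC K N →+* _)
      = RingHom.id _ := by
    apply al_ringHom_ext K N
    · intro c
      exact w.commutes c
    · intro d _ hd
      exact hw d hd
  exact congrArg (fun φ : modularFunctionFieldFullC K N →+* modularFunctionFieldFullC K N =>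
    φ y) key

/-- `w_1 = id` -/
theorem atkinLehnerQ_one {N : ℕ} [NeZero N] (h1 : 1 ∣ N) (hcop : Nat.Coprime 1 (N / 1))
    (y : modularFunctionFieldFullC K N) : atkinLehnerQ K ι h1 hcop y = y := by
  refine alq_eq_id_of_gen K _ (fun d _ hd => ?_) y
  apply Subtype.ext
  have hsw : alqSwap 1 N d = d := by
    rw [alqSwap, if_pos hd, Nat.gcd_one_right, Nat.div_one, Nat.div_one, one_mul]
  haveI : NeZero (alqSwap 1 N d) := ⟨by rw [hsw]; exact NeZero.ne d⟩
  rw [atkinLehnerQ_jq K ι h1 hcop hd]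
  exact qExpand_congr hsw _

variable {q M : ℕ} [NeZero q] [NeZero M] [NeZero (M * q)] (hq : q.Prime) (hqM : ¬ q ∣ M)

include hq hqM in
theorem alq_dvd_prime : q ∣ M * q := Dvd.intro_left M rfl

include hq hqM in
theorem alq_coprime_prime : Nat.Coprime q (M * q / q) := by
  rw [Nat.mul_div_cancel _ hq.pos]
  exact (Nat.Prime.coprime_iff_not_dvd hq).mpr hqM

include hq hqM in
theorem alqSwap_eq_alSwap (e : ℕ) : alqSwap q (M * q) e = alSwap q (M * q) e := by
  by_cases he : e ∣ M * q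
  · rcases al_divisor_cases hq hqM he with hd | ⟨d, hd, rfl⟩
    · have hcop : Nat.Coprime e q :=
        (Nat.Coprime.symm ((Nat.Prime.coprime_iff_not_dvd hq).mpr fun h => hqM (h.trans hd)))
      rw [alSwap_low hq hqM hd, alqSwap, if_pos he, hcop.gcd_eq_one, Nat.div_one, Nat.div_one,
        mul_comm]
    · have hg : Nat.gcd (d * q) q = q := Nat.gcd_eq_right (Dvd.intro_left d rfl)
      rw [alSwap_high hq hqM hd, alqSwap, if_pos he, hg, Nat.div_self hq.pos, one_mul,
        Nat.mul_div_cancel _ hq.pos]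
  · rw [alqSwap, if_neg he, alSwap, if_neg he]

/-- for `Q = q` prime, `w_Q` is the Atkin–Lehner involution of `S34/ALMain.lean` -/
theorem alq_eq_atkinLehner (y : modularFunctionFieldFullC K (M * q)) :
    atkinLehnerQ K ι (alq_dvd_prime hq hqM) (alq_coprime_prime hq hqM) y
      = atkinLehner K ι hq hqM y := by
  have key : ((atkinLehnerQ K ι (alq_dvd_prime hq hqM)
      (alq_coprime_prime hq hqM)).toRingEquiv.toRingHom :
        modularFunctionFieldFullC K (M * q) →+* _)
      = (atkinLehner K ι hq hqM).toRingEquiv.toRingHom := by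
    apply al_ringHom_ext K (M * q)
    · intro c
      show atkinLehnerQ K ι _ _ (algebraMap K _ c) = atkinLehner K ι hq hqM (algebraMap K _ c)
      rw [AlgEquiv.commutes, AlgEquiv.commutes]
    · intro d _ hd
      apply Subtype.ext
      have e0 : (⟨qExpand K d (jqModC K), jqModCd_mem_full K (M * q) hd⟩ :
          modularFunctionFieldFullC K (M * q)) = ⟨alGen K (M * q) d, alqGen_mem K d⟩ :=
        Subtype.ext (alGen_of_dvd K hd).symm
      have e1 : (⟨qExpand K d (jqModC K), jqModCd_mem_full K (M * q) hd⟩ :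
          modularFunctionFieldFullC K (M * q)) = ⟨alGen K (M * q) d, alGen_mem K d⟩ :=
        Subtype.ext (alGen_of_dvd K hd).symm
      show ((atkinLehnerQ K ι _ _ ⟨qExpand K d (jqModC K), _⟩ :
          modularFunctionFieldFullC K (M * q)) : LaurentSeries K)
        = ((atkinLehner K ι hq hqM ⟨qExpand K d (jqModC K), _⟩ :
          modularFunctionFieldFullC K (M * q)) : LaurentSeries K)
      rw [e0, atkinLehnerQ_gen, ← e0, e1, atkinLehner_gen, alqSwap_eq_alSwap hq hqM]
  exact congrArg (fun φ : modularFunctionFieldFullC K (M * q) →+*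
    modularFunctionFieldFullC K (M * q) => φ y) key

end Compare

/-! ### `w_{q²}` at level `M q²` -/

section N2W

variable (E : Type*) [Field E] (ι : E →+* ℂ) {q M : ℕ} [NeZero q] [NeZero M] [NeZero (M * q)]
  [NeZero (M * q * q)] (hq : q.Prime) (hqM : ¬ q ∣ M)

include hq hqM in
theorem s36n2_dvd : q * q ∣ M * q * q := ⟨M, by ring⟩

include hq hqM in
theorem s36n2_coprime : Nat.Coprime (q * q) (M * q * q / (q * q)) := by
  have h : M * q * q / (q * q) = M := by
    rw [mul_assoc]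
    exact Nat.mul_div_cancel _ (Nat.mul_pos hq.pos hq.pos)
  rw [h]
  have h1 : Nat.Coprime q M := (Nat.Prime.coprime_iff_not_dvd hq).mpr hqM
  exact Nat.Coprime.mul_left h1 h1

/-- **the Atkin–Lehner involution `w_{q²}`** of `F = E(j(Q^e) : e ∣ M q²)` -/
def s36n2W : modularFunctionFieldFullC E (M * q * q) ≃ₐ[E]
    modularFunctionFieldFullC E (M * q * q) :=
  atkinLehnerQ E ι (s36n2_dvd hq hqM) (s36n2_coprime hq hqM)

theorem s36n2W_invol (y : modularFunctionFieldFullC E (M * q * q)) :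
    s36n2W E ι hq hqM (s36n2W E ι hq hqM y) = y :=
  atkinLehnerQ_invol E ι _ _ y

theorem s36n2W_symm : (s36n2W E ι hq hqM).symm = s36n2W E ι hq hqM :=
  atkinLehnerQ_symm E ι _ _

/-- `w_{q²}` commutes with the action of ring endomorphisms of `E` on the coefficients -/
theorem s36n2W_coeffMap (σ : E →+* E) (y : modularFunctionFieldFullC E (M * q * q)) :
    ((s36n2W E ι hq hqM ⟨coeffMap σ (y : LaurentSeries E),
        al_coeffMap_mem E (M * q * q) σ y.2⟩ :
      modularFunctionFieldFullC E (M * q * q)) : LaurentSeries E) =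
      coeffMap σ ((s36n2W E ι hq hqM y : modularFunctionFieldFullC E (M * q * q)) :
        LaurentSeries E) :=
  atkinLehnerQ_coeffMap E ι _ _ σ y

/-- **(W1)** `w f = (w′ f)(Q^q)` for `f ∈ F′`: `w ∘ α = β ∘ w′` -/
theorem s36n2W_alpha {f : LaurentSeries E} (hf : f ∈ modularFunctionFieldFullC E (M * q)) :
    ((s36n2W E ι hq hqM ⟨f, alq_mem_of_mem_lower E hf⟩ :
      modularFunctionFieldFullC E (M * q * q)) : LaurentSeries E) =
      qExpand E q ((atkinLehner E ι hq hqM ⟨f, hf⟩ : modularFunctionFieldFullC E (M * q)) :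
        LaurentSeries E) := by
  rw [← alq_eq_atkinLehner E ι hq hqM]
  exact atkinLehnerQ_of_lower E ι (alq_dvd_prime hq hqM) (alq_coprime_prime hq hqM)
    (s36n2_dvd hq hqM) (s36n2_coprime hq hqM) hf

/-- **(W2)** `w (f(Q^q)) = w′ f` for `f ∈ F′`: `w ∘ β = α ∘ w′` -/
theorem s36n2W_beta {f : LaurentSeries E} (hf : f ∈ modularFunctionFieldFullC E (M * q)) :
    ((s36n2W E ι hq hqM ⟨qExpand E q f, alq_qExpand_mem E hf⟩ :
      modularFunctionFieldFullC E (M * q * q)) : LaurentSeries E) =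
      ((atkinLehner E ι hq hqM ⟨f, hf⟩ : modularFunctionFieldFullC E (M * q)) :
        LaurentSeries E) := by
  rw [← alq_eq_atkinLehner E ι hq hqM]
  exact atkinLehnerQ_qExpand E ι (alq_dvd_prime hq hqM) (alq_coprime_prime hq hqM)
    (s36n2_dvd hq hqM) (s36n2_coprime hq hqM) hf

theorem s36n2_mem_of_mem_base {f : LaurentSeries E} (hf : f ∈ modularFunctionFieldFullC E M) :
    f ∈ modularFunctionFieldFullC E (M * q * q) :=
  alq_mem_of_mem_lower E (al_mem_of_mem_low E hf)

/-- `w f = f(Q^{q²})` for `f ∈ F″` -/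
theorem s36n2W_base {f : LaurentSeries E} (hf : f ∈ modularFunctionFieldFullC E M) :
    ((s36n2W E ι hq hqM ⟨f, s36n2_mem_of_mem_base E hf⟩ :
      modularFunctionFieldFullC E (M * q * q)) : LaurentSeries E) =
      qExpand E q (qExpand E q f) := by
  rw [s36n2W_alpha E ι hq hqM (al_mem_of_mem_low E hf),
    atkinLehner_of_mem_low E ι hq hqM hf]

/-- `w (f(Q^{q²})) = f` for `f ∈ F″` -/
theorem s36n2W_qExpand_sq {f : LaurentSeries E} (hf : f ∈ modularFunctionFieldFullC E M) :
    ((s36n2W E ι hq hqM ⟨qExpand E q (qExpand E q f),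
        alq_qExpand_mem E (al_qExpand_mem E hf)⟩ :
      modularFunctionFieldFullC E (M * q * q)) : LaurentSeries E) = f := by
  rw [s36n2W_beta E ι hq hqM (al_qExpand_mem E hf), atkinLehner_qExpand E ι hq hqM hf]

/-- `w (f(Q^q)) = f(Q^q)` for `f ∈ F″`: the middle generators are fixed -/
theorem s36n2W_mid {f : LaurentSeries E} (hf : f ∈ modularFunctionFieldFullC E M) :
    ((s36n2W E ι hq hqM ⟨qExpand E q f, alq_mem_of_mem_lower E (al_qExpand_mem E hf)⟩ :
      modularFunctionFieldFullC E (M * q * q)) : LaurentSeries E) = qExpand E q f := by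
  rw [s36n2W_alpha E ι hq hqM (al_qExpand_mem E hf), atkinLehner_qExpand E ι hq hqM hf]

end N2W

end Fermat.Agent.S36

end


end ZBS34_001_8

/-! ### bundled: `Fermat.Agent.S36.MidCuspPlan` -/
section ZBS34_001_9

/-!
# S36 / G-mid — the expansion at the middle cusp `1/(qM)` of `X₀(M q²)`: INTERFACE

`K` a field, `ζ : Kˣ`, `q` a prime, `q ∤ M`, `N = M * q * q`, `F = modularFunctionFieldFullC K N`,
`F′ = modularFunctionFieldFullC K (M * q)`.

`S36MidEmb K q M ζ` is the DATA of a `K`-algebra embedding `μ : F →ₐ[K] K((Q))` with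
* (M1a) `μ (j(Q^e)) = j(Q^e)` for `e ∣ M q`,
* (M1b) `μ (j(Q^{d q²})) = j(ζ Q^d)` (`= kronRot ζ (j(Q^d))`) for `d ∣ M`.

Consequences proved here (for every such datum):
* `S36MidEmb.emb_of_mem_low` (M2α) : `μ f = f` for `f ∈ F′`;
* `S36MidEmb.emb_qExpand`    (M2β) : `μ (f(Q^q)) = kronRot ζ (w′ f)` for `f ∈ F′` (`ζ ^ q = 1`,
  `w′` the Atkin–Lehner involution of level `M q`);
* `S36MidEmb.emb_base_sq` : `μ (f(Q^{q²})) = kronRot ζ f` for `f ∈ F_M`;
* `S36MidEmb.ext` : uniqueness;  `S36MidEmb.emb_coeffMap` (M3) : Galois equivariance;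
* `S36MidEmb.emb_injective`.

The existence (`s36mid_exists`, for `ζ` a primitive `q`-th root of unity and `K ↪ ℂ`) is in
`Fermat/Agent/S36/MidCusp.lean`.
-/

set_option autoImplicit false
set_option linter.unusedSectionVars false

noncomputable section

namespace Fermat.Agent.S36

open ModularCurve Fermat.Agent.AL Fermat.Agent.ES

/-- The divisors of `M q²` (`q ∤ M` is not needed): either a divisor of `M q`, or `d q²`. -/
theorem s36mid_divisor_cases {q M : ℕ} (hq : q.Prime) {e : ℕ} (he : e ∣ M * q * q) :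
    e ∣ M * q ∨ ∃ d, d ∣ M ∧ e = d * q * q := by
  obtain ⟨a, b, ha, hb, rfl⟩ := (Nat.dvd_mul).1 he
  rcases (Nat.dvd_prime hq).1 hb with rfl | rfl
  · left; simpa using ha
  · obtain ⟨a₁, b₁, ha₁, hb₁, rfl⟩ := (Nat.dvd_mul).1 ha
    rcases (Nat.dvd_prime hq).1 hb₁ with rfl | rfl
    · left
      simpa using Nat.mul_dvd_mul_right ha₁ b
    · right
      exact ⟨a₁, ha₁, rfl⟩

section Data

variable (K : Type*) [Field K] (q M : ℕ) [NeZero q] [NeZero M] [NeZero (M * q)]
  [NeZero (M * q * q)]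

/-- **G-mid as data**: the expansion at the middle cusp. -/
structure S36MidEmb (ζ : Kˣ) where
  /-- the embedding `F_{Mq²} → K((Q))` -/
  emb : modularFunctionFieldFullC K (M * q * q) →ₐ[K] LaurentSeries K
  /-- (M1a) -/
  emb_low : ∀ (e : ℕ) [NeZero e] (he : e ∣ M * q),
    emb ⟨qExpand K e (jqModC K), jqModCd_mem_full K (M * q * q) (he.mul_right q)⟩ =
      qExpand K e (jqModC K)
  /-- (M1b) -/
  emb_high : ∀ (d : ℕ) [NeZero d] [NeZero (d * q * q)] (hd : d ∣ M),
    emb ⟨qExpand K (d * q * q) (jqModC K),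
        jqModCd_mem_full K (M * q * q) (Nat.mul_dvd_mul_right (Nat.mul_dvd_mul_right hd q) q)⟩ =
      kronRot ζ (qExpand K d (jqModC K))

end Data

section Consequences

variable {K : Type*} [Field K] {q M : ℕ} [NeZero q] [NeZero M] [NeZero (M * q)]
  [NeZero (M * q * q)] {ζ : Kˣ}

theorem s36mid_low_le :
    modularFunctionFieldFullC K (M * q) ≤ modularFunctionFieldFullC K (M * q * q) :=
  full_degeneracyC_le K (Dvd.intro q rfl)

theorem s36mid_base_le :
    modularFunctionFieldFullC K M ≤ modularFunctionFieldFullC K (M * q * q) :=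
  full_degeneracyC_le K ⟨q * q, by ring⟩

theorem s36mid_qExpand_mem {f : LaurentSeries K} (hf : f ∈ modularFunctionFieldFullC K (M * q)) :
    qExpand K q f ∈ modularFunctionFieldFullC K (M * q * q) :=
  full_degeneracyC_map_le K (M * q) q ⟨f, hf, rfl⟩

theorem s36mid_qExpand_sq_mem {f : LaurentSeries K} (hf : f ∈ modularFunctionFieldFullC K M) :
    qExpand K q (qExpand K q f) ∈ modularFunctionFieldFullC K (M * q * q) :=
  s36mid_qExpand_mem (al_qExpand_mem K hf)

/-- `kronRot ζ` is `K`-linear. -/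
theorem s36mid_kronRot_algebraMap (ζ : Kˣ) (c : K) :
    kronRot ζ (algebraMap K (LaurentSeries K) c) = algebraMap K (LaurentSeries K) c := by
  rw [algebraMap_laurentSeries_eq_single]
  ext n
  rw [kronRot_coeff]
  by_cases hn : n = 0
  · subst hn
    simp
  · rw [HahnSeries.coeff_single_of_ne hn, mul_zero]

/-- (M2α) `μ f = f` on `F_{Mq}`. -/
theorem S36MidEmb.emb_of_mem_low (h : S36MidEmb K q M ζ) {f : LaurentSeries K}
    (hf : f ∈ modularFunctionFieldFullC K (M * q)) :
    h.emb ⟨f, s36mid_low_le hf⟩ = f := by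
  set φ₁ : modularFunctionFieldFullC K (M * q) →+* LaurentSeries K :=
    h.emb.toRingHom.comp
      (IntermediateField.inclusion (s36mid_low_le (K := K) (q := q) (M := M)) :
        modularFunctionFieldFullC K (M * q) →ₐ[K]
          modularFunctionFieldFullC K (M * q * q)).toRingHom with hφ₁
  set φ₂ : modularFunctionFieldFullC K (M * q) →+* LaurentSeries K :=
    (modularFunctionFieldFullC K (M * q)).val.toRingHom with hφ₂
  have key : φ₁ = φ₂ := by
    apply al_ringHom_ext K (M * q)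
    · intro c
      show h.emb (algebraMap K _ c) = algebraMap K (LaurentSeries K) c
      exact h.emb.commutes c
    · intro d _ hd
      exact h.emb_low d hd
  exact congrArg (fun φ : modularFunctionFieldFullC K (M * q) →+* LaurentSeries K => φ ⟨f, hf⟩) key

variable (ι : K →+* ℂ) (hq : q.Prime) (hqM : ¬ q ∣ M)

/-- (M2β) `μ (f(Q^q)) = (w′ f)(ζ Q)` on `F_{Mq}`. -/
theorem S36MidEmb.emb_qExpand (h : S36MidEmb K q M ζ) (hζ : ζ ^ q = 1) {f : LaurentSeries K}
    (hf : f ∈ modularFunctionFieldFullC K (M * q)) :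
    h.emb ⟨qExpand K q f, s36mid_qExpand_mem hf⟩ =
      kronRot ζ ((atkinLehner K ι hq hqM ⟨f, hf⟩ : modularFunctionFieldFullC K (M * q)) :
        LaurentSeries K) := by
  set β : modularFunctionFieldFullC K (M * q) →+* modularFunctionFieldFullC K (M * q * q) :=
    { toFun := fun x => ⟨qExpand K q (x : LaurentSeries K), s36mid_qExpand_mem x.2⟩
      map_one' := Subtype.ext (map_one (qExpand K q))
      map_mul' := fun x y => Subtype.ext (map_mul (qExpand K q) _ _)
      map_zero' := Subtype.ext (map_zero (qExpand K q))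
      map_add' := fun x y => Subtype.ext (map_add (qExpand K q) _ _) } with hβ
  set φ₁ : modularFunctionFieldFullC K (M * q) →+* LaurentSeries K :=
    h.emb.toRingHom.comp β with hφ₁
  set φ₂ : modularFunctionFieldFullC K (M * q) →+* LaurentSeries K :=
    (kronRot ζ).comp ((modularFunctionFieldFullC K (M * q)).val.toRingHom.comp
      (atkinLehner K ι hq hqM).toRingEquiv.toRingHom) with hφ₂
  have key : φ₁ = φ₂ := by
    apply al_ringHom_ext K (M * q)
    · intro c
      show h.emb ⟨qExpand K q (algebraMap K (LaurentSeries K) c), _⟩ =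
        kronRot ζ ((atkinLehner K ι hq hqM (algebraMap K _ c) :
          modularFunctionFieldFullC K (M * q)) : LaurentSeries K)
      rw [AlgEquiv.commutes]
      have e1 : (⟨qExpand K q (algebraMap K (LaurentSeries K) c),
          s36mid_qExpand_mem (IntermediateField.algebraMap_mem _ c)⟩ :
          modularFunctionFieldFullC K (M * q * q)) = algebraMap K _ c :=
        Subtype.ext ((qExpandAlgHomC K q).commutes c)
      rw [e1, h.emb.commutes]
      exact (s36mid_kronRot_algebraMap ζ c).symm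
    · intro e _ he
      show h.emb ⟨qExpand K q (qExpand K e (jqModC K)), _⟩ =
        kronRot ζ ((atkinLehner K ι hq hqM ⟨qExpand K e (jqModC K), _⟩ :
          modularFunctionFieldFullC K (M * q)) : LaurentSeries K)
      rcases al_divisor_cases hq hqM he with hd | ⟨d, hd, rfl⟩
      · -- `e ∣ M`
        have : NeZero (e * q) := ⟨Nat.mul_ne_zero (NeZero.ne e) (NeZero.ne q)⟩
        rw [atkinLehner_low K ι hq hqM hd]
        have e1 : qExpand K q (qExpand K e (jqModC K)) = qExpand K (e * q) (jqModC K) := by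
          rw [qExpand_qExpand]; exact qExpand_congr (mul_comm q e) _
        have e2 : (⟨qExpand K q (qExpand K e (jqModC K)),
            s36mid_qExpand_mem (jqModCd_mem_full K (M * q) he)⟩ :
            modularFunctionFieldFullC K (M * q * q)) =
            ⟨qExpand K (e * q) (jqModC K), jqModCd_mem_full K (M * q * q)
              ((Nat.mul_dvd_mul_right hd q).mul_right q)⟩ := Subtype.ext e1
        rw [e2, h.emb_low (e * q) (Nat.mul_dvd_mul_right hd q)]
        have e3 : qExpand K (e * q) (jqModC K) = qExpand K q (qExpand K e (jqModC K)) := e1.symm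
        rw [e3, qExpand_kronRot_pow, hζ, kronRot_one]
      · -- `e = d q`, `d ∣ M`
        have hd0 : d ≠ 0 := fun h0 => NeZero.ne M (by rw [h0, zero_dvd_iff] at hd; exact hd)
        have : NeZero d := ⟨hd0⟩
        have : NeZero (d * q * q) :=
          ⟨Nat.mul_ne_zero (Nat.mul_ne_zero hd0 (NeZero.ne q)) (NeZero.ne q)⟩
        rw [atkinLehner_high K ι hq hqM hd]
        have e1 : qExpand K q (qExpand K (d * q) (jqModC K)) =
            qExpand K (d * q * q) (jqModC K) := by
          rw [qExpand_qExpand]; exact qExpand_congr (mul_comm q (d * q)) _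
        have e2 : (⟨qExpand K q (qExpand K (d * q) (jqModC K)),
            s36mid_qExpand_mem (jqModCd_mem_full K (M * q) he)⟩ :
            modularFunctionFieldFullC K (M * q * q)) =
            ⟨qExpand K (d * q * q) (jqModC K), jqModCd_mem_full K (M * q * q)
              (Nat.mul_dvd_mul_right (Nat.mul_dvd_mul_right hd q) q)⟩ := Subtype.ext e1
        rw [e2, h.emb_high d hd]
  exact congrArg (fun φ : modularFunctionFieldFullC K (M * q) →+* LaurentSeries K => φ ⟨f, hf⟩) key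

include ι hq hqM in
/-- `μ (f(Q^{q²})) = f(ζ Q)` on `F_M`. -/
theorem S36MidEmb.emb_base_sq (h : S36MidEmb K q M ζ) (hζ : ζ ^ q = 1) {f : LaurentSeries K}
    (hf : f ∈ modularFunctionFieldFullC K M) :
    h.emb ⟨qExpand K q (qExpand K q f), s36mid_qExpand_sq_mem hf⟩ = kronRot ζ f := by
  have h1 := h.emb_qExpand ι hq hqM hζ (al_qExpand_mem K (q := q) hf)
  rw [h1, atkinLehner_qExpand K ι hq hqM hf]

/-- Uniqueness of the middle-cusp expansion. -/
theorem S36MidEmb.ext_emb (hq : q.Prime) (h h' : S36MidEmb K q M ζ) : h.emb = h'.emb := by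
  have key : h.emb.toRingHom = h'.emb.toRingHom := by
    apply al_ringHom_ext K (M * q * q)
    · intro c
      show h.emb (algebraMap K _ c) = h'.emb (algebraMap K _ c)
      rw [h.emb.commutes, h'.emb.commutes]
    · intro e _ he
      show h.emb ⟨qExpand K e (jqModC K), _⟩ = h'.emb ⟨qExpand K e (jqModC K), _⟩
      rcases s36mid_divisor_cases hq he with he' | ⟨d, hd, rfl⟩
      · rw [h.emb_low e he', h'.emb_low e he']
      · have hd0 : d ≠ 0 := fun h0 => NeZero.ne M (by rw [h0, zero_dvd_iff] at hd; exact hd)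
        have : NeZero d := ⟨hd0⟩
        rw [h.emb_high d hd, h'.emb_high d hd]
  apply AlgHom.ext
  intro x
  exact congrArg (fun φ : modularFunctionFieldFullC K (M * q * q) →+* LaurentSeries K => φ x) key

/-- (M3) Galois equivariance: `μ_{σ ζ} (σ x) = σ (μ_ζ x)`. -/
theorem S36MidEmb.emb_coeffMap (hq : q.Prime) {ζ' : Kˣ} (h : S36MidEmb K q M ζ)
    (h' : S36MidEmb K q M ζ') (σ : K →+* K) (hσ : σ (ζ : K) = (ζ' : K))
    (x : modularFunctionFieldFullC K (M * q * q)) :
    h'.emb ⟨coeffMap σ (x : LaurentSeries K), al_coeffMap_mem K (M * q * q) σ x.2⟩ =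
      coeffMap σ (h.emb x) := by
  set c : modularFunctionFieldFullC K (M * q * q) →+* modularFunctionFieldFullC K (M * q * q) :=
    { toFun := fun x => ⟨coeffMap σ (x : LaurentSeries K), al_coeffMap_mem K (M * q * q) σ x.2⟩
      map_one' := Subtype.ext (map_one (coeffMap σ))
      map_mul' := fun x y => Subtype.ext (map_mul (coeffMap σ) _ _)
      map_zero' := Subtype.ext (map_zero (coeffMap σ))
      map_add' := fun x y => Subtype.ext (map_add (coeffMap σ) _ _) } with hc
  set φ₁ : modularFunctionFieldFullC K (M * q * q) →+* LaurentSeries K :=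
    h'.emb.toRingHom.comp c with hφ₁
  set φ₂ : modularFunctionFieldFullC K (M * q * q) →+* LaurentSeries K :=
    (coeffMap σ).comp h.emb.toRingHom with hφ₂
  have hζu : Units.map (σ : K →* K) ζ = ζ' := Units.ext hσ
  have key : φ₁ = φ₂ := by
    apply al_ringHom_ext K (M * q * q)
    · intro a
      show h'.emb ⟨coeffMap σ (algebraMap K (LaurentSeries K) a), _⟩ =
        coeffMap σ (h.emb (algebraMap K _ a))
      rw [h.emb.commutes]
      have e1 : coeffMap σ (algebraMap K (LaurentSeries K) a) =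
          algebraMap K (LaurentSeries K) (σ a) := by
        rw [algebraMap_laurentSeries_eq_single, coeffMap_single,
          ← algebraMap_laurentSeries_eq_single]
      have e2 : (⟨coeffMap σ (algebraMap K (LaurentSeries K) a),
          al_coeffMap_mem K (M * q * q) σ (IntermediateField.algebraMap_mem _ a)⟩ :
          modularFunctionFieldFullC K (M * q * q)) = algebraMap K _ (σ a) := Subtype.ext e1
      rw [e2, h'.emb.commutes, e1]
    · intro e _ he
      show h'.emb ⟨coeffMap σ (qExpand K e (jqModC K)), _⟩ =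
        coeffMap σ (h.emb ⟨qExpand K e (jqModC K), _⟩)
      have e0 : ∀ (n : ℕ) [NeZero n], coeffMap σ (qExpand K n (jqModC K)) =
          qExpand K n (jqModC K) := by
        intro n _
        have := coeffMap_jqNModC σ n
        rwa [jqNModC] at this
      have e1 : (⟨coeffMap σ (qExpand K e (jqModC K)),
          al_coeffMap_mem K (M * q * q) σ (jqModCd_mem_full K (M * q * q) he)⟩ :
          modularFunctionFieldFullC K (M * q * q)) =
          ⟨qExpand K e (jqModC K), jqModCd_mem_full K (M * q * q) he⟩ := Subtype.ext (e0 e)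
      rw [e1]
      rcases s36mid_divisor_cases hq he with he' | ⟨d, hd, rfl⟩
      · rw [h.emb_low e he', h'.emb_low e he', e0 e]
      · have hd0 : d ≠ 0 := fun h0 => NeZero.ne M (by rw [h0, zero_dvd_iff] at hd; exact hd)
        have : NeZero d := ⟨hd0⟩
        rw [h.emb_high d hd, h'.emb_high d hd, coeffMap_kronRot, hζu, e0 d]
  exact congrArg
    (fun φ : modularFunctionFieldFullC K (M * q * q) →+* LaurentSeries K => φ x) key

/-- The expansion is injective (a homomorphism of fields). -/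
theorem S36MidEmb.emb_injective (h : S36MidEmb K q M ζ) : Function.Injective h.emb :=
  h.emb.toRingHom.injective

/-- The expansion of `j(Q^{q²})` is `j(ζ Q)`. -/
theorem S36MidEmb.emb_jqq (h : S36MidEmb K q M ζ) [NeZero (1 * q * q)] :
    h.emb ⟨qExpand K (1 * q * q) (jqModC K), jqModCd_mem_full K (M * q * q)
        (Nat.mul_dvd_mul_right (Nat.mul_dvd_mul_right (one_dvd M) q) q)⟩ =
      kronRot ζ (jqModC K) := by
  rw [h.emb_high 1 (one_dvd M), qExpand_one_apply]

end Consequences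

end Fermat.Agent.S36

end


end ZBS34_001_9
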