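/- GENERATED FILE (helper35, build-time optimisation, NOTES/ZB.md): verbatim concatenation of the modules
   Fermat.Agent.RED.ResField
   Fermat.Agent.RED.Link
   Fermat.Agent.RED.ModelTrace
   Fermat.Agent.R38.Glue
   Fermat.Agent.RED.Unram
   Fermat.Agent.STB.FrobGal
   Fermat.Agent.DEU.Inf
   Fermat.Agent.DEU.ResField
   Do not edit; do not import together with these modules. -/
import Mathlib
import Fermat.Prelude.Def_FLTPrelim_Modularity
import Fermat.Prelude.Def_FLTPrelim_Ramification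
import Fermat.Prelude.Def_EllipticCurve_FrobeniusTrace
import Fermat.Agent.ZB.S13_004
import Fermat.Agent.ZB.HW_003
import Fermat.Agent.ZB.S05_002
import Fermat.Agent.ZB.S05_001
import Fermat.Agent.ZB.EC_001
import Fermat.Agent.ZB.EC_002
import Fermat.Agent.ZB.ES_001
import Fermat.Agent.ZB.Common_001
import Fermat.Agent.ZB.UNIP_007
import Fermat.Agent.ZB.ES_002
import Fermat.Agent.ZB.UNIP_006
import Fermat.Agent.ZB.ES_003
import Fermat.Agent.ZB.ES_020
import Fermat.Prelude.Def_ModularCurve_ArithmeticGalois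
import Fermat.Agent.ZB.S28_002
import Fermat.Agent.ZB.S24_013

/-! ### bundled: `Fermat.Agent.RED.ResField` -/
section ZBRED_001_0

/-!
# Brick RED: the residue field of a valuation subring of an algebraically closed field

* `Fermat.Agent.RED.isAlgClosed_residueField`: it is algebraically closed.
* `Fermat.Agent.RED.charP_residueField`: it has characteristic `ℓ` when the prime number `ℓ`
  is a non-unit of `A`.
-/

set_option autoImplicit false

namespace Fermat.Agent.RED

open Polynomial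

variable {K : Type*} [Field K] (A : ValuationSubring K)

/-- An element of `K` which is a root of a monic polynomial over `A` lies in `A`. -/
theorem mem_of_monic_root {q : A[X]} (hq : q.Monic) {α : K}
    (hα : (q.map A.subtype).eval α = 0) : α ∈ A := by
  have hint : IsIntegral A α := by
    refine ⟨q, hq, ?_⟩
    rw [← eval_map]
    exact hα
  obtain ⟨a, ha⟩ := IsIntegrallyClosed.isIntegral_iff.1 hint
  rw [← ha]
  exact a.2

/-- The residue field of a valuation subring of an algebraically closed field is algebraically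
closed. -/
theorem isAlgClosed_residueField [IsAlgClosed K] : IsAlgClosed (IsLocalRing.ResidueField A) := by
  apply IsAlgClosed.of_exists_root
  intro p hp hirr
  have hsurj : Function.Surjective (IsLocalRing.residue A) := IsLocalRing.residue_surjective
  have hlift : p ∈ lifts (IsLocalRing.residue A) := by
    obtain ⟨q, hq⟩ := map_surjective _ hsurj p
    exact ⟨q, hq⟩
  obtain ⟨q, hqmap, hqdeg, hqmonic⟩ := lifts_and_degree_eq_and_monic hlift hp
  have hdeg : (q.map A.subtype).degree ≠ 0 := by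
    rw [degree_map_eq_of_injective Subtype.val_injective, hqdeg]
    exact (degree_pos_of_irreducible hirr).ne'
  obtain ⟨α, hα⟩ := IsAlgClosed.exists_root (q.map A.subtype) hdeg
  have hαA : α ∈ A := mem_of_monic_root A hqmonic hα
  refine ⟨IsLocalRing.residue A ⟨α, hαA⟩, ?_⟩
  have h0 : q.eval (⟨α, hαA⟩ : A) = 0 := by
    apply Subtype.val_injective
    have h1 : (q.map A.subtype).eval α = 0 := hα
    rw [eval_map] at h1
    have h2 : eval₂ A.subtype (A.subtype (⟨α, hαA⟩ : A)) q = 0 := h1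
    rw [eval₂_at_apply] at h2
    exact h2
  rw [← hqmap, eval_map, eval₂_at_apply, h0, map_zero]

/-- The residue field has characteristic `ℓ` if the prime `ℓ` is a non-unit of `A`. -/
theorem charP_residueField {ℓ : ℕ} (hℓ : ℓ.Prime) (hA : (ℓ : K) ∈ A.nonunits) :
    CharP (IsLocalRing.ResidueField A) ℓ := by
  rw [CharP.charP_iff_prime_eq_zero hℓ]
  have h1 : ((ℓ : A) : K) ∈ A.nonunits := by
    have : ((ℓ : A) : K) = (ℓ : K) := by push_cast; rfl
    rw [this]; exact hA
  have h2 : (ℓ : A) ∈ IsLocalRing.maximalIdeal A := ValuationSubring.coe_mem_nonunits_iff.1 h1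
  have h3 := (IsLocalRing.residue_eq_zero_iff (ℓ : A)).2 h2
  rw [map_natCast] at h3
  exact h3

end Fermat.Agent.RED


end ZBRED_001_0

/-! ### bundled: `Fermat.Agent.RED.Link` -/
section ZBRED_001_1

/-!
# Brick RED, the LINK: `τ² − a_ℓ τ + ℓ = 0` on prime-to-`ℓ` torsion of `E(ℚ̄)`

`W : WeierstrassCurve ℤ`, `ℓ ≠ 2` a prime of good reduction of `W`, `A` a valuation subring of
`ℚ̄` over `ℓ`, `τ` a Frobenius at `A`.  Then for every point `P` of
`(W.map (Int.castRingHom ℚ))⁄ℚ̄` killed by some `n` prime to `ℓ`: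

  `τ • τ • P − W.apOfModel ℓ • τ • P + ℓ • P = 0`   (`frobenius_relation_of_torsion`).

Proof: reduction modulo `A` (`Fermat.Agent.RED.red`) is a homomorphism, injective on
prime-to-`ℓ` torsion, and intertwines `τ` with the Frobenius endomorphism of the reduced curve,
which satisfies the relation by the HW brick (`Fermat.Agent.HW.frobenius_relation`).
-/

set_option autoImplicit false
set_option linter.unusedSectionVars false

namespace Fermat.Agent.RED

open WeierstrassCurve WeierstrassCurve.Affine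

section Congr

variable {F : Type*} [Field F] [DecidableEq F]

/-- Transport of points along an equality of curves. -/
noncomputable def pointCongr {E₁ E₂ : WeierstrassCurve F} (h : E₁ = E₂) :
    E₁.toAffine.Point ≃+ E₂.toAffine.Point :=
  h ▸ AddEquiv.refl _

theorem pointCongr_zero {E₁ E₂ : WeierstrassCurve F} (h : E₁ = E₂) :
    pointCongr h (0 : E₁.toAffine.Point) = 0 := by
  subst h; rfl

theorem pointCongr_some {E₁ E₂ : WeierstrassCurve F} (h : E₁ = E₂) {x y : F}
    (hxy : E₁.toAffine.Nonsingular x y) :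
    pointCongr h (Point.some x y hxy) = Point.some x y (h ▸ hxy) := by
  subst h; rfl

end Congr

section Link

variable (W : WeierstrassCurve ℤ) {ℓ : ℕ} (A : ValuationSubring (AlgebraicClosure ℚ))

/-- The model over `A`. -/
noncomputable abbrev modelA : WeierstrassCurve A := W.map (Int.castRingHom A)

/-- The curve over `ℚ̄` used by the prelude is the curve of the `RED` brick. -/
theorem baseChange_eq_curveK :
    ((W.map (Int.castRingHom ℚ)).toAffine⁄(AlgebraicClosure ℚ)) = curveK A (modelA W A) := by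
  show (W.map (Int.castRingHom ℚ)).map (algebraMap ℚ (AlgebraicClosure ℚ)) =
    (W.map (Int.castRingHom A)).map A.subtype
  rw [WeierstrassCurve.map_map, WeierstrassCurve.map_map]
  congr 1

variable {W A}

/-- Good reduction: the discriminant of the model over `A` is a unit. -/
theorem isUnit_Δ_modelA (hℓ : ℓ.Prime) (hA : A.LiesOverPrime ℓ) (hgood : W.IsGoodPrimeFor ℓ) :
    IsUnit (modelA W A).Δ := by
  rw [ValuationSubring.valuation_eq_one_iff]
  have e : (((modelA W A).Δ : A) : AlgebraicClosure ℚ) = ((W.Δ : ℤ) : AlgebraicClosure ℚ) := by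
    rw [WeierstrassCurve.map_Δ]
    simp
  rw [e]
  exact (Fermat.Agent.S05.valuation_intCast_eq_one_iff A hℓ hA W.Δ).2 hgood

end Link

section Main

variable {W : WeierstrassCurve ℤ} {ℓ : ℕ} [Fact ℓ.Prime]
  {A : ValuationSubring (AlgebraicClosure ℚ)}
  [DecidableEq (IsLocalRing.ResidueField A)] [Algebra (ZMod ℓ) (IsLocalRing.ResidueField A)]

/-- The reduced curve of the `RED` brick is the base change of `W.reductionMod ℓ`. -/
theorem curveRes_eq_baseChange :
    curveRes A (modelA W A) = ((W.reductionMod ℓ).toAffine⁄(IsLocalRing.ResidueField A)) := by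
  show (W.map (Int.castRingHom A)).map (IsLocalRing.residue A) =
    (W.map (Int.castRingHom (ZMod ℓ))).map (algebraMap (ZMod ℓ) (IsLocalRing.ResidueField A))
  rw [WeierstrassCurve.map_map, WeierstrassCurve.map_map]
  congr 1
  exact RingHom.ext_int _ _

/-- **Reduction modulo `A`** from the points of `W` over `ℚ̄` to the points of `W mod ℓ` over the
residue field of `A`. -/
noncomputable def redQ (hΔ : IsUnit (modelA W A).Δ) :
    ((W.map (Int.castRingHom ℚ)).toAffine⁄(AlgebraicClosure ℚ)).Point →+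
      ((W.reductionMod ℓ).toAffine⁄(IsLocalRing.ResidueField A)).Point :=
  (pointCongr (curveRes_eq_baseChange (W := W) (ℓ := ℓ) (A := A))).toAddMonoidHom.comp
    ((red hΔ).comp (pointCongr (baseChange_eq_curveK W A)).toAddMonoidHom)

theorem redQ_some_of_mem (hΔ : IsUnit (modelA W A).Δ) {x y : AlgebraicClosure ℚ}
    (h : ((W.map (Int.castRingHom ℚ)).toAffine⁄(AlgebraicClosure ℚ)).Nonsingular x y)
    (hx : x ∈ A) :
    ∃ (hy : y ∈ A) (h' : ((W.reductionMod ℓ).toAffine⁄(IsLocalRing.ResidueField A)).Nonsingular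
        (IsLocalRing.residue A ⟨x, hx⟩) (IsLocalRing.residue A ⟨y, hy⟩)),
      redQ (ℓ := ℓ) hΔ (Point.some x y h) = Point.some _ _ h' := by
  have h2 : (curveK A (modelA W A)).toAffine.Nonsingular x y := (baseChange_eq_curveK W A) ▸ h
  have hy : y ∈ A := y_mem_of_x_mem A (modelA W A) h2.1 hx
  have h3 := nonsingular_res hΔ (a := ⟨x, hx⟩) (b := ⟨y, hy⟩) h2.1
  refine ⟨hy, (curveRes_eq_baseChange (W := W) (ℓ := ℓ) (A := A)) ▸ h3, ?_⟩
  simp only [redQ, AddMonoidHom.comp_apply, AddEquiv.coe_toAddMonoidHom, pointCongr_some,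
    red_apply]
  rw [redPt_some_of_mem hΔ _ hx, pointCongr_some]

theorem redQ_some_of_not_mem (hΔ : IsUnit (modelA W A).Δ) {x y : AlgebraicClosure ℚ}
    (h : ((W.map (Int.castRingHom ℚ)).toAffine⁄(AlgebraicClosure ℚ)).Nonsingular x y)
    (hx : x ∉ A) : redQ (ℓ := ℓ) hΔ (Point.some x y h) = 0 := by
  simp only [redQ, AddMonoidHom.comp_apply, AddEquiv.coe_toAddMonoidHom, pointCongr_some,
    red_apply]
  rw [redPt_some_of_not_mem hΔ _ hx, pointCongr_zero]

/-- `redQ` is injective on prime-to-`ℓ` torsion. -/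
theorem eq_zero_of_redQ_eq_zero (hΔ : IsUnit (modelA W A).Δ) (hA : A.LiesOverPrime ℓ)
    {n : ℕ} (hn : ¬ ℓ ∣ n)
    {P : ((W.map (Int.castRingHom ℚ)).toAffine⁄(AlgebraicClosure ℚ)).Point}
    (hP : n • P = 0) (hred : redQ (ℓ := ℓ) hΔ P = 0) : P = 0 := by
  have hℓ : ℓ.Prime := Fact.out
  have hn' : (n : AlgebraicClosure ℚ) ∉ A.nonunits := fun h =>
    hn ((Fermat.Agent.S05.natCast_mem_nonunits_iff A hℓ hA n).1 h)
  simp only [redQ, AddMonoidHom.comp_apply, AddEquiv.coe_toAddMonoidHom] at hred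
  have h1 : red hΔ (pointCongr (baseChange_eq_curveK W A) P) = 0 := by
    have := (pointCongr (curveRes_eq_baseChange (W := W) (ℓ := ℓ) (A := A))).injective
    apply this
    rw [hred, map_zero]
  have h2 : n • (pointCongr (baseChange_eq_curveK W A) P) = 0 := by
    rw [← map_nsmul, hP, map_zero]
  have h3 := eq_zero_of_red_eq_zero_of_nsmul hΔ hn' h2 h1
  have := (pointCongr (baseChange_eq_curveK W A)).injective
  apply this
  rw [h3, map_zero]

/-- `redQ` intertwines a Frobenius at `A` with the Frobenius endomorphism of the reduced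
curve. -/
theorem redQ_frob (hΔ : IsUnit (modelA W A).Δ)
    {τ : AlgebraicClosure ℚ ≃ₐ[ℚ] AlgebraicClosure ℚ} (hτ : A.IsFrobeniusAt τ ℓ)
    (P : ((W.map (Int.castRingHom ℚ)).toAffine⁄(AlgebraicClosure ℚ)).Point) :
    redQ (ℓ := ℓ) hΔ (τ • P) =
      Point.map (W' := (W.reductionMod ℓ).toAffine)
        (FiniteField.frobeniusAlgHom (ZMod ℓ) (IsLocalRing.ResidueField A))
        (redQ (ℓ := ℓ) hΔ P) := by
  have hmem := hτ.mem_decompositionSubgroup
  rcases P with _ | ⟨x, y, h⟩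
  · show redQ (ℓ := ℓ) hΔ (τ • (0 : ((W.map (Int.castRingHom ℚ)).toAffine⁄(AlgebraicClosure ℚ)).Point)) =
      Point.map (W' := (W.reductionMod ℓ).toAffine)
        (FiniteField.frobeniusAlgHom (ZMod ℓ) (IsLocalRing.ResidueField A)) (redQ (ℓ := ℓ) hΔ 0)
    rw [Fermat.Agent.S05.galois_smul_zero, map_zero, map_zero]
  · rw [Fermat.Agent.S05.galois_smul_some]
    by_cases hx : x ∈ A
    · have hτx : τ x ∈ A := Fermat.Agent.S05.apply_mem_of_mem_decomposition hmem hx
      obtain ⟨hy, h', e⟩ := redQ_some_of_mem (ℓ := ℓ) hΔ h hx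
      have hns : ((W.map (Int.castRingHom ℚ)).toAffine⁄(AlgebraicClosure ℚ)).Nonsingular
          (τ x) (τ y) :=
        ((W.map (Int.castRingHom ℚ)).toAffine.baseChange_nonsingular (f := τ.toAlgHom)
          τ.toAlgHom.injective x y).mpr h
      obtain ⟨hτy, h'', e'⟩ := redQ_some_of_mem (ℓ := ℓ) hΔ hns hτx
      rw [e, Point.map_some]
      refine e'.trans (some_congr _ _ ?_ ?_)
      · have e2 := hτ.smul_residue_eq (IsLocalRing.residue A ⟨x, hx⟩)
        rw [← IsLocalRing.ResidueField.residue_smul] at e2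
        have e3 : ((⟨τ, hmem⟩ : A.decompositionSubgroup ℚ) • (⟨x, hx⟩ : A) : A) = ⟨τ x, hτx⟩ :=
          Subtype.ext rfl
        rw [e3] at e2
        rw [e2, FiniteField.coe_frobeniusAlgHom, ZMod.card]
      · have e2 := hτ.smul_residue_eq (IsLocalRing.residue A ⟨y, hy⟩)
        rw [← IsLocalRing.ResidueField.residue_smul] at e2
        have e3 : ((⟨τ, hmem⟩ : A.decompositionSubgroup ℚ) • (⟨y, hy⟩ : A) : A) = ⟨τ y, hτy⟩ :=
          Subtype.ext rfl
        rw [e3] at e2
        rw [e2, FiniteField.coe_frobeniusAlgHom, ZMod.card]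
    · have hτx : τ x ∉ A := fun h' =>
        hx ((Fermat.Agent.S05.apply_mem_iff_of_mem_decomposition hmem x).1 h')
      have hns : ((W.map (Int.castRingHom ℚ)).toAffine⁄(AlgebraicClosure ℚ)).Nonsingular
          (τ x) (τ y) :=
        ((W.map (Int.castRingHom ℚ)).toAffine.baseChange_nonsingular (f := τ.toAlgHom)
          τ.toAlgHom.injective x y).mpr h
      have e1 := redQ_some_of_not_mem (ℓ := ℓ) hΔ hns hτx
      have e2 := redQ_some_of_not_mem (ℓ := ℓ) hΔ h hx
      rw [e2, map_zero]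
      exact e1

end Main

/-- **The LINK.**  For a prime `ℓ ≠ 2` of good reduction of `W`, a Frobenius `τ` at a place `A`
of `ℚ̄` over `ℓ` satisfies `τ² − a_ℓ τ + ℓ = 0` on the prime-to-`ℓ` torsion of
`(W.map (Int.castRingHom ℚ))(ℚ̄)`, with `a_ℓ = W.apOfModel ℓ`. -/
theorem frobenius_relation_of_torsion (W : WeierstrassCurve ℤ) {ℓ : ℕ} (hℓ : ℓ.Prime)
    (hℓ2 : ℓ ≠ 2) (hgood : W.IsGoodPrimeFor ℓ) (A : ValuationSubring (AlgebraicClosure ℚ))
    (hA : A.LiesOverPrime ℓ) (τ : AlgebraicClosure ℚ ≃ₐ[ℚ] AlgebraicClosure ℚ)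
    (hτ : A.IsFrobeniusAt τ ℓ) {n : ℕ} (hn : ¬ ℓ ∣ n)
    (P : ((W.map (Int.castRingHom ℚ)).toAffine⁄(AlgebraicClosure ℚ)).Point) (hP : n • P = 0) :
    τ • τ • P - W.apOfModel ℓ • τ • P + (ℓ : ℤ) • P = 0 := by
  have : Fact ℓ.Prime := ⟨hℓ⟩
  let _ : DecidableEq (IsLocalRing.ResidueField A) := Classical.decEq _
  have : CharP (IsLocalRing.ResidueField A) ℓ := charP_residueField A hℓ hA
  let _ : Algebra (ZMod ℓ) (IsLocalRing.ResidueField A) := ZMod.algebra _ ℓ
  have : IsAlgClosed (IsLocalRing.ResidueField A) := isAlgClosed_residueField A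
  have hΔ : IsUnit (modelA W A).Δ := isUnit_Δ_modelA hℓ hA hgood
  have hΔℓ : (W.reductionMod ℓ).Δ ≠ 0 := by
    rw [WeierstrassCurve.reductionMod, WeierstrassCurve.map_Δ]
    intro h0
    apply hgood
    have : ((W.Δ : ℤ) : ZMod ℓ) = 0 := by simpa using h0
    exact (ZMod.intCast_zmod_eq_zero_iff_dvd W.Δ ℓ).1 this
  have hτn : ∀ Q : ((W.map (Int.castRingHom ℚ)).toAffine⁄(AlgebraicClosure ℚ)).Point,
      n • Q = 0 → n • (τ • Q) = 0 := by
    intro Q hQ
    have := Point.algEquiv_smul_zsmul τ (n : ℤ) Q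
    rw [natCast_zsmul, natCast_zsmul, hQ, smul_zero] at this
    exact this.symm
  apply eq_zero_of_redQ_eq_zero (ℓ := ℓ) hΔ hA hn
  · rw [nsmul_add, nsmul_sub, smul_comm n (W.apOfModel ℓ), smul_comm n (ℓ : ℤ), hP,
      hτn _ (hτn _ hP), hτn _ hP, zsmul_zero, zsmul_zero, sub_zero, add_zero]
  · rw [map_add, map_sub, map_zsmul, map_zsmul, redQ_frob hΔ hτ, redQ_frob hΔ hτ]
    exact Fermat.Agent.HW.frobenius_relation ℓ (W.reductionMod ℓ) (IsLocalRing.ResidueField A)
      hℓ2 hΔℓ _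

/-- The LINK on the torsion module `E[n]` (prelude's Galois action). -/
theorem frobenius_relation_torsionBy (W : WeierstrassCurve ℤ) {ℓ : ℕ} (hℓ : ℓ.Prime)
    (hℓ2 : ℓ ≠ 2) (hgood : W.IsGoodPrimeFor ℓ) (A : ValuationSubring (AlgebraicClosure ℚ))
    (hA : A.LiesOverPrime ℓ) (τ : AlgebraicClosure ℚ ≃ₐ[ℚ] AlgebraicClosure ℚ)
    (hτ : A.IsFrobeniusAt τ ℓ) {n : ℕ} (hn : ¬ ℓ ∣ n)
    (x : Submodule.torsionBy ℤ
      ((W.map (Int.castRingHom ℚ)).toAffine⁄(AlgebraicClosure ℚ)).Point n) :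
    τ • τ • x - W.apOfModel ℓ • τ • x + (ℓ : ℤ) • x = 0 := by
  apply Subtype.ext
  have hx : n • (x : ((W.map (Int.castRingHom ℚ)).toAffine⁄(AlgebraicClosure ℚ)).Point) = 0 := by
    have := x.2
    rw [Submodule.mem_torsionBy_iff] at this
    rw [← natCast_zsmul]
    exact this
  exact frobenius_relation_of_torsion W hℓ hℓ2 hgood A hA τ hτ hn x hx

end Fermat.Agent.RED


end ZBRED_001_1

/-! ### bundled: `Fermat.Agent.RED.ModelTrace` -/
section ZBRED_001_2

/-!
# Brick RED, consumer form: trace and determinant of Frobenius on `E[p]` for an integral model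

For `W : WeierstrassCurve ℤ`, `Δ ≠ 0`, `E := W.map (Int.castRingHom ℚ)`:

* `frobRel_of_model` : the hypothesis (REL) of `Fermat.Agent.EC.DetChar` with `a := W.apOfModel`
  and any `S₀ ∋ 2` containing the bad primes.
* `card_torsQbar` : `#E[p](ℚ̄) = p²`.
* `galoisTrace_frob_of_model` : `E[p]` irreducible, `ℓ ∤ 2pΔ`, `τ` a Frobenius at `ℓ` ⇒
  `galoisTrace ℚ E p τ = (W.apOfModel ℓ : ZMod p)`.
* `det_of_model` : `E[p]` irreducible ⇒ `det ρ̄(σ) = χ_p(σ)` for all `σ`.
* `exists_prime_not_dvd_of_model` : (S41 R4 for a model) for every finite `S` there is a prime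
  `ℓ ∉ S`, good for `W`, `ℓ ≡ 1 mod M`, with `p ∤ a_ℓ(W) − (ℓ + 1)`.
-/

set_option autoImplicit false

namespace Fermat.Agent.RED

open WeierstrassCurve WeierstrassCurve.Affine WeierstrassCurve.Affine.Point
open Fermat.Agent.EC.DetChar

/-- **(REL) for an integral model.** -/
theorem frobRel_of_model (W : WeierstrassCurve ℤ) (p : ℕ) (S₀ : Finset ℕ) (h2 : 2 ∈ S₀)
    (hpS : ∀ ℓ : ℕ, ℓ.Prime → ℓ ∣ p → ℓ ∈ S₀)
    (hbad : ∀ ℓ : ℕ, ℓ.Prime → ℓ ∉ S₀ → W.IsGoodPrimeFor ℓ) :
    FrobRel (W.map (Int.castRingHom ℚ)) p W.apOfModel S₀ := by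
  intro ℓ hℓ hℓS A hA τ hτ x
  have hℓ2 : ℓ ≠ 2 := fun h => hℓS (h ▸ h2)
  have hn : ¬ ℓ ∣ p := fun h => hℓS (hpS ℓ hℓ h)
  exact frobenius_relation_torsionBy W hℓ hℓ2 (hbad ℓ hℓ hℓS) A hA τ hτ hn x

/-- The canonical exceptional set `{2} ∪ {primes dividing p} ∪ {primes dividing Δ}`. -/
noncomputable def excSet (W : WeierstrassCurve ℤ) (p : ℕ) : Finset ℕ :=
  insert 2 (p.primeFactors ∪ W.Δ.natAbs.primeFactors)

theorem not_mem_excSet_iff (W : WeierstrassCurve ℤ) (hΔ : W.Δ ≠ 0) {p : ℕ} (hp : p ≠ 0) {ℓ : ℕ}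
    (hℓ : ℓ.Prime) : ℓ ∉ excSet W p ↔ ℓ ≠ 2 ∧ ¬ ℓ ∣ p ∧ W.IsGoodPrimeFor ℓ := by
  unfold excSet WeierstrassCurve.IsGoodPrimeFor
  rw [Finset.mem_insert, Finset.mem_union, Nat.mem_primeFactors, Nat.mem_primeFactors,
    Int.natCast_dvd]
  have hΔ' : W.Δ.natAbs ≠ 0 := Int.natAbs_ne_zero.mpr hΔ
  constructor
  · intro h
    refine ⟨fun h2 => h (Or.inl h2), fun hd => h (Or.inr (Or.inl ⟨hℓ, hd, hp⟩)),
      fun hd => h (Or.inr (Or.inr ⟨hℓ, hd, hΔ'⟩))⟩
  · rintro ⟨h2, hd, hg⟩ (h | h | h)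
    · exact h2 h
    · exact hd h.2.1
    · exact hg h.2.1

theorem frobRel_excSet (W : WeierstrassCurve ℤ) (hΔ : W.Δ ≠ 0) {p : ℕ} (hp : p ≠ 0) :
    FrobRel (W.map (Int.castRingHom ℚ)) p W.apOfModel (excSet W p) := by
  apply frobRel_of_model
  · exact Finset.mem_insert_self _ _
  · intro ℓ hℓ hd
    by_contra h
    exact ((not_mem_excSet_iff W hΔ hp hℓ).1 h).2.1 hd
  · intro ℓ hℓ h
    exact ((not_mem_excSet_iff W hΔ hp hℓ).1 h).2.2

/-- (REL) for any finite set containing the canonical exceptional set. -/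
theorem frobRel_union (W : WeierstrassCurve ℤ) (hΔ : W.Δ ≠ 0) {p : ℕ} (hp : p ≠ 0)
    (S : Finset ℕ) :
    FrobRel (W.map (Int.castRingHom ℚ)) p W.apOfModel (S ∪ excSet W p) := by
  intro ℓ hℓ hℓS
  exact frobRel_excSet W hΔ hp ℓ hℓ (fun h => hℓS (Finset.mem_union_right _ h))

/-- `#E[n](ℚ̄) = n²`. -/
theorem card_torsQbar (W : WeierstrassCurve ℤ) (hΔ : W.Δ ≠ 0) {n : ℕ} (hn : n ≠ 0) :
    Nat.card (TorsQbar (W.map (Int.castRingHom ℚ)) n) = n ^ 2 := by
  have hΔ' : ((W.map (Int.castRingHom ℚ)).toAffine⁄(AlgebraicClosure ℚ)).Δ ≠ 0 := by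
    show ((W.map (Int.castRingHom ℚ)).map (algebraMap ℚ (AlgebraicClosure ℚ))).Δ ≠ 0
    rw [WeierstrassCurve.map_Δ, WeierstrassCurve.map_Δ]
    simpa using hΔ
  exact Fermat.Agent.EC.ec_card_torsionBy hΔ' two_ne_zero (Nat.cast_ne_zero.mpr hn)

variable {p : ℕ} [Fact p.Prime]

/-- **Trace of Frobenius on `E[p]` = `a_ℓ` of the model.** -/
theorem galoisTrace_frob_of_model (W : WeierstrassCurve ℤ) (hΔ : W.Δ ≠ 0)
    (hirr : W.ModRepIsIrreducible p) {ℓ : ℕ} (hℓ : ℓ.Prime) (hℓ2 : ℓ ≠ 2) (hℓp : ℓ ≠ p)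
    (hgood : W.IsGoodPrimeFor ℓ) {A : ValuationSubring (AlgebraicClosure ℚ)}
    (hA : A.LiesOverPrime ℓ) {τ : AlgebraicClosure ℚ ≃ₐ[ℚ] AlgebraicClosure ℚ}
    (hτ : A.IsFrobeniusAt τ ℓ) :
    galoisTrace (K := AlgebraicClosure ℚ) ℚ (W.map (Int.castRingHom ℚ)) p τ =
      (W.apOfModel ℓ : ZMod p) := by
  have hp : p.Prime := Fact.out
  have hd : ¬ ℓ ∣ p := fun h => hℓp ((Nat.prime_dvd_prime_iff_eq hℓ hp).1 h)
  exact galoisTrace_frob_of_irred hirr (card_torsQbar W hΔ hp.ne_zero)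
    (frobRel_excSet W hΔ hp.ne_zero) hℓ
    ((not_mem_excSet_iff W hΔ hp.ne_zero hℓ).2 ⟨hℓ2, hd, hgood⟩) hℓp hA hτ

/-- **Determinant of the mod-`p` representation of a model = cyclotomic character.** -/
theorem det_of_model (W : WeierstrassCurve ℤ) (hΔ : W.Δ ≠ 0)
    (hirr : W.ModRepIsIrreducible p) (σ : AlgebraicClosure ℚ ≃ₐ[ℚ] AlgebraicClosure ℚ) :
    LinearMap.det (rhoBar (W.map (Int.castRingHom ℚ)) p σ) =
      ((Fermat.Agent.S42.cycloChar p σ : (ZMod p)ˣ) : ZMod p) := by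
  have hp : p.Prime := Fact.out
  exact det_rhoBar_eq_cycloChar_of_irred hirr (card_torsQbar W hΔ hp.ne_zero)
    (frobRel_excSet W hΔ hp.ne_zero) σ

/-- **S41 R4 for an integral model**: infinitely many good primes with `a_ℓ ≢ ℓ + 1 mod p`. -/
theorem exists_prime_not_dvd_of_model (W : WeierstrassCurve ℤ) (hΔ : W.Δ ≠ 0) (hp2 : p ≠ 2)
    (hirr : W.ModRepIsIrreducible p) (S : Finset ℕ) {M : ℕ} (hM : 0 < M) :
    ∃ ℓ : ℕ, ℓ.Prime ∧ ℓ ∉ S ∧ ℓ ≠ 2 ∧ ℓ ≠ p ∧ W.IsGoodPrimeFor ℓ ∧ ℓ ≡ 1 [MOD M] ∧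
      ¬ (p : ℤ) ∣ W.apOfModel ℓ - (ℓ + 1) := by
  have hp : p.Prime := Fact.out
  obtain ⟨ℓ, hℓ, hℓS, hmod, hnd⟩ := exists_prime_modEq_one_not_dvd hp2 hirr
    (card_torsQbar W hΔ hp.ne_zero) (frobRel_union W hΔ hp.ne_zero S) hM
  rw [Finset.mem_union, not_or] at hℓS
  obtain ⟨h2, hd, hg⟩ := (not_mem_excSet_iff W hΔ hp.ne_zero hℓ).1 hℓS.2
  refine ⟨ℓ, hℓ, hℓS.1, h2, ?_, hg, hmod, hnd⟩
  rintro rfl
  exact hd dvd_rfl

end Fermat.Agent.RED


end ZBRED_001_2

/-! ### bundled: `Fermat.Agent.R38.Glue` -/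
section ZBRED_001_3
/-
ROW 38, piece R38-GLUE (helper44): Mazur's argument on top of the pieces of `R38/Plan.lean`.
* `atPCore_of_data`, `stmtCoreOfPkg : StmtCoreOfPkg`
* `stmtGlue : StmtGlue`
-/

set_option autoImplicit false

noncomputable section

namespace Fermat.Agent.R38

open ModularCurve Fermat.Agent.ES ExtCitation
open scoped WeierstrassCurve.Affine

/-! ### Small algebra -/

/-- `n • y = 0`, `p • y = 0`, `p ∤ n` (`p` prime) ⇒ `y = 0`. -/
theorem glue_eq_zero_of_coprime {G : Type*} [AddCommGroup G] {p : ℕ} (hp : p.Prime) {n : ℤ}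
    (hn : ¬ (p : ℤ) ∣ n) {y : G} (h1 : n • y = 0) (h2 : p • y = 0) : y = 0 := by
  have hcop : IsCoprime n (p : ℤ) := by
    rw [isCoprime_comm]
    exact (Nat.prime_iff_prime_int.1 hp).coprime_iff_not_dvd.2 hn
  obtain ⟨u, v, huv⟩ := hcop
  have h2' : (p : ℤ) • y = 0 := by
    rw [natCast_zsmul]; exact h2
  calc y = (1 : ℤ) • y := (one_smul _ _).symm
    _ = (u * n + v * p) • y := by rw [huv]
    _ = u • n • y + v • (p : ℤ) • y := by rw [add_smul, mul_smul, mul_smul]
    _ = 0 := by rw [h1, h2', smul_zero, smul_zero, add_zero]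

/-- On a subgroup on which the `T_ℓ` (`ℓ ∈ S`) act through the integers `a ℓ`, every polynomial
in these `T_ℓ` acts through its value at `a`. -/
theorem glue_poly_eigen {J : Type*} [AddCommGroup J] [Module HeckeAlg J] (V₀ : AddSubgroup J)
    (S : Set Nat.Primes) (a : Nat.Primes → ℤ)
    (h : ∀ x ∈ V₀, ∀ ℓ ∈ S, heckeGen ℓ • x = a ℓ • x) :
    ∀ t ∈ MvPolynomial.supported ℤ S, ∀ x ∈ V₀, t • x = MvPolynomial.aeval a t • x := by
  intro t ht
  rw [MvPolynomial.supported, ] at ht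
  induction ht using Algebra.adjoin_induction with
  | mem t ht =>
    obtain ⟨ℓ, hℓ, rfl⟩ := ht
    intro x hx
    rw [MvPolynomial.aeval_X]
    exact h x hx ℓ hℓ
  | algebraMap n =>
    intro x _
    rw [MvPolynomial.algebraMap_eq, MvPolynomial.aeval_C, ← MvPolynomial.algebraMap_eq,
      algebraMap_smul]
    rfl
  | add t s _ _ iht ihs =>
    intro x hx
    rw [add_smul, iht x hx, ihs x hx, map_add, add_smul]
  | mul t s _ _ iht ihs =>
    intro x hx
    rw [mul_smul, ihs x hx, iht _ (V₀.zsmul_mem hx _), map_mul, mul_smul]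

/-! ### `AtPData → AtPCore` -/

theorem atPCore_of_data {M p : ℕ} [NeZero M] [Fact p.Prime] {J : Type} [AddCommGroup J]
    [Module HeckeAlg J] [DistribMulAction GQ J] {Jold : Type} [AddCommGroup Jold]
    [Module HeckeAlg Jold] {π : J →+ Jold} (h : AtPData M p J Jold π) : AtPCore M p J := by
  have hp : p.Prime := Fact.out
  refine ⟨h.es, ?_, ?_⟩
  · intro A hA x hx t₀ ht₀ hK n₀ hn₀ hpn₀ σ hσ τ hτ
    have hπp : p • π x = 0 := by rw [← map_nsmul, hx, map_zero]
    have h1 : n₀ • π x = 0 := by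
      rw [← map_zsmul, ← hn₀, h.push_hecke t₀ ht₀ x]
      exact h.old_level t₀ ht₀ hK _ hπp
    exact h.toric A hA x hx (glue_eq_zero_of_coprime hp hpn₀ h1 hπp) σ hσ τ hτ
  · intro A hA x hx t₀ ht₀ hK n₀ hn₀ hpn₀ ℓ₁ hℓ₁ n₁ hn₁ hpn₁ hpeu τ hτ
    exact h.tres A hA x hx t₀ ht₀ (h.old_level t₀ ht₀ hK) n₀ hn₀ hpn₀ ℓ₁ hℓ₁ n₁ hn₁ hpn₁
      hpeu τ hτ

theorem stmtCoreOfPkg : StmtCoreOfPkg := by
  intro h M p _ _ hp2 hpM
  obtain ⟨J, i1, i2, i3, Jold, i4, i5, π, hd⟩ := h M p hp2 hpM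
  exact ⟨J, i1, i2, i3, atPCore_of_data hd⟩

/-! ### Mazur's argument -/

/-- the eigenform of `hmod` gives an eigen-vector in `J[p]` -/
theorem glue_exists_eigenvector (W : WeierstrassCurve ℤ) {M p : ℕ} {J : Type} [AddCommGroup J]
    [Module HeckeAlg J] [DistribMulAction GQ J] (hes : ESDataInf (M * p) p J)
    (hmod : W.IsResiduallyModularOfLevel p (M * p)) :
    ∃ v : J, v ≠ 0 ∧ p • v = 0 ∧
      ∀ ℓ ∈ goodFor W M p, heckeGen ℓ • v = (W.apOfModel ℓ : ℤ) • v := by
  obtain ⟨f, 𝔪, hf, hm, hpm, hcong⟩ := hmod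
  obtain ⟨v, hv0, hpv, hv⟩ := hes.supp f hf 𝔪 hm hpm
  refine ⟨v, hv0, hpv, fun ℓ hℓ => ?_⟩
  have hℓM : ¬ (ℓ : ℕ) ∣ M * p := fun h => hℓ.1 (Dvd.dvd.mul_right h p)
  have hℓp : (ℓ : ℕ) ≠ p := by
    intro h
    apply hℓ.1
    rw [h]
    exact dvd_mul_left _ _
  obtain ⟨z, hz, hzm⟩ := hcong ℓ ℓ.2 hℓ.2 hℓM hℓp
  have h0 : (heckeGen ℓ - MvPolynomial.C (W.apOfModel ℓ)) • v = 0 := by
    refine hv _ ?_ ⟨_, hzm, ?_⟩
    · refine Subalgebra.sub_mem _ ?_ (Subalgebra.algebraMap_mem _ _)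
      exact MvPolynomial.X_mem_supported.2 (goodFor_subset W M p hℓ)
    · rw [heckeValue, map_sub, aeval_heckeGen, MvPolynomial.aeval_C]
      push_cast
      rw [hz]
      simp
  rw [sub_smul, sub_eq_zero] at h0
  rw [h0, ← MvPolynomial.algebraMap_eq, algebraMap_smul]

theorem stmtGlue : StmtGlue := by
  intro hLift hRep hEDet hEPeu hPkg W hΔ p hp hp2 hgood hirr M hM hpM hp2M hmod
  have : Fact p.Prime := ⟨hp⟩
  obtain ⟨M', rfl⟩ : ∃ M', M = M' * p := ⟨M / p, (Nat.div_mul_cancel hpM).symm⟩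
  have hM' : 0 < M' := Nat.pos_of_ne_zero (by rintro rfl; simp at hM)
  have : NeZero M' := ⟨hM'.ne'⟩
  have hpM' : ¬ p ∣ M' := by
    rintro ⟨k, rfl⟩
    exact hp2M ⟨k, by ring⟩
  rw [Nat.mul_div_cancel _ hp.pos]
  by_cases hold : ∀ t ∈ MvPolynomial.supported ℤ (goodFor W M' p), KillsForms M' t →
      (p : ℤ) ∣ MvPolynomial.aeval (fun ℓ : Nat.Primes => W.apOfModel ℓ) t
  · -- OLD case
    obtain ⟨g, 𝔪, hg, hm, hpm, hcong⟩ := hLift M' p hp (goodFor W M' p) _
      (fun ℓ hℓ h => hℓ.1 (Dvd.dvd.mul_right (Dvd.dvd.mul_right h p) p)) hold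
    refine ⟨g, 𝔪, hg, hm, hpm, fun ℓ hℓ hgℓ hℓM hℓp => ?_⟩
    refine hcong ⟨ℓ, hℓ⟩ ⟨?_, hgℓ⟩
    intro h
    rcases (Nat.Prime.dvd_mul hℓ).1 h with h | h
    · rcases (Nat.Prime.dvd_mul hℓ).1 h with h | h
      · exact hℓM h
      · exact hℓp ((Nat.prime_dvd_prime_iff_eq hℓ hp).1 h)
    · exact hℓp ((Nat.prime_dvd_prime_iff_eq hℓ hp).1 h)
  · -- NEW case
    exfalso
    push Not at hold
    obtain ⟨t₀, ht₀S, ht₀K, hn₀⟩ := hold
    obtain ⟨J, _, _, _, hJ⟩ := hPkg M' p hp2 hpM'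
    obtain ⟨v, hv0, hpv, hv⟩ := glue_exists_eigenvector W hJ.es hmod
    obtain ⟨V₀, e, hV₀p, hV₀eig, hst, he⟩ := hRep W hΔ p hp hp2 hirr M' hM' J _ _ _ hJ.es v hv0 hpv hv
    have ht₀g : t₀ ∈ MvPolynomial.supported ℤ (goodPrimes (M' * p) p) :=
      MvPolynomial.supported_mono (goodFor_subset W M' p) ht₀S
    have hpoly := glue_poly_eigen V₀ (goodFor W M' p) (fun ℓ : Nat.Primes => W.apOfModel ℓ)
      hV₀eig
    -- a place over `p`
    obtain ⟨A, hA⟩ := Fermat.Agent.Common.exists_liesOverPrime p hp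
    -- `t₀` acts on `V₀` through the unit `n₀`
    set n₀ : ℤ := MvPolynomial.aeval (fun ℓ : Nat.Primes => W.apOfModel ℓ) t₀ with hn₀def
    -- the action on `E[p]` seen in `V₀`
    have he' : ∀ (σ : GQ) (x : V₀), (e.symm (σ • e x) : J) = σ • (x : J) := by
      intro σ x
      have h := he σ x
      rw [← h, AddEquiv.symm_apply_apply]
    -- toric on `E[p]`
    have htorE : ∀ σ ∈ A.inertiaSubgroupIn ℚ, ∀ τ ∈ A.inertiaSubgroupIn ℚ, ∀ y : ETors W p,
        τ • (σ • y - y) = cycloExp p τ • (σ • y - y) := by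
      intro σ hσ τ hτ y
      obtain ⟨x, rfl⟩ := e.surjective y
      have h1 := hJ.toric A hA x (hV₀p x x.2) t₀ ht₀g ht₀K n₀ (hpoly t₀ ht₀S x x.2) hn₀
        σ hσ τ hτ
      -- `σ • e x - e x = e ⟨σ • x - x, _⟩`
      have hmem : σ • (x : J) - x ∈ V₀ := V₀.sub_mem (hst σ x x.2) x.2
      have h2 : σ • e x - e x = e ⟨σ • (x : J) - x, hmem⟩ := by
        rw [← he σ x, ← map_sub]
        rfl
      rw [h2, ← he τ ⟨_, hmem⟩, ← map_nsmul]
      congr 1
      exact Subtype.ext h1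
    -- the peu ramifié subgroup fixes `V₀`
    have hpeuE := hEPeu W hΔ p hp2 hgood hirr A hA htorE
    have hpeuV : ∀ σ ∈ peuSubgroup A p, ∀ x ∈ V₀, σ • x = x := by
      intro σ hσ x hx
      have h := hpeuE σ hσ (e ⟨x, hx⟩)
      rw [← he σ ⟨x, hx⟩] at h
      exact congrArg Subtype.val (e.injective h)
    -- a non-Eisenstein prime
    obtain ⟨ℓ, hℓ, hℓS, -, hℓp, hℓg, -, hℓE⟩ :=
      Fermat.Agent.RED.exists_prime_not_dvd_of_model W hΔ hp2 hirr (M' * p * p).primeFactors
        (M := 1) one_pos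
    have hℓmem : (⟨ℓ, hℓ⟩ : Nat.Primes) ∈ goodFor W M' p := by
      refine ⟨fun h => hℓS ?_, hℓg⟩
      rw [Nat.mem_primeFactors]
      exact ⟨hℓ, h, (Nat.mul_pos (Nat.mul_pos hM' hp.pos) hp.pos).ne'⟩
    -- très: inertia acts on `V₀` through `ω`
    have htresV : ∀ τ ∈ A.inertiaSubgroupIn ℚ, ∀ x ∈ V₀, τ • x = cycloExp p τ • x := by
      intro τ hτ x hx
      exact hJ.tres A hA x (hV₀p x hx) t₀ ht₀g ht₀K n₀ (hpoly t₀ ht₀S x hx) hn₀
        ⟨ℓ, hℓ⟩ (goodFor_subset W M' p hℓmem) (W.apOfModel ℓ) (hV₀eig x hx _ hℓmem) hℓE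
        (fun σ hσ => hpeuV σ hσ x hx) τ hτ
    -- contradiction with the determinant
    obtain ⟨σ, hσ, y, hy⟩ := hEDet W hΔ p hp2 hirr A hA
    apply hy
    obtain ⟨x, rfl⟩ := e.surjective y
    rw [← he σ x, ← map_nsmul]
    congr 1
    exact Subtype.ext (htresV σ hσ x x.2)

end Fermat.Agent.R38

end


end ZBRED_001_3

/-! ### bundled: `Fermat.Agent.RED.Unram` -/
section ZBRED_001_4

/-!
# Brick RED: good reduction ⇒ inertia acts trivially on prime-to-`ℓ` torsion

`W : WeierstrassCurve ℤ`, `ℓ` a prime of good reduction, `A` a valuation subring of `ℚ̄` over `ℓ`,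
`σ` in the inertia group of `A`, `ℓ ∤ n`, `n • P = 0` ⇒ `σ • P = P`
(easy direction of Néron–Ogg–Shafarevich).  No restriction `ℓ ≠ 2`.
-/

set_option autoImplicit false
set_option linter.unusedSectionVars false

namespace Fermat.Agent.RED

open WeierstrassCurve WeierstrassCurve.Affine

section Main

variable {W : WeierstrassCurve ℤ} {ℓ : ℕ} [Fact ℓ.Prime]
  {A : ValuationSubring (AlgebraicClosure ℚ)}
  [DecidableEq (IsLocalRing.ResidueField A)] [Algebra (ZMod ℓ) (IsLocalRing.ResidueField A)]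

/-- `redQ` is invariant under the inertia group of `A`. -/
theorem redQ_inertia (hΔ : IsUnit (modelA W A).Δ)
    {σ : AlgebraicClosure ℚ ≃ₐ[ℚ] AlgebraicClosure ℚ} (hσ : σ ∈ A.inertiaSubgroupIn ℚ)
    (P : ((W.map (Int.castRingHom ℚ)).toAffine⁄(AlgebraicClosure ℚ)).Point) :
    redQ (ℓ := ℓ) hΔ (σ • P) = redQ (ℓ := ℓ) hΔ P := by
  rcases P with _ | ⟨x, y, h⟩
  · show redQ (ℓ := ℓ) hΔ
      (σ • (0 : ((W.map (Int.castRingHom ℚ)).toAffine⁄(AlgebraicClosure ℚ)).Point)) =
      redQ (ℓ := ℓ) hΔ 0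
    rw [Fermat.Agent.S05.galois_smul_zero]
  · rw [Fermat.Agent.S05.galois_smul_some]
    have hns : ((W.map (Int.castRingHom ℚ)).toAffine⁄(AlgebraicClosure ℚ)).Nonsingular
        (σ x) (σ y) :=
      ((W.map (Int.castRingHom ℚ)).toAffine.baseChange_nonsingular (f := σ.toAlgHom)
        σ.toAlgHom.injective x y).mpr h
    by_cases hx : x ∈ A
    · have hσx : σ x ∈ A := (Fermat.Agent.S05.inertia_apply_mem_iff hσ x).2 hx
      obtain ⟨hy, h', e⟩ := redQ_some_of_mem (ℓ := ℓ) hΔ h hx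
      obtain ⟨hσy, h'', e'⟩ := redQ_some_of_mem (ℓ := ℓ) hΔ hns hσx
      rw [e]
      refine e'.trans (some_congr _ _ ?_ ?_)
      · rw [residue_eq_iff_sub_mem_nonunits]
        exact Fermat.Agent.S05.inertia_apply_sub_mem_nonunits hσ hx
      · rw [residue_eq_iff_sub_mem_nonunits]
        exact Fermat.Agent.S05.inertia_apply_sub_mem_nonunits hσ hy
    · have hσx : σ x ∉ A := fun h' => hx ((Fermat.Agent.S05.inertia_apply_mem_iff hσ x).1 h')
      have e1 := redQ_some_of_not_mem (ℓ := ℓ) hΔ hns hσx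
      have e2 := redQ_some_of_not_mem (ℓ := ℓ) hΔ h hx
      rw [e2]
      exact e1

end Main

/-- **Good reduction ⇒ unramified** (pointwise form): inertia at a good prime `ℓ` fixes every
point of `(W.map (Int.castRingHom ℚ))(ℚ̄)` killed by an integer prime to `ℓ`. -/
theorem inertia_smul_eq_of_good (W : WeierstrassCurve ℤ) {ℓ : ℕ} (hℓ : ℓ.Prime)
    (hgood : W.IsGoodPrimeFor ℓ) (A : ValuationSubring (AlgebraicClosure ℚ))
    (hA : A.LiesOverPrime ℓ) {σ : AlgebraicClosure ℚ ≃ₐ[ℚ] AlgebraicClosure ℚ}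
    (hσ : σ ∈ A.inertiaSubgroupIn ℚ) {n : ℕ} (hn : ¬ ℓ ∣ n)
    (P : ((W.map (Int.castRingHom ℚ)).toAffine⁄(AlgebraicClosure ℚ)).Point) (hP : n • P = 0) :
    σ • P = P := by
  have : Fact ℓ.Prime := ⟨hℓ⟩
  let _ : DecidableEq (IsLocalRing.ResidueField A) := Classical.decEq _
  have : CharP (IsLocalRing.ResidueField A) ℓ := charP_residueField A hℓ hA
  let _ : Algebra (ZMod ℓ) (IsLocalRing.ResidueField A) := ZMod.algebra _ ℓ
  have hΔ : IsUnit (modelA W A).Δ := isUnit_Δ_modelA hℓ hA hgood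
  have hσn : n • (σ • P) = 0 := by
    have := Point.algEquiv_smul_zsmul σ (n : ℤ) P
    rw [natCast_zsmul, natCast_zsmul, hP, smul_zero] at this
    exact this.symm
  apply sub_eq_zero.1
  apply eq_zero_of_redQ_eq_zero (ℓ := ℓ) hΔ hA hn
  · rw [nsmul_sub, hσn, hP, sub_zero]
  · rw [map_sub, redQ_inertia hΔ hσ, sub_self]

/-- **Good reduction ⇒ unramified**, in the prelude's form: the mod-`n` representation of
`W.map (Int.castRingHom ℚ)` is unramified at every good prime `ℓ ∤ n`. -/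
theorem galoisRepUnramifiedAt_of_good (W : WeierstrassCurve ℤ) {ℓ : ℕ} (hℓ : ℓ.Prime)
    (hgood : W.IsGoodPrimeFor ℓ) {n : ℕ} (hn : ¬ ℓ ∣ n) :
    Point.GaloisRepUnramifiedAt (K := AlgebraicClosure ℚ) ℚ
      (W.map (Int.castRingHom ℚ)).toAffine n ℓ := by
  intro A hA σ hσ x
  apply Subtype.ext
  have hx : n • (x : ((W.map (Int.castRingHom ℚ)).toAffine⁄(AlgebraicClosure ℚ)).Point) = 0 := by
    have := x.2
    rw [Submodule.mem_torsionBy_iff] at this
    rw [← natCast_zsmul]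
    exact this
  exact inertia_smul_eq_of_good W hℓ hgood A hA hσ hn x hx

end Fermat.Agent.RED


end ZBRED_001_4

/-! ### bundled: `Fermat.Agent.STB.FrobGal` -/
section ZBRED_001_5

/-!
# STB-X (`FrobFix`), part 2b: the Galois side

`A` a valuation subring of `ℚ̄` over `q`, `τ ∈ D_A` (e.g. a Frobenius element at `A`),
`E₀ = beta0Field A = ℚ̄^I`, `K₀ ⊇ E₀` a `τ`-stable intermediate field (e.g. `E′ = E₀ ⊔ K`, `K / ℚ`
normal), `A′ = beta0Ring A K₀ = A ∩ K₀`.

* `stb_conj_mem_inertia`   : `τ⁻¹ σ τ ∈ I_A` for `σ ∈ I_A`, `τ ∈ D_A`;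
* `stb_stable_beta0`, `stb_stable_beta0_sup` : `E₀` and `E₀ ⊔ K` (`K / ℚ` normal) are `τ`-stable;
* `stb_mem_iff`            : `τ x ∈ A ↔ x ∈ A`;
* `stb_frob_congr`         : `τ a - a ^ q ∈ 𝔪_A` for a Frobenius element `τ` and `a ∈ A`;
* `stb_frob_congr_ring`    : `τ a = a ^ q + π′ c` in `A′` (`π′` a uniformizer of `A′`)
  — the hypothesis `hΨR` of `stb_cross_hfrobB`;
* `stb_frob_unif`          : `τ π′ = π′ ε`, `ε ∈ A′^×`  — the hypothesis `hϖ` of
  `stb_valuation_map_div_eq_one`;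
* `stbResEquiv`, `stb_isAlgClosed_residue` : the residue field of `A′` is that of `A`, hence
  algebraically closed.
-/

set_option autoImplicit false
set_option linter.style.haveILetI false
set_option linter.unusedSectionVars false
set_option linter.unusedVariables false

noncomputable section

namespace Fermat.Agent.STB

open Fermat.Agent.UNIP Fermat.Agent.ES

variable {A : ValuationSubring (AlgebraicClosure ℚ)}
  {τ σ : AlgebraicClosure ℚ ≃ₐ[ℚ] AlgebraicClosure ℚ}

/-- the inertia group is normalised by the decomposition group -/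
theorem stb_conj_mem_inertia (hτ : τ ∈ A.decompositionSubgroup ℚ)
    (hσ : σ ∈ A.inertiaSubgroupIn ℚ) : τ⁻¹ * σ * τ ∈ A.inertiaSubgroupIn ℚ := by
  rw [ValuationSubring.inertiaSubgroupIn, Subgroup.mem_map] at hσ ⊢
  obtain ⟨σ', hσ', rfl⟩ := hσ
  have hn : (A.inertiaSubgroup ℚ).Normal := MonoidHom.normal_ker _
  let τ' : A.decompositionSubgroup ℚ := ⟨τ, hτ⟩
  refine ⟨τ'⁻¹ * σ' * τ'⁻¹⁻¹, hn.conj_mem σ' hσ' τ'⁻¹, ?_⟩
  simp only [map_mul, map_inv, Subgroup.subtype_apply, inv_inv]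
  rfl

/-- **`E₀ = ℚ̄^I` is stable under the decomposition group.** -/
theorem stb_stable_beta0 (hτ : τ ∈ A.decompositionSubgroup ℚ) :
    ∀ x ∈ beta0Field A, τ x ∈ beta0Field A := by
  intro x hx
  rw [mem_beta0Field] at hx ⊢
  intro σ hσ
  have h1 := hx _ (stb_conj_mem_inertia hτ hσ)
  have h2 : (τ⁻¹ * σ * τ) x = τ⁻¹ (σ (τ x)) := rfl
  rw [h2] at h1
  have h3 := congrArg τ h1
  have h4 : τ (τ⁻¹ (σ (τ x))) = σ (τ x) := by
    show (τ * τ⁻¹) (σ (τ x)) = σ (τ x)
    rw [mul_inv_cancel]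
    rfl
  rw [h4] at h3
  exact h3

/-- **`E′ = E₀ ⊔ K`, `K / ℚ` normal, is stable under the decomposition group.** -/
theorem stb_stable_beta0_sup (hτ : τ ∈ A.decompositionSubgroup ℚ)
    (K : IntermediateField ℚ (AlgebraicClosure ℚ)) [Normal ℚ K] :
    ∀ x ∈ beta0Field A ⊔ K, τ x ∈ beta0Field A ⊔ K :=
  mga_stable_sup τ (stb_stable_beta0 hτ) (mga_stable_of_normal τ K)

/-- `τ ∈ D_A` preserves `A` -/
theorem stb_mem_of_mem (hτ : τ ∈ A.decompositionSubgroup ℚ) {x : AlgebraicClosure ℚ}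
    (hx : x ∈ A) : τ x ∈ A :=
  (kronDecompHom τ hτ ⟨x, hx⟩).2

theorem stb_mem_iff (hτ : τ ∈ A.decompositionSubgroup ℚ) {x : AlgebraicClosure ℚ} :
    τ x ∈ A ↔ x ∈ A := by
  refine ⟨fun h => ?_, stb_mem_of_mem hτ⟩
  have := stb_mem_of_mem (kron_symm_mem_decomposition hτ) h
  rwa [AlgEquiv.symm_apply_apply] at this

/-- **Frobenius congruence**: `τ a - a ^ q ∈ 𝔪_A` for a Frobenius element `τ` at `A`. -/
theorem stb_frob_congr {q : ℕ} (hτ : A.IsFrobeniusAt τ q) {a : AlgebraicClosure ℚ} (ha : a ∈ A) :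
    τ a - a ^ q ∈ A.nonunits := by
  have h1 := kron_residue_frobenius τ hτ (⟨a, ha⟩ : A)
  have h2 : IsLocalRing.residue A
      (kronDecompHom τ hτ.mem_decompositionSubgroup ⟨a, ha⟩ - (⟨a, ha⟩ : A) ^ q) = 0 := by
    rw [map_sub, map_pow, h1, sub_self]
  rw [IsLocalRing.residue_eq_zero_iff, ← ValuationSubring.coe_mem_nonunits_iff] at h2
  exact h2

section Ring

variable (K₀ : IntermediateField ℚ (AlgebraicClosure ℚ))

/-- the restriction of `τ ∈ D_A` to `A′ = A ∩ K₀` is bijective -/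
theorem stb_frobLiftRing_bijective (hτ : τ ∈ A.decompositionSubgroup ℚ)
    (hK : ∀ x ∈ K₀, τ x ∈ K₀) :
    Function.Bijective (frobLiftRing A K₀ τ hτ hK) := by
  constructor
  · intro a b hab
    apply Subtype.ext
    apply Subtype.ext
    have h1 := congrArg (fun z : beta0Ring A K₀ => ((z : K₀) : AlgebraicClosure ℚ)) hab
    exact τ.injective h1
  · intro b
    have hb : τ.symm ((b : K₀) : AlgebraicClosure ℚ) ∈ K₀ := mga_stable_symm K₀ τ hK _ (b : K₀).2
    have hbA : τ.symm ((b : K₀) : AlgebraicClosure ℚ) ∈ A :=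
      stb_mem_of_mem (kron_symm_mem_decomposition hτ) b.2
    refine ⟨⟨⟨_, hb⟩, hbA⟩, ?_⟩
    apply Subtype.ext
    apply Subtype.ext
    show τ (τ.symm ((b : K₀) : AlgebraicClosure ℚ)) = _
    rw [AlgEquiv.apply_symm_apply]

/-- the restriction of `τ ∈ D_A` to `A′ = A ∩ K₀`, as a ring automorphism -/
def stbRingEquiv (hτ : τ ∈ A.decompositionSubgroup ℚ) (hK : ∀ x ∈ K₀, τ x ∈ K₀) :
    beta0Ring A K₀ ≃+* beta0Ring A K₀ :=
  RingEquiv.ofBijective (frobLiftRing A K₀ τ hτ hK) (stb_frobLiftRing_bijective K₀ hτ hK)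

@[simp] theorem stbRingEquiv_coe (hτ : τ ∈ A.decompositionSubgroup ℚ) (hK : ∀ x ∈ K₀, τ x ∈ K₀)
    (a : beta0Ring A K₀) :
    (((stbRingEquiv K₀ hτ hK a : beta0Ring A K₀) : K₀) : AlgebraicClosure ℚ) =
      τ ((a : K₀) : AlgebraicClosure ℚ) := rfl

/-- compatibility with the restriction `mgaRestrictEquiv` of `τ` to `K₀` -/
theorem stbRingEquiv_compat (hτ : τ ∈ A.decompositionSubgroup ℚ) (hK : ∀ x ∈ K₀, τ x ∈ K₀)
    (a : beta0Ring A K₀) :
    mgaRestrictEquiv K₀ τ hK (a : K₀) = ((stbRingEquiv K₀ hτ hK a : beta0Ring A K₀) : K₀) :=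
  rfl

/-- **`τ π′ = π′ ε`, `ε ∈ A′^×`**, for a uniformizer `π′` of the DVR `A′`. -/
theorem stb_frob_unif [IsDiscreteValuationRing (beta0Ring A K₀)]
    (hτ : τ ∈ A.decompositionSubgroup ℚ) (hK : ∀ x ∈ K₀, τ x ∈ K₀)
    {π' : beta0Ring A K₀} (hπ' : Irreducible π') :
    ∃ ε : (beta0Ring A K₀)ˣ, stbRingEquiv K₀ hτ hK π' = π' * ε := by
  have h1 : Irreducible (stbRingEquiv K₀ hτ hK π') :=
    (MulEquiv.irreducible_iff (stbRingEquiv K₀ hτ hK).toMulEquiv).mpr hπ'
  obtain ⟨ε, hε⟩ := IsDiscreteValuationRing.associated_of_irreducible _ hπ' h1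
  exact ⟨ε, hε.symm⟩

/-- **Frobenius congruence on `A′`**: `τ a = a ^ q + π′ c` (the hypothesis `hΨR` of
`stb_cross_hfrobB`). -/
theorem stb_frob_congr_ring [IsDiscreteValuationRing (beta0Ring A K₀)] {q : ℕ}
    (hτ : A.IsFrobeniusAt τ q) (hK : ∀ x ∈ K₀, τ x ∈ K₀)
    {π' : beta0Ring A K₀} (hπ' : Irreducible π') (a : beta0Ring A K₀) :
    ∃ c : beta0Ring A K₀,
      stbRingEquiv K₀ hτ.mem_decompositionSubgroup hK a = a ^ q + π' * c := by
  have h1 : stbRingEquiv K₀ hτ.mem_decompositionSubgroup hK a - a ^ q ∈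
      IsLocalRing.maximalIdeal (beta0Ring A K₀) := by
    rw [beta0Ring_mem_maximalIdeal_iff]
    exact stb_frob_congr hτ a.2
  rw [hπ'.maximalIdeal_eq, Ideal.mem_span_singleton] at h1
  obtain ⟨c, hc⟩ := h1
  exact ⟨c, by rw [← hc]; ring⟩

end Ring

section Residue

variable {K₀ : IntermediateField ℚ (AlgebraicClosure ℚ)} {q : ℕ}

/-- the residue field of `A′ = A ∩ K₀` (`E₀ ≤ K₀`) is the residue field of `A` -/
theorem stb_resMap_bijective (hq : q.Prime) (hA : A.LiesOverPrime q) (hE : beta0Field A ≤ K₀) :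
    Function.Bijective (frobLiftResMap A K₀) := by
  refine ⟨frobLiftResMap_injective A K₀, fun x => ?_⟩
  obtain ⟨a, rfl⟩ := IsLocalRing.residue_surjective x
  obtain ⟨b, hbE, hbA, hb⟩ := beta0_exists_residue hq hA a.2
  refine ⟨IsLocalRing.residue _ (⟨⟨b, hE hbE⟩, hbA⟩ : beta0Ring A K₀), ?_⟩
  rw [frobLiftResMap_residue]
  symm
  rw [← sub_eq_zero, ← map_sub, IsLocalRing.residue_eq_zero_iff,
    ← ValuationSubring.coe_mem_nonunits_iff]
  exact hb

/-- **The residue field of `A′ = A ∩ K₀` (`E₀ ≤ K₀`) is algebraically closed.** -/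
theorem stb_isAlgClosed_residue (hq : q.Prime) (hA : A.LiesOverPrime q)
    (hE : beta0Field A ≤ K₀) :
    IsAlgClosed (IsLocalRing.ResidueField (beta0Ring A K₀)) := by
  haveI : IsAlgClosed (IsLocalRing.ResidueField A) := Fermat.Agent.RED.isAlgClosed_residueField A
  exact IsAlgClosed.of_ringEquiv _ _
    (RingEquiv.ofBijective (frobLiftResMap A K₀) (stb_resMap_bijective hq hA hE)).symm

end Residue

end Fermat.Agent.STB

end
end ZBRED_001_5

/-! ### bundled: `Fermat.Agent.DEU.Inf` -/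
section ZBRED_001_6

/-!
# MPR-inf (piece of GEO-PR / `ModPR`): infinitely many places, `j` is Galois-fixed

* `deuInf_exists_zero` : a function with a pole has a zero (principal divisors have degree `0`);
* `deuInf_infinite_of_pole` : over an infinite constant field `K` with principal divisors and
  rational places, a function field with a function `t` having a pole has infinitely many places
  (a zero of `t - c` for every `c ∈ K`);
* `deuInf_infinite_FF` : `Place ℚ̄ (FF N)` is infinite;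
* `deuInf_infinite_k` : `Place k F̄` is infinite as soon as `F̄` has principal divisors, rational
  places and a function with a pole (`k` = residue field of a valuation ring of `ℚ̄`);
* `deuInf_smul_jF` : `arithmeticGalois σ • jF N = jF N`.
-/

set_option autoImplicit false

open AlgebraicCurve ModularCurve

namespace Fermat.Agent.DEU

open Fermat.Agent.S24 Fermat.Agent.ES.R

section Generic

variable {K F : Type*} [Field K] [Field F] [Algebra K F]

/-- a pole of `f` is a pole of `f - c` -/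
theorem deuInf_ord_sub_const_neg (Q : Place K F) {f : F} (hf : Q.ord f < 0) (c : K) :
    Q.ord (f - algebraMap K F c) < 0 := by
  have hf0 : f ≠ 0 := by
    rintro rfl
    rw [Place.ord_zero] at hf
    exact lt_irrefl _ hf
  rcases eq_or_ne c 0 with rfl | hc
  · rwa [map_zero, sub_zero]
  · have hc' : -algebraMap K F c ≠ 0 := by simpa using hc
    have h1 : Q.ord (-algebraMap K F c) = 0 := by
      rw [PlaceAux.ord_neg, PlaceAux.ord_algebraMap]
    have := PlaceAux.ord_add_eq_of_lt Q hf0 hc' (by rw [h1]; exact hf)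
    rw [sub_eq_add_neg, this]
    exact hf

/-- a function with a pole has a zero -/
theorem deuInf_exists_zero [HasPrincipalDivisors K F]
    (hres : ∀ v : Place K F, Function.Bijective (algebraMap K v.ResidueField))
    {f : F} (hf : f ≠ 0) (P₀ : Place K F) (hP₀ : P₀.ord f < 0) :
    ∃ v : Place K F, 0 < v.ord f := by
  classical
  obtain ⟨D, hD, hdeg⟩ := HasPrincipalDivisors.exists_divisor (K := K) f hf
  by_contra hne
  simp only [not_exists, not_lt] at hne
  have h0 : 0 ≤ -D - Finsupp.single P₀ (1 : ℤ) := by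
    rw [Finsupp.le_def]
    intro v
    rw [Finsupp.sub_apply, Finsupp.neg_apply, hD v, Finsupp.single_apply]
    simp only [Finsupp.coe_zero, Pi.zero_apply]
    split_ifs with h
    · subst h; omega
    · have := hne v; omega
  have h1 := degree_nonneg h0
  rw [map_sub, map_neg, hdeg, Divisor.degree_single, place_deg_eq_one _ (hres P₀)] at h1
  norm_num at h1

/-- infinitely many places -/
theorem deuInf_infinite_of_pole [HasPrincipalDivisors K F] [Infinite K]
    (hres : ∀ v : Place K F, Function.Bijective (algebraMap K v.ResidueField))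
    (t : F) (P₀ : Place K F) (hP₀ : P₀.ord t < 0) :
    (Set.univ : Set (Place K F)).Infinite := by
  have hne : ∀ c : K, t - algebraMap K F c ≠ 0 := by
    intro c h
    have := deuInf_ord_sub_const_neg P₀ hP₀ c
    rw [h, Place.ord_zero] at this
    exact lt_irrefl _ this
  have hz : ∀ c : K, ∃ v : Place K F, 0 < v.ord (t - algebraMap K F c) := fun c =>
    deuInf_exists_zero hres (hne c) P₀ (deuInf_ord_sub_const_neg P₀ hP₀ c)
  choose z hzpos using hz
  have hinj : Function.Injective z := by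
    intro c c' h
    by_contra hcc
    have h1 := hzpos c
    have h2 := hzpos c'
    rw [← h] at h2
    have hd : algebraMap K F (c' - c) ≠ 0 := by
      rw [map_ne_zero]; exact sub_ne_zero.mpr (Ne.symm hcc)
    have hsum : (t - algebraMap K F c) + -(t - algebraMap K F c') = algebraMap K F (c' - c) := by
      rw [map_sub]; ring
    have h3 := PlaceAux.le_ord_add (z c) (hne c) (neg_ne_zero.mpr (hne c')) (by rw [hsum]; exact hd)
    rw [hsum, PlaceAux.ord_neg, PlaceAux.ord_algebraMap] at h3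
    have := le_min h1.le h2.le
    rcases min_le_iff.mp h3 with h4 | h4 <;> omega
  rw [Set.infinite_univ_iff]
  exact Infinite.of_injective z hinj

end Generic

section Concrete

variable (N : ℕ) [NeZero N]

/-- `X₀(N)` has infinitely many points over `ℚ̄`. -/
theorem deuInf_infinite_FF : (Set.univ : Set (Place Kb (FF N))).Infinite := by
  obtain ⟨P, hP, -⟩ := Fermat.Agent.ES.M.exists_isCuspInfty N
  have := Fermat.Agent.ES.H.hasPrincipalDivisors_FF N
  refine deuInf_infinite_of_pole (Fermat.Agent.ES.H.residue_bijective_FF N) (jF N) P ?_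
  rw [hP.ord_jF]
  norm_num

omit [NeZero N] in
/-- the reduction of `X₀(N)` has infinitely many points over the residue field, as soon as it
has principal divisors, rational places, and a function with a pole -/
theorem deuInf_infinite_k (A : ValuationSubring Kb)
    (hpd : HasPrincipalDivisors (IsLocalRing.ResidueField A)
      ↥(modularFunctionFieldFullC (IsLocalRing.ResidueField A) N))
    (hres : ∀ v : Place (IsLocalRing.ResidueField A)
        ↥(modularFunctionFieldFullC (IsLocalRing.ResidueField A) N),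
      Function.Bijective (algebraMap (IsLocalRing.ResidueField A) v.ResidueField))
    (t : ↥(modularFunctionFieldFullC (IsLocalRing.ResidueField A) N))
    (Q : Place (IsLocalRing.ResidueField A)
      ↥(modularFunctionFieldFullC (IsLocalRing.ResidueField A) N))
    (hQ : Q.ord t < 0) :
    (Set.univ : Set (Place (IsLocalRing.ResidueField A)
      ↥(modularFunctionFieldFullC (IsLocalRing.ResidueField A) N))).Infinite := by
  have : IsAlgClosed (IsLocalRing.ResidueField A) := Fermat.Agent.RED.isAlgClosed_residueField A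
  have : Infinite (IsLocalRing.ResidueField A) := IsAlgClosed.instInfinite
  exact deuInf_infinite_of_pole hres t Q hQ

/-- `j` is fixed by the arithmetic Galois action. -/
theorem deuInf_smul_jF (σ : Kb ≃ₐ[ℚ] Kb) :
    arithmeticGalois (modularFunctionFieldFull N) σ • jF N = jF N := by
  apply Subtype.ext
  rw [coe_arithmeticGalois_smul]
  show coeffMap (σ : Kb →+* Kb) (coeffMap (algebraMap ℚ Kb) jq) = coeffMap (algebraMap ℚ Kb) jq
  rw [coeffMap_coeffMap]
  exact coeffMap_congr (RingHom.ext fun a => σ.commutes a) _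

end Concrete

end Fermat.Agent.DEU


end ZBRED_001_6

/-! ### bundled: `Fermat.Agent.DEU.ResField` -/
section ZBRED_001_7

/-!
# MPR-res (a): the residue fields of the places of the reduced modular function field  (helper51)

For an algebraically closed field `k` (of ANY characteristic) every place of
`F̄ = modularFunctionFieldFullC k N = k(j̄(q^d) : d ∣ N)` has residue field `k`:
`F̄` is finite over `k(j̄)` (`INJ.bgFin_finiteDimensional_full`), `j̄` is transcendental
(`S28.red_transcendental_jqModC`), and `S24.algebraMap_residueField_bijective` is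
characteristic-free.

* `deuResF_bijective k N v` : `Function.Bijective (algebraMap k v.ResidueField)`;
* `deuResF_bijective_kA N A v` : the same for `k = IsLocalRing.ResidueField A`,
  `A` a valuation subring of `ℚ̄`;
* `deuResF_deg_eq_one`, `deuResF_transcendental_j`, `deuResF_isAlgebraic`,
  `deuResF_finiteDimensional`.
-/

set_option autoImplicit false

noncomputable section

open AlgebraicCurve ModularCurve IntermediateField

namespace Fermat.Agent.DEU

section General

variable (k : Type*) [Field k] (N : ℕ) [NeZero N]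

/-- `j̄` as an element of the reduced modular function field -/
def deuResFJ : ↥(modularFunctionFieldFullC k N) := ⟨jqModC k, jqModC_mem_full k N⟩

omit [NeZero N] in
theorem deuResF_transcendental_j : Transcendental k (deuResFJ k N) := by
  intro h
  apply Fermat.Agent.S28.red_transcendental_jqModC k
  have h2 := h.algebraMap (A := LaurentSeries k)
  exact h2

theorem deuResF_finiteDimensional :
    FiniteDimensional k⟮deuResFJ k N⟯ ↥(modularFunctionFieldFullC k N) :=
  Fermat.Agent.INJ.bgFin_finiteDimensional_full k N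

theorem deuResF_isAlgebraic :
    Algebra.IsAlgebraic k⟮deuResFJ k N⟯ ↥(modularFunctionFieldFullC k N) :=
  haveI := deuResF_finiteDimensional k N
  Algebra.IsAlgebraic.of_finite _ _

variable [IsAlgClosed k]

/-- **MPR-res (a)**: every place of `k(j̄(q^d) : d ∣ N)` has residue field `k`
(`k` algebraically closed, any characteristic). -/
theorem deuResF_bijective (v : Place k ↥(modularFunctionFieldFullC k N)) :
    Function.Bijective (algebraMap k v.ResidueField) :=
  Fermat.Agent.S24.algebraMap_residueField_bijective (deuResFJ k N)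
    (deuResF_transcendental_j k N) (deuResF_isAlgebraic k N) v

theorem deuResF_deg_eq_one (v : Place k ↥(modularFunctionFieldFullC k N)) : v.deg = 1 :=
  Fermat.Agent.S24.deg_eq_one (deuResFJ k N) (deuResF_transcendental_j k N)
    (deuResF_isAlgebraic k N) v

end General

section Concrete

set_option synthInstance.maxHeartbeats 400000

variable (N : ℕ) [NeZero N] (A : ValuationSubring (AlgebraicClosure ℚ))

/-- **MPR-res (a)**, concrete form: `k = IsLocalRing.ResidueField A`. -/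
theorem deuResF_bijective_kA
    (v : Place (IsLocalRing.ResidueField A)
      ↥(modularFunctionFieldFullC (IsLocalRing.ResidueField A) N)) :
    Function.Bijective (algebraMap (IsLocalRing.ResidueField A) v.ResidueField) :=
  haveI : IsAlgClosed (IsLocalRing.ResidueField A) :=
    Fermat.Agent.RED.isAlgClosed_residueField A
  deuResF_bijective (IsLocalRing.ResidueField A) N v

theorem deuResF_deg_eq_one_kA
    (v : Place (IsLocalRing.ResidueField A)
      ↥(modularFunctionFieldFullC (IsLocalRing.ResidueField A) N)) : v.deg = 1 :=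
  haveI : IsAlgClosed (IsLocalRing.ResidueField A) :=
    Fermat.Agent.RED.isAlgClosed_residueField A
  deuResF_deg_eq_one (IsLocalRing.ResidueField A) N v

end Concrete

end Fermat.Agent.DEU

end


end ZBRED_001_7
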