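/- GENERATED FILE (helper35, build-time optimisation, NOTES/ZB.md): verbatim concatenation of the modules
   Fermat.Agent.DEU.OrderCount
   Do not edit; do not import together with these modules. -/
import Mathlib
import Fermat.Agent.ZB.DEU_001

/-! ### bundled: `Fermat.Agent.DEU.OrderCount` -/
section ZBDEU_002_0

/-!
# DEU: counting orders in a finite-dimensional space of Laurent series

A finite-dimensional `k`-subspace `M` of `k((q))` has exactly `dim M` distinct orders among its
nonzero elements (leading-term elimination).

* `oc_linearIndependent_of_order_injective` : nonzero Laurent series with pairwise distinct orders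
  are linearly independent;
* `oc_orders_finite`, `oc_ncard_orders_eq_finrank`.
-/

set_option autoImplicit false

namespace Fermat.Agent.DEU

open HahnSeries

variable {k : Type*} [Field k]

/-- the set of orders of the nonzero elements of `M` -/
def ocOrders (M : Submodule k (LaurentSeries k)) : Set ℤ :=
  {n | ∃ w ∈ M, w ≠ 0 ∧ w.order = n}

/-- The coefficient of a nonzero Laurent series at its order is nonzero. -/
theorem oc_coeff_order_ne_zero {w : LaurentSeries k} (hw : w ≠ 0) : w.coeff w.order ≠ 0 :=
  fun h => hw (HahnSeries.coeff_order_eq_zero.mp h)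

/-- Coefficients below the order vanish. -/
theorem oc_coeff_eq_zero_of_lt_order {w : LaurentSeries k} {n : ℤ} (h : n < w.order) :
    w.coeff n = 0 :=
  HahnSeries.coeff_eq_zero_of_lt_order h

/-- The "coefficient at the orders" map `M → (S → k)` is injective when `S ⊇ ocOrders M`. -/
theorem oc_coeff_injective (M : Submodule k (LaurentSeries k)) (S : Set ℤ)
    (hS : ocOrders M ⊆ S) :
    Function.Injective (fun (w : M) (n : S) => (w : LaurentSeries k).coeff n) := by
  intro w w' hww'
  by_contra hne
  have hd : ((w - w' : M) : LaurentSeries k) ≠ 0 := by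
    intro h0
    apply hne
    have : w - w' = 0 := Subtype.ext h0
    exact sub_eq_zero.mp this
  have hmem : ((w - w' : M) : LaurentSeries k).order ∈ S :=
    hS ⟨_, (w - w').2, hd, rfl⟩
  have h1 := congrFun hww' ⟨_, hmem⟩
  simp only at h1
  apply oc_coeff_order_ne_zero hd
  have h2 : ((w - w' : M) : LaurentSeries k).coeff ((w - w' : M) : LaurentSeries k).order =
      (w : LaurentSeries k).coeff ((w - w' : M) : LaurentSeries k).order -
        (w' : LaurentSeries k).coeff ((w - w' : M) : LaurentSeries k).order := by
    rw [Submodule.coe_sub, HahnSeries.coeff_sub]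
  rw [h2, h1, sub_self]

/-- Nonzero elements with pairwise distinct orders are linearly independent. -/
theorem oc_linearIndependent_of_order_injective {ι : Type*} (w : ι → LaurentSeries k)
    (hw : ∀ i, w i ≠ 0) (hinj : Function.Injective fun i => (w i).order) :
    LinearIndependent k w := by
  classical
  rw [linearIndependent_iff']
  intro s c hc
  by_contra hcon
  push Not at hcon
  obtain ⟨i₀, hi₀s, hi₀⟩ := hcon
  -- the support of `c` inside `s`
  let t : Finset ι := s.filter fun i => c i ≠ 0
  have htne : t.Nonempty := ⟨i₀, Finset.mem_filter.mpr ⟨hi₀s, hi₀⟩⟩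
  -- the index of minimal order
  obtain ⟨j, hjt, hjmin⟩ := t.exists_min_image (fun i => (w i).order) htne
  have hjs : j ∈ s := (Finset.mem_filter.mp hjt).1
  have hcj : c j ≠ 0 := (Finset.mem_filter.mp hjt).2
  have h1 := congrArg (fun x : LaurentSeries k => x.coeff (w j).order) hc
  simp only [HahnSeries.coeff_sum, HahnSeries.coeff_smul, HahnSeries.coeff_zero, smul_eq_mul] at h1
  have h2 : ∑ i ∈ s, c i * (w i).coeff (w j).order = c j * (w j).coeff (w j).order := by
    apply Finset.sum_eq_single_of_mem j hjs
    intro i his hij
    by_cases hci : c i = 0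
    · rw [hci, zero_mul]
    · have hit : i ∈ t := Finset.mem_filter.mpr ⟨his, hci⟩
      have hle := hjmin i hit
      have hlt : (w j).order < (w i).order :=
        lt_of_le_of_ne hle (fun h => hij (hinj h.symm))
      rw [oc_coeff_eq_zero_of_lt_order hlt, mul_zero]
  rw [h2] at h1
  rcases mul_eq_zero.mp h1 with h | h
  · exact hcj h
  · exact oc_coeff_order_ne_zero (hw j) h

/-- Any finite set of orders of `M` has at most `dim M` elements. -/
theorem oc_card_le_finrank (M : Submodule k (LaurentSeries k)) [FiniteDimensional k M]
    (T : Finset ℤ) (hT : (T : Set ℤ) ⊆ ocOrders M) : T.card ≤ Module.finrank k M := by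
  classical
  have hT' : ∀ n : ℤ, n ∈ T → ∃ w : LaurentSeries k, w ∈ M ∧ w ≠ 0 ∧ w.order = n :=
    fun n hn => hT (Finset.mem_coe.mpr hn)
  choose! f hfM hf0 hford using hT'
  let g : T → M := fun n => ⟨f n.1, hfM n.1 n.2⟩
  have hli : LinearIndependent k (fun n : T => (g n : LaurentSeries k)) := by
    apply oc_linearIndependent_of_order_injective
    · intro n; exact hf0 n.1 n.2
    · intro n n' h
      apply Subtype.ext
      have h1 : (f n.1).order = (f n'.1).order := h
      rw [hford n.1 n.2, hford n'.1 n'.2] at h1
      exact h1
  have hli' : LinearIndependent k g := by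
    have : (fun n : T => (g n : LaurentSeries k)) = M.subtype ∘ g := rfl
    rw [this] at hli
    exact LinearIndependent.of_comp M.subtype hli
  have := hli'.fintype_card_le_finrank
  simpa using this

/-- The set of orders of a finite-dimensional space of Laurent series is finite. -/
theorem oc_orders_finite (M : Submodule k (LaurentSeries k)) [FiniteDimensional k M] :
    (ocOrders M).Finite := by
  by_contra hinf
  have hinf' : (ocOrders M).Infinite := hinf
  obtain ⟨T, hTsub, hTcard⟩ := hinf'.exists_subset_card_eq (Module.finrank k M + 1)
  have := oc_card_le_finrank M T hTsub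
  omega

/-- **Order count.**  A finite-dimensional space of Laurent series has exactly `dim` distinct
orders. -/
theorem oc_ncard_orders_eq_finrank (M : Submodule k (LaurentSeries k)) [FiniteDimensional k M] :
    (ocOrders M).ncard = Module.finrank k M := by
  classical
  have hfin := oc_orders_finite M
  apply le_antisymm
  · have h1 := oc_card_le_finrank M hfin.toFinset (by
      intro n hn
      exact (Set.Finite.mem_toFinset hfin).mp hn)
    rwa [Set.ncard_eq_toFinset_card _ hfin]
  · -- injectivity of the coefficient map
    haveI : Fintype (ocOrders M) := hfin.fintype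
    have hinj := oc_coeff_injective M (ocOrders M) (le_refl _)
    let φ : M →ₗ[k] (ocOrders M → k) :=
      { toFun := fun w n => (w : LaurentSeries k).coeff n
        map_add' := fun w w' => by ext n; simp
        map_smul' := fun c w => by ext n; simp }
    have hφ : Function.Injective φ := hinj
    have h2 := LinearMap.finrank_le_finrank_of_injective hφ
    rw [Module.finrank_fintype_fun_eq_card] at h2
    rw [Set.ncard_eq_toFinset_card']
    simpa using h2

end Fermat.Agent.DEU

namespace Fermat.Agent.DEU

open HahnSeries

variable {k : Type*} [Field k]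

/-- **No positive orders.**  Let `W ⊆ k((q))` be closed under powers and assume that the elements
of `W` of order `≥ 0` lie in a finite-dimensional space `M₀`.  Then every nonzero element of `W`
has order `≤ 0`. -/
theorem oc_order_le_zero (W : Set (LaurentSeries k)) (hpow : ∀ w ∈ W, ∀ i : ℕ, w ^ i ∈ W)
    (M₀ : Submodule k (LaurentSeries k)) [FiniteDimensional k M₀]
    (hM₀ : ∀ w ∈ W, 0 ≤ w.order → w ∈ M₀) {w : LaurentSeries k} (hw : w ∈ W) (hw0 : w ≠ 0) :
    w.order ≤ 0 := by
  by_contra hpos
  push Not at hpos
  have hord : ∀ i : ℕ, (w ^ i).order = i • w.order := fun i => HahnSeries.order_pow w i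
  have hmem : ∀ i : ℕ, (i : ℤ) * w.order ∈ ocOrders M₀ := by
    intro i
    refine ⟨w ^ i, hM₀ _ (hpow w hw i) ?_, pow_ne_zero i hw0, ?_⟩
    · rw [hord, nsmul_eq_mul]
      positivity
    · rw [hord, nsmul_eq_mul]
  have hinj : Function.Injective fun i : ℕ => (i : ℤ) * w.order := by
    intro i j hij
    have h1 : (i : ℤ) = j := mul_right_cancel₀ (ne_of_gt hpos) hij
    exact_mod_cast h1
  have hinf : (Set.range fun i : ℕ => (i : ℤ) * w.order).Infinite :=
    Set.infinite_range_of_injective hinj
  exact hinf ((oc_orders_finite M₀).subset (by rintro _ ⟨i, rfl⟩; exact hmem i))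

end Fermat.Agent.DEU


end ZBDEU_002_0
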