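/- GENERATED FILE (helper35, build-time optimisation, NOTES/ZB.md): verbatim concatenation of the modules
   Fermat.Agent.ES.EisCoeff
   Fermat.Agent.ES.EisChar
   Fermat.Agent.ES.EisCharFun
   Fermat.Agent.ES.EisCharMult
   Fermat.Agent.ES.EisCharOrd
   Fermat.Agent.ES.EisCharCusp
   Fermat.Agent.ES.EisCharModFun
   Do not edit; do not import together with these modules. -/
import Mathlib
import Fermat.Agent.ZB.INJ_011
import Fermat.Agent.ZB.S24_006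
import Fermat.Agent.ZB.S24_004
import Fermat.Agent.ZB.S24_003

/-! ### bundled: `Fermat.Agent.ES.EisCoeff` -/
section ZBES_017_0
/-
ESpkg-G1, piece A3 (helper83): Eisenstein-type series with bounded coefficients.

`eisC κ k z = ∑' v : Fin 2 → ℤ, κ v * (v 0 * z + v 1) ^ (-k)` for a bounded `κ : (Fin 2 → ℤ) → ℂ`
and `3 ≤ k`: holomorphic on `ℍ`, explicit slash action of `SL(2,ℤ)`, bounded at `i∞` and with an
explicit limit at `i∞` when periodic.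
-/

set_option autoImplicit false

open EisensteinSeries UpperHalfPlane ModularForm CongruenceSubgroup Matrix Filter Topology
open scoped MatrixGroups Manifold

noncomputable section

namespace Fermat.Agent.ES

/-- Eisenstein-type series with coefficients `κ`. -/
def eisC (κ : (Fin 2 → ℤ) → ℂ) (k : ℤ) (z : ℍ) : ℂ :=
  ∑' v : Fin 2 → ℤ, κ v * eisSummand k v z

variable {κ : (Fin 2 → ℤ) → ℂ} {C : ℝ} {k : ℤ}

lemma eisC_norm_term_le (hκ : ∀ v, ‖κ v‖ ≤ C) (v : Fin 2 → ℤ) (z : ℍ) :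
    ‖κ v * eisSummand k v z‖ ≤ C * ‖eisSummand k v z‖ := by
  rw [norm_mul]
  exact mul_le_mul_of_nonneg_right (hκ v) (norm_nonneg _)

lemma eisC_summable_norm (hκ : ∀ v, ‖κ v‖ ≤ C) (hk : 3 ≤ k) (z : ℍ) :
    Summable fun v : Fin 2 → ℤ => ‖κ v * eisSummand k v z‖ :=
  ((summable_norm_eisSummand hk z).mul_left C).of_nonneg_of_le (fun _ => norm_nonneg _)
    (fun v => eisC_norm_term_le hκ v z)

lemma eisC_summable (hκ : ∀ v, ‖κ v‖ ≤ C) (hk : 3 ≤ k) (z : ℍ) :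
    Summable fun v : Fin 2 → ℤ => κ v * eisSummand k v z :=
  (eisC_summable_norm hκ hk z).of_norm

/-- Uniform bound of the terms on a vertical strip. -/
lemma eisC_term_bound (hκ : ∀ v, ‖κ v‖ ≤ C) (hC : 0 ≤ C) (hk : 3 ≤ k) {A B : ℝ} (hB : 0 < B)
    {z : ℍ} (hz : z ∈ verticalStrip A B) (v : Fin 2 → ℤ) :
    ‖κ v * eisSummand k v z‖ ≤ C * (r ⟨⟨A, B⟩, hB⟩ ^ (-k : ℝ) * ‖v‖ ^ (-k : ℝ)) := by
  refine (eisC_norm_term_le hκ v z).trans (mul_le_mul_of_nonneg_left ?_ hC)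
  have hk0 : (0 : ℝ) ≤ k := by
    have : (0 : ℤ) ≤ k := by omega
    exact_mod_cast this
  have := summand_bound_of_mem_verticalStrip hk0 v hB hz
  simpa only [eisSummand, one_div, ← _root_.zpow_neg, norm_zpow, ← Real.rpow_intCast,
    Int.cast_neg] using this

lemma eisC_bound_summable (hk : 3 ≤ k) {A B : ℝ} (hB : 0 < B) :
    Summable fun v : Fin 2 → ℤ => C * (r ⟨⟨A, B⟩, hB⟩ ^ (-k : ℝ) * ‖v‖ ^ (-k : ℝ)) := by
  have hk' : (2 : ℝ) < k := by norm_cast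
  exact ((summable_one_div_norm_rpow hk').mul_left _).mul_left _

/-- Locally uniform convergence. -/
theorem eisC_tendstoLocallyUniformly (hκ : ∀ v, ‖κ v‖ ≤ C) (hk : 3 ≤ k) :
    TendstoLocallyUniformly (fun (s : Finset (Fin 2 → ℤ)) ↦ (∑ v ∈ s, κ v * eisSummand k v ·))
      (eisC κ k ·) Filter.atTop := by
  have hC : 0 ≤ C := (norm_nonneg _).trans (hκ 0)
  simp only [tendstoLocallyUniformly_iff_forall_isCompact, eisC]
  intro K hK
  obtain ⟨A, B, hB, HABK⟩ := subset_verticalStrip_of_isCompact hK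
  refine (tendstoUniformlyOn_tsum (hu := eisC_bound_summable (C := C) (A := A) hk hB)
    (fun p z hz ↦ ?_)).mono HABK
  exact eisC_term_bound hκ hC hk hB hz p

lemma eisC_tendstoLocallyUniformlyOn (hκ : ∀ v, ‖κ v‖ ≤ C) (hk : 3 ≤ k) :
    TendstoLocallyUniformlyOn (fun (s : Finset (Fin 2 → ℤ)) ↦
      ↑ₕ(fun (z : ℍ) ↦ ∑ v ∈ s, κ v * eisSummand k v z)) (↑ₕ(eisC κ k))
          Filter.atTop {z : ℂ | 0 < z.im} := by
  rw [← upperHalfPlaneSet, ← range_coe, ← Set.image_univ]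
  apply TendstoLocallyUniformlyOn.comp (s := ⊤) _ _ _ (OpenPartialHomeomorph.continuousOn_symm _)
  · simp only [Set.top_eq_univ, tendstoLocallyUniformlyOn_univ]
    exact eisC_tendstoLocallyUniformly hκ hk
  · simp only [IsOpenEmbedding.toOpenPartialHomeomorph_target, Set.top_eq_univ,
      Set.mapsTo_range_iff, Set.mem_univ, forall_const]

lemma eisC_term_differentiableOn (κ : (Fin 2 → ℤ) → ℂ) (k : ℤ) (v : Fin 2 → ℤ) :
    DifferentiableOn ℂ (↑ₕ(fun z : ℍ => κ v * eisSummand k v z)) {z : ℂ | 0 < z.im} := by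
  have h := (eisSummand_extension_differentiableOn k v).const_mul (κ v)
  refine h.congr fun z hz => ?_
  simp [Function.comp]

/-- `eisC κ k` is holomorphic on `ℍ`. -/
theorem eisC_mdiff (hκ : ∀ v, ‖κ v‖ ≤ C) (hk : 3 ≤ k) : MDiff (eisC κ k) := by
  intro τ
  suffices DifferentiableAt ℂ (↑ₕ(eisC κ k)) τ.1 by
    convert!
      MDifferentiableAt.comp τ (DifferentiableAt.mdifferentiableAt this) τ.mdifferentiable_coe
    exact funext fun z ↦ (comp_ofComplex (eisC κ k) z).symm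
  refine DifferentiableOn.differentiableAt ?_ (isOpen_upperHalfPlaneSet.mem_nhds τ.2)
  refine (eisC_tendstoLocallyUniformlyOn hκ hk).differentiableOn
    (Eventually.of_forall fun s ↦ ?_) isOpen_upperHalfPlaneSet
  have : (↑ₕ(fun (z : ℍ) ↦ ∑ v ∈ s, κ v * eisSummand k v z))
      = fun w : ℂ => ∑ v ∈ s, (↑ₕ(fun z : ℍ => κ v * eisSummand k v z)) w := by
    funext w
    simp [Function.comp]
  rw [this]
  exact DifferentiableOn.fun_sum fun v _ ↦ eisC_term_differentiableOn κ k v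

/-! ### Slash action -/

lemma eis_coe_mul_coe_inv (A : SL(2, ℤ)) :
    (A : Matrix (Fin 2) (Fin 2) ℤ) * ((A⁻¹ : SL(2, ℤ)) : Matrix (Fin 2) (Fin 2) ℤ) = 1 :=
  congrArg Subtype.val (mul_inv_cancel A)

lemma eis_coe_inv_mul_coe (A : SL(2, ℤ)) :
    ((A⁻¹ : SL(2, ℤ)) : Matrix (Fin 2) (Fin 2) ℤ) * (A : Matrix (Fin 2) (Fin 2) ℤ) = 1 :=
  congrArg Subtype.val (inv_mul_cancel A)

lemma eis_coe_mul_coe (A B : SL(2, ℤ)) :
    (A : Matrix (Fin 2) (Fin 2) ℤ) * (B : Matrix (Fin 2) (Fin 2) ℤ)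
      = ((A * B : SL(2, ℤ)) : Matrix (Fin 2) (Fin 2) ℤ) := rfl

/-- Right multiplication by `A ∈ SL(2,ℤ)` as a permutation of `ℤ²`. -/
def eisVecMulEquiv (A : SL(2, ℤ)) : (Fin 2 → ℤ) ≃ (Fin 2 → ℤ) where
  toFun v := v ᵥ* (A : Matrix (Fin 2) (Fin 2) ℤ)
  invFun v := v ᵥ* ((A⁻¹ : SL(2, ℤ)) : Matrix (Fin 2) (Fin 2) ℤ)
  left_inv v := by
    change (v ᵥ* (A : Matrix (Fin 2) (Fin 2) ℤ)) ᵥ*
      ((A⁻¹ : SL(2, ℤ)) : Matrix (Fin 2) (Fin 2) ℤ) = v
    rw [vecMul_vecMul, eis_coe_mul_coe_inv, vecMul_one]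
  right_inv v := by
    change (v ᵥ* ((A⁻¹ : SL(2, ℤ)) : Matrix (Fin 2) (Fin 2) ℤ)) ᵥ*
      (A : Matrix (Fin 2) (Fin 2) ℤ) = v
    rw [vecMul_vecMul, eis_coe_inv_mul_coe, vecMul_one]

@[simp] lemma eisVecMulEquiv_apply (A : SL(2, ℤ)) (v : Fin 2 → ℤ) :
    eisVecMulEquiv A v = v ᵥ* (A : Matrix (Fin 2) (Fin 2) ℤ) := rfl

@[simp] lemma eisVecMulEquiv_symm_apply (A : SL(2, ℤ)) (v : Fin 2 → ℤ) :
    (eisVecMulEquiv A).symm v = v ᵥ* ((A⁻¹ : SL(2, ℤ)) : Matrix (Fin 2) (Fin 2) ℤ) := rfl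

/-- The slash action of `SL(2,ℤ)` on `eisC`. -/
theorem eisC_slash (κ : (Fin 2 → ℤ) → ℂ) (k : ℤ) (A : SL(2, ℤ)) :
    eisC κ k ∣[k] A
      = eisC (fun v => κ (v ᵥ* ((A⁻¹ : SL(2, ℤ)) : Matrix (Fin 2) (Fin 2) ℤ))) k := by
  ext1 z
  have h1 : eisC κ k (A • z) = denom A z ^ k *
      eisC (fun v => κ (v ᵥ* ((A⁻¹ : SL(2, ℤ)) : Matrix (Fin 2) (Fin 2) ℤ))) k z := by
    unfold eisC
    rw [← tsum_mul_left,
      ← (eisVecMulEquiv A).tsum_eq (fun w => denom A z ^ k *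
        (κ (w ᵥ* ((A⁻¹ : SL(2, ℤ)) : Matrix (Fin 2) (Fin 2) ℤ)) * eisSummand k w z))]
    refine tsum_congr fun v => ?_
    rw [eisVecMulEquiv_apply, vecMul_vecMul, eis_coe_mul_coe_inv, vecMul_one, eisSummand_SL2_apply]
    ring
  rw [SL_slash_apply, h1, _root_.zpow_neg]
  field_simp [zpow_ne_zero k (denom_ne_zero A z)]

/-! ### Behaviour at `i∞` for periodic series -/

lemma eis_vadd_periodic_int {f : ℍ → ℂ} {N : ℕ} (hper : ∀ z : ℍ, f ((N : ℝ) +ᵥ z) = f z) (n : ℤ)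
    (z : ℍ) : f ((N * n : ℝ) +ᵥ z) = f z := by
  have hnat : ∀ m : ℕ, ∀ w : ℍ, f ((N * m : ℝ) +ᵥ w) = f w := by
    intro m
    induction m with
    | zero => intro w; simp
    | succ m ih =>
      intro w
      have : ((N * (m + 1 : ℕ) : ℝ)) +ᵥ w = (N : ℝ) +ᵥ ((N * m : ℝ) +ᵥ w) := by
        rw [vadd_vadd]
        congr 1
        push_cast
        ring
      rw [this, hper, ih]
  rcases Int.eq_nat_or_neg n with ⟨m, rfl | rfl⟩
  · exact_mod_cast hnat m z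
  · have h := hnat m ((N * (-(m : ℤ)) : ℝ) +ᵥ z)
    rw [vadd_vadd] at h
    have h0 : ((N * m : ℝ) + (N * (-(m : ℤ)) : ℝ)) = 0 := by push_cast; ring
    rw [h0, zero_vadd] at h
    exact_mod_cast h.symm

/-- Move a point into the strip `|re| ≤ N` by a translation by a multiple of `N`. -/
lemma eis_exists_strip_rep {f : ℍ → ℂ} {N : ℕ} (hN : 0 < N)
    (hper : ∀ z : ℍ, f ((N : ℝ) +ᵥ z) = f z) (z : ℍ) :
    ∃ w : ℍ, w ∈ verticalStrip N z.im ∧ w.im = z.im ∧ f w = f z := by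
  obtain ⟨n, hn⟩ := ModularGroup_T_zpow_mem_verticalStrip z hN
  rw [modular_T_zpow_smul z (N * n)] at hn
  refine ⟨_, hn, by simp, ?_⟩
  have := eis_vadd_periodic_int hper n z
  exact_mod_cast this

/-- A periodic `eisC` is bounded at `i∞`. -/
theorem eisC_isBoundedAtImInfty (hκ : ∀ v, ‖κ v‖ ≤ C) (hk : 3 ≤ k) {N : ℕ} (hN : 0 < N)
    (hper : ∀ z : ℍ, eisC κ k ((N : ℝ) +ᵥ z) = eisC κ k z) :
    IsBoundedAtImInfty (eisC κ k) := by
  have hC : 0 ≤ C := (norm_nonneg _).trans (hκ 0)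
  rw [UpperHalfPlane.isBoundedAtImInfty_iff]
  refine ⟨∑' v : Fin 2 → ℤ, C * (r ⟨⟨N, 2⟩, Nat.ofNat_pos⟩ ^ (-k : ℝ) * ‖v‖ ^ (-k : ℝ)), 2, ?_⟩
  intro z hz
  obtain ⟨w, hw, hwim, hfw⟩ := eis_exists_strip_rep hN hper z
  rw [← hfw]
  have hw2 : w ∈ verticalStrip N 2 := verticalStrip_anti_right N hz hw
  calc ‖eisC κ k w‖ ≤ ∑' v : Fin 2 → ℤ, ‖κ v * eisSummand k v w‖ :=
        norm_tsum_le_tsum_norm (eisC_summable_norm hκ hk w)
    _ ≤ _ := (eisC_summable_norm hκ hk w).tsum_le_tsum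
        (fun v => eisC_term_bound hκ hC hk two_pos hw2 v) (eisC_bound_summable hk two_pos)

lemma eis_tendsto_eisSummand_atImInfty (hk : 3 ≤ k) (v : Fin 2 → ℤ) :
    Tendsto (fun z : ℍ => eisSummand k v z) atImInfty
      (𝓝 (if v 0 = 0 then ((v 1 : ℂ)) ^ (-k) else 0)) := by
  split_ifs with h0
  · have : (fun z : ℍ => eisSummand k v z) = fun _ => ((v 1 : ℂ)) ^ (-k) := by
      funext z
      simp [eisSummand, h0]
    rw [this]
    exact tendsto_const_nhds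
  · lift k to ℕ using (by omega)
    have hk1 : k ≠ 0 := by omega
    rw [tendsto_zero_iff_norm_tendsto_zero]
    have hlim : Tendsto (fun z : ℍ => ((z.im)⁻¹) ^ k) atImInfty (𝓝 0) := by
      have h1 : Tendsto (fun z : ℍ => (z.im)⁻¹) atImInfty (𝓝 0) :=
        tendsto_inv_atTop_zero.comp tendsto_comap
      simpa [hk1] using h1.pow k
    refine squeeze_zero (fun _ => norm_nonneg _) (fun z => ?_) hlim
    have hle : z.im ≤ ‖(v 0 : ℂ) * (z : ℂ) + v 1‖ := by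
      have h1 : |((v 0 : ℂ) * (z : ℂ) + v 1).im| ≤ ‖(v 0 : ℂ) * (z : ℂ) + v 1‖ :=
        Complex.abs_im_le_norm _
      have h2 : ((v 0 : ℂ) * (z : ℂ) + v 1).im = (v 0 : ℝ) * z.im := by
        simp [Complex.add_im, Complex.mul_im]
      rw [h2, abs_mul, abs_of_pos z.im_pos] at h1
      have h3 : (1 : ℝ) ≤ |(v 0 : ℝ)| := by
        have : (1 : ℤ) ≤ |v 0| := Int.one_le_abs h0
        exact_mod_cast this
      nlinarith [z.im_pos]
    simp only [eisSummand, _root_.zpow_neg, zpow_natCast, norm_inv, norm_pow, inv_pow]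
    exact inv_anti₀ (pow_pos z.im_pos k) (pow_le_pow_left₀ z.im_pos.le hle k)

/-- The limit at `i∞` of a periodic `eisC`. -/
theorem eisC_tendsto_atImInfty (hκ : ∀ v, ‖κ v‖ ≤ C) (hk : 3 ≤ k) {N : ℕ} (hN : 0 < N)
    (hper : ∀ z : ℍ, eisC κ k ((N : ℝ) +ᵥ z) = eisC κ k z) :
    Tendsto (eisC κ k) atImInfty
      (𝓝 (∑' v : Fin 2 → ℤ, κ v * (if v 0 = 0 then ((v 1 : ℂ)) ^ (-k) else 0))) := by
  have hC : 0 ≤ C := (norm_nonneg _).trans (hκ 0)
  set S : Set ℍ := {z | |z.re| ≤ N} with hS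
  -- convergence along the strip
  have hstrip : Tendsto (eisC κ k) (atImInfty ⊓ 𝓟 S)
      (𝓝 (∑' v : Fin 2 → ℤ, κ v * (if v 0 = 0 then ((v 1 : ℂ)) ^ (-k) else 0))) := by
    refine tendsto_tsum_of_dominated_convergence
      (bound := fun v : Fin 2 → ℤ => C * (r ⟨⟨N, 1⟩, one_pos⟩ ^ (-k : ℝ) * ‖v‖ ^ (-k : ℝ)))
      (eisC_bound_summable hk one_pos) (fun v => ?_) ?_
    · exact ((eis_tendsto_eisSummand_atImInfty hk v).mono_left inf_le_left).const_mul (κ v)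
    · have h1 : ∀ᶠ z : ℍ in atImInfty ⊓ 𝓟 S, (1 : ℝ) ≤ z.im :=
        (tendsto_comap.eventually (eventually_ge_atTop (1 : ℝ))).filter_mono inf_le_left
      have h2 : ∀ᶠ z : ℍ in atImInfty ⊓ 𝓟 S, z ∈ S :=
        eventually_inf_principal.mpr (Eventually.of_forall fun z hz => hz)
      filter_upwards [h1, h2] with z hz1 hz2 v
      exact eisC_term_bound hκ hC hk one_pos ⟨hz2, hz1⟩ v
  -- transfer by periodicity
  rw [tendsto_def] at hstrip ⊢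
  intro s hs
  have := hstrip s hs
  rw [mem_inf_principal] at this
  rw [atImInfty, mem_comap] at this ⊢
  obtain ⟨t, ht, hts⟩ := this
  obtain ⟨B, hB⟩ := mem_atTop_sets.mp ht
  refine ⟨Set.Ici B, Ici_mem_atTop B, fun z hz => ?_⟩
  obtain ⟨w, hw, hwim, hfw⟩ := eis_exists_strip_rep hN hper z
  have hwt : w ∈ im ⁻¹' t := by
    apply hB
    rw [hwim]
    exact hz
  have := hts hwt hw.1
  simp only [Set.mem_preimage] at this ⊢
  rw [← hfw]
  exact this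

end Fermat.Agent.ES

end
end ZBES_017_0

/-! ### bundled: `Fermat.Agent.ES.EisChar` -/
section ZBES_017_1
/-
ESpkg-G1, piece A3 (helper83): Eisenstein series with character.

For a character `χ : Γ₀(M) → ℂˣ` of absolute value one which is trivial on parabolic elements
(`tr² = 4`), the series `eisChar χ k z = ∑_{(c,d)} χ(γ_{c,d})⁻¹ (c z + d)^{-k}` (sum over the bottom
rows of elements of `Γ₀(M)`) is holomorphic on `ℍ`, satisfies
`eisChar χ k ∣[k] γ = χ γ • eisChar χ k` for `γ ∈ Γ₀(M)`, all its `SL(2,ℤ)`-translates are bounded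
at `i∞`, and it tends to `2` at `i∞` (for even `k ≥ 4`).
-/

set_option autoImplicit false

open EisensteinSeries UpperHalfPlane ModularForm CongruenceSubgroup Matrix Filter Topology
open scoped MatrixGroups Manifold

noncomputable section

namespace Fermat.Agent.ES

variable {M : ℕ}

/-- An element of `SL(2,ℤ)` is *parabolic* (in the sense of the prelude) if `tr² = 4`. -/
def IsPar (γ : SL(2, ℤ)) : Prop := (γ : Matrix (Fin 2) (Fin 2) ℤ).trace ^ 2 = 4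

/-- The bottom row of an element of `SL(2,ℤ)`. -/
def brow (γ : SL(2, ℤ)) : Fin 2 → ℤ := (γ : Matrix (Fin 2) (Fin 2) ℤ) 1

lemma brow_mul (γ δ : SL(2, ℤ)) : brow (γ * δ) = brow γ ᵥ* (δ : Matrix (Fin 2) (Fin 2) ℤ) := by
  unfold brow
  rw [← eis_coe_mul_coe, Matrix.mul_apply_eq_vecMul]

lemma brow_one : brow 1 = ![0, 1] := by
  funext i
  fin_cases i <;> simp [brow]

lemma brow_apply_zero (γ : SL(2, ℤ)) : brow γ 0 = γ 1 0 := rfl

lemma brow_apply_one (γ : SL(2, ℤ)) : brow γ 1 = γ 1 1 := rfl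

/-- An element of `SL(2,ℤ)` with bottom row `(0,1)` is parabolic. -/
lemma isPar_of_brow_eq {δ : SL(2, ℤ)} (h : brow δ = ![0, 1]) : IsPar δ := by
  have h0 : δ 1 0 = 0 := by
    have := congrFun h 0
    rw [brow_apply_zero] at this
    simpa using this
  have h1 : δ 1 1 = 1 := by
    have := congrFun h 1
    rw [brow_apply_one] at this
    simpa using this
  have hdet := δ.2
  rw [Matrix.det_fin_two] at hdet
  have h00 : δ 0 0 = 1 := by
    have : (δ : Matrix (Fin 2) (Fin 2) ℤ) 0 0 * (δ : Matrix (Fin 2) (Fin 2) ℤ) 1 1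
      - (δ : Matrix (Fin 2) (Fin 2) ℤ) 0 1 * (δ : Matrix (Fin 2) (Fin 2) ℤ) 1 0 = 1 := hdet
    rw [h0, h1] at this
    linarith
  unfold IsPar
  rw [Matrix.trace_fin_two, h00, h1]
  norm_num

/-- Two elements with the same bottom row differ by a parabolic element on the left. -/
lemma isPar_mul_inv_of_brow_eq {γ γ' : SL(2, ℤ)} (h : brow γ' = brow γ) : IsPar (γ' * γ⁻¹) := by
  apply isPar_of_brow_eq
  rw [brow_mul, h, ← brow_mul, mul_inv_cancel, brow_one]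

open scoped Classical in
/-- The coefficient function of the Eisenstein series with character. -/
def kap (χ : Gamma0 M →* ℂˣ) (v : Fin 2 → ℤ) : ℂ :=
  if h : ∃ γ : Gamma0 M, brow γ = v then (((χ h.choose)⁻¹ : ℂˣ) : ℂ) else 0

variable (χ : Gamma0 M →* ℂˣ)

lemma kap_eq (hpar : ∀ γ : Gamma0 M, IsPar γ → χ γ = 1) (γ : Gamma0 M) :
    kap χ (brow γ) = (((χ γ)⁻¹ : ℂˣ) : ℂ) := by
  have h : ∃ γ' : Gamma0 M, brow γ' = brow γ := ⟨γ, rfl⟩
  unfold kap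
  rw [dif_pos h]
  have h1 : IsPar ((h.choose * γ⁻¹ : Gamma0 M) : SL(2, ℤ)) := by
    have := isPar_mul_inv_of_brow_eq h.choose_spec
    simpa using this
  have h2 := hpar _ h1
  rw [map_mul, map_inv, mul_inv_eq_one] at h2
  rw [h2]

lemma kap_of_not_exists {v : Fin 2 → ℤ} (h : ¬ ∃ γ : Gamma0 M, brow γ = v) : kap χ v = 0 := by
  unfold kap
  rw [dif_neg h]

lemma norm_kap_le (hχ : ∀ γ : Gamma0 M, ‖((χ γ : ℂˣ) : ℂ)‖ = 1) (v : Fin 2 → ℤ) :
    ‖kap χ v‖ ≤ 1 := by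
  unfold kap
  split_ifs with h
  · rw [Units.val_inv_eq_inv_val, norm_inv, hχ, inv_one]
  · simp

lemma kap_vecMul (hpar : ∀ γ : Gamma0 M, IsPar γ → χ γ = 1) (γ : Gamma0 M) (v : Fin 2 → ℤ) :
    kap χ (v ᵥ* ((γ : SL(2, ℤ)) : Matrix (Fin 2) (Fin 2) ℤ)) = kap χ v * (((χ γ)⁻¹ : ℂˣ) : ℂ) := by
  by_cases h : ∃ γ' : Gamma0 M, brow γ' = v
  · obtain ⟨γ', rfl⟩ := h
    have : brow γ' ᵥ* ((γ : SL(2, ℤ)) : Matrix (Fin 2) (Fin 2) ℤ) = brow ((γ' * γ : Gamma0 M)) := by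
      rw [Subgroup.coe_mul, brow_mul]
    rw [this, kap_eq χ hpar, kap_eq χ hpar, map_mul, mul_inv, Units.val_mul]
  · have h' : ¬ ∃ γ' : Gamma0 M,
        brow γ' = v ᵥ* ((γ : SL(2, ℤ)) : Matrix (Fin 2) (Fin 2) ℤ) := by
      rintro ⟨γ', hγ'⟩
      apply h
      refine ⟨γ' * γ⁻¹, ?_⟩
      rw [Subgroup.coe_mul, brow_mul, hγ', Subgroup.coe_inv, vecMul_vecMul, eis_coe_mul_coe_inv,
        vecMul_one]
    rw [kap_of_not_exists χ h, kap_of_not_exists χ h', zero_mul]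

/-! ### The series -/

/-- The Eisenstein series of weight `k` with character `χ` on `Γ₀(M)`. -/
def eisChar (χ : Gamma0 M →* ℂˣ) (k : ℤ) : ℍ → ℂ := eisC (kap χ) k

variable {k : ℤ}

lemma eisC_const_mul (κ : (Fin 2 → ℤ) → ℂ) (c : ℂ) (k : ℤ) :
    eisC (fun v => c * κ v) k = c • eisC κ k := by
  funext z
  simp only [eisC, Pi.smul_apply, smul_eq_mul, mul_assoc, tsum_mul_left]

/-- `eisChar χ k` is holomorphic. -/
theorem eisChar_mdiff (hχ : ∀ γ : Gamma0 M, ‖((χ γ : ℂˣ) : ℂ)‖ = 1) (hk : 3 ≤ k) :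
    MDiff (eisChar χ k) :=
  eisC_mdiff (norm_kap_le χ hχ) hk

/-- The automorphy of `eisChar χ k` under `Γ₀(M)`. -/
theorem eisChar_slash (hpar : ∀ γ : Gamma0 M, IsPar γ → χ γ = 1) (γ : Gamma0 M) :
    eisChar χ k ∣[k] (γ : SL(2, ℤ)) = ((χ γ : ℂˣ) : ℂ) • eisChar χ k := by
  unfold eisChar
  rw [eisC_slash, ← eisC_const_mul]
  congr 1
  funext v
  have := kap_vecMul χ hpar γ⁻¹ v
  rw [Subgroup.coe_inv] at this
  rw [this, map_inv, inv_inv, mul_comm]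

lemma eis_slash_T_zpow_apply (f : ℍ → ℂ) (k n : ℤ) (z : ℍ) :
    (f ∣[k] (ModularGroup.T ^ n)) z = f ((n : ℝ) +ᵥ z) := by
  rw [SL_slash_apply, modular_T_zpow_smul]
  have h : denom (ModularGroup.T ^ n : SL(2, ℤ)) z = 1 := by
    rw [ModularGroup.denom_apply, ModularGroup.coe_T_zpow]
    simp
  rw [h, _root_.one_zpow, mul_one]

lemma isPar_conj_T_zpow (δ : SL(2, ℤ)) (n : ℤ) : IsPar (δ * ModularGroup.T ^ n * δ⁻¹) := by
  unfold IsPar
  have h1 : ((δ * ModularGroup.T ^ n * δ⁻¹ : SL(2, ℤ)) : Matrix (Fin 2) (Fin 2) ℤ)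
      = (δ : Matrix (Fin 2) (Fin 2) ℤ) * ((ModularGroup.T ^ n : SL(2, ℤ)) : Matrix (Fin 2) (Fin 2) ℤ)
        * ((δ⁻¹ : SL(2, ℤ)) : Matrix (Fin 2) (Fin 2) ℤ) := rfl
  rw [h1, Matrix.trace_mul_cycle, eis_coe_inv_mul_coe, one_mul, ModularGroup.coe_T_zpow,
    Matrix.trace_fin_two]
  norm_num

lemma eis_conj_T_zpow_mem_Gamma0 (δ : SL(2, ℤ)) (n : ℤ) (hn : (M : ℤ) ∣ n) :
    δ * ModularGroup.T ^ n * δ⁻¹ ∈ Gamma0 M := by
  have h1 : ModularGroup.T ^ n ∈ Gamma M := by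
    have := ModularGroup_T_pow_mem_Gamma (M : ℤ) n hn
    simpa using this
  have h2 : δ * ModularGroup.T ^ n * δ⁻¹ ∈ Gamma M := (Gamma_normal M).conj_mem _ h1 δ
  rw [Gamma_mem] at h2
  rw [Gamma0_mem]
  exact h2.2.2.1

/-- The coefficient function of a translate is invariant under `T^n` whenever
`δ T^n δ⁻¹ ∈ Γ₀(M)`. -/
lemma kap_translate_periodic' (hpar : ∀ γ : Gamma0 M, IsPar γ → χ γ = 1) (δ : SL(2, ℤ))
    (n : ℤ) (hn : δ * ModularGroup.T ^ n * δ⁻¹ ∈ Gamma0 M) (v : Fin 2 → ℤ) :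
    kap χ ((v ᵥ* (((ModularGroup.T ^ n)⁻¹ : SL(2, ℤ)) : Matrix (Fin 2) (Fin 2) ℤ)) ᵥ*
        ((δ⁻¹ : SL(2, ℤ)) : Matrix (Fin 2) (Fin 2) ℤ))
      = kap χ (v ᵥ* ((δ⁻¹ : SL(2, ℤ)) : Matrix (Fin 2) (Fin 2) ℤ)) := by
  have hmem : δ * ModularGroup.T ^ (-n) * δ⁻¹ ∈ Gamma0 M := by
    have := (Gamma0 M).inv_mem hn
    have e : (δ * ModularGroup.T ^ n * δ⁻¹)⁻¹ = δ * ModularGroup.T ^ (-n) * δ⁻¹ := by
      rw [_root_.zpow_neg]
      group
    rwa [e] at this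
  have hγpar : IsPar (δ * ModularGroup.T ^ (-n) * δ⁻¹) := isPar_conj_T_zpow δ _
  have h1 := kap_vecMul χ hpar ⟨_, hmem⟩
    (v ᵥ* ((δ⁻¹ : SL(2, ℤ)) : Matrix (Fin 2) (Fin 2) ℤ))
  rw [hpar ⟨_, hmem⟩ hγpar, inv_one, Units.val_one, mul_one] at h1
  rw [← h1]
  have key : ((ModularGroup.T ^ n)⁻¹ * δ⁻¹ : SL(2, ℤ))
      = δ⁻¹ * (δ * ModularGroup.T ^ (-n) * δ⁻¹) := by
    rw [_root_.zpow_neg]
    group
  rw [vecMul_vecMul, vecMul_vecMul, eis_coe_mul_coe, eis_coe_mul_coe, key]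

/-- The coefficient function of a translate is invariant under `T^M`. -/
lemma kap_translate_periodic (hpar : ∀ γ : Gamma0 M, IsPar γ → χ γ = 1) (δ : SL(2, ℤ))
    (v : Fin 2 → ℤ) :
    kap χ ((v ᵥ* (((ModularGroup.T ^ (M : ℤ))⁻¹ : SL(2, ℤ)) : Matrix (Fin 2) (Fin 2) ℤ)) ᵥ*
        ((δ⁻¹ : SL(2, ℤ)) : Matrix (Fin 2) (Fin 2) ℤ))
      = kap χ (v ᵥ* ((δ⁻¹ : SL(2, ℤ)) : Matrix (Fin 2) (Fin 2) ℤ)) :=
  kap_translate_periodic' χ hpar δ (M : ℤ) (eis_conj_T_zpow_mem_Gamma0 δ _ dvd_rfl) v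

/-- A translate of `eisChar χ k` by `δ ∈ SL(2,ℤ)` is `n`-periodic whenever `δ T^n δ⁻¹ ∈ Γ₀(M)`. -/
theorem eisChar_slash_periodic' (hpar : ∀ γ : Gamma0 M, IsPar γ → χ γ = 1) (δ : SL(2, ℤ))
    (n : ℤ) (hn : δ * ModularGroup.T ^ n * δ⁻¹ ∈ Gamma0 M) (z : ℍ) :
    (eisChar χ k ∣[k] δ) ((n : ℝ) +ᵥ z) = (eisChar χ k ∣[k] δ) z := by
  have h := eis_slash_T_zpow_apply (eisChar χ k ∣[k] δ) k n z
  rw [← h]
  unfold eisChar
  rw [eisC_slash, eisC_slash]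
  congr 2
  funext v
  exact kap_translate_periodic' χ hpar δ n hn v

/-- Every `SL(2,ℤ)`-translate of `eisChar χ k` is `M`-periodic. -/
theorem eisChar_slash_periodic (hpar : ∀ γ : Gamma0 M, IsPar γ → χ γ = 1) (δ : SL(2, ℤ))
    (z : ℍ) : (eisChar χ k ∣[k] δ) ((M : ℝ) +ᵥ z) = (eisChar χ k ∣[k] δ) z := by
  have h := eisChar_slash_periodic' (k := k) χ hpar δ (M : ℤ)
    (eis_conj_T_zpow_mem_Gamma0 δ _ dvd_rfl) z
  rwa [show ((M : ℤ) : ℝ) = (M : ℝ) by simp] at h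

/-- Every `SL(2,ℤ)`-translate of `eisChar χ k` is bounded at `i∞`. -/
theorem eisChar_slash_isBoundedAtImInfty [NeZero M]
    (hχ : ∀ γ : Gamma0 M, ‖((χ γ : ℂˣ) : ℂ)‖ = 1)
    (hpar : ∀ γ : Gamma0 M, IsPar γ → χ γ = 1) (hk : 3 ≤ k) (δ : SL(2, ℤ)) :
    IsBoundedAtImInfty (eisChar χ k ∣[k] δ) := by
  have hper := eisChar_slash_periodic (k := k) χ hpar δ
  unfold eisChar at hper ⊢
  rw [eisC_slash] at hper ⊢
  exact eisC_isBoundedAtImInfty (C := 1) (fun v => norm_kap_le χ hχ _) hk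
    (Nat.pos_of_ne_zero (NeZero.ne M)) hper

lemma eisChar_periodic [NeZero M] (hpar : ∀ γ : Gamma0 M, IsPar γ → χ γ = 1) (z : ℍ) :
    eisChar χ k ((M : ℝ) +ᵥ z) = eisChar χ k z := by
  have := eisChar_slash_periodic (k := k) χ hpar 1 z
  simpa using this

/-! ### The limit at `i∞` -/

lemma eis_neg_one_mem_Gamma0 : (-1 : SL(2, ℤ)) ∈ Gamma0 M := by
  rw [Gamma0_mem]
  simp

lemma isPar_neg_one : IsPar (-1 : SL(2, ℤ)) := by
  unfold IsPar
  rw [Matrix.trace_fin_two]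
  simp

lemma brow_neg_one : brow (-1 : SL(2, ℤ)) = ![0, -1] := by
  funext i
  fin_cases i <;> simp [brow]

lemma kap_zero_one (hpar : ∀ γ : Gamma0 M, IsPar γ → χ γ = 1) : kap χ ![0, 1] = 1 := by
  have := kap_eq χ hpar 1
  rw [map_one, inv_one, Units.val_one] at this
  rw [← this]
  congr 1
  exact brow_one.symm

lemma kap_zero_neg_one (hpar : ∀ γ : Gamma0 M, IsPar γ → χ γ = 1) : kap χ ![0, -1] = 1 := by
  have := kap_eq χ hpar ⟨-1, eis_neg_one_mem_Gamma0⟩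
  rw [hpar ⟨-1, eis_neg_one_mem_Gamma0⟩ isPar_neg_one, inv_one, Units.val_one] at this
  rw [← this]
  congr 1
  exact brow_neg_one.symm

lemma kap_eq_zero_of_ne {v : Fin 2 → ℤ} (h0 : v 0 = 0) (h1 : v ≠ ![0, 1]) (h2 : v ≠ ![0, -1]) :
    kap χ v = 0 := by
  apply kap_of_not_exists
  rintro ⟨γ, hγ⟩
  have hcop := ModularGroup.bottom_row_coprime (γ : SL(2, ℤ))
  have e0 : ((γ : SL(2, ℤ)) : Matrix (Fin 2) (Fin 2) ℤ) 1 0 = v 0 := congrFun hγ 0
  have e1 : ((γ : SL(2, ℤ)) : Matrix (Fin 2) (Fin 2) ℤ) 1 1 = v 1 := congrFun hγ 1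
  rw [e0, e1, h0, isCoprime_zero_left, Int.isUnit_iff] at hcop
  rcases hcop with h | h
  · apply h1
    funext i
    fin_cases i <;> simp [h0, h]
  · apply h2
    funext i
    fin_cases i <;> simp [h0, h]

lemma tsum_kap_eq_two (hpar : ∀ γ : Gamma0 M, IsPar γ → χ γ = 1) (hk2 : Even k) :
    (∑' v : Fin 2 → ℤ, kap χ v * (if v 0 = 0 then ((v 1 : ℂ)) ^ (-k) else 0)) = 2 := by
  classical
  have hne : (![0, 1] : Fin 2 → ℤ) ≠ ![0, -1] := by
    intro h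
    have := congrFun h 1
    simp at this
  rw [tsum_eq_sum (s := {![0, 1], ![0, -1]})]
  · rw [Finset.sum_pair hne, kap_zero_one χ hpar, kap_zero_neg_one χ hpar]
    have h1 : ((-1 : ℂ)) ^ (-k) = 1 := by
      rw [_root_.zpow_neg, Even.neg_one_zpow hk2, inv_one]
    simp [h1]
    norm_num
  · intro v hv
    simp only [Finset.mem_insert, Finset.mem_singleton, not_or] at hv
    by_cases h0 : v 0 = 0
    · rw [kap_eq_zero_of_ne χ h0 hv.1 hv.2, zero_mul]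
    · rw [if_neg h0, mul_zero]

/-- `eisChar χ k` tends to `2` at `i∞` (even weight `k ≥ 4`). -/
theorem eisChar_tendsto [NeZero M] (hχ : ∀ γ : Gamma0 M, ‖((χ γ : ℂˣ) : ℂ)‖ = 1)
    (hpar : ∀ γ : Gamma0 M, IsPar γ → χ γ = 1) (hk : 3 ≤ k) (hk2 : Even k) :
    Tendsto (eisChar χ k) atImInfty (𝓝 2) := by
  have h := eisC_tendsto_atImInfty (norm_kap_le χ hχ) hk (Nat.pos_of_ne_zero (NeZero.ne M))
    (eisChar_periodic (k := k) χ hpar)
  rw [tsum_kap_eq_two χ hpar hk2] at h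
  exact h

/-- `eisChar χ k` is not identically zero. -/
theorem eisChar_ne_zero [NeZero M] (hχ : ∀ γ : Gamma0 M, ‖((χ γ : ℂˣ) : ℂ)‖ = 1)
    (hpar : ∀ γ : Gamma0 M, IsPar γ → χ γ = 1) (hk : 3 ≤ k) (hk2 : Even k) :
    ∃ z : ℍ, eisChar χ k z ≠ 0 := by
  by_contra hne
  push Not at hne
  have h0 : Tendsto (eisChar χ k) atImInfty (𝓝 0) := by
    have : eisChar χ k = fun _ => 0 := funext hne
    rw [this]
    exact tendsto_const_nhds
  have := tendsto_nhds_unique (eisChar_tendsto χ hχ hpar hk hk2) h0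
  norm_num at this

/-! ### Powers: genuine modular forms on `Γ₀(M)` -/

lemma eis_pow_slash (k : ℤ) (n : ℕ) (g : ℍ → ℂ) (A : SL(2, ℤ)) :
    (g ^ n) ∣[(n : ℤ) * k] A = (g ∣[k] A) ^ n := by
  induction n with
  | zero =>
    simp only [pow_zero, Nat.cast_zero, zero_mul]
    exact ModularForm.is_invariant_one A
  | succ n ih =>
    rw [pow_succ, pow_succ, ← ih]
    have : ((n + 1 : ℕ) : ℤ) * k = (n : ℤ) * k + k := by push_cast; ring
    rw [this]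
    exact mul_slash_SL2 _ _ A _ _

/-- If `χ ^ n = 1`, the `n`-th power of `eisChar χ k` is a modular form of weight `n k` on
`Γ₀(M)`. -/
def eisCharPow [NeZero M] (hχ : ∀ γ : Gamma0 M, ‖((χ γ : ℂˣ) : ℂ)‖ = 1)
    (hpar : ∀ γ : Gamma0 M, IsPar γ → χ γ = 1) (hk : 3 ≤ k) (n : ℕ)
    (hn : ∀ γ : Gamma0 M, χ γ ^ n = 1) :
    ModularForm ((Gamma0 M).map (Matrix.SpecialLinearGroup.mapGL ℝ)) ((n : ℤ) * k) where
  toFun := eisChar χ k ^ n
  slash_action_eq' := by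
    rintro _ ⟨γ, hγ, rfl⟩
    change (eisChar χ k ^ n) ∣[(n : ℤ) * k] γ = _
    rw [eis_pow_slash, eisChar_slash χ hpar ⟨γ, hγ⟩, smul_pow, ← Units.val_pow_eq_pow_val,
      hn ⟨γ, hγ⟩, Units.val_one, one_smul]
  holo' := by
    have h := eisChar_mdiff χ hχ hk
    have : MDiff (fun z => eisChar χ k z ^ n) := h.pow n
    exact this
  bdd_at_cusps' := by
    intro c hc
    rw [Subgroup.IsArithmetic.isCusp_iff_isCusp_SL2Z] at hc
    rw [OnePoint.isBoundedAt_iff_forall_SL2Z hc]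
    intro δ _
    rw [eis_pow_slash]
    have hb := eisChar_slash_isBoundedAtImInfty χ hχ hpar hk δ
    have key : ∀ m : ℕ, IsBoundedAtImInfty ((eisChar χ k ∣[k] δ) ^ m) := by
      intro m
      induction m with
      | zero =>
        simp only [pow_zero]
        exact Filter.const_boundedAtFilter _ (1 : ℂ)
      | succ m ih =>
        rw [pow_succ]
        exact ih.mul hb
    exact key n

@[simp] lemma eisCharPow_apply [NeZero M] (hχ : ∀ γ : Gamma0 M, ‖((χ γ : ℂˣ) : ℂ)‖ = 1)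
    (hpar : ∀ γ : Gamma0 M, IsPar γ → χ γ = 1) (hk : 3 ≤ k) (n : ℕ)
    (hn : ∀ γ : Gamma0 M, χ γ ^ n = 1) (z : ℍ) :
    eisCharPow χ hχ hpar hk n hn z = eisChar χ k z ^ n := rfl

end Fermat.Agent.ES

end
end ZBES_017_1

/-! ### bundled: `Fermat.Agent.ES.EisCharFun` -/
section ZBES_017_2
/-
ESpkg-G1, piece A3 (helper83): the `χ`-automorphic function `hChi χ = eisChar χ 12 / Δ`.

`hChi χ` is holomorphic on `ℍ`, not identically zero, `hChi χ (γ • z) = χ γ * hChi χ z` for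
`γ ∈ Γ₀(M)`; for every `δ ∈ SL(2,ℤ)`: `hChi χ (δ • z) = (eisChar χ 12 ∣[12] δ) z / Δ z`, where the
numerator is holomorphic, bounded at `i∞`, and `n`-periodic whenever `δ T^n δ⁻¹ ∈ Γ₀(M)`.
-/

set_option autoImplicit false

open EisensteinSeries UpperHalfPlane ModularForm CongruenceSubgroup Matrix Filter Topology
open scoped MatrixGroups Manifold

noncomputable section

namespace Fermat.Agent.ES

variable {M : ℕ} (χ : Gamma0 M →* ℂˣ)

local notation "Δ" => ModularForm.discriminant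

/-- The `χ`-automorphic function `E₁₂^χ / Δ`. -/
def hChi (χ : Gamma0 M →* ℂˣ) (z : ℍ) : ℂ := eisChar χ 12 z / Δ z

lemma hChi_apply (z : ℍ) : hChi χ z = eisChar χ 12 z / Δ z := rfl

lemma eis_discriminant_mdiff : MDiff (Δ : ℍ → ℂ) := CuspForm.discriminant.holo'

theorem hChi_mdiff (hχ : ∀ γ : Gamma0 M, ‖((χ γ : ℂˣ) : ℂ)‖ = 1) : MDiff (hChi χ) :=
  (eisChar_mdiff χ hχ (by norm_num)).div eis_discriminant_mdiff discriminant_ne_zero

/-- `Δ(δ z) = (c z + d)^12 Δ(z)`. -/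
lemma eis_discriminant_smul (δ : SL(2, ℤ)) (z : ℍ) : Δ (δ • z) = denom δ z ^ 12 * Δ z := by
  have h : (⇑CuspForm.discriminant : ℍ → ℂ) ∣[(12 : ℤ)] δ = ⇑CuspForm.discriminant := by
    rw [SL_slash]
    exact SlashInvariantForm.slash_action_eqn CuspForm.discriminant _ ⟨δ, rfl⟩
  have h2 := congrFun h z
  rw [SL_slash_apply] at h2
  have hd : denom δ z ^ 12 ≠ 0 := pow_ne_zero _ (denom_ne_zero _ z)
  have h3 : (CuspForm.discriminant : ℍ → ℂ) (δ • z) = Δ (δ • z) := rfl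
  have h4 : (CuspForm.discriminant : ℍ → ℂ) z = Δ z := rfl
  have h5 : denom δ z ^ (-(12 : ℤ)) = (denom δ z ^ 12)⁻¹ := by
    rw [_root_.zpow_neg]
    norm_cast
  rw [h3, h4, h5] at h2
  calc Δ (δ • z) = Δ (δ • z) * (denom δ z ^ 12)⁻¹ * denom δ z ^ 12 := by
        rw [inv_mul_cancel_right₀ hd]
    _ = denom δ z ^ 12 * Δ z := by rw [h2, mul_comm]

/-- The translates of `hChi χ`. -/
theorem hChi_smul_SL (δ : SL(2, ℤ)) (z : ℍ) :
    hChi χ (δ • z) = (eisChar χ 12 ∣[(12 : ℤ)] δ) z / Δ z := by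
  have hd : denom δ z ^ 12 ≠ 0 := pow_ne_zero _ (denom_ne_zero _ z)
  have hΔ : Δ z ≠ 0 := discriminant_ne_zero z
  have h5 : denom δ z ^ (-(12 : ℤ)) = (denom δ z ^ 12)⁻¹ := by
    rw [_root_.zpow_neg]
    norm_cast
  rw [hChi_apply, eis_discriminant_smul, SL_slash_apply, h5]
  field_simp

/-- The automorphy of `hChi χ`. -/
theorem hChi_smul (hpar : ∀ γ : Gamma0 M, IsPar γ → χ γ = 1) (γ : Gamma0 M) (z : ℍ) :
    hChi χ ((γ : SL(2, ℤ)) • z) = ((χ γ : ℂˣ) : ℂ) * hChi χ z := by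
  rw [hChi_smul_SL, eisChar_slash χ hpar γ, hChi_apply, Pi.smul_apply, smul_eq_mul, mul_div_assoc]

/-- `hChi χ ^ n` is `Γ₀(M)`-invariant if `χ ^ n = 1`. -/
theorem hChi_pow_smul (hpar : ∀ γ : Gamma0 M, IsPar γ → χ γ = 1) (n : ℕ)
    (hn : ∀ γ : Gamma0 M, χ γ ^ n = 1) (γ : Gamma0 M) (z : ℍ) :
    hChi χ ((γ : SL(2, ℤ)) • z) ^ n = hChi χ z ^ n := by
  rw [hChi_smul χ hpar, mul_pow, ← Units.val_pow_eq_pow_val, hn, Units.val_one, one_mul]

/-- `hChi χ · Δ` tends to `2` at `i∞`; in particular `hChi χ` has a simple pole at `i∞`. -/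
theorem hChi_mul_discriminant_tendsto [NeZero M] (hχ : ∀ γ : Gamma0 M, ‖((χ γ : ℂˣ) : ℂ)‖ = 1)
    (hpar : ∀ γ : Gamma0 M, IsPar γ → χ γ = 1) :
    Tendsto (fun z => hChi χ z * Δ z) atImInfty (𝓝 2) := by
  have h := eisChar_tendsto (k := 12) χ hχ hpar (by norm_num) ⟨6, by norm_num⟩
  refine h.congr fun z => ?_
  rw [hChi_apply, div_mul_cancel₀ _ (discriminant_ne_zero z)]

theorem hChi_ne_zero [NeZero M] (hχ : ∀ γ : Gamma0 M, ‖((χ γ : ℂˣ) : ℂ)‖ = 1)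
    (hpar : ∀ γ : Gamma0 M, IsPar γ → χ γ = 1) : ∃ z : ℍ, hChi χ z ≠ 0 := by
  obtain ⟨z, hz⟩ := eisChar_ne_zero (k := 12) χ hχ hpar (by norm_num) ⟨6, by norm_num⟩
  exact ⟨z, div_ne_zero hz (discriminant_ne_zero z)⟩

/-- At every cusp: `z ↦ hChi χ (δ • z) · Δ z` is holomorphic, bounded at `i∞` and `n`-periodic
whenever `δ T^n δ⁻¹ ∈ Γ₀(M)`. -/
theorem hChi_cusp [NeZero M] (hχ : ∀ γ : Gamma0 M, ‖((χ γ : ℂˣ) : ℂ)‖ = 1)
    (hpar : ∀ γ : Gamma0 M, IsPar γ → χ γ = 1) (δ : SL(2, ℤ)) :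
    MDiff (fun z => hChi χ (δ • z) * Δ z) ∧
    IsBoundedAtImInfty (fun z => hChi χ (δ • z) * Δ z) ∧
    ∀ n : ℤ, δ * ModularGroup.T ^ n * δ⁻¹ ∈ Gamma0 M → ∀ z : ℍ,
      hChi χ (δ • ((n : ℝ) +ᵥ z)) * Δ ((n : ℝ) +ᵥ z) = hChi χ (δ • z) * Δ z := by
  have hfun : (fun z => hChi χ (δ • z) * Δ z) = eisChar χ 12 ∣[(12 : ℤ)] δ := by
    funext z
    rw [hChi_smul_SL, div_mul_cancel₀ _ (discriminant_ne_zero z)]
  refine ⟨?_, ?_, fun n hn z => ?_⟩
  · rw [hfun]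
    have h := eisChar_mdiff (k := 12) χ hχ (by norm_num)
    unfold eisChar at h ⊢
    rw [eisC_slash]
    exact eisC_mdiff (C := 1) (fun v => norm_kap_le χ hχ _) (by norm_num)
  · rw [hfun]
    exact eisChar_slash_isBoundedAtImInfty χ hχ hpar (by norm_num) δ
  · have h1 := congrFun hfun ((n : ℝ) +ᵥ z)
    have h2 := congrFun hfun z
    rw [h1, h2]
    exact eisChar_slash_periodic' χ hpar δ n hn z

end Fermat.Agent.ES

end
end ZBES_017_2

/-! ### bundled: `Fermat.Agent.ES.EisCharMult` -/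
section ZBES_017_3
/-
ESpkg-G1, piece A3 → A2 glue (helper83): the multiplier map is ONTO.

For `χ : Γ₀(M) →* ℂˣ` with `χ ^ p = 1`, trivial on parabolic elements, the holomorphic function
`hChi χ = E₁₂^χ / Δ` (resp. the pair `(E₁₂^χ, Δ)`) is a `RootData (Gamma0 M) p` whose multiplier
character (helper34's `RootData.mult`) is `χ`.
-/

set_option autoImplicit false

open EisensteinSeries UpperHalfPlane ModularForm CongruenceSubgroup Matrix Filter Topology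
open scoped MatrixGroups Manifold

noncomputable section

namespace Fermat.Agent.ES

variable {M : ℕ} (χ : Gamma0 M →* ℂˣ)

local notation "Δ" => ModularForm.discriminant

/-- a character with values in the `p`-th roots of unity has absolute value one. -/
lemma eis_norm_eq_one_of_pow {p : ℕ} (hp : p ≠ 0) (hχp : ∀ γ : Gamma0 M, χ γ ^ p = 1)
    (γ : Gamma0 M) : ‖((χ γ : ℂˣ) : ℂ)‖ = 1 := by
  have h1 : ((χ γ : ℂˣ) : ℂ) ^ p = 1 := by
    have := congrArg (fun u : ℂˣ => (u : ℂ)) (hχp γ)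
    simpa using this
  exact Complex.norm_eq_one_of_pow_eq_one h1 hp

/-- `hChi χ` has multiplier `χ γ` at `γ ∈ Γ₀(M)` (as the "fraction" `hChi χ / 1`). -/
theorem hChi_isMultiplier (hpar : ∀ γ : Gamma0 M, IsPar γ → χ γ = 1) (γ : Gamma0 M) :
    IsMultiplier (γ : SL(2, ℤ)) (hChi χ) (fun _ => 1) ((χ γ : ℂˣ) : ℂ) := by
  intro τ
  have h := hChi_smul χ hpar γ τ
  simp only [mul_one]
  exact h

/-- the pair `(E₁₂^χ, Δ)` has multiplier `χ γ` at `γ ∈ Γ₀(M)`. -/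
theorem eisChar_isMultiplier (hpar : ∀ γ : Gamma0 M, IsPar γ → χ γ = 1) (γ : Gamma0 M) :
    IsMultiplier (γ : SL(2, ℤ)) (eisChar χ 12) (fun z => Δ z) ((χ γ : ℂˣ) : ℂ) := by
  intro τ
  have h := hChi_smul χ hpar γ τ
  rw [hChi_apply, hChi_apply] at h
  have h1 : Δ ((γ : SL(2, ℤ)) • τ) ≠ 0 := discriminant_ne_zero _
  have h2 : Δ τ ≠ 0 := discriminant_ne_zero _
  show eisChar χ 12 ((γ : SL(2, ℤ)) • τ) * Δ τ
      = ((χ γ : ℂˣ) : ℂ) * (eisChar χ 12 τ * Δ ((γ : SL(2, ℤ)) • τ))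
  field_simp at h
  linear_combination h

/-- The root datum of `hChi χ` (denominator `1`). -/
def hChiRootData [NeZero M] {p : ℕ} (hp : p ≠ 0) (hχp : ∀ γ : Gamma0 M, χ γ ^ p = 1)
    (hpar : ∀ γ : Gamma0 M, IsPar γ → χ γ = 1) : RootData (Gamma0 M) p where
  a := hChi χ
  g := fun _ => 1
  p_ne_zero := hp
  mdiff_a := hChi_mdiff χ (eis_norm_eq_one_of_pow χ hp hχp)
  mdiff_g := mdifferentiable_const
  a_ne_zero := fun h => by
    obtain ⟨z, hz⟩ := hChi_ne_zero χ (eis_norm_eq_one_of_pow χ hp hχp) hpar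
    exact hz (congrFun h z)
  g_ne_zero := fun h => one_ne_zero (congrFun h UpperHalfPlane.I)
  pow_inv := by
    intro γ hγ τ
    have h := hChi_isMultiplier χ hpar ⟨γ, hγ⟩ τ
    have h1 : ((χ ⟨γ, hγ⟩ : ℂˣ) : ℂ) ^ p = 1 := by
      have := congrArg (fun u : ℂˣ => (u : ℂ)) (hχp ⟨γ, hγ⟩)
      simpa using this
    rw [h, mul_pow, h1, one_mul]

/-- **The multiplier map is onto**: the multiplier character of `hChi χ` is `χ`. -/
theorem hChiRootData_mult [NeZero M] {p : ℕ} (hp : p ≠ 0) (hχp : ∀ γ : Gamma0 M, χ γ ^ p = 1)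
    (hpar : ∀ γ : Gamma0 M, IsPar γ → χ γ = 1) :
    (hChiRootData χ hp hχp hpar).mult = χ := by
  ext γ
  exact congrArg (fun u : ℂˣ => (u : ℂ))
    (((hChiRootData χ hp hχp hpar).mult_eq_iff γ (χ γ)).2 (hChi_isMultiplier χ hpar γ))

/-- The root datum of the pair `(E₁₂^χ, Δ)`. -/
def eisCharRootData [NeZero M] {p : ℕ} (hp : p ≠ 0) (hχp : ∀ γ : Gamma0 M, χ γ ^ p = 1)
    (hpar : ∀ γ : Gamma0 M, IsPar γ → χ γ = 1) : RootData (Gamma0 M) p where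
  a := eisChar χ 12
  g := fun z => Δ z
  p_ne_zero := hp
  mdiff_a := eisChar_mdiff χ (eis_norm_eq_one_of_pow χ hp hχp) (by norm_num)
  mdiff_g := eis_discriminant_mdiff
  a_ne_zero := fun h => by
    obtain ⟨z, hz⟩ := eisChar_ne_zero (k := 12) χ (eis_norm_eq_one_of_pow χ hp hχp) hpar
      (by norm_num) (by decide)
    exact hz (congrFun h z)
  g_ne_zero := fun h => discriminant_ne_zero UpperHalfPlane.I (congrFun h UpperHalfPlane.I)
  pow_inv := by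
    intro γ hγ τ
    have h := eisChar_isMultiplier χ hpar ⟨γ, hγ⟩ τ
    have h1 : ((χ ⟨γ, hγ⟩ : ℂˣ) : ℂ) ^ p = 1 := by
      have := congrArg (fun u : ℂˣ => (u : ℂ)) (hχp ⟨γ, hγ⟩)
      simpa using this
    rw [h, mul_pow, h1, one_mul]

theorem eisCharRootData_mult [NeZero M] {p : ℕ} (hp : p ≠ 0) (hχp : ∀ γ : Gamma0 M, χ γ ^ p = 1)
    (hpar : ∀ γ : Gamma0 M, IsPar γ → χ γ = 1) :
    (eisCharRootData χ hp hχp hpar).mult = χ := by
  ext γ
  exact congrArg (fun u : ℂˣ => (u : ℂ))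
    (((eisCharRootData χ hp hχp hpar).mult_eq_iff γ (χ γ)).2 (eisChar_isMultiplier χ hpar γ))

/-- **Surjectivity of the multiplier map, existence form.**  Every character
`χ : Γ₀(M) → μ_p` that is trivial on parabolic elements is the multiplier of a root datum `D`
whose `p`-th power `D.a ^ p / D.g ^ p` is (the restriction to `ℍ` of) a modular function. -/
theorem exists_rootData_mult_eq [NeZero M] {p : ℕ} (hp : p ≠ 0)
    (hχp : ∀ γ : Gamma0 M, χ γ ^ p = 1) (hpar : ∀ γ : Gamma0 M, IsPar γ → χ γ = 1) :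
    ∃ D : RootData (Gamma0 M) p, D.mult = χ ∧ (∀ z, D.g z = 1) ∧ D.a = hChi χ :=
  ⟨hChiRootData χ hp hχp hpar, hChiRootData_mult χ hp hχp hpar, fun _ => rfl, rfl⟩

end Fermat.Agent.ES

end
end ZBES_017_3

/-! ### bundled: `Fermat.Agent.ES.EisCharOrd` -/
section ZBES_017_4
/-
ESpkg-G1, piece A3 (helper83): orders of `hChi χ` at fixed points (elliptic points).

For `γ ∈ Γ₀(M)` fixing `τ₀`, with `ν = 1 / denom γ τ₀ ^ 2` (the derivative of `γ` at `τ₀`):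
`χ γ = ν ^ ord_τ₀ (hChi χ)`.  Hence, if `χ γ = 1` and `ν` is a primitive `e`-th root of unity,
`e ∣ ord_τ₀ (hChi χ)`, i.e. `p * e ∣ ord_τ₀ (hChi χ ^ p)`: the `p`-divisibility of the order of
`u_χ = hChi χ ^ p` in the local parameter at the elliptic point.
-/

set_option autoImplicit false

open EisensteinSeries UpperHalfPlane ModularForm CongruenceSubgroup Matrix Filter Topology
open scoped MatrixGroups Manifold

noncomputable section

namespace Fermat.Agent.ES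

open Fermat.Agent.S24

variable {M : ℕ} (χ : Gamma0 M →* ℂˣ)

/-- the function `hChi χ` is not the zero function. -/
lemma hChi_ne_zero_fun [NeZero M] (hχ : ∀ γ : Gamma0 M, ‖((χ γ : ℂˣ) : ℂ)‖ = 1)
    (hpar : ∀ γ : Gamma0 M, IsPar γ → χ γ = 1) : hChi χ ≠ 0 := fun h => by
  obtain ⟨z, hz⟩ := hChi_ne_zero χ hχ hpar
  exact hz (congrFun h z)

/-- **The multiplier at a fixed point**: `χ γ = ν ^ ord_τ₀ (hChi χ)`, `ν = 1 / denom γ τ₀ ^ 2`. -/
theorem hChi_mult_at_fixed [NeZero M] (hχ : ∀ γ : Gamma0 M, ‖((χ γ : ℂˣ) : ℂ)‖ = 1)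
    (hpar : ∀ γ : Gamma0 M, IsPar γ → χ γ = 1) (γ : Gamma0 M) {τ₀ : ℍ}
    (hfix : (γ : SL(2, ℤ)) • τ₀ = τ₀) :
    ((χ γ : ℂˣ) : ℂ) = (1 / denom (γ : SL(2, ℤ)) τ₀ ^ 2) ^ (ordAt τ₀ (hChi χ)).toNat := by
  have h := (hChi_isMultiplier χ hpar γ).mul_pow_eq_of_fixed (hChi_mdiff χ hχ)
    mdifferentiable_const (hChi_ne_zero_fun χ hχ hpar)
    (fun h => one_ne_zero (congrFun h UpperHalfPlane.I)) hfix
  rw [ordAt_const one_ne_zero] at h
  simpa using h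

/-- If `χ γ = 1` and the derivative of `γ` at its fixed point `τ₀` is a primitive `e`-th root of
unity, then `e ∣ ord_τ₀ (hChi χ)`. -/
theorem hChi_dvd_ordAt_of_fixed [NeZero M] (hχ : ∀ γ : Gamma0 M, ‖((χ γ : ℂˣ) : ℂ)‖ = 1)
    (hpar : ∀ γ : Gamma0 M, IsPar γ → χ γ = 1) (γ : Gamma0 M) {τ₀ : ℍ}
    (hfix : (γ : SL(2, ℤ)) • τ₀ = τ₀) {e : ℕ}
    (hprim : IsPrimitiveRoot (1 / denom (γ : SL(2, ℤ)) τ₀ ^ 2 : ℂ) e) (h1 : χ γ = 1) :
    e ∣ (ordAt τ₀ (hChi χ)).toNat := by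
  have h := hChi_mult_at_fixed χ hχ hpar γ hfix
  rw [h1] at h
  exact (hprim.pow_eq_one_iff_dvd _).1 (by simpa using h.symm)

/-- the order of a power. -/
theorem ordAt_hChi_pow (hχ : ∀ γ : Gamma0 M, ‖((χ γ : ℂˣ) : ℂ)‖ = 1) (n : ℕ) (τ₀ : ℍ) :
    ordAt τ₀ (fun z => hChi χ z ^ n) = n • ordAt τ₀ (hChi χ) := by
  have h : (fun z => hChi χ z ^ n) ∘ ofComplex = (hChi χ ∘ ofComplex) ^ n := by
    funext z; rfl
  rw [ordAt, h, analyticOrderAt_pow (ordAt_analyticAt (hChi_mdiff χ hχ) τ₀)]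
  rfl

/-- **`p`-divisibility at an elliptic point, in the local parameter.**  If `χ γ = 1` and the
derivative of `γ` at its fixed point `τ₀` is a primitive `e`-th root of unity, then
`p * e ∣ ord_τ₀ (hChi χ ^ p)`. -/
theorem hChi_pow_ordAt_dvd [NeZero M] (hχ : ∀ γ : Gamma0 M, ‖((χ γ : ℂˣ) : ℂ)‖ = 1)
    (hpar : ∀ γ : Gamma0 M, IsPar γ → χ γ = 1) (γ : Gamma0 M) {τ₀ : ℍ}
    (hfix : (γ : SL(2, ℤ)) • τ₀ = τ₀) {e : ℕ}
    (hprim : IsPrimitiveRoot (1 / denom (γ : SL(2, ℤ)) τ₀ ^ 2 : ℂ) e) (h1 : χ γ = 1) (p : ℕ) :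
    p * e ∣ (ordAt τ₀ (fun z => hChi χ z ^ p)).toNat := by
  rw [ordAt_hChi_pow χ hχ]
  have hne : ordAt τ₀ (hChi χ) ≠ ⊤ :=
    ordAt_ne_top (hChi_mdiff χ hχ) (hChi_ne_zero_fun χ hχ hpar) τ₀
  obtain ⟨m, hm⟩ := ENat.ne_top_iff_exists.1 hne
  rw [← hm]
  have h2 := hChi_dvd_ordAt_of_fixed χ hχ hpar γ hfix hprim h1
  rw [← hm] at h2
  have h3 : (p • (m : ℕ∞)).toNat = p * m := by
    rw [nsmul_eq_mul]
    have : ((p : ℕ∞) * (m : ℕ∞)) = ((p * m : ℕ) : ℕ∞) := by push_cast; rfl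
    rw [this, ENat.toNat_natCast]
  rw [h3]
  rw [ENat.toNat_natCast] at h2
  exact Nat.mul_dvd_mul_left p h2

/-- At a point whose stabiliser acts trivially on the character (`χ γ = 1`), with NO
assumption on `γ`: the order of `hChi χ ^ p` is divisible by `p`. -/
theorem hChi_pow_ordAt_dvd_self (hχ : ∀ γ : Gamma0 M, ‖((χ γ : ℂˣ) : ℂ)‖ = 1) (p : ℕ) (τ₀ : ℍ)
    (hne : ordAt τ₀ (hChi χ) ≠ ⊤) :
    p ∣ (ordAt τ₀ (fun z => hChi χ z ^ p)).toNat := by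
  rw [ordAt_hChi_pow χ hχ]
  obtain ⟨m, hm⟩ := ENat.ne_top_iff_exists.1 hne
  rw [← hm]
  have h3 : (p • (m : ℕ∞)).toNat = p * m := by
    rw [nsmul_eq_mul]
    have : ((p : ℕ∞) * (m : ℕ∞)) = ((p * m : ℕ) : ℕ∞) := by push_cast; rfl
    rw [this, ENat.toNat_natCast]
  rw [h3]
  exact dvd_mul_right p m

end Fermat.Agent.ES

end
end ZBES_017_4

/-! ### bundled: `Fermat.Agent.ES.EisCharCusp` -/
section ZBES_017_5
/-
ESpkg-G1, piece A3 (helper83): `hChi χ` at the cusps, in the language of S24's `cuspFn`.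

For `δ ∈ SL(2,ℤ)` and `h > 0` with `δ T^h δ⁻¹ ∈ Γ₀(M)` (e.g. `h` = the width of the cusp `δ∞`),
`W := hChi χ ∘ δ` is `h`-periodic, its cusp function `cuspFn h W` (a function of
`q_h = exp(2πi z / h)`) is meromorphic at `0` of finite order, and the order of
`cuspFn h (W ^ p)` is `p` times the order of `cuspFn h W`: the `p`-divisibility of the order of
`u_χ = hChi χ ^ p` at the cusp `δ∞` in the local parameter `q_h`.
-/

set_option autoImplicit false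

open EisensteinSeries UpperHalfPlane ModularForm CongruenceSubgroup Matrix Filter Topology
open scoped MatrixGroups Manifold

noncomputable section

namespace Fermat.Agent.ES

open Fermat.Agent.S24

variable {M : ℕ} (χ : Gamma0 M →* ℂˣ)

local notation "Δ" => ModularForm.discriminant

/-- A holomorphic, `N`-periodic function on `ℍ` that is bounded at `i∞` has a cusp function
which agrees near `0` with a function analytic at `0`. -/
theorem eis_exists_analyticAt_cuspFn {N : ℕ} (hN : 0 < N) {f : ℍ → ℂ} (hf : MDiff f)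
    (hper : IsPer N f) (hb : IsBoundedAtImInfty f) :
    ∃ g : ℂ → ℂ, AnalyticAt ℂ g 0 ∧ ∀ᶠ q in 𝓝[≠] (0 : ℂ), cuspFn N f q = g q := by
  have hN' : (0 : ℝ) < N := by exact_mod_cast hN
  have han : AnalyticAt ℂ (UpperHalfPlane.cuspFunction (N : ℝ) f) 0 :=
    UpperHalfPlane.analyticAt_cuspFunction_zero hN' hper.periodic_comp_ofComplex hf hb
  refine ⟨_, han, ?_⟩
  filter_upwards [eventually_punctured_disc] with q hq
  rw [UpperHalfPlane.cuspFunction, Function.Periodic.cuspFunction_eq_of_nonzero _ _ hq.1]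
  rfl

theorem eis_meromorphicAt_cuspFn {N : ℕ} (hN : 0 < N) {f : ℍ → ℂ} (hf : MDiff f)
    (hper : IsPer N f) (hb : IsBoundedAtImInfty f) : MeromorphicAt (cuspFn N f) 0 := by
  obtain ⟨g, hg, h⟩ := eis_exists_analyticAt_cuspFn hN hf hper hb
  exact hg.meromorphicAt.congr (h.mono fun q hq => hq.symm)

theorem eis_meromorphicOrderAt_cuspFn_ne_top {N : ℕ} (hN : 0 < N) {f : ℍ → ℂ} (hf : MDiff f)
    (hper : IsPer N f) (hf0 : f ≠ 0) : meromorphicOrderAt (cuspFn N f) 0 ≠ ⊤ := by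
  intro h
  rw [meromorphicOrderAt_eq_top_iff] at h
  exact hf0 (eq_zero_of_cuspFn_eventually_zero hN hf hper h)

/-- `Δ` is periodic under every integer translation. -/
lemma eis_discriminant_vadd (n : ℤ) (z : ℍ) : Δ ((n : ℝ) +ᵥ z) = Δ z := by
  have h := eis_discriminant_smul (ModularGroup.T ^ n) z
  rw [modular_T_zpow_smul] at h
  rw [h]
  have hd : denom (ModularGroup.T ^ n : SL(2, ℤ)) z = 1 := by
    rw [ModularGroup.denom_apply, ModularGroup.coe_T_zpow]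
    simp
  rw [hd, one_pow, one_mul]

lemma eis_isPer_discriminant (N : ℕ) : IsPer N (fun z => Δ z) := by
  intro z
  have := eis_discriminant_vadd (N : ℤ) z
  simpa using this

lemma eis_discriminant_ne_zero_fun : (fun z : ℍ => Δ z) ≠ 0 :=
  fun h => discriminant_ne_zero UpperHalfPlane.I (congrFun h UpperHalfPlane.I)

lemma eis_isBoundedAtImInfty_discriminant : IsBoundedAtImInfty (fun z : ℍ => Δ z) :=
  (discriminant_isZeroAtImInfty : Tendsto (fun τ : ℍ => Δ τ) atImInfty (𝓝 0)).isBigO_one ℝ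

variable [NeZero M]

/-- the numerator `z ↦ hChi χ (δ • z) · Δ z` at the cusp `δ∞`. -/
def hChiNum (δ : SL(2, ℤ)) (z : ℍ) : ℂ := hChi χ (δ • z) * Δ z

lemma hChiNum_mdiff (hχ : ∀ γ : Gamma0 M, ‖((χ γ : ℂˣ) : ℂ)‖ = 1)
    (hpar : ∀ γ : Gamma0 M, IsPar γ → χ γ = 1) (δ : SL(2, ℤ)) : MDiff (hChiNum χ δ) :=
  (hChi_cusp χ hχ hpar δ).1

lemma hChiNum_bounded (hχ : ∀ γ : Gamma0 M, ‖((χ γ : ℂˣ) : ℂ)‖ = 1)
    (hpar : ∀ γ : Gamma0 M, IsPar γ → χ γ = 1) (δ : SL(2, ℤ)) :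
    IsBoundedAtImInfty (hChiNum χ δ) :=
  (hChi_cusp χ hχ hpar δ).2.1

lemma hChiNum_isPer (hχ : ∀ γ : Gamma0 M, ‖((χ γ : ℂˣ) : ℂ)‖ = 1)
    (hpar : ∀ γ : Gamma0 M, IsPar γ → χ γ = 1) (δ : SL(2, ℤ)) {h : ℕ}
    (hh : δ * ModularGroup.T ^ (h : ℤ) * δ⁻¹ ∈ Gamma0 M) : IsPer h (hChiNum χ δ) := by
  intro z
  have := (hChi_cusp χ hχ hpar δ).2.2 (h : ℤ) hh z
  simpa [hChiNum] using this

lemma hChiNum_ne_zero (hχ : ∀ γ : Gamma0 M, ‖((χ γ : ℂˣ) : ℂ)‖ = 1)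
    (hpar : ∀ γ : Gamma0 M, IsPar γ → χ γ = 1) (δ : SL(2, ℤ)) : hChiNum χ δ ≠ 0 := by
  intro h
  obtain ⟨z, hz⟩ := hChi_ne_zero χ hχ hpar
  have h1 := congrFun h (δ⁻¹ • z)
  simp only [hChiNum, Pi.zero_apply, smul_inv_smul] at h1
  rcases mul_eq_zero.1 h1 with h2 | h2
  · exact hz h2
  · exact discriminant_ne_zero _ h2

/-- `hChi χ ∘ δ` is `h`-periodic when `δ T^h δ⁻¹ ∈ Γ₀(M)`. -/
theorem hChi_comp_isPer (hχ : ∀ γ : Gamma0 M, ‖((χ γ : ℂˣ) : ℂ)‖ = 1)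
    (hpar : ∀ γ : Gamma0 M, IsPar γ → χ γ = 1) (δ : SL(2, ℤ)) {h : ℕ}
    (hh : δ * ModularGroup.T ^ (h : ℤ) * δ⁻¹ ∈ Gamma0 M) :
    IsPer h (fun z => hChi χ (δ • z)) := by
  intro z
  have h1 := hChiNum_isPer χ hχ hpar δ hh z
  have h2 := eis_isPer_discriminant h z
  simp only [hChiNum] at h1
  simp only at h2
  rw [h2] at h1
  exact mul_right_cancel₀ (discriminant_ne_zero z) h1

omit [NeZero M] in
/-- pointwise: `cuspFn h (hChi χ ∘ δ) = cuspFn h (hChiNum χ δ) / cuspFn h Δ`. -/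
lemma cuspFn_hChi_comp (δ : SL(2, ℤ)) (h : ℕ) (q : ℂ) :
    cuspFn h (fun z => hChi χ (δ • z)) q
      = cuspFn h (hChiNum χ δ) q / cuspFn h (fun z => Δ z) q := by
  simp only [cuspFn_apply, hChiNum]
  rw [mul_div_assoc, div_self (discriminant_ne_zero _), mul_one]

/-- **Meromorphy at the cusp `δ∞`** (in `q_h`). -/
theorem hChi_comp_meromorphicAt (hχ : ∀ γ : Gamma0 M, ‖((χ γ : ℂˣ) : ℂ)‖ = 1)
    (hpar : ∀ γ : Gamma0 M, IsPar γ → χ γ = 1) (δ : SL(2, ℤ)) {h : ℕ} (hpos : 0 < h)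
    (hh : δ * ModularGroup.T ^ (h : ℤ) * δ⁻¹ ∈ Gamma0 M) :
    MeromorphicAt (cuspFn h (fun z => hChi χ (δ • z))) 0 := by
  have h1 : MeromorphicAt (cuspFn h (hChiNum χ δ)) 0 :=
    eis_meromorphicAt_cuspFn hpos (hChiNum_mdiff χ hχ hpar δ) (hChiNum_isPer χ hχ hpar δ hh)
      (hChiNum_bounded χ hχ hpar δ)
  have h2 : MeromorphicAt (cuspFn h (fun z => Δ z)) 0 :=
    eis_meromorphicAt_cuspFn hpos eis_discriminant_mdiff (eis_isPer_discriminant h)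
      eis_isBoundedAtImInfty_discriminant
  have h3 : cuspFn h (fun z => hChi χ (δ • z))
      = cuspFn h (hChiNum χ δ) / cuspFn h (fun z => Δ z) := by
    funext q
    exact cuspFn_hChi_comp χ δ h q
  rw [h3]
  exact h1.div h2

/-- the order at the cusp is finite. -/
theorem hChi_comp_order_ne_top (hχ : ∀ γ : Gamma0 M, ‖((χ γ : ℂˣ) : ℂ)‖ = 1)
    (hpar : ∀ γ : Gamma0 M, IsPar γ → χ γ = 1) (δ : SL(2, ℤ)) {h : ℕ} (hpos : 0 < h)
    (hh : δ * ModularGroup.T ^ (h : ℤ) * δ⁻¹ ∈ Gamma0 M) :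
    meromorphicOrderAt (cuspFn h (fun z => hChi χ (δ • z))) 0 ≠ ⊤ := by
  have h1 : MeromorphicAt (cuspFn h (hChiNum χ δ)) 0 :=
    eis_meromorphicAt_cuspFn hpos (hChiNum_mdiff χ hχ hpar δ) (hChiNum_isPer χ hχ hpar δ hh)
      (hChiNum_bounded χ hχ hpar δ)
  have h2 : MeromorphicAt (cuspFn h (fun z => Δ z)) 0 :=
    eis_meromorphicAt_cuspFn hpos eis_discriminant_mdiff (eis_isPer_discriminant h)
      eis_isBoundedAtImInfty_discriminant
  have h3 : cuspFn h (fun z => hChi χ (δ • z))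
      = cuspFn h (hChiNum χ δ) / cuspFn h (fun z => Δ z) := by
    funext q
    exact cuspFn_hChi_comp χ δ h q
  have e1 := eis_meromorphicOrderAt_cuspFn_ne_top hpos (hChiNum_mdiff χ hχ hpar δ)
    (hChiNum_isPer χ hχ hpar δ hh) (hChiNum_ne_zero χ hχ hpar δ)
  have e2 := eis_meromorphicOrderAt_cuspFn_ne_top hpos eis_discriminant_mdiff
    (eis_isPer_discriminant h) eis_discriminant_ne_zero_fun
  rw [h3, meromorphicOrderAt_div h1 h2]
  obtain ⟨a, ha⟩ := WithTop.ne_top_iff_exists.1 e1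
  obtain ⟨b, hb⟩ := WithTop.ne_top_iff_exists.1 e2
  rw [← ha, ← hb]
  exact WithTop.coe_ne_top (a := a - b)

/-- **`p`-divisibility at the cusp `δ∞`**, in the local parameter `q_h`:
`ord_{q_h} ((hChi χ) ^ p ∘ δ) = p · ord_{q_h} (hChi χ ∘ δ)`. -/
theorem hChi_pow_comp_order (hχ : ∀ γ : Gamma0 M, ‖((χ γ : ℂˣ) : ℂ)‖ = 1)
    (hpar : ∀ γ : Gamma0 M, IsPar γ → χ γ = 1) (δ : SL(2, ℤ)) {h : ℕ} (hpos : 0 < h)
    (hh : δ * ModularGroup.T ^ (h : ℤ) * δ⁻¹ ∈ Gamma0 M) (p : ℕ) :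
    meromorphicOrderAt (cuspFn h (fun z => hChi χ (δ • z) ^ p)) 0
      = (p : WithTop ℤ) * meromorphicOrderAt (cuspFn h (fun z => hChi χ (δ • z))) 0 := by
  have h3 : cuspFn h (fun z => hChi χ (δ • z) ^ p)
      = (cuspFn h (fun z => hChi χ (δ • z))) ^ p := by
    funext q
    rfl
  rw [h3, meromorphicOrderAt_pow (hChi_comp_meromorphicAt χ hχ hpar δ hpos hh)]

/-- existence form: the order of `u_χ ∘ δ` in `q_h` is `p * n` for an integer `n`. -/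
theorem hChi_pow_comp_order_eq (hχ : ∀ γ : Gamma0 M, ‖((χ γ : ℂˣ) : ℂ)‖ = 1)
    (hpar : ∀ γ : Gamma0 M, IsPar γ → χ γ = 1) (δ : SL(2, ℤ)) {h : ℕ} (hpos : 0 < h)
    (hh : δ * ModularGroup.T ^ (h : ℤ) * δ⁻¹ ∈ Gamma0 M) (p : ℕ) :
    ∃ n : ℤ, meromorphicOrderAt (cuspFn h (fun z => hChi χ (δ • z) ^ p)) 0
      = (((p : ℤ) * n : ℤ) : WithTop ℤ) := by
  obtain ⟨n, hn⟩ := WithTop.ne_top_iff_exists.1 (hChi_comp_order_ne_top χ hχ hpar δ hpos hh)
  refine ⟨n, ?_⟩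
  rw [hChi_pow_comp_order χ hχ hpar δ hpos hh, ← hn]
  push_cast
  rfl

end Fermat.Agent.ES

end
end ZBES_017_5

/-! ### bundled: `Fermat.Agent.ES.EisCharModFun` -/
section ZBES_017_6
/-
ESpkg-G1, piece A3 (helper83): `u_χ = (E₁₂^χ / Δ)^p` is a modular function for `Γ₀(M)`
(in the sense `IsModFun` of S28/NormPoly).
-/

set_option autoImplicit false

open UpperHalfPlane ModularForm CongruenceSubgroup Matrix Filter Topology
open scoped MatrixGroups Manifold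

noncomputable section

namespace Fermat.Agent.ES

variable {M : ℕ} (χ : Gamma0 M →* ℂˣ)

local notation "Δ" => ModularForm.discriminant

/-- `u_χ = hChi χ ^ n` is a modular function for `Γ₀(M)` when `χ ^ n = 1`. -/
theorem isModFun_hChi_pow [NeZero M] (hχ : ∀ γ : Gamma0 M, ‖((χ γ : ℂˣ) : ℂ)‖ = 1)
    (hpar : ∀ γ : Gamma0 M, IsPar γ → χ γ = 1) (n : ℕ) (hn : ∀ γ : Gamma0 M, χ γ ^ n = 1) :
    Fermat.Agent.S28.IsModFun M (fun z => hChi χ z ^ n) := by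
  refine ⟨n, ModularForm.mcast (by ring) (eisCharPow χ hχ hpar (k := 12) (by norm_num) n hn), ?_⟩
  funext z
  show eisChar χ 12 z ^ n = hChi χ z ^ n * Δ z ^ n
  rw [hChi_apply, div_pow, div_mul_cancel₀ _ (pow_ne_zero _ (discriminant_ne_zero z))]

end Fermat.Agent.ES

end
end ZBES_017_6
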