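/- GENERATED FILE (helper35, build-time optimisation, NOTES/ZB.md): verbatim concatenation of the modules
   Fermat.Agent.ES.KummerBridge
   Fermat.Agent.ES.HeckeKummer
   Fermat.Agent.ES.Mu
   Fermat.Agent.ES.MuUnique
   Fermat.Agent.ES.MuHecke
   Fermat.Agent.ES.KummerMu
   Do not edit; do not import together with these modules. -/
import Mathlib
import Fermat.Prelude.Def_AlgebraicCurve_BaseChangeGalois
import Fermat.Agent.ZB.ES_017
import Fermat.Agent.ZB.ES_005
import Fermat.Agent.ZB.ES_009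
import Fermat.Agent.ZB.S24_006
import Fermat.Agent.ZB.S28_002
import Fermat.Agent.ZB.S24_003
import Fermat.Agent.ZB.S24_018
import Fermat.Agent.ZB.S24_012
import Fermat.Agent.ZB.ES_001

/-! ### bundled: `Fermat.Agent.ES.KummerBridge` -/
section ZBES_007_0

/-!
# ESpkg-G1 piece KB: the Kummer bridge `J[n] ↔ functions with divisor in n·Div` (helper39)

Generic function field `F / K` (prelude `Place`, `Divisor`, `Pic0`), namespace `Fermat.Agent.ES`.
`ES/Mu.lean` uses this `KummerRel n x u` with `K = ℚ̄`, `F = modularFunctionFieldBar M`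
(`x : JZero M`); the Galois form for `GQ` is `KummerRel.galois` in `ES/KummerMu.lean`.

`KummerRel n x u` : the class `x ∈ Pic⁰` is represented by a degree-zero divisor `D` with
`n · D = div u`.

* `exists_kummerRel`       (1) `n • x = 0 ⇒ ∃ u, KummerRel n x u`;
* `KummerRel.nsmul_eq_zero`    `KummerRel n x u ⇒ n • x = 0`;
* `KummerRel.zero/add/neg/sub/pow_left` (2) additivity, compatibility with `n ∣ m`;
* `KummerRel.exists_eq_mul_pow` (3) two Kummer functions of `x` differ by `c · kⁿ`, `c` a "constant";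
* `KummerRel.eq_zero_of_pow` (4) `KummerRel n x (c · kⁿ) ⇒ x = 0`;
* `exists_kummerRel_of_dvd` (5) converse, from `HasPrincipalDivisors`;
* `KummerRel.smul`          (6) semilinear automorphisms (Galois);
* `KummerRel.unique`        (7) `x` is determined by `u` (divisors are torsion free).
-/

set_option autoImplicit false

namespace Fermat.Agent.ES

open AlgebraicCurve

variable {K F : Type*} [Field K] [Field F] [Algebra K F]

/-- `u` is a Kummer function of the class `x`: `x = [D]`, `n · D = div u`. -/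
def KummerRel (n : ℕ) (x : Pic0 K F) (u : F) : Prop :=
  ∃ D : Divisor.degZero (K := K) (F := F), Pic0.mk D = x ∧ u ≠ 0 ∧
    ∀ v : Place K F, (n : ℤ) * (D : Divisor K F) v = v.ord u

namespace KummerRel

variable {n : ℕ} {x y : Pic0 K F} {u u' : F}

theorem ne_zero (h : KummerRel n x u) : u ≠ 0 := by
  obtain ⟨_, _, hu, _⟩ := h
  exact hu

/-- a principal degree-zero divisor has class zero -/
theorem _root_.Fermat.Agent.ES.pic0_mk_eq_zero_iff (D : Divisor.degZero (K := K) (F := F)) :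
    Pic0.mk D = 0 ↔ ∃ f : F, f ≠ 0 ∧ ∀ v : Place K F, (D : Divisor K F) v = v.ord f := by
  rw [Pic0.mk, QuotientAddGroup.eq_zero_iff, AddSubgroup.mem_addSubgroupOf]
  rfl

theorem nsmul_eq_zero (h : KummerRel n x u) : n • x = 0 := by
  obtain ⟨D, rfl, hu, hD⟩ := h
  have h1 : n • Pic0.mk D = Pic0.mk (n • D) := rfl
  rw [h1, pic0_mk_eq_zero_iff]
  refine ⟨u, hu, fun v => ?_⟩
  rw [← hD v]
  simp

theorem zero : KummerRel n (0 : Pic0 K F) 1 :=
  ⟨0, rfl, one_ne_zero, fun v => by simp⟩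

theorem add (h : KummerRel n x u) (h' : KummerRel n y u') : KummerRel n (x + y) (u * u') := by
  obtain ⟨D, rfl, hu, hD⟩ := h
  obtain ⟨D', rfl, hu', hD'⟩ := h'
  refine ⟨D + D', rfl, mul_ne_zero hu hu', fun v => ?_⟩
  rw [v.ord_mul hu hu', ← hD v, ← hD' v]
  simp [mul_add]

theorem neg (h : KummerRel n x u) : KummerRel n (-x) u⁻¹ := by
  obtain ⟨D, rfl, hu, hD⟩ := h
  refine ⟨-D, rfl, inv_ne_zero hu, fun v => ?_⟩
  rw [v.ord_inv, ← hD v]
  simp

theorem sub (h : KummerRel n x u) (h' : KummerRel n y u') : KummerRel n (x - y) (u / u') := by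
  rw [sub_eq_add_neg, div_eq_mul_inv]
  exact h.add h'.neg

/-- compatibility with `n ∣ m` -/
theorem pow_left (h : KummerRel n x u) (m : ℕ) : KummerRel (m * n) x (u ^ m) := by
  obtain ⟨D, rfl, hu, hD⟩ := h
  refine ⟨D, rfl, pow_ne_zero m hu, fun v => ?_⟩
  have h1 : v.ord (u ^ m) = (m : ℤ) * v.ord u := by
    have := v.ord_zpow u (m : ℤ)
    rwa [zpow_natCast] at this
  rw [h1, ← hD v]
  push_cast
  ring

/-- multiplying a Kummer function by a function without zeros and poles -/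
theorem const_mul (h : KummerRel n x u) {c : F} (hc0 : c ≠ 0) (hc : ∀ v : Place K F, v.ord c = 0) :
    KummerRel n x (c * u) := by
  obtain ⟨D, rfl, hu, hD⟩ := h
  refine ⟨D, rfl, mul_ne_zero hc0 hu, fun v => ?_⟩
  rw [v.ord_mul hc0 hu, hc v, zero_add, hD v]

/-- (3) two Kummer functions of the same class differ by `c · kⁿ` -/
theorem exists_eq_mul_pow (h : KummerRel n x u) (h' : KummerRel n x u') :
    ∃ k c : F, k ≠ 0 ∧ c ≠ 0 ∧ (∀ v : Place K F, v.ord c = 0) ∧ u' = c * u * k ^ n := by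
  obtain ⟨D, hDx, hu, hD⟩ := h
  obtain ⟨D', hD'x, hu', hD'⟩ := h'
  have h1 : Pic0.mk (D' - D) = 0 := by
    have : Pic0.mk (D' - D) = Pic0.mk D' - Pic0.mk D := rfl
    rw [this, hDx, hD'x, sub_self]
  obtain ⟨k, hk, hkD⟩ := (pic0_mk_eq_zero_iff _).mp h1
  have hkn : ∀ v : Place K F, v.ord (k ^ n) = (n : ℤ) * v.ord k := by
    intro v
    have := v.ord_zpow k (n : ℤ)
    rwa [zpow_natCast] at this
  have hkn0 : k ^ n ≠ 0 := pow_ne_zero n hk
  refine ⟨k, u' / (u * k ^ n), hk, div_ne_zero hu' (mul_ne_zero hu hkn0), fun v => ?_, ?_⟩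
  · rw [div_eq_mul_inv, v.ord_mul hu' (inv_ne_zero (mul_ne_zero hu hkn0)), v.ord_inv,
      v.ord_mul hu hkn0, hkn v, ← hD v, ← hD' v, ← hkD v]
    simp only [AddSubgroup.coe_sub, Finsupp.coe_sub, Pi.sub_apply]
    ring
  · field_simp

/-- (4) a Kummer function of the form `c · kⁿ` belongs to the zero class -/
theorem eq_zero_of_pow (hn : n ≠ 0) {c k : F} (hc : ∀ v : Place K F, v.ord c = 0)
    (h : KummerRel n x (c * k ^ n)) : x = 0 := by
  obtain ⟨D, rfl, hu, hD⟩ := h
  have hc0 : c ≠ 0 := left_ne_zero_of_mul hu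
  have hkn0 : k ^ n ≠ 0 := right_ne_zero_of_mul hu
  have hk : k ≠ 0 := by
    rintro rfl
    exact hkn0 (zero_pow hn)
  rw [pic0_mk_eq_zero_iff]
  refine ⟨k, hk, fun v => ?_⟩
  have h1 := hD v
  have hkn : v.ord (k ^ n) = (n : ℤ) * v.ord k := by
    have := v.ord_zpow k (n : ℤ)
    rwa [zpow_natCast] at this
  rw [v.ord_mul hc0 hkn0, hc v, zero_add, hkn] at h1
  have hn' : (n : ℤ) ≠ 0 := by exact_mod_cast hn
  exact mul_left_cancel₀ hn' h1

/-- (7) the class is determined by the Kummer function -/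
theorem unique (hn : n ≠ 0) (h : KummerRel n x u) (h' : KummerRel n y u) : x = y := by
  obtain ⟨D, rfl, hu, hD⟩ := h
  obtain ⟨D', rfl, -, hD'⟩ := h'
  have : D = D' := by
    apply Subtype.ext
    ext v
    have hn' : (n : ℤ) ≠ 0 := by exact_mod_cast hn
    exact mul_left_cancel₀ hn' ((hD v).trans (hD' v).symm)
  rw [this]

/-- (6) semilinear automorphisms -/
theorem smul (g : SemilinearAut K F) (h : KummerRel n x u) : KummerRel n (g • x) (g • u) := by
  obtain ⟨D, rfl, hu, hD⟩ := h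
  refine ⟨SemilinearAut.degZeroSMulHom g D, (SemilinearAut.pic0_smul_mk g D).symm, ?_, fun w => ?_⟩
  · simpa using hu
  · rw [SemilinearAut.coe_degZeroSMulHom, SemilinearAut.divisor_smul_apply, hD (g⁻¹ • w)]
    have h1 := SemilinearAut.ord_smul g (g⁻¹ • w) u
    rw [smul_inv_smul] at h1
    exact h1.symm

end KummerRel

/-- (1) every `n`-torsion class has a Kummer function -/
theorem exists_kummerRel {n : ℕ} {x : Pic0 K F} (hx : n • x = 0) : ∃ u : F, KummerRel n x u := by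
  obtain ⟨D, rfl⟩ := Pic0.mk_surjective x
  have h1 : n • Pic0.mk D = Pic0.mk (n • D) := rfl
  rw [h1, pic0_mk_eq_zero_iff] at hx
  obtain ⟨f, hf, hfD⟩ := hx
  refine ⟨f, D, rfl, hf, fun v => ?_⟩
  rw [← hfD v]
  simp

/-- (5) converse: a function all of whose orders are divisible by `n` is a Kummer function -/
theorem exists_kummerRel_of_dvd [HasPrincipalDivisors K F] {n : ℕ} (hn : n ≠ 0) {u : F}
    (hu : u ≠ 0) (hdvd : ∀ v : Place K F, (n : ℤ) ∣ v.ord u) :
    ∃ x : Pic0 K F, n • x = 0 ∧ KummerRel n x u := by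
  obtain ⟨Du, hDu, hdeg⟩ := HasPrincipalDivisors.exists_divisor (K := K) u hu
  have hn' : (n : ℤ) ≠ 0 := by exact_mod_cast hn
  -- divide the divisor by `n`
  let D : Divisor K F := Finsupp.mapRange (fun a : ℤ => a / (n : ℤ)) (by simp) Du
  have hD : ∀ v : Place K F, (n : ℤ) * D v = v.ord u := by
    intro v
    show (n : ℤ) * (Du v / (n : ℤ)) = v.ord u
    rw [hDu v]
    exact Int.mul_ediv_cancel' (hdvd v)
  have hnD : (n : ℤ) • D = Du := by
    ext v
    rw [Finsupp.smul_apply, smul_eq_mul, hD v, hDu v]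
  have hdegD : Divisor.degree D = 0 := by
    have h1 : (n : ℤ) • Divisor.degree D = 0 := by rw [← map_zsmul, hnD, hdeg]
    rw [smul_eq_mul] at h1
    rcases mul_eq_zero.mp h1 with h2 | h2
    · exact absurd h2 hn'
    · exact h2
  have hrel : KummerRel n (Pic0.mk ⟨D, hdegD⟩) u := ⟨⟨D, hdegD⟩, rfl, hu, hD⟩
  exact ⟨_, hrel.nsmul_eq_zero, hrel⟩

end Fermat.Agent.ES


end ZBES_007_0

/-! ### bundled: `Fermat.Agent.ES.HeckeKummer` -/
section ZBES_007_1

/-!
# ESpkg-G1, piece HKa: the Kummer function of `T_ℓ x` is the norm of `β u` (helper92)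

If `x = [D] ∈ J₀(N)`, `n · D = div u` (`u` is a Kummer function of `x`), then
`T_ℓ x = [D']` with `n · D' = div (N_α (β u))`, where `β u = u(q^ℓ) ∈ F_{Nℓ}` and `N_α` is the
norm of `F_{Nℓ}` over `F_N` (along the inclusion `α`).

Pure algebra on top of piece (H) (`heckeOperatorAlong_eq_heckePic0Bar`): pull-back of a principal
divisor along `β`, push-forward (norm formula) along `α`
(`G2.FrobAux.correspondence_apply_of_ord`).

* `KummerRel.correspondence` : generic form, for a correspondence `ψ_* φ^*` on `Pic⁰`;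
* `heckeNormFun N ℓ u = N_α (β u)`, `heckeNormFun_coe` (its `q`-expansion is `kronHecke ℓ ζ u`,
  from `G2.StmtHeckeNorm`);
* `KummerRel.hecke` : `KummerRel n x u → KummerRel n (T_ℓ x) (heckeNormFun N ℓ u)`.
-/

set_option autoImplicit false
set_option linter.style.haveILetI false

noncomputable section

open AlgebraicCurve ModularCurve IntermediateField

namespace Fermat.Agent.ES

open Fermat.Agent.ES.G2 Fermat.Agent.ES.G2.FrobAux

section Generic

variable {K F F' : Type*} [Field K] [Field F] [Field F'] [Algebra K F] [Algebra K F']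
variable [HasPrincipalDivisors K F']

/-- **HKa, generic form.**  If `u` is a Kummer function of `x` then `N_ψ (φ u)` is a Kummer
function of `ψ_* φ^* x`. -/
theorem KummerRel.correspondence (φ ψ : F →ₐ[K] F') (hφ : φ.toRingHom.IsIntegral)
    (hψ : ψ.toRingHom.IsIntegral) (hFI : FundamentalIdentityAlong K φ hφ)
    (hfin : FiniteAlong K ψ) (hN : NormFormulaAlong K ψ hfin)
    {n : ℕ} {x : Pic0 K F} {u : F} (h : KummerRel n x u) :
    KummerRel n (Pic0.correspondence φ ψ hφ hψ hFI hfin hN x) (frobNorm φ ψ u) := by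
  obtain ⟨D, rfl, hu, hD⟩ := h
  refine ⟨Pic0.degZeroCorrespondence φ ψ hφ hψ hFI D, (Pic0.correspondence_mk ..).symm,
    frobNorm_ne_zero φ ψ hfin hu, fun v => ?_⟩
  have hnD : ∀ w : Place K F, ((n : ℤ) • (D : Divisor K F)) w = w.ord u := by
    intro w
    rw [Finsupp.smul_apply, smul_eq_mul]
    exact hD w
  have h1 := correspondence_apply_of_ord φ ψ hφ hψ hfin hN hu hnD v
  rw [map_zsmul, Finsupp.smul_apply, smul_eq_mul] at h1
  rw [Pic0.coe_degZeroCorrespondence]
  exact h1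

end Generic

section Concrete

variable (N : ℕ) [NeZero N]

/-- the norm of `β u = u(q^ℓ)` from `F_{Nℓ}` down to `F_N` (along the inclusion `α`) -/
def heckeNormFun (ℓ : ℕ) [NeZero ℓ] (u : modularFunctionFieldBar N) : modularFunctionFieldBar N :=
  frobNorm (heckeBetaBar Qb N ℓ) (heckeAlphaBar Qb N ℓ) u

theorem heckeNormFun_mul (ℓ : ℕ) [NeZero ℓ] (u v : modularFunctionFieldBar N) :
    heckeNormFun N ℓ (u * v) = heckeNormFun N ℓ u * heckeNormFun N ℓ v :=
  frobNorm_mul _ _ u v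

theorem heckeNormFun_ne_zero (ℓ : ℕ) [NeZero ℓ] {u : modularFunctionFieldBar N} (hu : u ≠ 0) :
    heckeNormFun N ℓ u ≠ 0 :=
  frobNorm_ne_zero _ _ (Fermat.Agent.ES.H.finiteAlong_heckeAlphaBar N ℓ) hu

/-- the `q`-expansion of `N_α (β u)` is `kronHecke ℓ ζ u` -/
theorem heckeNormFun_coe (hHN : StmtHeckeNorm) (ℓ : ℕ) [NeZero ℓ] (hℓ : ℓ.Prime) (hℓN : ¬ ℓ ∣ N)
    (ζ : Qbˣ) (hζ : IsPrimitiveRoot ζ ℓ) (u : modularFunctionFieldBar N) :
    ((heckeNormFun N ℓ u : modularFunctionFieldBar N) : LaurentSeries Qb)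
      = kronHecke ℓ ζ (u : LaurentSeries Qb) :=
  hHN N ℓ hℓ hℓN ζ hζ u

/-- **HKa.**  If `u` is a Kummer function of `x ∈ J₀(N)` then `N_α (β u)` is a Kummer function of
`T_ℓ x`. -/
theorem KummerRel.hecke (ℓ : Nat.Primes) {n : ℕ} {x : JZero N}
    {u : modularFunctionFieldBar N} (h : KummerRel n x u) :
    haveI : NeZero (ℓ : ℕ) := ⟨ℓ.2.ne_zero⟩
    KummerRel n (heckeOperatorBar N ℓ x) (heckeNormFun N (ℓ : ℕ) u) := by
  haveI : NeZero (ℓ : ℕ) := ⟨ℓ.2.ne_zero⟩
  haveI := Fermat.Agent.ES.H.hasPrincipalDivisors_FF (N * (ℓ : ℕ))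
  have h1 := frob_heckeOperatorBar_eq N (ℓ : ℕ) ℓ.2 x
  have h2 : heckeOperatorBar N ℓ x = heckeOperatorBar N ⟨(ℓ : ℕ), ℓ.2⟩ x := rfl
  rw [h2, h1]
  exact KummerRel.correspondence _ _ _ _ _ _ _ h

end Concrete

end Fermat.Agent.ES

end
end ZBES_007_1

/-! ### bundled: `Fermat.Agent.ES.Mu` -/
section ZBES_007_2

/-!
# ESpkg-G1: the multiplier map `μ`, relational form

`MuRel M n x χ` : the class `x ∈ J₀(M)(ℚ̄)` has a Kummer function `u ∈ K_ℚ̄` (`n D = div u`,
`x = [D]`), `u = a / g` analytically (`a`, `g` holomorphic modular functions of level `Γ₀(M)`),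
and an `n`-th root `w = R.a / R.g` of `a / g` on `ℍ` has multiplier character `χ`.
`KummerRel` is the generic relation of `ES/KummerBridge.lean`.

The pieces of G1 are the six statements `MuExists`, `MuUnique`, `MuAdd`, `MuInj`, `MuHecke`,
`MuSurj` about this relation; `torsionUnif_of_muRel` assembles them into the contract
`TorsionUnif M p` of `ES/Top2.lean`.
-/

set_option autoImplicit false

noncomputable section

namespace Fermat.Agent.ES

open ModularCurve AlgebraicCurve CongruenceSubgroup ModularCurve.Period UpperHalfPlane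
open Fermat.Agent.S24 Fermat.Agent.S28
open scoped MatrixGroups Manifold

variable (M : ℕ) [NeZero M]

/-- `u = a / g` analytically: `a`, `g` are holomorphic modular functions of level `Γ₀(M)` and the
`q`-expansion of `u` (coefficients embedded in `ℂ`) times that of `g` is that of `a`. -/
def IsAnFrac (u : modularFunctionFieldBar M) (a g : ℍ → ℂ) : Prop :=
  IsModFun M a ∧ IsModFun M g ∧ g ≠ 0 ∧
    coeffMap embC (u : LaurentSeries (AlgebraicClosure ℚ)) * laurentOf g = laurentOf a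

/-- `χ` is the multiplier character of an `n`-th root of a Kummer function of `x`. -/
def MuRel (n : ℕ) (x : JZero M) (χ : CharGrp M) : Prop :=
  ∃ (u : modularFunctionFieldBar M) (a g : ℍ → ℂ) (R : RootData (Gamma0 M) n),
    KummerRel n x u ∧ IsAnFrac M u a g ∧
      (∀ τ : ℍ, R.a τ ^ n * g τ = a τ * R.g τ ^ n) ∧ R.multAdd = χ

/-! ## The six pieces -/

/-- (E) every `n`-torsion class has a multiplier.  [KB(1) + BCd + RC-ii `StmtPt` + A1] -/
def MuExists : Prop := ∀ (n : ℕ), 0 < n → ∀ x : JZero M, n • x = 0 → ∃ χ, MuRel M n x χ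

/-- (U) the multiplier does not depend on the choices, nor on the exponent. -/
def MuUnique : Prop :=
  ∀ (n m : ℕ), 0 < n → 0 < m → ∀ (x : JZero M) (χ χ' : CharGrp M),
    MuRel M n x χ → MuRel M m x χ' → χ = χ'

/-- (A) additivity. -/
def MuAdd : Prop :=
  ∀ (n : ℕ), 0 < n → ∀ (x y : JZero M) (χ ψ : CharGrp M),
    MuRel M n x χ → MuRel M n y ψ → MuRel M n (x + y) (χ + ψ)

/-- (I) injectivity.  [A2 kernel lemma + RC-i + DescentInj + KB(4)] -/
def MuInj : Prop := ∀ (n : ℕ), 0 < n → ∀ x : JZero M, MuRel M n x 0 → x = 0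

/-- (H) Hecke-equivariance for the primes `ℓ ∤ M`.  [(H) norm formula + analytic norm + `kap`] -/
def MuHecke : Prop :=
  ∀ (p : ℕ) (ℓ : GoodPrime M p) (n : ℕ), 0 < n → ∀ (x : JZero M) (χ : CharGrp M),
    MuRel M n x χ →
      MuRel M n (heckeOperatorBar M (ℓ : Nat.Primes) x) (heckeOp M p ℓ (Additive ℂˣ) χ)

/-- (S) surjectivity onto the classes of the integral parabolic homs.
[A3 + RC-ii exact + A6 descent + BCu + KB(5)] -/
def MuSurj : Prop :=
  ∀ φ : Additive (Gamma0 M) →+ ℤ, IsParabolicHom (Gamma0 M) φ → ∀ n : ℕ, 0 < n →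
    ∃ x : JZero M, n • x = 0 ∧ MuRel M n x (expChar M n φ)

/-! ## Assembly -/

variable {M}

theorem MuRel.smul_eq_zero {n : ℕ} {x : JZero M} {χ : CharGrp M}
    (h : MuRel M n x χ) : n • x = 0 := by
  obtain ⟨u, a, g, R, hK, -⟩ := h
  exact hK.nsmul_eq_zero

open Classical in
/-- the multiplier map (`0` outside the torsion) -/
def muMap (M : ℕ) [NeZero M] (x : JZero M) : CharGrp M :=
  if h : ∃ (n : ℕ) (χ : CharGrp M), 0 < n ∧ MuRel M n x χ then h.choose_spec.choose else 0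

theorem muMap_eq (hU : MuUnique M) {n : ℕ} (hn : 0 < n) {x : JZero M} {χ : CharGrp M}
    (h : MuRel M n x χ) : muMap M x = χ := by
  classical
  have hex : ∃ (n : ℕ) (χ : CharGrp M), 0 < n ∧ MuRel M n x χ := ⟨n, χ, hn, h⟩
  rw [muMap, dif_pos hex]
  exact hU _ _ hex.choose_spec.choose_spec.1 hn x _ _ hex.choose_spec.choose_spec.2 h

theorem muRel_muMap (hE : MuExists M) (hU : MuUnique M) {n : ℕ} (hn : 0 < n) {x : JZero M}
    (hx : n • x = 0) : MuRel M n x (muMap M x) := by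
  obtain ⟨χ, hχ⟩ := hE n hn x hx
  rw [muMap_eq hU hn hχ]
  exact hχ

/-- **Assembly of the G1 contract** from the six pieces. -/
theorem torsionUnif_of_muRel (p : ℕ) (hp : 0 < p) (hE : MuExists M) (hU : MuUnique M)
    (hA : MuAdd M) (hI : MuInj M) (hH : MuHecke M) (hS : MuSurj M) : TorsionUnif M p := by
  refine ⟨muMap M, ?_, ?_, ?_, ?_⟩
  · rintro x y ⟨a, ha⟩ ⟨b, hb⟩
    have hn : 0 < p ^ (a + b) := pow_pos hp _
    have hx : p ^ (a + b) • x = 0 := by rw [pow_add, mul_comm, mul_smul, ha, smul_zero]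
    have hy : p ^ (a + b) • y = 0 := by rw [pow_add, mul_smul, hb, smul_zero]
    exact muMap_eq hU hn (hA _ hn x y _ _ (muRel_muMap hE hU hn hx) (muRel_muMap hE hU hn hy))
  · rintro x ⟨a, ha⟩ h0
    have hn : 0 < p ^ a := pow_pos hp _
    have := muRel_muMap hE hU hn ha
    rw [h0] at this
    exact hI _ hn x this
  · rintro ℓ x ⟨a, ha⟩
    have hn : 0 < p ^ a := pow_pos hp _
    exact muMap_eq hU hn (hH p ℓ _ hn x _ (muRel_muMap hE hU hn ha))
  · intro φ hφ n
    have hn : 0 < p ^ n := pow_pos hp _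
    obtain ⟨x, hx, hrel⟩ := hS φ hφ (p ^ n) hn
    exact ⟨x, hx, muMap_eq hU hn hrel⟩

end Fermat.Agent.ES

end
end ZBES_007_2

/-! ### bundled: `Fermat.Agent.ES.MuUnique` -/
section ZBES_007_3

/-!
# ESpkg-G1: the pieces `MuAdd` and `MuUnique` of `ES/Mu.lean`

* `muAdd : MuAdd M` — the multiplier relation is additive;
* `muUnique : MuUnique M` — the multiplier does not depend on the Kummer function, on the analytic
  fraction, on the root, nor on the exponent.
-/

set_option autoImplicit false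

noncomputable section

namespace Fermat.Agent.ES

open ModularCurve AlgebraicCurve CongruenceSubgroup UpperHalfPlane IntermediateField
open Fermat.Agent.S24 Fermat.Agent.S28 Fermat.Agent.ES.RC
open scoped MatrixGroups Manifold

variable {M : ℕ} [NeZero M]

/-! ### Constants of `K_ℚ̄` -/

/-- an element of `K_ℚ̄` without zeros and poles is a constant -/
theorem mu_exists_const_of_ord_eq_zero (c : modularFunctionFieldBar M)
    (hc : ∀ v : Place (AlgebraicClosure ℚ) (modularFunctionFieldBar M), v.ord c = 0) :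
    ∃ c₀ : AlgebraicClosure ℚ,
      algebraMap (AlgebraicClosure ℚ) (modularFunctionFieldBar M) c₀ = c := by
  obtain ⟨R⟩ := exists_realization M
  obtain ⟨htr, hfin, hdeg, hsum⟩ := principal_inputs M R
  by_cases halg : IsAlgebraic (AlgebraicClosure ℚ) c
  · have hint : IsIntegral (AlgebraicClosure ℚ) c := halg.isIntegral
    have h1 : (minpoly (AlgebraicClosure ℚ) c).degree = 1 :=
      IsAlgClosed.degree_eq_one_of_irreducible (AlgebraicClosure ℚ) (minpoly.irreducible hint)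
    exact minpoly.mem_range_of_degree_eq_one (AlgebraicClosure ℚ) c h1
  · exfalso
    have hct : Transcendental (AlgebraicClosure ℚ) c := halg
    haveI := hfin
    have hfd := pd_finiteDimensional_adjoin_of_transcendental (Fermat.Agent.S24.jF M) htr c hct
    obtain ⟨V, hV, hs⟩ := hsum c hct hfd
    have hVe : V = ∅ := by
      ext v
      simp [hV v, hc v]
    rw [hVe, Finset.sum_empty] at hs
    haveI := hfd
    have hpos : 0 < Module.finrank (AlgebraicClosure ℚ)⟮c⟯ (modularFunctionFieldBar M) :=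
      Module.finrank_pos
    have h0 : Module.finrank (AlgebraicClosure ℚ)⟮c⟯ (modularFunctionFieldBar M) = 0 := by
      exact_mod_cast hs.symm
    exact hpos.ne' h0

/-! ### Analytic fractions -/

/-- every element of `K_ℚ̄` is analytically a fraction of modular functions -/
theorem exists_isAnFrac (k : modularFunctionFieldBar M) : ∃ a g : ℍ → ℂ, IsAnFrac M k a g := by
  obtain ⟨a, b, ha, hb, hb', h⟩ := rc_exists_frac M (coeffMap_embC_mem M k.2)
  refine ⟨a, b, ha, hb, ?_, h⟩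
  rintro rfl
  exact hb' laurentOf_zero

theorem IsAnFrac.laurentOf_g_ne_zero {u : modularFunctionFieldBar M} {a g : ℍ → ℂ}
    (h : IsAnFrac M u a g) : laurentOf g ≠ 0 := fun h0 =>
  h.2.2.1 ((laurentOf_eq_zero_iff h.2.1.isMerInf).mp h0)

theorem IsAnFrac.a_ne_zero {u : modularFunctionFieldBar M} {a g : ℍ → ℂ}
    (h : IsAnFrac M u a g) (hu : u ≠ 0) : a ≠ 0 := by
  rintro rfl
  have h1 := h.2.2.2
  rw [laurentOf_zero] at h1
  rcases mul_eq_zero.mp h1 with h2 | h2
  · apply hu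
    apply Subtype.ext
    exact (coeffMap embC).injective (h2.trans (map_zero _).symm)
  · exact h.laurentOf_g_ne_zero h2

theorem IsAnFrac.mul {u u' : modularFunctionFieldBar M} {a g a' g' : ℍ → ℂ}
    (h : IsAnFrac M u a g) (h' : IsAnFrac M u' a' g') :
    IsAnFrac M (u * u') (a * a') (g * g') := by
  obtain ⟨ha, hg, hg0, hL⟩ := h
  obtain ⟨ha', hg', hg0', hL'⟩ := h'
  refine ⟨ha.mul ha', hg.mul hg', ?_, ?_⟩
  · exact mdiff_mul_ne_zero (rc_mdiff_of_isModFun hg) (rc_mdiff_of_isModFun hg') hg0 hg0'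
  · rw [laurentOf_mul hg.isMerInf hg'.isMerInf, laurentOf_mul ha.isMerInf ha'.isMerInf, ← hL, ← hL']
    have : ((u * u' : modularFunctionFieldBar M) : LaurentSeries (AlgebraicClosure ℚ)) =
        (u : LaurentSeries (AlgebraicClosure ℚ)) * (u' : LaurentSeries (AlgebraicClosure ℚ)) := rfl
    rw [this, map_mul]
    ring

/-! ### `MuAdd` -/

theorem muAdd : MuAdd M := by
  rintro n hn x y χ ψ ⟨u, a, g, R, hK, hF, hroot, rfl⟩ ⟨u', a', g', R', hK', hF', hroot', rfl⟩
  refine ⟨u * u', a * a', g * g', R.mul R', hK.add hK', hF.mul hF', fun τ => ?_, ?_⟩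
  · have h1 := hroot τ
    have h2 := hroot' τ
    show (R.a τ * R'.a τ) ^ n * (g τ * g' τ) = a τ * a' τ * (R.g τ * R'.g τ) ^ n
    calc (R.a τ * R'.a τ) ^ n * (g τ * g' τ)
        = (R.a τ ^ n * g τ) * (R'.a τ ^ n * g' τ) := by ring
      _ = (a τ * R.g τ ^ n) * (a' τ * R'.g τ ^ n) := by rw [h1, h2]
      _ = a τ * a' τ * (R.g τ * R'.g τ) ^ n := by ring
  · unfold RootData.multAdd
    rw [RootData.mult_mul]
    rfl

/-! ### Root data: change of exponent, invariant factors -/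

section RootData

variable {Γ : Subgroup SL(2, ℤ)} {p : ℕ}

/-- a root datum for the exponent `p` is a root datum for every nonzero multiple of `p` -/
def RootData.castDvd (D : RootData Γ p) (N : ℕ) (hN : N ≠ 0) (h : p ∣ N) : RootData Γ N where
  a := D.a
  g := D.g
  p_ne_zero := hN
  mdiff_a := D.mdiff_a
  mdiff_g := D.mdiff_g
  a_ne_zero := D.a_ne_zero
  g_ne_zero := D.g_ne_zero
  pow_inv γ hγ τ := by
    obtain ⟨q, rfl⟩ := h
    rw [pow_mul, pow_mul, D.pow_inv γ hγ τ]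

theorem RootData.castDvd_mult (D : RootData Γ p) (N : ℕ) (hN : N ≠ 0) (h : p ∣ N) :
    (D.castDvd N hN h).mult = D.mult := by
  ext1 γ
  rw [RootData.mult_eq_iff]
  exact D.multVal_spec γ

/-- the root datum of a `Γ`-invariant fraction `b / c` -/
def RootData.ofInvariant (N : ℕ) (hN : N ≠ 0) (b c : ℍ → ℂ) (hb : MDiff b) (hc : MDiff c)
    (hb0 : b ≠ 0) (hc0 : c ≠ 0)
    (hinv : ∀ γ ∈ Γ, ∀ τ : ℍ, b (γ • τ) * c τ = b τ * c (γ • τ)) : RootData Γ N where
  a := b
  g := c
  p_ne_zero := hN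
  mdiff_a := hb
  mdiff_g := hc
  a_ne_zero := hb0
  g_ne_zero := hc0
  pow_inv γ hγ τ := by rw [hinv γ hγ τ]

theorem RootData.ofInvariant_mult (N : ℕ) (hN : N ≠ 0) (b c : ℍ → ℂ) (hb : MDiff b)
    (hc : MDiff c) (hb0 : b ≠ 0) (hc0 : c ≠ 0)
    (hinv : ∀ γ ∈ Γ, ∀ τ : ℍ, b (γ • τ) * c τ = b τ * c (γ • τ)) :
    (RootData.ofInvariant (Γ := Γ) N hN b c hb hc hb0 hc0 hinv).mult = 1 :=
  (RootData.mult_eq_one_iff_invariant _).mpr hinv

end RootData

theorem mu_mdiff_pow_ne_zero {f : ℍ → ℂ} (hf : MDiff f) (hf0 : f ≠ 0) (n : ℕ) :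
    (fun τ => f τ ^ n) ≠ 0 := by
  induction n with
  | zero =>
    intro h
    have := congrFun h UpperHalfPlane.I
    simp at this
  | succ n ih =>
    have hfn : MDiff (fun τ => f τ ^ n) := hf.pow n
    have h1 := mdiff_mul_ne_zero (F := fun τ => f τ ^ n) (G := f) hfn hf ih hf0
    intro h
    apply h1
    funext τ
    have := congrFun h τ
    simp only [Pi.zero_apply] at this ⊢
    rw [← pow_succ]
    exact this

/-! ### The key identity -/

/-- the analytic form of `u' ^ n = c · u ^ m · k ^ (m n)` -/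
theorem mu_anFrac_rel {u u' k : modularFunctionFieldBar M} (c₀ : AlgebraicClosure ℚ) {n m : ℕ}
    (hrel : u' ^ n =
      algebraMap (AlgebraicClosure ℚ) (modularFunctionFieldBar M) c₀ * u ^ m * k ^ (m * n))
    {a g a' g' ak gk : ℍ → ℂ}
    (h : IsAnFrac M u a g) (h' : IsAnFrac M u' a' g') (hk : IsAnFrac M k ak gk) (τ : ℍ) :
    a' τ ^ n * g τ ^ m * gk τ ^ (m * n) =
      embC c₀ * (a τ ^ m * ak τ ^ (m * n) * g' τ ^ n) := by
  obtain ⟨ha, hg, -, hL⟩ := h
  obtain ⟨ha', hg', -, hL'⟩ := h'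
  obtain ⟨hak, hgk, -, hLk⟩ := hk
  -- elements of `merInf`
  let A : merInf := ⟨a, ha.isMerInf⟩
  let G : merInf := ⟨g, hg.isMerInf⟩
  let A' : merInf := ⟨a', ha'.isMerInf⟩
  let G' : merInf := ⟨g', hg'.isMerInf⟩
  let Ak : merInf := ⟨ak, hak.isMerInf⟩
  let Gk : merInf := ⟨gk, hgk.isMerInf⟩
  have hLA : laurentExp A = coeffMap embC (u : LaurentSeries (AlgebraicClosure ℚ)) * laurentExp G :=
    hL.symm
  have hLA' : laurentExp A' =
      coeffMap embC (u' : LaurentSeries (AlgebraicClosure ℚ)) * laurentExp G' := hL'.symm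
  have hLAk : laurentExp Ak =
      coeffMap embC (k : LaurentSeries (AlgebraicClosure ℚ)) * laurentExp Gk := hLk.symm
  have hrelL : coeffMap embC (u' : LaurentSeries (AlgebraicClosure ℚ)) ^ n =
      algebraMap ℂ (LaurentSeries ℂ) (embC c₀) *
        coeffMap embC (u : LaurentSeries (AlgebraicClosure ℚ)) ^ m *
        coeffMap embC (k : LaurentSeries (AlgebraicClosure ℚ)) ^ (m * n) := by
    let φ : modularFunctionFieldBar M →+* LaurentSeries ℂ :=
      (coeffMap embC).comp (algebraMap (modularFunctionFieldBar M)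
        (LaurentSeries (AlgebraicClosure ℚ)))
    have h1 := congrArg φ hrel
    simp only [map_mul, map_pow] at h1
    have e0 : φ (algebraMap (AlgebraicClosure ℚ) (modularFunctionFieldBar M) c₀) =
        algebraMap ℂ (LaurentSeries ℂ) (embC c₀) := iotaC_coeffMap_algebraMap c₀
    rw [e0] at h1
    exact h1
  have key : A' ^ n * G ^ m * Gk ^ (m * n) =
      algebraMap ℂ merInf (embC c₀) * (A ^ m * Ak ^ (m * n) * G' ^ n) := by
    apply laurentExp_injective
    simp only [map_mul, map_pow, AlgHom.commutes]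
    rw [hLA, hLA', hLAk, mul_pow, hrelL]
    ring
  have h2 := congrArg (fun f : merInf => (f : ℍ → ℂ) τ) key
  simpa [A, G, A', G', Ak, Gk, Algebra.algebraMap_eq_smul_one] using h2

/-- pure algebra: the identity of `mn`-th powers of the two roots, up to the nonzero factor
`g' ^ n * a ^ m` -/
theorem mu_root_identity {n m : ℕ} {x y P Q a g a' g' ak gk c₁ c₂ : ℂ}
    (h1 : P ^ n * g = a * Q ^ n) (h2 : x ^ m * g' = a' * y ^ m)
    (h3 : a' ^ n * g ^ m * gk ^ (m * n) = c₁ * (a ^ m * ak ^ (m * n) * g' ^ n))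
    (hc : c₂ ^ (m * n) = c₁) :
    (x * (Q * gk)) ^ (m * n) * (g' ^ n * a ^ m) =
      (P * (c₂ * ak) * y) ^ (m * n) * (g' ^ n * a ^ m) := by
  have e1 : (x ^ m * g') ^ n = (a' * y ^ m) ^ n := by rw [h2]
  have e2 : (a * Q ^ n) ^ m = (P ^ n * g) ^ m := by rw [h1]
  calc (x * (Q * gk)) ^ (m * n) * (g' ^ n * a ^ m)
      = (x ^ m * g') ^ n * (a * Q ^ n) ^ m * gk ^ (m * n) := by ring
    _ = (a' * y ^ m) ^ n * (P ^ n * g) ^ m * gk ^ (m * n) := by rw [e1, e2]
    _ = (a' ^ n * g ^ m * gk ^ (m * n)) * (y ^ (m * n) * P ^ (m * n)) := by ring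
    _ = c₁ * (a ^ m * ak ^ (m * n) * g' ^ n) * (y ^ (m * n) * P ^ (m * n)) := by rw [h3]
    _ = (P * (c₂ * ak) * y) ^ (m * n) * (g' ^ n * a ^ m) := by rw [← hc]; ring

/-! ### `MuUnique` -/

theorem muUnique : MuUnique M := by
  rintro n m hn hm x χ χ' ⟨u, a, g, R, hK, hF, hroot, rfl⟩ ⟨u', a', g', R', hK', hF', hroot', rfl⟩
  have hN : m * n ≠ 0 := Nat.mul_ne_zero hm.ne' hn.ne'
  -- Kummer functions for the exponent `m * n`
  have hK1 : KummerRel (m * n) x (u ^ m) := hK.pow_left m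
  have hK2 : KummerRel (m * n) x (u' ^ n) := by
    have := hK'.pow_left n
    rwa [Nat.mul_comm] at this
  obtain ⟨k, c, hk0, hc0, hcord, hrel⟩ := hK1.exists_eq_mul_pow hK2
  obtain ⟨c₀, rfl⟩ := mu_exists_const_of_ord_eq_zero c hcord
  obtain ⟨ak, gk, hFk⟩ := exists_isAnFrac k
  have hc₀ : embC c₀ ≠ 0 := by
    intro h
    apply hc0
    rw [(map_eq_zero embC).mp h, map_zero]
  obtain ⟨c₂, hc₂⟩ := IsAlgClosed.exists_pow_nat_eq (embC c₀) (Nat.pos_of_ne_zero hN)
  have hc₂0 : c₂ ≠ 0 := by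
    rintro rfl
    rw [zero_pow hN] at hc₂
    exact hc₀ hc₂.symm
  have ha0 : a ≠ 0 := hF.a_ne_zero hK.ne_zero
  have hak0 : ak ≠ 0 := hFk.a_ne_zero hk0
  -- holomorphy
  have hma := rc_mdiff_of_isModFun hF.1
  have hmg' := rc_mdiff_of_isModFun hF'.2.1
  have hmak := rc_mdiff_of_isModFun hFk.1
  have hmgk := rc_mdiff_of_isModFun hFk.2.1
  -- the invariant factor `c₂ · ak / gk`
  have hmb : MDiff (fun τ => c₂ * ak τ) := mdifferentiable_const.mul hmak
  have hb0 : (fun τ => c₂ * ak τ) ≠ 0 := by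
    intro h
    apply hak0
    funext τ
    have := congrFun h τ
    simp only [Pi.zero_apply] at this ⊢
    exact (mul_eq_zero.mp this).resolve_left hc₂0
  let Dk : RootData (Gamma0 M) (m * n) :=
    RootData.ofInvariant (m * n) hN (fun τ => c₂ * ak τ) gk hmb hmgk hb0 hFk.2.2.1
      (fun γ hγ τ => by
        rw [isModFun_comp_smul hFk.1 hγ τ, isModFun_comp_smul hFk.2.1 hγ τ])
  have hDk : Dk.mult = 1 := RootData.ofInvariant_mult _ _ _ _ _ _ _ _ _
  let D1 : RootData (Gamma0 M) (m * n) := R'.castDvd (m * n) hN (Dvd.intro _ rfl)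
  let D2 : RootData (Gamma0 M) (m * n) := (R.castDvd (m * n) hN (Dvd.intro_left _ rfl)).mul Dk
  have hD1 : D1.mult = R'.mult := RootData.castDvd_mult _ _ _ _
  have hD2 : D2.mult = R.mult := by
    show ((R.castDvd (m * n) hN (Dvd.intro_left _ rfl)).mul Dk).mult = R.mult
    rw [RootData.mult_mul, hDk]
    ext1 γ
    rw [MonoidHom.mul_apply, MonoidHom.one_apply, mul_one, RootData.castDvd_mult]
  have hkey : ∀ τ : ℍ, (D1.a τ * D2.g τ) ^ (m * n) = (D2.a τ * D1.g τ) ^ (m * n) := by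
    have hC : MDiff (fun τ => g' τ ^ n * a τ ^ m) := (hmg'.pow n).mul (hma.pow m)
    have hC0 : (fun τ => g' τ ^ n * a τ ^ m) ≠ 0 :=
      mdiff_mul_ne_zero (F := fun τ => g' τ ^ n) (G := fun τ => a τ ^ m) (hmg'.pow n)
        (hma.pow m) (mu_mdiff_pow_ne_zero hmg' hF'.2.2.1 n) (mu_mdiff_pow_ne_zero hma ha0 m)
    have hFm : MDiff (fun τ => (D1.a τ * D2.g τ) ^ (m * n)) :=
      (D1.mdiff_a.mul D2.mdiff_g).pow (m * n)
    have hGm : MDiff (fun τ => (D2.a τ * D1.g τ) ^ (m * n)) :=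
      (D2.mdiff_a.mul D1.mdiff_g).pow (m * n)
    refine mdiff_mul_right_cancel hFm hGm hC hC0 fun τ => ?_
    exact mu_root_identity (hroot τ) (hroot' τ) (mu_anFrac_rel c₀ hrel hF hF' hFk τ) hc₂
  have hmult : R'.mult = R.mult := by
    rw [← hD1, ← hD2]
    exact RootData.mult_eq_of_pow_eq D1 D2 hkey
  unfold RootData.multAdd
  rw [hmult]

end Fermat.Agent.ES

end
end ZBES_007_3

/-! ### bundled: `Fermat.Agent.ES.MuHecke` -/
section ZBES_007_4

/-!
# ESpkg-G1, piece (H) of the multiplier map: `MuHecke M` (helper92)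

`muHecke M : MuHecke M` — the multiplier map `μ` is Hecke-equivariant for the primes `ℓ ∤ M`:
if `χ` is the multiplier of an `n`-th root of a Kummer function `u` of `x`, then `T_ℓ χ` is the
multiplier of an `n`-th root of a Kummer function of `T_ℓ x`.

Proof.  `u' = N_α (β u)` is a Kummer function of `T_ℓ x` (HKa, `KummerRel.hecke`).  Its
`q`-expansion is `kronHecke ℓ ζ u` (`G2.stmtHeckeNorm`), which for `u = a / g` is the `q`-expansion
of `(∏_A a ∘ A) / (∏_A g ∘ A)` (`RC.rc_laurentOf_heckeProd`, multiplicativity of `kronHecke`).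
Write `u' = a' / g'` with `a'`, `g'` modular functions (`RC.rc_exists_frac`); then
`a' · ∏_A g ∘ A = g' · ∏_A a ∘ A`, and the root datum `R.hecke` (`w' = ∏_A w ∘ A`) satisfies
`w'ⁿ = a' / g'`; its multiplier is `T_ℓ χ` (`RootData.hecke_multAdd`, `heckeHom_eq_heckeP`).
-/

set_option autoImplicit false
set_option linter.style.haveILetI false

noncomputable section

namespace Fermat.Agent.ES

open ModularCurve AlgebraicCurve CongruenceSubgroup ModularCurve.Period UpperHalfPlane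
open Fermat.Agent.S24 Fermat.Agent.S28 Fermat.Agent.ES.G2
open scoped MatrixGroups Manifold

/-- `kronHecke` commutes with a change of coefficients. -/
theorem coeffMap_kronHecke {L L' : Type*} [Field L] [Field L'] (φ : L →+* L') (ℓ : ℕ) [NeZero ℓ]
    (ζ : Lˣ) (f : LaurentSeries L) :
    coeffMap φ (kronHecke ℓ ζ f) = kronHecke ℓ (Units.map (φ : L →* L') ζ) (coeffMap φ f) := by
  rw [kronHecke, kronHecke, map_mul, coeffMap_kronNorm, coeffMap_qExpand]

/-- cancellation of a nonzero holomorphic factor -/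
theorem mdiff_eq_of_mul_eq {F G H : ℍ → ℂ} (hF : MDiff F) (hG : MDiff G) (hH : MDiff H)
    (hH0 : H ≠ 0) (h : ∀ τ, F τ * H τ = G τ * H τ) : F = G := by
  by_contra hne
  have hd : MDiff (fun τ => F τ - G τ) := hF.sub hG
  have hd0 : (fun τ => F τ - G τ) ≠ 0 := by
    intro h0
    apply hne
    funext τ
    have := congrFun h0 τ
    simpa [sub_eq_zero] using this
  apply mdiff_mul_ne_zero hd hH hd0 hH0
  funext τ
  simp only [Pi.zero_apply, sub_mul, h τ, sub_self]

variable (M : ℕ) [NeZero M]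

/-- **(H): Hecke-equivariance of the multiplier relation**, in terms of `StmtHeckeNorm`. -/
theorem muHecke_of (hHN : G2.StmtHeckeNorm) : MuHecke M := by
  rintro p ℓ n hn x χ ⟨u, a, g, R, hK, ⟨ha, hg, hg0, hq⟩, hroot, hχ⟩
  have hℓ : ((ℓ : Nat.Primes) : ℕ).Prime := ℓ.1.2
  haveI : NeZero ((ℓ : Nat.Primes) : ℕ) := ⟨hℓ.ne_zero⟩
  haveI : Fact ((ℓ : Nat.Primes) : ℕ).Prime := ⟨hℓ⟩
  have hℓM : ¬ ((ℓ : Nat.Primes) : ℕ) ∣ M := GoodPrime.not_dvd ℓ
  have hcop : Nat.Coprime ((ℓ : Nat.Primes) : ℕ) M :=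
    (Nat.Prime.coprime_iff_not_dvd hℓ).mpr hℓM
  -- the roots of unity
  obtain ⟨ζ, hζ⟩ := G2.frob_exists_primitiveRoot ((ℓ : Nat.Primes) : ℕ) hℓ.ne_zero
  obtain ⟨ζC, hζCdef⟩ : ∃ ζC : ℂˣ, ζC = Units.map ((embC : Qb →+* ℂ) : Qb →* ℂ) ζ := ⟨_, rfl⟩
  have hζC : IsPrimitiveRoot ζC ((ℓ : Nat.Primes) : ℕ) := by
    rw [hζCdef]
    exact hζ.map_of_injective (Units.map_injective (f := ((embC : Qb →+* ℂ) : Qb →* ℂ))
      embC.injective)
  -- the Kummer function of `T_ℓ x`
  obtain ⟨u', hu'def⟩ : ∃ u' : modularFunctionFieldBar M,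
      u' = heckeNormFun M ((ℓ : Nat.Primes) : ℕ) u := ⟨_, rfl⟩
  have hK' : KummerRel n (heckeOperatorBar M (ℓ : Nat.Primes) x) u' := by
    rw [hu'def]
    exact KummerRel.hecke M (ℓ : Nat.Primes) hK
  have hu' : coeffMap embC (u' : LaurentSeries Qb)
      = kronHecke ((ℓ : Nat.Primes) : ℕ) ζC (coeffMap embC (u : LaurentSeries Qb)) := by
    rw [hu'def, heckeNormFun_coe M hHN _ hℓ hℓM ζ hζ u, coeffMap_kronHecke, hζCdef]
  -- the analytic norms
  have hLa := RC.rc_laurentOf_heckeProd _ hℓ ζC hζC ha.isMerInf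
  have hLg := RC.rc_laurentOf_heckeProd _ hℓ ζC hζC hg.isMerInf
  have hMa := RC.rc_isMerInf_heckeProd _ hℓ ha.isMerInf
  have hMg := RC.rc_isMerInf_heckeProd _ hℓ hg.isMerInf
  have hq2 : coeffMap embC (u' : LaurentSeries Qb)
        * laurentOf (heckeProd ((ℓ : Nat.Primes) : ℕ) g)
      = laurentOf (heckeProd ((ℓ : Nat.Primes) : ℕ) a) := by
    rw [hu', hLa, hLg, ← kronHecke_mul ζC hζC, hq]
  -- a fraction for `u'`
  obtain ⟨a', g', ha', hg', hg'0, hq'⟩ := RC.rc_exists_frac M (coeffMap_embC_mem M u'.2)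
  have hg'ne : g' ≠ 0 := by
    rintro rfl
    exact hg'0 laurentOf_zero
  -- `a' · ∏ g∘A = g' · ∏ a∘A`
  have hcross : a' * heckeProd ((ℓ : Nat.Primes) : ℕ) g
      = g' * heckeProd ((ℓ : Nat.Primes) : ℕ) a := by
    apply laurentOf_injective (ha'.isMerInf.mul hMg) (hg'.isMerInf.mul hMa)
    rw [laurentOf_mul ha'.isMerInf hMg, laurentOf_mul hg'.isMerInf hMa, ← hq', ← hq2]
    ring
  -- the root
  have hrootP : ∀ τ : ℍ, heckeProd ((ℓ : Nat.Primes) : ℕ) R.a τ ^ n
        * heckeProd ((ℓ : Nat.Primes) : ℕ) g τ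
      = heckeProd ((ℓ : Nat.Primes) : ℕ) a τ * heckeProd ((ℓ : Nat.Primes) : ℕ) R.g τ ^ n := by
    intro τ
    simp only [heckeProd_apply, ← Finset.prod_pow, ← Finset.prod_mul_distrib]
    exact Finset.prod_congr rfl fun A _ => hroot _
  have hmda' : MDiff a' := RC.rc_mdiff_of_isModFun ha'
  have hmdg' : MDiff g' := RC.rc_mdiff_of_isModFun hg'
  have hmdg : MDiff g := RC.rc_mdiff_of_isModFun hg
  have hmdRa : MDiff (heckeProd ((ℓ : Nat.Primes) : ℕ) R.a) := mdiff_heckeProd _ R.mdiff_a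
  have hmdRg : MDiff (heckeProd ((ℓ : Nat.Primes) : ℕ) R.g) := mdiff_heckeProd _ R.mdiff_g
  have hmdPg : MDiff (heckeProd ((ℓ : Nat.Primes) : ℕ) g) := mdiff_heckeProd _ hmdg
  have hPg0 : heckeProd ((ℓ : Nat.Primes) : ℕ) g ≠ 0 := heckeProd_ne_zero _ hmdg hg0
  have hfin : (fun τ : ℍ => heckeProd ((ℓ : Nat.Primes) : ℕ) R.a τ ^ n * g' τ)
      = fun τ : ℍ => a' τ * heckeProd ((ℓ : Nat.Primes) : ℕ) R.g τ ^ n := by
    refine mdiff_eq_of_mul_eq ((hmdRa.pow n).mul hmdg') (hmda'.mul (hmdRg.pow n)) hmdPg hPg0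
      fun τ => ?_
    have h1 := hrootP τ
    have h2 : a' τ * heckeProd ((ℓ : Nat.Primes) : ℕ) g τ
        = g' τ * heckeProd ((ℓ : Nat.Primes) : ℕ) a τ := congrFun hcross τ
    linear_combination g' τ * h1 - heckeProd ((ℓ : Nat.Primes) : ℕ) R.g τ ^ n * h2
  -- assembly
  refine ⟨u', a', g', R.hecke hcop, hK', ⟨ha', hg', hg'ne, hq'⟩, fun τ => congrFun hfin τ, ?_⟩
  rw [RootData.hecke_multAdd, hχ, heckeOp_apply]
  exact heckeHom_eq_heckeP hℓM χ

/-- **(H): Hecke-equivariance of the multiplier relation.** -/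
theorem muHecke : MuHecke M := muHecke_of M G2.stmtHeckeNorm

end Fermat.Agent.ES

end
end ZBES_007_4

/-! ### bundled: `Fermat.Agent.ES.KummerMu` -/
section ZBES_007_5

/-!
# ESpkg-G1 piece KB, specialised to `J₀(M)(ℚ̄)` (helper39)

`ES/Mu.lean` uses the generic `KummerRel n x u` of `ES/KummerBridge.lean` (with `x : JZero M`,
`u : modularFunctionFieldBar M`), so the items (1)–(5), (7) apply verbatim:
`exists_kummerRel`, `KummerRel.nsmul_eq_zero`, `KummerRel.zero/add/neg/sub/pow_left/const_mul`,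
`KummerRel.exists_eq_mul_pow`, `KummerRel.eq_zero_of_pow`, `exists_kummerRel_of_dvd`,
`KummerRel.unique`.  Here: item (6) for the prelude Galois action of `GQ` on `JZero M`.
-/

set_option autoImplicit false

namespace Fermat.Agent.ES

open ModularCurve AlgebraicCurve

variable {M : ℕ} {n : ℕ} {x : JZero M} {u : modularFunctionFieldBar M}

/-- (6) Galois: `KummerRel n x u ⇒ KummerRel n (σ • x) (σ u)` for `σ ∈ G_ℚ` acting on the
coefficients. -/
theorem KummerRel.galois (σ : GQ) (h : KummerRel n x u) :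
    KummerRel n (σ • x) (arithmeticGalois (modularFunctionFieldFull M) σ • u) :=
  KummerRel.smul (arithmeticGalois (modularFunctionFieldFull M) σ) h

end Fermat.Agent.ES


end ZBES_007_5
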