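/- GENERATED FILE (helper35, build-time optimisation, NOTES/ZB.md): verbatim concatenation of the modules
   Fermat.Agent.ES.PthRoot
   Fermat.Agent.ES.MultiplierCusp
   Fermat.Agent.ES.RootOfKummer
   Fermat.Agent.ES.CuspRoot
   Fermat.Agent.ES.MuSurjDescent
   Fermat.Agent.ES.RC.EisCharPlace
   Fermat.Agent.ES.MuSurjAn
   Do not edit; do not import together with these modules. -/
import Mathlib
import Fermat.Agent.ZB.S24_006
import Fermat.Agent.ZB.S21_002
import Fermat.Agent.ZB.S24_003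
import Fermat.Agent.ZB.S24_004
import Fermat.Agent.ZB.ES_007
import Fermat.Agent.ZB.ES_015
import Fermat.Agent.ZB.S28_002
import Fermat.Agent.ZB.ES_016
import Fermat.Agent.ZB.S24_005
import Fermat.Agent.ZB.S22_003
import Fermat.Agent.ZB.ES_017
import Fermat.Agent.ZB.ES_009

/-! ### bundled: `Fermat.Agent.ES.PthRoot` -/
section ZBES_011_0

/-!
# ESpkg-G1, piece A1: `p`-th roots of holomorphic functions on the upper half plane

If `F` is holomorphic on `ℍ`, not identically zero, and the order of vanishing of `F` at every point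
is divisible by `p`, then `F = a ^ p` for a holomorphic `a` on `ℍ` (`exists_mdiff_pow_eq`).
Quotient form `exists_mdiff_pow_eq_div` and rigidity `exists_root_of_unity_of_pow_eq`.

No monodromy: `ℍ` is a union of balls with closure in `ℍ` through a base point; on a closed ball
zeros are removed by `MeromorphicOn.extract_zeros_poles`, the zero-free part has a continuous root by
`Complex.exists_continuousOn_pow_eq`, a continuous root of a holomorphic function is holomorphic,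
and two normalised roots on two balls agree on the (convex) intersection.
-/

set_option autoImplicit false

noncomputable section

open Metric Set Filter Topology

namespace Fermat.Agent.ES

/-! ### Roots of unity are isolated -/

theorem pthRoot_finite_roots {p : ℕ} (hp : p ≠ 0) : {ζ : ℂ | ζ ^ p = 1}.Finite := by
  have : {ζ : ℂ | ζ ^ p = 1} = ↑(Polynomial.nthRootsFinset p (1 : ℂ)) := by
    ext ζ
    simp [Polynomial.mem_nthRootsFinset (Nat.pos_of_ne_zero hp)]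
  rw [this]
  exact Finset.finite_toSet _

theorem pthRoot_eventually_eq_one {p : ℕ} (hp : p ≠ 0) :
    ∀ᶠ ζ : ℂ in 𝓝 1, ζ ^ p = 1 → ζ = 1 := by
  have hS : ({ζ : ℂ | ζ ^ p = 1} \ {1}).Finite := (pthRoot_finite_roots hp).subset Set.sdiff_subset
  have hopen : IsOpen ({ζ : ℂ | ζ ^ p = 1} \ {1})ᶜ := hS.isClosed.isOpen_compl
  filter_upwards [hopen.mem_nhds (by simp)] with ζ hζ h
  by_contra hne
  exact hζ ⟨h, hne⟩

/-- If `ρ` is continuous at `z`, `ρ z = 1` and `ρ ^ p = 1` near `z`, then `ρ = 1` near `z`. -/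
theorem pthRoot_eventually_one_of_continuousAt {p : ℕ} (hp : p ≠ 0) {ρ : ℂ → ℂ} {z : ℂ}
    (hρ : ContinuousAt ρ z) (h1 : ρ z = 1) (hpow : ∀ᶠ w in 𝓝 z, ρ w ^ p = 1) :
    ∀ᶠ w in 𝓝 z, ρ w = 1 := by
  have h := hρ.eventually (by rw [h1]; exact pthRoot_eventually_eq_one hp)
  filter_upwards [h, hpow] with w hw hw' using hw hw'

/-! ### Local branches -/

/-- A local holomorphic `p`-th root with prescribed value at a point where `F ≠ 0`. -/
theorem pthRoot_local {p : ℕ} (hp : p ≠ 0) {F : ℂ → ℂ} {z c : ℂ} (hF : DifferentiableAt ℂ F z)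
    (hz : F z ≠ 0) (hc : c ^ p = F z) :
    ∃ h : ℂ → ℂ, DifferentiableAt ℂ h z ∧ h z = c ∧ ∀ᶠ w in 𝓝 z, h w ^ p = F w ∧ h w ≠ 0 := by
  refine ⟨fun w => c * Complex.exp (Complex.log (F w / F z) / p), ?_, ?_, ?_⟩
  · have h1 : DifferentiableAt ℂ (fun w => F w / F z) z := hF.div_const _
    have h2 : DifferentiableAt ℂ (fun w => Complex.log (F w / F z)) z := by
      refine h1.clog ?_
      simp [div_self hz]
    exact (h2.div_const _).cexp.const_mul c
  · simp [div_self hz]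
  · have hcont : ContinuousAt F z := hF.continuousAt
    have hne : ∀ᶠ w in 𝓝 z, F w ≠ 0 := hcont.eventually_ne hz
    have hc0 : c ≠ 0 := by
      rintro rfl
      rw [zero_pow hp] at hc
      exact hz hc.symm
    filter_upwards [hne] with w hw
    refine ⟨?_, mul_ne_zero hc0 (Complex.exp_ne_zero _)⟩
    have hp' : (p : ℂ) ≠ 0 := by exact_mod_cast hp
    rw [mul_pow, ← Complex.exp_nat_mul, mul_div_cancel₀ _ hp', Complex.exp_log (div_ne_zero hw hz), hc]
    field_simp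

/-- A continuous `p`-th root of a holomorphic function is holomorphic at the points where it does
not vanish. -/
theorem pthRoot_differentiableAt {p : ℕ} (hp : p ≠ 0) {a F : ℂ → ℂ} {z : ℂ}
    (ha : ContinuousAt a z) (hF : DifferentiableAt ℂ F z) (hz : F z ≠ 0)
    (hpow : ∀ᶠ w in 𝓝 z, a w ^ p = F w) : DifferentiableAt ℂ a z := by
  obtain ⟨h, hh, hhz, hhev⟩ := pthRoot_local hp hF hz hpow.self_of_nhds
  have haz : a z ≠ 0 := by
    intro h0
    have := hpow.self_of_nhds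
    rw [h0, zero_pow hp] at this
    exact hz this.symm
  have hρ : ContinuousAt (fun w => a w / h w) z :=
    ha.div hh.continuousAt (by rw [hhz]; exact haz)
  have h1 : (fun w => a w / h w) z = 1 := by simp [hhz, div_self haz]
  have hpow' : ∀ᶠ w in 𝓝 z, (fun w => a w / h w) w ^ p = 1 := by
    filter_upwards [hpow, hhev] with w hw hw'
    simp only [div_pow, hw, hw'.1]
    have : F w ≠ 0 := by rw [← hw'.1]; exact pow_ne_zero _ hw'.2
    exact div_self this
  have hev := pthRoot_eventually_one_of_continuousAt hp hρ h1 hpow'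
  have hEq : a =ᶠ[𝓝 z] h := by
    filter_upwards [hev, hhev] with w hw hw'
    have := (div_eq_one_iff_eq hw'.2).mp hw
    exact this
  exact hh.congr_of_eventuallyEq hEq

/-- A continuous `p`-th root of a holomorphic function with isolated zeros is holomorphic. -/
theorem pthRoot_differentiableOn {p : ℕ} (hp : p ≠ 0) {a F : ℂ → ℂ} {V : Set ℂ} (hV : IsOpen V)
    (ha : ContinuousOn a V) (hF : DifferentiableOn ℂ F V) (hpow : ∀ z ∈ V, a z ^ p = F z)
    (hiso : ∀ z ∈ V, ∀ᶠ w in 𝓝[≠] z, F w ≠ 0) : DifferentiableOn ℂ a V := by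
  -- differentiability at the points where `F ≠ 0`
  have key : ∀ z ∈ V, F z ≠ 0 → DifferentiableAt ℂ a z := by
    intro z hz hFz
    refine pthRoot_differentiableAt hp (ha.continuousAt (hV.mem_nhds hz))
      (hF.differentiableAt (hV.mem_nhds hz)) hFz ?_
    filter_upwards [hV.mem_nhds hz] with w hw using hpow w hw
  intro z hz
  by_cases hFz : F z ≠ 0
  · exact (key z hz hFz).differentiableWithinAt
  · -- isolated zero: removable singularity
    have h1 : ∀ᶠ w in 𝓝[≠] z, F w ≠ 0 := hiso z hz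
    rw [eventually_nhdsWithin_iff] at h1
    obtain ⟨W, hW, hWo, hzW⟩ := _root_.eventually_nhds_iff.mp
      (h1.and (hV.mem_nhds hz))
    have hd : DifferentiableOn ℂ a (W \ {z}) := by
      intro w hw
      have hwW := hW w hw.1
      exact (key w hwW.2 (hwW.1 hw.2)).differentiableWithinAt
    have hc : ContinuousAt a z := ha.continuousAt (hV.mem_nhds hz)
    have := (Complex.differentiableOn_compl_singleton_and_continuousAt_iff
      (hWo.mem_nhds hzW)).mp ⟨hd, hc⟩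
    exact (this.differentiableAt (hWo.mem_nhds hzW)).differentiableWithinAt

/-! ### Rigidity -/

/-- Two holomorphic functions with the same `p`-th power on a connected open set, which agree and
do not vanish at one point, are equal. -/
theorem pthRoot_eqOn {p : ℕ} (hp : p ≠ 0) {a b : ℂ → ℂ} {V : Set ℂ} (hV : IsOpen V)
    (hVc : IsPreconnected V) (ha : DifferentiableOn ℂ a V) (hb : DifferentiableOn ℂ b V)
    (hpow : ∀ z ∈ V, a z ^ p = b z ^ p) {z₀ : ℂ} (hz₀ : z₀ ∈ V) (h0 : a z₀ = b z₀)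
    (hb0 : b z₀ ≠ 0) : EqOn a b V := by
  have hac : ContinuousAt a z₀ := (ha.differentiableAt (hV.mem_nhds hz₀)).continuousAt
  have hbc : ContinuousAt b z₀ := (hb.differentiableAt (hV.mem_nhds hz₀)).continuousAt
  have hbne : ∀ᶠ w in 𝓝 z₀, b w ≠ 0 := hbc.eventually_ne hb0
  have hρ : ContinuousAt (fun w => a w / b w) z₀ := hac.div hbc hb0
  have h1 : (fun w => a w / b w) z₀ = 1 := by simp [h0, div_self hb0]
  have hpow' : ∀ᶠ w in 𝓝 z₀, (fun w => a w / b w) w ^ p = 1 := by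
    filter_upwards [hbne, hV.mem_nhds hz₀] with w hw hwV
    simp only [div_pow, hpow w hwV]
    exact div_self (pow_ne_zero _ hw)
  have hev := pthRoot_eventually_one_of_continuousAt hp hρ h1 hpow'
  have hEq : a =ᶠ[𝓝 z₀] b := by
    filter_upwards [hev, hbne] with w hw hw'
    exact (div_eq_one_iff_eq hw').mp hw
  exact (ha.analyticOnNhd hV).eqOn_of_preconnected_of_eventuallyEq (hb.analyticOnNhd hV) hVc hz₀ hEq

/-! ### Existence on a ball -/

theorem pthRoot_isSimplyConnected_ball (c : ℂ) {r : ℝ} (hr : 0 < r) :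
    IsSimplyConnected (ball c r) := by
  have := (convex_ball c r).contractibleSpace ⟨c, mem_ball_self hr⟩
  exact SimplyConnectedSpace.ofContractible _

/-- On a closed ball on which `F` is analytic with all orders finite multiples of `p`, `F` has a
holomorphic `p`-th root on the open ball. -/
theorem pthRoot_exists_on_ball {p : ℕ} (hp : p ≠ 0) {F : ℂ → ℂ} {c : ℂ} {r : ℝ} (hr : 0 < r)
    (hF : AnalyticOnNhd ℂ F (closedBall c r))
    (hord : ∀ z ∈ closedBall c r, ∃ k : ℕ, analyticOrderAt F z = ((p * k : ℕ) : ℕ∞)) :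
    ∃ a : ℂ → ℂ, DifferentiableOn ℂ a (ball c r) ∧ ∀ z ∈ ball c r, a z ^ p = F z := by
  classical
  have hmero : MeromorphicOn F (closedBall c r) := hF.meromorphicOn
  have hordm : ∀ z ∈ closedBall c r, ∃ k : ℕ,
      meromorphicOrderAt F z = (((p * k : ℕ) : ℤ) : WithTop ℤ) := by
    intro z hz
    obtain ⟨k, hk⟩ := hord z hz
    refine ⟨k, ?_⟩
    rw [(hF z hz).meromorphicOrderAt_eq, hk]
    rfl
  have hfin : (MeromorphicOn.divisor F (closedBall c r)).support.Finite :=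
    (MeromorphicOn.divisor F (closedBall c r)).finiteSupport (isCompact_closedBall c r)
  obtain ⟨g, hg, hg0, hFg⟩ := hmero.extract_zeros_poles
    (fun u => by obtain ⟨k, hk⟩ := hordm u u.2; rw [hk]; exact WithTop.coe_ne_top) hfin
  -- exponents divided by `p`
  have hDe : ∀ u, ∃ k : ℕ, MeromorphicOn.divisor F (closedBall c r) u = ((p * k : ℕ) : ℤ) := by
    intro u
    by_cases hu : u ∈ closedBall c r
    · obtain ⟨k, hk⟩ := hordm u hu
      refine ⟨k, ?_⟩
      rw [MeromorphicOn.divisor_apply hmero hu, hk]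
      rfl
    · refine ⟨0, ?_⟩
      simpa using Function.locallyFinsuppWithin.apply_eq_zero_of_notMem _ hu
  choose e he using hDe
  -- the polynomial part
  have hsupp : Function.mulSupport (fun u : ℂ => (fun z : ℂ => (z - u) ^ e u)) ⊆
      (MeromorphicOn.divisor F (closedBall c r)).support := by
    intro u hu
    rw [Function.mem_mulSupport] at hu
    rw [Function.mem_support, he u]
    intro h0
    apply hu
    have : e u = 0 := by
      have : p * e u = 0 := by exact_mod_cast h0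
      rcases Nat.mul_eq_zero.mp this with h | h
      · exact absurd h hp
      · exact h
    funext z
    simp [this]
  have hψfin : Function.HasFiniteMulSupport (fun u : ℂ => (fun z : ℂ => (z - u) ^ e u)) :=
    hfin.subset hsupp
  set ψ : ℂ → ℂ := ∏ᶠ u : ℂ, (fun z : ℂ => (z - u) ^ e u) with hψ
  have hψd : Differentiable ℂ ψ := by
    rw [hψ, finprod_eq_prod _ hψfin]
    refine Differentiable.finsetProd fun u _ => ?_
    fun_prop
  have hψpow : ψ ^ p = ∏ᶠ u, (fun x : ℂ => x - u) ^ MeromorphicOn.divisor F (closedBall c r) u := by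
    rw [hψ, finprod_pow hψfin]
    congr 1
    funext u
    funext z
    simp only [Pi.pow_apply, he u]
    rw [zpow_natCast, pow_mul, ← pow_mul, mul_comm, pow_mul]
  -- the root of the unit part
  have hgc : ContinuousOn g (ball c r) := (hg.mono ball_subset_closedBall).continuousOn
  have hg0' : (0 : ℂ) ∉ g '' ball c r := by
    rintro ⟨z, hz, h0⟩
    exact hg0 ⟨z, ball_subset_closedBall hz⟩ h0
  obtain ⟨b, hbc, hb⟩ := Complex.exists_continuousOn_pow_eq
    (pthRoot_isSimplyConnected_ball c hr) isOpen_ball hgc hg0' hp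
  have hbd : DifferentiableOn ℂ b (ball c r) := by
    intro z hz
    refine (pthRoot_differentiableAt hp (hbc.continuousAt (isOpen_ball.mem_nhds hz))
      ((hg z (ball_subset_closedBall hz)).differentiableAt)
      (hg0 ⟨z, ball_subset_closedBall hz⟩) ?_).differentiableWithinAt
    exact Eventually.of_forall hb
  refine ⟨ψ * b, hψd.differentiableOn.mul hbd, ?_⟩
  intro z hz
  -- equality on a codiscrete set upgrades to equality everywhere by continuity
  rw [← hψpow] at hFg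
  have hmem : {x | F x = ((ψ ^ p) • g) x} ∈ codiscreteWithin (closedBall c r) := hFg
  rw [mem_codiscreteWithin] at hmem
  have hdisj := hmem z (ball_subset_closedBall hz)
  have hev : ∀ᶠ w in 𝓝[≠] z, F w = ((ψ ^ p) • g) w := by
    have h1 : ∀ᶠ w in 𝓝[≠] z, w ∉ closedBall c r \ {x | F x = ((ψ ^ p) • g) x} := by
      rw [Filter.disjoint_principal_right] at hdisj
      exact hdisj
    have h2 : ∀ᶠ w in 𝓝[≠] z, w ∈ closedBall c r :=
      mem_nhdsWithin_of_mem_nhds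
        (Filter.mem_of_superset (isOpen_ball.mem_nhds hz) ball_subset_closedBall)
    filter_upwards [h1, h2] with w hw1 hw2
    by_contra h
    exact hw1 ⟨hw2, h⟩
  have hFc : ContinuousAt F z := (hF z (ball_subset_closedBall hz)).continuousAt
  have hGc : ContinuousAt ((ψ ^ p) • g) z :=
    ((hψd.pow p).continuous.continuousAt).smul (hg z (ball_subset_closedBall hz)).continuousAt
  have hEq := tendsto_nhds_unique_of_eventuallyEq (hFc.tendsto.mono_left nhdsWithin_le_nhds)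
    (hGc.tendsto.mono_left nhdsWithin_le_nhds) hev
  rw [hEq]
  simp [mul_pow, hb]

/-! ### Balls in the upper half plane -/

/-- Two points of the upper half plane lie in an open ball whose closure is contained in the upper
half plane. -/
theorem pthRoot_exists_ball {z w : ℂ} (hz : 0 < z.im) (hw : 0 < w.im) :
    ∃ (c : ℂ) (r : ℝ), 0 < r ∧ closedBall c r ⊆ {u : ℂ | 0 < u.im} ∧
      z ∈ ball c r ∧ w ∈ ball c r := by
  set ε : ℝ := min z.im w.im / 2 with hε
  have hε0 : 0 < ε := by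
    have : 0 < min z.im w.im := lt_min hz hw
    positivity
  have hεz : 2 * ε ≤ z.im := by
    have := min_le_left z.im w.im
    rw [hε]; linarith
  have hεw : 2 * ε ≤ w.im := by
    have := min_le_right z.im w.im
    rw [hε]; linarith
  set R : ℝ := ‖z‖ ^ 2 / z.im + ‖w‖ ^ 2 / w.im + 1 + ε with hR
  have hz1 : 0 ≤ ‖z‖ ^ 2 / z.im := by positivity
  have hw1 : 0 ≤ ‖w‖ ^ 2 / w.im := by positivity
  have hRε : 0 < R - ε := by rw [hR]; linarith
  have hR0 : 0 < R := by linarith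
  have hRz : ‖z‖ ^ 2 < R * z.im := by
    have h1 : ‖z‖ ^ 2 / z.im * z.im = ‖z‖ ^ 2 := div_mul_cancel₀ _ hz.ne'
    have h2 : (‖z‖ ^ 2 / z.im + 1) * z.im ≤ R * z.im :=
      mul_le_mul_of_nonneg_right (by rw [hR]; linarith) hz.le
    nlinarith
  have hRw : ‖w‖ ^ 2 < R * w.im := by
    have h1 : ‖w‖ ^ 2 / w.im * w.im = ‖w‖ ^ 2 := div_mul_cancel₀ _ hw.ne'
    have h2 : (‖w‖ ^ 2 / w.im + 1) * w.im ≤ R * w.im :=
      mul_le_mul_of_nonneg_right (by rw [hR]; linarith) hw.le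
    nlinarith
  have key : ∀ u : ℂ, 2 * ε ≤ u.im → ‖u‖ ^ 2 < R * u.im → u ∈ ball ((R : ℂ) * Complex.I) (R - ε) := by
    intro u hu1 hu2
    rw [mem_ball, dist_eq_norm]
    have hsq : ‖u - (R : ℂ) * Complex.I‖ ^ 2 < (R - ε) ^ 2 := by
      rw [Complex.sq_norm, Complex.normSq_apply]
      rw [Complex.sq_norm, Complex.normSq_apply] at hu2
      simp only [Complex.sub_re, Complex.sub_im, Complex.mul_re, Complex.mul_im, Complex.ofReal_re,
        Complex.ofReal_im, Complex.I_re, Complex.I_im, mul_zero, mul_one, sub_zero, add_zero]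
      have h3 : 2 * ε * R ≤ u.im * R := mul_le_mul_of_nonneg_right hu1 hR0.le
      nlinarith
    exact lt_of_pow_lt_pow_left₀ 2 hRε.le hsq
  refine ⟨(R : ℂ) * Complex.I, R - ε, hRε, ?_, key z hεz hRz, key w hεw hRw⟩
  intro u hu
  rw [mem_closedBall, dist_eq_norm] at hu
  have h1 : |(u - (R : ℂ) * Complex.I).im| ≤ ‖u - (R : ℂ) * Complex.I‖ := Complex.abs_im_le_norm _
  have h2 : (u - (R : ℂ) * Complex.I).im = u.im - R := by simp
  rw [h2] at h1
  have h3 := (abs_le.mp (h1.trans hu)).1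
  show 0 < u.im
  linarith

/-! ### Gluing: `p`-th roots on the upper half plane (`ℂ`-level statements) -/

/-- **`p`-th roots on the upper half plane.** If `F` is holomorphic on `{0 < im}` and the order of
`F` at every point of the upper half plane is a (finite) multiple of `p`, then `F = a ^ p` on the
upper half plane with `a` holomorphic there. -/
theorem exists_differentiableOn_pow_eq {p : ℕ} (hp : p ≠ 0) {F : ℂ → ℂ}
    (hF : DifferentiableOn ℂ F {z : ℂ | 0 < z.im})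
    (hord : ∀ z : ℂ, 0 < z.im → ∃ k : ℕ, analyticOrderAt F z = ((p * k : ℕ) : ℕ∞)) :
    ∃ a : ℂ → ℂ, DifferentiableOn ℂ a {z : ℂ | 0 < z.im} ∧ ∀ z : ℂ, 0 < z.im → a z ^ p = F z := by
  classical
  have hΩ : IsOpen {z : ℂ | 0 < z.im} := UpperHalfPlane.isOpen_upperHalfPlaneSet
  have hFa : AnalyticOnNhd ℂ F {z : ℂ | 0 < z.im} := hF.analyticOnNhd hΩ
  -- a base point where `F ≠ 0`
  obtain ⟨z₀, hz₀, hFz₀⟩ : ∃ z₀ : ℂ, 0 < z₀.im ∧ F z₀ ≠ 0 := by
    have hI : (0 : ℝ) < Complex.I.im := by simp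
    rcases (hFa Complex.I hI).eventually_eq_zero_or_eventually_ne_zero with h | h
    · exfalso
      obtain ⟨k, hk⟩ := hord Complex.I hI
      rw [← analyticOrderAt_eq_top, hk] at h
      exact ENat.natCast_ne_top _ h
    · obtain ⟨w, hw1, hw2⟩ := (h.and (mem_nhdsWithin_of_mem_nhds (hΩ.mem_nhds hI))).exists
      exact ⟨w, hw2, hw1⟩
  obtain ⟨c₀, hc₀⟩ := IsAlgClosed.exists_pow_nat_eq (F z₀) (Nat.pos_of_ne_zero hp)
  have hc₀0 : c₀ ≠ 0 := by
    rintro rfl
    rw [zero_pow hp] at hc₀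
    exact hFz₀ hc₀.symm
  -- local normalised roots
  have hloc : ∀ z : {z : ℂ // 0 < z.im}, ∃ (B : Set ℂ) (a : ℂ → ℂ), IsOpen B ∧ Convex ℝ B ∧
      (z : ℂ) ∈ B ∧ z₀ ∈ B ∧ B ⊆ {z : ℂ | 0 < z.im} ∧ DifferentiableOn ℂ a B ∧
      (∀ w ∈ B, a w ^ p = F w) ∧ a z₀ = c₀ := by
    rintro ⟨z, hz⟩
    obtain ⟨c, r, hr, hsub, hzB, hz₀B⟩ := pthRoot_exists_ball hz hz₀
    obtain ⟨a, ha, hapow⟩ := pthRoot_exists_on_ball hp hr (hFa.mono hsub)
      (fun u hu => hord u (hsub hu))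
    have haz₀ : a z₀ ≠ 0 := by
      intro h0
      have := hapow z₀ hz₀B
      rw [h0, zero_pow hp] at this
      exact hFz₀ this.symm
    refine ⟨ball c r, fun w => c₀ / a z₀ * a w, isOpen_ball, convex_ball c r, hzB, hz₀B,
      ball_subset_closedBall.trans hsub, ha.const_mul _, ?_, div_mul_cancel₀ _ haz₀⟩
    intro w hw
    rw [mul_pow, div_pow, hapow w hw, hapow z₀ hz₀B, hc₀, div_self hFz₀, one_mul]
  choose B A hBo hBc hzB hz₀B hBsub hAd hApow hAz₀ using hloc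
  -- compatibility
  have hcompat : ∀ z w : {z : ℂ // 0 < z.im}, (w : ℂ) ∈ B z → A w w = A z w := by
    intro z w hw
    have := pthRoot_eqOn hp ((hBo w).inter (hBo z)) ((hBc w).inter (hBc z)).isPreconnected
      ((hAd w).mono inter_subset_left) ((hAd z).mono inter_subset_right)
      (fun u hu => by rw [hApow w u hu.1, hApow z u hu.2]) ⟨hz₀B w, hz₀B z⟩
      (by rw [hAz₀ w, hAz₀ z]) (by rw [hAz₀ z]; exact hc₀0)
    exact this ⟨hzB w, hw⟩
  refine ⟨fun z => if h : 0 < z.im then A ⟨z, h⟩ z else 0, ?_, ?_⟩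
  · intro z hz
    have hEq : (fun z => if h : 0 < z.im then A ⟨z, h⟩ z else 0) =ᶠ[𝓝 z] A ⟨z, hz⟩ := by
      filter_upwards [(hBo ⟨z, hz⟩).mem_nhds (hzB ⟨z, hz⟩)] with w hw
      have hw' : 0 < w.im := hBsub ⟨z, hz⟩ hw
      simp only [hw', dif_pos]
      exact hcompat ⟨z, hz⟩ ⟨w, hw'⟩ hw
    exact (((hAd ⟨z, hz⟩).differentiableAt
      ((hBo ⟨z, hz⟩).mem_nhds (hzB ⟨z, hz⟩))).congr_of_eventuallyEq hEq).differentiableWithinAt
  · intro z hz
    simp only [hz, dif_pos]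
    exact hApow ⟨z, hz⟩ z (hzB ⟨z, hz⟩)

/-- Rigidity on the upper half plane, `ℂ`-level: two holomorphic functions with the same `p`-th
power differ by a `p`-th root of unity, provided one of them does not vanish somewhere. -/
theorem exists_root_of_unity_of_pow_eqOn {p : ℕ} (hp : p ≠ 0) {a b : ℂ → ℂ}
    (ha : DifferentiableOn ℂ a {z : ℂ | 0 < z.im}) (hb : DifferentiableOn ℂ b {z : ℂ | 0 < z.im})
    {z₀ : ℂ} (hz₀ : 0 < z₀.im) (hbz₀ : b z₀ ≠ 0)
    (h : ∀ z : ℂ, 0 < z.im → a z ^ p = b z ^ p) :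
    ∃ ζ : ℂ, ζ ^ p = 1 ∧ ∀ z : ℂ, 0 < z.im → a z = ζ * b z := by
  have hΩ : IsOpen {z : ℂ | 0 < z.im} := UpperHalfPlane.isOpen_upperHalfPlaneSet
  have hΩc : IsPreconnected {z : ℂ | 0 < z.im} := (convex_halfSpace_im_gt 0).isPreconnected
  refine ⟨a z₀ / b z₀, ?_, ?_⟩
  · rw [div_pow, h z₀ hz₀]
    exact div_self (pow_ne_zero _ hbz₀)
  · have haz₀ : a z₀ ≠ 0 := by
      intro h0
      have := h z₀ hz₀
      rw [h0, zero_pow hp] at this
      exact pow_ne_zero _ hbz₀ this.symm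
    have := pthRoot_eqOn hp hΩ hΩc ha (hb.const_mul (a z₀ / b z₀))
      (fun z hz => by
        rw [mul_pow, div_pow, h z₀ hz₀, div_self (pow_ne_zero _ hbz₀), one_mul]
        exact h z hz)
      hz₀ (by rw [div_mul_cancel₀ _ hbz₀]) (by rw [div_mul_cancel₀ _ hbz₀]; exact haz₀)
    exact fun z hz => this hz

/-! ### Statements on `ℍ` -/

open UpperHalfPlane

open scoped Manifold

/-- **`p`-th roots on `ℍ`.** If `F` is holomorphic on `ℍ` and the order of vanishing of `F` at every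
point is a finite multiple of `p`, then `F = a ^ p` with `a` holomorphic on `ℍ`.
(The hypothesis `F ≠ 0` is implied by the order hypothesis; it is kept for the callers.) -/
theorem exists_mdiff_pow_eq {p : ℕ} (hp : p ≠ 0) {F : ℍ → ℂ} (hF : MDiff F) (_hF0 : F ≠ 0)
    (hord : ∀ τ : ℍ, ∃ k : ℕ, analyticOrderAt (F ∘ ofComplex) (τ : ℂ) = ((p * k : ℕ) : ℕ∞)) :
    ∃ a : ℍ → ℂ, MDiff a ∧ ∀ τ, a τ ^ p = F τ := by
  have hF' := UpperHalfPlane.mdifferentiable_iff.mp hF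
  obtain ⟨a, ha, hapow⟩ := exists_differentiableOn_pow_eq hp hF' (fun z hz => hord ⟨z, hz⟩)
  refine ⟨fun τ => a τ, ?_, ?_⟩
  · rw [UpperHalfPlane.mdifferentiable_iff]
    refine ha.congr fun z hz => ?_
    simp [Function.comp, ofComplex_apply_of_im_pos hz]
  · intro τ
    have := hapow τ τ.im_pos
    simpa [Function.comp] using this

/-- A holomorphic function on `ℍ` which is not identically zero has finite order everywhere. -/
theorem pthRoot_order_ne_top {f : ℍ → ℂ} (hf : MDiff f) (hf0 : f ≠ 0) (τ : ℍ) :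
    analyticOrderAt (f ∘ ofComplex) (τ : ℂ) ≠ ⊤ := by
  intro htop
  rw [analyticOrderAt_eq_top] at htop
  have hΩ : IsOpen {z : ℂ | 0 < z.im} := UpperHalfPlane.isOpen_upperHalfPlaneSet
  have hΩc : IsPreconnected {z : ℂ | 0 < z.im} := (convex_halfSpace_im_gt 0).isPreconnected
  have hfa : AnalyticOnNhd ℂ (f ∘ ofComplex) {z : ℂ | 0 < z.im} :=
    (UpperHalfPlane.mdifferentiable_iff.mp hf).analyticOnNhd hΩ
  have h0 := hfa.eqOn_zero_of_preconnected_of_eventuallyEq_zero hΩc (z₀ := (τ : ℂ)) τ.im_pos htop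
  apply hf0
  funext σ
  have := h0 σ.im_pos
  simpa [Function.comp] using this

/-- **`p`-th roots of quotients.** If `f`, `g` are holomorphic on `ℍ`, not identically zero, and
`ord_τ f - ord_τ g ∈ p ℤ` for all `τ`, then `f * g ^ (p - 1) = a ^ p` with `a` holomorphic on `ℍ`;
so `a / g` is a meromorphic `p`-th root of `f / g`. -/
theorem exists_mdiff_pow_eq_div {p : ℕ} (hp : p ≠ 0) {f g : ℍ → ℂ} (hf : MDiff f) (hg : MDiff g)
    (hf0 : f ≠ 0) (hg0 : g ≠ 0)
    (hord : ∀ τ : ℍ, ∃ k : ℤ, ((analyticOrderAt (f ∘ ofComplex) (τ : ℂ)).toNat : ℤ) -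
        ((analyticOrderAt (g ∘ ofComplex) (τ : ℂ)).toNat : ℤ) = p * k) :
    ∃ a : ℍ → ℂ, MDiff a ∧ a ≠ 0 ∧ ∀ τ, a τ ^ p = f τ * g τ ^ (p - 1) := by
  have hΩ : IsOpen {z : ℂ | 0 < z.im} := UpperHalfPlane.isOpen_upperHalfPlaneSet
  have hfa : AnalyticOnNhd ℂ (f ∘ ofComplex) {z : ℂ | 0 < z.im} :=
    (UpperHalfPlane.mdifferentiable_iff.mp hf).analyticOnNhd hΩ
  have hga : AnalyticOnNhd ℂ (g ∘ ofComplex) {z : ℂ | 0 < z.im} :=
    (UpperHalfPlane.mdifferentiable_iff.mp hg).analyticOnNhd hΩ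
  have hFd : MDiff (f * g ^ (p - 1)) := hf.mul (hg.pow (p - 1))
  have hcomp : (f * g ^ (p - 1)) ∘ ofComplex = (f ∘ ofComplex) * (g ∘ ofComplex) ^ (p - 1) := by
    funext z
    simp [Function.comp]
  have hordF : ∀ τ : ℍ, ∃ k : ℕ,
      analyticOrderAt ((f * g ^ (p - 1)) ∘ ofComplex) (τ : ℂ) = ((p * k : ℕ) : ℕ∞) := by
    intro τ
    obtain ⟨k, hk⟩ := hord τ
    have h1 := pthRoot_order_ne_top hf hf0 τ
    have h2 := pthRoot_order_ne_top hg hg0 τ
    rw [hcomp, analyticOrderAt_mul (hfa _ τ.im_pos) ((hga _ τ.im_pos).pow _),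
      analyticOrderAt_pow (hga _ τ.im_pos)]
    set m := (analyticOrderAt (f ∘ ofComplex) (τ : ℂ)).toNat with hm
    set n := (analyticOrderAt (g ∘ ofComplex) (τ : ℂ)).toNat with hn
    rw [← ENat.natCast_toNat h1, ← ENat.natCast_toNat h2, ← hm, ← hn]
    have hp1 : 1 ≤ p := Nat.pos_of_ne_zero hp
    have hkn : 0 ≤ k + n := by
      have h3 : (p : ℤ) * (k + n) = m + (p - 1) * n := by rw [mul_add, ← hk]; ring
      have h4 : (0 : ℤ) ≤ m + (p - 1) * n := by
        have : (0 : ℤ) ≤ (p : ℤ) - 1 := by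
          have : (1 : ℤ) ≤ p := by exact_mod_cast hp1
          linarith
        positivity
      rw [← h3] at h4
      have hp0 : (0 : ℤ) < p := by exact_mod_cast hp1
      exact nonneg_of_mul_nonneg_right h4 hp0
    refine ⟨(k + n).toNat, ?_⟩
    have hnat : m + (p - 1) * n = p * (k + n).toNat := by
      have : ((m + (p - 1) * n : ℕ) : ℤ) = ((p * (k + n).toNat : ℕ) : ℤ) := by
        push_cast [Int.toNat_of_nonneg hkn, Nat.cast_sub hp1]
        rw [mul_add, ← hk]; ring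
      exact_mod_cast this
    rw [← hnat]
    push_cast
    rfl
  have hF0 : f * g ^ (p - 1) ≠ 0 := by
    intro h0
    obtain ⟨k, hk⟩ := hordF UpperHalfPlane.I
    have : analyticOrderAt ((f * g ^ (p - 1)) ∘ ofComplex) ((UpperHalfPlane.I : ℍ) : ℂ) = ⊤ := by
      rw [analyticOrderAt_eq_top, h0]
      exact Eventually.of_forall fun z => by simp
    rw [hk] at this
    exact ENat.natCast_ne_top _ this
  obtain ⟨a, ha, hapow⟩ := exists_mdiff_pow_eq hp hFd hF0 hordF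
  refine ⟨a, ha, ?_, fun τ => by simpa using hapow τ⟩
  rintro rfl
  apply hF0
  funext τ
  have := hapow τ
  simp only [Pi.zero_apply, zero_pow hp] at this
  exact this.symm

/-- **Rigidity.** Two holomorphic functions on `ℍ` with the same `p`-th power differ by a `p`-th
root of unity. -/
theorem exists_root_of_unity_of_pow_eq {p : ℕ} (hp : p ≠ 0) {a b : ℍ → ℂ} (ha : MDiff a)
    (hb : MDiff b) (hb0 : b ≠ 0) (h : ∀ τ, a τ ^ p = b τ ^ p) :
    ∃ ζ : ℂ, ζ ^ p = 1 ∧ ∀ τ, a τ = ζ * b τ := by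
  obtain ⟨τ₀, hτ₀⟩ : ∃ τ₀ : ℍ, b τ₀ ≠ 0 := by
    by_contra hcon
    exact hb0 (funext fun τ => by_contra fun hτ => hcon ⟨τ, hτ⟩)
  obtain ⟨ζ, hζ, hab⟩ := exists_root_of_unity_of_pow_eqOn hp
    (UpperHalfPlane.mdifferentiable_iff.mp ha) (UpperHalfPlane.mdifferentiable_iff.mp hb)
    (z₀ := (τ₀ : ℂ)) τ₀.im_pos (by simpa [Function.comp] using hτ₀)
    (fun z hz => by simpa [Function.comp] using h (ofComplex z))
  refine ⟨ζ, hζ, fun τ => ?_⟩
  simpa [Function.comp] using hab τ τ.im_pos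

end Fermat.Agent.ES

end
end ZBES_011_0

/-! ### bundled: `Fermat.Agent.ES.MultiplierCusp` -/
section ZBES_011_1

/-!
# ESpkg-G1, piece A2 (cusps): the multiplier of a parabolic element

* `IsMultiplier.eq_one_of_periodic_root` : if `(a/g)^p ∘ σ` has a `k`-periodic holomorphic `p`-th
  root on a half plane `Im τ > Y`, then the multiplier of `a/g` under `σ T^k σ⁻¹` is `1`;
* `RootData.mult_eq_one_of_periodic_root` : the same for the multiplier character;
* `RootData.ofPowEq` : the root datum attached to `a ^ p = f * g ^ (p - 1)`, `f / g` invariant.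
-/

set_option autoImplicit false

noncomputable section

open UpperHalfPlane Filter Topology
open scoped MatrixGroups Manifold

namespace Fermat.Agent.ES

open Fermat.Agent.S24

/-- A nonzero holomorphic function on `ℍ` does not vanish identically on a half plane. -/
theorem exists_ne_zero_im_gt {F : ℍ → ℂ} (hF : MDiff F) (hF0 : F ≠ 0) (Y : ℝ) :
    ∃ τ : ℍ, Y < τ.im ∧ F τ ≠ 0 := by
  by_contra hcon
  have hall : ∀ τ : ℍ, Y < τ.im → F τ = 0 := by
    intro τ hτ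
    by_contra h
    exact hcon ⟨τ, hτ, h⟩
  apply hF0
  -- a base point in the half plane
  have hY : (0 : ℝ) < max Y 0 + 1 := by positivity
  let τ₀ : ℍ := ⟨⟨0, max Y 0 + 1⟩, hY⟩
  have hτ₀ : Y < τ₀.im := by
    show Y < max Y 0 + 1
    have := le_max_left Y 0
    linarith
  refine UpperHalfPlane.eq_zero_of_frequently hF (τ := τ₀) ?_
  have hopen : IsOpen {τ : ℍ | Y < τ.im} :=
    isOpen_lt continuous_const UpperHalfPlane.continuous_im
  have h1 : ∀ᶠ z in 𝓝 τ₀, F z = 0 := by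
    filter_upwards [hopen.mem_nhds hτ₀] with z hz using hall z hz
  exact (h1.filter_mono nhdsWithin_le_nhds).frequently

/-- **Cusp criterion.**  Let `a / g` have multiplier `ζ` under `σ T^k σ⁻¹`.  If `(a/g)^p ∘ σ`
has a holomorphic `k`-periodic `p`-th root `r` on a half plane `Im z > Y`, then `ζ = 1`. -/
theorem IsMultiplier.eq_one_of_periodic_root {p : ℕ} (hp : p ≠ 0) {a g : ℍ → ℂ} (ha : MDiff a)
    (hg : MDiff g) (ha0 : a ≠ 0) (hg0 : g ≠ 0) {σ : SL(2, ℤ)} {k : ℤ} {ζ : ℂ}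
    (h : IsMultiplier (σ * ModularGroup.T ^ k * σ⁻¹) a g ζ)
    {Y : ℝ} {r : ℂ → ℂ} (hr : DifferentiableOn ℂ r {z : ℂ | Y < z.im})
    (hper : ∀ z : ℂ, Y < z.im → r (z + k) = r z)
    (hroot : ∀ τ : ℍ, Y < τ.im → r τ ^ p * g (σ • τ) ^ p = a (σ • τ) ^ p) : ζ = 1 := by
  -- the functions `A = a ∘ σ`, `G = g ∘ σ` and the multiplier relation for `T ^ k`
  set A : ℍ → ℂ := fun τ => a (σ • τ) with hA
  set G : ℍ → ℂ := fun τ => g (σ • τ) with hG
  have hAm : MDiff A := mdiff_comp_SL ha σ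
  have hGm : MDiff G := mdiff_comp_SL hg σ
  have hA0 : A ≠ 0 := fun h0 => ha0 ((comp_SL_eq_zero_iff σ).mp h0)
  have hG0 : G ≠ 0 := fun h0 => hg0 ((comp_SL_eq_zero_iff σ).mp h0)
  have hT : IsMultiplier (ModularGroup.T ^ k) A G ζ := by
    have h1 := h.conj σ
    have e : σ⁻¹ * (σ * ModularGroup.T ^ k * σ⁻¹) * σ = ModularGroup.T ^ k := by group
    rw [e] at h1
    exact h1
  -- the half plane
  set Y' : ℝ := max Y 0 with hY'
  set V : Set ℂ := {z : ℂ | Y' < z.im} with hVdef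
  have hVopen : IsOpen V := isOpen_lt continuous_const Complex.continuous_im
  have hVconn : IsPreconnected V := (convex_halfSpace_im_gt Y').isPreconnected
  have hVpos : ∀ z ∈ V, 0 < z.im := fun z hz => lt_of_le_of_lt (le_max_right Y 0) hz
  have hVY : ∀ z ∈ V, Y < z.im := fun z hz => lt_of_le_of_lt (le_max_left Y 0) hz
  have hVsub : V ⊆ {z : ℂ | 0 < z.im} := fun z hz => hVpos z hz
  have hVk : ∀ z ∈ V, z + (k : ℂ) ∈ V := by
    intro z hz
    have hz' : Y' < z.im := hz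
    show Y' < (z + (k : ℂ)).im
    rw [Complex.add_im, Complex.intCast_im, add_zero]
    exact hz'
  -- a good base point
  have hGk : MDiff (fun τ : ℍ => G (ModularGroup.T ^ k • τ)) := mdiff_comp_SL hGm _
  have hGk0 : (fun τ : ℍ => G (ModularGroup.T ^ k • τ)) ≠ 0 :=
    fun h0 => hG0 ((comp_SL_eq_zero_iff _).mp h0)
  obtain ⟨τ₀, hτ₀Y, hτ₀⟩ := exists_ne_zero_im_gt (hAm.mul hGk) (mdiff_mul_ne_zero hAm hGk hA0 hGk0) Y'
  have hτ₀' : A τ₀ * G (ModularGroup.T ^ k • τ₀) ≠ 0 := hτ₀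
  have hAτ₀ : A τ₀ ≠ 0 := left_ne_zero_of_mul hτ₀'
  have hGkτ₀ : G (ModularGroup.T ^ k • τ₀) ≠ 0 := right_ne_zero_of_mul hτ₀'
  have hz₀V : (τ₀ : ℂ) ∈ V := hτ₀Y
  -- the two `p`-th roots on `V`
  have hAd : DifferentiableOn ℂ (A ∘ ofComplex) V :=
    (UpperHalfPlane.mdifferentiable_iff.mp hAm).mono hVsub
  have hGd : DifferentiableOn ℂ (G ∘ ofComplex) V :=
    (UpperHalfPlane.mdifferentiable_iff.mp hGm).mono hVsub
  have hrd : DifferentiableOn ℂ r V := hr.mono fun z hz => hVY z hz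
  have hof : ∀ z ∈ V, ((ofComplex z : ℍ) : ℂ) = z := fun z hz =>
    congrArg _ (ofComplex_apply_of_im_pos (hVpos z hz))
  have hpowV : ∀ z ∈ V, r z ^ p * (G ∘ ofComplex) z ^ p = (A ∘ ofComplex) z ^ p := by
    intro z hz
    have h1 := hroot (ofComplex z) (by
      show Y < (ofComplex z : ℍ).im
      rw [← UpperHalfPlane.coe_im, hof z hz]; exact hVY z hz)
    rw [hof z hz] at h1
    exact h1
  have hτ₀of : ofComplex (τ₀ : ℂ) = τ₀ := ofComplex_apply τ₀
  have hrG0 : r τ₀ * G τ₀ ≠ 0 := by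
    intro h0
    have h1 := hpowV τ₀ hz₀V
    simp only [Function.comp_apply, hτ₀of] at h1
    rw [← mul_pow, h0, zero_pow hp] at h1
    exact hAτ₀ (pow_eq_zero_iff hp |>.mp h1.symm)
  obtain ⟨ζ', hζ'⟩ : ∃ ζ' : ℂ, A τ₀ = ζ' * (r τ₀ * G τ₀) :=
    ⟨A τ₀ / (r τ₀ * G τ₀), (div_mul_cancel₀ _ hrG0).symm⟩
  have hζ'p : ζ' ^ p = 1 := by
    have h1 := hpowV τ₀ hz₀V
    simp only [Function.comp_apply, hτ₀of] at h1
    rw [hζ', mul_pow, ← mul_pow (r τ₀)] at h1
    have h2 : (r τ₀ * G τ₀) ^ p ≠ 0 := pow_ne_zero _ hrG0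
    have h3 : ζ' ^ p * (r τ₀ * G τ₀) ^ p = 1 * (r τ₀ * G τ₀) ^ p := by rw [one_mul]; exact h1.symm
    exact mul_right_cancel₀ h2 h3
  have hEq : Set.EqOn (A ∘ ofComplex) (fun z => ζ' * (r z * (G ∘ ofComplex) z)) V := by
    refine pthRoot_eqOn hp hVopen hVconn hAd ((hrd.mul hGd).const_smul ζ' |>.congr ?_) ?_ hz₀V ?_ ?_
    · intro z _
      simp [smul_eq_mul]
    · intro z hz
      show (A ∘ ofComplex) z ^ p = (ζ' * (r z * (G ∘ ofComplex) z)) ^ p
      rw [mul_pow, hζ'p, one_mul, mul_pow, hpowV z hz]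
    · show (A ∘ ofComplex) τ₀ = ζ' * (r τ₀ * (G ∘ ofComplex) τ₀)
      simp only [Function.comp_apply, hτ₀of]
      exact hζ'
    · show ζ' * (r τ₀ * (G ∘ ofComplex) τ₀) ≠ 0
      simp only [Function.comp_apply, hτ₀of]
      refine mul_ne_zero ?_ hrG0
      intro h0
      rw [h0, zero_pow hp] at hζ'p
      exact zero_ne_one hζ'p
  -- evaluate at `τ₀` and at `T^k τ₀`
  have hTk : ((ModularGroup.T ^ k • τ₀ : ℍ) : ℂ) = (τ₀ : ℂ) + k :=
    ModularGroup.coe_T_zpow_smul_eq τ₀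
  have hTkof : ofComplex ((τ₀ : ℂ) + k) = ModularGroup.T ^ k • τ₀ := by
    rw [← hTk]; exact ofComplex_apply _
  have e1 : A τ₀ = ζ' * (r τ₀ * G τ₀) := hζ'
  have e2 : A (ModularGroup.T ^ k • τ₀) = ζ' * (r τ₀ * G (ModularGroup.T ^ k • τ₀)) := by
    have := hEq (hVk _ hz₀V)
    simp only [Function.comp_apply, hTkof] at this
    rw [this, hper _ (hVY _ hz₀V)]
  have e3 := hT τ₀
  rw [e2] at e3
  have e4 : (1 - ζ) * (A τ₀ * G (ModularGroup.T ^ k • τ₀)) = 0 := by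
    linear_combination e3 + G (ModularGroup.T ^ k • τ₀) * e1
  rcases mul_eq_zero.mp e4 with h5 | h5
  · exact (sub_eq_zero.mp h5).symm
  · exact absurd h5 (mul_ne_zero hAτ₀ hGkτ₀)

/-! ### Elliptic elements have finite order -/

/-- A matrix of `SL(2,ℤ)` with `X * X = t • X - 1`, `t ∈ {-1, 0, 1}`, has `X ^ 12 = 1`. -/
theorem sl2_pow_twelve_of_trace (X : Matrix (Fin 2) (Fin 2) ℤ) (t : ℤ)
    (hX : X * X = t • X - 1) (ht : t = 0 ∨ t = 1 ∨ t = -1) : X ^ 12 = 1 := by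
  have h2 : X ^ 2 = t • X - 1 := by rw [pow_two, hX]
  rcases ht with rfl | rfl | rfl
  · have h4 : X ^ 4 = 1 := by
      have : X ^ 4 = X ^ 2 * X ^ 2 := by rw [← pow_add]
      rw [this, h2, zero_smul, zero_sub, neg_mul_neg, one_mul]
    calc X ^ 12 = (X ^ 4) ^ 3 := by rw [← pow_mul]
      _ = 1 := by rw [h4, one_pow]
  · have h3 : X ^ 3 = -1 := by
      have : X ^ 3 = X ^ 2 * X := by rw [← pow_succ]
      rw [this, h2, sub_mul, one_mul, one_smul, ← pow_two, h2, one_smul]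
      abel
    calc X ^ 12 = (X ^ 3) ^ 4 := by rw [← pow_mul]
      _ = 1 := by rw [h3, Even.neg_pow ⟨2, rfl⟩, one_pow]
  · have h3 : X ^ 3 = 1 := by
      have : X ^ 3 = X ^ 2 * X := by rw [← pow_succ]
      rw [this, h2, sub_mul, one_mul, smul_mul_assoc, ← pow_two, h2]
      simp
    calc X ^ 12 = (X ^ 3) ^ 4 := by rw [← pow_mul]
      _ = 1 := by rw [h3, one_pow]

theorem sl2_mul_self_entries (X : Matrix (Fin 2) (Fin 2) ℤ) (hX : X.det = 1) :
    X * X = (X 0 0 + X 1 1) • X - 1 := by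
  rw [Matrix.det_fin_two] at hX
  ext i j
  rw [Matrix.sub_apply, Matrix.smul_apply, Matrix.mul_apply, Fin.sum_univ_two, smul_eq_mul]
  fin_cases i <;> fin_cases j
  · simp only [Fin.zero_eta, Fin.isValue, Matrix.one_apply_eq]
    linear_combination (-1 : ℤ) * hX
  · simp only [Fin.zero_eta, Fin.isValue, Fin.mk_one, ne_eq, zero_ne_one, not_false_eq_true,
      Matrix.one_apply_ne, sub_zero]
    ring
  · simp only [Fin.mk_one, Fin.isValue, Fin.zero_eta, ne_eq, one_ne_zero, not_false_eq_true,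
      Matrix.one_apply_ne, sub_zero]
    ring
  · simp only [Fin.mk_one, Fin.isValue, Matrix.one_apply_eq]
    linear_combination (-1 : ℤ) * hX

/-- **Elliptic elements have finite order**: an element of `SL(2,ℤ)` with a fixed point in `ℍ`
satisfies `γ ^ 12 = 1`. -/
theorem pow_twelve_eq_one_of_fixed (γ : SL(2, ℤ)) (τ₀ : ℍ) (hfix : γ • τ₀ = τ₀) : γ ^ 12 = 1 := by
  have hdet : γ 0 0 * γ 1 1 - γ 0 1 * γ 1 0 = 1 := by
    have h := γ.det_coe
    rwa [Matrix.det_fin_two] at h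
  -- the fixed point equation
  have hden : ((γ 1 0 : ℤ) : ℂ) * τ₀ + (γ 1 1 : ℤ) ≠ 0 := by
    have := UpperHalfPlane.denom_ne_zero (γ : GL (Fin 2) ℝ) τ₀
    rwa [ModularGroup.denom_apply] at this
  have hE : ((γ 0 0 : ℤ) : ℂ) * τ₀ + (γ 0 1 : ℤ) = τ₀ * (((γ 1 0 : ℤ) : ℂ) * τ₀ + (γ 1 1 : ℤ)) := by
    have h1 := UpperHalfPlane.coe_specialLinearGroup_apply γ τ₀
    rw [hfix] at h1
    simp only [algebraMap_int_eq, Int.coe_castRingHom, Complex.ofReal_intCast] at h1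
    rw [eq_div_iff hden] at h1
    exact h1.symm
  set x : ℝ := (τ₀ : ℂ).re with hx
  set y : ℝ := (τ₀ : ℂ).im with hy
  have hy0 : 0 < y := τ₀.im_pos
  have hτ : (τ₀ : ℂ) = ⟨x, y⟩ := by
    apply Complex.ext <;> rfl
  have him : (γ 1 0 : ℝ) * (2 * x) + (γ 1 1 : ℝ) - (γ 0 0 : ℝ) = 0 := by
    have h := congrArg Complex.im hE
    rw [hτ] at h
    simp only [Complex.add_im, Complex.mul_im, Complex.intCast_re, Complex.intCast_im,
      Complex.add_re, Complex.mul_re, zero_mul, add_zero, sub_zero] at h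
    have h' : y * ((γ 1 0 : ℝ) * (2 * x) + (γ 1 1 : ℝ) - (γ 0 0 : ℝ)) = 0 := by
      linear_combination -h
    rcases mul_eq_zero.mp h' with h0 | h0
    · exact absurd h0 hy0.ne'
    · exact h0
  have hre : (γ 0 1 : ℝ) = -(γ 1 0 : ℝ) * (x ^ 2 + y ^ 2) := by
    have h := congrArg Complex.re hE
    rw [hτ] at h
    simp only [Complex.add_im, Complex.mul_im, Complex.intCast_re, Complex.intCast_im,
      Complex.add_re, Complex.mul_re, zero_mul, add_zero, sub_zero] at h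
    linear_combination h + x * him
  have hdetR : (γ 0 0 : ℝ) * γ 1 1 - (γ 0 1 : ℝ) * γ 1 0 = 1 := by exact_mod_cast hdet
  have htrR : ((γ 0 0 : ℝ) + γ 1 1) ^ 2 = 4 - 4 * (γ 1 0 : ℝ) ^ 2 * y ^ 2 := by
    rw [hre] at hdetR
    linear_combination 4 * hdetR + ((γ 1 1 : ℝ) - γ 0 0 - γ 1 0 * (2 * x)) * him
  apply Subtype.ext
  rw [Matrix.SpecialLinearGroup.coe_pow, Matrix.SpecialLinearGroup.coe_one]
  by_cases hc : γ 1 0 = 0
  · -- `γ = ± 1`
    have had : γ 0 0 = γ 1 1 := by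
      have : (γ 1 1 : ℝ) - (γ 0 0 : ℝ) = 0 := by rw [hc] at him; simpa using him
      have : (γ 1 1 : ℝ) = (γ 0 0 : ℝ) := by linarith
      exact_mod_cast this.symm
    have hb : γ 0 1 = 0 := by
      have : (γ 0 1 : ℝ) = 0 := by rw [hre, hc]; simp
      exact_mod_cast this
    have hsq : γ 0 0 * γ 0 0 = 1 := by
      rw [hb, ← had] at hdet
      linarith
    have hX2 : (γ : Matrix (Fin 2) (Fin 2) ℤ) ^ 2 = 1 := by
      ext i j
      rw [pow_two, Matrix.mul_apply, Fin.sum_univ_two]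
      fin_cases i <;> fin_cases j
      · simp [hb, hsq]
      · simp [hb]
      · simp [hc]
      · simp [hc, ← had, hsq]
    calc (γ : Matrix (Fin 2) (Fin 2) ℤ) ^ 12 = ((γ : Matrix (Fin 2) (Fin 2) ℤ) ^ 2) ^ 6 := by
          rw [← pow_mul]
      _ = 1 := by rw [hX2, one_pow]
  · have hcR : (γ 1 0 : ℝ) ^ 2 * y ^ 2 > 0 := by
      have : (γ 1 0 : ℝ) ≠ 0 := by exact_mod_cast hc
      positivity
    have hlt : ((γ 0 0 : ℝ) + γ 1 1) ^ 2 < 4 := by rw [htrR]; linarith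
    have hltZ : (γ 0 0 + γ 1 1) ^ 2 < 4 := by exact_mod_cast hlt
    have ht : γ 0 0 + γ 1 1 = 0 ∨ γ 0 0 + γ 1 1 = 1 ∨ γ 0 0 + γ 1 1 = -1 := by
      have h1 : -2 < γ 0 0 + γ 1 1 := by nlinarith
      have h2 : γ 0 0 + γ 1 1 < 2 := by nlinarith
      omega
    exact sl2_pow_twelve_of_trace _ _ (sl2_mul_self_entries _ γ.det_coe) ht

/-! ### Parabolic elements -/

/-- The multiplier relation only depends on the action of `γ` on `ℍ`. -/
theorem IsMultiplier.congr_smul {γ γ' : SL(2, ℤ)} {a g : ℍ → ℂ} {ζ : ℂ}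
    (hγ : ∀ τ : ℍ, γ • τ = γ' • τ) (h : IsMultiplier γ a g ζ) : IsMultiplier γ' a g ζ := by
  intro τ
  have := h τ
  rwa [hγ τ] at this

/-- An element of `SL(2,ℤ)` with `tr² = 4` acts on `ℍ` as a conjugate `σ T^k σ⁻¹` of a power
of `T`. -/
theorem exists_conj_T_zpow_smul (γ : SL(2, ℤ))
    (hγ : ((γ : SL(2, ℤ)) : Matrix (Fin 2) (Fin 2) ℤ).trace ^ 2 = 4) :
    ∃ (σ : SL(2, ℤ)) (k : ℤ), ∀ τ : ℍ, γ • τ = (σ * ModularGroup.T ^ k * σ⁻¹) • τ := by
  obtain ⟨δ, β, hβ, hγδ⟩ := Fermat.Agent.S21.parabolic_exists_conj_upper γ hγ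
  obtain ⟨n, hn⟩ := ModularGroup.exists_eq_T_zpow_of_c_eq_zero hβ
  refine ⟨δ, n, fun τ => ?_⟩
  have e : γ = δ * β * δ⁻¹ := by
    rw [← hγδ]; group
  rw [e, mul_smul, mul_smul, hn, mul_smul, mul_smul]

namespace RootData

variable {Γ : Subgroup SL(2, ℤ)} {p : ℕ}

/-- **Cusp criterion for the multiplier character.**  If `γ ∈ Γ` acts as `σ T^k σ⁻¹` and
`(a/g)^p ∘ σ` has a holomorphic `k`-periodic `p`-th root on a half plane, then `χ(γ) = 1`. -/
theorem mult_eq_one_of_periodic_root (D : RootData Γ p) (γ : Γ) {σ : SL(2, ℤ)} {k : ℤ}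
    (hγ : ∀ τ : ℍ, (γ : SL(2, ℤ)) • τ = (σ * ModularGroup.T ^ k * σ⁻¹) • τ)
    {Y : ℝ} {r : ℂ → ℂ} (hr : DifferentiableOn ℂ r {z : ℂ | Y < z.im})
    (hper : ∀ z : ℂ, Y < z.im → r (z + k) = r z)
    (hroot : ∀ τ : ℍ, Y < τ.im → r τ ^ p * D.g (σ • τ) ^ p = D.a (σ • τ) ^ p) :
    D.mult γ = 1 := by
  apply Units.ext
  exact ((D.multVal_spec γ).congr_smul hγ).eq_one_of_periodic_root D.p_ne_zero D.mdiff_a D.mdiff_g
    D.a_ne_zero D.g_ne_zero hr hper hroot

/-- **Parabolic elements.**  If `(a/g)^p ∘ σ` has a periodic holomorphic `p`-th root near `i∞`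
for every conjugate `σ T^k σ⁻¹` acting as an element of `Γ`, then the multiplier character is
trivial on all elements of `Γ` of trace `±2`. -/
theorem mult_eq_one_of_trace (D : RootData Γ p)
    (hcusp : ∀ (γ : Γ) (σ : SL(2, ℤ)) (k : ℤ),
      (∀ τ : ℍ, (γ : SL(2, ℤ)) • τ = (σ * ModularGroup.T ^ k * σ⁻¹) • τ) →
      ∃ (Y : ℝ) (r : ℂ → ℂ), DifferentiableOn ℂ r {z : ℂ | Y < z.im} ∧
        (∀ z : ℂ, Y < z.im → r (z + k) = r z) ∧
        ∀ τ : ℍ, Y < τ.im → r τ ^ p * D.g (σ • τ) ^ p = D.a (σ • τ) ^ p)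
    (γ : Γ) (hγ : ((γ : SL(2, ℤ)) : Matrix (Fin 2) (Fin 2) ℤ).trace ^ 2 = 4) : D.mult γ = 1 := by
  obtain ⟨σ, k, hσ⟩ := exists_conj_T_zpow_smul (γ : SL(2, ℤ)) hγ
  obtain ⟨Y, r, hr, hper, hroot⟩ := hcusp γ σ k hσ
  exact D.mult_eq_one_of_periodic_root γ hσ hr hper hroot

/-- The additive multiplier character is a parabolic homomorphism (prelude's
`IsParabolicHom`) as soon as the cusp condition holds. -/
theorem isParabolicHom_multAdd (D : RootData Γ p)
    (hcusp : ∀ (γ : Γ) (σ : SL(2, ℤ)) (k : ℤ),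
      (∀ τ : ℍ, (γ : SL(2, ℤ)) • τ = (σ * ModularGroup.T ^ k * σ⁻¹) • τ) →
      ∃ (Y : ℝ) (r : ℂ → ℂ), DifferentiableOn ℂ r {z : ℂ | Y < z.im} ∧
        (∀ z : ℂ, Y < z.im → r (z + k) = r z) ∧
        ∀ τ : ℍ, Y < τ.im → r τ ^ p * D.g (σ • τ) ^ p = D.a (σ • τ) ^ p) :
    ModularCurve.Period.IsParabolicHom Γ D.multAdd := by
  intro γ hγ
  rw [multAdd_apply, D.mult_eq_one_of_trace hcusp γ hγ]
  rfl

/-- **Elliptic elements, `p` prime to `6`.**  The multiplier character is trivial on every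
element of `Γ` with a fixed point in `ℍ`. -/
theorem mult_eq_one_of_fixed_of_coprime (D : RootData Γ p) (hp6 : Nat.Coprime p 6) (γ : Γ)
    {τ₀ : ℍ} (hfix : (γ : SL(2, ℤ)) • τ₀ = τ₀) : D.mult γ = 1 := by
  have h12 : γ ^ 12 = 1 := by
    apply Subtype.ext
    rw [Subgroup.coe_pow, Subgroup.coe_one]
    exact pow_twelve_eq_one_of_fixed _ τ₀ hfix
  have h1 : D.mult γ ^ 12 = 1 := by rw [← map_pow, h12, map_one]
  have h2 := D.mult_pow γ
  have h3 : D.mult γ ^ Nat.gcd p 12 = 1 := pow_gcd_eq_one.mpr ⟨h2, h1⟩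
  have hcop : Nat.gcd p 12 = 1 := by
    have : Nat.Coprime p (2 * 6) := Nat.Coprime.mul_right (hp6.coprime_dvd_right (by norm_num)) hp6
    exact this
  rwa [hcop, pow_one] at h3

/-- The root datum attached to a holomorphic solution `a` of `a ^ p = f * g ^ (p - 1)`, where
`f / g` is `Γ`-invariant: `a / g` is a `p`-th root of `f / g`. -/
def ofPowEq (hp : p ≠ 0) {a f g : ℍ → ℂ} (ha : MDiff a) (hg : MDiff g) (ha0 : a ≠ 0)
    (hg0 : g ≠ 0) (hpow : ∀ τ, a τ ^ p = f τ * g τ ^ (p - 1))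
    (hinv : ∀ γ ∈ Γ, ∀ τ : ℍ, f (γ • τ) * g τ = f τ * g (γ • τ)) : RootData Γ p where
  a := a
  g := g
  p_ne_zero := hp
  mdiff_a := ha
  mdiff_g := hg
  a_ne_zero := ha0
  g_ne_zero := hg0
  pow_inv γ hγ τ := by
    obtain ⟨n, rfl⟩ : ∃ n, p = n + 1 := Nat.exists_eq_succ_of_ne_zero hp
    have h1 := hinv γ hγ τ
    have h2 := hpow τ
    have h3 := hpow (γ • τ)
    simp only [Nat.add_sub_cancel] at h2 h3
    rw [mul_pow, mul_pow, h2, h3, pow_succ (g τ), pow_succ (g (γ • τ))]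
    linear_combination (g (γ • τ) ^ n * g τ ^ n) * h1

@[simp] theorem ofPowEq_a (hp : p ≠ 0) {a f g : ℍ → ℂ} (ha : MDiff a) (hg : MDiff g)
    (ha0 : a ≠ 0) (hg0 : g ≠ 0) (hpow : ∀ τ, a τ ^ p = f τ * g τ ^ (p - 1))
    (hinv : ∀ γ ∈ Γ, ∀ τ : ℍ, f (γ • τ) * g τ = f τ * g (γ • τ)) :
    (ofPowEq (Γ := Γ) hp ha hg ha0 hg0 hpow hinv).a = a := rfl

@[simp] theorem ofPowEq_g (hp : p ≠ 0) {a f g : ℍ → ℂ} (ha : MDiff a) (hg : MDiff g)
    (ha0 : a ≠ 0) (hg0 : g ≠ 0) (hpow : ∀ τ, a τ ^ p = f τ * g τ ^ (p - 1))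
    (hinv : ∀ γ ∈ Γ, ∀ τ : ℍ, f (γ • τ) * g τ = f τ * g (γ • τ)) :
    (ofPowEq (Γ := Γ) hp ha hg ha0 hg0 hpow hinv).g = g := rfl

/-- **Existence of the root datum** (A1 + A2): if `f / g` is `Γ`-invariant and all its orders
on `ℍ` are divisible by `p`, there is a root datum `a / g` with `(a/g)^p = f/g`. -/
theorem exists_ofDiv (hp : p ≠ 0) {f g : ℍ → ℂ} (hf : MDiff f) (hg : MDiff g) (hf0 : f ≠ 0)
    (hg0 : g ≠ 0)
    (hord : ∀ τ : ℍ, ∃ k : ℤ, ((ordAt τ f).toNat : ℤ) - ((ordAt τ g).toNat : ℤ) = p * k)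
    (hinv : ∀ γ ∈ Γ, ∀ τ : ℍ, f (γ • τ) * g τ = f τ * g (γ • τ)) :
    ∃ D : RootData Γ p, D.g = g ∧ ∀ τ, D.a τ ^ p = f τ * g τ ^ (p - 1) := by
  obtain ⟨a, ha, ha0, hpow⟩ := exists_mdiff_pow_eq_div hp hf hg hf0 hg0 hord
  exact ⟨ofPowEq hp ha hg ha0 hg0 hpow hinv, rfl, hpow⟩

end RootData

end Fermat.Agent.ES

end
end ZBES_011_1

/-! ### bundled: `Fermat.Agent.ES.RootOfKummer` -/
section ZBES_011_2

/-!
# ESpkg-G1, pieces AN + INJ (function/field level): the root datum of a Kummer function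

`F` is any field of fractions of `modFunAlg M` (e.g. `K_ℂ = modularFunctionFieldFullC ℂ M` with
helper85's instances `rc_algebra`, `rc_isScalarTower`, `rc_isFractionRing`).

* `dvd_ordPt_sub_of_places` : if `n ∣ w.ord x` for every place `w` of `F / ℂ` and `x = a / g`
  with `a g ∈ modFunAlg M`, then `n ∣ ord_τ a - ord_τ g` for every `τ ∈ ℍ` (uses `RC.StmtPt`);
* `exists_rootData_of_modFun` : then there is a root datum `D` (`RootData (Gamma0 M) n`) with
  `D.g = g`, `D.a ^ n = a * g ^ (n - 1)`: `D.a / g` is an `n`-th root of `a / g` on `ℍ`;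
* `exists_rootData_of_places` : both steps together;
* `exists_pow_eq_of_mult_eq_one` : if the multiplier character of `D` is trivial then `a / g` is
  an `n`-th power in `F`;
* `mult_eq_one_of_pow_eq` : conversely, `n`-th powers in `F` have trivial multiplier.
-/

set_option autoImplicit false

noncomputable section

open UpperHalfPlane AlgebraicCurve CongruenceSubgroup
open scoped MatrixGroups Manifold

namespace Fermat.Agent.ES

open Fermat.Agent.S24 Fermat.Agent.S28 Fermat.Agent.ES.RC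

section Analytic

variable {M n : ℕ}

/-- **AN (analytic step).**  If `a`, `g` are modular functions for `Γ₀(M)` and `n` divides
`ord_τ a - ord_τ g` at every point of `ℍ`, then `a / g` has an `n`-th root `D.a / g` on `ℍ`,
which is a root datum for `Γ₀(M)`. -/
theorem exists_rootData_of_modFun (hn : n ≠ 0) {a g : ℍ → ℂ} (ha : IsModFun M a)
    (hg : IsModFun M g) (ha0 : a ≠ 0) (hg0 : g ≠ 0)
    (hord : ∀ τ : ℍ, (n : ℤ) ∣ ordPt τ a - ordPt τ g) :
    ∃ D : RootData (Gamma0 M) n, D.g = g ∧ ∀ τ, D.a τ ^ n = a τ * g τ ^ (n - 1) := by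
  refine RootData.exists_ofDiv hn (rc_mdiff_of_isModFun ha) (rc_mdiff_of_isModFun hg) ha0 hg0
    (fun τ => ?_) (fun γ hγ τ => ?_)
  · obtain ⟨k, hk⟩ := hord τ
    exact ⟨k, hk⟩
  · rw [isModFun_comp_smul ha hγ τ, isModFun_comp_smul hg hγ τ]

end Analytic

section Field

variable (M : ℕ) [NeZero M] (F : Type) [Field F] [Algebra ℂ F] [Algebra (modFunAlg M) F]
  [IsFractionRing (modFunAlg M) F] {n : ℕ}

omit [Algebra ℂ F] in
theorem algebraMap_modFunAlg_ne_zero {a : modFunAlg M} (ha : a ≠ 0) :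
    algebraMap (modFunAlg M) F a ≠ 0 := by
  intro h
  apply ha
  exact IsFractionRing.injective (modFunAlg M) F (by rw [h, map_zero])

theorem coe_modFunAlg_ne_zero {a : modFunAlg M} (ha : a ≠ 0) : (a : ℍ → ℂ) ≠ 0 :=
  fun h => ha (Subtype.ext h)

/-- **AN (places ⟹ orders).**  If `n` divides the order of `a / g` at every place of `F / ℂ`,
then `n` divides `ord_τ a - ord_τ g` at every `τ ∈ ℍ`. -/
theorem dvd_ordPt_sub_of_places (hPt : StmtPt M F) {a g : modFunAlg M} (ha0 : a ≠ 0)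
    (hg0 : g ≠ 0)
    (hU : ∀ w : Place ℂ F,
      (n : ℤ) ∣ w.ord (algebraMap (modFunAlg M) F a / algebraMap (modFunAlg M) F g))
    (τ : ℍ) : (n : ℤ) ∣ ordPt τ (a : ℍ → ℂ) - ordPt τ (g : ℍ → ℂ) := by
  obtain ⟨v, e, -, h⟩ := hPt τ
  have ha' := algebraMap_modFunAlg_ne_zero M F ha0
  have hg' := algebraMap_modFunAlg_ne_zero M F hg0
  have h1 : v.ord (algebraMap (modFunAlg M) F a / algebraMap (modFunAlg M) F g)
      = v.ord (algebraMap (modFunAlg M) F a) - v.ord (algebraMap (modFunAlg M) F g) := by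
    rw [div_eq_mul_inv, Place.ord_mul v ha' (inv_ne_zero hg'), Place.ord_inv, sub_eq_add_neg]
  rw [h a ha0, h g hg0, ← mul_sub, ← h1]
  exact Dvd.dvd.mul_left (hU v) _

/-- **AN.**  A Kummer function `x = a / g` of `F` (all orders at places divisible by `n`) has a
root datum: a holomorphic `D.a` on `ℍ` with `D.a ^ n = a * g ^ (n - 1)`, i.e.
`(D.a / g) ^ n = a / g`. -/
theorem exists_rootData_of_places (hn : n ≠ 0) (hPt : StmtPt M F) {a g : modFunAlg M}
    (ha0 : a ≠ 0) (hg0 : g ≠ 0)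
    (hU : ∀ w : Place ℂ F,
      (n : ℤ) ∣ w.ord (algebraMap (modFunAlg M) F a / algebraMap (modFunAlg M) F g)) :
    ∃ D : RootData (Gamma0 M) n, D.g = (g : ℍ → ℂ) ∧
      ∀ τ, D.a τ ^ n = (a : ℍ → ℂ) τ * (g : ℍ → ℂ) τ ^ (n - 1) :=
  exists_rootData_of_modFun hn a.2 g.2 (coe_modFunAlg_ne_zero M ha0) (coe_modFunAlg_ne_zero M hg0)
    (dvd_ordPt_sub_of_places M F hPt ha0 hg0 hU)

omit [Algebra ℂ F] in
/-- **INJ (field step).**  If the multiplier character of the root datum of `a / g` is trivial,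
then `a / g` is an `n`-th power in `F`. -/
theorem exists_pow_eq_of_mult_eq_one (D : RootData (Gamma0 M) n) (hmult : D.mult = 1)
    {a g : modFunAlg M} (hg0 : g ≠ 0) (hDg : D.g = (g : ℍ → ℂ))
    (hpow : ∀ τ, D.a τ ^ n = (a : ℍ → ℂ) τ * (g : ℍ → ℂ) τ ^ (n - 1)) :
    ∃ k : F, k ^ n = algebraMap (modFunAlg M) F a / algebraMap (modFunAlg M) F g := by
  have hDa : IsModFun M D.a :=
    D.isModFun_a_of_pow_eq hmult a.2 (by rw [hDg]; exact g.2) (by
      intro τ
      rw [hDg]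
      exact hpow τ)
  set b : modFunAlg M := ⟨D.a, hDa⟩ with hb
  have hg' := algebraMap_modFunAlg_ne_zero M F hg0
  refine ⟨algebraMap (modFunAlg M) F b / algebraMap (modFunAlg M) F g, ?_⟩
  have hn : n ≠ 0 := D.p_ne_zero
  have h1 : b ^ n = a * g ^ (n - 1) := by
    apply Subtype.ext
    funext τ
    exact hpow τ
  rw [div_pow, ← map_pow, h1, map_mul, map_pow]
  obtain ⟨m, rfl⟩ : ∃ m, n = m + 1 := Nat.exists_eq_succ_of_ne_zero hn
  simp only [Nat.add_sub_cancel]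
  field_simp
  ring

omit [Algebra ℂ F] in
/-- **INJ (converse).**  If `a / g = (b / c) ^ n` in `F` with `b c ∈ modFunAlg M`, then the
multiplier character of any root datum of `a / g` is trivial. -/
theorem mult_eq_one_of_pow_eq (D : RootData (Gamma0 M) n) {a g b c : modFunAlg M} (hg0 : g ≠ 0)
    (hb0 : b ≠ 0) (hc0 : c ≠ 0) (hDg : D.g = (g : ℍ → ℂ))
    (hpow : ∀ τ, D.a τ ^ n = (a : ℍ → ℂ) τ * (g : ℍ → ℂ) τ ^ (n - 1))
    (h : (algebraMap (modFunAlg M) F b / algebraMap (modFunAlg M) F c) ^ n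
      = algebraMap (modFunAlg M) F a / algebraMap (modFunAlg M) F g) : D.mult = 1 := by
  have hn : n ≠ 0 := D.p_ne_zero
  have hg' := algebraMap_modFunAlg_ne_zero M F hg0
  have hc' := algebraMap_modFunAlg_ne_zero M F hc0
  -- `b ^ n * g = a * c ^ n` in `modFunAlg M`
  have h1 : b ^ n * g = a * c ^ n := by
    apply IsFractionRing.injective (modFunAlg M) F
    rw [map_mul, map_mul, map_pow, map_pow]
    rw [div_pow, div_eq_div_iff (pow_ne_zero _ hc') hg'] at h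
    exact h
  have h1' : ∀ τ, (b : ℍ → ℂ) τ ^ n * (g : ℍ → ℂ) τ = (a : ℍ → ℂ) τ * (c : ℍ → ℂ) τ ^ n :=
    fun τ => congrFun (congrArg Subtype.val h1) τ
  refine D.mult_eq_one_of_pow_eq_invariant (rc_mdiff M b) (rc_mdiff M c)
    (coe_modFunAlg_ne_zero M hb0) (coe_modFunAlg_ne_zero M hc0) (fun γ hγ τ => ?_) (fun τ => ?_)
  · rw [isModFun_comp_smul b.2 hγ τ, isModFun_comp_smul c.2 hγ τ]
  · -- `(D.a c)^n = a g^(n-1) c^n = b^n g^n`
    rw [hDg, mul_pow, mul_pow, hpow τ]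
    obtain ⟨m, rfl⟩ : ∃ m, n = m + 1 := Nat.exists_eq_succ_of_ne_zero hn
    simp only [Nat.add_sub_cancel]
    have := h1' τ
    linear_combination (-(g : ℍ → ℂ) τ ^ m) * this

end Field

end Fermat.Agent.ES

end
end ZBES_011_2

/-! ### bundled: `Fermat.Agent.ES.CuspRoot` -/
section ZBES_011_3

/-!
# ESpkg-G1 piece A2, cusp part: periodic `p`-th roots at a cusp

* `exists_periodic_root`: if `Φ` is meromorphic at `0` with order `p * n`, then on a half plane
  `Im τ > Y` the function `τ ↦ Φ (q_k τ)` has a `k`-periodic, holomorphic, non-vanishing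
  `p`-th root.
* `exists_root_factor`: if moreover `A ^ p = Φ (q_k) * B ^ p` near `i∞` with `A`, `B` holomorphic
  on `ℍ`, then `A = r * B` on a half plane with `r` `k`-periodic and non-vanishing.
* `periodic_cross_of_pow_eq`, `periodic_cross_of_pow_mul_eq`: consequently `A / B` is `k`-periodic
  near `i∞`, in the cross-multiplied form `A (τ + k) * B τ = A τ * B (τ + k)`.
-/

set_option autoImplicit false

noncomputable section

open Complex Filter Topology UpperHalfPlane Function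
open scoped Manifold

namespace Fermat.Agent.ES

open Fermat.Agent.S24 (cuspFn IsPer)

/-- A local analytic `p`-th root of an analytic function that does not vanish at `0`. -/
theorem cuspRoot_local {p : ℕ} (hp : p ≠ 0) {G : ℂ → ℂ} (hG : AnalyticAt ℂ G 0) (hG0 : G 0 ≠ 0) :
    ∃ H : ℂ → ℂ, ∀ᶠ q in 𝓝 (0 : ℂ), AnalyticAt ℂ H q ∧ H q ^ p = G q ∧ H q ≠ 0 := by
  obtain ⟨c, hc⟩ := IsAlgClosed.exists_pow_nat_eq (G 0) (Nat.pos_of_ne_zero hp)
  have hc0 : c ≠ 0 := by
    rintro rfl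
    rw [zero_pow hp] at hc
    exact hG0 hc.symm
  have hp' : (p : ℂ) ≠ 0 := by exact_mod_cast hp
  refine ⟨fun q => c * Complex.exp (Complex.log (G q / G 0) / p), ?_⟩
  have hH : AnalyticAt ℂ (fun q => c * Complex.exp (Complex.log (G q / G 0) / p)) 0 := by
    have h1 : AnalyticAt ℂ (fun q => G q / G 0) 0 := hG.div analyticAt_const hG0
    have h2 : AnalyticAt ℂ (fun q => Complex.log (G q / G 0)) 0 := by
      refine h1.clog ?_
      simp [div_self hG0]
    exact analyticAt_const.mul (h2.div analyticAt_const hp').cexp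
  have hne : ∀ᶠ q in 𝓝 (0 : ℂ), G q ≠ 0 := hG.continuousAt.eventually_ne hG0
  filter_upwards [hH.eventually_analyticAt, hne] with q hq hq'
  refine ⟨hq, ?_, mul_ne_zero hc0 (Complex.exp_ne_zero _)⟩
  rw [mul_pow, ← Complex.exp_nat_mul, mul_div_cancel₀ _ hp', Complex.exp_log (div_ne_zero hq' hG0),
    hc]
  field_simp

theorem cuspRoot_qParam_vadd {k : ℕ} (hk : 0 < k) (τ : ℍ) :
    Function.Periodic.qParam (k : ℝ) (((k : ℝ) +ᵥ τ : ℍ) : ℂ)
      = Function.Periodic.qParam (k : ℝ) (τ : ℂ) := by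
  have hk' : ((k : ℝ) : ℂ) ≠ 0 := by exact_mod_cast hk.ne'
  rw [coe_vadd]
  simp only [Function.Periodic.qParam]
  rw [show 2 * (Real.pi : ℂ) * Complex.I * (((k : ℝ) : ℂ) + (τ : ℂ)) / ((k : ℝ) : ℂ)
      = 2 * (Real.pi : ℂ) * Complex.I * (τ : ℂ) / ((k : ℝ) : ℂ) + 2 * Real.pi * Complex.I by
    field_simp
    ring]
  rw [Complex.exp_add, Complex.exp_two_pi_mul_I, mul_one]

theorem cuspRoot_qParam_ne_zero (k : ℕ) (z : ℂ) : Function.Periodic.qParam (k : ℝ) z ≠ 0 :=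
  Complex.exp_ne_zero _

/-- **Periodic `p`-th root at a cusp.**  If `Φ` is meromorphic at `0` of order `p * n`, then
`τ ↦ Φ (q_k τ)` has a `k`-periodic, holomorphic, non-vanishing `p`-th root on a half plane. -/
theorem exists_periodic_root {k p : ℕ} (hk : 0 < k) (hp : p ≠ 0) {Φ : ℂ → ℂ}
    (hmero : MeromorphicAt Φ 0) {n : ℤ} (hord : meromorphicOrderAt Φ 0 = (((p : ℤ) * n : ℤ) : ℤ)) :
    ∃ (Y : ℝ) (r : ℍ → ℂ), 0 < Y ∧ IsPer k r ∧
      (∀ τ : ℍ, Y < τ.im → MDifferentiableAt 𝓘(ℂ) 𝓘(ℂ) r τ) ∧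
      (∀ τ : ℍ, Y < τ.im → r τ ≠ 0) ∧
      (∀ τ : ℍ, Y < τ.im → r τ ^ p = Φ (Function.Periodic.qParam (k : ℝ) τ)) := by
  obtain ⟨G, hG, hG0, hΦ⟩ := (meromorphicOrderAt_eq_int_iff hmero).mp hord
  obtain ⟨H, hH⟩ := cuspRoot_local hp hG hG0
  have hH' : ∀ᶠ q in 𝓝[≠] (0 : ℂ), AnalyticAt ℂ H q ∧ H q ^ p = G q ∧ H q ≠ 0 :=
    hH.filter_mono nhdsWithin_le_nhds
  have hev := (Fermat.Agent.S24.tendsto_qParam_nhdsNE hk).eventually (hΦ.and hH')
  obtain ⟨Y₀, hY₀⟩ := (UpperHalfPlane.atImInfty_mem _).mp hev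
  set r : ℍ → ℂ := fun τ => Function.Periodic.qParam (k : ℝ) τ ^ n
      * H (Function.Periodic.qParam (k : ℝ) τ) with hr
  refine ⟨max Y₀ 1, r, lt_max_of_lt_right one_pos, ?_, ?_, ?_, ?_⟩
  · intro τ
    simp only [hr, cuspRoot_qParam_vadd hk]
  · intro τ hτ
    have h := hY₀ τ ((le_max_left _ _).trans hτ.le)
    simp only [Set.mem_ofPred_eq] at h
    obtain ⟨-, hHan, -, -⟩ := h
    have hq : DifferentiableAt ℂ (Function.Periodic.qParam (k : ℝ)) (τ : ℂ) :=
      Function.Periodic.differentiable_qParam.differentiableAt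
    have h1 : DifferentiableAt ℂ (fun z : ℂ => Function.Periodic.qParam (k : ℝ) z ^ n
        * H (Function.Periodic.qParam (k : ℝ) z)) (τ : ℂ) := by
      refine DifferentiableAt.mul ?_ ?_
      · exact hq.zpow (Or.inl (cuspRoot_qParam_ne_zero k _))
      · exact (hHan.differentiableAt).comp (τ : ℂ) hq
    exact h1.mdifferentiableAt.comp τ (mdifferentiable_coe τ)
  · intro τ hτ
    have h := hY₀ τ ((le_max_left _ _).trans hτ.le)
    simp only [Set.mem_ofPred_eq] at h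
    obtain ⟨-, -, -, hH0⟩ := h
    exact mul_ne_zero (zpow_ne_zero _ (cuspRoot_qParam_ne_zero k _)) hH0
  · intro τ hτ
    have h := hY₀ τ ((le_max_left _ _).trans hτ.le)
    simp only [Set.mem_ofPred_eq] at h
    obtain ⟨hΦτ, -, hHp, -⟩ := h
    rw [hΦτ, hr]
    simp only [sub_zero, smul_eq_mul]
    rw [mul_pow, hHp, ← zpow_natCast, ← zpow_mul, mul_comm n (p : ℤ)]

/-- The version for a `k`-periodic function on `ℍ`. -/
theorem exists_periodic_root_of_isPer {k p : ℕ} (hk : 0 < k) (hp : p ≠ 0) {U : ℍ → ℂ}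
    (hper : IsPer k U) (hmero : MeromorphicAt (cuspFn k U) 0) {n : ℤ}
    (hord : meromorphicOrderAt (cuspFn k U) 0 = (((p : ℤ) * n : ℤ) : ℤ)) :
    ∃ (Y : ℝ) (r : ℍ → ℂ), 0 < Y ∧ IsPer k r ∧
      (∀ τ : ℍ, Y < τ.im → MDifferentiableAt 𝓘(ℂ) 𝓘(ℂ) r τ) ∧
      (∀ τ : ℍ, Y < τ.im → r τ ≠ 0) ∧
      (∀ τ : ℍ, Y < τ.im → r τ ^ p = U τ) := by
  obtain ⟨Y, r, hY, h1, h2, h3, h4⟩ := exists_periodic_root hk hp hmero hord
  refine ⟨Y, r, hY, h1, h2, h3, fun τ hτ => ?_⟩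
  rw [h4 τ hτ, Fermat.Agent.S24.cuspFn_qParam hk hper]

/-! ### Rigidity on a half plane -/

/-- Two holomorphic functions on a connected open set with the same `p`-th power differ by a
`p`-th root of unity. -/
theorem cuspRoot_rigid {p : ℕ} (hp : p ≠ 0) {a c : ℂ → ℂ} {V : Set ℂ} (hV : IsOpen V)
    (hVc : IsPreconnected V) (ha : DifferentiableOn ℂ a V) (hc : DifferentiableOn ℂ c V)
    (hpow : ∀ z ∈ V, a z ^ p = c z ^ p) :
    ∃ ζ : ℂ, ζ ^ p = 1 ∧ ∀ z ∈ V, a z = ζ * c z := by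
  by_cases h : ∃ z₀ ∈ V, c z₀ ≠ 0
  · obtain ⟨z₀, hz₀, hcz₀⟩ := h
    have haz₀ : a z₀ ≠ 0 := by
      intro h0
      have := hpow z₀ hz₀
      rw [h0, zero_pow hp] at this
      exact pow_ne_zero p hcz₀ this.symm
    have hζ : (a z₀ / c z₀) ^ p = 1 := by
      rw [div_pow, hpow z₀ hz₀, div_self (pow_ne_zero p hcz₀)]
    refine ⟨a z₀ / c z₀, hζ, ?_⟩
    have := pthRoot_eqOn hp hV hVc ha (hc.const_mul (a z₀ / c z₀))
      (fun z hz => by rw [mul_pow, hζ, one_mul, hpow z hz]) hz₀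
      (by rw [div_mul_cancel₀ _ hcz₀]) (by rw [div_mul_cancel₀ _ hcz₀]; exact haz₀)
    exact fun z hz => this hz
  · simp only [not_exists, not_and, not_not] at h
    refine ⟨1, one_pow p, fun z hz => ?_⟩
    have h1 := hpow z hz
    rw [h z hz, zero_pow hp] at h1
    rw [h z hz, mul_zero]
    exact pow_eq_zero_iff hp |>.mp h1

theorem cuspRoot_isOpen_halfPlane (Y : ℝ) : IsOpen {z : ℂ | Y < z.im} :=
  isOpen_lt continuous_const Complex.continuous_im

theorem cuspRoot_isPreconnected_halfPlane (Y : ℝ) : IsPreconnected {z : ℂ | Y < z.im} := by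
  have : Convex ℝ {z : ℂ | Y < z.im} := by
    have h := (convex_Ioi Y).linear_preimage Complex.imLm
    exact h
  exact this.isPreconnected

/-- **Factorisation near the cusp.**  If `A ^ p = Φ(q_k) · B ^ p` near `i∞`, with `A`, `B`
holomorphic on `ℍ` and `Φ` meromorphic at `0` of order divisible by `p`, then `A = r · B` on a
half plane, with `r` `k`-periodic and non-vanishing there. -/
theorem exists_root_factor {k p : ℕ} (hk : 0 < k) (hp : p ≠ 0) {Φ : ℂ → ℂ}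
    (hmero : MeromorphicAt Φ 0) {n : ℤ} (hord : meromorphicOrderAt Φ 0 = (((p : ℤ) * n : ℤ) : ℤ))
    {A B : ℍ → ℂ} (hA : MDifferentiable 𝓘(ℂ) 𝓘(ℂ) A) (hB : MDifferentiable 𝓘(ℂ) 𝓘(ℂ) B)
    (hpow : ∀ᶠ τ in atImInfty, A τ ^ p = Φ (Function.Periodic.qParam (k : ℝ) τ) * B τ ^ p) :
    ∃ (Y : ℝ) (r : ℍ → ℂ), 0 < Y ∧ IsPer k r ∧
      (∀ τ : ℍ, Y < τ.im → MDifferentiableAt 𝓘(ℂ) 𝓘(ℂ) r τ) ∧
      (∀ τ : ℍ, Y < τ.im → r τ ≠ 0) ∧
      (∀ τ : ℍ, Y < τ.im → r τ ^ p = Φ (Function.Periodic.qParam (k : ℝ) τ)) ∧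
      (∀ τ : ℍ, Y < τ.im → A τ = r τ * B τ) := by
  obtain ⟨Y₁, r, hY₁, hrper, hrdiff, hr0, hrp⟩ := exists_periodic_root hk hp hmero hord
  obtain ⟨Y₂, hY₂⟩ := (UpperHalfPlane.atImInfty_mem _).mp hpow
  set Y := max Y₁ Y₂ with hY
  have hYpos : 0 < Y := lt_max_of_lt_left hY₁
  set V : Set ℂ := {z : ℂ | Y < z.im} with hVdef
  have hVpos : ∀ z ∈ V, 0 < z.im := fun z hz => hYpos.trans hz
  have hVsub : V ⊆ {z : ℂ | 0 < z.im} := hVpos
  have haD : DifferentiableOn ℂ (A ∘ ofComplex) V :=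
    (UpperHalfPlane.mdifferentiable_iff.mp hA).mono hVsub
  have hbD : DifferentiableOn ℂ (B ∘ ofComplex) V :=
    (UpperHalfPlane.mdifferentiable_iff.mp hB).mono hVsub
  have hrD : DifferentiableOn ℂ (r ∘ ofComplex) V := by
    intro z hz
    have hz0 : 0 < z.im := hVpos z hz
    have h1 := hrdiff ⟨z, hz0⟩ (by
      show Y₁ < z.im
      exact (le_max_left _ _).trans_lt hz)
    have h2 := UpperHalfPlane.mdifferentiableAt_iff.mp h1
    exact h2.differentiableWithinAt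
  have hcD : DifferentiableOn ℂ (fun z => (r ∘ ofComplex) z * (B ∘ ofComplex) z) V := hrD.mul hbD
  have hpowV : ∀ z ∈ V, (A ∘ ofComplex) z ^ p
      = ((fun z => (r ∘ ofComplex) z * (B ∘ ofComplex) z) z) ^ p := by
    intro z hz
    have hz0 : 0 < z.im := hVpos z hz
    simp only [comp_apply, ofComplex_apply_of_im_pos hz0]
    have h1 := hY₂ ⟨z, hz0⟩ (by
      show Y₂ ≤ z.im
      exact (le_max_right _ _).trans hz.le)
    simp only [Set.mem_ofPred_eq] at h1
    have h2 := hrp ⟨z, hz0⟩ (by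
      show Y₁ < z.im
      exact (le_max_left _ _).trans_lt hz)
    rw [mul_pow, h2, h1]
  obtain ⟨ζ, hζ, hζeq⟩ := cuspRoot_rigid hp (cuspRoot_isOpen_halfPlane Y)
    (cuspRoot_isPreconnected_halfPlane Y) haD hcD hpowV
  have hζ0 : ζ ≠ 0 := by
    rintro rfl
    rw [zero_pow hp] at hζ
    exact zero_ne_one hζ
  refine ⟨Y, fun τ => ζ * r τ, hYpos, ?_, ?_, ?_, ?_, ?_⟩
  · intro τ
    simp only [hrper τ]
  · intro τ hτ
    exact (mdifferentiableAt_const (c := ζ)).mul (hrdiff τ ((le_max_left _ _).trans_lt hτ))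
  · intro τ hτ
    exact mul_ne_zero hζ0 (hr0 τ ((le_max_left _ _).trans_lt hτ))
  · intro τ hτ
    rw [mul_pow, hζ, one_mul]
    exact hrp τ ((le_max_left _ _).trans_lt hτ)
  · intro τ hτ
    have h := hζeq (τ : ℂ) hτ
    simp only [comp_apply, ofComplex_apply] at h
    rw [h, mul_assoc]

/-- **Periodicity of the quotient near the cusp**, in cross-multiplied form. -/
theorem periodic_cross_of_pow_eq {k p : ℕ} (hk : 0 < k) (hp : p ≠ 0) {Φ : ℂ → ℂ}
    (hmero : MeromorphicAt Φ 0) {n : ℤ} (hord : meromorphicOrderAt Φ 0 = (((p : ℤ) * n : ℤ) : ℤ))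
    {A B : ℍ → ℂ} (hA : MDifferentiable 𝓘(ℂ) 𝓘(ℂ) A) (hB : MDifferentiable 𝓘(ℂ) 𝓘(ℂ) B)
    (hpow : ∀ᶠ τ in atImInfty, A τ ^ p = Φ (Function.Periodic.qParam (k : ℝ) τ) * B τ ^ p) :
    ∃ Y : ℝ, 0 < Y ∧ ∀ τ : ℍ, Y < τ.im →
      A ((k : ℝ) +ᵥ τ) * B τ = A τ * B ((k : ℝ) +ᵥ τ) := by
  obtain ⟨Y, r, hY, hrper, -, -, -, hAB⟩ := exists_root_factor hk hp hmero hord hA hB hpow
  refine ⟨Y, hY, fun τ hτ => ?_⟩
  have hτ' : Y < ((k : ℝ) +ᵥ τ : ℍ).im := by
    rw [UpperHalfPlane.vadd_im]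
    exact hτ
  rw [hAB τ hτ, hAB _ hτ', hrper τ]
  ring

/-- The same for a quotient `F / G` of `k`-periodic functions whose cusp functions are
meromorphic, with `p ∣ ord F - ord G`, and `A ^ p * G = F * B ^ p`. -/
theorem periodic_cross_of_pow_mul_eq {k p : ℕ} (hk : 0 < k) (hp : p ≠ 0) {F G : ℍ → ℂ}
    (hFper : IsPer k F) (hGper : IsPer k G)
    (hFm : MeromorphicAt (cuspFn k F) 0) (hGm : MeromorphicAt (cuspFn k G) 0)
    {m₁ m₂ : ℤ} (hF : meromorphicOrderAt (cuspFn k F) 0 = (m₁ : ℤ))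
    (hG : meromorphicOrderAt (cuspFn k G) 0 = (m₂ : ℤ)) (hdvd : (p : ℤ) ∣ m₁ - m₂)
    {A B : ℍ → ℂ} (hA : MDifferentiable 𝓘(ℂ) 𝓘(ℂ) A) (hB : MDifferentiable 𝓘(ℂ) 𝓘(ℂ) B)
    (hpow : ∀ᶠ τ in atImInfty, A τ ^ p * G τ = F τ * B τ ^ p) :
    ∃ Y : ℝ, 0 < Y ∧ ∀ τ : ℍ, Y < τ.im →
      A ((k : ℝ) +ᵥ τ) * B τ = A τ * B ((k : ℝ) +ᵥ τ) := by
  obtain ⟨n, hn⟩ := hdvd
  set Φ : ℂ → ℂ := cuspFn k F * (cuspFn k G)⁻¹ with hΦ
  have hΦm : MeromorphicAt Φ 0 := hFm.mul hGm.inv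
  have hΦord : meromorphicOrderAt Φ 0 = (((p : ℤ) * n : ℤ) : ℤ) := by
    rw [hΦ, meromorphicOrderAt_mul hFm hGm.inv, meromorphicOrderAt_inv, hF, hG, ← hn]
    rw [sub_eq_add_neg]
    push_cast
    rfl
  have hGne : ∀ᶠ q in 𝓝[≠] (0 : ℂ), cuspFn k G q ≠ 0 :=
    (meromorphicOrderAt_ne_top_iff_eventually_ne_zero hGm).mp (by rw [hG]; exact WithTop.coe_ne_top)
  have hGne' := (Fermat.Agent.S24.tendsto_qParam_nhdsNE hk).eventually hGne
  refine periodic_cross_of_pow_eq hk hp hΦm hΦord hA hB ?_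
  filter_upwards [hpow, hGne'] with τ h1 h2
  rw [Fermat.Agent.S24.cuspFn_qParam hk hGper] at h2
  simp only [hΦ, Pi.mul_apply, Pi.inv_apply, Fermat.Agent.S24.cuspFn_qParam hk hFper,
    Fermat.Agent.S24.cuspFn_qParam hk hGper]
  field_simp
  linear_combination h1

end Fermat.Agent.ES

end
end ZBES_011_3

/-! ### bundled: `Fermat.Agent.ES.MuSurjDescent` -/
section ZBES_011_4

/-!
# ESpkg-G1, piece SUR (descent half): the group `U_ℂ(n)` of Kummer functions over `ℂ`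

`K_ℂ = modularFunctionFieldFullC ℂ M ⊂ ℂ((q))`,
`UC M n = {u ∈ K_ℂ^× : n ∣ w.ord u for every place w of K_ℂ / ℂ}`.

* `UC_coeffMap`     : `UC M n` is stable under the coefficientwise action of `Aut ℂ`;
* `UC_mul_pow`      : and under multiplication by `n`-th powers of `K_ℂ^×`;
* `UC_exists_root`  : every `u ∈ UC M n` is an `n`-th power in `ℂ((q))` (the cusp `∞` is a place);
* `UC_finite`       : `UC M n / K_ℂ^{×n}` is finite (multiplier characters; `Γ₀(M)` is finitely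
                      generated);
* `UC_exists_algebraic` : every class of `UC M n / K_ℂ^{×n}` contains `w ^ n` with `w` of algebraic
                      coefficients (A6-surj).
-/

set_option autoImplicit false
set_option linter.unusedSectionVars false
set_option linter.unusedVariables false
set_option linter.style.haveILetI false

noncomputable section

namespace Fermat.Agent.ES.Sur

open ModularCurve AlgebraicCurve CongruenceSubgroup UpperHalfPlane IntermediateField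
open Fermat.Agent.S24 Fermat.Agent.S28 Fermat.Agent.ES.RRFin
open scoped MatrixGroups Manifold

variable (M : ℕ) [NeZero M]

/-- the function field of `X₀(M)` over `ℂ`, inside `ℂ((q))`. -/
abbrev KC : IntermediateField ℂ (LaurentSeries ℂ) := modularFunctionFieldFullC ℂ M

/-! ## (a) `Aut ℂ` acts on `K_ℂ` by semilinear automorphisms -/

/-- the coefficientwise action of `σ ∈ Aut ℂ` on `K_ℂ`, as a ring automorphism. -/
def sigmaRingAut (σ : ℂ ≃+* ℂ) : KC M ≃+* KC M where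
  toFun x := ⟨coeffMap (σ : ℂ →+* ℂ) (x : LaurentSeries ℂ), coeffMap_mem_full σ M x.2⟩
  invFun x := ⟨coeffMap (σ.symm : ℂ →+* ℂ) (x : LaurentSeries ℂ), coeffMap_mem_full σ.symm M x.2⟩
  left_inv x := Subtype.ext (coeffMap_symm_coeffMap σ _)
  right_inv x := Subtype.ext (coeffMap_coeffMap_symm σ _)
  map_mul' x y :=
    Subtype.ext (map_mul (coeffMap (σ : ℂ →+* ℂ)) (x : LaurentSeries ℂ) (y : LaurentSeries ℂ))
  map_add' x y :=
    Subtype.ext (map_add (coeffMap (σ : ℂ →+* ℂ)) (x : LaurentSeries ℂ) (y : LaurentSeries ℂ))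

/-- the coefficientwise action of `σ ∈ Aut ℂ` on `K_ℂ`, as a semilinear automorphism. -/
def sigmaAut (σ : ℂ ≃+* ℂ) : SemilinearAut ℂ (KC M) :=
  ⟨(sigmaRingAut M σ, σ), fun a => Subtype.ext (coeffMap_algebraMap (σ : ℂ →+* ℂ) a)⟩

theorem coe_sigmaAut_smul (σ : ℂ ≃+* ℂ) (x : KC M) :
    ((sigmaAut M σ • x : KC M) : LaurentSeries ℂ) = coeffMap (σ : ℂ →+* ℂ) (x : LaurentSeries ℂ) :=
  rfl

/-! ## The group `U_ℂ(n)` -/

/-- `U_ℂ(n)`: nonzero elements of `K_ℂ` all of whose orders are divisible by `n`. -/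
def UC (n : ℕ) : Set (LaurentSeries ℂ) :=
  {u | ∃ hu : u ∈ KC M, u ≠ 0 ∧ ∀ w : Place ℂ (KC M), (n : ℤ) ∣ w.ord ⟨u, hu⟩}

variable {M}

theorem UC_mem {n : ℕ} {u : LaurentSeries ℂ} (h : u ∈ UC M n) : u ∈ KC M := h.1

theorem UC_ne_zero {n : ℕ} {u : LaurentSeries ℂ} (h : u ∈ UC M n) : u ≠ 0 := h.2.1

theorem UC_coeffMap {n : ℕ} (σ : ℂ ≃+* ℂ) {u : LaurentSeries ℂ} (h : u ∈ UC M n) :
    coeffMap (σ : ℂ →+* ℂ) u ∈ UC M n := by
  obtain ⟨hu, hu0, hord⟩ := h
  refine ⟨coeffMap_mem_full σ M hu, ?_, fun w => ?_⟩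
  · intro h0
    apply hu0
    have := congrArg (coeffMap (σ.symm : ℂ →+* ℂ)) h0
    rwa [coeffMap_symm_coeffMap, map_zero] at this
  · have h1 := SemilinearAut.ord_smul (sigmaAut M σ) ((sigmaAut M σ)⁻¹ • w) ⟨u, hu⟩
    rw [smul_inv_smul] at h1
    have h2 : (sigmaAut M σ • (⟨u, hu⟩ : KC M) : KC M) =
        ⟨coeffMap (σ : ℂ →+* ℂ) u, coeffMap_mem_full σ M hu⟩ := rfl
    rw [h2] at h1
    rw [h1]
    exact hord _

theorem UC_mul_pow {n : ℕ} {u c : LaurentSeries ℂ} (h : u ∈ UC M n) (hc : c ∈ KC M)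
    (hc0 : c ≠ 0) : u * c ^ n ∈ UC M n := by
  obtain ⟨hu, hu0, hord⟩ := h
  refine ⟨mul_mem hu (pow_mem hc n), mul_ne_zero hu0 (pow_ne_zero n hc0), fun w => ?_⟩
  have hu0' : (⟨u, hu⟩ : KC M) ≠ 0 := fun h => hu0 (congrArg Subtype.val h)
  have hc0' : (⟨c, hc⟩ : KC M) ≠ 0 := fun h => hc0 (congrArg Subtype.val h)
  have e : (⟨u * c ^ n, mul_mem hu (pow_mem hc n)⟩ : KC M) = ⟨u, hu⟩ * ⟨c, hc⟩ ^ n := rfl
  rw [e, Place.ord_mul w hu0' (pow_ne_zero n hc0'), ← zpow_natCast, Place.ord_zpow]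
  exact dvd_add (hord w) (Dvd.intro _ rfl)

/-! ## (b) the cusp `∞` is a place; `n`-th roots in `ℂ((q))` -/

omit [NeZero M] in
theorem val_eq_exp_neg_order {u : LaurentSeries ℂ} (hu : u ≠ 0) :
    Valued.v u = WithZero.exp (-u.order) := by
  have hv0 : Valued.v u ≠ 0 := (Valuation.ne_zero_iff _).2 hu
  obtain ⟨k, hk⟩ : ∃ k : ℤ, Valued.v u = WithZero.exp k :=
    ⟨WithZero.log (Valued.v u), (WithZero.exp_log hv0).symm⟩
  have h1 : Valued.v u ≤ WithZero.exp (-u.order) := by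
    rw [LaurentSeries.valuation_le_iff_coeff_lt_eq_zero]
    intro m hm
    exact HahnSeries.coeff_eq_zero_of_lt_order hm
  have h2 : ¬ Valued.v u ≤ WithZero.exp (-(u.order + 1)) := by
    rw [LaurentSeries.valuation_le_iff_coeff_lt_eq_zero]
    intro h
    exact (mt HahnSeries.coeff_order_eq_zero.1 hu) (h u.order (by omega))
  rw [hk] at h1 h2 ⊢
  rw [WithZero.exp_le_exp] at h1 h2
  congr 1
  omega

omit [NeZero M] in
theorem order_jqModC : (jqModC ℂ).order = -1 := by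
  have hne : jqModC ℂ ≠ 0 := by
    intro h
    have := coeff_jqModC_neg_one ℂ
    rw [h] at this
    simp at this
  refine le_antisymm ?_ ?_
  · refine HahnSeries.order_le_of_coeff_ne_zero ?_
    rw [coeff_jqModC_neg_one]
    exact one_ne_zero
  · by_contra hlt
    push Not at hlt
    have h1 := coeff_jqModC_of_lt (R := ℂ) (k := (jqModC ℂ).order) (by omega)
    exact (mt HahnSeries.coeff_order_eq_zero.1 hne) h1

variable (M) in
/-- the `q`-adic valuation on `K_ℂ`. -/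
def valInf : Valuation (KC M) (WithZero (Multiplicative ℤ)) :=
  (Valued.v : Valuation (LaurentSeries ℂ) (WithZero (Multiplicative ℤ))).comap
    (algebraMap (KC M) (LaurentSeries ℂ))

theorem valInf_apply (f : KC M) : valInf M f = Valued.v (f : LaurentSeries ℂ) := rfl

variable (M) in
/-- **The cusp `∞` is a place of `K_ℂ`**, with order function the `q`-order. -/
theorem exists_place_inf :
    ∃ w : Place ℂ (KC M), ∀ f : KC M, f ≠ 0 → w.ord f = (f : LaurentSeries ℂ).order := by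
  have hK : ∀ a : ℂ, valInf M (algebraMap ℂ (KC M) a) ≤ 1 := by
    intro a
    by_cases ha : a = 0
    · simp [ha]
    · exact (val_algebraMap_eq_one a ha).le
  have hj : jqModC ℂ ∈ KC M := jqModC_mem_full ℂ M
  have hj0 : (⟨jqModC ℂ, hj⟩ : KC M) ≠ 0 := by
    intro h
    have h1 := congrArg Subtype.val h
    have h2 := one_lt_val_jqModC
    simp only at h1
    rw [h1] at h2
    simp at h2
  have hx : ∃ x : KC M, x ≠ 0 ∧ valInf M x < 1 := by
    refine ⟨(⟨jqModC ℂ, hj⟩ : KC M)⁻¹, inv_ne_zero hj0, ?_⟩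
    rw [map_inv₀, valInf_apply]
    exact inv_lt_one_of_one_lt₀ one_lt_val_jqModC
  obtain ⟨w, e₀, he₀, -, hw⟩ := exists_place_of_valuation (K := ℂ) (valInf M) hK hx
  have hvord : ∀ f : KC M, f ≠ 0 → vord (valInf M) f = (f : LaurentSeries ℂ).order := by
    intro f hf
    have hf' : (f : LaurentSeries ℂ) ≠ 0 := fun h => hf (Subtype.ext h)
    rw [vord, valInf_apply, val_eq_exp_neg_order hf', WithZero.log_exp, neg_neg]
  have he1 : e₀ = 1 := by
    have h1 := hw _ hj0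
    rw [hvord _ hj0] at h1
    simp only at h1
    rw [order_jqModC] at h1
    have hdvd : e₀ ∣ 1 := ⟨-w.ord ⟨jqModC ℂ, hj⟩, by linarith⟩
    exact Int.eq_one_of_dvd_one he₀.le hdvd
  refine ⟨w, fun f hf => ?_⟩
  have h1 := hw f hf
  rw [hvord f hf, he1, one_mul] at h1
  exact h1.symm

theorem UC_exists_root {n : ℕ} (hn : 0 < n) {u : LaurentSeries ℂ} (h : u ∈ UC M n) :
    ∃ w : LaurentSeries ℂ, w ^ n = u := by
  obtain ⟨hu, hu0, hord⟩ := h
  obtain ⟨w, hw⟩ := exists_place_inf M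
  have h1 := hord w
  rw [hw ⟨u, hu⟩ (fun h => hu0 (congrArg Subtype.val h))] at h1
  exact Fermat.Agent.ES.LaurentRoot.exists_pow_eq_laurentSeries hn u hu0 h1

/-! ## (c) finiteness of `U_ℂ(n) / K_ℂ^{×n}` -/

/-- homomorphisms from a finitely generated group to a finite group form a finite set. -/
theorem finite_monoidHom_of_fg (G H : Type*) [Group G] [Group H] [Group.FG G] [Finite H] :
    Finite (G →* H) := by
  obtain ⟨S, hS⟩ := Group.fg_def.1 (inferInstance : Group.FG G)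
  have hinj : Function.Injective (fun (f : G →* H) (s : S) => f (s : G)) := by
    intro f g h
    refine MonoidHom.eq_of_eqOn_dense hS ?_
    intro x hx
    exact congrFun h ⟨x, hx⟩
  exact Finite.of_injective _ hinj

variable (M) in
/-- analytic root data of an element `u` of `K_ℂ`: `u = a / g`, `(D.a / g) ^ n = a / g`. -/
structure AnData (n : ℕ) (u : LaurentSeries ℂ) where
  /-- numerator -/
  a : ℍ → ℂ
  /-- denominator -/
  g : ℍ → ℂ
  /-- the root -/
  D : RootData (Gamma0 M) n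
  ha : IsModFun M a
  hg : IsModFun M g
  hLa : laurentOf a ≠ 0
  hLg : laurentOf g ≠ 0
  hfrac : u * laurentOf g = laurentOf a
  hDg : D.g = g
  hDa : ∀ τ, D.a τ ^ n = a τ * g τ ^ (n - 1)

theorem UC_exists_anData {n : ℕ} (hn : 0 < n) {u : LaurentSeries ℂ} (h : u ∈ UC M n) :
    Nonempty (AnData M n u) := by
  obtain ⟨hu, hu0, hord⟩ := h
  obtain ⟨a, g, ha, hg, hLg, hfrac⟩ := Fermat.Agent.ES.RC.rc_exists_frac M hu
  have hLa : laurentOf a ≠ 0 := by
    rw [← hfrac]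
    exact mul_ne_zero hu0 hLg
  have ha0 : a ≠ 0 := fun h => hLa (by rw [h]; exact laurentOf_zero)
  have hg0 : g ≠ 0 := fun h => hLg (by rw [h]; exact laurentOf_zero)
  letI := Fermat.Agent.ES.RC.rc_algebra M
  haveI := Fermat.Agent.ES.RC.rc_isScalarTower M
  haveI := Fermat.Agent.ES.RC.rc_isFractionRing M
  have hPt := Fermat.Agent.ES.RC.stmtPt M (KC M)
  have hord' : ∀ τ : ℍ, ∃ k : ℤ,
      ((ordAt τ a).toNat : ℤ) - ((ordAt τ g).toNat : ℤ) = n * k := by
    intro τ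
    obtain ⟨v, e, -, hv⟩ := hPt τ
    have ha' : (⟨a, ha⟩ : modFunAlg M) ≠ 0 := fun h => ha0 (congrArg Subtype.val h)
    have hg' : (⟨g, hg⟩ : modFunAlg M) ≠ 0 := fun h => hg0 (congrArg Subtype.val h)
    have h1 := hv ⟨a, ha⟩ ha'
    have h2 := hv ⟨g, hg⟩ hg'
    have hA0 : algebraMap (modFunAlg M) (KC M) ⟨a, ha⟩ ≠ 0 := fun h => hLa (congrArg Subtype.val h)
    have hG0 : algebraMap (modFunAlg M) (KC M) ⟨g, hg⟩ ≠ 0 := fun h => hLg (congrArg Subtype.val h)
    have hu0' : (⟨u, hu⟩ : KC M) ≠ 0 := fun h => hu0 (congrArg Subtype.val h)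
    have hmul : (⟨u, hu⟩ : KC M) * algebraMap (modFunAlg M) (KC M) ⟨g, hg⟩ =
        algebraMap (modFunAlg M) (KC M) ⟨a, ha⟩ := Subtype.ext hfrac
    have h3 := Place.ord_mul v hu0' hG0
    rw [hmul] at h3
    obtain ⟨k, hk⟩ := hord v
    refine ⟨e * k, ?_⟩
    simp only [Fermat.Agent.ES.RC.ordPt] at h1 h2
    rw [h1, h2, h3, hk]
    ring
  have hinv : ∀ γ ∈ Gamma0 M, ∀ τ : ℍ, a (γ • τ) * g τ = a τ * g (γ • τ) := by
    intro γ hγ τ
    rw [isModFun_comp_smul ha hγ τ, isModFun_comp_smul hg hγ τ]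
  obtain ⟨D, hDg, hDa⟩ := RootData.exists_ofDiv (Γ := Gamma0 M) hn.ne'
    (Fermat.Agent.ES.RC.rc_mdiff_of_isModFun ha) (Fermat.Agent.ES.RC.rc_mdiff_of_isModFun hg)
    ha0 hg0 hord' hinv
  exact ⟨⟨a, g, D, ha, hg, hLa, hLg, hfrac, hDg, hDa⟩⟩

theorem AnData.a_smul {n : ℕ} {u : LaurentSeries ℂ} (A : AnData M n u) (γ : Gamma0 M) (τ : ℍ) :
    A.D.a ((γ : SL(2, ℤ)) • τ) = ((A.D.mult γ : ℂˣ) : ℂ) * A.D.a τ := by
  have hg : MDiff A.g := Fermat.Agent.ES.RC.rc_mdiff_of_isModFun A.hg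
  have hg0 : A.g ≠ 0 := fun h => A.hLg (by rw [h]; exact laurentOf_zero)
  have hconst : MDiff (fun _ : ℍ => ((A.D.mult γ : ℂˣ) : ℂ)) := mdifferentiable_const
  refine mdiff_mul_right_cancel (mdiff_comp_SL A.D.mdiff_a γ) (hconst.mul A.D.mdiff_a) hg hg0
    (fun τ => ?_) τ
  have h := A.D.mult_spec γ τ
  rw [A.hDg, isModFun_comp_smul A.hg γ.2 τ] at h
  rw [h]
  simp only [Pi.mul_apply]
  ring

/-- **Kernel of the multiplier map over `ℂ`**: two elements of `K_ℂ` whose roots have the same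
multiplier character differ by an `n`-th power of `K_ℂ^×`. -/
theorem AnData.exists_eq_mul_pow {n : ℕ} (hn : 0 < n) {u t : LaurentSeries ℂ} (A : AnData M n u)
    (B : AnData M n t) (h : A.D.mult = B.D.mult) :
    ∃ c ∈ KC M, c ≠ 0 ∧ u = t * c ^ n := by
  obtain ⟨m, rfl⟩ : ∃ m, n = m + 1 := ⟨n - 1, by omega⟩
  -- the numerator `N = D_A.a · D_B.a^m · g_B`
  set Nf : ℍ → ℂ := fun τ => A.D.a τ * B.D.a τ ^ m * B.g τ with hNf
  have hBg : MDiff B.g := Fermat.Agent.ES.RC.rc_mdiff_of_isModFun B.hg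
  have hNmd : MDiff Nf := (A.D.mdiff_a.mul (B.D.mdiff_a.pow m)).mul hBg
  have hNinv : ∀ γ ∈ Gamma0 M, ∀ τ : ℍ, Nf (γ • τ) = Nf τ := by
    intro γ hγ τ
    have h1 := A.a_smul ⟨γ, hγ⟩ τ
    have h2 := B.a_smul ⟨γ, hγ⟩ τ
    have h3 : ((B.D.mult ⟨γ, hγ⟩ : ℂˣ) : ℂ) ^ (m + 1) = 1 := by
      rw [RootData.coe_mult]
      exact B.D.multVal_pow ⟨γ, hγ⟩
    simp only [hNf]
    simp only at h1 h2
    rw [h1, h2, isModFun_comp_smul B.hg hγ τ, h]
    calc ((B.D.mult ⟨γ, hγ⟩ : ℂˣ) : ℂ) * A.D.a τ * (((B.D.mult ⟨γ, hγ⟩ : ℂˣ) : ℂ) * B.D.a τ) ^ m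
          * B.g τ
        = ((B.D.mult ⟨γ, hγ⟩ : ℂˣ) : ℂ) ^ (m + 1) * (A.D.a τ * B.D.a τ ^ m * B.g τ) := by ring
      _ = A.D.a τ * B.D.a τ ^ m * B.g τ := by rw [h3, one_mul]
  have hNpow : (fun z => Nf z ^ (m + 1)) =
      A.a * A.g ^ m * (B.a * B.g ^ m) ^ m * B.g ^ (m + 1) := by
    funext z
    have h1 : A.D.a z ^ (m + 1) = A.a z * A.g z ^ m := A.hDa z
    have h2 : B.D.a z ^ (m + 1) = B.a z * B.g z ^ m := B.hDa z
    simp only [hNf, Pi.mul_apply, Pi.pow_apply]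
    rw [mul_pow, mul_pow, h1, ← pow_mul, mul_comm m (m + 1), pow_mul, h2]
  have hNmod : IsModFun M Nf := by
    refine isModFun_of_pow (Nat.succ_ne_zero m) hNmd hNinv ?_
    rw [hNpow]
    exact (((A.ha.mul (A.hg.pow m)).mul ((B.ha.mul (B.hg.pow m)).pow m)).mul (B.hg.pow (m + 1)))
  -- Laurent expansions
  have mA := A.ha.isMerInf
  have mAg := A.hg.isMerInf
  have mB := B.ha.isMerInf
  have mBg := B.hg.isMerInf
  have hLN : laurentOf Nf ^ (m + 1) =
      laurentOf A.a * laurentOf A.g ^ m * (laurentOf B.a * laurentOf B.g ^ m) ^ m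
        * laurentOf B.g ^ (m + 1) := by
    rw [← laurentOf_pow hNmod.isMerInf]
    have e : Nf ^ (m + 1) = fun z => Nf z ^ (m + 1) := rfl
    rw [e, hNpow,
      laurentOf_mul (((A.ha.mul (A.hg.pow m)).mul ((B.ha.mul (B.hg.pow m)).pow m))).isMerInf
        (B.hg.pow (m + 1)).isMerInf,
      laurentOf_mul (A.ha.mul (A.hg.pow m)).isMerInf ((B.ha.mul (B.hg.pow m)).pow m).isMerInf,
      laurentOf_mul mA (A.hg.pow m).isMerInf, laurentOf_pow mAg,
      laurentOf_pow (B.ha.mul (B.hg.pow m)).isMerInf, laurentOf_mul mB (B.hg.pow m).isMerInf,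
      laurentOf_pow mBg, laurentOf_pow mBg]
  set LA := laurentOf A.a
  set LAg := laurentOf A.g
  set LB := laurentOf B.a
  set LBg := laurentOf B.g
  have hLA : LA ≠ 0 := A.hLa
  have hLAg : LAg ≠ 0 := A.hLg
  have hLB : LB ≠ 0 := B.hLa
  have hLBg : LBg ≠ 0 := B.hLg
  have hden : LB * LBg ^ m * LAg ≠ 0 := mul_ne_zero (mul_ne_zero hLB (pow_ne_zero m hLBg)) hLAg
  have hLN0 : laurentOf Nf ≠ 0 := by
    intro h0
    rw [h0, zero_pow (Nat.succ_ne_zero m)] at hLN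
    exact (mul_ne_zero (mul_ne_zero (mul_ne_zero hLA (pow_ne_zero m hLAg))
      (pow_ne_zero m (mul_ne_zero hLB (pow_ne_zero m hLBg)))) (pow_ne_zero _ hLBg)) hLN.symm
  refine ⟨laurentOf Nf / (LB * LBg ^ m * LAg), ?_, div_ne_zero hLN0 hden, ?_⟩
  · refine div_mem (Fermat.Agent.ES.RC.rc_laurentOf_mem_full M hNmod)
      (mul_mem (mul_mem (Fermat.Agent.ES.RC.rc_laurentOf_mem_full M B.ha)
        (pow_mem (Fermat.Agent.ES.RC.rc_laurentOf_mem_full M B.hg) m))
        (Fermat.Agent.ES.RC.rc_laurentOf_mem_full M A.hg))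
  · have hu : u = LA / LAg := by rw [eq_div_iff hLAg]; exact A.hfrac
    have ht : t = LB / LBg := by rw [eq_div_iff hLBg]; exact B.hfrac
    rw [hu, ht, div_pow, hLN]
    field_simp
    ring

/-- **Finiteness of `U_ℂ(n) / K_ℂ^{×n}`.** -/
theorem UC_finite {n : ℕ} (hn : 0 < n) :
    ∃ T : Set (LaurentSeries ℂ), T.Finite ∧ T ⊆ UC M n ∧
      ∀ u ∈ UC M n, ∃ t ∈ T, ∃ c ∈ KC M, c ≠ 0 ∧ u = t * c ^ n := by
  classical
  haveI : NeZero n := ⟨hn.ne'⟩
  haveI : Group.FG (Gamma0 M) := (Group.fg_iff_subgroup_fg _).mpr (Fermat.Agent.S22.gamma0_fg M)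
  haveI : Finite (Gamma0 M →* rootsOfUnity n ℂ) := finite_monoidHom_of_fg _ _
  -- the choice of analytic data and the multiplier map
  let A : ∀ u : UC M n, AnData M n u := fun u => (UC_exists_anData hn u.2).some
  let μ : UC M n → (Gamma0 M →* rootsOfUnity n ℂ) := fun u => (A u).D.multRoots
  have hex : ∀ χ : Set.range μ, ∃ u : UC M n, μ u = χ := fun χ => χ.2
  choose rep hrep using hex
  refine ⟨Set.range (fun χ : Set.range μ => ((rep χ : UC M n) : LaurentSeries ℂ)),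
    Set.finite_range _, ?_, ?_⟩
  · rintro _ ⟨χ, rfl⟩
    exact (rep χ).2
  · intro u hu
    set χ : Set.range μ := ⟨μ ⟨u, hu⟩, ⟨⟨u, hu⟩, rfl⟩⟩ with hχ
    refine ⟨_, ⟨χ, rfl⟩, ?_⟩
    have hμ : μ (rep χ) = μ ⟨u, hu⟩ := hrep χ
    have hmult : (A ⟨u, hu⟩).D.mult = (A (rep χ)).D.mult := by
      ext1 γ
      have h1 := congrArg (fun f : Gamma0 M →* rootsOfUnity n ℂ =>
        ((f γ : rootsOfUnity n ℂ) : ℂˣ)) hμ
      exact h1.symm
    exact AnData.exists_eq_mul_pow hn (A ⟨u, hu⟩) (A (rep χ)) hmult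

/-! ## (d) descent -/

/-- **A6-surj for `K_ℂ`**: every class of `U_ℂ(n) / K_ℂ^{×n}` contains `w ^ n` with `w` a Laurent
series with algebraic coefficients. -/
theorem UC_exists_algebraic {n : ℕ} (hn : 0 < n) {u : LaurentSeries ℂ} (hu : u ∈ UC M n) :
    ∃ c ∈ KC M, c ≠ 0 ∧ ∃ w : LaurentSeries ℂ, w ^ n = u * c ^ n ∧
      ∀ m : ℤ, IsAlgebraic ℚ (w.coeff m) :=
  exists_algebraic_root n hn (jqModC ℂ) one_lt_val_jqModC
    (fun σ => coeffMap_jqModC (σ : ℂ →+* ℂ)) (KC M) (jqModC_mem_full ℂ M)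
    (relfinrank_full_ne_zero M) (fun σ _ hy => coeffMap_mem_full σ M hy)
    (UC M n) (fun _ h => UC_ne_zero h) (fun _ h => UC_mem h) (fun σ _ h => UC_coeffMap σ h)
    (fun _ h => UC_exists_root hn h) (UC_finite hn) u hu

end Fermat.Agent.ES.Sur

end
end ZBES_011_4

/-! ### bundled: `Fermat.Agent.ES.RC.EisCharPlace` -/
section ZBES_011_5
/-
ESpkg-G1, piece A3 consumer (helper83): `u_χ = (E₁₂^χ / Δ)^p ∈ U_ℂ`.

From helper8's (RC)(ii) statements `StmtAll`, `StmtPtExact`, `StmtCuspExact` (places of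
`F = Frac (modFunAlg M)` are the analytic orders at points / cusps, with exact ramification):
for every place `v` of `F / ℂ`, `p ∣ v.ord u_χ`.

Contents:
* `eis_isModFun_smul`          : a modular function for `Γ₀(M)` is `Γ₀(M)`-invariant;
* `eis_modFun_comp_isPer`, `eis_modFun_comp_meromorphicAt`, `eis_modFun_comp_order_ne_top` :
  `f ∘ g` at the cusp `g∞`, in `q_h`;
* `eis_cuspFn_change_period`   : `ord_{q_{hk}} = k · ord_{q_h}`;
* `eis_ordCusp_mul_period`     : `ordCusp h g f * h' = ordCusp h' g f * h`;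
* `eis_place_ord_eq_of_prop`   : two places with proportional orders on a ring of fractions
  have equal orders;
* `uChi`, `uChi_dvd_ord`       : the main statement.
-/

set_option autoImplicit false

open EisensteinSeries UpperHalfPlane ModularForm CongruenceSubgroup Matrix Filter Topology
open scoped MatrixGroups Manifold

noncomputable section

namespace Fermat.Agent.ES

open Fermat.Agent.S23 Fermat.Agent.S24 Fermat.Agent.S28 Fermat.Agent.ES.RC AlgebraicCurve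

local notation "Δ" => ModularForm.discriminant

variable {M : ℕ}

/-! ### Modular functions: invariance and behaviour at the cusps -/

/-- slash of `f · Δ ^ m` by `g ∈ SL(2,ℤ)`, pointwise. -/
lemma eis_slash_mul_disc_pow (f : ℍ → ℂ) (m : ℕ) (g : SL(2, ℤ)) (z : ℍ) :
    ((fun z => f z * Δ z ^ m) ∣[(12 * (m : ℤ))] g) z = f (g • z) * Δ z ^ m := by
  rw [SL_slash_apply]
  rw [eis_discriminant_smul, mul_pow, ← pow_mul]
  have hd : denom g z ≠ 0 := denom_ne_zero _ z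
  have e : denom g z ^ (-(12 * (m : ℤ))) = (denom g z ^ (12 * m))⁻¹ := by
    rw [_root_.zpow_neg]
    congr 1
  rw [e]
  field_simp

/-- A modular function for `Γ₀(M)` is invariant under `Γ₀(M)`. -/
theorem eis_isModFun_smul {f : ℍ → ℂ} (hf : IsModFun M f) {γ : SL(2, ℤ)} (hγ : γ ∈ Gamma0 M)
    (z : ℍ) : f (γ • z) = f z := by
  obtain ⟨m, Φ, hΦ⟩ := hf
  have h1 : (⇑Φ : ℍ → ℂ) ∣[(12 * (m : ℤ))] γ = ⇑Φ := by
    rw [SL_slash]
    exact SlashInvariantForm.slash_action_eqn Φ _ ⟨γ, hγ, rfl⟩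
  rw [hΦ] at h1
  have h2 := congrFun h1 z
  rw [eis_slash_mul_disc_pow] at h2
  exact mul_right_cancel₀ (pow_ne_zero m (discriminant_ne_zero z)) h2

/-- the numerator of `f ∘ g` at the cusp `g∞` is holomorphic and bounded at `i∞`. -/
theorem eis_modFun_num [NeZero M] {f : ℍ → ℂ} {m : ℕ}
    (hm : IsMF (G0 M) (12 * (m : ℤ)) (fun z => f z * Δ z ^ m)) (g : SL(2, ℤ)) :
    MDiff (fun z => f (g • z) * Δ z ^ m) ∧
      IsBoundedAtImInfty (fun z => f (g • z) * Δ z ^ m) := by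
  obtain ⟨Φ, hΦ⟩ := hm
  have hfun : (fun z => f (g • z) * Δ z ^ m) = (⇑Φ : ℍ → ℂ) ∣[(12 * (m : ℤ))] g := by
    funext z
    rw [hΦ, eis_slash_mul_disc_pow]
  rw [hfun]
  refine ⟨?_, ?_⟩
  · rw [SL_slash]
    exact Φ.holo'.slash _ _
  · exact ModularFormClass.bdd_at_infty_slash Φ g

/-- `f ∘ g` is `h`-periodic for a period `h` of the cusp `g∞`. -/
theorem eis_modFun_comp_isPer {f : ℍ → ℂ} (hf : IsModFun M f) {g : SL(2, ℤ)} {h : ℕ}
    (hh : IsCuspPeriod M h g) : IsPer h (fun z => f (g • z)) := by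
  intro z
  have h1 := eis_isModFun_smul hf hh.2 (g • z)
  show f (g • (((h : ℕ) : ℝ) +ᵥ z)) = f (g • z)
  rw [← h1]
  congr 1
  rw [← mul_smul, inv_mul_cancel_right, mul_smul]
  congr 1
  have := modular_T_zpow_smul z (h : ℤ)
  rw [zpow_natCast] at this
  rw [this]
  push_cast
  rfl

/-- pointwise: `cuspFn h (f ∘ g) = cuspFn h (numerator) / cuspFn h (Δ ^ m)`. -/
lemma eis_cuspFn_modFun_comp (f : ℍ → ℂ) (m : ℕ) (g : SL(2, ℤ)) (h : ℕ) :
    cuspFn h (fun z => f (g • z))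
      = cuspFn h (fun z => f (g • z) * Δ z ^ m) / cuspFn h (fun z => Δ z ^ m) := by
  funext q
  simp only [cuspFn_apply, Pi.div_apply]
  rw [mul_div_assoc, div_self (pow_ne_zero m (discriminant_ne_zero _)), mul_one]

lemma eis_isPer_disc_pow (h m : ℕ) : IsPer h (fun z => Δ z ^ m) := by
  intro z
  have := eis_isPer_discriminant h z
  simp only at this ⊢
  rw [this]

lemma eis_mdiff_disc_pow (m : ℕ) : MDiff (fun z : ℍ => Δ z ^ m) :=
  eis_discriminant_mdiff.pow m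

lemma eis_bounded_disc_pow (m : ℕ) : IsBoundedAtImInfty (fun z : ℍ => Δ z ^ m) := by
  have h : Tendsto (fun z : ℍ => Δ z ^ m) atImInfty (𝓝 ((0 : ℂ) ^ m)) :=
    (discriminant_isZeroAtImInfty : Tendsto (fun τ : ℍ => Δ τ) atImInfty (𝓝 0)).pow m
  exact h.isBigO_one ℝ

lemma eis_disc_pow_ne_zero (m : ℕ) : (fun z : ℍ => Δ z ^ m) ≠ 0 :=
  fun h => pow_ne_zero m (discriminant_ne_zero UpperHalfPlane.I) (congrFun h UpperHalfPlane.I)

/-- **Meromorphy of a modular function at the cusp `g∞`** (in `q_h`). -/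
theorem eis_modFun_comp_meromorphicAt [NeZero M] {f : ℍ → ℂ} (hf : IsModFun M f)
    {g : SL(2, ℤ)} {h : ℕ} (hh : IsCuspPeriod M h g) :
    MeromorphicAt (cuspFn h (fun z => f (g • z))) 0 := by
  have hper := eis_modFun_comp_isPer hf hh
  obtain ⟨m, hm⟩ := hf
  obtain ⟨h1, h2⟩ := eis_modFun_num hm g
  have hpn : IsPer h (fun z => f (g • z) * Δ z ^ m) := by
    intro z
    have a := hper z
    have b := eis_isPer_disc_pow h m z
    simp only at a b ⊢
    rw [a, b]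
  rw [eis_cuspFn_modFun_comp f m g h]
  exact (eis_meromorphicAt_cuspFn hh.1 h1 hpn h2).div
    (eis_meromorphicAt_cuspFn hh.1 (eis_mdiff_disc_pow m) (eis_isPer_disc_pow h m)
      (eis_bounded_disc_pow m))

/-- the order of a nonzero modular function at a cusp is finite. -/
theorem eis_modFun_comp_order_ne_top [NeZero M] {f : ℍ → ℂ} (hf : IsModFun M f) (hf0 : f ≠ 0)
    {g : SL(2, ℤ)} {h : ℕ} (hh : IsCuspPeriod M h g) :
    meromorphicOrderAt (cuspFn h (fun z => f (g • z))) 0 ≠ ⊤ := by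
  have hper := eis_modFun_comp_isPer hf hh
  have hmd : MDiff (fun z => f (g • z)) := mdiff_comp_SL (rc_mdiff_of_isModFun hf) g
  refine eis_meromorphicOrderAt_cuspFn_ne_top hh.1 hmd hper ?_
  intro h0
  apply hf0
  funext z
  have := congrFun h0 (g⁻¹ • z)
  simpa using this

/-! ### Change of period -/

/-- `ord_{q_{hk}} = k · ord_{q_h}` for an `h`-periodic function. -/
theorem eis_cuspFn_change_period {F : ℍ → ℂ} {h k : ℕ} (hh : 0 < h) (hk : 0 < k)
    (hper : IsPer h F) (hmer : MeromorphicAt (cuspFn h F) 0) :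
    meromorphicOrderAt (cuspFn (h * k) F) 0 = meromorphicOrderAt (cuspFn h F) 0 * (k : ℤ) := by
  have hev : ∀ᶠ q in 𝓝[≠] (0 : ℂ), cuspFn (h * k) F q = cuspFn h F (1 * q ^ k) := by
    filter_upwards [eventually_punctured_disc] with q hq
    set τ : ℍ := ofComplex (Function.Periodic.invQParam ((h * k : ℕ) : ℝ) q) with hτ
    have hqτ : Function.Periodic.qParam ((h * k : ℕ) : ℝ) (τ : ℂ) = q :=
      qParam_ofComplex_invQParam (Nat.mul_pos hh hk) hq.1 hq.2
    have e2 : F τ = cuspFn h F (Function.Periodic.qParam (h : ℝ) (τ : ℂ)) :=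
      (cuspFn_qParam hh hper τ).symm
    rw [cuspFn_apply, ← hτ, e2, one_mul, ← hqτ]
    congr 1
    simp only [Function.Periodic.qParam]
    rw [← Complex.exp_nat_mul]
    congr 1
    have h1 : (h : ℂ) ≠ 0 := by exact_mod_cast hh.ne'
    have h2 : (k : ℂ) ≠ 0 := by exact_mod_cast hk.ne'
    push_cast
    field_simp
  rw [meromorphicOrderAt_congr hev, meromorphicOrderAt_comp_mul_pow hmer one_ne_zero hk]

/-- **Comparison of two periods**: `ordCusp h g f * h' = ordCusp h' g f * h`. -/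
theorem eis_ordCusp_mul_period [NeZero M] {f : ℍ → ℂ} (hf : IsModFun M f) (hf0 : f ≠ 0)
    {g : SL(2, ℤ)} {h h' : ℕ} (hh : IsCuspPeriod M h g) (hh' : IsCuspPeriod M h' g) :
    ordCusp h g f * (h' : ℤ) = ordCusp h' g f * (h : ℤ) := by
  have e1 := eis_cuspFn_change_period hh.1 hh'.1 (eis_modFun_comp_isPer hf hh)
    (eis_modFun_comp_meromorphicAt hf hh)
  have e2 := eis_cuspFn_change_period hh'.1 hh.1 (eis_modFun_comp_isPer hf hh')
    (eis_modFun_comp_meromorphicAt hf hh')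
  rw [Nat.mul_comm h' h] at e2
  rw [e1] at e2
  obtain ⟨a, ha⟩ := WithTop.ne_top_iff_exists.1 (eis_modFun_comp_order_ne_top hf hf0 hh)
  obtain ⟨b, hb⟩ := WithTop.ne_top_iff_exists.1 (eis_modFun_comp_order_ne_top hf hf0 hh')
  unfold ordCusp
  rw [← ha, ← hb] at e2 ⊢
  have e3 : ((a * (h' : ℤ) : ℤ) : WithTop ℤ) = ((b * (h : ℤ) : ℤ) : WithTop ℤ) := by
    push_cast
    exact e2
  have e4 := WithTop.coe_injective e3
  simpa using e4

/-! ### Places with proportional orders -/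

theorem eis_place_exists_ord_one {F : Type*} [Field F] [Algebra ℂ F] (v : Place ℂ F) :
    ∃ x : F, x ≠ 0 ∧ v.ord x = 1 := by
  obtain ⟨π, hπ⟩ := IsDiscreteValuationRing.exists_irreducible v.toValuationSubring
  refine ⟨(π : F), ?_, v.ord_coe_irreducible hπ⟩
  simpa [ne_eq, ZeroMemClass.coe_eq_zero] using hπ.ne_zero

/-- Two places whose orders are proportional on a ring with field of fractions `F` have equal
orders (and the proportionality factor is `1`). -/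
theorem eis_place_ord_eq_of_prop {A F : Type*} [CommRing A] [IsDomain A] [Field F]
    [Algebra ℂ F] [Algebra A F] [IsFractionRing A F] (v v' : Place ℂ F) {a b : ℕ}
    (_ha : 0 < a) (hb : 0 < b)
    (h : ∀ f : A, f ≠ 0 →
      (a : ℤ) * v.ord (algebraMap A F f) = (b : ℤ) * v'.ord (algebraMap A F f)) :
    a = b ∧ ∀ x : F, v.ord x = v'.ord x := by
  have hne : ∀ f : A, f ≠ 0 → algebraMap A F f ≠ 0 := fun f hf =>
    (map_ne_zero_iff _ (IsFractionRing.injective A F)).2 hf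
  have key : ∀ x : F, x ≠ 0 → (a : ℤ) * v.ord x = (b : ℤ) * v'.ord x := by
    intro x hx
    obtain ⟨f, g, hg, rfl⟩ := IsFractionRing.div_surjective (A := A) x
    have hg0 : g ≠ 0 := nonZeroDivisors.ne_zero hg
    have hf0 : f ≠ 0 := by
      rintro rfl
      simp at hx
    have e1 := h f hf0
    have e2 := h g hg0
    rw [div_eq_mul_inv, v.ord_mul (hne f hf0) (inv_ne_zero (hne g hg0)), v.ord_inv,
      v'.ord_mul (hne f hf0) (inv_ne_zero (hne g hg0)), v'.ord_inv]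
    linear_combination e1 - e2
  obtain ⟨x, hx0, hx⟩ := eis_place_exists_ord_one v
  obtain ⟨y, hy0, hy⟩ := eis_place_exists_ord_one v'
  have k1 := key x hx0
  have k2 := key y hy0
  rw [hx, mul_one] at k1
  rw [hy, mul_one] at k2
  have hab : (a : ℤ) = b := by
    have d1 : (b : ℤ) ∣ a := ⟨_, k1⟩
    have d2 : (a : ℤ) ∣ b := ⟨_, k2.symm⟩
    have d1' : b ∣ a := Int.natCast_dvd_natCast.1 d1
    have d2' : a ∣ b := Int.natCast_dvd_natCast.1 d2
    exact_mod_cast Nat.dvd_antisymm d2' d1'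
  refine ⟨by exact_mod_cast hab, fun x => ?_⟩
  rcases eq_or_ne x 0 with rfl | hx0'
  · simp
  · have k := key x hx0'
    rw [hab] at k
    have hb' : (b : ℤ) ≠ 0 := by exact_mod_cast hb.ne'
    exact mul_left_cancel₀ hb' k

/-! ### The main statement: `u_χ ∈ U_ℂ` -/

section Main

variable [NeZero M] (χ : Gamma0 M →* ℂˣ)

/-- `u_χ = hChi χ ^ p` as an element of `modFunAlg M`. -/
def uChi {p : ℕ} (hp : p ≠ 0) (hχp : ∀ γ : Gamma0 M, χ γ ^ p = 1)
    (hpar : ∀ γ : Gamma0 M, IsPar γ → χ γ = 1) : modFunAlg M :=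
  ⟨fun z => hChi χ z ^ p,
    isModFun_hChi_pow χ (eis_norm_eq_one_of_pow χ hp hχp) hpar p hχp⟩

lemma uChi_coe {p : ℕ} (hp : p ≠ 0) (hχp : ∀ γ : Gamma0 M, χ γ ^ p = 1)
    (hpar : ∀ γ : Gamma0 M, IsPar γ → χ γ = 1) :
    ((uChi χ hp hχp hpar : modFunAlg M) : ℍ → ℂ) = fun z => hChi χ z ^ p := rfl

lemma uChi_ne_zero {p : ℕ} (hp : p ≠ 0) (hχp : ∀ γ : Gamma0 M, χ γ ^ p = 1)
    (hpar : ∀ γ : Gamma0 M, IsPar γ → χ γ = 1) : uChi χ hp hχp hpar ≠ 0 := by
  intro h
  obtain ⟨z, hz⟩ := hChi_ne_zero χ (eis_norm_eq_one_of_pow χ hp hχp) hpar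
  have h1 := congrFun (congrArg Subtype.val h) z
  rw [uChi_coe] at h1
  exact pow_ne_zero p hz h1

/-- **`u_χ ∈ U_ℂ`**: at every place `v` of `F = Frac (modFunAlg M)` over `ℂ`, the order of
`u_χ = (E₁₂^χ / Δ)^p` is divisible by `p`.  Inputs: helper8's (RC)(ii) statements, and the
triviality of `χ` on elliptic stabilisers (automatic when `p` is prime to `6`). -/
theorem uChi_dvd_ord (F : Type) [Field F] [Algebra ℂ F] [Algebra (modFunAlg M) F]
    [IsFractionRing (modFunAlg M) F]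
    (hAll : StmtAll M F) (hPt : StmtPtExact M F) (hCusp : StmtCuspExact M F)
    {p : ℕ} (hp : p ≠ 0) (hχp : ∀ γ : Gamma0 M, χ γ ^ p = 1)
    (hpar : ∀ γ : Gamma0 M, IsPar γ → χ γ = 1)
    (hell : ∀ (γ : Gamma0 M) (τ : ℍ), (γ : SL(2, ℤ)) • τ = τ → χ γ = 1)
    (v : Place ℂ F) :
    (p : ℤ) ∣ v.ord (algebraMap (modFunAlg M) F (uChi χ hp hχp hpar)) := by
  have hχ := eis_norm_eq_one_of_pow χ hp hχp
  have hu0 := uChi_ne_zero χ hp hχp hpar
  rcases hAll v with ⟨τ, e, he, hv⟩ | ⟨g, h, e, hh, he, hv⟩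
  · -- a point of `ℍ`
    obtain ⟨v', e', ε, hε, hfix, hprim, hv'⟩ := hPt τ
    have he' : 0 < e' := by
      rcases Nat.eq_zero_or_pos e' with h0 | h0
      · exfalso
        subst h0
        -- a primitive `0`-th root: impossible since `denom ^ 2` has finite order ... use `hv'`
        have h1 := hv' (jSub M (Jfun τ)) (jSub_ne_zero M _)
        have h2 := ordPt_jSub_pos M τ
        rw [h1] at h2
        simp at h2
      · exact h0
    have hprop : ∀ f : modFunAlg M, f ≠ 0 →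
        (e : ℤ) * v.ord (algebraMap (modFunAlg M) F f)
          = (e' : ℤ) * v'.ord (algebraMap (modFunAlg M) F f) := fun f hf => by
      rw [← hv f hf, ← hv' f hf]
    obtain ⟨-, hvv⟩ := eis_place_ord_eq_of_prop v v' he he' hprop
    rw [hvv]
    have h1 := hv' _ hu0
    rw [uChi_coe] at h1
    have h2 : e' ∣ (ordAt τ (hChi χ)).toNat :=
      hChi_dvd_ordAt_of_fixed χ hχ hpar ⟨ε, hε⟩ hfix
        (by simpa [one_div] using hprim.inv) (hell ⟨ε, hε⟩ τ hfix)
    obtain ⟨m, hm⟩ := h2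
    have hne : ordAt τ (hChi χ) ≠ ⊤ :=
      ordAt_ne_top (hChi_mdiff χ hχ) (hChi_ne_zero_fun χ hχ hpar) τ
    obtain ⟨n, hn⟩ := ENat.ne_top_iff_exists.1 hne
    have h3 : ordPt τ (fun z => hChi χ z ^ p) = (p : ℤ) * ((e' : ℤ) * m) := by
      unfold ordPt
      rw [ordAt_hChi_pow χ hχ]
      rw [← hn] at hm ⊢
      rw [ENat.toNat_natCast] at hm
      have : (p • (n : ℕ∞)).toNat = p * n := by
        rw [nsmul_eq_mul]
        have : ((p : ℕ∞) * (n : ℕ∞)) = ((p * n : ℕ) : ℕ∞) := by push_cast; rfl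
        rw [this, ENat.toNat_natCast]
      rw [this, hm]
      push_cast
      ring
    rw [h3] at h1
    have he'0 : (e' : ℤ) ≠ 0 := by exact_mod_cast he'.ne'
    refine ⟨m, ?_⟩
    have h4 : (e' : ℤ) * v'.ord (algebraMap (modFunAlg M) F (uChi χ hp hχp hpar))
        = (e' : ℤ) * ((p : ℤ) * m) := by
      rw [← h1]; ring
    exact mul_left_cancel₀ he'0 h4
  · -- a cusp
    obtain ⟨v', h', hh', hv'⟩ := hCusp g
    have hprop : ∀ f : modFunAlg M, f ≠ 0 →
        ((e * h' : ℕ) : ℤ) * v.ord (algebraMap (modFunAlg M) F f)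
          = ((h : ℕ) : ℤ) * v'.ord (algebraMap (modFunAlg M) F f) := fun f hf => by
      have e1 := hv f hf
      have e2 := hv' f hf
      have e3 := eis_ordCusp_mul_period f.2 (rc_coe_ne_zero M hf) hh hh'
      rw [e1, e2] at e3
      push_cast
      linear_combination e3
    obtain ⟨-, hvv⟩ := eis_place_ord_eq_of_prop v v' (Nat.mul_pos he hh'.1) hh.1 hprop
    rw [hvv, ← hv' _ hu0, uChi_coe]
    obtain ⟨n, hn⟩ := hChi_pow_comp_order_eq χ hχ hpar g hh'.1 (by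
      have := hh'.2
      simpa using this) p
    unfold ordCusp
    rw [hn]
    exact ⟨n, rfl⟩

omit [NeZero M] in
/-- A character of `p`-power-torsion order with `p` prime to `6` is trivial on every element
with a fixed point in `ℍ`. -/
theorem eis_hell_of_coprime {p : ℕ} (hχp : ∀ γ : Gamma0 M, χ γ ^ p = 1)
    (hp6 : Nat.Coprime p 6) (γ : Gamma0 M) (τ : ℍ) (hfix : (γ : SL(2, ℤ)) • τ = τ) :
    χ γ = 1 := by
  have h12 : γ ^ 12 = 1 := by
    apply Subtype.ext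
    rw [Subgroup.coe_pow, Subgroup.coe_one]
    exact pow_twelve_eq_one_of_fixed _ τ hfix
  have h1 : χ γ ^ 12 = 1 := by rw [← map_pow, h12, map_one]
  have h3 : χ γ ^ Nat.gcd p 12 = 1 := pow_gcd_eq_one.mpr ⟨hχp γ, h1⟩
  have hcop : Nat.gcd p 12 = 1 := by
    have : Nat.Coprime p (2 * 6) := Nat.Coprime.mul_right (hp6.coprime_dvd_right (by norm_num)) hp6
    exact this
  rwa [hcop, pow_one] at h3

/-- **`u_χ ∈ U_ℂ` for `p` prime to `6`** (no condition at the elliptic points). -/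
theorem uChi_dvd_ord_of_coprime (F : Type) [Field F] [Algebra ℂ F] [Algebra (modFunAlg M) F]
    [IsFractionRing (modFunAlg M) F]
    (hAll : StmtAll M F) (hPt : StmtPtExact M F) (hCusp : StmtCuspExact M F)
    {p : ℕ} (hp : p ≠ 0) (hp6 : Nat.Coprime p 6) (hχp : ∀ γ : Gamma0 M, χ γ ^ p = 1)
    (hpar : ∀ γ : Gamma0 M, IsPar γ → χ γ = 1) (v : Place ℂ F) :
    (p : ℤ) ∣ v.ord (algebraMap (modFunAlg M) F (uChi χ hp hχp hpar)) :=
  uChi_dvd_ord χ F hAll hPt hCusp hp hχp hpar (eis_hell_of_coprime χ hχp hp6) v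

end Main

end Fermat.Agent.ES

end
end ZBES_011_5

/-! ### bundled: `Fermat.Agent.ES.MuSurjAn` -/
section ZBES_011_6
/-
ESpkg-G1, piece SUR, analytic half (helper83).

For a parabolic homomorphism `φ : Γ₀(M) → ℤ` and `n > 0`, the character
`χ = expChar M n φ = e(φ / n)` is the multiplier of the holomorphic function `hChi χ` on `ℍ`, and
`U := hChi χ ^ n` is a modular function of level `Γ₀(M)` all of whose orders (at all places of
`F = Frac (modFunAlg M)` over `ℂ`) are divisible by `n`.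
-/

set_option autoImplicit false

open UpperHalfPlane CongruenceSubgroup Matrix
open scoped MatrixGroups Manifold

noncomputable section

namespace Fermat.Agent.ES

open Fermat.Agent.S24 Fermat.Agent.S28 Fermat.Agent.ES.RC AlgebraicCurve ModularCurve.Period

variable {M : ℕ}

/-- the multiplicative form of `expChar M n φ` -/
def expCharMul (n : ℕ) (φ : Additive (Gamma0 M) →+ ℤ) : Gamma0 M →* ℂˣ :=
  MonoidHom.toAdditive.symm (expChar M n φ)

lemma expCharMul_apply (n : ℕ) (φ : Additive (Gamma0 M) →+ ℤ) (γ : Gamma0 M) :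
    expCharMul n φ γ = zetaUnit n ^ (φ (Additive.ofMul γ)) := by
  show Additive.toMul (expChar M n φ (Additive.ofMul γ)) = _
  rw [expChar_apply, expHom_apply]
  rfl

lemma toAdditive_expCharMul (n : ℕ) (φ : Additive (Gamma0 M) →+ ℤ) :
    MonoidHom.toAdditive (expCharMul n φ) = expChar M n φ :=
  MonoidHom.toAdditive.apply_symm_apply _

lemma expCharMul_pow {n : ℕ} (hn : n ≠ 0) (φ : Additive (Gamma0 M) →+ ℤ) (γ : Gamma0 M) :
    expCharMul n φ γ ^ n = 1 := by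
  rw [expCharMul_apply, ← zpow_natCast, ← _root_.zpow_mul, mul_comm, _root_.zpow_mul,
    zpow_natCast, (zetaUnit_isPrimitiveRoot hn).pow_eq_one, _root_.one_zpow]

lemma expCharMul_of_eq_zero (n : ℕ) (φ : Additive (Gamma0 M) →+ ℤ) {γ : Gamma0 M}
    (h : φ (Additive.ofMul γ) = 0) : expCharMul n φ γ = 1 := by
  rw [expCharMul_apply, h, zpow_zero]

lemma expCharMul_par (n : ℕ) {φ : Additive (Gamma0 M) →+ ℤ}
    (hφ : IsParabolicHom (Gamma0 M) φ) (γ : Gamma0 M) (hγ : IsPar γ) :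
    expCharMul n φ γ = 1 :=
  expCharMul_of_eq_zero n φ (hφ γ hγ)

/-- an integral homomorphism kills the elements with a fixed point (they have finite order). -/
lemma eis_hom_int_of_fixed (φ : Additive (Gamma0 M) →+ ℤ) (γ : Gamma0 M) (τ : ℍ)
    (hfix : (γ : SL(2, ℤ)) • τ = τ) : φ (Additive.ofMul γ) = 0 := by
  have h12 : γ ^ 12 = 1 := by
    apply Subtype.ext
    rw [Subgroup.coe_pow, Subgroup.coe_one]
    exact pow_twelve_eq_one_of_fixed _ τ hfix
  have h1 : (12 : ℕ) • φ (Additive.ofMul γ) = 0 := by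
    rw [← map_nsmul, ← ofMul_pow, h12]
    exact map_zero φ
  simpa using h1

lemma expCharMul_ell (n : ℕ) (φ : Additive (Gamma0 M) →+ ℤ) (γ : Gamma0 M) (τ : ℍ)
    (hfix : (γ : SL(2, ℤ)) • τ = τ) : expCharMul n φ γ = 1 :=
  expCharMul_of_eq_zero n φ (eis_hom_int_of_fixed φ γ τ hfix)

variable [NeZero M]

/-- **SUR, analytic half.**  For `φ` parabolic and `n > 0` there are a nonzero modular function
`U` of level `Γ₀(M)` and a root datum `R = (hChi χ, 1)` with `R.a ^ n = U`, multiplier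
`expChar M n φ`, and `n ∣ v.ord U` at every place `v` of `F = Frac (modFunAlg M)` over `ℂ`. -/
theorem muSurj_an (F : Type) [Field F] [Algebra ℂ F] [Algebra (modFunAlg M) F]
    [IsFractionRing (modFunAlg M) F]
    (hAll : StmtAll M F) (hPt : StmtPtExact M F) (hCusp : StmtCuspExact M F)
    (φ : Additive (Gamma0 M) →+ ℤ) (hφ : IsParabolicHom (Gamma0 M) φ) (n : ℕ) (hn : 0 < n) :
    ∃ (U : modFunAlg M) (R : RootData (Gamma0 M) n), U ≠ 0 ∧
      (∀ τ : ℍ, R.a τ ^ n = (U : ℍ → ℂ) τ) ∧ (∀ τ : ℍ, R.g τ = 1) ∧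
      R.multAdd = expChar M n φ ∧
      ∀ v : Place ℂ F, (n : ℤ) ∣ v.ord (algebraMap (modFunAlg M) F U) := by
  have hn0 : n ≠ 0 := hn.ne'
  set χ : Gamma0 M →* ℂˣ := expCharMul n φ with hχdef
  have hχp : ∀ γ : Gamma0 M, χ γ ^ n = 1 := expCharMul_pow hn0 φ
  have hpar : ∀ γ : Gamma0 M, IsPar γ → χ γ = 1 := expCharMul_par n hφ
  have hell : ∀ (γ : Gamma0 M) (τ : ℍ), (γ : SL(2, ℤ)) • τ = τ → χ γ = 1 := expCharMul_ell n φ
  refine ⟨uChi χ hn0 hχp hpar, hChiRootData χ hn0 hχp hpar, uChi_ne_zero χ hn0 hχp hpar,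
    fun τ => rfl, fun τ => rfl, ?_, fun v => uChi_dvd_ord χ F hAll hPt hCusp hn0 hχp hpar hell v⟩
  show MonoidHom.toAdditive (hChiRootData χ hn0 hχp hpar).mult = expChar M n φ
  rw [hChiRootData_mult, hχdef, toAdditive_expCharMul]

end Fermat.Agent.ES

end
end ZBES_011_6
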