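/- GENERATED FILE (helper35, build-time optimisation, NOTES/ZB.md): verbatim concatenation of the modules
   Fermat.Agent.ES.DescentInj
   Fermat.Agent.ES.MuCore
   Fermat.Agent.STB.MuPar
   Fermat.Agent.ES.TorsionUnifFinal
   Fermat.Agent.ES.MuSurjGlue
   Fermat.Agent.ES.TorsionUnifProved
   Fermat.Agent.S36.ThinUnitAL
   Fermat.Agent.ES.RiemannRat
   Fermat.Agent.ES.I2.Reg
   Fermat.Agent.ES.I2.MF
   Fermat.Agent.ES.Riemann
   Fermat.Agent.S15.Cusp
   Fermat.Agent.S15.OggUnit
   Fermat.Agent.S15.OggFricke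
   Do not edit; do not import together with these modules. -/
import Mathlib
import Fermat.Prelude.Def_ModularCurve_X0ModL
import Fermat.Agent.ZB.ES_007
import Fermat.Agent.ZB.ES_011
import Fermat.Agent.ZB.S28_002
import Fermat.Agent.ZB.S24_003
import Fermat.Agent.ZB.ES_018
import Fermat.Agent.ZB.S20_001
import Fermat.Agent.ZB.ES_003
import Fermat.Agent.ZB.S34_001
import Fermat.Agent.ZB.S28_001
import Fermat.Agent.ZB.S24_001
import Fermat.Agent.ZB.ES_001
import Fermat.Agent.ZB.S16_001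
import Fermat.Agent.ZB.ES_020
import Fermat.Agent.ZB.S20_009
import Fermat.Agent.ZB.ES_029
import Fermat.Agent.ZB.S24_018
import Fermat.Agent.ZB.S23_001

/-! ### bundled: `Fermat.Agent.ES.DescentInj` -/
section ZBES_012_0

/-!
# ESpkg-G1, piece A6-inj: descent of `p`-th roots and linear disjointness for Laurent series

`K ⊆ L` fields of characteristic `0`, `ι = algebraMap K L`, `coeffMap ι : K((q)) → L((q))`.

* `exists_coeffMap_eq_of_pow_eq`: `K` algebraically closed, `w ∈ L((q))`, `w ^ p = coeffMap ι u`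
  (`p ≠ 0`) ⇒ `w = coeffMap ι w'` with `w' ^ p = u`.
* `mem_laurentBaseChange_of_coeffMap_mem`: `coeffMap ι x ∈ laurentBaseChange L F₀` ⇒
  `x ∈ laurentBaseChange K F₀`   (`K_L ∩ K((q)) = K_K`).
* `exists_root_mem_laurentBaseChange`: the two combined (injectivity of `V_K → V_L`).
-/

set_option autoImplicit false

noncomputable section

namespace Fermat.Agent.ES.DescentInj

open ModularCurve

section PowerSeriesStep

variable {K L : Type*} [Field K] [Field L]

open PowerSeries in
/-- derivative commutes with coefficient maps. -/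
theorem derivative_map (ι : K →+* L) (U : PowerSeries K) :
    PowerSeries.derivative L (U.map ι) = (PowerSeries.derivative K U).map ι := by
  ext k
  simp [PowerSeries.coeff_derivative, PowerSeries.coeff_map]

open PowerSeries in
/-- The logarithmic-derivative identity `p U W' = U' W` for `W ^ p = U`. -/
theorem smul_mul_derivative_of_pow_eq {p : ℕ} (hp : p ≠ 0) (U W : PowerSeries L) (h : W ^ p = U) :
    (p : L) • (U * PowerSeries.derivative L W) = PowerSeries.derivative L U * W := by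
  subst h
  rw [PowerSeries.derivative_pow, Algebra.smul_def, map_natCast]
  obtain ⟨m, rfl⟩ := Nat.exists_eq_succ_of_ne_zero hp
  simp only [Nat.succ_sub_one, Nat.succ_eq_add_one]
  ring

open PowerSeries in
/-- If `W ^ p = ι U` in `L⟦X⟧` with `U 0 ≠ 0` and `W 0 ∈ ι K`, then all coefficients of `W` are
in `ι K` (characteristic `0`). -/
theorem coeff_mem_fieldRange_of_pow_eq [CharZero L] (ι : K →+* L) {p : ℕ} (hp : p ≠ 0)
    (U : PowerSeries K) (W : PowerSeries L) (hU : PowerSeries.constantCoeff U ≠ 0)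
    (hW0 : PowerSeries.constantCoeff W ∈ ι.fieldRange) (h : W ^ p = U.map ι) :
    ∀ k, PowerSeries.coeff k W ∈ ι.fieldRange := by
  intro k
  induction k using Nat.strong_induction_on with
  | _ k ih =>
    rcases Nat.eq_zero_or_pos k with rfl | hk
    · simpa using hW0
    obtain ⟨k, rfl⟩ := Nat.exists_eq_succ_of_ne_zero hk.ne'
    have E := smul_mul_derivative_of_pow_eq hp (U.map ι) W h
    rw [derivative_map] at E
    have E' := congrArg (PowerSeries.coeff k) E
    rw [PowerSeries.coeff_smul, PowerSeries.coeff_mul, PowerSeries.coeff_mul] at E'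
    have hR : ∑ x ∈ Finset.HasAntidiagonal.antidiagonal k,
        PowerSeries.coeff x.1 ((PowerSeries.derivative K U).map ι) * PowerSeries.coeff x.2 W
          ∈ ι.fieldRange := by
      refine Subfield.sum_mem _ fun x hx => ?_
      refine Subfield.mul_mem _ ?_ (ih _ ?_)
      · rw [PowerSeries.coeff_map]; exact ⟨_, rfl⟩
      · have := Finset.HasAntidiagonal.mem_antidiagonal.1 hx; omega
    rw [← Finset.add_sum_erase _ _ (show (0, k) ∈ Finset.HasAntidiagonal.antidiagonal k from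
      Finset.HasAntidiagonal.mem_antidiagonal.2 (zero_add k))] at E'
    have hrest : ∑ x ∈ (Finset.HasAntidiagonal.antidiagonal k).erase (0, k),
        PowerSeries.coeff x.1 (U.map ι) * PowerSeries.coeff x.2 (PowerSeries.derivative L W)
          ∈ ι.fieldRange := by
      refine Subfield.sum_mem _ fun x hx => ?_
      have hx' := Finset.mem_erase.1 hx
      have hmem := Finset.HasAntidiagonal.mem_antidiagonal.1 hx'.2
      have hlt : x.2 < k := by
        rcases x with ⟨i, j⟩
        simp only [ne_eq, Prod.mk.injEq, not_and] at hx'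
        simp only at hmem
        by_contra hcon
        have hj : j = k := by omega
        have hi : i = 0 := by omega
        exact hx'.1 hi hj
      refine Subfield.mul_mem _ ?_ ?_
      · rw [PowerSeries.coeff_map]; exact ⟨_, rfl⟩
      · rw [PowerSeries.coeff_derivative]
        exact Subfield.mul_mem _ (ih _ (by omega)) (by exact_mod_cast natCast_mem ι.fieldRange (x.2 + 1))
    set R := ∑ x ∈ Finset.HasAntidiagonal.antidiagonal k,
        PowerSeries.coeff x.1 ((PowerSeries.derivative K U).map ι) * PowerSeries.coeff x.2 W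
    set rest := ∑ x ∈ (Finset.HasAntidiagonal.antidiagonal k).erase (0, k),
        PowerSeries.coeff x.1 (U.map ι) * PowerSeries.coeff x.2 (PowerSeries.derivative L W)
    simp only [PowerSeries.coeff_map, PowerSeries.coeff_derivative,
      PowerSeries.coeff_zero_eq_constantCoeff_apply] at E'
    have hp' : (p : L) ≠ 0 := Nat.cast_ne_zero.2 hp
    have hc : ι (PowerSeries.constantCoeff U) ≠ 0 := (map_ne_zero ι).2 hU
    have hk1 : ((k : L) + 1) ≠ 0 := by exact_mod_cast Nat.succ_ne_zero k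
    have hsolve : PowerSeries.coeff (k + 1) W
        = (R / (p : L) - rest) / (ι (PowerSeries.constantCoeff U) * ((k : L) + 1)) := by
      field_simp
      linear_combination E'
    rw [hsolve]
    refine Subfield.div_mem _ (Subfield.sub_mem _ (Subfield.div_mem _ hR (natCast_mem _ p)) hrest)
      (Subfield.mul_mem _ ⟨_, rfl⟩ ?_)
    exact_mod_cast natCast_mem ι.fieldRange (k + 1)

end PowerSeriesStep

section LaurentRoot

variable {K L : Type*} [Field K] [Field L]

theorem coeffMap_inj (ι : K →+* L) : Function.Injective (coeffMap ι) :=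
  (coeffMap ι).injective

theorem order_coeffMap (ι : K →+* L) (u : LaurentSeries K) :
    (coeffMap ι u).order = u.order := by
  by_cases hu : u = 0
  · subst hu; simp
  have hu' : coeffMap ι u ≠ 0 := fun h => hu (coeffMap_inj ι (by rw [h, map_zero]))
  refine le_antisymm ?_ ?_
  · refine HahnSeries.order_le_of_coeff_ne_zero ?_
    rw [coeffMap_coeff]
    exact (map_ne_zero ι).2 (mt HahnSeries.coeff_order_eq_zero.1 hu)
  · refine HahnSeries.order_le_of_coeff_ne_zero ?_
    have := mt HahnSeries.coeff_order_eq_zero.1 hu'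
    rw [coeffMap_coeff] at this
    exact fun h => this (by rw [h, map_zero])

theorem powerSeriesPart_coeffMap (ι : K →+* L) (u : LaurentSeries K) :
    (coeffMap ι u).powerSeriesPart = u.powerSeriesPart.map ι := by
  ext k
  rw [LaurentSeries.powerSeriesPart_coeff, PowerSeries.coeff_map,
    LaurentSeries.powerSeriesPart_coeff, order_coeffMap, coeffMap_coeff]

theorem order_pow' (w : LaurentSeries L) (p : ℕ) : (w ^ p).order = p • w.order := by
  induction p with
  | zero => simp
  | succ n ih =>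
    by_cases hw : w = 0
    · subst hw; simp
    rw [pow_succ, HahnSeries.order_mul (pow_ne_zero _ hw) hw, ih, succ_nsmul]

theorem powerSeriesPart_pow (w : LaurentSeries L) (p : ℕ) :
    (w ^ p).powerSeriesPart = w.powerSeriesPart ^ p := by
  apply HahnSeries.ofPowerSeries_injective (Γ := ℤ)
  have h1 := LaurentSeries.single_order_mul_powerSeriesPart (w ^ p)
  have h2 := LaurentSeries.single_order_mul_powerSeriesPart w
  have h3 : (HahnSeries.single (w ^ p).order (1 : L) : LaurentSeries L)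
      * HahnSeries.ofPowerSeries ℤ L (w.powerSeriesPart ^ p) = w ^ p := by
    conv_rhs => rw [← h2]
    rw [mul_pow, HahnSeries.single_pow, one_pow, order_pow', map_pow]
  have hne : (HahnSeries.single (w ^ p).order (1 : L) : LaurentSeries L) ≠ 0 :=
    HahnSeries.single_ne_zero one_ne_zero
  exact mul_left_cancel₀ hne (h1.trans h3.symm)

/-- **Descent of `p`-th roots.** `K` algebraically closed, `L ⊇ K` of characteristic `0`:
a `p`-th root in `L((q))` of a series with coefficients in `K` has coefficients in `K`. -/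
theorem exists_coeffMap_eq_of_pow_eq [CharZero L] [IsAlgClosed K] (ι : K →+* L) {p : ℕ}
    (hp : p ≠ 0) (u : LaurentSeries K) (w : LaurentSeries L) (h : w ^ p = coeffMap ι u) :
    ∃ w' : LaurentSeries K, coeffMap ι w' = w ∧ w' ^ p = u := by
  suffices hex : ∃ w' : LaurentSeries K, coeffMap ι w' = w by
    obtain ⟨w', hw'⟩ := hex
    refine ⟨w', hw', coeffMap_inj ι ?_⟩
    rw [map_pow, hw', h]
  by_cases hw : w = 0
  · exact ⟨0, by rw [hw, map_zero]⟩
  have hu : u ≠ 0 := by
    rintro rfl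
    rw [map_zero] at h
    exact hw (pow_eq_zero_iff hp |>.1 h)
  have hPS : w.powerSeriesPart ^ p = u.powerSeriesPart.map ι := by
    rw [← powerSeriesPart_pow, h, powerSeriesPart_coeffMap]
  have hU0 : PowerSeries.constantCoeff u.powerSeriesPart ≠ 0 := by
    rw [← PowerSeries.coeff_zero_eq_constantCoeff_apply, LaurentSeries.powerSeriesPart_coeff]
    simpa using mt HahnSeries.coeff_order_eq_zero.1 hu
  have hW0 : PowerSeries.constantCoeff w.powerSeriesPart ∈ ι.fieldRange := by
    have hroot : (Polynomial.map ι (Polynomial.X ^ p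
        - Polynomial.C (PowerSeries.constantCoeff u.powerSeriesPart))).IsRoot
          (PowerSeries.constantCoeff w.powerSeriesPart) := by
      have := congrArg PowerSeries.constantCoeff hPS
      rw [map_pow, ← PowerSeries.coeff_zero_eq_constantCoeff_apply
        (φ := (PowerSeries.map ι) u.powerSeriesPart), PowerSeries.coeff_map,
        PowerSeries.coeff_zero_eq_constantCoeff_apply] at this
      rw [Polynomial.IsRoot, Polynomial.eval_map, Polynomial.eval₂_sub, Polynomial.eval₂_pow,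
        Polynomial.eval₂_X, Polynomial.eval₂_C, this, sub_self]
    have hne : (Polynomial.X ^ p
        - Polynomial.C (PowerSeries.constantCoeff u.powerSeriesPart) : Polynomial K) ≠ 0 :=
      Polynomial.X_pow_sub_C_ne_zero (Nat.pos_of_ne_zero hp) _
    exact (IsAlgClosed.splits _).mem_range_of_isRoot hne hroot
  have hall := coeff_mem_fieldRange_of_pow_eq ι hp u.powerSeriesPart w.powerSeriesPart hU0 hW0 hPS
  choose c hc using hall
  refine ⟨HahnSeries.single w.order (1 : K) * HahnSeries.ofPowerSeries ℤ K (PowerSeries.mk c), ?_⟩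
  rw [map_mul, coeffMap_single, map_one, coeffMap_ofPowerSeries]
  have : (PowerSeries.mk c).map ι = w.powerSeriesPart := by
    ext k
    rw [PowerSeries.coeff_map, PowerSeries.coeff_mk, hc]
  rw [this, LaurentSeries.single_order_mul_powerSeriesPart]

end LaurentRoot

section LinearDisjoint

variable {K L : Type*} [Field K] [Field L] [Algebra K L]
variable {I : Type*} (b : Module.Basis I K L)

theorem coeffMap_C (k : K) :
    coeffMap (algebraMap K L) (HahnSeries.C k) = HahnSeries.C (algebraMap K L k) := by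
  rw [HahnSeries.C_apply, coeffMap_single, HahnSeries.C_apply]

theorem coeff_C_mul (l : L) (z : LaurentSeries L) (n : ℤ) :
    (HahnSeries.C l * z).coeff n = l * z.coeff n := by
  rw [HahnSeries.C_mul_eq_smul, HahnSeries.coeff_smul, smul_eq_mul]

theorem C_mem_subalgebra (A : Subalgebra K (LaurentSeries K)) (k : K) :
    (HahnSeries.C k : LaurentSeries K) ∈ A := by
  rw [← LaurentSeries.algebraMap_apply]
  exact A.algebraMap_mem k

/-- `Σ_t C(b_t) * ι(c_t)`. -/
def decSum (c : I →₀ LaurentSeries K) : LaurentSeries L :=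
  c.sum fun t g => HahnSeries.C (b t) * coeffMap (algebraMap K L) g

theorem decSum_zero : decSum b 0 = 0 := Finsupp.sum_zero_index

theorem decSum_add (c c' : I →₀ LaurentSeries K) :
    decSum b (c + c') = decSum b c + decSum b c' :=
  Finsupp.sum_add_index' (fun t => by simp) (fun t g g' => by simp [mul_add])

theorem decSum_sub (c c' : I →₀ LaurentSeries K) :
    decSum b (c - c') = decSum b c - decSum b c' :=
  Finsupp.sum_sub_index (fun t g g' => by simp [mul_sub])

theorem decSum_coeff (c : I →₀ LaurentSeries K) (n : ℤ) :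
    (decSum b c).coeff n = ∑ t ∈ c.support, (c t).coeff n • b t := by
  classical
  unfold decSum
  rw [Finsupp.sum]
  have hadd : ∀ (s : Finset I) (f : I → LaurentSeries L),
      (∑ t ∈ s, f t).coeff n = ∑ t ∈ s, (f t).coeff n := by
    intro s f
    induction s using Finset.induction_on with
    | empty => simp
    | insert a s ha ih => rw [Finset.sum_insert ha, Finset.sum_insert ha, HahnSeries.coeff_add, ih]
  rw [hadd]
  refine Finset.sum_congr rfl fun t _ => ?_
  rw [coeff_C_mul, coeffMap_coeff, Algebra.smul_def, mul_comm]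

theorem decSum_eq_zero {c : I →₀ LaurentSeries K} (h : decSum b c = 0) : c = 0 := by
  ext t n
  have hn := decSum_coeff b c n
  rw [h, HahnSeries.coeff_zero] at hn
  have := linearIndependent_iff'.1 b.linearIndependent c.support (fun t => (c t).coeff n) hn.symm
  by_cases ht : t ∈ c.support
  · simpa using this t ht
  · simp [Finsupp.notMem_support_iff.1 ht]

/-- The additive monoid of series `Σ_t C(b_t) * ι(c_t)` with all `c_t ∈ A`. -/
def decSet (A : Subalgebra K (LaurentSeries K)) : AddSubmonoid (LaurentSeries L) where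
  carrier := {P | ∃ c : I →₀ LaurentSeries K, (∀ t, c t ∈ A) ∧ P = decSum b c}
  zero_mem' := ⟨0, fun t => by simp, (decSum_zero b).symm⟩
  add_mem' := by
    rintro _ _ ⟨c, hc, rfl⟩ ⟨c', hc', rfl⟩
    exact ⟨c + c', fun t => by simpa using add_mem (hc t) (hc' t), (decSum_add b c c').symm⟩

theorem C_mul_coeffMap_mem_decSet (A : Subalgebra K (LaurentSeries K)) (l : L)
    {g : LaurentSeries K} (hg : g ∈ A) :
    HahnSeries.C l * coeffMap (algebraMap K L) g ∈ decSet b A := by
  refine ⟨(b.repr l).mapRange (fun k => HahnSeries.C k * g) (by simp), fun t => ?_, ?_⟩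
  · rw [Finsupp.mapRange_apply]
    exact A.mul_mem (C_mem_subalgebra A _) hg
  · unfold decSum
    rw [Finsupp.sum_mapRange_index (fun t => by simp)]
    conv_lhs => rw [← b.linearCombination_repr l, Finsupp.linearCombination_apply,
      Finsupp.sum, map_sum, Finset.sum_mul]
    rw [Finsupp.sum]
    refine Finset.sum_congr rfl fun t _ => ?_
    rw [map_mul, coeffMap_C, ← mul_assoc, ← map_mul, Algebra.smul_def, mul_comm (b t)]

theorem mul_mem_decSet (A : Subalgebra K (LaurentSeries K)) {P Q : LaurentSeries L}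
    (hP : P ∈ decSet b A) (hQ : Q ∈ decSet b A) : P * Q ∈ decSet b A := by
  obtain ⟨c, hc, rfl⟩ := hP
  obtain ⟨c', hc', rfl⟩ := hQ
  unfold decSum
  rw [Finsupp.sum, Finsupp.sum, Finset.sum_mul_sum]
  refine AddSubmonoid.sum_mem _ fun t _ => AddSubmonoid.sum_mem _ fun t' _ => ?_
  have : HahnSeries.C (b t) * coeffMap (algebraMap K L) (c t)
      * (HahnSeries.C (b t') * coeffMap (algebraMap K L) (c' t'))
      = HahnSeries.C (b t * b t') * coeffMap (algebraMap K L) (c t * c' t') := by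
    rw [map_mul, map_mul]; ring
  rw [this]
  exact C_mul_coeffMap_mem_decSet b A _ (A.mul_mem (hc t) (hc' t'))

theorem mem_decSet_of_mem_adjoin (A : Subalgebra K (LaurentSeries K)) {P : LaurentSeries L}
    (hP : P ∈ Algebra.adjoin L (⇑(coeffMap (algebraMap K L)) '' (A : Set (LaurentSeries K)))) :
    P ∈ decSet b A := by
  induction hP using Algebra.adjoin_induction with
  | mem x hx =>
    obtain ⟨g, hg, rfl⟩ := hx
    simpa using C_mul_coeffMap_mem_decSet b A 1 hg
  | algebraMap l =>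
    rw [LaurentSeries.algebraMap_apply]
    simpa using C_mul_coeffMap_mem_decSet b A l A.one_mem
  | add x y _ _ hx hy => exact add_mem hx hy
  | mul x y _ _ hx hy => exact mul_mem_decSet b A hx hy

/-- **Linear disjointness** of `K((q))` and `L` over `K` inside `L((q))`, fraction form. -/
theorem exists_mul_eq_of_coeffMap_mul_eq (A : Subalgebra K (LaurentSeries K))
    {x : LaurentSeries K} {P Q : LaurentSeries L}
    (hP : P ∈ Algebra.adjoin L (⇑(coeffMap (algebraMap K L)) '' (A : Set (LaurentSeries K))))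
    (hQ : Q ∈ Algebra.adjoin L (⇑(coeffMap (algebraMap K L)) '' (A : Set (LaurentSeries K))))
    (hQ0 : Q ≠ 0) (h : coeffMap (algebraMap K L) x * Q = P) :
    ∃ P' ∈ A, ∃ Q' ∈ A, Q' ≠ 0 ∧ x * Q' = P' := by
  set b := Module.Basis.ofVectorSpace K L
  obtain ⟨cP, hcP, rfl⟩ := mem_decSet_of_mem_adjoin b A hP
  obtain ⟨cQ, hcQ, rfl⟩ := mem_decSet_of_mem_adjoin b A hQ
  have hx : coeffMap (algebraMap K L) x * decSum b cQ
      = decSum b (cQ.mapRange (fun g => x * g) (mul_zero x)) := by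
    unfold decSum
    rw [Finsupp.sum_mapRange_index (fun t => by simp), Finsupp.mul_sum]
    refine Finsupp.sum_congr fun t _ => ?_
    rw [map_mul]; ring
  rw [hx] at h
  have h0 : decSum b (cQ.mapRange (fun g => x * g) (mul_zero x) - cP) = 0 := by
    rw [decSum_sub, h, sub_self]
  have heq := sub_eq_zero.1 (decSum_eq_zero b h0)
  have hne : cQ ≠ 0 := by
    rintro rfl
    exact hQ0 (decSum_zero b)
  obtain ⟨t, ht⟩ := Finsupp.ne_iff.1 hne
  refine ⟨cP t, hcP t, cQ t, hcQ t, by simpa using ht, ?_⟩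
  rw [← heq, Finsupp.mapRange_apply]

end LinearDisjoint

section BaseChange

variable {K L : Type*} [Field K] [Field L] [Algebra K L] [Algebra ℚ K] [Algebra ℚ L]

theorem coeffMap_coeffEmb_eq (x : LaurentSeries ℚ) :
    coeffMap (algebraMap K L) (coeffEmb K x) = coeffEmb L x := by
  rw [coeffEmb, coeffEmb, coeffMap_coeffMap]
  exact coeffMap_congr (Subsingleton.elim _ _) x

/-- The easy direction: `coeffMap` maps `K_K` into `K_L`. -/
theorem coeffMap_mem_laurentBaseChange_of_mem (F₀ : IntermediateField ℚ (LaurentSeries ℚ))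
    {x : LaurentSeries K} (hx : x ∈ laurentBaseChange K F₀) :
    coeffMap (algebraMap K L) x ∈ laurentBaseChange L F₀ := by
  rw [mem_laurentBaseChange_iff] at hx
  induction hx using Subfield.closure_induction with
  | mem y hy =>
      rcases hy with ⟨a, rfl⟩ | ⟨z, hz, rfl⟩
      · rw [LaurentSeries.algebraMap_apply, coeffMap_C, ← LaurentSeries.algebraMap_apply]
        exact (laurentBaseChange L F₀).algebraMap_mem _
      · rw [coeffMap_coeffEmb_eq]
        exact coeffEmb_mem_laurentBaseChange L hz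
  | one => simp
  | add x y _ _ hx hy => simpa using add_mem hx hy
  | neg x _ hx => simpa using neg_mem hx
  | inv x _ hx => simpa using inv_mem hx
  | mul x y _ _ hx hy => simpa using mul_mem hx hy

/-- **`K_L ∩ K((q)) = K_K`**: a series with coefficients in `K` that lies in the base change to
`L` of `F₀` already lies in the base change to `K`. -/
theorem mem_laurentBaseChange_of_coeffMap_mem (F₀ : IntermediateField ℚ (LaurentSeries ℚ))
    {x : LaurentSeries K} (h : coeffMap (algebraMap K L) x ∈ laurentBaseChange L F₀) :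
    x ∈ laurentBaseChange K F₀ := by
  obtain ⟨r, hr, s, hs, hxrs⟩ := IntermediateField.mem_adjoin_iff_div.1 h
  by_cases hs0 : s = 0
  · rw [hs0, div_zero] at hxrs
    have : x = 0 := coeffMap_inj _ (by rw [hxrs, map_zero])
    rw [this]; exact zero_mem _
  set A := Algebra.adjoin K (⇑(coeffEmb K) '' (F₀ : Set (LaurentSeries ℚ)))
  have hle : Algebra.adjoin L (⇑(coeffEmb L) '' (F₀ : Set (LaurentSeries ℚ)))
      ≤ Algebra.adjoin L (⇑(coeffMap (algebraMap K L)) '' (A : Set (LaurentSeries K))) := by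
    refine Algebra.adjoin_mono ?_
    rintro _ ⟨f, hf, rfl⟩
    exact ⟨coeffEmb K f, Algebra.subset_adjoin ⟨f, hf, rfl⟩, coeffMap_coeffEmb_eq f⟩
  have hmul : coeffMap (algebraMap K L) x * s = r := by rw [hxrs, div_mul_cancel₀ _ hs0]
  obtain ⟨P', hP', Q', hQ', hQ0, hPQ⟩ :=
    exists_mul_eq_of_coeffMap_mul_eq A (hle hr) (hle hs) hs0 hmul
  exact IntermediateField.mem_adjoin_iff_div.2
    ⟨P', hP', Q', hQ', by rw [← hPQ, mul_div_cancel_right₀ _ hQ0]⟩

theorem coeffMap_mem_laurentBaseChange_iff (F₀ : IntermediateField ℚ (LaurentSeries ℚ))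
    {x : LaurentSeries K} :
    coeffMap (algebraMap K L) x ∈ laurentBaseChange L F₀ ↔ x ∈ laurentBaseChange K F₀ :=
  ⟨mem_laurentBaseChange_of_coeffMap_mem F₀, coeffMap_mem_laurentBaseChange_of_mem F₀⟩

/-- **A6-inj.** `K` algebraically closed of characteristic `0`, `K ⊆ L`: if `u ∈ K((q))` has a
`p`-th root `w` in `K_L = laurentBaseChange L F₀`, then `w` comes from a `p`-th root of `u` in
`K_K = laurentBaseChange K F₀`.  (Injectivity of `K_K^× / p → K_L^× / p`.) -/
theorem exists_root_mem_laurentBaseChange [CharZero L] [IsAlgClosed K]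
    (F₀ : IntermediateField ℚ (LaurentSeries ℚ)) {p : ℕ} (hp : p ≠ 0)
    {u : LaurentSeries K} {w : LaurentSeries L} (hw : w ∈ laurentBaseChange L F₀)
    (h : w ^ p = coeffMap (algebraMap K L) u) :
    ∃ w' ∈ laurentBaseChange K F₀, coeffMap (algebraMap K L) w' = w ∧ w' ^ p = u := by
  obtain ⟨w', hw', hpow⟩ := exists_coeffMap_eq_of_pow_eq (algebraMap K L) hp u w h
  exact ⟨w', mem_laurentBaseChange_of_coeffMap_mem F₀ (by rw [hw']; exact hw), hw', hpow⟩

end BaseChange

end Fermat.Agent.ES.DescentInj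

end
end ZBES_012_0

/-! ### bundled: `Fermat.Agent.ES.MuCore` -/
section ZBES_012_1

/-!
# ESpkg-G1: the pieces `MuExists` (E) and `MuInj` (I) of the multiplier map

* `muExists M : MuExists M` — every `n`-torsion class of `J₀(M)(ℚ̄)` has a multiplier character:
  a Kummer function `u` (KB) is `a / g` analytically (RC-i), its orders at all places of `K_ℂ`
  are divisible by `n` (BCd), hence so are its orders on `ℍ` (RC-ii `stmtPt`), hence `a / g` has
  a holomorphic `n`-th root on `ℍ` (A1), a root datum (A2).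
* `muInj M : MuInj M` — a class with trivial multiplier character is zero: the `n`-th root is a
  modular function (A2 kernel lemma), so `u` is an `n`-th power in `K_ℂ`, hence in `K_ℚ̄`
  (DescentInj), hence the class is zero (KB).
-/

set_option autoImplicit false
set_option linter.style.haveILetI false

noncomputable section

namespace Fermat.Agent.ES

open ModularCurve AlgebraicCurve CongruenceSubgroup UpperHalfPlane
open Fermat.Agent.S24 Fermat.Agent.S28 Fermat.Agent.ES.RC
open scoped MatrixGroups Manifold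

attribute [local instance] algKbC

/-! ### Orders of powers -/

theorem ordAt_pow' {f : ℍ → ℂ} (hf : MDiff f) (n : ℕ) (τ : ℍ) :
    ordAt τ (f ^ n) = n * ordAt τ f := by
  induction n with
  | zero =>
    have h1 : (f ^ 0 : ℍ → ℂ) = fun _ => (1 : ℂ) := by
      funext z
      simp
    rw [h1, ordAt_const one_ne_zero]
    simp
  | succ n ih =>
    rw [pow_succ, ordAt_mul (hf.pow n) hf, ih]
    push_cast
    ring

theorem ordPt_eq_of_ne_zero {f : ℍ → ℂ} (hf : MDiff f) (hf0 : f ≠ 0) (τ : ℍ) :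
    ((ordPt τ f).toNat : ℕ∞) = ordAt τ f := by
  rw [ordPt, Int.toNat_natCast]
  exact ENat.natCast_toNat (ordAt_ne_top hf hf0 τ)

/-- If `r ^ n * g = a * s ^ n` (holomorphic nonzero functions on `ℍ`), then `n` divides
`ord_τ a - ord_τ g`. -/
theorem dvd_ordPt_sub_of_pow_eq {n : ℕ} {a g r s : ℍ → ℂ} (ha : MDiff a) (hg : MDiff g)
    (hr : MDiff r) (hs : MDiff s) (ha0 : a ≠ 0) (hg0 : g ≠ 0) (hr0 : r ≠ 0) (hs0 : s ≠ 0)
    (h : ∀ τ : ℍ, r τ ^ n * g τ = a τ * s τ ^ n) (τ : ℍ) :
    (n : ℤ) ∣ ordPt τ a - ordPt τ g := by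
  have hfun : r ^ n * g = a * s ^ n := funext h
  have h1 := congrArg (ordAt τ) hfun
  rw [ordAt_mul (hr.pow n) hg, ordAt_mul ha (hs.pow n), ordAt_pow' hr, ordAt_pow' hs] at h1
  obtain ⟨ka, hka⟩ := ENat.ne_top_iff_exists.mp (ordAt_ne_top ha ha0 τ)
  obtain ⟨kg, hkg⟩ := ENat.ne_top_iff_exists.mp (ordAt_ne_top hg hg0 τ)
  obtain ⟨kr, hkr⟩ := ENat.ne_top_iff_exists.mp (ordAt_ne_top hr hr0 τ)
  obtain ⟨ks, hks⟩ := ENat.ne_top_iff_exists.mp (ordAt_ne_top hs hs0 τ)
  rw [← hka, ← hkg, ← hkr, ← hks] at h1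
  have h2 : n * kr + kg = ka + n * ks := by exact_mod_cast h1
  have h3 : ordPt τ a = ka := by rw [ordPt, ← hka]; rfl
  have h4 : ordPt τ g = kg := by rw [ordPt, ← hkg]; rfl
  rw [h3, h4]
  refine ⟨(kr : ℤ) - ks, ?_⟩
  have h5 : (n : ℤ) * kr + kg = ka + n * ks := by exact_mod_cast h2
  linear_combination -h5

variable (M : ℕ) [NeZero M]

/-! ### (E) existence -/

/-- **(E)** every `n`-torsion class of `J₀(M)(ℚ̄)` has a multiplier character. -/
theorem muExists : MuExists M := by
  intro n hn x hx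
  obtain ⟨u, hK⟩ := exists_kummerRel hx
  have hu0 : u ≠ 0 := hK.ne_zero
  have hdvd : ∀ v : Place Kb (modularFunctionFieldBar M), (n : ℤ) ∣ v.ord u := by
    obtain ⟨D, -, -, hD⟩ := hK
    intro v
    exact ⟨_, (hD v).symm⟩
  obtain ⟨a, g, ha, hg, hg', h⟩ := rc_exists_frac M (iotaC M u).2
  rw [iotaC_coe] at h
  have hιu : iotaC M u ≠ 0 := fun h0 => hu0 (iotaC_injective M (by rw [h0, map_zero]))
  have hg0 : g ≠ 0 := by
    rintro rfl
    exact hg' laurentOf_zero
  have ha0 : a ≠ 0 := by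
    rintro rfl
    rw [laurentOf_zero] at h
    rcases mul_eq_zero.mp h with h1 | h1
    · exact hιu (Subtype.ext h1)
    · exact hg' h1
  letI := rc_algebra M
  haveI := rc_isScalarTower M
  haveI := rc_isFractionRing M
  set a' : modFunAlg M := ⟨a, ha⟩ with ha'
  set g' : modFunAlg M := ⟨g, hg⟩ with hg''
  have ha'0 : a' ≠ 0 := fun h0 => ha0 (congrArg Subtype.val h0)
  have hg'0 : g' ≠ 0 := fun h0 => hg0 (congrArg Subtype.val h0)
  have hquot : algebraMap (modFunAlg M) (modularFunctionFieldFullC ℂ M) a' /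
      algebraMap (modFunAlg M) (modularFunctionFieldFullC ℂ M) g' = iotaC M u := by
    rw [div_eq_iff (algebraMap_modFunAlg_ne_zero M _ hg'0)]
    apply Subtype.ext
    exact h.symm
  have hU : ∀ w : Place ℂ (modularFunctionFieldFullC ℂ M),
      (n : ℤ) ∣ w.ord (algebraMap (modFunAlg M) (modularFunctionFieldFullC ℂ M) a' /
        algebraMap (modFunAlg M) (modularFunctionFieldFullC ℂ M) g') := by
    intro w
    rw [hquot]
    rcases baseChangeDown M w with h0 | ⟨v, e, -, hv⟩
    · rw [h0 u]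
      exact dvd_zero _
    · rw [hv u]
      exact Dvd.dvd.mul_left (hdvd v) e
  obtain ⟨R, hRg, hRpow⟩ := exists_rootData_of_places M (modularFunctionFieldFullC ℂ M)
    (Nat.pos_iff_ne_zero.mp hn) (stmtPt M (modularFunctionFieldFullC ℂ M)) ha'0 hg'0 hU
  refine ⟨R.multAdd, u, a, g, R, hK, ⟨ha, hg, hg0, h⟩, fun τ => ?_, rfl⟩
  rw [hRg, hRpow τ]
  obtain ⟨m, rfl⟩ : ∃ m, n = m + 1 := Nat.exists_eq_succ_of_ne_zero (Nat.pos_iff_ne_zero.mp hn)
  simp only [Nat.add_sub_cancel]
  show a τ * g τ ^ m * g τ = a τ * g τ ^ (m + 1)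
  ring

/-! ### (I) injectivity -/

/-- **(I)** a torsion class with trivial multiplier character is zero. -/
theorem muInj : MuInj M := by
  rintro n hn x ⟨u, a, g, R, hK, ⟨ha, hg, hg0, h⟩, hpow, hχ⟩
  have hn0 : n ≠ 0 := Nat.pos_iff_ne_zero.mp hn
  have hu0 : u ≠ 0 := hK.ne_zero
  have hιu : iotaC M u ≠ 0 := fun h0 => hu0 (iotaC_injective M (by rw [h0, map_zero]))
  have hg' : laurentOf g ≠ 0 := by
    intro h0
    exact hg0 ((laurentOf_eq_zero_iff hg.isMerInf).mp h0)
  have ha0 : a ≠ 0 := by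
    rintro rfl
    rw [laurentOf_zero] at h
    rcases mul_eq_zero.mp h with h1 | h1
    · exact hιu (Subtype.ext h1)
    · exact hg' h1
  have hRmult : R.mult = 1 := by
    ext1 γ
    have := DFunLike.congr_fun hχ (Additive.ofMul γ)
    exact this
  -- the root datum with denominator `g`
  have hord := dvd_ordPt_sub_of_pow_eq (rc_mdiff_of_isModFun ha) (rc_mdiff_of_isModFun hg)
    R.mdiff_a R.mdiff_g ha0 hg0 R.a_ne_zero R.g_ne_zero hpow
  obtain ⟨D, hDg, hDpow⟩ := exists_rootData_of_modFun hn0 ha hg ha0 hg0 hord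
  have hDR : D.mult = R.mult := by
    refine D.mult_eq_of_pow_eq R fun τ => ?_
    obtain ⟨m, rfl⟩ : ∃ m, n = m + 1 := Nat.exists_eq_succ_of_ne_zero hn0
    have h1 := hDpow τ
    have h2 := hpow τ
    simp only [Nat.add_sub_cancel] at h1
    rw [mul_pow, mul_pow, h1, hDg]
    linear_combination (-(g τ ^ m)) * h2
  have hDmult : D.mult = 1 := hDR.trans hRmult
  letI := rc_algebra M
  haveI := rc_isScalarTower M
  haveI := rc_isFractionRing M
  set a' : modFunAlg M := ⟨a, ha⟩ with ha'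
  set g' : modFunAlg M := ⟨g, hg⟩ with hg''
  have hg'0 : g' ≠ 0 := fun h0 => hg0 (congrArg Subtype.val h0)
  have hquot : algebraMap (modFunAlg M) (modularFunctionFieldFullC ℂ M) a' /
      algebraMap (modFunAlg M) (modularFunctionFieldFullC ℂ M) g' = iotaC M u := by
    rw [div_eq_iff (algebraMap_modFunAlg_ne_zero M _ hg'0)]
    apply Subtype.ext
    exact h.symm
  obtain ⟨k, hk⟩ := exists_pow_eq_of_mult_eq_one M (modularFunctionFieldFullC ℂ M) D hDmult
    (a := a') (g := g') hg'0 hDg hDpow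
  rw [hquot] at hk
  -- descent to `K_ℚ̄`
  have hk' : (k : LaurentSeries ℂ) ^ n
      = coeffMap (algebraMap Kb ℂ) (u : LaurentSeries (AlgebraicClosure ℚ)) := by
    have := congrArg Subtype.val hk
    exact this
  have hkmem : (k : LaurentSeries ℂ) ∈ laurentBaseChange ℂ (modularFunctionFieldFull M) := by
    rw [Fermat.Agent.ES.G2.hdeg_laurentBaseChange_full ℂ M]
    exact k.2
  obtain ⟨w', hw', -, hw'pow⟩ :=
    DescentInj.exists_root_mem_laurentBaseChange (K := Kb) (L := ℂ) (modularFunctionFieldFull M)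
      hn0 hkmem hk'
  have hu : u = 1 * (⟨w', hw'⟩ : modularFunctionFieldBar M) ^ n := by
    rw [one_mul]
    apply Subtype.ext
    exact hw'pow.symm
  rw [hu] at hK
  exact hK.eq_zero_of_pow hn0 (fun v => v.ord_one)

end Fermat.Agent.ES

end
end ZBES_012_1

/-! ### bundled: `Fermat.Agent.STB.MuPar` -/
section ZBES_012_2

/-!
# STB-P2, analytic half (MuPar): the multiplier character of a torsion class is parabolic

`MuRel M n x χ` (ES/Mu.lean): `χ` is the multiplier character of an `n`-th root of a Kummer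
function `u` of the class `x ∈ J₀(M)(ℚ̄)[n]`.  The orders of `u` at all places of `K_ℚ̄` are
divisible by `n`; every cusp `σ∞` with period `h` is a place of `K_ℂ` (`RC.stmtCusp`), which
restricts to a place of `K_ℚ̄` (`baseChangeDown`); hence the order of `u ∘ σ` in `q_h` is divisible
by `n`, the root is `h`-periodic near `i∞` (`periodic_cross_of_pow_mul_eq`), and the multiplier of
`σ T^h σ⁻¹` is `1`.

* `stb_mupar_conj` : an element of `SL(2, ℤ)` with `tr² = 4` is `± σ T^k σ⁻¹`;
* `stb_mupar_dvd_ordCusp` : `n ∣ ord_cusp a − ord_cusp g` for a Kummer function `u = a / g`;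
* `stb_mupar` : `MuRel M n x χ → IsParabolicHom (Gamma0 M) χ`.
-/

set_option autoImplicit false
set_option linter.style.haveILetI false

noncomputable section

namespace Fermat.Agent.STB

open ModularCurve AlgebraicCurve CongruenceSubgroup UpperHalfPlane ModularCurve.Period
open Fermat.Agent.ES Fermat.Agent.S24 Fermat.Agent.S28 Fermat.Agent.ES.RC
open scoped MatrixGroups Manifold

attribute [local instance] algKbC

/-! ### Parabolic elements are `± σ T^k σ⁻¹` -/

/-- an upper triangular element of `SL(2, ℤ)` is `± T^k` -/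
theorem stb_mupar_upper (β : SL(2, ℤ)) (hβ : β 1 0 = 0) :
    ∃ k : ℤ, β = ModularGroup.T ^ k ∨ β = -(ModularGroup.T ^ k) := by
  have hdet : β 0 0 * β 1 1 - β 0 1 * β 1 0 = 1 := by
    have h := β.det_coe
    rwa [Matrix.det_fin_two] at h
  rw [hβ, mul_zero, sub_zero] at hdet
  rcases Int.eq_one_or_neg_one_of_mul_eq_one' hdet with ⟨h0, h1⟩ | ⟨h0, h1⟩
  · refine ⟨β 0 1, Or.inl ?_⟩
    apply Subtype.ext
    rw [ModularGroup.coe_T_zpow]
    ext i j
    fin_cases i <;> fin_cases j
    · simpa using h0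
    · simp
    · simpa using hβ
    · simpa using h1
  · refine ⟨-β 0 1, Or.inr ?_⟩
    apply Subtype.ext
    rw [Matrix.SpecialLinearGroup.coe_neg, ModularGroup.coe_T_zpow]
    ext i j
    fin_cases i <;> fin_cases j
    · simpa using h0
    · simp
    · simpa using hβ
    · simpa using h1

/-- an element of `SL(2, ℤ)` with `tr² = 4` is `± σ T^k σ⁻¹` -/
theorem stb_mupar_conj (γ : SL(2, ℤ))
    (hγ : ((γ : SL(2, ℤ)) : Matrix (Fin 2) (Fin 2) ℤ).trace ^ 2 = 4) :
    ∃ (σ : SL(2, ℤ)) (k : ℤ),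
      γ = σ * ModularGroup.T ^ k * σ⁻¹ ∨ γ = -(σ * ModularGroup.T ^ k * σ⁻¹) := by
  obtain ⟨δ, β, hβ, hγδ⟩ := Fermat.Agent.S21.parabolic_exists_conj_upper γ hγ
  have e : γ = δ * β * δ⁻¹ := by
    rw [← hγδ]; group
  obtain ⟨k, hk | hk⟩ := stb_mupar_upper β hβ
  · exact ⟨δ, k, Or.inl (by rw [e, hk])⟩
  · refine ⟨δ, k, Or.inr ?_⟩
    rw [e, hk]
    simp

variable (M : ℕ) [NeZero M]

omit [NeZero M] in
theorem stb_mupar_neg_mem {γ : SL(2, ℤ)} (h : γ ∈ Gamma0 M) : -γ ∈ Gamma0 M := by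
  rw [Gamma0_mem] at h ⊢
  rw [Matrix.SpecialLinearGroup.coe_neg, Matrix.neg_apply]
  push_cast
  rw [h, neg_zero]

/-! ### Divisibility of the order at a cusp -/

/-- **Cusp divisibility.**  If all orders of `u ∈ K_ℚ̄` at the places of `K_ℚ̄` are divisible by
`n` and `u = a / g` analytically, then `n` divides `ord_cusp a − ord_cusp g` at every cusp. -/
theorem stb_mupar_dvd_ordCusp {n : ℕ} {u : modularFunctionFieldBar M} (hu0 : u ≠ 0)
    (hdvd : ∀ v : Place Kb (modularFunctionFieldBar M), (n : ℤ) ∣ v.ord u)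
    {a g : ℍ → ℂ} (hfrac : IsAnFrac M u a g) {h : ℕ} {σ : SL(2, ℤ)}
    (hp : IsCuspPeriod M h σ) :
    a ≠ 0 ∧ (n : ℤ) ∣ ordCusp h σ a - ordCusp h σ g := by
  obtain ⟨ha, hg, hg0, hL⟩ := hfrac
  have hιu : iotaC M u ≠ 0 := fun h0 => hu0 (iotaC_injective M (by rw [h0, map_zero]))
  have hg' : laurentOf g ≠ 0 := fun h0 => hg0 ((laurentOf_eq_zero_iff hg.isMerInf).mp h0)
  have ha0 : a ≠ 0 := by
    rintro rfl
    rw [laurentOf_zero] at hL
    rcases mul_eq_zero.mp hL with h1 | h1
    · exact hιu (Subtype.ext h1)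
    · exact hg' h1
  refine ⟨ha0, ?_⟩
  letI := rc_algebra M
  haveI := rc_isScalarTower M
  haveI := rc_isFractionRing M
  set a' : modFunAlg M := ⟨a, ha⟩ with ha'
  set g' : modFunAlg M := ⟨g, hg⟩ with hg''
  have ha'0 : a' ≠ 0 := fun h0 => ha0 (congrArg Subtype.val h0)
  have hg'0 : g' ≠ 0 := fun h0 => hg0 (congrArg Subtype.val h0)
  have hG := algebraMap_modFunAlg_ne_zero M (modularFunctionFieldFullC ℂ M) hg'0
  have hA := algebraMap_modFunAlg_ne_zero M (modularFunctionFieldFullC ℂ M) ha'0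
  have hquot : algebraMap (modFunAlg M) (modularFunctionFieldFullC ℂ M) a' /
      algebraMap (modFunAlg M) (modularFunctionFieldFullC ℂ M) g' = iotaC M u := by
    rw [div_eq_iff hG]
    apply Subtype.ext
    exact hL.symm
  obtain ⟨w, e, -, hw⟩ := stmtCusp M (modularFunctionFieldFullC ℂ M) σ h hp
  have h1 : w.ord (iotaC M u) =
      w.ord (algebraMap (modFunAlg M) (modularFunctionFieldFullC ℂ M) a') -
        w.ord (algebraMap (modFunAlg M) (modularFunctionFieldFullC ℂ M) g') := by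
    rw [← hquot, div_eq_mul_inv, Place.ord_mul w hA (inv_ne_zero hG), Place.ord_inv,
      sub_eq_add_neg]
  have h2 : (n : ℤ) ∣ w.ord (iotaC M u) := by
    rcases baseChangeDown M w with h0 | ⟨v, e', -, hv⟩
    · rw [h0 u]
      exact dvd_zero _
    · rw [hv u]
      exact Dvd.dvd.mul_left (hdvd v) e'
  have h3 := hw a' ha'0
  have h4 := hw g' hg'0
  show (n : ℤ) ∣ ordCusp h σ (a' : ℍ → ℂ) - ordCusp h σ (g' : ℍ → ℂ)
  rw [h3, h4, ← mul_sub, ← h1]
  exact Dvd.dvd.mul_left h2 _

/-! ### The multiplier of a parabolic element -/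

/-- the multiplier of `σ T^h σ⁻¹` (`h > 0` a period of the cusp `σ∞`) is `1` -/
theorem stb_mupar_mult_period {n : ℕ} {x : JZero M} {u : modularFunctionFieldBar M}
    {a g : ℍ → ℂ} {R : RootData (Gamma0 M) n}
    (hK : KummerRel n x u) (hfrac : IsAnFrac M u a g)
    (hpow : ∀ τ : ℍ, R.a τ ^ n * g τ = a τ * R.g τ ^ n)
    {h : ℕ} {σ : SL(2, ℤ)} (hp : IsCuspPeriod M h σ) :
    R.mult ⟨σ * ModularGroup.T ^ h * σ⁻¹, hp.2⟩ = 1 := by
  have hn0 : n ≠ 0 := R.p_ne_zero
  have hu0 : u ≠ 0 := hK.ne_zero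
  have hdvd : ∀ v : Place Kb (modularFunctionFieldBar M), (n : ℤ) ∣ v.ord u := by
    obtain ⟨D, -, -, hD⟩ := hK
    intro v
    exact ⟨_, (hD v).symm⟩
  obtain ⟨ha0, hord⟩ := stb_mupar_dvd_ordCusp M hu0 hdvd hfrac hp
  obtain ⟨ha, hg, hg0, -⟩ := hfrac
  have hFper : IsPer h (fun τ => a (σ • τ)) := rc_isPer_comp ha hp
  have hGper : IsPer h (fun τ => g (σ • τ)) := rc_isPer_comp hg hp
  have hFm := rc_meromorphicAt_cuspFn_comp ha hp
  have hGm := rc_meromorphicAt_cuspFn_comp hg hp
  have hF := (rc_coe_ordCusp M hp (f := ⟨a, ha⟩) (fun h0 => ha0 (congrArg Subtype.val h0))).symm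
  have hG := (rc_coe_ordCusp M hp (f := ⟨g, hg⟩) (fun h0 => hg0 (congrArg Subtype.val h0))).symm
  have hA : MDiff (fun τ => R.a (σ • τ)) := mdiff_comp_SL R.mdiff_a σ
  have hB : MDiff (fun τ => R.g (σ • τ)) := mdiff_comp_SL R.mdiff_g σ
  obtain ⟨Y, -, hcross⟩ := periodic_cross_of_pow_mul_eq hp.1 hn0 hFper hGper hFm hGm hF hG hord
    hA hB (Filter.Eventually.of_forall fun τ => hpow (σ • τ))
  -- a point near the cusp where `A · (B ∘ shift)` does not vanish
  have hBs : MDiff (fun τ => R.g (σ • (ModularGroup.T ^ h • τ))) :=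
    mdiff_comp_SL hB (ModularGroup.T ^ h)
  have hA0 : (fun τ => R.a (σ • τ)) ≠ 0 := fun h0 => R.a_ne_zero ((comp_SL_eq_zero_iff σ).mp h0)
  have hB0 : (fun τ => R.g (σ • τ)) ≠ 0 := fun h0 => R.g_ne_zero ((comp_SL_eq_zero_iff σ).mp h0)
  have hBs0 : (fun τ => R.g (σ • (ModularGroup.T ^ h • τ))) ≠ 0 := fun h0 =>
    hB0 ((comp_SL_eq_zero_iff (w := fun τ => R.g (σ • τ)) (ModularGroup.T ^ h)).mp h0)
  obtain ⟨τ, hτY, hτ⟩ := exists_ne_zero_im_gt (hA.mul hBs) (mdiff_mul_ne_zero hA hBs hA0 hBs0) Y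
  have hsm : (σ * ModularGroup.T ^ h * σ⁻¹) • (σ • τ) = σ • (ModularGroup.T ^ h • τ) := by
    rw [← mul_smul, inv_mul_cancel_right, mul_smul]
  have hspec := R.mult_spec ⟨σ * ModularGroup.T ^ h * σ⁻¹, hp.2⟩ (σ • τ)
  simp only [hsm] at hspec
  have hc := hcross τ hτY
  rw [← rc_T_pow_smul] at hc
  have hne : R.a (σ • τ) * R.g (σ • (ModularGroup.T ^ h • τ)) ≠ 0 := hτ
  apply Units.ext
  rw [Units.val_one]
  have h5 : ((R.mult ⟨σ * ModularGroup.T ^ h * σ⁻¹, hp.2⟩ : ℂˣ) : ℂ) *
      (R.a (σ • τ) * R.g (σ • (ModularGroup.T ^ h • τ))) =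
      1 * (R.a (σ • τ) * R.g (σ • (ModularGroup.T ^ h • τ))) := by
    rw [one_mul, ← hspec]
    exact hc
  exact mul_right_cancel₀ hne h5

/-- **MuPar.**  The multiplier character of a torsion class is trivial on the elements of
trace `±2`. -/
theorem stb_mupar {n : ℕ} {x : JZero M} {χ : CharGrp M} (hrel : MuRel M n x χ) :
    IsParabolicHom (Gamma0 M) χ := by
  obtain ⟨u, a, g, R, hK, hfrac, hpow, rfl⟩ := hrel
  intro γ hγ
  rw [RootData.multAdd_apply]
  suffices h : R.mult γ = 1 by rw [h]; rfl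
  obtain ⟨σ, k, hk⟩ := stb_mupar_conj (γ : SL(2, ℤ)) hγ
  -- `γ₁ = σ T^k σ⁻¹ ∈ Γ₀(M)` has the same multiplier
  have hmem : σ * ModularGroup.T ^ k * σ⁻¹ ∈ Gamma0 M := by
    rcases hk with hk | hk
    · rw [← hk]; exact γ.2
    · have h1 := stb_mupar_neg_mem M γ.2
      rw [hk, neg_neg] at h1
      exact h1
  have hγ₁ : R.mult γ = R.mult ⟨σ * ModularGroup.T ^ k * σ⁻¹, hmem⟩ := by
    rcases hk with hk | hk
    · congr 1
      exact Subtype.ext hk
    · exact R.mult_eq_of_eq_neg hk
  rw [hγ₁]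
  -- reduce to a positive period
  rcases lt_trichotomy k 0 with hneg | rfl | hpos
  · -- `k < 0`: use the inverse
    obtain ⟨h, rfl⟩ : ∃ h : ℕ, k = -(h : ℤ) := ⟨(-k).toNat, by omega⟩
    have hh : 0 < h := by omega
    have hinv : σ * ModularGroup.T ^ h * σ⁻¹ ∈ Gamma0 M := by
      have := (Gamma0 M).inv_mem hmem
      have e : (σ * ModularGroup.T ^ (-(h : ℤ)) * σ⁻¹)⁻¹ = σ * ModularGroup.T ^ h * σ⁻¹ := by
        rw [zpow_neg, zpow_natCast]; group
      rwa [e] at this
    have h1 := stb_mupar_mult_period M hK hfrac hpow (h := h) (σ := σ) ⟨hh, hinv⟩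
    have e2 : (⟨σ * ModularGroup.T ^ (-(h : ℤ)) * σ⁻¹, hmem⟩ : Gamma0 M) =
        (⟨σ * ModularGroup.T ^ h * σ⁻¹, hinv⟩ : Gamma0 M)⁻¹ := by
      apply Subtype.ext
      show σ * ModularGroup.T ^ (-(h : ℤ)) * σ⁻¹ = (σ * ModularGroup.T ^ h * σ⁻¹)⁻¹
      rw [zpow_neg, zpow_natCast]; group
    rw [e2, map_inv, h1, inv_one]
  · have e0 : (⟨σ * ModularGroup.T ^ (0 : ℤ) * σ⁻¹, hmem⟩ : Gamma0 M) = 1 := by
      apply Subtype.ext
      show σ * ModularGroup.T ^ (0 : ℤ) * σ⁻¹ = 1
      rw [zpow_zero, mul_one, mul_inv_cancel]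
    rw [e0, map_one]
  · obtain ⟨h, rfl⟩ : ∃ h : ℕ, k = (h : ℤ) := ⟨k.toNat, by omega⟩
    have hh : 0 < h := by omega
    have hmem' : σ * ModularGroup.T ^ h * σ⁻¹ ∈ Gamma0 M := by
      rw [← zpow_natCast]; exact hmem
    have h1 := stb_mupar_mult_period M hK hfrac hpow (h := h) (σ := σ) ⟨hh, hmem'⟩
    have e2 : (⟨σ * ModularGroup.T ^ (h : ℤ) * σ⁻¹, hmem⟩ : Gamma0 M) =
        ⟨σ * ModularGroup.T ^ h * σ⁻¹, hmem'⟩ := by
      apply Subtype.ext
      show σ * ModularGroup.T ^ (h : ℤ) * σ⁻¹ = σ * ModularGroup.T ^ h * σ⁻¹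
      rw [zpow_natCast]
    rw [e2, h1]

end Fermat.Agent.STB

end
end ZBES_012_2

/-! ### bundled: `Fermat.Agent.ES.TorsionUnifFinal` -/
section ZBES_012_3

/-!
# ESpkg-G1: the contract `TorsionUnif M p` from the single remaining piece `MuSurj M`

Five of the six pieces of `ES/Mu.lean` are proved:
`muExists`, `muInj` (`ES/MuCore.lean`), `muUnique`, `muAdd` (`ES/MuUnique.lean`),
`muHecke` (`ES/MuHecke.lean`).  Hence `TorsionUnif M p` follows from `MuSurj M` alone.
-/

set_option autoImplicit false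

namespace Fermat.Agent.ES

/-- **G1 contract from surjectivity alone.** -/
theorem torsionUnif_of_muSurj (M : ℕ) [NeZero M] (p : ℕ) (hp : 0 < p) (hS : MuSurj M) :
    TorsionUnif M p :=
  torsionUnif_of_muRel p hp (muExists M) muUnique muAdd (muInj M) (muHecke M) hS

end Fermat.Agent.ES


end ZBES_012_3

/-! ### bundled: `Fermat.Agent.ES.MuSurjGlue` -/
section ZBES_012_4

/-!
# ESpkg-G1, piece SUR: `MuSurj M` from base change up (BCu)

`StmtBCu M` : every place `v` of `K_ℚ̄` extends to a place `w` of `K_ℂ` with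
`w.ord (ι f) = v.ord f` (piece BCu, `ES/BaseChangeUp.lean`).

`muSurj_of_bcu : StmtBCu M → MuSurj M`.

Proof.  Let `φ : Γ₀(M) → ℤ` be parabolic and `n > 0`.  The analytic half (`muSurj_an`) gives a
modular function `U` with all orders divisible by `n` and an `n`-th root of multiplier
`expChar M n φ`.  By descent (`Sur.UC_exists_algebraic`) there is `c ∈ K_ℂ^×` such that
`U c ^ n = w ^ n` with `w ∈ ℚ̄((q))`; so `u₀ = w ^ n ∈ K_ℚ̄` (`DescentInj`), all of whose orders
are divisible by `n` (BCu), hence `u₀` is a Kummer function of some `x ∈ J₀(M)[n]` (KB(5)).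
Analytically `u₀ = U (b/d) ^ n` with root `R.a · b / d`, of the same multiplier.
-/

set_option autoImplicit false
set_option linter.unusedSectionVars false
set_option linter.unusedVariables false
set_option linter.style.haveILetI false

noncomputable section

namespace Fermat.Agent.ES.Sur

open ModularCurve AlgebraicCurve CongruenceSubgroup UpperHalfPlane IntermediateField
open Fermat.Agent.S24 Fermat.Agent.S28 Fermat.Agent.ES.RRFin Fermat.Agent.ES.RC
open scoped MatrixGroups Manifold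

attribute [local instance] algKbC

variable (M : ℕ) [NeZero M]

/-- **BCu** (statement): every place of `K_ℚ̄` extends to a place of `K_ℂ`, unramified. -/
def StmtBCu : Prop :=
  ∀ v : Place Kb (modularFunctionFieldBar M), ∃ w : Place ℂ (modularFunctionFieldFullC ℂ M),
    ∀ f : modularFunctionFieldBar M, w.ord (iotaC M f) = v.ord f

variable {M}

/-- an invariant root datum `b / d` (`b`, `d` modular functions). -/
def invRootData (n : ℕ) (hn : n ≠ 0) {b d : ℍ → ℂ} (hb : IsModFun M b) (hd : IsModFun M d)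
    (hb0 : b ≠ 0) (hd0 : d ≠ 0) : RootData (Gamma0 M) n where
  a := b
  g := d
  p_ne_zero := hn
  mdiff_a := rc_mdiff_of_isModFun hb
  mdiff_g := rc_mdiff_of_isModFun hd
  a_ne_zero := hb0
  g_ne_zero := hd0
  pow_inv γ hγ τ := by rw [isModFun_comp_smul hb hγ τ, isModFun_comp_smul hd hγ τ]

theorem invRootData_mult (n : ℕ) (hn : n ≠ 0) {b d : ℍ → ℂ} (hb : IsModFun M b)
    (hd : IsModFun M d) (hb0 : b ≠ 0) (hd0 : d ≠ 0) :
    (invRootData n hn hb hd hb0 hd0).mult = 1 := by
  rw [RootData.mult_eq_one_iff_invariant]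
  intro γ hγ τ
  show b (γ • τ) * d τ = b τ * d (γ • τ)
  rw [isModFun_comp_smul hb hγ τ, isModFun_comp_smul hd hγ τ]

/-- **SUR** from BCu. -/
theorem muSurj_of_bcu (hBCu : StmtBCu M) : MuSurj M := by
  intro φ hφ n hn
  have hn0 : n ≠ 0 := hn.ne'
  letI := rc_algebra M
  haveI := rc_isScalarTower M
  haveI := rc_isFractionRing M
  obtain ⟨U, R, hU0, hRa, hRg, hRmult, hUord⟩ :=
    muSurj_an (KC M) (stmtAll M (KC M)) (stmtPtExact M (KC M)) (stmtCuspExact M (KC M)) φ hφ n hn
  -- `laurentOf U ∈ U_ℂ(n)`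
  have hUmer : IsMerInf (U : ℍ → ℂ) := U.2.isMerInf
  have hUfun0 : (U : ℍ → ℂ) ≠ 0 := fun h => hU0 (Subtype.ext h)
  have hLU0 : laurentOf (U : ℍ → ℂ) ≠ 0 := fun h => hUfun0 ((laurentOf_eq_zero_iff hUmer).mp h)
  have hLU : laurentOf (U : ℍ → ℂ) ∈ UC M n :=
    ⟨rc_laurentOf_mem_full M U.2, hLU0, fun w => hUord w⟩
  -- descent
  obtain ⟨c, hc, hc0, w, hw, halg⟩ := UC_exists_algebraic hn hLU
  obtain ⟨w₀, hw₀⟩ := exists_coeffMap_eq_of_algebraic w halg
  have hcm : coeffMap (algebraMap Kb ℂ) (w₀ ^ n) = laurentOf (U : ℍ → ℂ) * c ^ n := by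
    rw [map_pow, hw₀, hw]
  have hmemC : laurentOf (U : ℍ → ℂ) * c ^ n ∈ KC M :=
    mul_mem (rc_laurentOf_mem_full M U.2) (pow_mem hc n)
  have hu₀mem : w₀ ^ n ∈ modularFunctionFieldBar M := by
    refine (Fermat.Agent.ES.DescentInj.coeffMap_mem_laurentBaseChange_iff (K := Kb) (L := ℂ)
      (modularFunctionFieldFull M)).1 ?_
    rw [hcm, Fermat.Agent.ES.G2.hdeg_laurentBaseChange_full ℂ M]
    exact hmemC
  set u₀ : modularFunctionFieldBar M := ⟨w₀ ^ n, hu₀mem⟩ with hu₀
  have hιu : iotaC M u₀ = ⟨laurentOf (U : ℍ → ℂ) * c ^ n, hmemC⟩ := Subtype.ext hcm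
  have hu₀0 : u₀ ≠ 0 := by
    intro h0
    have h1 : iotaC M u₀ = 0 := by rw [h0, map_zero]
    rw [hιu] at h1
    exact mul_ne_zero hLU0 (pow_ne_zero n hc0) (congrArg Subtype.val h1)
  -- all orders of `u₀` are divisible by `n`
  have hdvd : ∀ v : Place Kb (modularFunctionFieldBar M), (n : ℤ) ∣ v.ord u₀ := by
    intro v
    obtain ⟨w', hw'⟩ := hBCu v
    rw [← hw' u₀, hιu]
    exact (UC_mul_pow hLU hc hc0).2.2 w'
  -- the Kummer class
  haveI := Fermat.Agent.ES.H.hasPrincipalDivisors_FF M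
  obtain ⟨x, hx, hK⟩ := exists_kummerRel_of_dvd (K := Kb) (F := modularFunctionFieldBar M)
    hn0 hu₀0 hdvd
  -- the analytic description
  obtain ⟨b, d, hb, hd, hLd, hfrac⟩ := rc_exists_frac M hc
  have hLb : laurentOf b ≠ 0 := by
    rw [← hfrac]
    exact mul_ne_zero hc0 hLd
  have hb0 : b ≠ 0 := fun h => hLb (by rw [h]; exact laurentOf_zero)
  have hd0 : d ≠ 0 := fun h => hLd (by rw [h]; exact laurentOf_zero)
  have hgn : IsModFun M (d ^ n) := hd.pow n
  have han : IsModFun M ((U : ℍ → ℂ) * b ^ n) := U.2.mul (hb.pow n)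
  have hLgn : laurentOf (d ^ n) = laurentOf d ^ n := laurentOf_pow hd.isMerInf n
  have hLan : laurentOf ((U : ℍ → ℂ) * b ^ n) = laurentOf (U : ℍ → ℂ) * laurentOf b ^ n := by
    rw [laurentOf_mul hUmer (hb.pow n).isMerInf, laurentOf_pow hb.isMerInf]
  have hgn0 : d ^ n ≠ 0 := by
    intro h0
    have h1 : laurentOf (d ^ n) = 0 := by rw [h0]; exact laurentOf_zero
    rw [hLgn] at h1
    exact pow_ne_zero n hLd h1
  refine ⟨x, hx, u₀, (U : ℍ → ℂ) * b ^ n, d ^ n,
    R.mul (invRootData n hn0 hb hd hb0 hd0), hK, ⟨han, hgn, hgn0, ?_⟩, fun τ => ?_, ?_⟩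
  · show coeffMap embC (w₀ ^ n) * laurentOf (d ^ n) = laurentOf ((U : ℍ → ℂ) * b ^ n)
    have hcm' : coeffMap embC (w₀ ^ n) = laurentOf (U : ℍ → ℂ) * c ^ n := hcm
    rw [hcm', hLgn, hLan, ← hfrac]
    ring
  · show (R.a τ * b τ) ^ n * (d τ) ^ n = ((U : ℍ → ℂ) τ * (b τ) ^ n) * (R.g τ * d τ) ^ n
    rw [hRg τ, one_mul, mul_pow, hRa τ]
  · rw [← hRmult]
    have h1 : (R.mul (invRootData n hn0 hb hd hb0 hd0)).mult = R.mult := by
      rw [RootData.mult_mul, invRootData_mult]
      ext1 γ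
      simp
    show MonoidHom.toAdditive (R.mul (invRootData n hn0 hb hd hb0 hd0)).mult =
      MonoidHom.toAdditive R.mult
    rw [h1]

variable (M) in
/-- **SUR**: surjectivity of the multiplier map onto the classes of the integral parabolic
homomorphisms. -/
theorem muSurj : MuSurj M := muSurj_of_bcu (baseChangeUp M)

end Fermat.Agent.ES.Sur

end
end ZBES_012_4

/-! ### bundled: `Fermat.Agent.ES.TorsionUnifProved` -/
section ZBES_012_5

/-!
# ESpkg-G1: the contract `TorsionUnif M p`, unconditionally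

All six pieces of `ES/Mu.lean` are proved (`muExists`, `muInj`: helper34; `muUnique`, `muAdd`:
helper38; `muHecke`: helper92; `Sur.muSurj`: helper10, helper83, helper43), hence the G1 contract
of `ES/Top2.lean` holds for every level `M > 0` and every `p > 0`.
-/

set_option autoImplicit false

namespace Fermat.Agent.ES

/-- **The G1 contract**: the `p`-power torsion of `J₀(M)(ℚ̄)` is uniformised, Hecke-equivariantly,
by the multiplier characters of `Γ₀(M)`. -/
theorem torsionUnif_proved (M : ℕ) [NeZero M] (p : ℕ) (hp : 0 < p) : TorsionUnif M p :=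
  torsionUnif_of_muSurj M p hp (Sur.muSurj M)

end Fermat.Agent.ES


end ZBES_012_5

/-! ### bundled: `Fermat.Agent.S36.ThinUnitAL` -/
section ZBES_012_6

/-!
# S36 / G-thin (T1), part 2: the Atkin–Lehner involution inverts the modular unit

`K` a field of characteristic `0` with `ι : K →+* ℂ`, `q ∤ M` a prime,
`F = modularFunctionFieldFullC K (M * q)`, `w = AL.atkinLehner K ι hq hqM`,
`u_q = Δ(Q^q)/Δ(Q) = S28.uS K q`.

* `s36tu_uS_mem : uS K q ∈ F`;
* `s36tu_atkinLehner_uS : w(u_q) · u_q = q⁻¹²`.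

Route (as `S15/OggFricke.lean`): write `u_q = P(j_e)/Q(j_e)`; the relation `u_q · Q(j_e) = P(j_e)`
between `q`-expansions is a relation between functions on `ℍ`; substitute `τ ↦ W τ`
(`AL.alW`, `Δ(γ z) = (c z + d)¹² Δ(z)`) and multiply.
-/

set_option autoImplicit false
set_option linter.unusedSectionVars false
set_option linter.style.haveILetI false

noncomputable section

namespace Fermat.Agent.S36

open UpperHalfPlane ModularCurve MvPolynomial
open Fermat.Agent.S23 Fermat.Agent.S24 Fermat.Agent.S28 Fermat.Agent.AL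

local notation "Δ" => ModularForm.discriminant

/-! ### Membership -/

section Mem

variable (K : Type*) [Field K] [CharZero K] (ι : K →+* ℂ)

include ι in
/-- `u_q = Δ(Q^q)/Δ(Q)` lies in `K(j, j(Q^q))`. -/
theorem s36tu_uS_mem_prime (q : ℕ) [NeZero q] : uS K q ∈ modularFunctionFieldFullC K q := by
  letI : Algebra K ℂ := ι.toAlgebra
  have h1 : uS ℂ q ∈ laurentBaseChange ℂ (modularFunctionFieldFull q) := by
    rw [Fermat.Agent.ES.G2.hdeg_laurentBaseChange_full]
    exact Fermat.Agent.ES.RC.rc_uS_mem_full q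
  have h2 : coeffMap (algebraMap K ℂ) (uS K q) = uS ℂ q := coeffMap_uS q (algebraMap K ℂ)
  rw [← h2] at h1
  have h3 := Fermat.Agent.ES.DescentInj.mem_laurentBaseChange_of_coeffMap_mem _ h1
  rwa [Fermat.Agent.ES.G2.hdeg_laurentBaseChange_full] at h3

include ι in
/-- `u_q = Δ(Q^q)/Δ(Q)` lies in `F_{Mq}`. -/
theorem s36tu_uS_mem (M q : ℕ) [NeZero q] [NeZero (M * q)] :
    uS K q ∈ modularFunctionFieldFullC K (M * q) :=
  full_degeneracyC_le K (Dvd.intro_left M rfl) (s36tu_uS_mem_prime K ι q)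

include ι in
/-- `u_q⁻¹ = Δ(Q)/Δ(Q^q)` lies in `F_{Mq}`. -/
theorem s36tu_uInvS_mem (M q : ℕ) [NeZero q] [NeZero (M * q)] :
    uInvS K q ∈ modularFunctionFieldFullC K (M * q) := by
  rw [uInvS_eq_inv]
  exact inv_mem (s36tu_uS_mem K ι M q)

end Mem

/-! ### The analytic substitution -/

section Analytic

variable (q M : ℕ) [NeZero q] [NeZero M] (a b : ℤ) (h : (q : ℤ) * a - (M : ℤ) * b = 1)

/-- The analytic modular unit `Δ(qτ)/Δ(τ)`, as an element of `merInf`. -/
def s36tuX : merInf :=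
  ⟨fun z => Δ (scaleN q z) / Δ z, (isModFun_unit q).isMerInf⟩

theorem s36tuX_apply (τ : ℍ) : (s36tuX q : ℍ → ℂ) τ = Δ (scaleN q τ) / Δ τ := rfl

theorem laurentExp_s36tuX : laurentExp (s36tuX q) = uS ℂ q :=
  laurentOf_unit_eq_uS q

/-- `Δ(q·Wτ)/Δ(Wτ) · Δ(qτ)/Δ(τ) = q⁻¹²`. -/
theorem s36tuX_alW (τ : ℍ) :
    (s36tuX q : ℍ → ℂ) τ * (s36tuX q : ℍ → ℂ) (alW q M a b h τ) = ((q : ℂ) ^ 12)⁻¹ := by
  rw [s36tuX_apply, s36tuX_apply, scaleN_alW, alW, P8_discriminant_smul, P8_discriminant_smul]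
  have h1 : Δ τ ≠ 0 := ModularForm.discriminant_ne_zero τ
  have h2 : Δ (scaleN q τ) ≠ 0 := ModularForm.discriminant_ne_zero _
  have hq0 : (q : ℂ) ≠ 0 := Nat.cast_ne_zero.mpr (NeZero.ne q)
  have hd := P8_denom_ne_zero (alGamma2 q M a b h) τ
  have e1 : ((alGamma2 q M a b h) 1 0 : ℤ) = (M : ℤ) := by simp [alGamma2]
  have e2 : ((alGamma2 q M a b h) 1 1 : ℤ) = 1 := by simp [alGamma2]
  have e3 : ((alGamma1 q M a b h) 1 0 : ℤ) = (M : ℤ) := by simp [alGamma1]
  have e4 : ((alGamma1 q M a b h) 1 1 : ℤ) = (q : ℤ) := by simp [alGamma1]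
  rw [e1, e2] at hd
  rw [e1, e2, e3, e4, coe_scaleN]
  push_cast at hd ⊢
  have e5 : (M : ℂ) * ((q : ℂ) * (τ : ℂ)) + (q : ℂ) = (q : ℂ) * ((M : ℂ) * (τ : ℂ) + 1) := by ring
  rw [e5, mul_pow]
  field_simp

end Analytic

/-! ### The relation between polynomials in the generators -/

section Rel

variable {q M : ℕ} [NeZero q] [NeZero M] (hq : q.Prime) (hqM : ¬ q ∣ M)

theorem s36tu_laurentExp_aeval (N : ℕ) (P : MvPolynomial ℕ ℂ) :
    laurentExp (aeval (alFunM N) P) = aeval (alGen ℂ N) P := by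
  rw [comp_aeval_apply]
  exact congrArg (fun f => aeval f P) (funext fun e => laurentExp_alFunM N e)

theorem s36tu_alEval_aeval (N : ℕ) (P : MvPolynomial ℕ ℂ) (τ : ℍ) :
    alEval τ (aeval (alFunM N) P) = aeval (fun e => alFun N e τ) P := by
  rw [comp_aeval_apply]
  rfl

include hq hqM in
/-- The analytic identity behind `s36tu_atkinLehner_uS`. -/
theorem s36tu_al_analytic (P Q : MvPolynomial ℕ ℂ)
    (h : uS ℂ q * aeval (alGen ℂ (M * q)) Q = aeval (alGen ℂ (M * q)) P) :
    aeval (alGen ℂ (M * q))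
      (MvPolynomial.C (((q : ℂ) ^ 12)⁻¹) * (Q * rename (alSwap q (M * q)) Q) -
        P * rename (alSwap q (M * q)) P) = 0 := by
  -- Bezout
  have hcop : IsCoprime (q : ℤ) (M : ℤ) :=
    Nat.isCoprime_iff_coprime.mpr ((Nat.Prime.coprime_iff_not_dvd hq).mpr hqM)
  obtain ⟨u, v, huv⟩ := hcop
  have hab : (q : ℤ) * u - (M : ℤ) * (-v) = 1 := by linear_combination huv
  -- the relation between functions
  have e1 : s36tuX q * aeval (alFunM (M * q)) Q = aeval (alFunM (M * q)) P := by
    apply laurentExp_injective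
    rw [map_mul, laurentExp_s36tuX, s36tu_laurentExp_aeval, s36tu_laurentExp_aeval, h]
  have e2 : ∀ τ : ℍ, (s36tuX q : ℍ → ℂ) τ * aeval (fun e => alFun (M * q) e τ) Q =
      aeval (fun e => alFun (M * q) e τ) P := by
    intro τ
    have := congrArg (alEval τ) e1
    rw [map_mul, s36tu_alEval_aeval, s36tu_alEval_aeval] at this
    exact this
  rw [← s36tu_laurentExp_aeval]
  have e3 : aeval (alFunM (M * q))
      (MvPolynomial.C (((q : ℂ) ^ 12)⁻¹) * (Q * rename (alSwap q (M * q)) Q) -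
        P * rename (alSwap q (M * q)) P) = 0 := by
    apply Subtype.ext
    funext τ
    show alEval τ _ = 0
    rw [s36tu_alEval_aeval]
    have hW : (fun e => alFun (M * q) e (alW q M u (-v) hab τ)) =
        (fun e => alFun (M * q) e τ) ∘ alSwap q (M * q) := by
      funext e
      exact alFun_alW hq hqM u (-v) hab e τ
    have a1 := e2 τ
    have a2 := e2 (alW q M u (-v) hab τ)
    rw [hW] at a2
    have a3 := s36tuX_alW q M u (-v) hab τ
    simp only [map_sub, map_mul, aeval_C, aeval_rename]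
    rw [← a1, ← a2, Algebra.algebraMap_self, RingHom.id_apply, ← a3]
    ring
  rw [e3, map_zero]

end Rel

/-! ### The relation in the function field -/

section Field

variable (K : Type*) [Field K] [CharZero K] (ι : K →+* ℂ) {q M : ℕ} [NeZero q] [NeZero M]
  [NeZero (M * q)] (hq : q.Prime) (hqM : ¬ q ∣ M)

/-- The generators `j(Q^e)` as elements of `F_{Mq}`. -/
def s36tuGen (e : ℕ) : modularFunctionFieldFullC K (M * q) :=
  ⟨alGen K (M * q) e, alGen_mem K e⟩

theorem s36tu_coe_aeval (P : MvPolynomial ℕ K) :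
    ((aeval (s36tuGen K (q := q) (M := M)) P : modularFunctionFieldFullC K (M * q)) :
      LaurentSeries K) = aeval (alGen K (M * q)) P :=
  comp_aeval_apply (s36tuGen K (q := q) (M := M))
    (IntermediateField.val (modularFunctionFieldFullC K (M * q))) P

theorem s36tu_atkinLehner_aeval (P : MvPolynomial ℕ K) :
    atkinLehner K ι hq hqM (aeval (s36tuGen K (q := q) (M := M)) P) =
      aeval (s36tuGen K (q := q) (M := M)) (rename (alSwap q (M * q)) P) := by
  rw [aeval_rename]
  have h := comp_aeval_apply (s36tuGen K (q := q) (M := M))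
    ((atkinLehner K ι hq hqM : modularFunctionFieldFullC K (M * q) ≃ₐ[K]
      modularFunctionFieldFullC K (M * q)) :
      modularFunctionFieldFullC K (M * q) →ₐ[K] modularFunctionFieldFullC K (M * q)) P
  refine h.trans ?_
  congr 2
  funext e
  exact Subtype.ext (atkinLehner_gen K ι hq hqM e)

/-- The modular unit `u_q = Δ(Q^q)/Δ(Q)` as an element of `F_{Mq}`. -/
def s36tuU0 : modularFunctionFieldFullC K (M * q) := ⟨uS K q, s36tu_uS_mem K ι M q⟩

theorem s36tuU0_coe :
    ((s36tuU0 K ι (q := q) (M := M) : modularFunctionFieldFullC K (M * q)) : LaurentSeries K) =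
      uS K q := rfl

theorem s36tuU0_ne_zero : s36tuU0 K ι (q := q) (M := M) ≠ 0 := by
  intro h
  have := congrArg (fun z : modularFunctionFieldFullC K (M * q) => (z : LaurentSeries K)) h
  exact uS_ne_zero q K this

/-- **The Atkin–Lehner involution inverts the modular unit**: `w_q(u_q) · u_q = q⁻¹²`. -/
theorem s36tu_atkinLehner_uS :
    atkinLehner K ι hq hqM (s36tuU0 K ι) * s36tuU0 K ι =
      algebraMap K (modularFunctionFieldFullC K (M * q)) (((q : K) ^ 12)⁻¹) := by
  -- write `u = r / s`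
  have hu' : uS K q ∈ IntermediateField.adjoin K (Set.range (alGen K (M * q))) := by
    rw [adjoin_range_alGen]; exact s36tu_uS_mem K ι M q
  obtain ⟨P, Q, hPQ⟩ := (IntermediateField.mem_adjoin_range_iff K _ _).1 hu'
  have hQ0 : aeval (alGen K (M * q)) Q ≠ 0 := by
    intro h
    rw [h, div_zero] at hPQ
    exact uS_ne_zero q K hPQ
  have h1 : uS K q * aeval (alGen K (M * q)) Q = aeval (alGen K (M * q)) P := by
    rw [hPQ, div_mul_cancel₀ _ hQ0]
  -- to `ℂ`
  have hgen : (fun e => coeffMap ι (alGen K (M * q) e)) = alGen ℂ (M * q) :=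
    funext fun e => coeffMap_alGen ι (M * q) e
  have h2 : uS ℂ q * aeval (alGen ℂ (M * q)) (MvPolynomial.map ι Q) =
      aeval (alGen ℂ (M * q)) (MvPolynomial.map ι P) := by
    have := congrArg (coeffMap ι) h1
    rw [map_mul, coeffMap_uS, al_coeffMap_aeval, al_coeffMap_aeval, hgen] at this
    exact this
  have h3 := s36tu_al_analytic hq hqM _ _ h2
  -- back to `K`
  have hR : MvPolynomial.map ι
      (MvPolynomial.C (((q : K) ^ 12)⁻¹) * (Q * rename (alSwap q (M * q)) Q) -
        P * rename (alSwap q (M * q)) P) =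
      MvPolynomial.C (((q : ℂ) ^ 12)⁻¹) * (MvPolynomial.map ι Q *
        rename (alSwap q (M * q)) (MvPolynomial.map ι Q)) -
          MvPolynomial.map ι P * rename (alSwap q (M * q)) (MvPolynomial.map ι P) := by
    simp only [map_sub, map_mul, MvPolynomial.map_C, MvPolynomial.map_rename, map_inv₀, map_pow,
      map_natCast]
  have h4 : aeval (alGen K (M * q))
      (MvPolynomial.C (((q : K) ^ 12)⁻¹) * (Q * rename (alSwap q (M * q)) Q) -
        P * rename (alSwap q (M * q)) P) = 0 := by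
    apply al_coeffMap_injective ι
    rw [al_coeffMap_aeval, hgen, hR, h3, map_zero]
  -- in `F`
  set g := s36tuGen K (q := q) (M := M) with hg
  set w := atkinLehner K ι hq hqM with hw
  set U := s36tuU0 K ι (q := q) (M := M) with hU
  have hxs : U * aeval g Q = aeval g P := by
    apply Subtype.ext
    have : ((U * aeval g Q : modularFunctionFieldFullC K (M * q)) : LaurentSeries K) =
        (U : LaurentSeries K) * ((aeval g Q : modularFunctionFieldFullC K (M * q)) :
          LaurentSeries K) := rfl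
    rw [this, s36tu_coe_aeval, s36tu_coe_aeval]
    exact h1
  have hs0 : aeval g Q ≠ 0 := by
    intro h
    apply hQ0
    rw [← s36tu_coe_aeval, ← hg, h]
    rfl
  have hws0 : w (aeval g Q) ≠ 0 := (map_ne_zero w).mpr hs0
  have h5 : algebraMap K (modularFunctionFieldFullC K (M * q)) (((q : K) ^ 12)⁻¹) *
      (aeval g Q * w (aeval g Q)) = aeval g P * w (aeval g P) := by
    rw [← s36tu_coe_aeval] at h4
    have h6 := Subtype.ext (a1 := aeval (s36tuGen K (q := q) (M := M))
      (MvPolynomial.C (((q : K) ^ 12)⁻¹) * (Q * rename (alSwap q (M * q)) Q) -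
        P * rename (alSwap q (M * q)) P)) (a2 := (0 : modularFunctionFieldFullC K (M * q))) h4
    rw [map_sub, map_mul, map_mul, map_mul, aeval_C, ← s36tu_atkinLehner_aeval K ι hq hqM,
      ← s36tu_atkinLehner_aeval K ι hq hqM, sub_eq_zero] at h6
    exact h6
  have h7 : w U * w (aeval g Q) = w (aeval g P) := by
    rw [← map_mul, hxs]
  apply mul_right_cancel₀ (mul_ne_zero hs0 hws0)
  calc w U * U * (aeval g Q * w (aeval g Q))
      = (U * aeval g Q) * (w U * w (aeval g Q)) := by ring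
    _ = aeval g P * w (aeval g P) := by rw [hxs, h7]
    _ = _ := h5.symm

end Field

end Fermat.Agent.S36

end
end ZBES_012_6

/-! ### bundled: `Fermat.Agent.ES.RiemannRat` -/
section ZBES_012_7

/-!
# ES shared input (R), piece R2c: rationalisation and descent to `ℚ̄`

* `retract_relation` : a relation `y^d + ∑_j (∑_i C(c j i) J^i) y^(d-j) = 0` in `L((q))` between
  series with coefficients in `K ⊆ L` holds with coefficients `π (c j i) ∈ K` for any `K`-linear
  retraction `π : L → K` (linear disjointness of `L` and `K((q))` over `K`, in the simplest form).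
* `fullC_le_laurentBaseChange` : `ℂ(j(q^d) : d ∣ N) ≤ laurentBaseChange ℂ (ℚ(j(q^d)))`.
* `cusp_rational_relation` : for a cusp form `G` of weight `12 m` on `Γ₀(N)` with integral
  `q`-expansion the series `x = G(q)/Δ(q)^m ∈ ℚ̄((q))` lies in `F = modularFunctionFieldBar N`
  and satisfies `x^d + ∑_{j=1}^d (∑_{i < m j} C(a j i) j^i) x^(d-j) = 0` with `a j i ∈ ℚ̄`.
-/

set_option autoImplicit false

noncomputable section

namespace Fermat.Agent.ES.R

open ModularCurve

/-! ### The retraction trick -/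

section Retract

variable {K L : Type*} [Field K] [Field L] [Algebra K L]

theorem retract_key (π : L →ₗ[K] K) (c : L) (a : LaurentSeries K) (n : ℤ) :
    π ((HahnSeries.C c * coeffMap (algebraMap K L) a).coeff n) =
      (HahnSeries.C (π c) * a).coeff n := by
  rw [HahnSeries.C_mul_eq_smul, HahnSeries.C_mul_eq_smul, HahnSeries.coeff_smul,
    HahnSeries.coeff_smul, coeffMap_coeff, smul_eq_mul, smul_eq_mul, mul_comm c,
    ← Algebra.smul_def, map_smul, smul_eq_mul, mul_comm]

theorem retract_relation (π : L →ₗ[K] K) (hπ : π 1 = 1) (d m : ℕ) (c : ℕ → ℕ → L)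
    (J x : LaurentSeries K)
    (h : coeffMap (algebraMap K L) x ^ d + ∑ j ∈ Finset.Icc 1 d,
      (∑ i ∈ Finset.range (m * j), HahnSeries.C (c j i) * coeffMap (algebraMap K L) J ^ i) *
        coeffMap (algebraMap K L) x ^ (d - j) = 0) :
    x ^ d + ∑ j ∈ Finset.Icc 1 d,
      (∑ i ∈ Finset.range (m * j), HahnSeries.C (π (c j i)) * J ^ i) * x ^ (d - j) = 0 := by
  -- normal form of the hypothesis
  have h1 : HahnSeries.C (1 : L) * coeffMap (algebraMap K L) (x ^ d) + ∑ j ∈ Finset.Icc 1 d,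
      ∑ i ∈ Finset.range (m * j),
        HahnSeries.C (c j i) * coeffMap (algebraMap K L) (J ^ i * x ^ (d - j)) = 0 := by
    rw [← h, map_one, one_mul, map_pow]
    congr 1
    refine Finset.sum_congr rfl fun j _ => ?_
    rw [Finset.sum_mul]
    refine Finset.sum_congr rfl fun i _ => ?_
    rw [map_mul, map_pow, map_pow, mul_assoc]
  -- normal form of the goal
  have h2 : x ^ d + ∑ j ∈ Finset.Icc 1 d,
      (∑ i ∈ Finset.range (m * j), HahnSeries.C (π (c j i)) * J ^ i) * x ^ (d - j) =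
      HahnSeries.C (π 1) * x ^ d + ∑ j ∈ Finset.Icc 1 d, ∑ i ∈ Finset.range (m * j),
        HahnSeries.C (π (c j i)) * (J ^ i * x ^ (d - j)) := by
    rw [hπ, map_one, one_mul]
    congr 1
    refine Finset.sum_congr rfl fun j _ => ?_
    rw [Finset.sum_mul]
    refine Finset.sum_congr rfl fun i _ => ?_
    rw [mul_assoc]
  rw [h2]
  ext n
  have h3 := congrArg (fun z : LaurentSeries L => π (z.coeff n)) h1
  simp only [HahnSeries.coeff_add, HahnSeries.coeff_sum, HahnSeries.coeff_zero, map_add, map_sum,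
    map_zero, retract_key] at h3
  simp only [HahnSeries.coeff_add, HahnSeries.coeff_sum, HahnSeries.coeff_zero]
  exact h3

end Retract

/-! ### `K_ℂ` inside the base change -/

theorem coeffEmb_qExpand_jq (K : Type*) [Field K] [Algebra ℚ K] (d : ℕ) [NeZero d] :
    coeffEmb K (qExpand ℚ d jq) = qExpand K d (jqModC K) := by
  rw [coeffEmb, coeffMap_qExpand, ← jqModC_rat, coeffMap_jqModC]

theorem fullC_le_laurentBaseChange (K : Type*) [Field K] [Algebra ℚ K] (N : ℕ) [NeZero N] :
    modularFunctionFieldFullC K N ≤ laurentBaseChange K (modularFunctionFieldFull N) := by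
  rw [modularFunctionFieldFullC, IntermediateField.adjoin_le_iff]
  rintro x ⟨d, hd0, hd, rfl⟩
  rw [← coeffEmb_qExpand_jq K d]
  exact coeffEmb_mem_laurentBaseChange K (jqd_mem_full N hd)

/-! ### Cusp forms with integral `q`-expansion -/

open UpperHalfPlane ModularForm
open Fermat.Agent.S23 Fermat.Agent.S24 Fermat.Agent.S28 Fermat.Agent.ES.RC
open scoped MatrixGroups ModularForm Manifold

attribute [local instance] Fermat.Agent.S24.algKbC

local notation "Δ" => ModularForm.discriminant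

/-- a `ℚ̄`-linear retraction of `ℚ̄ → ℂ`. -/
theorem exists_retraction : ∃ π : ℂ →ₗ[Kb] Kb, π 1 = 1 := by
  obtain ⟨π, hπ⟩ := LinearMap.exists_leftInverse_of_injective (Algebra.linearMap Kb ℂ)
    (LinearMap.ker_eq_bot.mpr (algebraMap Kb ℂ).injective)
  refine ⟨π, ?_⟩
  have := LinearMap.congr_fun hπ 1
  simpa using this

/-- The series `G(q) / Δ(q)^m` over `ℚ̄` attached to an integral `q`-expansion. -/
def ratSeries (m : ℕ) (z : ℕ → ℤ) : LaurentSeries Kb :=
  HahnSeries.ofPowerSeries ℤ Kb (PowerSeries.mk fun n => ((z n : ℤ) : Kb)) * (deltaS Kb ^ m)⁻¹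

variable {N : ℕ} [NeZero N]

theorem coeffMap_ratSeries (m : ℕ) (F : CuspForm (G0 N) (12 * (m : ℤ))) (z : ℕ → ℤ)
    (hz : ∀ n, (qExpansion 1 F).coeff n = (z n : ℂ)) :
    coeffMap (algebraMap Kb ℂ) (ratSeries m z) = laurentOf (fun τ => F τ / Δ τ ^ m) := by
  have hHPB : IsHPB (fun τ => (fun τ => F τ / Δ τ ^ m) τ * Δ τ ^ m) := by
    have h1 : (fun τ => (fun τ => F τ / Δ τ ^ m) τ * Δ τ ^ m) = ⇑F := by
      funext τ
      simp only
      rw [div_mul_cancel₀ _ (pow_ne_zero m (discriminant_ne_zero τ))]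
    rw [h1]
    exact (IsCF.isMF (⟨F, rfl⟩ : IsCF (G0 N) (12 * (m : ℤ)) ⇑F)).isHPB
  rw [laurentOf_eq hHPB]
  have h1 : (fun τ => (fun τ => F τ / Δ τ ^ m) τ * Δ τ ^ m) = ⇑F := by
    funext τ
    simp only
    rw [div_mul_cancel₀ _ (pow_ne_zero m (discriminant_ne_zero τ))]
  rw [h1, ratSeries, map_mul, map_inv₀, map_pow, coeffMap_deltaS, deltaS_complex,
    coeffMap_ofPowerSeries]
  congr 2
  ext n
  rw [PowerSeries.coeff_map, PowerSeries.coeff_mk, hz n]
  simp

/-- **R2c.**  For a cusp form `F` of weight `12 m` (`m ≥ 1`) on `Γ₀(N)` with integral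
`q`-expansion, `x = F(q)/Δ(q)^m ∈ ℚ̄((q))` lies in the function field `F_N` over `ℚ̄` and satisfies
the norm relation with coefficients in `ℚ̄`. -/
theorem cusp_rational_relation (m : ℕ) (hm : 1 ≤ m) (F : CuspForm (G0 N) (12 * (m : ℤ)))
    (z : ℕ → ℤ) (hz : ∀ n, (qExpansion 1 F).coeff n = (z n : ℂ)) :
    ratSeries m z ∈ ModularCurve.modularFunctionFieldBar N ∧
    ∃ a : ℕ → ℕ → Kb,
      ratSeries m z ^ cosetCard N + ∑ j ∈ Finset.Icc 1 (cosetCard N),
        (∑ i ∈ Finset.range (m * j), HahnSeries.C (a j i) * jqModC Kb ^ i) *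
          ratSeries m z ^ (cosetCard N - j) = 0 := by
  have hx := coeffMap_ratSeries m F z hz
  constructor
  · apply Fermat.Agent.ES.DescentInj.mem_laurentBaseChange_of_coeffMap_mem (K := Kb) (L := ℂ)
    rw [hx]
    exact fullC_le_laurentBaseChange ℂ N
      (rc_laurentOf_mem_full N (isModFun_div (IsCF.isMF ⟨F, rfl⟩)))
  · obtain ⟨c, hc⟩ := cusp_laurent_relation m hm F
    obtain ⟨π, hπ⟩ := exists_retraction
    refine ⟨fun j i => π (c j i), ?_⟩
    refine retract_relation π hπ (cosetCard N) m c (jqModC Kb) (ratSeries m z) ?_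
    rw [hx, coeffMap_jqModC]
    exact hc

end Fermat.Agent.ES.R

end
end ZBES_012_7

/-! ### bundled: `Fermat.Agent.ES.I2.Reg` -/
section ZBES_012_8

/-!
# ES / I2 — piece `I2-Reg`: regularity at the other cusps

`stmtReg N : StmtReg N`: if `σ : F_N → ℚ̄((Q))` is an embedding with a type, `σ ≠ ι₀`, and
`x ∈ F_N` is regular outside the cusp `∞`, then `σ x` has no pole in `Q`.

Proof: `ord_Q ∘ σ` is a valuation of `F_N`, trivial on `ℚ̄`, nontrivial (`σ j = j(Q^N)`), so it
is `e₀ ·` the order of a place `w`.  If `w` is not the cusp `∞` we are done.  If it is, then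
`e₀ = N` (look at `j`) and `ord_Q σ(j_d) = - N d`; the type `(a, δ, m, c)` at `d` has `m = N d`,
so `δ = 1`, `c = 1`, and `σ (j_d) = j(Q^(N d)) = ι₀ (j_d)` for every `d ∣ N`: `σ = ι₀`.
-/

set_option autoImplicit false

noncomputable section

namespace Fermat.Agent.ES.I2

open ModularCurve AlgebraicCurve HahnSeries WithZero Fermat.Agent.ES Fermat.Agent.S24
  Fermat.Agent.ES.M Fermat.Agent.S28

/-- `kronRot c` preserves the order -/
theorem reg_order_kronRot {K : Type*} [Field K] (c : Kˣ) (f : LaurentSeries K) :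
    (kronRot c f).order = f.order := by
  rcases eq_or_ne f 0 with rfl | hf
  · simp
  have hcoef : ∀ n, (kronRot c f).coeff n = 0 ↔ f.coeff n = 0 := by
    intro n
    rw [kronRot_coeff]
    constructor
    · intro h
      rcases mul_eq_zero.1 h with h | h
      · exact absurd h (Units.ne_zero _)
      · exact h
    · intro h
      rw [h, mul_zero]
  have hne : kronRot c f ≠ 0 := by
    intro h
    apply hf
    apply HahnSeries.coeff_order_eq_zero.1
    rw [← hcoef, h]
    rfl
  apply le_antisymm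
  · apply HahnSeries.order_le_of_coeff_ne_zero
    rw [Ne, hcoef]
    exact fun h => hf (HahnSeries.coeff_order_eq_zero.1 h)
  · apply HahnSeries.order_le_of_coeff_ne_zero
    rw [Ne, ← hcoef]
    exact fun h => hne (HahnSeries.coeff_order_eq_zero.1 h)

/-- the order of `f(c · Q^m)` -/
theorem reg_order_substQ {K : Type*} [Field K] (c : Kˣ) (m : ℕ) (hm : m ≠ 0)
    (f : LaurentSeries K) : (substQ c m f).order = (m : ℤ) * f.order := by
  haveI : NeZero m := ⟨hm⟩
  rw [substQ_eq, order_qExpand, reg_order_kronRot]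

/-- in a type nothing vanishes -/
theorem reg_type_ne_zero {N d a δ m : ℕ} [NeZero N] (hd : d ∣ N) (h1 : a * δ = d)
    (h2 : m * δ = N * a) : a ≠ 0 ∧ δ ≠ 0 ∧ m ≠ 0 := by
  have hd0 : d ≠ 0 := fun h => NeZero.ne N (by subst h; simpa using hd)
  have ha : a ≠ 0 := by
    rintro rfl
    rw [zero_mul] at h1
    exact hd0 h1.symm
  have hδ : δ ≠ 0 := by
    rintro rfl
    rw [mul_zero] at h1
    exact hd0 h1.symm
  refine ⟨ha, hδ, ?_⟩
  rintro rfl
  rw [zero_mul] at h2
  exact mul_ne_zero (NeZero.ne N) ha h2.symm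

variable {N : ℕ} [NeZero N]

/-- the valuation `ord_Q ∘ σ` of `F_N` -/
def regVal (σ : FF N →ₐ[Kb] LaurentSeries Kb) : Valuation (FF N) ℤᵐ⁰ :=
  (Valued.v : Valuation (LaurentSeries Kb) ℤᵐ⁰).comap (σ : FF N →+* LaurentSeries Kb)

theorem regVal_apply (σ : FF N →ₐ[Kb] LaurentSeries Kb) (f : FF N) :
    regVal σ f = Valued.v (σ f) := rfl

theorem reg_sigma_ne_zero (σ : FF N →ₐ[Kb] LaurentSeries Kb) {f : FF N} (hf : f ≠ 0) :
    σ f ≠ 0 := by
  intro h
  exact hf ((map_eq_zero_iff σ (σ : FF N →+* LaurentSeries Kb).injective).1 h)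

theorem vord_regVal (σ : FF N →ₐ[Kb] LaurentSeries Kb) {f : FF N} (hf : f ≠ 0) :
    vord (regVal σ) f = (σ f).order := by
  rw [vord, regVal_apply, laurent_valued_eq_exp_neg_order (reg_sigma_ne_zero σ hf), log_exp,
    neg_neg]

theorem regVal_algebraMap_le (σ : FF N →ₐ[Kb] LaurentSeries Kb) (a : Kb) :
    regVal σ (algebraMap Kb (FF N) a) ≤ 1 := by
  rw [regVal_apply, σ.commutes]
  have h := LaurentSeries.valuation_le_iff_coeff_lt_eq_zero (K := Kb) (D := 0)
    (f := algebraMap Kb (LaurentSeries Kb) a)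
  have h' : (Valued.v (algebraMap Kb (LaurentSeries Kb) a) : ℤᵐ⁰) ≤ 1 ↔
      ∀ n : ℤ, n < 0 → (algebraMap Kb (LaurentSeries Kb) a).coeff n = 0 := by
    simpa using h
  rw [h']
  intro n hn
  rw [M.algebraMap_eq_hahnC, HahnSeries.C_apply, HahnSeries.coeff_single_of_ne hn.ne]

theorem reg_coe_jdF (d : ℕ) [NeZero d] (hd : d ∣ N) :
    ((jdF N d hd : FF N) : LaurentSeries Kb) = qExpand Kb d jBar := by
  rw [jdF_coe, Fermat.Agent.ES.R.coeffEmb_qExpand_jq]
  have h2 := Fermat.Agent.ES.R.coeffEmb_qExpand_jq Kb 1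
  rw [qExpand_one_apply, qExpand_one_apply] at h2
  rw [jBar, h2]

/-- the `q`-order of `j(q^d)` -/
theorem reg_order_jdF (d : ℕ) [NeZero d] (hd : d ∣ N) :
    ((jdF N d hd : FF N) : LaurentSeries Kb).order = -(d : ℤ) := by
  rw [reg_coe_jdF, order_qExpand, order_jBar]
  ring

theorem reg_jdF_ne_zero (d : ℕ) [NeZero d] (hd : d ∣ N) : jdF N d hd ≠ 0 := by
  intro h
  have h1 : ((jdF N d hd : FF N) : LaurentSeries Kb) = 0 := by rw [h]; rfl
  rw [reg_coe_jdF] at h1
  exact jBar_ne_zero (qExpand_injective d (by rw [h1, map_zero]))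

/-- **(Reg)** -/
theorem stmtReg (N : ℕ) [NeZero N] : StmtReg N := by
  intro σ hσ hne x hx n hn
  rcases eq_or_ne x 0 with rfl | hx0
  · simp
  have hNpos : (0 : ℤ) < (N : ℤ) := by exact_mod_cast Nat.pos_of_ne_zero (NeZero.ne N)
  -- the type at `d = 1`
  have hj : (σ (jF N)).order = -(N : ℤ) := by
    obtain ⟨a₁, δ₁, m₁, c₁, h11, h12, -, h14⟩ := hσ 1 (one_dvd N)
    have ha₁ : a₁ = 1 := Nat.eq_one_of_mul_eq_one_right h11
    have hm₁ : m₁ = N := by
      have hδ₁ : δ₁ = 1 := Nat.eq_one_of_mul_eq_one_left h11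
      rw [ha₁, hδ₁, mul_one, mul_one] at h12
      exact h12
    rw [← jdF_one, h14, hm₁, reg_order_substQ _ _ (NeZero.ne N), order_jBar]
    ring
  have hpole : ∃ y : FF N, y ≠ 0 ∧ regVal σ y < 1 := by
    refine ⟨(jF N)⁻¹, inv_ne_zero (S24.jF_ne_zero N), ?_⟩
    rw [lt_one_iff_vord_pos _ (inv_ne_zero (S24.jF_ne_zero N)), vord_inv,
      vord_regVal σ (S24.jF_ne_zero N), hj]
    omega
  obtain ⟨w, e₀, he₀, -, hord⟩ :=
    exists_place_of_valuation (K := Kb) (regVal σ) (regVal_algebraMap_le σ) hpole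
  by_cases hinf : IsCuspInfty N w
  · exfalso
    apply hne
    have he : e₀ = N := by
      have h1 := hord (jF N) (S24.jF_ne_zero N)
      rw [vord_regVal σ (S24.jF_ne_zero N), hj, hinf.ord_jF] at h1
      linarith
    have hgen : ∀ (d : ℕ) (hd : d ∣ N), σ (jdF N d hd) = iotaN N (jdF N d hd) := by
      intro d hd
      haveI : NeZero d := ⟨fun h => NeZero.ne N (by subst h; simpa using hd)⟩
      obtain ⟨a, δ, m, c, h1, h2, h3, h4⟩ := hσ d hd
      obtain ⟨ha, -, hm⟩ := reg_type_ne_zero hd h1 h2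
      have hjd0 := reg_jdF_ne_zero (N := N) d hd
      have h5 := hord (jdF N d hd) hjd0
      rw [vord_regVal σ hjd0, h4, reg_order_substQ c m hm, order_jBar, hinf _ hjd0,
        reg_order_jdF, he] at h5
      have hmNd : m = N * d := by
        have : (m : ℤ) = (N : ℤ) * d := by linarith
        exact_mod_cast this
      have hδ1 : δ = 1 := by
        have h6 : N * (d * δ) = N * a := by rw [← mul_assoc, ← hmNd]; exact h2
        have h7 : d * δ = a := Nat.eq_of_mul_eq_mul_left (Nat.pos_of_ne_zero (NeZero.ne N)) h6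
        have h8 : a * (δ * δ) = a * 1 := by rw [← mul_assoc, h1, h7, mul_one]
        have h9 : δ * δ = 1 := Nat.eq_of_mul_eq_mul_left (Nat.pos_of_ne_zero ha) h8
        exact Nat.eq_one_of_mul_eq_one_right h9
      have hc : c = 1 := by
        rw [hδ1, pow_one] at h3
        exact h3
      haveI : NeZero (N * d) := ⟨mul_ne_zero (NeZero.ne N) (NeZero.ne d)⟩
      rw [h4, iotaN_apply, hmNd, hc, substQ_eq, kronRot_one, reg_coe_jdF, qExpand_qExpand]
    apply AlgHom.ext
    intro y
    exact FF_induction (p := fun y => σ y = iotaN N y) hgen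
      (fun a => by rw [σ.commutes, (iotaN N).commutes])
      (fun x y hx hy => by rw [map_add, map_add, hx, hy])
      (fun x y hx hy => by rw [map_mul, map_mul, hx, hy])
      (fun x hx => by rw [map_inv₀, map_inv₀, hx]) y
  · have h0 := hx w hinf
    have h1 := hord x hx0
    rw [vord_regVal σ hx0] at h1
    have h2 : 0 ≤ (σ x).order := by
      rw [h1]
      exact mul_nonneg he₀.le h0
    exact HahnSeries.coeff_eq_zero_of_lt_order (lt_of_lt_of_le hn h2)

/-- **(Reg)** for all levels -/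
theorem stmtRegAll : StmtRegAll := fun N _ => stmtReg N

end Fermat.Agent.ES.I2

end
end ZBES_012_8

/-! ### bundled: `Fermat.Agent.ES.I2.MF` -/
section ZBES_012_9

/-!
# ES / I2-MF: the modular functions `-f E₄ E₆ / Δ`, `-f³ E₆ / Δ`, `f² E₄² / Δ`

`stmtMF : StmtMF N`, `stmtMFAll : StmtMFAll` (interface `ES/I2/Plan.lean`).
For a cusp form `f` of weight `2` on `Γ₀(N)` with integral `q`-expansion the three functions are
`G/Δ` for cusp forms `G` of weight `12` with integral `q`-expansion, so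
`ES/RiemannRat.cusp_rational_relation` applies; the formal identities come from
`j = E₄³/Δ`, `j − 1728 = E₆²/Δ`, `θ j = −E₄² E₆/Δ` (`MFFormal.lean`).
-/

set_option autoImplicit false

noncomputable section

namespace Fermat.Agent.ES.I2

open CongruenceSubgroup UpperHalfPlane ModularForm ModularFormClass Derivative EisensteinSeries
open HahnSeries ModularCurve
open Fermat.Agent.S23 Fermat.Agent.S24 Fermat.Agent.S28 Fermat.Agent.S16 Fermat.Agent.INJ.HM
open Fermat.Agent.S28.Deriv Fermat.Agent.ES.R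
open scoped MatrixGroups ModularForm Manifold

/-- the integral `q`-expansion of `-f E₄ E₆`. -/
def mfPt (z : ℕ → ℤ) : PowerSeries ℤ := -(PowerSeries.mk z * eisenstein4 * mfE6)

/-- the integral `q`-expansion of `-f³ E₆`. -/
def mfP1 (z : ℕ → ℤ) : PowerSeries ℤ := -(PowerSeries.mk z * PowerSeries.mk z * PowerSeries.mk z * mfE6)

/-- the integral `q`-expansion of `f² E₄²`. -/
def mfP2 (z : ℕ → ℤ) : PowerSeries ℤ :=
  PowerSeries.mk z * PowerSeries.mk z * (eisenstein4 * eisenstein4)

theorem mf_jBar_eq : jBar = jqModC Kb := by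
  rw [jBar, coeffEmb, ← jqModC_rat]
  exact map_jqModC (algebraMap ℚ Kb)

theorem mf_deltaS_inv : (deltaS Kb ^ 1)⁻¹ = deltaInvS Kb := by
  rw [pow_one]
  exact (eq_inv_of_mul_eq_one_left (deltaInvS_mul_deltaS Kb)).symm

/-- a cusp form of weight `12` on `Γ₀(N)` with integral `q`-expansion `P`, divided by `Δ`. -/
theorem mf_cusp (N : ℕ) [NeZero N] {g : ℍ → ℂ} (hg : IsCF (G0 N) 12 g) (P : PowerSeries ℤ)
    (hP : qExpansion 1 g = hmC P) :
    coeffMap (Int.castRingHom Kb) (HahnSeries.ofPowerSeries ℤ ℤ P * deltaInvZ) ∈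
        modularFunctionFieldBar N ∧
      CuspRel N (coeffMap (Int.castRingHom Kb) (HahnSeries.ofPowerSeries ℤ ℤ P * deltaInvZ)) := by
  obtain ⟨F, hF⟩ := hg.of_weight_eq (show (12 : ℤ) = 12 * ((1 : ℕ) : ℤ) by norm_num)
  have hz : ∀ n, (qExpansion 1 F).coeff n = (((fun n => P.coeff n) n : ℤ) : ℂ) := by
    intro n
    rw [hF, hP]
    simp [hmC]
  obtain ⟨hmem, a, ha⟩ := cusp_rational_relation 1 le_rfl F (fun n => P.coeff n) hz
  have hx : coeffMap (Int.castRingHom Kb) (HahnSeries.ofPowerSeries ℤ ℤ P * deltaInvZ)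
      = ratSeries 1 (fun n => P.coeff n) := by
    rw [ratSeries, mf_deltaS_inv, map_mul, coeffMap_ofPowerSeries]
    congr 2
    ext n
    simp
  rw [hx]
  refine ⟨hmem, a, ?_⟩
  rw [cosetCard_eq_dedekindPsi] at ha
  rw [mf_jBar_eq]
  simpa only [one_mul] using ha

/-- **(MF)**. -/
theorem stmtMF (N : ℕ) [NeZero N] : StmtMF N := by
  intro f z hz
  have hfq : qExpansion 1 f = hmC (PowerSeries.mk z) := by
    ext n
    have := hz n
    rw [ModularFormClass.qCoeff] at this
    rw [this]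
    simp [hmC]
  have hf : IsCF (G0 N) 2 (⇑f) := ⟨f, rfl⟩
  have h4 : IsMF (G0 N) 4 (E₄ : ℍ → ℂ) := IsMF.of_levelOne mf_isMF_E4
  have h6 : IsMF (G0 N) 6 (E₆ : ℍ → ℂ) := IsMF.of_levelOne mf_isMF_E6
  -- the three cusp forms of weight 12
  have hGt : IsCF (G0 N) 12 (-(⇑f * (E₄ : ℍ → ℂ) * (E₆ : ℍ → ℂ))) :=
    (((hf.mul_isMF h4).mul_isMF h6).of_weight_eq (by norm_num)).neg
  have hG1 : IsCF (G0 N) 12 (-(⇑f * ⇑f * ⇑f * (E₆ : ℍ → ℂ))) :=
    ((((hf.mul_isMF hf.isMF).mul_isMF hf.isMF).mul_isMF h6).of_weight_eq (by norm_num)).neg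
  have hG2 : IsCF (G0 N) 12 (⇑f * ⇑f * ((E₄ : ℍ → ℂ) * (E₄ : ℍ → ℂ))) :=
    ((hf.mul_isMF hf.isMF).mul_isMF (h4.mul h4)).of_weight_eq (by norm_num)
  -- their `q`-expansions
  have hqt : qExpansion 1 (-(⇑f * (E₄ : ℍ → ℂ) * (E₆ : ℍ → ℂ))) = hmC (mfPt z) := by
    rw [IsMF.qExpansion_neg ((hf.isMF.mul h4).mul h6), IsMF.qExpansion_mul (hf.isMF.mul h4) h6,
      IsMF.qExpansion_mul hf.isMF h4, hfq, hm_qExp_E4, mf_qExp_E6, mfPt, map_neg, map_mul, map_mul]
  have hq1 : qExpansion 1 (-(⇑f * ⇑f * ⇑f * (E₆ : ℍ → ℂ))) = hmC (mfP1 z) := by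
    rw [IsMF.qExpansion_neg (((hf.isMF.mul hf.isMF).mul hf.isMF).mul h6),
      IsMF.qExpansion_mul ((hf.isMF.mul hf.isMF).mul hf.isMF) h6,
      IsMF.qExpansion_mul (hf.isMF.mul hf.isMF) hf.isMF, IsMF.qExpansion_mul hf.isMF hf.isMF, hfq,
      mf_qExp_E6, mfP1, map_neg, map_mul, map_mul, map_mul]
  have hq2 : qExpansion 1 (⇑f * ⇑f * ((E₄ : ℍ → ℂ) * (E₄ : ℍ → ℂ))) = hmC (mfP2 z) := by
    rw [IsMF.qExpansion_mul (hf.isMF.mul hf.isMF) (h4.mul h4), IsMF.qExpansion_mul hf.isMF hf.isMF,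
      IsMF.qExpansion_mul h4 h4, hfq, hm_qExp_E4, mfP2, map_mul, map_mul, map_mul]
  refine ⟨HahnSeries.ofPowerSeries ℤ ℤ (mfPt z) * deltaInvZ,
    HahnSeries.ofPowerSeries ℤ ℤ (mfP1 z) * deltaInvZ,
    HahnSeries.ofPowerSeries ℤ ℤ (mfP2 z) * deltaInvZ, ?_, ?_, ?_,
    mf_cusp N hGt _ hqt, mf_cusp N hG1 _ hq1, mf_cusp N hG2 _ hq2⟩
  · rw [mf_theta_j, mf_j_sub_eq, mf_j_eq, mfPt, fqZ, map_neg, map_mul, map_mul, mfE4L, mfE6L]
    ring
  · rw [mf_j_sub_eq, mfPt, mfP2, map_neg, map_mul, map_mul, map_mul, map_mul, map_mul, mfE6L]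
    ring
  · rw [mf_j_sub_eq, mf_j_eq, mfPt, mfP1, map_neg, map_neg, map_mul, map_mul, map_mul, map_mul,
      map_mul, mfE4L, mfE6L]
    ring

/-- **(MF)** for all levels. -/
theorem stmtMFAll : StmtMFAll := fun N _ => stmtMF N

end Fermat.Agent.ES.I2

end
end ZBES_012_9

/-! ### bundled: `Fermat.Agent.ES.Riemann` -/
section ZBES_012_10

/-!
# ES shared input (R): Riemann's inequality for the function field of `X₀(N)` over `ℚ̄`

`riemann_inequality` : for every divisor `A` of `F = ℚ̄(j(q^d) : d ∣ N)`,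

  `deg A + 1 − g ≤ dim_ℚ̄ L(A)`,     `g = dim_ℂ S₂(Γ₀(N))` (`= genusFormula N` by S20).

Route (no Riemann–Roch): `G ↦ G/Δ^m` maps the cusp forms of weight `12 m` with integral
`q`-expansion (S23) into `L(m·(j)_∞ − Σ_{cusps} c)`; `dim S_{12 m} = m ψ − κ + 1 − g` (S20);
`deg (m·(j)_∞ − Σ c) = m ψ − κ` (S24); then the generic transfer `riemann_transfer`.
-/

set_option autoImplicit false

noncomputable section

namespace Fermat.Agent.ES.R

open AlgebraicCurve ModularCurve IntermediateField WithZero Module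
open UpperHalfPlane ModularForm
open Fermat.Agent.S23 Fermat.Agent.S24 Fermat.Agent.S28
open scoped MatrixGroups

attribute [local instance] Fermat.Agent.S24.algKbC

variable {N : ℕ} [NeZero N]

/-! ### The divisor `m·(j)_∞ − Σ_{cusps} c` -/

/-- `A_m = Σ_{v ∈ S} (m · ord_v(j⁻¹) − 1) · v`. -/
def cuspDivisor (N : ℕ) [NeZero N] (S : Finset (Place Kb (FF N))) (m : ℕ) : Divisor Kb (FF N) :=
  ∑ v ∈ S, Finsupp.single v ((m : ℤ) * v.ord (jF N)⁻¹ - 1)

theorem cuspDivisor_apply_of_mem (S : Finset (Place Kb (FF N))) (m : ℕ) {w : Place Kb (FF N)}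
    (hw : w ∈ S) : cuspDivisor N S m w = (m : ℤ) * w.ord (jF N)⁻¹ - 1 := by
  classical
  rw [cuspDivisor, Finsupp.finsetSum_apply]
  simp only [Finsupp.single_apply]
  rw [Finset.sum_ite_eq' S w, if_pos hw]

theorem cuspDivisor_apply_of_notMem (S : Finset (Place Kb (FF N))) (m : ℕ)
    {w : Place Kb (FF N)} (hw : w ∉ S) : cuspDivisor N S m w = 0 := by
  classical
  rw [cuspDivisor, Finsupp.finsetSum_apply]
  simp only [Finsupp.single_apply]
  rw [Finset.sum_ite_eq' S w, if_neg hw]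

theorem degree_cuspDivisor (S : Finset (Place Kb (FF N))) (m : ℕ) :
    Divisor.degree (cuspDivisor N S m) = (m : ℤ) * ∑ v ∈ S, v.ord (jF N)⁻¹ - S.card := by
  rw [cuspDivisor, map_sum]
  simp only [Divisor.degree_single, place_deg_eq_one _ (Fermat.Agent.ES.H.residue_bijective_FF N _),
    Nat.cast_one, mul_one]
  rw [Finset.sum_sub_distrib, Finset.mul_sum]
  simp

/-! ### From cusp forms to functions -/

theorem jF_coe (N : ℕ) [NeZero N] : ((jF N : FF N) : LaurentSeries Kb) = jqModC Kb := by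
  show jBar = _
  rw [jBar, coeffEmb, ← jqModC_rat, coeffMap_jqModC]

theorem jF_ne_zero (N : ℕ) [NeZero N] : jF N ≠ 0 := fun h =>
  (transcendental_jF N) (h ▸ isAlgebraic_zero)

/-- The norm relation inside the function field. -/
theorem ratSeries_rel (m : ℕ) (hm : 1 ≤ m) (F : CuspForm (G0 N) (12 * (m : ℤ)))
    (z : ℕ → ℤ) (hz : ∀ n, (qExpansion 1 F).coeff n = (z n : ℂ))
    (x : FF N) (hx : (x : LaurentSeries Kb) = ratSeries m z) :
    ∃ a : ℕ → ℕ → Kb,
      x ^ cosetCard N + ∑ j ∈ Finset.Icc 1 (cosetCard N),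
        (∑ i ∈ Finset.range (m * j), a j i • jF N ^ i) * x ^ (cosetCard N - j) = 0 := by
  obtain ⟨a, ha⟩ := (cusp_rational_relation m hm F z hz).2
  refine ⟨a, ?_⟩
  set φ : FF N →+* LaurentSeries Kb :=
    (ModularCurve.modularFunctionFieldBar N).toSubfield.subtype with hφd
  have hφ : ∀ y : FF N, φ y = (y : LaurentSeries Kb) := fun _ => rfl
  have hinj : Function.Injective φ := Subtype.val_injective
  apply hinj
  rw [map_zero, ← ha, map_add, map_pow, map_sum, hφ x, hx]
  congr 1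
  refine Finset.sum_congr rfl fun j _ => ?_
  rw [map_mul, map_sum, map_pow, hφ x, hx]
  congr 1
  refine Finset.sum_congr rfl fun i _ => ?_
  rw [Algebra.smul_def, map_mul, map_pow, hφ (jF N), jF_coe]
  congr 1
  rw [← LaurentSeries.algebraMap_apply]
  rfl

/-- **Pole bounds**: `x = F(q)/Δ(q)^m ∈ L(m·(j)_∞ − Σ_{cusps} c)`. -/
theorem ratSeries_mem_rr (m : ℕ) (hm : 1 ≤ m) (F : CuspForm (G0 N) (12 * (m : ℤ)))
    (z : ℕ → ℤ) (hz : ∀ n, (qExpansion 1 F).coeff n = (z n : ℂ))
    (x : FF N) (hx : (x : LaurentSeries Kb) = ratSeries m z)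
    (S : Finset (Place Kb (FF N))) (hS : ∀ v, v ∈ S ↔ 0 < v.ord (jF N)⁻¹) :
    x ∈ riemannRochSpace (cuspDivisor N S m) := by
  obtain ⟨a, ha⟩ := ratSeries_rel m hm F z hz x hx
  intro v
  have hJ0 := jF_ne_zero N
  have hvalJ : v.adicValuation (jF N) = exp (v.ord (jF N)⁻¹) := by
    rw [v.adicValuation_eq_exp_neg_ord hJ0, v.ord_inv]
  by_cases hv : v ∈ S
  · rw [cuspDivisor_apply_of_mem S m hv]
    have hpos := (hS v).mp hv
    have h1 : 1 < v.adicValuation (jF N) := by
      rw [hvalJ, ← exp_zero, exp_lt_exp]; exact hpos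
    refine (val_le_of_rel v (cosetCard N) m a (jF N) x ha h1).trans (le_of_eq ?_)
    rw [hvalJ, ← exp_nsmul, ← exp_add]
    congr 1
    rw [nsmul_eq_mul]
    ring
  · rw [cuspDivisor_apply_of_notMem S m hv, exp_zero]
    have hle : ¬ 0 < v.ord (jF N)⁻¹ := fun h => hv ((hS v).mpr h)
    have h1 : v.adicValuation (jF N) ≤ 1 := by
      rw [hvalJ, ← exp_zero, exp_le_exp]; omega
    exact val_le_one_of_rel v (cosetCard N) m a (jF N) x ha h1

/-! ### The dimension bound -/

local notation "Δ" => ModularForm.discriminant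

/-- `F ↦ F / Δ ^ m` as a linear map into the algebra of functions meromorphic at `i∞`. -/
def divDelta (N : ℕ) [NeZero N] (m : ℕ) : CuspForm (G0 N) (12 * (m : ℤ)) →ₗ[ℂ] merInf where
  toFun F := ⟨fun τ => F τ / Δ τ ^ m,
    (isModFun_div (N := N) (IsCF.isMF ⟨F, rfl⟩)).isMerInf⟩
  map_add' F G := by
    apply Subtype.ext
    funext τ
    simp [add_div]
  map_smul' c F := by
    apply Subtype.ext
    funext τ
    simp [mul_div_assoc]

theorem divDelta_injective (N : ℕ) [NeZero N] (m : ℕ) : Function.Injective (divDelta N m) := by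
  rw [← LinearMap.ker_eq_bot, LinearMap.ker_eq_bot']
  intro F hF
  ext τ
  have h := congrFun (congrArg Subtype.val hF) τ
  simp only [divDelta, LinearMap.coe_mk, AddHom.coe_mk] at h
  have hΔ : Δ τ ^ m ≠ 0 := pow_ne_zero m (discriminant_ne_zero τ)
  have h0 : F τ / Δ τ ^ m = 0 := h
  rw [div_eq_zero_iff] at h0
  simpa using h0.resolve_right hΔ

theorem laurentExp_divDelta (m : ℕ) (F : CuspForm (G0 N) (12 * (m : ℤ))) :
    laurentExp (divDelta N m F) = laurentOf (fun τ => F τ / Δ τ ^ m) :=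
  laurentExp_apply _

set_option synthInstance.maxHeartbeats 400000 in
set_option maxHeartbeats 1000000 in
open Fermat.Agent.ES.H in
/-- `dim_ℂ S_{12 m}(Γ₀(N)) ≤ dim_ℚ̄ L(m·(j)_∞ − Σ_{cusps} c)`. -/
theorem finrank_le_finrank_rr (m : ℕ) (hm : 1 ≤ m) (S : Finset (Place Kb (FF N)))
    (hS : ∀ v, v ∈ S ↔ 0 < v.ord (jF N)⁻¹) (v₀ : Place Kb (FF N)) :
    finrank ℂ (CuspForm (G0 N) (12 * (m : ℤ))) ≤
      finrank Kb ↥(riemannRochSpace (cuspDivisor N S m)) := by
  classical
  haveI : FiniteDimensional ℂ (CuspForm (G0 N) (12 * (m : ℤ))) := cuspForm_finiteDimensional N _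
  haveI := hasPrincipalDivisors_FF N
  haveI : Module.Finite Kb ↥(riemannRochSpace (cuspDivisor N S m)) :=
    rr_finite v₀ (residue_bijective_FF N) _
  -- integral forms span
  set Sint : Set (CuspForm (G0 N) (12 * (m : ℤ))) :=
    {f | ∀ n : ℕ, ∃ z : ℤ, ModularFormClass.qCoeff f n = (z : ℂ)} with hSint
  have hspan : Submodule.span ℂ Sint = ⊤ := by
    have h := Fermat.Agent.S23.hasIntegralStructure N (12 * (m : ℤ))
    unfold CuspForm.HasIntegralStructure CuspForm.intLattice at h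
    rw [Submodule.span_span_of_tower] at h
    exact h
  obtain ⟨b, hbS, hbspan, hbli⟩ := exists_linearIndependent ℂ Sint
  have hbtop : ⊤ ≤ Submodule.span ℂ (Set.range (Subtype.val : b → _)) := by
    rw [Subtype.range_coe, hbspan, hspan]
  let B := Module.Basis.mk hbli hbtop
  haveI : Fintype b := FiniteDimensional.fintypeBasisIndex B
  rw [Module.finrank_eq_card_basis B]
  -- the family
  choose z hz using fun f : b => hbS f.2
  have hz' : ∀ (f : b) n,
      (qExpansion 1 ((f : CuspForm (G0 N) (12 * (m : ℤ))) : ℍ → ℂ)).coeff n = (z f n : ℂ) :=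
    fun f n => hz f n
  have hmem : ∀ f : b, ratSeries m (z f) ∈ ModularCurve.modularFunctionFieldBar N := fun f =>
    (cusp_rational_relation m hm f.1 (z f) (hz' f)).1
  let X : b → FF N := fun f => ⟨ratSeries m (z f), hmem f⟩
  have hXrr : ∀ f, X f ∈ riemannRochSpace (cuspDivisor N S m) := fun f =>
    ratSeries_mem_rr m hm f.1 (z f) (hz' f) (X f) rfl S hS
  let X' : b → ↥(riemannRochSpace (cuspDivisor N S m)) := fun f => ⟨X f, hXrr f⟩
  have hli : LinearIndependent Kb X' := by
    rw [linearIndependent_iff']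
    intro s g hg i hi
    set φ : FF N →+* LaurentSeries Kb :=
      (ModularCurve.modularFunctionFieldBar N).toSubfield.subtype with hφd
    have e : ∀ f : b, φ ((g f • X' f : ↥(riemannRochSpace (cuspDivisor N S m))) : FF N) =
        HahnSeries.C (g f) * ratSeries m (z f) := by
      intro f
      have h0 : ((g f • X' f : ↥(riemannRochSpace (cuspDivisor N S m))) : FF N) =
          algebraMap Kb (FF N) (g f) * X f := Algebra.smul_def (g f) (X f)
      rw [h0, map_mul]
      congr 1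
      rw [← LaurentSeries.algebraMap_apply]
      rfl
    have h1 : ∑ f ∈ s, HahnSeries.C (g f) * ratSeries m (z f) = 0 := by
      have h0 := congrArg (fun y : ↥(riemannRochSpace (cuspDivisor N S m)) => φ (y : FF N)) hg
      simp only [Submodule.coe_sum, map_sum, Submodule.coe_zero, map_zero] at h0
      rw [← h0]
      exact Finset.sum_congr rfl fun f _ => (e f).symm
    have h2 : ∑ f ∈ s, HahnSeries.C (algebraMap Kb ℂ (g f)) *
        laurentExp (divDelta N m f.1) = 0 := by
      have h0 := congrArg (coeffMap (algebraMap Kb ℂ)) h1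
      rw [map_sum, map_zero] at h0
      rw [← h0]
      refine Finset.sum_congr rfl fun f _ => ?_
      rw [map_mul, Fermat.Agent.ES.DescentInj.coeffMap_C, coeffMap_ratSeries m f.1 (z f) (hz' f),
        laurentExp_divDelta]
    have h3 : laurentExp (divDelta N m (∑ f ∈ s, algebraMap Kb ℂ (g f) • (f : CuspForm (G0 N)
        (12 * (m : ℤ))))) = 0 := by
      rw [map_sum, map_sum, ← h2]
      refine Finset.sum_congr rfl fun f _ => ?_
      rw [map_smul, Algebra.smul_def, map_mul, AlgHom.commutes, LaurentSeries.algebraMap_apply]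
    have h4 : ∑ f ∈ s, algebraMap Kb ℂ (g f) • (f : CuspForm (G0 N) (12 * (m : ℤ))) = 0 := by
      apply divDelta_injective N m
      apply laurentExp_injective
      rw [h3, map_zero, map_zero]
    have h5 := linearIndependent_iff'.1 hbli s (fun f => algebraMap Kb ℂ (g f)) h4 i hi
    exact (algebraMap Kb ℂ).injective (by rw [h5, map_zero])
  exact hli.fintype_card_le_finrank

/-! ### Riemann's inequality -/

open Fermat.Agent.ES.H Fermat.Agent.S20 in
/-- **(R) Riemann's inequality** for the function field `F = ℚ̄(j(q^d) : d ∣ N)` of `X₀(N)`: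
`deg A + 1 − g ≤ dim L(A)` for every divisor `A`, with `g = dim_ℂ S₂(Γ₀(N))`. -/
theorem riemann_inequality (N : ℕ) [NeZero N] (A : Divisor Kb (FF N)) :
    Divisor.degree A + 1 - (finrank ℂ (CuspForm (CongruenceSubgroup.Gamma0 N) 2) : ℤ) ≤
      (finrank Kb ↥(riemannRochSpace A) : ℤ) := by
  classical
  haveI := hasPrincipalDivisors_FF N
  obtain ⟨R⟩ := exists_realization N
  haveI := finiteDimensional_adjoin_jF N
  obtain ⟨hcard, S, hS, hsum⟩ := card_places_of_loc N R (jF N)⁻¹ (transcendental_jF_inv N)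
    (jF_inv_mem_adjoin N) (jF_mem_adjoin_inv N) ModularGroup.T R.loc_inf
  -- the number of cusps
  have hScard : S.card = numCusps N := by
    rw [numCusps_eq_card_orbits, ← hcard, ← Nat.card_eq_finsetCard]
    exact Nat.card_congr (Equiv.subtypeEquivRight hS)
  -- the index
  have hψ : Nat.card (SL(2, ℤ) ⧸ CongruenceSubgroup.Gamma0 N) = Fintype.card (Q N) := by
    rw [Nat.card_congr (equivQ N), Nat.card_eq_fintype_card]
  have hψpos : (1 : ℤ) ≤ Fintype.card (Q N) := by
    have : 0 < Fintype.card (Q N) := Fintype.card_pos_iff.mpr ⟨q0 N⟩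
    exact_mod_cast this
  rw [hψ] at hsum
  -- a place
  obtain ⟨v₀, -⟩ : ∃ v, v ∈ S := by
    by_contra hcon
    have hempty : S = ∅ := Finset.eq_empty_of_forall_notMem fun v hv => hcon ⟨v, hv⟩
    rw [hempty, Finset.sum_empty] at hsum
    omega
  obtain ⟨L₀, hL₀⟩ := finrank_cusp_twelve N
  refine riemann_transfer (residue_bijective_FF N) _ (fun M => ?_) A
  set m : ℕ := max (max L₀ 1) (M.toNat + numCusps N) with hm
  have hm1 : 1 ≤ m := le_trans (le_max_right L₀ 1) (le_max_left _ _)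
  have hmL : L₀ ≤ m := le_trans (le_max_left L₀ 1) (le_max_left _ _)
  have hmM : M + numCusps N ≤ m := by
    have h1 : M.toNat + numCusps N ≤ m := le_max_right _ _
    have h2 : M ≤ M.toNat := Int.self_le_toNat M
    have h3 : ((M.toNat + numCusps N : ℕ) : ℤ) ≤ m := by exact_mod_cast h1
    push_cast at h3
    linarith
  have hdeg : Divisor.degree (cuspDivisor N S m) = (m : ℤ) * Fintype.card (Q N) - numCusps N := by
    rw [degree_cuspDivisor, hsum, hScard]
  refine ⟨cuspDivisor N S m, ?_, ?_⟩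
  · rw [hdeg]
    have : (m : ℤ) * 1 ≤ (m : ℤ) * Fintype.card (Q N) :=
      mul_le_mul_of_nonneg_left hψpos (Int.natCast_nonneg m)
    linarith
  · have h1 := hL₀ m hmL
    have h2 := finrank_le_finrank_rr m hm1 S hS v₀
    have h2' : (finrank ℂ (CuspForm (Fermat.Agent.S23.G0 N) (12 * (m : ℤ))) : ℤ) ≤
        finrank Kb ↥(riemannRochSpace (cuspDivisor N S m)) := by exact_mod_cast h2
    have h3 : (finrank ℂ (CuspForm (CongruenceSubgroup.Gamma0 N) 2) : ℤ) =
        finrank ℂ (CuspForm (Fermat.Agent.S20.G0 N) 2) := rfl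
    rw [hdeg, h3]
    have h4 : (finrank ℂ (CuspForm (Fermat.Agent.S23.G0 N) (12 * (m : ℤ))) : ℤ) =
        finrank ℂ (CuspForm (Fermat.Agent.S20.G0 N) (12 * (m : ℤ))) := rfl
    rw [h4] at h2'
    linarith

/-- The input `StmtR` of route 2 (`Fermat/Agent/ES/M/Plan.lean`). -/
theorem stmtR (N : ℕ) [NeZero N] : Fermat.Agent.ES.M.StmtR N :=
  fun D => riemann_inequality N D

/-- All levels. -/
theorem stmtRAll : Fermat.Agent.ES.M.StmtRAll := fun N _ => stmtR N

end Fermat.Agent.ES.R

end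
end ZBES_012_10

/-! ### bundled: `Fermat.Agent.S15.Cusp` -/
section ZBES_012_11

/-!
# S15 (Mazur chain), shared definitions: the two cusps of `X₀(N)` and the cuspidal class

`F_N = FF N = ℚ̄(j(q^d) : d ∣ N) ⊂ ℚ̄((q))`, `J = JZero N = Pic⁰(F_N)`.

* `cuspInf N`  : the cusp `∞` (the place whose order function is the `q`-order);
* `cuspZero N` : the cusp `0 = w_N(∞)` (`w_N = frickeAut N` the Fricke involution);
* `cuspDiv N`  : the divisor `(0) − (∞)` (of degree `0`), `cuspClass N : JZero N` its class `c`.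

Basic facts: both cusps have degree `1`; `ord_∞ f = ord_q f`, `ord_0 f = ord_q (w_N f)`;
`ord_∞ j = -1`, `ord_0 j = -N`, `ord_∞ j(q^N) = -N`, `ord_0 j(q^N) = -1`; `0 ≠ ∞` for `N ≥ 2`.

Galois: `galAct N σ` is the coefficientwise action of `σ ∈ G_ℚ` on `F_N`; it commutes with `w_N`
(`fricke_galAct`), fixes both cusps and the cuspidal class (`galois_smul_cuspClass`).
-/

set_option autoImplicit false
set_option linter.unusedSectionVars false
set_option linter.style.haveILetI false

noncomputable section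

namespace Fermat.Agent.S15

open ModularCurve AlgebraicCurve
open Fermat.Agent.S24 Fermat.Agent.ES.M

variable (N : ℕ) [NeZero N]

/-- The cusp `∞` of `F_N`. -/
def cuspInf : Place Kb (FF N) := (exists_isCuspInfty N).choose

theorem cuspInf_isCuspInfty : IsCuspInfty N (cuspInf N) := (exists_isCuspInfty N).choose_spec.1

theorem cuspInf_deg : (cuspInf N).deg = 1 := (exists_isCuspInfty N).choose_spec.2

variable {N} in
theorem cuspInf_ord {f : FF N} (hf : f ≠ 0) :
    (cuspInf N).ord f = (f : LaurentSeries Kb).order := cuspInf_isCuspInfty N f hf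

/-- The cusp `0 = w_N(∞)` of `F_N`. -/
def cuspZero : Place Kb (FF N) := frickeAut N • cuspInf N

variable {N} in
theorem cuspZero_ord (f : FF N) : (cuspZero N).ord f = (cuspInf N).ord (frickeAut N f) :=
  fr_ord_frickeAut (cuspInf N) f

theorem cuspZero_deg : (cuspZero N).deg = 1 := by
  rw [cuspZero, Place.deg_smul, cuspInf_deg]

theorem fricke_smul_cuspZero : frickeAut N • cuspZero N = cuspInf N := by
  apply Place.ext
  ext f
  rcases eq_or_ne f 0 with rfl | hf
  · simp
  · have h1 : (frickeAut N • cuspZero N).ord f = (cuspInf N).ord f := by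
      rw [fr_ord_frickeAut, cuspZero_ord, frickeAut_frickeAut]
    rw [← PlaceAux.ord_nonneg_iff _ hf, ← PlaceAux.ord_nonneg_iff _ hf, h1]

theorem cuspInf_ord_jF : (cuspInf N).ord (jF N) = -1 := (cuspInf_isCuspInfty N).ord_jF

theorem cuspInf_ord_jdF (d : ℕ) (hd : d ∣ N) : (cuspInf N).ord (jdF N d hd) = -(d : ℤ) := by
  rw [cuspInf_ord (fr_jdF_ne_zero d hd), fr_order_jdF]

theorem cuspZero_ord_jF : (cuspZero N).ord (jF N) = -(N : ℤ) := by
  rw [cuspZero_ord, frickeAut_jF, cuspInf_ord_jdF]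

theorem cuspZero_ord_jdF (d : ℕ) (hd : d ∣ N) :
    (cuspZero N).ord (jdF N d hd) = -((N / d : ℕ) : ℤ) := by
  rw [cuspZero_ord, frickeAut_jdF, cuspInf_ord_jdF]

theorem cuspZero_ne_cuspInf (hN : 2 ≤ N) : cuspZero N ≠ cuspInf N := by
  intro h
  have h1 := cuspZero_ord_jF N
  rw [h, cuspInf_ord_jF] at h1
  omega

/-- The cuspidal divisor `(0) − (∞)`. -/
def cuspDiv : Divisor.degZero (K := Kb) (F := FF N) :=
  ⟨Finsupp.single (cuspZero N) 1 - Finsupp.single (cuspInf N) 1, by
    rw [Divisor.mem_degZero, map_sub, Divisor.degree_single, Divisor.degree_single,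
      cuspZero_deg, cuspInf_deg]
    simp⟩

theorem coe_cuspDiv : ((cuspDiv N : Divisor.degZero (K := Kb) (F := FF N)) : Divisor Kb (FF N)) =
    Finsupp.single (cuspZero N) 1 - Finsupp.single (cuspInf N) 1 := rfl

/-- The cuspidal class `c = [(0) − (∞)] ∈ J₀(N)`. -/
def cuspClass : JZero N := Pic0.mk (cuspDiv N)

/-! ### The Galois action -/

/-- The coefficientwise action of `σ ∈ G_ℚ` on `F_N`. -/
abbrev galAct (σ : Kb ≃ₐ[ℚ] Kb) : SemilinearAut Kb (FF N) :=
  arithmeticGalois (modularFunctionFieldFull N) σ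

variable {N}

theorem coe_galAct_smul (σ : Kb ≃ₐ[ℚ] Kb) (f : FF N) :
    ((galAct N σ • f : FF N) : LaurentSeries Kb) =
      coeffMap (σ : Kb →+* Kb) (f : LaurentSeries Kb) := rfl

theorem galAct_algebraMap (σ : Kb ≃ₐ[ℚ] Kb) (a : Kb) :
    galAct N σ • algebraMap Kb (FF N) a = algebraMap Kb (FF N) (σ a) :=
  arithmeticRingAut_algebraMap (modularFunctionFieldFull N) σ a

theorem galAct_jdF (σ : Kb ≃ₐ[ℚ] Kb) (d : ℕ) (hd : d ∣ N) :
    galAct N σ • jdF N d hd = jdF N d hd := by
  have hd0 : d ≠ 0 := fun h => NeZero.ne N (by subst h; simpa using hd)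
  haveI : NeZero d := ⟨hd0⟩
  apply Subtype.ext
  rw [coe_galAct_smul, jdF_coe, coeffEmb, coeffMap_coeffMap]
  exact coeffMap_congr (RingHom.ext fun r => by simp) _

/-- The Fricke involution commutes with the Galois action. -/
theorem fricke_galAct (σ : Kb ≃ₐ[ℚ] Kb) (f : FF N) :
    frickeAut N (galAct N σ • f) = galAct N σ • frickeAut N f := by
  induction f using FF_induction with
  | gen d hd => rw [galAct_jdF, frickeAut_jdF, galAct_jdF]
  | const a => rw [galAct_algebraMap, AlgEquiv.commutes, AlgEquiv.commutes, galAct_algebraMap]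
  | add x y hx hy => rw [smul_add, map_add, map_add, smul_add, hx, hy]
  | mul x y hx hy => rw [smul_mul', map_mul, map_mul, smul_mul', hx, hy]
  | inv x hx => rw [smul_inv'', map_inv₀, map_inv₀, smul_inv'', hx]

theorem galAct_smul_ne_zero (σ : Kb ≃ₐ[ℚ] Kb) {f : FF N} (hf : f ≠ 0) : galAct N σ • f ≠ 0 := by
  intro h
  apply hf
  have := congrArg (fun x => (galAct N σ)⁻¹ • x) h
  simpa using this

theorem order_galAct_smul (σ : Kb ≃ₐ[ℚ] Kb) (f : FF N) :
    ((galAct N σ • f : FF N) : LaurentSeries Kb).order = (f : LaurentSeries Kb).order := by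
  rw [coe_galAct_smul, Fermat.Agent.ES.DescentInj.order_coeffMap]

/-- A place is determined by its order function. -/
theorem place_ext_ord {P Q : Place Kb (FF N)} (h : ∀ f : FF N, f ≠ 0 → P.ord f = Q.ord f) :
    P = Q := by
  apply Place.ext
  ext f
  rcases eq_or_ne f 0 with rfl | hf
  · simp
  · rw [← PlaceAux.ord_nonneg_iff P hf, ← PlaceAux.ord_nonneg_iff Q hf, h f hf]

theorem galAct_ord_smul (σ : Kb ≃ₐ[ℚ] Kb) (P : Place Kb (FF N)) (f : FF N) :
    (galAct N σ • P).ord f = P.ord ((galAct N σ)⁻¹ • f) := by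
  have h := SemilinearAut.ord_smul (galAct N σ) P ((galAct N σ)⁻¹ • f)
  rwa [smul_inv_smul] at h

theorem galAct_inv (σ : Kb ≃ₐ[ℚ] Kb) : (galAct N σ)⁻¹ = galAct N σ⁻¹ :=
  (map_inv (arithmeticGalois (modularFunctionFieldFull N)) σ).symm

/-- `G_ℚ` fixes the cusp `∞`. -/
theorem galAct_smul_cuspInf (σ : Kb ≃ₐ[ℚ] Kb) : galAct N σ • cuspInf N = cuspInf N := by
  apply place_ext_ord
  intro f hf
  rw [galAct_ord_smul, galAct_inv, cuspInf_ord (galAct_smul_ne_zero _ hf), cuspInf_ord hf,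
    order_galAct_smul]

/-- `G_ℚ` fixes the cusp `0`. -/
theorem galAct_smul_cuspZero (σ : Kb ≃ₐ[ℚ] Kb) : galAct N σ • cuspZero N = cuspZero N := by
  apply place_ext_ord
  intro f hf
  have hwf : frickeAut N f ≠ 0 := (map_ne_zero (frickeAut N)).mpr hf
  rw [galAct_ord_smul, galAct_inv, cuspZero_ord, cuspZero_ord, fricke_galAct,
    cuspInf_ord (galAct_smul_ne_zero _ hwf), cuspInf_ord hwf, order_galAct_smul]

/-- The cuspidal class is `G_ℚ`-invariant. -/
theorem galois_smul_cuspClass (σ : Kb ≃ₐ[ℚ] Kb) : σ • cuspClass N = cuspClass N := by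
  rw [galois_smul_pic0_def, cuspClass, SemilinearAut.pic0_smul_mk]
  congr 1
  apply Subtype.ext
  rw [SemilinearAut.coe_degZeroSMulHom, coe_cuspDiv, smul_sub, SemilinearAut.smul_single,
    SemilinearAut.smul_single]
  change Finsupp.single (galAct N σ • cuspZero N) 1 - Finsupp.single (galAct N σ • cuspInf N) 1 = _
  rw [galAct_smul_cuspZero, galAct_smul_cuspInf]

end Fermat.Agent.S15

end
end ZBES_012_11

/-! ### bundled: `Fermat.Agent.S15.OggUnit` -/
section ZBES_012_12

/-!
# S15, piece OGG (1): the modular unit `u_N = Δ(q^N)/Δ(q)` in `F_N = ℚ̄(j(q^d) : d ∣ N)`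

* `oggU N : FF N` : the element of `F_N` with `q`-expansion `uS ℚ̄ N = Δ(q^N)/Δ(q)`;
* `ogg_ord_cuspInfty` : its order at the cusp `∞` is `N - 1`;
* `ogg_unitHyp` : the two integrality relations of the unit over `ℚ̄` (for a prime `N`);
* `ogg_ord_eq_zero` : for a prime `N`, `u_N` is a unit at every place where `j` is regular.
-/

set_option autoImplicit false

noncomputable section

namespace Fermat.Agent.S15

open ModularCurve AlgebraicCurve Polynomial
open Fermat.Agent.S24 Fermat.Agent.S28 Fermat.Agent.ES.M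

attribute [local instance] algKbC

/-- `Δ(q^N)/Δ(q)` with coefficients in `ℚ̄` lies in `F_N`. -/
theorem ogg_uS_mem (N : ℕ) [NeZero N] : uS Kb N ∈ modularFunctionFieldBar N := by
  have h1 : uS ℂ N ∈ laurentBaseChange ℂ (modularFunctionFieldFull N) := by
    rw [Fermat.Agent.ES.G2.hdeg_laurentBaseChange_full]
    exact Fermat.Agent.ES.RC.rc_uS_mem_full N
  have h2 : coeffMap (algebraMap Kb ℂ) (uS Kb N) = uS ℂ N := coeffMap_uS N (algebraMap Kb ℂ)
  rw [← h2] at h1
  exact Fermat.Agent.ES.DescentInj.mem_laurentBaseChange_of_coeffMap_mem _ h1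

/-- The modular unit `u_N = Δ(q^N)/Δ(q)` as an element of `F_N`. -/
def oggU (N : ℕ) [NeZero N] : FF N := ⟨uS Kb N, ogg_uS_mem N⟩

theorem coe_oggU (N : ℕ) [NeZero N] : ((oggU N : FF N) : LaurentSeries Kb) = uS Kb N := rfl

theorem oggU_ne_zero (N : ℕ) [NeZero N] : oggU N ≠ 0 := by
  intro h
  have := congrArg (fun z : FF N => (z : LaurentSeries Kb)) h
  exact uS_ne_zero N Kb this

/-- The order of `u_N` at the cusp `∞` is `N - 1`. -/
theorem ogg_ord_cuspInfty (N : ℕ) [NeZero N] {P : Place Kb (FF N)} (hP : IsCuspInfty N P) :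
    P.ord (oggU N) = (N : ℤ) - 1 := by
  rw [hP _ (oggU_ne_zero N), coe_oggU, order_uS]

/-! ### Integrality -/

/-- The two integrality relations of the modular unit over `ℚ̄`. -/
theorem ogg_unitHyp (p : ℕ) [NeZero p] (hp : p.Prime) : UnitHyp Kb p := by
  have hv : ((p : ℚ)⁻¹) * ((p : ℕ) : ℚ) = 1 :=
    inv_mul_cancel₀ (Nat.cast_ne_zero.mpr hp.ne_zero)
  exact unitHyp_transfer (algebraMap ℚ ℂ) (algebraMap ℚ ℂ).injective (algebraMap ℚ Kb)
    hp.two_le hv (unitHyp_complex p hp)

theorem ogg_jBar_eq : jBar = jqModC Kb := by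
  rw [jBar, coeffEmb, ← jqModC_rat]
  exact map_jqModC (algebraMap ℚ Kb)

/-- Transport of a relation `U(x, y) = 0` from Laurent series to `F_N`. -/
theorem ogg_eval₂_coe (N : ℕ) [NeZero N] (U : (Kb[X])[X]) (x y : FF N) :
    ((U.eval₂ (aeval (R := Kb) y).toRingHom x : FF N) : LaurentSeries Kb) =
      U.eval₂ (aeval (R := Kb) (y : LaurentSeries Kb)).toRingHom (x : LaurentSeries Kb) := by
  have h := Polynomial.hom_eval₂ U (aeval (R := Kb) y).toRingHom
    (algebraMap (FF N) (LaurentSeries Kb)) x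
  have h2 : (algebraMap (FF N) (LaurentSeries Kb)).comp (aeval (R := Kb) y).toRingHom =
      (aeval (R := Kb) (y : LaurentSeries Kb)).toRingHom := by
    apply Polynomial.ringHom_ext
    · intro a
      simp only [RingHom.comp_apply, AlgHom.toRingHom_eq_coe, RingHom.coe_coe, aeval_C]
      rfl
    · simp only [RingHom.comp_apply, AlgHom.toRingHom_eq_coe, RingHom.coe_coe, aeval_X]
      rfl
  rw [h2] at h
  exact h

/-- A root `x` of a monic `U(X, y)`, `U ∈ ℚ̄[Y][X]`, with `y` regular at the place `P`, is regular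
at `P`. -/
theorem ogg_mem_of_eval₂ {F : Type*} [Field F] [Algebra Kb F] (P : Place Kb F) {x y : F}
    (hy : y ∈ P.toValuationSubring) {U : (Kb[X])[X]} (hU : U.Monic)
    (h : U.eval₂ (aeval (R := Kb) y).toRingHom x = 0) : x ∈ P.toValuationSubring := by
  have hint : IsIntegral P.toValuationSubring x := by
    refine ⟨U.map (aeval (R := Kb) (⟨y, hy⟩ : P.toValuationSubring)).toRingHom, hU.map _, ?_⟩
    rw [Polynomial.eval₂_map]
    have h2 : (algebraMap P.toValuationSubring F).comp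
        (aeval (R := Kb) (⟨y, hy⟩ : P.toValuationSubring)).toRingHom =
          (aeval (R := Kb) y).toRingHom := by
      apply Polynomial.ringHom_ext
      · intro a
        simp only [RingHom.comp_apply, AlgHom.toRingHom_eq_coe, RingHom.coe_coe, aeval_C]
        rfl
      · simp only [RingHom.comp_apply, AlgHom.toRingHom_eq_coe, RingHom.coe_coe, aeval_X]
        rfl
    rw [h2]
    exact h
  obtain ⟨z, hz⟩ := IsIntegrallyClosed.isIntegral_iff.mp hint
  rw [← hz]
  exact z.2

theorem ogg_coe_jN (N : ℕ) [NeZero N] :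
    ((jdF N N dvd_rfl : FF N) : LaurentSeries Kb) = qExpand Kb N (jqModC Kb) := by
  rw [fr_coe_jdF, intJd_eq]

theorem ogg_coe_const_mul_inv (N : ℕ) [NeZero N] (a : Kb) :
    ((algebraMap Kb (FF N) a * (oggU N)⁻¹ : FF N) : LaurentSeries Kb) =
      HahnSeries.C a * uInvS Kb N := by
  rw [uInvS_eq_inv, ← LaurentSeries.algebraMap_apply]
  rfl

/-- For a prime `N`, the modular unit `u_N` is a unit at every place where `j` is regular. -/
theorem ogg_ord_eq_zero (N : ℕ) [NeZero N] (hN : N.Prime) (P : Place Kb (FF N))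
    (hP : 0 ≤ P.ord (jF N)) : P.ord (oggU N) = 0 := by
  obtain ⟨U, hUm, -, h1, h2⟩ := ogg_unitHyp N hN
  have hj : jF N ∈ P.toValuationSubring := (PlaceAux.ord_nonneg_iff P fr_jF_ne_zero).mp hP
  have hjN : jdF N N dvd_rfl ∈ P.toValuationSubring := fr_jdF_mem P.toValuationSubring hj N dvd_rfl
  -- `u` is regular
  have e1 : U.eval₂ (aeval (R := Kb) (jF N)).toRingHom (oggU N) = 0 := by
    apply Subtype.ext
    rw [ogg_eval₂_coe, coe_jF, ogg_jBar_eq, coe_oggU]
    exact h1
  have hu : oggU N ∈ P.toValuationSubring := ogg_mem_of_eval₂ P hj hUm e1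
  -- `u⁻¹` is regular
  have hN0 : (N : Kb) ≠ 0 := Nat.cast_ne_zero.mpr hN.ne_zero
  have e2 : U.eval₂ (aeval (R := Kb) (jdF N N dvd_rfl)).toRingHom
      (algebraMap Kb (FF N) (((N : Kb)⁻¹) ^ 12) * (oggU N)⁻¹) = 0 := by
    apply Subtype.ext
    rw [ogg_eval₂_coe, ogg_coe_jN, ogg_coe_const_mul_inv]
    exact h2
  have hx' := ogg_mem_of_eval₂ P hjN hUm e2
  have hc : algebraMap Kb (FF N) ((N : Kb) ^ 12) ∈ P.toValuationSubring := by
    have := (algebraMap Kb P.toValuationSubring ((N : Kb) ^ 12)).2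
    exact this
  have hinv : (oggU N)⁻¹ ∈ P.toValuationSubring := by
    have h3 := P.toValuationSubring.mul_mem _ _ hc hx'
    have h4 : algebraMap Kb (FF N) ((N : Kb) ^ 12) *
        (algebraMap Kb (FF N) (((N : Kb)⁻¹) ^ 12) * (oggU N)⁻¹) = (oggU N)⁻¹ := by
      rw [← mul_assoc, ← map_mul, inv_pow, mul_inv_cancel₀ (pow_ne_zero _ hN0), map_one, one_mul]
    rwa [h4] at h3
  have h5 : 0 ≤ P.ord (oggU N) := (PlaceAux.ord_nonneg_iff P (oggU_ne_zero N)).mpr hu
  have h6 : 0 ≤ P.ord (oggU N)⁻¹ :=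
    (PlaceAux.ord_nonneg_iff P (inv_ne_zero (oggU_ne_zero N))).mpr hinv
  rw [Place.ord_inv] at h6
  omega

end Fermat.Agent.S15

end
end ZBES_012_12

/-! ### bundled: `Fermat.Agent.S15.OggFricke` -/
section ZBES_012_13

/-!
# S15, piece OGG (3): the Fricke involution inverts the modular unit

`ogg_fricke : w_N(u_N) · u_N = N⁻¹²` in `F_N`, where `u_N = Δ(q^N)/Δ(q)`.

Route: write `u_N = P(j_d)/Q(j_d)`; the relation `u_N · Q(j_d) = P(j_d)` between `q`-expansions is
a relation `X(τ) · Q(J(dτ)) = P(J(dτ))` between functions on `ℍ`, `X(τ) = Δ(Nτ)/Δ(τ)` (injectivity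
of the Laurent expansion `S28.laurentExp`); substitute `τ ↦ -1/(Nτ)` (`S28.unit_fricke`) and
multiply: `N⁻¹² · Q(J(dτ)) · Q(J((N/d)τ)) = P(J(dτ)) · P(J((N/d)τ))`; come back to `q`-expansions.
-/

set_option autoImplicit false
set_option linter.style.haveILetI false

noncomputable section

namespace Fermat.Agent.S15

open UpperHalfPlane ModularCurve AlgebraicCurve
open Fermat.Agent.S23 Fermat.Agent.S24 Fermat.Agent.S28 Fermat.Agent.ES.M

attribute [local instance] algKbC

local notation "Δ" => ModularForm.discriminant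

theorem ogg_dv_ne_zero {N : ℕ} [NeZero N] (d : Dv N) : d.1 ≠ 0 :=
  ne_zero_of_dvd_ne_zero (NeZero.ne N) d.2

/-- The function `τ ↦ J(dτ)`, as an element of `merInf`. -/
def oggG (N : ℕ) [NeZero N] (d : Dv N) : merInf :=
  haveI : NeZero d.1 := ⟨ogg_dv_ne_zero d⟩
  ⟨fun z => Jfun (scaleN d.1 z), isMerInf_comp_scaleN d.1 isMerInf_Jfun⟩

/-- The analytic modular unit `Δ(Nτ)/Δ(τ)`, as an element of `merInf`. -/
def oggX (N : ℕ) [NeZero N] : merInf :=
  ⟨fun z => Δ (scaleN N z) / Δ z, (isModFun_unit N).isMerInf⟩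

theorem oggX_apply (N : ℕ) [NeZero N] (τ : ℍ) :
    (oggX N : ℍ → ℂ) τ = Δ (scaleN N τ) / Δ τ := rfl

theorem laurentExp_oggX (N : ℕ) [NeZero N] : laurentExp (oggX N) = uS ℂ N :=
  laurentOf_unit_eq_uS N

theorem ogg_jCd_eq (d : ℕ) [NeZero d] : jCd d = jqNModC ℂ d := by
  rw [jCd, coeffMap_qExpand, ← jqModC_rat, jqNModC]
  congr 1
  exact map_jqModC (algebraMap ℚ ℂ)

theorem laurentExp_oggG (N : ℕ) [NeZero N] (d : Dv N) : laurentExp (oggG N d) = jCfam N d := by
  obtain ⟨d, hd⟩ := d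
  haveI : NeZero d := ⟨ogg_dv_ne_zero ⟨d, hd⟩⟩
  rw [jCfam_eq, ogg_jCd_eq]
  exact laurentOf_Jfun_scaleN d

/-- The Laurent expansion of a polynomial in the `J(dτ)`. -/
theorem laurentExp_aeval_oggG (N : ℕ) [NeZero N] (P : MvPolynomial (Dv N) ℂ) :
    laurentExp (MvPolynomial.aeval (oggG N) P) = MvPolynomial.aeval (jCfam N) P := by
  have h := MvPolynomial.comp_aeval_apply (oggG N) laurentExp P
  rw [h]
  congr 2
  funext d
  exact laurentExp_oggG N d

/-- The values of a polynomial in the `J(dτ)`. -/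
theorem ogg_aeval_apply (N : ℕ) [NeZero N] (P : MvPolynomial (Dv N) ℂ) (τ : ℍ) :
    ((MvPolynomial.aeval (oggG N) P : merInf) : ℍ → ℂ) τ =
      MvPolynomial.aeval (fun d => (oggG N d : ℍ → ℂ) τ) P := by
  have h1 := MvPolynomial.comp_aeval_apply (oggG N) (merInf.val) P
  have h2 := MvPolynomial.comp_aeval_apply (fun d => (oggG N d : ℍ → ℂ))
    (Pi.evalAlgHom ℂ (fun _ : ℍ => ℂ) τ) P
  have h3 : ((MvPolynomial.aeval (oggG N) P : merInf) : ℍ → ℂ) =
      MvPolynomial.aeval (fun d => (oggG N d : ℍ → ℂ)) P := h1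
  rw [h3]
  exact h2

/-- The Fricke substitution on the `J(dτ)`. -/
theorem oggG_fricke (N : ℕ) [NeZero N] (d : Dv N) (τ : ℍ) :
    (oggG N d : ℍ → ℂ) (fricke N τ) = (oggG N (frDv d) : ℍ → ℂ) τ := by
  haveI : NeZero d.1 := ⟨ogg_dv_ne_zero d⟩
  haveI : NeZero (frDv d).1 := ⟨ogg_dv_ne_zero (frDv d)⟩
  show Jfun (scaleN d.1 (fricke N τ)) = Jfun (scaleN (frDv d).1 τ)
  have h := fr_Jdfam d τ
  have h1 : Jdfam N d (fricke N τ) = Jfun (scaleN d.1 (fricke N τ)) :=
    Fermat.Agent.ES.G2.swap_Jd_eq (ogg_dv_ne_zero d) _ _ (coe_scaleN _ _)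
  have h2 : Jdfam N (frDv d) τ = Jfun (scaleN (frDv d).1 τ) :=
    Fermat.Agent.ES.G2.swap_Jd_eq (ogg_dv_ne_zero (frDv d)) _ _ (coe_scaleN _ _)
  rw [← h1, ← h2, h]

/-- The Fricke substitution on the analytic modular unit. -/
theorem oggX_fricke (N : ℕ) [NeZero N] (τ : ℍ) :
    (oggX N : ℍ → ℂ) τ * (oggX N : ℍ → ℂ) (fricke N τ) = ((N : ℂ) ^ 12)⁻¹ := by
  rw [oggX_apply, oggX_apply, unit_fricke]
  have h1 : Δ τ ≠ 0 := ModularForm.discriminant_ne_zero τ
  have h2 : Δ (scaleN N τ) ≠ 0 := ModularForm.discriminant_ne_zero _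
  field_simp

/-- The analytic identity behind `ogg_fricke`. -/
theorem ogg_fricke_analytic (N : ℕ) [NeZero N] (P Q : MvPolynomial (Dv N) ℂ)
    (h : uS ℂ N * MvPolynomial.aeval (jCfam N) Q = MvPolynomial.aeval (jCfam N) P) :
    MvPolynomial.aeval (jCfam N)
      (MvPolynomial.C (((N : ℂ) ^ 12)⁻¹) * (Q * MvPolynomial.rename frDv Q) -
        P * MvPolynomial.rename frDv P) = 0 := by
  -- the relation between functions
  have e1 : oggX N * MvPolynomial.aeval (oggG N) Q = MvPolynomial.aeval (oggG N) P := by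
    apply laurentExp_injective
    rw [map_mul, laurentExp_oggX, laurentExp_aeval_oggG, laurentExp_aeval_oggG, h]
  have e2 : ∀ τ : ℍ, (oggX N : ℍ → ℂ) τ * MvPolynomial.aeval (fun d => (oggG N d : ℍ → ℂ) τ) Q =
      MvPolynomial.aeval (fun d => (oggG N d : ℍ → ℂ) τ) P := by
    intro τ
    have := congrArg (fun f : merInf => (f : ℍ → ℂ) τ) e1
    rw [← ogg_aeval_apply, ← ogg_aeval_apply]
    exact this
  -- the product relation
  rw [← laurentExp_aeval_oggG]
  have e3 : MvPolynomial.aeval (oggG N)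
      (MvPolynomial.C (((N : ℂ) ^ 12)⁻¹) * (Q * MvPolynomial.rename frDv Q) -
        P * MvPolynomial.rename frDv P) = 0 := by
    apply Subtype.ext
    funext τ
    rw [ogg_aeval_apply]
    have hfr : (fun d => (oggG N d : ℍ → ℂ) (fricke N τ)) =
        (fun d => (oggG N d : ℍ → ℂ) τ) ∘ frDv := by
      funext d
      exact oggG_fricke N d τ
    have a1 := e2 τ
    have a2 := e2 (fricke N τ)
    rw [hfr] at a2
    have a3 := oggX_fricke N τ
    simp only [map_sub, map_mul, MvPolynomial.aeval_C, MvPolynomial.aeval_rename]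
    show _ = (0 : ℂ)
    rw [← a1, ← a2, Algebra.algebraMap_self, RingHom.id_apply, ← a3]
    ring
  rw [e3, map_zero]

/-- Polynomials in the generators: from `F_N` to Laurent series. -/
theorem ogg_coe_aeval (N : ℕ) [NeZero N] (P : MvPolynomial (Dv N) Kb) :
    ((MvPolynomial.aeval (jFfam N) P : FF N) : LaurentSeries Kb) =
      MvPolynomial.aeval (jBfam N) P :=
  MvPolynomial.comp_aeval_apply (jFfam N) (IntermediateField.val (modularFunctionFieldBar N)) P

/-- The Fricke involution on polynomials in the generators. -/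
theorem ogg_fricke_aeval (N : ℕ) [NeZero N] (P : MvPolynomial (Dv N) Kb) :
    frickeAut N (MvPolynomial.aeval (jFfam N) P) =
      MvPolynomial.aeval (jFfam N) (MvPolynomial.rename frDv P) := by
  rw [MvPolynomial.aeval_rename]
  have h := MvPolynomial.comp_aeval_apply (jFfam N) ((frickeAut N : FF N ≃ₐ[Kb] FF N) :
    FF N →ₐ[Kb] FF N) P
  refine h.trans ?_
  congr 2
  funext d
  exact frickeHom_jFfam N d

/-- **The Fricke involution inverts the modular unit**: `w_N(u_N) · u_N = N⁻¹²`. -/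
theorem ogg_fricke (N : ℕ) [NeZero N] :
    frickeAut N (oggU N) * oggU N = algebraMap Kb (FF N) (((N : Kb) ^ 12)⁻¹) := by
  -- write `u = r / s`
  have hu' : ((oggU N : FF N) : LaurentSeries Kb) ∈
      IntermediateField.adjoin Kb (Set.range (jBfam N)) := by
    rw [← br_modularFunctionFieldBar_eq_adjoin]; exact (oggU N).2
  obtain ⟨P, Q, hPQ⟩ := (IntermediateField.mem_adjoin_range_iff Kb _ _).1 hu'
  have hQ0 : MvPolynomial.aeval (jBfam N) Q ≠ 0 := by
    intro h
    rw [h, div_zero] at hPQ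
    exact uS_ne_zero N Kb hPQ
  have h1 : uS Kb N * MvPolynomial.aeval (jBfam N) Q = MvPolynomial.aeval (jBfam N) P := by
    rw [← coe_oggU, hPQ, div_mul_cancel₀ _ hQ0]
  -- to `ℂ`
  have h2 : uS ℂ N * MvPolynomial.aeval (jCfam N) (MvPolynomial.map embC Q) =
      MvPolynomial.aeval (jCfam N) (MvPolynomial.map embC P) := by
    rw [← br_coeffMap_aeval_jBfam, ← br_coeffMap_aeval_jBfam, ← h1, map_mul, coeffMap_uS]
  have h3 := ogg_fricke_analytic N _ _ h2
  -- back to `ℚ̄`
  have hR : MvPolynomial.map embC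
      (MvPolynomial.C (((N : Kb) ^ 12)⁻¹) * (Q * MvPolynomial.rename frDv Q) -
        P * MvPolynomial.rename frDv P) =
      MvPolynomial.C (((N : ℂ) ^ 12)⁻¹) * (MvPolynomial.map embC Q *
        MvPolynomial.rename frDv (MvPolynomial.map embC Q)) -
          MvPolynomial.map embC P * MvPolynomial.rename frDv (MvPolynomial.map embC P) := by
    simp only [map_sub, map_mul, MvPolynomial.map_C, MvPolynomial.map_rename, map_inv₀, map_pow,
      map_natCast]
  have h4 : MvPolynomial.aeval (jBfam N)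
      (MvPolynomial.C (((N : Kb) ^ 12)⁻¹) * (Q * MvPolynomial.rename frDv Q) -
        P * MvPolynomial.rename frDv P) = 0 := by
    apply br_coeffMap_embC_injective
    rw [br_coeffMap_aeval_jBfam, hR, h3, map_zero]
  -- in `F_N`
  have hxs : oggU N * MvPolynomial.aeval (jFfam N) Q = MvPolynomial.aeval (jFfam N) P := by
    apply Subtype.ext
    have : ((oggU N * MvPolynomial.aeval (jFfam N) Q : FF N) : LaurentSeries Kb) =
        (oggU N : LaurentSeries Kb) * ((MvPolynomial.aeval (jFfam N) Q : FF N) :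
          LaurentSeries Kb) := rfl
    rw [this, ogg_coe_aeval, ogg_coe_aeval, coe_oggU]
    exact h1
  have hs0 : MvPolynomial.aeval (jFfam N) Q ≠ 0 := by
    intro h
    apply hQ0
    rw [← ogg_coe_aeval, h]
    rfl
  have hws0 : frickeAut N (MvPolynomial.aeval (jFfam N) Q) ≠ 0 :=
    (map_ne_zero (frickeAut N)).mpr hs0
  have h5 : algebraMap Kb (FF N) (((N : Kb) ^ 12)⁻¹) *
      (MvPolynomial.aeval (jFfam N) Q * frickeAut N (MvPolynomial.aeval (jFfam N) Q)) =
        MvPolynomial.aeval (jFfam N) P * frickeAut N (MvPolynomial.aeval (jFfam N) P) := by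
    apply Subtype.ext
    rw [← ogg_coe_aeval] at h4
    have h6 := Subtype.ext (a1 := MvPolynomial.aeval (jFfam N)
      (MvPolynomial.C (((N : Kb) ^ 12)⁻¹) * (Q * MvPolynomial.rename frDv Q) -
        P * MvPolynomial.rename frDv P)) (a2 := (0 : FF N)) h4
    rw [map_sub, map_mul, map_mul, map_mul, MvPolynomial.aeval_C, ← ogg_fricke_aeval,
      ← ogg_fricke_aeval, sub_eq_zero] at h6
    rw [h6]
  have h7 : frickeAut N (oggU N) * frickeAut N (MvPolynomial.aeval (jFfam N) Q) =
      frickeAut N (MvPolynomial.aeval (jFfam N) P) := by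
    rw [← map_mul, hxs]
  apply mul_right_cancel₀ (mul_ne_zero hs0 hws0)
  calc frickeAut N (oggU N) * oggU N *
        (MvPolynomial.aeval (jFfam N) Q * frickeAut N (MvPolynomial.aeval (jFfam N) Q))
      = (oggU N * MvPolynomial.aeval (jFfam N) Q) *
          (frickeAut N (oggU N) * frickeAut N (MvPolynomial.aeval (jFfam N) Q)) := by ring
    _ = MvPolynomial.aeval (jFfam N) P * frickeAut N (MvPolynomial.aeval (jFfam N) P) := by
        rw [hxs, h7]
    _ = _ := h5.symm

end Fermat.Agent.S15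

end
end ZBES_012_13
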