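/- GENERATED FILE (helper35, build-time optimisation, NOTES/ZB.md): verbatim concatenation of the modules
   Fermat.Agent.STB.NormSquare
   Fermat.Agent.STB.KronQStmt
   Fermat.Agent.STB.PushCore
   Fermat.Agent.STB.PushHecke
   Fermat.Agent.S33.PlanGeo
   Fermat.Agent.STB.KronQ
   Fermat.Agent.STB.NewToric
   Fermat.Agent.STB.NewToricKummer
   Fermat.Agent.S33.NormDepthMod
   Fermat.Agent.S33.NewSplit
   Fermat.Agent.S33.WildDeep
   Fermat.Agent.STB.ToricPack
   Fermat.Agent.STB.ToricMgv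
   Fermat.Agent.STB.PushHeckeDiv
   Fermat.Agent.S36.AuxLevel
   Fermat.Agent.RIB.MP.FacHor
   Do not edit; do not import together with these modules. -/
import Mathlib
import Fermat.Agent.ZB.ES_005
import Fermat.Agent.ZB.S34_001
import Fermat.Agent.ZB.ES_007
import Fermat.Prelude.Def_AlgebraicCurve_Correspondence
import Fermat.Agent.ZB.ES_001
import Fermat.Agent.ZB.S28_002
import Fermat.Agent.ZB.ES_002
import Fermat.Agent.ZB.INJ_003
import Fermat.Agent.ZB.S20_001
import Fermat.Agent.ZB.INJ_025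
import Fermat.Agent.ZB.INJ_005

/-! ### bundled: `Fermat.Agent.STB.NormSquare` -/
section ZBSTB_001_0

/-!
# STB (S35, phase 2 of item 34): norms along ring homomorphisms of fields, base change in a
commutative square — embedding form (helper92)

`stbNorm φ y` is the norm of `y : F'` down to `F` for the algebra structure `φ.toAlgebra`
(`φ : F →+* F'`); for `φ : F →ₐ[K] F'` the prelude's `algebraAlong φ` is
`φ.toRingHom.toAlgebra`, so `stbNorm φ.toRingHom y` is the norm used in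
`NormFormulaAlong` / `ES.G2.FrobAux.frobNorm`.

* `stbNorm_eq_prod` : the norm is the product over a complete list of embeddings
  (`τ i ∘ φ = ι₀`, pairwise distinct, as many as the degree).
* `stb_norm_square` : **base change of norms in a commutative square**
  `g₂ ∘ φ = φ' ∘ g₁`, `φ : F₁ → F₂`, `φ' : F₃ → F₄` of the same degree:
  `N_φ' (g₂ u) = g₁ (N_φ u)`, provided a complete list `τ` of embeddings of `F₄` over `F₃` is
  still pairwise distinct on `g₂ (F₂)`.  (This replaces the hypothesis `F₄ = F₃ · g₂(F₂)`, which is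
  not cheap for modular function fields.)
* `stbNorm_comp` : transitivity, `N_φ (N_ψ y) = N_{ψ ∘ φ} y`.
* `stbNorm_equiv_comp`, `stb_finrank_equiv_comp`, `stb_finite_equiv_comp` : composing with an
  isomorphism of the top field.
* `stbNorm_comp_equiv` : `N_{φ ∘ e}`, `e` an isomorphism of the bottom field.
-/

set_option autoImplicit false
set_option linter.style.haveILetI false

noncomputable section

namespace Fermat.Agent.STB

section Def

variable {F F' : Type*} [Field F] [Field F']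

/-- the norm along a ring homomorphism of fields -/
def stbNorm (φ : F →+* F') (y : F') : F :=
  letI := φ.toAlgebra
  Algebra.norm F y

/-- the degree along a ring homomorphism of fields -/
def stbDeg (φ : F →+* F') : ℕ :=
  letI := φ.toAlgebra
  Module.finrank F F'

/-- finiteness along a ring homomorphism of fields -/
def StbFinite (φ : F →+* F') : Prop :=
  letI := φ.toAlgebra
  Module.Finite F F'

theorem stbNorm_congr {φ φ' : F →+* F'} (h : φ = φ') (y : F') : stbNorm φ y = stbNorm φ' y := by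
  subst h
  rfl

theorem stbDeg_congr {φ φ' : F →+* F'} (h : φ = φ') : stbDeg φ = stbDeg φ' := by
  subst h
  rfl

theorem StbFinite.congr {φ φ' : F →+* F'} (h : φ = φ') (hfin : StbFinite φ) : StbFinite φ' := by
  subst h
  exact hfin

theorem stbNorm_mul (φ : F →+* F') (a b : F') :
    stbNorm φ (a * b) = stbNorm φ a * stbNorm φ b := by
  letI := φ.toAlgebra
  exact map_mul (Algebra.norm F) a b

theorem stbNorm_one (φ : F →+* F') : stbNorm φ 1 = 1 := by
  letI := φ.toAlgebra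
  exact map_one (Algebra.norm F)

theorem stbNorm_ne_zero (φ : F →+* F') (hfin : StbFinite φ) {a : F'} (ha : a ≠ 0) :
    stbNorm φ a ≠ 0 := by
  letI := φ.toAlgebra
  haveI : Module.Finite F F' := hfin
  exact Algebra.norm_ne_zero_iff.mpr ha

theorem stbNorm_apply (φ : F →+* F') (hfin : StbFinite φ) (x : F) :
    stbNorm φ (φ x) = x ^ stbDeg φ := by
  letI := φ.toAlgebra
  haveI : Module.Finite F F' := hfin
  exact Algebra.norm_algebraMap x

end Def

section Prod

variable {F F' Ω : Type*} [Field F] [Field F'] [Field Ω] [IsAlgClosed Ω]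

/-- **norm = product over a complete list of embeddings**, ring-homomorphism form -/
theorem stbNorm_eq_prod (φ : F →+* F') (hfin : StbFinite φ)
    (hsep : letI := φ.toAlgebra; Algebra.IsSeparable F F')
    (ι₀ : F →+* Ω) {ι : Type*} [Fintype ι] (τ : ι → F' →+* Ω)
    (hτ : ∀ i x, τ i (φ x) = ι₀ x) (hinj : Function.Injective τ)
    (hcard : Fintype.card ι = stbDeg φ) (y : F') :
    ι₀ (stbNorm φ y) = ∏ i, τ i y := by
  classical
  letI := φ.toAlgebra
  letI := ι₀.toAlgebra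
  haveI : Module.Finite F F' := hfin
  haveI : Algebra.IsSeparable F F' := hsep
  let e : ι → (F' →ₐ[F] Ω) := fun i => { τ i with commutes' := fun x => hτ i x }
  have he : Function.Injective e := by
    intro i i' h
    apply hinj
    have := congrArg (fun g : F' →ₐ[F] Ω => (g : F' →+* Ω)) h
    exact this
  have hbij : Function.Bijective e := by
    rw [Fintype.bijective_iff_injective_and_card]
    refine ⟨he, ?_⟩
    rw [hcard, AlgHom.card F F' Ω]
    rfl
  have h1 : algebraMap F Ω (Algebra.norm F y) = ∏ σ : F' →ₐ[F] Ω, σ y :=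
    Algebra.norm_eq_prod_embeddings F Ω y
  have h2 : ∏ i, e i y = ∏ σ : F' →ₐ[F] Ω, σ y :=
    Function.Bijective.prod_comp hbij (fun σ : F' →ₐ[F] Ω => σ y)
  exact h1.trans h2.symm

end Prod

section Square

variable {F₁ F₂ F₃ F₄ Ω : Type*} [Field F₁] [Field F₂] [Field F₃] [Field F₄] [Field Ω]
  [IsAlgClosed Ω]

/-- **Base change of norms in a commutative square**, embedding form. -/
theorem stb_norm_square (φ : F₁ →+* F₂) (φ' : F₃ →+* F₄) (g₁ : F₁ →+* F₃) (g₂ : F₂ →+* F₄)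
    (hsq : ∀ x, g₂ (φ x) = φ' (g₁ x))
    (hfin : StbFinite φ) (hfin' : StbFinite φ')
    (hsep : letI := φ.toAlgebra; Algebra.IsSeparable F₁ F₂)
    (hsep' : letI := φ'.toAlgebra; Algebra.IsSeparable F₃ F₄)
    (ι₃ : F₃ →+* Ω) {ι : Type*} [Fintype ι] (τ : ι → F₄ →+* Ω)
    (hτ : ∀ i x, τ i (φ' x) = ι₃ x)
    (hcard' : Fintype.card ι = stbDeg φ') (hcard : Fintype.card ι = stbDeg φ)
    (hinj : Function.Injective fun i => (τ i).comp g₂) (u : F₂) :
    stbNorm φ' (g₂ u) = g₁ (stbNorm φ u) := by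
  have hinjτ : Function.Injective τ := by
    intro i i' h
    apply hinj
    show (τ i).comp g₂ = (τ i').comp g₂
    rw [h]
  have h1 := stbNorm_eq_prod φ' hfin' hsep' ι₃ τ hτ hinjτ hcard' (g₂ u)
  have h2 := stbNorm_eq_prod φ hfin hsep (ι₃.comp g₁) (fun i => (τ i).comp g₂)
    (fun i x => by
      show τ i (g₂ (φ x)) = ι₃ (g₁ x)
      rw [hsq, hτ]) hinj hcard u
  apply ι₃.injective
  rw [h1]
  exact h2.symm

/-- the same in characteristic zero -/
theorem stb_norm_square_charZero [CharZero F₁] (φ : F₁ →+* F₂) (φ' : F₃ →+* F₄)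
    (g₁ : F₁ →+* F₃) (g₂ : F₂ →+* F₄)
    (hsq : ∀ x, g₂ (φ x) = φ' (g₁ x))
    (hfin : StbFinite φ) (hfin' : StbFinite φ')
    (ι₃ : F₃ →+* Ω) {ι : Type*} [Fintype ι] (τ : ι → F₄ →+* Ω)
    (hτ : ∀ i x, τ i (φ' x) = ι₃ x)
    (hcard' : Fintype.card ι = stbDeg φ') (hcard : Fintype.card ι = stbDeg φ)
    (hinj : Function.Injective fun i => (τ i).comp g₂) (u : F₂) :
    stbNorm φ' (g₂ u) = g₁ (stbNorm φ u) := by
  haveI : CharZero F₃ := charZero_of_injective_ringHom g₁.injective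
  refine stb_norm_square φ φ' g₁ g₂ hsq hfin hfin' ?_ ?_ ι₃ τ hτ hcard' hcard hinj u
  · letI := φ.toAlgebra
    haveI : Module.Finite F₁ F₂ := hfin
    infer_instance
  · letI := φ'.toAlgebra
    haveI : Module.Finite F₃ F₄ := hfin'
    infer_instance

end Square

section Trans

variable {F₁ F₂ F₃ : Type*} [Field F₁] [Field F₂] [Field F₃]

/-- transitivity of finiteness -/
theorem StbFinite.comp {φ : F₁ →+* F₂} {ψ : F₂ →+* F₃} (hφ : StbFinite φ) (hψ : StbFinite ψ) :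
    StbFinite (ψ.comp φ) := by
  letI a12 : Algebra F₁ F₂ := φ.toAlgebra
  letI a23 : Algebra F₂ F₃ := ψ.toAlgebra
  letI a13 : Algebra F₁ F₃ := (ψ.comp φ).toAlgebra
  haveI : IsScalarTower F₁ F₂ F₃ := IsScalarTower.of_algebraMap_eq fun _ => rfl
  haveI : Module.Finite F₁ F₂ := hφ
  haveI : Module.Finite F₂ F₃ := hψ
  exact Module.Finite.trans (R := F₁) F₂ F₃

/-- **transitivity of norms** -/
theorem stbNorm_comp (φ : F₁ →+* F₂) (ψ : F₂ →+* F₃) (hφ : StbFinite φ) (hψ : StbFinite ψ)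
    (y : F₃) : stbNorm φ (stbNorm ψ y) = stbNorm (ψ.comp φ) y := by
  letI a12 : Algebra F₁ F₂ := φ.toAlgebra
  letI a23 : Algebra F₂ F₃ := ψ.toAlgebra
  letI a13 : Algebra F₁ F₃ := (ψ.comp φ).toAlgebra
  haveI : IsScalarTower F₁ F₂ F₃ := IsScalarTower.of_algebraMap_eq fun _ => rfl
  haveI : Module.Finite F₁ F₂ := hφ
  haveI : Module.Finite F₂ F₃ := hψ
  exact Algebra.norm_norm (R := F₁) (S := F₂) (A := F₃) (a := y)

/-- transitivity of degrees -/
theorem stbDeg_comp (φ : F₁ →+* F₂) (ψ : F₂ →+* F₃) :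
    stbDeg (ψ.comp φ) = stbDeg φ * stbDeg ψ := by
  letI a12 : Algebra F₁ F₂ := φ.toAlgebra
  letI a23 : Algebra F₂ F₃ := ψ.toAlgebra
  letI a13 : Algebra F₁ F₃ := (ψ.comp φ).toAlgebra
  haveI : IsScalarTower F₁ F₂ F₃ := IsScalarTower.of_algebraMap_eq fun _ => rfl
  exact (Module.finrank_mul_finrank F₁ F₂ F₃).symm

end Trans

section Equiv

variable {F F' F'' : Type*} [Field F] [Field F'] [Field F'']

/-- the linear equivalence behind an isomorphism of the top field -/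
def stbEquivLin (φ : F →+* F') (e : F' ≃+* F'') :
    letI := φ.toAlgebra
    letI := ((e : F' →+* F'').comp φ).toAlgebra
    F' ≃ₐ[F] F'' :=
  letI := φ.toAlgebra
  letI := ((e : F' →+* F'').comp φ).toAlgebra
  { e with commutes' := fun _ => rfl }

theorem stb_finrank_equiv_comp (φ : F →+* F') (e : F' ≃+* F'') :
    stbDeg ((e : F' →+* F'').comp φ) = stbDeg φ := by
  letI := φ.toAlgebra
  letI := ((e : F' →+* F'').comp φ).toAlgebra
  exact (LinearEquiv.finrank_eq (stbEquivLin φ e).toLinearEquiv).symm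

theorem stb_finite_equiv_comp (φ : F →+* F') (e : F' ≃+* F'') (hφ : StbFinite φ) :
    StbFinite ((e : F' →+* F'').comp φ) := by
  letI := φ.toAlgebra
  letI := ((e : F' →+* F'').comp φ).toAlgebra
  haveI : Module.Finite F F' := hφ
  exact Module.Finite.equiv (stbEquivLin φ e).toLinearEquiv

/-- composing with an isomorphism of the top field does not change the norm -/
theorem stbNorm_equiv_comp (φ : F →+* F') (e : F' ≃+* F'') (y : F') :
    stbNorm ((e : F' →+* F'').comp φ) (e y) = stbNorm φ y := by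
  letI := φ.toAlgebra
  letI := ((e : F' →+* F'').comp φ).toAlgebra
  exact Algebra.norm_eq_of_algEquiv (stbEquivLin φ e) y

end Equiv

end Fermat.Agent.STB

end
end ZBSTB_001_0

/-! ### bundled: `Fermat.Agent.STB.KronQStmt` -/
section ZBSTB_001_1

/-!
# STB (S35, phase 2 of item 34): the statement of piece (K), "Kronecker at `q`"

`N = M q`, `q ∤ M` prime, `F_N = modularFunctionFieldBar (M * q) ⊂ ℚ̄((t))`,
`α = heckeAlphaBar Qb M q : F_M → F_N` the inclusion, `w = w_q` the Atkin–Lehner involution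
(`UNIP.atkinLehnerBar`), `A ⊂ ℚ̄` a valuation ring over `q`, `τ` a Frobenius element at `A`
acting on the coefficients.

* `stbNorm α.toRingHom y` (`STB/NormSquare.lean`, helper92) : the norm of `y ∈ F_N` down to
  `F_M` (along `α`);
* `StmtNormQ hq hqM` : the norm formula `N_α y = y · ∏_{b<q} (w y)(ζ^b t^{1/q})` (helper60);
* `StmtKronQ hq hqM` : **(K)** for every `y ∈ F_N^×`:
  `α (N_α y) / (y · τ (w y))` is Gauss-constant at `A`
  (`GaussConst`, `ES/G2/S37Plan.lean`: a nonzero constant times a function reducing to one; the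
  constant absorbs the normalisations `a`, `b ^ q` of NOTES/S35-plan.md §1 (K)).
-/

set_option autoImplicit false

noncomputable section

namespace Fermat.Agent.STB

open ModularCurve AlgebraicCurve Fermat.Agent.ES Fermat.Agent.ES.G2

section

variable {q M : ℕ} [NeZero q] [NeZero M] [NeZero (M * q)] (hq : q.Prime) (hqM : ¬ q ∣ M)

/-- **(K), norm formula** (helper60): `N_α(y) = y · ∏_{b<q} (w_q y)(ζ^b t^{1/q})` in
`q`-expansions, for every `y ∈ F_{Mq}`. -/
def StmtNormQ : Prop :=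
  ∀ (ζ : Qbˣ), IsPrimitiveRoot ζ q →
    ∀ y : modularFunctionFieldBar (M * q),
      ((stbNorm (heckeAlphaBar Qb M q).toRingHom y : modularFunctionFieldBar M) :
          LaurentSeries Qb) =
        (y : LaurentSeries Qb) *
          kronNorm q ζ ((Fermat.Agent.UNIP.atkinLehnerBar hq hqM y :
            modularFunctionFieldBar (M * q)) : LaurentSeries Qb)

/-- **(K)** at one valuation ring `A` and one Frobenius element `τ` -/
def StmtKronQAt (A : ValuationSubring Qb) (τ : Qb ≃ₐ[ℚ] Qb) : Prop :=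
  ∀ y : modularFunctionFieldBar (M * q), y ≠ 0 →
    GaussConst A (M * q)
      (heckeAlphaBar Qb M q (stbNorm (heckeAlphaBar Qb M q).toRingHom y) /
        (y * (arithmeticGalois (modularFunctionFieldFull (M * q)) τ •
          Fermat.Agent.UNIP.atkinLehnerBar hq hqM y)))

/-- **(K)** Kronecker at `q` for norms: `α (N_α y) ≡ const · y · τ (w_q y)` at `v_∞`. -/
def StmtKronQ : Prop :=
  ∀ A : ValuationSubring Qb, A.LiesOverPrime q →
    ∀ τ : Qb ≃ₐ[ℚ] Qb, A.IsFrobeniusAt τ q → StmtKronQAt hq hqM A τ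

end

end Fermat.Agent.STB

end
end ZBSTB_001_1

/-! ### bundled: `Fermat.Agent.STB.PushCore` -/
section ZBSTB_001_2

/-!
# STB-P3, generic part: the push-forward on `Pic⁰` along a finite morphism, in Kummer form
(helper92)

* `stbPush φ hφ hfin hN : Pic0 K F' →+ Pic0 K F` : the push-forward `φ_*` along
  `φ : F →ₐ[K] F'` (prelude `Pic0.pushforwardHom` for the algebra structure `algebraAlong φ`).
* `stbPush_mk` : on classes of divisors.
* `stb_kummerRel_push` : if `u` is a Kummer function of `x` (`n · D = div u`) then the norm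
  `stbNorm φ u` is a Kummer function of `φ_* x`.
-/

set_option autoImplicit false
set_option linter.style.haveILetI false

noncomputable section

namespace Fermat.Agent.STB

open AlgebraicCurve Fermat.Agent.ES

section Push

variable {K F F' : Type*} [Field K] [Field F] [Field F'] [Algebra K F] [Algebra K F']

/-- the push-forward on `Pic⁰` along `φ` -/
def stbPush (φ : F →ₐ[K] F') (hφ : φ.toRingHom.IsIntegral) (hfin : FiniteAlong K φ)
    (hN : NormFormulaAlong K φ hfin) : Pic0 K F' →+ Pic0 K F :=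
  letI := algebraAlong φ
  haveI := isScalarTower_along φ
  haveI := isIntegral_along φ hφ
  haveI : Module.Finite F F' := hfin
  Pic0.pushforwardHom K F F' hN

/-- the push-forward of degree-zero divisors along `φ` -/
def stbPushDegZero (φ : F →ₐ[K] F') (hφ : φ.toRingHom.IsIntegral) :
    Divisor.degZero (K := K) (F := F') →+ Divisor.degZero (K := K) (F := F) :=
  letI := algebraAlong φ
  haveI := isScalarTower_along φ
  haveI := isIntegral_along φ hφ
  Pic0.pushforwardDegZeroHom F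

theorem coe_stbPushDegZero (φ : F →ₐ[K] F') (hφ : φ.toRingHom.IsIntegral)
    (D : Divisor.degZero (K := K) (F := F')) :
    (stbPushDegZero φ hφ D : Divisor K F) = Divisor.pushforwardAlong φ hφ (D : Divisor K F') :=
  rfl

theorem stbPush_mk (φ : F →ₐ[K] F') (hφ : φ.toRingHom.IsIntegral) (hfin : FiniteAlong K φ)
    (hN : NormFormulaAlong K φ hfin) (D : Divisor.degZero (K := K) (F := F')) :
    stbPush φ hφ hfin hN (Pic0.mk D) = Pic0.mk (stbPushDegZero φ hφ D) := rfl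

/-- the push-forward of `div u` is `div (N_φ u)` -/
theorem stb_pushforwardAlong_apply_of_ord (φ : F →ₐ[K] F') (hφ : φ.toRingHom.IsIntegral)
    (hfin : FiniteAlong K φ) (hN : NormFormulaAlong K φ hfin)
    {D : Divisor K F'} {u : F'} (hu : u ≠ 0) (hD : ∀ w : Place K F', D w = w.ord u)
    (v : Place K F) :
    Divisor.pushforwardAlong φ hφ D v = v.ord (stbNorm φ.toRingHom u) := by
  letI := algebraAlong φ
  haveI := isScalarTower_along φ
  haveI := isIntegral_along φ hφ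
  haveI : Module.Finite F F' := hfin
  exact hN u hu D hD v

/-- **Kummer form of the push-forward.** -/
theorem stb_kummerRel_push (φ : F →ₐ[K] F') (hφ : φ.toRingHom.IsIntegral)
    (hfin : FiniteAlong K φ) (hN : NormFormulaAlong K φ hfin)
    {n : ℕ} {x : Pic0 K F'} {u : F'} (h : KummerRel n x u) :
    KummerRel n (stbPush φ hφ hfin hN x) (stbNorm φ.toRingHom u) := by
  obtain ⟨D, rfl, hu, hD⟩ := h
  refine ⟨stbPushDegZero φ hφ D, (stbPush_mk φ hφ hfin hN D).symm,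
    stbNorm_ne_zero _ hfin hu, fun v => ?_⟩
  have hnD : ∀ w : Place K F', ((n : ℤ) • (D : Divisor K F')) w = w.ord u := by
    intro w
    rw [Finsupp.smul_apply, smul_eq_mul]
    exact hD w
  have h1 := stb_pushforwardAlong_apply_of_ord φ hφ hfin hN hu hnD v
  rw [map_zsmul, Finsupp.smul_apply, smul_eq_mul] at h1
  rw [coe_stbPushDegZero]
  exact h1

end Push

end Fermat.Agent.STB

end
end ZBSTB_001_2

/-! ### bundled: `Fermat.Agent.STB.PushHecke` -/
section ZBSTB_001_3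

/-!
# STB-P3 (S35, phase 2 of item 34): the degeneracy push-forwards commute with `T_ℓ` (helper92)

`q ∤ N` a prime, `α = heckeAlphaBar ℚ̄ N q`, `β = heckeBetaBar ℚ̄ N q : F_N → F_{Nq}`.

* `stbPushAlpha N q`, `stbPushBeta N q : JZero (N * q) →+ JZero N` : the push-forwards `α_*`,
  `β_*` (`β_* = α_* ∘ w_q`) are those of `STB/Stmt.lean` (helper50); `stbPushAlpha_eq`,
  `stbPushBeta_eq` : they are `stbPush` of `PushCore.lean`;
* `stb_kummerRel_pushAlpha`, `stb_kummerRel_pushBeta` : Kummer form (norm along `α`, `β`);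
* `stb_p3_alpha`, `stb_p3_beta` : for a prime `ℓ ∤ N q` and every torsion point `x` of `J₀(Nq)`:
  `α_* (T_ℓ x) = T_ℓ (α_* x)`, `β_* (T_ℓ x) = T_ℓ (β_* x)`.

Proof (Kummer form).  If `n · D = div u`, both sides have the Kummer function
`N_{F_{Nqℓ}/F_N} (u(Q^ℓ))`: transitivity of norms and base change of the norm in the square
`F_N ⊂ F_{Nq}`, `F_{Nℓ} ⊂ F_{Nℓq}` (`stb_norm_square`, with the `q + 1` embeddings
`ES.G2.hnFam` of `F_{Nℓq}` over `F_{Nℓ}`, which are distinct at `j(Q^{qℓ})`).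
-/

set_option autoImplicit false
set_option linter.style.haveILetI false
set_option linter.unusedSectionVars false

noncomputable section

namespace Fermat.Agent.STB

open AlgebraicCurve ModularCurve IntermediateField Fermat.Agent.ES Fermat.Agent.ES.G2
  Fermat.Agent.UNIP

/-! ## The push-forwards -/

section Defs

variable (N q : ℕ) [NeZero N] [NeZero q]

/-- The norm formula along `β`. -/
theorem stb_normFormulaAlong_heckeBetaBar :
    NormFormulaAlong Qb (heckeBetaBar Qb N q) (H.finiteAlong_heckeBetaBar N q) := by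
  let _ := algebraAlong (heckeBetaBar Qb N q)
  have := isScalarTower_along (heckeBetaBar Qb N q)
  have : FiniteDimensional (modularFunctionFieldBar N) (modularFunctionFieldBar (N * q)) :=
    H.finiteAlong_heckeBetaBar N q
  exact H.pushforwardNormFormula (H.residue_bijective_FF N) (H.residue_bijective_FF (N * q))

/-- `α_*` of `Stmt.lean` is the generic push-forward -/
theorem stbPushAlpha_eq :
    stbPushAlpha N q = stbPush (heckeAlphaBar Qb N q) (H.heckeAlphaBarIntegral N q)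
      (H.finiteAlong_heckeAlphaBar N q) (H.normFormulaAlong_heckeAlphaBar N q) := rfl

/-- `β_*` of `Stmt.lean` is the generic push-forward -/
theorem stbPushBeta_eq :
    stbPushBeta N q = stbPush (heckeBetaBar Qb N q) (H.heckeBetaBarIntegral N q)
      (H.finiteAlong_heckeBetaBar N q) (stb_normFormulaAlong_heckeBetaBar N q) := rfl

/-- the norm along `α` of `Stmt.lean` is `stbNorm` -/
theorem stbNormAlpha_eq (y : modularFunctionFieldBar (N * q)) :
    stbNormAlpha N q y = stbNorm (heckeAlphaBar Qb N q).toRingHom y := rfl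

/-- the norm along `β` of `Stmt.lean` is `stbNorm` -/
theorem stbNormBeta_eq (y : modularFunctionFieldBar (N * q)) :
    stbNormBeta N q y = stbNorm (heckeBetaBar Qb N q).toRingHom y := rfl

/-- Kummer form of `α_*` -/
theorem stb_kummerRel_pushAlpha {n : ℕ} {x : JZero (N * q)}
    {u : modularFunctionFieldBar (N * q)} (h : KummerRel n x u) :
    KummerRel n (stbPushAlpha N q x) (stbNorm (heckeAlphaBar Qb N q).toRingHom u) := by
  rw [stbPushAlpha_eq]
  exact stb_kummerRel_push _ _ _ _ h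

/-- Kummer form of `β_*` -/
theorem stb_kummerRel_pushBeta {n : ℕ} {x : JZero (N * q)}
    {u : modularFunctionFieldBar (N * q)} (h : KummerRel n x u) :
    KummerRel n (stbPushBeta N q x) (stbNorm (heckeBetaBar Qb N q).toRingHom u) := by
  rw [stbPushBeta_eq]
  exact stb_kummerRel_push _ _ _ _ h

/-- Kummer form of `T_ℓ`, with `stbNorm` -/
theorem stb_kummerRel_hecke (ℓ : Nat.Primes) {n : ℕ} {x : JZero N}
    {u : modularFunctionFieldBar N} (h : KummerRel n x u) :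
    haveI : NeZero (ℓ : ℕ) := ⟨ℓ.2.ne_zero⟩
    KummerRel n (heckeOperatorBar N ℓ x)
      (stbNorm (heckeAlphaBar Qb N (ℓ : ℕ)).toRingHom (heckeBetaBar Qb N (ℓ : ℕ) u)) :=
  KummerRel.hecke N ℓ h

end Defs

/-! ## The Atkin–Lehner swap and the degrees -/

section Swap

variable (N q : ℕ) [NeZero N] [NeZero q]

theorem stb_alpha_eq_mk (x : modularFunctionFieldBar N)
    (h : (x : LaurentSeries Qb) ∈ modularFunctionFieldBar (N * q)) :
    heckeAlphaBar Qb N q x = ⟨(x : LaurentSeries Qb), h⟩ :=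
  Subtype.ext (coe_heckeAlphaBar N q x)

theorem stb_beta_eq_mk (x : modularFunctionFieldBar N)
    (h : qExpand Qb q (x : LaurentSeries Qb) ∈ modularFunctionFieldBar (N * q)) :
    heckeBetaBar Qb N q x = ⟨qExpand Qb q (x : LaurentSeries Qb), h⟩ :=
  Subtype.ext (coe_heckeBetaBar N q x)

theorem stb_w_alpha (hq : q.Prime) (hqN : ¬ q ∣ N) (x : modularFunctionFieldBar N) :
    atkinLehnerBar hq hqN (heckeAlphaBar Qb N q x) = heckeBetaBar Qb N q x := by
  have hmem : (x : LaurentSeries Qb) ∈ modularFunctionFieldBar (N * q) := by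
    have := (heckeAlphaBar Qb N q x).2
    rwa [coe_heckeAlphaBar] at this
  rw [stb_alpha_eq_mk N q x hmem]
  apply Subtype.ext
  rw [atkinLehnerBar_of_mem_low hq hqN x.2 hmem, coe_heckeBetaBar]

theorem stb_w_beta (hq : q.Prime) (hqN : ¬ q ∣ N) (x : modularFunctionFieldBar N) :
    atkinLehnerBar hq hqN (heckeBetaBar Qb N q x) = heckeAlphaBar Qb N q x := by
  have hmem : qExpand Qb q (x : LaurentSeries Qb) ∈ modularFunctionFieldBar (N * q) := by
    have := (heckeBetaBar Qb N q x).2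
    rwa [coe_heckeBetaBar] at this
  rw [stb_beta_eq_mk N q x hmem]
  apply Subtype.ext
  rw [atkinLehnerBar_qExpand hq hqN x.2 hmem, coe_heckeAlphaBar]

/-- `w_q` as a ring equivalence -/
def stbW (hq : q.Prime) (hqN : ¬ q ∣ N) :
    modularFunctionFieldBar (N * q) ≃+* modularFunctionFieldBar (N * q) :=
  (atkinLehnerBar hq hqN).toRingEquiv

theorem stbW_apply (hq : q.Prime) (hqN : ¬ q ∣ N) (y : modularFunctionFieldBar (N * q)) :
    stbW N q hq hqN y = atkinLehnerBar hq hqN y := rfl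

theorem stbW_comp_beta (hq : q.Prime) (hqN : ¬ q ∣ N) :
    ((stbW N q hq hqN : modularFunctionFieldBar (N * q) →+* modularFunctionFieldBar (N * q))).comp
      (heckeBetaBar Qb N q).toRingHom = (heckeAlphaBar Qb N q).toRingHom :=
  RingHom.ext fun x => stb_w_beta N q hq hqN x

theorem stbDeg_alpha (hq : q.Prime) (hqN : ¬ q ∣ N) :
    stbDeg (heckeAlphaBar Qb N q).toRingHom = q + 1 :=
  hdeg_finrank N q hq hqN

theorem stbDeg_beta (hq : q.Prime) (hqN : ¬ q ∣ N) :
    stbDeg (heckeBetaBar Qb N q).toRingHom = q + 1 := by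
  rw [← stbDeg_alpha N q hq hqN, ← stbW_comp_beta N q hq hqN]
  exact (stb_finrank_equiv_comp _ _).symm

theorem stbFinite_alpha : StbFinite (heckeAlphaBar Qb N q).toRingHom :=
  H.finiteAlong_heckeAlphaBar N q

theorem stbFinite_beta : StbFinite (heckeBetaBar Qb N q).toRingHom :=
  H.finiteAlong_heckeBetaBar N q

end Swap

/-! ## The square `F_N ⊂ F_{Nq}`, `F_{Nℓ} ⊂ F_{Nℓq}` -/

section Square

variable (N q ℓ : ℕ) [NeZero N] [NeZero q] [NeZero ℓ]

theorem stb_bar_eq :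
    modularFunctionFieldBar (N * q * ℓ) = modularFunctionFieldBar (N * ℓ * q) :=
  congrArg modularFunctionFieldBar (by ring)

/-- the identification `F_{(Nq)ℓ} = F_{(Nℓ)q}` -/
def stbEqv : modularFunctionFieldBar (N * q * ℓ) ≃+* modularFunctionFieldBar (N * ℓ * q) :=
  (IntermediateField.equivOfEq (stb_bar_eq N q ℓ)).toRingEquiv

omit [NeZero N] [NeZero q] [NeZero ℓ] in
theorem stb_equivOfEq_coe {k E : Type*} [Field k] [Field E] [Algebra k E]
    {S T : IntermediateField k E} (h : S = T) (y : S) :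
    (((IntermediateField.equivOfEq h).toRingEquiv y : T) : E) = (y : E) := by
  subst h
  rfl

theorem stbEqv_coe (y : modularFunctionFieldBar (N * q * ℓ)) :
    ((stbEqv N q ℓ y : modularFunctionFieldBar (N * ℓ * q)) : LaurentSeries Qb) =
      (y : LaurentSeries Qb) :=
  stb_equivOfEq_coe (stb_bar_eq N q ℓ) y

/-- `u ↦ u(Q^ℓ)`, `F_{Nq} → F_{(Nℓ)q}` -/
def stbG2 : modularFunctionFieldBar (N * q) →+* modularFunctionFieldBar (N * ℓ * q) :=
  ((stbEqv N q ℓ : modularFunctionFieldBar (N * q * ℓ) →+*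
      modularFunctionFieldBar (N * ℓ * q))).comp (heckeBetaBar Qb (N * q) ℓ).toRingHom

theorem stbG2_apply (u : modularFunctionFieldBar (N * q)) :
    stbG2 N q ℓ u = stbEqv N q ℓ (heckeBetaBar Qb (N * q) ℓ u) := rfl

theorem stbG2_coe (u : modularFunctionFieldBar (N * q)) :
    ((stbG2 N q ℓ u : modularFunctionFieldBar (N * ℓ * q)) : LaurentSeries Qb) =
      qExpand Qb ℓ (u : LaurentSeries Qb) := by
  rw [stbG2_apply, stbEqv_coe, coe_heckeBetaBar]

/-- the square for `α` commutes -/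
theorem stb_sq_alpha (x : modularFunctionFieldBar N) :
    stbG2 N q ℓ (heckeAlphaBar Qb N q x) =
      heckeAlphaBar Qb (N * ℓ) q (heckeBetaBar Qb N ℓ x) := by
  apply Subtype.ext
  rw [stbG2_coe, coe_heckeAlphaBar, coe_heckeAlphaBar, coe_heckeBetaBar]

/-- the square for `β` commutes -/
theorem stb_sq_beta (x : modularFunctionFieldBar N) :
    stbG2 N q ℓ (heckeBetaBar Qb N q x) =
      heckeBetaBar Qb (N * ℓ) q (heckeBetaBar Qb N ℓ x) := by
  apply Subtype.ext
  rw [stbG2_coe, coe_heckeBetaBar, coe_heckeBetaBar, coe_heckeBetaBar, qExpand_qExpand,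
    qExpand_qExpand]
  exact qExpand_congr (Nat.mul_comm ℓ q) _

/-- the two inclusions `F_N → F_{(Nℓ)q}` agree -/
theorem stb_incl_alpha :
    ((stbEqv N q ℓ : modularFunctionFieldBar (N * q * ℓ) →+*
      modularFunctionFieldBar (N * ℓ * q))).comp
        ((heckeAlphaBar Qb (N * q) ℓ).toRingHom.comp (heckeAlphaBar Qb N q).toRingHom) =
      (heckeAlphaBar Qb (N * ℓ) q).toRingHom.comp (heckeAlphaBar Qb N ℓ).toRingHom := by
  apply RingHom.ext
  intro x
  apply Subtype.ext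
  show ((stbEqv N q ℓ (heckeAlphaBar Qb (N * q) ℓ (heckeAlphaBar Qb N q x)) :
    modularFunctionFieldBar (N * ℓ * q)) : LaurentSeries Qb) =
    ((heckeAlphaBar Qb (N * ℓ) q (heckeAlphaBar Qb N ℓ x) :
      modularFunctionFieldBar (N * ℓ * q)) : LaurentSeries Qb)
  rw [stbEqv_coe, coe_heckeAlphaBar, coe_heckeAlphaBar, coe_heckeAlphaBar, coe_heckeAlphaBar]

/-- the two maps `x ↦ x(Q^q)`, `F_N → F_{(Nℓ)q}`, agree -/
theorem stb_incl_beta :
    ((stbEqv N q ℓ : modularFunctionFieldBar (N * q * ℓ) →+*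
      modularFunctionFieldBar (N * ℓ * q))).comp
        ((heckeAlphaBar Qb (N * q) ℓ).toRingHom.comp (heckeBetaBar Qb N q).toRingHom) =
      (heckeBetaBar Qb (N * ℓ) q).toRingHom.comp (heckeAlphaBar Qb N ℓ).toRingHom := by
  apply RingHom.ext
  intro x
  apply Subtype.ext
  show ((stbEqv N q ℓ (heckeAlphaBar Qb (N * q) ℓ (heckeBetaBar Qb N q x)) :
    modularFunctionFieldBar (N * ℓ * q)) : LaurentSeries Qb) =
    ((heckeBetaBar Qb (N * ℓ) q (heckeAlphaBar Qb N ℓ x) :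
      modularFunctionFieldBar (N * ℓ * q)) : LaurentSeries Qb)
  rw [stbEqv_coe, coe_heckeAlphaBar, coe_heckeBetaBar, coe_heckeBetaBar, coe_heckeAlphaBar]

/-- the element `j(Q^{qℓ})` of `F_{(Nℓ)q}` -/
def stbY : modularFunctionFieldBar (N * ℓ * q) :=
  heckeBetaBar Qb (N * ℓ) q (heckeBetaBar Qb N ℓ (hnJ N))

/-- the `q + 1` embeddings of `F_{(Nℓ)q}` over `F_{Nℓ}` are distinct at `j(Q^{qℓ})` -/
theorem stb_hnFam_injective_at (hq : q.Prime) (hqℓ : Nat.Coprime ℓ q)
    (w : modularFunctionFieldBar (N * ℓ * q) →+* modularFunctionFieldBar (N * ℓ * q))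
    (hwβ : ∀ x, w (heckeBetaBar Qb (N * ℓ) q x) = heckeAlphaBar Qb (N * ℓ) q x)
    (ζ : Qbˣ) (hζ : IsPrimitiveRoot ζ q) :
    Function.Injective fun i => hnFam (N * ℓ) q w ζ i (stbY N q ℓ) := by
  have hJ : ((heckeBetaBar Qb N ℓ (hnJ N) : modularFunctionFieldBar (N * ℓ)) :
      LaurentSeries Qb) = qExpand Qb ℓ (coeffEmb Qb jq) := by
    rw [coe_heckeBetaBar, hnJ_coe]
  have hcoefJ : (qExpand Qb ℓ (coeffEmb Qb jq)).coeff (-(ℓ : ℤ)) = 1 := by
    have h := qExpand_coeff_mul (R := Qb) ℓ (coeffEmb Qb jq) (-1)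
    rw [mul_neg, mul_one] at h
    rw [h, hn_jBar_coeff]
  have hcoef : ∀ b : Fin q, (kronRot (ζ ^ (b : ℕ)) (qExpand Qb ℓ (coeffEmb Qb jq))).coeff
      (-(ℓ : ℤ)) = (((ζ ^ (b : ℕ)) ^ (-(ℓ : ℤ)) : Qbˣ) : Qb) := by
    intro b
    rw [kronRot_coeff, hcoefJ, mul_one]
  have hinf : (qExpand Qb q (qExpand Qb q (qExpand Qb ℓ (coeffEmb Qb jq)))).coeff
      (-(ℓ : ℤ)) = 0 := by
    apply qExpand_coeff_of_not_dvd
    intro hdvd
    have h1 : ((q : ℤ)) ∣ (ℓ : ℤ) := (dvd_neg).1 hdvd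
    have h2 : q ∣ ℓ := by exact_mod_cast h1
    have h3 : q ∣ Nat.gcd ℓ q := Nat.dvd_gcd h2 dvd_rfl
    rw [hqℓ] at h3
    exact hq.one_lt.ne' (Nat.dvd_one.1 h3)
  have hvalInf : hnFam (N * ℓ) q w ζ none (stbY N q ℓ)
      = algebraMap HnOmega HnOmegaBar
          (qExpand Qb q (qExpand Qb q (qExpand Qb ℓ (coeffEmb Qb jq)))) := by
    have := hnInf_beta (N * ℓ) q (heckeBetaBar Qb N ℓ (hnJ N))
    rw [hJ] at this
    exact this
  have hvalRot : ∀ b : Fin q, hnFam (N * ℓ) q w ζ (some b) (stbY N q ℓ)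
      = algebraMap HnOmega HnOmegaBar
          (kronRot (ζ ^ (b : ℕ)) (qExpand Qb ℓ (coeffEmb Qb jq))) := by
    intro b
    have := hnRot_beta (N * ℓ) q w hwβ (ζ ^ (b : ℕ)) (heckeBetaBar Qb N ℓ (hnJ N))
    rw [hJ] at this
    exact this
  have hζℓ : IsPrimitiveRoot (ζ ^ ℓ) q := hζ.pow_of_coprime ℓ hqℓ
  intro i i' h
  have h' : hnFam (N * ℓ) q w ζ i (stbY N q ℓ) = hnFam (N * ℓ) q w ζ i' (stbY N q ℓ) := h
  cases i with
  | none =>
      cases i' with
      | none => rfl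
      | some b' =>
          exfalso
          rw [hvalInf, hvalRot] at h'
          have h2 := congrArg (fun g : LaurentSeries Qb => g.coeff (-(ℓ : ℤ)))
            (hn_algebraMap_injective h')
          simp only [hinf, hcoef] at h2
          exact Units.ne_zero _ h2.symm
  | some b =>
      cases i' with
      | none =>
          exfalso
          rw [hvalInf, hvalRot] at h'
          have h2 := congrArg (fun g : LaurentSeries Qb => g.coeff (-(ℓ : ℤ)))
            (hn_algebraMap_injective h')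
          simp only [hinf, hcoef] at h2
          exact Units.ne_zero _ h2
      | some b' =>
          rw [hvalRot, hvalRot] at h'
          have h2 := congrArg (fun g : LaurentSeries Qb => g.coeff (-(ℓ : ℤ)))
            (hn_algebraMap_injective h')
          simp only [hcoef] at h2
          have h3 : (ζ ^ (b : ℕ)) ^ (-(ℓ : ℤ)) = (ζ ^ (b' : ℕ)) ^ (-(ℓ : ℤ)) := Units.ext h2
          have h4 : (ζ ^ ℓ) ^ (b : ℕ) = (ζ ^ ℓ) ^ (b' : ℕ) := by
            have h5 := congrArg (fun u : Qbˣ => u⁻¹) h3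
            simp only [zpow_neg, inv_inv, zpow_natCast] at h5
            rw [← pow_mul, ← pow_mul] at h5
            rw [← pow_mul, ← pow_mul, mul_comm ℓ, mul_comm ℓ]
            exact h5
          have h6 : (b : ℕ) = (b' : ℕ) := hζℓ.pow_inj b.2 b'.2 h4
          exact congrArg some (Fin.ext h6)

end Square

/-! ## Base change of the norms and the main theorems -/

section Main

variable (N q ℓ : ℕ) [NeZero N] [NeZero q] [NeZero ℓ]

theorem stb_charZero_bar (M : ℕ) : CharZero (modularFunctionFieldBar M) :=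
  charZero_of_injective_algebraMap (algebraMap Qb (modularFunctionFieldBar M)).injective

theorem stb_card_option_fin : Fintype.card (Option (Fin q)) = q + 1 := by
  rw [Fintype.card_option, Fintype.card_fin]

/-- **base change of the norm**, `α`-version: `N_{F_{Nℓq}/F_{Nℓ}} (u(Q^ℓ)) = (N_{F_{Nq}/F_N} u)(Q^ℓ)` -/
theorem stb_norm_bc_alpha (hq : q.Prime) (hqN : ¬ q ∣ N) (hqℓ : Nat.Coprime ℓ q)
    (hqNℓ : ¬ q ∣ N * ℓ) (u : modularFunctionFieldBar (N * q)) :
    stbNorm (heckeAlphaBar Qb (N * ℓ) q).toRingHom (stbG2 N q ℓ u) =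
      heckeBetaBar Qb N ℓ (stbNorm (heckeAlphaBar Qb N q).toRingHom u) := by
  haveI := stb_charZero_bar N
  obtain ⟨ζ, hζ⟩ := frob_exists_primitiveRoot q hq.ne_zero
  set w : modularFunctionFieldBar (N * ℓ * q) →+* modularFunctionFieldBar (N * ℓ * q) :=
    (stbW (N * ℓ) q hq hqNℓ : modularFunctionFieldBar (N * ℓ * q) →+*
      modularFunctionFieldBar (N * ℓ * q)) with hw
  have hwα : ∀ x, w (heckeAlphaBar Qb (N * ℓ) q x) = heckeBetaBar Qb (N * ℓ) q x :=
    stb_w_alpha (N * ℓ) q hq hqNℓ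
  have hwβ : ∀ x, w (heckeBetaBar Qb (N * ℓ) q x) = heckeAlphaBar Qb (N * ℓ) q x :=
    stb_w_beta (N * ℓ) q hq hqNℓ
  refine stb_norm_square_charZero (Ω := HnOmegaBar) (heckeAlphaBar Qb N q).toRingHom
    (heckeAlphaBar Qb (N * ℓ) q).toRingHom (heckeBetaBar Qb N ℓ).toRingHom (stbG2 N q ℓ)
    (stb_sq_alpha N q ℓ) (stbFinite_alpha N q) (stbFinite_alpha (N * ℓ) q)
    (hnBase (N * ℓ) q) (hnFam (N * ℓ) q w ζ)
    (fun i x => hnFam_alpha (N * ℓ) q w hwα ζ hζ.pow_eq_one i x) ?_ ?_ ?_ u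
  · rw [stb_card_option_fin, stbDeg_alpha (N * ℓ) q hq hqNℓ]
  · rw [stb_card_option_fin, stbDeg_alpha N q hq hqN]
  · intro i i' h
    apply stb_hnFam_injective_at N q ℓ hq hqℓ w hwβ ζ hζ
    show hnFam (N * ℓ) q w ζ i (stbY N q ℓ) = hnFam (N * ℓ) q w ζ i' (stbY N q ℓ)
    have hY : stbY N q ℓ = stbG2 N q ℓ (heckeBetaBar Qb N q (hnJ N)) :=
      (stb_sq_beta N q ℓ (hnJ N)).symm
    rw [hY]
    exact congrArg (fun f : modularFunctionFieldBar (N * q) →+* HnOmegaBar =>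
      f (heckeBetaBar Qb N q (hnJ N))) h

/-- **base change of the norm**, `β`-version -/
theorem stb_norm_bc_beta (hq : q.Prime) (hqN : ¬ q ∣ N) (hqℓ : Nat.Coprime ℓ q)
    (hqNℓ : ¬ q ∣ N * ℓ) (u : modularFunctionFieldBar (N * q)) :
    stbNorm (heckeBetaBar Qb (N * ℓ) q).toRingHom (stbG2 N q ℓ u) =
      heckeBetaBar Qb N ℓ (stbNorm (heckeBetaBar Qb N q).toRingHom u) := by
  haveI := stb_charZero_bar N
  obtain ⟨ζ, hζ⟩ := frob_exists_primitiveRoot q hq.ne_zero
  set w : modularFunctionFieldBar (N * ℓ * q) →+* modularFunctionFieldBar (N * ℓ * q) :=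
    (stbW (N * ℓ) q hq hqNℓ : modularFunctionFieldBar (N * ℓ * q) →+*
      modularFunctionFieldBar (N * ℓ * q)) with hw
  have hwα : ∀ x, w (heckeAlphaBar Qb (N * ℓ) q x) = heckeBetaBar Qb (N * ℓ) q x :=
    stb_w_alpha (N * ℓ) q hq hqNℓ
  have hwβ : ∀ x, w (heckeBetaBar Qb (N * ℓ) q x) = heckeAlphaBar Qb (N * ℓ) q x :=
    stb_w_beta (N * ℓ) q hq hqNℓ
  refine stb_norm_square_charZero (Ω := HnOmegaBar) (heckeBetaBar Qb N q).toRingHom
    (heckeBetaBar Qb (N * ℓ) q).toRingHom (heckeBetaBar Qb N ℓ).toRingHom (stbG2 N q ℓ)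
    (stb_sq_beta N q ℓ) (stbFinite_beta N q) (stbFinite_beta (N * ℓ) q)
    (hnBase (N * ℓ) q) (fun i => (hnFam (N * ℓ) q w ζ i).comp w)
    (fun i x => by
      show hnFam (N * ℓ) q w ζ i (w (heckeBetaBar Qb (N * ℓ) q x)) = hnBase (N * ℓ) q x
      rw [hwβ]
      exact hnFam_alpha (N * ℓ) q w hwα ζ hζ.pow_eq_one i x) ?_ ?_ ?_ u
  · rw [stb_card_option_fin, stbDeg_beta (N * ℓ) q hq hqNℓ]
  · rw [stb_card_option_fin, stbDeg_beta N q hq hqN]
  · intro i i' h
    apply stb_hnFam_injective_at N q ℓ hq hqℓ w hwβ ζ hζ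
    show hnFam (N * ℓ) q w ζ i (stbY N q ℓ) = hnFam (N * ℓ) q w ζ i' (stbY N q ℓ)
    have hY : stbY N q ℓ = w (stbG2 N q ℓ (heckeAlphaBar Qb N q (hnJ N))) := by
      rw [stb_sq_alpha, hwα]
      rfl
    rw [hY]
    exact congrArg (fun f : modularFunctionFieldBar (N * q) →+* HnOmegaBar =>
      f (heckeAlphaBar Qb N q (hnJ N))) h

end Main

section Final

variable (N q : ℕ) [NeZero N] [NeZero q]

/-- the Kummer functions of `α_* T_ℓ x` and `T_ℓ α_* x` agree -/
theorem stb_p3_fun_alpha (hq : q.Prime) (hqN : ¬ q ∣ N) (ℓ : ℕ) [NeZero ℓ] (hℓ : ℓ.Prime)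
    (hℓNq : ¬ ℓ ∣ N * q) (u : modularFunctionFieldBar (N * q)) :
    stbNorm (heckeAlphaBar Qb N q).toRingHom
        (stbNorm (heckeAlphaBar Qb (N * q) ℓ).toRingHom (heckeBetaBar Qb (N * q) ℓ u)) =
      stbNorm (heckeAlphaBar Qb N ℓ).toRingHom
        (heckeBetaBar Qb N ℓ (stbNorm (heckeAlphaBar Qb N q).toRingHom u)) := by
  have hℓq : ℓ ≠ q := fun h => hℓNq (h ▸ dvd_mul_left _ _)
  have hcop : Nat.Coprime ℓ q := (Nat.coprime_primes hℓ hq).2 hℓq
  have hqNℓ : ¬ q ∣ N * ℓ := by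
    intro h
    rcases (Nat.Prime.dvd_mul hq).1 h with h | h
    · exact hqN h
    · exact hℓq ((Nat.prime_dvd_prime_iff_eq hq hℓ).1 h).symm
  rw [← stb_norm_bc_alpha N q ℓ hq hqN hcop hqNℓ u,
    stbNorm_comp _ _ (stbFinite_alpha N q) (stbFinite_alpha (N * q) ℓ),
    stbNorm_comp _ _ (stbFinite_alpha N ℓ) (stbFinite_alpha (N * ℓ) q),
    ← stb_incl_alpha N q ℓ]
  exact (stbNorm_equiv_comp _ (stbEqv N q ℓ) _).symm

/-- the Kummer functions of `β_* T_ℓ x` and `T_ℓ β_* x` agree -/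
theorem stb_p3_fun_beta (hq : q.Prime) (hqN : ¬ q ∣ N) (ℓ : ℕ) [NeZero ℓ] (hℓ : ℓ.Prime)
    (hℓNq : ¬ ℓ ∣ N * q) (u : modularFunctionFieldBar (N * q)) :
    stbNorm (heckeBetaBar Qb N q).toRingHom
        (stbNorm (heckeAlphaBar Qb (N * q) ℓ).toRingHom (heckeBetaBar Qb (N * q) ℓ u)) =
      stbNorm (heckeAlphaBar Qb N ℓ).toRingHom
        (heckeBetaBar Qb N ℓ (stbNorm (heckeBetaBar Qb N q).toRingHom u)) := by
  have hℓq : ℓ ≠ q := fun h => hℓNq (h ▸ dvd_mul_left _ _)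
  have hcop : Nat.Coprime ℓ q := (Nat.coprime_primes hℓ hq).2 hℓq
  have hqNℓ : ¬ q ∣ N * ℓ := by
    intro h
    rcases (Nat.Prime.dvd_mul hq).1 h with h | h
    · exact hqN h
    · exact hℓq ((Nat.prime_dvd_prime_iff_eq hq hℓ).1 h).symm
  rw [← stb_norm_bc_beta N q ℓ hq hqN hcop hqNℓ u,
    stbNorm_comp _ _ (stbFinite_beta N q) (stbFinite_alpha (N * q) ℓ),
    stbNorm_comp _ _ (stbFinite_alpha N ℓ) (stbFinite_beta (N * ℓ) q),
    ← stb_incl_beta N q ℓ]
  exact (stbNorm_equiv_comp _ (stbEqv N q ℓ) _).symm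

/-- **STB-P3, `α`**: `α_* (T_ℓ x) = T_ℓ (α_* x)` for every torsion point `x` of `J₀(Nq)`,
`q ∤ N`, `ℓ ∤ N q` primes. -/
theorem stb_p3_alpha (hq : q.Prime) (hqN : ¬ q ∣ N) (ℓ : Nat.Primes) (hℓ : ¬ (ℓ : ℕ) ∣ N * q)
    {n : ℕ} (hn : n ≠ 0) (x : JZero (N * q)) (hx : n • x = 0) :
    stbPushAlpha N q (heckeOperatorBar (N * q) ℓ x) =
      heckeOperatorBar N ℓ (stbPushAlpha N q x) := by
  haveI : NeZero (ℓ : ℕ) := ⟨ℓ.2.ne_zero⟩
  obtain ⟨u, hu⟩ := exists_kummerRel hx
  have hL := stb_kummerRel_pushAlpha N q (stb_kummerRel_hecke (N * q) ℓ hu)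
  have hR := stb_kummerRel_hecke N ℓ (stb_kummerRel_pushAlpha N q hu)
  rw [stb_p3_fun_alpha N q hq hqN (ℓ : ℕ) ℓ.2 hℓ u] at hL
  exact KummerRel.unique hn hL hR

/-- **STB-P3, `β`**: `β_* (T_ℓ x) = T_ℓ (β_* x)` for every torsion point `x` of `J₀(Nq)`,
`q ∤ N`, `ℓ ∤ N q` primes. -/
theorem stb_p3_beta (hq : q.Prime) (hqN : ¬ q ∣ N) (ℓ : Nat.Primes) (hℓ : ¬ (ℓ : ℕ) ∣ N * q)
    {n : ℕ} (hn : n ≠ 0) (x : JZero (N * q)) (hx : n • x = 0) :
    stbPushBeta N q (heckeOperatorBar (N * q) ℓ x) =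
      heckeOperatorBar N ℓ (stbPushBeta N q x) := by
  haveI : NeZero (ℓ : ℕ) := ⟨ℓ.2.ne_zero⟩
  obtain ⟨u, hu⟩ := exists_kummerRel hx
  have hL := stb_kummerRel_pushBeta N q (stb_kummerRel_hecke (N * q) ℓ hu)
  have hR := stb_kummerRel_hecke N ℓ (stb_kummerRel_pushBeta N q hu)
  rw [stb_p3_fun_beta N q hq hqN (ℓ : ℕ) ℓ.2 hℓ u] at hL
  exact KummerRel.unique hn hL hR

end Final

end Fermat.Agent.STB

end
end ZBSTB_001_3

/-! ### bundled: `Fermat.Agent.S33.PlanGeo` -/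
section ZBSTB_001_4

/-!
# S33, route v2, block C3 "NORM-DEPTH" — interface (helper90)

`N = M p`, `p ∤ M`, `p` prime, `A ⊂ ℚ̄` a valuation ring over `p`,
`F_N = modularFunctionFieldBar (M * p) ⊂ ℚ̄((q))`, `w = w_p = UNIP.atkinLehnerBar hp hpM`,
`v_∞` = Gauss valuation of the `q`-expansion at `A`, `v_0 = v_∞ ∘ w`.

* `CongrOneMod A N ϖ u` : `u = y₁ / y₂` with `y₁, y₂ ∈ F_N` primitive at `A` and
  `y₁ ≡ y₂ mod ϖ A` coefficientwise (`NdaCongr`, `S33/NormAlg.lean`): "`v_∞(u − 1) ≥ v(ϖ)`".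
  For `ϖ` a nonzero non-unit this refines `ES.G2.ReducesToOne`.
* `DepthInf A N p ϖ u` : the class of `u` modulo constants and `p`-th powers has depth `≥ v(ϖ)` at
  `v_∞`:  `∃ c ∈ ℚ̄^×, h ∈ F_N^×, u / (c hᵖ) ≡ 1 mod ϖ`.
* `DepthZero hp hpM A ϖ u := DepthInf A (M p) p ϖ (w u)` : the same at `v_0`.
* `IsSplitFn hp hpM A u` : depth `≥ v(p^k)` at `v_∞` and at `v_0`, for all `k`.

Statements:
* `StmtNormDepth hp hpM` — one step: depth `c` at `v_0` and `N_α u ∈ ℚ̄^× F_M^{×p}` give depth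
  `d` at `v_∞` for every common divisor `d` of `c p` and `c^p`  (`g(δ) = min(δ + 1, p δ)`).
* `StmtDepthStart p` — `ReducesToOne` gives a uniform congruence modulo a uniformizer `ϖ` of a
  number field (`ϖ ∣ p`, `p ∣ ϖ^e`).
* `StmtNewSplit hp hpM` — every `u` with `N_α u, N_β u ∈ ℚ̄^× F_M^{×p}` which is Gauss-constant at
  `v_∞` or at `v_0` is split.

Proofs: `S33/NormDepthMod.lean` (one step, from `STB.StmtNormQ` + `S33/NormAlg.lean`),
`S33/DepthStart.lean`, `S33/NewSplit.lean` (iteration).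
-/

set_option autoImplicit false

noncomputable section

namespace Fermat.Agent.S33

open ModularCurve AlgebraicCurve Fermat.Agent.ES Fermat.Agent.ES.G2 Fermat.Agent.STB

/-- `u ≡ 1` modulo `ϖ A` at the Gauss valuation of the `q`-expansion, in fraction form. -/
def CongrOneMod (A : ValuationSubring Qb) (N : ℕ) [NeZero N] (ϖ : Qb)
    (u : modularFunctionFieldBar N) : Prop :=
  ∃ y₁ y₂ : LaurentSeries Qb,
    y₁ ∈ modularFunctionFieldBar N ∧ y₂ ∈ modularFunctionFieldBar N ∧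
      KronPrim A y₁ ∧ KronPrim A y₂ ∧ NdaCongr A ϖ y₁ y₂ ∧ (u : LaurentSeries Qb) * y₂ = y₁

/-- depth `≥ v(ϖ)` at `v_∞` of the class of `u` modulo `ℚ̄^× · F_N^{× p}` -/
def DepthInf (A : ValuationSubring Qb) (N : ℕ) [NeZero N] (p : ℕ) (ϖ : Qb)
    (u : modularFunctionFieldBar N) : Prop :=
  ∃ (c : Qb) (h : modularFunctionFieldBar N), c ≠ 0 ∧ h ≠ 0 ∧
    CongrOneMod A N ϖ (u / (algebraMap Qb (modularFunctionFieldBar N) c * h ^ p))

section

variable {p M : ℕ} [NeZero p] [NeZero M] [NeZero (M * p)] (hp : p.Prime) (hpM : ¬ p ∣ M)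

/-- depth `≥ v(ϖ)` at `v_0 = v_∞ ∘ w_p` -/
def DepthZero (A : ValuationSubring Qb) (ϖ : Qb) (u : modularFunctionFieldBar (M * p)) : Prop :=
  DepthInf A (M * p) p ϖ (Fermat.Agent.UNIP.atkinLehnerBar hp hpM u)

/-- `u` is split at `A`: infinitely deep at `v_∞` and at `v_0`. -/
def IsSplitFn (A : ValuationSubring Qb) (u : modularFunctionFieldBar (M * p)) : Prop :=
  ∀ k : ℕ, DepthInf A (M * p) p ((p : Qb) ^ k) u ∧ DepthZero hp hpM A ((p : Qb) ^ k) u

/-- **C3, one step.**  Depth `c` at `v_0` and `N_α u ∈ ℚ̄^× · F_M^{× p}` give depth `d` at `v_∞`,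
for every common divisor `d` of `c p` and `c ^ p`. -/
def StmtNormDepth : Prop :=
  ∀ A : ValuationSubring Qb, A.LiesOverPrime p →
    ∀ c d e₁ e₂ : Qb, c ∈ A → e₁ ∈ A → e₂ ∈ A → c * (p : Qb) = d * e₁ → c ^ p = d * e₂ →
      ∀ u : modularFunctionFieldBar (M * p), u ≠ 0 →
        (∃ (a : Qb) (f : modularFunctionFieldBar M),
          stbNormAlpha M p u = algebraMap Qb (modularFunctionFieldBar M) a * f ^ p) →
        DepthZero hp hpM A c u → DepthInf A (M * p) p d u

/-- **C3, all of it.**  A function whose norms along `α` and `β` are constants times `p`-th powers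
and which is Gauss-constant at `v_∞` or at `v_0` is split. -/
def StmtNewSplit : Prop :=
  ∀ A : ValuationSubring Qb, A.LiesOverPrime p →
    ∀ u : modularFunctionFieldBar (M * p), u ≠ 0 →
      (∃ (a : Qb) (f : modularFunctionFieldBar M),
        stbNormAlpha M p u = algebraMap Qb (modularFunctionFieldBar M) a * f ^ p) →
      (∃ (a : Qb) (f : modularFunctionFieldBar M),
        stbNormBeta M p u = algebraMap Qb (modularFunctionFieldBar M) a * f ^ p) →
      (GaussConst A (M * p) u ∨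
        GaussConst A (M * p) (Fermat.Agent.UNIP.atkinLehnerBar hp hpM u)) →
      IsSplitFn hp hpM A u

end

/-- **C3, start.**  A function reducing to one is congruent to one modulo some `ϖ` with
`ϖ ∣ p` and `p ∣ ϖ ^ e` in `A` (a uniformizer of `A ∩ K₀`, `K₀` a number field over which the
function is defined). -/
def StmtDepthStart (p : ℕ) : Prop :=
  ∀ A : ValuationSubring Qb, A.LiesOverPrime p →
    ∀ (N : ℕ) [NeZero N] (u : modularFunctionFieldBar N), ReducesToOne A N u →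
      ∃ (ϖ a b : Qb) (e : ℕ), ϖ ∈ A ∧ a ∈ A ∧ b ∈ A ∧ ϖ ≠ 0 ∧ (p : Qb) = ϖ * a ∧
        ϖ ^ e = (p : Qb) * b ∧ CongrOneMod A N ϖ u

end Fermat.Agent.S33

end
end ZBSTB_001_4

/-! ### bundled: `Fermat.Agent.STB.KronQ` -/
section ZBSTB_001_5

/-!
# S35 / plan STB, piece STB-K: Kronecker's congruence at `q ∥ Mq` for norms (helper60)

`F = F_M`, `F' = F_{Mq}` (`q ∤ M` prime), `α : F → F'` the inclusion, `w = w_q` the Atkin–Lehner
involution, `A ⊂ ℚ̄` a valuation ring over `q`, `τ` a Frobenius element at `A`.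

* `stmtNormQ : StmtNormQ hq hqM` : `N_α(y) = y · ∏_{b<q} (w y)(ζ^b t^{1/q})` for ALL `y ∈ F'`
  (the `q + 1` embeddings `hnFam` of `ES/G2/HeckeNormCore.lean`, applied to a general element);
* `stmtKronQ : StmtKronQ hq hqM` : **(K)** `α(N_α y) / (y · τ(w y))` is Gauss-constant at `A`
  (`kronNorm_congr` for primitive series + multiplicativity, `s37Kron_gaussConst_of_mul`);
* `stb_k_prim` : the precise form for `w y` primitive: `α(N_α y) / (y · τ(w y)) ≡ 1`;
* `stb_k_kronNorm_mem` : `∏_{b<q} z(ζ^b t^{1/q}) ∈ F'` for `z ∈ F'`.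
-/

set_option autoImplicit false
set_option linter.style.haveILetI false

noncomputable section

namespace Fermat.Agent.STB

open ModularCurve AlgebraicCurve Fermat.Agent.ES Fermat.Agent.ES.G2 Fermat.Agent.UNIP HahnSeries
  FrobAux

section Norm

variable {q M : ℕ} [NeZero q] [NeZero M] [NeZero (M * q)] (hq : q.Prime) (hqM : ¬ q ∣ M)

/-- `w_q ∘ α = β` -/
theorem stb_k_w_alpha (x : modularFunctionFieldBar M) :
    atkinLehnerBar hq hqM (heckeAlphaBar Qb M q x) = heckeBetaBar Qb M q x := by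
  have hx' : (x : LaurentSeries Qb) ∈ modularFunctionFieldBar (M * q) := hdeg_bar_le M q x.2
  have e : heckeAlphaBar Qb M q x = ⟨(x : LaurentSeries Qb), hx'⟩ :=
    Subtype.ext (coe_heckeAlphaBar M q x)
  rw [e]
  apply Subtype.ext
  rw [coe_heckeBetaBar]
  exact atkinLehnerBar_of_mem_low hq hqM x.2 hx'

/-- `w_q ∘ β = α` -/
theorem stb_k_w_beta (x : modularFunctionFieldBar M) :
    atkinLehnerBar hq hqM (heckeBetaBar Qb M q x) = heckeAlphaBar Qb M q x := by
  have hx' : qExpand Qb q (x : LaurentSeries Qb) ∈ modularFunctionFieldBar (M * q) :=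
    (heckeBetaBar Qb M q x).2
  have e : heckeBetaBar Qb M q x = ⟨qExpand Qb q (x : LaurentSeries Qb), hx'⟩ :=
    Subtype.ext (coe_heckeBetaBar M q x)
  rw [e]
  apply Subtype.ext
  rw [coe_heckeAlphaBar]
  exact atkinLehnerBar_qExpand hq hqM x.2 hx'

omit [NeZero (M * q)] in
include hq hqM in
theorem stb_k_finite : StbFinite (heckeAlphaBar Qb M q).toRingHom :=
  hdeg_finiteDimensional M q hq hqM

omit [NeZero (M * q)] in
include hq hqM in
theorem stb_k_deg : stbDeg (heckeAlphaBar Qb M q).toRingHom = q + 1 :=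
  hdeg_finrank M q hq hqM

/-- `w_q` as a ring endomorphism of `F_{Mq}` -/
def stbKW : modularFunctionFieldBar (M * q) →+* modularFunctionFieldBar (M * q) :=
  (atkinLehnerBar hq hqM).toAlgHom.toRingHom

theorem stbKW_apply (y : modularFunctionFieldBar (M * q)) :
    stbKW hq hqM y = atkinLehnerBar hq hqM y := rfl

/-- **(K), norm formula.** -/
theorem stmtNormQ : StmtNormQ hq hqM := by
  intro ζ hζ y
  have hsep : letI := (heckeAlphaBar Qb M q).toRingHom.toAlgebra
      Algebra.IsSeparable (modularFunctionFieldBar M) (modularFunctionFieldBar (M * q)) := by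
    letI := (heckeAlphaBar Qb M q).toRingHom.toAlgebra
    haveI : CharZero (modularFunctionFieldBar M) :=
      charZero_of_injective_algebraMap (algebraMap Qb (modularFunctionFieldBar M)).injective
    haveI : FiniteDimensional (modularFunctionFieldBar M) (modularFunctionFieldBar (M * q)) :=
      hdeg_finiteDimensional M q hq hqM
    infer_instance
  have hcard : Fintype.card (Option (Fin q)) = stbDeg (heckeAlphaBar Qb M q).toRingHom := by
    rw [stb_k_deg hq hqM, Fintype.card_option, Fintype.card_fin]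
  have key := stbNorm_eq_prod (heckeAlphaBar Qb M q).toRingHom (stb_k_finite hq hqM) hsep
    (hnBase M q) (hnFam M q (stbKW hq hqM) ζ)
    (fun i x => hnFam_alpha M q (stbKW hq hqM) (stb_k_w_alpha hq hqM) ζ hζ.pow_eq_one i x)
    (hnFam_injective M q hq (stbKW hq hqM) (stb_k_w_beta hq hqM) ζ hζ) hcard y
  rw [Fintype.prod_option] at key
  have h1 : hnFam M q (stbKW hq hqM) ζ none y
      = algebraMap HnOmega HnOmegaBar (qExpand Qb q (y : LaurentSeries Qb)) := rfl
  have h2 : ∀ b : Fin q, hnFam M q (stbKW hq hqM) ζ (some b) y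
      = algebraMap HnOmega HnOmegaBar (kronRot (ζ ^ (b : ℕ))
          ((atkinLehnerBar hq hqM y : modularFunctionFieldBar (M * q)) : LaurentSeries Qb)) :=
    fun b => rfl
  rw [hnBase_apply, h1] at key
  simp only [h2] at key
  rw [← map_prod, ← map_mul,
    Fin.prod_univ_eq_prod_range (fun b => kronRot (ζ ^ b)
      ((atkinLehnerBar hq hqM y : modularFunctionFieldBar (M * q)) : LaurentSeries Qb)) q,
    ← qExpand_kronNorm_field ζ hζ, ← map_mul] at key
  exact qExpand_injective q (hn_algebraMap_injective key)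

end Norm

section Kron

variable {q M : ℕ} [NeZero q] [NeZero M] [NeZero (M * q)] (hq : q.Prime) (hqM : ¬ q ∣ M)

/-- the operator `z ↦ α(N_α(w z)) / (w z · τ z)`; as a series it is `∏_b z(ζ^b t^{1/q}) / τ z` -/
def stbKOp (τ : Qb ≃ₐ[ℚ] Qb) (z : modularFunctionFieldBar (M * q)) :
    modularFunctionFieldBar (M * q) :=
  heckeAlphaBar Qb M q (stbNorm (heckeAlphaBar Qb M q).toRingHom (atkinLehnerBar hq hqM z)) /
    (atkinLehnerBar hq hqM z * (arithmeticGalois (modularFunctionFieldFull (M * q)) τ • z))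

theorem stbKOp_mul (τ : Qb ≃ₐ[ℚ] Qb) (a b : modularFunctionFieldBar (M * q)) :
    stbKOp hq hqM τ (a * b) = stbKOp hq hqM τ a * stbKOp hq hqM τ b := by
  unfold stbKOp
  rw [map_mul, stbNorm_mul, map_mul, smul_mul', mul_mul_mul_comm, mul_div_mul_comm]

theorem stbKOp_algebraMap (τ : Qb ≃ₐ[ℚ] Qb) (c : Qb) :
    ∃ d : Qb, stbKOp hq hqM τ (algebraMap Qb (modularFunctionFieldBar (M * q)) c) =
      algebraMap Qb (modularFunctionFieldBar (M * q)) d ∧ (c ≠ 0 → d ≠ 0) := by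
  obtain ⟨g, hg⟩ : ∃ g : SemilinearAut Qb (modularFunctionFieldBar (M * q)),
      g = arithmeticGalois (modularFunctionFieldFull (M * q)) τ := ⟨_, rfl⟩
  obtain ⟨b, hb⟩ : ∃ b : Qb ≃+* Qb, b = SemilinearAut.baseAut g := ⟨_, rfl⟩
  have h1 : g • algebraMap Qb (modularFunctionFieldBar (M * q)) c =
      algebraMap Qb (modularFunctionFieldBar (M * q)) (b c) := by
    rw [hb]
    exact SemilinearAut.smul_algebraMap g c
  have h2 : atkinLehnerBar hq hqM (algebraMap Qb (modularFunctionFieldBar (M * q)) c) =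
      algebraMap Qb (modularFunctionFieldBar (M * q)) c := AlgEquiv.commutes _ c
  have h3 : algebraMap Qb (modularFunctionFieldBar (M * q)) c =
      (heckeAlphaBar Qb M q).toRingHom (algebraMap Qb (modularFunctionFieldBar M) c) :=
    (AlgHom.commutes (heckeAlphaBar Qb M q) c).symm
  have h4 : stbNorm (heckeAlphaBar Qb M q).toRingHom
      (algebraMap Qb (modularFunctionFieldBar (M * q)) c) =
        algebraMap Qb (modularFunctionFieldBar M) c ^ (q + 1) := by
    rw [h3, ← stb_k_deg hq hqM]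
    exact stbNorm_apply _ (stb_k_finite hq hqM) _
  refine ⟨c ^ (q + 1) / (c * b c), ?_, ?_⟩
  · unfold stbKOp
    rw [← hg, h2, h1, h4, map_pow, AlgHom.commutes, map_div₀, map_mul, map_pow]
  · intro hc
    exact div_ne_zero (pow_ne_zero _ hc) (mul_ne_zero hc ((map_ne_zero _).mpr hc))

omit [NeZero (M * q)] in
/-- cancelling in `q`-expansions -/
theorem stb_k_div_coe (n : modularFunctionFieldBar M) (W : modularFunctionFieldBar (M * q))
    (hW0 : W ≠ 0) (k : LaurentSeries Qb)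
    (hN : (n : LaurentSeries Qb) = (W : LaurentSeries Qb) * k) :
    ((heckeAlphaBar Qb M q n / W : modularFunctionFieldBar (M * q)) : LaurentSeries Qb) = k := by
  have hWs : (W : LaurentSeries Qb) ≠ 0 := fun h => hW0 (Subtype.ext h)
  obtain ⟨Z, hZ⟩ : ∃ Z : modularFunctionFieldBar (M * q), Z = heckeAlphaBar Qb M q n / W :=
    ⟨_, rfl⟩
  have e : Z * W = heckeAlphaBar Qb M q n := by
    rw [hZ]
    exact div_mul_cancel₀ _ hW0
  rw [← hZ]
  have es' : (Z : LaurentSeries Qb) * (W : LaurentSeries Qb) = (W : LaurentSeries Qb) * k :=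
    calc (Z : LaurentSeries Qb) * (W : LaurentSeries Qb)
        = ((Z * W : modularFunctionFieldBar (M * q)) : LaurentSeries Qb) := rfl
      _ = ((heckeAlphaBar Qb M q n : modularFunctionFieldBar (M * q)) : LaurentSeries Qb) :=
          congrArg Subtype.val e
      _ = (n : LaurentSeries Qb) := coe_heckeAlphaBar M q n
      _ = (W : LaurentSeries Qb) * k := hN
  apply mul_right_cancel₀ hWs
  rw [es', mul_comm]

/-- `∏_{b<q} z(ζ^b t^{1/q})` is the `q`-expansion of `α(N_α(w z)) / w z` -/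
theorem stb_k_kronNorm_eq (ζ : Qbˣ) (hζ : IsPrimitiveRoot ζ q)
    (z : modularFunctionFieldBar (M * q)) (hz : z ≠ 0) :
    ((heckeAlphaBar Qb M q
        (stbNorm (heckeAlphaBar Qb M q).toRingHom (atkinLehnerBar hq hqM z)) /
          atkinLehnerBar hq hqM z : modularFunctionFieldBar (M * q)) : LaurentSeries Qb) =
      kronNorm q ζ (z : LaurentSeries Qb) := by
  have hwz : atkinLehnerBar hq hqM z ≠ 0 :=
    (map_ne_zero_iff _ (atkinLehnerBar hq hqM).injective).mpr hz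
  have hN := stmtNormQ hq hqM ζ hζ (atkinLehnerBar hq hqM z)
  rw [atkinLehnerBar_invol] at hN
  exact stb_k_div_coe _ _ hwz _ hN

omit [NeZero M] [NeZero (M * q)] in
theorem stb_k_kronNorm_zero (ζ : Qbˣ) : kronNorm q ζ (0 : LaurentSeries Qb) = 0 := by
  apply kronNorm_unique
  rw [map_zero, kronRotProd]
  symm
  apply Finset.prod_eq_zero (Finset.mem_range.2 (Nat.pos_of_ne_zero (NeZero.ne q)))
  exact map_zero _

include hq hqM in
/-- `∏_{b<q} z(ζ^b t^{1/q}) ∈ F_{Mq}` for `z ∈ F_{Mq}` -/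
theorem stb_k_kronNorm_mem (ζ : Qbˣ) (hζ : IsPrimitiveRoot ζ q)
    {z : LaurentSeries Qb} (hz : z ∈ modularFunctionFieldBar (M * q)) :
    kronNorm q ζ z ∈ modularFunctionFieldBar (M * q) := by
  by_cases h0 : z = 0
  · subst h0
    rw [stb_k_kronNorm_zero]
    exact zero_mem _
  · have hz0 : (⟨z, hz⟩ : modularFunctionFieldBar (M * q)) ≠ 0 :=
      fun h => h0 (congrArg Subtype.val h)
    rw [← stb_k_kronNorm_eq hq hqM ζ hζ ⟨z, hz⟩ hz0]
    exact Subtype.property _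

variable {A : ValuationSubring Qb}

/-- (K) for a primitive series: `∏_b z(ζ^b t^{1/q}) / τ z ≡ 1` -/
theorem stb_k_prim_op (hA : A.LiesOverPrime q) {τ : Qb ≃ₐ[ℚ] Qb} (hτ : A.IsFrobeniusAt τ q)
    {y : LaurentSeries Qb} (hy : y ∈ modularFunctionFieldBar (M * q)) (hP : KronPrim A y) :
    ReducesToOne A (M * q) (stbKOp hq hqM τ ⟨y, hy⟩) := by
  obtain ⟨ζ, hζ⟩ := frob_exists_primitiveRoot q hq.ne_zero
  have hζ1 : ζ ^ q = 1 := hζ.pow_eq_one
  obtain ⟨Y, hYs⟩ : ∃ Y : modularFunctionFieldBar (M * q), (Y : LaurentSeries Qb) = y :=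
    ⟨⟨y, hy⟩, rfl⟩
  have hYe : (⟨y, hy⟩ : modularFunctionFieldBar (M * q)) = Y := Subtype.ext hYs.symm
  rw [hYe]
  have hY0 : Y ≠ 0 := by
    intro h
    apply frob_ne_zero_of_kronPrim hP
    rw [← hYs, h]
    rfl
  have hwY0 : atkinLehnerBar hq hqM Y ≠ 0 :=
    (map_ne_zero_iff _ (atkinLehnerBar hq hqM).injective).mpr hY0
  obtain ⟨Z, hZ⟩ : ∃ Z : modularFunctionFieldBar (M * q),
      Z = heckeAlphaBar Qb M q
        (stbNorm (heckeAlphaBar Qb M q).toRingHom (atkinLehnerBar hq hqM Y)) /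
          atkinLehnerBar hq hqM Y := ⟨_, rfl⟩
  have hZs : (Z : LaurentSeries Qb) = kronNorm q ζ y := by
    rw [hZ, stb_k_kronNorm_eq hq hqM ζ hζ Y hY0, hYs]
  obtain ⟨T, hT⟩ : ∃ T : modularFunctionFieldBar (M * q),
      T = arithmeticGalois (modularFunctionFieldFull (M * q)) τ • Y := ⟨_, rfl⟩
  have hTs : (T : LaurentSeries Qb) = coeffMap (τ : Qb →+* Qb) y := by
    rw [hT, ← hYs]
    rfl
  have hT0 : T ≠ 0 := by
    rw [hT]
    simpa using hY0
  have hop : stbKOp hq hqM τ Y * T = Z := by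
    rw [hZ]
    unfold stbKOp
    rw [← hT]
    field_simp
  refine ⟨kronNorm q ζ y, coeffMap (τ : Qb →+* Qb) y, ?_, ?_, ?_, ?_, ?_, ?_⟩
  · rw [← hZs]
    exact Z.2
  · exact coeffMap_mem_laurentBaseChange τ hy
  · exact KronPrim.of_congr (hP.coeffMap_of_mem_decomposition τ hτ.mem_decompositionSubgroup)
      (hP.1.kronNorm ζ hζ1) (kronNorm_congr hq hA ζ hζ1 τ hτ hP.1).symm
  · exact hP.coeffMap_of_mem_decomposition τ hτ.mem_decompositionSubgroup
  · exact kronNorm_congr hq hA ζ hζ1 τ hτ hP.1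
  · rw [← hZs, ← hTs]
    exact congrArg Subtype.val hop

/-- **(K) Kronecker at `q` for norms.** -/
theorem stmtKronQ : StmtKronQ hq hqM := by
  intro A hA τ hτ y hy
  have hwy : atkinLehnerBar hq hqM y ≠ 0 :=
    (map_ne_zero_iff _ (atkinLehnerBar hq hqM).injective).mpr hy
  have h := s37Kron_gaussConst_of_mul stmtPrim hq hA (stbKOp hq hqM τ) (stbKOp_mul hq hqM τ)
    (stbKOp_algebraMap hq hqM τ) (fun z hz hP => stb_k_prim_op hq hqM hA hτ hz hP)
    (atkinLehnerBar hq hqM y) hwy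
  unfold stbKOp at h
  rw [atkinLehnerBar_invol] at h
  exact h

/-- (K), precise form: if `w y` has a primitive `q`-expansion then `α(N_α y) / (y · τ(w y))`
reduces to one (no constant). -/
theorem stb_k_prim (hA : A.LiesOverPrime q) {τ : Qb ≃ₐ[ℚ] Qb} (hτ : A.IsFrobeniusAt τ q)
    (y : modularFunctionFieldBar (M * q))
    (hP : KronPrim A ((atkinLehnerBar hq hqM y : modularFunctionFieldBar (M * q)) :
      LaurentSeries Qb)) :
    ReducesToOne A (M * q)
      (heckeAlphaBar Qb M q (stbNorm (heckeAlphaBar Qb M q).toRingHom y) /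
        (y * (arithmeticGalois (modularFunctionFieldFull (M * q)) τ •
          atkinLehnerBar hq hqM y))) := by
  have h := stb_k_prim_op hq hqM hA hτ (atkinLehnerBar hq hqM y).2 hP
  unfold stbKOp at h
  rw [Subtype.coe_eta, atkinLehnerBar_invol] at h
  exact h

end Kron

end Fermat.Agent.STB

end
end ZBSTB_001_5

/-! ### bundled: `Fermat.Agent.STB.NewToric` -/
section ZBSTB_001_6

/-!
# STB (S35, phase 2 of item 34), piece (A): NEW ⇒ TORIC

`N = M q`, `q ∤ M` prime, `F = F_N`, `α : F_M → F_N`, `w = w_q`, `A` over `q`, `φ` a Frobenius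
element at `A` (acting on coefficients), `Φ = φ²`.

If `N_α u = c f ^ m` and `N_α (w u) = c' f' ^ m` with `f, f' ∈ F_M^×`, `c, c' ∈ ℚ̄^×`
(this is what `α_* x = 0 = β_* x` gives for the Kummer function `u` of `x ∈ J₀(N)[m]`), then by
Kronecker at `q` (`StmtKronQAt`, piece (K))

* `stb_a_toric_infty` : `Φ u / u ≡ const · (φ (α f') / α f) ^ m` at `v_∞`;
* `stb_a_toric_zero`  : `Φ u / u ≡ const · (w (φ (α f) / α f')) ^ m` at `v_0 = v_∞ ∘ w`.

"`x ≡ const · y` at `v_∞`" is `GaussConst A N (x / y)`; at `v_0` it is `GaussConst A N (w (x / y))`.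
`stb_a_exists_toric` packages both with the constants absorbed into `t_∞`, `t_0`
(`ReducesToOne`).  Also: `ReducesToOne` and `GaussConst` are stable under the decomposition group
(`stb_a_reducesToOne_smul`, `stb_a_gaussConst_smul`) and under the substitution of equal arguments.
-/

set_option autoImplicit false
set_option linter.style.haveILetI false

noncomputable section

namespace Fermat.Agent.STB

open ModularCurve AlgebraicCurve Fermat.Agent.ES Fermat.Agent.ES.G2 HahnSeries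

/-! ### The decomposition group preserves congruences -/

section Galois

variable {K L : Type*} [Field K] [Field L] [Algebra K L] {A : ValuationSubring L}

/-- an element of the decomposition group maps the maximal ideal into itself -/
theorem stb_a_map_mem_nonunits {σ : L ≃ₐ[K] L} (hσ : σ ∈ A.decompositionSubgroup K) {x : L}
    (hx : x ∈ A.nonunits) : σ x ∈ A.nonunits := by
  have hxA : x ∈ A := ValuationSubring.nonunits_subset hx
  have h1 : (⟨x, hxA⟩ : A) ∈ IsLocalRing.maximalIdeal A :=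
    ValuationSubring.coe_mem_nonunits_iff.1 hx
  have h2 : kronDecompHom σ hσ ⟨x, hxA⟩ ∈ IsLocalRing.maximalIdeal A := by
    rw [IsLocalRing.mem_maximalIdeal, mem_nonunits_iff]
    intro hu
    have hσ' : σ.symm ∈ A.decompositionSubgroup K := kron_symm_mem_decomposition hσ
    have hu' := hu.map (kronDecompHom σ.symm hσ')
    have e : kronDecompHom σ.symm hσ' (kronDecompHom σ hσ ⟨x, hxA⟩) = ⟨x, hxA⟩ := by
      apply Subtype.ext
      rw [kronDecompHom_coe, kronDecompHom_coe]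
      exact σ.symm_apply_apply x
    rw [e] at hu'
    exact (IsLocalRing.mem_maximalIdeal _).1 h1 hu'
  have h3 := ValuationSubring.coe_mem_nonunits_iff.2 h2
  rwa [kronDecompHom_coe] at h3

theorem stb_a_kronCongr_coeffMap {σ : L ≃ₐ[K] L} (hσ : σ ∈ A.decompositionSubgroup K)
    {f g : LaurentSeries L} (h : KronCongr A f g) :
    KronCongr A (coeffMap (σ : L →+* L) f) (coeffMap (σ : L →+* L) g) := by
  intro n
  have h1 := stb_a_map_mem_nonunits hσ (h n)
  rw [map_sub] at h1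
  exact h1

end Galois

section RTO

variable {A : ValuationSubring Qb} {N : ℕ} [NeZero N]

/-- `ReducesToOne` is stable under the decomposition group -/
theorem stb_a_reducesToOne_smul {σ : Qb ≃ₐ[ℚ] Qb} (hσ : σ ∈ A.decompositionSubgroup ℚ)
    {x : modularFunctionFieldBar N} (hx : ReducesToOne A N x) :
    ReducesToOne A N (arithmeticGalois (modularFunctionFieldFull N) σ • x) := by
  obtain ⟨y₁, y₂, hy₁, hy₂, hp₁, hp₂, hc, he⟩ := hx
  refine ⟨coeffMap (σ : Qb →+* Qb) y₁, coeffMap (σ : Qb →+* Qb) y₂,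
    coeffMap_mem_laurentBaseChange σ hy₁, coeffMap_mem_laurentBaseChange σ hy₂,
    hp₁.coeffMap_of_mem_decomposition σ hσ, hp₂.coeffMap_of_mem_decomposition σ hσ,
    stb_a_kronCongr_coeffMap hσ hc, ?_⟩
  show coeffMap (σ : Qb →+* Qb) (x : LaurentSeries Qb) * coeffMap (σ : Qb →+* Qb) y₂ =
    coeffMap (σ : Qb →+* Qb) y₁
  rw [← map_mul, he]

/-- `GaussConst` is stable under the decomposition group -/
theorem stb_a_gaussConst_smul {σ : Qb ≃ₐ[ℚ] Qb} (hσ : σ ∈ A.decompositionSubgroup ℚ)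
    {x : modularFunctionFieldBar N} (hx : GaussConst A N x) :
    GaussConst A N (arithmeticGalois (modularFunctionFieldFull N) σ • x) := by
  obtain ⟨c, u₁, hc, hu₁, rfl⟩ := gaussConst_iff.1 hx
  obtain ⟨g, hg⟩ : ∃ g : SemilinearAut Qb (modularFunctionFieldBar N),
      g = arithmeticGalois (modularFunctionFieldFull N) σ := ⟨_, rfl⟩
  rw [← hg]
  have h1 : g • (algebraMap Qb (modularFunctionFieldBar N) c * u₁) =
      algebraMap Qb (modularFunctionFieldBar N) (SemilinearAut.baseAut g c) * g • u₁ := by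
    rw [smul_mul', SemilinearAut.smul_algebraMap]
  rw [h1]
  refine GaussConst.const_mul ((map_ne_zero _).mpr hc) (GaussConst.of_reducesToOne ?_)
  rw [hg]
  exact stb_a_reducesToOne_smul hσ hu₁

/-- a Gauss-constant function is an `m`-th power of a constant times a function reducing to
one, after division by a suitable constant `d ^ m` -/
theorem stb_a_exists_const_pow {x : modularFunctionFieldBar N} (hx : GaussConst A N x) (m : ℕ)
    (hm : m ≠ 0) :
    ∃ d : Qb, d ≠ 0 ∧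
      ReducesToOne A N (x / algebraMap Qb (modularFunctionFieldBar N) d ^ m) := by
  obtain ⟨c, u₁, hc, hu₁, rfl⟩ := gaussConst_iff.1 hx
  obtain ⟨d, hd⟩ := IsAlgClosed.exists_pow_nat_eq c (Nat.pos_of_ne_zero hm)
  have hd0 : d ≠ 0 := by
    rintro rfl
    rw [zero_pow hm] at hd
    exact hc hd.symm
  refine ⟨d, hd0, ?_⟩
  have hd' : algebraMap Qb (modularFunctionFieldBar N) d ^ m ≠ 0 :=
    pow_ne_zero m ((map_ne_zero _).mpr hd0)
  have e : algebraMap Qb (modularFunctionFieldBar N) c * u₁ /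
      algebraMap Qb (modularFunctionFieldBar N) d ^ m = u₁ := by
    rw [← map_pow, hd, mul_div_cancel_left₀ _ ((map_ne_zero _).mpr hc)]
  rw [e]
  exact hu₁

end RTO

/-! ### (A): new ⇒ toric, abstract form -/

section Abstract

variable {F₁ F : Type*} [Field F₁] [Field F]

/-- generic algebra behind (A) -/
theorem stb_a_div_identity {u pwu ppu af paf' : F} {m : ℕ}
    (hu : u ≠ 0) (hpwu : pwu ≠ 0) (hppu : ppu ≠ 0) (haf : af ≠ 0) (hpaf' : paf' ≠ 0) :
    (af ^ m / (u * pwu)) / (paf' ^ m / (pwu * ppu)) = (ppu / u) / (paf' / af) ^ m := by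
  have h1 : af ^ m ≠ 0 := pow_ne_zero m haf
  have h2 : paf' ^ m ≠ 0 := pow_ne_zero m hpaf'
  rw [div_pow]
  field_simp

/-- **(A) at `v_∞`, abstract form.**  `GC` = "Gauss-constant", `g` = Frobenius, `w` = the
involution, `nrm` = the norm along `α`; `c`, `c'` are constants (`hc`, `hc'`). -/
theorem stb_a_toric_abstract (GC : F → Prop) (hdiv : ∀ a b : F, GC a → GC b → GC (a / b))
    (α : F₁ →+* F) (g w : F →+* F) (hg : ∀ a : F, GC a → GC (g a)) (hww : ∀ x : F, w (w x) = x)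
    (nrm : F → F₁) (hK : ∀ y : F, y ≠ 0 → GC (α (nrm y) / (y * g (w y))))
    {u : F} (hu : u ≠ 0) {f f' c c' : F₁} (hf : f ≠ 0) (hf' : f' ≠ 0)
    (hc : ∀ x : F, GC (α c * x) → GC x) (hc' : ∀ x : F, GC (α c' * x) → GC x) (m : ℕ)
    (h1 : nrm u = c * f ^ m) (h2 : nrm (w u) = c' * f' ^ m) :
    GC ((g (g u) / u) / (g (α f') / α f) ^ m) := by
  have hwu : w u ≠ 0 := (map_ne_zero w).mpr hu
  -- (K) for `u` and for `w u`
  have k1 := hK u hu
  have k2 := hK (w u) hwu
  rw [hww] at k2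
  rw [h1, map_mul, map_pow, mul_div_assoc] at k1
  rw [h2, map_mul, map_pow, mul_div_assoc] at k2
  have k1' := hc _ k1
  have k2' := hc' _ k2
  -- apply `g` to the second congruence
  have k3 := hg _ k2'
  rw [map_div₀, map_mul, map_pow] at k3
  -- divide
  have k4 := hdiv _ _ k1' k3
  rw [stb_a_div_identity hu ((map_ne_zero g).mpr hwu)
    ((map_ne_zero g).mpr ((map_ne_zero g).mpr hu)) ((map_ne_zero α).mpr hf)
    ((map_ne_zero g).mpr ((map_ne_zero α).mpr hf'))] at k4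
  exact k4

/-- **(A) at `v_0 = v_∞ ∘ w`, abstract form.** -/
theorem stb_a_toric_zero_abstract (GC : F → Prop)
    (hdiv : ∀ a b : F, GC a → GC b → GC (a / b))
    (α : F₁ →+* F) (g w : F →+* F) (hg : ∀ a : F, GC a → GC (g a)) (hww : ∀ x : F, w (w x) = x)
    (hwg : ∀ x : F, w (g x) = g (w x))
    (nrm : F → F₁) (hK : ∀ y : F, y ≠ 0 → GC (α (nrm y) / (y * g (w y))))
    {u : F} (hu : u ≠ 0) {f f' c c' : F₁} (hf : f ≠ 0) (hf' : f' ≠ 0)
    (hc : ∀ x : F, GC (α c * x) → GC x) (hc' : ∀ x : F, GC (α c' * x) → GC x) (m : ℕ)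
    (h1 : nrm u = c * f ^ m) (h2 : nrm (w u) = c' * f' ^ m) :
    GC (w (g (g u) / u) / (g (α f) / α f') ^ m) := by
  have hwu : w u ≠ 0 := (map_ne_zero w).mpr hu
  have h1' : nrm (w (w u)) = c * f ^ m := by rw [hww]; exact h1
  have key := stb_a_toric_abstract GC hdiv α g w hg hww nrm hK hwu hf' hf hc' hc m h2 h1'
  rw [map_div₀, hwg, hwg]
  exact key

/-- absorbing the constants into `t_∞`, `t_0` (abstract form); `ι` = the constants -/
theorem stb_a_exists_toric_abstract {K : Type*} [Field K] (ι : K →+* F) (GC R1 : F → Prop)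
    (hpow : ∀ (x : F) (m : ℕ), m ≠ 0 → GC x → ∃ d : K, d ≠ 0 ∧ R1 (x / ι d ^ m))
    (w : F →+* F) (hww : ∀ x : F, w (w x) = x) {y X Y : F} (hX : X ≠ 0) (hY : Y ≠ 0) (m : ℕ)
    (hm : m ≠ 0) (kinf : GC (y / X ^ m)) (k0 : GC (w y / Y ^ m)) :
    ∃ d d' : K, d ≠ 0 ∧ d' ≠ 0 ∧ ∃ t t' : F, t ≠ 0 ∧ t' ≠ 0 ∧ t = ι d * X ∧
      t' = w (ι d' * Y) ∧ R1 (y / t ^ m) ∧ R1 (w (y / t' ^ m)) := by
  obtain ⟨d, hd, hdinf⟩ := hpow _ m hm kinf
  obtain ⟨d', hd', hd0⟩ := hpow _ m hm k0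
  refine ⟨d, d', hd, hd', _, _, mul_ne_zero ((map_ne_zero ι).mpr hd) hX,
    (map_ne_zero w).mpr (mul_ne_zero ((map_ne_zero ι).mpr hd') hY), rfl, rfl, ?_, ?_⟩
  · have e : y / (ι d * X) ^ m = y / X ^ m / ι d ^ m := by
      rw [mul_pow, div_div, mul_comm (ι d ^ m)]
    rw [e]
    exact hdinf
  · have e : w (y / w (ι d' * Y) ^ m) = w y / Y ^ m / ι d' ^ m := by
      rw [map_div₀, map_pow, hww, mul_pow, div_div, mul_comm (ι d' ^ m)]
    rw [e]
    exact hd0

end Abstract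

/-! ### (A): new ⇒ toric, for `F_{Mq}` -/

section Main

variable {q M : ℕ} [NeZero q] [NeZero M] [NeZero (M * q)] (hq : q.Prime) (hqM : ¬ q ∣ M)

/-- the Frobenius element as a ring endomorphism of `F_N` -/
def stbAFrob (N : ℕ) (τ : Qb ≃ₐ[ℚ] Qb) :
    modularFunctionFieldBar N →+* modularFunctionFieldBar N :=
  (SemilinearAut.toRingAut (arithmeticGalois (modularFunctionFieldFull N) τ)).toRingHom

theorem stbAFrob_apply (N : ℕ) (τ : Qb ≃ₐ[ℚ] Qb) (x : modularFunctionFieldBar N) :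
    stbAFrob N τ x = arithmeticGalois (modularFunctionFieldFull N) τ • x := rfl

/-- `w_q` as a ring endomorphism -/
def stbAW : modularFunctionFieldBar (M * q) →+* modularFunctionFieldBar (M * q) :=
  (Fermat.Agent.UNIP.atkinLehnerBar hq hqM).toAlgHom.toRingHom

theorem stbAW_apply (x : modularFunctionFieldBar (M * q)) :
    stbAW hq hqM x = Fermat.Agent.UNIP.atkinLehnerBar hq hqM x := rfl

/-- removing a constant -/
theorem stb_a_gaussConst_of_const_mul {A : ValuationSubring Qb} {N : ℕ} [NeZero N] {c : Qb}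
    (hc : c ≠ 0) (x : modularFunctionFieldBar N)
    (h : GaussConst A N (algebraMap Qb (modularFunctionFieldBar N) c * x)) : GaussConst A N x := by
  have e : x = algebraMap Qb (modularFunctionFieldBar N) c⁻¹ *
      (algebraMap Qb (modularFunctionFieldBar N) c * x) := by
    rw [← mul_assoc, ← map_mul, inv_mul_cancel₀ hc, map_one, one_mul]
  rw [e]
  exact GaussConst.const_mul (inv_ne_zero hc) h

/-- **(A) at `v_∞`**: `Φ u / u ≡ const · (φ (α f') / α f) ^ m`. -/
theorem stb_a_toric_infty (A : ValuationSubring Qb) (τ : Qb ≃ₐ[ℚ] Qb)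
    (hτ : A.IsFrobeniusAt τ q) (hK : StmtKronQAt hq hqM A τ)
    {u : modularFunctionFieldBar (M * q)} (hu : u ≠ 0)
    {f f' : modularFunctionFieldBar M} (hf : f ≠ 0) (hf' : f' ≠ 0) {c c' : Qb} (hc : c ≠ 0)
    (hc' : c' ≠ 0) (m : ℕ)
    (h1 : stbNorm (heckeAlphaBar Qb M q).toRingHom u =
      algebraMap Qb (modularFunctionFieldBar M) c * f ^ m)
    (h2 : stbNorm (heckeAlphaBar Qb M q).toRingHom (Fermat.Agent.UNIP.atkinLehnerBar hq hqM u) =
      algebraMap Qb (modularFunctionFieldBar M) c' * f' ^ m) :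
    GaussConst A (M * q)
      (((arithmeticGalois (modularFunctionFieldFull (M * q)) τ •
          arithmeticGalois (modularFunctionFieldFull (M * q)) τ • u) / u) /
        ((arithmeticGalois (modularFunctionFieldFull (M * q)) τ • heckeAlphaBar Qb M q f') /
          heckeAlphaBar Qb M q f) ^ m) :=
  stb_a_toric_abstract (GaussConst A (M * q)) (fun _ _ ha hb => ha.div hb)
    (heckeAlphaBar Qb M q).toRingHom (stbAFrob (M * q) τ) (stbAW hq hqM)
    (fun _ ha => stb_a_gaussConst_smul hτ.mem_decompositionSubgroup ha)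
    (fun x => Fermat.Agent.UNIP.atkinLehnerBar_invol hq hqM x)
    (stbNorm (heckeAlphaBar Qb M q).toRingHom) (fun y hy => hK y hy) hu hf hf'
    (fun x h => stb_a_gaussConst_of_const_mul hc x
      (((heckeAlphaBar Qb M q).commutes c) ▸ h))
    (fun x h => stb_a_gaussConst_of_const_mul hc' x
      (((heckeAlphaBar Qb M q).commutes c') ▸ h)) m h1 h2

/-- **(A) at `v_0 = v_∞ ∘ w`**: `w (Φ u / u) ≡ const · (φ (α f) / α f') ^ m` at `v_∞`. -/
theorem stb_a_toric_zero (A : ValuationSubring Qb) (τ : Qb ≃ₐ[ℚ] Qb)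
    (hτ : A.IsFrobeniusAt τ q) (hK : StmtKronQAt hq hqM A τ)
    {u : modularFunctionFieldBar (M * q)} (hu : u ≠ 0)
    {f f' : modularFunctionFieldBar M} (hf : f ≠ 0) (hf' : f' ≠ 0) {c c' : Qb} (hc : c ≠ 0)
    (hc' : c' ≠ 0) (m : ℕ)
    (h1 : stbNorm (heckeAlphaBar Qb M q).toRingHom u =
      algebraMap Qb (modularFunctionFieldBar M) c * f ^ m)
    (h2 : stbNorm (heckeAlphaBar Qb M q).toRingHom (Fermat.Agent.UNIP.atkinLehnerBar hq hqM u) =
      algebraMap Qb (modularFunctionFieldBar M) c' * f' ^ m) :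
    GaussConst A (M * q)
      (Fermat.Agent.UNIP.atkinLehnerBar hq hqM
          ((arithmeticGalois (modularFunctionFieldFull (M * q)) τ •
            arithmeticGalois (modularFunctionFieldFull (M * q)) τ • u) / u) /
        ((arithmeticGalois (modularFunctionFieldFull (M * q)) τ • heckeAlphaBar Qb M q f) /
          heckeAlphaBar Qb M q f') ^ m) :=
  stb_a_toric_zero_abstract (GaussConst A (M * q)) (fun _ _ ha hb => ha.div hb)
    (heckeAlphaBar Qb M q).toRingHom (stbAFrob (M * q) τ) (stbAW hq hqM)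
    (fun _ ha => stb_a_gaussConst_smul hτ.mem_decompositionSubgroup ha)
    (fun x => Fermat.Agent.UNIP.atkinLehnerBar_invol hq hqM x)
    (fun x => Fermat.Agent.UNIP.atkinLehnerBar_smul hq hqM τ x)
    (stbNorm (heckeAlphaBar Qb M q).toRingHom) (fun y hy => hK y hy) hu hf hf'
    (fun x h => stb_a_gaussConst_of_const_mul hc x
      (((heckeAlphaBar Qb M q).commutes c) ▸ h))
    (fun x h => stb_a_gaussConst_of_const_mul hc' x
      (((heckeAlphaBar Qb M q).commutes c') ▸ h)) m h1 h2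

/-- **(A)**, packaged: there are global functions `t_∞`, `t_0 ∈ F_N^×` trivialising
`y = Φ u / u` at the two Gauss valuations: `y / t_∞ ^ m ≡ 1` at `v_∞` and `y / t_0 ^ m ≡ 1` at
`v_0 = v_∞ ∘ w`;  `t_∞ = d · φ (α f') / α f`, `t_0 = w (d' · φ (α f) / α f')`. -/
theorem stb_a_exists_toric (A : ValuationSubring Qb) (τ : Qb ≃ₐ[ℚ] Qb)
    (hτ : A.IsFrobeniusAt τ q) (hK : StmtKronQAt hq hqM A τ)
    {u : modularFunctionFieldBar (M * q)} (hu : u ≠ 0)
    {f f' : modularFunctionFieldBar M} (hf : f ≠ 0) (hf' : f' ≠ 0) {c c' : Qb} (hc : c ≠ 0)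
    (hc' : c' ≠ 0) (m : ℕ) (hm : m ≠ 0)
    (h1 : stbNorm (heckeAlphaBar Qb M q).toRingHom u =
      algebraMap Qb (modularFunctionFieldBar M) c * f ^ m)
    (h2 : stbNorm (heckeAlphaBar Qb M q).toRingHom (Fermat.Agent.UNIP.atkinLehnerBar hq hqM u) =
      algebraMap Qb (modularFunctionFieldBar M) c' * f' ^ m) :
    ∃ d d' : Qb, d ≠ 0 ∧ d' ≠ 0 ∧ ∃ t t' : modularFunctionFieldBar (M * q), t ≠ 0 ∧ t' ≠ 0 ∧
      t = algebraMap Qb (modularFunctionFieldBar (M * q)) d *
        ((arithmeticGalois (modularFunctionFieldFull (M * q)) τ •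
          heckeAlphaBar Qb M q f') / heckeAlphaBar Qb M q f) ∧
      t' = Fermat.Agent.UNIP.atkinLehnerBar hq hqM
        (algebraMap Qb (modularFunctionFieldBar (M * q)) d' *
          ((arithmeticGalois (modularFunctionFieldFull (M * q)) τ • heckeAlphaBar Qb M q f) /
            heckeAlphaBar Qb M q f')) ∧
      ReducesToOne A (M * q)
        (((arithmeticGalois (modularFunctionFieldFull (M * q)) τ •
          arithmeticGalois (modularFunctionFieldFull (M * q)) τ • u) / u) / t ^ m) ∧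
      ReducesToOne A (M * q)
        (Fermat.Agent.UNIP.atkinLehnerBar hq hqM
          (((arithmeticGalois (modularFunctionFieldFull (M * q)) τ •
            arithmeticGalois (modularFunctionFieldFull (M * q)) τ • u) / u) / t' ^ m)) := by
  have hα : ∀ x : modularFunctionFieldBar M, x ≠ 0 → heckeAlphaBar Qb M q x ≠ 0 := fun x hx =>
    (map_ne_zero_iff _ (heckeAlphaBar Qb M q).toRingHom.injective).mpr hx
  have hg : ∀ x : modularFunctionFieldBar (M * q), x ≠ 0 →
      stbAFrob (M * q) τ x ≠ 0 := fun x hx => (map_ne_zero (stbAFrob (M * q) τ)).mpr hx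
  exact stb_a_exists_toric_abstract (algebraMap Qb (modularFunctionFieldBar (M * q)))
    (GaussConst A (M * q)) (ReducesToOne A (M * q))
    (fun x m hm hx => stb_a_exists_const_pow hx m hm)
    (stbAW hq hqM) (fun x => Fermat.Agent.UNIP.atkinLehnerBar_invol hq hqM x)
    (div_ne_zero (hg _ (hα _ hf')) (hα _ hf)) (div_ne_zero (hg _ (hα _ hf)) (hα _ hf')) m hm
    (stb_a_toric_infty hq hqM A τ hτ hK hu hf hf' hc hc' m h1 h2)
    (stb_a_toric_zero hq hqM A τ hτ hK hu hf hf' hc hc' m h1 h2)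

end Main

end Fermat.Agent.STB

end
end ZBSTB_001_6

/-! ### bundled: `Fermat.Agent.STB.NewToricKummer` -/
section ZBSTB_001_7

/-!
# STB (S35), piece (A), Kummer form: NEW ⇒ TORIC with the hypotheses of `StmtNewFrobKummerAt`

Bridges between the three ways the norm along `α`, `β : F_M → F_{Mq}` is written
(`stbNormAlpha`, `stbNormBeta` of `STB/Stmt.lean`; `stbNorm` of `STB/NormSquare.lean`), the
relation `w ∘ α = β`, and **(A)** with exactly the two norm hypotheses of `StmtNewFrobKummerAt`: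
`stb_a_exists_toric_kummer`.
-/

set_option autoImplicit false
set_option linter.style.haveILetI false

noncomputable section

namespace Fermat.Agent.STB

open ModularCurve AlgebraicCurve Fermat.Agent.ES Fermat.Agent.ES.G2 HahnSeries

variable {q M : ℕ} [NeZero q] [NeZero M] [NeZero (M * q)] (hq : q.Prime) (hqM : ¬ q ∣ M)

/-- `w ∘ α = β` -/
theorem stb_a_w_alpha (f : modularFunctionFieldBar M) :
    Fermat.Agent.UNIP.atkinLehnerBar hq hqM (heckeAlphaBar Qb M q f) = heckeBetaBar Qb M q f := by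
  have hf' : (f : LaurentSeries Qb) ∈ modularFunctionFieldBar (M * q) := by
    have h := (heckeAlphaBar Qb M q f).2
    rw [coe_heckeAlphaBar] at h
    exact h
  have e : heckeAlphaBar Qb M q f = ⟨(f : LaurentSeries Qb), hf'⟩ :=
    Subtype.ext (coe_heckeAlphaBar M q f)
  rw [e]
  apply Subtype.ext
  rw [coe_heckeBetaBar]
  exact Fermat.Agent.UNIP.atkinLehnerBar_of_mem_low hq hqM f.2 hf'

/-- `w ∘ β = α` -/
theorem stb_a_w_beta (f : modularFunctionFieldBar M) :
    Fermat.Agent.UNIP.atkinLehnerBar hq hqM (heckeBetaBar Qb M q f) = heckeAlphaBar Qb M q f := by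
  rw [← stb_a_w_alpha hq hqM, Fermat.Agent.UNIP.atkinLehnerBar_invol]

/-- `β = w ∘ α` as ring homomorphisms -/
theorem stb_a_beta_eq_comp :
    (heckeBetaBar Qb M q).toRingHom =
      ((Fermat.Agent.UNIP.atkinLehnerBar hq hqM).toRingEquiv :
        modularFunctionFieldBar (M * q) →+* modularFunctionFieldBar (M * q)).comp
        (heckeAlphaBar Qb M q).toRingHom := by
  ext f : 1
  exact (stb_a_w_alpha hq hqM f).symm

omit [NeZero (M * q)] in
/-- the norm along `α`, in the two notations -/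
theorem stb_a_normAlpha_eq (u : modularFunctionFieldBar (M * q)) :
    stbNormAlpha M q u = stbNorm (heckeAlphaBar Qb M q).toRingHom u := rfl

omit [NeZero (M * q)] [NeZero M] in
/-- the norm along `β`, in the two notations -/
theorem stb_a_normBeta_eq' (u : modularFunctionFieldBar (M * q)) :
    stbNormBeta M q u = stbNorm (heckeBetaBar Qb M q).toRingHom u := rfl

/-- `N_β u = N_α (w u)` -/
theorem stb_a_normBeta_eq (u : modularFunctionFieldBar (M * q)) :
    stbNormBeta M q u =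
      stbNorm (heckeAlphaBar Qb M q).toRingHom (Fermat.Agent.UNIP.atkinLehnerBar hq hqM u) := by
  rw [stb_a_normBeta_eq', stbNorm_congr (stb_a_beta_eq_comp hq hqM)]
  have h := stbNorm_equiv_comp (heckeAlphaBar Qb M q).toRingHom
    (Fermat.Agent.UNIP.atkinLehnerBar hq hqM).toRingEquiv
    (Fermat.Agent.UNIP.atkinLehnerBar hq hqM u)
  rw [← h]
  congr 1
  exact (Fermat.Agent.UNIP.atkinLehnerBar_invol hq hqM u).symm

omit [NeZero (M * q)] in
/-- `α` is finite (in the `StbFinite` form) -/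
theorem stb_a_finite_alpha : StbFinite (heckeAlphaBar Qb M q).toRingHom :=
  Fermat.Agent.ES.H.finiteAlong_heckeAlphaBar M q

omit [NeZero (M * q)] in
/-- a nonzero norm `c · f ^ m` has `c ≠ 0`, `f ≠ 0` -/
theorem stb_a_ne_zero_of_norm {u : modularFunctionFieldBar (M * q)} (hu : u ≠ 0) {c : Qb}
    {f : modularFunctionFieldBar M} {m : ℕ} (hm : m ≠ 0)
    (h : stbNorm (heckeAlphaBar Qb M q).toRingHom u =
      algebraMap Qb (modularFunctionFieldBar M) c * f ^ m) : c ≠ 0 ∧ f ≠ 0 := by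
  have h0 := stbNorm_ne_zero _ (stb_a_finite_alpha (q := q) (M := M)) hu
  rw [h] at h0
  refine ⟨?_, ?_⟩
  · rintro rfl
    rw [map_zero, zero_mul] at h0
    exact h0 rfl
  · rintro rfl
    rw [zero_pow hm, mul_zero] at h0
    exact h0 rfl

/-- **(A), Kummer form**: with exactly the two norm hypotheses of `StmtNewFrobKummerAt`, the
function `y = Φ u / u` (`Φ = φ²`) is trivialised by global functions `t`, `t'` at the two Gauss
valuations `v_∞` and `v_0 = v_∞ ∘ w`. -/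
theorem stb_a_exists_toric_kummer (A : ValuationSubring Qb) (τ : Qb ≃ₐ[ℚ] Qb)
    (hτ : A.IsFrobeniusAt τ q) (hK : StmtKronQAt hq hqM A τ)
    {u : modularFunctionFieldBar (M * q)} (hu : u ≠ 0) (m : ℕ) (hm : m ≠ 0)
    (h1 : ∃ (c : Qb) (f : modularFunctionFieldBar M),
      stbNormAlpha M q u = algebraMap Qb (modularFunctionFieldBar M) c * f ^ m)
    (h2 : ∃ (c : Qb) (f : modularFunctionFieldBar M),
      stbNormBeta M q u = algebraMap Qb (modularFunctionFieldBar M) c * f ^ m) :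
    ∃ t t' : modularFunctionFieldBar (M * q), t ≠ 0 ∧ t' ≠ 0 ∧
      ReducesToOne A (M * q)
        (((arithmeticGalois (modularFunctionFieldFull (M * q)) τ •
          arithmeticGalois (modularFunctionFieldFull (M * q)) τ • u) / u) / t ^ m) ∧
      ReducesToOne A (M * q)
        (Fermat.Agent.UNIP.atkinLehnerBar hq hqM
          (((arithmeticGalois (modularFunctionFieldFull (M * q)) τ •
            arithmeticGalois (modularFunctionFieldFull (M * q)) τ • u) / u) / t' ^ m)) := by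
  obtain ⟨c, f, h1⟩ := h1
  obtain ⟨c', f', h2⟩ := h2
  rw [stb_a_normAlpha_eq] at h1
  rw [stb_a_normBeta_eq hq hqM] at h2
  obtain ⟨hc, hf⟩ := stb_a_ne_zero_of_norm hu hm h1
  have hwu : Fermat.Agent.UNIP.atkinLehnerBar hq hqM u ≠ 0 := (map_ne_zero _).mpr hu
  obtain ⟨hc', hf'⟩ := stb_a_ne_zero_of_norm hwu hm h2
  obtain ⟨d, d', -, -, t, t', ht, ht', -, -, k1, k2⟩ :=
    stb_a_exists_toric hq hqM A τ hτ hK hu hf hf' hc hc' m hm h1 h2
  exact ⟨t, t', ht, ht', k1, k2⟩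

end Fermat.Agent.STB

end
end ZBSTB_001_7

/-! ### bundled: `Fermat.Agent.S33.NormDepthMod` -/
section ZBSTB_001_8

/-!
# S33, route v2, block C3 "NORM-DEPTH": the one step (helper90)

`stmtNormDepth : StmtNormDepth hp hpM` — depth `c` at `v_0` and `N_α u ∈ ℚ̄^× F_M^{×p}` give depth
`d` at `v_∞` for every common divisor `d` of `c p` and `c ^ p`; the twin `s33nd_step_beta`
(depth at `v_∞` and `N_β u` give depth at `v_0`); monotonicity of the depth.

Proof: the norm formula `N_α u = u · ∏_b (w u)(ζ^b q^{1/p})` (`STB.stmtNormQ`, helper60) and the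
norm estimate `NdaCongr.kronNorm` (`S33/NormAlg.lean`, helper61):
if `w u · y₂ = c₀ hᵖ y₁`, `y₁ ≡ y₂ mod c`, `N_α u = a fᵖ`, then
`u · 𝒩 y₁ = (a / c₀ᵖ) (f / 𝒩 h)ᵖ · 𝒩 y₂`, `𝒩 = kronNorm p ζ`, and `𝒩 y₁ ≡ 𝒩 y₂ mod d`.
-/

set_option autoImplicit false

noncomputable section

namespace Fermat.Agent.S33

open ModularCurve AlgebraicCurve Fermat.Agent.ES Fermat.Agent.ES.G2 Fermat.Agent.STB
  Fermat.Agent.UNIP

/-- `∏_b c(ζ^b q^{1/p}) = c ^ p` for a constant `c` -/
theorem s33nd_kronNorm_C (p : ℕ) [NeZero p] (ζ : Qbˣ) (a : Qb) :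
    kronNorm p ζ (HahnSeries.C a : LaurentSeries Qb) = HahnSeries.C (a ^ p) := by
  refine kronNorm_unique p ζ _ _ ?_
  have h1 : qExpand Qb p (HahnSeries.C (a ^ p) : LaurentSeries Qb) = HahnSeries.C (a ^ p) := by
    rw [HahnSeries.C_apply, qExpand_single, mul_zero]
  rw [h1, kronRotProd]
  simp only [nda_kronRot_C]
  rw [Finset.prod_const, Finset.card_range, map_pow]

theorem s33nd_kronNorm_pow (p : ℕ) [NeZero p] (ζ : Qbˣ) (hζ : IsPrimitiveRoot ζ p)
    (f : LaurentSeries Qb) (n : ℕ) : kronNorm p ζ (f ^ n) = kronNorm p ζ f ^ n := by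
  induction n with
  | zero => rw [pow_zero, pow_zero, kronNorm_one]
  | succ n ih => rw [pow_succ, pow_succ, kronNorm_mul p ζ hζ, ih]

theorem s33nd_kronNorm_ne_zero (p : ℕ) [NeZero p] (ζ : Qbˣ) (hζ : IsPrimitiveRoot ζ p)
    {f : LaurentSeries Qb} (hf : f ≠ 0) : kronNorm p ζ f ≠ 0 := by
  intro h0
  have h1 : kronNorm p ζ (f * f⁻¹) = 1 := by rw [mul_inv_cancel₀ hf, kronNorm_one]
  rw [kronNorm_mul p ζ hζ, h0, zero_mul] at h1
  exact zero_ne_one h1

theorem s33nd_coe_algebraMap (N : ℕ) (c₀ : Qb) :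
    ((algebraMap Qb (modularFunctionFieldBar N) c₀ : modularFunctionFieldBar N) :
      LaurentSeries Qb) = HahnSeries.C c₀ := by
  rw [IntermediateField.coe_algebraMap_apply, LaurentSeries.algebraMap_apply]

theorem s33nd_coe_frac (N : ℕ) (W h : modularFunctionFieldBar N) (c₀ : Qb) (p : ℕ) :
    ((W / (algebraMap Qb (modularFunctionFieldBar N) c₀ * h ^ p) : modularFunctionFieldBar N) :
      LaurentSeries Qb) =
      (W : LaurentSeries Qb) / (HahnSeries.C c₀ * (h : LaurentSeries Qb) ^ p) := by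
  rw [IntermediateField.coe_div, IntermediateField.coe_mul, IntermediateField.coe_pow,
    s33nd_coe_algebraMap]

/-- monotonicity of the congruence in the modulus -/
theorem CongrOneMod.of_dvd {A : ValuationSubring Qb} {N : ℕ} [NeZero N] {c d e : Qb}
    (he : e ∈ A) (hc : c = d * e) {u : modularFunctionFieldBar N} (h : CongrOneMod A N c u) :
    CongrOneMod A N d u := by
  obtain ⟨y₁, y₂, h1, h2, h3, h4, h5, h6⟩ := h
  exact ⟨y₁, y₂, h1, h2, h3, h4, h5.of_dvd he hc, h6⟩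

/-- monotonicity of the depth in the modulus -/
theorem DepthInf.of_dvd {A : ValuationSubring Qb} {N : ℕ} [NeZero N] {p : ℕ} {c d e : Qb}
    (he : e ∈ A) (hc : c = d * e) {u : modularFunctionFieldBar N} (h : DepthInf A N p c u) :
    DepthInf A N p d u := by
  obtain ⟨c₀, h₀, h1, h2, h3⟩ := h
  exact ⟨c₀, h₀, h1, h2, h3.of_dvd he hc⟩

section

variable {p M : ℕ} [NeZero p] [NeZero M] [NeZero (M * p)] (hp : p.Prime) (hpM : ¬ p ∣ M)

theorem DepthZero.of_dvd {A : ValuationSubring Qb} {c d e : Qb}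
    (he : e ∈ A) (hc : c = d * e) {u : modularFunctionFieldBar (M * p)}
    (h : DepthZero hp hpM A c u) : DepthZero hp hpM A d u :=
  DepthInf.of_dvd he hc h

/-- `DepthZero` of `w u` is `DepthInf` of `u` -/
theorem depthZero_atkinLehner_iff {A : ValuationSubring Qb} {c : Qb}
    {u : modularFunctionFieldBar (M * p)} :
    DepthZero hp hpM A c (atkinLehnerBar hp hpM u) ↔ DepthInf A (M * p) p c u := by
  unfold DepthZero
  rw [atkinLehnerBar_invol]

/-- **C3, one step.** -/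
theorem stmtNormDepth : StmtNormDepth hp hpM := by
  intro A hA c d e₁ e₂ hc he₁ he₂ h₁ h₂ u hu hN hD
  obtain ⟨a, f, hNα⟩ := hN
  obtain ⟨c₀, h, hc₀, hh, y₁, y₂, hy₁, hy₂, hP₁, hP₂, hcongr, hfrac⟩ := hD
  obtain ⟨ζ, hζ⟩ := frob_exists_primitiveRoot p hp.ne_zero
  rw [stb_a_normAlpha_eq] at hNα
  obtain ⟨ha, hf⟩ := stb_a_ne_zero_of_norm (q := p) (M := M) hu hp.ne_zero hNα
  -- notation
  set W := atkinLehnerBar hp hpM u with hW
  have hW0 : W ≠ 0 := (map_ne_zero_iff _ (atkinLehnerBar hp hpM).injective).mpr hu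
  have hus : (u : LaurentSeries Qb) ≠ 0 := fun h0 => hu (Subtype.ext h0)
  have hWs : (W : LaurentSeries Qb) ≠ 0 := fun h0 => hW0 (Subtype.ext h0)
  have hhs : (h : LaurentSeries Qb) ≠ 0 := fun h0 => hh (Subtype.ext h0)
  have hfs : (f : LaurentSeries Qb) ≠ 0 := fun h0 => hf (Subtype.ext h0)
  have hCc : (HahnSeries.C c₀ : LaurentSeries Qb) ≠ 0 :=
    (map_ne_zero_iff _ HahnSeries.C_injective).mpr hc₀
  have hCa : (HahnSeries.C a : LaurentSeries Qb) ≠ 0 :=
    (map_ne_zero_iff _ HahnSeries.C_injective).mpr ha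
  -- the relation for `w u`
  have E1 : (W : LaurentSeries Qb) * y₂ =
      HahnSeries.C c₀ * (h : LaurentSeries Qb) ^ p * y₁ := by
    rw [s33nd_coe_frac] at hfrac
    rw [← hfrac]
    field_simp
  -- apply the norm
  have E2 : kronNorm p ζ (W : LaurentSeries Qb) * kronNorm p ζ y₂ =
      HahnSeries.C c₀ ^ p * kronNorm p ζ (h : LaurentSeries Qb) ^ p * kronNorm p ζ y₁ := by
    have := congrArg (kronNorm p ζ) E1
    rw [kronNorm_mul p ζ hζ, kronNorm_mul p ζ hζ, kronNorm_mul p ζ hζ, s33nd_kronNorm_C,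
      s33nd_kronNorm_pow p ζ hζ, map_pow] at this
    exact this
  -- the norm formula
  have E3 : HahnSeries.C a * (f : LaurentSeries Qb) ^ p =
      (u : LaurentSeries Qb) * kronNorm p ζ (W : LaurentSeries Qb) := by
    have h3 := stmtNormQ hp hpM ζ hζ u
    rw [hNα, IntermediateField.coe_mul, IntermediateField.coe_pow, s33nd_coe_algebraMap] at h3
    exact h3
  have hX : kronNorm p ζ (W : LaurentSeries Qb) ≠ 0 := s33nd_kronNorm_ne_zero p ζ hζ hWs
  have hH : kronNorm p ζ (h : LaurentSeries Qb) ≠ 0 := s33nd_kronNorm_ne_zero p ζ hζ hhs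
  -- the new data
  have hfN : (f : LaurentSeries Qb) ∈ modularFunctionFieldBar (M * p) := hdeg_bar_le M p f.2
  have hHN : kronNorm p ζ (h : LaurentSeries Qb) ∈ modularFunctionFieldBar (M * p) :=
    stb_k_kronNorm_mem hp hpM ζ hζ h.2
  refine ⟨a / c₀ ^ p, ⟨(f : LaurentSeries Qb) / kronNorm p ζ (h : LaurentSeries Qb),
    div_mem hfN hHN⟩, div_ne_zero ha (pow_ne_zero _ hc₀), ?_, ?_⟩
  · intro h0
    exact div_ne_zero hfs hH (congrArg Subtype.val h0)
  refine ⟨kronNorm p ζ y₂, kronNorm p ζ y₁, stb_k_kronNorm_mem hp hpM ζ hζ hy₂,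
    stb_k_kronNorm_mem hp hpM ζ hζ hy₁, nda_kronPrim_kronNorm ζ hζ hP₂,
    nda_kronPrim_kronNorm ζ hζ hP₁,
    (NdaCongr.kronNorm p hp ζ hζ hc he₁ he₂ h₁ h₂ hP₂.1 hcongr).symm, ?_⟩
  rw [s33nd_coe_frac, map_div₀, map_pow, div_pow]
  have hCcp : (HahnSeries.C c₀ : LaurentSeries Qb) ^ p ≠ 0 := pow_ne_zero _ hCc
  have hHp : kronNorm p ζ (h : LaurentSeries Qb) ^ p ≠ 0 := pow_ne_zero _ hH
  have hfp : (f : LaurentSeries Qb) ^ p ≠ 0 := pow_ne_zero _ hfs
  field_simp
  linear_combination (-(u : LaurentSeries Qb)) * E2 - kronNorm p ζ y₂ * E3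

/-- **C3, one step, twin**: depth `c` at `v_∞` and `N_β u ∈ ℚ̄^× F_M^{×p}` give depth `d` at `v_0`,
for every common divisor `d` of `c p` and `c ^ p`. -/
theorem s33nd_step_beta (A : ValuationSubring Qb) (hA : A.LiesOverPrime p) {c d e₁ e₂ : Qb}
    (hc : c ∈ A) (he₁ : e₁ ∈ A) (he₂ : e₂ ∈ A) (h₁ : c * (p : Qb) = d * e₁) (h₂ : c ^ p = d * e₂)
    {u : modularFunctionFieldBar (M * p)} (hu : u ≠ 0)
    (hN : ∃ (a : Qb) (f : modularFunctionFieldBar M),
      stbNormBeta M p u = algebraMap Qb (modularFunctionFieldBar M) a * f ^ p)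
    (hD : DepthInf A (M * p) p c u) : DepthZero hp hpM A d u := by
  have hwu : atkinLehnerBar hp hpM u ≠ 0 :=
    (map_ne_zero_iff _ (atkinLehnerBar hp hpM).injective).mpr hu
  have hN' : ∃ (a : Qb) (f : modularFunctionFieldBar M),
      stbNormAlpha M p (atkinLehnerBar hp hpM u) =
        algebraMap Qb (modularFunctionFieldBar M) a * f ^ p := by
    rw [stb_a_normAlpha_eq, ← stb_a_normBeta_eq hp hpM u]
    exact hN
  exact stmtNormDepth hp hpM A hA c d e₁ e₂ hc he₁ he₂ h₁ h₂ _ hwu hN'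
    ((depthZero_atkinLehner_iff hp hpM).2 hD)

end

end Fermat.Agent.S33

end
end ZBSTB_001_8

/-! ### bundled: `Fermat.Agent.S33.NewSplit` -/
section ZBSTB_001_9

/-!
# S33, route v2, block C3 "NORM-DEPTH": the iteration (helper90)

`stmtNewSplit_of_start : StmtDepthStart p → StmtNewSplit hp hpM`.

`ϖ ∣ p`:  depth `ϖ ^ j` at one of `v_∞`, `v_0` (`j ≥ 1`) gives depth `ϖ ^ (j + 1)` at both
(`stmtNormDepth`, `s33nd_step_beta` with `c = ϖ ^ j`, `d = ϖ ^ (j + 1)`); `p ∣ ϖ ^ e` gives depth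
`p ^ k` for all `k`.
-/

set_option autoImplicit false

noncomputable section

namespace Fermat.Agent.S33

open ModularCurve AlgebraicCurve Fermat.Agent.ES Fermat.Agent.ES.G2 Fermat.Agent.STB
  Fermat.Agent.UNIP

section

variable {p M : ℕ} [NeZero p] [NeZero M] [NeZero (M * p)] (hp : p.Prime) (hpM : ¬ p ∣ M)

omit [NeZero p] in
/-- the two divisibilities of one step with `c = ϖ ^ j`, `d = ϖ ^ (j + 1)` -/
theorem s33ns_dvd {A : ValuationSubring Qb} {ϖ a : Qb} (hϖ : ϖ ∈ A)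
    (hpa : (p : Qb) = ϖ * a) (hp2 : 2 ≤ p) (j : ℕ) (hj : 1 ≤ j) :
    ϖ ^ j * (p : Qb) = ϖ ^ (j + 1) * a ∧
      ∃ e₂ : Qb, e₂ ∈ A ∧ (ϖ ^ j) ^ p = ϖ ^ (j + 1) * e₂ := by
  refine ⟨by rw [hpa]; ring, ϖ ^ (j * p - (j + 1)), A.pow_mem hϖ _, ?_⟩
  rw [← pow_mul, ← pow_add]
  congr 1
  have : j + 1 ≤ j * p := by nlinarith
  omega

/-- one round of the iteration -/
theorem s33ns_round (A : ValuationSubring Qb) (hA : A.LiesOverPrime p) {ϖ a : Qb} (hϖ : ϖ ∈ A)
    (ha : a ∈ A) (hpa : (p : Qb) = ϖ * a)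
    {u : modularFunctionFieldBar (M * p)} (hu : u ≠ 0)
    (hNα : ∃ (a : Qb) (f : modularFunctionFieldBar M),
      stbNormAlpha M p u = algebraMap Qb (modularFunctionFieldBar M) a * f ^ p)
    (hNβ : ∃ (a : Qb) (f : modularFunctionFieldBar M),
      stbNormBeta M p u = algebraMap Qb (modularFunctionFieldBar M) a * f ^ p)
    (j : ℕ) (hj : 1 ≤ j)
    (h : DepthInf A (M * p) p (ϖ ^ j) u ∨ DepthZero hp hpM A (ϖ ^ j) u) :
    DepthInf A (M * p) p (ϖ ^ (j + 1)) u ∧ DepthZero hp hpM A (ϖ ^ (j + 1)) u := by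
  obtain ⟨h₁, e₂, he₂, h₂⟩ := s33ns_dvd (A := A) hϖ hpa hp.two_le j hj
  have hc : ϖ ^ j ∈ A := A.pow_mem hϖ j
  have hdown : ϖ ^ (j + 1) = ϖ ^ j * ϖ := pow_succ ϖ j
  rcases h with h | h
  · have hZ : DepthZero hp hpM A (ϖ ^ (j + 1)) u :=
      s33nd_step_beta hp hpM A hA hc ha he₂ h₁ h₂ hu hNβ h
    exact ⟨stmtNormDepth hp hpM A hA _ _ _ _ hc ha he₂ h₁ h₂ u hu hNα
      (DepthZero.of_dvd hp hpM hϖ hdown hZ), hZ⟩
  · have hI : DepthInf A (M * p) p (ϖ ^ (j + 1)) u :=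
      stmtNormDepth hp hpM A hA _ _ _ _ hc ha he₂ h₁ h₂ u hu hNα h
    exact ⟨hI, s33nd_step_beta hp hpM A hA hc ha he₂ h₁ h₂ hu hNβ
      (DepthInf.of_dvd hϖ hdown hI)⟩

/-- the iteration: depth `ϖ` at one of the two valuations gives depth `ϖ ^ j` at both, all `j` -/
theorem s33ns_iter (A : ValuationSubring Qb) (hA : A.LiesOverPrime p) {ϖ a : Qb} (hϖ : ϖ ∈ A)
    (ha : a ∈ A) (hpa : (p : Qb) = ϖ * a)
    {u : modularFunctionFieldBar (M * p)} (hu : u ≠ 0)
    (hNα : ∃ (a : Qb) (f : modularFunctionFieldBar M),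
      stbNormAlpha M p u = algebraMap Qb (modularFunctionFieldBar M) a * f ^ p)
    (hNβ : ∃ (a : Qb) (f : modularFunctionFieldBar M),
      stbNormBeta M p u = algebraMap Qb (modularFunctionFieldBar M) a * f ^ p)
    (h : DepthInf A (M * p) p ϖ u ∨ DepthZero hp hpM A ϖ u) (j : ℕ) :
    DepthInf A (M * p) p (ϖ ^ (j + 2)) u ∧ DepthZero hp hpM A (ϖ ^ (j + 2)) u := by
  induction j with
  | zero =>
      refine s33ns_round hp hpM A hA hϖ ha hpa hu hNα hNβ 1 le_rfl ?_
      rwa [pow_one]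
  | succ j ih =>
      exact s33ns_round hp hpM A hA hϖ ha hpa hu hNα hNβ (j + 2) (by omega) (Or.inl ih.1)

/-- depth `ϖ` at one of the two valuations, `ϖ ∣ p`, `p ∣ ϖ ^ e`: split -/
theorem s33ns_split (A : ValuationSubring Qb) (hA : A.LiesOverPrime p) {ϖ a b : Qb} {e : ℕ}
    (hϖ : ϖ ∈ A) (ha : a ∈ A) (hb : b ∈ A) (hpa : (p : Qb) = ϖ * a)
    (hpe : ϖ ^ e = (p : Qb) * b)
    {u : modularFunctionFieldBar (M * p)} (hu : u ≠ 0)
    (hNα : ∃ (a : Qb) (f : modularFunctionFieldBar M),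
      stbNormAlpha M p u = algebraMap Qb (modularFunctionFieldBar M) a * f ^ p)
    (hNβ : ∃ (a : Qb) (f : modularFunctionFieldBar M),
      stbNormBeta M p u = algebraMap Qb (modularFunctionFieldBar M) a * f ^ p)
    (h : DepthInf A (M * p) p ϖ u ∨ DepthZero hp hpM A ϖ u) : IsSplitFn hp hpM A u := by
  intro k
  obtain ⟨h1, h2⟩ := s33ns_iter hp hpM A hA hϖ ha hpa hu hNα hNβ h (e * k)
  have hdvd : ϖ ^ (e * k + 2) = (p : Qb) ^ k * (b ^ k * ϖ ^ 2) := by
    rw [pow_add, pow_mul, hpe, mul_pow]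
    ring
  have hmem : b ^ k * ϖ ^ 2 ∈ A := A.mul_mem _ _ (A.pow_mem hb k) (A.pow_mem hϖ 2)
  exact ⟨DepthInf.of_dvd hmem hdvd h1, DepthZero.of_dvd hp hpM hmem hdvd h2⟩

/-- a uniform congruence for a constant multiple gives depth -/
theorem s33ns_depth_of_congr {A : ValuationSubring Qb} {N : ℕ} [NeZero N] (p : ℕ) {ϖ c₀ : Qb}
    (hc₀ : c₀ ≠ 0) {u : modularFunctionFieldBar N}
    (h : CongrOneMod A N ϖ (algebraMap Qb (modularFunctionFieldBar N) c₀ * u)) :
    DepthInf A N p ϖ u := by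
  refine ⟨c₀⁻¹, 1, inv_ne_zero hc₀, one_ne_zero, ?_⟩
  have e : u / (algebraMap Qb (modularFunctionFieldBar N) c₀⁻¹ * 1 ^ p) =
      algebraMap Qb (modularFunctionFieldBar N) c₀ * u := by
    rw [one_pow, mul_one, map_inv₀, div_inv_eq_mul, mul_comm]
  rw [e]
  exact h

/-- **C3**, modulo the start. -/
theorem stmtNewSplit_of_start (hS : StmtDepthStart p) : StmtNewSplit hp hpM := by
  intro A hA u hu hNα hNβ hG
  rcases hG with ⟨c₀, hc₀, hR⟩ | ⟨c₀, hc₀, hR⟩
  · obtain ⟨ϖ, a, b, e, hϖ, ha, hb, -, hpa, hpe, hC⟩ := hS A hA (M * p) _ hR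
    exact s33ns_split hp hpM A hA hϖ ha hb hpa hpe hu hNα hNβ
      (Or.inl (s33ns_depth_of_congr p hc₀ hC))
  · obtain ⟨ϖ, a, b, e, hϖ, ha, hb, -, hpa, hpe, hC⟩ := hS A hA (M * p) _ hR
    exact s33ns_split hp hpM A hA hϖ ha hb hpa hpe hu hNα hNβ
      (Or.inr (s33ns_depth_of_congr p hc₀ hC))

end

end Fermat.Agent.S33

end
end ZBSTB_001_9

/-! ### bundled: `Fermat.Agent.S33.WildDeep` -/
section ZBSTB_001_10

/-!
# S33 v2, C4 / T5: the DEEP bridge  `ℚ̄`-level `CongrOneMod`  ⇒  `E′`-level valuation form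

`A` a valuation subring of `ℚ̄`, `E′` an intermediate field of `ℚ̄ / ℚ`, `hB : VtBase ι r π` a
discrete base with fraction field `E′` compatible with `A`
(`(c1)` `ι a ∈ A`, `(c2)` `ι a ∈ 𝔪_A → r a = 0`, `(c3)` `ι π ∈ 𝔪_A`), `d ∈ A₀`, `d ≠ 0`, and
`ϖ ∈ ℚ̄` with `d ∣ ϖ` in `A`.

* `wdb_inf`  : `CongrOneMod A N ϖ (nfEmb E′ N x₀) → v_∞ (x₀ - 1) ≤ v_∞ (d)`  (`vtInf hB N`);
* `wdb_fam`  : the same at `vtFam hB ιC hq hqM c` (`c = false`: with `w_q`);
* `wdb_mgv`, `wdb_mgv_true`, `wdb_mgv_false` : for the base `A ∩ K₀` and `mgvV hπ ιC hq hqM c`;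
* `wdb_hsplit` : the hypothesis `hsplit` of `wab_main_two` (S33/WildAbsMain.lean);
* `wdb_pack` : `hsplit` from `DepthInf` and `DepthZero` (S33/PlanGeo.lean) over a large enough
  field.
-/

set_option autoImplicit false
set_option linter.unusedSectionVars false
set_option linter.unusedVariables false
set_option linter.style.haveILetI false

noncomputable section

namespace Fermat.Agent.S33

open ModularCurve Fermat.Agent.INJ Fermat.Agent.ES Fermat.Agent.ES.G2 Fermat.Agent.UNIP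
  Fermat.Agent.STB

section Transfer

variable {A₀ k : Type*} [CommRing A₀] [Field k] {E' : IntermediateField ℚ Qb}
  {ι : A₀ →+* ↥E'} {r : A₀ →+* k} {π : A₀} (hB : VtBase ι r π) (A : ValuationSubring Qb)

/-- **deep bridge at `∞`**, level `N` -/
theorem wdb_inf (h1 : ∀ a, algebraMap ↥E' Qb (ι a) ∈ A)
    (h2 : ∀ a, algebraMap ↥E' Qb (ι a) ∈ A.nonunits → r a = 0)
    (h3 : algebraMap ↥E' Qb (ι π) ∈ A.nonunits)
    (N : ℕ) [NeZero N] {d : A₀} (hd : d ≠ 0) {ϖ : Qb}
    (hϖ : ∃ a ∈ A, ϖ = algebraMap ↥E' Qb (ι d) * a)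
    {x₀ : modularFunctionFieldFullC ↥E' N}
    (hx : CongrOneMod A N ϖ (nfEmb E' N x₀)) :
    (vtInf hB N).valuation (x₀ - 1) ≤ (vtInf hB N).valuation (mgaConst ↥E' N (ι d)) := by
  obtain ⟨y₁, y₂, -, -, hy₁, hy₂, hc, hxy⟩ := hx
  obtain ⟨a, ha, hϖ⟩ := hϖ
  have hc' : NdaCongr A (algebraMap ↥E' Qb (ι d)) y₁ y₂ := hc.of_dvd ha hϖ
  have key := wdb_core (ψ := algebraMap ↥E' Qb) hB h1 h2 h3 hd (vt_frac_fullC hB N x₀.2)
    hy₁ hy₂ hc' hxy
  exact wdb_vtSub hB (vtEmb ↥E' N) _ (algebraMap_laurentSeries_eq_single ↥E' (ι d)) key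

variable (ιC : ↥E' →+* ℂ) {q M : ℕ} [NeZero q] [NeZero M] [NeZero (M * q)]
  (hq : q.Prime) (hqM : ¬ q ∣ M)

/-- **deep bridge at `∞`**, in the family -/
theorem wdb_true (h1 : ∀ a, algebraMap ↥E' Qb (ι a) ∈ A)
    (h2 : ∀ a, algebraMap ↥E' Qb (ι a) ∈ A.nonunits → r a = 0)
    (h3 : algebraMap ↥E' Qb (ι π) ∈ A.nonunits)
    {d : A₀} (hd : d ≠ 0) {ϖ : Qb} (hϖ : ∃ a ∈ A, ϖ = algebraMap ↥E' Qb (ι d) * a)
    {x₀ : modularFunctionFieldFullC ↥E' (M * q)}
    (hx : CongrOneMod A (M * q) ϖ (nfEmb E' (M * q) x₀)) :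
    (vtFam hB ιC hq hqM true).valuation (x₀ - 1) ≤
      (vtFam hB ιC hq hqM true).valuation (mgaConst ↥E' (M * q) (ι d)) :=
  wdb_inf hB A h1 h2 h3 (M * q) hd hϖ hx

/-- **deep bridge at `0`** -/
theorem wdb_false (h1 : ∀ a, algebraMap ↥E' Qb (ι a) ∈ A)
    (h2 : ∀ a, algebraMap ↥E' Qb (ι a) ∈ A.nonunits → r a = 0)
    (h3 : algebraMap ↥E' Qb (ι π) ∈ A.nonunits)
    {d : A₀} (hd : d ≠ 0) {ϖ : Qb} (hϖ : ∃ a ∈ A, ϖ = algebraMap ↥E' Qb (ι d) * a)
    {x₀ : modularFunctionFieldFullC ↥E' (M * q)}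
    (hx : CongrOneMod A (M * q) ϖ (atkinLehnerBar hq hqM (nfEmb E' (M * q) x₀))) :
    (vtFam hB ιC hq hqM false).valuation (x₀ - 1) ≤
      (vtFam hB ιC hq hqM false).valuation (mgaConst ↥E' (M * q) (ι d)) := by
  obtain ⟨y₁, y₂, -, -, hy₁, hy₂, hc, hxy⟩ := hx
  obtain ⟨a, ha, hϖ⟩ := hϖ
  have hc' : NdaCongr A (algebraMap ↥E' Qb (ι d)) y₁ y₂ := hc.of_dvd ha hϖ
  rw [stb_mgt_atkinLehnerBar_nfEmb ιC hq hqM x₀] at hxy
  have hfr : VtFrac ι ((Fermat.Agent.AL.atkinLehner ↥E' ιC hq hqM x₀ :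
      modularFunctionFieldFullC ↥E' (M * q)) : LaurentSeries ↥E') :=
    vt_frac_fullC hB (M * q) (Fermat.Agent.AL.atkinLehner ↥E' ιC hq hqM x₀).2
  have key := wdb_core (ψ := algebraMap ↥E' Qb) hB h1 h2 h3 hd hfr hy₁ hy₂ hc' hxy
  exact wdb_vtSub hB (vtEmbFam ιC hq hqM false) _ (vtEmbFam_const ιC hq hqM false (ι d)) key

/-- **deep bridge**, both cusps -/
theorem wdb_fam (h1 : ∀ a, algebraMap ↥E' Qb (ι a) ∈ A)
    (h2 : ∀ a, algebraMap ↥E' Qb (ι a) ∈ A.nonunits → r a = 0)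
    (h3 : algebraMap ↥E' Qb (ι π) ∈ A.nonunits)
    {d : A₀} (hd : d ≠ 0) {ϖ : Qb} (hϖ : ∃ a ∈ A, ϖ = algebraMap ↥E' Qb (ι d) * a)
    {x₀ : modularFunctionFieldFullC ↥E' (M * q)} (c : Bool)
    (hx : CongrOneMod A (M * q) ϖ
      (bif c then nfEmb E' (M * q) x₀ else atkinLehnerBar hq hqM (nfEmb E' (M * q) x₀))) :
    (vtFam hB ιC hq hqM c).valuation (x₀ - 1) ≤
      (vtFam hB ιC hq hqM c).valuation (mgaConst ↥E' (M * q) (ι d)) := by
  cases c
  · exact wdb_false hB A ιC hq hqM h1 h2 h3 hd hϖ hx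
  · exact wdb_true hB A ιC hq hqM h1 h2 h3 hd hϖ hx

end Transfer

/-! ### The base `A ∩ K₀` and the vertical valuations `mgvV` -/

section Mgv

variable {A : ValuationSubring Qb} {K₀ : IntermediateField ℚ Qb}
  [IsDiscreteValuationRing ↥(beta0Ring A K₀)] {π : ↥(beta0Ring A K₀)} (hπ : Irreducible π)
  (ιC : ↥K₀ →+* ℂ) {q M : ℕ} [NeZero q] [NeZero M] [NeZero (M * q)]
  (hq : q.Prime) (hqM : ¬ q ∣ M)

/-- `(c3)` for the base `A ∩ K₀` -/
theorem wdb_c3 {π : ↥(beta0Ring A K₀)} (hπ : Irreducible π) :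
    algebraMap ↥K₀ Qb (algebraMap ↥(beta0Ring A K₀) ↥K₀ π) ∈ A.nonunits :=
  (beta0Ring_mem_maximalIdeal_iff π).1
    ((IsLocalRing.mem_maximalIdeal π).2 (mem_nonunits_iff.2 hπ.not_isUnit))

/-- **deep bridge** for `mgvV`, both cusps -/
theorem wdb_mgv {d : ↥(beta0Ring A K₀)} (hd : d ≠ 0) {ϖ : Qb}
    (hϖ : ∃ a ∈ A, ϖ = (((d : ↥K₀) : Qb)) * a)
    {x₀ : ↥(modularFunctionFieldFullC ↥K₀ (M * q))} (c : Bool)
    (hx : CongrOneMod A (M * q) ϖ
      (bif c then nfEmb K₀ (M * q) x₀ else atkinLehnerBar hq hqM (nfEmb K₀ (M * q) x₀))) :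
    (mgvV hπ ιC hq hqM c).valuation (x₀ - 1) ≤
      (mgvV hπ ιC hq hqM c).valuation
        (algebraMap ↥(beta0Ring A K₀) ↥(modularFunctionFieldFullC ↥K₀ (M * q)) d) :=
  wdb_fam (vtBase_residue hπ) A ιC hq hqM (stb_mgt_c1 A K₀) (stb_mgt_c2 A K₀) (wdb_c3 hπ) hd hϖ
    c hx

/-- **deep bridge at `∞`** for `mgvV` -/
theorem wdb_mgv_true {d : ↥(beta0Ring A K₀)} (hd : d ≠ 0) {ϖ : Qb}
    (hϖ : ∃ a ∈ A, ϖ = (((d : ↥K₀) : Qb)) * a)
    {x₀ : ↥(modularFunctionFieldFullC ↥K₀ (M * q))}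
    (hx : CongrOneMod A (M * q) ϖ (nfEmb K₀ (M * q) x₀)) :
    (mgvV hπ ιC hq hqM true).valuation (x₀ - 1) ≤
      (mgvV hπ ιC hq hqM true).valuation
        (algebraMap ↥(beta0Ring A K₀) ↥(modularFunctionFieldFullC ↥K₀ (M * q)) d) :=
  wdb_mgv hπ ιC hq hqM hd hϖ true hx

/-- **deep bridge at `0`** for `mgvV` -/
theorem wdb_mgv_false {d : ↥(beta0Ring A K₀)} (hd : d ≠ 0) {ϖ : Qb}
    (hϖ : ∃ a ∈ A, ϖ = (((d : ↥K₀) : Qb)) * a)
    {x₀ : ↥(modularFunctionFieldFullC ↥K₀ (M * q))}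
    (hx : CongrOneMod A (M * q) ϖ (atkinLehnerBar hq hqM (nfEmb K₀ (M * q) x₀))) :
    (mgvV hπ ιC hq hqM false).valuation (x₀ - 1) ≤
      (mgvV hπ ιC hq hqM false).valuation
        (algebraMap ↥(beta0Ring A K₀) ↥(modularFunctionFieldFullC ↥K₀ (M * q)) d) :=
  wdb_mgv hπ ιC hq hqM hd hϖ false hx

/-- **The hypothesis `hsplit` of `wab_main_two`** (`V = mgvV hπ ιC hq hqM`) from the congruences
over `ℚ̄`, for descents `u₀, tt true, tt false ∈ F_{Mq}(K₀)`. -/
theorem wdb_hsplit {p : ℕ} {ζ : ↥(beta0Ring A K₀)} (hζ : ζ ≠ 1) {ϖ : Qb}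
    (hϖ : ∃ a ∈ A, ϖ = ((((ζ - 1) ^ p * π : ↥(beta0Ring A K₀)) : ↥K₀) : Qb) * a)
    {u₀ : ↥(modularFunctionFieldFullC ↥K₀ (M * q))}
    (tt : Bool → ↥(modularFunctionFieldFullC ↥K₀ (M * q))) (htt : ∀ c, tt c ≠ 0)
    (k1 : CongrOneMod A (M * q) ϖ
      (nfEmb K₀ (M * q) u₀ / nfEmb K₀ (M * q) (tt true) ^ p))
    (k2 : CongrOneMod A (M * q) ϖ
      (atkinLehnerBar hq hqM (nfEmb K₀ (M * q) u₀ / nfEmb K₀ (M * q) (tt false) ^ p))) :
    ∀ c, ∃ h : ↥(modularFunctionFieldFullC ↥K₀ (M * q)), h ≠ 0 ∧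
      (mgvV hπ ιC hq hqM c).valuation (u₀ / h ^ p - 1) ≤
        (mgvV hπ ιC hq hqM c).valuation
          ((algebraMap ↥(beta0Ring A K₀) ↥(modularFunctionFieldFullC ↥K₀ (M * q)) ζ - 1) ^ p *
            algebraMap ↥(beta0Ring A K₀) ↥(modularFunctionFieldFullC ↥K₀ (M * q)) π) := by
  have hd : (ζ - 1) ^ p * π ≠ 0 :=
    mul_ne_zero (pow_ne_zero p (sub_ne_zero.2 hζ)) hπ.ne_zero
  have hconst : (algebraMap ↥(beta0Ring A K₀) ↥(modularFunctionFieldFullC ↥K₀ (M * q)) ζ - 1) ^ p *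
      algebraMap ↥(beta0Ring A K₀) ↥(modularFunctionFieldFullC ↥K₀ (M * q)) π =
      algebraMap ↥(beta0Ring A K₀) ↥(modularFunctionFieldFullC ↥K₀ (M * q))
        ((ζ - 1) ^ p * π) := by
    rw [map_mul, map_pow, map_sub, map_one]
  intro c
  refine ⟨tt c, htt c, ?_⟩
  rw [hconst]
  cases c
  · refine wdb_mgv_false hπ ιC hq hqM hd hϖ ?_
    rw [map_div₀, map_pow]
    exact k2
  · refine wdb_mgv_true hπ ιC hq hqM hd hϖ ?_
    rw [map_div₀, map_pow]
    exact k1

end Mgv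

/-! ### Pack: `hsplit` from `DepthInf` and `DepthZero` -/

section Pack

variable {p M : ℕ} [NeZero p] [NeZero M] [NeZero (M * p)] (hp : p.Prime) (hpM : ¬ p ∣ M)

/-- the constant of `DepthInf` is absorbed in the `p`-th power -/
theorem wdb_depthInf_iff_exists (A : ValuationSubring Qb) (N : ℕ) [NeZero N] {ϖ : Qb}
    {u : modularFunctionFieldBar N} (hp0 : 0 < p) (h : DepthInf A N p ϖ u) :
    ∃ H : modularFunctionFieldBar N, H ≠ 0 ∧ CongrOneMod A N ϖ (u / H ^ p) := by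
  obtain ⟨c, h, hc, hh, k⟩ := h
  obtain ⟨c₁, hc₁⟩ := IsAlgClosed.exists_pow_nat_eq c hp0
  have hc₁0 : c₁ ≠ 0 := by
    rintro rfl
    rw [zero_pow hp0.ne'] at hc₁
    exact hc hc₁.symm
  refine ⟨algebraMap Qb (modularFunctionFieldBar N) c₁ * h,
    mul_ne_zero ((map_ne_zero _).2 hc₁0) hh, ?_⟩
  rw [mul_pow, ← map_pow, hc₁]
  exact k

/-- **Deep bridge, pack**: if `u ∈ F_{Mp}(ℚ̄)` has depth `ϖ` at `v_∞` and at `v_0`, there is a
number field `K₀` such that over every `E′ ⊇ K₀` with `A ∩ E′` discrete there are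
`tt c ∈ F_{Mp}(E′)^×` with `v_c (u₀ / tt c ^ p - 1) ≤ v_c (d)` for every descent `u₀` of `u` and
every `d ∈ A ∩ E′`, `d ≠ 0`, dividing `ϖ` in `A`. -/
theorem wdb_pack (A : ValuationSubring Qb) {ϖ : Qb} {u : modularFunctionFieldBar (M * p)}
    (hinf : DepthInf A (M * p) p ϖ u) (hzero : DepthZero hp hpM A ϖ u) :
    ∃ K₀ : IntermediateField ℚ Qb, FiniteDimensional ℚ K₀ ∧
      ∀ E' : IntermediateField ℚ Qb, K₀ ≤ E' →
        ∃ tt : Bool → modularFunctionFieldFullC ↥E' (M * p), (∀ c, tt c ≠ 0) ∧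
          ∀ [IsDiscreteValuationRing ↥(beta0Ring A E')] {π' : ↥(beta0Ring A E')}
            (hπ : Irreducible π') (ιC : ↥E' →+* ℂ) {d : ↥(beta0Ring A E')}, d ≠ 0 →
            (∃ a ∈ A, ϖ = (((d : ↥E') : Qb)) * a) →
            ∀ u₀ : modularFunctionFieldFullC ↥E' (M * p), nfEmb E' (M * p) u₀ = u →
            ∀ c : Bool, (mgvV hπ ιC hp hpM c).valuation (u₀ / tt c ^ p - 1) ≤
              (mgvV hπ ιC hp hpM c).valuation
                (algebraMap ↥(beta0Ring A E') ↥(modularFunctionFieldFullC ↥E' (M * p)) d) := by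
  obtain ⟨H, hH, k1⟩ := wdb_depthInf_iff_exists A (M * p) hp.pos hinf
  obtain ⟨H', hH', k2⟩ := wdb_depthInf_iff_exists A (M * p) hp.pos hzero
  -- `H'' := w H'`, so that `w (u / H'' ^ p) = w u / H' ^ p`
  obtain ⟨K₀, hK₀, hdesc⟩ := stb_mgt_exists_descent (M * p) H (atkinLehnerBar hp hpM H')
  refine ⟨K₀, hK₀, fun E' hE => ?_⟩
  obtain ⟨t₀, t₀', e, e'⟩ := hdesc E' hE
  refine ⟨fun c => bif c then t₀ else t₀', ?_, ?_⟩
  · intro c
    cases c
    · show t₀' ≠ 0
      rintro rfl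
      rw [map_zero] at e'
      exact (map_ne_zero (atkinLehnerBar hp hpM)).2 hH' e'.symm
    · show t₀ ≠ 0
      rintro rfl
      rw [map_zero] at e
      exact hH e.symm
  · intro _ π' hπ ιC d hd hϖ u₀ hu c
    cases c
    · refine wdb_mgv_false hπ ιC hp hpM hd hϖ ?_
      show CongrOneMod A (M * p) ϖ
        (atkinLehnerBar hp hpM (nfEmb E' (M * p) (u₀ / t₀' ^ p)))
      rw [map_div₀, map_pow, hu, e', map_div₀, map_pow, atkinLehnerBar_invol]
      exact k2
    · refine wdb_mgv_true hπ ιC hp hpM hd hϖ ?_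
      show CongrOneMod A (M * p) ϖ (nfEmb E' (M * p) (u₀ / t₀ ^ p))
      rw [map_div₀, map_pow, hu, e]
      exact k1

/-- **Deep bridge, pack, in the shape of `hsplit` of `wab_main_two`.** -/
theorem wdb_pack_hsplit (A : ValuationSubring Qb) {ϖ : Qb}
    {u : modularFunctionFieldBar (M * p)}
    (hinf : DepthInf A (M * p) p ϖ u) (hzero : DepthZero hp hpM A ϖ u) :
    ∃ K₀ : IntermediateField ℚ Qb, FiniteDimensional ℚ K₀ ∧
      ∀ E' : IntermediateField ℚ Qb, K₀ ≤ E' →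
          ∀ [IsDiscreteValuationRing ↥(beta0Ring A E')] {π' : ↥(beta0Ring A E')}
            (hπ : Irreducible π') (ιC : ↥E' →+* ℂ) {ζ : ↥(beta0Ring A E')}, ζ ≠ 1 →
            (∃ a ∈ A, ϖ = ((((ζ - 1) ^ p * π' : ↥(beta0Ring A E')) : ↥E') : Qb) * a) →
            ∀ u₀ : modularFunctionFieldFullC ↥E' (M * p), nfEmb E' (M * p) u₀ = u →
            ∀ c : Bool, ∃ h : ↥(modularFunctionFieldFullC ↥E' (M * p)), h ≠ 0 ∧
              (mgvV hπ ιC hp hpM c).valuation (u₀ / h ^ p - 1) ≤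
                (mgvV hπ ιC hp hpM c).valuation
                  ((algebraMap ↥(beta0Ring A E') ↥(modularFunctionFieldFullC ↥E' (M * p)) ζ
                      - 1) ^ p *
                    algebraMap ↥(beta0Ring A E') ↥(modularFunctionFieldFullC ↥E' (M * p)) π') := by
  obtain ⟨K₀, hK₀, h⟩ := wdb_pack hp hpM A hinf hzero
  refine ⟨K₀, hK₀, fun E' hE => ?_⟩
  obtain ⟨tt, htt, h'⟩ := h E' hE
  intro _ π' hπ ιC ζ hζ hϖ u₀ hu c
  have hd : (ζ - 1) ^ p * π' ≠ 0 :=
    mul_ne_zero (pow_ne_zero p (sub_ne_zero.2 hζ)) hπ.ne_zero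
  have hconst :
      (algebraMap ↥(beta0Ring A E') ↥(modularFunctionFieldFullC ↥E' (M * p)) ζ - 1) ^ p *
        algebraMap ↥(beta0Ring A E') ↥(modularFunctionFieldFullC ↥E' (M * p)) π' =
      algebraMap ↥(beta0Ring A E') ↥(modularFunctionFieldFullC ↥E' (M * p))
        ((ζ - 1) ^ p * π') := by
    rw [map_mul, map_pow, map_sub, map_one]
  refine ⟨tt c, htt c, ?_⟩
  rw [hconst]
  exact h' hπ ιC hd hϖ u₀ hu c

/-- `(ζ - 1) ^ p · π ∣ p ^ 2` in `A`, for `ζ, π ∈ A ∩ E′` -/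
theorem wdb_hϖ_p_sq (A : ValuationSubring Qb) (E' : IntermediateField ℚ Qb) (hp3 : 3 ≤ p)
    {ζ π' : ↥(beta0Ring A E')} (hζ : IsPrimitiveRoot ζ p) (hlam : π' ∣ ζ - 1) :
    ∃ a ∈ A, ((p : Qb)) ^ 2 = ((((ζ - 1) ^ p * π' : ↥(beta0Ring A E')) : ↥E') : Qb) * a := by
  obtain ⟨a, ha⟩ := wdb_dvd_p_sq hp3 hζ hlam
  refine ⟨((a : ↥E') : Qb), a.2, ?_⟩
  have h1 := congrArg (fun z : ↥(beta0Ring A E') => (((z : ↥E') : Qb))) ha
  simpa using h1

/-- **`hsplit` of `wab_main_two` from `IsSplitFn`** (the output of C3): over every `E′` containing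
a suitable number field, with `A ∩ E′` discrete, `ζ ∈ A ∩ E′` a primitive `p`-th root of unity
and `π′ ∣ ζ - 1`. -/
theorem wdb_hsplit_of_isSplitFn (hp3 : 3 ≤ p) (A : ValuationSubring Qb)
    {u : modularFunctionFieldBar (M * p)} (hs : IsSplitFn hp hpM A u) :
    ∃ K₀ : IntermediateField ℚ Qb, FiniteDimensional ℚ K₀ ∧
      ∀ E' : IntermediateField ℚ Qb, K₀ ≤ E' →
          ∀ [IsDiscreteValuationRing ↥(beta0Ring A E')] {π' : ↥(beta0Ring A E')}
            (hπ : Irreducible π') (ιC : ↥E' →+* ℂ) {ζ : ↥(beta0Ring A E')},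
            IsPrimitiveRoot ζ p → π' ∣ ζ - 1 →
            ∀ u₀ : modularFunctionFieldFullC ↥E' (M * p), nfEmb E' (M * p) u₀ = u →
            ∀ c : Bool, ∃ h : ↥(modularFunctionFieldFullC ↥E' (M * p)), h ≠ 0 ∧
              (mgvV hπ ιC hp hpM c).valuation (u₀ / h ^ p - 1) ≤
                (mgvV hπ ιC hp hpM c).valuation
                  ((algebraMap ↥(beta0Ring A E') ↥(modularFunctionFieldFullC ↥E' (M * p)) ζ
                      - 1) ^ p *
                    algebraMap ↥(beta0Ring A E') ↥(modularFunctionFieldFullC ↥E' (M * p)) π') := by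
  obtain ⟨hinf, hzero⟩ := hs 2
  obtain ⟨K₀, hK₀, h⟩ := wdb_pack_hsplit hp hpM A hinf hzero
  refine ⟨K₀, hK₀, fun E' hE => ?_⟩
  intro _ π' hπ ιC ζ hζ hlam u₀ hu c
  have hζ1 : ζ ≠ 1 := hζ.ne_one (by omega)
  exact h E' hE hπ ιC hζ1 (wdb_hϖ_p_sq A E' hp3 hζ hlam) u₀ hu c

end Pack

end Fermat.Agent.S33

end
end ZBSTB_001_10

/-! ### bundled: `Fermat.Agent.STB.ToricPack` -/
section ZBSTB_001_11

/-!
# STB-MG-t, pack: the hypothesis `htoric` of `stb_main_points` from NEW ⇒ TORIC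

`stb_mgt_pack` : with the hypotheses of `stb_a_exists_toric_kummer` (piece (A), over `ℚ̄`), there
is a number field `K₀` such that for every intermediate field `E′ ⊇ K₀` there are
`tt : Bool → F_{Mq}(E′)` (descents of the toric factors `t`, `t′`) such that for EVERY discrete
base `hB : VtBase ι r π` of `E′` compatible with `A`, and every descent `y₀ ∈ F_{Mq}(E′)` of
`y = τ² u / u`:  `∀ c, y₀ / tt c ^ m - 1 ∈ 𝔪(vtFam hB ιC hq hqM c)`  (= `htoric`).

`stb_mgt_pack_beta0` : the same for the base `A ∩ E′` (`beta0Ring A E′`).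
-/

set_option autoImplicit false
set_option linter.unusedSectionVars false
set_option linter.style.haveILetI false

noncomputable section

namespace Fermat.Agent.STB

open ModularCurve AlgebraicCurve Fermat.Agent.INJ Fermat.Agent.ES Fermat.Agent.ES.G2
  Fermat.Agent.UNIP

universe u v

variable {q M : ℕ} [NeZero q] [NeZero M] [NeZero (M * q)] (hq : q.Prime) (hqM : ¬ q ∣ M)

/-- **STB-MG-t, pack.** -/
theorem stb_mgt_pack (A : ValuationSubring Qb) (τ : Qb ≃ₐ[ℚ] Qb)
    (hτ : A.IsFrobeniusAt τ q) (hK : StmtKronQAt hq hqM A τ)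
    {u : modularFunctionFieldBar (M * q)} (hu : u ≠ 0) (m : ℕ) (hm : m ≠ 0)
    (h1 : ∃ (c : Qb) (f : modularFunctionFieldBar M),
      stbNormAlpha M q u = algebraMap Qb (modularFunctionFieldBar M) c * f ^ m)
    (h2 : ∃ (c : Qb) (f : modularFunctionFieldBar M),
      stbNormBeta M q u = algebraMap Qb (modularFunctionFieldBar M) c * f ^ m) :
    ∃ K₀ : IntermediateField ℚ Qb, FiniteDimensional ℚ K₀ ∧
      ∀ E' : IntermediateField ℚ Qb, K₀ ≤ E' →
        ∃ tt : Bool → modularFunctionFieldFullC ↥E' (M * q), (∀ c, tt c ≠ 0) ∧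
          ∀ {A₀ : Type u} {k : Type v} [CommRing A₀] [Field k] {ι : A₀ →+* ↥E'}
            {r : A₀ →+* k} {π : A₀} (hB : VtBase ι r π),
            (∀ a, algebraMap ↥E' Qb (ι a) ∈ A) →
            (∀ a, algebraMap ↥E' Qb (ι a) ∈ A.nonunits → r a = 0) →
            ∀ (ιC : ↥E' →+* ℂ) (y₀ : modularFunctionFieldFullC ↥E' (M * q)),
              nfEmb E' (M * q) y₀ =
                (arithmeticGalois (modularFunctionFieldFull (M * q)) τ •
                  arithmeticGalois (modularFunctionFieldFull (M * q)) τ • u) / u →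
              ∀ c : Bool, y₀ / tt c ^ m - 1 ∈ (vtFam hB ιC hq hqM c).nonunits := by
  obtain ⟨t, t', ht, ht', k1, k2⟩ := stb_a_exists_toric_kummer hq hqM A τ hτ hK hu m hm h1 h2
  obtain ⟨K₀, hK₀, hdesc⟩ := stb_mgt_exists_descent (M * q) t t'
  refine ⟨K₀, hK₀, fun E' hE => ?_⟩
  obtain ⟨t₀, t₀', e, e'⟩ := hdesc E' hE
  refine ⟨fun c => bif c then t₀ else t₀', ?_, ?_⟩
  · intro c
    cases c
    · show t₀' ≠ 0
      rintro rfl
      rw [map_zero] at e'
      exact ht' e'.symm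
    · show t₀ ≠ 0
      rintro rfl
      rw [map_zero] at e
      exact ht e.symm
  · intro A₀ k _ _ ι r π hB c1 c2 ιC y₀ hy
    exact stb_mgt_htoric_of_eq hB A ιC hq hqM c1 c2 hy e e' m k1 k2

/-- **STB-MG-t, pack**, for the base `A ∩ E′`. -/
theorem stb_mgt_pack_beta0 (A : ValuationSubring Qb) (τ : Qb ≃ₐ[ℚ] Qb)
    (hτ : A.IsFrobeniusAt τ q) (hK : StmtKronQAt hq hqM A τ)
    {u : modularFunctionFieldBar (M * q)} (hu : u ≠ 0) (m : ℕ) (hm : m ≠ 0)
    (h1 : ∃ (c : Qb) (f : modularFunctionFieldBar M),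
      stbNormAlpha M q u = algebraMap Qb (modularFunctionFieldBar M) c * f ^ m)
    (h2 : ∃ (c : Qb) (f : modularFunctionFieldBar M),
      stbNormBeta M q u = algebraMap Qb (modularFunctionFieldBar M) c * f ^ m) :
    ∃ K₀ : IntermediateField ℚ Qb, FiniteDimensional ℚ K₀ ∧
      ∀ E' : IntermediateField ℚ Qb, K₀ ≤ E' →
        ∃ tt : Bool → modularFunctionFieldFullC ↥E' (M * q), (∀ c, tt c ≠ 0) ∧
          ∀ {π' : ↥(beta0Ring A E')}
            (hB : VtBase (algebraMap ↥(beta0Ring A E') ↥E')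
              (IsLocalRing.residue ↥(beta0Ring A E')) π')
            (ιC : ↥E' →+* ℂ) (y₀ : modularFunctionFieldFullC ↥E' (M * q)),
              nfEmb E' (M * q) y₀ =
                (arithmeticGalois (modularFunctionFieldFull (M * q)) τ •
                  arithmeticGalois (modularFunctionFieldFull (M * q)) τ • u) / u →
              ∀ c : Bool, y₀ / tt c ^ m - 1 ∈ (vtFam hB ιC hq hqM c).nonunits := by
  obtain ⟨K₀, hK₀, h⟩ := stb_mgt_pack hq hqM A τ hτ hK hu m hm h1 h2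
  refine ⟨K₀, hK₀, fun E' hE => ?_⟩
  obtain ⟨tt, htt, h'⟩ := h E' hE
  exact ⟨tt, htt, fun hB ιC y₀ hy => h' hB (stb_mgt_c1 A E') (stb_mgt_c2 A E') ιC y₀ hy⟩

end Fermat.Agent.STB

end
end ZBSTB_001_11

/-! ### bundled: `Fermat.Agent.STB.ToricMgv` -/
section ZBSTB_001_12

/-!
# STB-MG-t in the concrete setting: `htor₁`, `htor₂` of `StbdInputs`, and `htoric`

The toric transfer for the two vertical valuations `mgvV hπ ιC hq hqM c` of `F_{Mq}(K₀)`
(`K₀ ⊆ ℚ̄` with `A ∩ K₀` a discrete valuation ring), and for `K₀ = mgcE A K₁`: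

* `stb_mgt_htor₁`, `stb_mgt_htor₂` (and `…_mgc`: VERBATIM the fields `htor₁`, `htor₂` of
  `StbdInputs`);
* `stb_mgt_htoric_mgv` : `htoric` of `stb_main_points` for `V = mgvV hπ ιC hq hqM`;
* `stb_mgt_pack_mgv` : `htoric` from the hypotheses of piece (A) (`stb_a_exists_toric_kummer`).
-/

set_option autoImplicit false
set_option linter.unusedSectionVars false
set_option linter.style.haveILetI false

noncomputable section

namespace Fermat.Agent.STB

open ModularCurve AlgebraicCurve Fermat.Agent.INJ Fermat.Agent.ES Fermat.Agent.ES.G2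
  Fermat.Agent.UNIP

section Mgv

variable {A : ValuationSubring Qb} {K₀ : IntermediateField ℚ Qb}
  [IsDiscreteValuationRing ↥(beta0Ring A K₀)] {π : ↥(beta0Ring A K₀)} (hπ : Irreducible π)
  (ιC : ↥K₀ →+* ℂ) {q M : ℕ} [NeZero q] [NeZero M] [NeZero (M * q)]
  (hq : q.Prime) (hqM : ¬ q ∣ M)

/-- **toric transfer at `∞`** -/
theorem stb_mgt_htor₁ (x₀ : ↥(modularFunctionFieldFullC ↥K₀ (M * q)))
    (hx : ReducesToOne A (M * q) (nfEmb K₀ (M * q) x₀)) :
    x₀ - 1 ∈ (mgvV hπ ιC hq hqM true).nonunits :=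
  stb_mgt_inf_beta0 (vtBase_residue hπ) (M * q) hx

/-- **toric transfer at `0`** -/
theorem stb_mgt_htor₂ (x₀ : ↥(modularFunctionFieldFullC ↥K₀ (M * q)))
    (hx : ReducesToOne A (M * q) (atkinLehnerBar hq hqM (nfEmb K₀ (M * q) x₀))) :
    x₀ - 1 ∈ (mgvV hπ ιC hq hqM false).nonunits :=
  stb_mgt_zero_beta0 (vtBase_residue hπ) ιC hq hqM hx

/-- **`htoric`** of `stb_main_points` for `V = mgvV hπ ιC hq hqM`. -/
theorem stb_mgt_htoric_mgv {y₀ : ↥(modularFunctionFieldFullC ↥K₀ (M * q))}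
    (tt : Bool → ↥(modularFunctionFieldFullC ↥K₀ (M * q))) (m : ℕ)
    (k1 : ReducesToOne A (M * q)
      (nfEmb K₀ (M * q) y₀ / nfEmb K₀ (M * q) (tt true) ^ m))
    (k2 : ReducesToOne A (M * q)
      (atkinLehnerBar hq hqM (nfEmb K₀ (M * q) y₀ / nfEmb K₀ (M * q) (tt false) ^ m))) :
    ∀ c : Bool, y₀ / tt c ^ m - 1 ∈ (mgvV hπ ιC hq hqM c).nonunits :=
  stb_mgt_htoric_beta0 (vtBase_residue hπ) ιC hq hqM tt m k1 k2

end Mgv

section Mgc

variable {A : ValuationSubring Qb} {K₁ : IntermediateField ℚ Qb} {M₁ q : ℕ} [NeZero M₁] [NeZero q]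
  [NeZero (M₁ * q)]
  [IsDiscreteValuationRing ↥(mgcA A K₁)] {π : ↥(mgcA A K₁)} (hπ : Irreducible π)
  (ιC : ↥(mgcE A K₁) →+* ℂ) (hq : q.Prime) (hqM : ¬ q ∣ M₁)

/-- the field `htor₁` of `StbdInputs` -/
theorem stb_mgt_htor₁_mgc : ∀ x₀ : ↥(mgcF A K₁ (M₁ * q)),
    ReducesToOne A (M₁ * q) (nfEmb (mgcE A K₁) (M₁ * q) x₀) →
    x₀ - 1 ∈ (mgvV hπ ιC hq hqM true).nonunits :=
  stb_mgt_htor₁ hπ ιC hq hqM

/-- the field `htor₂` of `StbdInputs` -/
theorem stb_mgt_htor₂_mgc : ∀ x₀ : ↥(mgcF A K₁ (M₁ * q)),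
    ReducesToOne A (M₁ * q)
      (Fermat.Agent.UNIP.atkinLehnerBar hq hqM (nfEmb (mgcE A K₁) (M₁ * q) x₀)) →
    x₀ - 1 ∈ (mgvV hπ ιC hq hqM false).nonunits :=
  stb_mgt_htor₂ hπ ιC hq hqM

end Mgc

section Pack

variable {q M : ℕ} [NeZero q] [NeZero M] [NeZero (M * q)] (hq : q.Prime) (hqM : ¬ q ∣ M)

/-- **STB-MG-t, pack**, for the vertical valuations `mgvV`: with the hypotheses of piece (A)
there is a number field `K₀` such that over every `E′ ⊇ K₀` with `A ∩ E′` discrete there are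
toric factors `tt c ∈ F_{Mq}(E′)^×` with `y₀ / tt c ^ m ≡ 1` at `mgvV … c` for every descent `y₀`
of `y = τ² u / u`. -/
theorem stb_mgt_pack_mgv (A : ValuationSubring Qb) (τ : Qb ≃ₐ[ℚ] Qb)
    (hτ : A.IsFrobeniusAt τ q) (hK : StmtKronQAt hq hqM A τ)
    {u : modularFunctionFieldBar (M * q)} (hu : u ≠ 0) (m : ℕ) (hm : m ≠ 0)
    (h1 : ∃ (c : Qb) (f : modularFunctionFieldBar M),
      stbNormAlpha M q u = algebraMap Qb (modularFunctionFieldBar M) c * f ^ m)
    (h2 : ∃ (c : Qb) (f : modularFunctionFieldBar M),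
      stbNormBeta M q u = algebraMap Qb (modularFunctionFieldBar M) c * f ^ m) :
    ∃ K₀ : IntermediateField ℚ Qb, FiniteDimensional ℚ K₀ ∧
      ∀ E' : IntermediateField ℚ Qb, K₀ ≤ E' →
        ∃ tt : Bool → modularFunctionFieldFullC ↥E' (M * q), (∀ c, tt c ≠ 0) ∧
          ∀ [IsDiscreteValuationRing ↥(beta0Ring A E')] {π' : ↥(beta0Ring A E')}
            (hπ : Irreducible π') (ιC : ↥E' →+* ℂ)
            (y₀ : modularFunctionFieldFullC ↥E' (M * q)),
              nfEmb E' (M * q) y₀ =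
                (arithmeticGalois (modularFunctionFieldFull (M * q)) τ •
                  arithmeticGalois (modularFunctionFieldFull (M * q)) τ • u) / u →
              ∀ c : Bool, y₀ / tt c ^ m - 1 ∈ (mgvV hπ ιC hq hqM c).nonunits := by
  obtain ⟨K₀, hK₀, h⟩ := stb_mgt_pack_beta0 hq hqM A τ hτ hK hu m hm h1 h2
  refine ⟨K₀, hK₀, fun E' hE => ?_⟩
  obtain ⟨tt, htt, h'⟩ := h E' hE
  exact ⟨tt, htt, fun hπ ιC y₀ hy => h' (vtBase_residue hπ) ιC y₀ hy⟩

end Pack

end Fermat.Agent.STB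

end
end ZBSTB_001_12

/-! ### bundled: `Fermat.Agent.STB.PushHeckeDiv` -/
section ZBSTB_001_13

/-!
# S36, piece H3′: the degeneracy push-forwards commute with `T_ℓ`, case `q ∣ N` (helper92)

`q` a prime with `q ∣ N`, `α = heckeAlphaBar ℚ̄ N q`, `β = heckeBetaBar ℚ̄ N q : F_N → F_{Nq}`,
now of degree `q`.

* `stbd_deg_alpha`, `stbd_deg_beta` : `[F_{Nq} : F_N] = q` along `α` and along `β`
  (Igusa's degree theorem, `ψ(Nq) = q ψ(N)`, and the Fricke involution);
* `stbd_fricke_alpha` : `w_{Nq} ∘ α = β ∘ w_N` for the Fricke involutions (`ES/M/FrickeAut.lean`);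
* `stbdRotB`, `stbdRotA` : the `q` embeddings of `F_{Nq}` over `β (F_N)` resp. `α (F_N)`:
  `x ↦ x(ζ^b Q)` resp. `x ↦ (w_{Nq} x)(ζ^b Q)`;
* `stbd_norm_bc_alpha`, `stbd_norm_bc_beta` : base change of the norms in the square
  `F_N ⊂ F_{Nq}`, `F_{Nℓ} ⊂ F_{Nℓq}`;
* `stbd_p3_alpha`, `stbd_p3_beta` : for a prime `ℓ ∤ N q` and every torsion point `x` of
  `J₀(Nq)`: `α_* (T_ℓ x) = T_ℓ (α_* x)`, `β_* (T_ℓ x) = T_ℓ (β_* x)`.
-/

set_option autoImplicit false
set_option linter.style.haveILetI false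
set_option linter.unusedSectionVars false

noncomputable section

namespace Fermat.Agent.STB

open AlgebraicCurve ModularCurve IntermediateField Fermat.Agent.ES Fermat.Agent.ES.G2
  Fermat.Agent.S24 Fermat.Agent.ES.M

/-! ## Degrees -/

section Degree

/-- Igusa + tower law: `[L(j(q^d) : d ∣ Nq) : L(j(q^d) : d ∣ N)] = q` for a prime `q ∣ N`. -/
theorem stbd_relfinrank_fullC (L : Type*) [Field L] [CharZero L] (N q : ℕ) [NeZero N] [NeZero q]
    (hq : q.Prime) (hqN : q ∣ N) :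
    (modularFunctionFieldFullC L N).relfinrank (modularFunctionFieldFullC L (N * q)) = q := by
  have hN : ((N : ℕ) : L) ≠ 0 := Nat.cast_ne_zero.mpr (NeZero.ne N)
  have hNq : ((N * q : ℕ) : L) ≠ 0 := Nat.cast_ne_zero.mpr (NeZero.ne (N * q))
  have h1 := Fermat.Agent.S28.relfinrank_full_eq_dedekindPsi L N hN
  have h2 := Fermat.Agent.S28.relfinrank_full_eq_dedekindPsi L (N * q) hNq
  have hle1 : adjoin L {jqModC L} ≤ modularFunctionFieldFullC L N :=
    Fermat.Agent.S28.UB.K0_le_full L N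
  have hle2 : modularFunctionFieldFullC L N ≤ modularFunctionFieldFullC L (N * q) :=
    Fermat.Agent.S28.UB.full_mono L (Dvd.intro _ rfl)
  have h3 := relfinrank_mul_relfinrank hle1 hle2
  have hψ : dedekindPsi (N * q) = q * dedekindPsi N := by
    rw [Nat.mul_comm]
    exact Fermat.Agent.S28.UB.psi_mul_of_dvd hq hqN (NeZero.ne N)
  rw [h1, h2, hψ] at h3
  have hpos : dedekindPsi N ≠ 0 := by
    intro h0
    rw [h0] at h1
    have hfin := Fermat.Agent.S28.relrank_full_lt_aleph0_of_ne_zero L N hN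
    have hne := Fermat.Agent.S28.UB.relrank_ne_zero (adjoin L {jqModC L})
      (modularFunctionFieldFullC L N)
    rw [relfinrank_eq_toNat_relrank, Cardinal.toNat_eq_zero] at h1
    rcases h1 with h1 | h1
    · exact hne h1
    · exact absurd hfin (not_lt.mpr h1)
  have h4 : dedekindPsi N * (modularFunctionFieldFullC L N).relfinrank
      (modularFunctionFieldFullC L (N * q)) = dedekindPsi N * q := by
    rw [h3, Nat.mul_comm]
  exact Nat.eq_of_mul_eq_mul_left (Nat.pos_of_ne_zero hpos) h4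

/-- `relfinrank F_N F_{Nq} = q` for a prime `q ∣ N`. -/
theorem stbd_relfinrank (N q : ℕ) [NeZero N] [NeZero q] (hq : q.Prime) (hqN : q ∣ N) :
    (modularFunctionFieldBar N).relfinrank (modularFunctionFieldBar (N * q)) = q := by
  show (laurentBaseChange (AlgebraicClosure ℚ) (modularFunctionFieldFull N)).relfinrank
    (laurentBaseChange (AlgebraicClosure ℚ) (modularFunctionFieldFull (N * q))) = q
  rw [hdeg_laurentBaseChange_full, hdeg_laurentBaseChange_full]
  exact stbd_relfinrank_fullC (AlgebraicClosure ℚ) N q hq hqN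

/-- **degree along `α`**, `q ∣ N` -/
theorem stbd_deg_alpha (N q : ℕ) [NeZero N] [NeZero q] (hq : q.Prime) (hqN : q ∣ N) :
    stbDeg (heckeAlphaBar Qb N q).toRingHom = q := by
  have h := hdeg_finrank_inclusion (hdeg_bar_le N q)
  rw [stbd_relfinrank N q hq hqN] at h
  exact h

/-- the degree of an isomorphism is `1` -/
theorem stbDeg_equiv {F F' : Type*} [Field F] [Field F'] (e : F ≃+* F') :
    stbDeg (e : F →+* F') = 1 := by
  letI := (e : F →+* F').toAlgebra
  have h := Algebra.finrank_eq_of_equiv_equiv (R₀ := F) (S₀ := F') (R₁ := F') (S₁ := F') e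
    (RingEquiv.refl F') (by
      ext x
      rfl)
  show Module.finrank F F' = 1
  rw [h]
  exact Module.finrank_self F'

end Degree

/-! ## The Fricke involution and the two degeneracy maps -/

section Fricke

variable (N q : ℕ) [NeZero N] [NeZero q]

theorem stbd_alpha_jdF (d : ℕ) (hd : d ∣ N) :
    heckeAlphaBar Qb N q (jdF N d hd) = jdF (N * q) d (hd.mul_right q) := by
  apply Subtype.ext
  rw [coe_heckeAlphaBar]
  rfl

theorem stbd_beta_jdF (d : ℕ) (hd : d ∣ N) :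
    heckeBetaBar Qb N q (jdF N d hd) = jdF (N * q) (d * q) (Nat.mul_dvd_mul_right hd q) := by
  haveI : NeZero d := ⟨fun h => NeZero.ne N (by subst h; simpa using hd)⟩
  apply Subtype.ext
  rw [coe_heckeBetaBar, jdF_coe, jdF_coe]
  show qExpand Qb q (coeffMap (algebraMap ℚ Qb) (qExpand ℚ d jq))
    = coeffMap (algebraMap ℚ Qb) (qExpand ℚ (d * q) jq)
  rw [coeffMap_qExpand, coeffMap_qExpand, qExpand_qExpand]
  exact qExpand_congr (Nat.mul_comm q d) _

/-- the Fricke involution, as a ring equivalence -/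
def stbdW (M : ℕ) [NeZero M] : modularFunctionFieldBar M ≃+* modularFunctionFieldBar M :=
  (frickeAut M).toRingEquiv

theorem stbdW_apply (M : ℕ) [NeZero M] (x : modularFunctionFieldBar M) :
    stbdW M x = frickeAut M x := rfl

theorem stbdW_stbdW (M : ℕ) [NeZero M] (x : modularFunctionFieldBar M) :
    stbdW M (stbdW M x) = x := frickeAut_frickeAut M x

/-- **`w_{Nq} ∘ α = β ∘ w_N`** -/
theorem stbd_fricke_alpha (x : modularFunctionFieldBar N) :
    stbdW (N * q) (heckeAlphaBar Qb N q x) = heckeBetaBar Qb N q (stbdW N x) := by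
  have h : ((frickeAut (N * q) : FF (N * q) →ₐ[Kb] FF (N * q))).comp (heckeAlphaBar Qb N q)
      = (heckeBetaBar Qb N q).comp ((frickeAut N : FF N →ₐ[Kb] FF N)) := by
    apply FF_algHom_ext
    intro d hd
    have hd0 : d ≠ 0 := fun h => NeZero.ne N (by subst h; simpa using hd)
    show frickeAut (N * q) (heckeAlphaBar Qb N q (jdF N d hd))
      = heckeBetaBar Qb N q (frickeAut N (jdF N d hd))
    rw [stbd_alpha_jdF, frickeAut_jdF, frickeAut_jdF, stbd_beta_jdF]
    congr 1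
    exact Nat.div_mul_right_comm hd q |>.symm ▸ rfl
  exact congrArg (fun f : FF N →ₐ[Kb] FF (N * q) => f x) h

/-- **`w_{Nq} ∘ β = α ∘ w_N`** -/
theorem stbd_fricke_beta (x : modularFunctionFieldBar N) :
    stbdW (N * q) (heckeBetaBar Qb N q x) = heckeAlphaBar Qb N q (stbdW N x) := by
  have h := stbd_fricke_alpha N q (stbdW N x)
  rw [stbdW_stbdW] at h
  rw [← h, stbdW_stbdW]

theorem stbd_beta_eq_comp :
    (heckeBetaBar Qb N q).toRingHom =
      ((stbdW (N * q) : modularFunctionFieldBar (N * q) →+* modularFunctionFieldBar (N * q))).comp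
        ((heckeAlphaBar Qb N q).toRingHom.comp
          (stbdW N : modularFunctionFieldBar N →+* modularFunctionFieldBar N)) := by
  apply RingHom.ext
  intro x
  show heckeBetaBar Qb N q x = stbdW (N * q) (heckeAlphaBar Qb N q (stbdW N x))
  rw [stbd_fricke_alpha, stbdW_stbdW]

/-- **degree along `β`**, `q ∣ N` -/
theorem stbd_deg_beta (hq : q.Prime) (hqN : q ∣ N) :
    stbDeg (heckeBetaBar Qb N q).toRingHom = q := by
  rw [stbd_beta_eq_comp, stb_finrank_equiv_comp, stbDeg_comp, stbDeg_equiv, one_mul,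
    stbd_deg_alpha N q hq hqN]

end Fricke

/-! ## The `q` embeddings -/

section Emb

variable (N q : ℕ) [NeZero N] [NeZero q]

/-- the embedding `x ↦ x(c Q)` of `F_{Nq}` (over `β (F_N)` if `c ^ q = 1`) -/
def stbdRotB (c : Qbˣ) : modularFunctionFieldBar (N * q) →+* HnOmegaBar :=
  (algebraMap HnOmega HnOmegaBar).comp
    ((kronRot c).comp (algebraMap (modularFunctionFieldBar (N * q)) (LaurentSeries Qb)))

theorem stbdRotB_apply (c : Qbˣ) (x : modularFunctionFieldBar (N * q)) :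
    stbdRotB N q c x = algebraMap HnOmega HnOmegaBar (kronRot c (x : LaurentSeries Qb)) := rfl

theorem stbdRotB_beta (c : Qbˣ) (hc : c ^ q = 1) (x : modularFunctionFieldBar N) :
    stbdRotB N q c (heckeBetaBar Qb N q x) = hnBase N q x := by
  rw [stbdRotB_apply, hnBase_apply, coe_heckeBetaBar, qExpand_kronRot_pow, hc, kronRot_one]

/-- the embedding `x ↦ (w x)(c Q)` of `F_{Nq}` (over `α (F_N)` if `c ^ q = 1`) -/
def stbdRotA (c : Qbˣ) : modularFunctionFieldBar (N * q) →+* HnOmegaBar :=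
  (stbdRotB N q c).comp
    (stbdW (N * q) : modularFunctionFieldBar (N * q) →+* modularFunctionFieldBar (N * q))

theorem stbdRotA_apply (c : Qbˣ) (x : modularFunctionFieldBar (N * q)) :
    stbdRotA N q c x = stbdRotB N q c (stbdW (N * q) x) := rfl

/-- the base embedding for `α` -/
def stbdBaseA : modularFunctionFieldBar N →+* HnOmegaBar :=
  (hnBase N q).comp (stbdW N : modularFunctionFieldBar N →+* modularFunctionFieldBar N)

theorem stbdRotA_alpha (c : Qbˣ) (hc : c ^ q = 1) (x : modularFunctionFieldBar N) :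
    stbdRotA N q c (heckeAlphaBar Qb N q x) = stbdBaseA N q x := by
  rw [stbdRotA_apply, stbd_fricke_alpha, stbdRotB_beta N q c hc]
  rfl

theorem stbd_pow_pow_eq_one {ζ : Qbˣ} (hζ : ζ ^ q = 1) (b : ℕ) : (ζ ^ b) ^ q = 1 := by
  rw [← pow_mul, mul_comm, pow_mul, hζ, one_pow]

end Emb

/-! ## Distinctness on the image of `F_{Nq}` -/

section Distinct

variable (N q ℓ : ℕ) [NeZero N] [NeZero q] [NeZero ℓ]

/-- the rotations of `j(Q^ℓ)` are pairwise distinct -/
theorem stbd_rot_injective_at (hqℓ : Nat.Coprime ℓ q) (ζ : Qbˣ) (hζ : IsPrimitiveRoot ζ q) :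
    Function.Injective fun b : Fin q =>
      kronRot (ζ ^ (b : ℕ)) (qExpand Qb ℓ (coeffEmb Qb jq)) := by
  have hcoefJ : (qExpand Qb ℓ (coeffEmb Qb jq)).coeff (-(ℓ : ℤ)) = 1 := by
    have h := qExpand_coeff_mul (R := Qb) ℓ (coeffEmb Qb jq) (-1)
    rw [mul_neg, mul_one] at h
    rw [h, hn_jBar_coeff]
  have hcoef : ∀ b : Fin q, (kronRot (ζ ^ (b : ℕ)) (qExpand Qb ℓ (coeffEmb Qb jq))).coeff
      (-(ℓ : ℤ)) = (((ζ ^ (b : ℕ)) ^ (-(ℓ : ℤ)) : Qbˣ) : Qb) := by
    intro b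
    rw [kronRot_coeff, hcoefJ, mul_one]
  have hζℓ : IsPrimitiveRoot (ζ ^ ℓ) q := hζ.pow_of_coprime ℓ hqℓ
  intro b b' h
  have h2 := congrArg (fun g : LaurentSeries Qb => g.coeff (-(ℓ : ℤ))) h
  simp only [hcoef] at h2
  have h3 : (ζ ^ (b : ℕ)) ^ (-(ℓ : ℤ)) = (ζ ^ (b' : ℕ)) ^ (-(ℓ : ℤ)) := Units.ext h2
  have h4 : (ζ ^ ℓ) ^ (b : ℕ) = (ζ ^ ℓ) ^ (b' : ℕ) := by
    have h5 := congrArg (fun u : Qbˣ => u⁻¹) h3
    simp only [zpow_neg, inv_inv, zpow_natCast] at h5
    rw [← pow_mul, ← pow_mul] at h5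
    rw [← pow_mul, ← pow_mul, mul_comm ℓ, mul_comm ℓ]
    exact h5
  have h6 : (b : ℕ) = (b' : ℕ) := hζℓ.pow_inj b.2 b'.2 h4
  exact Fin.ext h6

/-- the rotations of `j` are pairwise distinct -/
theorem stbd_rot_injective_at_one (ζ : Qbˣ) (hζ : IsPrimitiveRoot ζ q) :
    Function.Injective fun b : Fin q => kronRot (ζ ^ (b : ℕ)) (coeffEmb Qb jq) := by
  have hcoef : ∀ b : Fin q, (kronRot (ζ ^ (b : ℕ)) (coeffEmb Qb jq)).coeff (-1)
      = (((ζ ^ (b : ℕ)) ^ (-1 : ℤ) : Qbˣ) : Qb) := by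
    intro b
    rw [kronRot_coeff, hn_jBar_coeff, mul_one]
  intro b b' h
  have h2 := congrArg (fun g : LaurentSeries Qb => g.coeff (-1)) h
  simp only [hcoef] at h2
  have h3 : (ζ ^ (b : ℕ)) ^ (-1 : ℤ) = (ζ ^ (b' : ℕ)) ^ (-1 : ℤ) := Units.ext h2
  have h4 : ζ ^ (b : ℕ) = ζ ^ (b' : ℕ) := by
    have := congrArg (fun u : Qbˣ => u⁻¹) h3
    simpa using this
  exact Fin.ext (hζ.pow_inj b.2 b'.2 h4)

/-- `j(Q^{Nq})`, an element of `F_{Nq}`, goes to `j(Q^{Nℓq}) = w (j)` -/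
theorem stbd_G2_top :
    stbG2 N q ℓ (jdF (N * q) (N * q) dvd_rfl) = stbdW (N * ℓ * q) (jF (N * ℓ * q)) := by
  rw [stbdW_apply, frickeAut_jF]
  apply Subtype.ext
  rw [stbG2_coe, jdF_coe, jdF_coe]
  show qExpand Qb ℓ (coeffMap (algebraMap ℚ Qb) (qExpand ℚ (N * q) jq))
    = coeffMap (algebraMap ℚ Qb) (qExpand ℚ (N * ℓ * q) jq)
  rw [coeffMap_qExpand, coeffMap_qExpand, qExpand_qExpand]
  exact qExpand_congr (by ring) _

end Distinct

/-! ## Base change of the norms and the main theorems -/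

section MainDiv

variable (N q ℓ : ℕ) [NeZero N] [NeZero q] [NeZero ℓ]

/-- **base change of the norm**, `β`-version, `q ∣ N` -/
theorem stbd_norm_bc_beta (hq : q.Prime) (hqN : q ∣ N) (hqℓ : Nat.Coprime ℓ q)
    (u : modularFunctionFieldBar (N * q)) :
    stbNorm (heckeBetaBar Qb (N * ℓ) q).toRingHom (stbG2 N q ℓ u) =
      heckeBetaBar Qb N ℓ (stbNorm (heckeBetaBar Qb N q).toRingHom u) := by
  haveI := stb_charZero_bar N
  obtain ⟨ζ, hζ⟩ := frob_exists_primitiveRoot q hq.ne_zero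
  refine stb_norm_square_charZero (Ω := HnOmegaBar) (heckeBetaBar Qb N q).toRingHom
    (heckeBetaBar Qb (N * ℓ) q).toRingHom (heckeBetaBar Qb N ℓ).toRingHom (stbG2 N q ℓ)
    (stb_sq_beta N q ℓ) (stbFinite_beta N q) (stbFinite_beta (N * ℓ) q)
    (hnBase (N * ℓ) q) (fun b : Fin q => stbdRotB (N * ℓ) q (ζ ^ (b : ℕ)))
    (fun b x => stbdRotB_beta (N * ℓ) q _ (stbd_pow_pow_eq_one q hζ.pow_eq_one _) x) ?_ ?_ ?_ u
  · rw [Fintype.card_fin, stbd_deg_beta (N * ℓ) q hq (hqN.mul_right ℓ)]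
  · rw [Fintype.card_fin, stbd_deg_beta N q hq hqN]
  · intro b b' h
    apply stbd_rot_injective_at q ℓ hqℓ ζ hζ
    have h1 := congrArg (fun f : modularFunctionFieldBar (N * q) →+* HnOmegaBar =>
      f (hnJ (N * q))) h
    have h2 : ∀ c : Qbˣ, (stbdRotB (N * ℓ) q c).comp (stbG2 N q ℓ) (hnJ (N * q))
        = algebraMap HnOmega HnOmegaBar (kronRot c (qExpand Qb ℓ (coeffEmb Qb jq))) := by
      intro c
      show stbdRotB (N * ℓ) q c (stbG2 N q ℓ (hnJ (N * q))) = _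
      rw [stbdRotB_apply, stbG2_coe, hnJ_coe]
    simp only [h2] at h1
    exact hn_algebraMap_injective h1

/-- **base change of the norm**, `α`-version, `q ∣ N` -/
theorem stbd_norm_bc_alpha (hq : q.Prime) (hqN : q ∣ N)
    (u : modularFunctionFieldBar (N * q)) :
    stbNorm (heckeAlphaBar Qb (N * ℓ) q).toRingHom (stbG2 N q ℓ u) =
      heckeBetaBar Qb N ℓ (stbNorm (heckeAlphaBar Qb N q).toRingHom u) := by
  haveI := stb_charZero_bar N
  obtain ⟨ζ, hζ⟩ := frob_exists_primitiveRoot q hq.ne_zero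
  refine stb_norm_square_charZero (Ω := HnOmegaBar) (heckeAlphaBar Qb N q).toRingHom
    (heckeAlphaBar Qb (N * ℓ) q).toRingHom (heckeBetaBar Qb N ℓ).toRingHom (stbG2 N q ℓ)
    (stb_sq_alpha N q ℓ) (stbFinite_alpha N q) (stbFinite_alpha (N * ℓ) q)
    (stbdBaseA (N * ℓ) q) (fun b : Fin q => stbdRotA (N * ℓ) q (ζ ^ (b : ℕ)))
    (fun b x => stbdRotA_alpha (N * ℓ) q _ (stbd_pow_pow_eq_one q hζ.pow_eq_one _) x) ?_ ?_ ?_ u
  · rw [Fintype.card_fin, stbd_deg_alpha (N * ℓ) q hq (hqN.mul_right ℓ)]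
  · rw [Fintype.card_fin, stbd_deg_alpha N q hq hqN]
  · intro b b' h
    apply stbd_rot_injective_at_one q ζ hζ
    have h1 := congrArg (fun f : modularFunctionFieldBar (N * q) →+* HnOmegaBar =>
      f (jdF (N * q) (N * q) dvd_rfl)) h
    have h2 : ∀ c : Qbˣ, (stbdRotA (N * ℓ) q c).comp (stbG2 N q ℓ)
        (jdF (N * q) (N * q) dvd_rfl)
        = algebraMap HnOmega HnOmegaBar (kronRot c (coeffEmb Qb jq)) := by
      intro c
      show stbdRotA (N * ℓ) q c (stbG2 N q ℓ (jdF (N * q) (N * q) dvd_rfl)) = _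
      rw [stbd_G2_top, stbdRotA_apply, stbdW_stbdW, stbdRotB_apply]
      rfl
    simp only [h2] at h1
    exact hn_algebraMap_injective h1

end MainDiv

section FinalDiv

variable (N q : ℕ) [NeZero N] [NeZero q]

/-- the Kummer functions of `α_* T_ℓ x` and `T_ℓ α_* x` agree, `q ∣ N` -/
theorem stbd_p3_fun_alpha (hq : q.Prime) (hqN : q ∣ N) (ℓ : ℕ) [NeZero ℓ]
    (u : modularFunctionFieldBar (N * q)) :
    stbNorm (heckeAlphaBar Qb N q).toRingHom
        (stbNorm (heckeAlphaBar Qb (N * q) ℓ).toRingHom (heckeBetaBar Qb (N * q) ℓ u)) =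
      stbNorm (heckeAlphaBar Qb N ℓ).toRingHom
        (heckeBetaBar Qb N ℓ (stbNorm (heckeAlphaBar Qb N q).toRingHom u)) := by
  rw [← stbd_norm_bc_alpha N q ℓ hq hqN u,
    stbNorm_comp _ _ (stbFinite_alpha N q) (stbFinite_alpha (N * q) ℓ),
    stbNorm_comp _ _ (stbFinite_alpha N ℓ) (stbFinite_alpha (N * ℓ) q),
    ← stb_incl_alpha N q ℓ]
  exact (stbNorm_equiv_comp _ (stbEqv N q ℓ) _).symm

/-- the Kummer functions of `β_* T_ℓ x` and `T_ℓ β_* x` agree, `q ∣ N` -/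
theorem stbd_p3_fun_beta (hq : q.Prime) (hqN : q ∣ N) (ℓ : ℕ) [NeZero ℓ] (hℓ : ℓ.Prime)
    (hℓNq : ¬ ℓ ∣ N * q) (u : modularFunctionFieldBar (N * q)) :
    stbNorm (heckeBetaBar Qb N q).toRingHom
        (stbNorm (heckeAlphaBar Qb (N * q) ℓ).toRingHom (heckeBetaBar Qb (N * q) ℓ u)) =
      stbNorm (heckeAlphaBar Qb N ℓ).toRingHom
        (heckeBetaBar Qb N ℓ (stbNorm (heckeBetaBar Qb N q).toRingHom u)) := by
  have hℓq : ℓ ≠ q := fun h => hℓNq (h ▸ dvd_mul_left _ _)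
  have hcop : Nat.Coprime ℓ q := (Nat.coprime_primes hℓ hq).2 hℓq
  rw [← stbd_norm_bc_beta N q ℓ hq hqN hcop u,
    stbNorm_comp _ _ (stbFinite_beta N q) (stbFinite_alpha (N * q) ℓ),
    stbNorm_comp _ _ (stbFinite_alpha N ℓ) (stbFinite_beta (N * ℓ) q),
    ← stb_incl_beta N q ℓ]
  exact (stbNorm_equiv_comp _ (stbEqv N q ℓ) _).symm

/-- **H3′, `α`**: `α_* (T_ℓ x) = T_ℓ (α_* x)` for every torsion point `x` of `J₀(Nq)`,
`q ∣ N`, `ℓ ∤ N q` primes. -/
theorem stbd_p3_alpha (hq : q.Prime) (hqN : q ∣ N) (ℓ : Nat.Primes)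
    {n : ℕ} (hn : n ≠ 0) (x : JZero (N * q)) (hx : n • x = 0) :
    stbPushAlpha N q (heckeOperatorBar (N * q) ℓ x) =
      heckeOperatorBar N ℓ (stbPushAlpha N q x) := by
  haveI : NeZero (ℓ : ℕ) := ⟨ℓ.2.ne_zero⟩
  obtain ⟨u, hu⟩ := exists_kummerRel hx
  have hL := stb_kummerRel_pushAlpha N q (stb_kummerRel_hecke (N * q) ℓ hu)
  have hR := stb_kummerRel_hecke N ℓ (stb_kummerRel_pushAlpha N q hu)
  rw [stbd_p3_fun_alpha N q hq hqN (ℓ : ℕ) u] at hL
  exact KummerRel.unique hn hL hR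

/-- **H3′, `β`**: `β_* (T_ℓ x) = T_ℓ (β_* x)` for every torsion point `x` of `J₀(Nq)`,
`q ∣ N`, `ℓ ∤ N q` primes. -/
theorem stbd_p3_beta (hq : q.Prime) (hqN : q ∣ N) (ℓ : Nat.Primes) (hℓ : ¬ (ℓ : ℕ) ∣ N * q)
    {n : ℕ} (hn : n ≠ 0) (x : JZero (N * q)) (hx : n • x = 0) :
    stbPushBeta N q (heckeOperatorBar (N * q) ℓ x) =
      heckeOperatorBar N ℓ (stbPushBeta N q x) := by
  haveI : NeZero (ℓ : ℕ) := ⟨ℓ.2.ne_zero⟩
  obtain ⟨u, hu⟩ := exists_kummerRel hx
  have hL := stb_kummerRel_pushBeta N q (stb_kummerRel_hecke (N * q) ℓ hu)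
  have hR := stb_kummerRel_hecke N ℓ (stb_kummerRel_pushBeta N q hu)
  rw [stbd_p3_fun_beta N q hq hqN (ℓ : ℕ) ℓ.2 hℓ u] at hL
  exact KummerRel.unique hn hL hR

end FinalDiv

end Fermat.Agent.STB

end
end ZBSTB_001_13

/-! ### bundled: `Fermat.Agent.S36.AuxLevel` -/
section ZBSTB_001_14

/-!
# S36 / G-aux: descent from an auxiliary level (helper52)

`q` a prime with `q ∣ M₁`, `d ≥ 1` prime to `q`.  Levels `N = M₁ q` and `N' = M₁ d q`;
`ι = stbdUp M₁ q d : F_{M₁ q} → F_{M₁ d q}` is the inclusion (of subfields of `ℚ̄((Q))`),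
`ι' = heckeAlphaBar ℚ̄ M₁ d : F_{M₁} → F_{M₁ d}`.

* `s36aux_relfinrank_ne_zero` : `[F_{N d} : F_N]` is finite (Igusa's degree theorem);
* `s36aux_up_isIntegral`, `s36aux_dvd_ord` : `m ∣ div u` ascends along `ι`;
* `s36aux_up_smul` : `σ • ι u = ι (σ • u)` for the arithmetic Galois action;
* `s36aux_norm_beta`, `s36aux_norm_alpha` : THE NORMS ASCEND,
    `N_{β'} (ι u) = ι' (N_β u)`, `N_{α'} (ι u) = ι' (N_α u)`
  (`α, β : F_{M₁} → F_{M₁ q}`, `α', β' : F_{M₁ d} → F_{M₁ d q}`; no coprimality of degrees is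
  needed: the `q` conjugates of `ι u` over `β' F_{M₁ d}` are `u (ζ Q)`, `ζ ^ q = 1`, and those over
  `α' F_{M₁ d}` are `(w u) (ζ Q)`, `w` the Fricke involution of level `M₁ d q`; they are separated
  by `j` resp. by `j (Q^{M₁ q})`, because `w j (Q^{M₁ q}) = j (Q^d)` and `gcd (d, q) = 1`);
* `s36aux_norm_up` : `N_ι (ι x) = x ^ D`, `D = [F_{M₁ d q} : F_{M₁ q}]`;
* `s36aux_descent` : **G-aux**,
    `StmtCarayolKummerAt (M₁ * d) q p → StmtCarayolKummerAt M₁ q p`
  (the constant `c` becomes `c * D`).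
-/

set_option autoImplicit false
set_option linter.style.haveILetI false
set_option linter.unusedSectionVars false

noncomputable section

namespace Fermat.Agent.S36

open AlgebraicCurve ModularCurve IntermediateField Fermat.Agent.ES Fermat.Agent.ES.G2
  Fermat.Agent.S24 Fermat.Agent.ES.M Fermat.Agent.STB Fermat.Agent.UNIP Module

/-! ## Finiteness of `F_{N d} / F_N` -/

section Degree

/-- Igusa + tower law: `[L(j(q^e) : e ∣ N d) : L(j(q^e) : e ∣ N)]` is finite. -/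
theorem s36aux_relfinrank_fullC_ne_zero (L : Type*) [Field L] [CharZero L] (N d : ℕ) [NeZero N]
    [NeZero d] :
    (modularFunctionFieldFullC L N).relfinrank (modularFunctionFieldFullC L (N * d)) ≠ 0 := by
  have hN : ((N : ℕ) : L) ≠ 0 := Nat.cast_ne_zero.mpr (NeZero.ne N)
  have hNd : ((N * d : ℕ) : L) ≠ 0 := Nat.cast_ne_zero.mpr (NeZero.ne (N * d))
  have h2 := Fermat.Agent.S28.relfinrank_full_eq_dedekindPsi L (N * d) hNd
  have hle1 : adjoin L {jqModC L} ≤ modularFunctionFieldFullC L N :=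
    Fermat.Agent.S28.UB.K0_le_full L N
  have hle2 : modularFunctionFieldFullC L N ≤ modularFunctionFieldFullC L (N * d) :=
    Fermat.Agent.S28.UB.full_mono L (Dvd.intro _ rfl)
  have h3 := relfinrank_mul_relfinrank hle1 hle2
  have hpos : dedekindPsi (N * d) ≠ 0 := by
    intro h0
    rw [h0] at h2
    have hfin := Fermat.Agent.S28.relrank_full_lt_aleph0_of_ne_zero L (N * d) hNd
    have hne := Fermat.Agent.S28.UB.relrank_ne_zero (adjoin L {jqModC L})
      (modularFunctionFieldFullC L (N * d))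
    rw [relfinrank_eq_toNat_relrank, Cardinal.toNat_eq_zero] at h2
    rcases h2 with h2 | h2
    · exact hne h2
    · exact absurd hfin (not_lt.mpr h2)
  intro h0
  rw [h0, Nat.mul_zero, h2] at h3
  exact hpos h3.symm

/-- `[F_{N d} : F_N]` is finite. -/
theorem s36aux_relfinrank_ne_zero (N d : ℕ) [NeZero N] [NeZero d] :
    (modularFunctionFieldBar N).relfinrank (modularFunctionFieldBar (N * d)) ≠ 0 := by
  show (laurentBaseChange (AlgebraicClosure ℚ) (modularFunctionFieldFull N)).relfinrank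
    (laurentBaseChange (AlgebraicClosure ℚ) (modularFunctionFieldFull (N * d))) ≠ 0
  rw [hdeg_laurentBaseChange_full, hdeg_laurentBaseChange_full]
  exact s36aux_relfinrank_fullC_ne_zero (AlgebraicClosure ℚ) N d

end Degree

/-! ## Generic: the norm along a ring homomorphism of fields -/

section Generic

variable {K L : Type*} [Field K] [Field L]

theorem s36aux_norm_hom_apply (φ : K →+* L) (x : K) : stbdNorm φ (φ x) = x ^ stbdDeg φ := by
  letI := φ.toAlgebra
  exact Algebra.norm_algebraMap (R := K) (S := L) x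

theorem s36aux_norm_hom_pow (φ : K →+* L) (y : L) (n : ℕ) :
    stbdNorm φ (y ^ n) = stbdNorm φ y ^ n := by
  letI := φ.toAlgebra
  exact map_pow (Algebra.norm K) y n

theorem s36aux_deg_ne_zero_of_finite (φ : K →+* L)
    (h : letI := φ.toAlgebra; FiniteDimensional K L) : stbdDeg φ ≠ 0 := by
  letI := φ.toAlgebra
  haveI : FiniteDimensional K L := h
  exact (Module.finrank_pos (R := K) (M := L)).ne'

end Generic

/-! ## The inclusion `ι : F_{M₁ q} → F_{M₁ d q}` -/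

section Up

variable (M₁ q d : ℕ) [NeZero M₁] [NeZero q] [NeZero d]

theorem s36aux_up_relfinrank_ne_zero :
    (modularFunctionFieldBar (M₁ * q)).relfinrank (modularFunctionFieldBar (M₁ * d * q)) ≠ 0 := by
  rw [← stb_d_level_eq]
  exact s36aux_relfinrank_ne_zero (M₁ * q) d

theorem s36aux_up_finite :
    letI := (stbdUp M₁ q d).toRingHom.toAlgebra
    FiniteDimensional (modularFunctionFieldBar (M₁ * q)) (modularFunctionFieldBar (M₁ * d * q)) :=
  hdeg_finite_inclusion (stb_d_le M₁ q d) (s36aux_up_relfinrank_ne_zero M₁ q d)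

theorem s36aux_up_isIntegral : (stbdUp M₁ q d).toRingHom.IsIntegral :=
  unip_isIntegral_of_finite _ (s36aux_up_finite M₁ q d)

/-- `m ∣ div u` ascends. -/
theorem s36aux_dvd_ord (m : ℕ) (u : modularFunctionFieldBar (M₁ * q))
    (hdvd : ∀ P : Place Qb (modularFunctionFieldBar (M₁ * q)), (m : ℤ) ∣ P.ord u)
    (P : Place Qb (modularFunctionFieldBar (M₁ * d * q))) :
    (m : ℤ) ∣ P.ord (stbdUp M₁ q d u) := by
  rw [Place.ord_restrictAlong (stbdUp M₁ q d) (s36aux_up_isIntegral M₁ q d) P u]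
  exact Dvd.dvd.mul_left (hdvd _) _

/-- the arithmetic Galois action commutes with `ι` -/
theorem s36aux_up_smul (σ : Qb ≃ₐ[ℚ] Qb) (u : modularFunctionFieldBar (M₁ * q)) :
    arithmeticGalois (modularFunctionFieldFull (M₁ * d * q)) σ • stbdUp M₁ q d u =
      stbdUp M₁ q d (arithmeticGalois (modularFunctionFieldFull (M₁ * q)) σ • u) := by
  apply Subtype.ext
  rw [coe_stbdUp]
  show coeffMap (σ : Qb →+* Qb) ((stbdUp M₁ q d u : modularFunctionFieldBar (M₁ * d * q)) :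
      LaurentSeries Qb) = coeffMap (σ : Qb →+* Qb) (u : LaurentSeries Qb)
  rw [coe_stbdUp]

/-- the degree of `ι` -/
def s36auxDeg : ℕ := stbdDeg (stbdUp M₁ q d).toRingHom

theorem s36auxDeg_ne_zero : s36auxDeg M₁ q d ≠ 0 :=
  s36aux_deg_ne_zero_of_finite _ (s36aux_up_finite M₁ q d)

/-- `N_ι (ι x) = x ^ D` -/
theorem s36aux_norm_up (x : modularFunctionFieldBar (M₁ * q)) :
    stbdNorm (stbdUp M₁ q d).toRingHom (stbdUp M₁ q d x) = x ^ s36auxDeg M₁ q d :=
  s36aux_norm_hom_apply (stbdUp M₁ q d).toRingHom x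

theorem s36aux_norm_pow (y : modularFunctionFieldBar (M₁ * d * q)) (n : ℕ) :
    stbdNorm (stbdUp M₁ q d).toRingHom (y ^ n) = stbdNorm (stbdUp M₁ q d).toRingHom y ^ n :=
  s36aux_norm_hom_pow (stbdUp M₁ q d).toRingHom y n

/-- **The conclusion descends**: `(ι u) ^ c = a h ^ m` ⇒ `u ^ (c D) = a ^ D (N_ι h) ^ m`. -/
theorem s36aux_pow_descent (c m : ℕ) (u : modularFunctionFieldBar (M₁ * q)) (a : Qb)
    (h : modularFunctionFieldBar (M₁ * d * q))
    (huh : stbdUp M₁ q d u ^ c =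
      algebraMap Qb (modularFunctionFieldBar (M₁ * d * q)) a * h ^ m) :
    u ^ (c * s36auxDeg M₁ q d) =
      algebraMap Qb (modularFunctionFieldBar (M₁ * q)) (a ^ s36auxDeg M₁ q d) *
        stbdNorm (stbdUp M₁ q d).toRingHom h ^ m := by
  have h1 := congrArg (stbdNorm (stbdUp M₁ q d).toRingHom) huh
  rw [← map_pow, s36aux_norm_up, stbdNorm_mul, s36aux_norm_pow,
    ← AlgHom.commutes (stbdUp M₁ q d) a, s36aux_norm_up] at h1
  rw [pow_mul, h1, map_pow]

end Up

/-! ## The norms ascend -/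

section Norms

variable (N q d : ℕ) [NeZero N] [NeZero q] [NeZero d]

/-- **the norm ascends**, `β`-version, `q ∣ N` -/
theorem s36aux_norm_beta (hq : q.Prime) (hqN : q ∣ N) (u : modularFunctionFieldBar (N * q)) :
    stbNorm (heckeBetaBar Qb (N * d) q).toRingHom (stbdUp N q d u) =
      heckeAlphaBar Qb N d (stbNorm (heckeBetaBar Qb N q).toRingHom u) := by
  haveI := stb_charZero_bar N
  obtain ⟨ζ, hζ⟩ := frob_exists_primitiveRoot q hq.ne_zero
  refine stb_norm_square_charZero (Ω := HnOmegaBar) (heckeBetaBar Qb N q).toRingHom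
    (heckeBetaBar Qb (N * d) q).toRingHom (heckeAlphaBar Qb N d).toRingHom
    (stbdUp N q d).toRingHom
    (fun x => (stb_d_sq_beta N q d x).symm) (stbFinite_beta N q) (stbFinite_beta (N * d) q)
    (hnBase (N * d) q) (fun b : Fin q => stbdRotB (N * d) q (ζ ^ (b : ℕ)))
    (fun b x => stbdRotB_beta (N * d) q _ (stbd_pow_pow_eq_one q hζ.pow_eq_one _) x) ?_ ?_ ?_ u
  · rw [Fintype.card_fin, stbd_deg_beta (N * d) q hq (hqN.mul_right d)]
  · rw [Fintype.card_fin, stbd_deg_beta N q hq hqN]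
  · intro b b' h
    apply stbd_rot_injective_at_one q ζ hζ
    have h1 := congrArg (fun f : modularFunctionFieldBar (N * q) →+* HnOmegaBar =>
      f (hnJ (N * q))) h
    have h2 : ∀ c : Qbˣ, (stbdRotB (N * d) q c).comp (stbdUp N q d).toRingHom (hnJ (N * q))
        = algebraMap HnOmega HnOmegaBar (kronRot c (coeffEmb Qb jq)) := by
      intro c
      show stbdRotB (N * d) q c (stbdUp N q d (hnJ (N * q))) = _
      rw [stbdRotB_apply, coe_stbdUp, hnJ_coe]
    simp only [h2] at h1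
    exact hn_algebraMap_injective h1

/-- `ι (j (Q^{N q})) = j (Q^{N q})` goes to `j (Q^d)` under the Fricke involution of level
`N d q` -/
theorem s36aux_fricke_top :
    ((stbdW (N * d * q) (stbdUp N q d (jdF (N * q) (N * q) dvd_rfl)) :
        modularFunctionFieldBar (N * d * q)) : LaurentSeries Qb) =
      qExpand Qb d (coeffEmb Qb jq) := by
  have hdvd : N * q ∣ N * d * q := ⟨d, by ring⟩
  have h1 : stbdUp N q d (jdF (N * q) (N * q) dvd_rfl) = jdF (N * d * q) (N * q) hdvd := by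
    apply Subtype.ext
    rw [coe_stbdUp]
    rfl
  have hdiv : N * d * q / (N * q) = d := by
    have hpos : 0 < N * q := Nat.pos_of_ne_zero (NeZero.ne (N * q))
    rw [show N * d * q = N * q * d by ring]
    exact Nat.mul_div_cancel_left d hpos
  rw [h1, stbdW_apply, frickeAut_jdF]
  haveI : NeZero (N * d * q / (N * q)) := ⟨by rw [hdiv]; exact NeZero.ne d⟩
  rw [jdF_coe]
  show coeffMap (algebraMap ℚ Qb) (qExpand ℚ (N * d * q / (N * q)) jq) = _
  rw [coeffMap_qExpand]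
  exact qExpand_congr hdiv _

/-- **the norm ascends**, `α`-version, `q ∣ N`, `gcd (d, q) = 1` -/
theorem s36aux_norm_alpha (hq : q.Prime) (hqN : q ∣ N) (hdq : Nat.Coprime d q)
    (u : modularFunctionFieldBar (N * q)) :
    stbNorm (heckeAlphaBar Qb (N * d) q).toRingHom (stbdUp N q d u) =
      heckeAlphaBar Qb N d (stbNorm (heckeAlphaBar Qb N q).toRingHom u) := by
  haveI := stb_charZero_bar N
  obtain ⟨ζ, hζ⟩ := frob_exists_primitiveRoot q hq.ne_zero
  refine stb_norm_square_charZero (Ω := HnOmegaBar) (heckeAlphaBar Qb N q).toRingHom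
    (heckeAlphaBar Qb (N * d) q).toRingHom (heckeAlphaBar Qb N d).toRingHom
    (stbdUp N q d).toRingHom
    (fun x => (stb_d_sq_alpha N q d x).symm) (stbFinite_alpha N q) (stbFinite_alpha (N * d) q)
    (stbdBaseA (N * d) q) (fun b : Fin q => stbdRotA (N * d) q (ζ ^ (b : ℕ)))
    (fun b x => stbdRotA_alpha (N * d) q _ (stbd_pow_pow_eq_one q hζ.pow_eq_one _) x) ?_ ?_ ?_ u
  · rw [Fintype.card_fin, stbd_deg_alpha (N * d) q hq (hqN.mul_right d)]
  · rw [Fintype.card_fin, stbd_deg_alpha N q hq hqN]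
  · intro b b' h
    apply stbd_rot_injective_at q d hdq ζ hζ
    have h1 := congrArg (fun f : modularFunctionFieldBar (N * q) →+* HnOmegaBar =>
      f (jdF (N * q) (N * q) dvd_rfl)) h
    have h2 : ∀ c : Qbˣ, (stbdRotA (N * d) q c).comp (stbdUp N q d).toRingHom
        (jdF (N * q) (N * q) dvd_rfl)
        = algebraMap HnOmega HnOmegaBar (kronRot c (qExpand Qb d (coeffEmb Qb jq))) := by
      intro c
      show stbdRotA (N * d) q c (stbdUp N q d (jdF (N * q) (N * q) dvd_rfl)) = _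
      rw [stbdRotA_apply, stbdRotB_apply, s36aux_fricke_top]
    simp only [h2] at h1
    exact hn_algebraMap_injective h1

end Norms

/-! ## The descent -/

section Main

variable (M₁ q p d : ℕ) [NeZero M₁] [NeZero q] [NeZero d]

/-- **G-aux.** (G36-K) descends from the level `M₁ d q` to the level `M₁ q`
(`q ∣ M₁` a prime, `gcd (d, q) = 1`); the constant `c` becomes `c [F_{M₁ d q} : F_{M₁ q}]`. -/
theorem s36aux_descent (hq : q.Prime) (hd : Nat.Coprime d q) (hqM : q ∣ M₁) :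
    StmtCarayolKummerAt (M₁ * d) q p → StmtCarayolKummerAt M₁ q p := by
  intro H A hA
  obtain ⟨c, hc, Hc⟩ := H A hA
  refine ⟨c * s36auxDeg M₁ q d, Nat.mul_ne_zero hc (s36auxDeg_ne_zero M₁ q d), ?_⟩
  intro n u hu hdvd hα hβ hin
  obtain ⟨a, f, hf⟩ := hα
  obtain ⟨a', f', hf'⟩ := hβ
  have hup0 : stbdUp M₁ q d u ≠ 0 :=
    (map_ne_zero_iff _ (stbdUp_injective M₁ q d)).mpr hu
  have hNα : stbNormAlpha (M₁ * d) q (stbdUp M₁ q d u) =
      algebraMap Qb (modularFunctionFieldBar (M₁ * d)) a *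
        (heckeAlphaBar Qb M₁ d f) ^ (p ^ n) := by
    have h1 := s36aux_norm_alpha M₁ q d hq hqM hd u
    have h2 : stbNorm (heckeAlphaBar Qb M₁ q).toRingHom u =
        algebraMap Qb (modularFunctionFieldBar M₁) a * f ^ (p ^ n) := hf
    rw [h2] at h1
    refine Eq.trans (b := heckeAlphaBar Qb M₁ d
      (algebraMap Qb (modularFunctionFieldBar M₁) a * f ^ (p ^ n))) h1 ?_
    rw [map_mul, map_pow, AlgHom.commutes]
  have hNβ : stbNormBeta (M₁ * d) q (stbdUp M₁ q d u) =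
      algebraMap Qb (modularFunctionFieldBar (M₁ * d)) a' *
        (heckeAlphaBar Qb M₁ d f') ^ (p ^ n) := by
    have h1 := s36aux_norm_beta M₁ q d hq hqM u
    have h2 : stbNorm (heckeBetaBar Qb M₁ q).toRingHom u =
        algebraMap Qb (modularFunctionFieldBar M₁) a' * f' ^ (p ^ n) := hf'
    rw [h2] at h1
    refine Eq.trans (b := heckeAlphaBar Qb M₁ d
      (algebraMap Qb (modularFunctionFieldBar M₁) a' * f' ^ (p ^ n))) h1 ?_
    rw [map_mul, map_pow, AlgHom.commutes]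
  have hin' : ∀ σ ∈ A.inertiaSubgroupIn ℚ,
      ∃ (b : Qb) (h : modularFunctionFieldBar (M₁ * d * q)),
        arithmeticGalois (modularFunctionFieldFull (M₁ * d * q)) σ • stbdUp M₁ q d u =
          algebraMap Qb (modularFunctionFieldBar (M₁ * d * q)) b * h ^ (p ^ n) *
            stbdUp M₁ q d u := by
    intro σ hσ
    obtain ⟨b, h, hbh⟩ := hin σ hσ
    refine ⟨b, stbdUp M₁ q d h, ?_⟩
    rw [s36aux_up_smul, hbh, map_mul, map_mul, map_pow, AlgHom.commutes]
  obtain ⟨b, h, hbh⟩ := Hc n (stbdUp M₁ q d u) hup0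
    (s36aux_dvd_ord M₁ q d (p ^ n) u hdvd) ⟨a, _, hNα⟩ ⟨a', _, hNβ⟩ hin'
  exact ⟨_, _, s36aux_pow_descent M₁ q d c (p ^ n) u b h hbh⟩

end Main

end Fermat.Agent.S36

end
end ZBSTB_001_14

/-! ### bundled: `Fermat.Agent.RIB.MP.FacHor` -/
section ZBSTB_001_15
/-
Row 37, Mazur's principle, piece **MP-FAC / FAC-E (E-hhor)** (helper3): horizontal divisibility
of the divisor ascends along the inclusion of levels `F_{M q}(K₀) ⊆ F_{M d q}(K₀)`.

Setting: `K₀ : IntermediateField ℚ ℚ̄`, levels `M * q` and `M * d * q`,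
`up := IntermediateField.inclusion h`, for an ARBITRARY proof
`h : modularFunctionFieldFullC ↥K₀ (M * q) ≤ modularFunctionFieldFullC ↥K₀ (M * d * q)`.

* `ribmp_fhor_nfEmb_up` : `nfEmb K₀ (M d q) (up y) = stbdUp M q d (nfEmb K₀ (M q) y)`;
* `ribmp_fhor` : if `m ∣ ord_P (nfEmb y)` for every place `P` of `F_{M q}(ℚ̄)`, then
  `m ∣ ord_P (nfEmb (up y))` for every place `P` of `F_{M d q}(ℚ̄)`
  (from `S36.s36aux_dvd_ord`).
-/

set_option autoImplicit false
set_option linter.style.haveILetI false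
set_option linter.unusedSectionVars false
set_option linter.unusedVariables false

namespace Fermat.Agent.RIB.MP

open AlgebraicCurve ModularCurve IntermediateField Fermat.Agent.INJ Fermat.Agent.STB
  Fermat.Agent.S36

section Hor

variable (K₀ : IntermediateField ℚ NfQb) (M d q : ℕ) [NeZero M] [NeZero d] [NeZero q]

/-- `nfEmb` commutes with the inclusions of levels. -/
theorem ribmp_fhor_nfEmb_up
    (h : modularFunctionFieldFullC ↥K₀ (M * q) ≤ modularFunctionFieldFullC ↥K₀ (M * d * q))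
    (y : ↥(modularFunctionFieldFullC ↥K₀ (M * q))) :
    nfEmb K₀ (M * d * q) (IntermediateField.inclusion h y)
      = stbdUp M q d (nfEmb K₀ (M * q) y) := by
  apply Subtype.ext
  rw [coe_stbdUp, nfEmb_coe, nfEmb_coe, IntermediateField.coe_inclusion]

/-- **(E-hhor)** `m ∣ div (nfEmb y)` ascends along the inclusion of levels. -/
theorem ribmp_fhor
    (h : modularFunctionFieldFullC ↥K₀ (M * q) ≤ modularFunctionFieldFullC ↥K₀ (M * d * q))
    (m : ℕ) (y : ↥(modularFunctionFieldFullC ↥K₀ (M * q)))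
    (hhor : ∀ P : Place NfQb (modularFunctionFieldBar (M * q)),
      (m : ℤ) ∣ P.ord (nfEmb K₀ (M * q) y)) :
    ∀ P : Place NfQb (modularFunctionFieldBar (M * d * q)),
      (m : ℤ) ∣ P.ord (nfEmb K₀ (M * d * q) (IntermediateField.inclusion h y)) := by
  intro P
  rw [ribmp_fhor_nfEmb_up K₀ M d q h y]
  exact s36aux_dvd_ord M q d m (nfEmb K₀ (M * q) y) hhor P

end Hor

end Fermat.Agent.RIB.MP


end ZBSTB_001_15
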