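/- GENERATED FILE (helper35, build-time optimisation, NOTES/ZB.md): verbatim concatenation of the modules
   Fermat.Agent.INJ.NumFieldDVR
   Fermat.Agent.INJ.LocalSetup
   Fermat.Agent.S33.DepthStart
   Do not edit; do not import together with these modules. -/
import Mathlib
import Fermat.Agent.ZB.INJ_005
import Fermat.Agent.ZB.STB_001

/-! ### bundled: `Fermat.Agent.INJ.NumFieldDVR` -/
section ZBINJ_007_0

/-!
# (INJ) B-glue, piece K2: a proper valuation subring of a number field is a DVR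

`nf_isDiscreteValuationRing` : `K` a number field, `V ≠ ⊤` a valuation subring of `K`; then `V` is
a discrete valuation ring (it is the localization of `𝓞 K` at the prime `𝔪_V ∩ 𝓞 K`).

Application: `A ⊂ ℚ̄` a valuation ring over `ℓ`, `K₀ ⊂ ℚ̄` a number field; `A₀ := A ∩ K₀`
(`ValuationSubring.comap`) is a DVR with fraction field `K₀`.
-/

set_option autoImplicit false

open IsDedekindDomain NumberField

namespace Fermat.Agent.INJ

variable {K : Type*} [Field K] [NumberField K]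

omit [NumberField K] in
/-- the ring of integers lies in every valuation subring -/
theorem nf_ringOfIntegers_mem (V : ValuationSubring K) (x : 𝓞 K) : (x : K) ∈ V := by
  have hx : IsIntegral ℤ (x : K) := x.2
  have hx' : IsIntegral V (x : K) := hx.tower_top
  obtain ⟨y, hy⟩ := IsIntegrallyClosed.isIntegral_iff.mp hx'
  rw [← hy]
  exact y.2

/-- the localization of `𝓞 K` at a nonzero prime, as a valuation subring, is a DVR -/
theorem nf_isDiscreteValuationRing_atPrime (v : HeightOneSpectrum (𝓞 K)) :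
    IsDiscreteValuationRing (HeightOneSpectrum.valuationSubringAtPrime K v) := by
  have : IsLocalization.AtPrime (HeightOneSpectrum.valuationSubringAtPrime K v) v.asIdeal :=
    inferInstance
  exact IsLocalization.AtPrime.isDiscreteValuationRing_of_dedekind_domain (𝓞 K) (P := v.asIdeal)
    v.ne_bot _

/-- A proper valuation subring of a number field is a discrete valuation ring. -/
theorem nf_isDiscreteValuationRing (V : ValuationSubring K) (hV : V ≠ ⊤) :
    IsDiscreteValuationRing V := by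
  classical
  -- the inclusion `𝓞 K → V`
  let f : 𝓞 K →+* V :=
    (algebraMap (𝓞 K) K).codRestrict V.toSubring (fun x => nf_ringOfIntegers_mem V x)
  have hf : ∀ x : 𝓞 K, ((f x : V) : K) = (x : K) := fun x => rfl
  let 𝔭 : Ideal (𝓞 K) := (IsLocalRing.maximalIdeal V).comap f
  have h𝔭prime : 𝔭.IsPrime := Ideal.comap_isPrime f _
  have hmem : ∀ x : 𝓞 K, x ∈ 𝔭 ↔ ¬ IsUnit (f x) := by
    intro x
    show f x ∈ IsLocalRing.maximalIdeal V ↔ _
    rw [IsLocalRing.mem_maximalIdeal, mem_nonunits_iff]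
  have h𝔭ne : 𝔭 ≠ ⊥ := by
    intro hbot
    apply hV
    rw [eq_top_iff]
    intro x _
    obtain ⟨a, b, hb, rfl⟩ := IsFractionRing.div_surjective (A := 𝓞 K) x
    have hb0 : b ≠ 0 := nonZeroDivisors.ne_zero hb
    have hbu : IsUnit (f b) := by
      by_contra hnu
      have : b ∈ 𝔭 := (hmem b).mpr hnu
      rw [hbot] at this
      exact hb0 (by simpa using this)
    obtain ⟨u, hu⟩ := hbu
    have hinv : ((↑(u⁻¹) : V) : K) = (algebraMap (𝓞 K) K b)⁻¹ := by
      have h1 : ((u : V) : K) * ((↑(u⁻¹) : V) : K) = 1 := by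
        rw [← V.coe_mul, Units.mul_inv]; rfl
      rw [hu] at h1
      have h2 : ((f b : V) : K) = algebraMap (𝓞 K) K b := rfl
      rw [h2] at h1
      exact eq_inv_of_mul_eq_one_right h1
    rw [div_eq_mul_inv, ← hinv]
    exact V.mul_mem _ _ (nf_ringOfIntegers_mem V a) (↑(u⁻¹) : V).2
  obtain ⟨v, hv⟩ : ∃ v : HeightOneSpectrum (𝓞 K), v.asIdeal = 𝔭 := ⟨⟨𝔭, h𝔭prime, h𝔭ne⟩, rfl⟩
  -- the localization is contained in `V`
  have hle : HeightOneSpectrum.valuationSubringAtPrime K v ≤ V := by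
    rintro x ⟨a, s, hs, rfl⟩
    have hsu : IsUnit (f s) := by
      by_contra hnu
      apply hs
      show s ∈ v.asIdeal
      rw [hv]
      exact (hmem s).mpr hnu
    obtain ⟨u, hu⟩ := hsu
    have hinv : ((↑(u⁻¹) : V) : K) = (algebraMap (𝓞 K) K s)⁻¹ := by
      have h1 : ((u : V) : K) * ((↑(u⁻¹) : V) : K) = 1 := by
        rw [← V.coe_mul, Units.mul_inv]; rfl
      rw [hu] at h1
      have h2 : ((f s : V) : K) = algebraMap (𝓞 K) K s := rfl
      rw [h2] at h1
      exact eq_inv_of_mul_eq_one_right h1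
    rw [← hinv]
    exact V.mul_mem _ _ (nf_ringOfIntegers_mem V a) (↑(u⁻¹) : V).2
  have heq : HeightOneSpectrum.valuationSubringAtPrime K v = V :=
    ValuationSubring.eq_of_le_of_ne_top _ hle hV
  have hdvr : IsDiscreteValuationRing (HeightOneSpectrum.valuationSubringAtPrime K v) :=
    nf_isDiscreteValuationRing_atPrime v
  rw [← heq]
  exact hdvr

/-- `A ∩ K₀` for a valuation ring `A` of an extension `L` of the number field `K₀`, when some
nonzero `x ∈ K₀` is a non-unit of `A`, is a discrete valuation ring. -/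
theorem nf_isDiscreteValuationRing_comap {L : Type*} [Field L] [Algebra K L]
    (A : ValuationSubring L) {x : K} (hx0 : x ≠ 0) (hx : algebraMap K L x ∈ A.nonunits) :
    IsDiscreteValuationRing (A.comap (algebraMap K L)) := by
  apply nf_isDiscreteValuationRing
  intro htop
  have h1 : x⁻¹ ∈ A.comap (algebraMap K L) := by rw [htop]; trivial
  have h2 : (algebraMap K L x)⁻¹ ∈ A := by
    have := (ValuationSubring.mem_comap).mp h1
    rwa [map_inv₀] at this
  have hx0' : algebraMap K L x ≠ 0 := by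
    intro h
    exact hx0 ((map_eq_zero (algebraMap K L)).mp h)
  rcases (ValuationSubring.mem_nonunits_iff_or (A := A)).mp hx with h | h
  · exact hx0' h
  · exact h h2

end Fermat.Agent.INJ


end ZBINJ_007_0

/-! ### bundled: `Fermat.Agent.INJ.LocalSetup` -/
section ZBINJ_007_1

/-!
# (INJ) final assembly, piece LS: the local setup `A₀ = A ∩ K₀`

`A ⊂ ℚ̄` a valuation ring over the prime `ℓ`, `K₀ ⊂ ℚ̄` a number field, `A₀ = nfSub A K₀`,
`nfRes A K₀ : A₀ → k(A)` the reduction, `π ∈ A₀` irreducible.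

* `ls_isDVR` : `A₀` is a discrete valuation ring;
* `ls_res_eq_zero_iff` : `nfRes a = 0 ↔ ¬ IsUnit a`;
* (LS1) `ls_res_irreducible`, `ls_dvd_of_res_eq_zero`;
* (LS2) `ls_natCast_residue_ne_zero`;
* (LS3) `ls_isUnit_natCast`;
* (LS4) `ls_exists_primitiveRoot`;
* (LS5) `ls_exists_inv_zeta_sub_one`;
* (LS6) `ls_not_dvd_intCast_sub`.
-/

set_option autoImplicit false

namespace Fermat.Agent.INJ

open ModularCurve

variable (A : ValuationSubring NfQb) (K₀ : IntermediateField ℚ NfQb)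

/-- the residue field of a valuation subring over `ℓ` has characteristic `ℓ` -/
theorem ls_charP_residueField {ℓ : ℕ} (hℓ : ℓ.Prime) (hA : A.LiesOverPrime ℓ) :
    CharP (IsLocalRing.ResidueField A) ℓ := by
  rw [CharP.charP_iff_prime_eq_zero hℓ]
  have h1 : (((ℓ : A) : A) : NfQb) ∈ A.nonunits := by
    have : (((ℓ : A) : A) : NfQb) = (ℓ : NfQb) := by simp
    rw [this]
    exact hA
  rw [ValuationSubring.coe_mem_nonunits_iff, ← IsLocalRing.residue_eq_zero_iff, map_natCast] at h1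
  exact h1

/-- `A₀ = A ∩ K₀` is a discrete valuation ring. -/
theorem ls_isDVR [FiniteDimensional ℚ K₀] {ℓ : ℕ} (hℓ : ℓ.Prime) (hA : A.LiesOverPrime ℓ) :
    IsDiscreteValuationRing (nfSub A K₀) := by
  have hnf : NumberField K₀ := { to_charZero := inferInstance, to_finiteDimensional := inferInstance }
  refine nf_isDiscreteValuationRing_comap (K := K₀) (L := NfQb) A (x := (ℓ : K₀)) ?_ ?_
  · exact Nat.cast_ne_zero.mpr hℓ.ne_zero
  · rw [map_natCast]
    exact hA

/-- units of `A ∩ K₀` are detected in `A`. -/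
theorem ls_isUnit_iff (a : nfSub A K₀) : IsUnit a ↔ IsUnit (nfSubIncl A K₀ a) := by
  constructor
  · intro h
    exact h.map (nfSubIncl A K₀)
  · intro h
    obtain ⟨u, hu⟩ := h
    have h1 : ((u : A) : NfQb) * ((↑(u⁻¹) : A) : NfQb) = 1 := by
      rw [← A.coe_mul, Units.mul_inv]; rfl
    rw [hu, coe_nfSubIncl] at h1
    have ha0 : (a : K₀) ≠ 0 := by
      intro h0
      rw [h0, map_zero, zero_mul] at h1
      exact zero_ne_one h1
    have hinv : ((↑(u⁻¹) : A) : NfQb) = algebraMap K₀ NfQb (a : K₀)⁻¹ := by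
      rw [map_inv₀]
      exact eq_inv_of_mul_eq_one_right h1
    have hmem : (a : K₀)⁻¹ ∈ nfSub A K₀ := by
      show algebraMap K₀ NfQb (a : K₀)⁻¹ ∈ A
      rw [← hinv]
      exact (↑(u⁻¹) : A).2
    refine isUnit_iff_exists_inv.mpr ⟨⟨(a : K₀)⁻¹, hmem⟩, ?_⟩
    apply Subtype.ext
    show (a : K₀) * (a : K₀)⁻¹ = 1
    exact mul_inv_cancel₀ ha0

/-- the kernel of the reduction consists of the non-units. -/
theorem ls_res_eq_zero_iff (a : nfSub A K₀) : nfRes A K₀ a = 0 ↔ ¬ IsUnit a := by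
  rw [nfRes_apply, IsLocalRing.residue_eq_zero_iff, IsLocalRing.mem_maximalIdeal,
    mem_nonunits_iff, ls_isUnit_iff]

/-- **(LS1a)** the reduction kills a non-unit, in particular an irreducible element. -/
theorem ls_res_irreducible {π : nfSub A K₀} (hπ : Irreducible π) : nfRes A K₀ π = 0 :=
  (ls_res_eq_zero_iff A K₀ π).mpr hπ.not_isUnit

/-- **(LS1b)** the kernel of the reduction is generated by `π`. -/
theorem ls_dvd_of_res_eq_zero [IsDiscreteValuationRing (nfSub A K₀)]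
    {π : nfSub A K₀} (hπ : Irreducible π) (a : nfSub A K₀) (ha : nfRes A K₀ a = 0) : π ∣ a := by
  have h1 : ¬ IsUnit a := (ls_res_eq_zero_iff A K₀ a).mp ha
  have h2 : a ∈ IsLocalRing.maximalIdeal (nfSub A K₀) := by
    rw [IsLocalRing.mem_maximalIdeal, mem_nonunits_iff]
    exact h1
  rw [(IsDiscreteValuationRing.irreducible_iff_uniformizer π).mp hπ] at h2
  exact Ideal.mem_span_singleton.mp h2

/-- **(LS2)** integers prime to `ℓ` are nonzero in the residue field. -/
theorem ls_natCast_residue_ne_zero {ℓ : ℕ} (hℓ : ℓ.Prime) (hA : A.LiesOverPrime ℓ)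
    (m : ℕ) (hm : ¬ ℓ ∣ m) : ((m : ℕ) : IsLocalRing.ResidueField A) ≠ 0 := by
  have := ls_charP_residueField A hℓ hA
  intro h0
  exact hm ((CharP.cast_eq_zero_iff (IsLocalRing.ResidueField A) ℓ m).mp h0)

/-- **(LS3)** integers prime to `ℓ` are units of `A ∩ K₀`. -/
theorem ls_isUnit_natCast {ℓ : ℕ} (hℓ : ℓ.Prime) (hA : A.LiesOverPrime ℓ)
    (m : ℕ) (hm : ¬ ℓ ∣ m) : IsUnit ((m : ℕ) : nfSub A K₀) := by
  by_contra hnu
  have h0 := (ls_res_eq_zero_iff A K₀ _).mpr hnu
  rw [map_natCast] at h0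
  exact ls_natCast_residue_ne_zero A hℓ hA m hm h0

/-- integers prime to `ℓ` are units of `A ∩ K₀` (integer form). -/
theorem ls_isUnit_intCast {ℓ : ℕ} (hℓ : ℓ.Prime) (hA : A.LiesOverPrime ℓ)
    (m : ℤ) (hm : ¬ (ℓ : ℤ) ∣ m) : IsUnit ((m : ℤ) : nfSub A K₀) := by
  have := ls_charP_residueField A hℓ hA
  by_contra hnu
  have h0 := (ls_res_eq_zero_iff A K₀ _).mpr hnu
  rw [map_intCast] at h0
  exact hm ((CharP.intCast_eq_zero_iff (IsLocalRing.ResidueField A) ℓ m).mp h0)

/-- a root of unity of `K₀` lies in `A ∩ K₀`. -/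
theorem ls_mem_of_pow_eq_one {m : ℕ} (hm : m ≠ 0) {ζ : K₀} (hζ : ζ ^ m = 1) :
    ζ ∈ nfSub A K₀ := by
  show algebraMap K₀ NfQb ζ ∈ A
  rw [← A.valuation_le_one_iff]
  have h1 : A.valuation (algebraMap K₀ NfQb ζ) ^ m = 1 := by
    rw [← map_pow, ← map_pow, hζ, map_one, map_one]
  exact le_of_eq ((pow_eq_one_iff.mp h1).resolve_right hm)

/-- **(LS4)** primitive roots of unity of `K₀` lie in `A ∩ K₀`. -/
theorem ls_exists_primitiveRoot {m : ℕ} (hm : m ≠ 0) (h : ∃ ζ : K₀, IsPrimitiveRoot ζ m) :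
    ∃ ζ : nfSub A K₀, IsPrimitiveRoot ζ m := by
  obtain ⟨ζ, hζ⟩ := h
  refine ⟨⟨ζ, ls_mem_of_pow_eq_one A K₀ hm hζ.pow_eq_one⟩, ?_⟩
  refine IsPrimitiveRoot.of_map_of_injective (f := (nfSub A K₀).subtype) ?_ ?_
  · exact hζ
  · exact Subtype.val_injective

/-- **(LS5)** `ζ_p - 1` is a unit of `A ∩ K₀` for a prime `p ≠ ℓ`. -/
theorem ls_exists_inv_zeta_sub_one {ℓ : ℕ} (hℓ : ℓ.Prime) (hA : A.LiesOverPrime ℓ)
    {p : ℕ} (hp : p.Prime) (hpℓ : p ≠ ℓ) (ζ : nfSub A K₀) (hζ : IsPrimitiveRoot ζ p) :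
    ∃ u : nfSub A K₀, (ζ - 1) * u = 1 := by
  have hu : IsUnit (ζ - 1) := by
    by_contra hnu
    have h0 := (ls_res_eq_zero_iff A K₀ _).mpr hnu
    rw [map_sub, map_one, sub_eq_zero] at h0
    have hsum : ∑ i ∈ Finset.range p, ζ ^ i = 0 := hζ.geom_sum_eq_zero hp.one_lt
    have hsum' := congrArg (nfRes A K₀) hsum
    rw [map_sum, map_zero] at hsum'
    simp only [map_pow, h0, one_pow, Finset.sum_const, Finset.card_range, nsmul_eq_mul,
      mul_one] at hsum'
    refine ls_natCast_residue_ne_zero A hℓ hA p ?_ hsum'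
    intro hdvd
    exact hpℓ ((Nat.prime_dvd_prime_iff_eq hℓ hp).mp hdvd).symm
  obtain ⟨u, hu'⟩ := isUnit_iff_exists_inv.mp hu
  exact ⟨u, hu'⟩

/-- **(LS6)** integers that are distinct modulo `ℓ` are distinct modulo `π`. -/
theorem ls_not_dvd_intCast_sub {ℓ : ℕ} (hℓ : ℓ.Prime) (hA : A.LiesOverPrime ℓ)
    {π : nfSub A K₀} (hπ : ¬ IsUnit π) (a b : ℤ) (hab : ¬ (ℓ : ℤ) ∣ a - b) :
    ¬ π ∣ ((a : nfSub A K₀) - (b : nfSub A K₀)) := by
  intro hdvd
  have hu : IsUnit ((a : nfSub A K₀) - (b : nfSub A K₀)) := by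
    have := ls_isUnit_intCast A K₀ hℓ hA (a - b) hab
    rwa [Int.cast_sub] at this
  exact hπ (isUnit_of_dvd_unit hdvd hu)

/-- `π ≠ 0` and `π` is not a unit, for the record. -/
theorem ls_irreducible_ne_zero {π : nfSub A K₀} (hπ : Irreducible π) : π ≠ 0 := hπ.ne_zero

end Fermat.Agent.INJ


end ZBINJ_007_1

/-! ### bundled: `Fermat.Agent.S33.DepthStart` -/
section ZBINJ_007_2

/-!
# S33 v2, block C3: the start of the depth iteration  (helper61)

`stmtDepthStart (hp : p.Prime) : StmtDepthStart p` — a function of `F_N` which reduces to one at a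
valuation ring `A ⊂ ℚ̄` over `p` is congruent to one modulo `ϖ A`, where `ϖ` is a uniformizer of
the discrete valuation ring `A ∩ K₀` of a number field `K₀` over which the two primitive series
`y₁`, `y₂` (`u = y₁ / y₂`) are defined; `ϖ ∣ p` and `p ∣ ϖ ^ e` in `A`.

(`StmtDepthStart 0` is false, since `A.LiesOverPrime 0` always holds: the theorem carries `hp`.)
-/

set_option autoImplicit false

noncomputable section

namespace Fermat.Agent.S33

open ModularCurve AlgebraicCurve Fermat.Agent.ES Fermat.Agent.ES.G2 Fermat.Agent.INJ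

/-- an element of `K₀` whose image lies in the maximal ideal of `A` is divisible by a uniformizer
of `A ∩ K₀` -/
theorem ds_dvd_of_mem_nonunits (A : ValuationSubring NfQb) (K₀ : IntermediateField ℚ NfQb)
    [IsDiscreteValuationRing (nfSub A K₀)] {π : nfSub A K₀} (hπ : Irreducible π) (d : K₀)
    (hd : algebraMap K₀ NfQb d ∈ A.nonunits) :
    ∃ a ∈ A, algebraMap K₀ NfQb d = algebraMap K₀ NfQb (π : K₀) * a := by
  have hdA : algebraMap K₀ NfQb d ∈ A := ValuationSubring.nonunits_subset hd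
  set d' : nfSub A K₀ := ⟨d, hdA⟩ with hd'
  have hres : nfRes A K₀ d' = 0 := by
    rw [nfRes_apply, IsLocalRing.residue_eq_zero_iff, ← ValuationSubring.coe_mem_nonunits_iff]
    exact hd
  obtain ⟨a₀, ha₀⟩ := ls_dvd_of_res_eq_zero A K₀ hπ d' hres
  refine ⟨algebraMap K₀ NfQb (a₀ : K₀), a₀.2, ?_⟩
  have := congrArg (fun x : nfSub A K₀ => algebraMap K₀ NfQb (x : K₀)) ha₀
  simpa using this

/-- **C3, start.** -/
theorem stmtDepthStart {p : ℕ} (hp : p.Prime) : StmtDepthStart p := by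
  intro A hA N _ u hu
  classical
  obtain ⟨y₁, y₂, hy₁, hy₂, hP₁, hP₂, hC, he⟩ := hu
  obtain ⟨K₀, hK₀, -, hK⟩ := nf_exists_descent_finset (N := N) ∅ {y₁, y₂} (by
    intro y hy
    rcases Finset.mem_insert.1 hy with rfl | hy
    · exact hy₁
    · rw [Finset.mem_singleton.1 hy]; exact hy₂)
  obtain ⟨z₁, -, hz₁⟩ := hK K₀ le_rfl y₁ (Finset.mem_insert_self _ _)
  obtain ⟨z₂, -, hz₂⟩ := hK K₀ le_rfl y₂
    (Finset.mem_insert_of_mem (Finset.mem_singleton_self _))
  haveI := hK₀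
  haveI : IsDiscreteValuationRing (nfSub A K₀) := ls_isDVR A K₀ hp hA
  obtain ⟨π, hπ⟩ := IsDiscreteValuationRing.exists_irreducible (nfSub A K₀)
  have hinj : Function.Injective (algebraMap K₀ NfQb) := (algebraMap K₀ NfQb).injective
  have hπ0 : (π : K₀) ≠ 0 := fun h => hπ.ne_zero (Subtype.ext h)
  -- `p = ϖ a`
  have hpK : algebraMap K₀ NfQb ((p : ℕ) : K₀) ∈ A.nonunits := by
    rw [map_natCast]; exact hA
  obtain ⟨a, haA, hpa⟩ := ds_dvd_of_mem_nonunits A K₀ hπ ((p : ℕ) : K₀) hpK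
  rw [map_natCast] at hpa
  -- `ϖ ^ e = p b`
  have hp0 : ((p : ℕ) : nfSub A K₀) ≠ 0 := by
    intro h
    have h1 := congrArg (fun x : nfSub A K₀ => (x : K₀)) h
    push_cast at h1
    exact (Nat.cast_ne_zero.2 hp.ne_zero) h1
  obtain ⟨e, he'⟩ := IsDiscreteValuationRing.associated_pow_irreducible hp0 hπ
  obtain ⟨w, hw⟩ := he'
  have hpe : algebraMap K₀ NfQb (π : K₀) ^ e
      = (p : NfQb) * algebraMap K₀ NfQb ((w : nfSub A K₀) : K₀) := by
    have := congrArg (fun x : nfSub A K₀ => algebraMap K₀ NfQb (x : K₀)) hw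
    push_cast at this
    exact this.symm
  refine ⟨algebraMap K₀ NfQb (π : K₀), a, algebraMap K₀ NfQb ((w : nfSub A K₀) : K₀), e, π.2,
    haA, (w : nfSub A K₀).2, (map_ne_zero_iff _ hinj).2 hπ0, hpa, hpe, ?_⟩
  refine ⟨y₁, y₂, hy₁, hy₂, hP₁, hP₂, fun n => ?_, he⟩
  have h1 : y₁.coeff n - y₂.coeff n = algebraMap K₀ NfQb (z₁.coeff n - z₂.coeff n) := by
    rw [← hz₁, ← hz₂, coeffMap_coeff, coeffMap_coeff, map_sub]
  have h2 : algebraMap K₀ NfQb (z₁.coeff n - z₂.coeff n) ∈ A.nonunits := by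
    rw [← h1]; exact hC n
  obtain ⟨b, hbA, hb⟩ := ds_dvd_of_mem_nonunits A K₀ hπ _ h2
  exact ⟨b, hbA, by rw [h1, hb]⟩

end Fermat.Agent.S33

end
end ZBINJ_007_2
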