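/- GENERATED FILE (helper35, build-time optimisation, NOTES/ZB.md): verbatim concatenation of the modules
   Fermat.Agent.INJ.CoeffDescent
   Fermat.Agent.INJ.BGRamH
   Do not edit; do not import together with these modules. -/
import Fermat.Agent.ZB.INJ_013
import Fermat.Agent.ZB.INJ_012

/-! ### bundled: `Fermat.Agent.INJ.CoeffDescent` -/
section ZBINJ_014_0

/-!
# (INJ) B-glue: coefficient descent for `F_N`

`K₀ ⊆ ℚ̄`.  A Laurent series `x ∈ K₀((q))` whose image in `ℚ̄((q))` lies in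
`F_N(ℚ̄) = modularFunctionFieldBar N` lies in `F_N(K₀) = modularFunctionFieldFullC K₀ N`.

Proof: `F_N(ℚ̄)` is the `F_N(K₀)`-span of the constants `ℚ̄` (`ℚ̄ / K₀` is algebraic); apply a
`K₀`-linear retraction `φ : ℚ̄ → K₀` coefficientwise.

* `cdMap φ` : coefficientwise application of a linear form;
* `coeffDescent_mem` : the statement;
* `hm2_mem_fullC`, `hm3_mem_fullC` : the Hauptmoduln of `X₀(2)`, `X₀(3)` lie in `F_N(K₀)`.
-/

set_option autoImplicit false
set_option linter.style.haveILetI false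
set_option linter.unusedSectionVars false

namespace Fermat.Agent.INJ

open Polynomial AlgebraicCurve IntermediateField Fermat.Agent.S24 ModularCurve

section Phi

variable {K K' : Type*} [Field K] [Field K'] [Algebra K K']

/-- coefficientwise application of a `K`-linear form `K' → K` -/
noncomputable def cdMap (φ : K' →ₗ[K] K) : LaurentSeries K' →+ LaurentSeries K where
  toFun y := y.map φ
  map_zero' := by
    ext n
    simp
  map_add' x y := by
    ext n
    simp

theorem cdMap_coeff (φ : K' →ₗ[K] K) (y : LaurentSeries K') (n : ℤ) :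
    (cdMap φ y).coeff n = φ (y.coeff n) := rfl

theorem cdMap_smul_coeffMap (φ : K' →ₗ[K] K) (c : K') (f : LaurentSeries K) :
    cdMap φ (c • coeffMap (algebraMap K K') f) = φ c • f := by
  ext n
  rw [cdMap_coeff, HahnSeries.coeff_smul, HahnSeries.coeff_smul]
  show φ (c • algebraMap K K' (f.coeff n)) = φ c • f.coeff n
  rw [smul_eq_mul, smul_eq_mul, mul_comm, ← Algebra.smul_def, map_smul, smul_eq_mul, mul_comm]

theorem cd_algebraMap_eq_single {R : Type*} [Field R] (c : R) :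
    algebraMap R (LaurentSeries R) c = HahnSeries.single 0 c := by
  have h1 : algebraMap R (PowerSeries R) c = PowerSeries.C c := by simp
  rw [HahnSeries.algebraMap_apply', h1, HahnSeries.ofPowerSeries_C]
  rfl

theorem cdMap_const_mul_coeffMap (φ : K' →ₗ[K] K) (c : K') (f : LaurentSeries K) :
    cdMap φ (coeffMap (algebraMap K K') f * algebraMap K' (LaurentSeries K') c)
      = algebraMap K (LaurentSeries K) (φ c) * f := by
  rw [cd_algebraMap_eq_single, cd_algebraMap_eq_single, mul_comm,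
    HahnSeries.single_zero_mul_eq_smul, HahnSeries.single_zero_mul_eq_smul]
  exact cdMap_smul_coeffMap φ c f

theorem cdMap_coeffMap (φ : K' →ₗ[K] K) (hφ : ∀ a : K, φ (algebraMap K K' a) = a)
    (x : LaurentSeries K) : cdMap φ (coeffMap (algebraMap K K') x) = x := by
  ext n
  rw [cdMap_coeff]
  show φ (algebraMap K K' (x.coeff n)) = x.coeff n
  exact hφ _

theorem cdMap_exists_retraction :
    ∃ φ : K' →ₗ[K] K, ∀ a : K, φ (algebraMap K K' a) = a := by
  obtain ⟨g, hg⟩ := LinearMap.exists_leftInverse_of_injective (Algebra.linearMap K K')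
    (LinearMap.ker_eq_bot.mpr (algebraMap K K').injective)
  refine ⟨g, fun a => ?_⟩
  have := congrArg (fun f => f a) hg
  simpa using this

end Phi

set_option synthInstance.maxHeartbeats 400000
set_option maxHeartbeats 1000000

section Descent

variable (K₀ : IntermediateField ℚ NfQb) (N : ℕ)

/-- `F_N(ℚ̄)` is the `F_N(K₀)`-span of the constants. -/
theorem coeffDescent_span :
    letI := bgRam_algebra K₀ N
    Submodule.span (modularFunctionFieldFullC K₀ N) (Set.range (algebraMap Kb (FF N))) = ⊤ := by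
  letI := bgRam_algebra K₀ N
  haveI := bgRam_tower K₀ N
  haveI := bgRam_isAlgebraic K₀
  have hgen : IntermediateField.adjoin (modularFunctionFieldFullC K₀ N)
      (Set.range (algebraMap Kb (FF N))) = ⊤ :=
    PlaceExt.adjoin_range_swap (nfEmb_adjoin_range K₀ N)
  have halg : ∀ y ∈ Set.range (algebraMap Kb (FF N)),
      IsAlgebraic (modularFunctionFieldFullC K₀ N) y := by
    rintro _ ⟨a, rfl⟩
    have ha : IsIntegral K₀ a := (Algebra.IsAlgebraic.isAlgebraic a).isIntegral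
    have h2 : IsIntegral K₀ (algebraMap Kb (FF N) a) :=
      ha.map (IsScalarTower.toAlgHom K₀ Kb (FF N))
    exact (h2.tower_top (A := modularFunctionFieldFullC K₀ N)).isAlgebraic
  have h1 := IntermediateField.adjoin_toSubalgebra_of_isAlgebraic halg
  rw [hgen, IntermediateField.top_toSubalgebra] at h1
  have h2 := Algebra.adjoin_eq_span (modularFunctionFieldFullC K₀ N)
    (Set.range (algebraMap Kb (FF N)))
  rw [← h1, Algebra.top_toSubmodule] at h2
  have hcl : (Submonoid.closure (Set.range (algebraMap Kb (FF N))) : Set (FF N))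
      = Set.range (algebraMap Kb (FF N)) := by
    have : Set.range (algebraMap Kb (FF N))
        = ((MonoidHom.mrange (algebraMap Kb (FF N)).toMonoidHom : Submonoid (FF N)) :
            Set (FF N)) := by
      ext y
      simp
    rw [this, Submonoid.closure_eq]
  rw [hcl] at h2
  exact h2.symm

/-- **Coefficient descent.** -/
theorem coeffDescent_mem (x : LaurentSeries K₀)
    (hx : coeffMap (algebraMap K₀ NfQb) x ∈ modularFunctionFieldBar N) :
    x ∈ modularFunctionFieldFullC K₀ N := by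
  letI := bgRam_algebra K₀ N
  obtain ⟨φ, hφ⟩ := cdMap_exists_retraction (K := K₀) (K' := NfQb)
  -- the predicate
  have key : ∀ y : FF N, ∀ g : modularFunctionFieldFullC K₀ N,
      cdMap φ (coeffMap (algebraMap K₀ NfQb) (g : LaurentSeries K₀) * (y : LaurentSeries Kb))
        ∈ modularFunctionFieldFullC K₀ N := by
    intro y
    have hy : y ∈ Submodule.span (modularFunctionFieldFullC K₀ N)
        (Set.range (algebraMap Kb (FF N))) := by
      rw [coeffDescent_span]; trivial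
    induction hy using Submodule.span_induction with
    | mem y hy =>
        obtain ⟨c, rfl⟩ := hy
        intro g
        have h1 : ((algebraMap Kb (FF N) c : FF N) : LaurentSeries Kb)
            = algebraMap Kb (LaurentSeries Kb) c := rfl
        rw [h1, cdMap_const_mul_coeffMap]
        exact mul_mem ((modularFunctionFieldFullC K₀ N).algebraMap_mem (φ c)) g.2
    | zero =>
        intro g
        rw [ZeroMemClass.coe_zero, mul_zero, map_zero]
        exact zero_mem _
    | add y z _ _ hy hz =>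
        intro g
        rw [AddMemClass.coe_add, mul_add, map_add]
        exact add_mem (hy g) (hz g)
    | smul f y _ hy =>
        intro g
        have h1 : ((f • y : FF N) : LaurentSeries Kb)
            = coeffMap (algebraMap K₀ NfQb) (f : LaurentSeries K₀) * (y : LaurentSeries Kb) := rfl
        rw [h1, ← mul_assoc, ← map_mul]
        exact hy (g * f)
  have h := key ⟨_, hx⟩ 1
  rw [OneMemClass.coe_one, map_one, one_mul] at h
  rwa [cdMap_coeffMap φ hφ] at h

/-- The Hauptmodul of `X₀(2)` lies in `F_N(K₀)` (`2 ∣ N`). -/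
theorem hm2_mem_fullC [NeZero N] (h2 : 2 ∣ N) : hm2 K₀ ∈ modularFunctionFieldFullC K₀ N := by
  apply coeffDescent_mem
  have : coeffMap (algebraMap K₀ NfQb) (hm2 K₀) = hm2 Kb := hm2_map (algebraMap K₀ NfQb)
  rw [this]
  exact hm2_mem N h2

/-- The Hauptmodul of `X₀(3)` lies in `F_N(K₀)` (`3 ∣ N`). -/
theorem hm3_mem_fullC [NeZero N] (h3 : 3 ∣ N) : hm3 K₀ ∈ modularFunctionFieldFullC K₀ N := by
  apply coeffDescent_mem
  have : coeffMap (algebraMap K₀ NfQb) (hm3 K₀) = hm3 Kb := hm3_map (algebraMap K₀ NfQb)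
  rw [this]
  exact hm3_mem N h3

end Descent

end Fermat.Agent.INJ


end ZBINJ_014_0

/-! ### bundled: `Fermat.Agent.INJ.BGRamH` -/
section ZBINJ_014_1

/-!
# (INJ) B-glue, piece BG-b over the Hauptmodul lines (`ℓ ∈ {2, 3}`)

`K₀ ⊆ ℚ̄`, `F₀ = modularFunctionFieldFullC K₀ N`, `Lf = kumField K₀ N h = F₀(h)`, `h ^ p = w ∈ F₀`,
`div w ∈ p · Div` on `F_N(ℚ̄)`.
* `bgRam_h2line` (`2 ∣ N`, for `ℓ = 3`): `t = hm2` (Hauptmodul of `X₀(2)`), `Σ ↦ {0, -64}`, `N ∣ e`;
* `bgRam_h3line` (`3 ∣ N`, for `ℓ = 2`): `t = hm3` (Hauptmodul of `X₀(3)`), `Σ ↦ {0, -27}`, `N ∣ e`.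
-/

set_option autoImplicit false
set_option linter.style.haveILetI false
set_option linter.unusedSectionVars false
set_option synthInstance.maxHeartbeats 400000
set_option maxHeartbeats 1000000

namespace Fermat.Agent.INJ

open Polynomial AlgebraicCurve IntermediateField Fermat.Agent.S24 ModularCurve

section BGRamH

variable (K₀ : IntermediateField ℚ NfQb) (N : ℕ) [NeZero N] (h : LaurentSeries K₀)

/-- the Hauptmodul of `X₀(2)` in `F_N(K₀)` -/
noncomputable def bgH2 (h2 : 2 ∣ N) : modularFunctionFieldFullC K₀ N :=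
  ⟨hm2 K₀, hm2_mem_fullC K₀ N h2⟩

/-- the Hauptmodul of `X₀(3)` in `F_N(K₀)` -/
noncomputable def bgH3 (h3 : 3 ∣ N) : modularFunctionFieldFullC K₀ N :=
  ⟨hm3 K₀, hm3_mem_fullC K₀ N h3⟩

theorem coe_bgH2 (h2 : 2 ∣ N) : ((bgH2 K₀ N h2 : modularFunctionFieldFullC K₀ N) :
    LaurentSeries K₀) = hm2 K₀ := rfl

theorem coe_bgH3 (h3 : 3 ∣ N) : ((bgH3 K₀ N h3 : modularFunctionFieldFullC K₀ N) :
    LaurentSeries K₀) = hm3 K₀ := rfl

theorem bgRam_nfEmb_bgH2 (h2 : 2 ∣ N) : nfEmb K₀ N (bgH2 K₀ N h2) = hF2 N h2 := by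
  apply Subtype.ext
  rw [nfEmb_coe, hF2_coe, coe_bgH2]
  exact hm2_map (algebraMap K₀ NfQb)

theorem bgRam_nfEmb_bgH3 (h3 : 3 ∣ N) : nfEmb K₀ N (bgH3 K₀ N h3) = hF3 N h3 := by
  apply Subtype.ext
  rw [nfEmb_coe, hF3_coe, coe_bgH3]
  exact hm3_map (algebraMap K₀ NfQb)

/-- **BG-b over the Hauptmodul line of `X₀(2)`** (`ℓ = 3`). -/
theorem bgRam_h2line (h2 : 2 ∣ N) {A₀ : Type} [CommRing A₀] [Algebra A₀ K₀]
    [Algebra A₀ (kumField K₀ N h)] [IsScalarTower A₀ K₀ (kumField K₀ N h)]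
    (p : ℕ) (hp : p ≠ 0) (w : modularFunctionFieldFullC K₀ N)
    (hw : h ^ p = (w : LaurentSeries K₀)) (hh0 : h ≠ 0)
    (hdiv : ∀ v : Place Kb (FF N), (p : ℤ) ∣ v.ord (nfEmb K₀ N w))
    (S : Finset A₀)
    (hS : ∀ c ∈ S, algebraMap A₀ K₀ c = 0 ∨ algebraMap A₀ K₀ c = -64)
    (h0 : ∃ c ∈ S, algebraMap A₀ K₀ c = 0)
    (h64 : ∃ c ∈ S, algebraMap A₀ K₀ c = -64)
    (e : ℕ) (hN : N ∣ e) :
    TSUnramified (E := K₀) (kumIncl K₀ N h (bgH2 K₀ N h2)) S ∧
      TSTame (E := K₀) (kumIncl K₀ N h (bgH2 K₀ N h2)) S e := by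
  letI := kumAlgebra K₀ N h
  haveI := kum_isScalarTower K₀ N h
  letI := bgRam_algebra K₀ N
  haveI := bgRam_tower K₀ N
  haveI := bgRam_isAlgebraic K₀
  refine ramB_h2line (E := K₀) (Lf := kumField K₀ N h) N h2 (bgH2 K₀ N h2)
    (bgRam_nfEmb_bgH2 K₀ N h2) S
    ?_ ?_ ?_ e hN (bgRam_hkum K₀ N h p hp w hw hh0 hdiv) (bgRam_hext K₀ N)
  · intro c hc
    rcases hS c hc with h' | h'
    · left; rw [h', map_zero]
    · right; rw [h', map_neg, map_ofNat]
  · obtain ⟨c, hc, h'⟩ := h0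
    exact ⟨c, hc, by rw [h', map_zero]⟩
  · obtain ⟨c, hc, h'⟩ := h64
    exact ⟨c, hc, by rw [h', map_neg, map_ofNat]⟩

/-- **BG-b over the Hauptmodul line of `X₀(3)`** (`ℓ = 2`). -/
theorem bgRam_h3line (h3 : 3 ∣ N) {A₀ : Type} [CommRing A₀] [Algebra A₀ K₀]
    [Algebra A₀ (kumField K₀ N h)] [IsScalarTower A₀ K₀ (kumField K₀ N h)]
    (p : ℕ) (hp : p ≠ 0) (w : modularFunctionFieldFullC K₀ N)
    (hw : h ^ p = (w : LaurentSeries K₀)) (hh0 : h ≠ 0)
    (hdiv : ∀ v : Place Kb (FF N), (p : ℤ) ∣ v.ord (nfEmb K₀ N w))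
    (S : Finset A₀)
    (hS : ∀ c ∈ S, algebraMap A₀ K₀ c = 0 ∨ algebraMap A₀ K₀ c = -27)
    (h0 : ∃ c ∈ S, algebraMap A₀ K₀ c = 0)
    (h27 : ∃ c ∈ S, algebraMap A₀ K₀ c = -27)
    (e : ℕ) (hN : N ∣ e) :
    TSUnramified (E := K₀) (kumIncl K₀ N h (bgH3 K₀ N h3)) S ∧
      TSTame (E := K₀) (kumIncl K₀ N h (bgH3 K₀ N h3)) S e := by
  letI := kumAlgebra K₀ N h
  haveI := kum_isScalarTower K₀ N h
  letI := bgRam_algebra K₀ N
  haveI := bgRam_tower K₀ N
  haveI := bgRam_isAlgebraic K₀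
  refine ramB_h3line (E := K₀) (Lf := kumField K₀ N h) N h3 (bgH3 K₀ N h3)
    (bgRam_nfEmb_bgH3 K₀ N h3) S
    ?_ ?_ ?_ e hN (bgRam_hkum K₀ N h p hp w hw hh0 hdiv) (bgRam_hext K₀ N)
  · intro c hc
    rcases hS c hc with h' | h'
    · left; rw [h', map_zero]
    · right; rw [h', map_neg, map_ofNat]
  · obtain ⟨c, hc, h'⟩ := h0
    exact ⟨c, hc, by rw [h', map_zero]⟩
  · obtain ⟨c, hc, h'⟩ := h27
    exact ⟨c, hc, by rw [h', map_neg, map_ofNat]⟩

end BGRamH

end Fermat.Agent.INJ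


end ZBINJ_014_1
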