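/- GENERATED FILE (helper35, build-time optimisation, NOTES/ZB.md): verbatim concatenation of the modules
   Fermat.Agent.INJ.InjDescentAux
   Fermat.Agent.INJ.InjJ
   Fermat.Agent.INJ.InjH2
   Fermat.Agent.INJ.InjH3
   Fermat.Agent.PR.Frob
   Do not edit; do not import together with these modules. -/
import Mathlib
import Fermat.Prelude.Def_ModularCurve_ReductionModL
import Fermat.Prelude.Def_FLTPrelim_Ramification
import Fermat.Agent.ZB.INJ_005
import Fermat.Agent.ZB.INJ_007
import Fermat.Agent.ZB.INJ_003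
import Fermat.Agent.ZB.S28_002
import Fermat.Agent.ZB.INJ_015
import Fermat.Agent.ZB.INJ_012
import Fermat.Agent.ZB.ES_001

/-! ### bundled: `Fermat.Agent.INJ.InjDescentAux` -/
section ZBINJ_016_0

/-!
# (INJ) B-glue: small lemmas for the descent to a number field

* `nf_order_coeffMap`, `nf_leadingCoeff_coeffMap` : order and leading coefficient are preserved
  by `coeffMap f` for an injective `f`;
* `nf_perfectRing_residueField` : the residue field of a valuation subring of an algebraically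
  closed field, of residue characteristic `ℓ`, is perfect.
-/

set_option autoImplicit false

open ModularCurve

namespace Fermat.Agent.INJ

section Order

variable {R S : Type*} [CommRing R] [CommRing S]

theorem nf_coeffMap_eq_zero_iff (f : R →+* S) (hf : Function.Injective f) (x : LaurentSeries R) :
    coeffMap f x = 0 ↔ x = 0 := by
  constructor
  · intro h
    ext n
    have := congrArg (fun z => z.coeff n) h
    simp only [coeffMap_coeff, HahnSeries.coeff_zero] at this
    rw [HahnSeries.coeff_zero]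
    exact hf (by rw [this, map_zero])
  · rintro rfl
    exact map_zero _

theorem nf_order_coeffMap (f : R →+* S) (hf : Function.Injective f) (x : LaurentSeries R) :
    (coeffMap f x).order = x.order := by
  rcases eq_or_ne x 0 with rfl | hx
  · simp
  have hx' : coeffMap f x ≠ 0 := fun h => hx ((nf_coeffMap_eq_zero_iff f hf x).mp h)
  apply le_antisymm
  · apply HahnSeries.order_le_of_coeff_ne_zero
    rw [coeffMap_coeff]
    intro h
    have h0 : x.coeff x.order = 0 := hf (by rw [h, map_zero])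
    exact hx (HahnSeries.coeff_order_eq_zero.mp h0)
  · apply HahnSeries.order_le_of_coeff_ne_zero
    intro h
    have : (coeffMap f x).coeff (coeffMap f x).order = 0 := by
      rw [coeffMap_coeff, h, map_zero]
    exact hx' (HahnSeries.coeff_order_eq_zero.mp this)

theorem nf_leadingCoeff_coeffMap (f : R →+* S) (hf : Function.Injective f)
    (x : LaurentSeries R) :
    (coeffMap f x).leadingCoeff = f x.leadingCoeff := by
  rw [HahnSeries.leadingCoeff_eq, HahnSeries.leadingCoeff_eq, nf_order_coeffMap f hf,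
    coeffMap_coeff]

end Order

section Perfect

variable {L : Type*} [Field L] [IsAlgClosed L]

/-- The residue field of a valuation subring of an algebraically closed field is perfect. -/
theorem nf_perfectRing_residueField (A : ValuationSubring L) (ℓ : ℕ) [Fact ℓ.Prime]
    [CharP (IsLocalRing.ResidueField A) ℓ] :
    PerfectRing (IsLocalRing.ResidueField A) ℓ := by
  apply PerfectRing.ofSurjective
  intro x
  obtain ⟨a, rfl⟩ := IsLocalRing.residue_surjective x
  have hℓ : 0 < ℓ := (Fact.out : ℓ.Prime).pos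
  obtain ⟨b, hb⟩ := IsAlgClosed.exists_pow_nat_eq (a : L) hℓ
  have hbA : b ∈ A := by
    rw [← A.valuation_le_one_iff]
    have h1 : A.valuation (a : L) ≤ 1 := (A.valuation_le_one_iff _).mpr a.2
    rw [← hb, map_pow] at h1
    exact (pow_le_one_iff_of_nonneg zero_le' (Nat.pos_iff_ne_zero.mp hℓ)).mp h1
  refine ⟨IsLocalRing.residue A ⟨b, hbA⟩, ?_⟩
  rw [frobenius_def, ← map_pow]
  congr 1
  exact Subtype.ext hb

end Perfect

end Fermat.Agent.INJ


end ZBINJ_016_0

/-! ### bundled: `Fermat.Agent.INJ.InjJ` -/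
section ZBINJ_016_1

/-!
# (INJ) instantiation INST-j: `ℓ ∤ 6 N`, the `j`-line

`stmtInjNF_j : InjCoreStmt → StmtInjNF N ℓ p` for `ℓ ∤ 6 N`, `p ≠ ℓ` prime.
Coordinate `t₀ = j`, `Σ = {0, 1728}`, `e = 6 N`.
-/

set_option autoImplicit false
set_option linter.style.haveILetI false
set_option linter.unusedSectionVars false
set_option synthInstance.maxHeartbeats 400000
set_option maxHeartbeats 4000000

namespace Fermat.Agent.INJ

open Polynomial ModularCurve IntermediateField AlgebraicCurve Fermat.Agent.S24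

/-- **INST-j.** -/
theorem stmtInjNF_j (hcore : InjCoreStmt) {N ℓ p : ℕ} (hN : N ≠ 0) (hℓ : ℓ.Prime)
    (hp : p.Prime) (hℓp : ℓ ≠ p) (hℓ6N : ¬ ℓ ∣ 6 * N) : StmtInjNF N ℓ p := by
  classical
  intro A hA K₀ hfin hζp hζ6N Y₁ Y₂ h h₁ h₂ hred hne hpow hdiv
  by_contra hnot
  haveI : NeZero N := ⟨hN⟩
  haveI : FiniteDimensional ℚ K₀ := hfin
  have hℓN : ¬ ℓ ∣ N := fun hd => hℓ6N (hd.mul_left 6)
  have hℓ6 : ¬ ℓ ∣ 6 := fun hd => hℓ6N (hd.mul_right N)
  have hℓ1728 : ¬ (ℓ : ℤ) ∣ 1728 := by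
    intro hd
    have h1 : ℓ ∣ 1728 := by exact_mod_cast hd
    have h2 : (1728 : ℕ) = 6 ^ 3 * 8 := by norm_num
    rw [h2] at h1
    rcases (Nat.Prime.dvd_mul hℓ).mp h1 with h3 | h3
    · exact hℓ6 (hℓ.dvd_of_dvd_pow h3)
    · have h4 : (8 : ℕ) = 2 ^ 3 := by norm_num
      rw [h4] at h3
      have h5 := hℓ.dvd_of_dvd_pow h3
      exact hℓ6 (h5.trans (by norm_num))
  haveI hdvr : IsDiscreteValuationRing (nfSub A K₀) := ls_isDVR A K₀ hℓ hA
  obtain ⟨π, hπ⟩ := IsDiscreteValuationRing.exists_irreducible (nfSub A K₀)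
  have hrπ : nfRes A K₀ π = 0 := ls_res_irreducible A K₀ hπ
  have hr : ∀ a, nfRes A K₀ a = 0 → π ∣ a := fun a => ls_dvd_of_res_eq_zero A K₀ hπ a
  haveI : Fact ℓ.Prime := ⟨hℓ⟩
  haveI : CharP (IsLocalRing.ResidueField A) ℓ := ls_charP_residueField A hℓ hA
  haveI : PerfectRing (IsLocalRing.ResidueField A) ℓ := nf_perfectRing_residueField A ℓ
  have hNk : ((N : ℕ) : IsLocalRing.ResidueField A) ≠ 0 :=
    ls_natCast_residue_ne_zero A hℓ hA N hℓN
  -- key data over the `j`-line
  obtain ⟨x, kd⟩ := exists_gaussKD_j (E := K₀) (nfRes A K₀) π hπ.ne_zero hπ.not_isUnit hr N hNk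
  have hkt : coeffMap (nfRes A K₀) (jqModC (nfSub A K₀)) = jqModC (IsLocalRing.ResidueField A) :=
    coeffMap_jqModC _
  have hEt : coeffMap (algebraMap (nfSub A K₀) K₀) (jqModC (nfSub A K₀)) = jqModC K₀ :=
    coeffMap_jqModC _
  -- the elements `y₁`, `y₂`, `w`
  have hinj : Function.Injective (algebraMap (nfSub A K₀) K₀) := Subtype.val_injective
  have hY₂ : Y₂ ≠ 0 := injH_ne_zero_of_red (nfRes A K₀) Y₂ hne
  have hY₁ : Y₁ ≠ 0 := injH_ne_zero_of_red (nfRes A K₀) Y₁ (by rw [hred]; exact hne)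
  have hy₁' := injH_coeffMap_ne_zero (algebraMap (nfSub A K₀) K₀) hinj Y₁ hY₁
  have hy₂' := injH_coeffMap_ne_zero (algebraMap (nfSub A K₀) K₀) hinj Y₂ hY₂
  set y₁ : modularFunctionFieldFullC K₀ N := ⟨_, h₁⟩ with hy₁def
  set y₂ : modularFunctionFieldFullC K₀ N := ⟨_, h₂⟩ with hy₂def
  have hy₁ : y₁ ≠ 0 := fun h0 => hy₁' (congrArg Subtype.val h0)
  have hy₂ : y₂ ≠ 0 := fun h0 => hy₂' (congrArg Subtype.val h0)
  have hw : h ^ p = ((y₁ / y₂ : modularFunctionFieldFullC K₀ N) : LaurentSeries K₀) :=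
    injH_quot (modularFunctionFieldFullC K₀ N) h y₁ y₂ hy₂ hpow
  have hh0 : h ≠ 0 := injH_root_ne_zero h _ _ hy₁' hp.ne_zero hpow
  have hdivw := bgRamNF_hdiv_quot K₀ N p y₁ y₂ hy₁ hy₂ hdiv
  -- units and roots of unity
  have hpℓ' : ¬ ℓ ∣ p := fun hd => hℓp ((Nat.prime_dvd_prime_iff_eq hℓ hp).mp hd)
  have hpπ : ¬ π ∣ ((p : ℕ) : nfSub A K₀) := fun hd =>
    hπ.not_isUnit (isUnit_of_dvd_unit hd (ls_isUnit_natCast A K₀ hℓ hA p hpℓ'))
  obtain ⟨ζ, hζ⟩ := ls_exists_primitiveRoot A K₀ hp.ne_zero hζp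
  obtain ⟨u, hζu⟩ := ls_exists_inv_zeta_sub_one A K₀ hℓ hA hp (Ne.symm hℓp) ζ hζ
  have h6N : 6 * N ≠ 0 := mul_ne_zero (by norm_num) hN
  have hroot : ∃ ζ : nfSub A K₀, IsPrimitiveRoot ζ (6 * N) :=
    ls_exists_primitiveRoot A K₀ h6N hζ6N
  -- the set `Σ = {0, 1728}`
  set S : Finset (nfSub A K₀) := {0, 1728} with hSdef
  have hdist : ∀ c ∈ S, ∀ c' ∈ S, c ≠ c' → ¬ π ∣ c - c' := by
    intro c hc c' hc' hcc
    rw [hSdef, Finset.mem_insert, Finset.mem_singleton] at hc hc'
    have key : ∀ a b : ℤ, ¬ (ℓ : ℤ) ∣ a - b →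
        ¬ π ∣ ((a : nfSub A K₀) - (b : nfSub A K₀)) := fun a b hab =>
      ls_not_dvd_intCast_sub A K₀ hℓ hA hπ.not_isUnit a b hab
    rcases hc with rfl | rfl <;> rcases hc' with rfl | rfl
    · exact absurd rfl hcc
    · have := key 0 1728 (by rw [zero_sub, dvd_neg]; exact hℓ1728)
      simpa using this
    · have := key 1728 0 (by rw [sub_zero]; exact hℓ1728)
      simpa using this
    · exact absurd rfl hcc
  refine hcore (A₀ := nfSub A K₀) (E := K₀) (k := IsLocalRing.ResidueField A) (nfRes A K₀) N h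
    hπ hrπ hr kd ?_ hp hpπ ζ u hζ hζu Y₁ Y₂ h₁ h₂ hred hne hpow hnot ?_ ?_ S hdist (6 * N)
    (ls_isUnit_natCast A K₀ hℓ hA (6 * N) hℓ6N) hroot ?_
  · -- order of the coordinate
    rw [hEt]
    exact bgConst_order_jqModC K₀
  · -- (a) for `F_N`
    intro _ _
    exact kd.tsGoodBasis hπ.ne_zero hπ.not_isUnit hr hrπ ℓ
      (by rw [hkt]; exact thetaFun_jqModC_ne_zero _)
  · -- finiteness
    refine bgFin_finiteDimensional_of_root_sup K₀ N (kumField K₀ N h) (le_kumField K₀ N h) h
      (mem_kumField_self K₀ N h) p hp.ne_zero ?_ (injH_kumField_le_sup K₀ N h) _ hEt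
    rw [hw]
    exact (y₁ / y₂).2
  · -- (b), (b')
    intro _ _
    have hram := bgRamNF_jline K₀ N h p hp.ne_zero (y₁ / y₂) hw hh0 hdivw S ?_ ?_ ?_ (6 * N)
      (Dvd.intro _ rfl) (Dvd.intro_left _ rfl)
    · have heq : kumIncl K₀ N h (bgJ K₀ N)
          = (⟨coeffMap (algebraMap (nfSub A K₀) K₀) (jqModC (nfSub A K₀)),
              le_kumField K₀ N h kd.t_mem⟩ : kumField K₀ N h) := by
        apply Subtype.ext
        rw [coe_kumIncl]
        exact hEt.symm
      rw [← heq]
      exact hram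
    · intro c hc
      rw [hSdef, Finset.mem_insert, Finset.mem_singleton] at hc
      rcases hc with rfl | rfl
      · left; exact map_zero _
      · right; rw [map_ofNat]
    · exact ⟨0, by rw [hSdef]; simp, map_zero _⟩
    · exact ⟨1728, by rw [hSdef]; simp, by rw [map_ofNat]⟩

end Fermat.Agent.INJ


end ZBINJ_016_1

/-! ### bundled: `Fermat.Agent.INJ.InjH2` -/
section ZBINJ_016_2

/-!
# (INJ) instantiation INST-h2: `ℓ = 3`, the Hauptmodul line of `X₀(2)`

`stmtInjNF_h2 : InjCoreStmt → StmtInjNF N 3 p` for `2 ∣ N`, `3 ∤ N`, `p ≠ 3` prime.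
Coordinate `t₀ = hm2`, `Σ = {0, -64}`, `e = N`.
-/

set_option autoImplicit false
set_option linter.style.haveILetI false
set_option linter.unusedSectionVars false
set_option synthInstance.maxHeartbeats 400000
set_option maxHeartbeats 4000000

namespace Fermat.Agent.INJ

open Polynomial ModularCurve IntermediateField AlgebraicCurve Fermat.Agent.S24

/-- **INST-h2.** -/
theorem stmtInjNF_h2 (hcore : InjCoreStmt) {N p : ℕ} (hN : N ≠ 0) (h2 : 2 ∣ N) (h3 : ¬ 3 ∣ N)
    (hp : p.Prime) (hp3 : p ≠ 3) : StmtInjNF N 3 p := by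
  classical
  intro A hA K₀ hfin hζp hζ6N Y₁ Y₂ h h₁ h₂ hred hne hpow hdiv
  by_contra hnot
  haveI : NeZero N := ⟨hN⟩
  haveI : FiniteDimensional ℚ K₀ := hfin
  have hℓ : (3 : ℕ).Prime := Nat.prime_three
  haveI hdvr : IsDiscreteValuationRing (nfSub A K₀) := ls_isDVR A K₀ hℓ hA
  obtain ⟨π, hπ⟩ := IsDiscreteValuationRing.exists_irreducible (nfSub A K₀)
  have hrπ : nfRes A K₀ π = 0 := ls_res_irreducible A K₀ hπ
  have hr : ∀ a, nfRes A K₀ a = 0 → π ∣ a := fun a => ls_dvd_of_res_eq_zero A K₀ hπ a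
  haveI : Fact (3 : ℕ).Prime := ⟨hℓ⟩
  haveI : CharP (IsLocalRing.ResidueField A) 3 := ls_charP_residueField A hℓ hA
  haveI : PerfectRing (IsLocalRing.ResidueField A) 3 := nf_perfectRing_residueField A 3
  have hNE : ((N : ℕ) : K₀) ≠ 0 := Nat.cast_ne_zero.mpr hN
  have hNk : ((N : ℕ) : IsLocalRing.ResidueField A) ≠ 0 :=
    ls_natCast_residue_ne_zero A hℓ hA N h3
  have h2E : ((2 : ℕ) : K₀) ≠ 0 := Nat.cast_ne_zero.mpr (by norm_num)
  have h2k : ((2 : ℕ) : IsLocalRing.ResidueField A) ≠ 0 :=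
    ls_natCast_residue_ne_zero A hℓ hA 2 (by norm_num)
  -- key data over the `hm2`-line
  have hkeq := adjoin_hm2_eq (IsLocalRing.ResidueField A) h2k
  have hjk : jqModC (IsLocalRing.ResidueField A) ∈
      (IsLocalRing.ResidueField A)⟮hm2 (IsLocalRing.ResidueField A)⟯ := by
    rw [hkeq]; exact jqModC_mem_full _ 2
  obtain ⟨n, x, kd, -⟩ := exists_gaussKD_of_adjoin_eq (E := K₀) (nfRes A K₀) π hπ.ne_zero
    hπ.not_isUnit hr (N₀ := 2) (M := N) h2 hNE hNk hm2Z (adjoin_hm2_eq K₀ h2E) hkeq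
    (transcendental_of_jqModC_mem _ hjk)
  have hkt : coeffMap (nfRes A K₀) (coeffMap (Int.castRingHom (nfSub A K₀)) hm2Z)
      = hm2 (IsLocalRing.ResidueField A) := by
    rw [coeffMap_coeffMap]
    exact coeffMap_congr (RingHom.ext_int _ _) _
  have hEt : coeffMap (algebraMap (nfSub A K₀) K₀) (coeffMap (Int.castRingHom (nfSub A K₀)) hm2Z)
      = hm2 K₀ := by
    rw [coeffMap_coeffMap]
    exact coeffMap_congr (RingHom.ext_int _ _) _
  -- the elements `y₁`, `y₂`, `w`
  have hinj : Function.Injective (algebraMap (nfSub A K₀) K₀) := Subtype.val_injective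
  have hY₂ : Y₂ ≠ 0 := injH_ne_zero_of_red (nfRes A K₀) Y₂ hne
  have hY₁ : Y₁ ≠ 0 := injH_ne_zero_of_red (nfRes A K₀) Y₁ (by rw [hred]; exact hne)
  have hy₁' := injH_coeffMap_ne_zero (algebraMap (nfSub A K₀) K₀) hinj Y₁ hY₁
  have hy₂' := injH_coeffMap_ne_zero (algebraMap (nfSub A K₀) K₀) hinj Y₂ hY₂
  set y₁ : modularFunctionFieldFullC K₀ N := ⟨_, h₁⟩ with hy₁def
  set y₂ : modularFunctionFieldFullC K₀ N := ⟨_, h₂⟩ with hy₂def
  have hy₁ : y₁ ≠ 0 := fun h0 => hy₁' (congrArg Subtype.val h0)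
  have hy₂ : y₂ ≠ 0 := fun h0 => hy₂' (congrArg Subtype.val h0)
  have hw : h ^ p = ((y₁ / y₂ : modularFunctionFieldFullC K₀ N) : LaurentSeries K₀) :=
    injH_quot (modularFunctionFieldFullC K₀ N) h y₁ y₂ hy₂ hpow
  have hh0 : h ≠ 0 := injH_root_ne_zero h _ _ hy₁' hp.ne_zero hpow
  have hdivw := bgRamNF_hdiv_quot K₀ N p y₁ y₂ hy₁ hy₂ hdiv
  -- units and roots of unity
  have hp3' : ¬ 3 ∣ p := fun hd => hp3 ((Nat.prime_dvd_prime_iff_eq hℓ hp).mp hd).symm
  have hpπ : ¬ π ∣ ((p : ℕ) : nfSub A K₀) := fun hd =>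
    hπ.not_isUnit (isUnit_of_dvd_unit hd (ls_isUnit_natCast A K₀ hℓ hA p hp3'))
  obtain ⟨ζ, hζ⟩ := ls_exists_primitiveRoot A K₀ hp.ne_zero hζp
  obtain ⟨u, hζu⟩ := ls_exists_inv_zeta_sub_one A K₀ hℓ hA hp hp3 ζ hζ
  have hrootN : ∃ ζ : nfSub A K₀, IsPrimitiveRoot ζ N := by
    refine ls_exists_primitiveRoot A K₀ hN ?_
    obtain ⟨ζ₀, hζ₀⟩ := hζ6N
    exact ⟨ζ₀ ^ 6, hζ₀.pow (by positivity) rfl⟩
  -- the set `Σ = {0, -64}`
  set S : Finset (nfSub A K₀) := {0, -64} with hSdef
  have hdist : ∀ c ∈ S, ∀ c' ∈ S, c ≠ c' → ¬ π ∣ c - c' := by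
    intro c hc c' hc' hcc
    rw [hSdef, Finset.mem_insert, Finset.mem_singleton] at hc hc'
    have key : ∀ a b : ℤ, ¬ (3 : ℤ) ∣ a - b →
        ¬ π ∣ ((a : nfSub A K₀) - (b : nfSub A K₀)) := fun a b hab =>
      ls_not_dvd_intCast_sub A K₀ hℓ hA hπ.not_isUnit a b (by exact_mod_cast hab)
    rcases hc with rfl | rfl <;> rcases hc' with rfl | rfl
    · exact absurd rfl hcc
    · have := key 0 (-64) (by norm_num)
      simpa using this
    · have := key (-64) 0 (by norm_num)
      simpa using this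
    · exact absurd rfl hcc
  refine hcore (A₀ := nfSub A K₀) (E := K₀) (k := IsLocalRing.ResidueField A) (nfRes A K₀) N h
    hπ hrπ hr kd ?_ hp hpπ ζ u hζ hζu Y₁ Y₂ h₁ h₂ hred hne hpow hnot ?_ ?_ S hdist N
    (ls_isUnit_natCast A K₀ hℓ hA N h3) hrootN ?_
  · -- order of the coordinate
    rw [hEt]
    exact injH_order_hm2 K₀
  · -- (a) for `F_N`
    intro _ _
    exact kd.tsGoodBasis hπ.ne_zero hπ.not_isUnit hr hrπ 3
      (by rw [hkt]; exact thetaFun_hm2_ne_zero _)
  · -- finiteness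
    refine bgFinH_finiteDimensional_hm2 K₀ N (kumField K₀ N h) (le_kumField K₀ N h) h
      (mem_kumField_self K₀ N h) p hp.ne_zero ?_ (injH_kumField_le_sup K₀ N h) _ hEt
    rw [hw]
    exact (y₁ / y₂).2
  · -- (b), (b')
    intro _ _
    have hram := bgRamNF_h2line K₀ N h h2 p hp.ne_zero (y₁ / y₂) hw hh0 hdivw S ?_ ?_ ?_ N
      dvd_rfl
    · have heq : kumIncl K₀ N h (bgH2 K₀ N h2)
          = (⟨coeffMap (algebraMap (nfSub A K₀) K₀)
              (coeffMap (Int.castRingHom (nfSub A K₀)) hm2Z), le_kumField K₀ N h kd.t_mem⟩ :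
              kumField K₀ N h) := by
        apply Subtype.ext
        rw [coe_kumIncl, coe_bgH2]
        exact hEt.symm
      rw [← heq]
      exact hram
    · intro c hc
      rw [hSdef, Finset.mem_insert, Finset.mem_singleton] at hc
      rcases hc with rfl | rfl
      · left; exact map_zero _
      · right; rw [map_neg, map_ofNat]
    · exact ⟨0, by rw [hSdef]; simp, map_zero _⟩
    · exact ⟨-64, by rw [hSdef]; simp, by rw [map_neg, map_ofNat]⟩

end Fermat.Agent.INJ


end ZBINJ_016_2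

/-! ### bundled: `Fermat.Agent.INJ.InjH3` -/
section ZBINJ_016_3

/-!
# (INJ) instantiation of the core over the Hauptmodul line of `X₀(3)` (`ℓ = 2`)

`stmtInjNF_h3 : InjCoreStmt → StmtInjNF N 2 p` for `3 ∣ N`, `2 ∤ N`, `p ≠ 2` prime.

The coordinate is `t₀ = hm3 = (η(z)/η(3z))¹² = q⁻¹ + …`, with `E(t₀) = F_3(E)`;
`Σ = {0, -27}` (the cusp `0` and the elliptic point of order `3`), `e = N`.
-/

set_option autoImplicit false
set_option linter.style.haveILetI false
set_option linter.unusedSectionVars false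
set_option synthInstance.maxHeartbeats 400000
set_option maxHeartbeats 1000000

namespace Fermat.Agent.INJ

open Polynomial ModularCurve IntermediateField AlgebraicCurve Fermat.Agent.S28

section Order

variable (K : Type*) [Field K]

/-- `hm3 = q⁻¹ + …` has order `-1`. -/
theorem injH3_order_hm3 : (hm3 K).order = -1 := by
  have hu : HahnSeries.ofPowerSeries ℤ K (hm3U.map (Int.castRingHom K)) ≠ 0 := by
    intro h0
    have h1 : hm3U.map (Int.castRingHom K) = 0 :=
      HahnSeries.ofPowerSeries_injective (by rw [h0, map_zero])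
    have h2 := congrArg PowerSeries.constantCoeff h1
    rw [← PowerSeries.coeff_zero_eq_constantCoeff_apply, PowerSeries.coeff_map,
      PowerSeries.coeff_zero_eq_constantCoeff_apply, constantCoeff_hm3U] at h2
    simp at h2
  have h0 : (HahnSeries.ofPowerSeries ℤ K (hm3U.map (Int.castRingHom K))).order = 0 := by
    apply le_antisymm
    · refine HahnSeries.order_le_of_coeff_ne_zero ?_
      have : ((0 : ℕ) : ℤ) = 0 := rfl
      rw [← this, HahnSeries.ofPowerSeries_apply_coeff, PowerSeries.coeff_map,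
        PowerSeries.coeff_zero_eq_constantCoeff_apply, constantCoeff_hm3U]
      simp
    · rw [HahnSeries.le_order_iff_forall hu]
      intro n hn
      exact ofPowerSeries_coeff_of_neg _ hn
  rw [hm3_eq, HahnSeries.order_mul (HahnSeries.single_ne_zero one_ne_zero) hu,
    HahnSeries.order_single one_ne_zero, h0, add_zero]

end Order

section Main

/-- **INST-h3.** The number-field form of (INJ) at `ℓ = 2`, over the Hauptmodul line of
`X₀(3)`. -/
theorem stmtInjNF_h3 (hcore : InjCoreStmt) {N p : ℕ} (hN : N ≠ 0) (h3 : 3 ∣ N) (h2 : ¬ 2 ∣ N)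
    (hp : p.Prime) (hp2 : p ≠ 2) : StmtInjNF N 2 p := by
  intro A hA K₀ hK₀fin hζp hζ6N Y₁ Y₂ h h₁ h₂ hred hne hrel hdiv
  by_contra hnot
  haveI : NeZero N := ⟨hN⟩
  haveI : FiniteDimensional ℚ K₀ := hK₀fin
  haveI hdvr : IsDiscreteValuationRing (nfSub A K₀) := ls_isDVR A K₀ Nat.prime_two hA
  haveI hchar : CharP (IsLocalRing.ResidueField A) 2 :=
    ls_charP_residueField A Nat.prime_two hA
  haveI : Fact (Nat.Prime 2) := ⟨Nat.prime_two⟩
  haveI hperf : PerfectRing (IsLocalRing.ResidueField A) 2 := nf_perfectRing_residueField A 2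
  obtain ⟨π, hπ⟩ := IsDiscreteValuationRing.exists_irreducible (nfSub A K₀)
  have hrπ : nfRes A K₀ π = 0 := ls_res_irreducible A K₀ hπ
  have hr : ∀ a, nfRes A K₀ a = 0 → π ∣ a := fun a ha => ls_dvd_of_res_eq_zero A K₀ hπ a ha
  have hNE : ((N : ℕ) : K₀) ≠ 0 := Nat.cast_ne_zero.mpr hN
  have hNk : ((N : ℕ) : IsLocalRing.ResidueField A) ≠ 0 :=
    ls_natCast_residue_ne_zero A Nat.prime_two hA N h2
  have h3E : ((3 : ℕ) : K₀) ≠ 0 := natCast_ne_zero_of_dvd K₀ h3 hNE
  have h3k : ((3 : ℕ) : IsLocalRing.ResidueField A) ≠ 0 :=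
    natCast_ne_zero_of_dvd (IsLocalRing.ResidueField A) h3 hNk
  -- the key data
  have hkeq := adjoin_hm3_eq (IsLocalRing.ResidueField A) h3k
  have hjk : jqModC (IsLocalRing.ResidueField A) ∈
      (IsLocalRing.ResidueField A)⟮hm3 (IsLocalRing.ResidueField A)⟯ := by
    rw [hkeq]
    exact jqModC_mem_full (IsLocalRing.ResidueField A) 3
  obtain ⟨n, x, kd, -⟩ := exists_gaussKD_of_adjoin_eq (E := K₀) (nfRes A K₀) π hπ.ne_zero
    hπ.not_isUnit hr (N₀ := 3) (M := N) h3 hNE hNk hm3Z (adjoin_hm3_eq K₀ h3E) hkeq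
    (transcendental_of_jqModC_mem (IsLocalRing.ResidueField A) hjk)
  have ht₀E : coeffMap (algebraMap (nfSub A K₀) K₀) (coeffMap (Int.castRingHom (nfSub A K₀)) hm3Z)
      = hm3 K₀ := hm3_map (K := nfSub A K₀) (algebraMap (nfSub A K₀) K₀)
  have ht₀k : coeffMap (nfRes A K₀) (coeffMap (Int.castRingHom (nfSub A K₀)) hm3Z)
      = hm3 (IsLocalRing.ResidueField A) := hm3_map (K := nfSub A K₀) (nfRes A K₀)
  -- roots of unity
  obtain ⟨ζ, hζ⟩ := ls_exists_primitiveRoot A K₀ hp.ne_zero hζp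
  obtain ⟨u, hu⟩ := ls_exists_inv_zeta_sub_one A K₀ Nat.prime_two hA hp hp2 ζ hζ
  have hζN : ∃ ζ : K₀, IsPrimitiveRoot ζ N := by
    obtain ⟨ζ', hζ'⟩ := hζ6N
    exact ⟨ζ' ^ 6, hζ'.pow (Nat.mul_pos (by norm_num) (Nat.pos_of_ne_zero hN)) rfl⟩
  have hζN' := ls_exists_primitiveRoot A K₀ hN hζN
  -- `p` is a unit
  have hpu : IsUnit ((p : ℕ) : nfSub A K₀) :=
    ls_isUnit_natCast A K₀ Nat.prime_two hA p (fun hd =>
      hp2 ((Nat.prime_dvd_prime_iff_eq Nat.prime_two hp).mp hd).symm)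
  have hπp : ¬ π ∣ ((p : ℕ) : nfSub A K₀) := fun hd => hπ.not_isUnit (isUnit_of_dvd_unit hd hpu)
  -- nonvanishing
  have hinjE : Function.Injective (coeffMap (algebraMap (nfSub A K₀) K₀)) :=
    coeffMap_inj_of_injective _ (IsFractionRing.injective (nfSub A K₀) K₀)
  have hY₂ : Y₂ ≠ 0 := by
    rintro rfl
    exact hne (map_zero _)
  have hY₁ : Y₁ ≠ 0 := by
    rintro rfl
    rw [map_zero] at hred
    exact hne hred.symm
  have hY₂E : coeffMap (algebraMap (nfSub A K₀) K₀) Y₂ ≠ 0 := fun h0 =>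
    hY₂ (hinjE (by rw [h0, map_zero]))
  have hY₁E : coeffMap (algebraMap (nfSub A K₀) K₀) Y₁ ≠ 0 := fun h0 =>
    hY₁ (hinjE (by rw [h0, map_zero]))
  have hh0 : h ≠ 0 := by
    rintro rfl
    rw [zero_pow hp.ne_zero, zero_mul] at hrel
    exact hY₁E hrel.symm
  set y₁ : modularFunctionFieldFullC K₀ N := ⟨_, h₁⟩ with hy₁
  set y₂ : modularFunctionFieldFullC K₀ N := ⟨_, h₂⟩ with hy₂
  have hy₁0 : y₁ ≠ 0 := fun h0 => hY₁E (congrArg Subtype.val h0)
  have hy₂0 : y₂ ≠ 0 := fun h0 => hY₂E (congrArg Subtype.val h0)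
  have hw : h ^ p = ((y₁ / y₂ : modularFunctionFieldFullC K₀ N) : LaurentSeries K₀) := by
    rw [IntermediateField.coe_div, eq_div_iff hY₂E]
    exact hrel
  have hwmem : h ^ p ∈ modularFunctionFieldFullC K₀ N := by
    rw [hw]
    exact (y₁ / y₂).2
  have hdivq := bgRamNF_hdiv_quot K₀ N p y₁ y₂ hy₁0 hy₂0 hdiv
  -- the set `Σ`
  classical
  let S : Finset (nfSub A K₀) := {((0 : ℤ) : nfSub A K₀), ((-27 : ℤ) : nfSub A K₀)}
  refine hcore (A₀ := nfSub A K₀) (E := K₀) (k := IsLocalRing.ResidueField A)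
    (nfRes A K₀) N h hπ hrπ hr kd ?_ hp hπp ζ u hζ hu Y₁ Y₂ h₁ h₂ hred hne hrel hnot ?_ ?_
    S ?_ N (ls_isUnit_natCast A K₀ Nat.prime_two hA N h2) hζN' ?_
  · -- the order of `t₀`
    rw [ht₀E]
    exact injH3_order_hm3 K₀
  · -- (a)
    intro _ _
    exact kd.tsGoodBasis hπ.ne_zero hπ.not_isUnit hr hrπ 2
      (by rw [ht₀k]; exact thetaFun_hm3_ne_zero (IsLocalRing.ResidueField A))
  · -- finiteness
    refine bgFinH_finiteDimensional_hm3 K₀ N (kumField K₀ N h) (le_kumField K₀ N h) h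
      (mem_kumField_self K₀ N h) p hp.ne_zero hwmem ?_ _ ht₀E
    rw [kumField, IntermediateField.adjoin_le_iff]
    rintro y (hy | hy)
    · exact (le_sup_left : modularFunctionFieldFullC K₀ N ≤ _) hy
    · rw [Set.mem_singleton_iff] at hy
      subst hy
      exact (le_sup_right : K₀⟮y⟯ ≤ modularFunctionFieldFullC K₀ N ⊔ K₀⟮y⟯)
        (IntermediateField.mem_adjoin_simple_self K₀ y)
  · -- (c)
    intro c hc c' hc' hcc'
    simp only [S, Finset.mem_insert, Finset.mem_singleton] at hc hc'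
    rcases hc with rfl | rfl <;> rcases hc' with rfl | rfl
    · exact absurd rfl hcc'
    · exact ls_not_dvd_intCast_sub A K₀ Nat.prime_two hA hπ.not_isUnit 0 (-27) (by norm_num)
    · exact ls_not_dvd_intCast_sub A K₀ Nat.prime_two hA hπ.not_isUnit (-27) 0 (by norm_num)
    · exact absurd rfl hcc'
  · -- (b), (b')
    intro _ _
    have hram := bgRamNF_h3line K₀ N h h3 (A₀ := nfSub A K₀) p hp.ne_zero (y₁ / y₂) hw hh0 hdivq
      S ?_ ?_ ?_ N dvd_rfl
    · have hel : kumIncl K₀ N h (bgH3 K₀ N h3) =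
          (⟨coeffMap (algebraMap (nfSub A K₀) K₀)
            (coeffMap (Int.castRingHom (nfSub A K₀)) hm3Z),
            le_kumField K₀ N h kd.t_mem⟩ : kumField K₀ N h) := by
        apply Subtype.ext
        rw [coe_kumIncl, coe_bgH3]
        exact ht₀E.symm
      rw [hel] at hram
      exact hram
    · intro c hc
      simp only [S, Finset.mem_insert, Finset.mem_singleton] at hc
      rcases hc with rfl | rfl
      · left
        rw [map_intCast, Int.cast_zero]
      · right
        rw [map_intCast]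
        norm_num
    · exact ⟨((0 : ℤ) : nfSub A K₀), by simp [S], by rw [map_intCast, Int.cast_zero]⟩
    · exact ⟨((-27 : ℤ) : nfSub A K₀), by simp [S], by rw [map_intCast]; norm_num⟩

end Main

end Fermat.Agent.INJ


end ZBINJ_016_3

/-! ### bundled: `Fermat.Agent.PR.Frob` -/
section ZBINJ_016_4

/-!
# Brick PR, piece PR-4: the coefficientwise Frobenius on `F_{N,k}` and the reduction of the
decomposition group

`k` a field, `F_k = modularFunctionFieldFullC k N = k(j(q^d) : d ∣ N) ⊂ k((q))`.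

* `prCoeffAut τ` : the coefficientwise action of a ring automorphism `τ` of `k` on `k((q))`;
* `prSemilinear τ N : SemilinearAut k F_k` : its restriction to `F_k` (base automorphism `τ`);
* `prFrob k ℓ N : SemilinearAut k F_k` : the coefficientwise Frobenius `∑ aₙ qⁿ ↦ ∑ aₙ^ℓ qⁿ`
  (`k` perfect of characteristic `ℓ`);
* `prResAut σ hσ` : the automorphism of the residue field of `A` induced by an element `σ` of the
  decomposition group of `A`; it is the Frobenius for a Frobenius element (`prResAut_frobenius`)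
  and the identity on inertia (`prResAut_inertia`);
* `pr_gaussRed_smul` : if `w` is the reduction of `x ∈ F_N` then `σ̄ w` is the reduction of `σ x`
  (`σ` in the decomposition group); `pr_gaussRed_frobenius`, `pr_gaussRed_inertia`.
-/

set_option autoImplicit false

noncomputable section

namespace Fermat.Agent.PR

open ModularCurve AlgebraicCurve HahnSeries Fermat.Agent.ES Fermat.Agent.ES.M Fermat.Agent.S24
  Fermat.Agent.INJ

/-! ## 1. Coefficientwise automorphisms of `k((q))` and of `F_k` -/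

section Coeff

variable {k : Type*} [Field k]

theorem pr_coeffMap_symm_apply (τ : k ≃+* k) (x : LaurentSeries k) :
    coeffMap (τ.symm : k →+* k) (coeffMap (τ : k →+* k) x) = x := by
  rw [coeffMap_coeffMap]
  have h : ((τ.symm : k →+* k).comp (τ : k →+* k)) = RingHom.id k :=
    RingHom.ext fun a => τ.symm_apply_apply a
  rw [coeffMap_congr h, coeffMap_id]

theorem pr_coeffMap_apply_symm (τ : k ≃+* k) (x : LaurentSeries k) :
    coeffMap (τ : k →+* k) (coeffMap (τ.symm : k →+* k) x) = x := by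
  rw [coeffMap_coeffMap]
  have h : ((τ : k →+* k).comp (τ.symm : k →+* k)) = RingHom.id k :=
    RingHom.ext fun a => τ.apply_symm_apply a
  rw [coeffMap_congr h, coeffMap_id]

/-- the coefficientwise action of a ring automorphism of `k` on `k((q))` -/
def prCoeffAut (τ : k ≃+* k) : LaurentSeries k ≃+* LaurentSeries k where
  toFun := coeffMap (τ : k →+* k)
  invFun := coeffMap (τ.symm : k →+* k)
  left_inv := pr_coeffMap_symm_apply τ
  right_inv := pr_coeffMap_apply_symm τ
  map_mul' := map_mul _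
  map_add' := map_add _

@[simp] theorem prCoeffAut_apply (τ : k ≃+* k) (x : LaurentSeries k) :
    prCoeffAut τ x = coeffMap (τ : k →+* k) x := rfl

@[simp] theorem prCoeffAut_symm_apply (τ : k ≃+* k) (x : LaurentSeries k) :
    (prCoeffAut τ).symm x = coeffMap (τ.symm : k →+* k) x := rfl

theorem prCoeffAut_coeff (τ : k ≃+* k) (x : LaurentSeries k) (n : ℤ) :
    (prCoeffAut τ x).coeff n = τ (x.coeff n) := rfl

variable (N : ℕ)

/-- the coefficientwise action on `F_k` -/
def prFieldAut (τ : k ≃+* k) :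
    modularFunctionFieldFullC k N ≃+* modularFunctionFieldFullC k N where
  toFun x := ⟨coeffMap (τ : k →+* k) x, nf_coeffMap_mem_fullC (τ : k →+* k) N x.2⟩
  invFun x := ⟨coeffMap (τ.symm : k →+* k) x, nf_coeffMap_mem_fullC (τ.symm : k →+* k) N x.2⟩
  left_inv x := Subtype.ext (pr_coeffMap_symm_apply τ x)
  right_inv x := Subtype.ext (pr_coeffMap_apply_symm τ x)
  map_mul' _ _ := Subtype.ext (map_mul _ _ _)
  map_add' _ _ := Subtype.ext (map_add _ _ _)

@[simp] theorem coe_prFieldAut (τ : k ≃+* k) (x : modularFunctionFieldFullC k N) :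
    ((prFieldAut N τ x : modularFunctionFieldFullC k N) : LaurentSeries k)
      = coeffMap (τ : k →+* k) x := rfl

@[simp] theorem coe_prFieldAut_symm (τ : k ≃+* k) (x : modularFunctionFieldFullC k N) :
    (((prFieldAut N τ).symm x : modularFunctionFieldFullC k N) : LaurentSeries k)
      = coeffMap (τ.symm : k →+* k) x := rfl

theorem pr_coeffMap_algebraMap (τ : k →+* k) (a : k) :
    coeffMap τ (algebraMap k (LaurentSeries k) a) = algebraMap k (LaurentSeries k) (τ a) := by
  rw [algebraMap_laurentSeries_eq_single, algebraMap_laurentSeries_eq_single, coeffMap_single]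

theorem prFieldAut_algebraMap (τ : k ≃+* k) (a : k) :
    prFieldAut N τ (algebraMap k (modularFunctionFieldFullC k N) a)
      = algebraMap k (modularFunctionFieldFullC k N) (τ a) :=
  Subtype.ext (pr_coeffMap_algebraMap (τ : k →+* k) a)

/-- **the coefficientwise action of `τ ∈ Aut(k)` as a semilinear automorphism of `F_k`** -/
def prSemilinear (τ : k ≃+* k) : SemilinearAut k (modularFunctionFieldFullC k N) :=
  ⟨(prFieldAut N τ, τ), fun a => prFieldAut_algebraMap N τ a⟩

@[simp] theorem toRingAut_prSemilinear (τ : k ≃+* k) :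
    SemilinearAut.toRingAut (prSemilinear N τ) = prFieldAut N τ := rfl

@[simp] theorem baseAut_prSemilinear (τ : k ≃+* k) :
    SemilinearAut.baseAut (prSemilinear N τ) = τ := rfl

theorem coe_prSemilinear_smul (τ : k ≃+* k) (x : modularFunctionFieldFullC k N) :
    ((prSemilinear N τ • x : modularFunctionFieldFullC k N) : LaurentSeries k)
      = coeffMap (τ : k →+* k) x := rfl

theorem coe_prSemilinear_inv_smul (τ : k ≃+* k) (x : modularFunctionFieldFullC k N) :
    (((prSemilinear N τ)⁻¹ • x : modularFunctionFieldFullC k N) : LaurentSeries k)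
      = coeffMap (τ.symm : k →+* k) x := rfl

theorem prSemilinear_one : prSemilinear N (RingEquiv.refl k) = 1 := by
  refine Subtype.ext (Prod.ext (RingEquiv.ext fun x => Subtype.ext ?_) rfl)
  show coeffMap ((RingEquiv.refl k : k ≃+* k) : k →+* k) (x : LaurentSeries k) = x
  have h : ((RingEquiv.refl k : k ≃+* k) : k →+* k) = RingHom.id k := rfl
  rw [coeffMap_congr h, coeffMap_id]

theorem prSemilinear_mul (σ τ : k ≃+* k) :
    prSemilinear N (σ * τ) = prSemilinear N σ * prSemilinear N τ := by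
  refine Subtype.ext (Prod.ext (RingEquiv.ext fun x => Subtype.ext ?_) rfl)
  show coeffMap ((σ * τ : k ≃+* k) : k →+* k) (x : LaurentSeries k)
    = coeffMap (σ : k →+* k) (coeffMap (τ : k →+* k) (x : LaurentSeries k))
  rw [coeffMap_coeffMap]
  exact coeffMap_congr (RingHom.ext fun _ => rfl) _

end Coeff

/-! ## 2. The coefficientwise Frobenius -/

section Frobenius

variable (k : Type*) [Field k] (ℓ : ℕ) [Fact ℓ.Prime] [CharP k ℓ] [PerfectRing k ℓ] (N : ℕ)

/-- **`Fr`**: the coefficientwise Frobenius of `F_k`, `∑ aₙ qⁿ ↦ ∑ aₙ^ℓ qⁿ`. -/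
def prFrob : SemilinearAut k (modularFunctionFieldFullC k N) :=
  prSemilinear N (frobeniusEquiv k ℓ)

theorem coe_prFrob_smul (x : modularFunctionFieldFullC k N) :
    ((prFrob k ℓ N • x : modularFunctionFieldFullC k N) : LaurentSeries k)
      = coeffMap (frobenius k ℓ) x := rfl

theorem prFrob_smul_coeff (x : modularFunctionFieldFullC k N) (n : ℤ) :
    ((prFrob k ℓ N • x : modularFunctionFieldFullC k N) : LaurentSeries k).coeff n
      = (x : LaurentSeries k).coeff n ^ ℓ := rfl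

@[simp] theorem baseAut_prFrob :
    SemilinearAut.baseAut (prFrob k ℓ N) = frobeniusEquiv k ℓ := rfl

theorem prFrob_smul_algebraMap (a : k) :
    prFrob k ℓ N • algebraMap k (modularFunctionFieldFullC k N) a
      = algebraMap k (modularFunctionFieldFullC k N) (a ^ ℓ) :=
  prFieldAut_algebraMap N (frobeniusEquiv k ℓ) a

/-- `x ^ ℓ = (Fr x)(q^ℓ)` in `k((q))`. -/
theorem prFrob_pow (x : modularFunctionFieldFullC k N) :
    (x : LaurentSeries k) ^ ℓ
      = qExpand k ℓ ((prFrob k ℓ N • x : modularFunctionFieldFullC k N) : LaurentSeries k) := by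
  have : NeZero ℓ := ⟨(Fact.out : ℓ.Prime).ne_zero⟩
  rw [coe_prFrob_smul]
  exact kron_frobenius_pow ℓ (x : LaurentSeries k)

end Frobenius

/-! ## 3. The residue action of the decomposition group -/

section Residue

variable {K L : Type*} [Field K] [Field L] [Algebra K L] {A : ValuationSubring L}

/-- the automorphism of the residue field induced by an element of the decomposition group -/
def prResAut (σ : L ≃ₐ[K] L) (hσ : σ ∈ A.decompositionSubgroup K) :
    IsLocalRing.ResidueField A ≃+* IsLocalRing.ResidueField A :=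
  MulSemiringAction.toRingAut (A.decompositionSubgroup K) (IsLocalRing.ResidueField A) ⟨σ, hσ⟩

theorem prResAut_residue (σ : L ≃ₐ[K] L) (hσ : σ ∈ A.decompositionSubgroup K) (a : A) :
    prResAut σ hσ (IsLocalRing.residue A a) = IsLocalRing.residue A (kronDecompHom σ hσ a) := by
  show (⟨σ, hσ⟩ : A.decompositionSubgroup K) • (IsLocalRing.residue A a) = _
  rw [← IsLocalRing.ResidueField.residue_smul]
  rfl

theorem prResAut_frobenius {ℓ : ℕ} [Fact ℓ.Prime] [CharP (IsLocalRing.ResidueField A) ℓ]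
    [PerfectRing (IsLocalRing.ResidueField A) ℓ]
    (τ : L ≃ₐ[K] L) (hτ : A.IsFrobeniusAt τ ℓ) :
    prResAut τ hτ.mem_decompositionSubgroup = frobeniusEquiv (IsLocalRing.ResidueField A) ℓ := by
  ext x
  exact hτ.smul_residue_eq x

theorem prResAut_inertia {σ : L ≃ₐ[K] L} (hσ : σ ∈ A.inertiaSubgroupIn K) :
    prResAut σ (kron_mem_decomposition_of_mem_inertia hσ) = RingEquiv.refl _ := by
  ext x
  obtain ⟨a, rfl⟩ := IsLocalRing.residue_surjective x
  rw [prResAut_residue, kron_residue_inertia hσ]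
  rfl

/-- reduction commutes with the coefficientwise action of the decomposition group -/
theorem pr_kronRed_coeffMap (σ : L ≃ₐ[K] L) (hσ : σ ∈ A.decompositionSubgroup K)
    (Y : LaurentSeries A) :
    kronRed A (coeffMap (kronDecompHom σ hσ) Y)
      = coeffMap ((prResAut σ hσ : _ ≃+* _) : _ →+* _) (kronRed A Y) := by
  ext n
  show IsLocalRing.residue A (kronDecompHom σ hσ (Y.coeff n))
    = prResAut σ hσ (IsLocalRing.residue A (Y.coeff n))
  rw [prResAut_residue]

end Residue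

/-! ## 4. Reduction of `σ x` for `σ` in the decomposition group -/

section GaussRed

set_option synthInstance.maxHeartbeats 400000

variable (N : ℕ) (A : ValuationSubring Kb)

/-- the arithmetic Galois action on `F_N` is the coefficientwise action -/
theorem pr_coe_arith_smul (σ : Kb ≃ₐ[ℚ] Kb) (x : FF N) :
    ((arithmeticGalois (modularFunctionFieldFull N) σ • x : FF N) : LaurentSeries Kb)
      = coeffMap (σ : Kb →+* Kb) (x : LaurentSeries Kb) := rfl

/-- **reduction of `σ x`**: if `w` is the reduction of `x`, then `σ̄ w` is the reduction of `σ x`,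
for `σ` in the decomposition group of `A`. -/
theorem pr_gaussRed_smul (σ : Kb ≃ₐ[ℚ] Kb) (hσ : σ ∈ A.decompositionSubgroup ℚ)
    {x : FF N} {w : LaurentSeries (kA A)} (h : GaussRed N A x w) :
    GaussRed N A (arithmeticGalois (modularFunctionFieldFull N) σ • x)
      (coeffMap ((prResAut σ hσ : _ ≃+* _) : _ →+* _) w) := by
  obtain ⟨Y₁, Y₂, h₁, h₂, hne, hx, hw⟩ := h
  refine ⟨coeffMap (kronDecompHom σ hσ) Y₁, coeffMap (kronDecompHom σ hσ) Y₂, ?_, ?_, ?_, ?_, ?_⟩
  · rw [kronIncl_coeffMap_kronDecompHom]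
    exact coeffMap_mem_laurentBaseChange σ h₁
  · rw [kronIncl_coeffMap_kronDecompHom]
    exact coeffMap_mem_laurentBaseChange σ h₂
  · rw [pr_kronRed_coeffMap]
    intro h0
    apply hne
    have := congrArg (coeffMap (((prResAut σ hσ).symm : kA A ≃+* kA A) : kA A →+* kA A)) h0
    rwa [pr_coeffMap_symm_apply, map_zero] at this
  · rw [kronIncl_coeffMap_kronDecompHom, kronIncl_coeffMap_kronDecompHom, pr_coe_arith_smul,
      ← map_mul, hx]
  · rw [pr_kronRed_coeffMap, pr_kronRed_coeffMap, ← map_mul, hw]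

/-- Gauss-integrality is stable under the decomposition group. -/
theorem pr_gaussInt_smul (σ : Kb ≃ₐ[ℚ] Kb) (hσ : σ ∈ A.decompositionSubgroup ℚ)
    {x : FF N} (h : GaussInt N A x) :
    GaussInt N A (arithmeticGalois (modularFunctionFieldFull N) σ • x) := by
  obtain ⟨w, hw⟩ := h
  exact ⟨_, pr_gaussRed_smul N A σ hσ hw⟩

/-- **Frobenius**: the reduction of `φ x` is `Fr (x̄)` (coefficientwise `ℓ`-th power). -/
theorem pr_gaussRed_frobenius {ℓ : ℕ} [Fact ℓ.Prime] [CharP (kA A) ℓ]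
    (φ : Kb ≃ₐ[ℚ] Kb) (hφ : A.IsFrobeniusAt φ ℓ)
    {x : FF N} {w : LaurentSeries (kA A)} (h : GaussRed N A x w) :
    GaussRed N A (arithmeticGalois (modularFunctionFieldFull N) φ • x)
      (coeffMap (frobenius (kA A) ℓ) w) := by
  have h1 := pr_gaussRed_smul N A φ hφ.mem_decompositionSubgroup h
  have h2 : coeffMap ((prResAut φ hφ.mem_decompositionSubgroup : _ ≃+* _) : _ →+* _) w
      = coeffMap (frobenius (kA A) ℓ) w := by
    ext n
    show prResAut φ hφ.mem_decompositionSubgroup (w.coeff n) = (w.coeff n) ^ ℓ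
    exact hφ.smul_residue_eq (w.coeff n)
  rwa [h2] at h1

/-- **Inertia**: the reduction of `σ x` is the reduction of `x`. -/
theorem pr_gaussRed_inertia (σ : Kb ≃ₐ[ℚ] Kb) (hσ : σ ∈ A.inertiaSubgroupIn ℚ)
    {x : FF N} {w : LaurentSeries (kA A)} (h : GaussRed N A x w) :
    GaussRed N A (arithmeticGalois (modularFunctionFieldFull N) σ • x) w := by
  have h1 := pr_gaussRed_smul N A σ (kron_mem_decomposition_of_mem_inertia hσ) h
  have h2 : coeffMap ((prResAut σ (kron_mem_decomposition_of_mem_inertia hσ) : _ ≃+* _) :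
      _ →+* _) w = w := by
    rw [prResAut_inertia hσ]
    have h : ((RingEquiv.refl (kA A) : kA A ≃+* kA A) : kA A →+* kA A)
        = RingHom.id (kA A) := rfl
    rw [coeffMap_congr h, coeffMap_id]
  rwa [h2] at h1

/-- `σ̄` as a semilinear automorphism of `F_k`: reduction of `σ x`, with values in `F_k`. -/
theorem pr_gaussRed_prSemilinear (σ : Kb ≃ₐ[ℚ] Kb) (hσ : σ ∈ A.decompositionSubgroup ℚ)
    {x : FF N} {y : modularFunctionFieldFullC (kA A) N}
    (h : GaussRed N A x (y : LaurentSeries (kA A))) :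
    GaussRed N A (arithmeticGalois (modularFunctionFieldFull N) σ • x)
      ((prSemilinear N (prResAut σ hσ) • y : modularFunctionFieldFullC (kA A) N) :
        LaurentSeries (kA A)) :=
  pr_gaussRed_smul N A σ hσ h

/-- **`Fr` for the residue field of `A`** (a valuation ring of `ℚ̄` over `ℓ`). -/
def prFrobA {ℓ : ℕ} (hℓ : ℓ.Prime) (hA : A.LiesOverPrime ℓ) :
    SemilinearAut (kA A) (modularFunctionFieldFullC (kA A) N) :=
  haveI : Fact ℓ.Prime := ⟨hℓ⟩
  haveI : CharP (kA A) ℓ := kron_charP_residueField hℓ hA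
  haveI : PerfectRing (kA A) ℓ := nf_perfectRing_residueField A ℓ
  prFrob (kA A) ℓ N

theorem prFrobA_smul_coeff {ℓ : ℕ} (hℓ : ℓ.Prime) (hA : A.LiesOverPrime ℓ)
    (y : modularFunctionFieldFullC (kA A) N) (n : ℤ) :
    ((prFrobA N A hℓ hA • y : modularFunctionFieldFullC (kA A) N) : LaurentSeries (kA A)).coeff n
      = (y : LaurentSeries (kA A)).coeff n ^ ℓ := rfl

theorem baseAut_prFrobA_apply {ℓ : ℕ} (hℓ : ℓ.Prime) (hA : A.LiesOverPrime ℓ) (a : kA A) :
    SemilinearAut.baseAut (prFrobA N A hℓ hA) a = a ^ ℓ := rfl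

/-- for a Frobenius element `φ`, `prFrobA` is the semilinear automorphism induced by `φ̄`. -/
theorem prFrobA_eq_prSemilinear {ℓ : ℕ} (hℓ : ℓ.Prime) (hA : A.LiesOverPrime ℓ)
    (φ : Kb ≃ₐ[ℚ] Kb) (hφ : A.IsFrobeniusAt φ ℓ) :
    prFrobA N A hℓ hA = prSemilinear N (prResAut φ hφ.mem_decompositionSubgroup) := by
  have : Fact ℓ.Prime := ⟨hℓ⟩
  have : CharP (kA A) ℓ := kron_charP_residueField hℓ hA
  have : PerfectRing (kA A) ℓ := nf_perfectRing_residueField A ℓ
  show prSemilinear N (frobeniusEquiv (kA A) ℓ) = _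
  rw [prResAut_frobenius φ hφ]

/-- for `σ` in the inertia group the induced semilinear automorphism is trivial. -/
theorem prSemilinear_inertia (σ : Kb ≃ₐ[ℚ] Kb) (hσ : σ ∈ A.inertiaSubgroupIn ℚ) :
    prSemilinear N (prResAut σ (kron_mem_decomposition_of_mem_inertia hσ))
      = (1 : SemilinearAut (kA A) (modularFunctionFieldFullC (kA A) N)) := by
  rw [prResAut_inertia hσ]
  exact prSemilinear_one N

/-- **Frobenius, in `F_k`**: the reduction of `φ x` is `Fr • (reduction of x)`. -/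
theorem pr_gaussRed_prFrobA {ℓ : ℕ} (hℓ : ℓ.Prime) (hA : A.LiesOverPrime ℓ)
    (φ : Kb ≃ₐ[ℚ] Kb) (hφ : A.IsFrobeniusAt φ ℓ)
    {x : FF N} {y : modularFunctionFieldFullC (kA A) N}
    (h : GaussRed N A x (y : LaurentSeries (kA A))) :
    GaussRed N A (arithmeticGalois (modularFunctionFieldFull N) φ • x)
      ((prFrobA N A hℓ hA • y : modularFunctionFieldFullC (kA A) N) : LaurentSeries (kA A)) := by
  rw [prFrobA_eq_prSemilinear N A hℓ hA φ hφ]
  exact pr_gaussRed_prSemilinear N A φ hφ.mem_decompositionSubgroup h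

end GaussRed

end Fermat.Agent.PR

end
end ZBINJ_016_4
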