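/- GENERATED FILE (helper35, build-time optimisation, NOTES/ZB.md): verbatim concatenation of the modules
   Fermat.Agent.ES.I2.Abstract
   Fermat.Agent.ES.I2.Core
   Fermat.Agent.ES.I2.Const
   Fermat.Agent.ES.I2.Res
   Fermat.Agent.ES.I2.Final
   Fermat.Agent.R38.HolB1Asm
   Fermat.Agent.ES.I2aux.HRes
   Fermat.Agent.ES.I2aux.Sum
   Fermat.Agent.ES.I2aux.Glue
   Do not edit; do not import together with these modules. -/
import Mathlib
import Fermat.Prelude.Def_ModularCurve_LaurentCoeff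
import Fermat.Agent.ZB.S28_003
import Fermat.Agent.ZB.S28_002
import Fermat.Agent.ZB.ES_001
import Fermat.Agent.ZB.INJ_016
import Fermat.Agent.ZB.INJ_005
import Fermat.Agent.ZB.ES_012
import Fermat.Agent.ZB.ES_003
import Fermat.Agent.ZB.ES_023
import Fermat.Agent.ZB.S49_001
import Fermat.Agent.ZB.ES_021
import Fermat.Agent.ZB.ES_009
import Fermat.Agent.ZB.ES_030
import Fermat.Agent.ZB.ES_031
import Fermat.Agent.ZB.INJ_012
import Fermat.Agent.ZB.S24_011
import Fermat.Agent.ZB.ES_032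

/-! ### bundled: `Fermat.Agent.ES.I2.Abstract` -/
section ZBES_027_0

/-!
# ES / I2 — abstract core, part 1: regular series, integrality transfer

`k` a field, `Ω = k((Q))`.

* `IsReg z` : `z` has no negative coefficients (`z ∈ k[[Q]]`); `IsPos z` : `z ∈ Q k[[Q]]`.
* `isReg_of_monic_root` : `k[[Q]]` is integrally closed in `k((Q))`.
* `isReg_of_isIntegral` : if a `k`-algebra map `τ : F → k((Q))` sends a set `S ⊆ F` into `k[[Q]]`,
  it sends every element of `F` integral over `k[S]` into `k[[Q]]`.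
* `isIntegral_adjoin_singleton_of_isIntegral` : if the elements of `S` are integral over `k[x]`,
  so is every element integral over `k[S]`.
-/

set_option autoImplicit false

noncomputable section

namespace Fermat.Agent.ES.I2

open Polynomial

variable {k : Type*} [Field k]

/-- no negative coefficients -/
def IsReg (z : LaurentSeries k) : Prop := ∀ m : ℤ, m < 0 → z.coeff m = 0

/-- positive order -/
def IsPos (z : LaurentSeries k) : Prop := ∀ m : ℤ, m ≤ 0 → z.coeff m = 0

theorem IsPos.isReg {z : LaurentSeries k} (h : IsPos z) : IsReg z := fun m hm => h m hm.le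

theorem IsPos.coeff_zero {z : LaurentSeries k} (h : IsPos z) : z.coeff 0 = 0 := h 0 le_rfl

theorem isReg_iff {z : LaurentSeries k} :
    IsReg z ↔ ∃ p : PowerSeries k, HahnSeries.ofPowerSeries ℤ k p = z := by
  constructor
  · intro h
    refine ⟨PowerSeries.mk fun n => z.coeff n, ?_⟩
    ext m
    rw [PowerSeries.coeff_coe]
    split_ifs with hm
    · exact (h m hm).symm
    · rw [PowerSeries.coeff_mk]
      congr 1
      omega
  · rintro ⟨p, rfl⟩ m hm
    rw [PowerSeries.coeff_coe, if_pos hm]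

theorem isPos_iff {z : LaurentSeries k} :
    IsPos z ↔ ∃ p : PowerSeries k, HahnSeries.ofPowerSeries ℤ k (PowerSeries.X * p) = z := by
  constructor
  · intro h
    refine ⟨PowerSeries.mk fun n => z.coeff (n + 1), ?_⟩
    ext m
    rw [PowerSeries.coeff_coe]
    split_ifs with hm
    · exact (h m hm.le).symm
    · rcases Nat.eq_zero_or_pos m.natAbs with h0 | h0
      · have hm0 : m = 0 := by omega
        rw [h0, PowerSeries.coeff_zero_X_mul, hm0]
        exact (h 0 le_rfl).symm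
      · obtain ⟨n, hn⟩ : ∃ n, m.natAbs = n + 1 := ⟨m.natAbs - 1, by omega⟩
        rw [hn, PowerSeries.coeff_succ_X_mul, PowerSeries.coeff_mk]
        congr 1
        omega
  · rintro ⟨p, rfl⟩ m hm
    rw [PowerSeries.coeff_coe]
    split_ifs with hm'
    · rfl
    · have hm0 : m = 0 := by omega
      rw [hm0]
      simp

theorem isReg_zero : IsReg (0 : LaurentSeries k) := fun _ _ => rfl

theorem isReg_one : IsReg (1 : LaurentSeries k) := isReg_iff.2 ⟨1, map_one _⟩

theorem IsReg.add {a b : LaurentSeries k} (ha : IsReg a) (hb : IsReg b) : IsReg (a + b) := by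
  obtain ⟨p, rfl⟩ := isReg_iff.1 ha
  obtain ⟨q, rfl⟩ := isReg_iff.1 hb
  exact isReg_iff.2 ⟨p + q, map_add _ _ _⟩

theorem IsReg.neg {a : LaurentSeries k} (ha : IsReg a) : IsReg (-a) := by
  obtain ⟨p, rfl⟩ := isReg_iff.1 ha
  exact isReg_iff.2 ⟨-p, map_neg _ _⟩

theorem IsReg.sub {a b : LaurentSeries k} (ha : IsReg a) (hb : IsReg b) : IsReg (a - b) := by
  rw [sub_eq_add_neg]
  exact ha.add hb.neg

theorem IsReg.mul {a b : LaurentSeries k} (ha : IsReg a) (hb : IsReg b) : IsReg (a * b) := by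
  obtain ⟨p, rfl⟩ := isReg_iff.1 ha
  obtain ⟨q, rfl⟩ := isReg_iff.1 hb
  exact isReg_iff.2 ⟨p * q, map_mul _ _ _⟩

theorem isReg_C (c : k) : IsReg (HahnSeries.C c : LaurentSeries k) := by
  intro m hm
  rw [HahnSeries.C_apply, HahnSeries.coeff_single_of_ne hm.ne]

theorem isReg_algebraMap (c : k) : IsReg (algebraMap k (LaurentSeries k) c) := by
  rw [LaurentSeries.algebraMap_apply]
  exact isReg_C c

theorem IsPos.mul_isReg {a b : LaurentSeries k} (ha : IsPos a) (hb : IsReg b) : IsPos (a * b) := by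
  obtain ⟨p, rfl⟩ := isPos_iff.1 ha
  obtain ⟨q, rfl⟩ := isReg_iff.1 hb
  exact isPos_iff.2 ⟨p * q, by rw [← map_mul, mul_assoc]⟩

theorem IsReg.mul_isPos {a b : LaurentSeries k} (ha : IsReg a) (hb : IsPos b) : IsPos (a * b) := by
  rw [mul_comm]
  exact hb.mul_isReg ha

theorem isPos_zero : IsPos (0 : LaurentSeries k) := fun _ _ => rfl

theorem IsPos.add {a b : LaurentSeries k} (ha : IsPos a) (hb : IsPos b) : IsPos (a + b) := by
  intro m hm
  rw [HahnSeries.coeff_add, ha m hm, hb m hm, add_zero]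

theorem IsPos.neg {a : LaurentSeries k} (ha : IsPos a) : IsPos (-a) := by
  intro m hm
  rw [HahnSeries.coeff_neg, ha m hm, neg_zero]

theorem IsPos.sub {a b : LaurentSeries k} (ha : IsPos a) (hb : IsPos b) : IsPos (a - b) := by
  rw [sub_eq_add_neg]
  exact ha.add hb.neg

theorem isPos_sum {ι : Type*} (s : Finset ι) (f : ι → LaurentSeries k)
    (h : ∀ i ∈ s, IsPos (f i)) : IsPos (∑ i ∈ s, f i) := by
  classical
  induction s using Finset.induction_on with
  | empty => simpa using isPos_zero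
  | insert a s ha ih =>
    rw [Finset.sum_insert ha]
    exact (h a (Finset.mem_insert_self a s)).add
      (ih fun i hi => h i (Finset.mem_insert_of_mem hi))

theorem isReg_prod {ι : Type*} (s : Finset ι) (f : ι → LaurentSeries k)
    (h : ∀ i ∈ s, IsReg (f i)) : IsReg (∏ i ∈ s, f i) := by
  classical
  induction s using Finset.induction_on with
  | empty => simpa using isReg_one
  | insert a s ha ih =>
    rw [Finset.prod_insert ha]
    exact (h a (Finset.mem_insert_self a s)).mul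
      (ih fun i hi => h i (Finset.mem_insert_of_mem hi))

/-- a product of regular series, one of which has positive order, has positive order -/
theorem isPos_prod {ι : Type*} (s : Finset ι) (f : ι → LaurentSeries k)
    (h : ∀ i ∈ s, IsReg (f i)) {i₀ : ι} (hi₀ : i₀ ∈ s) (h₀ : IsPos (f i₀)) :
    IsPos (∏ i ∈ s, f i) := by
  classical
  rw [← Finset.mul_prod_erase s f hi₀]
  exact h₀.mul_isReg (isReg_prod _ _ fun i hi => h i (Finset.mem_of_mem_erase hi))

/-- the subring `k[[Q]]` of `k((Q))` -/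
def regSubring (k : Type*) [Field k] : Subring (LaurentSeries k) where
  carrier := {z | IsReg z}
  mul_mem' := fun ha hb => ha.mul hb
  one_mem' := isReg_one
  add_mem' := fun ha hb => ha.add hb
  zero_mem' := isReg_zero
  neg_mem' := fun ha => ha.neg

theorem mem_regSubring {z : LaurentSeries k} : z ∈ regSubring k ↔ IsReg z := Iff.rfl

/-- **`k[[Q]]` is integrally closed in `k((Q))`.** -/
theorem isReg_of_monic_root (p : (LaurentSeries k)[X]) (hp : p.Monic)
    (hc : ∀ n, IsReg (p.coeff n)) (z : LaurentSeries k) (hz : p.eval z = 0) : IsReg z := by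
  have hl : p ∈ Polynomial.lifts (algebraMap (PowerSeries k) (LaurentSeries k)) := by
    rw [Polynomial.lifts_iff_coeff_lifts]
    intro n
    obtain ⟨q, hq⟩ := isReg_iff.1 (hc n)
    exact ⟨q, by rw [← hq, LaurentSeries.coe_algebraMap]⟩
  obtain ⟨q, hq, -, hqm⟩ := Polynomial.lifts_and_degree_eq_and_monic hl hp
  have hint : IsIntegral (PowerSeries k) z := by
    refine ⟨q, hqm, ?_⟩
    rw [← Polynomial.eval_map, hq]
    exact hz
  obtain ⟨y, hy⟩ := IsIntegrallyClosed.isIntegral_iff.1 hint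
  rw [LaurentSeries.coe_algebraMap] at hy
  exact isReg_iff.2 ⟨y, hy⟩

/-- integral over a subring of `k[[Q]]` ⟹ in `k[[Q]]` -/
theorem isReg_of_isIntegral_subring (O : Subring (LaurentSeries k)) (hO : ∀ z ∈ O, IsReg z)
    {z : LaurentSeries k} (hz : IsIntegral O z) : IsReg z := by
  obtain ⟨q, hqm, hq⟩ := hz
  refine isReg_of_monic_root (q.map O.subtype) (hqm.map _) (fun n => ?_) z ?_
  · rw [Polynomial.coeff_map]
    exact hO _ (q.coeff n).2
  · rw [Polynomial.eval_map]
    exact hq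

end Fermat.Agent.ES.I2

end
end ZBES_027_0

/-! ### bundled: `Fermat.Agent.ES.I2.Core` -/
section ZBES_027_1

/-!
# ES / I2 — abstract core, part 2: orders, the residue computation and the norm argument

`Ω = k((Q))`, `J ∈ Ω` of order `-N < 0` (`J = j̄(Q^N)`).

* `OrdGe z n` : all coefficients of `z` below `n` vanish.
* `const_core` : if `∏ W_i = P(J)`, the `W_i` have no poles and one of them vanishes at `Q = 0`,
  then `P = 0`.
* `res_core` : if `Σ W_i Y_i = J (J - c) P₁(J)`, the `W_i` (`i ≠ i₀`) have no poles, the `Y_i`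
  (`i ≠ i₀`) have order `> -N`, and `Y_{i₀} θJ = G J (J - c)`, then `a₀ (W_{i₀} G) = 0`.
-/

set_option autoImplicit false

noncomputable section

namespace Fermat.Agent.ES.I2

open Polynomial Fermat.Agent.S28.Deriv

variable {k : Type*} [Field k]

/-- all coefficients below `n` vanish -/
def OrdGe (z : LaurentSeries k) (n : ℤ) : Prop := ∀ m : ℤ, m < n → z.coeff m = 0

theorem isReg_iff_ordGe {z : LaurentSeries k} : IsReg z ↔ OrdGe z 0 := Iff.rfl

theorem isPos_iff_ordGe {z : LaurentSeries k} : IsPos z ↔ OrdGe z 1 := by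
  constructor
  · intro h m hm
    exact h m (by omega)
  · intro h m hm
    exact h m (by omega)

theorem ordGe_iff {z : LaurentSeries k} {n : ℤ} : OrdGe z n ↔ (n : WithTop ℤ) ≤ z.orderTop := by
  constructor
  · intro h
    by_cases hz : z = 0
    · rw [hz, HahnSeries.orderTop_zero]
      exact le_top
    · rw [← HahnSeries.order_eq_orderTop_of_ne_zero hz]
      by_contra hcon
      have hlt : z.order < n := by
        by_contra h2
        exact hcon (by exact_mod_cast not_lt.1 h2)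
      exact hz (HahnSeries.coeff_order_eq_zero.1 (h _ hlt))
  · intro h m hm
    exact HahnSeries.coeff_eq_zero_of_lt_orderTop (lt_of_lt_of_le (by exact_mod_cast hm) h)

theorem ordGe_zero (n : ℤ) : OrdGe (0 : LaurentSeries k) n := fun _ _ => rfl

theorem OrdGe.mono {z : LaurentSeries k} {n n' : ℤ} (h : OrdGe z n) (hn : n' ≤ n) :
    OrdGe z n' := fun m hm => h m (lt_of_lt_of_le hm hn)

theorem OrdGe.add {a b : LaurentSeries k} {n : ℤ} (ha : OrdGe a n) (hb : OrdGe b n) :
    OrdGe (a + b) n := by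
  intro m hm
  rw [HahnSeries.coeff_add, ha m hm, hb m hm, add_zero]

theorem OrdGe.neg {a : LaurentSeries k} {n : ℤ} (ha : OrdGe a n) : OrdGe (-a) n := by
  intro m hm
  rw [HahnSeries.coeff_neg, ha m hm, neg_zero]

theorem OrdGe.sub {a b : LaurentSeries k} {n : ℤ} (ha : OrdGe a n) (hb : OrdGe b n) :
    OrdGe (a - b) n := by
  rw [sub_eq_add_neg]
  exact ha.add hb.neg

theorem OrdGe.mul {a b : LaurentSeries k} {n m : ℤ} (ha : OrdGe a n) (hb : OrdGe b m) :
    OrdGe (a * b) (n + m) := by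
  rw [ordGe_iff] at ha hb ⊢
  rw [HahnSeries.orderTop_mul]
  push_cast
  exact add_le_add ha hb

theorem ordGe_sum {ι : Type*} (s : Finset ι) (f : ι → LaurentSeries k) (n : ℤ)
    (h : ∀ i ∈ s, OrdGe (f i) n) : OrdGe (∑ i ∈ s, f i) n := by
  intro m hm
  rw [HahnSeries.coeff_sum]
  exact Finset.sum_eq_zero fun i hi => h i hi m hm

theorem OrdGe.thetaFun {a : LaurentSeries k} {n : ℤ} (ha : OrdGe a n) : OrdGe (thetaFun a) n := by
  intro m hm
  rw [thetaFun_coeff, ha m hm, mul_zero]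

theorem ordGe_order (z : LaurentSeries k) : OrdGe z z.order := fun _ hm =>
  HahnSeries.coeff_eq_zero_of_lt_order hm

theorem OrdGe.inv_of_order {D : LaurentSeries k} (hD : D ≠ 0) : OrdGe D⁻¹ (-D.order) := by
  rw [ordGe_iff]
  have h1 : (D * D⁻¹).orderTop = 0 := by
    rw [mul_inv_cancel₀ hD]
    exact HahnSeries.orderTop_one
  rw [HahnSeries.orderTop_mul, ← HahnSeries.order_eq_orderTop_of_ne_zero hD] at h1
  have hne : D⁻¹ ≠ 0 := inv_ne_zero hD
  rw [← HahnSeries.order_eq_orderTop_of_ne_zero hne] at h1 ⊢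
  have h2 : D.order + D⁻¹.order = 0 := by exact_mod_cast h1
  have h3 : -D.order = D⁻¹.order := by omega
  rw [h3]

/-! ## polynomials in `J` -/

theorem aeval_J_eq_zero {J : LaurentSeries k} (hJ : J.order < 0) (P : k[X])
    (h : aeval J P = 0) : P = 0 := by
  by_contra hP
  exact Fermat.Agent.S28.aeval_ne_zero_of_order_neg hJ hP h

/-- a polynomial in `J` vanishing at `Q = 0` is zero -/
theorem poly_eq_zero_of_isPos {J : LaurentSeries k} (hJ : J.order < 0) (P : k[X])
    (h : IsPos (aeval J P)) : P = 0 := by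
  by_contra hP
  have hne := Fermat.Agent.S28.aeval_ne_zero_of_order_neg hJ hP
  have ho := Fermat.Agent.S28.order_aeval_of_order_neg hJ hP
  have h1 : (aeval J P).order ≤ 0 := by
    rw [ho]
    exact mul_nonpos_of_nonneg_of_nonpos (by positivity) hJ.le
  exact hne (HahnSeries.coeff_order_eq_zero.1 (h _ h1))

/-- **the norm argument** -/
theorem const_core {J : LaurentSeries k} (hJ : J.order < 0) {ι : Type*} [Fintype ι] (i₀ : ι)
    (W : ι → LaurentSeries k) (hreg : ∀ i, i ≠ i₀ → IsReg (W i)) (hpos : IsPos (W i₀))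
    (P : k[X]) (hP : ∏ i, W i = aeval J P) : P = 0 := by
  classical
  refine poly_eq_zero_of_isPos hJ P ?_
  rw [← hP, ← Finset.mul_prod_erase Finset.univ W (Finset.mem_univ i₀)]
  exact hpos.mul_isReg (isReg_prod _ _ fun i hi => hreg i (Finset.ne_of_mem_erase hi))

/-- the residue of `P(J) dJ` vanishes -/
theorem coeff_zero_aeval_mul_theta {J : LaurentSeries k} (hJ : J ≠ 0) (P : k[X]) :
    (aeval J P * thetaFun J).coeff 0 = 0 := by
  induction P using Polynomial.induction_on' with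
  | add P Q hP hQ => rw [map_add, add_mul, HahnSeries.coeff_add, hP, hQ, add_zero]
  | monomial n a =>
    rw [aeval_monomial, algebraMap_eq_C, mul_assoc, Fermat.Agent.ES.I2aux.res_coeff_C_mul]
    have := Fermat.Agent.ES.I2aux.res_zpow_mul_theta J hJ (n : ℤ)
    rw [zpow_natCast, if_neg (by omega)] at this
    rw [this, mul_zero]

/-- **the residue computation** -/
theorem res_core {J : LaurentSeries k} {N : ℕ} (hN : 0 < N) (hJ : J.order = -(N : ℤ)) (c : k)
    {ι : Type*} [Fintype ι] (i₀ : ι) (W Y : ι → LaurentSeries k)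
    (hW : ∀ i, i ≠ i₀ → IsReg (W i)) (hY : ∀ i, i ≠ i₀ → OrdGe (Y i) (-(N : ℤ) + 1))
    (P₁ : k[X]) (hP : ∑ i, W i * Y i = J * (J - HahnSeries.C c) * aeval J P₁)
    (G : LaurentSeries k) (hG : Y i₀ * thetaFun J = G * (J * (J - HahnSeries.C c))) :
    (W i₀ * G).coeff 0 = 0 := by
  classical
  have hJneg : J.order < 0 := by rw [hJ]; omega
  have hJ0 : J ≠ 0 := by
    intro h
    rw [h, HahnSeries.order_zero] at hJneg
    exact lt_irrefl _ hJneg
  set D : LaurentSeries k := J * (J - HahnSeries.C c) with hD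
  have hDa : D = aeval J (X * (X - C c)) := by
    rw [hD, map_mul, map_sub, aeval_X, aeval_C, algebraMap_eq_C]
  have hq : (X * (X - C c) : k[X]) ≠ 0 := mul_ne_zero X_ne_zero (X_sub_C_ne_zero c)
  have hD0 : D ≠ 0 := by
    rw [hDa]
    exact Fermat.Agent.S28.aeval_ne_zero_of_order_neg hJneg hq
  have hDo : D.order = -(2 * (N : ℤ)) := by
    rw [hDa, Fermat.Agent.S28.order_aeval_of_order_neg hJneg hq, hJ]
    have : (X * (X - C c) : k[X]).natDegree = 2 := by
      rw [natDegree_mul X_ne_zero (X_sub_C_ne_zero c), natDegree_X, natDegree_X_sub_C]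
    rw [this]
    push_cast
    ring
  set S : LaurentSeries k := ∑ i ∈ Finset.univ.erase i₀, W i * Y i with hS
  have hsum : W i₀ * Y i₀ = D * aeval J P₁ - S := by
    rw [← hP, ← Finset.add_sum_erase Finset.univ _ (Finset.mem_univ i₀)]
    ring
  have hSo : OrdGe S (-(N : ℤ) + 1) := by
    refine ordGe_sum _ _ _ fun i hi => ?_
    have := (isReg_iff_ordGe.1 (hW i (Finset.ne_of_mem_erase hi))).mul
      (hY i (Finset.ne_of_mem_erase hi))
    rwa [zero_add] at this
  have hθ : OrdGe (thetaFun J) (-(N : ℤ)) := by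
    have := (ordGe_order J).thetaFun
    rwa [hJ] at this
  have hDi : OrdGe D⁻¹ (2 * (N : ℤ)) := by
    have := OrdGe.inv_of_order hD0
    rwa [hDo, neg_neg] at this
  have key : W i₀ * G = aeval J P₁ * thetaFun J - D⁻¹ * (S * thetaFun J) := by
    have h1 : W i₀ * G * D = (D * aeval J P₁ - S) * thetaFun J := by
      rw [← hsum, mul_assoc (W i₀), ← hG]
      ring
    have h2 : W i₀ * G = D⁻¹ * ((D * aeval J P₁ - S) * thetaFun J) := by
      rw [← h1]
      field_simp
    rw [h2]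
    field_simp
  rw [key, HahnSeries.coeff_sub, coeff_zero_aeval_mul_theta hJ0, zero_sub, neg_eq_zero]
  have h3 := hDi.mul (hSo.mul hθ)
  exact h3 0 (by omega)

end Fermat.Agent.ES.I2

end
end ZBES_027_1

/-! ### bundled: `Fermat.Agent.ES.I2.Const` -/
section ZBES_027_2

/-!
# ES / I2, piece Const: `W ∩ q k[[q]] = 0`

`stmtConstGlue : StmtConstGlue` (= `StmtTN → StmtS2All → StmtTauAll → StmtConstAll`).

For `w ∈ W` vanishing at `q = 0`: the norm `∏ τ_i w` is a polynomial in `J = j̄(Q^N)` (`StmtTN`),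
the factors `τ_i w`, `i ≠ i₀`, have no pole (`StmtS2`) and `τ_{i₀} w = w(Q^N)` vanishes at `Q = 0`;
so the norm vanishes (`const_core`), hence `w = 0`.
-/

set_option autoImplicit false

noncomputable section

namespace Fermat.Agent.ES.I2

open ModularCurve AlgebraicCurve Fermat.Agent.ES Fermat.Agent.S24 Fermat.Agent.ES.M

/-- `j̄(Q^N)` has negative order -/
theorem const_order_J (k : Type*) [Field k] (N : ℕ) [NeZero N] :
    (qExpand k N (jqModC k)).order < 0 := by
  have hN : (0 : ℤ) < N := by exact_mod_cast Nat.pos_of_ne_zero (NeZero.ne N)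
  have h1 : (qExpand k N (jqModC k)).coeff ((N : ℤ) * (-1)) ≠ 0 := by
    rw [qExpand_coeff_mul, coeff_jqModC_neg_one]
    exact one_ne_zero
  have h2 := HahnSeries.order_le_of_coeff_ne_zero h1
  omega

/-- `w(Q^N)` vanishes at `Q = 0` if `w` vanishes at `q = 0` -/
theorem const_isPos_qExpand (k : Type*) [Field k] (N : ℕ) [NeZero N] {w : LaurentSeries k}
    (hw : ∀ m : ℤ, m ≤ 0 → w.coeff m = 0) : IsPos (qExpand k N w) := by
  intro m hm
  by_cases hdvd : (N : ℤ) ∣ m
  · obtain ⟨t, rfl⟩ := hdvd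
    rw [qExpand_coeff_mul]
    apply hw
    have hN : (0 : ℤ) < N := by exact_mod_cast Nat.pos_of_ne_zero (NeZero.ne N)
    by_contra hcon
    rw [not_le] at hcon
    have : 0 < (N : ℤ) * t := mul_pos hN hcon
    omega
  · exact qExpand_coeff_of_not_dvd N _ hdvd

set_option synthInstance.maxHeartbeats 400000 in
/-- **piece I2-Const** -/
theorem stmtConstGlue : StmtConstGlue := by
  intro hTN hS2 hTau N _ ℓ hℓ hℓN A hA w hw hw0
  obtain ⟨τ, i₀, hτ⟩ := hTau N ℓ hℓ hℓN A hA
  obtain ⟨hS2a, hS2b⟩ := hS2 N ℓ hℓ hℓN A hA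
  have : Fact ℓ.Prime := ⟨hℓ⟩
  have : CharP (kA A) ℓ := kron_charP_residueField (A := A) hℓ hA
  have : PerfectRing (kA A) ℓ := Fermat.Agent.INJ.nf_perfectRing_residueField A ℓ
  have hNk : ((N : ℕ) : kA A) ≠ 0 := redF_natCast_ne_zero N A ℓ hℓ hℓN hA
  obtain ⟨-, P, hP⟩ := hTN (kA A) ℓ N hNk τ hτ.inj hτ.jmap ⟨w, hw.1⟩ (hS2a w hw)
  have hP0 : P = 0 := by
    refine const_core (const_order_J (kA A) N) i₀ (fun i => τ i ⟨w, hw.1⟩) ?_ ?_ P hP
    · intro i hi
      exact hS2b τ i₀ hτ w hw i hi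
    · rw [hτ.infty, iotaK_apply]
      exact const_isPos_qExpand (kA A) N hw0
  rw [hP0, map_zero] at hP
  obtain ⟨i, -, hi⟩ := Finset.prod_eq_zero_iff.1 hP
  have hz : (⟨w, hw.1⟩ : ↥(modularFunctionFieldFullC (kA A) N)) = 0 :=
    (τ i).toRingHom.injective (hi.trans (map_zero _).symm)
  exact congrArg Subtype.val hz

end Fermat.Agent.ES.I2

end
end ZBES_027_2

/-! ### bundled: `Fermat.Agent.ES.I2.Res` -/
section ZBES_027_3

/-!
# ES / I2 — piece `I2-Res`: the residue theorem on `W` (`ℓ ≥ 5`)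

`a₀ (w f̄) = 0` for `w ∈ W` and `f` a cusp form of weight `2` with integral `q`-expansion.
Plan: `NOTES/ES-I2.md`; interface `ES/I2/Plan2.lean`.
-/

set_option autoImplicit false

noncomputable section

namespace Fermat.Agent.ES.I2

open ModularCurve AlgebraicCurve HahnSeries Fermat.Agent.ES Fermat.Agent.S24 Fermat.Agent.ES.M
open Polynomial Fermat.Agent.S28.Deriv

section Gen

variable {k : Type*} [Field k]

theorem intJ_iff {x z : LaurentSeries k} :
    IntJ x z ↔ (Polynomial.aeval (R := k) x).toRingHom.IsIntegralElem z := Iff.rfl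

theorem IntJ.mul {x a b : LaurentSeries k} (ha : IntJ x a) (hb : IntJ x b) : IntJ x (a * b) :=
  RingHom.IsIntegralElem.mul _ (intJ_iff.1 ha) (intJ_iff.1 hb)

theorem IntJ.add {x a b : LaurentSeries k} (ha : IntJ x a) (hb : IntJ x b) : IntJ x (a + b) :=
  RingHom.IsIntegralElem.add _ (intJ_iff.1 ha) (intJ_iff.1 hb)

theorem IntJ.sub {x a b : LaurentSeries k} (ha : IntJ x a) (hb : IntJ x b) : IntJ x (a - b) :=
  RingHom.IsIntegralElem.sub _ (intJ_iff.1 ha) (intJ_iff.1 hb)

theorem IntJ.pow {x a : LaurentSeries k} (ha : IntJ x a) (n : ℕ) : IntJ x (a ^ n) := by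
  induction n with
  | zero =>
    rw [pow_zero]
    exact intJ_iff.2 ((Polynomial.aeval (R := k) x).toRingHom.isIntegralElem_one)
  | succ n ih =>
    rw [pow_succ]
    exact ih.mul ha

theorem intJ_aeval (x : LaurentSeries k) (P : k[X]) : IntJ x (aeval x P) :=
  intJ_iff.2 ((Polynomial.aeval (R := k) x).toRingHom.isIntegralElem_map)

theorem intJ_self (x : LaurentSeries k) : IntJ x x := by
  have := intJ_aeval x X
  rwa [aeval_X] at this

theorem intJ_ofNat (x : LaurentSeries k) (n : ℕ) [n.AtLeastTwo] :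
    IntJ x (OfNat.ofNat n : LaurentSeries k) := by
  have := intJ_aeval x (OfNat.ofNat n : k[X])
  rwa [map_ofNat] at this

/-- transport of integrality along a `k`-algebra map defined on an intermediate field -/
theorem IntJ.map_algHom (E : IntermediateField k (LaurentSeries k))
    (τ : ↥E →ₐ[k] LaurentSeries k) (x z : ↥E) (h : IntJ (x : LaurentSeries k) z) :
    IntJ (τ x) (τ z) := by
  obtain ⟨p, hp, h0⟩ := h
  refine ⟨p, hp, ?_⟩
  have hval : ∀ φ : ↥E →ₐ[k] LaurentSeries k,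
      p.eval₂ (Polynomial.aeval (R := k) (φ x)).toRingHom (φ z) =
        φ (p.eval₂ (Polynomial.aeval (R := k) x).toRingHom z) := by
    intro φ
    have h1 := Polynomial.hom_eval₂ p (Polynomial.aeval (R := k) x).toRingHom φ.toRingHom z
    have h2 : φ.toRingHom.comp (Polynomial.aeval (R := k) x).toRingHom =
        (Polynomial.aeval (R := k) (φ x)).toRingHom := by
      have h3 : (Polynomial.aeval (R := k) (φ x)) = φ.comp (Polynomial.aeval x) :=
        Polynomial.aeval_algHom φ x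
      rw [h3]
      rfl
    rw [h2] at h1
    exact h1.symm
  have h3 : p.eval₂ (Polynomial.aeval (R := k) x).toRingHom z = 0 := by
    have h1 := hval E.val
    have h2 : E.val x = (x : LaurentSeries k) := rfl
    have h4 : E.val z = (z : LaurentSeries k) := rfl
    rw [h2, h4, h0] at h1
    exact E.val.injective (h1.symm.trans (map_zero _).symm)
  rw [hval τ, h3, map_zero]

end Gen

section Main

theorem res_1728_ne_zero {k : Type*} [Field k] (ℓ : ℕ) (hℓ : ℓ.Prime) (h5 : 5 ≤ ℓ)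
    [CharP k ℓ] : (1728 : k) ≠ 0 := by
  intro h
  have h1 : ((1728 : ℕ) : k) = 0 := by exact_mod_cast h
  rw [CharP.cast_eq_zero_iff k ℓ] at h1
  have h2 : (1728 : ℕ) = 2 ^ 6 * 3 ^ 3 := by norm_num
  rw [h2] at h1
  rcases (Nat.Prime.dvd_mul hℓ).1 h1 with h3 | h3
  · have := (Nat.prime_dvd_prime_iff_eq hℓ Nat.prime_two).1 (hℓ.dvd_of_dvd_pow h3)
    omega
  · have := (Nat.prime_dvd_prime_iff_eq hℓ Nat.prime_three).1 (hℓ.dvd_of_dvd_pow h3)
    omega

theorem res_order_J (k : Type*) [Field k] (N : ℕ) [NeZero N] :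
    (qExpand k N (jqModC k)).order = -(N : ℤ) := by
  rw [Fermat.Agent.S28.order_qExpand, Fermat.Agent.S28.order_jqModC, mul_neg, mul_one]

/-- factorisation of a polynomial vanishing at `0` and at `c ≠ 0` -/
theorem res_factor {k : Type*} [Field k] (c : k) (hc : c ≠ 0) (P : k[X]) (h0 : P.eval 0 = 0)
    (h1 : P.eval c = 0) : ∃ P₁ : k[X], P = X * (X - Polynomial.C c) * P₁ := by
  obtain ⟨Q, hQ⟩ := Polynomial.dvd_iff_isRoot.2 h0
  rw [Polynomial.C_0, sub_zero] at hQ
  have h2 : Q.eval c = 0 := by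
    rw [hQ, eval_mul, eval_X] at h1
    exact (mul_eq_zero.1 h1).resolve_left hc
  obtain ⟨P₁, hP₁⟩ := Polynomial.dvd_iff_isRoot.2 h2
  exact ⟨P₁, by rw [hQ, hP₁, mul_assoc]⟩

/-- the residue theorem, generic form -/
theorem res_main (k : Type) [Field k] (ℓ : ℕ) [Fact ℓ.Prime] [CharP k ℓ] [PerfectRing k ℓ]
    (h1728 : (1728 : k) ≠ 0) (N : ℕ) [NeZero N] (hNk : ((N : ℕ) : k) ≠ 0)
    (hNilp : StmtNilp) (hTN : StmtTN)
    (τ : Fin (dedekindPsi N) → (↥(modularFunctionFieldFullC k N) →ₐ[k] LaurentSeries k))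
    (i₀ : Fin (dedekindPsi N)) (hinj : Function.Injective τ) (hinf : τ i₀ = iotaK k N)
    (hjmap : ∀ i, τ i ⟨jqModC k, jqModC_mem_full k N⟩ = qExpand k N (jqModC k))
    (w : ↥(modularFunctionFieldFullC k N)) (hwI : IntJ (jqModC k) (w : LaurentSeries k))
    (hwreg : ∀ i, i ≠ i₀ → ∀ m : ℤ, m < 0 → (τ i w).coeff m = 0)
    (fq : LaurentSeries k) (y y1 y2 : ↥(modularFunctionFieldFullC k N))
    (hrel : (y : LaurentSeries k) * thetaFun (jqModC k) = fq * jqModC k * (jqModC k - 1728))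
    (h2 : (y : LaurentSeries k) ^ 2 = (y2 : LaurentSeries k) * (jqModC k - 1728))
    (h3 : (y : LaurentSeries k) ^ 3 = (y1 : LaurentSeries k) * jqModC k * (jqModC k - 1728))
    (hyI : IntJ (jqModC k) (y : LaurentSeries k))
    (hy1I : IntJ (jqModC k) (y1 : LaurentSeries k))
    (hy2I : IntJ (jqModC k) (y2 : LaurentSeries k))
    (hyord : ∀ i, ∀ m : ℤ, m ≤ -(N : ℤ) → (τ i y).coeff m = 0) :
    ((w : LaurentSeries k) * fq).coeff 0 = 0 := by
  classical
  have hJo : (qExpand k N (jqModC k)).order = -(N : ℤ) := res_order_J k N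
  have hN0 : 0 < N := Nat.pos_of_ne_zero (NeZero.ne N)
  have hJneg : (qExpand k N (jqModC k)).order < 0 := by rw [hJo]; omega
  have hj'coe : ((⟨jqModC k, jqModC_mem_full k N⟩ : ↥(modularFunctionFieldFullC k N)) :
      LaurentSeries k) = jqModC k := rfl
  have hτ1728 : ∀ i, τ i (1728 : ↥(modularFunctionFieldFullC k N)) =
      HahnSeries.C (1728 : k) := by
    intro i
    rw [map_ofNat, map_ofNat]
  -- integrality of the images
  have hIτ : ∀ (x : ↥(modularFunctionFieldFullC k N)), IntJ (jqModC k) (x : LaurentSeries k) →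
      ∀ i, IntJ (qExpand k N (jqModC k)) (τ i x) := by
    intro x hx i
    have := IntJ.map_algHom (modularFunctionFieldFullC k N) (τ i)
      ⟨jqModC k, jqModC_mem_full k N⟩ x hx
    rwa [hjmap i] at this
  -- the trace
  have hzI : IntJ (jqModC k) ((w * y : ↥(modularFunctionFieldFullC k N)) : LaurentSeries k) :=
    hwI.mul hyI
  obtain ⟨⟨P, hP⟩, -⟩ := hTN k ℓ N hNk τ hinj hjmap (w * y) hzI
  have htr : ∀ P : k[X], aeval (qExpand k N (jqModC k)) P = 0 → P = 0 :=
    aeval_J_eq_zero hJneg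
  -- nilpotent trace at `0`
  have hP0 : P.eval 0 = 0 := by
    refine hNilp k (qExpand k N (jqModC k)) htr (dedekindPsi N) (fun i => τ i (w * y))
      (fun i => τ i (w ^ 3 * y1 * (⟨jqModC k, jqModC_mem_full k N⟩ - 1728))) 0 3 (by norm_num)
      ?_ ?_ P hP
    · intro i
      have h3' : (y : ↥(modularFunctionFieldFullC k N)) ^ 3 =
          y1 * ⟨jqModC k, jqModC_mem_full k N⟩ * (⟨jqModC k, jqModC_mem_full k N⟩ - 1728) :=
        Subtype.ext h3
      show τ i (w * y) ^ 3 = _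
      rw [← map_pow, mul_pow, h3', map_zero, sub_zero, ← hjmap i, ← map_mul]
      congr 1
      ring
    · intro i
      refine hIτ _ ?_ i
      exact ((hwI.pow 3).mul hy1I).mul ((intJ_self (jqModC k)).sub (intJ_ofNat (jqModC k) 1728))
  -- nilpotent trace at `1728`
  have hP1 : P.eval 1728 = 0 := by
    refine hNilp k (qExpand k N (jqModC k)) htr (dedekindPsi N) (fun i => τ i (w * y))
      (fun i => τ i (w ^ 2 * y2)) 1728 2 (by norm_num) ?_ ?_ P hP
    · intro i
      have h2' : (y : ↥(modularFunctionFieldFullC k N)) ^ 2 =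
          y2 * (⟨jqModC k, jqModC_mem_full k N⟩ - 1728) := Subtype.ext h2
      show τ i (w * y) ^ 2 = _
      rw [← map_pow, mul_pow, h2', ← hjmap i, ← hτ1728 i, ← map_sub, ← map_mul]
      congr 1
      ring
    · intro i
      refine hIτ _ ?_ i
      exact (hwI.pow 2).mul hy2I
  obtain ⟨P₁, hP₁⟩ := res_factor (1728 : k) h1728 P hP0 hP1
  -- the residue computation
  have hC1728 : (HahnSeries.C (1728 : k) : LaurentSeries k) = 1728 := map_ofNat _ _
  have key := res_core (k := k) hN0 hJo (1728 : k) i₀ (fun i => τ i w) (fun i => τ i y)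
    (fun i hi m hm => hwreg i hi m hm)
    (fun i _ m hm => hyord i m (by omega)) P₁
    (by
      have : ∀ i, τ i w * τ i y = τ i (w * y) := fun i => (map_mul _ _ _).symm
      simp only [this]
      rw [hP, hP₁, map_mul, map_mul, map_sub, aeval_X, aeval_C, algebraMap_eq_C])
    (HahnSeries.C ((N : ℕ) : k) * qExpand k N fq)
    (by
      have h4 : τ i₀ y = qExpand k N (y : LaurentSeries k) := by
        rw [hinf]
        rfl
      have h5 := congrArg (qExpand k N) hrel
      rw [map_mul, map_mul, map_mul, map_sub, map_ofNat] at h5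
      rw [h4, thetaFun_qExpand, hC1728]
      calc qExpand k N (y : LaurentSeries k) *
            (HahnSeries.C ((N : ℕ) : k) * qExpand k N (thetaFun (jqModC k)))
          = HahnSeries.C ((N : ℕ) : k) *
            (qExpand k N (y : LaurentSeries k) * qExpand k N (thetaFun (jqModC k))) := by ring
        _ = _ := by
          rw [h5]
          ring)
  -- conclusion
  have h6 : τ i₀ w = qExpand k N (w : LaurentSeries k) := by
    rw [hinf]
    rfl
  simp only [h6] at key
  have h7 : qExpand k N (w : LaurentSeries k) * (HahnSeries.C ((N : ℕ) : k) * qExpand k N fq) =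
      HahnSeries.C ((N : ℕ) : k) * qExpand k N ((w : LaurentSeries k) * fq) := by
    rw [map_mul]
    ring
  rw [h7, Fermat.Agent.ES.I2aux.res_coeff_C_mul] at key
  have h8 := qExpand_coeff_mul (R := k) (N := N) ((w : LaurentSeries k) * fq) 0
  rw [mul_zero] at h8
  rw [h8] at key
  exact (mul_eq_zero.1 key).resolve_left hNk

/-- **piece `I2-Res`** -/
theorem stmtResGlue : StmtResGlue := by
  intro hNilp hTN hS2 hTau hMFk N _ ℓ hℓ h5 hℓN A hA w hw f z hz
  haveI : Fact ℓ.Prime := ⟨hℓ⟩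
  haveI : CharP (kA A) ℓ := kron_charP_residueField hℓ hA
  haveI : PerfectRing (kA A) ℓ := Fermat.Agent.INJ.nf_perfectRing_residueField A ℓ
  have hNk : ((N : ℕ) : kA A) ≠ 0 := redF_natCast_ne_zero N A ℓ hℓ hℓN hA
  have h1728 : (1728 : kA A) ≠ 0 := res_1728_ne_zero ℓ hℓ h5
  obtain ⟨τ, i₀, hτ⟩ := hTau N ℓ hℓ hℓN A hA
  obtain ⟨-, y, y1, y2, hrel, h2, h3, hyI, hy1I, hy2I, hyord⟩ :=
    hMFk N ℓ hℓ hℓN A hA τ i₀ hτ f z hz
  obtain ⟨hS2a, hS2b⟩ := hS2 N ℓ hℓ hℓN A hA
  exact res_main (kA A) ℓ h1728 N hNk hNilp hTN τ i₀ hτ.inj hτ.infty hτ.jmap ⟨w, hw.1⟩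
    (hS2a w hw) (hS2b τ i₀ hτ w hw) _ y y1 y2 hrel h2 h3 hyI hy1I hy2I hyord

end Main

end Fermat.Agent.ES.I2

end
end ZBES_027_3

/-! ### bundled: `Fermat.Agent.ES.I2.Final` -/
section ZBES_027_4

/-!
# ES / I2 — the final assembly: `StmtI2All`

`dim_k W_n ≤ n + 1 - g` in characteristic `ℓ ≥ 5`, `ℓ ∤ N` (good reduction of `X₀(N)`: the genus
does not drop).  Plan: `NOTES/ES-I2.md`.
-/

set_option autoImplicit false

namespace Fermat.Agent.ES.I2

open Fermat.Agent.ES.M

theorem stmtIRAll : StmtIRAll := stmtIRGlue stmtEAll stmtIntAll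

theorem stmtTauAll : StmtTauAll := stmtTauGlue stmtEAll stmtRegAll stmtIntAll stmtRedAll

theorem stmtMFkAll : StmtMFkAll := stmtMFkGlue stmtIRAll stmtMFAll

theorem stmtS2All : StmtS2All := stmtS2Glue stmtIRAll

theorem stmtConstAll : StmtConstAll := stmtConstGlue stmtTN stmtS2All stmtTauAll

theorem stmtResAll : StmtResAll := stmtResGlue stmtNilp stmtTN stmtS2All stmtTauAll stmtMFkAll

/-- **(I2)**: `dim W_n ≤ n + 1 - g` for `ℓ ≥ 5`, `ℓ ∤ N`. -/
theorem stmtI2All : StmtI2All :=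
  stmtCountGlue stmtTauAll stmtMFkAll stmtConstAll stmtResAll stmtBAll

theorem stmtI2Core : StmtI2Core := fun _ _ _ _ _ _ => stmtI2All

end Fermat.Agent.ES.I2


end ZBES_027_4

/-! ### bundled: `Fermat.Agent.R38.HolB1Asm` -/
section ZBES_027_5

/-!
# Row 38, PKG-TRES, route HOL-dlog, piece B1-asm (helper52)

`stmtHolB1Glue : StmtHolB1Glue` `= StmtHolLiftAll → StmtHolMFAll → StmtHolB1All`
(interface `R38/PlanHol.lean`): `D′ (B̄) ⊂ 𝔑`, `D′ = j̄ (j̄ − 1728) θ / θ j̄`.

For `c ∈ B̄` take the lift `C ∈ A((q)) ∩ F_N` with poles only at the cusps (B1-LIFT), and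
`Yt, Y1, Y2 ∈ F_N` with poles only at the cusps from (B1-MF).  The formal identities
`j (j − 1728) = Wt · θ j`, `Wt² = W2 (j − 1728)`, `Wt³ = W1 j (j − 1728)` over `ℤ((q))`
(`Wt = −E₄E₆/Δ`, `W2 = E₄²/Δ`, `W1 = −E₆/Δ`; `ES/I2/MFFormal.lean`) show that
`Yt = θC · Wt`, `Y2 = (θC)² W2`, `Y1 = (θC)³ W1` have `A`-integral `q`-expansions; they are
integral over `ℚ̄[j]` (Lemma R, `ES.LR.lr_isIntegral`), so their reductions lie in `B̄`
(`ES.M.stmtRedF`, `ES.I2.stmtIRAll`), and the three relations reduce.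
-/

set_option autoImplicit false
set_option linter.unusedSectionVars false
set_option linter.style.haveILetI false

noncomputable section

namespace Fermat.Agent.R38

open ModularCurve AlgebraicCurve HahnSeries Fermat.Agent.ES Fermat.Agent.S24 Fermat.Agent.ES.M
open Fermat.Agent.ES.I2 Fermat.Agent.S28.Deriv Fermat.Agent.S28 Polynomial

/-! ### the formal identities -/

/-- `Wt = −E₄ E₆ / Δ = j (j − 1728) / θ j` -/
def r38hb1aWt : LaurentSeries ℤ := -(mfE4L * mfE6L * deltaInvZ)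

/-- `W2 = E₄² / Δ` -/
def r38hb1aW2 : LaurentSeries ℤ := mfE4L ^ 2 * deltaInvZ

/-- `W1 = −E₆ / Δ` -/
def r38hb1aW1 : LaurentSeries ℤ := -(mfE6L * deltaInvZ)

theorem r38hb1a_Wt : r38hb1aWt * thetaFun (jqModC ℤ) = jqModC ℤ * (jqModC ℤ - 1728) := by
  rw [mf_theta_j, mf_j_sub_eq, mf_j_eq, r38hb1aWt]
  ring

theorem r38hb1a_W2 : r38hb1aWt ^ 2 = r38hb1aW2 * (jqModC ℤ - 1728) := by
  rw [mf_j_sub_eq, r38hb1aWt, r38hb1aW2]
  ring

theorem r38hb1a_W1 : r38hb1aWt ^ 3 = r38hb1aW1 * jqModC ℤ * (jqModC ℤ - 1728) := by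
  rw [mf_j_sub_eq, mf_j_eq, r38hb1aWt, r38hb1aW1]
  ring

section Ring

variable {R : Type*} [CommRing R]

/-- the three series attached to `C ∈ R((q))` -/
def r38hb1aYt (C : LaurentSeries R) : LaurentSeries R :=
  thetaFun C * coeffMap (Int.castRingHom R) r38hb1aWt

def r38hb1aY2 (C : LaurentSeries R) : LaurentSeries R :=
  thetaFun C ^ 2 * coeffMap (Int.castRingHom R) r38hb1aW2

def r38hb1aY1 (C : LaurentSeries R) : LaurentSeries R :=
  thetaFun C ^ 3 * coeffMap (Int.castRingHom R) r38hb1aW1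

theorem r38hb1a_relT (C : LaurentSeries R) :
    r38hb1aYt C * thetaFun (jqModC R) = thetaFun C * jqModC R * (jqModC R - 1728) := by
  have h := congrArg (coeffMap (Int.castRingHom R)) r38hb1a_Wt
  rw [map_mul, map_mul, map_sub, ← thetaFun_coeffMap, coeffMap_jqModC, map_ofNat] at h
  rw [r38hb1aYt, mul_assoc, h]
  ring

theorem r38hb1a_rel2 (C : LaurentSeries R) :
    r38hb1aYt C ^ 2 = r38hb1aY2 C * (jqModC R - 1728) := by
  have h := congrArg (coeffMap (Int.castRingHom R)) r38hb1a_W2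
  rw [map_pow, map_mul, map_sub, coeffMap_jqModC, map_ofNat] at h
  rw [r38hb1aYt, r38hb1aY2, mul_pow, h]
  ring

theorem r38hb1a_rel1 (C : LaurentSeries R) :
    r38hb1aYt C ^ 3 = r38hb1aY1 C * jqModC R * (jqModC R - 1728) := by
  have h := congrArg (coeffMap (Int.castRingHom R)) r38hb1a_W1
  rw [map_pow, map_mul, map_mul, map_sub, coeffMap_jqModC, map_ofNat] at h
  rw [r38hb1aYt, r38hb1aY1, mul_pow, h]
  ring

variable {S : Type*} [CommRing S] (φ : R →+* S)

theorem r38hb1a_map_Yt (C : LaurentSeries R) :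
    coeffMap φ (r38hb1aYt C) = r38hb1aYt (coeffMap φ C) := by
  rw [r38hb1aYt, r38hb1aYt, map_mul, thetaFun_coeffMap, coeffMap_coeffMap]
  congr 1
  exact coeffMap_congr (RingHom.ext_int _ _) _

theorem r38hb1a_map_Y2 (C : LaurentSeries R) :
    coeffMap φ (r38hb1aY2 C) = r38hb1aY2 (coeffMap φ C) := by
  rw [r38hb1aY2, r38hb1aY2, map_mul, map_pow, thetaFun_coeffMap, coeffMap_coeffMap]
  congr 1
  exact coeffMap_congr (RingHom.ext_int _ _) _

theorem r38hb1a_map_Y1 (C : LaurentSeries R) :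
    coeffMap φ (r38hb1aY1 C) = r38hb1aY1 (coeffMap φ C) := by
  rw [r38hb1aY1, r38hb1aY1, map_mul, map_pow, thetaFun_coeffMap, coeffMap_coeffMap]
  congr 1
  exact coeffMap_congr (RingHom.ext_int _ _) _

end Ring

/-! ### integrality over the `j`-line -/

/-- a function with poles only at the cusps is integral over `ℚ̄[j]` (Lemma R). -/
theorem r38hb1a_intJ (N : ℕ) [NeZero N] (x : FF N) (hx : PolesAtCusps N x) :
    IntJ jBar (x : LaurentSeries Kb) := by
  have h := Fermat.Agent.ES.LR.lr_isIntegral N x hx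
  letI := polyAlgebra (K := Kb) (jF N)
  obtain ⟨p, hp, hpx⟩ := h
  refine ⟨p, hp, ?_⟩
  have h1 := congrArg ((modularFunctionFieldBar N).val : FF N → LaurentSeries Kb) hpx
  rw [map_zero] at h1
  rw [← h1]
  have h2 := Polynomial.hom_eval₂ p (algebraMap Kb[X] (FF N))
    ((modularFunctionFieldBar N).val : FF N →+* LaurentSeries Kb) x
  rw [RingHom.coe_coe] at h2
  rw [h2]
  congr 1
  refine Polynomial.ringHom_ext (fun a => ?_) ?_
  · show Polynomial.aeval jBar (C a) =
      (((Polynomial.aeval (jF N) (C a) : FF N)) : LaurentSeries Kb)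
    rw [aeval_C, aeval_C]
    rfl
  · show Polynomial.aeval jBar (X : Kb[X]) =
      (((Polynomial.aeval (jF N) (X : Kb[X]) : FF N)) : LaurentSeries Kb)
    rw [aeval_X, aeval_X]
    rfl

/-! ### the glue -/

theorem r38hb1a_thetaJ_ne_zero : thetaFun (jqModC Kb) ≠ 0 := by
  intro h
  have h1 := congrArg (fun z : LaurentSeries Kb => z.coeff (-1)) h
  simp only [thetaFun_coeff, HahnSeries.coeff_zero, coeff_jqModC_neg_one] at h1
  simp at h1

theorem r38hb1a_j_ne_zero : jqModC Kb ≠ 0 := jqModC_ne_zero_of_nontrivial Kb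

theorem r38hb1a_j_sub_ne_zero : jqModC Kb - 1728 ≠ 0 := by
  intro h
  have h1 := congrArg (fun z : LaurentSeries Kb => z.coeff (-1)) h
  simp only [HahnSeries.coeff_sub, HahnSeries.coeff_zero, coeff_jqModC_neg_one] at h1
  have h2 : ((1728 : LaurentSeries Kb)).coeff (-1) = 0 := by
    have : (1728 : LaurentSeries Kb) = HahnSeries.C (1728 : Kb) := by
      rw [map_ofNat]
    rw [this, HahnSeries.C_apply, HahnSeries.coeff_single_of_ne]
    decide
  rw [h2, sub_zero] at h1
  exact one_ne_zero h1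

/-- **B1-asm** at `(N, A)` -/
theorem r38hb1a_at (N : ℕ) [NeZero N] (ℓ : ℕ) (hℓ : ℓ.Prime) (hℓN : ¬ ℓ ∣ N)
    (A : ValuationSubring Kb) (hA : A.LiesOverPrime ℓ) (hLift : StmtHolLift N A)
    (hMF : StmtHolMF N) : StmtHolB1 N A := by
  intro c hc
  obtain ⟨C, hC, hPC, hCc⟩ := hLift c hc
  obtain ⟨Yt, Y1, Y2, hPt, hP1, hP2, e1, e2, e3⟩ := hMF ⟨kronIncl A C, hC⟩ hPC
  have hRedF := stmtRedF N A ℓ hℓ hℓN hA
  have hIR := stmtIRAll N ℓ hℓ hℓN A hA
  have hjB : jBar = jqModC Kb := mf_jBar_eq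
  rw [hjB] at e1 e2 e3
  -- the `A`-integral forms
  have hYt : (Yt : LaurentSeries Kb) = kronIncl A (r38hb1aYt C) := by
    have h1 := r38hb1a_relT (kronIncl A C)
    have h2 : (Yt : LaurentSeries Kb) * thetaFun (jqModC Kb) =
        r38hb1aYt (kronIncl A C) * thetaFun (jqModC Kb) := by
      rw [h1]
      exact e1
    rw [r38hb1a_map_Yt]
    exact mul_right_cancel₀ r38hb1a_thetaJ_ne_zero h2
  have hY2 : (Y2 : LaurentSeries Kb) = kronIncl A (r38hb1aY2 C) := by
    have h1 := r38hb1a_rel2 (kronIncl A C)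
    have h2 : (Y2 : LaurentSeries Kb) * (jqModC Kb - 1728) =
        r38hb1aY2 (kronIncl A C) * (jqModC Kb - 1728) := by
      rw [← h1, ← e2, hYt, r38hb1a_map_Yt]
    rw [r38hb1a_map_Y2]
    exact mul_right_cancel₀ r38hb1a_j_sub_ne_zero h2
  have hY1 : (Y1 : LaurentSeries Kb) = kronIncl A (r38hb1aY1 C) := by
    have h1 := r38hb1a_rel1 (kronIncl A C)
    have h2 : (Y1 : LaurentSeries Kb) * (jqModC Kb * (jqModC Kb - 1728)) =
        r38hb1aY1 (kronIncl A C) * (jqModC Kb * (jqModC Kb - 1728)) := by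
      rw [← mul_assoc, ← mul_assoc, ← h1, ← e3, hYt, r38hb1a_map_Yt]
    rw [r38hb1a_map_Y1]
    exact mul_right_cancel₀ (mul_ne_zero r38hb1a_j_ne_zero r38hb1a_j_sub_ne_zero) h2
  -- membership and integrality of the reductions
  have key : ∀ (Y : FF N) (Y' : LaurentSeries A), PolesAtCusps N Y →
      (Y : LaurentSeries Kb) = kronIncl A Y' → HolInt (kA A) N (kronRed A Y') := by
    intro Y Y' hP hY
    have hm : kronIncl A Y' ∈ modularFunctionFieldBar N := by
      rw [← hY]
      exact Y.2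
    have hi : IntJ jBar (kronIncl A Y') := by
      rw [← hY]
      exact r38hb1a_intJ N Y hP
    exact ⟨hRedF Y' hm, hIR Y' hm hi⟩
  have kt := key Yt _ hPt hYt
  have k2 := key Y2 _ hP2 hY2
  have k1 := key Y1 _ hP1 hY1
  refine ⟨kronRed A (r38hb1aYt C), ⟨kt, ⟨kronRed A (r38hb1aY2 C), k2, ?_⟩,
    ⟨kronRed A (r38hb1aY1 C), k1, ?_⟩⟩, ?_⟩
  · have := congrArg (kronRed A) (r38hb1a_rel2 C)
    simpa only [map_mul, map_sub, map_pow, coeffMap_jqModC, map_ofNat] using this
  · have := congrArg (kronRed A) (r38hb1a_rel1 C)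
    simpa only [map_mul, map_sub, map_pow, coeffMap_jqModC, map_ofNat] using this
  · have := congrArg (kronRed A) (r38hb1a_relT C)
    rw [← hCc]
    simpa only [map_mul, map_sub, ← thetaFun_coeffMap, coeffMap_jqModC, map_ofNat] using this

/-- **piece B1-asm** -/
theorem stmtHolB1Glue : StmtHolB1Glue :=
  fun hLift hMF N _ ℓ hℓ h5 hℓN A hA =>
    r38hb1a_at N ℓ hℓ hℓN A hA (hLift N ℓ hℓ h5 hℓN A hA) (hMF N)

end Fermat.Agent.R38

end


end ZBES_027_5

/-! ### bundled: `Fermat.Agent.ES.I2aux.HRes` -/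
section ZBES_027_6

/-!
# ES / I2aux — the residue theorem on the Hauptmodul line

`k` perfect of characteristic `ℓ`, `(N : k) ≠ 0`, `τ_i : F_k → k((Q))` the full family of
embeddings over `k(j̄)`, `h ∈ F_k` with `IsAuxLine k N h`, `e_i = τ_i h`.  For `z, z' ∈ F_k`
integral over `k[j̄]` with `z ^ M = (h - c) z'`:

  `a₀ (∑_i τ_i z / (e_i - c) · θ e_i) = 0`      (`hres_main`).

Proof: `h^a z` is integral over `k[h]` (`StmtScale`), so `Tr_{F_k/k(h)} (h^a z) = (h - c) P(h)`
(nilpotent trace, `hline_nilp`), `Tr (z / (h - c)) = h^(-a) P(h)`; the sum over the fibre of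
`i ↦ e_i` through `i₁` is `e^(-a) P(e)`, `e = e_{i₁}` (`StmtPT`); the residue of
`e^(-a) P(e) θe` is `P_{a-1} · ord e` (`Residue.lean`), and `∑_e ord e = 0` because the norm of
the unit `h` is a nonzero constant (`StmtTN`).
-/

set_option autoImplicit false
set_option linter.style.haveILetI false
set_option synthInstance.maxHeartbeats 400000

noncomputable section

namespace Fermat.Agent.ES.I2aux

open Module IntermediateField Polynomial ModularCurve Fermat.Agent.S24 Fermat.Agent.ES.I2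
open Fermat.Agent.ES.M Fermat.Agent.S28.Deriv

/-- the nilpotent trace, field form: `R` Dedekind with fraction field `K`, `L / K` finite
separable, `z, z' ∈ L` integral over `R` with `z ^ M = π z'`, `(π)` maximal: then
`Tr_{L/K} z ∈ π R`. -/
theorem nilpTrace_field {R K L : Type*} [CommRing R] [IsDedekindDomain R] [Field K] [Field L]
    [Algebra R K] [IsFractionRing R K] [Algebra K L] [Algebra R L] [IsScalarTower R K L]
    [FiniteDimensional K L] [Algebra.IsSeparable K L]
    (π : R) (hπ : (Ideal.span {π}).IsMaximal) (M : ℕ) (z z' : L)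
    (hz : IsIntegral R z) (hz' : IsIntegral R z') (hzz : z ^ M = algebraMap R L π * z') :
    ∃ t : R, Algebra.trace K L z = algebraMap R K (π * t) := by
  classical
  let S := integralClosure R L
  have : IsIntegralClosure S R L := inferInstance
  have : Module.Finite R S := IsIntegralClosure.finite R K L S
  have : IsIntegrallyClosed S := integralClosure.isIntegrallyClosedOfFiniteExtension K
  have : IsFractionRing S L := integralClosure.isFractionRing_of_finite_extension K L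
  have hinj : Function.Injective (algebraMap R S) := by
    intro a b hab
    have h1 : algebraMap R L a = algebraMap R L b := congrArg (fun x : S => (x : L)) hab
    rw [IsScalarTower.algebraMap_apply R K L, IsScalarTower.algebraMap_apply R K L] at h1
    exact IsFractionRing.injective R K ((algebraMap K L).injective h1)
  have : Module.IsTorsionFree R S := Module.isTorsionFree_iff_algebraMap_injective.mpr hinj
  have h1 := nilpTrace_intTrace_mem (R := R) (S := S) (Ideal.span {π}) (⟨z, hz⟩ : S) M (by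
    have : (⟨z, hz⟩ : S) ^ M = algebraMap R S π * ⟨z', hz'⟩ := by
      apply Subtype.ext
      simpa using hzz
    rw [this]
    exact Ideal.mul_mem_right _ _ (Ideal.mem_map_of_mem _ (Ideal.mem_span_singleton_self π)))
  obtain ⟨t, ht⟩ := Ideal.mem_span_singleton'.1 h1
  refine ⟨t, ?_⟩
  have h2 := Algebra.algebraMap_intTrace (A := R) (K := K) (L := L) (B := S) (⟨z, hz⟩ : S)
  rw [mul_comm, ht, h2]
  rfl

section Line

variable {k Λ : Type*} [Field k] [Field Λ] [Algebra k Λ]

/-- the nilpotent trace over the line `k[h]`: for `E / k(h)` finite separable and `z, z' ∈ E`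
integral over `k[h]` with `z ^ M = (h - c) z'`: `Tr_{E / k(h)} z = (h - c) P(h)`. -/
theorem hline_nilp (h : Λ) (htr : Transcendental k h) (E : IntermediateField k⟮h⟯ Λ)
    [FiniteDimensional ↥(k⟮h⟯) ↥E] [Algebra.IsSeparable ↥(k⟮h⟯) ↥E]
    (c : k) (M : ℕ) (z z' : ↥E)
    (hz : ∃ p : Polynomial (Polynomial k), p.Monic ∧
      p.eval₂ (Polynomial.aeval h).toRingHom (z : Λ) = 0)
    (hz' : ∃ p : Polynomial (Polynomial k), p.Monic ∧
      p.eval₂ (Polynomial.aeval h).toRingHom (z' : Λ) = 0)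
    (hzz : (z : Λ) ^ M = (h - algebraMap k Λ c) * (z' : Λ)) :
    ∃ P : k[X], ((Algebra.trace ↥(k⟮h⟯) ↥E z : ↥(k⟮h⟯)) : Λ) =
      (h - algebraMap k Λ c) * Polynomial.aeval h P := by
  letI algRK : Algebra k[X] ↥(k⟮h⟯) := polyAlgebraAdjoin (K := k) h
  haveI : IsFractionRing k[X] ↥(k⟮h⟯) := polyAlgebraAdjoin_isFractionRing (K := k) h htr
  letI algRL : Algebra k[X] ↥E :=
    ((algebraMap ↥(k⟮h⟯) ↥E).comp (algebraMap k[X] ↥(k⟮h⟯))).toAlgebra
  haveI : IsScalarTower k[X] ↥(k⟮h⟯) ↥E := IsScalarTower.of_algebraMap_eq (fun _ => rfl)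
  have hcoeK : ∀ p : k[X], ((algebraMap k[X] ↥(k⟮h⟯) p : ↥(k⟮h⟯)) : Λ) =
      Polynomial.aeval h p := by
    intro p
    show ((Polynomial.aeval (AdjoinSimple.gen k h) p : ↥(k⟮h⟯)) : Λ) = _
    rw [← IntermediateField.coe_val, ← Polynomial.aeval_algHom_apply]
    simp
  have hcoe : ∀ p : k[X], ((algebraMap k[X] ↥E p : ↥E) : Λ) = Polynomial.aeval h p :=
    fun p => hcoeK p
  have hint : ∀ y : ↥E, (∃ p : Polynomial (Polynomial k), p.Monic ∧
      p.eval₂ (Polynomial.aeval h).toRingHom (y : Λ) = 0) → IsIntegral k[X] y := by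
    rintro y ⟨p, hp, hpz⟩
    refine ⟨p, hp, ?_⟩
    apply Subtype.val_injective
    have h1 := Polynomial.hom_eval₂ p (algebraMap k[X] ↥E) (E.val.toRingHom) y
    have h2 : (E.val.toRingHom).comp (algebraMap k[X] ↥E) =
        (Polynomial.aeval h).toRingHom := RingHom.ext hcoe
    rw [h2] at h1
    exact h1.trans hpz
  have hmax : (Ideal.span {(X - C c : k[X])}).IsMaximal :=
    PrincipalIdealRing.isMaximal_of_irreducible (Polynomial.irreducible_X_sub_C c)
  have hzz' : z ^ M = algebraMap k[X] ↥E (X - C c) * z' := by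
    apply Subtype.val_injective
    show (z : Λ) ^ M = ((algebraMap k[X] ↥E (X - C c) : ↥E) : Λ) * (z' : Λ)
    rw [hcoe, hzz]
    simp
  obtain ⟨t, ht⟩ := nilpTrace_field (R := k[X]) (K := ↥(k⟮h⟯)) (L := ↥E) (X - C c) hmax M z z'
    (hint z hz) (hint z' hz') hzz'
  refine ⟨t, ?_⟩
  rw [ht, hcoeK]
  simp

end Line

section Residue

variable {k : Type*} [Field k]

/-- the residue of `y^(-a) P(y) θy` is `P_{a-1} · ord y` -/
theorem hres_residue (y : LaurentSeries k) (hy : y ≠ 0) (a : ℕ) (P : k[X]) :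
    ((y ^ a)⁻¹ * Polynomial.aeval y P * thetaFun y).coeff 0 =
      (P * X).coeff a * ((y.order : ℤ) : k) := by
  induction P using Polynomial.induction_on' with
  | add P Q hP hQ =>
    rw [map_add, mul_add, add_mul, HahnSeries.coeff_add, hP, hQ, add_mul, coeff_add, add_mul]
  | monomial n r =>
    rw [aeval_monomial, algebraMap_eq_hahnC, monomial_mul_X, coeff_monomial]
    have h1 : (y ^ a)⁻¹ * (HahnSeries.C r * y ^ n) * thetaFun y =
        HahnSeries.C r * (y ^ ((n : ℤ) - (a : ℤ)) * thetaFun y) := by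
      rw [zpow_sub₀ hy, zpow_natCast, zpow_natCast]
      field_simp
    rw [h1, res_coeff_C_mul, res_zpow_mul_theta y hy]
    by_cases hna : n + 1 = a
    · rw [if_pos hna, if_pos (by omega)]
    · rw [if_neg hna, if_neg (by omega), mul_zero, zero_mul]

/-- the order of a product of nonzero series -/
theorem hres_order_prod {ι : Type*} (s : Finset ι) (f : ι → LaurentSeries k)
    (hf : ∀ i ∈ s, f i ≠ 0) : (∏ i ∈ s, f i).order = ∑ i ∈ s, (f i).order := by
  classical
  induction s using Finset.induction_on with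
  | empty => simp
  | insert i s hi ih =>
    rw [Finset.prod_insert hi, Finset.sum_insert hi,
      HahnSeries.order_mul (hf i (Finset.mem_insert_self i s))
        (Finset.prod_ne_zero_iff.2 fun j hj => hf j (Finset.mem_insert_of_mem hj)),
      ih fun j hj => hf j (Finset.mem_insert_of_mem hj)]

end Residue

section Concrete

variable (k : Type) [Field k] (N : ℕ) [NeZero N] (h : LaurentSeries k)
  (hle : k⟮h⟯ ≤ modularFunctionFieldFullC k N)

/-- `F_k / k(h)` is finite -/
theorem hres_finite (hjh : jqModC k ∈ k⟮h⟯) :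
    FiniteDimensional ↥(k⟮h⟯) ↥(ptL k N h hle) := by
  have h01 : k⟮jqModC k⟯ ≤ k⟮h⟯ := by
    rw [adjoin_simple_le_iff]
    exact hjh
  letI a01 : Algebra ↥(k⟮jqModC k⟯) ↥(k⟮h⟯) :=
    (IntermediateField.inclusion h01).toRingHom.toAlgebra
  letI a0L : Algebra ↥(k⟮jqModC k⟯) ↥(ptL k N h hle) :=
    ((algebraMap ↥(k⟮h⟯) ↥(ptL k N h hle)).comp (algebraMap ↥(k⟮jqModC k⟯) ↥(k⟮h⟯))).toAlgebra
  letI m0L : Module ↥(k⟮jqModC k⟯) ↥(ptL k N h hle) := a0L.toModule
  haveI : IsScalarTower ↥(k⟮jqModC k⟯) ↥(k⟮h⟯) ↥(ptL k N h hle) :=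
    IsScalarTower.of_algebraMap_eq (fun _ => rfl)
  let e₀ : ↥(tnL k N) →ₐ[↥(k⟮jqModC k⟯)] ↥(ptL k N h hle) :=
    { toFun := fun x => ⟨x.1, x.2⟩
      map_one' := rfl
      map_mul' := fun _ _ => rfl
      map_zero' := rfl
      map_add' := fun _ _ => rfl
      commutes' := fun _ => rfl }
  have he₀ : Function.Bijective e₀ :=
    ⟨fun x y hxy => Subtype.ext (congrArg Subtype.val hxy), fun y => ⟨⟨y.1, y.2⟩, rfl⟩⟩
  let e : ↥(tnL k N) ≃ₐ[↥(k⟮jqModC k⟯)] ↥(ptL k N h hle) := AlgEquiv.ofBijective e₀ he₀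
  haveI := tn_finite k N
  haveI : FiniteDimensional ↥(k⟮jqModC k⟯) ↥(ptL k N h hle) :=
    Module.Finite.equiv e.toLinearEquiv
  exact FiniteDimensional.right ↥(k⟮jqModC k⟯) ↥(k⟮h⟯) ↥(ptL k N h hle)

/-- `F_k / k(h)` is separable (`k` perfect, `θh ≠ 0`) -/
theorem hres_separable (ℓ : ℕ) [Fact ℓ.Prime] [CharP k ℓ] [PerfectRing k ℓ]
    (htr : Transcendental k h) (hθ : thetaFun h ≠ 0)
    [FiniteDimensional ↥(k⟮h⟯) ↥(ptL k N h hle)] :
    Algebra.IsSeparable ↥(k⟮h⟯) ↥(ptL k N h hle) := by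
  refine ⟨fun x => ?_⟩
  have hx : IsIntegral ↥(k⟮h⟯) x := IsIntegral.of_finite _ x
  have hx' : IsIntegral ↥(k⟮h⟯) (x : LaurentSeries k) := by
    have := hx.map (ptL k N h hle).val
    exact this
  have h1 := Fermat.Agent.INJ.isSeparable_of_theta ℓ htr hθ hx'
  show (minpoly ↥(k⟮h⟯) x).Separable
  rw [IntermediateField.minpoly_eq]
  exact h1

end Concrete

section Main

/-- **the residue theorem on the Hauptmodul line** -/
theorem hres_main (k : Type) [Field k] (ℓ : ℕ) [Fact ℓ.Prime] [CharP k ℓ] [PerfectRing k ℓ]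
    (N : ℕ) [NeZero N] (hNk : ((N : ℕ) : k) ≠ 0)
    (hPT : StmtPT) (hScale : StmtScale) (hTN : StmtTN)
    (τ : Fin (dedekindPsi N) → (↥(modularFunctionFieldFullC k N) →ₐ[k] LaurentSeries k))
    (hinj : Function.Injective τ)
    (hjmap : ∀ i, τ i ⟨jqModC k, jqModC_mem_full k N⟩ = qExpand k N (jqModC k))
    (h : LaurentSeries k) (hh : IsAuxLine k N h) (c : k) (M : ℕ) (hM : 0 < M)
    (z z' : ↥(modularFunctionFieldFullC k N))
    (hz : IntJ (jqModC k) (z : LaurentSeries k)) (hz' : IntJ (jqModC k) (z' : LaurentSeries k))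
    (hzz : (z : LaurentSeries k) ^ M = (h - HahnSeries.C c) * (z' : LaurentSeries k)) :
    (∑ i, τ i z / (τ i ⟨h, hh.mem⟩ - HahnSeries.C c) * thetaFun (τ i ⟨h, hh.mem⟩)).coeff 0 =
      0 := by
  classical
  obtain ⟨b, G, hrel⟩ := hh.rel
  have hh0 : h ≠ 0 := fun h0 => hh.theta (by rw [h0, thetaFun_zero])
  have hCmem : ∀ (E : IntermediateField k (LaurentSeries k)) (r : k),
      (HahnSeries.C r : LaurentSeries k) ∈ E := fun E r => hahnC_mem_intermediateField r E
  have hjh : jqModC k ∈ k⟮h⟯ := by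
    have h1 : jqModC k = Polynomial.aeval h G / h ^ b := by
      rw [eq_div_iff (pow_ne_zero b hh0)]
      exact hrel
    rw [h1]
    exact div_mem (IntermediateField.algebra_adjoin_le_adjoin k _
      (Polynomial.aeval_mem_adjoin_singleton k h)) (pow_mem (mem_adjoin_simple_self k h) b)
  have hle : k⟮h⟯ ≤ modularFunctionFieldFullC k N := adjoin_simple_le_iff.2 hh.mem
  have htr : Transcendental k h := Fermat.Agent.INJ.transcendental_of_jqModC_mem k hjh
  have hhc : h - HahnSeries.C c ≠ 0 := by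
    intro h0
    apply htr
    rw [sub_eq_zero.1 h0, ← algebraMap_eq_hahnC]
    exact isAlgebraic_algebraMap c
  haveI := hres_finite k N h hle hjh
  haveI := hres_separable k N h hle ℓ htr hh.theta
  -- scaling
  obtain ⟨a₁, ha₁⟩ := hScale k (jqModC k) h b G hrel z hz
  obtain ⟨a₂, ha₂⟩ := hScale k (jqModC k) h b G hrel z' hz'
  obtain ⟨a, haa₁, haa₂⟩ : ∃ a : ℕ, a₁ ≤ a ∧ a₂ ≤ a := ⟨max a₁ a₂, le_max_left _ _, le_max_right _ _⟩
  have hzs : IntJ h (h ^ a * z) := ha₁ a haa₁
  have hzs' : IntJ h (h ^ (a * M) * z') :=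
    ha₂ (a * M) (le_trans haa₂ (Nat.le_mul_of_pos_right a hM))
  -- the nilpotent trace
  let zs : ↥(ptL k N h hle) := ⟨h ^ a * z, mul_mem (pow_mem hh.mem a) z.2⟩
  let zs' : ↥(ptL k N h hle) := ⟨h ^ (a * M) * z', mul_mem (pow_mem hh.mem _) z'.2⟩
  obtain ⟨P, hP⟩ := hline_nilp h htr (ptL k N h hle) c M zs zs' hzs hzs' (by
    show (h ^ a * (z : LaurentSeries k)) ^ M =
      (h - algebraMap k (LaurentSeries k) c) * (h ^ (a * M) * (z' : LaurentSeries k))
    rw [mul_pow, ← pow_mul, hzz, algebraMap_eq_hahnC]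
    ring)
  -- `x = z / (h - c)` and its trace
  let u : ↥(k⟮h⟯) := ⟨(h ^ a * (h - HahnSeries.C c))⁻¹,
    inv_mem (mul_mem (pow_mem (mem_adjoin_simple_self k h) a)
      (sub_mem (mem_adjoin_simple_self k h) (hCmem _ c)))⟩
  let x : ↥(ptL k N h hle) := ⟨(z : LaurentSeries k) / (h - HahnSeries.C c),
    div_mem z.2 (sub_mem hh.mem (hCmem _ c))⟩
  have hx : x = u • zs := by
    apply Subtype.ext
    show (z : LaurentSeries k) / (h - HahnSeries.C c) =
      (h ^ a * (h - HahnSeries.C c))⁻¹ * (h ^ a * (z : LaurentSeries k))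
    field_simp
  have htrx : ((Algebra.trace ↥(k⟮h⟯) ↥(ptL k N h hle) x : ↥(k⟮h⟯)) : LaurentSeries k) =
      (h ^ a)⁻¹ * Polynomial.aeval h P := by
    rw [hx, map_smul, smul_eq_mul]
    show (h ^ a * (h - HahnSeries.C c))⁻¹ *
      ((Algebra.trace ↥(k⟮h⟯) ↥(ptL k N h hle) zs : ↥(k⟮h⟯)) : LaurentSeries k) = _
    rw [hP, algebraMap_eq_hahnC]
    field_simp
  -- partial traces
  obtain ⟨⟨d, hd, hfib⟩, hsum⟩ := hPT k ℓ N hNk τ hinj hjmap h hle hjh
  let hF : ↥(modularFunctionFieldFullC k N) := ⟨h, hh.mem⟩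
  have hF0 : hF ≠ 0 := fun h0 => hh0 (congrArg Subtype.val h0)
  let e : Fin (dedekindPsi N) → LaurentSeries k := fun i => τ i hF
  have he0 : ∀ i, e i ≠ 0 := fun i => (map_ne_zero (τ i)).2 hF0
  have hτC : ∀ i (r : k), τ i ⟨HahnSeries.C r, hCmem _ r⟩ = HahnSeries.C r := by
    intro i r
    have h1 : (⟨HahnSeries.C r, hCmem _ r⟩ : ↥(modularFunctionFieldFullC k N)) =
        algebraMap k _ r := Subtype.ext (algebraMap_eq_hahnC r).symm
    rw [h1, AlgHom.commutes, algebraMap_eq_hahnC]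
  have hτx : ∀ i, τ i ⟨x.1, x.2⟩ = τ i z / (e i - HahnSeries.C c) := by
    intro i
    have h1 : (⟨x.1, x.2⟩ : ↥(modularFunctionFieldFullC k N)) =
        z / (hF - ⟨HahnSeries.C c, hCmem _ c⟩) := Subtype.ext rfl
    rw [h1, map_div₀, map_sub, hτC]
  have hτtr : ∀ i, τ i ⟨((Algebra.trace ↥(k⟮h⟯) ↥(ptL k N h hle) x : ↥(k⟮h⟯)) :
      LaurentSeries k), hle (Algebra.trace ↥(k⟮h⟯) ↥(ptL k N h hle) x).2⟩ =
      (e i ^ a)⁻¹ * Polynomial.aeval (e i) P := by
    intro i
    have h1 : (⟨((Algebra.trace ↥(k⟮h⟯) ↥(ptL k N h hle) x : ↥(k⟮h⟯)) : LaurentSeries k),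
        hle (Algebra.trace ↥(k⟮h⟯) ↥(ptL k N h hle) x).2⟩ :
          ↥(modularFunctionFieldFullC k N)) = (hF ^ a)⁻¹ * Polynomial.aeval hF P := by
      apply Subtype.ext
      show _ = (h ^ a)⁻¹ * ((Polynomial.aeval hF P : ↥(modularFunctionFieldFullC k N)) :
        LaurentSeries k)
      rw [htrx]
      congr 1
      rw [← IntermediateField.coe_val, ← Polynomial.aeval_algHom_apply]
      rfl
    rw [h1, map_mul, map_inv₀, map_pow, ← Polynomial.aeval_algHom_apply]
  -- the sum over a fibre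
  have hfs : ∀ i₁, ∑ i ∈ Finset.univ.filter (fun i => e i = e i₁),
      τ i z / (e i - HahnSeries.C c) = (e i₁ ^ a)⁻¹ * Polynomial.aeval (e i₁) P := by
    intro i₁
    have h1 := hsum i₁ x
    rw [hτtr i₁] at h1
    rw [← h1]
    refine Finset.sum_congr ?_ fun i _ => (hτx i).symm
    ext i
    simp only [Finset.mem_filter, Finset.mem_univ, true_and]
    rfl
  -- the norm of `h`
  have hJo : (qExpand k N (jqModC k)).order = -(N : ℤ) := res_order_J k N
  have hN0 : 0 < N := Nat.pos_of_ne_zero (NeZero.ne N)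
  have hJneg : (qExpand k N (jqModC k)).order < 0 := by rw [hJo]; omega
  have hprod : (∏ i, e i).order = 0 := by
    obtain ⟨-, P₁, hP₁⟩ := hTN k ℓ N hNk τ hinj hjmap hF hh.int
    obtain ⟨-, P₂, hP₂⟩ := hTN k ℓ N hNk τ hinj hjmap hF⁻¹ hh.int_inv
    have h1 : (∏ i, τ i hF) * (∏ i, τ i hF⁻¹) = 1 := by
      rw [← Finset.prod_mul_distrib]
      refine Finset.prod_eq_one fun i _ => ?_
      rw [← map_mul, mul_inv_cancel₀ hF0, map_one]
    rw [hP₁, hP₂, ← map_mul] at h1
    have h2 : P₁ * P₂ = 1 := by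
      have h3 : Polynomial.aeval (qExpand k N (jqModC k)) (P₁ * P₂ - 1) = 0 := by
        rw [map_sub, h1, map_one, sub_self]
      exact sub_eq_zero.1 (aeval_J_eq_zero hJneg _ h3)
    have h4 : IsUnit P₁ := IsUnit.of_mul_eq_one _ h2
    obtain ⟨r, -, hr⟩ := Polynomial.isUnit_iff.1 h4
    show (∏ i, τ i hF).order = 0
    rw [hP₁, ← hr, aeval_C, algebraMap_eq_hahnC]
    exact HahnSeries.order_C
  have hordsum : ∑ i, (e i).order = 0 := by
    rw [← hres_order_prod Finset.univ e fun i _ => he0 i]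
    exact hprod
  -- grouping by the values of `e`
  have hgroup : ∀ (g : LaurentSeries k → LaurentSeries k → LaurentSeries k)
      (F : Fin (dedekindPsi N) → LaurentSeries k),
      ∑ i, g (F i) (e i) = ∑ y ∈ Finset.univ.image e,
        ∑ i ∈ Finset.univ.filter (fun i => e i = y), g (F i) (e i) := fun g F =>
    (Finset.sum_fiberwise_of_maps_to (fun i _ => Finset.mem_image_of_mem e (Finset.mem_univ i))
      (fun i => g (F i) (e i))).symm
  have hordE : ∑ y ∈ Finset.univ.image e, y.order = 0 := by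
    have h1 : ∑ i, (e i).order = ∑ y ∈ Finset.univ.image e,
        ∑ i ∈ Finset.univ.filter (fun i => e i = y), (e i).order :=
      (Finset.sum_fiberwise_of_maps_to
        (fun i _ => Finset.mem_image_of_mem e (Finset.mem_univ i))
        (fun i => (e i).order)).symm
    have h2 : ∀ y ∈ Finset.univ.image e,
        ∑ i ∈ Finset.univ.filter (fun i => e i = y), (e i).order = (d : ℤ) * y.order := by
      intro y hy
      obtain ⟨i₁, -, rfl⟩ := Finset.mem_image.1 hy
      rw [Finset.sum_congr rfl (fun i hi => by rw [(Finset.mem_filter.1 hi).2] :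
        ∀ i ∈ Finset.univ.filter (fun i => e i = e i₁), (e i).order = (e i₁).order),
        Finset.sum_const, nsmul_eq_mul]
      congr 2
      have := hfib i₁
      convert this using 2
    rw [hordsum, Finset.sum_congr rfl h2, ← Finset.mul_sum] at h1
    rcases mul_eq_zero.1 h1.symm with h3 | h3
    · exact absurd (by exact_mod_cast h3) hd.ne'
    · exact h3
  -- conclusion
  have htotal : ∑ i, τ i z / (τ i ⟨h, hh.mem⟩ - HahnSeries.C c) * thetaFun (τ i ⟨h, hh.mem⟩) =
      ∑ y ∈ Finset.univ.image e, (y ^ a)⁻¹ * Polynomial.aeval y P * thetaFun y := by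
    have h1 := hgroup (fun A B => A * thetaFun B) (fun i => τ i z / (e i - HahnSeries.C c))
    refine h1.trans (Finset.sum_congr rfl fun y hy => ?_)
    obtain ⟨i₁, -, rfl⟩ := Finset.mem_image.1 hy
    rw [Finset.sum_congr rfl (fun i hi => by rw [(Finset.mem_filter.1 hi).2] :
      ∀ i ∈ Finset.univ.filter (fun i => e i = e i₁),
        τ i z / (e i - HahnSeries.C c) * thetaFun (e i) =
        τ i z / (e i - HahnSeries.C c) * thetaFun (e i₁)), ← Finset.sum_mul, hfs i₁]
  rw [htotal, HahnSeries.coeff_sum,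
    Finset.sum_congr rfl (fun y hy => by
      obtain ⟨i₁, -, rfl⟩ := Finset.mem_image.1 hy
      exact hres_residue (e i₁) (he0 i₁) a P :
      ∀ y ∈ Finset.univ.image e, ((y ^ a)⁻¹ * Polynomial.aeval y P * thetaFun y).coeff 0 =
        (P * X).coeff a * ((y.order : ℤ) : k)),
    ← Finset.mul_sum, ← Int.cast_sum, hordE, Int.cast_zero, mul_zero]

end Main

end Fermat.Agent.ES.I2aux

end
end ZBES_027_6

/-! ### bundled: `Fermat.Agent.ES.I2aux.Sum` -/
section ZBES_027_7

/-!
# ES / I2aux — piece `aux-Sum`: the summands of the trace argument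

`stmtSumGlue : StmtSumGlue` (`= StmtS2All → StmtSumAll`, interface `ES/I2aux/Plan3.lean`).

`J = j̄(Q^N)`, `κ = θ_Q J / (J (J - 1728))` has `Q`-order `≥ N`.  For `i ≠ i₀`: `τ_i w` has no
pole (S2), `τ_i y` has order `> -N`, so `τ_i(w) τ_i(y) κ` has positive order.  For `i = i₀`:
`τ_{i₀} = (q ↦ Q^N)`, `θ_Q (g(Q^N)) = N (θ_q g)(Q^N)`, and `y θj̄ = f̄ j̄ (j̄ - 1728)`, so the
summand is `N · (w f̄)(Q^N)`.
-/

set_option autoImplicit false

noncomputable section

namespace Fermat.Agent.ES.I2aux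

open ModularCurve AlgebraicCurve Fermat.Agent.ES Fermat.Agent.S24 Fermat.Agent.ES.M
open Fermat.Agent.ES.I2 Fermat.Agent.S28.Deriv Polynomial

/-- `J (J - 1728)` for `J` of negative order: nonzero, of order `2 · ord J` -/
theorem auxSum_den {k : Type*} [Field k] {J : LaurentSeries k} (hJ : J.order < 0) :
    J * (J - 1728) ≠ 0 ∧ (J * (J - 1728)).order = 2 * J.order := by
  have hC : (HahnSeries.C (1728 : k) : LaurentSeries k) = 1728 := map_ofNat _ _
  have hDa : J * (J - 1728) = aeval J (X * (X - Polynomial.C (1728 : k)) : k[X]) := by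
    rw [map_mul, map_sub, aeval_X, aeval_C, algebraMap_eq_C, hC]
  have hq : (X * (X - Polynomial.C (1728 : k)) : k[X]) ≠ 0 := mul_ne_zero X_ne_zero (X_sub_C_ne_zero _)
  refine ⟨?_, ?_⟩
  · rw [hDa]
    exact Fermat.Agent.S28.aeval_ne_zero_of_order_neg hJ hq
  · rw [hDa, Fermat.Agent.S28.order_aeval_of_order_neg hJ hq]
    have : (X * (X - Polynomial.C (1728 : k)) : k[X]).natDegree = 2 := by
      rw [natDegree_mul X_ne_zero (X_sub_C_ne_zero _), natDegree_X, natDegree_X_sub_C]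
    rw [this]
    push_cast
    ring

/-- `κ = θ J / (J (J - 1728))` has order `≥ - ord J` -/
theorem auxSum_kappa {k : Type*} [Field k] {J : LaurentSeries k} (hJ : J.order < 0) :
    OrdGe (thetaFun J / (J * (J - 1728))) (-J.order) := by
  obtain ⟨hD0, hDo⟩ := auxSum_den hJ
  have hDi : OrdGe (J * (J - 1728))⁻¹ (-(2 * J.order)) := by
    have := OrdGe.inv_of_order hD0
    rwa [hDo] at this
  have hθ : OrdGe (thetaFun J) J.order := (ordGe_order J).thetaFun
  rw [div_eq_mul_inv]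
  have := hθ.mul hDi
  have he : J.order + -(2 * J.order) = -J.order := by ring
  rwa [he] at this

/-- the summand at `i₀`, generic form -/
theorem auxSum_infty {k : Type*} [Field k] (N : ℕ) [NeZero N] (w y fq : LaurentSeries k)
    (hrel : y * thetaFun (jqModC k) = fq * jqModC k * (jqModC k - 1728)) :
    (qExpand k N w * qExpand k N y * (thetaFun (qExpand k N (jqModC k)) /
      (qExpand k N (jqModC k) * (qExpand k N (jqModC k) - 1728)))).coeff 0 =
      (N : k) * (w * fq).coeff 0 := by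
  have hJneg : (qExpand k N (jqModC k)).order < 0 := by
    rw [res_order_J k N]
    have : (0 : ℤ) < N := by exact_mod_cast Nat.pos_of_ne_zero (NeZero.ne N)
    omega
  obtain ⟨hD0, -⟩ := auxSum_den hJneg
  have h5 := congrArg (qExpand k N) hrel
  rw [map_mul, map_mul, map_mul, map_sub, map_ofNat] at h5
  have key : qExpand k N w * qExpand k N y * (thetaFun (qExpand k N (jqModC k)) /
      (qExpand k N (jqModC k) * (qExpand k N (jqModC k) - 1728))) =
      HahnSeries.C ((N : ℕ) : k) * qExpand k N (w * fq) := by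
    rw [thetaFun_qExpand, eq_comm, ← mul_div_assoc, eq_div_iff hD0, map_mul]
    linear_combination (-(HahnSeries.C ((N : ℕ) : k) * qExpand k N w)) * h5
  rw [key, res_coeff_C_mul]
  have h8 := qExpand_coeff_mul (R := k) (N := N) (w * fq) 0
  rw [mul_zero] at h8
  rw [h8]

/-- piece `aux-Sum`. -/
theorem stmtSumGlue : StmtSumGlue := by
  intro hS2 N _ ℓ hℓ hℓN A hA τ i₀ hτ w hw fq y hrel hyord
  obtain ⟨-, hS2b⟩ := hS2 N ℓ hℓ hℓN A hA
  have hJo : (qExpand (kA A) N (jqModC (kA A))).order = -(N : ℤ) := res_order_J (kA A) N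
  have hN0 : (0 : ℤ) < N := by exact_mod_cast Nat.pos_of_ne_zero (NeZero.ne N)
  have hJneg : (qExpand (kA A) N (jqModC (kA A))).order < 0 := by rw [hJo]; omega
  have hκ := auxSum_kappa hJneg
  rw [hJo, neg_neg] at hκ
  refine ⟨fun i hi => ?_, ?_⟩
  · have h1 : OrdGe (τ i ⟨w, hw.1⟩) 0 := hS2b τ i₀ hτ w hw i hi
    have h2 : OrdGe (τ i y) (-(N : ℤ) + 1) := fun m hm => hyord i m (by omega)
    have h3 := (h1.mul h2).mul hκ
    exact h3 0 (by omega)
  · have h4 : τ i₀ y = qExpand (kA A) N (y : LaurentSeries (kA A)) := by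
      rw [hτ.infty]
      rfl
    have h6 : τ i₀ ⟨w, hw.1⟩ = qExpand (kA A) N w := by
      rw [hτ.infty]
      rfl
    rw [h4, h6]
    exact auxSum_infty N w y fq hrel

end Fermat.Agent.ES.I2aux

end
end ZBES_027_7

/-! ### bundled: `Fermat.Agent.ES.I2aux.Glue` -/
section ZBES_027_8

/-!
# ES / I2aux — the final assembly: `StmtI2AuxAll`

`dim_k W_n ≤ n + 1 - g` in characteristic `ℓ ∈ {2, 3}`, at the levels `N` prime to `ℓ` and
divisible by the auxiliary prime `r = 5 - ℓ` (good reduction of `X₀(N)` at `2` and `3`).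

The residue theorem `a₀ (w f̄) = 0` (`auxRes_main`) comes from the Hauptmodul line of `X₀(r)`:
`N · a₀ (w f̄) = a₀ (∑_i τ_i(w) τ_i(y) κ)` (`StmtSum`), the summands are
`τ_i(w y_h) / (e_i - c₀) · θ e_i` (`StmtLink`), and the constant term of their sum vanishes
(`hres_main`).  The count is the one of the `j`-line (`I2.cnt2_stmtI2`).
-/

set_option autoImplicit false
set_option linter.style.haveILetI false
set_option synthInstance.maxHeartbeats 400000

noncomputable section

namespace Fermat.Agent.ES.I2aux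

open ModularCurve AlgebraicCurve HahnSeries Fermat.Agent.ES Fermat.Agent.S24 Fermat.Agent.ES.M
open Fermat.Agent.ES.I2 Fermat.Agent.S28.Deriv

theorem stmtMFhAll : StmtMFhAll := stmtMFhGlue stmtMFAll

theorem stmtMFhkAll : StmtMFhkAll := stmtMFhkGlue stmtIRAll stmtMFhAll

theorem stmtSumAll : StmtSumAll := stmtSumGlue stmtS2All

/-- the residue theorem on `W` in characteristic `ℓ ∈ {2, 3}` -/
theorem auxRes_main (N : ℕ) [NeZero N] (ℓ : ℕ) (hℓ : ℓ.Prime) (hlt : ℓ < 5) (hℓN : ¬ ℓ ∣ N)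
    (hdiv : (5 - ℓ) ∣ N) (A : ValuationSubring Kb) (hA : A.LiesOverPrime ℓ) :
    Fermat.Agent.ES.I2.StmtRes N A := by
  intro w hw f z hz
  classical
  haveI : Fact ℓ.Prime := ⟨hℓ⟩
  haveI : CharP (kA A) ℓ := kron_charP_residueField hℓ hA
  haveI : PerfectRing (kA A) ℓ := Fermat.Agent.INJ.nf_perfectRing_residueField A ℓ
  have hNk : ((N : ℕ) : kA A) ≠ 0 := redF_natCast_ne_zero N A ℓ hℓ hℓN hA
  have hr : 5 - ℓ = 2 ∨ 5 - ℓ = 3 := by
    have h2 := hℓ.two_le
    have hcases : ℓ = 2 ∨ ℓ = 3 := by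
      interval_cases ℓ
      · left; rfl
      · right; rfl
      · exact absurd hℓ (by decide)
    rcases hcases with rfl | rfl
    · right; rfl
    · left; rfl
  have hr0 : 0 < 5 - ℓ := by omega
  obtain ⟨τ, i₀, hτ⟩ := stmtTauAll N ℓ hℓ hℓN A hA
  obtain ⟨-, y, y1, y2, hrel, -, -, -, -, -, hyord⟩ :=
    stmtMFkAll N ℓ hℓ hℓN A hA τ i₀ hτ f z hz
  obtain ⟨yh, yh', hhrel, hpow, hyhI, hyh'I⟩ := stmtMFhkAll N ℓ hℓ hℓN A hA (5 - ℓ) hr hdiv f z hz
  obtain ⟨hS2a, -⟩ := stmtS2All N ℓ hℓ hℓN A hA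
  have hh : IsAuxLine (kA A) N (auxHK (kA A) (5 - ℓ)) := stmtAuxLine (kA A) ℓ N hNk hlt hdiv
  have hcC : ((auxC (5 - ℓ) : ℤ) : LaurentSeries (kA A)) =
      HahnSeries.C ((auxC (5 - ℓ) : ℤ) : kA A) := (map_intCast _ _).symm
  rw [hcC] at hhrel hpow
  set fq : LaurentSeries (kA A) := coeffMap (Int.castRingHom (kA A)) (fqZ z) with hfq
  have hwI : IntJ (jqModC (kA A)) w := hS2a w hw
  let wF : ↥(modularFunctionFieldFullC (kA A) N) := ⟨w, hw.1⟩
  -- the residue theorem on the `h`-line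
  have key := hres_main (kA A) ℓ N hNk stmtPT stmtScale stmtTN τ hτ.inj hτ.jmap
    (auxHK (kA A) (5 - ℓ)) hh ((auxC (5 - ℓ) : ℤ) : kA A) (5 - ℓ) hr0 (wF * yh)
    (wF ^ (5 - ℓ) * yh') (hwI.mul hyhI) ((hwI.pow _).mul hyh'I) (by
      show (w * (yh : LaurentSeries (kA A))) ^ (5 - ℓ) = _ * (w ^ (5 - ℓ) * (yh' : LaurentSeries (kA A)))
      rw [mul_pow, hpow]
      ring)
  -- the summands
  have hsummand : ∀ i, τ i (wF * yh) / (τ i ⟨auxHK (kA A) (5 - ℓ), hh.mem⟩ -
      HahnSeries.C ((auxC (5 - ℓ) : ℤ) : kA A)) *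
        thetaFun (τ i ⟨auxHK (kA A) (5 - ℓ), hh.mem⟩) =
      τ i wF * τ i y * (thetaFun (qExpand (kA A) N (jqModC (kA A))) /
        (qExpand (kA A) N (jqModC (kA A)) * (qExpand (kA A) N (jqModC (kA A)) - 1728))) := by
    intro i
    have h1 := stmtLink (kA A) N (τ i) (hτ.jmap i) (auxHK (kA A) (5 - ℓ)) hh
      ((auxC (5 - ℓ) : ℤ) : kA A) fq y yh hrel hhrel
    rw [map_mul, mul_div_assoc, mul_assoc, h1, mul_assoc]
  rw [Finset.sum_congr rfl (fun i _ => hsummand i), HahnSeries.coeff_sum] at key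
  obtain ⟨hs1, hs2⟩ := stmtSumAll N ℓ hℓ hℓN A hA τ i₀ hτ w hw fq y hrel hyord
  rw [Finset.sum_eq_single i₀ (fun i _ hi => hs1 i hi)
    (fun h => absurd (Finset.mem_univ i₀) h), hs2] at key
  exact (mul_eq_zero.1 key).resolve_left hNk

/-- **(I2)** for `ℓ ∈ {2, 3}`, at the levels divisible by the auxiliary prime `5 - ℓ`. -/
theorem stmtI2AuxAll : StmtI2AuxAll := by
  intro N _ ℓ hℓ hlt hℓN hdiv A hA
  exact cnt2_stmtI2 N A (stmtTauAll N ℓ hℓ hℓN A hA) (stmtMFkAll N ℓ hℓ hℓN A hA)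
    (Fermat.Agent.ES.I2.stmtConstAll N ℓ hℓ hℓN A hA) (auxRes_main N ℓ hℓ hlt hℓN hdiv A hA)
    (stmtBAll N ℓ hℓ A hA)

end Fermat.Agent.ES.I2aux

end
end ZBES_027_8
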