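/- GENERATED FILE (helper35, build-time optimisation, NOTES/ZB.md): verbatim concatenation of the modules
   Fermat.Agent.ES.M.Q2
   Fermat.Agent.R38.HolDual
   Fermat.Agent.R38.HolSpan
   Do not edit; do not import together with these modules. -/
import Fermat.Agent.ZB.ES_001
import Fermat.Agent.ZB.ES_024
import Fermat.Agent.ZB.ES_027
import Fermat.Agent.ZB.ES_003
import Fermat.Agent.ZB.ES_012
import Fermat.Agent.ZB.ES_009
import Fermat.Agent.ZB.S28_003

/-! ### bundled: `Fermat.Agent.ES.M.Q2` -/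
section ZBES_028_0

/-!
# ES / M, piece Q2: orthonormal bases

`stmtQ2 N A : StmtQ2 N A` for every valuation subring `A` of `ℚ̄`: a linearly independent family
`a : Fin r → F_N` can be replaced by a family `b` in its span whose Gauss reductions (fraction
form) are linearly independent over the residue field.

Proof: write `a i · D = ev P_i` with a common denominator `D = ev Q` (`ev` = evaluation of
polynomials at the `j(q^d)`).  In the range of `ev` the Gauss norm is attained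
(`prim_exists_primitive`, helper32), so Gaussian elimination (`q2_elim`) gives integral `b″_i` in
the span of the `ev P_i` with `coeff (n j) (b″ i) = δ_{ij}`.  With `D = s · y`, `y` primitive,
`b i := b″ i / y`.
-/

set_option autoImplicit false

noncomputable section

namespace Fermat.Agent.ES.M

open ModularCurve AlgebraicCurve HahnSeries Fermat.Agent.ES Fermat.Agent.S24

/-- the coefficient functionals on `ℚ̄((q))` -/
def q2Coeff (n : ℤ) : LaurentSeries Kb →ₗ[Kb] Kb where
  toFun x := x.coeff n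
  map_add' x y := HahnSeries.coeff_add' x y ▸ rfl
  map_smul' c x := by
    show (c • x).coeff n = c • x.coeff n
    rw [HahnSeries.coeff_smul]

theorem q2Coeff_apply (n : ℤ) (x : LaurentSeries Kb) : q2Coeff n x = x.coeff n := rfl

end Fermat.Agent.ES.M

namespace Fermat.Agent.ES.M

open ModularCurve AlgebraicCurve HahnSeries Fermat.Agent.ES Fermat.Agent.S24 Fermat.Agent.ES.G2

variable (N : ℕ) [NeZero N] (A : ValuationSubring Kb)

/-- evaluation of polynomials at the `j(q^d)`, `d ∣ N` -/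
abbrev q2Ev : MvPolynomial (Dv N) Kb →ₐ[Kb] LaurentSeries Kb := MvPolynomial.aeval (jBfam N)

/-- the range of `q2Ev` as a `ℚ̄`-subspace of `ℚ̄((q))` -/
def q2Range : Submodule Kb (LaurentSeries Kb) where
  carrier := {x | ∃ P, q2Ev N P = x}
  zero_mem' := ⟨0, map_zero _⟩
  add_mem' := by
    rintro _ _ ⟨P, rfl⟩ ⟨Q, rfl⟩
    exact ⟨P + Q, map_add _ _ _⟩
  smul_mem' := by
    rintro c _ ⟨P, rfl⟩
    refine ⟨MvPolynomial.C c * P, ?_⟩
    rw [map_mul, MvPolynomial.aeval_C, algebraMap_eq_hahnC, HahnSeries.C_mul_eq_smul]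

/-- in the range of `q2Ev` the Gauss norm is attained -/
theorem q2_attained (x : LaurentSeries Kb) (hx : x ∈ q2Range N) (h0 : x ≠ 0) :
    ∃ n₀, q2Coeff n₀ x ≠ 0 ∧ ∀ n, q2Coeff n x / q2Coeff n₀ x ∈ A.toSubring := by
  obtain ⟨P, rfl⟩ := hx
  obtain ⟨s, y, hs, -, ⟨hyI, n₀, hn₀⟩, hPy⟩ := prim_exists_primitive N A P h0
  have hy0 : y.coeff n₀ ≠ 0 := by
    intro h
    apply hn₀
    rw [h, ValuationSubring.mem_nonunits_iff, map_zero]
    exact zero_lt_one
  have hco : ∀ n, q2Coeff n (q2Ev N P) = s * y.coeff n := by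
    intro n
    rw [q2Coeff_apply, hPy, HahnSeries.C_mul_eq_smul, HahnSeries.coeff_smul, smul_eq_mul]
  refine ⟨n₀, ?_, fun n => ?_⟩
  · rw [hco]
    exact mul_ne_zero hs hy0
  · rw [hco, hco, mul_div_mul_left _ _ hs]
    show y.coeff n / y.coeff n₀ ∈ A
    have h1 : A.valuation (y.coeff n₀) = 1 := by
      refine le_antisymm ((ValuationSubring.valuation_le_one_iff A _).2 (hyI n₀)) ?_
      rw [ValuationSubring.mem_nonunits_iff, not_lt] at hn₀
      exact hn₀
    rw [← ValuationSubring.valuation_le_one_iff, map_div₀, h1, div_one]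
    exact (ValuationSubring.valuation_le_one_iff A _).2 (hyI n)

omit [NeZero N] in
theorem q2_coe_smul (c : Kb) (x : FF N) :
    ((c • x : FF N) : LaurentSeries Kb) = c • (x : LaurentSeries Kb) := by
  rw [Algebra.smul_def, ← HahnSeries.C_mul_eq_smul, ← algebraMap_eq_hahnC]
  rfl

omit [NeZero N] in
theorem q2_coe_sum {ι : Type*} (s : Finset ι) (f : ι → FF N) :
    ((∑ i ∈ s, f i : FF N) : LaurentSeries Kb) = ∑ i ∈ s, (f i : LaurentSeries Kb) :=
  map_sum (modularFunctionFieldBar N).val f s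

/-- **(Q2)** for every valuation subring `A` of `ℚ̄`. -/
theorem stmtQ2 : StmtQ2 N A := by
  classical
  intro r a ha
  -- fractions
  have hfrac : ∀ i, ∃ P Q : MvPolynomial (Dv N) Kb,
      ((a i : FF N) : LaurentSeries Kb) = q2Ev N P / q2Ev N Q := by
    intro i
    have hu' : ((a i : FF N) : LaurentSeries Kb) ∈
        IntermediateField.adjoin Kb (Set.range (jBfam N)) := by
      rw [← br_modularFunctionFieldBar_eq_adjoin]; exact (a i).2
    exact (IntermediateField.mem_adjoin_range_iff Kb _ _).1 hu'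
  choose P Q hPQ using hfrac
  have ha0 : ∀ i, ((a i : FF N) : LaurentSeries Kb) ≠ 0 := fun i h =>
    ha.ne_zero i (Subtype.ext h)
  have hQ0 : ∀ i, q2Ev N (Q i) ≠ 0 := by
    intro i h
    apply ha0 i
    rw [hPQ i, h, div_zero]
  -- common denominator
  set D : LaurentSeries Kb := q2Ev N (∏ i, Q i) with hD
  have hDprod : D = ∏ i, q2Ev N (Q i) := map_prod _ _ _
  have hD0 : D ≠ 0 := by
    rw [hDprod]
    exact Finset.prod_ne_zero_iff.2 fun i _ => hQ0 i
  set P' : Fin r → MvPolynomial (Dv N) Kb :=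
    fun i => P i * ∏ j ∈ Finset.univ.erase i, Q j with hP'
  have haD : ∀ i, ((a i : FF N) : LaurentSeries Kb) * D = q2Ev N (P' i) := by
    intro i
    rw [hP', map_mul, map_prod, hDprod,
      ← Finset.mul_prod_erase Finset.univ _ (Finset.mem_univ i), hPQ i, ← mul_assoc,
      div_mul_cancel₀ _ (hQ0 i)]
  set a'' : Fin r → LaurentSeries Kb := fun i => q2Ev N (P' i) with ha''
  have hsum : ∀ g : Fin r → Kb, ∑ i, g i • a'' i =
      ((∑ i, g i • a i : FF N) : LaurentSeries Kb) * D := by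
    intro g
    rw [q2_coe_sum, Finset.sum_mul]
    refine Finset.sum_congr rfl fun i _ => ?_
    show g i • q2Ev N (P' i) = _
    rw [q2_coe_smul, ← haD i, ← HahnSeries.C_mul_eq_smul, ← HahnSeries.C_mul_eq_smul, mul_assoc]
  have ha''li : LinearIndependent Kb a'' := by
    rw [Fintype.linearIndependent_iff]
    intro g hg
    rw [hsum g] at hg
    have h1 : ((∑ i, g i • a i : FF N) : LaurentSeries Kb) = 0 := by
      rcases mul_eq_zero.1 hg with h | h
      · exact h
      · exact absurd h hD0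
    exact (Fintype.linearIndependent_iff.1 ha) g (Subtype.ext h1)
  -- elimination
  obtain ⟨b'', n, hb''span, hb''A, hb''δ⟩ := q2_elim A.toSubring q2Coeff (q2Range N)
    (q2_attained N A) r a'' ha''li (fun i => ⟨P' i, rfl⟩)
  -- the denominator is a constant times a primitive series
  obtain ⟨sD, yD, hsD, hyDm, hyDprim, hDy⟩ := prim_exists_primitive N A (∏ i, Q i) hD0
  have hc : ∀ i, ∃ c : Fin r → Kb, ∑ j, c j • a'' j = b'' i := fun i =>
    (Submodule.mem_span_range_iff_exists_fun Kb).1 (hb''span i)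
  choose c hc using hc
  set b : Fin r → FF N := fun i => sD • ∑ j, c i j • a j with hb
  have hby : ∀ i, ((b i : FF N) : LaurentSeries Kb) * yD = b'' i := by
    intro i
    have hDy' : D = HahnSeries.C sD * yD := hDy
    rw [← hc i, hsum (c i), hDy']
    show ((sD • ∑ j, c i j • a j : FF N) : LaurentSeries Kb) * yD = _
    rw [q2_coe_smul, ← HahnSeries.C_mul_eq_smul]
    ring
  have hb''I : ∀ i, KronInt A (b'' i) := fun i m => hb''A i m
  choose Y₁ hY₁ using fun i => (hb''I i).exists_lift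
  obtain ⟨Y₂, hY₂⟩ := hyDprim.1.exists_lift
  have hY₂0 : kronRed A Y₂ ≠ 0 := by
    rw [← kronPrim_kronIncl_iff, hY₂]
    exact hyDprim
  refine ⟨b, fun i => kronRed A (Y₁ i) * (kronRed A Y₂)⁻¹, ?_, ?_, ?_⟩
  · intro i
    exact Submodule.smul_mem _ _ (Submodule.sum_mem _ fun j _ =>
      Submodule.smul_mem _ _ (Submodule.subset_span ⟨j, rfl⟩))
  · intro i
    refine ⟨Y₁ i, Y₂, ?_, ?_, hY₂0, ?_, ?_⟩
    · rw [hY₁ i, ← hby i]
      exact mul_mem (b i).2 hyDm
    · rw [hY₂]
      exact hyDm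
    · rw [hY₁ i, hY₂, hby i]
    · rw [inv_mul_cancel_right₀ hY₂0]
  · rw [Fintype.linearIndependent_iff]
    intro g hg
    have h1 : ∑ i, g i • kronRed A (Y₁ i) = 0 := by
      have h2 := congrArg (fun x => x * kronRed A Y₂) hg
      simp only [Finset.sum_mul, zero_mul] at h2
      rw [← h2]
      refine Finset.sum_congr rfl fun i _ => ?_
      rw [← HahnSeries.C_mul_eq_smul, ← HahnSeries.C_mul_eq_smul, mul_assoc,
        inv_mul_cancel_right₀ hY₂0]
    intro j
    have h3 := congrArg (fun x : LaurentSeries (kA A) => x.coeff (n j)) h1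
    simp only [HahnSeries.coeff_sum, HahnSeries.coeff_smul, coeffMap_coeff,
      HahnSeries.coeff_zero] at h3
    have h4 : ∀ i, IsLocalRing.residue A ((Y₁ i).coeff (n j)) = if i = j then 1 else 0 := by
      intro i
      have h5 : (((Y₁ i).coeff (n j) : A) : Kb) = if i = j then 1 else 0 := by
        have := congrArg (fun x : LaurentSeries Kb => x.coeff (n j)) (hY₁ i)
        simp only [coeffMap_coeff] at this
        rw [← hb''δ i j, q2Coeff_apply, ← this]
        rfl
      have h6 : ((Y₁ i).coeff (n j) : A) = if i = j then 1 else 0 := by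
        apply Subtype.ext
        rw [h5]
        split_ifs <;> rfl
      rw [h6]
      split_ifs <;> simp
    simp only [h4] at h3
    simpa using h3

/-- **(Q2)** in the form of the plan. -/
theorem stmtQ2All : StmtQ2All := fun N _ _ _ _ A _ => stmtQ2 N A

end Fermat.Agent.ES.M

end
end ZBES_028_0

/-! ### bundled: `Fermat.Agent.R38.HolDual` -/
section ZBES_028_1

/-!
# R38 TRES, piece HOL-DUAL: the annihilator of `W` is the space of reduced cusp forms

Route "HOL-dlog" of helper83 (board 23:20Z) for the step (T3) of `NOTES/R38-TRES.md`.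

`k = kA A`, `A ⊂ ℚ̄` a valuation ring over `ℓ ≥ 5`, `ℓ ∤ N`; `W = {w : InW N A w}` the functions of
the reduced curve which are regular outside the cusp `∞`; `S̄` the `k`-span of the reductions of
the cusp forms of weight `2` with integer `q`-expansion.

* `r38hold_core` : the abstract count.  If `dim W_n ≥ n + 1 - g` for arbitrarily large `n`, the
  `F i` (`i < g`) are independent, vanish at `q = 0` and are orthogonal to `W` for the pairing
  `a₀ (w b)`, then every `b` vanishing at `q = 0` and orthogonal to `W` lies in the span of the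
  `F i`.  (Otherwise `I2aux.i2_count` for the `g + 1` independent series `F i, b` gives
  `dim W_n ≤ n - g`.)
* `r38hold_lower` : `n + 1 ≤ dim W_n + g` for `n ≥ g` (Riemann's inequality in characteristic `0`,
  orthonormal bases (Q2), Lemma W).
* `r38hold_dual` : **(DUAL)** `b ∈ q k[[q]]`, `a₀ (w b) = 0` for all `w ∈ W`  ⇒  `b ∈ S̄`.
-/

set_option autoImplicit false
set_option linter.style.haveILetI false

noncomputable section

namespace Fermat.Agent.R38

open ModularCurve AlgebraicCurve HahnSeries Fermat.Agent.ES Fermat.Agent.S24 Fermat.Agent.ES.M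
open Fermat.Agent.ES.I2

/-- **the abstract count behind (DUAL)** -/
theorem r38hold_core {k : Type*} [Field k] (W : ℕ → Submodule k (LaurentSeries k))
    (hW : ∀ n, ∀ w ∈ W n, ∀ m : ℤ, m < -(n : ℤ) → w.coeff m = 0)
    (g : ℕ) (F : Fin g → LaurentSeries k)
    (hF0 : ∀ i (m : ℤ), m ≤ 0 → (F i).coeff m = 0) (hFli : LinearIndependent k F)
    (hres : ∀ n, ∀ w ∈ W n, ∀ i, (w * F i).coeff 0 = 0)
    (hconst : ∀ n, ∀ w ∈ W n, (∀ m : ℤ, m ≤ 0 → w.coeff m = 0) → w = 0)
    (hlow : ∀ n₀ : ℕ, ∃ n, n₀ ≤ n ∧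
      (Module.Finite k ↥(W n) → n + 1 ≤ Module.finrank k ↥(W n) + g))
    (b : LaurentSeries k) (hb0 : ∀ m : ℤ, m ≤ 0 → b.coeff m = 0)
    (hbres : ∀ n, ∀ w ∈ W n, (w * b).coeff 0 = 0) :
    b ∈ Submodule.span k (Set.range F) := by
  by_contra hb
  have hli : LinearIndependent k (Fin.snoc F b : Fin (g + 1) → LaurentSeries k) :=
    linearIndependent_finSnoc.2 ⟨hFli, hb⟩
  have h0 : ∀ (i : Fin (g + 1)) (m : ℤ), m ≤ 0 →
      ((Fin.snoc F b : Fin (g + 1) → LaurentSeries k) i).coeff m = 0 := by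
    intro i
    refine Fin.lastCases ?_ (fun j => ?_) i
    · intro m hm
      rw [Fin.snoc_last]
      exact hb0 m hm
    · intro m hm
      rw [Fin.snoc_castSucc]
      exact hF0 j m hm
  have hr : ∀ n, ∀ w ∈ W n, ∀ i : Fin (g + 1),
      (w * (Fin.snoc F b : Fin (g + 1) → LaurentSeries k) i).coeff 0 = 0 := by
    intro n w hw i
    refine Fin.lastCases ?_ (fun j => ?_) i
    · rw [Fin.snoc_last]
      exact hbres n w hw
    · rw [Fin.snoc_castSucc]
      exact hres n w hw j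
  obtain ⟨n₀, hn₀⟩ := Fermat.Agent.ES.I2aux.i2_count W hW (g + 1)
    (Fin.snoc F b : Fin (g + 1) → LaurentSeries k) h0 hli hr hconst
  obtain ⟨n, hn, hl⟩ := hlow n₀
  obtain ⟨hfin, hrank⟩ := hn₀ n hn
  have := hl hfin
  omega

section Concrete

variable (N : ℕ) [NeZero N] (A : ValuationSubring Kb)

/-- **the lower bound** `dim W_n ≥ n + 1 - g` (`n ≥ g`): Riemann's inequality in characteristic
`0`, orthonormal bases and Lemma W. -/
theorem r38hold_lower (gr : GRApi N A) (lw : LWApi N A) (hRedF : StmtRedF N A)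
    (hLRa : StmtLRa N A) (hQ2 : StmtQ2 N A) (hR : StmtR N) (n : ℕ) (hn : gN N ≤ n)
    [Module.Finite (kA A) ↥(Wn N A n)] :
    n + 1 ≤ Module.finrank (kA A) ↥(Wn N A n) + gN N := by
  obtain ⟨Pinf, hPinf, hdeg⟩ := exists_isCuspInfty N
  have hD : ∀ P : Place Kb (FF N), ((1 : ℕ) : ℤ) * (0 : Divisor Kb (FF N)) P = P.ord (1 : FF N) := by
    intro P
    rw [P.ord_one]
    simp
  have hdegE : Divisor.degree ((0 : Divisor Kb (FF N)) + Finsupp.single Pinf (n : ℤ)) = n := by
    rw [map_add, map_zero, Divisor.degree_single, hdeg]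
    simp
  obtain ⟨a, ha, haL⟩ := lw.exists_indep hR
    ((0 : Divisor Kb (FF N)) + Finsupp.single Pinf (n : ℤ)) (n + 1 - gN N)
    (by rw [hdegE]; omega)
  obtain ⟨b, w, hb, hbw, hw⟩ := hQ2 (n + 1 - gN N) a ha
  have hbL : ∀ i, b i ∈ riemannRochSpace ((0 : Divisor Kb (FF N)) + Finsupp.single Pinf (n : ℤ)) :=
    fun i => (Submodule.span_le.mpr (by rintro _ ⟨j, rfl⟩; exact haL j)) (hb i)
  have hwW : ∀ i, w i ∈ Wn N A n := fun i =>
    lw.mem_Wn hRedF hLRa 1 one_pos 1 one_ne_zero gr.one 0 hD Pinf hPinf n (b i) (hbL i) (w i)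
      (hbw i)
  have hw' : LinearIndependent (kA A) (fun i => (⟨w i, hwW i⟩ : ↥(Wn N A n))) :=
    LinearIndependent.of_comp (Wn N A n).subtype hw
  have h1 := hw'.fintype_card_le_finrank
  rw [Fintype.card_fin] at h1
  omega

/-- **(DUAL)**, at one `(N, A)`, from the inputs at `(N, A)`. -/
theorem r38hold_dual_of (gr : GRApi N A) (lw : LWApi N A) (hRedF : StmtRedF N A)
    (hLRa : StmtLRa N A) (hQ2 : StmtQ2 N A) (hR : StmtR N)
    (hTau : StmtTau N A) (hMFk : StmtMFk N A) (hConst : StmtConst N A) (hRes : StmtRes N A)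
    (f : Fin (gN N) → CuspForm (CongruenceSubgroup.Gamma0 N) 2) (z : Fin (gN N) → ℕ → ℤ)
    (hz : ∀ t n, ModularFormClass.qCoeff (f t) n = (z t n : ℂ))
    (hli : LinearIndependent (kA A) (fun t => coeffMap (Int.castRingHom (kA A)) (fqZ (z t))))
    (b : LaurentSeries (kA A)) (hb0 : ∀ m : ℤ, m ≤ 0 → b.coeff m = 0)
    (hres : ∀ w : LaurentSeries (kA A), InW N A w → (w * b).coeff 0 = 0) :
    b ∈ Submodule.span (kA A)
      (Set.range fun t => coeffMap (Int.castRingHom (kA A)) (fqZ (z t))) := by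
  obtain ⟨τ, i₀, hτ⟩ := hTau
  refine r38hold_core (fun n => Wn N A n) (fun n w hw => ((mem_Wn N A).1 hw).2) (gN N)
    (fun t => coeffMap (Int.castRingHom (kA A)) (fqZ (z t)))
    (fun t => (hMFk τ i₀ hτ (f t) (z t) (hz t)).1) hli
    (fun n w hw t => hRes w ((mem_Wn N A).1 hw).1 (f t) (z t) (hz t))
    (fun n w hw h0 => hConst w ((mem_Wn N A).1 hw).1 h0) ?_ b hb0
    (fun n w hw => hres w ((mem_Wn N A).1 hw).1)
  intro n₀
  refine ⟨max n₀ (gN N), le_max_left _ _, fun hfin => ?_⟩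
  haveI := hfin
  exact r38hold_lower N A gr lw hRedF hLRa hQ2 hR (max n₀ (gN N)) (le_max_right _ _)

end Concrete

/-- **(DUAL)**: a power series `b ∈ q k[[q]]` which is orthogonal to `W` (the functions of the
reduction of `X₀(N)` at `ℓ ≥ 5`, `ℓ ∤ N`, regular outside `∞`) for the pairing `a₀ (w b)` is a
`k`-linear combination of reductions of cusp forms of weight `2` with integer `q`-expansion. -/
theorem r38hold_dual (N : ℕ) [NeZero N] (ℓ : ℕ) (hℓ : ℓ.Prime) (h5 : 5 ≤ ℓ) (hℓN : ¬ ℓ ∣ N)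
    (A : ValuationSubring Kb) (hA : A.LiesOverPrime ℓ)
    (b : LaurentSeries (kA A)) (hb0 : ∀ m : ℤ, m ≤ 0 → b.coeff m = 0)
    (hres : ∀ w : LaurentSeries (kA A), InW N A w → (w * b).coeff 0 = 0) :
    ∃ (f : Fin (gN N) → CuspForm (CongruenceSubgroup.Gamma0 N) 2) (z : Fin (gN N) → ℕ → ℤ),
      (∀ t n, ModularFormClass.qCoeff (f t) n = (z t n : ℂ)) ∧
      LinearIndependent (kA A) (fun t => coeffMap (Int.castRingHom (kA A)) (fqZ (z t))) ∧
      b ∈ Submodule.span (kA A)
        (Set.range fun t => coeffMap (Int.castRingHom (kA A)) (fqZ (z t))) := by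
  obtain ⟨f, z, hz, hli⟩ := stmtBAll N ℓ hℓ A hA
  have gr : GRApi N A := stmtGRApi N A
  refine ⟨f, z, hz, hli, ?_⟩
  exact r38hold_dual_of N A gr (stmtLWApi N A gr) (stmtRedFAll N ℓ hℓ hℓN A hA)
    (Fermat.Agent.ES.LR.stmtLRaAll N ℓ hℓ hℓN A hA) (stmtQ2All N ℓ hℓ hℓN A hA)
    (Fermat.Agent.ES.R.stmtRAll N) (stmtTauAll N ℓ hℓ hℓN A hA) (stmtMFkAll N ℓ hℓ hℓN A hA)
    (stmtConstAll N ℓ hℓ hℓN A hA) (stmtResAll N ℓ hℓ h5 hℓN A hA) f z hz hli b hb0 hres

/-- the reduced cusp forms are orthogonal to `W` and vanish at `q = 0` (`ES.I2.stmtResAll`,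
`ES.I2.stmtMFkAll`), in the shape used with `r38hold_dual`. -/
theorem r38hold_span_orth (N : ℕ) [NeZero N] (ℓ : ℕ) (hℓ : ℓ.Prime) (h5 : 5 ≤ ℓ) (hℓN : ¬ ℓ ∣ N)
    (A : ValuationSubring Kb) (hA : A.LiesOverPrime ℓ)
    (f : CuspForm (CongruenceSubgroup.Gamma0 N) 2) (z : ℕ → ℤ)
    (hz : ∀ n, ModularFormClass.qCoeff f n = (z n : ℂ)) :
    (∀ m : ℤ, m ≤ 0 → (coeffMap (Int.castRingHom (kA A)) (fqZ z)).coeff m = 0) ∧
    ∀ w : LaurentSeries (kA A), InW N A w →
      (w * coeffMap (Int.castRingHom (kA A)) (fqZ z)).coeff 0 = 0 := by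
  obtain ⟨τ, i₀, hτ⟩ := stmtTauAll N ℓ hℓ hℓN A hA
  exact ⟨(stmtMFkAll N ℓ hℓ hℓN A hA τ i₀ hτ f z hz).1,
    fun w hw => stmtResAll N ℓ hℓ h5 hℓN A hA w hw f z hz⟩

end Fermat.Agent.R38

end


end ZBES_028_1

/-! ### bundled: `Fermat.Agent.R38.HolSpan` -/
section ZBES_028_2

/-!
# Row 38, PKG-TRES, route HOL-dlog: piece SPAN-asm (helper83)

`stmtHolSpanGlue : StmtHolSpanGlue` (`= StmtHolOrd → StmtHolResAll → StmtHolSpanAll`):
for `r ∈ F̄ˣ` with `ℓ ∣ ord_Q r` at all places, `b̄ = dlog r` lies in `q k[[q]]`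
(`a₀ (dlog r) = ord_q r`, divisible by `ℓ` by (ORD) at the cusp `∞`), it is orthogonal to `W` by
(RES), hence it lies in the span `S̄` of the reduced cusp forms by (DUAL) (`r38hold_dual`).
-/

set_option autoImplicit false
set_option linter.style.haveILetI false

noncomputable section

namespace Fermat.Agent.R38

open ModularCurve AlgebraicCurve HahnSeries Fermat.Agent.ES Fermat.Agent.S24 Fermat.Agent.ES.M
open Fermat.Agent.ES.I2 Fermat.Agent.S28.Deriv

section Formal

variable {k : Type*} [Field k]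

/-- `dlog r` has no pole -/
theorem r38hol_dlog_coeff_neg (r : LaurentSeries k) (m : ℤ) (hm : m < 0) :
    (r38dlog r).coeff m = 0 := by
  by_cases hr : r = 0
  · rw [hr, r38dlog_zero, HahnSeries.coeff_zero]
  by_cases hθ : thetaFun r = 0
  · rw [r38dlog, hθ, zero_mul, HahnSeries.coeff_zero]
  have hinv : r⁻¹ ≠ 0 := inv_ne_zero hr
  have h1 : r.order + (r⁻¹).order = 0 := by
    rw [← HahnSeries.order_mul hr hinv, mul_inv_cancel₀ hr, HahnSeries.order_one]
  have h2 : r.order ≤ (thetaFun r).order := by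
    rw [HahnSeries.le_order_iff_forall hθ]
    intro i hi
    by_contra hne
    have hmem : i ∈ (thetaFun r).support := hne
    have := thetaFun_support_subset r hmem
    exact this (HahnSeries.coeff_eq_zero_of_lt_order hi)
  apply HahnSeries.coeff_eq_zero_of_lt_order
  rw [r38dlog, HahnSeries.order_mul hθ hinv]
  omega

/-- `a₀ (dlog r) = ord_q r` -/
theorem r38hol_dlog_coeff_zero (r : LaurentSeries k) (hr : r ≠ 0) :
    (r38dlog r).coeff 0 = ((r.order : ℤ) : k) := by
  rw [r38dlog, mul_comm]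
  exact Fermat.Agent.ES.I2aux.res_inv_mul_theta r hr

end Formal

/-- **piece SPAN-asm** -/
theorem stmtHolSpanGlue : StmtHolSpanGlue := by
  intro hOrd hRes N _ ℓ hℓ h5 hℓN A hA r hr0 hdiv
  haveI : Fact ℓ.Prime := ⟨hℓ⟩
  haveI : CharP (kA A) ℓ := kron_charP_residueField hℓ hA
  haveI : PerfectRing (kA A) ℓ := Fermat.Agent.INJ.nf_perfectRing_residueField A ℓ
  have hNk : ((N : ℕ) : kA A) ≠ 0 := redF_natCast_ne_zero N A ℓ hℓ hℓN hA
  obtain ⟨hr, hQ⟩ := hdiv
  -- the order at the cusp `∞`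
  have hrne : (⟨r, hr⟩ : ↥(modularFunctionFieldFullC (kA A) N)) ≠ 0 := fun h =>
    hr0 (congrArg Subtype.val h)
  have h1 : (ℓ : ℤ) ∣ (iotaK (kA A) N ⟨r, hr⟩).order :=
    hOrd (kA A) ℓ N hNk (iotaK (kA A) N) (iotaK_apply (kA A) N _) ⟨r, hr⟩ hrne hQ
  rw [iotaK_apply, Fermat.Agent.S28.order_qExpand] at h1
  have h2 : (ℓ : ℤ) ∣ r.order := by
    have hcop : IsCoprime (ℓ : ℤ) (N : ℤ) := by
      rw [Int.isCoprime_iff_gcd_eq_one]
      have : Nat.Coprime ℓ N := (Nat.Prime.coprime_iff_not_dvd hℓ).2 hℓN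
      exact_mod_cast this
    exact hcop.dvd_of_dvd_mul_left h1
  have h3 : (r38dlog r).coeff 0 = 0 := by
    rw [r38hol_dlog_coeff_zero r hr0]
    obtain ⟨c, hc⟩ := h2
    rw [hc, Int.cast_mul, Int.cast_natCast, CharP.cast_eq_zero, zero_mul]
  have hb0 : ∀ m : ℤ, m ≤ 0 → (r38dlog r).coeff m = 0 := by
    intro m hm
    rcases hm.lt_or_eq with h | h
    · exact r38hol_dlog_coeff_neg r m h
    · rw [h]; exact h3
  obtain ⟨f, z, hz, -, hmem⟩ := r38hold_dual N ℓ hℓ h5 hℓN A hA (r38dlog r) hb0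
    (fun w hw => hRes N ℓ hℓ h5 hℓN A hA r hr0 ⟨hr, hQ⟩ w hw)
  refine Submodule.span_mono ?_ hmem
  rintro _ ⟨t, rfl⟩
  exact ⟨f t, z t, hz t, rfl⟩

end Fermat.Agent.R38

end


end ZBES_028_2
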