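/- GENERATED FILE (helper35, build-time optimisation, NOTES/ZB.md): verbatim concatenation of the modules
   Fermat.Agent.DEU.Inst
   Do not edit; do not import together with these modules. -/
import Fermat.Agent.ZB.ES_020
import Fermat.Agent.ZB.ES_001
import Fermat.Agent.ZB.ES_028

/-! ### bundled: `Fermat.Agent.DEU.Inst` -/
section ZBDEU_003_0

/-!
# DEU-inst — the constant reduction of `F_N = ℚ̄(j(q^d) : d ∣ N)` at a valuation ring `A ⊂ ℚ̄`

`deuInst_redData N A hRedF : RedData ℚ̄ F_N k F_{N,k}` with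
* `O = {x | GaussInt N A x}` (Gauss norm `≤ 1`, fraction form),
* `red` = the residue map of the Gauss valuation: `GaussRed N A x w ↔ red x = w`
  (`deuInst_red_iff`),
* scaling = PRIM (`prim_exists_primitive`), target in `F_{N,k}` = `StmtRedF` (S28).

`deuInst_q2`: `dim_K V ≤ dim_k (redSpace V)` (orthonormal bases, `stmtQ2`); with
`RedData.finrank_redSpace_le` this gives equality (`deuInst_finrank_redSpace`).
-/

set_option autoImplicit false
set_option synthInstance.maxHeartbeats 400000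
set_option maxHeartbeats 1000000

noncomputable section

namespace Fermat.Agent.DEU

open ModularCurve AlgebraicCurve HahnSeries Fermat.Agent.ES Fermat.Agent.S24 Fermat.Agent.ES.M

variable (N : ℕ) [NeZero N] (A : ValuationSubring Kb)

/-! ## `GaussRed` is the graph of a ring homomorphism -/

theorem deuInst_coeffMap_C {R S : Type*} [CommRing R] [CommRing S] (f : R →+* S) (a : R) :
    coeffMap f (HahnSeries.C a : LaurentSeries R) = HahnSeries.C (f a) := by
  rw [HahnSeries.C_apply, HahnSeries.C_apply, coeffMap_single]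

omit [NeZero N] in
/-- the reduction is unique -/
theorem deuInst_gaussRed_unique {x : FF N} {w w' : LaurentSeries (kA A)}
    (h : GaussRed N A x w) (h' : GaussRed N A x w') : w = w' := by
  obtain ⟨Y₁, Y₂, -, -, hY₂, hx, hw⟩ := h
  obtain ⟨Z₁, Z₂, -, -, hZ₂, hx', hw'⟩ := h'
  have h1 : kronIncl A (Y₁ * Z₂) = kronIncl A (Z₁ * Y₂) := by
    rw [map_mul, map_mul, ← hx, ← hx']
    ring
  have h2 : Y₁ * Z₂ = Z₁ * Y₂ := kronIncl_injective h1
  have h3 : kronRed A Y₁ * kronRed A Z₂ = kronRed A Z₁ * kronRed A Y₂ := by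
    rw [← map_mul, ← map_mul, h2]
  rw [← hw, ← hw'] at h3
  have h4 : w * (kronRed A Y₂ * kronRed A Z₂) = w' * (kronRed A Y₂ * kronRed A Z₂) := by
    calc w * (kronRed A Y₂ * kronRed A Z₂) = w * kronRed A Y₂ * kronRed A Z₂ := by ring
      _ = w' * kronRed A Z₂ * kronRed A Y₂ := h3
      _ = w' * (kronRed A Y₂ * kronRed A Z₂) := by ring
  exact mul_right_cancel₀ (mul_ne_zero hY₂ hZ₂) h4

omit [NeZero N] in
theorem deuInst_gaussRed_zero : GaussRed N A 0 0 := by
  refine ⟨0, 1, ?_, ?_, ?_, ?_, ?_⟩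
  · rw [map_zero]; exact zero_mem _
  · rw [map_one]; exact one_mem _
  · rw [map_one]; exact one_ne_zero
  · rw [map_zero, map_one, mul_one]; rfl
  · rw [map_zero, zero_mul]

omit [NeZero N] in
theorem deuInst_gaussRed_one : GaussRed N A 1 1 := by
  refine ⟨1, 1, ?_, ?_, ?_, ?_, ?_⟩
  · rw [map_one]; exact one_mem _
  · rw [map_one]; exact one_mem _
  · rw [map_one]; exact one_ne_zero
  · rw [map_one, mul_one]; rfl
  · rw [map_one, mul_one]

omit [NeZero N] in
theorem deuInst_gaussRed_add {x x' : FF N} {w w' : LaurentSeries (kA A)}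
    (h : GaussRed N A x w) (h' : GaussRed N A x' w') : GaussRed N A (x + x') (w + w') := by
  obtain ⟨Y₁, Y₂, hY₁m, hY₂m, hY₂, hx, hw⟩ := h
  obtain ⟨Z₁, Z₂, hZ₁m, hZ₂m, hZ₂, hx', hw'⟩ := h'
  refine ⟨Y₁ * Z₂ + Z₁ * Y₂, Y₂ * Z₂, ?_, ?_, ?_, ?_, ?_⟩
  · rw [map_add, map_mul, map_mul]
    exact add_mem (mul_mem hY₁m hZ₂m) (mul_mem hZ₁m hY₂m)
  · rw [map_mul]; exact mul_mem hY₂m hZ₂m
  · rw [map_mul]; exact mul_ne_zero hY₂ hZ₂
  · rw [map_add, map_mul, map_mul, map_mul, ← hx, ← hx']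
    have : ((x + x' : FF N) : LaurentSeries Kb) = (x : LaurentSeries Kb) + (x' : LaurentSeries Kb) :=
      rfl
    rw [this]; ring
  · rw [map_add, map_mul, map_mul, map_mul, ← hw, ← hw']; ring

omit [NeZero N] in
theorem deuInst_gaussRed_mul {x x' : FF N} {w w' : LaurentSeries (kA A)}
    (h : GaussRed N A x w) (h' : GaussRed N A x' w') : GaussRed N A (x * x') (w * w') := by
  obtain ⟨Y₁, Y₂, hY₁m, hY₂m, hY₂, hx, hw⟩ := h
  obtain ⟨Z₁, Z₂, hZ₁m, hZ₂m, hZ₂, hx', hw'⟩ := h'
  refine ⟨Y₁ * Z₁, Y₂ * Z₂, ?_, ?_, ?_, ?_, ?_⟩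
  · rw [map_mul]; exact mul_mem hY₁m hZ₁m
  · rw [map_mul]; exact mul_mem hY₂m hZ₂m
  · rw [map_mul]; exact mul_ne_zero hY₂ hZ₂
  · rw [map_mul, map_mul, ← hx, ← hx']
    have : ((x * x' : FF N) : LaurentSeries Kb) = (x : LaurentSeries Kb) * (x' : LaurentSeries Kb) :=
      rfl
    rw [this]; ring
  · rw [map_mul, map_mul, ← hw, ← hw']; ring

omit [NeZero N] in
theorem deuInst_gaussRed_neg {x : FF N} {w : LaurentSeries (kA A)}
    (h : GaussRed N A x w) : GaussRed N A (-x) (-w) := by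
  obtain ⟨Y₁, Y₂, hY₁m, hY₂m, hY₂, hx, hw⟩ := h
  refine ⟨-Y₁, Y₂, ?_, hY₂m, hY₂, ?_, ?_⟩
  · rw [map_neg]; exact neg_mem hY₁m
  · rw [map_neg, ← hx]
    have : ((-x : FF N) : LaurentSeries Kb) = -(x : LaurentSeries Kb) := rfl
    rw [this]; ring
  · rw [map_neg, ← hw]; ring

omit [NeZero N] in
/-- constants -/
theorem deuInst_gaussRed_const (a : A) :
    GaussRed N A (algebraMap Kb (FF N) (a : Kb))
      (HahnSeries.C (IsLocalRing.residue A a) : LaurentSeries (kA A)) := by
  refine ⟨HahnSeries.C a, 1, ?_, ?_, ?_, ?_, ?_⟩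
  · have : kronIncl A (HahnSeries.C a) = HahnSeries.C (a : Kb) :=
      deuInst_coeffMap_C A.subtype a
    rw [this]
    exact hahnC_mem_intermediateField _ _
  · rw [map_one]; exact one_mem _
  · rw [map_one]; exact one_ne_zero
  · rw [map_one, mul_one]
    have h1 : ((algebraMap Kb (FF N) (a : Kb) : FF N) : LaurentSeries Kb)
        = algebraMap Kb (LaurentSeries Kb) (a : Kb) := rfl
    rw [h1, algebraMap_eq_hahnC]
    exact (deuInst_coeffMap_C A.subtype a).symm
  · rw [map_one, mul_one]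
    exact (deuInst_coeffMap_C (IsLocalRing.residue A) a).symm

omit [NeZero N] in
/-- inverses -/
theorem deuInst_gaussRed_inv {x : FF N} {w : LaurentSeries (kA A)}
    (h : GaussRed N A x w) (hw0 : w ≠ 0) : GaussRed N A x⁻¹ w⁻¹ := by
  obtain ⟨Y₁, Y₂, hY₁m, hY₂m, hY₂, hx, hw⟩ := h
  have hY₁ : kronRed A Y₁ ≠ 0 := by
    rw [← hw]; exact mul_ne_zero hw0 hY₂
  have hI₁ : kronIncl A Y₁ ≠ 0 := by
    intro h0
    apply hY₁
    have : Y₁ = 0 := kronIncl_injective (by rw [h0, map_zero])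
    rw [this, map_zero]
  have hx0 : (x : LaurentSeries Kb) ≠ 0 := by
    intro h0
    rw [h0, zero_mul] at hx
    exact hI₁ hx.symm
  refine ⟨Y₂, Y₁, hY₂m, hY₁m, hY₁, ?_, ?_⟩
  · have : ((x⁻¹ : FF N) : LaurentSeries Kb) = (x : LaurentSeries Kb)⁻¹ := rfl
    rw [this, ← hx, ← mul_assoc, inv_mul_cancel₀ hx0, one_mul]
  · rw [← hw, ← mul_assoc, inv_mul_cancel₀ hw0, one_mul]

omit [NeZero N] in
/-- the reduction lies in `F_{N,k}` -/
theorem deuInst_gaussRed_mem (hRedF : StmtRedF N A) {x : FF N} {w : LaurentSeries (kA A)}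
    (h : GaussRed N A x w) : w ∈ modularFunctionFieldFullC (kA A) N := by
  obtain ⟨Y₁, Y₂, hY₁m, hY₂m, hY₂, -, hw⟩ := h
  have h1 : w = kronRed A Y₁ * (kronRed A Y₂)⁻¹ := by
    rw [← hw, mul_assoc, mul_inv_cancel₀ hY₂, mul_one]
  rw [h1]
  exact mul_mem (hRedF Y₁ hY₁m) (inv_mem (hRedF Y₂ hY₂m))

/-! ## The ring of Gauss-integral elements and the reduction map -/

/-- the elements of Gauss norm `≤ 1` -/
def deuInstO : Subring (FF N) where
  carrier := {x | GaussInt N A x}
  mul_mem' := by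
    rintro x y ⟨w, hw⟩ ⟨w', hw'⟩
    exact ⟨w * w', deuInst_gaussRed_mul N A hw hw'⟩
  one_mem' := ⟨1, deuInst_gaussRed_one N A⟩
  add_mem' := by
    rintro x y ⟨w, hw⟩ ⟨w', hw'⟩
    exact ⟨w + w', deuInst_gaussRed_add N A hw hw'⟩
  zero_mem' := ⟨0, deuInst_gaussRed_zero N A⟩
  neg_mem' := by
    rintro x ⟨w, hw⟩
    exact ⟨-w, deuInst_gaussRed_neg N A hw⟩

omit [NeZero N] in
theorem mem_deuInstO {x : FF N} : x ∈ deuInstO N A ↔ GaussInt N A x := Iff.rfl

/-- the reduction of a Gauss-integral element, as a Laurent series -/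
def deuInstRedFun (x : deuInstO N A) : LaurentSeries (kA A) := Classical.choose x.2

omit [NeZero N] in
theorem deuInstRedFun_spec (x : deuInstO N A) : GaussRed N A (x : FF N) (deuInstRedFun N A x) :=
  Classical.choose_spec x.2

omit [NeZero N] in
theorem deuInstRedFun_eq {x : deuInstO N A} {w : LaurentSeries (kA A)}
    (h : GaussRed N A (x : FF N) w) : deuInstRedFun N A x = w :=
  deuInst_gaussRed_unique N A (deuInstRedFun_spec N A x) h

/-- the reduction map `O → F_{N,k}` -/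
def deuInstRed (hRedF : StmtRedF N A) :
    deuInstO N A →+* ↥(modularFunctionFieldFullC (kA A) N) where
  toFun x := ⟨deuInstRedFun N A x, deuInst_gaussRed_mem N A hRedF (deuInstRedFun_spec N A x)⟩
  map_one' := Subtype.ext (deuInstRedFun_eq N A (deuInst_gaussRed_one N A))
  map_mul' x y := Subtype.ext (deuInstRedFun_eq N A
    (deuInst_gaussRed_mul N A (deuInstRedFun_spec N A x) (deuInstRedFun_spec N A y)))
  map_zero' := Subtype.ext (deuInstRedFun_eq N A (deuInst_gaussRed_zero N A))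
  map_add' x y := Subtype.ext (deuInstRedFun_eq N A
    (deuInst_gaussRed_add N A (deuInstRedFun_spec N A x) (deuInstRedFun_spec N A y)))

omit [NeZero N] in
theorem deuInstRed_coe (hRedF : StmtRedF N A) (x : deuInstO N A) :
    ((deuInstRed N A hRedF x : ↥(modularFunctionFieldFullC (kA A) N)) : LaurentSeries (kA A))
      = deuInstRedFun N A x := rfl

omit [NeZero N] in
/-- `GaussRed` is the graph of `red` -/
theorem deuInstRed_iff (hRedF : StmtRedF N A) (x : FF N) (w : LaurentSeries (kA A)) :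
    GaussRed N A x w ↔ ∃ h : x ∈ deuInstO N A,
      ((deuInstRed N A hRedF ⟨x, h⟩ : ↥(modularFunctionFieldFullC (kA A) N)) :
        LaurentSeries (kA A)) = w := by
  constructor
  · intro hw
    exact ⟨⟨w, hw⟩, deuInstRedFun_eq N A (x := ⟨x, ⟨w, hw⟩⟩) hw⟩
  · rintro ⟨h, rfl⟩
    exact deuInstRedFun_spec N A ⟨x, h⟩

/-! ## Scaling (PRIM) -/

/-- PRIM at `(N, A)`, without reference to a residue characteristic: every `u ≠ 0` of `F_N` is
`c · y₁ / y₂` with `y₁, y₂ ∈ F_N` primitive `A`-integral. -/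
theorem deuInst_prim (u : FF N) (hu : u ≠ 0) :
    ∃ (c : Kb) (y₁ y₂ : LaurentSeries Kb), c ≠ 0 ∧
      y₁ ∈ modularFunctionFieldBar N ∧ y₂ ∈ modularFunctionFieldBar N ∧
        KronPrim A y₁ ∧ KronPrim A y₂ ∧
          (u : LaurentSeries Kb) * y₂ = HahnSeries.C c * y₁ := by
  have hu' : (u : LaurentSeries Kb) ∈
      IntermediateField.adjoin Kb (Set.range (Fermat.Agent.S24.jBfam N)) := by
    rw [← Fermat.Agent.S24.br_modularFunctionFieldBar_eq_adjoin]; exact u.2
  obtain ⟨P, Q, hPQ⟩ := (IntermediateField.mem_adjoin_range_iff Kb _ _).1 hu'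
  have hu0 : (u : LaurentSeries Kb) ≠ 0 := fun h => hu (Subtype.ext h)
  have hQ0 : MvPolynomial.aeval (Fermat.Agent.S24.jBfam N) Q ≠ 0 := by
    intro h; rw [h, div_zero] at hPQ; exact hu0 hPQ
  have hP0 : MvPolynomial.aeval (Fermat.Agent.S24.jBfam N) P ≠ 0 := by
    intro h; rw [h, zero_div] at hPQ; exact hu0 hPQ
  obtain ⟨s₁, y₁, hs₁, hy₁m, hy₁, hP⟩ := Fermat.Agent.ES.G2.prim_exists_primitive N A P hP0
  obtain ⟨s₂, y₂, hs₂, hy₂m, hy₂, hQ⟩ := Fermat.Agent.ES.G2.prim_exists_primitive N A Q hQ0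
  refine ⟨s₁ * s₂⁻¹, y₁, y₂, mul_ne_zero hs₁ (inv_ne_zero hs₂), hy₁m, hy₂m, hy₁, hy₂, ?_⟩
  have h1 : (u : LaurentSeries Kb) * MvPolynomial.aeval (Fermat.Agent.S24.jBfam N) Q =
      MvPolynomial.aeval (Fermat.Agent.S24.jBfam N) P := by
    rw [hPQ, div_mul_cancel₀ _ hQ0]
  rw [hP, hQ] at h1
  have hC : (HahnSeries.C s₂ : LaurentSeries Kb) ≠ 0 := by
    intro h
    apply hs₂
    have := congrArg (fun f : LaurentSeries Kb => f.coeff 0) h
    simpa using this
  have h2 : HahnSeries.C s₂ * ((u : LaurentSeries Kb) * y₂) =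
      HahnSeries.C s₂ * (HahnSeries.C (s₁ * s₂⁻¹) * y₁) := by
    calc HahnSeries.C s₂ * ((u : LaurentSeries Kb) * y₂)
        = (u : LaurentSeries Kb) * (HahnSeries.C s₂ * y₂) := by ring
      _ = HahnSeries.C s₁ * y₁ := h1
      _ = HahnSeries.C s₂ * (HahnSeries.C (s₁ * s₂⁻¹) * y₁) := by
        rw [← mul_assoc, ← map_mul]
        congr 2
        field_simp
  exact mul_left_cancel₀ hC h2

/-- scaling: every `f ≠ 0` has a constant multiple of Gauss norm `1` -/
theorem deuInst_exists_scale (f : FF N) (hf : f ≠ 0) :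
    ∃ c : Kb, c ≠ 0 ∧ ∃ w : LaurentSeries (kA A), w ≠ 0 ∧
      GaussRed N A (algebraMap Kb (FF N) c * f) w := by
  obtain ⟨c, y₁, y₂, hc, hy₁m, hy₂m, hy₁, hy₂, huy⟩ := deuInst_prim N A f hf
  obtain ⟨Y₁, rfl⟩ := hy₁.1.exists_lift
  obtain ⟨Y₂, rfl⟩ := hy₂.1.exists_lift
  have hR₁ : kronRed A Y₁ ≠ 0 := (kronPrim_kronIncl_iff Y₁).mp hy₁
  have hR₂ : kronRed A Y₂ ≠ 0 := (kronPrim_kronIncl_iff Y₂).mp hy₂
  refine ⟨c⁻¹, inv_ne_zero hc, kronRed A Y₁ * (kronRed A Y₂)⁻¹,
    mul_ne_zero hR₁ (inv_ne_zero hR₂), Y₁, Y₂, hy₁m, hy₂m, hR₂, ?_, ?_⟩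
  · have h1 : ((algebraMap Kb (FF N) c⁻¹ * f : FF N) : LaurentSeries Kb)
        = HahnSeries.C c⁻¹ * (f : LaurentSeries Kb) := by
      have : ((algebraMap Kb (FF N) c⁻¹ * f : FF N) : LaurentSeries Kb)
          = algebraMap Kb (LaurentSeries Kb) c⁻¹ * (f : LaurentSeries Kb) := rfl
      rw [this, algebraMap_eq_hahnC]
    rw [h1, mul_assoc, huy, ← mul_assoc, ← map_mul, inv_mul_cancel₀ hc, map_one, one_mul]
  · rw [mul_assoc, inv_mul_cancel₀ hR₂, mul_one]

/-! ## The constant reduction -/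

/-- **DEU-inst.** The constant reduction of `F_N` at `A`. -/
def deuInst_redData (hRedF : StmtRedF N A) :
    RedData Kb (FF N) (kA A) ↥(modularFunctionFieldFullC (kA A) N) where
  A := A
  res := IsLocalRing.residue A
  res_surjective := IsLocalRing.residue_surjective
  O := deuInstO N A
  red := deuInstRed N A hRedF
  algebraMap_mem a := ⟨_, deuInst_gaussRed_const N A a⟩
  red_algebraMap a := by
    apply Subtype.ext
    rw [deuInstRed_coe]
    have h1 : ((algebraMap (kA A) ↥(modularFunctionFieldFullC (kA A) N)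
        (IsLocalRing.residue A a) : ↥(modularFunctionFieldFullC (kA A) N)) :
          LaurentSeries (kA A)) = algebraMap (kA A) (LaurentSeries (kA A))
            (IsLocalRing.residue A a) := rfl
    rw [h1, algebraMap_eq_hahnC]
    exact deuInstRedFun_eq N A (deuInst_gaussRed_const N A a)
  inv_mem f hf := by
    have hw0 : deuInstRedFun N A f ≠ 0 := by
      intro h0
      apply hf
      apply Subtype.ext
      rw [deuInstRed_coe, h0]
      rfl
    exact ⟨_, deuInst_gaussRed_inv N A (deuInstRedFun_spec N A f) hw0⟩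
  exists_scale f hf := by
    obtain ⟨c, hc, w, hw0, hw⟩ := deuInst_exists_scale N A f hf
    refine ⟨c, hc, ⟨w, hw⟩, ?_⟩
    intro h0
    apply hw0
    have h1 := congrArg (fun z : ↥(modularFunctionFieldFullC (kA A) N) =>
      (z : LaurentSeries (kA A))) h0
    simp only [deuInstRed_coe] at h1
    rw [deuInstRedFun_eq N A (x := ⟨_, ⟨w, hw⟩⟩) hw] at h1
    exact h1

@[simp] theorem deuInst_redData_A (hRedF : StmtRedF N A) : (deuInst_redData N A hRedF).A = A := rfl

@[simp] theorem deuInst_redData_O (hRedF : StmtRedF N A) :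
    (deuInst_redData N A hRedF).O = deuInstO N A := rfl

@[simp] theorem deuInst_redData_red (hRedF : StmtRedF N A) :
    (deuInst_redData N A hRedF).red = deuInstRed N A hRedF := rfl

/-- `GaussRed N A x w ↔ red x = w` -/
theorem deuInst_red_iff (hRedF : StmtRedF N A) (x : FF N) (w : LaurentSeries (kA A)) :
    GaussRed N A x w ↔ ∃ h : x ∈ (deuInst_redData N A hRedF).O,
      (((deuInst_redData N A hRedF).red ⟨x, h⟩ : ↥(modularFunctionFieldFullC (kA A) N)) :
        LaurentSeries (kA A)) = w :=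
  deuInstRed_iff N A hRedF x w

/-! ## (A4) = Q2: reduction does not drop dimensions -/

/-- **Q2 in `RedData` form.** -/
theorem deuInst_q2 (hRedF : StmtRedF N A) (V : Submodule Kb (FF N)) [Module.Finite Kb V] :
    Module.finrank Kb V ≤
      Module.finrank (kA A) ↥((deuInst_redData N A hRedF).redSpace V) := by
  classical
  let B := Module.finBasis Kb V
  let a : Fin (Module.finrank Kb V) → FF N := fun i => ((B i : V) : FF N)
  have ha : LinearIndependent Kb a :=
    B.linearIndependent.map' V.subtype (Submodule.ker_subtype _)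
  obtain ⟨b, w, hbV, hbw, hw⟩ := stmtQ2 N A (Module.finrank Kb V) a ha
  have hbV' : ∀ i, b i ∈ V := fun i =>
    (Submodule.span_le.mpr (by rintro _ ⟨j, rfl⟩; exact (B j).2)) (hbV i)
  have hmem : ∀ i, ∃ h : b i ∈ deuInstO N A,
      ((deuInstRed N A hRedF ⟨b i, h⟩ : ↥(modularFunctionFieldFullC (kA A) N)) :
        LaurentSeries (kA A)) = w i := fun i => (deuInstRed_iff N A hRedF _ _).mp (hbw i)
  choose hO hred using hmem
  let v : Fin (Module.finrank Kb V) → ↥((deuInst_redData N A hRedF).redSpace V) := fun i =>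
    ⟨deuInstRed N A hRedF ⟨b i, hO i⟩, ⟨⟨b i, hO i⟩, hbV' i, rfl⟩⟩
  have hv : LinearIndependent (kA A) v := by
    rw [Fintype.linearIndependent_iff]
    intro c hc
    apply Fintype.linearIndependent_iff.mp hw c
    have h1 := congrArg (fun z : ↥((deuInst_redData N A hRedF).redSpace V) =>
      (((z : ↥(modularFunctionFieldFullC (kA A) N)) : LaurentSeries (kA A)))) hc
    simp only [Submodule.coe_sum, Submodule.coe_smul, IntermediateField.coe_sum,
      Submodule.coe_zero, IntermediateField.coe_zero] at h1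
    rw [← h1]
    refine Finset.sum_congr rfl fun i _ => ?_
    rw [← HahnSeries.C_mul_eq_smul]
    have h2 : ((c i • (v i : ↥(modularFunctionFieldFullC (kA A) N)) :
        ↥(modularFunctionFieldFullC (kA A) N)) : LaurentSeries (kA A))
        = algebraMap (kA A) (LaurentSeries (kA A)) (c i) *
          ((v i : ↥(modularFunctionFieldFullC (kA A) N)) : LaurentSeries (kA A)) := by
      rw [Algebra.smul_def]
      rfl
    rw [h2, algebraMap_eq_hahnC]
    congr 1
    exact (hred i).symm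
  have h := hv.fintype_card_le_finrank
  simpa using h

/-- reduction preserves the dimension of finite-dimensional subspaces -/
theorem deuInst_finrank_redSpace (hRedF : StmtRedF N A) (V : Submodule Kb (FF N))
    [Module.Finite Kb V] :
    Module.finrank (kA A) ↥((deuInst_redData N A hRedF).redSpace V) = Module.finrank Kb V :=
  le_antisymm ((deuInst_redData N A hRedF).finrank_redSpace_le V) (deuInst_q2 N A hRedF V)

/-- the instance at a prime `ℓ ∤ N` (`StmtRedF` is `stmtRedF`, S28) -/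
def deuInst_redDataAt (ℓ : ℕ) (hℓ : ℓ.Prime) (hℓN : ¬ ℓ ∣ N) (hA : A.LiesOverPrime ℓ) :
    RedData Kb (FF N) (kA A) ↥(modularFunctionFieldFullC (kA A) N) :=
  deuInst_redData N A (stmtRedF N A ℓ hℓ hℓN hA)

end Fermat.Agent.DEU

end
end ZBDEU_003_0
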