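/- GENERATED FILE (helper35, build-time optimisation, NOTES/ZB.md): verbatim concatenation of the modules
   Fermat.Agent.DEU.Anchor
   Do not edit; do not import together with these modules. -/
import Fermat.Agent.ZB.DEU_001
import Fermat.Agent.ZB.DEU_002
import Fermat.Agent.ZB.DEU_003
import Fermat.Agent.ZB.ES_020
import Fermat.Agent.ZB.ES_003
import Fermat.Agent.ZB.ES_001
import Fermat.Agent.ZB.S28_002
import Fermat.Agent.ZB.S24_012
import Fermat.Agent.ZB.RED_001

/-! ### bundled: `Fermat.Agent.DEU.Anchor` -/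
section ZBDEU_004_0

/-!
# DEU-anchor — the concrete `anchor` and `bound` of `DEU.Hyp` for `F_N`

`F = FF N ⊂ ℚ̄((q))`, `A ⊂ ℚ̄` a valuation ring, `k = kA A`, `F̄ = modularFunctionFieldFullC k N`,
`R = deuInst_redData N A hRedF`.

* `deuAnchor_exists_cusp` : the cusp `∞̄` of `F̄` (any field `k`): a place of degree one whose
  order function is the `q`-order.
* `deuAnchor_anchor` : `R.redSpace (L(m·∞)) ≤ L̄(m·∞̄)` — from `StmtI2` (only the finiteness of one
  `W_n`), `StmtLRa`, Riemann and Q2.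
* `deuAnchor_bound` : `dim L̄(n·∞̄) + g ≤ n + 1` for `n ≥ n₀` — from `StmtI2` and
  `HasPrincipalDivisors k F̄`.
-/

set_option autoImplicit false
set_option synthInstance.maxHeartbeats 400000
set_option maxHeartbeats 1000000

noncomputable section

namespace Fermat.Agent.DEU

open ModularCurve AlgebraicCurve HahnSeries WithZero Fermat.Agent.ES Fermat.Agent.S24
  Fermat.Agent.ES.M Fermat.Agent.S18

/-! ## the cusp of `F̄` -/

section Cusp

variable (k : Type*) [Field k] (N : ℕ) [NeZero N]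

theorem deuAnchor_order_jqModC : (jqModC k).order = -1 := by
  apply le_antisymm
  · exact HahnSeries.order_le_of_coeff_ne_zero (by rw [coeff_jqModC_neg_one]; exact one_ne_zero)
  · by_contra hlt
    push Not at hlt
    exact jqModC_ne_zero_of_nontrivial k (HahnSeries.coeff_order_eq_zero.1 (coeff_jqModC_of_lt k hlt))

/-- `j̄` as an element of `F̄` -/
def deuAnchorJ : ↥(modularFunctionFieldFullC k N) := ⟨jqModC k, jqModC_mem_full k N⟩

theorem deuAnchorJ_ne_zero : deuAnchorJ k N ≠ 0 := fun h =>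
  jqModC_ne_zero_of_nontrivial k (congrArg Subtype.val h)

theorem deuAnchor_exists_pole :
    ∃ x : ↥(modularFunctionFieldFullC k N), x ≠ 0 ∧ qVal (modularFunctionFieldFullC k N) x < 1 := by
  have hjv : ¬ qVal (modularFunctionFieldFullC k N) (deuAnchorJ k N) ≤ 1 := by
    rw [qVal_le_one_iff]
    intro h
    have h1 := h (-1) (by norm_num)
    have h2 : ((deuAnchorJ k N : ↥(modularFunctionFieldFullC k N)) : LaurentSeries k) = jqModC k :=
      rfl
    rw [h2, coeff_jqModC_neg_one] at h1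
    exact one_ne_zero h1
  refine ⟨(deuAnchorJ k N)⁻¹, inv_ne_zero (deuAnchorJ_ne_zero k N), ?_⟩
  rw [map_inv₀]
  exact inv_lt_one_of_one_lt₀ (not_le.mp hjv)

/-- **The cusp `∞̄` of `F̄ = k(j(q^d) : d ∣ N)`**, for any field `k`. -/
theorem deuAnchor_exists_cusp :
    ∃ Q : Place k ↥(modularFunctionFieldFullC k N),
      (∀ x : ↥(modularFunctionFieldFullC k N), x ≠ 0 → Q.ord x = (x : LaurentSeries k).order) ∧
        Q.deg = 1 := by
  obtain ⟨w, e₀, he₀, hw, hord⟩ :=
    exists_place_of_valuation (K := k) (qVal (modularFunctionFieldFullC k N))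
      (qVal_algebraMap_le _) (deuAnchor_exists_pole k N)
  have hvord : ∀ f : ↥(modularFunctionFieldFullC k N), f ≠ 0 →
      vord (qVal (modularFunctionFieldFullC k N)) f = (f : LaurentSeries k).order := by
    intro f hf
    have hf' : (f : LaurentSeries k) ≠ 0 := fun h => hf (Subtype.ext h)
    rw [vord, qVal_apply, laurent_valued_eq_exp_neg_order hf', log_exp, neg_neg]
  have he : e₀ = 1 := by
    have h1 := hord (deuAnchorJ k N) (deuAnchorJ_ne_zero k N)
    have h2 : ((deuAnchorJ k N : ↥(modularFunctionFieldFullC k N)) : LaurentSeries k) = jqModC k :=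
      rfl
    rw [hvord _ (deuAnchorJ_ne_zero k N), h2, deuAnchor_order_jqModC] at h1
    have hd : e₀ ∣ 1 := ⟨-w.ord (deuAnchorJ k N), by linarith⟩
    exact Int.eq_one_of_dvd_one he₀.le hd
  have hP : ∀ x : ↥(modularFunctionFieldFullC k N), x ≠ 0 →
      w.ord x = (x : LaurentSeries k).order := by
    intro f hf
    have h1 := hord f hf
    rw [hvord f hf, he, one_mul] at h1
    exact h1.symm
  obtain ⟨w', hdeg, hnn, _⟩ := exists_cuspPlace (deuAnchor_exists_pole k N)
  have hww' : w' = w := by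
    apply Place.ext
    rw [hw]
    ext f
    rcases eq_or_ne f 0 with rfl | hf
    · simp
    · rw [← PlaceAux.ord_nonneg_iff w' hf, hnn f hf, Valuation.mem_valuationSubring_iff,
        qVal_le_one_iff]
  rw [hww'] at hdeg
  exact ⟨w, hP, hdeg⟩

end Cusp

/-! ## the ring `W` of `ES/M/Plan.lean` -/

section Main

variable (N : ℕ) [NeZero N] (A : ValuationSubring Kb)

/-- `R₀ = k[redR]` -/
abbrev deuAnchorR0 : Subalgebra (kA A) (LaurentSeries (kA A)) :=
  Algebra.adjoin (kA A) (redR N A)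

omit [NeZero N] in
theorem deuAnchor_inW_iff (w : LaurentSeries (kA A)) :
    InW N A w ↔ w ∈ modularFunctionFieldFullC (kA A) N ∧ IsIntegral (deuAnchorR0 N A) w :=
  Iff.rfl

variable {N A}

omit [NeZero N] in
theorem deuAnchor_inW_pow {w : LaurentSeries (kA A)} (hw : InW N A w) (i : ℕ) :
    InW N A (w ^ i) := ⟨pow_mem hw.1 i, hw.2.pow i⟩

omit [NeZero N] in
theorem deuAnchor_inW_C (c : kA A) : InW N A (HahnSeries.C c) := by
  refine ⟨hahnC_mem_intermediateField c _, ?_⟩
  have hc : (HahnSeries.C c : LaurentSeries (kA A)) ∈ Algebra.adjoin (kA A) (redR N A) := by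
    have := (Algebra.adjoin (kA A) (redR N A)).algebraMap_mem c
    rwa [algebraMap_eq_hahnC] at this
  exact isIntegral_algebraMap (R := Algebra.adjoin (kA A) (redR N A)) (x := ⟨HahnSeries.C c, hc⟩)

omit [NeZero N] in
theorem deuAnchor_inW_sub {w v : LaurentSeries (kA A)} (hw : InW N A w) (hv : InW N A v) :
    InW N A (w - v) := ⟨sub_mem hw.1 hv.1, hw.2.sub hv.2⟩

omit [NeZero N] in
/-- nonzero elements of `W` have `q`-order `≤ 0` (from the finiteness of one `W_n`) -/
theorem deuAnchor_order_le_zero (hI2 : StmtI2 N A) {w : LaurentSeries (kA A)} (hw : InW N A w)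
    (hw0 : w ≠ 0) : w.order ≤ 0 := by
  obtain ⟨n₀, h⟩ := hI2
  haveI : Module.Finite (kA A) ↥(Wn N A n₀) := (h n₀ le_rfl).1
  refine oc_order_le_zero {w | InW N A w} (fun w hw i => deuAnchor_inW_pow hw i) (Wn N A n₀)
    (fun w hw hord => ?_) hw hw0
  rw [mem_Wn]
  refine ⟨hw, fun m hm => ?_⟩
  exact HahnSeries.coeff_eq_zero_of_lt_order (by omega)

omit [NeZero N] in
/-- **(h0)** the elements of `W` of `q`-order `≥ 0` are constants -/
theorem deuAnchor_h0 (hI2 : StmtI2 N A) (x : LaurentSeries (kA A))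
    (hxE : x ∈ modularFunctionFieldFullC (kA A) N) (hx : IsIntegral (deuAnchorR0 N A) x)
    (hord : 0 ≤ x.order) : x ∈ Set.range (algebraMap (kA A) (LaurentSeries (kA A))) := by
  have hxW : InW N A x := ⟨hxE, hx⟩
  set y : LaurentSeries (kA A) := x - HahnSeries.C (x.coeff 0) with hy
  have hyW : InW N A y := deuAnchor_inW_sub hxW (deuAnchor_inW_C _)
  by_cases hy0 : y = 0
  · refine ⟨x.coeff 0, ?_⟩
    rw [algebraMap_eq_hahnC]
    exact (sub_eq_zero.mp hy0).symm
  · exfalso
    have h1 := deuAnchor_order_le_zero hI2 hyW hy0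
    have h2 : 0 < y.order := by
      apply deuOrd_lt_order hy0
      intro j hj
      rw [hy, HahnSeries.coeff_sub]
      rcases lt_or_eq_of_le hj with hlt | heq
      · rw [HahnSeries.coeff_eq_zero_of_lt_order (lt_of_lt_of_le hlt hord), HahnSeries.C_apply,
          HahnSeries.coeff_single_of_ne hlt.ne, sub_zero]
      · rw [heq, HahnSeries.C_apply, HahnSeries.coeff_single_same, sub_self]
    omega

/-! ## reductions of `L(n·∞)` -/

/-- the reduction of `b ∈ L(n·∞)` is the reduction of an `A`-integral function regular outside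
`∞`, with pole order `≤ n` -/
theorem deuAnchor_mem_redR (hLRa : StmtLRa N A) (Pinf : Place Kb (FF N))
    (hinf : IsCuspInfty N Pinf) (n : ℕ) (b : FF N)
    (hb : b ∈ riemannRochSpace (mulPlace Pinf (n : ℤ))) (w : LaurentSeries (kA A))
    (hw : GaussRed N A b w) :
    w ∈ redR N A ∧ ∀ m : ℤ, m < -(n : ℤ) → w.coeff m = 0 := by
  classical
  rw [mem_riemannRochSpace_iff] at hb
  have hreg : RegOut N b := by
    intro P hP
    have hne : P ≠ Pinf := fun h => hP (h ▸ hinf)
    rcases hb P with h | h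
    · rw [h, Place.ord_zero]
    · rw [mulPlace, Finsupp.single_apply, if_neg (Ne.symm hne)] at h
      simpa using h
  have hint : KronInt A ((b : FF N) : LaurentSeries Kb) := hLRa _ hreg.polesAtCusps ⟨_, hw⟩
  obtain ⟨Y, hY⟩ := hint.exists_lift
  have hYmem : kronIncl A Y ∈ modularFunctionFieldBar N := by
    rw [hY]; exact b.2
  have hxY : (⟨kronIncl A Y, hYmem⟩ : FF N) = b := Subtype.ext hY
  have hred : kronRed A Y = w := by
    refine gr_unique N A b _ _ ?_ hw
    have := gr_of_incl N A Y hYmem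
    rwa [hxY] at this
  refine ⟨⟨Y, hYmem, by rw [hxY]; exact hreg, hred⟩, fun m hm => ?_⟩
  rw [← hred]
  have hbm : ((b : FF N) : LaurentSeries Kb).coeff m = 0 := by
    rcases eq_or_ne b 0 with rfl | hb0
    · rfl
    · have hb0' : ((b : FF N) : LaurentSeries Kb) ≠ 0 := fun h => hb0 (Subtype.ext h)
      rcases hb Pinf with h | h
      · exact absurd h hb0
      · rw [mulPlace, Finsupp.single_apply, if_pos rfl, hinf b hb0] at h
        exact HahnSeries.coeff_eq_zero_of_lt_order (by omega)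
  have h1 : Y.coeff m = 0 := by
    apply Subtype.ext
    rw [← hY] at hbm
    exact hbm
  show IsLocalRing.residue A (Y.coeff m) = 0
  rw [h1, map_zero]

/-- a nonconstant element of `redR` (Riemann + Q2) -/
theorem deuAnchor_exists_w0 (hLRa : StmtLRa N A) (hR : StmtR N) (Pinf : Place Kb (FF N))
    (hinf : IsCuspInfty N Pinf) (hdeg : Pinf.deg = 1) :
    ∃ w₀ ∈ redR N A, w₀ ∉ Set.range (algebraMap (kA A) (LaurentSeries (kA A))) := by
  classical
  set D : Divisor Kb (FF N) := mulPlace Pinf ((gN N + 1 : ℕ) : ℤ) with hD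
  have hDdeg : Divisor.degree D = (gN N : ℤ) + 1 := by
    rw [hD, mulPlace, Divisor.degree_single, hdeg]
    push_cast
    ring
  obtain ⟨a, ha, haD⟩ := lw_exists_indep N hR D 2 (by rw [hDdeg]; push_cast; omega)
  obtain ⟨b, w, hbspan, hbw, hw⟩ := stmtQ2 N A 2 a ha
  have hbD : ∀ i, b i ∈ riemannRochSpace D := fun i =>
    (Submodule.span_le.mpr (by rintro _ ⟨j, rfl⟩; exact haD j)) (hbspan i)
  have hmem : ∀ i, w i ∈ redR N A := fun i =>
    (deuAnchor_mem_redR hLRa Pinf hinf (gN N + 1) (b i) (hbD i) (w i) (hbw i)).1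
  by_contra hno
  push Not at hno
  obtain ⟨c₀, hc₀⟩ := hno (w 0) (hmem 0)
  obtain ⟨c₁, hc₁⟩ := hno (w 1) (hmem 1)
  have hrel : c₁ • w 0 + (-c₀) • w 1 = 0 := by
    rw [← hc₀, ← hc₁, algebraMap_eq_hahnC, algebraMap_eq_hahnC, ← HahnSeries.C_mul_eq_smul,
      ← HahnSeries.C_mul_eq_smul, ← map_mul, ← map_mul, ← map_add]
    have : c₁ * c₀ + -c₀ * c₁ = 0 := by ring
    rw [this, map_zero]
  have hli := Fintype.linearIndependent_iff.mp hw ![c₁, -c₀] (by
    rw [Fin.sum_univ_two]
    simpa using hrel)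
  have h0 := hli 0
  have h1 := hli 1
  simp only [Matrix.cons_val_zero] at h0
  simp only [Matrix.cons_val_one, Matrix.cons_val_zero, neg_eq_zero] at h1
  have hw0 : w 0 = 0 := by rw [← hc₀, h1, map_zero]
  exact hw.ne_zero 0 hw0

omit [NeZero N] in
/-- an element of `F̄` which is algebraic over `k` is a constant -/
theorem deuAnchor_const_of_isAlgebraic {x : ↥(modularFunctionFieldFullC (kA A) N)}
    (hx : IsAlgebraic (kA A) x) :
    (x : LaurentSeries (kA A)) ∈ Set.range (algebraMap (kA A) (LaurentSeries (kA A))) := by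
  haveI : IsAlgClosed (kA A) := Fermat.Agent.RED.isAlgClosed_residueField A
  obtain ⟨c, hc⟩ := mem_range_algebraMap_of_isAlgebraic hx
  exact ⟨c, congrArg Subtype.val hc⟩

/-- `F̄` is algebraic over `k(w₀)` for every nonconstant `w₀ ∈ F̄` -/
theorem deuAnchor_halg (w₀ : LaurentSeries (kA A))
    (hw₀E : w₀ ∈ modularFunctionFieldFullC (kA A) N)
    (hw₀c : w₀ ∉ Set.range (algebraMap (kA A) (LaurentSeries (kA A)))) :
    Algebra.IsAlgebraic
      (IntermediateField.adjoin (kA A) {(⟨w₀, hw₀E⟩ : ↥(modularFunctionFieldFullC (kA A) N))})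
      ↥(modularFunctionFieldFullC (kA A) N) := by
  haveI := Fermat.Agent.INJ.bgFin_finiteDimensional_full (kA A) N
  haveI : Algebra.IsAlgebraic
      (IntermediateField.adjoin (kA A) {(⟨jqModC (kA A), jqModC_mem_full (kA A) N⟩ :
        ↥(modularFunctionFieldFullC (kA A) N))})
      ↥(modularFunctionFieldFullC (kA A) N) := Algebra.IsAlgebraic.of_finite _ _
  have hj : Transcendental (kA A) (⟨jqModC (kA A), jqModC_mem_full (kA A) N⟩ :
      ↥(modularFunctionFieldFullC (kA A) N)) := by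
    intro halg
    obtain ⟨c, hc⟩ := deuAnchor_const_of_isAlgebraic halg
    have h1 := coeff_jqModC_neg_one (kA A)
    have h2 : jqModC (kA A) = algebraMap (kA A) (LaurentSeries (kA A)) c := hc.symm
    rw [h2, algebraMap_eq_hahnC, HahnSeries.C_apply,
      HahnSeries.coeff_single_of_ne (by decide)] at h1
    exact zero_ne_one h1
  have hw : Transcendental (kA A) (⟨w₀, hw₀E⟩ : ↥(modularFunctionFieldFullC (kA A) N)) :=
    fun halg => hw₀c (deuAnchor_const_of_isAlgebraic halg)
  exact pd_isAlgebraic_adjoin_of_transcendental _ hj _ hw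

omit [NeZero N] in
theorem deuAnchor_redR_le (hRedF : StmtRedF N A) {w : LaurentSeries (kA A)}
    (hw : w ∈ redR N A) : w ∈ modularFunctionFieldFullC (kA A) N := by
  obtain ⟨Y, hY, -, rfl⟩ := hw
  exact hRedF Y hY

/-! ## the anchor -/

/-- **DEU-anchor.**  `R.redSpace (L(m·∞)) ≤ L̄(m·∞̄)`. -/
theorem deuAnchor_anchor (hRedF : StmtRedF N A) (hLRa : StmtLRa N A) (hI2 : StmtI2 N A)
    (hR : StmtR N) (Pinf : Place Kb (FF N)) (hinf : IsCuspInfty N Pinf) (hdeg : Pinf.deg = 1)
    (Qinf : Place (kA A) ↥(modularFunctionFieldFullC (kA A) N))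
    (hQ : ∀ x : ↥(modularFunctionFieldFullC (kA A) N), x ≠ 0 →
      Qinf.ord x = (x : LaurentSeries (kA A)).order)
    (m : ℕ) :
    (deuInst_redData N A hRedF).redSpace (riemannRochSpace (mulPlace Pinf (m : ℤ))) ≤
      riemannRochSpace (mulPlace Qinf (m : ℤ)) := by
  classical
  rintro _ ⟨f, hfV, rfl⟩
  have hw : GaussRed N A (f : FF N)
      ((((deuInst_redData N A hRedF).red f : ↥(modularFunctionFieldFullC (kA A) N))) :
        LaurentSeries (kA A)) :=
    (deuInst_red_iff N A hRedF (f : FF N) _).mpr ⟨f.2, rfl⟩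
  obtain ⟨hmem, hcoef⟩ := deuAnchor_mem_redR hLRa Pinf hinf m (f : FF N) hfV _ hw
  obtain ⟨w₀, hw₀, hw₀c⟩ := deuAnchor_exists_w0 (A := A) hLRa hR Pinf hinf hdeg
  have hw₀R : w₀ ∈ deuAnchorR0 N A := Algebra.subset_adjoin hw₀
  have hw₀E : w₀ ∈ modularFunctionFieldFullC (kA A) N := deuAnchor_redR_le hRedF hw₀
  rw [mem_riemannRochSpace_iff]
  intro v
  by_cases h0 : (deuInst_redData N A hRedF).red f = 0
  · exact Or.inl h0
  right
  by_cases hv : v = Qinf
  · rw [hv, mulPlace, Finsupp.single_apply, if_pos rfl, hQ _ h0]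
    by_contra hlt
    push Not at hlt
    have h0' : ((((deuInst_redData N A hRedF).red f : ↥(modularFunctionFieldFullC (kA A) N))) :
        LaurentSeries (kA A)) ≠ 0 := fun h => h0 (Subtype.ext h)
    exact h0' (HahnSeries.coeff_order_eq_zero.1 (hcoef _ hlt))
  · rw [mulPlace, Finsupp.single_apply, if_neg (Ne.symm hv), neg_zero]
    have hint : IsIntegral (deuAnchorR0 N A)
        ((((deuInst_redData N A hRedF).red f : ↥(modularFunctionFieldFullC (kA A) N))) :
          LaurentSeries (kA A)) :=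
      isIntegral_algebraMap (R := deuAnchorR0 N A) (x := ⟨_, Algebra.subset_adjoin hmem⟩)
    exact deuAnchor_regular Qinf hQ (deuAnchorR0 N A) (deuAnchor_h0 hI2) w₀ hw₀R hw₀E
      (deuAnchor_halg w₀ hw₀E hw₀c) _ ((deuInst_redData N A hRedF).red f).2 hint v hv

/-! ## the bound -/

omit [NeZero N] in
/-- a function of `F̄` regular at all places is constant -/
theorem deuAnchor_hconst (Qinf : Place (kA A) ↥(modularFunctionFieldFullC (kA A) N))
    (hQ : ∀ x : ↥(modularFunctionFieldFullC (kA A) N), x ≠ 0 →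
      Qinf.ord x = (x : LaurentSeries (kA A)).order)
    (hQdeg : Qinf.deg = 1)
    [HasPrincipalDivisors (kA A) ↥(modularFunctionFieldFullC (kA A) N)]
    (x : ↥(modularFunctionFieldFullC (kA A) N))
    (hx : ∀ P : Place (kA A) ↥(modularFunctionFieldFullC (kA A) N), 0 ≤ P.ord x) :
    x ∈ Set.range (algebraMap (kA A) ↥(modularFunctionFieldFullC (kA A) N)) := by
  classical
  set c : kA A := (x : LaurentSeries (kA A)).coeff 0 with hc
  set y : ↥(modularFunctionFieldFullC (kA A) N) :=
    x - algebraMap (kA A) ↥(modularFunctionFieldFullC (kA A) N) c with hy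
  by_cases hy0 : y = 0
  · exact ⟨c, (sub_eq_zero.mp hy0).symm⟩
  exfalso
  have hycoe : (y : LaurentSeries (kA A)) = (x : LaurentSeries (kA A)) - HahnSeries.C c := by
    rw [hy]
    show (x : LaurentSeries (kA A)) -
      ((algebraMap (kA A) ↥(modularFunctionFieldFullC (kA A) N) c :
        ↥(modularFunctionFieldFullC (kA A) N)) : LaurentSeries (kA A)) = _
    rw [coe_algebraMap_eq_C]
  have hy0' : (y : LaurentSeries (kA A)) ≠ 0 := fun h => hy0 (Subtype.ext h)
  have hxord : x ≠ 0 → 0 ≤ (x : LaurentSeries (kA A)).order := fun hx0 => by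
    rw [← hQ x hx0]; exact hx Qinf
  have hyord : 0 < (y : LaurentSeries (kA A)).order := by
    apply deuOrd_lt_order hy0'
    intro j hj
    rw [hycoe, HahnSeries.coeff_sub]
    rcases lt_or_eq_of_le hj with hlt | heq
    · have hxj : (x : LaurentSeries (kA A)).coeff j = 0 := by
        rcases eq_or_ne x 0 with rfl | hx0
        · rfl
        · exact HahnSeries.coeff_eq_zero_of_lt_order (lt_of_lt_of_le hlt (hxord hx0))
      rw [hxj, HahnSeries.C_apply, HahnSeries.coeff_single_of_ne hlt.ne, sub_zero]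
    · rw [heq, HahnSeries.C_apply, HahnSeries.coeff_single_same, sub_self]
  have hmem : y ∈ riemannRochSpace (mulPlace Qinf (-1 : ℤ)) := by
    rw [mem_riemannRochSpace_iff]
    intro v
    right
    by_cases hv : v = Qinf
    · rw [hv, mulPlace, Finsupp.single_apply, if_pos rfl, hQ y hy0]
      omega
    · rw [mulPlace, Finsupp.single_apply, if_neg (Ne.symm hv), neg_zero, hy,
        deuAnchor_ord_nonneg_iff_mem]
      exact sub_mem ((deuAnchor_ord_nonneg_iff_mem v x).mp (hx v)) (v.algebraMap_mem' c)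
  have hdeg : Divisor.degree (mulPlace Qinf (-1 : ℤ)) < 0 := by
    rw [mulPlace, Divisor.degree_single, hQdeg]
    norm_num
  rw [Fermat.Agent.ES.R.rr_eq_bot_of_degree_neg hdeg, Submodule.mem_bot] at hmem
  exact hy0 hmem

/-- **DEU-bound.**  `dim L̄(n·∞̄) + g ≤ n + 1` for `n ≥ n₀`. -/
theorem deuAnchor_bound (hRedF : StmtRedF N A) (hLRa : StmtLRa N A) (hI2 : StmtI2 N A)
    (hR : StmtR N) (Pinf : Place Kb (FF N)) (hinf : IsCuspInfty N Pinf) (hdeg : Pinf.deg = 1)
    (Qinf : Place (kA A) ↥(modularFunctionFieldFullC (kA A) N))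
    (hQ : ∀ x : ↥(modularFunctionFieldFullC (kA A) N), x ≠ 0 →
      Qinf.ord x = (x : LaurentSeries (kA A)).order)
    (hQdeg : Qinf.deg = 1)
    [HasPrincipalDivisors (kA A) ↥(modularFunctionFieldFullC (kA A) N)] :
    ∃ n₀ : ℕ, ∀ n : ℕ, n₀ ≤ n →
      (Module.finrank (kA A) ↥(riemannRochSpace (mulPlace Qinf (n : ℤ))) : ℤ) + gN N ≤ n + 1 := by
  classical
  obtain ⟨w₀, hw₀, hw₀c⟩ := deuAnchor_exists_w0 (A := A) hLRa hR Pinf hinf hdeg
  have hw₀R : w₀ ∈ deuAnchorR0 N A := Algebra.subset_adjoin hw₀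
  have hw₀E : w₀ ∈ modularFunctionFieldFullC (kA A) N := deuAnchor_redR_le hRedF hw₀
  have hI2' := hI2
  obtain ⟨n₀, h⟩ := hI2'
  refine ⟨n₀, fun n hn => ?_⟩
  obtain ⟨hfin, hdim⟩ := h n hn
  haveI := hfin
  have hmemW : ∀ x : ↥(riemannRochSpace (mulPlace Qinf (n : ℤ))),
      (((x : ↥(modularFunctionFieldFullC (kA A) N))) : LaurentSeries (kA A)) ∈ Wn N A n := by
    intro x
    have hx := x.2
    rw [mem_riemannRochSpace_iff] at hx
    rw [mem_Wn]
    refine ⟨⟨(x : ↥(modularFunctionFieldFullC (kA A) N)).2, ?_⟩, fun m hm => ?_⟩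
    · refine deuAnchor_isIntegral_of_regular Qinf hQ (deuAnchorR0 N A) (deuAnchor_h0 hI2) w₀ hw₀R
        hw₀E hw₀c (deuAnchor_halg w₀ hw₀E hw₀c) (deuAnchor_hconst Qinf hQ hQdeg) _
        (x : ↥(modularFunctionFieldFullC (kA A) N)).2 (fun P hP => ?_)
      rcases hx P with h0 | h1
      · have : (⟨((x : ↥(modularFunctionFieldFullC (kA A) N)) : LaurentSeries (kA A)),
            (x : ↥(modularFunctionFieldFullC (kA A) N)).2⟩ :
              ↥(modularFunctionFieldFullC (kA A) N)) = 0 := h0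
        rw [this, Place.ord_zero]
      · have h2 : -(Finsupp.single Qinf (n : ℤ) P) ≤ P.ord (x : ↥(modularFunctionFieldFullC (kA A) N)) := h1
        rw [Finsupp.single_apply, if_neg (Ne.symm hP), neg_zero] at h2
        exact h2
    · rcases eq_or_ne (x : ↥(modularFunctionFieldFullC (kA A) N)) 0 with h0 | h0
      · rw [h0]; rfl
      · rcases hx Qinf with h1 | h1
        · exact absurd h1 h0
        · have h2 : -(Finsupp.single Qinf (n : ℤ) Qinf) ≤
              Qinf.ord (x : ↥(modularFunctionFieldFullC (kA A) N)) := h1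
          rw [Finsupp.single_apply, if_pos rfl, hQ _ h0] at h2
          exact HahnSeries.coeff_eq_zero_of_lt_order (lt_of_lt_of_le hm h2)
  let φ : ↥(riemannRochSpace (mulPlace Qinf (n : ℤ))) →ₗ[kA A] ↥(Wn N A n) :=
    { toFun := fun x => ⟨_, hmemW x⟩
      map_add' := fun x y => Subtype.ext rfl
      map_smul' := fun c x => Subtype.ext (by
        show (((c • x : ↥(riemannRochSpace (mulPlace Qinf (n : ℤ)))) :
          ↥(modularFunctionFieldFullC (kA A) N)) : LaurentSeries (kA A)) =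
          c • (((x : ↥(modularFunctionFieldFullC (kA A) N))) : LaurentSeries (kA A))
        rw [← HahnSeries.C_mul_eq_smul, Submodule.coe_smul, Algebra.smul_def]
        show ((algebraMap (kA A) ↥(modularFunctionFieldFullC (kA A) N) c :
          ↥(modularFunctionFieldFullC (kA A) N)) : LaurentSeries (kA A)) * _ = _
        rw [coe_algebraMap_eq_C]) }
  have hinj : Function.Injective φ := by
    intro x y hxy
    have h1 : (((x : ↥(modularFunctionFieldFullC (kA A) N))) : LaurentSeries (kA A)) =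
        (((y : ↥(modularFunctionFieldFullC (kA A) N))) : LaurentSeries (kA A)) :=
      congrArg (fun z : ↥(Wn N A n) => (z : LaurentSeries (kA A))) hxy
    exact Subtype.ext (Subtype.ext h1)
  have hle := LinearMap.finrank_le_finrank_of_injective hinj
  have : (Module.finrank (kA A) ↥(riemannRochSpace (mulPlace Qinf (n : ℤ))) : ℤ) ≤
      Module.finrank (kA A) ↥(Wn N A n) := by exact_mod_cast hle
  have hdim' : (Module.finrank (kA A) ↥(Wn N A n) : ℤ) + gN N ≤ n + 1 := by exact_mod_cast hdim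
  linarith

/-! ## packaging -/

variable (N A)

/-- **DEU-anchor, packaged.**  The two cusps, the anchor and the bound. -/
theorem deuAnchor_main (hRedF : StmtRedF N A) (hLRa : StmtLRa N A) (hI2 : StmtI2 N A)
    (hR : StmtR N)
    [HasPrincipalDivisors (kA A) ↥(modularFunctionFieldFullC (kA A) N)] :
    ∃ (Pinf : Place Kb (FF N)) (Qinf : Place (kA A) ↥(modularFunctionFieldFullC (kA A) N))
      (n₀ : ℕ),
      IsCuspInfty N Pinf ∧ Pinf.deg = 1 ∧
      (∀ x : ↥(modularFunctionFieldFullC (kA A) N), x ≠ 0 →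
        Qinf.ord x = (x : LaurentSeries (kA A)).order) ∧ Qinf.deg = 1 ∧
      (∀ m : ℕ, (deuInst_redData N A hRedF).redSpace (riemannRochSpace (mulPlace Pinf (m : ℤ))) ≤
        riemannRochSpace (mulPlace Qinf (m : ℤ))) ∧
      (∀ n : ℕ, n₀ ≤ n →
        (Module.finrank (kA A) ↥(riemannRochSpace (mulPlace Qinf (n : ℤ))) : ℤ) + gN N
          ≤ n + 1) := by
  obtain ⟨Pinf, hinf, hdeg⟩ := exists_isCuspInfty N
  obtain ⟨Qinf, hQ, hQdeg⟩ := deuAnchor_exists_cusp (kA A) N
  obtain ⟨n₀, hn₀⟩ := deuAnchor_bound hRedF hLRa hI2 hR Pinf hinf hdeg Qinf hQ hQdeg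
  exact ⟨Pinf, Qinf, n₀, hinf, hdeg, hQ, hQdeg,
    fun m => deuAnchor_anchor hRedF hLRa hI2 hR Pinf hinf hdeg Qinf hQ m, hn₀⟩

/-- **The hypotheses of Deuring's dimension count for `F_N`**, from `StmtRedF` (S28),
`StmtLRa`, `StmtI2`, Riemann, and the two facts on the places of `F̄` (MPR-res). -/
theorem deuAnchor_hyp (hRedF : StmtRedF N A) (hLRa : StmtLRa N A) (hI2 : StmtI2 N A)
    (hR : StmtR N)
    (hresk : ∀ v : Place (kA A) ↥(modularFunctionFieldFullC (kA A) N),
      Function.Bijective (algebraMap (kA A) v.ResidueField))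
    (hpdk : HasPrincipalDivisors (kA A) ↥(modularFunctionFieldFullC (kA A) N)) :
    ∃ (Pinf : Place Kb (FF N)) (Qinf : Place (kA A) ↥(modularFunctionFieldFullC (kA A) N))
      (n₀ : ℕ),
      IsCuspInfty N Pinf ∧
      (∀ x : ↥(modularFunctionFieldFullC (kA A) N), x ≠ 0 →
        Qinf.ord x = (x : LaurentSeries (kA A)).order) ∧
      Hyp (deuInst_redData N A hRedF) Pinf Qinf (gN N) n₀ := by
  haveI := hpdk
  obtain ⟨Pinf, Qinf, n₀, hinf, -, hQ, -, hanchor, hbound⟩ := deuAnchor_main N A hRedF hLRa hI2 hR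
  refine ⟨Pinf, Qinf, n₀, hinf, hQ, ?_⟩
  exact
    { hresF := Fermat.Agent.ES.H.residue_bijective_FF N
      hresk := hresk
      hpdF := Fermat.Agent.ES.H.hasPrincipalDivisors_FF N
      hpdk := hpdk
      riemann := hR
      q2 := fun V hV => by
        haveI := hV
        exact deuInst_q2 N A hRedF V
      anchor := hanchor
      bound := hbound n₀ le_rfl }

end Main

end Fermat.Agent.DEU

end
end ZBDEU_004_0
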