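/- GENERATED FILE (helper35, build-time optimisation, NOTES/ZB.md): verbatim concatenation of the modules
   Fermat.Agent.INJ.BGRoot
   Fermat.Agent.INJ.InjDescent
   Do not edit; do not import together with these modules. -/
import Mathlib
import Fermat.Agent.ZB.DEU_004
import Fermat.Agent.ZB.INJ_001
import Fermat.Agent.ZB.INJ_005
import Fermat.Agent.ZB.INJ_016
import Fermat.Agent.ZB.INJ_011
import Fermat.Agent.ZB.INJ_009

/-! ### bundled: `Fermat.Agent.INJ.BGRoot` -/
section ZBINJ_024_0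

/-!
# (INJ) B-glue piece BG-root: `p`-th roots of Laurent series

`K` a field in which `p` is invertible.  A nonzero Laurent series `f ∈ K((X))` whose order is
divisible by `p` and whose leading coefficient is a `p`-th power in `K` is a `p`-th power in
`K((X))`.

* `bgRoot_powerSeries` : a power series with constant coefficient `1` has a `p`-th root with
  constant coefficient `1` (Hensel's lemma in `K⟦X⟧`);
* `bgRoot` : the statement for Laurent series.
-/

set_option autoImplicit false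

namespace Fermat.Agent.INJ

/-- A `1`-unit of `K⟦X⟧` has a `p`-th root which is a `1`-unit, if `p` is invertible in `K`. -/
theorem bgRoot_powerSeries {K : Type*} [Field K] (p : ℕ) (hp : (p : K) ≠ 0)
    (v : PowerSeries K) (hv : PowerSeries.constantCoeff v = 1) :
    ∃ w : PowerSeries K, w ^ p = v ∧ PowerSeries.constantCoeff w = 1 := by
  have hp0 : p ≠ 0 := by
    rintro rfl
    exact hp Nat.cast_zero
  have hmonic : (Polynomial.X ^ p - Polynomial.C v : Polynomial (PowerSeries K)).Monic :=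
    Polynomial.monic_X_pow_sub_C v hp0
  have heval : (Polynomial.X ^ p - Polynomial.C v : Polynomial (PowerSeries K)).eval 1 ∈
      (Ideal.span {PowerSeries.X} : Ideal (PowerSeries K)) := by
    rw [Ideal.mem_span_singleton, PowerSeries.X_dvd_iff]
    simp [hv]
  have hder : IsUnit (Ideal.Quotient.mk (Ideal.span {PowerSeries.X} : Ideal (PowerSeries K))
      ((Polynomial.derivative
        (Polynomial.X ^ p - Polynomial.C v : Polynomial (PowerSeries K))).eval 1)) := by
    apply IsUnit.map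
    have h1 : (Polynomial.derivative
        (Polynomial.X ^ p - Polynomial.C v : Polynomial (PowerSeries K))).eval 1 =
        (p : PowerSeries K) := by
      simp [Polynomial.derivative_X_pow]
    rw [h1, PowerSeries.isUnit_iff_constantCoeff]
    have h2 : PowerSeries.constantCoeff (p : PowerSeries K) = (p : K) := by
      rw [map_natCast]
    rw [h2]
    exact isUnit_iff_ne_zero.mpr hp
  obtain ⟨w, hw, hw1⟩ := HenselianRing.is_henselian
    (I := (Ideal.span {PowerSeries.X} : Ideal (PowerSeries K))) _ hmonic 1 heval hder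
  refine ⟨w, ?_, ?_⟩
  · have := hw
    rw [Polynomial.IsRoot, Polynomial.eval_sub, Polynomial.eval_pow, Polynomial.eval_X,
      Polynomial.eval_C, sub_eq_zero] at this
    exact this
  · rw [Ideal.mem_span_singleton, PowerSeries.X_dvd_iff, map_sub, map_one, sub_eq_zero] at hw1
    exact hw1

/-- **BG-root.**  A nonzero Laurent series whose order is divisible by `p` and whose leading
coefficient is a `p`-th power is a `p`-th power (`p` invertible in `K`). -/
theorem bgRoot {K : Type*} [Field K] (p : ℕ) (hp : (p : K) ≠ 0) (f : LaurentSeries K)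
    (hf : f ≠ 0) (hord : (p : ℤ) ∣ f.order) (hc : ∃ c : K, c ^ p = f.leadingCoeff) :
    ∃ g : LaurentSeries K, g ^ p = f := by
  obtain ⟨m, hm⟩ := hord
  obtain ⟨c, hc⟩ := hc
  have ha : f.leadingCoeff ≠ 0 := HahnSeries.leadingCoeff_ne_zero.mpr hf
  set a : K := f.leadingCoeff with ha_def
  -- the unit part
  have hu : PowerSeries.constantCoeff f.powerSeriesPart = a := by
    rw [← PowerSeries.coeff_zero_eq_constantCoeff_apply, LaurentSeries.powerSeriesPart_coeff,
      Nat.cast_zero, add_zero, ha_def, HahnSeries.leadingCoeff_eq]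
  obtain ⟨w, hw, -⟩ := bgRoot_powerSeries p hp (PowerSeries.C a⁻¹ * f.powerSeriesPart) (by
    rw [map_mul, PowerSeries.constantCoeff_C, hu, inv_mul_cancel₀ ha])
  refine ⟨HahnSeries.single m c * HahnSeries.ofPowerSeries ℤ K w, ?_⟩
  rw [mul_pow, HahnSeries.single_pow, ← map_pow, hw, map_mul, HahnSeries.ofPowerSeries_C, hc,
    nsmul_eq_mul, ← hm]
  conv_rhs => rw [← LaurentSeries.single_order_mul_powerSeriesPart f]
  rw [← mul_assoc]
  congr 1
  rw [HahnSeries.C_apply, HahnSeries.single_mul_single, add_zero, mul_inv_cancel₀ ha]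

end Fermat.Agent.INJ


end ZBINJ_024_0

/-! ### bundled: `Fermat.Agent.INJ.InjDescent` -/
section ZBINJ_024_1

/-!
# (INJ) final assembly, layer 1: descent from `ℚ̄` to a number field

`stmtINJ_of_stmtInjNF : StmtInjNF N ℓ p → StmtINJ N ℓ p`.

Given `Y₁ Y₂ ∈ A((q))` with images `y₁ y₂ ∈ F_N(ℚ̄)`:
1. the cusp place of `F_N(ℚ̄)` gives `p ∣ ord_q y₁ - ord_q y₂`;
2. a `p`-th root `c₀` of the quotient of the leading coefficients, primitive roots `ζ_p`, `ζ_{6N}`;
3. a number field `K₀ ∋ c₀, ζ_p, ζ_{6N}` over which `y₁`, `y₂` are defined;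
4. the coefficients lie in `A ∩ K₀`;
5. `y₁ / y₂` has a `p`-th root `h⁰ ∈ K₀((q))` (`bgRoot`);
6. places of `F_N(K₀)` extend to `F_N(ℚ̄)` with the same `ord`;
7. `StmtInjNF` gives `h⁰ ∈ F_N(K₀)`.
-/

set_option autoImplicit false
set_option linter.style.haveILetI false
set_option synthInstance.maxHeartbeats 400000
set_option maxHeartbeats 1000000

noncomputable section

namespace Fermat.Agent.INJ

open ModularCurve AlgebraicCurve

/-! ### Generalities -/

/-- A Laurent series over `S` whose coefficients lie in the image of an injective ring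
homomorphism `f : R → S` comes from a Laurent series over `R`. -/
theorem injDesc_exists_coeffMap {R S : Type*} [CommRing R] [CommRing S] (f : R →+* S)
    (hf : Function.Injective f) (y : LaurentSeries S) (hy : ∀ n, y.coeff n ∈ Set.range f) :
    ∃ Y : LaurentSeries R, coeffMap f Y = y := by
  choose c hc using hy
  have hsupp : Function.support c ⊆ Function.support y.coeff := by
    intro n hn
    simp only [Function.mem_support, ne_eq] at hn ⊢
    intro h0
    apply hn
    apply hf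
    rw [hc n, h0, map_zero]
  refine ⟨⟨c, y.isPWO_support.mono hsupp⟩, ?_⟩
  ext n
  rw [coeffMap_coeff]
  exact hc n

/-- places of `F_N(K₀) / K₀` extend to `F_N(ℚ̄) / ℚ̄` with the same `ord` -/
theorem injDesc_hext (K₀ : IntermediateField ℚ NfQb) (N : ℕ)
    (Q : Place K₀ (modularFunctionFieldFullC K₀ N)) :
    ∃ v : Place NfQb (modularFunctionFieldBar N), ∀ y : modularFunctionFieldFullC K₀ N,
      v.ord (nfEmb K₀ N y) = Q.ord y := by
  letI : Algebra (modularFunctionFieldFullC K₀ N) (modularFunctionFieldBar N) :=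
    (nfEmb K₀ N).toAlgebra
  haveI : IsScalarTower K₀ (modularFunctionFieldFullC K₀ N) (modularFunctionFieldBar N) := by
    refine IsScalarTower.of_algebraMap_eq fun c => ?_
    show _ = nfEmb K₀ N _
    rw [nfEmb_algebraMap]
    rfl
  haveI : Algebra.IsAlgebraic ℚ NfQb := AlgebraicClosure.isAlgebraic ℚ
  haveI : Algebra.IsAlgebraic K₀ NfQb := Algebra.IsAlgebraic.tower_top (K := ℚ) K₀
  exact PlaceExt.exists_place_extend_charZero (E := K₀) (K := NfQb)
    (L' := modularFunctionFieldBar N) (nfEmb_adjoin_range K₀ N) Q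

/-- the cusp place of `F_N(ℚ̄)` -/
theorem injDesc_exists_cusp (N : ℕ) :
    ∃ P₀ : Place NfQb (modularFunctionFieldBar N), ∀ x : modularFunctionFieldBar N, x ≠ 0 →
      P₀.ord x = (x : LaurentSeries NfQb).order := by
  obtain ⟨P₀, h, -, -⟩ := bgConst_exists_place (modularFunctionFieldBar N)
    ⟨jqModC NfQb, nf_fullC_le_bar N (jqModC_mem_full NfQb N)⟩ (bgConst_order_jqModC NfQb)
  exact ⟨P₀, h⟩

/-- **(INJ), layer 1**: the number-field form implies the form over `ℚ̄`. -/
theorem stmtINJ_of_stmtInjNF {N ℓ p : ℕ} (hN : N ≠ 0) (hp : p.Prime) :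
    StmtInjNF N ℓ p → StmtINJ N ℓ p := by
  intro hNF A hA Y₁ Y₂ h₁ h₂ hred hne hdiv
  classical
  set y₁ : LaurentSeries NfQb := coeffMap A.subtype Y₁ with hy₁
  set y₂ : LaurentSeries NfQb := coeffMap A.subtype Y₂ with hy₂
  have hAinj : Function.Injective (A.subtype : A →+* NfQb) := Subtype.val_injective
  -- 1. nonvanishing and the order
  have hY₂0 : Y₂ ≠ 0 := by
    rintro rfl
    exact hne (map_zero _)
  have hY₁0 : Y₁ ≠ 0 := by
    rintro rfl
    rw [map_zero] at hred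
    exact hne hred.symm
  have hy₁0 : y₁ ≠ 0 := fun h => hY₁0 ((nf_coeffMap_eq_zero_iff _ hAinj Y₁).mp h)
  have hy₂0 : y₂ ≠ 0 := fun h => hY₂0 ((nf_coeffMap_eq_zero_iff _ hAinj Y₂).mp h)
  have hord : (p : ℤ) ∣ y₁.order - y₂.order := by
    obtain ⟨P₀, hP₀⟩ := injDesc_exists_cusp N
    have h := hdiv P₀
    rwa [hP₀ ⟨y₁, h₁⟩ (fun h0 => hy₁0 (congrArg Subtype.val h0)),
      hP₀ ⟨y₂, h₂⟩ (fun h0 => hy₂0 (congrArg Subtype.val h0))] at h
  -- 2. constants
  have ha₁ : y₁.leadingCoeff ≠ 0 := HahnSeries.leadingCoeff_ne_zero.mpr hy₁0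
  have ha₂ : y₂.leadingCoeff ≠ 0 := HahnSeries.leadingCoeff_ne_zero.mpr hy₂0
  obtain ⟨c₀, hc₀⟩ := IsAlgClosed.exists_pow_nat_eq (y₁.leadingCoeff / y₂.leadingCoeff) hp.pos
  haveI : NeZero ((p : ℕ) : ℚ) := ⟨by exact_mod_cast hp.ne_zero⟩
  haveI : NeZero ((6 * N : ℕ) : ℚ) := ⟨by
    have : 6 * N ≠ 0 := by omega
    exact_mod_cast this⟩
  obtain ⟨ζp, hζp⟩ := HasEnoughRootsOfUnity.exists_primitiveRoot NfQb p
  obtain ⟨ζN, hζN⟩ := HasEnoughRootsOfUnity.exists_primitiveRoot NfQb (6 * N)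
  -- 3. the number field
  obtain ⟨K₀, hK₀, hS, hK⟩ := nf_exists_descent_finset (N := N) ({c₀, ζp, ζN} : Finset NfQb)
    ({y₁, y₂} : Finset (LaurentSeries NfQb)) (by
      intro y hy
      rcases Finset.mem_insert.mp hy with rfl | hy
      · exact h₁
      · rw [Finset.mem_singleton] at hy
        rw [hy]
        exact h₂)
  have hc₀K : c₀ ∈ K₀ := hS c₀ (by simp)
  have hζpK : ζp ∈ K₀ := hS ζp (by simp)
  have hζNK : ζN ∈ K₀ := hS ζN (by simp)
  obtain ⟨z₁, hz₁, hz₁y⟩ := hK K₀ le_rfl y₁ (by simp)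
  obtain ⟨z₂, hz₂, hz₂y⟩ := hK K₀ le_rfl y₂ (by simp)
  have hginj : Function.Injective (algebraMap K₀ NfQb) := (algebraMap K₀ NfQb).injective
  have hz₁0 : z₁ ≠ 0 := by
    rintro rfl
    rw [map_zero] at hz₁y
    exact hy₁0 hz₁y.symm
  have hz₂0 : z₂ ≠ 0 := by
    rintro rfl
    rw [map_zero] at hz₂y
    exact hy₂0 hz₂y.symm
  -- 4. integrality of the coefficients
  have hfinj : Function.Injective (algebraMap (nfSub A K₀) K₀) := Subtype.val_injective
  have hcoef : ∀ (Y : LaurentSeries A) (z : LaurentSeries K₀),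
      coeffMap (algebraMap K₀ NfQb) z = coeffMap A.subtype Y →
      ∃ Z : LaurentSeries (nfSub A K₀), coeffMap (algebraMap (nfSub A K₀) K₀) Z = z ∧
        coeffMap (nfRes A K₀) Z = coeffMap (IsLocalRing.residue A) Y := by
    intro Y z hz
    have hmem : ∀ n, z.coeff n ∈ nfSub A K₀ := by
      intro n
      have h := congrArg (fun w => w.coeff n) hz
      simp only [coeffMap_coeff] at h
      show algebraMap K₀ NfQb (z.coeff n) ∈ A
      rw [h]
      exact (Y.coeff n).2
    obtain ⟨Z, hZ⟩ := injDesc_exists_coeffMap (algebraMap (nfSub A K₀) K₀) hfinj z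
      (fun n => ⟨⟨z.coeff n, hmem n⟩, rfl⟩)
    refine ⟨Z, hZ, ?_⟩
    ext n
    rw [coeffMap_coeff, coeffMap_coeff, nfRes_apply]
    congr 1
    apply Subtype.ext
    rw [coe_nfSubIncl]
    have h1 := congrArg (fun w => w.coeff n) hZ
    have h2 := congrArg (fun w => w.coeff n) hz
    simp only [coeffMap_coeff] at h1 h2
    have h3 : ((Z.coeff n : nfSub A K₀) : K₀) = z.coeff n := h1
    rw [h3, h2]
    rfl
  obtain ⟨Z₁, hZ₁, hZ₁r⟩ := hcoef Y₁ z₁ hz₁y
  obtain ⟨Z₂, hZ₂, hZ₂r⟩ := hcoef Y₂ z₂ hz₂y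
  -- 5. the `p`-th root
  have hpK : ((p : ℕ) : K₀) ≠ 0 := by exact_mod_cast hp.ne_zero
  set f : LaurentSeries K₀ := z₁ * z₂⁻¹ with hf
  have hf0 : f ≠ 0 := mul_ne_zero hz₁0 (inv_ne_zero hz₂0)
  have hfz : f * z₂ = z₁ := by
    rw [hf, mul_assoc, inv_mul_cancel₀ hz₂0, mul_one]
  have hlc : f.leadingCoeff * z₂.leadingCoeff = z₁.leadingCoeff := by
    rw [← HahnSeries.leadingCoeff_mul, hfz]
  have hfo : f.order + z₂.order = z₁.order := by
    rw [← HahnSeries.order_mul_of_ne_zero, hfz]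
    exact mul_ne_zero (HahnSeries.leadingCoeff_ne_zero.mpr hf0)
      (HahnSeries.leadingCoeff_ne_zero.mpr hz₂0)
  have ho₁ : z₁.order = y₁.order := by
    rw [← hz₁y, nf_order_coeffMap _ hginj]
  have ho₂ : z₂.order = y₂.order := by
    rw [← hz₂y, nf_order_coeffMap _ hginj]
  have hl₁ : algebraMap K₀ NfQb z₁.leadingCoeff = y₁.leadingCoeff := by
    rw [← hz₁y, nf_leadingCoeff_coeffMap _ hginj]
  have hl₂ : algebraMap K₀ NfQb z₂.leadingCoeff = y₂.leadingCoeff := by
    rw [← hz₂y, nf_leadingCoeff_coeffMap _ hginj]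
  have hford : (p : ℤ) ∣ f.order := by
    have : f.order = y₁.order - y₂.order := by rw [← ho₁, ← ho₂, ← hfo]; ring
    rw [this]
    exact hord
  have hfc : ∃ c : K₀, c ^ p = f.leadingCoeff := by
    refine ⟨⟨c₀, hc₀K⟩, ?_⟩
    apply hginj
    rw [map_pow]
    have h1 : algebraMap K₀ NfQb (⟨c₀, hc₀K⟩ : K₀) = c₀ := rfl
    rw [h1, hc₀]
    have h2 := congrArg (algebraMap K₀ NfQb) hlc
    rw [map_mul, hl₁, hl₂] at h2
    rw [div_eq_iff ha₂]
    exact h2.symm
  obtain ⟨h0, hh0⟩ := bgRoot p hpK f hf0 hford hfc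
  -- 6. + 7.
  have hmem₁ : coeffMap (algebraMap (nfSub A K₀) K₀) Z₁ ∈ modularFunctionFieldFullC K₀ N := by
    rw [hZ₁]; exact hz₁
  have hmem₂ : coeffMap (algebraMap (nfSub A K₀) K₀) Z₂ ∈ modularFunctionFieldFullC K₀ N := by
    rw [hZ₂]; exact hz₂
  have hh0mem : h0 ∈ modularFunctionFieldFullC K₀ N := by
    refine hNF A hA K₀ hK₀ ⟨⟨ζp, hζpK⟩, ?_⟩ ⟨⟨ζN, hζNK⟩, ?_⟩ Z₁ Z₂ h0 hmem₁ hmem₂ ?_ ?_ ?_ ?_
    · exact IsPrimitiveRoot.of_map_of_injective (f := algebraMap K₀ NfQb) hζp hginj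
    · exact IsPrimitiveRoot.of_map_of_injective (f := algebraMap K₀ NfQb) hζN hginj
    · rw [hZ₁r, hZ₂r, hred]
    · rw [hZ₂r]; exact hne
    · rw [hZ₁, hZ₂, hh0, hfz]
    · intro Q
      obtain ⟨v, hv⟩ := injDesc_hext K₀ N Q
      have e₁ : nfEmb K₀ N ⟨_, hmem₁⟩ = (⟨y₁, h₁⟩ : modularFunctionFieldBar N) := by
        apply Subtype.ext
        rw [nfEmb_coe]
        show coeffMap (algebraMap K₀ NfQb) (coeffMap (algebraMap (nfSub A K₀) K₀) Z₁) = y₁
        rw [hZ₁, hz₁y]
      have e₂ : nfEmb K₀ N ⟨_, hmem₂⟩ = (⟨y₂, h₂⟩ : modularFunctionFieldBar N) := by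
        apply Subtype.ext
        rw [nfEmb_coe]
        show coeffMap (algebraMap K₀ NfQb) (coeffMap (algebraMap (nfSub A K₀) K₀) Z₂) = y₂
        rw [hZ₂, hz₂y]
      rw [← hv, ← hv, e₁, e₂]
      exact hdiv v
  refine ⟨nfEmb K₀ N ⟨h0, hh0mem⟩, ?_⟩
  apply Subtype.ext
  show (coeffMap (algebraMap K₀ NfQb) h0) ^ p * y₂ = y₁
  rw [← hz₁y, ← hz₂y, ← map_pow, ← map_mul, hh0, hfz]

end Fermat.Agent.INJ

end
end ZBINJ_024_1
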