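/- GENERATED FILE (helper35, build-time optimisation, NOTES/ZB.md): verbatim concatenation of the modules
   Fermat.Agent.PET.FDGeneric
   Fermat.Agent.PET.Mean
   Do not edit; do not import together with these modules. -/
import Mathlib
import Fermat.Agent.ZB.INJ_024

/-! ### bundled: `Fermat.Agent.PET.FDGeneric` -/
section ZBPET_001_0

/-!
# PET (Petersson), generic part: fundamental domains of subgroups, means

`G` a countable group acting measurably on `α` with an invariant measure `μ`, `F` a fundamental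
domain for `G`, `H ≤ G` a subgroup.  Then `⋃ q : G ⧸ H, (q.out)⁻¹ • F` is a fundamental domain for
`H`.  For subgroups `H` of an ambient group `𝔾` with a fundamental domain of finite measure we
define `covol`, `fdIntegral`, `mean` and prove: independence of the fundamental domain, behaviour
under finite-index subgroups and under conjugation.
-/

namespace Fermat.Agent.PET

open MeasureTheory Set
open scoped Pointwise

section generic

variable {G α E : Type*} [Group G] [MulAction G α] [MeasurableSpace α] {μ : Measure α}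
  [MeasurableConstSMul G α] [SMulInvariantMeasure G α μ] [Countable G]
  [NormedAddCommGroup E] [NormedSpace ℝ E]

/-- The union of the translates of `F` by the inverses of coset representatives. -/
def cosetUnion (H : Subgroup G) (F : Set α) : Set α := ⋃ q : G ⧸ H, (q.out)⁻¹ • F

theorem isFundamentalDomain_cosetUnion (H : Subgroup G) {F : Set α}
    (hF : IsFundamentalDomain G F μ) : IsFundamentalDomain H (cosetUnion H F) μ := by
  have hcount : Countable (G ⧸ H) := (QuotientGroup.mk_surjective (s := H)).countable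
  refine IsFundamentalDomain.mk'' ?_ ?_ ?_ ?_
  · exact NullMeasurableSet.iUnion fun q => hF.nullMeasurableSet_smul _
  · filter_upwards [hF.ae_covers] with x hx
    obtain ⟨g, hg⟩ := hx
    set q : G ⧸ H := (g : G ⧸ H) with hq
    have hmem : g⁻¹ * q.out ∈ H := by
      rw [← QuotientGroup.eq]
      exact (QuotientGroup.out_eq' q).symm
    refine ⟨⟨g⁻¹ * q.out, hmem⟩⁻¹, ?_⟩
    simp only [cosetUnion, mem_iUnion]
    refine ⟨q, ?_⟩
    rw [mem_smul_set_iff_inv_smul_mem, inv_inv]
    have : q.out • ((⟨g⁻¹ * q.out, hmem⟩ : H)⁻¹ • x) = g • x := by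
      rw [Subgroup.smul_def, smul_smul]
      congr 1
      simp [mul_inv_rev]
    rw [this]
    exact hg
  · intro h hh
    simp only [cosetUnion, smul_set_iUnion]
    rw [AEDisjoint, iUnion_inter]
    refine (measure_iUnion_null_iff).2 fun q => ?_
    rw [inter_iUnion]
    refine (measure_iUnion_null_iff).2 fun q' => ?_
    have hne : (h : G) * (q.out)⁻¹ ≠ (q'.out)⁻¹ := by
      intro heq
      have h1 : q'.out = q.out * (h : G)⁻¹ := by
        have := congrArg (·⁻¹) heq
        simpa [mul_inv_rev] using this.symm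
      have h2 : q = q' := by
        rw [← QuotientGroup.out_eq' q, ← QuotientGroup.out_eq' q', QuotientGroup.eq, h1]
        simpa using H.inv_mem h.2
      subst h2
      have h3 : (h : G)⁻¹ = 1 :=
        mul_left_cancel (a := q.out) (b := (h : G)⁻¹) (c := 1) (by simpa using h1.symm)
      exact hh (Subtype.ext (by simpa using h3))
    have := hF.aedisjoint hne
    simpa [Function.onFun, AEDisjoint, Subgroup.smul_def, smul_smul] using this
  · intro h
    exact (measurePreserving_smul (h : G) μ).quasiMeasurePreserving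

omit [Countable G] in
theorem setIntegral_smul_set_eq (g : G) (F : Set α) (φ : α → E) :
    ∫ x in g • F, φ x ∂μ = ∫ x in F, φ (g • x) ∂μ := by
  rw [← image_smul]
  exact (measurePreserving_smul g μ).setIntegral_image_emb (measurableEmbedding_const_smul g) φ F

theorem pairwise_aedisjoint_cosetUnion (H : Subgroup G) {F : Set α}
    (hF : IsFundamentalDomain G F μ) :
    Pairwise (Function.onFun (AEDisjoint μ) fun q : G ⧸ H => (q.out)⁻¹ • F) := by
  intro q q' hqq'
  refine hF.aedisjoint (fun heq => hqq' ?_)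
  have h1 : q.out = q'.out := inv_injective heq
  rw [← QuotientGroup.out_eq' q, ← QuotientGroup.out_eq' q', h1]

theorem measure_cosetUnion (H : Subgroup G) [H.FiniteIndex] {F : Set α}
    (hF : IsFundamentalDomain G F μ) : μ (cosetUnion H F) = H.index * μ F := by
  classical
  letI : Fintype (G ⧸ H) := Subgroup.fintypeQuotientOfFiniteIndex
  rw [cosetUnion, measure_iUnion₀ (pairwise_aedisjoint_cosetUnion H hF)
    (fun q => hF.nullMeasurableSet_smul _), tsum_fintype]
  simp only [measure_smul, Finset.sum_const, Finset.card_univ, nsmul_eq_mul]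
  rw [Subgroup.index_eq_card, Nat.card_eq_fintype_card]

theorem setIntegral_cosetUnion (H : Subgroup G) [H.FiniteIndex] {F : Set α}
    (hF : IsFundamentalDomain G F μ) {φ : α → E} (hφ : ∀ (g : G) (x : α), φ (g • x) = φ x)
    (hint : IntegrableOn φ F μ) :
    ∫ x in cosetUnion H F, φ x ∂μ = H.index • ∫ x in F, φ x ∂μ := by
  classical
  letI : Fintype (G ⧸ H) := Subgroup.fintypeQuotientOfFiniteIndex
  have hint' : ∀ q : G ⧸ H, IntegrableOn φ ((q.out)⁻¹ • F) μ := fun q => by
    have := (hF.smul (q.out)⁻¹)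
    exact (this.integrableOn_iff hF hφ).2 hint
  rw [cosetUnion, integral_iUnion_ae (fun q => hF.nullMeasurableSet_smul _)
    (pairwise_aedisjoint_cosetUnion H hF) (integrableOn_finite_iUnion.2 hint'), tsum_fintype]
  simp only [setIntegral_smul_set_eq, hφ, Finset.sum_const, Finset.card_univ]
  rw [Subgroup.index_eq_card, Nat.card_eq_fintype_card]

end generic

end Fermat.Agent.PET


end ZBPET_001_0

/-! ### bundled: `Fermat.Agent.PET.Mean` -/
section ZBPET_001_1

/-!
# PET (Petersson), generic part 2: covolume and mean over a fundamental domain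

Ambient group `𝔾` acting measurably on `α` with invariant measure `μ`; for a countable subgroup
`H ≤ 𝔾` having a fundamental domain of finite measure (`HasFD μ H`) we define
`covol μ H`, `fdIntegral μ H φ`, `mean μ H φ = covol⁻¹ • fdIntegral`.

* `fdIntegral_eq`, `covol_eq`: independent of the fundamental domain (for `H`-invariant `φ`);
* `HasFD.of_le`, `mean_of_le`: finite-index subgroups;
* `HasFD.conj`, `mean_conj`: conjugation by `g : 𝔾`.
-/

namespace Fermat.Agent.PET

open MeasureTheory Set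
open scoped Pointwise

section transfer

variable {G₁ G₂ α : Type*} [Group G₁] [Group G₂] [MulAction G₁ α] [MulAction G₂ α]
  [MeasurableSpace α] {μ : Measure α}

theorem isFundamentalDomain_of_equiv_smul (e : G₁ ≃ G₂) (he : ∀ g x, (e g) • x = (g • x : α))
    {F : Set α} (hF : IsFundamentalDomain G₂ F μ) : IsFundamentalDomain G₁ F μ := by
  have := hF.image_of_equiv (Equiv.refl α) (Measure.QuasiMeasurePreserving.id μ) e
    (fun g x => by simpa using he g x)
  simpa using this

end transfer

section ambient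

variable {𝔾 α E : Type*} [Group 𝔾] [MulAction 𝔾 α] [MeasurableSpace α] (μ : Measure α)
  [MeasurableConstSMul 𝔾 α] [SMulInvariantMeasure 𝔾 α μ]
  [NormedAddCommGroup E] [NormedSpace ℝ E]

/-- `H` has a fundamental domain of finite measure. -/
def HasFD (H : Subgroup 𝔾) : Prop := ∃ F : Set α, IsFundamentalDomain H F μ ∧ μ F ≠ ⊤

open Classical in
/-- A chosen fundamental domain. -/
noncomputable def fdOf (H : Subgroup 𝔾) : Set α := if h : HasFD μ H then h.choose else ∅

/-- The covolume of `H`. -/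
noncomputable def covol (H : Subgroup 𝔾) : ℝ := (μ (fdOf μ H)).toReal

/-- The integral over a (chosen) fundamental domain. -/
noncomputable def fdIntegral (H : Subgroup 𝔾) (φ : α → E) : E := ∫ x in fdOf μ H, φ x ∂μ

/-- The mean value over a (chosen) fundamental domain. -/
noncomputable def mean (H : Subgroup 𝔾) (φ : α → E) : E := (covol μ H)⁻¹ • fdIntegral μ H φ

variable {μ}

omit [MeasurableConstSMul 𝔾 α] [SMulInvariantMeasure 𝔾 α μ] in
theorem HasFD.isFundamentalDomain_fdOf {H : Subgroup 𝔾} (h : HasFD μ H) :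
    IsFundamentalDomain H (fdOf μ H) μ := by
  rw [fdOf, dif_pos h]; exact h.choose_spec.1

omit [MeasurableConstSMul 𝔾 α] [SMulInvariantMeasure 𝔾 α μ] in
theorem HasFD.measure_fdOf_ne_top {H : Subgroup 𝔾} (h : HasFD μ H) : μ (fdOf μ H) ≠ ⊤ := by
  rw [fdOf, dif_pos h]; exact h.choose_spec.2

theorem fdIntegral_eq {H : Subgroup 𝔾} [Countable H] {F : Set α} (hF : IsFundamentalDomain H F μ)
    (hfin : μ F ≠ ⊤) {φ : α → E} (hφ : ∀ h ∈ H, ∀ x, φ (h • x) = φ x) :
    fdIntegral μ H φ = ∫ x in F, φ x ∂μ :=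
  (HasFD.isFundamentalDomain_fdOf ⟨F, hF, hfin⟩).setIntegral_eq hF fun g x => hφ g g.2 x

theorem covol_eq {H : Subgroup 𝔾} [Countable H] {F : Set α} (hF : IsFundamentalDomain H F μ)
    (hfin : μ F ≠ ⊤) : covol μ H = (μ F).toReal := by
  rw [covol, (HasFD.isFundamentalDomain_fdOf ⟨F, hF, hfin⟩).measure_eq hF]

theorem mean_eq {H : Subgroup 𝔾} [Countable H] {F : Set α} (hF : IsFundamentalDomain H F μ)
    (hfin : μ F ≠ ⊤) {φ : α → E} (hφ : ∀ h ∈ H, ∀ x, φ (h • x) = φ x) :
    mean μ H φ = (μ F).toReal⁻¹ • ∫ x in F, φ x ∂μ := by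
  rw [mean, covol_eq hF hfin, fdIntegral_eq hF hfin hφ]

omit [MeasurableConstSMul 𝔾 α] in
theorem HasFD.covol_pos {H : Subgroup 𝔾} [Countable H] (h : HasFD μ H) (hμ : μ ≠ 0) :
    0 < covol μ H :=
  ENNReal.toReal_pos (h.isFundamentalDomain_fdOf.measure_ne_zero hμ) h.measure_fdOf_ne_top

/-! ### finite-index subgroups -/

theorem HasFD.exists_of_le {H H' : Subgroup 𝔾} [Countable H] (h : HasFD μ H) (hle : H' ≤ H)
    (hfin : H'.relIndex H ≠ 0) :
    ∃ F' : Set α, IsFundamentalDomain H' F' μ ∧ μ F' = H'.relIndex H * μ (fdOf μ H) ∧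
      ∀ φ : α → E, (∀ h ∈ H, ∀ x, φ (h • x) = φ x) → IntegrableOn φ (fdOf μ H) μ →
        ∫ x in F', φ x ∂μ = H'.relIndex H • ∫ x in fdOf μ H, φ x ∂μ := by
  have hF := h.isFundamentalDomain_fdOf
  have : (H'.subgroupOf H).FiniteIndex := ⟨hfin⟩
  refine ⟨cosetUnion (H'.subgroupOf H) (fdOf μ H), ?_, ?_, ?_⟩
  · have h1 := isFundamentalDomain_cosetUnion (H'.subgroupOf H) hF
    exact isFundamentalDomain_of_equiv_smul (Subgroup.subgroupOfEquivOfLe hle).symm.toEquiv
      (fun g x => rfl) h1
  · rw [measure_cosetUnion (H'.subgroupOf H) hF]; rfl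
  · intro φ hφ hint
    rw [setIntegral_cosetUnion (H'.subgroupOf H) hF (fun g x => hφ g g.2 x) hint]; rfl

theorem HasFD.of_le {H H' : Subgroup 𝔾} [Countable H] (h : HasFD μ H) (hle : H' ≤ H)
    (hfin : H'.relIndex H ≠ 0) : HasFD μ H' := by
  obtain ⟨F', hF', hμ, -⟩ := h.exists_of_le (E := ℝ) hle hfin
  exact ⟨F', hF', by rw [hμ]; exact ENNReal.mul_ne_top (by simp) h.measure_fdOf_ne_top⟩

theorem covol_of_le {H H' : Subgroup 𝔾} [Countable H] (h : HasFD μ H) (hle : H' ≤ H)
    (hfin : H'.relIndex H ≠ 0) : covol μ H' = H'.relIndex H * covol μ H := by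
  have : Countable H' := (Subgroup.inclusion_injective hle).countable
  obtain ⟨F', hF', hμ, -⟩ := h.exists_of_le (E := ℝ) hle hfin
  have hfin' : μ F' ≠ ⊤ := by rw [hμ]; exact ENNReal.mul_ne_top (by simp) h.measure_fdOf_ne_top
  rw [covol_eq hF' hfin', hμ, covol, ENNReal.toReal_mul]; simp

theorem fdIntegral_of_le {H H' : Subgroup 𝔾} [Countable H] (h : HasFD μ H) (hle : H' ≤ H)
    (hfin : H'.relIndex H ≠ 0) {φ : α → E} (hφ : ∀ h ∈ H, ∀ x, φ (h • x) = φ x)
    (hint : IntegrableOn φ (fdOf μ H) μ) :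
    fdIntegral μ H' φ = H'.relIndex H • fdIntegral μ H φ := by
  have : Countable H' := (Subgroup.inclusion_injective hle).countable
  obtain ⟨F', hF', hμ, hI⟩ := h.exists_of_le (E := E) hle hfin
  have hfin' : μ F' ≠ ⊤ := by rw [hμ]; exact ENNReal.mul_ne_top (by simp) h.measure_fdOf_ne_top
  rw [fdIntegral_eq hF' hfin' (fun g hg x => hφ g (hle hg) x), hI φ hφ hint, fdIntegral]

theorem mean_of_le {H H' : Subgroup 𝔾} [Countable H] (h : HasFD μ H) (hle : H' ≤ H)
    (hfin : H'.relIndex H ≠ 0) {φ : α → E} (hφ : ∀ h ∈ H, ∀ x, φ (h • x) = φ x)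
    (hint : IntegrableOn φ (fdOf μ H) μ) :
    mean μ H' φ = mean μ H φ := by
  rw [mean, mean, covol_of_le h hle hfin, fdIntegral_of_le h hle hfin hφ hint]
  have hn : ((H'.relIndex H : ℕ) : ℝ) ≠ 0 := by exact_mod_cast hfin
  rw [← Nat.cast_smul_eq_nsmul ℝ, smul_smul]
  congr 1
  by_cases hc : covol μ H = 0
  · simp [hc]
  · field_simp

/-! ### conjugation -/

theorem isFundamentalDomain_conj {H : Subgroup 𝔾} {F : Set α} (hF : IsFundamentalDomain H F μ)
    (g : 𝔾) : IsFundamentalDomain (ConjAct.toConjAct g • H : Subgroup 𝔾) (g • F) μ := by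
  have := hF.image_of_equiv (MulAction.toPerm g)
    (measurePreserving_smul g⁻¹ μ).quasiMeasurePreserving
    (Subgroup.equivSMul (ConjAct.toConjAct g) H).symm.toEquiv ?_
  · simpa [image_smul] using this
  · intro k x
    obtain ⟨h, hh⟩ : ∃ h : H, (Subgroup.equivSMul (ConjAct.toConjAct g) H) h = k :=
      (Subgroup.equivSMul (ConjAct.toConjAct g) H).surjective k
    subst hh
    simp only [MulEquiv.toEquiv_eq_coe, EquivLike.coe_coe, MulEquiv.symm_apply_apply,
      MulAction.toPerm_apply]
    change g • ((h : 𝔾) • x) = (((Subgroup.equivSMul (ConjAct.toConjAct g) H) h : _) : 𝔾) • g • x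
    have : (((Subgroup.equivSMul (ConjAct.toConjAct g) H) h : _) : 𝔾) = g * h * g⁻¹ := by
      rw [Subgroup.equivSMul_apply_coe, ConjAct.smul_def]
      simp
    rw [this]
    simp [smul_smul]

theorem HasFD.conj {H : Subgroup 𝔾} (h : HasFD μ H) (g : 𝔾) :
    HasFD μ (ConjAct.toConjAct g • H : Subgroup 𝔾) := by
  obtain ⟨F, hF, hfin⟩ := h
  exact ⟨g • F, isFundamentalDomain_conj hF g, by rwa [measure_smul]⟩

theorem countable_conj (H : Subgroup 𝔾) [Countable H] (g : 𝔾) :
    Countable (ConjAct.toConjAct g • H : Subgroup 𝔾) :=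
  (Subgroup.equivSMul (ConjAct.toConjAct g) H).symm.injective.countable

theorem covol_conj {H : Subgroup 𝔾} [Countable H] (h : HasFD μ H) (g : 𝔾) :
    covol μ (ConjAct.toConjAct g • H : Subgroup 𝔾) = covol μ H := by
  have := countable_conj H g
  have hF := h.isFundamentalDomain_fdOf
  rw [covol_eq (isFundamentalDomain_conj hF g) (by rw [measure_smul]; exact h.measure_fdOf_ne_top),
    measure_smul, covol]

theorem fdIntegral_conj {H : Subgroup 𝔾} [Countable H] (h : HasFD μ H) (g : 𝔾) {φ : α → E}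
    (hφ : ∀ k ∈ (ConjAct.toConjAct g • H : Subgroup 𝔾), ∀ x, φ (k • x) = φ x) :
    fdIntegral μ (ConjAct.toConjAct g • H : Subgroup 𝔾) φ = fdIntegral μ H fun x => φ (g • x) := by
  have := countable_conj H g
  have hF := h.isFundamentalDomain_fdOf
  rw [fdIntegral_eq (isFundamentalDomain_conj hF g)
    (by rw [measure_smul]; exact h.measure_fdOf_ne_top) hφ, setIntegral_smul_set_eq, fdIntegral]

theorem mean_conj {H : Subgroup 𝔾} [Countable H] (h : HasFD μ H) (g : 𝔾) {φ : α → E}
    (hφ : ∀ k ∈ (ConjAct.toConjAct g • H : Subgroup 𝔾), ∀ x, φ (k • x) = φ x) :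
    mean μ (ConjAct.toConjAct g • H : Subgroup 𝔾) φ = mean μ H fun x => φ (g • x) := by
  rw [mean, mean, covol_conj h g, fdIntegral_conj h g hφ]

end ambient

end Fermat.Agent.PET


end ZBPET_001_1
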