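/- GENERATED FILE (helper35, build-time optimisation, NOTES/ZB.md): verbatim concatenation of the modules
   Fermat.Agent.INJ.DiscTrace
   Do not edit; do not import together with these modules. -/
import Mathlib
import Fermat.Agent.ZB.PET_001

/-! ### bundled: `Fermat.Agent.INJ.DiscTrace` -/
section ZBINJ_032_0

/-!
# (INJ) piece A3, part 1: trace forms of finite algebras over a field

* `isReduced_of_traceForm_nondegenerate`: a finite commutative algebra over a field with
  nondegenerate trace form is reduced.
* `traceForm_nondegenerate_of_isReduced_of_isSeparable`: a finite reduced commutative algebra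
  over a field all of whose residue fields are separable has nondegenerate trace form.
* `traceForm_nondegenerate_of_isReduced`: the same over a perfect field.
-/

set_option autoImplicit false
set_option linter.style.haveILetI false

namespace Fermat.Agent.INJ

open Module

section

variable {k B : Type*} [Field k] [CommRing B] [Algebra k B]

theorem traceForm_separatingLeft_iff_nondegenerate :
    (∀ x : B, (∀ y : B, Algebra.trace k B (x * y) = 0) → x = 0) ↔
      (Algebra.traceForm k B).Nondegenerate := by
  have hsymm : (Algebra.traceForm k B).IsRefl := (Algebra.traceForm_isSymm k).isRefl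
  rw [LinearMap.BilinForm.Nondegenerate, LinearMap.IsRefl.nondegenerate_iff_separatingLeft hsymm]
  rfl

/-- A finite commutative algebra over a field with nondegenerate trace form is reduced. -/
theorem isReduced_of_traceForm_nondegenerate
    (h : (Algebra.traceForm k B).Nondegenerate) : IsReduced B := by
  rw [← traceForm_separatingLeft_iff_nondegenerate] at h
  refine ⟨fun x hx => h x fun y => ?_⟩
  have hxy : IsNilpotent (x * y) := Commute.isNilpotent_mul_right (Commute.all x y) hx
  exact (Algebra.isNilpotent_trace_of_isNilpotent (R := k) hxy).eq_zero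

/-- trace of an element killed by a "section" idempotent: abstract version.
If `q : B → F` is a surjective ring hom with a `k`-linear section `σ` such that
`σ (q z * w) = z * σ w`, then `Tr_{B/k} (σ w) ...`. We only need the following special case. -/
theorem trace_eq_trace_quotient [Module.Finite k B] (I : Ideal B) (e : B)
    (he1 : e - 1 ∈ I) (heI : ∀ w ∈ I, e * w = 0) (z : B) :
    Algebra.trace k B (e * z) = Algebra.trace k (B ⧸ I) (Ideal.Quotient.mk I z) := by
  classical
  -- the quotient map and its section
  let q : B →ₗ[k] (B ⧸ I) := (Ideal.Quotient.mkₐ k I).toLinearMap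
  let σ : (B ⧸ I) →ₗ[k] B :=
    (Submodule.liftQ (I.restrictScalars k) (Algebra.lmul k B e) (by
      intro w hw
      rw [LinearMap.mem_ker, Algebra.coe_lmul_eq_mul, LinearMap.mul_apply']
      exact heI w hw) : (B ⧸ I.restrictScalars k) →ₗ[k] B)
  have hσ : ∀ w : B, σ (Ideal.Quotient.mk I w) = e * w := fun w => by
    change Algebra.lmul k B e w = e * w
    rw [Algebra.coe_lmul_eq_mul, LinearMap.mul_apply']
  have hqσ : ∀ w : B ⧸ I, q (σ w) = w := by
    intro w
    obtain ⟨w, rfl⟩ := Ideal.Quotient.mk_surjective w
    rw [hσ]
    change Ideal.Quotient.mk I (e * w) = Ideal.Quotient.mk I w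
    rw [Ideal.Quotient.eq]
    have : e * w - w = (e - 1) * w := by ring
    rw [this]
    exact I.mul_mem_right _ he1
  have h1 : Algebra.lmul k B (e * z) = σ ∘ₗ ((Algebra.lmul k (B ⧸ I) (Ideal.Quotient.mk I z)) ∘ₗ q) := by
    ext w
    simp only [Algebra.coe_lmul_eq_mul, LinearMap.mul_apply', LinearMap.coe_comp,
      Function.comp_apply]
    change e * z * w = σ (Ideal.Quotient.mk I z * Ideal.Quotient.mk I w)
    rw [← map_mul, hσ]; ring
  have h2 : ((Algebra.lmul k (B ⧸ I) (Ideal.Quotient.mk I z)) ∘ₗ q) ∘ₗ σ
      = Algebra.lmul k (B ⧸ I) (Ideal.Quotient.mk I z) := by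
    ext w
    simp only [LinearMap.coe_comp, Function.comp_apply, hqσ]
  rw [Algebra.trace_apply, Algebra.trace_apply, h1, LinearMap.trace_comp_comm', h2]

end

section

variable {k B : Type*} [Field k] [CommRing B] [Algebra k B] [Module.Finite k B]

/-- A finite reduced commutative algebra over a field all of whose residue fields are separable
has nondegenerate trace form. -/
theorem traceForm_nondegenerate_of_isReduced_of_isSeparable [IsReduced B]
    (hsep : ∀ (I : Ideal B) (hI : I.IsMaximal),
      letI : Field (B ⧸ I) := Ideal.Quotient.field I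
      Algebra.IsSeparable k (B ⧸ I)) :
    (Algebra.traceForm k B).Nondegenerate := by
  classical
  rw [← traceForm_separatingLeft_iff_nondegenerate]
  intro x hx
  by_contra hx0
  haveI : IsArtinianRing B := IsArtinianRing.of_finite k B
  -- a maximal ideal not containing `x`
  let E := IsArtinianRing.equivPi B
  have hEx : E x ≠ 0 := fun h => hx0 (E.injective (by rw [h, map_zero]))
  obtain ⟨I, hI⟩ : ∃ I : MaximalSpectrum B, E x I ≠ 0 := by
    by_contra hcon
    exact hEx (funext fun J => not_not.mp fun hJ => hcon ⟨J, hJ⟩)
  rw [IsArtinianRing.equivPi_apply] at hI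
  -- the idempotent of `I`
  let e : B := E.symm (Pi.single I 1)
  have hEe : E e = Pi.single I 1 := E.apply_symm_apply _
  have he1 : e - 1 ∈ I.asIdeal := by
    rw [← Ideal.Quotient.eq_zero_iff_mem, map_sub, map_one, sub_eq_zero]
    have := congrFun hEe I
    rw [IsArtinianRing.equivPi_apply, Pi.single_eq_same] at this
    exact this
  have heI : ∀ w ∈ I.asIdeal, e * w = 0 := by
    intro w hw
    apply E.injective
    rw [map_zero, map_mul, hEe]
    funext J
    by_cases hJ : J = I
    · subst hJ
      simp only [Pi.mul_apply, Pi.single_eq_same, one_mul, Pi.zero_apply,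
        IsArtinianRing.equivPi_apply]
      exact Ideal.Quotient.eq_zero_iff_mem.mpr hw
    · simp [Pi.single_eq_of_ne hJ]
  letI : Field (B ⧸ I.asIdeal) := Ideal.Quotient.field I.asIdeal
  haveI : Algebra.IsSeparable k (B ⧸ I.asIdeal) := hsep I.asIdeal I.isMaximal
  -- an element with nonzero trace
  obtain ⟨w, hw⟩ : ∃ w : B ⧸ I.asIdeal, Algebra.trace k (B ⧸ I.asIdeal) w ≠ 0 := by
    by_contra hcon
    exact Algebra.trace_ne_zero k (B ⧸ I.asIdeal)
      (LinearMap.ext fun w => not_not.mp fun hw => hcon ⟨w, hw⟩)
  obtain ⟨y, hy⟩ := Ideal.Quotient.mk_surjective ((Ideal.Quotient.mk I.asIdeal x)⁻¹ * w)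
  have key := trace_eq_trace_quotient (k := k) I.asIdeal e he1 heI (x * y)
  rw [map_mul (Ideal.Quotient.mk I.asIdeal), hy, mul_inv_cancel_left₀ hI] at key
  apply hw
  rw [← key]
  have := hx (e * y)
  rwa [show x * (e * y) = e * (x * y) by ring] at this

/-- A finite reduced commutative algebra over a perfect field has nondegenerate trace form. -/
theorem traceForm_nondegenerate_of_isReduced [PerfectField k] [IsReduced B] :
    (Algebra.traceForm k B).Nondegenerate := by
  refine traceForm_nondegenerate_of_isReduced_of_isSeparable fun I hI => ?_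
  letI : Field (B ⧸ I) := Ideal.Quotient.field I
  haveI : Algebra.IsAlgebraic k (B ⧸ I) := Algebra.IsAlgebraic.of_finite k (B ⧸ I)
  exact Algebra.IsAlgebraic.isSeparable_of_perfectField

end

end Fermat.Agent.INJ


end ZBINJ_032_0
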