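/- GENERATED FILE (helper35, build-time optimisation, NOTES/ZB.md): verbatim concatenation of the modules
   Fermat.Agent.PET.FDMeasure
   Fermat.Agent.PET.PMean
   Fermat.Agent.PET.PMeanPos
   Fermat.Agent.PET.Inner
   Fermat.Agent.PET.HeckeAdj
   Fermat.Agent.PET.HeckeSelfAdj
   Fermat.Agent.PET.Semisimple
   Do not edit; do not import together with these modules. -/
import Mathlib
import Fermat.Agent.ZB.INJ_032
import Fermat.Agent.ZB.PET_001
import Fermat.Prelude.Def_ModularForm_HeckeOperatorForms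
import Fermat.Prelude.Def_CuspForm_HeckeAlgebra

/-! ### bundled: `Fermat.Agent.PET.FDMeasure` -/
section ZBPET_002_0

/-!
# PET: measure of the standard fundamental domain

* `volume_fd_diff_fdo`: the boundary `𝒟 \ 𝒟ᵒ` is a null set for the invariant measure on `ℍ`;
* `volume_fd_lt_top`: `𝒟` has finite invariant measure;
* `aedisjoint_smul_fd`: `g • 𝒟` and `𝒟` are a.e. disjoint for `g ≠ ±1` in `SL(2, ℤ)`.
-/

namespace Fermat.Agent.PET

open MeasureTheory Set UpperHalfPlane ModularGroup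
open scoped Pointwise Modular MatrixGroups ENNReal NNReal

theorem volume_eq_zero_of_coe_image {s : Set ℍ}
    (h : (volume : Measure ℂ) ((↑) '' s) = 0) : (volume : Measure ℍ) s = 0 := by
  rw [UpperHalfPlane.volume_eq_lintegral]
  exact setLIntegral_measure_zero _ _ h

theorem volume_re_eq (c : ℝ) : (volume : Measure ℂ) {z : ℂ | z.re = c} = 0 := by
  have h1 : {z : ℂ | z.re = c} =
      (fun z : ℂ => z + (-(c : ℂ))) ⁻¹' (LinearMap.ker Complex.reLm : Set ℂ) := by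
    ext z; simp [← sub_eq_add_neg, sub_eq_zero]
  rw [h1, measure_preimage_add_right]
  refine Measure.addHaar_submodule volume (LinearMap.ker Complex.reLm) ?_
  intro htop
  have : (1 : ℂ) ∈ LinearMap.ker Complex.reLm := by rw [htop]; trivial
  simp at this

theorem volume_norm_eq_one : (volume : Measure ℂ) {z : ℂ | ‖z‖ = 1} = 0 := by
  have : {z : ℂ | ‖z‖ = 1} = Metric.sphere (0 : ℂ) 1 := by ext z; simp
  rw [this]
  exact Measure.addHaar_sphere volume 0 1

theorem volume_fd_diff_fdo : (volume : Measure ℍ) (𝒟 \ 𝒟ᵒ) = 0 := by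
  refine volume_eq_zero_of_coe_image (measure_mono_null ?_
    (measure_union_null volume_norm_eq_one
      (measure_union_null (volume_re_eq (1 / 2)) (volume_re_eq (-(1 / 2))))))
  rintro _ ⟨z, ⟨hz, hz'⟩, rfl⟩
  simp only [fd, fdo, mem_ofPred_eq, not_and_or, not_lt] at hz hz'
  rcases hz' with h | h
  · left
    have h1 : Complex.normSq (z : ℂ) = 1 := le_antisymm h hz.1
    have : ‖(z : ℂ)‖ ^ 2 = 1 := by rw [← Complex.normSq_eq_norm_sq]; exact h1
    have hn : ‖(z : ℂ)‖ = 1 := by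
      have h0 : 0 ≤ ‖(z : ℂ)‖ := norm_nonneg _
      nlinarith
    exact hn
  · right
    have h1 : |z.re| = 1 / 2 := le_antisymm hz.2 h
    rcases abs_eq (by norm_num : (0 : ℝ) ≤ 1 / 2) |>.1 h1 with h2 | h2
    · left; exact h2
    · right; exact h2

theorem lintegral_Ici_inv_sq_lt_top :
    ∫⁻ y in Ici (1 / 2 : ℝ), ENNReal.ofReal (y ^ (-2 : ℝ)) < ⊤ := by
  have h := integrableOn_Ioi_rpow_of_lt (show (-2 : ℝ) < -1 by norm_num)
    (show (0 : ℝ) < 1 / 2 by norm_num)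
  rw [← integrableOn_Ici_iff_integrableOn_Ioi] at h
  exact h.setLIntegral_lt_top

theorem volume_fd_lt_top : (volume : Measure ℍ) 𝒟 < ⊤ := by
  rw [UpperHalfPlane.volume_eq_lintegral]
  set S : Set (ℝ × ℝ) := Icc (-(1 / 2) : ℝ) (1 / 2) ×ˢ Ici (1 / 2 : ℝ) with hS
  set f : ℝ × ℝ → ℝ≥0∞ := fun p => ENNReal.ofReal (p.2 ^ (-2 : ℝ)) with hf
  have hsub : ((↑) '' 𝒟 : Set ℂ) ⊆ Complex.measurableEquivRealProd ⁻¹' S := by
    rintro _ ⟨z, hz, rfl⟩
    have h3 := three_le_four_mul_im_sq_of_mem_fd hz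
    have him : 0 < z.im := z.im_pos
    simp only [hS, mem_preimage, Complex.measurableEquivRealProd_apply, mem_prod, mem_Icc, mem_Ici]
    refine ⟨abs_le.1 hz.2, ?_⟩
    show 1 / 2 ≤ z.im
    nlinarith
  have hle : ∀ z : ℂ, z ∈ Complex.measurableEquivRealProd ⁻¹' S →
      ((↑((1 / ‖z.im‖₊) ^ 2 : NNReal) : ℝ≥0∞)) ≤ f (Complex.measurableEquivRealProd z) := by
    intro z hz
    simp only [hS, mem_preimage, Complex.measurableEquivRealProd_apply, mem_prod, mem_Icc,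
      mem_Ici] at hz
    have him : 0 < z.im := lt_of_lt_of_le (by norm_num) hz.2
    simp only [hf, Complex.measurableEquivRealProd_apply]
    rw [← ENNReal.ofReal_coe_nnreal]
    refine ENNReal.ofReal_le_ofReal (le_of_eq ?_)
    simp only [NNReal.coe_pow, NNReal.coe_div, NNReal.coe_one, coe_nnnorm, Real.norm_eq_abs,
      abs_of_pos him]
    rw [Real.rpow_neg him.le, one_div, inv_pow]
    norm_num
  calc ∫⁻ z : ℂ in (↑) '' 𝒟, ↑((1 / ‖z.im‖₊) ^ 2 : NNReal)
      ≤ ∫⁻ z : ℂ in Complex.measurableEquivRealProd ⁻¹' S, ↑((1 / ‖z.im‖₊) ^ 2 : NNReal) :=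
        lintegral_mono_set hsub
    _ ≤ ∫⁻ z : ℂ in Complex.measurableEquivRealProd ⁻¹' S,
          f (Complex.measurableEquivRealProd z) := by
        refine setLIntegral_mono' ?_ hle
        exact Complex.measurableEquivRealProd.measurable
          (measurableSet_Icc.prod measurableSet_Ici)
    _ = ∫⁻ p in S, f p := by
        exact Complex.volume_preserving_equiv_real_prod.setLIntegral_comp_preimage
          (measurableSet_Icc.prod measurableSet_Ici) (by fun_prop)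
    _ = ∫⁻ x in Icc (-(1 / 2) : ℝ) (1 / 2), ∫⁻ y in Ici (1 / 2 : ℝ),
          ENNReal.ofReal (y ^ (-2 : ℝ)) := by
        rw [hS, Measure.volume_eq_prod, setLIntegral_prod]
        exact (by fun_prop : Measurable f).aemeasurable
    _ < ⊤ := by
        rw [setLIntegral_const]
        refine ENNReal.mul_lt_top lintegral_Ici_inv_sq_lt_top ?_
        simp

end Fermat.Agent.PET

namespace Fermat.Agent.PET

open MeasureTheory Set UpperHalfPlane ModularGroup Matrix.SpecialLinearGroup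
open scoped Pointwise Modular MatrixGroups ENNReal NNReal

theorem smul_set_SL_eq (g : SL(2, ℤ)) (s : Set ℍ) : g • s = (g : GL (Fin 2) ℝ) • s := rfl

theorem volume_smul_SL (g : SL(2, ℤ)) (s : Set ℍ) :
    (volume : Measure ℍ) (g • s) = volume s := by
  rw [smul_set_SL_eq, measure_smul]

theorem quasiMeasurePreserving_smul_SL (g : SL(2, ℤ)) :
    Measure.QuasiMeasurePreserving (fun x : ℍ => g • x) volume volume :=
  (measurePreserving_smul (g : GL (Fin 2) ℝ) (volume : Measure ℍ)).quasiMeasurePreserving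

theorem measurableSet_fd : MeasurableSet (𝒟 : Set ℍ) := isClosed_fd.measurableSet

theorem nullMeasurableSet_smul_fd (g : SL(2, ℤ)) :
    NullMeasurableSet (g • (𝒟 : Set ℍ)) (volume : Measure ℍ) := by
  rw [smul_set_SL_eq]
  exact measurableSet_fd.nullMeasurableSet.smul _

theorem aedisjoint_smul_fd {g : SL(2, ℤ)} (hg : g ≠ 1) (hg' : g ≠ -1) :
    AEDisjoint (volume : Measure ℍ) (g • (𝒟 : Set ℍ)) 𝒟 := by
  refine measure_mono_null (t := g • (𝒟 \ 𝒟ᵒ)) ?_ ?_
  · rintro x ⟨⟨z, hz, rfl⟩, hx⟩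
    refine ⟨z, ⟨hz, fun hzo => ?_⟩, rfl⟩
    rcases eq_one_or_neg_one_of_mem_fdo_mem_fd hzo hx with h | h
    · exact hg h
    · exact hg' h
  · rw [volume_smul_SL]; exact volume_fd_diff_fdo

theorem aedisjoint_smul_fd_smul_fd {a b : SL(2, ℤ)} (h1 : a ≠ b) (h2 : a ≠ -b) :
    AEDisjoint (volume : Measure ℍ) (a • (𝒟 : Set ℍ)) (b • (𝒟 : Set ℍ)) := by
  have key : a • (𝒟 : Set ℍ) ∩ b • (𝒟 : Set ℍ) = b • ((b⁻¹ * a) • (𝒟 : Set ℍ) ∩ 𝒟) := by
    rw [smul_set_inter, smul_smul, mul_inv_cancel_left]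
  rw [AEDisjoint, key, volume_smul_SL]
  refine aedisjoint_smul_fd (fun h => h1 ?_) (fun h => h2 ?_)
  · have := congrArg (b * ·) h
    simpa using this
  · have := congrArg (b * ·) h
    simpa using this

/-- The subgroup `±Γ`. -/
def pmSubgroup (Γ : Subgroup SL(2, ℤ)) : Subgroup SL(2, ℤ) where
  carrier := {g | g ∈ Γ ∨ -g ∈ Γ}
  mul_mem' := by
    rintro a b (ha | ha) (hb | hb)
    · exact Or.inl (Γ.mul_mem ha hb)
    · exact Or.inr (by simpa using Γ.mul_mem ha hb)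
    · exact Or.inr (by simpa using Γ.mul_mem ha hb)
    · exact Or.inl (by simpa using Γ.mul_mem ha hb)
  one_mem' := Or.inl Γ.one_mem
  inv_mem' := by
    rintro a (ha | ha)
    · exact Or.inl (Γ.inv_mem ha)
    · exact Or.inr (by simpa using Γ.inv_mem ha)

theorem mem_pmSubgroup {Γ : Subgroup SL(2, ℤ)} {g : SL(2, ℤ)} :
    g ∈ pmSubgroup Γ ↔ g ∈ Γ ∨ -g ∈ Γ := Iff.rfl

theorem le_pmSubgroup (Γ : Subgroup SL(2, ℤ)) : Γ ≤ pmSubgroup Γ := fun _ h => Or.inl h

/-- The fundamental domain of a subgroup `Γ ≤ SL(2, ℤ)` built from the standard one. -/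
def fdSL (Γ : Subgroup SL(2, ℤ)) : Set ℍ := ⋃ q : SL(2, ℤ) ⧸ pmSubgroup Γ, (q.out)⁻¹ • (𝒟 : Set ℍ)

theorem countable_SL2Z : Countable SL(2, ℤ) := by
  have : Countable (Matrix (Fin 2) (Fin 2) ℤ) := (inferInstance : Countable (Fin 2 → Fin 2 → ℤ))
  exact Subtype.val_injective.countable

theorem isFundamentalDomain_fdSL (Γ : Subgroup SL(2, ℤ)) (hΓ : -1 ∉ Γ) :
    IsFundamentalDomain Γ (fdSL Γ) (volume : Measure ℍ) := by
  have := countable_SL2Z
  have hcount : Countable (SL(2, ℤ) ⧸ pmSubgroup Γ) :=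
    (QuotientGroup.mk_surjective (s := pmSubgroup Γ)).countable
  refine IsFundamentalDomain.mk'' ?_ ?_ ?_ ?_
  · exact NullMeasurableSet.iUnion fun q => nullMeasurableSet_smul_fd _
  · refine Filter.Eventually.of_forall fun x => ?_
    obtain ⟨g, hg⟩ := exists_smul_mem_fd x
    set q : SL(2, ℤ) ⧸ pmSubgroup Γ := (g : SL(2, ℤ) ⧸ pmSubgroup Γ) with hq
    have hmem : g⁻¹ * q.out ∈ pmSubgroup Γ := by
      rw [← QuotientGroup.eq]
      exact (QuotientGroup.out_eq' q).symm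
    rcases hmem with hmem | hmem
    · refine ⟨⟨g⁻¹ * q.out, hmem⟩⁻¹, ?_⟩
      simp only [fdSL, mem_iUnion]
      refine ⟨q, ?_⟩
      rw [mem_smul_set_iff_inv_smul_mem, inv_inv]
      have : q.out • ((⟨g⁻¹ * q.out, hmem⟩ : Γ)⁻¹ • x) = g • x := by
        rw [Subgroup.smul_def, smul_smul]
        congr 1
        simp [mul_inv_rev]
      rw [this]
      exact hg
    · refine ⟨⟨-(g⁻¹ * q.out), hmem⟩⁻¹, ?_⟩
      simp only [fdSL, mem_iUnion]
      refine ⟨q, ?_⟩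
      rw [mem_smul_set_iff_inv_smul_mem, inv_inv]
      have : q.out • ((⟨-(g⁻¹ * q.out), hmem⟩ : Γ)⁻¹ • x) = (-g) • x := by
        rw [Subgroup.smul_def, smul_smul]
        congr 1
        simp [mul_inv_rev]
      rw [this, SL_neg_smul]
      exact hg
  · intro h hh
    simp only [fdSL, smul_set_iUnion]
    rw [AEDisjoint, iUnion_inter]
    refine (measure_iUnion_null_iff).2 fun q => ?_
    rw [inter_iUnion]
    refine (measure_iUnion_null_iff).2 fun q' => ?_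
    have hh1 : (h : SL(2, ℤ)) ≠ 1 := fun h1 => hh (Subtype.ext h1)
    have hh2 : (h : SL(2, ℤ)) ≠ -1 := fun h1 => hΓ (h1 ▸ h.2)
    have hq_of : ∀ ε : SL(2, ℤ), (ε = 1 ∨ ε = -1) →
        (h : SL(2, ℤ)) * (q.out)⁻¹ = ε * (q'.out)⁻¹ → False := by
      intro ε hε heq
      have hε2 : ε * ε = 1 := by rcases hε with rfl | rfl <;> simp
      have hεc : ∀ x : SL(2, ℤ), ε * x = x * ε := by rcases hε with rfl | rfl <;> simp
      have h1 : q'.out = q.out * ((h : SL(2, ℤ))⁻¹ * ε) := by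
        have e1 : (q'.out)⁻¹ = ε * ((h : SL(2, ℤ)) * (q.out)⁻¹) := by
          rw [heq, ← mul_assoc, hε2, one_mul]
        have := congrArg (·⁻¹) e1
        simp only [inv_inv, mul_inv_rev] at this
        rw [this]
        have hεi : ε⁻¹ = ε := inv_eq_of_mul_eq_one_left hε2
        rw [hεi, mul_assoc]
      have hP : (h : SL(2, ℤ))⁻¹ * ε ∈ pmSubgroup Γ := by
        rcases hε with rfl | rfl
        · exact Or.inl (by simpa using Γ.inv_mem h.2)
        · exact Or.inr (by simpa using Γ.inv_mem h.2)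
      have h2 : q = q' := by
        rw [← QuotientGroup.out_eq' q, ← QuotientGroup.out_eq' q', QuotientGroup.eq, h1]
        simpa using hP
      subst h2
      have h3 : (h : SL(2, ℤ))⁻¹ * ε = 1 :=
        mul_left_cancel (a := q.out) (by simpa using h1.symm)
      have h4 : (h : SL(2, ℤ)) = ε := by
        have := congrArg ((h : SL(2, ℤ)) * ·) h3
        simpa using this.symm
      rcases hε with rfl | rfl
      · exact hh1 h4
      · exact hh2 h4
    have := aedisjoint_smul_fd_smul_fd (a := (h : SL(2, ℤ)) * (q.out)⁻¹) (b := (q'.out)⁻¹)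
      (fun heq => hq_of 1 (Or.inl rfl) (by simp [heq]))
      (fun heq => hq_of (-1) (Or.inr rfl) (by simp [heq]))
    simpa [AEDisjoint, Subgroup.smul_def, smul_smul] using this
  · intro h
    exact quasiMeasurePreserving_smul_SL (h : SL(2, ℤ))

theorem volume_fdSL_lt_top (Γ : Subgroup SL(2, ℤ)) [Γ.FiniteIndex] :
    (volume : Measure ℍ) (fdSL Γ) < ⊤ := by
  classical
  have : (pmSubgroup Γ).FiniteIndex := Subgroup.finiteIndex_of_le (le_pmSubgroup Γ)
  let _ : Fintype (SL(2, ℤ) ⧸ pmSubgroup Γ) := Subgroup.fintypeQuotientOfFiniteIndex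
  refine lt_of_le_of_lt (measure_iUnion_le _) ?_
  rw [tsum_fintype]
  refine ENNReal.sum_lt_top.2 fun q _ => ?_
  rw [volume_smul_SL]
  exact volume_fd_lt_top

end Fermat.Agent.PET


end ZBPET_002_0

/-! ### bundled: `Fermat.Agent.PET.PMean` -/
section ZBPET_002_1

/-!
# PET: the mean of a function invariant under a principal congruence subgroup

`GammaGL M` is the image of `Γ(M)` in `GL(2, ℝ)`.  For `3 ∣ M`, `M ≠ 0` it has a fundamental domain
of finite measure.  `pmean φ` is the mean of `φ` over a fundamental domain of `Γ(3M)` where `M` is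
any level such that `φ` is `Γ(M)`-invariant.  Main results: `pmean_eq_mean` (independence of the
level), `pmean_comp_smul` (invariance under `GL(2, ℚ)`), linearity and positivity.
-/

namespace Fermat.Agent.PET

open MeasureTheory Set UpperHalfPlane ModularGroup Matrix.SpecialLinearGroup CongruenceSubgroup
open scoped Pointwise Modular MatrixGroups ENNReal NNReal

/-- The image of `Γ(M)` in `GL(2, ℝ)`. -/
noncomputable def GammaGL (M : ℕ) : Subgroup (GL (Fin 2) ℝ) := (Gamma M).map (mapGL ℝ)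

theorem mem_GammaGL {M : ℕ} {g : GL (Fin 2) ℝ} :
    g ∈ GammaGL M ↔ ∃ γ ∈ Gamma M, mapGL ℝ γ = g := Subgroup.mem_map

theorem mapGL_smul (γ : SL(2, ℤ)) (τ : ℍ) : (mapGL ℝ γ : GL (Fin 2) ℝ) • τ = γ • τ := rfl

theorem GammaGL_antitone {M M' : ℕ} (h : M ∣ M') : GammaGL M' ≤ GammaGL M := by
  refine Subgroup.map_mono fun γ hγ => ?_
  rw [Gamma_mem'] at hγ ⊢
  obtain ⟨c, rfl⟩ := h
  have := congrArg (Matrix.SpecialLinearGroup.map (ZMod.castHom (dvd_mul_right M c) (ZMod M))) hγ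
  simpa [Matrix.SpecialLinearGroup.ext_iff] using this

theorem countable_GammaGL (M : ℕ) : Countable (GammaGL M) := by
  have := countable_SL2Z
  have : Countable (Gamma M) := Subtype.val_injective.countable
  exact (Subgroup.equivMapOfInjective (Gamma M) (mapGL ℝ) mapGL_injective).symm.injective.countable

theorem neg_one_notMem_Gamma {M : ℕ} (hM : 3 ≤ M) : (-1 : SL(2, ℤ)) ∉ Gamma M := by
  intro h
  rw [Gamma_mem] at h
  have h1 : ((-1 : ℤ) : ZMod M) = 1 := by simpa using h.1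
  have h2 : ((2 : ℤ) : ZMod M) = 0 := by
    have : ((2 : ℤ) : ZMod M) = 1 - ((-1 : ℤ) : ZMod M) := by push_cast; ring
    rw [this, h1, sub_self]
  rw [ZMod.intCast_zmod_eq_zero_iff_dvd] at h2
  have := Int.le_of_dvd (by norm_num) h2
  omega

theorem hasFD_GammaGL {M : ℕ} (hM : 3 ≤ M) : HasFD (volume : Measure ℍ) (GammaGL M) := by
  haveI : NeZero M := ⟨by omega⟩
  refine ⟨fdSL (Gamma M), ?_, (volume_fdSL_lt_top (Gamma M)).ne⟩
  exact isFundamentalDomain_of_equiv_smul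
    (Subgroup.equivMapOfInjective (Gamma M) (mapGL ℝ) mapGL_injective).symm.toEquiv
    (fun g x => by
      obtain ⟨γ, rfl⟩ := (Subgroup.equivMapOfInjective (Gamma M) (mapGL ℝ)
        mapGL_injective).surjective g
      simp only [MulEquiv.toEquiv_eq_coe, EquivLike.coe_coe, MulEquiv.symm_apply_apply]
      rfl)
    (isFundamentalDomain_fdSL (Gamma M) (neg_one_notMem_Gamma hM))

theorem isArithmetic_GammaGL {M : ℕ} (hM : M ≠ 0) : (GammaGL M).IsArithmetic := by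
  haveI : NeZero M := ⟨hM⟩
  exact (inferInstance : ((Gamma M).map (mapGL ℝ)).IsArithmetic)

theorem relIndex_ne_zero_of_isArithmetic {𝒦 ℋ : Subgroup (GL (Fin 2) ℝ)} (h𝒦 : 𝒦.IsArithmetic)
    (hℋ : ℋ.IsArithmetic) : 𝒦.relIndex ℋ ≠ 0 :=
  (h𝒦.is_commensurable.trans hℋ.is_commensurable.symm).1

end Fermat.Agent.PET

namespace Fermat.Agent.PET

open MeasureTheory Set UpperHalfPlane ModularGroup Matrix.SpecialLinearGroup CongruenceSubgroup
open scoped Pointwise Modular MatrixGroups ENNReal NNReal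

/-- `φ` is invariant under the principal congruence subgroup of level `M`. -/
def GammaInv (M : ℕ) (φ : ℍ → ℂ) : Prop := ∀ γ ∈ Gamma M, ∀ τ : ℍ, φ (γ • τ) = φ τ

theorem GammaInv.mono {M M' : ℕ} {φ : ℍ → ℂ} (h : M ∣ M') (hφ : GammaInv M φ) :
    GammaInv M' φ := by
  intro γ hγ τ
  have h1 : mapGL ℝ γ ∈ GammaGL M' := ⟨γ, hγ, rfl⟩
  obtain ⟨γ', hγ', e⟩ := GammaGL_antitone h h1
  have : γ' = γ := mapGL_injective e
  exact hφ γ (this ▸ hγ') τ

theorem GammaInv.forall_mem_GammaGL {M : ℕ} {φ : ℍ → ℂ} (hφ : GammaInv M φ) :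
    ∀ g ∈ GammaGL M, ∀ τ : ℍ, φ (g • τ) = φ τ := by
  rintro g ⟨γ, hγ, rfl⟩ τ
  exact hφ γ hγ τ

/-- `φ` is invariant under some principal congruence subgroup. -/
def CongInv (φ : ℍ → ℂ) : Prop := ∃ M : ℕ, M ≠ 0 ∧ GammaInv M φ

/-- The class of functions on which `pmean` is defined: continuous, bounded, invariant under some
principal congruence subgroup. -/
structure Nice (φ : ℍ → ℂ) : Prop where
  cont : Continuous φ
  bdd : ∃ C : ℝ, ∀ τ, ‖φ τ‖ ≤ C
  inv : CongInv φ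

theorem Nice.integrableOn {φ : ℍ → ℂ} (hφ : Nice φ) {F : Set ℍ}
    (hF : (volume : Measure ℍ) F ≠ ⊤) : IntegrableOn φ F volume := by
  obtain ⟨C, hC⟩ := hφ.bdd
  exact Measure.integrableOn_of_bounded hF hφ.cont.aestronglyMeasurable
    (Filter.Eventually.of_forall hC)

open Classical in
/-- The mean of a function invariant under some principal congruence subgroup. -/
noncomputable def pmean (φ : ℍ → ℂ) : ℂ :=
  if h : CongInv φ then mean (volume : Measure ℍ) (GammaGL (3 * h.choose)) φ else 0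

theorem mean_GammaGL_of_dvd {φ : ℍ → ℂ} (hφ : Nice φ) {M M' : ℕ} (hM : 3 ≤ M) (hM' : M' ≠ 0)
    (hdvd : M ∣ M') (hinv : GammaInv M φ) :
    mean (volume : Measure ℍ) (GammaGL M') φ = mean (volume : Measure ℍ) (GammaGL M) φ := by
  have := countable_GammaGL M
  have hfd := hasFD_GammaGL hM
  exact mean_of_le hfd (GammaGL_antitone hdvd)
    (relIndex_ne_zero_of_isArithmetic (isArithmetic_GammaGL hM')
      (isArithmetic_GammaGL (by omega))) hinv.forall_mem_GammaGL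
    (hφ.integrableOn hfd.measure_fdOf_ne_top)

theorem pmean_eq_mean {φ : ℍ → ℂ} (hφ : Nice φ) {M : ℕ} (hM : 3 ≤ M) (hinv : GammaInv M φ) :
    pmean φ = mean (volume : Measure ℍ) (GammaGL M) φ := by
  rw [pmean, dif_pos hφ.inv]
  set M₀ := hφ.inv.choose with hM₀
  have hM₀ne : M₀ ≠ 0 := hφ.inv.choose_spec.1
  have hinv₀ : GammaInv M₀ φ := hφ.inv.choose_spec.2
  have h3 : 3 ≤ 3 * M₀ := by omega
  have hne : 3 * M₀ * M ≠ 0 := by
    have : M ≠ 0 := by omega
    positivity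
  rw [← mean_GammaGL_of_dvd hφ h3 hne (dvd_mul_right _ _) (hinv₀.mono (dvd_mul_left _ _)),
    ← mean_GammaGL_of_dvd hφ hM hne (dvd_mul_left _ _) hinv]

end Fermat.Agent.PET

namespace Fermat.Agent.PET

open MeasureTheory Set UpperHalfPlane ModularGroup Matrix.SpecialLinearGroup CongruenceSubgroup
open scoped Pointwise Modular MatrixGroups ENNReal NNReal

/-- The real matrix of a rational one. -/
noncomputable def ratGL (g : GL (Fin 2) ℚ) : GL (Fin 2) ℝ := g.map (Rat.castHom ℝ)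

theorem continuous_smul_GL (β : GL (Fin 2) ℝ) : Continuous fun τ : ℍ => β • τ :=
  continuous_const_smul β

theorem GammaInv.comp_of_conj_le {φ : ℍ → ℂ} {M N : ℕ} {β : GL (Fin 2) ℝ}
    (hinv : GammaInv M φ)
    (hle : (ConjAct.toConjAct β • GammaGL N : Subgroup (GL (Fin 2) ℝ)) ≤ GammaGL M) :
    GammaInv N fun τ => φ (β • τ) := by
  intro γ hγ τ
  show φ (β • (γ • τ)) = φ (β • τ)
  have h1 : ConjAct.toConjAct β • (mapGL ℝ γ : GL (Fin 2) ℝ) ∈ GammaGL M :=
    hle (Subgroup.smul_mem_pointwise_smul _ _ _ ⟨γ, hγ, rfl⟩)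
  have h2 := hinv.forall_mem_GammaGL _ h1 (β • τ)
  rw [ConjAct.smul_def] at h2
  simp only [ConjAct.ofConjAct_toConjAct] at h2
  rw [← h2]
  congr 1
  rw [smul_smul, inv_mul_cancel_right, ← smul_smul]
  rfl

theorem Nice.comp_ratGL {φ : ℍ → ℂ} (hφ : Nice φ) (g : GL (Fin 2) ℚ) :
    Nice fun τ => φ (ratGL g • τ) := by
  refine ⟨hφ.cont.comp (continuous_smul_GL _), ?_, ?_⟩
  · obtain ⟨C, hC⟩ := hφ.bdd
    exact ⟨C, fun τ => hC _⟩
  · obtain ⟨M, hM, hinv⟩ := hφ.inv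
    haveI : NeZero M := ⟨hM⟩
    obtain ⟨N, hN, hle⟩ := exists_Gamma_le_conj' g M
    exact ⟨N, hN, hinv.comp_of_conj_le hle⟩

theorem pmean_comp_ratGL {φ : ℍ → ℂ} (hφ : Nice φ) (g : GL (Fin 2) ℚ) :
    pmean (fun τ => φ (ratGL g • τ)) = pmean φ := by
  obtain ⟨M, hM, hinv⟩ := hφ.inv
  have h3M : 3 ≤ 3 * M := by omega
  have hinv3 : GammaInv (3 * M) φ := hinv.mono (dvd_mul_left _ _)
  haveI : NeZero (3 * M) := ⟨by omega⟩
  obtain ⟨N, hN, hle⟩ := exists_Gamma_le_conj' g (3 * M)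
  have h3N : 3 ≤ 3 * N := by omega
  have hle' : (ConjAct.toConjAct (ratGL g) • GammaGL (3 * N) : Subgroup (GL (Fin 2) ℝ)) ≤
      GammaGL (3 * M) :=
    le_trans (Subgroup.pointwise_smul_le_pointwise_smul_iff.2
      (GammaGL_antitone (dvd_mul_left _ _))) hle
  have hinvN : GammaInv (3 * N) fun τ => φ (ratGL g • τ) := hinv3.comp_of_conj_le hle'
  have hcN := countable_GammaGL (3 * N)
  have hcM := countable_GammaGL (3 * M)
  have hfdN := hasFD_GammaGL h3N
  have hfdM := hasFD_GammaGL h3M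
  have harN : (GammaGL (3 * N)).IsArithmetic := isArithmetic_GammaGL (by omega)
  have harM : (GammaGL (3 * M)).IsArithmetic := isArithmetic_GammaGL (by omega)
  have harc : (ConjAct.toConjAct (ratGL g) • GammaGL (3 * N) :
      Subgroup (GL (Fin 2) ℝ)).IsArithmetic := Subgroup.IsArithmetic.conj _ g
  rw [pmean_eq_mean (hφ.comp_ratGL g) h3N hinvN, pmean_eq_mean hφ h3M hinv3,
    ← mean_conj hfdN (ratGL g) (fun k hk τ => hinv3.forall_mem_GammaGL k (hle' hk) τ)]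
  exact mean_of_le hfdM hle' (relIndex_ne_zero_of_isArithmetic harc harM)
    hinv3.forall_mem_GammaGL (hφ.integrableOn hfdM.measure_fdOf_ne_top)

end Fermat.Agent.PET

namespace Fermat.Agent.PET

open MeasureTheory Set UpperHalfPlane ModularGroup Matrix.SpecialLinearGroup CongruenceSubgroup
open scoped Pointwise Modular MatrixGroups ENNReal NNReal ComplexConjugate

/-! ### Linearity -/

theorem CongInv.common {φ ψ : ℍ → ℂ} (hφ : CongInv φ) (hψ : CongInv ψ) :
    ∃ M : ℕ, 3 ≤ M ∧ GammaInv M φ ∧ GammaInv M ψ := by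
  obtain ⟨M, hM, hinv⟩ := hφ
  obtain ⟨M', hM', hinv'⟩ := hψ
  refine ⟨3 * (M * M'), ?_, hinv.mono ?_, hinv'.mono ?_⟩
  · have : 0 < M * M' := Nat.pos_of_ne_zero (mul_ne_zero hM hM')
    omega
  · exact Dvd.dvd.mul_left (dvd_mul_right _ _) _
  · exact Dvd.dvd.mul_left (dvd_mul_left _ _) _

theorem Nice.add {φ ψ : ℍ → ℂ} (hφ : Nice φ) (hψ : Nice ψ) : Nice fun τ => φ τ + ψ τ := by
  refine ⟨hφ.cont.add hψ.cont, ?_, ?_⟩
  · obtain ⟨C, hC⟩ := hφ.bdd
    obtain ⟨C', hC'⟩ := hψ.bdd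
    exact ⟨C + C', fun τ => (norm_add_le _ _).trans (add_le_add (hC τ) (hC' τ))⟩
  · obtain ⟨M, hM, h1, h2⟩ := hφ.inv.common hψ.inv
    exact ⟨M, by omega, fun γ hγ τ => by simp only [h1 γ hγ τ, h2 γ hγ τ]⟩

theorem Nice.const_mul {φ : ℍ → ℂ} (hφ : Nice φ) (c : ℂ) : Nice fun τ => c * φ τ := by
  refine ⟨continuous_const.mul hφ.cont, ?_, ?_⟩
  · obtain ⟨C, hC⟩ := hφ.bdd
    exact ⟨‖c‖ * C, fun τ => by
      rw [norm_mul]; exact mul_le_mul_of_nonneg_left (hC τ) (norm_nonneg _)⟩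
  · obtain ⟨M, hM, h1⟩ := hφ.inv
    exact ⟨M, hM, fun γ hγ τ => by simp only [h1 γ hγ τ]⟩

theorem Nice.conj {φ : ℍ → ℂ} (hφ : Nice φ) : Nice fun τ => conj (φ τ) := by
  refine ⟨Complex.continuous_conj.comp hφ.cont, ?_, ?_⟩
  · obtain ⟨C, hC⟩ := hφ.bdd
    exact ⟨C, fun τ => by simpa using hC τ⟩
  · obtain ⟨M, hM, h1⟩ := hφ.inv
    exact ⟨M, hM, fun γ hγ τ => by simp only [h1 γ hγ τ]⟩

theorem Nice.zero : Nice fun _ => (0 : ℂ) :=
  ⟨continuous_const, ⟨0, fun _ => by simp⟩, ⟨1, one_ne_zero, fun _ _ _ => rfl⟩⟩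

theorem Nice.sum {ι : Type*} (s : Finset ι) {φ : ι → ℍ → ℂ} (h : ∀ i ∈ s, Nice (φ i)) :
    Nice fun τ => ∑ i ∈ s, φ i τ := by
  classical
  induction s using Finset.induction_on with
  | empty => simpa using Nice.zero
  | insert a s ha ih =>
    simp only [Finset.sum_insert ha]
    exact (h a (Finset.mem_insert_self _ _)).add
      (ih fun i hi => h i (Finset.mem_insert_of_mem hi))

theorem pmean_add {φ ψ : ℍ → ℂ} (hφ : Nice φ) (hψ : Nice ψ) :
    pmean (fun τ => φ τ + ψ τ) = pmean φ + pmean ψ := by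
  obtain ⟨M, hM, h1, h2⟩ := hφ.inv.common hψ.inv
  have h12 : GammaInv M fun τ => φ τ + ψ τ := fun γ hγ τ => by simp only [h1 γ hγ τ, h2 γ hγ τ]
  have hfd := hasFD_GammaGL hM
  rw [pmean_eq_mean (hφ.add hψ) hM h12, pmean_eq_mean hφ hM h1, pmean_eq_mean hψ hM h2]
  simp only [mean, fdIntegral]
  rw [integral_add (hφ.integrableOn hfd.measure_fdOf_ne_top)
    (hψ.integrableOn hfd.measure_fdOf_ne_top), smul_add]

theorem pmean_const_mul {φ : ℍ → ℂ} (hφ : Nice φ) (c : ℂ) :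
    pmean (fun τ => c * φ τ) = c * pmean φ := by
  obtain ⟨M, hM, h1⟩ := hφ.inv
  have h3 : 3 ≤ 3 * M := by omega
  have h1' : GammaInv (3 * M) φ := h1.mono (dvd_mul_left _ _)
  have h2 : GammaInv (3 * M) fun τ => c * φ τ := fun γ hγ τ => by simp only [h1' γ hγ τ]
  rw [pmean_eq_mean (hφ.const_mul c) h3 h2, pmean_eq_mean hφ h3 h1']
  simp only [mean, fdIntegral]
  rw [integral_const_mul, Complex.real_smul, Complex.real_smul]
  ring

theorem pmean_conj {φ : ℍ → ℂ} (hφ : Nice φ) :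
    pmean (fun τ => conj (φ τ)) = conj (pmean φ) := by
  obtain ⟨M, hM, h1⟩ := hφ.inv
  have h3 : 3 ≤ 3 * M := by omega
  have h1' : GammaInv (3 * M) φ := h1.mono (dvd_mul_left _ _)
  have h2 : GammaInv (3 * M) fun τ => conj (φ τ) := fun γ hγ τ => by simp only [h1' γ hγ τ]
  rw [pmean_eq_mean hφ.conj h3 h2, pmean_eq_mean hφ h3 h1']
  simp only [mean, fdIntegral]
  rw [integral_conj, Complex.real_smul, Complex.real_smul, map_mul, Complex.conj_ofReal]

theorem pmean_zero : pmean (fun _ => (0 : ℂ)) = 0 := by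
  have := pmean_const_mul Nice.zero 0
  simpa using this

theorem pmean_sum {ι : Type*} (s : Finset ι) {φ : ι → ℍ → ℂ} (h : ∀ i ∈ s, Nice (φ i)) :
    pmean (fun τ => ∑ i ∈ s, φ i τ) = ∑ i ∈ s, pmean (φ i) := by
  classical
  induction s using Finset.induction_on with
  | empty => simpa using pmean_zero
  | insert a s ha ih =>
    simp only [Finset.sum_insert ha]
    rw [pmean_add (h a (Finset.mem_insert_self _ _))
      (Nice.sum s fun i hi => h i (Finset.mem_insert_of_mem hi)),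
      ih fun i hi => h i (Finset.mem_insert_of_mem hi)]

/-! ### Positivity -/

theorem volume_pos_of_isOpen {U : Set ℍ} (hU : IsOpen U) (hne : U.Nonempty) :
    0 < (volume : Measure ℍ) U := by
  rw [UpperHalfPlane.volume_eq_lintegral]
  have hopen : IsOpen ((↑) '' U : Set ℂ) := isOpenEmbedding_coe.isOpenMap U hU
  have hpos : 0 < (volume : Measure ℂ) ((↑) '' U) := hopen.measure_pos volume (hne.image _)
  rw [pos_iff_ne_zero]
  intro h0
  rw [setLIntegral_eq_zero_iff hopen.measurableSet (by fun_prop)] at h0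
  refine hpos.ne' (measure_mono_null (fun z hz => ?_) (ae_iff.1 h0))
  simp only [mem_ofPred_eq, Classical.not_imp]
  refine ⟨hz, ?_⟩
  obtain ⟨w, -, rfl⟩ := hz
  have : (w : ℂ).im ≠ 0 := w.im_pos.ne'
  simpa using this

theorem volume_ne_zero : (volume : Measure ℍ) ≠ 0 := by
  intro h0
  have h1 := volume_pos_of_isOpen isOpen_univ ⟨UpperHalfPlane.I, trivial⟩
  rw [h0] at h1
  exact lt_irrefl _ h1

theorem pmean_ofReal {r : ℍ → ℝ} (hN : Nice fun τ => (r τ : ℂ)) {M : ℕ} (hM : 3 ≤ M)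
    (hinv : GammaInv M fun τ => (r τ : ℂ)) :
    pmean (fun τ => (r τ : ℂ)) =
      (((covol (volume : Measure ℍ) (GammaGL M))⁻¹ *
        ∫ τ in fdOf (volume : Measure ℍ) (GammaGL M), r τ : ℝ) : ℂ) := by
  rw [pmean_eq_mean hN hM hinv]
  simp only [mean, fdIntegral]
  rw [integral_complex_ofReal, Complex.real_smul, Complex.ofReal_mul]

end Fermat.Agent.PET


end ZBPET_002_1

/-! ### bundled: `Fermat.Agent.PET.PMeanPos` -/
section ZBPET_002_2

/-!
# PET: positivity of `pmean`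
-/

namespace Fermat.Agent.PET

open MeasureTheory Set UpperHalfPlane ModularGroup Matrix.SpecialLinearGroup CongruenceSubgroup
open scoped Pointwise Modular MatrixGroups ENNReal NNReal ComplexConjugate

theorem pmean_ofReal_nonneg {r : ℍ → ℝ} (hr : ∀ τ, 0 ≤ r τ) (hN : Nice fun τ => (r τ : ℂ)) :
    ∃ c : ℝ, 0 ≤ c ∧ pmean (fun τ => (r τ : ℂ)) = c := by
  obtain ⟨M, hM, h1⟩ := hN.inv
  have h3 : 3 ≤ 3 * M := by omega
  have h1' := h1.mono (dvd_mul_left M 3)
  refine ⟨_, ?_, pmean_ofReal hN h3 h1'⟩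
  have := countable_GammaGL (3 * M)
  have hc := (hasFD_GammaGL h3).covol_pos volume_ne_zero
  exact mul_nonneg (inv_nonneg.2 hc.le) (integral_nonneg fun τ => hr τ)

theorem eq_zero_of_pmean_ofReal_eq_zero {r : ℍ → ℝ} (hr : ∀ τ, 0 ≤ r τ)
    (hN : Nice fun τ => (r τ : ℂ)) (h0 : pmean (fun τ => (r τ : ℂ)) = 0) : ∀ τ, r τ = 0 := by
  obtain ⟨M, hM, h1⟩ := hN.inv
  have h3 : 3 ≤ 3 * M := by omega
  have h1' := h1.mono (dvd_mul_left M 3)
  have hcount := countable_GammaGL (3 * M)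
  have hfd := hasFD_GammaGL h3
  have hc := hfd.covol_pos volume_ne_zero
  rw [pmean_ofReal hN h3 h1'] at h0
  have h0' : (covol (volume : Measure ℍ) (GammaGL (3 * M)))⁻¹ *
      ∫ τ in fdOf (volume : Measure ℍ) (GammaGL (3 * M)), r τ = 0 := by exact_mod_cast h0
  have hint0 : ∫ τ in fdOf (volume : Measure ℍ) (GammaGL (3 * M)), r τ = 0 := by
    rcases mul_eq_zero.1 h0' with h | h
    · exact absurd (inv_eq_zero.1 h) hc.ne'
    · exact h
  have hrcont : Continuous r := by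
    have := Complex.continuous_re.comp hN.cont
    exact this.congr fun τ => by simp
  have hrint : IntegrableOn r (fdOf (volume : Measure ℍ) (GammaGL (3 * M))) volume := by
    obtain ⟨C, hC⟩ := hN.bdd
    refine Measure.integrableOn_of_bounded (M := C) hfd.measure_fdOf_ne_top
      hrcont.aestronglyMeasurable (Filter.Eventually.of_forall fun τ => ?_)
    simpa using hC τ
  rw [setIntegral_eq_zero_iff_of_nonneg_ae (Filter.Eventually.of_forall hr) hrint] at hint0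
  -- the open invariant set where `r ≠ 0` is null
  set t : Set ℍ := {τ | r τ ≠ 0} with ht
  have htopen : IsOpen t := isOpen_ne_fun hrcont continuous_const
  have hrinv : ∀ g ∈ GammaGL (3 * M), ∀ τ, r (g • τ) = r τ := fun g hg τ => by
    have := h1'.forall_mem_GammaGL g hg τ
    exact_mod_cast this
  have htinv : ∀ g : GammaGL (3 * M), g • t = t := by
    intro g
    ext τ
    rw [mem_smul_set_iff_inv_smul_mem]
    simp only [ht, mem_ofPred_eq]
    rw [Subgroup.smul_def, Subgroup.coe_inv, hrinv _ (inv_mem g.2)]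
  have hnull : (volume : Measure ℍ) (t ∩ fdOf (volume : Measure ℍ) (GammaGL (3 * M))) = 0 := by
    have h2 : ∀ᵐ τ ∂(volume : Measure ℍ).restrict (fdOf (volume : Measure ℍ) (GammaGL (3 * M))),
        τ ∉ t := by
      filter_upwards [hint0] with τ hτ
      simpa [ht] using hτ
    have h3 := ae_iff.1 h2
    simp only [not_not] at h3
    rw [Measure.restrict_apply₀' hfd.isFundamentalDomain_fdOf.nullMeasurableSet] at h3
    exact h3
  have htnull := hfd.isFundamentalDomain_fdOf.measure_zero_of_invariant t htinv hnull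
  intro τ
  by_contra hτ
  exact (volume_pos_of_isOpen htopen ⟨τ, hτ⟩).ne' htnull

end Fermat.Agent.PET


end ZBPET_002_2

/-! ### bundled: `Fermat.Agent.PET.Inner` -/
section ZBPET_002_3

/-!
# PET: the Petersson product `pet k F G = pmean (petersson k F G)`

`NiceForm k F`: `F` continuous, `|F|² y^k` bounded, `F ∣[k] γ = F` for `γ` in some `Γ(M)`.
Closed under sums, scalars and slashing by rational matrices of positive determinant.
`pet` is sesquilinear on nice forms, positive definite, and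
`pet k (F ∣[k] β) (G ∣[k] β) = (det β)^(k-2) * pet k F G`.
-/

namespace Fermat.Agent.PET

open MeasureTheory Set UpperHalfPlane ModularGroup Matrix.SpecialLinearGroup CongruenceSubgroup
open scoped Pointwise Modular MatrixGroups ENNReal NNReal ComplexConjugate ModularForm

/-- Rational elements of `GL(2, ℝ)` of positive determinant. -/
def IsRatPos (β : GL (Fin 2) ℝ) : Prop := (∃ g : GL (Fin 2) ℚ, ratGL g = β) ∧ 0 < β.det.val

theorem isRatPos_mapGL (γ : SL(2, ℤ)) : IsRatPos (mapGL ℝ γ) := by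
  refine ⟨⟨mapGL ℚ γ, ?_⟩, by simp⟩
  exact map_mapGL (S := ℚ) (T := ℝ) γ

theorem IsRatPos.mul {β β' : GL (Fin 2) ℝ} (h : IsRatPos β) (h' : IsRatPos β') :
    IsRatPos (β * β') := by
  obtain ⟨⟨g, rfl⟩, hd⟩ := h
  obtain ⟨⟨g', rfl⟩, hd'⟩ := h'
  refine ⟨⟨g * g', by simp [ratGL]⟩, ?_⟩
  rw [map_mul, Units.val_mul]
  exact mul_pos hd hd'

theorem IsRatPos.σ_eq {β : GL (Fin 2) ℝ} (h : IsRatPos β) : σ β = .refl ℝ ℂ := by
  rw [σ, if_pos h.2]

section slash

variable {k : ℤ}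

theorem continuous_denom (β : GL (Fin 2) ℝ) : Continuous fun τ : ℍ => denom β τ := by
  unfold denom
  fun_prop

theorem continuous_slash {F : ℍ → ℂ} (hF : Continuous F) (β : GL (Fin 2) ℝ) :
    Continuous (F ∣[k] β) := by
  rw [ModularForm.slash_def]
  refine ((σ β).continuous.comp (hF.comp (continuous_const_smul β))).mul continuous_const |>.mul ?_
  exact (continuous_denom β).zpow₀ _ fun τ => Or.inl (denom_ne_zero β τ)

end slash

/-- The class of functions on which the Petersson product is defined. -/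
structure NiceForm (k : ℤ) (F : ℍ → ℂ) : Prop where
  cont : Continuous F
  bdd : ∃ C : ℝ, ∀ τ, ‖petersson k F F τ‖ ≤ C
  inv : ∃ M : ℕ, M ≠ 0 ∧ ∀ γ ∈ Gamma M, F ∣[k] γ = F

variable {k : ℤ} {F G : ℍ → ℂ}

theorem norm_petersson_self (k : ℤ) (F : ℍ → ℂ) (τ : ℍ) :
    ‖petersson k F F τ‖ = ‖F τ‖ ^ 2 * τ.im ^ k := by
  simp only [petersson, norm_mul, Complex.norm_conj, norm_zpow, Complex.norm_real,
    Real.norm_of_nonneg τ.im_pos.le]
  ring

theorem norm_petersson_eq (k : ℤ) (F G : ℍ → ℂ) (τ : ℍ) :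
    ‖petersson k F G τ‖ = ‖F τ‖ * ‖G τ‖ * τ.im ^ k := by
  simp only [petersson, norm_mul, Complex.norm_conj, norm_zpow, Complex.norm_real,
    Real.norm_of_nonneg τ.im_pos.le]

theorem norm_petersson_le (k : ℤ) (F G : ℍ → ℂ) (τ : ℍ) :
    ‖petersson k F G τ‖ ≤ (‖petersson k F F τ‖ + ‖petersson k G G τ‖) / 2 := by
  rw [norm_petersson_eq, norm_petersson_self, norm_petersson_self]
  have hy : 0 ≤ τ.im ^ k := zpow_nonneg τ.im_pos.le k
  have h2 : ‖F τ‖ * ‖G τ‖ ≤ (‖F τ‖ ^ 2 + ‖G τ‖ ^ 2) / 2 := by nlinarith [sq_nonneg (‖F τ‖ - ‖G τ‖)]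
  calc ‖F τ‖ * ‖G τ‖ * τ.im ^ k ≤ (‖F τ‖ ^ 2 + ‖G τ‖ ^ 2) / 2 * τ.im ^ k :=
        mul_le_mul_of_nonneg_right h2 hy
    _ = _ := by ring

theorem NiceForm.common (hF : NiceForm k F) (hG : NiceForm k G) :
    ∃ M : ℕ, M ≠ 0 ∧ (∀ γ ∈ Gamma M, F ∣[k] γ = F) ∧ ∀ γ ∈ Gamma M, G ∣[k] γ = G := by
  obtain ⟨M, hM, h1⟩ := hF.inv
  obtain ⟨M', hM', h2⟩ := hG.inv
  refine ⟨M * M', mul_ne_zero hM hM', fun γ hγ => h1 γ ?_, fun γ hγ => h2 γ ?_⟩
  · have h := GammaGL_antitone (dvd_mul_right M M') (⟨γ, hγ, rfl⟩ : mapGL ℝ γ ∈ GammaGL (M * M'))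
    obtain ⟨γ', hγ', e⟩ := h
    exact mapGL_injective e ▸ hγ'
  · have h := GammaGL_antitone (dvd_mul_left M' M) (⟨γ, hγ, rfl⟩ : mapGL ℝ γ ∈ GammaGL (M * M'))
    obtain ⟨γ', hγ', e⟩ := h
    exact mapGL_injective e ▸ hγ'

theorem NiceForm.nice_petersson (hF : NiceForm k F) (hG : NiceForm k G) :
    Nice (petersson k F G) := by
  refine ⟨petersson_continuous k hF.cont hG.cont, ?_, ?_⟩
  · obtain ⟨C, hC⟩ := hF.bdd
    obtain ⟨C', hC'⟩ := hG.bdd
    exact ⟨(C + C') / 2, fun τ => (norm_petersson_le k F G τ).trans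
      (div_le_div_of_nonneg_right (add_le_add (hC τ) (hC' τ)) (by norm_num))⟩
  · obtain ⟨M, hM, h1, h2⟩ := hF.common hG
    refine ⟨M, hM, fun γ hγ τ => ?_⟩
    rw [← petersson_slash_SL, h1 γ hγ, h2 γ hγ]

theorem NiceForm.add (hF : NiceForm k F) (hG : NiceForm k G) : NiceForm k (F + G) := by
  refine ⟨hF.cont.add hG.cont, ?_, ?_⟩
  · obtain ⟨C, hC⟩ := hF.bdd
    obtain ⟨C', hC'⟩ := hG.bdd
    refine ⟨2 * (C + C'), fun τ => ?_⟩
    have h1 := hC τ
    have h2 := hC' τ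
    rw [norm_petersson_self] at h1 h2 ⊢
    have hy : 0 ≤ τ.im ^ k := zpow_nonneg τ.im_pos.le k
    have h3 : ‖(F + G) τ‖ ^ 2 ≤ 2 * (‖F τ‖ ^ 2 + ‖G τ‖ ^ 2) := by
      have := norm_add_le (F τ) (G τ)
      have h0 : 0 ≤ ‖F τ + G τ‖ := norm_nonneg _
      simp only [Pi.add_apply]
      nlinarith [sq_nonneg (‖F τ‖ - ‖G τ‖), norm_nonneg (F τ), norm_nonneg (G τ)]
    calc ‖(F + G) τ‖ ^ 2 * τ.im ^ k ≤ 2 * (‖F τ‖ ^ 2 + ‖G τ‖ ^ 2) * τ.im ^ k :=
          mul_le_mul_of_nonneg_right h3 hy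
      _ = 2 * (‖F τ‖ ^ 2 * τ.im ^ k + ‖G τ‖ ^ 2 * τ.im ^ k) := by ring
      _ ≤ 2 * (C + C') := by linarith
  · obtain ⟨M, hM, h1, h2⟩ := hF.common hG
    exact ⟨M, hM, fun γ hγ => by rw [SlashAction.add_slash, h1 γ hγ, h2 γ hγ]⟩

theorem NiceForm.smul (hF : NiceForm k F) (c : ℂ) : NiceForm k (c • F) := by
  refine ⟨hF.cont.const_smul c, ?_, ?_⟩
  · obtain ⟨C, hC⟩ := hF.bdd
    refine ⟨‖c‖ ^ 2 * C, fun τ => ?_⟩
    have h1 := hC τ
    rw [norm_petersson_self] at h1 ⊢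
    simp only [Pi.smul_apply, smul_eq_mul, norm_mul, mul_pow]
    calc ‖c‖ ^ 2 * ‖F τ‖ ^ 2 * τ.im ^ k = ‖c‖ ^ 2 * (‖F τ‖ ^ 2 * τ.im ^ k) := by ring
      _ ≤ ‖c‖ ^ 2 * C := mul_le_mul_of_nonneg_left h1 (sq_nonneg _)
  · obtain ⟨M, hM, h1⟩ := hF.inv
    exact ⟨M, hM, fun γ hγ => by rw [ModularForm.SL_smul_slash, h1 γ hγ]⟩

theorem NiceForm.zero : NiceForm k (0 : ℍ → ℂ) :=
  ⟨continuous_const, ⟨0, fun τ => by simp [petersson]⟩, ⟨1, one_ne_zero, fun _ _ => by simp⟩⟩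

theorem NiceForm.sum {ι : Type*} (s : Finset ι) {F : ι → ℍ → ℂ} (h : ∀ i ∈ s, NiceForm k (F i)) :
    NiceForm k (∑ i ∈ s, F i) := by
  classical
  induction s using Finset.induction_on with
  | empty => simpa using NiceForm.zero
  | insert a s ha ih =>
    rw [Finset.sum_insert ha]
    exact (h a (Finset.mem_insert_self _ _)).add
      (ih fun i hi => h i (Finset.mem_insert_of_mem hi))

theorem NiceForm.slash (hF : NiceForm k F) {β : GL (Fin 2) ℝ} (hβ : IsRatPos β) :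
    NiceForm k (F ∣[k] β) := by
  refine ⟨continuous_slash hF.cont β, ?_, ?_⟩
  · obtain ⟨C, hC⟩ := hF.bdd
    refine ⟨|β.det.val| ^ (k - 2) * C, fun τ => ?_⟩
    rw [petersson_slash, norm_mul, norm_σ, norm_zpow, Complex.norm_real, Real.norm_eq_abs,
      abs_abs]
    exact mul_le_mul_of_nonneg_left (hC _) (zpow_nonneg (abs_nonneg _) _)
  · obtain ⟨M, hM, h1⟩ := hF.inv
    obtain ⟨⟨g, rfl⟩, -⟩ := hβ
    haveI : NeZero M := ⟨hM⟩
    obtain ⟨N, hN, hle⟩ := exists_Gamma_le_conj' g M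
    refine ⟨N, hN, fun γ hγ => ?_⟩
    have h2 : ConjAct.toConjAct (ratGL g) • (mapGL ℝ γ : GL (Fin 2) ℝ) ∈ GammaGL M :=
      hle (Subgroup.smul_mem_pointwise_smul _ _ _ ⟨γ, hγ, rfl⟩)
    obtain ⟨γ', hγ', e⟩ := h2
    rw [ConjAct.smul_def, ConjAct.ofConjAct_toConjAct] at e
    have e' : ratGL g * mapGL ℝ γ = mapGL ℝ γ' * ratGL g := by
      rw [e]; group
    have h3 : F ∣[k] (mapGL ℝ γ' : GL (Fin 2) ℝ) = F := h1 γ' hγ'
    show (F ∣[k] ratGL g) ∣[k] (mapGL ℝ γ : GL (Fin 2) ℝ) = F ∣[k] ratGL g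
    rw [← SlashAction.slash_mul, e', SlashAction.slash_mul, h3]

end Fermat.Agent.PET

namespace Fermat.Agent.PET

open MeasureTheory Set UpperHalfPlane ModularGroup Matrix.SpecialLinearGroup CongruenceSubgroup
open scoped Pointwise Modular MatrixGroups ENNReal NNReal ComplexConjugate ModularForm

variable {k : ℤ} {F F₁ F₂ G G₁ G₂ : ℍ → ℂ}

/-- The Petersson product. -/
noncomputable def pet (k : ℤ) (F G : ℍ → ℂ) : ℂ := pmean (petersson k F G)

theorem pet_add_left (hF₁ : NiceForm k F₁) (hF₂ : NiceForm k F₂) (hG : NiceForm k G) :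
    pet k (F₁ + F₂) G = pet k F₁ G + pet k F₂ G := by
  rw [pet, pet, pet, ← pmean_add (hF₁.nice_petersson hG) (hF₂.nice_petersson hG)]
  congr 1
  ext τ
  simp [petersson, add_mul]

theorem pet_add_right (hF : NiceForm k F) (hG₁ : NiceForm k G₁) (hG₂ : NiceForm k G₂) :
    pet k F (G₁ + G₂) = pet k F G₁ + pet k F G₂ := by
  rw [pet, pet, pet, ← pmean_add (hF.nice_petersson hG₁) (hF.nice_petersson hG₂)]
  congr 1
  ext τ
  simp [petersson, add_mul, mul_add]

theorem pet_smul_left (hF : NiceForm k F) (hG : NiceForm k G) (c : ℂ) :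
    pet k (c • F) G = conj c * pet k F G := by
  rw [pet, pet, ← pmean_const_mul (hF.nice_petersson hG)]
  congr 1
  ext τ
  simp [petersson, mul_assoc]

theorem pet_smul_right (hF : NiceForm k F) (hG : NiceForm k G) (c : ℂ) :
    pet k F (c • G) = c * pet k F G := by
  rw [pet, pet, ← pmean_const_mul (hF.nice_petersson hG)]
  congr 1
  ext τ
  simp only [petersson, Pi.smul_apply, smul_eq_mul]
  ring

theorem pet_zero_left (G : ℍ → ℂ) : pet k 0 G = 0 := by
  rw [pet]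
  have : petersson k 0 G = fun _ => (0 : ℂ) := by ext τ; simp [petersson]
  rw [this, pmean_zero]

theorem pet_zero_right (F : ℍ → ℂ) : pet k F 0 = 0 := by
  rw [pet]
  have : petersson k F 0 = fun _ => (0 : ℂ) := by ext τ; simp [petersson]
  rw [this, pmean_zero]

theorem pet_sum_left {ι : Type*} (s : Finset ι) {F : ι → ℍ → ℂ} (hF : ∀ i ∈ s, NiceForm k (F i))
    (hG : NiceForm k G) : pet k (∑ i ∈ s, F i) G = ∑ i ∈ s, pet k (F i) G := by
  classical
  induction s using Finset.induction_on with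
  | empty => simpa using pet_zero_left G
  | insert a s ha ih =>
    rw [Finset.sum_insert ha, Finset.sum_insert ha,
      pet_add_left (hF a (Finset.mem_insert_self _ _))
        (NiceForm.sum s fun i hi => hF i (Finset.mem_insert_of_mem hi)) hG,
      ih fun i hi => hF i (Finset.mem_insert_of_mem hi)]

theorem pet_sum_right {ι : Type*} (s : Finset ι) {G : ι → ℍ → ℂ} (hF : NiceForm k F)
    (hG : ∀ i ∈ s, NiceForm k (G i)) : pet k F (∑ i ∈ s, G i) = ∑ i ∈ s, pet k F (G i) := by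
  classical
  induction s using Finset.induction_on with
  | empty => simpa using pet_zero_right F
  | insert a s ha ih =>
    rw [Finset.sum_insert ha, Finset.sum_insert ha,
      pet_add_right hF (hG a (Finset.mem_insert_self _ _))
        (NiceForm.sum s fun i hi => hG i (Finset.mem_insert_of_mem hi)),
      ih fun i hi => hG i (Finset.mem_insert_of_mem hi)]

theorem pet_conj_symm (hF : NiceForm k F) (hG : NiceForm k G) :
    pet k G F = conj (pet k F G) := by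
  rw [pet, pet, ← pmean_conj (hF.nice_petersson hG)]
  congr 1
  ext τ
  exact petersson_symm k F G τ

theorem pet_slash_slash (hF : NiceForm k F) (hG : NiceForm k G) {β : GL (Fin 2) ℝ}
    (hβ : IsRatPos β) :
    pet k (F ∣[k] β) (G ∣[k] β) = ((β.det.val : ℝ) : ℂ) ^ (k - 2) * pet k F G := by
  obtain ⟨g, hg⟩ := hβ.1
  have h1 : petersson k (F ∣[k] β) (G ∣[k] β) =
      fun τ => ((β.det.val : ℝ) : ℂ) ^ (k - 2) * petersson k F G (ratGL g • τ) := by
    ext τ
    rw [petersson_slash, hβ.σ_eq, abs_of_pos hβ.2, hg]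
    rfl
  rw [pet, pet, h1, pmean_const_mul ((hF.nice_petersson hG).comp_ratGL g),
    pmean_comp_ratGL (hF.nice_petersson hG)]

theorem petersson_self_eq (k : ℤ) (F : ℍ → ℂ) (τ : ℍ) :
    petersson k F F τ = ((‖F τ‖ ^ 2 * τ.im ^ k : ℝ) : ℂ) := by
  rw [petersson, Complex.conj_mul']
  push_cast
  rfl

theorem pet_self_nonneg (hF : NiceForm k F) : ∃ c : ℝ, 0 ≤ c ∧ pet k F F = c := by
  have h1 : petersson k F F = fun τ => ((‖F τ‖ ^ 2 * τ.im ^ k : ℝ) : ℂ) :=
    funext (petersson_self_eq k F)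
  rw [pet, h1]
  refine pmean_ofReal_nonneg (fun τ => mul_nonneg (sq_nonneg _) (zpow_nonneg τ.im_pos.le k)) ?_
  rw [← h1]
  exact hF.nice_petersson hF

theorem eq_zero_of_pet_self_eq_zero (hF : NiceForm k F) (h0 : pet k F F = 0) : F = 0 := by
  have h1 : petersson k F F = fun τ => ((‖F τ‖ ^ 2 * τ.im ^ k : ℝ) : ℂ) :=
    funext (petersson_self_eq k F)
  rw [pet, h1] at h0
  have h2 := eq_zero_of_pmean_ofReal_eq_zero
    (fun τ => mul_nonneg (sq_nonneg _) (zpow_nonneg τ.im_pos.le k))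
    (by rw [← h1]; exact hF.nice_petersson hF) h0
  ext τ
  have h3 := h2 τ
  have hy : τ.im ^ k ≠ 0 := zpow_ne_zero _ τ.im_pos.ne'
  have h4 : ‖F τ‖ ^ 2 = 0 := by
    rcases mul_eq_zero.1 h3 with h | h
    · exact h
    · exact absurd h hy
  simpa using h4

end Fermat.Agent.PET


end ZBPET_002_3

/-! ### bundled: `Fermat.Agent.PET.HeckeAdj` -/
section ZBPET_002_4

/-!
# PET: the Hecke operator `T_ℓ` (`ℓ ∤ N`) is self-adjoint for the Petersson product

`pet_heckeT : pet k (heckeT k ℓ f) g = pet k f (heckeT k ℓ g)` for cusp forms `f, g` on `Γ₀(N)`.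
-/

namespace Fermat.Agent.PET

open MeasureTheory Set UpperHalfPlane ModularGroup Matrix.SpecialLinearGroup CongruenceSubgroup
open scoped Pointwise Modular MatrixGroups ENNReal NNReal ComplexConjugate ModularForm

/-- The element of `GL(2, ℝ)` with integer entries `a b c d`. -/
noncomputable def intGL (a b c d : ℤ) (h : a * d - b * c ≠ 0) : GL (Fin 2) ℝ :=
  Matrix.GeneralLinearGroup.mkOfDetNeZero !![(a : ℝ), (b : ℝ); (c : ℝ), (d : ℝ)]
    (by rw [Matrix.det_fin_two_of]; exact_mod_cast h)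

@[simp] theorem val_intGL (a b c d : ℤ) (h : a * d - b * c ≠ 0) :
    ((intGL a b c d h : GL (Fin 2) ℝ) : Matrix (Fin 2) (Fin 2) ℝ) =
      !![(a : ℝ), (b : ℝ); (c : ℝ), (d : ℝ)] := rfl

theorem eq_intGL {β : GL (Fin 2) ℝ} {a b c d : ℤ} (h : a * d - b * c ≠ 0)
    (hβ : (β : Matrix (Fin 2) (Fin 2) ℝ) = !![(a : ℝ), (b : ℝ); (c : ℝ), (d : ℝ)]) :
    β = intGL a b c d h := by
  apply Matrix.GeneralLinearGroup.ext
  intro i j
  rw [hβ]
  rfl

theorem det_intGL (a b c d : ℤ) (h : a * d - b * c ≠ 0) :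
    ((intGL a b c d h).det : ℝ) = a * d - b * c := by
  rw [Matrix.GeneralLinearGroup.val_det_apply, val_intGL, Matrix.det_fin_two_of]

theorem isRatPos_intGL (a b c d : ℤ) (h : 0 < a * d - b * c) :
    IsRatPos (intGL a b c d h.ne') := by
  refine ⟨⟨Matrix.GeneralLinearGroup.mkOfDetNeZero !![(a : ℚ), (b : ℚ); (c : ℚ), (d : ℚ)]
    (by rw [Matrix.det_fin_two_of]; exact_mod_cast h.ne'), ?_⟩, ?_⟩
  · apply Matrix.GeneralLinearGroup.ext
    intro i j
    fin_cases i <;> fin_cases j <;> simp [ratGL, Matrix.GeneralLinearGroup.map]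
  · rw [det_intGL]; exact_mod_cast h

theorem intGL_mul (a b c d a' b' c' d' : ℤ) (h : a * d - b * c ≠ 0) (h' : a' * d' - b' * c' ≠ 0)
    (h'' : (a * a' + b * c') * (c * b' + d * d') - (a * b' + b * d') * (c * a' + d * c') ≠ 0) :
    intGL a b c d h * intGL a' b' c' d' h' =
      intGL (a * a' + b * c') (a * b' + b * d') (c * a' + d * c') (c * b' + d * d') h'' := by
  apply eq_intGL
  rw [Matrix.GeneralLinearGroup.coe_mul, val_intGL, val_intGL, Matrix.mul_fin_two]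
  push_cast
  rfl

theorem mapGL_eq_intGL (γ : SL(2, ℤ)) :
    (mapGL ℝ γ : GL (Fin 2) ℝ) = intGL (γ 0 0) (γ 0 1) (γ 1 0) (γ 1 1)
      (by have := γ.det_coe; rw [Matrix.det_fin_two] at this; rw [this]; exact one_ne_zero) := by
  apply eq_intGL
  ext i j
  fin_cases i <;> fin_cases j <;> simp [mapGL]

section scalar

variable {k : ℤ}

theorem slash_intGL_scalar (F : ℍ → ℂ) (c : ℤ) (hc : 0 < c) :
    F ∣[k] intGL c 0 0 c (by simpa using (mul_pos hc hc).ne') = ((c : ℝ) : ℂ) ^ (k - 2) • F := by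
  have hcR : (0 : ℝ) < c := by exact_mod_cast hc
  have hdet : ((intGL c 0 0 c (by simpa using (mul_pos hc hc).ne')).det : ℝ) = c * c := by
    rw [det_intGL]; push_cast; ring
  have hdetpos : 0 < ((intGL c 0 0 c (by simpa using (mul_pos hc hc).ne')).det : ℝ) := by
    rw [hdet]; positivity
  ext τ
  have hsmul : intGL c 0 0 c (by simpa using (mul_pos hc hc).ne') • τ = τ := by
    apply UpperHalfPlane.ext
    rw [UpperHalfPlane.coe_smul_of_det_pos hdetpos]
    simp only [num, denom, val_intGL, Matrix.of_apply, Matrix.cons_val', Matrix.cons_val_zero,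
      Matrix.cons_val_one, Matrix.cons_val_fin_one]
    have hc0' : (c : ℂ) ≠ 0 := by exact_mod_cast hc.ne'
    push_cast
    simp only [zero_mul, add_zero, zero_add]
    exact mul_div_cancel_left₀ _ hc0'
  have hden : denom (intGL c 0 0 c (by simpa using (mul_pos hc hc).ne')) τ = ((c : ℝ) : ℂ) := by
    simp [denom]
  have hσ : σ (intGL c 0 0 c (by simpa using (mul_pos hc hc).ne')) = .refl ℝ ℂ := by
    rw [σ, if_pos hdetpos]
  rw [ModularForm.slash_apply, hsmul, hden, hσ, hdet, abs_of_pos (by positivity)]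
  simp only [ContinuousAlgEquiv.refl_apply, Pi.smul_apply, smul_eq_mul]
  have hc0 : (c : ℂ) ≠ 0 := by exact_mod_cast hc.ne'
  push_cast
  rw [mul_assoc, mul_comm (F τ)]
  congr 1
  rw [mul_zpow, ← zpow_add₀ hc0, ← zpow_add₀ hc0]
  congr 1
  ring

end scalar

end Fermat.Agent.PET

namespace Fermat.Agent.PET

open MeasureTheory Set UpperHalfPlane ModularGroup Matrix.SpecialLinearGroup CongruenceSubgroup
open scoped Pointwise Modular MatrixGroups ENNReal NNReal ComplexConjugate ModularForm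

section adjunction

variable {k : ℤ} {F G X : ℍ → ℂ}

/-- Adjunction: slashing by `β` on the left is slashing by the adjugate on the right. -/
theorem pet_slash_left (hF : NiceForm k F) (hG : NiceForm k G) {β β' : GL (Fin 2) ℝ}
    (hβ : IsRatPos β) (hβ' : IsRatPos β') {c : ℤ} (hc : 0 < c)
    (hmul : β' * β = intGL c 0 0 c (by simpa using (mul_pos hc hc).ne'))
    (hdet : (β.det : ℝ) = c) :
    pet k (F ∣[k] β) G = pet k F (G ∣[k] β') := by
  have hX : NiceForm k (G ∣[k] β') := hG.slash hβ'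
  have hc0 : ((c : ℝ) : ℂ) ^ (k - 2) ≠ 0 :=
    zpow_ne_zero _ (by exact_mod_cast hc.ne')
  have h1 : (G ∣[k] β') ∣[k] β = ((c : ℝ) : ℂ) ^ (k - 2) • G := by
    rw [← SlashAction.slash_mul, hmul, slash_intGL_scalar G c hc]
  have h2 : G = (((c : ℝ) : ℂ) ^ (k - 2))⁻¹ • ((G ∣[k] β') ∣[k] β) := by
    rw [h1, smul_smul, inv_mul_cancel₀ hc0, one_smul]
  calc pet k (F ∣[k] β) G
      = pet k (F ∣[k] β) ((((c : ℝ) : ℂ) ^ (k - 2))⁻¹ • ((G ∣[k] β') ∣[k] β)) :=
        congrArg (pet k (F ∣[k] β)) h2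
    _ = (((c : ℝ) : ℂ) ^ (k - 2))⁻¹ * pet k (F ∣[k] β) ((G ∣[k] β') ∣[k] β) :=
        pet_smul_right (hF.slash hβ) (hX.slash hβ) _
    _ = pet k F (G ∣[k] β') := by
        rw [pet_slash_slash hF hX hβ, hdet, ← mul_assoc, inv_mul_cancel₀ hc0, one_mul]

theorem pet_slash_right_of_inv (hF : NiceForm k F) (hX : NiceForm k X) (γ : SL(2, ℤ))
    (hFγ : F ∣[k] γ = F) : pet k F (X ∣[k] γ) = pet k F X := by
  have h := pet_slash_slash hF hX (isRatPos_mapGL γ)
  have hd : (((mapGL ℝ γ : GL (Fin 2) ℝ).det : ℝ) : ℂ) = 1 := by simp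
  rw [hd, one_zpow, one_mul] at h
  have hFγ' : F ∣[k] (mapGL ℝ γ : GL (Fin 2) ℝ) = F := hFγ
  rw [hFγ'] at h
  exact h

end adjunction

section cusp

variable {k : ℤ} {N : ℕ} [NeZero N]

theorem slash_eq_of_mem_Gamma0 (f : CuspForm (Gamma0 N) k) {γ : SL(2, ℤ)} (hγ : γ ∈ Gamma0 N) :
    (⇑f : ℍ → ℂ) ∣[k] γ = ⇑f :=
  SlashInvariantFormClass.slash_action_eq f (mapGL ℝ γ) ⟨γ, hγ, rfl⟩

theorem niceForm_cuspForm (f : CuspForm (Gamma0 N) k) : NiceForm k (⇑f : ℍ → ℂ) := by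
  refine ⟨(CuspFormClass.holo f).continuous, ?_, ?_⟩
  · exact CuspFormClass.petersson_bounded_left k ((Gamma0 N).map (mapGL ℝ)) f f
  · refine ⟨N, NeZero.ne N, fun γ hγ => slash_eq_of_mem_Gamma0 f ?_⟩
    rw [Gamma_mem] at hγ
    rw [Gamma0_mem]
    exact hγ.2.2.1

end cusp

end Fermat.Agent.PET


end ZBPET_002_4

/-! ### bundled: `Fermat.Agent.PET.HeckeSelfAdj` -/
section ZBPET_002_5

/-!
# PET: `T_ℓ` is self-adjoint (`ℓ ∤ N`)
-/

namespace Fermat.Agent.PET

open MeasureTheory Set UpperHalfPlane ModularGroup Matrix.SpecialLinearGroup CongruenceSubgroup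
open scoped Pointwise Modular MatrixGroups ENNReal NNReal ComplexConjugate ModularForm

/-- `[[a, b], [c, d]]` as an element of `SL(2, ℤ)`. -/
def slOf (a b c d : ℤ) (h : a * d - b * c = 1) : SL(2, ℤ) :=
  ⟨!![a, b; c, d], by rw [Matrix.det_fin_two_of]; exact h⟩

theorem mapGL_slOf (a b c d : ℤ) (h : a * d - b * c = 1) :
    (mapGL ℝ (slOf a b c d h) : GL (Fin 2) ℝ) = intGL a b c d (by rw [h]; exact one_ne_zero) := by
  rw [mapGL_eq_intGL]
  rfl

theorem slOf_mem_Gamma0 {N : ℕ} (a b c d : ℤ) (h : a * d - b * c = 1) (hc : (N : ℤ) ∣ c) :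
    slOf a b c d h ∈ Gamma0 N := by
  rw [Gamma0_mem]
  simpa [slOf, ZMod.intCast_zmod_eq_zero_iff_dvd] using hc

theorem heckeMatrix_eq_intGL {ℓ : ℕ} (hℓ : ℓ ≠ 0) (j : ℕ) :
    ModularForm.heckeMatrix ℓ j = intGL 1 j 0 ℓ (by simpa using hℓ) := by
  apply eq_intGL
  rw [ModularForm.val_heckeMatrix hℓ]
  simp

theorem heckeDiagMatrix_eq_intGL {ℓ : ℕ} (hℓ : ℓ ≠ 0) :
    ModularForm.heckeDiagMatrix ℓ = intGL ℓ 0 0 1 (by simpa using hℓ) := by
  apply eq_intGL
  rw [ModularForm.val_heckeDiagMatrix hℓ]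
  simp

end Fermat.Agent.PET

namespace Fermat.Agent.PET

open MeasureTheory Set UpperHalfPlane ModularGroup Matrix.SpecialLinearGroup CongruenceSubgroup
open scoped Pointwise Modular MatrixGroups ENNReal NNReal ComplexConjugate ModularForm

theorem intGL_mul_eq {a b c d a' b' c' d' A B C D : ℤ} (h : a * d - b * c ≠ 0)
    (h' : a' * d' - b' * c' ≠ 0) (H : A * D - B * C ≠ 0)
    (hA : A = a * a' + b * c') (hB : B = a * b' + b * d') (hC : C = c * a' + d * c')
    (hD : D = c * b' + d * d') :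
    intGL a b c d h * intGL a' b' c' d' h' = intGL A B C D H := by
  subst hA hB hC hD
  exact intGL_mul a b c d a' b' c' d' h h' H

section main

variable {k : ℤ} {N : ℕ} [NeZero N] {ℓ : ℕ}

/-- slashing a form on `Γ₀(N)` by `γ * β`, `γ ∈ Γ₀(N)`. -/
theorem slash_mapGL_mul (f : CuspForm (Gamma0 N) k) {γ : SL(2, ℤ)} (hγ : γ ∈ Gamma0 N)
    (β : GL (Fin 2) ℝ) : (⇑f : ℍ → ℂ) ∣[k] ((mapGL ℝ γ : GL (Fin 2) ℝ) * β) = (⇑f) ∣[k] β := by
  rw [SlashAction.slash_mul]
  congr 1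
  exact slash_eq_of_mem_Gamma0 f hγ

/-- `pet f (g ∣ (β * γ)) = pet f (g ∣ β)` for `γ ∈ Γ₀(N)`. -/
theorem pet_slash_mul_mapGL (f g : CuspForm (Gamma0 N) k) {γ : SL(2, ℤ)} (hγ : γ ∈ Gamma0 N)
    {β : GL (Fin 2) ℝ} (hβ : IsRatPos β) :
    pet k ⇑f ((⇑g : ℍ → ℂ) ∣[k] (β * (mapGL ℝ γ : GL (Fin 2) ℝ))) = pet k ⇑f ((⇑g) ∣[k] β) := by
  rw [SlashAction.slash_mul]
  exact pet_slash_right_of_inv (niceForm_cuspForm f) ((niceForm_cuspForm g).slash hβ) γ
    (slash_eq_of_mem_Gamma0 f hγ)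

theorem pet_heckeT (hℓ : ℓ.Prime) (hℓN : ¬ ℓ ∣ N) (f g : CuspForm (Gamma0 N) k) :
    pet k (ModularForm.heckeT k ℓ ⇑f) ⇑g = pet k ⇑f (ModularForm.heckeT k ℓ ⇑g) := by
  have hℓ0 : ℓ ≠ 0 := hℓ.ne_zero
  have hℓpos : (0 : ℤ) < ℓ := by exact_mod_cast hℓ.pos
  have hF := niceForm_cuspForm f
  have hG := niceForm_cuspForm g
  -- determinants
  have d0 : (1 : ℤ) * ℓ - 0 * 0 ≠ 0 := by simpa using hℓ0
  have dI : (ℓ : ℤ) * 1 - 0 * 0 ≠ 0 := by simpa using hℓ0
  have dS : (ℓ : ℤ) * ℓ - 0 * 0 ≠ 0 := by simpa using hℓ0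
  have p0 : (0 : ℤ) < 1 * ℓ - 0 * 0 := by simpa using hℓpos
  have pI : (0 : ℤ) < (ℓ : ℤ) * 1 - 0 * 0 := by simpa using hℓpos
  have r0 : IsRatPos (intGL 1 0 0 ℓ d0) := isRatPos_intGL 1 0 0 ℓ p0
  have rI : IsRatPos (intGL ℓ 0 0 1 dI) := isRatPos_intGL ℓ 0 0 1 pI
  have dj : ∀ j : ℕ, (1 : ℤ) * ℓ - j * 0 ≠ 0 := fun j => by simpa using hℓ0
  have pj : ∀ j : ℕ, (0 : ℤ) < 1 * ℓ - j * 0 := fun j => by simpa using hℓpos
  have rj : ∀ j : ℕ, IsRatPos (intGL 1 j 0 ℓ (dj j)) := fun j => isRatPos_intGL 1 j 0 ℓ (pj j)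
  have dj' : ∀ j : ℕ, (ℓ : ℤ) * 1 - (-j) * 0 ≠ 0 := fun j => by simpa using hℓ0
  have pj' : ∀ j : ℕ, (0 : ℤ) < (ℓ : ℤ) * 1 - (-j) * 0 := fun j => by simpa using hℓpos
  have rj' : ∀ j : ℕ, IsRatPos (intGL ℓ (-j) 0 1 (dj' j)) :=
    fun j => isRatPos_intGL ℓ (-j) 0 1 (pj' j)
  have hM : ∀ j : ℕ, ModularForm.heckeMatrix ℓ j = intGL 1 j 0 ℓ (dj j) :=
    fun j => heckeMatrix_eq_intGL hℓ0 j
  have hMI : ModularForm.heckeDiagMatrix ℓ = intGL ℓ 0 0 1 dI := heckeDiagMatrix_eq_intGL hℓ0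
  have hM0 : intGL 1 (0 : ℕ) 0 ℓ (dj 0) = intGL 1 0 0 ℓ d0 := by congr 1
  -- (D): P0 = P∞
  have key : pet k ⇑f ((⇑g : ℍ → ℂ) ∣[k] intGL 1 0 0 ℓ d0) =
      pet k ⇑f ((⇑g : ℍ → ℂ) ∣[k] intGL ℓ 0 0 1 dI) := by
    have hcop : IsCoprime (ℓ : ℤ) (N : ℤ) :=
      Nat.isCoprime_iff_coprime.2 ((Nat.Prime.coprime_iff_not_dvd hℓ).2 hℓN)
    obtain ⟨a, b, hab⟩ := hcop
    have h1 : a * (ℓ : ℤ) - (-b) * N = 1 := by linarith
    have h2 : (1 : ℤ) * (a * ℓ) - (-(-b)) * (-(N : ℤ)) = 1 := by linarith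
    have m1 : slOf a (-b) N ℓ h1 ∈ Gamma0 N := slOf_mem_Gamma0 _ _ _ _ h1 dvd_rfl
    have m2 : slOf 1 (-(-b)) (-(N : ℤ)) (a * ℓ) h2 ∈ Gamma0 N :=
      slOf_mem_Gamma0 _ _ _ _ h2 (dvd_neg.2 dvd_rfl)
    have e : intGL 1 0 0 ℓ d0 =
        (mapGL ℝ (slOf a (-b) N ℓ h1) : GL (Fin 2) ℝ) * intGL ℓ 0 0 1 dI *
          (mapGL ℝ (slOf 1 (-(-b)) (-(N : ℤ)) (a * ℓ) h2) : GL (Fin 2) ℝ) := by
      rw [mapGL_slOf, mapGL_slOf, intGL_mul_eq (A := a * ℓ) (B := -b) (C := N * ℓ) (D := ℓ)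
        _ _ (by
          have : a * (ℓ : ℤ) * ℓ - -b * (N * ℓ) = ℓ := by linear_combination (ℓ : ℤ) * hab
          rw [this]; exact_mod_cast hℓ0) (by ring) (by ring) (by ring) (by ring),
        intGL_mul_eq (A := 1) (B := 0) (C := 0) (D := ℓ) _ _ d0 (by linear_combination -hab)
          (by ring) (by ring) (by linear_combination -(ℓ : ℤ) * hab)]
    rw [e, pet_slash_mul_mapGL f g m2 (by
      rw [mapGL_slOf]
      exact (isRatPos_intGL _ _ _ _ (by rw [h1]; exact one_pos)).mul rI), slash_mapGL_mul g m1]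
  -- (A)
  have hA : ∀ j : ℕ, pet k ((⇑f : ℍ → ℂ) ∣[k] ModularForm.heckeMatrix ℓ j) ⇑g =
      pet k ⇑f ((⇑g : ℍ → ℂ) ∣[k] intGL ℓ 0 0 1 dI) := by
    intro j
    have hmul : intGL ℓ (-j) 0 1 (dj' j) * intGL 1 j 0 ℓ (dj j) =
        intGL ℓ 0 0 ℓ (by simpa using (mul_pos hℓpos hℓpos).ne') :=
      intGL_mul_eq _ _ _ (by ring) (by ring) (by ring) (by ring)
    have hdet : ((intGL 1 j 0 ℓ (dj j)).det : ℝ) = ((ℓ : ℤ) : ℝ) := by
      rw [det_intGL]; push_cast; ring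
    rw [hM j, pet_slash_left hF hG (rj j) (rj' j) hℓpos hmul hdet]
    -- `intGL ℓ (-j) 0 1 = T^(-j) * intGL ℓ 0 0 1`
    have h1 : (1 : ℤ) * 1 - (-j) * 0 = 1 := by ring
    have m1 : slOf 1 (-j) 0 1 h1 ∈ Gamma0 N := slOf_mem_Gamma0 _ _ _ _ h1 (dvd_zero _)
    have e : intGL ℓ (-j) 0 1 (dj' j) =
        (mapGL ℝ (slOf 1 (-j) 0 1 h1) : GL (Fin 2) ℝ) * intGL ℓ 0 0 1 dI := by
      rw [mapGL_slOf, intGL_mul_eq (A := ℓ) (B := -j) (C := 0) (D := 1) _ _ (dj' j)
        (by ring) (by ring) (by ring) (by ring)]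
    rw [e, slash_mapGL_mul g m1]
  -- (B)
  have hB : pet k ((⇑f : ℍ → ℂ) ∣[k] ModularForm.heckeDiagMatrix ℓ) ⇑g =
      pet k ⇑f ((⇑g : ℍ → ℂ) ∣[k] intGL 1 0 0 ℓ d0) := by
    have hmul : intGL 1 0 0 ℓ d0 * intGL ℓ 0 0 1 dI =
        intGL ℓ 0 0 ℓ (by simpa using (mul_pos hℓpos hℓpos).ne') :=
      intGL_mul_eq _ _ _ (by ring) (by ring) (by ring) (by ring)
    have hdet : ((intGL ℓ 0 0 1 dI).det : ℝ) = ((ℓ : ℤ) : ℝ) := by
      rw [det_intGL]; push_cast; ring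
    rw [hMI, pet_slash_left hF hG rI r0 hℓpos hmul hdet]
  -- (C)
  have hC : ∀ j : ℕ, pet k ⇑f ((⇑g : ℍ → ℂ) ∣[k] ModularForm.heckeMatrix ℓ j) =
      pet k ⇑f ((⇑g : ℍ → ℂ) ∣[k] intGL 1 0 0 ℓ d0) := by
    intro j
    have h1 : (1 : ℤ) * 1 - j * 0 = 1 := by ring
    have m1 : slOf 1 j 0 1 h1 ∈ Gamma0 N := slOf_mem_Gamma0 _ _ _ _ h1 (dvd_zero _)
    have e : intGL 1 j 0 ℓ (dj j) =
        intGL 1 0 0 ℓ d0 * (mapGL ℝ (slOf 1 j 0 1 h1) : GL (Fin 2) ℝ) := by
      rw [mapGL_slOf, intGL_mul_eq (A := 1) (B := j) (C := 0) (D := ℓ) _ _ (dj j)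
        (by ring) (by ring) (by ring) (by ring)]
    rw [hM j, e, pet_slash_mul_mapGL f g m1 r0]
  -- assemble
  have hsumF : ∀ j ∈ Finset.range ℓ, NiceForm k ((⇑f : ℍ → ℂ) ∣[k] ModularForm.heckeMatrix ℓ j) :=
    fun j _ => by rw [hM j]; exact hF.slash (rj j)
  have hsumG : ∀ j ∈ Finset.range ℓ, NiceForm k ((⇑g : ℍ → ℂ) ∣[k] ModularForm.heckeMatrix ℓ j) :=
    fun j _ => by rw [hM j]; exact hG.slash (rj j)
  have hIF : NiceForm k ((⇑f : ℍ → ℂ) ∣[k] ModularForm.heckeDiagMatrix ℓ) := by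
    rw [hMI]; exact hF.slash rI
  have hIG : NiceForm k ((⇑g : ℍ → ℂ) ∣[k] ModularForm.heckeDiagMatrix ℓ) := by
    rw [hMI]; exact hG.slash rI
  rw [ModularForm.heckeT_def, ModularForm.heckeT_def,
    pet_add_left (NiceForm.sum _ hsumF) hIF hG, pet_sum_left _ hsumF hG,
    pet_add_right hF (NiceForm.sum _ hsumG) hIG, pet_sum_right _ hF hsumG,
    Finset.sum_congr rfl fun j _ => hA j, Finset.sum_congr rfl fun j _ => hC j, hB]
  rw [show pet k ⇑f ((⇑g : ℍ → ℂ) ∣[k] ModularForm.heckeDiagMatrix ℓ) =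
    pet k ⇑f ((⇑g : ℍ → ℂ) ∣[k] intGL ℓ 0 0 1 dI) by rw [hMI], key]

end main

end Fermat.Agent.PET


end ZBPET_002_5

/-! ### bundled: `Fermat.Agent.PET.Semisimple` -/
section ZBPET_002_6

/-!
# PET: the anemic Hecke algebra is reduced

`cpet f g` is the Petersson product of two cusp forms on `Γ₀(N)`.  Every element of
`CuspForm.heckeAlgebra N k S` with `S ⊇ {primes dividing N}` is symmetric for `cpet`
(`isPetSymm_of_mem_heckeAlgebra`), hence the algebra is reduced (`isReduced_heckeAlgebra`).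
-/

namespace Fermat.Agent.PET

open MeasureTheory Set UpperHalfPlane ModularGroup Matrix.SpecialLinearGroup CongruenceSubgroup
open scoped Pointwise Modular MatrixGroups ENNReal NNReal ComplexConjugate ModularForm

variable {N : ℕ} [NeZero N] {k : ℤ}

/-- The Petersson product of two cusp forms on `Γ₀(N)`. -/
noncomputable def cpet (f g : CuspForm (Gamma0 N) k) : ℂ := pet k ⇑f ⇑g

theorem cpet_add_left (f₁ f₂ g : CuspForm (Gamma0 N) k) :
    cpet (f₁ + f₂) g = cpet f₁ g + cpet f₂ g := by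
  simp only [cpet, FunLike.coe_add]
  exact pet_add_left (niceForm_cuspForm f₁) (niceForm_cuspForm f₂) (niceForm_cuspForm g)

theorem cpet_add_right (f g₁ g₂ : CuspForm (Gamma0 N) k) :
    cpet f (g₁ + g₂) = cpet f g₁ + cpet f g₂ := by
  simp only [cpet, FunLike.coe_add]
  exact pet_add_right (niceForm_cuspForm f) (niceForm_cuspForm g₁) (niceForm_cuspForm g₂)

theorem cpet_smul_left (c : ℂ) (f g : CuspForm (Gamma0 N) k) :
    cpet (c • f) g = conj c * cpet f g := by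
  simp only [cpet, FunLike.coe_smul]
  exact pet_smul_left (niceForm_cuspForm f) (niceForm_cuspForm g) c

theorem cpet_smul_right (c : ℂ) (f g : CuspForm (Gamma0 N) k) :
    cpet f (c • g) = c * cpet f g := by
  simp only [cpet, FunLike.coe_smul]
  exact pet_smul_right (niceForm_cuspForm f) (niceForm_cuspForm g) c

theorem cpet_conj_symm (f g : CuspForm (Gamma0 N) k) : cpet g f = conj (cpet f g) :=
  pet_conj_symm (niceForm_cuspForm f) (niceForm_cuspForm g)

theorem cpet_self_nonneg (f : CuspForm (Gamma0 N) k) : ∃ c : ℝ, 0 ≤ c ∧ cpet f f = c :=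
  pet_self_nonneg (niceForm_cuspForm f)

theorem eq_zero_of_cpet_self_eq_zero {f : CuspForm (Gamma0 N) k} (h : cpet f f = 0) : f = 0 := by
  have := eq_zero_of_pet_self_eq_zero (niceForm_cuspForm f) h
  exact DFunLike.coe_injective this

theorem cpet_zero_right (f : CuspForm (Gamma0 N) k) : cpet f 0 = 0 := by
  have := cpet_smul_right 0 f 0
  simpa using this

theorem cpet_zero_left (g : CuspForm (Gamma0 N) k) : cpet 0 g = 0 := by
  have := cpet_smul_left 0 0 g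
  simpa using this

/-- Endomorphisms that are symmetric for the Petersson product. -/
def IsPetSymm (t : Module.End ℂ (CuspForm (Gamma0 N) k)) : Prop :=
  ∀ f g, cpet (t f) g = cpet f (t g)

theorem isPetSymm_heckeTLin {ℓ : ℕ} (hℓ : ℓ.Prime) (hℓN : ¬ ℓ ∣ N) :
    IsPetSymm (CuspForm.heckeTLin k hℓ hℓN) := fun f g => pet_heckeT hℓ hℓN f g

theorem IsPetSymm.add {s t : Module.End ℂ (CuspForm (Gamma0 N) k)} (hs : IsPetSymm s)
    (ht : IsPetSymm t) : IsPetSymm (s + t) := fun f g => by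
  simp only [LinearMap.add_apply, cpet_add_left, cpet_add_right, hs f g, ht f g]

omit [NeZero N] in
theorem IsPetSymm.mul {s t : Module.End ℂ (CuspForm (Gamma0 N) k)} (hs : IsPetSymm s)
    (ht : IsPetSymm t) (hc : s * t = t * s) : IsPetSymm (s * t) := fun f g => by
  have h1 : cpet ((s * t) f) g = cpet f ((t * s) g) := by
    simp only [Module.End.mul_apply]
    rw [hs, ht]
  rw [h1, hc]

theorem isPetSymm_algebraMap_int (n : ℤ) :
    IsPetSymm (algebraMap ℤ (Module.End ℂ (CuspForm (Gamma0 N) k)) n) := fun f g => by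
  have h : ∀ f : CuspForm (Gamma0 N) k,
      (algebraMap ℤ (Module.End ℂ (CuspForm (Gamma0 N) k)) n) f = (n : ℂ) • f := by
    intro f
    rw [Algebra.algebraMap_eq_smul_one, LinearMap.smul_apply, Module.End.one_apply]
    exact (Int.cast_smul_eq_zsmul ℂ n f).symm
  rw [h, h, cpet_smul_left, cpet_smul_right]
  simp

omit [NeZero N] in
theorem IsPetSymm.pow {t : Module.End ℂ (CuspForm (Gamma0 N) k)} (ht : IsPetSymm t) (n : ℕ) :
    IsPetSymm (t ^ n) := by
  induction n with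
  | zero => intro f g; simp
  | succ n ih =>
    rw [pow_succ]
    exact ih.mul ht (by rw [← pow_succ, ← pow_succ'])

theorem IsPetSymm.eq_zero_of_sq {t : Module.End ℂ (CuspForm (Gamma0 N) k)} (ht : IsPetSymm t)
    (h : t * t = 0) : t = 0 := by
  apply LinearMap.ext
  intro f
  have h2 : t (t f) = 0 := by
    have := congrArg (fun s : Module.End ℂ (CuspForm (Gamma0 N) k) => s f) h
    simpa using this
  have h3 : cpet (t f) (t f) = 0 := by
    rw [ht f (t f), h2, cpet_zero_right]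
  rw [LinearMap.zero_apply]
  exact eq_zero_of_cpet_self_eq_zero h3

theorem IsPetSymm.eq_zero_of_pow_two_pow {t : Module.End ℂ (CuspForm (Gamma0 N) k)}
    (ht : IsPetSymm t) (m : ℕ) (h : t ^ (2 ^ m) = 0) : t = 0 := by
  induction m with
  | zero => simpa using h
  | succ m ih =>
    refine ih ((ht.pow (2 ^ m)).eq_zero_of_sq ?_)
    rw [← pow_add, ← two_mul, ← pow_succ']
    exact h

theorem IsPetSymm.eq_zero_of_isNilpotent {t : Module.End ℂ (CuspForm (Gamma0 N) k)}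
    (ht : IsPetSymm t) (h : IsNilpotent t) : t = 0 := by
  obtain ⟨n, hn⟩ := h
  exact ht.eq_zero_of_pow_two_pow n (pow_eq_zero_of_le (Nat.lt_two_pow_self).le hn)

variable (N k) in
/-- Every element of the anemic Hecke algebra is symmetric for the Petersson product. -/
theorem isPetSymm_of_mem_heckeAlgebra {S : Set ℕ} (hS : ∀ q : ℕ, q.Prime → q ∣ N → q ∈ S)
    {t : Module.End ℂ (CuspForm (Gamma0 N) k)} (ht : t ∈ CuspForm.heckeAlgebra N k S) :
    IsPetSymm t := by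
  induction ht using Algebra.adjoin_induction with
  | mem x hx =>
    rcases hx with ⟨ℓ, hℓ, hℓN, -, rfl⟩ | ⟨q, hqN, hq, hqS, rfl⟩
    · exact isPetSymm_heckeTLin hℓ hℓN
    · exact absurd (hS q hq hqN) hqS
  | algebraMap r => exact isPetSymm_algebraMap_int r
  | add x y hx hy ihx ihy => exact ihx.add ihy
  | mul x y hx hy ihx ihy =>
    refine ihx.mul ihy ?_
    have := mul_comm (⟨x, hx⟩ : CuspForm.heckeAlgebra N k S) ⟨y, hy⟩
    exact congrArg Subtype.val this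

variable (N k) in
/-- **(SS)** The anemic Hecke algebra is reduced. -/
theorem isReduced_heckeAlgebra {S : Set ℕ} (hS : ∀ q : ℕ, q.Prime → q ∣ N → q ∈ S) :
    IsReduced (CuspForm.heckeAlgebra N k S) := by
  refine ⟨fun x hx => ?_⟩
  apply Subtype.ext
  refine (isPetSymm_of_mem_heckeAlgebra N k hS x.2).eq_zero_of_isNilpotent ?_
  obtain ⟨n, hn⟩ := hx
  exact ⟨n, by simpa using congrArg Subtype.val hn⟩

end Fermat.Agent.PET


end ZBPET_002_6
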