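/- GENERATED FILE (helper35, build-time optimisation, NOTES/ZB.md): verbatim concatenation of the modules
   Fermat.Agent.DEU.Ram
   Do not edit; do not import together with these modules. -/
import Mathlib
import Fermat.Agent.ZB.S24_007
import Fermat.Agent.ZB.UNIP_011

/-! ### bundled: `Fermat.Agent.DEU.Ram` -/
section ZBDEU_008_0
/-
GEO-PR / ModPR piece MPR-ram (helper60): a separating element of a function field is unramified
outside a finite set of places.

* `deuRam_finite_of_separable` : `[HasPrincipalDivisors K F]`, all residue fields `= K`,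
  `F / K(x)` finite separable  ⟹  `{Q | ¬ ∃ c, Q.ord (x - c) = 1}` is finite.
* `deuRam_finite_of_data` : the same from explicit data `F = K(x, y)`, `p(y) = 0`, `p'(y) ≠ 0`,
  `p ∈ K(x)[Y]`.
* `deuRam_ord_eq_one` : the local statement at one place.

Proof.  Let `Q` be a place where `x`, `y` are regular, the denominators of the coefficients of `p`
and `p'(y)` are units.  `B₀ = K[x, y]`, `B = B₀` localized at `Q` (`deuRamLoc`), `t = x - x(Q)`.
Every element of `B₀` is congruent to a constant modulo `t · B` (`deuRamCong`): clear for `x`; for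
`y` by the Taylor expansion `p(d) = (d - y) (p'(y) + k (d - y))` in `B` (`deuRamCong_root`).
Hence every element of `B` of positive order is divisible by `t` in `B` (`deuRam_hdiv`), so all
orders are multiples of `ord t` (`deuRam_local`), i.e. `ord t = 1`.
-/

set_option autoImplicit false
set_option linter.unusedSectionVars false
set_option linter.style.haveILetI false

open AlgebraicCurve Polynomial

namespace Fermat.Agent.DEU

open Fermat.Agent.S24

section deuRamLocal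

variable {K F : Type*} [Field K] [Field F] [Algebra K F] (Q : Place K F)

/-- A uniformizer exists. -/
lemma deuRam_exists_ord_one : ∃ π : F, π ≠ 0 ∧ Q.ord π = 1 := by
  obtain ⟨π, hπ⟩ := IsDiscreteValuationRing.exists_irreducible Q.toValuationSubring
  refine ⟨(π : F), ?_, Q.ord_coe_irreducible hπ⟩
  intro h
  exact hπ.ne_zero (Subtype.ext h)

lemma deuRam_ord_nonneg_of_mem {f : F} (hf : f ∈ Q.toValuationSubring) : 0 ≤ Q.ord f := by
  rcases eq_or_ne f 0 with rfl | h0
  · simp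
  · exact (PlaceAux.ord_nonneg_iff Q h0).2 hf

/-- **Local criterion.** If `B ⊆ O_Q` generates `F` as a field of fractions and every element of
`B` of positive order is divisible by `t` in `B`, then `t` is a uniformizer. -/
theorem deuRam_local (t : F) (ht : 0 < Q.ord t) (B : Set F)
    (hB : ∀ b ∈ B, b ∈ Q.toValuationSubring)
    (hdiv : ∀ b ∈ B, b ≠ 0 → 0 < Q.ord b → ∃ b' ∈ B, b = t * b')
    (hfrac : ∀ f : F, ∃ g ∈ B, ∃ h ∈ B, h ≠ 0 ∧ f * h = g) : Q.ord t = 1 := by
  have ht0 : t ≠ 0 := by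
    rintro rfl
    simp at ht
  have key : ∀ n : ℕ, ∀ b ∈ B, b ≠ 0 → Q.ord b = n → Q.ord t ∣ (n : ℤ) := by
    intro n
    induction n using Nat.strong_induction_on with
    | _ n ih =>
      intro b hb hb0 hn
      rcases Nat.eq_zero_or_pos n with h0 | hpos
      · rw [h0]
        exact dvd_zero _
      · have hpos' : 0 < Q.ord b := by
          rw [hn]
          exact_mod_cast hpos
        obtain ⟨b', hb', rfl⟩ := hdiv b hb hb0 hpos'
        have hb'0 : b' ≠ 0 := fun h => hb0 (by rw [h, mul_zero])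
        have hmul := Q.ord_mul ht0 hb'0
        have hnn : 0 ≤ Q.ord b' := deuRam_ord_nonneg_of_mem Q (hB b' hb')
        obtain ⟨m, hm⟩ := Int.eq_ofNat_of_zero_le hnn
        have hlt : m < n := by
          have : (m : ℤ) < n := by
            rw [← hm, ← hn, hmul]
            omega
          exact_mod_cast this
        have hdvd := ih m hlt b' hb' hb'0 hm
        have : (n : ℤ) = Q.ord t + m := by rw [← hn, hmul, hm]
        rw [this]
        exact dvd_add dvd_rfl hdvd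
  obtain ⟨π, hπ0, hπ⟩ := deuRam_exists_ord_one Q
  obtain ⟨g, hg, h, hh, hh0, hgh⟩ := hfrac π
  have hg0 : g ≠ 0 := by
    rw [← hgh]
    exact mul_ne_zero hπ0 hh0
  have hmul := Q.ord_mul hπ0 hh0
  rw [hgh, hπ] at hmul
  obtain ⟨a, ha⟩ := Int.eq_ofNat_of_zero_le (deuRam_ord_nonneg_of_mem Q (hB g hg))
  obtain ⟨b, hb⟩ := Int.eq_ofNat_of_zero_le (deuRam_ord_nonneg_of_mem Q (hB h hh))
  have h1 := key a g hg hg0 ha
  have h2 := key b h hh hh0 hb
  have h3 : Q.ord t ∣ 1 := by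
    have : (1 : ℤ) = a - b := by rw [← ha, ← hb, hmul]; ring
    rw [this]
    exact dvd_sub h1 h2
  exact Int.eq_one_of_dvd_one ht.le h3

/-- The localization of a subalgebra `B₀` at the place `Q`: fractions `g / h` with
`g, h ∈ B₀` and `h` a unit at `Q`. -/
def deuRamLoc (B₀ : Subalgebra K F) : Subring F where
  carrier := {f | ∃ g ∈ B₀, ∃ h ∈ B₀, h ≠ 0 ∧ Q.ord h = 0 ∧ f * h = g}
  mul_mem' := by
    rintro f₁ f₂ ⟨g₁, hg₁, h₁, hh₁, h₁0, ho₁, e₁⟩ ⟨g₂, hg₂, h₂, hh₂, h₂0, ho₂, e₂⟩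
    refine ⟨g₁ * g₂, B₀.mul_mem hg₁ hg₂, h₁ * h₂, B₀.mul_mem hh₁ hh₂, mul_ne_zero h₁0 h₂0, ?_, ?_⟩
    · rw [Q.ord_mul h₁0 h₂0, ho₁, ho₂, add_zero]
    · rw [← e₁, ← e₂]
      ring
  one_mem' := ⟨1, B₀.one_mem, 1, B₀.one_mem, one_ne_zero, Q.ord_one, by ring⟩
  add_mem' := by
    rintro f₁ f₂ ⟨g₁, hg₁, h₁, hh₁, h₁0, ho₁, e₁⟩ ⟨g₂, hg₂, h₂, hh₂, h₂0, ho₂, e₂⟩
    refine ⟨g₁ * h₂ + g₂ * h₁, B₀.add_mem (B₀.mul_mem hg₁ hh₂) (B₀.mul_mem hg₂ hh₁), h₁ * h₂,
      B₀.mul_mem hh₁ hh₂, mul_ne_zero h₁0 h₂0, ?_, ?_⟩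
    · rw [Q.ord_mul h₁0 h₂0, ho₁, ho₂, add_zero]
    · rw [← e₁, ← e₂]
      ring
  zero_mem' := ⟨0, B₀.zero_mem, 1, B₀.one_mem, one_ne_zero, Q.ord_one, by ring⟩
  neg_mem' := by
    rintro f ⟨g, hg, h, hh, h0, ho, e⟩
    exact ⟨-g, B₀.neg_mem hg, h, hh, h0, ho, by rw [← e]; ring⟩

variable {Q}

lemma deuRamLoc_mem_iff (B₀ : Subalgebra K F) (f : F) :
    f ∈ deuRamLoc Q B₀ ↔ ∃ g ∈ B₀, ∃ h ∈ B₀, h ≠ 0 ∧ Q.ord h = 0 ∧ f * h = g := Iff.rfl

lemma deuRamLoc_of_mem {B₀ : Subalgebra K F} {f : F} (hf : f ∈ B₀) : f ∈ deuRamLoc Q B₀ :=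
  ⟨f, hf, 1, B₀.one_mem, one_ne_zero, Q.ord_one, by ring⟩

lemma deuRamLoc_algebraMap (B₀ : Subalgebra K F) (c : K) : algebraMap K F c ∈ deuRamLoc Q B₀ :=
  deuRamLoc_of_mem (B₀.algebraMap_mem c)

/-- Division by an element of `B₀` which is a unit at `Q`. -/
lemma deuRamLoc_div {B₀ : Subalgebra K F} {f h : F} (hf : f ∈ deuRamLoc Q B₀) (hh : h ∈ B₀)
    (h0 : h ≠ 0) (ho : Q.ord h = 0) : f / h ∈ deuRamLoc Q B₀ := by
  obtain ⟨g, hg, h₁, hh₁, h₁0, ho₁, e⟩ := hf
  refine ⟨g, hg, h₁ * h, B₀.mul_mem hh₁ hh, mul_ne_zero h₁0 h0, ?_, ?_⟩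
  · rw [Q.ord_mul h₁0 h0, ho₁, ho, add_zero]
  · rw [← e]
    field_simp

/-- Inverses of units at `Q`. -/
lemma deuRamLoc_inv {B₀ : Subalgebra K F} {f : F} (hf : f ∈ deuRamLoc Q B₀) (h0 : f ≠ 0)
    (ho : Q.ord f = 0) : f⁻¹ ∈ deuRamLoc Q B₀ := by
  obtain ⟨g, hg, h, hh, hh0, hho, e⟩ := hf
  have hg0 : g ≠ 0 := by
    rw [← e]
    exact mul_ne_zero h0 hh0
  refine ⟨h, hh, g, hg, hg0, ?_, ?_⟩
  · rw [← e, Q.ord_mul h0 hh0, ho, hho, add_zero]
  · rw [← e]
    field_simp

lemma deuRamLoc_le {B₀ : Subalgebra K F} (hB₀ : ∀ b ∈ B₀, b ∈ Q.toValuationSubring) {f : F}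
    (hf : f ∈ deuRamLoc Q B₀) : f ∈ Q.toValuationSubring := by
  obtain ⟨g, hg, h, hh, hh0, hho, e⟩ := hf
  rcases eq_or_ne f 0 with rfl | h0
  · exact zero_mem _
  · apply PlaceAux.mem_of_ord_nonneg
    have hg0 : g ≠ 0 := by
      rw [← e]
      exact mul_ne_zero h0 hh0
    have h1 := Q.ord_mul h0 hh0
    rw [e, hho, add_zero] at h1
    rw [← h1]
    exact deuRam_ord_nonneg_of_mem Q (hB₀ g hg)

variable (Q)

/-- `f` lies in the maximal ideal of `Q`. -/
def deuRamPos (f : F) : Prop := f = 0 ∨ 0 < Q.ord f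

variable {Q}

lemma deuRamPos_zero : deuRamPos Q (0 : F) := Or.inl rfl

lemma deuRamPos_mem {f : F} (hf : deuRamPos Q f) : f ∈ Q.toValuationSubring := by
  rcases hf with rfl | h
  · exact zero_mem _
  · exact PlaceAux.mem_of_ord_nonneg Q h.le

lemma deuRamPos_add {f g : F} (hf : deuRamPos Q f) (hg : deuRamPos Q g) :
    deuRamPos Q (f + g) := by
  rcases hf with rfl | hf
  · rwa [zero_add]
  rcases hg with rfl | hg
  · rw [add_zero]
    exact Or.inr hf
  by_cases h0 : f + g = 0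
  · exact Or.inl h0
  · have hf0 : f ≠ 0 := by
      rintro rfl
      simp at hf
    have hg0 : g ≠ 0 := by
      rintro rfl
      simp at hg
    refine Or.inr (lt_of_lt_of_le ?_ (PlaceAux.le_ord_add Q hf0 hg0 h0))
    exact lt_min hf hg

lemma deuRamPos_neg {f : F} (hf : deuRamPos Q f) : deuRamPos Q (-f) := by
  rcases hf with rfl | hf
  · rw [neg_zero]
    exact deuRamPos_zero
  · exact Or.inr (by rwa [PlaceAux.ord_neg])

lemma deuRamPos_sub {f g : F} (hf : deuRamPos Q f) (hg : deuRamPos Q g) :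
    deuRamPos Q (f - g) := by
  rw [sub_eq_add_neg]
  exact deuRamPos_add hf (deuRamPos_neg hg)

lemma deuRamPos_mul {f g : F} (hf : deuRamPos Q f) (hg : g ∈ Q.toValuationSubring) :
    deuRamPos Q (f * g) := by
  rcases hf with rfl | hf
  · rw [zero_mul]
    exact deuRamPos_zero
  rcases eq_or_ne g 0 with rfl | hg0
  · rw [mul_zero]
    exact deuRamPos_zero
  have hf0 : f ≠ 0 := by
    rintro rfl
    simp at hf
  refine Or.inr ?_
  rw [Q.ord_mul hf0 hg0]
  have := deuRam_ord_nonneg_of_mem Q hg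
  omega

lemma deuRamPos_const {c : K} (h : deuRamPos Q (algebraMap K F c)) : c = 0 := by
  rcases h with h | h
  · exact (map_eq_zero _).1 h
  · rw [PlaceAux.ord_algebraMap] at h
    exact absurd h (lt_irrefl _)

/-- An element of `O_Q` outside the maximal ideal is a unit. -/
lemma deuRam_unit_of_not_pos {f : F} (hf : f ∈ Q.toValuationSubring) (h : ¬ deuRamPos Q f) :
    f ≠ 0 ∧ Q.ord f = 0 := by
  have h0 : f ≠ 0 := fun h0 => h (Or.inl h0)
  refine ⟨h0, ?_⟩
  have h1 := deuRam_ord_nonneg_of_mem Q hf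
  have h2 : ¬ 0 < Q.ord f := fun h2 => h (Or.inr h2)
  omega

/-- A unit plus an element of the maximal ideal is a unit. -/
lemma deuRam_ord_add_pos {f g : F} (hf0 : f ≠ 0) (hf : Q.ord f = 0) (hg : deuRamPos Q g) :
    f + g ≠ 0 ∧ Q.ord (f + g) = 0 := by
  rcases hg with rfl | hg
  · rw [add_zero]
    exact ⟨hf0, hf⟩
  have hg0 : g ≠ 0 := by
    rintro rfl
    simp at hg
  have h1 := PlaceAux.ord_add_eq_of_lt Q hf0 hg0 (by rw [hf]; exact hg)
  refine ⟨?_, by rw [h1, hf]⟩
  intro h0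
  rw [h0, Q.ord_zero, hf] at h1
  have : f = -g := eq_neg_of_add_eq_zero_left h0
  rw [this, PlaceAux.ord_neg] at hf
  rw [hf] at hg
  exact lt_irrefl _ hg

/-- The residue of an element of `O_Q`, if the residue field is `K`. -/
lemma deuRam_exists_residue (hres : Function.Surjective (algebraMap K Q.ResidueField)) {g : F}
    (hg : g ∈ Q.toValuationSubring) : ∃ c : K, deuRamPos Q (g - algebraMap K F c) := by
  obtain ⟨c, hc⟩ := hres (IsLocalRing.residue Q.toValuationSubring ⟨g, hg⟩)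
  refine ⟨c, ?_⟩
  have h1 : IsLocalRing.residue Q.toValuationSubring
      (⟨g, hg⟩ - algebraMap K Q.toValuationSubring c) = 0 := by
    rw [map_sub, sub_eq_zero, ← hc]
    rfl
  rw [IsLocalRing.residue_eq_zero_iff] at h1
  by_cases h0 : g - algebraMap K F c = 0
  · exact Or.inl h0
  · refine Or.inr ((PlaceAux.ord_pos_iff_mem_nonunits Q h0).2 ?_)
    rw [ValuationSubring.mem_nonunits_iff_exists_mem_maximalIdeal]
    exact ⟨(⟨g, hg⟩ - algebraMap K Q.toValuationSubring c : Q.toValuationSubring).2, h1⟩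

variable (Q)

/-- `g ≡ c` modulo `t · B`, `B` the localization of `B₀` at `Q`. -/
def deuRamCong (B₀ : Subalgebra K F) (t g : F) (c : K) : Prop :=
  ∃ b ∈ deuRamLoc Q B₀, g - algebraMap K F c = t * b

variable {Q} {B₀ : Subalgebra K F} {t : F}

lemma deuRamCong_const (c : K) : deuRamCong Q B₀ t (algebraMap K F c) c :=
  ⟨0, (deuRamLoc Q B₀).zero_mem, by ring⟩

lemma deuRamCong_mem (ht : t ∈ deuRamLoc Q B₀) {g : F} {c : K} (h : deuRamCong Q B₀ t g c) :
    g ∈ deuRamLoc Q B₀ := by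
  obtain ⟨b, hb, e⟩ := h
  have : g = algebraMap K F c + t * b := by rw [← e]; ring
  rw [this]
  exact (deuRamLoc Q B₀).add_mem (deuRamLoc_algebraMap B₀ c) ((deuRamLoc Q B₀).mul_mem ht hb)

lemma deuRamCong_add {g₁ g₂ : F} {c₁ c₂ : K} (h₁ : deuRamCong Q B₀ t g₁ c₁)
    (h₂ : deuRamCong Q B₀ t g₂ c₂) : deuRamCong Q B₀ t (g₁ + g₂) (c₁ + c₂) := by
  obtain ⟨b₁, hb₁, e₁⟩ := h₁
  obtain ⟨b₂, hb₂, e₂⟩ := h₂
  refine ⟨b₁ + b₂, (deuRamLoc Q B₀).add_mem hb₁ hb₂, ?_⟩
  rw [map_add, mul_add, ← e₁, ← e₂]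
  ring

lemma deuRamCong_mul (ht : t ∈ deuRamLoc Q B₀) {g₁ g₂ : F} {c₁ c₂ : K}
    (h₁ : deuRamCong Q B₀ t g₁ c₁) (h₂ : deuRamCong Q B₀ t g₂ c₂) :
    deuRamCong Q B₀ t (g₁ * g₂) (c₁ * c₂) := by
  have hg₂ := deuRamCong_mem ht h₂
  obtain ⟨b₁, hb₁, e₁⟩ := h₁
  obtain ⟨b₂, hb₂, e₂⟩ := h₂
  refine ⟨b₁ * g₂ + algebraMap K F c₁ * b₂, (deuRamLoc Q B₀).add_mem
    ((deuRamLoc Q B₀).mul_mem hb₁ hg₂)
    ((deuRamLoc Q B₀).mul_mem (deuRamLoc_algebraMap B₀ c₁) hb₂), ?_⟩
  have e₁' : g₁ = algebraMap K F c₁ + t * b₁ := by rw [← e₁]; ring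
  have e₂' : t * b₂ = g₂ - algebraMap K F c₂ := e₂.symm
  rw [map_mul]
  calc g₁ * g₂ - algebraMap K F c₁ * algebraMap K F c₂
      = (g₁ - algebraMap K F c₁) * g₂ + algebraMap K F c₁ * (g₂ - algebraMap K F c₂) := by ring
    _ = t * b₁ * g₂ + algebraMap K F c₁ * (t * b₂) := by rw [e₁, e₂]
    _ = t * (b₁ * g₂ + algebraMap K F c₁ * b₂) := by ring

lemma deuRamCong_pow (ht : t ∈ deuRamLoc Q B₀) {g : F} {c : K} (h : deuRamCong Q B₀ t g c)
    (n : ℕ) : deuRamCong Q B₀ t (g ^ n) (c ^ n) := by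
  induction n with
  | zero =>
    rw [pow_zero, pow_zero]
    have := deuRamCong_const (Q := Q) (B₀ := B₀) (t := t) (1 : K)
    rwa [map_one] at this
  | succ n ih =>
    rw [pow_succ, pow_succ]
    exact deuRamCong_mul ht ih h

lemma deuRamCong_sum (ι : Type*) (s : Finset ι) (g : ι → F) (c : ι → K)
    (h : ∀ i ∈ s, deuRamCong Q B₀ t (g i) (c i)) :
    deuRamCong Q B₀ t (∑ i ∈ s, g i) (∑ i ∈ s, c i) := by
  classical
  induction s using Finset.induction_on with
  | empty =>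
    rw [Finset.sum_empty, Finset.sum_empty]
    have := deuRamCong_const (Q := Q) (B₀ := B₀) (t := t) (0 : K)
    rwa [map_zero] at this
  | insert a s ha ih =>
    rw [Finset.sum_insert ha, Finset.sum_insert ha]
    exact deuRamCong_add (h a (Finset.mem_insert_self a s))
      (ih fun i hi => h i (Finset.mem_insert_of_mem hi))

/-- Evaluation of polynomials respects the congruence. -/
lemma deuRamCong_aeval (ht : t ∈ deuRamLoc Q B₀) {g : F} {c : K} (h : deuRamCong Q B₀ t g c)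
    (r : K[X]) : deuRamCong Q B₀ t (aeval g r) (r.eval c) := by
  induction r using Polynomial.induction_on with
  | C a =>
    rw [aeval_C, eval_C]
    exact deuRamCong_const a
  | add p q hp hq =>
    rw [map_add, eval_add]
    exact deuRamCong_add hp hq
  | monomial n a ih =>
    rw [map_mul, aeval_C, map_pow, aeval_X, eval_mul, eval_C, eval_pow, eval_X]
    exact deuRamCong_mul ht (deuRamCong_const a) (deuRamCong_pow ht h (n + 1))

lemma deuRamCong_pos (hB₀ : ∀ b ∈ B₀, b ∈ Q.toValuationSubring) (htp : deuRamPos Q t) {g : F}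
    {c : K} (h : deuRamCong Q B₀ t g c) : deuRamPos Q (g - algebraMap K F c) := by
  obtain ⟨b, hb, e⟩ := h
  rw [e]
  exact deuRamPos_mul htp (deuRamLoc_le hB₀ hb)

/-- Inverses respect the congruence. -/
lemma deuRamCong_inv (hB₀ : ∀ b ∈ B₀, b ∈ Q.toValuationSubring) (ht : t ∈ deuRamLoc Q B₀)
    (htp : deuRamPos Q t) {g : F} {c : K} (h : deuRamCong Q B₀ t g c) (hc : c ≠ 0) :
    deuRamCong Q B₀ t g⁻¹ c⁻¹ := by
  have hg := deuRamCong_mem ht h
  have hpos := deuRamCong_pos hB₀ htp h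
  have hc0 : algebraMap K F c ≠ 0 := (_root_.map_ne_zero _).2 hc
  have hu := deuRam_ord_add_pos (Q := Q) hc0 (PlaceAux.ord_algebraMap Q c) hpos
  rw [add_sub_cancel] at hu
  obtain ⟨b, hb, e⟩ := h
  refine ⟨-(b * g⁻¹ * algebraMap K F c⁻¹), (deuRamLoc Q B₀).neg_mem
    ((deuRamLoc Q B₀).mul_mem ((deuRamLoc Q B₀).mul_mem hb (deuRamLoc_inv hg hu.1 hu.2))
      (deuRamLoc_algebraMap B₀ _)), ?_⟩
  have hg0 := hu.1
  rw [map_inv₀]
  have e' : t * b = g - algebraMap K F c := e.symm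
  calc g⁻¹ - (algebraMap K F c)⁻¹
      = -((g - algebraMap K F c) * g⁻¹ * (algebraMap K F c)⁻¹) := by
        field_simp
        ring
    _ = t * -(b * g⁻¹ * (algebraMap K F c)⁻¹) := by rw [← e']; ring

/-- If all generators are congruent to constants, so is every element of `B₀`. -/
lemma deuRamCong_adjoin (S : Set F) (ht : t ∈ deuRamLoc Q (Algebra.adjoin K S))
    (hS : ∀ g ∈ S, ∃ c : K, deuRamCong Q (Algebra.adjoin K S) t g c) :
    ∀ g ∈ Algebra.adjoin K S, ∃ c : K, deuRamCong Q (Algebra.adjoin K S) t g c := by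
  intro g hg
  induction hg using Algebra.adjoin_induction with
  | mem g hg => exact hS g hg
  | algebraMap a => exact ⟨a, deuRamCong_const a⟩
  | add g₁ g₂ _ _ h₁ h₂ =>
    obtain ⟨c₁, h₁⟩ := h₁
    obtain ⟨c₂, h₂⟩ := h₂
    exact ⟨c₁ + c₂, deuRamCong_add h₁ h₂⟩
  | mul g₁ g₂ _ _ h₁ h₂ =>
    obtain ⟨c₁, h₁⟩ := h₁
    obtain ⟨c₂, h₂⟩ := h₂
    exact ⟨c₁ * c₂, deuRamCong_mul ht h₁ h₂⟩

/-- **Divisibility in the localization**: if every element of `B₀` is congruent to a constant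
modulo `t · B`, then every element of `B` of positive order is divisible by `t` in `B`. -/
lemma deuRam_hdiv (hB₀ : ∀ b ∈ B₀, b ∈ Q.toValuationSubring) (htp : deuRamPos Q t)
    (hcong : ∀ g ∈ B₀, ∃ c : K, deuRamCong Q B₀ t g c) :
    ∀ f ∈ deuRamLoc Q B₀, f ≠ 0 → 0 < Q.ord f → ∃ b' ∈ deuRamLoc Q B₀, f = t * b' := by
  rintro f ⟨g, hg, h, hh, hh0, hho, e⟩ hf0 hfpos
  obtain ⟨c, hc⟩ := hcong g hg
  have hgpos : deuRamPos Q g := by
    refine Or.inr ?_
    rw [← e, Q.ord_mul hf0 hh0, hho, add_zero]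
    exact hfpos
  have hc0 : c = 0 := by
    apply deuRamPos_const (Q := Q)
    have h1 := deuRamCong_pos hB₀ htp hc
    have h2 := deuRamPos_sub hgpos h1
    rwa [sub_sub_cancel] at h2
  obtain ⟨b, hb, eb⟩ := hc
  rw [hc0, map_zero, sub_zero] at eb
  refine ⟨b / h, deuRamLoc_div hb hh hh0 hho, ?_⟩
  rw [← mul_div_assoc, ← eb, ← e]
  field_simp

/-- **The root step.** A root `y` of a polynomial `p` whose coefficients are congruent to
constants, with `p'(y)` a unit at `Q`, is congruent to a constant. -/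
lemma deuRamCong_root (hB₀ : ∀ b ∈ B₀, b ∈ Q.toValuationSubring) (ht : t ∈ deuRamLoc Q B₀)
    (htp : deuRamPos Q t) {y : F} (hy : y ∈ B₀) {d : K}
    (hyd : deuRamPos Q (y - algebraMap K F d)) (p : F[X])
    (hcoeff : ∀ i, ∃ a : K, deuRamCong Q B₀ t (p.coeff i) a)
    (hp : p.eval y = 0) (hder0 : p.derivative.eval y ≠ 0)
    (hder : Q.ord (p.derivative.eval y) = 0) : deuRamCong Q B₀ t y d := by
  have hcoeffs : (↑p.coeffs : Set F) ⊆ (deuRamLoc Q B₀ : Set F) := by
    intro a ha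
    rw [Finset.mem_coe, Polynomial.mem_coeffs_iff] at ha
    obtain ⟨n, -, rfl⟩ := ha
    obtain ⟨a, ha⟩ := hcoeff n
    exact deuRamCong_mem ht ha
  have hmap := Polynomial.map_toSubring p (deuRamLoc Q B₀) hcoeffs
  have hev : ∀ z : deuRamLoc Q B₀,
      (((p.toSubring (deuRamLoc Q B₀) hcoeffs).eval z : deuRamLoc Q B₀) : F) = p.eval (z : F) := by
    intro z
    have h1 := Polynomial.eval₂_at_apply (p := p.toSubring (deuRamLoc Q B₀) hcoeffs)
      (deuRamLoc Q B₀).subtype z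
    rw [← Polynomial.eval_map, hmap] at h1
    exact h1.symm
  have hevd : ∀ z : deuRamLoc Q B₀,
      (((p.toSubring (deuRamLoc Q B₀) hcoeffs).derivative.eval z : deuRamLoc Q B₀) : F) =
        p.derivative.eval (z : F) := by
    intro z
    have h1 := Polynomial.eval₂_at_apply
      (p := (p.toSubring (deuRamLoc Q B₀) hcoeffs).derivative) (deuRamLoc Q B₀).subtype z
    rw [← Polynomial.eval_map, ← Polynomial.derivative_map, hmap] at h1
    exact h1.symm
  obtain ⟨k, hk⟩ := Polynomial.binomExpansion (p.toSubring (deuRamLoc Q B₀) hcoeffs)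
    (⟨y, deuRamLoc_of_mem hy⟩ : deuRamLoc Q B₀)
    ((⟨algebraMap K F d, deuRamLoc_algebraMap B₀ d⟩ : deuRamLoc Q B₀) - ⟨y, deuRamLoc_of_mem hy⟩)
  rw [add_sub_cancel] at hk
  have hk' := congrArg (fun z : deuRamLoc Q B₀ => (z : F)) hk
  simp only [Subring.coe_add, Subring.coe_mul, Subring.coe_pow, AddSubgroupClass.coe_sub, hev,
    hevd] at hk'
  rw [hp, zero_add] at hk'
  -- `U = p'(y) + k (d - y)` is a unit
  have hdy : deuRamPos Q (algebraMap K F d - y) := by
    have := deuRamPos_neg hyd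
    rwa [neg_sub] at this
  have hkpos : deuRamPos Q ((k : F) * (algebraMap K F d - y)) := by
    rw [mul_comm]
    exact deuRamPos_mul hdy (deuRamLoc_le hB₀ k.2)
  have hU := deuRam_ord_add_pos (Q := Q) hder0 hder hkpos
  have hUmem : p.derivative.eval y + (k : F) * (algebraMap K F d - y) ∈ deuRamLoc Q B₀ := by
    refine (deuRamLoc Q B₀).add_mem ?_ ((deuRamLoc Q B₀).mul_mem k.2
      ((deuRamLoc Q B₀).sub_mem (deuRamLoc_algebraMap B₀ d) (deuRamLoc_of_mem hy)))
    have := ((p.toSubring (deuRamLoc Q B₀) hcoeffs).derivative.eval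
      (⟨y, deuRamLoc_of_mem hy⟩ : deuRamLoc Q B₀)).2
    rwa [hevd] at this
  have hfac : p.eval (algebraMap K F d) =
      (algebraMap K F d - y) * (p.derivative.eval y + (k : F) * (algebraMap K F d - y)) := by
    rw [hk']
    ring
  -- `p(d)` is congruent to a constant, which must vanish
  choose a ha using hcoeff
  have hcong : deuRamCong Q B₀ t (p.eval (algebraMap K F d))
      (∑ i ∈ Finset.range (p.natDegree + 1), a i * d ^ i) := by
    rw [Polynomial.eval_eq_sum_range]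
    refine deuRamCong_sum _ _ _ _ fun i _ => ?_
    exact deuRamCong_mul ht (ha i) (deuRamCong_pow ht (deuRamCong_const d) i)
  have hpos1 : deuRamPos Q (p.eval (algebraMap K F d)) := by
    rw [hfac]
    exact deuRamPos_mul hdy (deuRamLoc_le hB₀ hUmem)
  have hc0 : (∑ i ∈ Finset.range (p.natDegree + 1), a i * d ^ i) = 0 := by
    apply deuRamPos_const (Q := Q)
    have h2 := deuRamPos_sub hpos1 (deuRamCong_pos hB₀ htp hcong)
    rwa [sub_sub_cancel] at h2
  obtain ⟨b, hb, eb⟩ := hcong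
  rw [hc0, map_zero, sub_zero, hfac] at eb
  refine ⟨-(b * (p.derivative.eval y + (k : F) * (algebraMap K F d - y))⁻¹),
    (deuRamLoc Q B₀).neg_mem ((deuRamLoc Q B₀).mul_mem hb (deuRamLoc_inv hUmem hU.1 hU.2)), ?_⟩
  have hU0 := hU.1
  have : y - algebraMap K F d = -((algebraMap K F d - y) *
      (p.derivative.eval y + (k : F) * (algebraMap K F d - y))) *
      (p.derivative.eval y + (k : F) * (algebraMap K F d - y))⁻¹ := by
    rw [neg_mul, mul_assoc, mul_inv_cancel₀ hU0, mul_one, neg_sub]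
  rw [this, eb]
  ring

/-- Rational functions in `x` with denominator a unit at `Q` are congruent to constants. -/
lemma deuRamCong_ratfunc (hB₀ : ∀ b ∈ B₀, b ∈ Q.toValuationSubring) (ht : t ∈ deuRamLoc Q B₀)
    (htp : deuRamPos Q t) {x : F} {c : K} (hx : deuRamCong Q B₀ t x c) (r s : K[X])
    (hs0 : aeval x s ≠ 0) (hs : Q.ord (aeval x s) = 0) :
    ∃ a : K, deuRamCong Q B₀ t (aeval x r / aeval x s) a := by
  have hr' := deuRamCong_aeval ht hx r
  have hs' := deuRamCong_aeval ht hx s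
  have hsc : s.eval c ≠ 0 := by
    intro h0
    have h1 := deuRamCong_pos hB₀ htp hs'
    rw [h0, map_zero, sub_zero] at h1
    rcases h1 with h1 | h1
    · exact hs0 h1
    · rw [hs] at h1
      exact lt_irrefl _ h1
  refine ⟨r.eval c * (s.eval c)⁻¹, ?_⟩
  rw [div_eq_mul_inv]
  exact deuRamCong_mul ht hr' (deuRamCong_inv hB₀ ht htp hs' hsc)

end deuRamLocal

section deuRamGlobal

variable {K F : Type*} [Field K] [Field F] [Algebra K F]

/-- **Local theorem.** Let `F = K(x, y)`, `p(y) = 0` with `p ∈ K(x)[Y]`, and let `Q` be a place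
with residue field `K` at which `x`, `y` are regular, the denominators of the coefficients of `p`
are units and `p'(y)` is a unit.  Then `x - c` is a uniformizer at `Q` for some `c ∈ K`. -/
theorem deuRam_ord_eq_one (Q : Place K F)
    (hres : Function.Surjective (algebraMap K Q.ResidueField)) (x y : F)
    (hx : x ∈ Q.toValuationSubring) (hy : y ∈ Q.toValuationSubring)
    (hgen : ∀ f : F, ∃ g ∈ Algebra.adjoin K ({x, y} : Set F),
      ∃ h ∈ Algebra.adjoin K ({x, y} : Set F), h ≠ 0 ∧ f * h = g)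
    (p : F[X]) (r s : ℕ → K[X]) (hcoeff : ∀ i, p.coeff i = aeval x (r i) / aeval x (s i))
    (hs0 : ∀ i, aeval x (s i) ≠ 0) (hs : ∀ i, Q.ord (aeval x (s i)) = 0)
    (hp : p.eval y = 0) (hder0 : p.derivative.eval y ≠ 0)
    (hder : Q.ord (p.derivative.eval y) = 0) :
    ∃ c : K, Q.ord (x - algebraMap K F c) = 1 := by
  have hxB : x ∈ Algebra.adjoin K ({x, y} : Set F) := Algebra.subset_adjoin (by simp)
  have hyB : y ∈ Algebra.adjoin K ({x, y} : Set F) := Algebra.subset_adjoin (by simp)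
  have hB₀ : ∀ b ∈ Algebra.adjoin K ({x, y} : Set F), b ∈ Q.toValuationSubring := by
    intro b hb
    induction hb using Algebra.adjoin_induction with
    | mem g hg =>
      rcases hg with rfl | hg
      · exact hx
      · rw [Set.mem_singleton_iff] at hg
        rw [hg]
        exact hy
    | algebraMap a => exact Q.algebraMap_mem' a
    | add g₁ g₂ _ _ h₁ h₂ => exact add_mem h₁ h₂
    | mul g₁ g₂ _ _ h₁ h₂ => exact mul_mem h₁ h₂
  obtain ⟨c₀, hc₀⟩ := deuRam_exists_residue hres hx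
  obtain ⟨d, hd⟩ := deuRam_exists_residue hres hy
  refine ⟨c₀, ?_⟩
  have ht : x - algebraMap K F c₀ ∈ deuRamLoc Q (Algebra.adjoin K ({x, y} : Set F)) :=
    (deuRamLoc Q _).sub_mem (deuRamLoc_of_mem hxB) (deuRamLoc_algebraMap _ c₀)
  have hxc : deuRamCong Q (Algebra.adjoin K ({x, y} : Set F)) (x - algebraMap K F c₀) x c₀ :=
    ⟨1, (deuRamLoc Q _).one_mem, by ring⟩
  have hcoeffC : ∀ i, ∃ a : K,
      deuRamCong Q (Algebra.adjoin K ({x, y} : Set F)) (x - algebraMap K F c₀) (p.coeff i) a := by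
    intro i
    rw [hcoeff i]
    exact deuRamCong_ratfunc hB₀ ht hc₀ hxc (r i) (s i) (hs0 i) (hs i)
  have hyc : deuRamCong Q (Algebra.adjoin K ({x, y} : Set F)) (x - algebraMap K F c₀) y d :=
    deuRamCong_root hB₀ ht hc₀ hyB hd p hcoeffC hp hder0 hder
  have hall := deuRamCong_adjoin (Q := Q) ({x, y} : Set F) ht (by
    intro g hg
    rcases hg with rfl | hg
    · exact ⟨c₀, hxc⟩
    · rw [Set.mem_singleton_iff] at hg
      rw [hg]
      exact ⟨d, hyc⟩)
  have ht0 : x - algebraMap K F c₀ ≠ 0 := by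
    intro h0
    apply Q.ne_top'
    refine SetLike.ext fun f => ⟨fun _ => ValuationSubring.mem_top f, fun _ => ?_⟩
    obtain ⟨g, hg, h, hh, hh0, e⟩ := hgen f
    obtain ⟨c₁, b₁, -, e₁⟩ := hall g hg
    obtain ⟨c₂, b₂, -, e₂⟩ := hall h hh
    rw [h0, zero_mul, sub_eq_zero] at e₁ e₂
    have hf : f = algebraMap K F (c₁ / c₂) := by
      rw [map_div₀, ← e₁, ← e₂, ← e]
      field_simp
    rw [hf]
    exact Q.algebraMap_mem' _
  have htpos : 0 < Q.ord (x - algebraMap K F c₀) := by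
    rcases hc₀ with h | h
    · exact absurd h ht0
    · exact h
  refine deuRam_local Q _ htpos (deuRamLoc Q (Algebra.adjoin K ({x, y} : Set F)) : Set F)
    (fun b hb => deuRamLoc_le hB₀ hb) (deuRam_hdiv hB₀ hc₀ hall) ?_
  intro f
  obtain ⟨g, hg, h, hh, hh0, e⟩ := hgen f
  exact ⟨g, deuRamLoc_of_mem hg, h, deuRamLoc_of_mem hh, hh0, e⟩

lemma deuRam_finite_neg (hfin : ∀ f : F, f ≠ 0 → {Q : Place K F | Q.ord f ≠ 0}.Finite) (f : F) :
    {Q : Place K F | Q.ord f < 0}.Finite := by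
  rcases eq_or_ne f 0 with rfl | h0
  · convert Set.finite_empty
    ext Q
    simp
  · exact (hfin f h0).subset fun Q hQ => ne_of_lt hQ

/-- **Global theorem** (explicit data): `F = K(x, y)`, `p(y) = 0`, `p'(y) ≠ 0`, `p ∈ K(x)[Y]`.
Then `x` is unramified outside a finite set of places. -/
theorem deuRam_finite_of_data
    (hfin : ∀ f : F, f ≠ 0 → {Q : Place K F | Q.ord f ≠ 0}.Finite)
    (hres : ∀ Q : Place K F, Function.Surjective (algebraMap K Q.ResidueField)) (x y : F)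
    (hgen : ∀ f : F, ∃ g ∈ Algebra.adjoin K ({x, y} : Set F),
      ∃ h ∈ Algebra.adjoin K ({x, y} : Set F), h ≠ 0 ∧ f * h = g)
    (p : F[X]) (hcoeff : ∀ i, p.coeff i ∈ IntermediateField.adjoin K ({x} : Set F))
    (hp : p.eval y = 0) (hder0 : p.derivative.eval y ≠ 0) :
    {Q : Place K F | ¬ ∃ c : K, Q.ord (x - algebraMap K F c) = 1}.Finite := by
  have hrs : ∀ i, ∃ r s : K[X], p.coeff i = aeval x r / aeval x s ∧ aeval x s ≠ 0 ∧
      (p.coeff i = 0 → s = 1) := by
    intro i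
    by_cases h0 : p.coeff i = 0
    · exact ⟨0, 1, by simp [h0], by simp, fun _ => rfl⟩
    · obtain ⟨r, s, e⟩ := (IntermediateField.mem_adjoin_simple_iff K (p.coeff i)).1 (hcoeff i)
      refine ⟨r, s, e, ?_, fun h => absurd h h0⟩
      intro hs
      rw [hs, div_zero] at e
      exact h0 e
  choose r s hcoe hs0 hs1 using hrs
  have hE : ({Q : Place K F | Q.ord x < 0} ∪ {Q : Place K F | Q.ord y < 0} ∪
      (⋃ i ∈ Finset.range (p.natDegree + 1), {Q : Place K F | Q.ord (aeval x (s i)) ≠ 0}) ∪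
      {Q : Place K F | Q.ord (p.derivative.eval y) ≠ 0}).Finite := by
    refine Set.Finite.union (Set.Finite.union (Set.Finite.union (deuRam_finite_neg hfin x)
      (deuRam_finite_neg hfin y)) ?_) (hfin _ hder0)
    exact Set.Finite.biUnion (Finset.finite_toSet _) fun i _ => hfin _ (hs0 i)
  refine hE.subset fun Q hQ => ?_
  by_contra hnot
  apply hQ
  simp only [Set.mem_union, Set.mem_ofPred_eq, Set.mem_iUnion, Finset.mem_range, not_or, not_lt,
    not_exists, not_not] at hnot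
  obtain ⟨⟨⟨hx, hy⟩, hsi⟩, hder⟩ := hnot
  refine deuRam_ord_eq_one Q (hres Q) x y (PlaceAux.mem_of_ord_nonneg Q hx)
    (PlaceAux.mem_of_ord_nonneg Q hy) hgen p r s hcoe hs0 ?_ hp hder0 hder
  intro i
  by_cases hi : i < p.natDegree + 1
  · exact hsi i hi
  · have h0 : p.coeff i = 0 := Polynomial.coeff_eq_zero_of_natDegree_lt (by omega)
    rw [hs1 i h0]
    simp

/-- **MPR-ram, generic form.** If `F / K(x)` is finite separable, principal divisors are finite
and all residue fields are `K`, then `x` is unramified outside a finite set of places. -/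
theorem deuRam_finite_of_separable [HasPrincipalDivisors K F]
    (hres : ∀ Q : Place K F, Function.Surjective (algebraMap K Q.ResidueField)) (x : F)
    [FiniteDimensional (IntermediateField.adjoin K ({x} : Set F)) F]
    [Algebra.IsSeparable (IntermediateField.adjoin K ({x} : Set F)) F] :
    {Q : Place K F | ¬ ∃ c : K, Q.ord (x - algebraMap K F c) = 1}.Finite := by
  have hfin : ∀ f : F, f ≠ 0 → {Q : Place K F | Q.ord f ≠ 0}.Finite := by
    intro f hf
    obtain ⟨D, hD, -⟩ := HasPrincipalDivisors.exists_divisor (K := K) f hf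
    refine D.support.finite_toSet.subset fun Q hQ => ?_
    rw [Finset.mem_coe, Finsupp.mem_support_iff, hD]
    exact hQ
  obtain ⟨y, hy⟩ := Field.exists_primitive_element (IntermediateField.adjoin K ({x} : Set F)) F
  have hgen : ∀ f : F, ∃ g ∈ Algebra.adjoin K ({x, y} : Set F),
      ∃ h ∈ Algebra.adjoin K ({x, y} : Set F), h ≠ 0 ∧ f * h = g := by
    intro f
    have h1 : f ∈ IntermediateField.adjoin K ({x, y} : Set F) := by
      rw [← IntermediateField.adjoin_simple_adjoin_simple, IntermediateField.mem_restrictScalars,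
        hy]
      exact IntermediateField.mem_top
    obtain ⟨g, hg, h, hh, e⟩ := IntermediateField.mem_adjoin_iff_div.1 h1
    by_cases h0 : h = 0
    · refine ⟨0, Subalgebra.zero_mem _, 1, Subalgebra.one_mem _, one_ne_zero, ?_⟩
      rw [e, h0, div_zero, zero_mul]
    · refine ⟨g, hg, h, hh, h0, ?_⟩
      rw [e]
      field_simp
  have hsep : (minpoly (IntermediateField.adjoin K ({x} : Set F)) y).Separable :=
    Algebra.IsSeparable.isSeparable _ y
  have hint : IsIntegral (IntermediateField.adjoin K ({x} : Set F)) y :=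
    Algebra.IsIntegral.isIntegral y
  refine deuRam_finite_of_data hfin hres x y hgen
    ((minpoly (IntermediateField.adjoin K ({x} : Set F)) y).map
      (algebraMap (IntermediateField.adjoin K ({x} : Set F)) F)) ?_ ?_ ?_
  · intro i
    rw [Polynomial.coeff_map]
    exact ((minpoly (IntermediateField.adjoin K ({x} : Set F)) y).coeff i).2
  · rw [Polynomial.eval_map, ← Polynomial.aeval_def]
    exact minpoly.aeval _ y
  · rw [Polynomial.derivative_map, Polynomial.eval_map, ← Polynomial.aeval_def]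
    exact hsep.aeval_derivative_ne_zero (minpoly.aeval _ y)

end deuRamGlobal

end Fermat.Agent.DEU


end ZBDEU_008_0
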