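/- GENERATED FILE (helper35, build-time optimisation, NOTES/ZB.md): verbatim concatenation of the modules
   Fermat.Agent.UNIP.NodesCuspPoly
   Fermat.Agent.UNIP.NodesSwap
   Fermat.Agent.UNIP.MGChartsBeta0SS1
   Do not edit; do not import together with these modules. -/
import Mathlib
import Fermat.Agent.ZB.S18_002
import Fermat.Agent.ZB.UNIP_011
import Fermat.Agent.ZB.S28_002
import Fermat.Agent.ZB.S28_006
import Fermat.Agent.ZB.S34_001

/-! ### bundled: `Fermat.Agent.UNIP.NodesCuspPoly` -/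
section ZBUNIP_012_0

/-!
# UNIP / U5 "Cusp": the pure algebra (helper92)

Mathlib only.  Conventions: a bivariate polynomial `Φ : Polynomial (Polynomial A)` is `Φ(X, Y)`
with `X` the OUTER variable and `Y` the INNER one; `Φ(x, y) = Φ.eval₂ (aeval y) x`.

* `cuspEll Φ` : the reverse `ℓ(T) = Σ_i (coeff of Xⁱ in Φ(X, 0)) · T^{n - i}` of `Φ(X, 0)`
  (`n = natDegree Φ`); `cuspEll_coeff_zero` (`ℓ(0) = 1` for monic `Φ`), `cuspEll_map`.
* `cusp_kronecker` (KR): over a field `k`, a monic `Φ̄` of `X`-degree `q + 1` with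
  `Φ̄(t^q, t) = 0 = Φ̄(t, t^q)`, `t` transcendental in a domain, is `(X - Y^q) (X^q - Y)`;
  `cusp_kronecker_map_constantCoeff` (`Φ̄(X, 0) = X^{q+1}`), `cuspEll_eq_one_of_kronecker`.
* `cusp_isIntegral_ell_mul` (P1): `Φ(b, a) = 0`, `a, b ≠ 0` in a field ⟹ `ℓ(b⁻¹) · a⁻¹` is integral
  over `A[b⁻¹]`.
  Variants: `cusp_isIntegral_ell_mul_tower` (`Φ` over `Z`, integrality over `A[b⁻¹]`),
  `cusp_isIntegral_ell_mul_int` (`Φ ∈ ℤ[Y][X]`, evaluated through any `f : ℤ[Y] →+* F`).
* `cusp_exists_pow_mul_isIntegral` (P3): `L`, `L · T` integral over `A[u]`, `x` integral over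
  `A[T]` ⟹ `L ^ N · x` integral over `A[u]` for some `N`.
* helpers: `cusp_isIntegral_adjoin_iff` (integral over `A[u]` ⟺ integral along `aeval u`),
  `cusp_isIntegral_adjoin_tower`, `cusp_isIntegral_adjoin_map` (transport along `σ`),
  `cusp_isIntegral_adjoin_trans`.
-/

set_option autoImplicit false

noncomputable section

namespace Fermat.Agent.UNIP

open Polynomial

/-! ### Coefficients of `swap` -/

section Swap

variable {R : Type*} [CommSemiring R]

theorem cusp_coeff_coeff_swap (p : Polynomial (Polynomial R)) (i j : ℕ) :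
    ((Polynomial.Bivariate.swap p).coeff i).coeff j = (p.coeff j).coeff i := by
  induction p using Polynomial.induction_on' with
  | add p q hp hq => simp only [map_add, coeff_add, hp, hq]
  | monomial n a =>
    induction a using Polynomial.induction_on' with
    | add a b ha hb =>
      simp only [map_add, coeff_add, ha, hb]
    | monomial m r =>
      rw [Polynomial.Bivariate.swap_monomial_monomial]
      simp only [coeff_monomial]
      by_cases h1 : m = i <;> by_cases h2 : n = j <;> simp [h1, h2, coeff_monomial]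

theorem cusp_aevalAeval_eq {S : Type*} [CommSemiring S] [Algebra R S] (x y : S)
    (p : Polynomial (Polynomial R)) :
    aevalAeval x y p
      = p.eval₂ ((aeval x : Polynomial R →ₐ[R] S) : Polynomial R →+* S) y := by
  induction p using Polynomial.induction_on' with
  | add p q hp hq => simp only [map_add, eval₂_add, hp, hq]
  | monomial n c =>
    rw [eval₂_monomial, ← C_mul_X_pow_eq_monomial, map_mul, map_pow, aevalAeval_C, aevalAeval_Y]
    rfl

end Swap

/-! ### The polynomial `ℓ` -/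

section Ell

variable {A : Type*} [CommRing A]

/-- `ℓ(T) = Σ_i (coeff of Xⁱ in Φ(X, 0)) · T^{n - i}`, `n = natDegree Φ`: the reverse of
`Φ(X, 0)`. -/
def cuspEll (Φ : Polynomial (Polynomial A)) : Polynomial A :=
  reflect Φ.natDegree (Φ.map Polynomial.constantCoeff)

theorem cuspEll_coeff (Φ : Polynomial (Polynomial A)) (j : ℕ) :
    (cuspEll Φ).coeff j = (Φ.coeff (revAt Φ.natDegree j)).coeff 0 := by
  rw [cuspEll, coeff_reflect, coeff_map]
  rfl

/-- `ℓ(0) = 1` -/
theorem cuspEll_coeff_zero {Φ : Polynomial (Polynomial A)} (hΦ : Φ.Monic) :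
    (cuspEll Φ).coeff 0 = 1 := by
  rw [cuspEll_coeff, revAt_zero, hΦ.coeff_natDegree, coeff_one_zero]

/-- `ℓ` commutes with base change. -/
theorem cuspEll_map {B : Type*} [CommRing B] (r : A →+* B) {Φ : Polynomial (Polynomial A)}
    (hΦ : Φ.Monic) : cuspEll (Φ.map (mapRingHom r)) = (cuspEll Φ).map r := by
  rcases subsingleton_or_nontrivial B with h | h
  · exact Subsingleton.elim _ _
  · rw [cuspEll, cuspEll, hΦ.natDegree_map, ← reflect_map, Polynomial.map_map,
      Polynomial.map_map]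
    congr 2
    ext g <;> simp

end Ell

/-! ### Integrality lemmas -/

section Integral

/-- If `p(x) = 0` and `natDegree p ≤ m` then `(coeff of X^m) · x` is integral. -/
theorem cusp_isIntegralElem_coeff_mul {R S : Type*} [CommRing R] [CommRing S] (f : R →+* S)
    (p : Polynomial R) (m : ℕ) (hm : p.natDegree ≤ m) (x : S) (h : p.eval₂ f x = 0) :
    f.IsIntegralElem (f (p.coeff m) * x) := by
  by_cases h0 : p.coeff m = 0
  · rw [h0, map_zero, zero_mul]
    exact f.isIntegralElem_zero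
  · have hdeg : p.natDegree = m := le_antisymm hm (le_natDegree_of_ne_zero h0)
    have := f.isIntegralElem_leadingCoeff_mul p x h
    rwa [leadingCoeff, hdeg] at this

/-- integrality along `aeval u : A[X] → S` is integrality over `A[u]` -/
theorem cusp_isIntegral_adjoin_of_isIntegralElem {A S : Type*} [CommRing A] [CommRing S]
    [Algebra A S] (u y : S)
    (h : ((aeval u : Polynomial A →ₐ[A] S) : Polynomial A →+* S).IsIntegralElem y) :
    IsIntegral (Algebra.adjoin A {u}) y := by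
  obtain ⟨p, hp, hpy⟩ := h
  have hmem : ∀ g : Polynomial A, aeval u g ∈ Algebra.adjoin A {u} := fun g => by
    rw [Algebra.adjoin_singleton_eq_range_aeval]
    exact ⟨g, rfl⟩
  let φ : Polynomial A →+* Algebra.adjoin A {u} :=
    ((aeval u : Polynomial A →ₐ[A] S).codRestrict _ hmem : Polynomial A →ₐ[A] _)
  refine ⟨p.map φ, hp.map φ, ?_⟩
  rw [eval₂_map]
  have hc : (algebraMap (Algebra.adjoin A {u}) S).comp φ
      = ((aeval u : Polynomial A →ₐ[A] S) : Polynomial A →+* S) := by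
    ext g <;> rfl
  rw [hc]
  exact hpy

/-- integrality over `A[u]` is integrality along `aeval u : A[X] → S` -/
theorem cusp_isIntegralElem_of_isIntegral_adjoin {A S : Type*} [CommRing A] [CommRing S]
    [Algebra A S] (u y : S) (h : IsIntegral (Algebra.adjoin A {u}) y) :
    ((aeval u : Polynomial A →ₐ[A] S) : Polynomial A →+* S).IsIntegralElem y := by
  obtain ⟨p, hp, hpy⟩ := h
  have hmem : ∀ g : Polynomial A, aeval u g ∈ Algebra.adjoin A {u} := fun g => by
    rw [Algebra.adjoin_singleton_eq_range_aeval]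
    exact ⟨g, rfl⟩
  let φ : Polynomial A →+* Algebra.adjoin A {u} :=
    ((aeval u : Polynomial A →ₐ[A] S).codRestrict _ hmem : Polynomial A →ₐ[A] _)
  have hφ : Function.Surjective φ := by
    rintro ⟨z, hz⟩
    have hz' : z ∈ (aeval u : Polynomial A →ₐ[A] S).range := by
      rw [← Algebra.adjoin_singleton_eq_range_aeval]
      exact hz
    obtain ⟨g, hg⟩ := hz'
    exact ⟨g, Subtype.ext hg⟩
  have hl : p ∈ lifts φ := (mem_lifts p).mpr (map_surjective φ hφ p)
  obtain ⟨P, hP, -, hPm⟩ := lifts_and_natDegree_eq_and_monic hl hp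
  refine ⟨P, hPm, ?_⟩
  have hc : (algebraMap (Algebra.adjoin A {u}) S).comp φ
      = ((aeval u : Polynomial A →ₐ[A] S) : Polynomial A →+* S) := by
    ext g <;> rfl
  rw [← hc, ← eval₂_map, hP]
  exact hpy

theorem cusp_isIntegral_adjoin_iff {A S : Type*} [CommRing A] [CommRing S]
    [Algebra A S] (u y : S) :
    IsIntegral (Algebra.adjoin A {u}) y
      ↔ ((aeval u : Polynomial A →ₐ[A] S) : Polynomial A →+* S).IsIntegralElem y :=
  ⟨cusp_isIntegralElem_of_isIntegral_adjoin u y, cusp_isIntegral_adjoin_of_isIntegralElem u y⟩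

/-- enlarging the base ring: integral over `A[u]` ⟹ integral over `B[u]` -/
theorem cusp_isIntegral_adjoin_tower {A B S : Type*} [CommRing A] [CommRing B] [CommRing S]
    [Algebra A B] [Algebra A S] [Algebra B S] [IsScalarTower A B S] {u y : S}
    (h : IsIntegral (Algebra.adjoin A {u}) y) : IsIntegral (Algebra.adjoin B {u}) y := by
  rw [cusp_isIntegral_adjoin_iff] at h ⊢
  obtain ⟨p, hp, hpy⟩ := h
  refine ⟨p.map (mapRingHom (algebraMap A B)), hp.map _, ?_⟩
  rw [eval₂_map]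
  have hc : (((aeval u : Polynomial B →ₐ[B] S) : Polynomial B →+* S)).comp
      (mapRingHom (algebraMap A B))
      = ((aeval u : Polynomial A →ₐ[A] S) : Polynomial A →+* S) := by
    ext g
    · simp [← IsScalarTower.algebraMap_apply]
    · simp
  rw [hc]
  exact hpy

/-- transport along a ring homomorphism `σ` compatible with the `A`-algebra structures -/
theorem cusp_isIntegral_adjoin_map {A S S' : Type*} [CommRing A] [CommRing S] [CommRing S']
    [Algebra A S] [Algebra A S'] (σ : S →+* S')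
    (hσ : ∀ c : A, σ (algebraMap A S c) = algebraMap A S' c) {u y : S}
    (h : IsIntegral (Algebra.adjoin A {u}) y) : IsIntegral (Algebra.adjoin A {σ u}) (σ y) := by
  rw [cusp_isIntegral_adjoin_iff] at h ⊢
  have h1 := h.map σ
  have hc : σ.comp ((aeval u : Polynomial A →ₐ[A] S) : Polynomial A →+* S)
      = ((aeval (σ u) : Polynomial A →ₐ[A] S') : Polynomial A →+* S') := by
    ext g
    · simp [hσ]
    · simp
  rw [hc] at h1
  exact h1

end Integral

/-! ### (P1) -/

section P1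

variable {A F : Type*} [CommRing A] [Field F] [Algebra A F]

/-- **(P1).**  If `Φ(b, a) = 0` (`X ↦ b`, `Y ↦ a`) with `a, b ≠ 0` in a field, then
`ℓ(b⁻¹) · a⁻¹` is integral over `A[b⁻¹]`. -/
theorem cusp_isIntegral_ell_mul (Φ : Polynomial (Polynomial A)) {a b : F} (ha : a ≠ 0)
    (hb : b ≠ 0)
    (h : Φ.eval₂ ((aeval a : Polynomial A →ₐ[A] F) : Polynomial A →+* F) b = 0) :
    IsIntegral (Algebra.adjoin A {b⁻¹}) (aeval b⁻¹ (cuspEll Φ) * a⁻¹) := by
  let _ : Invertible a := invertibleOfNonzero ha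
  let _ : Invertible b := invertibleOfNonzero hb
  have hia : ⅟a = a⁻¹ := invOf_eq_inv a
  have hib : ⅟b = b⁻¹ := invOf_eq_inv b
  obtain ⟨n, hn⟩ : ∃ n, n = Φ.natDegree := ⟨_, rfl⟩
  obtain ⟨m, hm⟩ : ∃ m, m = (Polynomial.Bivariate.swap Φ).natDegree := ⟨_, rfl⟩
  -- evaluation of bivariate polynomials
  have e0 : ∀ (x y : F) (p : Polynomial (Polynomial A)),
      aevalAeval x y p = p.eval₂ ((aeval x : Polynomial A →ₐ[A] F) : Polynomial A →+* F) y :=
    fun x y p => cusp_aevalAeval_eq x y p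
  -- vanishing of coefficients
  have hΦi : ∀ i, n < i → Φ.coeff i = 0 := fun i hi =>
    coeff_eq_zero_of_natDegree_lt (hn ▸ hi)
  have hΦj : ∀ i j, m < j → (Φ.coeff i).coeff j = 0 := fun i j hj => by
    have h0 : (Polynomial.Bivariate.swap Φ).coeff j = 0 :=
      coeff_eq_zero_of_natDegree_lt (by rw [← hm]; exact hj)
    rw [← cusp_coeff_coeff_swap, h0, coeff_zero]
  -- step 1: swap
  have s1 : (Polynomial.Bivariate.swap Φ).eval₂
      ((aeval b : Polynomial A →ₐ[A] F) : Polynomial A →+* F) a = 0 := by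
    rw [← e0, Polynomial.Bivariate.aevalAeval_swap, e0]
    exact h
  -- step 2: reflect in the outer variable
  obtain ⟨Ψ₁, hΨ₁⟩ : ∃ Ψ₁, Ψ₁ = reflect m (Polynomial.Bivariate.swap Φ) := ⟨_, rfl⟩
  have s2 : Ψ₁.eval₂ ((aeval b : Polynomial A →ₐ[A] F) : Polynomial A →+* F) a⁻¹ = 0 := by
    rw [hΨ₁, ← hia, eval₂_reflect_eq_zero_iff _ _ _ _ hm.ge]
    exact s1
  -- step 3: swap
  obtain ⟨Ψ₂, hΨ₂⟩ : ∃ Ψ₂, Ψ₂ = Polynomial.Bivariate.swap Ψ₁ := ⟨_, rfl⟩
  have hΨ₂c : ∀ i j, (Ψ₂.coeff i).coeff j = (Φ.coeff i).coeff (revAt m j) := by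
    intro i j
    rw [hΨ₂, cusp_coeff_coeff_swap, hΨ₁, coeff_reflect, cusp_coeff_coeff_swap]
  have s3 : Ψ₂.eval₂ ((aeval a⁻¹ : Polynomial A →ₐ[A] F) : Polynomial A →+* F) b = 0 := by
    rw [hΨ₂, ← e0, Polynomial.Bivariate.aevalAeval_swap, e0]
    exact s2
  have hΨ₂deg : Ψ₂.natDegree ≤ n := by
    rw [natDegree_le_iff_coeff_eq_zero]
    intro i hi
    ext j
    rw [hΨ₂c, hΦi i hi, coeff_zero, coeff_zero]
  -- step 4: reflect in the outer variable
  obtain ⟨Ψ₃, hΨ₃⟩ : ∃ Ψ₃, Ψ₃ = reflect n Ψ₂ := ⟨_, rfl⟩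
  have s4 : Ψ₃.eval₂ ((aeval a⁻¹ : Polynomial A →ₐ[A] F) : Polynomial A →+* F) b⁻¹ = 0 := by
    rw [hΨ₃, ← hib, eval₂_reflect_eq_zero_iff _ _ _ _ hΨ₂deg]
    exact s3
  -- step 5: swap
  obtain ⟨Ψ₄, hΨ₄⟩ : ∃ Ψ₄, Ψ₄ = Polynomial.Bivariate.swap Ψ₃ := ⟨_, rfl⟩
  have hΨ₄c : ∀ i j, (Ψ₄.coeff i).coeff j = (Φ.coeff (revAt n j)).coeff (revAt m i) := by
    intro i j
    rw [hΨ₄, cusp_coeff_coeff_swap, hΨ₃, coeff_reflect, hΨ₂c]
  have s5 : Ψ₄.eval₂ ((aeval b⁻¹ : Polynomial A →ₐ[A] F) : Polynomial A →+* F) a⁻¹ = 0 := by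
    rw [hΨ₄, ← e0, Polynomial.Bivariate.aevalAeval_swap, e0]
    exact s4
  have hΨ₄deg : Ψ₄.natDegree ≤ m := by
    rw [natDegree_le_iff_coeff_eq_zero]
    intro i hi
    ext j
    rw [hΨ₄c, revAt_eq_self_of_lt hi, hΦj _ _ hi, coeff_zero]
  have hΨ₄m : Ψ₄.coeff m = cuspEll Φ := by
    ext j
    rw [hΨ₄c, cuspEll_coeff, ← hn, revAt_le le_rfl, Nat.sub_self]
  -- conclusion
  have key := cusp_isIntegralElem_coeff_mul
    ((aeval b⁻¹ : Polynomial A →ₐ[A] F) : Polynomial A →+* F) Ψ₄ m hΨ₄deg a⁻¹ s5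
  rw [hΨ₄m] at key
  exact cusp_isIntegral_adjoin_of_isIntegralElem b⁻¹ _ key

/-- (P1) with `Φ` over a smaller ring `Z` (e.g. `Z = ℤ`), integrality over `A[b⁻¹]`. -/
theorem cusp_isIntegral_ell_mul_tower {Z : Type*} [CommRing Z] [Algebra Z A] [Algebra Z F]
    [IsScalarTower Z A F] (Φ : Polynomial (Polynomial Z)) {a b : F} (ha : a ≠ 0) (hb : b ≠ 0)
    (h : Φ.eval₂ ((aeval a : Polynomial Z →ₐ[Z] F) : Polynomial Z →+* F) b = 0) :
    IsIntegral (Algebra.adjoin A {b⁻¹}) (aeval b⁻¹ (cuspEll Φ) * a⁻¹) :=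
  cusp_isIntegral_adjoin_tower (cusp_isIntegral_ell_mul Φ ha hb h)

/-- (P1) for an integral equation `Φ ∈ ℤ[Y][X]`, evaluated through any ring homomorphism
`f : ℤ[Y] →+* F` (`a = f Y`). -/
theorem cusp_isIntegral_ell_mul_int (Φ : Polynomial (Polynomial ℤ)) (f : Polynomial ℤ →+* F)
    {b : F} (ha : f X ≠ 0) (hb : b ≠ 0) (h : Φ.eval₂ f b = 0) :
    IsIntegral (Algebra.adjoin A {b⁻¹}) (aeval b⁻¹ (cuspEll Φ) * (f X)⁻¹) := by
  have hf : f = ((aeval (f X) : Polynomial ℤ →ₐ[ℤ] F) : Polynomial ℤ →+* F) := by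
    ext g
    · simp
    · simp
  rw [hf] at h
  exact cusp_isIntegral_ell_mul_tower Φ ha hb h

end P1

/-! ### (P3) -/

section P3

variable {A F : Type*} [CommRing A] [CommRing F] [Algebra A F]

/-- multiples of elements of `A[T]` by high powers of `L` are integral over `A[u]` -/
theorem cusp_isIntegral_pow_mul_aeval (u T L : F) (hL : IsIntegral (Algebra.adjoin A {u}) L)
    (hLT : IsIntegral (Algebra.adjoin A {u}) (L * T)) (g : Polynomial A) (N : ℕ)
    (hN : g.natDegree ≤ N) :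
    IsIntegral (Algebra.adjoin A {u}) (L ^ N * aeval T g) := by
  rw [aeval_eq_sum_range' (Nat.lt_succ_of_le hN), Finset.mul_sum]
  refine IsIntegral.sum _ fun k hk => ?_
  have hk' : k ≤ N := Nat.lt_succ_iff.mp (Finset.mem_range.mp hk)
  have e : L ^ N * (g.coeff k • T ^ k)
      = algebraMap (Algebra.adjoin A {u}) F (algebraMap A (Algebra.adjoin A {u}) (g.coeff k))
        * (L ^ (N - k) * (L * T) ^ k) := by
    rw [← IsScalarTower.algebraMap_apply, Algebra.smul_def, mul_pow]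
    conv_lhs => rw [← Nat.sub_add_cancel hk', pow_add]
    ring
  rw [e]
  exact isIntegral_algebraMap.mul ((hL.pow _).mul (hLT.pow _))

/-- **(P3).**  If `L` and `L · T` are integral over `A[u]` and `x` is integral over `A[T]`, then
`L ^ N · x` is integral over `A[u]` for some `N`. -/
theorem cusp_exists_pow_mul_isIntegral (u T L : F) (hL : IsIntegral (Algebra.adjoin A {u}) L)
    (hLT : IsIntegral (Algebra.adjoin A {u}) (L * T)) {x : F}
    (hx : IsIntegral (Algebra.adjoin A {T}) x) :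
    ∃ N : ℕ, IsIntegral (Algebra.adjoin A {u}) (L ^ N * x) := by
  rcases subsingleton_or_nontrivial F with hF | hF
  · refine ⟨0, ?_⟩
    rw [Subsingleton.elim (L ^ 0 * x) 0]
    exact isIntegral_zero
  obtain ⟨p, hp, hpx⟩ := hx
  have hcoef : ∀ i, ∃ g : Polynomial A,
      aeval T g = algebraMap (Algebra.adjoin A {T}) F (p.coeff i) := by
    intro i
    have h : ((p.coeff i : Algebra.adjoin A {T}) : F) ∈ (aeval T : Polynomial A →ₐ[A] F).range := by
      rw [← Algebra.adjoin_singleton_eq_range_aeval]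
      exact (p.coeff i).2
    obtain ⟨g, hg⟩ := h
    exact ⟨g, hg⟩
  choose g hg using hcoef
  obtain ⟨N, hNdef⟩ : ∃ N, N = (Finset.range (p.natDegree + 1)).sup fun i => (g i).natDegree :=
    ⟨_, rfl⟩
  have hN : ∀ i, i ≤ p.natDegree → (g i).natDegree ≤ N := by
    intro i hi
    rw [hNdef]
    exact Finset.le_sup (f := fun i => (g i).natDegree)
      (Finset.mem_range.mpr (Nat.lt_succ_of_le hi))
  refine ⟨N, ?_⟩
  obtain ⟨q, hq⟩ : ∃ q : Polynomial F, q = p.map (algebraMap (Algebra.adjoin A {T}) F) :=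
    ⟨_, rfl⟩
  have hqm : q.Monic := hq ▸ hp.map _
  have hqdeg : q.natDegree = p.natDegree := hq ▸ hp.natDegree_map _
  have hqx : q.eval x = 0 := by
    rw [hq, eval_map]
    exact hpx
  have hqc : ∀ i, q.coeff i = aeval T (g i) := by
    intro i
    rw [hq, coeff_map, hg]
  have hq'm : (scaleRoots q (L ^ N)).Monic := (monic_scaleRoots_iff _).mpr hqm
  have hq'x : (scaleRoots q (L ^ N)).eval (L ^ N * x) = 0 := by
    have h := scaleRoots_eval₂_mul (p := q) (RingHom.id F) x (L ^ N)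
    simp only [RingHom.id_apply] at h
    rw [← eval₂_id, h, eval₂_id, hqx, mul_zero]
  have hq'deg : (scaleRoots q (L ^ N)).natDegree ≠ 0 := by
    intro h0
    have h1 : scaleRoots q (L ^ N) = 1 := hq'm.natDegree_eq_zero.mp h0
    rw [h1, eval_one] at hq'x
    exact one_ne_zero hq'x
  refine IsIntegral.of_aeval_monic_of_isIntegral_coeff hq'm hq'deg ?_ ?_
  · rw [hq'x]
    exact isIntegral_zero
  · intro i
    rw [coeff_scaleRoots]
    rcases lt_trichotomy i q.natDegree with hi | hi | hi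
    · have h1 : q.natDegree - i = (q.natDegree - i - 1) + 1 := by omega
      have e : q.coeff i * (L ^ N) ^ (q.natDegree - i)
          = (L ^ N * aeval T (g i)) * (L ^ N) ^ (q.natDegree - i - 1) := by
        rw [h1, pow_succ, hqc]
        simp only [Nat.add_sub_cancel]
        ring
      rw [e]
      exact (cusp_isIntegral_pow_mul_aeval u T L hL hLT (g i) N
        (hN i (hqdeg ▸ hi.le))).mul ((hL.pow _).pow _)
    · rw [hi, hqm.coeff_natDegree, Nat.sub_self, pow_zero, mul_one]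
      exact isIntegral_one
    · rw [coeff_eq_zero_of_natDegree_lt hi, zero_mul]
      exact isIntegral_zero

/-- transitivity: `T` integral over `A[u]`, `x` integral over `A[T]` ⟹ `x` integral over
`A[u]` -/
theorem cusp_isIntegral_adjoin_trans {u T : F} (hT : IsIntegral (Algebra.adjoin A {u}) T) {x : F}
    (hx : IsIntegral (Algebra.adjoin A {T}) x) : IsIntegral (Algebra.adjoin A {u}) x := by
  obtain ⟨N, hN⟩ := cusp_exists_pow_mul_isIntegral u T 1 isIntegral_one
    (by rw [one_mul]; exact hT) hx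
  rwa [one_pow, one_mul] at hN

end P3

/-! ### (KR) Kronecker's congruence -/

section KR

variable {k : Type*} [Field k]

/-- `k[Z] = ⊕_{i < q} k[Z^q] · Zⁱ`: the coefficients of `Σ_{i<q} dᵢ(Z^q) Zⁱ`. -/
theorem cusp_expand_sum_coeff (q : ℕ) (hq : 0 < q) (d : ℕ → Polynomial k) (m i₀ : ℕ)
    (hi₀ : i₀ < q) :
    (∑ i ∈ Finset.range q, expand k q (d i) * X ^ i).coeff (q * m + i₀) = (d i₀).coeff m := by
  rw [finsetSum_coeff, Finset.sum_eq_single i₀]
  · rw [coeff_mul_X_pow', if_pos (Nat.le_add_left _ _), Nat.add_sub_cancel, coeff_expand hq,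
      if_pos (dvd_mul_right _ _), Nat.mul_div_cancel_left _ hq]
  · intro i hi hne
    rw [coeff_mul_X_pow']
    split_ifs with h
    · rw [coeff_expand hq, if_neg]
      intro hdvd
      apply hne
      have hi' := Finset.mem_range.mp hi
      obtain ⟨c, hc⟩ := hdvd
      have h3 : q * m + i₀ = q * c + i := by omega
      have h4 : (q * m + i₀) % q = (q * c + i) % q := by rw [h3]
      rw [Nat.mul_add_mod, Nat.mul_add_mod, Nat.mod_eq_of_lt hi₀, Nat.mod_eq_of_lt hi'] at h4
      exact h4.symm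
    · rfl
  · intro h
    exact absurd (Finset.mem_range.mpr hi₀) h

variable {K : Type*} [CommRing K] [IsDomain K] [Algebra k K]

/-- **(KR) Kronecker.**  A monic `Φ̄ ∈ k[Y][X]` of `X`-degree `q + 1` with `Φ̄(t^q, t) = 0` and
`Φ̄(t, t^q) = 0`, `t` transcendental over `k` in a domain, is `(X - Y^q) (X^q - Y)`. -/
theorem cusp_kronecker (q : ℕ) (hq : 2 ≤ q) (Φ : Polynomial (Polynomial k)) (hΦ : Φ.Monic)
    (hdeg : Φ.natDegree = q + 1) (t : K) (ht : Transcendental k t)
    (h1 : Φ.eval₂ ((aeval t : Polynomial k →ₐ[k] K) : Polynomial k →+* K) (t ^ q) = 0)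
    (h2 : Φ.eval₂ ((aeval (t ^ q) : Polynomial k →ₐ[k] K) : Polynomial k →+* K) t = 0) :
    Φ = (X - C (X ^ q)) * (X ^ q - C X) := by
  have hinj : Function.Injective (aeval t : Polynomial k →ₐ[k] K) :=
    transcendental_iff_injective.mp ht
  have hq0 : 0 < q := by omega
  -- Step 1: `Y^q` is a root
  have hroot : Φ.IsRoot (X ^ q) := by
    apply hinj
    rw [map_zero]
    have h := Polynomial.hom_eval₂ Φ (RingHom.id (Polynomial k))
      ((aeval t : Polynomial k →ₐ[k] K) : Polynomial k →+* K) (X ^ q)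
    rw [RingHom.comp_id] at h
    have h' : (aeval t : Polynomial k →ₐ[k] K) (Φ.eval (X ^ q))
        = Φ.eval₂ ((aeval t : Polynomial k →ₐ[k] K) : Polynomial k →+* K)
          ((aeval t : Polynomial k →ₐ[k] K) (X ^ q)) := h
    rw [h', map_pow, aeval_X]
    exact h1
  obtain ⟨Ψ, hΨ⟩ : ∃ Ψ, Ψ = Φ /ₘ (X - C (X ^ q)) := ⟨_, rfl⟩
  have hfac : (X - C (X ^ q)) * Ψ = Φ := by
    rw [hΨ]
    exact mul_divByMonic_eq_iff_isRoot.mpr hroot
  have hΨm : Ψ.Monic := (monic_X_sub_C _).of_mul_monic_left (hfac ▸ hΦ)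
  have hΨdeg : Ψ.natDegree = q := by
    have h := (monic_X_sub_C (X ^ q : Polynomial k)).natDegree_mul hΨm
    rw [hfac, hdeg, natDegree_X_sub_C] at h
    omega
  -- Step 2: `Ψ(t, t^q) = 0`
  have hne : t - (t ^ q) ^ q ≠ 0 := by
    intro h0
    have h3 : (aeval t : Polynomial k →ₐ[k] K) (X - X ^ (q * q)) = 0 := by
      rw [map_sub, map_pow, aeval_X, pow_mul]
      exact h0
    have h4 : (X - X ^ (q * q) : Polynomial k) = 0 := hinj (by rw [h3, map_zero])
    have h5 := congrArg (fun p : Polynomial k => p.coeff 1) h4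
    have hqq : q * q ≠ 1 := by nlinarith
    simp only [coeff_sub, coeff_X_one, coeff_X_pow, coeff_zero] at h5
    rw [if_neg (Ne.symm hqq), sub_zero] at h5
    exact one_ne_zero h5
  have hΨ2 : Ψ.eval₂ ((aeval (t ^ q) : Polynomial k →ₐ[k] K) : Polynomial k →+* K) t = 0 := by
    rw [← hfac, eval₂_mul, eval₂_sub, eval₂_X, eval₂_C] at h2
    have h6 : ((aeval (t ^ q) : Polynomial k →ₐ[k] K) : Polynomial k →+* K) (X ^ q)
        = (t ^ q) ^ q := by
      show (aeval (t ^ q) : Polynomial k →ₐ[k] K) (X ^ q) = _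
      rw [map_pow, aeval_X]
    rw [h6] at h2
    exact (mul_eq_zero.mp h2).resolve_left hne
  -- Step 3: `D = Ψ - (X^q - Y)` vanishes
  obtain ⟨D, hD⟩ : ∃ D, D = Ψ - (X ^ q - C X) := ⟨_, rfl⟩
  have hXm : (X ^ q - C (X : Polynomial k) : Polynomial (Polynomial k)).Monic :=
    monic_X_pow_sub_C _ hq0.ne'
  have hDdeg : ∀ i, q ≤ i → D.coeff i = 0 := by
    intro i hi
    have hd : (Ψ - (X ^ q - C X)).degree < Ψ.degree := by
      apply degree_sub_lt_left
      · rw [degree_eq_natDegree hΨm.ne_zero, hΨdeg, degree_X_pow_sub_C hq0]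
      · exact hΨm.ne_zero
      · rw [hΨm.leadingCoeff, hXm.leadingCoeff]
    rw [hD]
    apply coeff_eq_zero_of_degree_lt
    refine lt_of_lt_of_le hd ?_
    rw [degree_eq_natDegree hΨm.ne_zero, hΨdeg]
    exact_mod_cast hi
  have hDnat : D.natDegree < q := by
    by_contra hcon
    rw [not_lt] at hcon
    by_cases hD0 : D = 0
    · rw [hD0, natDegree_zero] at hcon
      omega
    · have := hDdeg D.natDegree hcon
      rw [← leadingCoeff, leadingCoeff_eq_zero] at this
      exact hD0 this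
  have hD2 : D.eval₂ ((aeval (t ^ q) : Polynomial k →ₐ[k] K) : Polynomial k →+* K) t = 0 := by
    rw [hD, eval₂_sub, hΨ2, eval₂_sub, eval₂_pow, eval₂_X, eval₂_C, zero_sub, neg_eq_zero,
      sub_eq_zero]
    show t ^ q = (aeval (t ^ q) : Polynomial k →ₐ[k] K) X
    rw [aeval_X]
  have hE : (∑ i ∈ Finset.range q, expand k q (D.coeff i) * X ^ i : Polynomial k) = 0 := by
    apply hinj
    rw [map_zero, map_sum, ← hD2, eval₂_eq_sum_range' _ hDnat]
    refine Finset.sum_congr rfl fun i _ => ?_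
    rw [map_mul, map_pow, aeval_X, expand_aeval]
    rfl
  have hD0 : D = 0 := by
    ext i m
    rw [coeff_zero, coeff_zero]
    by_cases hi : i < q
    · rw [← cusp_expand_sum_coeff q hq0 (fun i => D.coeff i) m i hi, hE, coeff_zero]
    · rw [hDdeg i (not_lt.mp hi), coeff_zero]
  have hΨeq : Ψ = X ^ q - C X := by
    rw [hD, sub_eq_zero] at hD0
    exact hD0
  rw [← hfac, hΨeq]

/-- `Φ̄(X, 0) = X^{q+1}` -/
theorem cusp_kronecker_map_constantCoeff (q : ℕ) (hq : 2 ≤ q) (Φ : Polynomial (Polynomial k))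
    (hΦ : Φ.Monic) (hdeg : Φ.natDegree = q + 1) (t : K) (ht : Transcendental k t)
    (h1 : Φ.eval₂ ((aeval t : Polynomial k →ₐ[k] K) : Polynomial k →+* K) (t ^ q) = 0)
    (h2 : Φ.eval₂ ((aeval (t ^ q) : Polynomial k →ₐ[k] K) : Polynomial k →+* K) t = 0) :
    Φ.map Polynomial.constantCoeff = X ^ (q + 1) := by
  have hq0 : q ≠ 0 := by omega
  rw [cusp_kronecker q hq Φ hΦ hdeg t ht h1 h2]
  simp only [Polynomial.map_mul, Polynomial.map_sub, Polynomial.map_pow, Polynomial.map_X,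
    Polynomial.map_C]
  have e1 : Polynomial.constantCoeff (X ^ q : Polynomial k) = 0 := by
    simp [Ne.symm hq0]
  have e2 : Polynomial.constantCoeff (X : Polynomial k) = 0 := by simp
  rw [e1, e2, map_zero, sub_zero, sub_zero, pow_succ']

/-- **`ℓ ≡ 1`**: under the hypotheses of (KR), `cuspEll Φ̄ = 1`. -/
theorem cuspEll_eq_one_of_kronecker (q : ℕ) (hq : 2 ≤ q) (Φ : Polynomial (Polynomial k))
    (hΦ : Φ.Monic) (hdeg : Φ.natDegree = q + 1) (t : K) (ht : Transcendental k t)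
    (h1 : Φ.eval₂ ((aeval t : Polynomial k →ₐ[k] K) : Polynomial k →+* K) (t ^ q) = 0)
    (h2 : Φ.eval₂ ((aeval (t ^ q) : Polynomial k →ₐ[k] K) : Polynomial k →+* K) t = 0) :
    cuspEll Φ = 1 := by
  rw [cuspEll, cusp_kronecker_map_constantCoeff q hq Φ hΦ hdeg t ht h1 h2, hdeg,
    reflect_monomial, revAt_le le_rfl, Nat.sub_self, pow_zero]

end KR

end Fermat.Agent.UNIP

end
end ZBUNIP_012_0

/-! ### bundled: `Fermat.Agent.UNIP.NodesSwap` -/
section ZBUNIP_012_1

/-!
# UNIP / U5 (Nodes), piece SWAP, part 1 (helper6): `ρ₀` and the modular equation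

Base convention of `NodesFrob.lean` (helper25): `A` a domain, `E = Frac A`, `r : A →+* k`,
`G = gaussRing (algebraMap A E) r`, `ρ = gaussRed`, `F = modularFunctionFieldFullC E (M * q)`,
`w = AL.atkinLehner E ιC hq hqM`, `J = nodesFrobJ`, `Jq = nodesFrobJq`.

* `nodesSwapRho₀ r hπ0 hπ hr hrπ hF w t ht : integralClosure A[t] F →+* k((Q))`,
  `b ↦ ρ ⟨w b, _⟩`, for ANY `E`-endomorphism `w` of `F` and any `t` with `w t ∈ G`
  (`nodesSwapRho₀_apply`, by `rfl`); for `w = id` it is `nodesFrobChartRed`.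
* `nodesSwapPhi q hq` : the integral modular polynomial `Φ ∈ ℤ[Y][X]` of level `q` (monic of
  `X`-degree `q + 1`), with `Φ(j(Q^q), j) = 0 = Φ(j, j(Q^q))` over every commutative ring
  (`nodesSwapPhi_series`, `nodesSwapPhi_series'`) and in `F` (`nodesSwapPhi_eval`,
  `nodesSwapPhi_eval'`).
* `nodesSwap_isIntegral_of_evalInt` : `Φ ∈ ℤ[Y][X]` monic, `Φ(y, x) = 0` ⟹ `y` integral over `A[x]`.
The charts `j` and `1/j` are in `NodesSwapJ.lean` and `NodesSwapInv.lean`.
-/

set_option autoImplicit false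

noncomputable section

namespace Fermat.Agent.UNIP

open ModularCurve Polynomial IntermediateField Fermat.Agent.INJ Fermat.Agent.AL Fermat.Agent.S28

/-! ## `ρ₀` as a ring homomorphism on a chart -/

section Rho0

set_option synthInstance.maxHeartbeats 400000

variable {A E k : Type*} [CommRing A] [IsDomain A] [Field E] [Algebra A E] [IsFractionRing A E]
  [Field k] (r : A →+* k) {π : A}

/-- The reduction `ρ₀ = ρ ∘ w` on the chart `integralClosure A[t] F`, for an `E`-endomorphism `w`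
of `F` and `t` with `w t` in the Gauss ring. -/
def nodesSwapRho₀ [WfDvdMonoid A] (hπ0 : π ≠ 0) (hπ : ¬ IsUnit π)
    (hr : ∀ a, r a = 0 → π ∣ a) (hrπ : r π = 0)
    {F : IntermediateField E (LaurentSeries E)} (hF : F ≤ nodesFrobFrac A E)
    [Algebra A F] [IsScalarTower A E F] (w : F →ₐ[E] F) (t : F)
    (ht : ((w t : F) : LaurentSeries E) ∈ gaussRing (algebraMap A E) r) :
    integralClosure (Algebra.adjoin A {t}) F →+* LaurentSeries k :=
  (gaussRed r (IsFractionRing.injective A E)).comp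
    (((F.val.toRingHom.comp w.toRingHom).comp
        (integralClosure (Algebra.adjoin A {t}) F).val.toRingHom).codRestrict
      (gaussRing (algebraMap A E) r)
      (fun x => nodesFrob_G1 r hπ0 hπ hr hrπ hF w t ht x.2))

theorem nodesSwapRho₀_apply [WfDvdMonoid A] (hπ0 : π ≠ 0) (hπ : ¬ IsUnit π)
    (hr : ∀ a, r a = 0 → π ∣ a) (hrπ : r π = 0)
    {F : IntermediateField E (LaurentSeries E)} (hF : F ≤ nodesFrobFrac A E)
    [Algebra A F] [IsScalarTower A E F] (w : F →ₐ[E] F) (t : F)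
    (ht : ((w t : F) : LaurentSeries E) ∈ gaussRing (algebraMap A E) r)
    (b : integralClosure (Algebra.adjoin A {t}) F)
    (hbG : ((w (b : F) : F) : LaurentSeries E) ∈ gaussRing (algebraMap A E) r) :
    nodesSwapRho₀ r hπ0 hπ hr hrπ hF w t ht b =
      gaussRed r (IsFractionRing.injective A E) ⟨_, hbG⟩ := rfl

/-- For `w = id`, `ρ₀` is `ρ`. -/
theorem nodesSwapRho₀_id [WfDvdMonoid A] (hπ0 : π ≠ 0) (hπ : ¬ IsUnit π)
    (hr : ∀ a, r a = 0 → π ∣ a) (hrπ : r π = 0)
    {F : IntermediateField E (LaurentSeries E)} (hF : F ≤ nodesFrobFrac A E)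
    [Algebra A F] [IsScalarTower A E F] (t : F)
    (ht : (t : LaurentSeries E) ∈ gaussRing (algebraMap A E) r) :
    nodesSwapRho₀ r hπ0 hπ hr hrπ hF (AlgHom.id E F) t ht =
      nodesFrobChartRed r hπ0 hπ hr hrπ hF t ht := rfl

end Rho0

/-! ## The integral modular equation -/

section Phi

/-- The integral modular polynomial of prime level `q`: `Φ ∈ ℤ[Y][X]` (outer variable `X`). -/
def nodesSwapPhi (q : ℕ) [NeZero q] (hq : q.Prime) : Polynomial (Polynomial ℤ) :=
  Classical.choose (modEq_int q hq)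

variable (q : ℕ) [NeZero q] (hq : q.Prime)

theorem nodesSwapPhi_monic : (nodesSwapPhi q hq).Monic :=
  (Classical.choose_spec (modEq_int q hq)).1

theorem nodesSwapPhi_natDegree : (nodesSwapPhi q hq).natDegree = q + 1 :=
  (Classical.choose_spec (modEq_int q hq)).2.1

/-- `Φ(j(Q^q), j) = 0` over every commutative ring. -/
theorem nodesSwapPhi_series (R : Type*) [CommRing R] :
    (nodesSwapPhi q hq).eval₂ (evalInt (jqModC R)) (qExpand R q (jqModC R)) = 0 := by
  have h : (nodesSwapPhi q hq).eval₂ (Polynomial.aeval (R := ℤ) (jqModC ℤ)).toRingHom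
      (qExpand ℤ q (jqModC ℤ)) = 0 := (Classical.choose_spec (modEq_int q hq)).2.2.1
  have e : (Polynomial.aeval (R := ℤ) (jqModC ℤ)).toRingHom = evalInt (jqModC ℤ) := by
    rw [ringHom_eq_evalInt (Polynomial.aeval (R := ℤ) (jqModC ℤ)).toRingHom]
    congr 1
    simp
  rw [e] at h
  have h2 := congrArg (coeffMap (Int.castRingHom R)) h
  rw [map_eval₂_evalInt, map_zero, coeffMap_qExpand, coeffMap_jqModC] at h2
  exact h2

/-- `Φ(j, j(Q^q)) = 0` over every commutative ring. -/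
theorem nodesSwapPhi_series' (R : Type*) [CommRing R] :
    (nodesSwapPhi q hq).eval₂ (evalInt (qExpand R q (jqModC R))) (jqModC R) = 0 := by
  have h : (nodesSwapPhi q hq).eval₂
      (Polynomial.aeval (R := ℤ) (qExpand ℤ q (jqModC ℤ))).toRingHom (jqModC ℤ) = 0 :=
    (Classical.choose_spec (modEq_int q hq)).2.2.2
  have e : (Polynomial.aeval (R := ℤ) (qExpand ℤ q (jqModC ℤ))).toRingHom =
      evalInt (qExpand ℤ q (jqModC ℤ)) := by
    rw [ringHom_eq_evalInt (Polynomial.aeval (R := ℤ) (qExpand ℤ q (jqModC ℤ))).toRingHom]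
    congr 1
    simp
  rw [e] at h
  have h2 := congrArg (coeffMap (Int.castRingHom R)) h
  rw [map_eval₂_evalInt, map_zero, coeffMap_qExpand, coeffMap_jqModC] at h2
  exact h2

variable (E : Type*) [Field E] (M : ℕ) [NeZero M] [NeZero (M * q)]

/-- `Φ(Jq, J) = 0` in `F_{Mq}`. -/
theorem nodesSwapPhi_eval :
    (nodesSwapPhi q hq).eval₂ (evalInt (nodesFrobJ E M q)) (nodesFrobJq E M q) = 0 := by
  apply (modularFunctionFieldFullC E (M * q)).val.toRingHom.injective
  rw [map_eval₂_evalInt, map_zero]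
  exact nodesSwapPhi_series q hq E

/-- `Φ(J, Jq) = 0` in `F_{Mq}`. -/
theorem nodesSwapPhi_eval' :
    (nodesSwapPhi q hq).eval₂ (evalInt (nodesFrobJq E M q)) (nodesFrobJ E M q) = 0 := by
  apply (modularFunctionFieldFullC E (M * q)).val.toRingHom.injective
  rw [map_eval₂_evalInt, map_zero]
  exact nodesSwapPhi_series' q hq E

end Phi

/-! ## Integrality from a monic two-variable relation over `ℤ` -/

section Int

/-- If `Φ ∈ ℤ[Y][X]` is monic in `X` and `Φ(y, x) = 0`, then `y` is integral over `A[x]`. -/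
theorem nodesSwap_isIntegral_of_evalInt {A S : Type*} [CommRing A] [CommRing S] [Algebra A S]
    {Φ : Polynomial (Polynomial ℤ)} (hΦ : Φ.Monic) {x y : S}
    (h : Φ.eval₂ (evalInt x) y = 0) : IsIntegral (Algebra.adjoin A {x}) y := by
  rw [cusp_isIntegral_adjoin_iff]
  refine ⟨Φ.map (mapRingHom (Int.castRingHom A)), hΦ.map _, ?_⟩
  rw [eval₂_map]
  have e : (((aeval x : Polynomial A →ₐ[A] S) : Polynomial A →+* S)).comp
      (mapRingHom (Int.castRingHom A)) = evalInt x := by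
    rw [ringHom_eq_evalInt ((((aeval x : Polynomial A →ₐ[A] S) : Polynomial A →+* S)).comp
      (mapRingHom (Int.castRingHom A)))]
    congr 1
    simp
  rw [e]
  exact h

end Int

end Fermat.Agent.UNIP

end
end ZBUNIP_012_1

/-! ### bundled: `Fermat.Agent.UNIP.MGChartsBeta0SS1` -/
section ZBUNIP_012_2
/-
UNIP (S34/S35), direct route, piece MG-5a "chart hypotheses of (T′)", base (SS1) (helper16).

The hypothesis (SS1) AT THE BASE for the two vertical valuations `V_∞`, `V_0` of `F_{Mq}(K₀)`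
(`vtFam` of `MGVert.lean`, `mgvV` of `MGVertInertia.lean`), from U5's kernel form
`ρ x = 0 → ρ₀ x = 0 → π ∣ x` (`nodesFull_ker_J`, `nodesFull_ker_Jinv`, `nodes_modular_ker`):

* `mgcb_gaussRing_congr`, `mgcb_vtFam_congr` : the Gauss ring and the vertical valuations only
  depend on the kernel of the reduction `r`;
* `mgcb_rho_eq_zero_iff`  : `ρ x = 0 ↔ x ∈ 𝔪(V_∞)` on any chart (`ρ = nodesFrobChartRed`);
* `mgcb_rho₀_eq_zero_iff` : `ρ₀ x = 0 ↔ x ∈ 𝔪(V_0)` on any chart (`ρ₀ = nodesSwapRho₀` for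
  `w = w_q`);
* `mgcb_SS1_vtFam` : (SS1) for `vtFam` from the kernel form, any base;
* `mgcb_SS1_base`  : (SS1) for `mgvV` over `A ∩ K₀` from the kernel form for ANY reduction `r`
  with kernel `(π)` (= the hypothesis `hSS1₀` of `mgcc_SS1`, `mgs_SS1`).
-/

set_option autoImplicit false
set_option linter.style.haveILetI false
set_option linter.unusedSectionVars false
set_option linter.unusedVariables false

noncomputable section

namespace Fermat.Agent.UNIP

open ModularCurve Polynomial IntermediateField Fermat.Agent.INJ Fermat.Agent.AL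
open Fermat.Agent.ES Fermat.Agent.ES.G2

section Congr

variable {A E k k' : Type*} [CommRing A] [Field E] [Field k] [Field k']
  {ι : A →+* E} {r : A →+* k} {r' : A →+* k'}

/-- the reduction of a series is zero iff all its coefficients are in the kernel -/
theorem mgcb_coeffMap_eq_zero_iff (r : A →+* k) (b : LaurentSeries A) :
    coeffMap r b = 0 ↔ ∀ n, r (b.coeff n) = 0 := by
  constructor
  · intro h0 n
    have := congrArg (fun z : LaurentSeries k => z.coeff n) h0
    simpa [coeffMap_coeff] using this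
  · intro h0
    ext n
    rw [coeffMap_coeff, h0 n]
    rfl

/-- the reduction of a series is nonzero iff one of its coefficients is not in the kernel -/
theorem mgcb_coeffMap_ne_zero_iff (h : ∀ a, r a = 0 ↔ r' a = 0) (b : LaurentSeries A) :
    coeffMap r b ≠ 0 ↔ coeffMap r' b ≠ 0 := by
  rw [Ne, Ne, mgcb_coeffMap_eq_zero_iff r, mgcb_coeffMap_eq_zero_iff r']
  exact not_congr (forall_congr' fun n => h _)

/-- **The Gauss ring only depends on the kernel of the reduction.** -/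
theorem mgcb_gaussRing_congr (h : ∀ a, r a = 0 ↔ r' a = 0) :
    gaussRing ι r = gaussRing ι r' := by
  ext x
  constructor
  · rintro ⟨T, b, hb, hx⟩
    exact ⟨T, b, (mgcb_coeffMap_ne_zero_iff h b).mp hb, hx⟩
  · rintro ⟨T, b, hb, hx⟩
    exact ⟨T, b, (mgcb_coeffMap_ne_zero_iff h b).mpr hb, hx⟩

variable {π π' : A} (hB : VtBase ι r π) (hB' : VtBase ι r' π')
  (ιC : E →+* ℂ) {q M : ℕ} [NeZero q] [NeZero M] [NeZero (M * q)]
  (hq : q.Prime) (hqM : ¬ q ∣ M)

/-- **The vertical valuations only depend on the kernel of the reduction.** -/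
theorem mgcb_vtFam_congr (h : ∀ a, r a = 0 ↔ r' a = 0) (c : Bool) :
    vtFam hB ιC hq hqM c = vtFam hB' ιC hq hqM c := by
  ext x
  rw [mem_vtFam, mem_vtFam, mgcb_gaussRing_congr (ι := ι) h]

/-- two reductions with kernel `(π)` have the same kernel -/
theorem mgcb_ker_congr (hB : VtBase ι r π) (hB' : VtBase ι r' π) (a : A) :
    r a = 0 ↔ r' a = 0 := by
  constructor
  · intro h0
    obtain ⟨c, rfl⟩ := hB.ker a h0
    rw [map_mul, hB'.rπ, zero_mul]
  · intro h0
    obtain ⟨c, rfl⟩ := hB'.ker a h0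
    rw [map_mul, hB.rπ, zero_mul]

end Congr

section Abstract

variable {A E k : Type*} [CommRing A] [IsDomain A] [Field E] [Algebra A E] [IsFractionRing A E]
  [Field k] (r : A →+* k) {π : A} [WfDvdMonoid A]
  (ιC : E →+* ℂ) {q M : ℕ} [NeZero q] [NeZero M] [NeZero (M * q)]
  (hq : q.Prime) (hqM : ¬ q ∣ M)
  [Algebra A (modularFunctionFieldFullC E (M * q))]
  [IsScalarTower A E (modularFunctionFieldFullC E (M * q))]

/-- **`ρ x = 0 ↔ x ∈ 𝔪(V_∞)`** on the chart `integralClosure A[t]` of `F_{Mq}(E)`. -/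
theorem mgcb_rho_eq_zero_iff (hB : VtBase (algebraMap A E) r π)
    (hπ0 : π ≠ 0) (hπ : ¬ IsUnit π) (hr : ∀ a, r a = 0 → π ∣ a) (hrπ : r π = 0)
    (t : modularFunctionFieldFullC E (M * q))
    (ht : (t : LaurentSeries E) ∈ gaussRing (algebraMap A E) r)
    (x : integralClosure (Algebra.adjoin A {t}) (modularFunctionFieldFullC E (M * q))) :
    nodesFrobChartRed r hπ0 hπ hr hrπ (nodesFrob_full_le (M * q)) t ht x = 0 ↔
      (x : modularFunctionFieldFullC E (M * q)) ∈ (vtFam hB ιC hq hqM true).nonunits := by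
  rw [vtFam_mem_nonunits_iff]
  constructor
  · intro h
    exact ⟨nodesFrob_G1_id r hπ0 hπ hr hrπ (nodesFrob_full_le (M * q)) t ht x.2, h⟩
  · rintro ⟨h, h0⟩
    exact h0

/-- **`ρ₀ x = 0 ↔ x ∈ 𝔪(V_0)`** on the chart `integralClosure A[t]` of `F_{Mq}(E)`. -/
theorem mgcb_rho₀_eq_zero_iff (hB : VtBase (algebraMap A E) r π)
    (hπ0 : π ≠ 0) (hπ : ¬ IsUnit π) (hr : ∀ a, r a = 0 → π ∣ a) (hrπ : r π = 0)
    (t : modularFunctionFieldFullC E (M * q))
    (hwt : (((atkinLehner E ιC hq hqM).toAlgHom t : modularFunctionFieldFullC E (M * q)) :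
      LaurentSeries E) ∈ gaussRing (algebraMap A E) r)
    (x : integralClosure (Algebra.adjoin A {t}) (modularFunctionFieldFullC E (M * q))) :
    nodesSwapRho₀ r hπ0 hπ hr hrπ (nodesFrob_full_le (M * q))
        (atkinLehner E ιC hq hqM).toAlgHom t hwt x = 0 ↔
      (x : modularFunctionFieldFullC E (M * q)) ∈ (vtFam hB ιC hq hqM false).nonunits := by
  rw [vtFam_mem_nonunits_iff]
  constructor
  · intro h
    exact ⟨nodesFrob_G1 r hπ0 hπ hr hrπ (nodesFrob_full_le (M * q))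
      (atkinLehner E ιC hq hqM).toAlgHom t hwt x.2, h⟩
  · rintro ⟨h, h0⟩
    exact h0

/-- **(SS1) for the vertical valuations from the kernel form of U5**, any base, any chart. -/
theorem mgcb_SS1_vtFam (hB : VtBase (algebraMap A E) r π)
    (hπ0 : π ≠ 0) (hπ : ¬ IsUnit π) (hr : ∀ a, r a = 0 → π ∣ a) (hrπ : r π = 0)
    (t : modularFunctionFieldFullC E (M * q))
    (ht : (t : LaurentSeries E) ∈ gaussRing (algebraMap A E) r)
    (hwt : (((atkinLehner E ιC hq hqM).toAlgHom t : modularFunctionFieldFullC E (M * q)) :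
      LaurentSeries E) ∈ gaussRing (algebraMap A E) r)
    (hker : ∀ x : integralClosure (Algebra.adjoin A {t}) (modularFunctionFieldFullC E (M * q)),
      nodesFrobChartRed r hπ0 hπ hr hrπ (nodesFrob_full_le (M * q)) t ht x = 0 →
      nodesSwapRho₀ r hπ0 hπ hr hrπ (nodesFrob_full_le (M * q))
        (atkinLehner E ιC hq hqM).toAlgHom t hwt x = 0 →
      algebraMap A (integralClosure (Algebra.adjoin A {t})
        (modularFunctionFieldFullC E (M * q))) π ∣ x)
    (x : integralClosure (Algebra.adjoin A {t}) (modularFunctionFieldFullC E (M * q)))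
    (hx : ∀ c, (x : modularFunctionFieldFullC E (M * q)) ∈ (vtFam hB ιC hq hqM c).nonunits) :
    algebraMap A (integralClosure (Algebra.adjoin A {t})
      (modularFunctionFieldFullC E (M * q))) π ∣ x :=
  hker x ((mgcb_rho_eq_zero_iff r ιC hq hqM hB hπ0 hπ hr hrπ t ht x).mpr (hx true))
    ((mgcb_rho₀_eq_zero_iff r ιC hq hqM hB hπ0 hπ hr hrπ t hwt x).mpr (hx false))

end Abstract

section Concrete

variable {A : ValuationSubring Qb} {K₀ : IntermediateField ℚ Qb}
  [IsDiscreteValuationRing ↥(beta0Ring A K₀)] {π : ↥(beta0Ring A K₀)} (hπ : Irreducible π)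
  (ιC : ↥K₀ →+* ℂ) {q M : ℕ} [NeZero q] [NeZero M] [NeZero (M * q)]
  (hq : q.Prime) (hqM : ¬ q ∣ M)

include hπ in
/-- a reduction with kernel `(π)` gives a base -/
theorem mgcb_vtBase {k : Type*} [Field k] (r : ↥(beta0Ring A K₀) →+* k)
    (hr : ∀ a, r a = 0 → π ∣ a) (hrπ : r π = 0) :
    VtBase (algebraMap ↥(beta0Ring A K₀) ↥K₀) r π :=
  { inj := (vtBase_residue (E := ↥K₀) hπ).inj
    frac := (vtBase_residue (E := ↥K₀) hπ).frac
    rπ := hrπ
    ker := hr
    fin := (vtBase_residue (E := ↥K₀) hπ).fin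
    ne := hπ.ne_zero }

/-- `mgvV` for any reduction with kernel `(π)` -/
theorem mgcb_mgvV_eq {k : Type*} [Field k] (r : ↥(beta0Ring A K₀) →+* k)
    (hr : ∀ a, r a = 0 → π ∣ a) (hrπ : r π = 0) (c : Bool) :
    mgvV hπ ιC hq hqM c = vtFam (mgcb_vtBase hπ r hr hrπ) ιC hq hqM c :=
  mgcb_vtFam_congr (vtBase_residue hπ) (mgcb_vtBase hπ r hr hrπ) ιC hq hqM
    (mgcb_ker_congr (vtBase_residue hπ) (mgcb_vtBase hπ r hr hrπ)) c

/-- **`ρ x = 0 ↔ x ∈ 𝔪(V_∞)`**, concrete. -/
theorem mgcb_rho_eq_zero_iff_mgvV {k : Type*} [Field k] (r : ↥(beta0Ring A K₀) →+* k)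
    (hr : ∀ a, r a = 0 → π ∣ a) (hrπ : r π = 0)
    (t : ↥(modularFunctionFieldFullC ↥K₀ (M * q)))
    (ht : (t : LaurentSeries ↥K₀) ∈ gaussRing (algebraMap ↥(beta0Ring A K₀) ↥K₀) r)
    (x : integralClosure (Algebra.adjoin ↥(beta0Ring A K₀) {t})
      ↥(modularFunctionFieldFullC ↥K₀ (M * q))) :
    nodesFrobChartRed r hπ.ne_zero hπ.not_isUnit hr hrπ (nodesFrob_full_le (M * q)) t ht x = 0 ↔
      (x : ↥(modularFunctionFieldFullC ↥K₀ (M * q))) ∈ (mgvV hπ ιC hq hqM true).nonunits := by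
  rw [mgcb_mgvV_eq hπ ιC hq hqM r hr hrπ]
  exact mgcb_rho_eq_zero_iff r ιC hq hqM (mgcb_vtBase hπ r hr hrπ) hπ.ne_zero hπ.not_isUnit
    hr hrπ t ht x

/-- **`ρ₀ x = 0 ↔ x ∈ 𝔪(V_0)`**, concrete. -/
theorem mgcb_rho₀_eq_zero_iff_mgvV {k : Type*} [Field k] (r : ↥(beta0Ring A K₀) →+* k)
    (hr : ∀ a, r a = 0 → π ∣ a) (hrπ : r π = 0)
    (t : ↥(modularFunctionFieldFullC ↥K₀ (M * q)))
    (hwt : (((atkinLehner ↥K₀ ιC hq hqM).toAlgHom t : ↥(modularFunctionFieldFullC ↥K₀ (M * q))) :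
      LaurentSeries ↥K₀) ∈ gaussRing (algebraMap ↥(beta0Ring A K₀) ↥K₀) r)
    (x : integralClosure (Algebra.adjoin ↥(beta0Ring A K₀) {t})
      ↥(modularFunctionFieldFullC ↥K₀ (M * q))) :
    nodesSwapRho₀ r hπ.ne_zero hπ.not_isUnit hr hrπ (nodesFrob_full_le (M * q))
        (atkinLehner ↥K₀ ιC hq hqM).toAlgHom t hwt x = 0 ↔
      (x : ↥(modularFunctionFieldFullC ↥K₀ (M * q))) ∈ (mgvV hπ ιC hq hqM false).nonunits := by
  rw [mgcb_mgvV_eq hπ ιC hq hqM r hr hrπ]
  exact mgcb_rho₀_eq_zero_iff r ιC hq hqM (mgcb_vtBase hπ r hr hrπ) hπ.ne_zero hπ.not_isUnit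
    hr hrπ t hwt x

/-- **(SS1) at the base for `mgvV`** (= `hSS1₀` of `mgcc_SS1` / `mgs_SS1`) from the kernel form
of U5 (`nodesFull_ker_J`, `nodesFull_ker_Jinv`, `nodes_modular_ker`), for ANY reduction `r` with
kernel `(π)` and any chart `t`. -/
theorem mgcb_SS1_base {k : Type*} [Field k] (r : ↥(beta0Ring A K₀) →+* k)
    (hr : ∀ a, r a = 0 → π ∣ a) (hrπ : r π = 0)
    (t : ↥(modularFunctionFieldFullC ↥K₀ (M * q)))
    (ht : (t : LaurentSeries ↥K₀) ∈ gaussRing (algebraMap ↥(beta0Ring A K₀) ↥K₀) r)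
    (hwt : (((atkinLehner ↥K₀ ιC hq hqM).toAlgHom t : ↥(modularFunctionFieldFullC ↥K₀ (M * q))) :
      LaurentSeries ↥K₀) ∈ gaussRing (algebraMap ↥(beta0Ring A K₀) ↥K₀) r)
    (hker : ∀ x : integralClosure (Algebra.adjoin ↥(beta0Ring A K₀) {t})
        ↥(modularFunctionFieldFullC ↥K₀ (M * q)),
      nodesFrobChartRed r hπ.ne_zero hπ.not_isUnit hr hrπ (nodesFrob_full_le (M * q)) t ht x = 0 →
      nodesSwapRho₀ r hπ.ne_zero hπ.not_isUnit hr hrπ (nodesFrob_full_le (M * q))
        (atkinLehner ↥K₀ ιC hq hqM).toAlgHom t hwt x = 0 →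
      algebraMap ↥(beta0Ring A K₀) (integralClosure (Algebra.adjoin ↥(beta0Ring A K₀) {t})
        ↥(modularFunctionFieldFullC ↥K₀ (M * q))) π ∣ x)
    (x : integralClosure (Algebra.adjoin ↥(beta0Ring A K₀) {t})
      ↥(modularFunctionFieldFullC ↥K₀ (M * q)))
    (hx : ∀ c, (x : ↥(modularFunctionFieldFullC ↥K₀ (M * q))) ∈
      (mgvV hπ ιC hq hqM c).nonunits) :
    algebraMap ↥(beta0Ring A K₀) (integralClosure (Algebra.adjoin ↥(beta0Ring A K₀) {t})
      ↥(modularFunctionFieldFullC ↥K₀ (M * q))) π ∣ x :=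
  hker x ((mgcb_rho_eq_zero_iff_mgvV hπ ιC hq hqM r hr hrπ t ht x).mpr (hx true))
    ((mgcb_rho₀_eq_zero_iff_mgvV hπ ιC hq hqM r hr hrπ t hwt x).mpr (hx false))

end Concrete

end Fermat.Agent.UNIP

end
end ZBUNIP_012_2
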