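/- GENERATED FILE (helper35, build-time optimisation, NOTES/ZB.md): verbatim concatenation of the modules
   Fermat.Agent.S41.Defs
   Fermat.Agent.S41.Cores
   Fermat.Agent.S41.Plan
   Fermat.Agent.S41.TransferFormula
   Fermat.Agent.S41.HeckeU
   Fermat.Agent.S41.HeckeUInv
   Fermat.Agent.S41.CharInv
   Do not edit; do not import together with these modules. -/
import Mathlib
import Fermat.Prelude.Def_ModularCurve_PeriodMap
import Fermat.Agent.ZB.UNIP_012
import Fermat.Prelude.Def_FLTPrelim_ModularRep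
import Fermat.Agent.ZB.ES_009
import Fermat.Prelude.Sol.S_ModularForm_heckeU_slash_eq_self_of_mem_Gamma0
import Fermat.Prelude.Def_ModularCurve_PeriodHomPair

/-! ### bundled: `Fermat.Agent.S41.Defs` -/
section ZBS41_002_0

/-!
# S41 (level raising) — basic definitions: degeneracy maps on `Hom(Γ₀(M), A)`

`Γ = Γ₀(N)`, `Γ₀ = Γ₀(N q)`, `δ = diag(q, 1)`.
* `incl N q : Γ₀(N q) →* Γ₀(N)`   the inclusion,
* `conjD N q : Γ₀(N q) →* Γ₀(N)`  `γ ↦ δ γ δ⁻¹ = [[a, q b], [c / q, d]]`,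
* `res, resD : Hom(Γ₀(N), A) → Hom(Γ₀(N q), A)`   composition with `incl`, `conjD`,
* `cores, coresD : Hom(Γ₀(N q), A) → Hom(Γ₀(N), A)` the transfer (Mathlib `MonoidHom.transfer`)
  along `incl`, `conjD`,
* `alpha = res ∘ fst + resD ∘ snd`, `alphaT = (cores, coresD)`.
-/

set_option autoImplicit false

noncomputable section

namespace Fermat.Agent.S41

open CongruenceSubgroup Matrix
open scoped MatrixGroups

/-- `Hom(Γ₀(M), A)`. -/
abbrev HomG (M : ℕ) (A : Type*) [AddCommGroup A] : Type _ := Additive (Gamma0 M) →+ A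

section groups

variable (N q : ℕ)

theorem dvd_of_mem_Gamma0 {M : ℕ} {A : SL(2, ℤ)} (hA : A ∈ Gamma0 M) : (M : ℤ) ∣ A 1 0 :=
  (ZMod.intCast_zmod_eq_zero_iff_dvd _ _).mp (Gamma0_mem.mp hA)

theorem mem_Gamma0_of_dvd {M : ℕ} {A : SL(2, ℤ)} (hA : (M : ℤ) ∣ A 1 0) : A ∈ Gamma0 M :=
  Gamma0_mem.mpr ((ZMod.intCast_zmod_eq_zero_iff_dvd _ _).mpr hA)

theorem Gamma0_mul_le : Gamma0 (N * q) ≤ Gamma0 N := fun A hA =>
  mem_Gamma0_of_dvd (dvd_trans (by push_cast; exact dvd_mul_right _ _) (dvd_of_mem_Gamma0 hA))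

/-- The inclusion `Γ₀(N q) → Γ₀(N)`. -/
def incl : Gamma0 (N * q) →* Gamma0 N := Subgroup.inclusion (Gamma0_mul_le N q)

@[simp] theorem incl_coe (γ : Gamma0 (N * q)) : ((incl N q γ : Gamma0 N) : SL(2, ℤ)) = γ := rfl

theorem incl_injective : Function.Injective (incl N q) :=
  Subgroup.inclusion_injective _

/-- The matrix `δ A δ⁻¹ = [[a, q b], [c / q, d]]`, `δ = diag(q, 1)` (meaningful when `q ∣ c`). -/
def conjDMat (A : Matrix (Fin 2) (Fin 2) ℤ) : Matrix (Fin 2) (Fin 2) ℤ :=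
  !![A 0 0, q * A 0 1; A 1 0 / q, A 1 1]

theorem conjDMat_det {A : Matrix (Fin 2) (Fin 2) ℤ} (h : (q : ℤ) ∣ A 1 0) :
    (conjDMat q A).det = A.det := by
  obtain ⟨c, hc⟩ := h
  rcases Nat.eq_zero_or_pos q with rfl | hq
  · simp only [Nat.cast_zero, zero_mul] at hc
    simp [conjDMat, Matrix.det_fin_two, hc]
  · have hq' : (q : ℤ) ≠ 0 := by exact_mod_cast hq.ne'
    rw [conjDMat, Matrix.det_fin_two_of, Matrix.det_fin_two, hc, Int.mul_ediv_cancel_left _ hq']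
    ring

theorem conjDMat_mul {A B : Matrix (Fin 2) (Fin 2) ℤ} (hA : (q : ℤ) ∣ A 1 0)
    (hB : (q : ℤ) ∣ B 1 0) : conjDMat q (A * B) = conjDMat q A * conjDMat q B := by
  obtain ⟨c, hc⟩ := hA
  obtain ⟨c', hc'⟩ := hB
  rcases Nat.eq_zero_or_pos q with rfl | hq
  · simp only [Nat.cast_zero, zero_mul] at hc hc'
    ext i j
    fin_cases i <;> fin_cases j <;>
      simp [conjDMat, Matrix.mul_apply, Fin.sum_univ_two, hc, hc']
  · have hq' : (q : ℤ) ≠ 0 := by exact_mod_cast hq.ne'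
    have h10 : (A * B) 1 0 = q * (c * B 0 0 + A 1 1 * c') := by
      rw [Matrix.mul_apply, Fin.sum_univ_two, hc, hc']; ring
    ext i j
    fin_cases i <;> fin_cases j
    · simp [conjDMat, Matrix.mul_apply, Fin.sum_univ_two, hc, hc', Int.mul_ediv_cancel_left _ hq']
      ring
    · simp [conjDMat, Matrix.mul_apply, Fin.sum_univ_two, hc, hc', Int.mul_ediv_cancel_left _ hq']
      ring
    · show (conjDMat q (A * B)) 1 0 = (conjDMat q A * conjDMat q B) 1 0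
      have e1 : (conjDMat q (A * B)) 1 0 = (A * B) 1 0 / q := by simp [conjDMat]
      rw [e1, h10, Int.mul_ediv_cancel_left _ hq']
      simp [conjDMat, Matrix.mul_apply, Fin.sum_univ_two, hc, hc',
        Int.mul_ediv_cancel_left _ hq']
    · simp [conjDMat, Matrix.mul_apply, Fin.sum_univ_two, hc, hc', Int.mul_ediv_cancel_left _ hq']
      ring

theorem dvd_q_of_mem {γ : SL(2, ℤ)} (hγ : γ ∈ Gamma0 (N * q)) : (q : ℤ) ∣ γ 1 0 :=
  dvd_trans (by push_cast; exact dvd_mul_left _ _) (dvd_of_mem_Gamma0 hγ)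

/-- `δ γ δ⁻¹` as an element of `SL(2, ℤ)`, for `γ ∈ Γ₀(N q)`. -/
def conjDSL (γ : Gamma0 (N * q)) : SL(2, ℤ) :=
  ⟨conjDMat q ((γ : SL(2, ℤ)) : Matrix (Fin 2) (Fin 2) ℤ), by
    rw [conjDMat_det q (dvd_q_of_mem N q γ.2)]; exact (γ : SL(2, ℤ)).2⟩

theorem conjDSL_mem [NeZero q] (γ : Gamma0 (N * q)) : conjDSL N q γ ∈ Gamma0 N := by
  apply mem_Gamma0_of_dvd
  have hq' : (q : ℤ) ≠ 0 := by exact_mod_cast NeZero.ne q
  obtain ⟨c, hc⟩ := dvd_of_mem_Gamma0 γ.2
  show (N : ℤ) ∣ (conjDMat q ((γ : SL(2, ℤ)) : Matrix (Fin 2) (Fin 2) ℤ)) 1 0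
  have e1 : (conjDMat q ((γ : SL(2, ℤ)) : Matrix (Fin 2) (Fin 2) ℤ)) 1 0
      = ((γ : SL(2, ℤ)) : Matrix (Fin 2) (Fin 2) ℤ) 1 0 / q := by simp [conjDMat]
  rw [e1]
  have : ((γ : SL(2, ℤ)) : Matrix (Fin 2) (Fin 2) ℤ) 1 0 = q * (N * c) := by
    rw [hc]; push_cast; ring
  rw [this, Int.mul_ediv_cancel_left _ hq']
  exact dvd_mul_right _ _

/-- Conjugation by `δ = diag(q, 1)`: `Γ₀(N q) →* Γ₀(N)`, `[[a, b], [c, d]] ↦ [[a, q b], [c / q, d]]`. -/
def conjD [NeZero q] : Gamma0 (N * q) →* Gamma0 N where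
  toFun γ := ⟨conjDSL N q γ, conjDSL_mem N q γ⟩
  map_one' := by
    apply Subtype.ext; apply Subtype.ext
    show conjDMat q ((1 : SL(2, ℤ)) : Matrix (Fin 2) (Fin 2) ℤ) = 1
    ext i j
    fin_cases i <;> fin_cases j <;> simp [conjDMat]
  map_mul' γ γ' := by
    apply Subtype.ext; apply Subtype.ext
    show conjDMat q (((γ * γ' : Gamma0 (N * q)) : SL(2, ℤ)) : Matrix (Fin 2) (Fin 2) ℤ) = _
    rw [Subgroup.coe_mul, Matrix.SpecialLinearGroup.coe_mul,
      conjDMat_mul q (dvd_q_of_mem N q γ.2) (dvd_q_of_mem N q γ'.2)]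
    rfl

@[simp] theorem conjD_coe [NeZero q] (γ : Gamma0 (N * q)) :
    (((conjD N q γ : Gamma0 N) : SL(2, ℤ)) : Matrix (Fin 2) (Fin 2) ℤ)
      = conjDMat q ((γ : SL(2, ℤ)) : Matrix (Fin 2) (Fin 2) ℤ) := rfl

theorem conjD_injective [NeZero q] : Function.Injective (conjD N q) := by
  intro γ γ' h
  have hq' : (q : ℤ) ≠ 0 := by exact_mod_cast NeZero.ne q
  have h' := congrArg (fun x : Gamma0 N => ((x : SL(2, ℤ)) : Matrix (Fin 2) (Fin 2) ℤ)) h
  simp only [conjD_coe] at h'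
  obtain ⟨c, hc⟩ := dvd_q_of_mem N q γ.2
  obtain ⟨c', hc'⟩ := dvd_q_of_mem N q γ'.2
  apply Subtype.ext; apply Subtype.ext
  have h00 := congrFun (congrFun h' 0) 0
  have h01 := congrFun (congrFun h' 0) 1
  have h10 := congrFun (congrFun h' 1) 0
  have h11 := congrFun (congrFun h' 1) 1
  simp only [conjDMat, Matrix.of_apply, Matrix.cons_val_zero, Matrix.cons_val_one,
    Matrix.cons_val', Matrix.cons_val_fin_one] at h00 h01 h10 h11
  rw [hc, hc', Int.mul_ediv_cancel_left _ hq', Int.mul_ediv_cancel_left _ hq'] at h10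
  ext i j
  fin_cases i <;> fin_cases j
  · exact h00
  · exact mul_left_cancel₀ hq' h01
  · show ((γ : SL(2, ℤ)) : Matrix (Fin 2) (Fin 2) ℤ) 1 0 = ((γ' : SL(2, ℤ)) : Matrix (Fin 2) (Fin 2) ℤ) 1 0
    rw [hc, hc', h10]
  · exact h11

end groups

section homs

variable (N q : ℕ) (A : Type*) [AddCommGroup A]

/-- restriction along the inclusion `Γ₀(N q) ≤ Γ₀(N)`. -/
def res : HomG N A →+ HomG (N * q) A where
  toFun φ := φ.comp (MonoidHom.toAdditive (incl N q))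
  map_zero' := rfl
  map_add' _ _ := rfl

/-- restriction along `γ ↦ δ γ δ⁻¹`. -/
def resD [NeZero q] : HomG N A →+ HomG (N * q) A where
  toFun φ := φ.comp (MonoidHom.toAdditive (conjD N q))
  map_zero' := rfl
  map_add' _ _ := rfl

variable {N q A}

@[simp] theorem res_apply (φ : HomG N A) (γ : Gamma0 (N * q)) :
    res N q A φ (Additive.ofMul γ) = φ (Additive.ofMul (incl N q γ)) := rfl

@[simp] theorem resD_apply [NeZero q] (φ : HomG N A) (γ : Gamma0 (N * q)) :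
    resD N q A φ (Additive.ofMul γ) = φ (Additive.ofMul (conjD N q γ)) := rfl

end homs

end Fermat.Agent.S41

end
end ZBS41_002_0

/-! ### bundled: `Fermat.Agent.S41.Cores` -/
section ZBS41_002_1

/-!
# S41 — corestriction (transfer) along `incl` and `conjD`, and the maps `alpha`, `alphaT`
-/

set_option autoImplicit false

noncomputable section

namespace Fermat.Agent.S41

open CongruenceSubgroup Matrix
open scoped MatrixGroups

section finiteIndex

variable (N q : ℕ) [NeZero N] [NeZero q]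

instance incl_range_finiteIndex : (incl N q).range.FiniteIndex := by
  haveI : NeZero (N * q) := inferInstance
  rw [incl, Subgroup.inclusion_range]
  infer_instance

/-- `Γ(N q) ∩ Γ₀(N)` is contained in the image of `conjD`. -/
theorem Gamma_subgroupOf_le_conjD_range :
    (Gamma (N * q)).subgroupOf (Gamma0 N) ≤ (conjD N q).range := by
  intro γ hγ
  rw [Subgroup.mem_subgroupOf] at hγ
  have hq' : (q : ℤ) ≠ 0 := by exact_mod_cast NeZero.ne q
  have hγ' := Gamma_mem.mp hγ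
  obtain ⟨h00, h01, h10, h11⟩ := hγ'
  have hb : ((N * q : ℕ) : ℤ) ∣ ((γ : SL(2, ℤ)) : Matrix (Fin 2) (Fin 2) ℤ) 0 1 :=
    (ZMod.intCast_zmod_eq_zero_iff_dvd _ _).mp h01
  have hc : ((N * q : ℕ) : ℤ) ∣ ((γ : SL(2, ℤ)) : Matrix (Fin 2) (Fin 2) ℤ) 1 0 :=
    (ZMod.intCast_zmod_eq_zero_iff_dvd _ _).mp h10
  obtain ⟨b, hb⟩ := hb
  obtain ⟨c, hc⟩ := hc
  have hdet : ((γ : SL(2, ℤ)) : Matrix (Fin 2) (Fin 2) ℤ).det = 1 := (γ : SL(2, ℤ)).2
  rw [Matrix.det_fin_two, hb, hc] at hdet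
  -- the preimage `δ⁻¹ γ δ = [[a, b / q], [q c, d]]`
  let M : Matrix (Fin 2) (Fin 2) ℤ :=
    !![((γ : SL(2, ℤ)) : Matrix (Fin 2) (Fin 2) ℤ) 0 0, N * b;
       q * (((N * q : ℕ) : ℤ) * c), ((γ : SL(2, ℤ)) : Matrix (Fin 2) (Fin 2) ℤ) 1 1]
  have hM : M.det = 1 := by
    rw [Matrix.det_fin_two_of]
    push_cast at hdet ⊢
    linear_combination hdet
  let g : SL(2, ℤ) := ⟨M, hM⟩
  have hg : g ∈ Gamma0 (N * q) := by
    apply mem_Gamma0_of_dvd
    show ((N * q : ℕ) : ℤ) ∣ M 1 0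
    simp only [M, Matrix.of_apply, Matrix.cons_val_one, Matrix.cons_val_zero]
    exact ⟨q * c, by push_cast; ring⟩
  refine ⟨⟨g, hg⟩, ?_⟩
  apply Subtype.ext; apply Subtype.ext
  rw [conjD_coe]
  ext i j
  fin_cases i <;> fin_cases j
  · simp [conjDMat, g, M]
  · simp only [conjDMat, g, M, Matrix.of_apply, Matrix.cons_val_zero, Matrix.cons_val_one,
      Fin.zero_eta, Fin.mk_one]
    rw [hb]; push_cast; ring
  · simp only [conjDMat, g, M, Matrix.of_apply, Matrix.cons_val_zero, Matrix.cons_val_one,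
      Fin.zero_eta, Fin.mk_one]
    rw [Int.mul_ediv_cancel_left _ hq', hc]
  · simp [conjDMat, g, M]

instance conjD_range_finiteIndex : (conjD N q).range.FiniteIndex := by
  haveI : NeZero (N * q) := inferInstance
  haveI : ((Gamma (N * q)).subgroupOf (Gamma0 N)).FiniteIndex := inferInstance
  exact Subgroup.finiteIndex_of_le (Gamma_subgroupOf_le_conjD_range N q)

end finiteIndex

section cores

variable (N q : ℕ) [NeZero N] [NeZero q] (A : Type*) [AddCommGroup A]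

/-- Transfer of a homomorphism along an injective group homomorphism with finite-index range. -/
def transferAlong {G H : Type*} [Group G] [Group H] (f : H →* G) (hf : Function.Injective f)
    [f.range.FiniteIndex] (ψ : Additive H →+ A) : Additive G →+ A :=
  MonoidHom.toAdditiveLeft
    (MonoidHom.transfer
      ((AddMonoidHom.toMultiplicativeRight ψ).comp (MonoidHom.ofInjective hf).symm.toMonoidHom))

/-- the multiplicative homomorphism on the range used in `transferAlong`. -/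
def rangeHom {G H : Type*} [Group G] [Group H] (f : H →* G) (hf : Function.Injective f)
    (ψ : Additive H →+ A) : f.range →* Multiplicative A :=
  (AddMonoidHom.toMultiplicativeRight ψ).comp (MonoidHom.ofInjective hf).symm.toMonoidHom

theorem transferAlong_apply {G H : Type*} [Group G] [Group H] (f : H →* G)
    (hf : Function.Injective f) [f.range.FiniteIndex] (ψ : Additive H →+ A)
    (T : f.range.LeftTransversal) (g : G) :
    transferAlong A f hf ψ (Additive.ofMul g) =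
      Multiplicative.toAdd (Subgroup.leftTransversals.diff (rangeHom A f hf ψ) T (g • T)) := by
  show Multiplicative.toAdd (MonoidHom.transfer (rangeHom A f hf ψ) g) = _
  rw [MonoidHom.transfer_def _ T]

theorem rangeHom_add {G H : Type*} [Group G] [Group H] (f : H →* G) (hf : Function.Injective f)
    (ψ ψ' : Additive H →+ A) (x : f.range) :
    rangeHom A f hf (ψ + ψ') x = rangeHom A f hf ψ x * rangeHom A f hf ψ' x := rfl

theorem transferAlong_add {G H : Type*} [Group G] [Group H] (f : H →* G)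
    (hf : Function.Injective f) [f.range.FiniteIndex] (ψ ψ' : Additive H →+ A) :
    transferAlong A f hf (ψ + ψ') = transferAlong A f hf ψ + transferAlong A f hf ψ' := by
  classical
  refine AddMonoidHom.ext fun g => ?_
  obtain ⟨g, rfl⟩ : ∃ g' : G, Additive.ofMul g' = g := ⟨Additive.toMul g, rfl⟩
  let T : f.range.LeftTransversal := default
  rw [AddMonoidHom.add_apply, transferAlong_apply A f hf _ T, transferAlong_apply A f hf _ T,
    transferAlong_apply A f hf _ T, ← toAdd_mul]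
  congr 1
  simp only [Subgroup.leftTransversals.diff, rangeHom_add]
  rw [← Finset.prod_mul_distrib]

theorem transferAlong_zero {G H : Type*} [Group G] [Group H] (f : H →* G)
    (hf : Function.Injective f) [f.range.FiniteIndex] :
    transferAlong A f hf (0 : Additive H →+ A) = 0 := by
  have h := transferAlong_add A f hf 0 0
  rw [add_zero] at h
  exact left_eq_add.mp h

/-- corestriction (transfer) along the inclusion `Γ₀(N q) ≤ Γ₀(N)`. -/
def cores : HomG (N * q) A →+ HomG N A where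
  toFun := transferAlong A (incl N q) (incl_injective N q)
  map_zero' := transferAlong_zero A _ _
  map_add' := transferAlong_add A _ _

/-- corestriction (transfer) along `γ ↦ δ γ δ⁻¹`. -/
def coresD : HomG (N * q) A →+ HomG N A where
  toFun := transferAlong A (conjD N q) (conjD_injective N q)
  map_zero' := transferAlong_zero A _ _
  map_add' := transferAlong_add A _ _

/-- `α(φ₁, φ₂) = res φ₁ + res^δ φ₂`. -/
def alpha : HomG N A × HomG N A →+ HomG (N * q) A :=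
  (res N q A).coprod (resD N q A)

/-- `α†(ψ) = (cores ψ, cores^δ ψ)`. -/
def alphaT : HomG (N * q) A →+ HomG N A × HomG N A :=
  (cores N q A).prod (coresD N q A)

variable {N q A}

@[simp] theorem alpha_apply (φ : HomG N A × HomG N A) :
    alpha N q A φ = res N q A φ.1 + resD N q A φ.2 := rfl

@[simp] theorem alphaT_apply (ψ : HomG (N * q) A) :
    alphaT N q A ψ = (cores N q A ψ, coresD N q A ψ) := rfl

end cores

end Fermat.Agent.S41

end
end ZBS41_002_1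

/-! ### bundled: `Fermat.Agent.S41.Plan` -/
section ZBS41_002_2

/-!
# S41 (level raising) — interface: one `Prop` per piece (captain helper7, NOTES/S41-plan.md)

Notation: `Γ = Γ₀(N)`, `Γ₀ = Γ₀(N q)`, `q` prime, `q ∤ N`, `p` odd prime, `p ≠ q`.
`HomG M A = Hom(Γ₀(M), A)`, `Lpar M = Hom_par(Γ₀(M), ℤ)`,
`alpha = res + res^δ`, `alphaT = (cores, cores^δ)` (`Defs.lean`, `Cores.lean`),
`Tc ℓ` = the Hecke operator `T_ℓ` on `HomG M A` for a prime `ℓ ∤ M` (`ES/HeckeP.lean`).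
-/

set_option autoImplicit false

noncomputable section

namespace Fermat.Agent.S41

open CongruenceSubgroup Matrix ModularCurve.Period
open scoped MatrixGroups

/-- The Hecke operator `T_ℓ` on `Hom(Γ₀(M), A)` (`ℓ` prime, `ℓ ∤ M`); `= ES.HeckeP.heckeHom`. -/
def Tc {M : ℕ} (ℓ : ℕ) [Fact ℓ.Prime] (hℓ : ¬ ℓ ∣ M) {A : Type*} [AddCommGroup A]
    (φ : HomG M A) : HomG M A :=
  Fermat.Agent.ES.HeckeP.heckeHom hℓ φ

/-- `Hom_par(Γ₀(M), ℤ)` as an additive subgroup of `Hom(Γ₀(M), ℤ)`. -/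
def Lpar (M : ℕ) : AddSubgroup (HomG M ℤ) := (parabolicHoms ℤ (Gamma0 M) ℤ).toAddSubgroup

/-- `Hom_par(Γ₀(M), A)` as an additive subgroup. -/
def Hpar (M : ℕ) (A : Type*) [AddCommGroup A] : AddSubgroup (HomG M A) :=
  (parabolicHoms ℤ (Gamma0 M) A).toAddSubgroup

/-- the `q`-new lattice `K = ker(α†) ∩ Hom_par(Γ₀(N q), ℤ)`. -/
def Knew (N q : ℕ) [NeZero N] [NeZero q] : AddSubgroup (HomG (N * q) ℤ) :=
  (alphaT N q ℤ).ker ⊓ Lpar (N * q)

/-! ## The Props -/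

/-- **(C0)** naturality of `cores`, `coresD` in the coefficient group. -/
def StmtC0 (N q : ℕ) [NeZero N] [NeZero q] : Prop :=
  ∀ (A B : Type) [AddCommGroup A] [AddCommGroup B] (f : A →+ B) (ψ : HomG (N * q) A),
    cores N q B (f.comp ψ) = f.comp (cores N q A ψ) ∧
    coresD N q B (f.comp ψ) = f.comp (coresD N q A ψ)

/-- **(C8)** the four degeneracy maps preserve parabolic homomorphisms. -/
def StmtC8 (N q : ℕ) [NeZero N] [NeZero q] : Prop :=
  ∀ (A : Type) [AddCommGroup A],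
    (∀ φ ∈ Hpar N A, res N q A φ ∈ Hpar (N * q) A ∧ resD N q A φ ∈ Hpar (N * q) A) ∧
    (∀ ψ ∈ Hpar (N * q) A, cores N q A ψ ∈ Hpar N A ∧ coresD N q A ψ ∈ Hpar N A)

/-- **(C1)** the degeneracy maps commute with `T_ℓ`, `ℓ ∤ N q`. -/
def StmtC1 (N q : ℕ) [NeZero N] [NeZero q] : Prop :=
  ∀ (A : Type) [AddCommGroup A] (ℓ : ℕ) [Fact ℓ.Prime] (hN : ¬ ℓ ∣ N) (hNq : ¬ ℓ ∣ N * q),
    (∀ φ : HomG N A, res N q A (Tc ℓ hN φ) = Tc ℓ hNq (res N q A φ) ∧
      resD N q A (Tc ℓ hN φ) = Tc ℓ hNq (resD N q A φ)) ∧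
    (∀ ψ : HomG (N * q) A, cores N q A (Tc ℓ hNq ψ) = Tc ℓ hN (cores N q A ψ) ∧
      coresD N q A (Tc ℓ hNq ψ) = Tc ℓ hN (coresD N q A ψ))

/-- **(C2)** `α†α = [[q+1, T_q], [T_q, q+1]]`. -/
def StmtC2 (N q : ℕ) [NeZero N] [NeZero q] : Prop :=
  ∀ (A : Type) [AddCommGroup A] [Fact q.Prime] (hqN : ¬ q ∣ N) (φ : HomG N A),
    cores N q A (res N q A φ) = (q + 1) • φ ∧
    coresD N q A (resD N q A φ) = (q + 1) • φ ∧
    cores N q A (resD N q A φ) = Tc q hqN φ ∧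
    coresD N q A (res N q A φ) = Tc q hqN φ

/-- **(IHARA)** (R1 + Theorem M + R3): the parabolic kernel of `α mod p` is Eisenstein. -/
def StmtIhara (N q p : ℕ) [NeZero N] [NeZero q] : Prop :=
  ∀ (φ₁ φ₂ : HomG N (ZMod p)), φ₁ ∈ Hpar N (ZMod p) → φ₂ ∈ Hpar N (ZMod p) →
    res N q (ZMod p) φ₁ + resD N q (ZMod p) φ₂ = 0 →
    ∀ (ℓ : ℕ) [Fact ℓ.Prime] (hN : ¬ ℓ ∣ N), ¬ ℓ ∣ q →
      Tc ℓ hN φ₁ = (ℓ + 1) • φ₁ ∧ Tc ℓ hN φ₂ = (ℓ + 1) • φ₂

/-- **(DUAL IHARA)** (R6, Poincaré duality): if `T_ℓ − (ℓ+1)` kills the parabolic kernel of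
`α mod p`, then it kills the cokernel of `α† mod p` on the parabolic lattices. -/
def StmtDualIhara (N q p : ℕ) [NeZero N] [NeZero q] : Prop :=
  ∀ (ℓ : ℕ) [Fact ℓ.Prime] (hN : ¬ ℓ ∣ N), ¬ ℓ ∣ q →
    (∀ (φ₁ φ₂ : HomG N (ZMod p)), φ₁ ∈ Hpar N (ZMod p) → φ₂ ∈ Hpar N (ZMod p) →
      res N q (ZMod p) φ₁ + resD N q (ZMod p) φ₂ = 0 →
      Tc ℓ hN φ₁ = (ℓ + 1) • φ₁ ∧ Tc ℓ hN φ₂ = (ℓ + 1) • φ₂) →
    ∀ x₁ ∈ Lpar N, ∀ x₂ ∈ Lpar N, ∃ ψ ∈ Lpar (N * q), ∃ y₁ ∈ Lpar N, ∃ y₂ ∈ Lpar N,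
      Tc ℓ hN x₁ - (ℓ + 1) • x₁ = cores N q ℤ ψ + p • y₁ ∧
      Tc ℓ hN x₂ - (ℓ + 1) • x₂ = coresD N q ℤ ψ + p • y₂

/-- **(NONEIS)** (R4): an irreducible `E[p]` is not Eisenstein. -/
def StmtNonEis : Prop :=
  ∀ (E : WeierstrassCurve ℚ) [E.IsElliptic] (W : WeierstrassCurve ℤ),
    W.IsIntegralModelOf E → ∀ (p : ℕ), p.Prime → p ≠ 2 →
    WeierstrassCurve.Affine.Point.GaloisRepIsIrreducible (K := AlgebraicClosure ℚ) ℚ E p →
    ∀ S : Finset ℕ, ∃ ℓ : ℕ, ℓ.Prime ∧ ℓ ∉ S ∧ ℓ ≠ p ∧ W.IsGoodPrimeFor ℓ ∧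
      ¬ ((p : ℤ) ∣ W.apOfModel ℓ - (ℓ + 1))

/-- the set of operators `x ↦ T_ℓ x − a_ℓ x` (`ℓ` good) together with `x ↦ p x`, applied to a
subgroup `X` of `Hom(Γ₀(M), ℤ)`: the subgroup `𝔫 X`. -/
def nSub (M p : ℕ) (a : ℕ → ℤ) (good : ℕ → Prop) (X : AddSubgroup (HomG M ℤ)) :
    AddSubgroup (HomG M ℤ) :=
  AddSubgroup.closure
    ({y | ∃ x ∈ X, y = p • x} ∪
      {y | ∃ (ℓ : ℕ) (_ : Fact ℓ.Prime) (hℓ : ¬ ℓ ∣ M), good ℓ ∧ ∃ x ∈ X, y = Tc ℓ hℓ x - a ℓ • x})

/-- **(H3)** level-`N` input: `L_N ≠ 𝔫 L_N + (T_q² − (q+1)²) L_N`. -/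
def StmtH3 (N q p : ℕ) (a : ℕ → ℤ) (good : ℕ → Prop) : Prop :=
  ∀ [Fact q.Prime] (hqN : ¬ q ∣ N), ∃ x ∈ Lpar N,
    x ∉ nSub N p a good (Lpar N) ⊔
      AddSubgroup.closure {y | ∃ z ∈ Lpar N, y = Tc q hqN (Tc q hqN z) - ((q : ℤ) + 1) ^ 2 • z}

/-- **(COH)** the cohomological level-raising statement: `K ≠ 𝔫 K`. -/
def StmtCOH (N q p : ℕ) [NeZero N] [NeZero q] (a : ℕ → ℤ) (good : ℕ → Prop) : Prop :=
  ∃ x ∈ Knew N q, x ∉ nSub (N * q) p a good (Knew N q)

/-- **(ALG)** the lattice lemma (pure commutative algebra). -/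
def StmtAlg : Prop :=
  ∀ (R : Type) [CommRing R] (𝔫 : Ideal R) (p : ℕ), p.Prime → (p : R) ∈ 𝔫 →
  ∀ (L L' : Type) [AddCommGroup L] [AddCommGroup L'] [Module R L] [Module R L']
    [Module.Finite ℤ L] [Module.Finite ℤ L']
    (α : L × L →ₗ[R] L') (β : L' →ₗ[R] L × L) (t : L →ₗ[R] L) (c : ℤ),
    (∀ x y : L, β (α (x, y)) = (c • x + t y, t x + c • y)) →
    (∃ ε : R, ε - 1 ∈ 𝔫 ∧ ∀ z : L × L, (∃ w : L', α z = p • w) → ∃ z' : L × L, ε • z = p • z') →
    (∃ ε : R, ε - 1 ∈ 𝔫 ∧ ∀ z : L × L, ∃ (w : L') (z' : L × L), ε • z = β w + p • z') →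
    (∃ x : L, x ∉ (𝔫 • (⊤ : Submodule R L)) ⊔
        LinearMap.range (t ∘ₗ t - (c ^ 2) • (LinearMap.id : L →ₗ[R] L))) →
    ∃ y : L', β y = 0 ∧ y ∉ 𝔫 • (LinearMap.ker β)

end Fermat.Agent.S41

end
end ZBS41_002_2

/-! ### bundled: `Fermat.Agent.S41.TransferFormula` -/
section ZBS41_002_3

/-!
# S41 — explicit formula for the transfer `transferAlong`

For an injective `f : H →* G` with finite-index range, `tRep f q` is a representative of the left
coset `q : G ⧸ f.range` and `tCoc f hf q g : H` is the element with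

  `f (tCoc f hf q g) = (tRep f q)⁻¹ * g * tRep f (g⁻¹ • q)`.

* `transferAlong_eq_sum` : `transferAlong A f hf ψ g = ∑ q, ψ (tCoc f hf q g)`;
* `transferAlong_comp` : `transferAlong A f hf (φ ∘ f) = [G : f.range] • φ`;
* `transferAlong_natural` : naturality in the coefficient group; `stmtC0`.
-/

set_option autoImplicit false
set_option linter.style.haveILetI false

noncomputable section

namespace Fermat.Agent.S41

open CongruenceSubgroup Matrix
open scoped MatrixGroups Pointwise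

section abstract

variable {G H : Type*} [Group G] [Group H] (f : H →* G)

/-- the representative of a left coset of `f.range` in the default transversal -/
def tRep (q : G ⧸ f.range) : G :=
  (((default : f.range.LeftTransversal).2.leftQuotientEquiv q : _) : G)

theorem tRep_mk (q : G ⧸ f.range) : (QuotientGroup.mk (tRep f q) : G ⧸ f.range) = q :=
  (default : f.range.LeftTransversal).2.quotientGroupMk_leftQuotientEquiv q

theorem tRep_inv_mul_mem (q : G ⧸ f.range) (g : G) :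
    (tRep f q)⁻¹ * g * tRep f (g⁻¹ • q) ∈ f.range := by
  rw [mul_assoc, ← QuotientGroup.eq]
  rw [show (QuotientGroup.mk (g * tRep f (g⁻¹ • q)) : G ⧸ f.range)
      = g • (QuotientGroup.mk (tRep f (g⁻¹ • q)) : G ⧸ f.range) from rfl, tRep_mk, tRep_mk,
    smul_inv_smul]

variable (hf : Function.Injective f)

/-- the transfer cocycle -/
def tCoc (q : G ⧸ f.range) (g : G) : H :=
  (MonoidHom.ofInjective hf).symm ⟨(tRep f q)⁻¹ * g * tRep f (g⁻¹ • q), tRep_inv_mul_mem f q g⟩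

theorem f_tCoc (q : G ⧸ f.range) (g : G) :
    f (tCoc f hf q g) = (tRep f q)⁻¹ * g * tRep f (g⁻¹ • q) := by
  have h := (MonoidHom.ofInjective hf).apply_symm_apply
    ⟨(tRep f q)⁻¹ * g * tRep f (g⁻¹ • q), tRep_inv_mul_mem f q g⟩
  exact congrArg Subtype.val h

variable (A : Type*) [AddCommGroup A] [f.range.FiniteIndex]

/-- **Explicit formula for the transfer.** -/
theorem transferAlong_eq_sum (ψ : Additive H →+ A) (g : G) :
    transferAlong A f hf ψ (Additive.ofMul g)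
      = (@Finset.univ (G ⧸ f.range) f.range.fintypeQuotientOfFiniteIndex).sum
          fun q => ψ (Additive.ofMul (tCoc f hf q g)) := by
  classical
  rw [transferAlong_apply A f hf ψ (default : f.range.LeftTransversal) g]
  unfold Subgroup.leftTransversals.diff
  simp only
  rw [toAdd_prod]
  refine Finset.sum_congr rfl fun q _ => ?_
  show ψ (Additive.ofMul ((MonoidHom.ofInjective hf).symm _)) = _
  congr 2
  apply (MonoidHom.ofInjective hf).injective
  rw [MulEquiv.apply_symm_apply]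
  apply Subtype.ext
  rw [tCoc, MulEquiv.apply_symm_apply]
  show _ * _ = _
  rw [Subgroup.smul_apply_eq_smul_apply_inv_smul]
  simp only [tRep, smul_eq_mul, mul_assoc]

/-- Transfer of a restricted homomorphism: multiplication by the index. -/
theorem transferAlong_comp (φ : Additive G →+ A) :
    transferAlong A f hf (φ.comp (MonoidHom.toAdditive f)) = f.range.index • φ := by
  classical
  letI := f.range.fintypeQuotientOfFiniteIndex
  refine AddMonoidHom.ext fun g => ?_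
  obtain ⟨g, rfl⟩ : ∃ g' : G, Additive.ofMul g' = g := ⟨Additive.toMul g, rfl⟩
  rw [transferAlong_eq_sum]
  have h1 : ∀ q : G ⧸ f.range,
      (φ.comp (MonoidHom.toAdditive f)) (Additive.ofMul (tCoc f hf q g))
        = φ (Additive.ofMul g) + (φ (Additive.ofMul (tRep f (g⁻¹ • q)))
          - φ (Additive.ofMul (tRep f q))) := by
    intro q
    show φ (Additive.ofMul (f (tCoc f hf q g))) = _
    rw [f_tCoc, ofMul_mul, ofMul_mul, ofMul_inv, map_add, map_add, map_neg]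
    abel
  simp only [h1]
  rw [Finset.sum_add_distrib, Finset.sum_sub_distrib]
  have h2 : ∑ q : G ⧸ f.range, φ (Additive.ofMul (tRep f (g⁻¹ • q)))
      = ∑ q : G ⧸ f.range, φ (Additive.ofMul (tRep f q)) :=
    Equiv.sum_comp (MulAction.toPerm g⁻¹ : Equiv.Perm (G ⧸ f.range))
      (fun q => φ (Additive.ofMul (tRep f q)))
  rw [h2, sub_self, add_zero, Finset.sum_const, Finset.card_univ]
  rw [AddMonoidHom.smul_apply, Subgroup.index_eq_card, Nat.card_eq_fintype_card]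

/-- Naturality of the transfer in the coefficient group. -/
theorem transferAlong_natural {B : Type*} [AddCommGroup B] (u : A →+ B) (ψ : Additive H →+ A) :
    transferAlong B f hf (u.comp ψ) = u.comp (transferAlong A f hf ψ) := by
  classical
  refine AddMonoidHom.ext fun g => ?_
  obtain ⟨g, rfl⟩ : ∃ g' : G, Additive.ofMul g' = g := ⟨Additive.toMul g, rfl⟩
  rw [AddMonoidHom.comp_apply, transferAlong_eq_sum, transferAlong_eq_sum, map_sum]
  rfl

end abstract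

/-- **(C0)** naturality of `cores`, `coresD` in the coefficient group. -/
theorem stmtC0 (N q : ℕ) [NeZero N] [NeZero q] : StmtC0 N q := by
  intro A B _ _ f ψ
  exact ⟨transferAlong_natural _ _ A f ψ, transferAlong_natural _ _ A f ψ⟩

end Fermat.Agent.S41

end
end ZBS41_002_3

/-! ### bundled: `Fermat.Agent.S41.HeckeU` -/
section ZBS41_002_4

/-!
# S41, piece C3: the operator `U_ℓ` on `Hom(Γ₀(M), A)` for `ℓ ∣ M`

For `ℓ ∣ M` the prelude's coset law
`heckeMatrix ℓ x * g = g' * heckeMatrix ℓ (x·g)` (`x ∈ 𝔽_ℓ`, `g, g' ∈ Γ₀(M)`, `x·g = d (b + d x)`)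
defines `κ_U(g, x) := g'` with the cocycle identity `κ_U(g h, x) = κ_U(g, x) κ_U(h, x·g)`.
The operator is `(U_ℓ φ)(g) = ∑_{x ∈ 𝔽_ℓ} φ(κ_U(g, x))`.

* `idxU`, `idxU_mul`, `idxU_one`, `idxPermU` — the right action on the index set `ZMod ℓ`;
  `idxU_eq_affinePerm`, `idxU_eq_affinePermT` — it is the prelude's `affinePerm` (both copies);
* `kapU`, `kapU_spec`, `kapU_unique`, `kapU_mul`, `kapU_one`, `kapU_of_idxU_eq`;
* `heckeU`, `heckeU_apply`, `heckeU_add`, `heckeU_zero`, `heckeU_comp`, `heckeUL`;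
* `heckeU_isParabolicHom`, `heckeU_mem_Hpar`, `heckeU_mem_Lpar`.
-/

set_option autoImplicit false

noncomputable section

namespace Fermat.Agent.S41

open Matrix Matrix.SpecialLinearGroup CongruenceSubgroup ModularForm
open scoped MatrixGroups

variable {ℓ : ℕ} {M : ℕ}

/-- the lower left entry of an element of `Γ₀(M)` vanishes modulo a divisor `ℓ` of `M` -/
theorem cast_lowerLeft_eq_zero (hℓM : ℓ ∣ M) (g : Gamma0 M) :
    ((((g : SL(2, ℤ)) 1 0 : ℤ)) : ZMod ℓ) = 0 :=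
  (ZMod.intCast_zmod_eq_zero_iff_dvd _ _).mpr
    ((Int.natCast_dvd_natCast.mpr hℓM).trans (dvd_of_mem_Gamma0 g.2))

theorem dvd_lowerLeft (hℓM : ℓ ∣ M) (g : Gamma0 M) : (ℓ : ℤ) ∣ (g : SL(2, ℤ)) 1 0 :=
  (Int.natCast_dvd_natCast.mpr hℓM).trans (dvd_of_mem_Gamma0 g.2)

/-- The right action of `Γ₀(M)` on the index set `𝔽_ℓ`: `x·g = d (b + d x)`. -/
def idxU (g : SL(2, ℤ)) (x : ZMod ℓ) : ZMod ℓ :=
  ((g 1 1 : ℤ) : ZMod ℓ) * (((g 0 1 : ℤ) : ZMod ℓ) + ((g 1 1 : ℤ) : ZMod ℓ) * x)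

theorem idxU_eq_affinePerm (g : SL(2, ℤ)) (hc : ((g 1 0 : ℤ) : ZMod ℓ) = 0) (x : ZMod ℓ) :
    P2MW.S_ModularForm_heckeU_slash_eq_self_of_mem_Gamma0.ModularForm.HeckeSlashInvariance.affinePerm
      g hc x = idxU g x := rfl

theorem idxU_eq_affinePermT (g : SL(2, ℤ)) (hc : ((g 1 0 : ℤ) : ZMod ℓ) = 0) (x : ZMod ℓ) :
    P2MW.S_ModularForm_heckeT_slash_eq_self_of_mem_Gamma0.ModularForm.HeckeSlashInvariance.affinePerm
      g hc x = idxU g x := rfl

/-- `x ↦ x·g` as a permutation. -/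
def idxPermU (hℓM : ℓ ∣ M) (g : Gamma0 M) : Equiv.Perm (ZMod ℓ) :=
  P2MW.S_ModularForm_heckeU_slash_eq_self_of_mem_Gamma0.ModularForm.HeckeSlashInvariance.affinePerm
    (g : SL(2, ℤ)) (cast_lowerLeft_eq_zero hℓM g)

theorem idxPermU_apply (hℓM : ℓ ∣ M) (g : Gamma0 M) (x : ZMod ℓ) :
    idxPermU hℓM g x = idxU (g : SL(2, ℤ)) x := rfl

theorem idxU_one (x : ZMod ℓ) : idxU (1 : SL(2, ℤ)) x = x := by
  simp [idxU]

theorem idxU_mul (g h : SL(2, ℤ)) (hg : ((g 1 0 : ℤ) : ZMod ℓ) = 0) (x : ZMod ℓ) :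
    idxU (g * h) x = idxU h (idxU g x) := by
  have hu :=
    P2MW.S_ModularForm_heckeU_slash_eq_self_of_mem_Gamma0.ModularForm.HeckeSlashInvariance.unit_of_apply_one_zero_eq_zero
      g hg
  simp only [idxU, Matrix.SpecialLinearGroup.coe_mul, Matrix.mul_apply, Fin.sum_univ_two]
  push_cast
  rw [hg]
  linear_combination (((h 1 1 : ℤ) : ZMod ℓ) * ((h 0 1 : ℤ) : ZMod ℓ)) * hu

variable [NeZero ℓ]

theorem exists_kapU (hℓM : ℓ ∣ M) (g : Gamma0 M) (x : ZMod ℓ) :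
    ∃ g' : Gamma0 M, heckeMatrix ℓ x.val * mapGL ℝ (g : SL(2, ℤ)) =
      mapGL ℝ (g' : SL(2, ℤ)) * heckeMatrix ℓ (idxU (g : SL(2, ℤ)) x).val := by
  obtain ⟨g', hg', hmul⟩ :=
    P2MW.S_ModularForm_heckeU_slash_eq_self_of_mem_Gamma0.ModularForm.HeckeSlashInvariance.heckeMatrix_mul_of_dvd
      (g : SL(2, ℤ)) (dvd_lowerLeft hℓM g) x
  refine ⟨⟨g', mem_Gamma0_of_dvd ?_⟩, hmul⟩
  rw [hg']
  exact Dvd.dvd.mul_left (dvd_of_mem_Gamma0 g.2) _

/-- The element `κ_U(g, x) ∈ Γ₀(M)` with `β_x g = κ_U(g, x) β_{x·g}`, `β_x = [[1, x], [0, ℓ]]`. -/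
def kapU (hℓM : ℓ ∣ M) (g : Gamma0 M) (x : ZMod ℓ) : Gamma0 M :=
  Classical.choose (exists_kapU hℓM g x)

theorem kapU_spec (hℓM : ℓ ∣ M) (g : Gamma0 M) (x : ZMod ℓ) :
    heckeMatrix ℓ x.val * mapGL ℝ (g : SL(2, ℤ)) =
      mapGL ℝ (kapU hℓM g x : SL(2, ℤ)) * heckeMatrix ℓ (idxU (g : SL(2, ℤ)) x).val :=
  Classical.choose_spec (exists_kapU hℓM g x)

theorem kapU_unique (hℓM : ℓ ∣ M) (g : Gamma0 M) (x : ZMod ℓ) (g' : Gamma0 M)
    (h : heckeMatrix ℓ x.val * mapGL ℝ (g : SL(2, ℤ)) =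
      mapGL ℝ (g' : SL(2, ℤ)) * heckeMatrix ℓ (idxU (g : SL(2, ℤ)) x).val) :
    kapU hℓM g x = g' := by
  have h1 := kapU_spec hℓM g x
  rw [h] at h1
  have h2 := mul_right_cancel h1
  exact (Subtype.ext (mapGL_injective h2)).symm

theorem kapU_mul (hℓM : ℓ ∣ M) (g h : Gamma0 M) (x : ZMod ℓ) :
    kapU hℓM (g * h) x = kapU hℓM g x * kapU hℓM h (idxU (g : SL(2, ℤ)) x) := by
  apply kapU_unique
  rw [Subgroup.coe_mul, Subgroup.coe_mul, map_mul, map_mul, ← mul_assoc, kapU_spec hℓM g x,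
    mul_assoc, kapU_spec hℓM h, ← mul_assoc,
    idxU_mul _ _ (cast_lowerLeft_eq_zero hℓM g)]

theorem kapU_one (hℓM : ℓ ∣ M) (x : ZMod ℓ) : kapU hℓM (1 : Gamma0 M) x = 1 := by
  apply kapU_unique
  rw [Subgroup.coe_one, map_one, mul_one, one_mul, idxU_one]

/-- If `x·g = x` then `κ_U(g, x) = β_x g β_x⁻¹`. -/
theorem kapU_of_idxU_eq (hℓM : ℓ ∣ M) (g : Gamma0 M) (x : ZMod ℓ)
    (hx : idxU (g : SL(2, ℤ)) x = x) :
    mapGL ℝ (kapU hℓM g x : SL(2, ℤ)) =
      heckeMatrix ℓ x.val * mapGL ℝ (g : SL(2, ℤ)) * (heckeMatrix ℓ x.val)⁻¹ := by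
  have h := kapU_spec hℓM g x
  rw [hx] at h
  rw [h, mul_inv_cancel_right]

omit [NeZero ℓ] in
theorem idxU_pow (hℓM : ℓ ∣ M) (g : Gamma0 M) (j : ℕ) (x : ZMod ℓ) :
    idxU ((g ^ j : Gamma0 M) : SL(2, ℤ)) x = ((idxPermU hℓM g) ^ j) x := by
  induction j with
  | zero => rw [pow_zero, pow_zero, Subgroup.coe_one, idxU_one]; rfl
  | succ j ih =>
    rw [pow_succ, Subgroup.coe_mul,
      idxU_mul _ _ (cast_lowerLeft_eq_zero hℓM (g ^ j)), ih,
      pow_succ', Equiv.Perm.mul_apply]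
    rfl

section hom

variable {A : Type*} [AddCommGroup A]

/-- The operator `U_ℓ` on `Hom(Γ₀(M), A)`, `ℓ ∣ M`. -/
def heckeU (hℓM : ℓ ∣ M) (φ : HomG M A) : HomG M A where
  toFun g := ∑ x : ZMod ℓ, φ (Additive.ofMul (kapU hℓM (Additive.toMul g) x))
  map_zero' := by
    simp only [toMul_zero, kapU_one, ofMul_one, map_zero, Finset.sum_const_zero]
  map_add' g h := by
    simp only [toMul_add, kapU_mul, ofMul_mul, map_add, Finset.sum_add_distrib]
    congr 1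
    exact Equiv.sum_comp (idxPermU hℓM (Additive.toMul g : Gamma0 M))
      (fun x => φ (Additive.ofMul (kapU hℓM (Additive.toMul h) x)))

theorem heckeU_apply (hℓM : ℓ ∣ M) (φ : HomG M A) (g : Gamma0 M) :
    heckeU hℓM φ (Additive.ofMul g) = ∑ x : ZMod ℓ, φ (Additive.ofMul (kapU hℓM g x)) :=
  rfl

theorem heckeU_add (hℓM : ℓ ∣ M) (φ ψ : HomG M A) :
    heckeU hℓM (φ + ψ) = heckeU hℓM φ + heckeU hℓM ψ := by
  refine AddMonoidHom.ext fun g => ?_
  obtain ⟨g, rfl⟩ : ∃ g' : Gamma0 M, Additive.ofMul g' = g := ⟨Additive.toMul g, rfl⟩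
  rw [AddMonoidHom.add_apply, heckeU_apply, heckeU_apply, heckeU_apply,
    ← Finset.sum_add_distrib]
  rfl

theorem heckeU_zero (hℓM : ℓ ∣ M) : heckeU hℓM (0 : HomG M A) = 0 := by
  refine AddMonoidHom.ext fun g => ?_
  obtain ⟨g, rfl⟩ : ∃ g' : Gamma0 M, Additive.ofMul g' = g := ⟨Additive.toMul g, rfl⟩
  rw [heckeU_apply]
  simp

theorem heckeU_neg (hℓM : ℓ ∣ M) (φ : HomG M A) : heckeU hℓM (-φ) = -heckeU hℓM φ := by
  refine AddMonoidHom.ext fun g => ?_
  obtain ⟨g, rfl⟩ : ∃ g' : Gamma0 M, Additive.ofMul g' = g := ⟨Additive.toMul g, rfl⟩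
  rw [AddMonoidHom.neg_apply, heckeU_apply, heckeU_apply, ← Finset.sum_neg_distrib]
  rfl

theorem heckeU_sub (hℓM : ℓ ∣ M) (φ ψ : HomG M A) :
    heckeU hℓM (φ - ψ) = heckeU hℓM φ - heckeU hℓM ψ := by
  rw [sub_eq_add_neg, heckeU_add, heckeU_neg, ← sub_eq_add_neg]

/-- Naturality in the coefficient group. -/
theorem heckeU_comp (hℓM : ℓ ∣ M) {B : Type*} [AddCommGroup B] (f : A →+ B) (φ : HomG M A) :
    heckeU hℓM (f.comp φ) = f.comp (heckeU hℓM φ) := by
  refine AddMonoidHom.ext fun g => ?_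
  obtain ⟨g, rfl⟩ : ∃ g' : Gamma0 M, Additive.ofMul g' = g := ⟨Additive.toMul g, rfl⟩
  rw [AddMonoidHom.comp_apply, heckeU_apply, heckeU_apply, map_sum]
  rfl

/-- `U_ℓ` as an additive endomorphism. -/
def heckeUHom (hℓM : ℓ ∣ M) (A : Type*) [AddCommGroup A] : HomG M A →+ HomG M A where
  toFun := heckeU hℓM
  map_zero' := heckeU_zero hℓM
  map_add' := heckeU_add hℓM

theorem heckeUHom_apply (hℓM : ℓ ∣ M) (φ : HomG M A) : heckeUHom hℓM A φ = heckeU hℓM φ := rfl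

/-- `U_ℓ` as a linear map. -/
def heckeUL (hℓM : ℓ ∣ M) (R : Type*) [Semiring R] [Module R A] :
    HomG M A →ₗ[R] HomG M A where
  toFun := heckeU hℓM
  map_add' := heckeU_add hℓM
  map_smul' c φ := by
    refine AddMonoidHom.ext fun g => ?_
    obtain ⟨g, rfl⟩ : ∃ g' : Gamma0 M, Additive.ofMul g' = g := ⟨Additive.toMul g, rfl⟩
    rw [RingHom.id_apply, AddMonoidHom.smul_apply, heckeU_apply, heckeU_apply,
      Finset.smul_sum]
    rfl

theorem heckeUL_apply (hℓM : ℓ ∣ M) (R : Type*) [Semiring R] [Module R A] (φ : HomG M A) :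
    heckeUL hℓM R φ = heckeU hℓM φ := rfl

theorem heckeU_nsmul (hℓM : ℓ ∣ M) (n : ℕ) (φ : HomG M A) :
    heckeU hℓM (n • φ) = n • heckeU hℓM φ :=
  map_nsmul (heckeUHom hℓM A) n φ

theorem heckeU_zsmul (hℓM : ℓ ∣ M) (n : ℤ) (φ : HomG M A) :
    heckeU hℓM (n • φ) = n • heckeU hℓM φ :=
  map_zsmul (heckeUHom hℓM A) n φ

theorem sum_range_kapU (hℓM : ℓ ∣ M) (φ : HomG M A) (g : Gamma0 M) (x : ZMod ℓ) (n : ℕ) :
    ∑ j ∈ Finset.range n, φ (Additive.ofMul (kapU hℓM g (((idxPermU hℓM g) ^ j) x))) =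
      φ (Additive.ofMul (kapU hℓM (g ^ n) x)) := by
  induction n with
  | zero => simp [kapU_one]
  | succ n ih =>
    rw [Finset.sum_range_succ, ih, pow_succ, kapU_mul, ofMul_mul, map_add, idxU_pow]

/-- `U_ℓ` preserves parabolic homomorphisms. -/
theorem heckeU_isParabolicHom (hℓM : ℓ ∣ M) {φ : HomG M A}
    (hφ : ModularCurve.Period.IsParabolicHom (Gamma0 M) φ) :
    ModularCurve.Period.IsParabolicHom (Gamma0 M) (heckeU hℓM φ) := by
  classical
  intro g hg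
  rw [heckeU_apply]
  refine Fermat.Agent.ES.HeckeP.sum_univ_eq_zero_of_cycle_sums (idxPermU hℓM g)
    (fun x => φ (Additive.ofMul (kapU hℓM g x))) ?_
  intro x r _ hrx
  rw [sum_range_kapU]
  refine hφ _ ?_
  have hidx : idxU (((g ^ r : Gamma0 M) : SL(2, ℤ))) x = x := by
    rw [idxU_pow hℓM]
    exact hrx
  have h1 := kapU_of_idxU_eq hℓM (g ^ r) x hidx
  have h2 : (((kapU hℓM (g ^ r) x : Gamma0 M) : SL(2, ℤ)) : Matrix (Fin 2) (Fin 2) ℤ).trace =
      (((g ^ r : Gamma0 M) : SL(2, ℤ)) : Matrix (Fin 2) (Fin 2) ℤ).trace := by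
    have h3 := congrArg (fun X : GL (Fin 2) ℝ => (X : Matrix (Fin 2) (Fin 2) ℝ).trace) h1
    simp only [Matrix.GeneralLinearGroup.coe_mul] at h3
    have h4 : ((heckeMatrix ℓ x.val : GL (Fin 2) ℝ) : Matrix (Fin 2) (Fin 2) ℝ) *
        ((mapGL ℝ ((g ^ r : Gamma0 M) : SL(2, ℤ)) : GL (Fin 2) ℝ) : Matrix (Fin 2) (Fin 2) ℝ) *
        (((heckeMatrix ℓ x.val)⁻¹ : GL (Fin 2) ℝ) : Matrix (Fin 2) (Fin 2) ℝ) =
        (((heckeMatrix ℓ x.val : GL (Fin 2) ℝ) : (Matrix (Fin 2) (Fin 2) ℝ)ˣ) :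
          Matrix (Fin 2) (Fin 2) ℝ) *
        ((mapGL ℝ ((g ^ r : Gamma0 M) : SL(2, ℤ)) : GL (Fin 2) ℝ) : Matrix (Fin 2) (Fin 2) ℝ) *
        ((((heckeMatrix ℓ x.val : GL (Fin 2) ℝ) : (Matrix (Fin 2) (Fin 2) ℝ)ˣ)⁻¹ :
          (Matrix (Fin 2) (Fin 2) ℝ)ˣ) : Matrix (Fin 2) (Fin 2) ℝ) := rfl
    rw [h4, Matrix.trace_units_conj, Fermat.Agent.ES.HeckeP.trace_mapGL,
      Fermat.Agent.ES.HeckeP.trace_mapGL] at h3
    exact_mod_cast h3
  rw [h2, Subgroup.coe_pow]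
  exact Fermat.Agent.ES.HeckeP.trace_pow_sq_eq_four _ hg r

theorem heckeU_mem_Hpar (hℓM : ℓ ∣ M) {φ : HomG M A} (hφ : φ ∈ Hpar M A) :
    heckeU hℓM φ ∈ Hpar M A :=
  heckeU_isParabolicHom hℓM hφ

theorem heckeU_mem_parabolicHoms (hℓM : ℓ ∣ M) (R : Type*) [Semiring R] [Module R A]
    {φ : HomG M A} (hφ : φ ∈ ModularCurve.Period.parabolicHoms R (Gamma0 M) A) :
    heckeU hℓM φ ∈ ModularCurve.Period.parabolicHoms R (Gamma0 M) A :=
  heckeU_isParabolicHom hℓM hφ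

end hom

theorem heckeU_mem_Lpar (hℓM : ℓ ∣ M) {φ : HomG M ℤ} (hφ : φ ∈ Lpar M) :
    heckeU hℓM φ ∈ Lpar M :=
  heckeU_isParabolicHom hℓM hφ

end Fermat.Agent.S41

end
end ZBS41_002_4

/-! ### bundled: `Fermat.Agent.S41.HeckeUInv` -/
section ZBS41_002_5

/-!
# S41, piece C5 (b) for `U_ℓ`: `U_ℓ` commutes with the involution `ι` (conjugation by `diag(1,−1)`)

`heckeU_charInvolution : heckeU hℓM (charInvolution M R A ψ) = charInvolution M R A (heckeU hℓM ψ)`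
for every `ψ : Hom(Γ₀(M), A)`.

Proof. `J β_x J = T^{-ε(x)} β_{-x}` with `ε(x) = [x ≠ 0]` (the representatives are `0 ≤ x < ℓ`), so
conjugating the coset law by `J` gives `κ_U(JγJ, −x) = T^{ε(x)} · Jκ_U(γ, x)J · T^{-ε(x·γ)}` and
`(−x)·(JγJ) = −(x·γ)`. The contributions of `T` cancel in the sum since `x ↦ x·γ` is a
permutation.
-/

set_option autoImplicit false

noncomputable section

namespace Fermat.Agent.S41

open Matrix Matrix.SpecialLinearGroup CongruenceSubgroup ModularForm ModularCurve.Period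
open P2MW.S_ModularForm_heckeU_slash_eq_self_of_mem_Gamma0.ModularForm.HeckeSlashInvariance
open scoped MatrixGroups

/-- `J = diag(1, −1)` in `GL₂(ℝ)`. -/
def jGL : GL (Fin 2) ℝ :=
  Matrix.GeneralLinearGroup.mkOfDetNeZero !![1, 0; 0, -1] (by
    rw [Matrix.det_fin_two_of]; norm_num)

@[simp] theorem val_jGL : ((jGL : GL (Fin 2) ℝ) : Matrix (Fin 2) (Fin 2) ℝ) = !![1, 0; 0, -1] := rfl

theorem jGL_mul_self : jGL * jGL = 1 := by
  apply Matrix.GeneralLinearGroup.ext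
  intro i j
  fin_cases i <;> fin_cases j <;> simp [Matrix.mul_apply, Fin.sum_univ_two]

/-- `J g J = jConjSL g`. -/
theorem jGL_mul_mapGL (g : SL(2, ℤ)) : jGL * mapGL ℝ g * jGL = mapGL ℝ (jConjSL g) := by
  apply Matrix.GeneralLinearGroup.ext
  intro i j
  have e : ∀ a b, ((jConjSL g : SL(2, ℤ)) a b : ℤ) = jConjMat (g : Matrix (Fin 2) (Fin 2) ℤ) a b :=
    fun a b => rfl
  rw [Matrix.GeneralLinearGroup.coe_mul, Matrix.GeneralLinearGroup.coe_mul, Matrix.mul_apply,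
    Fin.sum_univ_two, Matrix.mul_apply, Matrix.mul_apply, Fin.sum_univ_two, Fin.sum_univ_two,
    mapGL_apply, mapGL_apply, mapGL_apply, mapGL_apply, mapGL_apply, e]
  fin_cases i <;> fin_cases j <;> simp [jConjMat]

/-- the translation `T = [[1, 1], [0, 1]]` as an element of `Γ₀(M)` -/
def tGamma0 (M : ℕ) : Gamma0 M :=
  ⟨ModularGroup.T, by
    rw [Gamma0_mem]
    simp [ModularGroup.T]⟩

theorem coe_tGamma0_zpow (M : ℕ) (k : ℤ) :
    (((tGamma0 M ^ k : Gamma0 M) : SL(2, ℤ)) : Matrix (Fin 2) (Fin 2) ℤ) = !![1, k; 0, 1] := by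
  rw [Subgroup.coe_zpow]
  show ((ModularGroup.T ^ k : SL(2, ℤ)) : Matrix (Fin 2) (Fin 2) ℤ) = _
  rw [ModularGroup.coe_T_zpow]

variable {ℓ : ℕ} [NeZero ℓ] {M : ℕ}

/-- `J β_j J = t β_{j'}` if `j' = k ℓ − j` and `t = [[1, −k], [0, 1]]`. -/
theorem jGL_mul_heckeMatrix_aux (j j' : ℕ) (k : ℤ) (t : SL(2, ℤ))
    (ht : (t : Matrix (Fin 2) (Fin 2) ℤ) = !![1, -k; 0, 1]) (h : (j' : ℤ) = k * ℓ - j) :
    jGL * heckeMatrix ℓ j * jGL = mapGL ℝ t * heckeMatrix ℓ j' := by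
  have hℓ : ℓ ≠ 0 := NeZero.ne ℓ
  have h' : (j' : ℝ) = k * ℓ - j := by exact_mod_cast h
  have h00 : (t 0 0 : ℤ) = 1 := by
    show (t : Matrix (Fin 2) (Fin 2) ℤ) 0 0 = 1
    rw [ht]; rfl
  have h01 : (t 0 1 : ℤ) = -k := by
    show (t : Matrix (Fin 2) (Fin 2) ℤ) 0 1 = -k
    rw [ht]; rfl
  have h10 : (t 1 0 : ℤ) = 0 := by
    show (t : Matrix (Fin 2) (Fin 2) ℤ) 1 0 = 0
    rw [ht]; rfl
  have h11 : (t 1 1 : ℤ) = 1 := by
    show (t : Matrix (Fin 2) (Fin 2) ℤ) 1 1 = 1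
    rw [ht]; rfl
  apply Matrix.GeneralLinearGroup.ext
  intro a b
  rw [Matrix.GeneralLinearGroup.coe_mul, Matrix.GeneralLinearGroup.coe_mul,
    Matrix.GeneralLinearGroup.coe_mul, Matrix.mul_apply, Matrix.mul_apply, Fin.sum_univ_two,
    Fin.sum_univ_two, mapGL_apply, mapGL_apply]
  fin_cases a <;> fin_cases b <;>
    simp [Matrix.mul_apply, Fin.sum_univ_two, hℓ, h00, h01, h10, h11, h'] <;> ring

/-- `J β_j J = T^{-k} β_{j'}` if `j' = k ℓ − j`. -/
theorem jGL_mul_heckeMatrix (j j' : ℕ) (k : ℤ) (h : (j' : ℤ) = k * ℓ - j) :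
    jGL * heckeMatrix ℓ j * jGL =
      mapGL ℝ (((tGamma0 M ^ (-k) : Gamma0 M) : SL(2, ℤ))) * heckeMatrix ℓ j' :=
  jGL_mul_heckeMatrix_aux j j' k _ (coe_tGamma0_zpow M (-k)) h

/-- `ε(x) = [x ≠ 0]`. -/
def epsU (x : ZMod ℓ) : ℤ := if x = 0 then 0 else 1

theorem neg_val_eq (x : ZMod ℓ) : (((-x).val : ℕ) : ℤ) = epsU x * ℓ - x.val := by
  rw [ZMod.neg_val, epsU]
  split_ifs with h
  · simp [h]
  · rw [Nat.cast_sub (ZMod.val_le x)]
    ring

omit [NeZero ℓ] in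
theorem idxU_jConj (g : SL(2, ℤ)) (x : ZMod ℓ) : idxU (jConjSL g) (-x) = -idxU g x := by
  simp only [idxU, jConjSL_coe, jConjMat_apply_one_one, jConjMat_apply_zero_one]
  push_cast
  ring

/-- the coset law conjugated by `J` -/
theorem kapU_jConj (hℓM : ℓ ∣ M) (γ : Gamma0 M) (x : ZMod ℓ) :
    kapU hℓM (jConjGamma0 M γ) (-x) =
      tGamma0 M ^ (epsU x) * jConjGamma0 M (kapU hℓM γ x) *
        tGamma0 M ^ (-epsU (idxU (γ : SL(2, ℤ)) x)) := by
  apply kapU_unique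
  rw [jConjGamma0_coe, idxU_jConj]
  have h1 := jGL_mul_heckeMatrix (M := M) x.val (-x).val (epsU x) (neg_val_eq x)
  have h2 := jGL_mul_heckeMatrix (M := M) (idxU (γ : SL(2, ℤ)) x).val
    (-idxU (γ : SL(2, ℤ)) x).val (epsU (idxU (γ : SL(2, ℤ)) x)) (neg_val_eq _)
  have h3 := kapU_spec hℓM γ x
  -- `β_{-x} = T^{ε(x)} J β_x J`
  have e1 : heckeMatrix ℓ (-x).val =
      mapGL ℝ (((tGamma0 M ^ (epsU x) : Gamma0 M) : SL(2, ℤ))) * (jGL * heckeMatrix ℓ x.val * jGL) := by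
    rw [h1, ← mul_assoc, ← map_mul, ← Subgroup.coe_mul, ← _root_.zpow_add, add_neg_cancel, zpow_zero,
      Subgroup.coe_one, map_one, one_mul]
  rw [e1, ← jGL_mul_mapGL]
  have e2 : mapGL ℝ (((tGamma0 M ^ (epsU x) : Gamma0 M) : SL(2, ℤ))) *
      (jGL * heckeMatrix ℓ x.val * jGL) * (jGL * mapGL ℝ (γ : SL(2, ℤ)) * jGL) =
      mapGL ℝ (((tGamma0 M ^ (epsU x) : Gamma0 M) : SL(2, ℤ))) *
        (jGL * (heckeMatrix ℓ x.val * mapGL ℝ (γ : SL(2, ℤ))) * jGL) := by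
    have : jGL * heckeMatrix ℓ x.val * jGL * (jGL * mapGL ℝ (γ : SL(2, ℤ)) * jGL) =
        jGL * heckeMatrix ℓ x.val * (jGL * jGL) * mapGL ℝ (γ : SL(2, ℤ)) * jGL := by
      simp only [mul_assoc]
    rw [mul_assoc, this, jGL_mul_self, mul_one]
    simp only [mul_assoc]
  rw [e2, h3]
  have e3 : jGL * (mapGL ℝ ((kapU hℓM γ x : Gamma0 M) : SL(2, ℤ)) *
      heckeMatrix ℓ (idxU (γ : SL(2, ℤ)) x).val) * jGL =
      (jGL * mapGL ℝ ((kapU hℓM γ x : Gamma0 M) : SL(2, ℤ)) * jGL) *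
        (jGL * heckeMatrix ℓ (idxU (γ : SL(2, ℤ)) x).val * jGL) := by
    have : jGL * mapGL ℝ ((kapU hℓM γ x : Gamma0 M) : SL(2, ℤ)) * jGL *
        (jGL * heckeMatrix ℓ (idxU (γ : SL(2, ℤ)) x).val * jGL) =
        jGL * mapGL ℝ ((kapU hℓM γ x : Gamma0 M) : SL(2, ℤ)) * (jGL * jGL) *
          heckeMatrix ℓ (idxU (γ : SL(2, ℤ)) x).val * jGL := by
      simp only [mul_assoc]
    rw [this, jGL_mul_self, mul_one]
    simp only [mul_assoc]
  rw [e3, jGL_mul_mapGL, h2]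
  simp only [Subgroup.coe_mul, map_mul, jConjGamma0_coe, mul_assoc]

section hom

variable {A : Type*} [AddCommGroup A]

theorem map_tGamma0_zpow (ψ : HomG M A) (k : ℤ) :
    ψ (Additive.ofMul (tGamma0 M ^ k)) = k • ψ (Additive.ofMul (tGamma0 M)) := by
  rw [ofMul_zpow, map_zsmul]

/-- **`U_ℓ` commutes with `ι`**, pointwise form. -/
theorem heckeU_comp_jConj (hℓM : ℓ ∣ M) (ψ : HomG M A) :
    heckeU hℓM (ψ.comp (MonoidHom.toAdditive (jConjGamma0 M))) =
      (heckeU hℓM ψ).comp (MonoidHom.toAdditive (jConjGamma0 M)) := by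
  refine AddMonoidHom.ext fun γ => ?_
  obtain ⟨γ, rfl⟩ : ∃ γ' : Gamma0 M, Additive.ofMul γ' = γ := ⟨Additive.toMul γ, rfl⟩
  rw [heckeU_apply, AddMonoidHom.comp_apply]
  have hr : (MonoidHom.toAdditive (jConjGamma0 M)) (Additive.ofMul γ) =
      Additive.ofMul (jConjGamma0 M γ) := rfl
  rw [hr, heckeU_apply]
  -- reindex the right-hand side by `x ↦ -x`
  rw [← Equiv.sum_comp (Equiv.neg (ZMod ℓ))
    (fun y => ψ (Additive.ofMul (kapU hℓM (jConjGamma0 M γ) y)))]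
  simp only [Equiv.neg_apply]
  have hterm : ∀ x : ZMod ℓ, ψ (Additive.ofMul (kapU hℓM (jConjGamma0 M γ) (-x))) =
      ψ (Additive.ofMul (jConjGamma0 M (kapU hℓM γ x))) +
        (epsU x • ψ (Additive.ofMul (tGamma0 M)) -
          epsU (idxU (γ : SL(2, ℤ)) x) • ψ (Additive.ofMul (tGamma0 M))) := by
    intro x
    rw [kapU_jConj, ofMul_mul, ofMul_mul, map_add, map_add, map_tGamma0_zpow,
      map_tGamma0_zpow, neg_smul]
    abel
  simp only [hterm, Finset.sum_add_distrib, Finset.sum_sub_distrib]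
  have hperm : ∑ x : ZMod ℓ, epsU (idxU (γ : SL(2, ℤ)) x) • ψ (Additive.ofMul (tGamma0 M)) =
      ∑ x : ZMod ℓ, epsU x • ψ (Additive.ofMul (tGamma0 M)) :=
    Equiv.sum_comp (idxPermU hℓM γ) (fun x => epsU x • ψ (Additive.ofMul (tGamma0 M)))
  rw [hperm, sub_self, add_zero]
  rfl

/-- **`U_ℓ` commutes with the prelude's `charInvolution`.** -/
theorem heckeU_charInvolution (hℓM : ℓ ∣ M) (R : Type*) [Semiring R] [Module R A]
    (ψ : HomG M A) :
    heckeU hℓM (charInvolution M R A ψ) = charInvolution M R A (heckeU hℓM ψ) :=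
  heckeU_comp_jConj hℓM ψ

end hom

end Fermat.Agent.S41

end
end ZBS41_002_5

/-! ### bundled: `Fermat.Agent.S41.CharInv` -/
section ZBS41_002_6

/-!
# S41, piece C5 (b): the degeneracy maps and `T_ℓ` commute with the involution `ι`

`ι = ModularCurve.Period.charInvolution` is composition with `γ ↦ J γ J`, `J = diag(1, -1)`.

* `transferAlong_equivariant` : the transfer is compatible with a pair of compatible automorphisms;
* `charInv_res`, `charInv_resD`, `charInv_cores`, `charInv_coresD`;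
* `charInv_Tc` : `T_ℓ (ι φ) = ι (T_ℓ φ)` for `ℓ ∤ M`.
-/

set_option autoImplicit false
set_option linter.style.haveILetI false

noncomputable section

namespace Fermat.Agent.S41

open CongruenceSubgroup Matrix Matrix.SpecialLinearGroup ModularForm ModularCurve.Period
open P2MW.S_ModularForm_heckeT_slash_eq_self_of_mem_Gamma0.ModularForm.HeckeSlashInvariance
open Fermat.Agent.ES.HeckeP
open scoped MatrixGroups Pointwise OnePoint

section abstract

variable {G H : Type*} [Group G] [Group H] (f : H →* G)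

/-- the permutation of `G ⧸ f.range` induced by an automorphism of `G` preserving `f.range` -/
def cosetPerm (aG : G ≃* G) (hr : ∀ x : G, aG x ∈ f.range ↔ x ∈ f.range) :
    (G ⧸ f.range) ≃ (G ⧸ f.range) :=
  Quotient.congr aG.toEquiv (fun a b => by
    rw [QuotientGroup.leftRel_apply, QuotientGroup.leftRel_apply]
    show a⁻¹ * b ∈ f.range ↔ (aG a)⁻¹ * aG b ∈ f.range
    rw [← map_inv, ← map_mul, hr])

theorem cosetPerm_mk (aG : G ≃* G) (hr : ∀ x : G, aG x ∈ f.range ↔ x ∈ f.range) (x : G) :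
    cosetPerm f aG hr (QuotientGroup.mk x : G ⧸ f.range) = (QuotientGroup.mk (aG x) : G ⧸ f.range) :=
  rfl

theorem cosetPerm_smul (aG : G ≃* G) (hr : ∀ x : G, aG x ∈ f.range ↔ x ∈ f.range) (g : G)
    (q : G ⧸ f.range) : cosetPerm f aG hr (g • q) = aG g • cosetPerm f aG hr q := by
  induction q using QuotientGroup.induction_on with
  | H x =>
    show cosetPerm f aG hr (QuotientGroup.mk (g * x) : G ⧸ f.range) = _
    rw [cosetPerm_mk, cosetPerm_mk, map_mul]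
    rfl

theorem range_iff_of_comp (aH : H →* H) (aG : G ≃* G) (hcomp : ∀ h, aG (f h) = f (aH h))
    (hsurj : Function.Surjective aH) (x : G) : aG x ∈ f.range ↔ x ∈ f.range := by
  constructor
  · rintro ⟨h, hh⟩
    obtain ⟨h', rfl⟩ := hsurj h
    rw [← hcomp] at hh
    exact ⟨h', aG.injective hh⟩
  · rintro ⟨h, rfl⟩
    exact ⟨aH h, (hcomp h).symm⟩

variable (hf : Function.Injective f) (A : Type*) [AddCommGroup A] [f.range.FiniteIndex]


/-- **Equivariance of the transfer** under a pair of compatible automorphisms. -/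
theorem transferAlong_equivariant (aH : H →* H) (aG : G ≃* G)
    (hcomp : ∀ h, aG (f h) = f (aH h)) (hsurj : Function.Surjective aH) (ψ : Additive H →+ A) :
    transferAlong A f hf (ψ.comp (MonoidHom.toAdditive aH))
      = (transferAlong A f hf ψ).comp (MonoidHom.toAdditive aG.toMonoidHom) := by
  classical
  letI := f.range.fintypeQuotientOfFiniteIndex
  have hr := range_iff_of_comp f aH aG hcomp hsurj
  obtain ⟨σ, hσmk, hσsmul⟩ : ∃ σ : (G ⧸ f.range) ≃ (G ⧸ f.range),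
      (∀ x : G, σ (QuotientGroup.mk x : G ⧸ f.range) = (QuotientGroup.mk (aG x) : G ⧸ f.range)) ∧
      (∀ (g : G) (q : G ⧸ f.range), σ (g • q) = aG g • σ q) :=
    ⟨cosetPerm f aG hr, cosetPerm_mk f aG hr, cosetPerm_smul f aG hr⟩
  refine AddMonoidHom.ext fun g => ?_
  obtain ⟨g, rfl⟩ : ∃ g' : G, Additive.ofMul g' = g := ⟨Additive.toMul g, rfl⟩
  show transferAlong A f hf (ψ.comp (MonoidHom.toAdditive aH)) (Additive.ofMul g)
    = transferAlong A f hf ψ (Additive.ofMul (aG g))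
  rw [transferAlong_eq_sum, transferAlong_eq_sum]
  -- the correction terms
  have hc : ∀ q : G ⧸ f.range, ∃ c : H, aG (tRep f q) = tRep f (σ q) * f c := by
    intro q
    have h1 : (QuotientGroup.mk (aG (tRep f q)) : G ⧸ f.range)
        = QuotientGroup.mk (tRep f (σ q)) := by
      rw [← hσmk, tRep_mk, tRep_mk]
    have h2 : (tRep f (σ q))⁻¹ * aG (tRep f q) ∈ f.range := QuotientGroup.eq.mp h1.symm
    obtain ⟨c, hc⟩ := h2
    exact ⟨c, by rw [hc, mul_inv_cancel_left]⟩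
  choose c hc using hc
  have key : ∀ q : G ⧸ f.range,
      aH (tCoc f hf q g) = (c q)⁻¹ * tCoc f hf (σ q) (aG g) * c (g⁻¹ • q) := by
    intro q
    apply hf
    rw [← hcomp, f_tCoc, map_mul, map_mul, map_inv, map_mul, map_mul, map_inv, f_tCoc, hc q,
      hc (g⁻¹ • q), hσsmul, map_inv]
    group
  have h1 : ∀ q : G ⧸ f.range,
      (ψ.comp (MonoidHom.toAdditive aH)) (Additive.ofMul (tCoc f hf q g))
        = ψ (Additive.ofMul (tCoc f hf (σ q) (aG g)))
          + (ψ (Additive.ofMul (c (g⁻¹ • q))) - ψ (Additive.ofMul (c q))) := by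
    intro q
    show ψ (Additive.ofMul (aH (tCoc f hf q g))) = _
    rw [key, ofMul_mul, ofMul_mul, ofMul_inv, map_add, map_add, map_neg]
    abel
  simp only [h1]
  rw [Finset.sum_add_distrib, Finset.sum_sub_distrib]
  have h2 : ∑ q : G ⧸ f.range, ψ (Additive.ofMul (c (g⁻¹ • q)))
      = ∑ q : G ⧸ f.range, ψ (Additive.ofMul (c q)) :=
    Equiv.sum_comp (MulAction.toPerm g⁻¹ : Equiv.Perm (G ⧸ f.range))
      (fun q => ψ (Additive.ofMul (c q)))
  have h3 : ∑ q : G ⧸ f.range, ψ (Additive.ofMul (tCoc f hf (σ q) (aG g)))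
      = ∑ q : G ⧸ f.range, ψ (Additive.ofMul (tCoc f hf q (aG g))) :=
    Equiv.sum_comp σ (fun q => ψ (Additive.ofMul (tCoc f hf q (aG g))))
  rw [h2, sub_self, add_zero, h3]

end abstract

section degeneracy

variable (N q : ℕ)

/-- `γ ↦ J γ J` as an automorphism of `Γ₀(M)`. -/
def jEquiv (M : ℕ) : Gamma0 M ≃* Gamma0 M :=
  { jConjGamma0 M with
    invFun := jConjGamma0 M
    left_inv := jConjGamma0_jConjGamma0 M
    right_inv := jConjGamma0_jConjGamma0 M }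

@[simp] theorem jEquiv_apply (M : ℕ) (γ : Gamma0 M) : jEquiv M γ = jConjGamma0 M γ := rfl

theorem jEquiv_toMonoidHom (M : ℕ) : (jEquiv M).toMonoidHom = jConjGamma0 M := rfl

theorem jConjGamma0_surjective (M : ℕ) : Function.Surjective (jConjGamma0 M) :=
  (jEquiv M).surjective

theorem incl_jConj (γ : Gamma0 (N * q)) :
    jConjGamma0 N (incl N q γ) = incl N q (jConjGamma0 (N * q) γ) := rfl

theorem conjDMat_jConjMat {A : Matrix (Fin 2) (Fin 2) ℤ} (h : (q : ℤ) ∣ A 1 0) :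
    conjDMat q (jConjMat A) = jConjMat (conjDMat q A) := by
  ext i j
  fin_cases i <;> fin_cases j
  · simp [conjDMat, jConjMat]
  · simp [conjDMat, jConjMat]
  · show (conjDMat q (jConjMat A)) 1 0 = (jConjMat (conjDMat q A)) 1 0
    simp only [conjDMat, jConjMat, Matrix.of_apply, Matrix.cons_val_zero, Matrix.cons_val_one,
      Matrix.cons_val', Matrix.cons_val_fin_one]
    exact Int.neg_ediv_of_dvd h
  · simp [conjDMat, jConjMat]

theorem conjD_jConj [NeZero q] (γ : Gamma0 (N * q)) :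
    jConjGamma0 N (conjD N q γ) = conjD N q (jConjGamma0 (N * q) γ) := by
  apply Subtype.ext; apply Subtype.ext
  show jConjMat (conjDMat q ((γ : SL(2, ℤ)) : Matrix (Fin 2) (Fin 2) ℤ))
    = conjDMat q (jConjMat ((γ : SL(2, ℤ)) : Matrix (Fin 2) (Fin 2) ℤ))
  rw [conjDMat_jConjMat q (dvd_q_of_mem N q γ.2)]

variable (R : Type*) [Semiring R] (A : Type*) [AddCommGroup A] [Module R A]

/-- `res` commutes with `ι`. -/
theorem charInv_res (φ : HomG N A) :
    res N q A (charInvolution N R A φ) = charInvolution (N * q) R A (res N q A φ) := rfl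

/-- `res^δ` commutes with `ι`. -/
theorem charInv_resD [NeZero q] (φ : HomG N A) :
    resD N q A (charInvolution N R A φ) = charInvolution (N * q) R A (resD N q A φ) := by
  refine AddMonoidHom.ext fun γ => ?_
  obtain ⟨γ, rfl⟩ : ∃ γ' : Gamma0 (N * q), Additive.ofMul γ' = γ := ⟨Additive.toMul γ, rfl⟩
  show φ (Additive.ofMul (jConjGamma0 N (conjD N q γ)))
    = φ (Additive.ofMul (conjD N q (jConjGamma0 (N * q) γ)))
  rw [conjD_jConj]

/-- `cores` commutes with `ι`. -/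
theorem charInv_cores [NeZero N] [NeZero q] (ψ : HomG (N * q) A) :
    cores N q A (charInvolution (N * q) R A ψ) = charInvolution N R A (cores N q A ψ) :=
  transferAlong_equivariant (incl N q) (incl_injective N q) A (jConjGamma0 (N * q)) (jEquiv N)
    (fun γ => incl_jConj N q γ) (jConjGamma0_surjective _) ψ

/-- `cores^δ` commutes with `ι`. -/
theorem charInv_coresD [NeZero N] [NeZero q] (ψ : HomG (N * q) A) :
    coresD N q A (charInvolution (N * q) R A ψ) = charInvolution N R A (coresD N q A ψ) :=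
  transferAlong_equivariant (conjD N q) (conjD_injective N q) A (jConjGamma0 (N * q)) (jEquiv N)
    (fun γ => conjD_jConj N q γ) (jConjGamma0_surjective _) ψ

end degeneracy

section Tc

variable {p : ℕ} [Fact p.Prime] {M : ℕ}

/-- `J̄ = diag(1, -1)` in `GL₂(𝔽_p)`. -/
def jBarGL (p : ℕ) [Fact p.Prime] : GL (Fin 2) (ZMod p) :=
  Matrix.GeneralLinearGroup.mkOfDetNeZero !![1, 0; 0, -1] (by
    rw [Matrix.det_fin_two_of]; simp)

theorem jBarGL_mul_self : jBarGL p * jBarGL p = 1 := by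
  apply Matrix.GeneralLinearGroup.ext
  intro i j
  fin_cases i <;> fin_cases j <;> simp [jBarGL, Matrix.mul_apply, Fin.sum_univ_two]

theorem redMatrix_jConjSL (g : SL(2, ℤ)) :
    redMatrix p (jConjSL g) = jBarGL p * redMatrix p g * jBarGL p := by
  apply Matrix.GeneralLinearGroup.ext
  intro i j
  fin_cases i <;> fin_cases j <;>
    simp [jBarGL, redMatrix, Matrix.mul_apply, Fin.sum_univ_two, jConjMat]

theorem jBarGL_smul_infty : jBarGL p • (∞ : OnePoint (ZMod p)) = ∞ := by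
  rw [OnePoint.smul_infty_eq_ite]
  simp [jBarGL]

theorem jBarGL_smul_coe (x : ZMod p) : jBarGL p • (x : OnePoint (ZMod p)) = ((-x : ZMod p) : OnePoint (ZMod p)) := by
  rw [OnePoint.smul_some_eq_ite]
  simp [jBarGL, div_neg]

theorem jBarGL_smul_smul (x : OnePoint (ZMod p)) : jBarGL p • jBarGL p • x = x := by
  rw [smul_smul, jBarGL_mul_self, one_smul]

theorem idx_jConjSL (g : SL(2, ℤ)) (x : OnePoint (ZMod p)) :
    idx (jConjSL g) (jBarGL p • x) = jBarGL p • idx g x := by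
  rw [idx, idx, redMatrix_jConjSL, mul_smul, mul_smul, jBarGL_smul_smul]

/-- `ε(x) = [x ≠ 0, ∞]`. -/
def epsT (x : OnePoint (ZMod p)) : ℤ := x.elim 0 (fun j => epsU j)

omit [Fact p.Prime] in
@[simp] theorem epsT_infty : epsT (∞ : OnePoint (ZMod p)) = 0 := rfl

omit [Fact p.Prime] in
@[simp] theorem epsT_coe (j : ZMod p) : epsT (j : OnePoint (ZMod p)) = epsU j := rfl

theorem jGL_mul_heckeDiagMatrix : jGL * heckeDiagMatrix p * jGL = heckeDiagMatrix p := by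
  have hp : p ≠ 0 := (Fact.out : p.Prime).ne_zero
  apply Matrix.GeneralLinearGroup.ext
  intro a b
  rw [Matrix.GeneralLinearGroup.coe_mul, Matrix.GeneralLinearGroup.coe_mul]
  fin_cases a <;> fin_cases b <;> simp [Matrix.mul_apply, Fin.sum_univ_two, hp]

/-- `J α_x J = T^{-ε(x)} α_{J̄ x}`. -/
theorem jGL_mul_heckeRep (x : OnePoint (ZMod p)) :
    jGL * heckeRep p x * jGL =
      mapGL ℝ (((tGamma0 M ^ (-epsT x) : Gamma0 M) : SL(2, ℤ))) * heckeRep p (jBarGL p • x) := by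
  have : NeZero p := ⟨(Fact.out : p.Prime).ne_zero⟩
  induction x using OnePoint.rec with
  | infty =>
    rw [jBarGL_smul_infty, epsT_infty, neg_zero, zpow_zero, Subgroup.coe_one, map_one, one_mul,
      heckeRep_infty, jGL_mul_heckeDiagMatrix]
  | coe j =>
    rw [jBarGL_smul_coe, epsT_coe, heckeRep_coe, heckeRep_coe]
    exact jGL_mul_heckeMatrix (M := M) j.val (-j).val (epsU j) (neg_val_eq j)

theorem conj_rel_aux {Gp : Type*} [Group Gp] (J a g k b a' b' t t' : Gp) (hJ : J * J = 1)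
    (h : a * g = k * b) (ha : J * a * J = t⁻¹ * a') (hb : J * b * J = t'⁻¹ * b') :
    a' * (J * g * J) = (t * (J * k * J) * t'⁻¹) * b' := by
  have ha' : a' = t * (J * a * J) := by rw [ha, mul_inv_cancel_left]
  have hb' : b' = t' * (J * b * J) := by rw [hb, mul_inv_cancel_left]
  have hJ' : ∀ X : Gp, J * (J * X) = X := fun X => by rw [← mul_assoc, hJ, one_mul]
  have h' : ∀ X : Gp, a * (g * X) = k * (b * X) := fun X => by
    rw [← mul_assoc, h, mul_assoc]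
  rw [ha', hb']
  simp only [mul_assoc, hJ', h', inv_mul_cancel_left]

theorem mapGL_tGamma0_neg (k : ℤ) :
    mapGL ℝ (((tGamma0 M ^ (-k) : Gamma0 M) : SL(2, ℤ)))
      = (mapGL ℝ (((tGamma0 M ^ k : Gamma0 M) : SL(2, ℤ))))⁻¹ := by
  rw [_root_.zpow_neg, Subgroup.coe_inv, map_inv]

/-- the coset law conjugated by `J` -/
theorem kap_jConj (hpM : ¬ p ∣ M) (γ : Gamma0 M) (x : OnePoint (ZMod p)) :
    kap hpM (jConjGamma0 M γ) (jBarGL p • x) =
      tGamma0 M ^ (epsT x) * jConjGamma0 M (kap hpM γ x) *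
        tGamma0 M ^ (-epsT (idx (γ : SL(2, ℤ)) x)) := by
  apply kap_unique
  rw [jConjGamma0_coe, idx_jConjSL]
  have h1 := jGL_mul_heckeRep (M := M) x
  have h2 := jGL_mul_heckeRep (M := M) (idx (γ : SL(2, ℤ)) x)
  have h3 := kap_spec hpM γ x
  rw [mapGL_tGamma0_neg] at h1 h2
  have := conj_rel_aux jGL _ _ _ _ _ _ _ _ jGL_mul_self h3 h1 h2
  rw [jGL_mul_mapGL, jGL_mul_mapGL] at this
  rw [this]
  simp only [Subgroup.coe_mul, map_mul, jConjGamma0_coe, mapGL_tGamma0_neg]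

section hom

variable {A : Type*} [AddCommGroup A]

/-- **`T_p` commutes with `ι`**, pointwise form. -/
theorem heckeHom_comp_jConj (hpM : ¬ p ∣ M) (φ : HomG M A) :
    heckeHom hpM (φ.comp (MonoidHom.toAdditive (jConjGamma0 M))) =
      (heckeHom hpM φ).comp (MonoidHom.toAdditive (jConjGamma0 M)) := by
  refine AddMonoidHom.ext fun γ => ?_
  obtain ⟨γ, rfl⟩ : ∃ γ' : Gamma0 M, Additive.ofMul γ' = γ := ⟨Additive.toMul γ, rfl⟩
  rw [heckeHom_apply, AddMonoidHom.comp_apply]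
  have hr : (MonoidHom.toAdditive (jConjGamma0 M)) (Additive.ofMul γ) =
      Additive.ofMul (jConjGamma0 M γ) := rfl
  rw [hr, heckeHom_apply]
  -- reindex the right-hand side by `x ↦ J̄ x`
  rw [← Equiv.sum_comp (MulAction.toPerm (jBarGL p) : Equiv.Perm (OnePoint (ZMod p)))
    (fun y => φ (Additive.ofMul (kap hpM (jConjGamma0 M γ) y)))]
  simp only [MulAction.toPerm_apply]
  have hterm : ∀ x : OnePoint (ZMod p),
      φ (Additive.ofMul (kap hpM (jConjGamma0 M γ) (jBarGL p • x))) =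
      φ (Additive.ofMul (jConjGamma0 M (kap hpM γ x))) +
        (epsT x • φ (Additive.ofMul (tGamma0 M)) -
          epsT (idx (γ : SL(2, ℤ)) x) • φ (Additive.ofMul (tGamma0 M))) := by
    intro x
    rw [kap_jConj, ofMul_mul, ofMul_mul, map_add, map_add, map_tGamma0_zpow,
      map_tGamma0_zpow, neg_smul]
    abel
  simp only [hterm, Finset.sum_add_distrib, Finset.sum_sub_distrib]
  have hperm : ∑ x : OnePoint (ZMod p), epsT (idx (γ : SL(2, ℤ)) x) • φ (Additive.ofMul (tGamma0 M))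
      = ∑ x : OnePoint (ZMod p), epsT x • φ (Additive.ofMul (tGamma0 M)) :=
    Equiv.sum_comp (idxPerm (γ : SL(2, ℤ))) (fun x => epsT x • φ (Additive.ofMul (tGamma0 M)))
  rw [hperm, sub_self, add_zero]
  rfl

/-- **`T_ℓ` commutes with the prelude's `charInvolution`.** -/
theorem charInv_Tc (ℓ : ℕ) [Fact ℓ.Prime] (hℓ : ¬ ℓ ∣ M) (R : Type*) [Semiring R] [Module R A]
    (φ : HomG M A) :
    Tc ℓ hℓ (charInvolution M R A φ) = charInvolution M R A (Tc ℓ hℓ φ) :=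
  heckeHom_comp_jConj hℓ φ

end hom

end Tc

end Fermat.Agent.S41

end
end ZBS41_002_6
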