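/- GENERATED FILE (helper35, build-time optimisation, NOTES/ZB.md): verbatim concatenation of the modules
   Fermat.Agent.S21.PermRep
   Fermat.Agent.S21.PermDim
   Fermat.Agent.S21.Cocycle
   Do not edit; do not import together with these modules. -/
import Mathlib
import Fermat.Agent.ZB.S41_002

/-! ### bundled: `Fermat.Agent.S21.PermRep` -/
section ZBS21_003_0

/-!
# S21, piece E1 (part 1): the permutation representation on functions on a finite `G`-set

For a group `G` acting on a finite type `Q` we let `G` act on `V = Q → ℂ` by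
`(ρ g v) q = v (g⁻¹ • q)` and collect the dimension counts needed for the bound on the dimension
of the space of parabolic homomorphisms.
-/

set_option autoImplicit false

noncomputable section

namespace Fermat.Agent.S21.E1

open Module

variable {G : Type*} [Group G] {Q : Type*} [MulAction G Q]

/-- The permutation representation of `G` on functions on `Q`. -/
def rho (g : G) : (Q → ℂ) →ₗ[ℂ] (Q → ℂ) :=
  LinearMap.funLeft ℂ ℂ (fun q => g⁻¹ • q)

@[simp] theorem rho_apply (g : G) (v : Q → ℂ) (q : Q) : rho g v q = v (g⁻¹ • q) := rfl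

theorem rho_one : rho (1 : G) = (LinearMap.id : (Q → ℂ) →ₗ[ℂ] (Q → ℂ)) := by
  ext v q
  simp

theorem rho_mul (g h : G) : (rho (g * h) : (Q → ℂ) →ₗ[ℂ] (Q → ℂ)) = rho g ∘ₗ rho h := by
  ext v q
  simp [mul_smul]

theorem rho_mul_apply (g h : G) (v : Q → ℂ) : rho (g * h) v = rho g (rho h v) := by
  rw [rho_mul]; rfl

theorem rho_eq_id_of_smul_eq {g : G} (hg : ∀ q : Q, g • q = q) :
    (rho g : (Q → ℂ) →ₗ[ℂ] (Q → ℂ)) = LinearMap.id := by
  ext v q
  have : g⁻¹ • q = q := by
    conv_lhs => rw [← hg q]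
    rw [inv_smul_smul]
  simp [this]

/-- The norm operator `∑_{j<n} ρ(g^j)`. -/
def nrm (g : G) (n : ℕ) : (Q → ℂ) →ₗ[ℂ] (Q → ℂ) :=
  ∑ j ∈ Finset.range n, rho (g ^ j)

theorem nrm_apply (g : G) (n : ℕ) (w : Q → ℂ) :
    nrm g n w = ∑ j ∈ Finset.range n, rho (g ^ j) w := by
  simp [nrm, LinearMap.sum_apply]

theorem nrm_zero (g : G) : (nrm g 0 : (Q → ℂ) →ₗ[ℂ] (Q → ℂ)) = 0 := by
  simp [nrm]

theorem nrm_succ (g : G) (n : ℕ) :
    (nrm g (n + 1) : (Q → ℂ) →ₗ[ℂ] (Q → ℂ)) = nrm g n + rho (g ^ n) := by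
  simp [nrm, Finset.sum_range_succ]

/-- `N (ρ_g v - v) = ρ_{g^n} v - v` (telescoping). -/
theorem nrm_sub (g : G) (n : ℕ) (v : Q → ℂ) :
    nrm g n (rho g v - v) = rho (g ^ n) v - v := by
  induction n with
  | zero => simp [nrm_zero, rho_one]
  | succ n ih =>
    rw [nrm_succ, LinearMap.add_apply, ih, map_sub, ← rho_mul_apply, ← pow_succ]
    abel

/-- `ρ_g ∘ N = N` if `g^n` acts trivially. -/
theorem rho_comp_nrm {g : G} {n : ℕ} (hg : ∀ q : Q, g ^ n • q = q) (v : Q → ℂ) :
    rho g (nrm g n v) = nrm g n v := by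
  have h1 : rho g (nrm g n v) - nrm g n v = nrm g n (rho g v - v) := by
    rw [map_sub]
    congr 1
    simp only [nrm, LinearMap.sum_apply, map_sum, ← rho_mul_apply]
    refine Finset.sum_congr rfl fun j _ => ?_
    rw [← pow_succ', ← pow_succ]
  rw [nrm_sub, rho_eq_id_of_smul_eq hg, LinearMap.id_apply, sub_self] at h1
  exact sub_eq_zero.1 h1

theorem rho_pow_nrm {g : G} {n : ℕ} (hg : ∀ q : Q, g ^ n • q = q) (j : ℕ) (v : Q → ℂ) :
    rho (g ^ j) (nrm g n v) = nrm g n v := by
  induction j with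
  | zero => rw [pow_zero, rho_one]; rfl
  | succ j ih => rw [pow_succ, rho_mul_apply, rho_comp_nrm hg, ih]

theorem nrm_nrm {g : G} {n : ℕ} (hg : ∀ q : Q, g ^ n • q = q) (v : Q → ℂ) :
    nrm g n (nrm g n v) = (n : ℂ) • nrm g n v := by
  have h : ∀ w : Q → ℂ, nrm g n w = ∑ j ∈ Finset.range n, rho (g ^ j) w := fun w => by
    simp [nrm, LinearMap.sum_apply]
  rw [h (nrm g n v)]
  simp only [rho_pow_nrm hg]
  rw [Finset.sum_const, Finset.card_range, Nat.cast_smul_eq_nsmul]

end Fermat.Agent.S21.E1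

end
end ZBS21_003_0

/-! ### bundled: `Fermat.Agent.S21.PermDim` -/
section ZBS21_003_1

/-!
# S21, piece E1 (part 2): dimension counts for the permutation representation

* `trace_rho` : the trace of `ρ g` is the number of fixed points of `g`;
* `finrank_ker_nrm` : `n · dim ker (∑_{j<n} ρ(g^j)) + ∑_{j<n} #Fix(g^j) = n · #Q` if `g^n` acts
  trivially;
* `finrank_ker_nrm_add_orbits_le` : `dim ker (∑_{j<n} ρ(g^j)) + #(orbits of g) ≤ #Q`;
* `card_le_finrank_sup_add_one` : `#Q ≤ dim (ker N_s + ker N_u) + 1` if `s, u` generate a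
  transitive group.
-/

set_option autoImplicit false

noncomputable section

namespace Fermat.Agent.S21.E1

open Module

variable {G : Type*} [Group G] {Q : Type*} [MulAction G Q]

/-- The trace of `ρ g` is the number of fixed points of `g`. -/
theorem trace_rho [Finite Q] (g : G) :
    LinearMap.trace ℂ (Q → ℂ) (rho g) = (Nat.card {q : Q // g • q = q} : ℂ) := by
  classical
  cases nonempty_fintype Q
  rw [LinearMap.trace_eq_matrix_trace ℂ (Pi.basisFun ℂ Q) (rho g), Matrix.trace]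
  simp only [Matrix.diag_apply, LinearMap.toMatrix_apply, Pi.basisFun_repr, Pi.basisFun_apply,
    rho_apply, Pi.single_apply]
  rw [Finset.sum_boole, Nat.card_eq_fintype_card, Fintype.card_subtype]
  congr 2
  ext q
  simp only [Finset.mem_filter, Finset.mem_univ, true_and]
  rw [inv_smul_eq_iff]
  exact eq_comm

/-- `n · dim ker N + ∑_{j<n} #Fix(g^j) = n · #Q` for `N = ∑_{j<n} ρ(g^j)`, if `g^n` acts
trivially. -/
theorem finrank_ker_nrm [Finite Q] {g : G} {n : ℕ} (hn : n ≠ 0) (hg : ∀ q : Q, g ^ n • q = q) :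
    n * finrank ℂ (LinearMap.ker (nrm g n : (Q → ℂ) →ₗ[ℂ] (Q → ℂ))) +
      ∑ j ∈ Finset.range n, Nat.card {q : Q // g ^ j • q = q} = n * Nat.card Q := by
  classical
  cases nonempty_fintype Q
  have hn' : (n : ℂ) ≠ 0 := Nat.cast_ne_zero.2 hn
  set e : (Q → ℂ) →ₗ[ℂ] (Q → ℂ) := (n : ℂ)⁻¹ • nrm g n with he
  have hidem : IsIdempotentElem e := by
    refine LinearMap.ext fun v => ?_
    show e (e v) = e v
    simp only [he, LinearMap.smul_apply, map_smul, nrm_nrm hg]
    rw [smul_smul, smul_smul]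
    congr 1
    field_simp
  have hker : LinearMap.ker e = LinearMap.ker (nrm g n : (Q → ℂ) →ₗ[ℂ] (Q → ℂ)) := by
    ext v
    simp only [LinearMap.mem_ker, he, LinearMap.smul_apply, smul_eq_zero, inv_eq_zero, hn',
      false_or]
  have htr : LinearMap.trace ℂ (Q → ℂ) e = (finrank ℂ (LinearMap.range e) : ℂ) :=
    (LinearMap.IsIdempotentElem.isProj_range e hidem).trace
  have htr2 : LinearMap.trace ℂ (Q → ℂ) e =
      (n : ℂ)⁻¹ * ∑ j ∈ Finset.range n, (Nat.card {q : Q // g ^ j • q = q} : ℂ) := by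
    rw [he, map_smul, nrm, map_sum, smul_eq_mul]
    simp only [trace_rho]
  have hrn := LinearMap.finrank_range_add_finrank_ker e
  rw [hker, Module.finrank_fintype_fun_eq_card, ← Nat.card_eq_fintype_card] at hrn
  have h3 : (n : ℂ) * (finrank ℂ (LinearMap.range e) : ℂ) =
      ∑ j ∈ Finset.range n, (Nat.card {q : Q // g ^ j • q = q} : ℂ) := by
    rw [← htr, htr2, ← mul_assoc, mul_inv_cancel₀ hn', one_mul]
  have h4 : n * finrank ℂ (LinearMap.range e) =
      ∑ j ∈ Finset.range n, Nat.card {q : Q // g ^ j • q = q} := by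
    exact_mod_cast h3
  rw [← h4, ← hrn]
  ring

/-- `dim ker N + #(orbits of ⟨g⟩) ≤ #Q`. -/
theorem finrank_ker_nrm_add_orbits_le [Finite Q] {g : G} {n : ℕ} (hn : n ≠ 0) :
    finrank ℂ (LinearMap.ker (nrm g n : (Q → ℂ) →ₗ[ℂ] (Q → ℂ))) +
      Nat.card (MulAction.orbitRel.Quotient (Subgroup.zpowers g) Q) ≤ Nat.card Q := by
  classical
  cases nonempty_fintype Q
  have hn' : (n : ℂ) ≠ 0 := Nat.cast_ne_zero.2 hn
  let O := MulAction.orbitRel.Quotient (Subgroup.zpowers g) Q
  let mk : Q → O := fun q => Quotient.mk'' q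
  have hmk : Function.Surjective mk := Quotient.mk''_surjective
  have : Finite O := Finite.of_surjective mk hmk
  cases nonempty_fintype O
  let ι : (O → ℂ) →ₗ[ℂ] (Q → ℂ) := LinearMap.funLeft ℂ ℂ mk
  have hι : Function.Injective ι := LinearMap.funLeft_injective_of_surjective ℂ ℂ mk hmk
  have hmk_pow : ∀ (j : ℕ) (q : Q), mk ((g ^ j)⁻¹ • q) = mk q := by
    intro j q
    refine Quotient.sound' ?_
    show (MulAction.orbitRel (Subgroup.zpowers g) Q) _ _
    rw [MulAction.orbitRel_apply]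
    exact ⟨⟨(g ^ j)⁻¹, inv_mem (pow_mem (Subgroup.mem_zpowers g) j)⟩, rfl⟩
  have hdisj : LinearMap.range ι ⊓ LinearMap.ker (nrm g n : (Q → ℂ) →ₗ[ℂ] (Q → ℂ)) = ⊥ := by
    rw [eq_bot_iff]
    rintro v ⟨⟨f, rfl⟩, hv⟩
    rw [SetLike.mem_coe, LinearMap.mem_ker] at hv
    rw [Submodule.mem_bot]
    have h1 : nrm g n (ι f) = (n : ℂ) • ι f := by
      funext q
      rw [nrm_apply, Finset.sum_apply]
      simp only [rho_apply, ι, LinearMap.funLeft_apply, hmk_pow, Finset.sum_const,
        Finset.card_range, Pi.smul_apply, smul_eq_mul, nsmul_eq_mul]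
    rw [hv] at h1
    exact (smul_eq_zero.1 h1.symm).resolve_left hn'
  have h2 := Submodule.finrank_sup_add_finrank_inf_eq (LinearMap.range ι)
    (LinearMap.ker (nrm g n : (Q → ℂ) →ₗ[ℂ] (Q → ℂ)))
  rw [hdisj, finrank_bot, add_zero, LinearMap.finrank_range_of_inj hι,
    Module.finrank_fintype_fun_eq_card, ← Nat.card_eq_fintype_card] at h2
  have h3 : finrank ℂ ↥(LinearMap.range ι ⊔ LinearMap.ker (nrm g n : (Q → ℂ) →ₗ[ℂ] (Q → ℂ))) ≤
      finrank ℂ (Q → ℂ) := Submodule.finrank_le _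
  rw [Module.finrank_fintype_fun_eq_card, ← Nat.card_eq_fintype_card] at h3
  show finrank ℂ (LinearMap.ker (nrm g n : (Q → ℂ) →ₗ[ℂ] (Q → ℂ))) + Nat.card O ≤ Nat.card Q
  omega

/-- If `s`, `u` generate `G`, `G` acts transitively on `Q`, and `s^m`, `u^n` act trivially, then
`#Q ≤ dim (ker N_s + ker N_u) + 1`. -/
theorem card_le_finrank_sup_add_one [Finite Q] [MulAction.IsPretransitive G Q] {s u : G}
    {m n : ℕ} (hs : ∀ q : Q, s ^ m • q = q) (hu : ∀ q : Q, u ^ n • q = q)
    (hgen : Subgroup.closure ({s, u} : Set G) = ⊤) :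
    Nat.card Q ≤ finrank ℂ ↥(LinearMap.ker (nrm s m : (Q → ℂ) →ₗ[ℂ] (Q → ℂ)) ⊔
      LinearMap.ker (nrm u n : (Q → ℂ) →ₗ[ℂ] (Q → ℂ))) + 1 := by
  classical
  cases nonempty_fintype Q
  set W : Submodule ℂ (Q → ℂ) := LinearMap.ker (nrm s m : (Q → ℂ) →ₗ[ℂ] (Q → ℂ)) ⊔
      LinearMap.ker (nrm u n : (Q → ℂ) →ₗ[ℂ] (Q → ℂ)) with hW
  -- every `ρ_g v - v` lies in `W`
  have h1 : ∀ (g : G) (v : Q → ℂ), rho g v - v ∈ W := by
    intro g
    have hg : g ∈ Subgroup.closure ({s, u} : Set G) := by rw [hgen]; exact Subgroup.mem_top g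
    induction hg using Subgroup.closure_induction with
    | mem x hx =>
      intro v
      rcases hx with rfl | hx
      · refine Submodule.mem_sup_left ?_
        rw [LinearMap.mem_ker, nrm_sub, rho_eq_id_of_smul_eq hs, LinearMap.id_apply, sub_self]
      · rw [Set.mem_singleton_iff] at hx
        subst hx
        refine Submodule.mem_sup_right ?_
        rw [LinearMap.mem_ker, nrm_sub, rho_eq_id_of_smul_eq hu, LinearMap.id_apply, sub_self]
    | one =>
      intro v
      rw [rho_one, LinearMap.id_apply, sub_self]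
      exact W.zero_mem
    | mul x y _ _ hx hy =>
      intro v
      have : rho (x * y) v - v = (rho x (rho y v) - rho y v) + (rho y v - v) := by
        rw [rho_mul_apply]; abel
      rw [this]
      exact W.add_mem (hx _) (hy _)
    | inv x _ hx =>
      intro v
      have : rho x⁻¹ v - v = -(rho x (rho x⁻¹ v) - rho x⁻¹ v) := by
        rw [← rho_mul_apply, mul_inv_cancel, rho_one, LinearMap.id_apply]; abel
      rw [this]
      exact W.neg_mem (hx _)
  rcases isEmpty_or_nonempty Q with hQ | ⟨⟨q₀⟩⟩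
  · rw [Nat.card_eq_fintype_card, Fintype.card_eq_zero]
    exact Nat.zero_le _
  -- the sum functional
  let sumF : (Q → ℂ) →ₗ[ℂ] ℂ := ∑ q : Q, LinearMap.proj q
  have hsumF : ∀ v : Q → ℂ, sumF v = ∑ q : Q, v q := by
    intro v
    simp only [sumF, LinearMap.sum_apply, LinearMap.proj_apply]
  have hsingle : ∀ q : Q, (Pi.single q (1 : ℂ) : Q → ℂ) - Pi.single q₀ 1 ∈ W := by
    intro q
    obtain ⟨g, hg⟩ := MulAction.exists_smul_eq G q₀ q
    have : (Pi.single q (1 : ℂ) : Q → ℂ) = rho g (Pi.single q₀ 1) := by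
      funext x
      rw [rho_apply, Pi.single_apply, Pi.single_apply, inv_smul_eq_iff, hg]
    rw [this]
    exact h1 g _
  have hker : LinearMap.ker sumF ≤ W := by
    intro v hv
    rw [LinearMap.mem_ker, hsumF] at hv
    have hv2 : v = ∑ q : Q, v q • ((Pi.single q (1 : ℂ) : Q → ℂ) - Pi.single q₀ 1) := by
      simp only [smul_sub, Finset.sum_sub_distrib, ← Finset.sum_smul, hv, zero_smul, sub_zero]
      funext x
      rw [Finset.sum_apply]
      simp only [Pi.smul_apply, Pi.single_apply, smul_eq_mul, mul_ite, mul_one, mul_zero]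
      rw [Finset.sum_ite_eq]
      simp
    rw [hv2]
    exact W.sum_mem fun q _ => W.smul_mem _ (hsingle q)
  have h2 := LinearMap.finrank_range_add_finrank_ker sumF
  rw [Module.finrank_fintype_fun_eq_card, ← Nat.card_eq_fintype_card] at h2
  have h3 : finrank ℂ (LinearMap.range sumF) ≤ 1 := by
    have := Submodule.finrank_le (LinearMap.range sumF)
    rwa [Module.finrank_self] at this
  have h4 : finrank ℂ (LinearMap.ker sumF) ≤ finrank ℂ W := Submodule.finrank_mono hker
  omega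

end Fermat.Agent.S21.E1

end
end ZBS21_003_1

/-! ### bundled: `Fermat.Agent.S21.Cocycle` -/
section ZBS21_003_2

/-!
# S21, piece E1 (part 3): the induced cocycle and the abstract dimension bound

For a subgroup `H ≤ G` and `φ : H → ℂ` a homomorphism we let `r : G ⧸ H → G` be a section and put
`c_φ(g)(q) = φ(r(q)⁻¹ g r(g⁻¹ q))`.  This is a 1-cocycle of `G` with values in `V = (G ⧸ H → ℂ)`.
-/

set_option autoImplicit false

noncomputable section

namespace Fermat.Agent.S21.E1

open Module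

variable {G : Type*} [Group G] (H : Subgroup G)

theorem out_mul_mem (g : G) (q : G ⧸ H) :
    (Quotient.out q)⁻¹ * (g * Quotient.out (g⁻¹ • q)) ∈ H := by
  rw [← QuotientGroup.eq, QuotientGroup.out_eq']
  have h1 : ((g * Quotient.out (g⁻¹ • q) : G) : G ⧸ H) = g • ((Quotient.out (g⁻¹ • q) : G) : G ⧸ H) :=
    rfl
  rw [h1, QuotientGroup.out_eq', smul_inv_smul]

/-- The element `r(q)⁻¹ g r(g⁻¹ q)` of `H`. -/
def kEl (g : G) (q : G ⧸ H) : H :=
  ⟨(Quotient.out q)⁻¹ * (g * Quotient.out (g⁻¹ • q)), out_mul_mem H g q⟩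

theorem kEl_coe (g : G) (q : G ⧸ H) :
    (kEl H g q : G) = (Quotient.out q)⁻¹ * (g * Quotient.out (g⁻¹ • q)) := rfl

theorem kEl_mul (g h : G) (q : G ⧸ H) : kEl H (g * h) q = kEl H g q * kEl H h (g⁻¹ • q) := by
  apply Subtype.ext
  rw [Subgroup.coe_mul, kEl_coe, kEl_coe, kEl_coe, mul_inv_rev, mul_smul]
  group

/-- If `g` acts trivially on `G ⧸ H` then `kEl g q` is a conjugate of `g`. -/
theorem kEl_coe_of_smul_eq {g : G} (hg : ∀ q : G ⧸ H, g • q = q) (q : G ⧸ H) :
    (kEl H g q : G) = (Quotient.out q)⁻¹ * g * Quotient.out q := by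
  have : g⁻¹ • q = q := by
    conv_lhs => rw [← hg q]
    rw [inv_smul_smul]
  rw [kEl_coe, this, mul_assoc]

/-- The cocycle attached to a homomorphism `φ : H → ℂ`. -/
def coc (φ : Additive H →+ ℂ) (g : G) : (G ⧸ H) → ℂ :=
  fun q => φ (Additive.ofMul (kEl H g q))

theorem coc_apply (φ : Additive H →+ ℂ) (g : G) (q : G ⧸ H) :
    coc H φ g q = φ (Additive.ofMul (kEl H g q)) := rfl

theorem coc_mul (φ : Additive H →+ ℂ) (g h : G) :
    coc H φ (g * h) = coc H φ g + rho g (coc H φ h) := by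
  funext q
  rw [Pi.add_apply, rho_apply, coc_apply, coc_apply, coc_apply, kEl_mul, ofMul_mul, map_add]

/-- `φ ↦ c_φ(g)` as a linear map. -/
def cocL (g : G) : (Additive H →+ ℂ) →ₗ[ℂ] ((G ⧸ H) → ℂ) where
  toFun φ := coc H φ g
  map_add' φ ψ := by
    funext q
    rfl
  map_smul' c φ := by
    funext q
    rfl

theorem cocL_apply (g : G) (φ : Additive H →+ ℂ) : cocL H g φ = coc H φ g := rfl

/-- If `g` acts trivially on `G ⧸ H` and `φ` kills all conjugates of `g` (which then lie in `H`),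
then `c_φ(g) = 0`. -/
theorem coc_eq_zero_of_smul_eq (φ : Additive H →+ ℂ) {g : G} (hg : ∀ q : G ⧸ H, g • q = q)
    (hφ : ∀ k : H, (∃ x : G, (k : G) = x⁻¹ * g * x) → φ (Additive.ofMul k) = 0) :
    coc H φ g = 0 := by
  funext q
  rw [coc_apply, Pi.zero_apply]
  exact hφ _ ⟨Quotient.out q, kEl_coe_of_smul_eq H hg q⟩

section general

variable {Q : Type*} [MulAction G Q]

/-- Abstract 1-cocycles with values in the permutation representation. -/
def IsCoc (C : G → (Q → ℂ)) : Prop := ∀ g h : G, C (g * h) = C g + rho g (C h)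

theorem IsCoc.map_one {C : G → (Q → ℂ)} (hC : IsCoc C) : C 1 = 0 := by
  have h := hC 1 1
  rw [mul_one, rho_one, LinearMap.id_apply] at h
  exact left_eq_add.1 h

theorem IsCoc.map_pow {C : G → (Q → ℂ)} (hC : IsCoc C) (g : G) (n : ℕ) :
    C (g ^ n) = nrm g n (C g) := by
  induction n with
  | zero => rw [pow_zero, hC.map_one, nrm_zero, LinearMap.zero_apply]
  | succ n ih => rw [pow_succ, hC, ih, nrm_succ, LinearMap.add_apply]

theorem IsCoc.eq_zero_of_closure {C : G → (Q → ℂ)} (hC : IsCoc C) {S : Set G}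
    (hS : Subgroup.closure S = ⊤) (h0 : ∀ x ∈ S, C x = 0) (g : G) : C g = 0 := by
  have hg : g ∈ Subgroup.closure S := by rw [hS]; exact Subgroup.mem_top g
  induction hg using Subgroup.closure_induction with
  | mem x hx => exact h0 x hx
  | one => exact hC.map_one
  | mul x y _ _ hx hy => rw [hC, hx, hy, map_zero, add_zero]
  | inv x _ hx =>
    have h := hC x⁻¹ x
    rw [inv_mul_cancel, hC.map_one, hx, map_zero, add_zero] at h
    exact h.symm

theorem isCoc_add {C D : G → (Q → ℂ)} (hC : IsCoc C) (hD : IsCoc D) :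
    IsCoc (fun g => C g + D g) := by
  intro g h
  show C (g * h) + D (g * h) = C g + D g + rho g (C h + D h)
  rw [hC, hD, map_add]
  abel

theorem isCoc_cobdry (v : Q → ℂ) : IsCoc (fun g : G => rho g v - v) := by
  intro g h
  show rho (g * h) v - v = rho g v - v + rho g (rho h v - v)
  rw [rho_mul_apply, map_sub]
  abel

end general

theorem isCoc_coc (φ : Additive H →+ ℂ) : IsCoc (coc H φ) := fun g h => coc_mul H φ g h

/-- The key injectivity statement: if `c_φ + ∂v` vanishes on a generating set, then `φ = 0` and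
`v` is `G`-invariant. -/
theorem eq_zero_of_coc_add_cobdry {S : Set G} (hS : Subgroup.closure S = ⊤)
    (φ : Additive H →+ ℂ) (v : (G ⧸ H) → ℂ)
    (h0 : ∀ x ∈ S, coc H φ x + (rho x v - v) = 0) :
    φ = 0 ∧ ∀ q : G ⧸ H, v q = v ((1 : G) : G ⧸ H) := by
  have hC : IsCoc (fun g : G => coc H φ g + (rho g v - v)) :=
    isCoc_add (isCoc_coc H φ) (isCoc_cobdry v)
  have hall : ∀ g : G, coc H φ g + (rho g v - v) = 0 := fun g =>
    hC.eq_zero_of_closure hS h0 g
  set q₀ : G ⧸ H := ((1 : G) : G ⧸ H) with hq₀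
  have hr₀ : Quotient.out q₀ ∈ H := by
    have h : ((Quotient.out q₀ : G) : G ⧸ H) = ((1 : G) : G ⧸ H) := QuotientGroup.out_eq' q₀
    rw [QuotientGroup.eq, mul_one] at h
    exact inv_mem_iff.1 h
  have hφ : φ = 0 := by
    refine AddMonoidHom.ext fun k => ?_
    obtain ⟨k, rfl⟩ : ∃ k' : H, Additive.ofMul k' = k := ⟨Additive.toMul k, rfl⟩
    rw [AddMonoidHom.zero_apply]
    have hk : (k : G)⁻¹ • q₀ = q₀ := by
      show (((k : G)⁻¹ * 1 : G) : G ⧸ H) = ((1 : G) : G ⧸ H)
      rw [QuotientGroup.eq]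
      simp
    have h1 := congrFun (hall (k : G)) q₀
    rw [Pi.add_apply, Pi.sub_apply, rho_apply, hk, sub_self, add_zero, Pi.zero_apply,
      coc_apply] at h1
    have h2 : kEl H (k : G) q₀ = (⟨Quotient.out q₀, hr₀⟩ : H)⁻¹ * k * ⟨Quotient.out q₀, hr₀⟩ := by
      apply Subtype.ext
      rw [kEl_coe, hk]
      simp only [Subgroup.coe_mul, Subgroup.coe_inv, mul_assoc]
    rw [h2, ofMul_mul, ofMul_mul, ofMul_inv, map_add, map_add, map_neg] at h1
    linear_combination h1
  refine ⟨hφ, ?_⟩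
  have hinv : ∀ g : G, rho g v = v := by
    intro g
    have h := hall g
    have hz : coc H φ g = 0 := by
      funext q
      rw [coc_apply, hφ, AddMonoidHom.zero_apply, Pi.zero_apply]
    rw [hz, zero_add] at h
    exact sub_eq_zero.1 h
  intro q
  induction q using QuotientGroup.induction_on with
  | H g =>
    have h := congrFun (hinv g⁻¹) q₀
    rw [rho_apply, inv_inv] at h
    have h2 : g • q₀ = ((g : G) : G ⧸ H) := by
      show (((g * 1 : G) : G) : G ⧸ H) = _
      rw [mul_one]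
    rw [h2] at h
    exact h

end Fermat.Agent.S21.E1

end
end ZBS21_003_2
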