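/- GENERATED FILE (helper35, build-time optimisation, NOTES/ZB.md): verbatim concatenation of the modules
   Fermat.Agent.S21.LinAlg
   Fermat.Agent.S21.ParBound
   Fermat.Agent.S21.ParabolicDim
   Fermat.Agent.S21
   Do not edit; do not import together with these modules. -/
import Mathlib
import Fermat.Agent.ZB.S36_001
import Fermat.Agent.ZB.S21_003
import Fermat.Agent.ZB.S20_001
import Fermat.Agent.ZB.S20_003
import Fermat.Prelude.Def_ModularCurve_PeriodMap
import Fermat.Prelude.Def_ModularCurve_GenusNumerics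
import Fermat.Statements.S21
import Fermat.Agent.ZB.S21_002
import Fermat.Agent.ZB.S20_009

/-! ### bundled: `Fermat.Agent.S21.LinAlg` -/
section ZBS21_004_0

/-!
# S21, piece E1: an abstract rank count

`A, B : P × V → V` linear, `range B ≤ W`, `A (ker B) ≤ K`, and the common kernel of `A`, `B` is
detected by one linear functional and meets `P × 0` trivially.  Then `P` is finite-dimensional
and `dim P + dim V ≤ dim W + dim K + 1`.
-/

set_option autoImplicit false

noncomputable section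

namespace Fermat.Agent.S21.E1

open Module

theorem la_bound {V P : Type*} [AddCommGroup V] [Module ℂ V] [FiniteDimensional ℂ V]
    [AddCommGroup P] [Module ℂ P]
    (A B : (P × V) →ₗ[ℂ] V) (K W : Submodule ℂ V) (ev : (P × V) →ₗ[ℂ] ℂ)
    (hB : ∀ x, B x ∈ W) (hA : ∀ x, B x = 0 → A x ∈ K)
    (h1 : ∀ x, A x = 0 → B x = 0 → x.1 = 0)
    (h2 : ∀ x, A x = 0 → B x = 0 → ev x = 0 → x = 0) :
    Module.Finite ℂ P ∧ finrank ℂ P + finrank ℂ V ≤ finrank ℂ W + finrank ℂ K + 1 := by
  have hinj : Function.Injective ((A.prod B).comp (LinearMap.inl ℂ P V)) := by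
    rw [injective_iff_map_eq_zero]
    intro φ hφ
    have hA0 : A (φ, 0) = 0 := congrArg Prod.fst hφ
    have hB0 : B (φ, 0) = 0 := congrArg Prod.snd hφ
    exact h1 (φ, 0) hA0 hB0
  have hfin : Module.Finite ℂ P := Module.Finite.of_injective _ hinj
  refine ⟨hfin, ?_⟩
  have e1 := LinearMap.finrank_range_add_finrank_ker B
  rw [Module.finrank_prod] at e1
  have e2 : finrank ℂ (LinearMap.range B) ≤ finrank ℂ W := by
    refine Submodule.finrank_mono ?_
    rintro _ ⟨x, rfl⟩
    exact hB x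
  have e3 := LinearMap.finrank_range_add_finrank_ker (A.comp (LinearMap.ker B).subtype)
  have e4 : finrank ℂ (LinearMap.range (A.comp (LinearMap.ker B).subtype)) ≤ finrank ℂ K := by
    refine Submodule.finrank_mono ?_
    rintro _ ⟨⟨x, hx⟩, rfl⟩
    exact hA x (LinearMap.mem_ker.1 hx)
  have e5 : finrank ℂ (LinearMap.ker (A.comp (LinearMap.ker B).subtype)) ≤ 1 := by
    have hev : Function.Injective (ev.comp ((LinearMap.ker B).subtype.comp
        (LinearMap.ker (A.comp (LinearMap.ker B).subtype)).subtype)) := by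
      rw [injective_iff_map_eq_zero]
      rintro ⟨⟨x, hx⟩, hx'⟩ h0
      have hx1 : B x = 0 := LinearMap.mem_ker.1 hx
      have hx2 : A x = 0 := LinearMap.mem_ker.1 hx'
      have h0' : ev x = 0 := h0
      have := h2 x hx2 hx1 h0'
      subst this
      rfl
    have := LinearMap.finrank_le_finrank_of_injective hev
    rwa [Module.finrank_self] at this
  omega

end Fermat.Agent.S21.E1

end
end ZBS21_004_0

/-! ### bundled: `Fermat.Agent.S21.ParBound` -/
section ZBS21_004_1

/-!
# S21, piece E1 (part 4): the abstract dimension bound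

`G` a group generated by `s, t` with `s² = (st)³ = z` central, `H ≤ G` of finite index containing
`z`, and `P` a space of homomorphisms `H → ℂ` killing `z` and all conjugates of powers of `t` lying
in `H`.  Then `6 dim P + 3 f₂ + 4 f₃ + 6 κ ≤ μ + 12`.
-/

set_option autoImplicit false

noncomputable section

namespace Fermat.Agent.S21.E1

open Module

variable {G : Type*} [Group G] (H : Subgroup G)

/-- `(φ, v) ↦ c_φ(g) + (ρ_g v - v)`. -/
def psi (P : Submodule ℂ (Additive H →+ ℂ)) (g : G) :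
    (P × ((G ⧸ H) → ℂ)) →ₗ[ℂ] ((G ⧸ H) → ℂ) :=
  ((cocL H g).comp P.subtype).coprod (rho g - LinearMap.id)

theorem psi_apply (P : Submodule ℂ (Additive H →+ ℂ)) (g : G) (x : P × ((G ⧸ H) → ℂ)) :
    psi H P g x = coc H (x.1 : Additive H →+ ℂ) g + (rho g x.2 - x.2) := rfl

theorem isCoc_psi (P : Submodule ℂ (Additive H →+ ℂ)) (x : P × ((G ⧸ H) → ℂ)) :
    IsCoc (fun g : G => psi H P g x) :=
  isCoc_add (isCoc_coc H _) (isCoc_cobdry _)

theorem card_fix_one {Q : Type*} [MulAction G Q] :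
    Nat.card {q : Q // (1 : G) • q = q} = Nat.card Q :=
  Nat.card_congr (Equiv.subtypeUnivEquiv fun q => one_smul G q)

/-- The number of orbits of `⟨t⟩` on `G ⧸ H`, computed with the instance for a general `G`-set,
agrees with the one computed with the instance specific to `G ⧸ H`. -/
theorem finrank_ker_nrm_add_orbits_le' [Finite (G ⧸ H)] {t : G} {m : ℕ} (hm0 : m ≠ 0) :
    finrank ℂ (LinearMap.ker (nrm t m : ((G ⧸ H) → ℂ) →ₗ[ℂ] ((G ⧸ H) → ℂ))) +
      Nat.card (MulAction.orbitRel.Quotient (Subgroup.zpowers t) (G ⧸ H)) ≤ Nat.card (G ⧸ H) :=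
  finrank_ker_nrm_add_orbits_le (Q := G ⧸ H) (g := t) (n := m) hm0

theorem abstract_bound [Finite (G ⧸ H)] (s t z : G) (hs : s * s = z) (hu : (s * t) ^ 3 = z)
    (hz : ∀ g : G, g * z = z * g) (hzH : z ∈ H)
    (hgen : Subgroup.closure ({s, t} : Set G) = ⊤)
    (P : Submodule ℂ (Additive H →+ ℂ))
    (hPz : ∀ φ ∈ P, ∀ k : H, (k : G) = z → φ (Additive.ofMul k) = 0)
    (hPt : ∀ φ ∈ P, ∀ k : H, ∀ (x : G) (n : ℕ), (k : G) = x⁻¹ * t ^ n * x →
      φ (Additive.ofMul k) = 0) :
    Module.Finite ℂ P ∧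
      6 * finrank ℂ P + 3 * Nat.card {q : G ⧸ H // s • q = q} +
        4 * Nat.card {q : G ⧸ H // (s * t) • q = q} +
        6 * Nat.card (MulAction.orbitRel.Quotient (Subgroup.zpowers t) (G ⧸ H)) ≤
      Nat.card (G ⧸ H) + 12 := by
  classical
  cases nonempty_fintype (G ⧸ H)
  -- `z` acts trivially
  have hzQ : ∀ q : G ⧸ H, z • q = q := by
    intro q
    induction q using QuotientGroup.induction_on with
    | H g =>
      show (((z * g : G)) : G ⧸ H) = (g : G ⧸ H)
      rw [QuotientGroup.eq, ← hz g, mul_inv_rev, inv_mul_cancel_right]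
      exact inv_mem hzH
  have hs2 : ∀ q : G ⧸ H, s ^ 2 • q = q := by rw [pow_two, hs]; exact hzQ
  have hu3 : ∀ q : G ⧸ H, (s * t) ^ 3 • q = q := by rw [hu]; exact hzQ
  -- the order of `t` on `Q`
  obtain ⟨m, hm0, hm⟩ : ∃ m : ℕ, m ≠ 0 ∧ ∀ q : G ⧸ H, t ^ m • q = q := by
    obtain ⟨m, hmpos, hm⟩ := isOfFinOrder_iff_pow_eq_one.1
      (isOfFinOrder_of_finite (MulAction.toPermHom G (G ⧸ H) t))
    refine ⟨m, hmpos.ne', fun q => ?_⟩
    rw [← map_pow] at hm
    have := congrArg (fun σ : Equiv.Perm (G ⧸ H) => σ q) hm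
    simpa using this
  -- vanishing of the cocycles at `z` and `t ^ m`
  have hCz : ∀ x : P × ((G ⧸ H) → ℂ), psi H P z x = 0 := by
    intro x
    rw [psi_apply, rho_eq_id_of_smul_eq hzQ, LinearMap.id_apply, sub_self, add_zero]
    refine coc_eq_zero_of_smul_eq H _ hzQ ?_
    rintro k ⟨y, hy⟩
    refine hPz _ x.1.2 k ?_
    rw [hy, mul_assoc, ← hz y, inv_mul_cancel_left]
  have hCt : ∀ x : P × ((G ⧸ H) → ℂ), psi H P (t ^ m) x = 0 := by
    intro x
    rw [psi_apply, rho_eq_id_of_smul_eq hm, LinearMap.id_apply, sub_self, add_zero]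
    refine coc_eq_zero_of_smul_eq H _ hm ?_
    rintro k ⟨y, hy⟩
    exact hPt _ x.1.2 k y m hy
  -- kernel computation
  have hkey : ∀ x : P × ((G ⧸ H) → ℂ), psi H P s x = 0 → psi H P t x = 0 →
      x.1 = 0 ∧ ∀ q : G ⧸ H, x.2 q = x.2 ((1 : G) : G ⧸ H) := by
    intro x hxs hxt
    have := eq_zero_of_coc_add_cobdry H hgen (x.1 : Additive H →+ ℂ) x.2 (by
      intro y hy
      rcases hy with rfl | hy
      · exact hxs
      · rw [Set.mem_singleton_iff] at hy
        subst hy
        exact hxt)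
    exact ⟨Subtype.ext this.1, this.2⟩
  -- the abstract rank count
  have hLA := la_bound (psi H P s) (psi H P t)
    (LinearMap.ker (nrm s 2 : ((G ⧸ H) → ℂ) →ₗ[ℂ] ((G ⧸ H) → ℂ)) ⊓
        LinearMap.ker (nrm (s * t) 3 : ((G ⧸ H) → ℂ) →ₗ[ℂ] ((G ⧸ H) → ℂ)))
    (LinearMap.ker (nrm t m : ((G ⧸ H) → ℂ) →ₗ[ℂ] ((G ⧸ H) → ℂ)))
    ((LinearMap.proj (((1 : G) : G ⧸ H))).comp (LinearMap.snd ℂ P ((G ⧸ H) → ℂ)))
    (by
      intro x
      rw [LinearMap.mem_ker, ← (isCoc_psi H P x).map_pow t m]
      exact hCt x)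
    (by
      intro x hx
      refine ⟨?_, ?_⟩
      · show psi H P s x ∈ LinearMap.ker (nrm s 2)
        rw [LinearMap.mem_ker, ← (isCoc_psi H P x).map_pow s 2, pow_two, hs]
        exact hCz x
      · show psi H P s x ∈ LinearMap.ker (nrm (s * t) 3)
        have h1 : psi H P (s * t) x = psi H P s x := by
          have := isCoc_psi H P x s t
          simp only [hx, map_zero, add_zero] at this
          exact this
        rw [LinearMap.mem_ker, ← h1, ← (isCoc_psi H P x).map_pow (s * t) 3, hu]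
        exact hCz x)
    (fun x hxs hxt => (hkey x hxs hxt).1)
    (by
      intro x hxs hxt h0
      have h0' : x.2 ((1 : G) : G ⧸ H) = 0 := h0
      obtain ⟨h1, h2⟩ := hkey x hxs hxt
      refine Prod.ext h1 ?_
      funext q
      rw [h2 q, h0']
      rfl)
  refine ⟨hLA.1, ?_⟩
  have hL := hLA.2
  rw [Module.finrank_fintype_fun_eq_card, ← Nat.card_eq_fintype_card] at hL
  -- the dimension counts
  have hF := Submodule.finrank_sup_add_finrank_inf_eq
    (LinearMap.ker (nrm s 2 : ((G ⧸ H) → ℂ) →ₗ[ℂ] ((G ⧸ H) → ℂ)))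
    (LinearMap.ker (nrm (s * t) 3 : ((G ⧸ H) → ℂ) →ₗ[ℂ] ((G ⧸ H) → ℂ)))
  have hgen' : Subgroup.closure ({s, s * t} : Set G) = ⊤ := by
    rw [eq_top_iff, ← hgen, Subgroup.closure_le]
    intro y hy
    rcases hy with rfl | hy
    · exact Subgroup.subset_closure (Set.mem_insert _ _)
    · rw [Set.mem_singleton_iff] at hy
      subst hy
      have h2 : s⁻¹ * (s * y) ∈ Subgroup.closure ({s, s * y} : Set G) :=
        mul_mem (inv_mem (Subgroup.subset_closure (Set.mem_insert _ _)))
          (Subgroup.subset_closure (Set.mem_insert_of_mem _ rfl))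
      rwa [inv_mul_cancel_left] at h2
  have hG := card_le_finrank_sup_add_one (Q := G ⧸ H) hs2 hu3 hgen'
  have hH := finrank_ker_nrm (Q := G ⧸ H) (g := s) (n := 2) two_ne_zero hs2
  rw [Finset.sum_range_succ, Finset.sum_range_one, pow_zero, pow_one, card_fix_one] at hH
  have hI := finrank_ker_nrm (Q := G ⧸ H) (g := s * t) (n := 3) three_ne_zero hu3
  have hfix : Nat.card {q : G ⧸ H // (s * t) ^ 2 • q = q} =
      Nat.card {q : G ⧸ H // (s * t) • q = q} := by
    refine Nat.card_congr (Equiv.subtypeEquivRight fun q => ?_)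
    constructor
    · intro h
      have h3 := hu3 q
      rw [pow_succ', mul_smul, h] at h3
      exact h3
    · intro h
      rw [pow_two, mul_smul, h, h]
  rw [Finset.sum_range_succ, Finset.sum_range_succ, Finset.sum_range_one, pow_zero, pow_one,
    card_fix_one, hfix] at hI
  have hJ := finrank_ker_nrm_add_orbits_le' H (t := t) (m := m) hm0
  omega

end Fermat.Agent.S21.E1

end
end ZBS21_004_1

/-! ### bundled: `Fermat.Agent.S21.ParabolicDim` -/
section ZBS21_004_2

/-!
# S21, piece E1: `dim Hom_par(Γ₀(N), ℂ) ≤ 2 · genusFormula N`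

The space of parabolic homomorphisms `Γ₀(N) → ℂ` is finite-dimensional of dimension at most
`2 + μ/6 - ν₂/2 - 2ν₃/3 - κ`.  This is the specialisation of `E1.abstract_bound` to
`G = SL(2,ℤ) = ⟨S, T⟩`, `S² = (ST)³ = -1`, combined with the counts B1–B4 of S20.
-/

set_option autoImplicit false

open Matrix ModularGroup CongruenceSubgroup Module

open scoped MatrixGroups

namespace Fermat.Agent.S21

namespace E1

theorem S_mul_S_eq_neg_one : S * S = (-1 : SL(2, ℤ)) := by
  ext i j
  fin_cases i <;> fin_cases j <;> simp [coe_S]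

theorem ST_pow_three_eq_neg_one : (S * T) ^ 3 = (-1 : SL(2, ℤ)) := by
  ext i j
  fin_cases i <;> fin_cases j <;>
    simp [coe_S, coe_T, pow_succ, Matrix.mul_apply, Fin.sum_univ_two]

theorem neg_one_mem_Gamma0 (N : ℕ) : (-1 : SL(2, ℤ)) ∈ Gamma0 N := by
  rw [Gamma0_mem]
  simp

theorem trace_neg_one_sq :
    (((-1 : SL(2, ℤ)) : SL(2, ℤ)) : Matrix (Fin 2) (Fin 2) ℤ).trace ^ 2 = 4 := by
  simp

theorem trace_conj (x g : SL(2, ℤ)) :
    ((x⁻¹ * g * x : SL(2, ℤ)) : Matrix (Fin 2) (Fin 2) ℤ).trace =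
      (g : Matrix (Fin 2) (Fin 2) ℤ).trace := by
  rw [Matrix.SpecialLinearGroup.coe_mul, Matrix.trace_mul_comm, ← Matrix.SpecialLinearGroup.coe_mul,
    mul_inv_cancel_left]

theorem trace_T_pow (n : ℕ) : ((T ^ n : SL(2, ℤ)) : Matrix (Fin 2) (Fin 2) ℤ).trace = 2 := by
  rw [← zpow_natCast, coe_T_zpow]
  simp [Matrix.trace_fin_two]

end E1

/-- The natural-number form of the bound, in terms of the combinatorial data of
`SL(2,ℤ) ⧸ Γ₀(N)`. -/
theorem finrank_parabolicHoms_card_le (N : ℕ) [NeZero N] :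
    Module.Finite ℂ (ModularCurve.Period.parabolicHoms ℂ (Gamma0 N) ℂ) ∧
      6 * finrank ℂ (ModularCurve.Period.parabolicHoms ℂ (Gamma0 N) ℂ) +
        3 * Nat.card {q : SL(2, ℤ) ⧸ Gamma0 N // S • q = q} +
        4 * Nat.card {q : SL(2, ℤ) ⧸ Gamma0 N // (S * T) • q = q} +
        6 * Nat.card (MulAction.orbitRel.Quotient (Subgroup.zpowers T) (SL(2, ℤ) ⧸ Gamma0 N)) ≤
      Nat.card (SL(2, ℤ) ⧸ Gamma0 N) + 12 := by
  refine E1.abstract_bound (Gamma0 N) S T (-1) E1.S_mul_S_eq_neg_one E1.ST_pow_three_eq_neg_one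
    (fun g => by simp) (E1.neg_one_mem_Gamma0 N) SpecialLinearGroup.SL2Z_generators
    (ModularCurve.Period.parabolicHoms ℂ (Gamma0 N) ℂ) ?_ ?_
  · intro φ hφ k hk
    refine hφ k ?_
    rw [hk]
    exact E1.trace_neg_one_sq
  · intro φ hφ k x n hk
    refine hφ k ?_
    rw [hk, E1.trace_conj, E1.trace_T_pow]
    norm_num

/-- The space of parabolic homomorphisms `Γ₀(N) → ℂ` is finite-dimensional. -/
theorem finite_parabolicHoms (N : ℕ) [NeZero N] :
    Module.Finite ℂ (ModularCurve.Period.parabolicHoms ℂ (Gamma0 N) ℂ) :=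
  (finrank_parabolicHoms_card_le N).1

/-- The bound in terms of the arithmetic functions of the genus formula. -/
theorem finrank_parabolicHoms_nat_le (N : ℕ) [NeZero N] :
    6 * finrank ℂ (ModularCurve.Period.parabolicHoms ℂ (Gamma0 N) ℂ) +
        3 * ModularCurve.nuTwo N + 4 * ModularCurve.nuThree N + 6 * ModularCurve.cuspCount N ≤
      ModularCurve.dedekindPsi N + 12 := by
  have h := (finrank_parabolicHoms_card_le N).2
  rwa [Fermat.Agent.S20.card_fixed_S, Fermat.Agent.S20.card_fixed_ST,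
    Fermat.Agent.S20.card_orbits_T, Fermat.Agent.S20.card_quot_Gamma0] at h

/-- **Piece E1**: `dim Hom_par(Γ₀(N), ℂ) ≤ 2 · genusFormula N`. -/
theorem finrank_parabolicHoms_le (N : ℕ) [NeZero N] :
    (Module.finrank ℂ (ModularCurve.Period.parabolicHoms ℂ (Gamma0 N) ℂ) : ℚ) ≤
      2 * ModularCurve.genusFormula N := by
  have h := finrank_parabolicHoms_nat_le N
  have h' : ((6 * finrank ℂ (ModularCurve.Period.parabolicHoms ℂ (Gamma0 N) ℂ) +
        3 * ModularCurve.nuTwo N + 4 * ModularCurve.nuThree N + 6 * ModularCurve.cuspCount N : ℕ)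
        : ℚ) ≤ ((ModularCurve.dedekindPsi N + 12 : ℕ) : ℚ) := Nat.cast_le.2 h
  push_cast at h'
  unfold ModularCurve.genusFormula
  linarith

end Fermat.Agent.S21


end ZBS21_004_2

/-! ### bundled: `Fermat.Agent.S21` -/
section ZBS21_004_3
-- Statement S21 (row 20): Eichler–Shimura period isomorphism, `ModularCurve.periodHomPair_eichlerShimura`.
-- Assembly (helper21): pieces A, B, Range, Assemble (helper21), C (helper84), D (helper75),
-- E1 (helper94) and S20 (helper82's team).

set_option autoImplicit false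
open ModularCurve

namespace Fermat.Agent.S21

theorem result (N : ℕ) [NeZero N] :
    Function.Injective (ModularCurve.periodHomPair N)
      ∧ LinearMap.range (ModularCurve.periodHomPair N)
          = ModularCurve.Period.parabolicHoms ℂ (CongruenceSubgroup.Gamma0 N) ℂ := by
  exact result_of_finrank_le_genus N (finrank_parabolicHoms_le N) (Fermat.Agent.S20.result N)

end Fermat.Agent.S21


end ZBS21_004_3
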