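/- GENERATED FILE (helper35, build-time optimisation, NOTES/ZB.md): verbatim concatenation of the modules
   Fermat.Agent.UNIP.NodesInstAbs
   Do not edit; do not import together with these modules. -/
import Mathlib
import Fermat.Agent.ZB.INJ_017
import Fermat.Agent.ZB.S18_003

/-! ### bundled: `Fermat.Agent.UNIP.NodesInstAbs` -/
section ZBUNIP_019_0

/-!
# UNIP / U5 (Nodes): abstract lemmas for the modular instantiation (`NodesInst.lean`)

* `nodesInst_isIntegrallyClosed` : the integral closure of a ring in a field is integrally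
  closed;
* `nodesInst_tf_abs` : INJ A1 for two charts `C = integralClosure R₀ F`, `B = integralClosure R₁ L`
  (`F ⊆ L` fields, `R₀ ≅ R₁`): if `π'` is prime in `C`, `π' ∤ c` and `φ π' ∣ φ c * b` in `B`, then
  `φ π' ∣ b`.
-/

set_option autoImplicit false

namespace Fermat.Agent.UNIP

open Polynomial

/-- The integral closure of a ring in a field is integrally closed. -/
theorem nodesInst_isIntegrallyClosed (R L : Type*) [CommRing R] [Field L] [Algebra R L] :
    IsIntegrallyClosed (integralClosure R L) := by
  let C := integralClosure R L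
  let f : FractionRing C →ₐ[C] L :=
    IsFractionRing.liftAlgHom (g := Algebra.ofId C L) (fun x y h => Subtype.ext h)
  rw [isIntegrallyClosed_iff_isIntegrallyClosedIn (FractionRing C)]
  exact f.isIntegrallyClosedIn f.toRingHom.injective inferInstance

section TF

variable {R₀ R₁ F L : Type*} [CommRing R₀] [CommRing R₁] [Field F] [Field L]
  [Algebra R₀ F] [Algebra R₁ L]

/-- **INJ A1 between two charts.** -/
theorem nodesInst_tf_abs (incl : F →+* L)
    (θ : R₁ →+* R₀) (hθ : incl.comp ((algebraMap R₀ F).comp θ) = algebraMap R₁ L)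
    (φ : integralClosure R₀ F →+* integralClosure R₁ L)
    (hφ : ∀ c : integralClosure R₀ F, ((φ c : integralClosure R₁ L) : L) = incl (c : F))
    {π' c : integralClosure R₀ F} (hπ' : Prime π') (hc : ¬ π' ∣ c)
    (b : integralClosure R₁ L) (hdvd : φ π' ∣ φ c * b) : φ π' ∣ b := by
  classical
  let algCL : Algebra (integralClosure R₀ F) L :=
    (incl.comp (integralClosure R₀ F).val.toRingHom).toAlgebra
  have halg : ∀ x : integralClosure R₀ F,
      algebraMap (integralClosure R₀ F) L x = incl (x : F) := fun _ => rfl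
  have : IsIntegrallyClosed (integralClosure R₀ F) := nodesInst_isIntegrallyClosed R₀ F
  have : Module.IsTorsionFree (integralClosure R₀ F) L := by
    rw [Module.isTorsionFree_iff_algebraMap_injective]
    intro x y h
    rw [halg, halg] at h
    exact Subtype.ext (incl.injective h)
  -- integrality over `R₁` implies integrality over `C`
  have hint : ∀ x : L, IsIntegral R₁ x → IsIntegral (integralClosure R₀ F) x := by
    intro x hx
    let g : R₁ →+* integralClosure R₀ F := (algebraMap R₀ (integralClosure R₀ F)).comp θ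
    have hg : (algebraMap (integralClosure R₀ F) L).comp g = algebraMap R₁ L := by
      rw [← hθ]
      ext y
      rfl
    have h1 : ((algebraMap (integralClosure R₀ F) L).comp g).IsIntegralElem x := by
      rw [hg]; exact hx
    exact RingHom.IsIntegralElem.of_comp h1
  -- integrality over `C` implies integrality over `R₁`
  have hint' : ∀ z : L, IsIntegral (integralClosure R₀ F) z → IsIntegral R₁ z := by
    intro z hz
    obtain ⟨p, hp, hpz⟩ := hz
    have h1 : IsIntegral (integralClosure R₁ L) z := by
      refine ⟨p.map φ, hp.map φ, ?_⟩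
      rw [eval₂_map]
      have : (algebraMap (integralClosure R₁ L) L).comp φ =
          algebraMap (integralClosure R₀ F) L := by
        ext y
        exact hφ y
      rw [this]
      exact hpz
    exact isIntegral_trans (R := R₁) (A := integralClosure R₁ L) z h1
  obtain ⟨d, hd⟩ := hdvd
  have h' : c • (b : L) = π' • (d : L) := by
    rw [Algebra.smul_def, Algebra.smul_def, halg, halg, ← hφ, ← hφ]
    have := congrArg (fun x : integralClosure R₁ L => (x : L)) hd
    simpa using this
  obtain ⟨z, hz, hbz⟩ := Fermat.Agent.INJ.exists_isIntegral_smul_eq hπ' hc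
    (hint _ b.2) (hint _ d.2) h'
  refine ⟨⟨z, hint' z hz⟩, Subtype.ext ?_⟩
  rw [hbz, Algebra.smul_def, halg, ← hφ]
  rfl

end TF

end Fermat.Agent.UNIP

namespace Fermat.Agent.UNIP

section Normalise

variable {B C K : Type*} [CommRing B] [IsDomain B] [CommRing C] [Field K]

/-- Normalisation of a linear relation: if `π'` has finite multiplicity in every nonzero element
of `C` and generates the kernel of `ρ ∘ φ`, then a nontrivial relation with coefficients in `C`
can be replaced by one with a coefficient of nonzero reduction. -/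
theorem nodesInst_rank_normalise (φ : C →+* B) (π' : C) (hπ0 : φ π' ≠ 0) (ρ : B →+* K)
    (hval : ∀ c : C, c ≠ 0 → ∃ n : ℕ, ¬ π' ^ (n + 1) ∣ c)
    (hdiv : ∀ c : C, ρ (φ c) = 0 → π' ∣ c)
    {n : ℕ} (v : Fin n → B) (c : Fin n → C) (hne : ∃ i, c i ≠ 0)
    (hsum : ∑ i, φ (c i) * v i = 0) :
    ∃ c' : Fin n → C, (∃ i, ρ (φ (c' i)) ≠ 0) ∧ ∑ i, φ (c' i) * v i = 0 := by
  classical
  obtain ⟨i₀, hi₀⟩ := hne
  obtain ⟨N, hN⟩ := hval _ hi₀
  induction N generalizing c with
  | zero =>
    refine ⟨c, ⟨i₀, fun h0 => hN ?_⟩, hsum⟩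
    simpa using hdiv _ h0
  | succ N ih =>
    by_cases hall : ∀ i, ρ (φ (c i)) = 0
    · choose c₁ hc₁ using fun i => hdiv _ (hall i)
      have hsum₁ : ∑ i, φ (c₁ i) * v i = 0 := by
        have h1 : φ π' * ∑ i, φ (c₁ i) * v i = 0 := by
          rw [Finset.mul_sum, ← hsum]
          refine Finset.sum_congr rfl fun i _ => ?_
          rw [hc₁ i, map_mul]; ring
        exact (mul_eq_zero.mp h1).resolve_left hπ0
      have hi₀' : c₁ i₀ ≠ 0 := by
        intro h0
        apply hi₀
        rw [hc₁ i₀, h0, mul_zero]
      have hN' : ¬ π' ^ (N + 1) ∣ c₁ i₀ := by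
        intro hd
        apply hN
        rw [hc₁ i₀, pow_succ']
        exact mul_dvd_mul_left π' hd
      exact ih c₁ hsum₁ hi₀' hN'
    · push Not at hall
      exact ⟨c, hall, hsum⟩

end Normalise

end Fermat.Agent.UNIP

namespace Fermat.Agent.UNIP

section Rank

variable {B C F L : Type*} [CommRing B] [CommRing C] [Field F] [Field L]

/-- Clearing denominators in a linear relation: a nontrivial relation between elements of `B`
with coefficients in the field `F` gives one with coefficients in `C`, if every element of `F` is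
a quotient of elements of `C`. -/
theorem nodesInst_rank_clear (φ : C →+* B) (ιC : C →+* F) (ιB : B →+* L) (incl : F →+* L)
    (hιB : Function.Injective ιB)
    (hcomm : ∀ c, ιB (φ c) = incl (ιC c))
    (hfrac : ∀ x : F, ∃ d c : C, ιC d ≠ 0 ∧ ιC d * x = ιC c)
    {n : ℕ} (v : Fin n → B) (f : Fin n → F) (hf : ∃ i, f i ≠ 0)
    (hsum : ∑ i, incl (f i) * ιB (v i) = 0) :
    ∃ c : Fin n → C, (∃ i, c i ≠ 0) ∧ ∑ i, φ (c i) * v i = 0 := by
  classical
  choose d c hd hdc using hfrac
  refine ⟨fun i => (∏ j ∈ Finset.univ.erase i, d (f j)) * c (f i), ?_, ?_⟩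
  · obtain ⟨i, hi⟩ := hf
    refine ⟨i, fun h0 => ?_⟩
    have h1 := congrArg ιC h0
    rw [map_mul, map_zero, map_prod, ← hdc] at h1
    rcases mul_eq_zero.mp h1 with h2 | h2
    · exact (Finset.prod_ne_zero_iff.mpr fun j _ => hd (f j)) h2
    · exact (mul_ne_zero (hd _) hi) h2
  · apply hιB
    rw [map_zero, map_sum]
    have key : ∀ i, ιB (φ ((∏ j ∈ Finset.univ.erase i, d (f j)) * c (f i)) * v i) =
        incl (ιC (∏ j, d (f j))) * (incl (f i) * ιB (v i)) := by
      intro i
      rw [map_mul, hcomm, map_mul, ← hdc, ← Finset.prod_erase_mul _ _ (Finset.mem_univ i),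
        map_mul, map_mul, map_mul, map_mul]
      ring
    simp only [key]
    rw [← Finset.mul_sum, hsum, mul_zero]

end Rank

end Fermat.Agent.UNIP


end ZBUNIP_019_0
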