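/- GENERATED FILE (helper35, build-time optimisation, NOTES/ZB.md): verbatim concatenation of the modules
   Fermat.Agent.W1.PlanGeo2
   Fermat.Agent.W1.PlanGeo3
   Fermat.Agent.W1.PlanGeo4
   Fermat.Agent.W1.Teich
   Fermat.Agent.DEU.ToW1
   Fermat.Agent.DEU.Val
   Fermat.Agent.W1.ModPRNice
   Fermat.Agent.W1.GeoC1
   Fermat.Agent.S15.RedSp
   Fermat.Agent.W1.PlanApprox
   Fermat.Agent.W1.GeoOrthApprox
   Fermat.Agent.S15.Div1Plan
   Fermat.Agent.S15.Div1Orth
   Fermat.Agent.S15.Div1Tangent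
   Fermat.Agent.S15.Div1Divisor
   Fermat.Agent.S15.Div1Hensel
   Fermat.Agent.S15.PlanN
   Fermat.Agent.S15.PlanPKG
   Fermat.Agent.S15.PkgField
   Do not edit; do not import together with these modules. -/
import Mathlib
import Fermat.Agent.ZB.ES_020
import Fermat.Prelude.Def_ModularCurve_ArithmeticGalois
import Fermat.Prelude.Def_ModularCurve_X0ModL
import Fermat.Agent.ZB.W1_001
import Fermat.Agent.ZB.S05_001
import Fermat.Agent.ZB.Common_002
import Fermat.Agent.ZB.DEU_003
import Fermat.Agent.ZB.INJ_005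
import Fermat.Agent.ZB.RED_001
import Fermat.Agent.ZB.ES_012
import Fermat.Prelude.Def_AlgebraicCurve_BaseChangeGalois
import Fermat.Agent.ZB.INJ_011
import Fermat.Agent.ZB.UNIP_011
import Fermat.Agent.ZB.S28_002

/-! ### bundled: `Fermat.Agent.W1.PlanGeo2` -/
section ZBW1_002_0

/-!
# W1-geo, part 2: chart, kernel of reduction, expansions — exact statements

Plan: `NOTES/W1-geo.md` §1, §2, §4.  Notation of `PlanGeo.lean`.

* `PRData.Orth` : every `L(D)` has a basis in `O` whose reductions are `k`-linearly independent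
  elements of `L̄(r_* D)` (orthonormal bases; gives semicontinuity and lifting of sections).
* `PRData.Chart`, `IsChart` : a good function `t`, values `c i ∈ A`, centres `Q i` with
  `t(Q i) = c i`, `t̄ - c̄ i` of order one at `Q̄ i := r (Q i)`, the `Q̄ i` pairwise distinct and
  `Σ Q̄ i` non-special.
* `PRData.J1` : the kernel of reduction on `Pic⁰`.
* `IsExpansion P u f s` : the Laurent series `s ∈ K((T))` is the expansion of `f` at the place `P`
  in the uniformiser `u`.

Pieces (Props): `StmtExpand` (GEO-X), `StmtTaylorInt` (GEO-T), `StmtC1`, `StmtLift` (GEO-C1).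
-/

set_option autoImplicit false

open AlgebraicCurve Module

namespace Fermat.Agent.W1

variable {K F k Fk : Type} [Field K] [Field F] [Algebra K F] [Field k] [Field Fk] [Algebra k Fk]
variable {A : ValuationSubring K}

/-- orthonormal bases of the spaces `L(D)` -/
def PRData.Orth (R : PRData K F k Fk A) : Prop :=
  ∀ D : Divisor K F, ∃ (n : ℕ) (e : Fin n → F) (he : ∀ i, e i ∈ R.O),
    Submodule.span K (Set.range e) = riemannRochSpace D ∧
    LinearIndependent k (fun i => R.red ⟨e i, he i⟩) ∧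
    ∀ i, R.red ⟨e i, he i⟩ ∈ riemannRochSpace (Finsupp.mapDomain R.r D)

/-- the data of a chart with `g` centres -/
structure PRData.Chart (R : PRData K F k Fk A) (g : ℕ) where
  t : F
  c : Fin g → A
  Q : Fin g → Place K F

/-- the local parameter `τ i = t - c i` of a chart -/
def PRData.Chart.tau {R : PRData K F k Fk A} {g : ℕ} (C : R.Chart g) (i : Fin g) : F :=
  C.t - algebraMap K F (C.c i : K)

/-- the axioms of a chart -/
structure PRData.Chart.IsChart {R : PRData K F k Fk A} {g : ℕ} (C : R.Chart g) : Prop where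
  good : R.GoodFn C.t
  value : ∀ i, HasValueAt (C.Q i) C.t (C.c i : K)
  simple : ∀ (ht : C.t ∈ R.O) (i : Fin g),
    (R.r (C.Q i)).ord (R.red ⟨C.t, ht⟩ - algebraMap k Fk (R.res (C.c i))) = 1
  inj : Function.Injective fun i => R.r (C.Q i)
  nonspecial : finrank k ↥(riemannRochSpace
    (∑ i : Fin g, Finsupp.single (R.r (C.Q i)) (1 : ℤ) : Divisor k Fk)) = 1

/-- `P` lies in the `i`-th disc of the chart with coordinate `z` -/
def PRData.Chart.InDisc {R : PRData K F k Fk A} {g : ℕ} (C : R.Chart g) (i : Fin g)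
    (P : Place K F) (z : K) : Prop :=
  R.r P = R.r (C.Q i) ∧ z ∈ A.nonunits ∧ HasValueAt P C.t ((C.c i : K) + z)

/-- the divisor `Σ P i - Σ Q i` attached to a tuple of places -/
noncomputable def PRData.Chart.div {R : PRData K F k Fk A} {g : ℕ} (C : R.Chart g)
    (P : Fin g → Place K F) : Divisor K F :=
  ∑ i : Fin g, (Finsupp.single (P i) (1 : ℤ) - Finsupp.single (C.Q i) (1 : ℤ))

/-- The kernel of reduction: classes of divisors of degree `0` whose reduction is principal. -/
def PRData.J1 (R : PRData K F k Fk A) : AddSubgroup (Pic0 K F) where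
  carrier := {x | ∃ D : Divisor.degZero (K := K) (F := F), Pic0.mk D = x ∧
    Finsupp.mapDomain R.r (D : Divisor K F) ∈ Divisor.principal (K := k) (F := Fk)}
  zero_mem' := ⟨0, rfl, by
    rw [AddSubgroup.coe_zero, Finsupp.mapDomain_zero]; exact AddSubgroup.zero_mem _⟩
  add_mem' := by
    rintro x y ⟨D, rfl, hD⟩ ⟨E, rfl, hE⟩
    refine ⟨D + E, rfl, ?_⟩
    rw [AddSubgroup.coe_add, Finsupp.mapDomain_add]
    exact AddSubgroup.add_mem _ hD hE
  neg_mem' := by
    rintro x ⟨D, rfl, hD⟩
    refine ⟨-D, rfl, ?_⟩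
    have h : Finsupp.mapDomain R.r (-(D : Divisor K F)) = -Finsupp.mapDomain R.r (D : Divisor K F) := by
      rw [← Finsupp.mapDomain.addMonoidHom_apply, map_neg, Finsupp.mapDomain.addMonoidHom_apply]
    rw [AddSubgroup.coe_neg, h]
    exact AddSubgroup.neg_mem _ hD

/-- **(C1)**: every class in the kernel of reduction is `[Σ P i - Σ Q i]` for exactly one tuple of
places `P i` in the discs of the chart. -/
def StmtC1 : Prop :=
  ∀ (K F k Fk : Type) [Field K] [Field F] [Algebra K F] [Field k] [Field Fk] [Algebra k Fk]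
    (A : ValuationSubring K) (R : PRData K F k Fk A) (g : ℕ),
    R.IsPR → IsNiceCurve K F g → IsNiceCurve k Fk g → R.Orth →
    ∀ C : R.Chart g, C.IsChart → ∀ x : Pic0 K F, x ∈ R.J1 →
      ∃! P : Fin g → Place K F, (∀ i, R.r (P i) = R.r (C.Q i)) ∧
        ∃ D : Divisor.degZero (K := K) (F := F), (D : Divisor K F) = C.div P ∧ Pic0.mk D = x

/-- converse of (C1) (easy) -/
def StmtC1Conv : Prop :=
  ∀ (K F k Fk : Type) [Field K] [Field F] [Algebra K F] [Field k] [Field Fk] [Algebra k Fk]
    (A : ValuationSubring K) (R : PRData K F k Fk A) (g : ℕ),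
    R.IsPR → IsNiceCurve K F g → IsNiceCurve k Fk g →
    ∀ C : R.Chart g, C.IsChart → ∀ P : Fin g → Place K F, (∀ i, R.r (P i) = R.r (C.Q i)) →
      ∀ D : Divisor.degZero (K := K) (F := F), (D : Divisor K F) = C.div P → Pic0.mk D ∈ R.J1

/-- **lift**: every class is congruent modulo the kernel of reduction to the class of a divisor
supported on places `P` at which `t` takes a value in a given set `S ⊂ A` of representatives of
the residue field and `t̄` is unramified at `r P`.  (For `S` the Teichmüller representatives such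
places are fixed by inertia.)  `hram`: `t̄` is unramified outside a finite set. -/
def StmtLift : Prop :=
  ∀ (K F k Fk : Type) [Field K] [Field F] [Algebra K F] [Field k] [Field Fk] [Algebra k Fk]
    (A : ValuationSubring K) (R : PRData K F k Fk A) (g : ℕ),
    R.IsPR → IsNiceCurve K F g → IsNiceCurve k Fk g →
    ∀ (t : F) (ht : t ∈ R.O), R.GoodFn t →
      {Q : Place k Fk | ¬ ∃ c : k, Q.ord (R.red ⟨t, ht⟩ - algebraMap k Fk c) = 1}.Finite →
    ∀ S : Set A, (∀ c : k, ∃ s ∈ S, R.res s = c) →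
    ∀ x : Pic0 K F, ∃ D : Divisor.degZero (K := K) (F := F),
      x - Pic0.mk D ∈ R.J1 ∧
      ∀ P : Place K F, (D : Divisor K F) P ≠ 0 →
        ∃ s ∈ S, HasValueAt P t (s : K) ∧
          (R.r P).ord (R.red ⟨t, ht⟩ - algebraMap k Fk (R.res s)) = 1

/-! ## Expansions at a place -/

/-- the truncation `Σ_{m < n} s_m u^m` of a Laurent series, as an element of `F` -/
noncomputable def truncAt (u : F) (s : LaurentSeries K) (n : ℤ) : F :=
  ∑ m ∈ Finset.Ico s.order n, algebraMap K F (s.coeff m) * u ^ m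

/-- `s` is the expansion of `f` at `P` in the uniformiser `u`: `f ≡ Σ_{m<n} s_m u^m` modulo
`u^n` for every `n`. -/
def IsExpansion (P : Place K F) (u : F) (f : F) (s : LaurentSeries K) : Prop :=
  ∀ n : ℤ, f = truncAt u s n ∨ n ≤ P.ord (f - truncAt u s n)

/-- **GEO-X**: expansions exist, are unique, and form a ring homomorphism `F → K((T))`
(generic function-field fact, no reduction involved). -/
def StmtExpand : Prop :=
  ∀ (K F : Type) [Field K] [Field F] [Algebra K F] (P : Place K F),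
    Function.Bijective (algebraMap K P.ResidueField) → ∀ u : F, P.ord u = 1 →
    ∃ ι : F →+* LaurentSeries K,
      (∀ f, IsExpansion P u f (ι f)) ∧
      (∀ f s, IsExpansion P u f s → s = ι f) ∧
      (∀ a : K, ι (algebraMap K F a) = HahnSeries.C a) ∧
      ι u = HahnSeries.single 1 1 ∧
      ∀ f, f ≠ 0 → (ι f).order = P.ord f

/-- **GEO-T** (Taylor, integrality): for `f ∈ O` without poles in the `i`-th disc, the expansion
of `f` at `Q i` in `τ i` is a power series with coefficients in `A`; its coefficientwise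
reduction is the expansion of `f̄` at `Q̄ i` in `τ̄ i`; and it computes the values of `f` on the
disc up to any order. -/
def StmtTaylorInt : Prop :=
  ∀ (K F k Fk : Type) [Field K] [Field F] [Algebra K F] [Field k] [Field Fk] [Algebra k Fk]
    (A : ValuationSubring K) (R : PRData K F k Fk A) (g : ℕ),
    R.IsPR → IsNiceCurve K F g → IsNiceCurve k Fk g →
    ∀ C : R.Chart g, C.IsChart → ∀ (i : Fin g) (f : R.O),
      (∀ P : Place K F, P.ord (f : F) < 0 → R.r P ≠ R.r (C.Q i)) →
      ∀ s : LaurentSeries K, IsExpansion (C.Q i) (C.tau i) (f : F) s →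
        (∀ m : ℤ, m < 0 → s.coeff m = 0) ∧
        (∃ a : ℕ → A, (∀ m : ℕ, s.coeff (m : ℤ) = (a m : K)) ∧
          (∀ (ht : C.t ∈ R.O) (sk : LaurentSeries k),
            IsExpansion (R.r (C.Q i))
              (R.red ⟨C.t, ht⟩ - algebraMap k Fk (R.res (C.c i))) (R.red f) sk →
            ∀ m : ℕ, sk.coeff (m : ℤ) = R.res (a m)) ∧
          ∀ (P : Place K F) (z : K), C.InDisc i P z → ∀ n : ℕ,
            ∃ y : A, HasValueAt P (f : F)
              ((∑ m ∈ Finset.range n, (a m : K) * z ^ m) + z ^ n * (y : K)))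

end Fermat.Agent.W1


end ZBW1_002_0

/-! ### bundled: `Fermat.Agent.W1.PlanGeo3` -/
section ZBW1_002_1

/-!
# W1-geo, part 3: the normalised family, the approximation lemma, the addition law

Plan: `NOTES/W1-geo.md` §3.  Notation of `PlanGeo.lean`, `PlanGeo2.lean`.

* `StmtBFamily` (**GEO-B**): functions `b (i,k) ∈ O`, poles only at the centres, expansions at the
  centres with coefficients in `A`, normalised principal parts: the coefficient of `T^{-(k'+2)}`
  of `b (i,k)` at `Q i'` is `1` if `(i,k) = (i',k')` and `0` otherwise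
  (= the hypothesis `pol n (b j) = single j 1`, `n = 1`, of `RHF.exists_unique_rhf`).
* `StmtApprox` (**GEO-AL**): a function of `O` with poles only in the discs, at points with
  coordinates in `ϖ A`, is congruent modulo `ϖ ^ n O` to a function of `O` with poles only at the
  centres.
* `StmtAddApprox` (**GEO-CMP**): the addition of the kernel of reduction in the coordinates of the
  chart is given modulo `ϖ ^ n` by polynomials with coefficients in `A` (not depending on `ϖ`).
-/

set_option autoImplicit false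

open AlgebraicCurve Module

namespace Fermat.Agent.W1

variable {K F k Fk : Type} [Field K] [Field F] [Algebra K F] [Field k] [Field Fk] [Algebra k Fk]
variable {A : ValuationSubring K}

/-- the values of the chart are representatives: congruent values are equal
(e.g. Teichmüller representatives) -/
def PRData.Chart.Rep {R : PRData K F k Fk A} {g : ℕ} (C : R.Chart g) : Prop :=
  ∀ i i' : Fin g, R.res (C.c i) = R.res (C.c i') → C.c i = C.c i'

/-- `f` has poles only at the centres of the chart -/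
def PRData.Chart.PolesAtCentres {R : PRData K F k Fk A} {g : ℕ} (C : R.Chart g) (f : F) : Prop :=
  ∀ P : Place K F, P.ord f < 0 → ∃ i, P = C.Q i

/-- `f` has poles only in the discs of the chart, at points with coordinates in `ϖ A` -/
def PRData.Chart.PolesInDiscs {R : PRData K F k Fk A} {g : ℕ} (C : R.Chart g) (ϖ : K) (f : F) :
    Prop :=
  ∀ P : Place K F, P.ord f < 0 → ∃ (i : Fin g) (z : K), C.InDisc i P z ∧ ∃ a ∈ A, z = ϖ * a

/-- **GEO-B**: the normalised family. -/
def StmtBFamily : Prop :=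
  ∀ (K F k Fk : Type) [Field K] [Field F] [Algebra K F] [Field k] [Field Fk] [Algebra k Fk]
    (A : ValuationSubring K) (R : PRData K F k Fk A) (g : ℕ),
    R.IsPR → IsNiceCurve K F g → IsNiceCurve k Fk g → R.Orth →
    ∀ C : R.Chart g, C.IsChart →
    ∃ b : Fin g × ℕ → F,
      (∀ j, b j ∈ R.O) ∧ (∀ j, C.PolesAtCentres (b j)) ∧
      ∀ (j : Fin g × ℕ) (i' : Fin g) (s : LaurentSeries K),
        IsExpansion (C.Q i') (C.tau i') (b j) s →
          (∀ m : ℤ, s.coeff m ∈ A) ∧
          ∀ k' : ℕ, s.coeff (-((k' : ℤ) + 2)) = if j = (i', k') then 1 else 0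

/-- **GEO-AL**: moving the poles to the centres modulo `ϖ ^ n`. -/
def StmtApprox : Prop :=
  ∀ (K F k Fk : Type) [Field K] [Field F] [Algebra K F] [Field k] [Field Fk] [Algebra k Fk]
    (A : ValuationSubring K) (R : PRData K F k Fk A) (g : ℕ),
    R.IsPR → IsNiceCurve K F g → IsNiceCurve k Fk g → R.Orth →
    ∀ C : R.Chart g, C.IsChart → C.Rep →
    ∀ ϖ : K, ϖ ∈ A.nonunits → ϖ ≠ 0 → ∀ f : F, f ∈ R.O → C.PolesInDiscs ϖ f →
    ∀ n : ℕ, ∃ f' : F, f' ∈ R.O ∧ C.PolesAtCentres f' ∧
      ∃ h : F, h ∈ R.O ∧ f - f' = algebraMap K F (ϖ ^ n) * h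

/-- **GEO-CMP**: the addition law in the coordinates of the chart, modulo `ϖ ^ n`. -/
def StmtAddApprox : Prop :=
  ∀ (K F k Fk : Type) [Field K] [Field F] [Algebra K F] [Field k] [Field Fk] [Algebra k Fk]
    (A : ValuationSubring K) (R : PRData K F k Fk A) (g : ℕ),
    R.IsPR → IsNiceCurve K F g → IsNiceCurve k Fk g → R.Orth →
    ∀ C : R.Chart g, C.IsChart → C.Rep →
    ∀ n : ℕ, ∃ Φ : Fin g → MvPolynomial (Fin g ⊕ Fin g) K,
      (∀ i m, (Φ i).coeff m ∈ A) ∧
      ∀ ϖ : K, ϖ ∈ A.nonunits → ϖ ≠ 0 →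
      ∀ (P P' P'' : Fin g → Place K F) (z z' ζ : Fin g → K),
        (∀ i, C.InDisc i (P i) (z i)) → (∀ i, C.InDisc i (P' i) (z' i)) →
        (∀ i, C.InDisc i (P'' i) (ζ i)) →
        (∀ i, ∃ a ∈ A, z i = ϖ * a) → (∀ i, ∃ a ∈ A, z' i = ϖ * a) →
        C.div P + C.div P' - C.div P'' ∈ Divisor.principal (K := K) (F := F) →
        ∀ i, ∃ a ∈ A, ζ i - MvPolynomial.eval (Sum.elim z z') (Φ i) = ϖ ^ n * a

end Fermat.Agent.W1


end ZBW1_002_1

/-! ### bundled: `Fermat.Agent.W1.PlanGeo4` -/
section ZBW1_002_2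

/-!
# W1-geo, part 4: the concrete package for `F = ℚ̄(X₀(N))` and the final geometric statement

* `IsTeich A S` : `S ⊂ A` is a set of representatives of the residue field, fixed by inertia
  (`0` and the roots of unity of order prime to `p`).  `StmtTeich` : it exists.
* `ModPR N A g R t` : the reduction package `R` for `F = FF N`, `F̄ = k(j̄_d)`, with a Galois-fixed
  good function `t` (in practice `t = j`), and its compatibility with the decomposition group.
  THIS is what the modular side (DEU + ES/INJ inputs) has to deliver (**GEO-PR**).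
* `StmtKC` (**GEO-KC**): the package gives a `KernelChart` on `JZero N`.
* `StmtLevelUp` (**GEO-LVL**): pull-back `JZero N → JZero N'` (for the auxiliary level when
  `p ∈ {2, 3}`): additive, Galois equivariant, injective on `p`-power torsion.
-/

set_option autoImplicit false

open AlgebraicCurve Module ModularCurve

namespace Fermat.Agent.W1

/-- Teichmüller-type representatives of the residue field of `A`. -/
structure IsTeich (A : ValuationSubring (AlgebraicClosure ℚ)) (S : Set A) : Prop where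
  surj : ∀ c : IsLocalRing.ResidueField A, ∃ s ∈ S, IsLocalRing.residue A s = c
  inj : ∀ s ∈ S, ∀ s' ∈ S, IsLocalRing.residue A s = IsLocalRing.residue A s' → s = s'
  fixed : ∀ σ ∈ A.inertiaSubgroupIn ℚ, ∀ s ∈ S, σ (s : AlgebraicClosure ℚ) = s

/-- Teichmüller representatives exist. -/
def StmtTeich : Prop :=
  ∀ p : ℕ, p.Prime → ∀ A : ValuationSubring (AlgebraicClosure ℚ), A.LiesOverPrime p →
    ∃ S : Set A, IsTeich A S

/-- **GEO-PR**: the reduction package of `X₀(N)` at `A`, with its Galois compatibility. -/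
structure ModPR (N : ℕ) [NeZero N] (A : ValuationSubring (AlgebraicClosure ℚ)) (g : ℕ)
    (R : PRData (AlgebraicClosure ℚ) ↥(modularFunctionFieldBar N) (IsLocalRing.ResidueField A)
      ↥(modularFunctionFieldFullC (IsLocalRing.ResidueField A) N) A)
    (t : ↥(modularFunctionFieldBar N)) : Prop where
  isPR : R.IsPR
  res_eq : R.res = IsLocalRing.residue A
  orth : R.Orth
  nice : IsNiceCurve (AlgebraicClosure ℚ) ↥(modularFunctionFieldBar N) g
  nice_k : IsNiceCurve (IsLocalRing.ResidueField A)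
    ↥(modularFunctionFieldFullC (IsLocalRing.ResidueField A) N) g
  good : R.GoodFn t
  ram : ∀ ht : t ∈ R.O,
    {Q : Place (IsLocalRing.ResidueField A)
        ↥(modularFunctionFieldFullC (IsLocalRing.ResidueField A) N) |
      ¬ ∃ c : IsLocalRing.ResidueField A, Q.ord (R.red ⟨t, ht⟩ - algebraMap _ _ c) = 1}.Finite
  t_fixed : ∀ σ : AlgebraicClosure ℚ ≃ₐ[ℚ] AlgebraicClosure ℚ,
    arithmeticGalois (modularFunctionFieldFull N) σ • t = t
  decomp : ∀ σ ∈ A.decompositionSubgroup ℚ,
    ∃ σb : Place (IsLocalRing.ResidueField A)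
        ↥(modularFunctionFieldFullC (IsLocalRing.ResidueField A) N) →
      Place (IsLocalRing.ResidueField A)
        ↥(modularFunctionFieldFullC (IsLocalRing.ResidueField A) N),
      (∀ P, R.r (arithmeticGalois (modularFunctionFieldFull N) σ • P) = σb (R.r P)) ∧
      ∀ E ∈ Divisor.principal (K := IsLocalRing.ResidueField A)
          (F := ↥(modularFunctionFieldFullC (IsLocalRing.ResidueField A) N)),
        Finsupp.mapDomain σb E ∈ Divisor.principal (K := IsLocalRing.ResidueField A)
          (F := ↥(modularFunctionFieldFullC (IsLocalRing.ResidueField A) N))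
  inertia : ∀ σ ∈ A.inertiaSubgroupIn ℚ, ∀ P,
    R.r (arithmeticGalois (modularFunctionFieldFull N) σ • P) = R.r P

/-- the package exists at the level `N` and the valuation ring `A` -/
def HasModPR (N : ℕ) [NeZero N] (A : ValuationSubring (AlgebraicClosure ℚ)) : Prop :=
  ∃ (g : ℕ) (R : PRData (AlgebraicClosure ℚ) ↥(modularFunctionFieldBar N)
      (IsLocalRing.ResidueField A) ↥(modularFunctionFieldFullC (IsLocalRing.ResidueField A) N) A)
    (t : ↥(modularFunctionFieldBar N)), ModPR N A g R t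

/-- the final geometric statement at `(N, A)` -/
def HasKernelChart (N : ℕ) [NeZero N] (A : ValuationSubring (AlgebraicClosure ℚ)) : Prop :=
  ∃ (J1 : AddSubgroup (JZero N)) (g : ℕ) (z : JZero N → Fin g → AlgebraicClosure ℚ),
    KernelChart A (JZero N) J1 g z

/-- **GEO-KC**: the abstract pieces and the concrete package give the kernel chart. -/
def StmtKC : Prop :=
  StmtEval → StmtOnto → StmtDisc → StmtC1 → StmtC1Conv → StmtLift → StmtAddApprox → StmtTeich →
    ∀ (N : ℕ) [NeZero N] (p : ℕ), p.Prime →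
      ∀ A : ValuationSubring (AlgebraicClosure ℚ), A.LiesOverPrime p →
        HasModPR N A → HasKernelChart N A

/-- **GEO-LVL**: pull-back to a higher level, injective on `p`-power torsion. -/
def StmtLevelUp (N N' p : ℕ) [NeZero N] [NeZero N'] : Prop :=
  ∃ φ : JZero N →+ JZero N',
    (∀ (σ : AlgebraicClosure ℚ ≃ₐ[ℚ] AlgebraicClosure ℚ) (x : JZero N), φ (σ • x) = σ • φ x) ∧
    ∀ x : JZero N, (∃ n : ℕ, (p ^ n) • x = 0) → φ x = 0 → x = 0

end Fermat.Agent.W1


end ZBW1_002_2

/-! ### bundled: `Fermat.Agent.W1.Teich` -/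
section ZBW1_002_3

/-!
# W1: Teichmüller representatives in a valuation ring of `ℚ̄` over `p`

`teichSet p A := {0} ∪ {roots of unity of order prime to p}` (as a subset of `A`).

* `teich_eq_one_of_sub_mem` : a root of unity of order prime to `p` which is `≡ 1` mod `𝔪` is `1`;
* `teich_exists_root` : every `m`-th root of unity of the residue field lifts to an `m`-th root of
  unity of `ℚ̄`;
* `teich_residue_finOrder` : every nonzero element of the residue field is a root of unity of
  order prime to `p`;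
* `isTeich_teichSet`, `stmtTeich : StmtTeich`.
-/

set_option autoImplicit false

open Polynomial

namespace Fermat.Agent.W1

variable {p : ℕ} {A : ValuationSubring (AlgebraicClosure ℚ)}

/-! ### Elementary facts -/

theorem teich_one_not_mem_nonunits (A : ValuationSubring (AlgebraicClosure ℚ)) :
    (1 : AlgebraicClosure ℚ) ∉ A.nonunits := by
  intro h
  rw [ValuationSubring.mem_nonunits_iff] at h
  simp at h

theorem teich_natCast_mem (A : ValuationSubring (AlgebraicClosure ℚ)) (n : ℕ) :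
    (n : AlgebraicClosure ℚ) ∈ A := natCast_mem A n

theorem teich_nonunits_add {x y : AlgebraicClosure ℚ} (hx : x ∈ A.nonunits)
    (hy : y ∈ A.nonunits) : x + y ∈ A.nonunits := by
  rw [ValuationSubring.mem_nonunits_iff_exists_mem_maximalIdeal] at hx hy ⊢
  obtain ⟨hx1, hx2⟩ := hx
  obtain ⟨hy1, hy2⟩ := hy
  exact ⟨add_mem hx1 hy1, (IsLocalRing.maximalIdeal A).add_mem hx2 hy2⟩

theorem teich_nonunits_sub {x y : AlgebraicClosure ℚ} (hx : x ∈ A.nonunits)
    (hy : y ∈ A.nonunits) : x - y ∈ A.nonunits := by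
  rw [ValuationSubring.mem_nonunits_iff_exists_mem_maximalIdeal] at hx hy ⊢
  obtain ⟨hx1, hx2⟩ := hx
  obtain ⟨hy1, hy2⟩ := hy
  exact ⟨sub_mem hx1 hy1, (IsLocalRing.maximalIdeal A).sub_mem hx2 hy2⟩

theorem teich_mul_nonunits {x y : AlgebraicClosure ℚ} (hx : x ∈ A)
    (hy : y ∈ A.nonunits) : x * y ∈ A.nonunits := by
  rw [ValuationSubring.mem_nonunits_iff_exists_mem_maximalIdeal] at hy ⊢
  obtain ⟨hy1, hy2⟩ := hy
  exact ⟨mul_mem hx hy1, (IsLocalRing.maximalIdeal A).mul_mem_left ⟨x, hx⟩ hy2⟩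

theorem teich_zero_mem_nonunits (A : ValuationSubring (AlgebraicClosure ℚ)) :
    (0 : AlgebraicClosure ℚ) ∈ A.nonunits := by
  rw [ValuationSubring.mem_nonunits_iff_or]
  exact Or.inl rfl

theorem teich_nonunits_mem {x : AlgebraicClosure ℚ} (hx : x ∈ A.nonunits) : x ∈ A := by
  rw [ValuationSubring.mem_nonunits_iff_exists_mem_maximalIdeal] at hx
  exact hx.1

theorem teich_mem_nonunits_iff_residue (x : A) :
    (x : AlgebraicClosure ℚ) ∈ A.nonunits ↔ IsLocalRing.residue A x = 0 := by
  rw [IsLocalRing.residue_eq_zero_iff, ValuationSubring.mem_nonunits_iff_exists_mem_maximalIdeal]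
  exact ⟨fun ⟨_, h⟩ => h, fun h => ⟨x.2, h⟩⟩

/-- An integer prime to `p` is a unit of `A`. -/
theorem teich_natCast_not_mem_nonunits (hp : p.Prime) (hA : A.LiesOverPrime p) {n : ℕ}
    (hn : ¬ p ∣ n) : (n : AlgebraicClosure ℚ) ∉ A.nonunits := by
  intro h
  have hcop : IsCoprime (p : ℤ) (n : ℤ) := by
    rw [Int.isCoprime_iff_gcd_eq_one, Int.gcd_natCast_natCast]
    exact (Nat.Prime.coprime_iff_not_dvd hp).mpr hn
  obtain ⟨u, v, huv⟩ := hcop
  have h1 : (u : AlgebraicClosure ℚ) * (p : AlgebraicClosure ℚ)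
      + (v : AlgebraicClosure ℚ) * (n : AlgebraicClosure ℚ) = 1 := by
    have := congrArg (fun z : ℤ => (z : AlgebraicClosure ℚ)) huv
    simpa using this
  have h2 : (u : AlgebraicClosure ℚ) * (p : AlgebraicClosure ℚ)
      + (v : AlgebraicClosure ℚ) * (n : AlgebraicClosure ℚ) ∈ A.nonunits :=
    teich_nonunits_add (teich_mul_nonunits (intCast_mem A u) hA)
      (teich_mul_nonunits (intCast_mem A v) h)
  rw [h1] at h2
  exact teich_one_not_mem_nonunits A h2

/-- A root of unity lies in `A` and is a unit there. -/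
theorem teich_root_mem {ζ : AlgebraicClosure ℚ} {m : ℕ} (hm : 0 < m) (hζ : ζ ^ m = 1) :
    ζ ∈ A ∧ ζ ∉ A.nonunits ∧ ζ⁻¹ ∈ A := by
  have hζ0 : ζ ≠ 0 := by
    rintro rfl
    rw [zero_pow hm.ne'] at hζ
    exact zero_ne_one hζ
  have key : ∀ ξ : AlgebraicClosure ℚ, ξ ^ m = 1 → ξ ∈ A := by
    intro ξ hξ
    by_contra hξA
    have h1 : ξ⁻¹ ∈ A.nonunits := by
      rw [ValuationSubring.mem_nonunits_iff_or]
      right
      rwa [inv_inv]
    have h2 : (ξ⁻¹) ^ m ∈ A.nonunits := by
      obtain ⟨j, rfl⟩ : ∃ j, m = j + 1 := ⟨m - 1, by omega⟩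
      rw [pow_succ]
      exact teich_mul_nonunits (pow_mem (teich_nonunits_mem h1) j) h1
    rw [inv_pow, hξ, inv_one] at h2
    exact teich_one_not_mem_nonunits A h2
  have hinv : ζ⁻¹ ∈ A := key ζ⁻¹ (by rw [inv_pow, hζ, inv_one])
  refine ⟨key ζ hζ, ?_, hinv⟩
  rw [ValuationSubring.mem_nonunits_iff_or]
  push Not
  exact ⟨hζ0, hinv⟩

/-- **Injectivity of the residue map on roots of unity of order prime to `p`**: a root of unity
of order prime to `p` which is congruent to `1` is `1`. -/
theorem teich_eq_one_of_sub_mem (hp : p.Prime) (hA : A.LiesOverPrime p)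
    {ξ : AlgebraicClosure ℚ} {n : ℕ} (hn : ¬ p ∣ n) (hξ : ξ ^ n = 1)
    (h1 : ξ - 1 ∈ A.nonunits) : ξ = 1 := by
  by_contra hne
  have hgeom : (∑ i ∈ Finset.range n, ξ ^ i) * (ξ - 1) = 0 := by
    rw [geom_sum_mul, hξ, sub_self]
  have hsum0 : ∑ i ∈ Finset.range n, ξ ^ i = 0 := by
    rcases mul_eq_zero.mp hgeom with h | h
    · exact h
    · exact absurd (sub_eq_zero.mp h) hne
  have hξA : ξ ∈ A := by
    have := add_mem (teich_nonunits_mem h1) A.one_mem
    simpa using this
  have hpow : ∀ i : ℕ, ξ ^ i - 1 ∈ A.nonunits := by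
    intro i
    have : ξ ^ i - 1 = (∑ j ∈ Finset.range i, ξ ^ j) * (ξ - 1) := by rw [geom_sum_mul]
    rw [this]
    exact teich_mul_nonunits (sum_mem fun j _ => pow_mem hξA j) h1
  have hdiff : (∑ i ∈ Finset.range n, ξ ^ i) - (n : AlgebraicClosure ℚ) ∈ A.nonunits := by
    have : (∑ i ∈ Finset.range n, ξ ^ i) - (n : AlgebraicClosure ℚ)
        = ∑ i ∈ Finset.range n, (ξ ^ i - 1) := by
      rw [Finset.sum_sub_distrib]
      simp
    rw [this]
    exact sum_mem fun i _ => hpow i
  rw [hsum0, zero_sub] at hdiff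
  have hn' : (n : AlgebraicClosure ℚ) ∈ A.nonunits := by
    have := neg_mem hdiff
    simpa using this
  exact teich_natCast_not_mem_nonunits hp hA hn hn'

/-- Two roots of unity of order prime to `p` which are congruent are equal. -/
theorem teich_eq_of_sub_mem (hp : p.Prime) (hA : A.LiesOverPrime p)
    {ζ ζ' : AlgebraicClosure ℚ} {m m' : ℕ} (hm : 0 < m) (hpm : ¬ p ∣ m) (hpm' : ¬ p ∣ m')
    (hζ : ζ ^ m = 1) (hζ' : ζ' ^ m' = 1) (h : ζ' - ζ ∈ A.nonunits) : ζ' = ζ := by
  obtain ⟨-, hζu, hζinv⟩ := teich_root_mem (A := A) hm hζ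
  have hζ0 : ζ ≠ 0 := by
    rintro rfl
    exact hζu (teich_zero_mem_nonunits A)
  have hξ : (ζ' * ζ⁻¹) ^ (m * m') = 1 := by
    rw [mul_pow, inv_pow, pow_mul ζ, hζ, one_pow, inv_one, mul_one, mul_comm m m', pow_mul, hζ',
      one_pow]
  have hdvd : ¬ p ∣ m * m' := fun hd => (hp.dvd_mul.mp hd).elim hpm hpm'
  have h1 : ζ' * ζ⁻¹ - 1 ∈ A.nonunits := by
    have : ζ' * ζ⁻¹ - 1 = ζ⁻¹ * (ζ' - ζ) := by field_simp
    rw [this]
    exact teich_mul_nonunits hζinv h
  have := teich_eq_one_of_sub_mem hp hA hdvd hξ h1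
  field_simp at this
  exact this

/-! ### Lifting roots of unity -/

/-- a product of elements of `A` lying in `𝔪` has a factor in `𝔪` -/
theorem teich_exists_mem_of_prod_mem (s : Multiset (AlgebraicClosure ℚ))
    (hs : ∀ x ∈ s, x ∈ A) (hprod : s.prod ∈ A.nonunits) : ∃ x ∈ s, x ∈ A.nonunits := by
  induction s using Multiset.induction_on with
  | empty =>
    rw [Multiset.prod_zero] at hprod
    exact absurd hprod (teich_one_not_mem_nonunits A)
  | cons a s ih =>
    rw [Multiset.prod_cons] at hprod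
    have haA : a ∈ A := hs a (Multiset.mem_cons_self a s)
    have hsA : ∀ x ∈ s, x ∈ A := fun x hx => hs x (Multiset.mem_cons_of_mem hx)
    have hpA : s.prod ∈ A := multiset_prod_mem s hsA
    by_cases ha : a ∈ A.nonunits
    · exact ⟨a, Multiset.mem_cons_self a s, ha⟩
    · by_cases hp' : s.prod ∈ A.nonunits
      · obtain ⟨x, hx, hx'⟩ := ih hsA hp'
        exact ⟨x, Multiset.mem_cons_of_mem hx, hx'⟩
      · exfalso
        rw [ValuationSubring.mem_nonunits_iff] at ha hp' hprod
        rw [not_lt] at ha hp'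
        rw [map_mul] at hprod
        have h1 : A.valuation a = 1 := le_antisymm ((A.valuation_le_one_iff a).mpr haA) ha
        have h2 : A.valuation s.prod = 1 :=
          le_antisymm ((A.valuation_le_one_iff _).mpr hpA) hp'
        rw [h1, h2, one_mul] at hprod
        exact lt_irrefl _ hprod

/-- every `a ∈ A` with `a ^ m ≡ 1` is congruent to an `m`-th root of unity -/
theorem teich_exists_root {m : ℕ} (hm : 0 < m) {a : AlgebraicClosure ℚ} (ha : a ∈ A)
    (h : a ^ m - 1 ∈ A.nonunits) :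
    ∃ ζ : AlgebraicClosure ℚ, ζ ^ m = 1 ∧ a - ζ ∈ A.nonunits := by
  set f : (AlgebraicClosure ℚ)[X] := X ^ m - 1 with hf
  have hmonic : f.Monic := monic_X_pow_sub_C (1 : AlgebraicClosure ℚ) hm.ne'
  have hsplit : f.Splits := IsAlgClosed.splits f
  have hprod : f = (f.roots.map fun ζ => X - C ζ).prod :=
    hsplit.eq_prod_roots_of_monic hmonic
  have heval : a ^ m - 1 = (f.roots.map fun ζ => a - ζ).prod := by
    have h1 := congrArg (Polynomial.eval a) hprod
    rw [Polynomial.eval_multiset_prod, Multiset.map_map] at h1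
    simpa [hf] using h1
  have hroot : ∀ ζ ∈ f.roots, ζ ^ m = 1 := by
    intro ζ hζ
    have := (Polynomial.mem_roots hmonic.ne_zero).mp hζ
    rw [Polynomial.IsRoot, hf] at this
    simpa [sub_eq_zero] using this
  rw [heval] at h
  obtain ⟨x, hx, hx'⟩ := teich_exists_mem_of_prod_mem _ (by
    intro x hx
    obtain ⟨ζ, hζ, rfl⟩ := Multiset.mem_map.mp hx
    exact sub_mem ha (teich_root_mem (A := A) hm (hroot ζ hζ)).1) h
  obtain ⟨ζ, hζ, rfl⟩ := Multiset.mem_map.mp hx
  exact ⟨ζ, hroot ζ hζ, hx'⟩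

/-! ### The residue field is algebraic over `𝔽_p` -/

theorem teich_residue_natCast_self (hA : A.LiesOverPrime p) :
    ((p : ℕ) : IsLocalRing.ResidueField A) = 0 := by
  have h1 : (((p : A) : A) : AlgebraicClosure ℚ) ∈ A.nonunits := by
    have : (((p : A) : A) : AlgebraicClosure ℚ) = (p : AlgebraicClosure ℚ) := by push_cast; rfl
    rw [this]; exact hA
  have h2 := (teich_mem_nonunits_iff_residue (p : A)).mp h1
  simpa using h2

theorem teich_charP (hp : p.Prime) (hA : A.LiesOverPrime p) :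
    CharP (IsLocalRing.ResidueField A) p :=
  (CharP.charP_iff_prime_eq_zero hp).mpr (teich_residue_natCast_self hA)

/-- every nonzero element of the residue field has finite order -/
theorem teich_residue_pow_eq_one (hp : p.Prime) (hA : A.LiesOverPrime p)
    (c : IsLocalRing.ResidueField A) (hc : c ≠ 0) : ∃ n : ℕ, 0 < n ∧ c ^ n = 1 := by
  have : Fact p.Prime := ⟨hp⟩
  have := teich_charP hp hA
  let _ : Algebra (ZMod p) (IsLocalRing.ResidueField A) := ZMod.algebra _ p
  obtain ⟨a, rfl⟩ := IsLocalRing.residue_surjective c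
  obtain ⟨f, -, hfa, i, hi⟩ := Fermat.Agent.Common.lemmaX_exists_poly p hp (a : AlgebraicClosure ℚ)
  -- `c` is algebraic over `𝔽_p`
  have hfA : Polynomial.eval₂ (Int.castRingHom A) a f = 0 := by
    apply Subtype.ext
    have h1 : ((Polynomial.eval₂ (Int.castRingHom A) a f : A) : AlgebraicClosure ℚ)
        = Polynomial.eval₂ ((A.subtype).comp (Int.castRingHom A)) (A.subtype a) f :=
      Polynomial.hom_eval₂ f (Int.castRingHom A) A.subtype a
    have h2 : (A.subtype).comp (Int.castRingHom A) = algebraMap ℤ (AlgebraicClosure ℚ) :=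
      RingHom.ext_int _ _
    rw [h1, h2]
    exact hfa
  have halg : IsAlgebraic (ZMod p) (IsLocalRing.residue A a) := by
    refine ⟨f.map (Int.castRingHom (ZMod p)), ?_, ?_⟩
    · intro h0
      apply hi
      have h3 := congrArg (fun q => Polynomial.coeff q i) h0
      simp only [Polynomial.coeff_map, Polynomial.coeff_zero] at h3
      exact (ZMod.intCast_zmod_eq_zero_iff_dvd _ _).mp h3
    · rw [Polynomial.aeval_def, Polynomial.eval₂_map]
      have h4 : (algebraMap (ZMod p) (IsLocalRing.ResidueField A)).comp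
          (Int.castRingHom (ZMod p)) = (IsLocalRing.residue A).comp (Int.castRingHom A) :=
        RingHom.ext_int _ _
      rw [h4, ← Polynomial.hom_eval₂, hfA, map_zero]
  have hint : IsIntegral (ZMod p) (IsLocalRing.residue A a) := halg.isIntegral
  -- the subalgebra generated by `c` is finite
  set B := Algebra.adjoin (ZMod p) {IsLocalRing.residue A a} with hB
  have : Module.Finite (ZMod p) B :=
    Module.Finite.iff_fg.2 hint.fg_adjoin_singleton
  have : Finite B := Module.finite_of_finite (ZMod p)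
  have hcB : IsLocalRing.residue A a ∈ B := Algebra.subset_adjoin (Set.mem_singleton _)
  obtain ⟨i, j, hij, hpow⟩ := Finite.exists_ne_map_eq_of_infinite
    (fun n : ℕ => (⟨IsLocalRing.residue A a, hcB⟩ : B) ^ n)
  have hpow' : (IsLocalRing.residue A a) ^ i = (IsLocalRing.residue A a) ^ j := by
    have := congrArg (fun b : B => (b : IsLocalRing.ResidueField A)) hpow
    simpa using this
  rcases lt_or_gt_of_ne hij with hlt | hlt
  · refine ⟨j - i, by omega, ?_⟩
    have h5 : (IsLocalRing.residue A a) ^ i * (IsLocalRing.residue A a) ^ (j - i)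
        = (IsLocalRing.residue A a) ^ i * 1 := by
      have hij' : i + (j - i) = j := by omega
      rw [← pow_add, mul_one, hij', hpow']
    exact mul_left_cancel₀ (pow_ne_zero i hc) h5
  · refine ⟨i - j, by omega, ?_⟩
    have h5 : (IsLocalRing.residue A a) ^ j * (IsLocalRing.residue A a) ^ (i - j)
        = (IsLocalRing.residue A a) ^ j * 1 := by
      have hij' : j + (i - j) = i := by omega
      rw [← pow_add, mul_one, hij', hpow']
    exact mul_left_cancel₀ (pow_ne_zero j hc) h5

/-- every nonzero element of the residue field is a root of unity of order prime to `p` -/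
theorem teich_residue_finOrder (hp : p.Prime) (hA : A.LiesOverPrime p)
    (c : IsLocalRing.ResidueField A) (hc : c ≠ 0) :
    ∃ m : ℕ, 0 < m ∧ ¬ p ∣ m ∧ c ^ m = 1 := by
  have : Fact p.Prime := ⟨hp⟩
  have := teich_charP hp hA
  obtain ⟨n, hn, hcn⟩ := teich_residue_pow_eq_one hp hA c hc
  obtain ⟨e, m, hpm, rfl⟩ := Nat.exists_eq_pow_mul_and_not_dvd hn.ne' p hp.ne_one
  have hm : 0 < m := by
    rcases Nat.eq_zero_or_pos m with h | h
    · rw [h, mul_zero] at hn; exact absurd hn (lt_irrefl _)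
    · exact h
  refine ⟨m, hm, hpm, ?_⟩
  have h1 : (c ^ m - 1) ^ p ^ e = 0 := by
    rw [sub_pow_char_pow, one_pow, ← pow_mul, mul_comm m, hcn, sub_self]
  exact sub_eq_zero.mp (pow_eq_zero_iff (pow_pos hp.pos e).ne' |>.mp h1)

/-! ### The Teichmüller set -/

/-- `{0} ∪ {roots of unity of order prime to p}` as a subset of `A`. -/
def teichSet (p : ℕ) (A : ValuationSubring (AlgebraicClosure ℚ)) : Set A :=
  {s | (s : AlgebraicClosure ℚ) = 0 ∨
    ∃ m : ℕ, 0 < m ∧ ¬ p ∣ m ∧ (s : AlgebraicClosure ℚ) ^ m = 1}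

theorem isTeich_teichSet (hp : p.Prime) (hA : A.LiesOverPrime p) : IsTeich A (teichSet p A) where
  surj := by
    intro c
    by_cases hc : c = 0
    · exact ⟨0, Or.inl rfl, by rw [map_zero, hc]⟩
    obtain ⟨m, hm, hpm, hcm⟩ := teich_residue_finOrder hp hA c hc
    obtain ⟨a, rfl⟩ := IsLocalRing.residue_surjective c
    have h1 : ((a : AlgebraicClosure ℚ)) ^ m - 1 ∈ A.nonunits := by
      have h2 : IsLocalRing.residue A (a ^ m - 1) = 0 := by
        rw [map_sub, map_pow, hcm, map_one, sub_self]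
      exact (teich_mem_nonunits_iff_residue (a ^ m - 1)).mpr h2
    obtain ⟨ζ, hζ, hζa⟩ := teich_exists_root hm a.2 h1
    have hζA : ζ ∈ A := (teich_root_mem (A := A) hm hζ).1
    refine ⟨⟨ζ, hζA⟩, Or.inr ⟨m, hm, hpm, hζ⟩, ?_⟩
    have h3 : IsLocalRing.residue A (a - ⟨ζ, hζA⟩) = 0 :=
      (teich_mem_nonunits_iff_residue (a - ⟨ζ, hζA⟩)).mp hζa
    rw [map_sub, sub_eq_zero] at h3
    exact h3.symm
  inj := by
    intro s hs s' hs' hres
    have hdiff : ((s' : AlgebraicClosure ℚ)) - (s : AlgebraicClosure ℚ) ∈ A.nonunits := by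
      have h2 : IsLocalRing.residue A (s' - s) = 0 := by rw [map_sub, hres, sub_self]
      exact (teich_mem_nonunits_iff_residue (s' - s)).mpr h2
    apply Subtype.ext
    rcases hs with hs | ⟨m, hm, hpm, hsm⟩ <;> rcases hs' with hs' | ⟨m', hm', hpm', hsm'⟩
    · rw [hs, hs']
    · exfalso
      rw [hs, sub_zero] at hdiff
      exact (teich_root_mem (A := A) hm' hsm').2.1 hdiff
    · exfalso
      rw [hs', zero_sub] at hdiff
      have := neg_mem hdiff
      rw [neg_neg] at this
      exact (teich_root_mem (A := A) hm hsm).2.1 this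
    · exact (teich_eq_of_sub_mem hp hA hm hpm hpm' hsm hsm' hdiff).symm
  fixed := by
    intro σ hσ s hs
    rcases hs with hs | ⟨m, hm, hpm, hsm⟩
    · rw [hs, map_zero]
    · have h1 : σ (s : AlgebraicClosure ℚ) - (s : AlgebraicClosure ℚ) ∈ A.nonunits :=
        Fermat.Agent.S05.inertia_apply_sub_mem_nonunits hσ s.2
      have h2 : (σ (s : AlgebraicClosure ℚ)) ^ m = 1 := by rw [← map_pow, hsm, map_one]
      exact teich_eq_of_sub_mem hp hA hm hpm hpm hsm h2 h1

/-- **Teichmüller representatives exist.** -/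
theorem stmtTeich : StmtTeich := fun p hp A hA => ⟨teichSet p A, isTeich_teichSet hp hA⟩

end Fermat.Agent.W1


end ZBW1_002_3

/-! ### bundled: `Fermat.Agent.DEU.ToW1` -/
section ZBW1_002_4

/-!
# DEU — bridge to the reduction package `W1.PRData` of WALL 1

From a Gauss valuation ring `O` with residue map `red` (all axioms of `W1.PRData.IsPR` except
`r_div`) and the hypotheses `Hyp` of Deuring's dimension count we get a reduction of places `r`
such that `⟨res, O, red, r⟩` is a `PRData` with `IsPR`, `Semicont`, `Orth`, and Riemann's theorem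
on the residue side with the same `g`.
-/

set_option autoImplicit false

open AlgebraicCurve Module

namespace Fermat.Agent.DEU

open Fermat.Agent.W1

variable {K F k Fk : Type} [Field K] [Field F] [Algebra K F] [Field k] [Field Fk] [Algebra k Fk]

/-- The `RedData` of a Gauss valuation ring. -/
def redDataOfVal (A : ValuationSubring K) (res : A →+* k) (O : ValuationSubring F)
    (red : O →+* Fk) (hres : Function.Surjective res)
    (hmem : ∀ a : K, algebraMap K F a ∈ O ↔ a ∈ A)
    (hred0 : ∀ x : O, red x = 0 ↔ (x : F) ∈ O.nonunits)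
    (hredalg : ∀ (a : A) (h : algebraMap K F (a : K) ∈ O),
      red ⟨algebraMap K F (a : K), h⟩ = algebraMap k Fk (res a))
    (hprim : ∀ f : F, f ≠ 0 → ∃ a : K, a ≠ 0 ∧ ∃ h : algebraMap K F a * f ∈ O,
      red ⟨algebraMap K F a * f, h⟩ ≠ 0) : RedData K F k Fk where
  A := A
  res := res
  res_surjective := hres
  O := O.toSubring
  red := red
  algebraMap_mem := fun a => (hmem a).mpr a.2
  red_algebraMap := fun a => hredalg a ((hmem a).mpr a.2)
  inv_mem := fun f hf => by
    have h1 : (f : F) ∉ O.nonunits := fun h => hf ((hred0 f).mpr h)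
    have h2 : (f : F) ∈ O := f.2
    rcases eq_or_ne (f : F) 0 with h0 | h0
    · rw [h0, inv_zero]; exact O.zero_mem
    · by_contra hinv
      apply h1
      rw [ValuationSubring.mem_nonunits_iff_exists_mem_maximalIdeal]
      refine ⟨h2, ?_⟩
      rw [IsLocalRing.mem_maximalIdeal, mem_nonunits_iff]
      intro hu
      obtain ⟨v, hv⟩ := hu.exists_right_inv
      apply hinv
      have h3 : (f : F) * (v : F) = 1 := by
        have := congrArg (Subtype.val) hv
        simpa using this
      have h4 : ((f : F))⁻¹ = (v : F) := (eq_inv_of_mul_eq_one_right h3).symm ▸ rfl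
      rw [h4]
      exact v.2
  exists_scale := hprim

/-- **DEU ⇒ the reduction package of WALL 1.** -/
theorem exists_isPR (A : ValuationSubring K) (res : A →+* k) (O : ValuationSubring F)
    (red : O →+* Fk) (hres : Function.Surjective res)
    (hres0 : ∀ a : A, res a = 0 ↔ (a : K) ∈ A.nonunits)
    (hmem : ∀ a : K, algebraMap K F a ∈ O ↔ a ∈ A)
    (hredsurj : Function.Surjective red)
    (hred0 : ∀ x : O, red x = 0 ↔ (x : F) ∈ O.nonunits)
    (hredalg : ∀ (a : A) (h : algebraMap K F (a : K) ∈ O),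
      red ⟨algebraMap K F (a : K), h⟩ = algebraMap k Fk (res a))
    (hprim : ∀ f : F, f ≠ 0 → ∃ a : K, a ≠ 0 ∧ ∃ h : algebraMap K F a * f ∈ O,
      red ⟨algebraMap K F a * f, h⟩ ≠ 0)
    (Pinf : Place K F) (Qinf : Place k Fk) (g n₀ : ℕ)
    (H : Hyp (redDataOfVal A res O red hres hmem hred0 hredalg hprim) Pinf Qinf g n₀) :
    ∃ r : Place K F → Place k Fk,
      (PRData.mk res O red r : PRData K F k Fk A).IsPR ∧
      (PRData.mk res O red r : PRData K F k Fk A).Semicont ∧
      (PRData.mk res O red r : PRData K F k Fk A).Orth ∧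
      GPRiemannUpper k Fk g ∧ GPRiemannLower k Fk g := by
  refine ⟨H.r, ?_, ?_, ?_, ?_, ?_⟩
  · exact
      { res_surjective := hres
        res_eq_zero_iff := hres0
        algebraMap_mem_iff := hmem
        red_surjective := hredsurj
        red_eq_zero_iff := hred0
        red_algebraMap := hredalg
        prim := hprim
        r_div := fun u hu D hD Q => H.mapDomain_r_principal u hu D hD Q }
  · intro D
    exact H.finrank_rr_le_mapDomain D
  · intro D
    exact H.exists_orth D
  · exact ⟨(n₀ : ℤ) + g, fun 𝔟 h𝔟 => H.riemann_upper_res 𝔟 h𝔟⟩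
  · exact fun 𝔟 => H.riemann_lower_res 𝔟

end Fermat.Agent.DEU


end ZBW1_002_4

/-! ### bundled: `Fermat.Agent.DEU.Val` -/
section ZBW1_002_5

/-!
# DEU / ModPR, piece MPR-val: the Gauss valuation ring of `F_N` at `A`

`A ⊂ ℚ̄` a valuation ring, `k = kA A` its residue field, `F = FF N`, `F̄ = modularFunctionFieldFullC k N`.

* abstract (`R : RedData K F k Fb`): `deuVal_mem_or_inv_mem`, `RedData.valO : ValuationSubring F`
  (carrier `R.O`), `deuVal_red_eq_zero_iff`, `deuVal_res_eq_zero_iff`, `deuVal_algebraMap_mem_iff`;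
* concrete: `deuValO N A : ValuationSubring (FF N)` with `(deuValO N A).toSubring = deuInstO N A`
  (`rfl`), `deuValRed N A hRedF : deuValO N A →+* F̄` (`= deuInstRed`), and the hypotheses of
  `DEU.exists_isPR` / fields of `W1.PRData.IsPR`:
  `deuVal_res_surjective`, `deuVal_res_eq_zero_iff'`, `deuVal_algebraMap_mem_iff'`,
  `deuVal_red_surjective`, `deuVal_red_eq_zero_iff'`, `deuVal_red_algebraMap`, `deuVal_prim`,
  and `deuVal_redDataOfVal_eq : redDataOfVal … = deuInst_redData N A hRedF`.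
-/

set_option autoImplicit false
set_option synthInstance.maxHeartbeats 400000
set_option maxHeartbeats 1000000

noncomputable section

namespace Fermat.Agent.DEU

open ModularCurve AlgebraicCurve HahnSeries Fermat.Agent.ES Fermat.Agent.S24 Fermat.Agent.ES.M
  Fermat.Agent.INJ

/-! ## Abstract part -/

section Abstract

variable {K F k Fb : Type*} [Field K] [Field F] [Algebra K F] [Field k] [Field Fb] [Algebra k Fb]
  (R : RedData K F k Fb)

/-- `O` is a valuation ring of `F`. -/
theorem deuVal_mem_or_inv_mem (x : F) : x ∈ R.O ∨ x⁻¹ ∈ R.O := by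
  rcases eq_or_ne x 0 with rfl | hx
  · exact Or.inl R.O.zero_mem
  obtain ⟨c, hc, h, hred⟩ := R.exists_scale x hx
  rcases R.A.mem_or_inv_mem c with hcA | hcA
  · -- `x⁻¹ = c · (c x)⁻¹`
    right
    have h1 : (algebraMap K F c * x)⁻¹ ∈ R.O := R.inv_mem ⟨_, h⟩ hred
    have h2 : algebraMap K F c ∈ R.O := R.algebraMap_mem ⟨c, hcA⟩
    have h3 : x⁻¹ = algebraMap K F c * (algebraMap K F c * x)⁻¹ := by
      have hc' : algebraMap K F c ≠ 0 := by
        intro h0
        exact hc ((map_eq_zero (algebraMap K F)).mp h0)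
      rw [mul_inv, ← mul_assoc, mul_inv_cancel₀ hc', one_mul]
    rw [h3]
    exact R.O.mul_mem h2 h1
  · -- `x = c⁻¹ · (c x)`
    left
    have h2 : algebraMap K F c⁻¹ ∈ R.O := R.algebraMap_mem ⟨c⁻¹, hcA⟩
    have h3 : x = algebraMap K F c⁻¹ * (algebraMap K F c * x) := by
      rw [← mul_assoc, ← map_mul, inv_mul_cancel₀ hc, map_one, one_mul]
    rw [h3]
    exact R.O.mul_mem h2 h

/-- the Gauss valuation ring of a constant reduction -/
def RedData.valO : ValuationSubring F :=
  { R.O with mem_or_inv_mem' := deuVal_mem_or_inv_mem R }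

@[simp] theorem RedData.valO_toSubring : R.valO.toSubring = R.O := rfl

theorem RedData.mem_valO {x : F} : x ∈ R.valO ↔ x ∈ R.O := Iff.rfl

/-- an element of `O` is a unit of `O` iff its reduction is nonzero -/
theorem deuVal_isUnit_iff (x : R.O) : IsUnit x ↔ R.red x ≠ 0 := by
  constructor
  · intro hu h0
    obtain ⟨y, hy⟩ := hu.exists_right_inv
    have := congrArg R.red hy
    rw [map_mul, h0, zero_mul, map_one] at this
    exact zero_ne_one this
  · intro h
    exact IsUnit.of_mul_eq_one _ (R.mul_inv_cancel x h)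

/-- the kernel of the reduction is the set of non-units of the valuation ring -/
theorem deuVal_red_eq_zero_iff (x : R.O) : R.red x = 0 ↔ (x : F) ∈ R.valO.nonunits := by
  have hx : (x : F) ∈ R.valO := x.2
  constructor
  · intro h0
    rw [ValuationSubring.mem_nonunits_iff_exists_mem_maximalIdeal]
    refine ⟨hx, ?_⟩
    rw [IsLocalRing.mem_maximalIdeal, mem_nonunits_iff]
    intro hu
    have hu' : IsUnit x := hu
    exact (deuVal_isUnit_iff R x).mp hu' h0
  · intro hn
    by_contra h0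
    rw [ValuationSubring.mem_nonunits_iff_exists_mem_maximalIdeal] at hn
    obtain ⟨hx', hm⟩ := hn
    rw [IsLocalRing.mem_maximalIdeal, mem_nonunits_iff] at hm
    apply hm
    have hu : IsUnit x := (deuVal_isUnit_iff R x).mpr h0
    exact hu

/-- the kernel of the residue map on constants is the set of non-units of `A` -/
theorem deuVal_res_eq_zero_iff (a : R.A) : R.res a = 0 ↔ (a : K) ∈ R.A.nonunits := by
  rw [ValuationSubring.coe_mem_nonunits_iff, IsLocalRing.mem_maximalIdeal, mem_nonunits_iff]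
  constructor
  · intro h0 hu
    obtain ⟨b, hb⟩ := hu.exists_right_inv
    have := congrArg R.res hb
    rw [map_mul, h0, zero_mul, map_one] at this
    exact zero_ne_one this
  · intro hnu
    by_contra h0
    apply hnu
    obtain ⟨b, hb⟩ := R.res_surjective (R.res a)⁻¹
    -- `a b - 1` is in the kernel of `res`, hence a non-unit; `A` is local
    have h1 : R.res (a * b) = 1 := by rw [map_mul, hb, mul_inv_cancel₀ h0]
    have h2 : IsUnit (a * b) := by
      by_contra hnu'
      have h3 : IsUnit (1 - a * b) := by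
        rcases IsLocalRing.isUnit_or_isUnit_one_sub_self (a * b) with h | h
        · exact absurd h hnu'
        · exact h
      obtain ⟨c, hc⟩ := h3.exists_right_inv
      have := congrArg R.res hc
      rw [map_mul, map_sub, map_one, h1, sub_self, zero_mul] at this
      exact zero_ne_one this
    exact isUnit_of_mul_isUnit_left h2

/-- a constant lies in `O` iff it lies in `A` -/
theorem deuVal_algebraMap_mem_iff (a : K) : algebraMap K F a ∈ R.O ↔ a ∈ R.A := by
  constructor
  · intro h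
    by_contra haA
    have ha0 : a ≠ 0 := fun h0 => haA (h0 ▸ R.A.zero_mem)
    have hinv : a⁻¹ ∈ R.A := (R.A.mem_or_inv_mem a).resolve_left haA
    -- `a⁻¹` is a non-unit of `A`
    have hnu : (a⁻¹ : K) ∈ R.A.nonunits := by
      rw [ValuationSubring.mem_nonunits_iff_exists_mem_maximalIdeal]
      refine ⟨hinv, ?_⟩
      rw [IsLocalRing.mem_maximalIdeal, mem_nonunits_iff]
      intro hu
      obtain ⟨b, hb⟩ := hu.exists_right_inv
      have hb' : a⁻¹ * (b : K) = 1 := by
        have := congrArg Subtype.val hb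
        simpa using this
      have hba : (b : K) = a := by
        have h1 : a * (a⁻¹ * (b : K)) = a * 1 := by rw [hb']
        rw [← mul_assoc, mul_inv_cancel₀ ha0, one_mul, mul_one] at h1
        exact h1
      exact haA (hba ▸ b.2)
    have hres : R.res ⟨a⁻¹, hinv⟩ = 0 := (deuVal_res_eq_zero_iff R ⟨a⁻¹, hinv⟩).mpr hnu
    have h1 : (⟨algebraMap K F a, h⟩ : R.O) * R.const ⟨a⁻¹, hinv⟩ = 1 := by
      apply Subtype.ext
      rw [Subring.coe_mul, RedData.coe_const, Subring.coe_one]
      show algebraMap K F a * algebraMap K F a⁻¹ = 1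
      rw [← map_mul, mul_inv_cancel₀ ha0, map_one]
    have := congrArg R.red h1
    rw [map_mul, RedData.red_const, hres, map_zero, mul_zero, map_one] at this
    exact zero_ne_one this
  · intro h
    exact R.algebraMap_mem ⟨a, h⟩

end Abstract

/-! ## The concrete Gauss valuation ring of `F_N` -/

section Concrete

variable (N : ℕ) [NeZero N] (A : ValuationSubring Kb)

/-- `deuInstO N A` is a valuation ring of `F_N` (no good-reduction hypothesis). -/
theorem deuVal_mem_or_inv_mem' (x : FF N) : x ∈ deuInstO N A ∨ x⁻¹ ∈ deuInstO N A := by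
  rcases eq_or_ne x 0 with rfl | hx
  · exact Or.inl (deuInstO N A).zero_mem
  obtain ⟨c, hc, w, hw0, hw⟩ := deuInst_exists_scale N A x hx
  have hc' : algebraMap Kb (FF N) c ≠ 0 := by
    intro h0
    exact hc ((map_eq_zero (algebraMap Kb (FF N))).mp h0)
  rcases A.mem_or_inv_mem c with hcA | hcA
  · right
    have h1 : (algebraMap Kb (FF N) c * x)⁻¹ ∈ deuInstO N A :=
      ⟨_, deuInst_gaussRed_inv N A hw hw0⟩
    have h2 : algebraMap Kb (FF N) c ∈ deuInstO N A :=
      ⟨_, deuInst_gaussRed_const N A ⟨c, hcA⟩⟩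
    have h3 : x⁻¹ = algebraMap Kb (FF N) c * (algebraMap Kb (FF N) c * x)⁻¹ := by
      rw [mul_inv, ← mul_assoc, mul_inv_cancel₀ hc', one_mul]
    rw [h3]
    exact (deuInstO N A).mul_mem h2 h1
  · left
    have h2 : algebraMap Kb (FF N) c⁻¹ ∈ deuInstO N A :=
      ⟨_, deuInst_gaussRed_const N A ⟨c⁻¹, hcA⟩⟩
    have h3 : x = algebraMap Kb (FF N) c⁻¹ * (algebraMap Kb (FF N) c * x) := by
      rw [← mul_assoc, ← map_mul, inv_mul_cancel₀ hc, map_one, one_mul]
    rw [h3]
    exact (deuInstO N A).mul_mem h2 ⟨w, hw⟩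

/-- **the Gauss valuation ring of `F_N` at `A`** -/
def deuValO : ValuationSubring (FF N) :=
  { deuInstO N A with mem_or_inv_mem' := deuVal_mem_or_inv_mem' N A }

@[simp] theorem deuValO_toSubring : (deuValO N A).toSubring = deuInstO N A := rfl

theorem mem_deuValO {x : FF N} : x ∈ deuValO N A ↔ GaussInt N A x := Iff.rfl

theorem mem_deuValO_iff_mem_deuInstO {x : FF N} : x ∈ deuValO N A ↔ x ∈ deuInstO N A := Iff.rfl

/-- **the reduction map on the Gauss valuation ring** (`= deuInstRed`) -/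
def deuValRed (hRedF : StmtRedF N A) :
    ↥(deuValO N A) →+* ↥(modularFunctionFieldFullC (kA A) N) :=
  deuInstRed N A hRedF

theorem deuValRed_apply (hRedF : StmtRedF N A) (x : FF N) (h : x ∈ deuValO N A) :
    deuValRed N A hRedF ⟨x, h⟩ = deuInstRed N A hRedF ⟨x, h⟩ := rfl

/-- `GaussRed` is the graph of `deuValRed` -/
theorem deuValRed_iff (hRedF : StmtRedF N A) (x : FF N) (w : LaurentSeries (kA A)) :
    GaussRed N A x w ↔ ∃ h : x ∈ deuValO N A,
      ((deuValRed N A hRedF ⟨x, h⟩ : ↥(modularFunctionFieldFullC (kA A) N)) :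
        LaurentSeries (kA A)) = w :=
  deuInstRed_iff N A hRedF x w

/-! ### Surjectivity of the reduction -/

omit [NeZero N] in
/-- the generators `j(q^d)`, `d ∣ N`, of `F̄` are reductions -/
theorem deuVal_gaussRed_gen {d : ℕ} [NeZero d] (hd : d ∣ N) :
    GaussRed N A ⟨qExpand Kb d (jqModC Kb), nf_fullC_le_bar N (jqModCd_mem_full Kb N hd)⟩
      (qExpand (kA A) d (jqModC (kA A))) := by
  have hI : kronIncl A (jqNModC A d) = qExpand Kb d (jqModC Kb) := coeffMap_jqNModC A.subtype d
  have hR : kronRed A (jqNModC A d) = qExpand (kA A) d (jqModC (kA A)) :=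
    coeffMap_jqNModC (IsLocalRing.residue A) d
  refine ⟨jqNModC A d, 1, ?_, ?_, ?_, ?_, ?_⟩
  · rw [hI]
    exact nf_fullC_le_bar N (jqModCd_mem_full Kb N hd)
  · rw [map_one]; exact one_mem _
  · rw [map_one]; exact one_ne_zero
  · rw [map_one, mul_one, hI]
  · rw [map_one, mul_one, hR]

omit [NeZero N] in
/-- every element of `F̄` is the reduction of an element of `F` -/
theorem deuVal_exists_gaussRed (w : LaurentSeries (kA A))
    (hw : w ∈ modularFunctionFieldFullC (kA A) N) : ∃ x : FF N, GaussRed N A x w := by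
  unfold modularFunctionFieldFullC at hw
  induction hw using IntermediateField.adjoin_induction with
  | mem w hw =>
    obtain ⟨d, hd0, hdN, rfl⟩ := hw
    exact ⟨_, deuVal_gaussRed_gen N A hdN⟩
  | algebraMap c =>
    obtain ⟨a, rfl⟩ := IsLocalRing.residue_surjective c
    refine ⟨algebraMap Kb (FF N) (a : Kb), ?_⟩
    rw [algebraMap_eq_hahnC]
    exact deuInst_gaussRed_const N A a
  | add x y _ _ hx hy =>
    obtain ⟨x', hx'⟩ := hx
    obtain ⟨y', hy'⟩ := hy
    exact ⟨x' + y', deuInst_gaussRed_add N A hx' hy'⟩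
  | inv x _ hx =>
    obtain ⟨x', hx'⟩ := hx
    rcases eq_or_ne x 0 with rfl | hx0
    · rw [inv_zero]
      exact ⟨0, deuInst_gaussRed_zero N A⟩
    · exact ⟨x'⁻¹, deuInst_gaussRed_inv N A hx' hx0⟩
  | mul x y _ _ hx hy =>
    obtain ⟨x', hx'⟩ := hx
    obtain ⟨y', hy'⟩ := hy
    exact ⟨x' * y', deuInst_gaussRed_mul N A hx' hy'⟩

omit [NeZero N] in
/-- **`red` is surjective onto `F̄`.** -/
theorem deuInstRed_surjective (hRedF : StmtRedF N A) :
    Function.Surjective (deuInstRed N A hRedF) := by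
  intro w
  obtain ⟨x, hx⟩ := deuVal_exists_gaussRed N A (w : LaurentSeries (kA A)) w.2
  refine ⟨⟨x, ⟨_, hx⟩⟩, ?_⟩
  apply Subtype.ext
  rw [deuInstRed_coe]
  exact deuInstRedFun_eq N A hx

/-! ### The hypotheses of `DEU.exists_isPR` -/

omit [NeZero N] in
/-- `hres` -/
theorem deuVal_res_surjective : Function.Surjective (IsLocalRing.residue A) :=
  IsLocalRing.residue_surjective

omit [NeZero N] in
/-- `hres0` -/
theorem deuVal_res_eq_zero_iff' (a : A) :
    IsLocalRing.residue A a = 0 ↔ (a : Kb) ∈ A.nonunits := by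
  rw [ValuationSubring.coe_mem_nonunits_iff, IsLocalRing.residue_eq_zero_iff]

/-- `hmem` -/
theorem deuVal_algebraMap_mem_iff' (hRedF : StmtRedF N A) (a : Kb) :
    algebraMap Kb (FF N) a ∈ deuValO N A ↔ a ∈ A :=
  deuVal_algebraMap_mem_iff (deuInst_redData N A hRedF) a

/-- `hredsurj` -/
theorem deuVal_red_surjective (hRedF : StmtRedF N A) :
    Function.Surjective (deuValRed N A hRedF) :=
  deuInstRed_surjective N A hRedF

/-- `hred0` -/
theorem deuVal_red_eq_zero_iff' (hRedF : StmtRedF N A) (x : deuValO N A) :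
    deuValRed N A hRedF x = 0 ↔ (x : FF N) ∈ (deuValO N A).nonunits :=
  deuVal_red_eq_zero_iff (deuInst_redData N A hRedF) x

/-- `hredalg` -/
theorem deuVal_red_algebraMap (hRedF : StmtRedF N A) (a : A)
    (h : algebraMap Kb (FF N) (a : Kb) ∈ deuValO N A) :
    deuValRed N A hRedF ⟨algebraMap Kb (FF N) (a : Kb), h⟩
      = algebraMap (kA A) ↥(modularFunctionFieldFullC (kA A) N) (IsLocalRing.residue A a) :=
  (deuInst_redData N A hRedF).red_algebraMap a

/-- `hprim` -/
theorem deuVal_prim (hRedF : StmtRedF N A) (f : FF N) (hf : f ≠ 0) :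
    ∃ a : Kb, a ≠ 0 ∧ ∃ h : algebraMap Kb (FF N) a * f ∈ deuValO N A,
      deuValRed N A hRedF ⟨algebraMap Kb (FF N) a * f, h⟩ ≠ 0 :=
  (deuInst_redData N A hRedF).exists_scale f hf

/-- the `RedData` of the Gauss valuation ring is `deuInst_redData` -/
theorem deuVal_redDataOfVal_eq (hRedF : StmtRedF N A) :
    redDataOfVal A (IsLocalRing.residue A) (deuValO N A) (deuValRed N A hRedF)
        (deuVal_res_surjective A) (deuVal_algebraMap_mem_iff' N A hRedF)
        (deuVal_red_eq_zero_iff' N A hRedF) (deuVal_red_algebraMap N A hRedF)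
        (deuVal_prim N A hRedF)
      = deuInst_redData N A hRedF := rfl

end Concrete

end Fermat.Agent.DEU

end
end ZBW1_002_5

/-! ### bundled: `Fermat.Agent.W1.ModPRNice` -/
section ZBW1_002_6

/-!
# GEO-PR / `ModPR`: `IsNiceCurve` in characteristic `0`

* `nice_semicont` : orthonormal bases (`PRData.Orth`) give `dim_K L(D) ≤ dim_k L̄(r_* D)`;
* `nice_degree_mapDomain` : `deg (r_* D) = deg D` when all places are rational;
* `nice_upper` : Riemann's upper bound passes from the reduction `F̄ / k` to `F / K`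
  (`dim_K L(D) ≤ dim_k L̄(r_* D) ≤ deg D + 1 - g` for `deg D ≥ c`);
* `nice_FF` : `IsNiceCurve ℚ̄ (FF N) (gN N)` from a reduction package with orthonormal bases whose
  reduction satisfies Riemann's upper bound with the same genus.
-/

set_option autoImplicit false

open AlgebraicCurve Module ModularCurve

namespace Fermat.Agent.W1

open Fermat.Agent.ES.R Fermat.Agent.S24

section Abstract

variable {K F k Fk : Type} [Field K] [Field F] [Algebra K F] [Field k] [Field Fk] [Algebra k Fk]
variable {A : ValuationSubring K}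

/-- semicontinuity from orthonormal bases -/
theorem nice_semicont {R : PRData K F k Fk A} [HasPrincipalDivisors k Fk]
    (hresk : ∀ v : Place k Fk, Function.Bijective (algebraMap k v.ResidueField))
    (w₀ : Place k Fk) (hOrth : R.Orth) (D : Divisor K F) :
    finrank K ↥(riemannRochSpace D)
      ≤ finrank k ↥(riemannRochSpace (Finsupp.mapDomain R.r D)) := by
  obtain ⟨n, e, he, hspan, hli, hmem⟩ := hOrth D
  have := rr_finite w₀ hresk (Finsupp.mapDomain R.r D)
  have h1 : finrank K ↥(riemannRochSpace D) ≤ n := by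
    rw [← hspan]
    have := finrank_range_le_card (R := K) e
    simpa [Set.finrank] using this
  have h2 : n ≤ finrank k ↥(riemannRochSpace (Finsupp.mapDomain R.r D)) := by
    have hli' : LinearIndependent k (fun i =>
        (⟨R.red ⟨e i, he i⟩, hmem i⟩ : ↥(riemannRochSpace (Finsupp.mapDomain R.r D)))) := by
      apply LinearIndependent.of_comp (Submodule.subtype _)
      exact hli
    have := hli'.fintype_card_le_finrank
    simpa using this
  exact h1.trans h2

theorem nice_degree_mapDomain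
    (hres : ∀ v : Place K F, Function.Bijective (algebraMap K v.ResidueField))
    (hresk : ∀ v : Place k Fk, Function.Bijective (algebraMap k v.ResidueField))
    (r : Place K F → Place k Fk) (D : Divisor K F) :
    Divisor.degree (Finsupp.mapDomain r D) = Divisor.degree D := by
  have h : (Divisor.degree (K := k) (F := Fk)).comp (Finsupp.mapDomain.addMonoidHom r)
      = Divisor.degree (K := K) (F := F) := by
    refine Finsupp.addHom_ext fun P n => ?_
    simp [Divisor.degree_single, place_deg_eq_one _ (hres P), place_deg_eq_one _ (hresk (r P))]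
  exact DFunLike.congr_fun h D

/-- Riemann's upper bound passes from the reduction to characteristic `0`. -/
theorem nice_upper {R : PRData K F k Fk A} [HasPrincipalDivisors k Fk]
    (hres : ∀ v : Place K F, Function.Bijective (algebraMap K v.ResidueField))
    (hresk : ∀ v : Place k Fk, Function.Bijective (algebraMap k v.ResidueField))
    (w₀ : Place k Fk) (hOrth : R.Orth) {g : ℕ} (hup : GPRiemannUpper k Fk g) :
    GPRiemannUpper K F g := by
  obtain ⟨c, hc⟩ := hup
  refine ⟨c, fun D hD => ?_⟩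
  have hdeg := nice_degree_mapDomain hres hresk R.r D
  have h1 := hc (Finsupp.mapDomain R.r D) (by rw [hdeg]; exact hD)
  rw [hdeg] at h1
  have h2 := nice_semicont hresk w₀ hOrth D
  have h3 : (finrank K ↥(riemannRochSpace D) : ℤ)
      ≤ (finrank k ↥(riemannRochSpace (Finsupp.mapDomain R.r D)) : ℤ) := by exact_mod_cast h2
  exact h3.trans h1

end Abstract

section Concrete

variable (N : ℕ) [NeZero N] {k Fk : Type} [Field k] [Field Fk] [Algebra k Fk]
variable {A : ValuationSubring Kb}

/-- **`nice` in characteristic `0`.** -/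
theorem nice_FF (R : PRData Kb (FF N) k Fk A) [HasPrincipalDivisors k Fk]
    (hresk : ∀ v : Place k Fk, Function.Bijective (algebraMap k v.ResidueField))
    (w₀ : Place k Fk) (hOrth : R.Orth)
    (hup : GPRiemannUpper k Fk (Fermat.Agent.ES.M.gN N)) :
    IsNiceCurve Kb (FF N) (Fermat.Agent.ES.M.gN N) where
  hres := Fermat.Agent.ES.H.residue_bijective_FF N
  hpd := Fermat.Agent.ES.H.hasPrincipalDivisors_FF N
  upper := nice_upper (Fermat.Agent.ES.H.residue_bijective_FF N) hresk w₀ hOrth hup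
  lower := Fermat.Agent.ES.R.stmtR N
  infinite := Fermat.Agent.DEU.deuInf_infinite_FF N

end Concrete

end Fermat.Agent.W1


end ZBW1_002_6

/-! ### bundled: `Fermat.Agent.W1.GeoC1` -/
section ZBW1_002_7

/-!
# W1-geo, piece GEO-C1: the kernel of reduction in the coordinates of a chart

`stmtC1 : StmtC1` — every class of the kernel of reduction is `[Σ P i - Σ Q i]` for exactly one
tuple of places `P i` in the discs of the chart; `stmtC1Conv : StmtC1Conv` — the converse.

Proof of (C1).  `x = [D]`, `r_* D` principal.  Riemann: `L(D + D₀) ≠ 0`, `D₀ = Σ Q i`; so there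
is `E ≥ 0`, `E = D + D₀ + div f`.  `r_* E ≥ 0` is linearly equivalent to `D̄₀ = Σ Q̄ i`, and
`L̄(D̄₀) = k` (non-special chart), hence `r_* E = D̄₀`; as the `Q̄ i` are distinct, `E = Σ P i` with
`r (P i) = Q̄ i`.  Uniqueness: `dim L(E) ≤ dim L̄(r_* E) = 1` (orthonormal bases).
-/

set_option autoImplicit false

open AlgebraicCurve Module

namespace Fermat.Agent.W1

open Fermat.Agent.ES.R Fermat.Agent.S24

/-! ### Finitely supported functions -/

section Finsupp

variable {α β : Type*}

theorem c1_mapDomain_nonneg (r : α → β) {D : α →₀ ℤ} (hD : 0 ≤ D) :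
    0 ≤ Finsupp.mapDomain r D := by
  classical
  rw [Finsupp.mapDomain]
  refine Finsupp.sum_nonneg fun a _ => ?_
  rw [Finsupp.le_def]
  intro b
  have h0 : 0 ≤ D a := by simpa using Finsupp.le_def.mp hD a
  rw [Finsupp.single_apply]
  split_ifs <;> simp [h0]

theorem c1_le_mapDomain (r : α → β) {D : α →₀ ℤ} (hD : 0 ≤ D) (P : α) :
    D P ≤ Finsupp.mapDomain r D (r P) := by
  classical
  have h1 : 0 ≤ D - Finsupp.single P (D P) := by
    rw [Finsupp.le_def]
    intro v
    have h0 : 0 ≤ D v := by simpa using Finsupp.le_def.mp hD v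
    rw [Finsupp.sub_apply, Finsupp.single_apply]
    split_ifs with h
    · subst h; simp
    · simpa using h0
  have h2 := Finsupp.le_def.mp (c1_mapDomain_nonneg r h1) (r P)
  have h3 : Finsupp.mapDomain r (D - Finsupp.single P (D P))
      = Finsupp.mapDomain r D - Finsupp.single (r P) (D P) := by
    rw [← Finsupp.mapDomain_single, ← Finsupp.mapDomain.addMonoidHom_apply,
      ← Finsupp.mapDomain.addMonoidHom_apply, ← Finsupp.mapDomain.addMonoidHom_apply, map_sub]
  rw [h3, Finsupp.sub_apply, Finsupp.single_eq_same] at h2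
  simpa using h2

theorem c1_eq_zero_of_mapDomain_eq_zero (r : α → β) {D : α →₀ ℤ} (hD : 0 ≤ D)
    (h : Finsupp.mapDomain r D = 0) : D = 0 := by
  ext P
  have h1 := c1_le_mapDomain r hD P
  rw [h] at h1
  have h0 : 0 ≤ D P := by simpa using Finsupp.le_def.mp hD P
  simp only [Finsupp.coe_zero, Pi.zero_apply] at h1 ⊢
  omega

theorem c1_mapDomain_sub (r : α → β) (D E : α →₀ ℤ) :
    Finsupp.mapDomain r (D - E) = Finsupp.mapDomain r D - Finsupp.mapDomain r E := by
  rw [← Finsupp.mapDomain.addMonoidHom_apply, ← Finsupp.mapDomain.addMonoidHom_apply,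
    ← Finsupp.mapDomain.addMonoidHom_apply, map_sub]

theorem c1_mapDomain_sum_single {ι : Type*} (s : Finset ι) (r : α → β) (P : ι → α) :
    Finsupp.mapDomain r (∑ i ∈ s, Finsupp.single (P i) (1 : ℤ))
      = ∑ i ∈ s, Finsupp.single (r (P i)) (1 : ℤ) := by
  rw [Finsupp.mapDomain_finsetSum]
  simp only [Finsupp.mapDomain_single]

/-- value of `Σ_i [P i]` for an injective family -/
theorem c1_sum_single_apply {ι : Type*} [Fintype ι] {P : ι → α} (hP : Function.Injective P)
    (i : ι) : (∑ j, Finsupp.single (P j) (1 : ℤ)) (P i) = 1 := by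
  classical
  rw [Finsupp.finsetSum_apply]
  rw [Finset.sum_eq_single i]
  · simp
  · intro j _ hj
    rw [Finsupp.single_apply, if_neg]
    exact fun h => hj (hP h)
  · intro h; exact absurd (Finset.mem_univ i) h

theorem c1_sum_single_apply_of_not_mem {ι : Type*} [Fintype ι] {P : ι → α} {v : α}
    (hv : ∀ i, P i ≠ v) : (∑ j, Finsupp.single (P j) (1 : ℤ)) v = 0 := by
  classical
  rw [Finsupp.finsetSum_apply]
  refine Finset.sum_eq_zero fun j _ => ?_
  rw [Finsupp.single_apply, if_neg (hv j)]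

theorem c1_sum_single_nonneg {ι : Type*} [Fintype ι] (P : ι → α) :
    0 ≤ ∑ j, Finsupp.single (P j) (1 : ℤ) := by
  classical
  refine Finset.sum_nonneg fun j _ => ?_
  rw [Finsupp.le_def]
  intro b
  rw [Finsupp.single_apply]
  split_ifs <;> simp

/-- an effective divisor whose image is `Σ [Q̄ i]`, the `Q̄ i` distinct, is `Σ [P i]` with
`r (P i) = Q̄ i`. -/
theorem c1_exists_lift_sum {ι : Type*} [Fintype ι] (r : α → β) {E : α →₀ ℤ} (hE : 0 ≤ E)
    {Qb : ι → β} (hQ : Function.Injective Qb)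
    (h : Finsupp.mapDomain r E = ∑ i, Finsupp.single (Qb i) (1 : ℤ)) :
    ∃ P : ι → α, (∀ i, r (P i) = Qb i) ∧ E = ∑ i, Finsupp.single (P i) (1 : ℤ) := by
  classical
  have h1 : ∀ i, ∃ P : α, P ∈ E.support ∧ r P = Qb i := by
    intro i
    have hi : Qb i ∈ (Finsupp.mapDomain r E).support := by
      rw [Finsupp.mem_support_iff, h, c1_sum_single_apply hQ i]
      exact one_ne_zero
    have := Finsupp.mapDomain_support hi
    rw [Finset.mem_image] at this
    obtain ⟨P, hP, hPQ⟩ := this
    exact ⟨P, hP, hPQ⟩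
  choose P hPs hPr using h1
  have hPinj : Function.Injective P := by
    intro i j hij
    apply hQ
    rw [← hPr i, ← hPr j, hij]
  refine ⟨P, hPr, ?_⟩
  have hE' : 0 ≤ E - ∑ i, Finsupp.single (P i) (1 : ℤ) := by
    rw [Finsupp.le_def]
    intro v
    have h0 : 0 ≤ E v := by simpa using Finsupp.le_def.mp hE v
    rw [Finsupp.sub_apply]
    by_cases hv : ∃ i, P i = v
    · obtain ⟨i, rfl⟩ := hv
      rw [c1_sum_single_apply hPinj i]
      have hne : E (P i) ≠ 0 := Finsupp.mem_support_iff.mp (hPs i)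
      simp only [Finsupp.coe_zero, Pi.zero_apply]
      omega
    · simp only [not_exists] at hv
      rw [c1_sum_single_apply_of_not_mem hv]
      simpa using h0
  have hz : Finsupp.mapDomain r (E - ∑ i, Finsupp.single (P i) (1 : ℤ)) = 0 := by
    rw [c1_mapDomain_sub, h, c1_mapDomain_sum_single]
    simp only [hPr, sub_self]
  have := c1_eq_zero_of_mapDomain_eq_zero r hE' hz
  exact sub_eq_zero.mp this

end Finsupp

/-! ### Reduction of divisors -/

section Geo

variable {K F k Fk : Type} [Field K] [Field F] [Algebra K F] [Field k] [Field Fk] [Algebra k Fk]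
variable {A : ValuationSubring K}

theorem c1_degree_mapDomain
    (hres : ∀ v : Place K F, Function.Bijective (algebraMap K v.ResidueField))
    (hresk : ∀ v : Place k Fk, Function.Bijective (algebraMap k v.ResidueField))
    (r : Place K F → Place k Fk) (D : Divisor K F) :
    Divisor.degree (Finsupp.mapDomain r D) = Divisor.degree D := by
  have h : (Divisor.degree (K := k) (F := Fk)).comp (Finsupp.mapDomain.addMonoidHom r)
      = Divisor.degree (K := K) (F := F) := by
    refine Finsupp.addHom_ext fun P n => ?_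
    simp [Divisor.degree_single, place_deg_eq_one _ (hres P), place_deg_eq_one _ (hresk (r P))]
  exact DFunLike.congr_fun h D

theorem c1_degree_sum_single
    (hres : ∀ v : Place K F, Function.Bijective (algebraMap K v.ResidueField))
    {g : ℕ} (P : Fin g → Place K F) :
    Divisor.degree (∑ i, Finsupp.single (P i) (1 : ℤ)) = g := by
  rw [map_sum]
  simp [Divisor.degree_single, place_deg_eq_one _ (hres _)]

/-- the reduction of a principal divisor is principal -/
theorem c1_mapDomain_principal {R : PRData K F k Fk A} (hPR : R.IsPR) {D : Divisor K F}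
    (hD : D ∈ Divisor.principal (K := K) (F := F)) :
    Finsupp.mapDomain R.r D ∈ Divisor.principal (K := k) (F := Fk) := by
  obtain ⟨f, hf, hDf⟩ := hD
  obtain ⟨a, ha, h, hred⟩ := hPR.prim f hf
  have ha' : algebraMap K F a ≠ 0 := by simpa using ha
  have hu : ∀ P : Place K F, D P = P.ord ((⟨algebraMap K F a * f, h⟩ : R.O) : F) := by
    intro P
    show D P = P.ord (algebraMap K F a * f)
    rw [P.ord_mul ha' hf, PlaceAux.ord_algebraMap, zero_add, hDf P]
  exact ⟨R.red ⟨algebraMap K F a * f, h⟩, hred, hPR.r_div _ hred D hu⟩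

/-- semicontinuity from orthonormal bases -/
theorem c1_semicont {R : PRData K F k Fk A} {g : ℕ} (hFk : IsNiceCurve k Fk g)
    (hOrth : R.Orth) (D : Divisor K F) :
    finrank K ↥(riemannRochSpace D)
      ≤ finrank k ↥(riemannRochSpace (Finsupp.mapDomain R.r D)) := by
  obtain ⟨n, e, he, hspan, hli, hmem⟩ := hOrth D
  obtain ⟨v₀, -⟩ := hFk.infinite.nonempty
  have := hFk.hpd
  have := rr_finite v₀ hFk.hres (Finsupp.mapDomain R.r D)
  have h1 : finrank K ↥(riemannRochSpace D) ≤ n := by
    rw [← hspan]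
    have := finrank_range_le_card (R := K) e
    simpa [Set.finrank] using this
  have h2 : n ≤ finrank k ↥(riemannRochSpace (Finsupp.mapDomain R.r D)) := by
    have hli' : LinearIndependent k (fun i =>
        (⟨R.red ⟨e i, he i⟩, hmem i⟩ : ↥(riemannRochSpace (Finsupp.mapDomain R.r D)))) := by
      apply LinearIndependent.of_comp (Submodule.subtype _)
      exact hli
    have := hli'.fintype_card_le_finrank
    simpa using this
  exact h1.trans h2

/-- if `dim L(E) ≤ 1`, `E ≥ 0`, then `L(E)` consists of constants -/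
theorem c1_const_of_finrank_le_one [HasPrincipalDivisors K F]
    (hres : ∀ v : Place K F, Function.Bijective (algebraMap K v.ResidueField))
    (v₀ : Place K F) {E : Divisor K F} (hE : 0 ≤ E)
    (h1 : finrank K ↥(riemannRochSpace E) ≤ 1) {f : F} (hf : f ∈ riemannRochSpace E) :
    ∃ c : K, f = algebraMap K F c := by
  have := rr_finite v₀ hres E
  rw [finrank_le_one_iff] at h1
  obtain ⟨w, hw⟩ := h1
  obtain ⟨c₁, hc₁⟩ := hw ⟨1, gp_one_mem_rr hE⟩
  obtain ⟨c₂, hc₂⟩ := hw ⟨f, hf⟩
  have hc₁0 : c₁ ≠ 0 := by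
    rintro rfl
    rw [zero_smul] at hc₁
    exact one_ne_zero (congrArg Subtype.val hc₁).symm
  refine ⟨c₂ / c₁, ?_⟩
  have e1 : (1 : F) = c₁ • (w : F) := (congrArg Subtype.val hc₁).symm
  have e2 : f = c₂ • (w : F) := (congrArg Subtype.val hc₂).symm
  have e3 : (w : F) = c₁⁻¹ • (1 : F) := by
    rw [e1, smul_smul, inv_mul_cancel₀ hc₁0, one_smul]
  rw [e2, e3, smul_smul, Algebra.algebraMap_eq_smul_one, div_eq_mul_inv]

theorem c1_div_eq {R : PRData K F k Fk A} {g : ℕ} (C : R.Chart g) (P : Fin g → Place K F) :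
    C.div P = (∑ i, Finsupp.single (P i) (1 : ℤ)) - ∑ i, Finsupp.single (C.Q i) (1 : ℤ) := by
  rw [PRData.Chart.div, Finset.sum_sub_distrib]

/-- the reduction of a tuple in the discs is the reduced chart divisor -/
theorem c1_mapDomain_sum_disc {R : PRData K F k Fk A} {g : ℕ} (C : R.Chart g)
    {P : Fin g → Place K F} (hP : ∀ i, R.r (P i) = R.r (C.Q i)) :
    Finsupp.mapDomain R.r (∑ i, Finsupp.single (P i) (1 : ℤ))
      = ∑ i, Finsupp.single (R.r (C.Q i)) (1 : ℤ) := by
  rw [c1_mapDomain_sum_single]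
  simp only [hP]

/-- uniqueness in (C1) -/
theorem c1_unique {R : PRData K F k Fk A} {g : ℕ} (hF : IsNiceCurve K F g)
    (hFk : IsNiceCurve k Fk g) (hOrth : R.Orth) (C : R.Chart g) (hC : C.IsChart)
    {P P' : Fin g → Place K F} (hP : ∀ i, R.r (P i) = R.r (C.Q i))
    (hP' : ∀ i, R.r (P' i) = R.r (C.Q i))
    (h : C.div P' - C.div P ∈ Divisor.principal (K := K) (F := F)) : P' = P := by
  classical
  have := hF.hpd
  obtain ⟨v₀, -⟩ := hF.infinite.nonempty
  obtain ⟨f, hf, hfv⟩ := h
  set E₁ : Divisor K F := ∑ i, Finsupp.single (P i) (1 : ℤ) with hE₁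
  set E₂ : Divisor K F := ∑ i, Finsupp.single (P' i) (1 : ℤ) with hE₂
  have hsub : C.div P' - C.div P = E₂ - E₁ := by
    rw [c1_div_eq, c1_div_eq]; abel
  have hE₁0 : 0 ≤ E₁ := c1_sum_single_nonneg P
  have hE₂0 : 0 ≤ E₂ := c1_sum_single_nonneg P'
  have hford : ∀ v : Place K F, v.ord f = E₂ v - E₁ v := by
    intro v
    rw [← hfv v, hsub, Finsupp.sub_apply]
  have hfL : f ∈ riemannRochSpace E₁ := by
    rw [mem_riemannRochSpace_iff]
    intro v
    right
    rw [hford v]
    have : 0 ≤ E₂ v := by simpa using Finsupp.le_def.mp hE₂0 v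
    omega
  have hdim : finrank K ↥(riemannRochSpace E₁) ≤ 1 := by
    have := c1_semicont hFk hOrth E₁
    rw [hE₁, c1_mapDomain_sum_disc C hP, hC.nonspecial] at this
    exact this
  obtain ⟨c, hc⟩ := c1_const_of_finrank_le_one hF.hres v₀ hE₁0 hdim hfL
  have hEq : E₂ = E₁ := by
    ext v
    have := hford v
    rw [hc, PlaceAux.ord_algebraMap] at this
    omega
  have hPinj : Function.Injective P := by
    intro i j hij
    apply hC.inj
    show R.r (C.Q i) = R.r (C.Q j)
    rw [← hP i, ← hP j, hij]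
  have hP'inj : Function.Injective P' := by
    intro i j hij
    apply hC.inj
    show R.r (C.Q i) = R.r (C.Q j)
    rw [← hP' i, ← hP' j, hij]
  funext i
  have h1 : E₁ (P' i) = 1 := by
    rw [← hEq, hE₂]; exact c1_sum_single_apply hP'inj i
  have h2 : ∃ j, P j = P' i := by
    by_contra hne
    simp only [not_exists] at hne
    rw [hE₁, c1_sum_single_apply_of_not_mem hne] at h1
    exact zero_ne_one h1
  obtain ⟨j, hj⟩ := h2
  have hji : j = i := by
    apply hC.inj
    show R.r (C.Q j) = R.r (C.Q i)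
    rw [← hP j, ← hP' i, hj]
  rw [← hj, hji]

/-- **(C1)** -/
theorem stmtC1 : StmtC1 := by
  intro K F k Fk _ _ _ _ _ _ A R g hPR hF hFk hOrth C hC x hx
  classical
  have := hF.hpd
  have := hFk.hpd
  obtain ⟨v₀, -⟩ := hF.infinite.nonempty
  obtain ⟨w₀, -⟩ := hFk.infinite.nonempty
  obtain ⟨D, rfl, hDp⟩ := hx
  set D₀ : Divisor K F := ∑ i, Finsupp.single (C.Q i) (1 : ℤ) with hD₀
  set Db : Divisor k Fk := ∑ i, Finsupp.single (R.r (C.Q i)) (1 : ℤ) with hDb
  have hDb0 : 0 ≤ Db := c1_sum_single_nonneg _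
  have hrD₀ : Finsupp.mapDomain R.r D₀ = Db := c1_mapDomain_sum_single _ _ _
  have hdegD : Divisor.degree (D : Divisor K F) = 0 := D.2
  have hdegD₀ : Divisor.degree D₀ = g := c1_degree_sum_single hF.hres _
  -- Riemann
  have hR := hF.lower ((D : Divisor K F) + D₀)
  rw [map_add, hdegD, hdegD₀] at hR
  have := rr_finite v₀ hF.hres ((D : Divisor K F) + D₀)
  have hpos : 0 < finrank K ↥(riemannRochSpace ((D : Divisor K F) + D₀)) := by
    have : (1 : ℤ) ≤ (finrank K ↥(riemannRochSpace ((D : Divisor K F) + D₀)) : ℤ) := by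
      linarith
    exact_mod_cast this
  rw [Module.finrank_pos_iff_exists_ne_zero] at hpos
  obtain ⟨⟨f, hfL⟩, hf0⟩ := hpos
  have hf : f ≠ 0 := fun h => hf0 (Subtype.ext h)
  obtain ⟨Df, hDf, hdegDf⟩ := HasPrincipalDivisors.exists_divisor (K := K) f hf
  have hDfp : Df ∈ Divisor.principal (K := K) (F := F) := ⟨f, hf, hDf⟩
  set E : Divisor K F := (D : Divisor K F) + D₀ + Df with hE
  have hE0 : 0 ≤ E := by
    rw [Finsupp.le_def]
    intro v
    have := (mem_riemannRochSpace_iff.mp hfL v).resolve_left hf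
    rw [hE, Finsupp.add_apply, hDf v]
    simp only [Finsupp.coe_zero, Pi.zero_apply]
    linarith
  -- reduction of `E`
  have hrE : Finsupp.mapDomain R.r E = Db := by
    have h1 : Finsupp.mapDomain R.r E - Db ∈ Divisor.principal (K := k) (F := Fk) := by
      have : Finsupp.mapDomain R.r E - Db
          = Finsupp.mapDomain R.r (D : Divisor K F) + Finsupp.mapDomain R.r Df := by
        rw [hE, Finsupp.mapDomain_add, Finsupp.mapDomain_add, hrD₀]; abel
      rw [this]
      exact AddSubgroup.add_mem _ hDp (c1_mapDomain_principal hPR hDfp)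
    obtain ⟨h, hh0, hhv⟩ := h1
    have hrE0 : 0 ≤ Finsupp.mapDomain R.r E := c1_mapDomain_nonneg _ hE0
    have hhL : h ∈ riemannRochSpace Db := by
      rw [mem_riemannRochSpace_iff]
      intro v
      right
      rw [← hhv v, Finsupp.sub_apply]
      have : 0 ≤ Finsupp.mapDomain R.r E v := by simpa using Finsupp.le_def.mp hrE0 v
      linarith
    obtain ⟨c, hc⟩ := c1_const_of_finrank_le_one hFk.hres w₀ hDb0
      (le_of_eq hC.nonspecial) hhL
    ext v
    have := hhv v
    rw [hc, PlaceAux.ord_algebraMap, Finsupp.sub_apply] at this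
    linarith
  obtain ⟨P, hPr, hEP⟩ := c1_exists_lift_sum R.r hE0 hC.inj hrE
  have hdiv : C.div P = (D : Divisor K F) + Df := by
    rw [c1_div_eq, ← hEP, hE, ← hD₀]; abel
  have hdeg : C.div P ∈ Divisor.degZero (K := K) (F := F) := by
    rw [Divisor.mem_degZero, hdiv, map_add, hdegD, hdegDf, add_zero]
  have hmk : Pic0.mk ⟨C.div P, hdeg⟩ = Pic0.mk D := by
    rw [Pic0.mk, Pic0.mk, QuotientAddGroup.eq, AddSubgroup.mem_addSubgroupOf]
    have : ((-(⟨C.div P, hdeg⟩ : Divisor.degZero (K := K) (F := F)) + D :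
        Divisor.degZero (K := K) (F := F)) : Divisor K F) = -Df := by
      show -(C.div P) + (D : Divisor K F) = -Df
      rw [hdiv]; abel
    rw [this]
    exact AddSubgroup.neg_mem _ hDfp
  refine ⟨P, ⟨hPr, ⟨C.div P, hdeg⟩, rfl, hmk⟩, ?_⟩
  rintro P' ⟨hP'r, D', hD', hmk'⟩
  refine c1_unique hF hFk hOrth C hC hPr hP'r ?_
  have h1 : Pic0.mk D' = Pic0.mk ⟨C.div P, hdeg⟩ := by rw [hmk', hmk]
  rw [Pic0.mk, Pic0.mk, QuotientAddGroup.eq, AddSubgroup.mem_addSubgroupOf] at h1
  have h2 : ((-D' + (⟨C.div P, hdeg⟩ : Divisor.degZero (K := K) (F := F)) :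
      Divisor.degZero (K := K) (F := F)) : Divisor K F) = -(C.div P' - C.div P) := by
    show -(D' : Divisor K F) + C.div P = -(C.div P' - C.div P)
    rw [hD']; abel
  rw [h2] at h1
  simpa using AddSubgroup.neg_mem _ h1

/-- converse of (C1) -/
theorem stmtC1Conv : StmtC1Conv := by
  intro K F k Fk _ _ _ _ _ _ A R g hPR hF hFk C hC P hP D hD
  refine ⟨D, rfl, ?_⟩
  rw [hD, c1_div_eq, c1_mapDomain_sub, c1_mapDomain_sum_disc C hP, c1_mapDomain_sum_single,
    sub_self]
  exact AddSubgroup.zero_mem _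

end Geo

end Fermat.Agent.W1


end ZBW1_002_7

/-! ### bundled: `Fermat.Agent.S15.RedSp` -/
section ZBW1_002_8

/-!
# S15 block RED — the specialization map of a reduction package (generic part)

For a reduction package `R : PRData K F k Fk A` (`W1/PlanGeo.lean`) with `R.IsPR` and rational
places on both sides:

* `s15red_sp R hR hres hresk : Pic0 K F →+ Pic0 k Fk`, `[D] ↦ [r_* D]`;
* `s15red_sp_eq_zero_iff` : its kernel is `R.J1`;
* `s15red_sp_smul` : if `r (γ • P) = τ • r P` for all places then `sp (γ • x) = τ • sp x`.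
-/

set_option autoImplicit false

open AlgebraicCurve Module

namespace Fermat.Agent.S15

open Fermat.Agent.W1 Fermat.Agent.ES.R Fermat.Agent.S24

variable {K F k Fk : Type} [Field K] [Field F] [Algebra K F] [Field k] [Field Fk] [Algebra k Fk]
variable {A : ValuationSubring K}

/-- reduction of divisors of degree zero -/
noncomputable def s15red_degZeroHom (R : PRData K F k Fk A)
    (hres : ∀ v : Place K F, Function.Bijective (algebraMap K v.ResidueField))
    (hresk : ∀ v : Place k Fk, Function.Bijective (algebraMap k v.ResidueField)) :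
    Divisor.degZero (K := K) (F := F) →+ Divisor.degZero (K := k) (F := Fk) :=
  ((Finsupp.mapDomain.addMonoidHom R.r).comp
    (Divisor.degZero (K := K) (F := F)).subtype).codRestrict _ (fun D => by
      rw [Divisor.mem_degZero]
      show Divisor.degree (Finsupp.mapDomain R.r (D : Divisor K F)) = 0
      rw [c1_degree_mapDomain hres hresk, Divisor.mem_degZero.mp D.2])

@[simp] theorem s15red_coe_degZeroHom (R : PRData K F k Fk A)
    (hres : ∀ v : Place K F, Function.Bijective (algebraMap K v.ResidueField))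
    (hresk : ∀ v : Place k Fk, Function.Bijective (algebraMap k v.ResidueField))
    (D : Divisor.degZero (K := K) (F := F)) :
    (s15red_degZeroHom R hres hresk D : Divisor k Fk) =
      Finsupp.mapDomain R.r (D : Divisor K F) := rfl

/-- **the specialization map** `[D] ↦ [r_* D]` -/
noncomputable def s15red_sp (R : PRData K F k Fk A) (hR : R.IsPR)
    (hres : ∀ v : Place K F, Function.Bijective (algebraMap K v.ResidueField))
    (hresk : ∀ v : Place k Fk, Function.Bijective (algebraMap k v.ResidueField)) :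
    Pic0 K F →+ Pic0 k Fk :=
  QuotientAddGroup.map _ _ (s15red_degZeroHom R hres hresk) (by
    rintro ⟨D, hD0⟩ hD
    simp only [AddSubgroup.mem_comap, AddSubgroup.mem_addSubgroupOf] at hD ⊢
    exact c1_mapDomain_principal hR hD)

theorem s15red_sp_mk (R : PRData K F k Fk A) (hR : R.IsPR)
    (hres : ∀ v : Place K F, Function.Bijective (algebraMap K v.ResidueField))
    (hresk : ∀ v : Place k Fk, Function.Bijective (algebraMap k v.ResidueField))
    (D : Divisor.degZero (K := K) (F := F)) :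
    s15red_sp R hR hres hresk (Pic0.mk D) = Pic0.mk (s15red_degZeroHom R hres hresk D) := rfl

theorem s15red_mk_eq_zero_iff {K F : Type*} [Field K] [Field F] [Algebra K F]
    (D : Divisor.degZero (K := K) (F := F)) :
    Pic0.mk D = 0 ↔ (D : Divisor K F) ∈ Divisor.principal (K := K) (F := F) := by
  show (QuotientAddGroup.mk D : Pic0 K F) = 0 ↔ _
  rw [QuotientAddGroup.eq_zero_iff, AddSubgroup.mem_addSubgroupOf]

/-- the kernel of the specialization map is `J1` -/
theorem s15red_sp_eq_zero_iff (R : PRData K F k Fk A) (hR : R.IsPR)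
    (hres : ∀ v : Place K F, Function.Bijective (algebraMap K v.ResidueField))
    (hresk : ∀ v : Place k Fk, Function.Bijective (algebraMap k v.ResidueField))
    (x : Pic0 K F) : s15red_sp R hR hres hresk x = 0 ↔ x ∈ R.J1 := by
  constructor
  · intro h
    obtain ⟨D, rfl⟩ := Pic0.mk_surjective x
    rw [s15red_sp_mk, s15red_mk_eq_zero_iff, s15red_coe_degZeroHom] at h
    exact ⟨D, rfl, h⟩
  · rintro ⟨D, rfl, hD⟩
    rw [s15red_sp_mk, s15red_mk_eq_zero_iff, s15red_coe_degZeroHom]
    exact hD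

/-- equivariance of the specialization map -/
theorem s15red_sp_smul (R : PRData K F k Fk A) (hR : R.IsPR)
    (hres : ∀ v : Place K F, Function.Bijective (algebraMap K v.ResidueField))
    (hresk : ∀ v : Place k Fk, Function.Bijective (algebraMap k v.ResidueField))
    (γ : SemilinearAut K F) (τ : SemilinearAut k Fk)
    (h : ∀ P : Place K F, R.r (γ • P) = τ • R.r P) (x : Pic0 K F) :
    s15red_sp R hR hres hresk (γ • x) = τ • s15red_sp R hR hres hresk x := by
  obtain ⟨D, rfl⟩ := Pic0.mk_surjective x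
  rw [SemilinearAut.pic0_smul_mk, s15red_sp_mk, s15red_sp_mk, SemilinearAut.pic0_smul_mk]
  congr 1
  apply Subtype.ext
  rw [s15red_coe_degZeroHom, SemilinearAut.coe_degZeroSMulHom, SemilinearAut.coe_degZeroSMulHom,
    s15red_coe_degZeroHom, SemilinearAut.divisor_smul_def, SemilinearAut.divisor_smul_def,
    ← Finsupp.mapDomain_comp, ← Finsupp.mapDomain_comp]
  congr 1
  exact funext h

end Fermat.Agent.S15


end ZBW1_002_8

/-! ### bundled: `Fermat.Agent.W1.PlanApprox` -/
section ZBW1_002_9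

/-!
# W1-geo, GEO-AL split: the two independent halves of the approximation lemma `StmtApprox`

`StmtApprox` (`PlanGeo3.lean`) is proved in `GeoApprox.lean` from:

* `StmtSharp` (**GA-S**, explicit): for `f ∈ O` with poles only in the discs at points `P` with
  coordinates `z_P ∈ ϖ A`, the function `f♯ := f · ∏_P (1 - (z_P / τ_{i_P}) ^ n) ^ {m_P}`
  (`m_P = - ord_P f`) lies in `O`, is congruent to `f` modulo `ϖ ^ n O`, and has poles only at
  zeros of the local parameters `τ i = t - c i`.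
* `StmtOrthApprox` (**GA-O**, linear algebra over the valuation ring): orthonormal families
  `e₁` (of a subspace) and `e'`, and a `K`-subspace `P` of `F` containing the span of `e₁` such that
  reductions of elements of `P ∩ O` which lie in the span of the `ē'` lie in the span of the `ē₁`.
  If `x ∈ span e' ∩ O` is congruent modulo `c O` to some `f ∈ P`, then `x` is congruent modulo
  `c O` to some `y ∈ span e₁ ∩ O`.
  (Proof: extend `ē₁` to a basis of `span ē'` by some `ē'_j, j ∈ J` (Steinitz); the adapted family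
  is an orthonormal basis of `span e'`; `x = Σ α_i e₁_i + Σ_J β_j e'_j`, `α, β ∈ A`; if some
  `β_j ∉ c A` normalise by the `β_{j₀}` of largest valuation and reduce.)
-/

set_option autoImplicit false

open AlgebraicCurve Module

namespace Fermat.Agent.W1

/-- **GA-S**: moving the poles to the zeros of the `τ i`, modulo `ϖ ^ n`. -/
def StmtSharp : Prop :=
  ∀ (K F k Fk : Type) [Field K] [Field F] [Algebra K F] [Field k] [Field Fk] [Algebra k Fk]
    (A : ValuationSubring K) (R : PRData K F k Fk A) (g : ℕ),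
    R.IsPR → IsNiceCurve K F g → IsNiceCurve k Fk g →
    ∀ C : R.Chart g, C.IsChart →
    ∀ ϖ : K, ϖ ∈ A.nonunits → ϖ ≠ 0 → ∀ f : F, f ∈ R.O → C.PolesInDiscs ϖ f →
    ∀ n : ℕ, ∃ f₁ : F, f₁ ∈ R.O ∧
      (∀ P : Place K F, P.ord f₁ < 0 → ∃ i, HasValueAt P C.t (C.c i : K)) ∧
      ∃ h : F, h ∈ R.O ∧ f - f₁ = algebraMap K F (ϖ ^ n) * h

/-- **GA-O**: approximation in orthonormal coordinates. -/
def StmtOrthApprox : Prop :=
  ∀ (K F k Fk : Type) [Field K] [Field F] [Algebra K F] [Field k] [Field Fk] [Algebra k Fk]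
    (A : ValuationSubring K) (R : PRData K F k Fk A), R.IsPR →
    ∀ (n₁ m : ℕ) (e₁ : Fin n₁ → F) (e' : Fin m → F)
      (he₁ : ∀ i, e₁ i ∈ R.O) (he' : ∀ j, e' j ∈ R.O),
      LinearIndependent k (fun i => R.red ⟨e₁ i, he₁ i⟩) →
      LinearIndependent k (fun j => R.red ⟨e' j, he' j⟩) →
      Submodule.span K (Set.range e₁) ≤ Submodule.span K (Set.range e') →
    ∀ P : Submodule K F, Submodule.span K (Set.range e₁) ≤ P →
      (∀ (w : F) (hw : w ∈ R.O), w ∈ P →
        R.red ⟨w, hw⟩ ∈ Submodule.span k (Set.range fun j => R.red ⟨e' j, he' j⟩) →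
        R.red ⟨w, hw⟩ ∈ Submodule.span k (Set.range fun i => R.red ⟨e₁ i, he₁ i⟩)) →
    ∀ c : K, c ∈ A → c ≠ 0 → ∀ x f : F, x ∈ Submodule.span K (Set.range e') → x ∈ R.O →
      f ∈ P → (∃ h : F, h ∈ R.O ∧ f - x = algebraMap K F c * h) →
      ∃ y : F, y ∈ Submodule.span K (Set.range e₁) ∧ y ∈ R.O ∧
        ∃ h : F, h ∈ R.O ∧ x - y = algebraMap K F c * h

end Fermat.Agent.W1


end ZBW1_002_9

/-! ### bundled: `Fermat.Agent.W1.GeoOrthApprox` -/
section ZBW1_002_10

/-!
# W1-geo, GA-O: approximation in orthonormal coordinates (`StmtOrthApprox`)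

Pure linear algebra over the valuation ring `A ⊂ K` and the Gauss valuation ring `O ⊂ F`.
A finite family `u j ∈ O` is *orthonormal* if the reductions `red (u j)` are `k`-linearly
independent.  For such a family: `Σ a j • u j ∈ O ⇒ a j ∈ A` (`gao_coeff_mem`), the family is
`K`-linearly independent (`gao_linearIndependent`), and
`red (Σ a j • u j) = Σ res (a j) • red (u j)` (`gao_red_sum`).

`stmtOrthApprox : StmtOrthApprox` follows the sketch of `PlanApprox.lean`: extend `ē₁` to a basis
of `span ē'` by some of the `ē'_j` (Steinitz, `exists_linearIndepOn_extension`), expand `x` in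
the adapted orthonormal basis, and reduce.
-/

set_option autoImplicit false

open Module

namespace Fermat.Agent.W1

section gao

variable {K F k Fk : Type} [Field K] [Field F] [Algebra K F] [Field k] [Field Fk] [Algebra k Fk]
variable {A : ValuationSubring K} {R : PRData K F k Fk A}

theorem gao_algebraMap_mem (hR : R.IsPR) {a : K} (ha : a ∈ A) : algebraMap K F a ∈ R.O :=
  (hR.algebraMap_mem_iff a).mpr ha

theorem gao_smul_mem (hR : R.IsPR) {a : K} (ha : a ∈ A) {u : F} (hu : u ∈ R.O) :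
    a • u ∈ R.O := by
  rw [Algebra.smul_def]
  exact R.O.mul_mem _ _ (gao_algebraMap_mem hR ha) hu

theorem gao_red_smul (hR : R.IsPR) {a : K} (ha : a ∈ A) {u : F} (hu : u ∈ R.O)
    (h : a • u ∈ R.O) :
    R.red ⟨a • u, h⟩ = R.res ⟨a, ha⟩ • R.red ⟨u, hu⟩ := by
  have h1 : (⟨a • u, h⟩ : R.O) =
      ⟨algebraMap K F a, gao_algebraMap_mem hR ha⟩ * ⟨u, hu⟩ := by
    apply Subtype.ext
    simp [Algebra.smul_def]
  rw [h1, map_mul, hR.red_algebraMap ⟨a, ha⟩, Algebra.smul_def]

theorem gao_red_smul_nonunit (hR : R.IsPR) {a : K} (ha : a ∈ A.nonunits) {u : F}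
    (hu : u ∈ R.O) (h : a • u ∈ R.O) : R.red ⟨a • u, h⟩ = 0 := by
  have haA : a ∈ A := A.nonunits_subset ha
  rw [gao_red_smul hR haA hu]
  have h1 : R.res ⟨a, haA⟩ = 0 := (hR.res_eq_zero_iff ⟨a, haA⟩).mpr ha
  rw [h1, zero_smul]

theorem gao_red_add (x y : F) (hx : x ∈ R.O) (hy : y ∈ R.O) (h : x + y ∈ R.O) :
    R.red ⟨x + y, h⟩ = R.red ⟨x, hx⟩ + R.red ⟨y, hy⟩ := by
  rw [← map_add]
  rfl

theorem gao_red_sum (hR : R.IsPR) {ι : Type*} [Fintype ι] (a : ι → K) (ha : ∀ j, a j ∈ A)
    (u : ι → F) (hu : ∀ j, u j ∈ R.O) (h : ∑ j, a j • u j ∈ R.O) :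
    R.red ⟨∑ j, a j • u j, h⟩ = ∑ j, R.res ⟨a j, ha j⟩ • R.red ⟨u j, hu j⟩ := by
  have h1 : (⟨∑ j, a j • u j, h⟩ : R.O) =
      ∑ j, (⟨a j • u j, gao_smul_mem hR (ha j) (hu j)⟩ : R.O) := by
    apply Subtype.ext
    rw [AddSubmonoidClass.coe_finsetSum]
  rw [h1, map_sum]
  exact Finset.sum_congr rfl fun j _ => gao_red_smul hR (ha j) (hu j) _

/-- If the reductions of the `u j` are linearly independent, `b j ∈ A` and `b j₀ = 1`, then
`Σ b j • u j` is a unit of `O`. -/
theorem gao_red_ne_zero (hR : R.IsPR) {ι : Type*} [Fintype ι] (u : ι → F)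
    (hu : ∀ j, u j ∈ R.O) (hli : LinearIndependent k fun j => R.red ⟨u j, hu j⟩)
    (b : ι → K) (hb : ∀ j, b j ∈ A) (j₀ : ι) (hj₀ : b j₀ = 1) (h : ∑ j, b j • u j ∈ R.O) :
    R.red ⟨∑ j, b j • u j, h⟩ ≠ 0 := by
  intro h0
  rw [gao_red_sum hR b hb u hu h] at h0
  have h1 := Fintype.linearIndependent_iff.mp hli _ h0 j₀
  have h2 : (⟨b j₀, hb j₀⟩ : A) = 1 := Subtype.ext hj₀
  rw [h2, map_one] at h1
  exact one_ne_zero h1

/-- Normalisation by a coefficient of largest valuation. -/
theorem gao_normalise {ι : Type*} [Fintype ι] (a : ι → K) (j₁ : ι) :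
    ∃ j₀ : ι, A.valuation (a j₁) ≤ A.valuation (a j₀) ∧
      ∀ j, A.valuation (a j) ≤ A.valuation (a j₀) := by
  classical
  obtain ⟨j₀, -, hmax⟩ := Finset.exists_max_image Finset.univ (fun j => A.valuation (a j))
    ⟨j₁, Finset.mem_univ _⟩
  exact ⟨j₀, hmax j₁ (Finset.mem_univ _), fun j => hmax j (Finset.mem_univ _)⟩

theorem gao_div_mem {a a₀ : K} (h : A.valuation a ≤ A.valuation a₀) : a / a₀ ∈ A := by
  rw [← A.valuation_le_one_iff, map_div₀]
  exact div_le_one_of_le₀ h zero_le

theorem gao_sum_div {ι : Type*} [Fintype ι] (a : ι → K) (a₀ : K) (u : ι → F) :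
    ∑ j, (a j / a₀) • u j = a₀⁻¹ • ∑ j, a j • u j := by
  rw [Finset.smul_sum]
  refine Finset.sum_congr rfl fun j _ => ?_
  rw [smul_smul, div_eq_inv_mul]

/-- The coefficients of an element of `O` with respect to an orthonormal family lie in `A`. -/
theorem gao_coeff_mem (hR : R.IsPR) {ι : Type*} [Fintype ι] (u : ι → F)
    (hu : ∀ j, u j ∈ R.O) (hli : LinearIndependent k fun j => R.red ⟨u j, hu j⟩)
    (a : ι → K) (h : ∑ j, a j • u j ∈ R.O) : ∀ j, a j ∈ A := by
  by_contra hne
  rw [not_forall] at hne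
  obtain ⟨j₁, hj₁⟩ := hne
  obtain ⟨j₀, h10, hmax⟩ := gao_normalise (A := A) a j₁
  have hj₀ : 1 < A.valuation (a j₀) :=
    lt_of_lt_of_le (by rwa [← not_le, A.valuation_le_one_iff]) h10
  have hpos : 0 < A.valuation (a j₀) := zero_lt_one.trans hj₀
  have ha0 : a j₀ ≠ 0 := (Valuation.ne_zero_iff _).mp hpos.ne'
  have hb : ∀ j, a j / a j₀ ∈ A := fun j => gao_div_mem (hmax j)
  have hsum := gao_sum_div a (a j₀) u
  have hinv : (a j₀)⁻¹ ∈ A.nonunits := by
    rw [A.mem_nonunits_iff, map_inv₀]; exact inv_lt_one_of_one_lt₀ hj₀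
  have hmem : ∑ j, (a j / a j₀) • u j ∈ R.O :=
    sum_mem fun j _ => gao_smul_mem hR (hb j) (hu j)
  refine gao_red_ne_zero hR u hu hli _ hb j₀ (div_self ha0) hmem ?_
  have h1 : (⟨∑ j, (a j / a j₀) • u j, hmem⟩ : R.O) =
      ⟨(a j₀)⁻¹ • ∑ j, a j • u j, hsum ▸ hmem⟩ := Subtype.ext hsum
  rw [h1]
  exact gao_red_smul_nonunit hR hinv h _

/-- An orthonormal family is linearly independent over `K`. -/
theorem gao_linearIndependent (hR : R.IsPR) {ι : Type*} [Fintype ι] (u : ι → F)
    (hu : ∀ j, u j ∈ R.O) (hli : LinearIndependent k fun j => R.red ⟨u j, hu j⟩) :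
    LinearIndependent K u := by
  rw [Fintype.linearIndependent_iff]
  intro a ha
  by_contra hne
  rw [not_forall] at hne
  obtain ⟨j₁, hj₁⟩ := hne
  obtain ⟨j₀, h10, hmax⟩ := gao_normalise (A := A) a j₁
  have hpos : 0 < A.valuation (a j₀) :=
    lt_of_lt_of_le (zero_lt_iff.mpr ((Valuation.ne_zero_iff _).mpr hj₁)) h10
  have ha0 : a j₀ ≠ 0 := (Valuation.ne_zero_iff _).mp hpos.ne'
  have hb : ∀ j, a j / a j₀ ∈ A := fun j => gao_div_mem (hmax j)
  have hsum : ∑ j, (a j / a j₀) • u j = 0 := by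
    rw [gao_sum_div, ha, smul_zero]
  have hmem : ∑ j, (a j / a j₀) • u j ∈ R.O := hsum ▸ R.O.zero_mem
  refine gao_red_ne_zero hR u hu hli _ hb j₀ (div_self ha0) hmem ?_
  have h1 : (⟨∑ j, (a j / a j₀) • u j, hmem⟩ : R.O) = 0 := Subtype.ext hsum
  rw [h1, map_zero]

end gao

/-- **GA-O**: approximation in orthonormal coordinates. -/
theorem stmtOrthApprox : StmtOrthApprox := by
  intro K F k Fk _ _ _ _ _ _ A R hR n₁ m e₁ e' he₁ he' hli₁ hli' hspan P hP hstar c hc hc0 x f
    hx hxO hf hfx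
  classical
  obtain ⟨h, hhO, hfxh⟩ := hfx
  -- the combined family
  set U : Fin n₁ ⊕ Fin m → F := Sum.elim e₁ e' with hUdef
  have hU : ∀ j, U j ∈ R.O := by
    rintro (i | j)
    · exact he₁ i
    · exact he' j
  set Ub : Fin n₁ ⊕ Fin m → Fk := fun j => R.red ⟨U j, hU j⟩ with hUb
  have hs : LinearIndepOn k Ub (Set.range Sum.inl) :=
    (linearIndepOn_range_iff Sum.inl_injective Ub).mpr hli₁
  obtain ⟨b, -, hsb, hspanb, hbli⟩ := exists_linearIndepOn_extension hs (Set.subset_univ _)
  have hbli' : LinearIndependent k (fun β : ↥b => R.red ⟨U β.1, hU β.1⟩) := hbli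
  -- `K`-linear independence
  have hKe' : LinearIndependent K e' := gao_linearIndependent hR e' he' hli'
  have hKu : LinearIndependent K (fun β : ↥b => U β.1) :=
    gao_linearIndependent hR (fun β : ↥b => U β.1) (fun β => hU β.1) hbli'
  -- Step A: `ē₁ i ∈ span ē'`
  have hA : ∀ i, R.red ⟨e₁ i, he₁ i⟩ ∈
      Submodule.span k (Set.range fun j => R.red ⟨e' j, he' j⟩) := by
    intro i
    have h1 : e₁ i ∈ Submodule.span K (Set.range e') := hspan (Submodule.subset_span ⟨i, rfl⟩)
    obtain ⟨a, ha⟩ := (Submodule.mem_span_range_iff_exists_fun K).mp h1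
    have hmem : ∑ j, a j • e' j ∈ R.O := ha ▸ he₁ i
    have haA := gao_coeff_mem hR e' he' hli' a hmem
    have h2 : (⟨e₁ i, he₁ i⟩ : R.O) = ⟨∑ j, a j • e' j, hmem⟩ := Subtype.ext ha.symm
    rw [h2, gao_red_sum hR a haA e' he' hmem]
    exact Submodule.sum_mem _ fun j _ =>
      Submodule.smul_mem _ _ (Submodule.subset_span ⟨j, rfl⟩)
  -- Step B: the spans over `k` agree
  have hB : Submodule.span k (Ub '' b) =
      Submodule.span k (Set.range fun j => R.red ⟨e' j, he' j⟩) := by
    apply le_antisymm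
    · rw [Submodule.span_le]
      rintro _ ⟨β, -, rfl⟩
      rcases β with i | j
      · exact hA i
      · exact Submodule.subset_span ⟨j, rfl⟩
    · rw [Submodule.span_le]
      rintro _ ⟨j, rfl⟩
      exact hspanb ⟨Sum.inr j, Set.mem_univ _, rfl⟩
  -- Step C: `card b = m`
  have hC : Fintype.card ↥b = m := by
    have h1 := finrank_span_eq_card hbli'
    have h2 := finrank_span_eq_card hli'
    have h3 : Set.range (fun β : ↥b => R.red ⟨U β.1, hU β.1⟩) = Ub '' b := by
      rw [Set.image_eq_range]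
    rw [h3, hB, h2, Fintype.card_fin] at h1
    exact h1.symm
  -- Step D: the spans over `K` agree
  have hD : Submodule.span K (Set.range fun β : ↥b => U β.1) =
      Submodule.span K (Set.range e') := by
    have hle : Submodule.span K (Set.range fun β : ↥b => U β.1) ≤
        Submodule.span K (Set.range e') := by
      rw [Submodule.span_le]
      rintro _ ⟨⟨β, hβ⟩, rfl⟩
      rcases β with i | j
      · exact hspan (Submodule.subset_span ⟨i, rfl⟩)
      · exact Submodule.subset_span ⟨j, rfl⟩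
    have : FiniteDimensional K ↥(Submodule.span K (Set.range e')) :=
      FiniteDimensional.span_of_finite K (Set.finite_range e')
    apply Submodule.eq_of_le_of_finrank_eq hle
    rw [finrank_span_eq_card hKu, finrank_span_eq_card hKe', hC, Fintype.card_fin]
  -- Step E: coordinates of `x`
  have hx' : x ∈ Submodule.span K (Set.range fun β : ↥b => U β.1) := hD ▸ hx
  obtain ⟨a, ha⟩ := (Submodule.mem_span_range_iff_exists_fun K).mp hx'
  have haA : ∀ β, a β ∈ A :=
    gao_coeff_mem hR (fun β : ↥b => U β.1) (fun β => hU β.1) hbli' a (ha ▸ hxO)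
  -- Step F: the two halves
  set a₁ : ↥b → K := fun β => if β.1.isLeft then a β else 0 with ha₁
  set a₂ : ↥b → K := fun β => if β.1.isLeft then 0 else a β with ha₂
  have ha₁A : ∀ β, a₁ β ∈ A := fun β => by
    by_cases hβ : β.1.isLeft
    · simp only [ha₁, hβ, if_true]; exact haA β
    · simp only [ha₁, hβ]; exact A.zero_mem
  have ha₂A : ∀ β, a₂ β ∈ A := fun β => by
    by_cases hβ : β.1.isLeft
    · simp only [ha₂, hβ, if_true]; exact A.zero_mem
    · simp only [ha₂, hβ]; exact haA β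
  have ha₂L : ∀ β : ↥b, β.1.isLeft → a₂ β = 0 := fun β hβ => by
    simp only [ha₂, hβ, if_true]
  have hsplit : x = ∑ β, a₁ β • U β.1 + ∑ β, a₂ β • U β.1 := by
    rw [← ha, ← Finset.sum_add_distrib]
    refine Finset.sum_congr rfl fun β _ => ?_
    rw [← add_smul]
    congr 1
    by_cases hβ : β.1.isLeft
    · simp only [ha₁, ha₂, hβ, if_true, add_zero]
    · simp only [ha₁, ha₂, hβ]; simp
  set y : F := ∑ β, a₁ β • U β.1 with hy
  have hyspan : y ∈ Submodule.span K (Set.range e₁) := by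
    refine Submodule.sum_mem _ fun β _ => ?_
    by_cases hβ : β.1.isLeft
    · obtain ⟨i, hi⟩ := Sum.isLeft_iff.mp hβ
      have h1 : U β.1 = e₁ i := by rw [hi]; rfl
      rw [h1]
      exact Submodule.smul_mem _ _ (Submodule.subset_span ⟨i, rfl⟩)
    · have h1 : a₁ β = 0 := by simp only [ha₁, hβ]; simp
      rw [h1, zero_smul]
      exact Submodule.zero_mem _
  have hyO : y ∈ R.O := sum_mem fun β _ => gao_smul_mem hR (ha₁A β) (hU β.1)
  have hxy : x - y = ∑ β, a₂ β • U β.1 := by
    rw [hsplit]; ring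
  -- Step G: all `a₂ β` are divisible by `c`
  have hcv : A.valuation c ≠ 0 := (Valuation.ne_zero_iff _).mpr hc0
  have hG : ∀ β, A.valuation (a₂ β) ≤ A.valuation c := by
    by_contra hne
    rw [not_forall] at hne
    obtain ⟨β₁, hβ₁⟩ := hne
    rw [not_le] at hβ₁
    obtain ⟨β₀, h10, hmax⟩ := gao_normalise (A := A) a₂ β₁
    have hcβ₀ : A.valuation c < A.valuation (a₂ β₀) := lt_of_lt_of_le hβ₁ h10
    have hpos : 0 < A.valuation (a₂ β₀) := lt_of_le_of_lt zero_le hcβ₀
    have ha0 : a₂ β₀ ≠ 0 := (Valuation.ne_zero_iff _).mp hpos.ne'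
    have hb : ∀ β, a₂ β / a₂ β₀ ∈ A := fun β => gao_div_mem (hmax β)
    have hd : c / a₂ β₀ ∈ A.nonunits := by
      rw [A.mem_nonunits_iff, map_div₀]
      exact (div_lt_one₀ hpos).mpr hcβ₀
    -- the element `w`
    have hsum : ∑ β, (a₂ β / a₂ β₀) • U β.1 ∈ R.O :=
      sum_mem fun β _ => gao_smul_mem hR (hb β) (hU β.1)
    have hdh : (c / a₂ β₀) • h ∈ R.O := gao_smul_mem hR (A.nonunits_subset hd) hhO
    have hw : (a₂ β₀)⁻¹ • (f - y) =
        ∑ β, (a₂ β / a₂ β₀) • U β.1 + (c / a₂ β₀) • h := by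
      have h1 : f - y = (f - x) + (x - y) := by ring
      rw [h1, hfxh, hxy, gao_sum_div, smul_add, ← Algebra.smul_def, smul_smul, add_comm,
        div_eq_inv_mul]
    have hwP : (a₂ β₀)⁻¹ • (f - y) ∈ P :=
      P.smul_mem _ (P.sub_mem hf (hP hyspan))
    have hwO : (a₂ β₀)⁻¹ • (f - y) ∈ R.O := by
      rw [hw]; exact R.O.add_mem _ _ hsum hdh
    have hred : R.red ⟨(a₂ β₀)⁻¹ • (f - y), hwO⟩ =
        R.red ⟨∑ β, (a₂ β / a₂ β₀) • U β.1, hsum⟩ := by
      have h1 : (⟨(a₂ β₀)⁻¹ • (f - y), hwO⟩ : R.O) =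
          ⟨∑ β, (a₂ β / a₂ β₀) • U β.1 + (c / a₂ β₀) • h, R.O.add_mem _ _ hsum hdh⟩ :=
        Subtype.ext hw
      rw [h1, gao_red_add _ _ hsum hdh, gao_red_smul_nonunit hR hd hhO, add_zero]
    have hredsum := gao_red_sum hR (fun β : ↥b => a₂ β / a₂ β₀) hb (fun β : ↥b => U β.1)
      (fun β => hU β.1) hsum
    -- the reduction lies in the span of the `ē'`
    have h1 : R.red ⟨(a₂ β₀)⁻¹ • (f - y), hwO⟩ ∈
        Submodule.span k (Set.range fun j => R.red ⟨e' j, he' j⟩) := by
      rw [hred, hredsum, ← hB]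
      exact Submodule.sum_mem _ fun β _ =>
        Submodule.smul_mem _ _ (Submodule.subset_span ⟨β.1, β.2, rfl⟩)
    have h2 := hstar _ hwO hwP h1
    -- disjointness
    have hdisj := hbli'.disjoint_span_image
      (disjoint_compl_right (a := {β : ↥b | β.1.isLeft = true}))
    have h3 : R.red ⟨(a₂ β₀)⁻¹ • (f - y), hwO⟩ ∈ Submodule.span k
        ((fun β : ↥b => R.red ⟨U β.1, hU β.1⟩) '' {β : ↥b | β.1.isLeft = true}) := by
      refine Submodule.span_mono ?_ h2
      rintro _ ⟨i, rfl⟩
      exact ⟨⟨Sum.inl i, hsb ⟨i, rfl⟩⟩, rfl, rfl⟩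
    have h4 : R.red ⟨(a₂ β₀)⁻¹ • (f - y), hwO⟩ ∈ Submodule.span k
        ((fun β : ↥b => R.red ⟨U β.1, hU β.1⟩) '' {β : ↥b | β.1.isLeft = true}ᶜ) := by
      rw [hred, hredsum]
      refine Submodule.sum_mem _ fun β _ => ?_
      by_cases hβ : β.1.isLeft
      · have h5 : (⟨a₂ β / a₂ β₀, hb β⟩ : A) = 0 := by
          apply Subtype.ext
          show a₂ β / a₂ β₀ = 0
          rw [ha₂L β hβ, zero_div]
        rw [h5, map_zero, zero_smul]
        exact Submodule.zero_mem _
      · exact Submodule.smul_mem _ _ (Submodule.subset_span ⟨β, hβ, rfl⟩)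
    have h5 := Submodule.disjoint_def.mp hdisj _ h3 h4
    rw [hred] at h5
    exact gao_red_ne_zero hR (fun β : ↥b => U β.1) (fun β => hU β.1) hbli' _ hb β₀
      (div_self ha0) hsum h5
  -- conclusion
  refine ⟨y, hyspan, hyO, ∑ β, (a₂ β / c) • U β.1,
    sum_mem fun β _ => gao_smul_mem hR (gao_div_mem (hG β)) (hU β.1), ?_⟩
  rw [hxy, gao_sum_div, ← Algebra.smul_def, smul_smul, mul_inv_cancel₀ hc0, one_smul]

end Fermat.Agent.W1


end ZBW1_002_10

/-! ### bundled: `Fermat.Agent.S15.Div1Plan` -/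
section ZBW1_002_11

/-!
# S15 piece DIV¹: the kernel of reduction is divisible by every `m` prime to the residue
characteristic — exact statements

Notation of `W1/PlanGeo.lean`, `W1/PlanGeo2.lean` (`PRData`, `IsPR`, `Orth`, `J1`).

* `StmtHenselMv` (**DIV1-H**, pure algebra, Mathlib only): Hensel's lemma in several variables for
  a valuation ring `A` of an algebraically closed field `K`: a square system `f` of polynomials
  over `A`, a point `a` with `f(a) ≡ 0 mod 𝔪` at which the Jacobian matrix is injective modulo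
  `𝔪`, has a solution `b ≡ a mod 𝔪`, `f(b) = 0`.  (No completeness: the solution is algebraic.)
* `StmtDiv1` (**DIV¹**): for `m` a unit of `A`, every class of the kernel of reduction `J1` is
  `m • y` with `y` in `J1`.

Route for `StmtDiv1` (file `S15/Div1*.lean`): `x = [D]`, `r_* D = 0`; `N̄`, `R̄` disjoint non-special
reduced divisors of degree `g` of the reduced curve, `N`, `R` lifts; solve `w ^ m = h * h'` with
`w ∈ L(N + R)`, `h ∈ L(D + m N)`, `h' ∈ L(m R - D)`, all three `≡ 1`, by `StmtHenselMv` in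
orthonormal coordinates (the differential `m δw - δh - δh'` is injective modulo constants because
`L̄(N̄) = L̄(R̄) = k`); then `div h + D + m N = m D'` and `y = [D' - N]`.
-/

set_option autoImplicit false

open AlgebraicCurve Module

namespace Fermat.Agent.S15

open Fermat.Agent.W1

/-- **DIV1-H**: Hensel's lemma in several variables for the valuation ring of an algebraically
closed field. -/
def StmtHenselMv : Prop :=
  ∀ (K : Type) [Field K] [IsAlgClosed K] (A : ValuationSubring K)
    (σ ι : Type) [Fintype σ] [Fintype ι], Fintype.card ι = Fintype.card σ →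
    ∀ (f : ι → MvPolynomial σ A) (a : σ → A),
      (∀ i, ((MvPolynomial.eval a (f i) : A) : K) ∈ A.nonunits) →
      (∀ v : σ → A,
        (∀ i, ((∑ j, MvPolynomial.eval a (MvPolynomial.pderiv j (f i)) * v j : A) : K)
          ∈ A.nonunits) →
        ∀ j, ((v j : A) : K) ∈ A.nonunits) →
      ∃ b : σ → A, (∀ j, ((b j - a j : A) : K) ∈ A.nonunits) ∧
        ∀ i, MvPolynomial.eval b (f i) = 0

/-- **DIV¹**: the kernel of reduction is `m`-divisible for every `m` which is a unit of `A`. -/
def StmtDiv1 : Prop :=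
  ∀ (K F k Fk : Type) [Field K] [Field F] [Algebra K F] [Field k] [Field Fk] [Algebra k Fk]
    [IsAlgClosed K]
    (A : ValuationSubring K) (R : PRData K F k Fk A) (g : ℕ),
    R.IsPR → IsNiceCurve K F g → IsNiceCurve k Fk g → R.Orth →
    ∀ m : ℕ, (m : K) ∉ A.nonunits →
    ∀ x : Pic0 K F, x ∈ R.J1 → ∃ y : Pic0 K F, y ∈ R.J1 ∧ m • y = x

end Fermat.Agent.S15


end ZBW1_002_11

/-! ### bundled: `Fermat.Agent.S15.Div1Orth` -/
section ZBW1_002_12

/-!
# S15/DIV¹, part 1: orthonormal bases whose reductions span (helper94)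

`IsOB R D e` : `e` is a basis of `L(D)` in `O` whose reductions are a basis of `L̄(r_* D)`.
It exists as soon as `dim L̄(r_* D) ≤ deg D + 1 - g` (`exists_isOB`).

`comb e c = Σ c i • e i` for `c : Fin n → A`; reduction, coefficients, lifts.
-/

set_option autoImplicit false

open AlgebraicCurve Module

namespace Fermat.Agent.S15.Div1

open Fermat.Agent.W1 Fermat.Agent.ES.R Fermat.Agent.S24

variable {K F k Fk : Type} [Field K] [Field F] [Algebra K F] [Field k] [Field Fk] [Algebra k Fk]
variable {A : ValuationSubring K} {R : PRData K F k Fk A}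

/-- the combination `Σ c i • e i` with coefficients in `A` -/
noncomputable def comb {n : ℕ} (e : Fin n → F) (c : Fin n → A) : F :=
  ∑ i, ((c i : A) : K) • e i

/-- an orthonormal basis of `L(D)` whose reductions are a basis of `L̄(r_* D)` -/
structure IsOB (R : PRData K F k Fk A) (D : Divisor K F) {n : ℕ} (e : Fin n → F) : Prop where
  memO : ∀ i, e i ∈ R.O
  span : Submodule.span K (Set.range e) = riemannRochSpace D
  li : LinearIndependent k (fun i => R.red ⟨e i, memO i⟩)
  redMem : ∀ i, R.red ⟨e i, memO i⟩ ∈ riemannRochSpace (Finsupp.mapDomain R.r D)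
  redSpan : ∀ y ∈ riemannRochSpace (Finsupp.mapDomain R.r D),
    ∃ c : Fin n → k, y = ∑ i, c i • R.red ⟨e i, memO i⟩

theorem exists_isOB {g : ℕ} (hR : R.IsPR) (hF : IsNiceCurve K F g) (hFk : IsNiceCurve k Fk g)
    (hO : R.Orth) (D : Divisor K F)
    (hdim : (finrank k ↥(riemannRochSpace (Finsupp.mapDomain R.r D)) : ℤ)
      ≤ Divisor.degree D + 1 - g) :
    ∃ (n : ℕ) (e : Fin n → F), IsOB R D e ∧
      n = finrank k ↥(riemannRochSpace (Finsupp.mapDomain R.r D)) := by
  classical
  obtain ⟨n, e, he, hspan, hli, hmem⟩ := hO D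
  obtain ⟨v₀, -⟩ := hFk.infinite.nonempty
  have := hFk.hpd
  have hfin := rr_finite v₀ hFk.hres (Finsupp.mapDomain R.r D)
  -- `n = dim L(D)`
  have hliK : LinearIndependent K e := gao_linearIndependent hR e he hli
  have hn : finrank K ↥(riemannRochSpace D) = n := by
    rw [← hspan, finrank_span_eq_card hliK, Fintype.card_fin]
  have hlow := hF.lower D
  rw [hn] at hlow
  -- the reductions, in the subtype
  set eb : Fin n → ↥(riemannRochSpace (Finsupp.mapDomain R.r D)) :=
    fun i => ⟨R.red ⟨e i, he i⟩, hmem i⟩ with heb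
  have hli' : LinearIndependent k eb := by
    apply LinearIndependent.of_comp (Submodule.subtype _)
    exact hli
  have hle : n ≤ finrank k ↥(riemannRochSpace (Finsupp.mapDomain R.r D)) := by
    have := hli'.fintype_card_le_finrank
    simpa using this
  have hcard : n = finrank k ↥(riemannRochSpace (Finsupp.mapDomain R.r D)) := by
    have : (finrank k ↥(riemannRochSpace (Finsupp.mapDomain R.r D)) : ℤ) ≤ n := by linarith
    omega
  have htop : Submodule.span k (Set.range eb) = ⊤ :=
    hli'.span_eq_top_of_card_eq_finrank' (by rw [Fintype.card_fin]; exact hcard)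
  refine ⟨n, e, ⟨he, hspan, hli, hmem, ?_⟩, hcard⟩
  intro y hy
  have hy' : (⟨y, hy⟩ : ↥(riemannRochSpace (Finsupp.mapDomain R.r D))) ∈
      Submodule.span k (Set.range eb) := by rw [htop]; trivial
  obtain ⟨c, hc⟩ := (Submodule.mem_span_range_iff_exists_fun k).mp hy'
  refine ⟨c, ?_⟩
  have := congrArg Subtype.val hc
  simp only [heb, Submodule.coe_sum, Submodule.coe_smul] at this
  exact this.symm

namespace IsOB

variable {D : Divisor K F} {n : ℕ} {e : Fin n → F}

theorem mem_rr (h : IsOB R D e) (i : Fin n) : e i ∈ riemannRochSpace D := by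
  rw [← h.span]
  exact Submodule.subset_span ⟨i, rfl⟩

theorem comb_memO (hR : R.IsPR) (h : IsOB R D e) (c : Fin n → A) : comb e c ∈ R.O :=
  sum_mem fun i _ => gao_smul_mem hR (c i).2 (h.memO i)

theorem comb_mem_rr (h : IsOB R D e) (c : Fin n → A) : comb e c ∈ riemannRochSpace D :=
  Submodule.sum_mem _ fun i _ => Submodule.smul_mem _ _ (h.mem_rr i)

theorem red_comb (hR : R.IsPR) (h : IsOB R D e) (c : Fin n → A) :
    R.red ⟨comb e c, h.comb_memO hR c⟩ = ∑ i, R.res (c i) • R.red ⟨e i, h.memO i⟩ :=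
  gao_red_sum hR (fun i => ((c i : A) : K)) (fun i => (c i).2) e h.memO _

theorem red_comb_mem_rr (hR : R.IsPR) (h : IsOB R D e) (c : Fin n → A) :
    R.red ⟨comb e c, h.comb_memO hR c⟩ ∈ riemannRochSpace (Finsupp.mapDomain R.r D) := by
  rw [h.red_comb hR]
  exact Submodule.sum_mem _ fun i _ => Submodule.smul_mem _ _ (h.redMem i)

/-- the coefficients of an element of `L(D) ∩ O` are in `A` -/
theorem exists_coeff (hR : R.IsPR) (h : IsOB R D e) {x : F} (hx : x ∈ riemannRochSpace D)
    (hxO : x ∈ R.O) : ∃ c : Fin n → A, x = comb e c := by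
  rw [← h.span] at hx
  obtain ⟨a, ha⟩ := (Submodule.mem_span_range_iff_exists_fun K).mp hx
  have hA : ∀ j, a j ∈ A := gao_coeff_mem hR e h.memO h.li a (by rw [ha]; exact hxO)
  exact ⟨fun j => ⟨a j, hA j⟩, ha.symm⟩

/-- lifting an element of `L̄(r_* D)` -/
theorem exists_lift (hR : R.IsPR) (h : IsOB R D e) {y : Fk}
    (hy : y ∈ riemannRochSpace (Finsupp.mapDomain R.r D)) :
    ∃ c : Fin n → A, R.red ⟨comb e c, h.comb_memO hR c⟩ = y := by
  obtain ⟨cb, hcb⟩ := h.redSpan y hy
  choose c hc using fun i => hR.res_surjective (cb i)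
  refine ⟨c, ?_⟩
  rw [h.red_comb hR, hcb]
  exact Finset.sum_congr rfl fun i _ => by rw [hc i]

/-- the reduction determines the coefficients modulo `𝔪` -/
theorem res_eq_of_red_eq (hR : R.IsPR) (h : IsOB R D e) (c c' : Fin n → A)
    (hcc : R.red ⟨comb e c, h.comb_memO hR c⟩ = R.red ⟨comb e c', h.comb_memO hR c'⟩) :
    ∀ i, R.res (c i) = R.res (c' i) := by
  rw [h.red_comb hR, h.red_comb hR] at hcc
  have h0 : ∑ i, (R.res (c i) - R.res (c' i)) • R.red ⟨e i, h.memO i⟩ = 0 := by
    simp only [sub_smul, Finset.sum_sub_distrib, hcc, sub_self]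
  intro i
  have := Fintype.linearIndependent_iff.mp h.li _ h0 i
  exact sub_eq_zero.mp this

/-- if the reduction vanishes, the coefficients are in `𝔪` -/
theorem coeff_nonunit (hR : R.IsPR) (h : IsOB R D e) (c : Fin n → A)
    (h0 : R.red ⟨comb e c, h.comb_memO hR c⟩ = 0) : ∀ i, ((c i : A) : K) ∈ A.nonunits := by
  rw [h.red_comb hR] at h0
  intro i
  have := Fintype.linearIndependent_iff.mp h.li _ h0 i
  exact (hR.res_eq_zero_iff (c i)).mp this

/-- conversely -/
theorem red_eq_zero_of_nonunit (hR : R.IsPR) (h : IsOB R D e) (c : Fin n → A)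
    (hc : ∀ i, ((c i : A) : K) ∈ A.nonunits) : R.red ⟨comb e c, h.comb_memO hR c⟩ = 0 := by
  rw [h.red_comb hR]
  refine Finset.sum_eq_zero fun i _ => ?_
  rw [(hR.res_eq_zero_iff (c i)).mpr (hc i), zero_smul]

end IsOB

end Fermat.Agent.S15.Div1


end ZBW1_002_12

/-! ### bundled: `Fermat.Agent.S15.Div1Tangent` -/
section ZBW1_002_13

/-!
# S15/DIV¹, part 2: the tangent computation (helper94)

`F/K` a function field with places of degree one.  `TN`, `TR` disjoint finite sets of places with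
`L(Σ TN) = L(Σ TR) = K` (non-special), `m` invertible in `K`.  If
`m · δu = δv + δh` with `δu ∈ L(Σ TN + Σ TR)`, `δv ∈ L(m Σ TN)`, `δh ∈ L(m Σ TR)`, then `δu`, `δv`,
`δh` are constants.  (This is the injectivity, modulo the scalings, of the differential of
`(w, h, h') ↦ w ^ m - h h'` at `(1, 1, 1)`.)
-/

set_option autoImplicit false

open AlgebraicCurve Module WithZero

namespace Fermat.Agent.S15.Div1

open Fermat.Agent.W1 Fermat.Agent.ES.R Fermat.Agent.S24

variable {K F : Type} [Field K] [Field F] [Algebra K F]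

theorem smul_gpSum_apply_of_not_mem {T : Finset (Place K F)} (m : ℕ) {v : Place K F}
    (hv : v ∉ T) : (m • gpSum T) v = 0 := by
  rw [Finsupp.smul_apply, gpSum_apply_of_not_mem hv, smul_zero]

theorem smul_gpSum_nonneg (T : Finset (Place K F)) (m : ℕ) : 0 ≤ m • gpSum T :=
  nsmul_nonneg (gpSum_nonneg T) m

/-- an element of `L(m Σ T)` which has at most simple poles on `T` lies in `L(Σ T)` -/
theorem mem_rr_gpSum_of_simple {T : Finset (Place K F)} (m : ℕ) {f : F}
    (hf : f ∈ riemannRochSpace (m • gpSum T))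
    (hT : ∀ v ∈ T, v.adicValuation f ≤ exp (1 : ℤ)) : f ∈ riemannRochSpace (gpSum T) := by
  intro v
  by_cases hv : v ∈ T
  · rw [gpSum_apply_of_mem hv]; exact hT v hv
  · have := hf v
    rwa [smul_gpSum_apply_of_not_mem m hv, ← gpSum_apply_of_not_mem hv] at this

theorem natCast_eq_algebraMap (m : ℕ) : (m : F) = algebraMap K F (m : K) := by
  rw [map_natCast]

theorem tangent_const [HasPrincipalDivisors K F]
    (hres : ∀ v : Place K F, Function.Bijective (algebraMap K v.ResidueField))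
    (v₀ : Place K F) {TN TR : Finset (Place K F)} (hdisj : Disjoint TN TR)
    (hN : finrank K ↥(riemannRochSpace (gpSum TN)) = 1)
    (hRR : finrank K ↥(riemannRochSpace (gpSum TR)) = 1)
    (m : ℕ) (hm : (m : K) ≠ 0) {du dv dh : F}
    (hu : du ∈ riemannRochSpace (gpSum TN + gpSum TR))
    (hv : dv ∈ riemannRochSpace (m • gpSum TN))
    (hh : dh ∈ riemannRochSpace (m • gpSum TR))
    (heq : (m : F) * du = dv + dh) :
    (∃ c : K, du = algebraMap K F c) ∧ (∃ c : K, dv = algebraMap K F c) ∧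
      ∃ c : K, dh = algebraMap K F c := by
  have hmu : ∀ v : Place K F, v.adicValuation ((m : F) * du) ≤ v.adicValuation du := by
    intro v
    rw [map_mul, natCast_eq_algebraMap (K := K)]
    exact mul_le_of_le_one_left' (v.adicValuation_algebraMap_le_one _)
  have h01 : exp (0 : ℤ) ≤ (exp (1 : ℤ) : ℤᵐ⁰) := exp_le_exp.mpr (by norm_num)
  -- `dv ∈ L(Σ TN)`
  have hv1 : dv ∈ riemannRochSpace (gpSum TN) := by
    refine mem_rr_gpSum_of_simple m hv fun v hvN => ?_
    have hvR : v ∉ TR := fun h => Finset.disjoint_left.mp hdisj hvN h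
    have e1 : dv = (m : F) * du - dh := by rw [heq]; ring
    rw [e1]
    refine (Valuation.map_sub _ _ _).trans (max_le ?_ ?_)
    · refine (hmu v).trans ?_
      have := hu v
      rwa [Finsupp.add_apply, gpSum_apply_of_mem hvN, gpSum_apply_of_not_mem hvR,
        add_zero] at this
    · have := hh v
      rw [smul_gpSum_apply_of_not_mem m hvR] at this
      exact this.trans h01
  -- `dh ∈ L(Σ TR)`
  have hh1 : dh ∈ riemannRochSpace (gpSum TR) := by
    refine mem_rr_gpSum_of_simple m hh fun v hvR => ?_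
    have hvN : v ∉ TN := fun h => Finset.disjoint_left.mp hdisj h hvR
    have e1 : dh = (m : F) * du - dv := by rw [heq]; ring
    rw [e1]
    refine (Valuation.map_sub _ _ _).trans (max_le ?_ ?_)
    · refine (hmu v).trans ?_
      have := hu v
      rwa [Finsupp.add_apply, gpSum_apply_of_mem hvR, gpSum_apply_of_not_mem hvN,
        zero_add] at this
    · have := hv v
      rw [smul_gpSum_apply_of_not_mem m hvN] at this
      exact this.trans h01
  obtain ⟨c₂, hc₂⟩ := c1_const_of_finrank_le_one hres v₀ (gpSum_nonneg TN) hN.le hv1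
  obtain ⟨c₃, hc₃⟩ := c1_const_of_finrank_le_one hres v₀ (gpSum_nonneg TR) hRR.le hh1
  refine ⟨⟨(m : K)⁻¹ * (c₂ + c₃), ?_⟩, ⟨c₂, hc₂⟩, ⟨c₃, hc₃⟩⟩
  have hmF : (m : F) ≠ 0 := by
    rw [natCast_eq_algebraMap (K := K)]
    exact (map_ne_zero _).mpr hm
  rw [map_mul, map_inv₀, map_add, ← hc₂, ← hc₃, ← heq, ← natCast_eq_algebraMap (K := K),
    inv_mul_cancel_left₀ hmF]

end Fermat.Agent.S15.Div1


end ZBW1_002_13

/-! ### bundled: `Fermat.Agent.S15.Div1Divisor` -/
section ZBW1_002_14

/-!
# S15/DIV¹, part 3: from the solution of `w ^ m = h h'` to the divisor class (helper94)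

`D` of degree `0` with `r_* D = 0`; `Nd`, `Rd` with `r_* Nd = Σ TN`, `r_* Rd = Σ TR`, `TN`, `TR`
disjoint.  If `w ∈ L(Nd + Rd)`, `h ∈ L(D + m Nd)`, `h' ∈ L(m Rd - D)` are in `O` with reduction
`1` and `w ^ m = h h'`, then `div h + D + m Nd = m D'` with `D' ≥ 0`, `r_* D' = Σ TN`, and
`y = [D' - Nd]` is in the kernel of reduction with `m y = [D]`.
-/

set_option autoImplicit false

open AlgebraicCurve Module

namespace Fermat.Agent.S15.Div1

open Fermat.Agent.W1 Fermat.Agent.ES.R Fermat.Agent.S24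

variable {K F k Fk : Type} [Field K] [Field F] [Algebra K F] [Field k] [Field Fk] [Algebra k Fk]
variable {A : ValuationSubring K} {R : PRData K F k Fk A}

theorem div1_ord_pow (v : Place K F) (f : F) (m : ℕ) : v.ord (f ^ m) = m * v.ord f := by
  have := v.ord_zpow f (m : ℤ)
  rwa [zpow_natCast] at this

/-- the reduction of the divisor of a function of `O` with reduction `1` is `0` -/
theorem mapDomain_div_eq_zero (hR : R.IsPR) {u : F} (huO : u ∈ R.O) (hu1 : R.red ⟨u, huO⟩ = 1)
    {Z : Divisor K F} (hZ : ∀ v : Place K F, Z v = v.ord u) : Finsupp.mapDomain R.r Z = 0 := by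
  ext Q
  have h := hR.r_div ⟨u, huO⟩ (by rw [hu1]; exact one_ne_zero) Z hZ Q
  rw [h, hu1, Place.ord_one]
  rfl

theorem ne_zero_of_red_eq_one {u : F} (huO : u ∈ R.O) (hu1 : R.red ⟨u, huO⟩ = 1) : u ≠ 0 := by
  rintro rfl
  have : (⟨0, huO⟩ : R.O) = 0 := rfl
  rw [this, map_zero] at hu1
  exact zero_ne_one hu1

/-- `div f + D ≥ 0` for `f ∈ L(D)`, `f ≠ 0` -/
theorem div_add_nonneg {f : F} (hf0 : f ≠ 0) {D Z : Divisor K F}
    (hf : f ∈ riemannRochSpace D) (hZ : ∀ v : Place K F, Z v = v.ord f) : 0 ≤ Z + D := by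
  rw [Finsupp.le_def]
  intro v
  have := ((mem_riemannRochSpace_iff.mp hf) v).resolve_left hf0
  simp only [Finsupp.coe_zero, Pi.zero_apply, Finsupp.coe_add, Pi.add_apply, hZ v]
  linarith

/-- a nonnegative divisor vanishes at the places whose reduction is not in the support of its
reduction -/
theorem apply_eq_zero_of_mapDomain (r : Place K F → Place k Fk) {E : Divisor K F} (hE : 0 ≤ E)
    (P : Place K F) (h : Finsupp.mapDomain r E (r P) = 0) : E P = 0 := by
  have h1 := c1_le_mapDomain r hE P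
  rw [h] at h1
  have h0 : 0 ≤ E P := by simpa using Finsupp.le_def.mp hE P
  omega

theorem mapDomain_nsmul (r : Place K F → Place k Fk) (m : ℕ) (E : Divisor K F) :
    Finsupp.mapDomain r (m • E) = m • Finsupp.mapDomain r E := by
  rw [← Finsupp.mapDomain.addMonoidHom_apply, map_nsmul, Finsupp.mapDomain.addMonoidHom_apply]

theorem div1_divisor {g : ℕ} (hR : R.IsPR) (hF : IsNiceCurve K F g)
    {TN TR : Finset (Place k Fk)} (hdisj : Disjoint TN TR)
    (Nd Rd D : Divisor K F) (hNd : Finsupp.mapDomain R.r Nd = gpSum TN)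
    (hRd : Finsupp.mapDomain R.r Rd = gpSum TR)
    (hD0 : Finsupp.mapDomain R.r D = 0) (hDdeg : D ∈ Divisor.degZero (K := K) (F := F))
    (m : ℕ) (hm : m ≠ 0) (w h h' : F) (hwO : w ∈ R.O) (hhO : h ∈ R.O) (hh'O : h' ∈ R.O)
    (hw1 : R.red ⟨w, hwO⟩ = 1) (hh1 : R.red ⟨h, hhO⟩ = 1) (hh'1 : R.red ⟨h', hh'O⟩ = 1)
    (hw : w ∈ riemannRochSpace (Nd + Rd)) (hh : h ∈ riemannRochSpace (D + m • Nd))
    (hh' : h' ∈ riemannRochSpace (m • Rd - D)) (heq : w ^ m = h * h') :
    ∃ y : Pic0 K F, y ∈ R.J1 ∧ m • y = Pic0.mk ⟨D, hDdeg⟩ := by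
  classical
  have := hF.hpd
  have hw0 := ne_zero_of_red_eq_one hwO hw1
  have hh0 := ne_zero_of_red_eq_one hhO hh1
  have hh'0 := ne_zero_of_red_eq_one hh'O hh'1
  obtain ⟨Zw, hZw, -⟩ := HasPrincipalDivisors.exists_divisor (K := K) w hw0
  obtain ⟨Zh, hZh, hZhdeg⟩ := HasPrincipalDivisors.exists_divisor (K := K) h hh0
  obtain ⟨Zh', hZh', -⟩ := HasPrincipalDivisors.exists_divisor (K := K) h' hh'0
  have hrZh := mapDomain_div_eq_zero hR hhO hh1 hZh
  have hrZh' := mapDomain_div_eq_zero hR hh'O hh'1 hZh'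
  -- the three effective divisors
  have hDw : 0 ≤ Zw + (Nd + Rd) := div_add_nonneg hw0 hw hZw
  have hDh : 0 ≤ Zh + (D + m • Nd) := div_add_nonneg hh0 hh hZh
  have hDh' : 0 ≤ Zh' + (m • Rd - D) := div_add_nonneg hh'0 hh' hZh'
  have hZ : m • Zw = Zh + Zh' := by
    ext v
    rw [Finsupp.smul_apply, Finsupp.add_apply, hZw, hZh, hZh', ← v.ord_mul hh0 hh'0, ← heq,
      div1_ord_pow, nsmul_eq_mul]
  have hsum : m • (Zw + (Nd + Rd)) = (Zh + (D + m • Nd)) + (Zh' + (m • Rd - D)) := by
    rw [smul_add, smul_add, hZ]; abel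
  have hrDh : Finsupp.mapDomain R.r (Zh + (D + m • Nd)) = m • gpSum TN := by
    rw [Finsupp.mapDomain_add, Finsupp.mapDomain_add, mapDomain_nsmul, hrZh, hD0, hNd]
    simp
  have hrDh' : Finsupp.mapDomain R.r (Zh' + (m • Rd - D)) = m • gpSum TR := by
    rw [Finsupp.mapDomain_add, c1_mapDomain_sub, mapDomain_nsmul, hrZh', hD0, hRd]
    simp
  -- the divisor `D'`
  set D' : Divisor K F := Finsupp.filter (fun P => R.r P ∈ TN) (Zw + (Nd + Rd)) with hD'
  have hmD' : m • D' = Zh + (D + m • Nd) := by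
    ext P
    rw [Finsupp.smul_apply, hD', Finsupp.filter_apply]
    by_cases hP : R.r P ∈ TN
    · rw [if_pos hP]
      have hPR : R.r P ∉ TR := fun h => Finset.disjoint_left.mp hdisj hP h
      have h1 : (Zh' + (m • Rd - D)) P = 0 := by
        refine apply_eq_zero_of_mapDomain R.r hDh' P ?_
        rw [hrDh', Finsupp.smul_apply, gpSum_apply_of_not_mem hPR, smul_zero]
      have h2 := DFunLike.congr_fun hsum P
      rw [Finsupp.smul_apply, Finsupp.add_apply _ (Zh' + (m • Rd - D)), h1, add_zero] at h2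
      exact h2
    · rw [if_neg hP, smul_zero]
      symm
      refine apply_eq_zero_of_mapDomain R.r hDh P ?_
      rw [hrDh, Finsupp.smul_apply, gpSum_apply_of_not_mem hP, smul_zero]
  -- `m (D' - Nd) = D + div h`
  have hkey : m • (D' - Nd) = D + Zh := by
    rw [smul_sub, hmD']; abel
  have hmZ : (m : ℤ) ≠ 0 := by exact_mod_cast hm
  have hdeg : D' - Nd ∈ Divisor.degZero (K := K) (F := F) := by
    rw [Divisor.mem_degZero]
    have h1 : Divisor.degree (m • (D' - Nd)) = 0 := by
      rw [hkey, map_add, hZhdeg, Divisor.mem_degZero.mp hDdeg, add_zero]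
    rw [map_nsmul, nsmul_eq_mul] at h1
    exact (mul_eq_zero.mp h1).resolve_left hmZ
  have hred : Finsupp.mapDomain R.r (D' - Nd) = 0 := by
    have h1 : m • Finsupp.mapDomain R.r (D' - Nd) = 0 := by
      rw [← mapDomain_nsmul, hkey, Finsupp.mapDomain_add, hD0, hrZh, add_zero]
    ext Q
    have h2 := DFunLike.congr_fun h1 Q
    rw [Finsupp.smul_apply, nsmul_eq_mul] at h2
    simpa using (mul_eq_zero.mp h2).resolve_left hmZ
  refine ⟨Pic0.mk ⟨D' - Nd, hdeg⟩, ⟨⟨D' - Nd, hdeg⟩, rfl, ?_⟩, ?_⟩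
  · rw [hred]; exact AddSubgroup.zero_mem _
  · have h1 : m • Pic0.mk ⟨D' - Nd, hdeg⟩ =
        Pic0.mk (m • (⟨D' - Nd, hdeg⟩ : Divisor.degZero (K := K) (F := F))) := rfl
    rw [h1]
    unfold Pic0.mk
    rw [QuotientAddGroup.eq, AddSubgroup.mem_addSubgroupOf]
    have h2 : ((-(m • (⟨D' - Nd, hdeg⟩ : Divisor.degZero (K := K) (F := F))) +
        ⟨D, hDdeg⟩ : Divisor.degZero (K := K) (F := F)) : Divisor K F) = -Zh := by
      rw [AddSubgroup.coe_add, AddSubgroup.coe_neg, AddSubgroup.coe_nsmul]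
      show -(m • (D' - Nd)) + D = -Zh
      rw [hkey]; abel
    rw [h2]
    exact AddSubgroup.neg_mem _ ⟨h, hh0, hZh⟩

end Fermat.Agent.S15.Div1


end ZBW1_002_14

/-! ### bundled: `Fermat.Agent.S15.Div1Hensel` -/
section ZBW1_002_15

/-!
# S15 / DIV¹, piece DIV1-H (helper24): Hensel's lemma in several variables for the valuation ring
of an algebraically closed field

`stmtHenselMv : StmtHenselMv` (interface `S15/Div1Plan.lean`).  No completeness, no rank
hypothesis: the solution is found algebraically.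

* `div1h_etale` : for a square system `f : ι → R[X_σ]` (`e : ι ≃ σ`), `Δ = det (∂_{e i} f_j)`, the
  algebra `C = R[X_σ, Y] / (f, Y Δ - 1)` is étale over `R` (Mathlib's submersive presentations:
  the Jacobian of the naive presentation is block triangular with determinant `Δ²`).
* `div1h_section` (**henselian property**): `A` a valuation ring of an algebraically closed field
  `K`, `C` an étale `A`-algebra, `𝔫` a prime of `C` above `𝔪_A`: there is an `A`-algebra
  homomorphism `ψ : C → A` with `ψ(𝔫) ⊆ 𝔪_A`.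
  Proof: `C` is flat, so going-down gives a prime `𝔮 ⊆ 𝔫` above `(0)`; `Frac(C/𝔮)` is a formally
  unramified, essentially finitely generated field extension of `K`, hence separable algebraic,
  hence equal to `K`; the image of `C/𝔮` in `K` lies in `A` because an element `b ∉ A` has
  `b⁻¹ ∈ 𝔪_A ⊆ 𝔫`, which cannot become a unit of `C/𝔮`.
* `div1h_det_isUnit` : the hypothesis on the Jacobian matrix makes `Δ(a)` a unit of `A`.
* `div1h_main`, `stmtHenselMv` : the assembly, `b_j = ψ(X_j)`.
-/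

set_option autoImplicit false
set_option linter.unusedSectionVars false
set_option linter.style.haveILetI false

namespace Fermat.Agent.S15

open MvPolynomial

section Etale

variable {R : Type} [CommRing R] {σ ι : Type} [Fintype σ] [Fintype ι] [DecidableEq ι]
  [DecidableEq σ] (e : ι ≃ σ) (f : ι → MvPolynomial σ R)

/-- the Jacobian matrix `∂_{e i} f_j` -/
noncomputable def div1hJac : Matrix ι ι (MvPolynomial σ R) := fun i j => pderiv (e i) (f j)

/-- the Jacobian determinant -/
noncomputable def div1hDet : MvPolynomial σ R := (div1hJac e f).det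

/-- the relations `f_i`, `Y Δ - 1` in `R[X_σ, Y]` -/
noncomputable def div1hRel : ι ⊕ Unit → MvPolynomial (σ ⊕ Unit) R :=
  Sum.elim (fun i => rename Sum.inl (f i))
    (fun _ => X (Sum.inr ()) * rename Sum.inl (div1hDet e f) - 1)

/-- the algebra `R[X_σ, Y] / (f, Y Δ - 1)` -/
abbrev div1hC : Type := MvPolynomial (σ ⊕ Unit) R ⧸ Ideal.span (Set.range (div1hRel e f))

/-- the naive presentation -/
noncomputable def div1hPre :
    Algebra.PreSubmersivePresentation R (div1hC e f) (σ ⊕ Unit) (ι ⊕ Unit) :=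
  Algebra.PreSubmersivePresentation.naive (v := div1hRel e f) (Sum.map e id)
    (Sum.map_injective.mpr ⟨e.injective, Function.injective_id⟩)

theorem div1h_jacobiMatrix :
    (div1hPre e f).jacobiMatrix =
      Matrix.fromBlocks ((rename Sum.inl).mapMatrix (div1hJac e f))
        (Matrix.of fun i (_ : Unit) => pderiv (Sum.inl (e i)) (div1hRel e f (Sum.inr ())))
        0 (Matrix.of fun (_ _ : Unit) => rename Sum.inl (div1hDet e f)) := by
  refine Matrix.ext fun i j => ?_
  rw [div1hPre, Algebra.PreSubmersivePresentation.jacobiMatrix_naive]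
  rcases i with i | i <;> rcases j with j | j
  · rw [Matrix.fromBlocks_apply₁₁]
    simp only [Sum.map_inl, div1hRel, Sum.elim_inl,
      AlgHom.mapMatrix_apply, Matrix.map_apply, div1hJac]
    exact pderiv_rename Sum.inl_injective _ _
  · rw [Matrix.fromBlocks_apply₁₂]
    rfl
  · rw [Matrix.fromBlocks_apply₂₁]
    simp only [Sum.map_inr, id_eq, div1hRel, Sum.elim_inl, Matrix.zero_apply]
    refine pderiv_eq_zero_of_notMem_vars ?_
    intro h
    have := (vars_rename Sum.inl (f j)) h
    simp at this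
  · rw [Matrix.fromBlocks_apply₂₂]
    simp only [Sum.map_inr, id_eq, div1hRel, Sum.elim_inr]
    rw [map_sub, Derivation.leibniz, pderiv_X_self, pderiv_one, sub_zero]
    have h0 : pderiv (Sum.inr i)
        (rename Sum.inl (div1hDet e f) : MvPolynomial (σ ⊕ Unit) R) = 0 := by
      refine pderiv_eq_zero_of_notMem_vars ?_
      intro h
      have := (vars_rename Sum.inl (div1hDet e f)) h
      simp at this
    rw [h0]
    simp

theorem div1h_algebraMap (p : MvPolynomial (σ ⊕ Unit) R) :
    algebraMap (div1hPre e f).Ring (div1hC e f) p =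
      Ideal.Quotient.mk (Ideal.span (Set.range (div1hRel e f))) p := by
  rw [Algebra.Generators.algebraMap_apply]
  have h : ∀ i, (div1hPre e f).val i =
      Ideal.Quotient.mk (Ideal.span (Set.range (div1hRel e f))) (X i) := fun i => rfl
  induction p using MvPolynomial.induction_on with
  | C a => simp; rfl
  | add p q hp hq => rw [map_add, map_add, hp, hq]
  | mul_X p i hp => rw [map_mul, map_mul, hp, aeval_X, h]

theorem div1h_rel_eq_zero (i : ι ⊕ Unit) :
    Ideal.Quotient.mk (Ideal.span (Set.range (div1hRel e f))) (div1hRel e f i) = 0 :=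
  Ideal.Quotient.eq_zero_iff_mem.mpr (Ideal.subset_span ⟨i, rfl⟩)

theorem div1h_jacobian_isUnit : IsUnit (div1hPre e f).jacobian := by
  have h1 : ((rename Sum.inl).mapMatrix (div1hJac e f)).det =
      rename (Sum.inl : σ → σ ⊕ Unit) (div1hDet e f) := by
    rw [div1hDet, AlgHom.map_det]
  have h2 : (Matrix.of fun (_ _ : Unit) =>
      rename (Sum.inl : σ → σ ⊕ Unit) (div1hDet e f)).det =
      rename (Sum.inl : σ → σ ⊕ Unit) (div1hDet e f) := by
    rw [Matrix.det_unique]
    rfl
  rw [Algebra.PreSubmersivePresentation.jacobian_eq_jacobiMatrix_det, div1h_jacobiMatrix,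
    Matrix.det_fromBlocks_zero₂₁, h1, h2, div1h_algebraMap, map_mul]
  have h : Ideal.Quotient.mk (Ideal.span (Set.range (div1hRel e f)))
      (X (Sum.inr ()) * rename Sum.inl (div1hDet e f) - 1) = 0 :=
    div1h_rel_eq_zero e f (Sum.inr ())
  rw [map_sub, map_mul, map_one, sub_eq_zero] at h
  have hu : IsUnit (Ideal.Quotient.mk (Ideal.span (Set.range (div1hRel e f)))
      (rename Sum.inl (div1hDet e f))) :=
    IsUnit.of_mul_eq_one _ (by rw [mul_comm]; exact h)
  exact hu.mul hu

/-- the submersive presentation -/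
noncomputable def div1hSub :
    Algebra.SubmersivePresentation R (div1hC e f) (σ ⊕ Unit) (ι ⊕ Unit) where
  __ := div1hPre e f
  jacobian_isUnit := div1h_jacobian_isUnit e f

theorem div1h_etale : Algebra.Etale R (div1hC e f) := by
  have h : Algebra.IsStandardSmoothOfRelativeDimension 0 R (div1hC e f) := by
    refine (div1hSub e f).isStandardSmoothOfRelativeDimension ?_
    rw [Algebra.Presentation.dimension]
    simp [Nat.card_eq_fintype_card, Fintype.card_congr e]
  infer_instance

end Etale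

section Unit

variable {K : Type} [Field K] (A : ValuationSubring K)
  {σ ι : Type} [Fintype σ] [Fintype ι] [DecidableEq σ] [DecidableEq ι] (e : ι ≃ σ)
  (f : ι → MvPolynomial σ A) (a : σ → A)

/-- the Jacobian determinant at `a` is a unit if the Jacobian matrix is injective modulo `𝔪`. -/
theorem div1h_det_isUnit
    (hJ : ∀ v : σ → A,
      (∀ i, ((∑ j, MvPolynomial.eval a (MvPolynomial.pderiv j (f i)) * v j : A) : K)
        ∈ A.nonunits) →
      ∀ j, ((v j : A) : K) ∈ A.nonunits) :
    IsUnit (eval a (div1hDet e f)) := by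
  rw [← IsLocalRing.notMem_maximalIdeal]
  intro hmem
  -- the matrix `N i i' = ∂_{e i'} f_i (a)`
  set N : Matrix ι ι A := fun i i' => eval a (pderiv (e i') (f i)) with hN
  have hdet : N.det = eval a (div1hDet e f) := by
    rw [div1hDet, RingHom.map_det, ← Matrix.det_transpose]
    rfl
  have h0 : ((IsLocalRing.residue A).mapMatrix N).det = 0 := by
    rw [← RingHom.map_det, hdet, IsLocalRing.residue_eq_zero_iff]
    exact hmem
  obtain ⟨w, hw0, hw⟩ := Matrix.exists_mulVec_eq_zero_iff.mpr h0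
  have hsurj := IsLocalRing.residue_surjective (R := A)
  choose w' hw' using fun i => hsurj (w i)
  have key := hJ (fun j => w' (e.symm j)) ?_
  · apply hw0
    funext i
    have h1 := key (e i)
    rw [ValuationSubring.coe_mem_nonunits_iff, ← IsLocalRing.residue_eq_zero_iff,
      Equiv.symm_apply_apply, hw'] at h1
    exact h1
  · intro i
    rw [ValuationSubring.coe_mem_nonunits_iff, ← IsLocalRing.residue_eq_zero_iff]
    have h2 := congrFun hw i
    rw [Matrix.mulVec, dotProduct] at h2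
    rw [map_sum, ← Equiv.sum_comp e]
    rw [Pi.zero_apply] at h2
    rw [← h2]
    refine Finset.sum_congr rfl fun i' _ => ?_
    rw [map_mul, Equiv.symm_apply_apply, hw']
    rfl

end Unit

section Section

/-- **Henselian property for étale algebras** over the valuation ring of an algebraically closed
field: a prime of an étale `A`-algebra above the maximal ideal carries an `A`-section. -/
theorem div1h_section {K : Type} [Field K] [IsAlgClosed K] (A : ValuationSubring K)
    (C : Type) [CommRing C] [Algebra A C] [Algebra.Etale A C]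
    (𝔫 : Ideal C) [𝔫.IsPrime] [𝔫.LiesOver (IsLocalRing.maximalIdeal A)] :
    ∃ ψ : C →ₐ[A] A, ∀ c ∈ 𝔫, ψ c ∈ IsLocalRing.maximalIdeal A := by
  obtain ⟨𝔮, h𝔮𝔫, h𝔮p, h𝔮o⟩ := Ideal.exists_ideal_le_liesOver_of_le (p := (⊥ : Ideal A))
    (q := IsLocalRing.maximalIdeal A) 𝔫 bot_le
  have h1𝔫 : (1 : C) ∉ 𝔫 := fun h => (Ideal.IsPrime.ne_top inferInstance)
    ((Ideal.eq_top_iff_one 𝔫).mpr h)
  have hinjAD : Function.Injective (algebraMap A (C ⧸ 𝔮)) := by
    rw [injective_iff_map_eq_zero]
    intro x hx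
    have h2 : algebraMap A C x ∈ 𝔮 := Ideal.Quotient.eq_zero_iff_mem.mp hx
    have h3 : x ∈ 𝔮.under A := h2
    rw [← h𝔮o.over] at h3
    exact h3
  have hinjAL : Function.Injective (algebraMap A (FractionRing (C ⧸ 𝔮))) := by
    rw [IsScalarTower.algebraMap_eq A (C ⧸ 𝔮) (FractionRing (C ⧸ 𝔮))]
    exact (IsFractionRing.injective (C ⧸ 𝔮) (FractionRing (C ⧸ 𝔮))).comp hinjAD
  letI : Algebra K (FractionRing (C ⧸ 𝔮)) := (IsFractionRing.lift hinjAL).toAlgebra
  haveI : IsScalarTower A K (FractionRing (C ⧸ 𝔮)) :=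
    IsScalarTower.of_algebraMap_eq fun x => (IsFractionRing.lift_algebraMap hinjAL x).symm
  haveI : Algebra.FormallyUnramified K (FractionRing (C ⧸ 𝔮)) :=
    Algebra.FormallyUnramified.of_restrictScalars A K (FractionRing (C ⧸ 𝔮))
  haveI : Algebra.EssFiniteType K (FractionRing (C ⧸ 𝔮)) :=
    Algebra.EssFiniteType.of_comp A K (FractionRing (C ⧸ 𝔮))
  haveI : Algebra.IsSeparable K (FractionRing (C ⧸ 𝔮)) :=
    Algebra.FormallyUnramified.isSeparable K (FractionRing (C ⧸ 𝔮))
  have hbij : Function.Bijective (algebraMap K (FractionRing (C ⧸ 𝔮))) :=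
    IsAlgClosed.algebraMap_bijective_of_isIntegral
  have hinjDL := IsFractionRing.injective (C ⧸ 𝔮) (FractionRing (C ⧸ 𝔮))
  have hAKL : ∀ x : A, algebraMap K (FractionRing (C ⧸ 𝔮)) (x : K) =
      algebraMap (C ⧸ 𝔮) (FractionRing (C ⧸ 𝔮)) (algebraMap A (C ⧸ 𝔮) x) := fun x => by
    rw [← IsScalarTower.algebraMap_apply A (C ⧸ 𝔮) (FractionRing (C ⧸ 𝔮)),
      IsScalarTower.algebraMap_apply A K (FractionRing (C ⧸ 𝔮))]
    rfl
  have hmk : ∀ x : A, algebraMap A (C ⧸ 𝔮) x = Ideal.Quotient.mk 𝔮 (algebraMap A C x) :=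
    fun x => rfl
  -- a unit of `C ⧸ 𝔮` coming from `𝔫` gives a contradiction
  have hcontra : ∀ c ∈ 𝔫, ∀ d : C, Ideal.Quotient.mk 𝔮 c * Ideal.Quotient.mk 𝔮 d = 1 → False := by
    intro c hc d hcd
    rw [← map_mul, ← map_one (Ideal.Quotient.mk 𝔮), Ideal.Quotient.eq] at hcd
    have h2 : c * d - 1 ∈ 𝔫 := h𝔮𝔫 hcd
    have h3 : c * d ∈ 𝔫 := Ideal.mul_mem_right d 𝔫 hc
    exact h1𝔫 (by simpa using sub_mem h3 h2)
  have hm𝔫 : ∀ y : A, y ∈ IsLocalRing.maximalIdeal A → algebraMap A C y ∈ 𝔫 := by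
    intro y hy
    have : y ∈ 𝔫.under A := by
      rw [← Ideal.over_def 𝔫 (IsLocalRing.maximalIdeal A)]
      exact hy
    exact this
  have key : ∀ c : C, ∃ x : A, algebraMap A (C ⧸ 𝔮) x = Ideal.Quotient.mk 𝔮 c := by
    intro c
    obtain ⟨b, hb⟩ := hbij.2 (algebraMap (C ⧸ 𝔮) (FractionRing (C ⧸ 𝔮)) (Ideal.Quotient.mk 𝔮 c))
    by_cases hbA : b ∈ A
    · refine ⟨⟨b, hbA⟩, hinjDL ?_⟩
      rw [← hAKL, ← hb]
    · exfalso
      have hbI : b⁻¹ ∈ A := (A.mem_or_inv_mem b).resolve_left hbA
      have hb0 : b ≠ 0 := fun h => hbA (h ▸ A.zero_mem)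
      have hy : (⟨b⁻¹, hbI⟩ : A) ∈ IsLocalRing.maximalIdeal A := by
        rw [ValuationSubring.valuation_lt_one_iff]
        have h1 : ¬ A.valuation b ≤ 1 := fun h => hbA ((A.valuation_le_one_iff b).mp h)
        have h2 : 0 < A.valuation b := lt_of_le_of_lt zero_le_one (not_le.mp h1)
        change A.valuation b⁻¹ < 1
        rw [map_inv₀, inv_lt_one₀ h2]
        exact not_le.mp h1
      refine hcontra _ (hm𝔫 _ hy) c (hinjDL ?_)
      rw [map_mul, map_one, ← hmk, ← hAKL, ← hb, ← map_mul]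
      change algebraMap K (FractionRing (C ⧸ 𝔮)) (b⁻¹ * b) = 1
      rw [inv_mul_cancel₀ hb0, map_one]
  choose ψ hψ using key
  have hψu : ∀ (c : C) (x : A), algebraMap A (C ⧸ 𝔮) x = Ideal.Quotient.mk 𝔮 c → ψ c = x :=
    fun c x hx => hinjAD ((hψ c).trans hx.symm)
  refine ⟨{ toFun := ψ
            map_one' := hψu 1 1 (by rw [map_one, map_one])
            map_mul' := fun c d => hψu _ _ (by rw [map_mul, map_mul, hψ, hψ])
            map_zero' := hψu 0 0 (by rw [map_zero, map_zero])
            map_add' := fun c d => hψu _ _ (by rw [map_add, map_add, hψ, hψ])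
            commutes' := fun x => hψu _ _ (hmk x) }, ?_⟩
  intro c hc
  by_contra hcm
  rw [IsLocalRing.notMem_maximalIdeal] at hcm
  obtain ⟨y, hy⟩ := hcm.exists_right_inv
  replace hy : ψ c * y = 1 := hy
  refine hcontra c hc (algebraMap A C y) ?_
  rw [← hmk, ← hψ c, ← map_mul]
  change algebraMap A (C ⧸ 𝔮) (ψ c * y) = 1
  rw [hy, map_one]

end Section

section Main

variable {K : Type} [Field K] [IsAlgClosed K] (A : ValuationSubring K)
  {σ ι : Type} [Fintype σ] [Fintype ι] [DecidableEq σ] [DecidableEq ι]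
  (f : ι → MvPolynomial σ A) (a : σ → A)

/-- evaluation at the residue of the point `(a, u)` -/
noncomputable def div1hEval (u : A) :
    MvPolynomial (σ ⊕ Unit) A →+* IsLocalRing.ResidueField A :=
  eval₂Hom (IsLocalRing.residue A)
    (Sum.elim (fun j => IsLocalRing.residue A (a j)) (fun _ => IsLocalRing.residue A u))

theorem div1hEval_rename (u : A) (p : MvPolynomial σ A) :
    div1hEval A a u (rename Sum.inl p) = IsLocalRing.residue A (eval a p) := by
  rw [div1hEval, coe_eval₂Hom, eval₂_rename]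
  have h := eval₂_comp_left (IsLocalRing.residue A) (RingHom.id A) a p
  rw [RingHom.comp_id] at h
  exact h.symm

theorem div1hEval_X (u : A) (i : σ ⊕ Unit) :
    div1hEval A a u (X i) =
      Sum.elim (fun j => IsLocalRing.residue A (a j)) (fun _ => IsLocalRing.residue A u) i := by
  rw [div1hEval, coe_eval₂Hom, eval₂_X]

theorem div1hEval_C (u : A) (r : A) :
    div1hEval A a u (C r) = IsLocalRing.residue A r := by
  rw [div1hEval, coe_eval₂Hom, eval₂_C]

theorem div1hEval_rel (e : ι ≃ σ) (u : A) (hu : eval a (div1hDet e f) * u = 1)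
    (hfa : ∀ i, ((eval a (f i) : A) : K) ∈ A.nonunits) :
    ∀ r ∈ Ideal.span (Set.range (div1hRel e f)), div1hEval A a u r = 0 := by
  intro r hr
  have hle : Ideal.span (Set.range (div1hRel e f)) ≤ RingHom.ker (div1hEval A a u) := by
    rw [Ideal.span_le]
    rintro _ ⟨i, rfl⟩
    rw [SetLike.mem_coe, RingHom.mem_ker]
    rcases i with i | i
    · change div1hEval A a u (rename Sum.inl (f i)) = 0
      rw [div1hEval_rename, IsLocalRing.residue_eq_zero_iff,
        ← ValuationSubring.coe_mem_nonunits_iff]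
      exact hfa i
    · change div1hEval A a u (X (Sum.inr ()) * rename Sum.inl (div1hDet e f) - 1) = 0
      rw [map_sub, map_mul, map_one, div1hEval_rename, div1hEval_X, Sum.elim_inr, ← map_mul,
        mul_comm, hu, map_one, sub_self]
  exact hle hr

theorem div1h_main (e : ι ≃ σ) (hfa : ∀ i, ((eval a (f i) : A) : K) ∈ A.nonunits)
    (hJ : ∀ v : σ → A,
      (∀ i, ((∑ j, MvPolynomial.eval a (MvPolynomial.pderiv j (f i)) * v j : A) : K)
        ∈ A.nonunits) →
      ∀ j, ((v j : A) : K) ∈ A.nonunits) :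
    ∃ b : σ → A, (∀ j, ((b j - a j : A) : K) ∈ A.nonunits) ∧ ∀ i, eval b (f i) = 0 := by
  obtain ⟨u, hu⟩ := (div1h_det_isUnit A e f a hJ).exists_right_inv
  have hφI := div1hEval_rel A f a e u hu hfa
  haveI : Algebra.Etale A (div1hC e f) := div1h_etale e f
  obtain ⟨β, hβ⟩ : ∃ β : div1hC e f →+* IsLocalRing.ResidueField A,
      ∀ p, β (Ideal.Quotient.mk _ p) = div1hEval A a u p :=
    ⟨Ideal.Quotient.lift _ (div1hEval A a u) hφI, fun p => Ideal.Quotient.lift_mk _ _ _⟩
  haveI : (RingHom.ker β).IsPrime := RingHom.ker_isPrime β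
  haveI : (RingHom.ker β).LiesOver (IsLocalRing.maximalIdeal A) := by
    refine ⟨?_⟩
    ext x
    rw [Ideal.mem_comap, RingHom.mem_ker, ← IsLocalRing.residue_eq_zero_iff]
    have : algebraMap A (div1hC e f) x = Ideal.Quotient.mk _ (C x) := rfl
    rw [this, hβ, div1hEval_C]
  obtain ⟨ψ, hψ⟩ := div1h_section A (div1hC e f) (RingHom.ker β)
  refine ⟨fun j => ψ (Ideal.Quotient.mk _ (X (Sum.inl j))), fun j => ?_, fun i => ?_⟩
  · rw [ValuationSubring.coe_mem_nonunits_iff]
    have h1 : ψ (Ideal.Quotient.mk _ (X (Sum.inl j))) - a j =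
        ψ (Ideal.Quotient.mk _ (X (Sum.inl j) - C (a j))) := by
      rw [map_sub, map_sub]
      congr 1
      exact (ψ.commutes (a j)).symm
    rw [h1]
    refine hψ _ ?_
    rw [RingHom.mem_ker, hβ, map_sub, div1hEval_X, div1hEval_C, Sum.elim_inl, sub_self]
  · have h2 : ∀ p : MvPolynomial σ A,
        eval (fun j => ψ (Ideal.Quotient.mk _ (X (Sum.inl j)))) p =
        ψ (Ideal.Quotient.mk _ (rename Sum.inl p)) := by
      intro p
      induction p using MvPolynomial.induction_on with
      | C r =>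
        rw [eval_C, rename_C]
        exact (ψ.commutes r).symm
      | add p q hp hq => rw [map_add, map_add, map_add, map_add, hp, hq]
      | mul_X p j hp => rw [map_mul, map_mul, map_mul, map_mul, hp, eval_X, rename_X]
    have h3 : Ideal.Quotient.mk (Ideal.span (Set.range (div1hRel e f)))
        (rename Sum.inl (f i)) = 0 := div1h_rel_eq_zero e f (Sum.inl i)
    rw [h2, h3, map_zero]

/-- **DIV1-H**: Hensel's lemma in several variables for the valuation ring of an algebraically
closed field. -/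
theorem stmtHenselMv : StmtHenselMv := by
  intro K _ _ A σ ι _ _ hcard f a hfa hJ
  classical
  exact div1h_main A f a (Fintype.equivOfCardEq hcard) hfa hJ

end Main

end Fermat.Agent.S15


end ZBW1_002_15

/-! ### bundled: `Fermat.Agent.S15.PlanN` -/
section ZBW1_002_16

/-!
# S15 block LOCAL-N (TORIC): exact statements (sub-captain helper5)

Plan: `NOTES/S15-LocalN.md`.  `N` the (prime) level, `A ⊂ ℚ̄` a valuation ring over `N`,
`J = JZero N`.  The special fibre of `X₀(N)` at `N` is a union of two rational curves `C₁ ∋ ∞`,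
`C₂ ∋ 0` crossing at the supersingular points.

## Part 1: what the descent (block SELMER) consumes — `LNPkg`, `LNPkg.IsLN`
Two subgroups `J1 ≤ J0 ≤ J`:
`J0` = classes of divisors supported on places of smooth type, of degree `0` on each component,
`J1` = kernel of the reduction `J0 → T(k)` to the torus of the special fibre.

## Part 2: the abstract two-component reduction package — `TRData`, `TRData.IsTR`
(`onto`, `slope`, `glue_unit` are NOT axioms: they are proved in `S15/LNDerived.lean` from `r_div`,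
`glue` and the degree count.)
The analogue of `W1.PRData` for a special fibre with two rational components: two Gauss valuation
rings `O₁, O₂` with residue fields `F₁, F₂`, the reduction `r` of the places of smooth type, the
crossing pairs `X`.  Pieces: `StmtTorTF`, `StmtTorDiv`, `StmtTorQuot`, `StmtTorCount`.

## Part 3: the modular package — `ModTR`, `StmtModTR`, and the glue `StmtLNGlue`.
-/

set_option autoImplicit false

noncomputable section

open AlgebraicCurve Module ModularCurve

namespace Fermat.Agent.S15.LN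

open Fermat.Agent.W1 Fermat.Agent.S24 Fermat.Agent.S15

/-! ## Part 1: the interface consumed by the descent -/

/-- the two subgroups at `A ∣ N` -/
structure LNPkg (N : ℕ) [NeZero N] where
  /-- classes of degree `0` on each component (the points of the torus part `T(A)`) -/
  J0 : AddSubgroup (JZero N)
  /-- kernel of reduction of `J0` -/
  J1 : AddSubgroup (JZero N)

/-- the properties of the toric filtration at `A ∣ N` (`g` = genus = rank of the torus). -/
structure LNPkg.IsLN {N : ℕ} [NeZero N] (P : LNPkg N) (A : ValuationSubring Kb) (g : ℕ) :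
    Prop where
  le : P.J1 ≤ P.J0
  decomp0 : ∀ σ ∈ A.decompositionSubgroup ℚ, ∀ x ∈ P.J0, σ • x ∈ P.J0
  decomp1 : ∀ σ ∈ A.decompositionSubgroup ℚ, ∀ x ∈ P.J1, σ • x ∈ P.J1
  /-- inertia acts trivially on `J0 / J1` -/
  inertia : ∀ σ ∈ A.inertiaSubgroupIn ℚ, ∀ x ∈ P.J0, σ • x - x ∈ P.J1
  /-- `J0` is stable under the Hecke operators `T_q`, `q ≠ N` -/
  hecke : ∀ q : Nat.Primes, (q : ℕ) ≠ N → ∀ x ∈ P.J0, heckeOperatorBar N q x ∈ P.J0
  /-- `J1` has no `m`-torsion, `m` prime to the residue characteristic -/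
  tf : ∀ m : ℕ, (m : Kb) ∉ A.nonunits → ∀ x ∈ P.J1, m • x = 0 → x = 0
  /-- `J1` is `m`-divisible, `m` prime to the residue characteristic -/
  div1 : ∀ m : ℕ, (m : Kb) ∉ A.nonunits → ∀ x ∈ P.J1, ∃ y ∈ P.J1, m • y = x
  /-- `J0 / J1` (a torus over an algebraically closed field) is divisible -/
  quot : ∀ m : ℕ, m ≠ 0 → ∀ x ∈ P.J0, ∃ y ∈ P.J0, x - m • y ∈ P.J1
  /-- the toric part of the `m`-torsion has `m ^ g` elements -/
  count : ∀ m : ℕ, (m : Kb) ∉ A.nonunits →
    Nat.card ↥(P.J0 ⊓ Pic0.torsion Kb (FF N) m) = m ^ g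

/-! ## Part 2: the abstract two-component reduction package -/

section Abstract

variable {K F k F₁ F₂ : Type} [Field K] [Field F] [Algebra K F] [Field k]
  [Field F₁] [Algebra k F₁] [Field F₂] [Algebra k F₂]

variable (K F k F₁ F₂) in
/-- The data of a reduction with two components: residue map of `A`, the two Gauss valuation rings
of `F` with their residue maps to the function fields `F₁`, `F₂` of the components, the reduction
of the places of smooth type (`none` : the place reduces to a crossing point), and the crossing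
points as pairs (point of `C₁`, point of `C₂`). -/
structure TRData (A : ValuationSubring K) where
  res : A →+* k
  O₁ : ValuationSubring F
  O₂ : ValuationSubring F
  red₁ : O₁ →+* F₁
  red₂ : O₂ →+* F₂
  r : Place K F → Option (Place k F₁ ⊕ Place k F₂)
  X : Finset (Place k F₁ × Place k F₂)

variable {A : ValuationSubring K}

/-- the contribution of a place to the push-forward on the first component -/
def TRData.pt₁ (R : TRData K F k F₁ F₂ A) (P : Place K F) : ℤ →+ Divisor k F₁ :=
  match R.r P with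
  | some (Sum.inl Q) => Finsupp.singleAddHom Q
  | _ => 0

/-- the contribution of a place to the push-forward on the second component -/
def TRData.pt₂ (R : TRData K F k F₁ F₂ A) (P : Place K F) : ℤ →+ Divisor k F₂ :=
  match R.r P with
  | some (Sum.inr Q) => Finsupp.singleAddHom Q
  | _ => 0

/-- `r_*` on the first component: the places of smooth type reducing to `C₁` -/
def TRData.push₁ (R : TRData K F k F₁ F₂ A) : Divisor K F →+ Divisor k F₁ :=
  Finsupp.liftAddHom R.pt₁

/-- `r_*` on the second component -/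
def TRData.push₂ (R : TRData K F k F₁ F₂ A) : Divisor K F →+ Divisor k F₂ :=
  Finsupp.liftAddHom R.pt₂

/-- divisors supported on places of smooth type -/
def TRData.smDiv (R : TRData K F k F₁ F₂ A) : AddSubgroup (Divisor K F) where
  carrier := {D | ∀ P, D P ≠ 0 → (R.r P).isSome}
  zero_mem' := fun P h => absurd rfl h
  add_mem' := by
    intro D E hD hE P h
    by_cases hP : D P = 0
    · refine hE P fun hE0 => h ?_
      rw [Finsupp.add_apply, hP, hE0, add_zero]
    · exact hD P hP
  neg_mem' := by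
    intro D hD P h
    refine hD P fun h0 => h ?_
    rw [Finsupp.neg_apply, h0, neg_zero]

/-- divisors of smooth type and of degree `0` on each component -/
def TRData.div00 (R : TRData K F k F₁ F₂ A) : AddSubgroup (Divisor K F) :=
  R.smDiv ⊓ (Divisor.degree.comp R.push₁).ker ⊓ (Divisor.degree.comp R.push₂).ker

/-- regular at every crossing point, with the same value on both branches -/
def TRData.Glued (R : TRData K F k F₁ F₂ A) (f₁ : F₁) (f₂ : F₂) : Prop :=
  ∀ x ∈ R.X, ∃ a : k, HasValueAt x.1 f₁ a ∧ HasValueAt x.2 f₂ a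

/-- a unit at every crossing point, with the same value on both branches -/
def TRData.GluedUnit (R : TRData K F k F₁ F₂ A) (f₁ : F₁) (f₂ : F₂) : Prop :=
  ∀ x ∈ R.X, ∃ a : k, a ≠ 0 ∧ HasValueAt x.1 f₁ a ∧ HasValueAt x.2 f₂ a

/-- the pair of divisors `(E₁, E₂)` is the divisor of a rational function on the nodal curve
`C₁ ∪ C₂` which is a unit at the crossing points -/
def TRData.IsPrincBar (R : TRData K F k F₁ F₂ A) (E : Divisor k F₁ × Divisor k F₂) : Prop :=
  ∃ (f₁ : F₁) (f₂ : F₂), f₁ ≠ 0 ∧ f₂ ≠ 0 ∧ R.GluedUnit f₁ f₂ ∧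
    (∀ Q, E.1 Q = Q.ord f₁) ∧ ∀ Q, E.2 Q = Q.ord f₂

/-- principal divisors of the nodal curve (the set `IsPrincBar` is a subgroup; the closure is
taken only to have no proof obligation here) -/
def TRData.princBar (R : TRData K F k F₁ F₂ A) : AddSubgroup (Divisor k F₁ × Divisor k F₂) :=
  AddSubgroup.closure {E | R.IsPrincBar E}

/-- divisors of type `(0, 0)` whose reduction is principal on the nodal curve -/
def TRData.div1 (R : TRData K F k F₁ F₂ A) : AddSubgroup (Divisor K F) :=
  R.div00 ⊓ R.princBar.comap (R.push₁.prod R.push₂)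

/-- the class map `Div⁰ → Pic⁰` -/
def pic0Hom (K F : Type) [Field K] [Field F] [Algebra K F] :
    ↥(Divisor.degZero (K := K) (F := F)) →+ Pic0 K F :=
  QuotientAddGroup.mk' _

/-- `J⁰`: classes of the divisors of smooth type which have degree `0` on each component -/
def TRData.J0 (R : TRData K F k F₁ F₂ A) : AddSubgroup (Pic0 K F) :=
  (R.div00.addSubgroupOf Divisor.degZero).map (pic0Hom K F)

/-- `J¹`: the kernel of the reduction `J⁰ → Pic⁰(C₁ ∪ C₂) = T(k)` -/
def TRData.J1 (R : TRData K F k F₁ F₂ A) : AddSubgroup (Pic0 K F) :=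
  (R.div1.addSubgroupOf Divisor.degZero).map (pic0Hom K F)

/-- The axioms of a two-component reduction. -/
structure TRData.IsTR (R : TRData K F k F₁ F₂ A) : Prop where
  res_surjective : Function.Surjective R.res
  res_eq_zero_iff : ∀ a : A, R.res a = 0 ↔ (a : K) ∈ A.nonunits
  algebraMap_mem_iff₁ : ∀ a : K, algebraMap K F a ∈ R.O₁ ↔ a ∈ A
  algebraMap_mem_iff₂ : ∀ a : K, algebraMap K F a ∈ R.O₂ ↔ a ∈ A
  red₁_surjective : Function.Surjective R.red₁
  red₂_surjective : Function.Surjective R.red₂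
  red₁_eq_zero_iff : ∀ x : R.O₁, R.red₁ x = 0 ↔ (x : F) ∈ R.O₁.nonunits
  red₂_eq_zero_iff : ∀ x : R.O₂, R.red₂ x = 0 ↔ (x : F) ∈ R.O₂.nonunits
  red₁_algebraMap : ∀ (a : A) (h : algebraMap K F (a : K) ∈ R.O₁),
    R.red₁ ⟨algebraMap K F (a : K), h⟩ = algebraMap k F₁ (R.res a)
  red₂_algebraMap : ∀ (a : A) (h : algebraMap K F (a : K) ∈ R.O₂),
    R.red₂ ⟨algebraMap K F (a : K), h⟩ = algebraMap k F₂ (R.res a)
  prim₁ : ∀ f : F, f ≠ 0 → ∃ a : K, a ≠ 0 ∧ ∃ h : algebraMap K F a * f ∈ R.O₁,
    R.red₁ ⟨algebraMap K F a * f, h⟩ ≠ 0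
  prim₂ : ∀ f : F, f ≠ 0 → ∃ a : K, a ≠ 0 ∧ ∃ h : algebraMap K F a * f ∈ R.O₂,
    R.red₂ ⟨algebraMap K F a * f, h⟩ ≠ 0
  /-- the two components are different -/
  indep : ∃ f : F, f ∈ R.O₁.nonunits ∧ f ∉ R.O₂.nonunits ∧ f ∈ R.O₂
  /-- a place of smooth type does not reduce to a crossing point -/
  cross₁ : ∀ P Q, R.r P = some (Sum.inl Q) → ∀ x ∈ R.X, x.1 ≠ Q
  cross₂ : ∀ P Q, R.r P = some (Sum.inr Q) → ∀ x ∈ R.X, x.2 ≠ Q
  cross_inj₁ : ∀ x ∈ R.X, ∀ y ∈ R.X, x.1 = y.1 → x = y
  cross_inj₂ : ∀ x ∈ R.X, ∀ y ∈ R.X, x.2 = y.2 → x = y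
  /-- `r_*(div u) = div(ū)` at the smooth points of `C₁` -/
  r_div₁ : ∀ u : R.O₁, R.red₁ u ≠ 0 → ∀ D : Divisor K F, (∀ P, D P = P.ord (u : F)) →
    ∀ Q : Place k F₁, (∀ x ∈ R.X, x.1 ≠ Q) → R.push₁ D Q = Q.ord (R.red₁ u)
  /-- `r_*(div u) = div(ū)` at the smooth points of `C₂` -/
  r_div₂ : ∀ u : R.O₂, R.red₂ u ≠ 0 → ∀ D : Divisor K F, (∀ P, D P = P.ord (u : F)) →
    ∀ Q : Place k F₂, (∀ x ∈ R.X, x.2 ≠ Q) → R.push₂ D Q = Q.ord (R.red₂ u)
  /-- a function integral at both Gauss valuations, without poles reducing to the crossing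
  points, is regular at the crossing points and has the same value on both branches
  (normality of the model at the nodes: UNIP Lemma U) -/
  glue : ∀ (u : F) (h₁ : u ∈ R.O₁) (h₂ : u ∈ R.O₂), (∀ P : Place K F, P.ord u < 0 → (R.r P).isSome) →
    R.Glued (R.red₁ ⟨u, h₁⟩) (R.red₂ ⟨u, h₂⟩)

/-- the glued Riemann–Roch space `L̄(r_* D)` of the nodal curve: pairs `(f₁, f₂)` with
`f_i ∈ L(r_{i*} D)`, regular at the crossing points with the same value on both branches
(the set is a subspace; the span is taken only to have no proof obligation here) -/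
def TRData.Lbar (R : TRData K F k F₁ F₂ A) (D : Divisor K F) :
    Submodule k (F₁ × F₂) :=
  Submodule.span k {f | f.1 ∈ riemannRochSpace (R.push₁ D) ∧
    f.2 ∈ riemannRochSpace (R.push₂ D) ∧ R.Glued f.1 f.2}

/-- orthonormal bases of the spaces `L(D)`, `D` of smooth type, for the norm
`max (|·|₁, |·|₂)` -/
def TRData.Orth (R : TRData K F k F₁ F₂ A) : Prop :=
  ∀ D ∈ R.smDiv, ∃ (n : ℕ) (e : Fin n → F) (h₁ : ∀ i, e i ∈ R.O₁) (h₂ : ∀ i, e i ∈ R.O₂),
    Submodule.span K (Set.range e) = riemannRochSpace D ∧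
    LinearIndependent k (fun i => ((R.red₁ ⟨e i, h₁ i⟩, R.red₂ ⟨e i, h₂ i⟩) : F₁ × F₂)) ∧
    ∀ i, ((R.red₁ ⟨e i, h₁ i⟩, R.red₂ ⟨e i, h₂ i⟩) : F₁ × F₂) ∈ R.Lbar D

/-- the hypotheses common to the abstract pieces: a two-component reduction of a curve of genus
`g` whose components are rational and cross in `g + 1` points, with orthonormal bases. -/
structure TRData.IsToric (R : TRData K F k F₁ F₂ A) (g : ℕ) : Prop where
  isTR : R.IsTR
  nice : IsNiceCurve K F g
  nice₁ : IsNiceCurve k F₁ 0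
  nice₂ : IsNiceCurve k F₂ 0
  card : R.X.card = g + 1
  orth : R.Orth

end Abstract

/-- **LN-TF**: the kernel of reduction has no `m`-torsion, `m` a unit of `A`. -/
def StmtTorTF : Prop :=
  ∀ (K F k F₁ F₂ : Type) [Field K] [Field F] [Algebra K F] [Field k]
    [Field F₁] [Algebra k F₁] [Field F₂] [Algebra k F₂] [IsAlgClosed K]
    (A : ValuationSubring K) (R : TRData K F k F₁ F₂ A) (g : ℕ), R.IsToric g →
    ∀ m : ℕ, (m : K) ∉ A.nonunits → ∀ x : Pic0 K F, x ∈ R.J1 → m • x = 0 → x = 0

/-- **LN-DIV**: the kernel of reduction is `m`-divisible, `m` a unit of `A`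
(transplant of `S15.StmtDiv1` to the nodal curve). -/
def StmtTorDiv : Prop :=
  ∀ (K F k F₁ F₂ : Type) [Field K] [Field F] [Algebra K F] [Field k]
    [Field F₁] [Algebra k F₁] [Field F₂] [Algebra k F₂] [IsAlgClosed K]
    (A : ValuationSubring K) (R : TRData K F k F₁ F₂ A) (g : ℕ), R.IsToric g →
    ∀ m : ℕ, (m : K) ∉ A.nonunits → ∀ x : Pic0 K F, x ∈ R.J1 →
      ∃ y : Pic0 K F, y ∈ R.J1 ∧ m • y = x

/-- **LN-Q**: `J⁰ / J¹` is divisible (interpolation on the two rational components, `k`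
algebraically closed, and lifting of smooth points). -/
def StmtTorQuot : Prop :=
  ∀ (K F k F₁ F₂ : Type) [Field K] [Field F] [Algebra K F] [Field k]
    [Field F₁] [Algebra k F₁] [Field F₂] [Algebra k F₂] [IsAlgClosed K] [IsAlgClosed k]
    (A : ValuationSubring K) (R : TRData K F k F₁ F₂ A) (g : ℕ), R.IsToric g →
    ∀ m : ℕ, m ≠ 0 → ∀ x : Pic0 K F, x ∈ R.J0 → ∃ y : Pic0 K F, y ∈ R.J0 ∧ x - m • y ∈ R.J1

/-- **LN-CNT**: the toric part of the `m`-torsion has `m ^ g` elements. -/
def StmtTorCount : Prop :=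
  ∀ (K F k F₁ F₂ : Type) [Field K] [Field F] [Algebra K F] [Field k]
    [Field F₁] [Algebra k F₁] [Field F₂] [Algebra k F₂] [IsAlgClosed K] [IsAlgClosed k]
    (A : ValuationSubring K) (R : TRData K F k F₁ F₂ A) (g : ℕ), R.IsToric g →
    ∀ m : ℕ, (m : K) ∉ A.nonunits →
      Nat.card ↥(R.J0 ⊓ Pic0.torsion K F m) = m ^ g

/-! ## Part 3: the modular package -/

/-- the function field of the `j`-line over the residue field (one possible choice of the
types `F₁`, `F₂` below; the package allows any) -/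
abbrev FFk (A : ValuationSubring Kb) : Type :=
  ↥(modularFunctionFieldFullC (IsLocalRing.ResidueField A) 1)

section Modular

variable {F₁ F₂ : Type} [Field F₁] [Field F₂]

/-- **LN-PKG**: the two-component reduction package of `X₀(N)` at `A ∣ N`, `N` prime, with its
compatibility with the decomposition group, with the Hecke operators, and with the cusps.
`C₁` is the component of the cusp `∞`, `C₂` the component of the cusp `0`; `F₁`, `F₂` are
their function fields (both are `k(j̄)`; the instance chooses the types, e.g.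
`modularFunctionFieldFullC k N`, which is `k(j̄)` in characteristic `N`). -/
structure ModTR (N : ℕ) [NeZero N] (A : ValuationSubring Kb) (g : ℕ)
    [Algebra (IsLocalRing.ResidueField A) F₁] [Algebra (IsLocalRing.ResidueField A) F₂]
    (R : TRData Kb (FF N) (IsLocalRing.ResidueField A) F₁ F₂ A) : Prop where
  isToric : R.IsToric g
  res_eq : R.res = IsLocalRing.residue A
  cuspInf : ∃ Q, R.r (cuspInf N) = some (Sum.inl Q)
  cuspZero : ∃ Q, R.r (cuspZero N) = some (Sum.inr Q)
  /-- the decomposition group preserves the types -/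
  decomp0 : ∀ σ ∈ A.decompositionSubgroup ℚ, ∀ x ∈ R.J0, σ • x ∈ R.J0
  decomp1 : ∀ σ ∈ A.decompositionSubgroup ℚ, ∀ x ∈ R.J1, σ • x ∈ R.J1
  /-- inertia does not move the reduction of a place -/
  inertia : ∀ σ ∈ A.inertiaSubgroupIn ℚ, ∀ P : Place Kb (FF N),
    R.r (galAct N σ • P) = R.r P
  hecke : ∀ q : Nat.Primes, (q : ℕ) ≠ N → ∀ x ∈ R.J0, heckeOperatorBar N q x ∈ R.J0
  /-- criterion for the type of a place by the modular unit `oggU N = Δ(Nτ)/Δ(τ)`
  (`|oggU|₁ = 1`, `|oggU|₂ = |N|⁻¹²`): a place at which `oggU` has a value in `A` is of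
  type `1` -/
  type₁ : ∀ (P : Place Kb (FF N)) (d : Kb), HasValueAt P (oggU N) d → d ∈ A →
    ∃ Q, R.r P = some (Sum.inl Q)
  /-- a place at which `N¹² · oggU` has a value `≠ 0` whose inverse is in `A` is of type `2` -/
  type₂ : ∀ (P : Place Kb (FF N)) (d : Kb), HasValueAt P (oggU N) d → d ≠ 0 →
    ((N : Kb) ^ 12 * d)⁻¹ ∈ A → ∃ Q, R.r P = some (Sum.inr Q)

/-- **LN-PKG, pruned**: the part of the modular package which `StmtLocDivN` (the only statement
of LOCAL-N consumed by S15, `S15/Plan.lean`) needs. -/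
structure ModTRmin (N : ℕ) [NeZero N] (A : ValuationSubring Kb) (g : ℕ)
    [Algebra (IsLocalRing.ResidueField A) F₁] [Algebra (IsLocalRing.ResidueField A) F₂]
    (R : TRData Kb (FF N) (IsLocalRing.ResidueField A) F₁ F₂ A) : Prop where
  isToric : R.IsToric g
  cuspZero : ∃ Q, R.r (cuspZero N) = some (Sum.inr Q)
  /-- inertia does not move the reduction of a place -/
  inertia : ∀ σ ∈ A.inertiaSubgroupIn ℚ, ∀ P : Place Kb (FF N),
    R.r (galAct N σ • P) = R.r P
  /-- a place at which `N¹² · oggU` has a value `≠ 0` whose inverse is in `A` is of type `2` -/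
  type₂ : ∀ (P : Place Kb (FF N)) (d : Kb), HasValueAt P (oggU N) d → d ≠ 0 →
    ((N : Kb) ^ 12 * d)⁻¹ ∈ A → ∃ Q, R.r P = some (Sum.inr Q)

theorem ModTR.toMin {N : ℕ} [NeZero N] {A : ValuationSubring Kb} {g : ℕ}
    [Algebra (IsLocalRing.ResidueField A) F₁] [Algebra (IsLocalRing.ResidueField A) F₂]
    {R : TRData Kb (FF N) (IsLocalRing.ResidueField A) F₁ F₂ A} (h : ModTR N A g R) :
    ModTRmin N A g R :=
  ⟨h.isToric, h.cuspZero, h.inertia, h.type₂⟩

end Modular

/-- the pruned package exists at the prime level `N` and the valuation ring `A ∣ N` -/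
def HasModTRmin (N : ℕ) [NeZero N] (A : ValuationSubring Kb) (g : ℕ) : Prop :=
  ∃ (F₁ F₂ : Type) (_ : Field F₁) (_ : Field F₂)
    (_ : Algebra (IsLocalRing.ResidueField A) F₁) (_ : Algebra (IsLocalRing.ResidueField A) F₂)
    (R : TRData Kb (FF N) (IsLocalRing.ResidueField A) F₁ F₂ A), ModTRmin N A g R

/-- **LN-PKG, pruned** (what S15 needs of the modular instance). -/
def StmtModTRmin : Prop :=
  ∀ (N : ℕ) [NeZero N], N.Prime → 5 ≤ N →
    ∀ A : ValuationSubring Kb, A.LiesOverPrime N → ∃ g : ℕ, HasModTRmin N A g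

/-- the package exists at the prime level `N` and the valuation ring `A ∣ N` -/
def HasModTR (N : ℕ) [NeZero N] (A : ValuationSubring Kb) (g : ℕ) : Prop :=
  ∃ (F₁ F₂ : Type) (_ : Field F₁) (_ : Field F₂)
    (_ : Algebra (IsLocalRing.ResidueField A) F₁) (_ : Algebra (IsLocalRing.ResidueField A) F₂)
    (R : TRData Kb (FF N) (IsLocalRing.ResidueField A) F₁ F₂ A), ModTR N A g R

/-- **LN-PKG** (the modular instance; the hard geometric input, from UNIP/INJ/DEU at `q = N`,
`M = 1`). -/
def StmtModTR : Prop :=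
  ∀ (N : ℕ) [NeZero N], N.Prime → 5 ≤ N →
    ∀ A : ValuationSubring Kb, A.LiesOverPrime N → ∃ g : ℕ, HasModTR N A g

theorem stmtModTRmin_of (h : StmtModTR) : StmtModTRmin := by
  intro N _ hN h5 A hA
  obtain ⟨g, F₁, F₂, i₁, i₂, i₃, i₄, R, hM⟩ := h N hN h5 A hA
  exact ⟨g, F₁, F₂, i₁, i₂, i₃, i₄, R, hM.toMin⟩

/-- the interface package attached to a reduction package -/
def lnPkgOf {N : ℕ} [NeZero N] {A : ValuationSubring Kb} {F₁ F₂ : Type} [Field F₁] [Field F₂]
    [Algebra (IsLocalRing.ResidueField A) F₁] [Algebra (IsLocalRing.ResidueField A) F₂]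
    (R : TRData Kb (FF N) (IsLocalRing.ResidueField A) F₁ F₂ A) : LNPkg N where
  J0 := R.J0
  J1 := R.J1

/-- **LN-GLUE**: the abstract pieces and the modular package give the interface. -/
def StmtLNGlue : Prop :=
  StmtTorTF → StmtTorDiv → StmtTorQuot → StmtTorCount →
    ∀ (N : ℕ) [NeZero N] (A : ValuationSubring Kb) (g : ℕ) (F₁ F₂ : Type) [Field F₁] [Field F₂]
      [Algebra (IsLocalRing.ResidueField A) F₁] [Algebra (IsLocalRing.ResidueField A) F₂]
      (R : TRData Kb (FF N) (IsLocalRing.ResidueField A) F₁ F₂ A),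
      ModTR N A g R → (lnPkgOf R).IsLN A g

/-- **(N3)**, geometric half: two places of smooth type on the same component differ by an
element of `J⁰`. -/
def StmtN3Geo : Prop :=
  ∀ (N : ℕ) [NeZero N] (A : ValuationSubring Kb) (g : ℕ) (F₁ F₂ : Type) [Field F₁] [Field F₂]
    [Algebra (IsLocalRing.ResidueField A) F₁] [Algebra (IsLocalRing.ResidueField A) F₂]
    (R : TRData Kb (FF N) (IsLocalRing.ResidueField A) F₁ F₂ A),
    ModTR N A g R → ∀ (P P' : Place Kb (FF N)) (D : Divisor.degZero (K := Kb) (F := FF N)),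
      (D : Divisor Kb (FF N)) = Finsupp.single P 1 - Finsupp.single P' 1 →
      ((∃ Q Q', R.r P = some (Sum.inl Q) ∧ R.r P' = some (Sum.inl Q')) ∨
        (∃ Q Q', R.r P = some (Sum.inr Q) ∧ R.r P' = some (Sum.inr Q'))) →
      Pic0.mk D ∈ R.J0

end Fermat.Agent.S15.LN

end
end ZBW1_002_16

/-! ### bundled: `Fermat.Agent.S15.PlanPKG` -/
section ZBW1_002_17

/-!
# S15 block LOCAL-N, the wall LN-PKG: definitions and exact statements (sub-captain helper25)

Plan: `NOTES/S15-PKG.md`.  `N` a prime (the level), `A ⊂ ℚ̄` a valuation ring over `N`,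
`k = kA A` its residue field, `F = FF N`, `FFk A = k(j̄) ⊂ k((q))`.

## The package `pkgTR N A hB : TRData …`
* `pkgO₁ = DEU.deuValO N A` (Gauss ring at the cusp `∞`), `pkgO₂ = w_N⁻¹ (pkgO₁)`;
* `pkgRed₁` = Gauss reduction followed by `F̄_N = F̄_1` (`PkgBase.fieldEq`), `pkgRed₂ = pkgRed₁ ∘ w_N`;
* `h = (oggU N)⁻¹ = Δ(τ)/Δ(Nτ)`; a place `P` is of type 1 if `oggU(P) ∈ A` (`PkgType₁`), of type 2
  if `w_N P` is of type 1;
* `pkgR P = some (inl Q)` iff `P` is of type 1 and `j̄(Q) = res (j(P))` (chart `j` or chart `1/j`),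
  `pkgR P = some (inr Q)` iff `pkgR (w_N P) = some (inl Q)`;
* `pkgX` : the pairs `(Q₁, Q₂)` with `h̄₁(Q₁) = 0`, `j̄(Q₁) = a`, `j̄(Q₂) = a ^ N`.

## The pieces: `StmtPkg*` below; the assembly is `StmtPkgAsm`.
-/

set_option autoImplicit false
set_option linter.unusedSectionVars false

noncomputable section

open AlgebraicCurve Module ModularCurve

namespace Fermat.Agent.S15.LN

open Fermat.Agent.W1 Fermat.Agent.S24 Fermat.Agent.S15 Fermat.Agent.ES.M Fermat.Agent.DEU
  Fermat.Agent.INJ

/-! ## Fast instances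

The instance problems `Algebra k ↥F_M(k)`, `Module …`, `SMul …` for `k = IsLocalRing.ResidueField ↥A`
are SLOW (they time out at the default `synthInstance` limit).  As in `UNIP/MGConcrete.lean`, the
instances found by Lean for a GENERIC field are registered at `k` with high priority.  So no
`letI` and no `set_option synthInstance.maxHeartbeats` is needed in the files importing this one. -/

section Generic

variable (K : Type*) [Field K] (M : ℕ)

/-- the `K`-algebra structure of `F_M(K)` (the one Lean finds) -/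
@[reducible] def pkgAlgGen : Algebra K ↥(modularFunctionFieldFullC K M) := inferInstance

/-- the `K`-module structure of `F_M(K)` (the one Lean finds) -/
@[reducible] def pkgModGen : Module K ↥(modularFunctionFieldFullC K M) := inferInstance

/-- the scalar multiplication of `K` on `F_M(K)` (the one Lean finds) -/
@[reducible] def pkgSMulGen : SMul K ↥(modularFunctionFieldFullC K M) := inferInstance

end Generic

instance (priority := 100000) pkgInstAlgebra (A : ValuationSubring Kb) (M : ℕ) :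
    Algebra (IsLocalRing.ResidueField ↥A)
      ↥(modularFunctionFieldFullC (IsLocalRing.ResidueField ↥A) M) :=
  pkgAlgGen (IsLocalRing.ResidueField ↥A) M

instance (priority := 100000) pkgInstModule (A : ValuationSubring Kb) (M : ℕ) :
    Module (IsLocalRing.ResidueField ↥A)
      ↥(modularFunctionFieldFullC (IsLocalRing.ResidueField ↥A) M) :=
  pkgModGen (IsLocalRing.ResidueField ↥A) M

instance (priority := 100000) pkgInstSMul (A : ValuationSubring Kb) (M : ℕ) :
    SMul (IsLocalRing.ResidueField ↥A)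
      ↥(modularFunctionFieldFullC (IsLocalRing.ResidueField ↥A) M) :=
  pkgSMulGen (IsLocalRing.ResidueField ↥A) M

variable (N : ℕ) [NeZero N] (A : ValuationSubring Kb)

/-! ## Definitions -/

/-- the two facts under which the reductions are defined: (RedF) at the level `N` itself, and
the equality `F̄_N = F̄_1` in the residue characteristic. -/
structure PkgBase : Prop where
  redF : StmtRedF N A
  fieldEq : modularFunctionFieldFullC (kA A) N = modularFunctionFieldFullC (kA A) 1

/-- the Gauss valuation ring at the cusp `∞` -/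
abbrev pkgO₁ : ValuationSubring (FF N) := deuValO N A

/-- the Gauss valuation ring at the cusp `0` -/
def pkgO₂ : ValuationSubring (FF N) :=
  (deuValO N A).comap ((frickeAut N : FF N ≃ₐ[Kb] FF N) : FF N →+* FF N)

theorem mem_pkgO₂ {x : FF N} : x ∈ pkgO₂ N A ↔ frickeAut N x ∈ pkgO₁ N A := Iff.rfl

/-- the reduction on the first component -/
def pkgRed₁ (hB : PkgBase N A) : ↥(pkgO₁ N A) →+* FFk A :=
  ((IntermediateField.equivOfEq hB.fieldEq :
      ↥(modularFunctionFieldFullC (kA A) N) ≃ₐ[kA A] ↥(modularFunctionFieldFullC (kA A) 1)) :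
    ↥(modularFunctionFieldFullC (kA A) N) →+* ↥(modularFunctionFieldFullC (kA A) 1)).comp
    (deuValRed N A hB.redF)

/-- `w_N : O₂ → O₁` -/
def pkgSwap : ↥(pkgO₂ N A) →+* ↥(pkgO₁ N A) :=
  (((frickeAut N : FF N ≃ₐ[Kb] FF N) : FF N →+* FF N).comp (pkgO₂ N A).subtype).codRestrict
    (pkgO₁ N A).toSubring fun x => x.2

theorem coe_pkgSwap (x : ↥(pkgO₂ N A)) : ((pkgSwap N A x : ↥(pkgO₁ N A)) : FF N) =
    frickeAut N (x : FF N) := rfl

/-- the reduction on the second component -/
def pkgRed₂ (hB : PkgBase N A) : ↥(pkgO₂ N A) →+* FFk A :=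
  (pkgRed₁ N A hB).comp (pkgSwap N A)

/-- the coordinate `j̄` of the components -/
def pkgJbar : FFk A := bgJ (kA A) 1

/-- `P` is of type 1: `|h(P)| ≥ 1`, i.e. the modular unit `oggU = 1/h` has a value in `A` at `P`
(the cusp `∞` is of type 1) -/
def PkgType₁ (P : Place Kb (FF N)) : Prop :=
  ∃ a : Kb, a ∈ A ∧ HasValueAt P (oggU N) a

/-- `P` is of type 1 and reduces to the point `Q` of the first component -/
def PkgRel₁ (P : Place Kb (FF N)) (Q : Place (kA A) (FFk A)) : Prop :=
  PkgType₁ N A P ∧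
    ((∃ a : A, HasValueAt P (jF N) (a : Kb) ∧
        HasValueAt Q (pkgJbar A) (IsLocalRing.residue A a)) ∨
      (∃ a : A, HasValueAt P (jF N)⁻¹ (a : Kb) ∧
        HasValueAt Q (pkgJbar A)⁻¹ (IsLocalRing.residue A a)))

open Classical in
/-- the reduction of the places of smooth type -/
def pkgR (P : Place Kb (FF N)) : Option (Place (kA A) (FFk A) ⊕ Place (kA A) (FFk A)) :=
  if h : ∃ Q, PkgRel₁ N A P Q then some (Sum.inl h.choose)
  else if h : ∃ Q, PkgRel₁ N A (frickeAut N • P) Q then some (Sum.inr h.choose)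
  else none

open Classical in
/-- `h̄₁`: the reduction of `h = 1 / oggU` on the first component -/
def pkgHbar (hB : PkgBase N A) : FFk A :=
  if h : (oggU N)⁻¹ ∈ pkgO₁ N A then pkgRed₁ N A hB ⟨_, h⟩ else 0

/-- the crossing points as a set -/
def pkgXset (hB : PkgBase N A) : Set (Place (kA A) (FFk A) × Place (kA A) (FFk A)) :=
  {x | 0 < x.1.ord (pkgHbar N A hB) ∧
    ∃ a : kA A, HasValueAt x.1 (pkgJbar A) a ∧ HasValueAt x.2 (pkgJbar A) (a ^ N)}

open Classical in
/-- the crossing points -/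
def pkgX (hB : PkgBase N A) : Finset (Place (kA A) (FFk A) × Place (kA A) (FFk A)) :=
  if h : (pkgXset N A hB).Finite then h.toFinset else ∅

/-- **the package** -/
def pkgTR (hB : PkgBase N A) : TRData Kb (FF N) (kA A) (FFk A) (FFk A) A where
  res := IsLocalRing.residue A
  O₁ := pkgO₁ N A
  O₂ := pkgO₂ N A
  red₁ := pkgRed₁ N A hB
  red₂ := pkgRed₂ N A hB
  r := pkgR N A
  X := pkgX N A hB

/-- the ring `A[t] ⊆ F` -/
def pkgPoly (t : FF N) : Subring (FF N) :=
  Subring.closure ((algebraMap Kb (FF N)) '' (A : Set Kb) ∪ {t})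

/-- `b` lies in the chart of the coordinate `t` (`t = j` or `t = 1/j`): `b` is integral over
`A[t]` (stated with an explicit monic polynomial, to have no instance problem) -/
def PkgInt (t b : FF N) : Prop :=
  ∃ p : Polynomial (FF N), p.Monic ∧ (∀ i, p.coeff i ∈ pkgPoly N A t) ∧ p.eval b = 0

/-- the chart ring `B` of the coordinate `j`: the elements of both Gauss rings with poles only at
the cusps -/
def PkgB (f : FF N) : Prop :=
  f ∈ pkgO₁ N A ∧ f ∈ pkgO₂ N A ∧ ∀ P : Place Kb (FF N), 0 ≤ P.ord (jF N) → 0 ≤ P.ord f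

/-! ## The pieces -/

/-- **PKG-val (a)**: the reductions are defined. -/
def StmtPkgBase : Prop :=
  ∀ (N : ℕ) [NeZero N], N.Prime → ∀ A : ValuationSubring Kb, A.LiesOverPrime N → PkgBase N A

/-- the basic fields of `IsTR` -/
structure PkgIsVal (hB : PkgBase N A) : Prop where
  algebraMap_mem_iff₁ : ∀ a : Kb, algebraMap Kb (FF N) a ∈ pkgO₁ N A ↔ a ∈ A
  algebraMap_mem_iff₂ : ∀ a : Kb, algebraMap Kb (FF N) a ∈ pkgO₂ N A ↔ a ∈ A
  red₁_surjective : Function.Surjective (pkgRed₁ N A hB)
  red₂_surjective : Function.Surjective (pkgRed₂ N A hB)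
  red₁_eq_zero_iff : ∀ x : pkgO₁ N A, pkgRed₁ N A hB x = 0 ↔ (x : FF N) ∈ (pkgO₁ N A).nonunits
  red₂_eq_zero_iff : ∀ x : pkgO₂ N A, pkgRed₂ N A hB x = 0 ↔ (x : FF N) ∈ (pkgO₂ N A).nonunits
  red₁_algebraMap : ∀ (a : A) (h : algebraMap Kb (FF N) (a : Kb) ∈ pkgO₁ N A),
    pkgRed₁ N A hB ⟨algebraMap Kb (FF N) (a : Kb), h⟩ =
      algebraMap (kA A) (FFk A) (IsLocalRing.residue A a)
  red₂_algebraMap : ∀ (a : A) (h : algebraMap Kb (FF N) (a : Kb) ∈ pkgO₂ N A),
    pkgRed₂ N A hB ⟨algebraMap Kb (FF N) (a : Kb), h⟩ =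
      algebraMap (kA A) (FFk A) (IsLocalRing.residue A a)
  prim₁ : ∀ f : FF N, f ≠ 0 → ∃ a : Kb, a ≠ 0 ∧ ∃ h : algebraMap Kb (FF N) a * f ∈ pkgO₁ N A,
    pkgRed₁ N A hB ⟨algebraMap Kb (FF N) a * f, h⟩ ≠ 0
  prim₂ : ∀ f : FF N, f ≠ 0 → ∃ a : Kb, a ≠ 0 ∧ ∃ h : algebraMap Kb (FF N) a * f ∈ pkgO₂ N A,
    pkgRed₂ N A hB ⟨algebraMap Kb (FF N) a * f, h⟩ ≠ 0
  /-- `j`, `j_N` are units of both Gauss rings, with reductions `j̄`, `j̄ ^ N` on the first
  component -/
  red₁_j : ∃ h : jF N ∈ pkgO₁ N A, pkgRed₁ N A hB ⟨_, h⟩ = pkgJbar A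
  red₁_jN : ∃ h : jdF N N dvd_rfl ∈ pkgO₁ N A, pkgRed₁ N A hB ⟨_, h⟩ = pkgJbar A ^ N
  /-- `h = 1 / oggU` is a unit at the first Gauss valuation and `N ^ 12 ·` unit at the second -/
  h_mem₁ : (oggU N)⁻¹ ∈ pkgO₁ N A
  h_unit₁ : (oggU N)⁻¹ ∉ (pkgO₁ N A).nonunits
  h_mem₂ : (oggU N)⁻¹ ∈ (pkgO₂ N A).nonunits
  /-- the value group has rank one -/
  arch : ∀ c : Kb, c ≠ 0 → ∃ n : ℕ, (N : Kb) ^ n * c ∈ A

/-- **PKG-val (b)**: the basic fields. -/
def StmtPkgVal : Prop :=
  ∀ (N : ℕ) [NeZero N], N.Prime → ∀ A : ValuationSubring Kb, A.LiesOverPrime N →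
    ∀ hB : PkgBase N A, PkgIsVal N A hB

/-- **PKG-tv** (two valuations): an element of both Gauss rings which is regular wherever the
coordinate `t` is regular, is integral over `A[t]` (`t = j` or `t = 1/j`); and the two Gauss
rings are the only valuation rings of `F` above the Gauss valuation ring of `K(j)`, in the form:
the norm `F → K(j)` of an element of `O₁ ∩ O₂` reduces to `ū₁ · ū₂^{(N)}`. -/
def StmtPkgTV : Prop :=
  ∀ (N : ℕ) [NeZero N], N.Prime → 5 ≤ N → ∀ A : ValuationSubring Kb, A.LiesOverPrime N →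
    ∀ t : FF N, t = jF N ∨ t = (jF N)⁻¹ → ∀ u : FF N, u ∈ pkgO₁ N A → u ∈ pkgO₂ N A →
      (∀ P : Place Kb (FF N), 0 ≤ P.ord t → 0 ≤ P.ord u) → PkgInt N A t u

/-- **PKG-poly** (input of the Goursat route of helper89): the reductions of an element of `B`
are POLYNOMIALS in `j̄` on both components. -/
def StmtPkgPoly : Prop :=
  ∀ (N : ℕ) [NeZero N], N.Prime → 5 ≤ N → ∀ A : ValuationSubring Kb, A.LiesOverPrime N →
    ∀ hB : PkgBase N A, ∀ (f : FF N) (h₁ : f ∈ pkgO₁ N A) (h₂ : f ∈ pkgO₂ N A),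
      (∀ P : Place Kb (FF N), 0 ≤ P.ord (jF N) → 0 ≤ P.ord f) →
        pkgRed₁ N A hB ⟨f, h₁⟩ ∈ Algebra.adjoin (kA A) {pkgJbar A} ∧
          pkgRed₂ N A hB ⟨f, h₂⟩ ∈ Algebra.adjoin (kA A) {pkgJbar A}

/-- **PKG-ev** (evaluation = the dictionary place ↔ closed point of the chart): if `P` reduces to
the point `Q` of the first component, `b` is integral over `A[t]` and `t` is regular at `P`,
then `b(P) ∈ A` and `b(P)‾ = b̄₁(Q)`. -/
def StmtPkgEv : Prop :=
  ∀ (N : ℕ) [NeZero N], N.Prime → 5 ≤ N → ∀ A : ValuationSubring Kb, A.LiesOverPrime N →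
    ∀ hB : PkgBase N A, ∀ t : FF N, t = jF N ∨ t = (jF N)⁻¹ →
      ∀ (P : Place Kb (FF N)) (Q : Place (kA A) (FFk A)), pkgR N A P = some (Sum.inl Q) →
        (∃ a : A, HasValueAt P t (a : Kb)) → ∀ (b : FF N), PkgInt N A t b →
          ∀ hb₁ : b ∈ pkgO₁ N A,
          ∃ c : A, HasValueAt P b (c : Kb) ∧
            HasValueAt Q (pkgRed₁ N A hB ⟨b, hb₁⟩) (IsLocalRing.residue A c)

/-- **PKG-type**: bookkeeping of the types (no local algebra). -/
structure PkgIsType : Prop where
  /-- the reduction of a place of type 1 exists and is unique -/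
  exists_rel : ∀ P : Place Kb (FF N), PkgType₁ N A P → ∃ Q, PkgRel₁ N A P Q
  rel_unique : ∀ (P : Place Kb (FF N)) (Q Q' : Place (kA A) (FFk A)),
    PkgRel₁ N A P Q → PkgRel₁ N A P Q' → Q = Q'
  /-- the types exclude each other -/
  not_both : ∀ P : Place Kb (FF N), PkgType₁ N A P → ¬ PkgType₁ N A (frickeAut N • P)
  r_inl_iff : ∀ (P : Place Kb (FF N)) (Q : Place (kA A) (FFk A)),
    pkgR N A P = some (Sum.inl Q) ↔ PkgRel₁ N A P Q
  r_inr_iff : ∀ (P : Place Kb (FF N)) (Q : Place (kA A) (FFk A)),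
    pkgR N A P = some (Sum.inr Q) ↔ PkgRel₁ N A (frickeAut N • P) Q
  cuspInf : ∃ Q, pkgR N A (S15.cuspInf N) = some (Sum.inl Q) ∧ Q.ord (pkgJbar A) < 0
  cuspZero : ∃ Q, pkgR N A (S15.cuspZero N) = some (Sum.inr Q) ∧ Q.ord (pkgJbar A) < 0
  /-- a place of `k(j̄)` is determined by the value of `j̄` -/
  place_ext : ∀ (Q Q' : Place (kA A) (FFk A)) (a : kA A),
    HasValueAt Q (pkgJbar A) a → HasValueAt Q' (pkgJbar A) a → Q = Q'
  place_exists : ∀ a : kA A, ∃ Q : Place (kA A) (FFk A), HasValueAt Q (pkgJbar A) a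
  place_ext_inf : ∀ Q Q' : Place (kA A) (FFk A),
    Q.ord (pkgJbar A) < 0 → Q'.ord (pkgJbar A) < 0 → Q = Q'

/-- **PKG-type** -/
def StmtPkgType : Prop :=
  ∀ (N : ℕ) [NeZero N], N.Prime → 5 ≤ N → ∀ A : ValuationSubring Kb, A.LiesOverPrime N →
    PkgIsType N A

/-- **PKG-cross**: the crossing points: finiteness, injectivity, and a place of smooth type does
not reduce to a crossing point. -/
structure PkgIsCross (hB : PkgBase N A) : Prop where
  finite : (pkgXset N A hB).Finite
  cross₁ : ∀ P Q, pkgR N A P = some (Sum.inl Q) → ∀ x ∈ pkgX N A hB, x.1 ≠ Q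
  cross₂ : ∀ P Q, pkgR N A P = some (Sum.inr Q) → ∀ x ∈ pkgX N A hB, x.2 ≠ Q
  cross_inj₁ : ∀ x ∈ pkgX N A hB, ∀ y ∈ pkgX N A hB, x.1 = y.1 → x = y
  cross_inj₂ : ∀ x ∈ pkgX N A hB, ∀ y ∈ pkgX N A hB, x.2 = y.2 → x = y
  /-- the crossing points are symmetric under `w_N` -/
  symm : ∀ x ∈ pkgX N A hB, (x.2, x.1) ∈ pkgX N A hB

/-- **PKG-cross** -/
def StmtPkgCross : Prop :=
  ∀ (N : ℕ) [NeZero N], N.Prime → 5 ≤ N → ∀ A : ValuationSubring Kb, A.LiesOverPrime N →
    ∀ hB : PkgBase N A, PkgIsCross N A hB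

/-- **PKG-rdiv**: `r_*(div u) = div(ū)` at the smooth points of the first component (the second
component follows by `w_N`). -/
def StmtPkgRdiv : Prop :=
  ∀ (N : ℕ) [NeZero N], N.Prime → 5 ≤ N → ∀ A : ValuationSubring Kb, A.LiesOverPrime N →
    ∀ hB : PkgBase N A, ∀ u : pkgO₁ N A, pkgRed₁ N A hB u ≠ 0 →
      ∀ D : Divisor Kb (FF N), (∀ P, D P = P.ord (u : FF N)) →
        ∀ Q : Place (kA A) (FFk A), (∀ x ∈ pkgX N A hB, x.1 ≠ Q) →
          (pkgTR N A hB).push₁ D Q = Q.ord (pkgRed₁ N A hB u)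

/-- **PKG-glue**: normality of the model at the crossing points (UNIP Lemma U). -/
def StmtPkgGlue : Prop :=
  ∀ (N : ℕ) [NeZero N], N.Prime → 5 ≤ N → ∀ A : ValuationSubring Kb, A.LiesOverPrime N →
    ∀ hB : PkgBase N A, ∀ (u : FF N) (h₁ : u ∈ pkgO₁ N A) (h₂ : u ∈ pkgO₂ N A),
      (∀ P : Place Kb (FF N), P.ord u < 0 → (pkgR N A P).isSome) →
        (pkgTR N A hB).Glued (pkgRed₁ N A hB ⟨u, h₁⟩) (pkgRed₂ N A hB ⟨u, h₂⟩)

/-- **PKG-orth**: orthonormal bases for the norm `max (|·|₁, |·|₂)`. -/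
def StmtPkgOrth : Prop :=
  ∀ (N : ℕ) [NeZero N], N.Prime → 5 ≤ N → ∀ A : ValuationSubring Kb, A.LiesOverPrime N →
    ∀ hB : PkgBase N A, (pkgTR N A hB).Orth

/-- **PKG-card**: the number of crossing points is `g + 1`, `g = gN N` the genus. -/
def StmtPkgCard : Prop :=
  ∀ (N : ℕ) [NeZero N], N.Prime → 5 ≤ N → ∀ A : ValuationSubring Kb, A.LiesOverPrime N →
    ∀ hB : PkgBase N A, (pkgX N A hB).card = gN N + 1

/-- **PKG-nice**: the generic fibre has genus `gN N`, the components have genus `0`. -/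
def StmtPkgNice : Prop :=
  ∀ (N : ℕ) [NeZero N], N.Prime → 5 ≤ N → ∀ A : ValuationSubring Kb, A.LiesOverPrime N →
    IsNiceCurve Kb (FF N) (gN N) ∧ IsNiceCurve (kA A) (FFk A) 0

/-- **PKG-gal** -/
structure PkgIsGal (hB : PkgBase N A) : Prop where
  decomp0 : ∀ σ ∈ A.decompositionSubgroup ℚ, ∀ x ∈ (pkgTR N A hB).J0, σ • x ∈ (pkgTR N A hB).J0
  decomp1 : ∀ σ ∈ A.decompositionSubgroup ℚ, ∀ x ∈ (pkgTR N A hB).J1, σ • x ∈ (pkgTR N A hB).J1
  inertia : ∀ σ ∈ A.inertiaSubgroupIn ℚ, ∀ P : Place Kb (FF N),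
    pkgR N A (galAct N σ • P) = pkgR N A P

/-- **PKG-gal** -/
def StmtPkgGal : Prop :=
  ∀ (N : ℕ) [NeZero N], N.Prime → 5 ≤ N → ∀ A : ValuationSubring Kb, A.LiesOverPrime N →
    ∀ hB : PkgBase N A, PkgIsGal N A hB

/-- **PKG-hecke** -/
def StmtPkgHecke : Prop :=
  ∀ (N : ℕ) [NeZero N], N.Prime → 5 ≤ N → ∀ A : ValuationSubring Kb, A.LiesOverPrime N →
    ∀ hB : PkgBase N A, ∀ q : Nat.Primes, (q : ℕ) ≠ N →
      ∀ x ∈ (pkgTR N A hB).J0, heckeOperatorBar N q x ∈ (pkgTR N A hB).J0

/-- **PKG-crit** (the easy direction of the criterion) -/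
def StmtPkgCrit : Prop :=
  ∀ (N : ℕ) [NeZero N], N.Prime → 5 ≤ N → ∀ A : ValuationSubring Kb, A.LiesOverPrime N →
    ∀ hB : PkgBase N A,
      (∀ (h : FF N) (h₁ : h ∈ pkgO₁ N A), pkgRed₁ N A hB ⟨h, h₁⟩ ≠ 0 →
        h ∈ (pkgO₂ N A).nonunits →
        (∀ P : Place Kb (FF N), P.ord h ≠ 0 → P = S15.cuspInf N ∨ P = S15.cuspZero N) →
        ∀ (P : Place Kb (FF N)) (a : Kb), a ∈ A → a ∉ A.nonunits → HasValueAt P h a →
          ∃ Q, pkgR N A P = some (Sum.inl Q)) ∧
      (∀ (h : FF N) (h₂ : h ∈ pkgO₂ N A), pkgRed₂ N A hB ⟨h, h₂⟩ ≠ 0 →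
        h ∈ (pkgO₁ N A).nonunits →
        (∀ P : Place Kb (FF N), P.ord h ≠ 0 → P = S15.cuspInf N ∨ P = S15.cuspZero N) →
        ∀ (P : Place Kb (FF N)) (a : Kb), a ∈ A → a ∉ A.nonunits → HasValueAt P h a →
          ∃ Q, pkgR N A P = some (Sum.inr Q))

/-- **PKG-asm**: the pieces give the modular package `StmtModTR` of `PlanN.lean`. -/
def StmtPkgAsm : Prop :=
  StmtPkgBase → StmtPkgVal → StmtPkgType → StmtPkgCross → StmtPkgRdiv → StmtPkgGlue →
    StmtPkgOrth → StmtPkgCard → StmtPkgNice → StmtPkgGal → StmtPkgHecke → StmtPkgCrit →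
      StmtModTR

end Fermat.Agent.S15.LN

end
end ZBW1_002_17

/-! ### bundled: `Fermat.Agent.S15.PkgField` -/
section ZBW1_002_18

/-!
# S15 / LN-PKG, piece PKG-val (1): series identities in characteristic `N`, `F̄_N = F̄_1`

* `pkg_jN_eq_pow` : over a field `k` of characteristic `N` (prime), `j(q^N) = j(q)^N`;
* `pkg_fieldEq`   : `modularFunctionFieldFullC k N = modularFunctionFieldFullC k 1`;
* `pkgCz N`, `pkgCz' N : LaurentSeries ℤ` : `c = j(q^N) − j^N`, `c' = j − j(q^N)^N`, with
  `pkgCz_eq_mul` (`c = N · c₁`), `pkg_coeffMap_Cz` (`c̄ = 0`), `pkg_coeffMap_Cz'_ne_zero`.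
-/

set_option autoImplicit false

noncomputable section

open ModularCurve HahnSeries

namespace Fermat.Agent.S15.LN

open Fermat.Agent.UNIP Fermat.Agent.S28.UB

section Field

variable (N : ℕ) [NeZero N] (k : Type*) [Field k]

/-- in characteristic `N`: `j(q^N) = j(q)^N` -/
theorem pkg_jN_eq_pow (hN : N.Prime) [CharP k N] :
    qExpand k N (jqModC k) = jqModC k ^ N := by
  haveI : Fact N.Prime := ⟨hN⟩
  have h := nodesFrob_qExpand_int (k := k) N (jqModC ℤ)
  rw [coeffMap_jqModC] at h
  exact h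

/-- in characteristic `N` the level drops: `F̄_N = F̄_1` -/
theorem pkg_fieldEq (hN : N.Prime) [CharP k N] :
    modularFunctionFieldFullC k N = modularFunctionFieldFullC k 1 := by
  apply le_antisymm
  · rw [full_le_iff]
    intro d hd hd0
    rcases (Nat.dvd_prime hN).mp hd with h1 | h1
    · rw [h1]
      exact jd_mem_full k (one_dvd 1) one_ne_zero
    · rw [h1, jd_eq, pkg_jN_eq_pow N k hN]
      have h1 : jqModC k ∈ modularFunctionFieldFullC k 1 := by
        have := jd_mem_full k (one_dvd 1) one_ne_zero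
        rwa [jd_one] at this
      exact pow_mem h1 N
  · exact full_mono k (one_dvd N)

end Field

section IntSeries

variable (N : ℕ) [NeZero N]

/-- `c = j(q^N) − j^N` over `ℤ` -/
def pkgCz : LaurentSeries ℤ := qExpand ℤ N (jqModC ℤ) - jqModC ℤ ^ N

/-- `c' = j − j(q^N)^N` over `ℤ` -/
def pkgCz' : LaurentSeries ℤ := jqModC ℤ - qExpand ℤ N (jqModC ℤ) ^ N

theorem pkg_coeffMap_Cz {R : Type*} [CommRing R] (f : ℤ →+* R) :
    coeffMap f (pkgCz N) = qExpand R N (jqModC R) - jqModC R ^ N := by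
  rw [pkgCz, map_sub, map_pow, coeffMap_qExpand, coeffMap_jqModC]

theorem pkg_coeffMap_Cz' {R : Type*} [CommRing R] (f : ℤ →+* R) :
    coeffMap f (pkgCz' N) = jqModC R - qExpand R N (jqModC R) ^ N := by
  rw [pkgCz', map_sub, map_pow, coeffMap_qExpand, coeffMap_jqModC]

/-- `c̄ = 0` in characteristic `N` -/
theorem pkg_coeffMap_Cz_eq_zero (hN : N.Prime) {k : Type*} [Field k] [CharP k N]
    (f : ℤ →+* k) : coeffMap f (pkgCz N) = 0 := by
  rw [pkg_coeffMap_Cz, pkg_jN_eq_pow N k hN, sub_self]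

/-- `c̄' = j̄ − j̄^{N²} ≠ 0` in characteristic `N` -/
theorem pkg_coeffMap_Cz'_ne_zero (hN : N.Prime) {k : Type*} [Field k] [CharP k N]
    (f : ℤ →+* k) : coeffMap f (pkgCz' N) ≠ 0 := by
  rw [pkg_coeffMap_Cz', pkg_jN_eq_pow N k hN]
  intro h
  have h1 : jqModC k = (jqModC k ^ N) ^ N := sub_eq_zero.mp h
  have h2 := congrArg HahnSeries.order h1
  rw [← pow_mul, HahnSeries.order_pow, nodesFrob_order_jqModC] at h2
  have h3 : (2 : ℤ) ≤ N := by exact_mod_cast hN.two_le
  have h4 : (N : ℤ) * N ≥ 4 := by nlinarith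
  rw [nsmul_eq_mul] at h2
  push_cast at h2
  nlinarith

/-- every coefficient of `c` is divisible by `N` -/
theorem pkg_dvd_coeff_Cz (hN : N.Prime) (n : ℤ) : (N : ℤ) ∣ (pkgCz N).coeff n := by
  haveI : Fact N.Prime := ⟨hN⟩
  have h := pkg_coeffMap_Cz_eq_zero N hN (k := ZMod N) (Int.castRingHom (ZMod N))
  have h1 := congrArg (fun s : LaurentSeries (ZMod N) => s.coeff n) h
  simp only [coeffMap_coeff, HahnSeries.coeff_zero] at h1
  exact (ZMod.intCast_zmod_eq_zero_iff_dvd _ N).mp h1

/-- `c₁ = c / N` -/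
def pkgC₁z : LaurentSeries ℤ :=
  (pkgCz N).map (⟨fun z => z / (N : ℤ), Int.zero_ediv _⟩ : ZeroHom ℤ ℤ)

theorem pkgCz_eq_mul (hN : N.Prime) : pkgCz N = HahnSeries.C (N : ℤ) * pkgC₁z N := by
  ext n
  rw [HahnSeries.C_mul_eq_smul, HahnSeries.coeff_smul]
  show (pkgCz N).coeff n = (N : ℤ) • ((pkgCz N).coeff n / (N : ℤ))
  rw [smul_eq_mul]
  exact (Int.mul_ediv_cancel' (pkg_dvd_coeff_Cz N hN n)).symm

end IntSeries

end Fermat.Agent.S15.LN

end
end ZBW1_002_18
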