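/- GENERATED FILE (helper35, build-time optimisation, NOTES/ZB.md): verbatim concatenation of the modules
   Fermat.Agent.RIB.Plan
   Fermat.Agent.RIB.MP.Plan
   Fermat.Agent.RIB.MP.RedHeckeInf
   Fermat.Agent.RIB.MP.Desc
   Fermat.Agent.RIB.MP.ValHecke
   Fermat.Agent.R38.TresEisRed
   Fermat.Agent.RIB.MP.WHecke
   Fermat.Agent.RIB.MP.ValHeckeVert
   Fermat.Agent.RIB.MP.RedGauss
   Fermat.Agent.RIB.MP.PlanE
   Do not edit; do not import together with these modules. -/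
import Mathlib
import Fermat.Prelude.Def_FLTPrelim_FreyPackage
import Fermat.Prelude.Def_FLTPrelim_GaloisRep
import Fermat.Prelude.Def_FLTPrelim_Modularity
import Fermat.Prelude.Def_FLTPrelim_ModularRep
import Fermat.Prelude.Def_FLTPrelim_Ramification
import Fermat.Prelude.Def_FreyPackage_IsConductorLevel
import Fermat.Prelude.Def_EllipticCurve_FrobeniusTrace
import Fermat.Agent.ZB.UNIP_019
import Fermat.Agent.ZB.ES_001
import Fermat.Agent.ZB.STB_001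
import Fermat.Agent.ZB.ES_007
import Fermat.Agent.ZB.ES_009
import Fermat.Agent.ZB.ES_005
import Fermat.Agent.ZB.S36_001
import Fermat.Agent.ZB.ES_003
import Fermat.Agent.ZB.ES_002
import Fermat.Agent.ZB.ES_010
import Fermat.Agent.ZB.W1_002
import Fermat.Agent.ZB.S34_001
import Fermat.Agent.ZB.INJ_003

/-! ### bundled: `Fermat.Agent.RIB.Plan` -/
section ZBRIB_001_0
/-
Row 37 (S38 / S43, Ribet's level lowering): TOP-LEVEL INTERFACE and GLUE.
Captain: helper43.  Plan: NOTES/S43-plan.md (v2) and NOTES/RT-plan.md.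

The frozen statement S43 is reduced to three statements:

* `StmtMP` : MAZUR'S PRINCIPLE (geometry of `J0(N)` at `q ∥ N`, `q ≠ p`): an odd prime `q ≠ p`
             of the level can be removed unless it is a TRIVIAL prime
             (`q ≡ 1 mod p` and every Frobenius at `q` acts on `E[p]` as a scalar `±1`).
* `StmtTR` : the K-MACHINE (`Fermat/Agent/RT`): if `p ∤ N` and EVERY odd prime of the level is
             trivial, then any odd prime can be removed.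
* `StmtP`  : removal of `p` from the level (this is the shape of the frozen S44, row 38).

`s43_of_parts` is the glue (strong induction on the level).
-/

set_option autoImplicit false

open WeierstrassCurve WeierstrassCurve.Affine WeierstrassCurve.Affine.Point

namespace Fermat.Agent.RIB

/-- A **trivial prime** of the Frey package: `r ≠ p` prime, `r ≡ 1 mod p`, and there is a sign
`ε = ±1` such that every Frobenius element at every place over `r` acts on `E[p](ℚ̄)` as `ε`. -/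
def IsTrivialPrime (P : FreyPackage) (r : ℕ) : Prop :=
  r.Prime ∧ r ≠ P.p ∧ P.p ∣ r - 1 ∧
    ∃ ε : ℤ, (ε = 1 ∨ ε = -1) ∧
      ∀ A : ValuationSubring (AlgebraicClosure ℚ), A.LiesOverPrime r →
        ∀ τ : AlgebraicClosure ℚ ≃ₐ[ℚ] AlgebraicClosure ℚ, A.IsFrobeniusAt τ r →
          ∀ x : Submodule.torsionBy ℤ ((P.freyCurve.toAffine)⁄(AlgebraicClosure ℚ)).Point P.p,
            τ • x = ε • x

/-- The conclusion of S43. -/
def Lowered (P : FreyPackage) (N q : ℕ) : Prop :=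
  ∃ M : ℕ, M ∣ N ∧ ¬ q ∣ M ∧ P.ModularRepOfLevel M

/-- **MP (Mazur's principle, Frey form)**, levels prime to `p`. -/
def StmtMP : Prop :=
  ∀ (P : FreyPackage) (N q : ℕ), P.IsConductorLevel N → ¬ P.p ∣ N → q.Prime → q ≠ 2 → q ≠ P.p →
    q ∣ N → GaloisRepIsIrreducible (K := AlgebraicClosure ℚ) ℚ P.freyCurve P.p →
    P.ModularRepOfLevel N → P.GaloisRepUnramifiedAt q →
    Lowered P N q ∨ IsTrivialPrime P q

/-- **TR (trivial primes; the K-machine)**, levels prime to `p` all of whose odd primes are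
trivial. -/
def StmtTR : Prop :=
  ∀ (P : FreyPackage) (N q : ℕ), P.IsConductorLevel N → ¬ P.p ∣ N → q.Prime → q ≠ 2 →
    q ∣ N → GaloisRepIsIrreducible (K := AlgebraicClosure ℚ) ℚ P.freyCurve P.p →
    P.ModularRepOfLevel N →
    (∀ r : ℕ, r.Prime → r ≠ 2 → r ∣ N → IsTrivialPrime P r) →
    Lowered P N q

/-- **P (removal of `p`)**: the shape of the frozen S44 (row 38). -/
def StmtP : Prop :=
  ∀ (P : FreyPackage) (N : ℕ), P.IsConductorLevel N → P.p ∣ N →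
    GaloisRepIsIrreducible (K := AlgebraicClosure ℚ) ℚ P.freyCurve P.p →
    P.ModularRepOfLevel N → ∃ M : ℕ, M ∣ N ∧ ¬ P.p ∣ M ∧ P.ModularRepOfLevel M

/-- Levels prime to `p`: strong induction on the level. -/
theorem rib_lowered_of_not_dvd (hMP : StmtMP) (hTR : StmtTR) (P : FreyPackage)
    (hirr : GaloisRepIsIrreducible (K := AlgebraicClosure ℚ) ℚ P.freyCurve P.p)
    (hunr : ∀ q : ℕ, q.Prime → q ≠ 2 → q ≠ P.p → P.GaloisRepUnramifiedAt q) :
    ∀ N : ℕ, P.IsConductorLevel N → ¬ P.p ∣ N → P.ModularRepOfLevel N →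
      ∀ q : ℕ, q.Prime → q ≠ 2 → q ∣ N → Lowered P N q := by
  intro N
  induction N using Nat.strong_induction_on with
  | _ N ih =>
    intro hcond hpN hmod q hq hq2 hqN
    have hqp : q ≠ P.p := fun h => hpN (h ▸ hqN)
    rcases hMP P N q hcond hpN hq hq2 hqp hqN hirr hmod (hunr q hq hq2 hqp) with h | htriv
    · exact h
    · by_cases hall : ∀ r : ℕ, r.Prime → r ≠ 2 → r ∣ N → IsTrivialPrime P r
      · exact hTR P N q hcond hpN hq hq2 hqN hirr hmod hall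
      · push Not at hall
        obtain ⟨r, hr, hr2, hrN, hrt⟩ := hall
        have hrp : r ≠ P.p := fun h => hpN (h ▸ hrN)
        rcases hMP P N r hcond hpN hr hr2 hrp hrN hirr hmod (hunr r hr hr2 hrp) with h | h
        · obtain ⟨N₁, hN₁N, hrN₁, hmod₁⟩ := h
          have hN₁pos : 0 < N₁ := Nat.pos_of_dvd_of_pos hN₁N hcond.pos
          have hlt : N₁ < N := by
            refine lt_of_le_of_ne (Nat.le_of_dvd hcond.pos hN₁N) ?_
            rintro rfl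
            exact hrN₁ hrN
          by_cases hqN₁ : q ∣ N₁
          · obtain ⟨M, hM, hqM, hmodM⟩ := ih N₁ hlt (hcond.of_dvd hN₁N hN₁pos)
              (fun h => hpN (h.trans hN₁N)) hmod₁ q hq hq2 hqN₁
            exact ⟨M, hM.trans hN₁N, hqM, hmodM⟩
          · exact ⟨N₁, hN₁N, hqN₁, hmod₁⟩
        · exact absurd h hrt

/-- **GLUE.**  The frozen statement S43 from `StmtMP`, `StmtTR`, `StmtP` and the unramifiedness
of the Frey representation at the odd primes `≠ p` (= S05, on main). -/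
theorem s43_of_parts (hMP : StmtMP) (hTR : StmtTR) (hP : StmtP)
    (hS05 : ∀ (P : FreyPackage) (q : ℕ), q.Prime → q ≠ 2 → q ≠ P.p → P.GaloisRepUnramifiedAt q)
    (P : FreyPackage) {N q : ℕ} (hcond : P.IsConductorLevel N) (hq : q.Prime) (hq2 : q ≠ 2)
    (_hqp : q ≠ P.p) (hqN : q ∣ N)
    (hirr : GaloisRepIsIrreducible (K := AlgebraicClosure ℚ) ℚ P.freyCurve P.p)
    (hmod : P.ModularRepOfLevel N) (_hunr : P.GaloisRepUnramifiedAt q) :
    ∃ M : ℕ, M ∣ N ∧ ¬ q ∣ M ∧ P.ModularRepOfLevel M := by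
  by_cases hpN : P.p ∣ N
  · obtain ⟨N₁, hN₁N, hpN₁, hmod₁⟩ := hP P N hcond hpN hirr hmod
    have hN₁pos : 0 < N₁ := Nat.pos_of_dvd_of_pos hN₁N hcond.pos
    by_cases hqN₁ : q ∣ N₁
    · obtain ⟨M, hM, hqM, hmodM⟩ := rib_lowered_of_not_dvd hMP hTR P hirr (hS05 P) N₁
        (hcond.of_dvd hN₁N hN₁pos) hpN₁ hmod₁ q hq hq2 hqN₁
      exact ⟨M, hM.trans hN₁N, hqM, hmodM⟩
    · exact ⟨N₁, hN₁N, hqN₁, hmod₁⟩
  · exact rib_lowered_of_not_dvd hMP hTR P hirr (hS05 P) N hcond hpN hmod q hq hq2 hqN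

end Fermat.Agent.RIB


end ZBRIB_001_0

/-! ### bundled: `Fermat.Agent.RIB.MP.Plan` -/
section ZBRIB_001_1
/-
Row 37, first half: MAZUR'S PRINCIPLE (`Fermat.Agent.RIB.StmtMP`).  INTERFACE of the sub-captain
(helper2).  Plan and piece table: NOTES/RIB-MP.md.  Definitions and statements only.

Setting: `N = M₁ q`, `q ∤ M₁` an odd prime, `p ≥ 5` a prime `≠ q`, `A ⊂ ℚ̄` a valuation ring over
`q`, `I` its inertia group, `σ` a Frobenius element at `A`, `w = w_q` (`UNIP.atkinLehnerBar`),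
`F_N = modularFunctionFieldBar N ⊂ ℚ̄((t))`, `J = JZero N`, `α : F_{M₁} → F_N` the inclusion.
`v_∞` = Gauss valuation of `A` on `q`-expansions, `v_0 = v_∞ ∘ w`.
A class `x ∈ J[p]` has Kummer functions `u` (`ES.KummerRel p x u`: `p D = div u`, `x = [D]`),
unique up to constants and `p`-th powers.

* `TrivInf A p x`  : `x` is trivial at `v_∞` (a Kummer function is Gauss-constant);
  `TrivZero … x`   : the same at `v_0`;  `IsToric` : both.
* `RedInf A p x y` : `x ∈ J₀(N)[p]` and `y ∈ J₀(M₁)[p]` have the same reduction at `v_∞`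
  (`u / α v` Gauss-constant);  `RedZero` : the same at `v_0` (`w u / α v`).
* `eisKill ℓ x = T_ℓ x − (ℓ + 1) x` : kills the component group (which is Eisenstein).

GEOMETRIC PIECES (Props; all about inertia-fixed classes of `J₀(N)[p]`):
* `StmtRed`      (MP-RED)  the reduction of `eisKill ℓ x` at `v_∞` and at `v_0` lifts to
                           `J₀(M₁)[p]`   [local factorisation (F) + (SURJ-q)];
* `StmtRedHecke` (MP-HK)   `RedInf`, `RedZero` are stable under `T_ℓ'`, `ℓ' ∤ N`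
                           [`q`-expansion formula of the Hecke norm, `ES.G2.StmtHeckeNorm`];
* `StmtFrobToric`(MP-FROB) `σ (w y) = − q y` for `y = eisKill ℓ x` toric
                           [local factorisation (F) + swap twin of STB (T″)];
* `StmtWHecke`   (MP-W)    `w` commutes with `T_ℓ` on `J`, `ℓ ∤ N`;
* `StmtOldLevel` (PKG-OLD)  a good Hecke polynomial killing the forms of level `M` kills the
                           `p`-divisible torsion `PDiv M p` (`= STB.stb_p2_kills` + semisimplicity);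
* `StmtDivEis`   (MP-DIV)  `T_ℓ − (ℓ+1)` maps `J₀(M)[p^∞]` into `PDiv M p` (`M` squarefree,
                           `p ≥ 5`): the non-divisible part of the torsion is Eisenstein.

HECKE MODULES.  The Hecke operators are only known to commute on torsion, so Hecke POLYNOMIALS act
on `PDiv N p` (the `p`-divisible part of the `p`-power torsion of `J₀(N)(ℚ̄)`, with
`ES.pDivModule N p` and `ES.pDivGalois N p`: the `J` of the packages `ESPkgInf`, `ESPkgFaith`).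
Single operators `T_ℓ = heckeOperatorBar` act on all of `JZero`.
ALGEBRA:
* `StmtAtQ`      (MP-ATQ)  the `J`-form: an inertia-fixed, non-Eisenstein, Hecke-new (level `M₁`)
                           eigen-class `x ∈ J[p]` satisfies `σ (w x) + q x = 0`;
                           `StmtAtQOf` : from the geometric pieces.
* `StmtRepN`     (MP-1)    `R38.StmtRep` at an arbitrary level (same proof).
* `StmtGlue`     (MP-5)    `StmtMP` from `StmtAtQ`, `StmtRepN`, `R38.StmtLift`.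
-/

set_option autoImplicit false

noncomputable section

namespace Fermat.Agent.RIB.MP

open ModularCurve AlgebraicCurve Fermat.Agent.ES Fermat.Agent.ES.G2

/-! ### Definitions -/

section Defs

variable {M₁ q : ℕ} [NeZero M₁] [NeZero q] [NeZero (M₁ * q)]

/-- `x` is trivial at the Gauss valuation `v_∞` of `A`: one of its Kummer functions (for the
exponent `m`) is Gauss-constant. -/
def TrivInf (A : ValuationSubring Qb) (m : ℕ) (x : JZero (M₁ * q)) : Prop :=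
  ∃ u : modularFunctionFieldBar (M₁ * q), KummerRel m x u ∧ GaussConst A (M₁ * q) u

/-- `x` is trivial at `v_0 = v_∞ ∘ w_q`. -/
def TrivZero (hq : q.Prime) (hqM : ¬ q ∣ M₁) (A : ValuationSubring Qb) (m : ℕ)
    (x : JZero (M₁ * q)) : Prop :=
  ∃ u : modularFunctionFieldBar (M₁ * q), KummerRel m x u ∧
    GaussConst A (M₁ * q) (Fermat.Agent.UNIP.atkinLehnerBar hq hqM u)

/-- `x` is toric at `A`: trivial at both vertical valuations. -/
def IsToric (hq : q.Prime) (hqM : ¬ q ∣ M₁) (A : ValuationSubring Qb) (m : ℕ)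
    (x : JZero (M₁ * q)) : Prop :=
  TrivInf A m x ∧ TrivZero hq hqM A m x

/-- `x` (level `M₁ q`) and `y` (level `M₁`) have the same reduction at `v_∞`. -/
def RedInf (A : ValuationSubring Qb) (m : ℕ) (x : JZero (M₁ * q)) (y : JZero M₁) : Prop :=
  ∃ (u : modularFunctionFieldBar (M₁ * q)) (v : modularFunctionFieldBar M₁),
    KummerRel m x u ∧ KummerRel m y v ∧
      GaussConst A (M₁ * q) (u / heckeAlphaBar Qb M₁ q v)

/-- `x` (level `M₁ q`) and `y` (level `M₁`) have the same reduction at `v_0`. -/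
def RedZero (hq : q.Prime) (hqM : ¬ q ∣ M₁) (A : ValuationSubring Qb) (m : ℕ)
    (x : JZero (M₁ * q)) (y : JZero M₁) : Prop :=
  ∃ (u : modularFunctionFieldBar (M₁ * q)) (v : modularFunctionFieldBar M₁),
    KummerRel m x u ∧ KummerRel m y v ∧
      GaussConst A (M₁ * q)
        (Fermat.Agent.UNIP.atkinLehnerBar hq hqM u / heckeAlphaBar Qb M₁ q v)

end Defs

/-- `x` is fixed by the inertia group of `A`. -/
def InertiaFixed {N : ℕ} (A : ValuationSubring Qb) (x : JZero N) : Prop :=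
  ∀ σ ∈ A.inertiaSubgroupIn ℚ, σ • x = x

/-- `T_ℓ x − (ℓ + 1) x`. -/
def eisKill {N : ℕ} [NeZero N] (ℓ : Nat.Primes) (x : JZero N) : JZero N :=
  heckeOperatorBar N ℓ x - ((ℓ : ℕ) + 1) • x

/-! ### The geometric pieces -/

/-- **MP-RED.**  For an inertia-fixed `x ∈ J₀(M₁ q)[p]` the reductions of `T_ℓ x − (ℓ+1) x` at
`v_∞` and at `v_0` are reductions of classes of `J₀(M₁)[p]`. -/
def StmtRed : Prop :=
  ∀ (M₁ q : ℕ) [NeZero M₁] [NeZero q] [NeZero (M₁ * q)] (hq : q.Prime) (hqM : ¬ q ∣ M₁),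
    q ≠ 2 → ∀ p : ℕ, p.Prime → 5 ≤ p → p ≠ q →
    ∀ A : ValuationSubring Qb, A.LiesOverPrime q →
    ∀ x : JZero (M₁ * q), p • x = 0 → InertiaFixed A x →
    ∀ ℓ : Nat.Primes, ¬ (ℓ : ℕ) ∣ M₁ * q * p →
      (∃ y : JZero M₁, p • y = 0 ∧ RedInf A p (eisKill ℓ x) y) ∧
      (∃ y : JZero M₁, p • y = 0 ∧ RedZero hq hqM A p (eisKill ℓ x) y)

/-- **MP-HK.**  The reduction relations are stable under the good Hecke operators. -/
def StmtRedHecke : Prop :=
  ∀ (M₁ q : ℕ) [NeZero M₁] [NeZero q] [NeZero (M₁ * q)] (hq : q.Prime) (hqM : ¬ q ∣ M₁),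
    ∀ p : ℕ, p.Prime → p ≠ q →
    ∀ A : ValuationSubring Qb, A.LiesOverPrime q →
    ∀ (x : JZero (M₁ * q)) (y : JZero M₁) (ℓ : Nat.Primes), ¬ (ℓ : ℕ) ∣ M₁ * q * p →
      (RedInf A p x y → RedInf A p (heckeOperatorBar (M₁ * q) ℓ x) (heckeOperatorBar M₁ ℓ y)) ∧
      (RedZero hq hqM A p x y →
        RedZero hq hqM A p (heckeOperatorBar (M₁ * q) ℓ x) (heckeOperatorBar M₁ ℓ y))

/-- **MP-FROB.**  For an inertia-fixed `x ∈ J₀(M₁ q)[p]`: if `y = T_ℓ x − (ℓ+1) x` is toric then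
`σ (w y) + q y = 0` for every Frobenius element `σ` at `A`. -/
def StmtFrobToric : Prop :=
  ∀ (M₁ q : ℕ) [NeZero M₁] [NeZero q] [NeZero (M₁ * q)] (hq : q.Prime) (hqM : ¬ q ∣ M₁),
    q ≠ 2 → ∀ p : ℕ, p.Prime → 5 ≤ p → p ≠ q →
    ∀ A : ValuationSubring Qb, A.LiesOverPrime q →
    ∀ σ : Qb ≃ₐ[ℚ] Qb, A.IsFrobeniusAt σ q →
    ∀ x : JZero (M₁ * q), p • x = 0 → InertiaFixed A x →
    ∀ ℓ : Nat.Primes, ¬ (ℓ : ℕ) ∣ M₁ * q * p →
      IsToric hq hqM A p (eisKill ℓ x) →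
        σ • (Fermat.Agent.UNIP.atkinLehnerBar hq hqM • eisKill ℓ x) + q • eisKill ℓ x = 0

/-- **MP-W.**  `w_q` commutes with the Hecke operators `T_ℓ`, `ℓ ∤ M₁ q`, on `J₀(M₁ q)`. -/
def StmtWHecke : Prop :=
  ∀ (M₁ q : ℕ) [NeZero M₁] [NeZero q] [NeZero (M₁ * q)] (hq : q.Prime) (hqM : ¬ q ∣ M₁),
    ∀ (ℓ : Nat.Primes), ¬ (ℓ : ℕ) ∣ M₁ * q → ∀ x : JZero (M₁ * q),
      Fermat.Agent.UNIP.atkinLehnerBar hq hqM • heckeOperatorBar (M₁ * q) ℓ x =
        heckeOperatorBar (M₁ * q) ℓ (Fermat.Agent.UNIP.atkinLehnerBar hq hqM • x)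

/-- **PKG-OLD**: a Hecke polynomial in the good variables which vanishes on the eigen-systems of
all normalised eigenforms of level `M` kills the `p`-divisible torsion `PDiv M p` of `J₀(M)(ℚ̄)`.
(`STB.stb_p2_kills` has the hypothesis `heckeEvalForms M 2 t = 0`.) -/
def StmtOldLevel : Prop :=
  ∀ (M p : ℕ) [NeZero M], p.Prime →
    ∀ t ∈ MvPolynomial.supported ℤ (goodPrimes M p), Fermat.Agent.R38.KillsLevel M t →
      ∀ y : PDiv M p, (letI := pDivModule M p; t • y) = 0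

/-- **MP-DIV**: for squarefree `M` and `p ≥ 5`, the operator `T_ℓ − (ℓ + 1)` (`ℓ ∤ M p`) maps the
`p`-power torsion of `J₀(M)(ℚ̄)` into its `p`-divisible part `pDivTors p (JZero M)`
(the carrier of `PDiv M p`): the non-divisible part of the torsion is Eisenstein.
It follows from the strong form `StmtTorsDivMP` of `RIB/MP/TorsDivPlan.lean` (helper15: for
`p ≥ 5` ALL the `p`-power torsion is `p`-divisible), see `stmtDivEis_of_torsDiv` in
`RIB/MP/AtQ.lean`. -/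
def StmtDivEis : Prop :=
  ∀ (M p : ℕ) [NeZero M], Squarefree M → p.Prime → 5 ≤ p →
    ∀ ℓ : Nat.Primes, ¬ (ℓ : ℕ) ∣ M * p →
      ∀ x : JZero M, IsPPowerTorsion p x → eisKill ℓ x ∈ pDivTors p (JZero M)

/-! ### The algebra -/

/-- **MP-ATQ** (the `J`-form consumed by the glue): an inertia-fixed class `x` of the
`p`-torsion of `PDiv (M₁ q) p` which is a non-Eisenstein eigen-vector of some `T_ℓ₁` and on which
a good Hecke polynomial `t₀` killing level `M₁` acts as a unit, satisfies `σ (w x) + q x = 0`. -/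
def StmtAtQ : Prop :=
  ∀ (M₁ q : ℕ) [NeZero M₁] [NeZero q] [NeZero (M₁ * q)] (hq : q.Prime) (hqM : ¬ q ∣ M₁),
    Squarefree (M₁ * q) → q ≠ 2 → ∀ p : ℕ, p.Prime → 5 ≤ p → p ≠ q →
    ∀ A : ValuationSubring Qb, A.LiesOverPrime q →
    ∀ σ : Qb ≃ₐ[ℚ] Qb, A.IsFrobeniusAt σ q →
    ∀ x : PDiv (M₁ * q) p, p • x = 0 → InertiaFixed A (x : JZero (M₁ * q)) →
    ∀ (ℓ₁ : Nat.Primes) (n₁ : ℤ), ¬ (ℓ₁ : ℕ) ∣ M₁ * q * p →
      heckeOperatorBar (M₁ * q) ℓ₁ (x : JZero (M₁ * q)) = n₁ • (x : JZero (M₁ * q)) →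
      ¬ (p : ℤ) ∣ n₁ - ((ℓ₁ : ℕ) + 1) →
    ∀ t₀ ∈ MvPolynomial.supported ℤ (goodPrimes (M₁ * q) p),
      Fermat.Agent.R38.KillsLevel M₁ t₀ →
      ∀ n₀ : ℤ, (letI := pDivModule (M₁ * q) p; t₀ • x) = n₀ • x → ¬ (p : ℤ) ∣ n₀ →
        σ • (Fermat.Agent.UNIP.atkinLehnerBar hq hqM • (x : JZero (M₁ * q))) +
          q • (x : JZero (M₁ * q)) = 0

/-- **MP-ATQ from the geometric pieces.** -/
def StmtAtQOf : Prop :=
  StmtRed → StmtRedHecke → StmtFrobToric → StmtOldLevel → StmtDivEis → StmtAtQ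

/-- the good Hecke variables for `W` at level `N`: primes `ℓ ∤ N p` of good reduction -/
def goodAt (W : WeierstrassCurve ℤ) (N p : ℕ) : Set Nat.Primes :=
  {ℓ | ¬ (ℓ : ℕ) ∣ N * p ∧ W.IsGoodPrimeFor ℓ}

/-- **MP-1** = `R38.StmtRep` at an arbitrary level `N` (the proof of `R38.stmtRep` uses only the
clauses `finite`, `smul_comm`, `finite_level`, `frob` of the package). -/
def StmtRepN : Prop :=
  ∀ (W : WeierstrassCurve ℤ), W.Δ ≠ 0 → ∀ (p : ℕ), p.Prime → p ≠ 2 → W.ModRepIsIrreducible p →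
    ∀ (N : ℕ), 0 < N →
    ∀ (J : Type) (_ : AddCommGroup J) (_ : Module HeckeAlg J) (_ : DistribMulAction GQ J),
      ESDataInf N p J →
      ∀ v : J, v ≠ 0 → p • v = 0 →
        (∀ ℓ ∈ goodAt W N p, heckeGen ℓ • v = (W.apOfModel ℓ : ℤ) • v) →
        ∃ (V₀ : AddSubgroup J) (e : V₀ ≃+ Fermat.Agent.R38.ETors W p),
          (∀ x ∈ V₀, p • x = 0) ∧
          (∀ x ∈ V₀, ∀ ℓ ∈ goodAt W N p, heckeGen ℓ • x = (W.apOfModel ℓ : ℤ) • x) ∧
          ∃ hst : ∀ (σ : GQ), ∀ x ∈ V₀, σ • x ∈ V₀,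
            ∀ (σ : GQ) (x : V₀), e ⟨σ • (x : J), hst σ x x.2⟩ = σ • e x

/-- **MP-5 (glue).**  Mazur's principle from the `J`-form, the copy of `E[p]` and the lifting
lemma. -/
def StmtGlue : Prop :=
  StmtAtQ → StmtWHecke → StmtRepN → Fermat.Agent.R38.StmtLift → Fermat.Agent.RIB.StmtMP

end Fermat.Agent.RIB.MP

end


end ZBRIB_001_1

/-! ### bundled: `Fermat.Agent.RIB.MP.RedHeckeInf` -/
section ZBRIB_001_2

/-!
# MP-HK, part 1: the Hecke norm preserves Gauss-constants; `RedInf` is stable under `T_ℓ`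

`A ⊂ ℚ̄` a valuation ring, `ℓ` a prime, `ζ` a primitive `ℓ`-th root of unity.

Formal part (series over any field `L` with a valuation ring `A`; NO condition on the residue
characteristic):
* `ribmp_hk_congr_qExpand`, `ribmp_hk_prim_qExpand` : `f ↦ f(q^N)` preserves `KronCongr`,
  `KronPrim`;
* `ribmp_hk_congr_kronNorm`, `ribmp_hk_prim_kronNorm` : `f ↦ ∏_b f(ζ^b q^{1/ℓ})` preserves
  `KronCongr`, `KronPrim` (Gauss' lemma);
* `ribmp_hk_congr_kronHecke`, `ribmp_hk_prim_kronHecke` : the same for `kronHecke ℓ ζ`.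

Modular part (`F_N = modularFunctionFieldBar N`, `ℓ ∤ N`):
* `ribmp_hk_reducesToOne` : `ReducesToOne A N u → ReducesToOne A N (heckeNormFun N ℓ u)`;
* `ribmp_hk_gaussConst`   : `GaussConst A N u → GaussConst A N (heckeNormFun N ℓ u)`;
* `ribmp_hk_alpha`        : `α_q (heckeNormFun M₁ ℓ v) = heckeNormFun (M₁ q) ℓ (α_q v)`;
* `ribmp_hk_redInf`       : `RedInf A m x y → RedInf A m (T_ℓ x) (T_ℓ y)`, `ℓ ∤ M₁ q`.
-/

set_option autoImplicit false
set_option linter.style.haveILetI false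
set_option linter.unusedSectionVars false

noncomputable section

namespace Fermat.Agent.RIB.MP

open ModularCurve AlgebraicCurve HahnSeries Fermat.Agent.ES Fermat.Agent.ES.G2

/-! ## 1. Formal part -/

section Formal

variable {L : Type*} [Field L] {A : ValuationSubring L}

theorem ribmp_hk_congr_qExpand {f g : LaurentSeries L} (hf : KronInt A f) (hg : KronInt A g)
    (h : KronCongr A f g) (N : ℕ) [NeZero N] :
    KronCongr A (qExpand L N f) (qExpand L N g) := by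
  obtain ⟨F, rfl⟩ := hf.exists_lift
  obtain ⟨G, rfl⟩ := hg.exists_lift
  rw [kronCongr_kronIncl_iff] at h
  have h1 : qExpand L N (kronIncl A F) = kronIncl A (qExpand A N F) :=
    (coeffMap_qExpand A.subtype N F).symm
  have h2 : qExpand L N (kronIncl A G) = kronIncl A (qExpand A N G) :=
    (coeffMap_qExpand A.subtype N G).symm
  rw [h1, h2, kronCongr_kronIncl_iff]
  show coeffMap (IsLocalRing.residue A) (qExpand A N F)
    = coeffMap (IsLocalRing.residue A) (qExpand A N G)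
  rw [coeffMap_qExpand, coeffMap_qExpand]
  exact congrArg _ h

theorem ribmp_hk_prim_qExpand {f : LaurentSeries L} (hf : KronPrim A f) (N : ℕ) [NeZero N] :
    KronPrim A (qExpand L N f) := by
  obtain ⟨F, rfl⟩ := hf.1.exists_lift
  rw [kronPrim_kronIncl_iff] at hf
  have h1 : qExpand L N (kronIncl A F) = kronIncl A (qExpand A N F) :=
    (coeffMap_qExpand A.subtype N F).symm
  rw [h1, kronPrim_kronIncl_iff]
  show coeffMap (IsLocalRing.residue A) (qExpand A N F) ≠ 0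
  rw [coeffMap_qExpand]
  intro h0
  apply hf
  have hinj : Function.Injective (qExpand (IsLocalRing.ResidueField A) N) :=
    RingHom.injective _
  exact hinj (by rw [h0, map_zero])

theorem ribmp_hk_congr_kronNorm {ℓ : ℕ} [NeZero ℓ] (ζ : Lˣ) (hζ : ζ ^ ℓ = 1)
    {f g : LaurentSeries L} (hf : KronInt A f) (hg : KronInt A g) (h : KronCongr A f g) :
    KronCongr A (kronNorm ℓ ζ f) (kronNorm ℓ ζ g) := by
  obtain ⟨F, rfl⟩ := hf.exists_lift
  obtain ⟨G, rfl⟩ := hg.exists_lift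
  obtain ⟨ζA, rfl⟩ := kron_exists_unit_lift A (NeZero.ne ℓ) ζ hζ
  rw [kronCongr_kronIncl_iff] at h
  have h1 : kronNorm ℓ (Units.map (A.subtype : A →* L) ζA) (kronIncl A F)
      = kronIncl A (kronNorm ℓ ζA F) := (coeffMap_kronNorm A.subtype ℓ ζA F).symm
  have h2 : kronNorm ℓ (Units.map (A.subtype : A →* L) ζA) (kronIncl A G)
      = kronIncl A (kronNorm ℓ ζA G) := (coeffMap_kronNorm A.subtype ℓ ζA G).symm
  rw [h1, h2, kronCongr_kronIncl_iff]
  show coeffMap (IsLocalRing.residue A) (kronNorm ℓ ζA F)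
    = coeffMap (IsLocalRing.residue A) (kronNorm ℓ ζA G)
  rw [coeffMap_kronNorm, coeffMap_kronNorm]
  exact congrArg _ h

/-- a rotation by a root of unity preserves primitivity -/
theorem ribmp_hk_prim_kronRot {n : ℕ} (hn : n ≠ 0) (c : Lˣ) (hc : c ^ n = 1)
    {f : LaurentSeries L} (hf : KronPrim A f) : KronPrim A (kronRot c f) := by
  obtain ⟨F, rfl⟩ := hf.1.exists_lift
  obtain ⟨cA, rfl⟩ := kron_exists_unit_lift A hn c hc
  rw [kronPrim_kronIncl_iff] at hf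
  have h1 : kronRot (Units.map (A.subtype : A →* L) cA) (kronIncl A F)
      = kronIncl A (kronRot cA F) := (coeffMap_kronRot A.subtype cA F).symm
  rw [h1, kronPrim_kronIncl_iff]
  show coeffMap (IsLocalRing.residue A) (kronRot cA F) ≠ 0
  rw [coeffMap_kronRot]
  intro h0
  apply hf
  exact RingHom.injective _ (by rw [h0, map_zero])

theorem ribmp_hk_prim_finset_prod {ι : Type*} (s : Finset ι) (u : ι → LaurentSeries L)
    (h : ∀ i ∈ s, KronPrim A (u i)) : KronPrim A (∏ i ∈ s, u i) := by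
  classical
  induction s using Finset.induction_on with
  | empty => rw [Finset.prod_empty]; exact s37Kron_kronPrim_one
  | insert a s ha ih =>
    rw [Finset.prod_insert ha]
    exact (h a (Finset.mem_insert_self a s)).mul
      (ih fun i hi => h i (Finset.mem_insert_of_mem hi))

/-- if `f(q^N)` is primitive then so is `f` -/
theorem ribmp_hk_prim_of_qExpand {f : LaurentSeries L} (N : ℕ) [NeZero N]
    (h : KronPrim A (qExpand L N f)) : KronPrim A f := by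
  refine ⟨fun n => ?_, ?_⟩
  · have := h.1 ((N : ℤ) * n)
    rwa [qExpand_coeff_mul] at this
  · obtain ⟨m, hm⟩ := h.2
    by_cases hd : (N : ℤ) ∣ m
    · obtain ⟨n, rfl⟩ := hd
      rw [qExpand_coeff_mul] at hm
      exact ⟨n, hm⟩
    · exfalso
      apply hm
      rw [qExpand_coeff_of_not_dvd N f hd]
      exact (ValuationSubring.mem_nonunits_iff_or (A := A)).mpr (Or.inl rfl)

/-- Gauss' lemma for the norm `∏_b f(ζ^b q^{1/ℓ})` -/
theorem ribmp_hk_prim_kronNorm {ℓ : ℕ} [NeZero ℓ] (ζ : Lˣ) (hζ : IsPrimitiveRoot ζ ℓ)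
    {f : LaurentSeries L} (hf : KronPrim A f) : KronPrim A (kronNorm ℓ ζ f) := by
  apply ribmp_hk_prim_of_qExpand ℓ
  rw [qExpand_kronNorm ℓ ζ hζ, kronRotProd]
  refine ribmp_hk_prim_finset_prod _ _ fun b _ => ?_
  refine ribmp_hk_prim_kronRot (NeZero.ne ℓ) (ζ ^ b) ?_ hf
  rw [← pow_mul, mul_comm, pow_mul, hζ.pow_eq_one, one_pow]

theorem ribmp_hk_congr_kronHecke {ℓ : ℕ} [NeZero ℓ] (ζ : Lˣ) (hζ : ζ ^ ℓ = 1)
    {f g : LaurentSeries L} (hf : KronInt A f) (hg : KronInt A g) (h : KronCongr A f g) :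
    KronCongr A (kronHecke ℓ ζ f) (kronHecke ℓ ζ g) :=
  KronCongr.mul (hf.qExpand ℓ) (hg.qExpand ℓ) (hf.kronNorm ζ hζ) (hg.kronNorm ζ hζ)
    (ribmp_hk_congr_qExpand hf hg h ℓ) (ribmp_hk_congr_kronNorm ζ hζ hf hg h)

theorem ribmp_hk_prim_kronHecke {ℓ : ℕ} [NeZero ℓ] (ζ : Lˣ) (hζ : IsPrimitiveRoot ζ ℓ)
    {f : LaurentSeries L} (hf : KronPrim A f) : KronPrim A (kronHecke ℓ ζ f) :=
  (ribmp_hk_prim_qExpand hf ℓ).mul (ribmp_hk_prim_kronNorm ζ hζ hf)

end Formal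

/-! ## 2. The Hecke norm preserves Gauss-constants -/

section Modular

variable {N : ℕ} [NeZero N] {A : ValuationSubring Qb}

theorem ribmp_hk_reducesToOne (ℓ : ℕ) [NeZero ℓ] (hℓ : ℓ.Prime) (hℓN : ¬ ℓ ∣ N)
    {u : modularFunctionFieldBar N} (hu : ReducesToOne A N u) :
    ReducesToOne A N (heckeNormFun N ℓ u) := by
  obtain ⟨y₁, y₂, hy₁, hy₂, hp₁, hp₂, hc, he⟩ := hu
  obtain ⟨ζ, hζ⟩ := frob_exists_primitiveRoot ℓ hℓ.ne_zero
  have hY₁ := heckeNormFun_coe N stmtHeckeNorm ℓ hℓ hℓN ζ hζ ⟨y₁, hy₁⟩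
  have hY₂ := heckeNormFun_coe N stmtHeckeNorm ℓ hℓ hℓN ζ hζ ⟨y₂, hy₂⟩
  have hU := heckeNormFun_coe N stmtHeckeNorm ℓ hℓ hℓN ζ hζ u
  refine ⟨kronHecke ℓ ζ y₁, kronHecke ℓ ζ y₂, ?_, ?_, ribmp_hk_prim_kronHecke ζ hζ hp₁,
    ribmp_hk_prim_kronHecke ζ hζ hp₂,
    ribmp_hk_congr_kronHecke ζ hζ.pow_eq_one hp₁.1 hp₂.1 hc, ?_⟩
  · rw [← hY₁]; exact (heckeNormFun N ℓ ⟨y₁, hy₁⟩).2
  · rw [← hY₂]; exact (heckeNormFun N ℓ ⟨y₂, hy₂⟩).2
  · rw [hU, ← kronHecke_mul ζ hζ, he]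

/-- the Hecke norm of a constant is a power of the constant -/
theorem ribmp_hk_heckeNormFun_algebraMap (ℓ : ℕ) [NeZero ℓ] (c : Qb) :
    ∃ n : ℕ, heckeNormFun N ℓ (algebraMap Qb (modularFunctionFieldBar N) c) =
      algebraMap Qb (modularFunctionFieldBar N) c ^ n := by
  letI := (heckeAlphaBar Qb N ℓ).toRingHom.toAlgebra
  refine ⟨Module.finrank (modularFunctionFieldBar N) (modularFunctionFieldBar (N * ℓ)), ?_⟩
  show Algebra.norm (modularFunctionFieldBar N)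
    (heckeBetaBar Qb N ℓ (algebraMap Qb (modularFunctionFieldBar N) c)) = _
  have h1 : heckeBetaBar Qb N ℓ (algebraMap Qb (modularFunctionFieldBar N) c) =
      algebraMap (modularFunctionFieldBar N) (modularFunctionFieldBar (N * ℓ))
        (algebraMap Qb (modularFunctionFieldBar N) c) := by
    rw [AlgHom.commutes]
    exact ((heckeAlphaBar Qb N ℓ).commutes c).symm
  rw [h1, Algebra.norm_algebraMap]

theorem ribmp_hk_gaussConst (ℓ : ℕ) [NeZero ℓ] (hℓ : ℓ.Prime) (hℓN : ¬ ℓ ∣ N)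
    {u : modularFunctionFieldBar N} (hu : GaussConst A N u) :
    GaussConst A N (heckeNormFun N ℓ u) := by
  obtain ⟨c, hc, h⟩ := hu
  have h1 := ribmp_hk_reducesToOne ℓ hℓ hℓN h
  rw [heckeNormFun_mul] at h1
  obtain ⟨n, hn⟩ := ribmp_hk_heckeNormFun_algebraMap (N := N) ℓ c
  have h2 : GaussConst A N (heckeNormFun N ℓ (algebraMap Qb (modularFunctionFieldBar N) c)) := by
    rw [hn]
    exact (GaussConst.const hc).pow n
  have h3 : heckeNormFun N ℓ u =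
      (heckeNormFun N ℓ (algebraMap Qb (modularFunctionFieldBar N) c) * heckeNormFun N ℓ u) /
        heckeNormFun N ℓ (algebraMap Qb (modularFunctionFieldBar N) c) := by
    rw [mul_div_assoc, mul_div_cancel₀ _ h2.ne_zero]
  rw [h3]
  exact (GaussConst.of_reducesToOne h1).div h2

theorem ribmp_hk_heckeNormFun_div (ℓ : ℕ) [NeZero ℓ] (u v : modularFunctionFieldBar N)
    (hv : v ≠ 0) :
    heckeNormFun N ℓ (u / v) = heckeNormFun N ℓ u / heckeNormFun N ℓ v := by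
  have hv' : heckeNormFun N ℓ v ≠ 0 := heckeNormFun_ne_zero N ℓ hv
  rw [eq_div_iff hv', ← heckeNormFun_mul, div_mul_cancel₀ _ hv]

end Modular

/-! ## 3. `RedInf` is stable under `T_ℓ` -/

section RedInf

variable {M₁ q : ℕ} [NeZero M₁] [NeZero q] [NeZero (M₁ * q)]

/-- the Hecke norm commutes with the inclusion `α_q : F_{M₁} → F_{M₁ q}` -/
theorem ribmp_hk_alpha (ℓ : ℕ) [NeZero ℓ] (hℓ : ℓ.Prime) (hℓM : ¬ ℓ ∣ M₁ * q)
    (v : modularFunctionFieldBar M₁) :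
    heckeAlphaBar Qb M₁ q (heckeNormFun M₁ ℓ v) =
      heckeNormFun (M₁ * q) ℓ (heckeAlphaBar Qb M₁ q v) := by
  obtain ⟨ζ, hζ⟩ := frob_exists_primitiveRoot ℓ hℓ.ne_zero
  have hℓM₁ : ¬ ℓ ∣ M₁ := fun h => hℓM (h.mul_right q)
  apply Subtype.ext
  rw [coe_heckeAlphaBar, heckeNormFun_coe M₁ stmtHeckeNorm ℓ hℓ hℓM₁ ζ hζ,
    heckeNormFun_coe (M₁ * q) stmtHeckeNorm ℓ hℓ hℓM ζ hζ, coe_heckeAlphaBar]

theorem ribmp_hk_redInf (A : ValuationSubring Qb) (m : ℕ) (ℓ : Nat.Primes)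
    (hℓM : ¬ (ℓ : ℕ) ∣ M₁ * q) {x : JZero (M₁ * q)} {y : JZero M₁} (h : RedInf A m x y) :
    RedInf A m (heckeOperatorBar (M₁ * q) ℓ x) (heckeOperatorBar M₁ ℓ y) := by
  haveI : NeZero (ℓ : ℕ) := ⟨ℓ.2.ne_zero⟩
  obtain ⟨u, v, hu, hv, hG⟩ := h
  refine ⟨heckeNormFun (M₁ * q) (ℓ : ℕ) u, heckeNormFun M₁ (ℓ : ℕ) v,
    KummerRel.hecke (M₁ * q) ℓ hu, KummerRel.hecke M₁ ℓ hv, ?_⟩
  have hαv : heckeAlphaBar Qb M₁ q v ≠ 0 :=
    (map_ne_zero_iff _ (heckeAlphaBar Qb M₁ q).toRingHom.injective).mpr hv.ne_zero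
  rw [ribmp_hk_alpha (ℓ : ℕ) ℓ.2 hℓM, ← ribmp_hk_heckeNormFun_div _ _ _ hαv]
  exact ribmp_hk_gaussConst (ℓ : ℕ) ℓ.2 hℓM hG

end RedInf

end Fermat.Agent.RIB.MP

end
end ZBRIB_001_2

/-! ### bundled: `Fermat.Agent.RIB.MP.Desc` -/
section ZBRIB_001_3

/-!
# RIB-MP, piece MP-DESC: Kummer functions of inertia-fixed classes descend to the inertia field

`A ⊂ ℚ̄` a valuation ring over `q`, `I` its inertia group, `E₀ = beta0Field A = ℚ̄^I`.

* `ribmp_desc_cocycle` : `x ∈ J₀(N)` inertia-fixed, `u` a Kummer function of `x` (exponent `m`):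
  `σ u = a_σ · h_σ ^ m · u` for every `σ ∈ I`;
* `ribmp_desc_kummerRel_of_eq` : `u = b · g ^ m · u′`, `u` a Kummer function of `x`  ⇒  `u′` is a
  Kummer function of `x`;
* **`ribmp_desc`** : an inertia-fixed `x ∈ J₀(N)[m]` has a Kummer function `nfEmb E₀ N u₀`,
  `u₀ ∈ F_N(E₀)`.
-/

set_option autoImplicit false
set_option linter.unusedSectionVars false
set_option linter.unusedVariables false
set_option linter.style.haveILetI false

noncomputable section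

namespace Fermat.Agent.RIB.MP

open ModularCurve AlgebraicCurve Fermat.Agent.ES Fermat.Agent.ES.G2 Fermat.Agent.INJ
  Fermat.Agent.UNIP

section Desc

variable {N : ℕ} [NeZero N]

/-- the Kummer function of an inertia-fixed class is multiplied by a constant times an `m`-th
power under inertia -/
theorem ribmp_desc_cocycle {A : ValuationSubring Qb} {m : ℕ} {x : JZero N}
    {u : modularFunctionFieldBar N} (hu : KummerRel m x u) (hI : InertiaFixed A x) :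
    ∀ σ ∈ A.inertiaSubgroupIn ℚ, ∃ (a : Qb) (h : modularFunctionFieldBar N),
      arithmeticGalois (modularFunctionFieldFull N) σ • u =
        algebraMap Qb (modularFunctionFieldBar N) a * h ^ m * u := by
  intro σ hσ
  have h1 : KummerRel m (arithmeticGalois (modularFunctionFieldFull N) σ • x)
      (arithmeticGalois (modularFunctionFieldFull N) σ • u) := hu.smul _
  have h2 : arithmeticGalois (modularFunctionFieldFull N) σ • x = x := hI σ hσ
  rw [h2] at h1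
  obtain ⟨k, c, hk, hc0, hc, he⟩ := hu.exists_eq_mul_pow h1
  obtain ⟨c₀, rfl⟩ := mu_exists_const_of_ord_eq_zero c hc
  exact ⟨c₀, k, by rw [he]; ring⟩

/-- a function differing from a Kummer function of `x` by a constant times an `m`-th power is a
Kummer function of `x` -/
theorem ribmp_desc_kummerRel_of_eq {m : ℕ} (hm : m ≠ 0) {x : JZero N}
    {u u' g : modularFunctionFieldBar N} {b : Qb} (hu : KummerRel m x u) (hb : b ≠ 0)
    (hg : g ≠ 0) (hu' : u' ≠ 0)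
    (he : u = algebraMap Qb (modularFunctionFieldBar N) b * g ^ m * u') :
    KummerRel m x u' := by
  haveI : HasPrincipalDivisors (AlgebraicClosure ℚ) (modularFunctionFieldBar N) :=
    Fermat.Agent.ES.H.hasPrincipalDivisors_FF N
  have hb0 : algebraMap Qb (modularFunctionFieldBar N) b ≠ 0 := (map_ne_zero _).2 hb
  have hgm : g ^ m ≠ 0 := pow_ne_zero m hg
  obtain ⟨D, hDx, hu0, hD⟩ := hu
  have hdvd : ∀ v : Place Qb (modularFunctionFieldBar N), (m : ℤ) ∣ v.ord u' := by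
    intro v
    have h1 := hD v
    rw [he, v.ord_mul (mul_ne_zero hb0 hgm) hu', v.ord_mul hb0 hgm,
      unram_ord_algebraMap v hb, zero_add] at h1
    have h2 : v.ord (g ^ m) = (m : ℤ) * v.ord g := by
      have := v.ord_zpow g (m : ℤ)
      rwa [zpow_natCast] at this
    rw [h2] at h1
    exact ⟨(D : Divisor Qb (modularFunctionFieldBar N)) v - v.ord g, by linarith⟩
  obtain ⟨x', -, hx'⟩ := exists_kummerRel_of_dvd hm hu' hdvd
  have hsub : KummerRel m (x - x') (u / u') := KummerRel.sub ⟨D, hDx, hu0, hD⟩ hx'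
  have e1 : u / u' = algebraMap Qb (modularFunctionFieldBar N) b * g ^ m := by
    rw [he]
    field_simp
  rw [e1] at hsub
  have h0 : x - x' = 0 :=
    KummerRel.eq_zero_of_pow hm (fun v => unram_ord_algebraMap v hb) hsub
  rw [sub_eq_zero] at h0
  rw [h0]
  exact hx'

/-- **MP-DESC.**  An inertia-fixed class of `J₀(N)[m]` has a Kummer function with coefficients
in the inertia field `E₀ = ℚ̄^I`. -/
theorem ribmp_desc {q : ℕ} (hq : q.Prime) {A : ValuationSubring Qb} (hA : A.LiesOverPrime q)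
    {m : ℕ} (hm : m ≠ 0) {x : JZero N} (hx : m • x = 0) (hI : InertiaFixed A x) :
    ∃ u₀ : modularFunctionFieldFullC (beta0Field A) N, u₀ ≠ 0 ∧
      KummerRel m x (nfEmb (beta0Field A) N u₀) := by
  obtain ⟨u, hu⟩ := exists_kummerRel hx
  obtain ⟨u₀, b, g, hu₀, hb, hg, he⟩ :=
    Fermat.Agent.S36.s36d_descent hq hA N hm u hu.ne_zero (ribmp_desc_cocycle hu hI)
  refine ⟨u₀, hu₀, ribmp_desc_kummerRel_of_eq hm hu hb hg ?_ he⟩
  exact (map_ne_zero _).2 hu₀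

/-- **MP-DESC**, for a given Kummer function: `u = b · g ^ m · nfEmb u₀`. -/
theorem ribmp_desc_of_kummerRel {q : ℕ} (hq : q.Prime) {A : ValuationSubring Qb}
    (hA : A.LiesOverPrime q) {m : ℕ} (hm : m ≠ 0) {x : JZero N}
    {u : modularFunctionFieldBar N} (hu : KummerRel m x u) (hI : InertiaFixed A x) :
    ∃ (u₀ : modularFunctionFieldFullC (beta0Field A) N) (b : Qb)
      (g : modularFunctionFieldBar N), u₀ ≠ 0 ∧ b ≠ 0 ∧ g ≠ 0 ∧
        u = algebraMap Qb (modularFunctionFieldBar N) b * g ^ m * nfEmb (beta0Field A) N u₀ ∧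
        KummerRel m x (nfEmb (beta0Field A) N u₀) := by
  obtain ⟨u₀, b, g, hu₀, hb, hg, he⟩ :=
    Fermat.Agent.S36.s36d_descent hq hA N hm u hu.ne_zero (ribmp_desc_cocycle hu hI)
  exact ⟨u₀, b, g, hu₀, hb, hg, he,
    ribmp_desc_kummerRel_of_eq hm hu hb hg ((map_ne_zero _).2 hu₀) he⟩

end Desc

end Fermat.Agent.RIB.MP

end
end ZBRIB_001_3

/-! ### bundled: `Fermat.Agent.RIB.MP.ValHecke` -/
section ZBRIB_001_4
/-
Row 37, Mazur's principle, piece **MP-VH** (helper81), part 1: the Gauss valuation of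
`T_ℓ u / u ^ (ℓ + 1)` at `v_∞` (in `q`-expansions over `ℚ̄`).

* `RibmpGaussUnit A N u` : `u = y₁ / y₂` with `y₁, y₂ ∈ F_N` primitive `A`-integral series
  ("`v_∞(u) = 0`");
* `ribmpEisFun N ℓ u = N_α(β u) / u ^ (ℓ + 1)` : the Kummer function of `eisKill ℓ x`
  (`ribmp_vh_kummerRel`);
* `ribmp_vh_gaussUnit` : `RibmpGaussUnit A N (ribmpEisFun N ℓ u)` for every `u ≠ 0`
  (`stmtPrim`, `stmtHeckeNorm`, Gauss' lemma).
-/

set_option autoImplicit false
set_option linter.unusedSectionVars false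
set_option linter.style.haveILetI false

noncomputable section

namespace Fermat.Agent.RIB.MP

open ModularCurve AlgebraicCurve Fermat.Agent.ES Fermat.Agent.ES.G2

/-! ### Primitive series and the multiplicative Hecke operator -/

section Kron

variable {L : Type*} [Field L] {A : ValuationSubring L} {ℓ : ℕ} [NeZero ℓ]

/-- `f(q^ℓ)` is primitive when `f` is -/
theorem ribmp_vh_kronPrim_qExpand {f : LaurentSeries L} (hf : KronPrim A f) :
    KronPrim A (qExpand L ℓ f) := by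
  refine ⟨hf.1.qExpand ℓ, ?_⟩
  obtain ⟨n, hn⟩ := hf.2
  refine ⟨(ℓ : ℤ) * n, ?_⟩
  rw [← kronCompress_coeff, kronCompress_qExpand]
  exact hn

/-- **Gauss' lemma for `T_ℓ`**: `f(q^ℓ) ∏_b f(ζ^b q^{1/ℓ})` is primitive when `f` is -/
theorem ribmp_vh_kronPrim_kronHecke (ζ : Lˣ) (hζ : IsPrimitiveRoot ζ ℓ) {f : LaurentSeries L}
    (hf : KronPrim A f) : KronPrim A (kronHecke ℓ ζ f) :=
  (ribmp_vh_kronPrim_qExpand hf).mul (Fermat.Agent.S33.nda_kronPrim_kronNorm ζ hζ hf)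

/-- rotation fixes the constants -/
theorem ribmp_vh_kronRot_C (ζ : Lˣ) (c : L) :
    kronRot ζ (HahnSeries.C c : LaurentSeries L) = HahnSeries.C c := by
  ext n
  rw [kronRot_coeff, HahnSeries.C_apply, HahnSeries.coeff_single]
  split_ifs with h
  · subst h
    rw [zpow_zero, Units.val_one, one_mul]
  · rw [mul_zero]

/-- `T_ℓ` of a constant `c` is `c ^ (ℓ + 1)` -/
theorem ribmp_vh_kronHecke_C (ζ : Lˣ) (c : L) :
    kronHecke ℓ ζ (HahnSeries.C c : LaurentSeries L) = HahnSeries.C (c ^ (ℓ + 1)) := by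
  have h2 : kronNorm ℓ ζ (HahnSeries.C c : LaurentSeries L) = HahnSeries.C (c ^ ℓ) := by
    apply kronNorm_unique
    rw [qExpand_C, kronRotProd]
    simp only [ribmp_vh_kronRot_C]
    rw [Finset.prod_const, Finset.card_range, map_pow]
  rw [kronHecke, qExpand_C, h2, ← map_mul, pow_succ']

end Kron

/-! ### The Kummer function of `eisKill ℓ x` -/

section EisFun

variable (N : ℕ) [NeZero N]

/-- "`v_∞(u) = 0`": `u = y₁ / y₂` with `y₁, y₂ ∈ F_N` primitive `A`-integral series. -/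
def RibmpGaussUnit (A : ValuationSubring Qb) (u : modularFunctionFieldBar N) : Prop :=
  ∃ y₁ y₂ : LaurentSeries Qb,
    y₁ ∈ modularFunctionFieldBar N ∧ y₂ ∈ modularFunctionFieldBar N ∧
      KronPrim A y₁ ∧ KronPrim A y₂ ∧ (u : LaurentSeries Qb) * y₂ = y₁

/-- `T_ℓ u / u ^ (ℓ + 1)`, the Kummer function of `T_ℓ x − (ℓ + 1) x` -/
def ribmpEisFun (ℓ : ℕ) [NeZero ℓ] (u : modularFunctionFieldBar N) : modularFunctionFieldBar N :=
  heckeNormFun N ℓ u / u ^ (ℓ + 1)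

theorem ribmpEisFun_ne_zero (ℓ : ℕ) [NeZero ℓ] {u : modularFunctionFieldBar N} (hu : u ≠ 0) :
    ribmpEisFun N ℓ u ≠ 0 :=
  div_ne_zero (heckeNormFun_ne_zero N ℓ hu) (pow_ne_zero _ hu)

theorem ribmpEisFun_mul (ℓ : ℕ) [NeZero ℓ] (u v : modularFunctionFieldBar N) :
    ribmpEisFun N ℓ (u * v) = ribmpEisFun N ℓ u * ribmpEisFun N ℓ v := by
  unfold ribmpEisFun
  rw [heckeNormFun_mul, mul_pow, mul_div_mul_comm]

variable {N}

/-- Kummer functions of multiples -/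
theorem ribmp_vh_kummerRel_nsmul {n : ℕ} {x : JZero N} {u : modularFunctionFieldBar N}
    (h : KummerRel n x u) (m : ℕ) : KummerRel n (m • x) (u ^ m) := by
  induction m with
  | zero =>
    rw [zero_nsmul, pow_zero]
    exact KummerRel.zero
  | succ k ih =>
    rw [succ_nsmul, pow_succ]
    exact ih.add h

/-- **the Kummer function of `eisKill ℓ x`** -/
theorem ribmp_vh_kummerRel (ℓ : Nat.Primes) {n : ℕ} {x : JZero N}
    {u : modularFunctionFieldBar N} (h : KummerRel n x u) :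
    haveI : NeZero (ℓ : ℕ) := ⟨ℓ.2.ne_zero⟩
    KummerRel n (eisKill ℓ x) (ribmpEisFun N (ℓ : ℕ) u) := by
  haveI : NeZero (ℓ : ℕ) := ⟨ℓ.2.ne_zero⟩
  exact (KummerRel.hecke N ℓ h).sub (ribmp_vh_kummerRel_nsmul h ((ℓ : ℕ) + 1))

/-- the `q`-expansion of `ribmpEisFun` -/
theorem ribmpEisFun_coe (ℓ : ℕ) [NeZero ℓ] (hℓ : ℓ.Prime) (hℓN : ¬ ℓ ∣ N) (ζ : Qbˣ)
    (hζ : IsPrimitiveRoot ζ ℓ) (u : modularFunctionFieldBar N) :
    ((ribmpEisFun N ℓ u : modularFunctionFieldBar N) : LaurentSeries Qb)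
      = kronHecke ℓ ζ (u : LaurentSeries Qb) / (u : LaurentSeries Qb) ^ (ℓ + 1) := by
  rw [← heckeNormFun_coe N stmtHeckeNorm ℓ hℓ hℓN ζ hζ u]
  rfl

/-- **MP-VH at `v_∞`.**  `v_∞(T_ℓ u / u ^ (ℓ + 1)) = 0` for every `u ∈ F_N^×`, every prime
`ℓ ∤ N` and every valuation ring `A` of `ℚ̄`. -/
theorem ribmp_vh_gaussUnit {q : ℕ} (hq : q.Prime) {A : ValuationSubring Qb}
    (hA : A.LiesOverPrime q) (ℓ : ℕ) [NeZero ℓ] (hℓ : ℓ.Prime) (hℓN : ¬ ℓ ∣ N)
    (u : modularFunctionFieldBar N) (hu : u ≠ 0) : RibmpGaussUnit N A (ribmpEisFun N ℓ u) := by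
  obtain ⟨ζ, hζ⟩ := frob_exists_primitiveRoot ℓ (NeZero.ne ℓ)
  obtain ⟨c, y₁, y₂, hc, hy₁, hy₂, hp₁, hp₂, hxy⟩ := stmtPrim N q hq A hA u hu
  have hK : ∀ y : LaurentSeries Qb, y ∈ modularFunctionFieldBar N →
      kronHecke ℓ ζ y ∈ modularFunctionFieldBar N := by
    intro y hy
    rw [← heckeNormFun_coe N stmtHeckeNorm ℓ hℓ hℓN ζ hζ ⟨y, hy⟩]
    exact (heckeNormFun N ℓ ⟨y, hy⟩).2
  have hU0 : (u : LaurentSeries Qb) ≠ 0 := fun h => hu (Subtype.ext h)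
  have hy₂0 : y₂ ≠ 0 := by
    rintro rfl
    obtain ⟨n, hn⟩ := hp₂.2
    apply hn
    rw [HahnSeries.coeff_zero]
    exact A.mem_nonunits_iff.2 (by rw [map_zero]; exact zero_lt_one)
  refine ⟨kronHecke ℓ ζ y₁ * y₂ ^ (ℓ + 1), kronHecke ℓ ζ y₂ * y₁ ^ (ℓ + 1),
    (modularFunctionFieldBar N).mul_mem (hK y₁ hy₁) (pow_mem hy₂ _),
    (modularFunctionFieldBar N).mul_mem (hK y₂ hy₂) (pow_mem hy₁ _),
    (ribmp_vh_kronPrim_kronHecke ζ hζ hp₁).mul (hp₂.pow _),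
    (ribmp_vh_kronPrim_kronHecke ζ hζ hp₂).mul (hp₁.pow _), ?_⟩
  rw [ribmpEisFun_coe ℓ hℓ hℓN ζ hζ u]
  have e1 : kronHecke ℓ ζ (u : LaurentSeries Qb) * kronHecke ℓ ζ y₂
      = HahnSeries.C (c ^ (ℓ + 1)) * kronHecke ℓ ζ y₁ := by
    rw [← kronHecke_mul ζ hζ, hxy, kronHecke_mul ζ hζ, ribmp_vh_kronHecke_C]
  have e2 : (u : LaurentSeries Qb) ^ (ℓ + 1) * y₂ ^ (ℓ + 1)
      = HahnSeries.C (c ^ (ℓ + 1)) * y₁ ^ (ℓ + 1) := by
    rw [← mul_pow, hxy, mul_pow, map_pow]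
  have hUp : (u : LaurentSeries Qb) ^ (ℓ + 1) ≠ 0 := pow_ne_zero _ hU0
  rw [div_mul_eq_mul_div, div_eq_iff hUp]
  calc kronHecke ℓ ζ (u : LaurentSeries Qb) * (kronHecke ℓ ζ y₂ * y₁ ^ (ℓ + 1))
      = (kronHecke ℓ ζ (u : LaurentSeries Qb) * kronHecke ℓ ζ y₂) * y₁ ^ (ℓ + 1) := by ring
    _ = kronHecke ℓ ζ y₁ * (HahnSeries.C (c ^ (ℓ + 1)) * y₁ ^ (ℓ + 1)) := by rw [e1]; ring
    _ = kronHecke ℓ ζ y₁ * y₂ ^ (ℓ + 1) * (u : LaurentSeries Qb) ^ (ℓ + 1) := by rw [← e2]; ring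

end EisFun

end Fermat.Agent.RIB.MP

end


end ZBRIB_001_4

/-! ### bundled: `Fermat.Agent.R38.TresEisRed` -/
section ZBRIB_001_5

/-!
# Row 38, PKG-TRES, piece FAC-EIS (G1): the Gauss reduction of `T_ℓ u / u ^ (ℓ + 1)`  (helper42)

`A ⊂ ℚ̄` a valuation ring over `q`, `k = kA A`, `ℓ ≠ q` a prime, `ℓ ∤ N`.  If `u ∈ F_N` is a
Kummer function of `x` with Gauss reduction `r` (`R38Red A u r`), then
`u′ = T_ℓ u / u ^ (ℓ + 1)` (`RIB.MP.ribmpEisFun`) is a Kummer function of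
`eisKill ℓ x = T_ℓ x − (ℓ + 1) x` with Gauss reduction `T̄_ℓ r / r ^ (ℓ + 1)`
(`T̄_ℓ = kronHecke ℓ ζ̄`, `ζ̄` a primitive `ℓ`-th root of unity of `k`).

* `tres4rEis ℓ ζ̄ r := kronHecke ℓ ζ̄ r / r ^ (ℓ + 1)`;
* `tres4r_red`   : `R38Red A u r ⇒ R38Red A (T_ℓ u / u^(ℓ+1)) (tres4rEis ℓ ζ̄ r)`;
* `tres4r_main`  : the Kummer function of `eisKill ℓ x` and its reduction.
-/

set_option autoImplicit false
set_option linter.unusedSectionVars false
set_option linter.style.haveILetI false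

noncomputable section

namespace Fermat.Agent.R38

open HahnSeries ModularCurve AlgebraicCurve Fermat.Agent.ES Fermat.Agent.ES.G2 Fermat.Agent.ES.M
  Fermat.Agent.RIB.MP Fermat.Agent.S24

/-- `T̄_ℓ r / r ^ (ℓ + 1)` on `q`-expansions -/
def tres4rEis {k : Type*} [Field k] (ℓ : ℕ) [NeZero ℓ] (ζ : kˣ) (r : LaurentSeries k) :
    LaurentSeries k :=
  kronHecke ℓ ζ r / r ^ (ℓ + 1)

variable {N : ℕ} [NeZero N] {A : ValuationSubring Qb}

/-- the Gauss reduction of `T_ℓ u / u ^ (ℓ + 1)` -/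
theorem tres4r_red {q : ℕ} (hq : q.Prime) (hA : A.LiesOverPrime q) (ℓ : ℕ) [NeZero ℓ]
    (hℓ : ℓ.Prime) (hℓN : ¬ ℓ ∣ N) (hℓq : ℓ ≠ q) {u : modularFunctionFieldBar N}
    {r : LaurentSeries (kA A)} (h : R38Red A (u : LaurentSeries Qb) r) :
    ∃ ζb : (kA A)ˣ, IsPrimitiveRoot ζb ℓ ∧
      R38Red A ((ribmpEisFun N ℓ u : modularFunctionFieldBar N) : LaurentSeries Qb)
        (tres4rEis ℓ ζb r) := by
  obtain ⟨ζ, hζ⟩ := frob_exists_primitiveRoot ℓ hℓ.ne_zero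
  haveI : CharP (kA A) q := kron_charP_residueField hq hA
  have hℓk : ((ℓ : ℕ) : kA A) ≠ 0 := by
    intro h0
    have hd : q ∣ ℓ := (CharP.cast_eq_zero_iff (kA A) q ℓ).1 h0
    exact hℓq ((Nat.prime_dvd_prime_iff_eq hq hℓ).1 hd).symm
  obtain ⟨ζA, rfl, hζb⟩ := r38red_exists_root A hℓ hℓk ζ hζ
  refine ⟨_, hζb, ?_⟩
  rw [ribmpEisFun_coe ℓ hℓ hℓN _ hζ u]
  exact (h.kronHecke ℓ ζA hζ hζb).div (h.pow (ℓ + 1))

/-- **FAC-EIS (G1)**: the Kummer function of `eisKill ℓ x` and its Gauss reduction -/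
theorem tres4r_main {q : ℕ} (hq : q.Prime) (hA : A.LiesOverPrime q) (ℓ : Nat.Primes)
    (hℓN : ¬ (ℓ : ℕ) ∣ N) (hℓq : (ℓ : ℕ) ≠ q) {m : ℕ} {x : JZero N}
    {u : modularFunctionFieldBar N} (hxu : KummerRel m x u)
    {r : LaurentSeries (kA A)} (h : R38Red A (u : LaurentSeries Qb) r) :
    haveI : NeZero (ℓ : ℕ) := ⟨ℓ.2.ne_zero⟩
    ∃ (u' : modularFunctionFieldBar N) (ζb : (kA A)ˣ), IsPrimitiveRoot ζb (ℓ : ℕ) ∧
      KummerRel m (eisKill ℓ x) u' ∧
      R38Red A (u' : LaurentSeries Qb) (tres4rEis (ℓ : ℕ) ζb r) := by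
  haveI : NeZero (ℓ : ℕ) := ⟨ℓ.2.ne_zero⟩
  obtain ⟨ζb, hζb, hred⟩ := tres4r_red hq hA (ℓ : ℕ) ℓ.2 hℓN hℓq h
  exact ⟨ribmpEisFun N (ℓ : ℕ) u, ζb, hζb, ribmp_vh_kummerRel ℓ hxu, hred⟩

end Fermat.Agent.R38

end


end ZBRIB_001_5

/-! ### bundled: `Fermat.Agent.RIB.MP.WHecke` -/
section ZBRIB_001_6

/-!
# MP-W and MP-HK (part 2): the Atkin–Lehner involution `w_q` commutes with `T_ℓ`

`N = M₁ q`, `q ∤ M₁` prime, `ℓ ∤ N` prime, `F_N = modularFunctionFieldBar N ⊂ ℚ̄((t))`,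
`w = UNIP.atkinLehnerBar hq hqM` on `F_N`, `α, β : F_N → F_{Nℓ}` the two degeneracy maps
(`α` the inclusion, `β f = f(t^ℓ)`).

* `ribmpWPrime` : `w′ = w_q` at the level `N ℓ = (M₁ ℓ) q`;
* `ribmp_w_alpha` : `w′ ∘ α = α ∘ w`;  `ribmp_w_beta` : `w′ ∘ β = β ∘ w`;
* `ribmp_w_heckeNormFun` (W-F) : `w (N_α (β u)) = N_α (β (w u))`, i.e.
  `atkinLehnerBar hq hqM (heckeNormFun N ℓ u) = heckeNormFun N ℓ (atkinLehnerBar hq hqM u)`;
* `ribmp_w_hecke` : `w • T_ℓ x = T_ℓ (w • x)` for ALL `x ∈ J₀(N)`;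
* `ribmp_w_kummerRel` : `KummerRel n x u → KummerRel n (w • x) (w u)`;
* `ribmp_hk_redZero` : `RedZero` is stable under `T_ℓ`.
The statements `stmtRedHecke`, `stmtWHecke` of the interface are in `RIB/MP/HKFinal.lean`.
-/

set_option autoImplicit false
set_option linter.style.haveILetI false
set_option linter.unusedSectionVars false

noncomputable section

namespace Fermat.Agent.RIB.MP

open ModularCurve AlgebraicCurve HahnSeries Fermat.Agent.ES Fermat.Agent.ES.G2 Fermat.Agent.UNIP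

/-! ## 1. Extensionality on `F_N` -/

/-- two ring homomorphisms on `F_N` which agree on the constants and on the generators `j(t^d)`,
`d ∣ N`, are equal -/
theorem ribmp_w_ringHom_ext {L : Type*} [DivisionRing L] (N : ℕ) [NeZero N]
    (φ₁ φ₂ : modularFunctionFieldBar N →+* L)
    (hK : ∀ c : Qb, φ₁ (algebraMap Qb _ c) = φ₂ (algebraMap Qb _ c))
    (hgen : ∀ (d : ℕ) [NeZero d] (hd : d ∣ N),
      φ₁ ⟨qExpand Qb d (jqModC Qb), cheap_mem_bar (jqModCd_mem_full Qb N hd)⟩ =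
        φ₂ ⟨qExpand Qb d (jqModC Qb), cheap_mem_bar (jqModCd_mem_full Qb N hd)⟩) :
    φ₁ = φ₂ := by
  set e : modularFunctionFieldFullC Qb N ≃ₐ[Qb] modularFunctionFieldBar N :=
    IntermediateField.equivOfEq (hdeg_laurentBaseChange_full Qb N).symm with he
  have key : φ₁.comp (e : modularFunctionFieldFullC Qb N →+* modularFunctionFieldBar N) =
      φ₂.comp (e : modularFunctionFieldFullC Qb N →+* modularFunctionFieldBar N) := by
    apply Fermat.Agent.AL.al_ringHom_ext Qb N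
    · intro c
      show φ₁ (e (algebraMap Qb _ c)) = φ₂ (e (algebraMap Qb _ c))
      rw [AlgEquiv.commutes]
      exact hK c
    · intro d _ hd
      exact hgen d hd
  apply RingHom.ext
  intro y
  have h := congrArg (fun φ : modularFunctionFieldFullC Qb N →+* L =>
    φ ⟨(y : LaurentSeries Qb), cheap_mem_fullC y.2⟩) key
  exact h

/-! ## 2. The values of `w_q` -/

section Values

variable {M q : ℕ} [NeZero q] [NeZero M] [NeZero (M * q)] (hq : q.Prime) (hqM : ¬ q ∣ M)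

theorem ribmp_w_low {f : LaurentSeries Qb} (hf : f ∈ modularFunctionFieldBar M)
    (y : modularFunctionFieldBar (M * q)) (hy : (y : LaurentSeries Qb) = f) :
    ((atkinLehnerBar hq hqM y : modularFunctionFieldBar (M * q)) : LaurentSeries Qb) =
      qExpand Qb q f := by
  obtain ⟨y, hy'⟩ := y
  cases hy
  exact atkinLehnerBar_of_mem_low hq hqM hf hy'

theorem ribmp_w_high {f : LaurentSeries Qb} (hf : f ∈ modularFunctionFieldBar M)
    (y : modularFunctionFieldBar (M * q)) (hy : (y : LaurentSeries Qb) = qExpand Qb q f) :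
    ((atkinLehnerBar hq hqM y : modularFunctionFieldBar (M * q)) : LaurentSeries Qb) = f := by
  obtain ⟨y, hy'⟩ := y
  cases hy
  exact atkinLehnerBar_qExpand hq hqM hf hy'

end Values

/-! ## 3. `w′` and the two intertwining relations -/

section WPrime

variable {M₁ q ℓ : ℕ} [NeZero M₁] [NeZero q] [NeZero ℓ] [NeZero (M₁ * q)] [NeZero (M₁ * ℓ)]
  [NeZero (M₁ * ℓ * q)] (hq : q.Prime) (hqM : ¬ q ∣ M₁) (hqMℓ : ¬ q ∣ M₁ * ℓ)

theorem ribmp_w_bar_eq (M₁ q ℓ : ℕ) :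
    modularFunctionFieldBar (M₁ * q * ℓ) = modularFunctionFieldBar (M₁ * ℓ * q) := by
  rw [Nat.mul_right_comm]

/-- `w′`: the Atkin–Lehner involution `w_q` at the level `M₁ q ℓ = (M₁ ℓ) q` -/
def ribmpWPrime :
    modularFunctionFieldBar (M₁ * q * ℓ) ≃ₐ[Qb] modularFunctionFieldBar (M₁ * q * ℓ) :=
  (IntermediateField.equivOfEq (ribmp_w_bar_eq M₁ q ℓ)).trans
    ((atkinLehnerBar hq hqMℓ).trans (IntermediateField.equivOfEq (ribmp_w_bar_eq M₁ q ℓ).symm))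

theorem ribmpWPrime_coe (y : modularFunctionFieldBar (M₁ * q * ℓ)) :
    ((ribmpWPrime hq hqMℓ y : modularFunctionFieldBar (M₁ * q * ℓ)) : LaurentSeries Qb) =
      ((atkinLehnerBar hq hqMℓ ⟨(y : LaurentSeries Qb), ribmp_w_bar_eq M₁ q ℓ ▸ y.2⟩ :
        modularFunctionFieldBar (M₁ * ℓ * q)) : LaurentSeries Qb) := by
  unfold ribmpWPrime
  rw [AlgEquiv.trans_apply, AlgEquiv.trans_apply, IntermediateField.equivOfEq_apply]
  rfl

theorem ribmp_wp_low {f : LaurentSeries Qb} (hf : f ∈ modularFunctionFieldBar (M₁ * ℓ))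
    (y : modularFunctionFieldBar (M₁ * q * ℓ)) (hy : (y : LaurentSeries Qb) = f) :
    ((ribmpWPrime hq hqMℓ y : modularFunctionFieldBar (M₁ * q * ℓ)) : LaurentSeries Qb) =
      qExpand Qb q f := by
  rw [ribmpWPrime_coe]
  exact ribmp_w_low hq hqMℓ hf _ hy

theorem ribmp_wp_high {f : LaurentSeries Qb} (hf : f ∈ modularFunctionFieldBar (M₁ * ℓ))
    (y : modularFunctionFieldBar (M₁ * q * ℓ)) (hy : (y : LaurentSeries Qb) = qExpand Qb q f) :
    ((ribmpWPrime hq hqMℓ y : modularFunctionFieldBar (M₁ * q * ℓ)) : LaurentSeries Qb) = f := by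
  rw [ribmpWPrime_coe]
  exact ribmp_w_high hq hqMℓ hf _ hy

theorem ribmp_w_mem_alpha {f : LaurentSeries Qb} (hf : f ∈ modularFunctionFieldBar M₁) :
    f ∈ modularFunctionFieldBar (M₁ * ℓ) := by
  have h := (heckeAlphaBar Qb M₁ ℓ ⟨f, hf⟩).2
  rwa [coe_heckeAlphaBar] at h

theorem ribmp_w_mem_beta {f : LaurentSeries Qb} (hf : f ∈ modularFunctionFieldBar M₁) :
    qExpand Qb ℓ f ∈ modularFunctionFieldBar (M₁ * ℓ) :=
  (heckeBetaBar Qb M₁ ℓ ⟨f, hf⟩).2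

theorem ribmp_w_gen_mem {d : ℕ} [NeZero d] (hd : d ∣ M₁) :
    qExpand Qb d (jqModC Qb) ∈ modularFunctionFieldBar M₁ :=
  cheap_mem_bar (jqModCd_mem_full Qb M₁ hd)

theorem ribmp_w_qExpand_comm (a b : ℕ) [NeZero a] [NeZero b] (f : LaurentSeries Qb) :
    qExpand Qb a (qExpand Qb b f) = qExpand Qb b (qExpand Qb a f) := by
  rw [qExpand_qExpand b a f, qExpand_qExpand a b f]
  exact qExpand_congr (mul_comm a b) f

theorem ribmp_w_gen_high (d : ℕ) [NeZero d] [NeZero (d * q)] :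
    qExpand Qb (d * q) (jqModC Qb) = qExpand Qb q (qExpand Qb d (jqModC Qb)) := by
  rw [qExpand_qExpand]
  exact qExpand_congr (mul_comm d q) _

/-- **`w′ ∘ α = α ∘ w`** (as `q`-expansions) -/
theorem ribmp_w_alpha_coe (y : modularFunctionFieldBar (M₁ * q)) :
    ((ribmpWPrime hq hqMℓ (heckeAlphaBar Qb (M₁ * q) ℓ y) :
      modularFunctionFieldBar (M₁ * q * ℓ)) : LaurentSeries Qb) =
      ((atkinLehnerBar hq hqM y : modularFunctionFieldBar (M₁ * q)) : LaurentSeries Qb) := by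
  set φ₁ : modularFunctionFieldBar (M₁ * q) →+* LaurentSeries Qb :=
    ((modularFunctionFieldBar (M₁ * q * ℓ)).val : _ →+* LaurentSeries Qb).comp
      ((ribmpWPrime (ℓ := ℓ) hq hqMℓ).toRingEquiv.toRingHom.comp
        (heckeAlphaBar Qb (M₁ * q) ℓ).toRingHom) with hφ₁
  set φ₂ : modularFunctionFieldBar (M₁ * q) →+* LaurentSeries Qb :=
    ((modularFunctionFieldBar (M₁ * q)).val : _ →+* LaurentSeries Qb).comp
      (atkinLehnerBar hq hqM).toRingEquiv.toRingHom with hφ₂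
  have key : φ₁ = φ₂ := by
    apply ribmp_w_ringHom_ext (M₁ * q)
    · intro c
      show ((ribmpWPrime (ℓ := ℓ) hq hqMℓ (heckeAlphaBar Qb (M₁ * q) ℓ (algebraMap Qb _ c)) :
        modularFunctionFieldBar (M₁ * q * ℓ)) : LaurentSeries Qb) =
        ((atkinLehnerBar hq hqM (algebraMap Qb _ c) : modularFunctionFieldBar (M₁ * q)) :
          LaurentSeries Qb)
      rw [AlgHom.commutes, AlgEquiv.commutes, AlgEquiv.commutes]
      rfl
    · intro d _ hd
      show ((ribmpWPrime (ℓ := ℓ) hq hqMℓ (heckeAlphaBar Qb (M₁ * q) ℓ ⟨_, _⟩) :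
        modularFunctionFieldBar (M₁ * q * ℓ)) : LaurentSeries Qb) =
        ((atkinLehnerBar hq hqM ⟨_, _⟩ : modularFunctionFieldBar (M₁ * q)) : LaurentSeries Qb)
      rcases Fermat.Agent.AL.al_divisor_cases hq hqM hd with h | ⟨d', hd', rfl⟩
      · have hf := ribmp_w_gen_mem (M₁ := M₁) h
        rw [ribmp_wp_low hq hqMℓ (ribmp_w_mem_alpha hf) _ (coe_heckeAlphaBar _ _ _),
          ribmp_w_low hq hqM hf _ rfl]
      · haveI : NeZero d' := ⟨fun h0 => by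
          subst h0; exact (NeZero.ne (0 * q)) (zero_mul q)⟩
        have hf := ribmp_w_gen_mem (M₁ := M₁) hd'
        rw [ribmp_wp_high hq hqMℓ (ribmp_w_mem_alpha hf) _
            ((coe_heckeAlphaBar _ _ _).trans (ribmp_w_gen_high d')),
          ribmp_w_high hq hqM hf _ (ribmp_w_gen_high d')]
  exact congrArg (fun φ : modularFunctionFieldBar (M₁ * q) →+* LaurentSeries Qb => φ y) key

/-- **`w′ ∘ β = β ∘ w`** (as `q`-expansions) -/
theorem ribmp_w_beta_coe (y : modularFunctionFieldBar (M₁ * q)) :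
    ((ribmpWPrime hq hqMℓ (heckeBetaBar Qb (M₁ * q) ℓ y) :
      modularFunctionFieldBar (M₁ * q * ℓ)) : LaurentSeries Qb) =
      qExpand Qb ℓ
        ((atkinLehnerBar hq hqM y : modularFunctionFieldBar (M₁ * q)) : LaurentSeries Qb) := by
  set φ₁ : modularFunctionFieldBar (M₁ * q) →+* LaurentSeries Qb :=
    ((modularFunctionFieldBar (M₁ * q * ℓ)).val : _ →+* LaurentSeries Qb).comp
      ((ribmpWPrime (ℓ := ℓ) hq hqMℓ).toRingEquiv.toRingHom.comp
        (heckeBetaBar Qb (M₁ * q) ℓ).toRingHom) with hφ₁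
  set φ₂ : modularFunctionFieldBar (M₁ * q) →+* LaurentSeries Qb :=
    (qExpand Qb ℓ).comp
      (((modularFunctionFieldBar (M₁ * q)).val : _ →+* LaurentSeries Qb).comp
        (atkinLehnerBar hq hqM).toRingEquiv.toRingHom) with hφ₂
  have key : φ₁ = φ₂ := by
    apply ribmp_w_ringHom_ext (M₁ * q)
    · intro c
      show ((ribmpWPrime (ℓ := ℓ) hq hqMℓ (heckeBetaBar Qb (M₁ * q) ℓ (algebraMap Qb _ c)) :
        modularFunctionFieldBar (M₁ * q * ℓ)) : LaurentSeries Qb) =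
        qExpand Qb ℓ ((atkinLehnerBar hq hqM (algebraMap Qb _ c) :
          modularFunctionFieldBar (M₁ * q)) : LaurentSeries Qb)
      rw [AlgHom.commutes, AlgEquiv.commutes, AlgEquiv.commutes]
      exact ((qExpandAlgHomC Qb ℓ).commutes c).symm
    · intro d _ hd
      show ((ribmpWPrime (ℓ := ℓ) hq hqMℓ (heckeBetaBar Qb (M₁ * q) ℓ ⟨_, _⟩) :
        modularFunctionFieldBar (M₁ * q * ℓ)) : LaurentSeries Qb) =
        qExpand Qb ℓ
          ((atkinLehnerBar hq hqM ⟨_, _⟩ : modularFunctionFieldBar (M₁ * q)) : LaurentSeries Qb)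
      rcases Fermat.Agent.AL.al_divisor_cases hq hqM hd with h | ⟨d', hd', rfl⟩
      · have hf := ribmp_w_gen_mem (M₁ := M₁) h
        rw [ribmp_wp_low hq hqMℓ (ribmp_w_mem_beta hf) _ (coe_heckeBetaBar _ _ _),
          ribmp_w_low hq hqM hf _ rfl]
        exact ribmp_w_qExpand_comm q ℓ _
      · haveI : NeZero d' := ⟨fun h0 => by
          subst h0; exact (NeZero.ne (0 * q)) (zero_mul q)⟩
        have hf := ribmp_w_gen_mem (M₁ := M₁) hd'
        have e1 : qExpand Qb ℓ (qExpand Qb (d' * q) (jqModC Qb)) =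
            qExpand Qb q (qExpand Qb ℓ (qExpand Qb d' (jqModC Qb))) := by
          rw [ribmp_w_gen_high d']
          exact ribmp_w_qExpand_comm ℓ q _
        rw [ribmp_wp_high hq hqMℓ (ribmp_w_mem_beta hf) _
            ((coe_heckeBetaBar _ _ _).trans e1),
          ribmp_w_high hq hqM hf _ (ribmp_w_gen_high d')]
  exact congrArg (fun φ : modularFunctionFieldBar (M₁ * q) →+* LaurentSeries Qb => φ y) key

/-- **`w′ ∘ α = α ∘ w`** -/
theorem ribmp_w_alpha (y : modularFunctionFieldBar (M₁ * q)) :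
    ribmpWPrime hq hqMℓ (heckeAlphaBar Qb (M₁ * q) ℓ y) =
      heckeAlphaBar Qb (M₁ * q) ℓ (atkinLehnerBar hq hqM y) := by
  apply Subtype.ext
  rw [ribmp_w_alpha_coe hq hqM hqMℓ, coe_heckeAlphaBar]

/-- **`w′ ∘ β = β ∘ w`** -/
theorem ribmp_w_beta (y : modularFunctionFieldBar (M₁ * q)) :
    ribmpWPrime hq hqMℓ (heckeBetaBar Qb (M₁ * q) ℓ y) =
      heckeBetaBar Qb (M₁ * q) ℓ (atkinLehnerBar hq hqM y) := by
  apply Subtype.ext
  rw [ribmp_w_beta_coe hq hqM hqMℓ, coe_heckeBetaBar]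

end WPrime

/-! ## 4. `w` commutes with the Hecke norm and with `T_ℓ` -/

section Main

variable {M₁ q : ℕ} [NeZero M₁] [NeZero q] [NeZero (M₁ * q)] (hq : q.Prime) (hqM : ¬ q ∣ M₁)

theorem ribmp_w_not_dvd {M₁ q ℓ : ℕ} (hq : q.Prime) (hqM : ¬ q ∣ M₁) (hℓ : ℓ.Prime)
    (hℓM : ¬ ℓ ∣ M₁ * q) : ¬ q ∣ M₁ * ℓ := by
  intro h
  rcases (Nat.Prime.dvd_mul hq).mp h with h1 | h1
  · exact hqM h1
  · have : q = ℓ := (Nat.prime_dvd_prime_iff_eq hq hℓ).mp h1
    exact hℓM (this ▸ Dvd.intro_left M₁ rfl)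

/-- **W-F: `w` commutes with the Hecke norm** `u ↦ N_α (β u)`, `ℓ ∤ M₁ q` -/
theorem ribmp_w_heckeNormFun (ℓ : ℕ) [NeZero ℓ] (hℓ : ℓ.Prime) (hℓM : ¬ ℓ ∣ M₁ * q)
    (u : modularFunctionFieldBar (M₁ * q)) :
    atkinLehnerBar hq hqM (heckeNormFun (M₁ * q) ℓ u) =
      heckeNormFun (M₁ * q) ℓ (atkinLehnerBar hq hqM u) := by
  haveI : NeZero (M₁ * ℓ) := ⟨Nat.mul_ne_zero (NeZero.ne M₁) (NeZero.ne ℓ)⟩
  haveI : NeZero (M₁ * ℓ * q) := ⟨Nat.mul_ne_zero (NeZero.ne (M₁ * ℓ)) (NeZero.ne q)⟩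
  have hqMℓ : ¬ q ∣ M₁ * ℓ := ribmp_w_not_dvd hq hqM hℓ hℓM
  letI := (heckeAlphaBar Qb (M₁ * q) ℓ).toRingHom.toAlgebra
  show atkinLehnerBar hq hqM (Algebra.norm (modularFunctionFieldBar (M₁ * q))
      (heckeBetaBar Qb (M₁ * q) ℓ u)) =
    Algebra.norm (modularFunctionFieldBar (M₁ * q))
      (heckeBetaBar Qb (M₁ * q) ℓ (atkinLehnerBar hq hqM u))
  have he : (algebraMap (modularFunctionFieldBar (M₁ * q))
        (modularFunctionFieldBar (M₁ * q * ℓ))).comp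
        ((atkinLehnerBar hq hqM).toRingEquiv : _ →+* _) =
      (((ribmpWPrime (ℓ := ℓ) hq hqMℓ).toRingEquiv : _ →+* _)).comp
        (algebraMap (modularFunctionFieldBar (M₁ * q))
          (modularFunctionFieldBar (M₁ * q * ℓ))) := by
    apply RingHom.ext
    intro y
    exact (ribmp_w_alpha hq hqM hqMℓ y).symm
  have h1 := Algebra.norm_eq_of_equiv_equiv (atkinLehnerBar hq hqM).toRingEquiv
    (ribmpWPrime (ℓ := ℓ) hq hqMℓ).toRingEquiv he (heckeBetaBar Qb (M₁ * q) ℓ u)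
  rw [h1]
  have h2 : (ribmpWPrime (ℓ := ℓ) hq hqMℓ).toRingEquiv (heckeBetaBar Qb (M₁ * q) ℓ u) =
      heckeBetaBar Qb (M₁ * q) ℓ (atkinLehnerBar hq hqM u) := ribmp_w_beta hq hqM hqMℓ u
  rw [h2]
  exact (atkinLehnerBar hq hqM).toRingEquiv.apply_symm_apply _

/-- **MP-W: `w` commutes with `T_ℓ` on `J₀(M₁ q)`**, `ℓ ∤ M₁ q` (all classes) -/
theorem ribmp_w_hecke (ℓ : Nat.Primes) (hℓM : ¬ (ℓ : ℕ) ∣ M₁ * q) (x : JZero (M₁ * q)) :
    atkinLehnerBar hq hqM • heckeOperatorBar (M₁ * q) ℓ x =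
      heckeOperatorBar (M₁ * q) ℓ (atkinLehnerBar hq hqM • x) := by
  haveI : NeZero (ℓ : ℕ) := ⟨ℓ.2.ne_zero⟩
  haveI : NeZero (M₁ * (ℓ : ℕ)) := ⟨Nat.mul_ne_zero (NeZero.ne M₁) (NeZero.ne (ℓ : ℕ))⟩
  haveI : NeZero (M₁ * (ℓ : ℕ) * q) :=
    ⟨Nat.mul_ne_zero (NeZero.ne (M₁ * (ℓ : ℕ))) (NeZero.ne q)⟩
  haveI := Fermat.Agent.ES.H.hasPrincipalDivisors_FF (M₁ * q * (ℓ : ℕ))
  have hqMℓ : ¬ q ∣ M₁ * (ℓ : ℕ) := ribmp_w_not_dvd hq hqM ℓ.2 hℓM
  have e : ∀ y : JZero (M₁ * q), heckeOperatorBar (M₁ * q) ℓ y =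
      heckeOperatorBar (M₁ * q) ⟨(ℓ : ℕ), ℓ.2⟩ y := fun _ => rfl
  rw [e, e, frob_heckeOperatorBar_eq (M₁ * q) (ℓ : ℕ) ℓ.2 x,
    frob_heckeOperatorBar_eq (M₁ * q) (ℓ : ℕ) ℓ.2 (atkinLehnerBar hq hqM • x)]
  have h₁ : SemilinearAut.IntertwinesAlong
      ((heckeBetaBar Qb (M₁ * q) (ℓ : ℕ) : _ →ₐ[Qb] _) : _ →+* _)
      (SemilinearAut.ofAlgAut (atkinLehnerBar hq hqM))
      (SemilinearAut.ofAlgAut (ribmpWPrime (ℓ := (ℓ : ℕ)) hq hqMℓ)) :=
    fun y => ribmp_w_beta hq hqM hqMℓ y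
  have h₂ : SemilinearAut.IntertwinesAlong
      ((heckeAlphaBar Qb (M₁ * q) (ℓ : ℕ) : _ →ₐ[Qb] _) : _ →+* _)
      (SemilinearAut.ofAlgAut (atkinLehnerBar hq hqM))
      (SemilinearAut.ofAlgAut (ribmpWPrime (ℓ := (ℓ : ℕ)) hq hqMℓ)) :=
    fun y => ribmp_w_alpha hq hqM hqMℓ y
  exact (pic0_correspondence_smul _ _ _ _ _ _ _ h₁ h₂ x).symm

/-- `w • x` has the Kummer function `w u` -/
theorem ribmp_w_kummerRel {n : ℕ} {x : JZero (M₁ * q)} {u : modularFunctionFieldBar (M₁ * q)}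
    (h : KummerRel n x u) :
    KummerRel n (atkinLehnerBar hq hqM • x) (atkinLehnerBar hq hqM u) :=
  KummerRel.smul (SemilinearAut.ofAlgAut (atkinLehnerBar hq hqM)) h

end Main

/-! ## 5. `RedZero` is stable under `T_ℓ`; the statements of the interface -/

section RedZero

variable {M₁ q : ℕ} [NeZero M₁] [NeZero q] [NeZero (M₁ * q)] (hq : q.Prime) (hqM : ¬ q ∣ M₁)

theorem ribmp_hk_redZero (A : ValuationSubring Qb) (m : ℕ) (ℓ : Nat.Primes)
    (hℓM : ¬ (ℓ : ℕ) ∣ M₁ * q) {x : JZero (M₁ * q)} {y : JZero M₁}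
    (h : RedZero hq hqM A m x y) :
    RedZero hq hqM A m (heckeOperatorBar (M₁ * q) ℓ x) (heckeOperatorBar M₁ ℓ y) := by
  haveI : NeZero (ℓ : ℕ) := ⟨ℓ.2.ne_zero⟩
  obtain ⟨u, v, hu, hv, hG⟩ := h
  refine ⟨heckeNormFun (M₁ * q) (ℓ : ℕ) u, heckeNormFun M₁ (ℓ : ℕ) v,
    KummerRel.hecke (M₁ * q) ℓ hu, KummerRel.hecke M₁ ℓ hv, ?_⟩
  have hαv : heckeAlphaBar Qb M₁ q v ≠ 0 :=
    (map_ne_zero_iff _ (heckeAlphaBar Qb M₁ q).toRingHom.injective).mpr hv.ne_zero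
  rw [ribmp_w_heckeNormFun hq hqM (ℓ : ℕ) ℓ.2 hℓM, ribmp_hk_alpha (ℓ : ℕ) ℓ.2 hℓM,
    ← ribmp_hk_heckeNormFun_div _ _ _ hαv]
  exact ribmp_hk_gaussConst (ℓ : ℕ) ℓ.2 hℓM hG

end RedZero

end Fermat.Agent.RIB.MP

end
end ZBRIB_001_6

/-! ### bundled: `Fermat.Agent.RIB.MP.ValHeckeVert` -/
section ZBRIB_001_7
/-
Row 37, Mazur's principle, piece **MP-VH** (helper81), part 2: transfer to the vertical valuations
`mgvV` of `F_{M q}(K₀)` and descent to the inertia field.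

* `ribmp_vh_unit_core` : generic unit transfer (a quotient of series over the base whose image
  is a quotient of two primitive series is a unit of the Gauss ring);
* `ribmp_vh_valuation_inf`, `ribmp_vh_valuation_zero` : `RibmpGaussUnit` ⇒ `valuation = 1` at `V_∞`,
  `V_0`;
* `ribmp_vh_exists_desc` : `T_ℓ u / u ^ (ℓ + 1)` has coefficients in `E₀` when `u` has.
-/

set_option autoImplicit false
set_option linter.unusedSectionVars false
set_option linter.style.haveILetI false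

noncomputable section

namespace Fermat.Agent.RIB.MP

open ModularCurve AlgebraicCurve Fermat.Agent.ES Fermat.Agent.ES.G2 Fermat.Agent.INJ
  Fermat.Agent.UNIP Fermat.Agent.STB

/-! ### Generic unit transfer -/

section Core

variable {A₀ E k : Type*} [CommRing A₀] [Field E] [Field k]
  {ι : A₀ →+* E} {r : A₀ →+* k} {π : A₀}
  {L : Type*} [Field L] {AL : ValuationSubring L} {ψ : E →+* L}

theorem ribmp_vh_coeffMap_C (a : E) :
    coeffMap ψ (HahnSeries.C a : LaurentSeries E) = HahnSeries.C (ψ a) := by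
  ext n
  rw [coeffMap_coeff, HahnSeries.C_apply, HahnSeries.C_apply, HahnSeries.coeff_single,
    HahnSeries.coeff_single]
  split_ifs
  · rfl
  · exact map_zero ψ

/-- the constant series of a non-unit is congruent to zero -/
theorem ribmp_vh_C_congr_zero {c : L} (hc : c ∈ AL.nonunits) :
    KronCongr AL (HahnSeries.C c : LaurentSeries L) 0 := fun n => by
  rw [HahnSeries.coeff_zero, sub_zero, HahnSeries.C_apply, HahnSeries.coeff_single]
  split_ifs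
  · exact hc
  · exact AL.mem_nonunits_iff.2 (by rw [map_zero]; exact zero_lt_one)

/-- no positive power of the uniformizer: `π ^ d u · y₂ = y₁`, `u` a unit, `y₁, y₂` primitive
⇒ `d = 0` -/
theorem ribmp_vh_pow_eq_zero (h1 : ∀ a, ψ (ι a) ∈ AL)
    (h2 : ∀ a, ψ (ι a) ∈ AL.nonunits → r a = 0) (h3 : ψ (ι π) ∈ AL.nonunits)
    {x u : LaurentSeries E} {d : ℕ} (hu : VtUnit ι r u) (hxu : x = HahnSeries.C (ι π) ^ d * u)
    {y₁ y₂ : LaurentSeries L} (hy₁ : KronPrim AL y₁) (hy₂ : KronPrim AL y₂)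
    (hxy : coeffMap ψ x * y₂ = y₁) : d = 0 := by
  by_contra hd
  obtain ⟨d', rfl⟩ : ∃ d', d = d' + 1 := ⟨d - 1, by omega⟩
  obtain ⟨T, b, hT, hb, hbu⟩ := hu
  -- `ψ̂ b · y₁ = C ϖ · (C ϖ ^ d' · ψ̂ T · y₂)`
  have key : coeffMap ψ (coeffMap ι b) * y₁ =
      HahnSeries.C (ψ (ι π)) *
        (HahnSeries.C (ψ (ι π)) ^ d' * (coeffMap ψ (coeffMap ι T) * y₂)) := by
    have e1 : coeffMap ι b * x = HahnSeries.C (ι π) ^ (d' + 1) * coeffMap ι T := by
      rw [hxu, ← hbu]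
      ring
    have e2 := congrArg (coeffMap ψ) e1
    rw [map_mul, map_mul, map_pow, ribmp_vh_coeffMap_C] at e2
    rw [← hxy, ← mul_assoc, e2, pow_succ]
    ring
  have hprim : KronPrim AL (coeffMap ψ (coeffMap ι b) * y₁) :=
    (stb_mgt_prim h1 h2 hb).mul hy₁
  have hint : KronInt AL (HahnSeries.C (ψ (ι π)) ^ d' * (coeffMap ψ (coeffMap ι T) * y₂)) :=
    ((stb_mgt_int_C (h1 π)).pow d').mul ((stb_mgt_int h1 T).mul hy₂.1)
  rw [key] at hprim
  exact stb_mgt_not_prim_of_congr_zero hprim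
    (stb_mgt_congr_zero_mul (stb_mgt_int_C (h1 π)) hint (ribmp_vh_C_congr_zero h3))

/-- **Unit transfer, generic core.**  If `ψ̂ x` is a quotient of two `AL`-primitive series then
`x` is a unit of the Gauss ring of the base. -/
theorem ribmp_vh_unit_core (hB : VtBase ι r π) (h1 : ∀ a, ψ (ι a) ∈ AL)
    (h2 : ∀ a, ψ (ι a) ∈ AL.nonunits → r a = 0) (h3 : ψ (ι π) ∈ AL.nonunits)
    {x : LaurentSeries E} (hx : VtFrac ι x) {y₁ y₂ : LaurentSeries L}
    (hy₁ : KronPrim AL y₁) (hy₂ : KronPrim AL y₂) (hxy : coeffMap ψ x * y₂ = y₁) :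
    VtUnit ι r x := by
  have hy₁0 : y₁ ≠ 0 := by
    rintro rfl
    obtain ⟨n, hn⟩ := hy₁.2
    apply hn
    rw [HahnSeries.coeff_zero]
    exact AL.mem_nonunits_iff.2 (by rw [map_zero]; exact zero_lt_one)
  have hx0 : x ≠ 0 := by
    rintro rfl
    rw [map_zero, zero_mul] at hxy
    exact hy₁0 hxy.symm
  have hψx0 : coeffMap ψ x ≠ 0 := by
    intro h
    rw [h, zero_mul] at hxy
    exact hy₁0 hxy.symm
  obtain ⟨d, u, hu, h | h⟩ := vt_exists_pow_mul hB hx0 hx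
  · have hd := ribmp_vh_pow_eq_zero h1 h2 h3 hu h hy₁ hy₂ hxy
    subst hd
    rw [pow_zero, one_mul] at h
    rw [h]
    exact hu
  · have hxy' : coeffMap ψ x⁻¹ * y₁ = y₂ := by
      rw [map_inv₀, ← hxy, ← mul_assoc, inv_mul_cancel₀ hψx0, one_mul]
    have hd := ribmp_vh_pow_eq_zero h1 h2 h3 hu h hy₂ hy₁ hxy'
    subst hd
    rw [pow_zero, one_mul] at h
    have := hu.inv hB.inj
    rw [← h, inv_inv] at this
    exact this

end Core

/-! ### Transfer to the vertical valuations of `F_{M q}(K₀)` -/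

section Mgv

variable {A : ValuationSubring Qb} {K₀ : IntermediateField ℚ Qb}
  [IsDiscreteValuationRing ↥(beta0Ring A K₀)] {π : ↥(beta0Ring A K₀)} (hπ : Irreducible π)
  (ιC : ↥K₀ →+* ℂ) {q M : ℕ} [NeZero q] [NeZero M] [NeZero (M * q)]
  (hq : q.Prime) (hqM : ¬ q ∣ M)

include hπ in
/-- `(c3)` for the base `A ∩ K₀` -/
theorem ribmp_vh_c3 :
    algebraMap ↥K₀ Qb (algebraMap ↥(beta0Ring A K₀) ↥K₀ π) ∈ A.nonunits :=
  (beta0Ring_mem_maximalIdeal_iff π).1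
    ((IsLocalRing.mem_maximalIdeal π).2 hπ.not_isUnit)

/-- **unit transfer at `∞`** -/
theorem ribmp_vh_valuation_inf (y₀ : ↥(modularFunctionFieldFullC ↥K₀ (M * q)))
    (hy : RibmpGaussUnit (M * q) A (nfEmb K₀ (M * q) y₀)) :
    (mgvV hπ ιC hq hqM true).valuation y₀ = 1 := by
  obtain ⟨y₁, y₂, -, -, hy₁, hy₂, hxy⟩ := hy
  show (vtFam (vtBase_residue hπ) ιC hq hqM true).valuation y₀ = 1
  rw [vtFam_valuation_eq_one_iff]
  exact ribmp_vh_unit_core (ψ := algebraMap ↥K₀ Qb) (vtBase_residue hπ) (stb_mgt_c1 A K₀)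
    (stb_mgt_c2 A K₀) (ribmp_vh_c3 hπ) (vt_frac_fullC (vtBase_residue hπ) (M * q) y₀.2)
    hy₁ hy₂ hxy

/-- **unit transfer at `0`** -/
theorem ribmp_vh_valuation_zero (y₀ : ↥(modularFunctionFieldFullC ↥K₀ (M * q)))
    (hy : RibmpGaussUnit (M * q) A (atkinLehnerBar hq hqM (nfEmb K₀ (M * q) y₀))) :
    (mgvV hπ ιC hq hqM false).valuation y₀ = 1 := by
  obtain ⟨y₁, y₂, -, -, hy₁, hy₂, hxy⟩ := hy
  rw [stb_mgt_atkinLehnerBar_nfEmb ιC hq hqM y₀] at hxy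
  show (vtFam (vtBase_residue hπ) ιC hq hqM false).valuation y₀ = 1
  rw [vtFam_valuation_eq_one_iff]
  exact ribmp_vh_unit_core (ψ := algebraMap ↥K₀ Qb) (vtBase_residue hπ) (stb_mgt_c1 A K₀)
    (stb_mgt_c2 A K₀) (ribmp_vh_c3 hπ)
    (vt_frac_fullC (vtBase_residue hπ) (M * q)
      (Fermat.Agent.AL.atkinLehner ↥K₀ ιC hq hqM y₀).2) hy₁ hy₂ hxy

/-- `w_q` commutes with `u ↦ T_ℓ u / u ^ (ℓ + 1)` -/
theorem ribmp_vh_atkinLehnerBar_eisFun (ℓ : ℕ) [NeZero ℓ] (hℓ : ℓ.Prime) (hℓM : ¬ ℓ ∣ M * q)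
    (u : modularFunctionFieldBar (M * q)) :
    atkinLehnerBar hq hqM (ribmpEisFun (M * q) ℓ u)
      = ribmpEisFun (M * q) ℓ (atkinLehnerBar hq hqM u) := by
  unfold ribmpEisFun
  rw [map_div₀, map_pow, ribmp_w_heckeNormFun hq hqM ℓ hℓ hℓM u]

/-- **MP-VH, the two vertical valuations**: a descent `y₀ ∈ F_{Mq}(K₀)` of
`T_ℓ u / u ^ (ℓ + 1)` is a unit at `V_∞` and at `V_0`. -/
theorem ribmp_vh_valuation (hA : A.LiesOverPrime q) (ℓ : ℕ) [NeZero ℓ] (hℓ : ℓ.Prime)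
    (hℓM : ¬ ℓ ∣ M * q) (u : modularFunctionFieldBar (M * q)) (hu : u ≠ 0)
    (y₀ : ↥(modularFunctionFieldFullC ↥K₀ (M * q)))
    (hy : nfEmb K₀ (M * q) y₀ = ribmpEisFun (M * q) ℓ u) (c : Bool) :
    (mgvV hπ ιC hq hqM c).valuation y₀ = 1 := by
  cases c
  · apply ribmp_vh_valuation_zero hπ ιC hq hqM y₀
    rw [hy, ribmp_vh_atkinLehnerBar_eisFun hq hqM ℓ hℓ hℓM u]
    exact ribmp_vh_gaussUnit hq hA ℓ hℓ hℓM _ ((map_ne_zero _).2 hu)
  · apply ribmp_vh_valuation_inf hπ ιC hq hqM y₀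
    rw [hy]
    exact ribmp_vh_gaussUnit hq hA ℓ hℓ hℓM u hu

end Mgv

/-! ### Descent to the inertia field -/

section Desc

variable {q : ℕ} (hq : q.Prime) {A : ValuationSubring Qb} (hA : A.LiesOverPrime q)
  (N : ℕ) [NeZero N]

include hq hA in
/-- **`T_ℓ` preserves `F_N(E₀)`**: `T_ℓ u / u ^ (ℓ + 1)` has coefficients in the inertia field
when `u` has. -/
theorem ribmp_vh_exists_desc (ℓ : ℕ) [NeZero ℓ] (hℓ : ℓ.Prime) (hℓN : ¬ ℓ ∣ N)
    (u₀ : ↥(modularFunctionFieldFullC ↥(beta0Field A) N)) :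
    ∃ y₀ : ↥(modularFunctionFieldFullC ↥(beta0Field A) N),
      nfEmb (beta0Field A) N y₀ = ribmpEisFun N ℓ (nfEmb (beta0Field A) N u₀) := by
  obtain ⟨ζ, hζ⟩ := frob_exists_primitiveRoot ℓ (NeZero.ne ℓ)
  set u : modularFunctionFieldBar N := nfEmb (beta0Field A) N u₀ with hu
  have hfixU : ∀ σ ∈ A.inertiaSubgroupIn ℚ,
      coeffMap ((σ : Qb ≃ₐ[ℚ] Qb) : Qb →+* Qb) (u : LaurentSeries Qb) = u := by
    intro σ hσ
    rw [hu, nfEmb_coe, coeffMap_coeffMap]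
    refine coeffMap_congr (RingHom.ext fun c => ?_) _
    exact mem_beta0Field.1 c.2 σ hσ
  have hfix : ∀ σ ∈ A.inertiaSubgroupIn ℚ,
      coeffMap ((σ : Qb ≃ₐ[ℚ] Qb) : Qb →+* Qb)
        ((ribmpEisFun N ℓ u : modularFunctionFieldBar N) : LaurentSeries Qb)
        = (ribmpEisFun N ℓ u : modularFunctionFieldBar N) := by
    intro σ hσ
    rw [ribmpEisFun_coe ℓ hℓ hℓN ζ hζ u, map_div₀, map_pow,
      coeffMap_kronHecke_algEquiv ζ hζ σ, hfixU σ hσ]
  obtain ⟨y, hy, hyx⟩ := Fermat.Agent.S36.s36d_fixed hq hA N _ (ribmpEisFun N ℓ u).2 hfix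
  exact ⟨⟨y, hy⟩, Subtype.ext hyx⟩

end Desc

/-! ### MP-VH -/

section Main

variable {M₁ q : ℕ} [NeZero M₁] [NeZero q] [NeZero (M₁ * q)] (hq : q.Prime) (hqM : ¬ q ∣ M₁)
  {A : ValuationSubring Qb} (hA : A.LiesOverPrime q)
  [IsDiscreteValuationRing ↥(beta0Ring A (beta0Field A))]
  {π : ↥(beta0Ring A (beta0Field A))} (hπ : Irreducible π) (ιC : ↥(beta0Field A) →+* ℂ)

include hA in
/-- **MP-VH.**  For `u₀ ∈ F_N(E₀)^×` (`N = M₁ q`, `E₀` the inertia field of `A`) and a prime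
`ℓ ∤ N`: the function `T_ℓ u₀ / u₀ ^ (ℓ + 1)` lies in `F_N(E₀)` and is a unit at both vertical
valuations `V_∞`, `V_0`.  If `u₀` is a Kummer function of `x` it is a Kummer function of
`eisKill ℓ x` (`ribmp_vh_kummerRel`). -/
theorem ribmp_vh_main (ℓ : ℕ) [NeZero ℓ] (hℓ : ℓ.Prime) (hℓM : ¬ ℓ ∣ M₁ * q)
    (u₀ : ↥(modularFunctionFieldFullC ↥(beta0Field A) (M₁ * q))) (hu₀ : u₀ ≠ 0) :
    ∃ y₀ : ↥(modularFunctionFieldFullC ↥(beta0Field A) (M₁ * q)), y₀ ≠ 0 ∧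
      nfEmb (beta0Field A) (M₁ * q) y₀
        = ribmpEisFun (M₁ * q) ℓ (nfEmb (beta0Field A) (M₁ * q) u₀) ∧
      ∀ c : Bool, (mgvV hπ ιC hq hqM c).valuation y₀ = 1 := by
  obtain ⟨y₀, hy₀⟩ := ribmp_vh_exists_desc hq hA (M₁ * q) ℓ hℓ hℓM u₀
  have hu : nfEmb (beta0Field A) (M₁ * q) u₀ ≠ 0 := (map_ne_zero _).2 hu₀
  refine ⟨y₀, ?_, hy₀, fun c => ribmp_vh_valuation hπ ιC hq hqM hA ℓ hℓ hℓM _ hu y₀ hy₀ c⟩
  intro h
  rw [h, map_zero] at hy₀
  exact ribmpEisFun_ne_zero (M₁ * q) ℓ hu hy₀.symm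

include hA in
/-- **MP-VH for Kummer functions**: an inertia-fixed class `x ∈ J₀(M₁ q)[m]` being given,
`eisKill ℓ x` has a Kummer function in `F_N(E₀)` which is a unit at `V_∞` and at `V_0`. -/
theorem ribmp_vh_kummer (ℓ : Nat.Primes) (hℓM : ¬ (ℓ : ℕ) ∣ M₁ * q) {m : ℕ}
    {x : JZero (M₁ * q)} (u₀ : ↥(modularFunctionFieldFullC ↥(beta0Field A) (M₁ * q)))
    (hx : KummerRel m x (nfEmb (beta0Field A) (M₁ * q) u₀)) :
    ∃ y₀ : ↥(modularFunctionFieldFullC ↥(beta0Field A) (M₁ * q)), y₀ ≠ 0 ∧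
      KummerRel m (eisKill ℓ x) (nfEmb (beta0Field A) (M₁ * q) y₀) ∧
      ∀ c : Bool, (mgvV hπ ιC hq hqM c).valuation y₀ = 1 := by
  haveI : NeZero (ℓ : ℕ) := ⟨ℓ.2.ne_zero⟩
  have hu₀ : u₀ ≠ 0 := by
    rintro rfl
    exact hx.ne_zero (map_zero _)
  obtain ⟨y₀, hy0, hy₀, hval⟩ := ribmp_vh_main hq hqM hA hπ ιC (ℓ : ℕ) ℓ.2 hℓM u₀ hu₀
  refine ⟨y₀, hy0, ?_, hval⟩
  rw [hy₀]
  exact ribmp_vh_kummerRel ℓ hx

end Main

end Fermat.Agent.RIB.MP

end


end ZBRIB_001_7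

/-! ### bundled: `Fermat.Agent.RIB.MP.RedGauss` -/
section ZBRIB_001_8
/-
Row 37, Mazur's principle, piece MP-RED, part RED-a (helper91; debugged + landed by helper85): the reduction of `V_∞` in the
Kronecker language.

`A ⊂ ℚ̄` a valuation ring, `K₀ ⊂ ℚ̄`, `A₀ = A ∩ K₀` a discrete valuation ring,
`V = vtInf (E := ↥K₀) (vtBase_residue hπ) N` the Gauss valuation ring of `F_N(K₀)`.

* `ribmp_red_const_mem` : `ψ̂ x · y₂ = c · y₁`, `x` Gauss-integral over the base, `y₁, y₂`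
  primitive over `A`  ⇒  `c ∈ A`;
* `ribmp_red_gaussInt` : `x ∈ V ⇒ GaussInt N A (nfEmb K₀ N x)`;
* `ribmpRedLS N A : deuInstO N A →+* kA((Q))` : the reduction (no `StmtRedF` needed);
* `ribmpRedK hπ N : V →+* kA((Q))` with `ribmpRedK_spec : GaussRed N A (nfEmb x) (ribmpRedK x)`,
  `ribmpRedK_const`, `ribmpRedK_eq_zero_of_mem_nonunits`, `ribmpRedK_ne_zero`.
-/

set_option autoImplicit false
set_option linter.unusedSectionVars false
set_option linter.unusedVariables false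
set_option linter.style.haveILetI false
set_option linter.style.longLine false

noncomputable section

namespace Fermat.Agent.RIB.MP

open ModularCurve AlgebraicCurve Fermat.Agent.ES Fermat.Agent.ES.G2 Fermat.Agent.INJ
  Fermat.Agent.UNIP Fermat.Agent.STB Fermat.Agent.ES.M Fermat.Agent.DEU Fermat.Agent.S36
  Fermat.Agent.S24

section Core

variable {A₀ E k : Type*} [CommRing A₀] [Field E] [Field k]
  {ι : A₀ →+* E} {r : A₀ →+* k} {π : A₀}
  {L : Type*} [Field L] {AL : ValuationSubring L} {ψ : E →+* L}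

/-- if `ψ̂ x · y₂ = c · y₁` with `x` in the Gauss ring of the base and `y₁, y₂` primitive over
`AL`, then `c ∈ AL` -/
theorem ribmp_red_const_mem (h1 : ∀ a, ψ (ι a) ∈ AL)
    (h2 : ∀ a, ψ (ι a) ∈ AL.nonunits → r a = 0)
    {x : LaurentSeries E} (hx : x ∈ gaussRing ι r) {c : L} {y₁ y₂ : LaurentSeries L}
    (hy₁ : KronPrim AL y₁) (hy₂ : KronPrim AL y₂)
    (hxy : coeffMap ψ x * y₂ = HahnSeries.C c * y₁) : c ∈ AL := by
  by_contra hc
  have hc0 : c ≠ 0 := fun h => hc (h ▸ AL.zero_mem)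
  have hcinv : c⁻¹ ∈ AL.nonunits := by
    rw [ValuationSubring.mem_nonunits_iff, map_inv₀]
    rw [← ValuationSubring.valuation_le_one_iff, not_le] at hc
    exact inv_lt_one_of_one_lt₀ hc
  have hcinv' : c⁻¹ ∈ AL := by
    rw [← ValuationSubring.valuation_le_one_iff]
    exact (AL.mem_nonunits_iff.1 hcinv).le
  obtain ⟨T, b, hb, hbx⟩ := hx
  have e2 : coeffMap ψ (coeffMap ι b) * coeffMap ψ x = coeffMap ψ (coeffMap ι T) := by
    rw [← map_mul, hbx]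
  have hCC : (HahnSeries.C c⁻¹ : LaurentSeries L) * HahnSeries.C c = 1 := by
    rw [← map_mul, inv_mul_cancel₀ hc0, map_one]
  have key : coeffMap ψ (coeffMap ι b) * y₁ =
      HahnSeries.C c⁻¹ * (coeffMap ψ (coeffMap ι T) * y₂) := by
    calc coeffMap ψ (coeffMap ι b) * y₁
        = (HahnSeries.C c⁻¹ * HahnSeries.C c) * (coeffMap ψ (coeffMap ι b) * y₁) := by
          rw [hCC, one_mul]
      _ = HahnSeries.C c⁻¹ * (coeffMap ψ (coeffMap ι b) * (HahnSeries.C c * y₁)) := by ring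
      _ = HahnSeries.C c⁻¹ * (coeffMap ψ (coeffMap ι b) * (coeffMap ψ x * y₂)) := by rw [hxy]
      _ = HahnSeries.C c⁻¹ * (coeffMap ψ (coeffMap ι T) * y₂) := by
          rw [← mul_assoc (coeffMap ψ (coeffMap ι b)), e2]
  have hprim : KronPrim AL (coeffMap ψ (coeffMap ι b) * y₁) :=
    (stb_mgt_prim h1 h2 hb).mul hy₁
  have hint : KronInt AL (coeffMap ψ (coeffMap ι T) * y₂) := (stb_mgt_int h1 T).mul hy₂.1
  rw [key] at hprim
  exact stb_mgt_not_prim_of_congr_zero hprim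
    (stb_mgt_congr_zero_mul (stb_mgt_int_C hcinv') hint (ribmp_vh_C_congr_zero hcinv))

end Core

section RedLS

variable (N : ℕ) [NeZero N] (A : ValuationSubring Qb)

/-- the reduction of the Gauss-integral elements of `F_N(ℚ̄)`, with values in `k((Q))` -/
def ribmpRedLS : deuInstO N A →+* LaurentSeries (kA A) where
  toFun x := deuInstRedFun N A x
  map_one' := deuInstRedFun_eq N A (deuInst_gaussRed_one N A)
  map_mul' x y := deuInstRedFun_eq N A
    (deuInst_gaussRed_mul N A (deuInstRedFun_spec N A x) (deuInstRedFun_spec N A y))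
  map_zero' := deuInstRedFun_eq N A (deuInst_gaussRed_zero N A)
  map_add' x y := deuInstRedFun_eq N A
    (deuInst_gaussRed_add N A (deuInstRedFun_spec N A x) (deuInstRedFun_spec N A y))

theorem ribmpRedLS_spec (x : deuInstO N A) :
    GaussRed N A (x : FF N) (ribmpRedLS N A x) := deuInstRedFun_spec N A x

theorem ribmpRedLS_eq {x : deuInstO N A} {w : LaurentSeries (kA A)}
    (h : GaussRed N A (x : FF N) w) : ribmpRedLS N A x = w := deuInstRedFun_eq N A h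

end RedLS

section GaussInt

variable {A : ValuationSubring Qb} {K₀ : IntermediateField ℚ Qb}
  [IsDiscreteValuationRing ↥(beta0Ring A K₀)] {π : ↥(beta0Ring A K₀)} (hπ : Irreducible π)

/-- **a Gauss-integral element of `F_N(K₀)` (base `A ∩ K₀`) is Gauss-integral over `A`** -/
theorem ribmp_red_gaussInt (N : ℕ) [NeZero N] {x : modularFunctionFieldFullC ↥K₀ N}
    (hx : x ∈ vtInf (E := ↥K₀) (vtBase_residue hπ) N) : GaussInt N A (nfEmb K₀ N x) := by
  by_cases hx0 : x = 0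
  · rw [hx0, map_zero]
    exact ⟨0, deuInst_gaussRed_zero N A⟩
  obtain ⟨c, y₁, y₂, hc, hy₁m, hy₂m, hy₁, hy₂, huy⟩ :=
    deuInst_prim N A (nfEmb K₀ N x) ((map_ne_zero _).2 hx0)
  have hcA : c ∈ A :=
    ribmp_red_const_mem (ψ := algebraMap ↥K₀ Qb) (stb_mgt_c1 A K₀) (stb_mgt_c2 A K₀)
      ((mem_vtInf _ N).1 hx) hy₁ hy₂ huy
  obtain ⟨Y₁, rfl⟩ := hy₁.1.exists_lift
  obtain ⟨Y₂, rfl⟩ := hy₂.1.exists_lift
  have hR₂ : kronRed A Y₂ ≠ 0 := (kronPrim_kronIncl_iff Y₂).mp hy₂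
  have hC : kronIncl A (HahnSeries.C (⟨c, hcA⟩ : A)) = HahnSeries.C c :=
    deuInst_coeffMap_C A.subtype ⟨c, hcA⟩
  refine ⟨kronRed A (HahnSeries.C (⟨c, hcA⟩ : A) * Y₁) * (kronRed A Y₂)⁻¹,
    HahnSeries.C (⟨c, hcA⟩ : A) * Y₁, Y₂, ?_, hy₂m, hR₂, ?_, ?_⟩
  · rw [map_mul, hC]
    exact mul_mem (hahnC_mem_intermediateField _ _) hy₁m
  · rw [map_mul, hC]
    exact huy
  · rw [mul_assoc, inv_mul_cancel₀ hR₂, mul_one]

/-- the reduction of `V_∞ ⊂ F_N(K₀)` in the Kronecker language over `A` -/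
def ribmpRedK (N : ℕ) [NeZero N] :
    ↥(vtInf (E := ↥K₀) (vtBase_residue hπ) N) →+* LaurentSeries (kA A) :=
  (ribmpRedLS N A).comp
    (((nfEmb K₀ N).comp (vtInf (E := ↥K₀) (vtBase_residue hπ) N).subtype).codRestrict (deuInstO N A)
      (fun x => ribmp_red_gaussInt hπ N x.2))

theorem ribmpRedK_spec (N : ℕ) [NeZero N] (x : ↥(vtInf (E := ↥K₀) (vtBase_residue hπ) N)) :
    GaussRed N A (nfEmb K₀ N (x : modularFunctionFieldFullC ↥K₀ N)) (ribmpRedK hπ N x) :=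
  deuInstRedFun_spec N A
    ⟨nfEmb K₀ N (x : modularFunctionFieldFullC ↥K₀ N), ribmp_red_gaussInt hπ N x.2⟩

theorem ribmpRedK_eq (N : ℕ) [NeZero N] {x : ↥(vtInf (E := ↥K₀) (vtBase_residue hπ) N)}
    {w : LaurentSeries (kA A)}
    (h : GaussRed N A (nfEmb K₀ N (x : modularFunctionFieldFullC ↥K₀ N)) w) :
    ribmpRedK hπ N x = w :=
  deuInst_gaussRed_unique N A (ribmpRedK_spec hπ N x) h

/-- constants -/
theorem ribmpRedK_const (N : ℕ) [NeZero N] (a : ↥(beta0Ring A K₀))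
    (ha : mgaConst ↥K₀ N (algebraMap ↥(beta0Ring A K₀) ↥K₀ a) ∈ vtInf (E := ↥K₀) (vtBase_residue hπ) N) :
    ribmpRedK hπ N ⟨_, ha⟩ =
      HahnSeries.C (IsLocalRing.residue A ⟨algebraMap ↥K₀ Qb (algebraMap ↥(beta0Ring A K₀) ↥K₀ a),
        stb_mgt_c1 A K₀ a⟩) := by
  apply ribmpRedK_eq
  have e : nfEmb K₀ N (mgaConst ↥K₀ N (algebraMap ↥(beta0Ring A K₀) ↥K₀ a)) =
      algebraMap Qb (FF N) (algebraMap ↥K₀ Qb (algebraMap ↥(beta0Ring A K₀) ↥K₀ a)) :=
    nfEmb_algebraMap K₀ N _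
  show GaussRed N A (nfEmb K₀ N (mgaConst ↥K₀ N (algebraMap ↥(beta0Ring A K₀) ↥K₀ a))) _
  rw [e]
  exact deuInst_gaussRed_const N A ⟨_, stb_mgt_c1 A K₀ a⟩

/-- the uniformizer reduces to `0` -/
theorem ribmpRedK_unif (N : ℕ) [NeZero N]
    (ha : mgaConst ↥K₀ N (algebraMap ↥(beta0Ring A K₀) ↥K₀ π) ∈ vtInf (E := ↥K₀) (vtBase_residue hπ) N) :
    ribmpRedK hπ N ⟨_, ha⟩ = 0 := by
  rw [ribmpRedK_const]
  have h0 : IsLocalRing.residue A ⟨algebraMap ↥K₀ Qb (algebraMap ↥(beta0Ring A K₀) ↥K₀ π),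
      stb_mgt_c1 A K₀ π⟩ = 0 := by
    rw [IsLocalRing.residue_eq_zero_iff, IsLocalRing.mem_maximalIdeal, mem_nonunits_iff]
    intro hu
    have h3 := ribmp_vh_c3 (A := A) (K₀ := K₀) hπ
    rw [ValuationSubring.mem_nonunits_iff] at h3
    have h4 := (ValuationSubring.valuation_eq_one_iff A _).1 hu
    rw [h4] at h3
    exact lt_irrefl _ h3
  rw [h0, map_zero]

/-- the maximal ideal reduces to `0` -/
theorem ribmpRedK_eq_zero_of_mem_nonunits (N : ℕ) [NeZero N]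
    (x : ↥(vtInf (E := ↥K₀) (vtBase_residue hπ) N))
    (hx : (x : modularFunctionFieldFullC ↥K₀ N) ∈ (vtInf (E := ↥K₀) (vtBase_residue hπ) N).nonunits) :
    ribmpRedK hπ N x = 0 := by
  have hc : vtEmb ↥K₀ N (mgaConst ↥K₀ N (algebraMap ↥(beta0Ring A K₀) ↥K₀ π)) =
      HahnSeries.C (algebraMap ↥(beta0Ring A K₀) ↥K₀ π) :=
    algebraMap_laurentSeries_eq_single ↥K₀ _
  obtain ⟨y, hy, hxy⟩ := s36n2e_vtSub_unif (vtBase_residue hπ) (vtEmb ↥K₀ N)
    (fun x => vt_frac_fullC (vtBase_residue hπ) N x.2) hc hx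
  have hπV : mgaConst ↥K₀ N (algebraMap ↥(beta0Ring A K₀) ↥K₀ π) ∈
      vtInf (E := ↥K₀) (vtBase_residue hπ) N :=
    vtSub_const_mem (vtBase_residue hπ) _ _ hc
  have e : x = ⟨_, hπV⟩ * ⟨y, hy⟩ := Subtype.ext hxy
  rw [e, map_mul, ribmpRedK_unif, zero_mul]

/-- units have nonzero reduction -/
theorem ribmpRedK_ne_zero (N : ℕ) [NeZero N] (x : ↥(vtInf (E := ↥K₀) (vtBase_residue hπ) N))
    (hx : (vtInf (E := ↥K₀) (vtBase_residue hπ) N).valuation (x : modularFunctionFieldFullC ↥K₀ N) = 1) :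
    ribmpRedK hπ N x ≠ 0 := by
  have hu : IsUnit x := (ValuationSubring.valuation_eq_one_iff _ x).2 hx
  exact (hu.map (ribmpRedK hπ N)).ne_zero

end GaussInt

end Fermat.Agent.RIB.MP

end
end ZBRIB_001_8

/-! ### bundled: `Fermat.Agent.RIB.MP.PlanE` -/
section ZBRIB_001_9
/-
Row 37, Mazur's principle: the RESTRICTED interface (helper2, sub-captain), Plan v3.

The reduction package of `X₀(M₁)` at a place over `q` (`S15.s15red_exists_pkg`) exists for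
`5 ≤ q ∨ (5 - q) ∣ M₁` only, i.e. for `q = 3` only at EVEN levels `M₁`.  Ruling (C)+(A):

* the geometric pieces are proved under the extra hypothesis `5 ≤ q ∨ (5 - q) ∣ M₁`
  (`StmtRedE`, `StmtFrobToricE`), and so is the `J`-form (`StmtAtQE`);
* MP-AUX (`StmtOddLevel`): a conductor level `N` prime to `p` at which the Frey representation is
  modular is EVEN (the Frey representation is ramified at `2`, `J₀(N)[p]` is unramified at
  `2 ∤ N p`);
* the glue (`StmtGlueE`) uses `StmtOddLevel` to get `2 ∣ M₁ = N / q`.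

`Plan.lean` is unchanged (the unrestricted Props imply the restricted ones).
-/

set_option autoImplicit false

noncomputable section

namespace Fermat.Agent.RIB.MP

open ModularCurve AlgebraicCurve Fermat.Agent.ES Fermat.Agent.ES.G2
open WeierstrassCurve WeierstrassCurve.Affine WeierstrassCurve.Affine.Point

/-- the hypothesis of `S15.s15red_exists_pkg` holds at an odd prime `q` and an even level -/
theorem ribmp_e_hyp_of_even {M₁ q : ℕ} (hq : q.Prime) (hq2 : q ≠ 2) (h2 : 2 ∣ M₁) :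
    5 ≤ q ∨ (5 - q) ∣ M₁ := by
  rcases le_or_gt 5 q with h | h
  · exact Or.inl h
  · right
    have h2' := hq.two_le
    have hq3 : q = 3 := by
      interval_cases q
      · exact absurd rfl hq2
      · rfl
      · exact absurd hq (by decide)
    subst hq3
    exact h2

/-- **MP-RED, restricted**: `StmtRed` under `5 ≤ q ∨ (5 - q) ∣ M₁`. -/
def StmtRedE : Prop :=
  ∀ (M₁ q : ℕ) [NeZero M₁] [NeZero q] [NeZero (M₁ * q)] (hq : q.Prime) (hqM : ¬ q ∣ M₁),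
    (5 ≤ q ∨ (5 - q) ∣ M₁) →
    q ≠ 2 → ∀ p : ℕ, p.Prime → 5 ≤ p → p ≠ q →
    ∀ A : ValuationSubring Qb, A.LiesOverPrime q →
    ∀ x : JZero (M₁ * q), p • x = 0 → InertiaFixed A x →
    ∀ ℓ : Nat.Primes, ¬ (ℓ : ℕ) ∣ M₁ * q * p →
      (∃ y : JZero M₁, p • y = 0 ∧ RedInf A p (eisKill ℓ x) y) ∧
      (∃ y : JZero M₁, p • y = 0 ∧ RedZero hq hqM A p (eisKill ℓ x) y)

/-- **MP-FROB, restricted**: `StmtFrobToric` under `5 ≤ q ∨ (5 - q) ∣ M₁`. -/
def StmtFrobToricE : Prop :=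
  ∀ (M₁ q : ℕ) [NeZero M₁] [NeZero q] [NeZero (M₁ * q)] (hq : q.Prime) (hqM : ¬ q ∣ M₁),
    (5 ≤ q ∨ (5 - q) ∣ M₁) →
    q ≠ 2 → ∀ p : ℕ, p.Prime → 5 ≤ p → p ≠ q →
    ∀ A : ValuationSubring Qb, A.LiesOverPrime q →
    ∀ σ : Qb ≃ₐ[ℚ] Qb, A.IsFrobeniusAt σ q →
    ∀ x : JZero (M₁ * q), p • x = 0 → InertiaFixed A x →
    ∀ ℓ : Nat.Primes, ¬ (ℓ : ℕ) ∣ M₁ * q * p →
      IsToric hq hqM A p (eisKill ℓ x) →
        σ • (Fermat.Agent.UNIP.atkinLehnerBar hq hqM • eisKill ℓ x) + q • eisKill ℓ x = 0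

/-- **MP-ATQ, restricted**: `StmtAtQ` under `5 ≤ q ∨ (5 - q) ∣ M₁`. -/
def StmtAtQE : Prop :=
  ∀ (M₁ q : ℕ) [NeZero M₁] [NeZero q] [NeZero (M₁ * q)] (hq : q.Prime) (hqM : ¬ q ∣ M₁),
    (5 ≤ q ∨ (5 - q) ∣ M₁) →
    Squarefree (M₁ * q) → q ≠ 2 → ∀ p : ℕ, p.Prime → 5 ≤ p → p ≠ q →
    ∀ A : ValuationSubring Qb, A.LiesOverPrime q →
    ∀ σ : Qb ≃ₐ[ℚ] Qb, A.IsFrobeniusAt σ q →
    ∀ x : PDiv (M₁ * q) p, p • x = 0 → InertiaFixed A (x : JZero (M₁ * q)) →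
    ∀ (ℓ₁ : Nat.Primes) (n₁ : ℤ), ¬ (ℓ₁ : ℕ) ∣ M₁ * q * p →
      heckeOperatorBar (M₁ * q) ℓ₁ (x : JZero (M₁ * q)) = n₁ • (x : JZero (M₁ * q)) →
      ¬ (p : ℤ) ∣ n₁ - ((ℓ₁ : ℕ) + 1) →
    ∀ t₀ ∈ MvPolynomial.supported ℤ (goodPrimes (M₁ * q) p),
      Fermat.Agent.R38.KillsLevel M₁ t₀ →
      ∀ n₀ : ℤ, (letI := pDivModule (M₁ * q) p; t₀ • x) = n₀ • x → ¬ (p : ℤ) ∣ n₀ →
        σ • (Fermat.Agent.UNIP.atkinLehnerBar hq hqM • (x : JZero (M₁ * q))) +
          q • (x : JZero (M₁ * q)) = 0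

/-- **MP-AUX** (helper85): a conductor level prime to `p` at which the (irreducible) Frey
representation is modular is even. -/
def StmtOddLevel : Prop :=
  ∀ (P : FreyPackage) (N : ℕ), P.IsConductorLevel N → ¬ P.p ∣ N →
    GaloisRepIsIrreducible (K := AlgebraicClosure ℚ) ℚ P.freyCurve P.p →
    P.ModularRepOfLevel N → 2 ∣ N

/-- **MP-5 (glue), restricted form.** -/
def StmtGlueE : Prop :=
  StmtAtQE → StmtWHecke → StmtRepN → Fermat.Agent.R38.StmtLift → StmtOddLevel →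
    Fermat.Agent.RIB.StmtMP

/-- the unrestricted pieces imply the restricted ones -/
theorem stmtRedE_of_stmtRed (h : StmtRed) : StmtRedE :=
  fun M₁ q _ _ _ hq hqM _ => h M₁ q hq hqM

theorem stmtFrobToricE_of_stmtFrobToric (h : StmtFrobToric) : StmtFrobToricE :=
  fun M₁ q _ _ _ hq hqM _ => h M₁ q hq hqM

theorem stmtAtQE_of_stmtAtQ (h : StmtAtQ) : StmtAtQE :=
  fun M₁ q _ _ _ hq hqM _ => h M₁ q hq hqM

/-- the unrestricted glue implies the restricted one is NOT available (the restricted glue is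
stronger); conversely the restricted glue gives the unrestricted one. -/
theorem stmtGlue_of_stmtGlueE (h : StmtGlueE) (hOdd : StmtOddLevel) : StmtGlue :=
  fun hAtQ hW hRep hLift => h (stmtAtQE_of_stmtAtQ hAtQ) hW hRep hLift hOdd

end Fermat.Agent.RIB.MP

end


end ZBRIB_001_9
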