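/- GENERATED FILE (helper35, build-time optimisation, NOTES/ZB.md): verbatim concatenation of the modules
   Fermat.Agent.STB.Tower
   Fermat.Agent.STB.KillsJ
   Fermat.Agent.STB.PushPoly
   Fermat.Agent.R38.PlanTres
   Fermat.Agent.STB.PushGalois
   Fermat.Agent.R38.TresLine
   Do not edit; do not import together with these modules. -/
import Mathlib
import Fermat.Agent.ZB.ES_012
import Fermat.Agent.ZB.ES_009
import Fermat.Agent.ZB.S41_002
import Fermat.Agent.ZB.S21_004
import Fermat.Agent.ZB.Cheb_001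
import Fermat.Agent.ZB.STB_001
import Fermat.Agent.ZB.RIB_001
import Fermat.Agent.ZB.ES_001
import Fermat.Agent.ZB.ES_005
import Fermat.Agent.ZB.ES_007

/-! ### bundled: `Fermat.Agent.STB.Tower` -/
section ZBSTB_002_0

/-!
# STB-P2, algebraic half (Tower): characters with a `p`-tower lift to integral homomorphisms

`Q` a finitely generated abelian group, `A` an abelian group, `e : ℤ →+ A` onto the `pⁿ`-torsion
of `A`.  If `χ₀ : Q →+ A` is killed by `pⁿ` and is the bottom of a tower `p • χ_{i+1} = χ_i` of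
characters of `p`-power order, then `χ₀ = e ∘ φ` for some `φ : Q →+ ℤ`
(`χ₀` kills the torsion of `Q`, and `Q / torsion` is free).

* `stb_tower_abstract` : the statement for `Q`;
* `stb_tower` : the statement for a finitely generated group `G` and characters trivial on a
  set `P ⊆ G`; the lift `φ` is trivial on `P`.
-/

set_option autoImplicit false
set_option linter.style.haveILetI false

noncomputable section

namespace Fermat.Agent.STB

open scoped DirectSum

section Abstract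

variable {Q A : Type*} [AddCommGroup Q] [AddCommGroup A]

theorem stb_tower_pow_smul (p : ℕ) (χ : ℕ → (Q →+ A)) (htow : ∀ i, p • χ (i + 1) = χ i)
    (i j : ℕ) : p ^ j • χ (i + j) = χ i := by
  induction j with
  | zero => simp
  | succ j ih =>
    rw [pow_succ, mul_smul, ← add_assoc, htow, ih]

/-- an element killed by `m` and by a power of `p` is killed by `p ^ m` -/
theorem stb_tower_kill {p : ℕ} (hp : p.Prime) {m b : ℕ} (hm : 0 < m) {y : A} (h1 : m • y = 0)
    (h2 : p ^ b • y = 0) : p ^ m • y = 0 := by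
  have d1 : addOrderOf y ∣ m := addOrderOf_dvd_of_nsmul_eq_zero h1
  have d2 : addOrderOf y ∣ p ^ b := addOrderOf_dvd_of_nsmul_eq_zero h2
  obtain ⟨c, -, hc⟩ := (Nat.dvd_prime_pow hp).mp d2
  have hcm : c ≤ m := by
    have h3 : p ^ c ≤ m := Nat.le_of_dvd hm (hc ▸ d1)
    exact (Nat.lt_pow_self hp.one_lt).le.trans h3
  have d3 : addOrderOf y ∣ p ^ m := by
    rw [hc]
    exact pow_dvd_pow p hcm
  exact addOrderOf_dvd_iff_nsmul_eq_zero.mp d3

/-- **Tower lemma, abstract form.** -/
theorem stb_tower_abstract [AddGroup.FG Q] (p : ℕ) (hp : p.Prime) (n : ℕ) (e : ℤ →+ A)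
    (he : ∀ a : A, p ^ n • a = 0 → ∃ k : ℤ, e k = a)
    (χ : ℕ → (Q →+ A)) (htow : ∀ i, p • χ (i + 1) = χ i)
    (htors : ∀ i, ∃ m, p ^ m • χ i = 0) (hn : p ^ n • χ 0 = 0) :
    ∃ φ : Q →+ ℤ, χ 0 = e.comp φ := by
  classical
  obtain ⟨r, ι, _, q, hq, ex, ⟨f⟩⟩ := AddCommGroup.equiv_free_prod_directSum_zmod Q
  haveI : ∀ i, NeZero (q i ^ ex i) := fun i => ⟨pow_ne_zero _ (hq i).ne_zero⟩
  haveI : Fintype (⨁ i : ι, ZMod (q i ^ ex i)) :=
    Fintype.ofEquiv _ (DirectSum.addEquivProd (fun i => ZMod (q i ^ ex i))).toEquiv.symm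
  set m : ℕ := Fintype.card (⨁ i : ι, ZMod (q i ^ ex i)) with hm
  have hm0 : 0 < m := Fintype.card_pos
  -- `χ 0` kills the torsion part
  have hT : ∀ t : ⨁ i : ι, ZMod (q i ^ ex i), χ 0 (f.symm (0, t)) = 0 := by
    intro t
    have h0 := stb_tower_pow_smul p χ htow 0 m
    rw [zero_add] at h0
    rw [← h0, AddMonoidHom.smul_apply]
    obtain ⟨b, hb⟩ := htors m
    refine stb_tower_kill hp hm0 ?_ ?_ (b := b)
    · rw [← map_nsmul, ← map_nsmul]
      have h1 : m • ((0, t) : (Fin r →₀ ℤ) × ⨁ i : ι, ZMod (q i ^ ex i)) = 0 := by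
        rw [Prod.smul_mk, smul_zero, hm, card_nsmul_eq_zero]
        rfl
      rw [h1, map_zero, map_zero]
    · rw [← AddMonoidHom.smul_apply, hb, AddMonoidHom.zero_apply]
  -- the values on the basis of the free part
  have hk : ∀ i : Fin r, ∃ k : ℤ, e k = χ 0 (f.symm (Finsupp.single i 1, 0)) := by
    intro i
    apply he
    rw [← AddMonoidHom.smul_apply, hn, AddMonoidHom.zero_apply]
  choose k hk using hk
  set φF : (Fin r →₀ ℤ) →+ ℤ := (Finsupp.linearCombination ℤ k).toAddMonoidHom with hφF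
  refine ⟨(φF.comp (AddMonoidHom.fst _ _)).comp f.toAddMonoidHom, ?_⟩
  -- compare on the free part
  have hfree : ((χ 0).comp f.symm.toAddMonoidHom).comp (AddMonoidHom.inl _ _) = e.comp φF := by
    refine Finsupp.addHom_ext fun i z => ?_
    show χ 0 (f.symm (Finsupp.single i z, 0)) = e (Finsupp.linearCombination ℤ k (Finsupp.single i z))
    rw [Finsupp.linearCombination_single, smul_eq_mul]
    have h1 : ((Finsupp.single i z, 0) : (Fin r →₀ ℤ) × ⨁ i : ι, ZMod (q i ^ ex i))
        = z • (Finsupp.single i 1, 0) := by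
      rw [Prod.smul_mk, smul_zero, Finsupp.smul_single, smul_eq_mul, mul_one]
    rw [h1, map_zsmul, map_zsmul, ← hk i, ← map_zsmul, smul_eq_mul]
  refine AddMonoidHom.ext fun x => ?_
  obtain ⟨⟨v, t⟩, rfl⟩ := f.symm.surjective x
  have h2 : ((v, t) : (Fin r →₀ ℤ) × ⨁ i : ι, ZMod (q i ^ ex i)) = (v, 0) + (0, t) := by
    simp
  have h3 := DFunLike.congr_fun hfree v
  simp only [AddMonoidHom.comp_apply, AddMonoidHom.inl_apply, AddEquiv.coe_toAddMonoidHom,
    AddMonoidHom.coe_fst, AddEquiv.apply_symm_apply] at h3 ⊢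
  rw [h2, map_add, map_add, hT t, add_zero, h3]

end Abstract

section Group

variable {G : Type*} [Group G] {A : Type*} [AddCommGroup A]

/-- the abelianisation of `G`, additively -/
abbrev stbGab (G : Type*) [Group G] : Type _ := Additive (Abelianization G)

/-- the canonical map `G → G^ab`, additively -/
def stbToAb (G : Type*) [Group G] : Additive G →+ stbGab G :=
  MonoidHom.toAdditive (Abelianization.of (G := G))

theorem stbToAb_surjective (G : Type*) [Group G] : Function.Surjective (stbToAb G) := by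
  intro x
  obtain ⟨g, hg⟩ := QuotientGroup.mk_surjective (s := commutator G) (Additive.toMul x)
  exact ⟨Additive.ofMul g, congrArg Additive.ofMul hg⟩

/-- a character of `G` factors through `G^ab` -/
def stbLiftAb (χ : Additive G →+ A) : stbGab G →+ A :=
  MonoidHom.toAdditiveLeft (Abelianization.lift (AddMonoidHom.toMultiplicativeRight χ))

theorem stbLiftAb_comp (χ : Additive G →+ A) : (stbLiftAb χ).comp (stbToAb G) = χ := by
  refine AddMonoidHom.ext fun g => ?_
  show Multiplicative.toAdd (Abelianization.lift (AddMonoidHom.toMultiplicativeRight χ)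
    (Abelianization.of (Additive.toMul g))) = χ g
  rw [Abelianization.lift_apply_of]
  rfl

/-- the subgroup of `G^ab` generated by the image of `P` -/
def stbParSub (P : Set G) : AddSubgroup (stbGab G) :=
  AddSubgroup.closure ((fun g : G => stbToAb G (Additive.ofMul g)) '' P)

theorem stbParSub_le_ker (P : Set G) (χ : Additive G →+ A)
    (hpar : ∀ g ∈ P, χ (Additive.ofMul g) = 0) : stbParSub P ≤ (stbLiftAb χ).ker := by
  rw [stbParSub, AddSubgroup.closure_le]
  rintro _ ⟨g, hg, rfl⟩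
  show stbLiftAb χ (stbToAb G (Additive.ofMul g)) = 0
  have := DFunLike.congr_fun (stbLiftAb_comp χ) (Additive.ofMul g)
  rw [AddMonoidHom.comp_apply] at this
  rw [this, hpar g hg]

/-- the quotient `G^ab / ⟨P⟩` -/
abbrev stbQ (P : Set G) : Type _ := stbGab G ⧸ stbParSub P

/-- the projection `G → G^ab / ⟨P⟩` -/
def stbProj (P : Set G) : Additive G →+ stbQ P :=
  (QuotientAddGroup.mk' (stbParSub P)).comp (stbToAb G)

theorem stbProj_surjective (P : Set G) : Function.Surjective (stbProj P) :=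
  (QuotientAddGroup.mk'_surjective _).comp (stbToAb_surjective G)

theorem stbProj_par (P : Set G) {g : G} (hg : g ∈ P) : stbProj P (Additive.ofMul g) = 0 := by
  show QuotientAddGroup.mk' (stbParSub P) (stbToAb G (Additive.ofMul g)) = 0
  rw [QuotientAddGroup.mk'_apply, QuotientAddGroup.eq_zero_iff]
  exact AddSubgroup.subset_closure ⟨g, hg, rfl⟩

/-- a character trivial on `P` factors through `G^ab / ⟨P⟩` -/
def stbLiftQ (P : Set G) (χ : Additive G →+ A) (hpar : ∀ g ∈ P, χ (Additive.ofMul g) = 0) :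
    stbQ P →+ A :=
  QuotientAddGroup.lift (stbParSub P) (stbLiftAb χ) (stbParSub_le_ker P χ hpar)

theorem stbLiftQ_comp (P : Set G) (χ : Additive G →+ A)
    (hpar : ∀ g ∈ P, χ (Additive.ofMul g) = 0) : (stbLiftQ P χ hpar).comp (stbProj P) = χ := by
  refine AddMonoidHom.ext fun g => ?_
  show QuotientAddGroup.lift (stbParSub P) (stbLiftAb χ) (stbParSub_le_ker P χ hpar)
    (QuotientAddGroup.mk' (stbParSub P) (stbToAb G g)) = χ g
  rw [QuotientAddGroup.mk'_apply, QuotientAddGroup.lift_mk]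
  exact DFunLike.congr_fun (stbLiftAb_comp χ) g

instance stbQ_fg [Group.FG G] (P : Set G) : AddGroup.FG (stbQ P) := by
  haveI : AddGroup.FG (Additive G) := AddGroup.fg_of_group_fg
  exact AddGroup.fg_of_surjective (stbProj_surjective P)

/-- **Tower lemma.**  `G` finitely generated, `P ⊆ G`; a character `χ 0 : G → A`, killed by `pⁿ`,
which is the bottom of a `p`-tower of characters of `p`-power order, all trivial on `P`, is
`e ∘ φ` for an integral homomorphism `φ` trivial on `P`. -/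
theorem stb_tower [Group.FG G] (P : Set G) (p : ℕ) (hp : p.Prime) (n : ℕ) (e : ℤ →+ A)
    (he : ∀ a : A, p ^ n • a = 0 → ∃ k : ℤ, e k = a)
    (χ : ℕ → (Additive G →+ A)) (hpar : ∀ i, ∀ g ∈ P, χ i (Additive.ofMul g) = 0)
    (htow : ∀ i, p • χ (i + 1) = χ i) (htors : ∀ i, ∃ m, p ^ m • χ i = 0)
    (hn : p ^ n • χ 0 = 0) :
    ∃ φ : Additive G →+ ℤ, (∀ g ∈ P, φ (Additive.ofMul g) = 0) ∧ χ 0 = e.comp φ := by
  have hcancel : ∀ {B : Type _} [AddCommGroup B] (a b : stbQ P →+ B),
      a.comp (stbProj P) = b.comp (stbProj P) → a = b := by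
    intro B _ a b hab
    refine AddMonoidHom.ext fun x => ?_
    obtain ⟨g, rfl⟩ := stbProj_surjective P x
    exact DFunLike.congr_fun hab g
  obtain ⟨φ, hφ⟩ := stb_tower_abstract (Q := stbQ P) p hp n e he
    (fun i => stbLiftQ P (χ i) (hpar i))
    (fun i => by
      apply hcancel
      rw [stbLiftQ_comp]
      refine AddMonoidHom.ext fun g => ?_
      rw [AddMonoidHom.comp_apply, AddMonoidHom.smul_apply]
      have h1 := DFunLike.congr_fun (stbLiftQ_comp P (χ (i + 1)) (hpar (i + 1))) g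
      rw [AddMonoidHom.comp_apply] at h1
      rw [h1, ← AddMonoidHom.smul_apply, htow i])
    (fun i => by
      obtain ⟨m, hm⟩ := htors i
      refine ⟨m, ?_⟩
      apply hcancel
      refine AddMonoidHom.ext fun g => ?_
      rw [AddMonoidHom.comp_apply, AddMonoidHom.smul_apply]
      have h1 := DFunLike.congr_fun (stbLiftQ_comp P (χ i) (hpar i)) g
      rw [AddMonoidHom.comp_apply] at h1
      rw [h1, ← AddMonoidHom.smul_apply, hm]
      rfl)
    (by
      apply hcancel
      refine AddMonoidHom.ext fun g => ?_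
      rw [AddMonoidHom.comp_apply, AddMonoidHom.smul_apply]
      have h1 := DFunLike.congr_fun (stbLiftQ_comp P (χ 0) (hpar 0)) g
      rw [AddMonoidHom.comp_apply] at h1
      rw [h1, ← AddMonoidHom.smul_apply, hn]
      rfl)
  refine ⟨φ.comp (stbProj P), fun g hg => ?_, ?_⟩
  · rw [AddMonoidHom.comp_apply, stbProj_par P hg, map_zero]
  · rw [← stbLiftQ_comp P (χ 0) (hpar 0), hφ]
    rfl

end Group

end Fermat.Agent.STB

end
end ZBSTB_002_0

/-! ### bundled: `Fermat.Agent.STB.KillsJ` -/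
section ZBSTB_002_1

/-!
# STB-P2: a Hecke polynomial which vanishes on `S₂(Γ₀(M))` kills the `p`-divisible torsion of
`J₀(M)(ℚ̄)`

`PDiv M p` is the `p`-divisible part of the `p`-power torsion of `J₀(M)(ℚ̄)` (the `J` of the
package `ESPkgFaith M p`, `ES/TopFaith.lean`), with its Hecke module structure `pDivModule M p`.

* `stb_p2_unifData` : the G1 contract `TorsionUnifData M p (muMap M)` for the EXPLICIT multiplier
  map `muMap M` (`ES/Mu.lean`);
* `stb_p2_range` : for `x ∈ PDiv M p` with `pⁿ x = 0`, `muMap M x = e(φ / pⁿ)` with `φ` an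
  INTEGRAL PARABOLIC homomorphism (MuPar + Tower);
* `stb_p2_wordOp_par`, `stb_p2_wordOp_int` : a word in the good Hecke operators which vanishes on
  the cusp forms kills `Hom_par(Γ₀(M), ℂ)` (S21) and the integral parabolic homomorphisms;
* `stb_p2_kills_word`, `stb_p2_kills` : **(P2)**.
-/

set_option autoImplicit false
set_option linter.style.haveILetI false

noncomputable section

namespace Fermat.Agent.STB

open ModularCurve AlgebraicCurve CongruenceSubgroup ModularCurve.Period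
open Fermat.Agent.ES
open scoped MatrixGroups

variable (M p : ℕ) [NeZero M]

/-! ### The contract for the explicit multiplier map -/

/-- the G1 contract for the explicit multiplier map `muMap M` -/
theorem stb_p2_unifData (hp : 0 < p) : TorsionUnifData M p (muMap M) := by
  have hE : MuExists M := muExists M
  have hU : MuUnique M := muUnique
  have hA : MuAdd M := muAdd
  have hI : MuInj M := muInj M
  have hH : MuHecke M := muHecke M
  have hS : MuSurj M := Sur.muSurj M
  refine ⟨?_, ?_, ?_, ?_⟩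
  · rintro x y ⟨a, ha⟩ ⟨b, hb⟩
    have hn : 0 < p ^ (a + b) := pow_pos hp _
    have hx : p ^ (a + b) • x = 0 := by rw [pow_add, mul_comm, mul_smul, ha, smul_zero]
    have hy : p ^ (a + b) • y = 0 := by rw [pow_add, mul_smul, hb, smul_zero]
    exact muMap_eq hU hn (hA _ hn x y _ _ (muRel_muMap hE hU hn hx) (muRel_muMap hE hU hn hy))
  · rintro x ⟨a, ha⟩ h0
    have hn : 0 < p ^ a := pow_pos hp _
    have := muRel_muMap hE hU hn ha
    rw [h0] at this
    exact hI _ hn x this
  · rintro ℓ x ⟨a, ha⟩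
    have hn : 0 < p ^ a := pow_pos hp _
    exact muMap_eq hU hn (hH p ℓ _ hn x _ (muRel_muMap hE hU hn ha))
  · intro φ hφ n
    have hn : 0 < p ^ n := pow_pos hp _
    obtain ⟨x, hx, hrel⟩ := hS φ hφ (p ^ n) hn
    exact ⟨x, hx, muMap_eq hU hn hrel⟩

/-- the multiplier of a `p`-power torsion class is parabolic -/
theorem stb_p2_muMap_par (hp : 0 < p) {x : JZero M} {a : ℕ} (hx : p ^ a • x = 0) :
    IsParabolicHom (Gamma0 M) (muMap M x) :=
  stb_mupar M (muRel_muMap (muExists M) muUnique (pow_pos hp a) hx)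

/-! ### The range of the multiplier map on the divisible part -/

/-- every `n`-torsion element of `ℂˣ` (additively) is `e(k / n)` -/
theorem stb_p2_expHom_surj {n : ℕ} (hn : n ≠ 0) (a : Additive ℂˣ) (ha : n • a = 0) :
    ∃ k : ℤ, expHom n k = a := by
  have h1 : Additive.toMul a ^ n = 1 := by
    have := congrArg Additive.toMul ha
    rwa [toMul_nsmul] at this
  haveI : NeZero n := ⟨hn⟩
  have h2 : ((Additive.toMul a : ℂˣ) : ℂ) ^ n = 1 := by
    rw [← Units.val_pow_eq_pow_val, h1, Units.val_one]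
  have hz : IsPrimitiveRoot ((zetaUnit n : ℂˣ) : ℂ) n := by
    rw [zetaUnit_val]
    exact Complex.isPrimitiveRoot_exp n hn
  obtain ⟨i, -, hi⟩ := hz.eq_pow_of_pow_eq_one h2
  refine ⟨(i : ℤ), ?_⟩
  rw [expHom_apply, zpow_natCast]
  have h3 : zetaUnit n ^ i = Additive.toMul a := by
    apply Units.ext
    rw [Units.val_pow_eq_pow_val, hi]
  rw [h3]
  rfl

/-- **Range.**  On the `p`-divisible torsion the multiplier is `e(φ / pⁿ)` with `φ` an integral
parabolic homomorphism. -/
theorem stb_p2_range (hp : p.Prime) {x : JZero M} (hx : x ∈ pDivTors p (JZero M)) {n : ℕ}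
    (hn : p ^ n • x = 0) :
    ∃ φ : Additive (Gamma0 M) →+ ℤ, IsParabolicHom (Gamma0 M) φ ∧
      muMap M x = expChar M (p ^ n) φ := by
  have hD := stb_p2_unifData M p hp.pos
  have hm := multData_of_torsionUnifData hp.ne_zero hD
  obtain ⟨⟨a, ha⟩, y, hy0, hy⟩ := hx
  have hpow : ∀ i, p ^ i • y i = x := by
    intro i
    induction i with
    | zero => rw [pow_zero, one_smul, hy0]
    | succ i ih => rw [pow_succ, mul_smul, hy i, ih]
  have htor : ∀ i, p ^ (a + i) • y i = 0 := by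
    intro i
    rw [pow_add, mul_smul, hpow i, ha]
  have hfg : Group.FG (Gamma0 M) :=
    (Group.fg_iff_subgroup_fg _).mpr (Fermat.Agent.S22.gamma0_fg M)
  obtain ⟨φ, hφ, hχ⟩ := stb_tower (G := Gamma0 M) (parabolicSet M) p hp n (expHom (p ^ n))
    (fun a ha => stb_p2_expHom_surj (pow_ne_zero n hp.ne_zero) a ha)
    (fun i => muMap M (y i))
    (fun i g hg => stb_p2_muMap_par M p hp.pos (htor i) g hg)
    (fun i => by
      rw [← hm.map_nsmul (isPPowerTorsion_of_pow_smul (htor (i + 1))), hy i])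
    (fun i => ⟨a + i, by
      rw [← hm.map_nsmul (isPPowerTorsion_of_pow_smul (htor i)), htor i, hm.map_zero]⟩)
    (by
      rw [hy0, ← hm.map_nsmul (isPPowerTorsion_of_pow_smul hn), hn, hm.map_zero])
  refine ⟨φ, fun γ hγ => hφ γ hγ, ?_⟩
  rw [← hy0, hχ]
  rfl

/-! ### Words which vanish on the cusp forms -/

variable {M p}

omit [NeZero M] in
/-- words commute with the involution `ι` -/
theorem stb_p2_wordOp_charInv (w : FreeAlgebra ℤ (GoodPrime M p))
    (ψ : Additive (Gamma0 M) →+ ℂ) :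
    wordOp (heckeOp M p) ℂ w (charInvolution M ℂ ℂ ψ) =
      charInvolution M ℂ ℂ (wordOp (heckeOp M p) ℂ w ψ) := by
  induction w using FreeAlgebra.induction generalizing ψ with
  | grade0 r =>
    rw [AlgHom.commutes, Module.algebraMap_end_apply, Module.algebraMap_end_apply]
    rfl
  | grade1 ℓ =>
    have : Fact ((ℓ : Nat.Primes) : ℕ).Prime := ⟨ℓ.1.2⟩
    rw [wordOp_ι, wordOp_ι, heckeOp_apply, heckeOp_apply]
    exact Fermat.Agent.S41.heckeHom_comp_jConj (GoodPrime.not_dvd ℓ) ψ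
  | mul a b ha hb =>
    rw [map_mul, Module.End.mul_apply, Module.End.mul_apply, hb, ha]
  | add a b ha hb =>
    rw [map_add, LinearMap.add_apply, LinearMap.add_apply, ha, hb, map_add]

/-- a word which vanishes on the cusp forms kills the parabolic classes with complex
coefficients (S21) -/
theorem stb_p2_wordOp_par (w : FreeAlgebra ℤ (GoodPrime M p)) (hw : wordForms M p w = 0)
    (v : Additive (Gamma0 M) →+ ℂ) (hv : IsParabolicHom (Gamma0 M) v) :
    wordOp (heckeOp M p) ℂ w v = 0 := by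
  have hmem : v ∈ parabolicHoms ℂ (Gamma0 M) ℂ := hv
  rw [← (Fermat.Agent.S21.result M).2] at hmem
  obtain ⟨⟨f, g⟩, rfl⟩ := hmem
  have hper : ∀ f : CuspForm (Gamma0 M) 2, wordOp (heckeOp M p) ℂ w (periodMap M f) = 0 := by
    intro f
    rw [← period_wordForms, hw, LinearMap.zero_apply]
    exact map_zero (Fermat.Agent.S21.periodMapLinear M)
  rw [Fermat.Agent.S21.periodHomPair_apply, map_add, map_add, map_sub, stb_p2_wordOp_charInv,
    stb_p2_wordOp_charInv, hper f, hper g, map_zero, add_zero, sub_zero, add_zero]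

/-- a word which vanishes on the cusp forms kills the integral parabolic homomorphisms -/
theorem stb_p2_wordOp_int (w : FreeAlgebra ℤ (GoodPrime M p)) (hw : wordForms M p w = 0)
    (φ : Additive (Gamma0 M) →+ ℤ) (hφ : IsParabolicHom (Gamma0 M) φ) :
    wordOp (heckeOp M p) ℤ w φ = 0 := by
  have h1 := wordOp_natural (T := heckeOp M p)
    (fun ℓ A A' _ _ f ψ => heckeOp_natural ℓ A A' f ψ) w ℤ ℂ (Int.castAddHom ℂ) φ
  have h2 : wordOp (heckeOp M p) ℂ w ((Int.castAddHom ℂ).comp φ) = 0 := by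
    apply stb_p2_wordOp_par w hw
    intro γ hγ
    rw [AddMonoidHom.comp_apply, hφ γ hγ, map_zero]
  rw [h2] at h1
  refine AddMonoidHom.ext fun γ => ?_
  have h3 := DFunLike.congr_fun h1 γ
  rw [AddMonoidHom.zero_apply, AddMonoidHom.comp_apply] at h3
  have h4 : (((wordOp (heckeOp M p) ℤ w φ) γ : ℤ) : ℂ) = 0 := h3.symm
  rw [AddMonoidHom.zero_apply]
  exact Int.cast_eq_zero.mp h4

/-! ### (P2) -/

/-- **(P2), word form.** -/
theorem stb_p2_kills_word (hp : p.Prime) (w : FreeAlgebra ℤ (GoodPrime M p))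
    (hw : wordForms M p w = 0) (x : PDiv M p) :
    (letI := pDivModule M p; wordPoly M p w • x) = 0 := by
  letI := pDivModule M p
  have hD := stb_p2_unifData M p hp.pos
  have hm := multData_of_torsionUnifData hp.ne_zero hD
  obtain ⟨n, hn⟩ := isPPowerTorsion_pDiv x
  have hn' : p ^ n • (x : JZero M) = 0 := (pDiv_smul_eq_zero_iff _ x).mp hn
  obtain ⟨φ, hφ, hμ⟩ := stb_p2_range M p hp x.2 hn'
  apply hm.toHom_injective
  rw [map_zero, multiplier_wordPoly_torsion hm.toHom n
    (fun ℓ z _ => by rw [hm.heckeGen_smul]; exact hm.toHom_pDivOp ℓ z) w x hn,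
    hm.toHom_apply, hμ]
  show wordOp (heckeOp M p) (Additive ℂˣ) w ((expHom (p ^ n)).comp φ) = 0
  rw [wordOp_natural (fun ℓ A A' _ _ f ψ => heckeOp_natural ℓ A A' f ψ), stb_p2_wordOp_int w hw φ hφ,
    AddMonoidHom.comp_zero]

/-- **(P2).**  A Hecke polynomial in the good variables which vanishes on `S₂(Γ₀(M))` kills the
`p`-divisible torsion of `J₀(M)(ℚ̄)`. -/
theorem stb_p2_kills (hp : p.Prime) (t : HeckeAlg)
    (ht : t ∈ MvPolynomial.supported ℤ (goodPrimes M p))
    (h0 : CuspForm.heckeEvalForms M 2 t = 0) (x : PDiv M p) :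
    (letI := pDivModule M p; t • x) = 0 := by
  obtain ⟨w, rfl⟩ := exists_word_of_mem_supported ht
  refine stb_p2_kills_word hp w ?_ x
  rw [wordForms_apply, h0]
  rfl

/-- **(P2)**, for the Hecke algebra away from `S`: a polynomial in the variables outside `S`
whose image in `heckeAlgebra M 2 S` is zero kills the `p`-divisible torsion of `J₀(M)(ℚ̄)`. -/
theorem stb_p2_kills_evalS (hp : p.Prime) (S : Set ℕ)
    (hgood : ∀ r : ℕ, r.Prime → r ∉ S → ¬ r ∣ M * p) (t : HeckeAlg)
    (ht : t ∈ MvPolynomial.supported ℤ (Fermat.Agent.S31.outsideVars S))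
    (h0 : Fermat.Agent.S31.evalS M S t = 0) (x : PDiv M p) :
    (letI := pDivModule M p; t • x) = 0 := by
  have hSg : Fermat.Agent.S31.outsideVars S ⊆ goodPrimes M p := fun r hr => hgood r r.2 hr
  have hSg' : ∀ r ∈ Fermat.Agent.S31.outsideVars S, ¬ (r : ℕ) ∣ M ∧ (r : ℕ) ∉ S := fun r hr =>
    ⟨fun h => hgood r r.2 hr (Dvd.dvd.mul_right h p), hr⟩
  refine stb_p2_kills hp t (MvPolynomial.supported_mono hSg ht) ?_ x
  have h1 := Fermat.Agent.S31.coe_evalS_eq hSg' ht
  rw [h0, ZeroMemClass.coe_zero] at h1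
  apply Subtype.ext
  rw [← h1, ZeroMemClass.coe_zero]

end Fermat.Agent.STB

end
end ZBSTB_002_1

/-! ### bundled: `Fermat.Agent.STB.PushPoly` -/
section ZBSTB_002_2

/-!
# STB-P3, polynomial form on the `p`-divisible torsion (helper92)

`PDiv M p` is the `p`-divisible part of the `p`-power torsion of `J₀(M)(ℚ̄)` with the Hecke module
structure `pDivModule M p` (`ES/TopFaith.lean`).  Level `M₁ * q`, `q ∤ M₁` prime, `p` prime.

* `stb_tfEval_comm_of_comm` : generic — an additive map `f : J → J'` which intertwines two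
  commuting families `T`, `T'` for the variables in `G` intertwines all Hecke polynomials supported
  in `G`;
* `stbPushAlphaP`, `stbPushBetaP : PDiv (M₁ * q) p →+ PDiv M₁ p` : the restrictions of `α_*`, `β_*`;
* `stb_p3_poly_alpha`, `stb_p3_poly_beta` : `α_* (t • x) = t • α_* x` for
  `t ∈ supported ℤ (goodPrimes (M₁ * q) p)`;
* `stb_p3_new` : **(P2) + (P3)**: if `t` (supported in the good primes of level `M₁ q`) vanishes
  on `S₂(Γ₀(M₁))` then `t • x` lies in the `q`-new part `stbNew M₁ q` for every `x : PDiv (M₁ q) p`.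
-/

set_option autoImplicit false
set_option linter.style.haveILetI false
set_option linter.unusedSectionVars false

noncomputable section

namespace Fermat.Agent.STB

open AlgebraicCurve ModularCurve Fermat.Agent.ES

section Generic

variable {J J' : Type} [AddCommGroup J] [AddCommGroup J']

/-- an additive map intertwining two commuting families for the variables in `G` intertwines all
Hecke polynomials supported in `G` -/
theorem stb_tfEval_comm_of_comm {T : Nat.Primes → Module.End ℤ J}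
    {T' : Nat.Primes → Module.End ℤ J'} (h : TfComm T) (h' : TfComm T') (f : J →+ J')
    (G : Set Nat.Primes) (hf : ∀ ℓ ∈ G, ∀ x : J, f (T ℓ x) = T' ℓ (f x))
    (t : HeckeAlg) (ht : t ∈ MvPolynomial.supported ℤ G) (x : J) :
    f (tfEval h t x) = tfEval h' t (f x) := by
  rw [MvPolynomial.supported_eq_adjoin_X] at ht
  induction ht using Algebra.adjoin_induction generalizing x with
  | mem t ht =>
    obtain ⟨ℓ, hℓ, rfl⟩ := ht
    rw [tfEval_X, tfEval_X]
    exact hf ℓ hℓ x
  | algebraMap r =>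
    rw [MvPolynomial.algebraMap_eq, tfEval_C, tfEval_C, Module.End.intCast_apply,
      Module.End.intCast_apply]
    exact map_zsmul f r x
  | add s t _ _ hs ht =>
    rw [map_add, map_add, LinearMap.add_apply, LinearMap.add_apply, map_add, hs, ht]
  | mul s t _ _ hs ht =>
    rw [map_mul, map_mul, Module.End.mul_apply, Module.End.mul_apply, hs, ht]

end Generic

section PDiv

variable (M₁ q p : ℕ) [NeZero M₁] [NeZero q]

/-- restriction of an additive map `J₀(M) → J₀(M')` to the `p`-divisible torsion -/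
def stbRestrictP {M M' : ℕ} (f : JZero M →+ JZero M') : PDiv M p →+ PDiv M' p where
  toFun x := ⟨f x, ⟨x.2.1.map f, x.2.2.map f⟩⟩
  map_zero' := Subtype.ext (map_zero f)
  map_add' _ _ := Subtype.ext (map_add f _ _)

theorem stbRestrictP_coe {M M' : ℕ} (f : JZero M →+ JZero M') (x : PDiv M p) :
    ((stbRestrictP p f x : PDiv M' p) : JZero M') = f x := rfl

/-- `α_*` on the `p`-divisible torsion -/
def stbPushAlphaP : PDiv (M₁ * q) p →+ PDiv M₁ p := stbRestrictP p (stbPushAlpha M₁ q)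

/-- `β_*` on the `p`-divisible torsion -/
def stbPushBetaP : PDiv (M₁ * q) p →+ PDiv M₁ p := stbRestrictP p (stbPushBeta M₁ q)

theorem stbPushAlphaP_coe (x : PDiv (M₁ * q) p) :
    ((stbPushAlphaP M₁ q p x : PDiv M₁ p) : JZero M₁) = stbPushAlpha M₁ q x := rfl

theorem stbPushBetaP_coe (x : PDiv (M₁ * q) p) :
    ((stbPushBetaP M₁ q p x : PDiv M₁ p) : JZero M₁) = stbPushBeta M₁ q x := rfl

variable {M₁ q p}

theorem stb_good_of_good {ℓ : Nat.Primes} (hℓ : ℓ ∈ goodPrimes (M₁ * q) p) :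
    ¬ (ℓ : ℕ) ∣ M₁ * p := by
  intro h
  apply hℓ
  rcases (Nat.Prime.dvd_mul ℓ.2).1 h with h1 | h1
  · exact (h1.mul_right q).mul_right p
  · exact h1.mul_left (M₁ * q)

theorem stb_not_dvd_of_good {ℓ : Nat.Primes} (hℓ : ℓ ∈ goodPrimes (M₁ * q) p) :
    ¬ (ℓ : ℕ) ∣ M₁ * q := fun h => hℓ (h.mul_right p)

/-- `α_*` intertwines the operators `T_ℓ` on the `p`-divisible torsion, `ℓ` good -/
theorem stb_p3_pDivOp_alpha (hp : p.Prime) (hq : q.Prime) (hqM₁ : ¬ q ∣ M₁) {ℓ : Nat.Primes}
    (hℓ : ℓ ∈ goodPrimes (M₁ * q) p) (x : PDiv (M₁ * q) p) :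
    stbPushAlphaP M₁ q p (pDivOp (M₁ * q) p ℓ x) = pDivOp M₁ p ℓ (stbPushAlphaP M₁ q p x) := by
  apply Subtype.ext
  obtain ⟨n, hn⟩ := x.2.1
  rw [stbPushAlphaP_coe, pDivOp_of_good hℓ, pDivOp_of_good (stb_good_of_good hℓ),
    stbPushAlphaP_coe]
  exact stb_p3_alpha M₁ q hq hqM₁ ℓ (stb_not_dvd_of_good hℓ) (pow_ne_zero n hp.ne_zero)
    (x : JZero (M₁ * q)) hn

/-- `β_*` intertwines the operators `T_ℓ` on the `p`-divisible torsion, `ℓ` good -/
theorem stb_p3_pDivOp_beta (hp : p.Prime) (hq : q.Prime) (hqM₁ : ¬ q ∣ M₁) {ℓ : Nat.Primes}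
    (hℓ : ℓ ∈ goodPrimes (M₁ * q) p) (x : PDiv (M₁ * q) p) :
    stbPushBetaP M₁ q p (pDivOp (M₁ * q) p ℓ x) = pDivOp M₁ p ℓ (stbPushBetaP M₁ q p x) := by
  apply Subtype.ext
  obtain ⟨n, hn⟩ := x.2.1
  rw [stbPushBetaP_coe, pDivOp_of_good hℓ, pDivOp_of_good (stb_good_of_good hℓ),
    stbPushBetaP_coe]
  exact stb_p3_beta M₁ q hq hqM₁ ℓ (stb_not_dvd_of_good hℓ) (pow_ne_zero n hp.ne_zero)
    (x : JZero (M₁ * q)) hn

/-- the Hecke operators commute on `PDiv M p` -/
theorem stb_tfComm (M : ℕ) [NeZero M] (hp : p.Prime) : TfComm (pDivOp M p) :=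
  (multData_of_torsionUnifData hp.ne_zero (stb_p2_unifData M p hp.pos)).tfComm

/-- the Hecke module structure of `PDiv M p` is the evaluation at the `pDivOp` -/
theorem stb_pDiv_smul_def (M : ℕ) [NeZero M] (hp : p.Prime) (t : HeckeAlg) (x : PDiv M p) :
    (letI := pDivModule M p; t • x) = tfEval (stb_tfComm M hp) t x :=
  tfModule_smul_def (stb_tfComm M hp) t x

/-- **(P3), polynomial form, `α`** -/
theorem stb_p3_poly_alpha (hp : p.Prime) (hq : q.Prime) (hqM₁ : ¬ q ∣ M₁) (t : HeckeAlg)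
    (ht : t ∈ MvPolynomial.supported ℤ (goodPrimes (M₁ * q) p)) (x : PDiv (M₁ * q) p) :
    stbPushAlphaP M₁ q p (letI := pDivModule (M₁ * q) p; t • x) =
      (letI := pDivModule M₁ p; t • stbPushAlphaP M₁ q p x) := by
  rw [stb_pDiv_smul_def (M₁ * q) hp, stb_pDiv_smul_def M₁ hp]
  exact stb_tfEval_comm_of_comm _ _ (stbPushAlphaP M₁ q p) (goodPrimes (M₁ * q) p)
    (fun ℓ hℓ y => stb_p3_pDivOp_alpha hp hq hqM₁ hℓ y) t ht x

/-- **(P3), polynomial form, `β`** -/
theorem stb_p3_poly_beta (hp : p.Prime) (hq : q.Prime) (hqM₁ : ¬ q ∣ M₁) (t : HeckeAlg)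
    (ht : t ∈ MvPolynomial.supported ℤ (goodPrimes (M₁ * q) p)) (x : PDiv (M₁ * q) p) :
    stbPushBetaP M₁ q p (letI := pDivModule (M₁ * q) p; t • x) =
      (letI := pDivModule M₁ p; t • stbPushBetaP M₁ q p x) := by
  rw [stb_pDiv_smul_def (M₁ * q) hp, stb_pDiv_smul_def M₁ hp]
  exact stb_tfEval_comm_of_comm _ _ (stbPushBetaP M₁ q p) (goodPrimes (M₁ * q) p)
    (fun ℓ hℓ y => stb_p3_pDivOp_beta hp hq hqM₁ hℓ y) t ht x

/-- **(P2) + (P3)**: a Hecke polynomial in the good variables of level `M₁ q` which kills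
`PDiv M₁ p` maps `PDiv (M₁ q) p` into the `q`-new part. -/
theorem stb_p3_new_of_kills (hp : p.Prime) (hq : q.Prime) (hqM₁ : ¬ q ∣ M₁) (t : HeckeAlg)
    (ht : t ∈ MvPolynomial.supported ℤ (goodPrimes (M₁ * q) p))
    (hkill : ∀ y : PDiv M₁ p, (letI := pDivModule M₁ p; t • y) = 0) (x : PDiv (M₁ * q) p) :
    (((letI := pDivModule (M₁ * q) p; t • x) : PDiv (M₁ * q) p) : JZero (M₁ * q)) ∈
      stbNew M₁ q := by
  rw [mem_stbNew]
  constructor
  · have h := stb_p3_poly_alpha hp hq hqM₁ t ht x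
    rw [hkill] at h
    have h2 := congrArg (fun y : PDiv M₁ p => (y : JZero M₁)) h
    exact h2
  · have h := stb_p3_poly_beta hp hq hqM₁ t ht x
    rw [hkill] at h
    have h2 := congrArg (fun y : PDiv M₁ p => (y : JZero M₁)) h
    exact h2

/-- **(P2) + (P3)**: a Hecke polynomial in the good variables of level `M₁ q` which vanishes on
`S₂(Γ₀(M₁))` maps `PDiv (M₁ q) p` into the `q`-new part `stbNew M₁ q`. -/
theorem stb_p3_new (hp : p.Prime) (hq : q.Prime) (hqM₁ : ¬ q ∣ M₁) (t : HeckeAlg)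
    (ht : t ∈ MvPolynomial.supported ℤ (goodPrimes (M₁ * q) p))
    (h0 : CuspForm.heckeEvalForms M₁ 2 t = 0) (x : PDiv (M₁ * q) p) :
    (((letI := pDivModule (M₁ * q) p; t • x) : PDiv (M₁ * q) p) : JZero (M₁ * q)) ∈
      stbNew M₁ q := by
  refine stb_p3_new_of_kills hp hq hqM₁ t ht (fun y => ?_) x
  refine stb_p2_kills hp t (MvPolynomial.supported_mono ?_ ht) h0 y
  intro ℓ hℓ
  exact stb_good_of_good hℓ

end PDiv

end Fermat.Agent.STB

end
end ZBSTB_002_2

/-! ### bundled: `Fermat.Agent.R38.PlanTres` -/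
section ZBSTB_002_3
/-
ROW 38, piece PKG-TRES (`StmtTresP`, `R38/PkgFrame.lean`) — INTERFACE of the captain (helper44).
Plan, proofs and piece table: NOTES/R38-TRES.md.  Definitions and statements only.

TRES is the WILD TWIN (`q = p`) of Mazur's principle (`RIB/MP/Plan.lean`, helper2), and uses its
vocabulary: `TrivInf`, `RedInf`, `eisKill` (namespace `Fermat.Agent.RIB.MP`).

Setting: `N = M p`, `p ∤ M`, `p ≥ 5`, `A ⊂ ℚ̄` a valuation ring over `p`, `I` its inertia group,
`H = peuSubgroup A p ⊂ I` (fixed field `K₁(U^{1/p})`, `K = ℚ̄^I`, `K₁ = K(ζ_p)`, `U` = units of `K`),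
`x ∈ J₀(N)[p]` fixed by `H`, killed by `α_*`, `β_*`, and moved by `I` along ONE line `ℤ z₀`.

* `StmtTresRed` (THE WALL): the reduction at `v_∞` of `T_ℓ x − (ℓ + 1) x` is the reduction of a
                class of `J₀(M)[p]`.   [T5 (MONO) + T4 (EIS) = (FAC-p): `div ū ∈ p Div(k(C))`, on
                the split cover `F_N(w₀^{1/p})`;  T3 (HOL) = (SURJ-p) + bridge]
* (TRES-HK)     `RedInf` is stable under `T_ℓ'`: DONE, `RIB.MP.ribmp_hk_redInf` (any residue
                characteristic).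
* (OLD)         DONE: `r38pkg_oldF` (`R38/PkgFrame.lean`);  `J₀(M)[p] ⊂ PDiv M p` is
                `RIB.MP.StmtTorsDivMP` (helper15, `p ≥ 5`).
* `StmtTresT0`  `TrivInf` and `α_* x = 0 = β_* x`  ⇒  inertia acts on `x` through `ω`
                [`S33.stmtNewSplit` (C3, landed) + S33 C4 (`S33.StmtWildKummer`)].
* `StmtTresP5`  the concrete clause for `PDiv (M p) p`, `p ≥ 5`, with the line hypothesis
                (what the glue of row 38 consumes);
* `StmtTresTriv` the middle statement: under the hypotheses of `StmtTresP5`, `TrivInf A p x`;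
  `stmtTresTriv_of_red : StmtTresRed → StmtTorsDivMP → StmtTresTriv` and
  `stmtTresP5_of_triv : StmtTresTriv → StmtTresT0 → StmtTresP5` are in `R38/TresAlg.lean`.
* `StmtTresP5Of` (TRES-ALG, helper44): `StmtTresRed → StmtTresT0 → StmtTorsDivMP → StmtTresP5`.
-/

set_option autoImplicit false
set_option linter.style.haveILetI false

noncomputable section

namespace Fermat.Agent.R38

open ModularCurve AlgebraicCurve Fermat.Agent.ES Fermat.Agent.ES.G2 Fermat.Agent.STB
  Fermat.Agent.RIB.MP ExtCitation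

/-! ### Definitions -/

/-- `x` is fixed by the peu ramifié subgroup of the inertia group of `A`. -/
def PeuFixed {N : ℕ} (A : ValuationSubring Qb) (p : ℕ) (x : JZero N) : Prop :=
  ∀ σ ∈ peuSubgroup A p, σ • x = x

/-- The inertia group of `A` moves `x` along one line: `σ x − x ∈ ℤ z₀` for all `σ ∈ I`. -/
def InertiaLine {N : ℕ} (A : ValuationSubring Qb) (x : JZero N) : Prop :=
  ∃ z₀ : JZero N, ∀ σ ∈ A.inertiaSubgroupIn ℚ, ∃ k : ℤ, σ • x - x = k • z₀

/-! ### The geometric pieces -/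

/-- **TRES-RED** (the wall).  For `x ∈ J₀(M p)[p]`, new, fixed by the peu ramifié subgroup and
moved by inertia along one line, the reduction of `T_ℓ x − (ℓ + 1) x` at `v_∞` is the reduction
of a class of `J₀(M)[p]`. -/
def StmtTresRed : Prop :=
  ∀ (M p : ℕ) [NeZero M] [NeZero p] [NeZero (M * p)] (_ : p.Prime) (_ : ¬ p ∣ M), 5 ≤ p →
    ∀ A : ValuationSubring Qb, A.LiesOverPrime p →
    ∀ x : JZero (M * p), p • x = 0 → stbPushAlpha M p x = 0 → stbPushBeta M p x = 0 →
      PeuFixed A p x → InertiaLine A x →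
    ∀ ℓ : Nat.Primes, ¬ (ℓ : ℕ) ∣ M * p * p →
      ∃ y : JZero M, p • y = 0 ∧ RedInf A p (eisKill ℓ x) y

/-- **TRES-T0.**  A new class of `J₀(M p)[p]` which is trivial at `v_∞` is toric: the inertia
group acts on it through the cyclotomic character. -/
def StmtTresT0 : Prop :=
  ∀ (M p : ℕ) [NeZero M] [NeZero p] [NeZero (M * p)] [Fact p.Prime], p ≠ 2 → ¬ p ∣ M →
    ∀ A : ValuationSubring Qb, A.LiesOverPrime p →
    ∀ x : JZero (M * p), p • x = 0 → stbPushAlpha M p x = 0 → stbPushBeta M p x = 0 →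
      TrivInf A p x →
      ∀ τ ∈ A.inertiaSubgroupIn ℚ, τ • x = cycloExp p τ • x

/-! ### The algebra -/

/-- **TRÈS, concrete form for `p ≥ 5` with the line hypothesis** (consumed by the glue of
row 38, `R38/Glue5.lean`).  It is `StmtTresP` (`R38/PkgFrame.lean`) with `5 ≤ p` and the line. -/
def StmtTresP5 : Prop :=
  ∀ (M p : ℕ) [NeZero M] [NeZero p] [Fact p.Prime], 5 ≤ p → ¬ p ∣ M →
    letI := pDivGalois (M * p) p
    letI := pDivModule (M * p) p
    ∀ A : ValuationSubring Qb, A.LiesOverPrime p → ∀ x : PDiv (M * p) p, p • x = 0 →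
      stbPushAlphaP M p p x = 0 → stbPushBetaP M p p x = 0 →
      ∀ t₀ ∈ MvPolynomial.supported ℤ (goodPrimes (M * p) p), KillsForms M t₀ →
        ∀ n₀ : ℤ, t₀ • x = n₀ • x → ¬ (p : ℤ) ∣ n₀ →
      ∀ ℓ₁ ∈ goodPrimes (M * p) p, ∀ n₁ : ℤ, heckeGen ℓ₁ • x = n₁ • x →
        ¬ (p : ℤ) ∣ n₁ - ((ℓ₁ : ℕ) + 1) →
      (∀ σ ∈ peuSubgroup A p, σ • x = x) →
      (∃ z₀ : PDiv (M * p) p, ∀ σ ∈ A.inertiaSubgroupIn ℚ, ∃ k : ℤ, σ • x - x = k • z₀) →
      ∀ τ ∈ A.inertiaSubgroupIn ℚ, τ • x = cycloExp p τ • x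

/-- **TRES-TRIV**: under the hypotheses of `StmtTresP5` the class `x` is trivial at `v_∞`
(it has a Gauss-constant Kummer function).  Two routes: (1) `StmtTresRed` + `StmtTorsDivMP`
(`stmtTresTriv_of_red`, `R38/TresAlg.lean`); (2) HOL-dlog (helper83): (FAC-p) + `dlog ū` lies in
the span of the reduced cusp forms, which `t₀` kills. -/
def StmtTresTriv : Prop :=
  ∀ (M p : ℕ) [NeZero M] [NeZero p] [Fact p.Prime], 5 ≤ p → ¬ p ∣ M →
    letI := pDivGalois (M * p) p
    letI := pDivModule (M * p) p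
    ∀ A : ValuationSubring Qb, A.LiesOverPrime p → ∀ x : PDiv (M * p) p, p • x = 0 →
      stbPushAlphaP M p p x = 0 → stbPushBetaP M p p x = 0 →
      ∀ t₀ ∈ MvPolynomial.supported ℤ (goodPrimes (M * p) p), KillsForms M t₀ →
        ∀ n₀ : ℤ, t₀ • x = n₀ • x → ¬ (p : ℤ) ∣ n₀ →
      ∀ ℓ₁ ∈ goodPrimes (M * p) p, ∀ n₁ : ℤ, heckeGen ℓ₁ • x = n₁ • x →
        ¬ (p : ℤ) ∣ n₁ - ((ℓ₁ : ℕ) + 1) →
      (∀ σ ∈ peuSubgroup A p, σ • x = x) →
      (∃ z₀ : PDiv (M * p) p, ∀ σ ∈ A.inertiaSubgroupIn ℚ, ∃ k : ℤ, σ • x - x = k • z₀) →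
      TrivInf A p (x : JZero (M * p))

/-- **TRES-ALG**: the concrete clause from the pieces. -/
def StmtTresP5Of : Prop :=
  StmtTresRed → StmtTresT0 → StmtTorsDivMP → StmtTresP5

end Fermat.Agent.R38

end


end ZBSTB_002_3

/-! ### bundled: `Fermat.Agent.STB.PushGalois` -/
section ZBSTB_002_4

/-!
# S33 v2, piece C2: the degeneracy push-forwards are Galois equivariant (helper92)

`q` a prime, `α = heckeAlphaBar ℚ̄ N q`, `β = heckeBetaBar ℚ̄ N q : F_N → F_{Nq}`,
`α_* = stbPushAlpha N q`, `β_* = stbPushBeta N q : J₀(Nq)(ℚ̄) → J₀(N)(ℚ̄)` (`STB/Stmt.lean`,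
Kummer form `stb_kummerRel_pushAlpha`, `stb_kummerRel_pushBeta` in `STB/PushHecke.lean`).

* `stbPush_smul` : generic — the push-forward along `φ` commutes with semilinear automorphisms
  intertwined by `φ`;
* `stbNorm_smul` : generic — the norm along `φ` commutes with semilinear automorphisms
  intertwined by `φ`;
* `stbPushAlpha_galois`, `stbPushBeta_galois` : `α_* (σ • x) = σ • α_* x`, `σ ∈ G_ℚ`;
* `stbNormAlpha_galois`, `stbNormBeta_galois` : the same for the norms of functions;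
* `stbPushAlphaP_galois`, `stbPushBetaP_galois` : the same on the `p`-divisible torsion
  `PDiv (N q) p → PDiv N p` (action `pDivGalois`);
* `stbPushAlpha_mem_torsion` etc. : `α_*`, `β_*` preserve `n`-torsion.
-/

set_option autoImplicit false
set_option linter.style.haveILetI false
set_option linter.unusedSectionVars false

noncomputable section

namespace Fermat.Agent.STB

open AlgebraicCurve AlgebraicCurve.SemilinearAut ModularCurve Fermat.Agent.ES

section Generic

variable {K F F' : Type*} [Field K] [Field F] [Field F'] [Algebra K F] [Algebra K F']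
  {g : SemilinearAut K F} {g' : SemilinearAut K F'}

/-- the push-forward on `Pic⁰` is equivariant -/
theorem stbPush_smul (φ : F →ₐ[K] F') (hφ : φ.toRingHom.IsIntegral) (hfin : FiniteAlong K φ)
    (hN : NormFormulaAlong K φ hfin) (h : IntertwinesAlong (φ : F →+* F') g g')
    (x : Pic0 K F') :
    stbPush φ hφ hfin hN (g' • x) = g • stbPush φ hφ hfin hN x := by
  obtain ⟨D, rfl⟩ := Pic0.mk_surjective x
  rw [SemilinearAut.pic0_smul_mk, stbPush_mk, stbPush_mk, SemilinearAut.pic0_smul_mk]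
  refine congrArg Pic0.mk (Subtype.ext ?_)
  rw [coe_stbPushDegZero, SemilinearAut.coe_degZeroSMulHom, SemilinearAut.coe_degZeroSMulHom,
    coe_stbPushDegZero]
  exact pushforwardAlong_smul φ hφ h (D : Divisor K F')

/-- the norm along `φ` is equivariant -/
theorem stbNorm_smul (φ : F →+* F') (h : IntertwinesAlong φ g g') (u : F') :
    stbNorm φ (g' • u) = g • stbNorm φ u := by
  letI := φ.toAlgebra
  have he : RingHom.comp (algebraMap F F') ((toRingAut g : F ≃+* F) : F →+* F)
      = RingHom.comp ((toRingAut g' : F' ≃+* F') : F' →+* F') (algebraMap F F') := by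
    ext x
    exact (h x).symm
  have h1 := Algebra.norm_eq_of_equiv_equiv (toRingAut g) (toRingAut g') he u
  show Algebra.norm F (toRingAut g' u) = toRingAut g (Algebra.norm F u)
  rw [h1, RingEquiv.apply_symm_apply]

end Generic

section Modular

variable (N q : ℕ) [NeZero N] [NeZero q]

/-- **`α_*` is Galois equivariant** -/
theorem stbPushAlpha_galois (σ : GQ) (x : JZero (N * q)) :
    stbPushAlpha N q (σ • x) = σ • stbPushAlpha N q x := by
  rw [stbPushAlpha_eq, galois_smul_pic0_def, galois_smul_pic0_def]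
  exact stbPush_smul _ _ _ _ (intertwines_heckeAlphaBar N q σ) x

/-- **`β_*` is Galois equivariant** -/
theorem stbPushBeta_galois (σ : GQ) (x : JZero (N * q)) :
    stbPushBeta N q (σ • x) = σ • stbPushBeta N q x := by
  rw [stbPushBeta_eq, galois_smul_pic0_def, galois_smul_pic0_def]
  exact stbPush_smul _ _ _ _ (intertwines_heckeBetaBar N q σ) x

/-- the norm along `α` is Galois equivariant -/
theorem stbNormAlpha_galois (σ : GQ) (u : modularFunctionFieldBar (N * q)) :
    stbNormAlpha N q (arithmeticGalois (modularFunctionFieldFull (N * q)) σ • u)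
      = arithmeticGalois (modularFunctionFieldFull N) σ • stbNormAlpha N q u := by
  rw [stbNormAlpha_eq, stbNormAlpha_eq]
  exact stbNorm_smul _ (intertwines_heckeAlphaBar N q σ) u

/-- the norm along `β` is Galois equivariant -/
theorem stbNormBeta_galois (σ : GQ) (u : modularFunctionFieldBar (N * q)) :
    stbNormBeta N q (arithmeticGalois (modularFunctionFieldFull (N * q)) σ • u)
      = arithmeticGalois (modularFunctionFieldFull N) σ • stbNormBeta N q u := by
  rw [stbNormBeta_eq, stbNormBeta_eq]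
  exact stbNorm_smul _ (intertwines_heckeBetaBar N q σ) u

/-- `α_*` preserves `n`-torsion -/
theorem stbPushAlpha_nsmul_eq_zero {n : ℕ} {x : JZero (N * q)} (hx : n • x = 0) :
    n • stbPushAlpha N q x = 0 := by
  rw [← map_nsmul, hx, map_zero]

/-- `β_*` preserves `n`-torsion -/
theorem stbPushBeta_nsmul_eq_zero {n : ℕ} {x : JZero (N * q)} (hx : n • x = 0) :
    n • stbPushBeta N q x = 0 := by
  rw [← map_nsmul, hx, map_zero]

variable (p : ℕ)

/-- `α_*` on the `p`-divisible torsion is Galois equivariant -/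
theorem stbPushAlphaP_galois (σ : GQ) (x : PDiv (N * q) p) :
    stbPushAlphaP N q p (letI := pDivGalois (N * q) p; σ • x)
      = (letI := pDivGalois N p; σ • stbPushAlphaP N q p x) := by
  apply Subtype.ext
  rw [stbPushAlphaP_coe, pDivGalois_coe, pDivGalois_coe, stbPushAlphaP_coe]
  exact stbPushAlpha_galois N q σ x

/-- `β_*` on the `p`-divisible torsion is Galois equivariant -/
theorem stbPushBetaP_galois (σ : GQ) (x : PDiv (N * q) p) :
    stbPushBetaP N q p (letI := pDivGalois (N * q) p; σ • x)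
      = (letI := pDivGalois N p; σ • stbPushBetaP N q p x) := by
  apply Subtype.ext
  rw [stbPushBetaP_coe, pDivGalois_coe, pDivGalois_coe, stbPushBetaP_coe]
  exact stbPushBeta_galois N q σ x

end Modular

end Fermat.Agent.STB

end
end ZBSTB_002_4

/-! ### bundled: `Fermat.Agent.R38.TresLine` -/
section ZBSTB_002_5
/-
ROW 38, TRES, piece FAC-LINE (helper44): the normal form of the line.

Hypotheses of `StmtTresRed` / `StmtFacMono`: `x ∈ J₀(M p)[p]`, new, and the inertia group `I` of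
`A ∣ p` moves `x` along ONE line (`InertiaLine A x`: `σ x − x ∈ ℤ z` for all `σ ∈ I`).

* `tresline_kummer`     : `u` a Kummer function of `x` ⇒ `σ u / u` is one of `σ x − x`;
* `tresline_trivInf`    : for `σ ∈ I` the class `σ x − x` is trivial at `v_∞`
                          (`σ u / u` is Gauss-constant: `ES.G2.stmtGCInertia`);
* `tresline_group`      : in a cyclic group the `p`-torsion is generated by any of its nonzero
                          elements;
* `tresline_main`       : EITHER `I` fixes `x` (no cover is needed), OR there is `σ₀ ∈ I` such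
                          that `z₀ := σ₀ x − x ≠ 0` is `p`-torsion, new, trivial at `v_∞`,
                          TORIC (`τ z₀ = ω(τ) z₀` for `τ ∈ I`, by `StmtTresT0`), and
                          `σ x − x ∈ ℤ z₀` for all `σ ∈ I`.
The Kummer function of `z₀` is `w₀ = σ₀ u / u = gcInertiaOp (M p) σ₀ u`; the cover of FAC-MONO is
`F_N(w₀^{1/p})`.
-/

set_option autoImplicit false
set_option linter.style.haveILetI false

noncomputable section

namespace Fermat.Agent.R38

open ModularCurve AlgebraicCurve Fermat.Agent.ES Fermat.Agent.ES.G2 Fermat.Agent.STB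
  Fermat.Agent.RIB.MP ExtCitation

/-! ### Arithmetic -/

/-- `d ∣ p a`, `d ∤ a`, `d ∣ p b` ⇒ `b ∈ (a) + (d)`. -/
theorem tresline_int {d a b : ℤ} {p : ℕ} (hp : p.Prime) (h1 : d ∣ p * a) (h2 : ¬ d ∣ a)
    (h3 : d ∣ p * b) : ∃ c : ℤ, d ∣ b - c * a := by
  have hp0 : (p : ℤ) ≠ 0 := by exact_mod_cast hp.ne_zero
  obtain ⟨d₁, hd₁⟩ : ((Int.gcd d a : ℤ)) ∣ d := Int.gcd_dvd_left d a
  obtain ⟨a₁, ha₁⟩ : ((Int.gcd d a : ℤ)) ∣ a := Int.gcd_dvd_right d a
  set g : ℤ := (Int.gcd d a : ℤ) with hg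
  have hg0 : g ≠ 0 := by
    intro h
    apply h2
    rw [ha₁, h, zero_mul]
    exact dvd_zero d
  -- `g = d s + a t`
  have hbez : g = d * Int.gcdA d a + a * Int.gcdB d a := Int.gcd_eq_gcd_ab d a
  -- `d₁` and `a₁` are coprime
  have hcop : IsCoprime d₁ a₁ := by
    refine ⟨Int.gcdA d a, Int.gcdB d a, ?_⟩
    apply mul_left_cancel₀ hg0
    calc g * (Int.gcdA d a * d₁ + Int.gcdB d a * a₁)
        = (g * d₁) * Int.gcdA d a + (g * a₁) * Int.gcdB d a := by ring
      _ = d * Int.gcdA d a + a * Int.gcdB d a := by rw [← hd₁, ← ha₁]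
      _ = g * 1 := by rw [← hbez, mul_one]
  -- `d₁ ∣ p`
  have hd₁p : d₁ ∣ (p : ℤ) := by
    have h : g * d₁ ∣ g * ((p : ℤ) * a₁) := by
      have e : g * ((p : ℤ) * a₁) = p * a := by rw [ha₁]; ring
      rw [e, ← hd₁]
      exact h1
    exact hcop.dvd_of_dvd_mul_right ((mul_dvd_mul_iff_left hg0).1 h)
  -- `p ∣ d₁`
  have hpd₁ : (p : ℤ) ∣ d₁ := by
    have h := Int.natAbs_dvd_natAbs.2 hd₁p
    rw [Int.natAbs_natCast] at h
    rcases (Nat.dvd_prime hp).1 h with h1' | hp'
    · exfalso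
      apply h2
      have hu : IsUnit d₁ := Int.isUnit_iff_natAbs_eq.2 h1'
      obtain ⟨v, hv⟩ := hu.exists_right_inv
      refine ⟨v * a₁, ?_⟩
      calc a = g * a₁ := ha₁
        _ = g * (d₁ * v) * a₁ := by rw [hv, mul_one]
        _ = d * (v * a₁) := by rw [hd₁]; ring
    · rw [Int.natCast_dvd, hp']
  -- `g ∣ b`
  have hgb : g ∣ b := by
    obtain ⟨e, he⟩ := hpd₁
    have h : (p : ℤ) * g ∣ p * b := by
      refine dvd_trans ⟨e, ?_⟩ h3
      rw [hd₁, he]; ring
    exact (mul_dvd_mul_iff_left hp0).1 h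
  obtain ⟨b₁, hb₁⟩ := hgb
  refine ⟨b₁ * Int.gcdB d a, b₁ * Int.gcdA d a, ?_⟩
  calc b - b₁ * Int.gcdB d a * a = g * b₁ - b₁ * Int.gcdB d a * a := by rw [← hb₁]
    _ = (d * Int.gcdA d a + a * Int.gcdB d a) * b₁ - b₁ * Int.gcdB d a * a := by rw [← hbez]
    _ = d * (b₁ * Int.gcdA d a) := by ring

/-- In a cyclic group the `p`-torsion is generated by any of its nonzero elements. -/
theorem tresline_group {G : Type*} [AddCommGroup G] {p : ℕ} (hp : p.Prime) {z z₀ y : G}
    (hz₀ : z₀ ≠ 0) (hpz₀ : p • z₀ = 0) (hpy : p • y = 0) {a b : ℤ} (ha : z₀ = a • z)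
    (hb : y = b • z) : ∃ c : ℤ, y = c • z₀ := by
  have key : ∀ n : ℤ, ((addOrderOf z : ℕ) : ℤ) ∣ n ↔ n • z = 0 := fun n =>
    addOrderOf_dvd_iff_zsmul_eq_zero
  have h1 : ((addOrderOf z : ℕ) : ℤ) ∣ (p : ℤ) * a := by
    rw [key, mul_smul, ← ha, natCast_zsmul, hpz₀]
  have h2 : ¬ ((addOrderOf z : ℕ) : ℤ) ∣ a := by
    rw [key, ← ha]
    exact hz₀
  have h3 : ((addOrderOf z : ℕ) : ℤ) ∣ (p : ℤ) * b := by
    rw [key, mul_smul, ← hb, natCast_zsmul, hpy]
  obtain ⟨c, hc⟩ := tresline_int hp h1 h2 h3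
  refine ⟨c, ?_⟩
  have h := (key _).1 hc
  rw [sub_smul, mul_smul, ← ha, ← hb] at h
  exact sub_eq_zero.1 h

/-- `σ x − x` is `p`-torsion if `x` is (generic form) -/
theorem tresline_gen_tors {G Γ : Type*} [AddCommGroup G] [Monoid Γ] [DistribMulAction Γ G]
    (p : ℕ) (σ : Γ) {x : G} (hx : p • x = 0) : p • (σ • x - x) = 0 := by
  have h := map_nsmul (DistribMulAction.toAddMonoidHom G σ) p x
  simp only [DistribMulAction.toAddMonoidHom_apply] at h
  rw [nsmul_sub, hx, sub_zero, ← h, hx, smul_zero]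

/-- `σ x − x` is killed by an equivariant map which kills `x` (generic form) -/
theorem tresline_gen_new {G H Γ : Type*} [AddCommGroup G] [AddCommGroup H] [Monoid Γ]
    [DistribMulAction Γ G] [DistribMulAction Γ H] (f : G →+ H)
    (hf : ∀ (σ : Γ) (x : G), f (σ • x) = σ • f x) (σ : Γ) {x : G} (hx : f x = 0) :
    f (σ • x - x) = 0 := by
  rw [map_sub, hf, hx, smul_zero, sub_zero]

/-! ### The classes `σ x − x` -/

section Line

variable {N : ℕ} [NeZero N]

/-- `σ u / u` is a Kummer function of `σ x − x`. -/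
theorem tresline_kummer {n : ℕ} {x : JZero N} {u : modularFunctionFieldBar N}
    (hu : KummerRel n x u) (σ : GQ) : KummerRel n (σ • x - x) (gcInertiaOp N σ u) :=
  (KummerRel.galois σ hu).sub hu

/-- For `σ` in the inertia group of `A`, `σ u / u` is Gauss-constant. -/
theorem tresline_gaussConst {ℓ : ℕ} (hℓ : ℓ.Prime) {A : ValuationSubring Qb}
    (hA : A.LiesOverPrime ℓ) {σ : GQ} (hσ : σ ∈ A.inertiaSubgroupIn ℚ)
    {u : modularFunctionFieldBar N} (hu : u ≠ 0) : GaussConst A N (gcInertiaOp N σ u) :=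
  stmtGCInertia stmtPrim N ℓ hℓ A hA σ hσ u hu

end Line

section Main

variable (M p : ℕ) [NeZero M] [NeZero p] [NeZero (M * p)]

/-- For `σ` in the inertia group the class `σ x − x` is trivial at `v_∞`. -/
theorem tresline_trivInf (hp : p.Prime) {A : ValuationSubring Qb} (hA : A.LiesOverPrime p)
    {x : JZero (M * p)} (hx : p • x = 0) {σ : GQ} (hσ : σ ∈ A.inertiaSubgroupIn ℚ) :
    TrivInf A p (σ • x - x) := by
  obtain ⟨u, hu⟩ := exists_kummerRel (n := p) hx
  exact ⟨gcInertiaOp (M * p) σ u, tresline_kummer hu σ, tresline_gaussConst hp hA hσ hu.ne_zero⟩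

/-- **FAC-LINE.**  Either the inertia group fixes `x`, or the line is spanned by a nonzero TORIC
class `z₀ = σ₀ x − x`. -/
theorem tresline_main [Fact p.Prime] (hT0 : StmtTresT0) (hp2 : p ≠ 2) (hpM : ¬ p ∣ M)
    (A : ValuationSubring Qb) (hA : A.LiesOverPrime p) (x : JZero (M * p)) (hx : p • x = 0)
    (hα : stbPushAlpha M p x = 0) (hβ : stbPushBeta M p x = 0) (hline : InertiaLine A x) :
    (∀ σ ∈ A.inertiaSubgroupIn ℚ, σ • x = x) ∨
      ∃ σ₀ ∈ A.inertiaSubgroupIn ℚ, σ₀ • x - x ≠ 0 ∧ p • (σ₀ • x - x) = 0 ∧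
        stbPushAlpha M p (σ₀ • x - x) = 0 ∧ stbPushBeta M p (σ₀ • x - x) = 0 ∧
        TrivInf A p (σ₀ • x - x) ∧
        (∀ τ ∈ A.inertiaSubgroupIn ℚ, τ • (σ₀ • x - x) = cycloExp p τ • (σ₀ • x - x)) ∧
        ∀ σ ∈ A.inertiaSubgroupIn ℚ, ∃ k : ℤ, σ • x - x = k • (σ₀ • x - x) := by
  have hp : p.Prime := Fact.out
  by_cases hfix : ∀ σ ∈ A.inertiaSubgroupIn ℚ, σ • x = x
  · exact Or.inl hfix
  right
  push Not at hfix
  obtain ⟨σ₀, hσ₀, hne⟩ := hfix
  have hptors : ∀ σ : GQ, p • (σ • x - x) = 0 := by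
    intro σ
    exact tresline_gen_tors p σ hx
  have hnewα : ∀ σ : GQ, stbPushAlpha M p (σ • x - x) = 0 := by
    intro σ
    exact tresline_gen_new (stbPushAlpha M p) (stbPushAlpha_galois M p) σ hα
  have hnewβ : ∀ σ : GQ, stbPushBeta M p (σ • x - x) = 0 := by
    intro σ
    exact tresline_gen_new (stbPushBeta M p) (stbPushBeta_galois M p) σ hβ
  have hz₀ : σ₀ • x - x ≠ 0 := fun h => hne (sub_eq_zero.1 h)
  have htriv : TrivInf A p (σ₀ • x - x) := tresline_trivInf M p hp hA hx hσ₀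
  refine ⟨σ₀, hσ₀, hz₀, hptors σ₀, hnewα σ₀, hnewβ σ₀, htriv, ?_, ?_⟩
  · exact hT0 M p hp2 hpM A hA (σ₀ • x - x) (hptors σ₀) (hnewα σ₀) (hnewβ σ₀) htriv
  · obtain ⟨z, hz⟩ := hline
    obtain ⟨a, ha⟩ := hz σ₀ hσ₀
    intro σ hσ
    obtain ⟨b, hb⟩ := hz σ hσ
    exact tresline_group hp hz₀ (hptors σ₀) (hptors σ) ha hb

end Main

end Fermat.Agent.R38

end


end ZBSTB_002_5
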