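/- GENERATED FILE (helper35, build-time optimisation, NOTES/ZB.md): verbatim concatenation of the modules
   Fermat.Agent.S49.Recursive
   Fermat.Agent.S49.Normalize
   Fermat.Agent.R38.PkgForms
   Do not edit; do not import together with these modules. -/
import Mathlib
import Fermat.Prelude.Def_FormalHecke_Eigensystem
import Fermat.Agent.ZB.STB_002
import Fermat.Agent.ZB.S49_001
import Fermat.Agent.ZB.ES_001
import Fermat.Agent.ZB.PET_002
import Fermat.Agent.ZB.Cheb_001
import Fermat.Agent.ZB.S49_002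

/-! ### bundled: `Fermat.Agent.S49.Recursive` -/
section ZBS49_003_0

/-!
# A formal Hecke eigensystem is recursive (multiplicative + prime-power recursion)

Pure induction; requested by helper49 for S49.
-/

set_option autoImplicit false

namespace Fermat.Agent.S49

variable {R : Type*} [CommRing R]

/-- The Hecke relation at a prime `ℓ`, solved for `a (ℓ * n)`. -/
theorem eigensystem_mul_prime {e a : ℕ → R} (h : FormalHecke.IsEigensystem e a)
    {ℓ : ℕ} (hℓ : ℓ.Prime) (n : ℕ) :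
    a (ℓ * n) = a ℓ * a n - e ℓ * (if ℓ ∣ n then a (n / ℓ) else 0) :=
  eq_sub_of_add_eq (h.2 ℓ hℓ n)

/-- Multiplicativity on coprime arguments of a formal Hecke eigensystem. -/
theorem eigensystem_mul_of_coprime {e a : ℕ → R} (h : FormalHecke.IsEigensystem e a) :
    ∀ m n : ℕ, m.Coprime n → a (m * n) = a m * a n := by
  intro m
  induction m using Nat.strong_induction_on with
  | _ m ih =>
    intro n hmn
    rcases Nat.lt_or_ge m 2 with hm | hm
    · -- m = 0 or m = 1
      interval_cases m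
      · have hn : n = 1 := by simpa using hmn
        subst hn
        simp [h.1]
      · simp [h.1]
    · -- m ≥ 2: peel off a prime factor
      obtain ⟨ℓ, hℓ, hℓm⟩ := Nat.exists_prime_and_dvd (n := m) (by omega)
      obtain ⟨m', rfl⟩ := hℓm
      have hm'pos : 0 < m' := by
        rcases Nat.eq_zero_or_pos m' with h0 | h0
        · subst h0; simp at hm
        · exact h0
      have hm'lt : m' < ℓ * m' := by
        have := hℓ.two_le
        nlinarith
      have hcop' : m'.Coprime n := Nat.Coprime.coprime_dvd_left (Dvd.intro_left ℓ rfl) hmn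
      have hℓn : ¬ ℓ ∣ n := by
        intro hdvd
        have hℓcop : ℓ.Coprime n := Nat.Coprime.coprime_dvd_left (Dvd.intro m' rfl) hmn
        have := Nat.Coprime.eq_one_of_dvd hℓcop hdvd
        exact hℓ.one_lt.ne' this
      have h1 : a (ℓ * m' * n) =
          a ℓ * a (m' * n) - e ℓ * (if ℓ ∣ m' * n then a (m' * n / ℓ) else 0) := by
        rw [mul_assoc]; exact eigensystem_mul_prime h hℓ (m' * n)
      have h2 : a (ℓ * m') = a ℓ * a m' - e ℓ * (if ℓ ∣ m' then a (m' / ℓ) else 0) :=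
        eigensystem_mul_prime h hℓ m'
      have h3 : a (m' * n) = a m' * a n := ih m' hm'lt n hcop'
      by_cases hℓm' : ℓ ∣ m'
      · have hdvd : ℓ ∣ m' * n := Dvd.dvd.mul_right hℓm' n
        obtain ⟨k, rfl⟩ := hℓm'
        have hkpos : 0 < k := by
          rcases Nat.eq_zero_or_pos k with h0 | h0
          · subst h0; simp at hm'pos
          · exact h0
        have hklt : k < ℓ * (ℓ * k) := by
          have := hℓ.two_le
          nlinarith
        have hkcop : k.Coprime n := Nat.Coprime.coprime_dvd_left (Dvd.intro_left ℓ rfl) hcop'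
        have h4 : a (k * n) = a k * a n := ih k hklt n hkcop
        have e1 : ℓ * k * n / ℓ = k * n := by
          rw [mul_assoc]; exact Nat.mul_div_cancel_left _ hℓ.pos
        have e2 : ℓ * k / ℓ = k := Nat.mul_div_cancel_left _ hℓ.pos
        rw [h1, h2, h3, if_pos hdvd, if_pos (Dvd.intro k rfl), e1, e2, h4]
        ring
      · have hndvd : ¬ ℓ ∣ m' * n := by
          intro hd
          rcases (Nat.Prime.dvd_mul hℓ).mp hd with hd | hd
          · exact hℓm' hd
          · exact hℓn hd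
        rw [h1, h2, h3, if_neg hndvd, if_neg hℓm']
        ring

/-- The prime-power recursion of a formal Hecke eigensystem. -/
theorem eigensystem_prime_pow {e a : ℕ → R} (h : FormalHecke.IsEigensystem e a)
    (ℓ r : ℕ) (hℓ : ℓ.Prime) :
    a (ℓ ^ (r + 2)) = a ℓ * a (ℓ ^ (r + 1)) - e ℓ * a (ℓ ^ r) := by
  have h1 := eigensystem_mul_prime h hℓ (ℓ ^ (r + 1))
  have hdvd : ℓ ∣ ℓ ^ (r + 1) := dvd_pow_self ℓ (Nat.succ_ne_zero r)
  have hdiv : ℓ ^ (r + 1) / ℓ = ℓ ^ r := by
    rw [pow_succ]; exact Nat.mul_div_cancel _ hℓ.pos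
  rw [if_pos hdvd, hdiv] at h1
  have hpow : ℓ ^ (r + 2) = ℓ * ℓ ^ (r + 1) := by ring
  rw [hpow]; exact h1

/-- **A formal Hecke eigensystem is recursive.** -/
theorem isRecursive_of_isEigensystem {e a : ℕ → R} (h : FormalHecke.IsEigensystem e a) :
    FormalHecke.IsRecursive e a :=
  ⟨h.1, eigensystem_mul_of_coprime h, fun ℓ r hℓ => eigensystem_prime_pow h ℓ r hℓ⟩

end Fermat.Agent.S49


end ZBS49_003_0

/-! ### bundled: `Fermat.Agent.S49.Normalize` -/
section ZBS49_003_1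

/-!
# S49 helper: a common Hecke eigenvector can be normalised to a normalised eigenform.
-/

set_option autoImplicit false

noncomputable section

namespace Fermat.Agent.S49

open ModularFormClass CongruenceSubgroup UpperHalfPlane

variable {N : ℕ} [NeZero N]

/-- the "character" of weight 2, level `N`, trivial nebentypus -/
def levelChar (N : ℕ) (ℓ : ℕ) : ℂ := if ℓ ∣ N then 0 else (ℓ : ℂ)

/-- eigenvalue function attached to a character of the Hecke algebra -/
def eigenvalueOf (ψ : CuspForm.heckeAlgebra N 2 ∅ →+* ℂ) (ℓ : ℕ) : ℂ :=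
  if hℓ : ℓ.Prime then
    (if hN : ℓ ∣ N then ψ (CuspForm.heckeAlgebra.U hℓ hN (Set.notMem_empty ℓ))
      else ψ (CuspForm.heckeAlgebra.T hℓ hN (Set.notMem_empty ℓ)))
  else 0

theorem eigenvalueOf_of_not_dvd (ψ : CuspForm.heckeAlgebra N 2 ∅ →+* ℂ) {ℓ : ℕ} (hℓ : ℓ.Prime)
    (hN : ¬ ℓ ∣ N) :
    eigenvalueOf ψ ℓ = ψ (CuspForm.heckeAlgebra.T hℓ hN (Set.notMem_empty ℓ)) := by
  simp [eigenvalueOf, hℓ, hN]

/-- The Hecke relation on q-coefficients of a common eigenvector. -/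
theorem qCoeff_relation_of_eigenvector (v : CuspForm (Gamma0 N) 2)
    (ψ : CuspForm.heckeAlgebra N 2 ∅ →+* ℂ)
    (hψ : ∀ t : CuspForm.heckeAlgebra N 2 ∅,
      (t : Module.End ℂ (CuspForm (Gamma0 N) 2)) v = ψ t • v)
    {ℓ : ℕ} (hℓ : ℓ.Prime) (n : ℕ) :
    qCoeff ⇑v (ℓ * n) + levelChar N ℓ * (if ℓ ∣ n then qCoeff ⇑v (n / ℓ) else 0) =
      eigenvalueOf ψ ℓ * qCoeff ⇑v n := by
  by_cases hN : ℓ ∣ N
  · have h1 := hψ (CuspForm.heckeAlgebra.U hℓ hN (Set.notMem_empty ℓ))
    rw [CuspForm.heckeAlgebra.coe_U] at h1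
    have h2 := congrArg (fun f : CuspForm (Gamma0 N) 2 => qCoeff ⇑f n) h1
    simp only [qCoeff_heckeULin hℓ hN, qCoeff_smul] at h2
    simp only [levelChar, eigenvalueOf, hℓ, hN, if_true, dif_pos, zero_mul, add_zero]
    rw [mul_comm ℓ n]
    exact h2
  · have h1 := hψ (CuspForm.heckeAlgebra.T hℓ hN (Set.notMem_empty ℓ))
    rw [CuspForm.heckeAlgebra.coe_T] at h1
    have h2 := congrArg (fun f : CuspForm (Gamma0 N) 2 => qCoeff ⇑f n) h1
    simp only [qCoeff_heckeTLin hℓ hN, qCoeff_smul] at h2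
    simp only [levelChar, eigenvalueOf, hℓ, hN, if_false, dif_pos, dif_neg, not_false_iff]
    rw [mul_comm ℓ n, ← h2]
    congr 1
    split_ifs
    · norm_num
    · simp

theorem qCoeff_one_ne_zero_of_eigenvector (v : CuspForm (Gamma0 N) 2) (hv : v ≠ 0)
    (ψ : CuspForm.heckeAlgebra N 2 ∅ →+* ℂ)
    (hψ : ∀ t : CuspForm.heckeAlgebra N 2 ∅,
      (t : Module.End ℂ (CuspForm (Gamma0 N) 2)) v = ψ t • v) :
    qCoeff ⇑v 1 ≠ 0 := by
  intro h1
  apply hv
  apply eq_zero_of_qCoeff_eq_zero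
  intro n
  induction n using Nat.strong_induction_on with
  | _ n ih =>
    rcases Nat.lt_or_ge n 2 with hn | hn
    · interval_cases n
      · exact qCoeff_zero_cusp v
      · exact h1
    · obtain ⟨ℓ, hℓ, hℓn⟩ := Nat.exists_prime_and_dvd (n := n) (by omega)
      obtain ⟨m, rfl⟩ := hℓn
      have hmpos : 0 < m := by
        rcases Nat.eq_zero_or_pos m with h0 | h0
        · subst h0; simp at hn
        · exact h0
      have hmlt : m < ℓ * m := by
        have := hℓ.two_le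
        nlinarith
      have hrel := qCoeff_relation_of_eigenvector v ψ hψ hℓ m
      rw [ih m hmlt, mul_zero] at hrel
      have hdiv : (if ℓ ∣ m then qCoeff ⇑v (m / ℓ) else 0) = 0 := by
        split_ifs with hd
        · apply ih
          exact lt_of_le_of_lt (Nat.div_le_self m ℓ) hmlt
        · rfl
      rw [hdiv, mul_zero, add_zero] at hrel
      exact hrel

theorem exists_normalized_eigenform (v : CuspForm (Gamma0 N) 2) (hv : v ≠ 0)
    (ψ : CuspForm.heckeAlgebra N 2 ∅ →+* ℂ)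
    (hψ : ∀ t : CuspForm.heckeAlgebra N 2 ∅,
      (t : Module.End ℂ (CuspForm (Gamma0 N) 2)) v = ψ t • v) :
    ∃ f : CuspForm (Gamma0 N) 2, f.IsNormalizedEigenform ∧
      ∀ (ℓ : ℕ) (hℓ : ℓ.Prime) (hℓN : ¬ ℓ ∣ N),
        qCoeff ⇑f ℓ = ψ (CuspForm.heckeAlgebra.T hℓ hℓN (Set.notMem_empty ℓ)) := by
  have hb1 := qCoeff_one_ne_zero_of_eigenvector v hv ψ hψ
  set c : ℂ := (qCoeff ⇑v 1)⁻¹ with hc
  set f : CuspForm (Gamma0 N) 2 := c • v with hf
  have hfψ : ∀ t : CuspForm.heckeAlgebra N 2 ∅,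
      (t : Module.End ℂ (CuspForm (Gamma0 N) 2)) f = ψ t • f := by
    intro t
    rw [hf, map_smul, hψ t, smul_comm]
  have hf1 : qCoeff ⇑f 1 = 1 := by
    rw [hf, qCoeff_smul, hc, inv_mul_cancel₀ hb1]
  have hrel := fun {ℓ : ℕ} (hℓ : ℓ.Prime) (n : ℕ) =>
    qCoeff_relation_of_eigenvector f ψ hfψ hℓ n
  have hlam : ∀ {ℓ : ℕ}, ℓ.Prime → eigenvalueOf ψ ℓ = qCoeff ⇑f ℓ := by
    intro ℓ hℓ
    have := hrel hℓ 1
    rw [mul_one, hf1, mul_one, if_neg (by simpa using hℓ.one_lt.ne'), mul_zero, add_zero] at this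
    exact this.symm
  have heig : FormalHecke.IsEigensystem (levelChar N) (fun n => qCoeff ⇑f n) := by
    refine ⟨hf1, fun ℓ hℓ n => ?_⟩
    have := hrel hℓ n
    rw [hlam hℓ] at this
    exact this
  obtain ⟨-, hmul, hpow⟩ := isRecursive_of_isEigensystem heig
  refine ⟨f, ⟨hf1, hmul, ?_, ?_⟩, ?_⟩
  · intro p r hp hpN
    have := hpow p r hp
    simp only [levelChar, if_neg hpN] at this
    exact this
  · intro p r hp hpN
    have := hpow p r hp
    simp only [levelChar, if_pos hpN, zero_mul, sub_zero] at this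
    exact this
  · intro ℓ hℓ hℓN
    rw [← hlam hℓ, eigenvalueOf_of_not_dvd ψ hℓ hℓN]

end Fermat.Agent.S49

end


end ZBS49_003_1

/-! ### bundled: `Fermat.Agent.R38.PkgForms` -/
section ZBS49_003_2
/-
ROW 38, piece R38-PKG frame, part 1 (helper83): a good Hecke polynomial which vanishes on the
eigen-systems of ALL normalised eigenforms of level `M` vanishes on `S₂(Γ₀(M))`.

`r38pkg_forms_eq_zero : t ∈ ℤ[T_ℓ : ℓ ∈ G] (G ⊆ {ℓ ∤ M}), KillsLevel M t ⇒ heckeEvalForms M 2 t = 0`.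

Proof: the operator `Θ` of `t` lies in the anemic Hecke algebra, which is reduced (PET); if `Θ ≠ 0`
it is not nilpotent, so it is outside some prime of the full Hecke algebra, hence nonzero on some
eigen-character `ψ` (S49 `exists_eigenvector_of_injective`), whose normalised eigenform `f`
(S49 `exists_normalized_eigenform`) has `heckeValue f t = ψ Θ ≠ 0`.
-/

set_option autoImplicit false
set_option linter.style.haveILetI false
set_option linter.unusedSectionVars false

noncomputable section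

namespace Fermat.Agent.R38

open ModularCurve Fermat.Agent.ES ModularFormClass CongruenceSubgroup

variable {M : ℕ} [NeZero M]

/-- two ring homomorphisms out of the Hecke polynomial ring which agree on the variables in `G`
agree on the polynomials supported in `G` -/
theorem r38pkg_hom_eq_of_supported {R : Type*} [CommRing R] (f g : HeckeAlg →+* R)
    (G : Set Nat.Primes) (h : ∀ ℓ ∈ G, f (MvPolynomial.X ℓ) = g (MvPolynomial.X ℓ))
    {t : HeckeAlg} (ht : t ∈ MvPolynomial.supported ℤ G) : f t = g t := by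
  rw [MvPolynomial.supported_eq_adjoin_X] at ht
  induction ht using Algebra.adjoin_induction with
  | mem t ht =>
    obtain ⟨ℓ, hℓ, rfl⟩ := ht
    exact h ℓ hℓ
  | algebraMap r =>
    rw [eq_intCast, map_intCast, map_intCast]
  | add s t _ _ hs ht => rw [map_add, map_add, hs, ht]
  | mul s t _ _ hs ht => rw [map_mul, map_mul, hs, ht]

/-- the value on an eigenform, as a ring homomorphism -/
def r38pkgValueHom (f : CuspForm (Gamma0 M) 2) : HeckeAlg →+* ℂ :=
  (MvPolynomial.aeval (fun ℓ : Nat.Primes => qCoeff f ℓ) : HeckeAlg →ₐ[ℤ] ℂ).toRingHom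

theorem r38pkgValueHom_apply (f : CuspForm (Gamma0 M) 2) (t : HeckeAlg) :
    r38pkgValueHom f t = heckeValue f t := rfl

theorem r38pkgValueHom_X (f : CuspForm (Gamma0 M) 2) (ℓ : Nat.Primes) :
    r38pkgValueHom f (MvPolynomial.X ℓ) = qCoeff f ℓ :=
  MvPolynomial.aeval_X _ ℓ

/-- the value of a good Hecke polynomial on the normalised eigenform of an eigen-character -/
theorem r38pkg_value_eq (G : Set Nat.Primes) (hG : ∀ ℓ ∈ G, ¬ (ℓ : ℕ) ∣ M) (t : HeckeAlg)
    (ht : t ∈ MvPolynomial.supported ℤ G) (f : CuspForm (Gamma0 M) 2)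
    (ψ : CuspForm.heckeAlgebra M 2 ∅ →+* ℂ)
    (hfℓ : ∀ (ℓ : ℕ) (hℓ : ℓ.Prime) (hℓN : ¬ ℓ ∣ M),
      qCoeff ⇑f ℓ = ψ (CuspForm.heckeAlgebra.T hℓ hℓN (Set.notMem_empty ℓ))) :
    heckeValue f t = ψ (CuspForm.heckeEvalForms M 2 t) := by
  rw [← r38pkgValueHom_apply]
  refine r38pkg_hom_eq_of_supported (r38pkgValueHom f) (ψ.comp (CuspForm.heckeEvalForms M 2)) G
    (fun ℓ hℓ => ?_) ht
  rw [r38pkgValueHom_X, RingHom.comp_apply, hfℓ ℓ ℓ.2 (hG ℓ hℓ)]
  congr 1
  exact (CuspForm.heckeEvalForms_heckeGen_of_not_dvd (hG ℓ hℓ)).symm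

/-- the operator of a good Hecke polynomial is not nilpotent unless it is zero -/
theorem r38pkg_not_nilpotent (G : Set Nat.Primes) (hG : ∀ ℓ ∈ G, ¬ (ℓ : ℕ) ∣ M) (t : HeckeAlg)
    (ht : t ∈ MvPolynomial.supported ℤ G) (hne : CuspForm.heckeEvalForms M 2 t ≠ 0) :
    ¬ IsNilpotent (CuspForm.heckeEvalForms M 2 t) := by
  have hSbad : ∀ q : ℕ, q.Prime → q ∣ M → q ∈ {q : ℕ | q ∣ M} := fun q _ h => h
  have hSg : ∀ ℓ ∈ G, ¬ (ℓ : ℕ) ∣ M ∧ (ℓ : ℕ) ∉ {q : ℕ | q ∣ M} :=
    fun ℓ hℓ => ⟨hG ℓ hℓ, hG ℓ hℓ⟩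
  have hcoe := Fermat.Agent.S31.coe_evalS_eq (N := M) (S := {q : ℕ | q ∣ M}) hSg ht
  have hred : IsReduced (CuspForm.heckeAlgebra M 2 {q : ℕ | q ∣ M}) :=
    Fermat.Agent.PET.isReduced_heckeAlgebra M 2 hSbad
  rintro ⟨n, hn⟩
  have hn' : ((CuspForm.heckeEvalForms M 2 t : CuspForm.heckeAlgebra M 2 ∅) :
      Module.End ℂ (CuspForm (Gamma0 M) 2)) ^ n = 0 := by
    rw [← SubmonoidClass.coe_pow, hn, ZeroMemClass.coe_zero]
  have h1 : IsNilpotent (Fermat.Agent.S31.evalS M {q : ℕ | q ∣ M} t) := by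
    refine ⟨n, Subtype.ext ?_⟩
    rw [SubmonoidClass.coe_pow, hcoe, hn', ZeroMemClass.coe_zero]
  have h3 : Fermat.Agent.S31.evalS M {q : ℕ | q ∣ M} t = 0 := hred.eq_zero _ h1
  apply hne
  apply Subtype.ext
  rw [← hcoe, h3, ZeroMemClass.coe_zero, ZeroMemClass.coe_zero]

/-- **KillsLevel ⇒ zero on the cusp forms.** -/
theorem r38pkg_forms_eq_zero (G : Set Nat.Primes) (hG : ∀ ℓ ∈ G, ¬ (ℓ : ℕ) ∣ M) (t : HeckeAlg)
    (ht : t ∈ MvPolynomial.supported ℤ G) (hK : KillsLevel M t) :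
    CuspForm.heckeEvalForms M 2 t = 0 := by
  classical
  by_contra hne
  have hnil := r38pkg_not_nilpotent G hG t ht hne
  -- a prime of the full algebra not containing `Θ`
  have hrad : CuspForm.heckeEvalForms M 2 t ∉ nilradical (CuspForm.heckeAlgebra M 2 ∅) :=
    fun h => hnil (mem_nilradical.mp h)
  rw [nilradical_eq_sInf, Ideal.mem_sInf] at hrad
  push Not at hrad
  obtain ⟨Q, hQ, hΘQ⟩ := hrad
  haveI : Q.IsPrime := hQ
  haveI hfd : FiniteDimensional ℂ (CuspForm (Gamma0 M) 2) :=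
    Fermat.Agent.S49.finiteDimensional_cuspForm M 2
  obtain ⟨v, ψ, hv, hψ, hkerψ⟩ := Fermat.Agent.S49.exists_eigenvector_of_injective (K := ℂ)
    ((CuspForm.heckeAlgebra M 2 ∅).val.toRingHom) Subtype.val_injective Q
  obtain ⟨f, hf, hfℓ⟩ := Fermat.Agent.S49.exists_normalized_eigenform v hv ψ (fun s => hψ s)
  have hψΘ : ψ (CuspForm.heckeEvalForms M 2 t) ≠ 0 := fun h => hΘQ (hkerψ h)
  apply hψΘ
  rw [← r38pkg_value_eq G hG t ht f ψ hfℓ]
  exact hK f hf

end Fermat.Agent.R38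

end


end ZBS49_003_2
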