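/- GENERATED FILE (helper35, build-time optimisation, NOTES/ZB.md): verbatim concatenation of the modules
   Fermat.Agent.UNIP.NodesAbs
   Fermat.Agent.S36.N2ExtPrimes
   Fermat.Agent.S36.N2ExtAbs
   Fermat.Agent.S36.N2ExtMain
   Fermat.Agent.S36.N2ExtHom
   Fermat.Agent.RIB.MP.RedResAbs
   Do not edit; do not import together with these modules. -/
import Mathlib
import Fermat.Agent.ZB.S49_003

/-! ### bundled: `Fermat.Agent.UNIP.NodesAbs` -/
section ZBUNIP_037_0

/-!
# UNIP U5-α1, abstract part: two valuations exhaust a fibre of degree `n + 1`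

Pure algebra (Mathlib only).

* `unip_two_primes` : in a finite flat extension `S/R` of rank `n + 1`, two distinct primes over
  `p`, the second one of inertia degree `≥ n`, are the only primes over `p`; `e = 1` for both and
  `f = 1`, `f = n`.
* `UnipTwoVal R O₁ O₂ n` : the hypotheses in valuation form (`R` a DVR with fraction field `K`,
  `L/K` finite separable, `O₁`, `O₂` valuation rings of `L` dominating `R`).
* `unip_twoVal_main` : if moreover `[L : K] = n + 1`, then
  (B1) `x ∈ O₁ ∩ O₂ → IsIntegral R x` and (B2) every `x ∈ O₁` is congruent to an element of `R`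
  modulo the maximal ideal of `O₁` (residue degree one).
-/

set_option autoImplicit false

namespace Fermat.Agent.UNIP

open Module IsDedekindDomain IsLocalRing

/-- Two distinct primes over `p` in a finite flat extension of rank `n + 1`, the second one with
inertia degree `≥ n`, exhaust the fibre; both are unramified, with inertia degrees `1` and `n`. -/
theorem unip_two_primes {R S : Type*} [CommRing R] [IsDomain R] [CommRing S] [Algebra R S]
    [Module.Finite R S] [Module.Flat R S] (p : Ideal R) [p.IsPrime]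
    (P₁ P₂ : Ideal S) [P₁.IsPrime] [P₂.IsPrime] [P₁.LiesOver p] [P₂.LiesOver p] (hne : P₁ ≠ P₂)
    (n : ℕ) (hn : 0 < n) (hrank : Module.finrank R S = n + 1) (hf : n ≤ P₂.inertiaDeg R) :
    (∀ P : Ideal S, P.IsPrime → P.LiesOver p → P = P₁ ∨ P = P₂) ∧
      P₁.ramificationIdx R = 1 ∧ P₂.ramificationIdx R = 1 ∧
      P₁.inertiaDeg R = 1 ∧ P₂.inertiaDeg R = n := by
  classical
  let _ : Fintype (p.primesOver S) := (Algebra.QuasiFinite.finite_primesOver p).fintype
  set g : p.primesOver S → ℕ := fun q => q.1.ramificationIdx R * q.1.inertiaDeg R with hg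
  have hsum : ∑ q, g q = n + 1 := by
    rw [← hrank]
    exact Ideal.sum_ramification_inertia_eq_finrank p S
  have hpos : ∀ q : p.primesOver S, 1 ≤ g q := by
    intro q
    have := q.2.1
    exact Nat.mul_pos (Ideal.ramificationIdx_pos q.1 R) (Ideal.inertiaDeg_pos q.1 R)
  let Q₁ : p.primesOver S := ⟨P₁, ‹P₁.IsPrime›, ‹P₁.LiesOver p›⟩
  let Q₂ : p.primesOver S := ⟨P₂, ‹P₂.IsPrime›, ‹P₂.LiesOver p›⟩
  have hQ : Q₁ ≠ Q₂ := fun h => hne (congrArg Subtype.val h)
  have he₂ : 1 ≤ P₂.ramificationIdx R := Ideal.ramificationIdx_pos P₂ R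
  have he₁ : 1 ≤ P₁.ramificationIdx R := Ideal.ramificationIdx_pos P₁ R
  have hf₁ : 1 ≤ P₁.inertiaDeg R := Ideal.inertiaDeg_pos P₁ R
  have hg₂ : n ≤ g Q₂ := by
    show n ≤ P₂.ramificationIdx R * P₂.inertiaDeg R
    calc n ≤ P₂.inertiaDeg R := hf
      _ = 1 * P₂.inertiaDeg R := (one_mul _).symm
      _ ≤ _ := Nat.mul_le_mul_right _ he₂
  -- split the sum
  have hsplit : ∑ q, g q = g Q₁ + g Q₂ + ∑ q ∈ (Finset.univ.erase Q₁).erase Q₂, g q := by
    rw [← Finset.add_sum_erase Finset.univ g (Finset.mem_univ Q₁),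
      ← Finset.add_sum_erase (Finset.univ.erase Q₁) g
        (Finset.mem_erase.mpr ⟨hQ.symm, Finset.mem_univ Q₂⟩), add_assoc]
  have hrest : (Finset.univ.erase Q₁).erase Q₂ = ∅ := by
    by_contra hne'
    obtain ⟨q, hq⟩ := Finset.nonempty_iff_ne_empty.mpr hne'
    have h1 : g q ≤ ∑ q ∈ (Finset.univ.erase Q₁).erase Q₂, g q :=
      Finset.single_le_sum (f := g) (fun _ _ => Nat.zero_le _) hq
    have := hpos q
    have := hpos Q₁
    omega
  rw [hrest, Finset.sum_empty, add_zero] at hsplit
  have hg₁ : g Q₁ = 1 := by have := hpos Q₁; omega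
  have hg₂' : g Q₂ = n := by omega
  have h11 : P₁.ramificationIdx R * P₁.inertiaDeg R = 1 := hg₁
  have h22 : P₂.ramificationIdx R * P₂.inertiaDeg R = n := hg₂'
  refine ⟨?_, ?_, ?_, ?_, ?_⟩
  · intro P hP hPp
    by_contra hcon
    push Not at hcon
    have hmem : (⟨P, hP, hPp⟩ : p.primesOver S) ∈ (Finset.univ.erase Q₁).erase Q₂ := by
      refine Finset.mem_erase.mpr ⟨?_, Finset.mem_erase.mpr ⟨?_, Finset.mem_univ _⟩⟩
      · intro h; exact hcon.2 (congrArg Subtype.val h)
      · intro h; exact hcon.1 (congrArg Subtype.val h)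
    rw [hrest] at hmem
    exact absurd hmem (Finset.notMem_empty _)
  · exact (Nat.eq_one_of_mul_eq_one_right h11)
  · have h3 : P₂.inertiaDeg R ≤ n := by
      calc P₂.inertiaDeg R = 1 * P₂.inertiaDeg R := (one_mul _).symm
        _ ≤ P₂.ramificationIdx R * P₂.inertiaDeg R := Nat.mul_le_mul_right _ he₂
        _ = n := h22
    have h4 : P₂.inertiaDeg R = n := le_antisymm h3 hf
    rw [h4] at h22
    exact Nat.eq_of_mul_eq_mul_right hn (by rw [h22, one_mul])
  · exact (Nat.eq_one_of_mul_eq_one_left h11)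
  · have h3 : P₂.inertiaDeg R ≤ n := by
      calc P₂.inertiaDeg R = 1 * P₂.inertiaDeg R := (one_mul _).symm
        _ ≤ P₂.ramificationIdx R * P₂.inertiaDeg R := Nat.mul_le_mul_right _ he₂
        _ = n := h22
    exact le_antisymm h3 hf

/-- Hypotheses of the two-valuation theorem: two valuation rings `O₁`, `O₂` of `L` dominating the
local ring `R`, separated by an integral element, the second one with `n` integral elements whose
residues are independent over the residue field of `R`. -/
structure UnipTwoVal (R : Type*) {L : Type*} [CommRing R] [IsLocalRing R] [Field L] [Algebra R L]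
    (O₁ O₂ : ValuationSubring L) (n : ℕ) : Prop where
  le₁ : ∀ r : R, algebraMap R L r ∈ O₁
  le₂ : ∀ r : R, algebraMap R L r ∈ O₂
  dom₁ : ∀ r ∈ maximalIdeal R, algebraMap R L r ∈ O₁.nonunits
  dom₂ : ∀ r ∈ maximalIdeal R, algebraMap R L r ∈ O₂.nonunits
  sep : ∃ g : L, IsIntegral R g ∧ g ∈ O₁.nonunits ∧ g ∉ O₂.nonunits
  indep : ∃ y : Fin n → L, (∀ i, IsIntegral R (y i)) ∧
    ∀ c : Fin n → R, (∑ i, algebraMap R L (c i) * y i) ∈ O₂.nonunits →
      ∀ i, c i ∈ maximalIdeal R

section Prime

variable {R L : Type*} [CommRing R] [Field L] [Algebra R L]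

theorem unip_mem_of_isIntegral (O : ValuationSubring L) (hO : ∀ r : R, algebraMap R L r ∈ O)
    {s : L} (hs : IsIntegral R s) : s ∈ O := by
  let f : R →+* O := (algebraMap R L).codRestrict O.toSubring hO
  have h1 : (O.subtype.comp f).IsIntegralElem s := hs
  have h2 : IsIntegral O s := RingHom.IsIntegralElem.of_comp h1
  obtain ⟨y, hy⟩ := IsIntegrallyClosed.isIntegral_iff.mp h2
  rw [← hy]
  exact y.2

/-- The inclusion of the integral closure in a valuation ring containing the base. -/
def unipIncl (O : ValuationSubring L) (hO : ∀ r : R, algebraMap R L r ∈ O) :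
    integralClosure R L →+* O :=
  ((integralClosure R L).val : integralClosure R L →+* L).codRestrict O.toSubring
    (fun s => unip_mem_of_isIntegral O hO s.2)

/-- The prime of the integral closure cut out by a valuation ring. -/
def unipPrime (O : ValuationSubring L) (hO : ∀ r : R, algebraMap R L r ∈ O) :
    Ideal (integralClosure R L) :=
  (maximalIdeal O).comap (unipIncl O hO)

theorem mem_unipPrime (O : ValuationSubring L) (hO : ∀ r : R, algebraMap R L r ∈ O)
    (s : integralClosure R L) : s ∈ unipPrime O hO ↔ (s : L) ∈ O.nonunits := by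
  rw [unipPrime, Ideal.mem_comap, ValuationSubring.valuation_lt_one_iff,
    ValuationSubring.mem_nonunits_iff]
  rfl

instance unipPrime_isPrime (O : ValuationSubring L) (hO : ∀ r : R, algebraMap R L r ∈ O) :
    (unipPrime O hO).IsPrime :=
  Ideal.comap_isPrime _ _

theorem unipPrime_liesOver [IsLocalRing R] (O : ValuationSubring L)
    (hO : ∀ r : R, algebraMap R L r ∈ O)
    (hdom : ∀ r ∈ maximalIdeal R, algebraMap R L r ∈ O.nonunits) :
    (unipPrime O hO).LiesOver (maximalIdeal R) := by
  constructor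
  symm
  apply eq_maximalIdeal
  have hle : maximalIdeal R ≤ (unipPrime O hO).under R := by
    intro r hr
    rw [Ideal.mem_comap, mem_unipPrime]
    exact hdom r hr
  have hne : (unipPrime O hO).under R ≠ ⊤ := by
    have : ((unipPrime O hO).under R).IsPrime := Ideal.comap_isPrime _ _
    exact this.ne_top
  rw [← (maximalIdeal.isMaximal R).eq_of_le hne hle]
  exact maximalIdeal.isMaximal R

end Prime

section Abs

variable {R K L : Type*} [CommRing R] [IsDomain R] [IsDiscreteValuationRing R]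
  [Field K] [Field L] [Algebra R K] [IsFractionRing R K] [Algebra K L] [Algebra R L]
  [IsScalarTower R K L] [FiniteDimensional K L] [Algebra.IsSeparable K L]

include K in
set_option synthInstance.maxHeartbeats 400000 in
set_option maxHeartbeats 1600000 in
/-- The inertia degree of the prime cut out by `O₂` is at least `n`. -/
theorem unip_le_inertiaDeg {n : ℕ} (O : ValuationSubring L)
    (hO : ∀ r : R, algebraMap R L r ∈ O)
    (hdom : ∀ r ∈ maximalIdeal R, algebraMap R L r ∈ O.nonunits)
    (y : Fin n → L) (hy : ∀ i, IsIntegral R (y i))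
    (hind : ∀ c : Fin n → R, (∑ i, algebraMap R L (c i) * y i) ∈ O.nonunits →
      ∀ i, c i ∈ maximalIdeal R) :
    n ≤ (unipPrime O hO).inertiaDeg R := by
  classical
  set S := integralClosure R L with hS
  have : Module.Finite R S := IsIntegralClosure.finite R K L S
  have hlo : (unipPrime O hO).LiesOver (maximalIdeal R) := unipPrime_liesOver O hO hdom
  have : Algebra.IsIntegral R S := inferInstance
  have hmax : (unipPrime O hO).IsMaximal := by
    apply Ideal.isMaximal_of_isIntegral_of_isMaximal_comap (R := R)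
    have := hlo.over
    rw [Ideal.under] at this
    rw [← this]
    exact maximalIdeal.isMaximal R
  rw [Ideal.inertiaDeg_eq_of_isMaximal (maximalIdeal R) (unipPrime O hO)]
  let : Algebra (R ⧸ maximalIdeal R) (S ⧸ unipPrime O hO) :=
    Ideal.Quotient.algebraOfLiesOver _ _
  set b : Fin n → S ⧸ unipPrime O hO := fun i => Ideal.Quotient.mk _ ⟨y i, hy i⟩ with hb
  have hli : LinearIndependent (R ⧸ maximalIdeal R) b := by
    rw [Fintype.linearIndependent_iff]
    intro c hc i
    choose c' hc' using fun i => Ideal.Quotient.mk_surjective (c i)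
    have h1 : ∑ i, c i • b i = Ideal.Quotient.mk (unipPrime O hO)
        (∑ i, algebraMap R S (c' i) * ⟨y i, hy i⟩) := by
      rw [map_sum]
      refine Finset.sum_congr rfl fun i _ => ?_
      rw [map_mul, ← hc' i, Algebra.smul_def, Ideal.Quotient.algebraMap_mk_of_liesOver]
    rw [h1, Ideal.Quotient.eq_zero_iff_mem, mem_unipPrime] at hc
    have h2 : ((∑ i, algebraMap R S (c' i) * ⟨y i, hy i⟩ : S) : L) =
        ∑ i, algebraMap R L (c' i) * y i := by
      rw [AddSubmonoidClass.coe_finsetSum]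
      rfl
    rw [h2] at hc
    have h3 := hind c' hc i
    rw [← hc' i]
    exact Ideal.Quotient.eq_zero_iff_mem.mpr h3
  have := hli.fintype_card_le_finrank
  simpa using this

include K in
set_option synthInstance.maxHeartbeats 400000 in
set_option maxHeartbeats 1600000 in
/-- **Two-valuation theorem.**  In the situation `UnipTwoVal` with `[L : K] = n + 1`:
the integral closure of `R` in `L` is `O₁ ∩ O₂`, and the residue field of `O₁` is that of `R`. -/
theorem unip_twoVal_main {n : ℕ} (hn : 0 < n) (hdeg : finrank K L = n + 1)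
    {O₁ O₂ : ValuationSubring L} (h : UnipTwoVal R O₁ O₂ n) :
    (∀ x ∈ O₁, x ∈ O₂ → IsIntegral R x) ∧
      (∀ x ∈ O₁, ∃ c : R, x - algebraMap R L c ∈ O₁.nonunits) := by
  classical
  have : IsTorsionFree R L := .trans_faithfulSMul R K L
  have : IsDedekindDomain (integralClosure R L) := integralClosure.isDedekindDomain R K L
  have : IsFractionRing (integralClosure R L) L :=
    integralClosure.isFractionRing_of_finite_extension K L
  have : Module.Finite R (integralClosure R L) :=
    IsIntegralClosure.finite R K L (integralClosure R L)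
  have : IsTorsionFree R (integralClosure R L) := IsIntegralClosure.isTorsionFree R L
  have : Module.Flat R (integralClosure R L) := inferInstance
  have hrank : finrank R (integralClosure R L) = n + 1 := by
    rw [IsIntegralClosure.rank R K L (integralClosure R L), hdeg]
  set P₁ := unipPrime O₁ h.le₁ with hP₁
  set P₂ := unipPrime O₂ h.le₂ with hP₂
  have hlo₁ : P₁.LiesOver (maximalIdeal R) := unipPrime_liesOver O₁ h.le₁ h.dom₁
  have hlo₂ : P₂.LiesOver (maximalIdeal R) := unipPrime_liesOver O₂ h.le₂ h.dom₂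
  have hne : P₁ ≠ P₂ := by
    obtain ⟨g, hg, hg1, hg2⟩ := h.sep
    intro heq
    have h1 : (⟨g, hg⟩ : integralClosure R L) ∈ P₁ := (mem_unipPrime O₁ h.le₁ _).mpr hg1
    rw [heq] at h1
    exact hg2 ((mem_unipPrime O₂ h.le₂ _).mp h1)
  have hf : n ≤ P₂.inertiaDeg R := by
    obtain ⟨y, hy, hind⟩ := h.indep
    exact unip_le_inertiaDeg (K := K) O₂ h.le₂ h.dom₂ y hy hind
  obtain ⟨hall, -, -, hf₁, -⟩ := unip_two_primes (maximalIdeal R) P₁ P₂ hne n hn hrank hf
  -- every height one prime is `P₁` or `P₂`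
  have hv : ∀ v : HeightOneSpectrum (integralClosure R L), v.asIdeal = P₁ ∨ v.asIdeal = P₂ := by
    intro v
    have : v.asIdeal.IsMaximal := v.isMaximal
    have hmax : (v.asIdeal.comap (algebraMap R (integralClosure R L))).IsMaximal :=
      Ideal.isMaximal_comap_of_isIntegral_of_isMaximal (R := R) v.asIdeal
    exact hall v.asIdeal v.isPrime ⟨(eq_maximalIdeal hmax).symm⟩
  -- the key comparison
  have key : ∀ (O : ValuationSubring L) (hO : ∀ r : R, algebraMap R L r ∈ O)
      (v : HeightOneSpectrum (integralClosure R L)), v.asIdeal = unipPrime O hO →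
      ∀ x ∈ O, ∃ (a b : integralClosure R L), b ∉ v.asIdeal ∧ x * (b : L) = (a : L) := by
    intro O hO v hvO x hx
    obtain ⟨a, d, hd | hd⟩ := v.exists_primeCompl_mul_eq_or_mul_eq (K := L) x
    · exact ⟨a, d.1, d.2, hd⟩
    · -- `x * a = d`, `d` a unit of `O`: then `a` is a unit of `O` as well
      have hd' : (d.1 : L) ∉ O.nonunits := by
        intro hmem
        have hd2 : d.1 ∈ unipPrime O hO := (mem_unipPrime O hO d.1).mpr hmem
        rw [← hvO] at hd2
        exact d.2 hd2
      have ha : a ∉ v.asIdeal := by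
        intro hmem
        rw [hvO, mem_unipPrime] at hmem
        apply hd'
        have : (d.1 : L) = x * (a : L) := hd.symm
        rw [this, ValuationSubring.mem_nonunits_iff, map_mul]
        rw [ValuationSubring.mem_nonunits_iff] at hmem
        have hx1 : O.valuation x ≤ 1 := (ValuationSubring.valuation_le_one_iff O x).mpr hx
        calc O.valuation x * O.valuation (a : L) ≤ 1 * O.valuation (a : L) :=
              mul_le_mul_left hx1 _
          _ = O.valuation (a : L) := one_mul _
          _ < 1 := hmem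
      exact ⟨d.1, a, ha, hd⟩
  refine ⟨?_, ?_⟩
  · -- (B1)
    intro x hx₁ hx₂
    have hmem : x ∈ (algebraMap (integralClosure R L) L).range := by
      apply HeightOneSpectrum.mem_integers_of_valuation_le_one L x
      intro v
      have hvx : ∃ (a b : integralClosure R L), b ∉ v.asIdeal ∧ x * (b : L) = (a : L) := by
        rcases hv v with h1 | h2
        · exact key O₁ h.le₁ v h1 x hx₁
        · exact key O₂ h.le₂ v h2 x hx₂
      obtain ⟨a, b, hb, hab⟩ := hvx
      have hb1 : v.valuation L (algebraMap (integralClosure R L) L b) = 1 :=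
        (HeightOneSpectrum.valuation_eq_one_iff_notMem v).mpr hb
      have ha1 : v.valuation L (algebraMap (integralClosure R L) L a) ≤ 1 :=
        HeightOneSpectrum.valuation_le_one v a
      have h3 : v.valuation L x * v.valuation L (algebraMap (integralClosure R L) L b) =
          v.valuation L (algebraMap (integralClosure R L) L a) := by
        rw [← map_mul]
        exact congrArg _ hab
      rw [hb1, mul_one] at h3
      rw [h3]
      exact ha1
    obtain ⟨s, hs⟩ := hmem
    rw [← hs]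
    exact s.2
  · -- (B2)
    intro x hx
    have hP₁ne : P₁ ≠ ⊥ :=
      Ideal.ne_bot_of_liesOver_of_ne_bot (IsDiscreteValuationRing.not_a_field R) P₁
    obtain ⟨a, b, hb, hab⟩ := key O₁ h.le₁ ⟨P₁, inferInstance, hP₁ne⟩ rfl x hx
    have hmax : P₁.IsMaximal := by
      apply Ideal.isMaximal_of_isIntegral_of_isMaximal_comap (R := R)
      have := hlo₁.over
      rw [Ideal.under] at this
      rw [← this]
      exact maximalIdeal.isMaximal R
    rw [Ideal.inertiaDeg_eq_of_isMaximal (maximalIdeal R) P₁] at hf₁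
    let : Algebra (R ⧸ maximalIdeal R) (integralClosure R L ⧸ P₁) :=
      Ideal.Quotient.algebraOfLiesOver _ _
    have hone : (1 : integralClosure R L ⧸ P₁) ≠ 0 := by
      intro h0
      have h1 : (Ideal.Quotient.mk P₁) 1 = 0 := by rw [map_one]; exact h0
      rw [Ideal.Quotient.eq_zero_iff_mem] at h1
      exact hmax.ne_top ((Ideal.eq_top_iff_one _).mpr h1)
    let : Field (R ⧸ maximalIdeal R) := Ideal.Quotient.field _
    have hspan : ∀ w : integralClosure R L ⧸ P₁, ∃ c : R ⧸ maximalIdeal R, c • 1 = w :=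
      (finrank_eq_one_iff_of_nonzero' (1 : integralClosure R L ⧸ P₁) hone).mp hf₁
    -- lift residues
    have hlift : ∀ s : integralClosure R L, ∃ α : R,
        ((s : L) - algebraMap R L α) ∈ O₁.nonunits := by
      intro s
      obtain ⟨c, hc⟩ := hspan (Ideal.Quotient.mk P₁ s)
      obtain ⟨α, rfl⟩ := Ideal.Quotient.mk_surjective c
      refine ⟨α, ?_⟩
      rw [Algebra.smul_def, mul_one, Ideal.Quotient.algebraMap_mk_of_liesOver] at hc
      have h1 : s - algebraMap R (integralClosure R L) α ∈ P₁ :=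
        Ideal.Quotient.eq.mp hc.symm
      exact (mem_unipPrime O₁ h.le₁ _).mp h1
    obtain ⟨α, hα⟩ := hlift a
    obtain ⟨β, hβ⟩ := hlift b
    have hbO : (b : L) ∈ O₁ := unip_mem_of_isIntegral O₁ h.le₁ b.2
    have hbnon : (b : L) ∉ O₁.nonunits := fun hmem => hb ((mem_unipPrime O₁ h.le₁ b).mpr hmem)
    have hvb : O₁.valuation (b : L) = 1 := by
      rcases ValuationSubring.valuation_lt_one_or_eq_one O₁ ⟨(b : L), hbO⟩ with h1 | h1
      · exact absurd ((ValuationSubring.mem_nonunits_iff O₁).mpr h1) hbnon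
      · exact h1
    have hβu : IsUnit β := by
      rw [← notMem_maximalIdeal]
      intro hmem
      apply hbnon
      have h1 := h.dom₁ β hmem
      rw [ValuationSubring.mem_nonunits_iff] at h1 hβ ⊢
      have h2 := Valuation.map_add_lt O₁.valuation hβ h1
      rwa [sub_add_cancel] at h2
    obtain ⟨u, rfl⟩ := hβu
    refine ⟨α * ((u⁻¹ : Rˣ) : R), ?_⟩
    rw [ValuationSubring.mem_nonunits_iff] at hα hβ ⊢
    have hc1 : O₁.valuation (algebraMap R L (α * ((u⁻¹ : Rˣ) : R))) ≤ 1 :=
      (ValuationSubring.valuation_le_one_iff O₁ _).mpr (h.le₁ _)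
    have hprod : (x - algebraMap R L (α * ((u⁻¹ : Rˣ) : R))) * (b : L) =
        ((a : L) - algebraMap R L α) -
          algebraMap R L (α * ((u⁻¹ : Rˣ) : R)) * ((b : L) - algebraMap R L (u : R)) := by
      have h1 : algebraMap R L (α * ((u⁻¹ : Rˣ) : R)) * algebraMap R L (u : R) =
          algebraMap R L α := by
        rw [← map_mul, mul_assoc, Units.inv_mul, mul_one]
      rw [sub_mul, hab, mul_sub, h1]
      ring
    have h3 : O₁.valuation ((x - algebraMap R L (α * ((u⁻¹ : Rˣ) : R))) * (b : L)) < 1 := by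
      rw [hprod]
      apply Valuation.map_sub_lt _ hα
      rw [map_mul]
      calc O₁.valuation (algebraMap R L (α * ((u⁻¹ : Rˣ) : R))) *
            O₁.valuation ((b : L) - algebraMap R L (u : R))
          ≤ 1 * O₁.valuation ((b : L) - algebraMap R L (u : R)) := mul_le_mul_left hc1 _
        _ = O₁.valuation ((b : L) - algebraMap R L (u : R)) := one_mul _
        _ < 1 := hβ
    rwa [map_mul, hvb, mul_one] at h3

end Abs

end Fermat.Agent.UNIP


end ZBUNIP_037_0

/-! ### bundled: `Fermat.Agent.S36.N2ExtPrimes` -/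
section ZBUNIP_037_1

/-!
# S36 / G-N2, piece N2-ext, abstract part 1 (helper19): counting primes in a fibre

Pure algebra (Mathlib + the Mathlib-only file `UNIP/NodesAbs.lean`).

* `s36n2e_two_primes` : `S/R` finite flat of rank `n + 1`, two distinct primes `P₁ ≠ P₂` over `p`
  with `n ≤ e(P₂) f(P₂)`: they are the only primes over `p`, `e(P₁) = f(P₁) = 1` and
  `e(P₂) f(P₂) = n`.
* `s36n2e_one_prime` : `S/R` finite flat of rank `n`, one prime `P` over `p` with
  `n ≤ e(P) f(P)`: it is the only prime over `p`.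
* `s36n2e_le_ramificationIdx` : in a Dedekind domain `S`, torsion free over the domain `R`,
  `p S ≤ P ^ n` implies `n ≤ e(P)`.
-/

set_option autoImplicit false

namespace Fermat.Agent.S36

open Module IsDedekindDomain IsLocalRing

/-- Two distinct primes over `p` in a finite flat extension of rank `n + 1`, the second one with
`e f ≥ n`, exhaust the fibre; the first one has `e = f = 1`, the second one `e f = n`. -/
theorem s36n2e_two_primes {R S : Type*} [CommRing R] [IsDomain R] [CommRing S] [Algebra R S]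
    [Module.Finite R S] [Module.Flat R S] (p : Ideal R) [p.IsPrime]
    (P₁ P₂ : Ideal S) [P₁.IsPrime] [P₂.IsPrime] [P₁.LiesOver p] [P₂.LiesOver p] (hne : P₁ ≠ P₂)
    (n : ℕ) (hrank : Module.finrank R S = n + 1)
    (hf : n ≤ P₂.ramificationIdx R * P₂.inertiaDeg R) :
    (∀ P : Ideal S, P.IsPrime → P.LiesOver p → P = P₁ ∨ P = P₂) ∧
      P₁.ramificationIdx R = 1 ∧ P₁.inertiaDeg R = 1 ∧
      P₂.ramificationIdx R * P₂.inertiaDeg R = n := by
  classical
  let _ : Fintype (p.primesOver S) := (Algebra.QuasiFinite.finite_primesOver p).fintype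
  set g : p.primesOver S → ℕ := fun q => q.1.ramificationIdx R * q.1.inertiaDeg R with hg
  have hsum : ∑ q, g q = n + 1 := by
    rw [← hrank]
    exact Ideal.sum_ramification_inertia_eq_finrank p S
  have hpos : ∀ q : p.primesOver S, 1 ≤ g q := by
    intro q
    have := q.2.1
    exact Nat.mul_pos (Ideal.ramificationIdx_pos q.1 R) (Ideal.inertiaDeg_pos q.1 R)
  let Q₁ : p.primesOver S := ⟨P₁, ‹P₁.IsPrime›, ‹P₁.LiesOver p›⟩
  let Q₂ : p.primesOver S := ⟨P₂, ‹P₂.IsPrime›, ‹P₂.LiesOver p›⟩
  have hQ : Q₁ ≠ Q₂ := fun h => hne (congrArg Subtype.val h)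
  have hg₂ : n ≤ g Q₂ := hf
  have hsplit : ∑ q, g q = g Q₁ + g Q₂ + ∑ q ∈ (Finset.univ.erase Q₁).erase Q₂, g q := by
    rw [← Finset.add_sum_erase Finset.univ g (Finset.mem_univ Q₁),
      ← Finset.add_sum_erase (Finset.univ.erase Q₁) g
        (Finset.mem_erase.mpr ⟨hQ.symm, Finset.mem_univ Q₂⟩), add_assoc]
  have hrest : (Finset.univ.erase Q₁).erase Q₂ = ∅ := by
    by_contra hne'
    obtain ⟨q, hq⟩ := Finset.nonempty_iff_ne_empty.mpr hne'
    have h1 : g q ≤ ∑ q ∈ (Finset.univ.erase Q₁).erase Q₂, g q :=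
      Finset.single_le_sum (f := g) (fun _ _ => Nat.zero_le _) hq
    have := hpos q
    have := hpos Q₁
    omega
  rw [hrest, Finset.sum_empty, add_zero] at hsplit
  have hg₁ : g Q₁ = 1 := by have := hpos Q₁; omega
  have hg₂' : g Q₂ = n := by omega
  have h11 : P₁.ramificationIdx R * P₁.inertiaDeg R = 1 := hg₁
  have h22 : P₂.ramificationIdx R * P₂.inertiaDeg R = n := hg₂'
  refine ⟨?_, ?_, ?_, h22⟩
  · intro P hP hPp
    by_contra hcon
    push Not at hcon
    have hmem : (⟨P, hP, hPp⟩ : p.primesOver S) ∈ (Finset.univ.erase Q₁).erase Q₂ := by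
      refine Finset.mem_erase.mpr ⟨?_, Finset.mem_erase.mpr ⟨?_, Finset.mem_univ _⟩⟩
      · intro h; exact hcon.2 (congrArg Subtype.val h)
      · intro h; exact hcon.1 (congrArg Subtype.val h)
    rw [hrest] at hmem
    exact absurd hmem (Finset.notMem_empty _)
  · exact (Nat.eq_one_of_mul_eq_one_right h11)
  · exact (Nat.eq_one_of_mul_eq_one_left h11)

/-- One prime over `p` with `e f ≥ n` in a finite flat extension of rank `n`: it is the only
prime over `p`, and `e f = n`. -/
theorem s36n2e_one_prime {R S : Type*} [CommRing R] [IsDomain R] [CommRing S] [Algebra R S]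
    [Module.Finite R S] [Module.Flat R S] (p : Ideal R) [p.IsPrime]
    (P₁ : Ideal S) [P₁.IsPrime] [P₁.LiesOver p]
    (n : ℕ) (hrank : Module.finrank R S = n)
    (hf : n ≤ P₁.ramificationIdx R * P₁.inertiaDeg R) :
    (∀ P : Ideal S, P.IsPrime → P.LiesOver p → P = P₁) ∧
      P₁.ramificationIdx R * P₁.inertiaDeg R = n := by
  classical
  let _ : Fintype (p.primesOver S) := (Algebra.QuasiFinite.finite_primesOver p).fintype
  set g : p.primesOver S → ℕ := fun q => q.1.ramificationIdx R * q.1.inertiaDeg R with hg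
  have hsum : ∑ q, g q = n := by
    rw [← hrank]
    exact Ideal.sum_ramification_inertia_eq_finrank p S
  have hpos : ∀ q : p.primesOver S, 1 ≤ g q := by
    intro q
    have := q.2.1
    exact Nat.mul_pos (Ideal.ramificationIdx_pos q.1 R) (Ideal.inertiaDeg_pos q.1 R)
  let Q₁ : p.primesOver S := ⟨P₁, ‹P₁.IsPrime›, ‹P₁.LiesOver p›⟩
  have hg₁ : n ≤ g Q₁ := hf
  have hsplit : ∑ q, g q = g Q₁ + ∑ q ∈ Finset.univ.erase Q₁, g q := by
    rw [← Finset.add_sum_erase Finset.univ g (Finset.mem_univ Q₁)]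
  have hrest : Finset.univ.erase Q₁ = ∅ := by
    by_contra hne'
    obtain ⟨q, hq⟩ := Finset.nonempty_iff_ne_empty.mpr hne'
    have h1 : g q ≤ ∑ q ∈ Finset.univ.erase Q₁, g q :=
      Finset.single_le_sum (f := g) (fun _ _ => Nat.zero_le _) hq
    have := hpos q
    omega
  rw [hrest, Finset.sum_empty, add_zero] at hsplit
  refine ⟨?_, ?_⟩
  · intro P hP hPp
    by_contra hcon
    have hmem : (⟨P, hP, hPp⟩ : p.primesOver S) ∈ Finset.univ.erase Q₁ := by
      refine Finset.mem_erase.mpr ⟨?_, Finset.mem_univ _⟩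
      intro h; exact hcon (congrArg Subtype.val h)
    rw [hrest] at hmem
    exact absurd hmem (Finset.notMem_empty _)
  · show g Q₁ = n
    omega

/-- In a Dedekind domain, `p S ≤ P ^ n` implies `n ≤ e(P / p)`. -/
theorem s36n2e_le_ramificationIdx {R S : Type*} [CommRing R] [IsDomain R] [CommRing S]
    [IsDedekindDomain S] [Algebra R S] [Module.IsTorsionFree R S] (p : Ideal R) (hp : p ≠ ⊥)
    (P : Ideal S) [hP : P.IsPrime] [P.LiesOver p] (n : ℕ)
    (h : p.map (algebraMap R S) ≤ P ^ n) : n ≤ P.ramificationIdx R := by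
  have hpS : p.map (algebraMap R S) ≠ ⊥ := Ideal.map_ne_bot_of_ne_bot hp
  rw [Ideal.IsDedekindDomain.ramificationIdx_eq_multiplicity p P hpS]
  have hP0 : P ≠ ⊥ :=
    ne_bot_of_le_ne_bot hpS (Ideal.map_le_of_le_comap (P.over_def p).le)
  have hfin : FiniteMultiplicity P (p.map (algebraMap R S)) := by
    apply FiniteMultiplicity.of_not_isUnit
    · rw [Ideal.isUnit_iff]
      exact hP.ne_top
    · exact hpS
  exact hfin.le_multiplicity_of_pow_dvd (Ideal.dvd_iff_le.mpr h)

end Fermat.Agent.S36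


end ZBUNIP_037_1

/-! ### bundled: `Fermat.Agent.S36.N2ExtAbs` -/
section ZBUNIP_037_2

/-!
# S36 / G-N2, piece N2-ext, abstract part 2 (helper19): valuations exhausting a fibre

`R` a discrete valuation ring with fraction field `K`, `L/K` finite separable, `O`, `O₁`, `O₂`
valuation rings of `L` dominating `R`.

* `s36n2e_key` : every `x ∈ O` is `a / b` with `a, b` integral over `R`, `b` a unit of `O`.
* `S36TwoVal R O₁ O₂ n` + `s36n2e_twoVal_main` : if `O₁ ≠ O₂`, `ϖ = Π ^ n · z` at `O₂`
  (`e(O₂) ≥ n`) and `[L : K] = n + 1`, then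
  (EXT) `x ∈ O₁ ∩ O₂ → IsIntegral R x`, (F) both residue fields are that of `R`,
  (RAM) `x ∈ 𝔪(O₂) → x ^ n ∈ ϖ O₂`.
* `S36OneVal R O n` + `s36n2e_oneVal_main` : if `O` has `n` integral elements with independent
  residues and `[L : K] = n`, then (EXT) `x ∈ O → IsIntegral R x`.
-/

set_option autoImplicit false
set_option linter.unusedSectionVars false

namespace Fermat.Agent.S36

open Module IsDedekindDomain IsLocalRing
open Fermat.Agent.UNIP

section Key

variable {R K L : Type*} [CommRing R] [IsDomain R] [IsDiscreteValuationRing R]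
  [Field K] [Field L] [Algebra R K] [IsFractionRing R K] [Algebra K L] [Algebra R L]
  [IsScalarTower R K L] [FiniteDimensional K L] [Algebra.IsSeparable K L]

include K in
set_option synthInstance.maxHeartbeats 400000 in
set_option maxHeartbeats 1600000 in
/-- the prime cut out by a dominating valuation ring is not zero -/
theorem s36n2e_prime_ne_bot (O : ValuationSubring L) (hO : ∀ r : R, algebraMap R L r ∈ O)
    (hdom : ∀ r ∈ maximalIdeal R, algebraMap R L r ∈ O.nonunits) :
    unipPrime O hO ≠ ⊥ := by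
  have : IsTorsionFree R L := .trans_faithfulSMul R K L
  have : IsTorsionFree R (integralClosure R L) := IsIntegralClosure.isTorsionFree R L
  have hlo : (unipPrime O hO).LiesOver (maximalIdeal R) := unipPrime_liesOver O hO hdom
  exact Ideal.ne_bot_of_liesOver_of_ne_bot (IsDiscreteValuationRing.not_a_field R) (unipPrime O hO)

include K in
set_option synthInstance.maxHeartbeats 400000 in
set_option maxHeartbeats 1600000 in
/-- the prime cut out by a dominating valuation ring is maximal -/
theorem s36n2e_prime_isMaximal (O : ValuationSubring L) (hO : ∀ r : R, algebraMap R L r ∈ O)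
    (hdom : ∀ r ∈ maximalIdeal R, algebraMap R L r ∈ O.nonunits) :
    (unipPrime O hO).IsMaximal := by
  have hlo : (unipPrime O hO).LiesOver (maximalIdeal R) := unipPrime_liesOver O hO hdom
  have : Algebra.IsIntegral R (integralClosure R L) := inferInstance
  apply Ideal.isMaximal_of_isIntegral_of_isMaximal_comap (R := R)
  have := hlo.over
  rw [Ideal.under] at this
  rw [← this]
  exact maximalIdeal.isMaximal R

include K in
set_option synthInstance.maxHeartbeats 400000 in
set_option maxHeartbeats 1600000 in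
/-- **Key comparison.**  Every element of a valuation ring `O` of `L` dominating `R` is a
quotient `a / b` of elements integral over `R`, with `b` a unit of `O`. -/
theorem s36n2e_key (O : ValuationSubring L) (hO : ∀ r : R, algebraMap R L r ∈ O)
    (hdom : ∀ r ∈ maximalIdeal R, algebraMap R L r ∈ O.nonunits) {x : L} (hx : x ∈ O) :
    ∃ a b : integralClosure R L, b ∉ unipPrime O hO ∧ x * (b : L) = (a : L) := by
  classical
  have : IsTorsionFree R L := .trans_faithfulSMul R K L
  have : IsDedekindDomain (integralClosure R L) := integralClosure.isDedekindDomain R K L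
  have : IsFractionRing (integralClosure R L) L :=
    integralClosure.isFractionRing_of_finite_extension K L
  let v : HeightOneSpectrum (integralClosure R L) :=
    ⟨unipPrime O hO, inferInstance, s36n2e_prime_ne_bot (K := K) O hO hdom⟩
  obtain ⟨a, d, hd | hd⟩ := v.exists_primeCompl_mul_eq_or_mul_eq (K := L) x
  · exact ⟨a, d.1, d.2, hd⟩
  · have hd' : (d.1 : L) ∉ O.nonunits := by
      intro hmem
      have hd2 : d.1 ∈ unipPrime O hO := (mem_unipPrime O hO d.1).mpr hmem
      exact d.2 hd2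
    have ha : a ∉ unipPrime O hO := by
      intro hmem
      rw [mem_unipPrime] at hmem
      apply hd'
      have : (d.1 : L) = x * (a : L) := hd.symm
      rw [this, ValuationSubring.mem_nonunits_iff, map_mul]
      rw [ValuationSubring.mem_nonunits_iff] at hmem
      have hx1 : O.valuation x ≤ 1 := (ValuationSubring.valuation_le_one_iff O x).mpr hx
      calc O.valuation x * O.valuation (a : L) ≤ 1 * O.valuation (a : L) :=
            mul_le_mul_left hx1 _
        _ = O.valuation (a : L) := one_mul _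
        _ < 1 := hmem
    exact ⟨d.1, a, ha, hd⟩

include K in
/-- the same for elements of the maximal ideal: the numerator lies in the prime -/
theorem s36n2e_key_nonunits (O : ValuationSubring L) (hO : ∀ r : R, algebraMap R L r ∈ O)
    (hdom : ∀ r ∈ maximalIdeal R, algebraMap R L r ∈ O.nonunits) {x : L}
    (hx : x ∈ O.nonunits) :
    ∃ a b : integralClosure R L, a ∈ unipPrime O hO ∧ b ∉ unipPrime O hO ∧
      x * (b : L) = (a : L) := by
  have hxO : x ∈ O := by
    rw [← ValuationSubring.valuation_le_one_iff]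
    exact le_of_lt ((ValuationSubring.mem_nonunits_iff O).mp hx)
  obtain ⟨a, b, hb, hab⟩ := s36n2e_key (K := K) O hO hdom hxO
  refine ⟨a, b, ?_, hb, hab⟩
  rw [mem_unipPrime, ← hab, ValuationSubring.mem_nonunits_iff, map_mul]
  have hb1 : O.valuation (b : L) ≤ 1 :=
    (ValuationSubring.valuation_le_one_iff O _).mpr (unip_mem_of_isIntegral O hO b.2)
  calc O.valuation x * O.valuation (b : L) ≤ O.valuation x * 1 := mul_le_mul_right hb1 _
    _ = O.valuation x := mul_one _
    _ < 1 := (ValuationSubring.mem_nonunits_iff O).mp hx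

/-- an integral element outside the prime is a unit of `O` -/
theorem s36n2e_val_eq_one (O : ValuationSubring L) (hO : ∀ r : R, algebraMap R L r ∈ O)
    {b : integralClosure R L} (hb : b ∉ unipPrime O hO) : O.valuation (b : L) = 1 := by
  have hbO : (b : L) ∈ O := unip_mem_of_isIntegral O hO b.2
  rcases ValuationSubring.valuation_lt_one_or_eq_one O ⟨(b : L), hbO⟩ with h1 | h1
  · exact absurd ((mem_unipPrime O hO b).mpr ((ValuationSubring.mem_nonunits_iff O).mpr h1)) hb
  · exact h1

include K in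
set_option synthInstance.maxHeartbeats 400000 in
set_option maxHeartbeats 1600000 in
/-- **(F)** residue degree one, valuation form: if the prime cut out by `O` has inertia degree
`1`, every element of `O` is congruent to an element of `R` modulo the maximal ideal of `O`. -/
theorem s36n2e_resid (O : ValuationSubring L) (hO : ∀ r : R, algebraMap R L r ∈ O)
    (hdom : ∀ r ∈ maximalIdeal R, algebraMap R L r ∈ O.nonunits)
    (hf : (unipPrime O hO).inertiaDeg R = 1) {x : L} (hx : x ∈ O) :
    ∃ c : R, x - algebraMap R L c ∈ O.nonunits := by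
  classical
  set P := unipPrime O hO with hP
  have hlo : P.LiesOver (maximalIdeal R) := unipPrime_liesOver O hO hdom
  obtain ⟨a, b, hb, hab⟩ := s36n2e_key (K := K) O hO hdom hx
  have hmax : P.IsMaximal := s36n2e_prime_isMaximal (K := K) O hO hdom
  rw [Ideal.inertiaDeg_eq_of_isMaximal (maximalIdeal R) P] at hf
  let : Algebra (R ⧸ maximalIdeal R) (integralClosure R L ⧸ P) :=
    Ideal.Quotient.algebraOfLiesOver _ _
  have hone : (1 : integralClosure R L ⧸ P) ≠ 0 := by
    intro h0
    have h1 : (Ideal.Quotient.mk P) 1 = 0 := by rw [map_one]; exact h0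
    rw [Ideal.Quotient.eq_zero_iff_mem] at h1
    exact hmax.ne_top ((Ideal.eq_top_iff_one _).mpr h1)
  let : Field (R ⧸ maximalIdeal R) := Ideal.Quotient.field _
  have hspan : ∀ w : integralClosure R L ⧸ P, ∃ c : R ⧸ maximalIdeal R, c • 1 = w :=
    (finrank_eq_one_iff_of_nonzero' (1 : integralClosure R L ⧸ P) hone).mp hf
  have hlift : ∀ s : integralClosure R L, ∃ α : R,
      ((s : L) - algebraMap R L α) ∈ O.nonunits := by
    intro s
    obtain ⟨c, hc⟩ := hspan (Ideal.Quotient.mk P s)
    obtain ⟨α, rfl⟩ := Ideal.Quotient.mk_surjective c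
    refine ⟨α, ?_⟩
    rw [Algebra.smul_def, mul_one, Ideal.Quotient.algebraMap_mk_of_liesOver] at hc
    have h1 : s - algebraMap R (integralClosure R L) α ∈ P :=
      Ideal.Quotient.eq.mp hc.symm
    exact (mem_unipPrime O hO _).mp h1
  obtain ⟨α, hα⟩ := hlift a
  obtain ⟨β, hβ⟩ := hlift b
  have hbO : (b : L) ∈ O := unip_mem_of_isIntegral O hO b.2
  have hbnon : (b : L) ∉ O.nonunits := fun hmem => hb ((mem_unipPrime O hO b).mpr hmem)
  have hvb : O.valuation (b : L) = 1 := s36n2e_val_eq_one O hO hb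
  have hβu : IsUnit β := by
    rw [← notMem_maximalIdeal]
    intro hmem
    apply hbnon
    have h1 := hdom β hmem
    rw [ValuationSubring.mem_nonunits_iff] at h1 hβ ⊢
    have h2 := Valuation.map_add_lt O.valuation hβ h1
    rwa [sub_add_cancel] at h2
  obtain ⟨u, rfl⟩ := hβu
  refine ⟨α * ((u⁻¹ : Rˣ) : R), ?_⟩
  rw [ValuationSubring.mem_nonunits_iff] at hα hβ ⊢
  have hc1 : O.valuation (algebraMap R L (α * ((u⁻¹ : Rˣ) : R))) ≤ 1 :=
    (ValuationSubring.valuation_le_one_iff O _).mpr (hO _)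
  have hprod : (x - algebraMap R L (α * ((u⁻¹ : Rˣ) : R))) * (b : L) =
      ((a : L) - algebraMap R L α) -
        algebraMap R L (α * ((u⁻¹ : Rˣ) : R)) * ((b : L) - algebraMap R L (u : R)) := by
    have h1 : algebraMap R L (α * ((u⁻¹ : Rˣ) : R)) * algebraMap R L (u : R) =
        algebraMap R L α := by
      rw [← map_mul, mul_assoc, Units.inv_mul, mul_one]
    rw [sub_mul, hab, mul_sub, h1]
    ring
  have h3 : O.valuation ((x - algebraMap R L (α * ((u⁻¹ : Rˣ) : R))) * (b : L)) < 1 := by
    rw [hprod]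
    apply Valuation.map_sub_lt _ hα
    rw [map_mul]
    calc O.valuation (algebraMap R L (α * ((u⁻¹ : Rˣ) : R))) *
          O.valuation ((b : L) - algebraMap R L (u : R))
        ≤ 1 * O.valuation ((b : L) - algebraMap R L (u : R)) := mul_le_mul_left hc1 _
      _ = O.valuation ((b : L) - algebraMap R L (u : R)) := one_mul _
      _ < 1 := hβ
  rwa [map_mul, hvb, mul_one] at h3

include K in
set_option synthInstance.maxHeartbeats 400000 in
set_option maxHeartbeats 1600000 in
/-- **(EXT)**, general form: if every prime of the integral closure over the maximal ideal of `R`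
is cut out by one of the valuation rings `O i ∋ x`, then `x` is integral over `R`. -/
theorem s36n2e_ext {ι : Type*} (O : ι → ValuationSubring L)
    (hO : ∀ i, ∀ r : R, algebraMap R L r ∈ O i)
    (hdom : ∀ i, ∀ r ∈ maximalIdeal R, algebraMap R L r ∈ (O i).nonunits)
    (hall : ∀ P : Ideal (integralClosure R L), P.IsPrime → P.LiesOver (maximalIdeal R) →
      ∃ i, P = unipPrime (O i) (hO i))
    {x : L} (hx : ∀ i, x ∈ O i) : IsIntegral R x := by
  classical
  have : IsTorsionFree R L := .trans_faithfulSMul R K L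
  have : IsDedekindDomain (integralClosure R L) := integralClosure.isDedekindDomain R K L
  have : IsFractionRing (integralClosure R L) L :=
    integralClosure.isFractionRing_of_finite_extension K L
  have hmem : x ∈ (algebraMap (integralClosure R L) L).range := by
    apply HeightOneSpectrum.mem_integers_of_valuation_le_one L x
    intro v
    have : v.asIdeal.IsMaximal := v.isMaximal
    have hmax : (v.asIdeal.comap (algebraMap R (integralClosure R L))).IsMaximal :=
      Ideal.isMaximal_comap_of_isIntegral_of_isMaximal (R := R) v.asIdeal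
    obtain ⟨i, hi⟩ := hall v.asIdeal v.isPrime ⟨(eq_maximalIdeal hmax).symm⟩
    obtain ⟨a, b, hb, hab⟩ := s36n2e_key (K := K) (O i) (hO i) (hdom i) (hx i)
    rw [← hi] at hb
    have hb1 : v.valuation L (algebraMap (integralClosure R L) L b) = 1 :=
      (HeightOneSpectrum.valuation_eq_one_iff_notMem v).mpr hb
    have ha1 : v.valuation L (algebraMap (integralClosure R L) L a) ≤ 1 :=
      HeightOneSpectrum.valuation_le_one v a
    have h3 : v.valuation L x * v.valuation L (algebraMap (integralClosure R L) L b) =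
        v.valuation L (algebraMap (integralClosure R L) L a) := by
      rw [← map_mul]
      exact congrArg _ hab
    rw [hb1, mul_one] at h3
    rw [h3]
    exact ha1
  obtain ⟨s, hs⟩ := hmem
  rw [← hs]
  exact s.2

end Key

end Fermat.Agent.S36


end ZBUNIP_037_2

/-! ### bundled: `Fermat.Agent.S36.N2ExtMain` -/
section ZBUNIP_037_3

/-!
# S36 / G-N2, piece N2-ext, abstract part 3 (helper19): the two patterns

`R` a discrete valuation ring with fraction field `K`, uniformizer `ϖ`, `L/K` finite separable.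

* `S36TwoVal R O₁ O₂ n ϖ` + `s36n2e_twoVal_main` (pattern `(α, ∞)`, `(β, 0)`):
  `O₁ ≠ O₂` (separated by some `g`, either direction) dominate `R`, `ϖ = t ^ n · z` at `O₂`, `[L : K] = n + 1`.  Then
  (EXT) `x ∈ O₁ ∩ O₂ → IsIntegral R x`; (F₁), (F₂) the residue fields of `O₁`, `O₂` are that of
  `R`; (U₁) `𝔪(O₁) = ϖ O₁`; (RAM₂) `x ∈ 𝔪(O₂) → x ^ n ∈ ϖ O₂`.
* `S36OneVal R O n` + `s36n2e_oneVal_main` (pattern `(α, 0)`, `(β, ∞)`):
  `O` dominates `R` and carries `n` integral elements with `R`-independent residues,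
  `[L : K] = n`.  Then (EXT) `x ∈ O → IsIntegral R x` and (U) `𝔪(O) = ϖ O`.
-/

set_option autoImplicit false
set_option linter.unusedSectionVars false

namespace Fermat.Agent.S36

open Module IsDedekindDomain IsLocalRing
open Fermat.Agent.UNIP

section Ord

variable {R K L : Type*} [CommRing R] [IsDomain R] [IsDiscreteValuationRing R]
  [Field K] [Field L] [Algebra R K] [IsFractionRing R K] [Algebra K L] [Algebra R L]
  [IsScalarTower R K L] [FiniteDimensional K L] [Algebra.IsSeparable K L]

/-- `x` has order at least `k` at the prime cut out by `O`: `x = a / b`, `a ∈ P ^ k`, `b ∉ P`. -/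
def S36Ord (O : ValuationSubring L) (hO : ∀ r : R, algebraMap R L r ∈ O) (k : ℕ) (x : L) : Prop :=
  ∃ a b : integralClosure R L, a ∈ unipPrime O hO ^ k ∧ b ∉ unipPrime O hO ∧
    x * (b : L) = (a : L)

include K in
theorem s36Ord_zero (O : ValuationSubring L) (hO : ∀ r : R, algebraMap R L r ∈ O)
    (hdom : ∀ r ∈ maximalIdeal R, algebraMap R L r ∈ O.nonunits) {x : L} (hx : x ∈ O) :
    S36Ord O hO 0 x := by
  obtain ⟨a, b, hb, hab⟩ := s36n2e_key (K := K) O hO hdom hx
  exact ⟨a, b, by rw [pow_zero, Ideal.one_eq_top]; trivial, hb, hab⟩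

include K in
theorem s36Ord_one (O : ValuationSubring L) (hO : ∀ r : R, algebraMap R L r ∈ O)
    (hdom : ∀ r ∈ maximalIdeal R, algebraMap R L r ∈ O.nonunits) {x : L}
    (hx : x ∈ O.nonunits) : S36Ord O hO 1 x := by
  obtain ⟨a, b, ha, hb, hab⟩ := s36n2e_key_nonunits (K := K) O hO hdom hx
  exact ⟨a, b, by rw [pow_one]; exact ha, hb, hab⟩

theorem s36Ord_mul (O : ValuationSubring L) (hO : ∀ r : R, algebraMap R L r ∈ O)
    {k l : ℕ} {x y : L} (hx : S36Ord O hO k x) (hy : S36Ord O hO l y) :
    S36Ord O hO (k + l) (x * y) := by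
  obtain ⟨a, b, ha, hb, hab⟩ := hx
  obtain ⟨a', b', ha', hb', hab'⟩ := hy
  refine ⟨a * a', b * b', ?_, ?_, ?_⟩
  · rw [pow_add]
    exact Ideal.mul_mem_mul ha ha'
  · intro h
    rcases (unipPrime_isPrime O hO).mem_or_mem h with h1 | h1
    · exact hb h1
    · exact hb' h1
  · push_cast
    rw [← hab, ← hab']
    ring

theorem s36Ord_pow (O : ValuationSubring L) (hO : ∀ r : R, algebraMap R L r ∈ O)
    {k : ℕ} {x : L} (hx : S36Ord O hO k x) (m : ℕ) : S36Ord O hO (m * k) (x ^ m) := by
  obtain ⟨a, b, ha, hb, hab⟩ := hx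
  refine ⟨a ^ m, b ^ m, ?_, ?_, ?_⟩
  · rw [mul_comm, pow_mul]
    exact Ideal.pow_mem_pow ha m
  · intro h
    exact hb ((unipPrime_isPrime O hO).mem_of_pow_mem m h)
  · push_cast
    rw [← hab]
    ring

include K in
set_option synthInstance.maxHeartbeats 400000 in
set_option maxHeartbeats 1600000 in
/-- an integral element of order `≥ k` lies in `P ^ k` (`P` is maximal, so `P ^ k` is primary) -/
theorem s36Ord_mem (O : ValuationSubring L) (hO : ∀ r : R, algebraMap R L r ∈ O)
    (hdom : ∀ r ∈ maximalIdeal R, algebraMap R L r ∈ O.nonunits)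
    {k : ℕ} {s : integralClosure R L} (hs : S36Ord O hO k (s : L)) :
    s ∈ unipPrime O hO ^ k := by
  obtain ⟨a, b, ha, hb, hab⟩ := hs
  rcases Nat.eq_zero_or_pos k with hk | hk
  · subst hk
    rw [pow_zero, Ideal.one_eq_top]
    trivial
  have hmax : (unipPrime O hO).IsMaximal := s36n2e_prime_isMaximal (K := K) O hO hdom
  have hrad : (unipPrime O hO ^ k).radical = unipPrime O hO := by
    rw [Ideal.radical_pow _ (Nat.pos_iff_ne_zero.mp hk), Ideal.IsPrime.radical inferInstance]
  have hprim : (unipPrime O hO ^ k).IsPrimary := by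
    apply Ideal.isPrimary_of_isMaximal_radical
    rw [hrad]
    exact hmax
  have hsb : s * b ∈ unipPrime O hO ^ k := by
    have : s * b = a := by
      apply Subtype.ext
      push_cast
      exact hab
    rw [this]
    exact ha
  rcases (Ideal.isPrimary_iff.mp hprim).2 hsb with h1 | h1
  · exact h1
  · rw [hrad] at h1
    exact absurd h1 hb

include K in
set_option synthInstance.maxHeartbeats 400000 in
set_option maxHeartbeats 1600000 in
/-- if the uniformizer `ϖ` of `R` has order `≥ k` at `O`, then `k ≤ e` -/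
theorem s36Ord_le_ramificationIdx (O : ValuationSubring L)
    (hO : ∀ r : R, algebraMap R L r ∈ O)
    (hdom : ∀ r ∈ maximalIdeal R, algebraMap R L r ∈ O.nonunits)
    {ϖ : R} (hϖ : maximalIdeal R ≤ Ideal.span {ϖ})
    {k : ℕ} (hk : S36Ord O hO k (algebraMap R L ϖ)) :
    k ≤ (unipPrime O hO).ramificationIdx R := by
  have : IsTorsionFree R L := .trans_faithfulSMul R K L
  have : IsDedekindDomain (integralClosure R L) := integralClosure.isDedekindDomain R K L
  have : IsTorsionFree R (integralClosure R L) := IsIntegralClosure.isTorsionFree R L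
  have hlo : (unipPrime O hO).LiesOver (maximalIdeal R) := unipPrime_liesOver O hO hdom
  apply s36n2e_le_ramificationIdx (maximalIdeal R) (IsDiscreteValuationRing.not_a_field R)
  have h1 : algebraMap R (integralClosure R L) ϖ ∈ unipPrime O hO ^ k :=
    s36Ord_mem (K := K) O hO hdom hk
  calc (maximalIdeal R).map (algebraMap R (integralClosure R L))
      ≤ (Ideal.span {ϖ}).map (algebraMap R (integralClosure R L)) := Ideal.map_mono hϖ
    _ = Ideal.span {algebraMap R (integralClosure R L) ϖ} := by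
        rw [Ideal.map_span, Set.image_singleton]
    _ ≤ unipPrime O hO ^ k := (Ideal.span_singleton_le_iff_mem _).mpr h1

include K in
set_option synthInstance.maxHeartbeats 400000 in
set_option maxHeartbeats 1600000 in
/-- **(RAM)**: if `e ≤ m` then `x ^ m ∈ ϖ O` for every `x` in the maximal ideal of `O`. -/
theorem s36n2e_ram (O : ValuationSubring L)
    (hO : ∀ r : R, algebraMap R L r ∈ O)
    (hdom : ∀ r ∈ maximalIdeal R, algebraMap R L r ∈ O.nonunits)
    {ϖ : R} (hϖ : maximalIdeal R ≤ Ideal.span {ϖ}) (hϖ0 : ϖ ≠ 0)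
    {m : ℕ} (he : (unipPrime O hO).ramificationIdx R ≤ m)
    {x : L} (hx : x ∈ O.nonunits) : ∃ z ∈ O, x ^ m = algebraMap R L ϖ * z := by
  have : IsTorsionFree R L := .trans_faithfulSMul R K L
  have hϖL : algebraMap R L ϖ ≠ 0 := by
    intro h
    apply hϖ0
    have hinj : Function.Injective (algebraMap R L) := FaithfulSMul.algebraMap_injective R L
    exact hinj (by rw [h, map_zero])
  by_cases hz : x ^ m / algebraMap R L ϖ ∈ O
  · exact ⟨_, hz, by field_simp⟩
  exfalso
  -- `y := ϖ / x ^ m` lies in the maximal ideal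
  have hy : algebraMap R L ϖ / x ^ m ∈ O.nonunits := by
    rw [ValuationSubring.mem_nonunits_iff]
    have h1 : ¬ O.valuation (x ^ m / algebraMap R L ϖ) ≤ 1 := by
      rw [ValuationSubring.valuation_le_one_iff]
      exact hz
    have h2 : O.valuation (algebraMap R L ϖ / x ^ m) = (O.valuation (x ^ m / algebraMap R L ϖ))⁻¹ := by
      rw [← map_inv₀, inv_div]
    rw [h2]
    exact inv_lt_one_of_one_lt₀ (not_le.mp h1)
  have hxm : x ^ m ≠ 0 := by
    intro h
    apply hz
    rw [h, zero_div]
    exact O.zero_mem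
  have hord : S36Ord O hO (m * 1 + 1) (algebraMap R L ϖ) := by
    have h1 := s36Ord_mul O hO (s36Ord_pow O hO (s36Ord_one (K := K) O hO hdom hx) m)
      (s36Ord_one (K := K) O hO hdom hy)
    have h2 : x ^ m * (algebraMap R L ϖ / x ^ m) = algebraMap R L ϖ := by
      field_simp
    rwa [h2] at h1
  have := s36Ord_le_ramificationIdx (K := K) O hO hdom hϖ hord
  omega

include K in
/-- two dominating valuation rings cutting out the same prime have the same maximal ideal -/
theorem s36n2e_mem_of_prime_eq (O₁ O₂ : ValuationSubring L)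
    (h₁ : ∀ r : R, algebraMap R L r ∈ O₁)
    (hdom₁ : ∀ r ∈ maximalIdeal R, algebraMap R L r ∈ O₁.nonunits)
    (h₂ : ∀ r : R, algebraMap R L r ∈ O₂)
    (heq : unipPrime O₁ h₁ = unipPrime O₂ h₂) {g : L} (hg : g ∈ O₁.nonunits) :
    g ∈ O₂.nonunits := by
  obtain ⟨a, b, ha, hb, hab⟩ := s36n2e_key_nonunits (K := K) O₁ h₁ hdom₁ hg
  have ha2 : (a : L) ∈ O₂.nonunits := by
    rw [← mem_unipPrime O₂ h₂, ← heq]
    exact ha
  have hb2 : O₂.valuation (b : L) = 1 := by
    apply s36n2e_val_eq_one O₂ h₂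
    rw [← heq]
    exact hb
  rw [ValuationSubring.mem_nonunits_iff] at ha2 ⊢
  rw [← hab, map_mul, hb2, mul_one] at ha2
  exact ha2

end Ord

/-- Hypotheses of the two-valuation theorem at level `q²`: two valuation rings `O₁ ≠ O₂` of `L`
dominating the discrete valuation ring `R` (uniformizer `ϖ`), the second one ramified of index
`≥ n` (`ϖ = t ^ n · z`). -/
structure S36TwoVal (R : Type*) {L : Type*} [CommRing R] [IsLocalRing R] [Field L] [Algebra R L]
    (O₁ O₂ : ValuationSubring L) (n : ℕ) (ϖ : R) : Prop where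
  le₁ : ∀ r : R, algebraMap R L r ∈ O₁
  le₂ : ∀ r : R, algebraMap R L r ∈ O₂
  dom₁ : ∀ r ∈ maximalIdeal R, algebraMap R L r ∈ O₁.nonunits
  dom₂ : ∀ r ∈ maximalIdeal R, algebraMap R L r ∈ O₂.nonunits
  unif : maximalIdeal R ≤ Ideal.span {ϖ}
  sep : ∃ g : L, (g ∈ O₁.nonunits ∧ g ∉ O₂.nonunits) ∨ (g ∈ O₂.nonunits ∧ g ∉ O₁.nonunits)
  ram : ∃ t z : L, t ∈ O₂.nonunits ∧ z ∈ O₂ ∧ algebraMap R L ϖ = t ^ n * z

/-- Hypotheses of the one-valuation theorem: a valuation ring `O` of `L` dominating `R` with `n`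
integral elements whose residues are independent over the residue field of `R`. -/
structure S36OneVal (R : Type*) {L : Type*} [CommRing R] [IsLocalRing R] [Field L] [Algebra R L]
    (O : ValuationSubring L) (n : ℕ) (ϖ : R) : Prop where
  le : ∀ r : R, algebraMap R L r ∈ O
  dom : ∀ r ∈ maximalIdeal R, algebraMap R L r ∈ O.nonunits
  unif : maximalIdeal R ≤ Ideal.span {ϖ}
  indep : ∃ y : Fin n → L, (∀ i, IsIntegral R (y i)) ∧
    ∀ c : Fin n → R, (∑ i, algebraMap R L (c i) * y i) ∈ O.nonunits →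
      ∀ i, c i ∈ maximalIdeal R

section Main

variable {R K L : Type*} [CommRing R] [IsDomain R] [IsDiscreteValuationRing R]
  [Field K] [Field L] [Algebra R K] [IsFractionRing R K] [Algebra K L] [Algebra R L]
  [IsScalarTower R K L] [FiniteDimensional K L] [Algebra.IsSeparable K L]

include K in
set_option synthInstance.maxHeartbeats 400000 in
set_option maxHeartbeats 1600000 in
/-- **Two-valuation theorem, level `q²`.**  In the situation `S36TwoVal` with `[L : K] = n + 1`:
(EXT) the integral closure of `R` in `L` is `O₁ ∩ O₂`; (F₁), (F₂) the residue fields of `O₁` and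
`O₂` are that of `R`; (U₁) `O₁` is unramified; (RAM₂) `e(O₂) = n`. -/
theorem s36n2e_twoVal_main {n : ℕ} (hdeg : finrank K L = n + 1)
    {O₁ O₂ : ValuationSubring L} {ϖ : R} (h : S36TwoVal R O₁ O₂ n ϖ) :
    (∀ x ∈ O₁, x ∈ O₂ → IsIntegral R x) ∧
      (∀ x ∈ O₁, ∃ c : R, x - algebraMap R L c ∈ O₁.nonunits) ∧
      (∀ x ∈ O₂, ∃ c : R, x - algebraMap R L c ∈ O₂.nonunits) ∧
      (∀ x ∈ O₁.nonunits, ∃ z ∈ O₁, x = algebraMap R L ϖ * z) ∧
      (∀ x ∈ O₂.nonunits, ∃ z ∈ O₂, x ^ n = algebraMap R L ϖ * z) := by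
  classical
  have : IsTorsionFree R L := .trans_faithfulSMul R K L
  have : IsDedekindDomain (integralClosure R L) := integralClosure.isDedekindDomain R K L
  have : IsFractionRing (integralClosure R L) L :=
    integralClosure.isFractionRing_of_finite_extension K L
  have : Module.Finite R (integralClosure R L) :=
    IsIntegralClosure.finite R K L (integralClosure R L)
  have : IsTorsionFree R (integralClosure R L) := IsIntegralClosure.isTorsionFree R L
  have : Module.Flat R (integralClosure R L) := inferInstance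
  have hrank : finrank R (integralClosure R L) = n + 1 := by
    rw [IsIntegralClosure.rank R K L (integralClosure R L), hdeg]
  set P₁ := unipPrime O₁ h.le₁ with hP₁
  set P₂ := unipPrime O₂ h.le₂ with hP₂
  have hlo₁ : P₁.LiesOver (maximalIdeal R) := unipPrime_liesOver O₁ h.le₁ h.dom₁
  have hlo₂ : P₂.LiesOver (maximalIdeal R) := unipPrime_liesOver O₂ h.le₂ h.dom₂
  have hϖ0 : ϖ ≠ 0 := by
    intro h0
    have h1 := h.unif
    rw [h0, Ideal.span_singleton_zero, le_bot_iff] at h1
    exact IsDiscreteValuationRing.not_a_field R h1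
  -- the two primes are distinct
  have hne : P₁ ≠ P₂ := by
    obtain ⟨g, ⟨hg1, hg2⟩ | ⟨hg2, hg1⟩⟩ := h.sep
    · intro heq
      exact hg2 (s36n2e_mem_of_prime_eq (K := K) O₁ O₂ h.le₁ h.dom₁ h.le₂ heq hg1)
    · intro heq
      exact hg1 (s36n2e_mem_of_prime_eq (K := K) O₂ O₁ h.le₂ h.dom₂ h.le₁ heq.symm hg2)
  -- ramification of the second one
  have he : n ≤ P₂.ramificationIdx R := by
    obtain ⟨t, z, ht, hz, htz⟩ := h.ram
    have hord : S36Ord O₂ h.le₂ (n * 1 + 0) (algebraMap R L ϖ) := by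
      rw [htz]
      exact s36Ord_mul O₂ h.le₂
        (s36Ord_pow O₂ h.le₂ (s36Ord_one (K := K) O₂ h.le₂ h.dom₂ ht) n)
        (s36Ord_zero (K := K) O₂ h.le₂ h.dom₂ hz)
    have h1 := s36Ord_le_ramificationIdx (K := K) O₂ h.le₂ h.dom₂ h.unif hord
    have h2 : n * 1 + 0 = n := by omega
    rw [h2] at h1
    exact h1
  have hf₂pos : 0 < P₂.inertiaDeg R := Ideal.inertiaDeg_pos P₂ R
  have he₂pos : 0 < P₂.ramificationIdx R := Ideal.ramificationIdx_pos P₂ R
  have hef : n ≤ P₂.ramificationIdx R * P₂.inertiaDeg R :=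
    le_trans he (Nat.le_mul_of_pos_right _ hf₂pos)
  obtain ⟨hall, he₁, hf₁, hef₂⟩ := s36n2e_two_primes (maximalIdeal R) P₁ P₂ hne n hrank hef
  have hn : 0 < n := by
    rw [← hef₂]
    exact Nat.mul_pos he₂pos hf₂pos
  have hf₂ : P₂.inertiaDeg R = 1 := by
    have h1 : n * P₂.inertiaDeg R ≤ n * 1 := by
      calc n * P₂.inertiaDeg R ≤ P₂.ramificationIdx R * P₂.inertiaDeg R :=
            Nat.mul_le_mul_right _ he
        _ = n := hef₂
        _ = n * 1 := (mul_one n).symm
    have h2 := Nat.le_of_mul_le_mul_left h1 hn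
    omega
  have he₂ : P₂.ramificationIdx R = n := by
    rw [hf₂, mul_one] at hef₂
    exact hef₂
  refine ⟨?_, ?_, ?_, ?_, ?_⟩
  · intro x hx₁ hx₂
    let O : Bool → ValuationSubring L := fun b => cond b O₁ O₂
    have hO : ∀ i, ∀ r : R, algebraMap R L r ∈ O i := by
      intro i
      cases i
      · exact h.le₂
      · exact h.le₁
    have hdom : ∀ i, ∀ r ∈ maximalIdeal R, algebraMap R L r ∈ (O i).nonunits := by
      intro i
      cases i
      · exact h.dom₂
      · exact h.dom₁
    refine s36n2e_ext (K := K) O hO hdom ?_ ?_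
    · intro P hP hPl
      rcases hall P hP hPl with h1 | h1
      · exact ⟨true, h1⟩
      · exact ⟨false, h1⟩
    · intro i
      cases i
      · exact hx₂
      · exact hx₁
  · intro x hx
    exact s36n2e_resid (K := K) O₁ h.le₁ h.dom₁ hf₁ hx
  · intro x hx
    exact s36n2e_resid (K := K) O₂ h.le₂ h.dom₂ hf₂ hx
  · intro x hx
    obtain ⟨z, hz, hxz⟩ := s36n2e_ram (K := K) O₁ h.le₁ h.dom₁ h.unif hϖ0 (m := 1)
      (le_of_eq he₁) hx
    exact ⟨z, hz, by rw [← hxz, pow_one]⟩
  · intro x hx
    exact s36n2e_ram (K := K) O₂ h.le₂ h.dom₂ h.unif hϖ0 (le_of_eq he₂) hx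

include K in
set_option synthInstance.maxHeartbeats 400000 in
set_option maxHeartbeats 1600000 in
/-- **One-valuation theorem.**  In the situation `S36OneVal` with `[L : K] = n`:
(EXT) the integral closure of `R` in `L` is `O`; (U) `O` is unramified over `R`. -/
theorem s36n2e_oneVal_main {n : ℕ} (hdeg : finrank K L = n)
    {O : ValuationSubring L} {ϖ : R} (h : S36OneVal R O n ϖ) :
    (∀ x ∈ O, IsIntegral R x) ∧
      (∀ x ∈ O.nonunits, ∃ z ∈ O, x = algebraMap R L ϖ * z) := by
  classical
  have : IsTorsionFree R L := .trans_faithfulSMul R K L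
  have : IsDedekindDomain (integralClosure R L) := integralClosure.isDedekindDomain R K L
  have : IsFractionRing (integralClosure R L) L :=
    integralClosure.isFractionRing_of_finite_extension K L
  have : Module.Finite R (integralClosure R L) :=
    IsIntegralClosure.finite R K L (integralClosure R L)
  have : IsTorsionFree R (integralClosure R L) := IsIntegralClosure.isTorsionFree R L
  have : Module.Flat R (integralClosure R L) := inferInstance
  have hrank : finrank R (integralClosure R L) = n := by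
    rw [IsIntegralClosure.rank R K L (integralClosure R L), hdeg]
  set P := unipPrime O h.le with hP
  have hlo : P.LiesOver (maximalIdeal R) := unipPrime_liesOver O h.le h.dom
  have hϖ0 : ϖ ≠ 0 := by
    intro h0
    have h1 := h.unif
    rw [h0, Ideal.span_singleton_zero, le_bot_iff] at h1
    exact IsDiscreteValuationRing.not_a_field R h1
  have hf : n ≤ P.inertiaDeg R := by
    obtain ⟨y, hy, hind⟩ := h.indep
    exact unip_le_inertiaDeg (K := K) O h.le h.dom y hy hind
  have hepos : 0 < P.ramificationIdx R := Ideal.ramificationIdx_pos P R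
  have hfpos : 0 < P.inertiaDeg R := Ideal.inertiaDeg_pos P R
  have hef : n ≤ P.ramificationIdx R * P.inertiaDeg R :=
    le_trans hf (Nat.le_mul_of_pos_left _ hepos)
  obtain ⟨hall, hef'⟩ := s36n2e_one_prime (maximalIdeal R) P n hrank hef
  have he : P.ramificationIdx R = 1 := by
    have h1 : P.ramificationIdx R * P.inertiaDeg R ≤ 1 * P.inertiaDeg R := by
      rw [hef', one_mul]
      exact hf
    have h2 := Nat.le_of_mul_le_mul_right h1 hfpos
    omega
  refine ⟨?_, ?_⟩
  · intro x hx
    refine s36n2e_ext (K := K) (fun _ : Unit => O) (fun _ => h.le) (fun _ => h.dom) ?_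
      (fun _ => hx)
    intro P' hP' hPl
    exact ⟨(), hall P' hP' hPl⟩
  · intro x hx
    obtain ⟨z, hz, hxz⟩ := s36n2e_ram (K := K) O h.le h.dom h.unif hϖ0 (m := 1)
      (le_of_eq he) hx
    exact ⟨z, hz, by rw [← hxz, pow_one]⟩

end Main

end Fermat.Agent.S36


end ZBUNIP_037_3

/-! ### bundled: `Fermat.Agent.S36.N2ExtHom` -/
section ZBUNIP_037_4

/-!
# S36 / G-N2, piece N2-ext, ring homomorphism form (helper19)

`φ : F₁ →+* F` a finite separable extension of fields (algebra structure `φ.toAlgebra`, as in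
`S36/N2Abs.lean`), `W` a discrete valuation subring of `F₁` with uniformizer `ϖ`
(`𝔪(W) = ϖ W`), `V₁`, `V₂`, `V` valuation subrings of `F`.

* `S36TwoHom φ W ϖ V₁ V₂ n` + `s36n2e_two_hom` : patterns `(α, ∞)` and `(β, 0)`.
* `S36OneHom φ W ϖ V n` + `s36n2e_one_hom` : patterns `(α, 0)` and `(β, ∞)`.

Outputs: `S36ExtOut φ W x` (integrality of `x` over `φ W`, in three equivalent forms),
residue surjectivity (F), and the ramification statements (U), (RAM).
-/

set_option autoImplicit false
set_option linter.unusedSectionVars false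
set_option linter.style.haveILetI false

noncomputable section

namespace Fermat.Agent.S36

open Module IsLocalRing Polynomial
open Fermat.Agent.UNIP

variable {F₁ F : Type*} [Field F₁] [Field F]

/-- the algebra structure `W → F₁ → F` -/
@[reducible] def s36n2eAlg (φ : F₁ →+* F) (W : ValuationSubring F₁) : Algebra W F :=
  (φ.comp W.subtype).toAlgebra

/-- Hypotheses of the two-valuation theorem, ring homomorphism form. -/
structure S36TwoHom (φ : F₁ →+* F) (W : ValuationSubring F₁) (ϖ : F₁)
    (V₁ V₂ : ValuationSubring F) (n : ℕ) : Prop where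
  unif_mem : ϖ ∈ W
  unif : ∀ x ∈ W.nonunits, ∃ y ∈ W, x = ϖ * y
  le₁ : ∀ z ∈ W, φ z ∈ V₁
  le₂ : ∀ z ∈ W, φ z ∈ V₂
  dom₁ : ∀ z ∈ W.nonunits, φ z ∈ V₁.nonunits
  dom₂ : ∀ z ∈ W.nonunits, φ z ∈ V₂.nonunits
  sep : ∃ g : F, (g ∈ V₁.nonunits ∧ g ∉ V₂.nonunits) ∨ (g ∈ V₂.nonunits ∧ g ∉ V₁.nonunits)
  ram : ∃ t z : F, t ∈ V₂.nonunits ∧ z ∈ V₂ ∧ φ ϖ = t ^ n * z

/-- Hypotheses of the one-valuation theorem, ring homomorphism form. -/
structure S36OneHom (φ : F₁ →+* F) (W : ValuationSubring F₁) (ϖ : F₁)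
    (V : ValuationSubring F) (n : ℕ) : Prop where
  unif_mem : ϖ ∈ W
  unif : ∀ x ∈ W.nonunits, ∃ y ∈ W, x = ϖ * y
  le : ∀ z ∈ W, φ z ∈ V
  dom : ∀ z ∈ W.nonunits, φ z ∈ V.nonunits
  indep : ∃ y : Fin n → F,
    (∀ i, ∃ p : F₁[X], p.Monic ∧ (∀ k, p.coeff k ∈ W) ∧ p.eval₂ φ (y i) = 0) ∧
    ∀ c : Fin n → F₁, (∀ i, c i ∈ W) → (∑ i, φ (c i) * y i) ∈ V.nonunits →
      ∀ i, c i ∈ W.nonunits

/-- a monic polynomial with coefficients in `W` is the image of a monic polynomial over `W` -/
theorem s36n2e_lift_poly (W : ValuationSubring F₁) {p : F₁[X]} (hp : p.Monic)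
    (hc : ∀ k, p.coeff k ∈ W) :
    ∃ P : (W : Type _)[X], P.Monic ∧ P.map W.subtype = p := by
  have hlift : p ∈ Polynomial.lifts W.subtype := by
    rw [Polynomial.lifts_iff_coeff_lifts]
    intro k
    exact ⟨⟨p.coeff k, hc k⟩, rfl⟩
  obtain ⟨P, hP, -, hPm⟩ := Polynomial.lifts_and_degree_eq_and_monic hlift hp
  exact ⟨P, hPm, hP⟩

/-- integrality over `W` via `φ`, explicit form ⇒ `IsIntegral` -/
theorem s36n2e_isIntegral_of_poly (φ : F₁ →+* F) (W : ValuationSubring F₁) {x : F}
    (h : ∃ p : F₁[X], p.Monic ∧ (∀ k, p.coeff k ∈ W) ∧ p.eval₂ φ x = 0) :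
    letI := s36n2eAlg φ W
    IsIntegral W x := by
  letI := s36n2eAlg φ W
  obtain ⟨p, hp, hc, hx⟩ := h
  obtain ⟨P, hP, hPp⟩ := s36n2e_lift_poly W hp hc
  refine ⟨P, hP, ?_⟩
  rw [← hx, ← hPp, Polynomial.eval₂_map]
  rfl

/-- `IsIntegral` ⇒ explicit form -/
theorem s36n2e_poly_of_isIntegral (φ : F₁ →+* F) (W : ValuationSubring F₁) {x : F}
    (h : letI := s36n2eAlg φ W; IsIntegral W x) :
    ∃ p : F₁[X], p.Monic ∧ (∀ k, p.coeff k ∈ W) ∧ p.eval₂ φ x = 0 := by
  letI := s36n2eAlg φ W
  obtain ⟨P, hP, hPx⟩ := h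
  refine ⟨P.map W.subtype, hP.map _, ?_, ?_⟩
  · intro k
    rw [Polynomial.coeff_map]
    exact (P.coeff k).2
  · rw [Polynomial.eval₂_map]
    exact hPx

/-- `IsIntegral` ⇒ the minimal polynomial over `F₁` has its coefficients in `W` -/
theorem s36n2e_minpoly_of_isIntegral (φ : F₁ →+* F) (W : ValuationSubring F₁) {x : F}
    (h : letI := s36n2eAlg φ W; IsIntegral W x) (k : ℕ) :
    letI := φ.toAlgebra
    (minpoly F₁ x).coeff k ∈ W := by
  letI := φ.toAlgebra
  letI := s36n2eAlg φ W
  haveI : IsScalarTower W F₁ F := IsScalarTower.of_algebraMap_eq (fun _ => rfl)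
  rw [minpoly.isIntegrallyClosed_eq_field_fractions' F₁ h, Polynomial.coeff_map]
  exact ((minpoly W x).coeff k).2

section Inst

variable (φ : F₁ →+* F) (W : ValuationSubring F₁)

/-- membership in the maximal ideal of `W` -/
theorem s36n2e_mem_max {r : W} : r ∈ maximalIdeal W ↔ (r : F₁) ∈ W.nonunits :=
  ValuationSubring.coe_mem_nonunits_iff.symm

theorem s36n2e_unif {ϖ : F₁} (hϖ : ϖ ∈ W) (h : ∀ x ∈ W.nonunits, ∃ y ∈ W, x = ϖ * y) :
    maximalIdeal W ≤ Ideal.span {(⟨ϖ, hϖ⟩ : W)} := by
  intro r hr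
  obtain ⟨y, hy, hry⟩ := h (r : F₁) ((s36n2e_mem_max W).mp hr)
  rw [Ideal.mem_span_singleton']
  refine ⟨⟨y, hy⟩, ?_⟩
  apply Subtype.ext
  show y * ϖ = (r : F₁)
  rw [hry, mul_comm]

end Inst

set_option synthInstance.maxHeartbeats 400000 in
set_option maxHeartbeats 1600000 in
/-- **Two-valuation theorem, ring homomorphism form** (patterns `(α, ∞)`, `(β, 0)`). -/
theorem s36n2e_two_hom (φ : F₁ →+* F)
    (hfin : letI := φ.toAlgebra; Module.Finite F₁ F)
    (hsep : letI := φ.toAlgebra; Algebra.IsSeparable F₁ F)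
    {n : ℕ} (hdeg : letI := φ.toAlgebra; Module.finrank F₁ F = n + 1)
    (W : ValuationSubring F₁) (hW : IsDiscreteValuationRing W) {ϖ : F₁}
    {V₁ V₂ : ValuationSubring F} (h : S36TwoHom φ W ϖ V₁ V₂ n) :
    (∀ x ∈ V₁, x ∈ V₂ →
        ∃ p : F₁[X], p.Monic ∧ (∀ k, p.coeff k ∈ W) ∧ p.eval₂ φ x = 0) ∧
      (∀ x ∈ V₁, ∃ c ∈ W, x - φ c ∈ V₁.nonunits) ∧
      (∀ x ∈ V₂, ∃ c ∈ W, x - φ c ∈ V₂.nonunits) ∧
      (∀ x ∈ V₁.nonunits, ∃ z ∈ V₁, x = φ ϖ * z) ∧
      (∀ x ∈ V₂.nonunits, ∃ z ∈ V₂, x ^ n = φ ϖ * z) := by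
  letI := φ.toAlgebra
  letI := s36n2eAlg φ W
  haveI : IsScalarTower W F₁ F := IsScalarTower.of_algebraMap_eq (fun _ => rfl)
  haveI : FiniteDimensional F₁ F := hfin
  haveI : Algebra.IsSeparable F₁ F := hsep
  haveI := hW
  have hT : S36TwoVal W V₁ V₂ n (⟨ϖ, h.unif_mem⟩ : W) :=
    { le₁ := fun r => h.le₁ _ r.2
      le₂ := fun r => h.le₂ _ r.2
      dom₁ := fun r hr => h.dom₁ _ ((s36n2e_mem_max W).mp hr)
      dom₂ := fun r hr => h.dom₂ _ ((s36n2e_mem_max W).mp hr)
      unif := s36n2e_unif W h.unif_mem h.unif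
      sep := h.sep
      ram := h.ram }
  obtain ⟨h1, h2, h3, h4, h5⟩ := s36n2e_twoVal_main (K := F₁) hdeg hT
  refine ⟨?_, ?_, ?_, h4, h5⟩
  · intro x hx₁ hx₂
    exact s36n2e_poly_of_isIntegral φ W (h1 x hx₁ hx₂)
  · intro x hx
    obtain ⟨c, hc⟩ := h2 x hx
    exact ⟨c, c.2, hc⟩
  · intro x hx
    obtain ⟨c, hc⟩ := h3 x hx
    exact ⟨c, c.2, hc⟩

set_option synthInstance.maxHeartbeats 400000 in
set_option maxHeartbeats 1600000 in
/-- **One-valuation theorem, ring homomorphism form** (patterns `(α, 0)`, `(β, ∞)`). -/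
theorem s36n2e_one_hom (φ : F₁ →+* F)
    (hfin : letI := φ.toAlgebra; Module.Finite F₁ F)
    (hsep : letI := φ.toAlgebra; Algebra.IsSeparable F₁ F)
    {n : ℕ} (hdeg : letI := φ.toAlgebra; Module.finrank F₁ F = n)
    (W : ValuationSubring F₁) (hW : IsDiscreteValuationRing W) {ϖ : F₁}
    {V : ValuationSubring F} (h : S36OneHom φ W ϖ V n) :
    (∀ x ∈ V, ∃ p : F₁[X], p.Monic ∧ (∀ k, p.coeff k ∈ W) ∧ p.eval₂ φ x = 0) ∧
      (∀ x ∈ V.nonunits, ∃ z ∈ V, x = φ ϖ * z) := by
  letI := φ.toAlgebra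
  letI := s36n2eAlg φ W
  haveI : IsScalarTower W F₁ F := IsScalarTower.of_algebraMap_eq (fun _ => rfl)
  haveI : FiniteDimensional F₁ F := hfin
  haveI : Algebra.IsSeparable F₁ F := hsep
  haveI := hW
  have hT : S36OneVal W V n (⟨ϖ, h.unif_mem⟩ : W) :=
    { le := fun r => h.le _ r.2
      dom := fun r hr => h.dom _ ((s36n2e_mem_max W).mp hr)
      unif := s36n2e_unif W h.unif_mem h.unif
      indep := by
        obtain ⟨y, hy, hind⟩ := h.indep
        refine ⟨y, fun i => s36n2e_isIntegral_of_poly φ W (hy i), ?_⟩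
        intro c hc i
        rw [s36n2e_mem_max]
        exact hind (fun i => (c i : F₁)) (fun i => (c i).2) hc i }
  obtain ⟨h1, h2⟩ := s36n2e_oneVal_main (K := F₁) hdeg hT
  refine ⟨?_, h2⟩
  intro x hx
  exact s36n2e_poly_of_isIntegral φ W (h1 x hx)

end Fermat.Agent.S36

end
end ZBUNIP_037_4

/-! ### bundled: `Fermat.Agent.RIB.MP.RedResAbs` -/
section ZBUNIP_037_5
/-
Row 37, Mazur's principle, piece MP-RED, part RED-a (i) "K-RES" (helper91).

`q ∤ M` a prime, `F_M = modularFunctionFieldFullC E M ⊆ F_{Mq}`, `W = vtInf hB M` the Gauss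
valuation ring of `F_M`, `V_∞ = vtFam … true`, `V_0 = vtFam … false` the two vertical valuation
rings of `F_{Mq}`.  `[F_{Mq} : F_M] = q + 1`, `V_∞` and `V_0` both dominate `W`, and the residue
field of `V_0` has degree `≥ q` over that of `W` (`1, j_q, …, j_q^(q-1)`): hence (two-valuation
theorem `UNIP.unip_twoVal_main`) the residue field of `V_∞` is that of `W`:

* `ribmp_red_two_hom` : the abstract statement, ring homomorphism form;
* `ribmp_red_res` : `∀ x ∈ V_∞, ∃ c ∈ W, x − c ∈ 𝔪(V_∞)`.
-/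

set_option autoImplicit false
set_option linter.unusedSectionVars false
set_option linter.unusedVariables false
set_option linter.style.haveILetI false
set_option linter.style.longLine false

noncomputable section

namespace Fermat.Agent.RIB.MP

open Module IsLocalRing Polynomial
open Fermat.Agent.UNIP Fermat.Agent.S36

section Abs

variable {F₁ F : Type*} [Field F₁] [Field F]

/-- Hypotheses of the two-valuation theorem with residue degrees `1` and `n`, ring homomorphism
form. -/
structure RibmpTwoHom (φ : F₁ →+* F) (W : ValuationSubring F₁)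
    (V₁ V₂ : ValuationSubring F) (n : ℕ) : Prop where
  le₁ : ∀ z ∈ W, φ z ∈ V₁
  le₂ : ∀ z ∈ W, φ z ∈ V₂
  dom₁ : ∀ z ∈ W.nonunits, φ z ∈ V₁.nonunits
  dom₂ : ∀ z ∈ W.nonunits, φ z ∈ V₂.nonunits
  sep : ∃ g : F, (∃ p : F₁[X], p.Monic ∧ (∀ k, p.coeff k ∈ W) ∧ p.eval₂ φ g = 0) ∧
    g ∈ V₁.nonunits ∧ g ∉ V₂.nonunits
  indep : ∃ y : Fin n → F,
    (∀ i, ∃ p : F₁[X], p.Monic ∧ (∀ k, p.coeff k ∈ W) ∧ p.eval₂ φ (y i) = 0) ∧
    ∀ c : Fin n → F₁, (∀ i, c i ∈ W) → (∑ i, φ (c i) * y i) ∈ V₂.nonunits →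
      ∀ i, c i ∈ W.nonunits

set_option synthInstance.maxHeartbeats 400000 in
set_option maxHeartbeats 1600000 in
/-- **Two-valuation theorem, ring homomorphism form, residue degrees `1` and `n`**: the residue
field of `V₁` is that of `W`. -/
theorem ribmp_red_two_hom (φ : F₁ →+* F)
    (hfin : letI := φ.toAlgebra; Module.Finite F₁ F)
    (hsep : letI := φ.toAlgebra; Algebra.IsSeparable F₁ F)
    {n : ℕ} (hn : 0 < n) (hdeg : letI := φ.toAlgebra; Module.finrank F₁ F = n + 1)
    (W : ValuationSubring F₁) (hW : IsDiscreteValuationRing W)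
    {V₁ V₂ : ValuationSubring F} (h : RibmpTwoHom φ W V₁ V₂ n) :
    ∀ x ∈ V₁, ∃ c ∈ W, x - φ c ∈ V₁.nonunits := by
  letI := φ.toAlgebra
  letI := s36n2eAlg φ W
  haveI : IsScalarTower W F₁ F := IsScalarTower.of_algebraMap_eq (fun _ => rfl)
  haveI : FiniteDimensional F₁ F := hfin
  haveI : Algebra.IsSeparable F₁ F := hsep
  haveI := hW
  have hT : UnipTwoVal W V₁ V₂ n :=
    { le₁ := fun r => h.le₁ _ r.2
      le₂ := fun r => h.le₂ _ r.2
      dom₁ := fun r hr => h.dom₁ _ ((s36n2e_mem_max W).mp hr)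
      dom₂ := fun r hr => h.dom₂ _ ((s36n2e_mem_max W).mp hr)
      sep := by
        obtain ⟨g, hg, hg1, hg2⟩ := h.sep
        exact ⟨g, s36n2e_isIntegral_of_poly φ W hg, hg1, hg2⟩
      indep := by
        obtain ⟨y, hy, hind⟩ := h.indep
        refine ⟨y, fun i => s36n2e_isIntegral_of_poly φ W (hy i), ?_⟩
        intro c hc i
        rw [s36n2e_mem_max]
        exact hind (fun i => (c i : F₁)) (fun i => (c i).2) hc i }
  obtain ⟨-, h2⟩ := unip_twoVal_main (K := F₁) hn hdeg hT
  intro x hx
  obtain ⟨c, hc⟩ := h2 x hx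
  exact ⟨c, c.2, hc⟩

/-- integrality in polynomial form: sums, products, images -/
theorem ribmp_red_poly_map (φ : F₁ →+* F) (W : ValuationSubring F₁) {z : F₁} (hz : z ∈ W) :
    ∃ p : F₁[X], p.Monic ∧ (∀ k, p.coeff k ∈ W) ∧ p.eval₂ φ (φ z) = 0 := by
  letI := s36n2eAlg φ W
  exact s36n2e_poly_of_isIntegral φ W
    (isIntegral_algebraMap (R := W) (A := F) (x := ⟨z, hz⟩))

theorem ribmp_red_poly_sub (φ : F₁ →+* F) (W : ValuationSubring F₁) {x y : F}
    (hx : ∃ p : F₁[X], p.Monic ∧ (∀ k, p.coeff k ∈ W) ∧ p.eval₂ φ x = 0)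
    (hy : ∃ p : F₁[X], p.Monic ∧ (∀ k, p.coeff k ∈ W) ∧ p.eval₂ φ y = 0) :
    ∃ p : F₁[X], p.Monic ∧ (∀ k, p.coeff k ∈ W) ∧ p.eval₂ φ (x - y) = 0 := by
  letI := s36n2eAlg φ W
  exact s36n2e_poly_of_isIntegral φ W
    ((s36n2e_isIntegral_of_poly φ W hx).sub (s36n2e_isIntegral_of_poly φ W hy))

theorem ribmp_red_poly_pow (φ : F₁ →+* F) (W : ValuationSubring F₁) {x : F}
    (hx : ∃ p : F₁[X], p.Monic ∧ (∀ k, p.coeff k ∈ W) ∧ p.eval₂ φ x = 0) (n : ℕ) :
    ∃ p : F₁[X], p.Monic ∧ (∀ k, p.coeff k ∈ W) ∧ p.eval₂ φ (x ^ n) = 0 := by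
  letI := s36n2eAlg φ W
  exact s36n2e_poly_of_isIntegral φ W ((s36n2e_isIntegral_of_poly φ W hx).pow n)

end Abs


end Fermat.Agent.RIB.MP

end
end ZBUNIP_037_5
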