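/- GENERATED FILE (helper35, build-time optimisation, NOTES/ZB.md): verbatim concatenation of the modules
   Fermat.Agent.UNIP.NodesInstAlg
   Do not edit; do not import together with these modules. -/
import Fermat.Agent.ZB.S28_002
import Fermat.Agent.ZB.S36_006

/-! ### bundled: `Fermat.Agent.UNIP.NodesInstAlg` -/
section ZBUNIP_024_0

/-!
# UNIP / U5 (Nodes): `F_M` is algebraic over `A[t]` for the coordinates `t = j`, `t = 1/j`

The hypothesis `halg` of `nodesInst_rank` / `nodesInst_homData` (`UNIP/NodesInst.lean`):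

* `nodesInstAlg_isAlgebraic` : `F` finite over `E(u)` ⟹ every `x : F` is algebraic over `A[u]`
  (`A` any domain with fraction field `E`);
* `nodesInstAlg_halg` : every `x : F_M` is algebraic over `A[t]`, for any `t : F_M` with
  `j ∈ E(t)`;
* `nodesInstAlg_halg_J`, `nodesInstAlg_halg_Jinv` : the charts `t = j` and `t = 1/j`.
-/

set_option autoImplicit false
set_option linter.unusedSectionVars false
set_option linter.style.haveILetI false

noncomputable section

namespace Fermat.Agent.UNIP

open Polynomial IntermediateField ModularCurve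

section Abs

variable {A E F : Type*} [CommRing A] [IsDomain A] [Field E] [Algebra A E] [IsFractionRing A E]
  [Field F] [Algebra E F] [Algebra A F] [IsScalarTower A E F]

theorem nodesInstAlg_mem_adjoinSimple (u : F) {x : F} (hx : x ∈ Algebra.adjoin A {u}) :
    x ∈ E⟮u⟯ := by
  induction hx using Algebra.adjoin_induction with
  | mem x hx =>
    rw [Set.mem_singleton_iff] at hx
    rw [hx]
    exact mem_adjoin_simple_self E u
  | algebraMap r =>
    rw [IsScalarTower.algebraMap_apply A E F]
    exact E⟮u⟯.algebraMap_mem _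
  | add x y _ _ hx hy => exact E⟮u⟯.add_mem hx hy
  | mul x y _ _ hx hy => exact E⟮u⟯.mul_mem hx hy

/-- the inclusion `A[u] → E(u)` -/
def nodesInstAlgIncl (u : F) : ↥(Algebra.adjoin A {u}) →+* E⟮u⟯ where
  toFun x := ⟨x.1, nodesInstAlg_mem_adjoinSimple u x.2⟩
  map_one' := rfl
  map_mul' _ _ := rfl
  map_zero' := rfl
  map_add' _ _ := rfl

theorem nodesInstAlg_aeval_integerNormalization (u : F) (r : E[X]) :
    ∃ b : A, b ≠ 0 ∧ ∃ r' : A[X], aeval u r' = algebraMap A F b * aeval u r := by
  obtain ⟨b, hb, hr⟩ := IsLocalization.integerNormalization_spec (nonZeroDivisors A) r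
  refine ⟨b, nonZeroDivisors.ne_zero hb,
    IsLocalization.integerNormalization (nonZeroDivisors A) r, ?_⟩
  have hsm : b • r = C (algebraMap A E b) * r := by
    rw [Algebra.smul_def]; rfl
  rw [← aeval_map_algebraMap E u, hr, hsm, map_mul, aeval_C,
    ← IsScalarTower.algebraMap_apply A E F]

/-- Every element of `E(u)` is a quotient of two polynomials in `u` with coefficients in `A`. -/
theorem nodesInstAlg_exists_div (u : F) {z : F} (hz : z ∈ E⟮u⟯) :
    ∃ x y : A[X], z = aeval u x / aeval u y := by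
  obtain ⟨r, s, rfl⟩ := (mem_adjoin_simple_iff E z).mp hz
  obtain ⟨br, hbr, r', hr'⟩ := nodesInstAlg_aeval_integerNormalization (A := A) u r
  obtain ⟨bs, hbs, s', hs'⟩ := nodesInstAlg_aeval_integerNormalization (A := A) u s
  have hinj : Function.Injective (algebraMap A F) := by
    rw [IsScalarTower.algebraMap_eq A E F]
    exact (algebraMap E F).injective.comp (IsFractionRing.injective A E)
  have hbr' : algebraMap A F br ≠ 0 := (map_ne_zero_iff _ hinj).mpr hbr
  have hbs' : algebraMap A F bs ≠ 0 := (map_ne_zero_iff _ hinj).mpr hbs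
  refine ⟨C bs * r', C br * s', ?_⟩
  rw [map_mul, map_mul, aeval_C, aeval_C, hr', hs']
  rw [show algebraMap A F bs * (algebraMap A F br * aeval u r)
      = (algebraMap A F bs * algebraMap A F br) * aeval u r by ring,
    show algebraMap A F br * (algebraMap A F bs * aeval u s)
      = (algebraMap A F bs * algebraMap A F br) * aeval u s by ring,
    mul_div_mul_left _ _ (mul_ne_zero hbs' hbr')]

/-- If `F` is finite over `E(u)`, every `x ∈ F` is algebraic over `A[u]`. -/
theorem nodesInstAlg_isAlgebraic (u : F) [FiniteDimensional E⟮u⟯ F] (x : F) :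
    IsAlgebraic ↥(Algebra.adjoin A {u}) x := by
  letI : Algebra ↥(Algebra.adjoin A {u}) E⟮u⟯ := (nodesInstAlgIncl (A := A) (E := E) u).toAlgebra
  haveI : IsScalarTower ↥(Algebra.adjoin A {u}) E⟮u⟯ F :=
    IsScalarTower.of_algebraMap_eq (fun _ => rfl)
  haveI : FaithfulSMul ↥(Algebra.adjoin A {u}) E⟮u⟯ :=
    (faithfulSMul_iff_algebraMap_injective _ _).2 (fun x y h => by
      apply Subtype.ext
      exact congrArg (fun z : E⟮u⟯ => (z : F)) h)
  haveI : IsFractionRing ↥(Algebra.adjoin A {u}) E⟮u⟯ :=
    IsFractionRing.of_field _ _ (fun z => by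
      obtain ⟨x, y, hxy⟩ := nodesInstAlg_exists_div (A := A) u z.2
      have hx : aeval u x ∈ Algebra.adjoin A ({u} : Set F) := by
        rw [Algebra.adjoin_singleton_eq_range_aeval]; exact ⟨x, rfl⟩
      have hy : aeval u y ∈ Algebra.adjoin A ({u} : Set F) := by
        rw [Algebra.adjoin_singleton_eq_range_aeval]; exact ⟨y, rfl⟩
      refine ⟨⟨_, hx⟩, ⟨_, hy⟩, Subtype.ext ?_⟩
      rw [hxy]
      rfl)
  rw [IsFractionRing.isAlgebraic_iff ↥(Algebra.adjoin A {u}) E⟮u⟯ F]
  exact IsAlgebraic.of_finite E⟮u⟯ x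

/-- If `j ∈ E(t)` and `F` is finite over `E(j)`, then `F` is finite over `E(t)`. -/
theorem nodesInstAlg_finite_of_mem (j t : F) (hjt : j ∈ E⟮t⟯) [FiniteDimensional E⟮j⟯ F] :
    FiniteDimensional E⟮t⟯ F := by
  have hle : E⟮j⟯ ≤ E⟮t⟯ := by
    rw [IntermediateField.adjoin_simple_le_iff]
    exact hjt
  obtain ⟨s, hs⟩ := (Module.finite_def (R := E⟮j⟯) (M := F)).mp inferInstance
  refine (Module.finite_def (R := E⟮t⟯) (M := F)).mpr ⟨s, ?_⟩
  rw [eq_top_iff]
  intro y hy'
  clear hy'
  have hy : y ∈ Submodule.span E⟮j⟯ (s : Set F) := by rw [hs]; trivial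
  induction hy using Submodule.span_induction with
  | mem z hz => exact Submodule.subset_span hz
  | zero => exact zero_mem _
  | add a b _ _ ha hb => exact add_mem ha hb
  | smul a b _ hb =>
    have h1 : a • b = (⟨(a : F), hle a.2⟩ : E⟮t⟯) • b := rfl
    rw [h1]
    exact Submodule.smul_mem _ _ hb

end Abs

section Mod

variable (A : Type*) {E : Type*} [CommRing A] [IsDomain A] [Field E] [Algebra A E]
  [IsFractionRing A E] (M : ℕ) [NeZero M]
  [Algebra A (modularFunctionFieldFullC E M)]
  [IsScalarTower A E (modularFunctionFieldFullC E M)]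

/-- **halg**: `F_M` is algebraic over `A[t]` for every `t` with `j ∈ E(t)`. -/
theorem nodesInstAlg_halg (t : modularFunctionFieldFullC E M)
    (hJ : (⟨jqModC E, jqModC_mem_full E M⟩ : modularFunctionFieldFullC E M) ∈ E⟮t⟯)
    (x : modularFunctionFieldFullC E M) : IsAlgebraic (Algebra.adjoin A {t}) x := by
  have h1 : FiniteDimensional
      E⟮(⟨jqModC E, jqModC_mem_full E M⟩ : modularFunctionFieldFullC E M)⟯
      (modularFunctionFieldFullC E M) := Fermat.Agent.INJ.bgFin_finiteDimensional_full E M
  have h2 : FiniteDimensional E⟮t⟯ (modularFunctionFieldFullC E M) :=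
    nodesInstAlg_finite_of_mem (E := E)
      (⟨jqModC E, jqModC_mem_full E M⟩ : modularFunctionFieldFullC E M) t hJ
  exact nodesInstAlg_isAlgebraic (A := A) (E := E) t x

/-- **halg** on the chart `t = j`. -/
theorem nodesInstAlg_halg_J (t : modularFunctionFieldFullC E M)
    (ht : (t : LaurentSeries E) = jqModC E)
    (x : modularFunctionFieldFullC E M) : IsAlgebraic (Algebra.adjoin A {t}) x := by
  refine nodesInstAlg_halg A M t ?_ x
  have h1 : (⟨jqModC E, jqModC_mem_full E M⟩ : modularFunctionFieldFullC E M) = t :=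
    Subtype.ext ht.symm
  rw [h1]
  exact mem_adjoin_simple_self E t

/-- **halg** on the chart `t = 1/j`. -/
theorem nodesInstAlg_halg_Jinv (t : modularFunctionFieldFullC E M)
    (ht : (t : LaurentSeries E) = (jqModC E)⁻¹)
    (x : modularFunctionFieldFullC E M) : IsAlgebraic (Algebra.adjoin A {t}) x := by
  refine nodesInstAlg_halg A M t ?_ x
  have h1 : (⟨jqModC E, jqModC_mem_full E M⟩ : modularFunctionFieldFullC E M) = t⁻¹ := by
    apply Subtype.ext
    show jqModC E = ((t : LaurentSeries E))⁻¹
    rw [ht, inv_inv]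
  rw [h1]
  exact inv_mem (mem_adjoin_simple_self E t)

end Mod

end Fermat.Agent.UNIP

end
end ZBUNIP_024_0
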