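/- GENERATED FILE (helper35, build-time optimisation, NOTES/ZB.md): verbatim concatenation of the modules
   Fermat.Agent.UNIP.FibreDVRCore
   Fermat.Agent.UNIP.FibreDVR
   Do not edit; do not import together with these modules. -/
import Mathlib
import Fermat.Agent.ZB.UNIP_024
import Fermat.Agent.ZB.INJ_031

/-! ### bundled: `Fermat.Agent.UNIP.FibreDVRCore` -/
section ZBUNIP_021_0

/-!
# UNIP piece U13, conversion (abstract part): from "the special fibre is an integrally closed
domain" to "every closed point of the special fibre has a local parameter"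

* `dedekind_locGen`: in a Dedekind domain every maximal ideal `M` has `s ∈ M` with
  `∀ x ∈ M, ∃ u ∉ M, u * x ∈ (s)`.
* `locGen_of_isDedekindDomain_quotient`: if `C / p` is a Dedekind domain, every maximal ideal
  `𝔫 ∋ p` of `C` has `s ∈ 𝔫` with `∀ x ∈ 𝔫, ∃ u ∉ 𝔫, u * x ∈ (p, s)`.
* `dimensionLEOne_quotient`: `C` integral over `R`, `R / π` a PID, `P₀ ∋ π` prime in `C`
  ⇒ `C / P₀` has dimension `≤ 1`.
* `locGen_of_isIntegrallyClosed_quotient`: the conversion.
-/

set_option autoImplicit false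
set_option linter.style.haveILetI false

namespace Fermat.Agent.UNIP.FibreDVR

/-- In a Dedekind domain every maximal ideal is locally principal (element form). -/
theorem dedekind_locGen {D : Type*} [CommRing D] [IsDedekindDomain D]
    (M : Ideal D) [hM : M.IsMaximal] :
    ∃ s ∈ M, ∀ x ∈ M, ∃ u, u ∉ M ∧ u * x ∈ Ideal.span {s} := by
  classical
  by_cases h0 : M = ⊥
  · refine ⟨0, M.zero_mem, fun x hx => ⟨1, ?_, ?_⟩⟩
    · exact fun h => hM.ne_top ((Ideal.eq_top_iff_one M).mpr h)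
    · rw [h0, Ideal.mem_bot] at hx
      rw [hx, mul_zero]
      exact Ideal.zero_mem _
  · have hlt : M ^ 2 < M := by
      have := Ideal.pow_succ_lt_pow (P := M) h0 1
      simpa using this
    obtain ⟨s, hsM, hs2⟩ := Set.exists_of_ssubset hlt
    refine ⟨s, hsM, ?_⟩
    have hle : Ideal.span {s} ≤ M := (Ideal.span_singleton_le_iff_mem _).mpr hsM
    obtain ⟨J, hJ⟩ := Ideal.dvd_iff_le.mpr hle
    have hJM : ¬ J ≤ M := by
      intro h
      apply hs2
      have h1 : Ideal.span {s} ≤ M ^ 2 := by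
        rw [hJ, pow_two]
        exact Ideal.mul_mono_right h
      exact h1 (Ideal.mem_span_singleton_self s)
    obtain ⟨u, huJ, huM⟩ := Set.not_subset.mp hJM
    intro x hx
    refine ⟨u, huM, ?_⟩
    rw [hJ, mul_comm u x]
    exact Ideal.mul_mem_mul hx huJ


/-- membership in the image of an ideal containing the kernel -/
theorem mk_mem_map_iff {C : Type*} [CommRing C] (I m : Ideal C) (hIm : I ≤ m) (u : C) :
    Ideal.Quotient.mk I u ∈ m.map (Ideal.Quotient.mk I) ↔ u ∈ m := by
  rw [Ideal.mem_map_iff_of_surjective _ Ideal.Quotient.mk_surjective]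
  constructor
  · rintro ⟨v, hv, hvu⟩
    have h1 : v - u ∈ I := Ideal.Quotient.eq.mp hvu
    have h2 : u = v - (v - u) := by ring
    rw [h2]
    exact m.sub_mem hv (hIm h1)
  · intro hu
    exact ⟨u, hu, rfl⟩

/-- the image of a maximal ideal containing the kernel is maximal -/
theorem map_mk_isMaximal {C : Type*} [CommRing C] (I m : Ideal C) [hmax : m.IsMaximal]
    (hIm : I ≤ m) : (m.map (Ideal.Quotient.mk I)).IsMaximal := by
  rcases Ideal.map_eq_top_or_isMaximal_of_surjective (Ideal.Quotient.mk I)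
    Ideal.Quotient.mk_surjective hmax with h | h
  · exfalso
    have h1 : Ideal.Quotient.mk I (1 : C) ∈ m.map (Ideal.Quotient.mk I) := by
      rw [h]; trivial
    exact hmax.ne_top ((Ideal.eq_top_iff_one m).mpr ((mk_mem_map_iff I m hIm 1).mp h1))
  · exact h

/-- **Conversion, abstract form.**  If `C / p` is a Dedekind domain then every maximal ideal
`𝔫 ∋ p` of `C` is locally generated by `p` and one more element. -/
theorem locGen_of_isDedekindDomain_quotient {C : Type*} [CommRing C] (p : C)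
    [IsDedekindDomain (C ⧸ Ideal.span {p})]
    (𝔫 : Ideal C) [𝔫.IsMaximal] (hp : p ∈ 𝔫) :
    ∃ s ∈ 𝔫, ∀ x ∈ 𝔫, ∃ u, u ∉ 𝔫 ∧ u * x ∈ Ideal.span {p, s} := by
  have hle : Ideal.span {p} ≤ 𝔫 := (Ideal.span_singleton_le_iff_mem _).mpr hp
  haveI := map_mk_isMaximal (Ideal.span {p}) 𝔫 hle
  obtain ⟨sbar, hsM, hs⟩ := dedekind_locGen (𝔫.map (Ideal.Quotient.mk (Ideal.span {p})))
  obtain ⟨s, rfl⟩ := Ideal.Quotient.mk_surjective sbar
  have hs𝔫 : s ∈ 𝔫 := (mk_mem_map_iff _ _ hle s).mp hsM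
  refine ⟨s, hs𝔫, fun x hx => ?_⟩
  obtain ⟨ubar, hu, hux⟩ := hs _ ((mk_mem_map_iff _ _ hle x).mpr hx)
  obtain ⟨u, rfl⟩ := Ideal.Quotient.mk_surjective ubar
  refine ⟨u, fun h => hu ((mk_mem_map_iff _ _ hle u).mpr h), ?_⟩
  obtain ⟨dbar, hd⟩ := Ideal.mem_span_singleton.mp hux
  obtain ⟨d, rfl⟩ := Ideal.Quotient.mk_surjective dbar
  rw [← map_mul, ← map_mul] at hd
  have h1 : u * x - s * d ∈ Ideal.span {p} := Ideal.Quotient.eq.mp hd
  obtain ⟨c, hc⟩ := Ideal.mem_span_singleton.mp h1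
  rw [Ideal.mem_span_pair]
  exact ⟨c, d, by linear_combination -hc⟩

/-- `C / P₀` has dimension `≤ 1` when `C` is integral over `R`, `P₀` is a prime of `C` containing
the image of a prime `π` of `R` with `R / π` a principal ideal ring. -/
theorem dimensionLEOne_quotient {R C : Type*} [CommRing R] [CommRing C] [Algebra R C]
    [Algebra.IsIntegral R C] {π : R} (hπ : Prime π)
    [IsPrincipalIdealRing (R ⧸ Ideal.span {π})]
    (P₀ : Ideal C) [hP₀prime : P₀.IsPrime] (hπP₀ : algebraMap R C π ∈ P₀) :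
    Ring.DimensionLEOne (C ⧸ P₀) := by
  refine ⟨fun {Q} hQ0 hQ => ?_⟩
  have hPprime : (Q.comap (Ideal.Quotient.mk P₀)).IsPrime := Ideal.comap_isPrime _ _
  have hP₀P : P₀ ≤ Q.comap (Ideal.Quotient.mk P₀) := by
    intro x hx
    rw [Ideal.mem_comap, Ideal.Quotient.eq_zero_iff_mem.mpr hx]
    exact Q.zero_mem
  have hQmap : (Q.comap (Ideal.Quotient.mk P₀)).map (Ideal.Quotient.mk P₀) = Q :=
    Ideal.map_comap_of_surjective _ Ideal.Quotient.mk_surjective Q
  have hne : ¬ Q.comap (Ideal.Quotient.mk P₀) ≤ P₀ := by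
    intro h
    apply hQ0
    rw [← hQmap, eq_bot_iff]
    intro y hy
    rw [Ideal.mem_map_iff_of_surjective _ Ideal.Quotient.mk_surjective] at hy
    obtain ⟨x, hx, rfl⟩ := hy
    rw [Ideal.mem_bot, Ideal.Quotient.eq_zero_iff_mem]
    exact h hx
  obtain ⟨x, hxP, hxP₀⟩ := Set.not_subset.mp hne
  have hlt : P₀.comap (algebraMap R C) <
      (Q.comap (Ideal.Quotient.mk P₀)).comap (algebraMap R C) :=
    Ideal.comap_lt_comap_of_integral_mem_sdiff hP₀P ⟨hxP, hxP₀⟩ (Algebra.IsIntegral.isIntegral x)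
  have hnprime : ((Q.comap (Ideal.Quotient.mk P₀)).comap (algebraMap R C)).IsPrime :=
    Ideal.comap_isPrime _ _
  have hπP : Ideal.span {π} ≤ P₀.comap (algebraMap R C) := by
    rw [Ideal.span_singleton_le_iff_mem, Ideal.mem_comap]
    exact hπP₀
  have hπn : Ideal.span {π} ≤ (Q.comap (Ideal.Quotient.mk P₀)).comap (algebraMap R C) :=
    hπP.trans hlt.le
  -- `n` is maximal
  haveI : IsDomain (R ⧸ Ideal.span {π}) :=
    (Ideal.Quotient.isDomain_iff_prime _).mpr ((Ideal.span_singleton_prime hπ.ne_zero).mpr hπ)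
  have hnmax : ((Q.comap (Ideal.Quotient.mk P₀)).comap (algebraMap R C)).IsMaximal := by
    have hker : RingHom.ker (Ideal.Quotient.mk (Ideal.span {π})) ≤
        (Q.comap (Ideal.Quotient.mk P₀)).comap (algebraMap R C) := by
      rw [Ideal.mk_ker]; exact hπn
    haveI hmapprime : (((Q.comap (Ideal.Quotient.mk P₀)).comap (algebraMap R C)).map
        (Ideal.Quotient.mk (Ideal.span {π}))).IsPrime :=
      Ideal.map_isPrime_of_surjective Ideal.Quotient.mk_surjective hker
    have hmapne : ((Q.comap (Ideal.Quotient.mk P₀)).comap (algebraMap R C)).map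
        (Ideal.Quotient.mk (Ideal.span {π})) ≠ ⊥ := by
      obtain ⟨r, hrn, hr0⟩ := Set.exists_of_ssubset hlt
      intro h
      have h1 : Ideal.Quotient.mk (Ideal.span {π}) r ∈
          ((Q.comap (Ideal.Quotient.mk P₀)).comap (algebraMap R C)).map
            (Ideal.Quotient.mk (Ideal.span {π})) := Ideal.mem_map_of_mem _ hrn
      rw [h, Ideal.mem_bot, Ideal.Quotient.eq_zero_iff_mem] at h1
      exact hr0 (hπP h1)
    have hmax := IsPrime.to_maximal_ideal hmapne
    have hcomap : (((Q.comap (Ideal.Quotient.mk P₀)).comap (algebraMap R C)).map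
        (Ideal.Quotient.mk (Ideal.span {π}))).comap
        (Ideal.Quotient.mk (Ideal.span {π})) =
        (Q.comap (Ideal.Quotient.mk P₀)).comap (algebraMap R C) := by
      rw [Ideal.comap_map_of_surjective _ Ideal.Quotient.mk_surjective, sup_eq_left]
      rw [← RingHom.ker_eq_comap_bot]
      exact hker
    rw [← hcomap]
    exact Ideal.comap_isMaximal_of_surjective _ Ideal.Quotient.mk_surjective
  haveI hPmax : (Q.comap (Ideal.Quotient.mk P₀)).IsMaximal :=
    Ideal.isMaximal_of_isIntegral_of_isMaximal_comap _ hnmax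
  rw [← hQmap]
  exact map_mk_isMaximal P₀ _ hP₀P

/-- **Conversion.**  `C` Noetherian and integral over `R`, `π` prime in `R` with `R / π` a
principal ideal ring, `p` the image of `π` in `C`, `C / p` an integrally closed domain: every
maximal ideal `𝔫 ∋ p` of `C` is locally generated by `p` and one more element. -/
theorem locGen_of_isIntegrallyClosed_quotient {R C : Type*} [CommRing R] [CommRing C]
    [Algebra R C] [Algebra.IsIntegral R C] [IsNoetherianRing C] {π : R} (hπ : Prime π)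
    [IsPrincipalIdealRing (R ⧸ Ideal.span {π})]
    (p : C) (hp : p = algebraMap R C π)
    [IsDomain (C ⧸ Ideal.span {p})] [IsIntegrallyClosed (C ⧸ Ideal.span {p})]
    (𝔫 : Ideal C) [𝔫.IsMaximal] (hp𝔫 : p ∈ 𝔫) :
    ∃ s ∈ 𝔫, ∀ x ∈ 𝔫, ∃ u, u ∉ 𝔫 ∧ u * x ∈ Ideal.span {p, s} := by
  haveI hprime : (Ideal.span {p}).IsPrime :=
    (Ideal.Quotient.isDomain_iff_prime _).mp inferInstance
  haveI := dimensionLEOne_quotient (R := R) (C := C) hπ (Ideal.span {p})
    (hp ▸ Ideal.mem_span_singleton_self p)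
  haveI : IsDedekindDomain (C ⧸ Ideal.span {p}) :=
    { toIsDomain := inferInstance
      toIsDedekindRing :=
        { toIsNoetherian := inferInstance
          toDimensionLEOne := inferInstance
          toIsIntegralClosure := inferInstance } }
  exact locGen_of_isDedekindDomain_quotient p 𝔫 hp𝔫

end Fermat.Agent.UNIP.FibreDVR


end ZBUNIP_021_0

/-! ### bundled: `Fermat.Agent.UNIP.FibreDVR` -/
section ZBUNIP_021_1

/-!
# UNIP piece U13 (conversion, chart form)

Chart `C = integralClosure A₀[τ] Lf` of the tame specialization theorem (INJ Part A).  If the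
special fibre `C / π` is an integrally closed domain (INJ piece NORM, N4), then at every maximal
ideal `𝔫 ∋ π` of `C` there is `s ∈ 𝔫` with `𝔫 C_𝔫 = (π, s) C_𝔫`, in element form:
`∀ x ∈ 𝔫, ∃ u ∉ 𝔫, u * x ∈ Ideal.span {π, s}`.
-/

set_option autoImplicit false
set_option linter.style.haveILetI false

namespace Fermat.Agent.UNIP.FibreDVR

open Polynomial IntermediateField Fermat.Agent.INJ

universe u

/-- **U13, conversion (chart form).** -/
theorem chart_locGen_of_isIntegrallyClosed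
    {A₀ E Lf : Type u} [CommRing A₀] [IsDomain A₀] [IsDiscreteValuationRing A₀]
    [Field E] [Algebra A₀ E] [IsFractionRing A₀ E] [CharZero E]
    [Field Lf] [Algebra E Lf] [Algebra A₀ Lf] [IsScalarTower A₀ E Lf]
    {π : A₀} (hπ : Irreducible π) {τ : Lf} (hτ : Transcendental E τ)
    [FiniteDimensional E⟮τ⟯ Lf]
    [IsDomain (integralClosure (Algebra.adjoin A₀ {τ}) Lf ⧸
      Ideal.span {algebraMap A₀ (integralClosure (Algebra.adjoin A₀ {τ}) Lf) π})]
    [IsIntegrallyClosed (integralClosure (Algebra.adjoin A₀ {τ}) Lf ⧸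
      Ideal.span {algebraMap A₀ (integralClosure (Algebra.adjoin A₀ {τ}) Lf) π})]
    (𝔫 : Ideal (integralClosure (Algebra.adjoin A₀ {τ}) Lf)) (h𝔫 : 𝔫.IsMaximal)
    (hπ𝔫 : algebraMap A₀ (integralClosure (Algebra.adjoin A₀ {τ}) Lf) π ∈ 𝔫) :
    ∃ s ∈ 𝔫, ∀ x ∈ 𝔫, ∃ u, u ∉ 𝔫 ∧
      u * x ∈ Ideal.span {algebraMap A₀ (integralClosure (Algebra.adjoin A₀ {τ}) Lf) π, s} := by
  haveI := h𝔫
  haveI := chart_closure_isNoetherianRing (A₀ := A₀) (E := E) hτ
  haveI := chart_quotient_isPrincipalIdealRing (A₀ := A₀) (E := E) (τ := τ) hτ hπ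
  exact locGen_of_isIntegrallyClosed_quotient (R := ↥(Algebra.adjoin A₀ {τ}))
    (chart_prime hτ hπ) _
    (IsScalarTower.algebraMap_apply A₀ ↥(Algebra.adjoin A₀ {τ})
      ↥(integralClosure ↥(Algebra.adjoin A₀ {τ}) Lf) π) 𝔫 hπ𝔫

end Fermat.Agent.UNIP.FibreDVR


end ZBUNIP_021_1
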