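/- GENERATED FILE (helper35, build-time optimisation, NOTES/ZB.md): verbatim concatenation of the modules
   Fermat.Agent.S36.N2Abs
   Fermat.Agent.S36.N2ExtInst
   Do not edit; do not import together with these modules. -/
import Mathlib
import Fermat.Agent.ZB.UNIP_021
import Fermat.Agent.ZB.INJ_003
import Fermat.Agent.ZB.UNIP_037
import Fermat.Agent.ZB.S36_006

/-! ### bundled: `Fermat.Agent.S36.N2Abs` -/
section ZBS36_007_0

/-!
# S36 / G-N2, piece N2-abs (helper20): conjugates, norms and minimal polynomials — abstract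

`F / F'` a finite separable extension of fields of degree `n`, `L` ANY field, `e₀ : F' →+* L`,
`σ : ι → (F →+* L)` an injective family of ring homomorphisms with `σ i ∘ algebraMap = e₀` and
`card ι = n` ("the conjugates").  Then, for every `x : F`:

* `s36n2_norm_eq_prod`  : `e₀ (Algebra.norm F' x) = ∏ i, σ i x`;
* `s36n2_trace_eq_sum`  : `e₀ (Algebra.trace F' F x) = ∑ i, σ i x`;
* `s36n2_minpoly_coeff_mem` : for a subring `G ≤ L` with `σ i x ∈ G` for all `i`, every coefficient
  of the minimal polynomial of `x` over `F'` is mapped into `G` by `e₀`;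
* `s36n2_charpoly_coeff_mem`, `s36n2_norm_mem`, `s36n2_trace_mem` : the same for the
  characteristic polynomial, the norm, the trace;
* `s36n2_minpoly_map_eval` : `σ i x` is a root of `(minpoly F' x).map e₀`.

Ring homomorphism forms (`φ : F' →+* F`, algebra structure `φ.toAlgebra`, as in
`STB/NormSquare.lean`): `s36n2_hom_norm_eq_prod`, `s36n2_hom_minpoly_coeff_mem`.

Mathlib only.
-/

set_option autoImplicit false
set_option linter.style.haveILetI false
set_option linter.unusedSectionVars false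

noncomputable section

namespace Fermat.Agent.S36

open Polynomial

section Subring

variable {Ω : Type*} [Field Ω]

/-- a product of `X - C r`, `r` in a subring `S`, has its coefficients in `S` -/
theorem s36n2_prod_coeff_mem (S : Subring Ω) (m : Multiset Ω) (hm : ∀ r ∈ m, r ∈ S) (k : ℕ) :
    ((m.map fun r => (X - C r : Polynomial Ω)).prod).coeff k ∈ S := by
  have h : (m.map fun r => (X - C r : Polynomial Ω)).prod ∈ Polynomial.lifts S.subtype := by
    refine Subsemiring.multiset_prod_mem _ _ ?_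
    intro p hp
    obtain ⟨r, hr, rfl⟩ := Multiset.mem_map.1 hp
    rw [Polynomial.mem_lifts]
    refine ⟨X - C ⟨r, hm r hr⟩, ?_⟩
    rw [Polynomial.map_sub, Polynomial.map_X, Polynomial.map_C]
    rfl
  rw [Polynomial.lifts_iff_coeff_lifts] at h
  obtain ⟨s, hs⟩ := h k
  rw [← hs]
  exact s.2

end Subring

section Alg

variable {F' F L : Type*} [Field F'] [Field F] [Field L] [Algebra F' F]
  [FiniteDimensional F' F] [Algebra.IsSeparable F' F]

/-- the conjugates, as `F'`-embeddings into the algebraic closure of `L` -/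
def s36n2Emb (e₀ : F' →+* L) {ι : Type*} (σ : ι → F →+* L)
    (hσ : ∀ i x, σ i (algebraMap F' F x) = e₀ x) (i : ι) :
    letI := ((algebraMap L (AlgebraicClosure L)).comp e₀).toAlgebra
    F →ₐ[F'] AlgebraicClosure L :=
  letI := ((algebraMap L (AlgebraicClosure L)).comp e₀).toAlgebra
  { (algebraMap L (AlgebraicClosure L)).comp (σ i) with
    commutes' := fun x => by
      show algebraMap L (AlgebraicClosure L) (σ i (algebraMap F' F x)) =
        algebraMap L (AlgebraicClosure L) (e₀ x)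
      rw [hσ] }

theorem s36n2Emb_apply (e₀ : F' →+* L) {ι : Type*} (σ : ι → F →+* L)
    (hσ : ∀ i x, σ i (algebraMap F' F x) = e₀ x) (i : ι) (x : F) :
    s36n2Emb e₀ σ hσ i x = algebraMap L (AlgebraicClosure L) (σ i x) := rfl

/-- the conjugates are ALL the embeddings -/
theorem s36n2Emb_bijective (e₀ : F' →+* L) {ι : Type*} [Fintype ι] (σ : ι → F →+* L)
    (hσ : ∀ i x, σ i (algebraMap F' F x) = e₀ x) (hinj : Function.Injective σ)
    (hcard : Fintype.card ι = Module.finrank F' F) :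
    letI := ((algebraMap L (AlgebraicClosure L)).comp e₀).toAlgebra
    Function.Bijective (s36n2Emb e₀ σ hσ) := by
  classical
  letI := ((algebraMap L (AlgebraicClosure L)).comp e₀).toAlgebra
  have he : Function.Injective (s36n2Emb e₀ σ hσ) := by
    intro i i' h
    apply hinj
    apply RingHom.ext
    intro x
    have h1 := congrArg (fun g : F →ₐ[F'] AlgebraicClosure L => g x) h
    exact (algebraMap L (AlgebraicClosure L)).injective h1
  rw [Fintype.bijective_iff_injective_and_card]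
  refine ⟨he, ?_⟩
  rw [hcard, AlgHom.card F' F (AlgebraicClosure L)]

/-- **(b)** the norm is the product of the conjugates -/
theorem s36n2_norm_eq_prod (e₀ : F' →+* L) {ι : Type*} [Fintype ι] (σ : ι → F →+* L)
    (hσ : ∀ i x, σ i (algebraMap F' F x) = e₀ x) (hinj : Function.Injective σ)
    (hcard : Fintype.card ι = Module.finrank F' F) (x : F) :
    e₀ (Algebra.norm F' x) = ∏ i, σ i x := by
  classical
  letI := ((algebraMap L (AlgebraicClosure L)).comp e₀).toAlgebra
  have hbij := s36n2Emb_bijective e₀ σ hσ hinj hcard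
  have h1 : algebraMap F' (AlgebraicClosure L) (Algebra.norm F' x) =
      ∏ τ : F →ₐ[F'] AlgebraicClosure L, τ x :=
    Algebra.norm_eq_prod_embeddings F' (AlgebraicClosure L) x
  have h2 : ∏ i, s36n2Emb e₀ σ hσ i x = ∏ τ : F →ₐ[F'] AlgebraicClosure L, τ x :=
    Function.Bijective.prod_comp hbij (fun τ : F →ₐ[F'] AlgebraicClosure L => τ x)
  apply (algebraMap L (AlgebraicClosure L)).injective
  rw [map_prod]
  exact h1.trans h2.symm

/-- the trace is the sum of the conjugates -/
theorem s36n2_trace_eq_sum (e₀ : F' →+* L) {ι : Type*} [Fintype ι] (σ : ι → F →+* L)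
    (hσ : ∀ i x, σ i (algebraMap F' F x) = e₀ x) (hinj : Function.Injective σ)
    (hcard : Fintype.card ι = Module.finrank F' F) (x : F) :
    e₀ (Algebra.trace F' F x) = ∑ i, σ i x := by
  classical
  letI := ((algebraMap L (AlgebraicClosure L)).comp e₀).toAlgebra
  have hbij := s36n2Emb_bijective e₀ σ hσ hinj hcard
  have h1 : algebraMap F' (AlgebraicClosure L) (Algebra.trace F' F x) =
      ∑ τ : F →ₐ[F'] AlgebraicClosure L, τ x :=
    trace_eq_sum_embeddings (AlgebraicClosure L)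
  have h2 : ∑ i, s36n2Emb e₀ σ hσ i x = ∑ τ : F →ₐ[F'] AlgebraicClosure L, τ x :=
    Function.Bijective.sum_comp hbij (fun τ : F →ₐ[F'] AlgebraicClosure L => τ x)
  apply (algebraMap L (AlgebraicClosure L)).injective
  rw [map_sum]
  exact h1.trans h2.symm

/-- every conjugate of `x` is a root of the minimal polynomial (no hypothesis on the family) -/
theorem s36n2_minpoly_map_eval (e₀ : F' →+* L) (τ : F →+* L)
    (hτ : ∀ x, τ (algebraMap F' F x) = e₀ x) (x : F) :
    ((minpoly F' x).map e₀).eval (τ x) = 0 := by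
  have h1 : (minpoly F' x).eval₂ (algebraMap F' F) x = 0 := minpoly.aeval F' x
  have h2 := congrArg τ h1
  rw [Polynomial.hom_eval₂, map_zero] at h2
  rw [Polynomial.eval_map]
  have h3 : τ.comp (algebraMap F' F) = e₀ := RingHom.ext hτ
  rw [h3] at h2
  exact h2

/-- **(a)** if all the conjugates of `x` lie in the subring `G`, then so do the coefficients of
the minimal polynomial of `x`. -/
theorem s36n2_minpoly_coeff_mem (e₀ : F' →+* L) {ι : Type*} [Fintype ι] (σ : ι → F →+* L)
    (hσ : ∀ i x, σ i (algebraMap F' F x) = e₀ x) (hinj : Function.Injective σ)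
    (hcard : Fintype.card ι = Module.finrank F' F) (G : Subring L) (x : F)
    (hx : ∀ i, σ i x ∈ G) (k : ℕ) :
    e₀ ((minpoly F' x).coeff k) ∈ G := by
  classical
  letI := ((algebraMap L (AlgebraicClosure L)).comp e₀).toAlgebra
  have hbij := s36n2Emb_bijective e₀ σ hσ hinj hcard
  set j : L →+* AlgebraicClosure L := algebraMap L (AlgebraicClosure L) with hj
  set P : Polynomial (AlgebraicClosure L) := (minpoly F' x).map (algebraMap F' (AlgebraicClosure L))
    with hP
  have hmonic : P.Monic := (minpoly.monic (Algebra.IsIntegral.isIntegral x)).map _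
  have hsplit : P.Splits := IsAlgClosed.splits P
  have hroots : ∀ r ∈ P.roots, r ∈ G.map j := by
    intro r hr
    have h1 : r ∈ (minpoly F' x).rootSet (AlgebraicClosure L) := by
      rw [Polynomial.mem_rootSet']
      refine ⟨hmonic.ne_zero, ?_⟩
      have := (Polynomial.mem_roots hmonic.ne_zero).1 hr
      rw [Polynomial.IsRoot.def, hP, Polynomial.eval_map, ← Polynomial.aeval_def] at this
      exact this
    have halg : Algebra.IsAlgebraic F' F := Algebra.IsAlgebraic.of_finite F' F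
    rw [← halg.range_eval_eq_rootSet_minpoly (AlgebraicClosure L) x] at h1
    obtain ⟨τ, hτ⟩ := h1
    obtain ⟨i, rfl⟩ := hbij.2 τ
    rw [← hτ]
    exact ⟨σ i x, hx i, rfl⟩
  have hcoef : P.coeff k ∈ G.map j := by
    rw [hsplit.eq_prod_roots_of_monic hmonic]
    exact s36n2_prod_coeff_mem (G.map j) P.roots hroots k
  obtain ⟨g, hg, hgk⟩ := hcoef
  have h2 : P.coeff k = j (e₀ ((minpoly F' x).coeff k)) := by
    rw [hP, Polynomial.coeff_map]
    rfl
  rw [h2] at hgk
  have h3 : g = e₀ ((minpoly F' x).coeff k) := j.injective hgk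
  rw [← h3]
  exact hg

/-- the norm of `x` lies in `G` -/
theorem s36n2_norm_mem (e₀ : F' →+* L) {ι : Type*} [Fintype ι] (σ : ι → F →+* L)
    (hσ : ∀ i x, σ i (algebraMap F' F x) = e₀ x) (hinj : Function.Injective σ)
    (hcard : Fintype.card ι = Module.finrank F' F) (G : Subring L) (x : F)
    (hx : ∀ i, σ i x ∈ G) :
    e₀ (Algebra.norm F' x) ∈ G := by
  rw [s36n2_norm_eq_prod e₀ σ hσ hinj hcard x]
  exact Subring.prod_mem G fun i _ => hx i

/-- the trace of `x` lies in `G` -/
theorem s36n2_trace_mem (e₀ : F' →+* L) {ι : Type*} [Fintype ι] (σ : ι → F →+* L)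
    (hσ : ∀ i x, σ i (algebraMap F' F x) = e₀ x) (hinj : Function.Injective σ)
    (hcard : Fintype.card ι = Module.finrank F' F) (G : Subring L) (x : F)
    (hx : ∀ i, σ i x ∈ G) :
    e₀ (Algebra.trace F' F x) ∈ G := by
  rw [s36n2_trace_eq_sum e₀ σ hσ hinj hcard x]
  exact Subring.sum_mem G fun i _ => hx i

end Alg

section Hom

variable {F' F L : Type*} [Field F'] [Field F] [Field L]

/-- **(b)**, ring homomorphism form -/
theorem s36n2_hom_norm_eq_prod (φ : F' →+* F)
    (hfin : letI := φ.toAlgebra; Module.Finite F' F)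
    (hsep : letI := φ.toAlgebra; Algebra.IsSeparable F' F)
    (e₀ : F' →+* L) {ι : Type*} [Fintype ι] (σ : ι → F →+* L)
    (hσ : ∀ i x, σ i (φ x) = e₀ x) (hinj : Function.Injective σ)
    (hcard : letI := φ.toAlgebra; Fintype.card ι = Module.finrank F' F) (x : F) :
    letI := φ.toAlgebra
    e₀ (Algebra.norm F' x) = ∏ i, σ i x := by
  letI := φ.toAlgebra
  haveI : FiniteDimensional F' F := hfin
  haveI : Algebra.IsSeparable F' F := hsep
  exact s36n2_norm_eq_prod e₀ σ hσ hinj hcard x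

/-- **(a)**, ring homomorphism form -/
theorem s36n2_hom_minpoly_coeff_mem (φ : F' →+* F)
    (hfin : letI := φ.toAlgebra; Module.Finite F' F)
    (hsep : letI := φ.toAlgebra; Algebra.IsSeparable F' F)
    (e₀ : F' →+* L) {ι : Type*} [Fintype ι] (σ : ι → F →+* L)
    (hσ : ∀ i x, σ i (φ x) = e₀ x) (hinj : Function.Injective σ)
    (hcard : letI := φ.toAlgebra; Fintype.card ι = Module.finrank F' F) (G : Subring L) (x : F)
    (hx : ∀ i, σ i x ∈ G) (k : ℕ) :
    letI := φ.toAlgebra
    e₀ ((minpoly F' x).coeff k) ∈ G := by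
  letI := φ.toAlgebra
  haveI : FiniteDimensional F' F := hfin
  haveI : Algebra.IsSeparable F' F := hsep
  exact s36n2_minpoly_coeff_mem e₀ σ hσ hinj hcard G x hx k

end Hom

end Fermat.Agent.S36

end
end ZBS36_007_0

/-! ### bundled: `Fermat.Agent.S36.N2ExtInst` -/
section ZBS36_007_1

/-!
# S36 / G-N2, piece N2-ext (X), generic part (helper19): `S36TwoHom` for vertical valuations

`W = vtSub hB e₁ hfrac₁` a vertical valuation subring of `F₁` (uniformizer the constant `c₁`,
`e₁ c₁ = π`), `φ : F₁ →+* F`, `V₁`, `V₂` valuation subrings of `F` with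
`V_i.comap φ = W` (piece (C) of N2-val).

* `s36n2x_le_of_comap`, `s36n2x_dom_of_comap` : dominance from `V.comap φ = W`;
* `s36n2x_twoHom` : the hypotheses `S36TwoHom` from (C) + (RAM) + (SEP);
* `s36n2x_two` : conclusions (EXT), (F₁), (F₂), (U₁), (RAM₂);
* `s36n2x_ngSurj₁`, `s36n2x_ngSurj₂` : the residue surjectivity fields of `NgDir`;
* `s36n2x_ext_of_conj` : (EXT) of the ONE-valuation pattern from the conjugates
  (`S36/N2Abs.lean`): if all conjugates of `x` lie in a subring `G` of `L` and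
  `e₀ ⁻¹ G ⊆ W`, then `x` is a root of a monic polynomial with coefficients in `W`.
-/

set_option autoImplicit false
set_option linter.unusedSectionVars false
set_option linter.style.haveILetI false

noncomputable section

namespace Fermat.Agent.S36

open Fermat.Agent.UNIP Fermat.Agent.INJ Polynomial

section Comap

variable {F₁ F : Type*} [Field F₁] [Field F]

theorem s36n2x_le_of_comap {φ : F₁ →+* F} {V : ValuationSubring F} {W : ValuationSubring F₁}
    (hC : V.comap φ = W) : ∀ z ∈ W, φ z ∈ V := by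
  intro z hz
  rw [← hC] at hz
  exact hz

theorem s36n2x_dom_of_comap {φ : F₁ →+* F} {V : ValuationSubring F} {W : ValuationSubring F₁}
    (hC : V.comap φ = W) : ∀ z ∈ W.nonunits, φ z ∈ V.nonunits := by
  intro z hz
  rw [← hC] at hz
  exact (vt_mem_nonunits_comap V φ z).mp hz

theorem s36n2x_comap_of_dom {φ : F₁ →+* F} {V : ValuationSubring F} {W : ValuationSubring F₁}
    (hle : ∀ z ∈ W, φ z ∈ V) (hdom : ∀ z ∈ W.nonunits, φ z ∈ V.nonunits) : V.comap φ = W := by
  ext z
  rw [ValuationSubring.mem_comap]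
  constructor
  · intro hz
    by_contra hcon
    -- `z ∉ W` ⇒ `z⁻¹ ∈ 𝔪(W)` ⇒ `φ z⁻¹ ∈ 𝔪(V)` ⇒ `φ z ∉ V`
    have hz0 : z ≠ 0 := fun h0 => hcon (by rw [h0]; exact W.zero_mem)
    have hinv : z⁻¹ ∈ W.nonunits := by
      rw [ValuationSubring.mem_nonunits_iff, map_inv₀]
      rw [← ValuationSubring.valuation_le_one_iff, not_le] at hcon
      exact inv_lt_one_of_one_lt₀ hcon
    have h1 := hdom _ hinv
    rw [ValuationSubring.mem_nonunits_iff, map_inv₀, map_inv₀] at h1
    rw [← ValuationSubring.valuation_le_one_iff] at hz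
    have hv0 : V.valuation (φ z) ≠ 0 := (Valuation.ne_zero_iff _).mpr ((map_ne_zero φ).mpr hz0)
    have h2 : 1 < V.valuation (φ z) := by
      rwa [inv_lt_one₀ (zero_lt_iff.mpr hv0)] at h1
    exact absurd hz (not_le.mpr h2)
  · exact hle z

end Comap

section Two

variable {A E k : Type*} [CommRing A] [Field E] [Field k]
  {ι : A →+* E} {r : A →+* k} {π : A} {F₁ F : Type*} [Field F₁] [Field F]
  (hB : VtBase ι r π) (e₁ : F₁ →+* LaurentSeries E) (hfrac₁ : ∀ x : F₁, VtFrac ι (e₁ x))

/-- **`S36TwoHom` for a vertical valuation subring `W`** from the restrictions (C), (RAM),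
(SEP). -/
theorem s36n2x_twoHom {c₁ : F₁} (hc₁ : e₁ c₁ = HahnSeries.C (ι π)) {φ : F₁ →+* F}
    {V₁ V₂ : ValuationSubring F} (hC₁ : V₁.comap φ = vtSub hB e₁ hfrac₁)
    (hC₂ : V₂.comap φ = vtSub hB e₁ hfrac₁) {n : ℕ}
    (hsep : ∃ g : F, (g ∈ V₁.nonunits ∧ g ∉ V₂.nonunits) ∨ (g ∈ V₂.nonunits ∧ g ∉ V₁.nonunits))
    (hram : ∃ t z : F, t ∈ V₂.nonunits ∧ z ∈ V₂ ∧ φ c₁ = t ^ n * z) :
    S36TwoHom φ (vtSub hB e₁ hfrac₁) c₁ V₁ V₂ n where
  unif_mem := vtSub_const_mem hB e₁ hfrac₁ hc₁
  unif := fun _ hx => s36n2e_vtSub_unif hB e₁ hfrac₁ hc₁ hx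
  le₁ := s36n2x_le_of_comap hC₁
  le₂ := s36n2x_le_of_comap hC₂
  dom₁ := s36n2x_dom_of_comap hC₁
  dom₂ := s36n2x_dom_of_comap hC₂
  sep := hsep
  ram := hram

/-- **The two-valuation theorem for vertical valuations**: (EXT), (F₁), (F₂), (U₁), (RAM₂). -/
theorem s36n2x_two {c₁ : F₁} (hc₁ : e₁ c₁ = HahnSeries.C (ι π)) {φ : F₁ →+* F}
    (hfin : letI := φ.toAlgebra; Module.Finite F₁ F)
    (hsep' : letI := φ.toAlgebra; Algebra.IsSeparable F₁ F)
    {n : ℕ} (hdeg : letI := φ.toAlgebra; Module.finrank F₁ F = n + 1)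
    {V₁ V₂ : ValuationSubring F} (hC₁ : V₁.comap φ = vtSub hB e₁ hfrac₁)
    (hC₂ : V₂.comap φ = vtSub hB e₁ hfrac₁)
    (hsep : ∃ g : F, (g ∈ V₁.nonunits ∧ g ∉ V₂.nonunits) ∨ (g ∈ V₂.nonunits ∧ g ∉ V₁.nonunits))
    (hram : ∃ t z : F, t ∈ V₂.nonunits ∧ z ∈ V₂ ∧ φ c₁ = t ^ n * z) :
    (∀ x ∈ V₁, x ∈ V₂ →
        ∃ p : F₁[X], p.Monic ∧ (∀ k, p.coeff k ∈ vtSub hB e₁ hfrac₁) ∧ p.eval₂ φ x = 0) ∧
      (∀ x ∈ V₁, ∃ c ∈ vtSub hB e₁ hfrac₁, x - φ c ∈ V₁.nonunits) ∧
      (∀ x ∈ V₂, ∃ c ∈ vtSub hB e₁ hfrac₁, x - φ c ∈ V₂.nonunits) ∧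
      (∀ x ∈ V₁.nonunits, ∃ z ∈ V₁, x = φ c₁ * z) ∧
      (∀ x ∈ V₂.nonunits, ∃ z ∈ V₂, x ^ n = φ c₁ * z) :=
  s36n2e_two_hom φ hfin hsep' hdeg (vtSub hB e₁ hfrac₁)
    (s36n2e_vtSub_isDVR hB e₁ hfrac₁ hc₁)
    (s36n2x_twoHom hB e₁ hfrac₁ hc₁ hC₁ hC₂ hsep hram)

end Two

section Conj

variable {F₁ F L : Type*} [Field F₁] [Field F] [Field L]

/-- **(EXT) from the conjugates** (ONE-valuation pattern, or any pattern): if the `deg φ`
conjugates `σ i` of `φ` over `e₀` map `x` into a subring `G` of `L`, and `e₀ ⁻¹ G ⊆ W`, then `x`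
is a root of a monic polynomial with coefficients in `W` (its minimal polynomial). -/
theorem s36n2x_ext_of_conj (φ : F₁ →+* F)
    (hfin : letI := φ.toAlgebra; Module.Finite F₁ F)
    (hsep : letI := φ.toAlgebra; Algebra.IsSeparable F₁ F)
    (e₀ : F₁ →+* L) {J : Type*} [Fintype J] (σ : J → F →+* L)
    (hσ : ∀ i x, σ i (φ x) = e₀ x) (hinj : Function.Injective σ)
    (hcard : letI := φ.toAlgebra; Fintype.card J = Module.finrank F₁ F) (G : Subring L)
    (W : ValuationSubring F₁) (hW : ∀ z : F₁, e₀ z ∈ G → z ∈ W)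
    {x : F} (hx : ∀ i, σ i x ∈ G) :
    ∃ p : F₁[X], p.Monic ∧ (∀ k, p.coeff k ∈ W) ∧ p.eval₂ φ x = 0 := by
  letI := φ.toAlgebra
  haveI : FiniteDimensional F₁ F := hfin
  have hint : IsIntegral F₁ x := IsIntegral.of_finite F₁ x
  refine ⟨minpoly F₁ x, minpoly.monic hint, fun k => hW _ ?_, ?_⟩
  · exact s36n2_hom_minpoly_coeff_mem φ hfin hsep e₀ σ hσ hinj hcard G x hx k
  · have h := minpoly.aeval F₁ x
    rwa [Polynomial.aeval_def] at h

end Conj

end Fermat.Agent.S36

end
end ZBS36_007_1
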