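/- GENERATED FILE (helper35, build-time optimisation, NOTES/ZB.md): verbatim concatenation of the modules
   Fermat.Agent.DEU.Equiv
   Do not edit; do not import together with these modules. -/
import Fermat.Agent.ZB.ES_020
import Fermat.Prelude.Def_AlgebraicCurve_BaseChangeGalois
import Fermat.Agent.ZB.HW_005

/-! ### bundled: `Fermat.Agent.DEU.Equiv` -/
section ZBDEU_006_0

/-!
# DEU — equivariance of the reduction of places

Let `σ` be a semilinear automorphism of `F/K` and `τ` one of `Fb/k` such that `σ` preserves the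
Gauss valuation ring `O` and `red (σ f) = τ (red f)`.  If `r` is canonical in large degree
(`r_* D` is the least divisor bounding the reduction of `L(D)`, as given by
`Hyp.isLeast_mapDomain_r`), then `r (σ • P) = τ • r P` for every place `P`
(`r_smul_of_isLeast`).  For `τ = 1` (inertia): `r (σ • P) = r P`.
-/

set_option autoImplicit false

open AlgebraicCurve Module

namespace Fermat.Agent.DEU

open Fermat.Agent.ES.R

variable {K F k Fb : Type*} [Field K] [Field F] [Algebra K F] [Field k] [Field Fb] [Algebra k Fb]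

/-! ### Semilinear automorphisms and `L(D)` -/

theorem smul_mem_rr_iff (g : SemilinearAut K F) (D : Divisor K F) (f : F) :
    g • f ∈ riemannRochSpace (g • D) ↔ f ∈ riemannRochSpace D := by
  rw [mem_riemannRochSpace_iff, mem_riemannRochSpace_iff]
  have h0 : g • f = 0 ↔ f = 0 := smul_eq_zero_iff_eq g
  constructor
  · intro h v
    rcases h (g • v) with h1 | h1
    · exact Or.inl (h0.mp h1)
    · right
      rwa [SemilinearAut.divisor_smul_apply_smul, SemilinearAut.ord_smul] at h1
  · intro h w
    rcases h (g⁻¹ • w) with h1 | h1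
    · exact Or.inl (h0.mpr h1)
    · right
      have h2 := SemilinearAut.ord_smul g (g⁻¹ • w) f
      rw [smul_inv_smul] at h2
      rw [SemilinearAut.divisor_smul_apply, h2]
      exact h1

theorem smul_le_smul_iff_divisor (g : SemilinearAut K F) (D D' : Divisor K F) :
    g • D ≤ g • D' ↔ D ≤ D' := by
  rw [Finsupp.le_def, Finsupp.le_def]
  constructor
  · intro h v
    have := h (g • v)
    rwa [SemilinearAut.divisor_smul_apply_smul, SemilinearAut.divisor_smul_apply_smul] at this
  · intro h w
    rw [SemilinearAut.divisor_smul_apply, SemilinearAut.divisor_smul_apply]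
    exact h _

section

variable (R : RedData K F k Fb) (σ : SemilinearAut K F) (τ : SemilinearAut k Fb)
  (hO : ∀ f : F, f ∈ R.O ↔ σ • f ∈ R.O)
  (hred : ∀ (f : R.O) (h : σ • (f : F) ∈ R.O), R.red ⟨σ • (f : F), h⟩ = τ • R.red f)

include hO hred in
/-- The reduction of `L(σ D)` is the image under `τ` of the reduction of `L(D)`. -/
theorem mem_redSpace_smul_iff (D : Divisor K F) (w : Fb) :
    τ • w ∈ R.redSpace (riemannRochSpace (σ • D)) ↔ w ∈ R.redSpace (riemannRochSpace D) := by
  constructor
  · rintro ⟨f', hf', hw⟩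
    have hfO : σ⁻¹ • (f' : F) ∈ R.O := by
      rw [hO, smul_inv_smul]
      exact f'.2
    refine ⟨⟨σ⁻¹ • (f' : F), hfO⟩, ?_, ?_⟩
    · rw [← smul_mem_rr_iff σ, smul_inv_smul]
      exact hf'
    · have h1 := hred ⟨σ⁻¹ • (f' : F), hfO⟩ (by rw [smul_inv_smul]; exact f'.2)
      have h2 : (⟨σ • (σ⁻¹ • (f' : F)), by rw [smul_inv_smul]; exact f'.2⟩ : R.O) = f' :=
        Subtype.ext (smul_inv_smul σ (f' : F))
      rw [h2, hw] at h1
      exact (MulAction.injective τ h1).symm
  · rintro ⟨f, hf, rfl⟩
    have hfO : σ • (f : F) ∈ R.O := (hO f).mp f.2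
    exact ⟨⟨σ • (f : F), hfO⟩, (smul_mem_rr_iff σ D f).mpr hf, hred f hfO⟩

include hO hred in
theorem smul_mem_bounds_iff (D : Divisor K F) (B : Divisor k Fb) :
    τ • B ∈ bounds (R.redSpace (riemannRochSpace (σ • D))) ↔
      B ∈ bounds (R.redSpace (riemannRochSpace D)) := by
  constructor
  · intro h w hw
    have h1 := h ((mem_redSpace_smul_iff R σ τ hO hred D w).mpr hw)
    exact (smul_mem_rr_iff τ B w).mp h1
  · intro h w hw
    have hw' : τ • (τ⁻¹ • w) ∈ R.redSpace (riemannRochSpace (σ • D)) := by
      rw [smul_inv_smul]; exact hw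
    have h1 := h ((mem_redSpace_smul_iff R σ τ hO hred D (τ⁻¹ • w)).mp hw')
    have h2 := (smul_mem_rr_iff τ B (τ⁻¹ • w)).mpr h1
    rwa [smul_inv_smul] at h2

include hO hred in
theorem isLeast_smul (D : Divisor K F) (B : Divisor k Fb)
    (hB : IsLeast (bounds (R.redSpace (riemannRochSpace D))) B) :
    IsLeast (bounds (R.redSpace (riemannRochSpace (σ • D)))) (τ • B) := by
  refine ⟨(smul_mem_bounds_iff R σ τ hO hred D B).mpr hB.1, fun B' hB' => ?_⟩
  have h1 : τ • (τ⁻¹ • B') ∈ bounds (R.redSpace (riemannRochSpace (σ • D))) := by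
    rw [smul_inv_smul]; exact hB'
  have h2 := hB.2 ((smul_mem_bounds_iff R σ τ hO hred D (τ⁻¹ • B')).mp h1)
  have h3 := (smul_le_smul_iff_divisor τ B (τ⁻¹ • B')).mpr h2
  rwa [smul_inv_smul] at h3

include hO hred in
/-- **Equivariance of a canonical reduction of places.** -/
theorem r_smul_of_isLeast
    (hresF : ∀ v : Place K F, Function.Bijective (algebraMap K v.ResidueField))
    (d₀ : ℤ) (r : Place K F → Place k Fb)
    (hleast : ∀ D : Divisor K F, d₀ ≤ Divisor.degree D →
      IsLeast (bounds (R.redSpace (riemannRochSpace D))) (Finsupp.mapDomain r D))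
    (P : Place K F) : r (σ • P) = τ • r P := by
  -- large degree
  have hbig : ∀ D : Divisor K F, d₀ ≤ Divisor.degree D →
      Finsupp.mapDomain r (σ • D) = τ • Finsupp.mapDomain r D := by
    intro D hD
    have h1 := hleast (σ • D) (by rw [SemilinearAut.degree_smul]; exact hD)
    have h2 := isLeast_smul R σ τ hO hred D _ (hleast D hD)
    exact h1.unique h2
  -- all divisors
  set c : ℤ := max d₀ (d₀ - 1) with hc
  have hd1 : d₀ ≤ Divisor.degree (mulPlace P c) := by
    rw [degree_mulPlace hresF]; exact le_max_left _ _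
  have hd2 : d₀ ≤ Divisor.degree (Finsupp.single P 1 + mulPlace P c) := by
    rw [map_add, degree_mulPlace hresF, Divisor.degree_single, place_deg_eq_one P (hresF P)]
    have := le_max_right d₀ (d₀ - 1)
    push_cast
    linarith
  have e1 := hbig _ hd1
  have e2 := hbig _ hd2
  rw [smul_add, Finsupp.mapDomain_add, Finsupp.mapDomain_add, smul_add, e1] at e2
  have e3 := add_right_cancel e2
  rw [SemilinearAut.smul_single, Finsupp.mapDomain_single, Finsupp.mapDomain_single,
    SemilinearAut.smul_single] at e3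
  exact Finsupp.single_left_injective one_ne_zero e3

end

/-- Inertia-type automorphisms (`τ = 1`): `r (σ • P) = r P`. -/
theorem r_smul_of_isLeast_of_fix (R : RedData K F k Fb) (σ : SemilinearAut K F)
    (hO : ∀ f : F, f ∈ R.O ↔ σ • f ∈ R.O)
    (hred : ∀ (f : R.O) (h : σ • (f : F) ∈ R.O), R.red ⟨σ • (f : F), h⟩ = R.red f)
    (hresF : ∀ v : Place K F, Function.Bijective (algebraMap K v.ResidueField))
    (d₀ : ℤ) (r : Place K F → Place k Fb)
    (hleast : ∀ D : Divisor K F, d₀ ≤ Divisor.degree D →
      IsLeast (bounds (R.redSpace (riemannRochSpace D))) (Finsupp.mapDomain r D))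
    (P : Place K F) : r (σ • P) = r P := by
  have := r_smul_of_isLeast R σ (1 : SemilinearAut k Fb) hO
    (fun f h => by rw [one_smul]; exact hred f h) hresF d₀ r hleast P
  rwa [one_smul] at this

end Fermat.Agent.DEU


end ZBDEU_006_0
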