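/- GENERATED FILE (helper35, build-time optimisation, NOTES/ZB.md): verbatim concatenation of the modules
   Fermat.Agent.UNIP.NodesChart
   Fermat.Agent.UNIP.NodesChartHom
   Do not edit; do not import together with these modules. -/
import Fermat.Agent.ZB.UNIP_005
import Fermat.Agent.ZB.UNIP_016
import Mathlib.RingTheory.Ideal.GoingUp

/-! ### bundled: `Fermat.Agent.UNIP.NodesChart` -/
section ZBUNIP_017_0

/-!
# UNIP / U5 (Nodes): the assembly on one chart (abstract)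

`B` a chart at level `N = qM`, `B' ⊆ B` the chart at level `M`, `π ∈ B'`,
`ρ ρ₀ : B →+* K` the two reductions (`ρ₀ = ρ ∘ w_q`).  Hypotheses:

* `rd`    : `NodesRankData B' π ρ ρ₀ q`              (rank `q + 1`, independence, INJ A1);
* `icl`, `hint` : `ρ(B')` is integrally closed in its fraction field, `ρ(B)` is integral over it;
* `reg`   : every maximal ideal `𝔪 ∋ π` of `B'` is `(π, s)` locally      (U13: level `M` is smooth);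
* `swap`  : `∀ b, ∃ b', ρ b' = ρ₀ b ∧ ρ₀ b' = ρ b`     (`b' = w_q b` on the chart `j`,
            `b' = ℓ ^ n * w_q b` with `ℓ ≡ 1 mod π` on the chart `1/j`);
* `frob`  : `∀ r ∈ B', ∃ r̃ ∈ B', ρ₀ r = (ρ r̃) ^ q`     (`f(Q^q) = (f^{φ⁻¹})^q` in characteristic `q`).

Conclusion `nodes_chart`: at every maximal ideal `𝔫 ∋ π` of `B`, either `𝔫 = (π, s)` locally, or
`𝔫` lies on both components and `𝔫 = (π, X, Y)` locally with `ρ X = 0`, `ρ₀ Y = 0`, `π ∣ X * Y`.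
-/

set_option autoImplicit false

namespace Fermat.Agent.UNIP

variable {B K : Type*} [CommRing B] [Field K]

/-- The ideal of `B'` of all `r` whose `ρ`-reduction is the `ρ₀`-reduction of an element of `𝔫`
(the point of the level-`M` chart under a point `𝔫` of the component `ρ₀`). -/
def nodesTwist (B' : Subring B) (ρ ρ₀ : B →+* K)
    (swap : ∀ b : B, ∃ b' : B, ρ b' = ρ₀ b ∧ ρ₀ b' = ρ b) (𝔫 : Ideal B) : Ideal B' where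
  carrier := {r | ∃ b ∈ 𝔫, ρ (r : B) = ρ₀ b}
  zero_mem' := ⟨0, 𝔫.zero_mem, by simp⟩
  add_mem' := by
    rintro x y ⟨b, hb, hxb⟩ ⟨c, hc, hyc⟩
    exact ⟨b + c, 𝔫.add_mem hb hc, by simp [hxb, hyc]⟩
  smul_mem' := by
    rintro c x ⟨b, hb, hxb⟩
    obtain ⟨c', -, hc'⟩ := swap (c : B)
    refine ⟨c' * b, 𝔫.mul_mem_left _ hb, ?_⟩
    simp [hxb, hc']

theorem mem_nodesTwist {B' : Subring B} {ρ ρ₀ : B →+* K}
    {swap : ∀ b : B, ∃ b' : B, ρ b' = ρ₀ b ∧ ρ₀ b' = ρ b} {𝔫 : Ideal B} {r : B'} :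
    r ∈ nodesTwist B' ρ ρ₀ swap 𝔫 ↔ ∃ b ∈ 𝔫, ρ (r : B) = ρ₀ b := Iff.rfl

/-- The twisted ideal is maximal. -/
theorem nodesTwist_isMaximal {B' : Subring B} {ρ ρ₀ : B →+* K}
    (swap : ∀ b : B, ∃ b' : B, ρ b' = ρ₀ b ∧ ρ₀ b' = ρ b)
    (hsurj₀ : ∀ b : B, ∃ r ∈ B', ρ r = ρ₀ b)
    {𝔫 : Ideal B} (h𝔫 : 𝔫.IsMaximal) (hg𝔫 : ∀ x : B, ρ₀ x = 0 → x ∈ 𝔫) :
    (nodesTwist B' ρ ρ₀ swap 𝔫).IsMaximal := by
  rw [Ideal.isMaximal_iff]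
  constructor
  · rintro ⟨b, hb, h1⟩
    have h2 : ρ₀ (1 - b) = 0 := by
      rw [map_sub, map_one, ← h1]
      simp
    have h3 : (1 : B) ∈ 𝔫 := by
      have : (1 : B) = (1 - b) + b := by ring
      rw [this]
      exact 𝔫.add_mem (hg𝔫 _ h2) hb
    exact h𝔫.ne_top ((Ideal.eq_top_iff_one 𝔫).mpr h3)
  · intro J x hJ hx hxJ
    obtain ⟨x', -, hx'⟩ := swap (x : B)
    have hx'𝔫 : x' ∉ 𝔫 := fun hmem => hx ⟨x', hmem, hx'.symm⟩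
    obtain ⟨y, n, hn, hyn⟩ := h𝔫.exists_inv hx'𝔫
    obtain ⟨r, hr, hry⟩ := hsurj₀ y
    have hmem : x * ⟨r, hr⟩ - 1 ∈ nodesTwist B' ρ ρ₀ swap 𝔫 := by
      refine ⟨-n, 𝔫.neg_mem hn, ?_⟩
      have e1 : ρ₀ (-n) = ρ₀ (y * x' - 1) := by
        congr 1
        linear_combination -hyn
      rw [e1]
      simp [hry, hx']
      ring
    have : (1 : B') = x * ⟨r, hr⟩ - (x * ⟨r, hr⟩ - 1) := by ring
    rw [this]
    exact J.sub_mem (J.mul_mem_right _ hxJ) (hJ hmem)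

/-- **The assembly on one chart.** -/
theorem nodes_chart {B' : Subring B} {π : B} {ρ ρ₀ : B →+* K} {q : ℕ} (hq : 2 ≤ q)
    (hπB' : π ∈ B') (hρπ : ρ π = 0)
    (rd : NodesRankData B' π ρ ρ₀ q)
    (icl : ∀ x : K, IsIntegral (B'.map ρ) x → ∀ r₁ ∈ B', ∀ r₂ ∈ B', ρ r₂ ≠ 0 →
      ρ r₂ * x = ρ r₁ → ∃ r ∈ B', ρ r = x)
    (hint : ∀ b : B, IsIntegral (B'.map ρ) (ρ b))
    [Algebra.IsIntegral B' B]
    (reg : ∀ 𝔪 : Ideal B', 𝔪.IsMaximal → (⟨π, hπB'⟩ : B') ∈ 𝔪 →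
      ∃ s ∈ 𝔪, NodesLocGen 𝔪 {⟨π, hπB'⟩, s})
    (swap : ∀ b : B, ∃ b' : B, ρ b' = ρ₀ b ∧ ρ₀ b' = ρ b)
    (frob : ∀ r ∈ B', ∃ r' ∈ B', ρ₀ r = ρ r' ^ q)
    (𝔫 : Ideal B) (h𝔫 : 𝔫.IsMaximal) (hπ : π ∈ 𝔫) :
    (∃ s ∈ 𝔫, NodesLocGen 𝔫 {π, s}) ∨
    ((∀ x : B, ρ x = 0 → x ∈ 𝔫) ∧ (∀ x : B, ρ₀ x = 0 → x ∈ 𝔫) ∧
      ∃ X Y : B, ρ X = 0 ∧ ρ₀ Y = 0 ∧ NodesSmoothAt ρ₀ 𝔫 X ∧ NodesSmoothAt ρ 𝔫 Y ∧
        π ∣ X * Y ∧ NodesLocGen 𝔫 {π, X, Y}) := by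
  have hprime : 𝔫.IsPrime := h𝔫.isPrime
  have hker : ∀ x : B, ρ x = 0 → ρ₀ x = 0 → π ∣ x := fun x hx hx₀ => rd.dvd_of_ker hx hx₀
  have hsurj : ∀ b : B, ∃ r ∈ B', ρ r = ρ b := rd.exists_eq icl hint
  have hsurj₀ : ∀ b : B, ∃ r ∈ B', ρ r = ρ₀ b := fun b => by
    obtain ⟨b', hb', -⟩ := swap b
    obtain ⟨r, hr, hrb⟩ := hsurj b'
    exact ⟨r, hr, hrb.trans hb'⟩
  -- a local generator of a maximal ideal of `B'`, in element form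
  have hregB : ∀ 𝔪 : Ideal B', 𝔪.IsMaximal → (⟨π, hπB'⟩ : B') ∈ 𝔪 →
      ∃ s ∈ B', ∃ hs : s ∈ B', (⟨s, hs⟩ : B') ∈ 𝔪 ∧
        ∀ r ∈ B', ∀ hr : r ∈ B', (⟨r, hr⟩ : B') ∈ 𝔪 →
          ∃ u ∈ B', ∃ hu : u ∈ B', (⟨u, hu⟩ : B') ∉ 𝔪 ∧
            ∃ a ∈ B', ∃ v ∈ B', u * r = a * π + v * s := by
    intro 𝔪 h𝔪 hπ𝔪
    obtain ⟨s, hs𝔪, hgen⟩ := reg 𝔪 h𝔪 hπ𝔪
    refine ⟨s, s.2, s.2, hs𝔪, fun r _ hr hr𝔪 => ?_⟩
    obtain ⟨u, hu, hur⟩ := hgen ⟨r, hr⟩ hr𝔪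
    rw [Ideal.mem_span_pair] at hur
    obtain ⟨a, v, hav⟩ := hur
    refine ⟨u, u.2, u.2, hu, a, a.2, v, v.2, ?_⟩
    have := congrArg (Subtype.val) hav
    simp only [Subring.coe_add, Subring.coe_mul] at this
    exact this.symm
  refine nodes_main hker hq hπ ?_ ?_
  · -- the component `ρ`
    intro hf𝔫
    have h𝔪 : (𝔫.comap (algebraMap B' B)).IsMaximal :=
      Ideal.isMaximal_comap_of_isIntegral_of_isMaximal 𝔫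
    have hπ𝔪 : (⟨π, hπB'⟩ : B') ∈ 𝔫.comap (algebraMap B' B) := by
      rw [Ideal.mem_comap]; exact hπ
    obtain ⟨s, hsB', hsB'', hs𝔪, hgen⟩ := hregB _ h𝔪 hπ𝔪
    have hs𝔫 : s ∈ 𝔫 := by
      rw [Ideal.mem_comap] at hs𝔪; exact hs𝔪
    refine ⟨s, nodes_smoothAt_of_sub hρπ B' hsurj hf𝔫 hs𝔫 ?_, ?_⟩
    · intro r hr hr𝔫
      obtain ⟨u, huB', huB'', hu, a, -, v, -, huv⟩ := hgen r hr hr (by
        rw [Ideal.mem_comap]; exact hr𝔫)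
      refine ⟨u, huB', ?_, a, v, huv⟩
      intro hu𝔫
      exact hu (by rw [Ideal.mem_comap]; exact hu𝔫)
    · intro _
      obtain ⟨r', hr', hfr⟩ := frob s hsB'
      obtain ⟨h, -, hh⟩ := swap r'
      exact ⟨h, by rw [hfr, hh]⟩
  · -- the component `ρ₀`
    intro hg𝔫
    have h𝔪 := nodesTwist_isMaximal (B' := B') swap hsurj₀ h𝔫 hg𝔫
    have hπ𝔪 : (⟨π, hπB'⟩ : B') ∈ nodesTwist B' ρ ρ₀ swap 𝔫 :=
      ⟨0, 𝔫.zero_mem, by simp [hρπ]⟩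
    obtain ⟨s', hs'B', hs'B'', hs'𝔪, hgen⟩ := hregB _ h𝔪 hπ𝔪
    obtain ⟨s, hs1, hs2⟩ := swap s'
    -- `s ∈ 𝔫`
    have hs𝔫 : s ∈ 𝔫 := by
      obtain ⟨b, hb, hsb⟩ := hs'𝔪
      have h0 : ρ₀ (s - b) = 0 := by
        rw [map_sub, hs2]
        simpa using sub_eq_zero.mpr hsb
      have : s = (s - b) + b := by ring
      rw [this]
      exact 𝔫.add_mem (hg𝔫 _ h0) hb
    refine ⟨s, ⟨hs𝔫, fun b hb => ?_⟩, ?_⟩
    · obtain ⟨r, hr, hrb⟩ := hsurj₀ b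
      obtain ⟨u, huB', huB'', hu, a, -, v, -, huv⟩ := hgen r hr hr ⟨b, hb, hrb⟩
      obtain ⟨U, -, hU⟩ := swap u
      obtain ⟨V, -, hV⟩ := swap v
      refine ⟨U, V, ?_, ?_⟩
      · intro hU𝔫
        exact hu ⟨U, hU𝔫, hU.symm⟩
      · have h1 := congrArg ρ huv
        rw [map_mul, map_add, map_mul, map_mul, hρπ, mul_zero, zero_add] at h1
        rw [map_mul, map_mul, hU, hV, hs2, ← hrb, h1]
    · intro _
      obtain ⟨r', hr', hfr⟩ := frob s' hs'B'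
      exact ⟨r', by rw [hs1, hfr]⟩

end Fermat.Agent.UNIP


end ZBUNIP_017_0

/-! ### bundled: `Fermat.Agent.UNIP.NodesChartHom` -/
section ZBUNIP_017_1

/-!
# UNIP / U5 (Nodes): the assembly on one chart, "hom" form

Same as `nodes_chart` (NodesChart.lean), but the chart of level `M` is an arbitrary ring `C`
with a ring homomorphism `φ : C →+* B` (in the application `C = integralClosure A₀[τ] F_M`,
`B = integralClosure A₀[τ] F_{Mq}`, `φ` induced by `F_M ⊆ F_{Mq}`), so that the statements of the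
level-`M` inputs (`Prime π`, `IsIntegrallyClosed (C ⧸ π)`, local generators) can be used on the
type on which they are proved.

`NodesHomData φ π' ρ ρ₀ q` is `NodesRankData` for `B' = φ.range`.
-/

set_option autoImplicit false

namespace Fermat.Agent.UNIP

open Polynomial

variable {B C K : Type*} [CommRing B] [CommRing C] [Field K]

/-- The hypotheses of the elementary proof of (α1), for a level-`M` chart `φ : C →+* B`. -/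
structure NodesHomData (φ : C →+* B) (π' : C) (ρ ρ₀ : B →+* K) (q : ℕ) : Prop where
  ker_sub : ∀ c : C, ρ (φ c) = 0 → π' ∣ c
  ker₀_sub : ∀ c : C, ρ₀ (φ c) = 0 → ρ (φ c) = 0
  tf : ∀ c : C, ρ (φ c) ≠ 0 → ∀ b : B, φ π' ∣ φ c * b → φ π' ∣ b
  rank : ∀ v : Fin (q + 2) → B, ∃ c : Fin (q + 2) → C,
    (∃ i, ρ (φ (c i)) ≠ 0) ∧ ∑ i, φ (c i) * v i = 0
  indep : ∃ b : Fin q → B, ∀ c : Fin q → C,
    ρ₀ (∑ i, φ (c i) * b i) = 0 → ∀ i, ρ (φ (c i)) = 0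
  ex_c : ∃ c : B, ρ c = 0 ∧ ρ₀ c ≠ 0
  ex_c' : ∃ c' : B, ρ₀ c' = 0 ∧ ρ c' ≠ 0

theorem NodesHomData.toRankData {φ : C →+* B} {π' : C} {ρ ρ₀ : B →+* K} {q : ℕ}
    (h : NodesHomData φ π' ρ ρ₀ q) : NodesRankData φ.range (φ π') ρ ρ₀ q where
  ker_sub := by
    rintro _ ⟨c, rfl⟩ hc
    obtain ⟨d, rfl⟩ := h.ker_sub c hc
    exact ⟨φ d, ⟨d, rfl⟩, map_mul φ _ _⟩
  ker₀_sub := by
    rintro _ ⟨c, rfl⟩ hc
    exact h.ker₀_sub c hc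
  tf := by
    rintro _ ⟨c, rfl⟩ hc b hb
    exact h.tf c hc b hb
  rank := by
    intro v
    obtain ⟨c, hc, hsum⟩ := h.rank v
    exact ⟨fun i => φ (c i), fun i => ⟨c i, rfl⟩, hc, hsum⟩
  indep := by
    obtain ⟨b, hb⟩ := h.indep
    refine ⟨b, fun c hc hsum => ?_⟩
    choose c' hc' using hc
    have h1 : ∑ i, c i * b i = ∑ i, φ (c' i) * b i :=
      Finset.sum_congr rfl fun i _ => by rw [hc' i]
    rw [h1] at hsum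
    intro i
    rw [← hc' i]
    exact hb c' hsum i
  ex_c := h.ex_c
  ex_c' := h.ex_c'

/-- **The assembly on one chart, hom form.** -/
theorem nodes_chart_hom {φ : C →+* B} {π' : C} {ρ ρ₀ : B →+* K} {q : ℕ} (hq : 2 ≤ q)
    (hρπ : ρ (φ π') = 0)
    (hd : NodesHomData φ π' ρ ρ₀ q)
    (icl : ∀ x : K, IsIntegral (ρ.comp φ).range x → ∀ c₁ c₂ : C, ρ (φ c₂) ≠ 0 →
      ρ (φ c₂) * x = ρ (φ c₁) → ∃ c : C, ρ (φ c) = x)
    (hint : ∀ b : B, IsIntegral (ρ.comp φ).range (ρ b))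
    (hφ : φ.IsIntegral)
    (reg : ∀ 𝔪 : Ideal C, 𝔪.IsMaximal → π' ∈ 𝔪 → ∃ s ∈ 𝔪, NodesLocGen 𝔪 {π', s})
    (swap : ∀ b : B, ∃ b' : B, ρ b' = ρ₀ b ∧ ρ₀ b' = ρ b)
    (frob : ∀ c : C, ∃ c' : C, ρ₀ (φ c) = ρ (φ c') ^ q)
    (𝔫 : Ideal B) (h𝔫 : 𝔫.IsMaximal) (hπ : φ π' ∈ 𝔫) :
    (∃ s ∈ 𝔫, NodesLocGen 𝔫 {φ π', s}) ∨
    ((∀ x : B, ρ x = 0 → x ∈ 𝔫) ∧ (∀ x : B, ρ₀ x = 0 → x ∈ 𝔫) ∧
      ∃ X Y : B, ρ X = 0 ∧ ρ₀ Y = 0 ∧ NodesSmoothAt ρ₀ 𝔫 X ∧ NodesSmoothAt ρ 𝔫 Y ∧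
        φ π' ∣ X * Y ∧ NodesLocGen 𝔫 {φ π', X, Y}) := by
  have hrange : φ.range.map ρ = (ρ.comp φ).range := RingHom.map_range ρ φ
  have : Algebra.IsIntegral φ.range B := by
    refine ⟨fun b => ?_⟩
    obtain ⟨p, hp, hpb⟩ := hφ b
    refine ⟨p.map φ.rangeRestrict, hp.map _, ?_⟩
    rw [eval₂_map]
    have : (algebraMap φ.range B).comp φ.rangeRestrict = φ := by
      ext c; rfl
    rw [this]
    exact hpb
  refine nodes_chart (B' := φ.range) hq ⟨π', rfl⟩ hρπ hd.toRankData ?_ ?_ ?_ swap ?_ 𝔫 h𝔫 hπ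
  · -- icl
    intro x hx r₁ hr₁ r₂ hr₂ hne hrel
    obtain ⟨c₁, rfl⟩ := hr₁
    obtain ⟨c₂, rfl⟩ := hr₂
    have hx' : IsIntegral (ρ.comp φ).range x := by
      rw [← hrange]; exact hx
    obtain ⟨c, hc⟩ := icl x hx' c₁ c₂ hne hrel
    exact ⟨φ c, ⟨c, rfl⟩, hc⟩
  · -- hint
    intro b
    rw [hrange]
    exact hint b
  · -- reg
    intro 𝔪 h𝔪 hπ𝔪
    have hsurj := φ.rangeRestrict_surjective
    have hmax : (𝔪.comap φ.rangeRestrict).IsMaximal :=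
      Ideal.comap_isMaximal_of_surjective _ hsurj
    obtain ⟨s, hs, hgen⟩ := reg _ hmax (by rw [Ideal.mem_comap]; exact hπ𝔪)
    refine ⟨φ.rangeRestrict s, hs, fun x hx => ?_⟩
    obtain ⟨c, rfl⟩ := hsurj x
    obtain ⟨u, hu, hux⟩ := hgen c (by rw [Ideal.mem_comap]; exact hx)
    refine ⟨φ.rangeRestrict u, hu, ?_⟩
    rw [Ideal.mem_span_pair] at hux ⊢
    obtain ⟨a, v, hav⟩ := hux
    refine ⟨φ.rangeRestrict a, φ.rangeRestrict v, ?_⟩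
    have := congrArg φ.rangeRestrict hav
    simp only [map_add, map_mul] at this
    exact this
  · -- frob
    rintro _ ⟨c, rfl⟩
    obtain ⟨c', hc'⟩ := frob c
    exact ⟨φ c', ⟨c', rfl⟩, hc'⟩

end Fermat.Agent.UNIP


end ZBUNIP_017_1
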