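/- GENERATED FILE (helper35, build-time optimisation, NOTES/ZB.md): verbatim concatenation of the modules
   Fermat.Agent.UNIP.NodesBridge
   Do not edit; do not import together with these modules. -/
import Fermat.Agent.ZB.UNIP_017
import Mathlib.RingTheory.IntegralClosure.IntegrallyClosed
import Mathlib.RingTheory.Localization.FractionRing
import Mathlib.RingTheory.Polynomial.Basic

/-! ### bundled: `Fermat.Agent.UNIP.NodesBridge` -/
section ZBUNIP_018_0

/-!
# UNIP / U5 (Nodes): bridging lemmas for `nodes_chart_hom`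

Pure commutative algebra (Mathlib only).  The hypotheses of `nodes_chart_hom` are discharged from
the shapes in which the modular inputs are proved:

* `nodes_icl_of_isIntegrallyClosed` : `icl` from `IsIntegrallyClosed (C ⧸ (π'))` (level `M` has
  normal special fibre) and `ker (ρ ∘ φ) = (π')`;
* `nodes_hint_of_isIntegral` : `hint` from `φ.IsIntegral`;
* `nodesHomData_of_frobenius` : the fields `ker₀_sub`, `indep`, `ex_c`, `ex_c'` of `NodesHomData`
  from a ring endomorphism `Fr` of `K` (`X ↦ X ^ q` on `k((X))`) with `ρ₀ ∘ φ = Fr ∘ ρ ∘ φ` (G3), a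
  coordinate `t : C` with `Fr (ρ (φ t)) = ρ (φ t) ^ q` (G5), `b₁ : B` with `ρ b₁ = ρ₀ (φ t)`,
  `ρ₀ b₁ = ρ (φ t)` (the swap of `φ t`) and the independence of `1, T, …, T ^ (q - 1)` over
  the range of `Fr` (G4).  The same lemma serves the charts `j` and `1 / j`.
-/

set_option autoImplicit false

namespace Fermat.Agent.UNIP

open Polynomial

section Icl

variable {C K : Type*} [CommRing C] [Field K]

/-- An element of a field `K` that is integral over an integrally closed domain `Q ⊆ K` and is a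
quotient of two elements of `Q` lies in `Q`. -/
theorem nodes_mem_of_isIntegral_of_mul_eq {Q : Type*} [CommRing Q] [IsDomain Q]
    [IsIntegrallyClosed Q] (ψ : Q →+* K) (hψ : Function.Injective ψ) (x : K)
    (hx : ψ.IsIntegralElem x) (a₁ a₂ : Q) (h₂ : a₂ ≠ 0) (hrel : ψ a₂ * x = ψ a₁) :
    ∃ a : Q, ψ a = x := by
  let L := FractionRing Q
  let g : L →+* K := IsFractionRing.lift (g := ψ) hψ
  have hg : ∀ a : Q, g (algebraMap Q L a) = ψ a := fun a => IsFractionRing.lift_algebraMap hψ a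
  have hginj : Function.Injective g := g.injective
  have ha₂ : algebraMap Q L a₂ ≠ 0 := by
    intro h
    exact h₂ ((IsFractionRing.injective Q L) (by rw [h, map_zero]))
  set y : L := algebraMap Q L a₁ / algebraMap Q L a₂ with hy
  have hψa₂ : ψ a₂ ≠ 0 := fun h => h₂ (hψ (by rw [h, map_zero]))
  have hgy : g y = x := by
    rw [hy, map_div₀, hg, hg]
    rw [div_eq_iff hψa₂, mul_comm]
    exact hrel.symm
  have hyint : IsIntegral Q y := by
    obtain ⟨p, hp, hpx⟩ := hx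
    refine ⟨p, hp, ?_⟩
    apply hginj
    rw [map_zero, Polynomial.hom_eval₂, hgy]
    have : g.comp (algebraMap Q L) = ψ := RingHom.ext hg
    rw [this]
    exact hpx
  obtain ⟨a, ha⟩ := IsIntegrallyClosed.isIntegral_iff.1 hyint
  exact ⟨a, by rw [← hg, ha, hgy]⟩

/-- `IsIntegral` over the range of a ring homomorphism, as `IsIntegralElem`. -/
theorem nodes_isIntegralElem_of_isIntegral_range (ψ : C →+* K) (x : K)
    (hx : IsIntegral ψ.range x) : ψ.IsIntegralElem x := by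
  obtain ⟨p, hp, hpx⟩ := hx
  have hsurj : Function.Surjective ψ.rangeRestrict := ψ.rangeRestrict_surjective
  have hmem : p ∈ Polynomial.lifts ψ.rangeRestrict := by
    rw [Polynomial.mem_lifts]
    exact Polynomial.map_surjective _ hsurj p
  obtain ⟨p', hp', -, hp'm⟩ := Polynomial.lifts_and_natDegree_eq_and_monic hmem hp
  refine ⟨p', hp'm, ?_⟩
  have h1 : (algebraMap ψ.range K).comp ψ.rangeRestrict = ψ := by
    ext c; rfl
  rw [← h1, ← Polynomial.eval₂_map, hp']
  exact hpx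

/-- **The hypothesis `icl` of `nodes_chart_hom`** from the normality of the special fibre of the
chart of level `M`. -/
theorem nodes_icl_of_isIntegrallyClosed (ψ : C →+* K) (π' : C)
    [IsDomain (C ⧸ Ideal.span {π'})] [IsIntegrallyClosed (C ⧸ Ideal.span {π'})]
    (hπ : ψ π' = 0) (hker : ∀ c : C, ψ c = 0 → π' ∣ c) :
    ∀ x : K, IsIntegral ψ.range x → ∀ c₁ c₂ : C, ψ c₂ ≠ 0 →
      ψ c₂ * x = ψ c₁ → ∃ c : C, ψ c = x := by
  intro x hx c₁ c₂ hc₂ hrel
  have hle : ∀ a ∈ Ideal.span {π'}, ψ a = 0 := by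
    intro a ha
    obtain ⟨b, rfl⟩ := Ideal.mem_span_singleton.1 ha
    rw [map_mul, hπ, zero_mul]
  let ψ' : C ⧸ Ideal.span {π'} →+* K := Ideal.Quotient.lift _ ψ hle
  have hψ' : ∀ c : C, ψ' (Ideal.Quotient.mk _ c) = ψ c := fun c => Ideal.Quotient.lift_mk _ _ _
  have hinj : Function.Injective ψ' := by
    rw [injective_iff_map_eq_zero]
    intro a ha
    obtain ⟨c, rfl⟩ := Ideal.Quotient.mk_surjective a
    rw [hψ'] at ha
    exact Ideal.Quotient.eq_zero_iff_mem.2 (Ideal.mem_span_singleton.2 (hker c ha))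
  have hxe : ψ'.IsIntegralElem x := by
    obtain ⟨p, hp, hpx⟩ := nodes_isIntegralElem_of_isIntegral_range ψ x hx
    refine ⟨p.map (Ideal.Quotient.mk _), hp.map _, ?_⟩
    rw [Polynomial.eval₂_map]
    have : ψ'.comp (Ideal.Quotient.mk (Ideal.span {π'})) = ψ := RingHom.ext hψ'
    rw [this]
    exact hpx
  have hne : (Ideal.Quotient.mk (Ideal.span {π'}) c₂) ≠ 0 := by
    intro h
    apply hc₂
    rw [← hψ', h, map_zero]
  obtain ⟨a, ha⟩ := nodes_mem_of_isIntegral_of_mul_eq ψ' hinj x hxe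
    (Ideal.Quotient.mk _ c₁) (Ideal.Quotient.mk _ c₂) hne (by rw [hψ', hψ']; exact hrel)
  obtain ⟨c, rfl⟩ := Ideal.Quotient.mk_surjective a
  exact ⟨c, by rw [← hψ']; exact ha⟩

end Icl

section Hint

variable {B C K : Type*} [CommRing B] [CommRing C] [Field K]

/-- **The hypothesis `hint` of `nodes_chart_hom`** from the integrality of `φ`. -/
theorem nodes_hint_of_isIntegral {φ : C →+* B} (ρ : B →+* K) (hφ : φ.IsIntegral) :
    ∀ b : B, IsIntegral (ρ.comp φ).range (ρ b) := by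
  intro b
  obtain ⟨p, hp, hpb⟩ := hφ b
  refine ⟨p.map (ρ.comp φ).rangeRestrict, hp.map _, ?_⟩
  rw [Polynomial.eval₂_map]
  have h1 : (algebraMap (ρ.comp φ).range K).comp (ρ.comp φ).rangeRestrict = ρ.comp φ := by
    ext c; rfl
  rw [h1, ← Polynomial.hom_eval₂, hpb, map_zero]

end Hint

section Frobenius

variable {B C K : Type*} [CommRing B] [CommRing C] [Field K]

/-- **`NodesHomData` from the Frobenius structure.**  `Fr` is `X ↦ X ^ q` on `k((X))`,
`T = ρ (φ t)` the reduction of the coordinate of the chart, `b₁` the swap of `φ t`. -/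
theorem nodesHomData_of_frobenius {φ : C →+* B} {π' : C} {ρ ρ₀ : B →+* K} {q : ℕ}
    (ker_sub : ∀ c : C, ρ (φ c) = 0 → π' ∣ c)
    (tf : ∀ c : C, ρ (φ c) ≠ 0 → ∀ b : B, φ π' ∣ φ c * b → φ π' ∣ b)
    (rank : ∀ v : Fin (q + 2) → B, ∃ c : Fin (q + 2) → C,
      (∃ i, ρ (φ (c i)) ≠ 0) ∧ ∑ i, φ (c i) * v i = 0)
    (Fr : K →+* K) (hFr : ∀ c : C, ρ₀ (φ c) = Fr (ρ (φ c)))
    (t : C) (b₁ : B) (hb₁ : ρ b₁ = ρ₀ (φ t)) (hb₁' : ρ₀ b₁ = ρ (φ t))
    (hT : Fr (ρ (φ t)) = ρ (φ t) ^ q)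
    (hne : (ρ (φ t) ^ q) ^ q ≠ ρ (φ t))
    (hG4 : ∀ a : Fin q → K, ∑ i, Fr (a i) * ρ (φ t) ^ (i : ℕ) = 0 → ∀ i, a i = 0) :
    NodesHomData φ π' ρ ρ₀ q where
  ker_sub := ker_sub
  ker₀_sub := by
    intro c hc
    rw [hFr] at hc
    exact (map_eq_zero Fr).1 hc
  tf := tf
  rank := rank
  indep := by
    refine ⟨fun i => b₁ ^ (i : ℕ), fun c hc => ?_⟩
    have h1 : ρ₀ (∑ i, φ (c i) * b₁ ^ (i : ℕ)) =
        ∑ i, Fr (ρ (φ (c i))) * ρ (φ t) ^ (i : ℕ) := by
      rw [map_sum]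
      refine Finset.sum_congr rfl fun i _ => ?_
      rw [map_mul, map_pow, hFr, hb₁']
    rw [h1] at hc
    exact hG4 (fun i => ρ (φ (c i))) hc
  ex_c := by
    refine ⟨b₁ - φ t ^ q, ?_, ?_⟩
    · rw [map_sub, map_pow, hb₁, hFr, hT, sub_self]
    · rw [map_sub, map_pow, hb₁', hFr, hT]
      intro h
      exact hne (sub_eq_zero.1 h).symm
  ex_c' := by
    refine ⟨φ t - b₁ ^ q, ?_, ?_⟩
    · rw [map_sub, map_pow, hb₁', hFr, hT, sub_self]
    · rw [map_sub, map_pow, hb₁, hFr, hT]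
      intro h
      exact hne (sub_eq_zero.1 h).symm

end Frobenius

end Fermat.Agent.UNIP


end ZBUNIP_018_0
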