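/- GENERATED FILE (helper35, build-time optimisation, NOTES/ZB.md): verbatim concatenation of the modules
   Fermat.Agent.UNIP.NodesFrobInst
   Fermat.Agent.UNIP.NodesModular
   Do not edit; do not import together with these modules. -/
import Fermat.Agent.ZB.UNIP_011
import Fermat.Agent.ZB.S34_001
import Fermat.Agent.ZB.S36_007
import Fermat.Agent.ZB.UNIP_020
import Fermat.Agent.ZB.UNIP_012
import Fermat.Agent.ZB.UNIP_018

/-! ### bundled: `Fermat.Agent.UNIP.NodesFrobInst` -/
section ZBUNIP_013_0

/-!
# UNIP / U5 (Nodes): the hypothesis `frob` of `nodes_chart_hom` (helper92)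

Setting of `NodesFrob.lean` (helper25) and `FrStab.lean` (helper20): `A` a domain with fraction
field `E`, `r : A →+* k` the residue map with `ker r = (π)`, `q ∤ M` a prime with `char k = q`,
`w = atkinLehner E ιC hq hqM` on `F_{Mq}(E)`;  and a Frobenius lift
`ψA : A →+* A`, `ψE : E →+* E`, `θ : k →+* k` with
`ψE ∘ ι = ι ∘ ψA`, `r ∘ ψA = θ ∘ r`, `θ x ^ q = x`   (`θ = Frob⁻¹`).

For a coordinate `t ∈ F_M(E)` in the Gauss ring with `coeffMap ψE t = t` (e.g. `t = j`, `t = 1/j`)
and the chart `C_t = integralClosure A[t] F_M(E)`: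

* `nodesFrobInst_raw` : for `f ∈ F_M(E)` in the Gauss ring,
  `gaussRed (w f) = (gaussRed (coeffMap ψE f)) ^ q`   ((G3) + FrStab);
* `nodesFrobInstLift c : C_t` : the element `coeffMap ψE c` of the chart (`frStab_chart`);
* `nodesFrobInst_chart` : `gaussRed (w c) = (ρ_M (nodesFrobInstLift c)) ^ q`, `ρ_M = nodesFrobChartRed`;
* `nodesFrobInst_frob` : **the hypothesis `frob` of `nodes_chart_hom`**, for ANY
  `φ : C_t(F_M) →+* B`, `B = integralClosure A[t'] F_{Mq}`, which is the identity on the underlying
  series, any `ρ` which is `gaussRed` on the underlying series and any `ρ₀` which is `gaussRed ∘ w`;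
* `nodesFrobInst_J_fixed`, `nodesFrobInst_Jinv_fixed`, `nodesFrobInst_J_mem`, `nodesFrobInst_Jinv_mem` :
  the hypotheses on `t` for `t = j` and `t = 1/j`.
-/

set_option autoImplicit false
set_option linter.unusedSectionVars false
set_option linter.unusedVariables false

noncomputable section

namespace Fermat.Agent.UNIP

open ModularCurve Polynomial IntermediateField Fermat.Agent.INJ Fermat.Agent.AL

section Raw

variable {A E k : Type*} [CommRing A] [IsDomain A] [Field E] [Algebra A E] [IsFractionRing A E]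
  [Field k] (r : A →+* k) (ιC : E →+* ℂ)
  {q M : ℕ} [NeZero q] [NeZero M] [NeZero (M * q)] (hq : q.Prime) (hqM : ¬ q ∣ M)
  (ψA : A →+* A) (ψE : E →+* E) (θ : k →+* k)

/-- `gaussRed` only depends on the underlying series -/
theorem nodesFrobInst_gaussRed_congr {x y : LaurentSeries E} (hxy : x = y)
    (hx : x ∈ gaussRing (algebraMap A E) r) (hy : y ∈ gaussRing (algebraMap A E) r) :
    gaussRed r (IsFractionRing.injective A E) ⟨x, hx⟩ =
      gaussRed r (IsFractionRing.injective A E) ⟨y, hy⟩ := by
  subst hxy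
  rfl

/-- **(G3) + FrStab, raw form**: for `f ∈ F_M(E)` in the Gauss ring, the reduction of `w_q f` is
the `q`-th power of the reduction of `coeffMap ψE f`. -/
theorem nodesFrobInst_raw [Fact q.Prime] [CharP k q]
    (hψ : ∀ a, ψE (algebraMap A E a) = algebraMap A E (ψA a))
    (hθ : ∀ a, r (ψA a) = θ (r a)) (hθq : ∀ x, θ x ^ q = x)
    {f : LaurentSeries E} (hf : f ∈ modularFunctionFieldFullC E M)
    (hfG : f ∈ gaussRing (algebraMap A E) r)
    (h1 : ((atkinLehner E ιC hq hqM ⟨f, al_mem_of_mem_low E hf⟩ :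
      modularFunctionFieldFullC E (M * q)) : LaurentSeries E) ∈ gaussRing (algebraMap A E) r)
    (h2 : coeffMap ψE f ∈ gaussRing (algebraMap A E) r) :
    gaussRed r (IsFractionRing.injective A E) ⟨_, h1⟩ =
      (gaussRed r (IsFractionRing.injective A E) ⟨coeffMap ψE f, h2⟩) ^ q := by
  have e1 := nodesFrob_G3_pow r ιC hq hqM θ hθq hf hfG
  have e2 := frStab_gaussRed r ψA ψE θ (IsFractionRing.injective A E) hψ hθ ⟨f, hfG⟩
  rw [← e2] at e1
  exact e1

end Raw

section Chart

variable {A E k : Type*} [CommRing A] [IsDomain A] [Field E] [Algebra A E] [IsFractionRing A E]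
  [Field k] (r : A →+* k) (ιC : E →+* ℂ)
  {q M : ℕ} [NeZero q] [NeZero M] [NeZero (M * q)] (hq : q.Prime) (hqM : ¬ q ∣ M)
  (ψA : A →+* A) (ψE : E →+* E) (θ : k →+* k)
  [Algebra A (modularFunctionFieldFullC E M)] [IsScalarTower A E (modularFunctionFieldFullC E M)]

/-- the Frobenius lift on the chart `C_t = integralClosure A[t] F_M(E)`, `t` fixed by `ψE` -/
def nodesFrobInstLift (hψ : ∀ a, ψE (algebraMap A E a) = algebraMap A E (ψA a))
    (t : modularFunctionFieldFullC E M)
    (hτ : coeffMap ψE (t : LaurentSeries E) = (t : LaurentSeries E))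
    (c : integralClosure (Algebra.adjoin A {t}) (modularFunctionFieldFullC E M)) :
    integralClosure (Algebra.adjoin A {t}) (modularFunctionFieldFullC E M) :=
  ⟨frStabHom M ψE (c : modularFunctionFieldFullC E M), frStab_chart M ψE ψA hψ t hτ c.2⟩

theorem nodesFrobInstLift_coe (hψ : ∀ a, ψE (algebraMap A E a) = algebraMap A E (ψA a))
    (t : modularFunctionFieldFullC E M)
    (hτ : coeffMap ψE (t : LaurentSeries E) = (t : LaurentSeries E))
    (c : integralClosure (Algebra.adjoin A {t}) (modularFunctionFieldFullC E M)) :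
    (((nodesFrobInstLift ψA ψE hψ t hτ c :
        integralClosure (Algebra.adjoin A {t}) (modularFunctionFieldFullC E M)) :
      modularFunctionFieldFullC E M) : LaurentSeries E) =
      coeffMap ψE ((c : modularFunctionFieldFullC E M) : LaurentSeries E) := rfl

variable {π : A} [WfDvdMonoid A]

/-- the elements of the chart `C_t` lie in the Gauss ring -/
theorem nodesFrobInst_mem (hπ0 : π ≠ 0) (hπ : ¬ IsUnit π)
    (hr : ∀ a, r a = 0 → π ∣ a) (hrπ : r π = 0)
    (t : modularFunctionFieldFullC E M)
    (ht : (t : LaurentSeries E) ∈ gaussRing (algebraMap A E) r)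
    (c : integralClosure (Algebra.adjoin A {t}) (modularFunctionFieldFullC E M)) :
    ((c : modularFunctionFieldFullC E M) : LaurentSeries E) ∈ gaussRing (algebraMap A E) r :=
  nodesFrob_G1_id r hπ0 hπ hr hrπ (nodesFrob_full_le M) t ht c.2

/-- **`frob`, chart form**: for `c` in the chart `C_t` of level `M`, the reduction of `w_q c` is
the `q`-th power of the reduction of `nodesFrobInstLift c`. -/
theorem nodesFrobInst_chart [Fact q.Prime] [CharP k q]
    (hπ0 : π ≠ 0) (hπ : ¬ IsUnit π) (hr : ∀ a, r a = 0 → π ∣ a) (hrπ : r π = 0)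
    (hψ : ∀ a, ψE (algebraMap A E a) = algebraMap A E (ψA a))
    (hθ : ∀ a, r (ψA a) = θ (r a)) (hθq : ∀ x, θ x ^ q = x)
    (t : modularFunctionFieldFullC E M)
    (ht : (t : LaurentSeries E) ∈ gaussRing (algebraMap A E) r)
    (hτ : coeffMap ψE (t : LaurentSeries E) = (t : LaurentSeries E))
    (c : integralClosure (Algebra.adjoin A {t}) (modularFunctionFieldFullC E M))
    (h1 : ((atkinLehner E ιC hq hqM
        ⟨((c : modularFunctionFieldFullC E M) : LaurentSeries E),
          al_mem_of_mem_low E (c : modularFunctionFieldFullC E M).2⟩ :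
      modularFunctionFieldFullC E (M * q)) : LaurentSeries E) ∈ gaussRing (algebraMap A E) r) :
    gaussRed r (IsFractionRing.injective A E) ⟨_, h1⟩ =
      (nodesFrobChartRed r hπ0 hπ hr hrπ (nodesFrob_full_le M) t ht
        (nodesFrobInstLift ψA ψE hψ t hτ c)) ^ q :=
  nodesFrobInst_raw r ιC hq hqM ψA ψE θ hψ hθ hθq (c : modularFunctionFieldFullC E M).2
    (nodesFrobInst_mem r hπ0 hπ hr hrπ t ht c) h1
    (nodesFrobInst_mem r hπ0 hπ hr hrπ t ht (nodesFrobInstLift ψA ψE hψ t hτ c))

variable [Algebra A (modularFunctionFieldFullC E (M * q))]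
  [IsScalarTower A E (modularFunctionFieldFullC E (M * q))]

/-- **The hypothesis `frob` of `nodes_chart_hom`.**  `φ` is the inclusion of the chart of level
`M` in the chart of level `M q` (any ring homomorphism which is the identity on the underlying
series), `ρ` is the reduction (`nodesFrobChartRed` of level `M q`), `ρ₀ = ρ ∘ w_q`. -/
theorem nodesFrobInst_frob [Fact q.Prime] [CharP k q]
    (hπ0 : π ≠ 0) (hπ : ¬ IsUnit π) (hr : ∀ a, r a = 0 → π ∣ a) (hrπ : r π = 0)
    (hψ : ∀ a, ψE (algebraMap A E a) = algebraMap A E (ψA a))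
    (hθ : ∀ a, r (ψA a) = θ (r a)) (hθq : ∀ x, θ x ^ q = x)
    (t : modularFunctionFieldFullC E M)
    (ht : (t : LaurentSeries E) ∈ gaussRing (algebraMap A E) r)
    (hτ : coeffMap ψE (t : LaurentSeries E) = (t : LaurentSeries E))
    (t' : modularFunctionFieldFullC E (M * q))
    (φ : integralClosure (Algebra.adjoin A {t}) (modularFunctionFieldFullC E M) →+*
      integralClosure (Algebra.adjoin A {t'}) (modularFunctionFieldFullC E (M * q)))
    (hφ : ∀ c, (((φ c : integralClosure (Algebra.adjoin A {t'})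
        (modularFunctionFieldFullC E (M * q))) : modularFunctionFieldFullC E (M * q)) :
        LaurentSeries E) = ((c : modularFunctionFieldFullC E M) : LaurentSeries E))
    (ρ ρ₀ : integralClosure (Algebra.adjoin A {t'}) (modularFunctionFieldFullC E (M * q)) →+*
      LaurentSeries k)
    (hρ : ∀ (b : integralClosure (Algebra.adjoin A {t'}) (modularFunctionFieldFullC E (M * q)))
      (hb : ((b : modularFunctionFieldFullC E (M * q)) : LaurentSeries E) ∈
        gaussRing (algebraMap A E) r),
      ρ b = gaussRed r (IsFractionRing.injective A E) ⟨_, hb⟩)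
    (hρ₀ : ∀ (b : integralClosure (Algebra.adjoin A {t'}) (modularFunctionFieldFullC E (M * q)))
      (hb : ((atkinLehner E ιC hq hqM (b : modularFunctionFieldFullC E (M * q)) :
        modularFunctionFieldFullC E (M * q)) : LaurentSeries E) ∈ gaussRing (algebraMap A E) r),
      ρ₀ b = gaussRed r (IsFractionRing.injective A E) ⟨_, hb⟩)
    (c : integralClosure (Algebra.adjoin A {t}) (modularFunctionFieldFullC E M)) :
    ∃ c' : integralClosure (Algebra.adjoin A {t}) (modularFunctionFieldFullC E M),
      ρ₀ (φ c) = ρ (φ c') ^ q := by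
  refine ⟨nodesFrobInstLift ψA ψE hψ t hτ c, ?_⟩
  have hcG := nodesFrobInst_mem r hπ0 hπ hr hrπ t ht c
  have hc'G := nodesFrobInst_mem r hπ0 hπ hr hrπ t ht (nodesFrobInstLift ψA ψE hψ t hτ c)
  -- the element `φ c` of `F_{Mq}` is `c`
  have e1 : ((φ c : integralClosure (Algebra.adjoin A {t'})
      (modularFunctionFieldFullC E (M * q))) : modularFunctionFieldFullC E (M * q)) =
      ⟨((c : modularFunctionFieldFullC E M) : LaurentSeries E),
        al_mem_of_mem_low E (c : modularFunctionFieldFullC E M).2⟩ := Subtype.ext (hφ c)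
  have hG3 := nodesFrob_G3_mem r ιC hq hqM (c : modularFunctionFieldFullC E M).2 hcG
  have hb₀ : ((atkinLehner E ιC hq hqM ((φ c : integralClosure (Algebra.adjoin A {t'})
      (modularFunctionFieldFullC E (M * q))) : modularFunctionFieldFullC E (M * q)) :
      modularFunctionFieldFullC E (M * q)) : LaurentSeries E) ∈ gaussRing (algebraMap A E) r := by
    rw [e1]
    exact hG3
  have hb : (((φ (nodesFrobInstLift ψA ψE hψ t hτ c) : integralClosure (Algebra.adjoin A {t'})
      (modularFunctionFieldFullC E (M * q))) : modularFunctionFieldFullC E (M * q)) :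
      LaurentSeries E) ∈ gaussRing (algebraMap A E) r := by
    rw [hφ]
    exact hc'G
  rw [hρ₀ _ hb₀, hρ _ hb,
    nodesFrobInst_gaussRed_congr r (by rw [e1]) hb₀ hG3,
    nodesFrobInst_gaussRed_congr r (hφ _) hb hc'G]
  exact nodesFrobInst_raw r ιC hq hqM ψA ψE θ hψ hθ hθq (c : modularFunctionFieldFullC E M).2
    hcG hG3 hc'G

end Chart

/-! ## The coordinates `j` and `1/j` -/

section Coord

variable {A E k : Type*} [CommRing A] [IsDomain A] [Field E] [Algebra A E] [IsFractionRing A E]
  [Field k] (r : A →+* k) (ψE : E →+* E)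

/-- `j` is fixed by `coeffMap ψE` -/
theorem nodesFrobInst_J_fixed : coeffMap ψE (jqModC E) = jqModC E :=
  coeffMap_jqModC ψE

/-- `1/j` is fixed by `coeffMap ψE` -/
theorem nodesFrobInst_Jinv_fixed : coeffMap ψE (jqModC E)⁻¹ = (jqModC E)⁻¹ := by
  rw [map_inv₀, coeffMap_jqModC]

/-- `j` is in the Gauss ring -/
theorem nodesFrobInst_J_mem : jqModC E ∈ gaussRing (algebraMap A E) r := by
  rw [← coeffMap_jqModC (algebraMap A E)]
  exact coeffMap_mem_gaussRing _ r _

/-- the reduction of `j` is `j` -/
theorem nodesFrobInst_gaussRed_J :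
    gaussRed r (IsFractionRing.injective A E) ⟨jqModC E, nodesFrobInst_J_mem r⟩ = jqModC k := by
  rw [nodesFrobInst_gaussRed_congr r (coeffMap_jqModC (algebraMap A E)).symm
    (nodesFrobInst_J_mem r) (coeffMap_mem_gaussRing _ r _), gaussRed_coeffMap, coeffMap_jqModC]

/-- `1/j` is in the Gauss ring -/
theorem nodesFrobInst_Jinv_mem : (jqModC E)⁻¹ ∈ gaussRing (algebraMap A E) r := by
  refine inv_mem_gaussRing r (IsFractionRing.injective A E) ⟨jqModC E, nodesFrobInst_J_mem r⟩ ?_
  rw [nodesFrobInst_gaussRed_J]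
  exact jqModC_ne_zero_of_nontrivial k

/-- the reduction of `1/j` is `1/j` -/
theorem nodesFrobInst_gaussRed_Jinv :
    gaussRed r (IsFractionRing.injective A E) ⟨(jqModC E)⁻¹, nodesFrobInst_Jinv_mem r⟩ =
      (jqModC k)⁻¹ := by
  have h0 : jqModC k ≠ 0 := jqModC_ne_zero_of_nontrivial k
  have h1 : gaussRed r (IsFractionRing.injective A E) ⟨jqModC E, nodesFrobInst_J_mem r⟩ *
      gaussRed r (IsFractionRing.injective A E) ⟨(jqModC E)⁻¹, nodesFrobInst_Jinv_mem r⟩ = 1 := by
    rw [← map_mul, ← map_one (gaussRed r (IsFractionRing.injective A E))]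
    congr 1
    apply Subtype.ext
    show jqModC E * (jqModC E)⁻¹ = 1
    exact mul_inv_cancel₀ (jqModC_ne_zero_of_nontrivial E)
  rw [nodesFrobInst_gaussRed_J] at h1
  exact eq_inv_of_mul_eq_one_right h1

end Coord

end Fermat.Agent.UNIP

end
end ZBUNIP_013_0

/-! ### bundled: `Fermat.Agent.UNIP.NodesModular` -/
section ZBUNIP_013_1

/-!
# UNIP / U5 (Nodes): the modular assembly on one chart

Setting of `NodesFrob` / `NodesInst` / `NodesSwap` / `NodesFrobInst`: `A` a domain with fraction
field `E`, `r : A →+* k` with `ker r = (π)`, `q ∤ M` a prime, `char k = q`,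
`F_M = modularFunctionFieldFullC E M`, `F = modularFunctionFieldFullC E (M q)`,
`w = atkinLehner E ιC hq hqM`, a Frobenius lift `(ψA, ψE, θ)`, and a coordinate `t : F_M`
(`t = j` or `t = 1 / j`) in the Gauss ring with `w t` in the Gauss ring and `coeffMap ψE t = t`.

* `C = integralClosure A[t] F_M`  (the chart of level `M`, good reduction),
* `B = integralClosure A[t] F`     (the chart of level `M q`),
* `φ = nodesPhi : C →+* B`, `ρ = nodesFrobChartRed`, `ρ₀ = nodesSwapRho₀ … w`, for any
  `w : F →ₐ[E] F` with `w x = atkinLehner E ιC hq hqM x` (any coercion of the Atkin–Lehner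
  involution).

`nodes_modular_chart` : from
* the level-`M` inputs `IsDomain (C ⧸ π)`, `IsIntegrallyClosed (C ⧸ π)` and `reg`
  (`RegInst` / `RegTransfer`),
* `hd : NodesHomData φ π ρ ρ₀ q` (`NodesInst`) and `swap` (`NodesSwap`),
at every maximal ideal `𝔫 ∋ π` of `B` either **(SS2)** `𝔫` is locally generated by `π` and one
more element, or **(SS3)** `𝔫` is a crossing point: `ker ρ, ker ρ₀ ⊆ 𝔫` and `𝔫` is locally
generated by `π, X, Y` with `ρ X = 0`, `ρ₀ Y = 0`, `π ∣ X Y`.
`nodes_modular_ker` : **(SS1)** `ρ x = 0 → ρ₀ x = 0 → π ∣ x`.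
-/

set_option autoImplicit false
set_option linter.unusedSectionVars false
set_option linter.unusedVariables false
set_option synthInstance.maxHeartbeats 400000
set_option maxHeartbeats 1000000

noncomputable section

namespace Fermat.Agent.UNIP

open ModularCurve Polynomial IntermediateField Fermat.Agent.INJ Fermat.Agent.AL

section Integral

variable {A E : Type*} [CommRing A] [Field E] [Algebra A E]
  (M q : ℕ) [NeZero q] [NeZero M] [NeZero (M * q)]
  [Algebra A (modularFunctionFieldFullC E M)]
  [IsScalarTower A E (modularFunctionFieldFullC E M)]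
  [Algebra A (modularFunctionFieldFullC E (M * q))]
  [IsScalarTower A E (modularFunctionFieldFullC E (M * q))]
  (t : modularFunctionFieldFullC E M)

/-- `φ (π) = π`. -/
theorem nodesModular_phi_algebraMap (a : A) :
    nodesPhi A M q t (algebraMap A
      (integralClosure (Algebra.adjoin A {t}) (modularFunctionFieldFullC E M)) a) =
    algebraMap A (integralClosure (Algebra.adjoin A {nodesInstIncl E M q t})
      (modularFunctionFieldFullC E (M * q))) a := by
  apply Subtype.ext
  rw [nodesPhi_coe]
  show nodesInstIncl E M q (algebraMap A (modularFunctionFieldFullC E M) a) =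
    algebraMap A (modularFunctionFieldFullC E (M * q)) a
  rw [IsScalarTower.algebraMap_apply A E (modularFunctionFieldFullC E M),
    IsScalarTower.algebraMap_apply A E (modularFunctionFieldFullC E (M * q)), AlgHom.commutes]

end Integral

section Integral2

variable {A E : Type*} [CommRing A] [IsDomain A] [WfDvdMonoid A] [Field E] [Algebra A E]
  [IsFractionRing A E]
  (M q : ℕ) [NeZero q] [NeZero M] [NeZero (M * q)]
  [Algebra A (modularFunctionFieldFullC E M)]
  [IsScalarTower A E (modularFunctionFieldFullC E M)]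
  [Algebra A (modularFunctionFieldFullC E (M * q))]
  [IsScalarTower A E (modularFunctionFieldFullC E (M * q))]
  (t : modularFunctionFieldFullC E M)

/-- The chart of level `M q` is integral over the chart of level `M`. -/
theorem nodesModular_phi_isIntegral : (nodesPhi A M q t).IsIntegral := by
  intro b
  obtain ⟨p, hp, hpb⟩ := b.2
  -- the coefficients of `p` come from `A[t]`
  let g : Algebra.adjoin A {nodesInstIncl E M q t} →+*
      integralClosure (Algebra.adjoin A {t}) (modularFunctionFieldFullC E M) :=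
    (algebraMap (Algebra.adjoin A {t})
      (integralClosure (Algebra.adjoin A {t}) (modularFunctionFieldFullC E M))).comp
      (nodesInstTheta (A := A) M q t)
  refine ⟨p.map g, hp.map g, ?_⟩
  rw [Polynomial.eval₂_map]
  have hcomp : ((integralClosure (Algebra.adjoin A {nodesInstIncl E M q t})
      (modularFunctionFieldFullC E (M * q))).val.toRingHom).comp
        ((nodesPhi A M q t).comp g) =
      algebraMap (Algebra.adjoin A {nodesInstIncl E M q t})
        (modularFunctionFieldFullC E (M * q)) := by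
    refine RingHom.ext fun y => ?_
    exact nodesInstTheta_spec M q t y
  have key : (integralClosure (Algebra.adjoin A {nodesInstIncl E M q t})
      (modularFunctionFieldFullC E (M * q))).val.toRingHom
        (Polynomial.eval₂ ((nodesPhi A M q t).comp g) b p) = 0 := by
    rw [Polynomial.hom_eval₂, hcomp]
    exact hpb
  exact Subtype.ext key

end Integral2

section Main

variable {A E k : Type*} [CommRing A] [IsDomain A] [WfDvdMonoid A] [Field E] [Algebra A E]
  [IsFractionRing A E] [Field k] (r : A →+* k) {π : A} (ιC : E →+* ℂ)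
  {q M : ℕ} [NeZero q] [NeZero M] [NeZero (M * q)] (hq : q.Prime) (hqM : ¬ q ∣ M)
  (ψA : A →+* A) (ψE : E →+* E) (θ : k →+* k)
  [Algebra A (modularFunctionFieldFullC E M)]
  [IsScalarTower A E (modularFunctionFieldFullC E M)]
  [Algebra A (modularFunctionFieldFullC E (M * q))]
  [IsScalarTower A E (modularFunctionFieldFullC E (M * q))]

/-- **(SS1)** on the chart: `ker ρ ∩ ker ρ₀ = π B`. -/
theorem nodes_modular_ker
    (hπ0 : π ≠ 0) (hπ : ¬ IsUnit π) (hr : ∀ a, r a = 0 → π ∣ a) (hrπ : r π = 0)
    (w : modularFunctionFieldFullC E (M * q) →ₐ[E] modularFunctionFieldFullC E (M * q))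
    (t : modularFunctionFieldFullC E M)
    (ht : (t : LaurentSeries E) ∈ gaussRing (algebraMap A E) r)
    (hwt : ((w (nodesInstIncl E M q t) :
      modularFunctionFieldFullC E (M * q)) : LaurentSeries E) ∈ gaussRing (algebraMap A E) r)
    (hd : NodesHomData (nodesPhi A M q t)
      (algebraMap A (integralClosure (Algebra.adjoin A {t}) (modularFunctionFieldFullC E M)) π)
      (nodesFrobChartRed r hπ0 hπ hr hrπ (nodesFrob_full_le (M * q)) (nodesInstIncl E M q t)
        (nodesInst_ht' r M q t ht))
      (nodesSwapRho₀ r hπ0 hπ hr hrπ (nodesFrob_full_le (M * q))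
        w (nodesInstIncl E M q t) hwt) q)
    (x : integralClosure (Algebra.adjoin A {nodesInstIncl E M q t})
      (modularFunctionFieldFullC E (M * q)))
    (hx : nodesFrobChartRed r hπ0 hπ hr hrπ (nodesFrob_full_le (M * q)) (nodesInstIncl E M q t)
        (nodesInst_ht' r M q t ht) x = 0)
    (hx₀ : nodesSwapRho₀ r hπ0 hπ hr hrπ (nodesFrob_full_le (M * q))
        w (nodesInstIncl E M q t) hwt x = 0) :
    algebraMap A (integralClosure (Algebra.adjoin A {nodesInstIncl E M q t})
      (modularFunctionFieldFullC E (M * q))) π ∣ x := by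
  have h := hd.toRankData.dvd_of_ker hx hx₀
  rwa [nodesModular_phi_algebraMap] at h

/-- **The modular assembly on one chart**: (SS2) or (SS3) at every maximal ideal `𝔫 ∋ π` of the
chart `B` of level `M q`. -/
theorem nodes_modular_chart [Fact q.Prime] [CharP k q]
    (hπ0 : π ≠ 0) (hπ : ¬ IsUnit π) (hr : ∀ a, r a = 0 → π ∣ a) (hrπ : r π = 0)
    (hψ : ∀ a, ψE (algebraMap A E a) = algebraMap A E (ψA a))
    (hθ : ∀ a, r (ψA a) = θ (r a)) (hθq : ∀ x, θ x ^ q = x)
    (w : modularFunctionFieldFullC E (M * q) →ₐ[E] modularFunctionFieldFullC E (M * q))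
    (hw : ∀ x, w x = atkinLehner E ιC hq hqM x)
    (t : modularFunctionFieldFullC E M)
    (ht : (t : LaurentSeries E) ∈ gaussRing (algebraMap A E) r)
    (hτ : coeffMap ψE (t : LaurentSeries E) = (t : LaurentSeries E))
    (hwt : ((w (nodesInstIncl E M q t) :
      modularFunctionFieldFullC E (M * q)) : LaurentSeries E) ∈ gaussRing (algebraMap A E) r)
    -- level `M`
    [IsDomain (integralClosure (Algebra.adjoin A {t}) (modularFunctionFieldFullC E M) ⧸
      Ideal.span {algebraMap A
        (integralClosure (Algebra.adjoin A {t}) (modularFunctionFieldFullC E M)) π})]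
    [IsIntegrallyClosed
      (integralClosure (Algebra.adjoin A {t}) (modularFunctionFieldFullC E M) ⧸
      Ideal.span {algebraMap A
        (integralClosure (Algebra.adjoin A {t}) (modularFunctionFieldFullC E M)) π})]
    (reg : ∀ 𝔪 : Ideal (integralClosure (Algebra.adjoin A {t}) (modularFunctionFieldFullC E M)),
      𝔪.IsMaximal →
      algebraMap A (integralClosure (Algebra.adjoin A {t}) (modularFunctionFieldFullC E M)) π
        ∈ 𝔪 →
      ∃ s ∈ 𝔪, NodesLocGen 𝔪 {algebraMap A
        (integralClosure (Algebra.adjoin A {t}) (modularFunctionFieldFullC E M)) π, s})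
    -- level `M q`
    (hd : NodesHomData (nodesPhi A M q t)
      (algebraMap A (integralClosure (Algebra.adjoin A {t}) (modularFunctionFieldFullC E M)) π)
      (nodesFrobChartRed r hπ0 hπ hr hrπ (nodesFrob_full_le (M * q)) (nodesInstIncl E M q t)
        (nodesInst_ht' r M q t ht))
      (nodesSwapRho₀ r hπ0 hπ hr hrπ (nodesFrob_full_le (M * q))
        w (nodesInstIncl E M q t) hwt) q)
    (swap : ∀ b : integralClosure (Algebra.adjoin A {nodesInstIncl E M q t})
        (modularFunctionFieldFullC E (M * q)),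
      ∃ b' : integralClosure (Algebra.adjoin A {nodesInstIncl E M q t})
        (modularFunctionFieldFullC E (M * q)),
      nodesFrobChartRed r hπ0 hπ hr hrπ (nodesFrob_full_le (M * q)) (nodesInstIncl E M q t)
          (nodesInst_ht' r M q t ht) b' =
        nodesSwapRho₀ r hπ0 hπ hr hrπ (nodesFrob_full_le (M * q))
          w (nodesInstIncl E M q t) hwt b ∧
      nodesSwapRho₀ r hπ0 hπ hr hrπ (nodesFrob_full_le (M * q))
          w (nodesInstIncl E M q t) hwt b' =
        nodesFrobChartRed r hπ0 hπ hr hrπ (nodesFrob_full_le (M * q)) (nodesInstIncl E M q t)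
          (nodesInst_ht' r M q t ht) b)
    (𝔫 : Ideal (integralClosure (Algebra.adjoin A {nodesInstIncl E M q t})
      (modularFunctionFieldFullC E (M * q))))
    (h𝔫 : 𝔫.IsMaximal)
    (hπ𝔫 : algebraMap A (integralClosure (Algebra.adjoin A {nodesInstIncl E M q t})
      (modularFunctionFieldFullC E (M * q))) π ∈ 𝔫) :
    (∃ s ∈ 𝔫, NodesLocGen 𝔫 {algebraMap A (integralClosure
        (Algebra.adjoin A {nodesInstIncl E M q t}) (modularFunctionFieldFullC E (M * q))) π, s}) ∨
    ((∀ x, nodesFrobChartRed r hπ0 hπ hr hrπ (nodesFrob_full_le (M * q)) (nodesInstIncl E M q t)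
          (nodesInst_ht' r M q t ht) x = 0 → x ∈ 𝔫) ∧
      (∀ x, nodesSwapRho₀ r hπ0 hπ hr hrπ (nodesFrob_full_le (M * q))
          w (nodesInstIncl E M q t) hwt x = 0 → x ∈ 𝔫) ∧
      ∃ X Y : integralClosure (Algebra.adjoin A {nodesInstIncl E M q t})
          (modularFunctionFieldFullC E (M * q)),
        nodesFrobChartRed r hπ0 hπ hr hrπ (nodesFrob_full_le (M * q)) (nodesInstIncl E M q t)
          (nodesInst_ht' r M q t ht) X = 0 ∧
        nodesSwapRho₀ r hπ0 hπ hr hrπ (nodesFrob_full_le (M * q))
          w (nodesInstIncl E M q t) hwt Y = 0 ∧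
        NodesSmoothAt (nodesSwapRho₀ r hπ0 hπ hr hrπ (nodesFrob_full_le (M * q))
          w (nodesInstIncl E M q t) hwt) 𝔫 X ∧
        NodesSmoothAt (nodesFrobChartRed r hπ0 hπ hr hrπ (nodesFrob_full_le (M * q))
          (nodesInstIncl E M q t) (nodesInst_ht' r M q t ht)) 𝔫 Y ∧
        algebraMap A (integralClosure (Algebra.adjoin A {nodesInstIncl E M q t})
          (modularFunctionFieldFullC E (M * q))) π ∣ X * Y ∧
        NodesLocGen 𝔫 {algebraMap A (integralClosure
          (Algebra.adjoin A {nodesInstIncl E M q t}) (modularFunctionFieldFullC E (M * q))) π,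
          X, Y}) := by
  have hφint := nodesModular_phi_isIntegral (A := A) M q t
  have hρπ := nodesInst_rho_phi_pi r hπ0 hπ hr hrπ M q t ht
  have hφπ := nodesModular_phi_algebraMap (A := A) M q t π
  have h := nodes_chart_hom (φ := nodesPhi A M q t)
    (π' := algebraMap A (integralClosure (Algebra.adjoin A {t})
      (modularFunctionFieldFullC E M)) π)
    (ρ := nodesFrobChartRed r hπ0 hπ hr hrπ (nodesFrob_full_le (M * q)) (nodesInstIncl E M q t)
        (nodesInst_ht' r M q t ht))
    (ρ₀ := nodesSwapRho₀ r hπ0 hπ hr hrπ (nodesFrob_full_le (M * q))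
        w (nodesInstIncl E M q t) hwt)
    hq.two_le hρπ hd
    (nodes_icl_of_isIntegrallyClosed _ _ hρπ hd.ker_sub)
    (nodes_hint_of_isIntegral _ hφint)
    hφint reg swap
    (fun c => nodesFrobInst_frob r ιC hq hqM ψA ψE θ hπ0 hπ hr hrπ hψ hθ hθq t ht hτ
      (nodesInstIncl E M q t) (nodesPhi A M q t) (fun c => nodesPhi_coe_coe M q t c)
      _ _
      (fun b hb => nodesFrobChartRed_apply r hπ0 hπ hr hrπ (nodesFrob_full_le (M * q))
        (nodesInstIncl E M q t) (nodesInst_ht' r M q t ht) b hb)
      (fun b hb => by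
        have hb' : ((w (b : modularFunctionFieldFullC E (M * q)) :
            modularFunctionFieldFullC E (M * q)) : LaurentSeries E) ∈
            gaussRing (algebraMap A E) r := by rw [hw]; exact hb
        rw [nodesSwapRho₀_apply r hπ0 hπ hr hrπ (nodesFrob_full_le (M * q))
          w (nodesInstIncl E M q t) hwt b hb']
        exact nodesFrobInst_gaussRed_congr r (by rw [hw]) hb' hb)
      c)
    𝔫 h𝔫 (by rw [hφπ]; exact hπ𝔫)
  rw [hφπ] at h
  exact h

end Main

end Fermat.Agent.UNIP

end
end ZBUNIP_013_1
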