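/- GENERATED FILE (helper35, build-time optimisation, NOTES/ZB.md): verbatim concatenation of the modules
   Fermat.Agent.PT.A.Plan
   Fermat.Agent.PT.G3.Comparison
   Do not edit; do not import together with these modules. -/
import Mathlib
import Fermat.Agent.ZB.UNIP_013

/-! ### bundled: `Fermat.Agent.PT.A.Plan` -/
section ZBPT_001_0
/-
PT-A (Tate cohomology of finite groups) — INTERFACE FILE (definitions and statements only).
Project PT = Poitou–Tate campaign for S55 (captain helper55), see NOTES/S55-plan.md.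

Everything here is ABSTRACT: a finite group `G`, a `ℤ[G]`-module `C` (`Rep ℤ G`), a prime `p`.
The final statement of PT-A is `StmtTN` (Tate–Nakayama duality in degree (0,2), `p`-primary part).
-/

set_option autoImplicit false

namespace Fermat.Agent.PT

open CategoryTheory groupCohomology

/-- `x` is killed by a power of `p`. -/
def IsPTors (p : ℕ) {X : Type*} [AddCommGroup X] (x : X) : Prop := ∃ k : ℕ, (p ^ k) • x = 0

variable {G : Type} [Group G]

/-- Restriction `Hⁿ(G, A) → Hⁿ(H, A)` to a subgroup. -/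
noncomputable abbrev resSub (A : Rep.{0} ℤ G) (H : Subgroup G) (n : ℕ) :
    groupCohomology A n ⟶ groupCohomology (Rep.res H.subtype A) n :=
  groupCohomology.map H.subtype (𝟙 _) n

/-- `C` is a `p`-class module for the finite group `G`: for every `p`-subgroup `H` of `G`,
`H¹(H, C) = 0` and `H²(H, C)` is cyclic of order `|H|`. -/
structure IsPClassModule (p : ℕ) (C : Rep.{0} ℤ G) : Prop where
  h1 : ∀ H : Subgroup G, IsPGroup p H → Subsingleton (H1 (Rep.res H.subtype C))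
  h2_card : ∀ H : Subgroup G, IsPGroup p H →
    Nat.card (H2 (Rep.res H.subtype C)) = Nat.card H
  h2_cyclic : ∀ H : Subgroup G, IsPGroup p H → IsAddCyclic (H2 (Rep.res H.subtype C))

/-- The norm `N_G h = ∑ γ, γ ∘ h ∘ γ⁻¹` of a `ℤ`-linear map between two `G`-modules. -/
noncomputable def normHom [Fintype G] (M C : Rep.{0} ℤ G) (h : M.V →ₗ[ℤ] C.V) : M.V →ₗ[ℤ] C.V :=
  ∑ γ : G, (C.ρ γ) ∘ₗ h ∘ₗ (M.ρ γ⁻¹)

/-- The push-forward `H²(G, M) → H²(G, C)` along a `G`-morphism. -/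
noncomputable abbrev push₂ {M C : Rep.{0} ℤ G} (g : M ⟶ C) : H2 M ⟶ H2 C :=
  groupCohomology.map (MonoidHom.id G) g 2

/-- **Tate–Nakayama duality, degree (0,2), `p`-part** for a `ℤ`-free finitely generated `M`:
the pairing `Hom_G(M, C) × H²(G, M) → H²(G, C)`, `(g, y) ↦ g_* y` has trivial right kernel on
`p`-primary classes, and its left kernel consists of norms up to a prime-to-`p` multiple. -/
def StmtTN : Prop :=
  ∀ (p : ℕ) [Fact p.Prime] (G : Type) [Group G] [Fintype G] (C : Rep.{0} ℤ G),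
    IsPClassModule p C →
    ∀ (M : Rep.{0} ℤ G), Module.Free ℤ M.V → Module.Finite ℤ M.V →
      (∀ y : H2 M, IsPTors p y → (∀ g : M ⟶ C, (push₂ g).hom y = 0) → y = 0) ∧
      (∀ g : M ⟶ C, (∀ y : H2 M, IsPTors p y → (push₂ g).hom y = 0) →
        ∃ (n : ℕ) (h : M.V →ₗ[ℤ] C.V), ¬ p ∣ n ∧
          ∀ m : M.V, n • g.hom m = normHom M C h m)

/-- **Inflation–restriction in degree 2**: if `H¹(N, A) = 0` for a normal subgroup `N`, then
`0 → H²(G/N, A^N) → H²(G, A) → H²(N, A)` is exact. -/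
def StmtInfRes₂ : Prop :=
  ∀ (G : Type) [Group G] (N : Subgroup G) [N.Normal] (A : Rep.{0} ℤ G),
    Subsingleton (H1 (Rep.res N.subtype A)) →
    Function.Injective ((infNatTrans ℤ N 2).app A).hom ∧
    ∀ x : H2 A, (resSub A N 2).hom x = 0 → ∃ y, ((infNatTrans ℤ N 2).app A).hom y = x

/-- **Sylow**: restriction to a Sylow `p`-subgroup is injective on `p`-primary classes. -/
def StmtSylow : Prop :=
  ∀ (p : ℕ) [Fact p.Prime] (G : Type) [Group G] [Finite G] (A : Rep.{0} ℤ G) (P : Sylow p G)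
    (n : ℕ) (x : groupCohomology A n), 0 < n → IsPTors p x →
    (resSub A (P : Subgroup G) n).hom x = 0 → x = 0

end Fermat.Agent.PT


end ZBPT_001_0

/-! ### bundled: `Fermat.Agent.PT.G3.Comparison` -/
section ZBPT_001_1

/-!
# Project PT, piece G3-abs: the comparison lemma (abstract, pure group cohomology)

`G` a finite group, `C : Rep ℤ G`, `A B ◁ G`, `θ : G ⧸ A ≃ ℤ/m` (cyclic quotient).
For a `G`-invariant `a` the *carry cochain* `c_a (x, y) = [val θ x + val θ y ≥ m] • a` is a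
2-cocycle of `G ⧸ A` with values in `C^A`; it is a coboundary iff `a` is a norm from `C^A`,
and its restriction to any subgroup on which `a` is a norm is a coboundary.

`comparison`: if `a₀ ∈ C^G` is a norm from `B`, no multiple `k • a₀`, `0 < k < h`, is a norm
from `C^A` (for `G ⧸ A`), inflation from `G ⧸ A` is injective on `H²`, inflation–restriction is
exact at `B`, and `#H²(G ⧸ B, C^B)` divides `h`, then `H²(G ⧸ B, C^B)` is cyclic of order `h`.
-/

set_option autoImplicit false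
set_option linter.style.haveILetI false
set_option linter.unusedSectionVars false
set_option linter.unusedVariables false

open CategoryTheory groupCohomology

namespace Fermat.Agent.PT.G3

variable {G : Type} [Group G]

/-- the index `val (θ g)`. -/
noncomputable def cmpIdx (m : ℕ) (θ : G →* Multiplicative (ZMod m)) (g : G) : ℕ :=
  (Multiplicative.toAdd (θ g)).val

/-- The "carry" 2-cochain attached to a homomorphism `θ : G → ℤ/m` and an element `a`:
`(x, y) ↦ a` if `val (θ x) + val (θ y) ≥ m`, and `0` otherwise. -/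
noncomputable def cmpCarry (m : ℕ) (θ : G →* Multiplicative (ZMod m)) {V : Type} [AddCommGroup V]
    (a : V) : G × G → V :=
  fun p => if m ≤ cmpIdx m θ p.1 + cmpIdx m θ p.2 then a else 0

lemma cmpIdx_lt (m : ℕ) [NeZero m] (θ : G →* Multiplicative (ZMod m)) (g : G) :
    cmpIdx m θ g < m :=
  ZMod.val_lt _

lemma cmpIdx_mul (m : ℕ) [NeZero m] (θ : G →* Multiplicative (ZMod m)) (g h : G) :
    cmpIdx m θ (g * h) = if m ≤ cmpIdx m θ g + cmpIdx m θ h
      then cmpIdx m θ g + cmpIdx m θ h - m else cmpIdx m θ g + cmpIdx m θ h := by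
  unfold cmpIdx
  rw [map_mul, toAdd_mul, ZMod.val_add]
  have h1 := ZMod.val_lt (Multiplicative.toAdd (θ g))
  have h2 := ZMod.val_lt (Multiplicative.toAdd (θ h))
  split_ifs with hc
  · rw [Nat.mod_eq_sub_mod hc, Nat.mod_eq_of_lt (by omega)]
  · rw [Nat.mod_eq_of_lt (by omega)]

lemma cmpCarry_apply (m : ℕ) (θ : G →* Multiplicative (ZMod m)) {V : Type} [AddCommGroup V]
    (a : V) (g h : G) :
    cmpCarry m θ a (g, h) = if m ≤ cmpIdx m θ g + cmpIdx m θ h then a else 0 := rfl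

/-- the carry cochain of an invariant element is a 2-cocycle. -/
lemma cmpCarry_mem_cocycles₂ (m : ℕ) [NeZero m] (θ : G →* Multiplicative (ZMod m))
    (C : Rep.{0} ℤ G) (a : C.V) (ha : ∀ g : G, C.ρ g a = a) :
    cmpCarry m θ a ∈ cocycles₂ C := by
  rw [mem_cocycles₂_iff]
  intro g h j
  simp only [cmpCarry_apply]
  have hg := cmpIdx_lt m θ g
  have hh := cmpIdx_lt m θ h
  have hj := cmpIdx_lt m θ j
  rw [cmpIdx_mul m θ g h, cmpIdx_mul m θ h j]
  have hρ : ∀ (c : Prop) [Decidable c], C.ρ g (if c then a else 0) = if c then a else 0 := by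
    intro c _
    split_ifs
    · exact ha g
    · exact map_zero _
  rw [hρ]
  split_ifs <;> first | rfl | (exfalso; omega) | simp

/-- the carry cochain of a norm is a 2-coboundary. -/
lemma cmpCarry_mem_coboundaries₂ (m : ℕ) [NeZero m] (θ : G →* Multiplicative (ZMod m))
    [Fintype G] (C : Rep.{0} ℤ G) (e : C.V) :
    cmpCarry m θ (∑ g : G, C.ρ g e) ∈ coboundaries₂ C := by
  classical
  refine ⟨fun g => ∑ g' : G, if cmpIdx m θ g' < cmpIdx m θ g then C.ρ g' e else 0, ?_⟩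
  funext ⟨g₁, g₂⟩
  rw [d₁₂_hom_apply, cmpCarry_apply]
  dsimp only
  -- first term
  have h1 : C.ρ g₁ (∑ g' : G, if cmpIdx m θ g' < cmpIdx m θ g₂ then C.ρ g' e else 0) =
      ∑ g'' : G, if cmpIdx m θ (g₁⁻¹ * g'') < cmpIdx m θ g₂ then C.ρ g'' e else 0 := by
    rw [map_sum]
    rw [← Equiv.sum_comp (Equiv.mulLeft g₁)
      (fun g'' => if cmpIdx m θ (g₁⁻¹ * g'') < cmpIdx m θ g₂ then C.ρ g'' e else 0)]
    refine Finset.sum_congr rfl (fun g' _ => ?_)
    simp only [Equiv.coe_mulLeft, inv_mul_cancel_left]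
    split_ifs
    · rw [map_mul]; rfl
    · exact map_zero _
  rw [h1]
  have h4 : (if m ≤ cmpIdx m θ g₁ + cmpIdx m θ g₂ then (∑ g : G, C.ρ g e) else 0) =
      ∑ g'' : G, if m ≤ cmpIdx m θ g₁ + cmpIdx m θ g₂ then C.ρ g'' e else 0 := by
    split_ifs
    · rfl
    · simp
  rw [h4, ← Finset.sum_sub_distrib, ← Finset.sum_add_distrib]
  refine Finset.sum_congr rfl (fun g'' _ => ?_)
  have hx := cmpIdx_lt m θ g₁
  have hy := cmpIdx_lt m θ g₂
  have hv := cmpIdx_lt m θ g''
  have hw := cmpIdx_lt m θ (g₁⁻¹ * g'')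
  have hmul := cmpIdx_mul m θ g₁ (g₁⁻¹ * g'')
  rw [mul_inv_cancel_left] at hmul
  have hmul2 := cmpIdx_mul m θ g₁ g₂
  rw [hmul2]
  split_ifs at hmul ⊢ <;> first | (exfalso; omega) | simp

/-- if the carry cochain of `a` with respect to an isomorphism `θ : Q ≃ ℤ/m` is a coboundary,
then `a` is a norm. -/
lemma cmpCarry_norm_of_mem_coboundaries₂ (m : ℕ) [NeZero m] {Q : Type} [Group Q] [Fintype Q]
    (θ : Q ≃* Multiplicative (ZMod m)) (D : Rep.{0} ℤ Q) (a : D.V)
    (h : cmpCarry m θ.toMonoidHom a ∈ coboundaries₂ D) : ∃ d : D.V, a = ∑ q : Q, D.ρ q d := by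
  classical
  obtain ⟨φ, hφ⟩ := h
  by_cases hm1 : m = 1
  · -- `Q` is trivial
    subst hm1
    refine ⟨a, ?_⟩
    have hQ : ∀ q : Q, q = 1 := fun q => by
      apply θ.injective
      rw [map_one]
      exact Subsingleton.elim (α := Multiplicative (ZMod 1)) _ _
    rw [Finset.sum_eq_single (1 : Q) (fun q _ hq => absurd (hQ q) hq)
      (fun h => absurd (Finset.mem_univ _) h), map_one]
    rfl
  · have hm2 : 2 ≤ m := by
      have := NeZero.ne m
      omega
    set s : Q := θ.symm (Multiplicative.ofAdd (1 : ZMod m)) with hs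
    have hidx_s : cmpIdx m θ.toMonoidHom s = 1 := by
      unfold cmpIdx
      rw [hs]
      simp only [MulEquiv.toMonoidHom_eq_coe, MonoidHom.coe_coe, MulEquiv.apply_symm_apply,
        toAdd_ofAdd]
      haveI : Fact (1 < m) := ⟨by omega⟩
      exact ZMod.val_one m
    refine ⟨φ s, ?_⟩
    have hrel : ∀ g : Q, D.ρ g (φ s) - φ (g * s) + φ g =
        if m ≤ cmpIdx m θ.toMonoidHom g + 1 then a else 0 := by
      intro g
      have := congrFun hφ (g, s)
      rw [d₁₂_hom_apply, cmpCarry_apply, hidx_s] at this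
      exact this
    have hsum := Finset.sum_congr (rfl : (Finset.univ : Finset Q) = Finset.univ)
      (fun g _ => hrel g)
    have hshift : ∑ x : Q, φ (x * s) = ∑ x : Q, φ x :=
      Equiv.sum_comp (Equiv.mulRight s) φ
    rw [Finset.sum_add_distrib, Finset.sum_sub_distrib, hshift, sub_add_cancel] at hsum
    rw [hsum]
    -- exactly one `g` has index `m - 1`
    set g₀ : Q := θ.symm (Multiplicative.ofAdd (((m - 1 : ℕ) : ZMod m))) with hg₀
    have hidx_g₀ : cmpIdx m θ.toMonoidHom g₀ = m - 1 := by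
      unfold cmpIdx
      rw [hg₀]
      simp only [MulEquiv.toMonoidHom_eq_coe, MonoidHom.coe_coe, MulEquiv.apply_symm_apply,
        toAdd_ofAdd]
      exact ZMod.val_natCast_of_lt (by omega)
    rw [Finset.sum_eq_single g₀]
    · rw [if_pos (by rw [hidx_g₀]; omega)]
    · intro g _ hg
      rw [if_neg]
      intro hle
      apply hg
      have hlt := cmpIdx_lt m θ.toMonoidHom g
      have heq : cmpIdx m θ.toMonoidHom g = cmpIdx m θ.toMonoidHom g₀ := by
        rw [hidx_g₀]; omega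
      unfold cmpIdx at heq
      have := ZMod.val_injective m heq
      exact θ.injective (Multiplicative.toAdd.injective this)
    · intro h; exact absurd (Finset.mem_univ _) h


lemma cmpCarry_nsmul (m : ℕ) (θ : G →* Multiplicative (ZMod m)) {V : Type} [AddCommGroup V]
    (a : V) (n : ℕ) : n • cmpCarry m θ a = cmpCarry m θ (n • a) := by
  funext ⟨g, h⟩
  rw [Pi.smul_apply, cmpCarry_apply, cmpCarry_apply]
  split_ifs
  · rfl
  · exact smul_zero n

section Comparison

variable (C : Rep.{0} ℤ G) (A B : Subgroup G) [A.Normal] [B.Normal]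

/-- a `G`-invariant element, as an element of `C^A`. -/
def cmpInv (a₀ : C.V) (ha₀ : ∀ g : G, C.ρ g a₀ = a₀) : (C.quotientToInvariants A).V :=
  ⟨a₀, fun x => ha₀ x⟩

lemma cmpInv_invariant (a₀ : C.V) (ha₀ : ∀ g : G, C.ρ g a₀ = a₀) (q : G ⧸ A) :
    (C.quotientToInvariants A).ρ q (cmpInv C A a₀ ha₀) = cmpInv C A a₀ ha₀ := by
  induction q using QuotientGroup.induction_on with
  | H g => exact Subtype.ext (ha₀ g)

/-- the carry cocycle on `G ⧸ A` with values in `C^A`. -/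
noncomputable def cmpCocycle (m : ℕ) [NeZero m] (θ : (G ⧸ A) ≃* Multiplicative (ZMod m))
    (a₀ : C.V) (ha₀ : ∀ g : G, C.ρ g a₀ = a₀) : cocycles₂ (C.quotientToInvariants A) :=
  ⟨cmpCarry m θ.toMonoidHom (cmpInv C A a₀ ha₀),
    cmpCarry_mem_cocycles₂ m θ.toMonoidHom _ _ (cmpInv_invariant C A a₀ ha₀)⟩

/-- inflation on `H²`, on cocycles. -/
lemma cmp_inf_apply (z : cocycles₂ (C.quotientToInvariants A)) :
    ∃ w : cocycles₂ C, ((infNatTrans ℤ A 2).app C).hom (H2π _ z) = H2π C w ∧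
      ∀ g₁ g₂ : G, w (g₁, g₂) =
        ((z ((g₁ : G ⧸ A), (g₂ : G ⧸ A)) : (C.quotientToInvariants A).V) : C.V) := by
  rw [infNatTrans_app]
  exact ⟨mapCocycles₂ _ _ z, H2π_comp_map_apply _ _ z, fun g₁ g₂ => rfl⟩

/-- restriction on `H²`, on cocycles. -/
lemma cmp_res_apply (w : cocycles₂ C) :
    ∃ v : cocycles₂ (Rep.res B.subtype C),
      (Fermat.Agent.PT.resSub C B 2).hom (H2π C w) = H2π _ v ∧
      ∀ b₁ b₂ : B, v (b₁, b₂) = w ((b₁ : G), (b₂ : G)) :=
  ⟨mapCocycles₂ _ _ w, H2π_comp_map_apply _ _ w, fun b₁ b₂ => rfl⟩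

/-- the inflation of the carry class to `G`, restricted to `B`, vanishes if `a₀` is a norm
from `B`. -/
lemma cmp_res_inf_eq_zero (m : ℕ) [NeZero m] (θ : (G ⧸ A) ≃* Multiplicative (ZMod m))
    [Fintype B] (a₀ : C.V) (ha₀ : ∀ g : G, C.ρ g a₀ = a₀)
    (hB : ∃ e : C.V, a₀ = ∑ b : B, C.ρ (b : G) e) :
    (Fermat.Agent.PT.resSub C B 2).hom
      (((infNatTrans ℤ A 2).app C).hom (H2π _ (cmpCocycle C A m θ a₀ ha₀))) = 0 := by
  obtain ⟨e, he⟩ := hB
  obtain ⟨w, hw, hwf⟩ := cmp_inf_apply C A (cmpCocycle C A m θ a₀ ha₀)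
  obtain ⟨v, hv, hvf⟩ := cmp_res_apply C B w
  rw [hw, hv, H2π_eq_zero_iff]
  have hfun : ⇑v = cmpCarry m (θ.toMonoidHom.comp ((QuotientGroup.mk' A).comp B.subtype))
      (∑ b : B, (Rep.res B.subtype C).ρ b e) := by
    funext ⟨b₁, b₂⟩
    rw [hvf, hwf, cmpCarry_apply]
    have hsum : (∑ b : B, (Rep.res B.subtype C).ρ b e) = a₀ := he.symm
    rw [hsum]
    show (((cmpCarry m θ.toMonoidHom (cmpInv C A a₀ ha₀)
      ((b₁ : G) , (b₂ : G))) : (C.quotientToInvariants A).V) : C.V) = _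
    rw [cmpCarry_apply]
    show (((if _ then cmpInv C A a₀ ha₀ else 0 : (C.quotientToInvariants A).V)) : C.V) =
      if _ then a₀ else 0
    split_ifs with h1 h2 h2
    · rfl
    · exact absurd h1 h2
    · exact absurd h2 h1
    · rfl
  rw [hfun]
  exact cmpCarry_mem_coboundaries₂ m _ (Rep.res B.subtype C) e

/-- if `n •` (the carry class) vanishes in `H²(G ⧸ A, C^A)`, then `n • a₀` is a norm from
`C^A`. -/
lemma cmp_norm_of_nsmul_eq_zero (m : ℕ) [NeZero m] (θ : (G ⧸ A) ≃* Multiplicative (ZMod m))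
    [Fintype (G ⧸ A)] (a₀ : C.V) (ha₀ : ∀ g : G, C.ρ g a₀ = a₀) (n : ℕ)
    (h : n • (H2π _ (cmpCocycle C A m θ a₀ ha₀)) = 0) :
    ∃ d : C.V, (∀ x ∈ A, C.ρ x d = d) ∧ n • a₀ = ∑ q : G ⧸ A, C.ρ q.out d := by
  rw [← map_nsmul, H2π_eq_zero_iff] at h
  have hfun : ⇑(n • cmpCocycle C A m θ a₀ ha₀) =
      cmpCarry m θ.toMonoidHom (n • cmpInv C A a₀ ha₀) := by
    rw [← cmpCarry_nsmul]
    rfl
  rw [hfun] at h
  obtain ⟨d, hd⟩ := cmpCarry_norm_of_mem_coboundaries₂ m θ (C.quotientToInvariants A) _ h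
  refine ⟨d.1, fun x hx => d.2 ⟨x, hx⟩, ?_⟩
  have hval := congrArg (Subtype.val) hd
  have h1 : ((n • cmpInv C A a₀ ha₀ : (C.quotientToInvariants A).V) : C.V) = n • a₀ := by
    rw [Submodule.coe_smul_of_tower]; rfl
  rw [h1] at hval
  rw [hval, AddSubmonoidClass.coe_finsetSum]
  refine Finset.sum_congr rfl (fun q _ => ?_)
  conv_lhs => rw [← QuotientGroup.out_eq' q]
  rfl

/-- **Comparison lemma.** `G ⧸ A ≃ ℤ/m` cyclic, `a₀ ∈ C^G` a norm from `B` such that no
multiple `k • a₀` with `0 < k < h` is a norm from `C^A`; inflation from `G ⧸ A` injective on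
`H²`, inflation–restriction exact at `B`, and `#H²(G ⧸ B, C^B) ∣ h`. Then `H²(G ⧸ B, C^B)` is
cyclic of order `h`. -/
theorem comparison (m h : ℕ) [NeZero m] (θ : (G ⧸ A) ≃* Multiplicative (ZMod m))
    [Fintype (G ⧸ A)] [Fintype B]
    (hinfA : Function.Injective ((infNatTrans ℤ A 2).app C).hom)
    (hexB : ∀ x : H2 C, (Fermat.Agent.PT.resSub C B 2).hom x = 0 →
      ∃ y, ((infNatTrans ℤ B 2).app C).hom y = x)
    (hh : 0 < h) (hcard : Nat.card (H2 (C.quotientToInvariants B)) ∣ h)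
    (a₀ : C.V) (ha₀ : ∀ g : G, C.ρ g a₀ = a₀)
    (hB : ∃ e : C.V, a₀ = ∑ b : B, C.ρ (b : G) e)
    (hord : ∀ k : ℕ, 0 < k → k < h →
      ¬ ∃ d : C.V, (∀ x ∈ A, C.ρ x d = d) ∧ k • a₀ = ∑ q : G ⧸ A, C.ρ q.out d) :
    IsAddCyclic (H2 (C.quotientToInvariants B)) ∧
      Nat.card (H2 (C.quotientToInvariants B)) = h := by
  classical
  have hcard0 : Nat.card (H2 (C.quotientToInvariants B)) ≠ 0 := by
    intro h0
    rw [h0, zero_dvd_iff] at hcard
    omega
  haveI : Finite (H2 (C.quotientToInvariants B)) := Nat.finite_of_card_ne_zero hcard0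
  -- the two inflation maps as additive maps between the `H²` groups
  let fA : H2 (C.quotientToInvariants A) →+ H2 C :=
    (((infNatTrans ℤ A 2).app C).hom : _ →ₗ[ℤ] _).toAddMonoidHom
  let fB : H2 (C.quotientToInvariants B) →+ H2 C :=
    (((infNatTrans ℤ B 2).app C).hom : _ →ₗ[ℤ] _).toAddMonoidHom
  have hfA : Function.Injective fA := hinfA
  set xbar : H2 (C.quotientToInvariants A) := H2π _ (cmpCocycle C A m θ a₀ ha₀) with hxbar
  obtain ⟨y, hy⟩ := hexB _ (cmp_res_inf_eq_zero C A B m θ a₀ ha₀ hB)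
  -- view `y` in `H²(G ⧸ B, C^B)`
  obtain ⟨y', hy'⟩ : ∃ y' : H2 (C.quotientToInvariants B), fB y' = fA xbar := ⟨y, hy⟩
  set n := addOrderOf y' with hn
  have hnpos : 0 < n := addOrderOf_pos y'
  have hndvd : n ∣ Nat.card (H2 (C.quotientToInvariants B)) := addOrderOf_dvd_natCard y'
  have hny : n • y' = 0 := addOrderOf_nsmul_eq_zero y'
  have hnx : n • xbar = 0 := by
    apply hfA
    rw [map_nsmul, map_zero, ← hy', ← map_nsmul, hny, map_zero]
  have hnorm := cmp_norm_of_nsmul_eq_zero C A m θ a₀ ha₀ n hnx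
  have hnh : h ≤ n := by
    by_contra hlt
    exact hord n hnpos (by omega) hnorm
  have hle1 : n ≤ Nat.card (H2 (C.quotientToInvariants B)) :=
    Nat.le_of_dvd (Nat.pos_of_ne_zero hcard0) hndvd
  have hle2 : Nat.card (H2 (C.quotientToInvariants B)) ≤ h := Nat.le_of_dvd hh hcard
  have hcardeq : Nat.card (H2 (C.quotientToInvariants B)) = h := by omega
  refine ⟨?_, hcardeq⟩
  exact isAddCyclic_of_addOrderOf_eq_card y' (by rw [← hn]; omega)

/-- The comparison lemma with the hypotheses of PT-A: `StmtInfRes₂`, `H¹(A, C) = 0`,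
`H¹(B, C) = 0`, and `G ⧸ A` cyclic. -/
theorem comparison_of_infRes (hIR : Fermat.Agent.PT.StmtInfRes₂) [Finite G]
    [IsCyclic (G ⧸ A)] [Fintype (G ⧸ A)] [Fintype B]
    (h1A : Subsingleton (H1 (Rep.res A.subtype C)))
    (h1B : Subsingleton (H1 (Rep.res B.subtype C)))
    (h : ℕ) (hh : 0 < h) (hcard : Nat.card (H2 (C.quotientToInvariants B)) ∣ h)
    (a₀ : C.V) (ha₀ : ∀ g : G, C.ρ g a₀ = a₀)
    (hB : ∃ e : C.V, a₀ = ∑ b : B, C.ρ (b : G) e)
    (hord : ∀ k : ℕ, 0 < k → k < h →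
      ¬ ∃ d : C.V, (∀ x ∈ A, C.ρ x d = d) ∧ k • a₀ = ∑ q : G ⧸ A, C.ρ q.out d) :
    IsAddCyclic (H2 (C.quotientToInvariants B)) ∧
      Nat.card (H2 (C.quotientToInvariants B)) = h := by
  haveI : NeZero (Nat.card (G ⧸ A)) := ⟨Nat.card_pos.ne'⟩
  exact comparison C A B (Nat.card (G ⧸ A)) h (zmodCyclicMulEquiv (G := G ⧸ A) inferInstance).symm
    (hIR G A C h1A).1 (hIR G B C h1B).2 hh hcard a₀ ha₀ hB hord

end Comparison

end Fermat.Agent.PT.G3


end ZBPT_001_1
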