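/- GENERATED FILE (helper35, build-time optimisation, NOTES/ZB.md): verbatim concatenation of the modules
   Fermat.Agent.S18.InjStatement
   Fermat.Agent.S18.OfInj
   Fermat.Agent.S18.OfStmtINJ
   Do not edit; do not import together with these modules. -/
import Fermat.Prelude.Def_ModularCurve_ReductionModL
import Fermat.Agent.ZB.PET_002
import Fermat.Statements.S18
import Fermat.Agent.ZB.S18_003
import Fermat.Agent.ZB.ES_003
import Fermat.Agent.ZB.INJ_001

/-! ### bundled: `Fermat.Agent.S18.InjStatement` -/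
section ZBS18_004_0

/-!
# The statement (INJ) in the form consumed by S18

`Fermat.Agent.S18.InjStatement N A m`:  let `Y₁, Y₂ ∈ A((q))` have images in the function field
`F = ℚ̄(j(q^d) : d ∣ N)` and the SAME nonzero reduction (lying in `F_k = k(j(q^d) : d ∣ N)`).
If the divisor of `Y₁ / Y₂` on `F` is divisible by `m`, then `Y₁ / Y₂` is an `m`-th power in `F`.

(`Y₁ / Y₂ ≡ 1` for the Gauss valuation of `F`; this is the statement called (INJ) / (**) in
`NOTES/S18-plan.md` and `NOTES/ESpkg.md`.)  `Fermat.Agent.S18.s18_of_inj` deduces S18 from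
`InjStatement N A p` for all primes `p ≠ ℓ`.
-/

set_option autoImplicit false

noncomputable section

open AlgebraicCurve ModularCurve

namespace Fermat.Agent.S18

/-- The statement (INJ) at level `N`, valuation ring `A ⊂ ℚ̄` and exponent `m`. -/
def InjStatement (N : ℕ) [NeZero N] (A : ValuationSubring (AlgebraicClosure ℚ)) (m : ℕ) : Prop :=
  ∀ (Y₁ Y₂ : LaurentSeries A)
    (h₁ : coeffMap A.subtype Y₁ ∈ modularFunctionFieldBar N)
    (h₂ : coeffMap A.subtype Y₂ ∈ modularFunctionFieldBar N),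
    coeffMap (IsLocalRing.residue A) Y₁ ∈
        modularFunctionFieldFullC (IsLocalRing.ResidueField A) N →
      coeffMap (IsLocalRing.residue A) Y₁ ≠ 0 →
      coeffMap (IsLocalRing.residue A) Y₂ = coeffMap (IsLocalRing.residue A) Y₁ →
      (∀ P : Place (AlgebraicClosure ℚ) (modularFunctionFieldBar N),
        (m : ℤ) ∣ P.ord (⟨_, h₁⟩ : modularFunctionFieldBar N) -
          P.ord (⟨_, h₂⟩ : modularFunctionFieldBar N)) →
      ∃ w : modularFunctionFieldBar N,
        w ^ m * (⟨_, h₂⟩ : modularFunctionFieldBar N) = ⟨_, h₁⟩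

end Fermat.Agent.S18

end
end ZBS18_004_0

/-! ### bundled: `Fermat.Agent.S18.OfInj` -/
section ZBS18_004_1

/-!
# S18 from (INJ)

`Fermat.Agent.S18.s18_of_inj` : the frozen statement S18 (prime-to-`ℓ` torsion of `J₀(N)` injects
under reduction mod `ℓ`) follows from `InjStatement N A p` for all primes `p ≠ ℓ`.

Only fields (2) `r_* div(y) = div(ȳ)` and (3) `PrincipalGeneratedByIntegral` of the hypothesis
`h : ReductionInputsModL A N` are used, together with `HasPrincipalDivisors` for the function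
field of `X₀(N)` over `ℚ̄` (S24 library).
-/

set_option autoImplicit false
set_option linter.unusedSectionVars false
set_option linter.style.haveILetI false

noncomputable section

open AlgebraicCurve ModularCurve HahnSeries IntermediateField

namespace Fermat.Agent.S18

open Fermat.Agent.S24

section Generic

variable {L : Type*} [Field L] [Algebra ℚ L] {A : ValuationSubring L}
variable {k : Type*} [Field k] {π : A →+* k} {N : ℕ} [NeZero N]
variable {r : Place L (laurentBaseChange L (modularFunctionFieldFull N)) →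
  Place k (modularFunctionFieldFullC k N)}

variable (A π N) in
/-- divisors which are a difference of divisors of integral elements -/
def IsIntDiv (D : Divisor L (laurentBaseChange L (modularFunctionFieldFull N))) : Prop :=
  ∃ Y₁ Y₂ : intSubring A π N, redk A π N Y₁ ≠ 0 ∧ redk A π N Y₂ ≠ 0 ∧
    ∀ P, D P = P.ord (genL A π N Y₁) - P.ord (genL A π N Y₂)

theorem ord_genL_mul (P : Place L (laurentBaseChange L (modularFunctionFieldFull N)))
    {Y Z : intSubring A π N} (hY : redk A π N Y ≠ 0) (hZ : redk A π N Z ≠ 0) :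
    P.ord (genL A π N (Y * Z)) = P.ord (genL A π N Y) + P.ord (genL A π N Z) := by
  rw [map_mul, P.ord_mul (genL_ne_zero_of_redk_ne_zero hY) (genL_ne_zero_of_redk_ne_zero hZ)]

theorem ord_redk_mul (Q : Place k (modularFunctionFieldFullC k N))
    {Y Z : intSubring A π N} (hY : redk A π N Y ≠ 0) (hZ : redk A π N Z ≠ 0) :
    Q.ord (redk A π N (Y * Z)) = Q.ord (redk A π N Y) + Q.ord (redk A π N Z) := by
  rw [map_mul, Q.ord_mul hY hZ]

theorem ord_pow' {K F : Type*} [Field K] [Field F] [Algebra K F] (P : Place K F) (f : F) (m : ℕ) :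
    P.ord (f ^ m) = m * P.ord f := by
  have := P.ord_zpow f (m : ℤ)
  simpa using this

theorem isIntDiv_of_mem_closure
    {D : Divisor L (laurentBaseChange L (modularFunctionFieldFull N))}
    (hD : D ∈ AddSubgroup.closure (integralPrincipalDivisors A π N)) : IsIntDiv A π N D := by
  induction hD using AddSubgroup.closure_induction with
  | mem E hE =>
    obtain ⟨y, hy, hyk, hne, hE⟩ := hE
    refine ⟨⟨y, hy, hyk⟩, 1, fun h => hne (congrArg Subtype.val h), ?_, fun P => ?_⟩
    · rw [map_one]; exact one_ne_zero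
    · rw [hE P, map_one, Place.ord_one, sub_zero]
      rfl
  | zero =>
    refine ⟨1, 1, ?_, ?_, fun P => ?_⟩
    · rw [map_one]; exact one_ne_zero
    · rw [map_one]; exact one_ne_zero
    · simp
  | add E E' _ _ hE hE' =>
    obtain ⟨Y₁, Y₂, h₁, h₂, hY⟩ := hE
    obtain ⟨Y₁', Y₂', h₁', h₂', hY'⟩ := hE'
    refine ⟨Y₁ * Y₁', Y₂ * Y₂', ?_, ?_, fun P => ?_⟩
    · rw [map_mul]; exact mul_ne_zero h₁ h₁'
    · rw [map_mul]; exact mul_ne_zero h₂ h₂'
    · rw [Finsupp.add_apply, hY P, hY' P, ord_genL_mul P h₁ h₁', ord_genL_mul P h₂ h₂']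
      ring
  | neg E _ hE =>
    obtain ⟨Y₁, Y₂, h₁, h₂, hY⟩ := hE
    refine ⟨Y₂, Y₁, h₂, h₁, fun P => ?_⟩
    rw [Finsupp.neg_apply, hY P]
    ring

theorem mapDomain_of_isIntDiv
    (hpd : HasPrincipalDivisors L (laurentBaseChange L (modularFunctionFieldFull N)))
    (hr : IsPlaceReductionAlong A π N r)
    {D : Divisor L (laurentBaseChange L (modularFunctionFieldFull N))}
    {Y₁ Y₂ : intSubring A π N} (h₁ : redk A π N Y₁ ≠ 0) (h₂ : redk A π N Y₂ ≠ 0)
    (hD : ∀ P, D P = P.ord (genL A π N Y₁) - P.ord (genL A π N Y₂)) :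
    ∀ Q, Finsupp.mapDomain r D Q = Q.ord (redk A π N Y₁) - Q.ord (redk A π N Y₂) := by
  obtain ⟨D₁, hD₁, -, hr₁⟩ := exists_div_int hpd hr _ h₁
  obtain ⟨D₂, hD₂, -, hr₂⟩ := exists_div_int hpd hr _ h₂
  have hDD : D = D₁ - D₂ := by
    ext P
    rw [Finsupp.sub_apply, hD P, hD₁ P, hD₂ P]
  intro Q
  rw [hDD, Finsupp.mapDomain_sub, Finsupp.sub_apply, hr₁, hr₂]

/-- **S18 for divisors, from (INJ).** -/
theorem isPrincipal_of_inj
    (hpd : HasPrincipalDivisors L (laurentBaseChange L (modularFunctionFieldFull N)))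
    (hπ : Function.Surjective π) (hr : IsPlaceReductionAlong A π N r)
    (hgen : PrincipalGeneratedByIntegral A π N) (m : ℕ) (hm : m ≠ 0)
    (hinj : ∀ Y₁ Y₂ : intSubring A π N, redk A π N Y₁ ≠ 0 → redk A π N Y₂ = redk A π N Y₁ →
      (∀ P : Place L (laurentBaseChange L (modularFunctionFieldFull N)),
        (m : ℤ) ∣ P.ord (genL A π N Y₁) - P.ord (genL A π N Y₂)) →
      ∃ w : laurentBaseChange L (modularFunctionFieldFull N),
        w ^ m * genL A π N Y₂ = genL A π N Y₁)
    (D : Divisor L (laurentBaseChange L (modularFunctionFieldFull N)))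
    (hmD : m • D ∈ Divisor.principal (K := L) (F := laurentBaseChange L (modularFunctionFieldFull N)))
    (hrD : Finsupp.mapDomain r D ∈
      Divisor.principal (K := k) (F := modularFunctionFieldFullC k N)) :
    D ∈ Divisor.principal (K := L) (F := laurentBaseChange L (modularFunctionFieldFull N)) := by
  classical
  -- `m D` is a difference of divisors of integral elements
  obtain ⟨Y₁, Y₂, h₁, h₂, hY⟩ := isIntDiv_of_mem_closure (hgen hmD)
  have hrY := mapDomain_of_isIntDiv hpd hr h₁ h₂ hY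
  -- `r_* D = div g`, `g = Ȳa / Ȳb`
  obtain ⟨g, hg0, hg⟩ := hrD
  obtain ⟨Ya, Yb, hb, hgab⟩ := exists_redk_div (A := A) (π := π) hπ g
  have ha : redk A π N Ya ≠ 0 := by rw [← hgab]; exact mul_ne_zero hg0 hb
  have hgord : ∀ Q : Place k (modularFunctionFieldFullC k N),
      Q.ord g = Q.ord (redk A π N Ya) - Q.ord (redk A π N Yb) := by
    intro Q
    rw [← hgab, Q.ord_mul hg0 hb]
    ring
  -- the two integral elements `Z₁ = Y₁ Yb^m`, `Z₂ = Y₂ Ya^m`
  have hbm : redk A π N (Yb ^ m) ≠ 0 := by rw [map_pow]; exact pow_ne_zero _ hb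
  have ham : redk A π N (Ya ^ m) ≠ 0 := by rw [map_pow]; exact pow_ne_zero _ ha
  have hZ₁ : redk A π N (Y₁ * Yb ^ m) ≠ 0 := by rw [map_mul]; exact mul_ne_zero h₁ hbm
  have hZ₂ : redk A π N (Y₂ * Ya ^ m) ≠ 0 := by rw [map_mul]; exact mul_ne_zero h₂ ham
  have hordk : ∀ Q : Place k (modularFunctionFieldFullC k N),
      Q.ord (redk A π N (Y₁ * Yb ^ m)) = Q.ord (redk A π N (Y₂ * Ya ^ m)) := by
    intro Q
    have e1 := hrY Q
    rw [Finsupp.mapDomain_smul, Finsupp.smul_apply, hg Q, hgord Q, nsmul_eq_mul] at e1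
    rw [ord_redk_mul Q h₁ hbm, ord_redk_mul Q h₂ ham, map_pow, map_pow, ord_pow', ord_pow']
    linear_combination -e1
  obtain ⟨c, hc, hcZ⟩ := redk_eq_const_mul hpd hπ hr _ _ hZ₁ hZ₂ hordk
  have hcL : algebraMap L (laurentBaseChange L (modularFunctionFieldFull N)) (c : L) ≠ 0 := by
    intro h0
    have hc0 : c = 0 := by
      have : (c : L) = 0 := by simpa using h0
      exact Subtype.ext this
    exact hc (by rw [hc0, map_zero])
  have hordL : ∀ P : Place L (laurentBaseChange L (modularFunctionFieldFull N)),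
      P.ord (genL A π N (Y₁ * Yb ^ m)) - P.ord (genL A π N (intC c * (Y₂ * Ya ^ m))) =
        m * (D P - (P.ord (genL A π N Ya) - P.ord (genL A π N Yb))) := by
    intro P
    have e1 := hY P
    rw [Finsupp.smul_apply, nsmul_eq_mul] at e1
    rw [ord_genL_mul P h₁ hbm, map_mul (genL A π N) (intC c), genL_intC,
      P.ord_mul hcL (genL_ne_zero_of_redk_ne_zero hZ₂), PlaceAux.ord_algebraMap,
      ord_genL_mul P h₂ ham, map_pow, map_pow, ord_pow', ord_pow']
    linear_combination -e1
  obtain ⟨w, hw⟩ := hinj (Y₁ * Yb ^ m) (intC c * (Y₂ * Ya ^ m)) hZ₁ hcZ.symm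
    (fun P => ⟨_, hordL P⟩)
  have hZ₁L := genL_ne_zero_of_redk_ne_zero hZ₁
  have hZ₂L : genL A π N (intC c * (Y₂ * Ya ^ m)) ≠ 0 := by
    rw [map_mul, genL_intC]
    exact mul_ne_zero hcL (genL_ne_zero_of_redk_ne_zero hZ₂)
  have hw0 : w ≠ 0 := by
    rintro rfl
    apply hZ₁L
    rw [← hw, zero_pow hm, zero_mul]
  have hword : ∀ P : Place L (laurentBaseChange L (modularFunctionFieldFull N)),
      P.ord w = D P - (P.ord (genL A π N Ya) - P.ord (genL A π N Yb)) := by
    intro P
    have e1 := congrArg P.ord hw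
    rw [P.ord_mul (pow_ne_zero _ hw0) hZ₂L, ord_pow'] at e1
    have e2 := hordL P
    have e3 : (m : ℤ) * P.ord w =
        m * (D P - (P.ord (genL A π N Ya) - P.ord (genL A π N Yb))) := by
      linear_combination e1 + e2
    exact mul_left_cancel₀ (by exact_mod_cast hm) e3
  have haL := genL_ne_zero_of_redk_ne_zero ha
  have hbL := genL_ne_zero_of_redk_ne_zero hb
  refine ⟨w * genL A π N Ya * (genL A π N Yb)⁻¹,
    mul_ne_zero (mul_ne_zero hw0 haL) (inv_ne_zero hbL), fun P => ?_⟩
  rw [P.ord_mul (mul_ne_zero hw0 haL) (inv_ne_zero hbL), P.ord_mul hw0 haL, P.ord_inv, hword P]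
  ring

end Generic

section Final

set_option synthInstance.maxHeartbeats 400000

variable (N : ℕ) [NeZero N] (A : ValuationSubring (AlgebraicClosure ℚ))

/-- S18 for one exponent `p`, from (INJ) for `p`. -/
theorem s18_of_inj_exponent (h : ModularCurve.ReductionInputsModL A N) (p : ℕ) (hp : p ≠ 0)
    (hinj : InjStatement N A p) (z : ModularCurve.JZero N)
    (hpz : p • z = 0) (hz : ModularCurve.reductionModL A N z = 0) : z = 0 := by
  obtain ⟨D, rfl⟩ := Pic0.mk_surjective z
  have hr := isPlaceReductionModL_placeReductionModL h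
  have hgen : PrincipalGeneratedByIntegral A (IsLocalRing.residue A) N := h.choose_spec.2
  have hpd : HasPrincipalDivisors (AlgebraicClosure ℚ) (modularFunctionFieldBar N) :=
    Fermat.Agent.ES.H.hasPrincipalDivisors_FF N
  have h1 : p • (D : Divisor (AlgebraicClosure ℚ) (modularFunctionFieldBar N)) ∈
      Divisor.principal (K := AlgebraicClosure ℚ) (F := modularFunctionFieldBar N) := by
    have h2 : ((p • D : Divisor.degZero (K := AlgebraicClosure ℚ)
        (F := modularFunctionFieldBar N)) : JZero N) = 0 := hpz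
    rw [QuotientAddGroup.eq_zero_iff, AddSubgroup.mem_addSubgroupOf] at h2
    exact h2
  have h3 : Finsupp.mapDomain (placeReductionModL h)
      (D : Divisor (AlgebraicClosure ℚ) (modularFunctionFieldBar N)) ∈
      Divisor.principal (K := IsLocalRing.ResidueField A)
        (F := modularFunctionFieldFullC (IsLocalRing.ResidueField A) N) := by
    rw [reductionModL_mk h] at hz
    have h4 := (QuotientAddGroup.eq_zero_iff _).mp hz
    rw [AddSubgroup.mem_addSubgroupOf] at h4
    exact h4
  have h5 := isPrincipal_of_inj hpd IsLocalRing.residue_surjective hr hgen p hp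
    (fun Y₁ Y₂ hY₁ hY₂ hdiv =>
      hinj Y₁.1 Y₂.1 Y₁.2.1 Y₂.2.1 Y₁.2.2 (fun h0 => hY₁ (Subtype.ext h0))
        (congrArg Subtype.val hY₂) hdiv)
    D h1 h3
  show (QuotientAddGroup.mk D : JZero N) = 0
  rw [QuotientAddGroup.eq_zero_iff, AddSubgroup.mem_addSubgroupOf]
  exact h5

/-- **S18 from (INJ).**  The frozen statement S18 follows from `InjStatement N A p` for all primes
`p ≠ ℓ`. -/
theorem s18_of_inj {ℓ : ℕ} [Fact ℓ.Prime] (h : ModularCurve.ReductionInputsModL A N)
    (hinj : ∀ p : ℕ, p.Prime → p ≠ ℓ → InjStatement N A p)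
    (m : ℕ) (hm : ¬ ℓ ∣ m) (z : ModularCurve.JZero N)
    (hmz : m • z = 0) (hz : ModularCurve.reductionModL A N z = 0) : z = 0 := by
  induction m using Nat.strong_induction_on generalizing z with
  | _ m ih =>
    rcases Nat.eq_zero_or_pos m with h0 | hpos
    · exact absurd (h0 ▸ dvd_zero ℓ) hm
    rcases eq_or_ne m 1 with h1 | h1
    · rw [h1, one_nsmul] at hmz
      exact hmz
    -- a prime factor
    have hp := Nat.minFac_prime h1
    obtain ⟨m', hm'⟩ := Nat.minFac_dvd m
    have hpl : m.minFac ≠ ℓ := fun h => hm (h ▸ Nat.minFac_dvd m)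
    have hm'pos : 0 < m' := by
      rcases Nat.eq_zero_or_pos m' with h0 | h0
      · rw [h0, mul_zero] at hm'; omega
      · exact h0
    have hlt : m' < m := by
      have := hp.two_le
      nlinarith
    have hlm' : ¬ ℓ ∣ m' := fun hd => hm (hm' ▸ Dvd.dvd.mul_left hd _)
    -- `z' = m' • z` is killed by the prime
    have hz' : m' • z = 0 := by
      apply s18_of_inj_exponent N A h m.minFac hp.ne_zero (hinj _ hp hpl) (m' • z)
      · rw [← mul_nsmul', ← hm']
        exact hmz
      · rw [map_nsmul, hz, nsmul_zero]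
    exact ih m' hlt hlm' z hz' hz

end Final

end Fermat.Agent.S18

end
end ZBS18_004_1

/-! ### bundled: `Fermat.Agent.S18.OfStmtINJ` -/
section ZBS18_004_2

/-!
# S18 from the (INJ) campaign's statement `Fermat.Agent.INJ.StmtINJAll`
-/

set_option autoImplicit false

noncomputable section

open AlgebraicCurve ModularCurve

namespace Fermat.Agent.S18

theorem injStatement_of_stmtINJ {N ℓ p : ℕ} [NeZero N]
    (A : ValuationSubring (AlgebraicClosure ℚ)) (hA : A.LiesOverPrime ℓ)
    (h : Fermat.Agent.INJ.StmtINJ N ℓ p) : InjStatement N A p := by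
  intro Y₁ Y₂ h₁ h₂ _ hne heq hdiv
  exact h A hA Y₁ Y₂ h₁ h₂ heq.symm (heq ▸ hne) hdiv

/-- **S18 from `StmtINJAll`** (the exact frozen statement of S18, with (INJ) as a hypothesis). -/
theorem s18_of_stmtINJAll (hINJ : Fermat.Agent.INJ.StmtINJAll) (N : ℕ) [NeZero N] {ℓ : ℕ}
    [Fact ℓ.Prime] (hℓN : ¬ ℓ ∣ N) (A : ValuationSubring (AlgebraicClosure ℚ))
    (hA : A.LiesOverPrime ℓ)
    (h : ModularCurve.ReductionInputsModL A N) (m : ℕ) (hm : ¬ ℓ ∣ m) (z : ModularCurve.JZero N)
    (hmz : m • z = 0) (hz : ModularCurve.reductionModL A N z = 0) :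
    z = 0 :=
  s18_of_inj N A h
    (fun p hp hpl => injStatement_of_stmtINJ A hA
      (hINJ N ℓ p (NeZero.ne N) (Fact.out : ℓ.Prime) hp hℓN (fun e => hpl e.symm)))
    m hm z hmz hz

end Fermat.Agent.S18

end
end ZBS18_004_2
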