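/- GENERATED FILE (helper35, build-time optimisation, NOTES/ZB.md): verbatim concatenation of the modules
   Fermat.Agent.INJ.DiscPresentation
   Fermat.Agent.INJ.DiscNakayama
   Fermat.Agent.INJ.Disc
   Do not edit; do not import together with these modules. -/
import Mathlib
import Fermat.Agent.ZB.S49_002
import Fermat.Agent.ZB.INJ_032

/-! ### bundled: `Fermat.Agent.INJ.DiscPresentation` -/
section ZBINJ_033_0

/-!
# (INJ) piece A3, part 2: base change of the discriminant along a "presentation"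

A *presentation* of an `R`-algebra `C` is a finite `R`-linearly independent family `b : ι → C`
together with `s : R` such that `s • C ⊆ ⊕ R b i`.  For every `R`-field `k` in which `s` is
invertible, `k ⊗[R] C` is then free with basis `1 ⊗ b i`, and the discriminant of this basis is
`φ(s)^{-r} φ(D)` where `D ∈ R` is the determinant of the `s`-scaled trace matrix.
-/

set_option autoImplicit false
set_option linter.style.haveILetI false
set_option linter.unusedSectionVars false

namespace Fermat.Agent.INJ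

open Module TensorProduct

variable {R : Type*} {C : Type*} [CommRing R] [CommRing C] [Algebra R C]
variable {ι : Type*} [Fintype ι] [DecidableEq ι]

/-- `b` is `R`-linearly independent and `s • C` lies in its span. -/
structure IsPresentation (b : ι → C) (s : R) : Prop where
  indep : LinearIndependent R b
  span : ∀ x : C, s • x ∈ Submodule.span R (Set.range b)

namespace IsPresentation

variable {b : ι → C} {s : R} (P : IsPresentation b s)

/-- the coordinates of `s • x` in the family `b` -/
noncomputable def coord : C →ₗ[R] (ι → R) :=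
  (Basis.span P.indep).equivFun.toLinearMap ∘ₗ
    LinearMap.codRestrict (Submodule.span R (Set.range b)) (s • LinearMap.id) P.span

theorem sum_coord (x : C) : ∑ i, P.coord x i • b i = s • x := by
  have h := (Basis.span P.indep).sum_equivFun
    (⟨s • x, P.span x⟩ : Submodule.span R (Set.range b))
  have h2 := congrArg (Submodule.subtype _) h
  rw [map_sum] at h2
  simp only [map_smul, Submodule.subtype_apply, Basis.span_apply] at h2
  exact h2

theorem coord_unique (x : C) (a : ι → R) (h : ∑ i, a i • b i = s • x) : P.coord x = a := by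
  have h1 := P.sum_coord x
  rw [← h] at h1
  have h3 : ∑ i, (P.coord x i - a i) • b i = 0 := by
    simp only [sub_smul, Finset.sum_sub_distrib, h1, sub_self]
  have := Fintype.linearIndependent_iff.mp P.indep _ h3
  funext i
  exact sub_eq_zero.mp (this i)

theorem coord_basis (i : ι) : P.coord (b i) = Pi.single i s := by
  apply P.coord_unique
  rw [Finset.sum_eq_single i]
  · simp
  · intro j _ hj
    simp [Pi.single_eq_of_ne hj]
  · intro h; exact absurd (Finset.mem_univ i) h

/-- the `s`-scaled trace -/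
noncomputable def strace (x : C) : R := ∑ j, P.coord (x * b j) j

/-- the `s`-scaled discriminant -/
noncomputable def sdisc : R := Matrix.det (Matrix.of fun i j => P.strace (b i * b j))

section field

variable (k : Type*) [Field k] [Algebra R k]

/-- coordinates on the fibre -/
noncomputable def fibreCoord : (k ⊗[R] C) →ₗ[k] (ι → k) :=
  (algebraMap R k s)⁻¹ •
    ((TensorProduct.piScalarRight R k k ι).toLinearMap ∘ₗ (P.coord.baseChange k))

theorem fibreCoord_tmul (a : k) (x : C) (i : ι) :
    P.fibreCoord k (a ⊗ₜ[R] x) i = (algebraMap R k s)⁻¹ * (a * algebraMap R k (P.coord x i)) := by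
  simp only [fibreCoord, LinearMap.smul_apply, LinearMap.coe_comp, LinearEquiv.coe_coe,
    Function.comp_apply, LinearMap.baseChange_tmul, TensorProduct.piScalarRight_apply,
    TensorProduct.piScalarRightHom_tmul, Pi.smul_apply, smul_eq_mul]
  congr 1
  rw [Algebra.smul_def, mul_comm]

/-- the inverse of `fibreCoord` -/
noncomputable def fibreComb (b : ι → C) : (ι → k) →ₗ[k] (k ⊗[R] C) :=
  Fintype.linearCombination k (fun i => (1 : k) ⊗ₜ[R] b i)

variable {k}

/-- the fibre is free on `1 ⊗ b i` -/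
noncomputable def fibreEquiv (hs : algebraMap R k s ≠ 0) : (k ⊗[R] C) ≃ₗ[k] (ι → k) :=
  LinearEquiv.ofLinearMap (P.fibreCoord k) (fibreComb k b)
    (by
      apply LinearMap.ext
      intro v
      funext i
      simp only [LinearMap.coe_comp, Function.comp_apply, LinearMap.id_coe, id_eq, fibreComb,
        Fintype.linearCombination_apply, map_sum, map_smul, Finset.sum_apply, Pi.smul_apply,
        smul_eq_mul, fibreCoord_tmul, coord_basis, one_mul]
      rw [Finset.sum_eq_single i]
      · simp only [Pi.single_eq_same]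
        field_simp
      · intro j _ hj
        simp [Pi.single_eq_of_ne (Ne.symm hj)]
      · intro h; exact absurd (Finset.mem_univ i) h)
    (by
      apply TensorProduct.AlgebraTensorModule.ext
      intro a x
      simp only [LinearMap.coe_comp, Function.comp_apply, LinearMap.id_coe, id_eq, fibreComb,
        Fintype.linearCombination_apply, fibreCoord_tmul]
      have h1 : ∀ i, ((algebraMap R k s)⁻¹ * (a * algebraMap R k (P.coord x i))) • ((1 : k) ⊗ₜ[R] b i)
          = ((algebraMap R k s)⁻¹ * a) • ((1 : k) ⊗ₜ[R] (P.coord x i • b i)) := by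
        intro i
        rw [TensorProduct.tmul_smul, TensorProduct.smul_tmul', TensorProduct.smul_tmul',
          TensorProduct.smul_tmul', smul_eq_mul, smul_eq_mul, Algebra.smul_def]
        congr 1
        ring
      simp only [h1]
      rw [← Finset.smul_sum, ← TensorProduct.tmul_sum, P.sum_coord, TensorProduct.tmul_smul,
        TensorProduct.smul_tmul', TensorProduct.smul_tmul', smul_eq_mul, Algebra.smul_def]
      congr 1
      field_simp)

/-- the basis `1 ⊗ b i` of the fibre -/
noncomputable def fibreBasis (hs : algebraMap R k s ≠ 0) : Basis ι k (k ⊗[R] C) :=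
  Basis.ofEquivFun (P.fibreEquiv hs)

theorem fibreBasis_apply (hs : algebraMap R k s ≠ 0) (i : ι) :
    P.fibreBasis hs i = (1 : k) ⊗ₜ[R] b i := by
  rw [fibreBasis, Basis.coe_ofEquivFun]
  change (P.fibreEquiv hs).symm (Pi.single i 1) = _
  change fibreComb k b (Pi.single i 1) = _
  simp [fibreComb]

theorem fibreBasis_repr_tmul (hs : algebraMap R k s ≠ 0) (a : k) (x : C) (i : ι) :
    (P.fibreBasis hs).repr (a ⊗ₜ[R] x) i
      = (algebraMap R k s)⁻¹ * (a * algebraMap R k (P.coord x i)) := by
  rw [fibreBasis, Basis.ofEquivFun_repr_apply]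
  exact P.fibreCoord_tmul k a x i

theorem tmul_eq_zero_iff (hs : algebraMap R k s ≠ 0) (x : C) :
    (1 : k) ⊗ₜ[R] x = 0 ↔ ∀ i, algebraMap R k (P.coord x i) = 0 := by
  rw [← (P.fibreBasis hs).repr.map_eq_zero_iff]
  constructor
  · intro h i
    have := DFunLike.congr_fun h i
    rw [fibreBasis_repr_tmul, Finsupp.zero_apply, one_mul] at this
    exact (mul_eq_zero.mp this).resolve_left (inv_ne_zero hs)
  · intro h
    ext i
    rw [fibreBasis_repr_tmul, h i]
    simp

theorem trace_tmul (hs : algebraMap R k s ≠ 0) (x : C) :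
    Algebra.trace k (k ⊗[R] C) ((1 : k) ⊗ₜ[R] x)
      = (algebraMap R k s)⁻¹ * algebraMap R k (P.strace x) := by
  rw [Algebra.trace_eq_matrix_trace (P.fibreBasis hs), Matrix.trace, strace, map_sum,
    Finset.mul_sum]
  refine Finset.sum_congr rfl fun j _ => ?_
  rw [Matrix.diag_apply, Algebra.leftMulMatrix_eq_repr_mul, fibreBasis_apply,
    Algebra.TensorProduct.tmul_mul_tmul, one_mul, fibreBasis_repr_tmul, one_mul]

theorem det_traceMatrix (hs : algebraMap R k s ≠ 0) :
    (LinearMap.BilinForm.toMatrix (P.fibreBasis hs) (Algebra.traceForm k (k ⊗[R] C))).det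
      = ((algebraMap R k s)⁻¹) ^ Fintype.card ι * algebraMap R k P.sdisc := by
  have h : LinearMap.BilinForm.toMatrix (P.fibreBasis hs) (Algebra.traceForm k (k ⊗[R] C))
      = (algebraMap R k s)⁻¹ • (algebraMap R k).mapMatrix
          (Matrix.of fun i j => P.strace (b i * b j)) := by
    ext i j
    rw [Algebra.traceForm_toMatrix, fibreBasis_apply, fibreBasis_apply,
      Algebra.TensorProduct.tmul_mul_tmul, one_mul, trace_tmul P hs]
    simp
  rw [h, Matrix.det_smul, sdisc, RingHom.map_det]

/-- **Base change of the discriminant**: the trace form of the fibre `k ⊗ C` is nondegenerate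
iff the image of the scaled discriminant is nonzero. -/
theorem traceForm_nondegenerate_iff (hs : algebraMap R k s ≠ 0) :
    (Algebra.traceForm k (k ⊗[R] C)).Nondegenerate ↔ algebraMap R k P.sdisc ≠ 0 := by
  rw [LinearMap.BilinForm.nondegenerate_iff_det_ne_zero (P.fibreBasis hs), det_traceMatrix P hs]
  constructor
  · intro h h0
    exact h (by rw [h0, mul_zero])
  · intro h
    exact mul_ne_zero (pow_ne_zero _ (inv_ne_zero hs)) h

end field

end IsPresentation

end Fermat.Agent.INJ


end ZBINJ_033_0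

/-! ### bundled: `Fermat.Agent.INJ.DiscNakayama` -/
section ZBINJ_033_1

/-!
# (INJ) piece A3, part 3: existence of a presentation (Nakayama)

`R` a domain, `π` a prime element with `R ⧸ π` a PID, `C` a finite `R`-algebra on which `π` is
regular and such that `C / π C` is torsion-free over `R ⧸ π`.  Then there are `b : Fin r → C`,
`R`-linearly independent, and `s ≡ 1 mod π` with `s • C ⊆ ⊕ R b i`.
-/

set_option autoImplicit false
set_option linter.style.haveILetI false
set_option linter.unusedSectionVars false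

namespace Fermat.Agent.INJ

open Module TensorProduct

section

variable {R : Type*} {C : Type*} [CommRing R] [CommRing C] [Algebra R C]

/-- every element of `(R ⧸ I) ⊗ C` is of the form `1 ⊗ x` -/
theorem exists_one_tmul (I : Ideal R) (z : (R ⧸ I) ⊗[R] C) : ∃ x : C, z = (1 : R ⧸ I) ⊗ₜ[R] x := by
  induction z using TensorProduct.induction_on with
  | zero => exact ⟨0, by simp⟩
  | tmul a x =>
    obtain ⟨a, rfl⟩ := Ideal.Quotient.mk_surjective a
    refine ⟨a • x, ?_⟩
    rw [TensorProduct.tmul_smul, TensorProduct.smul_tmul']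
    congr 1
    rw [Algebra.smul_def, mul_one]; rfl
  | add z w hz hw =>
    obtain ⟨x, rfl⟩ := hz
    obtain ⟨y, rfl⟩ := hw
    exact ⟨x + y, by rw [TensorProduct.tmul_add]⟩

theorem one_tmul_eq_zero_iff_mem (I : Ideal R) (x : C) :
    (1 : R ⧸ I) ⊗ₜ[R] x = 0 ↔ x ∈ (I • ⊤ : Submodule R C) := by
  rw [← (TensorProduct.quotTensorEquivQuotSMul C I).map_eq_zero_iff,
    TensorProduct.quotTensorEquivQuotSMul_mk_one_tmul, Submodule.Quotient.mk_eq_zero]

theorem mem_span_singleton_smul_top_iff (π : R) (x : C) :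
    x ∈ ((Ideal.span {π} : Ideal R) • ⊤ : Submodule R C) ↔ algebraMap R C π ∣ x := by
  rw [Submodule.ideal_span_singleton_smul, Submodule.mem_smul_pointwise_iff_exists]
  constructor
  · rintro ⟨y, -, rfl⟩
    exact ⟨y, by rw [Algebra.smul_def]⟩
  · rintro ⟨y, rfl⟩
    exact ⟨y, Submodule.mem_top, by rw [Algebra.smul_def]⟩

theorem one_tmul_eq_zero_iff (π : R) (x : C) :
    (1 : R ⧸ Ideal.span {π}) ⊗ₜ[R] x = 0 ↔ algebraMap R C π ∣ x := by
  rw [one_tmul_eq_zero_iff_mem, mem_span_singleton_smul_top_iff]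

theorem mk_smul_one_tmul (I : Ideal R) (a : R) (x : C) :
    (Ideal.Quotient.mk I a) • ((1 : R ⧸ I) ⊗ₜ[R] x) = (1 : R ⧸ I) ⊗ₜ[R] (a • x) := by
  rw [TensorProduct.tmul_smul, TensorProduct.smul_tmul', TensorProduct.smul_tmul', smul_eq_mul,
    mul_one, Algebra.smul_def, mul_one]
  rfl

end

section

variable {R : Type*} {C : Type*} [CommRing R] [IsDomain R] [WfDvdMonoid R]
  [CommRing C] [Algebra R C] [Module.Finite R C]

/-- **Nakayama step**: existence of a presentation with `s ≡ 1 mod π`. -/
theorem exists_presentation {π : R} (hπ : Prime π) [IsPrincipalIdealRing (R ⧸ Ideal.span {π})]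
    (hreg : ∀ x : C, algebraMap R C π * x = 0 → x = 0)
    (htf : ∀ f : R, ¬ π ∣ f → ∀ x : C, algebraMap R C π ∣ f • x → algebraMap R C π ∣ x) :
    ∃ (r : ℕ) (b : Fin r → C) (s : R), π ∣ s - 1 ∧ IsPresentation b s := by
  classical
  set I : Ideal R := Ideal.span {π} with hI
  haveI hIprime : I.IsPrime := (Ideal.span_singleton_prime hπ.ne_zero).mpr hπ
  haveI : IsDomain (R ⧸ I) := Ideal.Quotient.isDomain I
  have hmk : ∀ a : R, Ideal.Quotient.mk I a = 0 ↔ π ∣ a := fun a => by
    rw [Ideal.Quotient.eq_zero_iff_mem, hI, Ideal.mem_span_singleton]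
  -- torsion-freeness of the special fibre
  haveI : Module.IsTorsionFree (R ⧸ I) ((R ⧸ I) ⊗[R] C) := by
    refine ⟨fun a ha z₁ z₂ h => ?_⟩
    obtain ⟨f, rfl⟩ := Ideal.Quotient.mk_surjective a
    have hf : ¬ π ∣ f := fun hd => ha.ne_zero ((hmk f).mpr hd)
    obtain ⟨x, hx⟩ := exists_one_tmul I (z₁ - z₂)
    have h0 : Ideal.Quotient.mk I f • (z₁ - z₂) = 0 := by
      rw [smul_sub]; exact sub_eq_zero.mpr h
    rw [hx, mk_smul_one_tmul, one_tmul_eq_zero_iff] at h0
    have := htf f hf x h0
    rw [← one_tmul_eq_zero_iff (π := π), ← hx] at this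
    exact sub_eq_zero.mp this
  haveI : Module.Free (R ⧸ I) ((R ⧸ I) ⊗[R] C) := Module.free_of_finite_type_torsion_free'
  let r := Module.finrank (R ⧸ I) ((R ⧸ I) ⊗[R] C)
  let bb : Basis (Fin r) (R ⧸ I) ((R ⧸ I) ⊗[R] C) := Module.finBasis _ _
  have hlift : ∀ i, ∃ x : C, bb i = (1 : R ⧸ I) ⊗ₜ[R] x := fun i => exists_one_tmul I (bb i)
  choose b hb using hlift
  -- reduction of a linear combination
  have hcomb : ∀ g : Fin r → R, (1 : R ⧸ I) ⊗ₜ[R] (∑ i, g i • b i)
      = ∑ i, Ideal.Quotient.mk I (g i) • bb i := by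
    intro g
    rw [TensorProduct.tmul_sum]
    refine Finset.sum_congr rfl fun i _ => ?_
    rw [hb i, mk_smul_one_tmul]
  -- a relation has coefficients divisible by `π`
  have hrel1 : ∀ g : Fin r → R, ∑ i, g i • b i = 0 → ∀ i, π ∣ g i := by
    intro g hg i
    have h := hcomb g
    rw [hg, TensorProduct.tmul_zero] at h
    have := Fintype.linearIndependent_iff.mp bb.linearIndependent _ h.symm i
    exact (hmk _).mp this
  have hrel : ∀ m : ℕ, ∀ g : Fin r → R, ∑ i, g i • b i = 0 → ∀ i, π ^ m ∣ g i := by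
    intro m
    induction m with
    | zero => intro g _ i; simp
    | succ m ih =>
      intro g hg i
      have h1 := hrel1 g hg
      choose g' hg' using h1
      have hg2 : ∑ i, g' i • b i = 0 := by
        apply hreg
        rw [Finset.mul_sum, ← hg]
        refine Finset.sum_congr rfl fun j _ => ?_
        rw [hg' j, mul_smul, Algebra.smul_def π]
      rw [hg' i, pow_succ']
      exact mul_dvd_mul_left π (ih g' hg2 i)
  have hindep : LinearIndependent R b := by
    rw [Fintype.linearIndependent_iff]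
    intro g hg i
    by_contra hgi
    obtain ⟨n, hn⟩ := FiniteMultiplicity.of_not_isUnit hπ.not_unit hgi
    exact hn (hrel _ g hg i)
  -- Nakayama
  have hsup : (⊤ : Submodule R C) ≤ Submodule.span R (Set.range b) ⊔ I • (⊤ : Submodule R C) := by
    intro x _
    -- coordinates of `1 ⊗ x`
    have hc : ∀ i, ∃ c : R, Ideal.Quotient.mk I c = bb.repr ((1 : R ⧸ I) ⊗ₜ[R] x) i :=
      fun i => Ideal.Quotient.mk_surjective _
    choose c hc using hc
    have h1 : (1 : R ⧸ I) ⊗ₜ[R] (x - ∑ i, c i • b i) = 0 := by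
      rw [TensorProduct.tmul_sub, hcomb, sub_eq_zero]
      simp only [hc]
      exact (bb.sum_repr _).symm
    rw [one_tmul_eq_zero_iff_mem] at h1
    have h2 : x = ∑ i, c i • b i + (x - ∑ i, c i • b i) := by ring
    rw [h2]
    refine Submodule.add_mem_sup ?_ h1
    exact Submodule.sum_mem _ fun i _ =>
      Submodule.smul_mem _ _ (Submodule.subset_span ⟨i, rfl⟩)
  obtain ⟨s, hs1, hs2⟩ := Submodule.exists_sub_one_mem_and_smul_le_of_fg_of_le_sup
    (I := I) (N := Submodule.span R (Set.range b)) (N' := ⊤) (P := ⊤)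
    Module.Finite.fg_top le_rfl hsup
  refine ⟨r, b, s, ?_, hindep, fun x => ?_⟩
  · rwa [hI, Ideal.mem_span_singleton] at hs1
  · exact hs2 (Submodule.smul_mem_pointwise_smul x s ⊤ Submodule.mem_top)

end

end Fermat.Agent.INJ


end ZBINJ_033_1

/-! ### bundled: `Fermat.Agent.INJ.Disc` -/
section ZBINJ_033_2

/-!
# (INJ) piece A3: the discriminant step ("purity of the branch locus" on a two-dimensional base)

`R` a UFD (in the application `R = A₀[X]`, `A₀` a DVR with uniformizer `π`), `π ∈ R` a prime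
element with `R ⧸ π` a PID, `C` a finite `R`-algebra with `π` regular on `C` and `C / π C`
torsion-free over `R ⧸ π` (piece A1), generically étale special fibre (piece A2).
Let `n ∋ π` be a maximal ideal of `R` (a closed point of the special fibre of the `t`-line).
If every height-one prime `(f) ⊆ n`, `f ≁ π`, has residue characteristic `0` and *reduced*
fibre (= `C` is unramified over `f`), then the closed fibre `C / n C` is étale over `R / n`:
its trace form is nondegenerate, in particular it is reduced.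

Main results: `fibre_traceForm_nondegenerate`, `closedFibre_reduced`.
-/

set_option autoImplicit false
set_option linter.style.haveILetI false
set_option linter.unusedSectionVars false

namespace Fermat.Agent.INJ

open Module TensorProduct

universe u v w

section power

variable {R : Type*} {C : Type*} [CommRing R] [CommRing C] [Algebra R C]

/-- the elementwise "reduced fibre" hypothesis propagates from squares to all powers -/
theorem exists_dvd_smul_of_dvd_pow {f : R} (hf : Prime f)
    (hunr : ∀ x : C, algebraMap R C f ∣ x ^ 2 → ∃ a : R, ¬ f ∣ a ∧ algebraMap R C f ∣ a • x)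
    (N : ℕ) : ∀ y : C, algebraMap R C f ∣ y ^ N → ∃ a : R, ¬ f ∣ a ∧ algebraMap R C f ∣ a • y := by
  induction N using Nat.strong_induction_on with
  | _ N ih =>
    intro y hy
    rcases Nat.lt_or_ge N 2 with hN | hN
    · refine ⟨1, fun h => hf.not_unit (isUnit_of_dvd_one h), ?_⟩
      rw [one_smul]
      interval_cases N
      · rw [pow_zero] at hy
        exact hy.trans (one_dvd y)
      · rwa [pow_one] at hy
    · -- `M = ⌈N/2⌉ < N`
      obtain ⟨M, hM1, hM2, hM0⟩ : ∃ M, M < N ∧ N ≤ 2 * M ∧ 1 ≤ M :=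
        ⟨(N + 1) / 2, by omega, by omega, by omega⟩
      have h1 : algebraMap R C f ∣ (y ^ M) ^ 2 := by
        rw [← pow_mul, mul_comm]
        exact hy.trans (pow_dvd_pow y hM2)
      obtain ⟨a, ha, hay⟩ := hunr _ h1
      have h2 : algebraMap R C f ∣ (a • y) ^ M := by
        obtain ⟨M', rfl⟩ : ∃ M', M = M' + 1 := ⟨M - 1, by omega⟩
        have : (a • y) ^ (M' + 1) = (algebraMap R C a) ^ M' * (a • y ^ (M' + 1)) := by
          rw [Algebra.smul_def, Algebra.smul_def]; ring
        rw [this]
        exact Dvd.dvd.mul_left hay _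
      obtain ⟨a', ha', hay'⟩ := ih M hM1 (a • y) h2
      refine ⟨a' * a, fun h => ?_, ?_⟩
      · rcases hf.dvd_or_dvd h with h | h
        · exact ha' h
        · exact ha h
      · rwa [mul_smul]

end power

section reduced

variable {R : Type*} {C : Type*} [CommRing R] [CommRing C] [Algebra R C]
variable {ι : Type*} [Fintype ι] [DecidableEq ι]
variable {k : Type*} [Field k] [Algebra R k]

theorem algebraMap_smul_one_tmul (a : R) (x : C) :
    algebraMap R k a • ((1 : k) ⊗ₜ[R] x) = (1 : k) ⊗ₜ[R] (a • x) := by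
  rw [TensorProduct.tmul_smul, algebraMap_smul]

/-- if `k` is generated by fractions of `R`, every element of `k ⊗ C` is a fraction of `1 ⊗ x` -/
theorem exists_smul_eq_one_tmul
    (hfrac : ∀ a : k, ∃ p q : R, algebraMap R k q ≠ 0 ∧ algebraMap R k q * a = algebraMap R k p)
    (z : k ⊗[R] C) :
    ∃ (q : R) (x : C), algebraMap R k q ≠ 0 ∧ algebraMap R k q • z = (1 : k) ⊗ₜ[R] x := by
  induction z using TensorProduct.induction_on with
  | zero => exact ⟨1, 0, by simp, by simp⟩
  | tmul a y =>
    obtain ⟨p, q, hq, hpq⟩ := hfrac a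
    refine ⟨q, p • y, hq, ?_⟩
    rw [TensorProduct.smul_tmul', smul_eq_mul, hpq, ← algebraMap_smul_one_tmul,
      TensorProduct.smul_tmul', smul_eq_mul, mul_one]
  | add z w hz hw =>
    obtain ⟨q₁, x₁, hq₁, h₁⟩ := hz
    obtain ⟨q₂, x₂, hq₂, h₂⟩ := hw
    refine ⟨q₁ * q₂, q₂ • x₁ + q₁ • x₂, ?_, ?_⟩
    · rw [map_mul]; exact mul_ne_zero hq₁ hq₂
    · have e1 : (algebraMap R k (q₁ * q₂)) • z = algebraMap R k q₂ • (algebraMap R k q₁ • z) := by
        rw [map_mul, mul_comm, mul_smul]
      have e2 : (algebraMap R k (q₁ * q₂)) • w = algebraMap R k q₁ • (algebraMap R k q₂ • w) := by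
        rw [map_mul, mul_smul]
      rw [smul_add, e1, e2, h₁, h₂, algebraMap_smul_one_tmul, algebraMap_smul_one_tmul,
        TensorProduct.tmul_add]

/-- **The fibre over an unramified height-one prime is reduced.** -/
theorem isReduced_fibre {b : ι → C} {s : R} (P : IsPresentation b s)
    {f : R} (hf : Prime f)
    (hk : RingHom.ker (algebraMap R k) = Ideal.span {f})
    (hfrac : ∀ a : k, ∃ p q : R, algebraMap R k q ≠ 0 ∧ algebraMap R k q * a = algebraMap R k p)
    (hs : algebraMap R k s ≠ 0)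
    (hunr : ∀ x : C, algebraMap R C f ∣ x ^ 2 → ∃ a : R, ¬ f ∣ a ∧ algebraMap R C f ∣ a • x) :
    IsReduced (k ⊗[R] C) := by
  have hker : ∀ a : R, algebraMap R k a = 0 ↔ f ∣ a := fun a => by
    rw [← RingHom.mem_ker, hk, Ideal.mem_span_singleton]
  refine ⟨fun z hz => ?_⟩
  obtain ⟨N, hN⟩ := hz
  obtain ⟨q, x, hq, hqz⟩ := exists_smul_eq_one_tmul hfrac z
  -- `1 ⊗ x ^ N = 0`
  have h1 : (1 : k) ⊗ₜ[R] (x ^ N) = 0 := by
    have : ((1 : k) ⊗ₜ[R] x) ^ N = 0 := by
      rw [← hqz, smul_pow, hN, smul_zero]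
    rwa [Algebra.TensorProduct.tmul_pow, one_pow] at this
  -- hence `f ∣ s • x ^ N`
  have h2 : algebraMap R C f ∣ s • x ^ N := by
    have hc := (P.tmul_eq_zero_iff hs (x ^ N)).mp h1
    rw [← P.sum_coord (x ^ N)]
    refine Finset.dvd_sum fun i _ => ?_
    obtain ⟨c, hc⟩ := (hker _).mp (hc i)
    rw [hc, mul_smul, Algebra.smul_def f]
    exact dvd_mul_right _ _
  -- hence `f ∣ (s • x) ^ (N + 1)`
  have h3 : algebraMap R C f ∣ (s • x) ^ (N + 1) := by
    have : (s • x) ^ (N + 1) = (algebraMap R C s) ^ N * x * (s • x ^ N) := by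
      rw [Algebra.smul_def, Algebra.smul_def]; ring
    rw [this]
    exact Dvd.dvd.mul_left h2 _
  obtain ⟨a, ha, hax⟩ := exists_dvd_smul_of_dvd_pow hf hunr (N + 1) (s • x) h3
  -- so `1 ⊗ x = 0`
  have h4 : (1 : k) ⊗ₜ[R] (a • s • x) = 0 := by
    obtain ⟨y, hy⟩ := hax
    rw [hy, ← Algebra.smul_def, ← algebraMap_smul_one_tmul, (hker f).mpr dvd_rfl, zero_smul]
  have h5 : (1 : k) ⊗ₜ[R] x = 0 := by
    rw [← algebraMap_smul_one_tmul, ← algebraMap_smul_one_tmul] at h4
    have ha' : algebraMap R k a ≠ 0 := fun h => ha ((hker a).mp h)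
    exact (smul_eq_zero.mp ((smul_eq_zero.mp h4).resolve_left ha')).resolve_left hs
  rw [h5] at hqz
  exact (smul_eq_zero.mp hqz).resolve_left hq

end reduced

section main

variable {R : Type u} {C : Type v} [CommRing R] [IsDomain R] [UniqueFactorizationMonoid R]
  [CommRing C] [Algebra R C] [Module.Finite R C]

/-- the fraction field of `R ⧸ f` is generated by fractions of `R` -/
theorem fractionRing_quotient_frac (I : Ideal R) [I.IsPrime]
    (a : FractionRing (R ⧸ I)) :
    ∃ p q : R, algebraMap R (FractionRing (R ⧸ I)) q ≠ 0 ∧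
      algebraMap R (FractionRing (R ⧸ I)) q * a = algebraMap R (FractionRing (R ⧸ I)) p := by
  obtain ⟨x, y, hy, rfl⟩ := IsFractionRing.div_surjective (R ⧸ I) a
  obtain ⟨p, rfl⟩ := Ideal.Quotient.mk_surjective x
  obtain ⟨q, rfl⟩ := Ideal.Quotient.mk_surjective y
  have hq : algebraMap (R ⧸ I) (FractionRing (R ⧸ I)) (Ideal.Quotient.mk I q) ≠ 0 := by
    intro h
    have := (IsFractionRing.injective (R ⧸ I) (FractionRing (R ⧸ I))) (h.trans (map_zero _).symm)
    exact nonZeroDivisors.ne_zero hy this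
  refine ⟨p, q, ?_, ?_⟩
  · rw [IsScalarTower.algebraMap_apply R (R ⧸ I) (FractionRing (R ⧸ I))]
    exact hq
  · rw [IsScalarTower.algebraMap_apply R (R ⧸ I) (FractionRing (R ⧸ I)),
      IsScalarTower.algebraMap_apply R (R ⧸ I) (FractionRing (R ⧸ I))]
    exact mul_div_cancel₀ _ hq

theorem fractionRing_quotient_ker (I : Ideal R) [I.IsPrime] :
    RingHom.ker (algebraMap R (FractionRing (R ⧸ I))) = I := by
  ext a
  rw [RingHom.mem_ker, IsScalarTower.algebraMap_apply R (R ⧸ I) (FractionRing (R ⧸ I)),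
    map_eq_zero_iff _ (IsFractionRing.injective (R ⧸ I) (FractionRing (R ⧸ I)))]
  exact Ideal.Quotient.eq_zero_iff_mem

/-- **A3, core.**  With a presentation `(b, s)`, `s ∉ n`: the scaled discriminant is a unit at
`n`. -/
theorem sdisc_not_mem {ι : Type*} [Fintype ι] [DecidableEq ι] {b : ι → C} {s : R}
    (P : IsPresentation b s) {π : R}
    (k : Type w) [Field k] [Algebra R k] (hk : RingHom.ker (algebraMap R k) = Ideal.span {π})
    (hgen : (Algebra.traceForm k (k ⊗[R] C)).Nondegenerate)
    (n : Ideal R) [n.IsPrime] (hsπ : π ∣ s - 1) (hsn : s ∉ n)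
    (hunr : ∀ f : R, Prime f → f ∈ n → ¬ Associated f π →
        (∀ m : ℕ, m ≠ 0 → ¬ f ∣ (m : R)) ∧
        ∀ x : C, algebraMap R C f ∣ x ^ 2 → ∃ a : R, ¬ f ∣ a ∧ algebraMap R C f ∣ a • x) :
    P.sdisc ∉ n := by
  have hkerπ : ∀ a : R, algebraMap R k a = 0 ↔ π ∣ a := fun a => by
    rw [← RingHom.mem_ker, hk, Ideal.mem_span_singleton]
  -- Step A: `π ∤ D`
  have hsk : algebraMap R k s ≠ 0 := by
    have h1 : algebraMap R k (s - 1) = 0 := (hkerπ _).mpr hsπ
    rw [map_sub, map_one, sub_eq_zero] at h1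
    rw [h1]; exact one_ne_zero
  have hA : ¬ π ∣ P.sdisc := fun h =>
    (P.traceForm_nondegenerate_iff hsk).mp hgen ((hkerπ _).mpr h)
  have hD0 : P.sdisc ≠ 0 := fun h => hA (h ▸ dvd_zero π)
  -- Step B: unramified primes do not divide `D`
  have hB : ∀ f : R, Prime f → f ∈ n → ¬ Associated f π → ¬ f ∣ P.sdisc := by
    intro f hf hfn hfπ hfD
    obtain ⟨hchar, hred⟩ := hunr f hf hfn hfπ
    haveI hIprime : (Ideal.span {f}).IsPrime := (Ideal.span_singleton_prime hf.ne_zero).mpr hf
    haveI : IsDomain (R ⧸ Ideal.span {f}) := Ideal.Quotient.isDomain _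
    let κ := FractionRing (R ⧸ Ideal.span {f})
    have hκ : RingHom.ker (algebraMap R κ) = Ideal.span {f} := fractionRing_quotient_ker _
    have hkerf : ∀ a : R, algebraMap R κ a = 0 ↔ f ∣ a := fun a => by
      rw [← RingHom.mem_ker, hκ, Ideal.mem_span_singleton]
    have hsκ : algebraMap R κ s ≠ 0 := fun h => hsn (by
      obtain ⟨c, hc⟩ := (hkerf s).mp h
      rw [hc]; exact n.mul_mem_right _ hfn)
    haveI : CharZero κ := charZero_of_inj_zero fun m hm => by
      by_contra hm0
      refine hchar m hm0 ((hkerf _).mp ?_)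
      rw [map_natCast]; exact hm
    haveI : IsReduced (κ ⊗[R] C) :=
      isReduced_fibre P hf hκ (fractionRing_quotient_frac _) hsκ hred
    have hnd : (Algebra.traceForm κ (κ ⊗[R] C)).Nondegenerate :=
      traceForm_nondegenerate_of_isReduced
    exact (P.traceForm_nondegenerate_iff hsκ).mp hnd ((hkerf _).mpr hfD)
  -- Step C: factor `D`
  intro hDn
  obtain ⟨F, hFprime, hFD⟩ := UniqueFactorizationMonoid.exists_prime_factors P.sdisc hD0
  have hFn : F.prod ∈ n := by
    obtain ⟨u, hu⟩ := hFD.symm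
    rw [← hu]; exact n.mul_mem_right _ hDn
  obtain ⟨p, hpF, hpn⟩ := (Ideal.IsPrime.multiset_prod_mem_iff_exists_mem ‹n.IsPrime› F).mp hFn
  have hpD : p ∣ P.sdisc := (Multiset.dvd_prod hpF).trans hFD.dvd
  by_cases hpπ : Associated p π
  · exact hA (hpπ.symm.dvd.trans hpD)
  · exact hB p (hFprime p hpF) hpn hpπ hpD

/-- **A3 (discriminant step).**  The closed fibre over `n` is étale: its trace form is
nondegenerate. -/
theorem fibre_traceForm_nondegenerate
    {π : R} (hπ : Prime π) [IsPrincipalIdealRing (R ⧸ Ideal.span {π})]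
    (hreg : ∀ x : C, algebraMap R C π * x = 0 → x = 0)
    (htf : ∀ f : R, ¬ π ∣ f → ∀ x : C, algebraMap R C π ∣ f • x → algebraMap R C π ∣ x)
    (k : Type w) [Field k] [Algebra R k] (hk : RingHom.ker (algebraMap R k) = Ideal.span {π})
    (hgen : (Algebra.traceForm k (k ⊗[R] C)).Nondegenerate)
    (n : Ideal R) [n.IsMaximal] (hπn : π ∈ n)
    (hunr : ∀ f : R, Prime f → f ∈ n → ¬ Associated f π →
        (∀ m : ℕ, m ≠ 0 → ¬ f ∣ (m : R)) ∧
        ∀ x : C, algebraMap R C f ∣ x ^ 2 → ∃ a : R, ¬ f ∣ a ∧ algebraMap R C f ∣ a • x) :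
    (Algebra.traceForm (R ⧸ n) ((R ⧸ n) ⊗[R] C)).Nondegenerate := by
  classical
  obtain ⟨r, b, s, hsπ, P⟩ := exists_presentation hπ hreg htf
  have hsn : s ∉ n := fun hs => by
    have h1 : s - 1 ∈ n := by
      obtain ⟨c, hc⟩ := hsπ
      rw [hc]; exact n.mul_mem_right _ hπn
    have : (1 : R) ∈ n := by
      have := n.sub_mem hs h1
      rwa [sub_sub_cancel] at this
    exact (Ideal.ne_top_iff_one n).mp (Ideal.IsMaximal.ne_top ‹_›) this
  have hD := sdisc_not_mem P k hk hgen n hsπ hsn hunr
  letI : Field (R ⧸ n) := Ideal.Quotient.field n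
  have hsn' : algebraMap R (R ⧸ n) s ≠ 0 := fun h => hsn (Ideal.Quotient.eq_zero_iff_mem.mp h)
  have hDn' : algebraMap R (R ⧸ n) P.sdisc ≠ 0 := fun h => hD (Ideal.Quotient.eq_zero_iff_mem.mp h)
  exact (P.traceForm_nondegenerate_iff hsn').mpr hDn'

/-- **A3, reduced form**: the closed fibre `C / n C` is reduced. -/
theorem closedFibre_reduced
    {π : R} (hπ : Prime π) [IsPrincipalIdealRing (R ⧸ Ideal.span {π})]
    (hreg : ∀ x : C, algebraMap R C π * x = 0 → x = 0)
    (htf : ∀ f : R, ¬ π ∣ f → ∀ x : C, algebraMap R C π ∣ f • x → algebraMap R C π ∣ x)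
    (k : Type w) [Field k] [Algebra R k] (hk : RingHom.ker (algebraMap R k) = Ideal.span {π})
    (hgen : (Algebra.traceForm k (k ⊗[R] C)).Nondegenerate)
    (n : Ideal R) [n.IsMaximal] (hπn : π ∈ n)
    (hunr : ∀ f : R, Prime f → f ∈ n → ¬ Associated f π →
        (∀ m : ℕ, m ≠ 0 → ¬ f ∣ (m : R)) ∧
        ∀ x : C, algebraMap R C f ∣ x ^ 2 → ∃ a : R, ¬ f ∣ a ∧ algebraMap R C f ∣ a • x) :
    ∀ x : C, x ^ 2 ∈ n.map (algebraMap R C) → x ∈ n.map (algebraMap R C) := by
  have hnd := fibre_traceForm_nondegenerate hπ hreg htf k hk hgen n hπn hunr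
  letI : Field (R ⧸ n) := Ideal.Quotient.field n
  haveI : IsReduced ((R ⧸ n) ⊗[R] C) := isReduced_of_traceForm_nondegenerate hnd
  have hmem : ∀ y : C, y ∈ n.map (algebraMap R C) ↔ (1 : R ⧸ n) ⊗ₜ[R] y = 0 := fun y => by
    rw [one_tmul_eq_zero_iff_mem, Ideal.smul_top_eq_map, Submodule.restrictScalars_mem]
  intro x hx
  rw [hmem] at hx ⊢
  have h : ((1 : R ⧸ n) ⊗ₜ[R] x) ^ 2 = 0 := by
    rw [Algebra.TensorProduct.tmul_pow, one_pow, hx]
  exact IsReduced.eq_zero _ ⟨2, h⟩

end main

end Fermat.Agent.INJ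


end ZBINJ_033_2
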