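/- GENERATED FILE (helper35, build-time optimisation, NOTES/ZB.md): verbatim concatenation of the modules
   Fermat.Agent.UNIP.RegTransferAbs
   Do not edit; do not import together with these modules. -/
import Mathlib
import Fermat.Agent.ZB.INJ_039

/-! ### bundled: `Fermat.Agent.UNIP.RegTransferAbs` -/
section ZBUNIP_026_0
/-
UNIP (item 34, S34/S35), piece "RegTransfer" of U5, part 0 (helper20): the abstract core.

`B₁, B₂` commutative rings embedded in a field `L` (`j₁, j₂` injective), `f₁ ∈ B₁`, and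
`B₂ = B₁[1/f₁]` inside `L`:  `z ∈ j₂(B₂) ↔ ∃ n, f ^ n z ∈ j₁(B₁)`.  `p₁ ∈ B₁`, `p₂ ∈ B₂` with the same
image in `L`.  If `p₁` is prime and does not divide `f₁`, then
* `regAbs_prime` : `p₂` is prime;
* `regAbs_isLocalization` : `B₂ ⧸ p₂` is the localisation of `B₁ ⧸ p₁` at the powers of `f̄₁`;
* `regAbs_isIntegrallyClosed` : `B₂ ⧸ p₂` is integrally closed if `B₁ ⧸ p₁` is.
-/

set_option autoImplicit false
set_option linter.unusedSectionVars false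
set_option linter.unusedVariables false
set_option linter.style.longLine false
set_option linter.unnecessarySimpa false

namespace Fermat.Agent.UNIP

section Abs

variable {B₁ B₂ L : Type*} [CommRing B₁] [CommRing B₂] [Field L]
  (j₁ : B₁ →+* L) (j₂ : B₂ →+* L)

/-- the data of a localisation `B₂ = B₁[1/f₁]` inside `L` -/
structure RegAbsData (f₁ : B₁) (p₁ : B₁) (p₂ : B₂) : Prop where
  inj₁ : Function.Injective j₁
  inj₂ : Function.Injective j₂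
  f_ne : j₁ f₁ ≠ 0
  loc : ∀ z : L, (∃ b₂ : B₂, j₂ b₂ = z) ↔ ∃ (n : ℕ) (b₁ : B₁), j₁ b₁ = j₁ f₁ ^ n * z
  hp : j₁ p₁ = j₂ p₂

variable {j₁ j₂} {f₁ p₁ : B₁} {p₂ : B₂}

namespace RegAbsData

variable (D : RegAbsData j₁ j₂ f₁ p₁ p₂)
include D

/-- the inclusion `B₁ → B₂`, as a function -/
theorem exists_incl (b : B₁) : ∃ b₂ : B₂, j₂ b₂ = j₁ b :=
  (D.loc (j₁ b)).2 ⟨0, b, by rw [pow_zero, one_mul]⟩

theorem exists_inv : ∃ g : B₂, j₂ g = (j₁ f₁)⁻¹ :=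
  (D.loc (j₁ f₁)⁻¹).2 ⟨1, 1, by rw [pow_one, mul_inv_cancel₀ D.f_ne, map_one]⟩

/-- a common exponent -/
theorem exists_pow (b₂ : B₂) : ∃ (n : ℕ) (b₁ : B₁), j₁ b₁ = j₁ f₁ ^ n * j₂ b₂ :=
  (D.loc (j₂ b₂)).1 ⟨b₂, rfl⟩

theorem exists_pow_ge (b₂ : B₂) {n : ℕ} (h : ∃ b₁ : B₁, j₁ b₁ = j₁ f₁ ^ n * j₂ b₂) {m : ℕ}
    (hnm : n ≤ m) : ∃ b₁ : B₁, j₁ b₁ = j₁ f₁ ^ m * j₂ b₂ := by
  obtain ⟨b₁, hb₁⟩ := h
  obtain ⟨d, rfl⟩ := Nat.exists_eq_add_of_le hnm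
  refine ⟨f₁ ^ d * b₁, ?_⟩
  rw [map_mul, map_pow, hb₁, pow_add]
  ring

theorem dvd₁_iff (a : B₁) : p₁ ∣ a ↔ ∃ c : B₁, j₁ a = j₁ p₁ * j₁ c := by
  constructor
  · rintro ⟨c, rfl⟩
    exact ⟨c, map_mul _ _ _⟩
  · rintro ⟨c, hc⟩
    exact ⟨c, D.inj₁ (by rw [hc, map_mul])⟩

theorem dvd₂_iff (a : B₂) : p₂ ∣ a ↔ ∃ c : B₂, j₂ a = j₁ p₁ * j₂ c := by
  rw [D.hp]
  constructor
  · rintro ⟨c, rfl⟩
    exact ⟨c, map_mul _ _ _⟩
  · rintro ⟨c, hc⟩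
    exact ⟨c, D.inj₂ (by rw [hc, map_mul])⟩

/-- `p₁ ∣ f₁ ^ n a` implies `p₁ ∣ a` -/
theorem cancel_pow (hP : Prime p₁) (hfp : ¬ p₁ ∣ f₁) (n : ℕ) {a : B₁}
    (h : p₁ ∣ f₁ ^ n * a) : p₁ ∣ a := by
  rcases hP.dvd_or_dvd h with h1 | h1
  · exact absurd (hP.dvd_of_dvd_pow h1) hfp
  · exact h1

/-- **`p₂` is prime.** -/
theorem prime (hP : Prime p₁) (hfp : ¬ p₁ ∣ f₁) : Prime p₂ := by
  have hp0 : j₁ p₁ ≠ 0 := fun h => hP.ne_zero (D.inj₁ (by rw [h, map_zero]))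
  refine ⟨?_, ?_, ?_⟩
  · intro h
    apply hp0
    rw [D.hp, h, map_zero]
  · intro hu
    obtain ⟨u, hu⟩ := isUnit_iff_exists_inv.mp hu
    have huL : j₁ p₁ * j₂ u = 1 := by rw [D.hp, ← map_mul, hu, map_one]
    obtain ⟨n, b₁, hb₁⟩ := D.exists_pow u
    have h1 : p₁ ∣ f₁ ^ n * 1 := by
      refine ⟨b₁, D.inj₁ ?_⟩
      rw [map_mul, map_mul, map_pow, map_one, hb₁, mul_left_comm, huL]
    have h2 := D.cancel_pow hP hfp n h1
    exact hP.not_isUnit (isUnit_of_dvd_one h2)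
  · intro a b hab
    obtain ⟨c, hc⟩ := (D.dvd₂_iff _).1 hab
    rw [map_mul] at hc
    obtain ⟨n₁, h₁⟩ := D.exists_pow a
    obtain ⟨n₂, h₂⟩ := D.exists_pow b
    obtain ⟨n₃, h₃⟩ := D.exists_pow c
    set n := max n₁ (max n₂ n₃) with hn
    obtain ⟨a₁, ha₁⟩ := D.exists_pow_ge a h₁ (le_max_left n₁ (max n₂ n₃))
    obtain ⟨b₁, hb₁⟩ := D.exists_pow_ge b h₂
      (le_trans (le_max_left n₂ n₃) (le_max_right n₁ (max n₂ n₃)))
    obtain ⟨c₁, hc₁⟩ := D.exists_pow_ge c h₃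
      (le_trans (le_max_right n₂ n₃) (le_max_right n₁ (max n₂ n₃)))
    rw [← hn] at ha₁ hb₁ hc₁
    have hprod : p₁ ∣ a₁ * b₁ := by
      refine ⟨f₁ ^ n * c₁, D.inj₁ ?_⟩
      rw [map_mul, map_mul, map_mul, map_pow, ha₁, hb₁, hc₁]
      have : j₁ f₁ ^ n * j₂ a * (j₁ f₁ ^ n * j₂ b) = j₁ f₁ ^ n * (j₁ f₁ ^ n * (j₂ a * j₂ b)) := by
        ring
      rw [this, hc]
      ring
    obtain ⟨g, hg⟩ := D.exists_inv
    have key : ∀ (z : B₂) (z₁ : B₁), j₁ z₁ = j₁ f₁ ^ n * j₂ z → p₁ ∣ z₁ → p₂ ∣ z := by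
      intro z z₁ hz hdvd
      obtain ⟨c', hc'⟩ := (D.dvd₁_iff _).1 hdvd
      obtain ⟨c'', hc''⟩ := D.exists_incl c'
      refine (D.dvd₂_iff _).2 ⟨g ^ n * c'', ?_⟩
      have : j₂ z = (j₁ f₁)⁻¹ ^ n * (j₁ f₁ ^ n * j₂ z) := by
        rw [← mul_assoc, ← mul_pow, inv_mul_cancel₀ D.f_ne, one_pow, one_mul]
      rw [this, ← hz, hc', map_mul, map_pow, hg, hc'']
      ring
    rcases hP.dvd_or_dvd hprod with h1 | h1
    · exact Or.inl (key a a₁ ha₁ h1)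
    · exact Or.inr (key b b₁ hb₁ h1)

/-- the inclusion `B₁ → B₂` -/
noncomputable def incl : B₁ →+* B₂ where
  toFun b := (D.exists_incl b).choose
  map_one' := D.inj₂ (by rw [(D.exists_incl 1).choose_spec, map_one, map_one])
  map_mul' a b := D.inj₂ (by
    rw [(D.exists_incl (a * b)).choose_spec, map_mul, map_mul, (D.exists_incl a).choose_spec,
      (D.exists_incl b).choose_spec])
  map_zero' := D.inj₂ (by rw [(D.exists_incl 0).choose_spec, map_zero, map_zero])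
  map_add' a b := D.inj₂ (by
    rw [(D.exists_incl (a + b)).choose_spec, map_add, map_add, (D.exists_incl a).choose_spec,
      (D.exists_incl b).choose_spec])

theorem j₂_incl (b : B₁) : j₂ (D.incl b) = j₁ b := (D.exists_incl b).choose_spec

theorem incl_p : D.incl p₁ = p₂ := D.inj₂ (by rw [D.j₂_incl, D.hp])

theorem span_le : Ideal.span {p₁} ≤ Ideal.comap D.incl (Ideal.span {p₂}) := by
  rw [Ideal.span_le]
  rintro z hz
  rw [Set.mem_singleton_iff] at hz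
  rw [hz]
  show D.incl p₁ ∈ Ideal.span {p₂}
  rw [D.incl_p]
  exact Ideal.subset_span rfl

/-- the induced map `B₁ ⧸ p₁ → B₂ ⧸ p₂` -/
noncomputable def quot : (B₁ ⧸ Ideal.span {p₁}) →+* (B₂ ⧸ Ideal.span {p₂}) :=
  Ideal.quotientMap _ D.incl D.span_le

theorem quot_mk (a : B₁) : D.quot (Ideal.Quotient.mk _ a) = Ideal.Quotient.mk _ (D.incl a) := by
  unfold quot
  rw [Ideal.quotientMap_mk]

/-- **`B₂ ⧸ p₂` is the localisation of `B₁ ⧸ p₁` at the powers of `f̄₁`.** -/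
theorem isLocalization :
    letI := D.quot.toAlgebra
    IsLocalization (Submonoid.powers (Ideal.Quotient.mk (Ideal.span {p₁}) f₁))
      (B₂ ⧸ Ideal.span {p₂}) := by
  letI := D.quot.toAlgebra
  have halg : ∀ a, algebraMap (B₁ ⧸ Ideal.span {p₁}) (B₂ ⧸ Ideal.span {p₂}) a = D.quot a :=
    fun a => rfl
  obtain ⟨g, hg⟩ := D.exists_inv
  have hfg : D.incl f₁ * g = 1 := D.inj₂ (by
    rw [map_mul, D.j₂_incl, hg, mul_inv_cancel₀ D.f_ne, map_one])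
  rw [isLocalization_iff]
  refine ⟨?_, ?_, ?_⟩
  · rintro ⟨_, n, rfl⟩
    rw [halg, map_pow, D.quot_mk]
    refine IsUnit.pow n ?_
    refine isUnit_iff_exists_inv.mpr ⟨Ideal.Quotient.mk _ g, ?_⟩
    rw [← map_mul, hfg, map_one]
  · intro z
    obtain ⟨z₀, rfl⟩ := Ideal.Quotient.mk_surjective z
    obtain ⟨n, b₁, hb₁⟩ := D.exists_pow z₀
    refine ⟨(Ideal.Quotient.mk _ b₁, ⟨_, n, rfl⟩), ?_⟩
    show Ideal.Quotient.mk _ z₀ * algebraMap _ _ ((Ideal.Quotient.mk _ f₁) ^ n) =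
      algebraMap _ _ (Ideal.Quotient.mk _ b₁)
    rw [halg, halg, map_pow, D.quot_mk, D.quot_mk, ← map_pow, ← map_mul]
    congr 1
    apply D.inj₂
    rw [map_mul, map_pow, D.j₂_incl, D.j₂_incl, hb₁]
    ring
  · intro a b hab
    obtain ⟨a₀, rfl⟩ := Ideal.Quotient.mk_surjective a
    obtain ⟨b₀, rfl⟩ := Ideal.Quotient.mk_surjective b
    rw [halg, halg, D.quot_mk, D.quot_mk, Ideal.Quotient.eq, Ideal.mem_span_singleton] at hab
    obtain ⟨c, hc⟩ := (D.dvd₂_iff _).1 hab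
    rw [map_sub, D.j₂_incl, D.j₂_incl] at hc
    obtain ⟨n, c₁, hc₁⟩ := D.exists_pow c
    refine ⟨⟨_, n, rfl⟩, ?_⟩
    show (Ideal.Quotient.mk _ f₁) ^ n * Ideal.Quotient.mk _ a₀ =
      (Ideal.Quotient.mk _ f₁) ^ n * Ideal.Quotient.mk _ b₀
    rw [← map_pow, ← map_mul, ← map_mul, Ideal.Quotient.eq, Ideal.mem_span_singleton]
    refine ⟨c₁, D.inj₁ ?_⟩
    rw [map_sub, map_mul, map_mul, map_mul, map_pow, ← mul_sub, hc, hc₁]
    ring

/-- **`B₂ ⧸ p₂` is integrally closed if `B₁ ⧸ p₁` is.** -/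
theorem isIntegrallyClosed (hP : Prime p₁) (hfp : ¬ p₁ ∣ f₁)
    (hIC : IsIntegrallyClosed (B₁ ⧸ Ideal.span {p₁})) :
    IsIntegrallyClosed (B₂ ⧸ Ideal.span {p₂}) := by
  letI := D.quot.toAlgebra
  haveI := D.isLocalization
  haveI : (Ideal.span {p₁}).IsPrime := (Ideal.span_singleton_prime hP.ne_zero).mpr hP
  haveI : IsDomain (B₁ ⧸ Ideal.span {p₁}) := Ideal.Quotient.isDomain _
  have hfbar0 : Ideal.Quotient.mk (Ideal.span {p₁}) f₁ ≠ 0 := by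
    intro h
    rw [Ideal.Quotient.eq_zero_iff_mem, Ideal.mem_span_singleton] at h
    exact hfp h
  exact isIntegrallyClosed_of_isLocalization (B₂ ⧸ Ideal.span {p₂})
    (Submonoid.powers (Ideal.Quotient.mk (Ideal.span {p₁}) f₁))
    (powers_le_nonZeroDivisors_of_noZeroDivisors hfbar0)

end RegAbsData

end Abs

end Fermat.Agent.UNIP


end ZBUNIP_026_0
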