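/- GENERATED FILE (helper35, build-time optimisation, NOTES/ZB.md): verbatim concatenation of the modules
   Fermat.Agent.UNIP.RegTransferLoc
   Do not edit; do not import together with these modules. -/
import Fermat.Agent.ZB.UNIP_026

/-! ### bundled: `Fermat.Agent.UNIP.RegTransferLoc` -/
section ZBUNIP_027_0
/-
UNIP (item 34, S34/S35), piece "RegTransfer" of U5, part 1 (helper20): the abstract localisation
lemma (GL).

`A₀` a commutative ring, `L` a field, `x y f : L`, charts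
`C_x = integralClosure (adjoin A₀ {x}) L`, `C_y = integralClosure (adjoin A₀ {y}) L`.
Hypotheses:  `f ∈ A₀[x]`, `f ≠ 0`, `y ∈ A₀[x, f⁻¹]`, `x` and `f⁻¹` integral over `A₀[y]`.
Then `C_y = C_x[1/f]`:
* `regT_isIntegral_iff` : `z ∈ C_y ↔ ∃ n, f ^ n * z ∈ C_x`;
* `regT_prime` : `π` prime in `C_x`, `π ∤ f` in `C_x`  ⇒  `π` prime in `C_y`;
* `regT_isIntegrallyClosed` : and `C_x ⧸ π` integrally closed  ⇒  `C_y ⧸ π` integrally closed
  (`C_y ⧸ π` is the localisation of the domain `C_x ⧸ π` at the powers of `f̄`).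
Applications (`RegTransfer.lean`): (T1) `x = t` (Hauptmodul), `f = t`, `y = j`;
(T2) `x = v = 1/(t + c)`, `f = d(v)`, `y = 1/j`.
-/

set_option autoImplicit false
set_option linter.unusedSectionVars false
set_option linter.unusedVariables false

namespace Fermat.Agent.UNIP

open Polynomial

section Loc

variable {A₀ L : Type*} [CommRing A₀] [Field L] [Algebra A₀ L]

theorem regT_isIntegral_mono {S S' : Subalgebra A₀ L} (h : S ≤ S') {x : L}
    (hx : IsIntegral S x) : IsIntegral S' x := by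
  obtain ⟨p, hp, hpx⟩ := hx
  refine ⟨p.map (Subalgebra.inclusion h).toRingHom, hp.map _, ?_⟩
  rw [eval₂_map]
  exact hpx

/-- Elements of `A₀[x, g]` (with `f g = 1`, `f ∈ A₀[x]`) are moved into `A₀[x]` by large powers
of `f`. -/
theorem regT_pow_mul_mem {x f g : L} (hfg : f * g = 1) (hf : f ∈ Algebra.adjoin A₀ {x}) {c : L}
    (hc : c ∈ Algebra.adjoin A₀ {x, g}) :
    ∃ s : ℕ, ∀ s', s ≤ s' → f ^ s' * c ∈ Algebra.adjoin A₀ {x} := by
  have hx : x ∈ Algebra.adjoin A₀ {x} := Algebra.subset_adjoin (Set.mem_singleton x)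
  induction hc using Algebra.adjoin_induction with
  | mem z hz =>
    rcases hz with rfl | rfl
    · exact ⟨0, fun s' _ => Subalgebra.mul_mem _ (Subalgebra.pow_mem _ hf _) hx⟩
    · refine ⟨1, fun s' hs' => ?_⟩
      obtain ⟨d, rfl⟩ := Nat.exists_eq_add_of_le hs'
      have : f ^ (1 + d) * z = f ^ d := by
        rw [pow_add, pow_one, mul_comm f (f ^ d), mul_assoc, hfg, mul_one]
      rw [this]
      exact Subalgebra.pow_mem _ hf _
  | algebraMap r =>
    exact ⟨0, fun s' _ => Subalgebra.mul_mem _ (Subalgebra.pow_mem _ hf _)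
      (Subalgebra.algebraMap_mem _ r)⟩
  | add a b _ _ ha hb =>
    obtain ⟨s₁, h₁⟩ := ha
    obtain ⟨s₂, h₂⟩ := hb
    refine ⟨max s₁ s₂, fun s' hs' => ?_⟩
    rw [mul_add]
    exact Subalgebra.add_mem _ (h₁ s' (le_trans (le_max_left _ _) hs'))
      (h₂ s' (le_trans (le_max_right _ _) hs'))
  | mul a b _ _ ha hb =>
    obtain ⟨s₁, h₁⟩ := ha
    obtain ⟨s₂, h₂⟩ := hb
    refine ⟨s₁ + s₂, fun s' hs' => ?_⟩
    obtain ⟨d, rfl⟩ := Nat.exists_eq_add_of_le hs'
    have : f ^ (s₁ + s₂ + d) * (a * b) = (f ^ (s₁ + d) * a) * (f ^ s₂ * b) := by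
      rw [pow_add, pow_add, pow_add]; ring
    rw [this]
    exact Subalgebra.mul_mem _ (h₁ _ (Nat.le_add_right _ _)) (h₂ _ le_rfl)

/-- An element integral over `A₀[x, f⁻¹]` becomes integral over `A₀[x]` after multiplication
by a power of `f`. -/
theorem regT_exists_pow_mul_isIntegral {x f g : L} (hfg : f * g = 1)
    (hf : f ∈ Algebra.adjoin A₀ {x}) {z : L}
    (hz : IsIntegral (Algebra.adjoin A₀ {x, g}) z) :
    ∃ s : ℕ, IsIntegral (Algebra.adjoin A₀ {x}) (f ^ s * z) := by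
  classical
  obtain ⟨p, hp, hpx⟩ := hz
  set R₁ : Subalgebra A₀ L := Algebra.adjoin A₀ {x} with hR₁
  have hex : ∀ i : ℕ, ∃ s : ℕ, ∀ s', s ≤ s' →
      f ^ s' * ((p.coeff i : Algebra.adjoin A₀ {x, g}) : L) ∈ R₁ :=
    fun i => regT_pow_mul_mem hfg hf (p.coeff i).2
  choose s₀ hs₀ using hex
  set s : ℕ := ∑ i ∈ Finset.range (p.natDegree + 1), s₀ i with hs
  have hsle : ∀ i, i ≤ p.natDegree → s₀ i ≤ s := fun i hi =>
    Finset.single_le_sum (f := s₀) (fun _ _ => Nat.zero_le _)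
      (Finset.mem_range.mpr (Nat.lt_succ_of_le hi))
  set P : L[X] := p.map (algebraMap (Algebra.adjoin A₀ {x, g}) L) with hP
  have hPm : P.Monic := hp.map _
  have hPdeg : P.natDegree = p.natDegree := hp.natDegree_map _
  set Q : L[X] := scaleRoots P (f ^ s) with hQ
  have hQm : Q.Monic := (monic_scaleRoots_iff _).mpr hPm
  have hQx : eval (f ^ s * z) Q = 0 := by
    rw [hQ, scaleRoots_eval_mul, hP, eval_map, hpx, mul_zero]
  have hQlift : Q ∈ Polynomial.lifts (algebraMap R₁ L) := by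
    rw [Polynomial.lifts_iff_coeff_lifts]
    intro i
    rw [hQ, coeff_scaleRoots, hPdeg]
    rcases lt_trichotomy i p.natDegree with hi | hi | hi
    · have h1 : (f ^ s) ^ (p.natDegree - i) = f ^ (s * (p.natDegree - i)) := by rw [← pow_mul]
      have h2 : s₀ i ≤ s * (p.natDegree - i) :=
        le_trans (hsle i hi.le) (Nat.le_mul_of_pos_right _ (Nat.sub_pos_of_lt hi))
      have h3 := hs₀ i _ h2
      rw [hP, coeff_map, h1, mul_comm]
      exact ⟨⟨_, h3⟩, rfl⟩
    · rw [hi, Nat.sub_self, pow_zero, mul_one, ← hPdeg, hPm.coeff_natDegree]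
      exact ⟨1, map_one _⟩
    · rw [coeff_eq_zero_of_natDegree_lt (by rw [hPdeg]; exact hi), zero_mul]
      exact ⟨0, map_zero _⟩
  obtain ⟨q, hq, -, hqm⟩ := Polynomial.lifts_and_natDegree_eq_and_monic hQlift hQm
  refine ⟨s, q, hqm, ?_⟩
  rw [← eval_map, hq]
  exact hQx

/-- elements of `A₀[x]` are integral over `A₀[y]` if `x` is -/
theorem regT_isIntegral_of_mem_adjoin {x y : L} (hx : IsIntegral (Algebra.adjoin A₀ {y}) x)
    {c : L} (hc : c ∈ Algebra.adjoin A₀ {x}) : IsIntegral (Algebra.adjoin A₀ {y}) c := by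
  induction hc using Algebra.adjoin_induction with
  | mem z hz =>
    rw [Set.mem_singleton_iff] at hz
    rw [hz]; exact hx
  | algebraMap r =>
    exact isIntegral_algebraMap (R := Algebra.adjoin A₀ ({y} : Set L))
      (x := algebraMap A₀ (Algebra.adjoin A₀ ({y} : Set L)) r)
  | add a b _ _ ha hb => exact ha.add hb
  | mul a b _ _ ha hb => exact ha.mul hb

/-- transitivity of integrality through `A₀[x]` -/
theorem regT_isIntegral_trans {x y : L} (hx : IsIntegral (Algebra.adjoin A₀ {y}) x)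
    {z : L} (hz : IsIntegral (Algebra.adjoin A₀ {x}) z) :
    IsIntegral (Algebra.adjoin A₀ {y}) z := by
  obtain ⟨p, hp, hpz⟩ := hz
  -- `z` is integral over the integral closure of `A₀[y]`
  let g : Algebra.adjoin A₀ ({x} : Set L) →+* integralClosure (Algebra.adjoin A₀ ({y} : Set L)) L :=
    { toFun := fun c => ⟨(c : L), regT_isIntegral_of_mem_adjoin hx c.2⟩
      map_one' := rfl
      map_mul' := fun _ _ => rfl
      map_zero' := rfl
      map_add' := fun _ _ => rfl }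
  have hz' : IsIntegral (integralClosure (Algebra.adjoin A₀ ({y} : Set L)) L) z := by
    refine ⟨p.map g, hp.map g, ?_⟩
    rw [eval₂_map]
    exact hpz
  exact isIntegral_trans (R := Algebra.adjoin A₀ ({y} : Set L))
    (A := integralClosure (Algebra.adjoin A₀ ({y} : Set L)) L) z hz'

variable {x y f : L}

/-- **(GL 1)** `C_y = C_x[1/f]`. -/
theorem regT_isIntegral_iff (hf0 : f ≠ 0) (hf : f ∈ Algebra.adjoin A₀ {x})
    (hy : y ∈ Algebra.adjoin A₀ {x, f⁻¹})
    (hx : IsIntegral (Algebra.adjoin A₀ {y}) x)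
    (hfi : IsIntegral (Algebra.adjoin A₀ {y}) f⁻¹) (z : L) :
    IsIntegral (Algebra.adjoin A₀ {y}) z ↔
      ∃ n : ℕ, IsIntegral (Algebra.adjoin A₀ {x}) (f ^ n * z) := by
  constructor
  · intro hz
    have hle : Algebra.adjoin A₀ ({y} : Set L) ≤ Algebra.adjoin A₀ {x, f⁻¹} := by
      rw [Algebra.adjoin_le_iff]
      rintro w rfl
      exact hy
    exact regT_exists_pow_mul_isIntegral (mul_inv_cancel₀ hf0) hf (regT_isIntegral_mono hle hz)
  · rintro ⟨n, hn⟩
    have h1 : IsIntegral (Algebra.adjoin A₀ {y}) (f ^ n * z) := regT_isIntegral_trans hx hn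
    have h2 : z = f⁻¹ ^ n * (f ^ n * z) := by
      rw [← mul_assoc, ← mul_pow, inv_mul_cancel₀ hf0, one_pow, one_mul]
    rw [h2]
    exact (hfi.pow n).mul h1

theorem regT_isIntegral_of_left (hf0 : f ≠ 0) (hf : f ∈ Algebra.adjoin A₀ {x})
    (hy : y ∈ Algebra.adjoin A₀ {x, f⁻¹})
    (hx : IsIntegral (Algebra.adjoin A₀ {y}) x)
    (hfi : IsIntegral (Algebra.adjoin A₀ {y}) f⁻¹) {z : L}
    (hz : IsIntegral (Algebra.adjoin A₀ {x}) z) : IsIntegral (Algebra.adjoin A₀ {y}) z :=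
  (regT_isIntegral_iff hf0 hf hy hx hfi z).2 ⟨0, by rwa [pow_zero, one_mul]⟩

theorem regT_f_isIntegral (hf : f ∈ Algebra.adjoin A₀ {x}) :
    IsIntegral (Algebra.adjoin A₀ {x}) f :=
  isIntegral_algebraMap (R := Algebra.adjoin A₀ ({x} : Set L)) (x := ⟨f, hf⟩)

/-- a uniform exponent -/
theorem regT_exists_pow_ge (hf : f ∈ Algebra.adjoin A₀ {x}) {z : L} {n : ℕ}
    (hz : IsIntegral (Algebra.adjoin A₀ {x}) (f ^ n * z)) {m : ℕ} (hnm : n ≤ m) :
    IsIntegral (Algebra.adjoin A₀ {x}) (f ^ m * z) := by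
  obtain ⟨d, rfl⟩ := Nat.exists_eq_add_of_le hnm
  have : f ^ (n + d) * z = f ^ d * (f ^ n * z) := by rw [pow_add]; ring
  rw [this]
  exact ((regT_f_isIntegral hf).pow d).mul hz

end Loc

section Transfer

variable {A₀ L : Type*} [CommRing A₀] [Field L] [Algebra A₀ L]

theorem regT_coe_algebraMap (x : L) (a : A₀) :
    ((algebraMap A₀ (integralClosure (Algebra.adjoin A₀ ({x} : Set L)) L) a :
      integralClosure (Algebra.adjoin A₀ ({x} : Set L)) L) : L) = algebraMap A₀ L a := rfl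

/-- divisibility by `π` in a chart, elementwise -/
theorem regT_dvd_iff (x : L) (π : A₀)
    (a : integralClosure (Algebra.adjoin A₀ ({x} : Set L)) L) :
    algebraMap A₀ (integralClosure (Algebra.adjoin A₀ ({x} : Set L)) L) π ∣ a ↔
      ∃ c : L, IsIntegral (Algebra.adjoin A₀ ({x} : Set L)) c ∧
        (a : L) = algebraMap A₀ L π * c := by
  constructor
  · rintro ⟨c, hc⟩
    exact ⟨(c : L), c.2, congrArg Subtype.val hc⟩
  · rintro ⟨c, hc, h⟩
    exact ⟨⟨c, hc⟩, Subtype.ext h⟩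

variable {x y f : L} (π : A₀)

/-- `π ∣ a b` in `C_x` implies `π ∣ a` or `π ∣ b`, elementwise -/
theorem regT_prime_elt
    (hP : Prime (algebraMap A₀ (integralClosure (Algebra.adjoin A₀ ({x} : Set L)) L) π))
    {a b c : L} (ha : IsIntegral (Algebra.adjoin A₀ ({x} : Set L)) a)
    (hb : IsIntegral (Algebra.adjoin A₀ ({x} : Set L)) b)
    (hc : IsIntegral (Algebra.adjoin A₀ ({x} : Set L)) c)
    (h : a * b = algebraMap A₀ L π * c) :
    (∃ c' : L, IsIntegral (Algebra.adjoin A₀ ({x} : Set L)) c' ∧ a = algebraMap A₀ L π * c') ∨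
    (∃ c' : L, IsIntegral (Algebra.adjoin A₀ ({x} : Set L)) c' ∧ b = algebraMap A₀ L π * c') := by
  have hdvd : algebraMap A₀ (integralClosure (Algebra.adjoin A₀ ({x} : Set L)) L) π ∣
      (⟨a, ha⟩ : integralClosure (Algebra.adjoin A₀ ({x} : Set L)) L) * ⟨b, hb⟩ :=
    (regT_dvd_iff x π _).2 ⟨c, hc, h⟩
  rcases hP.dvd_or_dvd hdvd with h1 | h1
  · exact Or.inl ((regT_dvd_iff x π _).1 h1)
  · exact Or.inr ((regT_dvd_iff x π _).1 h1)

/-- `π ∣ f ^ n a` in `C_x` implies `π ∣ a`, if `π ∤ f` -/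
theorem regT_cancel_pow
    (hP : Prime (algebraMap A₀ (integralClosure (Algebra.adjoin A₀ ({x} : Set L)) L) π))
    (hf : f ∈ Algebra.adjoin A₀ {x})
    (hfπ : ¬ ∃ c : L, IsIntegral (Algebra.adjoin A₀ ({x} : Set L)) c ∧
      f = algebraMap A₀ L π * c)
    (n : ℕ) {a c : L} (ha : IsIntegral (Algebra.adjoin A₀ ({x} : Set L)) a)
    (hc : IsIntegral (Algebra.adjoin A₀ ({x} : Set L)) c)
    (h : f ^ n * a = algebraMap A₀ L π * c) :
    ∃ c' : L, IsIntegral (Algebra.adjoin A₀ ({x} : Set L)) c' ∧ a = algebraMap A₀ L π * c' := by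
  induction n generalizing c with
  | zero => exact ⟨c, hc, by rwa [pow_zero, one_mul] at h⟩
  | succ n ih =>
    have h' : f * (f ^ n * a) = algebraMap A₀ L π * c := by rw [← h, pow_succ]; ring
    rcases regT_prime_elt π hP (regT_f_isIntegral hf)
      (((regT_f_isIntegral hf).pow n).mul ha) hc h' with h1 | ⟨c', hc', h1⟩
    · exact absurd h1 hfπ
    · exact ih hc' h1

/-- **(GL 2)** `π` stays prime in `C_y = C_x[1/f]`. -/
theorem regT_prime (hf0 : f ≠ 0) (hf : f ∈ Algebra.adjoin A₀ {x})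
    (hy : y ∈ Algebra.adjoin A₀ {x, f⁻¹})
    (hx : IsIntegral (Algebra.adjoin A₀ {y}) x)
    (hfi : IsIntegral (Algebra.adjoin A₀ {y}) f⁻¹)
    (hP : Prime (algebraMap A₀ (integralClosure (Algebra.adjoin A₀ ({x} : Set L)) L) π))
    (hfπ : ¬ ∃ c : L, IsIntegral (Algebra.adjoin A₀ ({x} : Set L)) c ∧
      f = algebraMap A₀ L π * c) :
    Prime (algebraMap A₀ (integralClosure (Algebra.adjoin A₀ ({y} : Set L)) L) π) := by
  have hπ0 : algebraMap A₀ L π ≠ 0 := by
    intro h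
    apply hP.ne_zero
    apply Subtype.ext
    rw [regT_coe_algebraMap, h]
    rfl
  refine ⟨?_, ?_, ?_⟩
  · intro h
    apply hπ0
    have := congrArg Subtype.val h
    rwa [regT_coe_algebraMap] at this
  · intro hu
    obtain ⟨u, hu⟩ := isUnit_iff_exists_inv.mp hu
    have huL : algebraMap A₀ L π * (u : L) = 1 := congrArg Subtype.val hu
    obtain ⟨n, hn⟩ := (regT_isIntegral_iff hf0 hf hy hx hfi (u : L)).1 u.2
    have h1 : f ^ n * 1 = algebraMap A₀ L π * (f ^ n * (u : L)) := by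
      rw [mul_one, mul_left_comm, huL, mul_one]
    obtain ⟨c', hc', h2⟩ := regT_cancel_pow π hP hf hfπ n isIntegral_one hn h1
    apply hP.not_isUnit
    refine isUnit_iff_exists_inv.mpr ⟨⟨c', hc'⟩, ?_⟩
    apply Subtype.ext
    exact h2.symm
  · intro a b hab
    obtain ⟨c, hc, habL⟩ := (regT_dvd_iff y π _).1 hab
    have habL' : (a : L) * (b : L) = algebraMap A₀ L π * c := habL
    obtain ⟨n₁, h₁⟩ := (regT_isIntegral_iff hf0 hf hy hx hfi (a : L)).1 a.2
    obtain ⟨n₂, h₂⟩ := (regT_isIntegral_iff hf0 hf hy hx hfi (b : L)).1 b.2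
    obtain ⟨n₃, h₃⟩ := (regT_isIntegral_iff hf0 hf hy hx hfi c).1 hc
    set n := max n₁ (max n₂ n₃) with hn
    have ha' := regT_exists_pow_ge hf h₁ (le_max_left n₁ (max n₂ n₃))
    have hb' := regT_exists_pow_ge hf h₂
      (le_trans (le_max_left n₂ n₃) (le_max_right n₁ (max n₂ n₃)))
    have hc' := regT_exists_pow_ge hf h₃
      (le_trans (le_max_right n₂ n₃) (le_max_right n₁ (max n₂ n₃)))
    rw [← hn] at ha' hb' hc'
    have hprod : (f ^ n * (a : L)) * (f ^ n * (b : L)) =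
        algebraMap A₀ L π * (f ^ n * (f ^ n * c)) := by
      have : (f ^ n * (a : L)) * (f ^ n * (b : L)) = f ^ n * (f ^ n * ((a : L) * (b : L))) := by
        ring
      rw [this, habL']
      ring
    have hfi' : IsIntegral (Algebra.adjoin A₀ ({y} : Set L)) (f⁻¹ ^ n) := hfi.pow n
    have key : ∀ z : L, (∃ c' : L, IsIntegral (Algebra.adjoin A₀ ({x} : Set L)) c' ∧
        f ^ n * z = algebraMap A₀ L π * c') →
        ∃ c'' : L, IsIntegral (Algebra.adjoin A₀ ({y} : Set L)) c'' ∧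
          z = algebraMap A₀ L π * c'' := by
      rintro z ⟨c', hc'', h⟩
      refine ⟨f⁻¹ ^ n * c', hfi'.mul (regT_isIntegral_of_left hf0 hf hy hx hfi hc''), ?_⟩
      have : z = f⁻¹ ^ n * (f ^ n * z) := by
        rw [← mul_assoc, ← mul_pow, inv_mul_cancel₀ hf0, one_pow, one_mul]
      rw [this, h]
      ring
    rcases regT_prime_elt π hP ha' hb' (((regT_f_isIntegral hf).pow n).mul hc') hprod with
      h1 | h1
    · exact Or.inl ((regT_dvd_iff y π a).2 (key _ h1))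
    · exact Or.inr ((regT_dvd_iff y π b).2 (key _ h1))

/-- the abstract localisation datum of `C_x ⊆ C_y = C_x[1/f]` -/
theorem regT_data (hf0 : f ≠ 0) (hf : f ∈ Algebra.adjoin A₀ {x})
    (hy : y ∈ Algebra.adjoin A₀ {x, f⁻¹})
    (hx : IsIntegral (Algebra.adjoin A₀ {y}) x)
    (hfi : IsIntegral (Algebra.adjoin A₀ {y}) f⁻¹) :
    RegAbsData
      ((integralClosure (Algebra.adjoin A₀ ({x} : Set L)) L).toSubring.subtype)
      ((integralClosure (Algebra.adjoin A₀ ({y} : Set L)) L).toSubring.subtype)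
      (⟨f, regT_f_isIntegral hf⟩ : integralClosure (Algebra.adjoin A₀ ({x} : Set L)) L)
      (algebraMap A₀ (integralClosure (Algebra.adjoin A₀ ({x} : Set L)) L) π)
      (algebraMap A₀ (integralClosure (Algebra.adjoin A₀ ({y} : Set L)) L) π) where
  inj₁ := Subtype.val_injective
  inj₂ := Subtype.val_injective
  f_ne := hf0
  loc z := by
    constructor
    · rintro ⟨b₂, rfl⟩
      obtain ⟨n, hn⟩ := (regT_isIntegral_iff hf0 hf hy hx hfi (b₂ : L)).1 b₂.2
      exact ⟨n, ⟨_, hn⟩, rfl⟩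
    · rintro ⟨n, b₁, hb₁⟩
      refine ⟨⟨z, (regT_isIntegral_iff hf0 hf hy hx hfi z).2 ⟨n, ?_⟩⟩, rfl⟩
      have h := b₁.2
      have hb₁' : (b₁ : L) = f ^ n * z := hb₁
      rw [hb₁'] at h
      exact h
  hp := rfl

/-- **(GL 3)** `C_y ⧸ π` is integrally closed if `C_x ⧸ π` is. -/
theorem regT_isIntegrallyClosed (hf0 : f ≠ 0) (hf : f ∈ Algebra.adjoin A₀ {x})
    (hy : y ∈ Algebra.adjoin A₀ {x, f⁻¹})
    (hx : IsIntegral (Algebra.adjoin A₀ {y}) x)
    (hfi : IsIntegral (Algebra.adjoin A₀ {y}) f⁻¹)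
    (hP : Prime (algebraMap A₀ (integralClosure (Algebra.adjoin A₀ ({x} : Set L)) L) π))
    (hfπ : ¬ ∃ c : L, IsIntegral (Algebra.adjoin A₀ ({x} : Set L)) c ∧
      f = algebraMap A₀ L π * c)
    (hIC : IsIntegrallyClosed (integralClosure (Algebra.adjoin A₀ ({x} : Set L)) L ⧸
      Ideal.span {algebraMap A₀ (integralClosure (Algebra.adjoin A₀ ({x} : Set L)) L) π})) :
    IsIntegrallyClosed (integralClosure (Algebra.adjoin A₀ ({y} : Set L)) L ⧸
      Ideal.span {algebraMap A₀ (integralClosure (Algebra.adjoin A₀ ({y} : Set L)) L) π}) := by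
  refine (regT_data π hf0 hf hy hx hfi).isIntegrallyClosed hP ?_ hIC
  intro h
  exact hfπ ((regT_dvd_iff x π _).1 h)

/-- a second proof of (GL 2) through the abstract datum (kept for cross-checking) -/
theorem regT_prime' (hf0 : f ≠ 0) (hf : f ∈ Algebra.adjoin A₀ {x})
    (hy : y ∈ Algebra.adjoin A₀ {x, f⁻¹})
    (hx : IsIntegral (Algebra.adjoin A₀ {y}) x)
    (hfi : IsIntegral (Algebra.adjoin A₀ {y}) f⁻¹)
    (hP : Prime (algebraMap A₀ (integralClosure (Algebra.adjoin A₀ ({x} : Set L)) L) π))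
    (hfπ : ¬ ∃ c : L, IsIntegral (Algebra.adjoin A₀ ({x} : Set L)) c ∧
      f = algebraMap A₀ L π * c) :
    Prime (algebraMap A₀ (integralClosure (Algebra.adjoin A₀ ({y} : Set L)) L) π) :=
  (regT_data π hf0 hf hy hx hfi).prime hP (fun h => hfπ ((regT_dvd_iff x π _).1 h))

end Transfer

end Fermat.Agent.UNIP


end ZBUNIP_027_0
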