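/- GENERATED FILE (helper35, build-time optimisation, NOTES/ZB.md): verbatim concatenation of the modules
   Fermat.Agent.PT.L.Plan
   Fermat.Agent.PT.L.PlanU
   Fermat.Agent.PT.L.Val
   Fermat.Agent.PT.L.Unif
   Fermat.Agent.PT.L.Ge
   Fermat.Agent.PT.L.ValRing
   Fermat.Agent.PT.L.UnramExists
   Fermat.Agent.PT.L.FiniteQuot
   Fermat.Agent.PT.L.FiniteQuotFinal
   Fermat.Agent.PT.L.Res
   Fermat.Agent.PT.L.Complete
   Fermat.Agent.TW.W.PmVal
   Fermat.Agent.TW.W.PmDict
   Fermat.Agent.TW.W.Eis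
   Fermat.Agent.PT.L.Plan3
   Fermat.Agent.PT.L.NormalLattice
   Fermat.Agent.PT.L.CohTrivial
   Fermat.Agent.PT.L.Lattice
   Fermat.Agent.PT.L.UnitsTrivial
   Fermat.Agent.PT.L.NormIndexAux
   Do not edit; do not import together with these modules. -/
import Mathlib
import Fermat.Agent.ZB.UNIP_027
import Mathlib.RingTheory.Norm.Basic

/-! ### bundled: `Fermat.Agent.PT.L.Plan` -/
section ZBPT_004_0
/-
PT-L (local class field theory) — INTERFACE FILE (definitions and statements only).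
Project PT = Poitou–Tate campaign for S55 (captain helper55), sub-captain for PT-L: helper57.
Plan, proofs on paper and piece table: NOTES/PT-L-plan.md.

A "local field" here is a TYPE `F : Type` with `[Field F] [Algebra ℚ_[q] F] [FiniteDimensional ℚ_[q] F]`.
An extension is `F' : Type` with `[Field F'] [Algebra F F'] [Algebra ℚ_[q] F'] [IsScalarTower ℚ_[q] F F']`
(so that `F'` is again a local field; `FiniteDimensional ℚ_[q] F'` follows from
`[FiniteDimensional F F']`).
-/

set_option autoImplicit false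

namespace Fermat.Agent.PT.L

open CategoryTheory groupCohomology

/-! ## The unnormalised valuation -/

/-- The UNNORMALISED valuation `w(x) = v_q(N_{F/ℚ_q} x)` of a local field (`w 0 = 0`).
It is `f_F` times the normalised valuation; `N_{F'/F}` preserves it (`w_F (N y) = w_{F'} y`) and
on `F ⊂ F'` it is multiplied by `[F' : F]`. -/
noncomputable def wv (q : ℕ) [Fact q.Prime] {F : Type} [Field F] [Algebra ℚ_[q] F] (x : F) : ℤ :=
  Padic.valuation (Algebra.norm ℚ_[q] x)

/-- `x` is a unit of the valuation ring. -/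
def IsU (q : ℕ) [Fact q.Prime] {F : Type} [Field F] [Algebra ℚ_[q] F] (x : F) : Prop :=
  x ≠ 0 ∧ wv q x = 0

/-- `x` lies in the valuation ring. -/
def IsInt (q : ℕ) [Fact q.Prime] {F : Type} [Field F] [Algebra ℚ_[q] F] (x : F) : Prop :=
  x = 0 ∨ 0 ≤ wv q x

/-- `x ≡ y` modulo `{w ≥ k}`. -/
def Close (q : ℕ) [Fact q.Prime] {F : Type} [Field F] [Algebra ℚ_[q] F] (k : ℤ) (x y : F) :
    Prop :=
  x = y ∨ k ≤ wv q (x - y)

/-- The subgroup of norms `N_{F'/F}(F'ˣ) ≤ Fˣ`. -/
noncomputable def normSubgroup (F F' : Type) [Field F] [Field F'] [Algebra F F'] : Subgroup Fˣ :=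
  (Units.map (Algebra.norm F : F' →* F)).range

/-- `F'/F` is unramified: every value of `w` on `F'` is taken on `F`. -/
def IsUnram (q : ℕ) [Fact q.Prime] (F F' : Type) [Field F] [Field F'] [Algebra F F']
    [Algebra ℚ_[q] F'] : Prop :=
  ∀ y : F', y ≠ 0 → ∃ x : F, x ≠ 0 ∧ wv q (algebraMap F F' x) = wv q y

/-! ## L0: foundations (the elementary API of a local field) -/

/-- L0-add: `w` is ultrametric. -/
def StmtWAdd : Prop :=
  ∀ (q : ℕ) [Fact q.Prime] (F : Type) [Field F] [Algebra ℚ_[q] F] [FiniteDimensional ℚ_[q] F]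
    (x y : F), x ≠ 0 → y ≠ 0 → x + y ≠ 0 → min (wv q x) (wv q y) ≤ wv q (x + y)

/-- L0-int: the valuation ring is the integral closure of `ℤ_q`. -/
def StmtWInt : Prop :=
  ∀ (q : ℕ) [Fact q.Prime] (F : Type) [Field F] [Algebra ℚ_[q] F] [FiniteDimensional ℚ_[q] F]
    (x : F), IsInt q x ↔
      ((algebraMap ℚ_[q] F).comp (PadicInt.Coe.ringHom (p := q))).IsIntegralElem x

/-- L0-unif: a uniformiser exists. -/
def StmtWUnif : Prop :=
  ∀ (q : ℕ) [Fact q.Prime] (F : Type) [Field F] [Algebra ℚ_[q] F] [FiniteDimensional ℚ_[q] F],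
    ∃ π : F, π ≠ 0 ∧ 0 < wv q π ∧ ∀ x : F, x ≠ 0 → wv q π ∣ wv q x

/-- L0-complete: sequences with `s (k+1) ≡ s k mod {w ≥ k}` converge. -/
def StmtWComplete : Prop :=
  ∀ (q : ℕ) [Fact q.Prime] (F : Type) [Field F] [Algebra ℚ_[q] F] [FiniteDimensional ℚ_[q] F]
    (s : ℕ → F), (∀ k : ℕ, Close q (k : ℤ) (s (k + 1)) (s k)) →
      ∃ y : F, ∀ k : ℕ, Close q (k : ℤ) y (s k)

/-- L0-fin: the valuation ring modulo `{w ≥ k}` is finite. -/
def StmtWFinite : Prop :=
  ∀ (q : ℕ) [Fact q.Prime] (F : Type) [Field F] [Algebra ℚ_[q] F] [FiniteDimensional ℚ_[q] F]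
    (k : ℕ), ∃ R : Finset F, ∀ x : F, IsInt q x → ∃ r ∈ R, Close q (k : ℤ) x r

/-! ## L-HQ: Herbrand's lemma (abstract; a cyclic group `⟨σ⟩`, `σ ^ n = 1`, on abelian groups) -/

section HQ

variable {M : Type*} [AddCommGroup M]

/-- `∑_{i<n} σ^i`. -/
def hqNorm (σ : AddMonoid.End M) (n : ℕ) : M →+ M :=
  (∑ i ∈ Finset.range n, σ ^ i : AddMonoid.End M)

/-- `σ - 1`. -/
def hqDelta (σ : AddMonoid.End M) : M →+ M := (σ - 1 : AddMonoid.End M)

/-- `|Ĥ⁰| = [ker (σ - 1) : im N]` (`0` if infinite). -/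
noncomputable def hq0 (σ : AddMonoid.End M) (n : ℕ) : ℕ :=
  (hqNorm σ n).range.relIndex (hqDelta σ).ker

/-- `|H¹| = [ker N : im (σ - 1)]` (`0` if infinite). -/
noncomputable def hq1 (σ : AddMonoid.End M) (n : ℕ) : ℕ :=
  (hqDelta σ).range.relIndex (hqNorm σ n).ker

end HQ

/-- L-HQ: Herbrand's lemma for a short exact sequence `0 → A → M → C → 0` of `⟨σ⟩`-modules:
if the indices of `A` and `C` are finite, so are those of `M`, and
`h⁰(M) h¹(A) h¹(C) = h¹(M) h⁰(A) h⁰(C)`. -/
def StmtHerbrand : Prop :=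
  ∀ (A M C : Type) [AddCommGroup A] [AddCommGroup M] [AddCommGroup C]
    (σA : AddMonoid.End A) (σM : AddMonoid.End M) (σC : AddMonoid.End C) (n : ℕ) (i : A →+ M) (π : M →+ C),
    0 < n → σA ^ n = 1 → σM ^ n = 1 → σC ^ n = 1 →
    Function.Injective i → Function.Surjective π → i.range = π.ker →
    (∀ a, i (σA a) = σM (i a)) → (∀ m, π (σM m) = σC (π m)) →
    hq0 σA n ≠ 0 → hq1 σA n ≠ 0 → hq0 σC n ≠ 0 → hq1 σC n ≠ 0 →
      hq0 σM n ≠ 0 ∧ hq1 σM n ≠ 0 ∧
      hq0 σM n * hq1 σA n * hq1 σC n = hq1 σM n * hq0 σA n * hq0 σC n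

/-- L-HQ-fin: a finite module has Herbrand quotient `1`. -/
def StmtHerbrandFinite : Prop :=
  ∀ (M : Type) [AddCommGroup M] [Finite M] (σ : AddMonoid.End M) (n : ℕ), 0 < n → σ ^ n = 1 →
    hq0 σ n ≠ 0 ∧ hq0 σ n = hq1 σ n

/-! ## L1: the units of a cyclic extension have an open cohomologically trivial subgroup -/

/-- L1: for `F'/F` cyclic with generator `σ` there is a `σ`-stable subgroup `V` of finite index in
the unit group of `F'` such that every `σ`-fixed element of `V` is the norm of an element of `V`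
and every element of `V` of norm `1` is `σ y / y` with `y ∈ V`. -/
def StmtUnitsTrivial : Prop :=
  ∀ (q : ℕ) [Fact q.Prime] (F F' : Type) [Field F] [Field F'] [Algebra ℚ_[q] F]
    [FiniteDimensional ℚ_[q] F] [Algebra F F'] [Algebra ℚ_[q] F'] [IsScalarTower ℚ_[q] F F']
    [FiniteDimensional F F'] [IsGalois F F'] (σ : F' ≃ₐ[F] F'),
    (∀ τ : F' ≃ₐ[F] F', τ ∈ Subgroup.zpowers σ) →
    ∃ V : Subgroup F'ˣ,
      (∀ u ∈ V, wv q (u : F') = 0) ∧
      (∀ u ∈ V, Units.map (σ : F' →* F') u ∈ V) ∧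
      (∃ R : Finset F'ˣ, ∀ u : F'ˣ, wv q (u : F') = 0 → ∃ r ∈ R, u / r ∈ V) ∧
      (∀ u ∈ V, σ (u : F') = u →
        ∃ y ∈ V, algebraMap F F' (Algebra.norm F (y : F')) = u) ∧
      (∀ u ∈ V, Algebra.norm F (u : F') = 1 → ∃ y ∈ V, (u : F') = σ (y : F') / y)

/-! ## L2, L3: norm index of a cyclic extension, unramified extensions -/

/-- L2 = (Lc), first half: `[Fˣ : N F'ˣ] = [F' : F]` for a cyclic extension of local fields. -/
def StmtNormIndex : Prop :=
  ∀ (q : ℕ) [Fact q.Prime] (F F' : Type) [Field F] [Field F'] [Algebra ℚ_[q] F]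
    [FiniteDimensional ℚ_[q] F] [Algebra F F'] [FiniteDimensional F F'] [IsGalois F F'],
    IsCyclic (F' ≃ₐ[F] F') → (normSubgroup F F').index = Module.finrank F F'

/-- L3-ex: the unramified extension of every degree `m ≥ 1` exists and is cyclic. -/
def StmtUnramExists : Prop :=
  ∀ (q : ℕ) [Fact q.Prime] (F : Type) [Field F] [Algebra ℚ_[q] F] [FiniteDimensional ℚ_[q] F]
    (m : ℕ), 0 < m →
    ∃ (E : Type) (_ : Field E) (_ : Algebra F E) (_ : Algebra ℚ_[q] E)
      (_ : IsScalarTower ℚ_[q] F E), FiniteDimensional F E ∧ IsGalois F E ∧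
        Module.finrank F E = m ∧ IsCyclic (E ≃ₐ[F] E) ∧ IsUnram q F E

/-- L3-norm = (Lc), second half: in a cyclic unramified extension every unit is the norm of a
unit. -/
def StmtUnitNorm : Prop :=
  ∀ (q : ℕ) [Fact q.Prime] (F F' : Type) [Field F] [Field F'] [Algebra ℚ_[q] F]
    [FiniteDimensional ℚ_[q] F] [Algebra F F'] [Algebra ℚ_[q] F'] [IsScalarTower ℚ_[q] F F']
    [FiniteDimensional F F'] [IsGalois F F'],
    IsCyclic (F' ≃ₐ[F] F') → IsUnram q F F' →
      ∀ u : F, IsU q u → ∃ y : F', IsU q y ∧ Algebra.norm F y = u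

/-! ## L4–L6: `H²(F'/F, F'ˣ)` -/

/-- Inflation `H²(F'/F) → H²(F''/F)` for a tower `F ⊂ F' ⊂ F''` with `F'/F` normal. -/
noncomputable def infl (F F' F'' : Type) [Field F] [Field F'] [Field F''] [Algebra F F']
    [Algebra F F''] [Algebra F' F''] [IsScalarTower F F' F''] [Normal F F'] :
    H2 (Rep.ofAlgebraAutOnUnits F F') ⟶ H2 (Rep.ofAlgebraAutOnUnits F F'') :=
  groupCohomology.map (AlgEquiv.restrictNormalHom (F := F) (K₁ := F'') F')
    (Rep.ofHom
      { toLinearMap := (Units.map (algebraMap F' F'' : F' →* F'')).toAdditive.toIntLinearMap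
        isIntertwining' := fun g => by
          ext x
          show algebraMap F' F'' ((AlgEquiv.restrictNormalHom F' g) ((Additive.toMul x : F'ˣ) : F')) =
            g (algebraMap F' F'' ((Additive.toMul x : F'ˣ) : F'))
          exact AlgEquiv.restrictNormal_commutes g F' _ }) 2

/-- Restriction `H²(F''/F) → H²(F''/F')` for a tower `F ⊂ F' ⊂ F''`. -/
noncomputable def resF (F F' F'' : Type) [Field F] [Field F'] [Field F''] [Algebra F F']
    [Algebra F F''] [Algebra F' F''] [IsScalarTower F F' F''] :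
    H2 (Rep.ofAlgebraAutOnUnits F F'') ⟶ H2 (Rep.ofAlgebraAutOnUnits F' F'') :=
  groupCohomology.map (AlgEquiv.restrictScalarsHom F : (F'' ≃ₐ[F'] F'') →* (F'' ≃ₐ[F] F''))
    (Rep.ofHom
      { toLinearMap := LinearMap.id
        isIntertwining' := fun _ => rfl }) 2

/-- L4b: inflation–restriction for fields: a class of `H²(F''/F)` that dies in `H²(F''/F')`
is inflated from `H²(F'/F)`. -/
def StmtInfResField : Prop :=
  ∀ (F F' F'' : Type) [Field F] [Field F'] [Field F''] [Algebra F F'] [Algebra F F'']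
    [Algebra F' F''] [IsScalarTower F F' F''] [FiniteDimensional F F''] [IsGalois F F']
    [IsGalois F F''] (x : H2 (Rep.ofAlgebraAutOnUnits F F'')),
    (resF F F' F'').hom x = 0 → ∃ y, (infl F F' F'').hom y = x

/-- (U): let `En/F` be cyclic unramified of degree `[F' : F]`, `F'/F` Galois and `E = F' En`.
Then every element of `F` is a norm from `E` to `F'` (`E/F'` is unramified of degree
`e(F'/F)`). -/
def StmtCompositumNorm : Prop :=
  ∀ (q : ℕ) [Fact q.Prime] (F F' En E : Type) [Field F] [Field F'] [Field En] [Field E]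
    [Algebra ℚ_[q] F] [FiniteDimensional ℚ_[q] F] [Algebra F F'] [Algebra F En] [Algebra F E]
    [Algebra F' E] [Algebra En E] [IsScalarTower F F' E] [IsScalarTower F En E]
    [Algebra ℚ_[q] En] [IsScalarTower ℚ_[q] F En] [FiniteDimensional F F']
    [FiniteDimensional F En] [FiniteDimensional F E] [IsGalois F F'] [IsGalois F En],
    IsCyclic (En ≃ₐ[F] En) → IsUnram q F En → Module.finrank F En = Module.finrank F F' →
    (IsScalarTower.toAlgHom F F' E).fieldRange ⊔ (IsScalarTower.toAlgHom F En E).fieldRange = ⊤ →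
    ∀ x : F, ∃ y : E, Algebra.norm F' y = algebraMap F F' x

/-- L5: the upper bound `|H²(F'/F, F'ˣ)| ≤ [F' : F]` for `p`-extensions. -/
def StmtH2Le : Prop :=
  ∀ (q : ℕ) [Fact q.Prime] (p : ℕ) [Fact p.Prime] (k : ℕ) (F F' : Type) [Field F] [Field F']
    [Algebra ℚ_[q] F] [FiniteDimensional ℚ_[q] F] [Algebra F F'] [FiniteDimensional F F']
    [IsGalois F F'], Module.finrank F F' = p ^ k →
      Finite (H2 (Rep.ofAlgebraAutOnUnits F F')) ∧
      Nat.card (H2 (Rep.ofAlgebraAutOnUnits F F')) ≤ p ^ k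

/-- (Ld): inflation is injective (Hilbert 90 + inflation–restriction). -/
def StmtLd : Prop :=
  ∀ (F F' F'' : Type) [Field F] [Field F'] [Field F''] [Algebra F F'] [Algebra F F'']
    [Algebra F' F''] [IsScalarTower F F' F''] [FiniteDimensional F F''] [IsGalois F F']
    [IsGalois F F''], Function.Injective (infl F F' F'').hom

/-- **(La)**: for a Galois extension `F'/F` of local fields of degree `p ^ k`, the group
`H²(Gal(F'/F), F'ˣ)` is cyclic of order `[F' : F]`. -/
def StmtLa : Prop :=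
  ∀ (q : ℕ) [Fact q.Prime] (p : ℕ) [Fact p.Prime] (k : ℕ) (F F' : Type) [Field F] [Field F']
    [Algebra ℚ_[q] F] [FiniteDimensional ℚ_[q] F] [Algebra F F'] [FiniteDimensional F F']
    [IsGalois F F'], Module.finrank F F' = p ^ k →
      IsAddCyclic (H2 (Rep.ofAlgebraAutOnUnits F F')) ∧
      Nat.card (H2 (Rep.ofAlgebraAutOnUnits F F')) = Module.finrank F F'

/-! ## L7, L8: existence mod `p` -/

/-- L7-fin: `Fˣ / Fˣᵖ` is finite. -/
def StmtPowFinite : Prop :=
  ∀ (q : ℕ) [Fact q.Prime] (p : ℕ) [Fact p.Prime] (F : Type) [Field F] [Algebra ℚ_[q] F]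
    [FiniteDimensional ℚ_[q] F], (powMonoidHom p : Fˣ →* Fˣ).range.FiniteIndex

/-- L7-kum: if `μ_p ⊂ F`, the maximal abelian extension of exponent `p` is finite of degree
`[Fˣ : Fˣᵖ]`, abelian of exponent `p`. -/
def StmtKummerMax : Prop :=
  ∀ (q : ℕ) [Fact q.Prime] (p : ℕ) [Fact p.Prime] (F : Type) [Field F] [Algebra ℚ_[q] F]
    [FiniteDimensional ℚ_[q] F] (ζ : F), IsPrimitiveRoot ζ p →
    ∃ (E : Type) (_ : Field E) (_ : Algebra F E), FiniteDimensional F E ∧ IsGalois F E ∧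
      Module.finrank F E = (powMonoidHom p : Fˣ →* Fˣ).range.index ∧
      (∀ g h : E ≃ₐ[F] E, g * h = h * g) ∧ (∀ g : E ≃ₐ[F] E, g ^ p = 1)

/-- **(Lb)**: local existence mod `p`: if `μ_p ⊂ F` there is a finite Galois `F'/F` all of whose
norms are `p`-th powers. -/
def StmtLb : Prop :=
  ∀ (q : ℕ) [Fact q.Prime] (p : ℕ) [Fact p.Prime] (F : Type) [Field F] [Algebra ℚ_[q] F]
    [FiniteDimensional ℚ_[q] F] (ζ : F), IsPrimitiveRoot ζ p →
    ∃ (E : Type) (_ : Field E) (_ : Algebra F E), FiniteDimensional F E ∧ IsGalois F E ∧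
      ∀ y : E, ∃ x : F, Algebra.norm F y = x ^ p

end Fermat.Agent.PT.L


end ZBPT_004_0

/-! ### bundled: `Fermat.Agent.PT.L.PlanU` -/
section ZBPT_004_1
/-
PT-L piece U (helper65): interface for the split of `StmtCompositumNorm`.

`StmtRes` = "local Galois theory of the residue field": for a finite Galois extension `L/K` of
local fields there is a CYCLIC group `C` (= `Gal(k_L/k_K)`) and a surjection
`ρ : Gal(L/K) → C` whose kernel is the inertia group
`{σ | σ x ≡ x mod {w ≥ 1} for all integral x}`, and `|C| · a_K = a_L`, where `a_K`, `a_L` are the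
values of `wv` at uniformisers (`|C| = f(L/K)`, the residue degree).

Split:  U1 (helper65)  `stmtRes : StmtRes`                         in `PT/L/Res.lean`
        U2             `stmtCompositumNorm_of_res : StmtRes → StmtCompositumNorm`
                                                                    in `PT/L/CompositumNorm.lean`
-/

set_option autoImplicit false

namespace Fermat.Agent.PT.L

/-- `π` is a uniformiser: `wv π` is the positive generator of the value group. -/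
def IsUnif (q : ℕ) [Fact q.Prime] {F : Type} [Field F] [Algebra ℚ_[q] F] (π : F) : Prop :=
  π ≠ 0 ∧ 0 < wv q π ∧ ∀ x : F, x ≠ 0 → wv q π ∣ wv q x

/-- `σ` is inertial: it acts trivially on the residue field. -/
def IsInertial (q : ℕ) [Fact q.Prime] {L : Type} [Field L] [Algebra ℚ_[q] L] (σ : L → L) :
    Prop :=
  ∀ x : L, IsInt q x → Close q 1 (σ x) x

/-- U1: the residue-field quotient of the Galois group of a Galois extension of local fields. -/
def StmtRes : Prop :=
  ∀ (q : ℕ) [Fact q.Prime] (K L : Type) [Field K] [Field L] [Algebra ℚ_[q] K]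
    [FiniteDimensional ℚ_[q] K] [Algebra K L] [Algebra ℚ_[q] L] [IsScalarTower ℚ_[q] K L]
    [FiniteDimensional K L] [IsGalois K L],
    ∃ (C : Type) (_ : Group C) (_ : IsCyclic C) (ρ : (L ≃ₐ[K] L) →* C),
      Function.Surjective ρ ∧
      (∀ σ : L ≃ₐ[K] L, ρ σ = 1 ↔ IsInertial q σ) ∧
      ∀ (πK : K) (πL : L), IsUnif q πK → IsUnif q πL →
        (Nat.card C : ℤ) * wv q πK = wv q πL

end Fermat.Agent.PT.L


end ZBPT_004_1

/-! ### bundled: `Fermat.Agent.PT.L.Val` -/
section ZBPT_004_2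
/-
PT-L piece L0a (helper72): the unnormalised valuation `wv` of a local field is ultrametric
(`stmtWAdd`) and its valuation ring is the integral closure of `ℤ_q` (`stmtWInt`).
Route: the spectral norm of Mathlib, with the bridge `‖N x‖ = spectralNorm x ^ [F : ℚ_q]`.
-/

set_option autoImplicit false

namespace Fermat.Agent.PT.L

open Polynomial IntermediateField

section

variable (q : ℕ) [Fact q.Prime] (F : Type) [Field F] [Algebra ℚ_[q] F]
  [FiniteDimensional ℚ_[q] F]

/-- The norm of the generator of `K⟮x⟯` is `± coeff₀` of the minimal polynomial. -/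
theorem l0a_norm_gen (x : F) :
    ‖Algebra.norm ℚ_[q] (AdjoinSimple.gen ℚ_[q] x)‖ = ‖(minpoly ℚ_[q] x).coeff 0‖ := by
  have hx : IsIntegral ℚ_[q] x := Algebra.IsIntegral.isIntegral x
  have h1 := Algebra.PowerBasis.norm_gen_eq_coeff_zero_minpoly (adjoin.powerBasis hx)
  rw [adjoin.powerBasis_gen hx] at h1
  rw [h1, minpoly_gen, norm_mul, norm_pow, norm_neg, norm_one, one_pow, one_mul]

/-- The bridge: `‖N_{F/ℚ_q} x‖ = ‖x‖_sp ^ [F : ℚ_q]`. -/
theorem l0a_norm_eq_spectralNorm_pow (x : F) :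
    ‖Algebra.norm ℚ_[q] x‖ = spectralNorm ℚ_[q] F x ^ Module.finrank ℚ_[q] F := by
  have hx : IsIntegral ℚ_[q] x := Algebra.IsIntegral.isIntegral x
  have hd : 0 < (minpoly ℚ_[q] x).natDegree := minpoly.natDegree_pos hx
  rw [Algebra.norm_eq_norm_adjoin ℚ_[q] x, norm_pow, l0a_norm_gen,
    spectralNorm.spectralNorm_eq_norm_coeff_zero_rpow,
    ← Module.finrank_mul_finrank ℚ_[q] ℚ_[q]⟮x⟯ F, adjoin.finrank hx, pow_mul,
    ← Real.rpow_natCast (_ ^ _) (minpoly ℚ_[q] x).natDegree, ← Real.rpow_mul (norm_nonneg _),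
    one_div, inv_mul_cancel₀ (by exact_mod_cast hd.ne'), Real.rpow_one]

/-- `spectralNorm ≤ 1` iff `‖N x‖ ≤ 1`. -/
theorem l0a_spectralNorm_le_one_iff (x : F) :
    spectralNorm ℚ_[q] F x ≤ 1 ↔ ‖Algebra.norm ℚ_[q] x‖ ≤ 1 := by
  have hn : 0 < Module.finrank ℚ_[q] F := Module.finrank_pos
  rw [l0a_norm_eq_spectralNorm_pow]
  constructor
  · intro h
    exact pow_le_one₀ (spectralNorm_nonneg x) h
  · intro h
    by_contra hlt
    exact absurd h (not_le.mpr (one_lt_pow₀ (not_le.mp hlt) hn.ne'))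

/-- For nonzero `z`, `‖z‖ ≤ ‖w‖` translates to valuations. -/
theorem l0a_val_le_of_norm_le {z w : ℚ_[q]} (hz : z ≠ 0) (hw : w ≠ 0) (h : ‖z‖ ≤ ‖w‖) :
    w.valuation ≤ z.valuation := by
  rw [Padic.norm_eq_zpow_neg_valuation hz, Padic.norm_eq_zpow_neg_valuation hw] at h
  have h1p : 1 < (q : ℝ) := by exact_mod_cast (Fact.out : q.Prime).one_lt
  have := (zpow_le_zpow_iff_right₀ h1p).mp h
  omega

theorem l0a_wAdd (x y : F) (hx : x ≠ 0) (hy : y ≠ 0) (hxy : x + y ≠ 0) :
    min (wv q x) (wv q y) ≤ wv q (x + y) := by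
  have hNx : Algebra.norm ℚ_[q] x ≠ 0 := Algebra.norm_ne_zero_iff.mpr hx
  have hNy : Algebra.norm ℚ_[q] y ≠ 0 := Algebra.norm_ne_zero_iff.mpr hy
  have hNxy : Algebra.norm ℚ_[q] (x + y) ≠ 0 := Algebra.norm_ne_zero_iff.mpr hxy
  have hna := isNonarchimedean_spectralNorm (K := ℚ_[q]) (L := F) x y
  rcases le_max_iff.mp hna with h | h
  · refine (min_le_left _ _).trans ?_
    refine l0a_val_le_of_norm_le q hNxy hNx ?_
    rw [l0a_norm_eq_spectralNorm_pow, l0a_norm_eq_spectralNorm_pow]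
    exact pow_le_pow_left₀ (spectralNorm_nonneg _) h _
  · refine (min_le_right _ _).trans ?_
    refine l0a_val_le_of_norm_le q hNxy hNy ?_
    rw [l0a_norm_eq_spectralNorm_pow, l0a_norm_eq_spectralNorm_pow]
    exact pow_le_pow_left₀ (spectralNorm_nonneg _) h _

/-- integral over `ℤ_q` implies `spectralNorm ≤ 1`. -/
theorem l0a_spectralNorm_le_one_of_integral (x : F)
    (hx : ((algebraMap ℚ_[q] F).comp (PadicInt.Coe.ringHom (p := q))).IsIntegralElem x) :
    spectralNorm ℚ_[q] F x ≤ 1 := by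
  obtain ⟨P, hP, hPx⟩ := hx
  have hmon : (P.map (PadicInt.Coe.ringHom (p := q))).Monic := hP.map _
  have hroot : aeval x (P.map (PadicInt.Coe.ringHom (p := q))) = 0 := by
    rw [aeval_def, eval₂_map]
    exact hPx
  have h1 := norm_root_le_spectralValue (f := spectralAlgNorm ℚ_[q] F)
    spectralAlgNorm_isPowMul isNonarchimedean_spectralNorm hmon hroot
  rw [spectralAlgNorm_def] at h1
  refine h1.trans ((spectralValue_le_one_iff hmon).mpr fun n => ?_)
  rw [coeff_map]
  exact (P.coeff n).2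

/-- `spectralNorm ≤ 1` implies integral over `ℤ_q`. -/
theorem l0a_integral_of_spectralNorm_le_one (x : F) (hx : spectralNorm ℚ_[q] F x ≤ 1) :
    ((algebraMap ℚ_[q] F).comp (PadicInt.Coe.ringHom (p := q))).IsIntegralElem x := by
  have hint : IsIntegral ℚ_[q] x := Algebra.IsIntegral.isIntegral x
  have hmon : (minpoly ℚ_[q] x).Monic := minpoly.monic hint
  have hco := (spectralValue_le_one_iff hmon).mp hx
  have hl : minpoly ℚ_[q] x ∈ Polynomial.lifts (PadicInt.Coe.ringHom (p := q)) := by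
    rw [Polynomial.lifts_iff_coeff_lifts]
    intro n
    exact ⟨⟨_, hco n⟩, rfl⟩
  obtain ⟨Q, hQ, -, hQm⟩ := Polynomial.lifts_and_natDegree_eq_and_monic hl hmon
  refine ⟨Q, hQm, ?_⟩
  rw [← eval₂_map, hQ]
  exact minpoly.aeval ℚ_[q] x

theorem l0a_wInt (x : F) :
    IsInt q x ↔
      ((algebraMap ℚ_[q] F).comp (PadicInt.Coe.ringHom (p := q))).IsIntegralElem x := by
  constructor
  · rintro (rfl | h)
    · exact ⟨X, monic_X, by simp⟩
    · apply l0a_integral_of_spectralNorm_le_one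
      rw [l0a_spectralNorm_le_one_iff]
      exact (Padic.norm_le_one_iff_val_nonneg _).mpr h
  · intro h
    right
    have := l0a_spectralNorm_le_one_of_integral q F x h
    rw [l0a_spectralNorm_le_one_iff] at this
    exact (Padic.norm_le_one_iff_val_nonneg _).mp this

end

/-- L0-add: `w` is ultrametric. -/
theorem stmtWAdd : StmtWAdd := fun q _ F _ _ _ x y hx hy hxy => l0a_wAdd q F x y hx hy hxy

/-- L0-int: the valuation ring is the integral closure of `ℤ_q`. -/
theorem stmtWInt : StmtWInt := fun q _ F _ _ _ x => l0a_wInt q F x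

end Fermat.Agent.PT.L


end ZBPT_004_2

/-! ### bundled: `Fermat.Agent.PT.L.Unif` -/
section ZBPT_004_3

/-!
# PT-L, piece L0b: a uniformiser exists (`StmtWUnif`)

Basic algebra of the unnormalised valuation `wv` and the existence of an element of least
positive valuation.
-/

set_option autoImplicit false
set_option linter.unusedSectionVars false

namespace Fermat.Agent.PT.L

section

variable (q : ℕ) [Fact q.Prime] {F : Type} [Field F] [Algebra ℚ_[q] F]
  [FiniteDimensional ℚ_[q] F]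

lemma l0b_norm_ne_zero {x : F} (hx : x ≠ 0) : Algebra.norm ℚ_[q] x ≠ 0 :=
  Algebra.norm_ne_zero_iff.mpr hx

lemma l0b_wv_one : wv q (1 : F) = 0 := by
  unfold wv
  rw [map_one, Padic.valuation_one]

lemma l0b_wv_mul {x y : F} (hx : x ≠ 0) (hy : y ≠ 0) : wv q (x * y) = wv q x + wv q y := by
  unfold wv
  rw [map_mul, Padic.valuation_mul (l0b_norm_ne_zero q hx) (l0b_norm_ne_zero q hy)]

lemma l0b_wv_inv (x : F) : wv q x⁻¹ = -wv q x := by
  unfold wv
  rw [Algebra.norm_inv, Padic.valuation_inv]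

lemma l0b_wv_pow (x : F) (n : ℕ) : wv q (x ^ n) = n * wv q x := by
  unfold wv
  rw [map_pow, Padic.valuation_pow]

lemma l0b_wv_zpow (x : F) (n : ℤ) : wv q (x ^ n) = n * wv q x := by
  cases n with
  | ofNat k =>
    simp only [Int.ofNat_eq_natCast, zpow_natCast]
    exact l0b_wv_pow q x k
  | negSucc k =>
    rw [zpow_negSucc, l0b_wv_inv, l0b_wv_pow, Int.negSucc_eq]
    push_cast
    ring

lemma l0b_wv_div {x y : F} (hx : x ≠ 0) (hy : y ≠ 0) : wv q (x / y) = wv q x - wv q y := by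
  rw [div_eq_mul_inv, l0b_wv_mul q hx (inv_ne_zero hy), l0b_wv_inv]
  ring

lemma l0b_wv_algebraMap (a : ℚ_[q]) :
    wv q (algebraMap ℚ_[q] F a) = Module.finrank ℚ_[q] F * Padic.valuation a := by
  unfold wv
  rw [Algebra.norm_algebraMap, Padic.valuation_pow]

lemma l0b_finrank_pos : 0 < Module.finrank ℚ_[q] F := Module.finrank_pos

lemma l0b_wv_q : wv q (algebraMap ℚ_[q] F (q : ℚ_[q])) = Module.finrank ℚ_[q] F := by
  rw [l0b_wv_algebraMap, Padic.valuation_p, mul_one]

lemma l0b_q_ne_zero : algebraMap ℚ_[q] F (q : ℚ_[q]) ≠ 0 := by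
  rw [Ne, map_eq_zero]
  exact_mod_cast (Fact.out : q.Prime).ne_zero

end

/-- **L0b**: a uniformiser exists. -/
theorem stmtWUnif : StmtWUnif := by
  intro q _ F _ _ _
  classical
  -- the set of positive values is nonempty
  have hex : ∃ k : ℕ, 0 < k ∧ ∃ x : F, x ≠ 0 ∧ wv q x = k :=
    ⟨Module.finrank ℚ_[q] F, l0b_finrank_pos q, _, l0b_q_ne_zero q, l0b_wv_q q⟩
  obtain ⟨hd, π, hπ0, hπ⟩ := Nat.find_spec hex
  set d := Nat.find hex with hd_def
  refine ⟨π, hπ0, by rw [hπ]; exact_mod_cast hd, fun x hx => ?_⟩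
  rw [hπ]
  -- the remainder of `wv x` mod `d` is a value, smaller than `d`
  have hdpos : (0 : ℤ) < d := by exact_mod_cast hd
  set r := wv q x % (d : ℤ) with hr
  have hr0 : 0 ≤ r := Int.emod_nonneg _ hdpos.ne'
  have hrd : r < d := Int.emod_lt_of_pos _ hdpos
  have hy0 : x * (π ^ (wv q x / (d : ℤ)))⁻¹ ≠ 0 :=
    mul_ne_zero hx (inv_ne_zero (zpow_ne_zero _ hπ0))
  have hval : wv q (x * (π ^ (wv q x / (d : ℤ)))⁻¹) = r := by
    rw [l0b_wv_mul q hx (inv_ne_zero (zpow_ne_zero _ hπ0)), l0b_wv_inv, l0b_wv_zpow, hπ, hr]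
    have := Int.emod_add_mul_ediv (wv q x) (d : ℤ)
    linarith [mul_comm (wv q x / (d : ℤ)) (d : ℤ)]
  by_contra hndvd
  have hrne : r ≠ 0 := fun h => hndvd (Int.dvd_of_emod_eq_zero (hr ▸ h))
  have hrpos : 0 < r := lt_of_le_of_ne hr0 (Ne.symm hrne)
  have hmem : 0 < r.toNat ∧ ∃ y : F, y ≠ 0 ∧ wv q y = (r.toNat : ℤ) := by
    refine ⟨by omega, _, hy0, ?_⟩
    rw [hval, Int.toNat_of_nonneg hr0]
  have := Nat.find_min' hex hmem
  omega

end Fermat.Agent.PT.L


end ZBPT_004_3

/-! ### bundled: `Fermat.Agent.PT.L.Ge` -/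
section ZBPT_004_4
/-
PT-L: shared API for the unnormalised valuation `wv` of a local field (helper57).
`geW q k x` means `w(x) ≥ k` (true for `x = 0`); `IsInt q x = geW q 0 x`,
`Close q k x y ↔ geW q k (x - y)`.
-/

set_option autoImplicit false
set_option linter.unusedSectionVars false

namespace Fermat.Agent.PT.L

section

variable (q : ℕ) [Fact q.Prime] {F : Type} [Field F] [Algebra ℚ_[q] F]
  [FiniteDimensional ℚ_[q] F]

/-- `w(x) ≥ k` (true for `x = 0`). -/
def geW (k : ℤ) (x : F) : Prop := x = 0 ∨ k ≤ wv q x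

lemma geW_zero (k : ℤ) : geW q k (0 : F) := Or.inl rfl

lemma geW_mono {k l : ℤ} (h : l ≤ k) {x : F} (hx : geW q k x) : geW q l x := by
  rcases hx with hx | hx
  · exact Or.inl hx
  · exact Or.inr (h.trans hx)

lemma isInt_iff_geW (x : F) : IsInt q x ↔ geW q 0 x := Iff.rfl

lemma close_iff_geW (k : ℤ) (x y : F) : Close q k x y ↔ geW q k (x - y) := by
  unfold Close geW
  rw [sub_eq_zero]

lemma geW_wv_neg (x : F) : wv q (-x) = wv q x := by
  by_cases hx : x = 0
  · simp [hx]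
  have h1 : wv q (-1 : F) = 0 := by
    have h2 : wv q ((-1 : F) * (-1)) = wv q (-1 : F) + wv q (-1 : F) :=
      l0b_wv_mul q (by simp) (by simp)
    have h3 : ((-1 : F) * (-1)) = 1 := by ring
    rw [h3, l0b_wv_one] at h2
    omega
  have : -x = (-1) * x := by ring
  rw [this, l0b_wv_mul q (by simp) hx, h1, zero_add]

lemma geW_neg {k : ℤ} {x : F} (hx : geW q k x) : geW q k (-x) := by
  rcases hx with hx | hx
  · exact Or.inl (by simp [hx])
  · exact Or.inr (by rwa [geW_wv_neg])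

lemma geW_add {k : ℤ} {x y : F} (hx : geW q k x) (hy : geW q k y) : geW q k (x + y) := by
  by_cases hx0 : x = 0
  · simpa [hx0] using hy
  by_cases hy0 : y = 0
  · simpa [hy0] using hx
  by_cases hxy : x + y = 0
  · exact Or.inl hxy
  rcases hx with hx | hx
  · exact absurd hx hx0
  rcases hy with hy | hy
  · exact absurd hy hy0
  exact Or.inr ((le_min hx hy).trans (stmtWAdd q F x y hx0 hy0 hxy))

lemma geW_sub {k : ℤ} {x y : F} (hx : geW q k x) (hy : geW q k y) : geW q k (x - y) := by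
  rw [sub_eq_add_neg]
  exact geW_add q hx (geW_neg q hy)

lemma geW_mul {k l : ℤ} {x y : F} (hx : geW q k x) (hy : geW q l y) :
    geW q (k + l) (x * y) := by
  by_cases hx0 : x = 0
  · exact Or.inl (by simp [hx0])
  by_cases hy0 : y = 0
  · exact Or.inl (by simp [hy0])
  rcases hx with hx | hx
  · exact absurd hx hx0
  rcases hy with hy | hy
  · exact absurd hy hy0
  exact Or.inr (by rw [l0b_wv_mul q hx0 hy0]; omega)

lemma geW_sum {ι : Type*} (s : Finset ι) (f : ι → F) (k : ℤ)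
    (h : ∀ i ∈ s, geW q k (f i)) : geW q k (∑ i ∈ s, f i) := by
  classical
  induction s using Finset.induction_on with
  | empty => simpa using geW_zero q k
  | insert a s ha ih =>
    rw [Finset.sum_insert ha]
    exact geW_add q (h a (Finset.mem_insert_self a s))
      (ih (fun i hi => h i (Finset.mem_insert_of_mem hi)))

lemma geW_eq_zero {x : F} (h : ∀ k : ℕ, geW q (k : ℤ) x) : x = 0 := by
  by_contra hx
  rcases h (wv q x + 1).toNat with h1 | h1
  · exact hx h1
  · have := Int.self_le_toNat (wv q x + 1)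
    omega

lemma exists_geW (x : F) : ∃ c : ℕ, geW q (-(c : ℤ)) x :=
  ⟨(-wv q x).toNat, Or.inr (by have := Int.self_le_toNat (-wv q x); omega)⟩

lemma exists_geW_finite {ι : Type*} [Finite ι] (f : ι → F) :
    ∃ c : ℕ, ∀ i, geW q (-(c : ℤ)) (f i) := by
  classical
  cases nonempty_fintype ι
  choose c hc using fun i => exists_geW q (f i)
  refine ⟨Finset.univ.sup c, fun i => geW_mono q ?_ (hc i)⟩
  have : c i ≤ Finset.univ.sup c := Finset.le_sup (Finset.mem_univ i)
  omega

/-- `q`, as an element of the local field. -/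
noncomputable def qEl (F : Type) [Field F] [Algebra ℚ_[q] F] : F := algebraMap ℚ_[q] F (q : ℚ_[q])

lemma qEl_ne_zero : qEl q F ≠ 0 := l0b_q_ne_zero q

lemma wv_qEl : wv q (qEl q F) = Module.finrank ℚ_[q] F := l0b_wv_q q

lemma wv_qEl_pow (j : ℕ) : wv q (qEl q F ^ j) = j * Module.finrank ℚ_[q] F := by
  rw [l0b_wv_pow, wv_qEl]

lemma geW_qEl_pow_mul {k : ℤ} {x : F} (j : ℕ) (hx : geW q k x) :
    geW q (j * Module.finrank ℚ_[q] F + k) (qEl q F ^ j * x) :=
  geW_mul q (Or.inr (by rw [wv_qEl_pow])) hx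

lemma geW_one : geW q 0 (1 : F) := Or.inr (by rw [l0b_wv_one])

/-- If `w(x) ≥ 1` then `1 + x` is a unit: `w(1 + x) = 0`. -/
lemma wv_one_add {x : F} (hx : geW q 1 x) : 1 + x ≠ 0 ∧ wv q (1 + x) = 0 := by
  have h1 : (1 : F) + x ≠ 0 := by
    intro h
    have hx' : x = -1 := by linear_combination h
    rcases hx with hx | hx
    · rw [hx, add_zero] at h
      exact one_ne_zero h
    · rw [hx', geW_wv_neg, l0b_wv_one] at hx
      omega
  refine ⟨h1, ?_⟩
  have h2 : geW q 0 (1 + x) := geW_add q (geW_one q) (geW_mono q (by omega) hx)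
  rcases h2 with h2 | h2
  · exact absurd h2 h1
  by_contra h3
  have h4 : geW q 1 (1 + x) := Or.inr (by omega)
  have h5 : geW q 1 ((1 + x) - x) := geW_sub q h4 hx
  rw [add_sub_cancel_right] at h5
  rcases h5 with h5 | h5
  · exact one_ne_zero h5
  · rw [l0b_wv_one] at h5
    omega

end

section tower

variable (q : ℕ) [Fact q.Prime] {F F' : Type} [Field F] [Field F'] [Algebra ℚ_[q] F]
  [FiniteDimensional ℚ_[q] F] [Algebra F F'] [Algebra ℚ_[q] F'] [IsScalarTower ℚ_[q] F F']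
  [FiniteDimensional F F']

lemma tower_finiteDimensional (F : Type) {F' : Type} [Field F] [Field F'] [Algebra ℚ_[q] F]
    [FiniteDimensional ℚ_[q] F] [Algebra F F'] [Algebra ℚ_[q] F'] [IsScalarTower ℚ_[q] F F']
    [FiniteDimensional F F'] : FiniteDimensional ℚ_[q] F' :=
  FiniteDimensional.trans ℚ_[q] F F'

lemma wv_algebraMap_tower (a : F) :
    wv q (algebraMap F F' a) = Module.finrank F F' * wv q a := by
  unfold wv
  rw [← Algebra.norm_norm (R := ℚ_[q]) (S := F) (A := F'), Algebra.norm_algebraMap,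
    map_pow, Padic.valuation_pow]

lemma wv_norm_tower (y : F') : wv q (Algebra.norm F y) = wv q y := by
  unfold wv
  rw [Algebra.norm_norm (R := ℚ_[q]) (S := F) (A := F')]

lemma wv_algEquiv (σ : F' ≃ₐ[F] F') (x : F') : wv q (σ x) = wv q x := by
  unfold wv
  exact congrArg Padic.valuation (Algebra.norm_eq_of_algEquiv (σ.restrictScalars ℚ_[q]) x)

lemma geW_algEquiv (σ : F' ≃ₐ[F] F') {k : ℤ} {x : F'} (hx : geW q k x) : geW q k (σ x) := by
  rcases hx with hx | hx
  · exact Or.inl (by simp [hx])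
  · exact Or.inr (by rwa [wv_algEquiv])

lemma finrank_tower_eq :
    Module.finrank ℚ_[q] F' = Module.finrank ℚ_[q] F * Module.finrank F F' :=
  (Module.finrank_mul_finrank ℚ_[q] F F').symm

lemma qEl_tower : algebraMap F F' (qEl q F) = qEl q F' := by
  unfold qEl
  rw [← IsScalarTower.algebraMap_apply]

end tower

end Fermat.Agent.PT.L


end ZBPT_004_4

/-! ### bundled: `Fermat.Agent.PT.L.ValRing` -/
section ZBPT_004_5
/-
PT-L, shared tools (helper48): the valuation ring `UE.OV q hA X = {w ≥ 0}` of a local field as a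
Mathlib `ValuationSubring` (so: local ring, integrally closed, fraction ring, residue field),
the ideals `UE.lvl q hA k = {w ≥ k}`, and HENSEL'S LEMMA `UE.hensel` (Newton iteration +
`StmtWComplete`): a simple root mod the maximal ideal lifts to a root.
Hypotheses: only `StmtWAdd` (and `StmtWComplete` for `hensel`).
-/

set_option autoImplicit false

open Polynomial

namespace Fermat.Agent.PT.L

namespace UE

/-! ### Elementary properties of `wv` -/

section Basic

set_option linter.unusedSectionVars false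

variable (q : ℕ) [Fact q.Prime] {X : Type} [Field X] [Algebra ℚ_[q] X]
  [FiniteDimensional ℚ_[q] X]

theorem norm_ne_zero {x : X} (hx : x ≠ 0) : Algebra.norm ℚ_[q] x ≠ 0 :=
  Algebra.norm_ne_zero_iff.2 hx

theorem wv_mul {x y : X} (hx : x ≠ 0) (hy : y ≠ 0) : wv q (x * y) = wv q x + wv q y := by
  unfold wv
  rw [map_mul, Padic.valuation_mul (norm_ne_zero q hx) (norm_ne_zero q hy)]

theorem wv_one : wv q (1 : X) = 0 := by
  unfold wv
  rw [map_one, Padic.valuation_one]

theorem wv_inv {x : X} (hx : x ≠ 0) : wv q x⁻¹ = - wv q x := by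
  have h := wv_mul q hx (inv_ne_zero hx)
  rw [mul_inv_cancel₀ hx, wv_one] at h
  omega

theorem wv_neg_one : wv q (-1 : X) = 0 := by
  have h := wv_mul q (neg_ne_zero.2 (one_ne_zero (α := X))) (neg_ne_zero.2 (one_ne_zero (α := X)))
  rw [neg_mul_neg, one_mul, wv_one] at h
  omega

theorem wv_neg (x : X) : wv q (-x) = wv q x := by
  rcases eq_or_ne x 0 with rfl | hx
  · simp
  · rw [neg_eq_neg_one_mul, wv_mul q (neg_ne_zero.2 one_ne_zero) hx, wv_neg_one, zero_add]

theorem wv_pow {x : X} (hx : x ≠ 0) (n : ℕ) : wv q (x ^ n) = n * wv q x := by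
  induction n with
  | zero => simp [wv_one]
  | succ n ih =>
    rw [pow_succ, wv_mul q (pow_ne_zero n hx) hx, ih]
    push_cast; ring

end Basic

/-! ### The valuation ring -/

section Ring

set_option linter.unusedSectionVars false

variable (q : ℕ) [Fact q.Prime] (hA : StmtWAdd) (X : Type) [Field X] [Algebra ℚ_[q] X]
  [FiniteDimensional ℚ_[q] X]

variable {X} in
include hA in
/-- the elements `x = 0 ∨ k ≤ w x` are closed under addition -/
theorem lvl_add (k : ℤ) {x y : X} (hx : x = 0 ∨ k ≤ wv q x) (hy : y = 0 ∨ k ≤ wv q y) :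
    x + y = 0 ∨ k ≤ wv q (x + y) := by
  rcases eq_or_ne x 0 with rfl | hx0
  · simpa using hy
  rcases eq_or_ne y 0 with rfl | hy0
  · simpa using hx
  rcases eq_or_ne (x + y) 0 with h | h
  · exact Or.inl h
  right
  have hx' := hx.resolve_left hx0
  have hy' := hy.resolve_left hy0
  have := hA q X x y hx0 hy0 h
  exact le_trans (le_min hx' hy') this

variable {X} in
theorem lvl_mul (k l : ℤ) {x y : X} (hx : x = 0 ∨ k ≤ wv q x) (hy : y = 0 ∨ l ≤ wv q y) :
    x * y = 0 ∨ k + l ≤ wv q (x * y) := by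
  rcases eq_or_ne x 0 with rfl | hx0
  · simp
  rcases eq_or_ne y 0 with rfl | hy0
  · simp
  right
  rw [wv_mul q hx0 hy0]
  have hx' := hx.resolve_left hx0
  have hy' := hy.resolve_left hy0
  omega

/-- The valuation ring `{w ≥ 0}` of a local field. -/
def OV : ValuationSubring X where
  carrier := {x | IsInt q x}
  mul_mem' := by
    intro a b ha hb
    have := lvl_mul q 0 0 ha hb
    rw [add_zero] at this
    exact this
  one_mem' := Or.inr (by rw [wv_one])
  add_mem' := by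
    intro a b ha hb
    exact lvl_add q hA 0 ha hb
  zero_mem' := Or.inl rfl
  neg_mem' := by
    intro a ha
    rcases ha with rfl | ha
    · exact Or.inl neg_zero
    · exact Or.inr (by rw [wv_neg]; exact ha)
  mem_or_inv_mem' := by
    intro x
    rcases eq_or_ne x 0 with rfl | hx
    · exact Or.inl (Or.inl rfl)
    · rcases le_or_gt 0 (wv q x) with h | h
      · exact Or.inl (Or.inr h)
      · exact Or.inr (Or.inr (by rw [wv_inv q hx]; omega))

variable {X}

theorem mem_OV {x : X} : x ∈ OV q hA X ↔ x = 0 ∨ 0 ≤ wv q x := Iff.rfl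

theorem isUnit_iff (x : OV q hA X) : IsUnit x ↔ (x : X) ≠ 0 ∧ wv q (x : X) = 0 := by
  constructor
  · rintro ⟨u, rfl⟩
    have h1 : ((u : OV q hA X) : X) * ((u⁻¹ : (OV q hA X)ˣ) : OV q hA X) = 1 := by
      have := congrArg (fun z : OV q hA X => (z : X)) u.mul_inv
      exact this
    have hu0 : ((u : OV q hA X) : X) ≠ 0 := left_ne_zero_of_mul_eq_one h1
    have hv0 : (((u⁻¹ : (OV q hA X)ˣ) : OV q hA X) : X) ≠ 0 := right_ne_zero_of_mul_eq_one h1
    refine ⟨hu0, ?_⟩
    have h2 := wv_mul q hu0 hv0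
    rw [h1, wv_one] at h2
    have h3 := ((u : OV q hA X).2).resolve_left hu0
    have h4 := (((u⁻¹ : (OV q hA X)ˣ) : OV q hA X).2).resolve_left hv0
    omega
  · rintro ⟨h0, h1⟩
    have hinv : (x : X)⁻¹ ∈ OV q hA X := Or.inr (by rw [wv_inv q h0, h1]; simp)
    refine ⟨⟨x, ⟨_, hinv⟩, ?_, ?_⟩, rfl⟩
    · ext; simp [h0]
    · ext; simp [h0]

theorem mem_maximalIdeal_iff (x : OV q hA X) :
    x ∈ IsLocalRing.maximalIdeal (OV q hA X) ↔ (x : X) = 0 ∨ 1 ≤ wv q (x : X) := by
  rw [IsLocalRing.mem_maximalIdeal, mem_nonunits_iff, isUnit_iff]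
  constructor
  · intro h
    by_contra hcon
    rw [not_or] at hcon
    have hx := (x.2).resolve_left hcon.1
    exact h ⟨hcon.1, by omega⟩
  · rintro (h | h) ⟨h0, h1⟩
    · exact h0 h
    · omega

end Ring

/-! ### Hensel's lemma (Newton iteration) -/

section Hensel

set_option linter.unusedSectionVars false

variable (q : ℕ) [Fact q.Prime] (hA : StmtWAdd) {X : Type} [Field X] [Algebra ℚ_[q] X]
  [FiniteDimensional ℚ_[q] X]

/-- the ideal `{w ≥ k}` of the valuation ring -/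
def lvl (k : ℕ) : Ideal (OV q hA X) where
  carrier := {x | (x : X) = 0 ∨ (k : ℤ) ≤ wv q (x : X)}
  add_mem' := by
    intro a b ha hb
    exact lvl_add q hA k ha hb
  zero_mem' := Or.inl rfl
  smul_mem' := by
    intro c x hx
    have := lvl_mul q 0 k c.2 hx
    rw [zero_add] at this
    exact this

theorem mem_lvl {k : ℕ} {x : OV q hA X} :
    x ∈ lvl q hA k ↔ (x : X) = 0 ∨ (k : ℤ) ≤ wv q (x : X) := Iff.rfl

theorem lvl_one : lvl q hA (X := X) 1 = IsLocalRing.maximalIdeal (OV q hA X) := by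
  ext x
  rw [mem_lvl, mem_maximalIdeal_iff]
  simp

theorem lvl_mono {k l : ℕ} (h : k ≤ l) : lvl q hA (X := X) l ≤ lvl q hA k := by
  intro x hx
  rcases hx with hx | hx
  · exact Or.inl hx
  · exact Or.inr (le_trans (by exact_mod_cast h) hx)

theorem lvl_mul_mem {k l : ℕ} {x y : OV q hA X} (hx : x ∈ lvl q hA k) (hy : y ∈ lvl q hA l) :
    x * y ∈ lvl q hA (k + l) := by
  have := lvl_mul q k l hx hy
  rw [mem_lvl]
  push_cast
  exact this

theorem eq_zero_of_forall_lvl {x : OV q hA X} (h : ∀ k, x ∈ lvl q hA k) : x = 0 := by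
  by_contra hx
  have hx' : (x : X) ≠ 0 := fun h0 => hx (Subtype.ext h0)
  have h0 := (x.2).resolve_left hx'
  have := (h ((wv q (x : X)).toNat + 1)).resolve_left hx'
  have h1 : ((wv q (x : X)).toNat : ℤ) = wv q (x : X) := Int.toNat_of_nonneg h0
  push_cast at this
  omega

variable (G : Polynomial (OV q hA X))

/-- one Newton step -/
noncomputable def newtonStep (y : OV q hA X) : OV q hA X :=
  y - G.eval y * Ring.inverse (G.derivative.eval y)

theorem newtonStep_spec {k : ℕ} {y : OV q hA X} (h0 : G.eval y ∈ lvl q hA (k + 1))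
    (h1 : IsUnit (G.derivative.eval y)) :
    newtonStep q hA G y - y ∈ lvl q hA (k + 1) ∧
    G.eval (newtonStep q hA G y) ∈ lvl q hA (k + 2) ∧
    IsUnit (G.derivative.eval (newtonStep q hA G y)) := by
  set h : OV q hA X := -(G.eval y * Ring.inverse (G.derivative.eval y)) with hh
  have hy' : newtonStep q hA G y = y + h := by
    rw [newtonStep, hh]; ring
  have hh1 : h ∈ lvl q hA (k + 1) := by
    rw [hh]
    exact neg_mem ((lvl q hA (k + 1)).mul_mem_right _ h0)
  refine ⟨?_, ?_, ?_⟩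
  · rw [hy']
    simpa using hh1
  · rw [hy']
    obtain ⟨c, hc⟩ := G.binomExpansion y h
    rw [hc]
    have e1 : G.eval y + G.derivative.eval y * h = 0 := by
      rw [hh, mul_neg, ← mul_assoc, mul_comm (G.derivative.eval y), mul_assoc,
        Ring.mul_inverse_cancel _ h1, mul_one, add_neg_cancel]
    rw [e1, zero_add]
    have h2 : h ^ 2 ∈ lvl q hA (k + 1 + (k + 1)) := by
      rw [pow_two]; exact lvl_mul_mem q hA hh1 hh1
    exact (lvl q hA (k + 2)).mul_mem_left _ (lvl_mono q hA (by omega) h2)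
  · rw [hy']
    obtain ⟨z, hz⟩ := G.derivative.evalSubFactor (y + h) y
    have h3 : G.derivative.eval (y + h) = G.derivative.eval y + z * h := by
      rw [← sub_eq_iff_eq_add', hz]; ring
    rw [h3]
    have h4 : z * h ∈ IsLocalRing.maximalIdeal (OV q hA X) := by
      rw [← lvl_one q hA]
      exact (lvl q hA 1).mul_mem_left _ (lvl_mono q hA (by omega) hh1)
    by_contra hcon
    have h5 : G.derivative.eval y + z * h ∈ IsLocalRing.maximalIdeal (OV q hA X) := hcon
    have h6 := (IsLocalRing.maximalIdeal (OV q hA X)).sub_mem h5 h4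
    rw [add_sub_cancel_right] at h6
    exact h6 h1

/-- the Newton sequence -/
noncomputable def newtonSeq (y₀ : OV q hA X) : ℕ → OV q hA X
  | 0 => y₀
  | k + 1 => newtonStep q hA G (newtonSeq y₀ k)

theorem newtonSeq_spec {y₀ : OV q hA X} (h0 : G.eval y₀ ∈ IsLocalRing.maximalIdeal (OV q hA X))
    (h1 : IsUnit (G.derivative.eval y₀)) (k : ℕ) :
    G.eval (newtonSeq q hA G y₀ k) ∈ lvl q hA (k + 1) ∧
    IsUnit (G.derivative.eval (newtonSeq q hA G y₀ k)) ∧
    newtonSeq q hA G y₀ k - y₀ ∈ lvl q hA 1 := by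
  induction k with
  | zero =>
    refine ⟨?_, h1, ?_⟩
    · rw [zero_add, lvl_one]; exact h0
    · simp [newtonSeq]
  | succ k ih =>
    obtain ⟨i1, i2, i3⟩ := ih
    obtain ⟨s1, s2, s3⟩ := newtonStep_spec q hA G i1 i2
    refine ⟨s2, s3, ?_⟩
    have : newtonSeq q hA G y₀ (k + 1) - y₀
        = (newtonStep q hA G (newtonSeq q hA G y₀ k) - newtonSeq q hA G y₀ k)
          + (newtonSeq q hA G y₀ k - y₀) := by
      rw [newtonSeq]; ring
    rw [this]
    exact (lvl q hA 1).add_mem (lvl_mono q hA (by omega) s1) i3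

include hA in
/-- **Hensel's lemma** for the valuation ring of a local field. -/
theorem hensel (hC : StmtWComplete) {y₀ : OV q hA X}
    (h0 : G.eval y₀ ∈ IsLocalRing.maximalIdeal (OV q hA X))
    (h1 : IsUnit (G.derivative.eval y₀)) :
    ∃ y : OV q hA X, G.eval y = 0 ∧ y - y₀ ∈ IsLocalRing.maximalIdeal (OV q hA X) := by
  have spec := newtonSeq_spec q hA G h0 h1
  set s : ℕ → OV q hA X := newtonSeq q hA G y₀ with hs
  have hstep : ∀ k, s (k + 1) - s k ∈ lvl q hA (k + 1) := fun k =>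
    (newtonStep_spec q hA G (spec k).1 (spec k).2.1).1
  have hclose : ∀ k : ℕ, Close q (k : ℤ) ((s (k + 1) : OV q hA X) : X) ((s k : OV q hA X) : X) := by
    intro k
    rcases (lvl_mono q hA (Nat.le_succ k) (hstep k)) with h | h
    · left
      have : ((s (k + 1) : OV q hA X) : X) - (s k : OV q hA X) = 0 := by
        simpa using h
      exact sub_eq_zero.1 this
    · right
      simpa using h
  obtain ⟨y, hy⟩ := hC q X (fun k => ((s k : OV q hA X) : X)) hclose
  have hsub : ∀ k : ℕ, y - (s k : OV q hA X) = 0 ∨ (k : ℤ) ≤ wv q (y - (s k : OV q hA X)) := by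
    intro k
    rcases hy k with h | h
    · left; exact sub_eq_zero.2 h
    · right; exact h
  have hyO : y ∈ OV q hA X := by
    have h1 : y - (s 0 : OV q hA X) ∈ OV q hA X := by
      have := hsub 0
      rw [mem_OV]
      exact_mod_cast this
    have := (OV q hA X).add_mem _ _ h1 (s 0).2
    simpa using this
  set Y : OV q hA X := ⟨y, hyO⟩ with hY
  have hYk : ∀ k, Y - s k ∈ lvl q hA k := by
    intro k
    rw [mem_lvl]
    simpa [hY] using hsub k
  refine ⟨Y, ?_, ?_⟩
  · apply eq_zero_of_forall_lvl q hA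
    intro k
    obtain ⟨z, hz⟩ := G.evalSubFactor Y (s k)
    have : G.eval Y = z * (Y - s k) + G.eval (s k) := by
      rw [← hz]; ring
    rw [this]
    exact (lvl q hA k).add_mem ((lvl q hA k).mul_mem_left _ (hYk k))
      (lvl_mono q hA (Nat.le_succ k) (spec k).1)
  · rw [← lvl_one q hA]
    have : Y - y₀ = (Y - s 1) + (s 1 - y₀) := by ring
    rw [this]
    exact (lvl q hA 1).add_mem (hYk 1) (spec 1).2.2

end Hensel

end UE

end Fermat.Agent.PT.L


end ZBPT_004_5

/-! ### bundled: `Fermat.Agent.PT.L.UnramExists` -/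
section ZBPT_004_6
/-
PT-L, piece L3a (helper48): the unramified extension of every degree `m ≥ 1` of a local field
exists and is cyclic (`StmtUnramExists`), from `StmtWAdd`, `StmtWComplete`, `StmtWFinite`.

Route: `ḡ` irreducible of degree `m` over the residue field, `g` a monic lift, `E = F[X]/(g)`;
`1, θ, …, θ^{m-1}` is a basis "mod `𝔪`" (so `E/F` is unramified); Hensel (`ValRing.lean`)
gives a root `θ₁ ≡ θ^Q`, hence an automorphism of order `m`.
-/

set_option autoImplicit false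

open Polynomial

namespace Fermat.Agent.PT.L

namespace UE

/-! ### Finite fields: an irreducible polynomial of every degree -/

theorem exists_irreducible_natDegree (k : Type) [Field k] [Finite k] {m : ℕ} (hm : 0 < m) :
    ∃ f : k[X], f.Monic ∧ Irreducible f ∧ f.natDegree = m := by
  obtain ⟨p, hp⟩ := CharP.exists k
  have : Fact (Nat.Prime p) := ⟨CharP.char_is_prime k p⟩
  have : NeZero m := ⟨hm.ne'⟩
  obtain ⟨α, hα⟩ := Field.exists_primitive_element_of_finite_bot k (FiniteField.Extension k p m)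
  have hint : IsIntegral k α := Algebra.IsIntegral.isIntegral α
  refine ⟨minpoly k α, minpoly.monic hint, minpoly.irreducible hint, ?_⟩
  rw [← IntermediateField.adjoin.finrank hint, hα, IntermediateField.finrank_top',
    FiniteField.finrank_extension]

/-! ### The residue field is finite; towers -/

section Res

set_option linter.unusedSectionVars false

variable (q : ℕ) [Fact q.Prime] (hA : StmtWAdd) {X : Type} [Field X] [Algebra ℚ_[q] X]
  [FiniteDimensional ℚ_[q] X]

theorem residue_eq_iff (x y : OV q hA X) :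
    IsLocalRing.residue (OV q hA X) x = IsLocalRing.residue (OV q hA X) y ↔
      ((x : X) - y = 0 ∨ 1 ≤ wv q ((x : X) - y)) := by
  rw [← sub_eq_zero, ← map_sub, IsLocalRing.residue_eq_zero_iff, mem_maximalIdeal_iff]
  rfl

include hA in
theorem finite_residueField (hF : StmtWFinite) :
    Finite (IsLocalRing.ResidueField (OV q hA X)) := by
  classical
  obtain ⟨R, hR⟩ := hF q X 1
  let f : {r : X // r ∈ R} → IsLocalRing.ResidueField (OV q hA X) := fun r =>
    if h : (r : X) ∈ OV q hA X then IsLocalRing.residue (OV q hA X) ⟨r, h⟩ else 0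
  refine Finite.of_surjective f ?_
  intro c
  obtain ⟨x, rfl⟩ := IsLocalRing.residue_surjective c
  obtain ⟨r, hrR, hcl⟩ := hR x x.2
  have hsub : (x : X) - r = 0 ∨ ((1 : ℕ) : ℤ) ≤ wv q ((x : X) - r) := by
    rcases hcl with h | h
    · exact Or.inl (sub_eq_zero.2 h)
    · exact Or.inr h
  have hd : (x : X) - r ∈ OV q hA X := by
    rcases hsub with h | h
    · exact Or.inl h
    · exact Or.inr (by push_cast at h; omega)
  have hr : r ∈ OV q hA X := by
    have := sub_mem x.2 hd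
    simpa using this
  refine ⟨⟨r, hrR⟩, ?_⟩
  simp only [f, dif_pos hr]
  rw [residue_eq_iff]
  rcases hsub with h | h
  · left
    have e : ((⟨r, hr⟩ : OV q hA X) : X) - (x : X) = -((x : X) - r) := by simp
    rw [e, h, neg_zero]
  · right
    have e : ((⟨r, hr⟩ : OV q hA X) : X) - (x : X) = -((x : X) - r) := by simp
    rw [e, wv_neg]
    exact_mod_cast h

variable {F E : Type} [Field F] [Field E] [Algebra ℚ_[q] F] [Algebra F E] [Algebra ℚ_[q] E]
  [IsScalarTower ℚ_[q] F E] [FiniteDimensional ℚ_[q] F] [FiniteDimensional F E]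

theorem wv_algebraMap (x : F) : wv q (algebraMap F E x) = Module.finrank F E * wv q x := by
  unfold wv
  rw [← Algebra.norm_norm (S := F), Algebra.norm_algebraMap, map_pow, Padic.valuation_pow]

theorem wv_algEquiv (σ : E ≃ₐ[F] E) (y : E) : wv q (σ y) = wv q y := by
  unfold wv
  exact congrArg _ (Algebra.norm_eq_of_algEquiv (σ.restrictScalars ℚ_[q]) y)

end Res

/-! ### The map on valuation rings and residue fields of an extension -/

section Tower

set_option linter.unusedSectionVars false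

variable (q : ℕ) [Fact q.Prime] (hA : StmtWAdd)
variable {F E : Type} [Field F] [Field E] [Algebra ℚ_[q] F] [Algebra F E] [Algebra ℚ_[q] E]
  [IsScalarTower ℚ_[q] F E] [FiniteDimensional ℚ_[q] F] [FiniteDimensional F E]
  [FiniteDimensional ℚ_[q] E]

theorem algebraMap_mem_OV {x : F} (hx : x ∈ OV q hA F) : algebraMap F E x ∈ OV q hA E := by
  rcases hx with rfl | hx
  · exact Or.inl (map_zero _)
  · right
    rw [wv_algebraMap]
    positivity

/-- `𝒪_F → 𝒪_E` -/
noncomputable def iota : OV q hA F →+* OV q hA E where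
  toFun x := ⟨algebraMap F E x, algebraMap_mem_OV q hA x.2⟩
  map_one' := Subtype.ext (map_one _)
  map_mul' _ _ := Subtype.ext (map_mul _ _ _)
  map_zero' := Subtype.ext (map_zero _)
  map_add' _ _ := Subtype.ext (map_add _ _ _)

@[simp] theorem coe_iota (x : OV q hA F) :
    ((iota q hA (E := E) x : OV q hA E) : E) = algebraMap F E x := rfl

theorem isLocalHom_iota : IsLocalHom (iota q hA (F := F) (E := E)) := by
  constructor
  intro x hx
  rw [isUnit_iff] at hx ⊢
  obtain ⟨h0, h1⟩ := hx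
  rw [coe_iota] at h0 h1
  have hx0 : (x : F) ≠ 0 := fun h => h0 (by rw [h, map_zero])
  refine ⟨hx0, ?_⟩
  rw [wv_algebraMap] at h1
  have hn : (Module.finrank F E : ℤ) ≠ 0 := by
    exact_mod_cast (Module.finrank_pos (R := F) (M := E)).ne'
  rcases mul_eq_zero.1 h1 with h | h
  · exact absurd h hn
  · exact h

/-- `k_F → k_E` -/
noncomputable def phi :
    IsLocalRing.ResidueField (OV q hA F) →+* IsLocalRing.ResidueField (OV q hA E) :=
  haveI := isLocalHom_iota q hA (F := F) (E := E)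
  IsLocalRing.ResidueField.map (iota q hA)

theorem phi_residue (x : OV q hA F) :
    phi q hA (E := E) (IsLocalRing.residue _ x) = IsLocalRing.residue _ (iota q hA x) := by
  have := isLocalHom_iota q hA (F := F) (E := E)
  exact IsLocalRing.ResidueField.map_residue (iota q hA) x

theorem residue_comp_iota :
    (IsLocalRing.residue (OV q hA E)).comp (iota q hA) =
      (phi q hA (E := E)).comp (IsLocalRing.residue (OV q hA F)) := by
  ext x
  exact (phi_residue q hA x).symm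

/-- a root of a monic polynomial over `𝒪_F` is integral -/
theorem root_mem_OV {g₀ : Polynomial (OV q hA F)} (hmon : g₀.Monic) {θ : E}
    (hθ : eval₂ ((algebraMap F E).comp (algebraMap (OV q hA F) F)) θ g₀ = 0) :
    θ ∈ OV q hA E := by
  have hint : IsIntegral (OV q hA E) θ := by
    refine ⟨g₀.map (iota q hA), hmon.map _, ?_⟩
    rw [eval₂_map]
    exact hθ
  obtain ⟨y, hy⟩ := IsIntegrallyClosed.isIntegral_iff.1 hint
  rw [← hy]
  exact y.2

end Tower

/-! ### Evaluation at an integral element, modulo the maximal ideal -/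

section Core

set_option linter.unusedSectionVars false

variable (q : ℕ) [Fact q.Prime] (hA : StmtWAdd)
variable {F E : Type} [Field F] [Field E] [Algebra ℚ_[q] F] [Algebra F E] [Algebra ℚ_[q] E]
  [IsScalarTower ℚ_[q] F E] [FiniteDimensional ℚ_[q] F] [FiniteDimensional F E]
  [FiniteDimensional ℚ_[q] E]

theorem residue_eval₂ (P : Polynomial (OV q hA F)) (t : OV q hA E) :
    IsLocalRing.residue _ (eval₂ (iota q hA) t P) =
      eval₂ (phi q hA) (IsLocalRing.residue _ t) (P.map (IsLocalRing.residue (OV q hA F))) := by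
  rw [hom_eval₂, eval₂_map, residue_comp_iota]

theorem coe_eval₂ (P : Polynomial (OV q hA F)) (t : OV q hA E) :
    ((eval₂ (iota q hA) t P : OV q hA E) : E) =
      eval₂ (algebraMap F E) (t : E) (P.map (algebraMap (OV q hA F) F)) := by
  have := hom_eval₂ P (iota q hA (E := E)) (OV q hA E).subtype t
  rw [eval₂_map]
  exact this

/-- the unit lemma: if `P̄` is prime to `ḡ` and `ḡ(t̄) = 0` then `P(t)` is a unit -/
theorem isUnit_eval₂_of_isCoprime {g₀ P : Polynomial (OV q hA F)} {t : OV q hA E}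
    (ht : eval₂ (phi q hA) (IsLocalRing.residue _ t)
      (g₀.map (IsLocalRing.residue (OV q hA F))) = 0)
    (hc : IsCoprime (P.map (IsLocalRing.residue (OV q hA F)))
      (g₀.map (IsLocalRing.residue (OV q hA F)))) :
    IsUnit (eval₂ (iota q hA) t P) := by
  rw [← IsLocalRing.residue_ne_zero_iff_isUnit, residue_eval₂]
  obtain ⟨a, b, hab⟩ := hc
  have := congrArg (eval₂ (phi q hA (E := E)) (IsLocalRing.residue _ t)) hab
  rw [eval₂_add, eval₂_mul, eval₂_mul, ht, mul_zero, add_zero, eval₂_one] at this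
  exact right_ne_zero_of_mul_eq_one this

/-- `E = F(θ)` with `θ` a root of a monic `g₀` over `𝒪_F` of degree `[E : F]` whose reduction is
irreducible: then `E/F` is unramified. -/
theorem isUnram_of_root {g₀ : Polynomial (OV q hA F)} (hmon : g₀.Monic)
    (hirr : Irreducible (g₀.map (IsLocalRing.residue (OV q hA F)))) {θ : E}
    (hθ : eval₂ (algebraMap F E) θ (g₀.map (algebraMap (OV q hA F) F)) = 0)
    (hspan : ∀ y : E, ∃ P : F[X], eval₂ (algebraMap F E) θ P = y) :
    IsUnram q F E := by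
  classical
  intro y hy
  have hθO : θ ∈ OV q hA E := root_mem_OV q hA hmon (by rw [← eval₂_map]; exact hθ)
  set t : OV q hA E := ⟨θ, hθO⟩ with ht
  set g : F[X] := g₀.map (algebraMap (OV q hA F) F) with hg
  have hgmon : g.Monic := hmon.map _
  have hinj : Function.Injective (algebraMap (OV q hA F) F) := Subtype.coe_injective
  have hgdeg : g.natDegree = g₀.natDegree := natDegree_map_eq_of_injective hinj g₀
  have hbardeg : (g₀.map (IsLocalRing.residue (OV q hA F))).natDegree = g₀.natDegree :=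
    hmon.natDegree_map _
  have hm0 : 0 < g₀.natDegree := by
    rw [← hbardeg]; exact hirr.natDegree_pos
  have hg1 : g ≠ 1 := fun h => by
    rw [h, natDegree_one] at hgdeg; omega
  obtain ⟨P, hP⟩ := hspan y
  set P' : F[X] := P %ₘ g with hP'
  have hP'y : eval₂ (algebraMap F E) θ P' = y := by
    have h1 := modByMonic_add_div P g
    have h2 := congrArg (eval₂ (algebraMap F E) θ) h1
    rw [eval₂_add, eval₂_mul, hθ, zero_mul, add_zero, hP] at h2
    exact h2
  have hP'deg : P'.natDegree < g₀.natDegree := by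
    rw [← hgdeg]; exact natDegree_modByMonic_lt P hgmon hg1
  have hP'0 : P' ≠ 0 := fun h => hy (by rw [← hP'y, h, eval₂_zero])
  obtain ⟨i₀, hi₀, hmin⟩ := Finset.exists_min_image P'.support (fun i => wv q (P'.coeff i))
    (nonempty_support_iff.2 hP'0)
  set c : F := P'.coeff i₀ with hc
  have hc0 : c ≠ 0 := mem_support_iff.1 hi₀
  set P₁ : F[X] := C c⁻¹ * P' with hP₁
  have hcoef : ∀ n, P₁.coeff n ∈ OV q hA F := by
    intro n
    rw [hP₁, coeff_C_mul]
    rcases eq_or_ne (P'.coeff n) 0 with h | h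
    · rw [h, mul_zero]; exact Or.inl rfl
    · right
      rw [wv_mul q (inv_ne_zero hc0) h, wv_inv q hc0]
      have := hmin n (mem_support_iff.2 h)
      omega
  have hlift : P₁ ∈ lifts (algebraMap (OV q hA F) F) := by
    rw [lifts_iff_coeff_lifts]
    intro n
    exact ⟨⟨P₁.coeff n, hcoef n⟩, rfl⟩
  obtain ⟨B, hB⟩ := (mem_lifts _).1 hlift
  have hBcoeff : ∀ n, ((B.coeff n : OV q hA F) : F) = P₁.coeff n := by
    intro n
    rw [← hB, coeff_map]; rfl
  have hB1 : B.coeff i₀ = 1 := by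
    apply Subtype.ext
    rw [hBcoeff, hP₁, coeff_C_mul, ← hc, inv_mul_cancel₀ hc0]; rfl
  have hBdeg : B.natDegree < g₀.natDegree := by
    have h1 : B.natDegree = P₁.natDegree := by
      rw [← hB]; exact (natDegree_map_eq_of_injective hinj B).symm
    have h2 : P₁.natDegree ≤ P'.natDegree := by
      rw [hP₁]; exact natDegree_C_mul_le _ _
    omega
  have hBbar0 : B.map (IsLocalRing.residue (OV q hA F)) ≠ 0 := by
    intro h
    have := congrArg (fun p => coeff p i₀) h
    simp only [coeff_map, hB1, map_one, coeff_zero] at this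
    exact one_ne_zero this
  have hndvd : ¬ (g₀.map (IsLocalRing.residue (OV q hA F))) ∣
      B.map (IsLocalRing.residue (OV q hA F)) := by
    intro h
    refine hBbar0 (eq_zero_of_dvd_of_natDegree_lt h ?_)
    rw [hbardeg]
    exact lt_of_le_of_lt (natDegree_map_le) hBdeg
  have hcop : IsCoprime (B.map (IsLocalRing.residue (OV q hA F)))
      (g₀.map (IsLocalRing.residue (OV q hA F))) :=
    ((hirr.coprime_iff_not_dvd).2 hndvd).symm
  have htbar : eval₂ (phi q hA) (IsLocalRing.residue _ t)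
      (g₀.map (IsLocalRing.residue (OV q hA F))) = 0 := by
    rw [← residue_eval₂]
    have : eval₂ (iota q hA) t g₀ = 0 := by
      apply Subtype.ext
      rw [coe_eval₂]
      exact hθ
    rw [this, map_zero]
  have hunit := isUnit_eval₂_of_isCoprime q hA htbar hcop
  rw [isUnit_iff, coe_eval₂, hB] at hunit
  obtain ⟨hne, hw⟩ := hunit
  have hval : eval₂ (algebraMap F E) θ P₁ = algebraMap F E c⁻¹ * y := by
    rw [hP₁, eval₂_mul, eval₂_C, hP'y]
  change eval₂ (algebraMap F E) θ P₁ ≠ 0 at hne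
  change wv q (eval₂ (algebraMap F E) θ P₁) = 0 at hw
  rw [hval] at hw
  have hci : algebraMap F E c⁻¹ ≠ 0 := by
    rw [Ne, map_eq_zero]; exact inv_ne_zero hc0
  have hc' : algebraMap F E c ≠ 0 := by
    rw [Ne, map_eq_zero]; exact hc0
  rw [wv_mul q hci hy, map_inv₀, wv_inv q hc'] at hw
  exact ⟨c, hc0, by omega⟩

/-- Frobenius: `f(x^Q) = f(x)^Q` for `f` over a finite field with `Q` elements -/
theorem eval₂_pow_card {k K : Type} [Field k] [Finite k] [CommRing K] (φ : k →+* K) (x : K)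
    (f : k[X]) : eval₂ φ (x ^ Nat.card k) f = (eval₂ φ x f) ^ Nat.card k := by
  have := Fintype.ofFinite k
  rw [Nat.card_eq_fintype_card, ← eval₂_pow, ← FiniteField.expand_card, expand_eq_comp_X_pow,
    eval₂_comp, eval₂_pow, eval₂_X]

/-- Hensel: a root `t₁ ≡ t^Q` of `g₀`. -/
theorem exists_frob_root (hC : StmtWComplete)
    (hfin : Finite (IsLocalRing.ResidueField (OV q hA F)))
    {g₀ : Polynomial (OV q hA F)}
    (hirr : Irreducible (g₀.map (IsLocalRing.residue (OV q hA F)))) {t : OV q hA E}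
    (ht : eval₂ (iota q hA) t g₀ = 0) :
    ∃ t₁ : OV q hA E, eval₂ (iota q hA) t₁ g₀ = 0 ∧
      IsLocalRing.residue _ t₁ =
        (IsLocalRing.residue _ t) ^ Nat.card (IsLocalRing.ResidueField (OV q hA F)) := by
  set Q := Nat.card (IsLocalRing.ResidueField (OV q hA F)) with hQ
  have htbar : eval₂ (phi q hA) (IsLocalRing.residue _ t)
      (g₀.map (IsLocalRing.residue (OV q hA F))) = 0 := by
    rw [← residue_eval₂, ht, map_zero]
  have hQ0 : Q ≠ 0 := Nat.card_pos.ne'
  have hbar : eval₂ (phi q hA) (IsLocalRing.residue _ (t ^ Q))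
      (g₀.map (IsLocalRing.residue (OV q hA F))) = 0 := by
    rw [map_pow, hQ, eval₂_pow_card, htbar, zero_pow hQ0]
  have h0 : (g₀.map (iota q hA (E := E))).eval (t ^ Q)
      ∈ IsLocalRing.maximalIdeal (OV q hA E) := by
    rw [eval_map, ← IsLocalRing.residue_eq_zero_iff, residue_eval₂]
    exact hbar
  have hsep : (g₀.map (IsLocalRing.residue (OV q hA F))).Separable :=
    PerfectField.separable_of_irreducible hirr
  have h1 : IsUnit ((g₀.map (iota q hA (E := E))).derivative.eval (t ^ Q)) := by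
    rw [derivative_map, eval_map]
    refine isUnit_eval₂_of_isCoprime q hA hbar ?_
    rw [← derivative_map]
    exact hsep.symm
  obtain ⟨y, hy0, hy1⟩ := hensel q hA _ hC h0 h1
  refine ⟨y, ?_, ?_⟩
  · rw [← eval_map]; exact hy0
  · rw [← map_pow, ← sub_eq_zero, ← map_sub, IsLocalRing.residue_eq_zero_iff]
    exact hy1

/-- the automorphism lifting Frobenius has order divisible by the degree -/
theorem exists_aut (hC : StmtWComplete)
    (hfin : Finite (IsLocalRing.ResidueField (OV q hA F)))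
    {g₀ : Polynomial (OV q hA F)} (hmon : g₀.Monic)
    (hirr : Irreducible (g₀.map (IsLocalRing.residue (OV q hA F)))) {θ : E}
    (hθ : eval₂ (algebraMap F E) θ (g₀.map (algebraMap (OV q hA F) F)) = 0)
    (hlift : ∀ θ₁ : E, eval₂ (algebraMap F E) θ₁ (g₀.map (algebraMap (OV q hA F) F)) = 0 →
      ∃ σ : E ≃ₐ[F] E, σ θ = θ₁) :
    ∃ σ : E ≃ₐ[F] E, ∀ i : ℕ, σ ^ i = 1 → g₀.natDegree ∣ i := by
  have hθO : θ ∈ OV q hA E := root_mem_OV q hA hmon (by rw [← eval₂_map]; exact hθ)
  set t : OV q hA E := ⟨θ, hθO⟩ with ht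
  have ht0 : eval₂ (iota q hA) t g₀ = 0 := by
    apply Subtype.ext
    rw [coe_eval₂]
    exact hθ
  set Q := Nat.card (IsLocalRing.ResidueField (OV q hA F)) with hQ
  obtain ⟨t₁, ht₁, hres⟩ := exists_frob_root q hA hC hfin hirr ht0
  have ht₁' : eval₂ (algebraMap F E) (t₁ : E) (g₀.map (algebraMap (OV q hA F) F)) = 0 := by
    rw [← coe_eval₂, ht₁]; rfl
  obtain ⟨σ, hσ⟩ := hlift t₁ ht₁'
  refine ⟨σ, ?_⟩
  have key : ∀ i : ℕ, ∃ s : OV q hA E, (s : E) = (σ ^ i) θ ∧
      IsLocalRing.residue _ s = (IsLocalRing.residue _ t) ^ (Q ^ i) := by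
    intro i
    induction i with
    | zero => exact ⟨t, by simp [ht], by simp⟩
    | succ i ih =>
      obtain ⟨s, hs, hsr⟩ := ih
      have hmem : σ (s : E) ∈ OV q hA E := by
        rcases s.2 with h | h
        · left; rw [h, map_zero]
        · right; rw [wv_algEquiv]; exact h
      refine ⟨⟨σ s, hmem⟩, ?_, ?_⟩
      · rw [pow_succ', AlgEquiv.mul_apply, ← hs]
      · have hu : IsLocalRing.residue _ (t₁ ^ (Q ^ i)) =
            (IsLocalRing.residue _ t) ^ (Q ^ (i + 1)) := by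
          rw [map_pow, hres, ← pow_mul, pow_succ']
        rw [← hu, residue_eq_iff]
        have hd : IsLocalRing.residue _ s = IsLocalRing.residue _ (t ^ (Q ^ i)) := by
          rw [hsr, map_pow]
        rw [residue_eq_iff] at hd
        have e : ((⟨σ s, hmem⟩ : OV q hA E) : E) - ((t₁ ^ (Q ^ i) : OV q hA E) : E)
            = σ ((s : E) - ((t ^ (Q ^ i) : OV q hA E) : E)) := by
          rw [map_sub]
          congr 1
          push_cast
          rw [map_pow, ht, hσ]
        rw [e]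
        rcases hd with h | h
        · left; rw [h, map_zero]
        · right; rw [wv_algEquiv]; exact h
  intro i hi
  obtain ⟨s, hs, hsr⟩ := key i
  rw [hi, AlgEquiv.one_apply] at hs
  have hst : s = t := Subtype.ext hs
  rw [hst] at hsr
  have htbar : eval₂ (phi q hA) (IsLocalRing.residue _ t)
      (g₀.map (IsLocalRing.residue (OV q hA F))) = 0 := by
    rw [← residue_eval₂, ht0, map_zero]
  have hdvd : (g₀.map (IsLocalRing.residue (OV q hA F))) ∣
      (X ^ Q ^ i - X : Polynomial (IsLocalRing.ResidueField (OV q hA F))) := by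
    by_contra hnd
    obtain ⟨a, b, hab⟩ := (hirr.coprime_iff_not_dvd).2 hnd
    have := congrArg (eval₂ (phi q hA (E := E)) (IsLocalRing.residue _ t)) hab
    rw [eval₂_add, eval₂_mul, eval₂_mul, htbar, mul_zero, zero_add, eval₂_sub, eval₂_pow,
      eval₂_X, ← hsr, sub_self, mul_zero, eval₂_one] at this
    exact zero_ne_one this
  have := hirr.natDegree_dvd_of_dvd_X_pow_card_pow_sub_X hdvd
  rwa [hmon.natDegree_map] at this

end Core

/-! ### The theorem -/

theorem stmtUnramExists_of (hA : StmtWAdd) (hC : StmtWComplete) (hF : StmtWFinite) :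
    StmtUnramExists := by
  intro q _ F _ _ _ m hm
  have hfin : Finite (IsLocalRing.ResidueField (OV q hA F)) := finite_residueField q hA hF
  obtain ⟨gbar, hbmon, hbirr, hbdeg⟩ :=
    exists_irreducible_natDegree (IsLocalRing.ResidueField (OV q hA F)) hm
  obtain ⟨g₀, hg₀, hg₀deg, hmon⟩ := lifts_and_natDegree_eq_and_monic
    ((mem_lifts _).2 (map_surjective _ (IsLocalRing.residue_surjective) gbar)) hbmon
  have hirr : Irreducible (g₀.map (IsLocalRing.residue (OV q hA F))) := by rw [hg₀]; exact hbirr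
  have hdeg : g₀.natDegree = m := by rw [hg₀deg, hbdeg]
  have hirr₀ : Irreducible g₀ :=
    Monic.irreducible_of_irreducible_map (IsLocalRing.residue (OV q hA F)) g₀ hmon hirr
  have hgirr : Irreducible (g₀.map (algebraMap (OV q hA F) F)) :=
    (Monic.irreducible_iff_irreducible_map_fraction_map hmon).1 hirr₀
  have hgmon : (g₀.map (algebraMap (OV q hA F) F)).Monic := hmon.map _
  have hinj : Function.Injective (algebraMap (OV q hA F) F) := Subtype.coe_injective
  have hgdeg : (g₀.map (algebraMap (OV q hA F) F)).natDegree = m := by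
    rw [natDegree_map_eq_of_injective hinj, hdeg]
  have : Fact (Irreducible (g₀.map (algebraMap (OV q hA F) F))) := ⟨hgirr⟩
  have hfd : FiniteDimensional F (AdjoinRoot (g₀.map (algebraMap (OV q hA F) F))) :=
    hgmon.finite_adjoinRoot
  have : FiniteDimensional ℚ_[q] (AdjoinRoot (g₀.map (algebraMap (OV q hA F) F))) :=
    FiniteDimensional.trans ℚ_[q] F _
  refine ⟨AdjoinRoot (g₀.map (algebraMap (OV q hA F) F)), inferInstance, inferInstance,
    inferInstance, inferInstance, hfd, ?_⟩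
  have hrank : Module.finrank F (AdjoinRoot (g₀.map (algebraMap (OV q hA F) F))) = m := by
    rw [(AdjoinRoot.powerBasis hgirr.ne_zero).finrank, AdjoinRoot.powerBasis_dim, hgdeg]
  have hθ : eval₂ (algebraMap F (AdjoinRoot (g₀.map (algebraMap (OV q hA F) F))))
      (AdjoinRoot.root _) (g₀.map (algebraMap (OV q hA F) F)) = 0 :=
    AdjoinRoot.eval₂_root _
  have hspan : ∀ y : AdjoinRoot (g₀.map (algebraMap (OV q hA F) F)),
      ∃ P : F[X], eval₂ (algebraMap F _) (AdjoinRoot.root _) P = y := by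
    intro y
    obtain ⟨P, rfl⟩ := AdjoinRoot.mk_surjective y
    exact ⟨P, by rw [← AdjoinRoot.aeval_eq, aeval_def]⟩
  have hlift : ∀ θ₁ : AdjoinRoot (g₀.map (algebraMap (OV q hA F) F)),
      eval₂ (algebraMap F _) θ₁ (g₀.map (algebraMap (OV q hA F) F)) = 0 →
      ∃ σ : AdjoinRoot (g₀.map (algebraMap (OV q hA F) F)) ≃ₐ[F]
        AdjoinRoot (g₀.map (algebraMap (OV q hA F) F)), σ (AdjoinRoot.root _) = θ₁ := by
    intro θ₁ h
    let f := AdjoinRoot.liftAlgHom (g₀.map (algebraMap (OV q hA F) F))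
      (Algebra.ofId F (AdjoinRoot (g₀.map (algebraMap (OV q hA F) F)))) θ₁ h
    refine ⟨AlgEquiv.ofBijective f (AlgHom.bijective f), ?_⟩
    rw [AlgEquiv.coe_ofBijective]
    exact AdjoinRoot.liftAlgHom_root (g₀.map (algebraMap (OV q hA F) F))
      (Algebra.ofId F (AdjoinRoot (g₀.map (algebraMap (OV q hA F) F)))) θ₁ h
  obtain ⟨σ, hσ⟩ := exists_aut q hA hC hfin hmon hirr hθ hlift
  have hcard : Nat.card (AdjoinRoot (g₀.map (algebraMap (OV q hA F) F)) ≃ₐ[F]
      AdjoinRoot (g₀.map (algebraMap (OV q hA F) F))) ≤ m := by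
    rw [← hrank, Nat.card_eq_fintype_card]
    exact AlgEquiv.card_le
  have ho1 : m ∣ orderOf σ := by
    have := hσ (orderOf σ) (pow_orderOf_eq_one σ)
    rwa [hdeg] at this
  have ho2 : orderOf σ ∣ Nat.card (AdjoinRoot (g₀.map (algebraMap (OV q hA F) F)) ≃ₐ[F]
      AdjoinRoot (g₀.map (algebraMap (OV q hA F) F))) := orderOf_dvd_natCard σ
  have ho3 : 0 < orderOf σ := orderOf_pos σ
  have hcpos : 0 < Nat.card (AdjoinRoot (g₀.map (algebraMap (OV q hA F) F)) ≃ₐ[F]
      AdjoinRoot (g₀.map (algebraMap (OV q hA F) F))) := Nat.card_pos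
  have h1 := Nat.le_of_dvd ho3 ho1
  have h2 := Nat.le_of_dvd hcpos ho2
  have hcard' : Nat.card (AdjoinRoot (g₀.map (algebraMap (OV q hA F) F)) ≃ₐ[F]
      AdjoinRoot (g₀.map (algebraMap (OV q hA F) F))) = m := by omega
  have hord : orderOf σ = Nat.card (AdjoinRoot (g₀.map (algebraMap (OV q hA F) F)) ≃ₐ[F]
      AdjoinRoot (g₀.map (algebraMap (OV q hA F) F))) := by omega
  refine ⟨IsGalois.of_card_aut_eq_finrank _ _ (by rw [hcard', hrank]), hrank,
    isCyclic_of_orderOf_eq_card σ hord, ?_⟩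
  exact isUnram_of_root q hA hmon hirr hθ hspan

end UE

end Fermat.Agent.PT.L


end ZBPT_004_6

/-! ### bundled: `Fermat.Agent.PT.L.FiniteQuot` -/
section ZBPT_004_7

/-!
# PT-L, piece L0d: the valuation ring modulo `{w ≥ k}` is finite

`stmtWFinite_of : StmtWInt → StmtWFinite`.

The valuation ring is the integral closure `C` of `ℤ_q` in `F` (`StmtWInt`), a finitely generated
`ℤ_q`-module; `C / q^k C` is finite and `q^k C ⊆ {w ≥ k}`.
-/

set_option autoImplicit false
set_option linter.style.haveILetI false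

open scoped Pointwise

namespace Fermat.Agent.PT.L

/-- `ℤ_q / q^j` is finite. -/
theorem l0d_finite_quot (q : ℕ) [Fact q.Prime] (j : ℕ) :
    Finite (ℤ_[q] ⧸ Ideal.span {(q : ℤ_[q]) ^ j}) := by
  rw [← PadicInt.ker_toZModPow]
  haveI : NeZero (q ^ j) := ⟨pow_ne_zero j (Fact.out : q.Prime).ne_zero⟩
  exact Finite.of_injective _ (RingHom.kerLift_injective (PadicInt.toZModPow (p := q) j))

/-- The value of `w` on `q^k y`. -/
theorem l0d_wv_pow_mul (q : ℕ) [Fact q.Prime] (F : Type) [Field F] [Algebra ℚ_[q] F]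
    [FiniteDimensional ℚ_[q] F] (k : ℕ) (y : F) (hy : y ≠ 0) :
    wv q (algebraMap ℚ_[q] F ((q : ℚ_[q]) ^ k) * y) =
      (k : ℤ) * (Module.finrank ℚ_[q] F : ℤ) + wv q y := by
  have hq0 : (q : ℚ_[q]) ≠ 0 := by
    exact_mod_cast (Fact.out : q.Prime).ne_zero
  have hN : Algebra.norm ℚ_[q] y ≠ 0 := Algebra.norm_ne_zero_iff.mpr hy
  unfold wv
  rw [map_mul, Algebra.norm_algebraMap,
    Padic.valuation_mul (pow_ne_zero _ (pow_ne_zero _ hq0)) hN, Padic.valuation_pow,
    Padic.valuation_pow, Padic.valuation_p]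
  ring

/-- **L0d**. -/
theorem stmtWFinite_of (hInt : StmtWInt) : StmtWFinite := by
  classical
  intro q _ F _ _ _ k
  letI : Algebra ℤ_[q] F :=
    ((algebraMap ℚ_[q] F).comp (PadicInt.Coe.ringHom (p := q))).toAlgebra
  haveI : IsScalarTower ℤ_[q] ℚ_[q] F := IsScalarTower.of_algebraMap_eq (fun x => rfl)
  have hmemC : ∀ x : F, IsInt q x ↔ x ∈ integralClosure ℤ_[q] F := fun x => hInt q F x
  haveI : Module.Finite ℤ_[q] (integralClosure ℤ_[q] F) :=
    IsIntegralClosure.finite ℤ_[q] ℚ_[q] F (integralClosure ℤ_[q] F)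
  set I : Ideal ℤ_[q] := Ideal.span {(q : ℤ_[q]) ^ k} with hI
  set N : Submodule ℤ_[q] (integralClosure ℤ_[q] F) := I • ⊤ with hN
  haveI : Finite (ℤ_[q] ⧸ I) := l0d_finite_quot q k
  haveI : Module.Finite (ℤ_[q] ⧸ I) ((integralClosure ℤ_[q] F) ⧸ N) := inferInstance
  haveI : Finite ((integralClosure ℤ_[q] F) ⧸ N) := Module.finite_of_finite (ℤ_[q] ⧸ I)
  letI : Fintype ((integralClosure ℤ_[q] F) ⧸ N) := Fintype.ofFinite _
  have hsec : ∀ z : (integralClosure ℤ_[q] F) ⧸ N,
      ∃ c : integralClosure ℤ_[q] F, Submodule.Quotient.mk c = z :=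
    fun z => Submodule.Quotient.mk_surjective N z
  choose rep hrep using hsec
  refine ⟨Finset.univ.image (fun z => ((rep z : integralClosure ℤ_[q] F) : F)), fun x hx => ?_⟩
  have hxC : x ∈ integralClosure ℤ_[q] F := (hmemC x).mp hx
  set c : integralClosure ℤ_[q] F := ⟨x, hxC⟩ with hc
  refine ⟨((rep (Submodule.Quotient.mk c) : integralClosure ℤ_[q] F) : F),
    Finset.mem_image.mpr ⟨_, Finset.mem_univ _, rfl⟩, ?_⟩
  have hmem : c - rep (Submodule.Quotient.mk c) ∈ N := by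
    rw [← Submodule.Quotient.eq]
    exact (hrep _).symm
  have hN' : N = ((q : ℤ_[q]) ^ k) • (⊤ : Submodule ℤ_[q] (integralClosure ℤ_[q] F)) := by
    rw [hN, hI, Submodule.ideal_span_singleton_smul]
  set d : integralClosure ℤ_[q] F := c - rep (Submodule.Quotient.mk c) with hd
  have hmem' : d ∈ ((q : ℤ_[q]) ^ k) • (⊤ : Submodule ℤ_[q] (integralClosure ℤ_[q] F)) :=
    hN' ▸ hmem
  obtain ⟨y, -, hy⟩ := (Submodule.mem_smul_pointwise_iff_exists _ _ _).mp hmem'
  have hyF : x - ((rep (Submodule.Quotient.mk c) : integralClosure ℤ_[q] F) : F) =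
      algebraMap ℚ_[q] F ((q : ℚ_[q]) ^ k) * (y : F) := by
    have h1 : ((((q : ℤ_[q]) ^ k • y : integralClosure ℤ_[q] F)) : F) =
        x - ((rep (Submodule.Quotient.mk c) : integralClosure ℤ_[q] F) : F) :=
      congrArg (fun z : integralClosure ℤ_[q] F => (z : F)) hy
    rw [← h1]
    show (((q : ℤ_[q]) ^ k • y : integralClosure ℤ_[q] F) : F) = _
    rw [Subalgebra.coe_smul, Algebra.smul_def]
    congr 1
  by_cases hy0 : (y : F) = 0
  · left
    rw [hy0, mul_zero, sub_eq_zero] at hyF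
    exact hyF
  · right
    rw [hyF, l0d_wv_pow_mul q F k (y : F) hy0]
    have hyInt : IsInt q (y : F) := (hmemC (y : F)).mpr y.2
    have hwy : 0 ≤ wv q (y : F) := by
      rcases hyInt with h | h
      · exact absurd h hy0
      · exact h
    have hn : (1 : ℤ) ≤ (Module.finrank ℚ_[q] F : ℤ) := by
      exact_mod_cast Module.finrank_pos
    nlinarith [Nat.cast_nonneg (α := ℤ) k]

end Fermat.Agent.PT.L


end ZBPT_004_7

/-! ### bundled: `Fermat.Agent.PT.L.FiniteQuotFinal` -/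
section ZBPT_004_8

/-!
# PT-L, piece L0d (unconditional): `stmtWFinite : StmtWFinite`
-/

set_option autoImplicit false

namespace Fermat.Agent.PT.L

/-- **L0d**: the valuation ring modulo `{w ≥ k}` is finite. -/
theorem stmtWFinite : StmtWFinite := stmtWFinite_of stmtWInt

end Fermat.Agent.PT.L


end ZBPT_004_8

/-! ### bundled: `Fermat.Agent.PT.L.Res` -/
section ZBPT_004_9
/-
PT-L piece U1 (helper65): `stmtRes : StmtRes` — the residue-field quotient of the Galois group
of a finite Galois extension `L/K` of local fields.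

Route: the valuation rings `A = UE.OV K`, `B = UE.OV L` (ValRing.lean) are local principal ideal
domains, `B` is the integral closure of `A` in `L`; Mathlib's
`Ideal.Quotient.stabilizerHom_surjective` gives `Gal(L/K) ↠ Aut(k_L/k_K)` (cyclic: finite
fields), the kernel is the inertia group, and the fundamental identity `e · f = n`
(`Ideal.ramificationIdx_mul_inertiaDeg_of_isLocalRing`) gives `f · a_K = a_L`.
-/

set_option autoImplicit false
set_option linter.unusedSectionVars false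
set_option linter.deprecated false
set_option linter.style.haveILetI false

open scoped Pointwise

namespace Fermat.Agent.PT.L
namespace LU

/-! ### Abstract part (Mathlib only) -/

/-- abstract local Galois theory: reduction onto the (cyclic) Galois group of the residue
fields, with kernel the inertia elements, and `|C| · e = n`. -/
theorem lu_abstract (A K L B : Type) [CommRing A] [CommRing B] [Field K] [Field L]
    [Algebra A K] [Algebra B L] [IsFractionRing A K] [IsFractionRing B L]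
    [Algebra A B] [Algebra K L] [Algebra A L] [IsScalarTower A K L] [IsScalarTower A B L]
    [IsDedekindDomain A] [IsDedekindDomain B] [IsLocalRing A] [IsLocalRing B]
    [IsIntegralClosure B A L] [FiniteDimensional K L] [IsGalois K L]
    [Finite (B ⧸ IsLocalRing.maximalIdeal B)] (hA : IsLocalRing.maximalIdeal A ≠ ⊥) :
    ∃ (C : Type) (_ : Group C) (_ : IsCyclic C) (ρ : Gal(L/K) →* C), Function.Surjective ρ ∧
      (∀ σ : Gal(L/K), ρ σ = 1 ↔ ∀ b : B, ∃ c ∈ IsLocalRing.maximalIdeal B,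
          σ (algebraMap B L b) - algebraMap B L b = algebraMap B L c) ∧
      Nat.card C * Ideal.ramificationIdx' (IsLocalRing.maximalIdeal A)
          (IsLocalRing.maximalIdeal B) = Module.finrank K L := by
  classical
  let _ : MulSemiringAction Gal(L/K) B := IsIntegralClosure.MulSemiringAction A K L B
  have : Algebra.IsInvariant A B Gal(L/K) := Algebra.isInvariant_of_isGalois A K L B
  have hsm : ∀ (g : Gal(L/K)) (b : B), algebraMap B L (g • b) = g (algebraMap B L b) := by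
    intro g b
    exact algebraMap_galRestrict_apply A g b
  have : SMulCommClass Gal(L/K) A B := by
    refine ⟨fun g a b => ?_⟩
    apply FaithfulSMul.algebraMap_injective B L
    rw [hsm, Algebra.smul_def, Algebra.smul_def, map_mul, map_mul, map_mul, hsm]
    congr 1
    rw [← IsScalarTower.algebraMap_apply A B L, IsScalarTower.algebraMap_apply A K L]
    exact g.commutes _
  have : Algebra.IsIntegral A B := IsIntegralClosure.isIntegral_algebra A L
  have : Module.Finite A B := IsIntegralClosure.finite A K L B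
  have : FaithfulSMul A B := FaithfulSMul.of_field_isFractionRing A B K L
  set P := IsLocalRing.maximalIdeal A with hP
  set Q := IsLocalRing.maximalIdeal B with hQ
  have : IsLocalHom (algebraMap A B) := inferInstance
  have : Q.LiesOver P := inferInstance
  have hstab : ∀ g : Gal(L/K), g • Q = Q := by
    intro g
    ext x
    rw [Ideal.mem_pointwise_smul_iff_inv_smul_mem, hQ, IsLocalRing.mem_maximalIdeal,
      IsLocalRing.mem_maximalIdeal, mem_nonunits_iff, mem_nonunits_iff, not_iff_not]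
    exact isUnit_map_iff (MulSemiringAction.toRingEquiv Gal(L/K) B g⁻¹) x
  have hsurj := Ideal.Quotient.stabilizerHom_surjective Gal(L/K) P Q
  let _ : Field (A ⧸ P) := Ideal.Quotient.field P
  let _ : Field (B ⧸ Q) := Ideal.Quotient.field Q
  have : Finite (B ⧸ Q) := inferInstance
  have hcyc : IsCyclic ((B ⧸ Q) ≃ₐ[A ⧸ P] (B ⧸ Q)) := inferInstance
  have hgal : IsGalois (A ⧸ P) (B ⧸ Q) := inferInstance
  let toStab : Gal(L/K) →* MulAction.stabilizer Gal(L/K) Q :=
    { toFun := fun g => ⟨g, hstab g⟩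
      map_one' := rfl
      map_mul' := fun _ _ => rfl }
  refine ⟨(B ⧸ Q) ≃ₐ[A ⧸ P] (B ⧸ Q), inferInstance, hcyc,
    (Ideal.Quotient.stabilizerHom Q P Gal(L/K)).comp toStab, ?_, ?_, ?_⟩
  · intro c
    obtain ⟨g, hg⟩ := hsurj c
    exact ⟨g.1, by rw [← hg]; rfl⟩
  · intro σ
    constructor
    · intro h b
      have h1 := congrArg (fun f => f (Ideal.Quotient.mk Q b)) h
      simp only [MonoidHom.comp_apply] at h1
      have h2 : Ideal.Quotient.mk Q (σ • b) = Ideal.Quotient.mk Q b := h1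
      rw [Ideal.Quotient.eq] at h2
      exact ⟨σ • b - b, h2, by rw [map_sub, hsm]⟩
    · intro h
      ext x
      obtain ⟨b, rfl⟩ := Ideal.Quotient.mk_surjective x
      show Ideal.Quotient.mk Q (σ • b) = Ideal.Quotient.mk Q b
      rw [Ideal.Quotient.eq]
      obtain ⟨c, hc, hcb⟩ := h b
      have : σ • b - b = c := by
        apply FaithfulSMul.algebraMap_injective B L
        rw [map_sub, hsm, hcb]
      rw [this]
      exact hc
  · have h1 := Ideal.ramificationIdx_mul_inertiaDeg_of_isLocalRing (R := A) (S := B) K L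
      (p := P) hA
    rw [Ideal.inertiaDeg'_algebraMap] at h1
    rw [IsGalois.card_aut_eq_finrank, mul_comm]
    exact h1

/-! ### The valuation ring of a local field -/

section One

variable (q : ℕ) [Fact q.Prime] {X : Type} [Field X] [Algebra ℚ_[q] X]
  [FiniteDimensional ℚ_[q] X]

/-- division by an element of smaller valuation stays integral -/
theorem lu_div_mem {x y : X} (hy : y ≠ 0) (h : x = 0 ∨ wv q y ≤ wv q x) :
    x / y ∈ UE.OV q stmtWAdd X := by
  rcases eq_or_ne x 0 with rfl | hx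
  · exact Or.inl (by simp)
  · right
    rw [l0b_wv_div q hx hy]
    have := h.resolve_left hx
    omega

/-- the valuation ring is a principal ideal ring -/
theorem lu_pid : IsPrincipalIdealRing (UE.OV q stmtWAdd X) := by
  classical
  refine ⟨fun I => ?_⟩
  by_cases hI : I = ⊥
  · rw [hI]
    exact bot_isPrincipal
  obtain ⟨x, hxI, hx0⟩ := Submodule.exists_mem_ne_zero_of_ne_bot hI
  let S : Set ℕ := {k | ∃ y ∈ I, y ≠ 0 ∧ (wv q (y : X)).toNat = k}
  have hS : S.Nonempty := ⟨_, x, hxI, hx0, rfl⟩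
  obtain ⟨y, hyI, hy0, hy⟩ := Nat.sInf_mem hS
  have hy0' : (y : X) ≠ 0 := fun h => hy0 (Subtype.ext h)
  refine ⟨⟨y, ?_⟩⟩
  apply le_antisymm
  · intro z hz
    rcases eq_or_ne z 0 with rfl | hz0
    · exact Submodule.zero_mem _
    have hz0' : (z : X) ≠ 0 := fun h => hz0 (Subtype.ext h)
    have h1 : sInf S ≤ (wv q (z : X)).toNat := Nat.sInf_le ⟨z, hz, hz0, rfl⟩
    have hyn : 0 ≤ wv q (y : X) := (y.2).resolve_left hy0'
    have hzn : 0 ≤ wv q (z : X) := (z.2).resolve_left hz0'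
    have h2 : wv q (y : X) ≤ wv q (z : X) := by
      rw [← hy] at h1
      omega
    show z ∈ Ideal.span {y}
    rw [Ideal.mem_span_singleton']
    refine ⟨⟨(z : X) / (y : X), lu_div_mem q hy0' (Or.inr h2)⟩, Subtype.ext ?_⟩
    show (z : X) / (y : X) * (y : X) = z
    field_simp
  · show Ideal.span {y} ≤ I
    exact (Ideal.span_singleton_le_iff_mem I).2 hyI

/-- the maximal ideal is generated by a uniformiser -/
theorem lu_maximalIdeal_eq {π : X} (hπ : IsUnif q π) (hπO : π ∈ UE.OV q stmtWAdd X) :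
    IsLocalRing.maximalIdeal (UE.OV q stmtWAdd X) = Ideal.span {⟨π, hπO⟩} := by
  obtain ⟨hπ0, hπpos, hπdvd⟩ := hπ
  apply le_antisymm
  · intro z hz
    rw [UE.mem_maximalIdeal_iff] at hz
    rw [Ideal.mem_span_singleton']
    have h2 : (z : X) = 0 ∨ wv q π ≤ wv q (z : X) := by
      rcases hz with hz | hz
      · exact Or.inl hz
      · right
        by_cases hz0 : (z : X) = 0
        · rw [hz0] at hz
          simp [wv] at hz
        · exact Int.le_of_dvd (by omega) (hπdvd _ hz0)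
    refine ⟨⟨(z : X) / π, lu_div_mem q hπ0 h2⟩, Subtype.ext ?_⟩
    show (z : X) / π * π = z
    field_simp
  · rw [Ideal.span_singleton_le_iff_mem, UE.mem_maximalIdeal_iff]
    right
    show 1 ≤ wv q π
    omega

/-- membership in the ideal generated by a power of a uniformiser -/
theorem lu_mem_span_pow {π : X} (hπ0 : π ≠ 0) (hπO : π ∈ UE.OV q stmtWAdd X) (k : ℕ)
    (z : UE.OV q stmtWAdd X) :
    z ∈ Ideal.span {(⟨π, hπO⟩ : UE.OV q stmtWAdd X) ^ k} ↔
      ((z : X) = 0 ∨ (k : ℤ) * wv q π ≤ wv q (z : X)) := by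
  rw [Ideal.mem_span_singleton']
  constructor
  · rintro ⟨a, rfl⟩
    rcases eq_or_ne (a : X) 0 with ha | ha
    · left
      show (a : X) * (π ^ k) = 0
      rw [ha, zero_mul]
    · right
      show (k : ℤ) * wv q π ≤ wv q ((a : X) * π ^ k)
      rw [l0b_wv_mul q ha (pow_ne_zero k hπ0), l0b_wv_pow]
      have := (a.2).resolve_left ha
      omega
  · intro h
    have h2 : (z : X) = 0 ∨ wv q (π ^ k) ≤ wv q (z : X) := by
      rw [l0b_wv_pow]
      exact h
    refine ⟨⟨(z : X) / π ^ k, lu_div_mem q (pow_ne_zero k hπ0) h2⟩, Subtype.ext ?_⟩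
    show (z : X) / π ^ k * π ^ k = z
    have := pow_ne_zero k hπ0
    field_simp

end One

/-! ### A pair `K ⊂ L` -/

section Pair

variable (q : ℕ) [Fact q.Prime] (K L : Type) [Field K] [Field L] [Algebra ℚ_[q] K]
  [FiniteDimensional ℚ_[q] K] [Algebra K L] [Algebra ℚ_[q] L] [IsScalarTower ℚ_[q] K L]
  [FiniteDimensional K L] [FiniteDimensional ℚ_[q] L]

/-- `𝒪_K → 𝒪_L` as an algebra -/
@[reducible] noncomputable def lu_algOO : Algebra (UE.OV q stmtWAdd K) (UE.OV q stmtWAdd L) :=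
  (UE.iota q stmtWAdd).toAlgebra

/-- `𝒪_K → L` as an algebra -/
@[reducible] noncomputable def lu_algOL : Algebra (UE.OV q stmtWAdd K) L :=
  ((algebraMap K L).comp (algebraMap (UE.OV q stmtWAdd K) K)).toAlgebra

/-- `ℤ_q → 𝒪_K` -/
noncomputable def lu_zq : ℤ_[q] →+* UE.OV q stmtWAdd K where
  toFun z := ⟨algebraMap ℚ_[q] K (z : ℚ_[q]), by
    have h : IsInt q (algebraMap ℚ_[q] K (z : ℚ_[q])) := by
      rw [stmtWInt q K]
      exact RingHom.isIntegralElem_map _
    exact h⟩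
  map_one' := Subtype.ext (by simp)
  map_mul' _ _ := Subtype.ext (by simp)
  map_zero' := Subtype.ext (by simp)
  map_add' _ _ := Subtype.ext (by simp)

/-- `𝒪_L` is the integral closure of `𝒪_K` in `L` -/
theorem lu_isIntegralClosure :
    letI := lu_algOL q K L
    IsIntegralClosure (UE.OV q stmtWAdd L) (UE.OV q stmtWAdd K) L := by
  letI := lu_algOL q K L
  refine ⟨Subtype.val_injective, ?_⟩
  intro x
  constructor
  · rintro ⟨p, hmon, hp⟩
    exact ⟨⟨x, UE.root_mem_OV q stmtWAdd hmon hp⟩, rfl⟩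
  · rintro ⟨y, rfl⟩
    have hy : IsInt q (y : L) := y.2
    rw [stmtWInt q L] at hy
    obtain ⟨p, hmon, hp⟩ := hy
    refine ⟨p.map (lu_zq q K), hmon.map _, ?_⟩
    rw [Polynomial.eval₂_map]
    have e : (algebraMap (UE.OV q stmtWAdd K) L).comp (lu_zq q K) =
        (algebraMap ℚ_[q] L).comp (PadicInt.Coe.ringHom (p := q)) := by
      ext z
      show algebraMap K L (algebraMap ℚ_[q] K (z : ℚ_[q])) = algebraMap ℚ_[q] L (z : ℚ_[q])
      rw [← IsScalarTower.algebraMap_apply]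
    rw [e]
    exact hp

/-- the ramification index, computed from the values of `wv` at uniformisers -/
theorem lu_ramificationIdx {πK : K} {πL : L} (hK : IsUnif q πK) (hL : IsUnif q πL) (e : ℕ)
    (he : (e : ℤ) * wv q πL = (Module.finrank K L : ℤ) * wv q πK) :
    letI := lu_algOO q K L
    Ideal.ramificationIdx' (IsLocalRing.maximalIdeal (UE.OV q stmtWAdd K))
      (IsLocalRing.maximalIdeal (UE.OV q stmtWAdd L)) = e := by
  letI := lu_algOO q K L
  have hKO : πK ∈ UE.OV q stmtWAdd K := Or.inr hK.2.1.le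
  have hLO : πL ∈ UE.OV q stmtWAdd L := Or.inr hL.2.1.le
  have hw : wv q (algebraMap K L πK) = (Module.finrank K L : ℤ) * wv q πK :=
    wv_algebraMap_tower q πK
  have h0 : algebraMap K L πK ≠ 0 := by
    intro h
    exact hK.1 ((map_eq_zero (algebraMap K L)).1 h)
  have hmap : Ideal.map (algebraMap (UE.OV q stmtWAdd K) (UE.OV q stmtWAdd L))
      (IsLocalRing.maximalIdeal (UE.OV q stmtWAdd K)) =
      Ideal.span {UE.iota q stmtWAdd (⟨πK, hKO⟩ : UE.OV q stmtWAdd K)} := by
    rw [lu_maximalIdeal_eq q hK hKO, Ideal.map_span, Set.image_singleton]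
    rfl
  have hpow : ∀ k : ℕ, IsLocalRing.maximalIdeal (UE.OV q stmtWAdd L) ^ k =
      Ideal.span {(⟨πL, hLO⟩ : UE.OV q stmtWAdd L) ^ k} := by
    intro k
    rw [lu_maximalIdeal_eq q hL hLO, Ideal.span_singleton_pow]
  have hle : ∀ k : ℕ, (Ideal.map (algebraMap (UE.OV q stmtWAdd K) (UE.OV q stmtWAdd L))
      (IsLocalRing.maximalIdeal (UE.OV q stmtWAdd K)) ≤
      IsLocalRing.maximalIdeal (UE.OV q stmtWAdd L) ^ k) ↔
      (k : ℤ) * wv q πL ≤ (Module.finrank K L : ℤ) * wv q πK := by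
    intro k
    rw [hmap, hpow, Ideal.span_singleton_le_iff_mem, lu_mem_span_pow q hL.1 hLO]
    show (algebraMap K L πK = 0 ∨ (k : ℤ) * wv q πL ≤ wv q (algebraMap K L πK)) ↔ _
    rw [hw]
    constructor
    · intro h
      exact h.resolve_left h0
    · intro h
      exact Or.inr h
  apply Ideal.ramificationIdx'_spec
  · rw [hle]
    exact he.le
  · rw [hle]
    push_cast
    have := hL.2.1
    linarith

/-- `StmtRes` for a pair -/
theorem lu_res [IsGalois K L] :
    ∃ (C : Type) (_ : Group C) (_ : IsCyclic C) (ρ : (L ≃ₐ[K] L) →* C),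
      Function.Surjective ρ ∧
      (∀ σ : L ≃ₐ[K] L, ρ σ = 1 ↔ IsInertial q σ) ∧
      ∀ (πK : K) (πL : L), IsUnif q πK → IsUnif q πL →
        (Nat.card C : ℤ) * wv q πK = wv q πL := by
  letI := lu_algOO q K L
  letI := lu_algOL q K L
  haveI : IsScalarTower (UE.OV q stmtWAdd K) K L := IsScalarTower.of_algebraMap_eq (fun _ => rfl)
  haveI : IsScalarTower (UE.OV q stmtWAdd K) (UE.OV q stmtWAdd L) L :=
    IsScalarTower.of_algebraMap_eq (fun _ => rfl)
  haveI : IsPrincipalIdealRing (UE.OV q stmtWAdd K) := lu_pid q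
  haveI : IsPrincipalIdealRing (UE.OV q stmtWAdd L) := lu_pid q
  haveI : IsIntegralClosure (UE.OV q stmtWAdd L) (UE.OV q stmtWAdd K) L :=
    lu_isIntegralClosure q K L
  haveI : Finite (UE.OV q stmtWAdd L ⧸ IsLocalRing.maximalIdeal (UE.OV q stmtWAdd L)) :=
    UE.finite_residueField q stmtWAdd stmtWFinite
  obtain ⟨π₀, hπ₀⟩ := stmtWUnif q K
  have hπ₀O : π₀ ∈ UE.OV q stmtWAdd K := Or.inr hπ₀.2.1.le
  have hA : IsLocalRing.maximalIdeal (UE.OV q stmtWAdd K) ≠ ⊥ := by
    intro h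
    have h1 : (⟨π₀, hπ₀O⟩ : UE.OV q stmtWAdd K) ∈
        IsLocalRing.maximalIdeal (UE.OV q stmtWAdd K) := by
      rw [UE.mem_maximalIdeal_iff]
      right
      show 1 ≤ wv q π₀
      have := hπ₀.2.1
      omega
    rw [h, Ideal.mem_bot] at h1
    exact hπ₀.1 (congrArg Subtype.val h1)
  obtain ⟨C, hG, hC, ρ, hsurj, hker, hcard⟩ :=
    lu_abstract (UE.OV q stmtWAdd K) K L (UE.OV q stmtWAdd L) hA
  refine ⟨C, hG, hC, ρ, hsurj, ?_, ?_⟩
  · intro σ
    rw [hker]
    constructor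
    · intro h x hx
      obtain ⟨c, hc, hcx⟩ := h ⟨x, hx⟩
      rw [UE.mem_maximalIdeal_iff] at hc
      have hcx' : σ x - x = (c : L) := hcx
      rcases hc with hc | hc
      · left
        rw [hc] at hcx'
        exact sub_eq_zero.1 hcx'
      · right
        rw [hcx']
        exact hc
    · intro h b
      have hb : IsInt q (b : L) := b.2
      have hσb : σ (b : L) ∈ UE.OV q stmtWAdd L := by
        rcases hb with hb | hb
        · exact Or.inl (by rw [hb, map_zero])
        · exact Or.inr (by rw [wv_algEquiv]; exact hb)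
      refine ⟨⟨σ (b : L) - (b : L), sub_mem hσb b.2⟩, ?_, rfl⟩
      rw [UE.mem_maximalIdeal_iff]
      rcases h (b : L) hb with h1 | h1
      · exact Or.inl (sub_eq_zero.2 h1)
      · exact Or.inr h1
  · intro πK πL hK hL
    have hw : wv q (algebraMap K L πK) = (Module.finrank K L : ℤ) * wv q πK :=
      wv_algebraMap_tower q πK
    have h0 : algebraMap K L πK ≠ 0 := by
      intro h
      exact hK.1 ((map_eq_zero (algebraMap K L)).1 h)
    obtain ⟨e', he'⟩ := hL.2.2 _ h0
    rw [hw] at he'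
    have hn : (0 : ℤ) < (Module.finrank K L : ℤ) := by
      exact_mod_cast (Module.finrank_pos (R := K) (M := L))
    have hpos : (0 : ℤ) < (Module.finrank K L : ℤ) * wv q πK := mul_pos hn hK.2.1
    have he'pos : 0 < e' := by
      by_contra hcon
      have : wv q πL * e' ≤ 0 := mul_nonpos_of_nonneg_of_nonpos hL.2.1.le (not_lt.1 hcon)
      omega
    obtain ⟨e, rfl⟩ : ∃ e : ℕ, (e : ℤ) = e' := ⟨e'.toNat, Int.toNat_of_nonneg he'pos.le⟩
    have he : (e : ℤ) * wv q πL = (Module.finrank K L : ℤ) * wv q πK := by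
      rw [he']; ring
    have hram := lu_ramificationIdx q K L hK hL e he
    rw [hram] at hcard
    have hcard' : (Nat.card C : ℤ) * (e : ℤ) = (Module.finrank K L : ℤ) := by
      exact_mod_cast hcard
    have h1 : (e : ℤ) * ((Nat.card C : ℤ) * wv q πK) = (e : ℤ) * wv q πL := by
      rw [he, ← hcard']; ring
    exact mul_left_cancel₀ (by exact_mod_cast he'pos.ne') h1

end Pair

end LU

/-- **U1**: the residue-field quotient of the Galois group of a Galois extension of local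
fields. -/
theorem stmtRes : StmtRes := by
  intro q _ K L _ _ _ _ _ _ _ _ _
  haveI : FiniteDimensional ℚ_[q] L := tower_finiteDimensional q K
  exact LU.lu_res q K L

end Fermat.Agent.PT.L


end ZBPT_004_9

/-! ### bundled: `Fermat.Agent.PT.L.Complete` -/
section ZBPT_004_10
/-
PT-L piece L0c (helper75): a local field is complete for its unnormalised valuation `wv`
(`stmtWComplete`).  Route: the spectral norm of Mathlib (`spectralNorm.completeSpace`) and the
bridge `‖N x‖ = spectralNorm x ^ [F : ℚ_q]` of `Val.lean`.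
-/

set_option autoImplicit false

namespace Fermat.Agent.PT.L

section

variable (q : ℕ) [Fact q.Prime] (F : Type) [Field F] [Algebra ℚ_[q] F]
  [FiniteDimensional ℚ_[q] F]

/-- `Close q k x y` in terms of the spectral norm. -/
theorem l0c_close_iff (k : ℤ) (x y : F) :
    Close q k x y ↔
      spectralNorm ℚ_[q] F (x - y) ^ Module.finrank ℚ_[q] F ≤ (q : ℝ) ^ (-k) := by
  have hn : 0 < Module.finrank ℚ_[q] F := Module.finrank_pos
  have h1q : 1 < (q : ℝ) := by exact_mod_cast (Fact.out : q.Prime).one_lt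
  have hq0 : (0 : ℝ) < q := by positivity
  by_cases hxy : x = y
  · subst hxy
    simp only [Close, true_or, sub_self, true_iff]
    rw [spectralNorm_zero, zero_pow hn.ne']
    positivity
  · have hsub : x - y ≠ 0 := sub_ne_zero.mpr hxy
    have hN : Algebra.norm ℚ_[q] (x - y) ≠ 0 := Algebra.norm_ne_zero_iff.mpr hsub
    rw [← l0a_norm_eq_spectralNorm_pow, Padic.norm_eq_zpow_neg_valuation hN,
      zpow_le_zpow_iff_right₀ h1q]
    simp only [Close, hxy, false_or, wv]
    constructor <;> intro h <;> omega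

/-- The spectral norm of a difference is ultrametric. -/
theorem l0c_sub_le (x y z : F) :
    spectralNorm ℚ_[q] F (x - z) ≤
      max (spectralNorm ℚ_[q] F (x - y)) (spectralNorm ℚ_[q] F (y - z)) := by
  have := isNonarchimedean_spectralNorm (K := ℚ_[q]) (L := F) (x - y) (y - z)
  rwa [sub_add_sub_cancel] at this

theorem l0c_complete (s : ℕ → F) (hs : ∀ k : ℕ, Close q (k : ℤ) (s (k + 1)) (s k)) :
    ∃ y : F, ∀ k : ℕ, Close q (k : ℤ) y (s k) := by
  have hn : 0 < Module.finrank ℚ_[q] F := Module.finrank_pos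
  have h1q : 1 < (q : ℝ) := by exact_mod_cast (Fact.out : q.Prime).one_lt
  have hq0 : (0 : ℝ) < q := by positivity
  set n := Module.finrank ℚ_[q] F with hndef
  -- Step 1: `s m ≡ s k` for `m ≥ k`
  have h1 : ∀ k m : ℕ, k ≤ m →
      spectralNorm ℚ_[q] F (s m - s k) ^ n ≤ (q : ℝ) ^ (-(k : ℤ)) := by
    intro k m hkm
    induction m, hkm using Nat.le_induction with
    | base =>
      rw [sub_self, spectralNorm_zero, zero_pow hn.ne']
      positivity
    | succ m hkm ih =>
      have h2 := (l0c_close_iff q F (m : ℤ) (s (m + 1)) (s m)).mp (hs m)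
      have h3 : (q : ℝ) ^ (-(m : ℤ)) ≤ (q : ℝ) ^ (-(k : ℤ)) := by
        rw [zpow_le_zpow_iff_right₀ h1q]
        omega
      have h4 := l0c_sub_le q F (s (m + 1)) (s m) (s k)
      rcases le_max_iff.mp h4 with h | h
      · exact (pow_le_pow_left₀ (spectralNorm_nonneg _) h n).trans (h2.trans h3)
      · exact (pow_le_pow_left₀ (spectralNorm_nonneg _) h n).trans ih
  let _ : NormedField F := spectralNorm.normedField ℚ_[q] F
  have _ : CompleteSpace F := spectralNorm.completeSpace ℚ_[q] F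
  have hdist : ∀ x y : F, dist x y = spectralNorm ℚ_[q] F (x - y) := fun _ _ => rfl
  -- Step 2: the sequence is Cauchy
  have hc : CauchySeq s := by
    rw [Metric.cauchySeq_iff']
    intro ε hε
    have hεn : 0 < ε ^ n := pow_pos hε n
    obtain ⟨N, hN⟩ := exists_pow_lt_of_lt_one hεn (inv_lt_one_of_one_lt₀ h1q)
    refine ⟨N, fun m hm => ?_⟩
    rw [hdist]
    refine lt_of_pow_lt_pow_left₀ n hε.le ?_
    refine (h1 N m hm).trans_lt ?_
    rwa [zpow_neg, zpow_natCast, ← inv_pow]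
  obtain ⟨y, hy⟩ := cauchySeq_tendsto_of_complete hc
  refine ⟨y, fun k => ?_⟩
  rw [l0c_close_iff]
  have hcont : Filter.Tendsto (fun m => dist (s m) (s k) ^ n) Filter.atTop
      (nhds (dist y (s k) ^ n)) :=
    ((hy.dist tendsto_const_nhds).pow n)
  have := le_of_tendsto hcont (Filter.eventually_atTop.mpr ⟨k, fun m hm => by
    rw [hdist]; exact h1 k m hm⟩)
  rwa [hdist] at this

end

/-- L0-complete: sequences with `s (k+1) ≡ s k mod {w ≥ k}` converge. -/
theorem stmtWComplete : StmtWComplete := fun q _ F _ _ _ s hs => l0c_complete q F s hs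

end Fermat.Agent.PT.L


end ZBPT_004_10

/-! ### bundled: `Fermat.Agent.TW.W.PmVal` -/
section ZBPT_004_11

/-!
# TW-W (P_m): the valuation ring of a local field (PT-L sense) as a complete `ϖ`-adic ring

Data for `tww_lift` / `tww_pm_core` on `S = UE.OV p stmtWAdd E`, and the valuation estimate
(VAL) for a ring homomorphism `η : 𝒪_L → 𝒪_E ⧸ lvl k`.
-/

set_option autoImplicit false
set_option linter.unusedSectionVars false
set_option linter.style.haveILetI false

namespace Fermat.Agent.TW.W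

open Fermat.Agent.PT.L

section Val

variable (p : ℕ) [Fact p.Prime] {E : Type} [Field E] [Algebra ℚ_[p] E]
  [FiniteDimensional ℚ_[p] E]

/-- The isosceles property of the valuation. -/
theorem tww_pmv_wv_add_eq {x z : E} (hx : x ≠ 0) (hz : geW p (wv p x + 1) z) :
    x + z ≠ 0 ∧ wv p (x + z) = wv p x := by
  have h1 : geW p (wv p x) (x + z) :=
    geW_add p (Or.inr le_rfl) (geW_mono p (by omega) hz)
  have hnot : ¬ geW p (wv p x + 1) (x + z) := by
    intro h
    have h2 := geW_sub p h hz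
    rw [add_sub_cancel_right] at h2
    rcases h2 with h2 | h2
    · exact hx h2
    · omega
  have hne : x + z ≠ 0 := fun h => hnot (Or.inl h)
  refine ⟨hne, ?_⟩
  have h3 := h1.resolve_left hne
  have h4 : ¬ (wv p x + 1 ≤ wv p (x + z)) := fun h => hnot (Or.inr h)
  omega

/-- The uniformiser as an element of the valuation ring. -/
def twwPmUnif {π : E} (hπ : IsUnif p π) : UE.OV p stmtWAdd E := ⟨π, Or.inr hπ.2.1.le⟩

theorem twwPmUnif_coe {π : E} (hπ : IsUnif p π) : ((twwPmUnif p hπ : UE.OV p stmtWAdd E) : E) = π :=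
  rfl

theorem twwPmUnif_pow_coe {π : E} (hπ : IsUnif p π) (j : ℕ) :
    (((twwPmUnif p hπ) ^ j : UE.OV p stmtWAdd E) : E) = π ^ j := rfl

theorem twwPmUnif_ne_zero {π : E} (hπ : IsUnif p π) : twwPmUnif p hπ ≠ 0 := by
  intro h
  have := congrArg (fun z : UE.OV p stmtWAdd E => (z : E)) h
  exact hπ.1 this

theorem twwPmUnif_mem_nonZeroDivisors {π : E} (hπ : IsUnif p π) :
    twwPmUnif p hπ ∈ nonZeroDivisors (UE.OV p stmtWAdd E) :=
  mem_nonZeroDivisors_of_ne_zero (twwPmUnif_ne_zero p hπ)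

/-- Divisibility by a power of the uniformiser. -/
theorem tww_pmv_pow_dvd_iff {π : E} (hπ : IsUnif p π) (j : ℕ) (x : UE.OV p stmtWAdd E) :
    (twwPmUnif p hπ) ^ j ∣ x ↔ geW p ((j : ℤ) * wv p π) (x : E) := by
  constructor
  · rintro ⟨y, rfl⟩
    rcases eq_or_ne ((twwPmUnif p hπ ^ j * y : UE.OV p stmtWAdd E) : E) 0 with h | h
    · exact Or.inl h
    · right
      have hy0 : (y : E) ≠ 0 := by
        intro hy
        apply h
        change π ^ j * (y : E) = 0
        rw [hy, mul_zero]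
      have hy1 : 0 ≤ wv p (y : E) := (y.2).resolve_left hy0
      change (j : ℤ) * wv p π ≤ wv p (π ^ j * (y : E))
      rw [UE.wv_mul p (pow_ne_zero j hπ.1) hy0, UE.wv_pow p hπ.1]
      omega
  · intro h
    rcases eq_or_ne (x : E) 0 with hx | hx
    · have : x = 0 := Subtype.ext hx
      rw [this]
      exact dvd_zero _
    · have h1 := h.resolve_left hx
      have hy : (x : E) / π ^ j ∈ UE.OV p stmtWAdd E := by
        right
        rw [div_eq_mul_inv, UE.wv_mul p hx (inv_ne_zero (pow_ne_zero j hπ.1)),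
          UE.wv_inv p (pow_ne_zero j hπ.1), UE.wv_pow p hπ.1]
        omega
      refine ⟨⟨_, hy⟩, ?_⟩
      apply Subtype.ext
      change (x : E) = π ^ j * ((x : E) / π ^ j)
      field_simp [hπ.1]

/-- `𝒪_E` is `ϖ`-adically separated. -/
theorem tww_pmv_sep {π : E} (hπ : IsUnif p π) (z : UE.OV p stmtWAdd E)
    (hz : ∀ n, (twwPmUnif p hπ) ^ n ∣ z) : z = 0 := by
  apply UE.eq_zero_of_forall_lvl p stmtWAdd
  intro k
  have h1 := (tww_pmv_pow_dvd_iff p hπ k z).mp (hz k)
  rw [UE.mem_lvl]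
  rcases h1 with h1 | h1
  · exact Or.inl h1
  · right
    have hf : 1 ≤ wv p π := hπ.2.1
    have : (k : ℤ) ≤ (k : ℤ) * wv p π := by nlinarith
    omega

/-- `𝒪_E` is `ϖ`-adically complete. -/
theorem tww_pmv_pre {π : E} (hπ : IsUnif p π) (s : ℕ → UE.OV p stmtWAdd E)
    (hs : ∀ n, (twwPmUnif p hπ) ^ n ∣ s (n + 1) - s n) :
    ∃ L : UE.OV p stmtWAdd E, ∀ n, (twwPmUnif p hπ) ^ n ∣ L - s n := by
  have hf : 1 ≤ wv p π := hπ.2.1
  -- telescoping
  have hmn : ∀ m n, m ≤ n → (twwPmUnif p hπ) ^ m ∣ s n - s m := by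
    intro m n hmn
    induction n, hmn using Nat.le_induction with
    | base => simp
    | succ n hmn ih =>
      have : s (n + 1) - s m = (s (n + 1) - s n) + (s n - s m) := by ring
      rw [this]
      exact dvd_add ((pow_dvd_pow _ hmn).trans (hs n)) ih
  have hclose : ∀ k : ℕ, Close p (k : ℤ) ((s (k + 1) : E)) ((s k : E)) := by
    intro k
    rw [close_iff_geW]
    have h1 := (tww_pmv_pow_dvd_iff p hπ k _).mp (hs k)
    refine geW_mono p ?_ h1
    nlinarith
  obtain ⟨y, hy⟩ := stmtWComplete p E (fun k => (s k : E)) hclose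
  have hy0 : y ∈ UE.OV p stmtWAdd E := by
    have h0 := hy 0
    rw [close_iff_geW] at h0
    have h1 : geW p 0 (s 0 : E) := (s 0).2
    have h2 : geW p 0 (y - (s 0 : E) + (s 0 : E)) := geW_add p h0 h1
    rw [sub_add_cancel] at h2
    exact h2
  refine ⟨⟨y, hy0⟩, fun n => ?_⟩
  obtain ⟨N, hN⟩ : ∃ N : ℕ, (N : ℤ) = (n : ℤ) * wv p π :=
    ⟨((n : ℤ) * wv p π).toNat, Int.toNat_of_nonneg (by positivity)⟩
  have hnN : n ≤ N := by
    have : (n : ℤ) ≤ (N : ℤ) := by rw [hN]; nlinarith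
    exact_mod_cast this
  have h1 : (twwPmUnif p hπ) ^ n ∣ (⟨y, hy0⟩ : UE.OV p stmtWAdd E) - s N := by
    rw [tww_pmv_pow_dvd_iff]
    have := hy N
    rw [close_iff_geW, hN] at this
    exact this
  have h2 := hmn n N hnN
  have : (⟨y, hy0⟩ : UE.OV p stmtWAdd E) - s n = (⟨y, hy0⟩ - s N) + (s N - s n) := by ring
  rw [this]
  exact dvd_add h1 h2

/-- `wv (p) = [E : ℚ_p]` for the natural number `p` in `E`. -/
theorem tww_pmv_wv_p : wv p ((p : ℕ) : E) = Module.finrank ℚ_[p] E := by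
  have h := l0b_wv_q p (F := E)
  rwa [map_natCast] at h

theorem tww_pmv_p_ne_zero : ((p : ℕ) : E) ≠ 0 := by
  have h := l0b_q_ne_zero p (F := E)
  rwa [map_natCast] at h

/-- Factorisation of a nonzero integer by the uniformiser: `x = ϖ^i u`, `u` a unit. -/
theorem tww_pmv_factor {π : E} (hπ : IsUnif p π) (x : UE.OV p stmtWAdd E) (hx : (x : E) ≠ 0) :
    ∃ (i : ℕ) (u : UE.OV p stmtWAdd E), x = (twwPmUnif p hπ) ^ i * u ∧ (u : E) ≠ 0 ∧
      wv p (u : E) = 0 ∧ wv p (x : E) = (i : ℤ) * wv p π := by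
  have hx0 : 0 ≤ wv p (x : E) := (x.2).resolve_left hx
  obtain ⟨c, hc⟩ := hπ.2.2 (x : E) hx
  have hf : 0 < wv p π := hπ.2.1
  have hc0 : 0 ≤ c := by
    by_contra hneg
    have hneg' : c < 0 := not_le.mp hneg
    have : wv p π * c < 0 := mul_neg_of_pos_of_neg hf hneg'
    omega
  obtain ⟨i, rfl⟩ := Int.eq_ofNat_of_zero_le hc0
  have hdvd : (twwPmUnif p hπ) ^ i ∣ x := by
    rw [tww_pmv_pow_dvd_iff]
    right
    rw [hc, mul_comm]
  obtain ⟨u, hu⟩ := hdvd
  have hu0 : (u : E) ≠ 0 := by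
    intro h
    apply hx
    rw [hu]
    change π ^ i * (u : E) = 0
    rw [h, mul_zero]
  refine ⟨i, u, hu, hu0, ?_, by rw [hc, mul_comm]⟩
  have h1 : wv p (x : E) = wv p (π ^ i * (u : E)) := by rw [hu]; rfl
  rw [UE.wv_mul p (pow_ne_zero i hπ.1) hu0, UE.wv_pow p hπ.1, hc] at h1
  linarith [mul_comm (wv p π) (i : ℤ)]

/-- A lift of a unit of `𝒪_E ⧸ lvl k` (`k ≥ 1`) is a unit. -/
theorem tww_pmv_unit_of_mk_isUnit (k : ℕ) (hk : 1 ≤ k) (U : UE.OV p stmtWAdd E)
    (hU : IsUnit (Ideal.Quotient.mk (UE.lvl p stmtWAdd k) U)) :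
    (U : E) ≠ 0 ∧ wv p (U : E) = 0 := by
  obtain ⟨v, hv⟩ := hU.exists_right_inv
  obtain ⟨V, rfl⟩ := Ideal.Quotient.mk_surjective v
  have hv' : Ideal.Quotient.mk (UE.lvl p stmtWAdd k) (U * V) =
      Ideal.Quotient.mk (UE.lvl p stmtWAdd k) (1 : UE.OV p stmtWAdd E) := by
    rw [map_mul, hv, map_one]
  rw [Ideal.Quotient.eq] at hv'
  have h1 : geW p 1 ((U : E) * (V : E) - 1) := by
    have h2 := (UE.mem_lvl p stmtWAdd).mp hv'
    rw [AddSubgroupClass.coe_sub, MulMemClass.coe_mul, OneMemClass.coe_one] at h2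
    exact geW_mono p (by exact_mod_cast hk) h2
  have h3 := wv_one_add p h1
  rw [add_sub_cancel] at h3
  have hU0 : (U : E) ≠ 0 := left_ne_zero_of_mul h3.1
  have hV0 : (V : E) ≠ 0 := right_ne_zero_of_mul h3.1
  refine ⟨hU0, ?_⟩
  have h4 := h3.2
  rw [UE.wv_mul p hU0 hV0] at h4
  have h5 := (U.2).resolve_left hU0
  have h6 := (V.2).resolve_left hV0
  omega

/-- **The `T3` data of `𝒪_E` at level `k`** (`(p - 1) k > p [E : ℚ_p]`): a uniformiser `ϖ`,
`ϖ ^ e = p w`, and `a` with `e < (p - 1) a` such that `{w ≥ k} = (p ϖ^a)`. -/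
theorem tww_pmv_data (k : ℕ) (hk : p * Module.finrank ℚ_[p] E < (p - 1) * k) :
    ∃ (π : E) (hπ : IsUnif p π) (w : UE.OV p stmtWAdd E) (e a : ℕ),
      (twwPmUnif p hπ) ^ e = ((p : ℕ) : UE.OV p stmtWAdd E) * w ∧ e < (p - 1) * a ∧
      (∀ x : UE.OV p stmtWAdd E, x ∈ UE.lvl p stmtWAdd k ↔
        ((p : ℕ) : UE.OV p stmtWAdd E) * (twwPmUnif p hπ) ^ a ∣ x) ∧
      (a : ℤ) * wv p π ≤ k ∧ (e : ℤ) * wv p π = Module.finrank ℚ_[p] E := by
  classical
  obtain ⟨π, hπ⟩ : ∃ π : E, IsUnif p π := stmtWUnif p E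
  have hf : 0 < wv p π := hπ.2.1
  obtain ⟨f, hff⟩ : ∃ f : ℕ, (f : ℤ) = wv p π := ⟨(wv p π).toNat, Int.toNat_of_nonneg hf.le⟩
  have hf1 : 1 ≤ f := by
    have : (0 : ℤ) < (f : ℤ) := by rw [hff]; exact hf
    exact_mod_cast this
  have hn : 0 < Module.finrank ℚ_[p] E := Module.finrank_pos
  have hpE : (((p : ℕ) : UE.OV p stmtWAdd E) : E) = ((p : ℕ) : E) := rfl
  have hpE0 : (((p : ℕ) : UE.OV p stmtWAdd E) : E) ≠ 0 := by
    rw [hpE]; exact tww_pmv_p_ne_zero p
  obtain ⟨e, u', hpu, hu'0, hu'1, hpe⟩ := tww_pmv_factor p hπ ((p : ℕ) : UE.OV p stmtWAdd E) hpE0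
  rw [hpE, tww_pmv_wv_p, ← hff] at hpe
  have hpe' : Module.finrank ℚ_[p] E = e * f := by exact_mod_cast hpe
  have he1 : 1 ≤ e := by
    rcases Nat.eq_zero_or_pos e with h | h
    · rw [h, zero_mul] at hpe'; omega
    · exact h
  obtain ⟨v', hv'⟩ := ((UE.isUnit_iff p stmtWAdd u').mpr ⟨hu'0, hu'1⟩).exists_right_inv
  -- the least `t` with `k ≤ t f`
  have hex : ∃ t : ℕ, k ≤ t * f := ⟨k, by nlinarith⟩
  let t := Nat.find hex
  have ht : k ≤ t * f := Nat.find_spec hex
  have htmin : ∀ i : ℕ, k ≤ i * f → t ≤ i := fun i hi => Nat.find_min' hex hi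
  have hp2 : 2 ≤ p := (Fact.out : p.Prime).two_le
  have hpt : p * e < (p - 1) * t := by
    have h1 : (p - 1) * k ≤ (p - 1) * (t * f) := Nat.mul_le_mul_left _ ht
    have h2 : p * (e * f) < (p - 1) * (t * f) := by rw [← hpe']; omega
    have h3 : (p * e) * f < ((p - 1) * t) * f := by
      calc (p * e) * f = p * (e * f) := by ring
        _ < (p - 1) * (t * f) := h2
        _ = ((p - 1) * t) * f := by ring
    exact lt_of_mul_lt_mul_right h3 (Nat.zero_le f)
  have het : e < t := by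
    by_contra h
    have h1 : t ≤ e := not_lt.mp h
    have h2 : (p - 1) * t ≤ (p - 1) * e := Nat.mul_le_mul_left _ h1
    have h3 : (p - 1) * e ≤ p * e := Nat.mul_le_mul_right _ (by omega)
    omega
  obtain ⟨a, hta⟩ : ∃ a, t = e + a := ⟨t - e, by omega⟩
  have ha1 : 1 ≤ a := by omega
  have hea : e < (p - 1) * a := by
    have h1 : (p - 1) * t = (p - 1) * e + (p - 1) * a := by rw [hta]; ring
    have h2 : p * e = (p - 1) * e + e := by
      obtain ⟨p', rfl⟩ : ∃ p', p = p' + 1 := ⟨p - 1, by omega⟩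
      simp only [Nat.add_sub_cancel]
      ring
    omega
  have hpow : ((p : ℕ) : UE.OV p stmtWAdd E) * (twwPmUnif p hπ) ^ a * v' =
      (twwPmUnif p hπ) ^ t := by
    rw [hpu, hta, pow_add]
    calc twwPmUnif p hπ ^ e * u' * twwPmUnif p hπ ^ a * v'
        = twwPmUnif p hπ ^ e * twwPmUnif p hπ ^ a * (u' * v') := by ring
      _ = twwPmUnif p hπ ^ e * twwPmUnif p hπ ^ a := by rw [hv', mul_one]
  have hpow' : ((p : ℕ) : UE.OV p stmtWAdd E) * (twwPmUnif p hπ) ^ a =
      (twwPmUnif p hπ) ^ t * u' := by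
    rw [hpu, hta, pow_add]; ring
  refine ⟨π, hπ, v', e, a, ?_, hea, ?_, ?_, by rw [← hff]; exact_mod_cast hpe'.symm⟩
  · rw [hpu]
    calc twwPmUnif p hπ ^ e = twwPmUnif p hπ ^ e * (u' * v') := by rw [hv', mul_one]
      _ = twwPmUnif p hπ ^ e * u' * v' := by ring
  · intro x
    have h1 : ((p : ℕ) : UE.OV p stmtWAdd E) * (twwPmUnif p hπ) ^ a ∣ x ↔
        (twwPmUnif p hπ) ^ t ∣ x := by
      constructor
      · rintro ⟨y, rfl⟩
        exact ⟨u' * y, by rw [hpow']; ring⟩
      · rintro ⟨y, rfl⟩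
        exact ⟨v' * y, by rw [← hpow]; ring⟩
    rw [h1, tww_pmv_pow_dvd_iff, UE.mem_lvl, ← hff]
    constructor
    · rintro (h | h)
      · exact Or.inl h
      · rcases eq_or_ne (x : E) 0 with hx0 | hx0
        · exact Or.inl hx0
        right
        obtain ⟨i, -, -, -, -, hxi⟩ := tww_pmv_factor p hπ x hx0
        rw [hxi, ← hff] at h ⊢
        have h2 : k ≤ i * f := by exact_mod_cast h
        have h3 := htmin i h2
        have : t * f ≤ i * f := Nat.mul_le_mul_right _ h3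
        exact_mod_cast this
    · rintro (h | h)
      · exact Or.inl h
      · right
        have : (k : ℤ) ≤ (t : ℤ) * (f : ℤ) := by exact_mod_cast ht
        omega
  · rw [← hff]
    have h1 : ¬ k ≤ (t - 1) * f := by
      intro h
      have := htmin _ h
      omega
    have h2 : a ≤ t - 1 := by omega
    have h3 : a * f ≤ (t - 1) * f := Nat.mul_le_mul_right _ h2
    have h4 : a * f ≤ k := by omega
    exact_mod_cast h4

end Val

section ValMap

variable (p : ℕ) [Fact p.Prime] {L E : Type} [Field L] [Algebra ℚ_[p] L]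
  [FiniteDimensional ℚ_[p] L] [Field E] [Algebra ℚ_[p] E] [FiniteDimensional ℚ_[p] E]

/-- **(VAL)**: a ring homomorphism `η : 𝒪_L → 𝒪_E ⧸ {w ≥ k}` with `k > [E : ℚ_p]` (i.e. modulo
`{v_p ≥ m}`, `m > 1`) reflects the valuations `v_p ≤ k / [E : ℚ_p]`. -/
theorem tww_pmv_val (k : ℕ) (hk : Module.finrank ℚ_[p] E < k)
    (η : UE.OV p stmtWAdd L →+* UE.OV p stmtWAdd E ⧸ UE.lvl p stmtWAdd k)
    (y : UE.OV p stmtWAdd L) (Y : UE.OV p stmtWAdd E)
    (hY : Ideal.Quotient.mk (UE.lvl p stmtWAdd k) Y = η y)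
    (j : ℕ) (hj : j ≤ k) (hYj : geW p (j : ℤ) (Y : E)) :
    (y : L) = 0 ∨
      (j : ℤ) * Module.finrank ℚ_[p] L ≤ wv p (y : L) * Module.finrank ℚ_[p] E := by
  rcases eq_or_ne (y : L) 0 with hy0 | hy0
  · exact Or.inl hy0
  right
  have hk1 : 1 ≤ k := by
    have : 0 < Module.finrank ℚ_[p] E := Module.finrank_pos
    omega
  obtain ⟨π, hπ⟩ : ∃ π : L, IsUnif p π := stmtWUnif p L
  have hf : 0 < wv p π := hπ.2.1
  -- `p = ϖ^e u'`
  have hpL : (((p : ℕ) : UE.OV p stmtWAdd L) : L) = ((p : ℕ) : L) := rfl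
  have hpL0 : (((p : ℕ) : UE.OV p stmtWAdd L) : L) ≠ 0 := by
    rw [hpL]; exact tww_pmv_p_ne_zero p
  obtain ⟨e, u', hpu, hu'0, hu'1, hpe⟩ := tww_pmv_factor p hπ ((p : ℕ) : UE.OV p stmtWAdd L) hpL0
  rw [hpL, tww_pmv_wv_p] at hpe
  -- `y = ϖ^i u`
  obtain ⟨i, u, hyu, hu0, hu1, hyi⟩ := tww_pmv_factor p hπ y hy0
  -- lifts
  obtain ⟨P, hP⟩ := Ideal.Quotient.mk_surjective (η (twwPmUnif p hπ))
  obtain ⟨U', hU'⟩ := Ideal.Quotient.mk_surjective (η u')
  obtain ⟨U, hU⟩ := Ideal.Quotient.mk_surjective (η u)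
  have hunit : ∀ v : UE.OV p stmtWAdd L, (v : L) ≠ 0 → wv p (v : L) = 0 → IsUnit (η v) := by
    intro v hv0 hv1
    exact ((UE.isUnit_iff p stmtWAdd v).mpr ⟨hv0, hv1⟩).map η
  have hU'u := tww_pmv_unit_of_mk_isUnit p k hk1 U' (hU' ▸ hunit u' hu'0 hu'1)
  have hUu := tww_pmv_unit_of_mk_isUnit p k hk1 U (hU ▸ hunit u hu0 hu1)
  -- `P^e U' ≡ p`
  have h1 : P ^ e * U' - ((p : ℕ) : UE.OV p stmtWAdd E) ∈ UE.lvl p stmtWAdd k := by
    rw [← Ideal.Quotient.eq, map_mul, map_pow, hP, hU', ← map_pow, ← map_mul, ← hpu,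
      map_natCast, map_natCast]
  have h1' : geW p (k : ℤ) ((P : E) ^ e * (U' : E) - ((p : ℕ) : E)) := by
    have h2 := (UE.mem_lvl p stmtWAdd).mp h1
    rw [AddSubgroupClass.coe_sub, MulMemClass.coe_mul, SubmonoidClass.coe_pow] at h2
    exact h2
  have h2 : ((p : ℕ) : E) + ((P : E) ^ e * (U' : E) - ((p : ℕ) : E)) ≠ 0 ∧
      wv p (((p : ℕ) : E) + ((P : E) ^ e * (U' : E) - ((p : ℕ) : E))) = wv p ((p : ℕ) : E) := by
    apply tww_pmv_wv_add_eq p (tww_pmv_p_ne_zero p)
    refine geW_mono p ?_ h1'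
    rw [tww_pmv_wv_p]
    exact_mod_cast hk
  rw [add_sub_cancel, tww_pmv_wv_p] at h2
  have hP0 : (P : E) ≠ 0 := by
    intro h
    apply h2.1
    rw [h]
    rcases Nat.eq_zero_or_pos e with he | he
    · exfalso
      subst he
      have hn : 0 < Module.finrank ℚ_[p] L := Module.finrank_pos
      simp at hpe
      omega
    · rw [zero_pow he.ne', zero_mul]
  have h3 : (e : ℤ) * wv p (P : E) = Module.finrank ℚ_[p] E := by
    have := h2.2
    rw [UE.wv_mul p (pow_ne_zero e hP0) hU'u.1, UE.wv_pow p hP0, hU'u.2, add_zero] at this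
    exact this
  -- `P^i U ≡ Y`
  have h4 : P ^ i * U - Y ∈ UE.lvl p stmtWAdd k := by
    rw [← Ideal.Quotient.eq, map_mul, map_pow, hP, hU, ← map_pow, ← map_mul, ← hyu, hY]
  have h4' : geW p (k : ℤ) ((P : E) ^ i * (U : E) - (Y : E)) := by
    have h2 := (UE.mem_lvl p stmtWAdd).mp h4
    rw [AddSubgroupClass.coe_sub, MulMemClass.coe_mul, SubmonoidClass.coe_pow] at h2
    exact h2
  have h5 : geW p (j : ℤ) ((P : E) ^ i * (U : E)) := by
    have := geW_add p (geW_mono p (by exact_mod_cast hj) h4') hYj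
    rwa [sub_add_cancel] at this
  have h6 : (j : ℤ) ≤ (i : ℤ) * wv p (P : E) := by
    have h7 := h5.resolve_left (mul_ne_zero (pow_ne_zero i hP0) hUu.1)
    rw [UE.wv_mul p (pow_ne_zero i hP0) hUu.1, UE.wv_pow p hP0, hUu.2, add_zero] at h7
    exact h7
  -- arithmetic
  rw [hyi, ← h3, hpe]
  have he0 : (0 : ℤ) ≤ (e : ℤ) * wv p π := by positivity
  calc (j : ℤ) * ((e : ℤ) * wv p π) ≤ ((i : ℤ) * wv p (P : E)) * ((e : ℤ) * wv p π) :=
        mul_le_mul_of_nonneg_right h6 he0
    _ = (i : ℤ) * wv p π * ((e : ℤ) * wv p (P : E)) := by ring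

end ValMap

end Fermat.Agent.TW.W


end ZBPT_004_11

/-! ### bundled: `Fermat.Agent.TW.W.PmDict` -/
section ZBPT_004_12

/-!
# TW-W (P_m): dictionary between the PT-L valuation `wv` of a local field `L` and the norm of
`PadicAlgCl p`, along an embedding `jL : L →ₐ[ℚ_[p]] PadicAlgCl p`
-/

set_option autoImplicit false
set_option linter.unusedSectionVars false
set_option linter.style.haveILetI false

namespace Fermat.Agent.TW.W

open Fermat.Agent.PT.L

section Dict

variable (p : ℕ) [Fact p.Prime] {L : Type} [Field L] [Algebra ℚ_[p] L]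
  [FiniteDimensional ℚ_[p] L] (jL : L →ₐ[ℚ_[p]] PadicAlgCl p)

/-- The norm of `PadicAlgCl p` on the image of `L` is the spectral norm of `L`. -/
theorem tww_pmd_norm_eq (x : L) : ‖jL x‖ = spectralNorm ℚ_[p] L x := by
  rw [← PadicAlgCl.spectralNorm_eq]
  unfold spectralNorm
  rw [minpoly.algHom_eq jL jL.injective x]

/-- `‖jL x‖ ^ [L : ℚ_p] = ‖N_{L/ℚ_p} x‖`. -/
theorem tww_pmd_norm_pow (x : L) :
    ‖jL x‖ ^ Module.finrank ℚ_[p] L = ‖Algebra.norm ℚ_[p] x‖ := by
  rw [tww_pmd_norm_eq, l0a_norm_eq_spectralNorm_pow]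

/-- `‖jL x‖ ^ [L : ℚ_p] = p ^ (- wv x)` for `x ≠ 0`. -/
theorem tww_pmd_norm_pow_eq {x : L} (hx : x ≠ 0) :
    ‖jL x‖ ^ Module.finrank ℚ_[p] L = (p : ℝ) ^ (-(wv p x)) := by
  rw [tww_pmd_norm_pow]
  have h0 : Algebra.norm ℚ_[p] x ≠ 0 := Algebra.norm_ne_zero_iff.mpr hx
  rw [Padic.norm_eq_zpow_neg_valuation h0]
  rfl

/-- The valuation ring of `L` is the unit ball. -/
theorem tww_pmd_mem_OV_iff (x : L) : x ∈ UE.OV p stmtWAdd L ↔ ‖jL x‖ ≤ 1 := by
  have hn : Module.finrank ℚ_[p] L ≠ 0 := (Module.finrank_pos).ne'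
  rw [UE.mem_OV]
  rcases eq_or_ne x 0 with rfl | hx
  · simp
  · have h1 : ‖jL x‖ ≤ 1 ↔ ‖jL x‖ ^ Module.finrank ℚ_[p] L ≤ 1 :=
      (pow_le_one_iff_of_nonneg (norm_nonneg _) hn).symm
    rw [h1, tww_pmd_norm_pow]
    constructor
    · intro h
      exact (Padic.norm_le_one_iff_val_nonneg _).mpr (h.resolve_left hx)
    · intro h
      exact Or.inr ((Padic.norm_le_one_iff_val_nonneg _).mp h)

/-- The norm of `p`. -/
theorem tww_pmd_norm_p : ‖((p : ℕ) : PadicAlgCl p)‖ = (p : ℝ)⁻¹ := by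
  have h1 : ((p : ℕ) : PadicAlgCl p) = algebraMap ℚ_[p] (PadicAlgCl p) (p : ℚ_[p]) := by
    rw [map_natCast]
  rw [h1, ← PadicAlgCl.spectralNorm_eq, spectralNorm_extends]
  exact Padic.norm_p

/-- Comparison of norms from a comparison of valuations: if `c ^ e = p ^ a` and
`a [L : ℚ_p] ≤ wv x · e` then `‖jL x‖ ≤ ‖c‖`. -/
theorem tww_pmd_norm_le (x : L) (c : PadicAlgCl p) (e a : ℕ) (he : e ≠ 0)
    (hc : c ^ e = ((p : ℕ) : PadicAlgCl p) ^ a)
    (hx : x = 0 ∨ (a : ℤ) * Module.finrank ℚ_[p] L ≤ wv p x * e) : ‖jL x‖ ≤ ‖c‖ := by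
  rcases eq_or_ne x 0 with rfl | hx0
  · simp
  have hx1 := hx.resolve_left hx0
  have hn : Module.finrank ℚ_[p] L ≠ 0 := (Module.finrank_pos).ne'
  have hne : Module.finrank ℚ_[p] L * e ≠ 0 := mul_ne_zero hn he
  rw [← pow_le_pow_iff_left₀ (norm_nonneg _) (norm_nonneg _) hne]
  have h1 : ‖jL x‖ ^ (Module.finrank ℚ_[p] L * e) = (p : ℝ) ^ (-(wv p x * e)) := by
    rw [pow_mul, tww_pmd_norm_pow_eq p jL hx0, ← zpow_natCast, ← zpow_mul]
    congr 1
    ring
  have h2 : ‖c‖ ^ (Module.finrank ℚ_[p] L * e) =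
      (p : ℝ) ^ (-((a : ℤ) * Module.finrank ℚ_[p] L)) := by
    rw [mul_comm, pow_mul, ← norm_pow, hc, norm_pow, tww_pmd_norm_p, ← pow_mul, inv_pow,
      ← zpow_natCast, ← zpow_neg]
    congr 1
  rw [h1, h2]
  have hp1 : (1 : ℝ) ≤ (p : ℝ) := by exact_mod_cast (Fact.out : p.Prime).one_le
  exact zpow_le_zpow_right₀ hp1 (by omega)

end Dict

end Fermat.Agent.TW.W


end ZBPT_004_12

/-! ### bundled: `Fermat.Agent.TW.W.Eis` -/
section ZBPT_004_13
/-
TW-W, common EISENSTEIN LAYER (helper65), on the PT-L API (`wv`, `IsUnif`, `UE.OV`, `UE.lvl`).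

Setting: `K ⊂ L` local fields (finite over `ℚ_q`), `πK`, `π` uniformisers, TOTALLY RAMIFIED
in the form `wv q π = wv q πK`; `n = [L : K]`.

* `wr_wv_sum_eq`            sharp ultrametric inequality for finite sums
* `wr_aeval_val`            `w(Σ_{i<n} a_i π^i) = min_i w(a_i π^i)`, in particular `≠ 0`
* `wr_natDegree_minpoly`    `deg minpoly_K π = n`
* `wr_exists_poly`, `wr_int_exists_poly`     `L = K[π]`, `𝒪_L = 𝒪_K[π]`
* `wr_coeff_geW`            `w(P(π)) ≥ m n f ⇒ w(coefficients) ≥ m f`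
* EIS-1: `wr_exists_eis` (a monic `g ∈ 𝒪_K[X]` of degree `n` with `g(π) = 0`),
         `wr_isEisensteinAt` (every such `g` is Eisenstein),
         `wr_dvd_of_eval_eq_zero` (it generates the kernel of `X ↦ π`),
         `wr_universal` (universal property of `𝒪_L = 𝒪_K[X]/(g)`), summary `wr_eis1`
* EIS-2: `wr_eis_field`     an Eisenstein polynomial defines a totally ramified extension
                            `E = K[X]/(g)` in which the root is a uniformiser
* EIS-3: `wr_iota_mem_lvl`, `wr_lvl_map`     `𝒪_K/{w ≥ k} ↪ 𝒪_L/{w ≥ n k}`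
-/

set_option autoImplicit false
set_option linter.unusedSectionVars false
set_option linter.style.haveILetI false

open Polynomial

namespace Fermat.Agent.TW.W

open Fermat.Agent.PT.L

section One

variable (q : ℕ) [Fact q.Prime] {X : Type} [Field X] [Algebra ℚ_[q] X]
  [FiniteDimensional ℚ_[q] X]

/-- ultrametric, sharp form: if one term `t i₀` is nonzero and all other terms have strictly
larger valuation (or vanish), then the sum is nonzero and has the valuation of `t i₀`. -/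
theorem wr_wv_sum_eq {ι : Type*} [DecidableEq ι] (s : Finset ι) (t : ι → X) (i₀ : ι)
    (hi₀ : i₀ ∈ s) (h0 : t i₀ ≠ 0)
    (hlt : ∀ j ∈ s, j ≠ i₀ → geW q (wv q (t i₀) + 1) (t j)) :
    ∑ i ∈ s, t i ≠ 0 ∧ wv q (∑ i ∈ s, t i) = wv q (t i₀) := by
  have hsplit : ∑ i ∈ s, t i = t i₀ + ∑ i ∈ s.erase i₀, t i :=
    (Finset.add_sum_erase s t hi₀).symm
  have hrest : geW q (wv q (t i₀) + 1) (∑ i ∈ s.erase i₀, t i) := by
    apply geW_sum
    intro j hj
    exact hlt j (Finset.mem_of_mem_erase hj) (Finset.ne_of_mem_erase hj)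
  have hall : geW q (wv q (t i₀)) (∑ i ∈ s, t i) := by
    apply geW_sum
    intro j hj
    by_cases hji : j = i₀
    · rw [hji]; exact Or.inr le_rfl
    · exact geW_mono q (by omega) (hlt j hj hji)
  have hnot : ¬ geW q (wv q (t i₀) + 1) (∑ i ∈ s, t i) := by
    intro h
    have h2 : geW q (wv q (t i₀) + 1) (t i₀) := by
      have := geW_sub q h hrest
      rwa [hsplit, add_sub_cancel_right] at this
    rcases h2 with h2 | h2
    · exact h0 h2
    · omega
  have hne : ∑ i ∈ s, t i ≠ 0 := fun h => hnot (Or.inl h)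
  refine ⟨hne, ?_⟩
  have h1 := hall.resolve_left hne
  have h2 : ¬ (wv q (t i₀) + 1 ≤ wv q (∑ i ∈ s, t i)) := fun h => hnot (Or.inr h)
  omega

end One

/-! ### A totally ramified pair `K ⊂ L` -/

section Pair

variable (q : ℕ) [Fact q.Prime] {K L : Type} [Field K] [Field L] [Algebra ℚ_[q] K]
  [FiniteDimensional ℚ_[q] K] [Algebra K L] [Algebra ℚ_[q] L] [IsScalarTower ℚ_[q] K L]
  [FiniteDimensional K L] [FiniteDimensional ℚ_[q] L]

/-- the valuation of a monomial `a π^i` -/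
theorem wr_wv_term {a : K} (ha : a ≠ 0) {π : L} (hπ : π ≠ 0) (i : ℕ) :
    wv q (algebraMap K L a * π ^ i) =
      (Module.finrank K L : ℤ) * wv q a + (i : ℤ) * wv q π := by
  have ha' : algebraMap K L a ≠ 0 := by
    rwa [Ne, map_eq_zero]
  rw [l0b_wv_mul q ha' (pow_ne_zero i hπ), wv_algebraMap_tower, l0b_wv_pow]

variable {πK : K} {π : L}

/-- the valuations of the monomials `a π^i`, `i < n`, are pairwise distinct -/
theorem wr_term_ne (hK : IsUnif q πK) (hL : IsUnif q π) (htot : wv q π = wv q πK)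
    {a b : K} (ha : a ≠ 0) (hb : b ≠ 0) {i j : ℕ} (hi : i < Module.finrank K L)
    (hj : j < Module.finrank K L) (hij : i ≠ j) :
    wv q (algebraMap K L a * π ^ i) ≠ wv q (algebraMap K L b * π ^ j) := by
  rw [wr_wv_term q ha hL.1, wr_wv_term q hb hL.1, htot]
  obtain ⟨α, hα⟩ := hK.2.2 a ha
  obtain ⟨β, hβ⟩ := hK.2.2 b hb
  rw [hα, hβ]
  have hf : 0 < wv q πK := hK.2.1
  intro h
  have h2 : wv q πK * ((Module.finrank K L : ℤ) * α + i) =
      wv q πK * ((Module.finrank K L : ℤ) * β + j) := by linarith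
  have h3 := mul_left_cancel₀ hf.ne' h2
  have h4 : (Module.finrank K L : ℤ) * (α - β) = (j : ℤ) - i := by linarith
  have h5 : (Module.finrank K L : ℤ) ∣ (j : ℤ) - i := ⟨_, h4.symm⟩
  have hi' : (i : ℤ) < Module.finrank K L := by exact_mod_cast hi
  have hj' : (j : ℤ) < Module.finrank K L := by exact_mod_cast hj
  have h6 : (j : ℤ) - i = 0 := by
    apply Int.eq_zero_of_abs_lt_dvd h5
    rw [abs_lt]
    constructor <;> omega
  apply hij
  omega

/-- values of polynomials of degree `< n` at a uniformiser: the valuation is the minimum of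
the valuations of the monomials. -/
theorem wr_aeval_val (hK : IsUnif q πK) (hL : IsUnif q π) (htot : wv q π = wv q πK)
    (P : K[X]) (hP : P ≠ 0) (hdeg : P.natDegree < Module.finrank K L) :
    aeval π P ≠ 0 ∧ ∃ i₀ < Module.finrank K L, P.coeff i₀ ≠ 0 ∧
      wv q (aeval π P) = wv q (algebraMap K L (P.coeff i₀) * π ^ i₀) ∧
      ∀ j < Module.finrank K L, P.coeff j ≠ 0 →
        wv q (algebraMap K L (P.coeff i₀) * π ^ i₀) ≤ wv q (algebraMap K L (P.coeff j) * π ^ j) := by
  classical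
  set n := Module.finrank K L with hn
  set t : ℕ → L := fun i => algebraMap K L (P.coeff i) * π ^ i with ht
  have hsum : aeval π P = ∑ i ∈ Finset.range n, t i := by
    rw [aeval_eq_sum_range' hdeg]
    apply Finset.sum_congr rfl
    intro i _
    rw [Algebra.smul_def]
  set s : Finset ℕ := (Finset.range n).filter (fun i => P.coeff i ≠ 0) with hs
  have hsum2 : ∑ i ∈ Finset.range n, t i = ∑ i ∈ s, t i := by
    rw [hs, Finset.sum_filter]
    apply Finset.sum_congr rfl
    intro i _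
    by_cases h : P.coeff i = 0
    · simp [ht, h]
    · simp [h]
  have hsne : s.Nonempty := by
    by_contra hcon
    rw [Finset.not_nonempty_iff_eq_empty] at hcon
    apply hP
    ext i
    rw [coeff_zero]
    by_cases hi : i < n
    · by_contra hc
      have : i ∈ s := by
        rw [hs, Finset.mem_filter, Finset.mem_range]
        exact ⟨hi, hc⟩
      rw [hcon] at this
      exact absurd this (Finset.notMem_empty i)
    · exact coeff_eq_zero_of_natDegree_lt (by omega)
  obtain ⟨i₀, hi₀s, hmin⟩ := Finset.exists_min_image s (fun i => wv q (t i)) hsne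
  have hi₀ : i₀ < n ∧ P.coeff i₀ ≠ 0 := by
    rw [hs, Finset.mem_filter, Finset.mem_range] at hi₀s
    exact hi₀s
  have ht0 : t i₀ ≠ 0 := by
    simp only [ht]
    apply mul_ne_zero
    · rw [Ne, map_eq_zero]; exact hi₀.2
    · exact pow_ne_zero _ hL.1
  have hlt : ∀ j ∈ s, j ≠ i₀ → geW q (wv q (t i₀) + 1) (t j) := by
    intro j hj hji
    right
    have hj' : j < n ∧ P.coeff j ≠ 0 := by
      rw [hs, Finset.mem_filter, Finset.mem_range] at hj
      exact hj
    have h1 := hmin j hj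
    have h2 := wr_term_ne q hK hL htot hj'.2 hi₀.2 hj'.1 hi₀.1 hji
    simp only [ht] at h1 ⊢
    omega
  obtain ⟨hne, hval⟩ := wr_wv_sum_eq q s t i₀ hi₀s ht0 hlt
  rw [hsum, hsum2]
  refine ⟨hne, i₀, hi₀.1, hi₀.2, hval, ?_⟩
  intro j hj hcj
  apply hmin j
  rw [hs, Finset.mem_filter, Finset.mem_range]
  exact ⟨hj, hcj⟩

/-- `1, π, …, π^{n-1}` are linearly independent over `K` -/
theorem wr_aeval_ne_zero (hK : IsUnif q πK) (hL : IsUnif q π) (htot : wv q π = wv q πK)
    (P : K[X]) (hP : P ≠ 0) (hdeg : P.natDegree < Module.finrank K L) : aeval π P ≠ 0 :=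
  (wr_aeval_val q hK hL htot P hP hdeg).1

/-- the minimal polynomial of a uniformiser of a totally ramified extension has degree `n` -/
theorem wr_natDegree_minpoly (hK : IsUnif q πK) (hL : IsUnif q π) (htot : wv q π = wv q πK) :
    (minpoly K π).natDegree = Module.finrank K L := by
  have hint : IsIntegral K π := Algebra.IsIntegral.isIntegral π
  apply le_antisymm (minpoly.natDegree_le π)
  by_contra hcon
  rw [not_le] at hcon
  exact wr_aeval_ne_zero q hK hL htot (minpoly K π) (minpoly.ne_zero hint) hcon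
    (minpoly.aeval K π)

/-- every element of `L` is a polynomial of degree `< n` in `π` -/
theorem wr_exists_poly (hK : IsUnif q πK) (hL : IsUnif q π) (htot : wv q π = wv q πK)
    (x : L) : ∃ P : K[X], P.natDegree < Module.finrank K L ∧ aeval π P = x := by
  have hint : IsIntegral K π := Algebra.IsIntegral.isIntegral π
  have hdeg := wr_natDegree_minpoly q hK hL htot
  have htop : IntermediateField.adjoin K {π} = ⊤ :=
    (Field.primitive_element_iff_minpoly_natDegree_eq K π).2 hdeg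
  have hx : x ∈ Algebra.adjoin K {π} := by
    have h1 : x ∈ (IntermediateField.adjoin K {π}).toSubalgebra := by
      rw [htop]; trivial
    rwa [IntermediateField.adjoin_simple_toSubalgebra_of_isAlgebraic hint.isAlgebraic] at h1
  rw [Algebra.adjoin_singleton_eq_range_aeval] at hx
  obtain ⟨P, rfl⟩ := hx
  have hmon := minpoly.monic hint
  have hne1 : minpoly K π ≠ 1 := by
    intro h
    have := minpoly.aeval K π
    rw [h] at this
    simp at this
  refine ⟨P %ₘ minpoly K π, ?_, ?_⟩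
  · rw [← hdeg]
    exact natDegree_modByMonic_lt P hmon hne1
  · exact aeval_modByMonic_eq_self_of_root (minpoly.aeval K π)

/-- lower bounds for the coefficients: if `P(π)` has valuation `≥ m·n·f` (`deg P < n`) then all
coefficients of `P` have valuation `≥ m·f`. -/
theorem wr_coeff_geW (hK : IsUnif q πK) (hL : IsUnif q π) (htot : wv q π = wv q πK)
    (P : K[X]) (hdeg : P.natDegree < Module.finrank K L) (m : ℤ)
    (hval : geW q (m * (Module.finrank K L * wv q πK)) (aeval π P)) (i : ℕ) :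
    geW q (m * wv q πK) (P.coeff i) := by
  by_cases hc : P.coeff i = 0
  · exact Or.inl hc
  right
  have hP : P ≠ 0 := fun h => hc (by rw [h, coeff_zero])
  have hi : i < Module.finrank K L := by
    by_contra hcon
    exact hc (coeff_eq_zero_of_natDegree_lt (by omega))
  obtain ⟨hne, i₀, hi₀, hc₀, hv, hmin⟩ := wr_aeval_val q hK hL htot P hP hdeg
  have h1 := hval.resolve_left hne
  have h2 := hmin i hi hc
  rw [hv] at h1
  rw [wr_wv_term q hc hL.1, htot] at h2
  rw [wr_wv_term q hc₀ hL.1, htot] at h1 h2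
  obtain ⟨α, hα⟩ := hK.2.2 _ hc
  rw [hα] at h2 ⊢
  have hf : 0 < wv q πK := hK.2.1
  have hi' : (i : ℤ) < Module.finrank K L := by exact_mod_cast hi
  have h3 : m * (Module.finrank K L * wv q πK) ≤
      (Module.finrank K L : ℤ) * (wv q πK * α) + i * wv q πK := le_trans h1 h2
  have h4 : wv q πK * (m * Module.finrank K L) ≤
      wv q πK * ((Module.finrank K L : ℤ) * α + i) := by linarith
  have h5 := le_of_mul_le_mul_left h4 hf
  have h6 : m ≤ α := by
    by_contra hcon
    rw [not_le] at hcon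
    have h7 : α + 1 ≤ m := hcon
    have hn0 : (0 : ℤ) ≤ Module.finrank K L := by positivity
    have h8 : (α + 1) * (Module.finrank K L : ℤ) ≤ m * Module.finrank K L :=
      mul_le_mul_of_nonneg_right h7 hn0
    nlinarith
  rw [mul_comm]
  exact mul_le_mul_of_nonneg_left h6 hf.le

/-! ### Integral version -/

/-- a uniformiser is integral -/
theorem wr_unif_mem {X : Type} [Field X] [Algebra ℚ_[q] X] [FiniteDimensional ℚ_[q] X]
    {ϖ : X} (h : IsUnif q ϖ) : ϖ ∈ UE.OV q stmtWAdd X := Or.inr h.2.1.le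

/-- a polynomial with integral coefficients comes from `𝒪_K[X]` -/
theorem wr_lift_poly (P : K[X]) (h : ∀ i, geW q 0 (P.coeff i)) :
    ∃ P₀ : (UE.OV q stmtWAdd K)[X], P₀.map (algebraMap (UE.OV q stmtWAdd K) K) = P ∧
      P₀.natDegree = P.natDegree := by
  have h1 : P ∈ Polynomial.lifts (algebraMap (UE.OV q stmtWAdd K) K) := by
    rw [Polynomial.lifts_iff_coeff_lifts]
    intro i
    exact ⟨⟨P.coeff i, h i⟩, rfl⟩
  obtain ⟨P₀, hP₀⟩ := (Polynomial.mem_lifts P).1 h1
  refine ⟨P₀, hP₀, ?_⟩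
  rw [← hP₀, natDegree_map_eq_of_injective Subtype.coe_injective]

/-- evaluation at `π` of a polynomial over `𝒪_K`, in `L` -/
theorem wr_coe_eval (hL : IsUnif q π) (P₀ : (UE.OV q stmtWAdd K)[X]) :
    ((eval₂ (UE.iota q stmtWAdd) (⟨π, wr_unif_mem q hL⟩ : UE.OV q stmtWAdd L) P₀ :
      UE.OV q stmtWAdd L) : L) = aeval π (P₀.map (algebraMap (UE.OV q stmtWAdd K) K)) := by
  rw [UE.coe_eval₂, aeval_def]

/-- `𝒪_L = 𝒪_K[π]`: every integral element is a polynomial of degree `< n` in `π` with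
integral coefficients. -/
theorem wr_int_exists_poly (hK : IsUnif q πK) (hL : IsUnif q π) (htot : wv q π = wv q πK)
    (x : UE.OV q stmtWAdd L) :
    ∃ P₀ : (UE.OV q stmtWAdd K)[X], P₀.natDegree < Module.finrank K L ∧
      eval₂ (UE.iota q stmtWAdd) (⟨π, wr_unif_mem q hL⟩ : UE.OV q stmtWAdd L) P₀ = x := by
  obtain ⟨P, hdeg, hP⟩ := wr_exists_poly q hK hL htot (x : L)
  have hint : ∀ i, geW q 0 (P.coeff i) := by
    intro i
    have := wr_coeff_geW q hK hL htot P hdeg 0 (by rw [zero_mul, hP]; exact x.2) i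
    rwa [zero_mul] at this
  obtain ⟨P₀, hP₀, hd⟩ := wr_lift_poly q P hint
  refine ⟨P₀, by rw [hd]; exact hdeg, Subtype.ext ?_⟩
  rw [wr_coe_eval q hL, hP₀, hP]

/-- a polynomial of degree `< n` over `𝒪_K` vanishing at `π` is zero -/
theorem wr_eval_eq_zero (hK : IsUnif q πK) (hL : IsUnif q π) (htot : wv q π = wv q πK)
    (P₀ : (UE.OV q stmtWAdd K)[X]) (hdeg : P₀.natDegree < Module.finrank K L)
    (h0 : eval₂ (UE.iota q stmtWAdd) (⟨π, wr_unif_mem q hL⟩ : UE.OV q stmtWAdd L) P₀ = 0) :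
    P₀ = 0 := by
  by_contra hne
  have hinj : Function.Injective (algebraMap (UE.OV q stmtWAdd K) K) := Subtype.coe_injective
  have hne' : P₀.map (algebraMap (UE.OV q stmtWAdd K) K) ≠ 0 := by
    rwa [Ne, Polynomial.map_eq_zero_iff hinj]
  have hdeg' : (P₀.map (algebraMap (UE.OV q stmtWAdd K) K)).natDegree < Module.finrank K L := by
    rwa [natDegree_map_eq_of_injective hinj]
  apply wr_aeval_ne_zero q hK hL htot _ hne' hdeg'
  rw [← wr_coe_eval q hL, h0]
  rfl

/-- the kernel of `𝒪_K[X] → 𝒪_L`, `X ↦ π`, is generated by any monic polynomial of degree `n`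
vanishing at `π`. -/
theorem wr_dvd_of_eval_eq_zero (hK : IsUnif q πK) (hL : IsUnif q π) (htot : wv q π = wv q πK)
    (g : (UE.OV q stmtWAdd K)[X]) (hmon : g.Monic) (hgdeg : g.natDegree = Module.finrank K L)
    (hg0 : eval₂ (UE.iota q stmtWAdd) (⟨π, wr_unif_mem q hL⟩ : UE.OV q stmtWAdd L) g = 0)
    (P₀ : (UE.OV q stmtWAdd K)[X])
    (h0 : eval₂ (UE.iota q stmtWAdd) (⟨π, wr_unif_mem q hL⟩ : UE.OV q stmtWAdd L) P₀ = 0) :
    g ∣ P₀ := by
  have hn : 0 < Module.finrank K L := Module.finrank_pos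
  have hne1 : g ≠ 1 := by
    intro h
    rw [h, natDegree_one] at hgdeg
    omega
  rw [← Polynomial.modByMonic_eq_zero_iff_dvd hmon]
  apply wr_eval_eq_zero q hK hL htot
  · rw [← hgdeg]
    exact natDegree_modByMonic_lt P₀ hmon hne1
  · have h1 := Polynomial.modByMonic_add_div P₀ g
    have h2 := congrArg (eval₂ (UE.iota q stmtWAdd)
      (⟨π, wr_unif_mem q hL⟩ : UE.OV q stmtWAdd L)) h1
    rw [eval₂_add, eval₂_mul, hg0, zero_mul, add_zero, h0] at h2
    exact h2

/-- EIS-1, universal property: `𝒪_L = 𝒪_K[X]/(g)` for any monic `g` of degree `n` vanishing at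
the uniformiser `π`. -/
theorem wr_universal (hK : IsUnif q πK) (hL : IsUnif q π) (htot : wv q π = wv q πK)
    (g : (UE.OV q stmtWAdd K)[X]) (hmon : g.Monic) (hgdeg : g.natDegree = Module.finrank K L)
    (hg0 : eval₂ (UE.iota q stmtWAdd) (⟨π, wr_unif_mem q hL⟩ : UE.OV q stmtWAdd L) g = 0)
    (R : Type) [CommRing R] (s : UE.OV q stmtWAdd K →+* R) (r : R) (hr : eval₂ s r g = 0) :
    ∃ η : UE.OV q stmtWAdd L →+* R,
      (∀ a : UE.OV q stmtWAdd K, η (UE.iota q stmtWAdd a) = s a) ∧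
      η ⟨π, wr_unif_mem q hL⟩ = r ∧
      ∀ P₀ : (UE.OV q stmtWAdd K)[X],
        η (eval₂ (UE.iota q stmtWAdd) (⟨π, wr_unif_mem q hL⟩ : UE.OV q stmtWAdd L) P₀) =
          eval₂ s r P₀ := by
  set φ : (UE.OV q stmtWAdd K)[X] →+* UE.OV q stmtWAdd L :=
    eval₂RingHom (UE.iota q stmtWAdd) (⟨π, wr_unif_mem q hL⟩ : UE.OV q stmtWAdd L) with hφ
  set ψ : (UE.OV q stmtWAdd K)[X] →+* R := eval₂RingHom s r with hψ
  have hsurj : Function.Surjective φ := by
    intro x
    obtain ⟨P₀, -, hP₀⟩ := wr_int_exists_poly q hK hL htot x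
    exact ⟨P₀, hP₀⟩
  have hker : RingHom.ker φ ≤ RingHom.ker ψ := by
    intro P₀ hP₀
    rw [RingHom.mem_ker] at hP₀ ⊢
    obtain ⟨Q, rfl⟩ := wr_dvd_of_eval_eq_zero q hK hL htot g hmon hgdeg hg0 P₀ hP₀
    rw [map_mul]
    have : ψ g = 0 := hr
    rw [this, zero_mul]
  have hη : ∀ P₀, (RingHom.liftOfSurjective φ hsurj ⟨ψ, hker⟩) (φ P₀) = ψ P₀ := fun P₀ =>
    RingHom.liftOfRightInverse_comp_apply φ _ _ ⟨ψ, hker⟩ P₀
  refine ⟨RingHom.liftOfSurjective φ hsurj ⟨ψ, hker⟩, ?_, ?_, ?_⟩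
  · intro a
    have := hη (C a)
    simpa [hφ, hψ] using this
  · have := hη X
    simpa [hφ, hψ] using this
  · intro P₀
    exact hη P₀

/-! ### Eisenstein polynomials -/

theorem wr_natDegree_X_pow_sub {F : Type} [Field F] (G : F[X]) (hG : G.Monic) (n : ℕ)
    (hn : 0 < n) (hdeg : G.natDegree = n) : (X ^ n - G : F[X]).natDegree < n := by
  by_cases h : (X ^ n - G : F[X]) = 0
  · rw [h, natDegree_zero]; exact hn
  · have h1 : (X ^ n - G : F[X]).degree < (X ^ n : F[X]).degree := by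
      apply degree_sub_lt_left
      · rw [degree_X_pow, degree_eq_natDegree hG.ne_zero, hdeg]
      · exact pow_ne_zero n X_ne_zero
      · rw [hG.leadingCoeff, leadingCoeff_X_pow]
    have h2 := natDegree_lt_natDegree h h1
    rwa [natDegree_X_pow] at h2

/-- a monic polynomial of degree `n` over `K` vanishing at the uniformiser `π` of the totally
ramified extension `L/K` of degree `n` is Eisenstein. -/
theorem wr_eis_of_root (hK : IsUnif q πK) (hL : IsUnif q π) (htot : wv q π = wv q πK)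
    (G : K[X]) (hG : G.Monic) (hdeg : G.natDegree = Module.finrank K L)
    (hroot : aeval π G = 0) :
    (∀ i < Module.finrank K L, geW q (wv q πK) (G.coeff i)) ∧
      G.coeff 0 ≠ 0 ∧ wv q (G.coeff 0) = wv q πK := by
  have hn : 0 < Module.finrank K L := Module.finrank_pos
  have hf : 0 < wv q πK := hK.2.1
  set P : K[X] := X ^ Module.finrank K L - G with hP
  have hPdeg : P.natDegree < Module.finrank K L := wr_natDegree_X_pow_sub G hG _ hn hdeg
  have hPval : aeval π P = π ^ Module.finrank K L := by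
    rw [hP, map_sub, hroot, sub_zero, map_pow, aeval_X]
  have hwv : wv q (π ^ Module.finrank K L) = Module.finrank K L * wv q πK := by
    rw [l0b_wv_pow, htot]
  have hcoeff : ∀ i < Module.finrank K L, P.coeff i = - G.coeff i := by
    intro i hi
    rw [hP, coeff_sub, coeff_X_pow, if_neg hi.ne, zero_sub]
  have h1 : ∀ i, geW q (wv q πK) (P.coeff i) := by
    intro i
    have := wr_coeff_geW q hK hL htot P hPdeg 1
      (by rw [one_mul, hPval]; exact Or.inr hwv.ge) i
    rwa [one_mul] at this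
  have h2 : ∀ i < Module.finrank K L, geW q (wv q πK) (G.coeff i) := by
    intro i hi
    have := geW_neg q (h1 i)
    rwa [hcoeff i hi, neg_neg] at this
  refine ⟨h2, ?_⟩
  by_contra hcon
  -- then all terms of `P(π)` have valuation `> n f`
  have h3 : G.coeff 0 = 0 ∨ 2 * wv q πK ≤ wv q (G.coeff 0) := by
    by_cases h0 : G.coeff 0 = 0
    · exact Or.inl h0
    · right
      have h4 : wv q (G.coeff 0) ≠ wv q πK := fun h => hcon ⟨h0, h⟩
      have h5 := (h2 0 hn).resolve_left h0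
      obtain ⟨α, hα⟩ := hK.2.2 _ h0
      rw [hα] at h4 h5 ⊢
      have h6 : 1 ≤ α := by
        by_contra hc
        rw [not_le] at hc
        have : α ≤ 0 := by omega
        nlinarith
      have h7 : α ≠ 1 := fun h => h4 (by rw [h, mul_one])
      have h8 : 2 ≤ α := by omega
      rw [mul_comm]
      exact mul_le_mul_of_nonneg_left h8 hf.le
  have hterm : ∀ i ∈ Finset.range (Module.finrank K L),
      geW q ((Module.finrank K L : ℤ) * wv q πK + 1) (algebraMap K L (P.coeff i) * π ^ i) := by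
    intro i hi
    rw [Finset.mem_range] at hi
    by_cases hc : P.coeff i = 0
    · left; rw [hc, map_zero, zero_mul]
    right
    rw [wr_wv_term q hc hL.1, htot]
    have hn' : (1 : ℤ) ≤ Module.finrank K L := by exact_mod_cast hn
    rcases Nat.eq_zero_or_pos i with hi0 | hi0
    · subst hi0
      have hc' : G.coeff 0 ≠ 0 := by
        intro h
        apply hc
        rw [hcoeff 0 hn, h, neg_zero]
      have h4 := h3.resolve_left hc'
      rw [hcoeff 0 hn, geW_wv_neg]
      push_cast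
      nlinarith
    · have h4 := (h1 i).resolve_left hc
      have hi1 : (1 : ℤ) ≤ i := by exact_mod_cast hi0
      nlinarith
  have hsum : geW q ((Module.finrank K L : ℤ) * wv q πK + 1) (aeval π P) := by
    rw [aeval_eq_sum_range' hPdeg]
    apply geW_sum
    intro i hi
    rw [Algebra.smul_def]
    exact hterm i hi
  rw [hPval] at hsum
  rcases hsum with h | h
  · exact pow_ne_zero _ hL.1 h
  · rw [hwv] at h
    omega

/-- EIS-1, Eisenstein property of any monic `g ∈ 𝒪_K[X]` of degree `n` vanishing at `π` -/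
theorem wr_isEisensteinAt (hK : IsUnif q πK) (hL : IsUnif q π) (htot : wv q π = wv q πK)
    (g : (UE.OV q stmtWAdd K)[X]) (hmon : g.Monic) (hgdeg : g.natDegree = Module.finrank K L)
    (hg0 : eval₂ (UE.iota q stmtWAdd) (⟨π, wr_unif_mem q hL⟩ : UE.OV q stmtWAdd L) g = 0) :
    g.IsEisensteinAt (IsLocalRing.maximalIdeal (UE.OV q stmtWAdd K)) := by
  have hinj : Function.Injective (algebraMap (UE.OV q stmtWAdd K) K) := Subtype.coe_injective
  have hroot : aeval π (g.map (algebraMap (UE.OV q stmtWAdd K) K)) = 0 := by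
    rw [← wr_coe_eval q hL, hg0]
    rfl
  obtain ⟨h1, h2, h3⟩ := wr_eis_of_root q hK hL htot _ (hmon.map _)
    (by rw [natDegree_map_eq_of_injective hinj, hgdeg]) hroot
  have hf : 0 < wv q πK := hK.2.1
  refine ⟨?_, ?_, ?_⟩
  · rw [hmon.leadingCoeff]
    exact (Ideal.ne_top_iff_one _).1 (IsLocalRing.maximalIdeal.isMaximal _).ne_top
  · intro i hi
    rw [UE.mem_maximalIdeal_iff]
    rw [hgdeg] at hi
    have := h1 i hi
    rw [coeff_map] at this
    rcases this with h | h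
    · exact Or.inl h
    · right
      have e : algebraMap (UE.OV q stmtWAdd K) K (g.coeff i) = ((g.coeff i : UE.OV q stmtWAdd K) : K) := rfl
      rw [e] at h
      omega
  · rw [LU.lu_maximalIdeal_eq q hK (wr_unif_mem q hK), Ideal.span_singleton_pow,
      LU.lu_mem_span_pow q hK.1 (wr_unif_mem q hK)]
    rw [coeff_map] at h2 h3
    have e : algebraMap (UE.OV q stmtWAdd K) K (g.coeff 0) = ((g.coeff 0 : UE.OV q stmtWAdd K) : K) := rfl
    rw [e] at h2 h3
    rintro (h | h)
    · exact h2 h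
    · rw [h3] at h
      push_cast at h
      linarith

/-- EIS-1, existence: the minimal polynomial of `π` has coefficients in `𝒪_K`. -/
theorem wr_exists_eis (hK : IsUnif q πK) (hL : IsUnif q π) (htot : wv q π = wv q πK) :
    ∃ g : (UE.OV q stmtWAdd K)[X], g.Monic ∧ g.natDegree = Module.finrank K L ∧
      eval₂ (UE.iota q stmtWAdd) (⟨π, wr_unif_mem q hL⟩ : UE.OV q stmtWAdd L) g = 0 ∧
      g.map (algebraMap (UE.OV q stmtWAdd K) K) = minpoly K π := by
  have hint : IsIntegral K π := Algebra.IsIntegral.isIntegral π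
  have hmon := minpoly.monic hint
  have hdeg := wr_natDegree_minpoly q hK hL htot
  have hinj : Function.Injective (algebraMap (UE.OV q stmtWAdd K) K) := Subtype.coe_injective
  obtain ⟨h1, -, -⟩ := wr_eis_of_root q hK hL htot _ hmon hdeg (minpoly.aeval K π)
  have hf : 0 < wv q πK := hK.2.1
  have hcoeff : ∀ i, geW q 0 ((minpoly K π).coeff i) := by
    intro i
    rcases lt_trichotomy i (Module.finrank K L) with hi | hi | hi
    · exact geW_mono q hf.le (h1 i hi)
    · rw [hi, ← hdeg, hmon.coeff_natDegree]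
      exact geW_one q
    · rw [coeff_eq_zero_of_natDegree_lt (by omega)]
      exact geW_zero q 0
  obtain ⟨g, hg, hgd⟩ := wr_lift_poly q _ hcoeff
  refine ⟨g, ?_, by rw [hgd, hdeg], ?_, hg⟩
  · apply Polynomial.monic_of_injective hinj
    rw [hg]
    exact hmon
  · apply Subtype.ext
    rw [wr_coe_eval q hL, hg, minpoly.aeval]
    rfl

/-- EIS-1, summary: existence of the Eisenstein polynomial of `π` with the universal property
of the presentation `𝒪_L = 𝒪_K[X]/(g)`. -/
theorem wr_eis1 (hK : IsUnif q πK) (hL : IsUnif q π) (htot : wv q π = wv q πK) :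
    ∃ g : (UE.OV q stmtWAdd K)[X], g.Monic ∧ g.natDegree = Module.finrank K L ∧
      g.IsEisensteinAt (IsLocalRing.maximalIdeal (UE.OV q stmtWAdd K)) ∧
      eval₂ (UE.iota q stmtWAdd) (⟨π, wr_unif_mem q hL⟩ : UE.OV q stmtWAdd L) g = 0 ∧
      ∀ (R : Type) [CommRing R] (s : UE.OV q stmtWAdd K →+* R) (r : R), eval₂ s r g = 0 →
        ∃ η : UE.OV q stmtWAdd L →+* R,
          (∀ a : UE.OV q stmtWAdd K, η (UE.iota q stmtWAdd a) = s a) ∧
          η ⟨π, wr_unif_mem q hL⟩ = r := by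
  obtain ⟨g, hmon, hdeg, h0, -⟩ := wr_exists_eis q hK hL htot
  refine ⟨g, hmon, hdeg, wr_isEisensteinAt q hK hL htot g hmon hdeg h0, h0, ?_⟩
  intro R _ s r hr
  obtain ⟨η, h1, h2, -⟩ := wr_universal q hK hL htot g hmon hdeg h0 R s r hr
  exact ⟨η, h1, h2⟩

end Pair

/-! ### EIS-2: the field defined by an Eisenstein polynomial -/

section Field

variable (q : ℕ) [Fact q.Prime] {K : Type} [Field K] [Algebra ℚ_[q] K]
  [FiniteDimensional ℚ_[q] K] {πK : K}

/-- the constant coefficient of an Eisenstein polynomial is a uniformiser -/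
theorem wr_eis_coeff_zero (hK : IsUnif q πK) (g : (UE.OV q stmtWAdd K)[X])
    (hE : g.IsEisensteinAt (IsLocalRing.maximalIdeal (UE.OV q stmtWAdd K)))
    (hdeg : 0 < g.natDegree) :
    ((g.coeff 0 : UE.OV q stmtWAdd K) : K) ≠ 0 ∧
      wv q ((g.coeff 0 : UE.OV q stmtWAdd K) : K) = wv q πK := by
  have h1 := hE.mem hdeg
  have h2 := hE.notMem
  rw [UE.mem_maximalIdeal_iff] at h1
  rw [LU.lu_maximalIdeal_eq q hK (wr_unif_mem q hK), Ideal.span_singleton_pow,
    LU.lu_mem_span_pow q hK.1 (wr_unif_mem q hK)] at h2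
  rw [not_or] at h2
  obtain ⟨h0, h3⟩ := h2
  refine ⟨h0, ?_⟩
  have h4 := h1.resolve_left h0
  obtain ⟨α, hα⟩ := hK.2.2 _ h0
  have hf : 0 < wv q πK := hK.2.1
  rw [hα] at h3 h4 ⊢
  push_cast at h3
  have h5 : 0 < α := by
    by_contra hc
    rw [not_lt] at hc
    nlinarith
  have h6 : α < 2 := by
    by_contra hc
    rw [not_lt] at hc
    apply h3
    nlinarith
  have : α = 1 := by omega
  rw [this, mul_one]

/-- EIS-2: an Eisenstein polynomial of degree `n ≥ 1` over `𝒪_K` defines a totally ramified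
extension `E = K[X]/(g)` of degree `n`, in which the root is a uniformiser. -/
theorem wr_eis_field (hK : IsUnif q πK) (g : (UE.OV q stmtWAdd K)[X]) (hmon : g.Monic)
    (hE : g.IsEisensteinAt (IsLocalRing.maximalIdeal (UE.OV q stmtWAdd K)))
    (hdeg : 0 < g.natDegree) :
    ∃ (E : Type) (_ : Field E) (_ : Algebra K E) (_ : Algebra ℚ_[q] E)
      (_ : IsScalarTower ℚ_[q] K E) (_ : FiniteDimensional K E)
      (_ : FiniteDimensional ℚ_[q] E) (x : E),
      Module.finrank K E = g.natDegree ∧ IsUnif q x ∧ wv q x = wv q πK ∧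
        aeval x (g.map (algebraMap (UE.OV q stmtWAdd K) K)) = 0 := by
  have hinj : Function.Injective (algebraMap (UE.OV q stmtWAdd K) K) := Subtype.coe_injective
  have hirr₀ : Irreducible g :=
    hE.irreducible (IsLocalRing.maximalIdeal.isMaximal _).isPrime hmon.isPrimitive hdeg
  have hgirr : Irreducible (g.map (algebraMap (UE.OV q stmtWAdd K) K)) :=
    (Monic.irreducible_iff_irreducible_map_fraction_map hmon).1 hirr₀
  have hgmon : (g.map (algebraMap (UE.OV q stmtWAdd K) K)).Monic := hmon.map _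
  have hgdeg : (g.map (algebraMap (UE.OV q stmtWAdd K) K)).natDegree = g.natDegree :=
    natDegree_map_eq_of_injective hinj _
  have : Fact (Irreducible (g.map (algebraMap (UE.OV q stmtWAdd K) K))) := ⟨hgirr⟩
  have hfd : FiniteDimensional K (AdjoinRoot (g.map (algebraMap (UE.OV q stmtWAdd K) K))) :=
    hgmon.finite_adjoinRoot
  have hfd2 : FiniteDimensional ℚ_[q] (AdjoinRoot (g.map (algebraMap (UE.OV q stmtWAdd K) K))) :=
    FiniteDimensional.trans ℚ_[q] K _
  refine ⟨AdjoinRoot (g.map (algebraMap (UE.OV q stmtWAdd K) K)), inferInstance, inferInstance,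
    inferInstance, inferInstance, hfd, hfd2, AdjoinRoot.root _, ?_, ?_, ?_, ?_⟩
  · rw [(AdjoinRoot.powerBasis hgirr.ne_zero).finrank, AdjoinRoot.powerBasis_dim, hgdeg]
  all_goals
    have hnorm : Algebra.norm K (AdjoinRoot.root (g.map (algebraMap (UE.OV q stmtWAdd K) K))) =
        (-1) ^ g.natDegree * ((g.coeff 0 : UE.OV q stmtWAdd K) : K) := by
      have h1 := Algebra.PowerBasis.norm_gen_eq_coeff_zero_minpoly
        (AdjoinRoot.powerBasis hgirr.ne_zero)
      rw [AdjoinRoot.minpoly_powerBasis_gen_of_monic hgmon, AdjoinRoot.powerBasis_dim,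
        AdjoinRoot.powerBasis_gen, hgdeg, coeff_map] at h1
      exact h1
    obtain ⟨hc0, hcv⟩ := wr_eis_coeff_zero q hK g hE hdeg
    have hpm : ((-1 : K) ^ g.natDegree) ≠ 0 := pow_ne_zero _ (neg_ne_zero.2 one_ne_zero)
    have hwpm : wv q ((-1 : K) ^ g.natDegree) = 0 := by
      rw [l0b_wv_pow, UE.wv_neg_one, mul_zero]
    have hval : wv q (AdjoinRoot.root (g.map (algebraMap (UE.OV q stmtWAdd K) K))) =
        wv q πK := by
      rw [← wv_norm_tower q (F := K), hnorm, l0b_wv_mul q hpm hc0, hwpm, zero_add, hcv]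
  · refine ⟨?_, ?_, ?_⟩
    · intro h
      rw [h, Algebra.norm_zero] at hnorm
      exact mul_ne_zero hpm hc0 hnorm.symm
    · rw [hval]; exact hK.2.1
    · intro y hy
      have hy2 := wv_norm_tower q (F := K) y
      rw [hval, ← hy2]
      apply hK.2.2
      rwa [Ne, Algebra.norm_eq_zero_iff]
  · exact hval
  · rw [aeval_def]
    exact AdjoinRoot.eval₂_root _

end Field

/-! ### EIS-3: levels -/

section Levels

variable (q : ℕ) [Fact q.Prime] {K L : Type} [Field K] [Field L] [Algebra ℚ_[q] K]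
  [FiniteDimensional ℚ_[q] K] [Algebra K L] [Algebra ℚ_[q] L] [IsScalarTower ℚ_[q] K L]
  [FiniteDimensional K L] [FiniteDimensional ℚ_[q] L]

/-- EIS-3: `a ∈ 𝒪_K` lies in `{w_L ≥ n k}` iff it lies in `{w_K ≥ k}`. -/
theorem wr_iota_mem_lvl (a : UE.OV q stmtWAdd K) (k : ℕ) :
    UE.iota q stmtWAdd (E := L) a ∈ UE.lvl q stmtWAdd (X := L) (Module.finrank K L * k) ↔
      a ∈ UE.lvl q stmtWAdd (X := K) k := by
  have hn : 0 < Module.finrank K L := Module.finrank_pos
  have hn' : (0 : ℤ) < Module.finrank K L := by exact_mod_cast hn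
  rw [UE.mem_lvl, UE.mem_lvl, UE.coe_iota, wv_algebraMap_tower, map_eq_zero]
  push_cast
  constructor
  · rintro (h | h)
    · exact Or.inl h
    · exact Or.inr (le_of_mul_le_mul_left h hn')
  · rintro (h | h)
    · exact Or.inl h
    · exact Or.inr (mul_le_mul_of_nonneg_left h hn'.le)

/-- EIS-3: the induced map `𝒪_K/{w ≥ k} → 𝒪_L/{w ≥ n k}`. -/
theorem wr_lvl_map (k : ℕ) :
    ∃ j : (UE.OV q stmtWAdd K ⧸ UE.lvl q stmtWAdd (X := K) k) →+*
        (UE.OV q stmtWAdd L ⧸ UE.lvl q stmtWAdd (X := L) (Module.finrank K L * k)),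
      Function.Injective j ∧ ∀ a : UE.OV q stmtWAdd K,
        j (Ideal.Quotient.mk _ a) = Ideal.Quotient.mk _ (UE.iota q stmtWAdd (E := L) a) := by
  have hle : UE.lvl q stmtWAdd (X := K) k ≤
      Ideal.comap (UE.iota q stmtWAdd (E := L))
        (UE.lvl q stmtWAdd (X := L) (Module.finrank K L * k)) := by
    intro a ha
    rw [Ideal.mem_comap]
    exact (wr_iota_mem_lvl q a k).2 ha
  refine ⟨Ideal.quotientMap _ (UE.iota q stmtWAdd (E := L)) hle, ?_, ?_⟩
  · apply Ideal.quotientMap_injective'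
    intro a ha
    rw [Ideal.mem_comap] at ha
    exact (wr_iota_mem_lvl q a k).1 ha
  · intro a
    exact Ideal.quotientMap_mk

end Levels

end Fermat.Agent.TW.W


end ZBPT_004_13

/-! ### bundled: `Fermat.Agent.PT.L.Plan3` -/
section ZBPT_004_14
/-
PT-L (local class field theory) — INTERFACE FILE, part 3: the sub-pieces of L1
(`StmtUnitsTrivial`). Definitions and statements only. Plan: NOTES/PT-L-plan.md (helper57).

L1a `StmtCohTrivial`   : abstract successive approximation (no valuations).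
L1b `StmtLattice`      : coordinates of integral elements have bounded denominators.
L1c `StmtNormalLattice`: the filtration `1 + q^j Λ`, `Λ` = `𝓞_F`-span of a normal basis.
L1d wiring             : `StmtCohTrivial → StmtNormalLattice → StmtWFinite → StmtUnitsTrivial`.
-/

set_option autoImplicit false

namespace Fermat.Agent.PT.L

/-- A complete, separated, multiplicative filtration `Λ 0 ⊇ Λ 1 ⊇ …` of a field `K` by additive
subgroups, stable under the automorphism `σ`, such that every graded piece `Λ j / Λ (j+1)` is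
cohomologically trivial for `⟨σ⟩` (`n` = order of `σ`): `h0` says "fixed ⇒ trace", `h1` says
"trace zero ⇒ `(σ - 1)`-image", both modulo the next step. -/
structure CohFiltration (K : Type) [Field K] (σ : K ≃+* K) (n : ℕ) where
  /-- the filtration -/
  Λ : ℕ → AddSubgroup K
  anti : ∀ j, Λ (j + 1) ≤ Λ j
  stable : ∀ j x, x ∈ Λ j → σ x ∈ Λ j
  mul : ∀ i j x y, x ∈ Λ i → y ∈ Λ j → x * y ∈ Λ (i + j)
  sep : ∀ x, (∀ j, x ∈ Λ j) → x = 0
  complete : ∀ s : ℕ → K, (∀ k, s (k + 1) - s k ∈ Λ (k + 1)) → ∃ y, ∀ k, y - s k ∈ Λ (k + 1)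
  h0 : ∀ j x, x ∈ Λ j → σ x - x ∈ Λ (j + 1) →
    ∃ z ∈ Λ j, x - ∑ i ∈ Finset.range n, (⇑σ)^[i] z ∈ Λ (j + 1)
  h1 : ∀ j x, x ∈ Λ j → ∑ i ∈ Finset.range n, (⇑σ)^[i] x ∈ Λ (j + 1) →
    ∃ z ∈ Λ j, x - (σ z - z) ∈ Λ (j + 1)

/-- L1a (abstract): for a `CohFiltration`, `V = 1 + Λ 1` is a group (`u ≠ 0`, `u⁻¹ ∈ V`), every
`σ`-fixed element of `V` is the norm `∏_{i<n} σ^i y` of some `y ∈ V`, and every element of `V` of
norm `1` is `σ y / y` with `y ∈ V`. -/
def StmtCohTrivial : Prop :=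
  ∀ (K : Type) [Field K] (σ : K ≃+* K) (n : ℕ) (Φ : CohFiltration K σ n),
    0 < n → (∀ x : K, (⇑σ)^[n] x = x) →
    (∀ u : K, u - 1 ∈ Φ.Λ 1 → u ≠ 0 ∧ u⁻¹ - 1 ∈ Φ.Λ 1) ∧
    (∀ u : K, u - 1 ∈ Φ.Λ 1 → σ u = u →
      ∃ y : K, y - 1 ∈ Φ.Λ 1 ∧ ∏ i ∈ Finset.range n, (⇑σ)^[i] y = u) ∧
    (∀ u : K, u - 1 ∈ Φ.Λ 1 → ∏ i ∈ Finset.range n, (⇑σ)^[i] u = 1 →
      ∃ y : K, y - 1 ∈ Φ.Λ 1 ∧ u = σ y / y)

/-- L1b: for an `F`-basis `b` of `F'` there is `K` such that `q ^ K` times every coordinate of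
every integral element of `F'` is integral (`𝓞_{F'} ⊂ q^{-K} · ⊕ 𝓞_F b_i`). -/
def StmtLattice : Prop :=
  ∀ (q : ℕ) [Fact q.Prime] (F F' : Type) [Field F] [Field F'] [Algebra ℚ_[q] F]
    [FiniteDimensional ℚ_[q] F] [Algebra F F'] [Algebra ℚ_[q] F'] [IsScalarTower ℚ_[q] F F']
    [FiniteDimensional F F'] (ι : Type) [Fintype ι] (b : Module.Basis ι F F'),
    ∃ K : ℕ, ∀ x : F', IsInt q x →
      ∀ i, IsInt q (algebraMap ℚ_[q] F (q : ℚ_[q]) ^ K * b.repr x i)

/-- L1c: a cyclic extension `F'/F` of local fields with generator `σ` carries a `CohFiltration`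
(`Λ j = q^{j+c}·(⊕_τ 𝓞_F τθ)`, `θ` a normal basis generator) which is cofinal with the valuation
filtration: `Λ 1 ⊂ {w > 0}` and `{w ≥ k} ⊂ Λ 1` for some `k`. -/
def StmtNormalLattice : Prop :=
  ∀ (q : ℕ) [Fact q.Prime] (F F' : Type) [Field F] [Field F'] [Algebra ℚ_[q] F]
    [FiniteDimensional ℚ_[q] F] [Algebra F F'] [Algebra ℚ_[q] F'] [IsScalarTower ℚ_[q] F F']
    [FiniteDimensional F F'] [IsGalois F F'] (σ : F' ≃ₐ[F] F'),
    (∀ τ : F' ≃ₐ[F] F', τ ∈ Subgroup.zpowers σ) →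
    ∃ Φ : CohFiltration F' (σ : F' ≃+* F') (Module.finrank F F'),
      (∀ x ∈ Φ.Λ 1, x = 0 ∨ 0 < wv q x) ∧
      (∃ k : ℕ, ∀ x : F', x ≠ 0 → (k : ℤ) ≤ wv q x → x ∈ Φ.Λ 1)

end Fermat.Agent.PT.L


end ZBPT_004_14

/-! ### bundled: `Fermat.Agent.PT.L.NormalLattice` -/
section ZBPT_004_15
/-
PT-L piece L1c (helper57): the normal-basis filtration of a cyclic extension of local fields,
`stmtNormalLattice_of : StmtLattice → StmtNormalLattice`.
-/

set_option autoImplicit false
set_option linter.unusedSectionVars false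

namespace Fermat.Agent.PT.L

namespace NL

open Finset

section

variable (q : ℕ) [Fact q.Prime] (F F' : Type) [Field F] [Field F'] [Algebra ℚ_[q] F]
  [FiniteDimensional ℚ_[q] F] [Algebra F F'] [Algebra ℚ_[q] F'] [IsScalarTower ℚ_[q] F F']
  [FiniteDimensional F F'] [IsGalois F F']

/-- The normal basis. -/
noncomputable def nb : Module.Basis (F' ≃ₐ[F] F') F F' := IsGalois.normalBasis F F'

lemma nb_apply (τ : F' ≃ₐ[F] F') : nb F F' τ = τ (nb F F' 1) :=
  IsGalois.normalBasis_apply τ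

lemma map_nb (σ τ : F' ≃ₐ[F] F') : σ (nb F F' τ) = nb F F' (σ * τ) := by
  rw [nb_apply F F' τ, nb_apply F F' (σ * τ), AlgEquiv.mul_apply]

/-- Coordinates of `σ x`. -/
lemma repr_map (σ τ : F' ≃ₐ[F] F') (x : F') :
    (nb F F').repr (σ x) τ = (nb F F').repr x (σ⁻¹ * τ) := by
  classical
  have hx : σ x = ∑ ρ, ((nb F F').repr x ρ) • nb F F' (σ * ρ) := by
    conv_lhs => rw [← (nb F F').sum_repr x]
    rw [map_sum]
    refine Finset.sum_congr rfl (fun ρ _ => ?_)
    rw [map_smul, map_nb]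
  rw [hx, map_sum, Finsupp.finsetSum_apply]
  simp_rw [map_smul, Module.Basis.repr_self, Finsupp.smul_apply, Finsupp.single_apply,
    smul_eq_mul, mul_ite, mul_one, mul_zero]
  rw [Finset.sum_eq_single (σ⁻¹ * τ)]
  · simp
  · intro ρ _ hρ
    rw [if_neg]
    intro h
    exact hρ (by rw [← h]; simp)
  · intro h
    exact absurd (Finset.mem_univ _) h

/-- The lattice `q^j · (⊕_τ 𝓞_F τθ)`. -/
def lat (j : ℕ) : AddSubgroup F' where
  carrier := {x | ∀ τ, geW q ((j : ℤ) * Module.finrank ℚ_[q] F) ((nb F F').repr x τ)}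
  zero_mem' := fun τ => by
    simp only [map_zero, Finsupp.coe_zero, Pi.zero_apply]
    exact geW_zero q _
  add_mem' := fun {x y} hx hy τ => by
    simp only [map_add, Finsupp.coe_add, Pi.add_apply]
    exact geW_add q (hx τ) (hy τ)
  neg_mem' := fun {x} hx τ => by
    simp only [map_neg, Finsupp.coe_neg, Pi.neg_apply]
    exact geW_neg q (hx τ)

lemma mem_lat {j : ℕ} {x : F'} :
    x ∈ lat q F F' j ↔
      ∀ τ, geW q ((j : ℤ) * Module.finrank ℚ_[q] F) ((nb F F').repr x τ) := Iff.rfl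

lemma lat_anti {i j : ℕ} (h : i ≤ j) : lat q F F' j ≤ lat q F F' i := by
  intro x hx τ
  refine geW_mono q ?_ (hx τ)
  have : (i : ℤ) ≤ j := by exact_mod_cast h
  exact mul_le_mul_of_nonneg_right this (by positivity)

lemma lat_stable (σ : F' ≃ₐ[F] F') {j : ℕ} {x : F'} (hx : x ∈ lat q F F' j) :
    σ x ∈ lat q F F' j := by
  intro τ
  rw [repr_map]
  exact hx _

/-- `a • b τ ∈ lat j` if `w(a) ≥ j ν_F`. -/
lemma smul_nb_mem {j : ℕ} {a : F} (ha : geW q ((j : ℤ) * Module.finrank ℚ_[q] F) a)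
    (τ : F' ≃ₐ[F] F') : a • nb F F' τ ∈ lat q F F' j := by
  classical
  intro ρ
  rw [map_smul, Module.Basis.repr_self, Finsupp.smul_apply, Finsupp.single_apply, smul_eq_mul]
  split_ifs
  · simpa using ha
  · simpa using geW_zero q _

/-- Coordinates of a product. -/
lemma repr_mul (x y : F') (κ : F' ≃ₐ[F] F') :
    (nb F F').repr (x * y) κ =
      ∑ τ, ∑ ρ, (nb F F').repr x τ * (nb F F').repr y ρ *
        (nb F F').repr (nb F F' τ * nb F F' ρ) κ := by
  classical
  have hxy : x * y = ∑ τ, ∑ ρ, ((nb F F').repr x τ * (nb F F').repr y ρ) •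
      (nb F F' τ * nb F F' ρ) := by
    conv_lhs => rw [← (nb F F').sum_repr x, ← (nb F F').sum_repr y]
    rw [Finset.sum_mul_sum]
    refine Finset.sum_congr rfl (fun τ _ => Finset.sum_congr rfl (fun ρ _ => ?_))
    rw [smul_mul_smul_comm]
  conv_lhs => rw [hxy]
  rw [map_sum, Finsupp.finsetSum_apply]
  refine Finset.sum_congr rfl (fun τ _ => ?_)
  rw [map_sum, Finsupp.finsetSum_apply]
  refine Finset.sum_congr rfl (fun ρ _ => ?_)
  rw [map_smul, Finsupp.smul_apply, smul_eq_mul]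

lemma nuF_pos : (0 : ℤ) < Module.finrank ℚ_[q] F := by
  exact_mod_cast (Module.finrank_pos : 0 < Module.finrank ℚ_[q] F)

/-- Multiplicativity of the lattice filtration, up to a constant. -/
lemma exists_mul_const : ∃ c : ℕ, ∀ (i j : ℕ) (x y : F'),
    x ∈ lat q F F' (i + c) → y ∈ lat q F F' (j + c) → x * y ∈ lat q F F' (i + j + c) := by
  classical
  obtain ⟨c, hc⟩ := exists_geW_finite q
    (fun t : (F' ≃ₐ[F] F') × (F' ≃ₐ[F] F') × (F' ≃ₐ[F] F') =>
      (nb F F').repr (nb F F' t.1 * nb F F' t.2.1) t.2.2)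
  refine ⟨c, fun i j x y hx hy κ => ?_⟩
  rw [repr_mul]
  refine geW_sum q _ _ _ (fun τ _ => geW_sum q _ _ _ (fun ρ _ => ?_))
  have h1 := geW_mul q (geW_mul q (hx τ) (hy ρ)) (hc (τ, ρ, κ))
  refine geW_mono q ?_ h1
  have hν := nuF_pos q F
  push_cast
  nlinarith

lemma geW_algebraMap {k : ℤ} {a : F} (ha : geW q k a) :
    geW q ((Module.finrank F F' : ℤ) * k) (algebraMap F F' a) := by
  rcases ha with ha | ha
  · exact Or.inl (by simp [ha])
  · refine Or.inr ?_
    rw [wv_algebraMap_tower]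
    exact mul_le_mul_of_nonneg_left ha (by positivity)

/-- Upper sandwich: `lat j ⊂ {w ≥ j ν' - t}`. -/
lemma exists_upper : ∃ t : ℕ, ∀ (j : ℕ) (x : F'), x ∈ lat q F F' j →
    geW q ((j : ℤ) * Module.finrank ℚ_[q] F' - t) x := by
  classical
  have := tower_finiteDimensional q F (F' := F')
  obtain ⟨t, ht⟩ := exists_geW_finite q (fun τ : F' ≃ₐ[F] F' => nb F F' τ)
  refine ⟨t, fun j x hx => ?_⟩
  rw [← (nb F F').sum_repr x]
  refine geW_sum q _ _ _ (fun τ _ => ?_)
  rw [Algebra.smul_def]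
  have h1 := geW_mul q (geW_algebraMap q F F' (hx τ)) (ht τ)
  refine geW_mono q ?_ h1
  rw [finrank_tower_eq q (F := F) (F' := F')]
  push_cast
  nlinarith

/-- Lower sandwich from the lattice property: `{w ≥ (K + j) ν'} ⊂ lat j`. -/
lemma exists_lower (hL : StmtLattice) : ∃ K : ℕ, ∀ (j : ℕ) (x : F'),
    geW q (((K + j : ℕ) : ℤ) * Module.finrank ℚ_[q] F') x → x ∈ lat q F F' j := by
  classical
  have := tower_finiteDimensional q F (F' := F')
  obtain ⟨K, hK⟩ := hL q F F' (F' ≃ₐ[F] F') (nb F F')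
  refine ⟨K, fun j x hx τ => ?_⟩
  by_cases hx0 : x = 0
  · simp only [hx0, map_zero, Finsupp.coe_zero, Pi.zero_apply]
    exact geW_zero q _
  rcases hx with hx | hx
  · exact absurd hx hx0
  set x' : F' := x / qEl q F' ^ (K + j) with hx'
  have hq0 : qEl q F' ^ (K + j) ≠ 0 := pow_ne_zero _ (qEl_ne_zero q)
  have hint : IsInt q x' := by
    refine Or.inr ?_
    rw [hx', l0b_wv_div q hx0 hq0, wv_qEl_pow]
    omega
  have hxx : x = (qEl q F ^ (K + j)) • x' := by
    rw [Algebra.smul_def, map_pow, qEl_tower, hx', mul_div_cancel₀ _ hq0]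
  have h1 := hK x' hint τ
  rw [hxx, map_smul, Finsupp.smul_apply, smul_eq_mul, add_comm K j, pow_add, mul_assoc]
  have h2 := geW_qEl_pow_mul q j ((isInt_iff_geW q _).1 h1)
  simpa [qEl] using h2

/-! ### The cyclic structure -/

variable {F F'} (σ : F' ≃ₐ[F] F') (hσ : ∀ τ : F' ≃ₐ[F] F', τ ∈ Subgroup.zpowers σ)

include hσ in
lemma orderOf_gen : orderOf σ = Module.finrank F F' := by
  rw [orderOf_eq_card_of_forall_mem_zpowers hσ, IsGalois.card_aut_eq_finrank]

include hσ in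
lemma pow_finrank : σ ^ Module.finrank F F' = 1 := by
  rw [← orderOf_gen σ hσ]
  exact pow_orderOf_eq_one σ

include hσ in
lemma exists_pow_eq (τ : F' ≃ₐ[F] F') : ∃ i : ℕ, σ ^ i = τ := by
  have h := hσ τ
  have hfin : IsOfFinOrder σ := isOfFinOrder_of_finite σ
  rw [← mem_powers_iff_mem_zpowers] at h
  exact Submonoid.mem_powers_iff _ _ |>.1 h

include hσ in
/-- Reindexing sums over the group by powers of the generator. -/
lemma sum_pow_eq {M : Type*} [AddCommMonoid M] (g : (F' ≃ₐ[F] F') → M) :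
    ∑ i ∈ Finset.range (Module.finrank F F'), g (σ ^ i) = ∑ ρ, g ρ := by
  classical
  have hinj : Set.InjOn (fun i : ℕ => σ ^ i) (Finset.range (Module.finrank F F')) := by
    intro a ha b hb hab
    have := pow_injOn_Iio_orderOf (x := σ)
    rw [orderOf_gen σ hσ] at this
    exact this (by simpa using ha) (by simpa using hb) hab
  rw [← Finset.sum_image (f := g) hinj]
  refine Finset.sum_congr ?_ (fun _ _ => rfl)
  ext τ
  simp only [Finset.mem_image, Finset.mem_range, Finset.mem_univ, iff_true]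
  obtain ⟨i, hi⟩ := exists_pow_eq σ hσ τ
  have hn : 0 < Module.finrank F F' := Module.finrank_pos
  refine ⟨i % Module.finrank F F', Nat.mod_lt _ hn, ?_⟩
  rw [← hi]
  conv_rhs => rw [← Nat.mod_add_div i (Module.finrank F F')]
  rw [pow_add, pow_mul, pow_finrank σ hσ, one_pow, mul_one]

lemma iter_eq (i : ℕ) (z : F') : (⇑(σ : F' ≃+* F'))^[i] z = (σ ^ i) z := by
  rw [AlgEquiv.coe_pow]
  rfl

include hσ in
/-- All coordinates of a trace are equal to the sum of the coordinates. -/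
lemma repr_trace (z : F') (τ : F' ≃ₐ[F] F') :
    (nb F F').repr (∑ i ∈ Finset.range (Module.finrank F F'), (⇑(σ : F' ≃+* F'))^[i] z) τ =
      ∑ ρ, (nb F F').repr z ρ := by
  classical
  rw [map_sum, Finsupp.finsetSum_apply]
  simp_rw [iter_eq, repr_map]
  rw [sum_pow_eq σ hσ (fun ρ => (nb F F').repr z (ρ⁻¹ * τ))]
  exact Fintype.sum_equiv ((Equiv.inv _).trans (Equiv.mulRight τ)) _ _ (fun ρ => rfl)

include hσ in
/-- `h0` for the lattice filtration. -/
lemma lat_h0 (J : ℕ) (x : F') (hx : x ∈ lat q F F' J)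
    (hfix : σ x - x ∈ lat q F F' (J + 1)) :
    ∃ z ∈ lat q F F' J,
      x - ∑ i ∈ Finset.range (Module.finrank F F'), (⇑(σ : F' ≃+* F'))^[i] z ∈
        lat q F F' (J + 1) := by
  classical
  have hstep : ∀ i : ℕ, geW q (((J + 1 : ℕ) : ℤ) * Module.finrank ℚ_[q] F)
      ((nb F F').repr x (σ ^ i) - (nb F F').repr x 1) := by
    intro i
    induction i with
    | zero => simpa using geW_zero q _
    | succ i ih =>
      have h1 := hfix (σ ^ (i + 1))
      rw [map_sub, Finsupp.sub_apply, repr_map] at h1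
      have h2 : σ⁻¹ * σ ^ (i + 1) = σ ^ i := by
        rw [pow_succ', inv_mul_cancel_left]
      rw [h2] at h1
      have h3 := geW_sub q ih h1
      have h4 : (nb F F').repr x (σ ^ i) - (nb F F').repr x 1 -
          ((nb F F').repr x (σ ^ i) - (nb F F').repr x (σ ^ (i + 1))) =
          (nb F F').repr x (σ ^ (i + 1)) - (nb F F').repr x 1 := by ring
      rwa [h4] at h3
  refine ⟨(nb F F').repr x 1 • nb F F' 1, smul_nb_mem q F F' (hx 1) 1, fun τ => ?_⟩
  rw [map_sub, Finsupp.sub_apply, repr_trace σ hσ]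
  have h5 : ∑ ρ, (nb F F').repr ((nb F F').repr x 1 • nb F F' 1) ρ = (nb F F').repr x 1 := by
    simp_rw [map_smul, Module.Basis.repr_self, Finsupp.smul_apply, Finsupp.single_apply,
      smul_eq_mul, mul_ite, mul_one, mul_zero]
    simp
  rw [h5]
  obtain ⟨i, hi⟩ := exists_pow_eq σ hσ τ
  rw [← hi]
  exact hstep i

omit [Fact q.Prime] [Algebra ℚ_[q] F] [FiniteDimensional ℚ_[q] F] [Algebra ℚ_[q] F']
  [IsScalarTower ℚ_[q] F F'] [FiniteDimensional F F'] [IsGalois F F'] in
/-- Summation by parts. -/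
lemma telescope (a : ℕ → F) (b : ℕ → F') (N : ℕ) :
    (∑ i ∈ Finset.range N, (-∑ l ∈ Finset.range (i + 1), a l) • b (i + 1)) -
        ∑ i ∈ Finset.range N, (-∑ l ∈ Finset.range (i + 1), a l) • b i =
      ∑ i ∈ Finset.range N, a i • b i - (∑ l ∈ Finset.range N, a l) • b N := by
  induction N with
  | zero => simp
  | succ N ih =>
    rw [Finset.sum_range_succ, Finset.sum_range_succ (fun i => (-∑ l ∈ Finset.range (i + 1), a l) • b i),
      Finset.sum_range_succ (fun i => a i • b i)]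
    have h1 : ∑ l ∈ Finset.range (N + 1), a l = ∑ l ∈ Finset.range N, a l + a N :=
      Finset.sum_range_succ _ _
    rw [h1]
    have h2 := ih
    rw [sub_eq_iff_eq_add] at h2
    rw [h2]
    module

include hσ in
/-- `h1` for the lattice filtration. -/
lemma lat_h1 (J : ℕ) (x : F') (hx : x ∈ lat q F F' J)
    (htr : ∑ i ∈ Finset.range (Module.finrank F F'), (⇑(σ : F' ≃+* F'))^[i] x ∈
      lat q F F' (J + 1)) :
    ∃ z ∈ lat q F F' J, x - (σ z - z) ∈ lat q F F' (J + 1) := by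
  classical
  have hs : geW q (((J + 1 : ℕ) : ℤ) * Module.finrank ℚ_[q] F)
      (∑ i ∈ Finset.range (Module.finrank F F'), (nb F F').repr x (σ ^ i)) := by
    have h1 := htr 1
    rw [repr_trace σ hσ, ← sum_pow_eq σ hσ (fun ρ => (nb F F').repr x ρ)] at h1
    exact h1
  have hxsum : ∑ i ∈ Finset.range (Module.finrank F F'),
      (nb F F').repr x (σ ^ i) • nb F F' (σ ^ i) = x := by
    rw [sum_pow_eq σ hσ (fun ρ => (nb F F').repr x ρ • nb F F' ρ)]
    exact (nb F F').sum_repr x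
  have hβmem : ∀ i : ℕ, geW q ((J : ℤ) * Module.finrank ℚ_[q] F)
      (-∑ l ∈ Finset.range (i + 1), (nb F F').repr x (σ ^ l)) := fun i =>
    geW_neg q (geW_sum q _ _ _ (fun l _ => hx (σ ^ l)))
  refine ⟨∑ i ∈ Finset.range (Module.finrank F F'),
    (-∑ l ∈ Finset.range (i + 1), (nb F F').repr x (σ ^ l)) • nb F F' (σ ^ i),
    AddSubgroup.sum_mem _ (fun i _ => smul_nb_mem q F F' (hβmem i) _), ?_⟩
  have hσz : σ (∑ i ∈ Finset.range (Module.finrank F F'),
      (-∑ l ∈ Finset.range (i + 1), (nb F F').repr x (σ ^ l)) • nb F F' (σ ^ i)) =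
      ∑ i ∈ Finset.range (Module.finrank F F'),
        (-∑ l ∈ Finset.range (i + 1), (nb F F').repr x (σ ^ l)) • nb F F' (σ ^ (i + 1)) := by
    rw [map_sum]
    refine Finset.sum_congr rfl (fun i _ => ?_)
    rw [map_smul, map_nb, pow_succ']
  have key := telescope (fun i => (nb F F').repr x (σ ^ i)) (fun i => nb F F' (σ ^ i))
    (Module.finrank F F')
  rw [hσz, key, hxsum, pow_finrank σ hσ, sub_sub_cancel]
  exact smul_nb_mem q F F' hs 1

end

end NL

open NL in
/-- **L1c**: the normal-basis filtration of a cyclic extension of local fields. -/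
theorem stmtNormalLattice_of (hL : StmtLattice) : StmtNormalLattice := by
  intro q _ F F' _ _ _ _ _ _ _ _ _ σ hσ
  classical
  have hfd := tower_finiteDimensional q F (F' := F')
  obtain ⟨c, hc⟩ := exists_mul_const q F F'
  obtain ⟨t, ht⟩ := exists_upper q F F'
  obtain ⟨K, hK⟩ := exists_lower q F F' hL
  have hν : (1 : ℤ) ≤ Module.finrank ℚ_[q] F' := by
    exact_mod_cast (Module.finrank_pos : 0 < Module.finrank ℚ_[q] F')
  -- the upper bound in the form used below
  have hup : ∀ (j : ℕ) (x : F'), x ∈ lat q F F' (j + (c + t)) → geW q (j : ℤ) x := by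
    intro j x hx
    refine geW_mono q ?_ (ht _ x hx)
    push_cast
    nlinarith
  refine ⟨{ Λ := fun j => lat q F F' (j + (c + t))
            anti := fun j => lat_anti q F F' (by omega)
            stable := fun j x hx => lat_stable q F F' σ hx
            mul := ?_
            sep := ?_
            complete := ?_
            h0 := fun j x hx hfix => by
              have e : j + 1 + (c + t) = j + (c + t) + 1 := by omega
              rw [e] at hfix ⊢
              exact lat_h0 q σ hσ _ x hx hfix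
            h1 := fun j x hx htr => by
              have e : j + 1 + (c + t) = j + (c + t) + 1 := by omega
              rw [e] at htr ⊢
              exact lat_h1 q σ hσ _ x hx htr }, ?_, ?_⟩
  · -- mul
    intro i j x y hx hy
    have h1 := hc (i + t) (j + t) x y (by rwa [show i + t + c = i + (c + t) by omega])
      (by rwa [show j + t + c = j + (c + t) by omega])
    exact lat_anti q F F' (by omega) h1
  · -- sep
    intro x hx
    exact geW_eq_zero q (fun k => hup k x (hx k))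
  · -- complete
    intro s hs
    have hclose : ∀ k : ℕ, Close q (k : ℤ) (s (k + 1)) (s k) := by
      intro k
      rw [close_iff_geW]
      exact geW_mono q (by push_cast; omega) (hup (k + 1) _ (hs k))
    obtain ⟨y, hy⟩ := stmtWComplete q F' s hclose
    refine ⟨y, fun k => ?_⟩
    -- telescoping
    have htel : ∀ m : ℕ, s (k + m) - s k ∈ lat q F F' (k + 1 + (c + t)) := by
      intro m
      induction m with
      | zero => simp
      | succ m ih =>
        have h1 := hs (k + m)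
        have h2 : s (k + (m + 1)) - s k = (s (k + m + 1) - s (k + m)) + (s (k + m) - s k) := by
          rw [← add_assoc]; ring
        rw [h2]
        exact add_mem (lat_anti q F F' (by omega) h1) ih
    set m : ℕ := (K + (k + 1 + (c + t))) * Module.finrank ℚ_[q] F' with hm
    have h3 : geW q ((k + m : ℕ) : ℤ) (y - s (k + m)) := (close_iff_geW q _ _ _).1 (hy (k + m))
    have h4 : y - s (k + m) ∈ lat q F F' (k + 1 + (c + t)) := by
      refine hK _ _ (geW_mono q ?_ h3)
      rw [hm]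
      push_cast
      nlinarith
    have h5 : y - s k = (y - s (k + m)) + (s (k + m) - s k) := by ring
    rw [h5]
    exact add_mem h4 (htel m)
  · -- Λ 1 ⊂ {w > 0}
    intro x hx
    rcases hup 1 x hx with h | h
    · exact Or.inl h
    · exact Or.inr (by omega)
  · -- {w ≥ k} ⊂ Λ 1
    refine ⟨(K + (1 + (c + t))) * Module.finrank ℚ_[q] F', fun x _ hx => ?_⟩
    exact hK _ _ (Or.inr (by push_cast at hx ⊢; exact hx))

end Fermat.Agent.PT.L


end ZBPT_004_15

/-! ### bundled: `Fermat.Agent.PT.L.CohTrivial` -/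
section ZBPT_004_16
/-
PT-L piece L1a (helper60): `stmtCohTrivial : StmtCohTrivial`.

Abstract successive approximation for a `CohFiltration`: `V = 1 + Λ 1` is a group, `σ`-fixed
elements of `V` are norms from `V`, elements of `V` of norm one are of the form `σ y / y`.
Plan: NOTES/PT-L-plan.md, § L1a.
-/

set_option autoImplicit false

namespace Fermat.Agent.PT.L

section L1a

variable {K : Type} [Field K] {σ : K ≃+* K} {n : ℕ} (Φ : CohFiltration K σ n)

/-- Recursive construction of a sequence with invariants. -/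
theorem l1a_exists_seq {α : Type} (I : ℕ → α → Prop) (R : ℕ → α → α → Prop) (a₀ : α)
    (h₀ : I 0 a₀) (step : ∀ k a, I k a → ∃ b, I (k + 1) b ∧ R k a b) :
    ∃ s : ℕ → α, s 0 = a₀ ∧ (∀ k, I k (s k)) ∧ ∀ k, R k (s k) (s (k + 1)) := by
  classical
  have : Nonempty α := ⟨a₀⟩
  choose! f hf using step
  let s : ℕ → α := fun k => Nat.rec a₀ (fun k a => f k a) k
  have hs : ∀ k, I k (s k) := by
    intro k
    induction k with
    | zero => exact h₀
    | succ k ih => exact (hf k _ ih).1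
  exact ⟨s, rfl, hs, fun k => (hf k _ (hs k)).2⟩

include Φ in
lemma l1a_anti_le {i j : ℕ} (h : i ≤ j) : Φ.Λ j ≤ Φ.Λ i := by
  induction h with
  | refl => exact le_refl _
  | step _ ih => exact (Φ.anti _).trans ih

lemma l1a_mul_mem {i j : ℕ} {x y : K} (hx : x ∈ Φ.Λ i) (hy : y ∈ Φ.Λ j) : x * y ∈ Φ.Λ j :=
  l1a_anti_le Φ (Nat.le_add_left j i) (Φ.mul i j x y hx hy)

lemma l1a_mul_mem' {i j : ℕ} {x y : K} (hx : x ∈ Φ.Λ i) (hy : y ∈ Φ.Λ j) : x * y ∈ Φ.Λ i :=
  l1a_anti_le Φ (Nat.le_add_right i j) (Φ.mul i j x y hx hy)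

/-- `(1 + Λ i) · Λ j ⊆ Λ j`. -/
lemma l1a_unit_mul_mem {i j : ℕ} {u y : K} (hu : u - 1 ∈ Φ.Λ i) (hy : y ∈ Φ.Λ j) :
    u * y ∈ Φ.Λ j := by
  have h : u * y = y + (u - 1) * y := by ring
  rw [h]
  exact (Φ.Λ j).add_mem hy (l1a_mul_mem Φ hu hy)

/-- `1 + Λ j` is closed under multiplication. -/
lemma l1a_V_mul {j : ℕ} {u v : K} (hu : u - 1 ∈ Φ.Λ j) (hv : v - 1 ∈ Φ.Λ j) :
    u * v - 1 ∈ Φ.Λ j := by
  have h : u * v - 1 = (u - 1) + u * (v - 1) := by ring
  rw [h]
  exact (Φ.Λ j).add_mem hu (l1a_unit_mul_mem Φ hu hv)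

lemma l1a_V_one (j : ℕ) : (1 : K) - 1 ∈ Φ.Λ j := by
  rw [sub_self]; exact (Φ.Λ j).zero_mem

lemma l1a_pow_mem {x : K} (hx : x ∈ Φ.Λ 1) (m : ℕ) : x ^ (m + 1) ∈ Φ.Λ (m + 1) := by
  induction m with
  | zero => simpa using hx
  | succ m ih =>
    rw [pow_succ]
    exact Φ.mul (m + 1) 1 _ _ ih hx

/-- Part 1: elements of `1 + Λ 1` are invertible with inverse in `1 + Λ 1`. -/
theorem l1a_inv {u : K} (hu : u - 1 ∈ Φ.Λ 1) : u ≠ 0 ∧ u⁻¹ - 1 ∈ Φ.Λ 1 := by
  set x : K := u - 1 with hx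
  have hnx : -x ∈ Φ.Λ 1 := (Φ.Λ 1).neg_mem hu
  set s : ℕ → K := fun k => ∑ l ∈ Finset.range (k + 1), (-x) ^ l with hs
  have hstep : ∀ k, s (k + 1) - s k ∈ Φ.Λ (k + 1) := by
    intro k
    have h : s (k + 1) - s k = (-x) ^ (k + 1) := by
      simp only [hs]
      rw [Finset.sum_range_succ _ (k + 1)]
      ring
    rw [h]
    exact l1a_pow_mem Φ hnx k
  obtain ⟨y, hy⟩ := Φ.complete s hstep
  have hgeom : ∀ k, u * s k - 1 = -((-x) ^ (k + 1)) := by
    intro k
    have h := mul_neg_geom_sum (-x) (k + 1)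
    -- (1 - (-x)) * ∑ = 1 - (-x)^(k+1)
    have hu' : u = 1 - -x := by rw [hx]; ring
    simp only [hs]
    rw [hu', h]
    ring
  have hall : ∀ k, u * y - 1 ∈ Φ.Λ (k + 1) := by
    intro k
    have h : u * y - 1 = u * (y - s k) + (u * s k - 1) := by ring
    rw [h, hgeom k]
    exact (Φ.Λ (k + 1)).add_mem (l1a_unit_mul_mem Φ hu (hy k))
      ((Φ.Λ (k + 1)).neg_mem (l1a_pow_mem Φ hnx k))
  have hzero : u * y - 1 = 0 := by
    apply Φ.sep
    intro j
    cases j with
    | zero => exact Φ.anti 0 (hall 0)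
    | succ j => exact hall j
  have huy : u * y = 1 := sub_eq_zero.mp hzero
  have hu0 : u ≠ 0 := by
    intro h0
    rw [h0, zero_mul] at huy
    exact zero_ne_one huy
  refine ⟨hu0, ?_⟩
  have hinv : u⁻¹ = y := by
    rw [← mul_one u⁻¹, ← huy, ← mul_assoc, inv_mul_cancel₀ hu0, one_mul]
  rw [hinv]
  have h0 := hy 0
  have hs0 : s 0 = 1 := by simp [hs]
  rwa [hs0] at h0

lemma l1a_ne_zero {u : K} (hu : u - 1 ∈ Φ.Λ 1) : u ≠ 0 := (l1a_inv Φ hu).1

/-- `1 + Λ j` (`j ≥ 1`) is closed under inversion. -/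
theorem l1a_inv_j {j : ℕ} (hj : 1 ≤ j) {u : K} (hu : u - 1 ∈ Φ.Λ j) : u⁻¹ - 1 ∈ Φ.Λ j := by
  have hu1 : u - 1 ∈ Φ.Λ 1 := l1a_anti_le Φ hj hu
  obtain ⟨hu0, hinv⟩ := l1a_inv Φ hu1
  have h : u⁻¹ - 1 = -(u⁻¹ * (u - 1)) := by
    field_simp
    ring
  rw [h]
  exact (Φ.Λ j).neg_mem (l1a_unit_mul_mem Φ hinv hu)

lemma l1a_V_div {j : ℕ} (hj : 1 ≤ j) {u v : K} (hu : u - 1 ∈ Φ.Λ j) (hv : v - 1 ∈ Φ.Λ j) :
    u * v⁻¹ - 1 ∈ Φ.Λ j :=
  l1a_V_mul Φ hu (l1a_inv_j Φ hj hv)

lemma l1a_iter_mem {j : ℕ} {x : K} (hx : x ∈ Φ.Λ j) (i : ℕ) : (⇑σ)^[i] x ∈ Φ.Λ j := by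
  induction i with
  | zero => simpa using hx
  | succ i ih =>
    rw [Function.iterate_succ_apply']
    exact Φ.stable j _ ih

lemma l1a_iter_V {j : ℕ} {u : K} (hu : u - 1 ∈ Φ.Λ j) (i : ℕ) : (⇑σ)^[i] u - 1 ∈ Φ.Λ j := by
  have h := l1a_iter_mem Φ hu i
  rwa [iterate_map_sub, iterate_map_one] at h

/-- `∏ (1 + x_i) - 1 - ∑ x_i ∈ Λ (j + j)` for `x_i ∈ Λ j`. -/
lemma l1a_prod_one_add {j : ℕ} (f : ℕ → K) (hf : ∀ i, f i ∈ Φ.Λ j) (m : ℕ) :
    (∏ i ∈ Finset.range m, (1 + f i) - 1 - ∑ i ∈ Finset.range m, f i ∈ Φ.Λ (j + j)) ∧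
      (∏ i ∈ Finset.range m, (1 + f i) - 1 ∈ Φ.Λ j) := by
  induction m with
  | zero => simp [(Φ.Λ _).zero_mem]
  | succ m ih =>
    obtain ⟨ih1, ih2⟩ := ih
    have h1 : ∏ i ∈ Finset.range (m + 1), (1 + f i) - 1 - ∑ i ∈ Finset.range (m + 1), f i =
        (∏ i ∈ Finset.range m, (1 + f i) - 1 - ∑ i ∈ Finset.range m, f i) +
          (∏ i ∈ Finset.range m, (1 + f i) - 1) * f m := by
      rw [Finset.prod_range_succ, Finset.sum_range_succ]
      ring
    have h2 : ∏ i ∈ Finset.range (m + 1), (1 + f i) - 1 =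
        (∏ i ∈ Finset.range m, (1 + f i) - 1) + (∏ i ∈ Finset.range m, (1 + f i)) * f m := by
      rw [Finset.prod_range_succ]
      ring
    refine ⟨?_, ?_⟩
    · rw [h1]
      exact (Φ.Λ _).add_mem ih1 (Φ.mul j j _ _ ih2 (hf m))
    · rw [h2]
      exact (Φ.Λ _).add_mem ih2 (l1a_unit_mul_mem Φ ih2 (hf m))

/-- Part A: `N (1 + z) - 1 - Tr z ∈ Λ (j + 1)` for `z ∈ Λ j`, `j ≥ 1`. -/
lemma l1a_norm_one_add {j : ℕ} (hj : 1 ≤ j) {z : K} (hz : z ∈ Φ.Λ j) :
    ∏ i ∈ Finset.range n, (⇑σ)^[i] (1 + z) - 1 - ∑ i ∈ Finset.range n, (⇑σ)^[i] z ∈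
      Φ.Λ (j + 1) := by
  have h := (l1a_prod_one_add Φ (fun i => (⇑σ)^[i] z) (fun i => l1a_iter_mem Φ hz i) n).1
  have h2 : ∀ i, (⇑σ)^[i] (1 + z) = 1 + (⇑σ)^[i] z := fun i => by
    rw [iterate_map_add, iterate_map_one]
  simp only [h2]
  exact l1a_anti_le Φ (by omega) h

/-- The norm maps `1 + Λ j` to itself. -/
lemma l1a_norm_V {j : ℕ} {u : K} (hu : u - 1 ∈ Φ.Λ j) :
    ∏ i ∈ Finset.range n, (⇑σ)^[i] u - 1 ∈ Φ.Λ j := by
  have h := (l1a_prod_one_add Φ (fun i => (⇑σ)^[i] (u - 1)) (fun i => l1a_iter_mem Φ hu i) n).2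
  have h2 : ∀ i, 1 + (⇑σ)^[i] (u - 1) = (⇑σ)^[i] u := fun i => by
    rw [iterate_map_sub, iterate_map_one]
    ring
  simpa only [h2] using h

omit Φ in
lemma l1a_norm_mul (a b : K) :
    ∏ i ∈ Finset.range n, (⇑σ)^[i] (a * b) =
      (∏ i ∈ Finset.range n, (⇑σ)^[i] a) * ∏ i ∈ Finset.range n, (⇑σ)^[i] b := by
  rw [← Finset.prod_mul_distrib]
  exact Finset.prod_congr rfl fun i _ => iterate_map_mul σ i a b

omit Φ in
lemma l1a_iter_inv (a : K) (i : ℕ) : (⇑σ)^[i] a⁻¹ = ((⇑σ)^[i] a)⁻¹ := by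
  induction i with
  | zero => rfl
  | succ i ih => rw [Function.iterate_succ_apply', Function.iterate_succ_apply', ih, map_inv₀]

omit Φ in
lemma l1a_norm_inv (a : K) :
    ∏ i ∈ Finset.range n, (⇑σ)^[i] a⁻¹ = (∏ i ∈ Finset.range n, (⇑σ)^[i] a)⁻¹ := by
  rw [← Finset.prod_inv_distrib]
  exact Finset.prod_congr rfl fun i _ => l1a_iter_inv a i

omit Φ in
lemma l1a_norm_one : ∏ i ∈ Finset.range n, (⇑σ)^[i] (1 : K) = 1 := by
  simp [iterate_map_one]

omit Φ in
/-- `σ (N y) = N y = N (σ y)` when `σ ^ n = 1`. -/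
lemma l1a_sigma_norm (hn : 0 < n) (hσ : ∀ x : K, (⇑σ)^[n] x = x) (y : K) :
    σ (∏ i ∈ Finset.range n, (⇑σ)^[i] y) = ∏ i ∈ Finset.range n, (⇑σ)^[i] y := by
  obtain ⟨m, rfl⟩ : ∃ m, n = m + 1 := ⟨n - 1, by omega⟩
  rw [map_prod]
  have h1 : ∀ i, σ ((⇑σ)^[i] y) = (⇑σ)^[i + 1] y := fun i =>
    (Function.iterate_succ_apply' _ _ _).symm
  simp only [h1]
  rw [Finset.prod_range_succ (fun i => (⇑σ)^[i + 1] y) m,
    Finset.prod_range_succ' (fun i => (⇑σ)^[i] y) m, hσ y]
  rfl

omit Φ in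
lemma l1a_norm_sigma (hn : 0 < n) (hσ : ∀ x : K, (⇑σ)^[n] x = x) (y : K) :
    ∏ i ∈ Finset.range n, (⇑σ)^[i] (σ y) = ∏ i ∈ Finset.range n, (⇑σ)^[i] y := by
  rw [← l1a_sigma_norm hn hσ y, map_prod]
  refine Finset.prod_congr rfl fun i _ => ?_
  rw [← Function.iterate_succ_apply, Function.iterate_succ_apply']

/-- STEP of part B. -/
lemma l1a_stepB {j : ℕ} (hj : 1 ≤ j) {u : K} (hu : u - 1 ∈ Φ.Λ j) (hfix : σ u = u) :
    ∃ y : K, y - 1 ∈ Φ.Λ j ∧ u * (∏ i ∈ Finset.range n, (⇑σ)^[i] y)⁻¹ - 1 ∈ Φ.Λ (j + 1) := by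
  have h0 : σ (u - 1) - (u - 1) ∈ Φ.Λ (j + 1) := by
    rw [map_sub, map_one, hfix, sub_self]
    exact (Φ.Λ _).zero_mem
  obtain ⟨z, hz, hz2⟩ := Φ.h0 j (u - 1) hu h0
  refine ⟨1 + z, by simpa using hz, ?_⟩
  have hA := l1a_norm_one_add Φ hj hz
  set Ny : K := ∏ i ∈ Finset.range n, (⇑σ)^[i] (1 + z) with hNy
  have hNyV : Ny - 1 ∈ Φ.Λ j := l1a_norm_V Φ (by simpa using hz)
  have hNy1 : Ny - 1 ∈ Φ.Λ 1 := l1a_anti_le Φ hj hNyV
  have hNy0 : Ny ≠ 0 := l1a_ne_zero Φ hNy1
  have hdiff : u - Ny ∈ Φ.Λ (j + 1) := by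
    have h : u - Ny = (u - 1 - ∑ i ∈ Finset.range n, (⇑σ)^[i] z) -
        (Ny - 1 - ∑ i ∈ Finset.range n, (⇑σ)^[i] z) := by ring
    rw [h]
    exact (Φ.Λ _).sub_mem hz2 hA
  have h : u * Ny⁻¹ - 1 = Ny⁻¹ * (u - Ny) := by
    field_simp
  rw [h]
  exact l1a_unit_mul_mem Φ (l1a_inv Φ hNy1).2 hdiff

/-- STEP of part C. -/
lemma l1a_stepC {j : ℕ} (hj : 1 ≤ j) {u : K} (hu : u - 1 ∈ Φ.Λ j)
    (hnorm : ∏ i ∈ Finset.range n, (⇑σ)^[i] u = 1) :
    ∃ y : K, y - 1 ∈ Φ.Λ j ∧ u * (y * (σ y)⁻¹) - 1 ∈ Φ.Λ (j + 1) := by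
  have hA := l1a_norm_one_add Φ hj hu
  have hu' : 1 + (u - 1) = u := by ring
  rw [hu', hnorm, sub_self, zero_sub] at hA
  have htr : ∑ i ∈ Finset.range n, (⇑σ)^[i] (u - 1) ∈ Φ.Λ (j + 1) := by
    have := (Φ.Λ _).neg_mem hA
    rwa [neg_neg] at this
  obtain ⟨z, hz, hz2⟩ := Φ.h1 j (u - 1) hu htr
  have hy : (1 + z) - 1 ∈ Φ.Λ j := by simpa using hz
  refine ⟨1 + z, hy, ?_⟩
  set y : K := 1 + z with hydef
  have hσy : σ y - 1 ∈ Φ.Λ j := by
    have := Φ.stable j _ hy
    rwa [map_sub, map_one] at this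
  have hy1 : y - 1 ∈ Φ.Λ 1 := l1a_anti_le Φ hj hy
  have hσy1 : σ y - 1 ∈ Φ.Λ 1 := l1a_anti_le Φ hj hσy
  have hy0 : y ≠ 0 := l1a_ne_zero Φ hy1
  have hσy0 : σ y ≠ 0 := l1a_ne_zero Φ hσy1
  have hyinv : y⁻¹ - 1 ∈ Φ.Λ j := l1a_inv_j Φ hj hy
  have hσz : σ z - z ∈ Φ.Λ j := (Φ.Λ j).sub_mem (Φ.stable j _ hz) hz
  -- σ y / y - 1 - (σ z - z) = (σ z - z) * (y⁻¹ - 1)
  have h1 : σ y * y⁻¹ - 1 - (σ z - z) = (σ z - z) * (y⁻¹ - 1) := by
    have hσyz : σ y = 1 + σ z := by rw [hydef, map_add, map_one]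
    rw [hσyz]
    field_simp
    rw [hydef]
    ring
  have h2 : σ y * y⁻¹ - 1 - (σ z - z) ∈ Φ.Λ (j + 1) := by
    rw [h1]
    exact l1a_anti_le Φ (by omega) (Φ.mul j j _ _ hσz hyinv)
  have h3 : u - σ y * y⁻¹ ∈ Φ.Λ (j + 1) := by
    have h : u - σ y * y⁻¹ = (u - 1 - (σ z - z)) - (σ y * y⁻¹ - 1 - (σ z - z)) := by ring
    rw [h]
    exact (Φ.Λ _).sub_mem hz2 h2
  have h4 : u * (y * (σ y)⁻¹) - 1 = (y * (σ y)⁻¹) * (u - σ y * y⁻¹) := by
    field_simp
  rw [h4]
  have h5 : y * (σ y)⁻¹ - 1 ∈ Φ.Λ 1 := l1a_V_div Φ le_rfl hy1 hσy1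
  exact l1a_unit_mul_mem Φ h5 h3

/-- The LIMIT argument common to parts B and C. -/
theorem l1a_limit (φ ψ : K → K) (hφ1 : φ 1 - 1 ∈ Φ.Λ 1)
    (hφψ : ∀ Y y : K, Y - 1 ∈ Φ.Λ 1 → y - 1 ∈ Φ.Λ 1 → φ (Y * y) = φ Y * ψ y)
    (hψ : ∀ (j : ℕ) (y : K), 1 ≤ j → y - 1 ∈ Φ.Λ j → ψ y - 1 ∈ Φ.Λ j)
    (step : ∀ (j : ℕ) (Y : K), 1 ≤ j → Y - 1 ∈ Φ.Λ 1 → φ Y - 1 ∈ Φ.Λ j →
      ∃ y : K, y - 1 ∈ Φ.Λ j ∧ φ Y * ψ y - 1 ∈ Φ.Λ (j + 1)) :
    ∃ Y : K, Y - 1 ∈ Φ.Λ 1 ∧ φ Y = 1 := by
  obtain ⟨s, hs0, hsI, hsR⟩ := l1a_exists_seq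
    (fun k Y => Y - 1 ∈ Φ.Λ 1 ∧ φ Y - 1 ∈ Φ.Λ (k + 1))
    (fun k Y Y' => Y' - Y ∈ Φ.Λ (k + 1)) (1 : K) ⟨l1a_V_one Φ 1, hφ1⟩
    (by
      rintro k Y ⟨hY1, hYφ⟩
      obtain ⟨y, hy, hy2⟩ := step (k + 1) Y (by omega) hY1 hYφ
      have hy1 : y - 1 ∈ Φ.Λ 1 := l1a_anti_le Φ (by omega) hy
      refine ⟨Y * y, ⟨l1a_V_mul Φ hY1 hy1, ?_⟩, ?_⟩
      · rw [hφψ Y y hY1 hy1]
        exact hy2
      · have h : Y * y - Y = Y * (y - 1) := by ring
        rw [h]
        exact l1a_unit_mul_mem Φ hY1 hy)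
  obtain ⟨Y, hY⟩ := Φ.complete s hsR
  have hY1 : Y - 1 ∈ Φ.Λ 1 := by
    have := hY 0
    rwa [hs0] at this
  refine ⟨Y, hY1, ?_⟩
  have hall : ∀ k, φ Y - 1 ∈ Φ.Λ (k + 1) := by
    intro k
    obtain ⟨hsk1, hskφ⟩ := hsI k
    have hsk0 : s k ≠ 0 := l1a_ne_zero Φ hsk1
    have hskinv : (s k)⁻¹ - 1 ∈ Φ.Λ 1 := (l1a_inv Φ hsk1).2
    set w : K := Y * (s k)⁻¹ with hw
    have hw1 : w - 1 ∈ Φ.Λ (k + 1) := by
      have h : w - 1 = (s k)⁻¹ * (Y - s k) := by
        rw [hw]
        field_simp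
      rw [h]
      exact l1a_unit_mul_mem Φ hskinv (hY k)
    have hYw : Y = s k * w := by
      rw [hw]
      field_simp
    have hw11 : w - 1 ∈ Φ.Λ 1 := l1a_anti_le Φ (by omega) hw1
    rw [hYw, hφψ (s k) w hsk1 hw11]
    exact l1a_V_mul Φ hskφ (hψ (k + 1) w (by omega) hw1)
  have hzero : φ Y - 1 = 0 := by
    apply Φ.sep
    intro j
    cases j with
    | zero => exact Φ.anti 0 (hall 0)
    | succ j => exact hall j
  exact sub_eq_zero.mp hzero

end L1a

/-- **L1a**. -/
theorem stmtCohTrivial : StmtCohTrivial := by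
  intro K _ σ n Φ hn hσ
  refine ⟨fun u hu => l1a_inv Φ hu, ?_, ?_⟩
  · -- part B
    intro u hu hfix
    obtain ⟨Y, hY1, hY⟩ := l1a_limit Φ
      (fun Y => u * (∏ i ∈ Finset.range n, (⇑σ)^[i] Y)⁻¹)
      (fun y => (∏ i ∈ Finset.range n, (⇑σ)^[i] y)⁻¹)
      (by
        show u * (∏ i ∈ Finset.range n, (⇑σ)^[i] (1 : K))⁻¹ - 1 ∈ Φ.Λ 1
        rw [l1a_norm_one, inv_one, mul_one]
        exact hu)
      (by
        intro Y y _ _
        show u * (∏ i ∈ Finset.range n, (⇑σ)^[i] (Y * y))⁻¹ = _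
        rw [l1a_norm_mul, mul_inv, mul_assoc])
      (by
        intro j y hj hy
        exact l1a_inv_j Φ hj (l1a_norm_V Φ hy))
      (by
        intro j Y hj hY1 hYφ
        have hNY : ∏ i ∈ Finset.range n, (⇑σ)^[i] Y - 1 ∈ Φ.Λ 1 := l1a_norm_V Φ hY1
        have hfix' : σ (u * (∏ i ∈ Finset.range n, (⇑σ)^[i] Y)⁻¹) =
            u * (∏ i ∈ Finset.range n, (⇑σ)^[i] Y)⁻¹ := by
          rw [map_mul, map_inv₀, hfix, l1a_sigma_norm hn hσ]
        exact l1a_stepB Φ hj hYφ hfix')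
    refine ⟨Y, hY1, ?_⟩
    have hNY0 : ∏ i ∈ Finset.range n, (⇑σ)^[i] Y ≠ 0 := l1a_ne_zero Φ (l1a_norm_V Φ hY1)
    have h : u * (∏ i ∈ Finset.range n, (⇑σ)^[i] Y)⁻¹ = 1 := hY
    field_simp at h
    exact h.symm
  · -- part C
    intro u hu hnorm
    obtain ⟨Y, hY1, hY⟩ := l1a_limit Φ
      (fun Y => u * (Y * (σ Y)⁻¹))
      (fun y => y * (σ y)⁻¹)
      (by
        show u * (1 * (σ 1)⁻¹) - 1 ∈ Φ.Λ 1
        rw [map_one, inv_one, mul_one, mul_one]
        exact hu)
      (by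
        intro Y y _ _
        show u * (Y * y * (σ (Y * y))⁻¹) = u * (Y * (σ Y)⁻¹) * (y * (σ y)⁻¹)
        rw [map_mul, mul_inv]
        ring)
      (by
        intro j y hj hy
        have hσy : σ y - 1 ∈ Φ.Λ j := by
          have := Φ.stable j _ hy
          rwa [map_sub, map_one] at this
        exact l1a_V_div Φ hj hy hσy)
      (by
        intro j Y hj hY1 hYφ
        have hY0 : Y ≠ 0 := l1a_ne_zero Φ hY1
        have hNY0 : ∏ i ∈ Finset.range n, (⇑σ)^[i] Y ≠ 0 := l1a_ne_zero Φ (l1a_norm_V Φ hY1)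
        have hnorm' : ∏ i ∈ Finset.range n, (⇑σ)^[i] (u * (Y * (σ Y)⁻¹)) = 1 := by
          rw [l1a_norm_mul, l1a_norm_mul, l1a_norm_inv, l1a_norm_sigma hn hσ, hnorm, one_mul,
            mul_inv_cancel₀ hNY0]
        exact l1a_stepC Φ hj hYφ hnorm')
    refine ⟨Y, hY1, ?_⟩
    have hY0 : Y ≠ 0 := l1a_ne_zero Φ hY1
    have hσY0 : σ Y ≠ 0 := by
      intro h
      exact hY0 ((map_eq_zero σ).mp h)
    have h : u * (Y * (σ Y)⁻¹) = 1 := hY
    field_simp at h
    rw [eq_div_iff hY0]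
    exact h

end Fermat.Agent.PT.L


end ZBPT_004_16

/-! ### bundled: `Fermat.Agent.PT.L.Lattice` -/
section ZBPT_004_17
/-
PT-L piece L1b (helper75): coordinates of integral elements have bounded denominators
(`stmtLattice`).  The valuation ring of `F'` is the integral closure of `ℤ_q` (`stmtWInt`), a
finitely generated `ℤ_q`-module; the elements `x` with `q^K · coord_i x` integral for all `i` form a
`ℤ_q`-submodule of `F'` which contains any given finite set when `K` is large.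
-/

set_option autoImplicit false
set_option linter.style.haveILetI false

namespace Fermat.Agent.PT.L

section

variable (q : ℕ) [Fact q.Prime] {F : Type} [Field F] [Algebra ℚ_[q] F]
  [FiniteDimensional ℚ_[q] F]

/-- `q^K y` is integral for `K` large. -/
theorem l1b_exists_pow_mul (y : F) : ∃ K : ℕ, ∀ K' : ℕ, K ≤ K' → geW q 0 (qEl q F ^ K' * y) := by
  obtain ⟨c, hc⟩ := exists_geW q y
  refine ⟨c, fun K' hK' => ?_⟩
  refine geW_mono q ?_ (geW_qEl_pow_mul q K' hc)
  have hn : (1 : ℤ) ≤ (Module.finrank ℚ_[q] F : ℤ) := by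
    exact_mod_cast (Module.finrank_pos : 0 < Module.finrank ℚ_[q] F)
  have h1 : (c : ℤ) ≤ (K' : ℤ) := by exact_mod_cast hK'
  nlinarith [Nat.cast_nonneg (α := ℤ) K', Nat.cast_nonneg (α := ℤ) c]

/-- The image of a `q`-adic integer is integral. -/
theorem l1b_geW_algebraMap (c : ℤ_[q]) : geW q 0 (algebraMap ℚ_[q] F (c : ℚ_[q])) := by
  rw [← isInt_iff_geW, stmtWInt q F]
  exact RingHom.isIntegralElem_map _

end

/-- **L1b**. -/
theorem stmtLattice : StmtLattice := by
  classical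
  intro q _ F F' _ _ _ _ _ _ _ _ ι _ b
  haveI : FiniteDimensional ℚ_[q] F' := FiniteDimensional.trans ℚ_[q] F F'
  letI : Algebra ℤ_[q] F' :=
    ((algebraMap ℚ_[q] F').comp (PadicInt.Coe.ringHom (p := q))).toAlgebra
  haveI : IsScalarTower ℤ_[q] ℚ_[q] F' := IsScalarTower.of_algebraMap_eq (fun x => rfl)
  haveI : Module.Finite ℤ_[q] (integralClosure ℤ_[q] F') :=
    IsIntegralClosure.finite ℤ_[q] ℚ_[q] F' (integralClosure ℤ_[q] F')
  have hfg : (Subalgebra.toSubmodule (integralClosure ℤ_[q] F')).FG :=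
    Module.Finite.iff_fg.mp (by assumption)
  obtain ⟨s, hs⟩ := hfg
  -- a uniform exponent for the finitely many coordinates of the finitely many generators
  have h1 : ∀ p : F' × ι, ∃ K : ℕ, ∀ K' : ℕ, K ≤ K' →
      geW q 0 (qEl q F ^ K' * b.repr p.1 p.2) := fun p => l1b_exists_pow_mul q _
  choose Kf hKf using h1
  set K : ℕ := (s ×ˢ (Finset.univ : Finset ι)).sup Kf with hK
  refine ⟨K, fun x hx i => ?_⟩
  have hxC : x ∈ Subalgebra.toSubmodule (integralClosure ℤ_[q] F') :=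
    (stmtWInt q F' x).mp hx
  rw [← hs] at hxC
  clear hx
  rw [isInt_iff_geW]
  show geW q 0 (qEl q F ^ K * b.repr x i)
  induction hxC using Submodule.span_induction with
  | mem y hy =>
    exact hKf (y, i) K (Finset.le_sup (f := Kf) (Finset.mem_product.mpr ⟨hy, Finset.mem_univ i⟩))
  | zero =>
    simp only [map_zero, Finsupp.coe_zero, Pi.zero_apply, mul_zero]
    exact geW_zero q 0
  | add y z _ _ hy hz =>
    rw [map_add, Finsupp.coe_add, Pi.add_apply, mul_add]
    exact geW_add q hy hz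
  | smul c y _ hy =>
    have h2 : c • y = (algebraMap ℚ_[q] F (c : ℚ_[q])) • y := by
      rw [Algebra.smul_def, Algebra.smul_def]
      show algebraMap ℚ_[q] F' (c : ℚ_[q]) * y = _
      rw [IsScalarTower.algebraMap_apply ℚ_[q] F F']
    rw [h2, map_smul, Finsupp.coe_smul, Pi.smul_apply, smul_eq_mul, mul_left_comm]
    have := geW_mul q (l1b_geW_algebraMap q (F := F) c) hy
    simpa using this

end Fermat.Agent.PT.L


end ZBPT_004_17

/-! ### bundled: `Fermat.Agent.PT.L.UnitsTrivial` -/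
section ZBPT_004_18
/-
PT-L piece L1d (helper57): wiring of L1,
`stmtUnitsTrivial : StmtUnitsTrivial` from `stmtCohTrivial` (L1a), `stmtLattice` (L1b),
`stmtNormalLattice_of` (L1c) and `stmtWFinite` (L0d).
-/

set_option autoImplicit false
set_option linter.unusedSectionVars false

namespace Fermat.Agent.PT.L

namespace NL

section

variable {F F' : Type} [Field F] [Field F'] [Algebra F F'] [FiniteDimensional F F']
  [IsGalois F F'] (σ : F' ≃ₐ[F] F') (hσ : ∀ τ : F' ≃ₐ[F] F', τ ∈ Subgroup.zpowers σ)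

include hσ in
/-- Reindexing products over the group by powers of the generator. -/
lemma prod_pow_eq {M : Type*} [CommMonoid M] (g : (F' ≃ₐ[F] F') → M) :
    ∏ i ∈ Finset.range (Module.finrank F F'), g (σ ^ i) = ∏ ρ, g ρ := by
  classical
  have hinj : Set.InjOn (fun i : ℕ => σ ^ i) (Finset.range (Module.finrank F F')) := by
    intro a ha b hb hab
    have := pow_injOn_Iio_orderOf (x := σ)
    rw [orderOf_gen σ hσ] at this
    exact this (by simpa using ha) (by simpa using hb) hab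
  rw [← Finset.prod_image (f := g) hinj]
  refine Finset.prod_congr ?_ (fun _ _ => rfl)
  ext τ
  simp only [Finset.mem_image, Finset.mem_range, Finset.mem_univ, iff_true]
  obtain ⟨i, hi⟩ := exists_pow_eq σ hσ τ
  have hn : 0 < Module.finrank F F' := Module.finrank_pos
  refine ⟨i % Module.finrank F F', Nat.mod_lt _ hn, ?_⟩
  rw [← hi]
  conv_rhs => rw [← Nat.mod_add_div i (Module.finrank F F')]
  rw [pow_add, pow_mul, pow_finrank σ hσ, one_pow, mul_one]

include hσ in
/-- The norm is the product over the iterates of the generator. -/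
lemma norm_eq_prod_iter (y : F') :
    algebraMap F F' (Algebra.norm F y) =
      ∏ i ∈ Finset.range (Module.finrank F F'), (⇑(σ : F' ≃+* F'))^[i] y := by
  rw [Algebra.norm_eq_prod_automorphisms, ← prod_pow_eq σ hσ (fun ρ => ρ y)]
  exact Finset.prod_congr rfl (fun i _ => (iter_eq σ i y).symm)

end

end NL

open NL in
/-- **L1**: the units of a cyclic extension of local fields contain a `σ`-stable subgroup of finite
index which is cohomologically trivial. -/
theorem stmtUnitsTrivial : StmtUnitsTrivial := by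
  intro q _ F F' _ _ _ _ _ _ _ _ _ σ hσ
  classical
  have hfd := tower_finiteDimensional q F (F' := F')
  obtain ⟨Φ, hpos, k, hk⟩ := stmtNormalLattice_of stmtLattice q F F' σ hσ
  have hn : 0 < Module.finrank F F' := Module.finrank_pos
  have hiter : ∀ x : F', (⇑(σ : F' ≃+* F'))^[Module.finrank F F'] x = x := by
    intro x
    rw [iter_eq, pow_finrank σ hσ]
    rfl
  obtain ⟨hgrp, hfix, hnorm⟩ := stmtCohTrivial F' (σ : F' ≃+* F') _ Φ hn hiter
  have hΛ1 : ∀ x : F', x ∈ Φ.Λ 1 → geW q 1 x := by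
    intro x hx
    rcases hpos x hx with h | h
    · exact Or.inl h
    · exact Or.inr (by omega)
  let V : Subgroup F'ˣ :=
    { carrier := {u | (u : F') - 1 ∈ Φ.Λ 1}
      one_mem' := by
        show ((1 : F'ˣ) : F') - 1 ∈ Φ.Λ 1
        simp
      mul_mem' := by
        intro u v hu hv
        show ((u * v : F'ˣ) : F') - 1 ∈ Φ.Λ 1
        have h1 : ((u * v : F'ˣ) : F') - 1 =
            ((u : F') - 1) * ((v : F') - 1) + ((u : F') - 1) + ((v : F') - 1) := by
          push_cast; ring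
        rw [h1]
        exact add_mem (add_mem (Φ.anti 1 (Φ.mul 1 1 _ _ hu hv)) hu) hv
      inv_mem' := by
        intro u hu
        show ((u⁻¹ : F'ˣ) : F') - 1 ∈ Φ.Λ 1
        have := (hgrp (u : F') hu).2
        simpa using this }
  have hV : ∀ u : F'ˣ, u ∈ V ↔ (u : F') - 1 ∈ Φ.Λ 1 := fun u => Iff.rfl
  refine ⟨V, ?_, ?_, ?_, ?_, ?_⟩
  · -- units
    intro u hu
    have h1 := (wv_one_add q (hΛ1 _ ((hV u).1 hu))).2
    rwa [add_sub_cancel] at h1
  · -- stable
    intro u hu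
    rw [hV]
    have h1 := Φ.stable 1 _ ((hV u).1 hu)
    have h2 : ((Units.map (σ : F' →* F') u : F'ˣ) : F') - 1 = (σ : F' ≃+* F') ((u : F') - 1) := by
      simp
    rw [h2]
    exact h1
  · -- finite index
    obtain ⟨R₀, hR₀⟩ := stmtWFinite q F' (max k 1)
    refine ⟨R₀.image (fun r => if h : r = 0 then (1 : F'ˣ) else Units.mk0 r h), fun u hu => ?_⟩
    obtain ⟨r, hr, hcl⟩ := hR₀ (u : F') (Or.inr (by omega))
    have hu0 : (u : F') ≠ 0 := u.ne_zero
    have hgeW : geW q ((max k 1 : ℕ) : ℤ) ((u : F') - r) := (close_iff_geW q _ _ _).1 hcl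
    have hr0 : r ≠ 0 := by
      intro h
      rw [h, sub_zero] at hgeW
      rcases hgeW with h1 | h1
      · exact hu0 h1
      · have : (1 : ℤ) ≤ ((max k 1 : ℕ) : ℤ) := by exact_mod_cast le_max_right k 1
        omega
    have hwr : wv q r = 0 := by
      have h1 : geW q 1 (((u : F') - r) / -(u : F')) := by
        rcases hgeW with h1 | h1
        · exact Or.inl (by rw [h1, zero_div])
        · refine Or.inr ?_
          have h2 : (u : F') - r ≠ 0 := by
            intro h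
            rw [h] at h1
            have h0 : wv q (0 : F') = 0 := by unfold wv; simp
            have : (1 : ℤ) ≤ ((max k 1 : ℕ) : ℤ) := by exact_mod_cast le_max_right k 1
            omega
          rw [l0b_wv_div q h2 (neg_ne_zero.2 hu0), geW_wv_neg, hu]
          have : (1 : ℤ) ≤ ((max k 1 : ℕ) : ℤ) := by exact_mod_cast le_max_right k 1
          omega
      have h3 := (wv_one_add q h1).2
      have h4 : 1 + ((u : F') - r) / -(u : F') = r / u := by
        field_simp
        ring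
      rw [h4, l0b_wv_div q hr0 hu0, hu] at h3
      omega
    refine ⟨Units.mk0 r hr0, Finset.mem_image.2 ⟨r, hr, by rw [dif_neg hr0]⟩, ?_⟩
    rw [hV]
    have h5 : ((u / Units.mk0 r hr0 : F'ˣ) : F') - 1 = ((u : F') - r) / r := by
      rw [Units.val_div_eq_div_val, Units.val_mk0]
      field_simp
    rw [h5]
    by_cases h6 : (u : F') - r = 0
    · rw [h6, zero_div]
      exact zero_mem _
    · refine hk _ (div_ne_zero h6 hr0) ?_
      rw [l0b_wv_div q h6 hr0, hwr, sub_zero]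
      rcases hgeW with h1 | h1
      · exact absurd h1 h6
      · have : (k : ℤ) ≤ ((max k 1 : ℕ) : ℤ) := by exact_mod_cast le_max_left k 1
        omega
  · -- fixed ⇒ norm
    intro u hu hfixu
    obtain ⟨y, hy, hprod⟩ := hfix (u : F') ((hV u).1 hu) hfixu
    have hy0 : y ≠ 0 := (hgrp y hy).1
    refine ⟨Units.mk0 y hy0, (hV _).2 (by simpa using hy), ?_⟩
    rw [Units.val_mk0, norm_eq_prod_iter σ hσ, hprod]
  · -- norm one ⇒ σ y / y
    intro u hu hN
    have h1 : ∏ i ∈ Finset.range (Module.finrank F F'), (⇑(σ : F' ≃+* F'))^[i] (u : F') = 1 := by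
      rw [← norm_eq_prod_iter σ hσ, hN, map_one]
    obtain ⟨y, hy, hyu⟩ := hnorm (u : F') ((hV u).1 hu) h1
    have hy0 : y ≠ 0 := (hgrp y hy).1
    exact ⟨Units.mk0 y hy0, (hV _).2 (by simpa using hy), by simpa using hyu⟩

end Fermat.Agent.PT.L


end ZBPT_004_18

/-! ### bundled: `Fermat.Agent.PT.L.NormIndexAux` -/
section ZBPT_004_19

/-!
# PT-L, piece L2 (part 1): abstract Herbrand bookkeeping
-/

set_option autoImplicit false

namespace Fermat.Agent.PT.L

section Generic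

variable {M C : Type} [AddCommGroup M] [AddCommGroup C]

lemma l2_pow_coe (σM : AddMonoid.End M) (S : AddSubgroup M) (σS : AddMonoid.End S)
    (hσS : ∀ s : S, ((σS s : S) : M) = σM (s : M)) (k : ℕ) (s : S) :
    (((σS ^ k) s : S) : M) = (σM ^ k) (s : M) := by
  induction k generalizing s with
  | zero => simp
  | succ k ih =>
    rw [pow_succ, pow_succ]
    show (((σS ^ k) (σS s) : S) : M) = (σM ^ k) (σM (s : M))
    rw [ih, hσS]

lemma l2_pow_eq_one (σM : AddMonoid.End M) (S : AddSubgroup M) (σS : AddMonoid.End S)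
    (hσS : ∀ s : S, ((σS s : S) : M) = σM (s : M)) (n : ℕ) (hσM : σM ^ n = 1) : σS ^ n = 1 := by
  ext s
  rw [l2_pow_coe σM S σS hσS, hσM]
  rfl

lemma l2_hqNorm_apply (σ : AddMonoid.End M) (n : ℕ) (x : M) :
    hqNorm σ n x = ∑ i ∈ Finset.range n, (σ ^ i) x := by
  unfold hqNorm
  induction n with
  | zero =>
    simp only [Finset.range_zero, Finset.sum_empty]
    rfl
  | succ k ih =>
    rw [Finset.sum_range_succ, Finset.sum_range_succ, ← ih]
    rfl

lemma l2_hqDelta_apply (σ : AddMonoid.End M) (x : M) : hqDelta σ x = σ x - x := by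
  unfold hqDelta
  rfl

lemma l2_hqNorm_coe (σM : AddMonoid.End M) (S : AddSubgroup M) (σS : AddMonoid.End S)
    (hσS : ∀ s : S, ((σS s : S) : M) = σM (s : M)) (n : ℕ) (s : S) :
    ((hqNorm σS n s : S) : M) = hqNorm σM n (s : M) := by
  rw [l2_hqNorm_apply, l2_hqNorm_apply, AddSubgroup.val_finsetSum]
  exact Finset.sum_congr rfl fun i _ => l2_pow_coe σM S σS hσS i s

lemma l2_hqDelta_coe (σM : AddMonoid.End M) (S : AddSubgroup M) (σS : AddMonoid.End S)
    (hσS : ∀ s : S, ((σS s : S) : M) = σM (s : M)) (s : S) :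
    ((hqDelta σS s : S) : M) = hqDelta σM (s : M) := by
  rw [l2_hqDelta_apply, l2_hqDelta_apply, AddSubgroup.coe_sub, hσS]

/-- Herbrand's lemma in kernel form. -/
theorem l2_herbrand_ker (hH : StmtHerbrand) (σM : AddMonoid.End M) (σC : AddMonoid.End C) (n : ℕ)
    (hn : 0 < n) (hσM : σM ^ n = 1) (hσC : σC ^ n = 1) (π : M →+ C)
    (hπ : Function.Surjective π) (hπσ : ∀ m, π (σM m) = σC (π m)) (S : AddSubgroup M)
    (hS : ∀ x, x ∈ S ↔ π x = 0) (σS : AddMonoid.End S)
    (hσS : ∀ s : S, ((σS s : S) : M) = σM (s : M))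
    (h0S : hq0 σS n ≠ 0) (h1S : hq1 σS n ≠ 0) (h0C : hq0 σC n ≠ 0) (h1C : hq1 σC n ≠ 0) :
    hq0 σM n ≠ 0 ∧ hq1 σM n ≠ 0 ∧
      hq0 σM n * hq1 σS n * hq1 σC n = hq1 σM n * hq0 σS n * hq0 σC n := by
  have hσSn : σS ^ n = 1 := l2_pow_eq_one σM S σS hσS n hσM
  have hrange : S.subtype.range = π.ker := by
    ext x
    rw [AddSubgroup.range_subtype, AddMonoidHom.mem_ker]
    exact hS x
  exact hH S M C σS σM σC n S.subtype π hn hσSn hσM hσC S.subtype_injective hπ hrange
    (fun a => hσS a) hπσ h0S h1S h0C h1C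

lemma l2_hq0_eq_one (σ : AddMonoid.End M) (n : ℕ)
    (h : ∀ x, σ x = x → ∃ y, hqNorm σ n y = x) : hq0 σ n = 1 := by
  unfold hq0
  rw [AddSubgroup.relIndex_eq_one]
  intro x hx
  rw [AddMonoidHom.mem_ker, l2_hqDelta_apply, sub_eq_zero] at hx
  exact AddMonoidHom.mem_range.mpr (h x hx)

lemma l2_hq1_eq_one (σ : AddMonoid.End M) (n : ℕ)
    (h : ∀ x, hqNorm σ n x = 0 → ∃ y, σ y - y = x) : hq1 σ n = 1 := by
  unfold hq1
  rw [AddSubgroup.relIndex_eq_one]
  intro x hx
  rw [AddMonoidHom.mem_ker] at hx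
  obtain ⟨y, hy⟩ := h x hx
  exact AddMonoidHom.mem_range.mpr ⟨y, by rw [l2_hqDelta_apply, hy]⟩

lemma l2_pow_comm (σM : AddMonoid.End M) (σC : AddMonoid.End C) (π : M →+ C)
    (hπσ : ∀ m, π (σM m) = σC (π m)) (k : ℕ) (m : M) : π ((σM ^ k) m) = (σC ^ k) (π m) := by
  induction k generalizing m with
  | zero => rfl
  | succ k ih =>
    rw [pow_succ, pow_succ]
    show π ((σM ^ k) (σM m)) = (σC ^ k) (σC (π m))
    rw [ih, hπσ]

lemma l2_pow_eq_one_of_surj (σM : AddMonoid.End M) (σC : AddMonoid.End C) (π : M →+ C)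
    (hπ : Function.Surjective π) (hπσ : ∀ m, π (σM m) = σC (π m)) (n : ℕ) (hσM : σM ^ n = 1) :
    σC ^ n = 1 := by
  ext c
  obtain ⟨m, rfl⟩ := hπ c
  rw [← l2_pow_comm σM σC π hπσ, hσM]
  rfl

/-- Restriction of an endomorphism to a stable subgroup. -/
def l2Restrict (σM : AddMonoid.End M) (S : AddSubgroup M) (hS : ∀ x ∈ S, σM x ∈ S) :
    AddMonoid.End S :=
  (σM.comp S.subtype).codRestrict S fun s => hS s s.2

lemma l2Restrict_coe (σM : AddMonoid.End M) (S : AddSubgroup M) (hS : ∀ x ∈ S, σM x ∈ S)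
    (s : S) : ((l2Restrict σM S hS s : S) : M) = σM (s : M) := rfl

end Generic

/-! ### The integers with trivial action -/

lemma l2_hq0_int (n : ℕ) : hq0 (1 : AddMonoid.End ℤ) n = n := by
  unfold hq0
  have hker : (hqDelta (1 : AddMonoid.End ℤ)).ker = ⊤ := by
    ext x
    simp [l2_hqDelta_apply]
  have hrange : (hqNorm (1 : AddMonoid.End ℤ) n).range = AddSubgroup.zmultiples (n : ℤ) := by
    ext x
    rw [AddMonoidHom.mem_range, AddSubgroup.mem_zmultiples_iff]
    constructor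
    · rintro ⟨y, rfl⟩
      refine ⟨y, ?_⟩
      rw [l2_hqNorm_apply]
      simp [mul_comm]
    · rintro ⟨k, rfl⟩
      refine ⟨k, ?_⟩
      rw [l2_hqNorm_apply]
      simp [mul_comm]
  rw [hker, hrange, AddSubgroup.relIndex_top_right, Int.index_zmultiples]
  simp

lemma l2_hq1_int (n : ℕ) (hn : 0 < n) : hq1 (1 : AddMonoid.End ℤ) n = 1 := by
  apply l2_hq1_eq_one
  intro x hx
  rw [l2_hqNorm_apply] at hx
  simp only [one_pow, AddMonoid.End.coe_one, id_eq, Finset.sum_const, Finset.card_range,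
    nsmul_eq_mul] at hx
  have hx0 : x = 0 := by
    have hn' : (n : ℤ) ≠ 0 := by exact_mod_cast hn.ne'
    rcases mul_eq_zero.mp hx with h | h
    · exact absurd h hn'
    · exact h
  exact ⟨0, by simp [hx0]⟩

/-! ### The abstract computation -/

section Abstract

/-- The endomorphism induced on the quotient by a stable subgroup. -/
def l2Quot {M : Type} [AddCommGroup M] (σM : AddMonoid.End M) (S : AddSubgroup M)
    (hS : ∀ x ∈ S, σM x ∈ S) : AddMonoid.End (M ⧸ S) :=
  QuotientAddGroup.map S S σM (fun x hx => hS x hx)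

/-- Step A: a `σ`-module `Q` with an invariant surjection `ord : Q → ℤ` with finite kernel has
Herbrand quotient `n`. -/
theorem l2_stepA (hH : StmtHerbrand) (hHf : StmtHerbrandFinite) {Q : Type} [AddCommGroup Q]
    (σQ : AddMonoid.End Q) (n : ℕ) (hn : 0 < n) (hσQ : σQ ^ n = 1) (ordQ : Q →+ ℤ)
    (hsurj : Function.Surjective ordQ) (hinv : ∀ c, ordQ (σQ c) = ordQ c)
    (hfin : Finite ordQ.ker) :
    hq0 σQ n ≠ 0 ∧ hq1 σQ n ≠ 0 ∧ hq0 σQ n = hq1 σQ n * n := by
  have hKstab : ∀ c ∈ ordQ.ker, σQ c ∈ ordQ.ker := by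
    intro c hc
    rw [AddMonoidHom.mem_ker] at hc ⊢
    rw [hinv, hc]
  have hσK : ∀ s : ordQ.ker, ((l2Restrict σQ ordQ.ker hKstab s : ordQ.ker) : Q) = σQ s :=
    fun s => rfl
  have hσKn : l2Restrict σQ ordQ.ker hKstab ^ n = 1 :=
    l2_pow_eq_one σQ ordQ.ker _ hσK n hσQ
  obtain ⟨hK0, hK01⟩ := hHf ordQ.ker (l2Restrict σQ ordQ.ker hKstab) n hn hσKn
  obtain ⟨hQ0, hQ1, hQeq⟩ := l2_herbrand_ker hH σQ 1 n hn hσQ (one_pow n) ordQ hsurj
    (fun c => hinv c) ordQ.ker (fun x => AddMonoidHom.mem_ker) _ hσK hK0 (hK01 ▸ hK0)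
    (by rw [l2_hq0_int]; exact hn.ne') (by rw [l2_hq1_int n hn]; exact one_ne_zero)
  rw [l2_hq0_int, l2_hq1_int n hn, ← hK01] at hQeq
  refine ⟨hQ0, hQ1, ?_⟩
  exact Nat.eq_of_mul_eq_mul_right (Nat.pos_of_ne_zero hK0) (by linarith [hQeq])

/-- Step B: if `S ⊂ M` is cohomologically trivial and `M ⧸ S` has Herbrand quotient `n`, so has
`M`. -/
theorem l2_stepB (hH : StmtHerbrand) {M : Type} [AddCommGroup M]
    (σM : AddMonoid.End M) (n : ℕ) (hn : 0 < n) (hσM : σM ^ n = 1) (S : AddSubgroup M)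
    (hS : ∀ x ∈ S, σM x ∈ S) (h0S : hq0 (l2Restrict σM S hS) n = 1)
    (h1S : hq1 (l2Restrict σM S hS) n = 1)
    (hQ : hq0 (l2Quot σM S hS) n ≠ 0 ∧
      hq1 (l2Quot σM S hS) n ≠ 0 ∧
      hq0 (l2Quot σM S hS) n =
        hq1 (l2Quot σM S hS) n * n) :
    hq0 σM n = hq1 σM n * n := by
  obtain ⟨hQ0, hQ1, hQeq⟩ := hQ
  have hπσ : ∀ m, QuotientAddGroup.mk' S (σM m) =
      (l2Quot σM S hS)
        (QuotientAddGroup.mk' S m) := fun m => rfl
  have hσQ : (l2Quot σM S hS) ^ n
      = 1 :=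
    l2_pow_eq_one_of_surj σM _ (QuotientAddGroup.mk' S) (QuotientAddGroup.mk'_surjective S)
      hπσ n hσM
  obtain ⟨hM0, hM1, hMeq⟩ := l2_herbrand_ker hH σM
    (l2Quot σM S hS) n hn hσM hσQ
    (QuotientAddGroup.mk' S) (QuotientAddGroup.mk'_surjective S) hπσ S
    (fun x => (QuotientAddGroup.eq_zero_iff x).symm) (l2Restrict σM S hS) (fun s => rfl)
    (h0S ▸ one_ne_zero) (h1S ▸ one_ne_zero) hQ0 hQ1
  rw [h0S, h1S, hQeq] at hMeq
  exact Nat.eq_of_mul_eq_mul_right (Nat.pos_of_ne_zero hQ1) (by linarith [hMeq])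

/-- The abstract norm-index computation. -/
theorem l2_abstract (hH : StmtHerbrand) (hHf : StmtHerbrandFinite) {M : Type} [AddCommGroup M]
    (σM : AddMonoid.End M) (n : ℕ) (hn : 0 < n) (hσM : σM ^ n = 1) (S : AddSubgroup M)
    (hS : ∀ x ∈ S, σM x ∈ S) (h0S : hq0 (l2Restrict σM S hS) n = 1)
    (h1S : hq1 (l2Restrict σM S hS) n = 1)
    (ord : M →+ ℤ) (hsurj : Function.Surjective ord) (hinv : ∀ m, ord (σM m) = ord m)
    (hle : S ≤ ord.ker)
    (R : Finset M) (hR : ∀ m, ord m = 0 → ∃ r ∈ R, m - r ∈ S) :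
    hq0 σM n = hq1 σM n * n := by
  classical
  apply l2_stepB hH σM n hn hσM S hS h0S h1S
  have hπσ : ∀ m, QuotientAddGroup.mk' S (σM m) =
      (l2Quot σM S hS)
        (QuotientAddGroup.mk' S m) := fun m => rfl
  have hσQ : (l2Quot σM S hS) ^ n
      = 1 :=
    l2_pow_eq_one_of_surj σM _ (QuotientAddGroup.mk' S) (QuotientAddGroup.mk'_surjective S)
      hπσ n hσM
  have hordQsurj : Function.Surjective (QuotientAddGroup.lift S ord hle) := by
    intro k
    obtain ⟨x, hx⟩ := hsurj k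
    exact ⟨QuotientAddGroup.mk' S x, hx⟩
  have hordQσ : ∀ c, QuotientAddGroup.lift S ord hle
      ((l2Quot σM S hS) c) =
      QuotientAddGroup.lift S ord hle c := by
    intro c
    obtain ⟨m, rfl⟩ := QuotientAddGroup.mk'_surjective S c
    exact hinv m
  have hKfin : Finite (QuotientAddGroup.lift S ord hle).ker := by
    have hsub : ((QuotientAddGroup.lift S ord hle).ker : Set (M ⧸ S)) ⊆
        ↑(R.image fun r => QuotientAddGroup.mk' S r) := by
      intro c hc
      obtain ⟨m, rfl⟩ := QuotientAddGroup.mk'_surjective S c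
      have hm : ord m = 0 := hc
      obtain ⟨r, hrR, hr⟩ := hR m hm
      rw [Finset.coe_image]
      refine ⟨r, hrR, ?_⟩
      show ((r : M) : M ⧸ S) = (m : M ⧸ S)
      rw [QuotientAddGroup.eq]
      have : -r + m = m - r := by abel
      rw [this]
      exact hr
    exact (Set.Finite.subset (Finset.finite_toSet _) hsub).to_subtype
  exact l2_stepA hH hHf _ n hn hσQ (QuotientAddGroup.lift S ord hle) hordQsurj hordQσ hKfin

end Abstract

end Fermat.Agent.PT.L


end ZBPT_004_19
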