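/- GENERATED FILE (helper35, build-time optimisation, NOTES/ZB.md): verbatim concatenation of the modules
   Fermat.Agent.PT.A.Defs
   Fermat.Agent.PT.A.Plan2
   Fermat.Agent.PT.Plan
   Fermat.Agent.PT.F.RepBasic
   Fermat.Agent.PT.F.Defs
   Fermat.Agent.PT.F.SeqPlan
   Fermat.Agent.PT.F.Dual
   Fermat.Agent.PT.F.Plan
   Fermat.Agent.PT.F.Level
   Fermat.Agent.PT.F.Pair
   Fermat.Agent.PT.F.LocNondeg
   Fermat.Agent.PT.L.Plan2
   Fermat.Agent.PT.G3.Plan
   Do not edit; do not import together with these modules. -/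
import Mathlib
import Fermat.Agent.ZB.PT_001
import Fermat.Prelude.Def_GroupCohomology_PoitouTate
import Fermat.Prelude.Def_GroupCohomology_ContinuousH2Map
import Fermat.Agent.ZB.PT_004

/-! ### bundled: `Fermat.Agent.PT.A.Defs` -/
section ZBPT_002_0
/-
PT-A — shared definitions (helper9).  `Hom_ℤ(M, C)` as a representation, on the carrier
`M.V →+ C.V` (additive maps: no `Module ℤ` instance is involved, which avoids the
`AddCommGroup.toIntModule` / `Rep.hV2` diamond of `Rep ℤ G`).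
-/

set_option autoImplicit false

namespace Fermat.Agent.PT

open CategoryTheory

/-- An additive map is `ℤ`-linear for ANY two `ℤ`-module structures. -/
def addToLin {X Y : Type*} [AddCommGroup X] [AddCommGroup Y] [Module ℤ X] [Module ℤ Y]
    (f : X →+ Y) : X →ₗ[ℤ] Y :=
  { f with
    map_smul' := fun n x => by
      have := map_intCast_smul f ℤ ℤ n x
      simpa using this }

@[simp] lemma addToLin_apply {X Y : Type*} [AddCommGroup X] [AddCommGroup Y] [Module ℤ X]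
    [Module ℤ Y] (f : X →+ Y) (x : X) : addToLin f x = f x := rfl

variable {G : Type} [Group G]

/- For `k = ℤ` instance synthesis finds `AddCommGroup.toIntModule` before `Rep.hV2`, which breaks
every Mathlib function applied to `C.ρ`.  Piece owners: put this line at the top of your file. -/
attribute [local instance 1100] Rep.hV2

/-- The action of `g` on an object of `Rep ℤ G`, as an additive map. -/
noncomputable def actAdd (C : Rep.{0} ℤ G) (g : G) : C.V →+ C.V :=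
  (C.ρ g).toAddMonoidHom

@[simp] lemma actAdd_apply (C : Rep.{0} ℤ G) (g : G) (c : C.V) : actAdd C g c = C.ρ g c := rfl

/-- The additive map underlying a morphism of `Rep ℤ G`. -/
noncomputable def homAdd {A B : Rep.{0} ℤ G} (f : A ⟶ B) : A.V →+ B.V :=
  AddMonoidHom.mk' (fun a => f.hom a) (fun a b => map_add f.hom a b)

@[simp] lemma homAdd_apply {A B : Rep.{0} ℤ G} (f : A ⟶ B) (a : A.V) : homAdd f a = f.hom a := rfl

/-- Conjugation action of `g` on additive maps `M → C`: `f ↦ g ∘ f ∘ g⁻¹`. -/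
noncomputable def conjAdd (M C : Rep.{0} ℤ G) (g : G) : (M.V →+ C.V) →+ (M.V →+ C.V) where
  toFun f := (actAdd C g).comp (f.comp (actAdd M g⁻¹))
  map_zero' := by ext m; simp
  map_add' f₁ f₂ := by ext m; simp

@[simp] lemma conjAdd_apply (M C : Rep.{0} ℤ G) (g : G) (f : M.V →+ C.V) (m : M.V) :
    conjAdd M C g f m = C.ρ g (f (M.ρ g⁻¹ m)) := rfl

/-- The representation of `G` on `Hom_ℤ(M, C) = (M.V →+ C.V)` by conjugation. -/
noncomputable def homRepρ (M C : Rep.{0} ℤ G) : Representation ℤ G (M.V →+ C.V) where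
  toFun g := addToLin (conjAdd M C g)
  map_one' := by
    ext f m
    simp
  map_mul' g h := by
    ext f m
    simp [mul_inv_rev]

@[simp] lemma homRepρ_apply (M C : Rep.{0} ℤ G) (g : G) (f : M.V →+ C.V) (m : M.V) :
    homRepρ M C g f m = C.ρ g (f (M.ρ g⁻¹ m)) := rfl

/-- `Hom_ℤ(M, C)` with the conjugation action, as an object of `Rep ℤ G`. -/
noncomputable abbrev homRep (M C : Rep.{0} ℤ G) : Rep.{0} ℤ G := Rep.of (homRepρ M C)

/-- Post-composition with a morphism `f : A ⟶ B`, as a morphism `Hom(N, A) ⟶ Hom(N, B)`. -/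
noncomputable def homRepMap (N : Rep.{0} ℤ G) {A B : Rep.{0} ℤ G} (f : A ⟶ B) :
    homRep N A ⟶ homRep N B :=
  Rep.ofHom (LinearMap.intertwiningMap_of_isIntertwiningMap
    (ρ := homRepρ N A) (σ := homRepρ N B)
    (f := addToLin (AddMonoidHom.compHom (homAdd f)))
    (fun g φ => by
      ext n
      simp [Rep.hom_comm_apply]))

@[simp] lemma homRepMap_apply (N : Rep.{0} ℤ G) {A B : Rep.{0} ℤ G} (f : A ⟶ B)
    (φ : N.V →+ A.V) (n : N.V) :
    ((homRepMap N f).hom φ : N.V →+ B.V) n = f.hom (φ n) := rfl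

/-- Evaluation at a `G`-invariant element `m` of `M`, as a morphism `Hom(M, C) ⟶ C`. -/
noncomputable def evHom (M C : Rep.{0} ℤ G) (m : M.V) (hm : ∀ g : G, M.ρ g m = m) :
    homRep M C ⟶ C :=
  ConcreteCategory.ofHom (C := Rep.{0} ℤ G) (X := homRep M C) (Y := C)
   (LinearMap.intertwiningMap_of_isIntertwiningMap
    (ρ := homRepρ M C) (σ := C.ρ)
    (f := addToLin (AddMonoidHom.eval m))
    (fun g f => by
      simp [hm]))

@[simp] lemma evHom_apply (M C : Rep.{0} ℤ G) (m : M.V) (hm : ∀ g : G, M.ρ g m = m)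
    (f : M.V →+ C.V) : (evHom M C m hm).hom f = f m := rfl

/-- The additive map `c ↦ (m ↦ x m • c)` attached to an additive functional `x : M → ℤ`. -/
noncomputable def mulAdd (M C : Rep.{0} ℤ G) (x : M.V →+ ℤ) : C.V →+ (M.V →+ C.V) where
  toFun c :=
    { toFun := fun m => x m • c
      map_zero' := by simp
      map_add' := fun m₁ m₂ => by
        rw [map_add]
        first | exact add_smul _ _ _ | exact add_zsmul _ _ _ }
  map_zero' := by
    ext m
    change x m • (0 : C.V) = 0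
    first | exact smul_zero _ | exact zsmul_zero _
  map_add' c₁ c₂ := by
    ext m
    change x m • (c₁ + c₂) = x m • c₁ + x m • c₂
    first | exact smul_add _ _ _ | exact zsmul_add _ _ _

lemma mulAdd_apply (M C : Rep.{0} ℤ G) (x : M.V →+ ℤ) (c : C.V) (m : M.V) :
    mulAdd M C x c m = x m • c := rfl

/-- Multiplication by a `G`-invariant functional `x : M → ℤ`, as a morphism
`C ⟶ Hom(M, C)`, `c ↦ (m ↦ x m • c)`. -/
noncomputable def mulHom (M C : Rep.{0} ℤ G) (x : M.V →+ ℤ)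
    (hx : ∀ (g : G) (m : M.V), x (M.ρ g m) = x m) : C ⟶ homRep M C :=
  ConcreteCategory.ofHom (C := Rep.{0} ℤ G) (X := C) (Y := homRep M C)
   (LinearMap.intertwiningMap_of_isIntertwiningMap
    (ρ := C.ρ) (σ := homRepρ M C)
    (f := addToLin (mulAdd M C x))
    (fun g c => by
      ext m
      simp [hx, mulAdd_apply]))

lemma mulHom_apply (M C : Rep.{0} ℤ G) (x : M.V →+ ℤ)
    (hx : ∀ (g : G) (m : M.V), x (M.ρ g m) = x m) (c : C.V) (m : M.V) :
    ((mulHom M C x hx).hom c : M.V →+ C.V) m = x m • c := rfl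

/-- The norm `N_G h = ∑ γ, γ ∘ h ∘ γ⁻¹` of an additive map between two `G`-modules. -/
noncomputable def normAdd [Fintype G] (M C : Rep.{0} ℤ G) (h : M.V →+ C.V) : M.V →+ C.V :=
  ∑ γ : G, conjAdd M C γ h

lemma normAdd_apply [Fintype G] (M C : Rep.{0} ℤ G) (h : M.V →+ C.V) (m : M.V) :
    normAdd M C h m = ∑ γ : G, C.ρ γ (h (M.ρ γ⁻¹ m)) := by
  simp [normAdd]

/-- `x` is a norm: `x = ∑ γ, γ • a`. -/
def IsNormElt [Fintype G] (A : Rep.{0} ℤ G) (x : A.V) : Prop := ∃ a : A.V, x = ∑ γ : G, A.ρ γ a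

/-- The `G`-morphism `g : M ⟶ C` is the norm of an additive map. -/
def IsNormHom [Fintype G] {M C : Rep.{0} ℤ G} (g : M ⟶ C) : Prop :=
  ∃ h : M.V →+ C.V, ∀ m : M.V, g.hom m = normAdd M C h m

end Fermat.Agent.PT


end ZBPT_002_0

/-! ### bundled: `Fermat.Agent.PT.A.Plan2` -/
section ZBPT_002_1
/-
PT-A (Tate cohomology of finite groups) — sub-captain's interface file (helper9).
Definitions and statements only; the proofs live in the other files of `Fermat/Agent/PT/A/`.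
Piece table and mathematics: `NOTES/PT-A.md`.

WARNING (helper9): `StmtTN` of `Plan.lean` is FALSE as stated (counterexample: `p` odd,
`G = ℤ/p × ℤ/2`, `C = ℤ` with `ℤ/2` acting by `-1`, `M = ℤ` trivial: every `p`-subgroup `H` has
`H¹(H,C) = 0`, `H²(H,C) ≅ ℤ/|H|`, but `Hom_G(M,C) = 0` while `H²(G,M)` has `p`-torsion).
What is missing is a GLOBAL class `u ∈ H²(G,C)` whose restrictions generate. `StmtTN'` below is
the corrected statement (Serre, Local Fields, IX §8, Thm. 13/14, `p`-primary part).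

CONVENTION for the pieces: everything is stated WITHOUT `Module ℤ` instances on the carriers
(additive maps `M.V →+ C.V`, `IsZFree`), because for `Rep ℤ G` instance synthesis finds
`AddCommGroup.toIntModule` and not `Rep.hV2`.  Inside your proofs you may use
`attribute [local instance 1100] Rep.hV2`.
-/

set_option autoImplicit false

namespace Fermat.Agent.PT

open CategoryTheory groupCohomology

variable {G : Type} [Group G]

/-- `u ∈ H²(G, C)` is a `p`-fundamental class: for every `p`-subgroup `H` of `G`,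
`H¹(H, C) = 0` and `H²(H, C)` has order `|H|` and is generated by `res u`. -/
structure IsPFundClass (p : ℕ) (C : Rep.{0} ℤ G) (u : H2 C) : Prop where
  h1 : ∀ H : Subgroup G, IsPGroup p H → Subsingleton (H1 (Rep.res H.subtype C))
  h2_card : ∀ H : Subgroup G, IsPGroup p H →
    Nat.card (H2 (Rep.res H.subtype C)) = Nat.card H
  h2_gen : ∀ H : Subgroup G, IsPGroup p H → ∀ x : H2 (Rep.res H.subtype C),
    ∃ n : ℤ, n • (resSub C H 2).hom u = x

/-- **Tate–Nakayama duality, degree (0,2), `p`-part** (corrected form of `StmtTN`). -/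
def StmtTN' : Prop :=
  ∀ (p : ℕ) [Fact p.Prime] (G : Type) [Group G] [Fintype G] (C : Rep.{0} ℤ G) (u : H2 C),
    IsPFundClass p C u →
    ∀ (M : Rep.{0} ℤ G), Module.Free ℤ M.V → Module.Finite ℤ M.V →
      (∀ y : H2 M, IsPTors p y → (∀ g : M ⟶ C, (push₂ g).hom y = 0) → y = 0) ∧
      (∀ g : M ⟶ C, (∀ y : H2 M, IsPTors p y → (push₂ g).hom y = 0) →
        ∃ (n : ℕ) (h : M.V →ₗ[ℤ] C.V), ¬ p ∣ n ∧
          ∀ m : M.V, n • g.hom m = normHom M C h m)

/-! ## The pieces (one `Prop` each; owners in `NOTES/PT-A.md`) -/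

/-- `M` is free of finite rank as an abelian group (instance-free form). -/
def IsZFree (M : Rep.{0} ℤ G) : Prop := ∃ n : ℕ, Nonempty (M.V ≃+ (Fin n → ℤ))

/-- `u` generates `H²(G, C)`, which has order `|G|`, and `H¹(G, C) = 0`. -/
structure IsFundClass (C : Rep.{0} ℤ G) (u : H2 C) : Prop where
  h1 : Subsingleton (H1 C)
  h2_card : Nat.card (H2 C) = Nat.card G
  h2_gen : ∀ x : H2 C, ∃ n : ℤ, n • u = x

/-- **(TNadd)** `StmtTN'` in instance-free form (additive maps, `IsZFree`). -/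
def StmtTNadd : Prop :=
  ∀ (p : ℕ) [Fact p.Prime] (G : Type) [Group G] [Fintype G] (C : Rep.{0} ℤ G) (u : H2 C),
    IsPFundClass p C u → ∀ (M : Rep.{0} ℤ G), IsZFree M →
      (∀ y : H2 M, IsPTors p y → (∀ g : M ⟶ C, (push₂ g).hom y = 0) → y = 0) ∧
      (∀ g : M ⟶ C, (∀ y : H2 M, IsPTors p y → (push₂ g).hom y = 0) →
        ∃ (n : ℕ) (h : M.V →+ C.V), ¬ p ∣ n ∧ ∀ m : M.V, n • g.hom m = normAdd M C h m)

/-- **(TNp)** Tate–Nakayama (0,2) for a `p`-group `G`. -/
def StmtTNp : Prop :=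
  ∀ (p : ℕ) [Fact p.Prime] (G : Type) [Group G] [Fintype G], IsPGroup p G →
    ∀ (C : Rep.{0} ℤ G) (u : H2 C), IsFundClass C u → ∀ (M : Rep.{0} ℤ G), IsZFree M →
      (∀ y : H2 M, (∀ g : M ⟶ C, (push₂ g).hom y = 0) → y = 0) ∧
      (∀ g : M ⟶ C, (∀ y : H2 M, (push₂ g).hom y = 0) → IsNormHom g)

/-- **(KILL)** `Hⁿ(G, X)` is killed by `|G|` for `n ≥ 1`. -/
def StmtKill : Prop :=
  ∀ (G : Type) [Group G] [Fintype G] (X : Rep.{0} ℤ G) (n : ℕ) (x : groupCohomology X (n + 1)),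
    (Fintype.card G) • x = 0

/-- **(NORM0)** Push-forward along the norm of an additive map is zero on `H²`. -/
def StmtNormZero : Prop :=
  ∀ (G : Type) [Group G] [Fintype G] (M C : Rep.{0} ℤ G) (g : M ⟶ C),
    IsNormHom g → ∀ y : H2 M, (push₂ g).hom y = 0

/-- **(D00)** Elementary duality in degree `(0,0)`: for `ℤ`-free f.g. `N` and `m ∈ N^G`, if
`|G|` divides `x m` for every `G`-invariant additive functional `x`, then `m` is a norm. -/
def StmtD00 : Prop :=
  ∀ (G : Type) [Group G] [Fintype G] (N : Rep.{0} ℤ G), IsZFree N →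
    ∀ m : N.V, (∀ g : G, N.ρ g m = m) →
      (∀ x : N.V →+ ℤ, (∀ (g : G) (n : N.V), x (N.ρ g n) = x n) →
        (Fintype.card G : ℤ) ∣ x m) →
      IsNormElt N m

/-- **(D00')** The same for functionals: if `|G|` divides `x m` for every `m ∈ N^G`, then the
`G`-invariant functional `x` is the norm of a functional. -/
def StmtD00' : Prop :=
  ∀ (G : Type) [Group G] [Fintype G] (N : Rep.{0} ℤ G), IsZFree N →
    ∀ x : N.V →+ ℤ, (∀ (g : G) (n : N.V), x (N.ρ g n) = x n) →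
      (∀ m : N.V, (∀ g : G, N.ρ g m = m) → (Fintype.card G : ℤ) ∣ x m) →
      ∃ ξ : N.V →+ ℤ, ∀ n : N.V, x n = ∑ γ : G, ξ (N.ρ γ n)

/-- **(FpCT)** Cohomological triviality over `𝔽_p`: `G` a `p`-group, `p • B = 0`, `H²(G, B) = 0`.
Then `H¹` and `H²` of `Hom(N, B)` vanish for every `ℤ`-free f.g. `N`.
(Proof: `B⁺ := Coind B / B` has `H¹ = 0`, hence `B⁺ ≅ Coind((B⁺)^G)` is free over `𝔽_p[G]`,
so `B` is a direct summand of `Coind B`, and `Hom(N, Coind B) ≅ Coind (Hom(N, B))`.) -/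
def StmtFpCT : Prop :=
  ∀ (p : ℕ) [Fact p.Prime] (G : Type) [Group G] [Fintype G], IsPGroup p G →
    ∀ (B : Rep.{0} ℤ G), (∀ b : B.V, p • b = 0) → Subsingleton (H2 B) →
    ∀ (N : Rep.{0} ℤ G), IsZFree N →
      Subsingleton (H1 (homRep N B)) ∧ Subsingleton (H2 (homRep N B))

/-- **(CT)** Cohomological triviality: `G` a `p`-group, `H¹(G, A) = H²(G, A) = 0`.
Then `H¹` and `H²` of `Hom(N, A)` vanish for every `ℤ`-free f.g. `N`. -/
def StmtCT : Prop :=
  ∀ (p : ℕ) [Fact p.Prime] (G : Type) [Group G] [Fintype G], IsPGroup p G →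
    ∀ (A : Rep.{0} ℤ G), Subsingleton (H1 A) → Subsingleton (H2 A) →
    ∀ (N : Rep.{0} ℤ G), IsZFree N →
      Subsingleton (H1 (homRep N A)) ∧ Subsingleton (H2 (homRep N A))

/-- **(HOMEX)** `Hom(N, -)` preserves short exact sequences when `N` is `ℤ`-free. -/
def StmtHomEx : Prop :=
  ∀ (G : Type) [Group G] (N : Rep.{0} ℤ G), IsZFree N →
    ∀ (X Y Z : Rep.{0} ℤ G) (f : X ⟶ Y) (g : Y ⟶ Z) (w : f ≫ g = 0)
      (w' : homRepMap N f ≫ homRepMap N g = 0),
      (ShortComplex.mk f g w).ShortExact →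
      (ShortComplex.mk (homRepMap N f) (homRepMap N g) w').ShortExact

/-- **(SM)** Splitting module: for a finite group `G` and a fundamental class `u` of `C` there
are short exact sequences `0 → C → A → I → 0` and `0 → I → F → ℤ → 0` with
`H¹(G, A) = H²(G, A) = 0` and `H¹(G, Hom(N, F)) = 0` for all `ℤ`-free f.g. `N`
(`A = C(u)`, `I = I_G`, `F = ℤ[G]`). -/
def StmtSM : Prop :=
  ∀ (G : Type) [Group G] [Fintype G] (C : Rep.{0} ℤ G) (u : H2 C), IsFundClass C u →
    ∃ (A I F : Rep.{0} ℤ G) (ι : C ⟶ A) (π : A ⟶ I) (j : I ⟶ F)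
      (e : F ⟶ Rep.trivial ℤ G ℤ) (w₁ : ι ≫ π = 0) (w₂ : j ≫ e = 0),
      (ShortComplex.mk ι π w₁).ShortExact ∧ (ShortComplex.mk j e w₂).ShortExact ∧
      Subsingleton (H1 A) ∧ Subsingleton (H2 A) ∧
      ∀ N : Rep.{0} ℤ G, IsZFree N → Subsingleton (H1 (homRep N F))

/-- **(TN0)** Tate–Nakayama in degree `0`, surjectivity: for a `p`-group `G` with fundamental
class `u`, every class of `H²(G, Hom(N, C))` is `x ∪ u` for a `G`-invariant functional `x`. -/
def StmtTN0 : Prop :=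
  ∀ (p : ℕ) [Fact p.Prime] (G : Type) [Group G] [Fintype G], IsPGroup p G →
    ∀ (C : Rep.{0} ℤ G) (u : H2 C), IsFundClass C u → ∀ (N : Rep.{0} ℤ G), IsZFree N →
    ∀ ζ : H2 (homRep N C), ∃ (x : N.V →+ ℤ) (hx : ∀ (g : G) (m : N.V), x (N.ρ g m) = x m),
      ζ = (push₂ (mulHom N C x hx)).hom u

/-- **(DS)** Double dimension shift with compatibility: for a finite group `G`, a `ℤ`-free f.g.
`M` and any `C` there are a `ℤ`-free f.g. `M₂` and maps `dM : M₂^G → H²(G, M)`,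
`dH : Hom_G(M, C) → H²(G, Hom(M₂, C))`, both SURJECTIVE, vanishing exactly on norms, such that
`ev_m (dH g) = ε • g_* (dM m)` for a fixed sign `ε = ±1`. -/
def StmtDS : Prop :=
  ∀ (G : Type) [Group G] [Fintype G] (M C : Rep.{0} ℤ G), IsZFree M →
    ∃ (M₂ : Rep.{0} ℤ G) (dM : {m : M₂.V // ∀ g : G, M₂.ρ g m = m} → H2 M)
      (dH : (M ⟶ C) → H2 (homRep M₂ C)) (ε : ℤ),
      IsZFree M₂ ∧ (ε = 1 ∨ ε = -1) ∧ Function.Surjective dM ∧ Function.Surjective dH ∧
      (∀ m, dM m = 0 ↔ IsNormElt M₂ m.1) ∧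
      (∀ g : M ⟶ C, dH g = 0 ↔ IsNormHom g) ∧
      (∀ (g : M ⟶ C) (m : {m : M₂.V // ∀ g : G, M₂.ρ g m = m}),
        (push₂ (evHom M₂ C m.1 m.2)).hom (dH g) = ε • (push₂ g).hom (dM m))

/-- **(RedR)** Sylow reduction, right kernel: if `y ∈ H²(G, M)` is killed by all `G`-morphisms
`M ⟶ C`, then `res_P y` is killed by all `P`-morphisms (`P` a Sylow `p`-subgroup, `u` a
`p`-fundamental class).  (Proof: `(N_{G/P} g')_* = cor ∘ g'_* ∘ res`, `cor ∘ res = [G:P]`.) -/
def StmtRedR : Prop :=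
  ∀ (p : ℕ) [Fact p.Prime] (G : Type) [Group G] [Fintype G] (P : Sylow p G)
    (C : Rep.{0} ℤ G) (u : H2 C), IsPFundClass p C u → ∀ (M : Rep.{0} ℤ G) (y : H2 M),
    (∀ g : M ⟶ C, (push₂ g).hom y = 0) →
    ∀ g' : Rep.res (P : Subgroup G).subtype M ⟶ Rep.res (P : Subgroup G).subtype C,
      (push₂ g').hom ((resSub M (P : Subgroup G) 2).hom y) = 0

/-- **(RedL)** Sylow reduction, left kernel: if the `G`-morphism `g : M ⟶ C` kills the
`p`-primary part of `H²(G, M)`, then its restriction to `P` kills `H²(P, M)`.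
(Proof: `cor` is natural, `cor y'` is `p`-torsion, `cor ∘ res = [G:P]`.) -/
def StmtRedL : Prop :=
  ∀ (p : ℕ) [Fact p.Prime] (G : Type) [Group G] [Fintype G] (P : Sylow p G)
    (C : Rep.{0} ℤ G) (u : H2 C), IsPFundClass p C u → ∀ (M : Rep.{0} ℤ G) (g : M ⟶ C),
    (∀ y : H2 M, IsPTors p y → (push₂ g).hom y = 0) →
    ∀ y' : H2 (Rep.res (P : Subgroup G).subtype M),
      (push₂ ((Rep.resFunctor (P : Subgroup G).subtype).map g)).hom y' = 0

end Fermat.Agent.PT


end ZBPT_002_1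

/-! ### bundled: `Fermat.Agent.PT.Plan` -/
section ZBPT_002_2
/-
Project PT (Poitou–Tate campaign for S55, captain helper55) — CORE INTERFACE FILE.
Definitions and statements only.  See NOTES/S55-plan.md and NOTES/PT-F.md.

* `Tower G`            : a system of finite-index subgroups ("open subgroups") of an abstract group.
* `IsLevel₁/₂`         : level-constant cochains (mirror of the prelude's `IsLevelConstantS₁/₂`).
* `levH1`, `levH2`     : level cohomology (mirror of `continuousH1S`, `continuousH2S`).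
* `semilocal`          : the level-coinduced module `J = ∏_v coInd_{G_v}^{G} J_v`.
* `PTDatum`            : the abstract "p-class formation with local data" (all the arithmetic input).
* `shaOne`, `shaTwo`   : the abstract Tate–Shafarevich groups.
* `StmtPTF`            : the abstract Poitou–Tate theorem (target of PT-F).
-/

set_option autoImplicit false

noncomputable section

namespace Fermat.Agent.PT

open CategoryTheory groupCohomology

/-! ### Towers and level-constant cochains -/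

/-- A tower of finite-index subgroups of `G`, stable under finite intersections, in which every
member contains a normal member.  (Think: the open subgroups `Gal(ℚ̄/F)`, `F` in a family of finite
extensions stable under composita and normal closures.) -/
structure Tower (G : Type) [Group G] where
  /-- the members of the tower -/
  lev : Set (Subgroup G)
  top_mem : ⊤ ∈ lev
  inf_mem : ∀ U V : Subgroup G, U ∈ lev → V ∈ lev → U ⊓ V ∈ lev
  finiteIndex : ∀ U ∈ lev, U.FiniteIndex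
  exists_normal : ∀ U ∈ lev, ∃ V ∈ lev, V ≤ U ∧ V.Normal

section Level

variable {G : Type} [Group G] (𝒯 : Tower G)

/-- `f : G → X` is right-invariant under some member of the tower. -/
def IsLevel₁ {X : Type*} (f : G → X) : Prop :=
  ∃ U ∈ 𝒯.lev, ∀ g s : G, s ∈ U → f (g * s) = f g

/-- `f : G × G → X` is right-invariant (in both variables) under some member of the tower. -/
def IsLevel₂ {X : Type*} (f : G × G → X) : Prop :=
  ∃ U ∈ 𝒯.lev, ∀ g g' s s' : G, s ∈ U → s' ∈ U → f (g * s, g' * s') = f (g, g')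

variable {𝒯}

lemma IsLevel₁.add {X : Type*} [Add X] {f f' : G → X} (hf : IsLevel₁ 𝒯 f) (hf' : IsLevel₁ 𝒯 f') :
    IsLevel₁ 𝒯 (f + f') := by
  obtain ⟨U, hU, h⟩ := hf
  obtain ⟨U', hU', h'⟩ := hf'
  refine ⟨U ⊓ U', 𝒯.inf_mem U U' hU hU', fun g s hs => ?_⟩
  simp only [Pi.add_apply]
  rw [h g s hs.1, h' g s hs.2]

lemma IsLevel₂.add {X : Type*} [Add X] {f f' : G × G → X} (hf : IsLevel₂ 𝒯 f)
    (hf' : IsLevel₂ 𝒯 f') : IsLevel₂ 𝒯 (f + f') := by
  obtain ⟨U, hU, h⟩ := hf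
  obtain ⟨U', hU', h'⟩ := hf'
  refine ⟨U ⊓ U', 𝒯.inf_mem U U' hU hU', fun g g' s s' hs hs' => ?_⟩
  simp only [Pi.add_apply]
  rw [h g g' s s' hs.1 hs'.1, h' g g' s s' hs.2 hs'.2]

variable (𝒯) in
lemma isLevel₁_const {X : Type*} (x : X) : IsLevel₁ 𝒯 (fun _ : G => x) :=
  ⟨⊤, 𝒯.top_mem, fun _ _ _ => rfl⟩

variable (𝒯) in
lemma isLevel₂_const {X : Type*} (x : X) : IsLevel₂ 𝒯 (fun _ : G × G => x) :=
  ⟨⊤, 𝒯.top_mem, fun _ _ _ _ _ _ => rfl⟩

lemma IsLevel₁.comp {X Y : Type*} {f : G → X} (hf : IsLevel₁ 𝒯 f) (φ : X → Y) :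
    IsLevel₁ 𝒯 (φ ∘ f) := by
  obtain ⟨U, hU, h⟩ := hf
  exact ⟨U, hU, fun g s hs => by simp only [Function.comp_apply, h g s hs]⟩

lemma IsLevel₂.comp {X Y : Type*} {f : G × G → X} (hf : IsLevel₂ 𝒯 f) (φ : X → Y) :
    IsLevel₂ 𝒯 (φ ∘ f) := by
  obtain ⟨U, hU, h⟩ := hf
  exact ⟨U, hU, fun g g' s s' hs hs' => by simp only [Function.comp_apply, h g g' s s' hs hs']⟩

/-- Right translation preserves level-constancy. -/
lemma IsLevel₁.rightTranslate {X : Type*} {f : G → X} (hf : IsLevel₁ 𝒯 f) (σ : G) :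
    IsLevel₁ 𝒯 (fun g => f (g * σ)) := by
  obtain ⟨U, hU, h⟩ := hf
  obtain ⟨V, hV, hVU, hVn⟩ := 𝒯.exists_normal U hU
  refine ⟨V, hV, fun g s hs => ?_⟩
  have h1 : g * s * σ = g * σ * (σ⁻¹ * s * σ) := by group
  show f (g * s * σ) = f (g * σ)
  rw [h1]
  exact h (g * σ) _ (hVU (by simpa using hVn.conj_mem s hs σ⁻¹))

end Level

section LevelCohomology

variable {k : Type} [CommRing k] {G : Type} [Group G] (𝒯 : Tower G) (M : Rep.{0} k G)

/-- level 1-cochains -/
def levCochains₁ : Submodule k (G → M) where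
  carrier := {f | IsLevel₁ 𝒯 f}
  add_mem' hf hf' := hf.add hf'
  zero_mem' := isLevel₁_const 𝒯 (0 : M)
  smul_mem' c _ hf := hf.comp (c • ·)

/-- level 2-cochains -/
def levCochains₂ : Submodule k (G × G → M) where
  carrier := {f | IsLevel₂ 𝒯 f}
  add_mem' hf hf' := hf.add hf'
  zero_mem' := isLevel₂_const 𝒯 (0 : M)
  smul_mem' c _ hf := hf.comp (c • ·)

lemma mem_levCochains₁_iff (f : G → M) : f ∈ levCochains₁ 𝒯 M ↔ IsLevel₁ 𝒯 f := Iff.rfl

lemma mem_levCochains₂_iff (f : G × G → M) : f ∈ levCochains₂ 𝒯 M ↔ IsLevel₂ 𝒯 f := Iff.rfl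

/-- level 1-cocycles -/
def levCocycles₁ : Submodule k (cocycles₁ M) :=
  (levCochains₁ 𝒯 M).comap (cocycles₁ M).subtype

/-- `H¹_lev(G, M) ⊆ H¹(G, M)`: the classes of level-constant 1-cocycles
(mirror of the prelude's `continuousH1S`). -/
def levH1 : Submodule k (H1 M) :=
  (levCocycles₁ 𝒯 M).map (H1π M).hom

lemma mem_levH1_iff (x : H1 M) :
    x ∈ levH1 𝒯 M ↔ ∃ c : cocycles₁ M, IsLevel₁ 𝒯 c ∧ (H1π M).hom c = x := by
  simp only [levH1, Submodule.mem_map, levCocycles₁, Submodule.mem_comap]; rfl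

/-- level 2-cocycles -/
def levCocycles₂ : Submodule k (G × G → M) :=
  cocycles₂ M ⊓ levCochains₂ 𝒯 M

/-- level 2-coboundaries: `d` of level 1-cochains -/
def levCoboundaries₂ : Submodule k (G × G → M) :=
  (levCochains₁ 𝒯 M).map (d₁₂ M).hom

lemma mem_levCocycles₂_iff (f : G × G → M) :
    f ∈ levCocycles₂ 𝒯 M ↔ f ∈ cocycles₂ M ∧ IsLevel₂ 𝒯 f := Iff.rfl

lemma mem_levCoboundaries₂_iff (f : G × G → M) :
    f ∈ levCoboundaries₂ 𝒯 M ↔ ∃ x : G → M, IsLevel₁ 𝒯 x ∧ (d₁₂ M).hom x = f := by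
  simp only [levCoboundaries₂, Submodule.mem_map, mem_levCochains₁_iff]

/-- `H²_lev(G, M)`: level 2-cocycles modulo `d` of level 1-cochains
(mirror of the prelude's `continuousH2S` / `continuousH2`). -/
abbrev levH2 : Type :=
  ↥(levCocycles₂ 𝒯 M) ⧸ (levCoboundaries₂ 𝒯 M).comap (levCocycles₂ 𝒯 M).subtype

/-- the projection from level 2-cocycles to `H²_lev` -/
abbrev levH2π : ↥(levCocycles₂ 𝒯 M) →ₗ[k] levH2 𝒯 M :=
  Submodule.mkQ _

lemma levH2π_eq_zero_iff (f : ↥(levCocycles₂ 𝒯 M)) :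
    levH2π 𝒯 M f = 0 ↔ (f : G × G → M) ∈ levCoboundaries₂ 𝒯 M := by
  simp [Submodule.Quotient.mk_eq_zero, Submodule.mem_comap]

end LevelCohomology

section LevelMap

variable {k : Type} [CommRing k] {G H : Type} [Group G] [Group H]
  (𝒯G : Tower G) (𝒯H : Tower H) (f : H →* G)
  (hf : ∀ U ∈ 𝒯G.lev, U.comap f ∈ 𝒯H.lev)

include hf in
lemma IsLevel₁.precomp {X : Type*} {x : G → X} (hx : IsLevel₁ 𝒯G x) : IsLevel₁ 𝒯H (x ∘ f) := by
  obtain ⟨U, hU, h⟩ := hx
  refine ⟨U.comap f, hf U hU, fun g s hs => ?_⟩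
  simp only [Function.comp_apply, map_mul]
  exact h (f g) (f s) hs

include hf in
lemma IsLevel₂.precomp {X : Type*} {x : G × G → X} (hx : IsLevel₂ 𝒯G x) :
    IsLevel₂ 𝒯H (x ∘ Prod.map f f) := by
  obtain ⟨U, hU, h⟩ := hx
  refine ⟨U.comap f, hf U hU, fun g g' s s' hs hs' => ?_⟩
  simp only [Function.comp_apply, Prod.map_apply, map_mul]
  exact h (f g) (f g') (f s) (f s') hs hs'

variable (A : Rep.{0} k G)

/-- restriction of level 2-cocycles along `f : H → G` (with the same coefficients) -/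
def levCocycles₂Res : ↥(levCocycles₂ 𝒯G A) →ₗ[k] ↥(levCocycles₂ 𝒯H (Rep.res f A)) :=
  (cochainsPullPush₂ f (LinearMap.id : A →ₗ[k] Rep.res f A)).restrict fun _ hx =>
    ⟨cochainsPullPush₂_mem_cocycles₂ f _ (fun _ _ => rfl) hx.1,
      ((IsLevel₂.precomp 𝒯G 𝒯H f hf hx.2).comp _ :)⟩

/-- restriction `H²_lev(G, A) → H²_lev(H, A)` along `f : H → G`
(mirror of the prelude's `locRes₂S`). -/
def levH2Res : levH2 𝒯G A →ₗ[k] levH2 𝒯H (Rep.res f A) :=
  Submodule.mapQ _ _ (levCocycles₂Res 𝒯G 𝒯H f hf A) fun x hx => by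
    obtain ⟨y, hy, hyx⟩ := (mem_levCoboundaries₂_iff 𝒯G A _).1 hx
    refine (mem_levCoboundaries₂_iff 𝒯H (Rep.res f A) _).2
      ⟨cochainsPullPush₁ f (LinearMap.id : A →ₗ[k] Rep.res f A) y,
        ((IsLevel₁.precomp 𝒯G 𝒯H f hf hy).comp _ :), ?_⟩
    rw [← cochainsPullPush₂_d₁₂ f _ (fun _ _ => rfl) y, hyx]
    rfl

end LevelMap

/-! ### The semilocal (level-coinduced) module -/

section Semilocal

variable {G : Type} [Group G] (𝒯 : Tower G) {ι : Type} {Gloc : ι → Type} [∀ v, Group (Gloc v)]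
  (r : ∀ v, Gloc v →* G) (Jloc : ∀ v, Rep.{0} ℤ (Gloc v))

/-- The underlying group of `J = ∏_v coInd_{G_v}^G J_v`: families of functions `f v : G → J_v`
with `f v (r d * g) = d • f v g`, right-invariant under some member of the tower. -/
def semilocalSub : AddSubgroup (∀ v, G → (Jloc v).V) where
  carrier := {f | ∀ v, (∀ (d : Gloc v) (g : G), f v (r v d * g) = (Jloc v).ρ d (f v g)) ∧
    IsLevel₁ 𝒯 (f v)}
  add_mem' := fun {f f'} hf hf' v =>
    ⟨fun d g => by simp [(hf v).1 d g, (hf' v).1 d g], (hf v).2.add (hf' v).2⟩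
  zero_mem' := fun v => ⟨fun d g => by simp, isLevel₁_const 𝒯 (0 : (Jloc v).V)⟩
  neg_mem' := fun {f} hf v =>
    ⟨fun d g => by simp [(hf v).1 d g], ((hf v).2.comp (fun x => -x) :)⟩

/-- `G` acts on `J` by right translation: `(σ f) v g = f v (g σ)`. -/
def semilocalRho : Representation ℤ G (semilocalSub 𝒯 r Jloc) where
  toFun σ :=
    { toFun := fun f => ⟨fun v g => f.1 v (g * σ), fun v =>
        ⟨fun d g => by
            show f.1 v (r v d * g * σ) = (Jloc v).ρ d (f.1 v (g * σ))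
            rw [mul_assoc]
            exact (f.2 v).1 d (g * σ),
          (f.2 v).2.rightTranslate σ⟩⟩
      map_add' := fun f f' => rfl
      map_smul' := fun n f => rfl }
  map_one' := by
    ext f
    simp
  map_mul' σ τ := by
    ext f
    simp [mul_assoc]

/-- The semilocal module `J = ∏_v coInd_{G_v}^G J_v` as a representation of `G`. -/
noncomputable def semilocal : Rep.{0} ℤ G := Rep.of (semilocalRho 𝒯 r Jloc)

end Semilocal

/-! ### The abstract datum -/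

section Datum

variable (p : ℕ) (G : Type) [Group G] (ι : Type) (Gloc : ι → Type) [∀ v, Group (Gloc v)]

/-- **The abstract arithmetic datum** ("`p`-class formation with local data").

Concrete instance (built by PT-B from the results of PT-L, PT-G1/G2/G3, PT-X):
`G = G_ℚ`, `𝒯 = {Gal(ℚ̄/F) | F unramified outside S}`, `ι = S`, `Gloc q = Gal(ℚ̄_q/ℚ_q)`,
`r q = localGaloisToGlobal q`, `𝒯loc q = {r⁻¹ Gal(ℚ̄/F) | F/ℚ finite}`, `χ = cycloChar p`,
`E = 𝒪_{ℚ_S,S}ˣ` (the `S`-units of `ℚ_S`), `Jloc q = (ℚ_q·ι(ℚ̄))ˣ`, `C = colim_L C_S(L)`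
(the `S`-idèle class module, without archimedean components). -/
structure PTDatum where
  /-- the global tower -/
  𝒯 : Tower G
  /-- local-to-global homomorphisms -/
  r : ∀ v, Gloc v →* G
  /-- the local towers -/
  𝒯loc : ∀ v, Tower (Gloc v)
  comap_mem : ∀ v, ∀ U ∈ 𝒯.lev, (U.comap (r v)) ∈ (𝒯loc v).lev
  /-- the mod `p` cyclotomic character -/
  χ : G →* (ZMod p)ˣ
  χ_level : ∃ U ∈ 𝒯.lev, ∀ s ∈ U, χ s = 1
  /-- the global units -/
  E : Rep.{0} ℤ G
  /-- the class module -/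
  C : Rep.{0} ℤ G
  /-- the local multiplicative groups -/
  Jloc : ∀ v, Rep.{0} ℤ (Gloc v)
  E_discrete : ∀ e : E.V, ∃ U ∈ 𝒯.lev, ∀ s ∈ U, E.ρ s e = e
  C_discrete : ∀ c : C.V, ∃ U ∈ 𝒯.lev, ∀ s ∈ U, C.ρ s c = c
  Jloc_discrete : ∀ (v : ι) (x : (Jloc v).V), ∃ V ∈ (𝒯loc v).lev, ∀ s ∈ V, (Jloc v).ρ s x = x
  /-- the local embeddings `E → J_v` -/
  j : ∀ v, Rep.res (r v) E ⟶ Jloc v
  j_injective : ∀ v, Function.Injective (j v).hom
  /-- the diagonal embedding `E → J` -/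
  i : E ⟶ semilocal 𝒯 r Jloc
  i_apply : ∀ (e : E.V) (v : ι) (g : G), (i.hom e).1 v g = (j v).hom (E.ρ g e)
  i_injective : Function.Injective i.hom
  /-- the projection `J → C` -/
  π : semilocal 𝒯 r Jloc ⟶ C
  /-- `E = ker (J → C)` -/
  exact : ∀ x : (semilocal 𝒯 r Jloc).V, π.hom x = 0 ↔ ∃ e : E.V, i.hom e = x
  /-- `J → C` is surjective (in the instance `C = J / E`, see NOTES/PT-instance.md) -/
  π_surj : Function.Surjective π.hom
  /-- a primitive `p`-th root of unity (written additively) -/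
  ζ : E.V
  ζ_ne : ζ ≠ 0
  ζ_tors : p • ζ = 0
  ζ_gen : ∀ e : E.V, p • e = 0 → ∃ n : ℕ, e = n • ζ
  ζ_char : ∀ g : G, E.ρ g ζ = ((χ g : ZMod p).val) • ζ
  /-- (E-div) `E` is `p`-divisible -/
  E_div : ∀ e : E.V, ∃ e' : E.V, p • e' = e
  /-- (J-div) `J_v` is `p`-divisible with `p`-torsion `μ_p` -/
  J_div : ∀ (v : ι) (x : (Jloc v).V), ∃ y : (Jloc v).V, p • y = x
  J_tors : ∀ (v : ι) (x : (Jloc v).V), p • x = 0 → ∃ n : ℕ, x = n • (j v).hom ζ
  /-- (CM-glob) at every normal level the class module has a `p`-fundamental class -/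
  cm_glob : ∀ (U : Subgroup G) [U.Normal], U ∈ 𝒯.lev →
    ∃ u : H2 (C.quotientToInvariants U), IsPFundClass p (C.quotientToInvariants U) u
  /-- (CM-loc) the same for the local multiplicative groups -/
  cm_loc : ∀ (v : ι) (V : Subgroup (Gloc v)) [V.Normal], V ∈ (𝒯loc v).lev →
    ∃ u : H2 ((Jloc v).quotientToInvariants V), IsPFundClass p ((Jloc v).quotientToInvariants V) u
  /-- (H90-loc) Hilbert 90 for the local multiplicative groups, at every normal local level and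
  for every subgroup of the finite quotient -/
  h90_loc : ∀ (v : ι) (V : Subgroup (Gloc v)) [V.Normal], V ∈ (𝒯loc v).lev →
    ∀ H : Subgroup (Gloc v ⧸ V),
      Subsingleton (H1 (Rep.res H.subtype ((Jloc v).quotientToInvariants V)))
  /-- (exist) existence theorem mod `p`: below every level there are normal levels `U' ≤ U₁` with
  `N_{U₁/U'} (C^{U'}) ⊆ p • C^{U₁}`. -/
  exist : ∀ U ∈ 𝒯.lev, ∃ U₁ ∈ 𝒯.lev, ∃ U' ∈ 𝒯.lev, U₁ ≤ U ∧ U' ≤ U₁ ∧ U₁.Normal ∧ U'.Normal ∧
    ∀ c : C.V, (∀ s ∈ U', C.ρ s c = c) →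
      ∃ c' : C.V, (∀ s ∈ U₁, C.ρ s c' = c') ∧
        p • c' = ∑ᶠ t : ↥U₁ ⧸ U'.subgroupOf U₁, C.ρ ((Quotient.out t : ↥U₁) : G) c
  /-- (surv') local-to-global injectivity on `H²` (consequence of the reciprocity law):
  a `p`-primary level class in `H²(G, J)` which is supported at one place `v` and dies in
  `H²(G, C)` has trivial `v`-component. -/
  surv : ∀ (v : ι) (y : G × G → (semilocal 𝒯 r Jloc).V),
    y ∈ cocycles₂ (semilocal 𝒯 r Jloc) → IsLevel₂ 𝒯 y →
    (∀ v' : ι, v' ≠ v → ∀ g g' h : G, (y (g, g')).1 v' h = 0) →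
    (∃ (k : ℕ) (t : G → (semilocal 𝒯 r Jloc).V), IsLevel₁ 𝒯 t ∧
      (d₁₂ (semilocal 𝒯 r Jloc)).hom t = (p ^ k) • y) →
    (∃ t : G → C.V, IsLevel₁ 𝒯 t ∧ (d₁₂ C).hom t = fun gg => π.hom (y gg)) →
    ∃ t : Gloc v → (Jloc v).V, IsLevel₁ (𝒯loc v) t ∧
      (d₁₂ (Jloc v)).hom t = fun dd => (y (r v dd.1, r v dd.2)).1 v 1

variable {p G ι Gloc}

/-- The abstract `Ш¹`: level classes in `H¹(G, A)` which vanish in every (abstract) local `H¹`.
Mirror of the prelude's `sha₁`. -/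
def PTDatum.shaOne (D : PTDatum p G ι Gloc) {k : Type} [Field k] (A : Rep.{0} k G) :
    Submodule k (H1 A) :=
  levH1 D.𝒯 A ⊓ LinearMap.ker (locTotal D.r A)

/-- The total localisation map on `H²_lev`.  Mirror of the prelude's `locTotal₂S`. -/
def PTDatum.locTwo (D : PTDatum p G ι Gloc) {k : Type} [Field k] (A : Rep.{0} k G) :
    levH2 D.𝒯 A →ₗ[k] ∀ v, levH2 (D.𝒯loc v) (Rep.res (D.r v) A) :=
  LinearMap.pi fun v => levH2Res D.𝒯 (D.𝒯loc v) (D.r v) (D.comap_mem v) A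

/-- The abstract `Ш²`.  Mirror of the prelude's `sha₂`. -/
def PTDatum.shaTwo (D : PTDatum p G ι Gloc) {k : Type} [Field k] (A : Rep.{0} k G) :
    Submodule k (levH2 D.𝒯 A) :=
  LinearMap.ker (D.locTwo A)

end Datum

/-- **The abstract Poitou–Tate theorem** (target of PT-F): for a datum `D` and a finite-dimensional
`𝔽_p`-representation `A` of `G` which is trivial on some level, there is a perfect pairing
`Ш¹(A*(1)) × Ш²(A) → 𝔽_p`. -/
def StmtPTF : Prop :=
  ∀ (p : ℕ) [Fact p.Prime] (G : Type) [Group G] (ι : Type) [Fintype ι] (Gloc : ι → Type)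
    [∀ v, Group (Gloc v)] (D : PTDatum p G ι Gloc)
    (A : Rep.{0} (ZMod p) G) [FiniteDimensional (ZMod p) A],
    (∃ U ∈ D.𝒯.lev, ∀ s ∈ U, A.ρ s = 1) →
    ∃ B : D.shaOne (A.dualTwist D.χ) →ₗ[ZMod p] D.shaTwo A →ₗ[ZMod p] ZMod p,
      (∀ y, (∀ x, B y x = 0) → y = 0) ∧ (∀ x, (∀ y, B y x = 0) → x = 0)

end Fermat.Agent.PT

end


end ZBPT_002_2

/-! ### bundled: `Fermat.Agent.PT.F.RepBasic` -/
section ZBPT_002_3

/-!
# PT-F / basic API (helper68): morphisms of `Rep ℤ G` pointwise, additivity of `Hⁿ(G, -)`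
-/

set_option autoImplicit false

open CategoryTheory groupCohomology Fermat.Agent.PT

namespace Fermat.Agent.PT.F

variable {G : Type} [Group G]

theorem rep_hom_ext' {A B : Rep.{0} ℤ G} {f g : A ⟶ B} (h : ∀ a : A.V, f.hom a = g.hom a) : f = g :=
  Rep.hom_ext (DFunLike.ext _ _ h)

@[simp] theorem rep_add_apply {A B : Rep.{0} ℤ G} (f g : A ⟶ B) (a : A.V) :
    (f + g).hom a = f.hom a + g.hom a := by
  rw [Rep.add_hom]; rfl

/-- Evaluation at `a` as an additive map on morphisms. -/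
def repEval {A B : Rep.{0} ℤ G} (a : A.V) : (A ⟶ B) →+ B.V where
  toFun f := f.hom a
  map_zero' := rfl
  map_add' f g := rep_add_apply f g a

@[simp] theorem rep_sub_apply {A B : Rep.{0} ℤ G} (f g : A ⟶ B) (a : A.V) :
    (f - g).hom a = f.hom a - g.hom a := map_sub (repEval a) f g

@[simp] theorem rep_zsmul_apply {A B : Rep.{0} ℤ G} (f : A ⟶ B) (n : ℤ) (a : A.V) :
    (n • f).hom a = n • f.hom a := map_zsmul (repEval a) n f

@[simp] theorem rep_nsmul_apply {A B : Rep.{0} ℤ G} (f : A ⟶ B) (n : ℕ) (a : A.V) :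
    (n • f).hom a = n • f.hom a := map_nsmul (repEval a) n f

@[simp] theorem rep_comp_apply {A B C : Rep.{0} ℤ G} (f : A ⟶ B) (g : B ⟶ C) (a : A.V) :
    (f ≫ g).hom a = g.hom (f.hom a) := rfl

@[simp] theorem rep_id_apply {A : Rep.{0} ℤ G} (a : A.V) : (𝟙 A : A ⟶ A).hom a = a := rfl

@[simp] theorem rep_zero_apply {A B : Rep.{0} ℤ G} (a : A.V) : (0 : A ⟶ B).hom a = 0 := rfl

/-- `Hⁿ(G, -)` is additive in the coefficient morphism. -/
theorem map_id_add {A B : Rep.{0} ℤ G} (φ ψ : A ⟶ B) (n : ℕ) :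
    groupCohomology.map (MonoidHom.id G) (φ + ψ) n =
      groupCohomology.map (MonoidHom.id G) φ n + groupCohomology.map (MonoidHom.id G) ψ n := by
  have h : cochainsMap (MonoidHom.id G) (φ + ψ) =
      cochainsMap (MonoidHom.id G) φ + cochainsMap (MonoidHom.id G) ψ :=
    (cochainsFunctor ℤ G).map_add
  simp only [groupCohomology.map, h]
  exact HomologicalComplex.homologyMap_add _ _ _

instance functor_additive (n : ℕ) : (groupCohomology.functor ℤ G n).Additive where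
  map_add := map_id_add _ _ n

theorem map_id_sub {A B : Rep.{0} ℤ G} (φ ψ : A ⟶ B) (n : ℕ) :
    groupCohomology.map (MonoidHom.id G) (φ - ψ) n =
      groupCohomology.map (MonoidHom.id G) φ n - groupCohomology.map (MonoidHom.id G) ψ n :=
  (groupCohomology.functor ℤ G n).map_sub

theorem map_id_nsmul {A B : Rep.{0} ℤ G} (φ : A ⟶ B) (m n : ℕ) :
    groupCohomology.map (MonoidHom.id G) (m • φ) n =
      m • groupCohomology.map (MonoidHom.id G) φ n :=
  (groupCohomology.functor ℤ G n).map_nsmul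

theorem map_id_zero {A B : Rep.{0} ℤ G} (n : ℕ) :
    groupCohomology.map (MonoidHom.id G) (0 : A ⟶ B) n = 0 :=
  (groupCohomology.functor ℤ G n).map_zero _ _

/-- If `p` kills `A` then `p` kills `Hⁿ(G, A)`. -/
theorem nsmul_eq_zero_of_forall {A : Rep.{0} ℤ G} (p : ℕ) (hp : ∀ a : A.V, p • a = 0) (n : ℕ)
    (x : groupCohomology A n) : p • x = 0 := by
  have h0 : (p • 𝟙 A : A ⟶ A) = 0 := rep_hom_ext' fun a => by simp [hp]
  have h1 := map_id_nsmul (𝟙 A) p n
  rw [h0, map_id_zero, groupCohomology.map_id] at h1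
  have h2 := congrArg (fun f => f.hom x) h1
  simpa using h2.symm

end Fermat.Agent.PT.F


end ZBPT_002_3

/-! ### bundled: `Fermat.Agent.PT.F.Defs` -/
section ZBPT_002_4
/-
PT-F (formal part of the Poitou–Tate campaign) — SHARED DEFINITIONS for the limit part.
Blueprint: NOTES/PT-F-blueprint.md (§2, §3, §6).  Author: helper55.

* `mkHom`          : a morphism of `Rep ℤ G` from an equivariant linear map
* (`homRep M Y`, `homAdd`, `actAdd`, `conjAdd`, `addToLin` are in PT/A/Defs.lean, helper9)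
* `Presentation`   : `0 → M₁ → M₀ → A' → 0`, `M₀ = ℤ[G/U₀]^r`
* `kappa`          : `A → Hom_ℤ(M₀, E)`, `a ↦ (m ↦ (ε m)(a) • ζ)`   (here `A' = A.dualTwist χ`)
* `Eglob`, `Eloc`  : `𝔈 = Hom_G(M₁, C)/res Hom_G(M₀, C)` and its local analogue
* `hat`            : `Hom_{G_v}(M₁, J_v) → Hom_G(M₁, J)` (Frobenius reciprocity)
* `IsDel`          : the relation "`w` is a cocycle representing `∂ g`"
-/

set_option autoImplicit false

noncomputable section

namespace Fermat.Agent.PT.F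

open CategoryTheory groupCohomology Fermat.Agent.PT

section Basic

variable {G : Type} [Group G]

attribute [local instance 1100] Rep.hV2

/-- A morphism of `Rep ℤ G` from an equivariant additive map. -/
def mkHom {A B : Rep.{0} ℤ G} (f : A.V →+ B.V) (hf : ∀ g a, f (A.ρ g a) = B.ρ g (f a)) :
    A ⟶ B :=
  ConcreteCategory.ofHom (C := Rep.{0} ℤ G) (X := A) (Y := B)
    (LinearMap.intertwiningMap_of_isIntertwiningMap (ρ := A.ρ) (σ := B.ρ)
      (f := addToLin f) (fun g a => hf g a))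

@[simp] lemma mkHom_apply {A B : Rep.{0} ℤ G} (f : A.V →+ B.V)
    (hf : ∀ g a, f (A.ρ g a) = B.ρ g (f a)) (a : A.V) : (mkHom f hf).hom a = f a := rfl

end Basic

/-! ### Presentations -/

/-- A presentation `0 → M₁ → M₀ → A' → 0` of a `G`-module `A'` by a `ℤ`-free module `M₀` of finite
rank, all trivial on the normal level `U₀`.  (The standard one, `M₀ = ℤ[G/U₀ × A']`, is
constructed in `PT/F/StdPres.lean`.) -/
structure Presentation {G : Type} [Group G] (𝒯 : Tower G) {k : Type} [CommRing k]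
    (A' : Rep.{0} k G) where
  /-- the normal level on which everything is trivial -/
  U₀ : Subgroup G
  U₀_mem : U₀ ∈ 𝒯.lev
  U₀_normal : U₀.Normal
  /-- the free module -/
  M₀ : Rep.{0} ℤ G
  /-- the relation module -/
  M₁ : Rep.{0} ℤ G
  /-- the inclusion -/
  inc : M₁ ⟶ M₀
  /-- the augmentation -/
  ε : M₀.V →+ A'.V
  ε_ρ : ∀ (g : G) (m : M₀.V), ε (M₀.ρ g m) = A'.ρ g (ε m)
  inc_injective : Function.Injective inc.hom
  ε_surjective : Function.Surjective ε
  exact : ∀ m : M₀.V, ε m = 0 ↔ ∃ m₁ : M₁.V, inc.hom m₁ = m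
  triv₀ : ∀ s ∈ U₀, ∀ m : M₀.V, M₀.ρ s m = m
  /-- a finite `ℤ`-basis of `M₀` -/
  n : ℕ
  basis₀ : Fin n → M₀.V
  basis₀_spec : ∀ (Y : Type) [AddCommGroup Y] (f : Fin n → Y),
    ∃! h : M₀.V →+ Y, ∀ j, h (basis₀ j) = f j

section Datum

variable {p : ℕ} {G : Type} [Group G] {ι : Type} {Gloc : ι → Type}
  [∀ v, Group (Gloc v)] (D : PTDatum p G ι Gloc)

/-- the semilocal module of the datum -/
abbrev PTJ : Rep.{0} ℤ G := semilocal D.𝒯 D.r D.Jloc

/-- evaluation at the identity of the `v`-component: `J → J_v`, `f ↦ f v 1` -/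
def ev (v : ι) : (PTJ D).V →+ (D.Jloc v).V where
  toFun f := f.1 v 1
  map_zero' := rfl
  map_add' _ _ := rfl

@[simp] lemma ev_apply (v : ι) (f : (PTJ D).V) : ev D v f = f.1 v 1 := rfl

variable (A : Rep.{0} (ZMod p) G) (P : Presentation D.𝒯 (A.dualTwist D.χ))

/-- `κ : A → Hom_ℤ(M₀, E)`, `a ↦ (m ↦ (ε m)(a) • ζ)`: the identification `A = Hom(A', μ_p)`
(`A' = A.dualTwist χ` has carrier `Module.Dual (ZMod p) A`). -/
def kappaFun (a : A.V) (m : P.M₀.V) : D.E.V :=
  ((show Module.Dual (ZMod p) A.V from P.ε m) a).val • D.ζ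

/-- The coboundary `σ ↦ σ h σ⁻¹ - h` of an additive map `h : M → Y`. -/
def dZero (M Y : Rep.{0} ℤ G) (h : M.V →+ Y.V) (σ : G) : M.V →+ Y.V :=
  conjAdd M Y σ h - h

/-- The coboundary `(σ, τ) ↦ σ t(τ) σ⁻¹ - t(στ) + t(σ)` of a 1-cochain with values in
`Hom_ℤ(M, Y)`. -/
def dOne (M Y : Rep.{0} ℤ G) (t : G → (M.V →+ Y.V)) (στ : G × G) : M.V →+ Y.V :=
  conjAdd M Y στ.1 (t στ.2) - t (στ.1 * στ.2) + t στ.1

/-- **The relation "`w` represents `∂ g`"** (blueprint §6): there are an additive lift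
`g̃ : M₁ → J` of `g : M₁ → C` and a level 1-cochain `z̃ : G → Hom_ℤ(M₀, E)` extending
`z(σ) = σ g̃ σ⁻¹ - g̃ : M₁ → E` such that `κ ∘ w = d z̃`. -/
def IsDel (g : P.M₁ ⟶ D.C) (w : G × G → A.V) : Prop :=
  ∃ (gt : P.M₁.V →+ (PTJ D).V) (zt : G → (P.M₀.V →+ D.E.V)),
    (∀ m, D.π.hom (gt m) = g.hom m) ∧
    IsLevel₁ D.𝒯 zt ∧
    (∀ (σ : G) (m : P.M₁.V), D.i.hom (zt σ (P.inc.hom m)) = dZero P.M₁ (PTJ D) gt σ m) ∧
    (∀ (στ : G × G) (m : P.M₀.V), kappaFun D A P (w στ) m = dOne P.M₀ D.E zt στ m)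

/-- `w` represents `∂ g` up to a level coboundary. -/
def IsDelClass (g : P.M₁ ⟶ D.C) (w : G × G → A.V) : Prop :=
  ∃ w₀ : G × G → A.V, IsDel D A P g w₀ ∧ w - w₀ ∈ levCoboundaries₂ D.𝒯 A

end Datum

/-! ### Frobenius reciprocity `Hom_{G_v}(M, J_v) → Hom_G(M, J)` -/

section Hat

open Classical in
/-- the family of functions underlying `ĝ_v(m)`: `v`-component `σ ↦ g_v(σ m)`, other components 0 -/
def hatFun {G : Type} [Group G] {ι : Type} {Gloc : ι → Type} [∀ v, Group (Gloc v)]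
    (Jloc : ∀ v, Rep.{0} ℤ (Gloc v)) (M : Rep.{0} ℤ G) (v : ι) (gv : M.V →+ (Jloc v).V)
    (m : M.V) : ∀ v', G → (Jloc v').V :=
  fun v' σ => if h : v = v' then h ▸ gv (M.ρ σ m) else 0

lemma hatFun_same {G : Type} [Group G] {ι : Type} {Gloc : ι → Type} [∀ v, Group (Gloc v)]
    (Jloc : ∀ v, Rep.{0} ℤ (Gloc v)) (M : Rep.{0} ℤ G) (v : ι) (gv : M.V →+ (Jloc v).V)
    (m : M.V) (σ : G) : hatFun Jloc M v gv m v σ = gv (M.ρ σ m) := by
  simp [hatFun]

lemma hatFun_ne {G : Type} [Group G] {ι : Type} {Gloc : ι → Type} [∀ v, Group (Gloc v)]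
    (Jloc : ∀ v, Rep.{0} ℤ (Gloc v)) (M : Rep.{0} ℤ G) (v : ι) (gv : M.V →+ (Jloc v).V)
    (m : M.V) {v' : ι} (h : v ≠ v') (σ : G) : hatFun Jloc M v gv m v' σ = 0 := by
  simp [hatFun, h]

variable {p : ℕ} {G : Type} [Group G] {ι : Type} {Gloc : ι → Type}
  [∀ v, Group (Gloc v)] (D : PTDatum p G ι Gloc)

lemma hatFun_mem (M : Rep.{0} ℤ G) (hM : ∃ U ∈ D.𝒯.lev, ∀ s ∈ U, ∀ m : M.V, M.ρ s m = m)
    (v : ι) (gv : Rep.res (D.r v) M ⟶ D.Jloc v) (m : M.V) :
    hatFun D.Jloc M v (homAdd gv) m ∈ semilocalSub D.𝒯 D.r D.Jloc := by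
  intro v'
  by_cases h : v = v'
  · subst h
    refine ⟨fun d g => ?_, ?_⟩
    · rw [hatFun_same, hatFun_same, map_mul]
      exact Rep.hom_comm_apply gv d (M.ρ g m)
    · obtain ⟨U, hU, hUM⟩ := hM
      refine ⟨U, hU, fun g s hs => ?_⟩
      rw [hatFun_same, hatFun_same, map_mul]
      show gv.hom (M.ρ g (M.ρ s m)) = gv.hom (M.ρ g m)
      rw [hUM s hs m]
  · refine ⟨fun d g => ?_, ?_⟩
    · rw [hatFun_ne _ _ _ _ _ h, hatFun_ne _ _ _ _ _ h, map_zero]
    · refine ⟨⊤, D.𝒯.top_mem, fun g s _ => ?_⟩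
      rw [hatFun_ne _ _ _ _ _ h, hatFun_ne _ _ _ _ _ h]

/-- **Frobenius reciprocity**: `ĝ_v : M → J` attached to a `G_v`-morphism `g_v : M → J_v`
(`M` trivial on a level): `ĝ_v(m)` has `v`-component `σ ↦ g_v(σ m)` and all other components 0. -/
def hat (M : Rep.{0} ℤ G) (hM : ∃ U ∈ D.𝒯.lev, ∀ s ∈ U, ∀ m : M.V, M.ρ s m = m)
    (v : ι) (gv : Rep.res (D.r v) M ⟶ D.Jloc v) : M ⟶ PTJ D :=
  mkHom
    { toFun := fun m => ⟨hatFun D.Jloc M v (homAdd gv) m, hatFun_mem D M hM v gv m⟩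
      map_zero' := by
        apply Subtype.ext
        funext v' σ
        by_cases h : v = v'
        · subst h
          show hatFun D.Jloc M v (homAdd gv) 0 v σ = 0
          rw [hatFun_same, map_zero, map_zero]
        · show hatFun D.Jloc M v (homAdd gv) 0 v' σ = 0
          rw [hatFun_ne _ _ _ _ _ h]
      map_add' := fun m m' => by
        apply Subtype.ext
        funext v' σ
        by_cases h : v = v'
        · subst h
          show hatFun D.Jloc M v (homAdd gv) (m + m') v σ =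
            hatFun D.Jloc M v (homAdd gv) m v σ + hatFun D.Jloc M v (homAdd gv) m' v σ
          rw [hatFun_same, hatFun_same, hatFun_same, map_add, map_add]
        · show hatFun D.Jloc M v (homAdd gv) (m + m') v' σ =
            hatFun D.Jloc M v (homAdd gv) m v' σ + hatFun D.Jloc M v (homAdd gv) m' v' σ
          rw [hatFun_ne _ _ _ _ _ h, hatFun_ne _ _ _ _ _ h, hatFun_ne _ _ _ _ _ h, add_zero] }
    (fun τ m => by
      apply Subtype.ext
      funext v' σ
      by_cases h : v = v'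
      · subst h
        show hatFun D.Jloc M v (homAdd gv) (M.ρ τ m) v σ =
          hatFun D.Jloc M v (homAdd gv) m v (σ * τ)
        rw [hatFun_same, hatFun_same, map_mul]
        rfl
      · show hatFun D.Jloc M v (homAdd gv) (M.ρ τ m) v' σ =
          hatFun D.Jloc M v (homAdd gv) m v' (σ * τ)
        rw [hatFun_ne _ _ _ _ _ h, hatFun_ne _ _ _ _ _ h])

lemma hat_apply_same (M : Rep.{0} ℤ G) (hM : ∃ U ∈ D.𝒯.lev, ∀ s ∈ U, ∀ m : M.V, M.ρ s m = m)
    (v : ι) (gv : Rep.res (D.r v) M ⟶ D.Jloc v) (m : M.V) (σ : G) :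
    ((hat D M hM v gv).hom m).1 v σ = gv.hom (M.ρ σ m) :=
  hatFun_same D.Jloc M v (homAdd gv) m σ

lemma hat_apply_ne (M : Rep.{0} ℤ G) (hM : ∃ U ∈ D.𝒯.lev, ∀ s ∈ U, ∀ m : M.V, M.ρ s m = m)
    (v : ι) (gv : Rep.res (D.r v) M ⟶ D.Jloc v) (m : M.V) {v' : ι} (h : v ≠ v') (σ : G) :
    ((hat D M hM v gv).hom m).1 v' σ = 0 :=
  hatFun_ne D.Jloc M v (homAdd gv) m h σ

end Hat

end Fermat.Agent.PT.F

end


end ZBPT_002_4

/-! ### bundled: `Fermat.Agent.PT.F.SeqPlan` -/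
section ZBPT_002_5
/-
PT-F §6 (the exact sequence  ⊕_v 𝔈_v → 𝔈 —∂→ H²_lev(G, A) → ∏_v H²_lev(G_v, A)) — INTERFACE FILE.
Owner of §6: helper55.  Mathematics: NOTES/PT-F-blueprint.md §6.  Definitions: PT/F/Defs.lean.
Statements only.  A piece `X` is DONE when `theorem stmtX : StmtX` is landed (own file
`Fermat/Agent/PT/F/Seq<X>.lean`, namespace `Fermat.Agent.PT.F`, sorry-free).

Everything is stated on cochain FUNCTIONS.  `∂` is the relation `IsDel D A P g w`
("the level 2-cocycle `w : G × G → A` represents `∂ g`", `g : M₁ ⟶ C`).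
-/

set_option autoImplicit false

noncomputable section

namespace Fermat.Agent.PT.F

open CategoryTheory groupCohomology Fermat.Agent.PT

variable {p : ℕ} {G : Type} [Group G] {ι : Type} {Gloc : ι → Type}
  [∀ v, Group (Gloc v)]

/-- restriction of a 2-cochain to the local group `G_v` -/
def resTwo (D : PTDatum p G ι Gloc) {X : Type} (v : ι) (w : G × G → X) : Gloc v × Gloc v → X :=
  fun dd => w (D.r v dd.1, D.r v dd.2)

/-- restriction of a 1-cochain to the local group `G_v` -/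
def resOne (D : PTDatum p G ι Gloc) {X : Type} (v : ι) (c : G → X) : Gloc v → X :=
  fun d => c (D.r v d)

/-- `M` is trivial on some level -/
def IsLevTriv (𝒯 : Tower G) (M : Rep.{0} ℤ G) : Prop :=
  ∃ U ∈ 𝒯.lev, ∀ s ∈ U, ∀ m : M.V, M.ρ s m = m

/-! ### The cohomological inputs (proved in §1, §5 of the blueprint: Shapiro + Hilbert 90 + cm_glob) -/

/-- **(In1)** `H¹_lev(G, Hom_ℤ(M, C))` is prime-to-`p` torsion. -/
def In1 (D : PTDatum p G ι Gloc) (M : Rep.{0} ℤ G) : Prop :=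
  ∀ c : G → (M.V →+ D.C.V), IsLevel₁ D.𝒯 c → (∀ στ, dOne M D.C c στ = 0) →
    ∃ n : ℕ, ¬ p ∣ n ∧ ∃ t : M.V →+ D.C.V, ∀ σ, n • c σ = dZero M D.C t σ

/-- **(In2)** Shapiro injectivity in degree 2 for `Hom_ℤ(M, J)` on cocycles killed by `p`:
if all local components are level coboundaries (for the BIG local towers), then the cocycle is
a level coboundary. -/
def In2 (D : PTDatum p G ι Gloc) (M : Rep.{0} ℤ G) : Prop :=
  ∀ y : G × G → (M.V →+ (PTJ D).V), IsLevel₂ D.𝒯 y →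
    (∀ σ τ ρ : G, conjAdd M (PTJ D) σ (y (τ, ρ)) - y (σ * τ, ρ) + y (σ, τ * ρ) - y (σ, τ) = 0) →
    (∀ στ, p • y στ = 0) →
    (∀ v, ∃ t : Gloc v → (M.V →+ (D.Jloc v).V), IsLevel₁ (D.𝒯loc v) t ∧
      ∀ dd, (ev D v).comp (resTwo D v y dd) = dOne (Rep.res (D.r v) M) (D.Jloc v) t dd) →
    ∃ t : G → (M.V →+ (PTJ D).V), IsLevel₁ D.𝒯 t ∧ ∀ στ, y στ = dOne M (PTJ D) t στ

/-- **(In3)** Shapiro injectivity in degree 1 for `Hom_ℤ(M, J)`. -/
def In3 (D : PTDatum p G ι Gloc) (M : Rep.{0} ℤ G) : Prop :=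
  ∀ y : G → (M.V →+ (PTJ D).V), IsLevel₁ D.𝒯 y → (∀ στ, dOne M (PTJ D) y στ = 0) →
    (∀ v, ∃ t : M.V →+ (D.Jloc v).V,
      ∀ d, (ev D v).comp (resOne D v y d) = dZero (Rep.res (D.r v) M) (D.Jloc v) t d) →
    ∃ t : M.V →+ (PTJ D).V, ∀ σ, y σ = dZero M (PTJ D) t σ

/-- **(In4)** `H¹_lev(G_v, Hom_ℤ(M, J_v)) = 0` (Shapiro + Hilbert 90). -/
def In4 (D : PTDatum p G ι Gloc) (M : Rep.{0} ℤ G) : Prop :=
  ∀ (v : ι) (c : Gloc v → (M.V →+ (D.Jloc v).V)), IsLevel₁ (D.𝒯loc v) c →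
    (∀ dd, dOne (Rep.res (D.r v) M) (D.Jloc v) c dd = 0) →
    ∃ t : M.V →+ (D.Jloc v).V, ∀ d, c d = dZero (Rep.res (D.r v) M) (D.Jloc v) t d

/-- all inputs for a presentation -/
structure SeqInputs (D : PTDatum p G ι Gloc) (A : Rep.{0} (ZMod p) G)
    (P : Presentation D.𝒯 (A.dualTwist D.χ)) : Prop where
  in1 : In1 D P.M₀
  in2 : In2 D P.M₀
  in3₀ : In3 D P.M₀
  in3₁ : In3 D P.M₁
  in4 : In4 D P.M₀

/-! ### The pieces of §6 -/

/-- **S0a** (extension lemma, pure algebra): if `E` is `p`-divisible, `M₁ ⊆ M₀` and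
`p • M₀ ⊆ M₁`, then every additive map `M₁ → E` extends to `M₀`. -/
def StmtExt : Prop :=
  ∀ (p : ℕ), p.Prime → ∀ (M₀ M₁ E : Type) [AddCommGroup M₀] [AddCommGroup M₁] [AddCommGroup E]
    (inc : M₁ →+ M₀), Function.Injective inc →
    (∀ m : M₀, ∃ m₁ : M₁, inc m₁ = p • m) → (∀ e : E, ∃ e' : E, p • e' = e) →
    ∀ z : M₁ →+ E, ∃ zt : M₀ →+ E, ∀ m₁, zt (inc m₁) = z m₁

/-- **S0b** (`κ` identifies `A` with the maps `M₀ → E` vanishing on `M₁`): additivity,
equivariance, injectivity and surjectivity onto `{h | h ∘ inc = 0}`. -/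
def StmtKappa : Prop :=
  ∀ (p : ℕ) [Fact p.Prime] (G : Type) [Group G] (ι : Type) [Fintype ι] (Gloc : ι → Type)
    [∀ v, Group (Gloc v)] (D : PTDatum p G ι Gloc)
    (A : Rep.{0} (ZMod p) G) [FiniteDimensional (ZMod p) A]
    (P : Presentation D.𝒯 (A.dualTwist D.χ)),
    (∀ (a b : A.V) (m : P.M₀.V), kappaFun D A P (a + b) m = kappaFun D A P a m + kappaFun D A P b m) ∧
    (∀ (a : A.V) (m m' : P.M₀.V),
      kappaFun D A P a (m + m') = kappaFun D A P a m + kappaFun D A P a m') ∧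
    (∀ (σ : G) (a : A.V) (m : P.M₀.V),
      kappaFun D A P (A.ρ σ a) m = D.E.ρ σ (kappaFun D A P a (P.M₀.ρ σ⁻¹ m))) ∧
    (∀ a : A.V, (∀ m, kappaFun D A P a m = 0) → a = 0) ∧
    (∀ h : P.M₀.V →+ D.E.V, (∀ m₁, h (P.inc.hom m₁) = 0) → ∃ a : A.V, ∀ m, kappaFun D A P a m = h m)

/-- **S1** (`∂ g` exists): every `g : M₁ ⟶ C` has a level 2-cocycle `w` with `IsDel g w`. -/
def StmtDelExists : Prop :=
  ∀ (p : ℕ) [Fact p.Prime] (G : Type) [Group G] (ι : Type) [Fintype ι] (Gloc : ι → Type)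
    [∀ v, Group (Gloc v)] (D : PTDatum p G ι Gloc)
    (A : Rep.{0} (ZMod p) G) [FiniteDimensional (ZMod p) A]
    (P : Presentation D.𝒯 (A.dualTwist D.χ)) (g : P.M₁ ⟶ D.C),
    ∃ w : G × G → A.V, w ∈ levCocycles₂ D.𝒯 A ∧ IsDel D A P g w

/-- **S2** (`∂ g` is well defined): two representatives differ by a level coboundary. -/
def StmtDelUnique : Prop :=
  ∀ (p : ℕ) [Fact p.Prime] (G : Type) [Group G] (ι : Type) [Fintype ι] (Gloc : ι → Type)
    [∀ v, Group (Gloc v)] (D : PTDatum p G ι Gloc)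
    (A : Rep.{0} (ZMod p) G) [FiniteDimensional (ZMod p) A]
    (P : Presentation D.𝒯 (A.dualTwist D.χ)) (g : P.M₁ ⟶ D.C) (w w' : G × G → A.V),
    IsDel D A P g w → IsDel D A P g w' → w - w' ∈ levCoboundaries₂ D.𝒯 A

/-- **S3** (`∂` is additive). -/
def StmtDelAdd : Prop :=
  ∀ (p : ℕ) [Fact p.Prime] (G : Type) [Group G] (ι : Type) [Fintype ι] (Gloc : ι → Type)
    [∀ v, Group (Gloc v)] (D : PTDatum p G ι Gloc)
    (A : Rep.{0} (ZMod p) G) [FiniteDimensional (ZMod p) A]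
    (P : Presentation D.𝒯 (A.dualTwist D.χ)) (g g' : P.M₁ ⟶ D.C) (w w' : G × G → A.V),
    IsDel D A P g w → IsDel D A P g' w' → IsDel D A P (g + g') (w + w')

/-- **S4** (`∂` kills `res Hom_G(M₀, C)`). -/
def StmtDelRes : Prop :=
  ∀ (p : ℕ) [Fact p.Prime] (G : Type) [Group G] (ι : Type) [Fintype ι] (Gloc : ι → Type)
    [∀ v, Group (Gloc v)] (D : PTDatum p G ι Gloc)
    (A : Rep.{0} (ZMod p) G) [FiniteDimensional (ZMod p) A]
    (P : Presentation D.𝒯 (A.dualTwist D.χ)) (h : P.M₀ ⟶ D.C),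
    IsDel D A P (P.inc ≫ h) 0

/-- **S5** (`∂ ∘ a = 0`): `∂` kills the classes coming from the local groups `𝔈_v`. -/
def StmtDelHat : Prop :=
  ∀ (p : ℕ) [Fact p.Prime] (G : Type) [Group G] (ι : Type) [Fintype ι] (Gloc : ι → Type)
    [∀ v, Group (Gloc v)] (D : PTDatum p G ι Gloc)
    (A : Rep.{0} (ZMod p) G) [FiniteDimensional (ZMod p) A]
    (P : Presentation D.𝒯 (A.dualTwist D.χ)) (hM : IsLevTriv D.𝒯 P.M₁)
    (v : ι) (gv : Rep.res (D.r v) P.M₁ ⟶ D.Jloc v),
    IsDel D A P (hat D P.M₁ hM v gv ≫ D.π) 0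

/-- **S6** (`loc ∘ ∂ = 0`): a representative of `∂ g` is locally a level coboundary. -/
def StmtLocDel : Prop :=
  ∀ (p : ℕ) [Fact p.Prime] (G : Type) [Group G] (ι : Type) [Fintype ι] (Gloc : ι → Type)
    [∀ v, Group (Gloc v)] (D : PTDatum p G ι Gloc)
    (A : Rep.{0} (ZMod p) G) [FiniteDimensional (ZMod p) A]
    (P : Presentation D.𝒯 (A.dualTwist D.χ)) (g : P.M₁ ⟶ D.C) (w : G × G → A.V),
    IsDel D A P g w → ∀ v, resTwo D v w ∈ levCoboundaries₂ (D.𝒯loc v) (Rep.res (D.r v) A)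

/-- **S7** (exactness at `𝔈`): if `∂ g = 0` then `g ∈ im(⊕_v 𝔈_v) + res Hom_G(M₀, C)`. -/
def StmtExactE : Prop :=
  ∀ (p : ℕ) [Fact p.Prime] (G : Type) [Group G] (ι : Type) [Fintype ι] (Gloc : ι → Type)
    [∀ v, Group (Gloc v)] (D : PTDatum p G ι Gloc)
    (A : Rep.{0} (ZMod p) G) [FiniteDimensional (ZMod p) A]
    (P : Presentation D.𝒯 (A.dualTwist D.χ)) (hM : IsLevTriv D.𝒯 P.M₁),
    SeqInputs D A P →
    ∀ (g : P.M₁ ⟶ D.C) (w : G × G → A.V), IsDel D A P g w → w ∈ levCoboundaries₂ D.𝒯 A →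
      ∃ (gv : ∀ v, Rep.res (D.r v) P.M₁ ⟶ D.Jloc v) (h : P.M₀ ⟶ D.C),
        g = (∑ v, hat D P.M₁ hM v (gv v) ≫ D.π) + P.inc ≫ h

/-- **S8** (exactness at `H²_lev(G, A)`): a level 2-cocycle which is locally a level coboundary
at every `v` represents `∂ g` for some `g`. -/
def StmtExactH2 : Prop :=
  ∀ (p : ℕ) [Fact p.Prime] (G : Type) [Group G] (ι : Type) [Fintype ι] (Gloc : ι → Type)
    [∀ v, Group (Gloc v)] (D : PTDatum p G ι Gloc)
    (A : Rep.{0} (ZMod p) G) [FiniteDimensional (ZMod p) A]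
    (P : Presentation D.𝒯 (A.dualTwist D.χ)),
    SeqInputs D A P →
    ∀ w : G × G → A.V, w ∈ levCocycles₂ D.𝒯 A →
      (∀ v, resTwo D v w ∈ levCoboundaries₂ (D.𝒯loc v) (Rep.res (D.r v) A)) →
      ∃ g : P.M₁ ⟶ D.C, IsDelClass D A P g w

end Fermat.Agent.PT.F

end


end ZBPT_002_5

/-! ### bundled: `Fermat.Agent.PT.F.Dual` -/
section ZBPT_002_6

/-!
# PT-F / F-Dual (helper68): duality for the `Ext¹`-model

`G` a finite group, `C` a `G`-module with a `p`-fundamental class, `0 → M₁ → M₀ → A' → 0` an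
exact sequence of `G`-modules with `M₀` free of finite rank over `ℤ`, `H¹(G, M₀) = 0`, `p A' = 0`.
Assume that every norm `N_G h` (`h : M₁ → C` additive) is `p` times an equivariant map (this is what
the existence theorem mod `p` gives at a saturated level, see `NOTES/PT-F.md`).  Then the pairing

  `Hom_G(M₁, C) × H¹(G, A') → H²(G, C)`, `(g, c) ↦ g_* (δ c)`

has trivial right kernel, and its left kernel is the image of `Hom_G(M₀, C)`.

Inputs from PT-A: `StmtTN'` (Tate–Nakayama in degree `(0, 2)`, `p`-part) and `StmtTNDual`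
(every additive map from a subgroup of `H²(G, M)(p)` to `H²(G, C)` is a push-forward).
-/

set_option autoImplicit false

open CategoryTheory groupCohomology Fermat.Agent.PT

namespace Fermat.Agent.PT.F

variable {G : Type} [Group G]

/-- **(A-dual)**, a consequence of `StmtTN'` by Pontryagin duality for finite abelian `p`-groups:
for `ℤ`-free `M` of finite rank, every additive map from a subgroup of `p`-primary classes of
`H²(G, M)` to `H²(G, C)` is `y ↦ g_* y` for some `g : M ⟶ C`. -/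
def StmtTNDual : Prop :=
  ∀ (p : ℕ) [Fact p.Prime] (G : Type) [Group G] [Fintype G] (C : Rep.{0} ℤ G) (u : H2 C),
    IsPFundClass p C u →
    ∀ (M : Rep.{0} ℤ G), Module.Free ℤ M.V → Module.Finite ℤ M.V →
    ∀ (N : AddSubgroup (H2 M)), (∀ y ∈ N, IsPTors p y) → ∀ ψ : N →+ H2 C,
      ∃ g : M ⟶ C, ∀ y : N, (push₂ g).hom (y : H2 M) = ψ y

/-- The `p`-primary classes form a subgroup. -/
def pPrimary (p : ℕ) (X : Type*) [AddCommGroup X] : AddSubgroup X where
  carrier := {x | IsPTors p x}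
  zero_mem' := ⟨0, by simp⟩
  add_mem' := by
    rintro x y ⟨k, hk⟩ ⟨l, hl⟩
    refine ⟨k + l, ?_⟩
    have hx : p ^ (k + l) • x = 0 := by rw [pow_add, mul_comm, mul_smul, hk, smul_zero]
    have hy : p ^ (k + l) • y = 0 := by rw [pow_add, mul_smul, hl, smul_zero]
    rw [smul_add, hx, hy, add_zero]
  neg_mem' := by
    rintro x ⟨k, hk⟩
    exact ⟨k, by rw [smul_neg, hk, neg_zero]⟩

theorem mem_pPrimary {p : ℕ} {X : Type*} [AddCommGroup X] {x : X} :
    x ∈ pPrimary p X ↔ IsPTors p x := Iff.rfl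

/-- Multiplication by `p` on `M₀` factors through `M₁` when `p` kills `A'`. -/
theorem exists_mulP {X : ShortComplex (Rep.{0} ℤ G)} (hX : X.ShortExact) (p : ℕ)
    (hp : ∀ a : X.X₃.V, p • a = 0) :
    ∃ P : X.X₂ ⟶ X.X₁, P ≫ X.f = p • 𝟙 X.X₂ ∧ X.f ≫ P = p • 𝟙 X.X₁ := by
  have := hX.mono_f
  have hk : (p • 𝟙 X.X₂) ≫ X.g = 0 := rep_hom_ext' fun a => by
    simp only [rep_comp_apply, rep_nsmul_apply, rep_id_apply, map_nsmul, rep_zero_apply]
    exact hp _
  refine ⟨hX.exact.lift _ hk, hX.exact.lift_f _ hk, ?_⟩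
  rw [← cancel_mono X.f, Category.assoc, hX.exact.lift_f _ hk]
  exact rep_hom_ext' fun a => by simp

/-- `M₁` is free of finite rank when `M₀` is. -/
theorem free_finite_of_mono {A B : Rep.{0} ℤ G} (f : A ⟶ B) [Mono f]
    [Module.Free ℤ B.V] [Module.Finite ℤ B.V] : Module.Free ℤ A.V ∧ Module.Finite ℤ A.V := by
  have hinj : Function.Injective f.hom := (Rep.mono_iff_injective f).1 inferInstance
  let fa : A.V →+ B.V := AddMonoidHom.mk' (fun a => f.hom a) (fun a b => map_add f.hom a b)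
  let fl : A.V →ₗ[ℤ] B.V := fa.toIntLinearMap
  have hinj' : Function.Injective fl := fun a b h => hinj h
  let e : A.V ≃ₗ[ℤ] LinearMap.range fl := LinearEquiv.ofInjective fl hinj'
  exact ⟨Module.Free.of_equiv e.symm, Module.Finite.equiv e.symm⟩

/-- **F-Dual.** -/
theorem ext_duality (hTN : StmtTN') (hD : StmtTNDual)
    (p : ℕ) [Fact p.Prime] [Fintype G]
    (C : Rep.{0} ℤ G) (u : H2 C) (hu : IsPFundClass p C u)
    (X : ShortComplex (Rep.{0} ℤ G)) (hX : X.ShortExact)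
    [Module.Free ℤ X.X₂.V] [Module.Finite ℤ X.X₂.V]
    (hp : ∀ a : X.X₃.V, p • a = 0)
    (hH1 : Subsingleton (H1 X.X₂))
    (hexist : ∀ h : X.X₁.V →ₗ[ℤ] C.V, ∃ g₁ : X.X₁ ⟶ C,
      ∀ m, normHom X.X₁ C h m = p • g₁.hom m) :
    (∀ c : H1 X.X₃, (∀ g : X.X₁ ⟶ C, (push₂ g).hom ((δ hX 1 2 rfl).hom c) = 0) → c = 0) ∧
    (∀ g : X.X₁ ⟶ C, (∀ c : H1 X.X₃, (push₂ g).hom ((δ hX 1 2 rfl).hom c) = 0) →
        ∃ g₀ : X.X₂ ⟶ C, X.f ≫ g₀ = g) := by
  have := hX.mono_f
  obtain ⟨hfree, hfin⟩ := free_finite_of_mono X.f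
  have hTN₁ := hTN p G C u hu X.X₁ hfree hfin
  constructor
  · -- right kernel
    intro c hc
    have hpt : IsPTors p ((δ hX 1 2 rfl).hom c) := by
      refine ⟨1, ?_⟩
      rw [pow_one, ← map_nsmul, nsmul_eq_zero_of_forall p hp 1 c, map_zero]
    have h0 : (δ hX 1 2 rfl).hom c = 0 := hTN₁.1 _ hpt hc
    have : Mono (δ hX 1 2 rfl) :=
      mono_δ_of_isZero hX 1 (ModuleCat.isZero_of_iff_subsingleton.2 hH1)
    have hinj : Function.Injective (δ hX 1 2 rfl).hom :=
      (ModuleCat.mono_iff_injective _).1 inferInstance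
    exact hinj (by rw [h0, map_zero])
  · -- left kernel
    intro g hg
    -- the two restricted maps on the `p`-primary part of `H²(G, M₁)`
    let Y₁ : AddSubgroup (H2 X.X₁) := pPrimary p (H2 X.X₁)
    let f₁ : Y₁ →+ H2 X.X₂ := ((push₂ X.f).hom : H2 X.X₁ →ₗ[ℤ] H2 X.X₂).toAddMonoidHom.comp Y₁.subtype
    let g₁ : Y₁ →+ H2 C := ((push₂ g).hom : H2 X.X₁ →ₗ[ℤ] H2 C).toAddMonoidHom.comp Y₁.subtype
    have hker : f₁.rangeRestrict.ker ≤ g₁.ker := by
      intro y hy
      have hy' : (push₂ X.f).hom (y : H2 X.X₁) = 0 :=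
        congrArg Subtype.val (AddMonoidHom.mem_ker.1 hy)
      have hex := (ShortComplex.moduleCat_exact_iff _).1
        (mapShortComplex₁_exact hX (i := 1) (j := 2) rfl) (y : H2 X.X₁) hy'
      obtain ⟨c, hc⟩ := hex
      rw [AddMonoidHom.mem_ker]
      show (push₂ g).hom (y : H2 X.X₁) = 0
      rw [← hc]
      exact hg c
    let ψ : f₁.range →+ H2 C :=
      f₁.rangeRestrict.liftOfSurjective f₁.rangeRestrict_surjective ⟨g₁, hker⟩
    have hψ : ∀ y : Y₁, ψ (f₁.rangeRestrict y) = g₁ y := fun y =>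
      AddMonoidHom.liftOfRightInverse_comp_apply _ _ _ ⟨g₁, hker⟩ y
    have hN : ∀ y ∈ f₁.range, IsPTors p y := by
      rintro _ ⟨y, rfl⟩
      obtain ⟨k, hk⟩ := y.2
      exact ⟨k, by
        show p ^ k • (push₂ X.f).hom (y : H2 X.X₁) = 0
        rw [← map_nsmul, hk, map_zero]⟩
    obtain ⟨g₀, hg₀⟩ := hD p G C u hu X.X₂ inferInstance inferInstance f₁.range hN ψ
    -- `g' = g - f ≫ g₀` kills all `p`-primary classes
    have hg' : ∀ y : H2 X.X₁, IsPTors p y → (push₂ (g - X.f ≫ g₀)).hom y = 0 := by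
      intro y hy
      have h1 : push₂ (g - X.f ≫ g₀) = push₂ g - push₂ X.f ≫ push₂ g₀ := by
        show groupCohomology.map _ _ _ = _
        rw [map_id_sub, map_id_comp]
      rw [h1]
      have h2 := hg₀ (f₁.rangeRestrict ⟨y, hy⟩)
      rw [hψ] at h2
      show (push₂ g).hom y - (push₂ g₀).hom ((push₂ X.f).hom y) = 0
      rw [sub_eq_zero]
      exact h2.symm
    obtain ⟨n, h, hn, hnh⟩ := hTN₁.2 (g - X.f ≫ g₀) hg'
    obtain ⟨g₁', hg₁'⟩ := hexist h
    obtain ⟨P, hP₁, hP₂⟩ := exists_mulP hX p hp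
    have hPf : ∀ m : X.X₁.V, P.hom (X.f.hom m) = p • m := fun m => by
      have := congrArg (fun φ : X.X₁ ⟶ X.X₁ => φ.hom m) hP₂
      simpa using this
    have hcop : IsCoprime (n : ℤ) (p : ℤ) := by
      rw [Nat.isCoprime_iff_coprime]
      exact (Nat.Coprime.symm ((Nat.Prime.coprime_iff_not_dvd Fact.out).2 hn))
    obtain ⟨a, b, hab⟩ := hcop
    refine ⟨a • (P ≫ g₁' + n • g₀) + b • (P ≫ g), rep_hom_ext' fun m => ?_⟩
    have e1 : n • (g.hom m - g₀.hom (X.f.hom m)) = p • g₁'.hom m := by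
      have := hnh m
      rw [hg₁' m] at this
      simpa using this
    simp only [rep_comp_apply, rep_add_apply, rep_zsmul_apply, rep_nsmul_apply, hPf, map_nsmul]
    have e2 : (p : ℕ) • g₁'.hom m + n • g₀.hom (X.f.hom m) = n • g.hom m := by
      rw [← e1, smul_sub]; abel
    rw [e2]
    have e3 : a • (n • g.hom m) + b • (p • g.hom m) = (a * n + b * p) • g.hom m := by
      rw [add_smul, mul_smul, mul_smul]
      simp
    rw [e3, hab, one_smul]

end Fermat.Agent.PT.F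


end ZBPT_002_6

/-! ### bundled: `Fermat.Agent.PT.F.Plan` -/
section ZBPT_002_7

/-!
# PT-F (formal glue of project PT = S55) — INTERFACE FILE 1 of the sub-captain (helper68)

FINITE-LEVEL pieces (finite groups, Mathlib group cohomology).  Statements only.
A piece `X` is DONE when `theorem stmtX : StmtX` is landed (own file
`Fermat/Agent/PT/F/<File>.lean`, namespace `Fermat.Agent.PT.F`, sorry-free).
Piece table: `NOTES/PT-F.md`; mathematics: `NOTES/PT-F-blueprint.md`.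

Already proved: `glue_sha_pairing` (Glue.lean), `ext_duality` (Dual.lean).
-/

set_option autoImplicit false

open CategoryTheory groupCohomology Fermat.Agent.PT

namespace Fermat.Agent.PT.F

/-- **F-TNDual**: `StmtTN'` implies `StmtTNDual` (Pontryagin duality for finite abelian
`p`-groups; uses that `H²(G, M)` is finite for `M` of finite type and killed by `|G|`, and that
`H²(G, C)(p)` is cyclic of order `|P|`, `P` a Sylow `p`-subgroup: restriction to `P` is injective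
on `p`-primary classes and `res u` generates `H²(P, C)`). -/
def StmtTNDualOfTN : Prop := StmtTN' → StmtTNDual

/-- **F-Norm** (the norm trick): if `H ◁ G` acts trivially on the `ℤ`-free module `M` and every
norm `N_H x` (`x ∈ C`) is `p` times an `H`-invariant element, then every norm `N_G h`
(`h : M → C` additive) is `p` times a `G`-equivariant map. -/
def StmtNormTrick : Prop :=
  ∀ (p : ℕ) (G : Type) [Group G] [Fintype G] (H : Subgroup G) [H.Normal] [Fintype H]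
    (M C : Rep.{0} ℤ G), Module.Free ℤ M.V → Module.Finite ℤ M.V →
    (∀ η ∈ H, ∀ m : M.V, M.ρ η m = m) →
    (∀ x : C.V, ∃ y : C.V, (∀ η ∈ H, C.ρ η y = y) ∧ ∑ η : H, C.ρ (η : G) x = p • y) →
    ∀ h : M.V →ₗ[ℤ] C.V, ∃ g₁ : M ⟶ C, ∀ m, normHom M C h m = p • g₁.hom m

/-- **F-Ind**: `H¹(G, res_φ ℤ[Ω]) = 0` for every homomorphism `φ : G → Γ` of finite groups and
every finite `Γ`-set `Ω` on which `Γ` acts freely.  (True for every finite `Γ`-set: average the
cocycle over `G` to get `b ∈ ℚ[Ω]` with `c = d b`, then subtract from `b` the function which is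
constant `= b(ω₀)` on the `G`-orbit of a chosen representative `ω₀`.) -/
def StmtInd : Prop :=
  ∀ (G Γ : Type) [Group G] [Group Γ] [Finite G] [Finite Γ] (φ : G →* Γ)
    (Ω : Type) [MulAction Γ Ω] [Finite Ω], (∀ (γ : Γ) (ω : Ω), γ • ω = ω → γ = 1) →
    Subsingleton (H1 (Rep.res φ (Rep.ofMulAction ℤ Γ Ω)))

/-- **F1a-fin** (`p`-primary inflation is injective in degree 2).  `φ : Γ' ↠ Γ` finite groups,
`C'` a `Γ'`-module with `H¹(H, C') = 0` for all `p`-subgroups `H ≤ Γ'`, `C₀` a `Γ`-module and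
`ι : C₀ → C'` a `φ`-equivariant injection with image `C'^{ker φ}`.  Then
`H²(Γ, C₀) → H²(Γ', C')` is injective on `p`-primary classes.
(Proof: blueprint §1 (F1a): Sylow `P' ≤ Γ'`, `N' = P' ∩ ker φ`, `stmtInfRes₂` for `N' ◁ P'`,
and the `P'`-equivariant norm `C'^{N'} → C'^{ker φ}` of index prime to `p`.) -/
def StmtInflInjFin : Prop :=
  ∀ (p : ℕ) [Fact p.Prime] (Γ' Γ : Type) [Group Γ'] [Group Γ] [Finite Γ'] (φ : Γ' →* Γ),
    Function.Surjective φ →
    ∀ (C' : Rep.{0} ℤ Γ') (C₀ : Rep.{0} ℤ Γ) (ι : Rep.res φ C₀ ⟶ C'),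
      Function.Injective ι.hom →
      (∀ c : C'.V, (∀ γ : Γ', φ γ = 1 → C'.ρ γ c = c) → ∃ c₀ : C₀.V, ι.hom c₀ = c) →
      (∀ H : Subgroup Γ', IsPGroup p H → Subsingleton (H1 (Rep.res H.subtype C'))) →
      ∀ x : H2 C₀, IsPTors p x → (groupCohomology.map φ ι 2).hom x = 0 → x = 0

/-- **F1b-fin**: with a `p`-fundamental class, the `p`-torsion of `H²(Γ, C)` is cyclic:
any nonzero element killed by `p` generates it.
(Sylow: restriction to `P` is injective on `p`-primary classes; `H²(P, C)` is cyclic.) -/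
def StmtH2pCyclic : Prop :=
  ∀ (p : ℕ) [Fact p.Prime] (Γ : Type) [Group Γ] [Finite Γ] (C : Rep.{0} ℤ Γ) (u : H2 C),
    IsPFundClass p C u →
    ∀ x y : H2 C, p • x = 0 → p • y = 0 → x ≠ 0 → ∃ n : ℕ, y = n • x

/-- **F4-exist** (bridge from the datum axiom `exist` to the hypothesis of `StmtNormTrick`):
for normal subgroups `U' ≤ U₁` of `G` with `U'` of finite index, if every `c ∈ C^{U'}` has
`∑ᶠ_{t ∈ U₁/U'} t c ∈ p • C^{U₁}`, then in the `G/U'`-module `C^{U'}` every norm for the subgroup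
`H = U₁/U'` is `p` times an `H`-invariant element. -/
def StmtExistBridge : Prop :=
  ∀ (p : ℕ) (G : Type) [Group G] (C : Rep.{0} ℤ G) (U₁ U' : Subgroup G) [U₁.Normal] [U'.Normal],
    U' ≤ U₁ → U'.FiniteIndex →
    (∀ c : C.V, (∀ s ∈ U', C.ρ s c = c) →
      ∃ c' : C.V, (∀ s ∈ U₁, C.ρ s c' = c') ∧
        p • c' = ∑ᶠ t : ↥U₁ ⧸ U'.subgroupOf U₁, C.ρ ((Quotient.out t : ↥U₁) : G) c) →
    ∀ x : (C.quotientToInvariants U').V,
      ∃ y : (C.quotientToInvariants U').V,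
        (∀ η ∈ U₁.map (QuotientGroup.mk' U'), (C.quotientToInvariants U').ρ η y = y) ∧
        ∑ᶠ η : ↥(U₁.map (QuotientGroup.mk' U')), (C.quotientToInvariants U').ρ (η : G ⧸ U') x
          = p • y

end Fermat.Agent.PT.F


end ZBPT_002_7

/-! ### bundled: `Fermat.Agent.PT.F.Level` -/
section ZBPT_002_8

/-!
# PT-F / F0 (helper68): the dictionary between level cochains on `G` and cochains of the finite
quotients `G ⧸ U` with values in the invariants `X^U` (`Rep.quotientToInvariants`).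
-/

set_option autoImplicit false

noncomputable section

open CategoryTheory groupCohomology Fermat.Agent.PT

namespace Fermat.Agent.PT.F

section Tower

variable {G : Type} [Group G] (𝒯 : Tower G)

/-- Finite intersections of levels are levels. -/
theorem tower_finset_inf_mem {α : Type*} (s : Finset α) (f : α → Subgroup G)
    (hf : ∀ a ∈ s, f a ∈ 𝒯.lev) : s.inf f ∈ 𝒯.lev := by
  classical
  induction s using Finset.induction_on with
  | empty => simpa using 𝒯.top_mem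
  | insert a s ha ih =>
    rw [Finset.inf_insert]
    exact 𝒯.inf_mem _ _ (hf a (Finset.mem_insert_self a s))
      (ih fun b hb => hf b (Finset.mem_insert_of_mem hb))

/-- Below two levels there is a normal level. -/
theorem tower_exists_normal_le₂ {U V : Subgroup G} (hU : U ∈ 𝒯.lev) (hV : V ∈ 𝒯.lev) :
    ∃ W ∈ 𝒯.lev, W ≤ U ∧ W ≤ V ∧ W.Normal := by
  obtain ⟨W, hW, hle, hn⟩ := 𝒯.exists_normal (U ⊓ V) (𝒯.inf_mem U V hU hV)
  exact ⟨W, hW, hle.trans inf_le_left, hle.trans inf_le_right, hn⟩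

/-- A module is discrete for the tower: every element is fixed by a level. -/
def IsDiscrete {k : Type} [CommRing k] (X : Rep.{0} k G) : Prop :=
  ∀ x : X.V, ∃ U ∈ 𝒯.lev, ∀ s ∈ U, X.ρ s x = x

variable {𝒯} in
/-- Finitely many elements of a discrete module are fixed by a common level. -/
theorem IsDiscrete.exists_level_of_finite {k : Type} [CommRing k] {X : Rep.{0} k G}
    (hX : IsDiscrete 𝒯 X) {S : Set X.V} (hS : S.Finite) :
    ∃ U ∈ 𝒯.lev, ∀ x ∈ S, ∀ s ∈ U, X.ρ s x = x := by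
  classical
  choose V hV hVx using hX
  refine ⟨hS.toFinset.inf V, tower_finset_inf_mem 𝒯 _ _ fun a _ => hV a, fun x hx s hs => ?_⟩
  have hle : hS.toFinset.inf V ≤ V x := Finset.inf_le (hS.mem_toFinset.2 hx)
  exact hVx x s (hle hs)

variable {𝒯} in
/-- A level function takes finitely many values. -/
theorem isLevel₁_finite_range {Y : Type*} {f : G → Y} (hf : IsLevel₁ 𝒯 f) :
    (Set.range f).Finite := by
  obtain ⟨U, hU, h⟩ := hf
  have := 𝒯.finiteIndex U hU
  have : Finite (G ⧸ U) := Subgroup.finite_quotient_of_finiteIndex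
  have : Set.range f ⊆ Set.range (fun q : G ⧸ U => f q.out) := by
    rintro _ ⟨g, rfl⟩
    refine ⟨(g : G ⧸ U), ?_⟩
    obtain ⟨s, hs⟩ := QuotientGroup.mk_out_eq_mul U g
    show f (Quotient.out (g : G ⧸ U)) = f g
    rw [hs]
    exact h g s s.2
  exact (Set.finite_range _).subset this

variable {𝒯} in
theorem isLevel₂_finite_range {Y : Type*} {f : G × G → Y} (hf : IsLevel₂ 𝒯 f) :
    (Set.range f).Finite := by
  obtain ⟨U, hU, h⟩ := hf
  have := 𝒯.finiteIndex U hU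
  have : Finite (G ⧸ U) := Subgroup.finite_quotient_of_finiteIndex
  have : Set.range f ⊆ Set.range (fun q : (G ⧸ U) × (G ⧸ U) => f (q.1.out, q.2.out)) := by
    rintro _ ⟨⟨g, g'⟩, rfl⟩
    refine ⟨((g : G ⧸ U), (g' : G ⧸ U)), ?_⟩
    obtain ⟨s, hs⟩ := QuotientGroup.mk_out_eq_mul U g
    obtain ⟨s', hs'⟩ := QuotientGroup.mk_out_eq_mul U g'
    show f (Quotient.out (g : G ⧸ U), Quotient.out (g' : G ⧸ U)) = f (g, g')
    rw [hs, hs']
    exact h g g' s s' s.2 s'.2
  exact (Set.finite_range _).subset this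

end Tower

section Desc

variable {k : Type} [CommRing k] {G : Type} [Group G] (X : Rep.{0} k G)

/-- The 1-cochain `t` is defined at level `U`: right-`U`-invariant with `U`-invariant values. -/
def Desc₁ (U : Subgroup G) (t : G → X.V) : Prop :=
  (∀ g s : G, s ∈ U → t (g * s) = t g) ∧ ∀ g : G, ∀ s ∈ U, X.ρ s (t g) = t g

/-- The 2-cochain `y` is defined at level `U`. -/
def Desc₂ (U : Subgroup G) (y : G × G → X.V) : Prop :=
  (∀ g g' s s' : G, s ∈ U → s' ∈ U → y (g * s, g' * s') = y (g, g')) ∧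
    ∀ gg : G × G, ∀ s ∈ U, X.ρ s (y gg) = y gg

variable {X}

theorem Desc₁.mono {U U' : Subgroup G} (h : U' ≤ U) {t : G → X.V} (ht : Desc₁ X U t) :
    Desc₁ X U' t :=
  ⟨fun g s hs => ht.1 g s (h hs), fun g s hs => ht.2 g s (h hs)⟩

theorem Desc₂.mono {U U' : Subgroup G} (h : U' ≤ U) {y : G × G → X.V} (hy : Desc₂ X U y) :
    Desc₂ X U' y :=
  ⟨fun g g' s s' hs hs' => hy.1 g g' s s' (h hs) (h hs'), fun gg s hs => hy.2 gg s (h hs)⟩

theorem exists_desc₁ {𝒯 : Tower G} (hX : IsDiscrete 𝒯 X) {t : G → X.V} (ht : IsLevel₁ 𝒯 t) :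
    ∃ U ∈ 𝒯.lev, Desc₁ X U t := by
  obtain ⟨V, hV, hVt⟩ := hX.exists_level_of_finite (isLevel₁_finite_range ht)
  obtain ⟨U, hU, h⟩ := ht
  exact ⟨U ⊓ V, 𝒯.inf_mem U V hU hV, fun g s hs => h g s hs.1,
    fun g s hs => hVt (t g) ⟨g, rfl⟩ s hs.2⟩

theorem exists_desc₂ {𝒯 : Tower G} (hX : IsDiscrete 𝒯 X) {y : G × G → X.V} (hy : IsLevel₂ 𝒯 y) :
    ∃ U ∈ 𝒯.lev, Desc₂ X U y := by
  obtain ⟨V, hV, hVt⟩ := hX.exists_level_of_finite (isLevel₂_finite_range hy)
  obtain ⟨U, hU, h⟩ := hy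
  exact ⟨U ⊓ V, 𝒯.inf_mem U V hU hV, fun g g' s s' hs hs' => h g g' s s' hs.1 hs'.1,
    fun gg s hs => hVt (y gg) ⟨gg, rfl⟩ s hs.2⟩

theorem Desc₁.isLevel₁ {𝒯 : Tower G} {U : Subgroup G} (hU : U ∈ 𝒯.lev) {t : G → X.V}
    (ht : Desc₁ X U t) : IsLevel₁ 𝒯 t := ⟨U, hU, ht.1⟩

theorem Desc₂.isLevel₂ {𝒯 : Tower G} {U : Subgroup G} (hU : U ∈ 𝒯.lev) {y : G × G → X.V}
    (hy : Desc₂ X U y) : IsLevel₂ 𝒯 y := ⟨U, hU, hy.1⟩

variable (X) (U : Subgroup G) [U.Normal]

/-- Inflation of 1-cochains of `G ⧸ U` with values in `X^U`. -/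
def infl₁ (t : G ⧸ U → (X.quotientToInvariants U).V) : G → X.V :=
  fun g => (t (g : G ⧸ U)).1

/-- Inflation of 2-cochains of `G ⧸ U` with values in `X^U`. -/
def infl₂ (y : (G ⧸ U) × (G ⧸ U) → (X.quotientToInvariants U).V) : G × G → X.V :=
  fun gg => (y ((gg.1 : G ⧸ U), (gg.2 : G ⧸ U))).1

variable {X U}

@[simp] theorem infl₁_apply (t : G ⧸ U → (X.quotientToInvariants U).V) (g : G) :
    infl₁ X U t g = (t (g : G ⧸ U)).1 := rfl

@[simp] theorem infl₂_apply (y : (G ⧸ U) × (G ⧸ U) → (X.quotientToInvariants U).V) (g g' : G) :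
    infl₂ X U y (g, g') = (y ((g : G ⧸ U), (g' : G ⧸ U))).1 := rfl

theorem infl₁_injective : Function.Injective (infl₁ X U) := by
  intro t t' h
  funext q
  obtain ⟨g, rfl⟩ := QuotientGroup.mk_surjective q
  exact Subtype.ext (congrFun h g)

theorem infl₂_injective : Function.Injective (infl₂ X U) := by
  intro y y' h
  funext ⟨q, q'⟩
  obtain ⟨g, rfl⟩ := QuotientGroup.mk_surjective q
  obtain ⟨g', rfl⟩ := QuotientGroup.mk_surjective q'
  exact Subtype.ext (congrFun h (g, g'))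

theorem infl₁_add (t t' : G ⧸ U → (X.quotientToInvariants U).V) :
    infl₁ X U (t + t') = infl₁ X U t + infl₁ X U t' := rfl

theorem infl₂_add (y y' : (G ⧸ U) × (G ⧸ U) → (X.quotientToInvariants U).V) :
    infl₂ X U (y + y') = infl₂ X U y + infl₂ X U y' := rfl

theorem infl₂_sub (y y' : (G ⧸ U) × (G ⧸ U) → (X.quotientToInvariants U).V) :
    infl₂ X U (y - y') = infl₂ X U y - infl₂ X U y' := rfl

theorem infl₂_nsmul (n : ℕ) (y : (G ⧸ U) × (G ⧸ U) → (X.quotientToInvariants U).V) :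
    infl₂ X U (n • y) = n • infl₂ X U y := rfl

theorem desc₁_infl₁ (t : G ⧸ U → (X.quotientToInvariants U).V) : Desc₁ X U (infl₁ X U t) := by
  refine ⟨fun g s hs => ?_, fun g s hs => ?_⟩
  · have : ((g * s : G) : G ⧸ U) = (g : G ⧸ U) := by
      rw [QuotientGroup.eq]; simpa using hs
    simp only [infl₁_apply, this]
  · exact (t (g : G ⧸ U)).2 ⟨s, hs⟩

theorem desc₂_infl₂ (y : (G ⧸ U) × (G ⧸ U) → (X.quotientToInvariants U).V) :
    Desc₂ X U (infl₂ X U y) := by
  refine ⟨fun g g' s s' hs hs' => ?_, fun gg s hs => ?_⟩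
  · have h1 : ((g * s : G) : G ⧸ U) = (g : G ⧸ U) := by
      rw [QuotientGroup.eq]; simpa using hs
    have h2 : ((g' * s' : G) : G ⧸ U) = (g' : G ⧸ U) := by
      rw [QuotientGroup.eq]; simpa using hs'
    simp only [infl₂_apply, h1, h2]
  · exact (y ((gg.1 : G ⧸ U), (gg.2 : G ⧸ U))).2 ⟨s, hs⟩

/-- Descent of a 1-cochain defined at level `U`. -/
def descend₁ (t : G → X.V) (ht : Desc₁ X U t) :
    G ⧸ U → (X.quotientToInvariants U).V :=
  fun q => ⟨t q.out, fun s => ht.2 q.out s.1 s.2⟩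

/-- Descent of a 2-cochain defined at level `U`. -/
def descend₂ (y : G × G → X.V) (hy : Desc₂ X U y) :
    (G ⧸ U) × (G ⧸ U) → (X.quotientToInvariants U).V :=
  fun q => ⟨y (q.1.out, q.2.out), fun s => hy.2 _ s.1 s.2⟩

theorem infl₁_descend₁ (t : G → X.V) (ht : Desc₁ X U t) : infl₁ X U (descend₁ t ht) = t := by
  funext g
  obtain ⟨s, hs⟩ := QuotientGroup.mk_out_eq_mul U g
  show t (Quotient.out (g : G ⧸ U)) = t g
  rw [hs]
  exact ht.1 g s s.2

theorem infl₂_descend₂ (y : G × G → X.V) (hy : Desc₂ X U y) :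
    infl₂ X U (descend₂ y hy) = y := by
  funext ⟨g, g'⟩
  obtain ⟨s, hs⟩ := QuotientGroup.mk_out_eq_mul U g
  obtain ⟨s', hs'⟩ := QuotientGroup.mk_out_eq_mul U g'
  show y (Quotient.out (g : G ⧸ U), Quotient.out (g' : G ⧸ U)) = y (g, g')
  rw [hs, hs']
  exact hy.1 g g' s s' s.2 s'.2

theorem infl₂_d₁₂ (t : G ⧸ U → (X.quotientToInvariants U).V) :
    infl₂ X U ((d₁₂ (X.quotientToInvariants U)).hom t) = (d₁₂ X).hom (infl₁ X U t) := by
  funext ⟨g, g'⟩
  simp only [infl₂_apply, infl₁_apply, d₁₂_hom_apply]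
  rfl

theorem infl₂_mem_cocycles₂_iff (y : (G ⧸ U) × (G ⧸ U) → (X.quotientToInvariants U).V) :
    infl₂ X U y ∈ cocycles₂ X ↔ y ∈ cocycles₂ (X.quotientToInvariants U) := by
  rw [mem_cocycles₂_iff, mem_cocycles₂_iff]
  constructor
  · intro h q q' q''
    obtain ⟨g, rfl⟩ := QuotientGroup.mk_surjective q
    obtain ⟨g', rfl⟩ := QuotientGroup.mk_surjective q'
    obtain ⟨g'', rfl⟩ := QuotientGroup.mk_surjective q''
    exact Subtype.ext (h g g' g'')
  · intro h g g' g''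
    exact congrArg Subtype.val (h (g : G ⧸ U) (g' : G ⧸ U) (g'' : G ⧸ U))

theorem infl₁_mem_cocycles₁_iff (t : G ⧸ U → (X.quotientToInvariants U).V) :
    infl₁ X U t ∈ cocycles₁ X ↔ t ∈ cocycles₁ (X.quotientToInvariants U) := by
  rw [mem_cocycles₁_iff, mem_cocycles₁_iff]
  constructor
  · intro h q q'
    obtain ⟨g, rfl⟩ := QuotientGroup.mk_surjective q
    obtain ⟨g', rfl⟩ := QuotientGroup.mk_surjective q'
    exact Subtype.ext (h g g')
  · intro h g g'
    exact congrArg Subtype.val (h (g : G ⧸ U) (g' : G ⧸ U))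

/-- A level coboundary at level `U` is the inflation of a coboundary. -/
theorem infl₂_mem_coboundaries₂ {𝒯 : Tower G} (hU : U ∈ 𝒯.lev)
    (y : (G ⧸ U) × (G ⧸ U) → (X.quotientToInvariants U).V)
    (hy : y ∈ coboundaries₂ (X.quotientToInvariants U)) :
    infl₂ X U y ∈ levCoboundaries₂ 𝒯 X := by
  obtain ⟨t, rfl⟩ := hy
  exact (mem_levCoboundaries₂_iff 𝒯 X _).2
    ⟨infl₁ X U t, (desc₁_infl₁ t).isLevel₁ hU, (infl₂_d₁₂ t).symm⟩

end Desc

section Trans

variable {k : Type} [CommRing k] {G : Type} [Group G] (X : Rep.{0} k G)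
  {U U' : Subgroup G} [U.Normal] [U'.Normal] (h : U' ≤ U)

/-- The transition homomorphism `G ⧸ U' → G ⧸ U`. -/
def transHom : G ⧸ U' →* G ⧸ U := QuotientGroup.map U' U (MonoidHom.id G) h

@[simp] theorem transHom_mk (g : G) : transHom h (g : G ⧸ U') = (g : G ⧸ U) := rfl

theorem transHom_surjective : Function.Surjective (transHom h) := fun q => by
  obtain ⟨g, rfl⟩ := QuotientGroup.mk_surjective q
  exact ⟨(g : G ⧸ U'), rfl⟩

/-- The inclusion `X^U → X^{U'}` as a morphism of `G ⧸ U'`-modules. -/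
def transRep : Rep.res (transHom h) (X.quotientToInvariants U) ⟶ X.quotientToInvariants U' :=
  Rep.ofHom ⟨
    { toFun := fun x => ⟨x.1, fun s => x.2 ⟨s.1, h s.2⟩⟩
      map_add' := fun _ _ => rfl
      map_smul' := fun _ _ => rfl }, fun q => by
      obtain ⟨g, rfl⟩ := QuotientGroup.mk_surjective q
      rfl⟩

@[simp] theorem transRep_apply_coe (x : (X.quotientToInvariants U).V) :
    (((transRep X h).hom x : (X.quotientToInvariants U').V) : X.V) = x.1 := rfl

/-- transition of 2-cochains -/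
def trans₂ (y : (G ⧸ U) × (G ⧸ U) → (X.quotientToInvariants U).V) :
    (G ⧸ U') × (G ⧸ U') → (X.quotientToInvariants U').V :=
  fun qq => (transRep X h).hom (y (transHom h qq.1, transHom h qq.2))

theorem infl₂_trans₂ (y : (G ⧸ U) × (G ⧸ U) → (X.quotientToInvariants U).V) :
    infl₂ X U' (trans₂ X h y) = infl₂ X U y := rfl

theorem trans₂_mem_cocycles₂ (y : (G ⧸ U) × (G ⧸ U) → (X.quotientToInvariants U).V)
    (hy : y ∈ cocycles₂ (X.quotientToInvariants U)) :
    trans₂ X h y ∈ cocycles₂ (X.quotientToInvariants U') := by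
  rw [← infl₂_mem_cocycles₂_iff, infl₂_trans₂, infl₂_mem_cocycles₂_iff]
  exact hy

/-- `groupCohomology.map` along the transition is the transition of cocycles. -/
theorem map_trans_H2π (y : cocycles₂ (X.quotientToInvariants U)) :
    (groupCohomology.map (transHom h) (transRep X h) 2).hom (H2π _ y) =
      H2π _ ⟨trans₂ X h y, trans₂_mem_cocycles₂ X h y y.2⟩ := by
  have := H2π_comp_map_apply (transHom h) (transRep X h) y
  rw [this]
  rfl

end Trans

section Inj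

variable {G : Type} [Group G] (𝒯 : Tower G) (X : Rep.{0} ℤ G)

/-- `X^U` has a `p`-fundamental class at every normal level `U`
(the datum axioms `cm_glob`, `cm_loc`). -/
def HasPFund (p : ℕ) : Prop :=
  ∀ (U : Subgroup G) [U.Normal], U ∈ 𝒯.lev →
    ∃ u : H2 (X.quotientToInvariants U), IsPFundClass p (X.quotientToInvariants U) u

variable {𝒯 X}

/-- **F1a, level form**: a `p`-primary class of `H²(G ⧸ U, X^U)` whose inflation to `G` is a level
coboundary is zero. -/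
theorem infl_injective_pPrimary (hInj : StmtInflInjFin) (p : ℕ) [Fact p.Prime]
    (hX : IsDiscrete 𝒯 X) (hcm : HasPFund 𝒯 X p) {U : Subgroup G} [U.Normal] (hU : U ∈ 𝒯.lev)
    (y : cocycles₂ (X.quotientToInvariants U)) (hp : IsPTors p (H2π _ y))
    (hy : infl₂ X U y ∈ levCoboundaries₂ 𝒯 X) : H2π _ y = 0 := by
  obtain ⟨t, ht, hty⟩ := (mem_levCoboundaries₂_iff 𝒯 X _).1 hy
  obtain ⟨V, hV, hVt⟩ := exists_desc₁ hX ht
  obtain ⟨U', hU', hle1, hle2, hn⟩ := tower_exists_normal_le₂ 𝒯 hU hV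
  have htd : Desc₁ X U' t := hVt.mono hle2
  have hfin := 𝒯.finiteIndex U' hU'
  have : Finite (G ⧸ U') := Subgroup.finite_quotient_of_finiteIndex
  have h1 : trans₂ X hle1 y = (d₁₂ (X.quotientToInvariants U')).hom (descend₁ t htd) := by
    apply infl₂_injective
    rw [infl₂_trans₂, infl₂_d₁₂, infl₁_descend₁, hty]
  have h2 : (groupCohomology.map (transHom hle1) (transRep X hle1) 2).hom (H2π _ y) = 0 := by
    rw [map_trans_H2π, H2π_eq_zero_iff]
    exact ⟨descend₁ t htd, h1.symm⟩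
  obtain ⟨u, hu⟩ := hcm U' hU'
  refine hInj p (G ⧸ U') (G ⧸ U) (transHom hle1) (transHom_surjective hle1)
    (X.quotientToInvariants U') (X.quotientToInvariants U) (transRep X hle1) ?_ ?_ hu.h1
    (H2π _ y) hp h2
  · intro a b hab
    have hab' : (a.1 : X.V) = b.1 :=
      congrArg (fun z : (X.quotientToInvariants U').V => (z.1 : X.V)) hab
    exact Subtype.ext hab'
  · intro c hc
    refine ⟨⟨c.1, fun s => ?_⟩, rfl⟩
    have h3 : transHom hle1 ((s : G) : G ⧸ U') = 1 := by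
      rw [transHom_mk]
      exact (QuotientGroup.eq_one_iff _).2 s.2
    exact congrArg Subtype.val (hc _ h3)

/-- every class of `levH2` is the class of a level cocycle -/
theorem levH2_exists_rep {k : Type} [CommRing k] {Y : Rep.{0} k G} (x : levH2 𝒯 Y) :
    ∃ a : ↥(levCocycles₂ 𝒯 Y), levH2π 𝒯 Y a = x :=
  Submodule.Quotient.mk_surjective _ x

/-- **F1b, level form**: the `p`-torsion of `levH2 𝒯 X` is cyclic. -/
theorem levH2_pTorsion_cyclic (hCyc : StmtH2pCyclic) (p : ℕ)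
    [Fact p.Prime] (hX : IsDiscrete 𝒯 X) (hcm : HasPFund 𝒯 X p)
    (x y : levH2 𝒯 X) (hx : p • x = 0) (hy : p • y = 0) (hx0 : x ≠ 0) :
    ∃ n : ℕ, y = n • x := by
  obtain ⟨a, rfl⟩ := levH2_exists_rep x
  obtain ⟨b, rfl⟩ := levH2_exists_rep y
  rw [← map_nsmul, levH2π_eq_zero_iff] at hx hy
  obtain ⟨s, hs, hsa⟩ := (mem_levCoboundaries₂_iff 𝒯 X _).1 hx
  obtain ⟨s', hs', hsb⟩ := (mem_levCoboundaries₂_iff 𝒯 X _).1 hy
  obtain ⟨Ua, hUa, hda⟩ := exists_desc₂ hX a.2.2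
  obtain ⟨Ub, hUb, hdb⟩ := exists_desc₂ hX b.2.2
  obtain ⟨Us, hUs, hds⟩ := exists_desc₁ hX hs
  obtain ⟨Us', hUs', hds'⟩ := exists_desc₁ hX hs'
  obtain ⟨U₁, hU₁, h1a, h1b, -⟩ := tower_exists_normal_le₂ 𝒯 hUa hUb
  obtain ⟨U₂, hU₂, h2s, h2s', -⟩ := tower_exists_normal_le₂ 𝒯 hUs hUs'
  obtain ⟨U, hU, hle1, hle2, hn⟩ := tower_exists_normal_le₂ 𝒯 hU₁ hU₂
  have hda' : Desc₂ X U (a : G × G → X.V) := hda.mono (hle1.trans h1a)
  have hdb' : Desc₂ X U (b : G × G → X.V) := hdb.mono (hle1.trans h1b)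
  have hdsU : Desc₁ X U s := hds.mono (hle2.trans h2s)
  have hdsU' : Desc₁ X U s' := hds'.mono (hle2.trans h2s')
  have hfin := 𝒯.finiteIndex U hU
  have : Finite (G ⧸ U) := Subgroup.finite_quotient_of_finiteIndex
  have hac : descend₂ (a : G × G → X.V) hda' ∈ cocycles₂ (X.quotientToInvariants U) := by
    rw [← infl₂_mem_cocycles₂_iff, infl₂_descend₂]
    exact a.2.1
  have hbc : descend₂ (b : G × G → X.V) hdb' ∈ cocycles₂ (X.quotientToInvariants U) := by
    rw [← infl₂_mem_cocycles₂_iff, infl₂_descend₂]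
    exact b.2.1
  set a' : cocycles₂ (X.quotientToInvariants U) := ⟨_, hac⟩ with ha'
  set b' : cocycles₂ (X.quotientToInvariants U) := ⟨_, hbc⟩ with hb'
  have hpa : p • (H2π _ a' : H2 (X.quotientToInvariants U)) = 0 := by
    rw [← map_nsmul, H2π_eq_zero_iff]
    refine ⟨descend₁ s hdsU, ?_⟩
    apply infl₂_injective
    rw [infl₂_d₁₂, infl₁_descend₁, hsa]
    show _ = infl₂ X U (p • descend₂ (a : G × G → X.V) hda')
    rw [infl₂_nsmul, infl₂_descend₂]
    rfl
  have hpb : p • (H2π _ b' : H2 (X.quotientToInvariants U)) = 0 := by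
    rw [← map_nsmul, H2π_eq_zero_iff]
    refine ⟨descend₁ s' hdsU', ?_⟩
    apply infl₂_injective
    rw [infl₂_d₁₂, infl₁_descend₁, hsb]
    show _ = infl₂ X U (p • descend₂ (b : G × G → X.V) hdb')
    rw [infl₂_nsmul, infl₂_descend₂]
    rfl
  have hne : (H2π _ a' : H2 (X.quotientToInvariants U)) ≠ 0 := by
    intro h0
    apply hx0
    rw [levH2π_eq_zero_iff]
    have := infl₂_mem_coboundaries₂ hU a'.1 ((H2π_eq_zero_iff _).1 h0)
    rwa [infl₂_descend₂] at this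
  obtain ⟨u, hu⟩ := hcm U hU
  obtain ⟨n, hn⟩ := hCyc p (G ⧸ U) (X.quotientToInvariants U) u hu _ _ hpa hpb hne
  refine ⟨n, ?_⟩
  have h5 : (H2π _ (b' - n • a') : H2 (X.quotientToInvariants U)) = 0 := by
    rw [map_sub, map_nsmul, hn, sub_self]
  rw [H2π_eq_zero_iff] at h5
  have h6 := infl₂_mem_coboundaries₂ hU _ h5
  rw [← sub_eq_zero, ← map_nsmul, ← map_sub, levH2π_eq_zero_iff]
  have h7 : infl₂ X U ((b' - n • a' : cocycles₂ (X.quotientToInvariants U)) :
      (G ⧸ U) × (G ⧸ U) → (X.quotientToInvariants U).V) = ((b - n • a : ↥(levCocycles₂ 𝒯 X)) :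
        G × G → X.V) := by
    show infl₂ X U (descend₂ (b : G × G → X.V) hdb' - n • descend₂ (a : G × G → X.V) hda') = _
    rw [infl₂_sub, infl₂_nsmul, infl₂_descend₂, infl₂_descend₂]
    rfl
  rw [← h7]
  exact h6

/-- the subgroup of elements killed by `p` -/
def pTors (p : ℕ) (Y : Type*) [AddCommGroup Y] : AddSubgroup Y :=
  (nsmulAddMonoidHom (α := Y) p).ker

theorem mem_pTors {p : ℕ} {Y : Type*} [AddCommGroup Y] {x : Y} : x ∈ pTors p Y ↔ p • x = 0 :=
  Iff.rfl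

/-- A group of exponent `p` in which every nonzero element generates embeds into `ZMod p`. -/
theorem exists_injective_to_zmod (p : ℕ) [Fact p.Prime] {T : Type*} [AddCommGroup T]
    (hp : ∀ x : T, p • x = 0) (hc : ∀ x y : T, x ≠ 0 → ∃ n : ℕ, y = n • x) :
    ∃ f : T →+ ZMod p, Function.Injective f := by
  by_cases h : ∀ x : T, x = 0
  · exact ⟨0, fun x y _ => (h x).trans (h y).symm⟩
  push Not at h
  obtain ⟨x₀, hx₀⟩ := h
  let g : ZMod p →+ T := ZMod.lift p ⟨zmultiplesHom T x₀, by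
    simpa using hp x₀⟩
  have hg : ∀ n : ℤ, g (n : ZMod p) = n • x₀ := fun n => by
    simp [g]
  have hsurj : Function.Surjective g := fun y => by
    obtain ⟨n, rfl⟩ := hc x₀ y hx₀
    exact ⟨((n : ℤ) : ZMod p), by rw [hg]; simp⟩
  have hinj : Function.Injective g := by
    rw [injective_iff_map_eq_zero]
    intro z hz
    by_contra hz0
    apply hx₀
    obtain ⟨n, rfl⟩ := ZMod.intCast_surjective z
    obtain ⟨m, hm⟩ := ZMod.intCast_surjective ((n : ZMod p)⁻¹)
    have h1 : ((m * n : ℤ) : ZMod p) = 1 := by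
      push_cast
      rw [hm]
      exact inv_mul_cancel₀ hz0
    have h2 : g ((m * n : ℤ) : ZMod p) = m • g (n : ZMod p) := by
      rw [hg, hg, mul_smul]
    rw [h1, hz, smul_zero] at h2
    have h3 : g 1 = x₀ := by
      have := hg 1
      simpa using this
    rw [← h3, h2]
  exact ⟨((AddEquiv.ofBijective g ⟨hinj, hsurj⟩).symm : T →+ ZMod p),
    (AddEquiv.ofBijective g ⟨hinj, hsurj⟩).symm.injective⟩

/-- **F1b**: the invariant map on the `p`-torsion of `levH2`. -/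
theorem exists_inv (hCyc : StmtH2pCyclic) (p : ℕ) [Fact p.Prime] (hX : IsDiscrete 𝒯 X)
    (hcm : HasPFund 𝒯 X p) :
    ∃ inv : pTors p (levH2 𝒯 X) →+ ZMod p, Function.Injective inv := by
  apply exists_injective_to_zmod p
  · intro x
    exact Subtype.ext x.2
  · intro x y hx
    have hx' : (x : levH2 𝒯 X) ≠ 0 := fun h => hx (Subtype.ext h)
    obtain ⟨n, hn⟩ := levH2_pTorsion_cyclic hCyc p hX hcm x y x.2 y.2 hx'
    exact ⟨n, Subtype.ext hn⟩

end Inj

end Fermat.Agent.PT.F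

end


end ZBPT_002_8

/-! ### bundled: `Fermat.Agent.PT.F.Pair` -/
section ZBPT_002_9

/-!
# PT-F §3, §4, §7 — INTERFACE FILE 2 of the sub-captain (helper68)

Definitions: the pairing cocycle `pairLift P g c̃ = g ∘ inc⁻¹ ∘ d c̃`, `pairCoc P g c = pairLift P g (s ∘ c)`.
Statements (one `Prop` each, owners in `NOTES/PT-F.md`):
`StmtPairBasic` (F3), `StmtPairH1` (F3-H1), `StmtCMP` (F7a), `StmtRightKer` (F4a),
`StmtLeftKer` (F4b), `StmtLocNondeg` (F7b), `StmtH1Finite` (F4c), `StmtAssembly` (F8).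
A statement may be proved assuming other statements of the PT-F interface as hypotheses
(`theorem stmtX_of : StmtY → StmtZ → StmtX`).
Everything is stated on cochain FUNCTIONS; `C` is any object of `Rep ℤ G`.
-/

set_option autoImplicit false

noncomputable section

namespace Fermat.Agent.PT.F

open CategoryTheory groupCohomology Fermat.Agent.PT

section Defs

variable {G : Type} [Group G] {𝒯 : Tower G} {k : Type} [CommRing k] {A' : Rep.{0} k G}
  (P : Presentation 𝒯 A')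

/-- a set-theoretic section of `ε : M₀ → A'` -/
def Presentation.sec (a : A'.V) : P.M₀.V := Classical.choose (P.ε_surjective a)

@[simp] lemma Presentation.ε_sec (a : A'.V) : P.ε (P.sec a) = a :=
  Classical.choose_spec (P.ε_surjective a)

/-- the inverse of `inc : M₁ → M₀` on its range `ker ε` -/
def Presentation.incInv : P.M₀.V → P.M₁.V := Function.invFun P.inc.hom

@[simp] lemma Presentation.incInv_inc (m : P.M₁.V) : P.incInv (P.inc.hom m) = m :=
  Function.leftInverse_invFun P.inc_injective m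

lemma Presentation.inc_incInv {m : P.M₀.V} (h : P.ε m = 0) : P.inc.hom (P.incInv m) = m := by
  obtain ⟨m₁, rfl⟩ := (P.exact m).1 h
  rw [P.incInv_inc]

/-- The pairing cochain attached to `g : M₁ ⟶ C` and a lift `c̃ : G → M₀` of a 1-cocycle of `A'`:
`(σ, τ) ↦ g (inc⁻¹ (σ c̃(τ) - c̃(στ) + c̃(σ)))`. -/
def pairLift {C : Rep.{0} ℤ G} (g : P.M₁ ⟶ C) (ct : G → P.M₀.V) : G × G → C.V :=
  fun στ => g.hom (P.incInv ((d₁₂ P.M₀).hom ct στ))

/-- The pairing cochain attached to `g : M₁ ⟶ C` and a 1-cocycle `c` of `A'`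
(lift `c̃ = s ∘ c`).  Its class in `H²_lev(G, C)` is `⟨g, c⟩` of the blueprint §3. -/
def pairCoc {C : Rep.{0} ℤ G} (g : P.M₁ ⟶ C) (c : G → A'.V) : G × G → C.V :=
  pairLift P g (fun σ => P.sec (c σ))

end Defs

/-! ### F3: basic properties of the pairing -/

/-- **F3** (level cochain calculus; each clause is a few lines).  For a presentation `P` of `A'`
and any `C`:
1. `pairLift g c̃` is a level 2-cocycle if `c̃` is a level cochain and `ε ∘ c̃` is a 1-cocycle;
2. it depends on the lift only up to a level coboundary;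
3. additivity in `g`; 4. additivity in `c` up to level coboundaries; 5. coboundaries pair to
level coboundaries; 6. `res Hom_G(M₀, C)` pairs to level coboundaries; 7. if `p • A' = 0` then
`p • pairCoc g c` is a level coboundary. -/
def StmtPairBasic : Prop :=
  ∀ (G : Type) [Group G] (𝒯 : Tower G) (k : Type) [CommRing k] (A' : Rep.{0} k G)
    (P : Presentation 𝒯 A') (C : Rep.{0} ℤ G),
    (∀ (g : P.M₁ ⟶ C) (ct : G → P.M₀.V), IsLevel₁ 𝒯 ct → (fun σ => P.ε (ct σ)) ∈ cocycles₁ A' →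
      pairLift P g ct ∈ levCocycles₂ 𝒯 C) ∧
    (∀ (g : P.M₁ ⟶ C) (ct ct' : G → P.M₀.V), IsLevel₁ 𝒯 ct → IsLevel₁ 𝒯 ct' →
      (fun σ => P.ε (ct σ)) ∈ cocycles₁ A' → (∀ σ, P.ε (ct σ) = P.ε (ct' σ)) →
      pairLift P g ct - pairLift P g ct' ∈ levCoboundaries₂ 𝒯 C) ∧
    (∀ (g g' : P.M₁ ⟶ C) (c : G → A'.V),
      pairCoc P (g + g') c = pairCoc P g c + pairCoc P g' c) ∧
    (∀ (g : P.M₁ ⟶ C) (c c' : G → A'.V), c ∈ cocycles₁ A' → c' ∈ cocycles₁ A' →
      IsLevel₁ 𝒯 c → IsLevel₁ 𝒯 c' →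
      pairCoc P g (c + c') - (pairCoc P g c + pairCoc P g c') ∈ levCoboundaries₂ 𝒯 C) ∧
    (∀ (g : P.M₁ ⟶ C) (c : G → A'.V), c ∈ coboundaries₁ A' →
      pairCoc P g c ∈ levCoboundaries₂ 𝒯 C) ∧
    (∀ (h : P.M₀ ⟶ C) (c : G → A'.V), c ∈ cocycles₁ A' → IsLevel₁ 𝒯 c →
      pairCoc P (P.inc ≫ h) c ∈ levCoboundaries₂ 𝒯 C) ∧
    (∀ (p : ℕ), (∀ a : A'.V, p • a = 0) → ∀ (g : P.M₁ ⟶ C) (c : G → A'.V), c ∈ cocycles₁ A' →
      IsLevel₁ 𝒯 c → p • pairCoc P g c ∈ levCoboundaries₂ 𝒯 C)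

/-! ### The finite-level input of a presentation -/

/-- `M` is trivial on the subgroup `U`. -/
def IsTrivOn {G : Type} [Group G] (M : Rep.{0} ℤ G) (U : Subgroup G) : Prop :=
  ∀ s ∈ U, ∀ m : M.V, M.ρ s m = m

/-- **(Ind)** for a `G`-module `M` (think `M = P.M₀`, a permutation module): for every
homomorphism `φ : H → G` and every normal subgroup `V` of finite index of `H` with `φ(V)` acting
trivially on `M`, `H¹(H ⧸ V, M) = 0`.  (For the standard presentation this is `stmtInd`.) -/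
def HasInd {G : Type} [Group G] (M : Rep.{0} ℤ G) : Prop :=
  ∀ (H : Type) [Group H] (φ : H →* G) (V : Subgroup H) [V.Normal], V.FiniteIndex →
    (∀ s ∈ V, ∀ m : M.V, M.ρ (φ s) m = m) →
    Subsingleton (H1 ((Rep.res φ M).quotientToInvariants V))

/-! ### F4: global duality -/

section Global

variable {p : ℕ} {G : Type} [Group G] {ι : Type} {Gloc : ι → Type} [∀ v, Group (Gloc v)]

/-- **F4a** (right kernel of the global pairing): a level 1-cocycle `c` of `A'` which pairs to a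
level coboundary with every `g : M₁ ⟶ C` is a coboundary.
Stated for an arbitrary "class module" `(G, 𝒯, C)` (`C` discrete with `p`-fundamental classes at
all normal levels), so that it applies to `(G, D.𝒯, D.C)` and to `(G_v, D.𝒯loc v, D.Jloc v)`. -/
def StmtRightKer : Prop :=
  ∀ (p : ℕ) [Fact p.Prime] (G : Type) [Group G] (𝒯 : Tower G) (C : Rep.{0} ℤ G),
    IsDiscrete 𝒯 C → HasPFund 𝒯 C p →
    ∀ (k : Type) [CommRing k] (A' : Rep.{0} k G) (P : Presentation 𝒯 A'),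
      (∀ a : A'.V, p • a = 0) → HasInd P.M₀ →
      ∀ c : G → A'.V, c ∈ cocycles₁ A' → IsLevel₁ 𝒯 c →
        (∀ g : P.M₁ ⟶ C, pairCoc P g c ∈ levCoboundaries₂ 𝒯 C) → c ∈ coboundaries₁ A'

/-- **F4b** (left kernel of the global pairing, with the level of the existence theorem):
there is a level `U'` such that every `g : M₁ ⟶ C` which pairs to level coboundaries with all
`1`-cocycles of `A'` that are right-`U'`-invariant is the restriction of some `g₀ : M₀ ⟶ C`. -/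
def StmtLeftKer : Prop :=
  ∀ (p : ℕ) [Fact p.Prime] (G : Type) [Group G] (ι : Type) [Fintype ι] (Gloc : ι → Type)
    [∀ v, Group (Gloc v)] (D : PTDatum p G ι Gloc)
    (k : Type) [CommRing k] (A' : Rep.{0} k G) (P : Presentation D.𝒯 A'),
      (∀ a : A'.V, p • a = 0) → HasInd P.M₀ →
      ∃ U' ∈ D.𝒯.lev, ∀ g : P.M₁ ⟶ D.C,
        (∀ c : G → A'.V, c ∈ cocycles₁ A' → (∀ σ s : G, s ∈ U' → c (σ * s) = c σ) →
          pairCoc P g c ∈ levCoboundaries₂ D.𝒯 D.C) →
        ∃ g₀ : P.M₀ ⟶ D.C, P.inc ≫ g₀ = g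

/-- **F3-H1** (the pairing on classes): there is an additive map
`Pg : Hom_G(M₁, C) → Hom_{𝔽_p}(H¹_lev(G, A'), 𝔽_p)` such that `Pg g [c] = 0` iff `pairCoc P g c` is a
level coboundary.  (`Pg g [c] := inv [pairCoc P g c]` with `inv` of `exists_inv` (Level.lean);
well defined and additive by `StmtPairBasic`; `𝔽_p`-linear because additive.) -/
def StmtPairH1 : Prop :=
  ∀ (p : ℕ) [Fact p.Prime] (G : Type) [Group G] (ι : Type) [Fintype ι] (Gloc : ι → Type)
    [∀ v, Group (Gloc v)] (D : PTDatum p G ι Gloc)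
    (A' : Rep.{0} (ZMod p) G) (P : Presentation D.𝒯 A'),
    ∃ Pg : (P.M₁ ⟶ D.C) →+ (↥(levH1 D.𝒯 A') →ₗ[ZMod p] ZMod p),
      ∀ (g : P.M₁ ⟶ D.C) (c : cocycles₁ A') (hc : IsLevel₁ D.𝒯 (c : G → A'.V)),
        Pg g ⟨(H1π A').hom c, (mem_levH1_iff D.𝒯 A' _).2 ⟨c, hc, rfl⟩⟩ = 0 ↔
          pairCoc P g c ∈ levCoboundaries₂ D.𝒯 D.C

/-- **F4c** (finiteness): `H¹_lev(G, A')` is finite.
(From F4a + F4b + F3-H1 by linear algebra, see `NOTES/PT-F.md`; `A'.V` is finite.) -/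
def StmtH1Finite : Prop :=
  ∀ (p : ℕ) [Fact p.Prime] (G : Type) [Group G] (ι : Type) [Fintype ι] (Gloc : ι → Type)
    [∀ v, Group (Gloc v)] (D : PTDatum p G ι Gloc)
    (A' : Rep.{0} (ZMod p) G) [FiniteDimensional (ZMod p) A'] (P : Presentation D.𝒯 A'),
      HasInd P.M₀ → Finite ↥(levH1 D.𝒯 A')

/-! ### F7: compatibility with the local conditions -/

/-- **F7a (CMP)**: if the level 1-cocycle `c` of `A'` is a coboundary on `G_v`, then it pairs to a
level coboundary with every `π ∘ ĝ_v`, `g_v : M₁ → J_v` a `G_v`-morphism.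
(Indeed already `ĝ_v ∘ inc⁻¹ ∘ d c̃` is a level coboundary in `J`: explicit Shapiro homotopy with
a `G_v`-equivariant level lift `c̃` of `c`, or finite-level Shapiro, see `NOTES/PT-F.md`.) -/
def StmtCMP : Prop :=
  ∀ (p : ℕ) [Fact p.Prime] (G : Type) [Group G] (ι : Type) [Fintype ι] (Gloc : ι → Type)
    [∀ v, Group (Gloc v)] (D : PTDatum p G ι Gloc)
    (k : Type) [CommRing k] (A' : Rep.{0} k G) (P : Presentation D.𝒯 A')
    (hM : IsLevTriv D.𝒯 P.M₁) (v : ι) (gv : Rep.res (D.r v) P.M₁ ⟶ D.Jloc v)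
    (c : G → A'.V), c ∈ cocycles₁ A' → IsLevel₁ D.𝒯 c →
    resOne D v c ∈ coboundaries₁ (Rep.res (D.r v) A') →
    pairCoc P (hat D P.M₁ hM v gv) c ∈ levCoboundaries₂ D.𝒯 (PTJ D)

/-- **F7b** (local nondegeneracy): if the level 1-cocycle `c` of `A'` pairs to a level coboundary
with `π ∘ ĝ_v` for ALL `G_v`-morphisms `g_v : M₁ → J_v`, then `c` is a coboundary on `G_v`.
(`StmtRightKer` for `(G_v, 𝒯loc v, J_v)` and the datum axiom `surv`.) -/
def StmtLocNondeg : Prop :=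
  ∀ (p : ℕ) [Fact p.Prime] (G : Type) [Group G] (ι : Type) [Fintype ι] (Gloc : ι → Type)
    [∀ v, Group (Gloc v)] (D : PTDatum p G ι Gloc)
    (k : Type) [CommRing k] (A' : Rep.{0} k G) (P : Presentation D.𝒯 A'),
    (∀ a : A'.V, p • a = 0) → HasInd P.M₀ →
    ∀ (hM : IsLevTriv D.𝒯 P.M₁) (v : ι) (c : G → A'.V), c ∈ cocycles₁ A' → IsLevel₁ D.𝒯 c →
    (∀ gv : Rep.res (D.r v) P.M₁ ⟶ D.Jloc v,
      pairCoc P (hat D P.M₁ hM v gv ≫ D.π) c ∈ levCoboundaries₂ D.𝒯 D.C) →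
    resOne D v c ∈ coboundaries₁ (Rep.res (D.r v) A')

/-- **F8** (assembly): for a datum `D`, a finite-dimensional `A` and a presentation `P` of
`A' = A.dualTwist χ` with the inputs `HasInd P.M₀` and `SeqInputs D A P`, all the statements of
the PT-F interface together give the perfect pairing `Ш¹(A') × Ш²(A) → 𝔽_p`.
(Proof: `NOTES/PT-F.md`, section F8.) -/
def StmtAssembly : Prop :=
  StmtPairBasic → StmtPairH1 → StmtRightKer → StmtLeftKer → StmtH1Finite → StmtCMP →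
  StmtLocNondeg → StmtKappa → StmtDelExists → StmtDelUnique → StmtDelAdd → StmtDelRes →
  StmtDelHat → StmtLocDel → StmtExactE → StmtExactH2 →
  ∀ (p : ℕ) [Fact p.Prime] (G : Type) [Group G] (ι : Type) [Fintype ι] (Gloc : ι → Type)
    [∀ v, Group (Gloc v)] (D : PTDatum p G ι Gloc)
    (A : Rep.{0} (ZMod p) G) [FiniteDimensional (ZMod p) A]
    (P : Presentation D.𝒯 (A.dualTwist D.χ)),
    HasInd P.M₀ → SeqInputs D A P →
    ∃ B : D.shaOne (A.dualTwist D.χ) →ₗ[ZMod p] D.shaTwo A →ₗ[ZMod p] ZMod p,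
      (∀ y, (∀ x, B y x = 0) → y = 0) ∧ (∀ x, (∀ y, B y x = 0) → x = 0)

end Global

end Fermat.Agent.PT.F

end


end ZBPT_002_9

/-! ### bundled: `Fermat.Agent.PT.F.LocNondeg` -/
section ZBPT_002_10

/-!
# PT-F piece F7b — local nondegeneracy (helper11)

`stmtLocNondeg_of : StmtRightKer → StmtPairBasic → StmtLocNondeg`.

The presentation `P` of `A'` is restricted along `r_v : G_v → G` (`presRes`); `StmtRightKer` for
`(G_v, 𝒯loc v, J_v)` reduces the claim to: every local pairing cocycle `⟨g_v, c ∘ r_v⟩` is a level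
coboundary; this local cocycle is the `v`-component at `1` of the global pairing cocycle
`y = ⟨ĝ_v, c⟩ : G² → J`, and the datum axiom `surv` applies to `y`.
-/

set_option autoImplicit false

noncomputable section

namespace Fermat.Agent.PT.F

open CategoryTheory groupCohomology Fermat.Agent.PT

namespace LocNondeg

section Res

variable {G H : Type} [Group G] [Group H] {𝒯 : Tower G} {k : Type} [CommRing k]
  {A' : Rep.{0} k G}

/-- Restriction of a presentation along a homomorphism `f : H → G` compatible with the towers. -/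
def presRes (P : Presentation 𝒯 A') (𝒯H : Tower H) (f : H →* G)
    (hf : ∀ U ∈ 𝒯.lev, U.comap f ∈ 𝒯H.lev) : Presentation 𝒯H (Rep.res f A') where
  U₀ := P.U₀.comap f
  U₀_mem := hf _ P.U₀_mem
  U₀_normal := P.U₀_normal.comap f
  M₀ := Rep.res f P.M₀
  M₁ := Rep.res f P.M₁
  inc := Rep.resMap f P.inc
  ε := P.ε
  ε_ρ := fun g m => P.ε_ρ (f g) m
  inc_injective := P.inc_injective
  ε_surjective := P.ε_surjective
  exact := P.exact
  triv₀ := fun s hs m => P.triv₀ (f s) hs m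
  n := P.n
  basis₀ := P.basis₀
  basis₀_spec := P.basis₀_spec

theorem presRes_sec (P : Presentation 𝒯 A') (𝒯H : Tower H) (f : H →* G)
    (hf : ∀ U ∈ 𝒯.lev, U.comap f ∈ 𝒯H.lev) (a : A'.V) :
    (presRes P 𝒯H f hf).sec a = P.sec a := rfl

theorem presRes_incInv (P : Presentation 𝒯 A') (𝒯H : Tower H) (f : H →* G)
    (hf : ∀ U ∈ 𝒯.lev, U.comap f ∈ 𝒯H.lev) (m : P.M₀.V) :
    (presRes P 𝒯H f hf).incInv m = P.incInv m := rfl

theorem res_d₁₂ (M : Rep.{0} ℤ G) (f : H →* G) (x : G → M.V) (dd : H × H) :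
    (d₁₂ (Rep.res f M)).hom (fun d => x (f d)) dd = (d₁₂ M).hom x (f dd.1, f dd.2) := by
  rw [d₁₂_hom_apply, d₁₂_hom_apply]
  simp only [map_mul]
  rfl

theorem presRes_pairCoc (P : Presentation 𝒯 A') (𝒯H : Tower H) (f : H →* G)
    (hf : ∀ U ∈ 𝒯.lev, U.comap f ∈ 𝒯H.lev) {C : Rep.{0} ℤ H}
    (g : (presRes P 𝒯H f hf).M₁ ⟶ C) (c : G → A'.V) (dd : H × H) :
    pairCoc (presRes P 𝒯H f hf) g (fun d => c (f d)) dd =
      g.hom (P.incInv ((d₁₂ P.M₀).hom (fun σ => P.sec (c σ)) (f dd.1, f dd.2))) :=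
  congrArg (fun m => g.hom (P.incInv m)) (res_d₁₂ P.M₀ f (fun σ => P.sec (c σ)) dd)

/-- `(Ind)` is inherited by restrictions. -/
theorem hasInd_res {M : Rep.{0} ℤ G} (hM : HasInd M) (f : H →* G) : HasInd (Rep.res f M) := by
  intro H' _ φ V _ hfin hV
  exact hM H' (f.comp φ) V hfin hV

end Res

end LocNondeg

open LocNondeg

/-- **F7b** (local nondegeneracy). -/
theorem stmtLocNondeg_of (hRK : StmtRightKer) (hPB : StmtPairBasic) : StmtLocNondeg := by
  intro p _ G _ ι _ Gloc _ D k _ A' P hpA hInd hM v c hc hlev hpair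
  have hlevv : IsLevel₁ (D.𝒯loc v) (resOne D v c) :=
    IsLevel₁.precomp D.𝒯 (D.𝒯loc v) (D.r v) (D.comap_mem v) hlev
  have hcv : resOne D v c ∈ cocycles₁ (Rep.res (D.r v) A') := by
    rw [mem_cocycles₁_iff] at hc ⊢
    intro g h
    simpa [resOne] using hc (D.r v g) (D.r v h)
  refine hRK p (Gloc v) (D.𝒯loc v) (D.Jloc v) (D.Jloc_discrete v)
    (fun V _ hV => D.cm_loc v V hV) k (Rep.res (D.r v) A')
    (presRes P (D.𝒯loc v) (D.r v) (D.comap_mem v)) hpA (hasInd_res hInd (D.r v))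
    (resOne D v c) hcv hlevv ?_
  intro gv
  obtain ⟨h1, -, -, -, -, -, h7⟩ := hPB G D.𝒯 k A' P (PTJ D)
  have hy_coc : pairCoc P (hat D P.M₁ hM v gv) c ∈ levCocycles₂ D.𝒯 (PTJ D) :=
    h1 _ _ (hlev.comp P.sec) (by simpa using hc)
  have hy_supp : ∀ v' : ι, v' ≠ v → ∀ g g' h : G,
      (pairCoc P (hat D P.M₁ hM v gv) c (g, g')).1 v' h = 0 :=
    fun v' hv' g g' h => hat_apply_ne D P.M₁ hM v gv _ (Ne.symm hv') h
  have hy_p : ∃ (n : ℕ) (t : G → (PTJ D).V), IsLevel₁ D.𝒯 t ∧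
      (d₁₂ (PTJ D)).hom t = (p ^ n) • pairCoc P (hat D P.M₁ hM v gv) c := by
    obtain ⟨t, ht, hdt⟩ := (mem_levCoboundaries₂_iff _ _ _).1
      (h7 p hpA (hat D P.M₁ hM v gv) c hc hlev)
    exact ⟨1, t, ht, by rw [hdt, pow_one]⟩
  have hy_π : ∃ t : G → D.C.V, IsLevel₁ D.𝒯 t ∧
      (d₁₂ D.C).hom t = fun gg => D.π.hom (pairCoc P (hat D P.M₁ hM v gv) c gg) := by
    obtain ⟨t, ht, hdt⟩ := (mem_levCoboundaries₂_iff _ _ _).1 (hpair gv)
    exact ⟨t, ht, by rw [hdt]; rfl⟩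
  obtain ⟨t, ht, hdt⟩ := D.surv v _ ((mem_levCocycles₂_iff _ _ _).1 hy_coc).1
    ((mem_levCocycles₂_iff _ _ _).1 hy_coc).2 hy_supp hy_p hy_π
  refine (mem_levCoboundaries₂_iff _ _ _).2 ⟨t, ht, ?_⟩
  rw [hdt]
  funext dd
  have key : (pairCoc P (hat D P.M₁ hM v gv) c ((D.r v) dd.1, (D.r v) dd.2)).1 v 1 =
      gv.hom (P.M₁.ρ 1 (P.incInv ((d₁₂ P.M₀).hom (fun σ => P.sec (c σ))
        ((D.r v) dd.1, (D.r v) dd.2)))) :=
    hat_apply_same D P.M₁ hM v gv _ 1
  rw [key, map_one]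
  exact (presRes_pairCoc P (D.𝒯loc v) (D.r v) (D.comap_mem v) gv c dd).symm

end Fermat.Agent.PT.F

end


end ZBPT_002_10

/-! ### bundled: `Fermat.Agent.PT.L.Plan2` -/
section ZBPT_002_11
/-
PT-L (local class field theory) — INTERFACE FILE, part 2 (definitions and statements only).
Additions requested after `Plan.lean` was landed. Plan: NOTES/PT-L-plan.md (sub-captain helper57).
-/

set_option autoImplicit false

namespace Fermat.Agent.PT.L

open CategoryTheory groupCohomology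

/-- L7c (requested by PT-X, helper69): the count `[Fˣ : Fˣᵖ] ≤ p ^ (2 + [F : ℚ_q]·[q = p])` when
`μ_p ⊂ F` (equality holds). -/
def StmtPowCard : Prop :=
  ∀ (q p : ℕ) [Fact q.Prime] [Fact p.Prime] (F : Type) [Field F] [Algebra ℚ_[q] F]
    [FiniteDimensional ℚ_[q] F] (ζ : F), IsPrimitiveRoot ζ p →
    (powMonoidHom p : Fˣ →* Fˣ).range.index ≤
      p ^ (2 + if q = p then Module.finrank ℚ_[q] F else 0)

/-- L6a: for EVERY finite Galois extension `F'/F` of local fields (any degree `n`) the group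
`H²(Gal(F'/F), F'ˣ)` contains a class of order exactly `n` (the unramified class). -/
def StmtLaGen : Prop :=
  ∀ (q : ℕ) [Fact q.Prime] (F F' : Type) [Field F] [Field F'] [Algebra ℚ_[q] F]
    [FiniteDimensional ℚ_[q] F] [Algebra F F'] [FiniteDimensional F F'] [IsGalois F F'],
    ∃ κ : H2 (Rep.ofAlgebraAutOnUnits F F'), addOrderOf κ = Module.finrank F F'

/-- L9 = (CM-loc), type-level form: for every finite Galois extension `F'/F` of local fields and
every prime `p`, `F'ˣ` has a `p`-fundamental class. -/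
def StmtFundClass : Prop :=
  ∀ (q : ℕ) [Fact q.Prime] (p : ℕ) [Fact p.Prime] (F F' : Type) [Field F] [Field F']
    [Algebra ℚ_[q] F] [FiniteDimensional ℚ_[q] F] [Algebra F F'] [FiniteDimensional F F']
    [IsGalois F F'],
    ∃ u : H2 (Rep.ofAlgebraAutOnUnits F F'),
      Fermat.Agent.PT.IsPFundClass p (Rep.ofAlgebraAutOnUnits F F') u

end Fermat.Agent.PT.L


end ZBPT_002_11

/-! ### bundled: `Fermat.Agent.PT.G3.Plan` -/
section ZBPT_002_12
/-
PT-G3 (reciprocity, fundamental class, local-global injectivity) — INTERFACE FILE, part 1: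
the ABSTRACT pieces (finite groups and `Rep ℤ G` only; no number theory).
Project PT = Poitou–Tate campaign for S55 (captain helper55, NOTES/S55-plan.md);
PT-G3 sub-captain: helper47; mathematics and piece table: NOTES/PT-G3.md.

Every `Stmt…` below is a `Prop`; the piece `X` is DONE when `theorem stmtX : StmtX` is landed
(sorry-free) in its own file `Fermat/Agent/PT/G3/<File>.lean`.
-/

set_option autoImplicit false

namespace Fermat.Agent.PT.G3

open CategoryTheory groupCohomology Fermat.Agent.PT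

/-- **Layer hypothesis** for `(G, C)` at `p`: for every `p`-subgroup `P ≤ G` and every normal
subgroup `P' ◁ P` of index `p`, the cyclic group `P / P'` of order `p` acting on `C ^ P'` has
`H¹ = 0` and `|H²| ≤ p`.  (Arithmetic: first + second inequality for the cyclic layer
`L^{P'} / L^P` of degree `p`.) -/
def LayerHyp (p : ℕ) {G : Type} [Group G] (C : Rep.{0} ℤ G) : Prop :=
  ∀ (P : Subgroup G), IsPGroup p P → ∀ (P' : Subgroup ↥P) [P'.Normal], P'.index = p →
    Subsingleton (H1 ((Rep.res P.subtype C).quotientToInvariants P')) ∧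
    Finite (H2 ((Rep.res P.subtype C).quotientToInvariants P')) ∧
    Nat.card (H2 ((Rep.res P.subtype C).quotientToInvariants P')) ≤ p

/-- `H¹(P, C) = 0` and `|H²(P, C)| ≤ |P|` for every `p`-subgroup `P`. -/
def PBound (p : ℕ) {G : Type} [Group G] (C : Rep.{0} ℤ G) : Prop :=
  ∀ (P : Subgroup G), IsPGroup p P →
    Subsingleton (H1 (Rep.res P.subtype C)) ∧
    Finite (H2 (Rep.res P.subtype C)) ∧
    Nat.card (H2 (Rep.res P.subtype C)) ≤ Nat.card P

/-- **G3-dev** (dévissage): the layer hypothesis implies the bounds for all `p`-subgroups.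
Induction on `|P|`: a nontrivial `p`-group has a normal subgroup `P'` of index `p`;
inflation–restriction in degrees 1 and 2 (`StmtInfRes₂`, landed) for `P' ◁ P`. -/
def StmtDevissage : Prop :=
  ∀ (p : ℕ) [Fact p.Prime] (G : Type) [Group G] [Finite G] (C : Rep.{0} ℤ G),
    LayerHyp p C → PBound p C

/-- **G3-fund** (fundamental class from the order): if the bounds hold and the order of
`u ∈ H²(G, C)` is divisible by the full power of `p` in `|G|`, then `u` is a `p`-fundamental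
class.  (`cor ∘ res = index`: PT/A/Sylow.lean.) -/
def StmtFundOfOrder : Prop :=
  ∀ (p : ℕ) [Fact p.Prime] (G : Type) [Group G] [Finite G] (C : Rep.{0} ℤ G) (u : H2 C),
    PBound p C →
    (∀ k : ℕ, k • u = 0 → p ^ (Nat.card G).factorization p ∣ k) →
    IsPFundClass p C u

/-- **G3-carry** (the carry class detects Sylow norms): let `θ : G ↠ ℤ/h` (`h` a power of `p`)
with kernel `A`, `P` a Sylow `p`-subgroup with `H¹(P ∩ A, C) = 0`, and `a ∈ C^G`.  If the carry
cocycle `cmpCarry h θ a` (the inflation of the periodicity class of `a`) is a coboundary on `G`,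
then `a = N_{P/(P ∩ A)} d` for some `d ∈ C^{P ∩ A}`.
(Restrict to `P`, where `θ` stays onto; inflation from `P/(P ∩ A)` is injective by `StmtInfRes₂`;
then `cmpCarry_norm_of_mem_coboundaries₂`.) -/
def StmtCarryZero : Prop :=
  ∀ (p : ℕ) [Fact p.Prime] (G : Type) [Group G] [Finite G] (C : Rep.{0} ℤ G)
    (A : Subgroup G) [A.Normal] (h : ℕ) [NeZero h] (θ : G →* Multiplicative (ZMod h)),
    Function.Surjective θ → θ.ker = A → (∃ j : ℕ, h = p ^ j) →
    ∀ (P : Sylow p G), Subsingleton (H1 (Rep.res ((P : Subgroup G) ⊓ A).subtype C)) →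
    ∀ a : C.V, (∀ g : G, C.ρ g a = a) → cmpCarry h θ a ∈ coboundaries₂ C →
      ∃ d : C.V, (∀ x ∈ (P : Subgroup G) ⊓ A, C.ρ x d = d) ∧
        a = ∑ᶠ t : ↥(P : Subgroup G) ⧸ (A.subgroupOf (P : Subgroup G)),
          C.ρ ((Quotient.out t : ↥(P : Subgroup G)) : G) d

/-- **G3-carryres**: the carry class of a norm from a subgroup `B` dies on `B`, and the order of
the carry class of `a₀` is divisible by `h` as soon as no multiple `k a₀`, `h ∤ k`, is a Sylow
norm.  Output: a class `y ∈ H²(G, C)` with `res_B y = 0` of order divisible by `h`. -/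
def StmtCarryClass : Prop :=
  ∀ (p : ℕ) [Fact p.Prime] (G : Type) [Group G] [Finite G] (C : Rep.{0} ℤ G)
    (A B : Subgroup G) [A.Normal] (h : ℕ) [NeZero h] (θ : G →* Multiplicative (ZMod h)),
    Function.Surjective θ → θ.ker = A → (∃ j : ℕ, h = p ^ j) →
    ∀ (P : Sylow p G), Subsingleton (H1 (Rep.res ((P : Subgroup G) ⊓ A).subtype C)) →
    ∀ a₀ : C.V, (∀ g : G, C.ρ g a₀ = a₀) →
      (∃ e : C.V, a₀ = ∑ᶠ b : ↥B, C.ρ (b : G) e) →
      (∀ k : ℕ, (∃ d : C.V, (∀ x ∈ (P : Subgroup G) ⊓ A, C.ρ x d = d) ∧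
          k • a₀ = ∑ᶠ t : ↥(P : Subgroup G) ⧸ (A.subgroupOf (P : Subgroup G)),
            C.ρ ((Quotient.out t : ↥(P : Subgroup G)) : G) d) → h ∣ k) →
      ∃ y : H2 C, (resSub C B 2).hom y = 0 ∧ ∀ k : ℕ, k • y = 0 → h ∣ k

/-- **G3-infsurj** (inflation–restriction along a surjection): for `f : G ↠ Q`, a `Q`-module `D`,
a `G`-module `C` and a `G`-map `φ : D → C` which identifies `D` with `C ^ ker f`: if
`H¹(ker f, C) = 0` then `Inf = groupCohomology.map f φ 2 : H²(Q, D) → H²(G, C)` is injective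
with image the kernel of the restriction to `ker f`.
(`StmtInfRes₂` + transport along `G ⧸ ker f ≃* Q`, `D ≃ C ^ ker f`.)  Used with
`G = Gal(N/ℚ)`, `Q = Gal(L/ℚ)`, `D = C_S(L)`, `C = C_S(N)`; also locally (PT-L L4a/L4b). -/
def StmtInfSurj : Prop :=
  ∀ (G Q : Type) [Group G] [Group Q] (f : G →* Q), Function.Surjective f →
    ∀ (D : Rep.{0} ℤ Q) (C : Rep.{0} ℤ G) (φ : Rep.res f D ⟶ C),
      Function.Injective φ.hom →
      (∀ c : C.V, (∀ g ∈ f.ker, C.ρ g c = c) → ∃ d : D.V, φ.hom d = c) →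
      Subsingleton (H1 (Rep.res f.ker.subtype C)) →
      Function.Injective (groupCohomology.map f φ 2).hom ∧
      ∀ x : H2 C, (resSub C f.ker 2).hom x = 0 →
        ∃ y : H2 D, (groupCohomology.map f φ 2).hom y = x

/-- **G3-abs** (abstract assembly of the fundamental class).  Data: `f : G ↠ Q` with `p`-group
kernel (`Q = Gal(L/ℚ)`, `G = Gal(N/ℚ)`, `N = L·ℚ_m`), `D ≃ C ^ ker f`, the layer hypothesis for
`C` and for `D`, `θ : G ↠ ℤ/h` with `h` = the `p`-part of `|Q|`, and `a₀ ∈ C^G` which is a norm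
from `ker f` and no multiple `k a₀` of which (`h ∤ k`) is a Sylow norm.
Then `D` has a `p`-fundamental class. -/
def StmtFundAbs : Prop :=
  ∀ (p : ℕ) [Fact p.Prime] (G Q : Type) [Group G] [Group Q] [Finite G] [Finite Q] (f : G →* Q),
    Function.Surjective f → IsPGroup p f.ker →
    ∀ (D : Rep.{0} ℤ Q) (C : Rep.{0} ℤ G) (φ : Rep.res f D ⟶ C),
      Function.Injective φ.hom →
      (∀ c : C.V, (∀ g ∈ f.ker, C.ρ g c = c) → ∃ d : D.V, φ.hom d = c) →
      LayerHyp p C → LayerHyp p D →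
      ∀ (A : Subgroup G) [A.Normal] (h : ℕ) [NeZero h] (θ : G →* Multiplicative (ZMod h)),
        Function.Surjective θ → θ.ker = A → h = p ^ (Nat.card Q).factorization p →
        ∀ (P : Sylow p G) (a₀ : C.V), (∀ g : G, C.ρ g a₀ = a₀) →
          (∃ e : C.V, a₀ = ∑ᶠ b : ↥f.ker, C.ρ (b : G) e) →
          (∀ k : ℕ, (∃ d : C.V, (∀ x ∈ (P : Subgroup G) ⊓ A, C.ρ x d = d) ∧
              k • a₀ = ∑ᶠ t : ↥(P : Subgroup G) ⧸ (A.subgroupOf (P : Subgroup G)),
                C.ρ ((Quotient.out t : ↥(P : Subgroup G)) : G) d) → h ∣ k) →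
          ∃ u : H2 D, IsPFundClass p D u

end Fermat.Agent.PT.G3


end ZBPT_002_12
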