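/- GENERATED FILE (helper35, build-time optimisation, NOTES/ZB.md): verbatim concatenation of the modules
   Fermat.Agent.PT.B.Arch
   Do not edit; do not import together with these modules. -/
import Fermat.Prelude.Def_GroupCohomology_ContinuousUnramified
import Fermat.Agent.ZB.PT_004

/-! ### bundled: `Fermat.Agent.PT.B.Arch` -/
section ZBPT_010_0
/-
PT-B (bridge for S55), piece B-arch: the archimedean place contributes nothing when `p` is odd.

* `h1_subsingleton_of_card_ne_zero`   : `H¹(H, A) = 0` for a finite group `H` with `|H| ≠ 0` in `k`;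
* `continuousH2_subsingleton_of_card_ne_zero` : the prelude's `continuousH2 r M` vanishes for such `H`
  (for ANY `r : H →* Gal(ℚ̄/ℚ)`);
* `natCard_archimedeanDecomposition_dvd_two`, and the two specialisations to
  `ExtCitation.archimedeanLoc` over `ZMod p`, `p ≠ 2`;
* `mem_sha₂_iff`, `mem_sha₁_iff` : in the prelude's `sha₂ S M`, `sha₁ S A` only the finite places
  `q ∈ S` matter.
-/

set_option autoImplicit false

namespace Fermat.Agent.PT.B

open CategoryTheory groupCohomology ExtCitation

universe u

section Finite

variable {k H : Type u} [Field k] [Group H]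

/-- Averaging: for a finite group `H` whose order is invertible in `k`, every `1`-cocycle is a
coboundary. -/
theorem mem_coboundaries₁_of_card_ne_zero [Finite H] (A : Rep k H)
    (hH : (Nat.card H : k) ≠ 0) (f : H → A) (hf : f ∈ cocycles₁ A) : f ∈ coboundaries₁ A := by
  classical
  letI : Fintype H := Fintype.ofFinite H
  rw [mem_cocycles₁_iff] at hf
  set n : k := (Nat.card H : k) with hn
  set s : A := ∑ h : H, f h with hs
  refine ⟨-(n⁻¹ • s), ?_⟩
  funext g
  rw [d₀₁_hom_apply]
  have key : s = A.ρ g s + n • f g := by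
    have h1 : ∑ h : H, f (g * h) = s :=
      Fintype.sum_equiv (Equiv.mulLeft g) _ _ (fun _ => rfl)
    calc s = ∑ h : H, f (g * h) := h1.symm
      _ = ∑ h : H, (A.ρ g (f h) + f g) := Finset.sum_congr rfl (fun h _ => hf g h)
      _ = A.ρ g s + n • f g := by
        rw [Finset.sum_add_distrib, ← map_sum, Finset.sum_const, Finset.card_univ,
          ← Nat.card_eq_fintype_card, hn, Nat.cast_smul_eq_nsmul]
  have h2 : n⁻¹ • s = A.ρ g (n⁻¹ • s) + f g := by
    conv_lhs => rw [key]
    rw [smul_add, smul_smul, inv_mul_cancel₀ hH, one_smul, map_smul]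
  rw [map_neg, sub_neg_eq_add, neg_add_eq_sub, sub_eq_iff_eq_add']
  exact h2

/-- `H¹(H, A) = 0` for a finite group `H` whose order is invertible in `k`. -/
theorem h1_subsingleton_of_card_ne_zero [Finite H] (A : Rep k H)
    (hH : (Nat.card H : k) ≠ 0) : Subsingleton (H1 A) := by
  refine ⟨fun x y => ?_⟩
  have hz : ∀ z : H1 A, z = 0 := by
    intro z
    induction z using H1_induction_on with
    | h c =>
      exact (H1π_eq_zero_iff c).2 (mem_coboundaries₁_of_card_ne_zero A hH _ c.2)
  rw [hz x, hz y]

/-- Averaging in degree two, keeping track of level-constancy: for a finite group `H` whose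
order is invertible in `k` every level-constant `2`-cocycle is the coboundary of a
level-constant `1`-cochain. -/
theorem mem_levelCoboundaries₂_of_card_ne_zero [Finite H]
    (r : H →* (AlgebraicClosure ℚ ≃ₐ[ℚ] AlgebraicClosure ℚ)) (M : Rep k H)
    (hH : (Nat.card H : k) ≠ 0) (f : H × H → M) (hf : f ∈ levelCocycles₂ r M) :
    f ∈ levelCoboundaries₂ r M := by
  classical
  letI : Fintype H := Fintype.ofFinite H
  obtain ⟨hcoc, F, hF, hlev⟩ := hf
  replace hcoc := (mem_cocycles₂_iff f).1 hcoc
  set n : k := (Nat.card H : k) with hn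
  rw [mem_levelCoboundaries₂_iff]
  refine ⟨fun g => n⁻¹ • ∑ h : H, f (g, h), ⟨F, hF, fun g s hs => ?_⟩, ?_⟩
  · simp only
    congr 1
    refine Finset.sum_congr rfl fun h _ => ?_
    have := hlev g h s 1 hs (by rw [map_one]; exact Subgroup.one_mem _)
    rwa [mul_one] at this
  · funext ⟨g, g'⟩
    rw [d₁₂_hom_apply]
    simp only [map_smul, map_sum]
    rw [← smul_sub, ← smul_add, ← Finset.sum_sub_distrib, ← Finset.sum_add_distrib]
    have h1 : ∀ h : H, (M.ρ g) (f (g', h)) - f (g * g', h) + f (g, h)
        = f (g, g') - f (g, g' * h) + f (g, h) := by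
      intro h
      have := hcoc g g' h
      have e : (M.ρ g) (f (g', h)) = f (g * g', h) + f (g, g') - f (g, g' * h) :=
        eq_sub_of_add_eq this.symm
      rw [e]
      abel
    rw [Finset.sum_congr rfl (fun h _ => h1 h)]
    rw [Finset.sum_add_distrib, Finset.sum_sub_distrib]
    have h2 : ∑ h : H, f (g, g' * h) = ∑ h : H, f (g, h) :=
      Fintype.sum_equiv (Equiv.mulLeft g') _ _ (fun _ => rfl)
    rw [h2, sub_add_cancel, Finset.sum_const, Finset.card_univ, ← Nat.card_eq_fintype_card,
      ← Nat.cast_smul_eq_nsmul k, smul_smul, inv_mul_cancel₀ hH, one_smul]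

/-- The prelude's `continuousH2 r M` vanishes for a finite group `H` whose order is invertible
in `k`. -/
theorem continuousH2_subsingleton_of_card_ne_zero [Finite H]
    (r : H →* (AlgebraicClosure ℚ ≃ₐ[ℚ] AlgebraicClosure ℚ)) (M : Rep k H)
    (hH : (Nat.card H : k) ≠ 0) : Subsingleton (continuousH2 r M) := by
  refine ⟨fun x y => ?_⟩
  have hz : ∀ z : continuousH2 r M, z = 0 := by
    intro z
    obtain ⟨c, rfl⟩ := Submodule.Quotient.mk_surjective _ z
    exact (continuousH2π_eq_zero_iff r M c).2
      (mem_levelCoboundaries₂_of_card_ne_zero r M hH _ c.2)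
  rw [hz x, hz y]

end Finite

section Archimedean

/-- The archimedean decomposition group (generated by complex conjugation) has order `1` or `2`. -/
theorem natCard_archimedeanDecomposition_dvd_two : Nat.card archimedeanDecomposition ∣ 2 := by
  unfold archimedeanDecomposition
  rw [Nat.card_zpowers]
  exact orderOf_dvd_of_pow_eq_one complexConjugation_sq

instance finite_archimedeanDecomposition : Finite archimedeanDecomposition :=
  Nat.finite_of_card_ne_zero (fun h => by
    have := natCard_archimedeanDecomposition_dvd_two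
    rw [h] at this
    simp at this)

variable {p : ℕ} [Fact p.Prime]

/-- The order of the archimedean decomposition group is invertible mod an odd prime. -/
theorem natCard_archimedeanDecomposition_ne_zero (hp2 : p ≠ 2) :
    ((Nat.card archimedeanDecomposition : ℕ) : ZMod p) ≠ 0 := by
  intro h
  rw [ZMod.natCast_eq_zero_iff] at h
  have h2 : p ∣ 2 := h.trans natCard_archimedeanDecomposition_dvd_two
  exact hp2 ((Nat.prime_dvd_prime_iff_eq Fact.out Nat.prime_two).1 h2)

/-- `H¹` of the archimedean decomposition group vanishes on `𝔽_p`-modules, `p` odd. -/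
theorem h1_archimedean_subsingleton (hp2 : p ≠ 2) (A : Rep (ZMod p) archimedeanDecomposition) :
    Subsingleton (H1 A) :=
  h1_subsingleton_of_card_ne_zero A (natCard_archimedeanDecomposition_ne_zero hp2)

/-- The prelude's continuous `H²` of the archimedean decomposition group vanishes on
`𝔽_p`-modules, `p` odd. -/
theorem continuousH2_archimedean_subsingleton (hp2 : p ≠ 2)
    (M : Rep (ZMod p) archimedeanDecomposition) :
    Subsingleton (continuousH2 archimedeanLoc M) :=
  continuousH2_subsingleton_of_card_ne_zero archimedeanLoc M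
    (natCard_archimedeanDecomposition_ne_zero hp2)

variable (S : Finset Nat.Primes)

/-- In the prelude's `sha₂ S M` only the finite places `q ∈ S` matter (`p` odd). -/
theorem mem_sha₂_iff (hp2 : p ≠ 2)
    (M : Rep (ZMod p) (AlgebraicClosure ℚ ≃ₐ[ℚ] AlgebraicClosure ℚ)) (x : continuousH2S S M) :
    x ∈ sha₂ S M ↔ ∀ q : ↥S, locTotal₂S S M x (Sum.inr q) = 0 := by
  unfold sha₂
  rw [LinearMap.mem_ker]
  constructor
  · intro h q
    rw [h]; rfl
  · intro h
    funext v
    rcases v with v | q
    · haveI := continuousH2_archimedean_subsingleton hp2 (Rep.res archimedeanLoc M)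
      exact Subsingleton.elim (α := continuousH2 archimedeanLoc (Rep.res archimedeanLoc M)) _ _
    · exact h q

/-- In the prelude's `sha₁ S A` only the finite places `q ∈ S` matter (`p` odd). -/
theorem mem_sha₁_iff (hp2 : p ≠ 2)
    (A : Rep (ZMod p) (AlgebraicClosure ℚ ≃ₐ[ℚ] AlgebraicClosure ℚ)) (x : H1 A) :
    x ∈ sha₁ S A ↔
      x ∈ continuousH1S S A ∧ ∀ q : ↥S, locTotal (extArithLoc S) A x (Sum.inr q) = 0 := by
  unfold sha₁
  rw [Submodule.mem_inf, LinearMap.mem_ker]
  refine and_congr_right fun _ => ?_
  constructor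
  · intro h q
    rw [h]; rfl
  · intro h
    funext v
    rcases v with v | q
    · haveI := h1_archimedean_subsingleton hp2 (Rep.res archimedeanLoc A)
      exact Subsingleton.elim (α := H1 (Rep.res archimedeanLoc A)) _ _
    · exact h q

end Archimedean

end Fermat.Agent.PT.B


end ZBPT_010_0
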