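/- GENERATED FILE (helper35, build-time optimisation, NOTES/ZB.md): verbatim concatenation of the modules
   Fermat.Agent.PT.B.Plan
   Fermat.Agent.PT.B.NormalClosure
   Fermat.Agent.PT.B.Towers
   Fermat.Agent.TW.L.Plan
   Fermat.Agent.PT.B.Krasner
   Fermat.Agent.PT.B.Decomp
   Fermat.Agent.PT.B.LocalLevel
   Fermat.Agent.TW.L.DecFull
   Fermat.Agent.PT.B.CycloField
   Fermat.Agent.TW.L.LTw
   Fermat.Agent.TW.L.Plan2
   Fermat.Agent.PT.B.Plan2
   Fermat.Agent.PT.B.Concrete
   Fermat.Agent.TW.L.FrobExists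
   Fermat.Agent.PT.B.Zeta
   Fermat.Agent.PT.B.KernelField
   Fermat.Agent.PT.B.Mirror
   Fermat.Agent.TW.L.GlobAdTwist
   Do not edit; do not import together with these modules. -/
import Fermat.Prelude.Def_GroupCohomology_ContinuousUnramified
import Fermat.Agent.ZB.PT_002
import Fermat.Prelude.Def_GaloisRep_Residual
import Fermat.Prelude.Def_GaloisRep_LocalConditions
import Fermat.Prelude.Def_GaloisRep_ComplexConjugation
import Fermat.Prelude.Def_ExtCitation_KummerBridge
import Fermat.Agent.ZB.S05_001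
import Mathlib
import Fermat.Agent.ZB.Common_003
import Fermat.Agent.ZB.PT_010

/-! ### bundled: `Fermat.Agent.PT.B.Plan` -/
section ZBPT_003_0
/-
PT-B (bridge for S55) — INTERFACE FILE (definitions and statements only, no proofs).
Project PT = Poitou–Tate campaign for S55 (captain helper55, NOTES/S55-plan.md);
PT-B sub-captain: helper54; piece table: NOTES/PT-B.md.

PT-B connects the prelude's objects (`IsUnramifiedOutside`, `IsLevelConstantS₁/₂`, `continuousH1S`,
`continuousH2S`, `continuousH2`, `extArithLoc`, `padicEmbedding`, `localGaloisToGlobal`) with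
finite Galois extensions `L/ℚ` inside `ℚ̄` and finite extensions `ℚ_q·ι(L)/ℚ_q` inside `PadicAlgCl q`.

Every `Stmt…` below is a `Prop`; the piece `X` is DONE when `theorem stmtX : StmtX` is landed.
-/

set_option autoImplicit false

namespace Fermat.Agent.PT.B

open CategoryTheory groupCohomology ExtCitation

/-- `G_ℚ` -/
abbrev GQ : Type := AlgebraicClosure ℚ ≃ₐ[ℚ] AlgebraicClosure ℚ

/-- `ℚ̄ ⊂ ℚ̄_q` as a type-level abbreviation for intermediate fields of `ℚ̄/ℚ`. -/
abbrev QbarField : Type := IntermediateField ℚ (AlgebraicClosure ℚ)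

/-- The tower `𝓕_S`: finite GALOIS extensions of `ℚ` inside `ℚ̄`, unramified outside `S`. -/
def IsTowerField (S : Finset Nat.Primes) (L : QbarField) : Prop :=
  L.IsUnramifiedOutside S ∧ IsGalois ℚ L

/-! ### Global pieces -/

/-- **B-nc** (normal closure): every field unramified outside `S` lies in a Galois one. -/
def StmtNormalClosure : Prop :=
  ∀ (S : Finset Nat.Primes) (F : QbarField), F.IsUnramifiedOutside S →
    ∃ L : QbarField, F ≤ L ∧ IsTowerField S L

/-- **B-ker** (kernel field): a finite-dimensional smooth representation of `G_ℚ` which is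
unramified outside `S` is trivial on `Gal(ℚ̄/L)` for some `L` in the tower. -/
def StmtKernelField : Prop :=
  ∀ (k : Type) [Field k] (S : Finset Nat.Primes) (M : Rep.{0, 0, 0} k GQ) [FiniteDimensional k M],
    (∀ m : M, ∃ F : QbarField, FiniteDimensional ℚ F ∧ ∀ s ∈ F.fixingSubgroup, M.ρ s m = m) →
    (∀ q : Nat.Primes, q ∉ S → ∀ A : ValuationSubring (AlgebraicClosure ℚ),
      A.LiesOverPrime (q : ℕ) → ∀ g ∈ A.inertiaSubgroupIn ℚ, M.ρ g = 1) →
    ∃ L : QbarField, IsTowerField S L ∧ ∀ s ∈ L.fixingSubgroup, M.ρ s = 1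

/-- **B-cyc** (cyclotomic field): the mod `p` cyclotomic character is trivial on `Gal(ℚ̄/L)` for
some `L` in the tower, as soon as `p ∈ S`. -/
def StmtCycloField : Prop :=
  ∀ (p : ℕ) [Fact p.Prime] (S : Finset Nat.Primes), pPrime p ∈ S →
    ∃ L : QbarField, IsTowerField S L ∧ ∀ s ∈ L.fixingSubgroup, cycloChar p s = 1

/-- **B-dual** (the dual twist is again smooth and unramified outside `S`). -/
def StmtDualTwist : Prop :=
  ∀ (p : ℕ) [Fact p.Prime] (S : Finset Nat.Primes), pPrime p ∈ S →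
    ∀ (M : Rep.{0, 0, 0} (ZMod p) GQ) [FiniteDimensional (ZMod p) M] (L : QbarField), IsTowerField S L →
      (∀ s ∈ L.fixingSubgroup, M.ρ s = 1) →
      ∃ L' : QbarField, L ≤ L' ∧ IsTowerField S L' ∧
        (∀ s ∈ L'.fixingSubgroup, cycloChar p s = 1) ∧
        ∀ s ∈ L'.fixingSubgroup, (M.dualTwist (cycloChar p)).ρ s = 1

/-! ### Local pieces (at a prime `q`) -/

section Local

variable (q : ℕ) [Fact q.Prime]

/-- `G_{ℚ_q} = Gal(ℚ̄_q/ℚ_q)` -/
abbrev GQq : Type := PadicAlgCl q ≃ₐ[ℚ_[q]] PadicAlgCl q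

/-- The local field `L_q := ℚ_q·ι(L) ⊂ ℚ̄_q` attached to `L ⊂ ℚ̄` (`ι = padicEmbedding q`). -/
noncomputable def localField (L : QbarField) : IntermediateField ℚ_[q] (PadicAlgCl q) :=
  IntermediateField.adjoin ℚ_[q] ((padicEmbedding q) '' (L : Set (AlgebraicClosure ℚ)))

end Local

/-- **B-loc1**: the pull-back of `Gal(ℚ̄/F)` along `localGaloisToGlobal q` is `Gal(ℚ̄_q/F_q)`. -/
def StmtLocalLevel : Prop :=
  ∀ (q : ℕ) [Fact q.Prime] (F : QbarField) (τ : GQq q),
    localGaloisToGlobal q τ ∈ F.fixingSubgroup ↔ τ ∈ (localField q F).fixingSubgroup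

/-- **B-locfin**: `F_q/ℚ_q` is finite when `F/ℚ` is. -/
def StmtLocalFinite : Prop :=
  ∀ (q : ℕ) [Fact q.Prime] (F : QbarField), FiniteDimensional ℚ F →
    FiniteDimensional ℚ_[q] (localField q F)

/-- **B-kras** (Krasner): the fields `F_q`, `F/ℚ` finite Galois, are cofinal among the finite
extensions of `ℚ_q` inside `ℚ̄_q`. -/
def StmtKrasner : Prop :=
  ∀ (q : ℕ) [Fact q.Prime] (K' : IntermediateField ℚ_[q] (PadicAlgCl q)),
    FiniteDimensional ℚ_[q] K' →
    ∃ F : QbarField, FiniteDimensional ℚ F ∧ IsGalois ℚ F ∧ K' ≤ localField q F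

/-- **B-dec** (decomposition group): for `L/ℚ` finite Galois inside `ℚ̄`, every element of the
decomposition group of `padicPlace q` agrees on `L` with the image of a local Galois element. -/
def StmtDecomp : Prop :=
  ∀ (q : ℕ) [Fact q.Prime] (L : QbarField), FiniteDimensional ℚ L → IsGalois ℚ L →
    ∀ σ ∈ (padicPlace q).decompositionSubgroup ℚ,
      ∃ τ : GQq q, ∀ x ∈ L, localGaloisToGlobal q τ x = σ x

end Fermat.Agent.PT.B


end ZBPT_003_0

/-! ### bundled: `Fermat.Agent.PT.B.NormalClosure` -/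
section ZBPT_003_1
/-
PT-B piece B-nc: the tower `𝓕_S` is closed under conjugation, normal closure and sup.

* `mem_inertiaSubgroupIn_iff` : elementwise description of the prelude's inertia subgroup;
* `conj_mem_inertiaSubgroupIn` : `τ I_A τ⁻¹ ⊆ I_{τ A}`;
* `isUnramifiedOutside_map`    : conjugates of fields unramified outside `S`;
* `stmtNormalClosure : StmtNormalClosure`;
* `isTowerField_sup`, `exists_isTowerField_ge` : the tower is directed.
-/

set_option autoImplicit false
set_option linter.style.haveILetI false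

namespace Fermat.Agent.PT.B

open scoped Pointwise

section General

variable {K L : Type*} [Field K] [Field L] [Algebra K L]

/-- Elementwise description of the prelude's inertia subgroup. -/
theorem mem_inertiaSubgroupIn_iff (A : ValuationSubring L) (σ : L ≃ₐ[K] L) :
    σ ∈ A.inertiaSubgroupIn K ↔
      σ ∈ A.decompositionSubgroup K ∧ ∀ x ∈ A, σ x - x ∈ A.nonunits := by
  constructor
  · rintro ⟨τ, hτ, rfl⟩
    refine ⟨τ.2, fun x hx => ?_⟩
    have h1 : MulSemiringAction.toRingAut (A.decompositionSubgroup K)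
        (IsLocalRing.ResidueField A) τ = 1 := hτ
    have h2 : τ • (IsLocalRing.residue A ⟨x, hx⟩) = IsLocalRing.residue A ⟨x, hx⟩ := by
      have := congrArg (fun f : RingAut (IsLocalRing.ResidueField A) =>
        f (IsLocalRing.residue A ⟨x, hx⟩)) h1
      simpa using this
    have h3 : IsLocalRing.residue A (τ • (⟨x, hx⟩ : A)) = IsLocalRing.residue A ⟨x, hx⟩ := h2
    have h4 : IsLocalRing.residue A (τ • (⟨x, hx⟩ : A) - ⟨x, hx⟩) = 0 := by
      rw [map_sub, h3, sub_self]
    have h5 : (τ • (⟨x, hx⟩ : A) - ⟨x, hx⟩) ∈ IsLocalRing.maximalIdeal A :=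
      (IsLocalRing.residue_eq_zero_iff _).1 h4
    have h6 : ((τ • (⟨x, hx⟩ : A) - ⟨x, hx⟩ : A) : L) ∈ A.nonunits := by
      rw [ValuationSubring.mem_nonunits_iff_exists_mem_maximalIdeal]
      exact ⟨(τ • (⟨x, hx⟩ : A) - ⟨x, hx⟩ : A).2, h5⟩
    exact h6
  · rintro ⟨hσ, h⟩
    refine ⟨⟨σ, hσ⟩, ?_, rfl⟩
    show (⟨σ, hσ⟩ : A.decompositionSubgroup K) ∈ MonoidHom.ker _
    rw [MonoidHom.mem_ker]
    ext r
    obtain ⟨x, rfl⟩ := IsLocalRing.residue_surjective r
    show IsLocalRing.residue A ((⟨σ, hσ⟩ : A.decompositionSubgroup K) • x)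
      = IsLocalRing.residue A x
    rw [← sub_eq_zero, ← map_sub, IsLocalRing.residue_eq_zero_iff]
    have h1 := h x x.2
    rw [ValuationSubring.mem_nonunits_iff_exists_mem_maximalIdeal] at h1
    obtain ⟨hmem, h2⟩ := h1
    exact h2

/-- `x ∈ τ • A ↔ τ⁻¹ x ∈ A`. -/
theorem mem_smul_valuationSubring_iff (A : ValuationSubring L) (τ : L ≃ₐ[K] L) (x : L) :
    x ∈ τ • A ↔ τ⁻¹ x ∈ A :=
  ValuationSubring.mem_pointwise_smul_iff_inv_smul_mem

/-- `x ∈ 𝔪_{τ A} ↔ τ⁻¹ x ∈ 𝔪_A`. -/
theorem mem_nonunits_smul_valuationSubring_iff (A : ValuationSubring L) (τ : L ≃ₐ[K] L)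
    (x : L) : x ∈ (τ • A).nonunits ↔ τ⁻¹ x ∈ A.nonunits := by
  rw [ValuationSubring.mem_nonunits_iff_or, ValuationSubring.mem_nonunits_iff_or,
    mem_smul_valuationSubring_iff, map_inv₀]
  simp

/-- Conjugation of inertia: `τ I_A τ⁻¹ ⊆ I_{τ A}`. -/
theorem conj_mem_inertiaSubgroupIn (A : ValuationSubring L) (τ σ : L ≃ₐ[K] L)
    (hσ : σ ∈ A.inertiaSubgroupIn K) : τ * σ * τ⁻¹ ∈ (τ • A).inertiaSubgroupIn K := by
  rw [mem_inertiaSubgroupIn_iff] at hσ ⊢
  obtain ⟨hD, hI⟩ := hσ
  refine ⟨?_, fun x hx => ?_⟩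
  · rw [MulAction.mem_stabilizer_iff] at hD ⊢
    rw [mul_smul, mul_smul, inv_smul_smul, hD]
  · rw [mem_smul_valuationSubring_iff] at hx
    rw [mem_nonunits_smul_valuationSubring_iff]
    have := hI _ hx
    have e : τ⁻¹ ((τ * σ * τ⁻¹) x - x) = σ (τ⁻¹ x) - τ⁻¹ x := by
      rw [map_sub]
      congr 1
      show τ⁻¹ (τ (σ (τ⁻¹ x))) = σ (τ⁻¹ x)
      exact (τ.symm_apply_apply _)
    rw [e]
    exact this

/-- Conjugates of a valuation subring over `q` lie over `q`. -/
theorem liesOverPrime_smul (A : ValuationSubring L) (τ : L ≃ₐ[K] L) (q : ℕ)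
    (h : A.LiesOverPrime q) : (τ • A).LiesOverPrime q := by
  unfold ValuationSubring.LiesOverPrime at h ⊢
  rw [mem_nonunits_smul_valuationSubring_iff]
  have : τ⁻¹ (q : L) = (q : L) := map_natCast τ⁻¹ q
  rw [this]
  exact h

end General

/-- Conjugates of a field unramified outside `S` are unramified outside `S`. -/
theorem isUnramifiedOutside_map (S : Finset Nat.Primes) (F : QbarField)
    (hF : F.IsUnramifiedOutside S) (τ : GQ) :
    (F.map (τ : AlgebraicClosure ℚ →ₐ[ℚ] AlgebraicClosure ℚ)).IsUnramifiedOutside S := by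
  haveI := hF.1
  refine ⟨?_, fun q hq A hA σ hσ => ?_⟩
  · exact LinearEquiv.finiteDimensional
      (F.equivMap (τ : AlgebraicClosure ℚ →ₐ[ℚ] AlgebraicClosure ℚ)).toLinearEquiv
  · rw [IntermediateField.mem_fixingSubgroup_iff]
    rintro x ⟨y, hy, rfl⟩
    -- `τ⁻¹ σ τ ∈ I_{τ⁻¹ A}`
    have h1 : τ⁻¹ * σ * τ⁻¹⁻¹ ∈ (τ⁻¹ • A).inertiaSubgroupIn ℚ :=
      conj_mem_inertiaSubgroupIn A τ⁻¹ σ hσ
    have h2 := hF.2 q hq (τ⁻¹ • A) (liesOverPrime_smul A τ⁻¹ q hA) h1
    rw [IntermediateField.mem_fixingSubgroup_iff] at h2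
    have h3 := h2 y hy
    rw [inv_inv] at h3
    have h4 : τ⁻¹ (σ (τ y)) = y := h3
    have h5 : τ (τ⁻¹ (σ (τ y))) = σ (τ y) := τ.apply_symm_apply _
    rw [h4] at h5
    exact h5.symm

/-- **B-nc**: every field unramified outside `S` lies in a Galois one. -/
theorem stmtNormalClosure : StmtNormalClosure := by
  intro S F hF
  haveI := hF.1
  haveI : IsAlgClosure ℚ (AlgebraicClosure ℚ) :=
    ⟨inferInstance, AlgebraicClosure.isAlgebraic ℚ⟩
  haveI : Normal ℚ (AlgebraicClosure ℚ) := IsAlgClosure.normal ℚ (AlgebraicClosure ℚ)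
  refine ⟨IntermediateField.normalClosure ℚ F (AlgebraicClosure ℚ),
    IntermediateField.le_normalClosure F, ⟨?_, fun q hq A hA σ hσ => ?_⟩, ?_⟩
  · infer_instance
  · rw [IntermediateField.mem_fixingSubgroup_iff]
    intro x hx
    have hle : IntermediateField.normalClosure ℚ F (AlgebraicClosure ℚ) ≤
        IntermediateField.fixedField (Subgroup.zpowers σ) := by
      refine le_trans (le_of_eq (IntermediateField.normalClosure_def'' F)) ?_
      refine iSup_le fun τ => ?_
      intro z hz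
      rw [IntermediateField.mem_fixedField_iff]
      intro g hg
      obtain ⟨n, rfl⟩ := Subgroup.mem_zpowers_iff.1 hg
      have hfix := (isUnramifiedOutside_map S F hF τ).2 q hq A hA hσ
      have hpow : σ ^ n ∈ (F.map (τ : AlgebraicClosure ℚ →ₐ[ℚ] AlgebraicClosure ℚ)).fixingSubgroup :=
        Subgroup.zpow_mem _ hfix n
      rw [IntermediateField.mem_fixingSubgroup_iff] at hpow
      exact hpow z hz
    have := hle hx
    rw [IntermediateField.mem_fixedField_iff] at this
    exact this σ (Subgroup.mem_zpowers σ)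
  · haveI : Normal ℚ (IntermediateField.normalClosure ℚ F (AlgebraicClosure ℚ)) :=
      normalClosure.normal ℚ F (AlgebraicClosure ℚ)
    exact ⟨⟩

/-- The tower is closed under sup. -/
theorem isTowerField_sup {S : Finset Nat.Primes} {L L' : QbarField}
    (hL : IsTowerField S L) (hL' : IsTowerField S L') : IsTowerField S (L ⊔ L') := by
  haveI := hL.2; haveI := hL'.2
  haveI := hL.1.1; haveI := hL'.1.1
  refine ⟨hL.1.sup hL'.1, ?_⟩
  haveI hn : Normal ℚ ↥L := hL.2.to_normal
  haveI hn' : Normal ℚ ↥L' := hL'.2.to_normal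
  haveI : Normal ℚ ↥(L ⊔ L') :=
    @IntermediateField.normal_sup ℚ (AlgebraicClosure ℚ) _ _ _ L L' hn hn'
  exact ⟨⟩

/-- The tower is directed: two fields unramified outside `S` lie in a common tower field. -/
theorem exists_isTowerField_ge {S : Finset Nat.Primes} {F F' : QbarField}
    (hF : F.IsUnramifiedOutside S) (hF' : F'.IsUnramifiedOutside S) :
    ∃ L : QbarField, F ≤ L ∧ F' ≤ L ∧ IsTowerField S L := by
  obtain ⟨L, hle, hL⟩ := stmtNormalClosure S (F ⊔ F') (hF.sup hF')
  exact ⟨L, le_sup_left.trans hle, le_sup_right.trans hle, hL⟩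

end Fermat.Agent.PT.B


end ZBPT_003_1

/-! ### bundled: `Fermat.Agent.PT.B.Towers` -/
section ZBPT_003_2
/-
PT-B: the concrete towers for the datum of `Fermat/Agent/PT/Plan.lean`.

* `towerS S`   : the global tower `{Gal(ℚ̄/F) | F unramified outside S}` on `G_ℚ`;
* `towerLoc q` : the local tower `{r_q⁻¹ Gal(ℚ̄/F) | F/ℚ finite}` on `G_{ℚ_q}`;
* `isLevel₁_towerS_iff`, … : level-constancy for these towers IS the prelude's level-constancy.
-/

set_option autoImplicit false
set_option linter.style.haveILetI false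

namespace Fermat.Agent.PT.B

open Fermat.Agent.PT groupCohomology ExtCitation

/-- `Gal(ℚ̄/F)` has finite index for `F/ℚ` finite. -/
theorem finiteIndex_fixingSubgroup (F : QbarField) (hF : FiniteDimensional ℚ F) :
    F.fixingSubgroup.FiniteIndex := by
  haveI : IsAlgClosure ℚ (AlgebraicClosure ℚ) :=
    ⟨inferInstance, AlgebraicClosure.isAlgebraic ℚ⟩
  haveI : Normal ℚ (AlgebraicClosure ℚ) := IsAlgClosure.normal ℚ (AlgebraicClosure ℚ)
  -- pass to the normal closure
  let L : QbarField := IntermediateField.normalClosure ℚ F (AlgebraicClosure ℚ)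
  haveI hLn : Normal ℚ L := normalClosure.normal ℚ F (AlgebraicClosure ℚ)
  haveI hLf : FiniteDimensional ℚ L := normalClosure.is_finiteDimensional ℚ F (AlgebraicClosure ℚ)
  have hle : L.fixingSubgroup ≤ F.fixingSubgroup :=
    IntermediateField.fixingSubgroup_antitone (IntermediateField.le_normalClosure F)
  haveI : Finite (L ≃ₐ[ℚ] L) := inferInstance
  haveI : (AlgEquiv.restrictNormalHom (F := ℚ) (K₁ := AlgebraicClosure ℚ) L).ker.FiniteIndex :=
    Subgroup.finiteIndex_ker _
  haveI : L.fixingSubgroup.FiniteIndex := by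
    rw [← L.restrictNormalHom_ker]
    infer_instance
  exact Subgroup.finiteIndex_of_le hle

/-- The global tower `{Gal(ℚ̄/F) | F unramified outside S}`. -/
def towerS (S : Finset Nat.Primes) : Tower GQ where
  lev := {U | ∃ F : QbarField, F.IsUnramifiedOutside S ∧ U = F.fixingSubgroup}
  top_mem := ⟨⊥, IntermediateField.isUnramifiedOutside_bot S, by
    ext σ
    simp only [Subgroup.mem_top, true_iff]
    rw [IntermediateField.mem_fixingSubgroup_iff]
    intro x hx
    obtain ⟨r, rfl⟩ := IntermediateField.mem_bot.1 hx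
    exact σ.commutes r⟩
  inf_mem := by
    rintro _ _ ⟨F, hF, rfl⟩ ⟨F', hF', rfl⟩
    exact ⟨F ⊔ F', hF.sup hF', IntermediateField.fixingSubgroup_sup.symm⟩
  finiteIndex := by
    rintro _ ⟨F, hF, rfl⟩
    exact finiteIndex_fixingSubgroup F hF.1
  exists_normal := by
    rintro _ ⟨F, hF, rfl⟩
    obtain ⟨L, hle, hL⟩ := stmtNormalClosure S F hF
    haveI : IsAlgClosure ℚ (AlgebraicClosure ℚ) :=
      ⟨inferInstance, AlgebraicClosure.isAlgebraic ℚ⟩
    haveI : IsGalois ℚ (AlgebraicClosure ℚ) := inferInstance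
    refine ⟨L.fixingSubgroup, ⟨L, hL.1, rfl⟩, IntermediateField.fixingSubgroup_antitone hle, ?_⟩
    haveI := hL.2
    exact (InfiniteGalois.normal_iff_isGalois L).2 hL.2

/-- The local tower `{r_q⁻¹ Gal(ℚ̄/F) | F/ℚ finite}` on `G_{ℚ_q}`. -/
def towerLoc (q : ℕ) [Fact q.Prime] : Tower (GQq q) where
  lev := {V | ∃ F : QbarField, FiniteDimensional ℚ F ∧
    V = F.fixingSubgroup.comap (localGaloisToGlobal q)}
  top_mem := ⟨⊥, inferInstance, by
    ext τ
    simp only [Subgroup.mem_top, true_iff, Subgroup.mem_comap]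
    rw [IntermediateField.mem_fixingSubgroup_iff]
    intro x hx
    obtain ⟨r, rfl⟩ := IntermediateField.mem_bot.1 hx
    exact (localGaloisToGlobal q τ).commutes r⟩
  inf_mem := by
    rintro _ _ ⟨F, hF, rfl⟩ ⟨F', hF', rfl⟩
    haveI := hF; haveI := hF'
    refine ⟨F ⊔ F', IntermediateField.finiteDimensional_sup F F', ?_⟩
    rw [IntermediateField.fixingSubgroup_sup, Subgroup.comap_inf]
  finiteIndex := by
    rintro _ ⟨F, hF, rfl⟩
    haveI := finiteIndex_fixingSubgroup F hF
    rw [Subgroup.finiteIndex_iff, Subgroup.index_comap]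
    exact fun h => Subgroup.FiniteIndex.index_ne_zero (H := F.fixingSubgroup)
      (Subgroup.index_eq_zero_of_relIndex_eq_zero h)
  exists_normal := by
    rintro _ ⟨F, hF, rfl⟩
    haveI := hF
    haveI : IsAlgClosure ℚ (AlgebraicClosure ℚ) :=
      ⟨inferInstance, AlgebraicClosure.isAlgebraic ℚ⟩
    haveI : Normal ℚ (AlgebraicClosure ℚ) := IsAlgClosure.normal ℚ (AlgebraicClosure ℚ)
    haveI : IsGalois ℚ (AlgebraicClosure ℚ) := inferInstance
    let L : QbarField := IntermediateField.normalClosure ℚ F (AlgebraicClosure ℚ)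
    haveI hLn : Normal ℚ L := normalClosure.normal ℚ F (AlgebraicClosure ℚ)
    haveI hLf : FiniteDimensional ℚ L :=
      normalClosure.is_finiteDimensional ℚ F (AlgebraicClosure ℚ)
    have hLg : IsGalois ℚ L := ⟨⟩
    haveI : L.fixingSubgroup.Normal := (InfiniteGalois.normal_iff_isGalois L).2 hLg
    refine ⟨L.fixingSubgroup.comap (localGaloisToGlobal q), ⟨L, hLf, rfl⟩,
      Subgroup.comap_mono (IntermediateField.fixingSubgroup_antitone
        (IntermediateField.le_normalClosure F)), ?_⟩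
    infer_instance

/-! ### Level-constancy for the concrete towers is the prelude's level-constancy -/

theorem isLevel₁_towerS_iff (S : Finset Nat.Primes) {X : Type*} (f : GQ → X) :
    IsLevel₁ (towerS S) f ↔ IsLevelConstantS₁ S f := by
  constructor
  · rintro ⟨_, ⟨F, hF, rfl⟩, h⟩
    exact ⟨F, hF, fun g s hs => h g s hs⟩
  · rintro ⟨F, hF, h⟩
    exact ⟨F.fixingSubgroup, ⟨F, hF, rfl⟩, fun g s hs => h g s hs⟩

theorem isLevel₂_towerS_iff (S : Finset Nat.Primes) {X : Type*} (f : GQ × GQ → X) :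
    IsLevel₂ (towerS S) f ↔ IsLevelConstantS₂ S f := by
  constructor
  · rintro ⟨_, ⟨F, hF, rfl⟩, h⟩
    exact ⟨F, hF, fun g g' s s' hs hs' => h g g' s s' hs hs'⟩
  · rintro ⟨F, hF, h⟩
    exact ⟨F.fixingSubgroup, ⟨F, hF, rfl⟩, fun g g' s s' hs hs' => h g g' s s' hs hs'⟩

theorem isLevel₁_towerLoc_iff (q : ℕ) [Fact q.Prime] {X : Type*} (f : GQq q → X) :
    IsLevel₁ (towerLoc q) f ↔ IsLevelConstant₁ (localGaloisToGlobal q) f := by
  constructor
  · rintro ⟨_, ⟨F, hF, rfl⟩, h⟩
    exact ⟨F, hF, fun g s hs => h g s hs⟩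
  · rintro ⟨F, hF, h⟩
    exact ⟨F.fixingSubgroup.comap (localGaloisToGlobal q), ⟨F, hF, rfl⟩,
      fun g s hs => h g s hs⟩

theorem isLevel₂_towerLoc_iff (q : ℕ) [Fact q.Prime] {X : Type*} (f : GQq q × GQq q → X) :
    IsLevel₂ (towerLoc q) f ↔ IsLevelConstant₂ (localGaloisToGlobal q) f := by
  constructor
  · rintro ⟨_, ⟨F, hF, rfl⟩, h⟩
    exact ⟨F, hF, fun g g' s s' hs hs' => h g g' s s' hs hs'⟩
  · rintro ⟨F, hF, h⟩
    exact ⟨F.fixingSubgroup.comap (localGaloisToGlobal q), ⟨F, hF, rfl⟩,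
      fun g g' s s' hs hs' => h g g' s s' hs hs'⟩

/-- The global tower pulls back into the local tower. -/
theorem comap_mem_towerLoc (S : Finset Nat.Primes) (q : ℕ) [Fact q.Prime]
    (U : Subgroup GQ) (hU : U ∈ (towerS S).lev) :
    U.comap (localGaloisToGlobal q) ∈ (towerLoc q).lev := by
  obtain ⟨F, hF, rfl⟩ := hU
  exact ⟨F, hF.1, rfl⟩

end Fermat.Agent.PT.B


end ZBPT_003_2

/-! ### bundled: `Fermat.Agent.TW.L.Plan` -/
section ZBPT_003_3
/-
TW-L (S56, local computations) — INTERFACE FILE of the sub-captain (helper11).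
Project TW = Taylor–Wiles primes (S56), captain helper63, plan NOTES/S56-plan.md §5; piece table
NOTES/TW-L.md.  Definitions and statements only.

Every `Stmt…` below is a `Prop`; the piece `X` is DONE when `theorem stmtX : StmtX` (or
`stmtX_of : deps → StmtX`) is landed, sorry-free, in its own file `Fermat/Agent/TW/L/<File>.lean`,
namespace `Fermat.Agent.TW.L`, private names prefixed by the piece id.

Setting: `G_q = GQq q = Gal(ℚ̄_q/ℚ_q)` with the local tower `towerLoc q` of PT-B (levels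
`r⁻¹ Gal(ℚ̄/F)`, `F/ℚ` finite, `r = localGaloisToGlobal q`), level cohomology `levH1` of PT/Plan.lean.
ONLY UPPER BOUNDS are needed by the Greenberg–Wiles inequality (NOTES/S56-plan.md (C), (D)).
-/

set_option autoImplicit false

noncomputable section

namespace Fermat.Agent.TW.L

open CategoryTheory groupCohomology Polynomial
open Fermat.Agent.PT Fermat.Agent.PT.B ExtCitation

/-! ### Definitions -/

section Defs

variable (q : ℕ) [Fact q.Prime]

/-- The inertia subgroup of `G_{ℚ_q}`: the elements whose image in `G_ℚ` lies in the inertia group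
of the place `padicPlace q` of `ℚ̄`. -/
def inertiaQ : Subgroup (GQq q) :=
  ((padicPlace q).inertiaSubgroupIn ℚ).comap (localGaloisToGlobal q)

lemma mem_inertiaQ (τ : GQq q) :
    τ ∈ inertiaQ q ↔ localGaloisToGlobal q τ ∈ (padicPlace q).inertiaSubgroupIn ℚ := Iff.rfl

/-- `φ ∈ G_{ℚ_q}` is a Frobenius element: its image in `G_ℚ` is a Frobenius at `padicPlace q`
(prelude sense: `x ↦ x ^ q` on the whole residue field). -/
def IsFrobQ (φ : GQq q) : Prop :=
  (padicPlace q).IsFrobeniusAt (localGaloisToGlobal q φ) q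

variable {k : Type} [CommRing k] (M : Rep.{0} k (GQq q))

/-- `M` is smooth: trivial on some level of the local tower. -/
def IsSmoothQ : Prop := ∃ V ∈ (towerLoc q).lev, ∀ s ∈ V, M.ρ s = 1

/-- `M` is unramified: trivial on inertia. -/
def IsUnramQ : Prop := ∀ τ ∈ inertiaQ q, M.ρ τ = 1

/-- the level cocycles which vanish on inertia -/
def unrCocycles : Submodule k (cocycles₁ M) where
  carrier := {c | IsLevel₁ (towerLoc q) (c : GQq q → M) ∧ ∀ τ ∈ inertiaQ q, (c : GQq q → M) τ = 0}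
  add_mem' := by
    rintro c c' ⟨h1, h2⟩ ⟨h1', h2'⟩
    refine ⟨h1.add h1', fun τ hτ => ?_⟩
    show (c : GQq q → M) τ + (c' : GQq q → M) τ = 0
    rw [h2 τ hτ, h2' τ hτ, add_zero]
  zero_mem' := ⟨isLevel₁_const (towerLoc q) (0 : M), fun _ _ => rfl⟩
  smul_mem' := by
    rintro a c ⟨h1, h2⟩
    refine ⟨(h1.comp (a • ·) :), fun τ hτ => ?_⟩
    show a • (c : GQq q → M) τ = 0
    rw [h2 τ hτ, smul_zero]

lemma mem_unrCocycles (c : cocycles₁ M) :
    c ∈ unrCocycles q M ↔
      IsLevel₁ (towerLoc q) (c : GQq q → M) ∧ ∀ τ ∈ inertiaQ q, (c : GQq q → M) τ = 0 :=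
  Iff.rfl

/-- **The unramified classes** `H¹_unr(G_q, M) ⊆ H¹(G_q, M)`: classes of level cocycles vanishing
on inertia (equivalently: level classes whose restriction to inertia is trivial). -/
def unrH1 : Submodule k (H1 M) := (unrCocycles q M).map (H1π M).hom

lemma mem_unrH1 (x : H1 M) :
    x ∈ unrH1 q M ↔ ∃ c : cocycles₁ M, IsLevel₁ (towerLoc q) (c : GQq q → M) ∧
      (∀ τ ∈ inertiaQ q, (c : GQq q → M) τ = 0) ∧ (H1π M).hom c = x := by
  simp only [unrH1, Submodule.mem_map, mem_unrCocycles, and_assoc]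

end Defs

/-- The image of `H¹_lev(N) → H¹(A)` for a morphism `i : N ⟶ A` (used for the ordinary local
condition: `N = Hom(V̄/L̄, L̄) ⊆ ad⁰`). -/
def imH1 {k : Type} [CommRing k] {G : Type} [Group G] (𝒯 : Tower G) {N A : Rep.{0} k G}
    (i : N ⟶ A) : Submodule k (H1 A) :=
  (levH1 𝒯 N).map (groupCohomology.map (MonoidHom.id G) i 1).hom

/-- The centraliser of `g` in the trace-zero endomorphisms. -/
def adZeroFix {k : Type} [Field k] {V : Type} [AddCommGroup V] [Module k V]
    (g : Module.End k V) : Submodule k (Module.End k V) where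
  carrier := {X | g * X = X * g ∧ LinearMap.trace k V X = 0}
  add_mem' := by
    rintro X Y ⟨h1, h2⟩ ⟨h1', h2'⟩
    exact ⟨by rw [mul_add, add_mul, h1, h1'], by rw [map_add, h2, h2', add_zero]⟩
  zero_mem' := ⟨by rw [mul_zero, zero_mul], map_zero _⟩
  smul_mem' := by
    rintro a X ⟨h1, h2⟩
    exact ⟨by rw [mul_smul_comm, smul_mul_assoc, h1], by rw [map_smul, h2, smul_zero]⟩

/-! ### Structure of `G_{ℚ_q}` -/

/-- **L-dec**: `localGaloisToGlobal q` maps ONTO the decomposition group of `padicPlace q`.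
(`σ ∈ D_P` ⇒ `1 ⊗ σ` stabilises the kernel `𝔭` of `ℚ_q ⊗ ℚ̄ → ℚ̄_q` — at every finite level by
`PT.G1.mcPhi_injective` + `PT.G3.sdTrans_mcPhi_comap`, or by `PT.B.stmtDecomp` + a compactness
argument as in `Common/FrobProfinite.lean` — and `ℚ̄_q = ℚ_q · ι(ℚ̄)` (`PT.B.stmtKrasner`).) -/
def StmtDecFull : Prop :=
  ∀ (q : ℕ) [Fact q.Prime], ∀ σ ∈ (padicPlace q).decompositionSubgroup ℚ,
    ∃ τ : GQq q, localGaloisToGlobal q τ = σ

/-- **L-frobex**: `G_{ℚ_q}` contains a Frobenius element.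
(`Common.exists_isFrobeniusAt_of_liesOverPrime` + L-dec.) -/
def StmtFrobExists : Prop :=
  ∀ (q : ℕ) [Fact q.Prime], ∃ φ : GQq q, IsFrobQ q φ

/-- **L-gen**: modulo every level, `G_{ℚ_q}` is generated by a Frobenius element and inertia.
(The image of `τ` in the automorphisms of the finite residue field of `F` is a power of
`x ↦ x ^ q`; `Common.exists_mem_inertiaSubgroupIn_of_congr` (global inertia lifting) + L-dec.) -/
def StmtFrobGen : Prop :=
  ∀ (q : ℕ) [Fact q.Prime] (φ : GQq q), IsFrobQ q φ → ∀ V ∈ (towerLoc q).lev, ∀ τ : GQq q,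
    ∃ (j : ℕ) (i v : GQq q), i ∈ inertiaQ q ∧ v ∈ V ∧ τ = φ ^ j * i * v

/-- **L-tame** (tame inertia, `q ≠ p`): modulo every level, every homomorphism from inertia to an
abelian group killed by `p` factors through a cyclic quotient generated by one element `t`, on
which Frobenius acts by `t ↦ t ^ q`.
(`E` = the finite Galois extension of `ℚ_q` cut out by `V`, `π` a uniformiser, tame character
`θ(i) = i(π)/π mod 𝔪_E : I_E → k_Eˣ` (cyclic), `θ(φ i φ⁻¹) = θ(i)^q`; `ker θ = G_1` consists of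
elements of `q`-power order: `σ ∈ G_j ⇒ σ^q ∈ G_{j+1}` (`j ≥ 1`), `G_j = 1` for `j ≫ 0`.) -/
def StmtTame : Prop :=
  ∀ (q p : ℕ) [Fact q.Prime] [Fact p.Prime], q ≠ p → ∀ V ∈ (towerLoc q).lev,
    ∃ t : ↥(inertiaQ q), ∀ (A : Type) [CommGroup A] (h : ↥(inertiaQ q) →* A),
      (∀ a : A, a ^ p = 1) → (∀ x : ↥(inertiaQ q), (x : GQq q) ∈ V → h x = 1) →
      (∀ x : ↥(inertiaQ q), ∃ n : ℕ, h x = h t ^ n) ∧
      ∀ φ : GQq q, IsFrobQ q φ → ∀ hmem : φ * (t : GQq q) * φ⁻¹ ∈ inertiaQ q,
        h ⟨φ * (t : GQq q) * φ⁻¹, hmem⟩ = h t ^ q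

/-! ### Cohomological bounds -/

/-- **L-ev** (Frobenius detects unramified classes): an unramified cocycle whose value at a
Frobenius element lies in `(φ - 1) M^I` is a coboundary.  (L-gen.) -/
def StmtUnrFrob : Prop :=
  ∀ (q : ℕ) [Fact q.Prime] (k : Type) [CommRing k] (M : Rep.{0} k (GQq q)), IsSmoothQ q M →
    ∀ φ : GQq q, IsFrobQ q φ → ∀ c ∈ unrCocycles q M,
      (∃ m : M, (∀ τ ∈ inertiaQ q, M.ρ τ m = m) ∧ (c : GQq q → M) φ = M.ρ φ m - m) →
      (H1π M).hom c = 0

/-- **L-min**: `dim H¹_unr(G_q, M) ≤ h⁰(G_q, M)` for every finite smooth `M` (any `q`, also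
`q = p`).  (finite-dimensional, and `c ↦ c(φ)` embeds `H¹_unr` into `M^I / (φ - 1) M^I` (L-ev, L-frobex), which has the
dimension of `ker (φ - 1 | M^I) = M^{G_q}` (L-gen).) -/
def StmtUnrLe : Prop :=
  ∀ (q p : ℕ) [Fact q.Prime] [Fact p.Prime] (M : Rep.{0} (ZMod p) (GQq q))
    [FiniteDimensional (ZMod p) M], IsSmoothQ q M →
    Module.Finite (ZMod p) (unrH1 q M) ∧
      Module.finrank (ZMod p) (unrH1 q M) ≤ Module.finrank (ZMod p) M.ρ.invariants

/-- **L-tw**: for `q ≡ 1 mod p` and `M` finite, smooth and UNRAMIFIED: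
`dim H¹_lev(G_q, M) ≤ 2 h⁰(G_q, M)`.
(`H¹_lev / H¹_unr ↪ {h : I → M equivariant homomorphisms}`, `h ↦ h(t) ∈ ker (φ - q) = M^{G_q}`
by L-tame; L-min.) -/
def StmtLTw : Prop :=
  ∀ (q p : ℕ) [Fact q.Prime] [Fact p.Prime], (q : ZMod p) = 1 →
    ∀ (M : Rep.{0} (ZMod p) (GQq q)) [FiniteDimensional (ZMod p) M], IsSmoothQ q M →
      IsUnramQ q M →
      Module.Finite (ZMod p) (levH1 (towerLoc q) M) ∧
        Module.finrank (ZMod p) (levH1 (towerLoc q) M) ≤
          2 * Module.finrank (ZMod p) M.ρ.invariants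

/-- **L-cnt**: `[ℚ_pˣ : (ℚ_pˣ)^p] ≤ p²` for `p` odd.
(`x = p^a u`; `u ≡ 1 mod p²` is a `p`-th power (PT-L `PowCard*.lean` has the binomial/Hensel step);
the `p`-th powers have index `p` in `(ℤ/p²)ˣ`.) -/
def StmtPowCardQp : Prop :=
  ∀ (p : ℕ) [Fact p.Prime], p ≠ 2 →
    Finite (ℚ_[p]ˣ ⧸ (powMonoidHom p : ℚ_[p]ˣ →* ℚ_[p]ˣ).range) ∧
      Nat.card (ℚ_[p]ˣ ⧸ (powMonoidHom p : ℚ_[p]ˣ →* ℚ_[p]ˣ).range) ≤ p ^ 2

/-- **L-kum** (Kummer theory for `G_{ℚ_p}`): if `G_{ℚ_p}` acts on the finite module `M` through the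
mod `p` cyclotomic character then `dim H¹_lev(G_p, M) ≤ 2 dim M`.
(Coordinates reduce to `M = μ_p`; `ℚ_pˣ/p ↠ H¹_lev(G_p, μ_p)` by Hilbert 90 (`PT.B.stmtH90Loc` or
Mathlib's Hilbert 90 at finite levels) and `p`-divisibility of `ℚ̄_pˣ`; L-cnt.) -/
def StmtLKum : Prop :=
  ∀ (p : ℕ) [Fact p.Prime], p ≠ 2 →
    ∀ (M : Rep.{0} (ZMod p) (GQq p)) [FiniteDimensional (ZMod p) M],
      (∀ (τ : GQq p) (m : M),
        M.ρ τ m = ((cycloChar p (localGaloisToGlobal p τ) : (ZMod p)ˣ) : ZMod p) • m) →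
      Module.Finite (ZMod p) (levH1 (towerLoc p) M) ∧
        Module.finrank (ZMod p) (levH1 (towerLoc p) M) ≤ 2 * Module.finrank (ZMod p) M

/-- **L-les** (abstract; low-degree long exact sequence): for `0 → N → A → B → 0`,
`dim im(H¹_lev(N) → H¹(A)) + h⁰(B) + h⁰(N) ≤ dim H¹_lev(N) + h⁰(A)`.
(`0 → N^G → A^G → B^G → H¹(N) → H¹(A)`; the connecting cocycle `g ↦ g ã - ã` is a level cocycle
because `A` is smooth.) -/
def StmtImLe : Prop :=
  ∀ (k : Type) [Field k] (G : Type) [Group G] (𝒯 : Tower G) (N A B : Rep.{0} k G)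
    [FiniteDimensional k A] (i : N ⟶ A) (π : A ⟶ B), Function.Injective i.hom →
    Function.Surjective π.hom → (∀ a : A, π.hom a = 0 ↔ ∃ n : N, i.hom n = a) →
    (∃ U ∈ 𝒯.lev, ∀ s ∈ U, A.ρ s = 1) → Module.Finite k (levH1 𝒯 N) →
    Module.finrank k (imH1 𝒯 i) + Module.finrank k B.ρ.invariants +
        Module.finrank k N.ρ.invariants ≤
      Module.finrank k (levH1 𝒯 N) + Module.finrank k A.ρ.invariants

/-- **L-ord**: the ordinary local condition has dimension `≤ dim N + h⁰(G_p, A)`: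
`N ⊆ A` with `G_p` acting on `N` through the cyclotomic character and `h⁰(A/N) ≥ dim N`
(for `A = ad⁰`, `N = Hom(V̄/L̄, L̄)`: `A/N ⊇ B⁰/N ≅ k` with trivial action).  (L-les + L-kum.) -/
def StmtLOrd : Prop :=
  ∀ (p : ℕ) [Fact p.Prime], p ≠ 2 → ∀ (N A B : Rep.{0} (ZMod p) (GQq p))
    [FiniteDimensional (ZMod p) A] (i : N ⟶ A) (π : A ⟶ B), Function.Injective i.hom →
    Function.Surjective π.hom → (∀ a : A, π.hom a = 0 ↔ ∃ n : N, i.hom n = a) →
    IsSmoothQ p A →
    (∀ (τ : GQq p) (m : N),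
      N.ρ τ m = ((cycloChar p (localGaloisToGlobal p τ) : (ZMod p)ˣ) : ZMod p) • m) →
    Module.finrank (ZMod p) N ≤ Module.finrank (ZMod p) B.ρ.invariants →
    Module.finrank (ZMod p) (imH1 (towerLoc p) i) ≤
      Module.finrank (ZMod p) N + Module.finrank (ZMod p) A.ρ.invariants

/-! ### Linear algebra of `ad⁰` (matrix form, independent of the packaging of `ad⁰`) -/

/-- **L-sl2**: the centraliser in the trace-zero endomorphisms of a `g ∈ End(V)`, `dim V = 2`,
with two DISTINCT eigenvalues in `k` is one-dimensional.  (For `h⁰(G_q, ad⁰) = f` at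
Taylor–Wiles primes and `h⁰(G_ℝ, ad⁰) = f`.) -/
def StmtCentralizer : Prop :=
  ∀ (k : Type) [Field k] (V : Type) [AddCommGroup V] [Module k V] [Module.Finite k V],
    Module.finrank k V = 2 → ∀ (g : Module.End k V) (α β : k), α ≠ β → LinearMap.charpoly g = (X - C α) * (X - C β) →
      Module.finrank k (adZeroFix g) = 1

/-- **L-arch**: complex conjugation has characteristic polynomial `(X - 1)(X + 1)` when the
determinant is cyclotomic.  (`c² = 1`, `c ζ = ζ⁻¹ = ζ^(p-1)` on `μ_p`, so `det ρ̄(c) = -1`.) -/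
def StmtArch : Prop :=
  ∀ (p : ℕ) [Fact p.Prime], p ≠ 2 → ∀ (k : Type) [Field k] (ρbar : ResidualGaloisRep k),
    (GaloisRepAdic.ofResidualGaloisRep ρbar).DetIsCyclotomic p →
    LinearMap.charpoly (ρbar.ρ complexConjugation) = (X - C (1 : k)) * (X - C (-1 : k))

/-- **L-glob0**: `h⁰(G_ℚ, ad⁰) = 0`: a trace-zero endomorphism commuting with an absolutely
irreducible `ρ̄` is `0` (`char k ≠ 2`).  (Schur over `k̄`.) -/
def StmtGlobAd : Prop :=
  ∀ (k : Type) [Field k] (ρbar : ResidualGaloisRep k), (2 : k) ≠ 0 →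
    ρbar.IsAbsolutelyIrreducible → ∀ X : Module.End k ρbar.V,
      (∀ σ, ρbar.ρ σ * X = X * ρbar.ρ σ) → LinearMap.trace k ρbar.V X = 0 → X = 0

/-- **L-glob1**: `h⁰(G_ℚ, ad⁰(±1)) = 0`: an endomorphism `X` with
`ρ̄(σ) X = χ̄(σ)^e X ρ̄(σ)` (`e = ±1`, `χ̄` the mod `p` cyclotomic character) vanishes, if `ρ̄` is
absolutely irreducible on `G_ℚ` and on every subgroup of index `2`.
(`X ≠ 0` is invertible; `im χ̄ = 𝔽_pˣ` permutes the `≤ 2` eigenvalues of `X` freely, so `p = 3`
and the two eigenlines are stable under `ker χ̄`, of index `2`.) -/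
def StmtGlobAdTwist : Prop :=
  ∀ (p : ℕ) [Fact p.Prime], p ≠ 2 → ∀ (k : Type) [Field k] [Algebra (ZMod p) k]
    (ρbar : ResidualGaloisRep k), ρbar.IsAbsolutelyIrreducible →
    (∀ (K : Type) [Field K] [Algebra k K]
      (G : Subgroup (AlgebraicClosure ℚ ≃ₐ[ℚ] AlgebraicClosure ℚ)), G.index = 2 →
      ∀ V : Submodule K (ρbar.baseChange K).V,
        (∀ σ ∈ G, ∀ x ∈ V, (ρbar.baseChange K).ρ σ x ∈ V) → V = ⊥ ∨ V = ⊤) →
    ∀ (e : ℤ), e = 1 ∨ e = -1 → ∀ X : Module.End k ρbar.V,
      (∀ σ, ρbar.ρ σ * X =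
        algebraMap (ZMod p) k (((cycloChar p σ) ^ e : (ZMod p)ˣ) : ZMod p) • (X * ρbar.ρ σ)) →
      X = 0

end Fermat.Agent.TW.L

end


end ZBPT_003_3

/-! ### bundled: `Fermat.Agent.PT.B.Krasner` -/
section ZBPT_003_4
/-
PT-B, piece B-kras (Krasner): the fields `F_q = ℚ_q·ι(F)`, `F/ℚ` finite Galois inside `ℚ̄`, are
cofinal among the finite extensions of `ℚ_q` inside `ℚ̄_q`.
-/

set_option autoImplicit false

namespace Fermat.Agent.PT.B

open Polynomial IntermediateField

section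

variable (q : ℕ) [Fact q.Prime]

/-- Every element of `ℚ̄_q` lies in `ℚ_q(b)` for some `b` which is a root of a monic
polynomial with rational coefficients (Krasner's lemma + density of `ℚ` in `ℚ_q`). -/
theorem kras_exists_rat_root (a : PadicAlgCl q) :
    ∃ (g : ℚ[X]) (b : PadicAlgCl q), g.Monic ∧ aeval b g = 0 ∧ a ∈ ℚ_[q]⟮b⟯ := by
  have hint : IsIntegral ℚ_[q] a := (PadicAlgCl.isAlgebraic q).isAlgebraic a |>.isIntegral
  set f : ℚ_[q][X] := minpoly ℚ_[q] a with hf
  have fmon : f.Monic := minpoly.monic hint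
  have firr : Irreducible f := minpoly.irreducible hint
  have fa0 : f.aeval a = 0 := minpoly.aeval _ _
  have fnatdeg0 : f.natDegree ≠ 0 := (Irreducible.natDegree_pos firr).ne'
  classical
  let S : Finset (PadicAlgCl q) := {x ∈ (f.rootSet (PadicAlgCl q)).toFinset | x ≠ a}
  let δ : ℝ := if hS : S.Nonempty then Finset.min' (S.image fun x => ‖a - x‖)
      (Finset.image_nonempty.mpr hS) else 1
  have norm_sub_le : ∀ a' : PadicAlgCl q, IsConjRoot ℚ_[q] a a' → a ≠ a' → δ ≤ ‖a - a'‖ := by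
    intro a' conj ne
    by_cases hS : S.Nonempty <;> simp only [hS, ↓reduceDIte, δ]
    · apply Finset.min'_le (S.image fun x => ‖a - x‖) (‖a - a'‖)
      apply Finset.mem_image_of_mem
      simp only [Finset.mem_filter, Set.mem_toFinset, S]
      rw [hf, ← (isConjRoot_iff_mem_minpoly_rootSet hint)]
      exact ⟨conj, ne.symm⟩
    · simp only [ne_eq, Finset.not_nonempty_iff_eq_empty, Finset.filter_eq_empty_iff,
      Set.mem_toFinset, not_not, S] at hS
      rw [isConjRoot_iff_mem_minpoly_rootSet hint] at conj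
      exact (ne (hS conj).symm).elim
  have δpos : δ > 0 := by
    by_cases hS : S.Nonempty <;> simp only [hS, ↓reduceDIte, δ]
    · simp only [gt_iff_lt, Finset.lt_min'_iff, Finset.mem_image, forall_exists_index, and_imp,
        forall_apply_eq_imp_iff₂]
      rintro a' ha'
      simp only [Finset.mem_filter, Set.mem_toFinset, S] at ha'
      rw [norm_pos_iff, sub_ne_zero]
      exact ha'.2.symm
    · linarith
  have hε : (δ / (max ‖a‖ 1)) ^ f.natDegree / (f.natDegree + 1) > 0 := by positivity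
  have hi : DenseRange (algebraMap ℚ ℚ_[q]) := Padic.denseRange_ratCast q
  obtain ⟨g, gmon, gdeg, gcoeff⟩ :=
    exists_monic_and_natDegree_eq_and_norm_map_algebraMap_coeff_sub_lt hi fmon hε
  obtain ⟨b, hb, hab⟩ := exists_aroots_norm_sub_lt_of_norm_coeff_sub_lt
      (L := PadicAlgCl q) hε fa0 fmon (gmon.map _) (gdeg ▸ (g.natDegree_map _)) gcoeff
      (IsAlgClosed.splits _)
  have hab : ‖a - b‖ < δ := by
    rw [← Real.rpow_natCast, ← mul_comm_div, div_self, one_mul,
        ← Real.rpow_mul (div_pos δpos (by positivity)).le, mul_inv_cancel₀] at hab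
    · simpa [mul_assoc, div_mul_cancel₀ _ (by positivity : (max ‖a‖ 1) > 0).ne'] using hab
    · simp [fnatdeg0]
    · positivity
  simp only [Polynomial.mem_roots', ne_eq, Polynomial.map_eq_zero, Polynomial.IsRoot.def,
    Polynomial.eval_map_algebraMap] at hb
  have hgb : aeval b g = 0 := by
    have := hb.2
    rwa [Polynomial.aeval_map_algebraMap] at this
  refine ⟨g, b, gmon, hgb, ?_⟩
  have masp : ((minpoly ℚ_[q] a).map (algebraMap ℚ_[q] (PadicAlgCl q))).Splits :=
    IsAlgClosed.splits _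
  exact IsKrasner.krasner (minpoly.irreducible hint).separable
      masp ⟨(g.map _), gmon.map _, hb.2⟩ fun a' h1 h2 ↦ lt_of_lt_of_le hab (norm_sub_le a' h1 h2)

/-- A root in `ℚ̄_q` of a nonzero rational polynomial comes from `ℚ̄`. -/
theorem kras_root_mem_range (g : ℚ[X]) (hg : g ≠ 0) (b : PadicAlgCl q) (hb : aeval b g = 0) :
    ∃ b₀ : AlgebraicClosure ℚ, aeval b₀ g = 0 ∧ padicEmbedding q b₀ = b := by
  have hsplit : (g.map (algebraMap ℚ (AlgebraicClosure ℚ))).Splits := IsAlgClosed.splits _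
  have hmap : (g.map (algebraMap ℚ (AlgebraicClosure ℚ))).map (padicEmbedding q).toRingHom =
      g.map (algebraMap ℚ (PadicAlgCl q)) := by
    rw [Polynomial.map_map]
    congr 1
    exact (padicEmbedding q).comp_algebraMap
  have hroots := hsplit.roots_map (padicEmbedding q).toRingHom
  rw [hmap] at hroots
  have hbmem : b ∈ (g.map (algebraMap ℚ (PadicAlgCl q))).roots := by
    rw [Polynomial.mem_roots']
    refine ⟨?_, ?_⟩
    · rw [Ne, Polynomial.map_eq_zero]
      exact hg
    · rw [Polynomial.IsRoot.def, Polynomial.eval_map_algebraMap]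
      exact hb
  rw [hroots, Multiset.mem_map] at hbmem
  obtain ⟨b₀, hb₀, hb₀b⟩ := hbmem
  refine ⟨b₀, ?_, hb₀b⟩
  rw [Polynomial.mem_roots', Polynomial.IsRoot.def, Polynomial.eval_map_algebraMap] at hb₀
  exact hb₀.2

end

/-- **B-kras** -/
theorem stmtKrasner : StmtKrasner := by
  intro q _ K' hfin
  obtain ⟨α, hα⟩ := Field.exists_primitive_element ℚ_[q] K'
  set a : PadicAlgCl q := (α : PadicAlgCl q) with ha
  have hK' : K' = ℚ_[q]⟮a⟯ := by
    have h1 : (ℚ_[q]⟮α⟯).map K'.val = ℚ_[q]⟮a⟯ := by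
      rw [IntermediateField.adjoin_map]
      simp [ha]
    rw [hα] at h1
    rw [← h1, ← AlgHom.fieldRange_eq_map, IntermediateField.fieldRange_val]
  obtain ⟨g, b, gmon, hgb, hab⟩ := kras_exists_rat_root q a
  obtain ⟨b₀, hb₀, hb₀b⟩ := kras_root_mem_range q g gmon.ne_zero b hgb
  have hsplit : (g.map (algebraMap ℚ (AlgebraicClosure ℚ))).Splits := IsAlgClosed.splits _
  let F : QbarField := IntermediateField.adjoin ℚ (g.rootSet (AlgebraicClosure ℚ))
  have hsf : g.IsSplittingField ℚ F := IntermediateField.adjoin_rootSet_isSplittingField hsplit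
  have hfd : FiniteDimensional ℚ F := Polynomial.IsSplittingField.finiteDimensional F g
  have hnormal : Normal ℚ F := Normal.of_isSplittingField g
  refine ⟨F, hfd, ⟨⟩, ?_⟩
  have hb₀F : b₀ ∈ F := by
    apply IntermediateField.subset_adjoin
    rw [Polynomial.mem_rootSet]
    exact ⟨gmon.ne_zero, hb₀⟩
  have hbloc : b ∈ localField q F := by
    apply IntermediateField.subset_adjoin
    exact ⟨b₀, hb₀F, hb₀b⟩
  have h2 : ℚ_[q]⟮b⟯ ≤ localField q F := by
    rw [IntermediateField.adjoin_simple_le_iff]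
    exact hbloc
  rw [hK', IntermediateField.adjoin_simple_le_iff]
  exact h2 hab

end Fermat.Agent.PT.B


end ZBPT_003_4

/-! ### bundled: `Fermat.Agent.PT.B.Decomp` -/
section ZBPT_003_5
/-
PT-B, piece B-dec (decomposition group): for `L/ℚ` finite Galois inside `ℚ̄`, every element of the
decomposition group of `padicPlace q` agrees on `L` with the image of a local Galois element.

Proof.  (i) an element `σ` of the decomposition group preserves the `q`-adic norm `‖ι ·‖`
(`ι = padicEmbedding q`): both `‖ι ·‖` and `‖ι (σ ·)‖` have the same unit ball and agree on `q`.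
(ii) For a primitive element `α` of `L`, `u = ι α`, `u' = ι (σ α)`, the minimal polynomial of `u`
over `ℚ_q` kills `u'`: approximate it by rational polynomials and use (i).
(iii) Hence `u'` is a `ℚ_q`-conjugate of `u`: `τ u = u'` for some `τ ∈ G_{ℚ_q}`, and
`τ ∘ ι = ι ∘ σ` on `L = ℚ(α)`.
-/

set_option autoImplicit false

namespace Fermat.Agent.PT.B

open Polynomial IntermediateField
open scoped Pointwise

section

variable (q : ℕ) [Fact q.Prime]

/-- norm of `q` in `ℚ̄_q` -/
theorem dec_norm_q : ‖((q : ℕ) : PadicAlgCl q)‖ = (q : ℝ)⁻¹ := by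
  rw [← map_natCast (algebraMap ℚ_[q] (PadicAlgCl q)), PadicAlgCl.norm_extends, Padic.norm_p]

/-- an element of the decomposition group maps the unit ball into itself -/
theorem dec_mem_of_mem {σ : GQ} (hσ : σ ∈ (padicPlace q).decompositionSubgroup ℚ)
    {x : AlgebraicClosure ℚ} (hx : ‖padicEmbedding q x‖ ≤ 1) : ‖padicEmbedding q (σ x)‖ ≤ 1 := by
  have hstab : σ • padicPlace q = padicPlace q := MulAction.mem_stabilizer_iff.mp hσ
  have hxA : x ∈ padicPlace q := by
    rw [mem_padicPlace_iff]; exact_mod_cast hx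
  have h1 : σ • x ∈ σ • padicPlace q := ValuationSubring.smul_mem_pointwise_smul σ x _ hxA
  rw [hstab, mem_padicPlace_iff] at h1
  exact_mod_cast h1

/-- (i), one inequality -/
theorem dec_norm_le {σ : GQ} (hσ : σ ∈ (padicPlace q).decompositionSubgroup ℚ)
    (x : AlgebraicClosure ℚ) : ‖padicEmbedding q (σ x)‖ ≤ ‖padicEmbedding q x‖ := by
  by_contra hlt
  rw [not_le] at hlt
  set s : ℝ := ‖padicEmbedding q x‖ with hs
  set t : ℝ := ‖padicEmbedding q (σ x)‖ with ht
  have hq1 : (1 : ℝ) < q := by exact_mod_cast (Fact.out : q.Prime).one_lt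
  have hq0 : (0 : ℝ) < q := lt_trans zero_lt_one hq1
  have hx0 : x ≠ 0 := by
    rintro rfl
    rw [hs, ht] at hlt
    simp at hlt
  have hs0 : 0 < s := by
    rw [hs, norm_pos_iff]
    exact (map_ne_zero_iff _ (padicEmbedding q).toRingHom.injective).2 hx0
  have hts : 1 < t / s := (one_lt_div hs0).2 hlt
  obtain ⟨n, hn⟩ := pow_unbounded_of_one_lt (q : ℝ) hts
  have hsn : 0 < s ^ n := pow_pos hs0 n
  have hn' : (q : ℝ) * s ^ n < t ^ n := by
    rw [div_pow, lt_div_iff₀ hsn] at hn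
    exact hn
  obtain ⟨m, hm1, hm2⟩ := exists_mem_Ioc_zpow hsn hq1
  -- the test element
  set y : AlgebraicClosure ℚ := x ^ n * ((q : ℕ) : AlgebraicClosure ℚ) ^ (m + 1) with hy
  have hιq : padicEmbedding q ((q : ℕ) : AlgebraicClosure ℚ) = ((q : ℕ) : PadicAlgCl q) :=
    map_natCast _ q
  have hσq : σ ((q : ℕ) : AlgebraicClosure ℚ) = ((q : ℕ) : AlgebraicClosure ℚ) :=
    map_natCast _ q
  have hny : ‖padicEmbedding q y‖ = s ^ n * ((q : ℝ)⁻¹) ^ (m + 1) := by
    rw [hy, map_mul, map_pow, map_zpow₀, hιq, norm_mul, norm_pow, norm_zpow, dec_norm_q]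
  have hnσy : ‖padicEmbedding q (σ y)‖ = t ^ n * ((q : ℝ)⁻¹) ^ (m + 1) := by
    rw [hy, map_mul, map_pow, map_zpow₀, hσq, map_mul, map_pow, map_zpow₀, hιq, norm_mul,
      norm_pow, norm_zpow, dec_norm_q]
  have hqm : (0 : ℝ) < (q : ℝ) ^ (m + 1) := zpow_pos hq0 _
  have h1 : ‖padicEmbedding q y‖ ≤ 1 := by
    rw [hny, inv_zpow, ← div_eq_mul_inv, div_le_one hqm]
    exact hm2
  have h2 : 1 < ‖padicEmbedding q (σ y)‖ := by
    rw [hnσy, inv_zpow, ← div_eq_mul_inv, one_lt_div hqm]
    calc (q : ℝ) ^ (m + 1) = q * q ^ m := by rw [zpow_add₀ hq0.ne', zpow_one, mul_comm]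
      _ < q * s ^ n := by gcongr
      _ < t ^ n := hn'
  exact absurd (dec_mem_of_mem q hσ h1) (not_le.2 h2)

/-- (i) elements of the decomposition group of `padicPlace q` preserve the `q`-adic norm -/
theorem dec_norm_eq {σ : GQ} (hσ : σ ∈ (padicPlace q).decompositionSubgroup ℚ)
    (x : AlgebraicClosure ℚ) : ‖padicEmbedding q (σ x)‖ = ‖padicEmbedding q x‖ := by
  refine le_antisymm (dec_norm_le q hσ x) ?_
  have h := dec_norm_le q (Subgroup.inv_mem _ hσ) (σ x)
  have hinv : σ⁻¹ (σ x) = x := by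
    show (σ⁻¹ * σ) x = x
    rw [inv_mul_cancel]; rfl
  rwa [hinv] at h


/-- crude bound for the value of a polynomial with small coefficients -/
theorem dec_norm_aeval_le (h : ℚ_[q][X]) (N : ℕ) (hN : h.natDegree < N) (ε : ℝ)
    (hε : ∀ i, ‖h.coeff i‖ ≤ ε) (z : PadicAlgCl q) :
    ‖aeval z h‖ ≤ ε * ∑ i ∈ Finset.range N, ‖z‖ ^ i := by
  rw [aeval_eq_sum_range' hN, Finset.mul_sum]
  refine (norm_sum_le _ _).trans (Finset.sum_le_sum fun i _ => ?_)
  rw [norm_smul, norm_pow]
  exact mul_le_mul_of_nonneg_right (hε i) (pow_nonneg (norm_nonneg _) _)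

/-- `ι (σ (P(α))) = P(ι (σ α))` for a rational polynomial `P` -/
theorem dec_embedding_aeval' (β : AlgebraicClosure ℚ) (g : ℚ[X]) :
    padicEmbedding q (aeval β g) =
      aeval (padicEmbedding q β) (g.map (algebraMap ℚ ℚ_[q])) := by
  rw [aeval_map_algebraMap, aeval_algHom_apply]

/-- `ι (σ (P(α))) = P(ι (σ α))` for a rational polynomial `P` -/
theorem dec_embedding_aeval (σ : GQ) (α : AlgebraicClosure ℚ) (g : ℚ[X]) :
    padicEmbedding q (σ (aeval α g)) =
      aeval (padicEmbedding q (σ α)) (g.map (algebraMap ℚ ℚ_[q])) := by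
  have h1 : σ (aeval α g) = aeval (σ α) g := (aeval_algHom_apply σ α g).symm
  rw [h1, dec_embedding_aeval']

/-- (ii) a polynomial over `ℚ_q` killing `ι α` kills `ι (σ α)` for `σ` in the decomposition
group. -/
theorem dec_aeval_eq_zero {σ : GQ} (hσ : σ ∈ (padicPlace q).decompositionSubgroup ℚ)
    (α : AlgebraicClosure ℚ) (f : ℚ_[q][X]) (hf : f.Monic)
    (hα : aeval (padicEmbedding q α) f = 0) : aeval (padicEmbedding q (σ α)) f = 0 := by
  by_contra hne
  set u : PadicAlgCl q := padicEmbedding q α with hu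
  set u' : PadicAlgCl q := padicEmbedding q (σ α) with hu'
  have huu' : ‖u'‖ = ‖u‖ := dec_norm_eq q hσ α
  set N : ℕ := f.natDegree + 1 with hN
  set C : ℝ := ∑ i ∈ Finset.range N, ‖u‖ ^ i with hC
  have hC1 : 1 ≤ C := by
    have h0 : (0 : ℕ) ∈ Finset.range N := Finset.mem_range.2 (Nat.succ_pos _)
    have := Finset.single_le_sum (f := fun i => ‖u‖ ^ i)
      (fun i _ => pow_nonneg (norm_nonneg u) i) h0
    simpa using this
  have hC0 : 0 < C := lt_of_lt_of_le zero_lt_one hC1
  set ε₀ : ℝ := ‖aeval u' f‖ with hε₀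
  have hε₀pos : 0 < ε₀ := norm_pos_iff.2 hne
  set ε : ℝ := ε₀ / (3 * C) with hε
  have hεpos : 0 < ε := div_pos hε₀pos (by positivity)
  obtain ⟨g, -, hdeg, hcoeff⟩ :=
    exists_monic_and_natDegree_eq_and_norm_map_algebraMap_coeff_sub_lt
      (Padic.denseRange_ratCast q) hf hεpos
  set G : ℚ_[q][X] := g.map (algebraMap ℚ ℚ_[q]) with hG
  set h : ℚ_[q][X] := G - f with hh
  have hhdeg : h.natDegree < N := by
    refine lt_of_le_of_lt (natDegree_sub_le _ _) ?_
    rw [hN, Nat.lt_succ_iff, hG, natDegree_map, ← hdeg, max_self]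
  have hhcoeff : ∀ i, ‖h.coeff i‖ ≤ ε := fun i => by
    rw [hh, coeff_sub]; exact (hcoeff i).le
  -- value of `G` at `u`
  have hGu : ‖aeval u G‖ ≤ ε * C := by
    have : aeval u G = aeval u h := by rw [hh, map_sub, hα, sub_zero]
    rw [this]
    exact dec_norm_aeval_le q h N hhdeg ε hhcoeff u
  -- value of `G` at `u'`
  have hGu' : ‖aeval u' G‖ ≤ ε * C := by
    have h1 : aeval u' G = padicEmbedding q (σ (aeval α g)) := (dec_embedding_aeval q σ α g).symm
    have h2 : aeval u G = padicEmbedding q (aeval α g) := (dec_embedding_aeval' q α g).symm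
    rw [h1, dec_norm_eq q hσ, ← h2]
    exact hGu
  have hhu' : ‖aeval u' h‖ ≤ ε * C := by
    have := dec_norm_aeval_le q h N hhdeg ε hhcoeff u'
    rwa [huu'] at this
  have hfinal : ε₀ ≤ ε * C + ε * C := by
    have : aeval u' f = aeval u' G - aeval u' h := by rw [hh, map_sub]; ring
    rw [hε₀, this]
    exact (norm_sub_le _ _).trans (add_le_add hGu' hhu')
  have hεC : ε * C = ε₀ / 3 := by
    rw [hε]; field_simp
  rw [hεC] at hfinal
  linarith

end

/-- **B-dec** -/
theorem stmtDecomp : StmtDecomp := by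
  intro q _ L hfd hgal σ hσ
  obtain ⟨α, hα⟩ := Field.exists_primitive_element ℚ L
  set a : AlgebraicClosure ℚ := (α : AlgebraicClosure ℚ) with ha
  set u : PadicAlgCl q := padicEmbedding q a with hu
  set u' : PadicAlgCl q := padicEmbedding q (σ a) with hu'
  have hint : IsIntegral ℚ_[q] u := ((PadicAlgCl.isAlgebraic q).isAlgebraic u).isIntegral
  have hroot : aeval u' (minpoly ℚ_[q] u) = 0 :=
    dec_aeval_eq_zero q hσ a _ (minpoly.monic hint) (minpoly.aeval _ _)
  have hconj : IsConjRoot ℚ_[q] u u' := isConjRoot_of_aeval_eq_zero hint hroot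
  obtain ⟨τ, hτ⟩ := isConjRoot_iff_exists_algEquiv.mp hconj.symm
  refine ⟨τ, fun x hx => ?_⟩
  have hxmem : (⟨x, hx⟩ : L) ∈ ℚ⟮α⟯ := by rw [hα]; trivial
  rw [IntermediateField.mem_adjoin_simple_iff] at hxmem
  obtain ⟨r, s, hrs⟩ := hxmem
  have hx' : x = aeval a r / aeval a s := by
    have h1 := congrArg L.val hrs
    rw [map_div₀, ← Polynomial.aeval_algHom_apply, ← Polynomial.aeval_algHom_apply] at h1
    exact h1
  have hτr : ∀ P : ℚ[X], τ (padicEmbedding q (aeval a P)) = padicEmbedding q (σ (aeval a P)) := by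
    intro P
    rw [dec_embedding_aeval' q a P, dec_embedding_aeval q σ a P, ← aeval_algHom_apply, hτ]
  apply (padicEmbedding q).toRingHom.injective
  show padicEmbedding q (localGaloisToGlobal q τ x) = padicEmbedding q (σ x)
  rw [padicEmbedding_localGaloisToGlobal, hx', map_div₀, map_div₀, map_div₀, map_div₀, hτr, hτr]

end Fermat.Agent.PT.B


end ZBPT_003_5

/-! ### bundled: `Fermat.Agent.PT.B.LocalLevel` -/
section ZBPT_003_6
/-
PT-B, pieces B-loc1 and B-locfin: the local field `F_q = ℚ_q·ι(F)` attached to `F ⊂ ℚ̄`.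
-/

set_option autoImplicit false

namespace Fermat.Agent.PT.B

open Polynomial IntermediateField

section

variable (q : ℕ) [Fact q.Prime]

theorem loc_embedding_mem_localField (F : QbarField) {x : AlgebraicClosure ℚ} (hx : x ∈ F) :
    padicEmbedding q x ∈ localField q F :=
  IntermediateField.subset_adjoin _ _ ⟨x, hx, rfl⟩

/-- An automorphism of `ℚ̄_q/ℚ_q` fixing `ι(F)` pointwise fixes `F_q`. -/
theorem loc_mem_fixingSubgroup_localField (F : QbarField) (τ : GQq q)
    (h : ∀ x ∈ F, τ (padicEmbedding q x) = padicEmbedding q x) :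
    τ ∈ (localField q F).fixingSubgroup := by
  have hle : localField q F ≤ IntermediateField.fixedField (Subgroup.zpowers τ) := by
    apply IntermediateField.adjoin_le_iff.mpr
    rintro _ ⟨x, hx, rfl⟩
    rw [SetLike.mem_coe, IntermediateField.mem_fixedField_iff]
    intro g hg
    obtain ⟨n, rfl⟩ := Subgroup.mem_zpowers_iff.mp hg
    have hfix : τ • padicEmbedding q x = padicEmbedding q x := h x hx
    exact MulAction.mem_stabilizer_iff.mp
      (Subgroup.zpow_mem _ (MulAction.mem_stabilizer_iff.mpr hfix) n)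
  have := (IntermediateField.le_iff_le (Subgroup.zpowers τ) (localField q F)).mp hle
  exact this (Subgroup.mem_zpowers τ)

end

/-- **B-loc1** -/
theorem stmtLocalLevel : StmtLocalLevel := by
  intro q _ F τ
  constructor
  · intro h
    apply loc_mem_fixingSubgroup_localField
    intro x hx
    rw [← padicEmbedding_localGaloisToGlobal]
    congr 1
    exact (IntermediateField.mem_fixingSubgroup_iff F _).mp h x hx
  · intro h
    rw [IntermediateField.mem_fixingSubgroup_iff]
    intro x hx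
    have hinj : Function.Injective (padicEmbedding q) := (padicEmbedding q).toRingHom.injective
    apply hinj
    rw [padicEmbedding_localGaloisToGlobal]
    exact (IntermediateField.mem_fixingSubgroup_iff _ _).mp h _
      (loc_embedding_mem_localField q F hx)

/-- **B-locfin** -/
theorem stmtLocalFinite : StmtLocalFinite := by
  intro q _ F hF
  obtain ⟨α, hα⟩ := Field.exists_primitive_element ℚ F
  set c : PadicAlgCl q := padicEmbedding q (α : AlgebraicClosure ℚ) with hc
  have hle : localField q F ≤ ℚ_[q]⟮c⟯ := by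
    apply IntermediateField.adjoin_le_iff.mpr
    rintro _ ⟨x, hx, rfl⟩
    have hxmem : (⟨x, hx⟩ : F) ∈ ℚ⟮α⟯ := by rw [hα]; trivial
    rw [IntermediateField.mem_adjoin_simple_iff] at hxmem
    obtain ⟨r, s, hrs⟩ := hxmem
    have hx' : x = aeval (α : AlgebraicClosure ℚ) r / aeval (α : AlgebraicClosure ℚ) s := by
      have h1 := congrArg F.val hrs
      rw [map_div₀, ← Polynomial.aeval_algHom_apply, ← Polynomial.aeval_algHom_apply] at h1
      exact h1
    rw [SetLike.mem_coe, IntermediateField.mem_adjoin_simple_iff]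
    refine ⟨r.map (algebraMap ℚ ℚ_[q]), s.map (algebraMap ℚ ℚ_[q]), ?_⟩
    rw [hx', map_div₀, Polynomial.aeval_map_algebraMap, Polynomial.aeval_map_algebraMap,
      Polynomial.aeval_algHom_apply, Polynomial.aeval_algHom_apply]
  have hint : IsIntegral ℚ_[q] c := ((PadicAlgCl.isAlgebraic q).isAlgebraic c).isIntegral
  have hfd : FiniteDimensional ℚ_[q] ℚ_[q]⟮c⟯ := IntermediateField.adjoin.finiteDimensional hint
  exact FiniteDimensional.of_injective (IntermediateField.inclusion hle).toLinearMap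
    (IntermediateField.inclusion hle).injective

end Fermat.Agent.PT.B


end ZBPT_003_6

/-! ### bundled: `Fermat.Agent.TW.L.DecFull` -/
section ZBPT_003_7
/-
TW-L, piece L-dec (helper11): `localGaloisToGlobal q` maps ONTO the decomposition group of
`padicPlace q`.  `stmtDecFull : StmtDecFull`.

Proof.  For every finite Galois `F/ℚ` choose `τ_F ∈ G_{ℚ_q}` with `r τ_F = σ` on `F`
(`PT.B.stmtDecomp`).  Two such agree on `F_q = ℚ_q·ι(F)` (`PT.B.stmtLocalLevel`), and every element of
`ℚ̄_q` lies in some `F_q` (`PT.B.stmtKrasner`); so `y ↦ τ_{F_y}(y)` is a well defined `ℚ_q`-algebra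
endomorphism of `ℚ̄_q`, bijective because `ℚ̄_q/ℚ_q` is algebraic.
-/

set_option autoImplicit false
set_option linter.style.haveILetI false
set_option linter.unusedSectionVars false

noncomputable section

namespace Fermat.Agent.TW.L

open Fermat.Agent.PT Fermat.Agent.PT.B IntermediateField

section

variable (q : ℕ) [Fact q.Prime]

/-- finite Galois subfields of `ℚ̄` -/
def ldecFG (F : QbarField) : Prop := FiniteDimensional ℚ F ∧ IsGalois ℚ F

lemma ldecFG_sup {F F' : QbarField} (hF : ldecFG F) (hF' : ldecFG F') : ldecFG (F ⊔ F') := by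
  obtain ⟨h1, h2⟩ := hF
  obtain ⟨h1', h2'⟩ := hF'
  haveI := h1; haveI := h1'; haveI := h2; haveI := h2'
  haveI hn : Normal ℚ ↥F := h2.to_normal
  haveI hn' : Normal ℚ ↥F' := h2'.to_normal
  haveI : Normal ℚ ↥(F ⊔ F') :=
    @IntermediateField.normal_sup ℚ (AlgebraicClosure ℚ) _ _ _ F F' hn hn'
  exact ⟨IntermediateField.finiteDimensional_sup F F', ⟨⟩⟩

lemma ldec_localField_mono {F F' : QbarField} (h : F ≤ F') : localField q F ≤ localField q F' :=
  IntermediateField.adjoin.mono _ _ _ (Set.image_mono h)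

lemma ldec_exists_field (y : PadicAlgCl q) : ∃ F : QbarField, ldecFG F ∧ y ∈ localField q F := by
  haveI : FiniteDimensional ℚ_[q] ℚ_[q]⟮y⟯ :=
    IntermediateField.adjoin.finiteDimensional
      ((PadicAlgCl.isAlgebraic q).isAlgebraic y).isIntegral
  obtain ⟨F, h1, h2, h3⟩ := stmtKrasner q ℚ_[q]⟮y⟯ inferInstance
  exact ⟨F, ⟨h1, h2⟩, h3 (IntermediateField.mem_adjoin_simple_self ℚ_[q] y)⟩

variable {q} {σ : GQ} (hσ : σ ∈ (padicPlace q).decompositionSubgroup ℚ)

/-- the chosen local lift of `σ` on `F` -/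
def ldecLift (F : QbarField) (hF : ldecFG F) : GQq q :=
  Classical.choose (stmtDecomp q F hF.1 hF.2 σ hσ)

lemma ldecLift_spec (F : QbarField) (hF : ldecFG F) (x : AlgebraicClosure ℚ) (hx : x ∈ F) :
    localGaloisToGlobal q (ldecLift hσ F hF) x = σ x :=
  Classical.choose_spec (stmtDecomp q F hF.1 hF.2 σ hσ) x hx

/-- two lifts which agree with `σ` on `F` agree on `F_q` -/
lemma ldec_agree (F : QbarField) (τ τ' : GQq q)
    (h : ∀ x ∈ F, localGaloisToGlobal q τ x = σ x)
    (h' : ∀ x ∈ F, localGaloisToGlobal q τ' x = σ x)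
    (y : PadicAlgCl q) (hy : y ∈ localField q F) : τ y = τ' y := by
  have hg : localGaloisToGlobal q (τ⁻¹ * τ') ∈ F.fixingSubgroup := by
    rw [IntermediateField.mem_fixingSubgroup_iff]
    intro x hx
    rw [map_mul, map_inv]
    show (localGaloisToGlobal q τ)⁻¹ (localGaloisToGlobal q τ' x) = x
    rw [h' x hx, ← h x hx]
    exact AlgEquiv.symm_apply_apply _ _
  have h2 := (stmtLocalLevel q F (τ⁻¹ * τ')).1 hg
  have h3 : (τ⁻¹ * τ') y = y := (IntermediateField.mem_fixingSubgroup_iff _ _).1 h2 y hy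
  have h4 : τ ((τ⁻¹ * τ') y) = τ y := congrArg τ h3
  have h5 : τ ((τ⁻¹ * τ') y) = τ' y := AlgEquiv.apply_symm_apply τ (τ' y)
  rw [← h4, h5]

/-- the underlying function of the lift -/
def ldecFun (y : PadicAlgCl q) : PadicAlgCl q :=
  ldecLift hσ (Classical.choose (ldec_exists_field q y))
    (Classical.choose_spec (ldec_exists_field q y)).1 y

lemma ldecFun_eq (F : QbarField) (hF : ldecFG F) (y : PadicAlgCl q) (hy : y ∈ localField q F) :
    ldecFun hσ y = ldecLift hσ F hF y := by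
  set F₀ := Classical.choose (ldec_exists_field q y) with hF₀
  have hF₀s := Classical.choose_spec (ldec_exists_field q y)
  have hsup : ldecFG (F₀ ⊔ F) := ldecFG_sup hF₀s.1 hF
  have e1 : ldecLift hσ F₀ hF₀s.1 y = ldecLift hσ (F₀ ⊔ F) hsup y :=
    ldec_agree F₀ _ _ (ldecLift_spec hσ F₀ hF₀s.1)
      (fun x hx => ldecLift_spec hσ (F₀ ⊔ F) hsup x ((le_sup_left : F₀ ≤ F₀ ⊔ F) hx)) y hF₀s.2
  have e2 : ldecLift hσ F hF y = ldecLift hσ (F₀ ⊔ F) hsup y :=
    ldec_agree F _ _ (ldecLift_spec hσ F hF)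
      (fun x hx => ldecLift_spec hσ (F₀ ⊔ F) hsup x ((le_sup_right : F ≤ F₀ ⊔ F) hx)) y hy
  show ldecLift hσ F₀ hF₀s.1 y = _
  rw [e1, e2]

lemma ldec_exists_field₂ (y y' : PadicAlgCl q) :
    ∃ F : QbarField, ldecFG F ∧ y ∈ localField q F ∧ y' ∈ localField q F := by
  obtain ⟨F, hF, hy⟩ := ldec_exists_field q y
  obtain ⟨F', hF', hy'⟩ := ldec_exists_field q y'
  exact ⟨F ⊔ F', ldecFG_sup hF hF', ldec_localField_mono q le_sup_left hy,
    ldec_localField_mono q le_sup_right hy'⟩

/-- the lift as an algebra endomorphism -/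
def ldecHom : PadicAlgCl q →ₐ[ℚ_[q]] PadicAlgCl q where
  toFun := ldecFun hσ
  map_one' := by
    obtain ⟨F, hF, -⟩ := ldec_exists_field q (1 : PadicAlgCl q)
    rw [ldecFun_eq hσ F hF 1 (one_mem _), map_one]
  map_mul' y y' := by
    obtain ⟨F, hF, hy, hy'⟩ := ldec_exists_field₂ y y'
    rw [ldecFun_eq hσ F hF _ (mul_mem hy hy'), ldecFun_eq hσ F hF _ hy,
      ldecFun_eq hσ F hF _ hy', map_mul]
  map_zero' := by
    obtain ⟨F, hF, -⟩ := ldec_exists_field q (0 : PadicAlgCl q)
    rw [ldecFun_eq hσ F hF 0 (zero_mem _), map_zero]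
  map_add' y y' := by
    obtain ⟨F, hF, hy, hy'⟩ := ldec_exists_field₂ y y'
    rw [ldecFun_eq hσ F hF _ (add_mem hy hy'), ldecFun_eq hσ F hF _ hy,
      ldecFun_eq hσ F hF _ hy', map_add]
  commutes' a := by
    obtain ⟨F, hF, -⟩ := ldec_exists_field q (algebraMap ℚ_[q] (PadicAlgCl q) a)
    rw [ldecFun_eq hσ F hF _ (_root_.algebraMap_mem _ a), AlgEquiv.commutes]

lemma ldecHom_apply (y : PadicAlgCl q) : ldecHom hσ y = ldecFun hσ y := rfl

end

/-- **L-dec**. -/
theorem stmtDecFull : StmtDecFull := by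
  intro q _ σ hσ
  haveI : Algebra.IsAlgebraic ℚ_[q] (PadicAlgCl q) := PadicAlgCl.isAlgebraic q
  have hbij : Function.Bijective (ldecHom hσ) := Algebra.IsAlgebraic.algHom_bijective _
  refine ⟨AlgEquiv.ofBijective (ldecHom hσ) hbij, ?_⟩
  apply AlgEquiv.ext
  intro x
  apply (padicEmbedding q).toRingHom.injective
  show padicEmbedding q (localGaloisToGlobal q _ x) = padicEmbedding q (σ x)
  rw [padicEmbedding_localGaloisToGlobal]
  show ldecFun hσ (padicEmbedding q x) = _
  -- a finite Galois field containing `x`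
  obtain ⟨F, hF, -⟩ := ldec_exists_field q (padicEmbedding q x)
  let Fx : QbarField := IntermediateField.normalClosure ℚ ℚ⟮x⟯ (AlgebraicClosure ℚ)
  haveI : IsAlgClosure ℚ (AlgebraicClosure ℚ) := ⟨inferInstance, AlgebraicClosure.isAlgebraic ℚ⟩
  haveI : Normal ℚ (AlgebraicClosure ℚ) := IsAlgClosure.normal ℚ (AlgebraicClosure ℚ)
  haveI : FiniteDimensional ℚ ℚ⟮x⟯ :=
    IntermediateField.adjoin.finiteDimensional
      ((AlgebraicClosure.isAlgebraic ℚ).isAlgebraic x).isIntegral
  haveI hn : Normal ℚ Fx := normalClosure.normal ℚ ℚ⟮x⟯ (AlgebraicClosure ℚ)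
  haveI hfd : FiniteDimensional ℚ Fx := normalClosure.is_finiteDimensional ℚ ℚ⟮x⟯ (AlgebraicClosure ℚ)
  have hFx : ldecFG Fx := ⟨hfd, ⟨⟩⟩
  have hx : x ∈ Fx :=
    (IntermediateField.le_normalClosure ℚ⟮x⟯) (IntermediateField.mem_adjoin_simple_self ℚ x)
  rw [ldecFun_eq hσ Fx hFx _ (loc_embedding_mem_localField q Fx hx),
    ← padicEmbedding_localGaloisToGlobal, ldecLift_spec hσ Fx hFx x hx]

end Fermat.Agent.TW.L

end


end ZBPT_003_7

/-! ### bundled: `Fermat.Agent.PT.B.CycloField` -/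
section ZBPT_003_8

/-!
# PT-B, piece B-cyc: the cyclotomic field `ℚ(ζ_p)` is in the tower `𝓕_S` as soon as `p ∈ S`

* `cycloField p` : the intermediate field `ℚ(μ_p) ⊂ ℚ̄` (generated by ALL `p`-th roots of unity, so
  that no choice of a primitive root is involved);
* `cycloField_isTowerField` : it is finite Galois over `ℚ` and unramified outside `S ∋ p`;
* `cycloChar_eq_one_of_mem_fixingSubgroup` : the mod `p` cyclotomic character is trivial on
  `Gal(ℚ̄/ℚ(μ_p))`, and conversely (`mem_fixingSubgroup_cycloField_iff`);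
* `stmtCycloField : StmtCycloField`.
-/

set_option autoImplicit false

namespace Fermat.Agent.PT.B

open ExtCitation IntermediateField

/-- `ℚ(μ_p) ⊂ ℚ̄`. -/
noncomputable def cycloField (p : ℕ) : QbarField :=
  IntermediateField.adjoin ℚ {x : AlgebraicClosure ℚ | x ^ p = 1}

theorem cycloField_exists_primitiveRoot (p : ℕ) [NeZero p] :
    ∃ ζ : AlgebraicClosure ℚ, IsPrimitiveRoot ζ p :=
  HasEnoughRootsOfUnity.exists_primitiveRoot (AlgebraicClosure ℚ) p

theorem cycloField_eq_adjoin_simple {p : ℕ} [NeZero p] {ζ : AlgebraicClosure ℚ}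
    (hζ : IsPrimitiveRoot ζ p) : cycloField p = ℚ⟮ζ⟯ := by
  apply le_antisymm
  · rw [cycloField, IntermediateField.adjoin_le_iff]
    intro x hx
    obtain ⟨i, -, rfl⟩ := hζ.eq_pow_of_pow_eq_one hx
    exact pow_mem (IntermediateField.mem_adjoin_simple_self ℚ ζ) i
  · rw [IntermediateField.adjoin_simple_le_iff]
    exact IntermediateField.subset_adjoin ℚ _ hζ.pow_eq_one

/-- An automorphism lies in `Gal(ℚ̄/ℚ(μ_p))` iff it fixes every `p`-th root of unity. -/
theorem mem_fixingSubgroup_cycloField_iff {p : ℕ} (σ : GQ) :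
    σ ∈ (cycloField p).fixingSubgroup ↔ ∀ x : AlgebraicClosure ℚ, x ^ p = 1 → σ x = x := by
  rw [IntermediateField.mem_fixingSubgroup_iff]
  constructor
  · intro h x hx
    exact h x (IntermediateField.subset_adjoin ℚ _ hx)
  · intro h x hx
    have hle : cycloField p ≤ IntermediateField.fixedField (Subgroup.zpowers σ) := by
      rw [cycloField, IntermediateField.adjoin_le_iff]
      intro y hy
      rw [SetLike.mem_coe, IntermediateField.mem_fixedField_iff]
      intro τ hτ
      obtain ⟨n, rfl⟩ := Subgroup.mem_zpowers_iff.mp hτ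
      have hfix : σ y = y := h y hy
      have hmem : σ ∈ MulAction.stabilizer GQ y := MulAction.mem_stabilizer_iff.mpr hfix
      have := (MulAction.stabilizer GQ y).zpow_mem hmem n
      exact MulAction.mem_stabilizer_iff.mp this
    have := (IntermediateField.mem_fixedField_iff _ _).mp (hle hx) σ (Subgroup.mem_zpowers σ)
    exact this

instance cycloField_finiteDimensional (p : ℕ) [NeZero p] :
    FiniteDimensional ℚ (cycloField p) := by
  obtain ⟨ζ, hζ⟩ := cycloField_exists_primitiveRoot p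
  rw [cycloField_eq_adjoin_simple hζ]
  have hint : Algebra.IsIntegral ℚ (AlgebraicClosure ℚ) :=
    (AlgebraicClosure.isAlgebraic ℚ).isIntegral
  have hcyc : IsCyclotomicExtension {p} ℚ ℚ⟮ζ⟯ :=
    hζ.intermediateField_adjoin_isCyclotomicExtension ℚ
  exact IsCyclotomicExtension.finiteDimensional {p} ℚ ℚ⟮ζ⟯

instance cycloField_isGalois (p : ℕ) [NeZero p] : IsGalois ℚ (cycloField p) := by
  obtain ⟨ζ, hζ⟩ := cycloField_exists_primitiveRoot p
  rw [cycloField_eq_adjoin_simple hζ]
  have hint : Algebra.IsIntegral ℚ (AlgebraicClosure ℚ) :=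
    (AlgebraicClosure.isAlgebraic ℚ).isIntegral
  have hcyc : IsCyclotomicExtension {p} ℚ ℚ⟮ζ⟯ :=
    hζ.intermediateField_adjoin_isCyclotomicExtension ℚ
  exact IsCyclotomicExtension.isGalois {p} ℚ ℚ⟮ζ⟯

/-- `ℚ(μ_p)` is unramified outside every `S ∋ p`. -/
theorem cycloField_isUnramifiedOutside (p : ℕ) [Fact p.Prime] (S : Finset Nat.Primes)
    (hpS : pPrime p ∈ S) : (cycloField p).IsUnramifiedOutside S := by
  have : NeZero p := ⟨(Fact.out : p.Prime).ne_zero⟩
  refine ⟨inferInstance, fun q hq A hA σ hσ => ?_⟩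
  have hqp : (q : ℕ) ≠ p := by
    intro h
    apply hq
    have : q = pPrime p := Subtype.ext h
    rw [this]
    exact hpS
  rw [mem_fixingSubgroup_cycloField_iff]
  intro x hx
  have hM : ((p : ℕ) : AlgebraicClosure ℚ) ∉ A.nonunits := by
    have := Fermat.Agent.S31.natCast_pow_not_mem_nonunits A (Fact.out : p.Prime) q.2 hqp hA 1
    simpa using this
  exact Fermat.Agent.S31.inertia_rootOfUnity A hM (Fact.out : p.Prime).ne_zero hσ hx

theorem cycloField_isTowerField (p : ℕ) [Fact p.Prime] (S : Finset Nat.Primes)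
    (hpS : pPrime p ∈ S) : IsTowerField S (cycloField p) :=
  haveI : NeZero p := ⟨(Fact.out : p.Prime).ne_zero⟩
  ⟨cycloField_isUnramifiedOutside p S hpS, inferInstance⟩

/-- The mod `p` cyclotomic character is trivial exactly on `Gal(ℚ̄/ℚ(μ_p))`. -/
theorem cycloChar_eq_one_iff (p : ℕ) [Fact p.Prime] (σ : GQ) :
    cycloChar p σ = 1 ↔ σ ∈ (cycloField p).fixingSubgroup := by
  have : NeZero p := ⟨(Fact.out : p.Prime).ne_zero⟩
  rw [mem_fixingSubgroup_cycloField_iff]
  constructor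
  · intro h x hx
    have hx0 : x ≠ 0 := by
      rintro rfl
      rw [zero_pow (Fact.out : p.Prime).ne_zero] at hx
      exact zero_ne_one hx
    set t : (AlgebraicClosure ℚ)ˣ := Units.mk0 x hx0 with ht
    have htmem : t ∈ rootsOfUnity p (AlgebraicClosure ℚ) := by
      rw [mem_rootsOfUnity]
      ext
      simpa [ht] using hx
    have := modularCyclotomicCharacter.spec (AlgebraicClosure ℚ) (card_rootsOfUnity_eq_self p)
      (σ : AlgebraicClosure ℚ ≃+* AlgebraicClosure ℚ) htmem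
    have h1 : (modularCyclotomicCharacter (AlgebraicClosure ℚ) (card_rootsOfUnity_eq_self p))
        (σ : AlgebraicClosure ℚ ≃+* AlgebraicClosure ℚ) = 1 := h
    rw [h1] at this
    have hval : ((1 : (ZMod p)ˣ) : ZMod p).val = 1 := by
      have : Fact (1 < p) := ⟨(Fact.out : p.Prime).one_lt⟩
      simp [ZMod.val_one]
    rw [hval, pow_one] at this
    simpa [ht] using this
  · intro h
    have key := modularCyclotomicCharacter.unique (AlgebraicClosure ℚ)
      (card_rootsOfUnity_eq_self p) (σ : AlgebraicClosure ℚ ≃+* AlgebraicClosure ℚ)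
      (c := (1 : ZMod p)) (by
        intro t ht
        have hval : (1 : ZMod p).val = 1 := by
          have : Fact (1 < p) := ⟨(Fact.out : p.Prime).one_lt⟩
          exact ZMod.val_one p
        rw [hval, pow_one]
        have htp : (t : AlgebraicClosure ℚ) ^ p = 1 := by
          have := (mem_rootsOfUnity _ _).mp ht
          have := congrArg (fun u : (AlgebraicClosure ℚ)ˣ => (u : AlgebraicClosure ℚ)) this
          simpa using this
        exact h _ htp)
    apply Units.ext
    exact key.symm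

theorem stmtCycloField : StmtCycloField := by
  intro p _ S hpS
  exact ⟨cycloField p, cycloField_isTowerField p S hpS,
    fun s hs => (cycloChar_eq_one_iff p s).mpr hs⟩

end Fermat.Agent.PT.B


end ZBPT_003_8

/-! ### bundled: `Fermat.Agent.TW.L.LTw` -/
section ZBPT_003_9
/-
TW-L / L-tw (helper15): `dim H¹_lev(G_q, M) ≤ 2 h⁰(G_q, M)` for `q ≡ 1 mod p`, `M` finite, smooth and
unramified.

`stmtLTw_of : StmtTame → StmtUnrLe → StmtFrobGen → StmtFrobExists → StmtLTw`.

For a level `U` let `Z_U` be the cocycles right-invariant under `U`, `t = t_U` the tame generator of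
L-tame.  Evaluation `c ↦ c t` kills coboundaries (`t` acts trivially), has values in `M^{G_q}`
(`φ (c t) = c (φ t φ⁻¹) = q • c t = c t`, L-gen) and its kernel consists of unramified cocycles
(`c|_I` is a homomorphism into a group killed by `p`, trivial on `I ∩ U`).  So the classes of `Z_U`
have dimension `≤ h⁰ + dim H¹_unr ≤ 2 h⁰` (L-min); a level of maximal dimension gives everything.
-/

set_option autoImplicit false
set_option linter.style.haveILetI false

noncomputable section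

namespace Fermat.Agent.TW.L

open CategoryTheory groupCohomology
open Fermat.Agent.PT Fermat.Agent.PT.B

section ltw

variable {q : ℕ} [Fact q.Prime]

/-- The inertia subgroup is normal in the decomposition subgroup. -/
theorem ltw_conj_mem_inertia {K L : Type*} [Field K] [Field L] [Algebra K L]
    {A : ValuationSubring L} {σ τ : L ≃ₐ[K] L}
    (hσ : σ ∈ A.decompositionSubgroup K) (hτ : τ ∈ A.inertiaSubgroupIn K) :
    σ * τ * σ⁻¹ ∈ A.inertiaSubgroupIn K := by
  obtain ⟨τ', hτ', rfl⟩ := hτ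
  have hn : (A.inertiaSubgroup K).Normal := MonoidHom.normal_ker _
  have h1 := hn.conj_mem τ' hτ' ⟨σ, hσ⟩
  rw [ValuationSubring.inertiaSubgroupIn, Subgroup.mem_map]
  exact ⟨_, h1, by simp⟩

/-- inertia is normalised by everything in `G_{ℚ_q}` -/
theorem ltw_conj_mem_inertiaQ (φ : GQq q) {t : GQq q} (ht : t ∈ inertiaQ q) :
    φ * t * φ⁻¹ ∈ inertiaQ q := by
  rw [mem_inertiaQ] at ht ⊢
  rw [map_mul, map_mul, map_inv]
  exact ltw_conj_mem_inertia (localGaloisToGlobal_mem_decompositionSubgroup q φ) ht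

variable {k : Type} [CommRing k] (M : Rep.{0} k (GQq q))

/-- the cocycles which are right-invariant under `U` -/
def ltw_Z (U : Subgroup (GQq q)) : Submodule k (cocycles₁ M) where
  carrier := {c | ∀ g s : GQq q, s ∈ U → (c : GQq q → M) (g * s) = (c : GQq q → M) g}
  add_mem' := by
    intro c c' h h' g s hs
    show (c : GQq q → M) (g * s) + (c' : GQq q → M) (g * s) = _
    rw [h g s hs, h' g s hs]
    rfl
  zero_mem' := fun _ _ _ => rfl
  smul_mem' := by
    intro a c h g s hs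
    show a • (c : GQq q → M) (g * s) = _
    rw [h g s hs]
    rfl

lemma ltw_mem_Z (U : Subgroup (GQq q)) (c : cocycles₁ M) :
    c ∈ ltw_Z M U ↔ ∀ g s : GQq q, s ∈ U → (c : GQq q → M) (g * s) = (c : GQq q → M) g :=
  Iff.rfl

lemma ltw_Z_mono {U U' : Subgroup (GQq q)} (h : U' ≤ U) : ltw_Z M U ≤ ltw_Z M U' :=
  fun _ hc g s hs => hc g s (h hs)

/-- the classes of level `U` -/
def ltw_H (U : Subgroup (GQq q)) : Submodule k (H1 M) := (ltw_Z M U).map (H1π M).hom

lemma ltw_H_mono {U U' : Subgroup (GQq q)} (h : U' ≤ U) : ltw_H M U ≤ ltw_H M U' :=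
  Submodule.map_mono (ltw_Z_mono M h)

lemma ltw_H_le_levH1 {U : Subgroup (GQq q)} (hU : U ∈ (towerLoc q).lev) :
    ltw_H M U ≤ levH1 (towerLoc q) M := by
  rintro _ ⟨c, hc, rfl⟩
  exact (mem_levH1_iff _ _ _).2 ⟨c, ⟨U, hU, hc⟩, rfl⟩

lemma ltw_levH1_le_iSup (x : H1 M) (hx : x ∈ levH1 (towerLoc q) M) :
    ∃ U ∈ (towerLoc q).lev, x ∈ ltw_H M U := by
  obtain ⟨c, ⟨U, hU, hc⟩, rfl⟩ := (mem_levH1_iff _ _ _).1 hx
  exact ⟨U, hU, c, hc, rfl⟩

/-- value of a cocycle at a conjugate, when the conjugated element acts trivially -/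
lemma ltw_cocycle_conj (c : cocycles₁ M) (φ t : GQq q) (ht : M.ρ t = 1) :
    (c : GQq q → M) (φ * t * φ⁻¹) = M.ρ φ ((c : GQq q → M) t) := by
  have hcoc := (mem_cocycles₁_iff (c : GQq q → M)).1 c.2
  have h1 : (c : GQq q → M) 1 = 0 := cocycles₁_map_one c
  have h2 : M.ρ φ ((c : GQq q → M) φ⁻¹) + (c : GQq q → M) φ = 0 := by
    rw [← hcoc φ φ⁻¹, mul_inv_cancel, h1]
  rw [hcoc (φ * t) φ⁻¹, hcoc φ t, map_mul, ht, mul_one]
  rw [← add_assoc, add_comm (M.ρ φ ((c : GQq q → M) φ⁻¹)), add_assoc, h2, add_zero]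

end ltw

section core

variable {q p : ℕ} [Fact q.Prime] [Fact p.Prime] (M : Rep.{0} (ZMod p) (GQq q))

/-- for unramified `M`, a cocycle restricts to a homomorphism on inertia -/
def ltw_hom (hun : IsUnramQ q M) (c : cocycles₁ M) : ↥(inertiaQ q) →* Multiplicative M.V where
  toFun x := Multiplicative.ofAdd ((c : GQq q → M) (x : GQq q))
  map_one' := by
    show Multiplicative.ofAdd ((c : GQq q → M) 1) = 1
    rw [cocycles₁_map_one c]
    rfl
  map_mul' x y := by
    have hcoc := (mem_cocycles₁_iff (c : GQq q → M)).1 c.2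
    show Multiplicative.ofAdd ((c : GQq q → M) ((x : GQq q) * (y : GQq q))) =
      Multiplicative.ofAdd ((c : GQq q → M) (x : GQq q)) *
        Multiplicative.ofAdd ((c : GQq q → M) (y : GQq q))
    rw [hcoc, hun _ x.2, Module.End.one_apply, ← ofAdd_add, add_comm]

lemma ltw_hom_apply (hun : IsUnramQ q M) (c : cocycles₁ M) (x : ↥(inertiaQ q)) :
    ltw_hom M hun c x = Multiplicative.ofAdd ((c : GQq q → M) (x : GQq q)) := rfl

lemma ltw_nsmul_p (m : M.V) : p • m = 0 := by
  rw [← Nat.cast_smul_eq_nsmul (ZMod p), ZMod.natCast_self, zero_smul]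

lemma ltw_nsmul_q (hq1 : (q : ZMod p) = 1) (m : M.V) : q • m = m := by
  rw [← Nat.cast_smul_eq_nsmul (ZMod p), hq1, one_smul]

/-- the tame generator controls all cocycles of level `U` on inertia -/
lemma ltw_key (htame : StmtTame) (hqp : q ≠ p) (hun : IsUnramQ q M) {U : Subgroup (GQq q)}
    (hU : U ∈ (towerLoc q).lev) :
    ∃ t : ↥(inertiaQ q), ∀ c ∈ ltw_Z M U,
      (∀ x ∈ inertiaQ q, ∃ n : ℕ, (c : GQq q → M) x = n • (c : GQq q → M) (t : GQq q)) ∧
      ∀ φ : GQq q, IsFrobQ q φ →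
        (c : GQq q → M) (φ * (t : GQq q) * φ⁻¹) = q • (c : GQq q → M) (t : GQq q) := by
  obtain ⟨t, ht⟩ := htame q p hqp U hU
  refine ⟨t, fun c hc => ?_⟩
  have hp : ∀ a : Multiplicative M.V, a ^ p = 1 := by
    intro a
    show Multiplicative.ofAdd (p • Multiplicative.toAdd a) = 1
    rw [ltw_nsmul_p]
    rfl
  have htriv : ∀ x : ↥(inertiaQ q), (x : GQq q) ∈ U → ltw_hom M hun c x = 1 := by
    intro x hx
    rw [ltw_hom_apply]
    have h1 := hc 1 (x : GQq q) hx
    rw [one_mul] at h1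
    rw [h1, cocycles₁_map_one c]
    rfl
  obtain ⟨h1, h2⟩ := ht (Multiplicative M.V) (ltw_hom M hun c) hp htriv
  refine ⟨fun x hx => ?_, fun φ hφ => ?_⟩
  · obtain ⟨n, hn⟩ := h1 ⟨x, hx⟩
    refine ⟨n, ?_⟩
    rw [ltw_hom_apply, ltw_hom_apply, ← ofAdd_nsmul] at hn
    exact Multiplicative.ofAdd.injective hn
  · have h3 := h2 φ hφ (ltw_conj_mem_inertiaQ φ t.2)
    rw [ltw_hom_apply, ltw_hom_apply, ← ofAdd_nsmul] at h3
    exact Multiplicative.ofAdd.injective h3

/-- invariants from Frobenius, inertia and a level -/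
lemma ltw_mem_invariants (hgen : StmtFrobGen) (hsm : IsSmoothQ q M) (hun : IsUnramQ q M)
    {φ : GQq q} (hφ : IsFrobQ q φ) {m : M.V} (hm : M.ρ φ m = m) : m ∈ M.ρ.invariants := by
  obtain ⟨V, hV, hρ⟩ := hsm
  intro τ
  obtain ⟨j, i, v, hi, hv, rfl⟩ := hgen q φ hφ V hV τ
  rw [map_mul, map_mul, hρ v hv, hun i hi, mul_one, mul_one, map_pow]
  induction j with
  | zero => rw [pow_zero, Module.End.one_apply]
  | succ j ih => rw [pow_succ, Module.End.mul_apply, hm, ih]

/-- the bound for the classes of a fixed level `U` -/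
lemma ltw_bound_level (htame : StmtTame) (hmin : StmtUnrLe) (hgen : StmtFrobGen) (hqp : q ≠ p)
    (hq1 : (q : ZMod p) = 1) [FiniteDimensional (ZMod p) M] (hsm : IsSmoothQ q M)
    (hun : IsUnramQ q M) {φ : GQq q} (hφ : IsFrobQ q φ) {U : Subgroup (GQq q)}
    (hU : U ∈ (towerLoc q).lev) :
    Module.Finite (ZMod p) (ltw_H M U) ∧
      Module.finrank (ZMod p) (ltw_H M U) ≤ 2 * Module.finrank (ZMod p) M.ρ.invariants := by
  classical
  obtain ⟨t, ht⟩ := ltw_key M htame hqp hun hU
  obtain ⟨hfin, hle⟩ := hmin q p M hsm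
  -- the two maps out of `Z_U`
  let P : ↥(ltw_Z M U) →ₗ[ZMod p] H1 M := (H1π M).hom ∘ₗ (ltw_Z M U).subtype
  have hP : LinearMap.range P = ltw_H M U := by
    show LinearMap.range ((H1π M).hom ∘ₗ (ltw_Z M U).subtype) = _
    rw [LinearMap.range_comp, Submodule.range_subtype]
    rfl
  let E : ↥(ltw_Z M U) →ₗ[ZMod p] M.V :=
    LinearMap.proj (t : GQq q) ∘ₗ (cocycles₁ M).subtype ∘ₗ (ltw_Z M U).subtype
  have hE : ∀ c : ↥(ltw_Z M U), E c = ((c : cocycles₁ M) : GQq q → M) (t : GQq q) :=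
    fun _ => rfl
  have hPc : ∀ c : ↥(ltw_Z M U), P c = (H1π M).hom (c : cocycles₁ M) := fun _ => rfl
  have hker : LinearMap.ker P ≤ LinearMap.ker E := by
    intro c hc
    rw [LinearMap.mem_ker, hPc] at hc
    obtain ⟨m, hm⟩ := (H1π_eq_zero_iff _).1 hc
    rw [LinearMap.mem_ker, hE, ← hm, d₀₁_hom_apply, hun _ t.2, Module.End.one_apply, sub_self]
  -- values of `E` are invariant
  have hEinv : ∀ c : ↥(ltw_Z M U), E c ∈ M.ρ.invariants := by
    intro c
    refine ltw_mem_invariants M hgen hsm hun hφ ?_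
    rw [hE, ← ltw_cocycle_conj M (c : cocycles₁ M) φ (t : GQq q) (hun _ t.2),
      (ht _ c.2).2 φ hφ, ltw_nsmul_q M hq1]
  -- the kernel of `E` consists of unramified cocycles
  have hEunr : ∀ c : ↥(ltw_Z M U), E c = 0 → P c ∈ unrH1 q M := by
    intro c hc
    rw [hE] at hc
    refine (mem_unrH1 q M _).2 ⟨(c : cocycles₁ M), ⟨U, hU, c.2⟩, fun τ hτ => ?_, rfl⟩
    obtain ⟨n, hn⟩ := (ht _ c.2).1 τ hτ
    rw [hn, hc, smul_zero]
  -- pass to the quotient by `ker P`
  let Et : (↥(ltw_Z M U) ⧸ LinearMap.ker P) →ₗ[ZMod p] M.V := (LinearMap.ker P).liftQ E hker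
  let Pt : (↥(ltw_Z M U) ⧸ LinearMap.ker P) →ₗ[ZMod p] H1 M :=
    (LinearMap.ker P).liftQ P le_rfl
  have hPt : Function.Injective Pt :=
    LinearMap.ker_eq_bot.1 (Submodule.ker_liftQ_eq_bot _ _ _ le_rfl)
  have hrange : LinearMap.range Et ≤ M.ρ.invariants := by
    rintro _ ⟨x, rfl⟩
    induction x using Submodule.Quotient.induction_on with
    | H c => exact hEinv c
  have hkerunr : ∀ x ∈ LinearMap.ker Et, Pt x ∈ unrH1 q M := by
    intro x hx
    induction x using Submodule.Quotient.induction_on with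
    | H c => exact hEunr c hx
  let j : ↥(LinearMap.ker Et) →ₗ[ZMod p] ↥(unrH1 q M) :=
    LinearMap.codRestrict (unrH1 q M) (Pt ∘ₗ (LinearMap.ker Et).subtype)
      (fun x => hkerunr x.1 x.2)
  have hj : Function.Injective j := by
    intro x y hxy
    have := congrArg Subtype.val hxy
    exact Subtype.ext (hPt this)
  haveI : Module.Finite (ZMod p) ↥(LinearMap.ker Et) := Module.Finite.of_injective j hj
  have h1 : Module.finrank (ZMod p) ↥(LinearMap.ker Et) ≤
      Module.finrank (ZMod p) M.ρ.invariants :=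
    (LinearMap.finrank_le_finrank_of_injective hj).trans hle
  have h2 : Module.finrank (ZMod p) ↥(LinearMap.range Et) ≤
      Module.finrank (ZMod p) M.ρ.invariants := Submodule.finrank_mono hrange
  haveI : Module.Finite (ZMod p)
      ((↥(ltw_Z M U) ⧸ LinearMap.ker P) ⧸ LinearMap.ker Et) :=
    Module.Finite.equiv (LinearMap.quotKerEquivRange Et).symm
  haveI : Module.Finite (ZMod p) (↥(ltw_Z M U) ⧸ LinearMap.ker P) :=
    Module.Finite.of_submodule_quotient (LinearMap.ker Et)
  have h3 := LinearMap.finrank_range_add_finrank_ker Et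
  have e : (↥(ltw_Z M U) ⧸ LinearMap.ker P) ≃ₗ[ZMod p] ↥(ltw_H M U) :=
    (LinearMap.quotKerEquivRange P).trans (LinearEquiv.ofEq _ _ hP)
  refine ⟨Module.Finite.equiv e, ?_⟩
  rw [← e.finrank_eq]
  omega

end core

/-- **L-tw** from L-tame, L-min, L-gen and L-frobex. -/
theorem stmtLTw_of (htame : StmtTame) (hmin : StmtUnrLe) (hgen : StmtFrobGen)
    (hfrob : StmtFrobExists) : StmtLTw := by
  intro q p _ _ hq1 M _ hsm hun
  classical
  have hqp : q ≠ p := by
    rintro rfl
    rw [ZMod.natCast_self] at hq1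
    exact zero_ne_one hq1
  obtain ⟨φ, hφ⟩ := hfrob q
  have hb : ∀ U ∈ (towerLoc q).lev, Module.Finite (ZMod p) (ltw_H M U) ∧
      Module.finrank (ZMod p) (ltw_H M U) ≤ 2 * Module.finrank (ZMod p) M.ρ.invariants :=
    fun U hU => ltw_bound_level M htame hmin hgen hqp hq1 hsm hun hφ hU
  -- a level of maximal dimension
  let Pr : ℕ → Prop := fun n => ∃ U ∈ (towerLoc q).lev, Module.finrank (ZMod p) (ltw_H M U) = n
  have hP0 : Pr (Module.finrank (ZMod p) (ltw_H M (⊤ : Subgroup (GQq q)))) :=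
    ⟨⊤, (towerLoc q).top_mem, rfl⟩
  obtain ⟨U₀, hU₀, hU₀max⟩ := Nat.findGreatest_spec (P := Pr)
    (hb ⊤ (towerLoc q).top_mem).2 hP0
  have hmax : ∀ U ∈ (towerLoc q).lev,
      Module.finrank (ZMod p) (ltw_H M U) ≤ Module.finrank (ZMod p) (ltw_H M U₀) := by
    intro U hU
    rw [hU₀max]
    exact Nat.le_findGreatest (hb U hU).2 ⟨U, hU, rfl⟩
  have hle : ∀ U ∈ (towerLoc q).lev, ltw_H M U ≤ ltw_H M U₀ := by
    intro U hU
    have hUU : U ⊓ U₀ ∈ (towerLoc q).lev := (towerLoc q).inf_mem U U₀ hU hU₀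
    haveI := (hb (U ⊓ U₀) hUU).1
    have h1 : ltw_H M U₀ ≤ ltw_H M (U ⊓ U₀) := ltw_H_mono M inf_le_right
    have h2 : ltw_H M U₀ = ltw_H M (U ⊓ U₀) :=
      Submodule.eq_of_le_of_finrank_le h1 (hmax _ hUU)
    rw [h2]
    exact ltw_H_mono M inf_le_left
  have heq : levH1 (towerLoc q) M = ltw_H M U₀ := by
    refine le_antisymm ?_ (ltw_H_le_levH1 M hU₀)
    intro x hx
    obtain ⟨U, hU, hxU⟩ := ltw_levH1_le_iSup M x hx
    exact hle U hU hxU
  rw [heq]
  exact hb U₀ hU₀

end Fermat.Agent.TW.L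

end


end ZBPT_003_9

/-! ### bundled: `Fermat.Agent.TW.L.Plan2` -/
section ZBPT_003_10
/-
TW-L (S56, local computations) — INTERFACE FILE 2 (helper11): variants requested by the consumers.
-/

set_option autoImplicit false

namespace Fermat.Agent.TW.L

open Fermat.Agent.PT Fermat.Agent.PT.B

/-- **L-tame, group form** (requested by TW-S, helper54, for `h = ρ_ε|_{I_v} → GL₂(k[ε])`):
modulo every level, every homomorphism from inertia to a (not necessarily commutative) group of
exponent `p ≠ q` has cyclic image, generated by the image of one element `t` (depending only on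
the level).
(Elements of `q`-power order modulo the level die in a group of exponent `p`; the quotient of
inertia by them is cyclic: tame character.) -/
def StmtTameGrp : Prop :=
  ∀ (q p : ℕ) [Fact q.Prime] [Fact p.Prime], q ≠ p → ∀ V ∈ (towerLoc q).lev,
    ∃ t : ↥(inertiaQ q), ∀ (A : Type) [Group A] (h : ↥(inertiaQ q) →* A),
      (∀ a : A, a ^ p = 1) → (∀ x : ↥(inertiaQ q), (x : GQq q) ∈ V → h x = 1) →
      (∀ x : ↥(inertiaQ q), ∃ n : ℕ, h x = h t ^ n) ∧
      ∀ φ : GQq q, IsFrobQ q φ → ∀ hmem : φ * (t : GQq q) * φ⁻¹ ∈ inertiaQ q,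
        h ⟨φ * (t : GQq q) * φ⁻¹, hmem⟩ = h t ^ q

/-- `StmtTame` is the commutative case of `StmtTameGrp`. -/
theorem stmtTame_of_grp (h : StmtTameGrp) : StmtTame := by
  intro q p _ _ hqp V hV
  obtain ⟨t, ht⟩ := h q p hqp V hV
  exact ⟨t, fun A _ f hA hf => ht A f hA hf⟩

end Fermat.Agent.TW.L


end ZBPT_003_10

/-! ### bundled: `Fermat.Agent.PT.B.Plan2` -/
section ZBPT_003_11
/-
PT-B (bridge for S55) — INTERFACE FILE 2 (definitions and statements only).

* `towerLocP q`, `GlocS S`, `IsConcreteDatum` : what it means for a `PTDatum` to live on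
  `(G_ℚ, towerS S, (G_{ℚ_q})_{q ∈ S}, cycloChar p)`;
* `StmtMirror` (piece **B-mirror**): S55 follows from the abstract theorem `StmtPTF` and ANY
  concrete datum.  (Uses only Arch.lean, Towers.lean, KernelField.lean.)
-/

set_option autoImplicit false

namespace Fermat.Agent.PT.B

open Fermat.Agent.PT CategoryTheory groupCohomology ExtCitation

/-- The local Galois groups indexed by `S`. -/
abbrev GlocS (S : Finset Nat.Primes) : ↥S → Type := fun q => primeLocalGaloisGroup q.1

/-- The local tower at `q : Nat.Primes` (on the prelude's `primeLocalGaloisGroup q`). -/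
noncomputable def towerLocP (q : Nat.Primes) : Tower (primeLocalGaloisGroup q) :=
  letI : Fact (q : ℕ).Prime := ⟨q.2⟩
  towerLoc (q : ℕ)

/-- A datum is *concrete* (for `S`, `p`) if its towers, local maps and character are the
arithmetic ones. -/
structure IsConcreteDatum (p : ℕ) [Fact p.Prime] (S : Finset Nat.Primes)
    (D : PTDatum p GQ ↥S (GlocS S)) : Prop where
  tower : D.𝒯 = towerS S
  r : ∀ q : ↥S, D.r q = primeLocalToGlobal q.1
  towerLoc : ∀ q : ↥S, D.𝒯loc q = towerLocP q.1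
  χ : D.χ = cycloChar p

/-- **B-mirror**: S55 from the abstract Poitou–Tate theorem and a concrete datum. -/
def StmtMirror : Prop :=
  StmtPTF → ∀ (p : ℕ) [Fact p.Prime], p ≠ 2 → ∀ (S : Finset Nat.Primes), pPrime p ∈ S →
    ∀ (D : PTDatum p GQ ↥S (GlocS S)), IsConcreteDatum p S D →
    ∀ (M : Rep.{0, 0, 0} (ZMod p) GQ) [FiniteDimensional (ZMod p) M],
    (∀ m : M, ∃ F : QbarField, FiniteDimensional ℚ F ∧ ∀ s ∈ F.fixingSubgroup, M.ρ s m = m) →
    (∀ q : Nat.Primes, q ∉ S → ∀ A : ValuationSubring (AlgebraicClosure ℚ),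
      A.LiesOverPrime (q : ℕ) → ∀ g ∈ A.inertiaSubgroupIn ℚ, M.ρ g = 1) →
    ∃ B : sha₁ S (M.dualTwist (cycloChar p)) →ₗ[ZMod p] sha₂ S M →ₗ[ZMod p] ZMod p,
      (∀ y, (∀ x, B y x = 0) → y = 0) ∧ (∀ x, (∀ y, B y x = 0) → x = 0)

end Fermat.Agent.PT.B


end ZBPT_003_11

/-! ### bundled: `Fermat.Agent.PT.B.Concrete` -/
section ZBPT_003_12
/-
PT-B: THE CONCRETE DATUM — definitions (see NOTES/PT-instance.md).

* `unitsS S`      : the `S`-units of `ℚ_S` inside `ℚ̄ˣ`  (`E_S`);
* `ERep S`        : `E_S` as a representation of `G_ℚ`;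
* `JlocQ q`, `JlocP q` : `ℚ̄_qˣ` as a representation of `G_{ℚ_q}`;
* `jLoc S q`      : the local embedding `E_S → ℚ̄_qˣ` (units of `padicEmbedding q`);
* `JS S`          : the semilocal module `semilocal (towerS S) r Jloc`;
* `iDiag S`       : the diagonal `E_S → J_S`;
* `CRep S`        : the class module `J_S / E_S`;  `piC S` the projection.
-/

set_option autoImplicit false
set_option linter.style.haveILetI false

noncomputable section

namespace Fermat.Agent.PT.B

open Fermat.Agent.PT CategoryTheory groupCohomology ExtCitation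
open scoped Pointwise

/-! ### The `S`-units of `ℚ_S` -/

/-- `x ∈ ℚ̄ˣ` lies in a finite extension unramified outside `S`. -/
def InQS (S : Finset Nat.Primes) (x : AlgebraicClosure ℚ) : Prop :=
  ∃ F : QbarField, F.IsUnramifiedOutside S ∧ x ∈ F

theorem InQS.mul {S : Finset Nat.Primes} {x y : AlgebraicClosure ℚ} (hx : InQS S x)
    (hy : InQS S y) : InQS S (x * y) := by
  obtain ⟨F, hF, hxF⟩ := hx
  obtain ⟨F', hF', hyF'⟩ := hy
  exact ⟨F ⊔ F', hF.sup hF', mul_mem ((le_sup_left : F ≤ F ⊔ F') hxF)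
    ((le_sup_right : F' ≤ F ⊔ F') hyF')⟩

theorem InQS.inv {S : Finset Nat.Primes} {x : AlgebraicClosure ℚ} (hx : InQS S x) :
    InQS S x⁻¹ := by
  obtain ⟨F, hF, hxF⟩ := hx
  exact ⟨F, hF, inv_mem hxF⟩

theorem inQS_one (S : Finset Nat.Primes) : InQS S (1 : AlgebraicClosure ℚ) :=
  ⟨⊥, IntermediateField.isUnramifiedOutside_bot S, one_mem _⟩

theorem InQS.map {S : Finset Nat.Primes} {x : AlgebraicClosure ℚ} (hx : InQS S x) (g : GQ) :
    InQS S (g x) := by
  obtain ⟨F, hF, hxF⟩ := hx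
  exact ⟨F.map (g : AlgebraicClosure ℚ →ₐ[ℚ] AlgebraicClosure ℚ), isUnramifiedOutside_map S F hF g,
    ⟨x, hxF, rfl⟩⟩

/-- The `S`-units of `ℚ_S`: elements of `ℚ̄ˣ` lying in a finite extension unramified outside `S`
which are units at every place of `ℚ̄` above a prime outside `S`. -/
def unitsS (S : Finset Nat.Primes) : Subgroup (AlgebraicClosure ℚ)ˣ where
  carrier := {x | InQS S (x : AlgebraicClosure ℚ) ∧
    ∀ q : Nat.Primes, q ∉ S → ∀ A : ValuationSubring (AlgebraicClosure ℚ),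
      A.LiesOverPrime (q : ℕ) → x ∈ A.unitGroup}
  mul_mem' := fun {x y} hx hy => ⟨by simpa using hx.1.mul hy.1,
    fun q hq A hA => mul_mem (hx.2 q hq A hA) (hy.2 q hq A hA)⟩
  one_mem' := ⟨by simpa using inQS_one S, fun q hq A hA => one_mem _⟩
  inv_mem' := fun {x} hx => ⟨by simpa using hx.1.inv,
    fun q hq A hA => inv_mem (hx.2 q hq A hA)⟩

theorem mem_unitsS_iff (S : Finset Nat.Primes) (x : (AlgebraicClosure ℚ)ˣ) :
    x ∈ unitsS S ↔ InQS S (x : AlgebraicClosure ℚ) ∧
      ∀ q : Nat.Primes, q ∉ S → ∀ A : ValuationSubring (AlgebraicClosure ℚ),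
        A.LiesOverPrime (q : ℕ) → x ∈ A.unitGroup := Iff.rfl

/-- `x ∈ Aˣ ↔ x ∈ A ∧ x⁻¹ ∈ A`. -/
theorem mem_unitGroup_iff_mem_and_inv_mem {K : Type*} [Field K] (A : ValuationSubring K)
    (x : Kˣ) : x ∈ A.unitGroup ↔ (x : K) ∈ A ∧ ((x⁻¹ : Kˣ) : K) ∈ A := by
  rw [ValuationSubring.mem_unitGroup_iff, ← A.valuation_le_one_iff, ← A.valuation_le_one_iff,
    Units.val_inv_eq_inv_val, map_inv₀]
  constructor
  · intro h
    rw [h]
    simp
  · rintro ⟨h1, h2⟩
    have hne : A.valuation (x : K) ≠ 0 := (Valuation.ne_zero_iff _).2 x.ne_zero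
    refine le_antisymm h1 ?_
    rwa [inv_le_one₀ (zero_lt_iff.2 hne)] at h2

/-- `g x ∈ Aˣ ↔ x ∈ (g⁻¹ • A)ˣ`. -/
theorem smul_mem_unitGroup_iff (A : ValuationSubring (AlgebraicClosure ℚ)) (g : GQ)
    (x : (AlgebraicClosure ℚ)ˣ) : g • x ∈ A.unitGroup ↔ x ∈ (g⁻¹ • A).unitGroup := by
  rw [mem_unitGroup_iff_mem_and_inv_mem, mem_unitGroup_iff_mem_and_inv_mem,
    mem_smul_valuationSubring_iff, mem_smul_valuationSubring_iff, inv_inv]
  rfl

theorem smul_mem_unitsS (S : Finset Nat.Primes) (g : GQ) {x : (AlgebraicClosure ℚ)ˣ}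
    (hx : x ∈ unitsS S) : g • x ∈ unitsS S := by
  refine ⟨hx.1.map g, fun q hq A hA => ?_⟩
  rw [smul_mem_unitGroup_iff]
  exact hx.2 q hq _ (liesOverPrime_smul A g⁻¹ q hA)

/-- `G_ℚ` acts on the `S`-units. -/
instance instMulDistribMulActionUnitsS (S : Finset Nat.Primes) :
    MulDistribMulAction GQ ↥(unitsS S) where
  smul g x := ⟨g • (x : (AlgebraicClosure ℚ)ˣ), smul_mem_unitsS S g x.2⟩
  one_smul x := Subtype.ext (one_smul _ _)
  mul_smul g h x := Subtype.ext (mul_smul _ _ _)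
  smul_mul g x y := Subtype.ext (smul_mul' _ _ _)
  smul_one g := Subtype.ext (smul_one _)

@[simp] theorem coe_smul_unitsS (S : Finset Nat.Primes) (g : GQ) (x : ↥(unitsS S)) :
    ((g • x : ↥(unitsS S)) : (AlgebraicClosure ℚ)ˣ) = g • (x : (AlgebraicClosure ℚ)ˣ) := rfl

@[simp] theorem coe_coe_smul_unitsS (S : Finset Nat.Primes) (g : GQ) (x : ↥(unitsS S)) :
    (((g • x : ↥(unitsS S)) : (AlgebraicClosure ℚ)ˣ) : AlgebraicClosure ℚ) =
      g ((x : (AlgebraicClosure ℚ)ˣ) : AlgebraicClosure ℚ) := rfl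

/-- **The global module** `E = E_S` as a representation of `G_ℚ` (underlying type
`Additive ↥(unitsS S)`). -/
def ERep (S : Finset Nat.Primes) : Rep.{0} ℤ GQ := Rep.ofMulDistribMulAction GQ ↥(unitsS S)

@[simp] theorem ERep_ρ_apply (S : Finset Nat.Primes) (g : GQ) (e : Additive ↥(unitsS S)) :
    (ERep S).ρ g e = Additive.ofMul (g • e.toMul) := rfl

/-! ### The local modules -/

/-- `ℚ̄_qˣ` as a representation of `G_{ℚ_q}` (underlying type `Additive (PadicAlgCl q)ˣ`). -/
def JlocQ (q : ℕ) [Fact q.Prime] : Rep.{0} ℤ (GQq q) :=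
  Rep.ofAlgebraAutOnUnits ℚ_[q] (PadicAlgCl q)

/-- `ℚ̄_qˣ` as a representation of `primeLocalGaloisGroup q`. -/
def JlocP (q : Nat.Primes) : Rep.{0} ℤ (primeLocalGaloisGroup q) :=
  letI : Fact (q : ℕ).Prime := ⟨q.2⟩
  JlocQ (q : ℕ)

/-! ### The local embeddings -/

/-- `padicEmbedding q` on units. -/
def jUnits (q : ℕ) [Fact q.Prime] : (AlgebraicClosure ℚ)ˣ →* (PadicAlgCl q)ˣ :=
  Units.map ((padicEmbedding q : AlgebraicClosure ℚ →ₐ[ℚ] PadicAlgCl q) :
    AlgebraicClosure ℚ →* PadicAlgCl q)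

@[simp] theorem coe_jUnits (q : ℕ) [Fact q.Prime] (x : (AlgebraicClosure ℚ)ˣ) :
    ((jUnits q x : (PadicAlgCl q)ˣ) : PadicAlgCl q) = padicEmbedding q (x : AlgebraicClosure ℚ) :=
  rfl

theorem jUnits_injective (q : ℕ) [Fact q.Prime] : Function.Injective (jUnits q) := by
  intro x y h
  apply Units.ext
  apply (padicEmbedding q).injective
  exact congrArg (fun u : (PadicAlgCl q)ˣ => (u : PadicAlgCl q)) h

/-- equivariance of `jUnits` -/
theorem jUnits_smul (q : ℕ) [Fact q.Prime] (τ : GQq q) (x : (AlgebraicClosure ℚ)ˣ) :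
    jUnits q (localGaloisToGlobal q τ • x) = τ • jUnits q x := by
  apply Units.ext
  exact padicEmbedding_localGaloisToGlobal q τ (x : AlgebraicClosure ℚ)

/-- The local embedding `E_S → ℚ̄_qˣ` as a linear map. -/
def jLin (S : Finset Nat.Primes) (q : ℕ) [Fact q.Prime] :
    Additive ↥(unitsS S) →ₗ[ℤ] Additive (PadicAlgCl q)ˣ :=
  (MonoidHom.toAdditive ((jUnits q).comp (unitsS S).subtype)).toIntLinearMap

@[simp] theorem jLin_apply (S : Finset Nat.Primes) (q : ℕ) [Fact q.Prime]
    (e : Additive ↥(unitsS S)) :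
    jLin S q e = Additive.ofMul (jUnits q ((e.toMul : ↥(unitsS S)) : (AlgebraicClosure ℚ)ˣ)) :=
  rfl

/-- The local embedding `E_S → ℚ̄_qˣ` as a morphism of representations of `G_{ℚ_q}`. -/
def jLocQ (S : Finset Nat.Primes) (q : ℕ) [Fact q.Prime] :
    Rep.res (localGaloisToGlobal q) (ERep S) ⟶ JlocQ q :=
  Rep.ofHom (ρ := (Rep.res (localGaloisToGlobal q) (ERep S)).ρ) (σ := (JlocQ q).ρ)
    ⟨jLin S q, fun τ => by
      ext e
      exact congrArg Additive.ofMul (jUnits_smul q τ _)⟩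

theorem jLocQ_hom_apply (S : Finset Nat.Primes) (q : ℕ) [Fact q.Prime]
    (e : Additive ↥(unitsS S)) :
    (jLocQ S q).hom e =
      Additive.ofMul (jUnits q ((e.toMul : ↥(unitsS S)) : (AlgebraicClosure ℚ)ˣ)) := rfl

theorem jLocQ_injective (S : Finset Nat.Primes) (q : ℕ) [Fact q.Prime] :
    Function.Injective (jLocQ S q).hom := by
  intro (e : Additive ↥(unitsS S)) (e' : Additive ↥(unitsS S)) h
  have h1 : jUnits q ((e.toMul : ↥(unitsS S)) : (AlgebraicClosure ℚ)ˣ) =
      jUnits q ((e'.toMul : ↥(unitsS S)) : (AlgebraicClosure ℚ)ˣ) :=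
    congrArg Additive.toMul h
  exact congrArg Additive.ofMul (Subtype.ext (jUnits_injective q h1))

/-- The local embedding at `q : Nat.Primes`. -/
def jLocP (S : Finset Nat.Primes) (q : Nat.Primes) :
    Rep.res (primeLocalToGlobal q) (ERep S) ⟶ JlocP q :=
  letI : Fact (q : ℕ).Prime := ⟨q.2⟩
  jLocQ S (q : ℕ)

theorem jLocP_injective (S : Finset Nat.Primes) (q : Nat.Primes) :
    Function.Injective (jLocP S q).hom :=
  letI : Fact (q : ℕ).Prime := ⟨q.2⟩
  jLocQ_injective S (q : ℕ)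

/-! ### The semilocal module, the diagonal and the class module -/

/-- the local-to-global maps indexed by `S` -/
def rS (S : Finset Nat.Primes) : ∀ q : ↥S, GlocS S q →* GQ := fun q => primeLocalToGlobal q.1

/-- the local modules indexed by `S` -/
def JlocS (S : Finset Nat.Primes) : ∀ q : ↥S, Rep.{0} ℤ (GlocS S q) := fun q => JlocP q.1

/-- the local towers indexed by `S` -/
def towerLocS (S : Finset Nat.Primes) : ∀ q : ↥S, Tower (GlocS S q) := fun q => towerLocP q.1

/-- the local embeddings indexed by `S` -/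
def jS (S : Finset Nat.Primes) : ∀ q : ↥S, Rep.res (rS S q) (ERep S) ⟶ JlocS S q :=
  fun q => jLocP S q.1

/-- **The semilocal module** `J_S = ∏_{q ∈ S} coInd ℚ̄_qˣ`. -/
def JS (S : Finset Nat.Primes) : Rep.{0} ℤ GQ := semilocal (towerS S) (rS S) (JlocS S)

/-- an element of `E_S` is fixed by a level -/
theorem ERep_discrete (S : Finset Nat.Primes) (e : (ERep S).V) :
    ∃ U ∈ (towerS S).lev, ∀ s ∈ U, (ERep S).ρ s e = e := by
  obtain ⟨F, hF, hxF⟩ := (Additive.toMul e : ↥(unitsS S)).2.1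
  refine ⟨F.fixingSubgroup, ⟨F, hF, rfl⟩, fun s hs => ?_⟩
  rw [IntermediateField.mem_fixingSubgroup_iff] at hs
  exact congrArg Additive.ofMul (Subtype.ext (Units.ext (hs _ hxF)))

/-- The diagonal `E_S → J_S` on elements. -/
def iDiagFun (S : Finset Nat.Primes) (e : (ERep S).V) : (JS S).V :=
  ⟨fun v g => (jS S v).hom ((ERep S).ρ g e), fun v => by
    refine ⟨fun d g => ?_, ?_⟩
    · show (jS S v).hom ((ERep S).ρ (rS S v d * g) e) =
        (JlocS S v).ρ d ((jS S v).hom ((ERep S).ρ g e))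
      rw [map_mul]
      exact Rep.hom_comm_apply (jS S v) d ((ERep S).ρ g e)
    · obtain ⟨U, hU, h⟩ := ERep_discrete S e
      refine ⟨U, hU, fun g s hs => ?_⟩
      show (jS S v).hom ((ERep S).ρ (g * s) e) = (jS S v).hom ((ERep S).ρ g e)
      rw [map_mul, Module.End.mul_apply, h s hs]⟩

@[simp] theorem iDiagFun_apply (S : Finset Nat.Primes) (e : (ERep S).V) (v : ↥S) (g : GQ) :
    (iDiagFun S e).1 v g = (jS S v).hom ((ERep S).ρ g e) := rfl

/-- The diagonal `E_S → J_S` as a linear map. -/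
def iDiagLin (S : Finset Nat.Primes) :
    @LinearMap ℤ ℤ _ _ (RingHom.id ℤ) (ERep S).V (JS S).V _ _ (ERep S).hV2 (JS S).hV2 :=
  AddMonoidHom.toIntLinearMap
    { toFun := iDiagFun S
      map_zero' := by
        apply Subtype.ext
        funext v g
        show (jS S v).hom ((ERep S).ρ g 0) = 0
        rw [map_zero, map_zero]
      map_add' := fun e e' => by
        apply Subtype.ext
        funext v g
        show (jS S v).hom ((ERep S).ρ g (e + e')) =
          (jS S v).hom ((ERep S).ρ g e) + (jS S v).hom ((ERep S).ρ g e')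
        rw [map_add, map_add] }

@[simp] theorem iDiagLin_apply (S : Finset Nat.Primes) (e : (ERep S).V) :
    iDiagLin S e = iDiagFun S e := rfl

/-- **The diagonal** `E_S → J_S` as a morphism of representations. -/
def iDiag (S : Finset Nat.Primes) : ERep S ⟶ JS S :=
  Rep.ofHom (ρ := (ERep S).ρ) (σ := (JS S).ρ)
    ⟨iDiagLin S, fun σ => by
      ext e
      apply Subtype.ext
      funext v g
      show (jS S v).hom ((ERep S).ρ g ((ERep S).ρ σ e)) = (jS S v).hom ((ERep S).ρ (g * σ) e)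
      rw [map_mul, Module.End.mul_apply]⟩

theorem iDiag_apply (S : Finset Nat.Primes) (e : (ERep S).V) (v : ↥S) (g : GQ) :
    ((iDiag S).hom e).1 v g = (jS S v).hom ((ERep S).ρ g e) := rfl

/-- the image of the diagonal is `G_ℚ`-stable -/
theorem range_iDiag_le_comap (S : Finset Nat.Primes) (g : GQ) :
    LinearMap.range (iDiagLin S) ≤ (LinearMap.range (iDiagLin S)).comap ((JS S).ρ g) := by
  rintro _ ⟨e, rfl⟩
  exact ⟨(ERep S).ρ g e, (Rep.hom_comm_apply (iDiag S) g e)⟩

/-- **The class module** `C_S = J_S / E_S`. -/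
def CRep (S : Finset Nat.Primes) : Rep.{0} ℤ GQ :=
  Rep.quotient (JS S) (LinearMap.range (iDiagLin S)) (range_iDiag_le_comap S)

/-- **The projection** `J_S → C_S`. -/
def piC (S : Finset Nat.Primes) : JS S ⟶ CRep S :=
  Rep.mkQ (JS S) (LinearMap.range (iDiagLin S)) (range_iDiag_le_comap S)

theorem piC_apply (S : Finset Nat.Primes) (x : (JS S).V) :
    (piC S).hom x = (Submodule.Quotient.mk x : (JS S).V ⧸ LinearMap.range (iDiagLin S)) := rfl

theorem piC_eq_zero_iff (S : Finset Nat.Primes) (x : (JS S).V) :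
    (piC S).hom x = 0 ↔ ∃ e : (ERep S).V, (iDiag S).hom e = x := by
  show (Submodule.Quotient.mk x : (JS S).V ⧸ LinearMap.range (iDiagLin S)) = 0 ↔ _
  rw [Submodule.Quotient.mk_eq_zero]
  rfl

theorem piC_surjective (S : Finset Nat.Primes) : Function.Surjective (piC S).hom :=
  Submodule.Quotient.mk_surjective _

/-- an element of `C_S` is fixed by a level -/
theorem CRep_discrete (S : Finset Nat.Primes) (c : (CRep S).V) :
    ∃ U ∈ (towerS S).lev, ∀ s ∈ U, (CRep S).ρ s c = c := by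
  obtain ⟨x, rfl⟩ := piC_surjective S c
  -- every component of `x` is level-constant; intersect the levels over the finite set `S`
  have h : ∀ v : ↥S, ∃ U ∈ (towerS S).lev, ∀ g s : GQ, s ∈ U → x.1 v (g * s) = x.1 v g :=
    fun v => (x.2 v).2
  choose U hU hUx using h
  have hfin : ∀ T : Finset ↥S, ∃ W ∈ (towerS S).lev, ∀ v ∈ T, W ≤ U v := by
    intro T
    induction T using Finset.induction_on with
    | empty => exact ⟨⊤, (towerS S).top_mem, by simp⟩
    | insert a T _ ih =>
      obtain ⟨W, hW, hWT⟩ := ih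
      refine ⟨U a ⊓ W, (towerS S).inf_mem _ _ (hU a) hW, fun v hv => ?_⟩
      rcases Finset.mem_insert.1 hv with rfl | hv
      · exact inf_le_left
      · exact inf_le_right.trans (hWT v hv)
  obtain ⟨W, hW, hWU⟩ := hfin Finset.univ
  refine ⟨W, hW, fun s hs => ?_⟩
  have hx : (JS S).ρ s x = x := by
    apply Subtype.ext
    funext v g
    exact hUx v g s (hWU v (Finset.mem_univ v) hs)
  rw [← Rep.hom_comm_apply (piC S) s x, hx]

end Fermat.Agent.PT.B

end


end ZBPT_003_12

/-! ### bundled: `Fermat.Agent.TW.L.FrobExists` -/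
section ZBPT_003_13
/-
TW-L / L-frobex (helper32): `G_{ℚ_q}` contains a Frobenius element.

Main result: `stmtFrobExists_of : StmtDecFull → StmtFrobExists` (statements in `TW/L/Plan.lean`).

Proof: `padicPlace q` lies over `q` (`lfrobex_liesOverPrime`), so it has a global Frobenius element
`σ` (`Common.exists_isFrobeniusAt_of_liesOverPrime`), which lies in the decomposition group and is
therefore the image of a local element (L-dec).
-/

set_option autoImplicit false

namespace Fermat.Agent.TW.L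

open Fermat.Agent.PT Fermat.Agent.PT.B

/-- The place `padicPlace q` of `ℚ̄` lies over `q`. -/
theorem lfrobex_liesOverPrime (q : ℕ) [hq : Fact q.Prime] : (padicPlace q).LiesOverPrime q := by
  have hq0 : ((q : ℕ) : AlgebraicClosure ℚ) ≠ 0 := by exact_mod_cast hq.out.ne_zero
  have hnorm : ‖padicEmbedding q ((q : ℕ) : AlgebraicClosure ℚ)‖ = (q : ℝ)⁻¹ := by
    rw [map_natCast, ← map_natCast (algebraMap ℚ_[q] (PadicAlgCl q)), PadicAlgCl.norm_extends,
      Padic.norm_p]
  have hq1 : (1 : ℝ) < q := by exact_mod_cast hq.out.one_lt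
  change ((q : ℕ) : AlgebraicClosure ℚ) ∈ (padicPlace q).nonunits
  rw [ValuationSubring.mem_nonunits_iff]
  refine lt_of_not_ge (fun h => ?_)
  have h1 : (padicPlace q).valuation (((q : ℕ) : AlgebraicClosure ℚ))⁻¹ ≤ 1 :=
    ((padicPlace q).valuation.one_le_val_iff hq0).mp h
  rw [ValuationSubring.valuation_le_one_iff, mem_padicPlace_iff, map_inv₀] at h1
  have h2 : ‖(padicEmbedding q ((q : ℕ) : AlgebraicClosure ℚ))⁻¹‖ ≤ 1 := by exact_mod_cast h1
  rw [norm_inv, hnorm, inv_inv] at h2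
  linarith

/-- **L-frobex** from L-dec. -/
theorem stmtFrobExists_of (hdec : StmtDecFull) : StmtFrobExists := by
  intro q hq
  obtain ⟨σ, hσ⟩ := Fermat.Agent.Common.exists_isFrobeniusAt_of_liesOverPrime q hq.out
    (padicPlace q) (lfrobex_liesOverPrime q)
  obtain ⟨τ, hτ⟩ := hdec q σ hσ.mem_decompositionSubgroup
  refine ⟨τ, ?_⟩
  change (padicPlace q).IsFrobeniusAt (localGaloisToGlobal q τ) q
  rw [hτ]
  exact hσ

end Fermat.Agent.TW.L


end ZBPT_003_13

/-! ### bundled: `Fermat.Agent.PT.B.Zeta` -/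
section ZBPT_003_14
/-
PT-B, piece B-zeta: the primitive `p`-th root of unity `ζ ∈ E_S` (`p ∈ S`) and the datum axioms
`ζ_ne`, `ζ_tors`, `ζ_gen`, `ζ_char`, `J_tors` for the concrete datum of `Concrete.lean`.
-/

set_option autoImplicit false
set_option linter.style.haveILetI false

noncomputable section

namespace Fermat.Agent.PT.B

open Fermat.Agent.PT CategoryTheory groupCohomology ExtCitation
open scoped Pointwise

variable (p : ℕ) [Fact p.Prime]

/-- a primitive `p`-th root of unity in `ℚ̄` -/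
def zetaQbar : AlgebraicClosure ℚ :=
  haveI : NeZero p := ⟨(Fact.out : p.Prime).ne_zero⟩
  Classical.choose (cycloField_exists_primitiveRoot p)

theorem zetaQbar_spec : IsPrimitiveRoot (zetaQbar p) p :=
  haveI : NeZero p := ⟨(Fact.out : p.Prime).ne_zero⟩
  Classical.choose_spec (cycloField_exists_primitiveRoot p)

/-- `ζ` as a unit of `ℚ̄` -/
def zetaUnit : (AlgebraicClosure ℚ)ˣ :=
  ((zetaQbar_spec p).isUnit (Fact.out : p.Prime).ne_zero).unit

@[simp] theorem coe_zetaUnit : ((zetaUnit p : (AlgebraicClosure ℚ)ˣ) : AlgebraicClosure ℚ) =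
    zetaQbar p := rfl

theorem zetaUnit_pow : zetaUnit p ^ p = 1 :=
  Units.ext (by simpa using (zetaQbar_spec p).pow_eq_one)

theorem zetaUnit_ne_one : zetaUnit p ≠ 1 := fun h =>
  (zetaQbar_spec p).ne_one (Fact.out : p.Prime).one_lt (by simpa using congrArg Units.val h)

/-- an element of finite order is a unit of every valuation subring -/
theorem mem_unitGroup_of_pow_eq_one {K : Type*} [Field K] (A : ValuationSubring K) (x : Kˣ)
    (n : ℕ) (hn : n ≠ 0) (h : x ^ n = 1) : x ∈ A.unitGroup := by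
  rw [ValuationSubring.mem_unitGroup_iff]
  have h1 : (A.valuation (x : K)) ^ n = 1 := by
    rw [← map_pow, ← Units.val_pow_eq_pow_val, h, Units.val_one, map_one]
  exact (pow_eq_one_iff.1 h1).resolve_right hn

theorem zetaUnit_mem (S : Finset Nat.Primes) (hpS : pPrime p ∈ S) : zetaUnit p ∈ unitsS S :=
  ⟨⟨cycloField p, cycloField_isUnramifiedOutside p S hpS,
      IntermediateField.subset_adjoin ℚ _ (zetaQbar_spec p).pow_eq_one⟩,
    fun _ _ A _ => mem_unitGroup_of_pow_eq_one A _ p (Fact.out : p.Prime).ne_zero (zetaUnit_pow p)⟩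

/-- **`ζ ∈ E_S`** (written additively). -/
def zetaE (S : Finset Nat.Primes) (hpS : pPrime p ∈ S) : (ERep S).V :=
  Additive.ofMul (⟨zetaUnit p, zetaUnit_mem p S hpS⟩ : ↥(unitsS S))

variable (S : Finset Nat.Primes) (hpS : pPrime p ∈ S)

theorem zetaE_ne : zetaE p S hpS ≠ 0 := fun h =>
  zetaUnit_ne_one p (congrArg (fun e : Additive ↥(unitsS S) =>
    ((Additive.toMul e : ↥(unitsS S)) : (AlgebraicClosure ℚ)ˣ)) h)

theorem zetaE_tors : p • zetaE p S hpS = 0 :=
  congrArg Additive.ofMul (Subtype.ext (zetaUnit_pow p) :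
    (⟨zetaUnit p, zetaUnit_mem p S hpS⟩ : ↥(unitsS S)) ^ p = 1)

theorem zetaE_gen (e : (ERep S).V) (he : p • e = 0) : ∃ n : ℕ, e = n • zetaE p S hpS := by
  have h1 : ((Additive.toMul (e : Additive ↥(unitsS S)) : ↥(unitsS S)) :
      (AlgebraicClosure ℚ)ˣ) ^ p = 1 :=
    congrArg (fun e : Additive ↥(unitsS S) =>
      ((Additive.toMul e : ↥(unitsS S)) : (AlgebraicClosure ℚ)ˣ)) he
  have h2 : (((Additive.toMul (e : Additive ↥(unitsS S)) : ↥(unitsS S)) :
      (AlgebraicClosure ℚ)ˣ) : AlgebraicClosure ℚ) ^ p = 1 := by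
    rw [← Units.val_pow_eq_pow_val, h1, Units.val_one]
  obtain ⟨n, -, hn⟩ := (zetaQbar_spec p).eq_pow_of_pow_eq_one h2
  refine ⟨n, ?_⟩
  have h3 : (Additive.toMul (e : Additive ↥(unitsS S)) : ↥(unitsS S)) =
      (⟨zetaUnit p, zetaUnit_mem p S hpS⟩ : ↥(unitsS S)) ^ n :=
    Subtype.ext (Units.ext (by simpa using hn.symm))
  exact congrArg Additive.ofMul h3

theorem zetaE_char (g : GQ) :
    (ERep S).ρ g (zetaE p S hpS) = ((cycloChar p g : ZMod p).val) • zetaE p S hpS := by
  haveI : NeZero p := ⟨(Fact.out : p.Prime).ne_zero⟩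
  have hmem : zetaUnit p ∈ rootsOfUnity p (AlgebraicClosure ℚ) :=
    (mem_rootsOfUnity p _).2 (zetaUnit_pow p)
  have key := modularCyclotomicCharacter.spec (AlgebraicClosure ℚ) (card_rootsOfUnity_eq_self p)
    (g : AlgebraicClosure ℚ ≃+* AlgebraicClosure ℚ) hmem
  have h3 : g • (⟨zetaUnit p, zetaUnit_mem p S hpS⟩ : ↥(unitsS S)) =
      (⟨zetaUnit p, zetaUnit_mem p S hpS⟩ : ↥(unitsS S)) ^ ((cycloChar p g : ZMod p).val) :=
    Subtype.ext (Units.ext (by
      have key' : g (zetaQbar p) = zetaQbar p ^ ((cycloChar p g : ZMod p).val) := key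
      simpa using key'))
  exact congrArg Additive.ofMul h3

/-- `J_tors` for `JlocQ`: the `p`-torsion of `ℚ̄_qˣ` is generated by the image of `ζ`. -/
theorem jlocQ_tors (q : ℕ) [Fact q.Prime] (x : (JlocQ q).V) (hx : p • x = 0) :
    ∃ n : ℕ, x = n • (jLocQ S q).hom (zetaE p S hpS) := by
  have hprim : IsPrimitiveRoot (padicEmbedding q (zetaQbar p)) p :=
    (zetaQbar_spec p).map_of_injective (padicEmbedding q).injective
  have h1 : (Additive.toMul (x : Additive (PadicAlgCl q)ˣ) : (PadicAlgCl q)ˣ) ^ p = 1 :=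
    congrArg (fun e : Additive (PadicAlgCl q)ˣ => Additive.toMul e) hx
  have h2 : ((Additive.toMul (x : Additive (PadicAlgCl q)ˣ) : (PadicAlgCl q)ˣ) :
      PadicAlgCl q) ^ p = 1 := by
    rw [← Units.val_pow_eq_pow_val, h1, Units.val_one]
  obtain ⟨n, -, hn⟩ := hprim.eq_pow_of_pow_eq_one h2
  refine ⟨n, ?_⟩
  have h3 : (Additive.toMul (x : Additive (PadicAlgCl q)ˣ) : (PadicAlgCl q)ˣ) =
      (jUnits q (zetaUnit p)) ^ n :=
    Units.ext (by simpa using hn.symm)
  exact congrArg Additive.ofMul h3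

end Fermat.Agent.PT.B

end


end ZBPT_003_14

/-! ### bundled: `Fermat.Agent.PT.B.KernelField` -/
section ZBPT_003_15
/-
PT-B piece B-ker: a finite-dimensional smooth representation of `G_ℚ`, unramified outside `S`,
is trivial on `Gal(ℚ̄/L)` for a finite Galois `L/ℚ` unramified outside `S`.

* `exists_finite_field_acting_trivially` : smooth + finite-dimensional ⇒ trivial on some `G_F`;
* `isTowerField_fixedField_of_normal`    : the fixed field of a normal subgroup `N ⊇ G_F`
  (`F` finite) containing all inertia groups outside `S` is a tower field with `G_L = N`;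
* `stmtKernelField : StmtKernelField`.
-/

set_option autoImplicit false
set_option linter.style.haveILetI false

namespace Fermat.Agent.PT.B

open CategoryTheory

/-- The fixed field of a normal subgroup `N` of `G_ℚ` which contains `G_F` for a finite `F/ℚ`
and all inertia groups outside `S` is a tower field, and `Gal(ℚ̄/L) = N`. -/
theorem isTowerField_fixedField_of_normal (S : Finset Nat.Primes) (N : Subgroup GQ) [N.Normal]
    (F : QbarField) (hF : FiniteDimensional ℚ F) (hFN : F.fixingSubgroup ≤ N)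
    (hI : ∀ q : Nat.Primes, q ∉ S → ∀ A : ValuationSubring (AlgebraicClosure ℚ),
      A.LiesOverPrime (q : ℕ) → A.inertiaSubgroupIn ℚ ≤ N) :
    IsTowerField S (IntermediateField.fixedField N) ∧
      (IntermediateField.fixedField N).fixingSubgroup = N := by
  haveI : IsAlgClosure ℚ (AlgebraicClosure ℚ) :=
    ⟨inferInstance, AlgebraicClosure.isAlgebraic ℚ⟩
  haveI : IsGalois ℚ (AlgebraicClosure ℚ) := inferInstance
  have hopenF : IsOpen (F.fixingSubgroup : Set GQ) := F.fixingSubgroup_isOpen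
  have hopen : IsOpen (N : Set GQ) := Subgroup.isOpen_mono hFN hopenF
  have hclosed : IsClosed (N : Set GQ) := Subgroup.isClosed_of_isOpen N hopen
  have hfix : (IntermediateField.fixedField N).fixingSubgroup = N :=
    InfiniteGalois.fixingSubgroup_fixedField ⟨N, hclosed⟩
  refine ⟨⟨⟨?_, fun q hq A hA => ?_⟩, ?_⟩, hfix⟩
  · -- finite: `L ≤ F`
    have hle : IntermediateField.fixedField N ≤ F := by
      rw [← InfiniteGalois.fixedField_fixingSubgroup F]
      exact IntermediateField.fixedField_antitone hFN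
    exact FiniteDimensional.of_injective (IntermediateField.inclusion hle).toLinearMap
      (IntermediateField.inclusion_injective hle)
  · rw [hfix]
    exact hI q hq A hA
  · have hn : (IntermediateField.fixedField N).fixingSubgroup.Normal := by
      rw [hfix]; infer_instance
    exact (InfiniteGalois.normal_iff_isGalois _).1 hn

/-- A finite-dimensional smooth representation is trivial on `Gal(ℚ̄/F)` for a finite `F/ℚ`. -/
theorem exists_finite_field_acting_trivially (k : Type) [Field k] (M : Rep.{0, 0, 0} k GQ)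
    [FiniteDimensional k M]
    (hsm : ∀ m : M, ∃ F : QbarField, FiniteDimensional ℚ F ∧
      ∀ s ∈ F.fixingSubgroup, M.ρ s m = m) :
    ∃ F : QbarField, FiniteDimensional ℚ F ∧ ∀ s ∈ F.fixingSubgroup, M.ρ s = 1 := by
  classical
  let b := Module.finBasis k M
  choose Fi hFi using fun i => hsm (b i)
  refine ⟨⨆ i, Fi i, ?_, fun s hs => ?_⟩
  · haveI : ∀ i, FiniteDimensional ℚ (Fi i) := fun i => (hFi i).1
    exact IntermediateField.finiteDimensional_iSup_of_finite
  · apply b.ext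
    intro i
    have : s ∈ (Fi i).fixingSubgroup :=
      IntermediateField.fixingSubgroup_antitone (le_iSup Fi i) hs
    rw [(hFi i).2 s this]
    rfl

/-- **B-ker**. -/
theorem stmtKernelField : StmtKernelField := by
  intro k _ S M _ hsm hMur
  obtain ⟨F, hF, hFtriv⟩ := exists_finite_field_acting_trivially k M hsm
  -- the kernel of `ρ`
  let N : Subgroup GQ :=
    { carrier := {g | M.ρ g = 1}
      one_mem' := map_one _
      mul_mem' := fun {a b} ha hb => by
        show M.ρ (a * b) = 1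
        rw [map_mul, (ha : M.ρ a = 1), (hb : M.ρ b = 1), one_mul]
      inv_mem' := fun {a} ha => by
        show M.ρ a⁻¹ = 1
        have h1 : M.ρ a⁻¹ * M.ρ a = 1 := by rw [← map_mul, inv_mul_cancel, map_one]
        rw [(ha : M.ρ a = 1), mul_one] at h1
        exact h1 }
  haveI : N.Normal := ⟨fun n hn g => by
    show M.ρ (g * n * g⁻¹) = 1
    rw [map_mul, map_mul, (hn : M.ρ n = 1), mul_one, ← map_mul, mul_inv_cancel, map_one]⟩
  obtain ⟨hT, hfix⟩ := isTowerField_fixedField_of_normal S N F hF (fun s hs => hFtriv s hs)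
    (fun q hq A hA g hg => hMur q hq A hA g hg)
  refine ⟨IntermediateField.fixedField N, hT, fun s hs => ?_⟩
  rw [hfix] at hs
  exact hs

end Fermat.Agent.PT.B


end ZBPT_003_15

/-! ### bundled: `Fermat.Agent.PT.B.Mirror` -/
section ZBPT_003_16
/-
PT-B piece B-mirror (helper72): S55 follows from the abstract Poitou–Tate theorem `StmtPTF`
and ANY concrete datum.

* `mirror_levH1`    : `levH1 (towerS S) A = continuousH1S S A`;
* `mirror_shaOne`   : `D.shaOne A = sha₁ S A` for a concrete datum (`p` odd);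
* `mirror_shaTwo`   : a linear bijection `continuousH2S S M → levH2 𝒯 M` matching `sha₂` with
                      the abstract `Ш²`;
* `stmtMirror : StmtMirror`.
-/

set_option autoImplicit false

namespace Fermat.Agent.PT.B

open Fermat.Agent.PT CategoryTheory groupCohomology ExtCitation

section ShaOne

variable {p : ℕ} [Fact p.Prime] (S : Finset Nat.Primes)

theorem mirror_levH1 {k : Type} [CommRing k] (A : Rep.{0} k GQ) :
    levH1 (towerS S) A = continuousH1S S A := by
  ext x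
  rw [mem_levH1_iff, mem_continuousH1S_iff]
  constructor
  · rintro ⟨c, hc, rfl⟩
    exact ⟨c, (isLevel₁_towerS_iff S _).1 hc, rfl⟩
  · rintro ⟨c, hc, rfl⟩
    exact ⟨c, (isLevel₁_towerS_iff S _).2 hc, rfl⟩

theorem mirror_ker_locTotal_congr {k : Type} [Field k] {G : Type} [Group G] {ι : Type}
    {Gloc : ι → Type} [∀ v, Group (Gloc v)] (r r' : ∀ v, Gloc v →* G) (h : ∀ v, r v = r' v)
    (A : Rep.{0} k G) :
    LinearMap.ker (locTotal r A) = LinearMap.ker (locTotal r' A) := by
  obtain rfl : r = r' := funext h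
  rfl

theorem mirror_shaOne (hp2 : p ≠ 2) (D : PTDatum p GQ ↥S (GlocS S)) (hD : IsConcreteDatum p S D)
    (A : Rep.{0} (ZMod p) GQ) : D.shaOne A = sha₁ S A := by
  ext x
  rw [mem_sha₁_iff S hp2, PTDatum.shaOne, Submodule.mem_inf, hD.tower, mirror_levH1,
    mirror_ker_locTotal_congr D.r (fun q : ↥S => primeLocalToGlobal q.1) hD.r, LinearMap.mem_ker]
  refine and_congr_right fun _ => ?_
  constructor
  · intro h q
    exact congrFun h q
  · intro h
    funext q
    exact h q

end ShaOne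

section ShaTwo

variable (S : Finset Nat.Primes) {k : Type} [Field k] (M : Rep.{0} k GQ)

theorem mirror_levCocycles₂ : levCocycles₂ (towerS S) M = levelCocyclesS₂ S M := by
  ext f
  rw [mem_levCocycles₂_iff, mem_levelCocyclesS₂_iff, isLevel₂_towerS_iff]

theorem mirror_levCoboundaries₂ : levCoboundaries₂ (towerS S) M = levelCoboundariesS₂ S M := by
  ext f
  rw [mem_levCoboundaries₂_iff, mem_levelCoboundariesS₂_iff]
  simp only [isLevel₁_towerS_iff]

/-- The identity on cocycles, from the prelude's level cocycles to the abstract ones. -/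
noncomputable def mirrorCocycles : ↥(levelCocyclesS₂ S M) →ₗ[k] ↥(levCocycles₂ (towerS S) M) :=
  Submodule.inclusion (le_of_eq (mirror_levCocycles₂ S M).symm)

/-- The identity on cohomology, from the prelude's `continuousH2S` to the abstract `levH2`. -/
noncomputable def mirrorH2 : continuousH2S S M →ₗ[k] levH2 (towerS S) M :=
  Submodule.mapQ _ _ (mirrorCocycles S M) (fun c hc => by
    simp only [Submodule.mem_comap, Submodule.subtype_apply] at hc ⊢
    rw [mirror_levCoboundaries₂]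
    exact hc)

theorem mirrorH2_mk (c : ↥(levelCocyclesS₂ S M)) :
    mirrorH2 S M (Submodule.Quotient.mk c) = Submodule.Quotient.mk (mirrorCocycles S M c) :=
  rfl

theorem mirrorH2_bijective : Function.Bijective (mirrorH2 S M) := by
  constructor
  · rw [← LinearMap.ker_eq_bot, LinearMap.ker_eq_bot']
    intro x hx
    obtain ⟨c, rfl⟩ := Submodule.Quotient.mk_surjective _ x
    rw [mirrorH2_mk, Submodule.Quotient.mk_eq_zero, Submodule.mem_comap] at hx
    rw [Submodule.Quotient.mk_eq_zero, Submodule.mem_comap]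
    rw [mirror_levCoboundaries₂] at hx
    exact hx
  · intro y
    obtain ⟨c, rfl⟩ := Submodule.Quotient.mk_surjective _ y
    exact ⟨Submodule.Quotient.mk ⟨c.1, by rw [← mirror_levCocycles₂]; exact c.2⟩, rfl⟩

theorem mirror_comap_mem (q : Nat.Primes) (U : Subgroup GQ) (hU : U ∈ (towerS S).lev) :
    U.comap (primeLocalToGlobal q) ∈ (towerLocP q).lev :=
  letI : Fact (q : ℕ).Prime := ⟨q.2⟩
  comap_mem_towerLoc S (q : ℕ) U hU

theorem mirror_isLevel₁_towerLocP (q : Nat.Primes) {X : Type*}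
    (f : primeLocalGaloisGroup q → X) :
    IsLevel₁ (towerLocP q) f ↔ IsLevelConstant₁ (primeLocalToGlobal q) f :=
  letI : Fact (q : ℕ).Prime := ⟨q.2⟩
  isLevel₁_towerLoc_iff (q : ℕ) f

theorem mirror_levCoboundaries₂_loc (q : Nat.Primes) (N : Rep.{0} k (primeLocalGaloisGroup q)) :
    levCoboundaries₂ (towerLocP q) N = levelCoboundaries₂ (primeLocalToGlobal q) N := by
  ext f
  rw [mem_levCoboundaries₂_iff, mem_levelCoboundaries₂_iff]
  simp only [mirror_isLevel₁_towerLocP]

/-- The local restriction maps agree. -/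
theorem mirror_loc_iff (q : ↥S)
    (hc : ∀ U ∈ (towerS S).lev, U.comap (primeLocalToGlobal q.1) ∈ (towerLocP q.1).lev)
    (x : continuousH2S S M) :
    locTotal₂S S M x (Sum.inr q) = 0 ↔
      levH2Res (towerS S) (towerLocP q.1) (primeLocalToGlobal q.1) hc M (mirrorH2 S M x) = 0 := by
  obtain ⟨c, rfl⟩ := Submodule.Quotient.mk_surjective _ x
  rw [mirrorH2_mk]
  refine Iff.trans (b := cochainsPullPush₂ (primeLocalToGlobal q.1)
      (LinearMap.id : M →ₗ[k] Rep.res (primeLocalToGlobal q.1) M) c.1 ∈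
      levelCoboundaries₂ (primeLocalToGlobal q.1) (Rep.res (primeLocalToGlobal q.1) M)) ?_ ?_
  · exact continuousH2π_eq_zero_iff (primeLocalToGlobal q.1) (Rep.res (primeLocalToGlobal q.1) M)
      ⟨cochainsPullPush₂ (primeLocalToGlobal q.1)
          (LinearMap.id : M →ₗ[k] Rep.res (primeLocalToGlobal q.1) M) c.1,
        cochainsPullPush₂_mem_levelCocycles₂ (rH := MonoidHom.id _) (primeLocalToGlobal q.1)
          (fun _ => rfl) _ (fun _ _ => rfl) (levelCocyclesS₂_le_levelCocycles₂ S M c.2)⟩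
  · rw [← mirror_levCoboundaries₂_loc]
    exact (levH2π_eq_zero_iff (towerLocP q.1) (Rep.res (primeLocalToGlobal q.1) M)
      (levCocycles₂Res (towerS S) (towerLocP q.1) (primeLocalToGlobal q.1) hc M
        (mirrorCocycles S M c))).symm

end ShaTwo

section Main

variable {p : ℕ} [Fact p.Prime] (S : Finset Nat.Primes)

theorem mirror_transport {G : Type} [Group G] {k : Type} [Field k] (M : Rep.{0} k G)
    {χ χ' : G →* kˣ} (h : χ = χ') (P : Rep.{0} k G → Prop) (hP : P (M.dualTwist χ)) :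
    P (M.dualTwist χ') := h ▸ hP

theorem mirror_shaTwo_gen (hp2 : p ≠ 2) (M : Rep.{0} (ZMod p) GQ) (𝒯 : Tower GQ)
    (r : ∀ q : ↥S, GlocS S q →* GQ) (𝒯loc : ∀ q : ↥S, Tower (GlocS S q))
    (hc : ∀ v, ∀ U ∈ 𝒯.lev, U.comap (r v) ∈ (𝒯loc v).lev)
    (h𝒯 : 𝒯 = towerS S) (hr : ∀ q, r q = primeLocalToGlobal q.1)
    (hloc : ∀ q, 𝒯loc q = towerLocP q.1) :
    ∃ e : continuousH2S S M →ₗ[ZMod p] levH2 𝒯 M, Function.Bijective e ∧
      ∀ x, x ∈ sha₂ S M ↔
        e x ∈ LinearMap.ker
          (LinearMap.pi fun v => levH2Res 𝒯 (𝒯loc v) (r v) (hc v) M) := by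
  subst h𝒯
  obtain rfl : r = fun q : ↥S => primeLocalToGlobal q.1 := funext hr
  obtain rfl : 𝒯loc = fun q : ↥S => towerLocP q.1 := funext hloc
  refine ⟨mirrorH2 S M, mirrorH2_bijective S M, fun x => ?_⟩
  rw [mem_sha₂_iff S hp2, LinearMap.mem_ker]
  constructor
  · intro h
    funext q
    exact (mirror_loc_iff S M q _ x).1 (h q)
  · intro h q
    exact (mirror_loc_iff S M q _ x).2 (congrFun h q)

end Main

/-- **B-mirror**: S55 from the abstract Poitou–Tate theorem and a concrete datum. -/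
theorem stmtMirror : StmtMirror := by
  intro hPTF p _ hp2 S hpS D hD M _ hsm hMur
  obtain ⟨L, hL, hLM⟩ := stmtKernelField (ZMod p) S M hsm hMur
  have hlev : ∃ U ∈ D.𝒯.lev, ∀ s ∈ U, M.ρ s = 1 := by
    rw [hD.tower]
    exact ⟨L.fixingSubgroup, ⟨L, hL.1, rfl⟩, hLM⟩
  obtain ⟨B₀, hB1, hB2⟩ := mirror_transport M hD.χ
    (fun A => ∃ B : D.shaOne A →ₗ[ZMod p] D.shaTwo M →ₗ[ZMod p] ZMod p,
      (∀ y, (∀ x, B y x = 0) → y = 0) ∧ (∀ x, (∀ y, B y x = 0) → x = 0))
    (hPTF p GQ ↥S (GlocS S) D M hlev)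
  obtain ⟨e, he, hsha⟩ :=
    mirror_shaTwo_gen S hp2 M D.𝒯 D.r D.𝒯loc D.comap_mem hD.tower hD.r hD.towerLoc
  have h1 := mirror_shaOne S hp2 D hD (M.dualTwist (cycloChar p))
  refine ⟨B₀.compl₁₂ (Submodule.inclusion (le_of_eq h1.symm))
    (e.restrict (p := sha₂ S M) (q := D.shaTwo M) (fun x hx => (hsha x).1 hx)), ?_, ?_⟩
  · intro y hy
    have hy0 : Submodule.inclusion (le_of_eq h1.symm) y = 0 := by
      refine hB1 _ fun x' => ?_
      obtain ⟨x, hx⟩ := he.2 x'.1
      have hxs : x ∈ sha₂ S M := (hsha x).2 (by rw [hx]; exact x'.2)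
      have := hy ⟨x, hxs⟩
      rw [LinearMap.compl₁₂_apply] at this
      have hx' : e.restrict (p := sha₂ S M) (q := D.shaTwo M) (fun x hx => (hsha x).1 hx)
          ⟨x, hxs⟩ = x' := Subtype.ext hx
      rwa [hx'] at this
    exact Submodule.inclusion_injective _ (by rw [hy0, map_zero])
  · intro x hx
    have hx0 : e.restrict (p := sha₂ S M) (q := D.shaTwo M) (fun x hx => (hsha x).1 hx) x = 0 := by
      refine hB2 _ fun y' => ?_
      have hy's : (y' : H1 (M.dualTwist (cycloChar p))) ∈ sha₁ S (M.dualTwist (cycloChar p)) := by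
        rw [← h1]; exact y'.2
      have := hx ⟨y'.1, hy's⟩
      rw [LinearMap.compl₁₂_apply] at this
      exact this
    have : e x.1 = 0 := congrArg Subtype.val hx0
    exact Subtype.ext (he.1 (this.trans (map_zero e).symm))

end Fermat.Agent.PT.B


end ZBPT_003_16

/-! ### bundled: `Fermat.Agent.TW.L.GlobAdTwist` -/
section ZBPT_003_17
/-
TW-L piece L-glob1 (helper87): `h⁰(G_ℚ, ad⁰(±1)) = 0`.

`stmtGlobAdTwist : StmtGlobAdTwist`: an endomorphism `X` of `ρ̄` with
`ρ̄(σ) X = χ̄(σ)^e X ρ̄(σ)` (`e = ±1`) vanishes, if `ρ̄` is absolutely irreducible on `G_ℚ` and on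
every subgroup of index `2`.

Proof.  Over `K = k̄`: `ker X_K` is `G_ℚ`-stable, so `X_K` is injective if `X ≠ 0`; determinants give
`χ̄(σ)^2 = 1` for all `σ`; there is `σ₂` with `χ̄(σ₂) = 2` (irreducibility of the cyclotomic
polynomial), so `4 = 1` in `𝔽_p`, `p = 3`.  For `p = 3` the kernel of `χ̄` has index `2` and `X_K`
commutes with it; an eigenspace of `X_K` is stable, so `X_K = λ` is scalar, and the relation at
`σ₂` (`χ̄(σ₂) = -1`) gives `2 λ = 0`.
-/

set_option autoImplicit false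
set_option linter.style.haveILetI false

noncomputable section

namespace Fermat.Agent.TW.L

open Polynomial ExtCitation

/-- `ℚ̄ / ℚ` is normal (for the instance of `Algebra ℚ ℚ̄` found by unification). -/
theorem lglob1_qbar_normal : Normal ℚ (AlgebraicClosure ℚ) := by
  have h1 : @Normal ℚ (AlgebraicClosure ℚ) _ _ (AlgebraicClosure.instAlgebra ℚ) := inferInstance
  convert h1
  exact Subsingleton.elim _ _

/-- There is `σ ∈ G_ℚ` with `χ̄(σ) = 2` (for odd `p`). -/
theorem lglob1_exists_cycloChar_eq_two (p : ℕ) [Fact p.Prime] (hp2 : p ≠ 2) :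
    ∃ σ : AlgebraicClosure ℚ ≃ₐ[ℚ] AlgebraicClosure ℚ,
      ((cycloChar p σ : (ZMod p)ˣ) : ZMod p) = 2 := by
  have hp : p.Prime := Fact.out
  haveI : NeZero p := ⟨hp.ne_zero⟩
  haveI : NeZero (p : AlgebraicClosure ℚ) := ⟨Nat.cast_ne_zero.mpr hp.ne_zero⟩
  obtain ⟨ζ, hζ⟩ := HasEnoughRootsOfUnity.exists_primitiveRoot (AlgebraicClosure ℚ) p
  have h2p : 2 < p := lt_of_le_of_ne hp.two_le (Ne.symm hp2)
  have hcop : Nat.Coprime 2 p := by
    rw [Nat.coprime_comm]
    exact (Nat.coprime_primes hp Nat.prime_two).mpr hp2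
  have hζ2 : IsPrimitiveRoot (ζ ^ 2) p := hζ.pow_of_coprime 2 hcop
  have hmin : minpoly ℚ ζ = cyclotomic p ℚ := (cyclotomic_eq_minpoly_rat hζ hp.pos).symm
  have hroot : Polynomial.aeval (ζ ^ 2) (minpoly ℚ ζ) = 0 := by
    rw [hmin]
    have := hζ2.isRoot_cyclotomic hp.pos
    rw [← map_cyclotomic p (algebraMap ℚ (AlgebraicClosure ℚ))] at this
    simpa [aeval_def, eval₂_eq_eval_map, IsRoot.def] using this
  haveI := lglob1_qbar_normal
  have halg : IsAlgebraic ℚ ζ := (lglob1_qbar_normal.isAlgebraic ζ)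
  obtain ⟨σ, hσ⟩ := minpoly.exists_algEquiv_of_root' halg hroot
  refine ⟨σ, ?_⟩
  have hspec := modularCyclotomicCharacter.spec (AlgebraicClosure ℚ) (card_rootsOfUnity_eq_self p)
    (σ : AlgebraicClosure ℚ ≃+* AlgebraicClosure ℚ)
    (t := hζ.toRootsOfUnity) (SetLike.coe_mem hζ.toRootsOfUnity)
  have hspec' : σ ζ = ζ ^ ((cycloChar p σ : (ZMod p)ˣ) : ZMod p).val := by
    simpa [cycloChar] using hspec
  rw [hσ] at hspec'
  have hv := hζ.pow_inj h2p (ZMod.val_lt _) hspec'
  have e : ((cycloChar p σ : (ZMod p)ˣ) : ZMod p)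
      = ((((cycloChar p σ : (ZMod p)ˣ) : ZMod p).val : ℕ) : ZMod p) :=
    (ZMod.natCast_zmod_val _).symm
  rw [e, ← hv]
  simp

/-- Base change of endomorphisms to a field extension is injective. -/
theorem lglob1_eq_zero_of_baseChange {k : Type} [Field k] (K : Type) [Field K] [Algebra k K]
    {V : Type} [AddCommGroup V] [Module k V] (X : Module.End k V)
    (h : X.baseChange K = 0) : X = 0 := by
  have hinj := LinearMap.baseChangeHom_injective (R := k) (S := K) (M := V) (N := V)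
  apply hinj
  rw [map_zero]
  exact h

/-- The abstract core: `K` algebraically closed, `dim V = 2`, `ρ : G → End V` a monoid
homomorphism from a group, `c : G → K` with `ρ σ X = c σ • X ρ σ`; if `ρ` is irreducible and
`X ≠ 0` then `c σ ^ 2 = 1` for all `σ`. -/
theorem lglob1_sq_eq_one {K : Type} [Field K] {V : Type} [AddCommGroup V] [Module K V]
    [Module.Finite K V] (hV : Module.finrank K V = 2) {G : Type} [Group G]
    (ρ : G →* Module.End K V) (c : G → K) (hc : ∀ σ, c σ ≠ 0) (X : Module.End K V)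
    (hrel : ∀ σ, ρ σ * X = c σ • (X * ρ σ))
    (hirr : ∀ W : Submodule K V, (∀ σ, ∀ x ∈ W, ρ σ x ∈ W) → W = ⊥ ∨ W = ⊤)
    (hX : X ≠ 0) (σ : G) : c σ ^ 2 = 1 := by
  -- the kernel of `X` is stable
  have hker : ∀ τ, ∀ x ∈ LinearMap.ker X, ρ τ x ∈ LinearMap.ker X := by
    intro τ x hx
    rw [LinearMap.mem_ker] at hx ⊢
    have h1 := LinearMap.congr_fun (hrel τ) x
    simp only [Module.End.mul_apply, LinearMap.smul_apply] at h1
    rw [hx, map_zero] at h1
    rcases smul_eq_zero.mp h1.symm with h2 | h2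
    · exact absurd h2 (hc τ)
    · exact h2
  have hbot : LinearMap.ker X = ⊥ := by
    rcases hirr _ hker with h | h
    · exact h
    · exact absurd (LinearMap.ker_eq_top.mp h) hX
  have hdetX : LinearMap.det X ≠ 0 := by
    intro h0
    have := LinearMap.bot_lt_ker_of_det_eq_zero h0
    rw [hbot] at this
    exact lt_irrefl _ this
  have hdetρ : LinearMap.det (ρ σ) ≠ 0 := by
    intro h0
    have h1 : ρ σ * ρ σ⁻¹ = 1 := by rw [← map_mul, mul_inv_cancel, map_one]
    have h2 := congrArg LinearMap.det h1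
    rw [map_mul, h0, zero_mul, map_one] at h2
    exact zero_ne_one h2
  have h3 := congrArg LinearMap.det (hrel σ)
  rw [LinearMap.det_smul, map_mul, map_mul, hV] at h3
  have h4 : LinearMap.det (ρ σ) * LinearMap.det X * 1
      = LinearMap.det (ρ σ) * LinearMap.det X * c σ ^ 2 := by
    rw [mul_one]
    calc LinearMap.det (ρ σ) * LinearMap.det X
        = c σ ^ 2 * (LinearMap.det X * LinearMap.det (ρ σ)) := h3
      _ = LinearMap.det (ρ σ) * LinearMap.det X * c σ ^ 2 := by ring
  exact (mul_left_cancel₀ (mul_ne_zero hdetρ hdetX) h4).symm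

/-- The abstract core for the index-two step: `X` commutes with `ρ` on `H`, every `H`-stable
subspace is trivial, and `ρ σ₀ X = - X ρ σ₀` for some `σ₀`; then `X = 0` (`2 ≠ 0`). -/
theorem lglob1_eq_zero_of_commute {K : Type} [Field K] [IsAlgClosed K] {V : Type}
    [AddCommGroup V] [Module K V] [Module.Finite K V] (hV : Module.finrank K V = 2)
    {G : Type} [Group G] (ρ : G →* Module.End K V) (H : Subgroup G) (X : Module.End K V)
    (hcomm : ∀ σ ∈ H, ρ σ * X = X * ρ σ)
    (hirr : ∀ W : Submodule K V, (∀ σ ∈ H, ∀ x ∈ W, ρ σ x ∈ W) → W = ⊥ ∨ W = ⊤)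
    (h2 : (2 : K) ≠ 0) (σ₀ : G) (hanti : ρ σ₀ * X = (-1 : K) • (X * ρ σ₀)) : X = 0 := by
  haveI : Nontrivial V := Module.nontrivial_of_finrank_pos (R := K) (by rw [hV]; norm_num)
  obtain ⟨μ, hμ⟩ := Module.End.exists_eigenvalue X
  have hstab : ∀ σ ∈ H, ∀ x ∈ Module.End.eigenspace X μ, ρ σ x ∈ Module.End.eigenspace X μ := by
    intro σ hσ x hx
    rw [Module.End.mem_eigenspace_iff] at hx ⊢
    have h1 := LinearMap.congr_fun (hcomm σ hσ) x
    simp only [Module.End.mul_apply] at h1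
    rw [← h1, hx, map_smul]
  have htop : Module.End.eigenspace X μ = ⊤ := by
    rcases hirr _ hstab with h | h
    · exact absurd h hμ
    · exact h
  have hXμ : ∀ x, X x = μ • x := fun x =>
    Module.End.mem_eigenspace_iff.mp (htop ▸ Submodule.mem_top)
  obtain ⟨x, hx⟩ := exists_ne (0 : V)
  have hρx : ρ σ₀ x ≠ 0 := by
    intro h0
    have h1 : ρ σ₀⁻¹ * ρ σ₀ = 1 := by rw [← map_mul, inv_mul_cancel, map_one]
    have h2 := LinearMap.congr_fun h1 x
    simp only [Module.End.mul_apply, Module.End.one_apply] at h2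
    rw [h0, map_zero] at h2
    exact hx h2.symm
  have h1 := LinearMap.congr_fun hanti x
  simp only [Module.End.mul_apply, LinearMap.smul_apply] at h1
  rw [hXμ, hXμ, map_smul] at h1
  have h3 : (2 * μ) • ρ σ₀ x = 0 := by
    have : (2 * μ) • ρ σ₀ x = μ • ρ σ₀ x - (-1 : K) • μ • ρ σ₀ x := by
      rw [neg_one_smul, sub_neg_eq_add, two_mul, add_smul]
    rw [this, ← h1, sub_self]
  have hμ0 : μ = 0 := by
    rcases smul_eq_zero.mp h3 with h | h
    · rcases mul_eq_zero.mp h with h | h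
      · exact absurd h h2
      · exact h
    · exact absurd h hρx
  ext y
  rw [hXμ, hμ0, zero_smul, LinearMap.zero_apply]

/-- For `p = 3` the kernel of the mod `p` cyclotomic character has index `2`. -/
theorem lglob1_index_ker (p : ℕ) [Fact p.Prime] (hp3 : p = 3) :
    (cycloChar p).ker.index = 2 := by
  have hp2 : p ≠ 2 := by omega
  obtain ⟨σ₂, hσ₂⟩ := lglob1_exists_cycloChar_eq_two p hp2
  rw [Subgroup.index_ker]
  have hcard : Nat.card (ZMod p)ˣ = 2 := by
    rw [Nat.card_eq_fintype_card, ZMod.card_units p, hp3]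
  have hdvd : Nat.card (cycloChar p).range ∣ 2 := by
    rw [← hcard]
    exact Subgroup.card_subgroup_dvd_card _
  have hne : Nat.card (cycloChar p).range ≠ 1 := by
    intro h1
    have hbot : (cycloChar p).range = ⊥ := Subgroup.card_eq_one.mp h1
    have hmem : cycloChar p σ₂ ∈ (cycloChar p).range := ⟨σ₂, rfl⟩
    rw [hbot, Subgroup.mem_bot] at hmem
    rw [hmem, Units.val_one] at hσ₂
    -- `1 = 2` in `ZMod p`
    have h3 : ((1 : ℕ) : ZMod p) = 0 := by
      have : (2 : ZMod p) - 1 = 0 := by rw [← hσ₂]; ring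
      have h4 : (2 : ZMod p) - 1 = ((1 : ℕ) : ZMod p) := by push_cast; ring
      rw [← h4, this]
    rw [ZMod.natCast_eq_zero_iff] at h3
    have := Nat.le_of_dvd Nat.one_pos h3
    omega
  rcases (Nat.dvd_prime Nat.prime_two).mp hdvd with h | h
  · exact absurd h hne
  · exact h

/-- **L-glob1**. -/
theorem stmtGlobAdTwist : StmtGlobAdTwist := by
  intro p _ hp2 k _ _ ρbar habs hTW e he X hX
  by_contra hX0
  have hp : p.Prime := Fact.out
  -- the twisting scalars
  have hinj : Function.Injective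
      (fun a : ZMod p => algebraMap k (AlgebraicClosure k) (algebraMap (ZMod p) k a)) :=
    (algebraMap k (AlgebraicClosure k)).injective.comp (algebraMap (ZMod p) k).injective
  have hrel : ∀ σ, (ρbar.baseChange (AlgebraicClosure k)).ρ σ * X.baseChange (AlgebraicClosure k)
      = algebraMap k (AlgebraicClosure k)
          (algebraMap (ZMod p) k (((cycloChar p σ) ^ e : (ZMod p)ˣ) : ZMod p)) •
        (X.baseChange (AlgebraicClosure k) * (ρbar.baseChange (AlgebraicClosure k)).ρ σ) := by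
    intro σ
    have h1 := congrArg (LinearMap.baseChange (AlgebraicClosure k)) (hX σ)
    rw [LinearMap.baseChange_mul, LinearMap.baseChange_smul, LinearMap.baseChange_mul] at h1
    rw [algebraMap_smul]
    exact h1
  have hc : ∀ σ, algebraMap k (AlgebraicClosure k)
      (algebraMap (ZMod p) k (((cycloChar p σ) ^ e : (ZMod p)ˣ) : ZMod p)) ≠ 0 := by
    intro σ h0
    have h1 : (((cycloChar p σ) ^ e : (ZMod p)ˣ) : ZMod p) = 0 := by
      apply hinj
      simpa using h0
    exact (Units.ne_zero _) h1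
  have hXK : X.baseChange (AlgebraicClosure k) ≠ 0 :=
    fun h => hX0 (lglob1_eq_zero_of_baseChange (AlgebraicClosure k) X h)
  have hsq := lglob1_sq_eq_one (ρbar.baseChange (AlgebraicClosure k)).finrank_eq
    (ρbar.baseChange (AlgebraicClosure k)).ρ _ hc _ hrel habs hXK
  -- an element with `χ̄ = 2`
  obtain ⟨σ₂, hσ₂⟩ := lglob1_exists_cycloChar_eq_two p hp2
  have hu : ((cycloChar p σ₂) ^ e) ^ 2 = 1 := by
    apply Units.ext
    apply hinj
    have := hsq σ₂
    simpa using this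
  have hu' : (cycloChar p σ₂) ^ 2 = 1 := by
    rcases he with rfl | rfl
    · simpa using hu
    · have h1 : ((cycloChar p σ₂) ^ 2)⁻¹ = 1 := by
        rw [← hu, zpow_neg_one, inv_pow]
      exact inv_eq_one.mp h1
  have h4 : (2 : ZMod p) ^ 2 = 1 := by
    have := congrArg (fun u : (ZMod p)ˣ => (u : ZMod p)) hu'
    simpa [hσ₂] using this
  have h3 : ((3 : ℕ) : ZMod p) = 0 := by
    have : ((3 : ℕ) : ZMod p) = 2 ^ 2 - 1 := by push_cast; ring
    rw [this, h4, sub_self]
  have hp3 : p = 3 := by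
    rw [ZMod.natCast_eq_zero_iff] at h3
    exact (Nat.prime_dvd_prime_iff_eq hp Nat.prime_three).mp h3
  -- the index-two step
  have hidx := lglob1_index_ker p hp3
  have hneg : cycloChar p σ₂ = -1 := by
    apply Units.ext
    rw [hσ₂, Units.val_neg, Units.val_one]
    have : (2 : ZMod p) - (-1) = ((3 : ℕ) : ZMod p) := by push_cast; ring
    rw [h3] at this
    exact sub_eq_zero.mp this
  have hneg' : (cycloChar p σ₂) ^ e = -1 := by
    rw [hneg]
    rcases he with rfl | rfl
    · simp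
    · simp
  have h2K : (2 : AlgebraicClosure k) ≠ 0 := by
    intro h0
    have h1 : (2 : ZMod p) = 0 := by
      apply hinj
      show algebraMap k (AlgebraicClosure k) (algebraMap (ZMod p) k 2)
        = algebraMap k (AlgebraicClosure k) (algebraMap (ZMod p) k 0)
      rw [map_ofNat, map_ofNat, map_zero, map_zero]
      exact h0
    have h5 : ((2 : ℕ) : ZMod p) = 0 := by exact_mod_cast h1
    rw [ZMod.natCast_eq_zero_iff, hp3] at h5
    omega
  apply hXK
  refine lglob1_eq_zero_of_commute (ρbar.baseChange (AlgebraicClosure k)).finrank_eq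
    (ρbar.baseChange (AlgebraicClosure k)).ρ (cycloChar p).ker _ ?_
    (hTW (AlgebraicClosure k) (cycloChar p).ker hidx) h2K σ₂ ?_
  · intro σ hσ
    have h1 := hrel σ
    rw [MonoidHom.mem_ker] at hσ
    rw [hσ] at h1
    simpa using h1
  · have h1 := hrel σ₂
    rw [hneg', Units.val_neg, Units.val_one, map_neg, map_neg, map_one, map_one] at h1
    exact h1

end Fermat.Agent.TW.L

end


end ZBPT_003_17
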