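/- GENERATED FILE (helper35, build-time optimisation, NOTES/ZB.md): verbatim concatenation of the modules
   Fermat.Agent.UNIP.TubeKey
   Fermat.Agent.UNIP.TubeOrd
   Do not edit; do not import together with these modules. -/
import Mathlib
import Fermat.Agent.ZB.PT_010
import Fermat.Agent.ZB.S24_011
import Fermat.Agent.ZB.S24_010

/-! ### bundled: `Fermat.Agent.UNIP.TubeKey` -/
section ZBUNIP_008_0
/-
UNIP (S34), piece D3d "TubeOrd", algebraic core (helper95).  Mathlib only.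

`B` a noetherian `A`-algebra (a chart of the model), `𝔫` a prime of `B` containing `π ∈ A`,
`ev : B →ₐ[A] A` a section (a rational point of the tube of `𝔫`: `ev 𝔫 ⊆ (π)`, `ker ev ⊆ 𝔫`).

* `unip_tube_key_node` : coordinates `X, Y` with `X * Y = q * G`, `B = A[X, Y] + 𝔫 ^ N`,
  `a = ev X ≠ 0`, `q = a * t`, `π ∣ t`.  Then the kernel of `ev` is `((X - a) : a^∞)` locally at
  `𝔫`:  `ev b = 0 → ∃ k u c, u ∉ 𝔫 ∧ a ^ k * (u * b) = (X - a) * c`.
* `unip_tube_key_disc` : coordinate `s` with `B = A[s] + 𝔫 ^ N`: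
  `ev b = 0 → ∃ u c, u ∉ 𝔫 ∧ u * b = (s - ev s) * c`.
Consequences for places (TubeOrd.lean): `X - a` has a simple zero at the point and no other zero
in the tube.  No thickness, no regularity, no completion; Krull's intersection theorem only.
-/

set_option autoImplicit false
set_option linter.unusedSectionVars false

namespace Fermat.Agent.UNIP

section DenseLoc

variable {A B : Type*} [CommRing A] [CommRing B] [Algebra A B]

/-- `B = A[T] + 𝔫 ^ N` for every `N`, if `𝔫 ⊆ (π, T) + 𝔫 ^ 2`, `π ∈ 𝔫`, `T ⊆ 𝔫` and `A → B ⧸ 𝔫`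
is onto. -/
theorem unip_dense_of_le (𝔫 : Ideal B) (π : A) (T : Set B)
    (hπ : algebraMap A B π ∈ 𝔫) (hT : ∀ x ∈ T, x ∈ 𝔫)
    (hle : ∀ x ∈ 𝔫, x ∈ Ideal.span (insert (algebraMap A B π) T) ⊔ 𝔫 ^ 2)
    (hres : ∀ b : B, ∃ α : A, b - algebraMap A B α ∈ 𝔫) :
    ∀ (N : ℕ) (b : B), ∃ c ∈ Algebra.adjoin A T, b - c ∈ 𝔫 ^ N := by
  have hspan𝔫 : Ideal.span (insert (algebraMap A B π) T) ≤ 𝔫 := by
    rw [Ideal.span_le]
    intro x hx
    rcases hx with rfl | hx
    · exact hπ
    · exact hT x hx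
  intro N
  induction N with
  | zero =>
    intro b
    exact ⟨0, Subalgebra.zero_mem _, by simp⟩
  | succ N ih =>
    rcases Nat.eq_zero_or_pos N with hN | hN
    · subst hN
      intro b
      obtain ⟨α, hα⟩ := hres b
      exact ⟨algebraMap A B α, Subalgebra.algebraMap_mem _ _, by simpa using hα⟩
    -- elements of `𝔫` are approximated by elements of `A[T] ∩ 𝔫`
    have ih𝔫 : ∀ x ∈ 𝔫, ∃ c ∈ Algebra.adjoin A T, c ∈ 𝔫 ∧ x - c ∈ 𝔫 ^ N := by
      intro x hx
      obtain ⟨c, hc, hxc⟩ := ih x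
      refine ⟨c, hc, ?_, hxc⟩
      have h1 : x - c ∈ 𝔫 := Ideal.pow_le_self (Nat.pos_iff_ne_zero.mp hN) hxc
      have : c = x - (x - c) := by ring
      rw [this]
      exact Ideal.sub_mem _ hx h1
    have keyspan : ∀ x ∈ Ideal.span (insert (algebraMap A B π) T),
        ∃ c ∈ Algebra.adjoin A T, x - c ∈ 𝔫 ^ (N + 1) := by
      intro x hx
      induction hx using Submodule.span_induction with
      | mem g hg =>
        rcases hg with rfl | hg
        · exact ⟨algebraMap A B π, Subalgebra.algebraMap_mem _ _, by simp⟩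
        · exact ⟨g, Algebra.subset_adjoin hg, by simp⟩
      | zero => exact ⟨0, Subalgebra.zero_mem _, by simp⟩
      | add x y _ _ hx hy =>
        obtain ⟨c, hc, hxc⟩ := hx
        obtain ⟨d, hd, hyd⟩ := hy
        refine ⟨c + d, Subalgebra.add_mem _ hc hd, ?_⟩
        have : x + y - (c + d) = (x - c) + (y - d) := by ring
        rw [this]
        exact Ideal.add_mem _ hxc hyd
      | smul r x hxmem hx =>
        obtain ⟨c, hc, hxc⟩ := hx
        obtain ⟨d, hd, hrd⟩ := ih r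
        refine ⟨d * c, Subalgebra.mul_mem _ hd hc, ?_⟩
        have hxn : x ∈ 𝔫 := hspan𝔫 hxmem
        have hcn : c ∈ 𝔫 := by
          have h1 : x - c ∈ 𝔫 := Ideal.pow_le_self (Nat.succ_ne_zero N) hxc
          have : c = x - (x - c) := by ring
          rw [this]
          exact Ideal.sub_mem _ hxn h1
        have : r • x - d * c = r * (x - c) + (r - d) * c := by
          simp only [smul_eq_mul]; ring
        rw [this]
        refine Ideal.add_mem _ (Ideal.mul_mem_left _ _ hxc) ?_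
        rw [pow_succ]
        exact Ideal.mul_mem_mul hrd hcn
    have keysq : ∀ z ∈ 𝔫 ^ 2, ∃ c ∈ Algebra.adjoin A T, z - c ∈ 𝔫 ^ (N + 1) := by
      intro z hz
      rw [pow_two] at hz
      refine Submodule.mul_induction_on hz ?_ ?_
      · intro m hm n hn
        obtain ⟨cm, hcm, hcm𝔫, hm'⟩ := ih𝔫 m hm
        obtain ⟨cn, hcn, -, hn'⟩ := ih𝔫 n hn
        refine ⟨cm * cn, Subalgebra.mul_mem _ hcm hcn, ?_⟩
        have : m * n - cm * cn = (m - cm) * n + cm * (n - cn) := by ring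
        rw [this]
        refine Ideal.add_mem _ ?_ ?_
        · rw [pow_succ]
          exact Ideal.mul_mem_mul hm' hn
        · rw [pow_succ']
          exact Ideal.mul_mem_mul hcm𝔫 hn'
      · rintro x y ⟨c, hc, hxc⟩ ⟨d, hd, hyd⟩
        refine ⟨c + d, Subalgebra.add_mem _ hc hd, ?_⟩
        have : x + y - (c + d) = (x - c) + (y - d) := by ring
        rw [this]
        exact Ideal.add_mem _ hxc hyd
    intro b
    obtain ⟨α, hα⟩ := hres b
    obtain ⟨y, hy, z, hz, hyz⟩ := Submodule.mem_sup.mp (hle _ hα)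
    obtain ⟨c, hc, hyc⟩ := keyspan y hy
    obtain ⟨d, hd, hzd⟩ := keysq z hz
    refine ⟨algebraMap A B α + c + d,
      Subalgebra.add_mem _ (Subalgebra.add_mem _ (Subalgebra.algebraMap_mem _ _) hc) hd, ?_⟩
    have : b - (algebraMap A B α + c + d) = (y - c) + (z - d) := by
      rw [← sub_eq_iff_eq_add'.mpr hyz.symm]
      ring
    rw [this]
    exact Ideal.add_mem _ hyc hzd

/-- `B = A[T] + 𝔫 ^ N` for every `N`, if `𝔫` is generated by `π` and `T` locally at `𝔫`,
`A → B ⧸ 𝔫` is onto, and the constants outside `𝔫` are units of `A`. -/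
theorem unip_dense_of_locGen (𝔫 : Ideal B) (π : A) (T : Set B)
    (hπ : algebraMap A B π ∈ 𝔫) (hT : ∀ x ∈ T, x ∈ 𝔫)
    (hgen : ∀ b ∈ 𝔫, ∃ u : B, u ∉ 𝔫 ∧ u * b ∈ Ideal.span (insert (algebraMap A B π) T))
    (hres : ∀ b : B, ∃ α : A, b - algebraMap A B α ∈ 𝔫)
    (hunit : ∀ α : A, algebraMap A B α ∉ 𝔫 → ∃ β : A, α * β = 1) :
    ∀ (N : ℕ) (b : B), ∃ c ∈ Algebra.adjoin A T, b - c ∈ 𝔫 ^ N := by
  refine unip_dense_of_le 𝔫 π T hπ hT (fun x hx => ?_) hres
  obtain ⟨u, hu, hux⟩ := hgen x hx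
  obtain ⟨α, hα⟩ := hres u
  have hα𝔫 : algebraMap A B α ∉ 𝔫 := by
    intro h
    apply hu
    have : u = (u - algebraMap A B α) + algebraMap A B α := by ring
    rw [this]
    exact Ideal.add_mem _ hα h
  obtain ⟨β, hβ⟩ := hunit α hα𝔫
  have e : x = algebraMap A B β * (u * x) - algebraMap A B β * ((u - algebraMap A B α) * x) := by
    have h1 : algebraMap A B α * algebraMap A B β = 1 := by
      rw [← map_mul, hβ, map_one]
    linear_combination (-x) * h1
  rw [e]
  refine Ideal.sub_mem _ (Ideal.mem_sup_left (Ideal.mul_mem_left _ _ hux))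
    (Ideal.mem_sup_right (Ideal.mul_mem_left _ _ ?_))
  rw [pow_two]
  exact Ideal.mul_mem_mul hα hx

end DenseLoc

section Krull

variable {B : Type*} [CommRing B] [IsNoetherianRing B]

/-- **Krull's intersection theorem**, elementwise, relative to an ideal `I`. -/
theorem unip_krull_mem (𝔫 I : Ideal B) (b : B) (h : ∀ N : ℕ, b ∈ 𝔫 ^ N ⊔ I) :
    ∃ r ∈ 𝔫, (1 - r) * b ∈ I := by
  have hx : (Ideal.Quotient.mk I b : B ⧸ I) ∈ (⨅ i : ℕ, 𝔫 ^ i • ⊤ : Submodule B (B ⧸ I)) := by
    rw [Submodule.mem_iInf]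
    intro N
    obtain ⟨n, hn, i, hi, hni⟩ := Submodule.mem_sup.mp (h N)
    have e : (Ideal.Quotient.mk I b : B ⧸ I) = n • (Ideal.Quotient.mk I 1 : B ⧸ I) := by
      rw [← hni, map_add, Ideal.Quotient.eq_zero_iff_mem.mpr hi, add_zero, map_one,
        Algebra.smul_def, mul_one]
      rfl
    rw [e]
    exact Submodule.smul_mem_smul hn Submodule.mem_top
  obtain ⟨r, hr⟩ := (Ideal.mem_iInf_smul_pow_eq_bot_iff 𝔫 _).mp hx
  refine ⟨r.1, r.2, ?_⟩
  rw [← Ideal.Quotient.eq_zero_iff_mem, map_mul, map_sub, map_one, sub_mul, one_mul]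
  have : (Ideal.Quotient.mk I (r : B)) * Ideal.Quotient.mk I b = Ideal.Quotient.mk I b := by
    have h2 := hr
    rw [Algebra.smul_def] at h2
    exact h2
  rw [this, sub_self]

end Krull

section Ideal

variable {A B : Type*} [CommRing A] [CommRing B] [Algebra A B]

/-- The ideal `((f) : a^∞)` localised at `𝔫`, contracted to `B`. -/
def unipTubeIdeal (𝔫 : Ideal B) [𝔫.IsPrime] (f : B) (a : A) : Ideal B where
  carrier := {b | ∃ (k : ℕ) (u c : B), u ∉ 𝔫 ∧ algebraMap A B (a ^ k) * (u * b) = f * c}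
  add_mem' := by
    rintro b₁ b₂ ⟨k₁, u₁, c₁, hu₁, h₁⟩ ⟨k₂, u₂, c₂, hu₂, h₂⟩
    refine ⟨k₁ + k₂, u₁ * u₂, algebraMap A B (a ^ k₂) * u₂ * c₁ + algebraMap A B (a ^ k₁) * u₁ * c₂,
      fun h => ?_, ?_⟩
    · rcases Ideal.IsPrime.mem_or_mem inferInstance h with h' | h'
      · exact hu₁ h'
      · exact hu₂ h'
    · rw [pow_add, map_mul]
      linear_combination (algebraMap A B (a ^ k₂) * u₂) * h₁ + (algebraMap A B (a ^ k₁) * u₁) * h₂
  zero_mem' := ⟨0, 1, 0, fun h => (Ideal.IsPrime.ne_top inferInstance)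
    ((Ideal.eq_top_iff_one 𝔫).mpr h), by simp⟩
  smul_mem' := by
    rintro x b ⟨k, u, c, hu, h⟩
    refine ⟨k, u, x * c, hu, ?_⟩
    rw [smul_eq_mul]
    linear_combination x * h

theorem unip_mem_tubeIdeal (𝔫 : Ideal B) [𝔫.IsPrime] (f : B) (a : A) (b : B) :
    b ∈ unipTubeIdeal 𝔫 f a ↔
      ∃ (k : ℕ) (u c : B), u ∉ 𝔫 ∧ algebraMap A B (a ^ k) * (u * b) = f * c := Iff.rfl

theorem unip_self_mem_tubeIdeal (𝔫 : Ideal B) [𝔫.IsPrime] (f : B) (a : A) :
    f ∈ unipTubeIdeal 𝔫 f a :=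
  ⟨0, 1, 1, fun h => (Ideal.IsPrime.ne_top inferInstance) ((Ideal.eq_top_iff_one 𝔫).mpr h),
    by simp⟩

/-- saturation with respect to `a` -/
theorem unip_tubeIdeal_of_smul (𝔫 : Ideal B) [𝔫.IsPrime] (f : B) (a : A) {b : B}
    (h : algebraMap A B a * b ∈ unipTubeIdeal 𝔫 f a) : b ∈ unipTubeIdeal 𝔫 f a := by
  obtain ⟨k, u, c, hu, hc⟩ := h
  refine ⟨k + 1, u, c, hu, ?_⟩
  rw [pow_succ, map_mul]
  linear_combination hc

/-- saturation with respect to `B ∖ 𝔫` -/
theorem unip_tubeIdeal_of_mul (𝔫 : Ideal B) [𝔫.IsPrime] (f : B) (a : A) {v b : B} (hv : v ∉ 𝔫)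
    (h : v * b ∈ unipTubeIdeal 𝔫 f a) : b ∈ unipTubeIdeal 𝔫 f a := by
  obtain ⟨k, u, c, hu, hc⟩ := h
  refine ⟨k, u * v, c, fun h' => ?_, ?_⟩
  · rcases Ideal.IsPrime.mem_or_mem inferInstance h' with h'' | h''
    · exact hu h''
    · exact hv h''
  · linear_combination hc

end Ideal

section Key

variable {A B : Type*} [CommRing A] [IsDomain A] [CommRing B] [Algebra A B] [IsNoetherianRing B]

/-- `ev` kills the tube ideal of `f` if it kills `f`. -/
theorem unip_ev_tubeIdeal (𝔫 : Ideal B) [𝔫.IsPrime] (f : B) (a : A) (ha : a ≠ 0)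
    (ev : B →ₐ[A] A) (hker : ∀ b, ev b = 0 → b ∈ 𝔫) (hf : ev f = 0)
    {b : B} (hb : b ∈ unipTubeIdeal 𝔫 f a) : ev b = 0 := by
  obtain ⟨k, u, c, hu, hc⟩ := hb
  have h1 := congrArg ev hc
  rw [map_mul, map_mul, map_mul, hf, zero_mul, AlgHom.commutes, Algebra.algebraMap_self_apply]
    at h1
  rcases mul_eq_zero.mp h1 with h | h
  · exact absurd h (pow_ne_zero k ha)
  · rcases mul_eq_zero.mp h with h | h
    · exact absurd (hker u h) hu
    · exact h

/-- `ev (𝔫 ^ N) ⊆ (π ^ N)`. -/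
theorem unip_ev_pow_dvd (π : A) (𝔫 : Ideal B) (ev : B →ₐ[A] A) (hev : ∀ b ∈ 𝔫, π ∣ ev b) :
    ∀ (N : ℕ) {x : B}, x ∈ 𝔫 ^ N → π ^ N ∣ ev x := by
  intro N
  induction N with
  | zero => intro x _; simp
  | succ N ih =>
    intro x hx
    rw [pow_succ] at hx
    refine Submodule.mul_induction_on hx ?_ ?_
    · intro m hm n hn
      rw [map_mul, pow_succ]
      exact mul_dvd_mul (ih hm) (hev n hn)
    · intro x y hx hy
      rw [map_add]
      exact dvd_add hx hy

/-- **Core.**  If `ev f = 0` and `B = A + 𝔫 ^ N + I` for all `N`, where `I` is the tube ideal of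
`f`, then `ker ev ⊆ I`. -/
theorem unip_tube_key_core (π : A) (𝔫 : Ideal B) [𝔫.IsPrime] (hπ : algebraMap A B π ∈ 𝔫)
    (f : B) (a : A) (ha : a ≠ 0)
    (ev : B →ₐ[A] A) (hev : ∀ b ∈ 𝔫, π ∣ ev b) (hker : ∀ b, ev b = 0 → b ∈ 𝔫) (hf : ev f = 0)
    (hspan : ∀ (N : ℕ) (b : B), ∃ α : A, b - algebraMap A B α ∈ 𝔫 ^ N ⊔ unipTubeIdeal 𝔫 f a)
    (b : B) (hb : ev b = 0) : b ∈ unipTubeIdeal 𝔫 f a := by
  have hmem : ∀ N : ℕ, b ∈ 𝔫 ^ N ⊔ unipTubeIdeal 𝔫 f a := by
    intro N
    obtain ⟨α, hα⟩ := hspan N b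
    obtain ⟨n, hn, i, hi, hni⟩ := Submodule.mem_sup.mp hα
    -- `ev` of `b - α = n + i`
    have h1 : ev (b - algebraMap A B α) = ev n + ev i := by rw [← hni, map_add]
    rw [map_sub, hb, AlgHom.commutes, Algebra.algebraMap_self_apply,
      unip_ev_tubeIdeal 𝔫 f a ha ev hker hf hi, add_zero, zero_sub] at h1
    have h2 : π ^ N ∣ α := by
      have := unip_ev_pow_dvd π 𝔫 ev hev N hn
      rw [← h1] at this
      exact (dvd_neg).mp this
    have h3 : algebraMap A B α ∈ 𝔫 ^ N := by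
      obtain ⟨β, hβ⟩ := h2
      rw [hβ, map_mul, map_pow]
      exact Ideal.mul_mem_right _ _ (Ideal.pow_mem_pow hπ N)
    have h4 : b = algebraMap A B α + (b - algebraMap A B α) := by ring
    rw [h4]
    exact Ideal.add_mem _ (Ideal.mem_sup_left h3) hα
  obtain ⟨r, hr, hrb⟩ := unip_krull_mem 𝔫 (unipTubeIdeal 𝔫 f a) b hmem
  refine unip_tubeIdeal_of_mul 𝔫 f a (v := 1 - r) (fun h => ?_) hrb
  have : (1 : B) ∈ 𝔫 := by
    have := Ideal.add_mem _ h hr
    simpa using this
  exact (Ideal.IsPrime.ne_top inferInstance) ((Ideal.eq_top_iff_one 𝔫).mpr this)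

/-- The set of elements of `B` congruent to a constant modulo an ideal, as a subalgebra. -/
def unipConstMod (J : Ideal B) : Subalgebra A B :=
  (⊥ : Subalgebra A (B ⧸ J)).comap (Ideal.Quotient.mkₐ A J)

theorem unip_mem_constMod (J : Ideal B) (b : B) :
    b ∈ unipConstMod (A := A) J ↔ ∃ α : A, b - algebraMap A B α ∈ J := by
  unfold unipConstMod
  rw [Subalgebra.mem_comap, Algebra.mem_bot]
  constructor
  · rintro ⟨α, hα⟩
    refine ⟨α, ?_⟩
    rw [← Ideal.Quotient.eq_zero_iff_mem, map_sub]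
    have h1 : (Ideal.Quotient.mkₐ A J) b = Ideal.Quotient.mk J b := rfl
    have h2 : algebraMap A (B ⧸ J) α = Ideal.Quotient.mk J (algebraMap A B α) := rfl
    rw [h1, h2] at hα
    rw [hα, sub_self]
  · rintro ⟨α, hα⟩
    refine ⟨α, ?_⟩
    have h1 : (Ideal.Quotient.mkₐ A J) b = Ideal.Quotient.mk J b := rfl
    have h2 : algebraMap A (B ⧸ J) α = Ideal.Quotient.mk J (algebraMap A B α) := rfl
    rw [h1, h2]
    symm
    rw [← sub_eq_zero, ← map_sub, Ideal.Quotient.eq_zero_iff_mem]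
    exact hα

/-- **Lemma N (ideal form), node.**  `X * Y = q * G`, `B = A[X, Y] + 𝔫 ^ N`, `ev` a rational
point of the tube with `a = ev X ≠ 0`, `q = a * t`, `π ∣ t`: the kernel of `ev` is
`((X - a) : a^∞)` locally at `𝔫`. -/
theorem unip_tube_key_node (π : A) (𝔫 : Ideal B) [𝔫.IsPrime] (hπ : algebraMap A B π ∈ 𝔫)
    (X Y G : B) (q a t : A) (hq : q = a * t) (ht : π ∣ t)
    (hXY : X * Y = algebraMap A B q * G)
    (hd : ∀ (N : ℕ) (b : B), ∃ c ∈ Algebra.adjoin A ({X, Y} : Set B), b - c ∈ 𝔫 ^ N)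
    (ev : B →ₐ[A] A) (hev : ∀ b ∈ 𝔫, π ∣ ev b) (hker : ∀ b, ev b = 0 → b ∈ 𝔫)
    (hX : ev X = a) (ha : a ≠ 0) (b : B) (hb : ev b = 0) :
    ∃ (k : ℕ) (u c : B), u ∉ 𝔫 ∧
      algebraMap A B (a ^ k) * (u * b) = (X - algebraMap A B a) * c := by
  set f : B := X - algebraMap A B a with hf
  set I : Ideal B := unipTubeIdeal 𝔫 f a with hI
  have hfev : ev f = 0 := by
    rw [hf, map_sub, hX, AlgHom.commutes, Algebra.algebraMap_self_apply, sub_self]
  have hfI : f ∈ I := unip_self_mem_tubeIdeal 𝔫 f a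
  -- `Y - t G ∈ I`
  have hYI : Y - algebraMap A B t * G ∈ I := by
    apply unip_tubeIdeal_of_smul 𝔫 f a
    have : algebraMap A B a * (Y - algebraMap A B t * G) = -(Y * f) := by
      rw [hf, hq, map_mul] at *
      linear_combination hXY
    rw [this]
    exact neg_mem (Ideal.mul_mem_left _ _ hfI)
  obtain ⟨t', rfl⟩ := ht
  refine unip_tube_key_core π 𝔫 hπ f a ha ev hev hker hfev (fun N => ?_) b hb
  -- `B = A + 𝔫 ^ N + I + π ^ j B` for all `j`
  have key : ∀ j : ℕ, ∀ b : B, ∃ α : A,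
      b - algebraMap A B α ∈ 𝔫 ^ N ⊔ I ⊔ Ideal.span {algebraMap A B π ^ j} := by
    intro j
    induction j with
    | zero =>
      intro b
      refine ⟨0, Ideal.mem_sup_right ?_⟩
      rw [pow_zero, Ideal.span_singleton_one]
      exact Submodule.mem_top
    | succ j ih =>
      set J : Ideal B := 𝔫 ^ N ⊔ I ⊔ Ideal.span {algebraMap A B π ^ (j + 1)} with hJ
      have hXJ : X ∈ unipConstMod (A := A) J :=
        (unip_mem_constMod J X).mpr ⟨a, Ideal.mem_sup_left (Ideal.mem_sup_right hfI)⟩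
      have hYJ : Y ∈ unipConstMod (A := A) J := by
        obtain ⟨α, hα⟩ := ih G
        refine (unip_mem_constMod J Y).mpr ⟨π * t' * α, ?_⟩
        have e : Y - algebraMap A B (π * t' * α) =
            (Y - algebraMap A B (π * t') * G) +
              algebraMap A B (π * t') * (G - algebraMap A B α) := by
          rw [map_mul (algebraMap A B) (π * t') α]; ring
        rw [e]
        refine Ideal.add_mem _ (Ideal.mem_sup_left (Ideal.mem_sup_right hYI)) ?_
        -- `π t' · (𝔫^N ⊔ I ⊔ (π^j)) ⊆ J`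
        obtain ⟨x, hx, z, hz, hxz⟩ := Submodule.mem_sup.mp hα
        rw [← hxz, mul_add]
        refine Ideal.add_mem _ (Ideal.mem_sup_left (Ideal.mul_mem_left _ _ hx)) ?_
        obtain ⟨w, rfl⟩ := Ideal.mem_span_singleton'.mp hz
        refine Ideal.mem_sup_right (Ideal.mem_span_singleton'.mpr
          ⟨algebraMap A B t' * w, ?_⟩)
        rw [map_mul, pow_succ]
        ring
      have hle : Algebra.adjoin A ({X, Y} : Set B) ≤ unipConstMod (A := A) J := by
        apply Algebra.adjoin_le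
        intro x hx
        rcases hx with rfl | rfl
        · exact hXJ
        · exact hYJ
      intro b
      obtain ⟨c, hc, hbc⟩ := hd N b
      obtain ⟨α, hα⟩ := (unip_mem_constMod J c).mp (hle hc)
      refine ⟨α, ?_⟩
      have e : b - algebraMap A B α = (b - c) + (c - algebraMap A B α) := by ring
      rw [e]
      exact Ideal.add_mem _ (Ideal.mem_sup_left (Ideal.mem_sup_left hbc)) hα
  intro b
  obtain ⟨α, hα⟩ := key N b
  refine ⟨α, ?_⟩
  obtain ⟨x, hx, z, hz, hxz⟩ := Submodule.mem_sup.mp hα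
  rw [← hxz]
  refine Ideal.add_mem _ hx (Ideal.mem_sup_left ?_)
  obtain ⟨w, rfl⟩ := Ideal.mem_span_singleton'.mp hz
  exact Ideal.mul_mem_left _ _ (Ideal.pow_mem_pow hπ N)

/-- **Lemma N (ideal form), smooth point.**  `B = A[s] + 𝔫 ^ N`, `ev` a rational point of the
tube: the kernel of `ev` is generated by `s - ev s` locally at `𝔫`. -/
theorem unip_tube_key_disc (π : A) (𝔫 : Ideal B) [𝔫.IsPrime] (hπ : algebraMap A B π ∈ 𝔫)
    (s : B)
    (hd : ∀ (N : ℕ) (b : B), ∃ c ∈ Algebra.adjoin A ({s} : Set B), b - c ∈ 𝔫 ^ N)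
    (ev : B →ₐ[A] A) (hev : ∀ b ∈ 𝔫, π ∣ ev b) (hker : ∀ b, ev b = 0 → b ∈ 𝔫)
    (b : B) (hb : ev b = 0) :
    ∃ (u c : B), u ∉ 𝔫 ∧ u * b = (s - algebraMap A B (ev s)) * c := by
  set f : B := s - algebraMap A B (ev s) with hf
  set I : Ideal B := unipTubeIdeal 𝔫 f (1 : A) with hI
  have hfev : ev f = 0 := by
    rw [hf, map_sub, AlgHom.commutes, Algebra.algebraMap_self_apply, sub_self]
  have hfI : f ∈ I := unip_self_mem_tubeIdeal 𝔫 f 1
  have h := unip_tube_key_core π 𝔫 hπ f (1 : A) one_ne_zero ev hev hker hfev (fun N b => by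
    have hle : Algebra.adjoin A ({s} : Set B) ≤ unipConstMod (A := A) (𝔫 ^ N ⊔ I) := by
      apply Algebra.adjoin_le
      intro x hx
      rw [Set.mem_singleton_iff] at hx
      rw [hx]
      exact (unip_mem_constMod _ s).mpr ⟨ev s, Ideal.mem_sup_right hfI⟩
    obtain ⟨c, hc, hbc⟩ := hd N b
    obtain ⟨α, hα⟩ := (unip_mem_constMod _ c).mp (hle hc)
    refine ⟨α, ?_⟩
    have e : b - algebraMap A B α = (b - c) + (c - algebraMap A B α) := by ring
    rw [e]
    exact Ideal.add_mem _ (Ideal.mem_sup_left hbc) hα) b hb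
  obtain ⟨k, u, c, hu, hc⟩ := h
  refine ⟨u, c, hu, ?_⟩
  rw [one_pow, map_one, one_mul] at hc
  exact hc

end Key

end Fermat.Agent.UNIP


end ZBUNIP_008_0

/-! ### bundled: `Fermat.Agent.UNIP.TubeOrd` -/
section ZBUNIP_008_1

/-!
# UNIP / D3d — TubeOrd: Lemma N for places

Setting of `UnitCrit.lean` (D2): `A₀` DVR, `π` irreducible, `E = Frac A₀` (char 0), `Lf/E(τ)` finite,
`B` a noetherian chart (`algebraMap B Lf` injective with image the integral closure of `A₀[τ]`),
`𝔫` a prime of `B` containing `π`.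

A *rational point of the tube of `𝔫`* is a place `P` of `Lf / E` with `0 ≤ ord_P τ`, centre in `𝔫`
and residue field `E` (`UnipTubePoint`).  It has an evaluation `ev_P : B →ₐ[A₀] A₀`
(`unip_exists_tubeEv`).

* `unip_tubeOrd_node` : node coordinates `X * Y = q * G`, `B = A₀[X, Y] + 𝔫 ^ N`, `a = X(P) ≠ 0`,
  `q = a * t`, `π ∣ t`.  Then `ord_P (X - a) = 1`, and `ord_Q (X - a) = 0` for every place `Q ≠ P`
  (rational or not) with `0 ≤ ord_Q τ` and centre in `𝔫`.
* `unip_tubeOrd_disc` : the same for a smooth point, `B = A₀[s] + 𝔫 ^ N`, `a = s(P)`.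
-/

set_option autoImplicit false
set_option linter.style.haveILetI false
set_option linter.unusedSectionVars false

namespace Fermat.Agent.UNIP

open AlgebraicCurve IntermediateField Polynomial Fermat.Agent.S24 Fermat.Agent.INJ

section Places

variable {E Lf : Type*} [Field E] [Field Lf] [Algebra E Lf]

theorem unip_mem_nonunits_iff (P : Place E Lf) (f : Lf) :
    f ∈ P.toValuationSubring.nonunits ↔ f = 0 ∨ 0 < P.ord f := by
  rcases eq_or_ne f 0 with rfl | hf
  · simp only [true_or, iff_true]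
    exact P.toValuationSubring.nonunits.zero_mem
  · rw [PlaceAux.ord_pos_iff_mem_nonunits P hf]
    simp [hf]

/-- nonzero constants are units at every place -/
theorem unip_const_notMem_nonunits (P : Place E Lf) {c : E} (hc : c ≠ 0) :
    algebraMap E Lf c ∉ P.toValuationSubring.nonunits := by
  have hc' : algebraMap E Lf c ≠ 0 := (_root_.map_ne_zero _).mpr hc
  rw [← PlaceAux.ord_pos_iff_mem_nonunits P hc', PlaceAux.ord_algebraMap]
  exact lt_irrefl 0

/-- the maximal ideal absorbs multiplication by the valuation ring -/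
theorem unip_mul_mem_nonunits (P : Place E Lf) {x y : Lf}
    (hx : x ∈ P.toValuationSubring.nonunits) (hy : y ∈ P.toValuationSubring) :
    x * y ∈ P.toValuationSubring.nonunits := by
  rw [ValuationSubring.mem_nonunits_iff] at hx ⊢
  have hy' := (P.toValuationSubring.valuation_le_one_iff y).mpr hy
  rw [map_mul]
  calc P.toValuationSubring.valuation x * P.toValuationSubring.valuation y
      ≤ P.toValuationSubring.valuation x * 1 := by gcongr
    _ = P.toValuationSubring.valuation x := mul_one _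
    _ < 1 := hx

end Places

section Ev

variable {A₀ E Lf B : Type*} [CommRing A₀] [IsDomain A₀] [IsDiscreteValuationRing A₀]
  [Field E] [CharZero E] [Algebra A₀ E] [IsFractionRing A₀ E]
  [Field Lf] [Algebra E Lf] [Algebra A₀ Lf] [IsScalarTower A₀ E Lf]
  [CommRing B] [Algebra B Lf] [Algebra A₀ B] [IsScalarTower A₀ B Lf]

/-- `P` is a rational point of the tube of `𝔫`. -/
structure UnipTubePoint (τ : Lf) (𝔫 : Ideal B) (P : Place E Lf) : Prop where
  ord_nonneg : 0 ≤ P.ord τ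
  centre : ∀ b : B, 0 < P.ord (algebraMap B Lf b) → b ∈ 𝔫
  rational : ∀ f ∈ P.toValuationSubring,
    ∃ c : E, f - algebraMap E Lf c ∈ P.toValuationSubring.nonunits

theorem unip_algebraMap_injective (E : Type*) {A₀ Lf : Type*} [CommRing A₀]
    [Field E] [Algebra A₀ E] [IsFractionRing A₀ E]
    [Field Lf] [Algebra E Lf] [Algebra A₀ Lf] [IsScalarTower A₀ E Lf] :
    Function.Injective (algebraMap A₀ Lf) := by
  rw [IsScalarTower.algebraMap_eq A₀ E Lf]
  exact (algebraMap E Lf).injective.comp (IsFractionRing.injective A₀ E)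

/-- constants of `A₀` in the maximal ideal of a place are zero -/
theorem unip_eq_zero_of_mem_nonunits (P : Place E Lf) {α : A₀}
    (h : algebraMap A₀ Lf α ∈ P.toValuationSubring.nonunits) : α = 0 := by
  by_contra hα
  rw [IsScalarTower.algebraMap_apply A₀ E Lf] at h
  exact unip_const_notMem_nonunits P
    ((map_ne_zero_iff _ (IsFractionRing.injective A₀ E)).mpr hα) h

/-- elements of the chart lie in the valuation ring of a place with `0 ≤ ord τ` -/
theorem unip_chart_mem_place (τ : Lf)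
    (hB : ∀ x : Lf, x ∈ (algebraMap B Lf).range ↔ IsIntegral (Algebra.adjoin A₀ {τ}) x)
    (P : Place E Lf) (hP : 0 ≤ P.ord τ) (b : B) :
    algebraMap B Lf b ∈ P.toValuationSubring :=
  mem_place_of_isIntegral τ P hP ((hB _).mp ⟨b, rfl⟩)

/-- centre in `𝔫`, in terms of the maximal ideal of the place -/
theorem UnipTubePoint.mem_of_nonunits {τ : Lf} {𝔫 : Ideal B} {P : Place E Lf}
    (hP : UnipTubePoint τ 𝔫 P) (hinj : Function.Injective (algebraMap B Lf)) {b : B}
    (hb : algebraMap B Lf b ∈ P.toValuationSubring.nonunits) : b ∈ 𝔫 := by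
  rcases (unip_mem_nonunits_iff P _).mp hb with h | h
  · have : b = 0 := hinj (by rw [h, map_zero])
    rw [this]
    exact 𝔫.zero_mem
  · exact hP.centre b h

/-- the value of an element of the chart at a rational point of the tube is integral -/
theorem unip_exists_value {π : A₀} (hπ : Irreducible π) (τ : Lf)
    (hinj : Function.Injective (algebraMap B Lf))
    (hB : ∀ x : Lf, x ∈ (algebraMap B Lf).range ↔ IsIntegral (Algebra.adjoin A₀ {τ}) x)
    (𝔫 : Ideal B) [𝔫.IsPrime] (hπ𝔫 : algebraMap A₀ B π ∈ 𝔫)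
    (P : Place E Lf) (hP : UnipTubePoint τ 𝔫 P) (b : B) :
    ∃ α : A₀, algebraMap B Lf b - algebraMap A₀ Lf α ∈ P.toValuationSubring.nonunits := by
  have hbP := unip_chart_mem_place τ hB P hP.ord_nonneg b
  obtain ⟨c, hc⟩ := hP.rational _ hbP
  rcases eq_or_ne c 0 with rfl | hc0
  · refine ⟨0, ?_⟩
    simpa using hc
  rcases ValuationRing.isInteger_or_isInteger A₀ c with ⟨α, hα⟩ | ⟨d, hd⟩
  · refine ⟨α, ?_⟩
    rw [IsScalarTower.algebraMap_apply A₀ E Lf, hα]
    exact hc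
  · -- `c⁻¹ = d ∈ A₀`
    have hdc : algebraMap A₀ E d * c = 1 := by
      rw [hd]
      exact inv_mul_cancel₀ hc0
    by_cases hdu : IsUnit d
    · obtain ⟨d', hd'⟩ := hdu.exists_right_inv
      refine ⟨d', ?_⟩
      have h1 : algebraMap A₀ E d * algebraMap A₀ E d' = 1 := by
        rw [← map_mul, hd', map_one]
      have hd0 : algebraMap A₀ E d ≠ 0 := left_ne_zero_of_mul_eq_one h1
      have : algebraMap A₀ E d' = c := mul_left_cancel₀ hd0 (h1.trans hdc.symm)
      rw [IsScalarTower.algebraMap_apply A₀ E Lf, this]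
      exact hc
    · exfalso
      -- `d ∈ (π)`, so `d ∈ 𝔫`, and `d b - 1 ∈ 𝔫`
      have hdmem : d ∈ IsLocalRing.maximalIdeal A₀ := (IsLocalRing.mem_maximalIdeal d).mpr hdu
      rw [hπ.maximalIdeal_eq, Ideal.mem_span_singleton] at hdmem
      obtain ⟨d', rfl⟩ := hdmem
      have hd𝔫 : algebraMap A₀ B (π * d') ∈ 𝔫 := by
        rw [map_mul]
        exact Ideal.mul_mem_right _ _ hπ𝔫
      have hdP : algebraMap A₀ Lf (π * d') ∈ P.toValuationSubring := by
        rw [IsScalarTower.algebraMap_apply A₀ E Lf]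
        exact P.algebraMap_mem' _
      have hmem : algebraMap B Lf (algebraMap A₀ B (π * d') * b - 1) ∈
          P.toValuationSubring.nonunits := by
        have e : algebraMap B Lf (algebraMap A₀ B (π * d') * b - 1) =
            (algebraMap B Lf b - algebraMap E Lf c) * algebraMap A₀ Lf (π * d') := by
          rw [map_sub, map_mul, map_one, ← IsScalarTower.algebraMap_apply A₀ B Lf]
          have h2 : algebraMap A₀ Lf (π * d') * algebraMap E Lf c = 1 := by
            rw [IsScalarTower.algebraMap_apply A₀ E Lf, ← map_mul, hdc, map_one]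
          linear_combination h2
        rw [e]
        exact unip_mul_mem_nonunits P hc hdP
      have h3 := hP.mem_of_nonunits hinj hmem
      have h1 : (1 : B) ∈ 𝔫 := by
        have : (1 : B) = algebraMap A₀ B (π * d') * b - (algebraMap A₀ B (π * d') * b - 1) := by
          ring
        rw [this]
        exact Ideal.sub_mem _ (Ideal.mul_mem_right _ _ hd𝔫) h3
      exact (Ideal.IsPrime.ne_top inferInstance) ((Ideal.eq_top_iff_one 𝔫).mpr h1)

/-- uniqueness of the value at a place -/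
theorem unip_value_unique (P : Place E Lf) {f : Lf} {α β : A₀}
    (hα : f - algebraMap A₀ Lf α ∈ P.toValuationSubring.nonunits)
    (hβ : f - algebraMap A₀ Lf β ∈ P.toValuationSubring.nonunits) : α = β := by
  have h : algebraMap A₀ Lf (β - α) ∈ P.toValuationSubring.nonunits := by
    have : algebraMap A₀ Lf (β - α) = (f - algebraMap A₀ Lf α) - (f - algebraMap A₀ Lf β) := by
      rw [map_sub]; ring
    rw [this]
    exact sub_mem hα hβ
  have := unip_eq_zero_of_mem_nonunits P h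
  exact (sub_eq_zero.mp this).symm

theorem unip_algebraMap_mem_place (P : Place E Lf) (α : A₀) :
    algebraMap A₀ Lf α ∈ P.toValuationSubring := by
  rw [IsScalarTower.algebraMap_apply A₀ E Lf]
  exact P.algebraMap_mem' _

/-- **Evaluation at a rational point of the tube**, as an `A₀`-algebra homomorphism. -/
theorem unip_exists_tubeEv {π : A₀} (hπ : Irreducible π) (τ : Lf)
    (hinj : Function.Injective (algebraMap B Lf))
    (hB : ∀ x : Lf, x ∈ (algebraMap B Lf).range ↔ IsIntegral (Algebra.adjoin A₀ {τ}) x)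
    (𝔫 : Ideal B) [𝔫.IsPrime] (hπ𝔫 : algebraMap A₀ B π ∈ 𝔫)
    (P : Place E Lf) (hP : UnipTubePoint τ 𝔫 P) :
    ∃ ev : B →ₐ[A₀] A₀, ∀ b : B,
      algebraMap B Lf b - algebraMap A₀ Lf (ev b) ∈ P.toValuationSubring.nonunits := by
  classical
  choose ev hev using unip_exists_value hπ τ hinj hB 𝔫 hπ𝔫 P hP
  have huniq : ∀ (b : B) (α : A₀),
      algebraMap B Lf b - algebraMap A₀ Lf α ∈ P.toValuationSubring.nonunits → ev b = α :=
    fun b α h => unip_value_unique P (hev b) h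
  have h0 : (0 : Lf) ∈ P.toValuationSubring.nonunits := P.toValuationSubring.nonunits.zero_mem
  have hBP : ∀ b : B, algebraMap B Lf b ∈ P.toValuationSubring :=
    unip_chart_mem_place τ hB P hP.ord_nonneg
  refine ⟨{ toFun := ev, map_one' := ?_, map_mul' := ?_, map_zero' := ?_, map_add' := ?_,
            commutes' := ?_ }, hev⟩
  · apply huniq
    simp [h0]
  · intro b c
    apply huniq
    have e : algebraMap B Lf (b * c) - algebraMap A₀ Lf (ev b * ev c) =
        (algebraMap B Lf b - algebraMap A₀ Lf (ev b)) * algebraMap B Lf c +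
          (algebraMap B Lf c - algebraMap A₀ Lf (ev c)) * algebraMap A₀ Lf (ev b) := by
      rw [map_mul, map_mul]; ring
    rw [e]
    exact add_mem (unip_mul_mem_nonunits P (hev b) (hBP c))
      (unip_mul_mem_nonunits P (hev c) (unip_algebraMap_mem_place P _))
  · apply huniq
    simp [h0]
  · intro b c
    apply huniq
    have e : algebraMap B Lf (b + c) - algebraMap A₀ Lf (ev b + ev c) =
        (algebraMap B Lf b - algebraMap A₀ Lf (ev b)) +
          (algebraMap B Lf c - algebraMap A₀ Lf (ev c)) := by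
      rw [map_add, map_add]; ring
    rw [e]
    exact add_mem (hev b) (hev c)
  · intro α
    apply huniq
    rw [Algebra.algebraMap_self_apply, ← IsScalarTower.algebraMap_apply A₀ B Lf, sub_self]
    exact h0

/-- `ev b = 0` iff `b` lies in the maximal ideal of the place -/
theorem unip_tubeEv_eq_zero_iff (P : Place E Lf) (ev : B →ₐ[A₀] A₀)
    (hev : ∀ b : B,
      algebraMap B Lf b - algebraMap A₀ Lf (ev b) ∈ P.toValuationSubring.nonunits) (b : B) :
    ev b = 0 ↔ algebraMap B Lf b ∈ P.toValuationSubring.nonunits := by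
  constructor
  · intro h
    have := hev b
    rwa [h, map_zero, sub_zero] at this
  · intro h
    refine unip_value_unique P (f := algebraMap B Lf b) (hev b) ?_
    rwa [map_zero, sub_zero]

theorem unip_tubeEv_ker {τ : Lf} (hinj : Function.Injective (algebraMap B Lf))
    {𝔫 : Ideal B} {P : Place E Lf} (hP : UnipTubePoint τ 𝔫 P) (ev : B →ₐ[A₀] A₀)
    (hev : ∀ b : B,
      algebraMap B Lf b - algebraMap A₀ Lf (ev b) ∈ P.toValuationSubring.nonunits)
    (b : B) (hb : ev b = 0) : b ∈ 𝔫 :=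
  hP.mem_of_nonunits hinj ((unip_tubeEv_eq_zero_iff P ev hev b).mp hb)

theorem unip_tubeEv_dvd {π : A₀} (hπ : Irreducible π) {τ : Lf}
    (hinj : Function.Injective (algebraMap B Lf))
    {𝔫 : Ideal B} [𝔫.IsPrime] {P : Place E Lf} (hP : UnipTubePoint τ 𝔫 P) (ev : B →ₐ[A₀] A₀)
    (hev : ∀ b : B,
      algebraMap B Lf b - algebraMap A₀ Lf (ev b) ∈ P.toValuationSubring.nonunits)
    (b : B) (hb : b ∈ 𝔫) : π ∣ ev b := by
  by_contra hnd
  have hu : IsUnit (ev b) := by
    by_contra hnu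
    have : ev b ∈ IsLocalRing.maximalIdeal A₀ := (IsLocalRing.mem_maximalIdeal _).mpr hnu
    rw [hπ.maximalIdeal_eq, Ideal.mem_span_singleton] at this
    exact hnd this
  have h1 : b - algebraMap A₀ B (ev b) ∈ 𝔫 := by
    apply unip_tubeEv_ker hinj hP ev hev
    rw [map_sub, AlgHom.commutes, Algebra.algebraMap_self_apply, sub_self]
  have h2 : algebraMap A₀ B (ev b) ∈ 𝔫 := by
    have : algebraMap A₀ B (ev b) = b - (b - algebraMap A₀ B (ev b)) := by ring
    rw [this]
    exact Ideal.sub_mem _ hb h1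
  have h3 : IsUnit (algebraMap A₀ B (ev b)) := hu.map _
  exact (Ideal.IsPrime.ne_top inferInstance) (Ideal.eq_top_of_isUnit_mem _ h2 h3)

end Ev

section Ord

variable {A₀ E Lf B : Type*} [CommRing A₀] [IsDomain A₀] [IsDiscreteValuationRing A₀]
  [Field E] [CharZero E] [Algebra A₀ E] [IsFractionRing A₀ E]
  [Field Lf] [Algebra E Lf] [Algebra A₀ Lf] [IsScalarTower A₀ E Lf]
  [CommRing B] [Algebra B Lf] [Algebra A₀ B] [IsScalarTower A₀ B Lf]

/-- a nonzero constant of `A₀` has order `0` -/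
theorem unip_ord_const (Q : Place E Lf) (α : A₀) : Q.ord (algebraMap A₀ Lf α) = 0 := by
  rw [IsScalarTower.algebraMap_apply A₀ E Lf]
  exact PlaceAux.ord_algebraMap Q _

/-- an element of the chart outside `𝔫` is a unit at every place with centre in `𝔫` -/
theorem unip_ord_eq_zero_of_notMem (τ : Lf)
    (hB : ∀ x : Lf, x ∈ (algebraMap B Lf).range ↔ IsIntegral (Algebra.adjoin A₀ {τ}) x)
    (𝔫 : Ideal B) (Q : Place E Lf) (hQ : 0 ≤ Q.ord τ)
    (hQc : ∀ b : B, 0 < Q.ord (algebraMap B Lf b) → b ∈ 𝔫) {u : B} (hu : u ∉ 𝔫) :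
    Q.ord (algebraMap B Lf u) = 0 := by
  have h1 : ¬ 0 < Q.ord (algebraMap B Lf u) := fun h => hu (hQc u h)
  have h2 : 0 ≤ Q.ord (algebraMap B Lf u) := by
    by_cases h0 : algebraMap B Lf u = 0
    · rw [h0, Place.ord_zero]
    · exact (PlaceAux.ord_nonneg_iff Q h0).mpr (unip_chart_mem_place τ hB Q hQ u)
  omega

/-- order of an element of the chart is nonnegative -/
theorem unip_ord_chart_nonneg (τ : Lf)
    (hB : ∀ x : Lf, x ∈ (algebraMap B Lf).range ↔ IsIntegral (Algebra.adjoin A₀ {τ}) x)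
    (Q : Place E Lf) (hQ : 0 ≤ Q.ord τ) (c : B) : 0 ≤ Q.ord (algebraMap B Lf c) := by
  by_cases h0 : algebraMap B Lf c = 0
  · rw [h0, Place.ord_zero]
  · exact (PlaceAux.ord_nonneg_iff Q h0).mpr (unip_chart_mem_place τ hB Q hQ c)

/-- order computation from a relation `a ^ k * (u * b) = f * c` -/
theorem unip_ord_of_key (τ : Lf)
    (hinj : Function.Injective (algebraMap B Lf))
    (hB : ∀ x : Lf, x ∈ (algebraMap B Lf).range ↔ IsIntegral (Algebra.adjoin A₀ {τ}) x)
    (𝔫 : Ideal B) (Q : Place E Lf) (hQ : 0 ≤ Q.ord τ)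
    (hQc : ∀ b : B, 0 < Q.ord (algebraMap B Lf b) → b ∈ 𝔫)
    {a : A₀} (ha : a ≠ 0) {k : ℕ} {u b f c : B} (hu : u ∉ 𝔫) (hb : b ≠ 0)
    (h : algebraMap A₀ B (a ^ k) * (u * b) = f * c) :
    f ≠ 0 ∧ Q.ord (algebraMap B Lf b) = Q.ord (algebraMap B Lf f) + Q.ord (algebraMap B Lf c) ∧
      0 ≤ Q.ord (algebraMap B Lf c) := by
  have hinjA := unip_algebraMap_injective E (A₀ := A₀) (Lf := Lf)
  have hak : algebraMap A₀ Lf (a ^ k) ≠ 0 :=
    (map_ne_zero_iff _ hinjA).mpr (pow_ne_zero k ha)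
  have hu0 : algebraMap B Lf u ≠ 0 := by
    intro h0
    apply hu
    have : u = 0 := hinj (by rw [h0, map_zero])
    rw [this]
    exact 𝔫.zero_mem
  have hb0 : algebraMap B Lf b ≠ 0 := (map_ne_zero_iff _ hinj).mpr hb
  have hL : algebraMap A₀ Lf (a ^ k) * (algebraMap B Lf u * algebraMap B Lf b) =
      algebraMap B Lf f * algebraMap B Lf c := by
    have := congrArg (algebraMap B Lf) h
    rwa [map_mul, map_mul, map_mul, ← IsScalarTower.algebraMap_apply A₀ B Lf] at this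
  have hfc : algebraMap B Lf f * algebraMap B Lf c ≠ 0 := by
    rw [← hL]
    exact mul_ne_zero hak (mul_ne_zero hu0 hb0)
  have hf0 : algebraMap B Lf f ≠ 0 := left_ne_zero_of_mul hfc
  have hc0 : algebraMap B Lf c ≠ 0 := right_ne_zero_of_mul hfc
  have hord := congrArg Q.ord hL
  rw [Place.ord_mul Q hak (mul_ne_zero hu0 hb0), Place.ord_mul Q hu0 hb0,
    Place.ord_mul Q hf0 hc0, unip_ord_const, unip_ord_eq_zero_of_notMem τ hB 𝔫 Q hQ hQc hu]
    at hord
  refine ⟨fun h0 => hf0 (by rw [h0, map_zero]), by omega, ?_⟩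
  exact (PlaceAux.ord_nonneg_iff Q hc0).mpr (unip_chart_mem_place τ hB Q hQ c)

/-- **TubeOrd, general form.**  If the kernel of the evaluation at `P` is `((f) : a^∞)` locally
at `𝔫` and `f` vanishes at `P`, then `f` has a simple zero at `P` and no other zero at a place with
centre in `𝔫`. -/
theorem unip_tubeOrd_of_key {π : A₀} (hπ : Irreducible π) (τ : Lf)
    (hτ : Transcendental E τ) [FiniteDimensional E⟮τ⟯ Lf]
    (hinj : Function.Injective (algebraMap B Lf))
    (hB : ∀ x : Lf, x ∈ (algebraMap B Lf).range ↔ IsIntegral (Algebra.adjoin A₀ {τ}) x)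
    (𝔫 : Ideal B) (P : Place E Lf) (hP : 0 ≤ P.ord τ)
    (hPc : ∀ b : B, 0 < P.ord (algebraMap B Lf b) → b ∈ 𝔫)
    (f : B) (a : A₀) (ha : a ≠ 0)
    (hfP : algebraMap B Lf f ∈ P.toValuationSubring.nonunits)
    (hkey : ∀ b : B, algebraMap B Lf b ∈ P.toValuationSubring.nonunits →
      ∃ (k : ℕ) (u c : B), u ∉ 𝔫 ∧ algebraMap A₀ B (a ^ k) * (u * b) = f * c) :
    P.ord (algebraMap B Lf f) = 1 ∧
    ∀ Q : Place E Lf, 0 ≤ Q.ord τ → (∀ b : B, 0 < Q.ord (algebraMap B Lf b) → b ∈ 𝔫) →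
      0 < Q.ord (algebraMap B Lf f) → Q = P := by
  classical
  letI := polyAlgebra (K := E) τ
  obtain ⟨hDed, hFrac, -⟩ := intClosure_facts (K := E) τ hτ
  haveI := hDed
  haveI := hFrac
  have hK := PlacesAux.hK (K := E) τ
  have hRP : ∀ P' : Place E Lf, 0 ≤ P'.ord τ → ∀ r : intClosure (K := E) τ,
      algebraMap (intClosure (K := E) τ) Lf r ∈ P'.toValuationSubring :=
    fun P' h => PlacesAux.le_place τ P' (PlaceAux.mem_of_ord_nonneg P' h)
  have hπ0 : algebraMap A₀ Lf π ≠ 0 := unip_algebraMap_irreducible_ne_zero E hπ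
  -- lifting elements of the integral closure of `E[τ]` to `B`, up to a power of `π`
  have hlift : ∀ r : intClosure (K := E) τ, r ≠ 0 → ∃ b : B, b ≠ 0 ∧
      ∀ Q : Place E Lf, Q.ord (algebraMap B Lf b) =
        Q.ord (algebraMap (intClosure (K := E) τ) Lf r) := by
    intro r hr
    obtain ⟨k, hk⟩ := exists_pow_mul_isIntegral hπ τ
      (algebraMap (intClosure (K := E) τ) Lf r) r.2
    obtain ⟨b, hb⟩ := (hB _).mpr hk
    have hr0 : algebraMap (intClosure (K := E) τ) Lf r ≠ 0 := fun h => hr (Subtype.ext h)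
    have hb' : algebraMap B Lf b =
        algebraMap A₀ Lf π ^ k * algebraMap (intClosure (K := E) τ) Lf r := hb
    refine ⟨b, fun h0 => ?_, fun Q => ?_⟩
    · rw [h0, map_zero] at hb'
      exact mul_ne_zero (pow_ne_zero k hπ0) hr0 hb'.symm
    · rw [hb', Place.ord_mul Q (pow_ne_zero k hπ0) hr0, ← map_pow, unip_ord_const, zero_add]
  -- order positive ↔ valuation < 1
  have hconv : ∀ (w : IsDedekindDomain.HeightOneSpectrum (intClosure (K := E) τ)) (x : Lf),
      x ≠ 0 → (0 < (placeOfPrime (K := E) hK w).ord x ↔ w.valuation Lf x < 1) := by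
    intro w x hx
    have hv : w.valuation Lf x ≠ 0 := (Valuation.ne_zero_iff _).mpr hx
    rw [placeOfPrime_ord hK w hx]
    constructor
    · intro h
      rw [← WithZero.exp_log hv, ← WithZero.exp_zero, WithZero.exp_lt_exp]
      omega
    · intro h
      rw [← WithZero.exp_log hv, ← WithZero.exp_zero, WithZero.exp_lt_exp] at h
      omega
  obtain ⟨wP, hwP⟩ := exists_placeOfPrime_eq hK P (hRP P hP)
  have hnu : ∀ b : B, 0 < P.ord (algebraMap B Lf b) →
      algebraMap B Lf b ∈ P.toValuationSubring.nonunits :=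
    fun b h => (unip_mem_nonunits_iff P _).mpr (Or.inr h)
  constructor
  · -- simple zero
    obtain ⟨r, hr⟩ := wP.intValuation_exists_uniformizer
    have hr0 : r ≠ 0 := by
      rintro rfl
      rw [map_zero] at hr
      exact WithZero.zero_ne_coe hr
    have hrL : algebraMap (intClosure (K := E) τ) Lf r ≠ 0 := fun h =>
      hr0 ((IsFractionRing.injective (intClosure (K := E) τ) Lf) (by rw [h, map_zero]))
    have hordr : P.ord (algebraMap (intClosure (K := E) τ) Lf r) = 1 := by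
      rw [← hwP, placeOfPrime_ord hK wP hrL, wP.valuation_of_algebraMap, hr, WithZero.log_exp]
      norm_num
    obtain ⟨b, hb0, hbord⟩ := hlift r hr0
    have hbP : P.ord (algebraMap B Lf b) = 1 := by rw [hbord, hordr]
    obtain ⟨k, u, c, hu, hc⟩ := hkey b (hnu b (by rw [hbP]; norm_num))
    obtain ⟨hf0, h1, h2⟩ := unip_ord_of_key τ hinj hB 𝔫 P hP hPc ha hu hb0 hc
    have hfpos : 0 < P.ord (algebraMap B Lf f) := by
      rcases (unip_mem_nonunits_iff P _).mp hfP with h | h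
      · exact absurd (hinj (by rw [h, map_zero])) hf0
      · exact h
    omega
  · intro Q hQ hQc hfQ
    obtain ⟨wQ, hwQ⟩ := exists_placeOfPrime_eq hK Q (hRP Q hQ)
    have hle : wP.asIdeal ≤ wQ.asIdeal := by
      intro r hr
      by_cases hr0 : r = 0
      · rw [hr0]; exact Ideal.zero_mem _
      have hrL : algebraMap (intClosure (K := E) τ) Lf r ≠ 0 := fun h =>
        hr0 ((IsFractionRing.injective (intClosure (K := E) τ) Lf) (by rw [h, map_zero]))
      have h1 : 0 < P.ord (algebraMap (intClosure (K := E) τ) Lf r) := by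
        rw [← hwP, hconv wP _ hrL]
        exact (wP.valuation_lt_one_iff_mem (K := Lf) r).mpr hr
      obtain ⟨b, hb0, hbord⟩ := hlift r hr0
      obtain ⟨k, u, c, hu, hc⟩ := hkey b (hnu b (by rw [hbord]; exact h1))
      obtain ⟨-, h2, h3⟩ := unip_ord_of_key τ hinj hB 𝔫 Q hQ hQc ha hu hb0 hc
      have h4 : 0 < Q.ord (algebraMap (intClosure (K := E) τ) Lf r) := by
        rw [← hbord]; omega
      rw [← hwQ, hconv wQ _ hrL] at h4
      exact (wQ.valuation_lt_one_iff_mem (K := Lf) r).mp h4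
    have heq : wP.asIdeal = wQ.asIdeal :=
      Ideal.IsMaximal.eq_of_le wP.isMaximal wQ.isPrime.ne_top hle
    have : wP = wQ := IsDedekindDomain.HeightOneSpectrum.ext heq
    rw [← hwQ, ← hwP, this]

/-- **TubeOrd, node.**  `X * Y = q * G`, `B = A₀[X, Y] + 𝔫 ^ N`, `P` a rational point of the
tube of `𝔫` with `X(P) = a ≠ 0`, `q = a * t`, `π ∣ t`.  Then `X - a` has a simple zero at `P` and
order `0` at every other place with centre in `𝔫`. -/
theorem unip_tubeOrd_node [IsNoetherianRing B] {π : A₀} (hπ : Irreducible π) (τ : Lf)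
    (hτ : Transcendental E τ) [FiniteDimensional E⟮τ⟯ Lf]
    (hinj : Function.Injective (algebraMap B Lf))
    (hB : ∀ x : Lf, x ∈ (algebraMap B Lf).range ↔ IsIntegral (Algebra.adjoin A₀ {τ}) x)
    (𝔫 : Ideal B) [𝔫.IsPrime] (hπ𝔫 : algebraMap A₀ B π ∈ 𝔫)
    (X Y G : B) (q a t : A₀) (hq : q = a * t) (ht : π ∣ t) (ha : a ≠ 0)
    (hXY : X * Y = algebraMap A₀ B q * G)
    (hd : ∀ (N : ℕ) (b : B), ∃ c ∈ Algebra.adjoin A₀ ({X, Y} : Set B), b - c ∈ 𝔫 ^ N)
    (P : Place E Lf) (hP : UnipTubePoint τ 𝔫 P)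
    (hXa : algebraMap B Lf X - algebraMap A₀ Lf a ∈ P.toValuationSubring.nonunits) :
    P.ord (algebraMap B Lf X - algebraMap A₀ Lf a) = 1 ∧
    ∀ Q : Place E Lf, 0 ≤ Q.ord τ → (∀ b : B, 0 < Q.ord (algebraMap B Lf b) → b ∈ 𝔫) →
      Q ≠ P → Q.ord (algebraMap B Lf X - algebraMap A₀ Lf a) = 0 := by
  obtain ⟨ev, hev⟩ := unip_exists_tubeEv hπ τ hinj hB 𝔫 hπ𝔫 P hP
  have hX : ev X = a := unip_value_unique P (hev X) hXa
  have e : algebraMap B Lf X - algebraMap A₀ Lf a = algebraMap B Lf (X - algebraMap A₀ B a) := by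
    rw [map_sub, ← IsScalarTower.algebraMap_apply A₀ B Lf]
  rw [e] at hXa ⊢
  obtain ⟨h1, h2⟩ := unip_tubeOrd_of_key hπ τ hτ hinj hB 𝔫 P hP.ord_nonneg hP.centre
    (X - algebraMap A₀ B a) a ha hXa (fun b hb =>
      unip_tube_key_node π 𝔫 hπ𝔫 X Y G q a t hq ht hXY hd ev
        (unip_tubeEv_dvd hπ hinj hP ev hev) (unip_tubeEv_ker hinj hP ev hev) hX ha b
        ((unip_tubeEv_eq_zero_iff P ev hev b).mpr hb))
  refine ⟨h1, fun Q hQ hQc hQP => ?_⟩
  have h3 := unip_ord_chart_nonneg τ hB Q hQ (X - algebraMap A₀ B a)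
  by_contra h4
  exact hQP (h2 Q hQ hQc (by omega))

/-- **TubeOrd, smooth point.**  `B = A₀[s] + 𝔫 ^ N`, `P` a rational point of the tube of `𝔫`
with `s(P) = a`.  Then `s - a` has a simple zero at `P` and order `0` at every other place with
centre in `𝔫`. -/
theorem unip_tubeOrd_disc [IsNoetherianRing B] {π : A₀} (hπ : Irreducible π) (τ : Lf)
    (hτ : Transcendental E τ) [FiniteDimensional E⟮τ⟯ Lf]
    (hinj : Function.Injective (algebraMap B Lf))
    (hB : ∀ x : Lf, x ∈ (algebraMap B Lf).range ↔ IsIntegral (Algebra.adjoin A₀ {τ}) x)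
    (𝔫 : Ideal B) [𝔫.IsPrime] (hπ𝔫 : algebraMap A₀ B π ∈ 𝔫)
    (s : B) (a : A₀)
    (hd : ∀ (N : ℕ) (b : B), ∃ c ∈ Algebra.adjoin A₀ ({s} : Set B), b - c ∈ 𝔫 ^ N)
    (P : Place E Lf) (hP : UnipTubePoint τ 𝔫 P)
    (hsa : algebraMap B Lf s - algebraMap A₀ Lf a ∈ P.toValuationSubring.nonunits) :
    P.ord (algebraMap B Lf s - algebraMap A₀ Lf a) = 1 ∧
    ∀ Q : Place E Lf, 0 ≤ Q.ord τ → (∀ b : B, 0 < Q.ord (algebraMap B Lf b) → b ∈ 𝔫) →
      Q ≠ P → Q.ord (algebraMap B Lf s - algebraMap A₀ Lf a) = 0 := by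
  obtain ⟨ev, hev⟩ := unip_exists_tubeEv hπ τ hinj hB 𝔫 hπ𝔫 P hP
  have hs : ev s = a := unip_value_unique P (hev s) hsa
  have e : algebraMap B Lf s - algebraMap A₀ Lf a = algebraMap B Lf (s - algebraMap A₀ B a) := by
    rw [map_sub, ← IsScalarTower.algebraMap_apply A₀ B Lf]
  rw [e] at hsa ⊢
  obtain ⟨h1, h2⟩ := unip_tubeOrd_of_key hπ τ hτ hinj hB 𝔫 P hP.ord_nonneg hP.centre
    (s - algebraMap A₀ B a) (1 : A₀) one_ne_zero hsa (fun b hb => by
      obtain ⟨u, c, hu, hc⟩ := unip_tube_key_disc π 𝔫 hπ𝔫 s hd ev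
        (unip_tubeEv_dvd hπ hinj hP ev hev) (unip_tubeEv_ker hinj hP ev hev) b
        ((unip_tubeEv_eq_zero_iff P ev hev b).mpr hb)
      refine ⟨0, u, c, hu, ?_⟩
      rw [pow_zero, map_one, one_mul, hc, hs])
  refine ⟨h1, fun Q hQ hQc hQP => ?_⟩
  have h3 := unip_ord_chart_nonneg τ hB Q hQ (s - algebraMap A₀ B a)
  by_contra h4
  exact hQP (h2 Q hQ hQc (by omega))

end Ord

end Fermat.Agent.UNIP


end ZBUNIP_008_1
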