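/- GENERATED FILE (helper35, build-time optimisation, NOTES/ZB.md): verbatim concatenation of the modules
   Fermat.Agent.PT.G1.Plan
   Fermat.Agent.PT.G1.Hexagon
   Fermat.Agent.PT.G1.Finite
   Fermat.Agent.PT.L.HerbrandOfG1
   Fermat.Agent.PT.L.NormIndexFinal
   Fermat.Agent.PT.L.CyclicFinal
   Fermat.Agent.PT.G3.GBLocNormQUnram
   Fermat.Agent.PT.L.CompositumNorm
   Fermat.Agent.PT.G1.Plan2
   Fermat.Agent.PT.G1.UnitRank
   Do not edit; do not import together with these modules. -/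
import Mathlib
import Fermat.Agent.ZB.PT_004
import Fermat.Agent.ZB.PT_005

/-! ### bundled: `Fermat.Agent.PT.G1.Plan` -/
section ZBPT_006_0
/-
PT-G1 (global first inequality) — INTERFACE FILE (definitions and statements only).
Project PT = Poitou–Tate campaign for S55 (captain helper55, NOTES/S55-plan.md);
PT-G1 sub-captain: helper63; piece table: NOTES/PT-G1.md.

Part 0: the Herbrand quotient of a pair of endomorphisms `(D, N)` of an abelian group
        (`D = σ - 1`, `N = 1 + σ + ⋯ + σ^(n-1)`), on plain `ℤ`-modules.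
Part 1: the Herbrand quotient of the `S`-units of a number field under an automorphism of odd
        prime order.
Every `Stmt…` below is a `Prop`; the piece `X` is DONE when `theorem stmtX : StmtX` is landed.
-/

set_option autoImplicit false

namespace Fermat.Agent.PT.G1

/-! ## Part 0: Herbrand calculus -/

section Herbrand

variable {M : Type*} [AddCommGroup M] [Module ℤ M]

/-- `|ker f / (im g ∩ ker f)|` (and `0` if this group is infinite). -/
noncomputable def hqCard (f g : Module.End ℤ M) : ℕ :=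
  Nat.card (↥(LinearMap.ker f) ⧸ (LinearMap.range g).submoduleOf (LinearMap.ker f))

/-- The Herbrand quotient `|ker D / im N| / |ker N / im D|` of the pair `(D, N)` is defined
(both groups are finite) and equals `q`. -/
def HasHQ (D N : Module.End ℤ M) (q : ℚ) : Prop :=
  hqCard D N ≠ 0 ∧ hqCard N D ≠ 0 ∧ (hqCard D N : ℚ) = q * hqCard N D

/-- `1 + σ + ⋯ + σ^(n-1)` -/
def nEnd (σ : Module.End ℤ M) (n : ℕ) : Module.End ℤ M := ∑ i ∈ Finset.range n, σ ^ i

/-- The Herbrand quotient of the cyclic module `(M, σ)`, `σ ^ n = 1`, is defined and equals `q`. -/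
def HasHQc (σ : Module.End ℤ M) (n : ℕ) (q : ℚ) : Prop :=
  σ ^ n = 1 ∧ HasHQ (σ - 1) (nEnd σ n) q

end Herbrand

/-- **HQ-hex** (hexagon): the Herbrand quotient is multiplicative in short exact sequences
`0 → A → B → C → 0`, and defined for all three as soon as it is for two of them. -/
def StmtHexagon : Prop :=
  ∀ (A B C : Type) [AddCommGroup A] [AddCommGroup B] [AddCommGroup C]
    [Module ℤ A] [Module ℤ B] [Module ℤ C]
    (DA NA : Module.End ℤ A) (DB NB : Module.End ℤ B) (DC NC : Module.End ℤ C)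
    (f : A →ₗ[ℤ] B) (g : B →ₗ[ℤ] C),
    DA * NA = 0 → NA * DA = 0 → DB * NB = 0 → NB * DB = 0 → DC * NC = 0 → NC * DC = 0 →
    Function.Injective f → Function.Surjective g → LinearMap.range f = LinearMap.ker g →
    f ∘ₗ DA = DB ∘ₗ f → f ∘ₗ NA = NB ∘ₗ f → g ∘ₗ DB = DC ∘ₗ g → g ∘ₗ NB = NC ∘ₗ g →
    ∀ qA qB qC : ℚ,
      (HasHQ DA NA qA → HasHQ DC NC qC → HasHQ DB NB (qA * qC)) ∧
      (HasHQ DA NA qA → HasHQ DB NB qB → HasHQ DC NC (qB / qA)) ∧
      (HasHQ DB NB qB → HasHQ DC NC qC → HasHQ DA NA (qB / qC))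

/-- **HQ-fin**: a finite module has Herbrand quotient `1`. -/
def StmtFinite : Prop :=
  ∀ (M : Type) [AddCommGroup M] [Module ℤ M] [Finite M] (D N : Module.End ℤ M),
    D * N = 0 → N * D = 0 → HasHQ D N 1

/-- **HQ-iso**: invariance under isomorphism. -/
def StmtIso : Prop :=
  ∀ (A B : Type) [AddCommGroup A] [AddCommGroup B] [Module ℤ A] [Module ℤ B]
    (DA NA : Module.End ℤ A)
    (DB NB : Module.End ℤ B) (e : A ≃ₗ[ℤ] B),
    e.toLinearMap ∘ₗ DA = DB ∘ₗ e.toLinearMap → e.toLinearMap ∘ₗ NA = NB ∘ₗ e.toLinearMap →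
    hqCard DA NA = hqCard DB NB ∧ hqCard NA DA = hqCard NB DB

/-- **HQ-orbit** (semi-local modules): if `M = ∏_{t ∈ T} X t` and `σ` permutes the factors through
a permutation `π` of `T` with `π ^ n = 1`, `σ ^ n = 1`, then the Herbrand quotient of `(M, σ)` is
the product over the FIXED points `t` of `π` of the Herbrand quotients of `(X t, σ|_{X t})`.
(The free orbits are induced modules and contribute `1` when `n` is prime.) -/
def StmtOrbit : Prop :=
  ∀ (p : ℕ) [Fact p.Prime] (T : Type) [Fintype T] [DecidableEq T] (X : T → Type)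
    [∀ t, AddCommGroup (X t)] [∀ t, Module ℤ (X t)] (π : Equiv.Perm T) (σ : Module.End ℤ (∀ t, X t))
    (τ : ∀ t, Module.End ℤ (X t)) (q : T → ℚ),
    π ^ p = 1 → σ ^ p = 1 →
    (∀ (t : T) (x : ∀ t, X t), x t = 0 → σ x (π t) = 0) →
    (∀ (t : T), π t = t → ∀ x : ∀ t, X t, σ x t = τ t (x t)) →
    (∀ t, π t = t → HasHQc (τ t) p (q t)) →
    HasHQc σ p (∏ t ∈ Finset.univ.filter (fun t => π t = t), q t)

/-- **HQ-rank** (rank formula): for `σ` of prime order `p` on a finitely generated abelian group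
`M`, the Herbrand quotient is `p ^ e` with `(p - 1) e = p · rank (M^σ) - rank M`. -/
def StmtRank : Prop :=
  ∀ (p : ℕ) [Fact p.Prime] (M : Type) [AddCommGroup M] [Module ℤ M] [Module.Finite ℤ M]
    (σ : Module.End ℤ M), σ ^ p = 1 →
    ∀ e : ℤ, ((p : ℤ) - 1) * e =
        (p : ℤ) * Module.finrank ℤ (LinearMap.ker (σ - 1 : Module.End ℤ M)) - Module.finrank ℤ M →
      HasHQc σ p ((p : ℚ) ^ e)

/-- **HQ-four** (corollary of HQ-hex and HQ-fin): for an exact sequence `0 → E → J → C → F → 0`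
with `F` finite, `h(C) = h(J) / h(E)`. -/
def StmtFourTerm : Prop :=
  ∀ (E J C F : Type) [AddCommGroup E] [AddCommGroup J] [AddCommGroup C] [AddCommGroup F]
    [Module ℤ E] [Module ℤ J] [Module ℤ C] [Module ℤ F] [Finite F]
    (DE NE : Module.End ℤ E) (DJ NJ : Module.End ℤ J) (DC NC : Module.End ℤ C)
    (DF NF : Module.End ℤ F)
    (f : E →ₗ[ℤ] J) (g : J →ₗ[ℤ] C) (h : C →ₗ[ℤ] F),
    DE * NE = 0 → NE * DE = 0 → DJ * NJ = 0 → NJ * DJ = 0 → DC * NC = 0 → NC * DC = 0 →
    DF * NF = 0 → NF * DF = 0 →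
    Function.Injective f → LinearMap.range f = LinearMap.ker g →
    LinearMap.range g = LinearMap.ker h → Function.Surjective h →
    f ∘ₗ DE = DJ ∘ₗ f → f ∘ₗ NE = NJ ∘ₗ f → g ∘ₗ DJ = DC ∘ₗ g → g ∘ₗ NJ = NC ∘ₗ g →
    h ∘ₗ DC = DF ∘ₗ h → h ∘ₗ NC = NF ∘ₗ h →
    ∀ qE qJ : ℚ, HasHQ DE NE qE → HasHQ DJ NJ qJ → HasHQ DC NC (qJ / qE)

/-- **HQ-bridge**: for a finite cyclic group `G = ⟨g⟩` and `A : Rep ℤ G`, the orders of Mathlib's
`H²(G, A)` and `H¹(G, A)` are the two numbers of the Herbrand quotient of `(A, ρ g)`. -/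
def StmtBridge : Prop :=
  ∀ (G : Type) [CommGroup G] [Fintype G] (A : Rep.{0} ℤ G) (g : G),
    (∀ x, x ∈ Subgroup.zpowers g) →
    Nat.card (groupCohomology.H2 A) =
      @hqCard A.V _ A.hV2 (A.ρ g - 1) (@nEnd A.V _ A.hV2 (A.ρ g) (Fintype.card G)) ∧
    Nat.card (groupCohomology.H1 A) =
      @hqCard A.V _ A.hV2 (@nEnd A.V _ A.hV2 (A.ρ g) (Fintype.card G)) (A.ρ g - 1)

/-! ## Part 1: `S`-units of a number field -/

section Units

open NumberField

/-- The `N`-units of a field `L`: the `u ∈ Lˣ` such that `N ^ k * u` and `N ^ k * u⁻¹` are integral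
over `ℤ` for some `k`. For a number field these are the units of `𝓞 L [1/N]`, i.e. the `S`-units
for `S` = the set of primes of `𝓞 L` dividing `N`. -/
def nUnits (N : ℕ) (L : Type*) [Field L] : Subgroup Lˣ where
  carrier := {u | ∃ k : ℕ, IsIntegral ℤ ((N : L) ^ k * (u : L)) ∧
    IsIntegral ℤ ((N : L) ^ k * ((u⁻¹ : Lˣ) : L))}
  mul_mem' := by
    rintro u v ⟨k, h1, h2⟩ ⟨l, h3, h4⟩
    refine ⟨k + l, ?_, ?_⟩
    · have := h1.mul h3
      rwa [show (N : L) ^ (k + l) * ((u * v : Lˣ) : L) = (N : L) ^ k * u * ((N : L) ^ l * v) by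
        push_cast; ring]
    · have := h2.mul h4
      rwa [show (N : L) ^ (k + l) * (((u * v)⁻¹ : Lˣ) : L) =
        (N : L) ^ k * ((u⁻¹ : Lˣ) : L) * ((N : L) ^ l * ((v⁻¹ : Lˣ) : L)) by
        rw [mul_inv]; push_cast; ring]
  one_mem' := ⟨0, by simpa using isIntegral_one, by simpa using isIntegral_one⟩
  inv_mem' := by
    rintro u ⟨k, h1, h2⟩
    exact ⟨k, h2, by simpa using h1⟩

/-- The action of a field automorphism on the `N`-units, as a group endomorphism. -/
def nUnitsHom (N : ℕ) {L : Type*} [Field L] (σ : L ≃+* L) : nUnits N L →* nUnits N L where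
  toFun u := ⟨Units.map (σ : L →* L) (u : Lˣ), by
    obtain ⟨k, h1, h2⟩ := u.2
    refine ⟨k, ?_, ?_⟩
    · have := h1.map (σ : L →+* L).toIntAlgHom
      simpa using this
    · have := h2.map (σ : L →+* L).toIntAlgHom
      simpa using this⟩
  map_one' := by ext; simp
  map_mul' u v := by ext; simp

/-- The action of a field automorphism on the `N`-units, as an endomorphism of the `ℤ`-module
`Additive (nUnits N L)`. -/
def nUnitsEnd (N : ℕ) {L : Type*} [Field L] (σ : L ≃+* L) :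
    Module.End ℤ (Additive (nUnits N L)) :=
  (MonoidHom.toAdditive (nUnitsHom N σ)).toIntLinearMap

/-- The primes of `𝓞 L` containing `N`. -/
def primesAbove (N : ℕ) (L : Type*) [Field L] : Set (Ideal (𝓞 L)) :=
  {P | P.IsPrime ∧ (N : 𝓞 L) ∈ P}

/-- The primes of `𝓞 L` containing `N` which are stable under the automorphism `σ`. -/
def fixedPrimesAbove (N : ℕ) {L : Type*} [Field L] (σ : L ≃+* L) : Set (Ideal (𝓞 L)) :=
  {P | P.IsPrime ∧ (N : 𝓞 L) ∈ P ∧ ∀ x ∈ P, RingOfIntegers.mapRingEquiv σ x ∈ P}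

/-- **U-rank** (Dirichlet's `S`-unit theorem): the `N`-units of a number field are a finitely
generated group of rank `r₁ + r₂ - 1 + #{P ∣ N}`. -/
def StmtUnitRank : Prop :=
  ∀ (L : Type) [Field L] [NumberField L] (N : ℕ), N ≠ 0 →
    Module.Finite ℤ (Additive (nUnits N L)) ∧
    Module.finrank ℤ (Additive (nUnits N L)) = Units.rank L + (primesAbove N L).ncard

/-- **U-fix**: for a cyclic Galois extension `L/K` of number fields with generator `σ`, the
`σ`-invariant `N`-units of `L` have the same rank as the `N`-units of `K` (they are the `N`-units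
of `K`). -/
def StmtUnitFixed : Prop :=
  ∀ (K L : Type) [Field K] [Field L] [NumberField K] [NumberField L] [Algebra K L] [IsGalois K L]
    (σ : L ≃ₐ[K] L), (∀ τ : L ≃ₐ[K] L, τ ∈ Subgroup.zpowers σ) → ∀ N : ℕ, N ≠ 0 →
    Module.finrank ℤ (LinearMap.ker (nUnitsEnd N (σ : L ≃+* L) - 1)) =
      Module.finrank ℤ (Additive (nUnits N K))

/-- **U-inf**: in a Galois extension of number fields of odd degree `p`, every infinite place
splits completely: `r_L + 1 = p (r_K + 1)` for the unit ranks. -/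
def StmtInfCount : Prop :=
  ∀ (p : ℕ), Odd p → ∀ (K L : Type) [Field K] [Field L] [NumberField K] [NumberField L]
    [Algebra K L] [IsGalois K L], Module.finrank K L = p →
    Units.rank L + 1 = p * (Units.rank K + 1)

/-- **U-cnt**: in a cyclic extension `L/K` of prime degree `p` with generator `σ`, over each prime
of `K` dividing `N` there is either one (`σ`-stable) prime of `L` or there are `p` primes (none of
them `σ`-stable): `#{P ∣ N} + (p - 1) #{P ∣ N, σ P = P} = p #{𝔭 ∣ N}`. -/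
def StmtPrimeCount : Prop :=
  ∀ (p : ℕ) [Fact p.Prime] (K L : Type) [Field K] [Field L] [NumberField K] [NumberField L]
    [Algebra K L] [IsGalois K L] (σ : L ≃ₐ[K] L),
    Module.finrank K L = p → (∀ τ : L ≃ₐ[K] L, τ ∈ Subgroup.zpowers σ) → ∀ N : ℕ, N ≠ 0 →
    (primesAbove N L).ncard + (p - 1) * (fixedPrimesAbove N (σ : L ≃+* L)).ncard =
      p * (primesAbove N K).ncard

/-- **U-main**: the Herbrand quotient of the `N`-units of a number field `L` under an
automorphism `σ` of odd prime order `p` is `p ^ (f - 1)`, `f` the number of `σ`-stable primes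
of `𝓞 L` dividing `N`. -/
def StmtUnitsHQ : Prop :=
  ∀ (p : ℕ) [Fact p.Prime], p ≠ 2 → ∀ (L : Type) [Field L] [NumberField L] (σ : L ≃+* L),
    orderOf σ = p → ∀ N : ℕ, N ≠ 0 →
      HasHQc (nUnitsEnd N σ) p ((p : ℚ) ^ (((fixedPrimesAbove N σ).ncard : ℤ) - 1))

end Units

end Fermat.Agent.PT.G1


end ZBPT_006_0

/-! ### bundled: `Fermat.Agent.PT.G1.Hexagon` -/
section ZBPT_006_1

/-!
# PT-G1 / HQ-hex — the Herbrand hexagon, by index counting

`stmtHexagon : StmtHexagon`: the Herbrand quotient of a pair `(D, N)` is multiplicative in short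
exact sequences `0 → A → B → C → 0`, and is defined for all three as soon as it is for two.

Proof: no quotient maps and no connecting homomorphism. All six groups are relative indices of
subgroups of `B` (`A` is replaced by `A' = range f`, `C` by `B / A'`):
`h⁰(A) = k₁ k₂`, `h⁰(B) = k₂ k₃`, `h⁰(C) = k₃ k₄`, `h¹(A) = k₄ k₅`, `h¹(B) = k₅ k₆`,
`h¹(C) = k₆ k₁` with
`k_im(D,N) = [ker D ∩ A' : N B ∩ A']`, `k_β(D,N) = [ker D : N B + ker D ∩ A']`,
`k_δ(D,N) = [D B ∩ A' : D A']` and `k₁ = k_δ(N,D)`, `k₂ = k_im(D,N)`, `k₃ = k_β(D,N)`,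
`k₄ = k_δ(D,N)`, `k₅ = k_im(N,D)`, `k₆ = k_β(N,D)` (indices are `0` when infinite, and
`AddSubgroup.relIndex_mul_relIndex` holds unconditionally).
-/

set_option autoImplicit false

namespace Fermat.Agent.PT.G1

namespace Hex

variable {B : Type*} [AddCommGroup B]

/-- `[ker D ∩ A' : N B ∩ A']` -/
noncomputable def kIm (D N : B →+ B) (A' : AddSubgroup B) : ℕ :=
  (N.range ⊓ A').relIndex (D.ker ⊓ A')

/-- `[ker D : N B + ker D ∩ A']` -/
noncomputable def kBeta (D N : B →+ B) (A' : AddSubgroup B) : ℕ :=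
  (N.range ⊔ (D.ker ⊓ A')).relIndex D.ker

/-- `[D B ∩ A' : D A']` -/
noncomputable def kDelta (D : B →+ B) (A' : AddSubgroup B) : ℕ :=
  (A'.map D).relIndex (D.range ⊓ A')

theorem range_le_ker {D N : B →+ B} (hDN : D.comp N = 0) : N.range ≤ D.ker := by
  rintro _ ⟨x, rfl⟩
  rw [AddMonoidHom.mem_ker]
  exact DFunLike.congr_fun hDN x

/-- `h(A) = [ker D ∩ A' : N A'] = k_δ(N) · k_im(D,N)`. -/
theorem hA_eq (D N : B →+ B) (A' : AddSubgroup B) (hDN : D.comp N = 0)
    (hNA : A'.map N ≤ A') :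
    (A'.map N).relIndex (D.ker ⊓ A') = kDelta N A' * kIm D N A' := by
  unfold kDelta kIm
  refine (AddSubgroup.relIndex_mul_relIndex _ _ _ ?_ ?_).symm
  · exact le_inf (AddSubgroup.map_le_range N A') hNA
  · exact inf_le_inf_right A' (range_le_ker hDN)

/-- `h(B) = [ker D : N B] = k_im(D,N) · k_β(D,N)`. -/
theorem hB_eq (D N : B →+ B) (A' : AddSubgroup B) (hDN : D.comp N = 0) :
    N.range.relIndex D.ker = kIm D N A' * kBeta D N A' := by
  unfold kIm kBeta
  have hle := range_le_ker hDN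
  have h1 : N.range.relIndex (N.range ⊔ (D.ker ⊓ A')) = (N.range ⊓ A').relIndex (D.ker ⊓ A') := by
    rw [AddSubgroup.relIndex_sup_left, ← AddSubgroup.inf_relIndex_right]
    congr 1
    rw [← inf_assoc, inf_eq_left.mpr hle]
  rw [← h1]
  refine (AddSubgroup.relIndex_mul_relIndex _ _ _ le_sup_left ?_).symm
  exact sup_le hle inf_le_left

/-- `h(C) = [D⁻¹ A' : N B + A'] = k_β(D,N) · k_δ(D)`. -/
theorem hC_eq (D N : B →+ B) (A' : AddSubgroup B) (hDN : D.comp N = 0)
    (hDA : A'.map D ≤ A') :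
    (N.range ⊔ A').relIndex (A'.comap D) = kBeta D N A' * kDelta D A' := by
  unfold kBeta kDelta
  have hle := range_le_ker hDN
  have hA'le : A' ≤ A'.comap D := by
    intro a ha
    exact hDA ⟨a, ha, rfl⟩
  have hkle : D.ker ≤ A'.comap D := by
    intro b hb
    rw [AddSubgroup.mem_comap, AddMonoidHom.mem_ker.mp hb]
    exact zero_mem _
  -- first factor
  have h1 : (N.range ⊔ A').relIndex (D.ker ⊔ A') = (N.range ⊔ (D.ker ⊓ A')).relIndex D.ker := by
    have e1 : D.ker ⊔ A' = D.ker ⊔ (N.range ⊔ A') := by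
      rw [← sup_assoc, sup_eq_left.mpr hle]
    rw [e1, AddSubgroup.relIndex_sup_right, ← AddSubgroup.inf_relIndex_right]
    congr 1
    rw [sup_inf_assoc_of_le A' hle, inf_comm A' D.ker]
  -- second factor
  have h2 : (D.ker ⊔ A').relIndex (A'.comap D) = (A'.map D).relIndex (D.range ⊓ A') := by
    have e2 : D.ker ⊔ A' = (A'.map D).comap D := by
      rw [AddSubgroup.comap_map_eq, sup_comm]
    rw [e2, AddSubgroup.relIndex_comap, AddSubgroup.map_comap_eq]
  rw [← h1, ← h2]
  refine (AddSubgroup.relIndex_mul_relIndex _ _ _ ?_ ?_).symm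
  · exact sup_le_sup_right hle A'
  · exact sup_le hkle hA'le

/-! ### `hqCard` as a relative index, and transport along `f` and `g` -/

theorem hqCard_eq_relIndex {M : Type*} [AddCommGroup M] [Module ℤ M] (D N : Module.End ℤ M) :
    hqCard D N =
      (N : M →ₗ[ℤ] M).toAddMonoidHom.range.relIndex (D : M →ₗ[ℤ] M).toAddMonoidHom.ker :=
  rfl

section Transport

variable {A C : Type*} [AddCommGroup A] [AddCommGroup C]

/-- Transport of `h(A)` along an injective intertwiner `f : A → B`. -/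
theorem relIndex_A (f : A →+ B) (hf : Function.Injective f) (DA NA : A →+ A) (DB NB : B →+ B)
    (hD : f.comp DA = DB.comp f) (hN : f.comp NA = NB.comp f) :
    NA.range.relIndex DA.ker = (f.range.map NB).relIndex (DB.ker ⊓ f.range) := by
  rw [← AddSubgroup.relIndex_map_map_of_injective _ _ hf]
  congr 1
  · ext b
    constructor
    · rintro ⟨_, ⟨a, rfl⟩, rfl⟩
      exact ⟨f a, ⟨a, rfl⟩, (DFunLike.congr_fun hN a).symm⟩
    · rintro ⟨_, ⟨a, rfl⟩, rfl⟩
      exact ⟨NA a, ⟨a, rfl⟩, DFunLike.congr_fun hN a⟩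
  · ext b
    simp only [AddSubgroup.mem_map, AddSubgroup.mem_inf, AddMonoidHom.mem_ker,
      AddMonoidHom.mem_range]
    constructor
    · rintro ⟨a, ha, rfl⟩
      refine ⟨?_, ⟨a, rfl⟩⟩
      have h := DFunLike.congr_fun hD a
      simp only [AddMonoidHom.comp_apply] at h
      rw [← h, ha, map_zero]
    · rintro ⟨hb, ⟨a, rfl⟩⟩
      refine ⟨a, ?_, rfl⟩
      have h := DFunLike.congr_fun hD a
      simp only [AddMonoidHom.comp_apply] at h
      rw [← h] at hb
      exact hf (by rw [hb, map_zero])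

/-- Transport of `h(C)` along a surjective intertwiner `g : B → C`. -/
theorem relIndex_C (g : B →+ C) (hg : Function.Surjective g) (DB NB : B →+ B) (DC NC : C →+ C)
    (hD : g.comp DB = DC.comp g) (hN : g.comp NB = NC.comp g) :
    NC.range.relIndex DC.ker = (NB.range ⊔ g.ker).relIndex (g.ker.comap DB) := by
  have h1 : NC.range.comap g = NB.range ⊔ g.ker := by
    rw [← AddSubgroup.comap_map_eq]
    congr 1
    ext c
    constructor
    · rintro ⟨c', rfl⟩
      obtain ⟨b, rfl⟩ := hg c'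
      exact ⟨NB b, ⟨b, rfl⟩, DFunLike.congr_fun hN b⟩
    · rintro ⟨_, ⟨b, rfl⟩, rfl⟩
      exact ⟨g b, (DFunLike.congr_fun hN b).symm⟩
  have h2 : DC.ker.comap g = g.ker.comap DB := by
    ext b
    simp only [AddSubgroup.mem_comap, AddMonoidHom.mem_ker]
    have h := DFunLike.congr_fun hD b
    simp only [AddMonoidHom.comp_apply] at h
    rw [h]
  rw [← h1, ← h2, AddSubgroup.relIndex_comap, AddSubgroup.map_comap_eq,
    AddMonoidHom.range_eq_top.mpr hg, top_inf_eq]

end Transport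

/-- The six numbers of the hexagon. -/
theorem six (A C : Type*) [AddCommGroup A] [AddCommGroup C]
    (f : A →+ B) (g : B →+ C) (hf : Function.Injective f) (hg : Function.Surjective g)
    (hfg : f.range = g.ker) (DA NA : A →+ A) (DB NB : B →+ B) (DC NC : C →+ C)
    (hB1 : DB.comp NB = 0) (hB2 : NB.comp DB = 0)
    (hfD : f.comp DA = DB.comp f) (hfN : f.comp NA = NB.comp f)
    (hgD : g.comp DB = DC.comp g) (hgN : g.comp NB = NC.comp g) :
    ∃ k₁ k₂ k₃ k₄ k₅ k₆ : ℕ,
      NA.range.relIndex DA.ker = k₁ * k₂ ∧ NB.range.relIndex DB.ker = k₂ * k₃ ∧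
      NC.range.relIndex DC.ker = k₃ * k₄ ∧ DA.range.relIndex NA.ker = k₄ * k₅ ∧
      DB.range.relIndex NB.ker = k₅ * k₆ ∧ DC.range.relIndex NC.ker = k₆ * k₁ := by
  have hDA' : f.range.map DB ≤ f.range := by
    rintro _ ⟨_, ⟨a, rfl⟩, rfl⟩
    exact ⟨DA a, DFunLike.congr_fun hfD a⟩
  have hNA' : f.range.map NB ≤ f.range := by
    rintro _ ⟨_, ⟨a, rfl⟩, rfl⟩
    exact ⟨NA a, DFunLike.congr_fun hfN a⟩
  refine ⟨kDelta NB f.range, kIm DB NB f.range, kBeta DB NB f.range, kDelta DB f.range,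
    kIm NB DB f.range, kBeta NB DB f.range, ?_, ?_, ?_, ?_, ?_, ?_⟩
  · rw [relIndex_A f hf DA NA DB NB hfD hfN]
    exact hA_eq DB NB f.range hB1 hNA'
  · exact hB_eq DB NB f.range hB1
  · rw [relIndex_C g hg DB NB DC NC hgD hgN, ← hfg]
    exact hC_eq DB NB f.range hB1 hDA'
  · rw [relIndex_A f hf NA DA NB DB hfN hfD]
    exact hA_eq NB DB f.range hB2 hDA'
  · exact hB_eq NB DB f.range hB2
  · rw [relIndex_C g hg NB DB NC DC hgN hgD, ← hfg]
    exact hC_eq NB DB f.range hB2 hNA'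

end Hex

open Hex in
/-- **HQ-hex**: the Herbrand hexagon. -/
theorem stmtHexagon : StmtHexagon := by
  intro A B C _ _ _ _ _ _ DA NA DB NB DC NC f g _ _ hB1 hB2 _ _ hf hg hfg hfD hfN hgD hgN qA qB qC
  obtain ⟨k₁, k₂, k₃, k₄, k₅, k₆, e1, e2, e3, e4, e5, e6⟩ :=
    six A C f.toAddMonoidHom g.toAddMonoidHom hf hg
      (by
        have := congrArg Submodule.toAddSubgroup hfg
        exact this)
      DA.toAddMonoidHom NA.toAddMonoidHom DB.toAddMonoidHom NB.toAddMonoidHom
      DC.toAddMonoidHom NC.toAddMonoidHom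
      (by ext x; exact DFunLike.congr_fun hB1 x) (by ext x; exact DFunLike.congr_fun hB2 x)
      (by ext x; exact DFunLike.congr_fun hfD x) (by ext x; exact DFunLike.congr_fun hfN x)
      (by ext x; exact DFunLike.congr_fun hgD x) (by ext x; exact DFunLike.congr_fun hgN x)
  have a0 : hqCard DA NA = k₁ * k₂ := e1
  have b0 : hqCard DB NB = k₂ * k₃ := e2
  have c0 : hqCard DC NC = k₃ * k₄ := e3
  have a1 : hqCard NA DA = k₄ * k₅ := e4
  have b1 : hqCard NB DB = k₅ * k₆ := e5
  have c1 : hqCard NC DC = k₆ * k₁ := e6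
  unfold HasHQ
  rw [a0, b0, c0, a1, b1, c1]
  refine ⟨?_, ?_, ?_⟩
  · rintro ⟨h1, h2, h3⟩ ⟨h4, h5, h6⟩
    have n1 : k₁ ≠ 0 := left_ne_zero_of_mul h1
    have n2 : k₂ ≠ 0 := right_ne_zero_of_mul h1
    have n4 : k₄ ≠ 0 := left_ne_zero_of_mul h2
    have n5 : k₅ ≠ 0 := right_ne_zero_of_mul h2
    have n3 : k₃ ≠ 0 := left_ne_zero_of_mul h4
    have n6 : k₆ ≠ 0 := left_ne_zero_of_mul h5
    refine ⟨mul_ne_zero n2 n3, mul_ne_zero n5 n6, ?_⟩
    have hA : qA = (k₁ * k₂ : ℚ) / (k₄ * k₅) := by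
      push_cast at h3
      field_simp
      linarith
    have hC : qC = (k₃ * k₄ : ℚ) / (k₆ * k₁) := by
      push_cast at h6
      field_simp
      linarith
    rw [hA, hC]
    push_cast
    field_simp
  · rintro ⟨h1, h2, h3⟩ ⟨h4, h5, h6⟩
    have n1 : k₁ ≠ 0 := left_ne_zero_of_mul h1
    have n2 : k₂ ≠ 0 := right_ne_zero_of_mul h1
    have n4 : k₄ ≠ 0 := left_ne_zero_of_mul h2
    have n5 : k₅ ≠ 0 := right_ne_zero_of_mul h2
    have n3 : k₃ ≠ 0 := right_ne_zero_of_mul h4
    have n6 : k₆ ≠ 0 := right_ne_zero_of_mul h5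
    refine ⟨mul_ne_zero n3 n4, mul_ne_zero n6 n1, ?_⟩
    have hA : qA = (k₁ * k₂ : ℚ) / (k₄ * k₅) := by
      push_cast at h3
      field_simp
      linarith
    have hB : qB = (k₂ * k₃ : ℚ) / (k₅ * k₆) := by
      push_cast at h6
      field_simp
      linarith
    rw [hA, hB]
    push_cast
    field_simp
  · rintro ⟨h1, h2, h3⟩ ⟨h4, h5, h6⟩
    have n2 : k₂ ≠ 0 := left_ne_zero_of_mul h1
    have n3 : k₃ ≠ 0 := right_ne_zero_of_mul h1
    have n5 : k₅ ≠ 0 := left_ne_zero_of_mul h2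
    have n6 : k₆ ≠ 0 := right_ne_zero_of_mul h2
    have n4 : k₄ ≠ 0 := right_ne_zero_of_mul h4
    have n1 : k₁ ≠ 0 := right_ne_zero_of_mul h5
    refine ⟨mul_ne_zero n1 n2, mul_ne_zero n4 n5, ?_⟩
    have hB : qB = (k₂ * k₃ : ℚ) / (k₅ * k₆) := by
      push_cast at h3
      field_simp
      linarith
    have hC : qC = (k₃ * k₄ : ℚ) / (k₆ * k₁) := by
      push_cast at h6
      field_simp
      linarith
    rw [hB, hC]
    push_cast
    field_simp

end Fermat.Agent.PT.G1


end ZBPT_006_1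

/-! ### bundled: `Fermat.Agent.PT.G1.Finite` -/
section ZBPT_006_2

/-!
# PT-G1, piece HQ-fin: the Herbrand quotient of a finite module is `1`; invariance under
isomorphism.

The counting lemmas are stated over an arbitrary ring `R` (so that no instance of `Module ℤ _`
is synthesised) and specialised to the `ℤ`-module structure of the interface at the end.
-/

set_option autoImplicit false

namespace Fermat.Agent.PT.G1

section generic

variable {R : Type*} [Ring R] {M : Type*} [AddCommGroup M] [Module R M]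

/-- Lagrange for the quotient defining `hqCard` when `im g ⊆ ker f`. -/
theorem fin_card_quot_mul_card_range (f g : M →ₗ[R] M) (h : f ∘ₗ g = 0) :
    Nat.card (↥(LinearMap.ker f) ⧸ (LinearMap.range g).submoduleOf (LinearMap.ker f)) *
      Nat.card (LinearMap.range g) = Nat.card (LinearMap.ker f) := by
  have hle : LinearMap.range g ≤ LinearMap.ker f := by
    rintro _ ⟨x, rfl⟩
    rw [LinearMap.mem_ker]
    exact LinearMap.congr_fun h x
  have h1 := Submodule.card_eq_card_quotient_mul_card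
    ((LinearMap.range g).submoduleOf (LinearMap.ker f))
  have h2 : Nat.card ((LinearMap.range g).submoduleOf (LinearMap.ker f)) =
      Nat.card (LinearMap.range g) :=
    Nat.card_congr (Submodule.submoduleOfEquivOfLe hle).toEquiv
  rw [h2] at h1
  rw [h1, mul_comm]

theorem fin_card_ker_mul_card_range (f : M →ₗ[R] M) :
    Nat.card (LinearMap.ker f) * Nat.card (LinearMap.range f) = Nat.card M := by
  have h1 := Submodule.card_eq_card_quotient_mul_card (LinearMap.ker f)
  have h2 : Nat.card (M ⧸ LinearMap.ker f) = Nat.card (LinearMap.range f) :=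
    Nat.card_congr (LinearMap.quotKerEquivRange f).toEquiv
  rw [h2] at h1
  exact h1.symm

/-- the two numbers of the Herbrand quotient of a finite module are nonzero and equal -/
theorem fin_card_quot_eq [Finite M] (D N : M →ₗ[R] M) (h1 : D ∘ₗ N = 0) (h2 : N ∘ₗ D = 0) :
    Nat.card (↥(LinearMap.ker D) ⧸ (LinearMap.range N).submoduleOf (LinearMap.ker D)) ≠ 0 ∧
    Nat.card (↥(LinearMap.ker N) ⧸ (LinearMap.range D).submoduleOf (LinearMap.ker N)) ≠ 0 ∧
    Nat.card (↥(LinearMap.ker D) ⧸ (LinearMap.range N).submoduleOf (LinearMap.ker D)) =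
      Nat.card (↥(LinearMap.ker N) ⧸ (LinearMap.range D).submoduleOf (LinearMap.ker N)) := by
  have hM : Nat.card M ≠ 0 := Nat.card_pos.ne'
  have hD := fin_card_ker_mul_card_range D
  have hN := fin_card_ker_mul_card_range N
  have hDN := fin_card_quot_mul_card_range D N h1
  have hND := fin_card_quot_mul_card_range N D h2
  set a := Nat.card (↥(LinearMap.ker D) ⧸ (LinearMap.range N).submoduleOf (LinearMap.ker D))
  set b := Nat.card (↥(LinearMap.ker N) ⧸ (LinearMap.range D).submoduleOf (LinearMap.ker N))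
  set rD := Nat.card (LinearMap.range D)
  set rN := Nat.card (LinearMap.range N)
  set kD := Nat.card (LinearMap.ker D)
  set kN := Nat.card (LinearMap.ker N)
  have hrD : rD ≠ 0 := by
    intro h0
    rw [h0, mul_zero] at hD
    exact hM hD.symm
  have hrN : rN ≠ 0 := by
    intro h0
    rw [h0, mul_zero] at hN
    exact hM hN.symm
  have hkD : kD ≠ 0 := by
    intro h0
    rw [h0, zero_mul] at hD
    exact hM hD.symm
  have hkN : kN ≠ 0 := by
    intro h0
    rw [h0, zero_mul] at hN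
    exact hM hN.symm
  have e1 : a ≠ 0 := by
    intro h0
    rw [h0, zero_mul] at hDN
    exact hkD hDN.symm
  have e2 : b ≠ 0 := by
    intro h0
    rw [h0, zero_mul] at hND
    exact hkN hND.symm
  refine ⟨e1, e2, ?_⟩
  have key : a * (rN * rD) = b * (rN * rD) := by
    calc a * (rN * rD) = (a * rN) * rD := by ring
      _ = Nat.card M := by rw [hDN, hD]
      _ = (b * rD) * rN := by rw [hND, hN]
      _ = b * (rN * rD) := by ring
  exact Nat.eq_of_mul_eq_mul_right (Nat.pos_of_ne_zero (Nat.mul_ne_zero hrN hrD)) key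

variable {B : Type*} [AddCommGroup B] [Module R B]

theorem fin_card_quot_congr (fA gA : M →ₗ[R] M) (fB gB : B →ₗ[R] B) (e : M ≃ₗ[R] B)
    (hf : e.toLinearMap ∘ₗ fA = fB ∘ₗ e.toLinearMap)
    (hg : e.toLinearMap ∘ₗ gA = gB ∘ₗ e.toLinearMap) :
    Nat.card (↥(LinearMap.ker fA) ⧸ (LinearMap.range gA).submoduleOf (LinearMap.ker fA)) =
      Nat.card (↥(LinearMap.ker fB) ⧸ (LinearMap.range gB).submoduleOf (LinearMap.ker fB)) := by
  have hf' : ∀ x, e (fA x) = fB (e x) := fun x => LinearMap.congr_fun hf x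
  have hg' : ∀ x, e (gA x) = gB (e x) := fun x => LinearMap.congr_fun hg x
  have hker : Submodule.map (e : M →ₗ[R] B) (LinearMap.ker fA) = LinearMap.ker fB := by
    ext y
    constructor
    · rintro ⟨x, hx, rfl⟩
      rw [SetLike.mem_coe, LinearMap.mem_ker] at hx
      rw [LinearMap.mem_ker]
      change fB (e x) = 0
      rw [← hf', hx, map_zero]
    · intro hy
      rw [LinearMap.mem_ker] at hy
      refine ⟨e.symm y, ?_, e.apply_symm_apply y⟩
      rw [SetLike.mem_coe, LinearMap.mem_ker]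
      apply e.injective
      rw [hf', e.apply_symm_apply, hy, map_zero]
  let eK : ↥(LinearMap.ker fA) ≃ₗ[R] ↥(LinearMap.ker fB) :=
    LinearEquiv.ofSubmodules e _ _ hker
  have heK : ∀ x : ↥(LinearMap.ker fA), ((eK x : ↥(LinearMap.ker fB)) : B) = e (x : M) :=
    fun _ => rfl
  have hmap : Submodule.map (eK : ↥(LinearMap.ker fA) →ₗ[R] ↥(LinearMap.ker fB))
      ((LinearMap.range gA).submoduleOf (LinearMap.ker fA)) =
      (LinearMap.range gB).submoduleOf (LinearMap.ker fB) := by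
    ext y
    rw [Submodule.mem_map]
    constructor
    · rintro ⟨x, hx, rfl⟩
      obtain ⟨z, hz⟩ := hx
      refine ⟨e z, ?_⟩
      change gB (e z) = ((eK x : ↥(LinearMap.ker fB)) : B)
      rw [heK, ← hg']
      exact congrArg e hz
    · rintro ⟨z, hz⟩
      refine ⟨eK.symm y, ⟨e.symm z, ?_⟩, eK.apply_symm_apply y⟩
      change gA (e.symm z) = ((eK.symm y : ↥(LinearMap.ker fA)) : M)
      apply e.injective
      rw [hg', e.apply_symm_apply, ← heK, eK.apply_symm_apply]
      exact hz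
  exact Nat.card_congr (Submodule.Quotient.equiv _ _ eK hmap).toEquiv

end generic

theorem stmtFinite : StmtFinite := by
  intro M _ _ _ D N h1 h2
  obtain ⟨e1, e2, e3⟩ := fin_card_quot_eq (R := ℤ) (M := M) D N h1 h2
  refine ⟨e1, e2, ?_⟩
  rw [one_mul]
  exact congrArg (Nat.cast : ℕ → ℚ) e3

theorem stmtIso : StmtIso := by
  intro A B _ _ _ _ DA NA DB NB e hD hN
  exact ⟨fin_card_quot_congr DA NA DB NB e hD hN, fin_card_quot_congr NA DA NB DB e hN hD⟩

end Fermat.Agent.PT.G1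


end ZBPT_006_2

/-! ### bundled: `Fermat.Agent.PT.L.HerbrandOfG1` -/
section ZBPT_006_3

/-!
# PT-L, piece LHQ: Herbrand's lemma in the form of `PT/L/Plan.lean`, from PT-G1's hexagon

`stmtHerbrand : StmtHerbrand` and `stmtHerbrandFinite : StmtHerbrandFinite`.
-/

set_option autoImplicit false

namespace Fermat.Agent.PT.L

open Fermat.Agent.PT.G1

section

variable {M : Type} [AddCommGroup M]

/-- `σ - 1` as a `ℤ`-linear map. -/
def lhqD (σ : AddMonoid.End M) : Module.End ℤ M := (hqDelta σ).toIntLinearMap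

/-- `∑ σ^i` as a `ℤ`-linear map. -/
def lhqN (σ : AddMonoid.End M) (n : ℕ) : Module.End ℤ M := (hqNorm σ n).toIntLinearMap

lemma lhq_hq0 (σ : AddMonoid.End M) (n : ℕ) : hq0 σ n = hqCard (lhqD σ) (lhqN σ n) := rfl

lemma lhq_hq1 (σ : AddMonoid.End M) (n : ℕ) : hq1 σ n = hqCard (lhqN σ n) (lhqD σ) := rfl

lemma lhq_mul_comm (σ : AddMonoid.End M) (k : ℕ) : σ * σ ^ k = σ ^ k * σ :=
  (Commute.self_pow σ k).eq

lemma lhq_delta_norm (σ : AddMonoid.End M) (n : ℕ) :
    ((σ - 1) * ∑ i ∈ Finset.range n, σ ^ i : AddMonoid.End M) = σ ^ n - 1 := by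
  have := (Commute.one_right σ).mul_geom_sum₂ n
  simpa using this

lemma lhq_norm_delta (σ : AddMonoid.End M) (n : ℕ) :
    ((∑ i ∈ Finset.range n, σ ^ i) * (σ - 1) : AddMonoid.End M) = σ ^ n - 1 := by
  have := (Commute.one_right σ).geom_sum₂_mul n
  simpa using this

lemma lhq_DN (σ : AddMonoid.End M) (n : ℕ) (h : σ ^ n = 1) : lhqD σ * lhqN σ n = 0 := by
  apply LinearMap.ext
  intro x
  have := congrArg (fun f : AddMonoid.End M => f x) (lhq_delta_norm σ n)
  rw [h, sub_self] at this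
  exact this

lemma lhq_ND (σ : AddMonoid.End M) (n : ℕ) (h : σ ^ n = 1) : lhqN σ n * lhqD σ = 0 := by
  apply LinearMap.ext
  intro x
  have := congrArg (fun f : AddMonoid.End M => f x) (lhq_norm_delta σ n)
  rw [h, sub_self] at this
  exact this

end

section Comm

variable {A B : Type} [AddCommGroup A] [AddCommGroup B]

lemma lhq_pow_comm (σA : AddMonoid.End A) (σB : AddMonoid.End B) (f : A →+ B)
    (hf : ∀ a, f (σA a) = σB (f a)) (k : ℕ) (a : A) : f ((σA ^ k) a) = (σB ^ k) (f a) := by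
  induction k generalizing a with
  | zero => rfl
  | succ k ih =>
    rw [pow_succ, pow_succ]
    show f ((σA ^ k) (σA a)) = (σB ^ k) (σB (f a))
    rw [ih, hf]

lemma lhq_hqNorm_apply (σ : AddMonoid.End A) (n : ℕ) (x : A) :
    hqNorm σ n x = ∑ i ∈ Finset.range n, (σ ^ i) x := by
  unfold hqNorm
  induction n with
  | zero =>
    simp only [Finset.range_zero, Finset.sum_empty]
    rfl
  | succ k ih =>
    rw [Finset.sum_range_succ, Finset.sum_range_succ, ← ih]
    rfl

lemma lhq_comm_D (σA : AddMonoid.End A) (σB : AddMonoid.End B) (f : A →+ B)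
    (hf : ∀ a, f (σA a) = σB (f a)) :
    f.toIntLinearMap ∘ₗ lhqD σA = lhqD σB ∘ₗ f.toIntLinearMap := by
  apply LinearMap.ext
  intro a
  show f (σA a - a) = σB (f a) - f a
  rw [map_sub, hf]

lemma lhq_comm_N (σA : AddMonoid.End A) (σB : AddMonoid.End B) (f : A →+ B)
    (hf : ∀ a, f (σA a) = σB (f a)) (n : ℕ) :
    f.toIntLinearMap ∘ₗ lhqN σA n = lhqN σB n ∘ₗ f.toIntLinearMap := by
  apply LinearMap.ext
  intro a
  show f (hqNorm σA n a) = hqNorm σB n (f a)
  rw [lhq_hqNorm_apply, lhq_hqNorm_apply, map_sum]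
  exact Finset.sum_congr rfl fun i _ => lhq_pow_comm σA σB f hf i a

end Comm

/-- **LHQ**: Herbrand's lemma. -/
theorem stmtHerbrand : StmtHerbrand := by
  intro A M C _ _ _ σA σM σC n i π hn hσA hσM hσC hi hπ hrange hiσ hπσ h0A h1A h0C h1C
  have hex := stmtHexagon A M C (lhqD σA) (lhqN σA n) (lhqD σM) (lhqN σM n) (lhqD σC) (lhqN σC n)
    i.toIntLinearMap π.toIntLinearMap (lhq_DN σA n hσA) (lhq_ND σA n hσA) (lhq_DN σM n hσM)
    (lhq_ND σM n hσM) (lhq_DN σC n hσC) (lhq_ND σC n hσC) hi hπ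
    (by
      ext x
      constructor
      · rintro ⟨y, rfl⟩
        have : i y ∈ π.ker := hrange ▸ (⟨y, rfl⟩ : i y ∈ i.range)
        exact this
      · intro hx
        have : x ∈ i.range := hrange.symm ▸ (hx : x ∈ π.ker)
        obtain ⟨y, hy⟩ := this
        exact ⟨y, hy⟩)
    (lhq_comm_D σA σM i hiσ) (lhq_comm_N σA σM i hiσ n) (lhq_comm_D σM σC π hπσ)
    (lhq_comm_N σM σC π hπσ n)
    ((hq0 σA n : ℚ) / hq1 σA n) 0 ((hq0 σC n : ℚ) / hq1 σC n)
  have h1A' : (hq1 σA n : ℚ) ≠ 0 := by exact_mod_cast h1A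
  have h1C' : (hq1 σC n : ℚ) ≠ 0 := by exact_mod_cast h1C
  have hA : HasHQ (lhqD σA) (lhqN σA n) ((hq0 σA n : ℚ) / hq1 σA n) := by
    refine ⟨h0A, h1A, ?_⟩
    show (hq0 σA n : ℚ) = (hq0 σA n : ℚ) / hq1 σA n * hq1 σA n
    field_simp
  have hC : HasHQ (lhqD σC) (lhqN σC n) ((hq0 σC n : ℚ) / hq1 σC n) := by
    refine ⟨h0C, h1C, ?_⟩
    show (hq0 σC n : ℚ) = (hq0 σC n : ℚ) / hq1 σC n * hq1 σC n
    field_simp
  obtain ⟨hM0, hM1, hMeq⟩ := hex.1 hA hC
  refine ⟨hM0, hM1, ?_⟩
  have hMeq' : (hq0 σM n : ℚ) =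
      (hq0 σA n : ℚ) / hq1 σA n * ((hq0 σC n : ℚ) / hq1 σC n) * hq1 σM n := hMeq
  have : ((hq0 σM n * hq1 σA n * hq1 σC n : ℕ) : ℚ) = ((hq1 σM n * hq0 σA n * hq0 σC n : ℕ) : ℚ) := by
    push_cast
    rw [hMeq']
    field_simp
  exact_mod_cast this

/-- **LHQ-fin**: a finite module has Herbrand quotient `1`. -/
theorem stmtHerbrandFinite : StmtHerbrandFinite := by
  intro M _ _ σ n _ hσ
  obtain ⟨h0, _, heq⟩ := stmtFinite M (lhqD σ) (lhqN σ n) (lhq_DN σ n hσ) (lhq_ND σ n hσ)
  refine ⟨h0, ?_⟩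
  have heq' : (hq0 σ n : ℚ) = 1 * (hq1 σ n : ℚ) := heq
  rw [one_mul] at heq'
  exact_mod_cast heq'

end Fermat.Agent.PT.L


end ZBPT_006_3

/-! ### bundled: `Fermat.Agent.PT.L.NormIndexFinal` -/
section ZBPT_006_4

/-!
# PT-L, piece L2 (final form): `StmtUnitsTrivial → StmtNormIndex`
-/

set_option autoImplicit false

namespace Fermat.Agent.PT.L

/-- **L2**: the norm index of a cyclic extension of local fields is its degree
(Herbrand's lemma is supplied by PT-G1's hexagon). -/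
theorem stmtNormIndex_of_units (hU : StmtUnitsTrivial) : StmtNormIndex :=
  stmtNormIndex hU stmtHerbrand stmtHerbrandFinite

end Fermat.Agent.PT.L


end ZBPT_006_4

/-! ### bundled: `Fermat.Agent.PT.L.CyclicFinal` -/
section ZBPT_006_5
/-
PT-L: UNCONDITIONAL forms of (Lc) (helper57, wiring):
`normIndex : StmtNormIndex` (L2) and `unitNorm : StmtUnitNorm` (L3b), and `unitsTrivial`.
-/

set_option autoImplicit false

namespace Fermat.Agent.PT.L

/-- **L2 = (Lc), first half**, unconditional: `[Fˣ : N F'ˣ] = [F' : F]` for cyclic `F'/F`. -/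
theorem normIndex : StmtNormIndex := stmtNormIndex_of_units stmtUnitsTrivial

/-- **L3b = (Lc), second half**, unconditional: units are norms of units in cyclic unramified
extensions. -/
theorem unitNorm : StmtUnitNorm := stmtUnitNorm normIndex

end Fermat.Agent.PT.L


end ZBPT_006_5

/-! ### bundled: `Fermat.Agent.PT.G3.GBLocNormQUnram` -/
section ZBPT_006_6
/-
PT-GB, piece locNormQ, part I (helper57): the local cyclotomic extension `F = ℚ_q(ζ)`,
`ζ` a primitive `m`-th root of unity, `q ∤ m`: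
* `gbq_isUnram`      : `F/ℚ_q` is unramified (`L.IsUnram`);
* `gbq_finrank_dvd`  : `[F : ℚ_q]` divides every `d` with `m ∣ q ^ d - 1`;
via: the reduction of the minimal polynomial of `ζ` is the minimal polynomial of the residue
class of `ζ` (the conjugates of `ζ` have distinct residue classes).
-/

set_option autoImplicit false
set_option linter.unusedSectionVars false
set_option linter.style.haveILetI false

open Polynomial

namespace Fermat.Agent.PT.G3

open Fermat.Agent.PT.L Fermat.Agent.PT.L.UE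

section Local

variable (q : ℕ) [Fact q.Prime] {F : Type} [Field F] [Algebra ℚ_[q] F]
  [FiniteDimensional ℚ_[q] F]

/-- a root of unity is a unit of the valuation ring -/
theorem gbq_wv_eq_zero_of_pow_eq_one {m : ℕ} (hm : m ≠ 0) {ξ : F} (hξ : ξ ^ m = 1) :
    wv q ξ = 0 := by
  have h := l0b_wv_pow q ξ m
  rw [hξ, l0b_wv_one] at h
  have hm' : (m : ℤ) ≠ 0 := by exact_mod_cast hm
  rcases mul_eq_zero.1 h.symm with h | h
  · exact absurd h hm'
  · exact h

theorem gbq_mem_OV_of_pow_eq_one {m : ℕ} (hm : m ≠ 0) {ξ : F} (hξ : ξ ^ m = 1) :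
    ξ ∈ OV q stmtWAdd F :=
  Or.inr (by rw [gbq_wv_eq_zero_of_pow_eq_one q hm hξ])

/-- `m` is a unit of the valuation ring if `q ∤ m` -/
theorem gbq_wv_natCast {m : ℕ} (hqm : ¬ q ∣ m) : wv q ((m : ℕ) : F) = 0 := by
  have h := l0b_wv_algebraMap q (F := F) ((m : ℕ) : ℚ_[q])
  rw [map_natCast, Padic.valuation_natCast, padicValNat.eq_zero_of_not_dvd hqm] at h
  simpa using h

include q in
theorem gbq_natCast_ne_zero {m : ℕ} (hm : m ≠ 0) : ((m : ℕ) : F) ≠ 0 := by
  haveI : CharZero F := charZero_of_injective_algebraMap (algebraMap ℚ_[q] F).injective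
  exact_mod_cast hm

/-- the reduction map is injective on roots of unity of order prime to `q` -/
theorem gbq_eq_one_of_residue_eq_one {m : ℕ} (hm : m ≠ 0) (hqm : ¬ q ∣ m)
    (ξ : OV q stmtWAdd F) (hξ : ξ ^ m = 1)
    (hres : IsLocalRing.residue (OV q stmtWAdd F) ξ = 1) : ξ = 1 := by
  by_contra hne
  have hsum : (∑ i ∈ Finset.range m, ξ ^ i) = 0 := by
    have h1 : (ξ - 1) * ∑ i ∈ Finset.range m, ξ ^ i = 0 := by
      rw [mul_geom_sum, hξ, sub_self]
    rcases mul_eq_zero.1 h1 with h | h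
    · exact absurd (sub_eq_zero.1 h) hne
    · exact h
  have h2 := congrArg (IsLocalRing.residue (OV q stmtWAdd F)) hsum
  rw [map_sum, map_zero] at h2
  simp only [map_pow, hres, one_pow, Finset.sum_const, Finset.card_range, nsmul_eq_mul,
    mul_one] at h2
  have h3 : IsLocalRing.residue (OV q stmtWAdd F) ((m : ℕ) : OV q stmtWAdd F) = 0 := by
    rw [map_natCast]; exact h2
  rw [IsLocalRing.residue_eq_zero_iff, mem_maximalIdeal_iff] at h3
  have hc : (((m : ℕ) : OV q stmtWAdd F) : F) = ((m : ℕ) : F) := by simp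
  rw [hc] at h3
  rcases h3 with h | h
  · exact gbq_natCast_ne_zero q hm h
  · rw [gbq_wv_natCast q hqm] at h
    omega


/-! ### The residue field of `ℚ_q` has `q` elements -/

theorem gbq_wv_self (x : ℚ_[q]) : wv q x = Padic.valuation x := by
  unfold wv
  rw [Algebra.norm_self]
  rfl

theorem gbq_card_residue :
    Nat.card (IsLocalRing.ResidueField (OV q stmtWAdd ℚ_[q])) = q := by
  have hq0 : ((q : ℕ) : IsLocalRing.ResidueField (OV q stmtWAdd ℚ_[q])) = 0 := by
    have hmem : ((q : ℕ) : OV q stmtWAdd ℚ_[q]) ∈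
        IsLocalRing.maximalIdeal (OV q stmtWAdd ℚ_[q]) := by
      rw [mem_maximalIdeal_iff]
      right
      have hc : (((q : ℕ) : OV q stmtWAdd ℚ_[q]) : ℚ_[q]) = ((q : ℕ) : ℚ_[q]) := by simp
      rw [hc, gbq_wv_self, Padic.valuation_p]
    have := (IsLocalRing.residue_eq_zero_iff _).2 hmem
    rwa [map_natCast] at this
  haveI : CharP (IsLocalRing.ResidueField (OV q stmtWAdd ℚ_[q])) q :=
    (CharP.charP_iff_prime_eq_zero (Fact.out : q.Prime)).2 hq0
  let f : ZMod q →+* IsLocalRing.ResidueField (OV q stmtWAdd ℚ_[q]) :=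
    ZMod.castHom (dvd_refl q) _
  have hinj : Function.Injective f := f.injective
  have hsurj : Function.Surjective f := by
    intro c
    obtain ⟨x, rfl⟩ := IsLocalRing.residue_surjective c
    have hx : ‖(x : ℚ_[q])‖ ≤ 1 := by
      rw [Padic.norm_le_one_iff_val_nonneg]
      rcases x.2 with h | h
      · rw [h]; simp
      · rwa [gbq_wv_self] at h
    obtain ⟨n, -, hmem⟩ := PadicInt.exists_mem_range (⟨(x : ℚ_[q]), hx⟩ : ℤ_[q])
    refine ⟨(n : ZMod q), ?_⟩
    rw [map_natCast, ← map_natCast (IsLocalRing.residue (OV q stmtWAdd ℚ_[q])), eq_comm,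
      ← sub_eq_zero, ← map_sub, IsLocalRing.residue_eq_zero_iff, mem_maximalIdeal_iff]
    have hc : ((x - ((n : ℕ) : OV q stmtWAdd ℚ_[q]) : OV q stmtWAdd ℚ_[q]) : ℚ_[q]) =
        (x : ℚ_[q]) - (n : ℚ_[q]) := by simp
    rw [hc]
    rw [IsLocalRing.mem_maximalIdeal, PadicInt.mem_nonunits] at hmem
    have hnorm : ‖(x : ℚ_[q]) - (n : ℚ_[q])‖ < 1 := by
      have : ((⟨(x : ℚ_[q]), hx⟩ - (n : ℤ_[q]) : ℤ_[q]) : ℚ_[q]) = (x : ℚ_[q]) - (n : ℚ_[q]) := by
        simp
      rw [← this]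
      exact hmem
    by_cases h0 : (x : ℚ_[q]) - (n : ℚ_[q]) = 0
    · exact Or.inl h0
    · right
      rw [gbq_wv_self]
      rw [Padic.norm_eq_zpow_neg_valuation h0] at hnorm
      have hq1 : (1 : ℝ) < (q : ℝ) := by exact_mod_cast (Fact.out : q.Prime).one_lt
      have := (zpow_lt_one_iff_right₀ hq1).1 hnorm
      omega
  rw [← Nat.card_congr (Equiv.ofBijective f ⟨hinj, hsurj⟩), Nat.card_zmod]


/-! ### The minimal polynomial of `ζ` and its reduction -/

theorem gbq_exists_lift {m : ℕ} (hm : m ≠ 0) (ζ : F) (hζ : ζ ^ m = 1) :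
    ∃ g₀ : (OV q stmtWAdd ℚ_[q])[X], g₀.Monic ∧
      g₀.map (algebraMap (OV q stmtWAdd ℚ_[q]) ℚ_[q]) = minpoly ℚ_[q] ζ := by
  letI : Algebra (OV q stmtWAdd ℚ_[q]) F :=
    ((algebraMap ℚ_[q] F).comp (algebraMap (OV q stmtWAdd ℚ_[q]) ℚ_[q])).toAlgebra
  haveI : IsScalarTower (OV q stmtWAdd ℚ_[q]) ℚ_[q] F :=
    IsScalarTower.of_algebraMap_eq (fun _ => rfl)
  have hint : IsIntegral (OV q stmtWAdd ℚ_[q]) ζ := by
    refine ⟨X ^ m - C 1, monic_X_pow_sub_C 1 hm, ?_⟩
    simp [hζ]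
  exact ⟨minpoly _ ζ, minpoly.monic hint,
    (minpoly.isIntegrallyClosed_eq_field_fractions' ℚ_[q] hint).symm⟩

theorem gbq_core [IsGalois ℚ_[q] F] {m : ℕ} (hm : m ≠ 0) (hqm : ¬ q ∣ m) (ζ : F)
    (hζ : ζ ^ m = 1)
    (hgen : ∀ y : F, ∃ P : ℚ_[q][X], eval₂ (algebraMap ℚ_[q] F) ζ P = y) :
    ∃ g₀ : (OV q stmtWAdd ℚ_[q])[X], g₀.Monic ∧
      eval₂ (algebraMap ℚ_[q] F) ζ (g₀.map (algebraMap (OV q stmtWAdd ℚ_[q]) ℚ_[q])) = 0 ∧
      Irreducible (g₀.map (IsLocalRing.residue (OV q stmtWAdd ℚ_[q]))) ∧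
      (g₀.map (IsLocalRing.residue (OV q stmtWAdd ℚ_[q]))).natDegree =
        Module.finrank ℚ_[q] F ∧
      (g₀.map (IsLocalRing.residue (OV q stmtWAdd ℚ_[q]))) ∣ X ^ m - 1 := by
  classical
  obtain ⟨g₀, hmon, hmap⟩ := gbq_exists_lift q hm ζ hζ
  have hroot : eval₂ (algebraMap ℚ_[q] F) ζ
      (g₀.map (algebraMap (OV q stmtWAdd ℚ_[q]) ℚ_[q])) = 0 := by
    rw [hmap]; exact minpoly.aeval ℚ_[q] ζ
  letI : Algebra (IsLocalRing.ResidueField (OV q stmtWAdd ℚ_[q]))
      (IsLocalRing.ResidueField (OV q stmtWAdd F)) :=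
    (phi q stmtWAdd (F := ℚ_[q]) (E := F)).toAlgebra
  have hζO : ζ ∈ OV q stmtWAdd F := gbq_mem_OV_of_pow_eq_one q hm hζ
  set t : OV q stmtWAdd F := ⟨ζ, hζO⟩ with ht
  set ζb : IsLocalRing.ResidueField (OV q stmtWAdd F) := IsLocalRing.residue _ t with hζb
  set gb : (IsLocalRing.ResidueField (OV q stmtWAdd ℚ_[q]))[X] :=
    g₀.map (IsLocalRing.residue (OV q stmtWAdd ℚ_[q])) with hgb
  have hgbmon : gb.Monic := hmon.map _
  have hgb0 : eval₂ (phi q stmtWAdd (F := ℚ_[q]) (E := F)) ζb gb = 0 := by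
    rw [hζb, hgb, ← residue_eval₂]
    have : eval₂ (iota q stmtWAdd (F := ℚ_[q]) (E := F)) t g₀ = 0 := by
      apply Subtype.ext
      rw [coe_eval₂]
      exact hroot
    rw [this, map_zero]
  have hintb : IsIntegral (IsLocalRing.ResidueField (OV q stmtWAdd ℚ_[q])) ζb :=
    ⟨gb, hgbmon, hgb0⟩
  set hb : (IsLocalRing.ResidueField (OV q stmtWAdd ℚ_[q]))[X] := minpoly _ ζb with hhb
  have hdvd : hb ∣ gb := minpoly.dvd _ ζb hgb0
  have hσO : ∀ σ : F ≃ₐ[ℚ_[q]] F, σ ζ ∈ OV q stmtWAdd F := fun σ =>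
    gbq_mem_OV_of_pow_eq_one q hm (by rw [← map_pow, hζ, map_one])
  let s : (F ≃ₐ[ℚ_[q]] F) → OV q stmtWAdd F := fun σ => ⟨σ ζ, hσO σ⟩
  have hsm : ∀ σ, (s σ) ^ m = 1 := fun σ => Subtype.ext (by
    show (σ ζ) ^ m = 1
    rw [← map_pow, hζ, map_one])
  have hsroot : ∀ σ, eval₂ (phi q stmtWAdd (F := ℚ_[q]) (E := F))
      (IsLocalRing.residue _ (s σ)) hb = 0 := by
    intro σ
    obtain ⟨H, hH⟩ := Polynomial.map_surjective
      (IsLocalRing.residue (OV q stmtWAdd ℚ_[q])) IsLocalRing.residue_surjective hb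
    have h1 : eval₂ (phi q stmtWAdd (F := ℚ_[q]) (E := F)) ζb hb = 0 := minpoly.aeval _ ζb
    rw [← hH, hζb, ← residue_eval₂, IsLocalRing.residue_eq_zero_iff, mem_maximalIdeal_iff,
      coe_eval₂] at h1
    rw [← hH, ← residue_eval₂, IsLocalRing.residue_eq_zero_iff, mem_maximalIdeal_iff, coe_eval₂]
    have h2 : eval₂ (algebraMap ℚ_[q] F) (σ ζ)
        (H.map (algebraMap (OV q stmtWAdd ℚ_[q]) ℚ_[q])) =
        σ (eval₂ (algebraMap ℚ_[q] F) ζ (H.map (algebraMap (OV q stmtWAdd ℚ_[q]) ℚ_[q]))) :=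
      Polynomial.aeval_algHom_apply σ ζ _
    show eval₂ (algebraMap ℚ_[q] F) (σ ζ) _ = 0 ∨ 1 ≤ wv q (eval₂ (algebraMap ℚ_[q] F) (σ ζ) _)
    rw [h2]
    rcases h1 with h | h
    · left; rw [h, map_zero]
    · right; rwa [UE.wv_algEquiv]
  have hm1 : m - 1 + 1 = m := Nat.sub_add_cancel (Nat.one_le_iff_ne_zero.2 hm)
  have hsinj : Function.Injective
      (fun σ : F ≃ₐ[ℚ_[q]] F => IsLocalRing.residue (OV q stmtWAdd F) (s σ)) := by
    intro σ τ hστ
    simp only at hστ
    have hξ := gbq_eq_one_of_residue_eq_one q hm hqm (s σ * (s τ) ^ (m - 1))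
      (by rw [mul_pow, ← pow_mul, mul_comm (m - 1) m, pow_mul, hsm, hsm, one_pow, one_mul])
      (by rw [map_mul, map_pow, hστ, ← pow_succ', hm1, ← map_pow, hsm, map_one])
    have h3 : s σ = s τ := by
      have := congrArg (· * s τ) hξ
      simp only [one_mul] at this
      rw [mul_assoc, ← pow_succ, hm1, hsm, mul_one] at this
      exact this
    have h4 : σ ζ = τ ζ := congrArg Subtype.val h3
    apply AlgEquiv.ext
    intro y
    obtain ⟨P, rfl⟩ := hgen y
    have e1 : σ (eval₂ (algebraMap ℚ_[q] F) ζ P) = eval₂ (algebraMap ℚ_[q] F) (σ ζ) P :=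
      (Polynomial.aeval_algHom_apply σ ζ P).symm
    have e2 : τ (eval₂ (algebraMap ℚ_[q] F) ζ P) = eval₂ (algebraMap ℚ_[q] F) (τ ζ) P :=
      (Polynomial.aeval_algHom_apply τ ζ P).symm
    rw [e1, e2, h4]
  have hcard : Module.finrank ℚ_[q] F ≤ hb.natDegree := by
    rw [← IsGalois.card_aut_eq_finrank, Nat.card_eq_fintype_card]
    have hZ : (Finset.univ.image
        (fun σ : F ≃ₐ[ℚ_[q]] F => IsLocalRing.residue (OV q stmtWAdd F) (s σ))).val ⊆
        (hb.map (phi q stmtWAdd (F := ℚ_[q]) (E := F))).roots := by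
      intro z hz
      rw [Finset.mem_val, Finset.mem_image] at hz
      obtain ⟨σ, -, rfl⟩ := hz
      rw [mem_roots (Polynomial.map_ne_zero (minpoly.ne_zero hintb)), IsRoot, eval_map]
      exact hsroot σ
    have := Polynomial.card_le_degree_of_subset_roots hZ
    rw [Finset.card_image_of_injective _ hsinj, Finset.card_univ, natDegree_map] at this
    exact this
  have hdeg1 : gb.natDegree ≤ Module.finrank ℚ_[q] F := by
    rw [hgb, hmon.natDegree_map, ← natDegree_map_eq_of_injective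
      (f := algebraMap (OV q stmtWAdd ℚ_[q]) ℚ_[q]) Subtype.coe_injective g₀, hmap]
    exact minpoly.natDegree_le ζ
  have heq : gb = hb := Polynomial.eq_of_monic_of_dvd_of_natDegree_le
    (minpoly.monic hintb) hgbmon hdvd (hdeg1.trans hcard)
  refine ⟨g₀, hmon, hroot, ?_, ?_, ?_⟩
  · rw [← hgb, heq]; exact minpoly.irreducible hintb
  · rw [← hgb]
    exact le_antisymm hdeg1 (by rw [heq]; exact hcard)
  · rw [← hgb, heq]
    apply minpoly.dvd
    have : ζb ^ m = 1 := by
      rw [hζb, ← map_pow]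
      have : t ^ m = 1 := Subtype.ext (by show ζ ^ m = 1; exact hζ)
      rw [this, map_one]
    simp [this]


/-- `ℚ_q(ζ)/ℚ_q` is unramified (`ζ ^ m = 1`, `q ∤ m`). -/
theorem gbq_isUnram [IsGalois ℚ_[q] F] {m : ℕ} (hm : m ≠ 0) (hqm : ¬ q ∣ m) (ζ : F)
    (hζ : ζ ^ m = 1)
    (hgen : ∀ y : F, ∃ P : ℚ_[q][X], eval₂ (algebraMap ℚ_[q] F) ζ P = y) :
    IsUnram q ℚ_[q] F := by
  obtain ⟨g₀, hmon, hroot, hirr, -, -⟩ := gbq_core q hm hqm ζ hζ hgen
  exact isUnram_of_root q stmtWAdd hmon hirr hroot hgen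

/-- `[ℚ_q(ζ) : ℚ_q]` divides every `d` with `m ∣ q ^ d - 1`. -/
theorem gbq_finrank_dvd [IsGalois ℚ_[q] F] {m : ℕ} (hm : m ≠ 0) (hqm : ¬ q ∣ m) (ζ : F)
    (hζ : ζ ^ m = 1)
    (hgen : ∀ y : F, ∃ P : ℚ_[q][X], eval₂ (algebraMap ℚ_[q] F) ζ P = y)
    {d : ℕ} (hd : m ∣ q ^ d - 1) : Module.finrank ℚ_[q] F ∣ d := by
  obtain ⟨g₀, hmon, hroot, hirr, hdeg, hdvd⟩ := gbq_core q hm hqm ζ hζ hgen
  rw [← hdeg]
  apply hirr.natDegree_dvd_of_dvd_X_pow_card_pow_sub_X
  rw [gbq_card_residue]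
  refine hdvd.trans ?_
  have hq1 : 1 ≤ q ^ d := Nat.one_le_pow _ _ (Fact.out : q.Prime).pos
  have h1 : (X : (IsLocalRing.ResidueField (OV q stmtWAdd ℚ_[q]))[X]) ^ (q ^ d) - X =
      X * (X ^ (q ^ d - 1) - 1) := by
    rw [mul_sub, mul_one, ← pow_succ', Nat.sub_add_cancel hq1]
  rw [h1]
  exact Dvd.dvd.mul_left (dvd_pow_sub_one_of_dvd hd) X

/-- **Local norms**: if `d ∣ k · v_q(b)` (`m ∣ q ^ d - 1`) then `b ^ k` is a norm from
`ℚ_q(ζ)`. -/
theorem gbq_local_norm [IsGalois ℚ_[q] F] (hcyc : IsCyclic (F ≃ₐ[ℚ_[q]] F))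
    {m : ℕ} (hm : m ≠ 0) (hqm : ¬ q ∣ m) (ζ : F) (hζ : ζ ^ m = 1)
    (hgen : ∀ y : F, ∃ P : ℚ_[q][X], eval₂ (algebraMap ℚ_[q] F) ζ P = y)
    {d : ℕ} (hd : m ∣ q ^ d - 1) (b : ℚ_[q]) (hb : b ≠ 0) (k : ℕ)
    (hk : (d : ℤ) ∣ (k : ℤ) * Padic.valuation b) :
    ∃ y : F, y ≠ 0 ∧ Algebra.norm ℚ_[q] y = b ^ k := by
  have hun := gbq_isUnram q hm hqm ζ hζ hgen
  have hfd := gbq_finrank_dvd q hm hqm ζ hζ hgen hd
  have hq0 : (q : ℚ_[q]) ≠ 0 := by exact_mod_cast (Fact.out : q.Prime).ne_zero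
  set v : ℤ := Padic.valuation b with hv
  set u : ℚ_[q] := b * (q : ℚ_[q]) ^ (-v) with hu
  have hu0 : u ≠ 0 := mul_ne_zero hb (zpow_ne_zero _ hq0)
  have huU : IsU q u := by
    refine ⟨hu0, ?_⟩
    rw [gbq_wv_self, hu, Padic.valuation_mul hb (zpow_ne_zero _ hq0), Padic.valuation_zpow,
      Padic.valuation_p]
    simp [hv]
  obtain ⟨y₀, hy₀, hNy₀⟩ := unitNorm q ℚ_[q] F hcyc hun u huU
  have hfk : (Module.finrank ℚ_[q] F : ℤ) ∣ (k : ℤ) * v :=
    (Int.natCast_dvd_natCast.2 hfd).trans hk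
  obtain ⟨c, hc⟩ := hfk
  refine ⟨(algebraMap ℚ_[q] F (q : ℚ_[q])) ^ c * y₀ ^ k, ?_, ?_⟩
  · exact mul_ne_zero (zpow_ne_zero _ (by rw [Ne, map_eq_zero]; exact hq0))
      (pow_ne_zero _ hy₀.1)
  · rw [map_mul, Algebra.norm_zpow, Algebra.norm_algebraMap, map_pow, hNy₀, hu, mul_pow,
      ← zpow_natCast ((q : ℚ_[q]) ^ (-v)) k, ← zpow_mul, ← zpow_natCast (q : ℚ_[q])
      (Module.finrank ℚ_[q] F), ← zpow_mul, ← hc]
    rw [mul_comm (b ^ k), ← mul_assoc, ← zpow_add₀ hq0]
    have : (k : ℤ) * v + -v * (k : ℤ) = 0 := by ring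
    rw [this, zpow_zero, one_mul]

end Local

end Fermat.Agent.PT.G3


end ZBPT_006_6

/-! ### bundled: `Fermat.Agent.PT.L.CompositumNorm` -/
section ZBPT_006_7
/-
PT-L piece U2 (helper67): `stmtCompositumNorm_of_res : StmtRes → StmtCompositumNorm`.

Paper proof (helper65): `n = [F' : F] = [En : F]`, `d = [E : F']`, `a_X = wv` at a uniformiser.
1. `E/F` is Galois (compositum of Galois extensions), every `σ ∈ Gal(E/F)` has `σ ^ n = 1`.
2. `En/F` unramified ⇒ `a_En = n a_F` ⇒ (`StmtRes`) inertial elements of `Gal(En/F)` are trivial.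
3. an inertial `σ ∈ Gal(E/F')` restricts to an inertial element of `Gal(En/F)`, so `σ = 1`;
   hence (`StmtRes`) `E/F'` is unramified and cyclic: `a_E = d a_F'`.
4. (`StmtRes` for `E/F`) `a_E = |C| a_F` with `|C| ∣ n`.
5. for `x ∈ Fˣ`: `wv_F' x = n wv_F x ∈ a_E ℤ = d a_F' ℤ`; divide by a power of the norm of a
   uniformiser of `F'` and use `unitNorm`.
-/

set_option autoImplicit false

namespace Fermat.Agent.PT.L

open Module

section tower

variable (q : ℕ) [Fact q.Prime] {K L : Type} [Field K] [Field L] [Algebra ℚ_[q] K]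
  [FiniteDimensional ℚ_[q] K] [Algebra K L] [Algebra ℚ_[q] L] [IsScalarTower ℚ_[q] K L]
  [FiniteDimensional K L]

/-- In an unramified extension the value of a uniformiser is multiplied by the degree. -/
lemma u2_unif_of_unram (hu : IsUnram q K L) {πK : K} {πL : L} (hK : IsUnif q πK)
    (hL : IsUnif q πL) : wv q πL = finrank K L * wv q πK := by
  have : FiniteDimensional ℚ_[q] L := FiniteDimensional.trans ℚ_[q] K L
  obtain ⟨hK0, hKpos, hKdvd⟩ := hK
  obtain ⟨hL0, hLpos, hLdvd⟩ := hL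
  have hn : (0 : ℤ) < finrank K L := by exact_mod_cast (Module.finrank_pos : 0 < finrank K L)
  apply Int.dvd_antisymm hLpos.le (mul_pos hn hKpos).le
  · have := hLdvd (algebraMap K L πK) (by simpa using hK0)
    rwa [l3b_wv_algebraMap] at this
  · obtain ⟨x, hx0, hx⟩ := hu πL hL0
    rw [← hx, l3b_wv_algebraMap]
    exact mul_dvd_mul_left _ (hKdvd x hx0)

/-- Conversely, if the value of a uniformiser is multiplied by the degree, the extension is
unramified. -/
lemma u2_unram_of_unif {πK : K} {πL : L} (hK : IsUnif q πK) (hL : IsUnif q πL)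
    (h : wv q πL = finrank K L * wv q πK) : IsUnram q K L := by
  have : FiniteDimensional ℚ_[q] L := FiniteDimensional.trans ℚ_[q] K L
  intro y hy
  obtain ⟨k, hk⟩ := hL.2.2 y hy
  refine ⟨πK ^ k, zpow_ne_zero _ hK.1, ?_⟩
  rw [l3b_wv_algebraMap, l0b_wv_zpow, hk, h]
  ring

/-- The restriction of an inertial map is inertial. -/
lemma u2_inertial_restrict {σ : L → L} {τ : K → K}
    (hστ : ∀ z, algebraMap K L (τ z) = σ (algebraMap K L z)) (hσ : IsInertial q σ) :
    IsInertial q τ := by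
  have : FiniteDimensional ℚ_[q] L := FiniteDimensional.trans ℚ_[q] K L
  intro z hz
  have hn : (0 : ℤ) < finrank K L := by exact_mod_cast (Module.finrank_pos : 0 < finrank K L)
  have hz' : IsInt q (algebraMap K L z) := by
    rcases hz with rfl | hz
    · left; simp
    · right; rw [l3b_wv_algebraMap]; positivity
  rcases hσ _ hz' with h | h
  · left; apply (algebraMap K L).injective; rw [hστ, h]
  · right
    rw [← hστ, ← map_sub, l3b_wv_algebraMap] at h
    by_contra hcon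
    have h0 : wv q (τ z - z) ≤ 0 := by omega
    nlinarith

section galois

variable [IsGalois K L]

/-- In an unramified Galois extension the inertial automorphisms are trivial. -/
lemma u2_inertial_eq_one_of_unram (hR : StmtRes) (hu : IsUnram q K L) (σ : L ≃ₐ[K] L)
    (hσ : IsInertial q σ) : σ = 1 := by
  have : FiniteDimensional ℚ_[q] L := FiniteDimensional.trans ℚ_[q] K L
  obtain ⟨C, _, _, ρ, hsurj, hker, hcard⟩ := hR q K L
  obtain ⟨πK, hπK⟩ := stmtWUnif q K
  obtain ⟨πL, hπL⟩ := stmtWUnif q L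
  have h1 := hcard πK πL hπK hπL
  have h2 := u2_unif_of_unram q hu hπK hπL
  have h3 : (Nat.card C : ℤ) = finrank K L :=
    mul_right_cancel₀ hπK.2.1.ne' (h1.trans h2)
  have h4 : Nat.card (L ≃ₐ[K] L) = Nat.card C := by
    rw [IsGalois.card_aut_eq_finrank]; exact_mod_cast h3.symm
  have hbij := hsurj.bijective_of_nat_card_le h4.le
  apply hbij.1
  rw [map_one]; exact (hker σ).2 hσ

/-- If the inertial automorphisms are trivial, the extension is unramified and cyclic. -/
lemma u2_unram_of_inertial (hR : StmtRes)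
    (h : ∀ σ : L ≃ₐ[K] L, IsInertial q σ → σ = 1) :
    IsUnram q K L ∧ IsCyclic (L ≃ₐ[K] L) := by
  have : FiniteDimensional ℚ_[q] L := FiniteDimensional.trans ℚ_[q] K L
  obtain ⟨C, _, _, ρ, hsurj, hker, hcard⟩ := hR q K L
  have hinj : Function.Injective ρ :=
    (injective_iff_map_eq_one ρ).2 fun σ hσ => h σ ((hker σ).1 hσ)
  obtain ⟨πK, hπK⟩ := stmtWUnif q K
  obtain ⟨πL, hπL⟩ := stmtWUnif q L
  have hc : Nat.card C = finrank K L := by
    rw [← IsGalois.card_aut_eq_finrank K L]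
    exact (Nat.card_congr (Equiv.ofBijective ρ ⟨hinj, hsurj⟩)).symm
  refine ⟨u2_unram_of_unif q hπK hπL ?_, isCyclic_of_injective ρ hinj⟩
  rw [← hcard πK πL hπK hπL, hc]

end galois

end tower

section compositum

variable {F F' En E : Type} [Field F] [Field F'] [Field En] [Field E]
  [Algebra F F'] [Algebra F En] [Algebra F E] [Algebra F' E] [Algebra En E]
  [IsScalarTower F F' E] [IsScalarTower F En E]

/-- An automorphism of the compositum which fixes both fields is trivial. -/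
lemma u2_eq_one_of_fix
    (htop : (IsScalarTower.toAlgHom F F' E).fieldRange ⊔
      (IsScalarTower.toAlgHom F En E).fieldRange = ⊤)
    (τ : E ≃ₐ[F] E) (h1 : ∀ z : F', τ (algebraMap F' E z) = algebraMap F' E z)
    (h2 : ∀ z : En, τ (algebraMap En E z) = algebraMap En E z) : τ = 1 := by
  let K : IntermediateField F E :=
    { carrier := {x | τ x = x}
      mul_mem' := fun {a b} ha hb => by
        simp only [Set.mem_ofPred_eq] at ha hb ⊢; rw [map_mul, ha, hb]
      one_mem' := map_one τ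
      add_mem' := fun {a b} ha hb => by
        simp only [Set.mem_ofPred_eq] at ha hb ⊢; rw [map_add, ha, hb]
      zero_mem' := map_zero τ
      algebraMap_mem' := fun r => τ.commutes r
      inv_mem' := fun a ha => by
        simp only [Set.mem_ofPred_eq] at ha ⊢; rw [map_inv₀, ha] }
  have hK : (⊤ : IntermediateField F E) ≤ K := by
    rw [← htop]
    refine sup_le ?_ ?_
    · rintro _ ⟨z, rfl⟩; exact h1 z
    · rintro _ ⟨z, rfl⟩; exact h2 z
  ext x
  exact hK (IntermediateField.mem_top (x := x))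

/-- The compositum of two normal extensions is normal. -/
lemma u2_normal [Normal F F'] [Normal F En]
    (htop : (IsScalarTower.toAlgHom F F' E).fieldRange ⊔
      (IsScalarTower.toAlgHom F En E).fieldRange = ⊤) : Normal F E := by
  have h1 : Normal F (IsScalarTower.toAlgHom F F' E).fieldRange :=
    Normal.of_algEquiv (AlgEquiv.ofInjectiveField (IsScalarTower.toAlgHom F F' E))
  have h2 : Normal F (IsScalarTower.toAlgHom F En E).fieldRange :=
    Normal.of_algEquiv (AlgEquiv.ofInjectiveField (IsScalarTower.toAlgHom F En E))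
  have h3 : Normal F ((IsScalarTower.toAlgHom F F' E).fieldRange ⊔
      (IsScalarTower.toAlgHom F En E).fieldRange : IntermediateField F E) :=
    IntermediateField.normal_sup _ _ _ _
  rw [htop] at h3
  exact Normal.of_algEquiv (IntermediateField.topEquiv : (⊤ : IntermediateField F E) ≃ₐ[F] E)

/-- Every automorphism of the compositum is killed by the common degree. -/
lemma u2_pow_eq_one [FiniteDimensional F F'] [FiniteDimensional F En] [IsGalois F F']
    [IsGalois F En]
    (htop : (IsScalarTower.toAlgHom F F' E).fieldRange ⊔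
      (IsScalarTower.toAlgHom F En E).fieldRange = ⊤)
    (hn : finrank F En = finrank F F') (σ : E ≃ₐ[F] E) : σ ^ finrank F F' = 1 := by
  apply u2_eq_one_of_fix htop
  · intro z
    have h1 : AlgEquiv.restrictNormalHom F' (σ ^ finrank F F') = 1 := by
      rw [map_pow, ← IsGalois.card_aut_eq_finrank F F']; exact pow_card_eq_one'
    have h := AlgEquiv.restrictNormal_commutes (σ ^ finrank F F') F' z
    rw [← h]
    show algebraMap F' E (AlgEquiv.restrictNormalHom F' (σ ^ finrank F F') z) = _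
    rw [h1]; rfl
  · intro z
    have h1 : AlgEquiv.restrictNormalHom En (σ ^ finrank F F') = 1 := by
      rw [map_pow, ← hn, ← IsGalois.card_aut_eq_finrank F En]; exact pow_card_eq_one'
    have h := AlgEquiv.restrictNormal_commutes (σ ^ finrank F F') En z
    rw [← h]
    show algebraMap En E (AlgEquiv.restrictNormalHom En (σ ^ finrank F F') z) = _
    rw [h1]; rfl

/-- A cyclic quotient of a group of exponent `n` has order dividing `n`. -/
lemma u2_card_dvd {G C : Type} [Group G] [Group C] [IsCyclic C] (ρ : G →* C)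
    (hs : Function.Surjective ρ) (n : ℕ) (h : ∀ σ : G, σ ^ n = 1) : Nat.card C ∣ n := by
  obtain ⟨g, hg⟩ := IsCyclic.exists_generator (α := C)
  rw [← orderOf_eq_card_of_forall_mem_zpowers hg]
  apply orderOf_dvd_of_pow_eq_one
  obtain ⟨σ, rfl⟩ := hs g
  rw [← map_pow, h, map_one]

end compositum

section main

variable (q : ℕ) [Fact q.Prime] (F F' En E : Type) [Field F] [Field F'] [Field En] [Field E]
  [Algebra ℚ_[q] F] [FiniteDimensional ℚ_[q] F] [Algebra F F'] [Algebra F En] [Algebra F E]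
  [Algebra F' E] [Algebra En E] [IsScalarTower F F' E] [IsScalarTower F En E]
  [Algebra ℚ_[q] En] [IsScalarTower ℚ_[q] F En]
  [Algebra ℚ_[q] F'] [IsScalarTower ℚ_[q] F F']
  [Algebra ℚ_[q] E] [IsScalarTower ℚ_[q] F E] [IsScalarTower ℚ_[q] F' E]
  [IsScalarTower ℚ_[q] En E]
  [FiniteDimensional F F'] [FiniteDimensional F En] [FiniteDimensional F E] [IsGalois F F']
  [IsGalois F En]

/-- (U) with all the `ℚ_[q]`-algebra structures given. -/
theorem u2_main (hR : StmtRes) (hunr : IsUnram q F En)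
    (hn : finrank F En = finrank F F')
    (htop : (IsScalarTower.toAlgHom F F' E).fieldRange ⊔
      (IsScalarTower.toAlgHom F En E).fieldRange = ⊤) (x : F) :
    ∃ y : E, Algebra.norm F' y = algebraMap F F' x := by
  classical
  have : FiniteDimensional ℚ_[q] F' := FiniteDimensional.trans ℚ_[q] F F'
  have : FiniteDimensional ℚ_[q] En := FiniteDimensional.trans ℚ_[q] F En
  have : FiniteDimensional ℚ_[q] E := FiniteDimensional.trans ℚ_[q] F E
  have : FiniteDimensional F' E := FiniteDimensional.right F F' E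
  have : FiniteDimensional En E := FiniteDimensional.right F En E
  have : CharZero F := charZero_of_injective_algebraMap (algebraMap ℚ_[q] F).injective
  have : Normal F E := u2_normal htop
  have : IsGalois F E := ⟨⟩
  have : IsGalois F' E := IsGalois.tower_top_of_isGalois F F' E
  -- step 2
  have hEn := u2_inertial_eq_one_of_unram q (K := F) (L := En) hR hunr
  -- step 3
  have h3 : ∀ σ : E ≃ₐ[F'] E, IsInertial q σ → σ = 1 := by
    intro σ hσ
    have hτ : IsInertial q (AlgEquiv.restrictNormalHom En (σ.restrictScalars F)) :=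
      u2_inertial_restrict q (K := En) (L := E)
        (fun z => AlgEquiv.restrictNormal_commutes (σ.restrictScalars F) En z) hσ
    have hτ1 := hEn _ hτ
    have hσ' : σ.restrictScalars F = 1 := by
      apply u2_eq_one_of_fix htop
      · intro z; exact σ.commutes z
      · intro z
        have h := AlgEquiv.restrictNormal_commutes (σ.restrictScalars F) En z
        rw [← h]
        show algebraMap En E (AlgEquiv.restrictNormalHom En (σ.restrictScalars F) z) = _
        rw [hτ1]; rfl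
    ext y
    exact congrArg (fun τ : E ≃ₐ[F] E => τ y) hσ'
  obtain ⟨hunrE, hcycE⟩ := u2_unram_of_inertial q hR (K := F') (L := E) h3
  obtain ⟨πF, hπF⟩ := stmtWUnif q F
  obtain ⟨πF', hπF'⟩ := stmtWUnif q F'
  obtain ⟨πE, hπE⟩ := stmtWUnif q E
  have hE1 := u2_unif_of_unram q hunrE hπF' hπE
  obtain ⟨C, _, _, ρ, hsurj, _, hcard⟩ := hR q F E
  have hE2 := hcard πF πE hπF hπE
  have hdvd : Nat.card C ∣ finrank F F' :=
    u2_card_dvd ρ hsurj _ (u2_pow_eq_one htop hn)
  by_cases hx : x = 0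
  · refine ⟨0, ?_⟩
    rw [hx, Algebra.norm_zero, (algebraMap F F').map_zero]
  obtain ⟨c, hc⟩ := hdvd
  obtain ⟨m, hm⟩ := hπF.2.2 x hx
  have hx' : algebraMap F F' x ≠ 0 := by simpa using hx
  have hw : wv q (algebraMap F F' x) = finrank F' E * wv q πF' * (c * m) := by
    rw [l3b_wv_algebraMap, hm, ← hE1, ← hE2, hc]; push_cast; ring
  have hz0 : πF' ^ ((c : ℤ) * m) ≠ 0 := zpow_ne_zero _ hπF'.1
  have hu : IsU q (algebraMap F F' x / (πF' ^ ((c : ℤ) * m)) ^ finrank F' E) := by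
    refine ⟨div_ne_zero hx' (pow_ne_zero _ hz0), ?_⟩
    rw [l0b_wv_div q hx' (pow_ne_zero _ hz0), hw, l0b_wv_pow, l0b_wv_zpow]; ring
  obtain ⟨y, _, hy⟩ := unitNorm q F' E hcycE hunrE _ hu
  refine ⟨y * algebraMap F' E (πF' ^ ((c : ℤ) * m)), ?_⟩
  rw [map_mul, hy, Algebra.norm_algebraMap, div_mul_cancel₀ _ (pow_ne_zero _ hz0)]

end main

/-- **U2**: `StmtRes ⇒ StmtCompositumNorm`. -/
theorem stmtCompositumNorm_of_res (hR : StmtRes) : StmtCompositumNorm := by
  intro q _ F F' En E _ _ _ _ _ _ _ _ _ _ _ _ _ _ _ _ _ _ _ _ _ hunr hn htop x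
  let _ : Algebra ℚ_[q] F' := ((algebraMap F F').comp (algebraMap ℚ_[q] F)).toAlgebra
  have : IsScalarTower ℚ_[q] F F' := IsScalarTower.of_algebraMap_eq (fun _ => rfl)
  let _ : Algebra ℚ_[q] E := ((algebraMap F E).comp (algebraMap ℚ_[q] F)).toAlgebra
  have : IsScalarTower ℚ_[q] F E := IsScalarTower.of_algebraMap_eq (fun _ => rfl)
  have : IsScalarTower ℚ_[q] F' E := IsScalarTower.of_algebraMap_eq (fun a => by
    show algebraMap F E (algebraMap ℚ_[q] F a) =
      algebraMap F' E (algebraMap F F' (algebraMap ℚ_[q] F a))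
    rw [← IsScalarTower.algebraMap_apply F F' E])
  have : IsScalarTower ℚ_[q] En E := IsScalarTower.of_algebraMap_eq (fun a => by
    show algebraMap F E (algebraMap ℚ_[q] F a) = algebraMap En E (algebraMap ℚ_[q] En a)
    rw [IsScalarTower.algebraMap_apply ℚ_[q] F En, ← IsScalarTower.algebraMap_apply F En E])
  exact u2_main q F F' En E hR hunr hn htop x

end Fermat.Agent.PT.L


end ZBPT_006_7

/-! ### bundled: `Fermat.Agent.PT.G1.Plan2` -/
section ZBPT_006_8
/-
PT-G1 (global first inequality) — INTERFACE FILE, part 2: the semilocal side and the final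
statement, in the TENSOR MODEL  `A_q(L) = ℚ_[q] ⊗[ℚ] L`,  `J_L = ∏_{q ∈ S} A_q(L)ˣ`.
Definitions and statements only; piece table: NOTES/PT-G1.md.
-/

set_option autoImplicit false

namespace Fermat.Agent.PT.G1

open NumberField TensorProduct

/-- The endomorphism of the `ℤ`-module `Additive Rˣ` induced by a monoid endomorphism of `R`. -/
def unitsEnd {R : Type*} [CommMonoid R] (f : R →* R) : Module.End ℤ (Additive Rˣ) :=
  (MonoidHom.toAdditive (Units.map f)).toIntLinearMap

/-- The semilocal algebra `A_q(L) = ℚ_q ⊗_ℚ L`. -/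
abbrev semiAlg (q : ℕ) [Fact q.Prime] (L : Type) [Field L] [NumberField L] : Type :=
  ℚ_[q] ⊗[ℚ] L

/-- The action of `σ ∈ Aut(L)` on `A_q(L)`. -/
noncomputable def semiMap (q : ℕ) [Fact q.Prime] {L : Type} [Field L] [NumberField L]
    (σ : L ≃ₐ[ℚ] L) : semiAlg q L →ₐ[ℚ_[q]] semiAlg q L :=
  Algebra.TensorProduct.map (AlgHom.id ℚ_[q] ℚ_[q]) σ.toAlgHom

/-- The maximal ideals of `A_q(L)` which are stable under `σ`. -/
def fixedMax (q : ℕ) [Fact q.Prime] {L : Type} [Field L] [NumberField L] (σ : L ≃ₐ[ℚ] L) :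
    Set (Ideal (semiAlg q L)) :=
  {𝔪 | 𝔪.IsMaximal ∧ ∀ x ∈ 𝔪, semiMap q σ x ∈ 𝔪}

/-- **J-loc**: the Herbrand quotient of the multiplicative group of a local field `F'` under an
automorphism `τ` of prime order `p` is `p` (norm index `p` from PT-L, `H¹ = 0` by Hilbert 90). -/
def StmtLocalHQ : Prop :=
  ∀ (q : ℕ) [Fact q.Prime] (p : ℕ) [Fact p.Prime] (F' : Type) [Field F'] [Algebra ℚ_[q] F']
    [FiniteDimensional ℚ_[q] F'] (τ : F' ≃ₐ[ℚ_[q]] F'), orderOf τ = p →
    HasHQc (unitsEnd (τ : F' →* F')) p p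

/-- **J-tens**: the Herbrand quotient of `A_q(L)ˣ` under `σ` of prime order `p` is `p ^ f_T`,
`f_T` the number of `σ`-stable maximal ideals of `A_q(L)`. -/
def StmtTensorHQ : Prop :=
  ∀ (q : ℕ) [Fact q.Prime] (p : ℕ) [Fact p.Prime] (L : Type) [Field L] [NumberField L]
    (σ : L ≃ₐ[ℚ] L), orderOf σ = p →
    HasHQc (unitsEnd (semiMap q σ : semiAlg q L →* semiAlg q L)) p
      ((p : ℚ) ^ (fixedMax q σ).ncard)

/-- **T-cnt**: the `σ`-stable maximal ideals of `ℚ_q ⊗ L` correspond to the `σ`-stable primes of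
`𝓞 L` over `q`. -/
def StmtMaxSpecCount : Prop :=
  ∀ (q : ℕ) [Fact q.Prime] (L : Type) [Field L] [NumberField L] (σ : L ≃ₐ[ℚ] L),
    (fixedMax q σ).ncard = (fixedPrimesAbove q (σ : L ≃+* L)).ncard

/-- **U-split**: the `σ`-stable primes dividing `N = ∏_{q ∈ S} q` are the `σ`-stable primes over
the `q ∈ S`. -/
def StmtPrimeSplit : Prop :=
  ∀ (L : Type) [Field L] [NumberField L] (σ : L ≃+* L) (S : Finset Nat.Primes),
    (fixedPrimesAbove (∏ q ∈ S, (q : ℕ)) σ).ncard =
      ∑ q ∈ S, (fixedPrimesAbove (q : ℕ) σ).ncard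

section JL

variable (S : Finset Nat.Primes) (L : Type) [Field L] [NumberField L]

instance factPrimeOfMem (q : ↥S) : Fact (Nat.Prime ((q : Nat.Primes) : ℕ)) := ⟨(q : Nat.Primes).2⟩

/-- `J_L = ∏_{q ∈ S} (ℚ_q ⊗ L)ˣ`. -/
abbrev JL : Type := ∀ q : ↥S, (semiAlg ((q : Nat.Primes) : ℕ) L)ˣ

variable {L}

/-- The action of `σ ∈ Aut(L)` on `J_L`. -/
noncomputable def jlHom (σ : L ≃ₐ[ℚ] L) : JL S L →* JL S L :=
  MonoidHom.pi fun q =>
    (Units.map (semiMap ((q : Nat.Primes) : ℕ) σ :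
      semiAlg ((q : Nat.Primes) : ℕ) L →* semiAlg ((q : Nat.Primes) : ℕ) L)).comp
      (Pi.evalMonoidHom _ q)

/-- The action of `σ ∈ Aut(L)` on `J_L`, as an endomorphism of the `ℤ`-module `Additive J_L`. -/
noncomputable def jlEnd (σ : L ≃ₐ[ℚ] L) : Module.End ℤ (Additive (JL S L)) :=
  (MonoidHom.toAdditive (jlHom S σ)).toIntLinearMap

variable (L)

/-- The diagonal embedding `Lˣ → J_L`, `x ↦ (1 ⊗ x)_q`. -/
noncomputable def jlDiag : Lˣ →* JL S L :=
  MonoidHom.pi fun q =>
    Units.map (Algebra.TensorProduct.includeRight :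
      L →ₐ[ℚ] semiAlg ((q : Nat.Primes) : ℕ) L).toMonoidHom

/-- The diagonal embedding of the `S`-units into `J_L`, additively. -/
noncomputable def jlDiagUnits :
    Additive (nUnits (∏ q ∈ S, (q : ℕ)) L) →ₗ[ℤ] Additive (JL S L) :=
  (MonoidHom.toAdditive ((jlDiag S L).comp (nUnits (∏ q ∈ S, (q : ℕ)) L).subtype)).toIntLinearMap

end JL

/-- **J-main**: `h(⟨σ⟩, J_L) = p ^ f`, `f` the number of `σ`-stable primes of `𝓞 L` over `S`. -/
def StmtJMain : Prop :=
  ∀ (p : ℕ) [Fact p.Prime] (L : Type) [Field L] [NumberField L] (σ : L ≃ₐ[ℚ] L),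
    orderOf σ = p → ∀ S : Finset Nat.Primes,
    HasHQc (jlEnd S σ) p
      ((p : ℚ) ^ (fixedPrimesAbove (∏ q ∈ S, (q : ℕ)) (σ : L ≃+* L)).ncard)

/-- **C-main** (THE DELIVERABLE OF PT-G1): for `σ` of odd prime order `p` on a number field `L`,
`S ≠ ∅`, and ANY `⟨σ⟩`-module `C` sitting in an exact sequence
`0 → E_{L,S} → J_L → C → F → 0` with `F` finite (for the `S`-idèle class module `C_S(L)`,
`F = Cl(𝓞_L[1/N])`), the Herbrand quotient of `C` is `p`. -/
def StmtClassHQ : Prop :=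
  ∀ (p : ℕ) [Fact p.Prime], p ≠ 2 → ∀ (L : Type) [Field L] [NumberField L] (σ : L ≃ₐ[ℚ] L),
    orderOf σ = p → ∀ S : Finset Nat.Primes, S.Nonempty →
    ∀ (C F : Type) [AddCommGroup C] [Module ℤ C] [AddCommGroup F] [Module ℤ F] [Finite F]
      (σC : Module.End ℤ C) (σF : Module.End ℤ F)
      (π : Additive (JL S L) →ₗ[ℤ] C) (κ : C →ₗ[ℤ] F),
      σC ^ p = 1 → σF ^ p = 1 →
      π ∘ₗ jlEnd S σ = σC ∘ₗ π → κ ∘ₗ σC = σF ∘ₗ κ →
      LinearMap.ker π = LinearMap.range (jlDiagUnits S L) →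
      LinearMap.range π = LinearMap.ker κ → Function.Surjective κ →
      HasHQc σC p p

end Fermat.Agent.PT.G1


end ZBPT_006_8

/-! ### bundled: `Fermat.Agent.PT.G1.UnitRank` -/
section ZBPT_006_9
/-
PT-G1, piece U-rank (helper26): Dirichlet's `S`-unit theorem in the form
`rank (nUnits N L) = Units.rank L + #{P prime of 𝓞 L, N ∈ P}`.

Proof: the valuation vector `v : nUnits N L → ℤ^S` (`S` = primes containing `N`) has kernel
`(𝓞 L)ˣ` (rank `Units.rank L`, Mathlib) and its image contains, for every `P ∈ S`, a nonzero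
multiple of the basis vector `e_P` (`P ^ h` is principal, `h` the class number).
-/

set_option autoImplicit false
set_option linter.unusedSectionVars false
set_option linter.style.haveILetI false

namespace Fermat.Agent.PT.G1

open NumberField IsDedekindDomain Module

section UnitRank

variable (L : Type) [Field L] [NumberField L] (N : ℕ)

/-- The primes of `𝓞 L` containing `N`, as height one primes. -/
def UrS : Type := {P : HeightOneSpectrum (𝓞 L) // (N : 𝓞 L) ∈ P.asIdeal}

variable {L N}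

lemma ur_natCast_ne_zero (hN : N ≠ 0) : (N : 𝓞 L) ≠ 0 := by
  exact_mod_cast hN

lemma ur_finite (hN : N ≠ 0) : Finite (UrS L N) := by
  have hI : Ideal.span {(N : 𝓞 L)} ≠ 0 := by
    rw [Ne, Ideal.zero_eq_bot, Ideal.span_singleton_eq_bot]
    exact ur_natCast_ne_zero hN
  have h := Ideal.finite_factors hI
  have : Finite {v : HeightOneSpectrum (𝓞 L) | v.asIdeal ∣ Ideal.span {(N : 𝓞 L)}} := h
  refine Finite.of_injective
    (fun P : UrS L N => (⟨P.1, by
      show P.1.asIdeal ∣ Ideal.span {(N : 𝓞 L)}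
      rw [Ideal.dvd_span_singleton]; exact P.2⟩ :
      {v : HeightOneSpectrum (𝓞 L) | v.asIdeal ∣ Ideal.span {(N : 𝓞 L)}})) ?_
  intro P Q h
  exact Subtype.ext (congrArg (fun x => x.1) h)

/-- The valuation of an integral element is `≤ 1`. -/
lemma ur_val_le_one_of_isIntegral (P : HeightOneSpectrum (𝓞 L)) {y : L} (hy : IsIntegral ℤ y) :
    P.valuation L y ≤ 1 := by
  exact P.valuation_le_one (K := L) (⟨y, hy⟩ : 𝓞 L)

/-- The valuation of `N` at a prime not containing `N` is `1`. -/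
lemma ur_val_natCast (P : HeightOneSpectrum (𝓞 L)) (hP : (N : 𝓞 L) ∉ P.asIdeal) :
    P.valuation L (N : L) = 1 := by
  have h := (P.valuation_eq_one_iff_notMem (K := L) (r := (N : 𝓞 L))).mpr hP
  simpa using h

/-- An `N`-unit has valuation `1` at every prime not containing `N`. -/
lemma ur_val_eq_one (u : nUnits N L) (P : HeightOneSpectrum (𝓞 L))
    (hP : (N : 𝓞 L) ∉ P.asIdeal) : P.valuation L ((u : Lˣ) : L) = 1 := by
  obtain ⟨k, h1, h2⟩ := u.2
  have hN1 := ur_val_natCast P hP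
  have e1 : P.valuation L ((u : Lˣ) : L) ≤ 1 := by
    have := ur_val_le_one_of_isIntegral P h1
    rwa [map_mul, map_pow, hN1, one_pow, one_mul] at this
  have e2 : P.valuation L (((u : Lˣ)⁻¹ : Lˣ) : L) ≤ 1 := by
    have := ur_val_le_one_of_isIntegral P h2
    rwa [map_mul, map_pow, hN1, one_pow, one_mul] at this
  have e3 : P.valuation L ((u : Lˣ) : L) * P.valuation L (((u : Lˣ)⁻¹ : Lˣ) : L) = 1 := by
    rw [← map_mul, ← Units.val_mul, mul_inv_cancel, Units.val_one, map_one]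
  refine le_antisymm e1 ?_
  by_contra hlt
  rw [not_le] at hlt
  have h0 : P.valuation L ((u : Lˣ) : L) ≠ 0 := by
    rw [Ne, map_eq_zero]; exact (u : Lˣ).ne_zero
  have : P.valuation L ((u : Lˣ) : L) * P.valuation L (((u : Lˣ)⁻¹ : Lˣ) : L) < 1 := by
    calc P.valuation L ((u : Lˣ) : L) * P.valuation L (((u : Lˣ)⁻¹ : Lˣ) : L)
        ≤ P.valuation L ((u : Lˣ) : L) * 1 := by gcongr
      _ < 1 := by rwa [mul_one]
  rw [e3] at this
  exact lt_irrefl _ this

variable (L N)

/-- The valuation vector of an `N`-unit at the primes containing `N`. -/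
noncomputable def urVal : Additive (nUnits N L) →ₗ[ℤ] (UrS L N → ℤ) :=
  AddMonoidHom.toIntLinearMap
    { toFun := fun u P => Multiplicative.toAdd
        (P.1.valuationOfNeZero (((Additive.toMul u : nUnits N L) : Lˣ)))
      map_zero' := by
        funext P
        simp
      map_add' := fun u u' => by
        funext P
        simp [toAdd_mul] }

variable {L N}

lemma urVal_apply (u : Additive (nUnits N L)) (P : UrS L N) :
    urVal L N u P = Multiplicative.toAdd
      (P.1.valuationOfNeZero (((Additive.toMul u : nUnits N L) : Lˣ))) := rfl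

lemma urVal_eq_zero_iff (u : Additive (nUnits N L)) (P : UrS L N) :
    urVal L N u P = 0 ↔ P.1.valuation L ((((Additive.toMul u : nUnits N L) : Lˣ)) : L) = 1 := by
  rw [urVal_apply, ← HeightOneSpectrum.valuationOfNeZero_eq]
  constructor
  · intro h
    have h1 : P.1.valuationOfNeZero (((Additive.toMul u : nUnits N L) : Lˣ)) = 1 := by
      rw [← ofAdd_toAdd (P.1.valuationOfNeZero _), h, ofAdd_zero]
    rw [h1]
    rfl
  · intro h
    have h1 : P.1.valuationOfNeZero (((Additive.toMul u : nUnits N L) : Lˣ)) = 1 := by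
      exact_mod_cast h
    rw [h1, toAdd_one]

/-- An `N`-unit in the kernel of the valuation vector has valuation `1` everywhere. -/
lemma ur_val_eq_one_of_mem_ker (u : Additive (nUnits N L)) (hu : u ∈ LinearMap.ker (urVal L N))
    (P : HeightOneSpectrum (𝓞 L)) :
    P.valuation L ((((Additive.toMul u : nUnits N L) : Lˣ)) : L) = 1 := by
  by_cases hP : (N : 𝓞 L) ∈ P.asIdeal
  · have h := congrFun (LinearMap.mem_ker.mp hu) (⟨P, hP⟩ : UrS L N)
    exact (urVal_eq_zero_iff u ⟨P, hP⟩).mp h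
  · exact ur_val_eq_one (Additive.toMul u) P hP

variable (L N)

/-- The inclusion of the units of `𝓞 L` into the `N`-units. -/
noncomputable def urUnitsHom : (𝓞 L)ˣ →* nUnits N L where
  toFun u := ⟨Units.map (algebraMap (𝓞 L) L : 𝓞 L →* L) u, ⟨0, by
    simpa using RingOfIntegers.isIntegral_coe (u : 𝓞 L), by
    have : ((Units.map (algebraMap (𝓞 L) L : 𝓞 L →* L) u)⁻¹ : Lˣ) =
        Units.map (algebraMap (𝓞 L) L : 𝓞 L →* L) u⁻¹ := (map_inv _ u).symm
    rw [this]
    simpa using RingOfIntegers.isIntegral_coe ((u⁻¹ : (𝓞 L)ˣ) : 𝓞 L)⟩⟩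
  map_one' := by
    apply Subtype.ext
    simp
  map_mul' u u' := by
    apply Subtype.ext
    simp

/-- The inclusion of the units of `𝓞 L` into the `N`-units, as a linear map. -/
noncomputable def urIncl : Additive (𝓞 L)ˣ →ₗ[ℤ] Additive (nUnits N L) :=
  (MonoidHom.toAdditive (urUnitsHom L N)).toIntLinearMap

variable {L N}

lemma urIncl_injective : Function.Injective (urIncl L N) := by
  intro u u' h
  have h1 : urUnitsHom L N (Additive.toMul u) = urUnitsHom L N (Additive.toMul u') := h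
  have h2 : (((urUnitsHom L N (Additive.toMul u) : nUnits N L) : Lˣ) : L) =
      (((urUnitsHom L N (Additive.toMul u') : nUnits N L) : Lˣ) : L) := by rw [h1]
  have h3 : (((Additive.toMul u : (𝓞 L)ˣ) : 𝓞 L) : L) = (((Additive.toMul u' : (𝓞 L)ˣ) : 𝓞 L) : L) := h2
  have h4 : ((Additive.toMul u : (𝓞 L)ˣ) : 𝓞 L) = ((Additive.toMul u' : (𝓞 L)ˣ) : 𝓞 L) :=
    RingOfIntegers.ext h3
  exact congrArg Additive.ofMul (Units.ext h4)

lemma ur_range_incl : LinearMap.range (urIncl L N) = LinearMap.ker (urVal L N) := by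
  apply le_antisymm
  · rintro _ ⟨u, rfl⟩
    rw [LinearMap.mem_ker]
    funext P
    rw [Pi.zero_apply, urVal_eq_zero_iff]
    have h := HeightOneSpectrum.valuation_of_unit_eq (K := L) P.1 (Additive.toMul u)
    have h2 := HeightOneSpectrum.valuationOfNeZero_eq (K := L) P.1
      (Units.map (algebraMap (𝓞 L) L : 𝓞 L →* L) (Additive.toMul u))
    rw [h] at h2
    exact h2.symm
  · intro u hu
    have hval := ur_val_eq_one_of_mem_ker u hu
    set x : Lˣ := ((Additive.toMul u : nUnits N L) : Lˣ) with hx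
    obtain ⟨a, ha⟩ := HeightOneSpectrum.mem_integers_of_valuation_le_one (R := 𝓞 L) L (x : L)
      (fun v => (hval v).le)
    obtain ⟨b, hb⟩ := HeightOneSpectrum.mem_integers_of_valuation_le_one (R := 𝓞 L) L
      ((x⁻¹ : Lˣ) : L) (fun v => by
        have h1 : v.valuation L ((x⁻¹ : Lˣ) : L) = (v.valuation L (x : L))⁻¹ := by
          rw [Units.val_inv_eq_inv_val, map_inv₀]
        rw [h1, hval v, inv_one])
    have hab : a * b = 1 := by
      apply RingOfIntegers.ext
      have : algebraMap (𝓞 L) L (a * b) = 1 := by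
        rw [map_mul, ha, hb, ← Units.val_mul, mul_inv_cancel, Units.val_one]
      simpa using this
    refine ⟨Additive.ofMul (⟨a, b, hab, by rw [mul_comm]; exact hab⟩ : (𝓞 L)ˣ), ?_⟩
    have : urUnitsHom L N (⟨a, b, hab, by rw [mul_comm]; exact hab⟩ : (𝓞 L)ˣ) =
        (Additive.toMul u : nUnits N L) := by
      apply Subtype.ext
      apply Units.ext
      exact ha
    exact congrArg Additive.ofMul this

/-- For every prime `P` containing `N` there is an `N`-unit whose valuation is `1` at all the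
other primes and `≠ 1` at `P` (a generator of `P ^ h`, `h` the class number). -/
lemma ur_exists_generator (P : UrS L N) :
    ∃ u : nUnits N L, P.1.valuation L ((u : Lˣ) : L) ≠ 1 ∧
      ∀ Q : HeightOneSpectrum (𝓞 L), Q ≠ P.1 → Q.valuation L ((u : Lˣ) : L) = 1 := by
  classical
  set h : ℕ := Fintype.card (ClassGroup (𝓞 L)) with hh
  have hpos : 0 < h := Fintype.card_pos
  have hP0 : P.1.asIdeal ∈ nonZeroDivisors (Ideal (𝓞 L)) :=
    mem_nonZeroDivisors_iff_ne_zero.mpr P.1.ne_bot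
  have hPh0 : P.1.asIdeal ^ h ∈ nonZeroDivisors (Ideal (𝓞 L)) := pow_mem hP0 h
  have hcl : ClassGroup.mk0 ⟨P.1.asIdeal ^ h, hPh0⟩ = 1 := by
    have : (⟨P.1.asIdeal ^ h, hPh0⟩ : nonZeroDivisors (Ideal (𝓞 L))) =
        (⟨P.1.asIdeal, hP0⟩ : nonZeroDivisors (Ideal (𝓞 L))) ^ h := rfl
    rw [this, map_pow, hh]
    exact pow_card_eq_one
  obtain ⟨x, hx⟩ := ((ClassGroup.mk0_eq_one_iff hPh0).mp hcl).principal
  have hx' : P.1.asIdeal ^ h = Ideal.span {x} := by
    rw [hx]
  have hx0 : x ≠ 0 := by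
    rintro rfl
    have : P.1.asIdeal ^ h = ⊥ := by rw [hx']; simp
    exact (mem_nonZeroDivisors_iff_ne_zero.mp hPh0) this
  have hxL : (x : L) ≠ 0 := RingOfIntegers.coe_ne_zero_iff.mpr hx0
  -- `x ∈ P`
  have hxP : x ∈ P.1.asIdeal := by
    have h1 : x ∈ P.1.asIdeal ^ h := by rw [hx']; exact Ideal.mem_span_singleton_self x
    exact Ideal.pow_le_self hpos.ne' h1
  -- `N ^ h = x * y`
  have hNh : (N : 𝓞 L) ^ h ∈ Ideal.span {x} := by
    rw [← hx']
    exact Ideal.pow_mem_pow P.2 h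
  obtain ⟨y, hy⟩ := Ideal.mem_span_singleton'.mp hNh
  refine ⟨⟨Units.mk0 (x : L) hxL, ⟨h, ?_, ?_⟩⟩, ?_, ?_⟩
  · have : IsIntegral ℤ (((N : 𝓞 L) ^ h * x : 𝓞 L) : L) :=
      RingOfIntegers.isIntegral_coe _
    simpa using this
  · have h1 : (N : L) ^ h * ((Units.mk0 (x : L) hxL)⁻¹ : Lˣ) = (y : L) := by
      have h2 : ((y * x : 𝓞 L) : L) = (((N : 𝓞 L) ^ h : 𝓞 L) : L) := by rw [hy]
      push_cast at h2
      rw [Units.val_inv_eq_inv_val, Units.val_mk0, ← h2]
      field_simp
    rw [h1]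
    exact RingOfIntegers.isIntegral_coe y
  · have h1 := (P.1.valuation_lt_one_iff_mem (K := L) x).mpr hxP
    exact ne_of_lt h1
  · intro Q hQ
    have hxQ : x ∉ Q.asIdeal := by
      intro hmem
      have h1 : P.1.asIdeal ^ h ≤ Q.asIdeal := by
        rw [hx', Ideal.span_singleton_le_iff_mem]; exact hmem
      have h2 : P.1.asIdeal ≤ Q.asIdeal := Q.isPrime.le_of_pow_le h1
      have h3 : P.1.asIdeal = Q.asIdeal :=
        (P.1.isMaximal.eq_of_le Q.isPrime.ne_top h2)
      exact hQ (HeightOneSpectrum.ext h3.symm)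
    exact (Q.valuation_eq_one_iff_notMem (K := L)).mpr hxQ

/-- The primes of `𝓞 L` containing `N ≠ 0` are the height one primes containing `N`. -/
lemma ur_ncard_primesAbove (hN : N ≠ 0) : (primesAbove N L).ncard = Nat.card (UrS L N) := by
  have himg : primesAbove N L = (fun P : UrS L N => P.1.asIdeal) '' Set.univ := by
    ext Q
    constructor
    · rintro ⟨hQp, hQN⟩
      have hQ0 : Q ≠ ⊥ := by
        rintro rfl
        exact ur_natCast_ne_zero (L := L) hN (by simpa using hQN)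
      exact ⟨⟨⟨Q, hQp, hQ0⟩, hQN⟩, Set.mem_univ _, rfl⟩
    · rintro ⟨P, -, rfl⟩
      exact ⟨P.1.isPrime, P.2⟩
  have hinj : Function.Injective (fun P : UrS L N => P.1.asIdeal) := by
    intro P Q h
    exact Subtype.ext (HeightOneSpectrum.ext h)
  rw [himg, Set.ncard_image_of_injective _ hinj, Set.ncard_univ]

/-- The rank of the image of the valuation vector. -/
lemma ur_finrank_range [Fintype (UrS L N)] :
    finrank ℤ (LinearMap.range (urVal L N)) = Fintype.card (UrS L N) := by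
  classical
  choose x hx1 hx2 using fun P : UrS L N => ur_exists_generator P
  set g : (UrS L N → ℤ) →ₗ[ℤ] Additive (nUnits N L) :=
    Fintype.linearCombination ℤ (fun P => Additive.ofMul (x P)) with hg
  set m : (UrS L N → ℤ) →ₗ[ℤ] (UrS L N → ℤ) := (urVal L N) ∘ₗ g with hm
  have hc0 : ∀ P : UrS L N, urVal L N (Additive.ofMul (x P)) P ≠ 0 := by
    intro P h
    exact hx1 P ((urVal_eq_zero_iff _ P).mp h)
  have hc1 : ∀ P Q : UrS L N, Q ≠ P → urVal L N (Additive.ofMul (x P)) Q = 0 := by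
    intro P Q hQP
    rw [urVal_eq_zero_iff]
    exact hx2 P Q.1 (fun h => hQP (Subtype.ext h))
  have hmQ : ∀ (a : UrS L N → ℤ) (Q : UrS L N),
      m a Q = a Q * urVal L N (Additive.ofMul (x Q)) Q := by
    intro a Q
    simp only [hm, hg, LinearMap.comp_apply, Fintype.linearCombination_apply, map_sum, map_smul,
      Finset.sum_apply, Pi.smul_apply, smul_eq_mul]
    rw [Finset.sum_eq_single Q]
    · intro P _ hPQ
      rw [hc1 P Q (Ne.symm hPQ), mul_zero]
    · intro h
      exact absurd (Finset.mem_univ Q) h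
  have hminj : Function.Injective m := by
    rw [← LinearMap.ker_eq_bot, LinearMap.ker_eq_bot']
    intro a ha
    funext Q
    have := congrFun ha Q
    rw [hmQ, Pi.zero_apply, mul_eq_zero] at this
    exact this.resolve_right (hc0 Q)
  have hle : LinearMap.range m ≤ LinearMap.range (urVal L N) :=
    LinearMap.range_comp_le_range _ _
  have h1 : finrank ℤ (LinearMap.range m) = Fintype.card (UrS L N) := by
    rw [LinearMap.finrank_range_of_inj hminj, Module.finrank_fintype_fun_eq_card]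
  have h2 : finrank ℤ (LinearMap.range m) ≤ finrank ℤ (LinearMap.range (urVal L N)) :=
    Submodule.finrank_mono hle
  have h3 : finrank ℤ (LinearMap.range (urVal L N)) ≤ finrank ℤ (UrS L N → ℤ) :=
    Submodule.finrank_le _
  rw [Module.finrank_fintype_fun_eq_card] at h3
  omega

end UnitRank

/-- **PT-G1, piece U-rank**: Dirichlet's `S`-unit theorem. -/
theorem stmtUnitRank : StmtUnitRank := by
  intro L _ _ N hN
  classical
  haveI : Finite (UrS L N) := ur_finite hN
  letI : Fintype (UrS L N) := Fintype.ofFinite _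
  have hfin : Module.Finite ℤ (Additive (nUnits N L)) := by
    refine ⟨Submodule.fg_of_fg_map_of_fg_inf_ker (urVal L N) ?_ ?_⟩
    · exact IsNoetherian.noetherian _
    · rw [top_inf_eq, ← ur_range_incl, LinearMap.range_eq_map]
      exact Submodule.FG.map _ Module.Finite.fg_top
  refine ⟨hfin, ?_⟩
  have hker : finrank ℤ (LinearMap.ker (urVal L N)) = Units.rank L := by
    rw [← ur_range_incl, LinearMap.finrank_range_of_inj (urIncl_injective (L := L) (N := N)),
      Units.finrank_eq]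
  have hrange := ur_finrank_range (L := L) (N := N)
  have h1 := Submodule.finrank_quotient_add_finrank (LinearMap.ker (urVal L N))
  have h2 := (LinearMap.quotKerEquivRange (urVal L N)).finrank_eq
  have hn : (primesAbove N L).ncard = Fintype.card (UrS L N) := by
    rw [ur_ncard_primesAbove hN, Nat.card_eq_fintype_card]
  omega

end Fermat.Agent.PT.G1


end ZBPT_006_9
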