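/- GENERATED FILE (helper35, build-time optimisation, NOTES/ZB.md): verbatim concatenation of the modules
   Fermat.Agent.PT.X.PowIndex
   Fermat.Agent.PT.X.DivS
   Fermat.Agent.PT.G.Defs
   Fermat.Agent.PT.G.Plan
   Fermat.Agent.PT.B.Plan3
   Fermat.Agent.PT.G.Map
   Fermat.Agent.PT.G.Reps
   Fermat.Agent.PT.B.JDiv
   Fermat.Agent.PT.B.EDiv
   Fermat.Agent.PT.B.JDisc
   Fermat.Agent.PT.G.Exact
   Fermat.Agent.PT.B.UnitsS
   Do not edit; do not import together with these modules. -/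
import Mathlib
import Fermat.Agent.ZB.PT_006
import Fermat.Agent.ZB.PT_003
import Fermat.Agent.ZB.PT_002
import Fermat.Agent.ZB.S05_001

/-! ### bundled: `Fermat.Agent.PT.X.PowIndex` -/
section ZBPT_007_0
/-
PT-X / X-U, generic part (helper74): index of `n`-th powers in commutative groups.

* `powQuotMap n f`: the map `B/Bⁿ → C/Cⁿ` induced by `f : B →* C`.
* `card_powQuot_eq_mul`: if `f : B →* C` is surjective and `C` has no `n`-torsion, then
  `|B/Bⁿ| = |ker f/(ker f)ⁿ| · |C/Cⁿ|` (as `Nat.card`, no finiteness hypothesis).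
* `card_powQuot_of_finite`: for a finite commutative group `|T/Tⁿ| = |T[n]|`.
* `card_powQuot_of_free`: for `Additive C` free of finite rank `r` over `ℤ`: `|C/Cⁿ| = n ^ r`.
-/

set_option autoImplicit false

namespace Fermat.Agent.PT.X

variable {B C : Type*} [CommGroup B] [CommGroup C]

/-- The subgroup of `n`-th powers. -/
abbrev powRange (B : Type*) [CommGroup B] (n : ℕ) : Subgroup B := (powMonoidHom n : B →* B).range

lemma mem_powRange {n : ℕ} {b : B} : b ∈ powRange B n ↔ ∃ c : B, c ^ n = b := by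
  simp [powRange, MonoidHom.mem_range]

/-- The map `B/Bⁿ → C/Cⁿ` induced by a homomorphism. -/
noncomputable def powQuotMap (n : ℕ) (f : B →* C) : B ⧸ powRange B n →* C ⧸ powRange C n :=
  QuotientGroup.map _ _ f (by
    rintro _ ⟨b, rfl⟩
    exact ⟨f b, by simp⟩)

@[simp] lemma powQuotMap_mk (n : ℕ) (f : B →* C) (b : B) :
    powQuotMap n f (QuotientGroup.mk b) = QuotientGroup.mk (f b) := rfl

lemma powQuotMap_surjective (n : ℕ) {f : B →* C} (hf : Function.Surjective f) :
    Function.Surjective (powQuotMap n f) := by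
  intro c
  induction c using QuotientGroup.induction_on with
  | H c =>
    obtain ⟨b, rfl⟩ := hf c
    exact ⟨QuotientGroup.mk b, rfl⟩

/-- If `C` has no `n`-torsion, `ker f / (ker f)ⁿ → B/Bⁿ` is injective. -/
lemma powQuotMap_subtype_ker_injective (n : ℕ) (f : B →* C)
    (htf : ∀ c : C, c ^ n = 1 → c = 1) :
    Function.Injective (powQuotMap n f.ker.subtype) := by
  rw [injective_iff_map_eq_one]
  intro a ha
  induction a using QuotientGroup.induction_on with
  | H a =>
    rw [powQuotMap_mk, QuotientGroup.eq_one_iff] at ha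
    obtain ⟨b, hb⟩ := mem_powRange.mp ha
    have hb' : b ∈ f.ker := by
      rw [MonoidHom.mem_ker]
      apply htf
      rw [← map_pow, hb]
      exact a.2
    rw [QuotientGroup.eq_one_iff]
    exact mem_powRange.mpr ⟨⟨b, hb'⟩, Subtype.ext hb⟩

/-- Exactness in the middle. -/
lemma powQuotMap_ker_eq_range (n : ℕ) {f : B →* C} (hf : Function.Surjective f) :
    (powQuotMap n f).ker = (powQuotMap n f.ker.subtype).range := by
  ext x
  induction x using QuotientGroup.induction_on with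
  | H b =>
    rw [MonoidHom.mem_ker, powQuotMap_mk, QuotientGroup.eq_one_iff, MonoidHom.mem_range]
    constructor
    · intro h
      obtain ⟨c, hc⟩ := mem_powRange.mp h
      obtain ⟨b', rfl⟩ := hf c
      have hk : b * (b' ^ n)⁻¹ ∈ f.ker := by
        rw [MonoidHom.mem_ker, map_mul, map_inv, map_pow, hc, mul_inv_cancel]
      refine ⟨QuotientGroup.mk ⟨_, hk⟩, ?_⟩
      rw [powQuotMap_mk, QuotientGroup.eq]
      refine mem_powRange.mpr ⟨b', ?_⟩
      simp
    · rintro ⟨a, ha⟩
      induction a using QuotientGroup.induction_on with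
      | H a =>
        rw [powQuotMap_mk, QuotientGroup.eq] at ha
        obtain ⟨c, hc⟩ := mem_powRange.mp ha
        refine mem_powRange.mpr ⟨f c, ?_⟩
        have h1 : f ((f.ker.subtype a)⁻¹ * b) = f b := by
          rw [map_mul, map_inv]
          have : f (f.ker.subtype a) = 1 := a.2
          rw [this, inv_one, one_mul]
        rw [← map_pow, hc, h1]

/-- **Multiplicativity of the index of `n`-th powers** along `1 → ker f → B → C → 1` when `C` has
no `n`-torsion. (`Nat.card`, valid without finiteness hypotheses.) -/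
theorem card_powQuot_eq_mul (n : ℕ) {f : B →* C} (hf : Function.Surjective f)
    (htf : ∀ c : C, c ^ n = 1 → c = 1) :
    Nat.card (B ⧸ powRange B n) =
      Nat.card (f.ker ⧸ powRange f.ker n) * Nat.card (C ⧸ powRange C n) := by
  have h1 := Subgroup.card_mul_index (powQuotMap n f).ker
  rw [Subgroup.index_ker, MonoidHom.range_eq_top.mpr (powQuotMap_surjective n hf)] at h1
  rw [← h1, powQuotMap_ker_eq_range n hf]
  congr 1
  · exact (Nat.card_congr
      (MonoidHom.ofInjective (powQuotMap_subtype_ker_injective n f htf)).toEquiv).symm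
  · exact Nat.card_congr (Subgroup.topEquiv (G := C ⧸ powRange C n)).toEquiv

/-- For a finite commutative group, `|T/Tⁿ| = |T[n]|`. -/
theorem card_powQuot_of_finite (T : Type*) [CommGroup T] [Finite T] (n : ℕ) :
    Nat.card (T ⧸ powRange T n) = Nat.card (powMonoidHom n : T →* T).ker := by
  have h1 := Subgroup.card_mul_index (powMonoidHom n : T →* T).ker
  rw [Subgroup.index_ker] at h1
  have h2 := Subgroup.card_mul_index (powRange T n)
  have h3 : Nat.card (powRange T n) ≠ 0 := Nat.card_pos.ne'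
  have h4 : Nat.card (powRange T n) * (powRange T n).index =
      Nat.card (powRange T n) * Nat.card (powMonoidHom n : T →* T).ker := by
    rw [h2, ← h1, mul_comm]
  exact Nat.eq_of_mul_eq_mul_left (Nat.pos_of_ne_zero h3) h4

/-- Bridge multiplicative/additive: the index of `n`-th powers. -/
lemma powRange_index_eq (C : Type*) [CommGroup C] (n : ℕ) :
    (powRange C n).index = (nsmulAddMonoidHom (α := Additive C) n).range.index := by
  rw [← Subgroup.index_toAddSubgroup]
  congr 1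

/-- If `Additive C` is a free `ℤ`-module of finite rank, `|C/Cⁿ| = n ^ rank`. -/
theorem card_powQuot_of_free (C : Type*) [CommGroup C] [Module.Free ℤ (Additive C)]
    [Module.Finite ℤ (Additive C)] (n : ℕ) :
    Nat.card (C ⧸ powRange C n) = n ^ Module.finrank ℤ (Additive C) := by
  have := AddSubgroup.index_range_nsmul (Additive C) n
  rw [← powRange_index_eq] at this
  exact this

/-- Invariance under isomorphism. -/
theorem card_powQuot_congr (e : B ≃* C) (n : ℕ) :
    Nat.card (B ⧸ powRange B n) = Nat.card (C ⧸ powRange C n) := by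
  refine Nat.card_congr (QuotientGroup.congr _ _ e ?_).toEquiv
  ext c
  simp only [Subgroup.mem_map, mem_powRange]
  constructor
  · rintro ⟨b, ⟨b', rfl⟩, rfl⟩
    exact ⟨e b', by simp⟩
  · rintro ⟨c', rfl⟩
    exact ⟨e.symm (c' ^ n), ⟨e.symm c', by simp⟩, by simp⟩

lemma card_powQuot_subgroup_congr {H H' : Subgroup B} (h : H = H') (n : ℕ) :
    Nat.card (H ⧸ powRange H n) = Nat.card (H' ⧸ powRange H' n) := by
  subst h; rfl

/-- Version of `card_powQuot_eq_mul` for a not necessarily surjective homomorphism. -/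
theorem card_powQuot_eq_mul_range (n : ℕ) (f : B →* C) (htf : ∀ c : C, c ^ n = 1 → c = 1) :
    Nat.card (B ⧸ powRange B n) =
      Nat.card (f.ker ⧸ powRange f.ker n) * Nat.card (f.range ⧸ powRange f.range n) := by
  have h := card_powQuot_eq_mul n (f := f.rangeRestrict) f.rangeRestrict_surjective
    (fun c hc => by
      apply Subtype.ext
      apply htf
      have := congrArg Subtype.val hc
      simpa using this)
  rw [h, card_powQuot_subgroup_congr (MonoidHom.ker_rangeRestrict f) n]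

/-- The additive subgroup of `M` corresponding to a subgroup of `Multiplicative M`, as a type. -/
def subgroupMultiplicativeEquiv {M : Type*} [AddCommGroup M] (Λ : Subgroup (Multiplicative M)) :
    Additive Λ ≃+ (Subgroup.toAddSubgroup' Λ) where
  toFun x := ⟨Multiplicative.toAdd (Additive.toMul x).1, (Additive.toMul x).2⟩
  invFun y := Additive.ofMul ⟨Multiplicative.ofAdd y.1, y.2⟩
  left_inv _ := rfl
  right_inv _ := rfl
  map_add' _ _ := rfl

/-- A subgroup of finite index of a free abelian group of rank `r`: `|Λ/Λⁿ| = n ^ r`. -/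
theorem card_powQuot_of_finiteIndex (M : Type*) [AddCommGroup M] [Module.Free ℤ M]
    [Module.Finite ℤ M] (Λ : Subgroup (Multiplicative M)) [Λ.FiniteIndex] (n : ℕ) :
    Nat.card (Λ ⧸ powRange Λ n) = n ^ Module.finrank ℤ M := by
  set A : AddSubgroup M := Subgroup.toAddSubgroup' Λ with hA
  have hfi : A.FiniteIndex := by
    constructor
    have h1 : (AddSubgroup.toSubgroup A).index = A.index := AddSubgroup.index_toSubgroup A
    have h2 : AddSubgroup.toSubgroup A = Λ := by
      rw [hA]; exact OrderIso.apply_symm_apply _ _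
    rw [← h1, h2]
    exact Subgroup.FiniteIndex.index_ne_zero
  let e : Additive Λ ≃ₗ[ℤ] A.toIntSubmodule := (subgroupMultiplicativeEquiv Λ).toIntLinearEquiv
  have : Module.Free ℤ (Additive Λ) := Module.Free.of_equiv e.symm
  have : Module.Finite ℤ (Additive Λ) := Module.Finite.equiv e.symm
  rw [card_powQuot_of_free, e.finrank_eq]
  congr 1
  exact AddSubgroup.finrank_eq_of_finiteIndex A

end Fermat.Agent.PT.X


end ZBPT_007_0

/-! ### bundled: `Fermat.Agent.PT.X.DivS` -/
section ZBPT_007_1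
/-
PT-X / X-D, X-U common core (helper74): orders of elements of `Kˣ` at the primes of a Dedekind
domain, divisors, and the map to the class group.
-/

set_option autoImplicit false
set_option linter.unusedSectionVars false

open IsDedekindDomain IsDedekindDomain.HeightOneSpectrum FractionalIdeal
open scoped nonZeroDivisors

namespace Fermat.Agent.PT.X

variable {R : Type*} [CommRing R] [IsDedekindDomain R] {K : Type*} [Field K] [Algebra R K]
  [IsFractionRing R K]

/-- The order of `x ∈ Kˣ` at the prime `v` (`= count` of the principal fractional ideal). -/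
noncomputable def ordAt (v : HeightOneSpectrum R) (x : Kˣ) : ℤ :=
  FractionalIdeal.count K v (spanSingleton R⁰ (x : K))

lemma spanSingleton_units_ne_zero (x : Kˣ) : spanSingleton R⁰ (x : K) ≠ 0 := by
  rw [Ne, spanSingleton_eq_zero_iff]
  exact x.ne_zero

lemma ordAt_one (v : HeightOneSpectrum R) : ordAt v (1 : Kˣ) = 0 := by
  simp [ordAt, count_one]

lemma ordAt_mul (v : HeightOneSpectrum R) (x y : Kˣ) :
    ordAt v (x * y) = ordAt v x + ordAt v y := by
  rw [ordAt, ordAt, ordAt, Units.val_mul, ← spanSingleton_mul_spanSingleton,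
    count_mul K v (spanSingleton_units_ne_zero x) (spanSingleton_units_ne_zero y)]

/-- Mathlib's multiplicative valuation on `Kˣ` is `exp (- ord)`. -/
lemma valuationOfNeZero_eq_ordAt (v : HeightOneSpectrum R) (x : Kˣ) :
    v.valuationOfNeZero x = Multiplicative.ofAdd (-(ordAt v x)) := by
  classical
  have hx0 : spanSingleton R⁰ (x : K) ≠ 0 := spanSingleton_units_ne_zero x
  have hspec : (x : K) * algebraMap R K (IsLocalization.sec R⁰ (x : K)).2 =
      algebraMap R K (IsLocalization.sec R⁰ (x : K)).1 := IsLocalization.sec_spec R⁰ (x : K)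
  have hd : algebraMap R K ((IsLocalization.sec R⁰ (x : K)).2 : R) ≠ 0 :=
    map_ne_zero_of_mem_nonZeroDivisors _ (IsFractionRing.injective R K)
      (IsLocalization.sec R⁰ (x : K)).2.property
  have hI : spanSingleton R⁰ (x : K) =
      spanSingleton R⁰ ((algebraMap R K) (IsLocalization.sec R⁰ (x : K)).2)⁻¹ *
        ↑(Ideal.span {(IsLocalization.sec R⁰ (x : K)).1} : Ideal R) := by
    rw [coeIdeal_span_singleton, spanSingleton_mul_spanSingleton]
    congr 1
    rw [← hspec]
    field_simp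
  rw [ordAt, count_well_defined K v hx0 hI]
  change v.valuationOfNeZeroToFun x = _
  unfold valuationOfNeZeroToFun
  simp only [neg_sub, sub_neg_eq_add]
  congr 1
  ring

end Fermat.Agent.PT.X

namespace Fermat.Agent.PT.X

variable {R : Type*} [CommRing R] [IsDedekindDomain R] {K : Type*} [Field K] [Algebra R K]
  [IsFractionRing R K]

lemma ordAt_inv (v : HeightOneSpectrum R) (x : Kˣ) : ordAt v x⁻¹ = - ordAt v x := by
  have h := ordAt_mul v x x⁻¹
  rw [mul_inv_cancel, ordAt_one] at h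
  linarith

/-- `x` is an `S`-unit iff its order vanishes outside `S`. -/
lemma mem_unit_iff_ordAt (S : Set (HeightOneSpectrum R)) (x : Kˣ) :
    x ∈ S.unit K ↔ ∀ v, v ∉ S → ordAt v x = 0 := by
  have key : ∀ v : HeightOneSpectrum R, v.valuation K (x : K) = 1 ↔ ordAt v x = 0 := by
    intro v
    rw [← valuationOfNeZero_eq, valuationOfNeZero_eq_ordAt]
    constructor
    · intro h
      have h1 : Multiplicative.ofAdd (-(ordAt v x)) = 1 := by exact_mod_cast h
      have h2 : -(ordAt v x) = 0 := by simpa using h1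
      linarith
    · intro h
      rw [h]
      simp
  constructor
  · intro hx v hv
    exact (key v).mp (hx v hv)
  · intro hx v hv
    exact (key v).mpr (hx v hv)

section family

variable {ι : Type*} (f : ι → HeightOneSpectrum R)

variable (K) in
/-- The fractional ideal `∏ᵢ (f i) ^ (d i)`. -/
noncomputable def idealOf (d : ι →₀ ℤ) : FractionalIdeal R⁰ K :=
  d.prod fun i n => ((f i).asIdeal : FractionalIdeal R⁰ K) ^ n

lemma prime_coe_ne_zero (v : HeightOneSpectrum R) : ((v.asIdeal : FractionalIdeal R⁰ K)) ≠ 0 :=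
  coeIdeal_ne_zero.mpr v.ne_bot

lemma idealOf_ne_zero (d : ι →₀ ℤ) : idealOf K f d ≠ 0 := by
  rw [idealOf, Finsupp.prod]
  exact Finset.prod_ne_zero_iff.mpr fun i _ => zpow_ne_zero _ (prime_coe_ne_zero _)

lemma idealOf_zero : idealOf K f (0 : ι →₀ ℤ) = 1 := by
  simp [idealOf]

lemma idealOf_add (d d' : ι →₀ ℤ) : idealOf K f (d + d') = idealOf K f d * idealOf K f d' := by
  classical
  rw [idealOf, idealOf, idealOf]
  exact Finsupp.prod_add_index' (fun i => zpow_zero _)
    (fun i a b => zpow_add₀ (prime_coe_ne_zero _) a b)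

lemma count_idealOf (hf : Function.Injective f) (d : ι →₀ ℤ) (i : ι) :
    count K (f i) (idealOf K f d) = d i := by
  classical
  rw [idealOf, Finsupp.prod, count_prod]
  · simp only [count_zpow, count_maximal, mul_ite, mul_one, mul_zero]
    rw [Finset.sum_eq_single i]
    · simp
    · intro j _ hji
      rw [if_neg]
      intro h
      exact hji (hf h)
    · intro hi
      simp only [Finsupp.mem_support_iff, not_not] at hi
      simp [hi]
  · exact fun j _ => zpow_ne_zero _ (prime_coe_ne_zero _)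

lemma count_idealOf_of_notMem (d : ι →₀ ℤ) (w : HeightOneSpectrum R) (hw : ∀ i, f i ≠ w) :
    count K w (idealOf K f d) = 0 := by
  classical
  rw [idealOf, Finsupp.prod, count_prod]
  · simp only [count_zpow, count_maximal, mul_ite, mul_one, mul_zero]
    apply Finset.sum_eq_zero
    intro j _
    rw [if_neg]
    intro h
    exact hw j h
  · exact fun j _ => zpow_ne_zero _ (prime_coe_ne_zero _)

variable (K) in
/-- `d ↦ ∏ᵢ (f i) ^ (d i)` as a homomorphism to the group of invertible fractional ideals. -/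
noncomputable def idealHom : Multiplicative (ι →₀ ℤ) →* (FractionalIdeal R⁰ K)ˣ where
  toFun d := Units.mk0 (idealOf K f (Multiplicative.toAdd d)) (idealOf_ne_zero f _)
  map_one' := by
    apply Units.ext
    simp [idealOf_zero]
  map_mul' d d' := by
    apply Units.ext
    simp [idealOf_add]

@[simp] lemma coe_idealHom (d : Multiplicative (ι →₀ ℤ)) :
    ((idealHom K f d : (FractionalIdeal R⁰ K)ˣ) : FractionalIdeal R⁰ K) =
      idealOf K f (Multiplicative.toAdd d) := rfl

variable (K) in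
/-- The class of `∏ᵢ (f i) ^ (d i)`. -/
noncomputable def classHom : Multiplicative (ι →₀ ℤ) →* ClassGroup R :=
  (ClassGroup.mk K).comp (idealHom K f)

/-- A divisor whose class is trivial is the divisor of an element. -/
lemma exists_ordAt_eq_of_mem_ker (hf : Function.Injective f) (d : Multiplicative (ι →₀ ℤ))
    (hd : d ∈ (classHom K f).ker) :
    ∃ x : Kˣ, (∀ i, ordAt (f i) x = Multiplicative.toAdd d i) ∧
      ∀ w : HeightOneSpectrum R, (∀ i, f i ≠ w) → ordAt w x = 0 := by
  rw [MonoidHom.mem_ker, classHom, MonoidHom.comp_apply, ClassGroup.mk_eq_one_iff] at hd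
  obtain ⟨x, hx⟩ := hd.principal
  have hx' : idealOf K f (Multiplicative.toAdd d) = spanSingleton R⁰ x := by
    apply Subtype.coe_injective
    simpa using hx
  have hx0 : x ≠ 0 := by
    rintro rfl
    exact idealOf_ne_zero f _ (by simpa using hx')
  refine ⟨Units.mk0 x hx0, fun i => ?_, fun w hw => ?_⟩
  · rw [ordAt, Units.val_mk0, ← hx', count_idealOf f hf]
  · rw [ordAt, Units.val_mk0, ← hx', count_idealOf_of_notMem f _ w hw]

end family

end Fermat.Agent.PT.X


end ZBPT_007_1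

/-! ### bundled: `Fermat.Agent.PT.G.Defs` -/
section ZBPT_007_2
/-
Project PT — SHARED GLOBAL DEFINITIONS for PT-G1/G2/G3/X/B (tensor model, helper55's shapes).

For a number field `L` (a TYPE) and a finite set `S` of rational primes, `N = ∏ S`:
* `semiAlg q L = ℚ_[q] ⊗[ℚ] L`, `JL S L = ∏_{q ∈ S} (ℚ_[q] ⊗[ℚ] L)ˣ`   (PT/G1/Plan2.lean)
* `nUnits N L` = the `S`-units `E_{L,S}`                              (PT/G1/Plan.lean)
* `OffS S L`   = the primes of `𝓞 L` not over `S`
* `DivS S L`   = the free abelian group on `OffS S L`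
* `CS S L`     = `(J_L × Div_S(L)) / Lˣ`, the `S`-idèle class module, with the action of
                 `Aut(L) = L ≃ₐ[ℚ] L` (`csRep S L : Rep ℤ (L ≃ₐ[ℚ] L)`).
-/

set_option autoImplicit false

namespace Fermat.Agent.PT.G

open NumberField IsDedekindDomain Fermat.Agent.PT.G1 Fermat.Agent.PT.X

variable (S : Finset Nat.Primes) (L : Type) [Field L] [NumberField L]

/-- `N = ∏_{q ∈ S} q`. -/
def sProd : ℕ := ∏ q ∈ S, (q : ℕ)

lemma sProd_ne_zero : sProd S ≠ 0 := Finset.prod_ne_zero_iff.2 fun q _ => (q.2).ne_zero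

variable {L}

/-- The image `σ(P)` of a prime of `𝓞 L` under an automorphism of `L`. -/
def primeMap (σ : L ≃ₐ[ℚ] L) (P : HeightOneSpectrum (𝓞 L)) : HeightOneSpectrum (𝓞 L) where
  asIdeal := P.asIdeal.comap (RingOfIntegers.mapRingEquiv (σ.symm : L ≃+* L))
  isPrime := Ideal.comap_isPrime _ _
  ne_bot := by
    intro h
    apply P.ne_bot
    rw [eq_bot_iff]
    intro x hx
    have h1 : RingOfIntegers.mapRingEquiv (σ : L ≃+* L) x ∈
        P.asIdeal.comap (RingOfIntegers.mapRingEquiv (σ.symm : L ≃+* L)) := by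
      rw [Ideal.mem_comap]
      have : RingOfIntegers.mapRingEquiv (σ.symm : L ≃+* L)
          (RingOfIntegers.mapRingEquiv (σ : L ≃+* L) x) = x := by
        ext; simp [RingOfIntegers.mapRingEquiv_apply]
      rwa [this]
    rw [h] at h1
    have h2 : RingOfIntegers.mapRingEquiv (σ : L ≃+* L) x = 0 := h1
    have h3 := (RingOfIntegers.mapRingEquiv (σ : L ≃+* L)).injective
      (h2.trans (map_zero _).symm)
    exact h3

lemma mem_primeMap (σ : L ≃ₐ[ℚ] L) (P : HeightOneSpectrum (𝓞 L)) (x : 𝓞 L) :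
    x ∈ (primeMap σ P).asIdeal ↔
      RingOfIntegers.mapRingEquiv (σ.symm : L ≃+* L) x ∈ P.asIdeal := Iff.rfl

@[simp] lemma primeMap_one (P : HeightOneSpectrum (𝓞 L)) : primeMap (1 : L ≃ₐ[ℚ] L) P = P := by
  apply HeightOneSpectrum.ext
  ext x
  rw [mem_primeMap]
  have : RingOfIntegers.mapRingEquiv (((1 : L ≃ₐ[ℚ] L).symm : L ≃ₐ[ℚ] L) : L ≃+* L) x = x := by
    ext; rfl
  rw [this]

lemma primeMap_mul (σ τ : L ≃ₐ[ℚ] L) (P : HeightOneSpectrum (𝓞 L)) :
    primeMap (σ * τ) P = primeMap σ (primeMap τ P) := by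
  apply HeightOneSpectrum.ext
  ext x
  rw [mem_primeMap, mem_primeMap, mem_primeMap]
  have : RingOfIntegers.mapRingEquiv (((σ * τ).symm : L ≃ₐ[ℚ] L) : L ≃+* L) x =
      RingOfIntegers.mapRingEquiv ((τ.symm : L ≃ₐ[ℚ] L) : L ≃+* L)
        (RingOfIntegers.mapRingEquiv ((σ.symm : L ≃ₐ[ℚ] L) : L ≃+* L) x) := by
    ext; rfl
  rw [this]

/-- `Aut(L)` acts on the primes of `𝓞 L`. -/
def primeEquiv (σ : L ≃ₐ[ℚ] L) : HeightOneSpectrum (𝓞 L) ≃ HeightOneSpectrum (𝓞 L) where
  toFun := primeMap σ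
  invFun := primeMap σ⁻¹
  left_inv P := by rw [← primeMap_mul, inv_mul_cancel, primeMap_one]
  right_inv P := by rw [← primeMap_mul, mul_inv_cancel, primeMap_one]

lemma natCast_mem_primeMap_iff (σ : L ≃ₐ[ℚ] L) (P : HeightOneSpectrum (𝓞 L)) (n : ℕ) :
    (n : 𝓞 L) ∈ (primeMap σ P).asIdeal ↔ (n : 𝓞 L) ∈ P.asIdeal := by
  rw [mem_primeMap, map_natCast]

variable (L)

/-- The primes of `𝓞 L` not over `S`. -/
def OffS : Type := {P : HeightOneSpectrum (𝓞 L) // ((sProd S : ℕ) : 𝓞 L) ∉ P.asIdeal}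

variable {L}

/-- `Aut(L)` acts on the primes of `𝓞 L` not over `S`. -/
def offEquiv (σ : L ≃ₐ[ℚ] L) : OffS S L ≃ OffS S L where
  toFun P := ⟨primeMap σ P.1, fun h => P.2 ((natCast_mem_primeMap_iff σ P.1 _).1 h)⟩
  invFun P := ⟨primeMap σ⁻¹ P.1, fun h => P.2 ((natCast_mem_primeMap_iff σ⁻¹ P.1 _).1 h)⟩
  left_inv P := Subtype.ext ((primeEquiv σ).left_inv P.1)
  right_inv P := Subtype.ext ((primeEquiv σ).right_inv P.1)

@[simp] lemma offEquiv_one : offEquiv S (1 : L ≃ₐ[ℚ] L) = Equiv.refl _ := by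
  apply Equiv.ext
  intro P
  exact Subtype.ext (primeMap_one P.1)

lemma offEquiv_mul (σ τ : L ≃ₐ[ℚ] L) :
    offEquiv S (σ * τ) = (offEquiv S τ).trans (offEquiv S σ) := by
  apply Equiv.ext
  intro P
  exact Subtype.ext (primeMap_mul σ τ P.1)

variable (L)

/-- `Div_S(L)`: the free abelian group on the primes of `𝓞 L` not over `S`. -/
abbrev DivS : Type := OffS S L →₀ ℤ

variable {L}

/-- The action of `Aut(L)` on `Div_S(L)`: `(σ d)(σ P) = d(P)`. -/
noncomputable def divEnd (σ : L ≃ₐ[ℚ] L) : DivS S L →ₗ[ℤ] DivS S L :=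
  (Finsupp.domLCongr (offEquiv S σ) : (OffS S L →₀ ℤ) ≃ₗ[ℤ] (OffS S L →₀ ℤ)).toLinearMap

lemma divEnd_apply (σ : L ≃ₐ[ℚ] L) (d : DivS S L) (P : OffS S L) :
    divEnd S σ d (offEquiv S σ P) = d P := by
  simp [divEnd, Finsupp.domLCongr_apply, Finsupp.domCongr_apply, Finsupp.equivMapDomain_apply]

/-! ### Equivariance of the valuations -/

lemma primeMap_asIdeal_eq_map (σ : L ≃ₐ[ℚ] L) (P : HeightOneSpectrum (𝓞 L)) :
    (primeMap σ P).asIdeal = P.asIdeal.map (RingOfIntegers.mapRingEquiv (σ : L ≃+* L)) := by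
  ext x
  rw [mem_primeMap, Ideal.mem_map_iff_of_surjective _
    (RingOfIntegers.mapRingEquiv (σ : L ≃+* L)).surjective]
  constructor
  · intro h
    refine ⟨_, h, ?_⟩
    ext; simp [RingOfIntegers.mapRingEquiv_apply]
  · rintro ⟨y, hy, rfl⟩
    have : RingOfIntegers.mapRingEquiv ((σ.symm : L ≃ₐ[ℚ] L) : L ≃+* L)
        (RingOfIntegers.mapRingEquiv (σ : L ≃+* L) y) = y := by
      ext; simp [RingOfIntegers.mapRingEquiv_apply]
    rwa [this]

lemma map_mem_primeMap_pow (σ : L ≃ₐ[ℚ] L) (P : HeightOneSpectrum (𝓞 L)) (r : 𝓞 L) (n : ℕ)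
    (h : r ∈ P.asIdeal ^ n) :
    RingOfIntegers.mapRingEquiv (σ : L ≃+* L) r ∈ (primeMap σ P).asIdeal ^ n := by
  rw [primeMap_asIdeal_eq_map, ← Ideal.map_pow]
  exact Ideal.mem_map_of_mem _ h

lemma intValuation_primeMap_le (σ : L ≃ₐ[ℚ] L) (P : HeightOneSpectrum (𝓞 L)) (r : 𝓞 L) :
    (primeMap σ P).intValuation (RingOfIntegers.mapRingEquiv (σ : L ≃+* L) r) ≤
      P.intValuation r := by
  by_cases hr : r = 0
  · simp [hr]
  · rw [P.intValuation_if_neg hr]
    rw [HeightOneSpectrum.intValuation_le_pow_iff_mem]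
    apply map_mem_primeMap_pow
    rw [← HeightOneSpectrum.intValuation_le_pow_iff_mem, P.intValuation_if_neg hr]

lemma intValuation_primeMap (σ : L ≃ₐ[ℚ] L) (P : HeightOneSpectrum (𝓞 L)) (r : 𝓞 L) :
    (primeMap σ P).intValuation (RingOfIntegers.mapRingEquiv (σ : L ≃+* L) r) =
      P.intValuation r := by
  apply le_antisymm (intValuation_primeMap_le σ P r)
  have h := intValuation_primeMap_le σ⁻¹ (primeMap σ P)
    (RingOfIntegers.mapRingEquiv (σ : L ≃+* L) r)
  rw [← primeMap_mul, inv_mul_cancel, primeMap_one] at h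
  have h2 : RingOfIntegers.mapRingEquiv ((σ⁻¹ : L ≃ₐ[ℚ] L) : L ≃+* L)
      (RingOfIntegers.mapRingEquiv (σ : L ≃+* L) r) = r := by
    ext
    show σ⁻¹ (σ (r : L)) = r
    exact σ.symm_apply_apply _
  rwa [h2] at h

lemma valuation_primeMap (σ : L ≃ₐ[ℚ] L) (P : HeightOneSpectrum (𝓞 L)) (x : L) :
    (primeMap σ P).valuation L (σ x) = P.valuation L x := by
  obtain ⟨a, b, hb, rfl⟩ := IsFractionRing.div_surjective (A := 𝓞 L) x
  have h1 : σ (algebraMap (𝓞 L) L a / algebraMap (𝓞 L) L b) =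
      algebraMap (𝓞 L) L (RingOfIntegers.mapRingEquiv (σ : L ≃+* L) a) /
        algebraMap (𝓞 L) L (RingOfIntegers.mapRingEquiv (σ : L ≃+* L) b) := by
    rw [map_div₀]; rfl
  rw [h1, map_div₀, map_div₀, HeightOneSpectrum.valuation_of_algebraMap,
    HeightOneSpectrum.valuation_of_algebraMap, HeightOneSpectrum.valuation_of_algebraMap,
    HeightOneSpectrum.valuation_of_algebraMap, intValuation_primeMap, intValuation_primeMap]

/-- The orders are equivariant: `ord_{σP}(σx) = ord_P(x)`. -/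
lemma ordAt_primeMap (σ : L ≃ₐ[ℚ] L) (P : HeightOneSpectrum (𝓞 L)) (x : Lˣ) :
    ordAt (primeMap σ P) (Units.map (σ : L →* L) x) = ordAt P x := by
  have h1 := valuationOfNeZero_eq_ordAt (primeMap σ P) (Units.map (σ : L →* L) x)
  have h2 := valuationOfNeZero_eq_ordAt P x
  have h3 : (((primeMap σ P).valuationOfNeZero (Units.map (σ : L →* L) x) : Multiplicative ℤ) :
      WithZero (Multiplicative ℤ)) = ((P.valuationOfNeZero x : Multiplicative ℤ) :
      WithZero (Multiplicative ℤ)) := by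
    rw [HeightOneSpectrum.valuationOfNeZero_eq, HeightOneSpectrum.valuationOfNeZero_eq]
    exact valuation_primeMap σ P x
  have h4 := WithZero.coe_injective h3
  rw [h1, h2] at h4
  have h5 := Multiplicative.ofAdd.injective h4
  linarith

/-! ### The divisor map -/

variable (L)

lemma ordAt_finite_support (x : Lˣ) : (Function.support fun P : OffS S L => ordAt P.1 x).Finite := by
  have h := FractionalIdeal.finite_factors (R := 𝓞 L) (K := L)
    (FractionalIdeal.spanSingleton (nonZeroDivisors (𝓞 L)) (x : L))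
  rw [Filter.eventually_cofinite] at h
  refine Set.Finite.of_injOn (f := Subtype.val) ?_ Subtype.val_injective.injOn h
  intro P hP
  exact hP

/-- The divisor of `x ∈ Lˣ` away from `S`. -/
noncomputable def divFun (x : Lˣ) : DivS S L :=
  Finsupp.ofSupportFinite (fun P : OffS S L => ordAt P.1 x) (ordAt_finite_support S L x)

@[simp] lemma divFun_apply (x : Lˣ) (P : OffS S L) : divFun S L x P = ordAt P.1 x := rfl

/-- The divisor map `Lˣ → Div_S(L)`, additively. -/
noncomputable def divHom : Additive Lˣ →ₗ[ℤ] DivS S L :=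
  (AddMonoidHom.mk' (fun x : Additive Lˣ => divFun S L (Additive.toMul x)) (fun x y => by
    ext P
    simp [ordAt_mul])).toIntLinearMap

@[simp] lemma divHom_apply (x : Additive Lˣ) (P : OffS S L) :
    divHom S L x P = ordAt P.1 (Additive.toMul x) := rfl

variable {L}

lemma divHom_equivariant (σ : L ≃ₐ[ℚ] L) (x : Additive Lˣ) :
    divHom S L (unitsEnd (σ : L →* L) x) = divEnd S σ (divHom S L x) := by
  ext P
  obtain ⟨Q, rfl⟩ := (offEquiv S σ).surjective P
  rw [divEnd_apply, divHom_apply, divHom_apply]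
  exact ordAt_primeMap σ Q.1 (Additive.toMul x)

/-! ### The class module -/

variable (L)

/-- `Lˣ → J_L × Div_S(L)`, `x ↦ ((1 ⊗ x)_q, div x)`. -/
noncomputable def iotaHom : Additive Lˣ →ₗ[ℤ] Additive (JL S L) × DivS S L :=
  LinearMap.prod (MonoidHom.toAdditive (jlDiag S L)).toIntLinearMap (divHom S L)

/-- **The `S`-idèle class module** `C_S(L) = (J_L × Div_S(L)) / Lˣ`. -/
abbrev CS : Type := (Additive (JL S L) × DivS S L) ⧸ LinearMap.range (iotaHom S L)

/-- The projection `J_L × Div_S(L) → C_S(L)`. -/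
noncomputable abbrev csMk : Additive (JL S L) × DivS S L →ₗ[ℤ] CS S L :=
  (LinearMap.range (iotaHom S L)).mkQ

/-- `J_L → C_S(L)`. -/
noncomputable def csOfJ : Additive (JL S L) →ₗ[ℤ] CS S L :=
  ((csMk S L).toAddMonoidHom.comp
    (AddMonoidHom.inl (Additive (JL S L)) (DivS S L))).toIntLinearMap

/-- `Div_S(L) → C_S(L)`. -/
noncomputable def csOfDiv : DivS S L →ₗ[ℤ] CS S L :=
  ((csMk S L).toAddMonoidHom.comp
    (AddMonoidHom.inr (Additive (JL S L)) (DivS S L))).toIntLinearMap

@[simp] lemma csOfJ_apply (j : Additive (JL S L)) : csOfJ S L j = csMk S L (j, 0) := rfl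

@[simp] lemma csOfDiv_apply (d : DivS S L) : csOfDiv S L d = csMk S L (0, d) := rfl

variable {L}

/-- The action of `σ ∈ Aut(L)` on `J_L × Div_S(L)`. -/
noncomputable def jdEnd (σ : L ≃ₐ[ℚ] L) :
    Additive (JL S L) × DivS S L →ₗ[ℤ] Additive (JL S L) × DivS S L :=
  LinearMap.prodMap (jlEnd S σ) (divEnd S σ)

lemma jlDiag_equivariant (σ : L ≃ₐ[ℚ] L) (x : Lˣ) :
    jlDiag S L (Units.map (σ : L →* L) x) = jlHom S σ (jlDiag S L x) := by
  funext q
  apply Units.ext
  show (Algebra.TensorProduct.includeRight :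
      L →ₐ[ℚ] semiAlg ((q : Nat.Primes) : ℕ) L) (σ _) =
    semiMap ((q : Nat.Primes) : ℕ) σ ((Algebra.TensorProduct.includeRight :
      L →ₐ[ℚ] semiAlg ((q : Nat.Primes) : ℕ) L) _)
  simp [semiMap]

lemma iotaHom_equivariant (σ : L ≃ₐ[ℚ] L) (x : Additive Lˣ) :
    iotaHom S L (unitsEnd (σ : L →* L) x) = jdEnd S σ (iotaHom S L x) := by
  apply Prod.ext
  · exact congrArg Additive.ofMul (jlDiag_equivariant S σ (Additive.toMul x))
  · exact divHom_equivariant S σ x

lemma range_iotaHom_le_comap (σ : L ≃ₐ[ℚ] L) :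
    LinearMap.range (iotaHom S L) ≤ (LinearMap.range (iotaHom S L)).comap (jdEnd S σ) := by
  rintro _ ⟨x, rfl⟩
  exact ⟨unitsEnd (σ : L →* L) x, iotaHom_equivariant S σ x⟩

/-- The action of `σ ∈ Aut(L)` on `C_S(L)`. -/
noncomputable def csEnd (σ : L ≃ₐ[ℚ] L) : Module.End ℤ (CS S L) :=
  Submodule.mapQ _ _ (jdEnd S σ) (range_iotaHom_le_comap S σ)

@[simp] lemma csEnd_mk (σ : L ≃ₐ[ℚ] L) (y : Additive (JL S L) × DivS S L) :
    csEnd S σ (csMk S L y) = csMk S L (jdEnd S σ y) := rfl

/-! ### The representation -/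

lemma semiMap_one (q : ℕ) [Fact q.Prime] (x : semiAlg q L) :
    semiMap q (1 : L ≃ₐ[ℚ] L) x = x := by
  have h : semiMap q (1 : L ≃ₐ[ℚ] L) = AlgHom.id ℚ_[q] (semiAlg q L) := by
    apply Algebra.TensorProduct.ext'
    intro a b
    simp [semiMap]
  rw [h]; rfl

lemma semiMap_mul (q : ℕ) [Fact q.Prime] (σ τ : L ≃ₐ[ℚ] L) (x : semiAlg q L) :
    semiMap q (σ * τ) x = semiMap q σ (semiMap q τ x) := by
  have h : semiMap q (σ * τ) = (semiMap q σ).comp (semiMap q τ) := by
    apply Algebra.TensorProduct.ext'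
    intro a b
    simp [semiMap]
  rw [h]; rfl

lemma jlHom_one (x : JL S L) : jlHom S (1 : L ≃ₐ[ℚ] L) x = x := by
  funext q
  apply Units.ext
  exact semiMap_one _ _

lemma jlHom_mul (σ τ : L ≃ₐ[ℚ] L) (x : JL S L) :
    jlHom S (σ * τ) x = jlHom S σ (jlHom S τ x) := by
  funext q
  apply Units.ext
  exact semiMap_mul _ σ τ _

lemma jlEnd_one : jlEnd S (1 : L ≃ₐ[ℚ] L) = 1 := by
  apply LinearMap.ext
  intro x
  exact congrArg Additive.ofMul (jlHom_one S (Additive.toMul x))

lemma jlEnd_mul (σ τ : L ≃ₐ[ℚ] L) : jlEnd S (σ * τ) = jlEnd S σ * jlEnd S τ := by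
  apply LinearMap.ext
  intro x
  exact congrArg Additive.ofMul (jlHom_mul S σ τ (Additive.toMul x))

lemma divEnd_one : divEnd S (1 : L ≃ₐ[ℚ] L) = LinearMap.id := by
  ext d P
  have h := divEnd_apply S (1 : L ≃ₐ[ℚ] L) (Finsupp.single d 1) P
  rw [offEquiv_one] at h
  simpa using h

lemma divEnd_mul (σ τ : L ≃ₐ[ℚ] L) : divEnd S (σ * τ) = divEnd S σ ∘ₗ divEnd S τ := by
  apply LinearMap.ext
  intro d
  ext P
  obtain ⟨Q, rfl⟩ := (offEquiv S (σ * τ)).surjective P
  rw [divEnd_apply]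
  have h : offEquiv S (σ * τ) Q = offEquiv S σ (offEquiv S τ Q) := by
    rw [offEquiv_mul]; rfl
  rw [h, LinearMap.comp_apply, divEnd_apply, divEnd_apply]

lemma jdEnd_one (y : Additive (JL S L) × DivS S L) : jdEnd S (1 : L ≃ₐ[ℚ] L) y = y := by
  apply Prod.ext
  · show jlEnd S (1 : L ≃ₐ[ℚ] L) y.1 = y.1
    rw [jlEnd_one]; rfl
  · show divEnd S (1 : L ≃ₐ[ℚ] L) y.2 = y.2
    rw [divEnd_one]; rfl

lemma jdEnd_mul (σ τ : L ≃ₐ[ℚ] L) (y : Additive (JL S L) × DivS S L) :
    jdEnd S (σ * τ) y = jdEnd S σ (jdEnd S τ y) := by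
  apply Prod.ext
  · show jlEnd S (σ * τ) y.1 = jlEnd S σ (jlEnd S τ y.1)
    rw [jlEnd_mul]; rfl
  · show divEnd S (σ * τ) y.2 = divEnd S σ (divEnd S τ y.2)
    rw [divEnd_mul]; rfl

variable (L)

/-- The representation of `Aut(L)` on `C_S(L)`. -/
noncomputable def csRho : Representation ℤ (L ≃ₐ[ℚ] L) (CS S L) where
  toFun σ := csEnd S σ
  map_one' := by
    apply LinearMap.ext
    intro c
    induction c using Submodule.Quotient.induction_on with
    | _ y =>
      show csMk S L (jdEnd S 1 y) = csMk S L y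
      rw [jdEnd_one]
  map_mul' σ τ := by
    apply LinearMap.ext
    intro c
    induction c using Submodule.Quotient.induction_on with
    | _ y =>
      show csMk S L (jdEnd S (σ * τ) y) = csMk S L (jdEnd S σ (jdEnd S τ y))
      rw [jdEnd_mul]

/-- **The `S`-idèle class module as a representation of `Aut(L)`.** -/
noncomputable def csRep : Rep.{0} ℤ (L ≃ₐ[ℚ] L) := Rep.of (csRho S L)

end Fermat.Agent.PT.G


end ZBPT_007_2

/-! ### bundled: `Fermat.Agent.PT.G.Plan` -/
section ZBPT_007_3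
/-
Project PT — SHARED GLOBAL STATEMENTS about the class module `C_S(L)` of PT/G/Defs.lean
(interface between PT-G1, PT-G2 and PT-G3).  Definitions and statements only, plus the wiring
`stmtCSHQ_of` of the first inequality.
-/

set_option autoImplicit false

namespace Fermat.Agent.PT.G

open NumberField IsDedekindDomain Fermat.Agent.PT.G1

/-- **CS-exact**: `0 → E_{L,S} → J_L → C_S(L) → Cl_S(L) → 0` is exact and `Cl_S(L)` is finite. -/
def StmtCSExact : Prop :=
  ∀ (S : Finset Nat.Primes) (L : Type) [Field L] [NumberField L],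
    LinearMap.ker (csOfJ S L) = LinearMap.range (jlDiagUnits S L) ∧
    Finite (CS S L ⧸ LinearMap.range (csOfJ S L))

/-- **First inequality (G1-final)**: for `σ ∈ Aut(L)` of odd prime order `p` and `S ≠ ∅`, the
Herbrand quotient of `C_S(L)` is `p`: `|ker(σ-1)/im N| = p · |ker N/im(σ-1)|`, both finite. -/
def StmtCSHQ : Prop :=
  ∀ (p : ℕ) [Fact p.Prime], p ≠ 2 → ∀ (L : Type) [Field L] [NumberField L] (σ : L ≃ₐ[ℚ] L),
    orderOf σ = p → ∀ S : Finset Nat.Primes, S.Nonempty → HasHQc (csEnd S σ) p p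

/-- `L / L^σ` is unramified outside `S`: `σ` lies in no inertia group `I_P`, `P ∤ S`
(`σ` of prime order). -/
def UnramOff (S : Finset Nat.Primes) {L : Type} [Field L] [NumberField L] (σ : L ≃ₐ[ℚ] L) :
    Prop :=
  ∀ P : OffS S L, ∃ x : 𝓞 L, RingOfIntegers.mapRingEquiv (σ : L ≃+* L) x - x ∉ P.1.asIdeal

/-- **Second inequality, idelic form (G2-idelic)**: for `σ ∈ Aut(L)` of odd prime order `p` with
`L / L^σ` unramified outside `S ≠ ∅`: `|C_S(L)^σ / N C_S(L)| ≤ p` (and finite). -/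
def StmtCSH0 : Prop :=
  ∀ (p : ℕ) [Fact p.Prime], p ≠ 2 → ∀ (L : Type) [Field L] [NumberField L] (σ : L ≃ₐ[ℚ] L),
    orderOf σ = p → ∀ S : Finset Nat.Primes, S.Nonempty → UnramOff S σ →
      hqCard (csEnd S σ - 1) (nEnd (csEnd S σ) p) ≠ 0 ∧
      hqCard (csEnd S σ - 1) (nEnd (csEnd S σ) p) ≤ p

/-- **The cyclic case of the class formation axiom**: `Ĥ⁰(⟨σ⟩, C_S(L))` has order `p` and
`Ĥ¹(⟨σ⟩, C_S(L)) = 0`. -/
def StmtCSCyclic : Prop :=
  ∀ (p : ℕ) [Fact p.Prime], p ≠ 2 → ∀ (L : Type) [Field L] [NumberField L] (σ : L ≃ₐ[ℚ] L),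
    orderOf σ = p → ∀ S : Finset Nat.Primes, S.Nonempty → UnramOff S σ →
      hqCard (csEnd S σ - 1) (nEnd (csEnd S σ) p) = p ∧
      hqCard (nEnd (csEnd S σ) p) (csEnd S σ - 1) = 1

section Wiring

variable (S : Finset Nat.Primes) {L : Type} [Field L] [NumberField L]

lemma csOfJ_equivariant (σ : L ≃ₐ[ℚ] L) :
    csOfJ S L ∘ₗ jlEnd S σ = csEnd S σ ∘ₗ csOfJ S L := by
  apply LinearMap.ext
  intro j
  show csMk S L (jlEnd S σ j, 0) = csMk S L (jdEnd S σ (j, 0))
  have h : jdEnd S σ ((j, 0) : Additive (JL S L) × DivS S L) = (jlEnd S σ j, 0) := by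
    apply Prod.ext
    · rfl
    · show divEnd S σ 0 = (0 : DivS S L)
      rw [map_zero]
  rw [h]

lemma csEnd_pow (σ : L ≃ₐ[ℚ] L) (n : ℕ) : csEnd S σ ^ n = csEnd S (σ ^ n) := by
  have h := map_pow (csRho S L) σ n
  exact h.symm

lemma range_csOfJ_le_comap (σ : L ≃ₐ[ℚ] L) :
    LinearMap.range (csOfJ S L) ≤ (LinearMap.range (csOfJ S L)).comap (csEnd S σ) := by
  rintro _ ⟨j, rfl⟩
  exact ⟨jlEnd S σ j, LinearMap.congr_fun (csOfJ_equivariant S σ) j⟩

/-- **First inequality** from C-main (`StmtClassHQ`) and CS-exact. -/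
theorem stmtCSHQ_of (hC : StmtClassHQ) (hE : StmtCSExact) : StmtCSHQ := by
  intro p _ hp2 L _ _ σ hσ S hS
  obtain ⟨hker, hfin⟩ := hE S L
  have hpow : csEnd S σ ^ p = 1 := by
    rw [csEnd_pow, ← hσ, pow_orderOf_eq_one]
    exact map_one (csRho S L)
  set σF : Module.End ℤ (CS S L ⧸ LinearMap.range (csOfJ S L)) :=
    Submodule.mapQ _ _ (csEnd S σ) (range_csOfJ_le_comap S σ) with hσF
  have hκ : (LinearMap.range (csOfJ S L)).mkQ ∘ₗ csEnd S σ =
      σF ∘ₗ (LinearMap.range (csOfJ S L)).mkQ := by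
    apply LinearMap.ext
    intro c
    rfl
  have hσFpow : σF ^ p = 1 := by
    apply LinearMap.ext
    intro c
    obtain ⟨c, rfl⟩ := Submodule.mkQ_surjective _ c
    have h1 : ∀ n : ℕ, (σF ^ n) ((LinearMap.range (csOfJ S L)).mkQ c) =
        (LinearMap.range (csOfJ S L)).mkQ ((csEnd S σ ^ n) c) := by
      intro n
      induction n generalizing c with
      | zero => rfl
      | succ n ih =>
        rw [pow_succ, pow_succ, Module.End.mul_apply, Module.End.mul_apply]
        have h2 : σF ((LinearMap.range (csOfJ S L)).mkQ c) =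
            (LinearMap.range (csOfJ S L)).mkQ (csEnd S σ c) := rfl
        rw [h2, ih]
    rw [h1, hpow]
    rfl
  exact hC p hp2 L σ hσ S hS (CS S L) (CS S L ⧸ LinearMap.range (csOfJ S L))
    (csEnd S σ) σF (csOfJ S L) (LinearMap.range (csOfJ S L)).mkQ hpow hσFpow
    (csOfJ_equivariant S σ) hκ hker (Submodule.ker_mkQ _).symm (Submodule.mkQ_surjective _)

/-- The cyclic case from the two inequalities. -/
theorem stmtCSCyclic_of (h1 : StmtCSHQ) (h2 : StmtCSH0) : StmtCSCyclic := by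
  intro p _ hp2 L _ _ σ hσ S hS hun
  obtain ⟨-, ha, hb, hab⟩ := h1 p hp2 L σ hσ S hS
  obtain ⟨-, hle⟩ := h2 p hp2 L σ hσ S hS hun
  set a := hqCard (csEnd S σ - 1) (nEnd (csEnd S σ) p)
  set b := hqCard (nEnd (csEnd S σ) p) (csEnd S σ - 1)
  have hab' : a = p * b := by exact_mod_cast hab
  have hb1 : b = 1 := by
    have hp0 : 0 < p := (Fact.out : p.Prime).pos
    have hbpos : 0 < b := Nat.pos_of_ne_zero hb
    have : p * b ≤ p * 1 := by rw [mul_one, ← hab']; exact hle
    have := Nat.le_of_mul_le_mul_left this hp0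
    omega
  exact ⟨by rw [hab', hb1, mul_one], hb1⟩

end Wiring

end Fermat.Agent.PT.G


end ZBPT_007_3

/-! ### bundled: `Fermat.Agent.PT.B.Plan3` -/
section ZBPT_007_4
/-
PT-B (bridge for S55) — INTERFACE FILE 3: the pieces between the concrete datum of
`Concrete.lean` and the type-level campaigns (PT-L, PT-G*, PT-X).  Definitions and statements
only.  Piece table: NOTES/PT-B.md.  A piece `X` is DONE when `theorem stmtX : StmtX` is landed.
-/

set_option autoImplicit false
set_option linter.style.haveILetI false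

noncomputable section

namespace Fermat.Agent.PT.B

open Fermat.Agent.PT CategoryTheory groupCohomology ExtCitation
open Fermat.Agent.PT.G Fermat.Agent.PT.G1
open scoped Pointwise TensorProduct

/-! ## T: transport of the class-formation properties -/

/-- An isomorphism of pairs `(G, A) ≅ (G', A')` (group and module). -/
structure PairIso {G G' : Type} [Group G] [Group G'] (A : Rep.{0} ℤ G) (A' : Rep.{0} ℤ G') where
  /-- the isomorphism of groups -/
  φ : G ≃* G'
  /-- the isomorphism of modules -/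
  f : A.V ≃+ A'.V
  comm : ∀ (g : G) (a : A.V), f (A.ρ g a) = A'.ρ (φ g) (f a)

/-- A `p`-isomorphism of pairs `(G, A) → (G', A')`: an isomorphism of groups and an equivariant
injective map of modules whose cokernel is killed by an integer `m` prime to `p`. -/
structure PairPIso (p : ℕ) {G G' : Type} [Group G] [Group G'] (A : Rep.{0} ℤ G)
    (A' : Rep.{0} ℤ G') where
  /-- the isomorphism of groups -/
  φ : G ≃* G'
  /-- the map of modules -/
  f : A.V →+ A'.V
  comm : ∀ (g : G) (a : A.V), f (A.ρ g a) = A'.ρ (φ g) (f a)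
  inj : Function.Injective f
  /-- an integer prime to `p` killing the cokernel -/
  m : ℕ
  hm : ¬ p ∣ m
  surj : ∀ a' : A'.V, ∃ a : A.V, f a = m • a'

/-- an isomorphism of pairs is a `p`-isomorphism -/
def PairIso.toPairPIso (p : ℕ) [Fact p.Prime] {G G' : Type} [Group G] [Group G']
    {A : Rep.{0} ℤ G} {A' : Rep.{0} ℤ G'} (e : PairIso A A') : PairPIso p A A' where
  φ := e.φ
  f := e.f
  comm := e.comm
  inj := e.f.injective
  m := 1
  hm := fun h => (Fact.out : p.Prime).one_lt.ne' (Nat.dvd_one.1 h)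
  surj := fun a' => ⟨e.f.symm a', by simp⟩

/-- **T-fund**: a `p`-fundamental class transports backwards along a `p`-isomorphism of pairs.
(Reduce to `G = G'`; then `Hⁿ(H, A'/A)` is killed by `m` and by `|H|`, `H` a `p`-group, so the
long exact sequence gives `Hⁿ(H, A) ≅ Hⁿ(H, A')` for `n = 1, 2`; and `m • u'` comes from
`H²(G, A)`.) -/
def StmtFundPIso : Prop :=
  ∀ (p : ℕ) [Fact p.Prime] (G G' : Type) [Group G] [Group G'] [Finite G]
    (A : Rep.{0} ℤ G) (A' : Rep.{0} ℤ G'), Nonempty (PairPIso p A A') →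
    (∃ u' : H2 A', IsPFundClass p A' u') → ∃ u : H2 A, IsPFundClass p A u

/-- **T-h1**: vanishing of `H¹` of all subgroups transports along an isomorphism of pairs. -/
def StmtH1Iso : Prop :=
  ∀ (G G' : Type) [Group G] [Group G'] (A : Rep.{0} ℤ G) (A' : Rep.{0} ℤ G'),
    Nonempty (PairIso A A') →
    (∀ H' : Subgroup G', Subsingleton (H1 (Rep.res H'.subtype A'))) →
    ∀ H : Subgroup G, Subsingleton (H1 (Rep.res H.subtype A))

/-! ## The local bridge (I3, I4) -/

/-- **I3** (generic): for `Ω/K` Galois and `F/K` finite Galois inside `Ω`, the pair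
`(Gal(Ω/K)/Gal(Ω/F), (Ωˣ)^{Gal(Ω/F)})` is isomorphic to `(Gal(F/K), Fˣ)`. -/
def StmtInvUnits : Prop :=
  ∀ (K Ω : Type) [Field K] [Field Ω] [Algebra K Ω] [IsGalois K Ω] (F : IntermediateField K Ω)
    [FiniteDimensional K F] [IsGalois K F] [F.fixingSubgroup.Normal],
    Nonempty (PairIso ((Rep.ofAlgebraAutOnUnits K Ω).quotientToInvariants F.fixingSubgroup)
      (Rep.ofAlgebraAutOnUnits K F))

/-- **I4** (generic): Hilbert 90 for every subgroup of `Gal(F/K)` (Mathlib's Hilbert 90 for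
`F / F^H`). -/
def StmtH90Sub : Prop :=
  ∀ (K F : Type) [Field K] [Field F] [Algebra K F] [FiniteDimensional K F] [IsGalois K F]
    (H : Subgroup (F ≃ₐ[K] F)),
    Subsingleton (H1 (Rep.res H.subtype (Rep.ofAlgebraAutOnUnits K F)))

/-- **B-cmloc** = the datum axiom `cm_loc` for `JlocQ`. -/
def StmtCmLoc : Prop :=
  ∀ (p : ℕ) [Fact p.Prime] (q : ℕ) [Fact q.Prime] (V : Subgroup (GQq q)) [V.Normal],
    V ∈ (towerLoc q).lev →
    ∃ u : H2 ((JlocQ q).quotientToInvariants V),
      IsPFundClass p ((JlocQ q).quotientToInvariants V) u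

/-- **B-h90loc** = the datum axiom `h90_loc` for `JlocQ`. -/
def StmtH90Loc : Prop :=
  ∀ (q : ℕ) [Fact q.Prime] (V : Subgroup (GQq q)) [V.Normal], V ∈ (towerLoc q).lev →
    ∀ H : Subgroup (GQq q ⧸ V),
      Subsingleton (H1 (Rep.res H.subtype ((JlocQ q).quotientToInvariants V)))

/-! ## The easy axioms of the datum -/

/-- **B-jdisc** = `Jloc_discrete` (Krasner `stmtKrasner` + `stmtLocalLevel`). -/
def StmtJlocDiscrete : Prop :=
  ∀ (q : ℕ) [Fact q.Prime] (x : (JlocQ q).V),
    ∃ V ∈ (towerLoc q).lev, ∀ s ∈ V, (JlocQ q).ρ s x = x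

/-- **B-jdiv** = `J_div` (`PadicAlgCl q` is algebraically closed). -/
def StmtJDiv : Prop :=
  ∀ (p : ℕ) [Fact p.Prime] (q : ℕ) [Fact q.Prime] (x : (JlocQ q).V),
    ∃ y : (JlocQ q).V, p • y = x

/-- **B-ediv** = `E_div` (PT-X `isUnramifiedOutside_adjoin_root` with `β = 1`, `u = α`). -/
def StmtEDiv : Prop :=
  ∀ (p : ℕ) [Fact p.Prime] (S : Finset Nat.Primes), pPrime p ∈ S →
    ∀ e : (ERep S).V, ∃ e' : (ERep S).V, p • e' = e

/-! ## The global bridge: ramification and units (I1) -/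

/-- **I1** (RAM): in a tower field all inertia groups at primes outside `S` are trivial. -/
def StmtRam : Prop :=
  ∀ (S : Finset Nat.Primes) (L : QbarField), IsTowerField S L → ∀ [NumberField L]
    (σ : L ≃ₐ[ℚ] L), σ ≠ 1 → Fermat.Agent.PT.G.UnramOff S σ

/-- **I-units**: the `S`-units of the datum at level `L` are the `N`-units of the type `L`. -/
def StmtUnitsS : Prop :=
  ∀ (S : Finset Nat.Primes) (L : QbarField), L.IsUnramifiedOutside S → ∀ (x : (↥L)ˣ),
    Units.map (L.val : ↥L →* AlgebraicClosure ℚ) x ∈ unitsS S ↔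
      x ∈ Fermat.Agent.PT.G1.nUnits (Fermat.Agent.PT.G.sProd S) ↥L

/-! ## The global bridge: the tensor model (I2) -/

/-- The embedding `g|_L : L → ℚ̄ → ℚ̄_q`, `x ↦ ι_q (g x)`, as a `ℚ`-algebra map. -/
def embAt (q : ℕ) [Fact q.Prime] (L : QbarField) [NumberField L] (g : GQ) :
    ↥L →ₐ[ℚ] PadicAlgCl q :=
  RingHom.toRatAlgHom
    (((padicEmbedding q).toRingHom.comp ((g : AlgebraicClosure ℚ ≃ₐ[ℚ] AlgebraicClosure ℚ) :
      AlgebraicClosure ℚ →+* AlgebraicClosure ℚ)).comp (L.val : ↥L →+* AlgebraicClosure ℚ))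

@[simp] theorem embAt_apply (q : ℕ) [Fact q.Prime] (L : QbarField) [NumberField L] (g : GQ)
    (x : ↥L) : embAt q L g x = padicEmbedding q (g (x : AlgebraicClosure ℚ)) := rfl

/-- The evaluation `ℚ_q ⊗ L → ℚ̄_q`, `y ⊗ x ↦ y · ι_q (g x)`. -/
def tensEv (q : ℕ) [Fact q.Prime] (L : QbarField) [NumberField L] (g : GQ) :
    semiAlg q ↥L →ₐ[ℚ_[q]] PadicAlgCl q :=
  Algebra.TensorProduct.lift (Algebra.ofId ℚ_[q] (PadicAlgCl q)) (embAt q L g)
    (fun _ _ => Commute.all _ _)

@[simp] theorem tensEv_tmul (q : ℕ) [Fact q.Prime] (L : QbarField) [NumberField L] (g : GQ)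
    (y : ℚ_[q]) (x : ↥L) :
    tensEv q L g (y ⊗ₜ[ℚ] x) =
      algebraMap ℚ_[q] (PadicAlgCl q) y * padicEmbedding q (g (x : AlgebraicClosure ℚ)) := by
  simp [tensEv, Algebra.ofId_apply]


/-- `τ ∘ ev_g = ev_{r(τ) g}` for `τ ∈ G_{ℚ_q}`. -/
theorem tensEv_localGaloisToGlobal_mul (q : ℕ) [Fact q.Prime] (L : QbarField) [NumberField L]
    (τ : GQq q) (g : GQ) (z : semiAlg q ↥L) :
    tensEv q L (localGaloisToGlobal q τ * g) z = τ (tensEv q L g z) := by
  induction z using TensorProduct.induction_on with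
  | zero => simp
  | tmul y x =>
    rw [tensEv_tmul, tensEv_tmul, map_mul, AlgEquiv.commutes]
    congr 1
    exact padicEmbedding_localGaloisToGlobal q τ (g (x : AlgebraicClosure ℚ))
  | add a b ha hb => rw [map_add, map_add, map_add, ha, hb]

/-- `ev_{g s} = ev_g` for `s ∈ Gal(ℚ̄/L)`. -/
theorem tensEv_mul_of_mem (q : ℕ) [Fact q.Prime] (L : QbarField) [NumberField L]
    (g s : GQ) (hs : s ∈ L.fixingSubgroup) (z : semiAlg q ↥L) :
    tensEv q L (g * s) z = tensEv q L g z := by
  rw [IntermediateField.mem_fixingSubgroup_iff] at hs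
  induction z using TensorProduct.induction_on with
  | zero => simp
  | tmul y x =>
    rw [tensEv_tmul, tensEv_tmul]
    congr 2
    exact congrArg g (hs _ x.2)
  | add a b ha hb => rw [map_add, map_add, ha, hb]

/-- The comparison map `θ_L : J_L → J_S`, `z ↦ (q, g) ↦ ev_{q,g}(z_q)` on elements. -/
def thetaFun (S : Finset Nat.Primes) (L : QbarField) [NumberField L]
    (hL : L.IsUnramifiedOutside S) (z : JL S ↥L) : (JS S).V :=
  ⟨fun v g => Additive.ofMul (Units.map
      (tensEv ((v : Nat.Primes) : ℕ) L g : semiAlg ((v : Nat.Primes) : ℕ) ↥L →* _) (z v)),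
    fun v => by
      refine ⟨fun d g => ?_, ⟨L.fixingSubgroup, ⟨L, hL, rfl⟩, fun g s hs => ?_⟩⟩
      · exact congrArg Additive.ofMul (Units.ext
          (tensEv_localGaloisToGlobal_mul ((v : Nat.Primes) : ℕ) L d g ((z v : _))))
      · exact congrArg Additive.ofMul (Units.ext
          (tensEv_mul_of_mem ((v : Nat.Primes) : ℕ) L g s hs ((z v : _))))⟩


theorem thetaFun_apply (S : Finset Nat.Primes) (L : QbarField) [NumberField L]
    (hL : L.IsUnramifiedOutside S) (z : JL S ↥L) (v : ↥S) (g : GQ) :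
    (thetaFun S L hL z).1 v g = Additive.ofMul (Units.map
      (tensEv ((v : Nat.Primes) : ℕ) L g : semiAlg ((v : Nat.Primes) : ℕ) ↥L →* _) (z v)) := rfl

/-- **The comparison map** `θ_L : J_L → J_S` (additive). -/
def thetaL (S : Finset Nat.Primes) (L : QbarField) [NumberField L]
    (hL : L.IsUnramifiedOutside S) : Additive (JL S ↥L) →+ (JS S).V where
  toFun z := thetaFun S L hL (Additive.toMul z)
  map_zero' := by
    apply Subtype.ext
    funext v g
    show Additive.ofMul (Units.map _ (1 : (semiAlg ((v : Nat.Primes) : ℕ) ↥L)ˣ)) = 0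
    rw [map_one]
    rfl
  map_add' := fun z z' => by
    apply Subtype.ext
    funext v g
    show Additive.ofMul (Units.map _ ((Additive.toMul z) v * (Additive.toMul z') v)) = _
    rw [map_mul]
    rfl

theorem thetaL_apply (S : Finset Nat.Primes) (L : QbarField) [NumberField L]
    (hL : L.IsUnramifiedOutside S) (z : Additive (JL S ↥L)) (v : ↥S) (g : GQ) :
    (thetaL S L hL z).1 v g = Additive.ofMul (Units.map
      (tensEv ((v : Nat.Primes) : ℕ) L g : semiAlg ((v : Nat.Primes) : ℕ) ↥L →* _)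
        ((Additive.toMul z) v)) := rfl

/-- **I2** (TENS): `θ_L` is an isomorphism of `J_L` onto the `Gal(ℚ̄/L)`-invariants of `J_S`. -/
def StmtTens : Prop :=
  ∀ (S : Finset Nat.Primes) (L : QbarField) [NumberField L] (hL : L.IsUnramifiedOutside S),
    IsGalois ℚ L →
    Function.Injective (thetaL S L hL) ∧
    ∀ x : (JS S).V, (∀ s ∈ L.fixingSubgroup, (JS S).ρ s x = x) → ∃ z, thetaL S L hL z = x

end Fermat.Agent.PT.B

end


end ZBPT_007_4

/-! ### bundled: `Fermat.Agent.PT.G.Map` -/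
section ZBPT_007_5
/-
Project PT — shared model, piece **Defs-map** (helper47): functoriality of the class module
`C_S(·)` of PT/G/Defs.lean for an extension `L / K` of number fields (types, `[Algebra K L]`).

* `semiIncl q K L : ℚ_q ⊗ K →ₐ[ℚ_q] ℚ_q ⊗ L`, `jlMap S K L : J_K →* J_L`
* `offUnder S K L P` (the prime of `K` under a prime `P` of `L` off `S`), `ramIdx K P` (`e(P | P ∩ K)`)
* `divMap S K L : Div_S(K) →ₗ[ℤ] Div_S(L)`, `(divMap d)(P) = e(P | 𝔭) · d(𝔭)`, `𝔭 = P ∩ K`
* `csMap S K L : C_S(K) →ₗ[ℤ] C_S(L)`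
* equivariance: `csEnd S σ ∘ csMap = csMap ∘ csEnd S τ` if `σ ∈ Aut(L)` restricts to `τ ∈ Aut(K)`.
-/

set_option autoImplicit false
set_option linter.unusedSectionVars false

namespace Fermat.Agent.PT.G

open NumberField IsDedekindDomain Fermat.Agent.PT.G1 Fermat.Agent.PT.X TensorProduct

variable (S : Finset Nat.Primes) (K L : Type) [Field K] [NumberField K] [Field L] [NumberField L]
  [Algebra K L]

/-! ### The idèle part -/

/-- `K → L` as a `ℚ`-algebra map. -/
noncomputable def ratIncl : K →ₐ[ℚ] L := (algebraMap K L).toRatAlgHom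

@[simp] lemma ratIncl_apply (x : K) : ratIncl K L x = algebraMap K L x := rfl

/-- `ℚ_q ⊗ K → ℚ_q ⊗ L`. -/
noncomputable def semiIncl (q : ℕ) [Fact q.Prime] : semiAlg q K →ₐ[ℚ_[q]] semiAlg q L :=
  Algebra.TensorProduct.map (AlgHom.id ℚ_[q] ℚ_[q]) (ratIncl K L)

@[simp] lemma semiIncl_tmul (q : ℕ) [Fact q.Prime] (y : ℚ_[q]) (x : K) :
    semiIncl K L q (y ⊗ₜ[ℚ] x) = y ⊗ₜ[ℚ] algebraMap K L x := by
  simp [semiIncl]

/-- `J_K → J_L`. -/
noncomputable def jlMap : JL S K →* JL S L :=
  MonoidHom.pi fun q =>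
    (Units.map (semiIncl K L ((q : Nat.Primes) : ℕ) :
      semiAlg ((q : Nat.Primes) : ℕ) K →* semiAlg ((q : Nat.Primes) : ℕ) L)).comp
      (Pi.evalMonoidHom _ q)

@[simp] lemma jlMap_apply (x : JL S K) (q : ↥S) :
    ((jlMap S K L x q : (semiAlg ((q : Nat.Primes) : ℕ) L)ˣ) : semiAlg ((q : Nat.Primes) : ℕ) L) =
      semiIncl K L ((q : Nat.Primes) : ℕ) (x q : semiAlg ((q : Nat.Primes) : ℕ) K) := rfl

lemma jlMap_jlDiag (x : Kˣ) :
    jlMap S K L (jlDiag S K x) = jlDiag S L (Units.map (algebraMap K L : K →* L) x) := by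
  funext q
  apply Units.ext
  show semiIncl K L ((q : Nat.Primes) : ℕ) ((1 : ℚ_[((q : Nat.Primes) : ℕ)]) ⊗ₜ[ℚ] (x : K)) =
    (1 : ℚ_[((q : Nat.Primes) : ℕ)]) ⊗ₜ[ℚ] (algebraMap K L (x : K))
  rw [semiIncl_tmul]

/-- `J_K → J_L`, additively. -/
noncomputable def jlMapLin : Additive (JL S K) →ₗ[ℤ] Additive (JL S L) :=
  (MonoidHom.toAdditive (jlMap S K L)).toIntLinearMap

/-! ### The divisor part -/

variable {L}

/-- The prime of `K` under a prime of `L`. -/
noncomputable def primeUnder (P : HeightOneSpectrum (𝓞 L)) : HeightOneSpectrum (𝓞 K) :=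
  HeightOneSpectrum.under (𝓞 K) P

lemma mem_primeUnder (P : HeightOneSpectrum (𝓞 L)) (x : 𝓞 K) :
    x ∈ (primeUnder K P).asIdeal ↔ algebraMap (𝓞 K) (𝓞 L) x ∈ P.asIdeal := Iff.rfl

instance primeUnder_liesOver (P : HeightOneSpectrum (𝓞 L)) :
    P.asIdeal.LiesOver (primeUnder K P).asIdeal := ⟨rfl⟩

/-- The ramification index `e(P | P ∩ K)`. -/
noncomputable def ramIdx (P : HeightOneSpectrum (𝓞 L)) : ℕ :=
  (primeUnder K P).asIdeal.ramificationIdx' P.asIdeal

lemma ramIdx_ne_zero (P : HeightOneSpectrum (𝓞 L)) : ramIdx K P ≠ 0 :=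
  Ideal.IsDedekindDomain.ramificationIdx'_ne_zero_of_liesOver P.asIdeal (primeUnder K P).ne_bot

/-- `w(x) = v(x) ^ e` for `x ∈ K`. -/
lemma valuation_algebraMap_eq_pow (P : HeightOneSpectrum (𝓞 L)) (x : K) :
    P.valuation L (algebraMap K L x) = (primeUnder K P).valuation K x ^ ramIdx K P :=
  (HeightOneSpectrum.valuation_liesOver L (primeUnder K P) P x).symm


/-- `ord_P(x) = e(P | 𝔭) · ord_𝔭(x)` for `x ∈ Kˣ`. -/
lemma ordAt_algebraMap (P : HeightOneSpectrum (𝓞 L)) (x : Kˣ) :
    ordAt P (Units.map (algebraMap K L : K →* L) x) = (ramIdx K P : ℤ) * ordAt (primeUnder K P) x := by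
  have h1 := valuationOfNeZero_eq_ordAt P (Units.map (algebraMap K L : K →* L) x)
  have h2 := valuationOfNeZero_eq_ordAt (primeUnder K P) x
  have h3 : ((P.valuationOfNeZero (Units.map (algebraMap K L : K →* L) x) : Multiplicative ℤ) :
      WithZero (Multiplicative ℤ)) =
      (((primeUnder K P).valuationOfNeZero x ^ ramIdx K P : Multiplicative ℤ) :
        WithZero (Multiplicative ℤ)) := by
    rw [WithZero.coe_pow, HeightOneSpectrum.valuationOfNeZero_eq,
      HeightOneSpectrum.valuationOfNeZero_eq]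
    exact valuation_algebraMap_eq_pow K P (x : K)
  have h4 := WithZero.coe_injective h3
  rw [h1, h2] at h4
  have h5 : -(ordAt P (Units.map (algebraMap K L : K →* L) x)) =
      (ramIdx K P) • (-(ordAt (primeUnder K P) x)) := by
    have := congrArg Multiplicative.toAdd h4
    simpa using this
  rw [nsmul_eq_mul] at h5
  linarith

variable (L)

lemma natCast_mem_primeUnder_iff (P : HeightOneSpectrum (𝓞 L)) (n : ℕ) :
    (n : 𝓞 K) ∈ (primeUnder K P).asIdeal ↔ (n : 𝓞 L) ∈ P.asIdeal := by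
  rw [mem_primeUnder, map_natCast]

variable {L}

/-- The prime of `K` under a prime of `L` off `S`. -/
noncomputable def offUnder (P : OffS S L) : OffS S K :=
  ⟨primeUnder K P.1, fun h => P.2 ((natCast_mem_primeUnder_iff K L P.1 _).1 h)⟩

@[simp] lemma offUnder_val (P : OffS S L) : (offUnder S K P).1 = primeUnder K P.1 := rfl

lemma finite_fiber_primeUnder (𝔭 : HeightOneSpectrum (𝓞 K)) :
    {P : HeightOneSpectrum (𝓞 L) | primeUnder K P = 𝔭}.Finite := by
  have hfin := IsDedekindDomain.primesOver_finite 𝔭.asIdeal (𝓞 L)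
  refine Set.Finite.of_injOn (f := HeightOneSpectrum.asIdeal) ?_ ?_ hfin
  · intro P hP
    refine ⟨P.isPrime, ⟨?_⟩⟩
    rw [← (hP : primeUnder K P = 𝔭)]
    rfl
  · intro P _ Q _ h
    exact HeightOneSpectrum.ext h

lemma finite_fiber_offUnder (𝔭 : OffS S K) : {P : OffS S L | offUnder S K P = 𝔭}.Finite := by
  refine Set.Finite.of_injOn (f := Subtype.val) ?_ Subtype.val_injective.injOn
    (finite_fiber_primeUnder K (L := L) 𝔭.1)
  intro P hP
  exact congrArg Subtype.val (hP : offUnder S K P = 𝔭)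

lemma divMap_finite_support (d : DivS S K) :
    (Function.support fun P : OffS S L => (ramIdx K P.1 : ℤ) * d (offUnder S K P)).Finite := by
  have h : (Function.support fun P : OffS S L => (ramIdx K P.1 : ℤ) * d (offUnder S K P)) ⊆
      ⋃ 𝔭 ∈ d.support, {P : OffS S L | offUnder S K P = 𝔭} := by
    intro P hP
    simp only [Function.mem_support, ne_eq, mul_eq_zero, not_or] at hP
    simp only [Set.mem_iUnion, Set.mem_ofPred_eq, exists_prop]
    exact ⟨offUnder S K P, Finsupp.mem_support_iff.2 hP.2, rfl⟩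
  exact (Set.Finite.biUnion d.support.finite_toSet fun 𝔭 _ => finite_fiber_offUnder S K 𝔭).subset h

variable (L)

/-- `Div_S(K) → Div_S(L)`: `(divMap d)(P) = e(P | 𝔭) · d(𝔭)`, `𝔭 = P ∩ K`
(so `𝔭 ↦ Σ_{P ∣ 𝔭} e(P | 𝔭) · P`). -/
noncomputable def divMap : DivS S K →ₗ[ℤ] DivS S L where
  toFun d := Finsupp.ofSupportFinite (fun P : OffS S L => (ramIdx K P.1 : ℤ) * d (offUnder S K P))
    (divMap_finite_support S K d)
  map_add' d d' := by
    ext P
    simp [Finsupp.ofSupportFinite_coe, mul_add]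
  map_smul' n d := by
    ext P
    simp [Finsupp.ofSupportFinite_coe, mul_left_comm]

@[simp] lemma divMap_apply (d : DivS S K) (P : OffS S L) :
    divMap S K L d P = (ramIdx K P.1 : ℤ) * d (offUnder S K P) := rfl

lemma divMap_divHom (x : Additive Kˣ) :
    divMap S K L (divHom S K x) =
      divHom S L (Additive.ofMul (Units.map (algebraMap K L : K →* L) (Additive.toMul x))) := by
  ext P
  rw [divMap_apply, divHom_apply, divHom_apply]
  exact (ordAt_algebraMap K P.1 _).symm

/-! ### The class module -/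

/-- `J_K × Div_S(K) → J_L × Div_S(L)`. -/
noncomputable def jdMap : Additive (JL S K) × DivS S K →ₗ[ℤ] Additive (JL S L) × DivS S L :=
  LinearMap.prodMap (jlMapLin S K L) (divMap S K L)

lemma jdMap_iotaHom (x : Additive Kˣ) :
    jdMap S K L (iotaHom S K x) =
      iotaHom S L (Additive.ofMul (Units.map (algebraMap K L : K →* L) (Additive.toMul x))) := by
  apply Prod.ext
  · exact congrArg Additive.ofMul (jlMap_jlDiag S K L (Additive.toMul x))
  · exact divMap_divHom S K L x

lemma range_iotaHom_le_comap_jdMap :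
    LinearMap.range (iotaHom S K) ≤ (LinearMap.range (iotaHom S L)).comap (jdMap S K L) := by
  rintro _ ⟨x, rfl⟩
  exact ⟨_, (jdMap_iotaHom S K L x).symm⟩

/-- **`C_S(K) → C_S(L)`** for an extension `L / K` of number fields. -/
noncomputable def csMap : CS S K →ₗ[ℤ] CS S L :=
  Submodule.mapQ _ _ (jdMap S K L) (range_iotaHom_le_comap_jdMap S K L)

@[simp] lemma csMap_mk (y : Additive (JL S K) × DivS S K) :
    csMap S K L (csMk S K y) = csMk S L (jdMap S K L y) := rfl

lemma csMap_csOfJ (j : Additive (JL S K)) :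
    csMap S K L (csOfJ S K j) = csOfJ S L (jlMapLin S K L j) := by
  rw [csOfJ_apply, csMap_mk, csOfJ_apply]
  congr 1
  apply Prod.ext
  · rfl
  · exact map_zero (divMap S K L)

lemma csMap_csOfDiv (d : DivS S K) :
    csMap S K L (csOfDiv S K d) = csOfDiv S L (divMap S K L d) := by
  rw [csOfDiv_apply, csMap_mk, csOfDiv_apply]
  congr 1
  apply Prod.ext
  · exact map_zero (jlMapLin S K L)
  · rfl


/-! ### Equivariance -/

section Equivariance

variable {K L}
variable (σ : L ≃ₐ[ℚ] L) (τ : K ≃ₐ[ℚ] K)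

/-- `σ ∈ Aut(L)` restricts to `τ ∈ Aut(K)`. -/
def Restricts : Prop := ∀ x : K, σ (algebraMap K L x) = algebraMap K L (τ x)

variable {σ τ}

lemma Restricts.symm (h : Restricts σ τ) : Restricts σ⁻¹ τ⁻¹ := by
  intro x
  have h1 := h (τ⁻¹ x)
  have h2 : τ (τ⁻¹ x) = x := τ.apply_symm_apply x
  rw [h2] at h1
  have h3 : σ⁻¹ (σ (algebraMap K L (τ⁻¹ x))) = algebraMap K L (τ⁻¹ x) := σ.symm_apply_apply _
  rw [← h3, h1]

lemma Restricts.mapRingEquiv (h : Restricts σ τ) (x : 𝓞 K) :
    RingOfIntegers.mapRingEquiv (σ : L ≃+* L) (algebraMap (𝓞 K) (𝓞 L) x) =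
      algebraMap (𝓞 K) (𝓞 L) (RingOfIntegers.mapRingEquiv (τ : K ≃+* K) x) := by
  apply RingOfIntegers.ext
  exact h (x : K)

lemma semiMap_semiIncl (h : Restricts σ τ) (q : ℕ) [Fact q.Prime] (x : semiAlg q K) :
    semiMap q σ (semiIncl K L q x) = semiIncl K L q (semiMap q τ x) := by
  have hh : (semiMap q σ).comp (semiIncl K L q) = (semiIncl K L q).comp (semiMap q τ) := by
    apply Algebra.TensorProduct.ext'
    intro a b
    simp [semiMap, semiIncl, h b]
  exact DFunLike.congr_fun hh x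

lemma jlEnd_jlMapLin (h : Restricts σ τ) (j : Additive (JL S K)) :
    jlEnd S σ (jlMapLin S K L j) = jlMapLin S K L (jlEnd S τ j) := by
  apply Additive.toMul.injective
  funext q
  apply Units.ext
  exact semiMap_semiIncl h _ _

lemma primeUnder_primeMap (h : Restricts σ τ) (P : HeightOneSpectrum (𝓞 L)) :
    primeUnder K (primeMap σ P) = primeMap τ (primeUnder K P) := by
  apply HeightOneSpectrum.ext
  ext x
  rw [mem_primeUnder, mem_primeMap, mem_primeMap, mem_primeUnder]
  have := h.symm.mapRingEquiv x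
  rw [show ((σ.symm : L ≃ₐ[ℚ] L) : L ≃+* L) = ((σ⁻¹ : L ≃ₐ[ℚ] L) : L ≃+* L) from rfl,
    show ((τ.symm : K ≃ₐ[ℚ] K) : K ≃+* K) = ((τ⁻¹ : K ≃ₐ[ℚ] K) : K ≃+* K) from rfl, this]

lemma ramIdx_primeMap (h : Restricts σ τ) (P : HeightOneSpectrum (𝓞 L)) :
    ramIdx K (primeMap σ P) = ramIdx K P := by
  obtain ⟨π, hπ⟩ := (primeUnder K P).valuation_exists_uniformizer K
  have h1 : (primeMap σ P).valuation L (algebraMap K L (τ π)) =
      WithZero.exp (-1 : ℤ) ^ ramIdx K (primeMap σ P) := by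
    rw [valuation_algebraMap_eq_pow, primeUnder_primeMap h, valuation_primeMap, hπ]
  have h2 : (primeMap σ P).valuation L (algebraMap K L (τ π)) =
      WithZero.exp (-1 : ℤ) ^ ramIdx K P := by
    rw [← h π, valuation_primeMap, valuation_algebraMap_eq_pow, hπ]
  rw [h1] at h2
  rw [← WithZero.exp_nsmul, ← WithZero.exp_nsmul, WithZero.exp_inj] at h2
  simpa using h2

lemma offUnder_offEquiv (h : Restricts σ τ) (P : OffS S L) :
    offUnder S K (offEquiv S σ P) = offEquiv S τ (offUnder S K P) :=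
  Subtype.ext (primeUnder_primeMap h P.1)

lemma divEnd_divMap (h : Restricts σ τ) (d : DivS S K) :
    divEnd S σ (divMap S K L d) = divMap S K L (divEnd S τ d) := by
  ext P
  obtain ⟨Q, rfl⟩ := (offEquiv S σ).surjective P
  rw [divEnd_apply, divMap_apply, divMap_apply, offUnder_offEquiv S h, divEnd_apply]
  have : ramIdx K (offEquiv S σ Q).1 = ramIdx K Q.1 := ramIdx_primeMap h Q.1
  rw [this]

lemma jdEnd_jdMap (h : Restricts σ τ) (y : Additive (JL S K) × DivS S K) :
    jdEnd S σ (jdMap S K L y) = jdMap S K L (jdEnd S τ y) := by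
  apply Prod.ext
  · exact jlEnd_jlMapLin S h y.1
  · exact divEnd_divMap S h y.2

/-- **Equivariance of `csMap`.** -/
theorem csEnd_csMap (h : Restricts σ τ) (c : CS S K) :
    csEnd S σ (csMap S K L c) = csMap S K L (csEnd S τ c) := by
  induction c using Submodule.Quotient.induction_on with
  | _ y =>
    show csMk S L (jdEnd S σ (jdMap S K L y)) = csMk S L (jdMap S K L (jdEnd S τ y))
    rw [jdEnd_jdMap S h]

/-- The image of `csMap` is fixed by `Aut(L / K)`. -/
theorem csEnd_csMap_of_fixes (hσ : ∀ x : K, σ (algebraMap K L x) = algebraMap K L x) (c : CS S K) :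
    csEnd S σ (csMap S K L c) = csMap S K L c := by
  have h : Restricts σ (1 : K ≃ₐ[ℚ] K) := fun x => hσ x
  rw [csEnd_csMap S h]
  have : csEnd S (1 : K ≃ₐ[ℚ] K) = 1 := map_one (csRho S K)
  rw [this]; rfl

end Equivariance

end Fermat.Agent.PT.G


end ZBPT_007_5

/-! ### bundled: `Fermat.Agent.PT.G.Reps` -/
section ZBPT_007_6
/-
Project PT — PT-G / Defs-rep (helper59): the representations of `Γ = Aut(L) = L ≃ₐ[ℚ] L` on the
pieces of the tensor model of PT/G/Defs.lean, as objects and morphisms of Mathlib's `Rep ℤ Γ`.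

* `semiRho q L`, `semiRep q L`   : `Γ` on `Additive (ℚ_[q] ⊗[ℚ] L)ˣ`
* `jlRho S L`, `jlRep S L`       : `Γ` on `Additive (JL S L)`
* `divRho S L`, `divRep S L`     : `Γ` on `Div_S(L)`
* `jdRho S L`, `jdRep S L`       : `Γ` on `Additive (JL S L) × Div_S(L)`
* `unitsRho L`, `unitsRep L`     : `Γ` on `Additive Lˣ`
* Rep morphisms `jIncl S L q : semiRep q L ⟶ jlRep S L`, `jProj S L q : jlRep S L ⟶ semiRep q L`,
  `csOfJRep`, `csOfDivRep`, `csMkRep`, `iotaRep`, `jdFstRep`, `jdSndRep`, `jdInlRep`, `jdInrRep`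
* `csMk_surjective`, `csMk_eq_zero_iff`, `csMk_eq_iff`, `csOfJ_eq_zero_iff`
-/

set_option autoImplicit false

namespace Fermat.Agent.PT.G

open NumberField IsDedekindDomain Fermat.Agent.PT.G1 CategoryTheory

variable (S : Finset Nat.Primes) (L : Type) [Field L] [NumberField L]

/-! ### The class module: surjectivity and kernel of `csMk` -/

lemma csMk_surjective : Function.Surjective (csMk S L) :=
  Submodule.mkQ_surjective _

lemma csMk_eq_zero_iff' (x : Additive (JL S L) × DivS S L) :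
    csMk S L x = 0 ↔ ∃ a : Additive Lˣ, iotaHom S L a = x := by
  rw [Submodule.mkQ_apply, Submodule.Quotient.mk_eq_zero, LinearMap.mem_range]

lemma iotaHom_apply (a : Additive Lˣ) :
    iotaHom S L a = (Additive.ofMul (jlDiag S L (Additive.toMul a)), divFun S L (Additive.toMul a)) :=
  rfl

/-- `csMk x = 0` iff `x` is the image of some `a ∈ Lˣ`: `x = (diag a, div a)`. -/
lemma csMk_eq_zero_iff (x : Additive (JL S L) × DivS S L) :
    csMk S L x = 0 ↔ ∃ a : Lˣ, x = (Additive.ofMul (jlDiag S L a), divFun S L a) := by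
  rw [csMk_eq_zero_iff']
  constructor
  · rintro ⟨a, rfl⟩
    exact ⟨Additive.toMul a, rfl⟩
  · rintro ⟨a, rfl⟩
    exact ⟨Additive.ofMul a, rfl⟩

/-- Two elements of `J_L × Div_S(L)` have the same class iff they differ by some `a ∈ Lˣ`. -/
lemma csMk_eq_iff (x y : Additive (JL S L) × DivS S L) :
    csMk S L x = csMk S L y ↔
      ∃ a : Lˣ, x - y = (Additive.ofMul (jlDiag S L a), divFun S L a) := by
  rw [← sub_eq_zero, ← map_sub, csMk_eq_zero_iff]

/-- `csOfJ j = 0` iff `j = diag a` for some `a ∈ Lˣ` whose divisor away from `S` is `0`. -/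
lemma csOfJ_eq_zero_iff (j : Additive (JL S L)) :
    csOfJ S L j = 0 ↔ ∃ a : Lˣ, j = Additive.ofMul (jlDiag S L a) ∧ divFun S L a = 0 := by
  rw [csOfJ_apply, csMk_eq_zero_iff]
  constructor
  · rintro ⟨a, ha⟩
    exact ⟨a, congrArg Prod.fst ha, (congrArg Prod.snd ha).symm⟩
  · rintro ⟨a, ha, ha'⟩
    exact ⟨a, Prod.ext ha ha'.symm⟩

/-- `csOfDiv d = 0` iff `d = div a` for some `a ∈ Lˣ` with `diag a = 1`. -/
lemma csOfDiv_eq_zero_iff (d : DivS S L) :
    csOfDiv S L d = 0 ↔ ∃ a : Lˣ, jlDiag S L a = 1 ∧ d = divFun S L a := by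
  rw [csOfDiv_apply, csMk_eq_zero_iff]
  constructor
  · rintro ⟨a, ha⟩
    refine ⟨a, ?_, congrArg Prod.snd ha⟩
    have h := congrArg Prod.fst ha
    exact congrArg Additive.toMul h.symm
  · rintro ⟨a, ha, ha'⟩
    refine ⟨a, Prod.ext ?_ ha'⟩
    show (0 : Additive (JL S L)) = Additive.ofMul (jlDiag S L a)
    rw [ha]
    rfl

lemma csMk_eq_csOfJ_add_csOfDiv (x : Additive (JL S L) × DivS S L) :
    csMk S L x = csOfJ S L x.1 + csOfDiv S L x.2 := by
  rw [csOfJ_apply, csOfDiv_apply, ← map_add]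
  congr 1
  apply Prod.ext
  · show x.1 = x.1 + 0
    rw [add_zero]
  · show x.2 = 0 + x.2
    rw [zero_add]

/-! ### The representations -/

/-- The representation of `Aut(L)` on `Additive Lˣ`. -/
noncomputable def unitsRho : Representation ℤ (L ≃ₐ[ℚ] L) (Additive Lˣ) where
  toFun σ := unitsEnd (σ : L →* L)
  map_one' := by
    apply LinearMap.ext
    intro x
    rfl
  map_mul' σ τ := by
    apply LinearMap.ext
    intro x
    rfl

/-- `Additive Lˣ` as an object of `Rep ℤ Aut(L)`. -/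
noncomputable def unitsRep : Rep.{0} ℤ (L ≃ₐ[ℚ] L) := Rep.of (unitsRho L)

@[simp] lemma unitsRho_apply (σ : L ≃ₐ[ℚ] L) (x : Additive Lˣ) :
    unitsRho L σ x = unitsEnd (σ : L →* L) x := rfl

section Semi

omit S L

/-- The representation of `Aut(L)` on `Additive (ℚ_[q] ⊗[ℚ] L)ˣ`. -/
noncomputable def semiRho (q : ℕ) [Fact q.Prime] (L : Type) [Field L] [NumberField L] :
    Representation ℤ (L ≃ₐ[ℚ] L) (Additive (semiAlg q L)ˣ) where
  toFun σ := unitsEnd (semiMap q σ : semiAlg q L →* semiAlg q L)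
  map_one' := by
    apply LinearMap.ext
    intro x
    apply congrArg Additive.ofMul
    apply Units.ext
    exact semiMap_one q _
  map_mul' σ τ := by
    apply LinearMap.ext
    intro x
    apply congrArg Additive.ofMul
    apply Units.ext
    exact semiMap_mul q σ τ _

/-- `Additive (ℚ_[q] ⊗[ℚ] L)ˣ` as an object of `Rep ℤ Aut(L)`. -/
noncomputable def semiRep (q : ℕ) [Fact q.Prime] (L : Type) [Field L] [NumberField L] :
    Rep.{0} ℤ (L ≃ₐ[ℚ] L) := Rep.of (semiRho q L)

@[simp] lemma semiRho_apply (q : ℕ) [Fact q.Prime] (L : Type) [Field L] [NumberField L]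
    (σ : L ≃ₐ[ℚ] L) (x : Additive (semiAlg q L)ˣ) :
    semiRho q L σ x = unitsEnd (semiMap q σ : semiAlg q L →* semiAlg q L) x := rfl

end Semi

/-- The representation of `Aut(L)` on `Additive J_L`. -/
noncomputable def jlRho : Representation ℤ (L ≃ₐ[ℚ] L) (Additive (JL S L)) where
  toFun σ := jlEnd S σ
  map_one' := jlEnd_one S
  map_mul' σ τ := jlEnd_mul S σ τ

/-- `Additive J_L` as an object of `Rep ℤ Aut(L)`. -/
noncomputable def jlRep : Rep.{0} ℤ (L ≃ₐ[ℚ] L) := Rep.of (jlRho S L)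

@[simp] lemma jlRho_apply (σ : L ≃ₐ[ℚ] L) (x : Additive (JL S L)) :
    jlRho S L σ x = jlEnd S σ x := rfl

/-- The representation of `Aut(L)` on `Div_S(L)`. -/
noncomputable def divRho : Representation ℤ (L ≃ₐ[ℚ] L) (DivS S L) where
  toFun σ := divEnd S σ
  map_one' := divEnd_one S
  map_mul' σ τ := divEnd_mul S σ τ

/-- `Div_S(L)` as an object of `Rep ℤ Aut(L)`. -/
noncomputable def divRep : Rep.{0} ℤ (L ≃ₐ[ℚ] L) := Rep.of (divRho S L)

@[simp] lemma divRho_apply (σ : L ≃ₐ[ℚ] L) (d : DivS S L) :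
    divRho S L σ d = divEnd S σ d := rfl

/-- The representation of `Aut(L)` on `Additive J_L × Div_S(L)`. -/
noncomputable def jdRho : Representation ℤ (L ≃ₐ[ℚ] L) (Additive (JL S L) × DivS S L) where
  toFun σ := jdEnd S σ
  map_one' := by
    apply LinearMap.ext
    intro y
    exact jdEnd_one S y
  map_mul' σ τ := by
    apply LinearMap.ext
    intro y
    exact jdEnd_mul S σ τ y

/-- `Additive J_L × Div_S(L)` as an object of `Rep ℤ Aut(L)`. -/
noncomputable def jdRep : Rep.{0} ℤ (L ≃ₐ[ℚ] L) := Rep.of (jdRho S L)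

@[simp] lemma jdRho_apply (σ : L ≃ₐ[ℚ] L) (y : Additive (JL S L) × DivS S L) :
    jdRho S L σ y = jdEnd S σ y := rfl

@[simp] lemma csRho_apply (σ : L ≃ₐ[ℚ] L) (c : CS S L) : csRho S L σ c = csEnd S σ c := rfl

/-! ### The components of `J_L` -/

/-- The projection `J_L → (ℚ_q ⊗ L)ˣ`, as a linear map. -/
noncomputable def jProjLin (q : ↥S) :
    Additive (JL S L) →ₗ[ℤ] Additive (semiAlg ((q : Nat.Primes) : ℕ) L)ˣ :=
  (MonoidHom.toAdditive
    (Pi.evalMonoidHom (fun q : ↥S => (semiAlg ((q : Nat.Primes) : ℕ) L)ˣ) q)).toIntLinearMap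

/-- The inclusion `(ℚ_q ⊗ L)ˣ → J_L` of the `q`-component, as a linear map. -/
noncomputable def jInclLin (q : ↥S) :
    Additive (semiAlg ((q : Nat.Primes) : ℕ) L)ˣ →ₗ[ℤ] Additive (JL S L) :=
  (MonoidHom.toAdditive
    (MonoidHom.mulSingle (fun q : ↥S => (semiAlg ((q : Nat.Primes) : ℕ) L)ˣ) q)).toIntLinearMap

@[simp] lemma jProjLin_apply (q : ↥S) (x : Additive (JL S L)) :
    jProjLin S L q x = Additive.ofMul (Additive.toMul x q) := rfl

@[simp] lemma jInclLin_apply (q : ↥S) (x : Additive (semiAlg ((q : Nat.Primes) : ℕ) L)ˣ) :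
    jInclLin S L q x = Additive.ofMul (Pi.mulSingle q (Additive.toMul x) : JL S L) := rfl

lemma jProjLin_jInclLin (q : ↥S) (x : Additive (semiAlg ((q : Nat.Primes) : ℕ) L)ˣ) :
    jProjLin S L q (jInclLin S L q x) = x := by
  rw [jInclLin_apply, jProjLin_apply]
  show Additive.ofMul ((Pi.mulSingle q (Additive.toMul x) : JL S L) q) = x
  rw [Pi.mulSingle_eq_same]
  rfl

lemma jProjLin_jInclLin_of_ne {q q' : ↥S} (h : q' ≠ q)
    (x : Additive (semiAlg ((q : Nat.Primes) : ℕ) L)ˣ) :
    jProjLin S L q' (jInclLin S L q x) = 0 := by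
  rw [jInclLin_apply, jProjLin_apply]
  show Additive.ofMul ((Pi.mulSingle q (Additive.toMul x) : JL S L) q') = 0
  rw [Pi.mulSingle_eq_of_ne h]
  rfl

lemma jInclLin_injective (q : ↥S) : Function.Injective (jInclLin S L q) :=
  Function.LeftInverse.injective (jProjLin_jInclLin S L q)

lemma jProjLin_surjective (q : ↥S) : Function.Surjective (jProjLin S L q) :=
  Function.RightInverse.surjective (jProjLin_jInclLin S L q)

variable {L}

lemma jProjLin_equivariant (q : ↥S) (σ : L ≃ₐ[ℚ] L) (x : Additive (JL S L)) :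
    jProjLin S L q (jlEnd S σ x) =
      unitsEnd (semiMap ((q : Nat.Primes) : ℕ) σ :
        semiAlg ((q : Nat.Primes) : ℕ) L →* semiAlg ((q : Nat.Primes) : ℕ) L)
        (jProjLin S L q x) := rfl

lemma jlHom_mulSingle (q : ↥S) (σ : L ≃ₐ[ℚ] L) (x : (semiAlg ((q : Nat.Primes) : ℕ) L)ˣ) :
    jlHom S σ (Pi.mulSingle q x) =
      Pi.mulSingle q (Units.map (semiMap ((q : Nat.Primes) : ℕ) σ :
        semiAlg ((q : Nat.Primes) : ℕ) L →* semiAlg ((q : Nat.Primes) : ℕ) L) x) := by
  funext q'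
  by_cases h : q' = q
  · subst h
    show Units.map _ ((Pi.mulSingle q' x : JL S L) q') = _
    rw [Pi.mulSingle_eq_same, Pi.mulSingle_eq_same]
  · show Units.map _ ((Pi.mulSingle q x : JL S L) q') = _
    rw [Pi.mulSingle_eq_of_ne h, Pi.mulSingle_eq_of_ne h, map_one]

lemma jInclLin_equivariant (q : ↥S) (σ : L ≃ₐ[ℚ] L)
    (x : Additive (semiAlg ((q : Nat.Primes) : ℕ) L)ˣ) :
    jInclLin S L q (unitsEnd (semiMap ((q : Nat.Primes) : ℕ) σ :
        semiAlg ((q : Nat.Primes) : ℕ) L →* semiAlg ((q : Nat.Primes) : ℕ) L) x) =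
      jlEnd S σ (jInclLin S L q x) :=
  congrArg Additive.ofMul (jlHom_mulSingle S q σ (Additive.toMul x)).symm

variable (L)

/-- **The `q`-component of `J_L`**, projection, as a morphism of `Rep ℤ Aut(L)`. -/
noncomputable def jProj (q : ↥S) : jlRep S L ⟶ semiRep ((q : Nat.Primes) : ℕ) L :=
  Rep.ofHom ⟨jProjLin S L q, fun σ => LinearMap.ext fun x => jProjLin_equivariant S q σ x⟩

/-- **The `q`-component of `J_L`**, inclusion, as a morphism of `Rep ℤ Aut(L)`. -/
noncomputable def jIncl (q : ↥S) : semiRep ((q : Nat.Primes) : ℕ) L ⟶ jlRep S L :=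
  Rep.ofHom ⟨jInclLin S L q, fun σ => LinearMap.ext fun x => jInclLin_equivariant S q σ x⟩

@[simp] lemma jProj_hom_toLinearMap (q : ↥S) :
    (jProj S L q).hom.toLinearMap = jProjLin S L q := rfl

@[simp] lemma jIncl_hom_toLinearMap (q : ↥S) :
    (jIncl S L q).hom.toLinearMap = jInclLin S L q := rfl

lemma jIncl_comp_jProj (q : ↥S) : jIncl S L q ≫ jProj S L q = 𝟙 _ := by
  apply Rep.hom_ext
  apply Representation.IntertwiningMap.ext
  apply LinearMap.ext
  intro x
  exact jProjLin_jInclLin S L q x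

lemma jIncl_comp_jProj_of_ne {q q' : ↥S} (h : q' ≠ q) :
    (jIncl S L q ≫ jProj S L q').hom.toLinearMap = 0 := by
  apply LinearMap.ext
  intro x
  exact jProjLin_jInclLin_of_ne S L h x

/-- An element of `J_L` is the sum of its components. -/
lemma sum_jInclLin_jProjLin (x : Additive (JL S L)) :
    ∑ q : ↥S, jInclLin S L q (jProjLin S L q x) = x := by
  have h : ∀ (T : Finset ↥S), Additive.toMul (∑ q ∈ T, jInclLin S L q (jProjLin S L q x)) =
      ∏ q ∈ T, (Pi.mulSingle q (Additive.toMul x q) : JL S L) := by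
    intro T
    induction T using Finset.induction_on with
    | empty => rfl
    | insert a T ha ih =>
      rw [Finset.sum_insert ha, Finset.prod_insert ha, ← ih]
      rfl
  apply Additive.toMul.injective
  rw [h]
  exact Finset.univ_prod_mulSingle (Additive.toMul x)

/-! ### The maps of the class module as morphisms of `Rep ℤ Aut(L)` -/

/-- `Lˣ → J_L × Div_S(L)` as a morphism of `Rep ℤ Aut(L)`. -/
noncomputable def iotaRep : unitsRep L ⟶ jdRep S L :=
  Rep.ofHom ⟨iotaHom S L, fun σ => LinearMap.ext fun x => iotaHom_equivariant S σ x⟩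

/-- `J_L × Div_S(L) → C_S(L)` as a morphism of `Rep ℤ Aut(L)`. -/
noncomputable def csMkRep : jdRep S L ⟶ csRep S L :=
  Rep.ofHom ⟨csMk S L, fun _ => LinearMap.ext fun _ => rfl⟩

/-- `J_L → C_S(L)` as a morphism of `Rep ℤ Aut(L)`. -/
noncomputable def csOfJRep : jlRep S L ⟶ csRep S L :=
  Rep.ofHom ⟨csOfJ S L, fun σ => csOfJ_equivariant S σ⟩

lemma csOfDiv_equivariant {L : Type} [Field L] [NumberField L] (σ : L ≃ₐ[ℚ] L) :
    csOfDiv S L ∘ₗ divEnd S σ = csEnd S σ ∘ₗ csOfDiv S L := by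
  apply LinearMap.ext
  intro d
  show csMk S L (0, divEnd S σ d) = csMk S L (jdEnd S σ (0, d))
  have h : jdEnd S σ ((0, d) : Additive (JL S L) × DivS S L) = (0, divEnd S σ d) := by
    apply Prod.ext
    · show jlEnd S σ 0 = (0 : Additive (JL S L))
      rw [map_zero]
    · rfl
  rw [h]

/-- `Div_S(L) → C_S(L)` as a morphism of `Rep ℤ Aut(L)`. -/
noncomputable def csOfDivRep : divRep S L ⟶ csRep S L :=
  Rep.ofHom ⟨csOfDiv S L, fun σ => csOfDiv_equivariant S σ⟩

/-- `J_L → J_L × Div_S(L)` as a morphism of `Rep ℤ Aut(L)`. -/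
noncomputable def jdInlRep : jlRep S L ⟶ jdRep S L :=
  Rep.ofHom ⟨LinearMap.inl ℤ (Additive (JL S L)) (DivS S L), fun σ => LinearMap.ext fun x => by
    apply Prod.ext
    · rfl
    · show (0 : DivS S L) = divEnd S σ 0
      rw [map_zero]⟩

/-- `Div_S(L) → J_L × Div_S(L)` as a morphism of `Rep ℤ Aut(L)`. -/
noncomputable def jdInrRep : divRep S L ⟶ jdRep S L :=
  Rep.ofHom ⟨LinearMap.inr ℤ (Additive (JL S L)) (DivS S L), fun σ => LinearMap.ext fun x => by
    apply Prod.ext
    · show (0 : Additive (JL S L)) = jlEnd S σ 0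
      rw [map_zero]
    · rfl⟩

/-- `J_L × Div_S(L) → J_L` as a morphism of `Rep ℤ Aut(L)`. -/
noncomputable def jdFstRep : jdRep S L ⟶ jlRep S L :=
  Rep.ofHom ⟨LinearMap.fst ℤ (Additive (JL S L)) (DivS S L), fun _ => LinearMap.ext fun _ => rfl⟩

/-- `J_L × Div_S(L) → Div_S(L)` as a morphism of `Rep ℤ Aut(L)`. -/
noncomputable def jdSndRep : jdRep S L ⟶ divRep S L :=
  Rep.ofHom ⟨LinearMap.snd ℤ (Additive (JL S L)) (DivS S L), fun _ => LinearMap.ext fun _ => rfl⟩

@[simp] lemma csMkRep_hom_toLinearMap : (csMkRep S L).hom.toLinearMap = csMk S L := rfl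

@[simp] lemma csOfJRep_hom_toLinearMap : (csOfJRep S L).hom.toLinearMap = csOfJ S L := rfl

@[simp] lemma csOfDivRep_hom_toLinearMap : (csOfDivRep S L).hom.toLinearMap = csOfDiv S L := rfl

@[simp] lemma iotaRep_hom_toLinearMap : (iotaRep S L).hom.toLinearMap = iotaHom S L := rfl

lemma jdInlRep_comp_csMkRep : jdInlRep S L ≫ csMkRep S L = csOfJRep S L := rfl

lemma jdInrRep_comp_csMkRep : jdInrRep S L ≫ csMkRep S L = csOfDivRep S L := rfl

/-- `Lˣ → J_L × Div_S(L) → C_S(L)` is zero. -/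
lemma iotaRep_comp_csMkRep_apply (a : Additive Lˣ) : csMk S L (iotaHom S L a) = 0 :=
  (csMk_eq_zero_iff' S L _).2 ⟨a, rfl⟩

end Fermat.Agent.PT.G


end ZBPT_007_6

/-! ### bundled: `Fermat.Agent.PT.B.JDiv` -/
section ZBPT_007_7
/-
PT-B, piece B-jdiv (helper48): `J_v = ℚ̄_qˣ` is `p`-divisible (`PadicAlgCl q` is algebraically
closed).
-/

set_option autoImplicit false

namespace Fermat.Agent.PT.B

open Fermat.Agent.PT

/-- the units of an algebraically closed field are divisible -/
theorem jdiv_exists_pow {K : Type} [Field K] [IsAlgClosed K] (n : ℕ) (hn : 0 < n) (x : Kˣ) :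
    ∃ y : Kˣ, y ^ n = x := by
  obtain ⟨z, hz⟩ := IsAlgClosed.exists_pow_nat_eq (x : K) hn
  have hz0 : z ≠ 0 := by
    rintro rfl
    rw [zero_pow hn.ne'] at hz
    exact x.ne_zero hz.symm
  refine ⟨Units.mk0 z hz0, ?_⟩
  apply Units.ext
  simpa using hz

/-- **B-jdiv** = the datum axiom `J_div`. -/
theorem stmtJDiv : StmtJDiv := by
  intro p hp q _ x
  obtain ⟨y, hy⟩ := jdiv_exists_pow (K := PadicAlgCl q) p hp.out.pos (Additive.toMul x)
  exact ⟨Additive.ofMul y, by
    show Additive.ofMul (y ^ p) = x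
    rw [hy]
    rfl⟩

end Fermat.Agent.PT.B


end ZBPT_007_7

/-! ### bundled: `Fermat.Agent.PT.B.EDiv` -/
section ZBPT_007_8
/-
PT-B, piece B-ediv (helper48): the `S`-units `E_S` of `ℚ_S` are `p`-divisible (`p ∈ S`).
A `p`-th root `w` of an `S`-unit `α ∈ F` generates an extension `F(w)` unramified outside `S`
(PT-X `isUnramifiedOutside_adjoin_root` with `β = 1`, `u = α`), and `v(w)^p = v(α) = 1` forces
`v(w) = 1` at every place over a prime outside `S`.
-/

set_option autoImplicit false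

namespace Fermat.Agent.PT.B

open Fermat.Agent.PT ExtCitation

/-- a `p`-th root of a unit of a valuation ring is a unit -/
theorem ediv_mem_unitGroup {K : Type} [Field K] (A : ValuationSubring K) (n : ℕ) (hn : n ≠ 0)
    (w x : Kˣ) (hw : w ^ n = x) (hx : x ∈ A.unitGroup) : w ∈ A.unitGroup := by
  rw [ValuationSubring.mem_unitGroup_iff] at hx ⊢
  have h1 : A.valuation (w : K) ^ n = 1 := by
    rw [← map_pow, ← Units.val_pow_eq_pow_val, hw, hx]
  rcases pow_eq_one_iff.1 h1 with h | h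
  · exact h
  · exact absurd h hn

/-- **B-ediv** = the datum axiom `E_div`. -/
theorem stmtEDiv : StmtEDiv := by
  intro p hp S hpS e
  obtain ⟨⟨F, hF, hxF⟩, hunit⟩ := (Additive.toMul e).2
  obtain ⟨w, hw⟩ := jdiv_exists_pow (K := AlgebraicClosure ℚ) p hp.out.pos
    ((Additive.toMul e : ↥(unitsS S)) : (AlgebraicClosure ℚ)ˣ)
  have hw' : (w : AlgebraicClosure ℚ) ^ ((pPrime p : Nat.Primes) : ℕ) =
      (((Additive.toMul e : ↥(unitsS S)) : (AlgebraicClosure ℚ)ˣ) : AlgebraicClosure ℚ) := by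
    rw [← hw]
    rfl
  have hwS : w ∈ unitsS S := by
    refine ⟨⟨F ⊔ IntermediateField.adjoin ℚ {(w : AlgebraicClosure ℚ)},
      Fermat.Agent.PT.X.isUnramifiedOutside_adjoin_root S (pPrime p) hpS F hF _ _ hw' ?_,
      (le_sup_right : IntermediateField.adjoin ℚ {(w : AlgebraicClosure ℚ)} ≤ _)
        (IntermediateField.mem_adjoin_simple_self ℚ _)⟩, ?_⟩
    · intro q hq A hA
      have h1 := hunit q hq A hA
      refine ⟨1, _, one_mem _, hxF, ?_, ?_, by rw [one_pow, mul_one]; rfl⟩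
      · exact ((mem_unitGroup_iff_mem_and_inv_mem A _).1 h1).1
      · intro hnon
        rw [ValuationSubring.mem_nonunits_iff] at hnon
        rw [ValuationSubring.mem_unitGroup_iff] at h1
        rw [h1] at hnon
        exact lt_irrefl _ hnon
    · intro q hq A hA
      exact ediv_mem_unitGroup A p hp.out.ne_zero w _ hw (hunit q hq A hA)
  refine ⟨Additive.ofMul ⟨w, hwS⟩, ?_⟩
  show Additive.ofMul ((⟨w, hwS⟩ : ↥(unitsS S)) ^ p) = e
  have : ((⟨w, hwS⟩ : ↥(unitsS S)) ^ p) = Additive.toMul e := by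
    apply Subtype.ext
    exact hw
  rw [this]
  rfl

end Fermat.Agent.PT.B


end ZBPT_007_8

/-! ### bundled: `Fermat.Agent.PT.B.JDisc` -/
section ZBPT_007_9
/-
PT-B, piece B-jdisc (helper61): `stmtJlocDiscrete : StmtJlocDiscrete` — every element of
`ℚ̄_qˣ` is fixed by a level of the local tower (Krasner + the local-level dictionary).
-/

set_option autoImplicit false

namespace Fermat.Agent.PT.B

/-- Every element of `ℚ̄_q` lies in `F_q` for some finite Galois `F/ℚ`. -/
theorem jdisc_exists_field (q : ℕ) [Fact q.Prime] (x : PadicAlgCl q) :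
    ∃ F : QbarField, FiniteDimensional ℚ F ∧ IsGalois ℚ F ∧ x ∈ localField q F := by
  have hx : IsIntegral ℚ_[q] x := (Algebra.IsAlgebraic.isAlgebraic (R := ℚ_[q]) x).isIntegral
  have : FiniteDimensional ℚ_[q] (IntermediateField.adjoin ℚ_[q] {x}) :=
    IntermediateField.adjoin.finiteDimensional hx
  obtain ⟨F, hF, hG, hle⟩ := stmtKrasner q (IntermediateField.adjoin ℚ_[q] {x}) inferInstance
  exact ⟨F, hF, hG, hle (IntermediateField.mem_adjoin_simple_self ℚ_[q] x)⟩

/-- **B-jdisc** -/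
theorem stmtJlocDiscrete : StmtJlocDiscrete := by
  intro q _ x
  let u : (PadicAlgCl q)ˣ := Additive.toMul (show Additive (PadicAlgCl q)ˣ from x)
  obtain ⟨F, hF, -, hxF⟩ := jdisc_exists_field q (u : PadicAlgCl q)
  refine ⟨F.fixingSubgroup.comap (localGaloisToGlobal q), ⟨F, hF, rfl⟩, fun s hs => ?_⟩
  have hs' : s ∈ (localField q F).fixingSubgroup := (stmtLocalLevel q F s).1 hs
  have hfix : s (u : PadicAlgCl q) = (u : PadicAlgCl q) :=
    (IntermediateField.mem_fixingSubgroup_iff _ _).1 hs' _ hxF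
  have hu : s • u = u := Units.ext hfix
  show Additive.ofMul (s • u) = Additive.ofMul u
  rw [hu]

end Fermat.Agent.PT.B


end ZBPT_007_9

/-! ### bundled: `Fermat.Agent.PT.G.Exact` -/
section ZBPT_007_10
/-
Project PT — PT-G / CS-exact (helper56): the sequence
`0 → E_{L,S} → J_L → C_S(L) → Cl_S(L) → 0` is exact and `Cl_S(L)` is finite.
-/

set_option autoImplicit false

namespace Fermat.Agent.PT.G

open NumberField IsDedekindDomain Fermat.Agent.PT.G1 Fermat.Agent.PT.X

section Ord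

variable {L : Type} [Field L] [NumberField L]

lemma cse_val_eq (v : HeightOneSpectrum (𝓞 L)) (x : Lˣ) :
    v.valuation L (x : L) =
      ((Multiplicative.ofAdd (-(ordAt v x)) : Multiplicative ℤ) : WithZero (Multiplicative ℤ)) := by
  rw [← HeightOneSpectrum.valuationOfNeZero_eq, valuationOfNeZero_eq_ordAt]

lemma cse_val_le_one_iff (v : HeightOneSpectrum (𝓞 L)) (x : Lˣ) :
    v.valuation L (x : L) ≤ 1 ↔ 0 ≤ ordAt v x := by
  rw [cse_val_eq, ← WithZero.coe_one, WithZero.coe_le_coe, ← ofAdd_zero,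
    Multiplicative.ofAdd_le]
  constructor <;> intro h <;> linarith

lemma cse_val_eq_one_iff (v : HeightOneSpectrum (𝓞 L)) (x : Lˣ) :
    v.valuation L (x : L) = 1 ↔ ordAt v x = 0 := by
  rw [cse_val_eq, ← WithZero.coe_one, WithZero.coe_inj, ← ofAdd_zero]
  constructor
  · intro h
    have := Multiplicative.ofAdd.injective h
    linarith
  · intro h
    rw [h, neg_zero]

lemma cse_val_lt_one_iff (v : HeightOneSpectrum (𝓞 L)) (x : Lˣ) :
    v.valuation L (x : L) < 1 ↔ 0 < ordAt v x := by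
  rw [cse_val_eq, ← WithZero.coe_one, WithZero.coe_lt_coe, ← ofAdd_zero,
    Multiplicative.ofAdd_lt]
  constructor <;> intro h <;> linarith

lemma cse_ordAt_pow (v : HeightOneSpectrum (𝓞 L)) (x : Lˣ) (k : ℕ) :
    ordAt v (x ^ k) = k * ordAt v x := by
  induction k with
  | zero => simp [ordAt_one]
  | succ k ih => rw [pow_succ, ordAt_mul, ih]; push_cast; ring

/-- An element whose orders are all nonnegative is integral. -/
lemma cse_isIntegral_of_ordAt_nonneg (y : Lˣ)
    (h : ∀ v : HeightOneSpectrum (𝓞 L), 0 ≤ ordAt v y) : IsIntegral ℤ (y : L) := by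
  have h1 : (y : L) ∈ (algebraMap (𝓞 L) L).range :=
    HeightOneSpectrum.mem_integers_of_valuation_le_one L (y : L)
      fun v => (cse_val_le_one_iff v y).2 (h v)
  obtain ⟨r, hr⟩ := h1
  rw [← hr]
  exact RingOfIntegers.isIntegral_coe r

variable (L) in
/-- `N` as a unit of `L`. -/
noncomputable def cseNat (N : ℕ) (hN : N ≠ 0) : Lˣ :=
  Units.mk0 (N : L) (by exact_mod_cast hN)

lemma cse_ordAt_nat_nonneg (N : ℕ) (hN : N ≠ 0) (v : HeightOneSpectrum (𝓞 L)) :
    0 ≤ ordAt v (cseNat L N hN) := by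
  rw [← cse_val_le_one_iff]
  have := v.valuation_le_one (K := L) (N : 𝓞 L)
  simpa [cseNat] using this

lemma cse_ordAt_nat_pos (N : ℕ) (hN : N ≠ 0) (v : HeightOneSpectrum (𝓞 L))
    (hv : (N : 𝓞 L) ∈ v.asIdeal) : 0 < ordAt v (cseNat L N hN) := by
  rw [← cse_val_lt_one_iff]
  have := (v.valuation_lt_one_iff_mem (K := L) (N : 𝓞 L)).2 hv
  simpa [cseNat] using this

/-- **The `N`-units are the elements of order `0` away from `N`.** -/
lemma cse_mem_nUnits_iff (N : ℕ) (hN : N ≠ 0) (x : Lˣ) :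
    x ∈ nUnits N L ↔
      ∀ P : HeightOneSpectrum (𝓞 L), (N : 𝓞 L) ∉ P.asIdeal → ordAt P x = 0 := by
  classical
  constructor
  · intro hx P hP
    exact (cse_val_eq_one_iff P x).1 (ur_val_eq_one (⟨x, hx⟩ : nUnits N L) P hP)
  · intro hx
    have hfin : Finite (UrS L N) := ur_finite hN
    letI : Fintype (UrS L N) := Fintype.ofFinite _
    set k : ℕ := ∑ P : UrS L N, (ordAt P.1 x).natAbs with hk
    have hkP : ∀ P : HeightOneSpectrum (𝓞 L), (N : 𝓞 L) ∈ P.asIdeal →
        (ordAt P x).natAbs ≤ k := by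
      intro P hP
      exact Finset.single_le_sum (f := fun Q : UrS L N => (ordAt Q.1 x).natAbs)
        (fun _ _ => Nat.zero_le _) (Finset.mem_univ (α := UrS L N) ⟨P, hP⟩)
    have key : ∀ y : Lˣ, (∀ P : HeightOneSpectrum (𝓞 L), (N : 𝓞 L) ∉ P.asIdeal →
        ordAt P y = 0) → (∀ P : HeightOneSpectrum (𝓞 L), (N : 𝓞 L) ∈ P.asIdeal →
        (ordAt P y).natAbs ≤ k) → IsIntegral ℤ ((N : L) ^ k * (y : L)) := by
      intro y hy0 hyk
      have h1 : ((N : L) ^ k * (y : L)) = ((cseNat L N hN ^ k * y : Lˣ) : L) := by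
        simp [cseNat]
      rw [h1]
      apply cse_isIntegral_of_ordAt_nonneg
      intro v
      rw [ordAt_mul, cse_ordAt_pow]
      by_cases hv : (N : 𝓞 L) ∈ v.asIdeal
      · have h2 := cse_ordAt_nat_pos N hN v hv
        have h3 := hyk v hv
        have h4 : (k : ℤ) * 1 ≤ k * ordAt v (cseNat L N hN) :=
          mul_le_mul_of_nonneg_left (by omega) (by positivity)
        omega
      · rw [hy0 v hv, add_zero]
        exact mul_nonneg (by positivity) (cse_ordAt_nat_nonneg N hN v)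
    refine ⟨k, key x hx hkP, key x⁻¹ ?_ ?_⟩
    · intro P hP
      rw [ordAt_inv, hx P hP, neg_zero]
    · intro P hP
      rw [ordAt_inv, Int.natAbs_neg]
      exact hkP P hP

end Ord

section Exact

variable (S : Finset Nat.Primes) (L : Type) [Field L] [NumberField L]

lemma cse_divHom_eq_zero_iff (x : Additive Lˣ) :
    divHom S L x = 0 ↔ Additive.toMul x ∈ nUnits (∏ q ∈ S, (q : ℕ)) L := by
  have hN : (∏ q ∈ S, (q : ℕ)) ≠ 0 := sProd_ne_zero S
  rw [cse_mem_nUnits_iff _ hN]
  constructor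
  · intro h P hP
    have h1 : divHom S L x (⟨P, hP⟩ : OffS S L) = (0 : DivS S L) (⟨P, hP⟩ : OffS S L) := by
      rw [h]
    rw [divHom_apply] at h1
    exact h1
  · intro h
    ext P
    rw [divHom_apply]
    exact h P.1 P.2

/-- Exactness at `J_L`. -/
lemma cse_ker_csOfJ : LinearMap.ker (csOfJ S L) = LinearMap.range (jlDiagUnits S L) := by
  ext j
  rw [LinearMap.mem_ker, csOfJ_apply, Submodule.mkQ_apply, Submodule.Quotient.mk_eq_zero]
  constructor
  · rintro ⟨x, hx⟩
    have h1 : Additive.ofMul (jlDiag S L (Additive.toMul x)) = j := congrArg Prod.fst hx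
    have h2 : divHom S L x = 0 := congrArg Prod.snd hx
    exact ⟨Additive.ofMul ⟨Additive.toMul x, (cse_divHom_eq_zero_iff S L x).1 h2⟩, h1⟩
  · rintro ⟨u, rfl⟩
    refine ⟨Additive.ofMul ((Additive.toMul u : nUnits (∏ q ∈ S, (q : ℕ)) L) : Lˣ), ?_⟩
    apply Prod.ext
    · rfl
    · exact (cse_divHom_eq_zero_iff S L _).2 (Additive.toMul u).2

/-- `Div_S(L) → C_S(L) / J_L`. -/
noncomputable def cseDivQ : DivS S L →ₗ[ℤ] CS S L ⧸ LinearMap.range (csOfJ S L) :=
  (LinearMap.range (csOfJ S L)).mkQ ∘ₗ csOfDiv S L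

lemma cseDivQ_surjective : Function.Surjective (cseDivQ S L) := by
  intro c
  obtain ⟨c, rfl⟩ := Submodule.mkQ_surjective _ c
  obtain ⟨⟨j, d⟩, rfl⟩ := Submodule.mkQ_surjective _ c
  refine ⟨d, ?_⟩
  show (LinearMap.range (csOfJ S L)).mkQ (csOfDiv S L d) = _
  rw [eq_comm, ← sub_eq_zero, ← map_sub, Submodule.mkQ_apply, Submodule.Quotient.mk_eq_zero]
  refine ⟨j, ?_⟩
  rw [csOfJ_apply, csOfDiv_apply, ← map_sub]
  congr 1
  simp

lemma cseDivQ_eq_zero_of_principal (x : Lˣ) :
    cseDivQ S L (divHom S L (Additive.ofMul x)) = 0 := by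
  show (LinearMap.range (csOfJ S L)).mkQ (csOfDiv S L _) = 0
  rw [Submodule.mkQ_apply, Submodule.Quotient.mk_eq_zero]
  refine ⟨-(Additive.ofMul (jlDiag S L x)), ?_⟩
  rw [csOfJ_apply, csOfDiv_apply, eq_comm, ← sub_eq_zero, ← map_sub, Submodule.mkQ_apply,
    Submodule.Quotient.mk_eq_zero]
  refine ⟨Additive.ofMul x, ?_⟩
  apply Prod.ext
  · show Additive.ofMul (jlDiag S L x) = 0 - -(Additive.ofMul (jlDiag S L x))
    simp
  · show divHom S L (Additive.ofMul x) = divHom S L (Additive.ofMul x) - 0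
    simp

/-- The class of a divisor away from `S`. -/
noncomputable def cseClass : Multiplicative (DivS S L) →* ClassGroup (𝓞 L) :=
  classHom L (fun P : OffS S L => P.1)

lemma cseDivQ_eq_of_class_eq (d d' : DivS S L)
    (h : cseClass S L (Multiplicative.ofAdd d) = cseClass S L (Multiplicative.ofAdd d')) :
    cseDivQ S L d = cseDivQ S L d' := by
  have hker : Multiplicative.ofAdd (d - d') ∈ (cseClass S L).ker := by
    rw [MonoidHom.mem_ker, ofAdd_sub, map_div, h, div_self']
  obtain ⟨x, hx, -⟩ := exists_ordAt_eq_of_mem_ker (K := L) (fun P : OffS S L => P.1)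
    Subtype.val_injective _ hker
  have h1 : divHom S L (Additive.ofMul x) = d - d' := by
    ext P
    rw [divHom_apply]
    exact hx P
  have h2 := cseDivQ_eq_zero_of_principal S L x
  rw [h1, map_sub, sub_eq_zero] at h2
  exact h2

lemma cse_finite : Finite (CS S L ⧸ LinearMap.range (csOfJ S L)) := by
  classical
  let g : ClassGroup (𝓞 L) → CS S L ⧸ LinearMap.range (csOfJ S L) := fun c =>
    if h : ∃ d : DivS S L, cseClass S L (Multiplicative.ofAdd d) = c then
      cseDivQ S L h.choose else 0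
  refine Finite.of_surjective g ?_
  intro q
  obtain ⟨d, rfl⟩ := cseDivQ_surjective S L q
  refine ⟨cseClass S L (Multiplicative.ofAdd d), ?_⟩
  have h : ∃ d' : DivS S L, cseClass S L (Multiplicative.ofAdd d') =
      cseClass S L (Multiplicative.ofAdd d) := ⟨d, rfl⟩
  show (if h : ∃ d' : DivS S L, cseClass S L (Multiplicative.ofAdd d') =
      cseClass S L (Multiplicative.ofAdd d) then cseDivQ S L h.choose else 0) = _
  rw [dif_pos h]
  exact cseDivQ_eq_of_class_eq S L _ _ h.choose_spec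

end Exact

/-- **CS-exact.** -/
theorem stmtCSExact : StmtCSExact := by
  intro S L _ _
  exact ⟨cse_ker_csOfJ S L, cse_finite S L⟩

end Fermat.Agent.PT.G


end ZBPT_007_10

/-! ### bundled: `Fermat.Agent.PT.B.UnitsS` -/
section ZBPT_007_11
/-
PT-B piece I-units (helper60): the `S`-units of the datum at level `L` are the `N`-units of the
type `L` (`N = ∏ S`).

`x ∈ Lˣ` is a unit at all valuation subrings `A` of `ℚ̄` over primes `q ∉ S` iff
`N^k x` and `N^k x⁻¹` are integral over `ℤ` for some `k`.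

(⇐) integral elements lie in every valuation subring, and `N` is a unit of `A` for `q ∤ N`.
(⇒) valuative criterion of integrality (Mathlib:
`Subring.exists_le_valuationSubring_of_isIntegrallyClosedIn`): take `a ∈ ℤ`, `a ≠ 0` with `a x`
integral and `k = |a|`; for a valuation subring `V` over `q ∈ S` write `|a| = q^e a''`,
`q ∤ a''`; then `v(N^k x) ≤ v(q)^k v(x) ≤ v(q)^e v(x) = v(a x) ≤ 1`.
-/

set_option autoImplicit false
set_option linter.style.haveILetI false
set_option linter.unusedSectionVars false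

namespace Fermat.Agent.PT.B

open Fermat.Agent.PT

section iunitsGeneral

variable {K : Type} [Field K]

/-- Integral elements lie in every valuation subring. -/
lemma iunits_mem_of_isIntegral (V : ValuationSubring K) {y : K} (hy : IsIntegral ℤ y) :
    y ∈ V := by
  have h1 : IsIntegral V y := hy.tower_top
  obtain ⟨z, hz⟩ := (IsIntegrallyClosed.isIntegral_iff (R := V) (K := K)).1 h1
  rw [← hz]
  exact z.2

/-- Valuative criterion of integrality over `ℤ`. -/
lemma iunits_isIntegral_of_forall_mem {y : K} (h : ∀ V : ValuationSubring K, y ∈ V) :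
    IsIntegral ℤ y := by
  by_contra hy
  have h1 : y ∉ (integralClosure ℤ K).toSubring := hy
  obtain ⟨V, -, hV⟩ := Subring.exists_le_valuationSubring_of_isIntegrallyClosedIn h1
  exact hV (h V)

lemma iunits_val_natCast_le (V : ValuationSubring K) (n : ℕ) : V.valuation (n : K) ≤ 1 :=
  (V.valuation_le_one_iff _).2 (natCast_mem V n)

lemma iunits_val_intCast_le (V : ValuationSubring K) (n : ℤ) : V.valuation (n : K) ≤ 1 :=
  (V.valuation_le_one_iff _).2 (intCast_mem V n)

/-- A natural number prime to the residue characteristic is a unit. -/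
lemma iunits_val_eq_one (V : ValuationSubring K) {q : ℕ} (hq : q.Prime)
    (hV : V.LiesOverPrime q) {m : ℕ} (hm : ¬ q ∣ m) : V.valuation (m : K) = 1 := by
  have hqv : V.valuation (q : K) < 1 := V.mem_nonunits_iff.1 hV
  refine le_antisymm (iunits_val_natCast_le V m) (not_lt.1 fun hlt => ?_)
  have hcop : IsCoprime (q : ℤ) (m : ℤ) :=
    Nat.isCoprime_iff_coprime.2 ((Nat.Prime.coprime_iff_not_dvd hq).2 hm)
  obtain ⟨a, b, hab⟩ := hcop
  have h1 : ((a : K) * (q : K) + (b : K) * (m : K)) = 1 := by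
    have := congrArg (fun t : ℤ => (t : K)) hab
    push_cast at this
    exact this
  have h2 : V.valuation ((a : K) * (q : K) + (b : K) * (m : K)) < 1 := by
    refine lt_of_le_of_lt (V.valuation.map_add _ _) (max_lt ?_ ?_)
    · rw [map_mul]
      exact lt_of_le_of_lt (mul_le_of_le_one_left' (iunits_val_intCast_le V a)) hqv
    · rw [map_mul]
      exact lt_of_le_of_lt (mul_le_of_le_one_left' (iunits_val_intCast_le V b)) hlt
  rw [h1, map_one] at h2
  exact lt_irrefl _ h2

/-- If no prime is a nonunit, every nonzero natural number is a unit. -/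
lemma iunits_val_eq_one_of_no_prime (V : ValuationSubring K)
    (hV : ∀ q : ℕ, q.Prime → ¬ V.LiesOverPrime q) (m : ℕ) (hm : m ≠ 0) :
    V.valuation (m : K) = 1 := by
  induction m using Nat.recOnMul with
  | zero => exact absurd rfl hm
  | one => simp
  | prime p hp =>
    refine le_antisymm (iunits_val_natCast_le V p) (not_lt.1 fun hlt => ?_)
    exact hV p hp (V.mem_nonunits_iff.2 hlt)
  | mul a b ha hb =>
    have ha0 : a ≠ 0 := fun h => hm (by rw [h, zero_mul])
    have hb0 : b ≠ 0 := fun h => hm (by rw [h, mul_zero])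
    rw [Nat.cast_mul, map_mul, ha ha0, hb hb0, mul_one]

lemma iunits_val_intCast (V : ValuationSubring K) (a : ℤ) :
    V.valuation (a : K) = V.valuation ((a.natAbs : ℕ) : K) := by
  obtain ⟨n, rfl | rfl⟩ := Int.eq_nat_or_neg a
  · simp
  · simp [Valuation.map_neg]

end iunitsGeneral

section iunitsMain

variable (S : Finset Nat.Primes)

lemma iunits_sProd_eq (q : Nat.Primes) (hq : q ∈ S) :
    G.sProd S = (q : ℕ) * ∏ q' ∈ S.erase q, (q' : ℕ) := by
  rw [G.sProd, Finset.mul_prod_erase S (fun q' : Nat.Primes => (q' : ℕ)) hq]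

lemma iunits_not_dvd_sProd (q : Nat.Primes) (hq : q ∉ S) : ¬ (q : ℕ) ∣ G.sProd S := by
  intro h
  rw [G.sProd, Prime.dvd_finsetProd_iff (Nat.prime_iff.1 q.2)] at h
  obtain ⟨q', hq', hdvd⟩ := h
  have : (q : ℕ) = (q' : ℕ) := (Nat.prime_dvd_prime_iff_eq q.2 q'.2).1 hdvd
  exact hq ((Subtype.ext this : q = q') ▸ hq')

variable {K : Type} [Field K]

/-- (⇒) for one element. -/
lemma iunits_forward [Algebra ℚ K] [Algebra.IsAlgebraic ℚ K] (x : Kˣ)
    (hx : ∀ q : Nat.Primes, q ∉ S → ∀ A : ValuationSubring K,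
      A.LiesOverPrime (q : ℕ) → x ∈ A.unitGroup) :
    ∃ k : ℕ, IsIntegral ℤ (((G.sProd S : ℕ) : K) ^ k * (x : K)) := by
  have hxalg : IsAlgebraic ℤ (x : K) :=
    (IsFractionRing.isAlgebraic_iff ℤ ℚ K).2 (Algebra.IsAlgebraic.isAlgebraic (x : K))
  obtain ⟨a, ha0, ha⟩ := hxalg.exists_integral_multiple
  rw [zsmul_eq_mul] at ha
  have hk0 : a.natAbs ≠ 0 := Int.natAbs_ne_zero.2 ha0
  refine ⟨a.natAbs, iunits_isIntegral_of_forall_mem fun V => ?_⟩
  rw [← V.valuation_le_one_iff, map_mul, map_pow]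
  have hax : V.valuation (a : K) * V.valuation (x : K) ≤ 1 := by
    rw [← map_mul, V.valuation_le_one_iff]
    exact iunits_mem_of_isIntegral V ha
  have hN1 : V.valuation ((G.sProd S : ℕ) : K) ≤ 1 := iunits_val_natCast_le V _
  by_cases hex : ∃ q : ℕ, q.Prime ∧ V.LiesOverPrime q
  · obtain ⟨q, hq, hV⟩ := hex
    by_cases hqS : (⟨q, hq⟩ : Nat.Primes) ∈ S
    · -- `q ∈ S`
      obtain ⟨e, a'', ha'', hea⟩ := Nat.exists_eq_pow_mul_and_not_dvd hk0 q hq.ne_one
      have hva'' : V.valuation (a'' : K) = 1 := iunits_val_eq_one V hq hV ha''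
      have hva : V.valuation (a : K) = V.valuation (q : K) ^ e := by
        rw [iunits_val_intCast, hea, Nat.cast_mul, Nat.cast_pow, map_mul, map_pow, hva'',
          mul_one]
      have hqv : V.valuation (q : K) ≤ 1 := iunits_val_natCast_le V q
      have hNq : V.valuation ((G.sProd S : ℕ) : K) ≤ V.valuation (q : K) := by
        rw [iunits_sProd_eq S ⟨q, hq⟩ hqS, Nat.cast_mul, map_mul]
        exact mul_le_of_le_one_right' (iunits_val_natCast_le V _)
      have hek : e ≤ a.natAbs := by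
        have h1 : e < q ^ e := Nat.lt_pow_self hq.one_lt
        have h2 : q ^ e ≤ a.natAbs := by
          rw [hea]
          apply Nat.le_mul_of_pos_right
          rcases Nat.eq_zero_or_pos a'' with h | h
          · exact absurd (h ▸ dvd_zero q) ha''
          · exact h
        omega
      calc V.valuation ((G.sProd S : ℕ) : K) ^ a.natAbs * V.valuation (x : K)
          ≤ V.valuation (q : K) ^ a.natAbs * V.valuation (x : K) :=
            mul_le_mul' (pow_le_pow_left' hNq _) le_rfl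
        _ ≤ V.valuation (q : K) ^ e * V.valuation (x : K) :=
            mul_le_mul' (pow_le_pow_right_of_le_one' hqv hek) le_rfl
        _ = V.valuation (a : K) * V.valuation (x : K) := by rw [hva]
        _ ≤ 1 := hax
    · -- `q ∉ S`
      have hxu : V.valuation (x : K) = 1 :=
        (V.mem_unitGroup_iff x).1 (hx ⟨q, hq⟩ hqS V hV)
      rw [hxu, mul_one]
      exact pow_le_one' hN1 _
  · -- no residue characteristic
    push Not at hex
    have hva : V.valuation (a : K) = 1 := by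
      rw [iunits_val_intCast]
      exact iunits_val_eq_one_of_no_prime V hex _ hk0
    rw [hva, one_mul] at hax
    calc V.valuation ((G.sProd S : ℕ) : K) ^ a.natAbs * V.valuation (x : K)
        ≤ 1 * 1 := mul_le_mul' (pow_le_one' hN1 _) hax
      _ = 1 := mul_one 1

/-- (⇐) for one element. -/
lemma iunits_backward (x : Kˣ) (k : ℕ)
    (h1 : IsIntegral ℤ (((G.sProd S : ℕ) : K) ^ k * (x : K)))
    (h2 : IsIntegral ℤ (((G.sProd S : ℕ) : K) ^ k * ((x⁻¹ : Kˣ) : K)))
    (q : Nat.Primes) (hq : q ∉ S) (A : ValuationSubring K) (hA : A.LiesOverPrime (q : ℕ)) :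
    x ∈ A.unitGroup := by
  have hN : A.valuation ((G.sProd S : ℕ) : K) = 1 :=
    iunits_val_eq_one A q.2 hA (iunits_not_dvd_sProd S q hq)
  have h1' := (A.valuation_le_one_iff _).2 (iunits_mem_of_isIntegral A h1)
  have h2' := (A.valuation_le_one_iff _).2 (iunits_mem_of_isIntegral A h2)
  rw [map_mul, map_pow, hN, one_pow, one_mul] at h1' h2'
  rw [A.mem_unitGroup_iff]
  refine le_antisymm h1' ?_
  have h3 : A.valuation (x : K) * A.valuation ((x⁻¹ : Kˣ) : K) = 1 := by
    rw [← map_mul, ← Units.val_mul, mul_inv_cancel, Units.val_one, map_one]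
  calc (1 : _) = A.valuation (x : K) * A.valuation ((x⁻¹ : Kˣ) : K) := h3.symm
    _ ≤ A.valuation (x : K) * 1 := mul_le_mul' le_rfl h2'
    _ = A.valuation (x : K) := mul_one _

end iunitsMain

section iunitsTransfer

variable {K' K : Type} [Field K'] [Field K]

/-- Integrality over `ℤ` is insensitive to field embeddings. -/
lemma iunits_isIntegral_map (f : K' →+* K) (y : K') : IsIntegral ℤ (f y) ↔ IsIntegral ℤ y :=
  isIntegral_algHom_iff f.toIntAlgHom f.injective

lemma iunits_isIntegral_natCast_pow (N j : ℕ) : IsIntegral ℤ ((N : K) ^ j) := by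
  have h : IsIntegral ℤ (algebraMap ℤ K (N : ℤ)) := isIntegral_algebraMap
  have h2 : algebraMap ℤ K (N : ℤ) = (N : K) := by simp
  rw [h2] at h
  exact h.pow j

lemma iunits_isIntegral_pow_add (N k1 k2 : ℕ) (y : K)
    (h : IsIntegral ℤ ((N : K) ^ k1 * y)) : IsIntegral ℤ ((N : K) ^ (k1 + k2) * y) := by
  have h2 := (iunits_isIntegral_natCast_pow (K := K) N k2).mul h
  have e : (N : K) ^ (k1 + k2) * y = (N : K) ^ k2 * ((N : K) ^ k1 * y) := by ring
  rw [e]
  exact h2

end iunitsTransfer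

/-- **I-units**: the `S`-units of the datum at level `L` are the `N`-units of the type `L`. -/
theorem stmtUnitsS : StmtUnitsS := by
  intro S L hL x
  haveI : Algebra.IsAlgebraic ℚ (AlgebraicClosure ℚ) := AlgebraicClosure.isAlgebraic ℚ
  have hcast : ∀ (k : ℕ) (y : ↥L),
      @IsIntegral ℤ (AlgebraicClosure ℚ) _ _ (Ring.toIntAlgebra _)
        (((G.sProd S : ℕ) : AlgebraicClosure ℚ) ^ k * (y : AlgebraicClosure ℚ)) ↔
      @IsIntegral ℤ (↥L) _ _ (Ring.toIntAlgebra _) (((G.sProd S : ℕ) : ↥L) ^ k * y) := by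
    intro k y
    rw [← iunits_isIntegral_map ((L.val : ↥L →ₐ[ℚ] AlgebraicClosure ℚ) : ↥L →+* AlgebraicClosure ℚ)]
    simp only [map_mul, map_pow, map_natCast]
    rfl
  constructor
  · rintro ⟨-, hu⟩
    obtain ⟨k1, hk1⟩ := iunits_forward S (Units.map (L.val : ↥L →* AlgebraicClosure ℚ) x) hu
    obtain ⟨k2, hk2⟩ := iunits_forward S (Units.map (L.val : ↥L →* AlgebraicClosure ℚ) x⁻¹)
      (fun q hq A hA => by
        rw [map_inv]
        exact inv_mem (hu q hq A hA))
    refine ⟨k1 + k2, ?_, ?_⟩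
    · exact (hcast _ _).1 (iunits_isIntegral_pow_add _ k1 k2 _ hk1)
    · refine (hcast _ _).1 ?_
      rw [add_comm]
      exact iunits_isIntegral_pow_add _ k2 k1 _ hk2
  · rintro ⟨k, h1, h2⟩
    refine ⟨⟨L, hL, x.1.2⟩, fun q hq A hA => ?_⟩
    refine iunits_backward S _ k ?_ ?_ q hq A hA
    · exact (hcast k x).2 h1
    · have := (hcast k ((x⁻¹ : (↥L)ˣ) : ↥L)).2 h2
      rw [← map_inv]
      exact this

end Fermat.Agent.PT.B


end ZBPT_007_11
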