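/- GENERATED FILE (helper35, build-time optimisation, NOTES/ZB.md): verbatim concatenation of the modules
   Fermat.Agent.PT.G2.Plan
   Fermat.Agent.PT.G2.IdelicPlan
   Fermat.Agent.PT.G.Plan2
   Do not edit; do not import together with these modules. -/
import Mathlib
import Fermat.Agent.ZB.PT_007

/-! ### bundled: `Fermat.Agent.PT.G2.Plan` -/
section ZBPT_008_0

/-!
# Project PT, piece G2: the second inequality of class field theory (analytic proof)

Interface file: definitions and statements only.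

For a number field `K`, a nonzero ideal `𝔪` of `𝓞 K` and a commutative group `A`, a *ray datum*
is a map `c` from the ideals of `𝓞 K` to `A` which is multiplicative on the nonzero ideals coprime
to `𝔪`, trivial on the principal ideals `(α)` with `α ≡ 1 mod 𝔪`, and onto (on the nonzero ideals
coprime to `𝔪`).  So `A` is a quotient of the ray class group modulo `𝔪` (no conditions at the
real places: in the application `K ⊇ μ_p`, `p` odd, is totally complex).

**Second inequality** (`SecondInequalityStatement`): if `L / K` is a finite extension and `c`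
kills every prime `v ∤ 𝔪` of `K` that has a prime of `L` of residue degree one above it (such `v`
are norms of ideals of `L`), then `A` is finite and `#A ≤ [L : K]`.

Proof (Dirichlet–Weber–Hecke), all `s ∈ (1, 2]`:
* `RayLBoundedStatement`: for `χ ≠ 1` the series `L(s, χ ∘ c) = ∑_{(I, 𝔪) = 1} χ (c I) N(I)^(-s)`
  is bounded;
* `RayEulerStatement`: `(∏_{v ∈ T} (1 - N v^(-s))⁻¹)^(#A) ≤ C ∏_χ ‖L(s, χ ∘ c)‖` for every finite set
  `T` of primes `v ∤ 𝔪` with `c v = 1`;
* `SplitDensityStatement`: there are such finite sets `T` (primes with a prime of degree one of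
  `L` above) with `c₁ / (s - 1) ≤ (∏_{v ∈ T} (1 - N v^(-s))⁻¹)^[L : K]`;
* `‖L(s, 1 ∘ c)‖ ≤ ζ_K(s) ≤ C / (s - 1)`.
Hence `(s - 1)^([L:K] - #A)` is bounded below by a positive constant on `(1, 2]`: `#A ≤ [L : K]`.
-/

set_option autoImplicit false

open NumberField IsDedekindDomain
open scoped nonZeroDivisors

namespace Fermat.Agent.PT.G2

/-- A ray datum modulo `𝔪` with values in `A`. Only the values of `c` on the nonzero ideals
coprime to `𝔪` matter. -/
structure IsRayDatum (K : Type) [Field K] [NumberField K] (𝔪 : Ideal (𝓞 K))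
    {A : Type} [CommGroup A] (c : Ideal (𝓞 K) → A) : Prop where
  map_mul : ∀ I J : Ideal (𝓞 K), I ≠ ⊥ → J ≠ ⊥ → IsCoprime I 𝔪 → IsCoprime J 𝔪 →
    c (I * J) = c I * c J
  map_principal : ∀ α : 𝓞 K, α ≠ 0 → α - 1 ∈ 𝔪 → c (Ideal.span {α}) = 1
  surj : ∀ a : A, ∃ I : Ideal (𝓞 K), I ≠ ⊥ ∧ IsCoprime I 𝔪 ∧ c I = a

/-- The set of nonzero ideals coprime to `𝔪`. -/
def coprimeTo {K : Type} [Field K] [NumberField K] (𝔪 : Ideal (𝓞 K)) : Set (Ideal (𝓞 K))⁰ :=
  {I | IsCoprime (I : Ideal (𝓞 K)) 𝔪}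

/-- The term `χ (c I) N(I)^(-s)` of the ray class `L`-series, `0` if `I` is not coprime to
`𝔪`. -/
noncomputable def rayTerm {K : Type} [Field K] [NumberField K] (𝔪 : Ideal (𝓞 K))
    {A : Type} [CommGroup A] (c : Ideal (𝓞 K) → A) (χ : A →* ℂˣ) (s : ℝ)
    (I : (Ideal (𝓞 K))⁰) : ℂ :=
  (coprimeTo 𝔪).indicator
    (fun I : (Ideal (𝓞 K))⁰ => ((χ (c (I : Ideal (𝓞 K))) : ℂˣ) : ℂ) *
      ((Ideal.absNorm (I : Ideal (𝓞 K)) : ℝ) ^ (-s) : ℝ)) I

/-- The ray class `L`-series `L(s, χ ∘ c)` for real `s`. -/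
noncomputable def rayL {K : Type} [Field K] [NumberField K] (𝔪 : Ideal (𝓞 K))
    {A : Type} [CommGroup A] (c : Ideal (𝓞 K) → A) (χ : A →* ℂˣ) (s : ℝ) : ℂ :=
  ∑' I : (Ideal (𝓞 K))⁰, rayTerm 𝔪 c χ s I

/-- `v` is a prime of `K`, coprime to `𝔪`, with a prime of `L` of residue degree one above it. -/
def IsSplitPrime (K L : Type) [Field K] [NumberField K] [Field L] [NumberField L] [Algebra K L]
    (𝔪 : Ideal (𝓞 K)) (v : HeightOneSpectrum (𝓞 K)) : Prop :=
  IsCoprime v.asIdeal 𝔪 ∧ ∃ w : HeightOneSpectrum (𝓞 L),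
    Ideal.comap (algebraMap (𝓞 K) (𝓞 L)) w.asIdeal = v.asIdeal ∧
      Ideal.absNorm w.asIdeal = Ideal.absNorm v.asIdeal

/-- **G2-F**: the target group of a ray datum is finite. -/
def RayFiniteStatement : Prop :=
  ∀ (K : Type) [Field K] [NumberField K] (𝔪 : Ideal (𝓞 K)), 𝔪 ≠ ⊥ →
    ∀ (A : Type) [CommGroup A] (c : Ideal (𝓞 K) → A), IsRayDatum K 𝔪 c → Finite A

/-- **G2-L**: the `L`-series of a nontrivial ray class character is bounded on `(1, 2]`. -/
def RayLBoundedStatement : Prop :=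
  ∀ (K : Type) [Field K] [NumberField K] (𝔪 : Ideal (𝓞 K)), 𝔪 ≠ ⊥ →
    ∀ (A : Type) [CommGroup A] [Finite A] (c : Ideal (𝓞 K) → A), IsRayDatum K 𝔪 c →
      ∀ χ : A →* ℂˣ, χ ≠ 1 →
        ∃ C : ℝ, ∀ s : ℝ, 1 < s → s ≤ 2 → ‖rayL 𝔪 c χ s‖ ≤ C

/-- **G2-E**: the product of all `‖L(s, χ ∘ c)‖` dominates (up to a constant) the `#A`-th power
of the partial Euler product of the zeta function over any finite set of primes killed by `c`.
(The inequality holds with `C = 1`; any constant is enough.) -/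
def RayEulerStatement : Prop :=
  ∀ (K : Type) [Field K] [NumberField K] (𝔪 : Ideal (𝓞 K)), 𝔪 ≠ ⊥ →
    ∀ (A : Type) [CommGroup A] [Finite A] (c : Ideal (𝓞 K) → A), IsRayDatum K 𝔪 c →
      ∃ C : ℝ, 0 < C ∧ ∀ s : ℝ, 1 < s → s ≤ 2 → ∀ T : Finset (HeightOneSpectrum (𝓞 K)),
        (∀ v ∈ T, IsCoprime v.asIdeal 𝔪 ∧ c v.asIdeal = 1) →
          (∏ v ∈ T, (1 - (Ideal.absNorm v.asIdeal : ℝ) ^ (-s))⁻¹) ^ (Nat.card A) ≤
            C * ∏ᶠ χ : A →* ℂˣ, ‖rayL 𝔪 c χ s‖

/-- **G2-D**: the primes of `K` with a prime of degree one of `L` above have "density at least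
`1 / [L : K]`", in product form. -/
def SplitDensityStatement : Prop :=
  ∀ (K L : Type) [Field K] [NumberField K] [Field L] [NumberField L] [Algebra K L]
    (𝔪 : Ideal (𝓞 K)), 𝔪 ≠ ⊥ →
    ∃ c₁ : ℝ, 0 < c₁ ∧ ∀ s : ℝ, 1 < s → s ≤ 2 →
      ∃ T : Finset (HeightOneSpectrum (𝓞 K)), (∀ v ∈ T, IsSplitPrime K L 𝔪 v) ∧
        c₁ / (s - 1) ≤
          (∏ v ∈ T, (1 - (Ideal.absNorm v.asIdeal : ℝ) ^ (-s))⁻¹) ^ (Module.finrank K L)

/-- **G2** (second inequality, ideal-theoretic form). -/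
def SecondInequalityStatement : Prop :=
  ∀ (K L : Type) [Field K] [NumberField K] [Field L] [NumberField L] [Algebra K L]
    (𝔪 : Ideal (𝓞 K)), 𝔪 ≠ ⊥ →
    ∀ (A : Type) [CommGroup A] (c : Ideal (𝓞 K) → A), IsRayDatum K 𝔪 c →
      (∀ v : HeightOneSpectrum (𝓞 K), IsSplitPrime K L 𝔪 v → c v.asIdeal = 1) →
        Finite A ∧ Nat.card A ≤ Module.finrank K L

/-- **G2'** (second inequality, norm form): the same for a ray datum that kills the relative
norms of the primes of `L`. -/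
def SecondInequalityNormStatement : Prop :=
  ∀ (K L : Type) [Field K] [NumberField K] [Field L] [NumberField L] [Algebra K L]
    (𝔪 : Ideal (𝓞 K)), 𝔪 ≠ ⊥ →
    ∀ (A : Type) [CommGroup A] (c : Ideal (𝓞 K) → A), IsRayDatum K 𝔪 c →
      (∀ w : HeightOneSpectrum (𝓞 L),
        IsCoprime (Ideal.comap (algebraMap (𝓞 K) (𝓞 L)) w.asIdeal) 𝔪 →
          c (Ideal.relNorm (𝓞 K) w.asIdeal) = 1) →
        Finite A ∧ Nat.card A ≤ Module.finrank K L

end Fermat.Agent.PT.G2


end ZBPT_008_0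

/-! ### bundled: `Fermat.Agent.PT.G2.IdelicPlan` -/
section ZBPT_008_1
/-
PT-G2, part 2 ("G2-idelic", sub-captain helper75): from the ideal-theoretic second inequality
(`PT/G2/Final.lean`) to the idèle-class form `[C_S(F) : N C_S(M)] ≤ [M : F]`, in the TENSOR MODEL
(`A_q(K) = ℚ_q ⊗_ℚ K`, `J_K = ∏_{q ∈ S} A_q(K)ˣ`, `C_S(K) = (J_K × Div_S(K)) / Kˣ`, `PT/G/Defs.lean`).

INTERFACE FILE: definitions and statements only.  Piece table: NOTES/PT-G2.md (part 2).
-/

set_option autoImplicit false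

namespace Fermat.Agent.PT.G2

open NumberField TensorProduct IsDedekindDomain
open Fermat.Agent.PT.G1 Fermat.Agent.PT.G

/-- The integral elements `R_q = ℤ_q ⊗ 𝓞_K` of `A_q(K) = ℚ_q ⊗ K`: the additive subgroup generated
by the pure tensors `z ⊗ x`, `z ∈ ℤ_q`, `x ∈ 𝓞 K`.  (It is a subring and a free `ℤ_q`-module with
basis `1 ⊗ b_i`, `b_i` an integral basis of `K`.) -/
noncomputable def semiInt (q : ℕ) [Fact q.Prime] (K : Type) [Field K] [NumberField K] :
    AddSubgroup (semiAlg q K) :=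
  AddSubgroup.closure {t | ∃ (z : ℤ_[q]) (x : 𝓞 K), t = (z : ℚ_[q]) ⊗ₜ[ℚ] (x : K)}

/-- `a ≡ b` modulo `q ^ n R_q`. -/
def SemiCong (q : ℕ) [Fact q.Prime] (K : Type) [Field K] [NumberField K] (n : ℕ)
    (a b : semiAlg q K) : Prop :=
  ∃ r ∈ semiInt q K, a - b = (q : semiAlg q K) ^ n * r

/-- **G2I-Q** (weak approximation for `ℚ`): finitely many `q`-adic numbers `z_q` (`q ∈ S`) are
simultaneously approximated by one rational number `t`: `t - z_q ∈ q^n ℤ_q`. -/
def StmtWeakApproxQ : Prop :=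
  ∀ (S : Finset Nat.Primes) (z : ∀ q : ↥S, ℚ_[((q : Nat.Primes) : ℕ)]) (n : ℕ),
    ∃ t : ℚ, ∀ q : ↥S, ∃ u : ℤ_[((q : Nat.Primes) : ℕ)],
      (t : ℚ_[((q : Nat.Primes) : ℕ)]) - z q =
        (((q : Nat.Primes) : ℕ) : ℚ_[((q : Nat.Primes) : ℕ)]) ^ n * u

/-- **G2I-W** (weak approximation in the tensor model): `K` is dense in `∏_{q ∈ S} ℚ_q ⊗ K`. -/
def StmtWeakApprox : Prop :=
  ∀ (K : Type) [Field K] [NumberField K] (S : Finset Nat.Primes)
    (a : ∀ q : ↥S, semiAlg ((q : Nat.Primes) : ℕ) K) (n : ℕ),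
    ∃ α : K, ∀ q : ↥S,
      SemiCong ((q : Nat.Primes) : ℕ) K n ((1 : ℚ_[((q : Nat.Primes) : ℕ)]) ⊗ₜ[ℚ] α) (a q)

/-- **G2I-R** (the integral elements): `R_q` contains `1`, is closed under multiplication, and
every element of `A_q(K)` is `q^{-m}` times an element of `R_q`. -/
def StmtSemiInt : Prop :=
  ∀ (q : ℕ) [Fact q.Prime] (K : Type) [Field K] [NumberField K],
    (1 : semiAlg q K) ∈ semiInt q K ∧
    (∀ a ∈ semiInt q K, ∀ b ∈ semiInt q K, a * b ∈ semiInt q K) ∧
    (∀ a : semiAlg q K, ∃ m : ℕ, (q : semiAlg q K) ^ m * a ∈ semiInt q K)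

/-- **G2I-P** (local `d`-th powers, "openness of the norm groups"): for every `d ≥ 1` the elements
of `A_q(K)ˣ` which are `≡ 1 mod q^n R_q` are `d`-th powers, for `n` large (`n > 2 v_q(d)`). -/
def StmtLocalPow : Prop :=
  ∀ (d : ℕ), 0 < d → ∀ (q : ℕ) [Fact q.Prime] (K : Type) [Field K] [NumberField K],
    ∃ n : ℕ, ∀ j : (semiAlg q K)ˣ, SemiCong q K n (j : semiAlg q K) 1 →
      ∃ y : (semiAlg q K)ˣ, y ^ d = j

/-- **G2I-core** (the second inequality for an idèle-class quotient): let `A` be a commutative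
group with maps `φJ : J_K → A` and `φD : {ideals of 𝓞 K} → A` such that
* `φD` is multiplicative and kills the primes over `S`;
* (principal idèles) `φJ (α) · φD ((α)) = 1` for `0 ≠ α ∈ 𝓞 K`;
* (conductor) `φJ` kills the `j ≡ 1 mod q^n R_q` (all `q ∈ S`);
* (norms) `φD` kills the primes `v` not over `S` with a prime of degree one of `L` above;
* `A` is generated by the images of `φJ` and `φD`.
Then `A` is finite of order `≤ [L : K]`. -/
def StmtIdelicCore : Prop :=
  ∀ (K L : Type) [Field K] [NumberField K] [Field L] [NumberField L] [Algebra K L]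
    (S : Finset Nat.Primes) (A : Type) [CommGroup A]
    (φJ : JL S K →* A) (φD : Ideal (𝓞 K) → A) (n : ℕ),
    (∀ I J : Ideal (𝓞 K), I ≠ ⊥ → J ≠ ⊥ → φD (I * J) = φD I * φD J) →
    (∀ P : Ideal (𝓞 K), P.IsPrime → ∀ q ∈ S, (((q : Nat.Primes) : ℕ) : 𝓞 K) ∈ P → φD P = 1) →
    (∀ α : 𝓞 K, ∀ hα : (α : K) ≠ 0, φJ (jlDiag S K (Units.mk0 (α : K) hα)) * φD (Ideal.span {α}) = 1) →
    (∀ j : JL S K, (∀ q : ↥S, SemiCong ((q : Nat.Primes) : ℕ) K n (j q : semiAlg _ K) 1) →
      φJ j = 1) →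
    (∀ v : HeightOneSpectrum (𝓞 K), (∀ q ∈ S, (((q : Nat.Primes) : ℕ) : 𝓞 K) ∉ v.asIdeal) →
      (∃ w : HeightOneSpectrum (𝓞 L),
        Ideal.comap (algebraMap (𝓞 K) (𝓞 L)) w.asIdeal = v.asIdeal ∧
          Ideal.absNorm w.asIdeal = Ideal.absNorm v.asIdeal) → φD v.asIdeal = 1) →
    (∀ a : A, ∃ (j : JL S K) (I I' : Ideal (𝓞 K)), I ≠ ⊥ ∧ I' ≠ ⊥ ∧ a * φD I' = φJ j * φD I) →
    Finite A ∧ Nat.card A ≤ Module.finrank K L

/-- **G2-idelic** (THE DELIVERABLE): let `M / F` be a finite extension of number fields and `B` a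
subgroup of `C_S(F)` containing `d • (image of J_F)` for some `d ≥ 1` and the classes of the
primes `v` of `F` not over `S` which have a prime of degree one of `M` above them.  Then
`[C_S(F) : B] ≤ [M : F]`.
(For `B = N_{M/F} C_S(M)`: `d = [M : F]`, as `N (csMap y) = [M : F] • y`, and
`N (w) = f(w/v) • v`.) -/
def StmtIdelicSecond : Prop :=
  ∀ (F M : Type) [Field F] [NumberField F] [Field M] [NumberField M] [Algebra F M]
    (S : Finset Nat.Primes) (B : Submodule ℤ (CS S F)) (d : ℕ), 0 < d →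
    (∀ y : Additive (JL S F), d • csOfJ S F y ∈ B) →
    (∀ v : OffS S F,
      (∃ w : HeightOneSpectrum (𝓞 M),
        Ideal.comap (algebraMap (𝓞 F) (𝓞 M)) w.asIdeal = v.1.asIdeal ∧
          Ideal.absNorm w.asIdeal = Ideal.absNorm v.1.asIdeal) →
      csOfDiv S F (Finsupp.single v 1) ∈ B) →
    Finite (CS S F ⧸ B) ∧ Nat.card (CS S F ⧸ B) ≤ Module.finrank F M

end Fermat.Agent.PT.G2


end ZBPT_008_1

/-! ### bundled: `Fermat.Agent.PT.G.Plan2` -/
section ZBPT_008_2
/-
Project PT — shared model, statements part 2: Galois descent for `C_S(·)` and the glue from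
PT-G2's idelic second inequality (`StmtIdelicSecond`) to `StmtCSH0`.
Definitions and statements only.  Piece table: NOTES/PT-G.md.
-/

set_option autoImplicit false

namespace Fermat.Agent.PT.G

open NumberField IsDedekindDomain Fermat.Agent.PT.G1

/-- `L / K` is unramified outside `S`: `e(P | P ∩ K) = 1` for every prime `P` of `L` off `S`. -/
def UnramOffRel (S : Finset Nat.Primes) (K L : Type) [Field K] [NumberField K] [Field L]
    [NumberField L] [Algebra K L] : Prop :=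
  ∀ P : OffS S L, ramIdx K P.1 = 1

/-- **D-inj**: `C_S(K) → C_S(L)` is injective (`S ≠ ∅`). -/
def StmtCSMapInj : Prop :=
  ∀ (S : Finset Nat.Primes) (K L : Type) [Field K] [NumberField K] [Field L] [NumberField L]
    [Algebra K L], S.Nonempty → Function.Injective (csMap S K L)

/-- **D-semi**: the invariants of `Gal(L/K)` in `(ℚ_q ⊗ L)ˣ` are the image of `(ℚ_q ⊗ K)ˣ`. -/
def StmtSemiInv : Prop :=
  ∀ (q : ℕ) [Fact q.Prime] (K L : Type) [Field K] [NumberField K] [Field L] [NumberField L]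
    [Algebra K L] [IsGalois K L] (a : (semiAlg q L)ˣ),
    (∀ σ : L ≃ₐ[ℚ] L, (∀ x : K, σ (algebraMap K L x) = algebraMap K L x) →
      semiMap q σ (a : semiAlg q L) = a) →
    ∃ b : (semiAlg q K)ˣ, semiIncl K L q (b : semiAlg q K) = a

/-- **D-div**: if `L / K` is Galois and unramified outside `S`, the invariants of `Gal(L/K)` in
`Div_S(L)` are the image of `Div_S(K)`. -/
def StmtDivInv : Prop :=
  ∀ (S : Finset Nat.Primes) (K L : Type) [Field K] [NumberField K] [Field L] [NumberField L]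
    [Algebra K L] [IsGalois K L], UnramOffRel S K L → ∀ d : DivS S L,
    (∀ σ : L ≃ₐ[ℚ] L, (∀ x : K, σ (algebraMap K L x) = algebraMap K L x) → divEnd S σ d = d) →
    ∃ d₀ : DivS S K, divMap S K L d₀ = d

/-- **C-descent**: if `L / K` is Galois and unramified outside `S ≠ ∅`, the invariants of
`Gal(L/K)` in `C_S(L)` are the image of `C_S(K)`. -/
def StmtCSDescent : Prop :=
  ∀ (S : Finset Nat.Primes) (K L : Type) [Field K] [NumberField K] [Field L] [NumberField L]
    [Algebra K L] [IsGalois K L], S.Nonempty → UnramOffRel S K L → ∀ c : CS S L,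
    (∀ σ : L ≃ₐ[ℚ] L, (∀ x : K, σ (algebraMap K L x) = algebraMap K L x) → csEnd S σ c = c) →
    ∃ c₀ : CS S K, csMap S K L c₀ = c

/-- **D-unram**: for `L / K` cyclic of prime degree `p` with generator `σ`, `UnramOff S σ`
(`σ` in no inertia group off `S`) implies `UnramOffRel S K L`. -/
def StmtUnramOff : Prop :=
  ∀ (p : ℕ) [Fact p.Prime] (S : Finset Nat.Primes) (K L : Type) [Field K] [NumberField K]
    [Field L] [NumberField L] [Algebra K L] [IsGalois K L] (σ : L ≃ₐ[ℚ] L),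
    (∀ x : K, σ (algebraMap K L x) = algebraMap K L x) → Module.finrank K L = p →
    orderOf σ = p → UnramOff S σ → UnramOffRel S K L

/-- **D-split**: for `L / K` cyclic of prime degree `p` with generator `σ`, unramified outside
`S`, and a prime `v` of `K` off `S` with a prime `w` of degree one above it:
`Σ_{i<p} σ^i [w] = [v]` in `Div_S(L)` (`v` splits completely). -/
def StmtSplitNorm : Prop :=
  ∀ (p : ℕ) [Fact p.Prime] (S : Finset Nat.Primes) (K L : Type) [Field K] [NumberField K]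
    [Field L] [NumberField L] [Algebra K L] [IsGalois K L] (σ : L ≃ₐ[ℚ] L),
    (∀ x : K, σ (algebraMap K L x) = algebraMap K L x) → Module.finrank K L = p →
    orderOf σ = p → UnramOffRel S K L → ∀ (v : OffS S K) (w : OffS S L),
    offUnder S K w = v → Ideal.absNorm w.1.asIdeal = Ideal.absNorm v.1.asIdeal →
    divMap S K L (Finsupp.single v 1) =
      ∑ i ∈ Finset.range p, divEnd S (σ ^ i) (Finsupp.single w 1)

end Fermat.Agent.PT.G


end ZBPT_008_2
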