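/- GENERATED FILE (helper35, build-time optimisation, NOTES/ZB.md): verbatim concatenation of the modules
   Fermat.Agent.PT.G3.Symbol
   Fermat.Agent.PT.G3.Plan2
   Fermat.Agent.PT.B.Plan4
   Fermat.Agent.PT.B.Theta
   Fermat.Agent.PT.B.Compare1
   Fermat.Agent.PT.B.Instance
   Do not edit; do not import together with these modules. -/
import Mathlib
import Fermat.Agent.ZB.PT_008
import Fermat.Agent.ZB.PT_007
import Fermat.Agent.ZB.PT_002
import Fermat.Agent.ZB.PT_003

/-! ### bundled: `Fermat.Agent.PT.G3.Symbol` -/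
section ZBPT_009_0

/-!
# Project PT, piece G3-S1: the explicit norm symbol

For a number field `K`, a prime `p` and `n : ℕ`, the *norm symbol* of an ideal `I` of `𝓞 K` prime
to `p` is `ψ_K(I) = (N I)^(p-1) mod p^(n+1)`, a unit of `ZMod (p^(n+1))`.  It plays the role of the
Artin symbol of `K·ℚ_n / K` (`ℚ_n` the `n`-th layer of the cyclotomic `ℤ_p`-extension):

* `normSymbol_mul` : multiplicative on ideals prime to `p`;
* `normSymbol_span_singleton` (reciprocity): `ψ_K((α)) = 1` if `α ≡ 1 mod p^(n+1)` (`p` odd);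
* `normSymbol_relNorm`, `normSymbol_map` : `ψ_K(N_{L/K} J) = ψ_L(J)`, `ψ_L(I·𝓞_L) = ψ_K(I)^[L:K]`.
-/

set_option autoImplicit false

open NumberField

namespace Fermat.Agent.PT.G3

section Coprime

variable {K : Type*} [Field K] [NumberField K]

/-- If `(m)` is the unit ideal of `𝓞 K` then `m = 1`. -/
theorem eq_one_of_span_natCast_eq_top (m : ℕ) (h : Ideal.span {(m : 𝓞 K)} = ⊤) : m = 1 := by
  have h1 : Ideal.absNorm (Ideal.span {(m : 𝓞 K)}) = 1 := by rw [h]; simp
  rw [Ideal.absNorm_span_singleton] at h1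
  have h2 : Algebra.norm ℤ ((m : ℕ) : 𝓞 K) = (m : ℤ) ^ Module.finrank ℤ (𝓞 K) := by
    have := Algebra.norm_algebraMap (R := ℤ) (S := 𝓞 K) (m : ℤ)
    simpa using this
  rw [h2, Int.natAbs_pow, Int.natAbs_natCast] at h1
  have hpos : 0 < Module.finrank ℤ (𝓞 K) := Module.finrank_pos
  exact (Nat.pow_eq_one.mp h1).resolve_right hpos.ne'

/-- An ideal coprime to `(m)` has absolute norm prime to `m`. -/
theorem absNorm_coprime_of_isCoprime (m : ℕ) (I : Ideal (𝓞 K))
    (h : IsCoprime I (Ideal.span {(m : 𝓞 K)})) : (Ideal.absNorm I).Coprime m := by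
  classical
  by_cases hI0 : I = ⊥
  · subst hI0
    rw [Ideal.isCoprime_iff_sup_eq, bot_sup_eq] at h
    rw [eq_one_of_span_natCast_eq_top m h]
    exact Nat.coprime_one_right _
  by_contra hcop
  obtain ⟨ℓ, hℓ, hℓN, hℓm⟩ := Nat.Prime.not_coprime_iff_dvd.mp hcop
  have hfact : Fact ℓ.Prime := ⟨hℓ⟩
  have hfin : Finite (𝓞 K ⧸ I) := Ideal.finiteQuotientOfFreeOfNeBot I hI0
  have hcard : Nat.card (𝓞 K ⧸ I) = Ideal.absNorm I := rfl
  obtain ⟨x, hx⟩ := exists_prime_addOrderOf_dvd_card' (G := 𝓞 K ⧸ I) ℓ (by rw [hcard]; exact hℓN)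
  -- `m` is invertible modulo `I`
  rw [Ideal.isCoprime_iff_exists] at h
  obtain ⟨i, hi, j, hj, hij⟩ := h
  obtain ⟨b, rfl⟩ := Ideal.mem_span_singleton'.mp hj
  obtain ⟨c, rfl⟩ := hℓm
  have hx0 : (ℓ : ℕ) • x = 0 := by
    rw [← hx]; exact addOrderOf_nsmul_eq_zero x
  have h1 : (Ideal.Quotient.mk I (b * ((ℓ * c : ℕ) : 𝓞 K))) = 1 := by
    rw [← map_one (Ideal.Quotient.mk I), ← hij, map_add, Ideal.Quotient.eq_zero_iff_mem.mpr hi,
      zero_add]
  have h2 : x = 0 := by
    calc x = (Ideal.Quotient.mk I (b * ((ℓ * c : ℕ) : 𝓞 K))) * x := by rw [h1, one_mul]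
      _ = (Ideal.Quotient.mk I (b * (c : 𝓞 K))) * ((ℓ : ℕ) • x) := by
          rw [nsmul_eq_mul, ← mul_assoc]
          congr 1
          have : ((ℓ : ℕ) : 𝓞 K ⧸ I) = Ideal.Quotient.mk I ((ℓ : ℕ) : 𝓞 K) := by simp
          rw [this, ← map_mul]
          congr 1
          push_cast; ring
      _ = 0 := by rw [hx0, mul_zero]
  have h3 : addOrderOf x = 1 := by rw [h2]; exact addOrderOf_zero
  rw [h3] at hx
  exact hℓ.one_lt.ne hx

end Coprime

section PrimitiveRoot

variable {K : Type*} [Field K] [NumberField K]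

/-- In a number field containing a primitive `m`-th root of unity, a prime ideal not containing
`m` has norm `≡ 1 mod m`. -/
theorem absNorm_prime_eq_one_of_primitiveRoot {m : ℕ} (hm : m ≠ 0) {ζ : 𝓞 K}
    (hζ : IsPrimitiveRoot ζ m) (Q : Ideal (𝓞 K)) [hQ : Q.IsMaximal] (hmQ : (m : 𝓞 K) ∉ Q) :
    ((Ideal.absNorm Q : ℕ) : ZMod m) = 1 := by
  classical
  have hQ0 : Q ≠ ⊥ := Ring.ne_bot_of_isMaximal_of_not_isField hQ (RingOfIntegers.not_isField K)
  have hfin : Finite (𝓞 K ⧸ Q) := Ideal.finiteQuotientOfFreeOfNeBot Q hQ0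
  let _ : Field (𝓞 K ⧸ Q) := Ideal.Quotient.field Q
  let _ : Fintype (𝓞 K ⧸ Q) := Fintype.ofFinite _
  have hcard : Fintype.card (𝓞 K ⧸ Q) = Ideal.absNorm Q := by
    rw [← Nat.card_eq_fintype_card]; rfl
  -- the image of `ζ` in the residue field is a primitive `m`-th root of unity
  set z : 𝓞 K ⧸ Q := Ideal.Quotient.mk Q ζ with hz
  have hzm : z ^ m = 1 := by rw [hz, ← map_pow, hζ.pow_eq_one, map_one]
  have hzprim : IsPrimitiveRoot z m := by
    refine IsPrimitiveRoot.mk_of_lt z (Nat.pos_of_ne_zero hm) hzm ?_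
    intro l hl0 hlm hl
    obtain ⟨m', rfl⟩ : ∃ m', m = m' + 1 := ⟨m - 1, by omega⟩
    have hprod := hζ.prod_one_sub_pow_eq_order
    have h2 := congrArg (Ideal.Quotient.mk Q) hprod
    rw [map_prod] at h2
    have h3 : ∏ k ∈ Finset.range m', (Ideal.Quotient.mk Q) (1 - ζ ^ (k + 1)) = 0 := by
      apply Finset.prod_eq_zero (i := l - 1)
      · rw [Finset.mem_range]; omega
      · have : l - 1 + 1 = l := by omega
        rw [this, map_sub, map_one, map_pow, ← hz, hl, sub_self]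
    rw [h3] at h2
    apply hmQ
    rw [← Ideal.Quotient.eq_zero_iff_mem]
    have h4 : ((m' + 1 : ℕ) : 𝓞 K) = (m' : 𝓞 K) + 1 := by push_cast; ring
    rw [h4, h2.symm]
  have hz0 : z ≠ 0 := by
    intro h0
    rw [h0, zero_pow hm] at hzm
    exact zero_ne_one hzm
  have hdvd : m ∣ Fintype.card (𝓞 K ⧸ Q) - 1 := by
    have h1 : z ^ (Fintype.card (𝓞 K ⧸ Q) - 1) = 1 := FiniteField.pow_card_sub_one_eq_one z hz0
    exact (hzprim.pow_eq_one_iff_dvd _).mp h1
  rw [hcard] at hdvd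
  have hpos : 1 ≤ Ideal.absNorm Q := by
    have := Ideal.absNorm_eq_zero_iff.not.mpr hQ0
    omega
  obtain ⟨c, hc⟩ := hdvd
  have : Ideal.absNorm Q = m * c + 1 := by omega
  rw [this]; push_cast; simp

/-- In a number field containing a primitive `m`-th root of unity, an ideal coprime to `m` has
norm `≡ 1 mod m`. -/
theorem absNorm_eq_one_of_primitiveRoot {m : ℕ} (hm : m ≠ 0) {ζ : 𝓞 K}
    (hζ : IsPrimitiveRoot ζ m) (I : Ideal (𝓞 K))
    (hI : IsCoprime I (Ideal.span {(m : 𝓞 K)})) :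
    ((Ideal.absNorm I : ℕ) : ZMod m) = 1 := by
  classical
  by_cases hI0 : I = ⊥
  · subst hI0
    rw [Ideal.isCoprime_iff_sup_eq, bot_sup_eq] at hI
    obtain rfl := eq_one_of_span_natCast_eq_top m hI
    exact Subsingleton.elim _ _
  rw [← Ideal.prod_normalizedFactors_eq_self hI0]
  refine Multiset.prod_induction (fun J : Ideal (𝓞 K) => ((Ideal.absNorm J : ℕ) : ZMod m) = 1)
    _ ?_ ?_ ?_
  · intro J₁ J₂ h₁ h₂
    rw [map_mul, Nat.cast_mul, h₁, h₂, mul_one]
  · simp
  · intro Q hQ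
    have hQ' : Q ≠ ⊥ := UniqueFactorizationMonoid.ne_zero_of_mem_normalizedFactors hQ
    rw [Ideal.mem_normalizedFactors_iff hI0] at hQ
    have hQmax : Q.IsMaximal := Ring.DimensionLEOne.maximalOfPrime hQ' hQ.1
    refine absNorm_prime_eq_one_of_primitiveRoot hm hζ Q ?_
    intro hmQ
    have h1 : Ideal.span {(m : 𝓞 K)} ≤ Q := (Ideal.span_singleton_le_iff_mem Q).mpr hmQ
    have h2 : I ⊔ Ideal.span {(m : 𝓞 K)} ≤ Q := sup_le hQ.2 h1
    rw [Ideal.isCoprime_iff_sup_eq] at hI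
    rw [hI] at h2
    exact hQmax.ne_top (top_le_iff.mp h2)

end PrimitiveRoot

section Symbol

variable (p n : ℕ)

/-- The **norm symbol** `ψ_K(I) = (N I)^(p-1) mod p^(n+1)` (`1` if `N I` is not prime to `p`). -/
noncomputable def normSymbol {K : Type*} [Field K] [NumberField K] (I : Ideal (𝓞 K)) :
    (ZMod (p ^ (n + 1)))ˣ :=
  if h : (Ideal.absNorm I).Coprime (p ^ (n + 1)) then ZMod.unitOfCoprime _ h ^ (p - 1) else 1

variable {p n}

theorem normSymbol_of_coprime {K : Type*} [Field K] [NumberField K] {I : Ideal (𝓞 K)}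
    (h : (Ideal.absNorm I).Coprime (p ^ (n + 1))) :
    normSymbol p n I = ZMod.unitOfCoprime _ h ^ (p - 1) := by
  rw [normSymbol, dif_pos h]

theorem coe_normSymbol_of_coprime {K : Type*} [Field K] [NumberField K] {I : Ideal (𝓞 K)}
    (h : (Ideal.absNorm I).Coprime (p ^ (n + 1))) :
    ((normSymbol p n I : (ZMod (p ^ (n + 1)))ˣ) : ZMod (p ^ (n + 1))) =
      ((Ideal.absNorm I : ℕ) : ZMod (p ^ (n + 1))) ^ (p - 1) := by
  rw [normSymbol_of_coprime h]; simp

/-- The norm symbol of an ideal coprime to `(p^(n+1))`. -/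
theorem coprime_of_isCoprime_span {K : Type*} [Field K] [NumberField K] {I : Ideal (𝓞 K)}
    (h : IsCoprime I (Ideal.span {((p ^ (n + 1) : ℕ) : 𝓞 K)})) :
    (Ideal.absNorm I).Coprime (p ^ (n + 1)) :=
  absNorm_coprime_of_isCoprime _ I h

@[simp] theorem normSymbol_top {K : Type*} [Field K] [NumberField K] :
    normSymbol p n (⊤ : Ideal (𝓞 K)) = 1 := by
  have h : (Ideal.absNorm (⊤ : Ideal (𝓞 K))).Coprime (p ^ (n + 1)) := by simp
  apply Units.ext
  rw [coe_normSymbol_of_coprime h]; simp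

/-- The norm symbol is multiplicative on ideals of norm prime to `p`. -/
theorem normSymbol_mul {K : Type*} [Field K] [NumberField K] {I J : Ideal (𝓞 K)}
    (hI : (Ideal.absNorm I).Coprime (p ^ (n + 1))) (hJ : (Ideal.absNorm J).Coprime (p ^ (n + 1))) :
    normSymbol p n (I * J) = normSymbol p n I * normSymbol p n J := by
  have hIJ : (Ideal.absNorm (I * J)).Coprime (p ^ (n + 1)) := by
    rw [map_mul]; exact Nat.Coprime.mul_left hI hJ
  apply Units.ext
  rw [Units.val_mul, coe_normSymbol_of_coprime hIJ, coe_normSymbol_of_coprime hI,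
    coe_normSymbol_of_coprime hJ, map_mul, Nat.cast_mul, mul_pow]

theorem normSymbol_pow {K : Type*} [Field K] [NumberField K] {I : Ideal (𝓞 K)}
    (hI : (Ideal.absNorm I).Coprime (p ^ (n + 1))) (k : ℕ) :
    normSymbol p n (I ^ k) = normSymbol p n I ^ k := by
  have hIk : (Ideal.absNorm (I ^ k)).Coprime (p ^ (n + 1)) := by
    rw [map_pow]; exact Nat.Coprime.pow_left k hI
  apply Units.ext
  rw [Units.val_pow_eq_pow_val, coe_normSymbol_of_coprime hIk, coe_normSymbol_of_coprime hI,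
    map_pow, Nat.cast_pow, ← pow_mul, ← pow_mul, mul_comm]

/-- **Reciprocity law** for the norm symbol: a principal ideal `(α)` with `α ≡ 1 mod p^(n+1)` has
trivial symbol (`p` odd). -/
theorem normSymbol_span_singleton {K : Type*} [Field K] [NumberField K] (hp : Odd p)
    (α : 𝓞 K) (hα : α - 1 ∈ Ideal.span {((p ^ (n + 1) : ℕ) : 𝓞 K)}) :
    normSymbol p n (Ideal.span {α}) = 1 := by
  obtain ⟨β, hβ⟩ := Ideal.mem_span_singleton'.mp hα
  have hα' : α = 1 + ((p ^ (n + 1) : ℕ) : ℤ) • β := by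
    have : α = 1 + β * ((p ^ (n + 1) : ℕ) : 𝓞 K) := by rw [hβ]; ring
    rw [this, zsmul_eq_mul, mul_comm]; push_cast; ring
  obtain ⟨r, hr⟩ := Algebra.norm_one_add_smul (A := ℤ) (B := 𝓞 K) ((p ^ (n + 1) : ℕ) : ℤ) β
  rw [← hα'] at hr
  -- the norm is `≡ 1 mod p^(n+1)`
  have hN : ((Algebra.norm ℤ α : ℤ) : ZMod (p ^ (n + 1))) = 1 := by
    rw [hr]; push_cast
    have : ((p : ZMod (p ^ (n + 1))) ^ (n + 1)) = 0 := by
      have h0 := ZMod.natCast_self (p ^ (n + 1))
      rwa [Nat.cast_pow] at h0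
    rw [this]; ring
  have habs : ((Ideal.absNorm (Ideal.span {α}) : ℕ) : ZMod (p ^ (n + 1))) ^ 2 = 1 := by
    rw [Ideal.absNorm_span_singleton]
    have h2 : (((Algebra.norm ℤ α).natAbs : ℕ) : ZMod (p ^ (n + 1))) ^ 2 =
        ((Algebra.norm ℤ α : ℤ) : ZMod (p ^ (n + 1))) ^ 2 := by
      have h3 : (((Algebra.norm ℤ α).natAbs : ℕ) : ℤ) ^ 2 = (Algebra.norm ℤ α) ^ 2 := by
        rw [Int.natCast_natAbs, sq_abs]
      have h4 := congrArg (fun z : ℤ => (z : ZMod (p ^ (n + 1)))) h3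
      simp only [Int.cast_pow, Int.cast_natCast] at h4
      exact h4
    rw [h2, hN, one_pow]
  have hcop : (Ideal.absNorm (Ideal.span {α})).Coprime (p ^ (n + 1)) := by
    have hu : IsUnit ((Ideal.absNorm (Ideal.span {α}) : ℕ) : ZMod (p ^ (n + 1))) :=
      IsUnit.of_pow_eq_one habs two_ne_zero
    exact (ZMod.isUnit_iff_coprime _ _).mp hu
  apply Units.ext
  rw [coe_normSymbol_of_coprime hcop, Units.val_one]
  obtain ⟨k, hk⟩ := hp
  have : p - 1 = 2 * k := by omega
  rw [this, pow_mul, habs, one_pow]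

end Symbol

section Functoriality

variable {p n : ℕ}
variable {K L : Type*} [Field K] [NumberField K] [Field L] [NumberField L] [Algebra K L]

/-- `ψ_K(N_{L/K} J) = ψ_L(J)`. -/
theorem normSymbol_relNorm (J : Ideal (𝓞 L)) :
    normSymbol p n (Ideal.relNorm (𝓞 K) J) = normSymbol p n J := by
  unfold normSymbol
  rw [Ideal.absNorm_relNorm]

/-- `ψ_L(I 𝓞_L) = ψ_K(I)^[L:K]`. -/
theorem normSymbol_map (I : Ideal (𝓞 K)) (hI : (Ideal.absNorm I).Coprime (p ^ (n + 1))) :
    normSymbol p n (I.map (algebraMap (𝓞 K) (𝓞 L))) = normSymbol p n I ^ Module.finrank K L := by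
  have h1 : Ideal.absNorm (I.map (algebraMap (𝓞 K) (𝓞 L))) =
      Ideal.absNorm I ^ Module.finrank K L := by
    rw [Ideal.absNorm_algebraMap]
    congr 1
    exact (IsFractionRing.finrank_eq (𝓞 K) K (𝓞 L) L).symm
  have hIk : (Ideal.absNorm (I.map (algebraMap (𝓞 K) (𝓞 L)))).Coprime (p ^ (n + 1)) := by
    rw [h1]; exact Nat.Coprime.pow_left _ hI
  apply Units.ext
  rw [Units.val_pow_eq_pow_val, coe_normSymbol_of_coprime hIk, coe_normSymbol_of_coprime hI,
    h1, Nat.cast_pow, ← pow_mul, ← pow_mul, mul_comm]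

end Functoriality

section Cyclotomic

variable {p n : ℕ}

/-- The norm symbol is killed by `p^n`: it lies in the `p`-part of `(ℤ/p^(n+1))ˣ`. -/
theorem normSymbol_pow_prime_pow (hp : p.Prime) {K : Type*} [Field K] [NumberField K]
    (I : Ideal (𝓞 K)) : normSymbol p n I ^ (p ^ n) = 1 := by
  unfold normSymbol
  split_ifs with h
  · rw [← pow_mul]
    have h1 : (p - 1) * p ^ n = Nat.totient (p ^ (n + 1)) := by
      rw [Nat.totient_prime_pow_succ hp, mul_comm]
    rw [h1]
    exact ZMod.pow_totient _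
  · exact one_pow _

/-- (Z) In a number field containing the `p^(n+1)`-th roots of unity the norm symbol is
trivial. -/
theorem normSymbol_eq_one_of_primitiveRoot (hp : p.Prime) {K : Type*} [Field K] [NumberField K]
    {ζ : 𝓞 K} (hζ : IsPrimitiveRoot ζ (p ^ (n + 1))) (I : Ideal (𝓞 K))
    (hI : IsCoprime I (Ideal.span {((p ^ (n + 1) : ℕ) : 𝓞 K)})) :
    normSymbol p n I = 1 := by
  have hcop := coprime_of_isCoprime_span hI
  apply Units.ext
  rw [coe_normSymbol_of_coprime hcop,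
    absNorm_eq_one_of_primitiveRoot (pow_ne_zero _ hp.ne_zero) hζ I hI, one_pow, Units.val_one]

/-- (Z') If `L/K` has degree prime to `p` and `L` contains the `p^(n+1)`-th roots of unity
(e.g. `K ⊇ ℚ_n`, `L = K(ζ)`), then the norm symbol of `K` is trivial. -/
theorem normSymbol_eq_one_of_tower (hp : p.Prime) {K L : Type*} [Field K] [NumberField K]
    [Field L] [NumberField L] [Algebra K L] (hdeg : (Module.finrank K L).Coprime p)
    {ζ : 𝓞 L} (hζ : IsPrimitiveRoot ζ (p ^ (n + 1))) (I : Ideal (𝓞 K))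
    (hI : IsCoprime I (Ideal.span {((p ^ (n + 1) : ℕ) : 𝓞 K)})) :
    normSymbol p n I = 1 := by
  have hcop := coprime_of_isCoprime_span hI
  have hmap : IsCoprime (I.map (algebraMap (𝓞 K) (𝓞 L)))
      (Ideal.span {((p ^ (n + 1) : ℕ) : 𝓞 L)}) := by
    have h1 := hI.map (Ideal.mapHom (algebraMap (𝓞 K) (𝓞 L)))
    have h2 : (Ideal.mapHom (algebraMap (𝓞 K) (𝓞 L))) (Ideal.span {((p ^ (n + 1) : ℕ) : 𝓞 K)}) =
        Ideal.span {((p ^ (n + 1) : ℕ) : 𝓞 L)} := by
      simp [Ideal.mapHom, Ideal.map_span]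
    rw [h2] at h1
    exact h1
  have h1 : normSymbol p n I ^ Module.finrank K L = 1 := by
    rw [← normSymbol_map (L := L) I hcop]
    exact normSymbol_eq_one_of_primitiveRoot hp hζ _ hmap
  have h2 : normSymbol p n I ^ (p ^ n) = 1 := normSymbol_pow_prime_pow hp I
  have h3 : orderOf (normSymbol p n I) ∣ Nat.gcd (Module.finrank K L) (p ^ n) :=
    Nat.dvd_gcd (orderOf_dvd_of_pow_eq_one h1) (orderOf_dvd_of_pow_eq_one h2)
  have h4 : Nat.gcd (Module.finrank K L) (p ^ n) = 1 := Nat.Coprime.pow_right n hdeg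
  rw [h4, Nat.dvd_one, orderOf_eq_one_iff] at h3
  exact h3

end Cyclotomic

end Fermat.Agent.PT.G3


end ZBPT_009_0

/-! ### bundled: `Fermat.Agent.PT.G3.Plan2` -/
section ZBPT_009_1
/-
PT-G3 — INTERFACE FILE, part 2: the MODEL pieces that do not mention the class symbol `Ψ`
(tensor model of PT/G/Defs.lean; `csMap` of PT/G/Map.lean; descent statements of PT/G/Plan2.lean).
Sub-captain helper47; mathematics and piece table: NOTES/PT-G3.md.

Every `Stmt…` below is a `Prop`; the piece `X` is DONE when `theorem stmtX : StmtX` is landed.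
-/

set_option autoImplicit false
set_option linter.unusedSectionVars false

namespace Fermat.Agent.PT.G3

open CategoryTheory groupCohomology NumberField IsDedekindDomain
open Fermat.Agent.PT Fermat.Agent.PT.G Fermat.Agent.PT.G1

/-! ### Layers -/

/-- **G3-layer**: if `L / ℚ` is unramified outside `S ≠ ∅` and `p` is odd, then `C_S(L)` satisfies
the layer hypothesis at `p`: for `P ≤ Aut(L)` a `p`-subgroup and `P' ◁ P` of index `p`,
`H¹(P/P', C_S(L)^{P'}) = 0` and `|H²(P/P', C_S(L)^{P'})| ≤ p`.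
(`K' := L^{P'}`, `σ'` := a generator of `P/P'` on `K'`; `StmtCSCyclic` for `(K', σ')`;
`StmtCSDescent` + `StmtCSMapInj`: `C_S(K') ≃ C_S(L)^{P'}`; `G1.stmtBridge`.) -/
def StmtLayer : Prop :=
  ∀ (p : ℕ) [Fact p.Prime], p ≠ 2 → ∀ (S : Finset Nat.Primes), S.Nonempty →
    ∀ (L : Type) [Field L] [NumberField L], UnramOffRel S ℚ L → LayerHyp p (csRep S L)

/-! ### Transitivity of `csMap` -/

/-- **G3-comp**: `csMap` is transitive in towers `K ⊂ L ⊂ M`
(`e(P | P ∩ K) = e(P | P ∩ L) · e(P ∩ L | P ∩ K)`; Mathlib `Ideal.ramificationIdx_algebra_tower`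
or via valuations as in `ramIdx_primeMap`). -/
def StmtCSMapComp : Prop :=
  ∀ (S : Finset Nat.Primes) (K L M : Type) [Field K] [NumberField K] [Field L] [NumberField L]
    [Field M] [NumberField M] [Algebra K L] [Algebra L M] [Algebra K M] [IsScalarTower K L M]
    (c : CS S K), csMap S L M (csMap S K L c) = csMap S K M c

/-- **G3-unramtower**: unramifiedness outside `S` in towers: if `M / K` is unramified outside `S`
then so are `M / L` and `L / K`. -/
def StmtUnramTower : Prop :=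
  ∀ (S : Finset Nat.Primes) (K L M : Type) [Field K] [NumberField K] [Field L] [NumberField L]
    [Field M] [NumberField M] [Algebra K L] [Algebra L M] [Algebra K M] [IsScalarTower K L M],
    UnramOffRel S K M → UnramOffRel S L M ∧ UnramOffRel S K L

/-! ### The norm subgroup -/

section NormSub

variable (S : Finset Nat.Primes) (F M : Type) [Field F] [NumberField F] [Field M] [NumberField M]
  [Algebra F M]

/-- `Gal(M / F)` as a subgroup of `Aut(M) = M ≃ₐ[ℚ] M`. -/
def relAut : Subgroup (M ≃ₐ[ℚ] M) where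
  carrier := {σ | ∀ x : F, σ (algebraMap F M x) = algebraMap F M x}
  mul_mem' := by
    intro σ τ hσ hτ x
    show σ (τ (algebraMap F M x)) = algebraMap F M x
    rw [hτ x, hσ x]
  one_mem' := fun _ => rfl
  inv_mem' := by
    intro σ hσ x
    have h := hσ x
    show σ⁻¹ (algebraMap F M x) = algebraMap F M x
    conv_lhs => rw [← h]
    exact σ.symm_apply_apply _

lemma mem_relAut (σ : M ≃ₐ[ℚ] M) :
    σ ∈ relAut F M ↔ ∀ x : F, σ (algebraMap F M x) = algebraMap F M x := Iff.rfl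

/-- The norm `N_{Gal(M/F)} = Σ_{σ ∈ Gal(M/F)} σ` on `C_S(M)`. -/
noncomputable def galNorm (c : CS S M) : CS S M :=
  ∑ᶠ σ : ↥(relAut F M), csEnd S (σ : M ≃ₐ[ℚ] M) c

/-- **The norm subgroup** `{c ∈ C_S(F) | csMap c ∈ N_{Gal(M/F)} C_S(M)}` of `C_S(F)`
(`= csNorm (C_S(M))` when `M / F` is Galois and `csMap` is injective). -/
def NormSub : Set (CS S F) := {c | ∃ d : CS S M, csMap S F M c = galNorm S F M d}

end NormSub

/-- **G3-normsub**: `NormSub` is a subgroup: `galNorm` is additive. -/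
def StmtGalNormAdd : Prop :=
  ∀ (S : Finset Nat.Primes) (F M : Type) [Field F] [NumberField F] [Field M] [NumberField M]
    [Algebra F M] (c d : CS S M),
    galNorm S F M (c + d) = galNorm S F M c + galNorm S F M d ∧
    galNorm S F M (-c) = -galNorm S F M c

/-- **G3-normJ**: `[M : F] • (image of J_F)` lies in the norm subgroup (`M / F` Galois):
`csMap (csOfJ y)` is `Gal(M/F)`-invariant, so `N (csMap (csOfJ y)) = [M : F] • csMap (csOfJ y)`. -/
def StmtNormSubJ : Prop :=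
  ∀ (S : Finset Nat.Primes) (F M : Type) [Field F] [NumberField F] [Field M] [NumberField M]
    [Algebra F M] [IsGalois F M] (c : CS S F),
    (Module.finrank F M) • c ∈ NormSub S F M

/-- **G3-normsplit**: if `M / F` is Galois and unramified outside `S`, the class of a prime `v`
of `F` off `S` with a prime `w` of `M` of degree one above it is in the norm subgroup
(`v` splits completely: `divMap [v] = Σ_{σ ∈ Gal(M/F)} σ [w]`). -/
def StmtNormSubSplit : Prop :=
  ∀ (S : Finset Nat.Primes) (F M : Type) [Field F] [NumberField F] [Field M] [NumberField M]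
    [Algebra F M] [IsGalois F M], UnramOffRel S F M → ∀ v : OffS S F,
    (∃ w : HeightOneSpectrum (𝓞 M),
      Ideal.comap (algebraMap (𝓞 F) (𝓞 M)) w.asIdeal = v.1.asIdeal ∧
        Ideal.absNorm w.asIdeal = Ideal.absNorm v.1.asIdeal) →
    csOfDiv S F (Finsupp.single v 1) ∈ NormSub S F M

/-- **G3-normindex** (second inequality in norm-subgroup form): for `M / F` Galois and unramified
outside `S`, at most `[M : F]` classes of `C_S(F)` modulo the norm subgroup.
(`G2.StmtIdelicSecond` with `B = NormSub`, `d = [M : F]`, + G3-normJ, G3-normsplit.) -/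
def StmtNormIndexLe : Prop :=
  ∀ (S : Finset Nat.Primes) (F M : Type) [Field F] [NumberField F] [Field M] [NumberField M]
    [Algebra F M] [IsGalois F M], UnramOffRel S F M →
    ∃ B : Submodule ℤ (CS S F), (B : Set (CS S F)) = NormSub S F M ∧
      Finite (CS S F ⧸ B) ∧ Nat.card (CS S F ⧸ B) ≤ Module.finrank F M

/-! ### From Sylow norms to the norm subgroup -/

/-- **G3-sylownorm**: let `N / ℚ` be Galois, unramified outside `S ≠ ∅`, and `F₀ ⊂ M₀ ⊂ N` a
tower with `M₀ / F₀` Galois; put `P = Gal(N/F₀)`, `P₁ = Gal(N/M₀)` (subgroups of `Aut(N)`).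
If `c₀ ∈ C_S(ℚ)` and `csMap c₀ ∈ C_S(N)` is `Σ_{t ∈ P/P₁} t • d` for a `P₁`-invariant `d`, then the
image of `c₀` in `C_S(F₀)` lies in the norm subgroup of `M₀ / F₀`.
(Descent for `N / M₀`: `d = csMap d'`; equivariance; injectivity of `csMap S M₀ N`;
`StmtCSMapComp`.)  Used with `F₀ = N^P`, `M₀ = N^{P ∩ A}`, `P` a Sylow `p`-subgroup. -/
def StmtSylowNorm : Prop :=
  ∀ (S : Finset Nat.Primes), S.Nonempty → ∀ (N : Type) [Field N] [NumberField N] [IsGalois ℚ N],
    UnramOffRel S ℚ N →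
    ∀ (F₀ M₀ : Type) [Field F₀] [NumberField F₀] [Field M₀] [NumberField M₀] [Algebra F₀ M₀]
      [Algebra M₀ N] [Algebra F₀ N] [IsScalarTower F₀ M₀ N] [IsGalois F₀ M₀]
      (c₀ : CS S ℚ) (d : CS S N),
    (∀ x ∈ relAut M₀ N, csEnd S x d = d) →
    csMap S ℚ N c₀ = ∑ᶠ t : ↥(relAut F₀ N) ⧸ ((relAut M₀ N).subgroupOf (relAut F₀ N)),
      csEnd S ((Quotient.out t : ↥(relAut F₀ N)) : N ≃ₐ[ℚ] N) d →
    csMap S ℚ F₀ c₀ ∈ NormSub S F₀ M₀

end Fermat.Agent.PT.G3


end ZBPT_009_1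

/-! ### bundled: `Fermat.Agent.PT.B.Plan4` -/
section ZBPT_009_2
/-
PT-B (bridge for S55) — INTERFACE FILE 4: the COMPARISON MAP
`f_L : (J_S / E_S)^{Gal(ℚ̄/L)} → C_S(L)` between the class module of the concrete datum
(`CRep S`, PT/B/Concrete.lean) and the type-level class module `CS S L` (PT/G/Defs.lean), and
the shapes in which PT-B consumes the results of PT-G3 and PT-X.
Definitions and statements only.  Piece table: NOTES/PT-B.md.
-/

set_option autoImplicit false
set_option linter.style.haveILetI false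

noncomputable section

namespace Fermat.Agent.PT.B

open Fermat.Agent.PT CategoryTheory groupCohomology ExtCitation
open Fermat.Agent.PT.G Fermat.Agent.PT.G1
open scoped Pointwise TensorProduct

/-! ## Tower fields as number fields -/

theorem numberField_of_finiteDimensional (L : QbarField) (h : FiniteDimensional ℚ L) :
    NumberField ↥L :=
  haveI := h
  ⟨⟩

theorem numberField_of_isUnramifiedOutside {S : Finset Nat.Primes} {L : QbarField}
    (hL : L.IsUnramifiedOutside S) : NumberField ↥L :=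
  numberField_of_finiteDimensional L hL.1

theorem numberField_of_isTowerField {S : Finset Nat.Primes} {L : QbarField}
    (hL : IsTowerField S L) : NumberField ↥L :=
  numberField_of_isUnramifiedOutside hL.1

/-- The algebra structure `L → L'` for `L ≤ L'` (use with `letI`). -/
abbrev algebraOfLe {L L' : QbarField} (h : L ≤ L') : Algebra ↥L ↥L' :=
  (IntermediateField.inclusion h).toRingHom.toAlgebra

theorem algebraOfLe_apply {L L' : QbarField} (h : L ≤ L') (x : ↥L) :
    ((@algebraMap ↥L ↥L' _ _ (algebraOfLe h) x : ↥L') : AlgebraicClosure ℚ) = x := rfl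

/-! ## I1, in the shape used by PT-G3 -/

/-- **I1'** (RAM-rel): a field unramified outside `S` (prelude) is unramified outside `S` in the
ideal-theoretic sense of PT/G/Plan2.lean. -/
def StmtRamRel : Prop :=
  ∀ (S : Finset Nat.Primes) (L : QbarField) (hL : L.IsUnramifiedOutside S),
    haveI := numberField_of_isUnramifiedOutside hL
    UnramOffRel S ℚ ↥L

/-! ## The invariants of the class module -/

/-- `C_S^{Gal(ℚ̄/L)}` as an additive subgroup of `C_S = J_S / E_S`. -/
def CInv (S : Finset Nat.Primes) (L : QbarField) : AddSubgroup (CRep S).V where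
  carrier := {c | ∀ s ∈ L.fixingSubgroup, (CRep S).ρ s c = c}
  add_mem' := fun {a b} ha hb s hs => by rw [map_add, ha s hs, hb s hs]
  zero_mem' := fun s _ => map_zero _
  neg_mem' := fun {a} ha s hs => by rw [map_neg, ha s hs]

theorem mem_CInv_iff (S : Finset Nat.Primes) (L : QbarField) (c : (CRep S).V) :
    c ∈ CInv S L ↔ ∀ s ∈ L.fixingSubgroup, (CRep S).ρ s c = c := Iff.rfl

/-- `C^{G_L} ⊆ C^{G_{L'}}` for `L ≤ L'`. -/
theorem CInv_mono (S : Finset Nat.Primes) {L L' : QbarField} (h : L ≤ L') :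
    CInv S L ≤ CInv S L' :=
  fun _ hc s hs => hc s (IntermediateField.fixingSubgroup_antitone h hs)

/-- `G_ℚ` preserves `C^{G_L}` when `L/ℚ` is Galois. -/
theorem smul_mem_CInv (S : Finset Nat.Primes) {L : QbarField} (hL : IsGalois ℚ L) (g : GQ)
    {c : (CRep S).V} (hc : c ∈ CInv S L) : (CRep S).ρ g c ∈ CInv S L := by
  haveI : IsAlgClosure ℚ (AlgebraicClosure ℚ) :=
    ⟨inferInstance, AlgebraicClosure.isAlgebraic ℚ⟩
  haveI : IsGalois ℚ (AlgebraicClosure ℚ) := inferInstance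
  haveI : L.fixingSubgroup.Normal := (InfiniteGalois.normal_iff_isGalois L).2 hL
  intro s hs
  have h1 : g⁻¹ * s * g ∈ L.fixingSubgroup := by
    have := Subgroup.Normal.conj_mem (inferInstance : L.fixingSubgroup.Normal) s hs g⁻¹
    simpa using this
  have h2 := hc _ h1
  have h3 : (CRep S).ρ s ((CRep S).ρ g c) = (CRep S).ρ g ((CRep S).ρ (g⁻¹ * s * g) c) := by
    rw [← Module.End.mul_apply, ← Module.End.mul_apply, ← map_mul, ← map_mul]
    congr 2
    group
  rw [h3, h2]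

/-- the image of `θ_L` lands in `J^{G_L}`, hence its class lies in `C^{G_L}` -/
theorem thetaL_invariant (S : Finset Nat.Primes) (L : QbarField) [NumberField L]
    (hL : L.IsUnramifiedOutside S) (z : Additive (JL S ↥L)) (s : GQ)
    (hs : s ∈ L.fixingSubgroup) : (JS S).ρ s (thetaL S L hL z) = thetaL S L hL z := by
  apply Subtype.ext
  funext v g
  exact congrArg Additive.ofMul (Units.ext
    (tensEv_mul_of_mem ((v : Nat.Primes) : ℕ) L g s hs ((Additive.toMul z) v : _)))

theorem piC_thetaL_mem_CInv (S : Finset Nat.Primes) (L : QbarField) [NumberField L]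
    (hL : L.IsUnramifiedOutside S) (z : Additive (JL S ↥L)) :
    (piC S).hom (thetaL S L hL z) ∈ CInv S L := by
  intro s hs
  rw [← Rep.hom_comm_apply (piC S) s, thetaL_invariant S L hL z s hs]

/-! ## The comparison map -/

/-- A family of maps `f_L : C_S^{G_L} → C_S(L)`, `L` in the tower. -/
abbrev CompareFamily (S : Finset Nat.Primes) : Type :=
  ∀ (L : QbarField) (hL : IsTowerField S L),
    ↥(CInv S L) →+ @CS S ↥L _ (numberField_of_isTowerField hL)

/-- **The properties of the comparison maps** `f_L : (J_S/E_S)^{G_L} → C_S(L)`: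
injective, cokernel killed by an integer prime to `p`, equivariant, `f_L(π(θ_L z)) = [z]` and
natural in `L`.  (`f_L c` is THE class with `csMap_{L'/L}(f_L c) = csOfJ_{L'} z` whenever
`c = π(θ_{L'} z)`; it exists by Galois descent for `C_S(·)`, PT/G/Descent.lean.) -/
structure IsCompare (p : ℕ) (S : Finset Nat.Primes) (f : CompareFamily S) : Prop where
  inj : ∀ (L : QbarField) (hL : IsTowerField S L), Function.Injective (f L hL)
  pcoker : ∀ (L : QbarField) (hL : IsTowerField S L),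
    ∃ m : ℕ, ¬ p ∣ m ∧
      ∀ c' : @CS S ↥L _ (numberField_of_isTowerField hL), ∃ c, f L hL c = m • c'
  equivariant : ∀ (L : QbarField) (hL : IsTowerField S L) (g : GQ)
    (σ : @AlgEquiv ℚ ↥L ↥L _ _ _ _ _) (_ : ∀ x : ↥L, g (x : AlgebraicClosure ℚ) = σ x)
    (c : ↥(CInv S L)),
    f L hL ⟨(CRep S).ρ g c.1, smul_mem_CInv S hL.2 g c.2⟩ =
      @csEnd S ↥L _ (numberField_of_isTowerField hL) σ (f L hL c)
  idelic : ∀ (L : QbarField) (hL : IsTowerField S L)
    (z : Additive (@JL S ↥L _ (numberField_of_isTowerField hL))),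
    f L hL ⟨(piC S).hom (@thetaL S L (numberField_of_isTowerField hL) hL.1 z),
        @piC_thetaL_mem_CInv S L (numberField_of_isTowerField hL) hL.1 z⟩ =
      @csOfJ S ↥L _ (numberField_of_isTowerField hL) z
  natural : ∀ (L L' : QbarField) (hL : IsTowerField S L) (hL' : IsTowerField S L')
    (hle : L ≤ L') (c : ↥(CInv S L)),
    @csMap S ↥L ↥L' _ (numberField_of_isTowerField hL) _ (numberField_of_isTowerField hL')
        (algebraOfLe hle) (f L hL c) =
      f L' hL' ⟨c.1, CInv_mono S hle c.2⟩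

/-- **I5/I6** (COMPARE): the comparison maps exist. -/
def StmtCompare : Prop :=
  ∀ (p : ℕ) [Fact p.Prime] (S : Finset Nat.Primes), pPrime p ∈ S →
    ∃ f : CompareFamily S, IsCompare p S f

/-! ## The shapes in which PT-B consumes PT-G3 and PT-X -/

/-- **(GA)** (PT-G3): the type-level class module has a `p`-fundamental class. -/
def StmtGA : Prop :=
  ∀ (p : ℕ) [Fact p.Prime], p ≠ 2 → ∀ (S : Finset Nat.Primes), pPrime p ∈ S →
    ∀ (L : Type) [Field L] [NumberField L] [IsGalois ℚ L], UnramOffRel S ℚ L →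
      ∃ u : H2 (csRep S L), IsPFundClass p (csRep S L) u

/-- **(GB)** (PT-G3), finite-level `surv`, in cocycle form: a `p`-primary class of
`H²(Aut L, J_L)` supported at one `q ∈ S` which dies in `H²(Aut L, C_S(L))` is zero. -/
def StmtGB : Prop :=
  ∀ (p : ℕ) [Fact p.Prime], p ≠ 2 → ∀ (S : Finset Nat.Primes), pPrime p ∈ S →
    ∀ (L : Type) [Field L] [NumberField L] [IsGalois ℚ L], UnramOffRel S ℚ L →
    ∀ (q : ↥S) (y : (L ≃ₐ[ℚ] L) × (L ≃ₐ[ℚ] L) → (jlRep S L).V),
      y ∈ cocycles₂ (jlRep S L) →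
      (∀ q' : ↥S, q' ≠ q → ∀ gg, (Additive.toMul (y gg : Additive (JL S L)) : JL S L) q' = 1) →
      (∃ (k : ℕ) (t : (L ≃ₐ[ℚ] L) → (jlRep S L).V), (d₁₂ (jlRep S L)).hom t = (p ^ k) • y) →
      (∃ t : (L ≃ₐ[ℚ] L) → (csRep S L).V,
        (d₁₂ (csRep S L)).hom t = fun gg => (csOfJRep S L).hom (y gg)) →
      ∃ t : (L ≃ₐ[ℚ] L) → (jlRep S L).V, (d₁₂ (jlRep S L)).hom t = y

/-- **(X-CAP)** (PT-X), `p`-capitulation: a class of `C_S(L)` whose image in `Cl_S(L)` has
`p`-power order becomes idelic in a larger tower field. -/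
def StmtCapCS : Prop :=
  ∀ (p : ℕ) [Fact p.Prime] (S : Finset Nat.Primes), pPrime p ∈ S →
    ∀ (L : QbarField) (hL : IsTowerField S L)
      (c : @CS S ↥L _ (numberField_of_isTowerField hL)),
      (∃ k : ℕ, (p ^ k) • c ∈
        LinearMap.range (@csOfJ S ↥L _ (numberField_of_isTowerField hL))) →
      ∃ (L' : QbarField) (hL' : IsTowerField S L') (hle : L ≤ L'),
        @csMap S ↥L ↥L' _ (numberField_of_isTowerField hL) _ (numberField_of_isTowerField hL')
            (algebraOfLe hle) c ∈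
          LinearMap.range (@csOfJ S ↥L' _ (numberField_of_isTowerField hL'))

/-- **(X-EX)** (PT-X), existence theorem mod `p`: above every tower field there are tower fields
`L₁ ≤ L'` with `N_{L'/L₁} C_S(L') ⊆ p · C_S(L₁)`. -/
def StmtExistCS : Prop :=
  ∀ (p : ℕ) [Fact p.Prime], p ≠ 2 → ∀ (S : Finset Nat.Primes), pPrime p ∈ S →
    ∀ (L : QbarField), IsTowerField S L →
      ∃ (L₁ L' : QbarField) (hL₁ : IsTowerField S L₁) (hL' : IsTowerField S L')
        (_ : L ≤ L₁) (hle : L₁ ≤ L'),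
        haveI := numberField_of_isTowerField hL₁
        haveI := numberField_of_isTowerField hL'
        letI := algebraOfLe hle
        ∀ c : CS S ↥L', ∃ c₁ : CS S ↥L₁,
          csMap S ↥L₁ ↥L' (p • c₁) = Fermat.Agent.PT.G3.galNorm S ↥L₁ ↥L' c

/-! ## The hard axioms of the concrete datum -/

/-- **B-cmglob** = the datum axiom `cm_glob` for `CRep S`. -/
def StmtCmGlob : Prop :=
  ∀ (p : ℕ) [Fact p.Prime], p ≠ 2 → ∀ (S : Finset Nat.Primes), pPrime p ∈ S →
    ∀ (U : Subgroup GQ) [U.Normal], U ∈ (towerS S).lev →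
      ∃ u : H2 ((CRep S).quotientToInvariants U),
        IsPFundClass p ((CRep S).quotientToInvariants U) u

/-- **B-exist** = the datum axiom `exist` for `CRep S`. -/
def StmtExistC : Prop :=
  ∀ (p : ℕ) [Fact p.Prime], p ≠ 2 → ∀ (S : Finset Nat.Primes), pPrime p ∈ S →
    ∀ U ∈ (towerS S).lev, ∃ U₁ ∈ (towerS S).lev, ∃ U' ∈ (towerS S).lev,
      U₁ ≤ U ∧ U' ≤ U₁ ∧ U₁.Normal ∧ U'.Normal ∧
      ∀ c : (CRep S).V, (∀ s ∈ U', (CRep S).ρ s c = c) →
        ∃ c' : (CRep S).V, (∀ s ∈ U₁, (CRep S).ρ s c' = c') ∧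
          p • c' = ∑ᶠ t : ↥U₁ ⧸ U'.subgroupOf U₁, (CRep S).ρ ((Quotient.out t : ↥U₁) : GQ) c

/-- **B-surv** = the datum axiom `surv` for the concrete datum. -/
def StmtSurvC : Prop :=
  ∀ (p : ℕ) [Fact p.Prime], p ≠ 2 → ∀ (S : Finset Nat.Primes), pPrime p ∈ S →
    ∀ (v : ↥S) (y : GQ × GQ → (JS S).V),
      y ∈ cocycles₂ (JS S) → IsLevel₂ (towerS S) y →
      (∀ v' : ↥S, v' ≠ v → ∀ g g' h : GQ, (y (g, g')).1 v' h = 0) →
      (∃ (k : ℕ) (t : GQ → (JS S).V), IsLevel₁ (towerS S) t ∧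
        (d₁₂ (JS S)).hom t = (p ^ k) • y) →
      (∃ t : GQ → (CRep S).V, IsLevel₁ (towerS S) t ∧
        (d₁₂ (CRep S)).hom t = fun gg => (piC S).hom (y gg)) →
      ∃ t : GlocS S v → (JlocS S v).V, IsLevel₁ (towerLocS S v) t ∧
        (d₁₂ (JlocS S v)).hom t = fun dd => (y (rS S v dd.1, rS S v dd.2)).1 v 1

end Fermat.Agent.PT.B

end


end ZBPT_009_2

/-! ### bundled: `Fermat.Agent.PT.B.Theta` -/
section ZBPT_009_3
/-
PT-B, piece **theta**: elementary properties of the comparison map `θ_L : J_L → J_S`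
(`thetaL`, PT/B/Plan3.lean): naturality in `L`, equivariance, compatibility with the diagonal
embeddings, and (from `StmtTens`) `J_S = ⋃_L θ_L(J_L)`.
-/

set_option autoImplicit false
set_option linter.style.haveILetI false

noncomputable section

namespace Fermat.Agent.PT.B

open Fermat.Agent.PT CategoryTheory groupCohomology ExtCitation
open Fermat.Agent.PT.G Fermat.Agent.PT.G1
open scoped Pointwise TensorProduct

/-! ### Levels -/

/-- every element of `J_S` is fixed by a level -/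
theorem JS_discrete (S : Finset Nat.Primes) (x : (JS S).V) :
    ∃ U ∈ (towerS S).lev, ∀ s ∈ U, (JS S).ρ s x = x := by
  have h : ∀ v : ↥S, ∃ U ∈ (towerS S).lev, ∀ g s : GQ, s ∈ U → x.1 v (g * s) = x.1 v g :=
    fun v => (x.2 v).2
  choose U hU hUx using h
  have hfin : ∀ T : Finset ↥S, ∃ W ∈ (towerS S).lev, ∀ v ∈ T, W ≤ U v := by
    intro T
    induction T using Finset.induction_on with
    | empty => exact ⟨⊤, (towerS S).top_mem, by simp⟩
    | insert a T _ ih =>
      obtain ⟨W, hW, hWT⟩ := ih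
      refine ⟨U a ⊓ W, (towerS S).inf_mem _ _ (hU a) hW, fun v hv => ?_⟩
      rcases Finset.mem_insert.1 hv with rfl | hv
      · exact inf_le_left
      · exact inf_le_right.trans (hWT v hv)
  obtain ⟨W, hW, hWU⟩ := hfin Finset.univ
  refine ⟨W, hW, fun s hs => ?_⟩
  apply Subtype.ext
  funext v g
  exact hUx v g s (hWU v (Finset.mem_univ v) hs)

/-- below every level there is the level of a tower field -/
theorem exists_isTowerField_fixingSubgroup_le (S : Finset Nat.Primes) (U : Subgroup GQ)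
    (hU : U ∈ (towerS S).lev) : ∃ L : QbarField, IsTowerField S L ∧ L.fixingSubgroup ≤ U := by
  obtain ⟨F, hF, rfl⟩ := hU
  obtain ⟨L, hle, hL⟩ := stmtNormalClosure S F hF
  exact ⟨L, hL, IntermediateField.fixingSubgroup_antitone hle⟩

/-- **`J_S = ⋃_L θ_L(J_L)`** (given I2). -/
theorem exists_thetaL_eq (hT : StmtTens) (S : Finset Nat.Primes) (x : (JS S).V) :
    ∃ (L : QbarField) (hL : IsTowerField S L),
      ∃ z : Additive (@JL S ↥L _ (numberField_of_isTowerField hL)),
        @thetaL S L (numberField_of_isTowerField hL) hL.1 z = x := by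
  obtain ⟨U, hU, hx⟩ := JS_discrete S x
  obtain ⟨L, hL, hLU⟩ := exists_isTowerField_fixingSubgroup_le S U hU
  haveI := numberField_of_isTowerField hL
  obtain ⟨z, hz⟩ := (hT S L hL.1 hL.2).2 x (fun s hs => hx s (hLU hs))
  exact ⟨L, hL, z, hz⟩

/-! ### Naturality in `L` -/

theorem tensEv_semiIncl (q : ℕ) [Fact q.Prime] {L L' : QbarField} [NumberField L]
    [NumberField L'] (hle : L ≤ L') (g : GQ) (z : semiAlg q ↥L) :
    tensEv q L' g (@semiIncl ↥L ↥L' _ _ _ _ (algebraOfLe hle) q _ z) = tensEv q L g z := by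
  letI := algebraOfLe hle
  induction z using TensorProduct.induction_on with
  | zero => simp
  | tmul y x =>
    rw [semiIncl_tmul, tensEv_tmul, tensEv_tmul]
    rfl
  | add a b ha hb => rw [map_add, map_add, map_add, ha, hb]

/-- `θ_{L'} ∘ (J_L → J_{L'}) = θ_L`. -/
theorem thetaL_jlMapLin (S : Finset Nat.Primes) {L L' : QbarField} [NumberField L]
    [NumberField L'] (hL : L.IsUnramifiedOutside S) (hL' : L'.IsUnramifiedOutside S)
    (hle : L ≤ L') (z : Additive (JL S ↥L)) :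
    thetaL S L' hL' (@jlMapLin S ↥L ↥L' _ _ _ _ (algebraOfLe hle) z) = thetaL S L hL z := by
  apply Subtype.ext
  funext v g
  exact congrArg Additive.ofMul (Units.ext
    (tensEv_semiIncl ((v : Nat.Primes) : ℕ) hle g ((Additive.toMul z) v : _)))

/-! ### Equivariance -/

theorem tensEv_semiMap (q : ℕ) [Fact q.Prime] (L : QbarField) [NumberField L] (g h : GQ)
    (σ : ↥L ≃ₐ[ℚ] ↥L) (hσ : ∀ x : ↥L, g (x : AlgebraicClosure ℚ) = σ x) (z : semiAlg q ↥L) :
    tensEv q L h (semiMap q σ z) = tensEv q L (h * g) z := by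
  induction z using TensorProduct.induction_on with
  | zero => simp
  | tmul y x =>
    have h1 : semiMap q σ (y ⊗ₜ[ℚ] x) = y ⊗ₜ[ℚ] σ x := by simp [semiMap]
    rw [h1, tensEv_tmul, tensEv_tmul, ← hσ x]
    rfl
  | add a b ha hb => rw [map_add, map_add, map_add, ha, hb]

/-- `θ_L (σ z) = g · θ_L z` if `g|_L = σ`. -/
theorem thetaL_jlEnd (S : Finset Nat.Primes) (L : QbarField) [NumberField L]
    (hL : L.IsUnramifiedOutside S) (g : GQ) (σ : ↥L ≃ₐ[ℚ] ↥L)
    (hσ : ∀ x : ↥L, g (x : AlgebraicClosure ℚ) = σ x) (z : Additive (JL S ↥L)) :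
    thetaL S L hL (jlEnd S σ z) = (JS S).ρ g (thetaL S L hL z) := by
  apply Subtype.ext
  funext v h
  exact congrArg Additive.ofMul (Units.ext
    (tensEv_semiMap ((v : Nat.Primes) : ℕ) L g h σ hσ ((Additive.toMul z) v : _)))

/-! ### The diagonal -/

/-- `θ_L (diag x) = (g ↦ ι_q (g x))`. -/
theorem thetaL_jlDiag_apply (S : Finset Nat.Primes) (L : QbarField) [NumberField L]
    (hL : L.IsUnramifiedOutside S) (x : (↥L)ˣ) (v : ↥S) (g : GQ) :
    (thetaL S L hL (Additive.ofMul (jlDiag S ↥L x))).1 v g =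
      Additive.ofMul (jUnits ((v : Nat.Primes) : ℕ)
        (g • Units.map (L.val : ↥L →* AlgebraicClosure ℚ) x)) := by
  refine congrArg Additive.ofMul (Units.ext ?_)
  show tensEv ((v : Nat.Primes) : ℕ) L g ((1 : ℚ_[((v : Nat.Primes) : ℕ)]) ⊗ₜ[ℚ] (x : ↥L)) = _
  rw [tensEv_tmul, map_one, one_mul]
  rfl

/-- `θ_L ∘ diag = iDiag` on the `S`-units of `L`. -/
theorem thetaL_jlDiag_of_mem (S : Finset Nat.Primes) (L : QbarField) [NumberField L]
    (hL : L.IsUnramifiedOutside S) (x : (↥L)ˣ)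
    (hx : Units.map (L.val : ↥L →* AlgebraicClosure ℚ) x ∈ unitsS S) :
    thetaL S L hL (Additive.ofMul (jlDiag S ↥L x)) =
      (iDiag S).hom (Additive.ofMul (⟨_, hx⟩ : ↥(unitsS S))) := by
  apply Subtype.ext
  funext v g
  rw [thetaL_jlDiag_apply]
  rfl

end Fermat.Agent.PT.B

end


end ZBPT_009_3

/-! ### bundled: `Fermat.Agent.PT.B.Compare1` -/
section ZBPT_009_4
/-
PT-B, piece **compare**, part 1: Galois dictionary for tower fields and the KEY LEMMA
`π(θ_L z) = 0 ↔ csOfJ z = 0` (the kernel of `J_L → C_S = J_S/E_S` is the group of `S`-units of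
`L`, which is also the kernel of `J_L → C_S(L)`).
-/

set_option autoImplicit false
set_option linter.style.haveILetI false

noncomputable section

namespace Fermat.Agent.PT.B

open Fermat.Agent.PT CategoryTheory groupCohomology ExtCitation
open Fermat.Agent.PT.G Fermat.Agent.PT.G1
open scoped Pointwise TensorProduct

/-! ### Galois dictionary -/

theorem cmp_isGalois_qbar : IsGalois ℚ (AlgebraicClosure ℚ) := by
  haveI : IsAlgClosure ℚ (AlgebraicClosure ℚ) :=
    ⟨inferInstance, AlgebraicClosure.isAlgebraic ℚ⟩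
  infer_instance

theorem cmp_normal_qbar : Normal ℚ (AlgebraicClosure ℚ) := by
  haveI : IsAlgClosure ℚ (AlgebraicClosure ℚ) :=
    ⟨inferInstance, AlgebraicClosure.isAlgebraic ℚ⟩
  exact IsAlgClosure.normal ℚ (AlgebraicClosure ℚ)

/-- an element fixed by `Gal(ℚ̄/L)` lies in `L` -/
theorem cmp_mem_of_fixed (L : QbarField) (x : AlgebraicClosure ℚ)
    (h : ∀ s ∈ L.fixingSubgroup, s x = x) : x ∈ L := by
  haveI := cmp_isGalois_qbar
  rw [← InfiniteGalois.fixedField_fixingSubgroup L]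
  exact fun s => h s.1 s.2

/-- every automorphism of a Galois `L/ℚ` lifts to `G_ℚ` -/
theorem cmp_exists_lift (L : QbarField) (hL : IsGalois ℚ L) (σ : ↥L ≃ₐ[ℚ] ↥L) :
    ∃ g : GQ, ∀ x : ↥L, g (x : AlgebraicClosure ℚ) = σ x := by
  haveI := cmp_normal_qbar
  haveI : Normal ℚ ↥L := hL.to_normal
  obtain ⟨g, hg⟩ := AlgEquiv.restrictNormalHom_surjective (F := ℚ) (K₁ := ↥L)
    (AlgebraicClosure ℚ) σ
  refine ⟨g, fun x => ?_⟩
  rw [← hg]
  exact (AlgEquiv.restrictNormal_commutes g ↥L x).symm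

/-- the restriction of `g ∈ G_ℚ` to a Galois `L/ℚ` -/
def cmpRestrict (L : QbarField) (hL : IsGalois ℚ L) (g : GQ) : ↥L ≃ₐ[ℚ] ↥L :=
  haveI : Normal ℚ ↥L := hL.to_normal
  AlgEquiv.restrictNormalHom (F := ℚ) (K₁ := AlgebraicClosure ℚ) ↥L g

theorem cmpRestrict_apply (L : QbarField) (hL : IsGalois ℚ L) (g : GQ) (x : ↥L) :
    g (x : AlgebraicClosure ℚ) = cmpRestrict L hL g x :=
  haveI : Normal ℚ ↥L := hL.to_normal
  (AlgEquiv.restrictNormal_commutes g ↥L x).symm

/-! ### The diagonal is injective -/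

theorem iDiag_injective (S : Finset Nat.Primes) (hS : S.Nonempty) :
    Function.Injective (iDiag S).hom := by
  obtain ⟨q, hq⟩ := hS
  intro e e' h
  have h1 : ((iDiag S).hom e).1 ⟨q, hq⟩ 1 = ((iDiag S).hom e').1 ⟨q, hq⟩ 1 := by rw [h]
  rw [iDiag_apply, iDiag_apply, map_one] at h1
  exact jLocP_injective S q h1

/-! ### The key lemma -/

/-- If `θ_L z` is the diagonal image of `e ∈ E_S`, then `z` is the diagonal image of an `S`-unit
of `L`. -/
theorem cmp_exists_unit_of_thetaL_eq (hT : StmtTens) (hU : StmtUnitsS) (S : Finset Nat.Primes)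
    (hS : S.Nonempty) (L : QbarField) [NumberField L] (hL : L.IsUnramifiedOutside S)
    (hG : IsGalois ℚ L) (z : Additive (JL S ↥L)) (e : (ERep S).V)
    (he : (iDiag S).hom e = thetaL S L hL z) :
    z ∈ LinearMap.range (jlDiagUnits S ↥L) := by
  -- `e` is fixed by `G_L`
  have hfix : ∀ s ∈ L.fixingSubgroup, (ERep S).ρ s e = e := by
    intro s hs
    apply iDiag_injective S hS
    rw [Rep.hom_comm_apply (iDiag S) s e, he, thetaL_invariant S L hL z s hs]
  -- hence `e ∈ L`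
  have hmem : (((Additive.toMul (e : Additive ↥(unitsS S)) : ↥(unitsS S)) :
      (AlgebraicClosure ℚ)ˣ) : AlgebraicClosure ℚ) ∈ L := by
    apply cmp_mem_of_fixed
    intro s hs
    have := hfix s hs
    exact congrArg (fun e : Additive ↥(unitsS S) =>
      (((Additive.toMul e : ↥(unitsS S)) : (AlgebraicClosure ℚ)ˣ) : AlgebraicClosure ℚ)) this
  have hmem' : (((Additive.toMul (e : Additive ↥(unitsS S)) : ↥(unitsS S)) :
      (AlgebraicClosure ℚ)ˣ)⁻¹ : (AlgebraicClosure ℚ)ˣ).1 ∈ L := by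
    rw [Units.val_inv_eq_inv_val]
    exact inv_mem hmem
  -- the unit of `L`
  let e₀ : (↥L)ˣ := ⟨⟨_, hmem⟩, ⟨_, hmem'⟩, Subtype.ext (Units.mul_inv _), Subtype.ext (Units.inv_mul _)⟩
  have he₀ : Units.map (L.val : ↥L →* AlgebraicClosure ℚ) e₀ =
      ((Additive.toMul (e : Additive ↥(unitsS S)) : ↥(unitsS S)) : (AlgebraicClosure ℚ)ˣ) :=
    Units.ext rfl
  have hin : Units.map (L.val : ↥L →* AlgebraicClosure ℚ) e₀ ∈ unitsS S := by
    rw [he₀]
    exact (Additive.toMul (e : Additive ↥(unitsS S)) : ↥(unitsS S)).2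
  have hn : e₀ ∈ nUnits (sProd S) ↥L := (hU S L hL e₀).1 hin
  refine ⟨Additive.ofMul ⟨e₀, hn⟩, ?_⟩
  apply (hT S L hL hG).1
  rw [← he]
  have h2 := thetaL_jlDiag_of_mem S L hL e₀ hin
  refine h2.trans ?_
  congr 1

/-- **KEY LEMMA**: `π(θ_L z) = 0 ↔ csOfJ z = 0`. -/
theorem piC_thetaL_eq_zero_iff (hT : StmtTens) (hU : StmtUnitsS) (S : Finset Nat.Primes)
    (hS : S.Nonempty) (L : QbarField) [NumberField L] (hL : L.IsUnramifiedOutside S)
    (hG : IsGalois ℚ L) (z : Additive (JL S ↥L)) :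
    (piC S).hom (thetaL S L hL z) = 0 ↔ csOfJ S ↥L z = 0 := by
  rw [← LinearMap.mem_ker, cse_ker_csOfJ, piC_eq_zero_iff]
  constructor
  · rintro ⟨e, he⟩
    exact cmp_exists_unit_of_thetaL_eq hT hU S hS L hL hG z e he
  · rintro ⟨u, rfl⟩
    have hin : Units.map (L.val : ↥L →* AlgebraicClosure ℚ)
        ((Additive.toMul u : ↥(nUnits (∏ q ∈ S, (q : ℕ)) ↥L)) : (↥L)ˣ) ∈ unitsS S :=
      (hU S L hL _).2 (Additive.toMul u).2
    exact ⟨Additive.ofMul ⟨_, hin⟩, (thetaL_jlDiag_of_mem S L hL _ hin).symm⟩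

end Fermat.Agent.PT.B

end


end ZBPT_009_4

/-! ### bundled: `Fermat.Agent.PT.B.Instance` -/
section ZBPT_009_5
/-
PT-B, piece **B-inst**: the concrete Poitou–Tate datum for `(p, S)` (NOTES/PT-instance.md) and
S55 from the five hard axioms `StmtCmGlob`, `StmtCmLoc`, `StmtH90Loc`, `StmtExistC`, `StmtSurvC`
(PT/B/Plan3.lean, Plan4.lean), the abstract theorem `StmtPTF` and the mirror `stmtMirror`.
-/

set_option autoImplicit false
set_option linter.style.haveILetI false

noncomputable section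

namespace Fermat.Agent.PT.B

open Fermat.Agent.PT CategoryTheory groupCohomology ExtCitation
open scoped Pointwise

/-- **The concrete datum** for `(p, S)`, `p ∈ S` odd, given the five hard axioms. -/
def concreteDatum (p : ℕ) [Fact p.Prime] (hp2 : p ≠ 2) (S : Finset Nat.Primes)
    (hpS : pPrime p ∈ S) (hcg : StmtCmGlob) (hcl : StmtCmLoc) (hh : StmtH90Loc)
    (hex : StmtExistC) (hsv : StmtSurvC) : PTDatum p GQ ↥S (GlocS S) where
  𝒯 := towerS S
  r := rS S
  𝒯loc := towerLocS S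
  comap_mem := fun v U hU =>
    letI : Fact ((v : Nat.Primes) : ℕ).Prime := ⟨(v : Nat.Primes).2⟩
    comap_mem_towerLoc S ((v : Nat.Primes) : ℕ) U hU
  χ := cycloChar p
  χ_level := by
    obtain ⟨L, hL, h⟩ := stmtCycloField p S hpS
    exact ⟨L.fixingSubgroup, ⟨L, hL.1, rfl⟩, h⟩
  E := ERep S
  C := CRep S
  Jloc := JlocS S
  E_discrete := ERep_discrete S
  C_discrete := CRep_discrete S
  Jloc_discrete := fun v x =>
    letI : Fact ((v : Nat.Primes) : ℕ).Prime := ⟨(v : Nat.Primes).2⟩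
    stmtJlocDiscrete ((v : Nat.Primes) : ℕ) x
  j := jS S
  j_injective := fun v => jLocP_injective S v.1
  i := iDiag S
  i_apply := iDiag_apply S
  i_injective := iDiag_injective S ⟨_, hpS⟩
  π := piC S
  exact := piC_eq_zero_iff S
  π_surj := piC_surjective S
  ζ := zetaE p S hpS
  ζ_ne := zetaE_ne p S hpS
  ζ_tors := zetaE_tors p S hpS
  ζ_gen := zetaE_gen p S hpS
  ζ_char := zetaE_char p S hpS
  E_div := stmtEDiv p S hpS
  J_div := fun v x =>
    letI : Fact ((v : Nat.Primes) : ℕ).Prime := ⟨(v : Nat.Primes).2⟩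
    stmtJDiv p ((v : Nat.Primes) : ℕ) x
  J_tors := fun v x hx =>
    letI : Fact ((v : Nat.Primes) : ℕ).Prime := ⟨(v : Nat.Primes).2⟩
    jlocQ_tors p S hpS ((v : Nat.Primes) : ℕ) x hx
  cm_glob := fun U _ hU => hcg p hp2 S hpS U hU
  cm_loc := fun v V hn hV =>
    @hcl p _ ((v : Nat.Primes) : ℕ) ⟨(v : Nat.Primes).2⟩ V hn hV
  h90_loc := fun v V hn hV =>
    @hh ((v : Nat.Primes) : ℕ) ⟨(v : Nat.Primes).2⟩ V hn hV
  exist := hex p hp2 S hpS
  surv := hsv p hp2 S hpS

theorem concreteDatum_isConcrete (p : ℕ) [Fact p.Prime] (hp2 : p ≠ 2) (S : Finset Nat.Primes)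
    (hpS : pPrime p ∈ S) (hcg : StmtCmGlob) (hcl : StmtCmLoc) (hh : StmtH90Loc)
    (hex : StmtExistC) (hsv : StmtSurvC) :
    IsConcreteDatum p S (concreteDatum p hp2 S hpS hcg hcl hh hex hsv) :=
  ⟨rfl, fun _ => rfl, fun _ => rfl, rfl⟩

/-- **S55 from the five hard axioms** (and the abstract Poitou–Tate theorem). -/
theorem s55_of (hF : StmtPTF) (hcg : StmtCmGlob) (hcl : StmtCmLoc) (hh : StmtH90Loc)
    (hex : StmtExistC) (hsv : StmtSurvC)
    {p : ℕ} [Fact p.Prime] (hp2 : p ≠ 2) (S : Finset Nat.Primes) (hpS : pPrime p ∈ S)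
    (M : Rep (ZMod p) (AlgebraicClosure ℚ ≃ₐ[ℚ] AlgebraicClosure ℚ))
    [FiniteDimensional (ZMod p) M]
    (hsm : ∀ m : M, ∃ F : IntermediateField ℚ (AlgebraicClosure ℚ), FiniteDimensional ℚ F ∧
      ∀ s ∈ F.fixingSubgroup, M.ρ s m = m)
    (hMur : ∀ q : Nat.Primes, q ∉ S → ∀ A : ValuationSubring (AlgebraicClosure ℚ),
      A.LiesOverPrime (q : ℕ) → ∀ g ∈ A.inertiaSubgroupIn ℚ, M.ρ g = 1) :
    ∃ B : sha₁ S (M.dualTwist (cycloChar p)) →ₗ[ZMod p] sha₂ S M →ₗ[ZMod p] ZMod p,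
      (∀ y, (∀ x, B y x = 0) → y = 0) ∧ (∀ x, (∀ y, B y x = 0) → x = 0) :=
  stmtMirror hF p hp2 S hpS (concreteDatum p hp2 S hpS hcg hcl hh hex hsv)
    (concreteDatum_isConcrete p hp2 S hpS hcg hcl hh hex hsv) M hsm hMur

end Fermat.Agent.PT.B

end


end ZBPT_009_5
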