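/- GENERATED FILE (helper35, build-time optimisation, NOTES/ZB.md): verbatim concatenation of the modules
   Fermat.Agent.TW.F.GW
   Fermat.Agent.TW.F.Plan
   Fermat.Agent.TW.L.Plan4
   Fermat.Agent.TW.L.LocExist
   Fermat.Agent.TW.W.GrUnr
   Do not edit; do not import together with these modules. -/
import Mathlib
import Fermat.Agent.ZB.PT_002
import Fermat.Agent.ZB.PT_007
import Fermat.Agent.ZB.PT_004
import Fermat.Agent.ZB.PT_003
import Fermat.Agent.ZB.PT_009
import Fermat.Agent.ZB.TW_004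
import Fermat.Agent.ZB.Common_003

/-! ### bundled: `Fermat.Agent.TW.F.GW` -/
section ZBTW_006_0

/-!
# TW-F / F-gw (helper86): the Greenberg–Wiles inequality — the linear algebra

Pure linear algebra over a field `k` (glue style, as `Fermat.Agent.PT.F.glue_sha_pairing`).

Data: `loc : H1 → P`, `loc' : H1' → P'` (global-to-local maps for `A` and for `A'`), a pairing
`B : P × P' → k` with trivial left and right kernel (sum of the local Tate pairings), reciprocity
`B (loc x) (loc' y) = 0`, and a subspace `L ≤ P` (the local conditions) with annihilator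
`L^⊥ = gwPerp B L ≤ P'`.  Selmer groups: `Sel_L = L.comap loc`, `Sel_{L^⊥} = (gwPerp B L).comap loc'`.

* `gw_selmer_le` :  `dim Sel_L + dim H1' ≤ dim ker loc + dim L + dim Sel_{L^⊥}`.
* `gw_inequality` : with the numerical inputs (F-sha) `dim ker loc = dim ker loc₂'`,
  (F-h2) `dim Q' ≤ dim range loc₂' + h⁰(A)`, `Σ_v h⁰(G_v, A) ≤ dim Q'` and the Euler characteristic
  bound (EC) `h⁰(A') + dim H2' + e ≤ dim H1'`:
  `dim Sel_L + h⁰(A') + e + Σ_v h⁰(G_v, A) ≤ dim Sel_{L^⊥} + h⁰(A) + dim L`.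
-/

set_option autoImplicit false

namespace Fermat.Agent.TW.F

open Module

variable {k : Type*} [Field k]
  {H1 H1' P P' : Type*}
  [AddCommGroup H1] [Module k H1] [AddCommGroup H1'] [Module k H1']
  [AddCommGroup P] [Module k P] [AddCommGroup P'] [Module k P']

/-- the annihilator in `P'` of a subspace of `P` -/
def gwPerp (B : P →ₗ[k] P' →ₗ[k] k) (L : Submodule k P) : Submodule k P' where
  carrier := {y | ∀ x ∈ L, B x y = 0}
  add_mem' := fun {a b} ha hb x hx => by rw [map_add, ha x hx, hb x hx, add_zero]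
  zero_mem' := fun x _ => by rw [map_zero]
  smul_mem' := fun c a ha x hx => by rw [map_smul, ha x hx, smul_zero]

/-- the annihilator in `P` of a subspace of `P'` -/
def gwPerpL (B : P →ₗ[k] P' →ₗ[k] k) (W : Submodule k P') : Submodule k P where
  carrier := {x | ∀ y ∈ W, B x y = 0}
  add_mem' := fun {a b} ha hb y hy => by
    rw [map_add, LinearMap.add_apply, ha y hy, hb y hy, add_zero]
  zero_mem' := fun y _ => by rw [map_zero, LinearMap.zero_apply]
  smul_mem' := fun c a ha y hy => by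
    rw [map_smul, LinearMap.smul_apply, ha y hy, smul_zero]

lemma gw_mem_perp (B : P →ₗ[k] P' →ₗ[k] k) (L : Submodule k P) (y : P') :
    y ∈ gwPerp B L ↔ ∀ x ∈ L, B x y = 0 := Iff.rfl

lemma gw_mem_perpL (B : P →ₗ[k] P' →ₗ[k] k) (W : Submodule k P') (x : P) :
    x ∈ gwPerpL B W ↔ ∀ y ∈ W, B x y = 0 := Iff.rfl

/-- `dim W^⊥ + dim W = dim P` when the right kernel is trivial. -/
lemma gw_finrank_perpL [FiniteDimensional k P] (B : P →ₗ[k] P' →ₗ[k] k)
    (hBr : ∀ y, (∀ x, B x y = 0) → y = 0) (W : Submodule k P') :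
    finrank k (gwPerpL B W) + finrank k W = finrank k P := by
  have hinj : Function.Injective B.flip := by
    rw [← LinearMap.ker_eq_bot, LinearMap.ker_eq_bot']
    intro y hy
    exact hBr y (fun x => by
      have := LinearMap.congr_fun hy x
      simpa using this)
  have h1 : finrank k (W.map B.flip) = finrank k W :=
    (Submodule.equivMapOfInjective B.flip hinj W).finrank_eq.symm
  have h2 : gwPerpL B W = (W.map B.flip).dualCoannihilator := by
    ext x
    rw [gw_mem_perpL, Submodule.mem_dualCoannihilator]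
    constructor
    · rintro h φ ⟨y, hy, rfl⟩
      exact h y hy
    · intro h y hy
      exact h (B.flip y) ⟨y, hy, rfl⟩
  have h3 := Subspace.finrank_add_finrank_dualCoannihilator_eq (W.map B.flip)
  rw [h2, add_comm]
  exact (congrArg (· + _) h1.symm).trans h3

/-- `dim P' ≤ dim L + dim L^⊥`. -/
lemma gw_finrank_perp_ge [FiniteDimensional k P] [FiniteDimensional k P']
    (B : P →ₗ[k] P' →ₗ[k] k) (L : Submodule k P) :
    finrank k P' ≤ finrank k L + finrank k (gwPerp B L) := by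
  let ψ : P' →ₗ[k] Module.Dual k L := (B.domRestrict L).flip
  have hker : LinearMap.ker ψ = gwPerp B L := by
    ext y
    rw [LinearMap.mem_ker, gw_mem_perp]
    constructor
    · intro h x hx
      have := LinearMap.congr_fun h ⟨x, hx⟩
      simpa [ψ] using this
    · intro h
      ext x
      simpa [ψ] using h x.1 x.2
  have h1 := LinearMap.finrank_range_add_finrank_ker ψ
  have h2 : finrank k (LinearMap.range ψ) ≤ finrank k (Module.Dual k L) :=
    Submodule.finrank_le _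
  have h3 : finrank k (Module.Dual k L) = finrank k L := Subspace.dual_finrank_eq
  have h4 : finrank k (LinearMap.range ψ) ≤ finrank k L := le_of_le_of_eq h2 h3
  rw [hker] at h1
  omega

/-- `dim P ≤ dim P'` when the left kernel is trivial. -/
lemma gw_finrank_le [FiniteDimensional k P] [FiniteDimensional k P']
    (B : P →ₗ[k] P' →ₗ[k] k) (hBl : ∀ x, (∀ y, B x y = 0) → x = 0) :
    finrank k P ≤ finrank k P' := by
  have hinj : Function.Injective B := by
    rw [← LinearMap.ker_eq_bot, LinearMap.ker_eq_bot']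
    intro x hx
    exact hBl x (fun y => by rw [hx, LinearMap.zero_apply])
  have h1 := LinearMap.finrank_le_finrank_of_injective hinj
  have h3 : finrank k (Module.Dual k P') = finrank k P' := Subspace.dual_finrank_eq
  exact le_of_le_of_eq h1 h3

/-- dimension of a Selmer group: `dim loc⁻¹(L) = dim ker loc + dim (range loc ⊓ L)`. -/
lemma gw_finrank_comap [FiniteDimensional k H1] (loc : H1 →ₗ[k] P) (L : Submodule k P) :
    finrank k (L.comap loc) =
      finrank k (LinearMap.ker loc) + finrank k ↥(LinearMap.range loc ⊓ L) := by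
  let f : ↥(L.comap loc) →ₗ[k] P := loc.domRestrict (L.comap loc)
  have h1 := LinearMap.finrank_range_add_finrank_ker f
  have hr : LinearMap.range f = LinearMap.range loc ⊓ L := by
    ext z
    constructor
    · rintro ⟨⟨x, hx⟩, rfl⟩
      exact ⟨⟨x, rfl⟩, hx⟩
    · rintro ⟨⟨x, rfl⟩, hz⟩
      exact ⟨⟨x, hz⟩, rfl⟩
  have hk : finrank k (LinearMap.ker f) = finrank k (LinearMap.ker loc) := by
    have hle : LinearMap.ker loc ≤ L.comap loc := by
      intro x hx
      rw [Submodule.mem_comap, LinearMap.mem_ker.1 hx]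
      exact L.zero_mem
    have hk' : LinearMap.ker f = (LinearMap.ker loc).comap (L.comap loc).subtype := by
      ext x
      rfl
    rw [hk']
    exact LinearEquiv.finrank_eq (Submodule.comapSubtypeEquivOfLe hle)
  rw [hr, hk] at h1
  omega

/-- **Greenberg–Wiles, the Selmer part**:
`dim Sel_L + dim H1' ≤ dim ker loc + dim L + dim Sel_{L^⊥}`. -/
theorem gw_selmer_le [FiniteDimensional k H1] [FiniteDimensional k H1']
    [FiniteDimensional k P] [FiniteDimensional k P']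
    (loc : H1 →ₗ[k] P) (loc' : H1' →ₗ[k] P') (B : P →ₗ[k] P' →ₗ[k] k)
    (hBl : ∀ x, (∀ y, B x y = 0) → x = 0) (hBr : ∀ y, (∀ x, B x y = 0) → y = 0)
    (hrec : ∀ x y, B (loc x) (loc' y) = 0) (L : Submodule k P) :
    finrank k (L.comap loc) + finrank k H1' ≤
      finrank k (LinearMap.ker loc) + finrank k L + finrank k ((gwPerp B L).comap loc') := by
  have hS := gw_finrank_comap loc L
  have hS' := gw_finrank_comap loc' (gwPerp B L)
  have hrn' := LinearMap.finrank_range_add_finrank_ker loc'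
  -- `range loc ⊓ L ≤ (range loc' ⊔ L^⊥)^⊥`
  have hle : LinearMap.range loc ⊓ L ≤ gwPerpL B (LinearMap.range loc' ⊔ gwPerp B L) := by
    rintro x ⟨⟨x₀, rfl⟩, hxL⟩ y hy
    obtain ⟨y₁, ⟨y₀, rfl⟩, y₂, hy₂, rfl⟩ := Submodule.mem_sup.1 hy
    rw [map_add, hrec, hy₂ _ hxL, add_zero]
  have h1 : finrank k ↥(LinearMap.range loc ⊓ L) ≤
      finrank k (gwPerpL B (LinearMap.range loc' ⊔ gwPerp B L)) :=
    Submodule.finrank_mono hle
  have h2 := gw_finrank_perpL B hBr (LinearMap.range loc' ⊔ gwPerp B L)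
  have h3 := Submodule.finrank_sup_add_finrank_inf_eq (LinearMap.range loc') (gwPerp B L)
  have h4 := gw_finrank_perp_ge B L
  have h5 := gw_finrank_le B hBl
  omega

/-- **Greenberg–Wiles inequality** (abstract form):
`dim Sel_L + h⁰(A') + e + Σ_v h⁰(G_v, A) ≤ dim Sel_{L^⊥} + h⁰(A) + dim L`, from
(F-sha) `dim ker loc = dim ker loc₂'`, (F-h2) `dim Q' ≤ dim range loc₂' + h⁰(A)`,
`Σ_v h⁰(G_v, A) ≤ dim Q'`, and (EC) `h⁰(A') + dim H2' + e ≤ dim H1'`. -/
theorem gw_inequality {H2' Q' : Type*} [AddCommGroup H2'] [Module k H2'] [AddCommGroup Q']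
    [Module k Q'] [FiniteDimensional k H1] [FiniteDimensional k H1']
    [FiniteDimensional k P] [FiniteDimensional k P'] [FiniteDimensional k H2']
    (loc : H1 →ₗ[k] P) (loc' : H1' →ₗ[k] P') (loc₂' : H2' →ₗ[k] Q')
    (B : P →ₗ[k] P' →ₗ[k] k)
    (hBl : ∀ x, (∀ y, B x y = 0) → x = 0) (hBr : ∀ y, (∀ x, B x y = 0) → y = 0)
    (hrec : ∀ x y, B (loc x) (loc' y) = 0) (L : Submodule k P)
    (h0A h0A' hloc0 e : ℕ)
    (hsha : finrank k (LinearMap.ker loc) = finrank k (LinearMap.ker loc₂'))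
    (hh2 : finrank k Q' ≤ finrank k (LinearMap.range loc₂') + h0A)
    (hQ : hloc0 ≤ finrank k Q')
    (hEC : h0A' + finrank k H2' + e ≤ finrank k H1') :
    finrank k (L.comap loc) + h0A' + e + hloc0 ≤
      finrank k ((gwPerp B L).comap loc') + h0A + finrank k L := by
  have h1 := gw_selmer_le loc loc' B hBl hBr hrec L
  have h2 := LinearMap.finrank_range_add_finrank_ker loc₂'
  omega

/-! ### Products: the sum of local pairings and products of local conditions -/

section Pi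

variable {ι : Type*} [Fintype ι] {Pv Pv' : ι → Type*}
  [∀ v, AddCommGroup (Pv v)] [∀ v, Module k (Pv v)]
  [∀ v, AddCommGroup (Pv' v)] [∀ v, Module k (Pv' v)]

/-- the sum of the local pairings, on the products -/
def gwPiPair (Bv : ∀ v, Pv v →ₗ[k] Pv' v →ₗ[k] k) :
    (∀ v, Pv v) →ₗ[k] (∀ v, Pv' v) →ₗ[k] k :=
  ∑ v, (Bv v).compl₁₂ (LinearMap.proj v) (LinearMap.proj v)

lemma gw_piPair_apply (Bv : ∀ v, Pv v →ₗ[k] Pv' v →ₗ[k] k) (x : ∀ v, Pv v) (y : ∀ v, Pv' v) :
    gwPiPair Bv x y = ∑ v, Bv v (x v) (y v) := by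
  simp [gwPiPair, LinearMap.sum_apply, LinearMap.compl₁₂_apply]

lemma gw_piPair_single_left [DecidableEq ι] (Bv : ∀ v, Pv v →ₗ[k] Pv' v →ₗ[k] k) (v : ι)
    (x : Pv v) (y : ∀ v, Pv' v) : gwPiPair Bv (Pi.single v x) y = Bv v x (y v) := by
  rw [gw_piPair_apply, Finset.sum_eq_single v]
  · rw [Pi.single_eq_same]
  · intro w _ hw
    rw [Pi.single_eq_of_ne hw, map_zero, LinearMap.zero_apply]
  · intro h
    exact absurd (Finset.mem_univ v) h

lemma gw_piPair_single_right [DecidableEq ι] (Bv : ∀ v, Pv v →ₗ[k] Pv' v →ₗ[k] k) (v : ι)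
    (x : ∀ v, Pv v) (y : Pv' v) : gwPiPair Bv x (Pi.single v y) = Bv v (x v) y := by
  rw [gw_piPair_apply, Finset.sum_eq_single v]
  · rw [Pi.single_eq_same]
  · intro w _ hw
    rw [Pi.single_eq_of_ne hw, map_zero]
  · intro h
    exact absurd (Finset.mem_univ v) h

/-- the sum of pairings with trivial left kernels has trivial left kernel -/
lemma gw_piPair_left (Bv : ∀ v, Pv v →ₗ[k] Pv' v →ₗ[k] k)
    (h : ∀ v, ∀ x, (∀ y, Bv v x y = 0) → x = 0) :
    ∀ x, (∀ y, gwPiPair Bv x y = 0) → x = 0 := by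
  classical
  intro x hx
  funext v
  refine h v (x v) (fun y => ?_)
  rw [← gw_piPair_single_right Bv v x y]
  exact hx _

/-- the sum of pairings with trivial right kernels has trivial right kernel -/
lemma gw_piPair_right (Bv : ∀ v, Pv v →ₗ[k] Pv' v →ₗ[k] k)
    (h : ∀ v, ∀ y, (∀ x, Bv v x y = 0) → y = 0) :
    ∀ y, (∀ x, gwPiPair Bv x y = 0) → y = 0 := by
  classical
  intro y hy
  funext v
  refine h v (y v) (fun x => ?_)
  rw [← gw_piPair_single_left Bv v x y]
  exact hy _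

/-- the annihilator of a product of local conditions is the product of the annihilators -/
lemma gw_perp_pi (Bv : ∀ v, Pv v →ₗ[k] Pv' v →ₗ[k] k) (L : ∀ v, Submodule k (Pv v)) :
    gwPerp (gwPiPair Bv) (Submodule.pi Set.univ L) =
      Submodule.pi Set.univ (fun v => gwPerp (Bv v) (L v)) := by
  classical
  ext y
  rw [gw_mem_perp, Submodule.mem_pi]
  constructor
  · intro hy v _ x hx
    rw [← gw_piPair_single_left Bv v x y]
    refine hy _ ?_
    rw [Submodule.mem_pi]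
    intro w _
    by_cases hw : w = v
    · subst hw
      rw [Pi.single_eq_same]
      exact hx
    · rw [Pi.single_eq_of_ne hw]
      exact (L w).zero_mem
  · intro hy x hx
    rw [gw_piPair_apply]
    refine Finset.sum_eq_zero (fun v _ => ?_)
    exact hy v (Set.mem_univ v) (x v) ((Submodule.mem_pi.1 hx) v (Set.mem_univ v))

/-- the product of the local conditions, as a product of modules -/
def gwPiEquiv (L : ∀ v, Submodule k (Pv v)) :
    ↥(Submodule.pi Set.univ L) ≃ₗ[k] (∀ v, ↥(L v)) where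
  toFun x v := ⟨x.1 v, (Submodule.mem_pi.1 x.2) v (Set.mem_univ v)⟩
  invFun y := ⟨fun v => (y v : Pv v), Submodule.mem_pi.2 (fun v _ => (y v).2)⟩
  left_inv _ := rfl
  right_inv _ := rfl
  map_add' _ _ := rfl
  map_smul' _ _ := rfl

/-- `dim ∏ L_v = Σ_v dim L_v`. -/
lemma gw_finrank_pi [∀ v, FiniteDimensional k (Pv v)] (L : ∀ v, Submodule k (Pv v)) :
    finrank k ↥(Submodule.pi Set.univ L) = ∑ v, finrank k ↥(L v) := by
  rw [(gwPiEquiv L).finrank_eq, Module.finrank_pi_fintype]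

end Pi

end Fermat.Agent.TW.F


end ZBTW_006_0

/-! ### bundled: `Fermat.Agent.TW.F.Plan` -/
section ZBTW_006_1
/-
Project TW (Taylor–Wiles primes, S56; captain helper63) — part TW-F (sub-captain helper68):
THE GREENBERG–WILES INEQUALITY FROM A `PTDatum`.  INTERFACE FILE: definitions and statements only.
Mathematics and piece table: NOTES/TW-F.md.   Linear algebra: TW/F/GW.lean (helper86, landed).

Conventions.  `D : PTDatum p G ι Gloc`.  `A`, `B` : finite `𝔽_p[G]`-modules, trivial on a level,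
in PERFECT `χ`-EQUIVARIANT DUALITY `P : DualPair D.χ A B` (for instance `B = A.dualTwist D.χ`,
`DualPair.std`).  Everything local is stated for `(Gloc v, D.𝒯loc v, D.Jloc v, ζ_v = j_v ζ)`.
The local pairing is the CUP PRODUCT on cochain functions
  `cupCoc P J ζ x y (σ, τ) = β(x σ, σ • y τ).val • ζ`   (a 2-cochain with values in `J`),
so orthogonality of local conditions is intrinsic (no presentation, no choice of invariant map).
A piece `X` is DONE when `theorem stmtX : StmtX` (or `stmtX_of : … → StmtX`) is landed in its own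
file `Fermat/Agent/TW/F/<X>.lean`, namespace `Fermat.Agent.TW.F`, sorry-free, names prefixed.
-/

set_option autoImplicit false

noncomputable section

namespace Fermat.Agent.TW.F

open CategoryTheory groupCohomology Module Fermat.Agent.PT Fermat.Agent.PT.F

/-! ### Dual pairs -/

section DualPair

variable {p : ℕ} {G : Type} [Group G]

/-- A perfect `χ`-equivariant pairing `β : A × B → 𝔽_p`, `β(g a, g b) = χ(g) β(a, b)`. -/
structure DualPair (χ : G →* (ZMod p)ˣ) (A B : Rep.{0} (ZMod p) G) where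
  /-- the pairing -/
  β : A.V →ₗ[ZMod p] B.V →ₗ[ZMod p] ZMod p
  equivariant : ∀ (g : G) (a : A.V) (b : B.V), β (A.ρ g a) (B.ρ g b) = (χ g : ZMod p) * β a b
  left : ∀ a : A.V, (∀ b : B.V, β a b = 0) → a = 0
  right : ∀ b : B.V, (∀ a : A.V, β a b = 0) → b = 0

variable {χ : G →* (ZMod p)ˣ} {A B : Rep.{0} (ZMod p) G}

/-- the flipped pair -/
def DualPair.flip (P : DualPair χ A B) : DualPair χ B A where
  β := P.β.flip
  equivariant g b a := P.equivariant g a b
  left := P.right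
  right := P.left

/-- restriction of a dual pair along `f : H → G` -/
def DualPair.res (P : DualPair χ A B) {H : Type} [Group H] (f : H →* G) :
    DualPair (χ.comp f) (Rep.res f A) (Rep.res f B) where
  β := P.β
  equivariant h a b := P.equivariant (f h) a b
  left := P.left
  right := P.right

/-- the standard pair `A × A^*(χ) → 𝔽_p`, `(a, f) ↦ f a` -/
def DualPair.std [Fact p.Prime] (χ : G →* (ZMod p)ˣ) (A : Rep.{0} (ZMod p) G) :
    DualPair χ A (A.dualTwist χ) where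
  β := (LinearMap.id : Module.Dual (ZMod p) A.V →ₗ[ZMod p] Module.Dual (ZMod p) A.V).flip
  equivariant g a f := by
    show ((A.dualTwist χ).ρ g f) (A.ρ g a) = (χ g : ZMod p) * f a
    rw [Rep.dualTwist_ρ_apply]
    simp only [LinearMap.smul_apply, LinearMap.coe_comp, Function.comp_apply, smul_eq_mul]
    rw [← Module.End.mul_apply, ← map_mul, inv_mul_cancel, map_one, Module.End.one_apply]
  left a h := (Module.forall_dual_apply_eq_zero_iff (ZMod p) a).1 fun f => h f
  right f h := LinearMap.ext fun a => h a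

end DualPair

/-! ### Cup products on cochain functions -/

section Cup

variable {p : ℕ} {G : Type} [Group G] {χ : G →* (ZMod p)ˣ} {A B : Rep.{0} (ZMod p) G}

/-- "`J` contains `μ_p = ⟨ζ⟩` with the action `χ`": `p • ζ = 0` and `g ζ = χ(g) ζ`. -/
def IsKummer (χ : G →* (ZMod p)ˣ) (J : Rep.{0} ℤ G) (ζ : J.V) : Prop :=
  p • ζ = 0 ∧ ∀ g : G, J.ρ g ζ = ((χ g : ZMod p).val) • ζ

/-- the cup product of two 1-cochains: `(x ∪ y)(σ, τ) = β(x σ, σ • y τ) • ζ` -/
def cupCoc (P : DualPair χ A B) (J : Rep.{0} ℤ G) (ζ : J.V) (x : G → A.V) (y : G → B.V) :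
    G × G → J.V :=
  fun στ => ((P.β (x στ.1) (B.ρ στ.1 (y στ.2))).val) • ζ

/-- the cup product of an element of `A` (think: an invariant) with a 2-cochain of `B` -/
def cupZero (P : DualPair χ A B) (J : Rep.{0} ℤ G) (ζ : J.V) (a : A.V) (z : G × G → B.V) :
    G × G → J.V :=
  fun στ => ((P.β a (z στ)).val) • ζ

end Cup

/-! ### Local objects of a datum -/

section Local

variable {p : ℕ} {G : Type} [Group G] {ι : Type} {Gloc : ι → Type} [∀ v, Group (Gloc v)]

/-- the local `p`-th root of unity `ζ_v = j_v(ζ) ∈ J_v` -/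
def zetaLoc (D : PTDatum p G ι Gloc) (v : ι) : (D.Jloc v).V := (D.j v).hom D.ζ

/-- the local cyclotomic character -/
def chiLoc (D : PTDatum p G ι Gloc) (v : ι) : Gloc v →* (ZMod p)ˣ := D.χ.comp (D.r v)

/-- the local level cohomology `H¹_lev(G_v, A)` -/
abbrev locH1 (D : PTDatum p G ι Gloc) (A : Rep.{0} (ZMod p) G) (v : ι) :
    Submodule (ZMod p) (H1 (Rep.res (D.r v) A)) :=
  levH1 (D.𝒯loc v) (Rep.res (D.r v) A)

/-- the local cup product `H¹(G_v, A) × H¹(G_v, B) → H²(G_v, J_v)` on cochain functions -/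
def cupLoc (D : PTDatum p G ι Gloc) {A B : Rep.{0} (ZMod p) G} (P : DualPair D.χ A B) (v : ι)
    (x : Gloc v → A.V) (y : Gloc v → B.V) : Gloc v × Gloc v → (D.Jloc v).V :=
  cupCoc (P.res (D.r v)) (D.Jloc v) (zetaLoc D v) x y

/-- **Local orthogonality** of two classes: the cup product of any two level representatives is
a level coboundary in `J_v`. -/
def LocOrth (D : PTDatum p G ι Gloc) {A B : Rep.{0} (ZMod p) G} (P : DualPair D.χ A B) (v : ι)
    (x : H1 (Rep.res (D.r v) A)) (y : H1 (Rep.res (D.r v) B)) : Prop :=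
  ∀ (cx : cocycles₁ (Rep.res (D.r v) A)) (cy : cocycles₁ (Rep.res (D.r v) B)),
    IsLevel₁ (D.𝒯loc v) (cx : Gloc v → A.V) → IsLevel₁ (D.𝒯loc v) (cy : Gloc v → B.V) →
    (H1π (Rep.res (D.r v) A)).hom cx = x → (H1π (Rep.res (D.r v) B)).hom cy = y →
    cupLoc D P v cx cy ∈ levCoboundaries₂ (D.𝒯loc v) (D.Jloc v)

/-- `L'` is the exact annihilator of the local condition `L` (inside level cohomology). -/
def IsPerp (D : PTDatum p G ι Gloc) {A B : Rep.{0} (ZMod p) G} (P : DualPair D.χ A B) (v : ι)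
    (L : Submodule (ZMod p) (H1 (Rep.res (D.r v) A)))
    (L' : Submodule (ZMod p) (H1 (Rep.res (D.r v) B))) : Prop :=
  ∀ y, y ∈ L' ↔ y ∈ locH1 D B v ∧ ∀ x ∈ L, x ∈ locH1 D A v → LocOrth D P v x y

/-- **The Selmer group** `Sel_L(A) = {x ∈ H¹_lev(G, A) | loc_v x ∈ L_v ∀ v}`. -/
def selLev (D : PTDatum p G ι Gloc) [Fact p.Prime] (A : Rep.{0} (ZMod p) G)
    (L : ∀ v, Submodule (ZMod p) (H1 (Rep.res (D.r v) A))) : Submodule (ZMod p) (H1 A) :=
  levH1 D.𝒯 A ⊓ selmer D.r A L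

/-- `A` is trivial on a level -/
def TrivOnLevel (𝒯 : Tower G) (A : Rep.{0} (ZMod p) G) : Prop :=
  ∃ U ∈ 𝒯.lev, ∀ s ∈ U, A.ρ s = 1

/-- the generic form of the datum axiom `exist` (existence theorem mod `p`) for `(G, 𝒯, C)` -/
def HasExist (p : ℕ) (𝒯 : Tower G) (C : Rep.{0} ℤ G) : Prop :=
  ∀ U ∈ 𝒯.lev, ∃ U₁ ∈ 𝒯.lev, ∃ U' ∈ 𝒯.lev, U₁ ≤ U ∧ U' ≤ U₁ ∧ U₁.Normal ∧ U'.Normal ∧
    ∀ c : C.V, (∀ s ∈ U', C.ρ s c = c) →
      ∃ c' : C.V, (∀ s ∈ U₁, C.ρ s c' = c') ∧
        p • c' = ∑ᶠ t : ↥U₁ ⧸ U'.subgroupOf U₁, C.ρ ((Quotient.out t : ↥U₁) : G) c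

/-- **(LocExist)** the local existence theorem mod `p` — NOT a field of `PTDatum`; to be supplied
for the concrete datum by TW-L / PT-L (`kummerMax`, `compositumNorm`). -/
def LocExist (D : PTDatum p G ι Gloc) : Prop :=
  ∀ v, HasExist p (D.𝒯loc v) (D.Jloc v)

end Local

/-! ### The pieces -/

/-- **F-cup** (cochain calculus; each clause a few lines).  Generic over `(G, 𝒯, J, ζ)`:
1. the cup product of two level 1-cocycles is a level 2-cocycle;
2./3. additivity in each variable (on the nose);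
4. `coboundary ∪ cocycle` and 5. `cocycle ∪ coboundary` are level coboundaries;
6. the cup product is killed by `p` (on the nose). -/
def StmtCupBasic : Prop :=
  ∀ (p : ℕ) [Fact p.Prime] (G : Type) [Group G] (𝒯 : Tower G) (χ : G →* (ZMod p)ˣ)
    (A B : Rep.{0} (ZMod p) G) (P : DualPair χ A B) (J : Rep.{0} ℤ G) (ζ : J.V),
    IsKummer χ J ζ → TrivOnLevel 𝒯 A → TrivOnLevel 𝒯 B →
    (∀ (x : G → A.V) (y : G → B.V), x ∈ cocycles₁ A → y ∈ cocycles₁ B → IsLevel₁ 𝒯 x →
      IsLevel₁ 𝒯 y → cupCoc P J ζ x y ∈ levCocycles₂ 𝒯 J) ∧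
    (∀ (x x' : G → A.V) (y : G → B.V),
      cupCoc P J ζ (x + x') y - (cupCoc P J ζ x y + cupCoc P J ζ x' y) ∈ levCoboundaries₂ 𝒯 J) ∧
    (∀ (x : G → A.V) (y y' : G → B.V),
      cupCoc P J ζ x (y + y') - (cupCoc P J ζ x y + cupCoc P J ζ x y') ∈ levCoboundaries₂ 𝒯 J) ∧
    (∀ (x : G → A.V) (y : G → B.V), x ∈ coboundaries₁ A → y ∈ cocycles₁ B → IsLevel₁ 𝒯 y →
      cupCoc P J ζ x y ∈ levCoboundaries₂ 𝒯 J) ∧
    (∀ (x : G → A.V) (y : G → B.V), x ∈ cocycles₁ A → IsLevel₁ 𝒯 x → y ∈ coboundaries₁ B →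
      cupCoc P J ζ x y ∈ levCoboundaries₂ 𝒯 J) ∧
    (∀ (x : G → A.V) (y : G → B.V), p • cupCoc P J ζ x y = 0)

/-- **F-anti** (anticommutativity): `x ∪ y + (y ∪ x)ᵗ = -d h`, `h σ = β(x σ, y σ) ζ`.  Here
`(y ∪ x)` is formed with the flipped pair, so no transposition of arguments is needed:
`cupCoc P.flip y x (σ, τ) = β(σ x τ, y σ) ζ`. -/
def StmtCupAnti : Prop :=
  ∀ (p : ℕ) [Fact p.Prime] (G : Type) [Group G] (𝒯 : Tower G) (χ : G →* (ZMod p)ˣ)
    (A B : Rep.{0} (ZMod p) G) (P : DualPair χ A B) (J : Rep.{0} ℤ G) (ζ : J.V),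
    IsKummer χ J ζ →
    ∀ (x : G → A.V) (y : G → B.V), x ∈ cocycles₁ A → y ∈ cocycles₁ B → IsLevel₁ 𝒯 x →
      IsLevel₁ 𝒯 y → cupCoc P J ζ x y + cupCoc P.flip J ζ y x ∈ levCoboundaries₂ 𝒯 J

/-- **F-conn** (connecting map and comparison with the PT-F pairing).  Generic over `(G, 𝒯, J, ζ)`
with `J` discrete, `p`-divisible, `J[p] = ⟨ζ⟩`; `Pr` a presentation of `B`.  For every
`g : M₁ ⟶ J` there is a level 1-cocycle `x` of `A` (namely `x σ = κ⁻¹(σ g̃ σ⁻¹ - g̃)`, `g̃` an
additive extension of `g` to `M₀`, `StmtExt`) with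
`pairCoc Pr g c + x ∪ c = d u`, `u σ = g̃ (s (c σ))`, for all level 1-cocycles `c` of `B`. -/
def StmtConnCmp : Prop :=
  ∀ (p : ℕ) [Fact p.Prime] (G : Type) [Group G] (𝒯 : Tower G) (χ : G →* (ZMod p)ˣ)
    (A B : Rep.{0} (ZMod p) G) [FiniteDimensional (ZMod p) A] [FiniteDimensional (ZMod p) B]
    (P : DualPair χ A B) (J : Rep.{0} ℤ G) (ζ : J.V),
    IsKummer χ J ζ → IsDiscrete 𝒯 J → (∀ x : J.V, ∃ y : J.V, p • y = x) →
    (∀ x : J.V, p • x = 0 → ∃ n : ℕ, x = n • ζ) → ζ ≠ 0 →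
    ∀ (Pr : Presentation 𝒯 B) (g : Pr.M₁ ⟶ J),
      ∃ x : G → A.V, x ∈ cocycles₁ A ∧ IsLevel₁ 𝒯 x ∧
        ∀ c : G → B.V, c ∈ cocycles₁ B → IsLevel₁ 𝒯 c →
          pairCoc Pr g c + cupCoc P J ζ x c ∈ levCoboundaries₂ 𝒯 J

/-- **F-connSurj** (the connecting map is onto; Hilbert 90 + Shapiro, i.e. `In4`): every level
1-cocycle `x` of `A` on `G_v` is, up to a coboundary, the cocycle attached to some `g : M₁ ⟶ J_v`. -/
def StmtConnSurj : Prop :=
  ∀ (p : ℕ) [Fact p.Prime] (G : Type) [Group G] (ι : Type) [Fintype ι] (Gloc : ι → Type)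
    [∀ v, Group (Gloc v)] (D : PTDatum p G ι Gloc)
    (A B : Rep.{0} (ZMod p) G) [FiniteDimensional (ZMod p) A] [FiniteDimensional (ZMod p) B]
    (P : DualPair D.χ A B) (Pr : Presentation D.𝒯 B), In4 D Pr.M₀ →
    ∀ (v : ι) (x : Gloc v → A.V), x ∈ cocycles₁ (Rep.res (D.r v) A) → IsLevel₁ (D.𝒯loc v) x →
      ∃ g : Rep.res (D.r v) Pr.M₁ ⟶ D.Jloc v,
        ∀ c : Gloc v → B.V, c ∈ cocycles₁ (Rep.res (D.r v) B) → IsLevel₁ (D.𝒯loc v) c →
          pairCoc (LocNondeg.presRes Pr (D.𝒯loc v) (D.r v) (D.comap_mem v)) g c + cupLoc D P v x c ∈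
            levCoboundaries₂ (D.𝒯loc v) (D.Jloc v)

/-- **F-locRight** (local Tate duality, right kernel): a level 1-cocycle `y` of `B` on `G_v` whose
cup product with every level 1-cocycle of `A` is a level coboundary, is a coboundary.
(`StmtRightKer` for `(G_v, 𝒯loc v, J_v)` with the standard presentation of `B`, and `StmtConnCmp`.) -/
def StmtLocRight : Prop :=
  ∀ (p : ℕ) [Fact p.Prime] (G : Type) [Group G] (ι : Type) [Fintype ι] (Gloc : ι → Type)
    [∀ v, Group (Gloc v)] (D : PTDatum p G ι Gloc)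
    (A B : Rep.{0} (ZMod p) G) [FiniteDimensional (ZMod p) A] [FiniteDimensional (ZMod p) B]
    (P : DualPair D.χ A B), TrivOnLevel D.𝒯 A → TrivOnLevel D.𝒯 B →
    ∀ (v : ι) (y : Gloc v → B.V), y ∈ cocycles₁ (Rep.res (D.r v) B) → IsLevel₁ (D.𝒯loc v) y →
      (∀ x : Gloc v → A.V, x ∈ cocycles₁ (Rep.res (D.r v) A) → IsLevel₁ (D.𝒯loc v) x →
        cupLoc D P v x y ∈ levCoboundaries₂ (D.𝒯loc v) (D.Jloc v)) →
      y ∈ coboundaries₁ (Rep.res (D.r v) B)

/-- **F-locLeft** (local Tate duality, left kernel) — from `StmtLocRight` for the flipped pair and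
`StmtCupAnti`. -/
def StmtLocLeft : Prop :=
  ∀ (p : ℕ) [Fact p.Prime] (G : Type) [Group G] (ι : Type) [Fintype ι] (Gloc : ι → Type)
    [∀ v, Group (Gloc v)] (D : PTDatum p G ι Gloc)
    (A B : Rep.{0} (ZMod p) G) [FiniteDimensional (ZMod p) A] [FiniteDimensional (ZMod p) B]
    (P : DualPair D.χ A B), TrivOnLevel D.𝒯 A → TrivOnLevel D.𝒯 B →
    ∀ (v : ι) (x : Gloc v → A.V), x ∈ cocycles₁ (Rep.res (D.r v) A) → IsLevel₁ (D.𝒯loc v) x →
      (∀ y : Gloc v → B.V, y ∈ cocycles₁ (Rep.res (D.r v) B) → IsLevel₁ (D.𝒯loc v) y →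
        cupLoc D P v x y ∈ levCoboundaries₂ (D.𝒯loc v) (D.Jloc v)) →
      x ∈ coboundaries₁ (Rep.res (D.r v) A)

/-- **F-fin** (finiteness of local level cohomology), from the local existence theorem.
(Generic versions of PT-F `StmtLeftKer`, `StmtH1Finite` for `(G_v, 𝒯loc v, J_v)`.) -/
def StmtLocFin : Prop :=
  ∀ (p : ℕ) [Fact p.Prime] (G : Type) [Group G] (ι : Type) [Fintype ι] (Gloc : ι → Type)
    [∀ v, Group (Gloc v)] (D : PTDatum p G ι Gloc), LocExist D →
    ∀ (A : Rep.{0} (ZMod p) G) [FiniteDimensional (ZMod p) A], TrivOnLevel D.𝒯 A →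
    ∀ v, Finite ↥(locH1 D A v)

/-- **F-glofin** (finiteness of global level cohomology) = PT-F `StmtH1Finite` with the standard
presentation. -/
def StmtGloFin : Prop :=
  ∀ (p : ℕ) [Fact p.Prime] (G : Type) [Group G] (ι : Type) [Fintype ι] (Gloc : ι → Type)
    [∀ v, Group (Gloc v)] (D : PTDatum p G ι Gloc)
    (A : Rep.{0} (ZMod p) G) [FiniteDimensional (ZMod p) A], TrivOnLevel D.𝒯 A →
    Finite ↥(levH1 D.𝒯 A)

/-- **F-rec** (the local invariant maps and RECIPROCITY).  There are injective additive maps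
`λ_v : H²_lev(G_v, J_v)[p] → 𝔽_p` (depending only on `D`) such that for all dual pairs and all
global level 1-cocycles `x` of `A`, `y` of `B`:  `Σ_v λ_v [res_v x ∪ res_v y] = 0`.
(The class `[res_v x ∪ res_v y]` is given by any level 2-cocycle `w v` equal to the cup product.)
Proof: NOTES/TW-F.md §rec (the global cup product has values in `E`, so it dies in `C`;
`λ_v := inv_glob ∘ π_*` on `v`-supported classes; `surv`, `StmtIn2a`, `levH2_pTorsion_cyclic`). -/
def StmtRec : Prop :=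
  ∀ (p : ℕ) [Fact p.Prime] (G : Type) [Group G] (ι : Type) [Fintype ι] (Gloc : ι → Type)
    [∀ v, Group (Gloc v)] (D : PTDatum p G ι Gloc),
    ∃ lam : ∀ v, ↥(pTors p (levH2 (D.𝒯loc v) (D.Jloc v))) →+ ZMod p,
      (∀ v, Function.Injective (lam v)) ∧
      ∀ (A B : Rep.{0} (ZMod p) G) (P : DualPair D.χ A B), TrivOnLevel D.𝒯 A →
        TrivOnLevel D.𝒯 B →
        ∀ (x : G → A.V) (y : G → B.V), x ∈ cocycles₁ A → y ∈ cocycles₁ B → IsLevel₁ D.𝒯 x →
          IsLevel₁ D.𝒯 y →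
          ∀ (w : ∀ v, ↥(levCocycles₂ (D.𝒯loc v) (D.Jloc v)))
            (_ : ∀ v, ((w v : Gloc v × Gloc v → (D.Jloc v).V)) =
              cupLoc D P v (resOne D v x) (resOne D v y))
            (hp : ∀ v, levH2π (D.𝒯loc v) (D.Jloc v) (w v) ∈ pTors p (levH2 (D.𝒯loc v) (D.Jloc v))),
            ∑ v, lam v ⟨levH2π (D.𝒯loc v) (D.Jloc v) (w v), hp v⟩ = 0

/-- **F-pair** (the local pairings on classes).  For injective `λ_v` there are bilinear maps
`B_v : H¹_lev(G_v, A) × H¹_lev(G_v, B) → 𝔽_p` with `B_v([x],[y]) = λ_v [x ∪ y]` on level cocycles.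
(`StmtCupBasic`; same technique as PT-F `stmtPairH1_of`.) -/
def StmtLocPair : Prop :=
  ∀ (p : ℕ) [Fact p.Prime] (G : Type) [Group G] (ι : Type) [Fintype ι] (Gloc : ι → Type)
    [∀ v, Group (Gloc v)] (D : PTDatum p G ι Gloc)
    (lam : ∀ v, ↥(pTors p (levH2 (D.𝒯loc v) (D.Jloc v))) →+ ZMod p)
    (A B : Rep.{0} (ZMod p) G) (P : DualPair D.χ A B), TrivOnLevel D.𝒯 A → TrivOnLevel D.𝒯 B →
    ∀ v, ∃ Bv : ↥(locH1 D A v) →ₗ[ZMod p] ↥(locH1 D B v) →ₗ[ZMod p] ZMod p,
      ∀ (cx : cocycles₁ (Rep.res (D.r v) A)) (cy : cocycles₁ (Rep.res (D.r v) B))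
        (hx : IsLevel₁ (D.𝒯loc v) (cx : Gloc v → A.V))
        (hy : IsLevel₁ (D.𝒯loc v) (cy : Gloc v → B.V))
        (w : ↥(levCocycles₂ (D.𝒯loc v) (D.Jloc v)))
        (_ : (w : Gloc v × Gloc v → (D.Jloc v).V) = cupLoc D P v cx cy)
        (hp : levH2π (D.𝒯loc v) (D.Jloc v) w ∈ pTors p (levH2 (D.𝒯loc v) (D.Jloc v))),
        Bv ⟨(H1π _).hom cx, (mem_levH1_iff _ _ _).2 ⟨cx, hx, rfl⟩⟩
            ⟨(H1π _).hom cy, (mem_levH1_iff _ _ _).2 ⟨cy, hy, rfl⟩⟩ =
          lam v ⟨levH2π (D.𝒯loc v) (D.Jloc v) w, hp⟩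

/-- **F-sha**: `dim Ш¹(A) = dim Ш²(B)` for a dual pair (`stmtPTF` for `B`, transported along
`A ≅ B.dualTwist χ`, `a ↦ β(a, ·)`; finiteness from `StmtGloFin`). -/
def StmtShaEq : Prop :=
  ∀ (p : ℕ) [Fact p.Prime] (G : Type) [Group G] (ι : Type) [Fintype ι] (Gloc : ι → Type)
    [∀ v, Group (Gloc v)] (D : PTDatum p G ι Gloc)
    (A B : Rep.{0} (ZMod p) G) [FiniteDimensional (ZMod p) A] [FiniteDimensional (ZMod p) B]
    (_ : DualPair D.χ A B), TrivOnLevel D.𝒯 A → TrivOnLevel D.𝒯 B →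
    finrank (ZMod p) ↥(D.shaOne A) = finrank (ZMod p) ↥(D.shaTwo B)

/-- **F-gw1** (first half of Greenberg–Wiles; needs NO Euler characteristic and NO `H²`):
`dim Sel_L(A) + h¹(B) ≤ dim Ш¹(A) + Σ_v dim L_v + dim Sel_{L^⊥}(B)`. -/
def StmtGW1 : Prop :=
  ∀ (p : ℕ) [Fact p.Prime] (G : Type) [Group G] (ι : Type) [Fintype ι] (Gloc : ι → Type)
    [∀ v, Group (Gloc v)] (D : PTDatum p G ι Gloc), LocExist D →
    ∀ (A B : Rep.{0} (ZMod p) G) [FiniteDimensional (ZMod p) A] [FiniteDimensional (ZMod p) B]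
      (P : DualPair D.χ A B), TrivOnLevel D.𝒯 A → TrivOnLevel D.𝒯 B →
    ∀ (L : ∀ v, Submodule (ZMod p) (H1 (Rep.res (D.r v) A)))
      (L' : ∀ v, Submodule (ZMod p) (H1 (Rep.res (D.r v) B))),
      (∀ v, L v ≤ locH1 D A v) → (∀ v, IsPerp D P v (L v) (L' v)) →
      finrank (ZMod p) ↥(selLev D A L) + finrank (ZMod p) ↥(levH1 D.𝒯 B) ≤
        finrank (ZMod p) ↥(D.shaOne A) + (∑ v, finrank (ZMod p) ↥(L v)) +
          finrank (ZMod p) ↥(selLev D B L')

/-- **F-mid** (exactness in the middle of the nine-term sequence, the HARD inclusion):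
a family of local level classes of `A` which is orthogonal to the image of `H¹_lev(G, B)` comes
from a global level class.  (PT-F `StmtLeftKer` + `StmtCMP` + `StmtConnSurj` + a snake chase in
`0 → E → J → C`; NOTES/TW-F.md §mid.) -/
def StmtMid : Prop :=
  ∀ (p : ℕ) [Fact p.Prime] (G : Type) [Group G] (ι : Type) [Fintype ι] (Gloc : ι → Type)
    [∀ v, Group (Gloc v)] (D : PTDatum p G ι Gloc)
    (lam : ∀ v, ↥(pTors p (levH2 (D.𝒯loc v) (D.Jloc v))) →+ ZMod p), (∀ v, Function.Injective (lam v)) →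
    ∀ (A B : Rep.{0} (ZMod p) G) [FiniteDimensional (ZMod p) A] [FiniteDimensional (ZMod p) B]
      (P : DualPair D.χ A B), TrivOnLevel D.𝒯 A → TrivOnLevel D.𝒯 B →
    ∀ (x : ∀ v, cocycles₁ (Rep.res (D.r v) A)), (∀ v, IsLevel₁ (D.𝒯loc v) (x v : Gloc v → A.V)) →
      (∀ (y : G → B.V), y ∈ cocycles₁ B → IsLevel₁ D.𝒯 y →
        ∀ (w : ∀ v, ↥(levCocycles₂ (D.𝒯loc v) (D.Jloc v)))
          (_ : ∀ v, ((w v : Gloc v × Gloc v → (D.Jloc v).V)) =
            cupLoc D P v (x v) (resOne D v y))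
          (hp : ∀ v, levH2π (D.𝒯loc v) (D.Jloc v) (w v) ∈
            pTors p (levH2 (D.𝒯loc v) (D.Jloc v))),
          ∑ v, lam v ⟨levH2π (D.𝒯loc v) (D.Jloc v) (w v), hp v⟩ = 0) →
      ∃ z : G → A.V, z ∈ cocycles₁ A ∧ IsLevel₁ D.𝒯 z ∧
        ∀ v, resOne D v z - (x v : Gloc v → A.V) ∈ coboundaries₁ (Rep.res (D.r v) A)

/-- **F-h2** (end of the nine-term sequence — OPEN, see NOTES/TW-F.md §h2 before you start):
`Σ_v h⁰(G_v, A) ≤ dim im(H²_lev(G, B) → ∏_v H²_lev(G_v, B)) + h⁰(G, A)`.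
`hyp` is the extra arithmetic input that turns out to be necessary (the statement is FALSE for a
bare `PTDatum`, e.g. with trivial local groups). -/
def StmtH2Rank (Hyp : ∀ (p : ℕ) (G : Type) [Group G] (ι : Type) (Gloc : ι → Type)
    [∀ v, Group (Gloc v)], PTDatum p G ι Gloc → Prop) : Prop :=
  ∀ (p : ℕ) [Fact p.Prime] (G : Type) [Group G] (ι : Type) [Fintype ι] (Gloc : ι → Type)
    [∀ v, Group (Gloc v)] (D : PTDatum p G ι Gloc), Hyp p G ι Gloc D →
    ∀ (A B : Rep.{0} (ZMod p) G) [FiniteDimensional (ZMod p) A] [FiniteDimensional (ZMod p) B]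
      (_ : DualPair D.χ A B), TrivOnLevel D.𝒯 A → TrivOnLevel D.𝒯 B →
      (∑ v, finrank (ZMod p) ↥((Rep.res (D.r v) A).ρ.invariants)) ≤
        finrank (ZMod p) ↥(LinearMap.range (D.locTwo B)) + finrank (ZMod p) ↥(A.ρ.invariants)

/-- **F-gw** (THE GREENBERG–WILES INEQUALITY, route 1): with the Euler characteristic inequality
`(EC)` for `B` (TW-E) and the rank inequality `(H2)` (= conclusion of `StmtH2Rank`) as hypotheses,
`dim Sel_L(A) + h⁰(B) + e + Σ_v h⁰(G_v, A) ≤ dim Sel_{L^⊥}(B) + h⁰(A) + Σ_v dim L_v`. -/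
def StmtGW : Prop :=
  ∀ (p : ℕ) [Fact p.Prime] (G : Type) [Group G] (ι : Type) [Fintype ι] (Gloc : ι → Type)
    [∀ v, Group (Gloc v)] (D : PTDatum p G ι Gloc), LocExist D →
    ∀ (A B : Rep.{0} (ZMod p) G) [FiniteDimensional (ZMod p) A] [FiniteDimensional (ZMod p) B]
      (P : DualPair D.χ A B), TrivOnLevel D.𝒯 A → TrivOnLevel D.𝒯 B →
    ∀ (L : ∀ v, Submodule (ZMod p) (H1 (Rep.res (D.r v) A)))
      (L' : ∀ v, Submodule (ZMod p) (H1 (Rep.res (D.r v) B))),
      (∀ v, L v ≤ locH1 D A v) → (∀ v, IsPerp D P v (L v) (L' v)) →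
    ∀ (e : ℕ), FiniteDimensional (ZMod p) (levH2 D.𝒯 B) →
      finrank (ZMod p) ↥(B.ρ.invariants) + finrank (ZMod p) (levH2 D.𝒯 B) + e ≤
        finrank (ZMod p) ↥(levH1 D.𝒯 B) →
      (∑ v, finrank (ZMod p) ↥((Rep.res (D.r v) A).ρ.invariants)) ≤
        finrank (ZMod p) ↥(LinearMap.range (D.locTwo B)) + finrank (ZMod p) ↥(A.ρ.invariants) →
      finrank (ZMod p) ↥(selLev D A L) + finrank (ZMod p) ↥(B.ρ.invariants) + e +
          (∑ v, finrank (ZMod p) ↥((Rep.res (D.r v) A).ρ.invariants)) ≤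
        finrank (ZMod p) ↥(selLev D B L') + finrank (ZMod p) ↥(A.ρ.invariants) +
          ∑ v, finrank (ZMod p) ↥(L v)

/-- **F-master** (the Greenberg–Wiles EQUALITY without Euler characteristics, route 2; uses
`StmtMid`):  `dim Sel_L(A) + h¹(B) = dim Ш¹(A) + Σ_v dim L_v + dim Sel_{L^⊥}(B)`.
Equivalently (apply it to `(B, A, L^⊥)`):
`dim Sel_L(A) + dim Ш¹(B) + Σ_v dim L_v^⊥ = dim Sel_{L^⊥}(B) + h¹(A)`. -/
def StmtMaster : Prop :=
  ∀ (p : ℕ) [Fact p.Prime] (G : Type) [Group G] (ι : Type) [Fintype ι] (Gloc : ι → Type)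
    [∀ v, Group (Gloc v)] (D : PTDatum p G ι Gloc), LocExist D →
    ∀ (A B : Rep.{0} (ZMod p) G) [FiniteDimensional (ZMod p) A] [FiniteDimensional (ZMod p) B]
      (P : DualPair D.χ A B), TrivOnLevel D.𝒯 A → TrivOnLevel D.𝒯 B →
    ∀ (L : ∀ v, Submodule (ZMod p) (H1 (Rep.res (D.r v) A)))
      (L' : ∀ v, Submodule (ZMod p) (H1 (Rep.res (D.r v) B))),
      (∀ v, L v ≤ locH1 D A v) → (∀ v, IsPerp D P v (L v) (L' v)) →
      finrank (ZMod p) ↥(selLev D A L) + finrank (ZMod p) ↥(levH1 D.𝒯 B) =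
        finrank (ZMod p) ↥(D.shaOne A) + (∑ v, finrank (ZMod p) ↥(L v)) +
          finrank (ZMod p) ↥(selLev D B L')

end Fermat.Agent.TW.F

end


end ZBTW_006_1

/-! ### bundled: `Fermat.Agent.TW.L.Plan4` -/
section ZBTW_006_2
/-
TW-L (local computations for S56; sub-captain helper11) — INTERFACE 4: the LOCAL EXISTENCE
THEOREM mod `p` for the concrete datum (`LocExist D` of TW/F/Plan.lean, asked by TW-F, helper68).

Pieces (piece table: NOTES/TW-L.md):
* **L-lb**     `Fermat.Agent.PT.L.StmtLb` (PT/L/Plan.lean; = PT-L piece L8, never proved):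
               `μ_p ⊂ F` local field ⇒ ∃ finite Galois `E/F` with `N_{E/F}(E) ⊆ F^p`.
               Route: `E` from `PT.L.kummerMax` (abelian of exponent `p`, degree `[Fˣ:Fˣᵖ]`);
               `PT.L.fundClass` ⇒ `IsFundClass` for `Gal(E/F)` (a `p`-group) acting on `Eˣ`;
               `PT.X.tateExp` ⇒ `Fˣᵖ ⊆ N Eˣ`; `PT.X.tateIdx` ⇒ `[E:F] ≤ [Fˣ : N Eˣ]`;
               `PT.L.stmtPowFinite` ⇒ indices are finite ⇒ `N Eˣ = Fˣᵖ`.
* **L-exist**  `StmtLocExistQ` below, from `StmtLb`: Krasner (`PT.B.stmtKrasner`),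
               `PT.B.stmtLocalLevel`, `Algebra.norm_eq_prod_embeddings`, `Algebra.norm_norm`.
* **L-exwire** `LocExist D` for every concrete datum `D` (definitional unfolding).
-/

set_option autoImplicit false

noncomputable section

namespace Fermat.Agent.TW.L

open Fermat.Agent.PT Fermat.Agent.PT.B Fermat.Agent.TW.F

/-- **L-exist**: the local existence theorem mod `p` in tower form: every level of the local
tower contains normal levels `U' ≤ U₁` such that the norm `N_{U₁/U'}` of every `U'`-invariant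
element of `ℚ̄_qˣ` is a `p`-th power of a `U₁`-invariant element. -/
def StmtLocExistQ : Prop :=
  ∀ (p : ℕ) [Fact p.Prime] (q : ℕ) [Fact q.Prime], HasExist p (towerLoc q) (JlocQ q)

end Fermat.Agent.TW.L

end


end ZBTW_006_2

/-! ### bundled: `Fermat.Agent.TW.L.LocExist` -/
section ZBTW_006_3
/-
TW-L, piece **L-exist** (helper11; asked by TW-F): the LOCAL EXISTENCE THEOREM mod `p` in tower
form, `stmtLocExistQ_of : PT.L.StmtLb → StmtLocExistQ`, and its wiring
`locExist_concreteDatum_of : PT.L.StmtLb → LocExist (concreteDatum …)`.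

Proof.  `U = G_K`, `K = ℚ_q·ι(F)`.  Krasner gives `F₁/ℚ` finite Galois with
`K₁ := ℚ_q·ι(F₁) ⊇ K(ζ_p)`; (Lb) gives a finite `E/K₁` (a type) all of whose norms are `p`-th
powers; embed `E` into `ℚ̄_q` over `K₁`; Krasner again gives `F'/ℚ` finite Galois with
`K' := ℚ_q·ι(F') ⊇ E`.  For `x ∈ K'`: the product of `t x` over the cosets `t ∈ G_{K₁}/G_{K'}` is
`N_{K'/K₁}(x)` (`lex_prod_eq_norm`: cosets ↔ `K₁`-embeddings `K' → ℚ̄_q`, injective + equal
cardinalities; `Algebra.norm_eq_prod_embeddings`), and `N_{K'/K₁} = N_{E/K₁} ∘ N_{K'/E}`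
(`Algebra.norm_norm`) is a `p`-th power.
-/

set_option autoImplicit false
set_option linter.style.haveILetI false
set_option linter.unusedSectionVars false

noncomputable section

namespace Fermat.Agent.TW.L

open Module Fermat.Agent.PT Fermat.Agent.PT.B Fermat.Agent.TW.F ExtCitation
open scoped IntermediateField

section Generic

variable {k Ω : Type} [Field k] [Field Ω] [Algebra k Ω] [IsGalois k Ω] [IsAlgClosed Ω]

/-- restriction of `σ ∈ G_{K₁}` to `K'`, as a `K₁`-embedding of `K'` into `Ω` -/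
def lexRes {K₁ K' : IntermediateField k Ω} (h : K₁ ≤ K') (σ : Ω ≃ₐ[k] Ω)
    (hσ : σ ∈ K₁.fixingSubgroup) : ↥(IntermediateField.extendScalars h) →ₐ[↥K₁] Ω where
  toFun x := σ (x : Ω)
  map_one' := by simp
  map_mul' x y := by simp
  map_zero' := by simp
  map_add' x y := by simp
  commutes' a := by
    show σ ((algebraMap ↥K₁ ↥(IntermediateField.extendScalars h) a : Ω)) = (a : Ω)
    exact (IntermediateField.mem_fixingSubgroup_iff K₁ σ).1 hσ a a.2

@[simp] theorem lexRes_apply {K₁ K' : IntermediateField k Ω} (h : K₁ ≤ K') (σ : Ω ≃ₐ[k] Ω)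
    (hσ : σ ∈ K₁.fixingSubgroup) (x : ↥(IntermediateField.extendScalars h)) :
    lexRes h σ hσ x = σ (x : Ω) := rfl

/-- the map from cosets to embeddings -/
def lexEmb {K₁ K' : IntermediateField k Ω} (h : K₁ ≤ K')
    (t : ↥K₁.fixingSubgroup ⧸ K'.fixingSubgroup.subgroupOf K₁.fixingSubgroup) :
    ↥(IntermediateField.extendScalars h) →ₐ[↥K₁] Ω :=
  lexRes h ((Quotient.out t : ↥K₁.fixingSubgroup) : Ω ≃ₐ[k] Ω)
    (Quotient.out t : ↥K₁.fixingSubgroup).2

theorem lexEmb_injective {K₁ K' : IntermediateField k Ω} (h : K₁ ≤ K') :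
    Function.Injective (lexEmb h) := by
  intro t t' htt
  have h2 : ((Quotient.out t : ↥K₁.fixingSubgroup) : Ω ≃ₐ[k] Ω)⁻¹ *
      ((Quotient.out t' : ↥K₁.fixingSubgroup) : Ω ≃ₐ[k] Ω) ∈ K'.fixingSubgroup := by
    rw [IntermediateField.mem_fixingSubgroup_iff]
    intro x hx
    have h3 := DFunLike.congr_fun htt (⟨x, hx⟩ : ↥(IntermediateField.extendScalars h))
    simp only [lexEmb, lexRes_apply] at h3
    rw [AlgEquiv.mul_apply, ← h3]
    exact AlgEquiv.symm_apply_apply _ x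
  rw [← QuotientGroup.out_eq' t, ← QuotientGroup.out_eq' t']
  exact QuotientGroup.eq.2 (Subgroup.mem_subgroupOf.2 h2)

theorem lex_card {K₁ K' : IntermediateField k Ω} (h : K₁ ≤ K') [FiniteDimensional k K₁]
    [FiniteDimensional k K'] :
    Nat.card (↥K₁.fixingSubgroup ⧸ K'.fixingSubgroup.subgroupOf K₁.fixingSubgroup) =
      finrank ↥K₁ ↥(IntermediateField.extendScalars h) := by
  have h1 := Subgroup.relIndex_mul_index
    (IntermediateField.fixingSubgroup_antitone h :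
      K'.fixingSubgroup ≤ K₁.fixingSubgroup)
  rw [← IntermediateField.finrank_eq_fixingSubgroup_index,
    ← IntermediateField.finrank_eq_fixingSubgroup_index] at h1
  have h2 : finrank k ↥K₁ * finrank ↥K₁ ↥(IntermediateField.extendScalars h) =
      finrank k ↥K' := by
    have := Module.finrank_mul_finrank k ↥K₁ ↥(IntermediateField.extendScalars h)
    rw [this]
    rfl
  have hpos : 0 < finrank k ↥K₁ := Module.finrank_pos
  show (K'.fixingSubgroup.subgroupOf K₁.fixingSubgroup).index = _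
  have h3 : K'.fixingSubgroup.relIndex K₁.fixingSubgroup * finrank k ↥K₁ =
      finrank ↥K₁ ↥(IntermediateField.extendScalars h) * finrank k ↥K₁ := by
    rw [h1, ← h2, mul_comm]
  exact Nat.eq_of_mul_eq_mul_right hpos h3

theorem lexEmb_bijective {K₁ K' : IntermediateField k Ω} (h : K₁ ≤ K') [FiniteDimensional k K₁]
    [FiniteDimensional k K'] : Function.Bijective (lexEmb h) := by
  haveI : Module.Finite k ↥(IntermediateField.extendScalars h) :=
    (inferInstance : Module.Finite k ↥K')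
  haveI : FiniteDimensional ↥K₁ ↥(IntermediateField.extendScalars h) :=
    Module.Finite.of_restrictScalars_finite k ↥K₁ ↥(IntermediateField.extendScalars h)
  haveI : Finite (↥(IntermediateField.extendScalars h) →ₐ[↥K₁] Ω) := inferInstance
  refine Function.Injective.bijective_of_nat_card_le (lexEmb_injective h) ?_
  rw [lex_card h]
  classical
  rw [Nat.card_eq_fintype_card, AlgHom.card]

/-- the product over the cosets `G_{K₁}/G_{K'}` is the norm `N_{K'/K₁}` -/
theorem lex_prod_eq_norm {K₁ K' : IntermediateField k Ω} (h : K₁ ≤ K') [FiniteDimensional k K₁]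
    [FiniteDimensional k K'] (x : ↥(IntermediateField.extendScalars h)) :
    ∏ᶠ t : ↥K₁.fixingSubgroup ⧸ K'.fixingSubgroup.subgroupOf K₁.fixingSubgroup,
        ((Quotient.out t : ↥K₁.fixingSubgroup) : Ω ≃ₐ[k] Ω) (x : Ω) =
      algebraMap ↥K₁ Ω (Algebra.norm ↥K₁ x) := by
  haveI : Module.Finite k ↥(IntermediateField.extendScalars h) :=
    (inferInstance : Module.Finite k ↥K')
  haveI : FiniteDimensional ↥K₁ ↥(IntermediateField.extendScalars h) :=
    Module.Finite.of_restrictScalars_finite k ↥K₁ ↥(IntermediateField.extendScalars h)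
  classical
  rw [Algebra.norm_eq_prod_embeddings ↥K₁ Ω x, ← finprod_eq_prod_of_fintype]
  exact finprod_eq_of_bijective (lexEmb h) (lexEmb_bijective h) (fun t => rfl)

end Generic

section Norm

/-- if `E/K` has all its norms in `K^p` and `E` embeds into `L` over `K`, then all norms from
`L` are `p`-th powers -/
theorem lex_norm_pow {K : Type} [Field K] (E L : Type) [Field E] [Field L] [Algebra K E]
    [Algebra K L] (ψ : E →ₐ[K] L) (p : ℕ)
    (hE : ∀ y : E, ∃ x : K, Algebra.norm K y = x ^ p) (x : L) :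
    ∃ x₁ : K, Algebra.norm K x = x₁ ^ p := by
  letI : Algebra E L := ψ.toRingHom.toAlgebra
  haveI : IsScalarTower K E L := IsScalarTower.of_algebraMap_eq' ψ.comp_algebraMap.symm
  rw [← Algebra.norm_norm (S := E)]
  exact hE _

end Norm

section Core

variable (q : ℕ) [Fact q.Prime]

theorem lex_ρ_apply (s : GQq q) (c : (JlocQ q).V) :
    (JlocQ q).ρ s c = Additive.ofMul (Units.map (s : PadicAlgCl q →* PadicAlgCl q)
      (Additive.toMul c)) := rfl

theorem lex_core (p : ℕ) (hp : p ≠ 0) (K₁ K' : IntermediateField ℚ_[q] (PadicAlgCl q))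
    [FiniteDimensional ℚ_[q] K₁] [FiniteDimensional ℚ_[q] K'] (h : K₁ ≤ K')
    (hnorm : ∀ x : ↥(IntermediateField.extendScalars h),
      ∃ x₁ : ↥K₁, Algebra.norm ↥K₁ x = x₁ ^ p)
    (c : (JlocQ q).V) (hc : ∀ s ∈ K'.fixingSubgroup, (JlocQ q).ρ s c = c) :
    ∃ c' : (JlocQ q).V, (∀ s ∈ K₁.fixingSubgroup, (JlocQ q).ρ s c' = c') ∧
      p • c' = ∑ᶠ t : ↥K₁.fixingSubgroup ⧸ K'.fixingSubgroup.subgroupOf K₁.fixingSubgroup,
        (JlocQ q).ρ ((Quotient.out t : ↥K₁.fixingSubgroup) : GQq q) c := by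
  classical
  haveI : Module.Finite ℚ_[q] ↥(IntermediateField.extendScalars h) :=
    (inferInstance : Module.Finite ℚ_[q] ↥K')
  haveI : FiniteDimensional ↥K₁ ↥(IntermediateField.extendScalars h) :=
    Module.Finite.of_restrictScalars_finite ℚ_[q] ↥K₁ ↥(IntermediateField.extendScalars h)
  set u : (PadicAlgCl q)ˣ := Additive.toMul c with hu
  have hmem : (u : PadicAlgCl q) ∈ K' := by
    rw [← InfiniteGalois.fixedField_fixingSubgroup K', IntermediateField.mem_fixedField_iff]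
    intro s hs
    have := congrArg (fun z : (JlocQ q).V => ((Additive.toMul z : (PadicAlgCl q)ˣ) :
      PadicAlgCl q)) (hc s hs)
    exact this
  obtain ⟨x₁, hx₁⟩ := hnorm ⟨(u : PadicAlgCl q), hmem⟩
  have hprod := lex_prod_eq_norm h (⟨(u : PadicAlgCl q), hmem⟩ :
    ↥(IntermediateField.extendScalars h))
  rw [hx₁, map_pow] at hprod
  haveI : Finite (↥K₁.fixingSubgroup ⧸ K'.fixingSubgroup.subgroupOf K₁.fixingSubgroup) :=
    Nat.finite_of_card_ne_zero (by
      rw [lex_card h]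
      exact Module.finrank_pos.ne')
  -- the norm as a unit
  set N : (PadicAlgCl q)ˣ :=
    ∏ᶠ t : ↥K₁.fixingSubgroup ⧸ K'.fixingSubgroup.subgroupOf K₁.fixingSubgroup,
      Units.map (((Quotient.out t : ↥K₁.fixingSubgroup) : GQq q) :
        PadicAlgCl q →* PadicAlgCl q) u with hN
  have hNval : (N : PadicAlgCl q) = (algebraMap ↥K₁ (PadicAlgCl q) x₁) ^ p := by
    rw [← hprod, hN]
    exact MonoidHom.map_finprod (Units.coeHom (PadicAlgCl q)) (Set.toFinite _)
  have hx₁ne : (algebraMap ↥K₁ (PadicAlgCl q) x₁) ≠ 0 := by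
    intro h0
    rw [h0, zero_pow hp] at hNval
    exact N.ne_zero hNval
  refine ⟨Additive.ofMul (Units.mk0 _ hx₁ne), fun s hs => ?_, ?_⟩
  · refine (lex_ρ_apply q s _).trans ?_
    apply congrArg Additive.ofMul
    apply Units.ext
    show s (algebraMap ↥K₁ (PadicAlgCl q) x₁) = algebraMap ↥K₁ (PadicAlgCl q) x₁
    exact (IntermediateField.mem_fixingSubgroup_iff K₁ s).1 hs _ x₁.2
  · have hR : ∑ᶠ t : ↥K₁.fixingSubgroup ⧸ K'.fixingSubgroup.subgroupOf K₁.fixingSubgroup,
        (JlocQ q).ρ ((Quotient.out t : ↥K₁.fixingSubgroup) : GQq q) c = Additive.ofMul N := by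
      letI : Fintype (↥K₁.fixingSubgroup ⧸ K'.fixingSubgroup.subgroupOf K₁.fixingSubgroup) :=
        Fintype.ofFinite _
      rw [hN, finsum_eq_sum_of_fintype, finprod_eq_prod_of_fintype, ofMul_prod]
      rfl
    have key : N = (Units.mk0 _ hx₁ne) ^ p :=
      Units.ext (by rw [hNval, Units.val_pow_eq_pow_val, Units.val_mk0])
    rw [hR, key]
    exact (ofMul_pow p (Units.mk0 _ hx₁ne)).symm

/-- a level of the local tower attached to a Galois number field is normal -/
theorem lex_level (F : QbarField) (hF : FiniteDimensional ℚ F) :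
    (localField q F).fixingSubgroup ∈ (towerLoc q).lev := by
  refine ⟨F, hF, ?_⟩
  ext τ
  rw [Subgroup.mem_comap]
  exact (stmtLocalLevel q F τ).symm

theorem lex_normal (F : QbarField) (hgal : IsGalois ℚ F) :
    (localField q F).fixingSubgroup.Normal := by
  have h1 : (localField q F).fixingSubgroup =
      F.fixingSubgroup.comap (localGaloisToGlobal q) := by
    ext τ
    rw [Subgroup.mem_comap]
    exact (stmtLocalLevel q F τ).symm
  rw [h1]
  haveI : IsAlgClosure ℚ (AlgebraicClosure ℚ) :=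
    ⟨inferInstance, AlgebraicClosure.isAlgebraic ℚ⟩
  haveI : IsGalois ℚ (AlgebraicClosure ℚ) := inferInstance
  haveI : F.fixingSubgroup.Normal := (InfiniteGalois.normal_iff_isGalois F).2 hgal
  exact Subgroup.Normal.comap inferInstance _

end Core

/-- **L-exist**: the local existence theorem mod `p` in tower form, from (Lb). -/
theorem stmtLocExistQ_of (hLb : Fermat.Agent.PT.L.StmtLb) : StmtLocExistQ := by
  intro p _ q _ U hU
  obtain ⟨F, hF, rfl⟩ := hU
  have hp0 : p ≠ 0 := (Fact.out : p.Prime).ne_zero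
  have hUK : F.fixingSubgroup.comap (localGaloisToGlobal q) =
      (localField q F).fixingSubgroup := by
    ext τ
    rw [Subgroup.mem_comap]
    exact stmtLocalLevel q F τ
  -- a primitive `p`-th root of unity
  haveI : NeZero (p : PadicAlgCl q) := ⟨by exact_mod_cast hp0⟩
  obtain ⟨ζ, hζ⟩ : ∃ ζ : PadicAlgCl q, IsPrimitiveRoot ζ p := by
    obtain ⟨ζ, hζ⟩ := IsAlgClosed.exists_root (Polynomial.cyclotomic p (PadicAlgCl q))
      (by
        rw [Polynomial.degree_cyclotomic]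
        exact_mod_cast (Nat.totient_pos.2 (Fact.out : p.Prime).pos).ne')
    exact ⟨ζ, Polynomial.isRoot_cyclotomic_iff.1 hζ⟩
  haveI hfinK : FiniteDimensional ℚ_[q] (localField q F) := stmtLocalFinite q F hF
  have hζint : IsIntegral ℚ_[q] ζ := Algebra.IsIntegral.isIntegral ζ
  haveI : FiniteDimensional ℚ_[q] ↥(ℚ_[q]⟮ζ⟯) := IntermediateField.adjoin.finiteDimensional hζint
  haveI : FiniteDimensional ℚ_[q] ↥(localField q F ⊔ ℚ_[q]⟮ζ⟯) :=
    IntermediateField.finiteDimensional_sup _ _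
  obtain ⟨F₁, hF₁, hF₁gal, hle₁⟩ := stmtKrasner q (localField q F ⊔ ℚ_[q]⟮ζ⟯) inferInstance
  haveI hfinK₁ : FiniteDimensional ℚ_[q] (localField q F₁) := stmtLocalFinite q F₁ hF₁
  have hζK₁ : ζ ∈ localField q F₁ :=
    hle₁ ((le_sup_right : ℚ_[q]⟮ζ⟯ ≤ _) (IntermediateField.mem_adjoin_simple_self ℚ_[q] ζ))
  have hζ' : IsPrimitiveRoot (⟨ζ, hζK₁⟩ : ↥(localField q F₁)) p :=
    IsPrimitiveRoot.of_map_of_injective (f := algebraMap ↥(localField q F₁) (PadicAlgCl q))
      hζ (algebraMap ↥(localField q F₁) (PadicAlgCl q)).injective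
  -- the type-level extension
  obtain ⟨E, hEf, hEa, hEfin, -, hEnorm⟩ := hLb q p ↥(localField q F₁) ⟨ζ, hζK₁⟩ hζ'
  letI := hEf
  letI := hEa
  haveI := hEfin
  haveI : Algebra.IsAlgebraic ↥(localField q F₁) E := Algebra.IsAlgebraic.of_finite _ E
  let φ : E →ₐ[↥(localField q F₁)] PadicAlgCl q := IsAlgClosed.lift
  let E₂ : IntermediateField ↥(localField q F₁) (PadicAlgCl q) := φ.fieldRange
  haveI hE₂fin : Module.Finite ↥(localField q F₁) ↥E₂ :=
    Module.Finite.equiv (AlgEquiv.ofInjectiveField φ).toLinearEquiv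
  haveI hE₂fin' : Module.Finite ℚ_[q] ↥E₂ := Module.Finite.trans ↥(localField q F₁) ↥E₂
  haveI : FiniteDimensional ℚ_[q] ↥(E₂.restrictScalars ℚ_[q]) := hE₂fin'
  obtain ⟨F', hF', hF'gal, hle'⟩ := stmtKrasner q (E₂.restrictScalars ℚ_[q]) inferInstance
  haveI hfinK' : FiniteDimensional ℚ_[q] (localField q F') := stmtLocalFinite q F' hF'
  have hK₁K' : localField q F₁ ≤ localField q F' := fun x hx =>
    hle' (E₂.algebraMap_mem ⟨x, hx⟩)
  have hφmem : ∀ y : E, φ y ∈ IntermediateField.extendScalars hK₁K' := fun y =>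
    hle' (AlgHom.mem_fieldRange.2 ⟨y, rfl⟩)
  let ψ : E →ₐ[↥(localField q F₁)] ↥(IntermediateField.extendScalars hK₁K') :=
    AlgHom.codRestrict φ (IntermediateField.extendScalars hK₁K').toSubalgebra hφmem
  haveI := lex_normal q F₁ hF₁gal
  haveI := lex_normal q F' hF'gal
  refine ⟨(localField q F₁).fixingSubgroup, lex_level q F₁ hF₁,
    (localField q F').fixingSubgroup, lex_level q F' hF', ?_, ?_, inferInstance, inferInstance,
    fun c hc => ?_⟩
  · rw [hUK]
    exact IntermediateField.fixingSubgroup_antitone ((le_sup_left).trans hle₁)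
  · exact IntermediateField.fixingSubgroup_antitone hK₁K'
  · exact lex_core q p hp0 (localField q F₁) (localField q F') hK₁K'
      (fun x => lex_norm_pow E _ ψ p hEnorm x) c hc

/-- **L-exwire**: `LocExist` for the concrete datum. -/
theorem locExist_concreteDatum_of (hLb : Fermat.Agent.PT.L.StmtLb) (p : ℕ) [Fact p.Prime]
    (hp2 : p ≠ 2) (S : Finset Nat.Primes) (hpS : pPrime p ∈ S) (hcg : StmtCmGlob)
    (hcl : StmtCmLoc) (hh : StmtH90Loc) (hex : StmtExistC) (hsv : StmtSurvC) :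
    LocExist (concreteDatum p hp2 S hpS hcg hcl hh hex hsv) := fun v =>
  @stmtLocExistQ_of hLb p _ ((v : Nat.Primes) : ℕ) ⟨(v : Nat.Primes).2⟩

end Fermat.Agent.TW.L

end
end ZBTW_006_3

/-! ### bundled: `Fermat.Agent.TW.W.GrUnr` -/
section ZBTW_006_4
/-
TW-W, piece W-gr / K4 (helper65), part 6: (UNR) and (θ3).

* `wgrInertT_liftNormal` : the lift to `ℚ̄_p` of an inertial automorphism (PT-L sense) of `T` is
  `T`-inertial;
* `wgr_inertial_lift` (LIFT for `T' = ℚ_p·ι(F)`): every inertial automorphism of `localField p F`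
  (`F/ℚ` finite Galois) is the restriction of an element of `inertiaQ p`
  (global inertia lifting `Common.exists_mem_inertiaSubgroupIn_of_congr` + `TW.L.stmtDecFull`);
* `wgr_unr` (UNR) : `x ∈ ℚ̄_p` fixed by `inertiaQ p` ⇒ `‖x‖ ∈ p^ℤ`;
* `wgr_unr_wv`    : the same in terms of `wv`;
* `wgr_theta3` (θ3) : `T/ℚ_p` Galois of degree prime to `p`, `‖π‖ ^ e = ‖p‖`: if
  `σ(π^s) ≡ π^s mod π^s 𝔪` for all `σ ∈ inertiaQ p` then `e ∣ s`.
-/

set_option autoImplicit false
set_option linter.unusedSectionVars false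
set_option linter.style.haveILetI false

namespace Fermat.Agent.TW.W

open Fermat.Agent.PT.L Fermat.Agent.PT.B Fermat.Agent.TW.L

section Unr

variable {p : ℕ} [Fact p.Prime] {T : IntermediateField ℚ_[p] (PadicAlgCl p)}
  [FiniteDimensional ℚ_[p] T]

/-- `Close 1` in terms of the norm -/
theorem wgr_close_one_iff (x y : T) :
    Close p 1 x y ↔ ‖(x : PadicAlgCl p) - (y : PadicAlgCl p)‖ < 1 := by
  rw [close_iff_geW]
  have hc : (x : PadicAlgCl p) - (y : PadicAlgCl p) = ((x - y : T) : PadicAlgCl p) := rfl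
  rw [hc]
  by_cases h0 : x - y = 0
  · rw [h0]
    constructor
    · intro _
      simp
    · intro _
      exact Or.inl rfl
  · rw [wgr_norm_lt_one_iff _ h0]
    constructor
    · rintro (h | h)
      · exact absurd h h0
      · omega
    · intro h
      exact Or.inr (by omega)

/-- the lift of an inertial automorphism of `T` is `T`-inertial -/
theorem wgrInertT_of_restrict [Normal ℚ_[p] T] {σ : GQq p} {σ₀ : T ≃ₐ[ℚ_[p]] T}
    (hcomm : ∀ x : T, σ (x : PadicAlgCl p) = ((σ₀ x : T) : PadicAlgCl p))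
    (hσ₀ : IsInertial p σ₀) : wgrInertT p T σ := by
  intro x hx hx1
  have hxi : IsInt p (⟨x, hx⟩ : T) := (wgr_norm_le_one_iff p T ⟨x, hx⟩).1 hx1
  have h2 := (wgr_close_one_iff _ _).1 (hσ₀ _ hxi)
  rw [← hcomm] at h2
  exact h2

theorem wgr_isInertial_of_inertT [Normal ℚ_[p] T] {σ : GQq p} {σ₀ : T ≃ₐ[ℚ_[p]] T}
    (hcomm : ∀ x : T, σ (x : PadicAlgCl p) = ((σ₀ x : T) : PadicAlgCl p))
    (hσ : wgrInertT p T σ) : IsInertial p σ₀ := by
  intro x hx
  rw [wgr_close_one_iff, ← hcomm]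
  exact hσ x x.2 ((wgr_norm_le_one_iff p T x).2 hx)

end Unr

section Lift

variable (p : ℕ) [Fact p.Prime]

/-- **LIFT** for `T' = ℚ_p · ι(F)`: an element of `G_{ℚ_p}` which is `T'`-inertial agrees on `T'`
with an element of the inertia group `inertiaQ p`. -/
theorem wgr_inertial_lift (F : QbarField) (hgal : IsGalois ℚ F)
    {σ : GQq p} (hσ : wgrInertT p (localField p F) σ) :
    ∃ τ ∈ inertiaQ p, ∀ x ∈ localField p F, τ x = σ x := by
  have hp : p.Prime := Fact.out
  haveI : Normal ℚ F := hgal.to_normal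
  set σb := localGaloisToGlobal p σ with hσb
  have h1 : ∀ y ∈ F, IsIntegral ℤ y → σb y - y ∈ (padicPlace p).nonunits := by
    intro y hy hint
    rw [wgr_mem_nonunits_iff, map_sub, hσb, padicEmbedding_localGaloisToGlobal]
    have hyT : padicEmbedding p y ∈ localField p F :=
      IntermediateField.subset_adjoin ℚ_[p] _ ⟨y, hy, rfl⟩
    have hy1 : ‖padicEmbedding p y‖ ≤ 1 :=
      (wgr_mem_padicPlace_iff p y).1 (iunits_mem_of_isIntegral (padicPlace p) hint)
    exact hσ _ hyT hy1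
  obtain ⟨τb, hτbI, hτbF⟩ := Fermat.Agent.Common.exists_mem_inertiaSubgroupIn_of_congr F p hp
    (padicPlace p) (lfrobex_liesOverPrime p) σb h1
  have hD : τb ∈ (padicPlace p).decompositionSubgroup ℚ :=
    ((mem_inertiaSubgroupIn_iff _ _).1 hτbI).1
  obtain ⟨τ, hτ⟩ := stmtDecFull p τb hD
  have hτI : τ ∈ inertiaQ p := by
    rw [mem_inertiaQ, hτ]
    exact hτbI
  refine ⟨τ, hτI, ?_⟩
  have h2 : τ⁻¹ * σ ∈ (localField p F).fixingSubgroup := by
    rw [← stmtLocalLevel p F, map_mul, map_inv, hτ, ← hσb]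
    rw [IntermediateField.mem_fixingSubgroup_iff]
    intro y hy
    show τb⁻¹ (σb y) = y
    rw [← hτbF y hy]
    exact τb.symm_apply_apply y
  intro x hx
  have h3 := (IntermediateField.mem_fixingSubgroup_iff _ _).1 h2 x hx
  have h4 : τ ((τ⁻¹ * σ) x) = σ x := by
    show τ (τ⁻¹ (σ x)) = σ x
    exact τ.apply_symm_apply (σ x)
  rw [← h4, h3]

/-- **(UNR)**: an element of `ℚ̄_p` fixed by the inertia group has norm in `p^ℤ`. -/
theorem wgr_unr {x : PadicAlgCl p} (hx0 : x ≠ 0) (hx : ∀ τ ∈ inertiaQ p, τ x = x) :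
    ∃ m : ℤ, ‖x‖ = (p : ℝ) ^ m := by
  obtain ⟨F, hF, hgal, hxF⟩ := jdisc_exists_field p x
  haveI hfin : FiniteDimensional ℚ_[p] (localField p F) := stmtLocalFinite p F hF
  haveI hnor : (localField p F).fixingSubgroup.Normal := lex_normal p F hgal
  haveI hG : IsGalois ℚ_[p] (localField p F) :=
    (InfiniteGalois.normal_iff_isGalois (localField p F)).1 inferInstance
  set x' : localField p F := ⟨x, hxF⟩ with hx'
  have hx'0 : x' ≠ 0 := fun h => hx0 (congrArg Subtype.val h)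
  have h1 : (Module.finrank ℚ_[p] (localField p F) : ℤ) ∣ wv p x' := by
    apply wk4_fixed p (localField p F) hx'0
    intro σ₀ hσ₀
    set σ : GQq p := σ₀.liftNormal (PadicAlgCl p) with hσ
    have hcomm : ∀ y : localField p F, σ (y : PadicAlgCl p) = ((σ₀ y : localField p F) :
        PadicAlgCl p) := fun y => σ₀.liftNormal_commutes (PadicAlgCl p) y
    obtain ⟨τ, hτI, hτ⟩ := wgr_inertial_lift p F hgal (wgrInertT_of_restrict hcomm hσ₀)
    apply Subtype.ext
    rw [← hcomm]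
    show σ x = x
    rw [← hτ x hxF, hx τ hτI]
  obtain ⟨k, hk⟩ := h1
  refine ⟨-k, ?_⟩
  have hn : Module.finrank ℚ_[p] (localField p F) ≠ 0 := Module.finrank_pos.ne'
  have h2 := wgr_norm_pow p (localField p F) x' hx'0
  have hp0 : (0 : ℝ) < p := by exact_mod_cast (Fact.out : p.Prime).pos
  have h3 : ‖x‖ ^ Module.finrank ℚ_[p] (localField p F) =
      ((p : ℝ) ^ (-k)) ^ Module.finrank ℚ_[p] (localField p F) := by
    show ‖(x' : PadicAlgCl p)‖ ^ Module.finrank ℚ_[p] (localField p F) = _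
    rw [h2, hk, ← zpow_natCast ((p : ℝ) ^ (-k)), ← zpow_mul]
    congr 1
    ring
  exact (pow_left_inj₀ (norm_nonneg _) (zpow_nonneg hp0.le _) hn).1 h3

/-- (UNR) in terms of `wv` -/
theorem wgr_unr_wv (T : IntermediateField ℚ_[p] (PadicAlgCl p)) [FiniteDimensional ℚ_[p] T]
    {x : T} (hx0 : x ≠ 0) (hx : ∀ τ ∈ inertiaQ p, τ (x : PadicAlgCl p) = x) :
    (Module.finrank ℚ_[p] T : ℤ) ∣ wv p x := by
  have hx0' : (x : PadicAlgCl p) ≠ 0 := fun h => hx0 (Subtype.ext h)
  obtain ⟨m, hm⟩ := wgr_unr p hx0' hx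
  have h1 := wgr_norm_pow p T x hx0
  have hp1 : (1 : ℝ) < p := by exact_mod_cast (Fact.out : p.Prime).one_lt
  rw [hm, ← zpow_natCast ((p : ℝ) ^ m), ← zpow_mul] at h1
  have h2 := zpow_right_injective₀ (by linarith) hp1.ne' h1
  refine ⟨-m, ?_⟩
  linear_combination h2

/-- **(θ3)**: the tame character of `T` has exact order `e` ON THE INERTIA GROUP `inertiaQ p`. -/
theorem wgr_theta3 (T : IntermediateField ℚ_[p] (PadicAlgCl p)) [FiniteDimensional ℚ_[p] T]
    [IsGalois ℚ_[p] T] (htame : ¬ p ∣ Module.finrank ℚ_[p] T)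
    {π : PadicAlgCl p} (hπ : wgrIsUnif p T π) {e : ℕ} (he : ‖π‖ ^ e = ‖(p : PadicAlgCl p)‖)
    (s : ℕ) (hs : ∀ σ ∈ inertiaQ p, ‖σ (π ^ s) - π ^ s‖ < ‖π‖ ^ s) : e ∣ s := by
  set π' : T := ⟨π, hπ.1⟩ with hπ'
  have hU : IsUnif p π' := (wgr_isUnif_iff π').1 hπ
  set C : Subgroup (T ≃ₐ[ℚ_[p]] T) := (inertiaQ p).map (AlgEquiv.restrictNormalHom T) with hC
  have hres : ∀ (τ : GQq p) (x : T),
      ((AlgEquiv.restrictNormalHom T τ x : T) : PadicAlgCl p) = τ (x : PadicAlgCl p) :=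
    fun τ x => AlgEquiv.restrictNormal_commutes τ T x
  have h1 := wk4_trace p T htame hU.1 C
    (fun x hx0 hx => wgr_unr_wv p T hx0 (fun τ hτ => by
      rw [← hres τ x, hx _ (Subgroup.mem_map_of_mem _ hτ)])) s
    (by
      rintro c ⟨τ, hτ, rfl⟩
      have h4 := hs τ hτ
      have h5 : τ (π ^ s) - π ^ s =
          ((AlgEquiv.restrictNormalHom T τ (π' ^ s) - π' ^ s : T) : PadicAlgCl p) := by
        have := hres τ (π' ^ s)
        push_cast
        rw [this]
        rfl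
      rw [h5] at h4
      by_cases h0 : AlgEquiv.restrictNormalHom T τ (π' ^ s) - π' ^ s = 0
      · exact Or.inl h0
      · right
        have hπs : π' ^ s ≠ 0 := pow_ne_zero _ hU.1
        have hcoe2 : ‖π‖ ^ s = ‖((π' ^ s : T) : PadicAlgCl p)‖ := by
          rw [← norm_pow]; rfl
        rw [hcoe2] at h4
        have h6 := (wgr_norm_lt_iff p T _ _ h0 hπs).1 h4
        rw [l0b_wv_pow] at h6
        omega)
  -- `e · wv π = n`
  have hp0 : ((p : ℕ) : T) ≠ 0 := wgr_natCast_ne_zero p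
  have hπe : π' ^ e ≠ 0 := pow_ne_zero _ hU.1
  have hcoe : ((π' ^ e : T) : PadicAlgCl p) = π ^ e := rfl
  have h2 : wv p (π' ^ e) = wv p ((p : ℕ) : T) := by
    apply le_antisymm
    · apply (wgr_norm_le_iff p T _ _ hp0 hπe).1
      rw [hcoe, norm_pow, he]
      exact le_of_eq rfl
    · apply (wgr_norm_le_iff p T _ _ hπe hp0).1
      rw [hcoe, norm_pow, he]
      exact le_of_eq rfl
  rw [l0b_wv_pow, wgr_wv_natCast] at h2
  rw [← h2] at h1
  have h3 : (e : ℤ) ∣ s := by
    obtain ⟨m, hm⟩ := h1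
    refine ⟨m, ?_⟩
    have h4 : wv p π' * (s : ℤ) = wv p π' * (e * m) := by linear_combination hm
    exact mul_left_cancel₀ hU.2.1.ne' h4
  exact Int.natCast_dvd_natCast.1 h3

end Lift

end Fermat.Agent.TW.W


end ZBTW_006_4
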