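/- GENERATED FILE (helper35, build-time optimisation, NOTES/ZB.md): verbatim concatenation of the modules
   Fermat.Agent.EC.Flat.ZW
   Fermat.Agent.EC.Flat.Sum
   Do not edit; do not import together with these modules. -/
import Mathlib
import Fermat.Agent.ZB.TW_006

/-! ### bundled: `Fermat.Agent.EC.Flat.ZW` -/
section ZBEC_005_0

/-!
# E-side flatness, part 1: the chord construction in the `(z, w)`-chart (pure field algebra)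

For a Weierstrass equation with coefficients `a₁, a₂, a₃, a₄, a₆` in a field `K`, a point
`(x, y)` with `y ≠ 0` has the coordinates `z = -x/y`, `w = -1/y`, and the equation becomes
`w = f(z, w)` with `f = z³ + a₁zw + a₂z²w + a₃w² + a₄zw² + a₆w³`.

For two points `(z₁, w₁)`, `(z₂, w₂)` of the curve, the line through them is `w = λ z + ν` with
`λ = S / D` (`ecflat_S`, `ecflat_D`), a formula which is also valid when the two points coincide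
(tangent).  The third point of intersection is `(z₃, w₃)` with `z₃ = -c₂/c₃ - z₁ - z₂`.

Everything here is an identity of rational functions; no valuation is used.
-/

set_option autoImplicit false

namespace Fermat.Agent.EC

variable {K : Type*} [Field K]

/-- the cubic `f(z, w)` of the `(z, w)`-chart -/
def ecflat_f (a₁ a₂ a₃ a₄ a₆ z w : K) : K :=
  z ^ 3 + a₁ * z * w + a₂ * z ^ 2 * w + a₃ * w ^ 2 + a₄ * z * w ^ 2 + a₆ * w ^ 3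

/-- numerator of the slope -/
def ecflat_S (a₁ a₂ a₄ z₁ w₁ z₂ : K) : K :=
  z₁ ^ 2 + z₁ * z₂ + z₂ ^ 2 + a₁ * w₁ + a₂ * (z₁ + z₂) * w₁ + a₄ * w₁ ^ 2

/-- `1 - ` denominator of the slope -/
def ecflat_M (a₁ a₂ a₃ a₄ a₆ w₁ z₂ w₂ : K) : K :=
  a₁ * z₂ + a₂ * z₂ ^ 2 + a₃ * (w₁ + w₂) + a₄ * z₂ * (w₁ + w₂)
    + a₆ * (w₁ ^ 2 + w₁ * w₂ + w₂ ^ 2)

/-- the key identity: `f₂ - f₁ = (z₂ - z₁) S + (w₂ - w₁) M` -/
theorem ecflat_f_sub (a₁ a₂ a₃ a₄ a₆ z₁ w₁ z₂ w₂ : K) :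
    ecflat_f a₁ a₂ a₃ a₄ a₆ z₂ w₂ - ecflat_f a₁ a₂ a₃ a₄ a₆ z₁ w₁ =
      (z₂ - z₁) * ecflat_S a₁ a₂ a₄ z₁ w₁ z₂
        + (w₂ - w₁) * ecflat_M a₁ a₂ a₃ a₄ a₆ w₁ z₂ w₂ := by
  simp only [ecflat_f, ecflat_S, ecflat_M]
  ring

/-- on the curve: `(w₂ - w₁)(1 - M) = (z₂ - z₁) S` -/
theorem ecflat_chord (a₁ a₂ a₃ a₄ a₆ z₁ w₁ z₂ w₂ : K)
    (h₁ : w₁ = ecflat_f a₁ a₂ a₃ a₄ a₆ z₁ w₁) (h₂ : w₂ = ecflat_f a₁ a₂ a₃ a₄ a₆ z₂ w₂) :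
    (w₂ - w₁) * (1 - ecflat_M a₁ a₂ a₃ a₄ a₆ w₁ z₂ w₂) =
      (z₂ - z₁) * ecflat_S a₁ a₂ a₄ z₁ w₁ z₂ := by
  have := ecflat_f_sub a₁ a₂ a₃ a₄ a₆ z₁ w₁ z₂ w₂
  linear_combination h₂ - h₁ + this

/-- the coefficients of the cubic `g(z) = f(z, λ z + ν) - (λ z + ν)` -/
def ecflat_c₃ (a₂ a₄ a₆ l : K) : K := 1 + a₂ * l + a₄ * l ^ 2 + a₆ * l ^ 3

def ecflat_c₂ (a₁ a₂ a₃ a₄ a₆ l n : K) : K :=
  a₁ * l + a₂ * n + a₃ * l ^ 2 + 2 * a₄ * l * n + 3 * a₆ * l ^ 2 * n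

def ecflat_c₁ (a₁ a₃ a₄ a₆ l n : K) : K :=
  a₁ * n + 2 * a₃ * l * n + a₄ * n ^ 2 + 3 * a₆ * l * n ^ 2 - l

def ecflat_c₀ (a₃ a₆ n : K) : K := a₃ * n ^ 2 + a₆ * n ^ 3 - n

theorem ecflat_g_eq (a₁ a₂ a₃ a₄ a₆ l n z : K) :
    ecflat_f a₁ a₂ a₃ a₄ a₆ z (l * z + n) - (l * z + n) =
      ecflat_c₃ a₂ a₄ a₆ l * z ^ 3 + ecflat_c₂ a₁ a₂ a₃ a₄ a₆ l n * z ^ 2
        + ecflat_c₁ a₁ a₃ a₄ a₆ l n * z + ecflat_c₀ a₃ a₆ n := by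
  simp only [ecflat_f, ecflat_c₃, ecflat_c₂, ecflat_c₁, ecflat_c₀]
  ring

/-- the divided difference of `g` is `S - λ (1 - M)` -/
theorem ecflat_G₁₂ (a₁ a₂ a₃ a₄ a₆ l n z₁ z₂ : K) :
    ecflat_c₃ a₂ a₄ a₆ l * (z₁ ^ 2 + z₁ * z₂ + z₂ ^ 2)
        + ecflat_c₂ a₁ a₂ a₃ a₄ a₆ l n * (z₁ + z₂) + ecflat_c₁ a₁ a₃ a₄ a₆ l n =
      ecflat_S a₁ a₂ a₄ z₁ (l * z₁ + n) z₂
        - l * (1 - ecflat_M a₁ a₂ a₃ a₄ a₆ (l * z₁ + n) z₂ (l * z₂ + n)) := by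
  simp only [ecflat_S, ecflat_M, ecflat_c₃, ecflat_c₂, ecflat_c₁]
  ring

/-- `-λ³ c₀ + λ² ν c₁ - λ ν² c₂ + ν³ c₃ = ν³` -/
theorem ecflat_norm_id (a₁ a₂ a₃ a₄ a₆ l n : K) :
    -l ^ 3 * ecflat_c₀ a₃ a₆ n + l ^ 2 * n * ecflat_c₁ a₁ a₃ a₄ a₆ l n
        - l * n ^ 2 * ecflat_c₂ a₁ a₂ a₃ a₄ a₆ l n + n ^ 3 * ecflat_c₃ a₂ a₄ a₆ l = n ^ 3 := by
  simp only [ecflat_c₃, ecflat_c₂, ecflat_c₁, ecflat_c₀]
  ring

/-- `-3 λ² c₀ + 2 λ ν c₁ - ν² c₂ = ν (λ² + a₁ λ ν - a₂ ν²)` -/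
theorem ecflat_trace_id (a₁ a₂ a₃ a₄ a₆ l n : K) :
    -3 * l ^ 2 * ecflat_c₀ a₃ a₆ n + 2 * l * n * ecflat_c₁ a₁ a₃ a₄ a₆ l n
        - n ^ 2 * ecflat_c₂ a₁ a₂ a₃ a₄ a₆ l n = n * (l ^ 2 + a₁ * l * n - a₂ * n ^ 2) := by
  simp only [ecflat_c₂, ecflat_c₁, ecflat_c₀]
  ring

/-- **The chord package.**  Two points of the curve in the `(z, w)`-chart, slope `l` with
`l (1 - M) = S`, intercept `n = w₁ - l z₁`, and `c₃ ≠ 0`: the third point `(z₃, w₃)` and the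
Vieta relations. -/
structure EcflatChord (a₁ a₂ a₃ a₄ a₆ z₁ w₁ z₂ w₂ l n z₃ w₃ : K) : Prop where
  eq₁ : w₁ = ecflat_f a₁ a₂ a₃ a₄ a₆ z₁ w₁
  eq₂ : w₂ = ecflat_f a₁ a₂ a₃ a₄ a₆ z₂ w₂
  line₁ : w₁ = l * z₁ + n
  line₂ : w₂ = l * z₂ + n
  line₃ : w₃ = l * z₃ + n
  c₃_ne : ecflat_c₃ a₂ a₄ a₆ l ≠ 0
  vieta₂ : ecflat_c₂ a₁ a₂ a₃ a₄ a₆ l n + ecflat_c₃ a₂ a₄ a₆ l * (z₁ + z₂ + z₃) = 0
  vieta₁ : ecflat_c₁ a₁ a₃ a₄ a₆ l n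
    - ecflat_c₃ a₂ a₄ a₆ l * (z₁ * z₂ + z₁ * z₃ + z₂ * z₃) = 0
  vieta₀ : ecflat_c₀ a₃ a₆ n + ecflat_c₃ a₂ a₄ a₆ l * (z₁ * z₂ * z₃) = 0

/-- Construction of the chord package from the slope. -/
theorem ecflat_chord_mk (a₁ a₂ a₃ a₄ a₆ z₁ w₁ z₂ w₂ l : K)
    (h₁ : w₁ = ecflat_f a₁ a₂ a₃ a₄ a₆ z₁ w₁) (h₂ : w₂ = ecflat_f a₁ a₂ a₃ a₄ a₆ z₂ w₂)
    (hD : 1 - ecflat_M a₁ a₂ a₃ a₄ a₆ w₁ z₂ w₂ ≠ 0)
    (hl : l * (1 - ecflat_M a₁ a₂ a₃ a₄ a₆ w₁ z₂ w₂) = ecflat_S a₁ a₂ a₄ z₁ w₁ z₂)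
    (hc₃ : ecflat_c₃ a₂ a₄ a₆ l ≠ 0) :
    EcflatChord a₁ a₂ a₃ a₄ a₆ z₁ w₁ z₂ w₂ l (w₁ - l * z₁)
      (-(ecflat_c₂ a₁ a₂ a₃ a₄ a₆ l (w₁ - l * z₁)) / ecflat_c₃ a₂ a₄ a₆ l - z₁ - z₂)
      (l * (-(ecflat_c₂ a₁ a₂ a₃ a₄ a₆ l (w₁ - l * z₁)) / ecflat_c₃ a₂ a₄ a₆ l - z₁ - z₂)
        + (w₁ - l * z₁)) := by
  set n := w₁ - l * z₁ with hn
  set z₃ := -(ecflat_c₂ a₁ a₂ a₃ a₄ a₆ l n) / ecflat_c₃ a₂ a₄ a₆ l - z₁ - z₂ with hz₃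
  have hline₁ : w₁ = l * z₁ + n := by rw [hn]; ring
  have hline₂ : w₂ = l * z₂ + n := by
    have hch := ecflat_chord a₁ a₂ a₃ a₄ a₆ z₁ w₁ z₂ w₂ h₁ h₂
    have : (w₂ - (l * z₂ + n)) * (1 - ecflat_M a₁ a₂ a₃ a₄ a₆ w₁ z₂ w₂) = 0 := by
      rw [hn]
      linear_combination hch - (z₂ - z₁) * hl
    rcases mul_eq_zero.1 this with h | h
    · exact sub_eq_zero.1 h
    · exact absurd h hD
  have hv₂ : ecflat_c₂ a₁ a₂ a₃ a₄ a₆ l n + ecflat_c₃ a₂ a₄ a₆ l * (z₁ + z₂ + z₃) = 0 := by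
    rw [hz₃]
    field_simp
    ring
  have hG := ecflat_G₁₂ a₁ a₂ a₃ a₄ a₆ l n z₁ z₂
  rw [← hline₁, ← hline₂] at hG
  have hG0 : ecflat_c₃ a₂ a₄ a₆ l * (z₁ ^ 2 + z₁ * z₂ + z₂ ^ 2)
      + ecflat_c₂ a₁ a₂ a₃ a₄ a₆ l n * (z₁ + z₂) + ecflat_c₁ a₁ a₃ a₄ a₆ l n = 0 := by
    rw [hG]
    linear_combination -hl
  have hv₁ : ecflat_c₁ a₁ a₃ a₄ a₆ l n
      - ecflat_c₃ a₂ a₄ a₆ l * (z₁ * z₂ + z₁ * z₃ + z₂ * z₃) = 0 := by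
    linear_combination hG0 - (z₁ + z₂) * hv₂
  have hg₁ := ecflat_g_eq a₁ a₂ a₃ a₄ a₆ l n z₁
  rw [← hline₁] at hg₁
  have hv₀ : ecflat_c₀ a₃ a₆ n + ecflat_c₃ a₂ a₄ a₆ l * (z₁ * z₂ * z₃) = 0 := by
    linear_combination -hg₁ - h₁ - z₁ ^ 2 * hv₂ - z₁ * hv₁
  exact ⟨h₁, h₂, hline₁, hline₂, rfl, hc₃, hv₂, hv₁, hv₀⟩

namespace EcflatChord

variable {a₁ a₂ a₃ a₄ a₆ z₁ w₁ z₂ w₂ l n z₃ w₃ : K}

/-- the cubic factors -/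
theorem g_factor (h : EcflatChord a₁ a₂ a₃ a₄ a₆ z₁ w₁ z₂ w₂ l n z₃ w₃) (z : K) :
    ecflat_f a₁ a₂ a₃ a₄ a₆ z (l * z + n) - (l * z + n) =
      ecflat_c₃ a₂ a₄ a₆ l * ((z - z₁) * (z - z₂) * (z - z₃)) := by
  rw [ecflat_g_eq]
  linear_combination z ^ 2 * h.vieta₂ + z * h.vieta₁ + h.vieta₀

/-- the third point is on the curve -/
theorem eq₃ (h : EcflatChord a₁ a₂ a₃ a₄ a₆ z₁ w₁ z₂ w₂ l n z₃ w₃) :
    w₃ = ecflat_f a₁ a₂ a₃ a₄ a₆ z₃ w₃ := by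
  have := h.g_factor z₃
  rw [← h.line₃] at this
  linear_combination -this

/-- `c₃ w₁ w₂ w₃ = ν³` -/
theorem c₃_mul_w (h : EcflatChord a₁ a₂ a₃ a₄ a₆ z₁ w₁ z₂ w₂ l n z₃ w₃) :
    ecflat_c₃ a₂ a₄ a₆ l * (w₁ * w₂ * w₃) = n ^ 3 := by
  rw [h.line₁, h.line₂, h.line₃]
  have := ecflat_norm_id a₁ a₂ a₃ a₄ a₆ l n
  linear_combination this + l ^ 3 * h.vieta₀ - l ^ 2 * n * h.vieta₁ + l * n ^ 2 * h.vieta₂

theorem w₃_ne (h : EcflatChord a₁ a₂ a₃ a₄ a₆ z₁ w₁ z₂ w₂ l n z₃ w₃) (hn : n ≠ 0) : w₃ ≠ 0 := by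
  intro h0
  have := h.c₃_mul_w
  rw [h0, mul_zero, mul_zero] at this
  exact pow_ne_zero 3 hn this.symm

/-- if the intercept vanishes (vertical line), the third point is the origin -/
theorem z₃_eq_zero (h : EcflatChord a₁ a₂ a₃ a₄ a₆ z₁ w₁ z₂ w₂ l n z₃ w₃) (hn : n = 0)
    (hz₁ : z₁ ≠ 0) (hz₂ : z₂ ≠ 0) : z₃ = 0 := by
  have h0 := h.vieta₀
  rw [hn] at h0
  simp only [ecflat_c₀] at h0
  have : ecflat_c₃ a₂ a₄ a₆ l * (z₁ * z₂ * z₃) = 0 := by linear_combination h0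
  rcases mul_eq_zero.1 this with h' | h'
  · exact absurd h' h.c₃_ne
  · rcases mul_eq_zero.1 h' with h'' | h''
    · rcases mul_eq_zero.1 h'' with h3 | h3
      · exact absurd h3 hz₁
      · exact absurd h3 hz₂
    · exact h''

/-- **Vieta in the `x`-coordinate**: `x₃ = ℓ² + a₁ ℓ - a₂ - x₁ - x₂` with `ℓ = λ/ν`,
`x_i = z_i / w_i`. -/
theorem x₃_eq (h : EcflatChord a₁ a₂ a₃ a₄ a₆ z₁ w₁ z₂ w₂ l n z₃ w₃) (hn : n ≠ 0)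
    (hw₁ : w₁ ≠ 0) (hw₂ : w₂ ≠ 0) :
    z₃ / w₃ = (l / n) ^ 2 + a₁ * (l / n) - a₂ - z₁ / w₁ - z₂ / w₂ := by
  have hw₃ := h.w₃_ne hn
  have hc := h.c₃_ne
  have key : ecflat_c₃ a₂ a₄ a₆ l * (n ^ 2 * (z₁ * w₂ * w₃ + z₂ * w₁ * w₃ + z₃ * w₁ * w₂)
      - (l ^ 2 + a₁ * l * n - a₂ * n ^ 2) * (w₁ * w₂ * w₃)) = 0 := by
    rw [h.line₁, h.line₂, h.line₃]
    have e1 := ecflat_norm_id a₁ a₂ a₃ a₄ a₆ l n
    have e2 := ecflat_trace_id a₁ a₂ a₃ a₄ a₆ l n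
    linear_combination (n ^ 2 * (3 * l ^ 2) - (l ^ 2 + a₁ * l * n - a₂ * n ^ 2) * l ^ 3) * h.vieta₀
      + (-(2 * l * n ^ 3) + (l ^ 2 + a₁ * l * n - a₂ * n ^ 2) * l ^ 2 * n) * h.vieta₁
      + (n ^ 4 - (l ^ 2 + a₁ * l * n - a₂ * n ^ 2) * l * n ^ 2) * h.vieta₂
      + n ^ 2 * e2 - (l ^ 2 + a₁ * l * n - a₂ * n ^ 2) * e1
  have key' : n ^ 2 * (z₁ * w₂ * w₃ + z₂ * w₁ * w₃ + z₃ * w₁ * w₂)
      - (l ^ 2 + a₁ * l * n - a₂ * n ^ 2) * (w₁ * w₂ * w₃) = 0 := by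
    rcases mul_eq_zero.1 key with h' | h'
    · exact absurd h' hc
    · exact h'
  field_simp
  linear_combination key'

/-- the `y`-coordinate of the third point: `ℓ (x₃ - x₁) + y₁ = y₃` with `y_i = -1 / w_i` -/
theorem y₃_eq (h : EcflatChord a₁ a₂ a₃ a₄ a₆ z₁ w₁ z₂ w₂ l n z₃ w₃) (hn : n ≠ 0)
    (hw₁ : w₁ ≠ 0) :
    (l / n) * (z₃ / w₃ - z₁ / w₁) + -1 / w₁ = -1 / w₃ := by
  have hw₃ := h.w₃_ne hn
  have e1 : z₃ * w₁ - z₁ * w₃ = n * (z₃ - z₁) := by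
    rw [h.line₁, h.line₃]; ring
  have e2 : w₃ - w₁ = l * (z₃ - z₁) := by
    rw [h.line₁, h.line₃]; ring
  field_simp
  linear_combination l * e1 - n * e2

end EcflatChord

end Fermat.Agent.EC

namespace Fermat.Agent.EC

variable {K : Type*} [Field K]

/-- the slope `λ = S / (1 - M)` -/
noncomputable def ecflat_lam (a₁ a₂ a₃ a₄ a₆ z₁ w₁ z₂ w₂ : K) : K :=
  ecflat_S a₁ a₂ a₄ z₁ w₁ z₂ / (1 - ecflat_M a₁ a₂ a₃ a₄ a₆ w₁ z₂ w₂)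

/-- the intercept `ν = w₁ - λ z₁` -/
noncomputable def ecflat_nu (a₁ a₂ a₃ a₄ a₆ z₁ w₁ z₂ w₂ : K) : K :=
  w₁ - ecflat_lam a₁ a₂ a₃ a₄ a₆ z₁ w₁ z₂ w₂ * z₁

/-- the `z`-coordinate of the third point of the chord -/
noncomputable def ecflat_z₃ (a₁ a₂ a₃ a₄ a₆ z₁ w₁ z₂ w₂ : K) : K :=
  -(ecflat_c₂ a₁ a₂ a₃ a₄ a₆ (ecflat_lam a₁ a₂ a₃ a₄ a₆ z₁ w₁ z₂ w₂)
      (ecflat_nu a₁ a₂ a₃ a₄ a₆ z₁ w₁ z₂ w₂))
    / ecflat_c₃ a₂ a₄ a₆ (ecflat_lam a₁ a₂ a₃ a₄ a₆ z₁ w₁ z₂ w₂) - z₁ - z₂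

/-- the `w`-coordinate of the third point of the chord -/
noncomputable def ecflat_w₃ (a₁ a₂ a₃ a₄ a₆ z₁ w₁ z₂ w₂ : K) : K :=
  ecflat_lam a₁ a₂ a₃ a₄ a₆ z₁ w₁ z₂ w₂ * ecflat_z₃ a₁ a₂ a₃ a₄ a₆ z₁ w₁ z₂ w₂
    + ecflat_nu a₁ a₂ a₃ a₄ a₆ z₁ w₁ z₂ w₂

/-- **the addition formula** in the `(z, w)`-chart: the `z`-coordinate of the sum -/
noncomputable def ecflat_Phi (a₁ a₂ a₃ a₄ a₆ z₁ w₁ z₂ w₂ : K) : K :=
  -(ecflat_z₃ a₁ a₂ a₃ a₄ a₆ z₁ w₁ z₂ w₂)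
    / (1 - a₁ * ecflat_z₃ a₁ a₂ a₃ a₄ a₆ z₁ w₁ z₂ w₂
        - a₃ * ecflat_w₃ a₁ a₂ a₃ a₄ a₆ z₁ w₁ z₂ w₂)

/-- the chord package of the canonical slope -/
theorem ecflat_chord_canon (a₁ a₂ a₃ a₄ a₆ z₁ w₁ z₂ w₂ : K)
    (h₁ : w₁ = ecflat_f a₁ a₂ a₃ a₄ a₆ z₁ w₁) (h₂ : w₂ = ecflat_f a₁ a₂ a₃ a₄ a₆ z₂ w₂)
    (hD : 1 - ecflat_M a₁ a₂ a₃ a₄ a₆ w₁ z₂ w₂ ≠ 0)
    (hc₃ : ecflat_c₃ a₂ a₄ a₆ (ecflat_lam a₁ a₂ a₃ a₄ a₆ z₁ w₁ z₂ w₂) ≠ 0) :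
    EcflatChord a₁ a₂ a₃ a₄ a₆ z₁ w₁ z₂ w₂ (ecflat_lam a₁ a₂ a₃ a₄ a₆ z₁ w₁ z₂ w₂)
      (ecflat_nu a₁ a₂ a₃ a₄ a₆ z₁ w₁ z₂ w₂) (ecflat_z₃ a₁ a₂ a₃ a₄ a₆ z₁ w₁ z₂ w₂)
      (ecflat_w₃ a₁ a₂ a₃ a₄ a₆ z₁ w₁ z₂ w₂) :=
  ecflat_chord_mk a₁ a₂ a₃ a₄ a₆ z₁ w₁ z₂ w₂ _ h₁ h₂ hD
    (by rw [ecflat_lam]; exact div_mul_cancel₀ _ hD) hc₃

/-- the tangent identity: `w (1 - M) - z S = w - 3 f + a₁ z w + a₃ w²` at coinciding points -/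
theorem ecflat_tangent_id (a₁ a₂ a₃ a₄ a₆ z w : K) :
    w * (1 - ecflat_M a₁ a₂ a₃ a₄ a₆ w z w) - z * ecflat_S a₁ a₂ a₄ z w z =
      w - 3 * ecflat_f a₁ a₂ a₃ a₄ a₆ z w + a₁ * z * w + a₃ * w ^ 2 := by
  simp only [ecflat_f, ecflat_S, ecflat_M]
  ring

end Fermat.Agent.EC

namespace Fermat.Agent.EC.EcflatChord

variable {K : Type*} [Field K] {a₁ a₂ a₃ a₄ a₆ z₁ w₁ z₂ w₂ l n z₃ w₃ : K}

/-- chord through the origin and `(z₂, w₂)`: the formula returns `z₂` -/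
theorem phi_of_left_zero (h : EcflatChord a₁ a₂ a₃ a₄ a₆ 0 0 z₂ w₂ l n z₃ w₃)
    (hU : 1 - a₁ * z₃ - a₃ * w₃ ≠ 0) : -z₃ / (1 - a₁ * z₃ - a₃ * w₃) = z₂ := by
  have hn : n = 0 := by
    have := h.line₁
    linear_combination -this
  have h2 := h.vieta₂
  have h1 := h.vieta₁
  rw [hn] at h2 h1
  simp only [ecflat_c₂, ecflat_c₁] at h2 h1
  have key : ecflat_c₃ a₂ a₄ a₆ l * (z₃ + z₂ - (a₁ + a₃ * l) * (z₂ * z₃)) = 0 := by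
    linear_combination h2 + (a₁ + a₃ * l) * h1
  have key' : z₃ + z₂ - (a₁ + a₃ * l) * (z₂ * z₃) = 0 := by
    rcases mul_eq_zero.1 key with h' | h'
    · exact absurd h' h.c₃_ne
    · exact h'
  rw [div_eq_iff hU, h.line₃, hn]
  linear_combination -key'

/-- chord through `(z₁, w₁)` and the origin: the formula returns `z₁` -/
theorem phi_of_right_zero (h : EcflatChord a₁ a₂ a₃ a₄ a₆ z₁ w₁ 0 0 l n z₃ w₃)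
    (hU : 1 - a₁ * z₃ - a₃ * w₃ ≠ 0) : -z₃ / (1 - a₁ * z₃ - a₃ * w₃) = z₁ := by
  have hn : n = 0 := by
    have := h.line₂
    linear_combination -this
  have h2 := h.vieta₂
  have h1 := h.vieta₁
  rw [hn] at h2 h1
  simp only [ecflat_c₂, ecflat_c₁] at h2 h1
  have key : ecflat_c₃ a₂ a₄ a₆ l * (z₃ + z₁ - (a₁ + a₃ * l) * (z₁ * z₃)) = 0 := by
    linear_combination h2 + (a₁ + a₃ * l) * h1
  have key' : z₃ + z₁ - (a₁ + a₃ * l) * (z₁ * z₃) = 0 := by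
    rcases mul_eq_zero.1 key with h' | h'
    · exact absurd h' h.c₃_ne
    · exact h'
  rw [div_eq_iff hU, h.line₃, hn]
  linear_combination -key'

end Fermat.Agent.EC.EcflatChord


end ZBEC_005_0

/-! ### bundled: `Fermat.Agent.EC.Flat.Sum` -/
section ZBEC_005_1

/-!
# E-side flatness, part 2: the `z`-coordinate of a sum of two points

`ecflat_z P = -x/y`, `ecflat_w P = -1/y` (both `0` at the origin).  For two affine points with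
nonzero `x` and `y` (and the unit conditions `1 - M ≠ 0`, `c₃ ≠ 0`):

  `ecflat_z (P₁ + P₂) = ecflat_Phi (z₁, w₁, z₂, w₂)`  (`ecflat_z_add`).
-/

set_option autoImplicit false

namespace Fermat.Agent.EC

open WeierstrassCurve

variable {K : Type*} [Field K] {W : WeierstrassCurve K}

/-- the `z`-coordinate of a point -/
noncomputable def ecflat_z : W.toAffine.Point → K
  | .zero => 0
  | .some x y _ => -x / y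

/-- the `w`-coordinate of a point -/
noncomputable def ecflat_w : W.toAffine.Point → K
  | .zero => 0
  | .some _ y _ => -1 / y

@[simp] theorem ecflat_z_zero : ecflat_z (0 : W.toAffine.Point) = 0 := rfl
@[simp] theorem ecflat_w_zero : ecflat_w (0 : W.toAffine.Point) = 0 := rfl

theorem ecflat_z_some {x y : K} (h : W.toAffine.Nonsingular x y) :
    ecflat_z (Affine.Point.some x y h) = -x / y := rfl

theorem ecflat_w_some {x y : K} (h : W.toAffine.Nonsingular x y) :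
    ecflat_w (Affine.Point.some x y h) = -1 / y := rfl

/-- the Weierstrass equation in the `(z, w)`-chart -/
theorem ecflat_eq_zw {x y : K} (h : W.toAffine.Equation x y) (hy : y ≠ 0) :
    -1 / y = ecflat_f W.a₁ W.a₂ W.a₃ W.a₄ W.a₆ (-x / y) (-1 / y) := by
  have heq := (Affine.equation_iff _ _).1 h
  simp only [ecflat_f]
  field_simp
  linear_combination -heq

theorem ecflat_x_eq {x y : K} (hy : y ≠ 0) : x = (-x / y) / (-1 / y) := by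
  field_simp

theorem ecflat_y_eq {y : K} (hy : y ≠ 0) : y = -1 / (-1 / y) := by
  field_simp

/-- the common tail: once the Mathlib slope is `λ/ν`, the sum has `z`-coordinate `Φ` -/
theorem ecflat_z_add_aux [DecidableEq K] {x₁ y₁ x₂ y₂ : K}
    (h₁ : W.toAffine.Nonsingular x₁ y₁) (h₂ : W.toAffine.Nonsingular x₂ y₂)
    (hy₁ : y₁ ≠ 0) (hy₂ : y₂ ≠ 0)
    (hxy : ¬(x₁ = x₂ ∧ y₁ = W.toAffine.negY x₂ y₂))
    {l n z₃ w₃ : K}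
    (hch : EcflatChord W.a₁ W.a₂ W.a₃ W.a₄ W.a₆ (-x₁ / y₁) (-1 / y₁) (-x₂ / y₂) (-1 / y₂)
      l n z₃ w₃)
    (hn : n ≠ 0) (hsl : W.toAffine.slope x₁ x₂ y₁ y₂ = l / n) :
    ecflat_z (Affine.Point.some x₁ y₁ h₁ + Affine.Point.some x₂ y₂ h₂) =
      -z₃ / (1 - W.a₁ * z₃ - W.a₃ * w₃) := by
  rw [Affine.Point.add_some hxy, ecflat_z_some]
  have hw₁ : (-1 / y₁ : K) ≠ 0 := div_ne_zero (neg_ne_zero.2 one_ne_zero) hy₁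
  have hw₂ : (-1 / y₂ : K) ≠ 0 := div_ne_zero (neg_ne_zero.2 one_ne_zero) hy₂
  have hw₃ := hch.w₃_ne hn
  have hX : W.toAffine.addX x₁ x₂ (W.toAffine.slope x₁ x₂ y₁ y₂) = z₃ / w₃ := by
    rw [hsl, hch.x₃_eq hn hw₁ hw₂, Affine.addX, ← ecflat_x_eq hy₁, ← ecflat_x_eq hy₂]
  have hY : W.toAffine.negAddY x₁ x₂ y₁ (W.toAffine.slope x₁ x₂ y₁ y₂) = -1 / w₃ := by
    rw [Affine.negAddY, hX, hsl]
    have := hch.y₃_eq hn hw₁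
    rw [← ecflat_x_eq hy₁, ← ecflat_y_eq hy₁] at this
    exact this
  rw [Affine.addY, hX, hY, Affine.negY]
  field_simp

/-- **The `z`-coordinate of a sum.**  Two affine points with nonzero coordinates; the unit
conditions `1 - M ≠ 0`, `c₃ ≠ 0`, `1 - a₁ z₃ - a₃ w₃ ≠ 0` hold in the kernel of reduction. -/
theorem ecflat_z_add [DecidableEq K] {x₁ y₁ x₂ y₂ : K}
    (h₁ : W.toAffine.Nonsingular x₁ y₁) (h₂ : W.toAffine.Nonsingular x₂ y₂)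
    (hx₁ : x₁ ≠ 0) (hx₂ : x₂ ≠ 0) (hy₁ : y₁ ≠ 0) (hy₂ : y₂ ≠ 0)
    (hD : 1 - ecflat_M W.a₁ W.a₂ W.a₃ W.a₄ W.a₆ (-1 / y₁) (-x₂ / y₂) (-1 / y₂) ≠ 0)
    (hD' : 1 - ecflat_M W.a₁ W.a₂ W.a₃ W.a₄ W.a₆ (-1 / y₁) (-x₁ / y₁) (-1 / y₁) ≠ 0)
    (hc₃ : ecflat_c₃ W.a₂ W.a₄ W.a₆
      (ecflat_lam W.a₁ W.a₂ W.a₃ W.a₄ W.a₆ (-x₁ / y₁) (-1 / y₁) (-x₂ / y₂) (-1 / y₂)) ≠ 0) :
    ecflat_z (Affine.Point.some x₁ y₁ h₁ + Affine.Point.some x₂ y₂ h₂) =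
      ecflat_Phi W.a₁ W.a₂ W.a₃ W.a₄ W.a₆ (-x₁ / y₁) (-1 / y₁) (-x₂ / y₂) (-1 / y₂) := by
  have e₁ := ecflat_eq_zw h₁.1 hy₁
  have e₂ := ecflat_eq_zw h₂.1 hy₂
  have hch := ecflat_chord_canon W.a₁ W.a₂ W.a₃ W.a₄ W.a₆ _ _ _ _ e₁ e₂ hD hc₃
  set z₁ : K := -x₁ / y₁ with hz₁
  set w₁ : K := -1 / y₁ with hw₁
  set z₂ : K := -x₂ / y₂ with hz₂
  set w₂ : K := -1 / y₂ with hw₂
  set l := ecflat_lam W.a₁ W.a₂ W.a₃ W.a₄ W.a₆ z₁ w₁ z₂ w₂ with hl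
  set n := ecflat_nu W.a₁ W.a₂ W.a₃ W.a₄ W.a₆ z₁ w₁ z₂ w₂ with hn
  set z₃ := ecflat_z₃ W.a₁ W.a₂ W.a₃ W.a₄ W.a₆ z₁ w₁ z₂ w₂ with hz₃
  set w₃ := ecflat_w₃ W.a₁ W.a₂ W.a₃ W.a₄ W.a₆ z₁ w₁ z₂ w₂ with hw₃
  have hz₁0 : z₁ ≠ 0 := div_ne_zero (neg_ne_zero.2 hx₁) hy₁
  have hz₂0 : z₂ ≠ 0 := div_ne_zero (neg_ne_zero.2 hx₂) hy₂
  have hw₁0 : w₁ ≠ 0 := div_ne_zero (neg_ne_zero.2 one_ne_zero) hy₁
  have hw₂0 : w₂ ≠ 0 := div_ne_zero (neg_ne_zero.2 one_ne_zero) hy₂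
  have hx₁e : x₁ = z₁ / w₁ := ecflat_x_eq hy₁
  have hx₂e : x₂ = z₂ / w₂ := ecflat_x_eq hy₂
  have hy₁e : y₁ = -1 / w₁ := ecflat_y_eq hy₁
  have hy₂e : y₂ = -1 / w₂ := ecflat_y_eq hy₂
  have hPhi : ecflat_Phi W.a₁ W.a₂ W.a₃ W.a₄ W.a₆ z₁ w₁ z₂ w₂
      = -z₃ / (1 - W.a₁ * z₃ - W.a₃ * w₃) := rfl
  rw [hPhi]
  -- the cross relation `z₂ w₁ - z₁ w₂ = n (z₂ - z₁)`
  have hcross : z₂ * w₁ - z₁ * w₂ = n * (z₂ - z₁) := by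
    rw [hch.line₁, hch.line₂]; ring
  by_cases hxy : x₁ = x₂ ∧ y₁ = W.toAffine.negY x₂ y₂
  · -- vertical line: the sum is zero
    rw [Affine.Point.add_of_Y_eq hxy.1 hxy.2, ecflat_z_zero]
    have hzw : z₂ * w₁ - z₁ * w₂ = 0 := by
      have := hxy.1
      rw [hx₁e, hx₂e] at this
      field_simp at this
      linear_combination -this
    have hn0 : n = 0 := by
      by_cases hzz : z₁ = z₂
      · -- then the two points coincide and the tangent is vertical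
        have hww : w₁ = w₂ := by rw [hch.line₁, hch.line₂, hzz]
        have hyy : y₁ = y₂ := by rw [hy₁e, hy₂e, hww]
        have hneg := hxy.2
        rw [← hyy, ← hxy.1] at hneg
        simp only [Affine.negY] at hneg
        -- `-2 + a₁ z₁ + a₃ w₁ = 0`
        have h2 : -2 + W.a₁ * z₁ + W.a₃ * w₁ = 0 := by
          rw [hz₁, hw₁]
          field_simp
          linear_combination -hneg
        have hT := ecflat_tangent_id W.a₁ W.a₂ W.a₃ W.a₄ W.a₆ z₁ w₁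
        have hlD : l * (1 - ecflat_M W.a₁ W.a₂ W.a₃ W.a₄ W.a₆ w₁ z₂ w₂)
            = ecflat_S W.a₁ W.a₂ W.a₄ z₁ w₁ z₂ := by
          rw [hl, ecflat_lam]; exact div_mul_cancel₀ _ hD
        rw [← hzz, ← hww] at hlD
        have hnD : n * (1 - ecflat_M W.a₁ W.a₂ W.a₃ W.a₄ W.a₆ w₁ z₁ w₁) = 0 := by
          have hn' : n = w₁ - l * z₁ := rfl
          rw [hn']
          linear_combination hT - z₁ * hlD + 3 * e₁ + w₁ * h2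
        rcases mul_eq_zero.1 hnD with h | h
        · exact h
        · exact absurd h hD'
      · have : n * (z₂ - z₁) = 0 := by rw [← hcross, hzw]
        rcases mul_eq_zero.1 this with h | h
        · exact h
        · exact absurd (sub_eq_zero.1 h).symm hzz
    rw [hch.z₃_eq_zero hn0 hz₁0 hz₂0]
    simp
  · -- chord or tangent
    have hlD : l * (1 - ecflat_M W.a₁ W.a₂ W.a₃ W.a₄ W.a₆ w₁ z₂ w₂)
        = ecflat_S W.a₁ W.a₂ W.a₄ z₁ w₁ z₂ := by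
      rw [hl, ecflat_lam]; exact div_mul_cancel₀ _ hD
    have hn' : n = w₁ - l * z₁ := rfl
    -- in the tangent case: `n (1 - M) = w₁ (-2 + a₁ z₁ + a₃ w₁)`
    have htan : x₁ = x₂ → y₁ = y₂ ∧ z₁ = z₂ ∧ w₁ = w₂ ∧
        n * (1 - ecflat_M W.a₁ W.a₂ W.a₃ W.a₄ W.a₆ w₁ z₁ w₁)
          = w₁ * (-2 + W.a₁ * z₁ + W.a₃ * w₁) ∧
        l * (1 - ecflat_M W.a₁ W.a₂ W.a₃ W.a₄ W.a₆ w₁ z₁ w₁)
          = ecflat_S W.a₁ W.a₂ W.a₄ z₁ w₁ z₁ := by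
      intro hx
      have hyy : y₁ = y₂ := Affine.Y_eq_of_Y_ne h₁.1 h₂.1 hx (fun h => hxy ⟨hx, h⟩)
      have hzz : z₁ = z₂ := by rw [hz₁, hz₂, hx, hyy]
      have hww : w₁ = w₂ := by rw [hw₁, hw₂, hyy]
      have hT := ecflat_tangent_id W.a₁ W.a₂ W.a₃ W.a₄ W.a₆ z₁ w₁
      have hlD' := hlD
      rw [← hzz, ← hww] at hlD'
      refine ⟨hyy, hzz, hww, ?_, hlD'⟩
      rw [hn']
      linear_combination hT - z₁ * hlD' + 3 * e₁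
    have hden : x₁ = x₂ → -2 + W.a₁ * z₁ + W.a₃ * w₁ ≠ 0 := by
      intro hx h3
      obtain ⟨hyy, -, -, -, -⟩ := htan hx
      apply hxy
      refine ⟨hx, ?_⟩
      rw [← hyy, ← hx]
      simp only [Affine.negY]
      rw [hz₁, hw₁] at h3
      field_simp at h3
      linear_combination -h3
    have hn0 : n ≠ 0 := by
      intro hn0
      by_cases hx : x₁ = x₂
      · obtain ⟨-, -, -, hnD, -⟩ := htan hx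
        rw [hn0, zero_mul] at hnD
        rcases mul_eq_zero.1 hnD.symm with h | h
        · exact hw₁0 h
        · exact hden hx h
      · apply hx
        have hzw : z₂ * w₁ - z₁ * w₂ = 0 := by rw [hcross, hn0, zero_mul]
        rw [hx₁e, hx₂e]
        field_simp
        linear_combination -hzw
    refine ecflat_z_add_aux h₁ h₂ hy₁ hy₂ hxy hch hn0 ?_
    -- the slope
    by_cases hx : x₁ = x₂
    · obtain ⟨hyy, hzz, hww, hnD, hlD'⟩ := htan hx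
      have hne : y₁ ≠ W.toAffine.negY x₂ y₂ := fun h => hxy ⟨hx, h⟩
      rw [Affine.slope_of_Y_ne hx hne]
      have hne' : y₁ - W.toAffine.negY x₁ y₁ ≠ 0 := by
        rw [← hx, ← hyy] at hne
        exact sub_ne_zero.2 hne
      rw [div_eq_div_iff hne' hn0]
      have key : ((3 * x₁ ^ 2 + 2 * W.toAffine.a₂ * x₁ + W.toAffine.a₄ - W.toAffine.a₁ * y₁) * n
          - l * (y₁ - W.toAffine.negY x₁ y₁))
          * (1 - ecflat_M W.a₁ W.a₂ W.a₃ W.a₄ W.a₆ w₁ z₁ w₁) = 0 := by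
        have e1 : (3 * x₁ ^ 2 + 2 * W.a₂ * x₁ + W.a₄ - W.a₁ * y₁) * w₁ ^ 2
            = ecflat_S W.a₁ W.a₂ W.a₄ z₁ w₁ z₁ := by
          simp only [ecflat_S]
          rw [hz₁, hw₁]
          field_simp
          ring
        have e2 : (y₁ - W.toAffine.negY x₁ y₁) * w₁ = -2 + W.a₁ * z₁ + W.a₃ * w₁ := by
          simp only [Affine.negY]
          rw [hz₁, hw₁]
          field_simp
          ring
        have hw₁sq : w₁ ^ 2 ≠ 0 := pow_ne_zero 2 hw₁0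
        apply mul_left_cancel₀ hw₁sq
        rw [mul_zero]
        linear_combination (n * (1 - ecflat_M W.a₁ W.a₂ W.a₃ W.a₄ W.a₆ w₁ z₁ w₁)) * e1
          + ecflat_S W.a₁ W.a₂ W.a₄ z₁ w₁ z₁ * hnD
          - (y₁ - W.toAffine.negY x₁ y₁) * w₁ ^ 2 * hlD'
          - ecflat_S W.a₁ W.a₂ W.a₄ z₁ w₁ z₁ * w₁ * e2
      rcases mul_eq_zero.1 key with h | h
      · exact sub_eq_zero.1 h
      · exact absurd h hD'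
    · rw [Affine.slope_of_X_ne hx]
      have hx' : x₁ - x₂ ≠ 0 := sub_ne_zero.2 hx
      rw [div_eq_div_iff hx' hn0]
      have e1 : w₁ - w₂ = l * (z₁ - z₂) := by rw [hch.line₁, hch.line₂]; ring
      have e2 : (y₁ - y₂) * (w₁ * w₂) = w₁ - w₂ := by
        rw [hy₁e, hy₂e]
        field_simp
        ring
      have e3 : (x₁ - x₂) * (w₁ * w₂) = z₁ * w₂ - z₂ * w₁ := by
        rw [hx₁e, hx₂e]
        field_simp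
      have hww : w₁ * w₂ ≠ 0 := mul_ne_zero hw₁0 hw₂0
      apply mul_right_cancel₀ hww
      linear_combination n * e2 - l * e3 + n * e1 + l * hcross

end Fermat.Agent.EC


end ZBEC_005_1
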