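/- GENERATED FILE (helper35, build-time optimisation, NOTES/ZB.md): verbatim concatenation of the modules
   Fermat.Agent.EC.Flat.Appr
   Fermat.Agent.EC.Flat.ApprPhi
   Fermat.Agent.EC.Flat.Ker
   Fermat.Agent.EC.Flat.Lift
   Do not edit; do not import together with these modules. -/
import Mathlib
import Fermat.Agent.ZB.EC_005

/-! ### bundled: `Fermat.Agent.EC.Flat.Appr` -/
section ZBEC_006_0

/-!
# E-side flatness, part 3: the calculus of approximable functions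

`A` a valuation subring of a field `K`, `ϖ ∈ 𝔪_A`, `ev : ι → σ → K` a family of points with
coordinates in `A`.  A function `φ : ι → K` is *approximable* (`EcflatAppr`) if for every `n`
there is a polynomial `F` with coefficients in `A` such that `φ t ≡ F (ev t)` modulo `ϖ ^ n A`
for all `t`.  Approximable functions form a ring, and `1 / (1 - φ)` is approximable when `φ`
is approximable with values in `ϖ A` (`EcflatAppr0`).
-/

set_option autoImplicit false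

namespace Fermat.Agent.EC

variable {K : Type*} [Field K] (A : ValuationSubring K) (ϖ : K) {ι σ : Type*}
  (ev : ι → σ → K)

/-- `φ` is approximable modulo all powers of `ϖ` by polynomials over `A` in the coordinates. -/
def EcflatAppr (φ : ι → K) : Prop :=
  ∀ n : ℕ, ∃ F : MvPolynomial σ A, ∀ t, ∃ a ∈ A,
    φ t - MvPolynomial.eval₂ A.subtype (ev t) F = ϖ ^ n * a

/-- approximable, with values in `ϖ A` -/
def EcflatAppr0 (φ : ι → K) : Prop :=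
  EcflatAppr A ϖ ev φ ∧ ∀ t, ∃ a ∈ A, φ t = ϖ * a

variable {A ϖ ev}

theorem ecflat_mul_mem_nonunits {s a : K} (hs : s ∈ A.nonunits) (ha : a ∈ A) :
    s * a ∈ A.nonunits := by
  rw [ValuationSubring.mem_nonunits_iff] at hs ⊢
  rw [mul_comm, map_mul]
  exact Right.mul_lt_one_of_le_of_lt ((A.valuation_le_one_iff a).2 ha) hs

theorem ecflat_eval₂_mem (hev : ∀ t i, ev t i ∈ A) (F : MvPolynomial σ A) (t : ι) :
    MvPolynomial.eval₂ A.subtype (ev t) F ∈ A := by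
  induction F using MvPolynomial.induction_on with
  | C a => rw [MvPolynomial.eval₂_C]; exact a.2
  | add p q hp hq => rw [MvPolynomial.eval₂_add]; exact add_mem hp hq
  | mul_X p i hp => rw [MvPolynomial.eval₂_mul, MvPolynomial.eval₂_X]; exact mul_mem hp (hev t i)

theorem EcflatAppr.mem (hev : ∀ t i, ev t i ∈ A) {φ : ι → K} (h : EcflatAppr A ϖ ev φ) (t : ι) :
    φ t ∈ A := by
  obtain ⟨F, hF⟩ := h 0
  obtain ⟨a, ha, e⟩ := hF t
  have : φ t = MvPolynomial.eval₂ A.subtype (ev t) F + a := by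
    rw [pow_zero, one_mul] at e
    linear_combination e
  rw [this]
  exact add_mem (ecflat_eval₂_mem hev F t) ha

theorem ecflatAppr_const (c : K) (hc : c ∈ A) : EcflatAppr A ϖ ev (fun _ => c) := by
  intro n
  refine ⟨MvPolynomial.C ⟨c, hc⟩, fun t => ⟨0, A.zero_mem, ?_⟩⟩
  rw [MvPolynomial.eval₂_C]
  simp

theorem ecflatAppr_var (i : σ) : EcflatAppr A ϖ ev (fun t => ev t i) := by
  intro n
  refine ⟨MvPolynomial.X i, fun t => ⟨0, A.zero_mem, ?_⟩⟩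
  rw [MvPolynomial.eval₂_X]
  simp

theorem EcflatAppr.add {φ ψ : ι → K} (hφ : EcflatAppr A ϖ ev φ) (hψ : EcflatAppr A ϖ ev ψ) :
    EcflatAppr A ϖ ev (fun t => φ t + ψ t) := by
  intro n
  obtain ⟨F, hF⟩ := hφ n
  obtain ⟨G, hG⟩ := hψ n
  refine ⟨F + G, fun t => ?_⟩
  obtain ⟨a, ha, ea⟩ := hF t
  obtain ⟨b, hb, eb⟩ := hG t
  refine ⟨a + b, add_mem ha hb, ?_⟩
  rw [MvPolynomial.eval₂_add]
  linear_combination ea + eb

theorem EcflatAppr.neg {φ : ι → K} (hφ : EcflatAppr A ϖ ev φ) :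
    EcflatAppr A ϖ ev (fun t => -φ t) := by
  intro n
  obtain ⟨F, hF⟩ := hφ n
  refine ⟨-F, fun t => ?_⟩
  obtain ⟨a, ha, ea⟩ := hF t
  refine ⟨-a, neg_mem ha, ?_⟩
  rw [MvPolynomial.eval₂_neg]
  linear_combination -ea

theorem EcflatAppr.sub {φ ψ : ι → K} (hφ : EcflatAppr A ϖ ev φ) (hψ : EcflatAppr A ϖ ev ψ) :
    EcflatAppr A ϖ ev (fun t => φ t - ψ t) := by
  have := hφ.add hψ.neg
  refine fun n => ?_
  obtain ⟨F, hF⟩ := this n
  exact ⟨F, fun t => by simpa [sub_eq_add_neg] using hF t⟩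

theorem EcflatAppr.mul (hev : ∀ t i, ev t i ∈ A) {φ ψ : ι → K} (hφ : EcflatAppr A ϖ ev φ)
    (hψ : EcflatAppr A ϖ ev ψ) : EcflatAppr A ϖ ev (fun t => φ t * ψ t) := by
  intro n
  obtain ⟨F, hF⟩ := hφ n
  obtain ⟨G, hG⟩ := hψ n
  refine ⟨F * G, fun t => ?_⟩
  obtain ⟨a, ha, ea⟩ := hF t
  obtain ⟨b, hb, eb⟩ := hG t
  refine ⟨a * ψ t + MvPolynomial.eval₂ A.subtype (ev t) F * b,
    add_mem (mul_mem ha (hψ.mem hev t)) (mul_mem (ecflat_eval₂_mem hev F t) hb), ?_⟩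
  rw [MvPolynomial.eval₂_mul]
  linear_combination ψ t * ea + MvPolynomial.eval₂ A.subtype (ev t) F * eb

theorem EcflatAppr.pow (hev : ∀ t i, ev t i ∈ A) {φ : ι → K} (hφ : EcflatAppr A ϖ ev φ)
    (k : ℕ) : EcflatAppr A ϖ ev (fun t => φ t ^ k) := by
  induction k with
  | zero => simpa using ecflatAppr_const (A := A) (ϖ := ϖ) (ev := ev) 1 A.one_mem
  | succ k ih =>
    have := ih.mul hev hφ
    refine fun n => ?_
    obtain ⟨F, hF⟩ := this n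
    exact ⟨F, fun t => by simpa [pow_succ] using hF t⟩

theorem EcflatAppr.congr {φ ψ : ι → K} (hφ : EcflatAppr A ϖ ev φ) (h : ∀ t, ψ t = φ t) :
    EcflatAppr A ϖ ev ψ := by
  have : ψ = φ := funext h
  rw [this]; exact hφ

/-- finite geometric sums are approximable -/
theorem EcflatAppr.geomSum (hev : ∀ t i, ev t i ∈ A) {φ : ι → K} (hφ : EcflatAppr A ϖ ev φ)
    (k : ℕ) : EcflatAppr A ϖ ev (fun t => ∑ j ∈ Finset.range k, φ t ^ j) := by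
  induction k with
  | zero => simpa using ecflatAppr_const (A := A) (ϖ := ϖ) (ev := ev) 0 A.zero_mem
  | succ k ih =>
    have := ih.add (hφ.pow hev k)
    exact this.congr fun t => by rw [Finset.sum_range_succ]

/-- `1 / (1 - φ)` is approximable when `φ` is approximable with values in `ϖ A`. -/
theorem EcflatAppr0.inv_one_sub (hev : ∀ t i, ev t i ∈ A) (hϖ : ϖ ∈ A.nonunits) {φ : ι → K}
    (hφ : EcflatAppr0 A ϖ ev φ) : EcflatAppr A ϖ ev (fun t => (1 - φ t)⁻¹) := by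
  intro n
  obtain ⟨F, hF⟩ := hφ.1.geomSum hev n n
  refine ⟨F, fun t => ?_⟩
  obtain ⟨a, ha, ea⟩ := hF t
  obtain ⟨b, hb, eb⟩ := hφ.2 t
  -- `1 - φ t` is a unit
  have hφm : φ t ∈ A.nonunits := by
    rw [eb]
    exact ecflat_mul_mem_nonunits hϖ hb
  have hv : A.valuation (1 - φ t) = 1 := by
    have := Valuation.map_one_add_of_lt A.valuation
      (show A.valuation (-φ t) < 1 by rw [Valuation.map_neg]; exact A.mem_nonunits_iff.1 hφm)
    rwa [← sub_eq_add_neg] at this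
  have hne : 1 - φ t ≠ 0 := by
    intro h0
    rw [h0, map_zero] at hv
    exact zero_ne_one hv
  have hinv : (1 - φ t)⁻¹ ∈ A := by
    rw [← A.valuation_le_one_iff, map_inv₀, hv, inv_one]
  refine ⟨b ^ n * (1 - φ t)⁻¹ + a, add_mem (mul_mem (pow_mem hb n) hinv) ha, ?_⟩
  have hgeom : (∑ j ∈ Finset.range n, φ t ^ j) * (1 - φ t) = 1 - φ t ^ n := by
    have := mul_neg_geom_sum (φ t) n
    rw [mul_comm]
    exact this
  have e1 : (1 - φ t)⁻¹ - ∑ j ∈ Finset.range n, φ t ^ j = φ t ^ n * (1 - φ t)⁻¹ := by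
    field_simp
    linear_combination -hgeom
  have e2 : φ t ^ n = ϖ ^ n * b ^ n := by rw [eb, mul_pow]
  rw [e2] at e1
  linear_combination e1 + ea

/-! ### values in `ϖ A` -/

theorem ecflatAppr0_var (i : σ) (h : ∀ t, ∃ a ∈ A, ev t i = ϖ * a) :
    EcflatAppr0 A ϖ ev (fun t => ev t i) :=
  ⟨ecflatAppr_var i, h⟩

theorem EcflatAppr0.add {φ ψ : ι → K} (hφ : EcflatAppr0 A ϖ ev φ) (hψ : EcflatAppr0 A ϖ ev ψ) :
    EcflatAppr0 A ϖ ev (fun t => φ t + ψ t) := by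
  refine ⟨hφ.1.add hψ.1, fun t => ?_⟩
  obtain ⟨a, ha, ea⟩ := hφ.2 t
  obtain ⟨b, hb, eb⟩ := hψ.2 t
  exact ⟨a + b, add_mem ha hb, by beta_reduce; rw [ea, eb]; ring⟩

theorem EcflatAppr0.neg {φ : ι → K} (hφ : EcflatAppr0 A ϖ ev φ) :
    EcflatAppr0 A ϖ ev (fun t => -φ t) := by
  refine ⟨hφ.1.neg, fun t => ?_⟩
  obtain ⟨a, ha, ea⟩ := hφ.2 t
  exact ⟨-a, neg_mem ha, by beta_reduce; rw [ea]; ring⟩

theorem EcflatAppr0.sub {φ ψ : ι → K} (hφ : EcflatAppr0 A ϖ ev φ) (hψ : EcflatAppr0 A ϖ ev ψ) :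
    EcflatAppr0 A ϖ ev (fun t => φ t - ψ t) := by
  refine ⟨hφ.1.sub hψ.1, fun t => ?_⟩
  obtain ⟨a, ha, ea⟩ := hφ.2 t
  obtain ⟨b, hb, eb⟩ := hψ.2 t
  exact ⟨a - b, sub_mem ha hb, by beta_reduce; rw [ea, eb]; ring⟩

theorem EcflatAppr0.mul_left (hev : ∀ t i, ev t i ∈ A) {φ ψ : ι → K}
    (hφ : EcflatAppr A ϖ ev φ) (hψ : EcflatAppr0 A ϖ ev ψ) :
    EcflatAppr0 A ϖ ev (fun t => φ t * ψ t) := by
  refine ⟨hφ.mul hev hψ.1, fun t => ?_⟩
  obtain ⟨b, hb, eb⟩ := hψ.2 t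
  exact ⟨φ t * b, mul_mem (hφ.mem hev t) hb, by beta_reduce; rw [eb]; ring⟩

theorem EcflatAppr0.mul_right (hev : ∀ t i, ev t i ∈ A) {φ ψ : ι → K}
    (hφ : EcflatAppr0 A ϖ ev φ) (hψ : EcflatAppr A ϖ ev ψ) :
    EcflatAppr0 A ϖ ev (fun t => φ t * ψ t) :=
  ⟨(EcflatAppr0.mul_left hev hψ hφ).1.congr fun t => mul_comm _ _, fun t => by
    obtain ⟨a, ha, ea⟩ := hφ.2 t
    exact ⟨a * ψ t, mul_mem ha (hψ.mem hev t), by beta_reduce; rw [ea]; ring⟩⟩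

theorem EcflatAppr0.const_mul (hev : ∀ t i, ev t i ∈ A) (c : K) (hc : c ∈ A) {ψ : ι → K}
    (hψ : EcflatAppr0 A ϖ ev ψ) : EcflatAppr0 A ϖ ev (fun t => c * ψ t) :=
  EcflatAppr0.mul_left hev (ecflatAppr_const c hc) hψ

theorem EcflatAppr0.pow (hev : ∀ t i, ev t i ∈ A) {φ : ι → K} (hφ : EcflatAppr0 A ϖ ev φ)
    (k : ℕ) (hk : k ≠ 0) : EcflatAppr0 A ϖ ev (fun t => φ t ^ k) := by
  obtain ⟨k, rfl⟩ := Nat.exists_eq_succ_of_ne_zero hk
  have := EcflatAppr0.mul_left hev (hφ.1.pow hev k) hφ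
  exact ⟨this.1.congr fun t => by rw [pow_succ], fun t => by
    obtain ⟨a, ha, ea⟩ := this.2 t
    exact ⟨a, ha, by beta_reduce at ea ⊢; rw [pow_succ, ea]⟩⟩

theorem EcflatAppr0.congr {φ ψ : ι → K} (hφ : EcflatAppr0 A ϖ ev φ) (h : ∀ t, ψ t = φ t) :
    EcflatAppr0 A ϖ ev ψ := by
  have : ψ = φ := funext h
  rw [this]; exact hφ

/-- `φ / (1 - ψ)` for `φ`, `ψ` approximable with values in `ϖ A` -/
theorem EcflatAppr0.div_one_sub (hev : ∀ t i, ev t i ∈ A) (hϖ : ϖ ∈ A.nonunits) {φ ψ : ι → K}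
    (hφ : EcflatAppr0 A ϖ ev φ) (hψ : EcflatAppr0 A ϖ ev ψ) :
    EcflatAppr0 A ϖ ev (fun t => φ t / (1 - ψ t)) :=
  (EcflatAppr0.mul_right hev hφ (hψ.inv_one_sub hev hϖ)).congr fun t => div_eq_mul_inv _ _

/-- a function with values in `ϖ A` which is approximable is in `𝔪` -/
theorem EcflatAppr0.mem_nonunits (hϖ : ϖ ∈ A.nonunits) {φ : ι → K}
    (hφ : EcflatAppr0 A ϖ ev φ) (t : ι) : φ t ∈ A.nonunits := by
  obtain ⟨b, hb, eb⟩ := hφ.2 t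
  rw [eb]
  exact ecflat_mul_mem_nonunits hϖ hb

/-- `1 - φ t ≠ 0` -/
theorem EcflatAppr0.one_sub_ne_zero (hϖ : ϖ ∈ A.nonunits) {φ : ι → K}
    (hφ : EcflatAppr0 A ϖ ev φ) (t : ι) : 1 - φ t ≠ 0 := by
  have hφm := hφ.mem_nonunits hϖ t
  have hv : A.valuation (1 - φ t) = 1 := by
    have := Valuation.map_one_add_of_lt A.valuation
      (show A.valuation (-φ t) < 1 by rw [Valuation.map_neg]; exact A.mem_nonunits_iff.1 hφm)
    rwa [← sub_eq_add_neg] at this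
  intro h0
  rw [h0, map_zero] at hv
  exact zero_ne_one hv

end Fermat.Agent.EC


end ZBEC_006_0

/-! ### bundled: `Fermat.Agent.EC.Flat.ApprPhi` -/
section ZBEC_006_1

/-!
# E-side flatness, part 4: the addition formula `Φ` is approximable

* `ecflat_w_appr0` : the `w`-coordinate (the solution in `𝔪` of `w = f(z, w)`) is an
  approximable function of `z`;
* `ecflat_Phi_appr0` : `Φ(z₁, w₁, z₂, w₂)` is approximable, together with the unit conditions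
  needed by `ecflat_z_add`.
-/

set_option autoImplicit false

namespace Fermat.Agent.EC

variable {K : Type*} [Field K] {A : ValuationSubring K} {ϖ : K} {ι σ : Type*}
  {ev : ι → σ → K}

section W

variable {a₁ a₂ a₃ a₄ a₆ : K}

/-- the polynomial `f(u, ψ)` in two approximable functions with values in `ϖ A` -/
theorem ecflat_f_appr0 (hev : ∀ t i, ev t i ∈ A) (h₁ : a₁ ∈ A) (h₂ : a₂ ∈ A) (h₃ : a₃ ∈ A)
    (h₄ : a₄ ∈ A) (h₆ : a₆ ∈ A) {u ψ : ι → K} (hu : EcflatAppr0 A ϖ ev u)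
    (hψ : EcflatAppr0 A ϖ ev ψ) :
    EcflatAppr0 A ϖ ev (fun t => ecflat_f a₁ a₂ a₃ a₄ a₆ (u t) (ψ t)) := by
  have t1 := hu.pow hev 3 (by norm_num)
  have t2 := (EcflatAppr0.mul_right hev hu hψ.1).const_mul hev a₁ h₁
  have t3 := (EcflatAppr0.mul_right hev (hu.pow hev 2 (by norm_num)) hψ.1).const_mul hev a₂ h₂
  have t4 := (hψ.pow hev 2 (by norm_num)).const_mul hev a₃ h₃
  have t5 := (EcflatAppr0.mul_right hev hu (hψ.1.pow hev 2)).const_mul hev a₄ h₄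
  have t6 := (hψ.pow hev 3 (by norm_num)).const_mul hev a₆ h₆
  exact (((((t1.add t2).add t3).add t4).add t5).add t6).congr fun t => by
    simp only [ecflat_f]; ring

/-- the function `M` of three approximable functions with values in `ϖ A` -/
theorem ecflat_M_appr0 (hev : ∀ t i, ev t i ∈ A) (h₁ : a₁ ∈ A) (h₂ : a₂ ∈ A) (h₃ : a₃ ∈ A)
    (h₄ : a₄ ∈ A) (h₆ : a₆ ∈ A) {w₁ v w₂ : ι → K} (hw₁ : EcflatAppr0 A ϖ ev w₁)
    (hv : EcflatAppr0 A ϖ ev v) (hw₂ : EcflatAppr0 A ϖ ev w₂) :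
    EcflatAppr0 A ϖ ev (fun t => ecflat_M a₁ a₂ a₃ a₄ a₆ (w₁ t) (v t) (w₂ t)) := by
  have t1 := hv.const_mul hev a₁ h₁
  have t2 := (hv.pow hev 2 (by norm_num)).const_mul hev a₂ h₂
  have t3 := (hw₁.add hw₂).const_mul hev a₃ h₃
  have t4 := (EcflatAppr0.mul_right hev hv (hw₁.add hw₂).1).const_mul hev a₄ h₄
  have t5 := (((hw₁.pow hev 2 (by norm_num)).add (EcflatAppr0.mul_right hev hw₁ hw₂.1)).add
    (hw₂.pow hev 2 (by norm_num))).const_mul hev a₆ h₆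
  exact ((((t1.add t2).add t3).add t4).add t5).congr fun t => by
    simp only [ecflat_M]; ring

/-- **The `w`-coordinate is approximable.** -/
theorem ecflat_w_appr0 (hev : ∀ t i, ev t i ∈ A) (hϖ : ϖ ∈ A.nonunits)
    (h₁ : a₁ ∈ A) (h₂ : a₂ ∈ A) (h₃ : a₃ ∈ A) (h₄ : a₄ ∈ A) (h₆ : a₆ ∈ A)
    {u w : ι → K} (hu : EcflatAppr0 A ϖ ev u) (hw : ∀ t, w t ∈ A.nonunits)
    (heq : ∀ t, w t = ecflat_f a₁ a₂ a₃ a₄ a₆ (u t) (w t)) :
    EcflatAppr0 A ϖ ev w := by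
  -- step 1: values in `ϖ A`
  have hval : ∀ t, ∃ a ∈ A, w t = ϖ * a := by
    intro t
    obtain ⟨b, hb, eb⟩ := hu.2 t
    have huA : u t ∈ A := by rw [eb]; exact mul_mem (A.nonunits_subset hϖ) hb
    have hwA : w t ∈ A := A.nonunits_subset (hw t)
    set m := a₁ * u t + a₂ * u t ^ 2 + a₃ * w t + a₄ * u t * w t + a₆ * w t ^ 2 with hm
    have hmm : m ∈ A.nonunits := by
      have e : m = u t * (a₁ + a₂ * u t) + w t * (a₃ + a₄ * u t + a₆ * w t) := by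
        rw [hm]; ring
      rw [e]
      have hum : u t ∈ A.nonunits := by rw [eb]; exact ecflat_mul_mem_nonunits hϖ hb
      exact add_mem (ecflat_mul_mem_nonunits hum (add_mem h₁ (mul_mem h₂ huA)))
        (ecflat_mul_mem_nonunits (hw t)
          (add_mem (add_mem h₃ (mul_mem h₄ huA)) (mul_mem h₆ hwA)))
    have hv : A.valuation (1 - m) = 1 := by
      have := Valuation.map_one_add_of_lt A.valuation
        (show A.valuation (-m) < 1 by rw [Valuation.map_neg]; exact A.mem_nonunits_iff.1 hmm)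
      rwa [← sub_eq_add_neg] at this
    have hne : 1 - m ≠ 0 := by
      intro h0
      rw [h0, map_zero] at hv
      exact zero_ne_one hv
    have hinv : (1 - m)⁻¹ ∈ A := by
      rw [← A.valuation_le_one_iff, map_inv₀, hv, inv_one]
    have hkey : w t * (1 - m) = u t ^ 3 := by
      have := heq t
      simp only [ecflat_f] at this
      rw [hm]
      linear_combination this
    refine ⟨ϖ ^ 2 * b ^ 3 * (1 - m)⁻¹,
      mul_mem (mul_mem (pow_mem (A.nonunits_subset hϖ) 2) (pow_mem hb 3)) hinv, ?_⟩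
    have : w t = u t ^ 3 * (1 - m)⁻¹ := by
      rw [← hkey]; field_simp
    rw [this, eb]; ring
  -- step 2: successive approximation
  have hstep : ∀ n : ℕ, ∃ ψ : ι → K, EcflatAppr0 A ϖ ev ψ ∧
      ∀ t, ∃ a ∈ A, w t - ψ t = ϖ ^ n * a := by
    intro n
    induction n with
    | zero =>
      refine ⟨fun _ => 0, ⟨ecflatAppr_const 0 A.zero_mem, fun t => ⟨0, A.zero_mem, by simp⟩⟩,
        fun t => ⟨w t, A.nonunits_subset (hw t), by simp⟩⟩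
    | succ n ih =>
      obtain ⟨ψ, hψ, hψw⟩ := ih
      refine ⟨fun t => ecflat_f a₁ a₂ a₃ a₄ a₆ (u t) (ψ t),
        ecflat_f_appr0 hev h₁ h₂ h₃ h₄ h₆ hu hψ, fun t => ?_⟩
      obtain ⟨a, ha, ea⟩ := hψw t
      have hsub := ecflat_f_sub a₁ a₂ a₃ a₄ a₆ (u t) (ψ t) (u t) (w t)
      -- `M (ψ, u, w) ∈ ϖ A`
      have hM : EcflatAppr0 A ϖ ev (fun t => ecflat_M a₁ a₂ a₃ a₄ a₆ (ψ t) (u t) (ψ t)) :=
        ecflat_M_appr0 hev h₁ h₂ h₃ h₄ h₆ hψ hu hψ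
      obtain ⟨b, hb, eb⟩ := hu.2 t
      obtain ⟨c, hc, ec⟩ := hψ.2 t
      obtain ⟨d, hd, ed⟩ := hval t
      have huA : u t ∈ A := by rw [eb]; exact mul_mem (A.nonunits_subset hϖ) hb
      have hwA : w t ∈ A := A.nonunits_subset (hw t)
      have hψA : ψ t ∈ A := by rw [ec]; exact mul_mem (A.nonunits_subset hϖ) hc
      refine ⟨a * (a₁ * b + a₂ * b * u t + a₃ * (c + d) + a₄ * u t * (c + d)
        + a₆ * (c * ψ t + c * w t + d * w t)), ?_, ?_⟩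
      · exact mul_mem ha (add_mem (add_mem (add_mem (add_mem (mul_mem h₁ hb)
          (mul_mem (mul_mem h₂ hb) huA)) (mul_mem h₃ (add_mem hc hd)))
          (mul_mem (mul_mem h₄ huA) (add_mem hc hd)))
          (mul_mem h₆ (add_mem (add_mem (mul_mem hc hψA) (mul_mem hc hwA)) (mul_mem hd hwA))))
      · have e1 : w t - ecflat_f a₁ a₂ a₃ a₄ a₆ (u t) (ψ t)
            = (w t - ψ t) * ecflat_M a₁ a₂ a₃ a₄ a₆ (ψ t) (u t) (w t) := by
          have := heq t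
          linear_combination this + hsub
        have e2 : ecflat_M a₁ a₂ a₃ a₄ a₆ (ψ t) (u t) (w t)
            = ϖ * (a₁ * b + a₂ * b * u t + a₃ * (c + d) + a₄ * u t * (c + d)
              + a₆ * (c * ψ t + c * w t + d * w t)) := by
          simp only [ecflat_M]
          have e3 : a₁ * u t + a₂ * u t ^ 2 + a₃ * (ψ t + w t) + a₄ * u t * (ψ t + w t)
              + a₆ * (ψ t ^ 2 + ψ t * w t + w t ^ 2)
              = a₁ * (ϖ * b) + a₂ * (ϖ * b) * u t + a₃ * (ϖ * c + ϖ * d)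
                + a₄ * u t * (ϖ * c + ϖ * d)
                + a₆ * ((ϖ * c) * ψ t + (ϖ * c) * w t + (ϖ * d) * w t) := by
            rw [← eb, ← ec, ← ed]; ring
          rw [e3]; ring
        show w t - ecflat_f a₁ a₂ a₃ a₄ a₆ (u t) (ψ t) = _
        rw [e1, ea, e2]; ring
  refine ⟨fun n => ?_, hval⟩
  obtain ⟨ψ, hψ, hψw⟩ := hstep n
  obtain ⟨F, hF⟩ := hψ.1 n
  refine ⟨F, fun t => ?_⟩
  obtain ⟨a, ha, ea⟩ := hψw t
  obtain ⟨b, hb, eb⟩ := hF t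
  exact ⟨a + b, add_mem ha hb, by linear_combination ea + eb⟩

end W

section Phi

variable {a₁ a₂ a₃ a₄ a₆ : K}

/-- all the intermediate quantities of the chord construction are approximable with values in
`ϖ A`; in particular the unit conditions hold. -/
theorem ecflat_chord_appr0 (hev : ∀ t i, ev t i ∈ A) (hϖ : ϖ ∈ A.nonunits)
    (h₁ : a₁ ∈ A) (h₂ : a₂ ∈ A) (h₃ : a₃ ∈ A) (h₄ : a₄ ∈ A) (h₆ : a₆ ∈ A)
    {u w₁ v w₂ : ι → K} (hu : EcflatAppr0 A ϖ ev u) (hw₁ : EcflatAppr0 A ϖ ev w₁)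
    (hv : EcflatAppr0 A ϖ ev v) (hw₂ : EcflatAppr0 A ϖ ev w₂) :
    EcflatAppr0 A ϖ ev (fun t => ecflat_lam a₁ a₂ a₃ a₄ a₆ (u t) (w₁ t) (v t) (w₂ t)) ∧
    EcflatAppr0 A ϖ ev (fun t => ecflat_nu a₁ a₂ a₃ a₄ a₆ (u t) (w₁ t) (v t) (w₂ t)) ∧
    EcflatAppr0 A ϖ ev (fun t => ecflat_z₃ a₁ a₂ a₃ a₄ a₆ (u t) (w₁ t) (v t) (w₂ t)) ∧
    EcflatAppr0 A ϖ ev (fun t => ecflat_w₃ a₁ a₂ a₃ a₄ a₆ (u t) (w₁ t) (v t) (w₂ t)) ∧
    EcflatAppr0 A ϖ ev (fun t => ecflat_Phi a₁ a₂ a₃ a₄ a₆ (u t) (w₁ t) (v t) (w₂ t)) ∧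
    (∀ t, 1 - ecflat_M a₁ a₂ a₃ a₄ a₆ (w₁ t) (v t) (w₂ t) ≠ 0) ∧
    (∀ t, ecflat_c₃ a₂ a₄ a₆ (ecflat_lam a₁ a₂ a₃ a₄ a₆ (u t) (w₁ t) (v t) (w₂ t)) ≠ 0) ∧
    (∀ t, 1 - a₁ * ecflat_z₃ a₁ a₂ a₃ a₄ a₆ (u t) (w₁ t) (v t) (w₂ t)
      - a₃ * ecflat_w₃ a₁ a₂ a₃ a₄ a₆ (u t) (w₁ t) (v t) (w₂ t) ≠ 0) := by
  -- S
  have hS : EcflatAppr0 A ϖ ev (fun t => ecflat_S a₁ a₂ a₄ (u t) (w₁ t) (v t)) := by
    have t1 := hu.pow hev 2 (by norm_num)
    have t2 := EcflatAppr0.mul_right hev hu hv.1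
    have t3 := hv.pow hev 2 (by norm_num)
    have t4 := hw₁.const_mul hev a₁ h₁
    have t5 := (EcflatAppr0.mul_right hev (hu.add hv) hw₁.1).const_mul hev a₂ h₂
    have t6 := (hw₁.pow hev 2 (by norm_num)).const_mul hev a₄ h₄
    exact (((((t1.add t2).add t3).add t4).add t5).add t6).congr fun t => by
      simp only [ecflat_S]; ring
  have hM := ecflat_M_appr0 hev h₁ h₂ h₃ h₄ h₆ hw₁ hv hw₂
  have hlam : EcflatAppr0 A ϖ ev
      (fun t => ecflat_lam a₁ a₂ a₃ a₄ a₆ (u t) (w₁ t) (v t) (w₂ t)) :=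
    (hS.div_one_sub hev hϖ hM).congr fun t => rfl
  have hnu : EcflatAppr0 A ϖ ev
      (fun t => ecflat_nu a₁ a₂ a₃ a₄ a₆ (u t) (w₁ t) (v t) (w₂ t)) :=
    (hw₁.sub (EcflatAppr0.mul_right hev hlam hu.1)).congr fun t => rfl
  set l : ι → K := fun t => ecflat_lam a₁ a₂ a₃ a₄ a₆ (u t) (w₁ t) (v t) (w₂ t) with hl
  set n : ι → K := fun t => ecflat_nu a₁ a₂ a₃ a₄ a₆ (u t) (w₁ t) (v t) (w₂ t) with hn
  -- c₃ = 1 - N₃
  have hN₃ : EcflatAppr0 A ϖ ev (fun t => -(a₂ * l t + a₄ * l t ^ 2 + a₆ * l t ^ 3)) := by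
    have t1 := hlam.const_mul hev a₂ h₂
    have t2 := (hlam.pow hev 2 (by norm_num)).const_mul hev a₄ h₄
    have t3 := (hlam.pow hev 3 (by norm_num)).const_mul hev a₆ h₆
    exact ((t1.add t2).add t3).neg
  have hc₃e : ∀ t, ecflat_c₃ a₂ a₄ a₆ (l t) = 1 - -(a₂ * l t + a₄ * l t ^ 2 + a₆ * l t ^ 3) := by
    intro t; simp only [ecflat_c₃]; ring
  have hc₂ : EcflatAppr0 A ϖ ev (fun t => ecflat_c₂ a₁ a₂ a₃ a₄ a₆ (l t) (n t)) := by
    have t1 := hlam.const_mul hev a₁ h₁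
    have t2 := hnu.const_mul hev a₂ h₂
    have t3 := (hlam.pow hev 2 (by norm_num)).const_mul hev a₃ h₃
    have t4 := (EcflatAppr0.mul_right hev hlam hnu.1).const_mul hev (2 * a₄)
      (mul_mem (ofNat_mem A 2) h₄)
    have t5 := (EcflatAppr0.mul_right hev (hlam.pow hev 2 (by norm_num)) hnu.1).const_mul hev
      (3 * a₆) (mul_mem (ofNat_mem A 3) h₆)
    exact ((((t1.add t2).add t3).add t4).add t5).congr fun t => by
      simp only [ecflat_c₂]; ring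
  have hz₃ : EcflatAppr0 A ϖ ev
      (fun t => ecflat_z₃ a₁ a₂ a₃ a₄ a₆ (u t) (w₁ t) (v t) (w₂ t)) := by
    have t1 := hc₂.neg.div_one_sub hev hϖ hN₃
    exact ((t1.sub hu).sub hv).congr fun t => by
      simp only [ecflat_z₃]
      rw [hc₃e t]
  have hw₃ : EcflatAppr0 A ϖ ev
      (fun t => ecflat_w₃ a₁ a₂ a₃ a₄ a₆ (u t) (w₁ t) (v t) (w₂ t)) :=
    ((EcflatAppr0.mul_right hev hlam hz₃.1).add hnu).congr fun t => rfl
  have hU : EcflatAppr0 A ϖ ev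
      (fun t => a₁ * ecflat_z₃ a₁ a₂ a₃ a₄ a₆ (u t) (w₁ t) (v t) (w₂ t)
        + a₃ * ecflat_w₃ a₁ a₂ a₃ a₄ a₆ (u t) (w₁ t) (v t) (w₂ t)) :=
    (hz₃.const_mul hev a₁ h₁).add (hw₃.const_mul hev a₃ h₃)
  have hPhi : EcflatAppr0 A ϖ ev
      (fun t => ecflat_Phi a₁ a₂ a₃ a₄ a₆ (u t) (w₁ t) (v t) (w₂ t)) :=
    (hz₃.neg.div_one_sub hev hϖ hU).congr fun t => by
      simp only [ecflat_Phi]
      congr 1
      ring
  refine ⟨hlam, hnu, hz₃, hw₃, hPhi, fun t => hM.one_sub_ne_zero hϖ t, fun t => ?_, fun t => ?_⟩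
  · rw [hc₃e t]
    exact hN₃.one_sub_ne_zero hϖ t
  · have := hU.one_sub_ne_zero hϖ t
    intro h0
    apply this
    linear_combination h0

end Phi

end Fermat.Agent.EC


end ZBEC_006_1

/-! ### bundled: `Fermat.Agent.EC.Flat.Ker` -/
section ZBEC_006_2

/-!
# E-side flatness, part 5: the chart `z = -x/y` on the kernel of reduction

`E` a Weierstrass curve over a field `K` with coefficients in a valuation subring `A`.
`ecflat_InKer A P` : `P = 0` or `x(P) ∉ A`.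

* `ecflat_coords_of_not_mem` : for such an affine point, `x, y ≠ 0` and `z, w ∈ 𝔪`;
* `ecflat_z_injOn` : `z` is injective on the kernel;
* `ecflat_add_approx` : the addition of the kernel is uniformly approximable by polynomials in
  the `z`-coordinates (the shape asked for by `W1.KernelChart.add_approx`).
-/

set_option autoImplicit false

namespace Fermat.Agent.EC

open WeierstrassCurve

variable {K : Type*} [Field K] (A : ValuationSubring K) {E : WeierstrassCurve K}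

/-- the kernel predicate: `P = 0` or `x(P) ∉ A` -/
def ecflat_InKer : E.toAffine.Point → Prop
  | .zero => True
  | .some x _ _ => x ∉ A

theorem ecflat_inKer_zero : ecflat_InKer A (0 : E.toAffine.Point) := trivial

theorem ecflat_inKer_some {x y : K} (h : E.toAffine.Nonsingular x y) :
    ecflat_InKer A (Affine.Point.some x y h) ↔ x ∉ A := Iff.rfl

variable {A}

theorem ecflat_inv_mem_nonunits {x : K} (hx : x ∉ A) : x ≠ 0 ∧ x⁻¹ ∈ A.nonunits := by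
  refine ⟨fun h0 => hx (h0 ▸ A.zero_mem), ?_⟩
  rw [ValuationSubring.inv_mem_nonunits_iff]
  exact Or.inr hx

/-- the coordinates of an affine point of the kernel -/
theorem ecflat_coords_of_not_mem (h₁ : E.a₁ ∈ A) (h₂ : E.a₂ ∈ A) (h₃ : E.a₃ ∈ A)
    (h₄ : E.a₄ ∈ A) (h₆ : E.a₆ ∈ A) {x y : K} (h : E.toAffine.Equation x y) (hx : x ∉ A) :
    x ≠ 0 ∧ y ≠ 0 ∧ -x / y ∈ A.nonunits ∧ -1 / y ∈ A.nonunits := by
  obtain ⟨hx0, hu⟩ := ecflat_inv_mem_nonunits hx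
  have huA : x⁻¹ ∈ A := A.nonunits_subset hu
  have heq := (Affine.equation_iff _ _).1 h
  have ht : y / x ∉ A := by
    intro ht
    apply hx
    have e : x = (y / x) ^ 2 + E.a₁ * (y / x) + E.a₃ * (y / x) * x⁻¹ - E.a₂ - E.a₄ * x⁻¹
        - E.a₆ * x⁻¹ ^ 2 := by
      field_simp
      linear_combination -heq
    rw [e]
    exact sub_mem (sub_mem (sub_mem (add_mem (add_mem (pow_mem ht 2) (mul_mem h₁ ht))
      (mul_mem (mul_mem h₃ ht) huA)) h₂) (mul_mem h₄ huA)) (mul_mem h₆ (pow_mem huA 2))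
  obtain ⟨ht0, htu⟩ := ecflat_inv_mem_nonunits ht
  have hy0 : y ≠ 0 := fun h0 => ht0 (by rw [h0, zero_div])
  have e1 : -x / y = -(y / x)⁻¹ := by field_simp
  have hz : -x / y ∈ A.nonunits := by
    rw [e1]; exact neg_mem htu
  refine ⟨hx0, hy0, hz, ?_⟩
  have e2 : -1 / y = (-x / y) * x⁻¹ := by field_simp
  rw [e2]
  exact ecflat_mul_mem_nonunits hz huA

variable (A) in
/-- `z` of a point of the kernel is in `𝔪` -/
theorem ecflat_z_mem_nonunits (h₁ : E.a₁ ∈ A) (h₂ : E.a₂ ∈ A) (h₃ : E.a₃ ∈ A)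
    (h₄ : E.a₄ ∈ A) (h₆ : E.a₆ ∈ A) {P : E.toAffine.Point} (hP : ecflat_InKer A P) :
    ecflat_z P ∈ A.nonunits := by
  rcases P with _ | ⟨x, y, h⟩
  · show (0 : K) ∈ A.nonunits
    rw [ValuationSubring.mem_nonunits_iff]; simp
  · exact (ecflat_coords_of_not_mem h₁ h₂ h₃ h₄ h₆ h.1 hP).2.2.1

variable (A) in
/-- `w` of a point of the kernel is in `𝔪` -/
theorem ecflat_w_mem_nonunits (h₁ : E.a₁ ∈ A) (h₂ : E.a₂ ∈ A) (h₃ : E.a₃ ∈ A)
    (h₄ : E.a₄ ∈ A) (h₆ : E.a₆ ∈ A) {P : E.toAffine.Point} (hP : ecflat_InKer A P) :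
    ecflat_w P ∈ A.nonunits := by
  rcases P with _ | ⟨x, y, h⟩
  · show (0 : K) ∈ A.nonunits
    rw [ValuationSubring.mem_nonunits_iff]; simp
  · exact (ecflat_coords_of_not_mem h₁ h₂ h₃ h₄ h₆ h.1 hP).2.2.2

variable (A) in
/-- the equation `w = f(z, w)` on the kernel (the origin included) -/
theorem ecflat_w_eq (h₁ : E.a₁ ∈ A) (h₂ : E.a₂ ∈ A) (h₃ : E.a₃ ∈ A)
    (h₄ : E.a₄ ∈ A) (h₆ : E.a₆ ∈ A) {P : E.toAffine.Point} (hP : ecflat_InKer A P) :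
    ecflat_w P = ecflat_f E.a₁ E.a₂ E.a₃ E.a₄ E.a₆ (ecflat_z P) (ecflat_w P) := by
  rcases P with _ | ⟨x, y, h⟩
  · show (0 : K) = ecflat_f E.a₁ E.a₂ E.a₃ E.a₄ E.a₆ 0 0
    simp [ecflat_f]
  · exact ecflat_eq_zw h.1 (ecflat_coords_of_not_mem h₁ h₂ h₃ h₄ h₆ h.1 hP).2.1

/-- `M ∈ 𝔪` for arguments in `𝔪` -/
theorem ecflat_M_mem_nonunits {a₁ a₂ a₃ a₄ a₆ : K} (h₁ : a₁ ∈ A) (h₂ : a₂ ∈ A) (h₃ : a₃ ∈ A)
    (h₄ : a₄ ∈ A) (h₆ : a₆ ∈ A) {w₁ z₂ w₂ : K} (hw₁ : w₁ ∈ A.nonunits)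
    (hz₂ : z₂ ∈ A.nonunits) (hw₂ : w₂ ∈ A.nonunits) :
    ecflat_M a₁ a₂ a₃ a₄ a₆ w₁ z₂ w₂ ∈ A.nonunits := by
  have hw₁A := A.nonunits_subset hw₁
  have hz₂A := A.nonunits_subset hz₂
  have hw₂A := A.nonunits_subset hw₂
  have e : ecflat_M a₁ a₂ a₃ a₄ a₆ w₁ z₂ w₂
      = z₂ * (a₁ + a₂ * z₂ + a₄ * (w₁ + w₂)) + w₁ * (a₃ + a₆ * (w₁ + w₂))
        + w₂ * (a₃ + a₆ * w₂) := by
    simp only [ecflat_M]; ring
  rw [e]
  exact add_mem (add_mem
    (ecflat_mul_mem_nonunits hz₂ (add_mem (add_mem h₁ (mul_mem h₂ hz₂A))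
      (mul_mem h₄ (add_mem hw₁A hw₂A))))
    (ecflat_mul_mem_nonunits hw₁ (add_mem h₃ (mul_mem h₆ (add_mem hw₁A hw₂A)))))
    (ecflat_mul_mem_nonunits hw₂ (add_mem h₃ (mul_mem h₆ hw₂A)))

theorem ecflat_one_sub_ne_zero {m : K} (hm : m ∈ A.nonunits) : 1 - m ≠ 0 := by
  have hv : A.valuation (1 - m) = 1 := by
    have := Valuation.map_one_add_of_lt A.valuation
      (show A.valuation (-m) < 1 by rw [Valuation.map_neg]; exact A.mem_nonunits_iff.1 hm)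
    rwa [← sub_eq_add_neg] at this
  intro h0
  rw [h0, map_zero] at hv
  exact zero_ne_one hv

variable (A) in
/-- **`z` is injective on the kernel of reduction.** -/
theorem ecflat_z_injOn (h₁ : E.a₁ ∈ A) (h₂ : E.a₂ ∈ A) (h₃ : E.a₃ ∈ A)
    (h₄ : E.a₄ ∈ A) (h₆ : E.a₆ ∈ A) {P Q : E.toAffine.Point} (hP : ecflat_InKer A P)
    (hQ : ecflat_InKer A Q) (hz : ecflat_z P = ecflat_z Q) : P = Q := by
  rcases P with _ | ⟨x₁, y₁, hp⟩
  · rcases Q with _ | ⟨x₂, y₂, hq⟩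
    · rfl
    · exfalso
      obtain ⟨hx0, hy0, -, -⟩ := ecflat_coords_of_not_mem h₁ h₂ h₃ h₄ h₆ hq.1 hQ
      have : (-x₂ / y₂ : K) = 0 := hz.symm
      exact div_ne_zero (neg_ne_zero.2 hx0) hy0 this
  · rcases Q with _ | ⟨x₂, y₂, hq⟩
    · exfalso
      obtain ⟨hx0, hy0, -, -⟩ := ecflat_coords_of_not_mem h₁ h₂ h₃ h₄ h₆ hp.1 hP
      have : (-x₁ / y₁ : K) = 0 := hz
      exact div_ne_zero (neg_ne_zero.2 hx0) hy0 this
    · obtain ⟨hx₁0, hy₁0, hz₁, hw₁⟩ := ecflat_coords_of_not_mem h₁ h₂ h₃ h₄ h₆ hp.1 hP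
      obtain ⟨hx₂0, hy₂0, hz₂, hw₂⟩ := ecflat_coords_of_not_mem h₁ h₂ h₃ h₄ h₆ hq.1 hQ
      have hz' : (-x₁ / y₁ : K) = -x₂ / y₂ := hz
      have e₁ := ecflat_eq_zw hp.1 hy₁0
      have e₂ := ecflat_eq_zw hq.1 hy₂0
      have hch := ecflat_chord E.a₁ E.a₂ E.a₃ E.a₄ E.a₆ _ _ _ _ e₁ e₂
      rw [hz', sub_self, zero_mul] at hch
      have hD := ecflat_one_sub_ne_zero (ecflat_M_mem_nonunits h₁ h₂ h₃ h₄ h₆ hw₁ hz₂ hw₂)
      have hw : (-1 / y₂ : K) = -1 / y₁ := by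
        rcases mul_eq_zero.1 hch with h | h
        · exact sub_eq_zero.1 h
        · exact absurd h hD
      have hy : y₁ = y₂ := by
        rw [ecflat_y_eq hy₁0, ecflat_y_eq hy₂0, hw]
      have hx : x₁ = x₂ := by
        rw [ecflat_x_eq (x := x₁) hy₁0, ecflat_x_eq (x := x₂) hy₂0, hw, hz']
      subst hx; subst hy; rfl

/-! ### The addition is approximable -/

section Approx

variable [DecidableEq K]

/-- the index type: pairs of points of the kernel with `z`-coordinates in `ϖ A` -/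
def EcflatPairs (A : ValuationSubring K) (E : WeierstrassCurve K) (ϖ : K) : Type _ :=
  {t : E.toAffine.Point × E.toAffine.Point //
    ecflat_InKer A t.1 ∧ ecflat_InKer A t.2 ∧
      (∃ a ∈ A, ecflat_z t.1 = ϖ * a) ∧ (∃ a ∈ A, ecflat_z t.2 = ϖ * a)}

variable (A) in
/-- **The addition of the kernel of reduction is approximable.** -/
theorem ecflat_add_approx (h₁ : E.a₁ ∈ A) (h₂ : E.a₂ ∈ A) (h₃ : E.a₃ ∈ A)
    (h₄ : E.a₄ ∈ A) (h₆ : E.a₆ ∈ A) {ϖ : K} (hϖ : ϖ ∈ A.nonunits) (n : ℕ) :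
    ∃ F : MvPolynomial (Fin 1 ⊕ Fin 1) K, (∀ m, F.coeff m ∈ A) ∧
      ∀ P Q : E.toAffine.Point, ecflat_InKer A P → ecflat_InKer A Q →
        (∃ a ∈ A, ecflat_z P = ϖ * a) → (∃ a ∈ A, ecflat_z Q = ϖ * a) →
        ∃ a ∈ A, ecflat_z (P + Q)
          - MvPolynomial.eval (Sum.elim (fun _ => ecflat_z P) (fun _ => ecflat_z Q)) F
            = ϖ ^ n * a := by
  classical
  let ι := EcflatPairs A E ϖ
  let ev : ι → (Fin 1 ⊕ Fin 1) → K :=
    fun t => Sum.elim (fun _ => ecflat_z t.1.1) (fun _ => ecflat_z t.1.2)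
  have hev : ∀ t i, ev t i ∈ A := by
    intro t i
    rcases i with i | i
    · exact A.nonunits_subset (ecflat_z_mem_nonunits A h₁ h₂ h₃ h₄ h₆ t.2.1)
    · exact A.nonunits_subset (ecflat_z_mem_nonunits A h₁ h₂ h₃ h₄ h₆ t.2.2.1)
  have hu : EcflatAppr0 A ϖ ev (fun t => ecflat_z t.1.1) :=
    (ecflatAppr0_var (ev := ev) (Sum.inl 0) (fun t => t.2.2.2.1)).congr fun t => rfl
  have hv : EcflatAppr0 A ϖ ev (fun t => ecflat_z t.1.2) :=
    (ecflatAppr0_var (ev := ev) (Sum.inr 0) (fun t => t.2.2.2.2)).congr fun t => rfl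
  have hw₁ : EcflatAppr0 A ϖ ev (fun t => ecflat_w t.1.1) :=
    ecflat_w_appr0 hev hϖ h₁ h₂ h₃ h₄ h₆ hu
      (fun t => ecflat_w_mem_nonunits A h₁ h₂ h₃ h₄ h₆ t.2.1)
      (fun t => ecflat_w_eq A h₁ h₂ h₃ h₄ h₆ t.2.1)
  have hw₂ : EcflatAppr0 A ϖ ev (fun t => ecflat_w t.1.2) :=
    ecflat_w_appr0 hev hϖ h₁ h₂ h₃ h₄ h₆ hv
      (fun t => ecflat_w_mem_nonunits A h₁ h₂ h₃ h₄ h₆ t.2.2.1)
      (fun t => ecflat_w_eq A h₁ h₂ h₃ h₄ h₆ t.2.2.1)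
  obtain ⟨-, -, -, -, hPhi, hD, hc₃, hU⟩ :=
    ecflat_chord_appr0 hev hϖ h₁ h₂ h₃ h₄ h₆ hu hw₁ hv hw₂
  obtain ⟨F, hF⟩ := hPhi.1 n
  refine ⟨MvPolynomial.map A.subtype F, fun m => ?_, fun P Q hP hQ hzP hzQ => ?_⟩
  · rw [MvPolynomial.coeff_map]
    exact (F.coeff m).2
  · obtain ⟨a, ha, ea⟩ := hF ⟨(P, Q), hP, hQ, hzP, hzQ⟩
    refine ⟨a, ha, ?_⟩
    rw [MvPolynomial.eval_map]
    have hsum : ecflat_z (P + Q) = ecflat_Phi E.a₁ E.a₂ E.a₃ E.a₄ E.a₆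
        (ecflat_z P) (ecflat_w P) (ecflat_z Q) (ecflat_w Q) := by
      have hDt : 1 - ecflat_M E.a₁ E.a₂ E.a₃ E.a₄ E.a₆ (ecflat_w P) (ecflat_z Q) (ecflat_w Q)
          ≠ 0 := hD ⟨(P, Q), hP, hQ, hzP, hzQ⟩
      have hDt' : 1 - ecflat_M E.a₁ E.a₂ E.a₃ E.a₄ E.a₆ (ecflat_w P) (ecflat_z P) (ecflat_w P)
          ≠ 0 := hD ⟨(P, P), hP, hP, hzP, hzP⟩
      have hct : ecflat_c₃ E.a₂ E.a₄ E.a₆ (ecflat_lam E.a₁ E.a₂ E.a₃ E.a₄ E.a₆
          (ecflat_z P) (ecflat_w P) (ecflat_z Q) (ecflat_w Q)) ≠ 0 :=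
        hc₃ ⟨(P, Q), hP, hQ, hzP, hzQ⟩
      have hUt : 1 - E.a₁ * ecflat_z₃ E.a₁ E.a₂ E.a₃ E.a₄ E.a₆
            (ecflat_z P) (ecflat_w P) (ecflat_z Q) (ecflat_w Q)
          - E.a₃ * ecflat_w₃ E.a₁ E.a₂ E.a₃ E.a₄ E.a₆
            (ecflat_z P) (ecflat_w P) (ecflat_z Q) (ecflat_w Q) ≠ 0 :=
        hU ⟨(P, Q), hP, hQ, hzP, hzQ⟩
      have eP := ecflat_w_eq A h₁ h₂ h₃ h₄ h₆ hP
      have eQ := ecflat_w_eq A h₁ h₂ h₃ h₄ h₆ hQ
      have hch := ecflat_chord_canon E.a₁ E.a₂ E.a₃ E.a₄ E.a₆ _ _ _ _ eP eQ hDt hct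
      rcases P with _ | ⟨x₁, y₁, hp⟩
      · have hz0 : (Affine.Point.zero : E.toAffine.Point) + Q = Q := zero_add Q
        rw [hz0]
        exact (EcflatChord.phi_of_left_zero hch hUt).symm
      · rcases Q with _ | ⟨x₂, y₂, hq⟩
        · have hz0 : Affine.Point.some x₁ y₁ hp + (Affine.Point.zero : E.toAffine.Point)
              = Affine.Point.some x₁ y₁ hp := add_zero _
          rw [hz0]
          exact (EcflatChord.phi_of_right_zero hch hUt).symm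
        · obtain ⟨hx₁0, hy₁0, -, -⟩ := ecflat_coords_of_not_mem h₁ h₂ h₃ h₄ h₆ hp.1 hP
          obtain ⟨hx₂0, hy₂0, -, -⟩ := ecflat_coords_of_not_mem h₁ h₂ h₃ h₄ h₆ hq.1 hQ
          exact ecflat_z_add hp hq hx₁0 hx₂0 hy₁0 hy₂0 hDt hDt' hct
    rw [hsum]
    exact ea

end Approx

end Fermat.Agent.EC


end ZBEC_006_2

/-! ### bundled: `Fermat.Agent.EC.Flat.Lift` -/
section ZBEC_006_3

/-!
# E-side flatness, part 6: lifting points of the reduction to inertia-fixed points (algebra)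

`K` algebraically closed, `A` a valuation subring, `E` a Weierstrass curve over `K` with
coefficients in `A`, `(x, y)` an integral point of `E`.

* `ecflat_exists_Y` : for `s ∈ A`, `s ≡ x`, there is a point `(s, y₁)` with `y₁ ≡ y`;
* `ecflat_exists_X` : for `s ∈ A`, `s ≡ y`, there is a point `(x₁, s)` with `x₁ ≡ x`;
* `ecflat_fix_Y`, `ecflat_fix_X` : if `σ` fixes the coefficients and `s`, is congruent to the
  identity modulo `𝔪` on `A`, and the corresponding partial derivative is a unit, then `σ` fixes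
  `y₁` (resp. `x₁`).
-/

set_option autoImplicit false

namespace Fermat.Agent.EC

open WeierstrassCurve Polynomial

variable {K : Type*} [Field K] {A : ValuationSubring K} {E : WeierstrassCurve K}

theorem ecflat_prime {a b : K} (ha : a ∈ A) (hb : b ∈ A) (h : a * b ∈ A.nonunits) :
    a ∈ A.nonunits ∨ b ∈ A.nonunits := by
  rw [ValuationSubring.mem_nonunits_iff, map_mul] at h
  have h1 := (A.valuation_le_one_iff a).2 ha
  have h2 := (A.valuation_le_one_iff b).2 hb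
  by_contra hcon
  rw [not_or, ValuationSubring.mem_nonunits_iff, ValuationSubring.mem_nonunits_iff,
    not_lt, not_lt] at hcon
  have e1 : A.valuation a = 1 := le_antisymm h1 hcon.1
  have e2 : A.valuation b = 1 := le_antisymm h2 hcon.2
  rw [e1, e2] at h
  simp at h

/-- integral `x` forces integral `y` -/
theorem ecflat_y_mem (h₁ : E.a₁ ∈ A) (h₂ : E.a₂ ∈ A) (h₃ : E.a₃ ∈ A)
    (h₄ : E.a₄ ∈ A) (h₆ : E.a₆ ∈ A) {x y : K} (h : E.toAffine.Equation x y) (hx : x ∈ A) :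
    y ∈ A := by
  by_contra hy
  obtain ⟨hy0, hv⟩ := ecflat_inv_mem_nonunits hy
  have heq := (Affine.equation_iff _ _).1 h
  have key : (1 : K) = y⁻¹ * ((x ^ 3 + E.a₂ * x ^ 2 + E.a₄ * x + E.a₆) * y⁻¹
      - E.a₁ * x - E.a₃) := by
    field_simp
    linear_combination heq
  have hmem : y⁻¹ * ((x ^ 3 + E.a₂ * x ^ 2 + E.a₄ * x + E.a₆) * y⁻¹
      - E.a₁ * x - E.a₃) ∈ A.nonunits := by
    refine ecflat_mul_mem_nonunits hv ?_
    exact sub_mem (sub_mem (mul_mem (add_mem (add_mem (add_mem (pow_mem hx 3)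
      (mul_mem h₂ (pow_mem hx 2))) (mul_mem h₄ hx)) h₆) (A.nonunits_subset hv))
      (mul_mem h₁ hx)) h₃
  rw [← key] at hmem
  have : A.valuation (1 : K) < 1 := A.mem_nonunits_iff.1 hmem
  rw [map_one] at this
  exact lt_irrefl _ this

/-- integral `y` forces integral `x` -/
theorem ecflat_x_mem (h₁ : E.a₁ ∈ A) (h₂ : E.a₂ ∈ A) (h₃ : E.a₃ ∈ A)
    (h₄ : E.a₄ ∈ A) (h₆ : E.a₆ ∈ A) {x y : K} (h : E.toAffine.Equation x y) (hy : y ∈ A) :
    x ∈ A := by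
  by_contra hx
  obtain ⟨-, hy0, -, hw⟩ := ecflat_coords_of_not_mem h₁ h₂ h₃ h₄ h₆ h hx
  have : (-1 / y) * y ∈ A.nonunits := ecflat_mul_mem_nonunits hw hy
  have e : (-1 / y) * y = -1 := by field_simp
  rw [e] at this
  have h1 : A.valuation (-1 : K) < 1 := A.mem_nonunits_iff.1 this
  rw [Valuation.map_neg, map_one] at h1
  exact lt_irrefl _ h1

theorem ecflat_unit_add_ne_zero {u m : K} (hu : u ∉ A.nonunits) (hm : m ∈ A.nonunits) :
    u + m ≠ 0 := by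
  intro h0
  apply hu
  have : u = -m := by linear_combination h0
  rw [this]
  exact neg_mem hm

section Exists

variable [IsAlgClosed K]

/-- a monic quadratic has a root -/
theorem ecflat_exists_root_quadratic (b c : K) : ∃ r : K, r ^ 2 + b * r + c = 0 := by
  have hdeg : (C 1 * X ^ 2 + C b * X + C c : K[X]).degree = 2 :=
    degree_quadratic one_ne_zero
  obtain ⟨r, hr⟩ := IsAlgClosed.exists_root (C 1 * X ^ 2 + C b * X + C c : K[X])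
    (by rw [hdeg]; norm_num)
  refine ⟨r, ?_⟩
  have : (C 1 * X ^ 2 + C b * X + C c : K[X]).eval r = r ^ 2 + b * r + c := by
    simp
  rw [← this]
  exact hr

/-- a monic cubic has a root -/
theorem ecflat_exists_root_cubic (a b c : K) : ∃ r : K, r ^ 3 + a * r ^ 2 + b * r + c = 0 := by
  have hdeg : (C 1 * X ^ 3 + C a * X ^ 2 + C b * X + C c : K[X]).degree = 3 :=
    degree_cubic one_ne_zero
  obtain ⟨r, hr⟩ := IsAlgClosed.exists_root (C 1 * X ^ 3 + C a * X ^ 2 + C b * X + C c : K[X])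
    (by rw [hdeg]; norm_num)
  refine ⟨r, ?_⟩
  have : (C 1 * X ^ 3 + C a * X ^ 2 + C b * X + C c : K[X]).eval r
      = r ^ 3 + a * r ^ 2 + b * r + c := by
    simp
  rw [← this]
  exact hr

/-- **Lifting in the `y`-direction.** -/
theorem ecflat_exists_Y (h₁ : E.a₁ ∈ A) (h₂ : E.a₂ ∈ A) (h₃ : E.a₃ ∈ A)
    (h₄ : E.a₄ ∈ A) (h₆ : E.a₆ ∈ A) {x y : K} (h : E.toAffine.Equation x y) (hx : x ∈ A)
    {s : K} (hs : s ∈ A) (hsx : s - x ∈ A.nonunits) :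
    ∃ y₁ : K, y₁ ∈ A ∧ E.toAffine.Equation s y₁ ∧ y₁ - y ∈ A.nonunits := by
  have hy : y ∈ A := ecflat_y_mem h₁ h₂ h₃ h₄ h₆ h hx
  have heq := (Affine.equation_iff _ _).1 h
  obtain ⟨r, hr⟩ := ecflat_exists_root_quadratic (E.a₁ * s + E.a₃)
    (-(s ^ 3 + E.a₂ * s ^ 2 + E.a₄ * s + E.a₆))
  set r' := -(E.a₁ * s + E.a₃) - r with hr'
  have hEr : E.toAffine.Equation s r := by
    rw [Affine.equation_iff]; linear_combination hr
  have hEr' : E.toAffine.Equation s r' := by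
    rw [Affine.equation_iff, hr']; linear_combination hr
  have hrA : r ∈ A := ecflat_y_mem h₁ h₂ h₃ h₄ h₆ hEr hs
  have hr'A : r' ∈ A := ecflat_y_mem h₁ h₂ h₃ h₄ h₆ hEr' hs
  -- `q(y) = (y - r)(y - r') ∈ 𝔪`
  have hq : (y - r) * (y - r') = (x - s) * (x ^ 2 + x * s + s ^ 2 + E.a₂ * (x + s) + E.a₄
      - E.a₁ * y) := by
    rw [hr']; linear_combination heq - hr
  have hqm : (y - r) * (y - r') ∈ A.nonunits := by
    rw [hq]
    have : x - s ∈ A.nonunits := by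
      have := neg_mem hsx
      rwa [neg_sub] at this
    exact ecflat_mul_mem_nonunits this (sub_mem (add_mem (add_mem (add_mem (add_mem (pow_mem hx 2)
      (mul_mem hx hs)) (pow_mem hs 2)) (mul_mem h₂ (add_mem hx hs))) h₄) (mul_mem h₁ hy))
  rcases ecflat_prime (sub_mem hy hrA) (sub_mem hy hr'A) hqm with h' | h'
  · refine ⟨r, hrA, hEr, ?_⟩
    have := neg_mem h'
    rwa [neg_sub] at this
  · refine ⟨r', hr'A, hEr', ?_⟩
    have := neg_mem h'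
    rwa [neg_sub] at this

/-- **Lifting in the `x`-direction.** -/
theorem ecflat_exists_X (h₁ : E.a₁ ∈ A) (h₂ : E.a₂ ∈ A) (h₃ : E.a₃ ∈ A)
    (h₄ : E.a₄ ∈ A) (h₆ : E.a₆ ∈ A) {x y : K} (h : E.toAffine.Equation x y) (hx : x ∈ A)
    {s : K} (hs : s ∈ A) (hsy : s - y ∈ A.nonunits) :
    ∃ x₁ : K, x₁ ∈ A ∧ E.toAffine.Equation x₁ s ∧ x₁ - x ∈ A.nonunits := by
  have hy : y ∈ A := ecflat_y_mem h₁ h₂ h₃ h₄ h₆ h hx
  have heq := (Affine.equation_iff _ _).1 h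
  obtain ⟨r₁, hr₁⟩ := ecflat_exists_root_cubic E.a₂ (E.a₄ - E.a₁ * s)
    (E.a₆ - s ^ 2 - E.a₃ * s)
  obtain ⟨r₂, hr₂⟩ := ecflat_exists_root_quadratic (E.a₂ + r₁)
    (r₁ ^ 2 + E.a₂ * r₁ + E.a₄ - E.a₁ * s)
  set r₃ := -(E.a₂ + r₁) - r₂ with hr₃
  have hc : ∀ t : K, t ^ 3 + E.a₂ * t ^ 2 + (E.a₄ - E.a₁ * s) * t + (E.a₆ - s ^ 2 - E.a₃ * s)
      = (t - r₁) * ((t - r₂) * (t - r₃)) := by
    intro t
    rw [hr₃]
    linear_combination hr₁ + (t - r₁) * hr₂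
  have hE : ∀ t : K, t ^ 3 + E.a₂ * t ^ 2 + (E.a₄ - E.a₁ * s) * t + (E.a₆ - s ^ 2 - E.a₃ * s) = 0 →
      E.toAffine.Equation t s := by
    intro t ht
    rw [Affine.equation_iff]; linear_combination -ht
  have hE₁ : E.toAffine.Equation r₁ s := hE r₁ hr₁
  have hE₂ : E.toAffine.Equation r₂ s := hE r₂ (by rw [hc]; ring)
  have hE₃ : E.toAffine.Equation r₃ s := hE r₃ (by rw [hc]; ring)
  have hr₁A : r₁ ∈ A := ecflat_x_mem h₁ h₂ h₃ h₄ h₆ hE₁ hs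
  have hr₂A : r₂ ∈ A := ecflat_x_mem h₁ h₂ h₃ h₄ h₆ hE₂ hs
  have hr₃A : r₃ ∈ A := ecflat_x_mem h₁ h₂ h₃ h₄ h₆ hE₃ hs
  have hcx : (x - r₁) * ((x - r₂) * (x - r₃)) = (y - s) * (y + s + E.a₁ * x + E.a₃) := by
    rw [← hc]; linear_combination -heq
  have hcm : (x - r₁) * ((x - r₂) * (x - r₃)) ∈ A.nonunits := by
    rw [hcx]
    have : y - s ∈ A.nonunits := by
      have := neg_mem hsy
      rwa [neg_sub] at this
    exact ecflat_mul_mem_nonunits this (add_mem (add_mem (add_mem hy hs) (mul_mem h₁ hx)) h₃)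
  rcases ecflat_prime (sub_mem hx hr₁A) (mul_mem (sub_mem hx hr₂A) (sub_mem hx hr₃A)) hcm
    with h' | h'
  · refine ⟨r₁, hr₁A, hE₁, ?_⟩
    have := neg_mem h'
    rwa [neg_sub] at this
  · rcases ecflat_prime (sub_mem hx hr₂A) (sub_mem hx hr₃A) h' with h'' | h''
    · refine ⟨r₂, hr₂A, hE₂, ?_⟩
      have := neg_mem h''
      rwa [neg_sub] at this
    · refine ⟨r₃, hr₃A, hE₃, ?_⟩
      have := neg_mem h''
      rwa [neg_sub] at this

end Exists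

section Fix

variable (σ : K →+* K)

/-- **A simple root in the `y`-direction is fixed.** -/
theorem ecflat_fix_Y (hσ : ∀ a ∈ A, σ a - a ∈ A.nonunits)
    (f₁ : σ E.a₁ = E.a₁) (f₂ : σ E.a₂ = E.a₂) (f₃ : σ E.a₃ = E.a₃) (f₄ : σ E.a₄ = E.a₄)
    (f₆ : σ E.a₆ = E.a₆) (h₁ : E.a₁ ∈ A)
    {x y s y₁ : K} (hy₁ : y₁ ∈ A)
    (hsx : s - x ∈ A.nonunits) (hyy : y₁ - y ∈ A.nonunits) (fs : σ s = s)
    (hE : E.toAffine.Equation s y₁)
    (hunit : 2 * y + E.a₁ * x + E.a₃ ∉ A.nonunits) : σ y₁ = y₁ := by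
  have heq := (Affine.equation_iff _ _).1 hE
  have heq' : σ y₁ ^ 2 + E.a₁ * s * σ y₁ + E.a₃ * σ y₁ = s ^ 3 + E.a₂ * s ^ 2 + E.a₄ * s + E.a₆ := by
    have := congrArg σ heq
    simp only [map_add, map_mul, map_pow, f₁, f₂, f₃, f₄, f₆, fs] at this
    exact this
  have hprod : (σ y₁ - y₁) * (σ y₁ + y₁ + E.a₁ * s + E.a₃) = 0 := by
    linear_combination heq' - heq
  have hne : σ y₁ + y₁ + E.a₁ * s + E.a₃ ≠ 0 := by
    have e : σ y₁ + y₁ + E.a₁ * s + E.a₃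
        = (2 * y + E.a₁ * x + E.a₃) + ((σ y₁ - y₁) + (y₁ - y) * 2 + (s - x) * E.a₁) := by
      ring
    rw [e]
    exact ecflat_unit_add_ne_zero hunit (add_mem (add_mem (hσ y₁ hy₁)
      (ecflat_mul_mem_nonunits hyy (ofNat_mem A 2))) (ecflat_mul_mem_nonunits hsx h₁))
  rcases mul_eq_zero.1 hprod with h | h
  · exact sub_eq_zero.1 h
  · exact absurd h hne

/-- **A simple root in the `x`-direction is fixed.** -/
theorem ecflat_fix_X (hσ : ∀ a ∈ A, σ a - a ∈ A.nonunits)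
    (f₁ : σ E.a₁ = E.a₁) (f₂ : σ E.a₂ = E.a₂) (f₃ : σ E.a₃ = E.a₃) (f₄ : σ E.a₄ = E.a₄)
    (f₆ : σ E.a₆ = E.a₆) (h₁ : E.a₁ ∈ A) (h₂ : E.a₂ ∈ A)
    {x y s x₁ : K} (hx : x ∈ A) (hx₁ : x₁ ∈ A)
    (hsy : s - y ∈ A.nonunits) (hxx : x₁ - x ∈ A.nonunits) (fs : σ s = s)
    (hE : E.toAffine.Equation x₁ s)
    (hunit : 3 * x ^ 2 + 2 * E.a₂ * x + E.a₄ - E.a₁ * y ∉ A.nonunits) : σ x₁ = x₁ := by
  have heq := (Affine.equation_iff _ _).1 hE
  have heq' : s ^ 2 + E.a₁ * σ x₁ * s + E.a₃ * s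
      = σ x₁ ^ 3 + E.a₂ * σ x₁ ^ 2 + E.a₄ * σ x₁ + E.a₆ := by
    have := congrArg σ heq
    simp only [map_add, map_mul, map_pow, f₁, f₂, f₃, f₄, f₆, fs] at this
    exact this
  have hδ := hσ x₁ hx₁
  have hσA : σ x₁ ∈ A := by
    have : σ x₁ = (σ x₁ - x₁) + x₁ := by ring
    rw [this]; exact add_mem (A.nonunits_subset hδ) hx₁
  have hprod : (σ x₁ - x₁) * (σ x₁ ^ 2 + σ x₁ * x₁ + x₁ ^ 2 + E.a₂ * (σ x₁ + x₁) + E.a₄
      - E.a₁ * s) = 0 := by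
    linear_combination heq - heq'
  have hne : σ x₁ ^ 2 + σ x₁ * x₁ + x₁ ^ 2 + E.a₂ * (σ x₁ + x₁) + E.a₄ - E.a₁ * s ≠ 0 := by
    have e : σ x₁ ^ 2 + σ x₁ * x₁ + x₁ ^ 2 + E.a₂ * (σ x₁ + x₁) + E.a₄ - E.a₁ * s
        = (3 * x ^ 2 + 2 * E.a₂ * x + E.a₄ - E.a₁ * y)
          + ((x₁ - x) * (3 * (x₁ + x) + 2 * E.a₂) + (s - y) * (-E.a₁)
            + (σ x₁ - x₁) * (σ x₁ + 2 * x₁ + E.a₂)) := by
      ring
    rw [e]
    refine ecflat_unit_add_ne_zero hunit (add_mem (add_mem ?_ ?_) ?_)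
    · exact ecflat_mul_mem_nonunits hxx (add_mem (mul_mem (ofNat_mem A 3) (add_mem hx₁ hx))
        (mul_mem (ofNat_mem A 2) h₂))
    · exact ecflat_mul_mem_nonunits hsy (neg_mem h₁)
    · exact ecflat_mul_mem_nonunits hδ (add_mem (add_mem hσA (mul_mem (ofNat_mem A 2) hx₁)) h₂)
  rcases mul_eq_zero.1 hprod with h | h
  · exact sub_eq_zero.1 h
  · exact absurd h hne

end Fix

end Fermat.Agent.EC


end ZBEC_006_3
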