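/- GENERATED FILE (helper35, build-time optimisation, NOTES/ZB.md): verbatim concatenation of the modules
   Fermat.Agent.EC.Odd
   Fermat.Agent.EC.Abs
   Do not edit; do not import together with these modules. -/
import Mathlib
import Fermat.Agent.ZB.PT_009
import Fermat.Prelude.Def_GaloisRep_Residual
import Fermat.Prelude.Def_GaloisRep_ComplexConjugation

/-! ### bundled: `Fermat.Agent.EC.Odd` -/
section ZBEC_004_0

/-!
# EC package, brick ODD (helper46): an involution of an algebraically closed field inverts roots of unity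

`L` algebraically closed of characteristic `≠ 2`, `c : L →+* L` with `c ∘ c = id`, `c ≠ id`.
Artin–Schreier-lite, completely elementwise (no intermediate fields, no orderings):

* `inv_not_fixed_sq_neg_one` : no square root of `-1` is fixed by `c`;
* `inv_exists_sq_add_sq`     : a sum of two squares of fixed elements is the square of a fixed element;
* `inv_fixed_rootOfUnity`    : a fixed root of unity is `±1` (`ξ ^ 2 = 1`);
* `inv_apply_rootOfUnity`    : `c ζ = ζ⁻¹` for EVERY root of unity `ζ`;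
* `galois_involution_rootOfUnity` : the same for `c : ℚ̄ ≃ₐ[ℚ] ℚ̄`, `c * c = 1`, `c ≠ 1`.
-/

namespace Fermat.Agent.EC

section Abstract

variable {L : Type*} [Field L] [IsAlgClosed L] (c : L →+* L)

/-- No square root of `-1` is fixed by a nontrivial involution. -/
theorem inv_not_fixed_sq_neg_one (h2 : (2 : L) ≠ 0) (hc : ∀ x, c (c x) = x) {d : L} (hd : c d ≠ d)
    {j : L} (hj : j ^ 2 = -1) : c j ≠ j := by
  intro hfix
  set δ := d - c d with hδ
  have hδ0 : δ ≠ 0 := sub_ne_zero.mpr (Ne.symm hd)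
  have hcδ : c δ = -δ := by
    rw [hδ, map_sub, hc]; ring
  obtain ⟨β, hβ⟩ := IsAlgClosed.exists_pow_nat_eq δ (n := 2) (by norm_num)
  set n := β * c β with hn
  have hcn : c n = n := by rw [hn, map_mul, hc]; ring
  have hn2 : n ^ 2 = -δ ^ 2 := by
    have : c β ^ 2 = c δ := by rw [← hβ, map_pow]
    rw [hn, mul_pow, hβ, this, hcδ]; ring
  have hsq : (n * j) ^ 2 = δ ^ 2 := by
    rw [mul_pow, hn2, hj]; ring
  have hfixnj : c (n * j) = n * j := by rw [map_mul, hcn, hfix]
  have hor : n * j = δ ∨ n * j = -δ := sq_eq_sq_iff_eq_or_eq_neg.mp hsq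
  have hcδ' : c δ = δ := by
    rcases hor with h | h
    · rw [← h]; exact hfixnj
    · have : δ = -(n * j) := by rw [h]; ring
      rw [this, map_neg, hfixnj]
  rw [hcδ] at hcδ'
  have : (2 : L) * δ = 0 := by linear_combination -hcδ'
  rcases mul_eq_zero.mp this with h | h
  · exact h2 h
  · exact hδ0 h

/-- A chosen square root of `-1` is sent to its negative. -/
theorem inv_apply_sq_neg_one (h2 : (2 : L) ≠ 0) (hc : ∀ x, c (c x) = x) {d : L} (hd : c d ≠ d)
    {j : L} (hj : j ^ 2 = -1) : c j = -j := by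
  have h1 : c j ^ 2 = j ^ 2 := by rw [← map_pow, hj, map_neg, map_one]
  rcases sq_eq_sq_iff_eq_or_eq_neg.mp h1 with h | h
  · exact absurd h (inv_not_fixed_sq_neg_one c h2 hc hd hj)
  · exact h

/-- A sum of two squares of fixed elements is the square of a fixed element. -/
theorem inv_exists_sq_add_sq (h2 : (2 : L) ≠ 0) (hc : ∀ x, c (c x) = x) {d : L} (hd : c d ≠ d)
    {u v : L} (hu : c u = u) (hv : c v = v) : ∃ w, c w = w ∧ w ^ 2 = u ^ 2 + v ^ 2 := by
  obtain ⟨i, hi⟩ := IsAlgClosed.exists_pow_nat_eq (-1 : L) (n := 2) (by norm_num)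
  have hci := inv_apply_sq_neg_one c h2 hc hd hi
  obtain ⟨y, hy⟩ := IsAlgClosed.exists_pow_nat_eq (u + v * i) (n := 2) (by norm_num)
  refine ⟨y * c y, by rw [map_mul, hc]; ring, ?_⟩
  have : c y ^ 2 = u - v * i := by
    rw [← map_pow, hy, map_add, map_mul, hu, hv, hci]; ring
  rw [mul_pow, hy, this]
  linear_combination (-(v ^ 2)) * hi

/-- A finite sum of squares of fixed elements is the square of a fixed element. -/
theorem inv_exists_sq_sum (h2 : (2 : L) ≠ 0) (hc : ∀ x, c (c x) = x) {d : L} (hd : c d ≠ d)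
    {ι : Type*} (s : Finset ι) (f : ι → L) (hf : ∀ k ∈ s, c (f k) = f k) :
    ∃ w, c w = w ∧ w ^ 2 = ∑ k ∈ s, f k ^ 2 := by
  classical
  induction s using Finset.induction_on with
  | empty => exact ⟨0, map_zero c, by simp⟩
  | insert a s ha ih =>
    obtain ⟨w, hw, hw2⟩ := ih (fun k hk => hf k (Finset.mem_insert_of_mem hk))
    obtain ⟨w', hw', hw'2⟩ :=
      inv_exists_sq_add_sq c h2 hc hd (hf a (Finset.mem_insert_self a s)) hw
    exact ⟨w', hw', by rw [Finset.sum_insert ha, hw'2, hw2]⟩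

/-- `-1` is not a sum of squares of fixed elements. -/
theorem inv_neg_one_ne_sq_sum (h2 : (2 : L) ≠ 0) (hc : ∀ x, c (c x) = x) {d : L} (hd : c d ≠ d)
    {ι : Type*} (s : Finset ι) (f : ι → L) (hf : ∀ k ∈ s, c (f k) = f k) :
    ∑ k ∈ s, f k ^ 2 ≠ -1 := by
  intro h
  obtain ⟨w, hw, hw2⟩ := inv_exists_sq_sum c h2 hc hd s f hf
  exact inv_not_fixed_sq_neg_one c h2 hc hd (hw2.trans h) hw

/-- A fixed root of unity of odd order is `1`. -/
theorem inv_fixed_odd_order (h2 : (2 : L) ≠ 0) (hc : ∀ x, c (c x) = x) {d : L} (hd : c d ≠ d)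
    {θ : L} (hθ : c θ = θ) {m : ℕ} (hm : Odd m) (hpow : θ ^ m = 1) : θ = 1 := by
  by_contra hne
  obtain ⟨r, hr⟩ := hm
  -- `m = 2 r + 1`, `θ ^ k = (θ ^ (k (r + 1))) ^ 2`
  have hgeom : ∑ k ∈ Finset.range m, θ ^ k = 0 := by
    have h := mul_geom_sum θ m
    rw [hpow, sub_self] at h
    exact (mul_eq_zero.mp h).resolve_left (sub_ne_zero.mpr hne)
  have hsq : ∀ k, θ ^ k = (θ ^ (k * (r + 1))) ^ 2 := by
    intro k
    have : k * (r + 1) * 2 = k * m + k := by rw [hr]; ring
    rw [← pow_mul, this, pow_add, pow_mul', hpow, one_pow, one_mul]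
  have hsum : ∑ k ∈ Finset.range m, (θ ^ (k * (r + 1))) ^ 2 = 0 := by
    rw [← hgeom]
    exact Finset.sum_congr rfl (fun k _ => (hsq k).symm)
  -- split off `k = 0`
  have hm0 : m = (m - 1) + 1 := by omega
  rw [hm0, Finset.sum_range_succ'] at hsum
  simp only [zero_mul, pow_zero, one_pow] at hsum
  have hneg : ∑ k ∈ Finset.range (m - 1), (θ ^ ((k + 1) * (r + 1))) ^ 2 = -1 := by
    linear_combination hsum
  exact inv_neg_one_ne_sq_sum c h2 hc hd (Finset.range (m - 1))
    (fun k => θ ^ ((k + 1) * (r + 1))) (fun k _ => by rw [map_pow, hθ]) hneg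

/-- A fixed root of unity of `2`-power order is `±1`. -/
theorem inv_fixed_two_pow (h2 : (2 : L) ≠ 0) (hc : ∀ x, c (c x) = x) {d : L} (hd : c d ≠ d)
    {ξ : L} (hξ : c ξ = ξ) (e : ℕ) (hpow : ξ ^ 2 ^ e = 1) : ξ ^ 2 = 1 := by
  induction e with
  | zero => rw [pow_zero, pow_one] at hpow; rw [hpow, one_pow]
  | succ e ih =>
    rcases Nat.eq_zero_or_pos e with he | he
    · subst he; simpa using hpow
    · apply ih
      -- `(ξ ^ 2 ^ (e-1)) ^ 2 = ξ ^ 2 ^ e`, whose square is `1`
      have h1 : (ξ ^ 2 ^ e) ^ 2 = 1 := by rw [← pow_mul, ← pow_succ]; exact hpow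
      have h1' : (ξ ^ 2 ^ e) ^ 2 = 1 ^ 2 := by rw [h1, one_pow]
      rcases sq_eq_sq_iff_eq_or_eq_neg.mp h1' with h | h
      · exact h
      · exfalso
        obtain ⟨e', rfl⟩ : ∃ e', e = e' + 1 := ⟨e - 1, by omega⟩
        have hsq : (ξ ^ 2 ^ e') ^ 2 = -1 := by rw [← pow_mul, ← pow_succ]; exact h
        exact inv_not_fixed_sq_neg_one c h2 hc hd hsq (by rw [map_pow, hξ])

/-- A fixed root of unity is `±1`. -/
theorem inv_fixed_rootOfUnity (h2 : (2 : L) ≠ 0) (hc : ∀ x, c (c x) = x) {d : L} (hd : c d ≠ d)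
    {ξ : L} (hξ : c ξ = ξ) {n : ℕ} (hn : n ≠ 0) (hpow : ξ ^ n = 1) : ξ ^ 2 = 1 := by
  obtain ⟨e, m, hm, rfl⟩ := Nat.exists_eq_two_pow_mul_odd hn
  have h1 : (ξ ^ 2 ^ e) ^ m = 1 := by rw [← pow_mul]; exact hpow
  have h2' : ξ ^ 2 ^ e = 1 :=
    inv_fixed_odd_order c h2 hc hd (by rw [map_pow, hξ]) hm h1
  exact inv_fixed_two_pow c h2 hc hd hξ e h2'

/-- **A nontrivial involution of an algebraically closed field inverts every root of unity.** -/
theorem inv_apply_rootOfUnity (h2 : (2 : L) ≠ 0) (hc : ∀ x, c (c x) = x) {d : L} (hd : c d ≠ d)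
    {ζ : L} {n : ℕ} (hn : n ≠ 0) (hpow : ζ ^ n = 1) : c ζ = ζ⁻¹ := by
  have hζ0 : ζ ≠ 0 := by
    rintro rfl
    rw [zero_pow hn] at hpow
    exact zero_ne_one hpow
  obtain ⟨i, hi⟩ := IsAlgClosed.exists_pow_nat_eq (-1 : L) (n := 2) (by norm_num)
  have hci := inv_apply_sq_neg_one c h2 hc hd hi
  have hi0 : i ≠ 0 := by
    rintro rfl
    norm_num at hi
  -- the norm `ξ = ζ · c ζ` is a fixed root of unity
  set ξ := ζ * c ζ with hξdef
  have hξ : c ξ = ξ := by rw [hξdef, map_mul, hc]; ring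
  have hξn : ξ ^ n = 1 := by
    rw [hξdef, mul_pow, ← map_pow, hpow, map_one, mul_one]
  have hξ2 : ξ ^ 2 = 1 ^ 2 := by
    rw [one_pow]; exact inv_fixed_rootOfUnity c h2 hc hd hξ hn hξn
  rcases sq_eq_sq_iff_eq_or_eq_neg.mp hξ2 with h | h
  · exact eq_inv_of_mul_eq_one_right h
  · exfalso
    -- `ζ = u + v i` with `u`, `v` fixed, so `ξ = u² + v² = -1`
    set u := (ζ + c ζ) / 2 with hu
    set v := (ζ - c ζ) / (2 * i) with hv
    have hcu : c u = u := by
      rw [hu, map_div₀, map_add, hc, map_ofNat]; ring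
    have hcv : c v = v := by
      rw [hv, map_div₀, map_sub, hc, map_mul, map_ofNat, hci]
      field_simp
      ring
    have hsum : u ^ 2 + v ^ 2 = -1 := by
      rw [← h, hξdef, hu, hv]
      field_simp
      linear_combination ((ζ - c ζ) ^ 2) * hi
    obtain ⟨w, hw, hw2⟩ := inv_exists_sq_add_sq c h2 hc hd hcu hcv
    exact inv_not_fixed_sq_neg_one c h2 hc hd (hw2.trans hsum) hw

end Abstract

/-! ### The absolute Galois group of `ℚ` -/

/-- Every involution `c ≠ 1` of `ℚ̄` (every "complex conjugation") inverts every root of unity. -/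
theorem galois_involution_rootOfUnity
    (c : AlgebraicClosure ℚ ≃ₐ[ℚ] AlgebraicClosure ℚ) (hcc : c * c = 1) (hc1 : c ≠ 1)
    {ζ : AlgebraicClosure ℚ} {n : ℕ} (hn : n ≠ 0) (hpow : ζ ^ n = 1) : c ζ = ζ⁻¹ := by
  have hc : ∀ x, (c : AlgebraicClosure ℚ →+* AlgebraicClosure ℚ) ((c : AlgebraicClosure ℚ →+*
      AlgebraicClosure ℚ) x) = x := by
    intro x
    have := congrArg (fun f : AlgebraicClosure ℚ ≃ₐ[ℚ] AlgebraicClosure ℚ => f x) hcc
    simpa using this
  obtain ⟨d, hd⟩ : ∃ d, c d ≠ d := by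
    by_contra hcon
    push Not at hcon
    exact hc1 (AlgEquiv.ext hcon)
  exact inv_apply_rootOfUnity (c : AlgebraicClosure ℚ →+* AlgebraicClosure ℚ)
    (two_ne_zero) hc (d := d) hd hn hpow

/-- **Oddness of the cyclotomic character**: every involution `c ≠ 1` of `ℚ̄` has
`χ_n(c) = -1` for the mod `n` cyclotomic character (Mathlib's `modularCyclotomicCharacter`). -/
theorem modularCyclotomicCharacter_involution {n : ℕ} [NeZero n]
    (hn : Nat.card (rootsOfUnity n (AlgebraicClosure ℚ)) = n)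
    (c : AlgebraicClosure ℚ ≃ₐ[ℚ] AlgebraicClosure ℚ) (hcc : c * c = 1) (hc1 : c ≠ 1) :
    modularCyclotomicCharacter (AlgebraicClosure ℚ) hn
      (c : AlgebraicClosure ℚ ≃+* AlgebraicClosure ℚ) = -1 := by
  have key : ((-1 : (ZMod n)ˣ) : ZMod n) = modularCyclotomicCharacter (AlgebraicClosure ℚ) hn
      (c : AlgebraicClosure ℚ ≃+* AlgebraicClosure ℚ) := by
    apply modularCyclotomicCharacter.unique
    intro t ht
    have htn : (t : AlgebraicClosure ℚ) ^ n = 1 := by
      have := (mem_rootsOfUnity n t).mp ht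
      have h' := congrArg Units.val this
      simpa using h'
    have h1 : c (t : AlgebraicClosure ℚ) = (t : AlgebraicClosure ℚ)⁻¹ :=
      galois_involution_rootOfUnity c hcc hc1 (NeZero.ne n) htn
    show c (t : AlgebraicClosure ℚ) = _
    rw [h1]
    obtain ⟨m, rfl⟩ : ∃ m, n = m + 1 := ⟨n - 1, by have := NeZero.pos n; omega⟩
    have hval : ((-1 : (ZMod (m + 1))ˣ) : ZMod (m + 1)).val = m := by
      rw [Units.val_neg, Units.val_one]
      exact ZMod.val_neg_one m
    rw [hval]
    have ht0 : (t : AlgebraicClosure ℚ) ≠ 0 := t.ne_zero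
    apply inv_eq_of_mul_eq_one_right
    rw [← pow_succ']
    exact htn
  exact (Units.ext key).symm

end Fermat.Agent.EC


end ZBEC_004_0

/-! ### bundled: `Fermat.Agent.EC.Abs` -/
section ZBEC_004_1

/-!
# EC package, brick ABS (helper46): odd + irreducible ⇒ absolutely irreducible

For a 2-dimensional `ρ : ResidualGaloisRep k` over a field `k` with `2 ≠ 0`:
if `ρ` is irreducible and odd (`det ρ(c) = -1` for every involution `c ≠ 1` of `ℚ̄`), then every base
change of `ρ` to a field extension is irreducible; in particular `ρ.IsAbsolutelyIrreducible`.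
(The eigenlines of `ρ(c)` are `k`-rational.)

* `complexConjugation_ne_one` : the prelude's `complexConjugation` is a nontrivial involution;
* `ResidualGaloisRep.baseChange_isIrreducible_of_isOdd`;
* `ResidualGaloisRep.isAbsolutelyIrreducible_of_isOdd`.
-/

set_option autoImplicit false

open scoped TensorProduct

namespace Fermat.Agent.EC

/-- The prelude's complex conjugation is not the identity. -/
theorem complexConjugation_ne_one : complexConjugation ≠ 1 := by
  intro h
  obtain ⟨i, hi⟩ := IsAlgClosed.exists_pow_nat_eq (-1 : AlgebraicClosure ℚ) (n := 2) (by norm_num)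
  have h1 := complexEmbedding_complexConjugation i
  rw [h] at h1
  simp only [AlgEquiv.one_apply] at h1
  have h2 : complexEmbedding i ^ 2 = -1 := by
    rw [← map_pow, hi, map_neg, map_one]
  -- a complex number fixed by conjugation is real, and a real square is not `-1`
  have hre : ((complexEmbedding i).re : ℂ) = complexEmbedding i :=
    Complex.conj_eq_iff_re.mp h1.symm
  rw [← hre] at h2
  have h3 : ((complexEmbedding i).re ^ 2 : ℝ) = -1 := by exact_mod_cast h2
  nlinarith [sq_nonneg (complexEmbedding i).re]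

section

variable {k : Type} [Field k]

/-- **odd + irreducible ⇒ irreducible after every field extension.** -/
theorem baseChange_isIrreducible_of_isOdd (h2 : (2 : k) ≠ 0) (ρ : ResidualGaloisRep k)
    (hirr : ρ.IsIrreducible) (hodd : ρ.IsOdd) (k' : Type) [Field k'] [Algebra k k'] :
    (ρ.baseChange k').IsIrreducible := by
  classical
  -- the involution `A = ρ(c)`
  set c := complexConjugation with hc
  set A : Module.End k ρ.V := ρ.ρ c with hA
  have hAA : A * A = 1 := by
    rw [hA, ← map_mul, complexConjugation_mul_self, map_one]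
  have hAAv : ∀ v, A (A v) = v := fun v => by
    have := congrArg (fun f : Module.End k ρ.V => f v) hAA
    simpa using this
  have hdet : LinearMap.det A = -1 := hodd c complexConjugation_mul_self complexConjugation_ne_one
  have h11 : (1 : k) ≠ -1 := by
    intro h
    apply h2
    linear_combination h
  have hA1 : A ≠ 1 := by
    intro h
    rw [h, map_one] at hdet
    exact h11 hdet
  have hAm1 : A ≠ -1 := by
    intro h
    have : LinearMap.det (-1 : Module.End k ρ.V) = 1 := by
      have h' : (-1 : Module.End k ρ.V) = (-1 : k) • (1 : Module.End k ρ.V) := by simp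
      rw [h', LinearMap.det_smul, ρ.finrank_eq, map_one]
      norm_num
    rw [h, this] at hdet
    exact h11 hdet
  -- eigenvectors
  obtain ⟨v, hv⟩ : ∃ v, A v ≠ v := by
    by_contra hcon
    push Not at hcon
    exact hA1 (LinearMap.ext hcon)
  obtain ⟨w, hw⟩ : ∃ w, A w ≠ -w := by
    by_contra hcon
    push Not at hcon
    exact hAm1 (LinearMap.ext (by simpa using hcon))
  obtain ⟨em, hem0, hAem⟩ : ∃ em : ρ.V, em ≠ 0 ∧ A em = -em :=
    ⟨v - A v, sub_ne_zero.mpr (Ne.symm hv), by rw [map_sub, hAAv]; abel⟩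
  obtain ⟨ep, hep0, hAep⟩ : ∃ ep : ρ.V, ep ≠ 0 ∧ A ep = ep :=
    ⟨w + A w, fun h => hw (eq_neg_of_add_eq_zero_right h), by rw [map_add, hAAv]; abel⟩
  have h2inv : ∀ u : ρ.V, (2 : k) • u = 0 → u = 0 := fun u hu =>
    (smul_eq_zero.mp hu).resolve_left h2
  -- linear independence and spanning
  have hli : LinearIndependent k ![ep, em] := by
    rw [LinearIndependent.pair_iff]
    intro s t hst
    have h1 : s • ep - t • em = 0 := by
      have := congrArg A hst
      rw [map_add, map_smul, map_smul, hAep, hAem, map_zero] at this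
      rw [← this]; simp [sub_eq_add_neg]
    have hs : (2 : k) • (s • ep) = 0 := by
      have : (2 : k) • (s • ep) = (s • ep + t • em) + (s • ep - t • em) := by
        rw [two_smul]; abel
      rw [this, hst, h1, add_zero]
    have hs' : s • ep = 0 := h2inv _ hs
    have hs0 : s = 0 := (smul_eq_zero.mp hs').resolve_right hep0
    rw [hs0, zero_smul, zero_add] at hst
    exact ⟨hs0, (smul_eq_zero.mp hst).resolve_right hem0⟩
  have hspan : ∀ u : ρ.V, ∃ a b : k, a • ep + b • em = u := by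
    have htop := hli.span_eq_top_of_card_eq_finrank' (by simp [ρ.finrank_eq])
    intro u
    have hu : u ∈ Submodule.span k (Set.range ![ep, em]) := by rw [htop]; trivial
    have hr : Set.range ![ep, em] = {ep, em} := by
      ext z; simp [eq_comm, or_comm]
    rw [hr] at hu
    exact Submodule.mem_span_pair.mp hu
  -- the argument
  intro W hW
  by_contra hcon
  push Not at hcon
  obtain ⟨hbot, htop⟩ := hcon
  -- base-changed vectors
  obtain ⟨Ep, hEp⟩ : ∃ Ep : k' ⊗[k] ρ.V, Ep = (1 : k') ⊗ₜ[k] ep := ⟨_, rfl⟩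
  obtain ⟨Em, hEm⟩ : ∃ Em : k' ⊗[k] ρ.V, Em = (1 : k') ⊗ₜ[k] em := ⟨_, rfl⟩
  have htm : ∀ (a : k') (r : k) (u : ρ.V),
      a ⊗ₜ[k] (r • u) = (a * algebraMap k k' r) • ((1 : k') ⊗ₜ[k] u) := by
    intro a r u
    rw [TensorProduct.smul_tmul', smul_eq_mul, mul_one, ← TensorProduct.smul_tmul,
      Algebra.smul_def, mul_comm]
  have hact : ∀ (σ : AlgebraicClosure ℚ ≃ₐ[ℚ] AlgebraicClosure ℚ) (u : ρ.V),
      (ρ.baseChange k').ρ σ ((1 : k') ⊗ₜ[k] u) = (1 : k') ⊗ₜ[k] (ρ.ρ σ u) := fun σ u =>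
    LinearMap.baseChange_tmul _ _ _
  have hspan' : ∀ z : k' ⊗[k] ρ.V, ∃ x y : k', x • Ep + y • Em = z := by
    intro z
    induction z using TensorProduct.induction_on with
    | zero => exact ⟨0, 0, by simp⟩
    | tmul a u =>
      obtain ⟨s, t, rfl⟩ := hspan u
      refine ⟨a * algebraMap k k' s, a * algebraMap k k' t, ?_⟩
      rw [hEp, hEm, TensorProduct.tmul_add, htm, htm]
    | add z₁ z₂ h₁ h₂ =>
      obtain ⟨x₁, y₁, rfl⟩ := h₁
      obtain ⟨x₂, y₂, rfl⟩ := h₂
      exact ⟨x₁ + x₂, y₁ + y₂, by simp only [add_smul]; abel⟩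
  have hWtop : Ep ∈ W → Em ∈ W → False := by
    intro h1 h2
    apply htop
    rw [eq_top_iff]
    intro z _
    obtain ⟨x, y, rfl⟩ := hspan' z
    exact W.add_mem (W.smul_mem _ h1) (W.smul_mem _ h2)
  -- a stable line in `V` contradicts irreducibility
  have hline : ∀ e e' : ρ.V, e ≠ 0 → e' ≠ 0 → (∀ s : k, e' ≠ s • e) →
      (∀ σ, ∃ a : k, ρ.ρ σ e = a • e) → False := by
    intro e e' he he' hne hst
    have := hirr (Submodule.span k {e}) (by
      intro σ x hx
      obtain ⟨r, rfl⟩ := Submodule.mem_span_singleton.mp hx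
      obtain ⟨a, ha⟩ := hst σ
      rw [map_smul, ha]
      exact Submodule.smul_mem _ _ (Submodule.smul_mem _ _ (Submodule.mem_span_singleton_self e)))
    rcases this with h | h
    · exact he ((Submodule.span_singleton_eq_bot).mp h)
    · have : e' ∈ Submodule.span k {e} := by rw [h]; trivial
      obtain ⟨s, hs⟩ := Submodule.mem_span_singleton.mp this
      exact hne s hs.symm
  have hem_ne : ∀ s : k, em ≠ s • ep := by
    intro s h
    have h1 := congrArg A h
    rw [map_smul, hAep, hAem, ← h] at h1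
    apply hem0
    apply h2inv
    rw [two_smul]
    nth_rewrite 1 [← h1]
    abel
  have hep_ne : ∀ s : k, ep ≠ s • em := by
    intro s h
    have h1 := congrArg A h
    rw [map_smul, hAep, hAem, smul_neg, ← h] at h1
    apply hep0
    apply h2inv
    rw [two_smul]
    nth_rewrite 2 [h1]
    abel
  -- a nonzero vector of `W`
  obtain ⟨z, hzW, hz0⟩ := (Submodule.ne_bot_iff W).mp hbot
  obtain ⟨x, y, hxy⟩ := hspan' z
  have hAz : (ρ.baseChange k').ρ c z = x • Ep - y • Em := by
    rw [← hxy, map_add, map_smul, map_smul, hEp, hEm, hact, hact]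
    show x • (1 : k') ⊗ₜ[k] (A ep) + y • (1 : k') ⊗ₜ[k] (A em) = _
    rw [hAep, hAem, TensorProduct.tmul_neg, smul_neg, sub_eq_add_neg]
  have hAzW : x • Ep - y • Em ∈ W := hAz ▸ hW c z hzW
  have hzW' : x • Ep + y • Em ∈ W := hxy ▸ hzW
  have h2' : (2 : k') ≠ 0 := by
    intro h
    apply h2
    have : algebraMap k k' 2 = 0 := by rw [map_ofNat]; exact h
    exact (map_eq_zero _).mp this
  have hxE : x ≠ 0 → Ep ∈ W := by
    intro hx
    have h : (2 * x) • Ep ∈ W := by
      have : (2 * x) • Ep = (x • Ep + y • Em) + (x • Ep - y • Em) := by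
        rw [mul_smul, two_smul]; abel
      rw [this]; exact W.add_mem hzW' hAzW
    have := W.smul_mem (2 * x)⁻¹ h
    rwa [smul_smul, inv_mul_cancel₀ (mul_ne_zero h2' hx), one_smul] at this
  have hyE : y ≠ 0 → Em ∈ W := by
    intro hy
    have h : (2 * y) • Em ∈ W := by
      have : (2 * y) • Em = (x • Ep + y • Em) - (x • Ep - y • Em) := by
        rw [mul_smul, two_smul]; abel
      rw [this]; exact W.sub_mem hzW' hAzW
    have := W.smul_mem (2 * y)⁻¹ h
    rwa [smul_smul, inv_mul_cancel₀ (mul_ne_zero h2' hy), one_smul] at this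
  have hxy0 : x ≠ 0 ∨ y ≠ 0 := by
    by_contra hcon
    push Not at hcon
    apply hz0
    rw [← hxy, hcon.1, hcon.2]; simp
  rcases hxy0 with hx | hy
  · -- `Ep ∈ W`: the line `k ep` is stable
    have hEpW := hxE hx
    have hEpW' : (1 : k') ⊗ₜ[k] ep ∈ W := hEp ▸ hEpW
    apply hline ep em hep0 hem0 hem_ne
    intro σ
    obtain ⟨a, b, hab⟩ := hspan (ρ.ρ σ ep)
    by_cases hb : b = 0
    · exact ⟨a, by rw [← hab, hb, zero_smul, add_zero]⟩
    · exfalso
      apply hWtop hEpW
      rw [hEm]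
      have h1 : (1 : k') ⊗ₜ[k] (ρ.ρ σ ep) ∈ W := by
        rw [← hact]; exact hW σ _ hEpW'
      rw [← hab, TensorProduct.tmul_add] at h1
      have h3 : (1 : k') ⊗ₜ[k] (b • em) ∈ W := by
        have h4 : (1 : k') ⊗ₜ[k] (a • ep) ∈ W := by
          rw [TensorProduct.tmul_smul]
          exact W.smul_of_tower_mem a hEpW'
        have := W.sub_mem h1 h4
        simpa using this
      rw [TensorProduct.tmul_smul] at h3
      have := W.smul_of_tower_mem b⁻¹ h3
      rwa [smul_smul, inv_mul_cancel₀ hb, one_smul] at this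
  · have hEmW := hyE hy
    have hEmW' : (1 : k') ⊗ₜ[k] em ∈ W := hEm ▸ hEmW
    apply hline em ep hem0 hep0 hep_ne
    intro σ
    obtain ⟨a, b, hab⟩ := hspan (ρ.ρ σ em)
    by_cases ha : a = 0
    · exact ⟨b, by rw [← hab, ha, zero_smul, zero_add]⟩
    · exfalso
      refine hWtop ?_ hEmW
      rw [hEp]
      have h1 : (1 : k') ⊗ₜ[k] (ρ.ρ σ em) ∈ W := by
        rw [← hact]; exact hW σ _ hEmW'
      rw [← hab, TensorProduct.tmul_add] at h1
      have h3 : (1 : k') ⊗ₜ[k] (a • ep) ∈ W := by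
        have h4 : (1 : k') ⊗ₜ[k] (b • em) ∈ W := by
          rw [TensorProduct.tmul_smul]
          exact W.smul_of_tower_mem b hEmW'
        have := W.sub_mem h1 h4
        simpa using this
      rw [TensorProduct.tmul_smul] at h3
      have := W.smul_of_tower_mem a⁻¹ h3
      rwa [smul_smul, inv_mul_cancel₀ ha, one_smul] at this

/-- **odd + irreducible ⇒ absolutely irreducible** (`2 ≠ 0` in `k`). -/
theorem isAbsolutelyIrreducible_of_isOdd (h2 : (2 : k) ≠ 0) (ρ : ResidualGaloisRep k)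
    (hirr : ρ.IsIrreducible) (hodd : ρ.IsOdd) : ρ.IsAbsolutelyIrreducible :=
  baseChange_isIrreducible_of_isOdd h2 ρ hirr hodd (AlgebraicClosure k)

end

end Fermat.Agent.EC


end ZBEC_004_1
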