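/- GENERATED FILE (helper35, build-time optimisation, NOTES/ZB.md): verbatim concatenation of the modules
   Fermat.Agent.DEU.ResSep
   Fermat.Agent.DEU.ResSepMain
   Fermat.Agent.DEU.ResRoot
   Fermat.Agent.DEU.ResPD
   Fermat.Agent.DEU.ResSide
   Fermat.Agent.DEU.ModHyp
   Fermat.Agent.DEU.ModPRAsm
   Fermat.Agent.DEU.Good
   Fermat.Agent.DEU.RamInst
   Fermat.Agent.DEU.ModPRFinal
   Fermat.Agent.R38.HolLift
   Fermat.Agent.R38.HolLiftFinal
   Do not edit; do not import together with these modules. -/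
import Mathlib
import Fermat.Agent.ZB.S24_011
import Fermat.Agent.ZB.S24_012
import Fermat.Agent.ZB.S24_013
import Fermat.Agent.ZB.S24_001
import Fermat.Agent.ZB.ES_002
import Fermat.Agent.ZB.S28_002
import Fermat.Prelude.Thm_ModularCurve_coeff_jqModC_neg_one
import Fermat.Agent.ZB.ES_020
import Fermat.Agent.ZB.DEU_003
import Fermat.Agent.ZB.ES_012
import Fermat.Agent.ZB.RED_001
import Fermat.Agent.ZB.DEU_004
import Fermat.Agent.ZB.W1_002
import Fermat.Agent.ZB.DEU_007
import Fermat.Agent.ZB.INJ_005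
import Fermat.Agent.ZB.DEU_008
import Fermat.Agent.ZB.ES_003
import Fermat.Agent.ZB.ES_027
import Fermat.Agent.ZB.ES_001
import Fermat.Agent.ZB.ES_009

/-! ### bundled: `Fermat.Agent.DEU.ResSep` -/
section ZBDEU_005_0

/-!
# DEU / MPR-res, step 1: a criterion for separating elements (MacLane)

`k` perfect of characteristic `p`, `k ⊂ F ⊂ E` fields, `z ∈ F` not a `p`-th power in `E`, `F`
algebraic over `k(z)`.  Then `F / k(z)` is separable (`resSep_isSeparable`).

* `resSep_li` : `1, z, …, z^{p-1}` are linearly independent over `E^p`;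
* `resSep_decomp` : every element of `k(z)` is `Σ_{i<p} aᵢ^p zⁱ` with `aᵢ ∈ k(z)`.
-/

set_option autoImplicit false
set_option linter.unusedSectionVars false
set_option linter.style.haveILetI false

open Polynomial IntermediateField

namespace Fermat.Agent.DEU

/-- If `z` is not a `p`-th power in `E`, then `1, z, …, z^{p-1}` are linearly independent over
`E^p`. -/
theorem resSep_li {E : Type*} [Field E] (p : ℕ) [Fact p.Prime] [CharP E p] (z : E)
    (hz : ∀ w : E, w ^ p ≠ z) (b : Fin p → E) (h : ∑ i, (b i) ^ p * z ^ (i : ℕ) = 0) :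
    ∀ i, b i = 0 := by
  classical
  have hp : p.Prime := Fact.out
  set S : Subfield E := (frobenius E p).fieldRange with hS
  have hmemS : ∀ w : E, w ^ p ∈ S := fun w => ⟨w, by simp [frobenius_def]⟩
  have hzS : z ∉ S := by
    rintro ⟨w, hw⟩
    exact hz w (by simpa [frobenius_def] using hw)
  let P : S[X] := X ^ p - C ⟨z ^ p, hmemS z⟩
  have hP : aeval z P = 0 := by
    simp only [P, map_sub, map_pow, aeval_X, aeval_C]
    exact sub_self _
  have hPmonic : P.Monic := monic_X_pow_sub_C _ hp.ne_zero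
  have hint : IsIntegral S z := ⟨P, hPmonic, hP⟩
  have hmdvd : minpoly S z ∣ P := minpoly.dvd S z hP
  have hPmap : P.map (algebraMap S E) = (X - C z) ^ p := by
    simp only [P, Polynomial.map_sub, Polynomial.map_pow, map_X, map_C]
    rw [sub_pow_char, ← C_pow]
    rfl
  have hmap : (minpoly S z).map (algebraMap S E) ∣ (X - C z) ^ p := by
    rw [← hPmap]
    exact Polynomial.map_dvd (algebraMap S E) hmdvd
  obtain ⟨d, hd, hassoc⟩ := (dvd_prime_pow (prime_X_sub_C z) p).1 hmap
  have heq : (minpoly S z).map (algebraMap S E) = (X - C z) ^ d :=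
    eq_of_monic_of_associated ((minpoly.monic hint).map _) ((monic_X_sub_C z).pow d) hassoc
  have hdeg : (minpoly S z).natDegree = d := by
    have := congrArg natDegree heq
    rw [natDegree_map, (monic_X_sub_C z).natDegree_pow, natDegree_X_sub_C, mul_one] at this
    exact this
  have hdp : p ≤ d := by
    by_contra hlt
    rw [not_le] at hlt
    have hd1 : 0 < d := by
      rw [← hdeg]; exact minpoly.natDegree_pos hint
    have hnc : algebraMap S E (minpoly S z).nextCoeff = d • (-z) := by
      rw [← nextCoeff_map (algebraMap S E).injective, heq, (monic_X_sub_C z).nextCoeff_pow,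
        nextCoeff_X_sub_C]
    have hmem : d • (-z) ∈ S := by
      rw [← hnc]; exact (minpoly S z).nextCoeff.2
    have hdne : (d : E) ≠ 0 := by
      intro h0
      have := (CharP.cast_eq_zero_iff E p d).mp h0
      exact absurd (Nat.le_of_dvd hd1 this) (not_le.mpr hlt)
    apply hzS
    have hz' : z = -((d : E)⁻¹ * (d • (-z))) := by
      rw [nsmul_eq_mul]
      field_simp
    rw [hz']
    exact S.neg_mem (S.mul_mem (S.inv_mem (natCast_mem S d)) hmem)
  -- the polynomial `Q`
  let c : Fin p → S := fun i => ⟨(b i) ^ p, hmemS (b i)⟩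
  let Q : S[X] := ∑ i : Fin p, C (c i) * X ^ (i : ℕ)
  have hQ : aeval z Q = 0 := by
    simp only [Q, map_sum, map_mul, aeval_C, map_pow, aeval_X]
    exact h
  have hQdeg : Q.degree < p := degree_sum_fin_lt c
  have hQ0 : Q = 0 := by
    by_contra hne
    have h1 := minpoly.degree_le_of_ne_zero S z hne hQ
    have h2 : (minpoly S z).degree = d := by
      rw [degree_eq_natDegree (minpoly.ne_zero hint), hdeg]
    rw [h2] at h1
    have h3 : (d : WithBot ℕ) < p := lt_of_le_of_lt h1 hQdeg
    exact absurd (by exact_mod_cast h3) (not_lt.mpr hdp)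
  intro i
  have hci : Q.coeff i = c i := by
    simp only [Q, finsetSum_coeff, coeff_C_mul, coeff_X_pow]
    rw [Finset.sum_eq_single i]
    · simp
    · intro j _ hji
      have : (i : ℕ) ≠ (j : ℕ) := fun h => hji (Fin.ext h.symm)
      simp [this]
    · intro h; exact absurd (Finset.mem_univ i) h
  rw [hQ0, coeff_zero] at hci
  have : (b i) ^ p = 0 := by
    have := congrArg (fun s : S => (s : E)) hci
    simpa [c] using this.symm
  exact pow_eq_zero_iff hp.ne_zero |>.mp this

/-! ### Decomposition of `k(z)` over its `p`-th powers -/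

section Decomp

variable {k M : Type*} [Field k] [Field M] [Algebra k M] (p : ℕ) [Fact p.Prime] [CharP k p]
  [PerfectRing k p] (z : M)

/-- `c = Σ_{i<p} aᵢ^p zⁱ` with `aᵢ ∈ k(z)` -/
def ResSepT (c : M) : Prop :=
  ∃ a : Fin p → M, (∀ i, a i ∈ k⟮z⟯) ∧ c = ∑ i, (a i) ^ p * z ^ (i : ℕ)

variable {p z}

omit [PerfectRing k p] in
theorem ResSepT.mem {c : M} (h : ResSepT (k := k) p z c) : c ∈ k⟮z⟯ := by
  obtain ⟨a, ha, rfl⟩ := h
  refine sum_mem fun i _ => mul_mem (pow_mem (ha i) _) (pow_mem (mem_adjoin_simple_self k z) _)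

omit [PerfectRing k p] in
theorem ResSepT.zero : ResSepT (k := k) p z 0 :=
  ⟨fun _ => 0, fun _ => zero_mem _, by simp [(Fact.out : p.Prime).ne_zero]⟩

omit [PerfectRing k p] in
theorem ResSepT.add {c c' : M} (h : ResSepT (k := k) p z c) (h' : ResSepT (k := k) p z c') :
    ResSepT (k := k) p z (c + c') := by
  haveI : CharP M p := charP_of_injective_algebraMap (algebraMap k M).injective p
  obtain ⟨a, ha, rfl⟩ := h
  obtain ⟨a', ha', rfl⟩ := h'
  refine ⟨fun i => a i + a' i, fun i => add_mem (ha i) (ha' i), ?_⟩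
  rw [← Finset.sum_add_distrib]
  refine Finset.sum_congr rfl fun i _ => ?_
  rw [add_pow_char, add_mul]

omit [PerfectRing k p] in
theorem ResSepT.sum {ι : Type*} (s : Finset ι) (f : ι → M)
    (h : ∀ i ∈ s, ResSepT (k := k) p z (f i)) : ResSepT (k := k) p z (∑ i ∈ s, f i) := by
  classical
  induction s using Finset.induction_on with
  | empty => simpa using ResSepT.zero
  | insert i s hi ih =>
    rw [Finset.sum_insert hi]
    exact (h i (Finset.mem_insert_self i s)).add
      (ih fun j hj => h j (Finset.mem_insert_of_mem hj))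

omit [PerfectRing k p] in
theorem ResSepT.monomial {d : M} (hd : d ∈ k⟮z⟯) (n : ℕ) :
    ResSepT (k := k) p z (d ^ p * z ^ n) := by
  classical
  have hp : p.Prime := Fact.out
  have hlt : n % p < p := Nat.mod_lt _ hp.pos
  refine ⟨fun i => if i = ⟨n % p, hlt⟩ then d * z ^ (n / p) else 0, fun i => ?_, ?_⟩
  · by_cases hi : i = ⟨n % p, hlt⟩
    · simp only [hi, if_true]
      exact mul_mem hd (pow_mem (mem_adjoin_simple_self k z) _)
    · simp only [hi, if_false]; exact zero_mem _
  · rw [Finset.sum_eq_single (⟨n % p, hlt⟩ : Fin p)]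
    · simp only [if_true]
      rw [mul_pow, ← pow_mul, mul_assoc, ← pow_add]
      congr 2
      exact (Nat.div_add_mod' n p).symm
    · intro j _ hj
      simp [hj, hp.ne_zero]
    · intro h; exact absurd (Finset.mem_univ _) h

omit [PerfectRing k p] in
theorem ResSepT.mul {c c' : M} (h : ResSepT (k := k) p z c) (h' : ResSepT (k := k) p z c') :
    ResSepT (k := k) p z (c * c') := by
  obtain ⟨a, ha, rfl⟩ := h
  obtain ⟨a', ha', rfl⟩ := h'
  rw [Finset.sum_mul_sum]
  refine ResSepT.sum _ _ fun i _ => ResSepT.sum _ _ fun j _ => ?_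
  have : a i ^ p * z ^ (i : ℕ) * (a' j ^ p * z ^ (j : ℕ)) =
      (a i * a' j) ^ p * z ^ ((i : ℕ) + (j : ℕ)) := by
    rw [mul_pow, pow_add]; ring
  rw [this]
  exact ResSepT.monomial (mul_mem (ha i) (ha' j)) _

omit [PerfectRing k p] in
theorem ResSepT.one : ResSepT (k := k) p z 1 := by
  have := ResSepT.monomial (k := k) (p := p) (z := z) (one_mem _) 0
  simpa using this

omit [PerfectRing k p] in
theorem ResSepT.pow {c : M} (h : ResSepT (k := k) p z c) (n : ℕ) :
    ResSepT (k := k) p z (c ^ n) := by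
  induction n with
  | zero => simpa using ResSepT.one
  | succ n ih => rw [pow_succ]; exact ih.mul h

omit [PerfectRing k p] in
theorem ResSepT.inv {c : M} (h : ResSepT (k := k) p z c) : ResSepT (k := k) p z c⁻¹ := by
  have hp : p.Prime := Fact.out
  rcases eq_or_ne c 0 with rfl | hc
  · simpa using ResSepT.zero
  · have h1 : c⁻¹ = (c⁻¹) ^ p * z ^ 0 * c ^ (p - 1) := by
      have : c ^ p = c ^ (p - 1) * c := by
        rw [← pow_succ, Nat.sub_add_cancel hp.one_le]
      rw [pow_zero, mul_one, inv_pow, this]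
      field_simp
    rw [h1]
    exact (ResSepT.monomial (inv_mem h.mem) 0).mul (h.pow _)

theorem resSep_decomp {c : M} (hc : c ∈ k⟮z⟯) : ResSepT (k := k) p z c := by
  induction hc using IntermediateField.adjoin_induction with
  | mem x hx =>
    rw [Set.mem_singleton_iff] at hx
    subst hx
    have := ResSepT.monomial (k := k) (p := p) (z := x) (one_mem _) 1
    simpa using this
  | algebraMap x =>
    obtain ⟨y, rfl⟩ := (frobeniusEquiv k p).surjective x
    have := ResSepT.monomial (k := k) (p := p) (z := z) ((k⟮z⟯).algebraMap_mem y) 0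
    simpa [frobeniusEquiv_apply, frobenius_def, map_pow] using this
  | add x y _ _ hx hy => exact hx.add hy
  | inv x _ hx => exact hx.inv
  | mul x y _ _ hx hy => exact hx.mul hy

end Decomp

end Fermat.Agent.DEU


end ZBDEU_005_0

/-! ### bundled: `Fermat.Agent.DEU.ResSepMain` -/
section ZBDEU_005_1

/-!
# DEU / MPR-res, step 1 (main): MacLane's criterion

`k` perfect of characteristic `p`, `k ⊂ F ⊂ E`, `z ∈ F` not a `p`-th power in `E`, `F` algebraic
over `k(z)`: then `F / k(z)` is separable.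
-/

set_option autoImplicit false
set_option linter.unusedSectionVars false
set_option linter.style.haveILetI false

open Polynomial IntermediateField

namespace Fermat.Agent.DEU

variable {k E : Type*} [Field k] [Field E] [Algebra k E] (p : ℕ) [Fact p.Prime] [CharP k p]
  [PerfectRing k p]

theorem resSep_isSeparable (F : IntermediateField k E) (z : F) (hz : ∀ w : E, w ^ p ≠ (z : E))
    [Algebra.IsAlgebraic k⟮z⟯ F] : Algebra.IsSeparable k⟮z⟯ F := by
  classical
  have hp : p.Prime := Fact.out
  haveI : CharP E p := charP_of_injective_algebraMap (algebraMap k E).injective p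
  haveI : CharP F p := charP_of_injective_algebraMap (algebraMap k F).injective p
  haveI : CharP k⟮z⟯ p := charP_of_injective_algebraMap (algebraMap k k⟮z⟯).injective p
  refine ⟨fun w => ?_⟩
  have hint : IsIntegral k⟮z⟯ w := (Algebra.IsAlgebraic.isAlgebraic w).isIntegral
  have hirr := minpoly.irreducible hint
  rcases Polynomial.separable_or p hirr with h | ⟨-, g, hg, hgf⟩
  · exact h
  exfalso
  have h0 : aeval (w ^ p) g = 0 := by rw [← expand_aeval, hgf, minpoly.aeval]
  have hdec : ∀ n, ResSepT (k := k) p z ((g.coeff n : k⟮z⟯) : F) :=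
    fun n => resSep_decomp (g.coeff n).2
  choose a ha hag using hdec
  let hpoly : Fin p → (k⟮z⟯)[X] :=
    fun i => ∑ n ∈ g.support, C (⟨a n i, ha n i⟩ : k⟮z⟯) * X ^ n
  have haev : ∀ i, aeval w (hpoly i) = ∑ n ∈ g.support, a n i * w ^ n := by
    intro i
    simp only [hpoly, map_sum, map_mul, aeval_C, map_pow, aeval_X]
    rfl
  have keyF : ∑ i : Fin p, (aeval w (hpoly i)) ^ p * z ^ (i : ℕ) = 0 := by
    have e1 : ∀ i : Fin p, (aeval w (hpoly i)) ^ p * z ^ (i : ℕ) =
        ∑ n ∈ g.support, (a n i) ^ p * z ^ (i : ℕ) * (w ^ p) ^ n := by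
      intro i
      rw [haev, sum_pow_char, Finset.sum_mul]
      refine Finset.sum_congr rfl fun n _ => ?_
      rw [mul_pow, ← pow_mul, ← pow_mul, mul_comm n p]
      ring
    rw [Finset.sum_congr rfl fun i _ => e1 i, Finset.sum_comm]
    have e2 : aeval (w ^ p) g = ∑ n ∈ g.support, ((g.coeff n : k⟮z⟯) : F) * (w ^ p) ^ n := by
      rw [aeval_eq_sum_range, Finset.sum_subset (s₁ := g.support)
        (s₂ := Finset.range (g.natDegree + 1))]
      · exact Finset.sum_congr rfl fun n _ => by rw [Algebra.smul_def]; rfl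
      · intro n hn
        rw [Finset.mem_range]
        exact Nat.lt_succ_of_le (le_natDegree_of_mem_supp n hn)
      · intro n _ hn
        rw [mem_support_iff, not_not] at hn
        rw [hn]
        simp
    rw [← h0, e2]
    refine Finset.sum_congr rfl fun n _ => ?_
    rw [← Finset.sum_mul, ← hag n]
  have keyE : ∑ i : Fin p, ((aeval w (hpoly i) : F) : E) ^ p * ((z : F) : E) ^ (i : ℕ) = 0 := by
    have := congrArg (fun t : F => (t : E)) keyF
    simpa using this
  have hzero := resSep_li p (z : E) hz (fun i => ((aeval w (hpoly i) : F) : E)) keyE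
  have hzeroF : ∀ i, aeval w (hpoly i) = 0 := fun i => Subtype.ext (hzero i)
  -- degrees
  have hgpos : 0 < g.natDegree := Irreducible.natDegree_pos hg
  have hfdeg : (minpoly k⟮z⟯ w).natDegree = g.natDegree * p := by
    rw [← hgf, natDegree_expand]
  have hlt : g.natDegree < (minpoly k⟮z⟯ w).natDegree := by
    rw [hfdeg]
    calc g.natDegree = g.natDegree * 1 := (mul_one _).symm
      _ < g.natDegree * p := Nat.mul_lt_mul_of_pos_left hp.one_lt hgpos
  have hpolydeg : ∀ i, (hpoly i).natDegree ≤ g.natDegree := by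
    intro i
    refine natDegree_sum_le_of_forall_le _ _ fun n hn => ?_
    exact (natDegree_C_mul_X_pow_le _ _).trans (le_natDegree_of_mem_supp n hn)
  have hpoly0 : ∀ i, hpoly i = 0 := by
    intro i
    by_contra hne
    have h1 := minpoly.degree_le_of_ne_zero k⟮z⟯ w hne (hzeroF i)
    have h2 := natDegree_le_natDegree h1
    exact absurd (h2.trans (hpolydeg i)) (not_le.mpr hlt)
  have hcoeff : ∀ i, ∀ n ∈ g.support, a n i = 0 := by
    intro i n hn
    have h1 : (hpoly i).coeff n = (⟨a n i, ha n i⟩ : k⟮z⟯) := by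
      simp only [hpoly, finsetSum_coeff, coeff_C_mul, coeff_X_pow]
      rw [Finset.sum_eq_single n]
      · simp
      · intro m _ hmn
        simp [hmn.symm]
      · intro h; exact absurd hn h
    rw [hpoly0 i, coeff_zero] at h1
    exact (congrArg (fun t : k⟮z⟯ => (t : F)) h1).symm
  obtain ⟨n, hn⟩ : g.support.Nonempty := by
    rw [Finset.nonempty_iff_ne_empty, Ne, support_eq_empty]
    exact hg.ne_zero
  have hgn : ((g.coeff n : k⟮z⟯) : F) = 0 := by
    rw [hag n]
    refine Finset.sum_eq_zero fun i _ => ?_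
    rw [hcoeff i n hn, zero_pow hp.ne_zero, zero_mul]
  exact (mem_support_iff.mp hn) (Subtype.ext hgn)

end Fermat.Agent.DEU


end ZBDEU_005_1

/-! ### bundled: `Fermat.Agent.DEU.ResRoot` -/
section ZBDEU_005_2

/-!
# DEU / MPR-root: `p`-th roots of elements of a separably generated field

`k` perfect of characteristic `p`, `k ⊂ F ⊂ E` fields, `x ∈ F` not a `p`-th power in `E`, and
`F / k(x)` separable.  Then `F` is closed under `p`-th roots in `E`:
`resRoot_mem : w ^ p ∈ F → w ∈ F`.

Proof: `F = k(x) · F^p` (separability) and `k(x) = ⊕_{j<p} k(x)^p x^j` (`resSep_decomp`), so every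
`y ∈ F` is `Σ_{j<p} a_j^p x^j` with `a_j ∈ F` (`resRoot_decomp`); if `w^p = y` then
`(a₀ - w)^p + Σ_{j ≥ 1} a_j^p x^j = 0` and `resSep_li` gives `w = a₀`.
-/

set_option autoImplicit false
set_option linter.unusedSectionVars false
set_option linter.style.haveILetI false

open Polynomial IntermediateField

namespace Fermat.Agent.DEU

section Decomp

variable {F : Type*} [Field F] (p : ℕ) [Fact p.Prime] [CharP F p] (x : F)

/-- `c = Σ_{i<p} aᵢ^p xⁱ` with `aᵢ ∈ F` -/
def ResRootT (c : F) : Prop :=
  ∃ a : Fin p → F, c = ∑ i, (a i) ^ p * x ^ (i : ℕ)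

variable {p x}

theorem ResRootT.zero : ResRootT p x 0 :=
  ⟨fun _ => 0, by simp [(Fact.out : p.Prime).ne_zero]⟩

theorem ResRootT.add {c c' : F} (h : ResRootT p x c) (h' : ResRootT p x c') :
    ResRootT p x (c + c') := by
  obtain ⟨a, rfl⟩ := h
  obtain ⟨a', rfl⟩ := h'
  refine ⟨fun i => a i + a' i, ?_⟩
  rw [← Finset.sum_add_distrib]
  refine Finset.sum_congr rfl fun i _ => ?_
  rw [add_pow_char, add_mul]

theorem ResRootT.sum {ι : Type*} (s : Finset ι) (f : ι → F)
    (h : ∀ i ∈ s, ResRootT p x (f i)) : ResRootT p x (∑ i ∈ s, f i) := by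
  classical
  induction s using Finset.induction_on with
  | empty => simpa using ResRootT.zero
  | insert i s hi ih =>
    rw [Finset.sum_insert hi]
    exact (h i (Finset.mem_insert_self i s)).add
      (ih fun j hj => h j (Finset.mem_insert_of_mem hj))

theorem ResRootT.monomial (d : F) (n : ℕ) : ResRootT p x (d ^ p * x ^ n) := by
  classical
  have hp : p.Prime := Fact.out
  have hlt : n % p < p := Nat.mod_lt _ hp.pos
  refine ⟨fun i => if i = ⟨n % p, hlt⟩ then d * x ^ (n / p) else 0, ?_⟩
  rw [Finset.sum_eq_single (⟨n % p, hlt⟩ : Fin p)]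
  · simp only [if_true]
    rw [mul_pow, ← pow_mul, mul_assoc, ← pow_add]
    congr 2
    exact (Nat.div_add_mod' n p).symm
  · intro j _ hj
    simp [hj, hp.ne_zero]
  · intro h; exact absurd (Finset.mem_univ _) h

theorem ResRootT.mul {c c' : F} (h : ResRootT p x c) (h' : ResRootT p x c') :
    ResRootT p x (c * c') := by
  obtain ⟨a, rfl⟩ := h
  obtain ⟨a', rfl⟩ := h'
  rw [Finset.sum_mul_sum]
  refine ResRootT.sum _ _ fun i _ => ResRootT.sum _ _ fun j _ => ?_
  have : a i ^ p * x ^ (i : ℕ) * (a' j ^ p * x ^ (j : ℕ)) =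
      (a i * a' j) ^ p * x ^ ((i : ℕ) + (j : ℕ)) := by
    rw [mul_pow, pow_add]; ring
  rw [this]
  exact ResRootT.monomial _ _

theorem ResRootT.pow_self (u : F) : ResRootT p x (u ^ p) := by
  have := ResRootT.monomial (p := p) (x := x) u 0
  simpa using this

end Decomp

/-- If `F / k(x)` is separable (`k` perfect of characteristic `p`), every element of `F` is
`Σ_{j<p} a_j^p x^j` with `a_j ∈ F`. -/
theorem resRoot_decomp {k F : Type*} [Field k] [Field F] [Algebra k F] (p : ℕ) [Fact p.Prime]
    [CharP k p] [PerfectRing k p] (x : F) [Algebra.IsSeparable k⟮x⟯ F] (y : F) :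
    haveI : CharP F p := charP_of_injective_algebraMap (algebraMap k F).injective p
    ResRootT p x y := by
  haveI : CharP F p := charP_of_injective_algebraMap (algebraMap k F).injective p
  haveI : CharP k⟮x⟯ p := charP_of_injective_algebraMap (algebraMap k k⟮x⟯).injective p
  haveI : ExpChar k⟮x⟯ p := ExpChar.prime Fact.out
  have hspan : Submodule.span k⟮x⟯ (Set.range (id : F → F)) = ⊤ := by
    rw [Set.range_id, Submodule.span_univ]
  have h1 := Field.span_map_pow_expChar_pow_eq_top_of_isSeparable (F := k⟮x⟯) (E := F) p 1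
    (v := (id : F → F)) hspan
  have hy : y ∈ Submodule.span k⟮x⟯ (Set.range fun u : F => id u ^ p ^ 1) := by
    rw [h1]; exact Submodule.mem_top
  induction hy using Submodule.span_induction with
  | mem z hz =>
    obtain ⟨u, rfl⟩ := hz
    simp only [id, pow_one]
    exact ResRootT.pow_self u
  | zero => exact ResRootT.zero
  | add z z' _ _ hz hz' => exact hz.add hz'
  | smul c z _ hz =>
    have hc : ResRootT p x (c : F) := by
      obtain ⟨a, -, ha⟩ := resSep_decomp (k := k) (p := p) (z := x) c.2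
      exact ⟨a, ha⟩
    have : c • z = (c : F) * z := rfl
    rw [this]
    exact hc.mul hz

/-- **MPR-root.** `k` perfect of characteristic `p`, `k ⊂ F ⊂ E`, `x ∈ F` not a `p`-th power in
`E`, `F / k(x)` separable: then `F` is closed under `p`-th roots in `E`. -/
theorem resRoot_mem {k E : Type*} [Field k] [Field E] [Algebra k E] (p : ℕ) [Fact p.Prime]
    [CharP k p] [PerfectRing k p] (F : IntermediateField k E) (x : F)
    (hx : ∀ w : E, w ^ p ≠ (x : E)) [Algebra.IsSeparable k⟮x⟯ F] (w : E) (hw : w ^ p ∈ F) :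
    w ∈ F := by
  classical
  have hp : p.Prime := Fact.out
  haveI : CharP E p := charP_of_injective_algebraMap (algebraMap k E).injective p
  haveI : CharP F p := charP_of_injective_algebraMap (algebraMap k F).injective p
  obtain ⟨a, ha⟩ := resRoot_decomp (k := k) (F := F) p x ⟨w ^ p, hw⟩
  have ha' : w ^ p = ∑ i, ((a i : F) : E) ^ p * (x : E) ^ (i : ℕ) := by
    have := congrArg (fun y : F => (y : E)) ha
    simpa using this
  have hp0 : 0 < p := hp.pos
  set i0 : Fin p := ⟨0, hp0⟩ with hi0
  set b : Fin p → E := fun i => if i = i0 then (a i : E) - w else (a i : E) with hb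
  have hsum : ∑ i, (b i) ^ p * (x : E) ^ (i : ℕ) = 0 := by
    have h1 : ∀ i : Fin p, (b i) ^ p * (x : E) ^ (i : ℕ) =
        ((a i : F) : E) ^ p * (x : E) ^ (i : ℕ) - (if i = i0 then w ^ p else 0) := by
      intro i
      by_cases hi : i = i0
      · subst hi
        simp only [hb, if_true, hi0, pow_zero, mul_one]
        rw [sub_pow_char]
      · simp only [hb, hi, if_false, sub_zero]
    rw [Finset.sum_congr rfl fun i _ => h1 i, Finset.sum_sub_distrib, ← ha',
      Finset.sum_ite_eq' Finset.univ i0 (fun _ => w ^ p)]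
    simp
  have hb0 := resSep_li p (x : E) hx b hsum i0
  simp only [hb, if_true] at hb0
  have : w = (a i0 : E) := (sub_eq_zero.mp hb0).symm
  rw [this]
  exact (a i0).2

end Fermat.Agent.DEU


end ZBDEU_005_2

/-! ### bundled: `Fermat.Agent.DEU.ResPD` -/
section ZBDEU_005_3

/-!
# DEU / MPR-res, step (iv): principal divisors in characteristic `p`

`k` algebraically closed of characteristic `p`, `k ⊂ F ⊂ E` fields, `F` finite over `k(x)` with `x`
transcendental, and every transcendental `y ∈ F` is `z ^ (p ^ e)` with `z ∈ F` not a `p`-th power in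
`E`.  Then `F / k` has principal divisors (`resPD_hasPrincipalDivisors`).

Proof: `z` and `z⁻¹` are separating (`resSep_isSeparable`), so the fundamental identity
(`resFund_sum_ord_eq_finrank`) holds for both; `div z` has degree `0` and `div y = p ^ e • div z`.
-/

set_option autoImplicit false
set_option linter.unusedSectionVars false
set_option linter.unusedVariables false
set_option linter.style.haveILetI false

noncomputable section

open AlgebraicCurve IntermediateField

namespace Fermat.Agent.DEU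

open Fermat.Agent.S24

section Generic

variable {K F : Type*} [Field K] [Field F] [Algebra K F]

/-- the degree of a divisor when all places have degree one -/
theorem resPD_degree_eq_sum (hdeg : ∀ v : Place K F, v.deg = 1) (D : Divisor K F) :
    Divisor.degree D = ∑ v ∈ D.support, D v := by
  rw [Divisor.degree, Finsupp.liftAddHom_apply, Finsupp.sum]
  refine Finset.sum_congr rfl fun v _ => ?_
  simp [hdeg v]

/-- **The divisor of a separating element**: if the fundamental identity holds for `z` and `z⁻¹`,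
then `z` has a divisor, of degree `0`. -/
theorem resPD_exists_divisor_of_sum (hdeg : ∀ v : Place K F, v.deg = 1) (z : F)
    (hp : ∃ V : Finset (Place K F), (∀ v, v ∈ V ↔ 0 < v.ord z) ∧
      ∑ v ∈ V, v.ord z = (Module.finrank K⟮z⟯ F : ℤ))
    (hm : ∃ V : Finset (Place K F), (∀ v, v ∈ V ↔ 0 < v.ord z⁻¹) ∧
      ∑ v ∈ V, v.ord z⁻¹ = (Module.finrank K⟮z⁻¹⟯ F : ℤ)) :
    ∃ D : Divisor K F, (∀ v : Place K F, D v = v.ord z) ∧ Divisor.degree D = 0 := by
  classical
  obtain ⟨Vp, hVp, hsp⟩ := hp
  obtain ⟨Vm, hVm, hsm⟩ := hm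
  rw [pd_finrank_eq_of_eq (pd_adjoin_inv_eq (K := K) z)] at hsm
  have hsuppD : ∀ v : Place K F, v.ord z ≠ 0 → v ∈ Vp ∪ Vm := by
    intro v hv
    rw [Finset.mem_union, hVp, hVm, Place.ord_inv]
    rcases lt_or_gt_of_ne hv with h | h
    · right; omega
    · left; exact h
  set D : Divisor K F := Finsupp.onFinset (Vp ∪ Vm) (fun v => v.ord z) hsuppD with hDdef
  have hD : ∀ v : Place K F, D v = v.ord z := fun v => rfl
  refine ⟨D, hD, ?_⟩
  have hdisj : Disjoint Vp Vm := by
    rw [Finset.disjoint_left]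
    intro v hv hv'
    have h1 := (hVp v).mp hv
    have h2 := (hVm v).mp hv'
    rw [v.ord_inv] at h2
    omega
  have hsupp : D.support = Vp ∪ Vm := by
    ext v
    rw [Finsupp.mem_support_iff, Finset.mem_union, hVp, hVm, hD v, v.ord_inv]
    omega
  rw [resPD_degree_eq_sum hdeg, hsupp, Finset.sum_union hdisj]
  have e1 : ∑ v ∈ Vp, D v = ∑ v ∈ Vp, v.ord z := Finset.sum_congr rfl fun v _ => hD v
  have e2 : ∑ v ∈ Vm, D v = -∑ v ∈ Vm, v.ord z⁻¹ := by
    rw [← Finset.sum_neg_distrib]
    exact Finset.sum_congr rfl fun v _ => by rw [hD v, v.ord_inv, neg_neg]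
  rw [e1, e2, hsp, hsm]
  ring

/-- the divisor of a power -/
theorem resPD_exists_divisor_pow {z : F} (n : ℕ)
    (h : ∃ D : Divisor K F, (∀ v : Place K F, D v = v.ord z) ∧ Divisor.degree D = 0) :
    ∃ D : Divisor K F, (∀ v : Place K F, D v = v.ord (z ^ n)) ∧ Divisor.degree D = 0 := by
  obtain ⟨D, hD, hdeg⟩ := h
  refine ⟨(n : ℤ) • D, fun v => ?_, ?_⟩
  · rw [Finsupp.smul_apply, smul_eq_mul, hD v, ← zpow_natCast, Place.ord_zpow]
  · rw [map_zsmul, hdeg, smul_zero]

end Generic

section CharP

variable {k E : Type*} [Field k] [Field E] [Algebra k E] [IsAlgClosed k]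

/-- **MPR-res (iv).**  Principal divisors for a function field of one variable in
characteristic `p`, all of whose transcendental elements are `p`-power powers of elements that are
not `p`-th powers in an ambient field `E`. -/
theorem resPD_hasPrincipalDivisors (p : ℕ) [Fact p.Prime] [CharP k p]
    (F : IntermediateField k E) (x : F) (hx : Transcendental k x) [FiniteDimensional k⟮x⟯ F]
    (hroot : ∀ y : F, Transcendental k y →
      ∃ (e : ℕ) (z : F), z ^ (p ^ e) = y ∧ ∀ w : E, w ^ p ≠ (z : E)) :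
    AlgebraicCurve.HasPrincipalDivisors k F where
  exists_divisor g hg := by
    classical
    have hp : p.Prime := Fact.out
    have halgx : Algebra.IsAlgebraic k⟮x⟯ F := Algebra.IsAlgebraic.of_finite _ _
    have hdeg : ∀ v : Place k F, v.deg = 1 := fun v => deg_eq_one x hx halgx v
    by_cases hgt : Transcendental k g
    · obtain ⟨e, z, hzg, hz⟩ := hroot g hgt
      have hzt : Transcendental k z := by
        intro hzalg
        apply hgt
        rw [← hzg]
        exact hzalg.pow _
      have hzt' : Transcendental k z⁻¹ := pd_transcendental_inv hzt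
      have hz0 : z ≠ 0 := by
        rintro rfl
        exact hzt (isAlgebraic_zero)
      have hz' : ∀ w : E, w ^ p ≠ ((z⁻¹ : F) : E) := by
        intro w hw
        apply hz w⁻¹
        rw [inv_pow, hw]
        simp
      haveI hfd : FiniteDimensional k⟮z⟯ F :=
        pd_finiteDimensional_adjoin_of_transcendental x hx z hzt
      haveI hfd' : FiniteDimensional k⟮z⁻¹⟯ F :=
        pd_finiteDimensional_adjoin_of_transcendental x hx z⁻¹ hzt'
      haveI : Algebra.IsAlgebraic k⟮z⟯ F := Algebra.IsAlgebraic.of_finite _ _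
      haveI : Algebra.IsAlgebraic k⟮z⁻¹⟯ F := Algebra.IsAlgebraic.of_finite _ _
      haveI : PerfectRing k p := inferInstance
      haveI hsep : Algebra.IsSeparable k⟮z⟯ F := resSep_isSeparable p F z hz
      haveI hsep' : Algebra.IsSeparable k⟮z⁻¹⟯ F := resSep_isSeparable p F z⁻¹ hz'
      have h1 := resPD_exists_divisor_of_sum hdeg z (resFund_sum_ord_eq_finrank z hzt)
        (resFund_sum_ord_eq_finrank z⁻¹ hzt')
      have h2 := resPD_exists_divisor_pow (p ^ e) h1
      rw [hzg] at h2
      exact h2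
    · have halg : IsAlgebraic k g := not_not.mp hgt
      obtain ⟨c, rfl⟩ := mem_range_algebraMap_of_isAlgebraic halg
      exact ⟨0, fun v => by simp [PlaceAux.ord_algebraMap], map_zero _⟩

end CharP

end Fermat.Agent.DEU

end
end ZBDEU_005_3

/-! ### bundled: `Fermat.Agent.DEU.ResSide` -/
section ZBDEU_005_4

/-!
# DEU / MPR-res: the residue side `F̄ = modularFunctionFieldFullC k N`, `k` perfect of char `p`

* `resSide_jq_not_pow` : `j̄` is not a `p`-th power in `k((q))`;
* `resSide_isSeparable` : `F̄ / k(j̄)` is separable;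
* `resSide_hroot` : every transcendental `y ∈ F̄` is `z ^ (p ^ e)` with `z ∈ F̄` not a `p`-th power
  in `k((q))` (so `F̄ / k(z)` is separable, `resSide_isSeparable_of_not_pow`).
-/

set_option autoImplicit false
set_option linter.unusedSectionVars false
set_option linter.style.haveILetI false
set_option synthInstance.maxHeartbeats 400000
set_option maxHeartbeats 1600000

open ModularCurve HahnSeries IntermediateField

namespace Fermat.Agent.DEU

variable (k : Type*) [Field k] (p : ℕ) [Fact p.Prime] [CharP k p] (N : ℕ) [NeZero N]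

/-- `j̄` as an element of `F̄`. -/
noncomputable def resSideJ : ↥(modularFunctionFieldFullC k N) :=
  ⟨jqModC k, jqModC_mem_full k N⟩

@[simp] theorem coe_resSideJ : ((resSideJ k N : ↥(modularFunctionFieldFullC k N)) :
    LaurentSeries k) = jqModC k := rfl

theorem resSide_jq_not_pow (w : LaurentSeries k) : w ^ p ≠ jqModC k := by
  intro h
  have h1 : (jqModC k).coeff (-1 : ℤ) = 1 := coeff_jqModC_neg_one k
  have hnd : ¬ (p : ℤ) ∣ (-1 : ℤ) := by
    intro hd
    have := Int.eq_one_of_dvd_one (by positivity) ((dvd_neg).mp hd)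
    have hp : p.Prime := Fact.out
    exact hp.one_lt.ne' (by exact_mod_cast this)
  rw [← h, resLaurent_coeff_pow_of_not_dvd p w hnd] at h1
  exact zero_ne_one h1

theorem resSide_transcendental_J : Transcendental k (resSideJ k N) := by
  intro h
  have h1 : IsAlgebraic k ((resSideJ k N : ↥(modularFunctionFieldFullC k N)) :
      LaurentSeries k) := by
    have := h.algHom (modularFunctionFieldFullC k N).val
    simpa using this
  exact Fermat.Agent.S28.red_transcendental_jqModC k h1

theorem resSide_finiteDimensional :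
    FiniteDimensional k⟮resSideJ k N⟯ ↥(modularFunctionFieldFullC k N) :=
  Fermat.Agent.INJ.bgFin_finiteDimensional_full k N

/-- a transcendental element of `F̄` is not constant as a Laurent series -/
theorem resSide_exists_coeff_ne_zero (y : ↥(modularFunctionFieldFullC k N))
    (hy : Transcendental k y) : ∃ n : ℤ, n ≠ 0 ∧ (y : LaurentSeries k).coeff n ≠ 0 := by
  by_contra hcon
  push Not at hcon
  apply hy
  have h1 : (y : LaurentSeries k) = HahnSeries.C ((y : LaurentSeries k).coeff 0) := by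
    ext n
    by_cases hn : n = 0
    · subst hn; simp
    · rw [hcon n hn]
      simp [HahnSeries.C_apply, HahnSeries.coeff_single_of_ne hn]
  have h2 : y = algebraMap k ↥(modularFunctionFieldFullC k N) ((y : LaurentSeries k).coeff 0) := by
    apply Subtype.ext
    have h3 : ((algebraMap k ↥(modularFunctionFieldFullC k N) ((y : LaurentSeries k).coeff 0) :
        ↥(modularFunctionFieldFullC k N)) : LaurentSeries k) =
          algebraMap k (LaurentSeries k) ((y : LaurentSeries k).coeff 0) := rfl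
    rw [h3, LaurentSeries.algebraMap_apply]
    exact h1
  rw [h2]
  exact isAlgebraic_algebraMap _

variable [PerfectRing k p]

include p

/-- an element of `F̄` that is not a `p`-th power in `k((q))` is separating -/
theorem resSide_isSeparable_of_not_pow (z : ↥(modularFunctionFieldFullC k N))
    (hz : ∀ w : LaurentSeries k, w ^ p ≠ (z : LaurentSeries k))
    [Algebra.IsAlgebraic k⟮z⟯ ↥(modularFunctionFieldFullC k N)] :
    Algebra.IsSeparable k⟮z⟯ ↥(modularFunctionFieldFullC k N) :=
  resSep_isSeparable p (modularFunctionFieldFullC k N) z hz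

/-- `F̄ / k(j̄)` is separable. -/
theorem resSide_isSeparable :
    Algebra.IsSeparable k⟮resSideJ k N⟯ ↥(modularFunctionFieldFullC k N) := by
  haveI := resSide_finiteDimensional k N
  haveI : Algebra.IsAlgebraic k⟮resSideJ k N⟯ ↥(modularFunctionFieldFullC k N) :=
    Algebra.IsAlgebraic.of_finite _ _
  exact resSide_isSeparable_of_not_pow k p N (resSideJ k N) (resSide_jq_not_pow k p)

/-- `F̄` is closed under `p ^ e`-th roots in `k((q))`. -/
theorem resSide_root_mem (e : ℕ) (w : LaurentSeries k)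
    (hw : w ^ (p ^ e) ∈ modularFunctionFieldFullC k N) : w ∈ modularFunctionFieldFullC k N := by
  haveI := resSide_isSeparable k p N
  induction e generalizing w with
  | zero => simpa using hw
  | succ e ih =>
    refine ih w ?_
    refine resRoot_mem p (modularFunctionFieldFullC k N) (resSideJ k N)
      (resSide_jq_not_pow k p) (w ^ (p ^ e)) ?_
    rw [← pow_mul, ← pow_succ]
    exact hw

/-- **every transcendental element of `F̄` is a `p`-power of a separating element** -/
theorem resSide_hroot (y : ↥(modularFunctionFieldFullC k N)) (hy : Transcendental k y) :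
    ∃ (e : ℕ) (z : ↥(modularFunctionFieldFullC k N)), z ^ (p ^ e) = y ∧
      ∀ w : LaurentSeries k, w ^ p ≠ (z : LaurentSeries k) := by
  obtain ⟨e, w, hw, hwp⟩ := resLaurent_exists_root p (y : LaurentSeries k)
    (resSide_exists_coeff_ne_zero k N y hy)
  have hwF : w ∈ modularFunctionFieldFullC k N :=
    resSide_root_mem k p N e w (by rw [hw]; exact y.2)
  exact ⟨e, ⟨w, hwF⟩, Subtype.ext hw, hwp⟩

omit [PerfectRing k p] in
/-- **MPR-res (b).** The residue side has principal divisors (any characteristic `p > 0`). -/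
theorem resSide_hasPrincipalDivisors [IsAlgClosed k] :
    AlgebraicCurve.HasPrincipalDivisors k ↥(modularFunctionFieldFullC k N) := by
  haveI := resSide_finiteDimensional k N
  haveI : PerfectRing k p := inferInstance
  exact resPD_hasPrincipalDivisors p (modularFunctionFieldFullC k N) (resSideJ k N)
    (resSide_transcendental_J k N) (resSide_hroot k p N)

omit [Fact p.Prime] [CharP k p] [PerfectRing k p] in
/-- **MPR-res (a).** Every place of the residue side has residue field `k`. -/
theorem resSide_residue_bijective [IsAlgClosed k]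
    (v : AlgebraicCurve.Place k ↥(modularFunctionFieldFullC k N)) :
    Function.Bijective (algebraMap k v.ResidueField) := by
  haveI := resSide_finiteDimensional k N
  exact Fermat.Agent.S24.algebraMap_residueField_bijective (resSideJ k N)
    (resSide_transcendental_J k N) (Algebra.IsAlgebraic.of_finite _ _) v

end Fermat.Agent.DEU


end ZBDEU_005_4

/-! ### bundled: `Fermat.Agent.DEU.ModHyp` -/
section ZBDEU_005_5

/-!
# DEU — the concrete hypotheses `Hyp` for `F = FF N`, `F̄ = modularFunctionFieldFullC k N`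

`modHyp_of_anchor` : all fields of `Hyp (deuInst_redData N A hRedF) Pinf Qinf (gN N) n₀` except
`anchor` and `bound` are on main:

* `hresF`, `hpdF` : `ES/HModular.lean`;
* `hresk`, `hpdk` : `DEU/ResSide.lean` (characteristic `ℓ`);
* `riemann` : `ES/Riemann.lean` (`stmtR`);
* `q2` : `DEU/Inst.lean` (`deuInst_q2`).
-/

set_option autoImplicit false
set_option linter.unusedSectionVars false
set_option linter.style.haveILetI false
set_option synthInstance.maxHeartbeats 400000
set_option maxHeartbeats 1600000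

open ModularCurve AlgebraicCurve HahnSeries Module

namespace Fermat.Agent.DEU

open Fermat.Agent.ES Fermat.Agent.S24 Fermat.Agent.ES.M

variable (N : ℕ) [NeZero N] (A : ValuationSubring Kb)

/-- the residue field of a valuation ring of `ℚ̄` is algebraically closed -/
theorem modHyp_isAlgClosed : IsAlgClosed (kA A) :=
  Fermat.Agent.RED.isAlgClosed_residueField A

/-- the residue side has residue fields `k` -/
theorem modHyp_hresk (v : Place (kA A) ↥(modularFunctionFieldFullC (kA A) N)) :
    Function.Bijective (algebraMap (kA A) v.ResidueField) :=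
  haveI := modHyp_isAlgClosed A
  resSide_residue_bijective (kA A) 0 N v

/-- the residue side has principal divisors -/
theorem modHyp_hpdk {ℓ : ℕ} (hℓ : ℓ.Prime) (hA : A.LiesOverPrime ℓ) :
    HasPrincipalDivisors (kA A) ↥(modularFunctionFieldFullC (kA A) N) :=
  haveI := modHyp_isAlgClosed A
  haveI : Fact ℓ.Prime := ⟨hℓ⟩
  haveI : CharP (kA A) ℓ := kron_charP_residueField hℓ hA
  resSide_hasPrincipalDivisors (kA A) ℓ N

/-- **the concrete `Hyp`**, from the anchor and the bound (I2). -/
theorem modHyp_of_anchor {ℓ : ℕ} (hℓ : ℓ.Prime) (hA : A.LiesOverPrime ℓ) (hRedF : StmtRedF N A)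
    (Pinf : Place Kb (FF N)) (Qinf : Place (kA A) ↥(modularFunctionFieldFullC (kA A) N))
    (n₀ : ℕ)
    (hanchor : ∀ m : ℕ,
      (deuInst_redData N A hRedF).redSpace (riemannRochSpace (mulPlace Pinf m)) ≤
        riemannRochSpace (mulPlace Qinf m))
    (hbound : (finrank (kA A) ↥(riemannRochSpace (mulPlace Qinf n₀)) : ℤ) + gN N ≤ n₀ + 1) :
    Hyp (deuInst_redData N A hRedF) Pinf Qinf (gN N) n₀ where
  hresF := Fermat.Agent.ES.H.residue_bijective_FF N
  hresk := modHyp_hresk N A
  hpdF := Fermat.Agent.ES.H.hasPrincipalDivisors_FF N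
  hpdk := modHyp_hpdk N A hℓ hA
  riemann := Fermat.Agent.ES.R.stmtR N
  q2 := fun V _ => deuInst_q2 N A hRedF V
  anchor := hanchor
  bound := hbound

end Fermat.Agent.DEU


end ZBDEU_005_5

/-! ### bundled: `Fermat.Agent.DEU.ModPRAsm` -/
section ZBDEU_005_6

/-!
# DEU — assembly of the reduction package `W1.ModPR` for `X₀(N)` (piece MPR-asm)

`modPR_of_hyp` : from the hypotheses `Hyp` of Deuring's dimension count at `(N, A)` (with `Qinf` the
`q`-order place of `F̄`), the good function `j` and the finiteness of the ramification of `j̄`, the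
package `W1.ModPR N A (gN N) R (jF N)` with `R = ⟨residue, deuValO, deuValRed, H.r⟩`.
-/

set_option autoImplicit false
set_option linter.unusedSectionVars false
set_option linter.style.haveILetI false
set_option synthInstance.maxHeartbeats 400000
set_option maxHeartbeats 1600000

open ModularCurve AlgebraicCurve HahnSeries Module

namespace Fermat.Agent.DEU

open Fermat.Agent.ES Fermat.Agent.S24 Fermat.Agent.ES.M Fermat.Agent.W1 Fermat.Agent.PR

variable (N : ℕ) [NeZero N] (A : ValuationSubring Kb) (hRedF : StmtRedF N A)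

/-- the reduction data of `X₀(N)` at `A` with a given reduction of places -/
noncomputable def modPRData
    (r : Place Kb (FF N) → Place (kA A) ↥(modularFunctionFieldFullC (kA A) N)) :
    PRData Kb (FF N) (kA A) ↥(modularFunctionFieldFullC (kA A) N) A where
  res := IsLocalRing.residue A
  O := deuValO N A
  red := deuValRed N A hRedF
  r := r

variable {N A hRedF}
variable {Pinf : Place Kb (FF N)} {Qinf : Place (kA A) ↥(modularFunctionFieldFullC (kA A) N)}
  {n₀ : ℕ}

theorem modPR_isPR (H : Hyp (deuInst_redData N A hRedF) Pinf Qinf (gN N) n₀) :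
    (modPRData N A hRedF H.r).IsPR where
  res_surjective := deuVal_res_surjective A
  res_eq_zero_iff := deuVal_res_eq_zero_iff' A
  algebraMap_mem_iff := deuVal_algebraMap_mem_iff' N A hRedF
  red_surjective := deuVal_red_surjective N A hRedF
  red_eq_zero_iff := deuVal_red_eq_zero_iff' N A hRedF
  red_algebraMap := deuVal_red_algebraMap N A hRedF
  prim := deuVal_prim N A hRedF
  r_div := fun u hu D hD Q => H.mapDomain_r_principal u hu D hD Q

theorem modPR_orth (H : Hyp (deuInst_redData N A hRedF) Pinf Qinf (gN N) n₀) :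
    (modPRData N A hRedF H.r).Orth :=
  fun D => H.exists_orth D

theorem modPR_upper_k (H : Hyp (deuInst_redData N A hRedF) Pinf Qinf (gN N) n₀) :
    GPRiemannUpper (kA A) ↥(modularFunctionFieldFullC (kA A) N) (gN N) :=
  ⟨(n₀ : ℤ) + gN N, fun 𝔟 h𝔟 => H.riemann_upper_res 𝔟 h𝔟⟩

theorem modPR_nice (H : Hyp (deuInst_redData N A hRedF) Pinf Qinf (gN N) n₀) :
    IsNiceCurve Kb (FF N) (gN N) :=
  haveI := H.hpdk
  nice_FF N (modPRData N A hRedF H.r) H.hresk Qinf (modPR_orth H) (modPR_upper_k H)

theorem modPR_nice_k (H : Hyp (deuInst_redData N A hRedF) Pinf Qinf (gN N) n₀)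
    (hQ : ∀ x : ↥(modularFunctionFieldFullC (kA A) N), x ≠ 0 →
      Qinf.ord x = (x : LaurentSeries (kA A)).order) :
    IsNiceCurve (kA A) ↥(modularFunctionFieldFullC (kA A) N) (gN N) where
  hres := H.hresk
  hpd := H.hpdk
  upper := modPR_upper_k H
  lower := fun 𝔟 => H.riemann_lower_res 𝔟
  infinite := by
    refine deuInf_infinite_k N A H.hpdk H.hresk (resSideJ (kA A) N) Qinf ?_
    have hne : resSideJ (kA A) N ≠ 0 := by
      intro h
      have := congrArg (fun x : ↥(modularFunctionFieldFullC (kA A) N) =>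
        (x : LaurentSeries (kA A)).coeff (-1)) h
      simp only [coe_resSideJ, ZeroMemClass.coe_zero, HahnSeries.coeff_zero] at this
      rw [coeff_jqModC_neg_one] at this
      exact one_ne_zero this
    rw [hQ _ hne, coe_resSideJ]
    have hj0 : jqModC (kA A) ≠ 0 := fun h => hne (Subtype.ext h)
    have hle : (jqModC (kA A)).order ≤ -1 :=
      HahnSeries.order_le_of_coeff_ne_zero (by rw [coeff_jqModC_neg_one]; exact one_ne_zero)
    omega

/-- **MPR-asm.** -/
theorem modPR_of_hyp (H : Hyp (deuInst_redData N A hRedF) Pinf Qinf (gN N) n₀)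
    (hQ : ∀ x : ↥(modularFunctionFieldFullC (kA A) N), x ≠ 0 →
      Qinf.ord x = (x : LaurentSeries (kA A)).order)
    (hgood : (modPRData N A hRedF H.r).GoodFn (jF N))
    (hram : ∀ ht : jF N ∈ deuValO N A,
      {Q : Place (kA A) ↥(modularFunctionFieldFullC (kA A) N) |
        ¬ ∃ c : kA A, Q.ord (deuValRed N A hRedF ⟨jF N, ht⟩ - algebraMap _ _ c) = 1}.Finite) :
    ModPR N A (gN N) (modPRData N A hRedF H.r) (jF N) where
  isPR := modPR_isPR H
  res_eq := rfl
  orth := modPR_orth H
  nice := modPR_nice H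
  nice_k := modPR_nice_k H hQ
  good := hgood
  ram := hram
  t_fixed := deuInf_smul_jF N
  decomp := fun σ hσ =>
    ⟨fun Q => prSemilinear N (prResAut σ hσ) • Q,
      fun P => deuEqMod_r_decomposition N A hRedF H.hresF ((n₀ : ℤ) + 2 * gN N) H.r
        (fun D hD => H.isLeast_mapDomain_r D hD) σ hσ P,
      fun _ hE => deuEqMod_mapDomain_principal _ hE⟩
  inertia := fun σ hσ P =>
    deuEqMod_r_inertia N A hRedF H.hresF ((n₀ : ℤ) + 2 * gN N) H.r
      (fun D hD => H.isLeast_mapDomain_r D hD) σ hσ P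

end Fermat.Agent.DEU


end ZBDEU_005_6

/-! ### bundled: `Fermat.Agent.DEU.Good` -/
section ZBDEU_005_7

/-!
# DEU / MPR-good — `j` is a good function: the poles of `j` reduce to poles of `j̄`

`R = deuInst_redData N A hRedF` the constant reduction of `F = F_N = ℚ̄(j(q^d) : d ∣ N)` at a
valuation ring `A ⊂ ℚ̄` over a prime `ℓ ∤ N`, `F̄ = k(j̄(q^d) : d ∣ N)`, and
`r : Place ℚ̄ F → Place k F̄` ANY map with `r_* (div u) = div ū` (clause 2 of
`Hyp.exists_reduction`).  Then `j ∈ O`, `red j = j̄`, and every pole `P` of `j` has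
`ord_{r P} (j̄) < 0` (`deuGood_good`): this is `W1.PRData.GoodFn j`.

Proof: `deg (j)_∞ = [F : ℚ̄(j)] = ψ(N) = [F̄ : k(j̄)] = deg (j̄)_∞` (fundamental identity on both
sides, `resFund_sum_ord_eq_finrank`; Igusa's degree theorem `relfinrank_full_eq_dedekindPsi`; the
separability of `F̄ / k(j̄)` is MacLane's criterion `resSep_isSeparable`, `j̄ = q⁻¹ + …` is not an
`ℓ`-th power), and `(j̄)_∞ ≤ r_* (j)_∞`, so nothing can cancel (`deuGood_core`).
-/

set_option autoImplicit false
set_option synthInstance.maxHeartbeats 400000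
set_option maxHeartbeats 1000000
set_option linter.style.haveILetI false
set_option linter.unusedSectionVars false

open AlgebraicCurve Module IntermediateField

namespace Fermat.Agent.DEU

/-! ## The abstract statement -/

/-- **No cancellation.**  If `r_* (div t) = div t̄`, the pole divisor of `t` has degree `≤ n` and the
pole divisor of `t̄` has degree `≥ n`, then every pole of `t` reduces to a pole of `t̄`. -/
theorem deuGood_core {K F k Fk : Type*} [Field K] [Field F] [Algebra K F] [Field k] [Field Fk]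
    [Algebra k Fk] (r : Place K F → Place k Fk) (t : F) (tb : Fk) (D : Divisor K F)
    (hD : ∀ P, D P = P.ord t) (hdiv : ∀ Q : Place k Fk, Finsupp.mapDomain r D Q = Q.ord tb)
    (n : ℤ)
    (VK : Finset (Place K F)) (hVK : ∀ v, v ∈ VK ↔ v.ord t < 0)
    (hK : ∑ v ∈ VK, -(v.ord t) ≤ n)
    (Vk : Finset (Place k Fk)) (hVk : ∀ v, v ∈ Vk ↔ v.ord tb < 0)
    (hk : n ≤ ∑ v ∈ Vk, -(v.ord tb))
    (P : Place K F) (hP : P.ord t < 0) : (r P).ord tb < 0 := by
  classical
  by_contra hcon
  have hrP : r P ∉ Vk := fun h => hcon ((hVk _).mp h)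
  have hPV : P ∈ VK := (hVK P).mpr hP
  -- the formula for `r_* D`
  have hmap : ∀ Q : Place k Fk,
      Q.ord tb = ∑ P' ∈ D.support, if r P' = Q then P'.ord t else 0 := by
    intro Q
    rw [← hdiv Q, Finsupp.mapDomain, Finsupp.sum_apply, Finsupp.sum]
    refine Finset.sum_congr rfl fun P' _ => ?_
    rw [Finsupp.single_apply, hD]
  have hsub : VK ⊆ D.support := by
    intro v hv
    rw [Finsupp.mem_support_iff, hD]
    exact ne_of_lt ((hVK v).mp hv)
  -- (A) `-ord_Q t̄ ≤ m(Q)`
  have hA : ∀ Q : Place k Fk,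
      -(Q.ord tb) ≤ ∑ P' ∈ VK, if r P' = Q then -(P'.ord t) else 0 := by
    intro Q
    have h1 : ∑ P' ∈ VK, (if r P' = Q then -(P'.ord t) else 0) =
        ∑ P' ∈ D.support, if r P' = Q then max 0 (-(P'.ord t)) else 0 := by
      rw [← Finset.sum_subset hsub]
      · refine Finset.sum_congr rfl fun P' hP' => ?_
        have := (hVK P').mp hP'
        rw [max_eq_right (by omega)]
      · intro P' _ hP'
        have : ¬ P'.ord t < 0 := fun h => hP' ((hVK P').mpr h)
        rw [max_eq_left (by omega)]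
        simp
    rw [h1, hmap Q, ← Finset.sum_neg_distrib]
    refine Finset.sum_le_sum fun P' _ => ?_
    split_ifs
    · exact le_max_right _ _
    · simp
  -- (B) summing over the poles of `t̄`
  have hB : ∑ Q ∈ Vk, ∑ P' ∈ VK, (if r P' = Q then -(P'.ord t) else 0) =
      ∑ P' ∈ VK, if r P' ∈ Vk then -(P'.ord t) else 0 := by
    rw [Finset.sum_comm]
    refine Finset.sum_congr rfl fun P' _ => ?_
    rw [Finset.sum_ite_eq]
  -- (C) the pole `P` is lost
  have hC : ∑ P' ∈ VK, (if r P' ∈ Vk then -(P'.ord t) else 0) < ∑ P' ∈ VK, -(P'.ord t) := by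
    refine Finset.sum_lt_sum (fun P' hP' => ?_) ⟨P, hPV, ?_⟩
    · have := (hVK P').mp hP'
      split_ifs
      · exact le_rfl
      · omega
    · rw [if_neg hrP]
      omega
  have h2 : ∑ v ∈ Vk, -(v.ord tb) ≤
      ∑ Q ∈ Vk, ∑ P' ∈ VK, (if r P' = Q then -(P'.ord t) else 0) :=
    Finset.sum_le_sum fun Q _ => hA Q
  rw [hB] at h2
  omega

section Generic

variable {K F : Type*} [Field K] [Field F] [Algebra K F]

theorem deuGood_adjoin_inv (x : F) : K⟮x⁻¹⟯ = K⟮x⟯ := by
  apply le_antisymm
  · rw [adjoin_simple_le_iff]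
    exact inv_mem (mem_adjoin_simple_self K x)
  · rw [adjoin_simple_le_iff]
    have h := inv_mem (mem_adjoin_simple_self K x⁻¹)
    rwa [inv_inv] at h

/-- The fundamental identity for the POLES of a separating element. -/
theorem deuGood_sum_poles [IsAlgClosed K] (x : F) (hx : Transcendental K x)
    [FiniteDimensional K⟮x⟯ F] [Algebra.IsSeparable K⟮x⟯ F] :
    ∃ V : Finset (Place K F), (∀ v, v ∈ V ↔ v.ord x < 0) ∧
      ∑ v ∈ V, -(v.ord x) = (Module.finrank K⟮x⟯ F : ℤ) := by
  have key : ∀ E : IntermediateField K F, E = K⟮x⟯ →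
      FiniteDimensional E F ∧ Algebra.IsSeparable E F ∧
        Module.finrank E F = Module.finrank K⟮x⟯ F := by
    rintro _ rfl
    exact ⟨inferInstance, inferInstance, rfl⟩
  obtain ⟨h1, h2, h3⟩ := key K⟮x⁻¹⟯ (deuGood_adjoin_inv x)
  haveI := h1
  haveI := h2
  have hx' : Transcendental K x⁻¹ := fun halg => hx (by simpa using halg.inv)
  obtain ⟨V, hV, hsum⟩ := resFund_sum_ord_eq_finrank (K := K) x⁻¹ hx'
  refine ⟨V, fun v => ?_, ?_⟩
  · rw [hV v, Place.ord_inv]
    omega
  · rw [← h3, ← hsum]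
    refine Finset.sum_congr rfl fun v _ => ?_
    rw [Place.ord_inv]

/-- The divisor of a separating element. -/
theorem deuGood_exists_divisor [IsAlgClosed K] (x : F) (hx : Transcendental K x)
    [FiniteDimensional K⟮x⟯ F] [Algebra.IsSeparable K⟮x⟯ F] :
    ∃ D : Divisor K F, ∀ P : Place K F, D P = P.ord x := by
  classical
  obtain ⟨V₀, hV₀, -⟩ := resFund_sum_ord_eq_finrank (K := K) x hx
  obtain ⟨V₁, hV₁, -⟩ := deuGood_sum_poles (K := K) x hx
  refine ⟨Finsupp.onFinset (V₀ ∪ V₁) (fun P => P.ord x) ?_, fun P => rfl⟩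
  intro P hP
  rw [Finset.mem_union, hV₀, hV₁]
  omega

end Generic

/-- **Good reduction of a function, abstract form.**  `t` and `t̄` separating of the same degree,
`r_* (div t) = div t̄`: the poles of `t` reduce to poles of `t̄`. -/
theorem deuGood_of_finrank_le {K F k Fk : Type*} [Field K] [Field F] [Algebra K F] [Field k]
    [Field Fk] [Algebra k Fk] [IsAlgClosed K] [IsAlgClosed k]
    (r : Place K F → Place k Fk) (t : F) (tb : Fk)
    (hdiv : ∀ D : Divisor K F, (∀ P, D P = P.ord t) →
      ∀ Q : Place k Fk, Finsupp.mapDomain r D Q = Q.ord tb)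
    (ht : Transcendental K t) (htb : Transcendental k tb)
    [FiniteDimensional K⟮t⟯ F] [Algebra.IsSeparable K⟮t⟯ F]
    [FiniteDimensional k⟮tb⟯ Fk] [Algebra.IsSeparable k⟮tb⟯ Fk]
    (hle : Module.finrank K⟮t⟯ F ≤ Module.finrank k⟮tb⟯ Fk)
    (P : Place K F) (hP : P.ord t < 0) : (r P).ord tb < 0 := by
  obtain ⟨D, hD⟩ := deuGood_exists_divisor (K := K) t ht
  obtain ⟨VK, hVK, hsumK⟩ := deuGood_sum_poles (K := K) t ht
  obtain ⟨Vk, hVk, hsumk⟩ := deuGood_sum_poles (K := k) tb htb
  refine deuGood_core r t tb D hD (hdiv D hD) (Module.finrank K⟮t⟯ F : ℤ) VK hVK hsumK.le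
    Vk hVk ?_ P hP
  rw [hsumk]
  exact_mod_cast hle

/-! ## The concrete instance: `t = j` -/

open ModularCurve Fermat.Agent.ES Fermat.Agent.S24 Fermat.Agent.ES.M

section Resid

variable (k : Type*) [Field k] (N : ℕ) [NeZero N]

/-- `j̄` as an element of `F̄ = k(j̄(q^d) : d ∣ N)` -/
noncomputable def deuGood_jk : ↥(modularFunctionFieldFullC k N) :=
  ⟨jqModC k, jqModC_mem_full k N⟩

@[simp] theorem deuGood_jk_coe :
    ((deuGood_jk k N : ↥(modularFunctionFieldFullC k N)) : LaurentSeries k) = jqModC k := rfl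

theorem deuGood_transcendental_jk : Transcendental k (deuGood_jk k N) := by
  intro halg
  apply Fermat.Agent.S28.kdj_transcendental_jqModC k
  have := (isAlgebraic_algHom_iff (modularFunctionFieldFullC k N).val
    (Subtype.val_injective)).mpr halg
  exact this

/-- `[F̄ : k(j̄)] = ψ(N)` (Igusa) -/
theorem deuGood_finrank_jk (hN : (N : k) ≠ 0) :
    Module.finrank k⟮deuGood_jk k N⟯ ↥(modularFunctionFieldFullC k N) = dedekindPsi N := by
  have h0 := Fermat.Agent.S28.relfinrank_full_eq_dedekindPsi k N hN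
  have h1 := IntermediateField.finrank_comap
    (A := (adjoin k {jqModC k} : IntermediateField k (LaurentSeries k)))
    (modularFunctionFieldFullC k N).val
  rw [IntermediateField.fieldRange_val] at h1
  have hcomap : (adjoin k {jqModC k} : IntermediateField k (LaurentSeries k)).comap
      (modularFunctionFieldFullC k N).val = k⟮deuGood_jk k N⟯ := by
    have hlift : IntermediateField.lift
        (k⟮deuGood_jk k N⟯ : IntermediateField k ↥(modularFunctionFieldFullC k N)) =
        (adjoin k {jqModC k} : IntermediateField k (LaurentSeries k)) := by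
      rw [IntermediateField.lift_adjoin_simple, deuGood_jk_coe]
    ext x
    have h2 : x ∈ (adjoin k {jqModC k} : IntermediateField k (LaurentSeries k)).comap
        (modularFunctionFieldFullC k N).val ↔
        (x : LaurentSeries k) ∈
          (adjoin k {jqModC k} : IntermediateField k (LaurentSeries k)) := Iff.rfl
    rw [h2, ← hlift]
    exact IntermediateField.mem_lift x
  rw [hcomap] at h1
  rw [h1, h0]

theorem deuGood_finiteDimensional_jk (hN : (N : k) ≠ 0) :
    FiniteDimensional k⟮deuGood_jk k N⟯ ↥(modularFunctionFieldFullC k N) :=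
  FiniteDimensional.of_finrank_pos (by
    rw [deuGood_finrank_jk k N hN]
    exact Nat.pos_of_ne_zero (Fermat.Agent.ES.I2.i2e_dedekindPsi_ne_zero N))

/-- `j̄ = q⁻¹ + …` is not a `p`-th power in `k((q))` -/
theorem deuGood_jqModC_ne_pow (p : ℕ) (hp : p.Prime) (w : LaurentSeries k) :
    w ^ p ≠ jqModC k := by
  intro hw
  have h1 := congrArg HahnSeries.order hw
  rw [HahnSeries.order_pow, Fermat.Agent.S28.order_jqModC, nsmul_eq_mul] at h1
  have h2 : ((p : ℕ) : ℤ) ∣ ((1 : ℕ) : ℤ) := ⟨-w.order, by push_cast; linarith⟩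
  have h3 : p ∣ 1 := Int.natCast_dvd_natCast.mp h2
  exact hp.one_lt.ne' (Nat.dvd_one.mp h3)

/-- `F̄ / k(j̄)` is separable (MacLane) -/
theorem deuGood_isSeparable_jk (p : ℕ) [Fact p.Prime] [CharP k p] [PerfectRing k p]
    (hN : (N : k) ≠ 0) :
    Algebra.IsSeparable k⟮deuGood_jk k N⟯ ↥(modularFunctionFieldFullC k N) := by
  haveI := deuGood_finiteDimensional_jk k N hN
  exact resSep_isSeparable p (modularFunctionFieldFullC k N) (deuGood_jk k N)
    (fun w => deuGood_jqModC_ne_pow k p Fact.out w)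

end Resid

variable (N : ℕ) [NeZero N] (A : ValuationSubring Kb)

omit [NeZero N] in
/-- `j` is Gauss-integral with reduction `j̄` -/
theorem deuGood_gaussRed_jF [NeZero N] : GaussRed N A (jF N) (jqModC (kA A)) := by
  have hI : kronIncl A (jqModC A) = jBar := by
    rw [Fermat.Agent.ES.I2.i2e_jBar_eq]
    exact coeffMap_jqModC _
  refine ⟨jqModC A, 1, ?_, ?_, ?_, ?_, ?_⟩
  · rw [hI]; exact jBar_mem N
  · rw [map_one]; exact one_mem _
  · rw [map_one]; exact one_ne_zero
  · rw [map_one, mul_one, hI]; rfl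
  · rw [map_one, mul_one]
    exact (coeffMap_jqModC _).symm

theorem deuGood_jF_mem (hRedF : StmtRedF N A) : jF N ∈ (deuInst_redData N A hRedF).O :=
  ((deuInst_red_iff N A hRedF (jF N) (jqModC (kA A))).mp (deuGood_gaussRed_jF N A)).1

theorem deuGood_red_jF (hRedF : StmtRedF N A) (h : jF N ∈ (deuInst_redData N A hRedF).O) :
    (deuInst_redData N A hRedF).red ⟨jF N, h⟩ = deuGood_jk (kA A) N := by
  obtain ⟨h', hh'⟩ := (deuInst_red_iff N A hRedF (jF N) (jqModC (kA A))).mp
    (deuGood_gaussRed_jF N A)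
  exact Subtype.ext hh'

theorem deuGood_red_jF_ne_zero (hRedF : StmtRedF N A)
    (h : jF N ∈ (deuInst_redData N A hRedF).O) :
    (deuInst_redData N A hRedF).red ⟨jF N, h⟩ ≠ 0 := by
  rw [deuGood_red_jF N A hRedF h]
  intro h0
  exact deuGood_transcendental_jk (kA A) N (h0 ▸ isAlgebraic_zero)

/-- **MPR-good.**  For every map `r` on places with `r_* (div u) = div ū`, the function `j` is
Gauss-integral and every pole of `j` reduces to a pole of `j̄ = red j`. -/
theorem deuGood_good (ℓ : ℕ) (hℓ : ℓ.Prime) (hℓN : ¬ ℓ ∣ N) (hA : A.LiesOverPrime ℓ)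
    (hRedF : StmtRedF N A)
    (r : Place Kb (FF N) → Place (kA A) ↥(modularFunctionFieldFullC (kA A) N))
    (hdiv : ∀ u : (deuInst_redData N A hRedF).O, (deuInst_redData N A hRedF).red u ≠ 0 →
      ∀ D : Divisor Kb (FF N), (∀ P : Place Kb (FF N), D P = P.ord (u : FF N)) →
        ∀ Q : Place (kA A) ↥(modularFunctionFieldFullC (kA A) N),
          Finsupp.mapDomain r D Q = Q.ord ((deuInst_redData N A hRedF).red u)) :
    ∃ ht : jF N ∈ (deuInst_redData N A hRedF).O, ∀ P : Place Kb (FF N),
      P.ord (jF N) < 0 → (r P).ord ((deuInst_redData N A hRedF).red ⟨jF N, ht⟩) < 0 := by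
  have ht := deuGood_jF_mem N A hRedF
  refine ⟨ht, fun P hP => ?_⟩
  have hNk : ((N : ℕ) : kA A) ≠ 0 := redF_natCast_ne_zero N A ℓ hℓ hℓN hA
  haveI : IsAlgClosed (kA A) := Fermat.Agent.RED.isAlgClosed_residueField A
  haveI : Fact ℓ.Prime := ⟨hℓ⟩
  haveI : CharP (kA A) ℓ := kron_charP_residueField hℓ hA
  haveI := deuGood_finiteDimensional_jk (kA A) N hNk
  haveI := deuGood_isSeparable_jk (kA A) N ℓ hNk
  haveI : FiniteDimensional Kb⟮jF N⟯ (FF N) :=
    FiniteDimensional.of_finrank_pos (by
      rw [Fermat.Agent.ES.I2.i2e_finrank N]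
      exact Nat.pos_of_ne_zero (Fermat.Agent.ES.I2.i2e_dedekindPsi_ne_zero N))
  rw [deuGood_red_jF N A hRedF ht]
  refine deuGood_of_finrank_le r (jF N) (deuGood_jk (kA A) N) ?_ (transcendental_jF N)
    (deuGood_transcendental_jk (kA A) N) ?_ P hP
  · intro D hD Q
    have := hdiv ⟨jF N, ht⟩ (deuGood_red_jF_ne_zero N A hRedF ht) D hD Q
    rwa [deuGood_red_jF N A hRedF ht] at this
  · rw [Fermat.Agent.ES.I2.i2e_finrank N, deuGood_finrank_jk (kA A) N hNk]

end Fermat.Agent.DEU


end ZBDEU_005_7

/-! ### bundled: `Fermat.Agent.DEU.RamInst` -/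
section ZBDEU_005_8

/-!
# DEU / MPR-ram, instantiated at `F̄ = modularFunctionFieldFullC (kA A) N`, `t = j`

* `deuRamInst_gaussRed_jF` : `GaussRed N A (jF N) (jqModC (kA A))` (the reduction of `j` is `j̄`);
* `deuRamInst_jF_mem` : `jF N ∈ deuInstO N A`;
* `deuRamInst_red_jF` : `deuInstRed N A hRedF ⟨jF N, ht⟩ = resSideJ (kA A) N`;
* `deuRamInst_finite_resSideJ` : `j̄` is unramified outside a finite set of places of `F̄`;
* `deuRamInst_finite` : the field `ram` of `W1.ModPR` for `red = deuInstRed N A hRedF`, `t = jF N`;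
* `deuRamInst_finite_redData` : the same with `(deuInst_redData N A hRedF).red`;
* `deuRamInst_finite_of_eq` : robust form, for any `z ∈ F̄` with `q`-expansion `j̄`;
* `deuRamInst_ram` : exactly the field `ram` of `W1.ModPR N A g R (jF N)`, for any `R : PRData`
  with `GaussRed N A (jF N) (R.red ⟨jF N, ht⟩)`.
-/

set_option autoImplicit false
set_option linter.unusedSectionVars false
set_option linter.style.haveILetI false
set_option synthInstance.maxHeartbeats 400000
set_option maxHeartbeats 1600000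

noncomputable section

namespace Fermat.Agent.DEU

open ModularCurve AlgebraicCurve HahnSeries IntermediateField Fermat.Agent.ES Fermat.Agent.S24
  Fermat.Agent.ES.M

variable (N : ℕ) [NeZero N] (A : ValuationSubring Kb)

/-- `j` with coefficients in `A` -/
def deuRamInstJ : LaurentSeries A := coeffMap (Int.castRingHom A) (jqModC ℤ)

omit [NeZero N] in
theorem deuRamInst_kronIncl_J : kronIncl A (deuRamInstJ A) = jBar := by
  have h1 : kronIncl A (deuRamInstJ A) =
      coeffMap (A.subtype.comp (Int.castRingHom A)) (jqModC ℤ) := by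
    rw [deuRamInstJ]
    exact (coeffMap_coeffMap _ _ _)
  have h2 : jBar = coeffMap (algebraMap ℚ Kb) (jqModC ℚ) := rfl
  rw [h1, h2, RingHom.ext_int (A.subtype.comp (Int.castRingHom A)) (Int.castRingHom Kb),
    coeffMap_jqModC, coeffMap_jqModC]

omit [NeZero N] in
theorem deuRamInst_kronRed_J : kronRed A (deuRamInstJ A) = jqModC (kA A) := by
  have h1 : kronRed A (deuRamInstJ A) =
      coeffMap ((IsLocalRing.residue A).comp (Int.castRingHom A)) (jqModC ℤ) := by
    rw [deuRamInstJ]
    exact (coeffMap_coeffMap _ _ _)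
  rw [h1, coeffMap_jqModC]

/-- the Gauss reduction of `j` is `j̄` -/
theorem deuRamInst_gaussRed_jF : GaussRed N A (jF N) (jqModC (kA A)) := by
  refine ⟨deuRamInstJ A, 1, ?_, ?_, ?_, ?_, ?_⟩
  · rw [deuRamInst_kronIncl_J]
    exact (jF N).2
  · rw [map_one]
    exact one_mem _
  · rw [map_one]
    exact one_ne_zero
  · rw [map_one, mul_one, deuRamInst_kronIncl_J]
    rfl
  · rw [map_one, mul_one, deuRamInst_kronRed_J]

theorem deuRamInst_jF_mem : jF N ∈ deuInstO N A := ⟨_, deuRamInst_gaussRed_jF N A⟩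

/-- `red j = j̄` -/
theorem deuRamInst_red_jF (hRedF : StmtRedF N A) (ht : jF N ∈ deuInstO N A) :
    deuInstRed N A hRedF ⟨jF N, ht⟩ = resSideJ (kA A) N := by
  apply Subtype.ext
  rw [deuInstRed_coe, coe_resSideJ]
  exact deuInstRedFun_eq N A (x := ⟨jF N, ht⟩) (deuRamInst_gaussRed_jF N A)

/-- **MPR-ram on the residue side**: `j̄` is unramified outside a finite set of places of `F̄`
(`k` algebraically closed of characteristic `p`). -/
theorem deuRamInst_finite_resSideJ (k : Type) [Field k] [IsAlgClosed k] (p : ℕ) [Fact p.Prime]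
    [CharP k p] :
    {Q : Place k ↥(modularFunctionFieldFullC k N) |
      ¬ ∃ c : k, Q.ord (resSideJ k N - algebraMap k ↥(modularFunctionFieldFullC k N) c) = 1}.Finite := by
  haveI : PerfectRing k p := inferInstance
  haveI := resSide_finiteDimensional k N
  haveI := resSide_isSeparable k p N
  haveI := resSide_hasPrincipalDivisors k p N
  exact deuRam_finite_of_separable
    (fun Q => (resSide_residue_bijective k p N Q).2) (resSideJ k N)

/-- **MPR-ram, instantiated** (the field `ram` of `W1.ModPR` for `t = j`). -/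
theorem deuRamInst_finite (ℓ : ℕ) (hℓ : ℓ.Prime) (hA : A.LiesOverPrime ℓ)
    (hRedF : StmtRedF N A) (ht : jF N ∈ deuInstO N A) :
    {Q : Place (kA A) ↥(modularFunctionFieldFullC (kA A) N) |
      ¬ ∃ c : kA A, Q.ord (deuInstRed N A hRedF ⟨jF N, ht⟩ -
        algebraMap (kA A) ↥(modularFunctionFieldFullC (kA A) N) c) = 1}.Finite := by
  haveI : Fact ℓ.Prime := ⟨hℓ⟩
  haveI : CharP (kA A) ℓ := Fermat.Agent.RED.charP_residueField A hℓ hA
  haveI : IsAlgClosed (kA A) := Fermat.Agent.RED.isAlgClosed_residueField A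
  rw [deuRamInst_red_jF N A hRedF ht]
  exact deuRamInst_finite_resSideJ N (kA A) ℓ

/-- the same for the reduction map of `deuInst_redData` -/
theorem deuRamInst_finite_redData (ℓ : ℕ) (hℓ : ℓ.Prime) (hA : A.LiesOverPrime ℓ)
    (hRedF : StmtRedF N A) (ht : jF N ∈ (deuInst_redData N A hRedF).O) :
    {Q : Place (kA A) ↥(modularFunctionFieldFullC (kA A) N) |
      ¬ ∃ c : kA A, Q.ord ((deuInst_redData N A hRedF).red ⟨jF N, ht⟩ -
        algebraMap (kA A) ↥(modularFunctionFieldFullC (kA A) N) c) = 1}.Finite :=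
  deuRamInst_finite N A ℓ hℓ hA hRedF ht

/-- robust form: any element of `F̄` whose `q`-expansion is `j̄` -/
theorem deuRamInst_finite_of_eq (ℓ : ℕ) (hℓ : ℓ.Prime) (hA : A.LiesOverPrime ℓ)
    (z : ↥(modularFunctionFieldFullC (kA A) N))
    (hz : (z : LaurentSeries (kA A)) = jqModC (kA A)) :
    {Q : Place (kA A) ↥(modularFunctionFieldFullC (kA A) N) |
      ¬ ∃ c : kA A, Q.ord (z -
        algebraMap (kA A) ↥(modularFunctionFieldFullC (kA A) N) c) = 1}.Finite := by
  haveI : Fact ℓ.Prime := ⟨hℓ⟩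
  haveI : CharP (kA A) ℓ := Fermat.Agent.RED.charP_residueField A hℓ hA
  haveI : IsAlgClosed (kA A) := Fermat.Agent.RED.isAlgClosed_residueField A
  have hzJ : z = resSideJ (kA A) N := Subtype.ext (by rw [hz, coe_resSideJ])
  rw [hzJ]
  exact deuRamInst_finite_resSideJ N (kA A) ℓ

/-- **the field `ram` of `W1.ModPR N A g R (jF N)`**, for any reduction package whose reduction
map sends `j` to its Gauss reduction. -/
theorem deuRamInst_ram (ℓ : ℕ) (hℓ : ℓ.Prime) (hA : A.LiesOverPrime ℓ)
    (R : Fermat.Agent.W1.PRData (AlgebraicClosure ℚ) ↥(modularFunctionFieldBar N)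
      (IsLocalRing.ResidueField A) ↥(modularFunctionFieldFullC (IsLocalRing.ResidueField A) N) A)
    (hR : ∀ ht : jF N ∈ R.O, GaussRed N A (jF N)
      ((R.red ⟨jF N, ht⟩ : ↥(modularFunctionFieldFullC (IsLocalRing.ResidueField A) N)) :
        LaurentSeries (kA A))) :
    ∀ ht : jF N ∈ R.O,
      {Q : Place (IsLocalRing.ResidueField A)
          ↥(modularFunctionFieldFullC (IsLocalRing.ResidueField A) N) |
        ¬ ∃ c : IsLocalRing.ResidueField A,
          Q.ord (R.red ⟨jF N, ht⟩ - algebraMap _ _ c) = 1}.Finite := by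
  intro ht
  exact deuRamInst_finite_of_eq N A ℓ hℓ hA _
    (deuInst_gaussRed_unique N A (hR ht) (deuRamInst_gaussRed_jF N A))

end Fermat.Agent.DEU

end
end ZBDEU_005_8

/-! ### bundled: `Fermat.Agent.DEU.ModPRFinal` -/
section ZBDEU_005_9

/-!
# DEU — GEO-PR: the reduction package of `X₀(N)` at a prime `ℓ ∤ N`

* `hasModPR_of_stmtI2` : `W1.HasModPR N A` from the genus bound `StmtI2 N A` in characteristic `ℓ`
  (the only good-reduction input);
* `hasModPR_of_five_le` : unconditional for `ℓ ≥ 5` (`ES.I2.stmtI2All`);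
* `hasModPR_of_aux` : for `ℓ < 5`, `(5 - ℓ) ∣ N`, from `StmtI2AuxAll`.
-/

set_option autoImplicit false
set_option linter.unusedSectionVars false
set_option linter.style.haveILetI false
set_option synthInstance.maxHeartbeats 400000
set_option maxHeartbeats 1600000

open ModularCurve AlgebraicCurve HahnSeries Module

namespace Fermat.Agent.DEU

open Fermat.Agent.ES Fermat.Agent.S24 Fermat.Agent.ES.M Fermat.Agent.W1

/-- **GEO-PR.** The reduction package of `X₀(N)` at `A` over `ℓ ∤ N`, from the genus bound (I2). -/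
theorem hasModPR_of_stmtI2 (N : ℕ) [NeZero N] (ℓ : ℕ) (hℓ : ℓ.Prime) (hℓN : ¬ ℓ ∣ N)
    (A : ValuationSubring Kb) (hA : A.LiesOverPrime ℓ) (hI2 : StmtI2 N A) : HasModPR N A := by
  have hRedF : StmtRedF N A := stmtRedF N A ℓ hℓ hℓN hA
  obtain ⟨Pinf, Qinf, n₀, -, hQ, H⟩ := deuAnchor_hyp N A hRedF
    (Fermat.Agent.ES.LR.stmtLRa N ℓ hℓ A hA) hI2 (Fermat.Agent.ES.R.stmtR N)
    (modHyp_hresk N A) (modHyp_hpdk N A hℓ hA)
  refine ⟨gN N, modPRData N A hRedF H.r, jF N, modPR_of_hyp H hQ ?_ ?_⟩
  · exact deuGood_good N A ℓ hℓ hℓN hA hRedF H.r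
      (fun u hu D hD Q => H.mapDomain_r_principal u hu D hD Q)
  · intro ht
    exact deuRamInst_finite N A ℓ hℓ hA hRedF ht

/-- **GEO-PR for `ℓ ≥ 5`**, unconditional. -/
theorem hasModPR_of_five_le (N : ℕ) [NeZero N] (ℓ : ℕ) (hℓ : ℓ.Prime) (h5 : 5 ≤ ℓ)
    (hℓN : ¬ ℓ ∣ N) (A : ValuationSubring Kb) (hA : A.LiesOverPrime ℓ) : HasModPR N A :=
  hasModPR_of_stmtI2 N ℓ hℓ hℓN A hA (Fermat.Agent.ES.I2.stmtI2All N ℓ hℓ h5 hℓN A hA)

/-- **GEO-PR for `ℓ ∈ {2, 3}`** at levels divisible by `5 - ℓ`, from `StmtI2AuxAll`. -/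
theorem hasModPR_of_aux (haux : StmtI2AuxAll) (N : ℕ) [NeZero N] (ℓ : ℕ) (hℓ : ℓ.Prime)
    (h5 : ℓ < 5) (hℓN : ¬ ℓ ∣ N) (hdvd : (5 - ℓ) ∣ N) (A : ValuationSubring Kb)
    (hA : A.LiesOverPrime ℓ) : HasModPR N A :=
  hasModPR_of_stmtI2 N ℓ hℓ hℓN A hA (haux N ℓ hℓ h5 hℓN hdvd A hA)

/-- the form needed by `W1/S19Final.lean` (`StmtModPRS19`) -/
theorem hasModPR_s19 (haux : StmtI2AuxAll) (N : ℕ) [NeZero N] (ℓ : ℕ) (hℓ : ℓ.Prime)
    (hℓN : ¬ ℓ ∣ N) (_hN : 2 ≤ N) (h : 5 ≤ ℓ ∨ (5 - ℓ) ∣ N) (A : ValuationSubring Kb)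
    (hA : A.LiesOverPrime ℓ) : HasModPR N A := by
  rcases le_or_gt 5 ℓ with h5 | h5
  · exact hasModPR_of_five_le N ℓ hℓ h5 hℓN A hA
  · exact hasModPR_of_aux haux N ℓ hℓ h5 hℓN (h.resolve_left (not_le.mpr h5)) A hA

end Fermat.Agent.DEU


end ZBDEU_005_9

/-! ### bundled: `Fermat.Agent.R38.HolLift` -/
section ZBDEU_005_10

/-!
# R38 / TRES / HOL — piece B1-LIFT: lifting of the functions regular outside the cusps

`k = kA A`, `ℓ ∤ N`, `F̄ = modularFunctionFieldFullC k N`.  Every `c ∈ F̄` integral over `k[j̄]` is the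
reduction of a function `C ∈ F_N` with `A`-integral `q`-expansion and poles only at the cusps:

`r38hlift_main : c ∈ F̄ → IntJ j̄ c → ∃ C : A((q)), C ∈ F_N ∧ PolesAtCusps C ∧ C̄ = c`.

Proof: Deuring's reduction of places (`DEU`): `c ∈ L̄(m · r_* (j)_∞)` for `m` large, and
`red (L(D)) = L̄(r_* D)` in large degree (lifting of sections); a Gauss-integral function with
poles only at the cusps has an `A`-integral `q`-expansion (Lemma R, `StmtLRa`).
-/

set_option autoImplicit false
set_option linter.unusedSectionVars false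
set_option linter.style.haveILetI false
set_option synthInstance.maxHeartbeats 400000
set_option maxHeartbeats 1600000

open ModularCurve AlgebraicCurve HahnSeries Module

namespace Fermat.Agent.R38

open Fermat.Agent.ES Fermat.Agent.S24 Fermat.Agent.ES.M Fermat.Agent.DEU Fermat.Agent.ES.I2

section Abstract

variable {K F : Type*} [Field K] [Field F] [Algebra K F]

/-- an element integral over `K[τ]` lies in every valuation ring (of a place) containing `τ` -/
theorem r38hlift_mem_place (v : Place K F) (τ x : F) (hτ : τ ∈ v.toValuationSubring)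
    (p : Polynomial (Polynomial K)) (hp : p.Monic)
    (hx : p.eval₂ (Polynomial.aeval τ).toRingHom x = 0) : x ∈ v.toValuationSubring := by
  let φ : Polynomial K →+* v.toValuationSubring :=
    (Polynomial.aeval (⟨τ, hτ⟩ : v.toValuationSubring)).toRingHom
  have hφ : (algebraMap v.toValuationSubring F).comp φ = (Polynomial.aeval τ).toRingHom := by
    ext a
    · show algebraMap v.toValuationSubring F
        (Polynomial.aeval (⟨τ, hτ⟩ : v.toValuationSubring) (Polynomial.C a)) =
          Polynomial.aeval τ (Polynomial.C a)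
      rw [Polynomial.aeval_C, Polynomial.aeval_C]
      rfl
    · show algebraMap v.toValuationSubring F
        (Polynomial.aeval (⟨τ, hτ⟩ : v.toValuationSubring) Polynomial.X) =
          Polynomial.aeval τ Polynomial.X
      rw [Polynomial.aeval_X, Polynomial.aeval_X]
      rfl
  have hint : IsIntegral v.toValuationSubring x := by
    refine ⟨p.map φ, hp.map φ, ?_⟩
    rw [Polynomial.eval₂_map, hφ]
    exact hx
  obtain ⟨y, hy⟩ := IsIntegrallyClosed.isIntegral_iff.mp hint
  rw [← hy]
  exact y.2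

/-- **lifting of integral functions, abstract form.**  In the setting of Deuring's dimension count
(`DEU.Hyp`), `t ∈ O` with `t̄ ≠ 0` and a pole at `Pinf`: every `c ∈ F̄` integral over `k[t̄]` is the
reduction of an `f ∈ O` which is regular wherever `t` is. -/
theorem r38hlift_abs {k Fb : Type*} [Field k] [Field Fb] [Algebra k Fb]
    {R : RedData K F k Fb} {Pinf : Place K F} {Qinf : Place k Fb} {g n₀ : ℕ}
    (H : Hyp R Pinf Qinf g n₀) (t : R.O) (ht0 : R.red t ≠ 0) (hPinf : Pinf.ord (t : F) < 0)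
    (cF : Fb) (p : Polynomial (Polynomial k)) (hp : p.Monic)
    (hpc : p.eval₂ (Polynomial.aeval (R.red t)).toRingHom cF = 0) :
    ∃ f : R.O, (∀ P : Place K F, 0 ≤ P.ord (t : F) → 0 ≤ P.ord (f : F)) ∧ R.red f = cF := by
  classical
  haveI := H.hpdF
  haveI := H.hpdk
  have htF0 : (t : F) ≠ 0 := R.coe_ne_zero_of_red_ne_zero ht0
  obtain ⟨Z, hZ, -⟩ := HasPrincipalDivisors.exists_divisor (K := K) (t : F) htF0
  -- the pole divisor of `t`
  let Dinf : Divisor K F := Z.mapRange (fun n => max 0 (-n)) (by simp)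
  have hDinf : ∀ P, Dinf P = max 0 (-(P.ord (t : F))) := fun P => by
    show (Z.mapRange (fun n => max 0 (-n)) (by simp)) P = _
    rw [Finsupp.mapRange_apply, hZ]
  have hDinf0 : 0 ≤ Dinf := by
    rw [Finsupp.le_def]
    intro P
    rw [hDinf]
    exact le_max_left _ _
  have hZD : 0 ≤ Z + Dinf := by
    rw [Finsupp.le_def]
    intro P
    rw [Finsupp.add_apply, hDinf, hZ]
    have := le_max_right 0 (-(P.ord (t : F)))
    simp only [Finsupp.coe_zero, Pi.zero_apply]
    omega
  -- `r_* Dinf`
  have hr0 : ∀ Q, 0 ≤ Finsupp.mapDomain H.r Dinf Q := fun Q => by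
    have := Finsupp.le_def.mp (Finsupp.mapDomain_nonneg (f := H.r) hDinf0) Q
    simpa using this
  have hrpole : ∀ Q : Place k Fb, -(Q.ord (R.red t)) ≤ Finsupp.mapDomain H.r Dinf Q := by
    intro Q
    have h1 := Finsupp.le_def.mp (Finsupp.mapDomain_nonneg (f := H.r) hZD) Q
    rw [Finsupp.mapDomain_add, Finsupp.add_apply, H.mapDomain_r_principal t ht0 Z hZ Q] at h1
    simp only [Finsupp.coe_zero, Pi.zero_apply] at h1
    omega
  -- the degree of `Dinf`
  have hdeg1 : (1 : ℤ) ≤ Divisor.degree Dinf := by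
    have h1 : Finsupp.single Pinf (1 : ℤ) ≤ Dinf := by
      rw [Finsupp.le_def]
      intro P
      rw [Finsupp.single_apply]
      split_ifs with h
      · subst h
        rw [hDinf]
        have := le_max_right 0 (-(Pinf.ord (t : F)))
        omega
      · exact Finsupp.le_def.mp hDinf0 P
    have h2 := Fermat.Agent.ES.R.degree_mono h1
    rw [Divisor.degree_single, Fermat.Agent.ES.R.place_deg_eq_one _ (H.hresF _)] at h2
    simpa using h2
  obtain ⟨Zb, hZb, -⟩ := HasPrincipalDivisors.exists_divisor (K := k) (R.red t) ht0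
  set m : ℕ := n₀ + 2 * g + ∑ Q ∈ Zb.support, (Q.ord cF).natAbs with hm
  have hmem : cF ∈ riemannRochSpace (Finsupp.mapDomain H.r ((m : ℤ) • Dinf)) := by
    rw [mem_riemannRochSpace_iff]
    intro Q
    by_cases hc0 : cF = 0
    · exact Or.inl hc0
    right
    rw [Finsupp.mapDomain_smul, Finsupp.smul_apply, smul_eq_mul]
    by_cases hQj : 0 ≤ Q.ord (R.red t)
    · have h1 : cF ∈ Q.toValuationSubring :=
        r38hlift_mem_place Q (R.red t) cF (PlaceAux.mem_of_ord_nonneg Q hQj) p hp hpc
      have h2 : 0 ≤ Q.ord cF := (PlaceAux.ord_nonneg_iff Q hc0).mpr h1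
      have h3 := hr0 Q
      have h4 : 0 ≤ (m : ℤ) * Finsupp.mapDomain H.r Dinf Q :=
        mul_nonneg (Int.natCast_nonneg m) h3
      linarith
    · rw [not_le] at hQj
      have h1 : Q ∈ Zb.support := by
        rw [Finsupp.mem_support_iff, hZb]
        omega
      have h2 : (Q.ord cF).natAbs ≤ m := by
        have h : (Q.ord cF).natAbs ≤ ∑ Q ∈ Zb.support, (Q.ord cF).natAbs :=
          Finset.single_le_sum (f := fun Q => (Q.ord cF).natAbs)
            (fun _ _ => Nat.zero_le _) h1
        omega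
      have h3 := hrpole Q
      have h4 : (m : ℤ) ≤ (m : ℤ) * Finsupp.mapDomain H.r Dinf Q := by
        have h5 : (1 : ℤ) ≤ Finsupp.mapDomain H.r Dinf Q := by omega
        have h6 : (0 : ℤ) ≤ m := Int.natCast_nonneg m
        nlinarith
      have h5 : -(Q.ord cF) ≤ ((Q.ord cF).natAbs : ℤ) := by omega
      have h6 : ((Q.ord cF).natAbs : ℤ) ≤ (m : ℤ) := by exact_mod_cast h2
      linarith
  -- the degree
  have hdeg : (n₀ : ℤ) + 2 * (g : ℤ) ≤ Divisor.degree ((m : ℤ) • Dinf) := by
    rw [map_zsmul, smul_eq_mul]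
    have h1 : (n₀ : ℤ) + 2 * (g : ℤ) ≤ (m : ℤ) := by
      rw [hm]
      push_cast
      have : (0 : ℤ) ≤ ∑ Q ∈ Zb.support, |Q.ord cF| :=
        Finset.sum_nonneg fun _ _ => abs_nonneg _
      linarith
    nlinarith
  -- lifting of sections
  rw [← H.redSpace_rr_eq_mapDomain _ hdeg] at hmem
  obtain ⟨f, hfL, hfred⟩ := hmem
  refine ⟨f, fun P hP => ?_, hfred⟩
  rcases (mem_riemannRochSpace_iff.mp hfL) P with h0 | h1
  · rw [h0]
    simp [Place.ord]
  · rw [Finsupp.smul_apply, hDinf, max_eq_left (by omega)] at h1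
    simpa using h1

end Abstract

section Main

variable (N : ℕ) [NeZero N] (A : ValuationSubring Kb)

/-- the integrality relation of `IntJ`, inside `F̄` -/
theorem r38hlift_intJ_full {c : LaurentSeries (kA A)}
    (hc : c ∈ modularFunctionFieldFullC (kA A) N) (hint : IntJ (jqModC (kA A)) c) :
    ∃ p : Polynomial (Polynomial (kA A)), p.Monic ∧
      p.eval₂ (Polynomial.aeval (deuGood_jk (kA A) N)).toRingHom
        (⟨c, hc⟩ : ↥(modularFunctionFieldFullC (kA A) N)) = 0 := by
  obtain ⟨p, hp, h0⟩ := hint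
  refine ⟨p, hp, ?_⟩
  apply Subtype.val_injective
  have h1 := Polynomial.hom_eval₂ p (Polynomial.aeval (deuGood_jk (kA A) N)).toRingHom
    (modularFunctionFieldFullC (kA A) N).val.toRingHom
    (⟨c, hc⟩ : ↥(modularFunctionFieldFullC (kA A) N))
  have h2 : ((modularFunctionFieldFullC (kA A) N).val.toRingHom).comp
      (Polynomial.aeval (deuGood_jk (kA A) N)).toRingHom =
        (Polynomial.aeval (R := kA A) (jqModC (kA A))).toRingHom := by
    refine RingHom.ext fun a => ?_
    exact (Polynomial.aeval_algHom_apply (modularFunctionFieldFullC (kA A) N).val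
      (deuGood_jk (kA A) N) a).symm
  rw [h2] at h1
  exact h1.trans h0

/-- **B1-LIFT**, from the genus bound `StmtI2` in characteristic `ℓ`. -/
theorem r38hlift_of_stmtI2 (ℓ : ℕ) (hℓ : ℓ.Prime) (hℓN : ¬ ℓ ∣ N) (hA : A.LiesOverPrime ℓ)
    (hI2 : StmtI2 N A)
    (c : LaurentSeries (kA A)) (hc : c ∈ modularFunctionFieldFullC (kA A) N)
    (hint : IntJ (jqModC (kA A)) c) :
    ∃ (C : LaurentSeries A) (hC : kronIncl A C ∈ modularFunctionFieldBar N),
      PolesAtCusps N ⟨kronIncl A C, hC⟩ ∧ kronRed A C = c := by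
  classical
  have hRedF : StmtRedF N A := stmtRedF N A ℓ hℓ hℓN hA
  have hLRa : StmtLRa N A := Fermat.Agent.ES.LR.stmtLRa N ℓ hℓ A hA
  obtain ⟨Pinf, Qinf, n₀, hPinf, hQ, H⟩ := deuAnchor_hyp N A hRedF hLRa hI2
    (Fermat.Agent.ES.R.stmtR N) (modHyp_hresk N A) (modHyp_hpdk N A hℓ hA)
  -- the function `j`
  have ht : jF N ∈ (deuInst_redData N A hRedF).O := deuGood_jF_mem N A hRedF
  have htred : (deuInst_redData N A hRedF).red ⟨jF N, ht⟩ = deuGood_jk (kA A) N :=
    deuGood_red_jF N A hRedF ht
  have htred0 : (deuInst_redData N A hRedF).red ⟨jF N, ht⟩ ≠ 0 :=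
    deuGood_red_jF_ne_zero N A hRedF ht
  obtain ⟨p, hp, hpc⟩ := r38hlift_intJ_full N A hc hint
  rw [← htred] at hpc
  have hPj : Pinf.ord (jF N) < 0 := by
    rw [hPinf.ord_jF]
    norm_num
  obtain ⟨f, hfP, hfred⟩ := r38hlift_abs H ⟨jF N, ht⟩ htred0 hPj ⟨c, hc⟩ p hp hpc
  have hpoles : PolesAtCusps N (f : FF N) := fun P hP => hfP P hP
  have hgi : GaussInt N A (f : FF N) := f.2
  have hki : KronInt A ((f : FF N) : LaurentSeries Kb) := hLRa _ hpoles hgi
  obtain ⟨Y, hY⟩ := kronInt_iff.mp hki
  have hYmem : kronIncl A Y ∈ modularFunctionFieldBar N := by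
    rw [hY]
    exact (f : FF N).2
  have hYf : (⟨kronIncl A Y, hYmem⟩ : FF N) = (f : FF N) := Subtype.ext hY
  refine ⟨Y, hYmem, ?_, ?_⟩
  · rw [hYf]
    exact hpoles
  · have hg1 : GaussRed N A (f : FF N) (kronRed A Y) :=
      ⟨Y, 1, hYmem, by rw [map_one]; exact one_mem _, by rw [map_one]; exact one_ne_zero,
        by rw [map_one, mul_one, hY], by rw [map_one, mul_one]⟩
    have hg2 : GaussRed N A (f : FF N) c :=
      (deuInst_red_iff N A hRedF _ _).mpr ⟨f.2, by
        have : (⟨(f : FF N), f.2⟩ : (deuInst_redData N A hRedF).O) = f := rfl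
        rw [this, hfred]⟩
    exact deuInst_gaussRed_unique N A hg1 hg2

end Main

/-- **B1-LIFT** for `ℓ ≥ 5`, unconditional: every `c ∈ F̄` integral over `k[j̄]` is the reduction
of a function of `F_N` with `A`-integral `q`-expansion and poles only at the cusps. -/
theorem r38hlift_main (N : ℕ) [NeZero N] (ℓ : ℕ) (hℓ : ℓ.Prime) (h5 : 5 ≤ ℓ) (hℓN : ¬ ℓ ∣ N)
    (A : ValuationSubring Kb) (hA : A.LiesOverPrime ℓ)
    (c : LaurentSeries (kA A)) (hc : c ∈ modularFunctionFieldFullC (kA A) N)
    (hint : IntJ (jqModC (kA A)) c) :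
    ∃ (C : LaurentSeries A) (hC : kronIncl A C ∈ modularFunctionFieldBar N),
      PolesAtCusps N ⟨kronIncl A C, hC⟩ ∧ kronRed A C = c :=
  r38hlift_of_stmtI2 N A ℓ hℓ hℓN hA (Fermat.Agent.ES.I2.stmtI2All N ℓ hℓ h5 hℓN A hA) c hc hint

end Fermat.Agent.R38


end ZBDEU_005_10

/-! ### bundled: `Fermat.Agent.R38.HolLiftFinal` -/
section ZBDEU_005_11

/-!
# R38 / TRES / HOL — piece B1-LIFT in the interface form `StmtHolLift`
-/

set_option autoImplicit false

namespace Fermat.Agent.R38

open Fermat.Agent.ES Fermat.Agent.S24 Fermat.Agent.ES.M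

/-- **(B1-LIFT)**, from the genus bound `StmtI2` (any `ℓ ∤ N`). -/
theorem stmtHolLift_of_stmtI2 (N : ℕ) [NeZero N] (ℓ : ℕ) (hℓ : ℓ.Prime) (hℓN : ¬ ℓ ∣ N)
    (A : ValuationSubring Kb) (hA : A.LiesOverPrime ℓ) (hI2 : StmtI2 N A) : StmtHolLift N A :=
  fun c hc => r38hlift_of_stmtI2 N A ℓ hℓ hℓN hA hI2 c hc.1 hc.2

/-- **(B1-LIFT)** for `ℓ ≥ 5`, unconditional. -/
theorem stmtHolLift (N : ℕ) [NeZero N] (ℓ : ℕ) (hℓ : ℓ.Prime) (h5 : 5 ≤ ℓ) (hℓN : ¬ ℓ ∣ N)
    (A : ValuationSubring Kb) (hA : A.LiesOverPrime ℓ) : StmtHolLift N A :=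
  fun c hc => r38hlift_main N ℓ hℓ h5 hℓN A hA c hc.1 hc.2

/-- **(B1-LIFT)**, the `All` form of the interface. -/
theorem stmtHolLiftAll : StmtHolLiftAll :=
  fun N _ ℓ hℓ h5 hℓN A hA => stmtHolLift N ℓ hℓ h5 hℓN A hA

end Fermat.Agent.R38


end ZBDEU_005_11
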