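/- GENERATED FILE (helper35, build-time optimisation, NOTES/ZB.md): verbatim concatenation of the modules
   Fermat.Agent.INJ.DiscLocal
   Fermat.Agent.INJ.PiLocallyPrime
   Fermat.Agent.INJ.NGood
   Fermat.Agent.INJ.TSGlue
   Fermat.Agent.INJ.NTame
   Fermat.Agent.INJ.TameSpec
   Fermat.Agent.INJ.InjAll
   Fermat.Agent.R38.PkgFrame
   Fermat.Agent.R38.TresAlg
   Fermat.Agent.INJ.NormalLocal
   Fermat.Agent.INJ.NormalGood
   Fermat.Agent.INJ.NormalDescent
   Fermat.Agent.INJ.NormalSpec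
   Fermat.Agent.S15.RedPkg
   Do not edit; do not import together with these modules. -/
import Mathlib
import Fermat.Agent.ZB.INJ_026
import Fermat.Agent.ZB.INJ_033
import Fermat.Agent.ZB.INJ_027
import Fermat.Agent.ZB.INJ_019
import Fermat.Agent.ZB.INJ_020
import Fermat.Agent.ZB.S24_011
import Fermat.Agent.ZB.INJ_031
import Fermat.Agent.ZB.INJ_017
import Fermat.Agent.ZB.INJ_009
import Fermat.Agent.ZB.INJ_038
import Fermat.Agent.ZB.INJ_016
import Fermat.Agent.ZB.INJ_024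
import Fermat.Agent.ZB.RED_001
import Fermat.Agent.ZB.S49_003
import Fermat.Agent.ZB.STB_002
import Fermat.Agent.ZB.ES_005
import Fermat.Agent.ZB.RIB_001
import Fermat.Agent.ZB.INJ_039
import Fermat.Agent.ZB.W1_002
import Fermat.Agent.ZB.DEU_005
import Fermat.Agent.ZB.ES_027
import Fermat.Agent.ZB.ES_003
import Fermat.Agent.ZB.S18_004

/-! ### bundled: `Fermat.Agent.INJ.DiscLocal` -/
section ZBINJ_034_0

/-!
# INJ piece A3, last step: closed fibre reduced ⇒ `π` is locally prime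

`R` Noetherian, `π ∈ R` with `R / π` a principal ideal ring, `C` a finite `R`-algebra which is
torsion-free modulo `π` (`htf`, = A1), `n ∋ π` a maximal ideal of `R` whose closed fibre `C / n C`
is reduced (`hred`, = the conclusion of `closedFibre_reduced`).  Then for every maximal ideal
`m ⊇ n C` of `C` the ring `(C / π)_m` is a domain (a DVR or a field), in the element form
`LocDomainAt C (algebraMap R C π) m`.
-/

set_option autoImplicit false

namespace Fermat.Agent.INJ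

section LocalAlgebra

/-- A Noetherian local ring whose maximal ideal is generated by a regular element is a domain. -/
theorem isDomain_of_maximalIdeal_eq_span_of_regular {T : Type*} [CommRing T] [IsNoetherianRing T]
    [IsLocalRing T] (γ : T) (hγ : IsLocalRing.maximalIdeal T = Ideal.span {γ})
    (hreg : ∀ x : T, γ * x = 0 → x = 0) : IsDomain T := by
  have hpowreg : ∀ (k : ℕ) (x : T), γ ^ k * x = 0 → x = 0 := by
    intro k
    induction k with
    | zero => intro x hx; simpa using hx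
    | succ k ih =>
      intro x hx
      apply ih
      apply hreg
      rw [← mul_assoc, ← pow_succ']
      exact hx
  have hne : IsLocalRing.maximalIdeal T ≠ ⊤ := Ideal.IsPrime.ne_top inferInstance
  have hkrull := Ideal.iInf_pow_eq_bot_of_isLocalRing (IsLocalRing.maximalIdeal T) hne
  -- every nonzero element is `γ ^ k * unit`
  have key : ∀ x : T, x ≠ 0 → ∃ (k : ℕ) (a : T), IsUnit a ∧ x = γ ^ k * a := by
    intro x hx
    have hex : ∃ k : ℕ, x ∉ IsLocalRing.maximalIdeal T ^ k := by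
      by_contra hcon
      push Not at hcon
      apply hx
      have : x ∈ ⨅ i : ℕ, IsLocalRing.maximalIdeal T ^ i := by
        rw [Ideal.mem_iInf]; exact hcon
      rw [hkrull] at this
      exact this
    classical
    let k := Nat.find hex
    have hk : x ∉ IsLocalRing.maximalIdeal T ^ k := Nat.find_spec hex
    have hk0 : k ≠ 0 := by
      intro h0
      rw [h0, pow_zero, Ideal.one_eq_top] at hk
      exact hk trivial
    obtain ⟨j, hj⟩ := Nat.exists_eq_succ_of_ne_zero hk0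
    have hjmem : x ∈ IsLocalRing.maximalIdeal T ^ j := by
      by_contra hcon
      have := Nat.find_min' hex hcon
      omega
    rw [hγ, Ideal.span_singleton_pow, Ideal.mem_span_singleton] at hjmem
    obtain ⟨a, ha⟩ := hjmem
    refine ⟨j, a, ?_, ha⟩
    by_contra hau
    have ham : a ∈ IsLocalRing.maximalIdeal T := (IsLocalRing.mem_maximalIdeal a).mpr hau
    rw [hγ, Ideal.mem_span_singleton] at ham
    obtain ⟨c, hc⟩ := ham
    apply hk
    rw [hj, hγ, Ideal.span_singleton_pow, Ideal.mem_span_singleton]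
    exact ⟨c, by rw [ha, hc, pow_succ]; ring⟩
  haveI : NoZeroDivisors T := by
    refine ⟨fun {x y} hxy => ?_⟩
    by_contra hcon
    push Not at hcon
    obtain ⟨k, a, ha, rfl⟩ := key x hcon.1
    obtain ⟨l, b, hb, rfl⟩ := key y hcon.2
    have h1 : γ ^ (k + l) * (a * b) = 0 := by
      rw [← hxy, pow_add]; ring
    have h2 := hpowreg _ _ h1
    have h3 : IsUnit (a * b) := ha.mul hb
    rw [h2] at h3
    exact not_isUnit_zero h3
  exact NoZeroDivisors.to_isDomain T

/-- In a ring `C`, the image of a maximal ideal `m ⊇ I` in `C / I` is maximal, and membership can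
be tested upstairs. -/
theorem mem_map_mk_iff {C : Type*} [CommRing C] (I m : Ideal C) (hIm : I ≤ m) (u : C) :
    Ideal.Quotient.mk I u ∈ m.map (Ideal.Quotient.mk I) ↔ u ∈ m := by
  rw [Ideal.mem_map_iff_of_surjective _ Ideal.Quotient.mk_surjective]
  constructor
  · rintro ⟨v, hv, hvu⟩
    have h1 : v - u ∈ I := Ideal.Quotient.eq.mp hvu
    have h2 : u = v - (v - u) := by ring
    rw [h2]
    exact m.sub_mem hv (hIm h1)
  · intro hu
    exact ⟨u, hu, rfl⟩

theorem isMaximal_map_mk {C : Type*} [CommRing C] (I m : Ideal C) [hmax : m.IsMaximal]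
    (hIm : I ≤ m) : (m.map (Ideal.Quotient.mk I)).IsMaximal := by
  rcases Ideal.map_eq_top_or_isMaximal_of_surjective (Ideal.Quotient.mk I)
    Ideal.Quotient.mk_surjective hmax with h | h
  · exfalso
    have h1 : Ideal.Quotient.mk I (1 : C) ∈ m.map (Ideal.Quotient.mk I) := by
      rw [h]; trivial
    exact hmax.ne_top ((Ideal.eq_top_iff_one m).mpr ((mem_map_mk_iff I m hIm 1).mp h1))
  · exact h

end LocalAlgebra

section Main

variable {R : Type*} {C : Type*} [CommRing R] [CommRing C] [Algebra R C] [Module.Finite R C]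

/-- In the reduced (Artinian) closed fibre `C / n C`, the maximal ideal `m` is locally zero. -/
theorem exists_notMem_mul_mem_of_reduced (n : Ideal R) [n.IsMaximal]
    (hred : ∀ x : C, x ^ 2 ∈ n.map (algebraMap R C) → x ∈ n.map (algebraMap R C))
    (m : Ideal C) [m.IsMaximal] (hm : n.map (algebraMap R C) ≤ m) (x : C) (hx : x ∈ m) :
    ∃ u : C, u ∉ m ∧ u * x ∈ n.map (algebraMap R C) := by
  set I : Ideal C := n.map (algebraMap R C) with hI
  letI : Field (R ⧸ n) := Ideal.Quotient.field n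
  haveI : Module.Finite R (C ⧸ I) := inferInstance
  haveI : Module.Finite (R ⧸ n) (C ⧸ I) := Module.Finite.of_restrictScalars_finite R _ _
  haveI : IsArtinianRing (C ⧸ I) := IsArtinianRing.of_finite (R ⧸ n) (C ⧸ I)
  haveI : IsReduced (C ⧸ I) := by
    rw [isReduced_iff_pow_one_lt 2 (by norm_num)]
    intro X hX
    obtain ⟨x, rfl⟩ := Ideal.Quotient.mk_surjective X
    rw [← map_pow, Ideal.Quotient.eq_zero_iff_mem] at hX
    rw [Ideal.Quotient.eq_zero_iff_mem]
    exact hred x hX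
  haveI hmax : (m.map (Ideal.Quotient.mk I)).IsMaximal := isMaximal_map_mk I m hm
  let T := Localization.AtPrime (m.map (Ideal.Quotient.mk I))
  haveI : IsArtinianRing T := inferInstance
  haveI : IsReduced T := inferInstance
  have hfield : IsField T := IsArtinianRing.isField_of_isReduced_of_isLocalRing T
  have hbot : IsLocalRing.maximalIdeal T = ⊥ := IsLocalRing.isField_iff_maximalIdeal_eq.mp hfield
  have hxm : algebraMap (C ⧸ I) T (Ideal.Quotient.mk I x) ∈ IsLocalRing.maximalIdeal T :=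
    (IsLocalization.AtPrime.to_map_mem_maximal_iff T (m.map (Ideal.Quotient.mk I)) _).mpr
      ((mem_map_mk_iff I m hm x).mpr hx)
  rw [hbot, Ideal.mem_bot,
    IsLocalization.map_eq_zero_iff (m.map (Ideal.Quotient.mk I)).primeCompl] at hxm
  obtain ⟨⟨U, hU⟩, hUx⟩ := hxm
  obtain ⟨u, rfl⟩ := Ideal.Quotient.mk_surjective U
  refine ⟨u, fun hu => hU ((mem_map_mk_iff I m hm u).mpr hu), ?_⟩
  rw [← Ideal.Quotient.eq_zero_iff_mem, map_mul]
  exact hUx

/-- **A3, last step.**  Closed fibre reduced `⇒` `π` is locally prime at every maximal ideal of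
`C` over the closed point `n`. -/
theorem locDomainAt_of_closedFibre_reduced [IsNoetherianRing R]
    {π : R} [IsPrincipalIdealRing (R ⧸ Ideal.span {π})]
    (htf : ∀ f : R, ¬ π ∣ f → ∀ x : C, algebraMap R C π ∣ f • x → algebraMap R C π ∣ x)
    (n : Ideal R) [n.IsMaximal] (hπn : π ∈ n)
    (hred : ∀ x : C, x ^ 2 ∈ n.map (algebraMap R C) → x ∈ n.map (algebraMap R C))
    (m : Ideal C) [m.IsMaximal] (hm : n.map (algebraMap R C) ≤ m) :
    LocDomainAt C (algebraMap R C π) m := by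
  -- Step 1: `n = (π, g)`
  have hπle : Ideal.span {π} ≤ n := (Ideal.span_singleton_le_iff_mem _).mpr hπn
  obtain ⟨g, hgn, hg⟩ : ∃ g : R, g ∈ n ∧ ∀ x ∈ n, ∃ a b : R, x = π * a + g * b := by
    have hprinc : (n.map (Ideal.Quotient.mk (Ideal.span {π}))).IsPrincipal :=
      IsPrincipalIdealRing.principal _
    obtain ⟨G, hG⟩ := hprinc
    obtain ⟨g, rfl⟩ := Ideal.Quotient.mk_surjective G
    have hgn : g ∈ n := by
      apply (mem_map_mk_iff (Ideal.span {π}) n hπle g).mp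
      rw [hG]
      exact Submodule.mem_span_singleton_self _
    refine ⟨g, hgn, fun x hx => ?_⟩
    have hx' : Ideal.Quotient.mk (Ideal.span {π}) x ∈
        n.map (Ideal.Quotient.mk (Ideal.span {π})) := Ideal.mem_map_of_mem _ hx
    rw [hG, Submodule.mem_span_singleton] at hx'
    obtain ⟨B, hB⟩ := hx'
    obtain ⟨b, rfl⟩ := Ideal.Quotient.mk_surjective B
    rw [smul_eq_mul, ← map_mul] at hB
    have h1 : x - b * g ∈ Ideal.span {π} := Ideal.Quotient.eq.mp hB.symm
    obtain ⟨a, ha⟩ := Ideal.mem_span_singleton.mp h1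
    exact ⟨a, b, by rw [← ha]; ring⟩
  set ϖ : C := algebraMap R C π with hϖ
  set γ₀ : C := algebraMap R C g with hγ₀
  have hϖm : ϖ ∈ m := hm (Ideal.mem_map_of_mem _ hπn)
  have hγ₀m : γ₀ ∈ m := hm (Ideal.mem_map_of_mem _ hgn)
  have hϖle : Ideal.span {ϖ} ≤ m := (Ideal.span_singleton_le_iff_mem _).mpr hϖm
  -- Step 2: `n C = (ϖ, γ₀)`
  have hnC : ∀ z ∈ n.map (algebraMap R C), ∃ c₁ c₂ : C, z = ϖ * c₁ + γ₀ * c₂ := by
    intro z hz
    refine Submodule.span_induction (p := fun z _ => ∃ c₁ c₂ : C, z = ϖ * c₁ + γ₀ * c₂)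
      ?_ ?_ ?_ ?_ hz
    · rintro _ ⟨x, hx, rfl⟩
      obtain ⟨a, b, rfl⟩ := hg x hx
      exact ⟨algebraMap R C a, algebraMap R C b, by simp [hϖ, hγ₀]⟩
    · exact ⟨0, 0, by simp⟩
    · rintro _ _ _ _ ⟨a₁, a₂, rfl⟩ ⟨b₁, b₂, rfl⟩
      exact ⟨a₁ + b₁, a₂ + b₂, by ring⟩
    · rintro c _ _ ⟨a₁, a₂, rfl⟩
      exact ⟨c * a₁, c * a₂, by rw [smul_eq_mul]; ring⟩
  -- Step 3: the local ring `T = (C / ϖ)_m`
  haveI : IsNoetherianRing C := IsNoetherianRing.of_finite R C
  haveI hmax : (m.map (Ideal.Quotient.mk (Ideal.span {ϖ}))).IsMaximal :=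
    isMaximal_map_mk _ m hϖle
  let T := Localization.AtPrime (m.map (Ideal.Quotient.mk (Ideal.span {ϖ})))
  haveI : IsNoetherianRing T :=
    IsLocalization.isNoetherianRing (m.map (Ideal.Quotient.mk (Ideal.span {ϖ}))).primeCompl T
      inferInstance
  let ι : C →+* T := (algebraMap (C ⧸ Ideal.span {ϖ}) T).comp (Ideal.Quotient.mk (Ideal.span {ϖ}))
  have hιunit : ∀ u : C, u ∉ m → IsUnit (ι u) := by
    intro u hu
    exact IsLocalization.map_units T
      (⟨Ideal.Quotient.mk (Ideal.span {ϖ}) u, fun h => hu ((mem_map_mk_iff _ m hϖle u).mp h)⟩ :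
        (m.map (Ideal.Quotient.mk (Ideal.span {ϖ}))).primeCompl)
  have hιzero : ∀ x : C, ι x = 0 ↔ ∃ u : C, u ∉ m ∧ ϖ ∣ u * x := by
    intro x
    show algebraMap (C ⧸ Ideal.span {ϖ}) T (Ideal.Quotient.mk (Ideal.span {ϖ}) x) = 0 ↔ _
    rw [IsLocalization.map_eq_zero_iff (m.map (Ideal.Quotient.mk (Ideal.span {ϖ}))).primeCompl]
    constructor
    · rintro ⟨⟨U, hU⟩, hUx⟩
      obtain ⟨u, rfl⟩ := Ideal.Quotient.mk_surjective U
      refine ⟨u, fun hu => hU ((mem_map_mk_iff _ m hϖle u).mpr hu), ?_⟩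
      rw [← Ideal.mem_span_singleton, ← Ideal.Quotient.eq_zero_iff_mem, map_mul]
      exact hUx
    · rintro ⟨u, hu, hux⟩
      refine ⟨⟨Ideal.Quotient.mk _ u, fun h => hu ((mem_map_mk_iff _ m hϖle u).mp h)⟩, ?_⟩
      show Ideal.Quotient.mk (Ideal.span {ϖ}) u * Ideal.Quotient.mk (Ideal.span {ϖ}) x = 0
      rw [← map_mul, Ideal.Quotient.eq_zero_iff_mem, Ideal.mem_span_singleton]
      exact hux
  have hιsurj : ∀ z : T, ∃ (x s : C), s ∉ m ∧ z * ι s = ι x := by
    intro z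
    obtain ⟨X, ⟨S, hS⟩, rfl⟩ :=
      IsLocalization.exists_mk'_eq (m.map (Ideal.Quotient.mk (Ideal.span {ϖ}))).primeCompl z
    obtain ⟨x, rfl⟩ := Ideal.Quotient.mk_surjective X
    obtain ⟨s, rfl⟩ := Ideal.Quotient.mk_surjective S
    refine ⟨x, s, fun hs => hS ((mem_map_mk_iff _ m hϖle s).mpr hs), ?_⟩
    exact IsLocalization.mk'_spec T _ _
  have hιmem : ∀ x : C, ι x ∈ IsLocalRing.maximalIdeal T ↔ x ∈ m := by
    intro x
    show algebraMap (C ⧸ Ideal.span {ϖ}) T (Ideal.Quotient.mk (Ideal.span {ϖ}) x) ∈ _ ↔ _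
    rw [IsLocalization.AtPrime.to_map_mem_maximal_iff T
      (m.map (Ideal.Quotient.mk (Ideal.span {ϖ})))]
    exact mem_map_mk_iff _ m hϖle x
  have hιϖ : ι ϖ = 0 := by
    show algebraMap (C ⧸ Ideal.span {ϖ}) T (Ideal.Quotient.mk (Ideal.span {ϖ}) ϖ) = 0
    rw [Ideal.Quotient.eq_zero_iff_mem.mpr (Ideal.mem_span_singleton_self ϖ), map_zero]
  -- Step 4: the maximal ideal of `T` is generated by `γ = ι γ₀`
  have hγ : IsLocalRing.maximalIdeal T = Ideal.span {ι γ₀} := by
    apply le_antisymm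
    · intro z hz
      obtain ⟨x, s, hs, hzs⟩ := hιsurj z
      have hxm : x ∈ m := by
        rw [← hιmem, ← hzs]
        exact Ideal.mul_mem_right _ _ hz
      obtain ⟨u, hu, hux⟩ := exists_notMem_mul_mem_of_reduced n hred m hm x hxm
      obtain ⟨c₁, c₂, hc⟩ := hnC _ hux
      rw [Ideal.mem_span_singleton]
      have h1 : ι γ₀ ∣ z * (ι s * ι u) := by
        refine ⟨ι c₂, ?_⟩
        calc z * (ι s * ι u) = ι (u * x) := by rw [← mul_assoc, hzs, map_mul]; ring
          _ = ι γ₀ * ι c₂ := by rw [hc, map_add, map_mul, map_mul, hιϖ]; ring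
      exact (IsUnit.dvd_mul_right ((hιunit s hs).mul (hιunit u hu))).mp h1
    · rw [Ideal.span_singleton_le_iff_mem, hιmem]
      exact hγ₀m
  -- Step 5: `T` is a domain
  have hdom : IsDomain T := by
    by_cases hπg : π ∣ g
    · -- degenerate case: `n = (π)`, `T` is a field
      have h0 : ι γ₀ = 0 := by
        obtain ⟨a, ha⟩ := hπg
        have : γ₀ = ϖ * algebraMap R C a := by rw [hγ₀, hϖ, ha, map_mul]
        rw [this, map_mul, hιϖ, zero_mul]
      rw [h0, Ideal.span_singleton_eq_bot.mpr rfl] at hγ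
      exact (IsLocalRing.isField_iff_maximalIdeal_eq.mpr hγ).isDomain
    · apply isDomain_of_maximalIdeal_eq_span_of_regular (ι γ₀) hγ
      intro z hz
      obtain ⟨x, s, hs, hzs⟩ := hιsurj z
      have h1 : ι (γ₀ * x) = 0 := by
        rw [map_mul, ← hzs, ← mul_assoc, hz, zero_mul]
      obtain ⟨u, hu, hux⟩ := (hιzero _).mp h1
      have h2 : ϖ ∣ g • (u * x) := by
        rw [Algebra.smul_def]
        have : algebraMap R C g * (u * x) = u * (γ₀ * x) := by rw [hγ₀]; ring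
        rw [this]; exact hux
      have h3 : ϖ ∣ u * x := htf g hπg _ h2
      have h4 : ι x = 0 := (hιzero x).mpr ⟨u, hu, h3⟩
      have h5 : z * ι s = 0 := by rw [hzs, h4]
      exact (IsUnit.mul_left_eq_zero (hιunit s hs)).mp h5
  -- Step 6: conclusion
  intro x y hxy
  have h1 : ι x * ι y = 0 := by
    rw [← map_mul]
    exact (hιzero _).mpr ⟨1, fun h => (Ideal.IsMaximal.ne_top inferInstance)
      ((Ideal.eq_top_iff_one m).mpr h), by rw [one_mul]; exact hxy⟩
  rcases mul_eq_zero.mp h1 with h | h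
  · obtain ⟨u, hu, hux⟩ := (hιzero x).mp h
    exact ⟨u, hu, Or.inl hux⟩
  · obtain ⟨u, hu, huy⟩ := (hιzero y).mp h
    exact ⟨u, hu, Or.inr huy⟩

end Main

end Fermat.Agent.INJ


end ZBINJ_034_0

/-! ### bundled: `Fermat.Agent.INJ.PiLocallyPrime` -/
section ZBINJ_034_1

/-!
# INJ piece A3: `pi_locally_prime`

Assembly of helper91's `closedFibre_reduced` (`Disc.lean`) with
`locDomainAt_of_closedFibre_reduced` (`DiscLocal.lean`): under the hypotheses of A3, at every
maximal ideal `m` of `C` over the closed point `n` of the special fibre, `C / π` is locally a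
domain: `LocDomainAt C (algebraMap R C π) m`, i.e.
`∀ x y, π ∣ x * y → ∃ u ∉ m, π ∣ u * x ∨ π ∣ u * y`.
-/

set_option autoImplicit false

namespace Fermat.Agent.INJ

open Module TensorProduct

universe u v w

/-- **A3, local primeness of `π`.**  Same hypotheses as `closedFibre_reduced`. -/
theorem pi_locally_prime
    {R : Type u} {C : Type v} [CommRing R] [IsDomain R] [UniqueFactorizationMonoid R]
    [CommRing C] [Algebra R C] [Module.Finite R C] [IsNoetherianRing R]
    {π : R} (hπ : Prime π) [IsPrincipalIdealRing (R ⧸ Ideal.span {π})]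
    (hreg : ∀ x : C, algebraMap R C π * x = 0 → x = 0)
    (htf : ∀ f : R, ¬ π ∣ f → ∀ x : C, algebraMap R C π ∣ f • x → algebraMap R C π ∣ x)
    (k : Type w) [Field k] [Algebra R k] (hk : RingHom.ker (algebraMap R k) = Ideal.span {π})
    (hgen : (Algebra.traceForm k (k ⊗[R] C)).Nondegenerate)
    (n : Ideal R) [n.IsMaximal] (hπn : π ∈ n)
    (hunr : ∀ f : R, Prime f → f ∈ n → ¬ Associated f π →
        (∀ m : ℕ, m ≠ 0 → ¬ f ∣ (m : R)) ∧
        ∀ x : C, algebraMap R C f ∣ x ^ 2 → ∃ a : R, ¬ f ∣ a ∧ algebraMap R C f ∣ a • x)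
    (m : Ideal C) [m.IsMaximal] (hm : n.map (algebraMap R C) ≤ m) :
    LocDomainAt C (algebraMap R C π) m :=
  locDomainAt_of_closedFibre_reduced htf n hπn
    (closedFibre_reduced hπ hreg htf k hk hgen n hπn hunr) m hm

/-- The same, unfolded (exactly the shape announced in helper91's note). -/
theorem pi_locally_prime'
    {R : Type u} {C : Type v} [CommRing R] [IsDomain R] [UniqueFactorizationMonoid R]
    [CommRing C] [Algebra R C] [Module.Finite R C] [IsNoetherianRing R]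
    {π : R} (hπ : Prime π) [IsPrincipalIdealRing (R ⧸ Ideal.span {π})]
    (hreg : ∀ x : C, algebraMap R C π * x = 0 → x = 0)
    (htf : ∀ f : R, ¬ π ∣ f → ∀ x : C, algebraMap R C π ∣ f • x → algebraMap R C π ∣ x)
    (k : Type w) [Field k] [Algebra R k] (hk : RingHom.ker (algebraMap R k) = Ideal.span {π})
    (hgen : (Algebra.traceForm k (k ⊗[R] C)).Nondegenerate)
    (n : Ideal R) [n.IsMaximal] (hπn : π ∈ n)
    (hunr : ∀ f : R, Prime f → f ∈ n → ¬ Associated f π →
        (∀ m : ℕ, m ≠ 0 → ¬ f ∣ (m : R)) ∧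
        ∀ x : C, algebraMap R C f ∣ x ^ 2 → ∃ a : R, ¬ f ∣ a ∧ algebraMap R C f ∣ a • x)
    (m : Ideal C) [m.IsMaximal] (hm : n.map (algebraMap R C) ≤ m) :
    ∀ x y : C, algebraMap R C π ∣ x * y →
      ∃ u : C, u ∉ m ∧ (algebraMap R C π ∣ u * x ∨ algebraMap R C π ∣ u * y) :=
  pi_locally_prime hπ hreg htf k hk hgen n hπn hunr m hm

end Fermat.Agent.INJ


end ZBINJ_034_1

/-! ### bundled: `Fermat.Agent.INJ.NGood` -/
section ZBINJ_034_2

/-!
# (INJ) Part A, T3: `NGoodStmt`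

Normality of the special fibre at a point over which `Lf` is unramified: instantiate
`pi_locally_prime` (A3) at `R = A₀[τ]`, `C = integralClosure R Lf`, `n = m ∩ R`, with

* ring-theoretic facts on `R` from `ChartBasics.lean` (helper2),
* `htf` = A1 (`TorsionFree.lean`, helper81),
* `hgen` = A2 (`Components.lean` + `ChartGoodBasis.lean`, helper29),
* `hunr` = T2 (`PlaceBridge.lean`, helper91).
-/

set_option autoImplicit false

namespace Fermat.Agent.INJ

open Polynomial IntermediateField AlgebraicCurve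

universe u

/-- **T3.**  `NGoodStmt` holds. -/
theorem nGoodStmt : NGoodStmt.{u} := by
  intro A₀ E Lf _ _ _ _ _ _ _ _ _ _ _ π hπ τ hτ _ hgb m hmax hπm hpl
  haveI := hmax
  -- the base ring `R = A₀[τ]`
  haveI hufm := chart_ufm (A₀ := A₀) (E := E) (τ := τ) hτ
  haveI hic := chart_isIntegrallyClosed (A₀ := A₀) (E := E) (τ := τ) hτ
  haveI hnoeth := chart_isNoetherianRing (A₀ := A₀) (E := E) (τ := τ) hτ
  have hπR : Prime (algebraMap A₀ ↥(Algebra.adjoin A₀ {τ}) π) := chart_prime hτ hπ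
  haveI hpir := chart_quotient_isPrincipalIdealRing (A₀ := A₀) (E := E) (τ := τ) hτ hπ
  -- the fraction field
  letI := FractionRing.liftAlgebra ↥(Algebra.adjoin A₀ {τ}) Lf
  haveI hfd := ChartGB.finiteDimensional_fractionRing (A₀ := A₀) (E := E) τ
  haveI hsep := ChartGB.isSeparable_fractionRing (A₀ := A₀) (E := E) τ
  haveI hfin : Module.Finite ↥(Algebra.adjoin A₀ {τ})
      ↥(integralClosure ↥(Algebra.adjoin A₀ {τ}) Lf) :=
    IsIntegralClosure.finite ↥(Algebra.adjoin A₀ {τ}) (FractionRing ↥(Algebra.adjoin A₀ {τ})) Lf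
      ↥(integralClosure ↥(Algebra.adjoin A₀ {τ}) Lf)
  -- `π` is regular on `C`
  have hπC0 : algebraMap ↥(Algebra.adjoin A₀ {τ}) ↥(integralClosure ↥(Algebra.adjoin A₀ {τ}) Lf)
      (algebraMap A₀ ↥(Algebra.adjoin A₀ {τ}) π) ≠ 0 := by
    intro h0
    have := FaithfulSMul.algebraMap_injective ↥(Algebra.adjoin A₀ {τ})
      ↥(integralClosure ↥(Algebra.adjoin A₀ {τ}) Lf) (h0.trans (map_zero _).symm)
    exact hπR.ne_zero this
  have hreg : ∀ x : ↥(integralClosure ↥(Algebra.adjoin A₀ {τ}) Lf),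
      algebraMap ↥(Algebra.adjoin A₀ {τ}) ↥(integralClosure ↥(Algebra.adjoin A₀ {τ}) Lf)
        (algebraMap A₀ ↥(Algebra.adjoin A₀ {τ}) π) * x = 0 → x = 0 := by
    intro x hx
    rcases mul_eq_zero.mp hx with h | h
    · exact absurd h hπC0
    · exact h
  -- A1
  have htf : ∀ f : ↥(Algebra.adjoin A₀ {τ}), ¬ algebraMap A₀ ↥(Algebra.adjoin A₀ {τ}) π ∣ f →
      ∀ x : ↥(integralClosure ↥(Algebra.adjoin A₀ {τ}) Lf),
        algebraMap ↥(Algebra.adjoin A₀ {τ}) ↥(integralClosure ↥(Algebra.adjoin A₀ {τ}) Lf)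
          (algebraMap A₀ ↥(Algebra.adjoin A₀ {τ}) π) ∣ f • x →
        algebraMap ↥(Algebra.adjoin A₀ {τ}) ↥(integralClosure ↥(Algebra.adjoin A₀ {τ}) Lf)
          (algebraMap A₀ ↥(Algebra.adjoin A₀ {τ}) π) ∣ x :=
    fun f hf x hx => integralClosure_dvd_of_dvd_smul hπR hf x hx
  -- A2: generic trace form
  haveI hprime : (Ideal.span {algebraMap A₀ ↥(Algebra.adjoin A₀ {τ}) π}).IsPrime :=
    (Ideal.span_singleton_prime hπR.ne_zero).mpr hπR
  obtain ⟨N, b, hb⟩ := ChartGB.exists_goodBasis_of_TSGoodBasis (A₀ := A₀) (E := E) τ hτ π hgb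
  have hk := fractionRing_quotient_ker
    (Ideal.span {algebraMap A₀ ↥(Algebra.adjoin A₀ {τ}) π})
  have hgen := Comp.GoodBasis.traceForm_nondegenerate hb
    (FractionRing (↥(Algebra.adjoin A₀ {τ}) ⧸
      Ideal.span {algebraMap A₀ ↥(Algebra.adjoin A₀ {τ}) π})) hk
  -- the closed point `n = m ∩ R`
  haveI hnmax : (m.comap (algebraMap ↥(Algebra.adjoin A₀ {τ})
      ↥(integralClosure ↥(Algebra.adjoin A₀ {τ}) Lf))).IsMaximal :=
    Ideal.isMaximal_comap_of_isIntegral_of_isMaximal m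
  have htower : algebraMap A₀ ↥(integralClosure ↥(Algebra.adjoin A₀ {τ}) Lf) π =
      algebraMap ↥(Algebra.adjoin A₀ {τ}) ↥(integralClosure ↥(Algebra.adjoin A₀ {τ}) Lf)
        (algebraMap A₀ ↥(Algebra.adjoin A₀ {τ}) π) :=
    IsScalarTower.algebraMap_apply A₀ ↥(Algebra.adjoin A₀ {τ})
      ↥(integralClosure ↥(Algebra.adjoin A₀ {τ}) Lf) π
  have hπn : algebraMap A₀ ↥(Algebra.adjoin A₀ {τ}) π ∈
      m.comap (algebraMap ↥(Algebra.adjoin A₀ {τ})
        ↥(integralClosure ↥(Algebra.adjoin A₀ {τ}) Lf)) := by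
    rw [Ideal.mem_comap, ← htower]
    exact hπm
  -- T2: the fibres at the height-one primes through `n`
  have hunr : ∀ f : ↥(Algebra.adjoin A₀ {τ}), Prime f →
      f ∈ m.comap (algebraMap ↥(Algebra.adjoin A₀ {τ})
        ↥(integralClosure ↥(Algebra.adjoin A₀ {τ}) Lf)) →
      ¬ Associated f (algebraMap A₀ ↥(Algebra.adjoin A₀ {τ}) π) →
      (∀ k : ℕ, k ≠ 0 → ¬ f ∣ (k : ↥(Algebra.adjoin A₀ {τ}))) ∧
      ∀ x : ↥(integralClosure ↥(Algebra.adjoin A₀ {τ}) Lf),
        algebraMap ↥(Algebra.adjoin A₀ {τ}) ↥(integralClosure ↥(Algebra.adjoin A₀ {τ}) Lf) f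
          ∣ x ^ 2 →
        ∃ a : ↥(Algebra.adjoin A₀ {τ}), ¬ f ∣ a ∧
          algebraMap ↥(Algebra.adjoin A₀ {τ}) ↥(integralClosure ↥(Algebra.adjoin A₀ {τ}) Lf) f
            ∣ a • x := by
    intro f hfp hfn hfπ
    exact hunr_of_places hπ τ hτ hπR.irreducible f hfp hfπ
      (fun P _ hpos => hpl P f hfp.irreducible (Ideal.mem_comap.mp hfn) hpos)
  have key := pi_locally_prime hπR hreg htf _ hk hgen
    (m.comap (algebraMap ↥(Algebra.adjoin A₀ {τ})
      ↥(integralClosure ↥(Algebra.adjoin A₀ {τ}) Lf))) hπn hunr m Ideal.map_comap_le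
  rw [htower]
  exact key

end Fermat.Agent.INJ


end ZBINJ_034_2

/-! ### bundled: `Fermat.Agent.INJ.TSGlue` -/
section ZBINJ_034_3

/-!
# (INJ) A5: the final assembly of the tame specialization theorem

`tameSpec_of_local`: `NGoodStmt` + `NTameStmt` imply `TameSpecStmt`.

Charts `C₁ = integralClosure A₀[t]`, `C₂ = integralClosure A₀[t⁻¹]`, overlap
`B = integralClosure A₀[t, t⁻¹]`; the abstract glue is `dvd_or_dvd_of_locDomain`
(LocDomain.lean), Zariski connectedness is `zariski_connected_charts` (A6), the local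
statements come from `chart_locDomainAt` / `chart_inv_locDomainAt` (TSLocal.lean), and the chart
at infinity has a good basis by `ChartInv.tsGoodBasis_inv`.
-/

set_option autoImplicit false
set_option linter.unusedSectionVars false
set_option linter.style.haveILetI false

namespace Fermat.Agent.INJ

open Polynomial IntermediateField AlgebraicCurve

universe u

section Glue

variable {A₀ E Lf : Type u} [CommRing A₀] [IsDomain A₀] [IsDiscreteValuationRing A₀]
  [Field E] [Algebra A₀ E] [IsFractionRing A₀ E] [CharZero E]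
  [Field Lf] [Algebra E Lf] [Algebra A₀ Lf] [IsScalarTower A₀ E Lf]
  {π : A₀}

/-- divisibility by `π` in an integral closure, elementwise -/
theorem tsg_dvd_iff (R : Subalgebra A₀ Lf) (x : integralClosure R Lf) :
    algebraMap A₀ (integralClosure R Lf) π ∣ x ↔
      ∃ y : Lf, IsIntegral R y ∧ (x : Lf) = algebraMap A₀ Lf π * y := by
  constructor
  · rintro ⟨d, hd⟩
    exact ⟨d.1, d.2, congrArg Subtype.val hd⟩
  · rintro ⟨y, hy, hxy⟩
    exact ⟨⟨y, hy⟩, Subtype.ext hxy⟩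

/-- the inclusion of integral closures for `R ≤ R'` -/
noncomputable def tsgIncl {R R' : Subalgebra A₀ Lf} (h : R ≤ R') :
    integralClosure R Lf →+* integralClosure R' Lf where
  toFun x := ⟨x.1, zch_isIntegral_mono h x.2⟩
  map_one' := rfl
  map_mul' _ _ := rfl
  map_zero' := rfl
  map_add' _ _ := rfl

theorem tsgIncl_coe {R R' : Subalgebra A₀ Lf} (h : R ≤ R') (x : integralClosure R Lf) :
    ((tsgIncl h x : integralClosure R' Lf) : Lf) = (x : Lf) := rfl

/-- finite-dimensionality is invariant under equality of intermediate fields -/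
theorem tsg_finiteDimensional_of_eq {K K' : IntermediateField E Lf} (h : K = K')
    [FiniteDimensional K Lf] : FiniteDimensional K' Lf := by
  subst h; infer_instance

/-- `π` does not divide a power of the coordinate -/
theorem tsg_not_dvd_pow {τ : Lf} (hτ : Transcendental E τ) (hπ : Irreducible π) (k : ℕ) :
    ¬ algebraMap A₀ (Algebra.adjoin A₀ {τ}) π ∣ (chartEquiv hτ (X : A₀[X])) ^ k := by
  intro h
  have h1 := (chart_prime hτ hπ).dvd_of_dvd_pow h
  rw [← chartEquiv_C hτ] at h1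
  have h2 : (C π : A₀[X]) ∣ X := by
    obtain ⟨d, hd⟩ := h1
    refine ⟨(chartEquiv hτ).symm d, ?_⟩
    apply (chartEquiv hτ).injective
    rw [hd, map_mul, AlgEquiv.apply_symm_apply]
  rw [Polynomial.C_dvd_iff_dvd_coeff] at h2
  have h3 := h2 1
  rw [coeff_X_one] at h3
  exact hπ.not_isUnit (isUnit_of_dvd_one h3)

/-- saturation: an element of the chart `A₀[u]` which is divisible by `π` on the overlap is
divisible by `π` on the chart -/
theorem tsg_sat (hπ : Irreducible π) {u u' : Lf} (hu : Transcendental E u) (huu' : u * u' = 1)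
    {x y : Lf} (hx : IsIntegral (Algebra.adjoin A₀ {u}) x)
    (hy : IsIntegral (Algebra.adjoin A₀ {u, u'}) y) (hxy : x = algebraMap A₀ Lf π * y) :
    IsIntegral (Algebra.adjoin A₀ {u}) y := by
  obtain ⟨k, hk⟩ := zch_exists_pow_mul_isIntegral huu' hy
  haveI := chart_isIntegrallyClosed (A₀ := A₀) (E := E) hu
  have hπR := chart_prime hu hπ
  have hf := tsg_not_dvd_pow hu hπ k
  have hinj := zch_algebraMap_injective (A₀ := A₀) (E := E) (L := Lf)
  have hπ0 : algebraMap A₀ Lf π ≠ 0 := (map_ne_zero_iff _ hinj).mpr hπ.ne_zero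
  have h' : ((chartEquiv hu (X : A₀[X])) ^ k) • x
      = (algebraMap A₀ (Algebra.adjoin A₀ {u}) π) • (u ^ k * y) := by
    rw [Algebra.smul_def, Algebra.smul_def]
    have e1 : algebraMap (Algebra.adjoin A₀ {u}) Lf ((chartEquiv hu (X : A₀[X])) ^ k)
        = u ^ k := by
      rw [map_pow]
      congr 1
      exact chartEquiv_X hu
    have e2 : algebraMap (Algebra.adjoin A₀ {u}) Lf (algebraMap A₀ (Algebra.adjoin A₀ {u}) π)
        = algebraMap A₀ Lf π := rfl
    rw [e1, e2, hxy]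
    ring
  obtain ⟨z, hz, hxz⟩ := exists_isIntegral_smul_eq hπR hf hx hk h'
  have hzy : z = y := by
    have e2 : algebraMap (Algebra.adjoin A₀ {u}) Lf (algebraMap A₀ (Algebra.adjoin A₀ {u}) π)
        = algebraMap A₀ Lf π := rfl
    rw [Algebra.smul_def, e2, hxy] at hxz
    exact (mul_left_cancel₀ hπ0 hxz).symm
  rw [← hzy]
  exact hz

/-- `π` is not a unit of the chart -/
theorem tsg_not_isUnit {τ : Lf} (hτ : Transcendental E τ) (hπ : Irreducible π) :
    ¬ IsUnit (algebraMap A₀ (integralClosure (Algebra.adjoin A₀ {τ}) Lf) π) := by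
  intro hunit
  have hπR := chart_prime hτ hπ
  haveI hprime : (Ideal.span {algebraMap A₀ ↥(Algebra.adjoin A₀ {τ}) π}).IsPrime :=
    (Ideal.span_singleton_prime hπR.ne_zero).mpr hπR
  obtain ⟨Q, -, hQ, hQP⟩ := Ideal.exists_ideal_over_prime_of_isIntegral
    (S := integralClosure (Algebra.adjoin A₀ {τ}) Lf)
    (Ideal.span {algebraMap A₀ ↥(Algebra.adjoin A₀ {τ}) π}) ⊥ (by
      intro r hr
      rw [Ideal.mem_comap, Ideal.mem_bot] at hr
      have hr0 : r = 0 := by
        apply Subtype.ext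
        have := congrArg Subtype.val hr
        exact this
      rw [hr0]
      exact Ideal.zero_mem _)
  have hmem : algebraMap A₀ (integralClosure (Algebra.adjoin A₀ {τ}) Lf) π ∈ Q := by
    have h1 : algebraMap A₀ ↥(Algebra.adjoin A₀ {τ}) π ∈
        Q.comap (algebraMap ↥(Algebra.adjoin A₀ {τ})
          (integralClosure (Algebra.adjoin A₀ {τ}) Lf)) := by
      rw [hQP]
      exact Ideal.mem_span_singleton_self _
    exact h1
  exact hQ.ne_top (Ideal.eq_top_of_isUnit_mem _ hmem hunit)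

/-- **A5: the tame specialization theorem, from the two local normality statements.** -/
theorem tameSpec_of_local (hG : NGoodStmt.{u}) (hT : NTameStmt.{u}) : TameSpecStmt.{u} := by
  intro A₀ E Lf _ _ _ _ _ _ _ _ _ _ _ π hπ t ht _ hcl hgood S hS hb e he hζ htame hP₀
  have ht0 : t ≠ 0 := by
    rintro rfl
    exact ht isAlgebraic_zero
  have htt' : t * t⁻¹ = 1 := mul_inv_cancel₀ ht0
  have ht't : t⁻¹ * t = 1 := inv_mul_cancel₀ ht0
  have hinv : Transcendental E t⁻¹ := zch_transcendental_inv ht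
  haveI : FiniteDimensional E⟮t⁻¹⟯ Lf := tsg_finiteDimensional_of_eq (zch_adjoin_inv t)
  have hgood' : TSGoodBasis (E := E) π t⁻¹ := ChartInv.tsGoodBasis_inv hπ ht hgood
  have hinj := zch_algebraMap_injective (A₀ := A₀) (E := E) (L := Lf)
  have hπ0 : algebraMap A₀ Lf π ≠ 0 := (map_ne_zero_iff _ hinj).mpr hπ.ne_zero
  have hsub₁ : Algebra.adjoin A₀ ({t} : Set Lf) ≤ Algebra.adjoin A₀ {t, t⁻¹} :=
    Algebra.adjoin_mono (by intro x hx; exact Or.inl hx)
  have hsub₂ : Algebra.adjoin A₀ ({t⁻¹} : Set Lf) ≤ Algebra.adjoin A₀ {t, t⁻¹} :=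
    Algebra.adjoin_mono (by intro x hx; exact Or.inr hx)
  have hpair : ({t⁻¹, t} : Set Lf) = {t, t⁻¹} := Set.pair_comm _ _
  haveI : IsNoetherianRing (integralClosure (Algebra.adjoin A₀ {t}) Lf) :=
    chart_closure_isNoetherianRing (A₀ := A₀) (E := E) ht
  -- the place at infinity serves every branch point
  have hP₀' : ∀ c ∈ S, ∃ P₀ : Place E Lf, P₀.ord (t - algebraMap A₀ Lf c) = 1 ∨
      P₀.ord (t - algebraMap A₀ Lf c) = -1 := by
    intro c _
    obtain ⟨P₀, hP₀⟩ := hP₀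
    refine ⟨P₀, Or.inr ?_⟩
    rcases eq_or_ne (algebraMap A₀ Lf c) 0 with h0 | h0
    · rw [h0, sub_zero]; exact hP₀
    · rw [sub_eq_add_neg]
      rw [Fermat.Agent.S24.PlaceAux.ord_add_eq_of_lt P₀ ht0 (neg_ne_zero.mpr h0)]
      · exact hP₀
      · rw [Fermat.Agent.S24.PlaceAux.ord_neg, centre_ord_algebraMap, hP₀]
        norm_num
  have hloc₁ : LocDomain (integralClosure (Algebra.adjoin A₀ {t}) Lf)
      (algebraMap A₀ (integralClosure (Algebra.adjoin A₀ {t}) Lf) π) :=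
    locDomain_of_forall_maximal (fun m hm hπm =>
      chart_locDomainAt hG hT hπ ht hgood S hS hb e he hζ htame.1 hP₀' m hm hπm)
  have hloc₂ : ∀ m : Ideal (integralClosure (Algebra.adjoin A₀ {t⁻¹}) Lf), m.IsMaximal →
      algebraMap A₀ (integralClosure (Algebra.adjoin A₀ {t⁻¹}) Lf) π ∈ m →
      chartElt hinv X ∈ m →
      LocDomainAt (integralClosure (Algebra.adjoin A₀ {t⁻¹}) Lf)
        (algebraMap A₀ (integralClosure (Algebra.adjoin A₀ {t⁻¹}) Lf) π) m :=
    fun m hm hπm hσm =>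
      chart_inv_locDomainAt hT hπ ht hinv hgood' S hb e he hζ htame.2 hP₀ m hm hπm hσm
  refine ⟨?_, tsg_not_isUnit ht hπ, ?_⟩
  · intro h0
    apply hπ0
    have := congrArg Subtype.val h0
    exact this
  · intro x y hxy
    refine dvd_or_dvd_of_locDomain (tsgIncl hsub₁) (tsgIncl hsub₂)
      (algebraMap A₀ (integralClosure (Algebra.adjoin A₀ {t}) Lf) π)
      (algebraMap A₀ (integralClosure (Algebra.adjoin A₀ {t⁻¹}) Lf) π)
      (algebraMap A₀ (integralClosure (Algebra.adjoin A₀ {t, t⁻¹}) Lf) π)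
      (Subtype.ext rfl) (Subtype.ext rfl) ?_ (chartElt hinv X) ?_ ?_ hloc₁ hloc₂ ?_ hxy
    · -- saturation of the chart at infinity
      intro z hz
      obtain ⟨y', hy', hzy'⟩ := (tsg_dvd_iff _ _).mp hz
      rw [tsgIncl_coe] at hzy'
      rw [← hpair] at hy'
      exact (tsg_dvd_iff _ _).mpr ⟨y', tsg_sat hπ hinv ht't z.2 hy' hzy', hzy'⟩
    · -- the overlap is the localization of the chart at infinity at `t⁻¹`
      intro b
      have hb' : IsIntegral (Algebra.adjoin A₀ {t⁻¹, t}) (b : Lf) := by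
        rw [hpair]; exact b.2
      obtain ⟨k, hk⟩ := zch_exists_pow_mul_isIntegral ht't hb'
      refine ⟨k, ⟨_, hk⟩, Subtype.ext ?_⟩
      rw [Subalgebra.coe_mul, SubmonoidClass.coe_pow, tsgIncl_coe, tsgIncl_coe, chartElt_coe,
        aeval_X]
    · -- `t⁻¹` is a unit on the overlap
      intro b hb
      obtain ⟨y', hy', hby'⟩ := (tsg_dvd_iff _ _).mp hb
      have htB : IsIntegral (Algebra.adjoin A₀ {t, t⁻¹}) t :=
        isIntegral_algebraMap (R := Algebra.adjoin A₀ ({t, t⁻¹} : Set Lf))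
          (x := ⟨t, Algebra.subset_adjoin (Or.inl rfl)⟩)
      refine (tsg_dvd_iff _ _).mpr ⟨t * y', htB.mul hy', ?_⟩
      rw [Subalgebra.coe_mul, tsgIncl_coe, chartElt_coe, aeval_X] at hby'
      calc (b : Lf) = t * (t⁻¹ * (b : Lf)) := by rw [← mul_assoc, htt', one_mul]
        _ = algebraMap A₀ Lf π * (t * y') := by rw [hby']; ring
    · -- Zariski connectedness
      intro e₁ e₂ h₁ h₂ h₁₂
      obtain ⟨c₁, hc₁, hec₁⟩ := (tsg_dvd_iff _ _).mp h₁
      obtain ⟨c₂, hc₂, hec₂⟩ := (tsg_dvd_iff _ _).mp h₂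
      obtain ⟨c, hc, hec⟩ := (tsg_dvd_iff _ _).mp h₁₂
      rw [Subalgebra.coe_sub, Subalgebra.coe_mul] at hec₁ hec₂
      rw [Subalgebra.coe_sub, tsgIncl_coe, tsgIncl_coe] at hec
      rcases zariski_connected_charts hπ ht hcl e₁.2 e₂.2 ⟨c₁, hc₁, hec₁⟩ ⟨c₂, hc₂, hec₂⟩
        ⟨c, hc, hec⟩ with ⟨y₁, hy₁, hey₁⟩ | ⟨y₁, hy₁, hey₁⟩
      · exact Or.inl ((tsg_dvd_iff _ _).mpr ⟨y₁, hy₁, hey₁⟩)
      · refine Or.inr ((tsg_dvd_iff _ _).mpr ⟨y₁, hy₁, ?_⟩)
        rw [Subalgebra.coe_sub, Subalgebra.coe_one]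
        exact hey₁

end Glue

/-- **A5**, with `NGoodStmt` (T3, `nGoodStmt`) discharged: only `NTameStmt` remains. -/
theorem tameSpec_of_nTame (hT : NTameStmt.{u}) : TameSpecStmt.{u} :=
  tameSpec_of_local nGoodStmt hT

end Fermat.Agent.INJ


end ZBINJ_034_3

/-! ### bundled: `Fermat.Agent.INJ.NTame` -/
section ZBINJ_034_4

/-!
# INJ piece T4: `NTameStmt` holds

Assembly of T3 (`nGoodStmt`, helper27), T4a (`exists_kummerSetup`, helper49), T4b
(`NTame.ntame_places`, helper5) and T4c (`NTame.ntame_descent`, helper27).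
-/

set_option autoImplicit false

namespace Fermat.Agent.INJ

universe u

/-- T4c in the packaged form of `NTameWire.lean`. -/
theorem nTameDescentStmt : NTameDescentStmt.{u} := by
  intro A₀ E Lf L' _ _ _ _ _ _ _ _ _ _ _ _ _ _ _ _ _ _ _ _ π τ c e he s hs m hm hπm hloc
  exact NTame.ntame_descent (E := E) π τ c e he s hs m hm hπm hloc

/-- **T4.**  `NTameStmt` holds. -/
theorem nTameStmt : NTameStmt.{u} :=
  nTameStmt_of nGoodStmt nTameDescentStmt

end Fermat.Agent.INJ


end ZBINJ_034_4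

/-! ### bundled: `Fermat.Agent.INJ.TameSpec` -/
section ZBINJ_034_5

/-!
# (INJ) Part A: the tame specialization theorem

`tameSpecStmt : TameSpecStmt` — assembly of the glue A5 (`tameSpec_of_nTame`, TSGlue.lean) and
T4 (`nTameStmt`, NTame.lean).  In words: `A₀` a discrete valuation ring with uniformizer `π`,
`E = Frac A₀` of characteristic `0`, `Lf / E(t)` finite with field of constants `E`, one integral
basis with discriminant prime to `π`, unramified outside the branch locus `Σ ∪ {∞}` (pairwise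
distinct modulo `π`), tame over it (indices dividing a unit `e` with `μ_e ⊂ A₀`), and a place with
`ord t = -1`: then `π` is a prime element of the integral closure of `A₀[t]` in `Lf`.
-/

set_option autoImplicit false

namespace Fermat.Agent.INJ

universe u

/-- **Part A (tame specialization theorem).** -/
theorem tameSpecStmt : TameSpecStmt.{u} :=
  tameSpec_of_nTame nTameStmt

end Fermat.Agent.INJ


end ZBINJ_034_5

/-! ### bundled: `Fermat.Agent.INJ.InjAll` -/
section ZBINJ_034_6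

/-!
# (INJ) final assembly, all residue characteristics

* `injAll_core : InjCoreStmt` (from the tame specialization theorem, Part A);
* `injAll_ge5`  : `StmtINJ N ℓ p` for `ℓ ∤ 6 N` (the `j`-line);
* `injAll_three` : `StmtINJ N 3 p` for `3 ∤ N` (Hauptmodul line of `X₀(2)` at level `lcm 2 N`);
* `injAll_two_of_h3` : `StmtINJ N 2 p` for `2 ∤ N`, from the instantiation INST-h3;
* `stmtINJAll_of_h3` : `StmtINJAll` from INST-h3;
* `injAll_stmtINJAll : StmtINJAll` — **(INJ) is proved.**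
-/

set_option autoImplicit false

namespace Fermat.Agent.INJ

/-- the line-independent core, unconditionally -/
theorem injAll_core : InjCoreStmt := injCoreStmt_of_tameSpec tameSpecStmt

/-- **(INJ) for `ℓ ≥ 5`.** -/
theorem injAll_ge5 {N ℓ p : ℕ} (hN : N ≠ 0) (hℓ : ℓ.Prime) (hp : p.Prime) (hℓN : ¬ ℓ ∣ N)
    (hℓp : ℓ ≠ p) (hℓ2 : ℓ ≠ 2) (hℓ3 : ℓ ≠ 3) : StmtINJ N ℓ p := by
  refine stmtINJ_of_stmtInjNF hN hp (stmtInjNF_j injAll_core hN hℓ hp hℓp ?_)
  intro hd
  rcases (Nat.Prime.dvd_mul hℓ).mp hd with h6 | hN'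
  · have h6' : (6 : ℕ) = 2 * 3 := by norm_num
    rw [h6'] at h6
    rcases (Nat.Prime.dvd_mul hℓ).mp h6 with h | h
    · exact hℓ2 ((Nat.prime_dvd_prime_iff_eq hℓ Nat.prime_two).mp h)
    · exact hℓ3 ((Nat.prime_dvd_prime_iff_eq hℓ Nat.prime_three).mp h)
  · exact hℓN hN'

/-- **(INJ) for `ℓ = 3`.** -/
theorem injAll_three {N p : ℕ} (hN : N ≠ 0) (hp : p.Prime) (h3N : ¬ 3 ∣ N) (h3p : 3 ≠ p) :
    StmtINJ N 3 p := by
  refine stmtINJ_descent_three N p hN hp h3p ?_
  have hN' : Nat.lcm 2 N ≠ 0 := Nat.lcm_ne_zero (by norm_num) hN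
  exact stmtINJ_of_stmtInjNF hN' hp
    (stmtInjNF_h2 injAll_core hN' (Nat.dvd_lcm_left 2 N) (dl_not_dvd_lcm_two h3N) hp
      (Ne.symm h3p))

/-- **(INJ) for `ℓ = 2`**, from INST-h3. -/
theorem injAll_two_of_h3
    (h3 : ∀ {N p : ℕ}, N ≠ 0 → 3 ∣ N → ¬ 2 ∣ N → p.Prime → p ≠ 2 → StmtInjNF N 2 p)
    {N p : ℕ} (hN : N ≠ 0) (hp : p.Prime) (h2N : ¬ 2 ∣ N) (h2p : 2 ≠ p) :
    StmtINJ N 2 p := by
  refine stmtINJ_descent_two N p hN hp h2p ?_
  have hN' : Nat.lcm 3 N ≠ 0 := Nat.lcm_ne_zero (by norm_num) hN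
  exact stmtINJ_of_stmtInjNF hN' hp
    (h3 hN' (Nat.dvd_lcm_left 3 N) (dl_not_dvd_lcm_three h2N) hp (Ne.symm h2p))

/-- **(INJ), all cases**, from INST-h3. -/
theorem stmtINJAll_of_h3
    (h3 : ∀ {N p : ℕ}, N ≠ 0 → 3 ∣ N → ¬ 2 ∣ N → p.Prime → p ≠ 2 → StmtInjNF N 2 p) :
    StmtINJAll := by
  intro N ℓ p hN hℓ hp hℓN hℓp
  by_cases hℓ2 : ℓ = 2
  · subst hℓ2
    exact injAll_two_of_h3 h3 hN hp hℓN hℓp
  by_cases hℓ3 : ℓ = 3
  · subst hℓ3
    exact injAll_three hN hp hℓN hℓp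
  exact injAll_ge5 hN hℓ hp hℓN hℓp hℓ2 hℓ3

/-- **(INJ)**: the whole statement, unconditionally. -/
theorem injAll_stmtINJAll : StmtINJAll :=
  stmtINJAll_of_h3 (fun hN h3 h2 hp hp2 => stmtInjNF_h3 injAll_core hN h3 h2 hp hp2)

end Fermat.Agent.INJ


end ZBINJ_034_6

/-! ### bundled: `Fermat.Agent.R38.PkgFrame` -/
section ZBINJ_034_7
/-
ROW 38, piece R38-PKG frame (helper83): PKG-ES + PKG-PUSH + PKG-OLD for the CONCRETE module
`J := PDiv (M * p) p` (the `p`-divisible torsion of `J₀(Mp)(ℚ̄)`, `ES/TopFaith.lean`),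
`Jold := PDiv M p × PDiv M p`, `π := (α_*, β_*)` (`STB/PushPoly.lean`).

* `r38pkg_es`    : `ESDataInf (M * p) p (PDiv (M * p) p)` (unconditional);
* `r38pkg_old`   : `KillsLevel M t` ⇒ `t` kills `PDiv M p` (`r38pkg_forms_eq_zero` + STB-P2);
* `r38pkg_new`   : `KillsLevel M t₀`, `t₀ x = n₀ x`, `p ∤ n₀`, `p x = 0` ⇒ `α_* x = 0 = β_* x`;
* `r38pkg_oldF`, `r38pkg_newF` : the same with `KillsForms` (interface v2 of `R38/Plan.lean`);
* `StmtToricP`, `StmtTresP` : the two geometric clauses at `p`, for the concrete `J`;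
* `stmtPkgCore_of : StmtToricP → StmtTresP → StmtPkgCore`.
-/

set_option autoImplicit false
set_option linter.style.haveILetI false
set_option linter.unusedSectionVars false

noncomputable section

namespace Fermat.Agent.R38

open ModularCurve Fermat.Agent.ES Fermat.Agent.STB ExtCitation

/-! ### The concrete statements at `p` -/

/-- **TORIC, concrete form**: on the inertia span of the `p`-torsion of `J₀(Mp)` killed by both
push-forwards to level `M`, inertia at `p` acts through `ω`. -/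
def StmtToricP : Prop :=
  ∀ (M p : ℕ) [NeZero M] [NeZero p] [Fact p.Prime], p ≠ 2 → ¬ p ∣ M →
    ∀ A : ValuationSubring Qb, A.LiesOverPrime p → ∀ x : PDiv (M * p) p, p • x = 0 →
      stbPushAlphaP M p p x = 0 → stbPushBetaP M p p x = 0 →
      ∀ σ ∈ A.inertiaSubgroupIn ℚ, ∀ τ ∈ A.inertiaSubgroupIn ℚ,
        letI := pDivGalois (M * p) p
        τ • (σ • x - x) = cycloExp p τ • (σ • x - x)

/-- **TRÈS, concrete form** (the wall of row 38): a `p`-torsion Hecke eigen-vector of `J₀(Mp)`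
which is not old (Hecke sense) and not Eisenstein and is fixed by the peu ramifié subgroup is
toric. -/
def StmtTresP : Prop :=
  ∀ (M p : ℕ) [NeZero M] [NeZero p] [Fact p.Prime], p ≠ 2 → ¬ p ∣ M →
    letI := pDivGalois (M * p) p
    letI := pDivModule (M * p) p
    ∀ A : ValuationSubring Qb, A.LiesOverPrime p → ∀ x : PDiv (M * p) p, p • x = 0 →
      stbPushAlphaP M p p x = 0 → stbPushBetaP M p p x = 0 →
      ∀ t₀ ∈ MvPolynomial.supported ℤ (goodPrimes (M * p) p), KillsForms M t₀ →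
        ∀ n₀ : ℤ, t₀ • x = n₀ • x → ¬ (p : ℤ) ∣ n₀ →
      ∀ ℓ₁ ∈ goodPrimes (M * p) p, ∀ n₁ : ℤ, heckeGen ℓ₁ • x = n₁ • x →
        ¬ (p : ℤ) ∣ n₁ - ((ℓ₁ : ℕ) + 1) →
      (∀ σ ∈ peuSubgroup A p, σ • x = x) →
      ∀ τ ∈ A.inertiaSubgroupIn ℚ, τ • x = cycloExp p τ • x

section Frame

variable (M p : ℕ) [NeZero M] [NeZero p] [hpF : Fact p.Prime]

/-- **PKG-ES**: the Eichler–Shimura package on `PDiv (M * p) p`. -/
theorem r38pkg_es :
    letI := pDivModule (M * p) p
    letI := pDivGalois (M * p) p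
    ESDataInf (M * p) p (PDiv (M * p) p) := by
  have hp : p.Prime := hpF.out
  have hm := multData_of_torsionUnifData hp.ne_zero (stb_p2_unifData (M * p) p hp.pos)
  exact hm.esDataInf (stmtFiniteLevel (M * p) p hp.ne_zero)
    (G2.stmtFrob_of_stmtINJAll Fermat.Agent.INJ.injAll_stmtINJAll (M * p) p)
    (G2.stmtUnram_of_stmtINJAll Fermat.Agent.INJ.injAll_stmtINJAll (M * p) p)

/-- **PKG-OLD**: a good Hecke polynomial killing the eigen-systems of level `M` kills the
`p`-divisible torsion of `J₀(M)`. -/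
theorem r38pkg_old (t : HeckeAlg) (ht : t ∈ MvPolynomial.supported ℤ (goodPrimes (M * p) p))
    (hK : KillsLevel M t) (y : PDiv M p) : (letI := pDivModule M p; t • y) = 0 := by
  have hp : p.Prime := hpF.out
  have hG : ∀ ℓ ∈ goodPrimes (M * p) p, ¬ (ℓ : ℕ) ∣ M := fun ℓ hℓ h =>
    hℓ (Dvd.dvd.mul_right (Dvd.dvd.mul_right h p) p)
  refine stb_p2_kills hp t (MvPolynomial.supported_mono ?_ ht)
    (r38pkg_forms_eq_zero (goodPrimes (M * p) p) hG t ht hK) y
  intro ℓ hℓ
  exact stb_good_of_good hℓ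

/-- **PKG-PUSH + PKG-OLD**: a `p`-torsion vector on which a Hecke polynomial killing level `M`
acts through a `p`-adic unit is killed by both push-forwards to level `M`. -/
theorem r38pkg_new (hpM : ¬ p ∣ M) (x : PDiv (M * p) p) (hx : p • x = 0) (t₀ : HeckeAlg)
    (ht₀ : t₀ ∈ MvPolynomial.supported ℤ (goodPrimes (M * p) p)) (hK : KillsLevel M t₀)
    (n₀ : ℤ) (hn₀ : (letI := pDivModule (M * p) p; t₀ • x) = n₀ • x) (hpn₀ : ¬ (p : ℤ) ∣ n₀) :
    stbPushAlphaP M p p x = 0 ∧ stbPushBetaP M p p x = 0 := by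
  have hp : p.Prime := hpF.out
  constructor
  · have h1 := stb_p3_poly_alpha hp hp hpM t₀ ht₀ x
    rw [hn₀, map_zsmul, r38pkg_old M p t₀ ht₀ hK] at h1
    have h2 : p • stbPushAlphaP M p p x = 0 := by rw [← map_nsmul, hx, map_zero]
    exact glue_eq_zero_of_coprime hp hpn₀ h1 h2
  · have h1 := stb_p3_poly_beta hp hp hpM t₀ ht₀ x
    rw [hn₀, map_zsmul, r38pkg_old M p t₀ ht₀ hK] at h1
    have h2 : p • stbPushBetaP M p p x = 0 := by rw [← map_nsmul, hx, map_zero]
    exact glue_eq_zero_of_coprime hp hpn₀ h1 h2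

/-- **PKG-OLD**, `KillsForms` form (interface v2 of `R38/Plan.lean`). -/
theorem r38pkg_oldF (t : HeckeAlg) (ht : t ∈ MvPolynomial.supported ℤ (goodPrimes (M * p) p))
    (hK : KillsForms M t) (y : PDiv M p) : (letI := pDivModule M p; t • y) = 0 := by
  have hp : p.Prime := hpF.out
  refine stb_p2_kills hp t (MvPolynomial.supported_mono ?_ ht) hK y
  intro ℓ hℓ
  exact stb_good_of_good hℓ

/-- **PKG-PUSH + PKG-OLD**, `KillsForms` form (interface v2 of `R38/Plan.lean`). -/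
theorem r38pkg_newF (hpM : ¬ p ∣ M) (x : PDiv (M * p) p) (hx : p • x = 0) (t₀ : HeckeAlg)
    (ht₀ : t₀ ∈ MvPolynomial.supported ℤ (goodPrimes (M * p) p)) (hK : KillsForms M t₀)
    (n₀ : ℤ) (hn₀ : (letI := pDivModule (M * p) p; t₀ • x) = n₀ • x) (hpn₀ : ¬ (p : ℤ) ∣ n₀) :
    stbPushAlphaP M p p x = 0 ∧ stbPushBetaP M p p x = 0 := by
  have hp : p.Prime := hpF.out
  constructor
  · have h1 := stb_p3_poly_alpha hp hp hpM t₀ ht₀ x
    rw [hn₀, map_zsmul, r38pkg_oldF M p t₀ ht₀ hK] at h1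
    have h2 : p • stbPushAlphaP M p p x = 0 := by rw [← map_nsmul, hx, map_zero]
    exact glue_eq_zero_of_coprime hp hpn₀ h1 h2
  · have h1 := stb_p3_poly_beta hp hp hpM t₀ ht₀ x
    rw [hn₀, map_zsmul, r38pkg_oldF M p t₀ ht₀ hK] at h1
    have h2 : p • stbPushBetaP M p p x = 0 := by rw [← map_nsmul, hx, map_zero]
    exact glue_eq_zero_of_coprime hp hpn₀ h1 h2

/-- the minimal package for the concrete `J`, from the two geometric clauses -/
theorem r38pkg_core (hT : StmtToricP) (hR : StmtTresP) (hp2 : p ≠ 2) (hpM : ¬ p ∣ M) :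
    letI := pDivModule (M * p) p
    letI := pDivGalois (M * p) p
    AtPCore M p (PDiv (M * p) p) := by
  letI := pDivModule (M * p) p
  letI := pDivGalois (M * p) p
  refine ⟨r38pkg_es M p, ?_, ?_⟩
  · intro A hA x hx t₀ ht₀ hK n₀ hn₀ hpn₀ σ hσ τ hτ
    obtain ⟨ha, hb⟩ := r38pkg_newF M p hpM x hx t₀ ht₀ hK n₀ hn₀ hpn₀
    exact hT M p hp2 hpM A hA x hx ha hb σ hσ τ hτ
  · intro A hA x hx t₀ ht₀ hK n₀ hn₀ hpn₀ ℓ₁ hℓ₁ n₁ hn₁ hpn₁ hpeu τ hτ
    obtain ⟨ha, hb⟩ := r38pkg_newF M p hpM x hx t₀ ht₀ hK n₀ hn₀ hpn₀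
    exact hR M p hp2 hpM A hA x hx ha hb t₀ ht₀ hK n₀ hn₀ hpn₀ ℓ₁ hℓ₁ n₁ hn₁ hpn₁ hpeu τ hτ

end Frame

/-- **R38-PKG frame**: the package of row 38 from the two geometric clauses at `p` for the
concrete module `PDiv (M * p) p`. -/
theorem stmtPkgCore_of (hT : StmtToricP) (hR : StmtTresP) : StmtPkgCore := by
  intro M p _ hpF hp2 hpM
  haveI : NeZero p := ⟨hpF.out.ne_zero⟩
  exact ⟨PDiv (M * p) p, inferInstance, pDivModule (M * p) p, pDivGalois (M * p) p,
    r38pkg_core M p hT hR hp2 hpM⟩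

end Fermat.Agent.R38

end


end ZBINJ_034_7

/-! ### bundled: `Fermat.Agent.R38.TresAlg` -/
section ZBINJ_034_8
/-
ROW 38, piece TRES-ALG (helper44): the algebra of TRÈS.

`stmtTresP5Of : StmtTresP5Of`, i.e. `StmtTresRed → StmtTresT0 → StmtTorsDivMP → StmtTresP5`.

Argument (NOTES/R38-TRES.md §1).  `x ∈ PDiv (M p) p`, `p x = 0`, new, `t₀ x = n₀ x`,
`T_ℓ₁ x = n₁ x`, fixed by the peu ramifié subgroup, moved by inertia along one line.
 1. `x′ := T_ℓ₁ x − (ℓ₁ + 1) x = c₁ x`, `c₁ = n₁ − ℓ₁ − 1` prime to `p`.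
 2. (TRES-RED) gives `y ∈ J₀(M)[p]` with `RedInf x′ y`;  `y ∈ PDiv M p` (TorsDiv).
 3. `RedInf` is additive and stable under the good `T_ℓ` (`ribmp_hk_redInf`), hence under the
    Hecke polynomial `t₀`: `RedInf (t₀ x′) (t₀ y)`, and `t₀ y = 0` (`r38pkg_oldF`),
    `t₀ x′ = c₁ n₀ x`.  So `c₁ n₀ x` is trivial at `v_∞`; hence so is `x` (`p ∤ c₁ n₀`, `p x = 0`).
 4. (TRES-T0).
-/

set_option autoImplicit false
set_option linter.style.haveILetI false
set_option linter.unusedSectionVars false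

noncomputable section

namespace Fermat.Agent.R38

open ModularCurve AlgebraicCurve Fermat.Agent.ES Fermat.Agent.ES.G2 Fermat.Agent.STB
  Fermat.Agent.RIB.MP ExtCitation

/-! ### A relation stable under a commuting family is stable under Hecke polynomials -/

section Generic

variable {J J' : Type} [AddCommGroup J] [AddCommGroup J']

theorem tresalg_rel_zsmul (R : J → J' → Prop) (h0 : R 0 0)
    (hadd : ∀ x x' y y', R x y → R x' y' → R (x + x') (y + y'))
    (hneg : ∀ x y, R x y → R (-x) (-y)) (n : ℤ) {x : J} {y : J'} (h : R x y) :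
    R (n • x) (n • y) := by
  induction n using Int.induction_on with
  | zero => rw [zero_smul, zero_smul]; exact h0
  | succ k ih =>
    rw [add_smul, add_smul, one_smul, one_smul]
    exact hadd _ _ _ _ ih h
  | pred k ih =>
    rw [sub_smul, sub_smul, one_smul, one_smul, sub_eq_add_neg, sub_eq_add_neg]
    exact hadd _ _ _ _ ih (hneg _ _ h)

theorem tresalg_tfEval_rel {T : Nat.Primes → Module.End ℤ J}
    {T' : Nat.Primes → Module.End ℤ J'} (h : TfComm T) (h' : TfComm T')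
    (R : J → J' → Prop) (h0 : R 0 0)
    (hadd : ∀ x x' y y', R x y → R x' y' → R (x + x') (y + y'))
    (hneg : ∀ x y, R x y → R (-x) (-y))
    (G : Set Nat.Primes) (hT : ∀ ℓ ∈ G, ∀ x y, R x y → R (T ℓ x) (T' ℓ y))
    (t : HeckeAlg) (ht : t ∈ MvPolynomial.supported ℤ G) (x : J) (y : J') (hxy : R x y) :
    R (tfEval h t x) (tfEval h' t y) := by
  rw [MvPolynomial.supported_eq_adjoin_X] at ht
  induction ht using Algebra.adjoin_induction generalizing x y with
  | mem t ht =>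
    obtain ⟨ℓ, hℓ, rfl⟩ := ht
    rw [tfEval_X, tfEval_X]
    exact hT ℓ hℓ x y hxy
  | algebraMap r =>
    rw [MvPolynomial.algebraMap_eq, tfEval_C, tfEval_C, Module.End.intCast_apply,
      Module.End.intCast_apply]
    exact tresalg_rel_zsmul R h0 hadd hneg r hxy
  | add s t _ _ hs ht =>
    rw [map_add, map_add, LinearMap.add_apply, LinearMap.add_apply]
    exact hadd _ _ _ _ (hs x y hxy) (ht x y hxy)
  | mul s t _ _ hs ht =>
    rw [map_mul, map_mul, Module.End.mul_apply, Module.End.mul_apply]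
    exact hs _ _ (ht x y hxy)

theorem tresalg_eq_smul_of_coprime {G : Type*} [AddCommGroup G] {p : ℕ} (hp : p.Prime) {k : ℤ}
    (hk : ¬ (p : ℤ) ∣ k) {x : G} (hx : p • x = 0) : ∃ a : ℤ, x = a • (k • x) := by
  have hcop : IsCoprime k (p : ℤ) := by
    rw [isCoprime_comm]
    exact (Nat.prime_iff_prime_int.1 hp).coprime_iff_not_dvd.2 hk
  obtain ⟨a, b, hab⟩ := hcop
  have hx' : (p : ℤ) • x = 0 := by
    rw [natCast_zsmul]; exact hx
  refine ⟨a, ?_⟩
  calc x = (1 : ℤ) • x := (one_smul _ _).symm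
    _ = (a * k + b * p) • x := by rw [hab]
    _ = a • k • x + b • (p : ℤ) • x := by rw [add_smul, mul_smul, mul_smul]
    _ = a • (k • x) := by rw [hx', smul_zero, add_zero]

end Generic

/-! ### `RedInf` and `TrivInf` -/

section RedInf

variable {M₁ q : ℕ} [NeZero M₁] [NeZero q] [NeZero (M₁ * q)] {A : ValuationSubring Qb} {m : ℕ}

theorem tresalg_redInf_zero : RedInf A m (0 : JZero (M₁ * q)) (0 : JZero M₁) := by
  refine ⟨1, 1, KummerRel.zero, KummerRel.zero, ?_⟩
  rw [map_one, div_one]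
  exact GaussConst.one

theorem tresalg_redInf_add {x x' : JZero (M₁ * q)} {y y' : JZero M₁} (h : RedInf A m x y)
    (h' : RedInf A m x' y') : RedInf A m (x + x') (y + y') := by
  obtain ⟨u, v, hu, hv, hG⟩ := h
  obtain ⟨u', v', hu', hv', hG'⟩ := h'
  refine ⟨u * u', v * v', hu.add hu', hv.add hv', ?_⟩
  rw [map_mul, mul_div_mul_comm]
  exact hG.mul hG'

theorem tresalg_redInf_neg {x : JZero (M₁ * q)} {y : JZero M₁} (h : RedInf A m x y) :
    RedInf A m (-x) (-y) := by
  obtain ⟨u, v, hu, hv, hG⟩ := h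
  refine ⟨u⁻¹, v⁻¹, hu.neg, hv.neg, ?_⟩
  rw [map_inv₀, inv_div_inv]
  have h1 : heckeAlphaBar Qb M₁ q v / u = (u / heckeAlphaBar Qb M₁ q v)⁻¹ := (inv_div _ _).symm
  rw [h1]
  exact hG.inv

/-- a class with the same reduction as `0` is trivial at `v_∞` -/
theorem tresalg_trivInf_of_redInf_zero (hm : m ≠ 0) {x : JZero (M₁ * q)}
    (h : RedInf A m x (0 : JZero M₁)) : TrivInf A m x := by
  obtain ⟨u, v, hu, hv, hG⟩ := h
  obtain ⟨k, c, hk, hc0, hc, he⟩ := (KummerRel.zero (n := m)).exists_eq_mul_pow hv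
  obtain ⟨c₀, rfl⟩ := mu_exists_const_of_ord_eq_zero c hc
  have hc₀ : c₀ ≠ 0 := by
    rintro rfl
    exact hc0 (map_zero _)
  have hαv : heckeAlphaBar Qb M₁ q v =
      algebraMap Qb (modularFunctionFieldBar (M₁ * q)) c₀ * heckeAlphaBar Qb M₁ q k ^ m := by
    rw [he, mul_one, map_mul, map_pow, AlgHom.commutes]
  have hαk : heckeAlphaBar Qb M₁ q k ≠ 0 :=
    (map_ne_zero_iff _ (heckeAlphaBar Qb M₁ q).toRingHom.injective).mpr hk
  have hαv0 : heckeAlphaBar Qb M₁ q v ≠ 0 := hG.ne_zero ∘ fun h0 => by rw [h0, div_zero]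
  refine ⟨u / heckeAlphaBar Qb M₁ q v, ?_, hG⟩
  refine ribmp_desc_kummerRel_of_eq hm hu hc₀ hαk (div_ne_zero hu.ne_zero hαv0) ?_
  rw [← hαv, mul_div_cancel₀ _ hαv0]

end RedInf

section TrivInf

variable {M₁ q : ℕ} [NeZero M₁] [NeZero q] [NeZero (M₁ * q)] {A : ValuationSubring Qb} {m : ℕ}

theorem tresalg_trivInf_zero : TrivInf A m (0 : JZero (M₁ * q)) :=
  ⟨1, KummerRel.zero, GaussConst.one⟩

theorem tresalg_trivInf_add {x x' : JZero (M₁ * q)} (h : TrivInf A m x) (h' : TrivInf A m x') :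
    TrivInf A m (x + x') := by
  obtain ⟨u, hu, hG⟩ := h
  obtain ⟨u', hu', hG'⟩ := h'
  exact ⟨u * u', hu.add hu', hG.mul hG'⟩

theorem tresalg_trivInf_neg {x : JZero (M₁ * q)} (h : TrivInf A m x) : TrivInf A m (-x) := by
  obtain ⟨u, hu, hG⟩ := h
  exact ⟨u⁻¹, hu.neg, hG.inv⟩

theorem tresalg_trivInf_zsmul (n : ℤ) {x : JZero (M₁ * q)} (h : TrivInf A m x) :
    TrivInf A m (n • x) := by
  have := tresalg_rel_zsmul (J := JZero (M₁ * q)) (J' := JZero (M₁ * q))
    (fun a _ => TrivInf A m a) tresalg_trivInf_zero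
    (fun _ _ _ _ h1 h2 => tresalg_trivInf_add h1 h2) (fun _ _ h1 => tresalg_trivInf_neg h1)
    n (x := x) (y := x) h
  exact this

/-- `k x` trivial at `v_∞`, `p ∤ k`, `p x = 0`  ⇒  `x` trivial at `v_∞` -/
theorem tresalg_trivInf_of_zsmul {p : ℕ} (hp : p.Prime) {k : ℤ} (hk : ¬ (p : ℤ) ∣ k)
    {x : JZero (M₁ * q)} (hx : p • x = 0) (h : TrivInf A m (k • x)) : TrivInf A m x := by
  obtain ⟨a, e⟩ := tresalg_eq_smul_of_coprime hp hk hx
  have := tresalg_trivInf_zsmul a h
  rwa [← e] at this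

end TrivInf

/-! ### The theorems -/

/-- **TRES-ALG, first half**: `TrivInf` from (TRES-RED). -/
theorem stmtTresTriv_of_red (hRed : StmtTresRed) (hDiv : StmtTorsDivMP) : StmtTresTriv := by
  intro M p _ _ hpF h5 hpM
  letI := pDivGalois (M * p) p
  letI := pDivModule (M * p) p
  intro A hA x hx hα hβ t₀ ht₀ hK n₀ hn₀ hpn₀ ℓ₁ hℓ₁ n₁ hn₁ hpn₁ hpeu hline
  have hp : p.Prime := hpF.out
  -- translation to `JZero`
  have hx' : p • (x : JZero (M * p)) = 0 := by
    have := congrArg Subtype.val hx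
    simpa using this
  have hα' : stbPushAlpha M p (x : JZero (M * p)) = 0 := by
    have := congrArg Subtype.val hα
    rwa [stbPushAlphaP_coe] at this
  have hβ' : stbPushBeta M p (x : JZero (M * p)) = 0 := by
    have := congrArg Subtype.val hβ
    rwa [stbPushBetaP_coe] at this
  have hpeu' : PeuFixed A p (x : JZero (M * p)) := by
    intro σ hσ
    have := congrArg Subtype.val (hpeu σ hσ)
    rwa [pDivGalois_coe] at this
  have hline' : InertiaLine A (x : JZero (M * p)) := by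
    obtain ⟨z₀, hz⟩ := hline
    refine ⟨(z₀ : JZero (M * p)), fun σ hσ => ?_⟩
    obtain ⟨k, hk⟩ := hz σ hσ
    refine ⟨k, ?_⟩
    have := congrArg Subtype.val hk
    simpa [pDivGalois_coe] using this
  have hℓ₁' : ¬ ((ℓ₁ : Nat.Primes) : ℕ) ∣ M * p * p := hℓ₁
  have hcomm := stb_tfComm (p := p) (M * p) hp
  have hcommM := stb_tfComm (p := p) M hp
  -- the eigenvalue of `T_ℓ₁`
  have hT : heckeOperatorBar (M * p) ℓ₁ (x : JZero (M * p)) = n₁ • (x : JZero (M * p)) := by
    have h1 : (heckeGen ℓ₁ • x : PDiv (M * p) p) = pDivOp (M * p) p ℓ₁ x :=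
      tfModule_heckeGen_smul hcomm ℓ₁ x
    have h2 := congrArg Subtype.val (h1.symm.trans hn₁)
    rw [pDivOp_of_good hℓ₁'] at h2
    rw [h2]
    exact AddSubgroup.coe_zsmul _ _ _
  -- step 2: TRES-RED
  obtain ⟨y, hy, hred⟩ := hRed M p hp hpM h5 A hA (x : JZero (M * p)) hx' hα' hβ' hpeu' hline' ℓ₁ hℓ₁'
  set c₁ : ℤ := n₁ - (((ℓ₁ : Nat.Primes) : ℕ) + 1) with hc₁
  have heis : eisKill ℓ₁ (x : JZero (M * p)) = ((c₁ • x : PDiv (M * p) p) : JZero (M * p)) := by
    rw [eisKill, hT, AddSubgroup.coe_zsmul, hc₁, sub_smul]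
    congr 1
  have hyD : y ∈ pDivTors p (JZero M) := hDiv M p hp h5 y ⟨1, by rw [pow_one]; exact hy⟩
  rw [heis] at hred
  -- step 3: Hecke polynomials
  have hpoly := tresalg_tfEval_rel hcomm hcommM
    (fun (a : PDiv (M * p) p) (b : PDiv M p) => RedInf A p (a : JZero (M * p)) (b : JZero M))
    tresalg_redInf_zero
    (fun a a' b b' h1 h2 => by
      show RedInf A p ((a + a' : PDiv (M * p) p) : JZero (M * p)) ((b + b' : PDiv M p) : JZero M)
      rw [AddSubgroup.coe_add, AddSubgroup.coe_add]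
      exact tresalg_redInf_add h1 h2)
    (fun a b h1 => by
      show RedInf A p ((-a : PDiv (M * p) p) : JZero (M * p)) ((-b : PDiv M p) : JZero M)
      rw [AddSubgroup.coe_neg, AddSubgroup.coe_neg]
      exact tresalg_redInf_neg h1)
    (goodPrimes (M * p) p)
    (fun ℓ hℓ a b h1 => by
      show RedInf A p ((pDivOp (M * p) p ℓ a : PDiv (M * p) p) : JZero (M * p))
        ((pDivOp M p ℓ b : PDiv M p) : JZero M)
      rw [pDivOp_of_good hℓ, pDivOp_of_good (stb_good_of_good hℓ)]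
      exact ribmp_hk_redInf A p ℓ (stb_not_dvd_of_good hℓ) h1)
    t₀ ht₀ (c₁ • x) ⟨y, hyD⟩ hred
  have hold : tfEval hcommM t₀ (⟨y, hyD⟩ : PDiv M p) = 0 := by
    rw [← stb_pDiv_smul_def M hp]
    exact r38pkg_oldF M p t₀ ht₀ hK ⟨y, hyD⟩
  have hnew : tfEval hcomm t₀ (c₁ • x) = (c₁ * n₀) • x := by
    rw [map_zsmul, ← stb_pDiv_smul_def (M * p) hp, hn₀, mul_smul]
  rw [hold, hnew] at hpoly
  have htriv0 : TrivInf A p (((c₁ * n₀) • x : PDiv (M * p) p) : JZero (M * p)) :=
    tresalg_trivInf_of_redInf_zero hp.ne_zero hpoly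
  rw [AddSubgroup.coe_zsmul] at htriv0
  have hcn : ¬ (p : ℤ) ∣ c₁ * n₀ := by
    intro h
    rcases (Nat.prime_iff_prime_int.1 hp).dvd_or_dvd h with h1 | h1
    · exact hpn₁ h1
    · exact hpn₀ h1
  exact tresalg_trivInf_of_zsmul hp hcn hx' htriv0

/-- **TRES-ALG, second half**: the clause `StmtTresP5` from `TrivInf` and (TRES-T0). -/
theorem stmtTresP5_of_triv (hTriv : StmtTresTriv) (hT0 : StmtTresT0) : StmtTresP5 := by
  intro M p _ _ hpF h5 hpM
  letI := pDivGalois (M * p) p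
  letI := pDivModule (M * p) p
  intro A hA x hx hα hβ t₀ ht₀ hK n₀ hn₀ hpn₀ ℓ₁ hℓ₁ n₁ hn₁ hpn₁ hpeu hline τ hτ
  have hp2 : p ≠ 2 := by omega
  have hx' : p • (x : JZero (M * p)) = 0 := by
    have := congrArg Subtype.val hx
    simpa using this
  have hα' : stbPushAlpha M p (x : JZero (M * p)) = 0 := by
    have := congrArg Subtype.val hα
    rwa [stbPushAlphaP_coe] at this
  have hβ' : stbPushBeta M p (x : JZero (M * p)) = 0 := by
    have := congrArg Subtype.val hβ
    rwa [stbPushBetaP_coe] at this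
  have htriv : TrivInf A p (x : JZero (M * p)) :=
    hTriv M p h5 hpM A hA x hx hα hβ t₀ ht₀ hK n₀ hn₀ hpn₀ ℓ₁ hℓ₁ n₁ hn₁ hpn₁ hpeu hline
  have key := hT0 M p hp2 hpM A hA (x : JZero (M * p)) hx' hα' hβ' htriv τ hτ
  apply Subtype.ext
  rw [pDivGalois_coe, key]
  exact (AddSubgroup.coe_nsmul _ _ _).symm

/-- **TRES-ALG.** -/
theorem stmtTresP5Of : StmtTresP5Of := fun hRed hT0 hDiv =>
  stmtTresP5_of_triv (stmtTresTriv_of_red hRed hDiv) hT0

end Fermat.Agent.R38

end


end ZBINJ_034_8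

/-! ### bundled: `Fermat.Agent.INJ.NormalLocal` -/
section ZBINJ_034_9

/-!
# (INJ) piece NORM, N1: closed fibre reduced ⇒ `C / π` is normal at `m`

Setting of `DiscLocal.lean`: `R` Noetherian, `R / π` a principal ideal ring, `C` a finite
`R`-algebra, torsion-free modulo `π`, `n ∋ π` a maximal ideal of `R` with reduced closed fibre
`C / n C`, `m ⊇ n C` a maximal ideal of `C`.

* `exists_localFibre` : the local ring `T = (C / π)_m`, packaged: a Noetherian local domain whose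
  maximal ideal is generated by the image of an element `γ₀ ∈ m` which comes from `R`
  (so `T` is a field or a discrete valuation ring), with the map `ι : C → T`.
* `localFibre_principal` : `∀ x ∈ m, ∃ u ∉ m, ∃ a b, u * x = π * a + γ₀ * b`  (`m = (π, γ₀)` locally).
* `normalAt_of_closedFibre_reduced` : `NormalAt C π m`.
-/

set_option autoImplicit false
set_option linter.style.haveILetI false

namespace Fermat.Agent.INJ.Norm

open Polynomial Fermat.Agent.INJ

universe v w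

section Main

variable {R : Type w} {C : Type v} [CommRing R] [CommRing C] [Algebra R C] [Module.Finite R C]

/-- **The local ring of the special fibre at `m`**, packaged. -/
theorem exists_localFibre [IsNoetherianRing R]
    {π : R} [IsPrincipalIdealRing (R ⧸ Ideal.span {π})]
    (htf : ∀ f : R, ¬ π ∣ f → ∀ x : C, algebraMap R C π ∣ f • x → algebraMap R C π ∣ x)
    (n : Ideal R) [n.IsMaximal] (hπn : π ∈ n)
    (hred : ∀ x : C, x ^ 2 ∈ n.map (algebraMap R C) → x ∈ n.map (algebraMap R C))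
    (m : Ideal C) [m.IsMaximal] (hm : n.map (algebraMap R C) ≤ m) :
    ∃ (T : Type v) (_ : CommRing T) (_ : IsLocalRing T) (_ : IsNoetherianRing T) (_ : IsDomain T)
      (ι : C →+* T),
      (∀ u : C, u ∉ m → IsUnit (ι u)) ∧
      (∀ x : C, ι x = 0 ↔ ∃ u : C, u ∉ m ∧ algebraMap R C π ∣ u * x) ∧
      (∀ z : T, ∃ (x s : C), s ∉ m ∧ z * ι s = ι x) ∧
      (∀ x : C, ι x ∈ IsLocalRing.maximalIdeal T ↔ x ∈ m) ∧
      ∃ g : R, g ∈ n ∧ IsLocalRing.maximalIdeal T = Ideal.span {ι (algebraMap R C g)} := by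
  -- Step 1: `n = (π, g)`
  have hπle : Ideal.span {π} ≤ n := (Ideal.span_singleton_le_iff_mem _).mpr hπn
  obtain ⟨g, hgn, hg⟩ : ∃ g : R, g ∈ n ∧ ∀ x ∈ n, ∃ a b : R, x = π * a + g * b := by
    have hprinc : (n.map (Ideal.Quotient.mk (Ideal.span {π}))).IsPrincipal :=
      IsPrincipalIdealRing.principal _
    obtain ⟨G, hG⟩ := hprinc
    obtain ⟨g, rfl⟩ := Ideal.Quotient.mk_surjective G
    have hgn : g ∈ n := by
      apply (mem_map_mk_iff (Ideal.span {π}) n hπle g).mp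
      rw [hG]
      exact Submodule.mem_span_singleton_self _
    refine ⟨g, hgn, fun x hx => ?_⟩
    have hx' : Ideal.Quotient.mk (Ideal.span {π}) x ∈
        n.map (Ideal.Quotient.mk (Ideal.span {π})) := Ideal.mem_map_of_mem _ hx
    rw [hG, Submodule.mem_span_singleton] at hx'
    obtain ⟨B, hB⟩ := hx'
    obtain ⟨b, rfl⟩ := Ideal.Quotient.mk_surjective B
    rw [smul_eq_mul, ← map_mul] at hB
    have h1 : x - b * g ∈ Ideal.span {π} := Ideal.Quotient.eq.mp hB.symm
    obtain ⟨a, ha⟩ := Ideal.mem_span_singleton.mp h1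
    exact ⟨a, b, by rw [← ha]; ring⟩
  set ϖ : C := algebraMap R C π with hϖ
  set γ₀ : C := algebraMap R C g with hγ₀
  have hϖm : ϖ ∈ m := hm (Ideal.mem_map_of_mem _ hπn)
  have hγ₀m : γ₀ ∈ m := hm (Ideal.mem_map_of_mem _ hgn)
  have hϖle : Ideal.span {ϖ} ≤ m := (Ideal.span_singleton_le_iff_mem _).mpr hϖm
  -- Step 2: `n C = (ϖ, γ₀)`
  have hnC : ∀ z ∈ n.map (algebraMap R C), ∃ c₁ c₂ : C, z = ϖ * c₁ + γ₀ * c₂ := by
    intro z hz
    refine Submodule.span_induction (p := fun z _ => ∃ c₁ c₂ : C, z = ϖ * c₁ + γ₀ * c₂)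
      ?_ ?_ ?_ ?_ hz
    · rintro _ ⟨x, hx, rfl⟩
      obtain ⟨a, b, rfl⟩ := hg x hx
      exact ⟨algebraMap R C a, algebraMap R C b, by simp [hϖ, hγ₀]⟩
    · exact ⟨0, 0, by simp⟩
    · rintro _ _ _ _ ⟨a₁, a₂, rfl⟩ ⟨b₁, b₂, rfl⟩
      exact ⟨a₁ + b₁, a₂ + b₂, by ring⟩
    · rintro c _ _ ⟨a₁, a₂, rfl⟩
      exact ⟨c * a₁, c * a₂, by rw [smul_eq_mul]; ring⟩
  -- Step 3: the local ring `T = (C / ϖ)_m`
  haveI : IsNoetherianRing C := IsNoetherianRing.of_finite R C
  haveI hmax : (m.map (Ideal.Quotient.mk (Ideal.span {ϖ}))).IsMaximal :=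
    isMaximal_map_mk _ m hϖle
  let T := Localization.AtPrime (m.map (Ideal.Quotient.mk (Ideal.span {ϖ})))
  haveI hTN : IsNoetherianRing T :=
    IsLocalization.isNoetherianRing (m.map (Ideal.Quotient.mk (Ideal.span {ϖ}))).primeCompl T
      inferInstance
  let ι : C →+* T := (algebraMap (C ⧸ Ideal.span {ϖ}) T).comp (Ideal.Quotient.mk (Ideal.span {ϖ}))
  have hιunit : ∀ u : C, u ∉ m → IsUnit (ι u) := by
    intro u hu
    exact IsLocalization.map_units T
      (⟨Ideal.Quotient.mk (Ideal.span {ϖ}) u, fun h => hu ((mem_map_mk_iff _ m hϖle u).mp h)⟩ :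
        (m.map (Ideal.Quotient.mk (Ideal.span {ϖ}))).primeCompl)
  have hιzero : ∀ x : C, ι x = 0 ↔ ∃ u : C, u ∉ m ∧ ϖ ∣ u * x := by
    intro x
    show algebraMap (C ⧸ Ideal.span {ϖ}) T (Ideal.Quotient.mk (Ideal.span {ϖ}) x) = 0 ↔ _
    rw [IsLocalization.map_eq_zero_iff (m.map (Ideal.Quotient.mk (Ideal.span {ϖ}))).primeCompl]
    constructor
    · rintro ⟨⟨U, hU⟩, hUx⟩
      obtain ⟨u, rfl⟩ := Ideal.Quotient.mk_surjective U
      refine ⟨u, fun hu => hU ((mem_map_mk_iff _ m hϖle u).mpr hu), ?_⟩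
      rw [← Ideal.mem_span_singleton, ← Ideal.Quotient.eq_zero_iff_mem, map_mul]
      exact hUx
    · rintro ⟨u, hu, hux⟩
      refine ⟨⟨Ideal.Quotient.mk _ u, fun h => hu ((mem_map_mk_iff _ m hϖle u).mp h)⟩, ?_⟩
      show Ideal.Quotient.mk (Ideal.span {ϖ}) u * Ideal.Quotient.mk (Ideal.span {ϖ}) x = 0
      rw [← map_mul, Ideal.Quotient.eq_zero_iff_mem, Ideal.mem_span_singleton]
      exact hux
  have hιsurj : ∀ z : T, ∃ (x s : C), s ∉ m ∧ z * ι s = ι x := by
    intro z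
    obtain ⟨X, ⟨S, hS⟩, rfl⟩ :=
      IsLocalization.exists_mk'_eq (m.map (Ideal.Quotient.mk (Ideal.span {ϖ}))).primeCompl z
    obtain ⟨x, rfl⟩ := Ideal.Quotient.mk_surjective X
    obtain ⟨s, rfl⟩ := Ideal.Quotient.mk_surjective S
    refine ⟨x, s, fun hs => hS ((mem_map_mk_iff _ m hϖle s).mpr hs), ?_⟩
    exact IsLocalization.mk'_spec T _ _
  have hιmem : ∀ x : C, ι x ∈ IsLocalRing.maximalIdeal T ↔ x ∈ m := by
    intro x
    show algebraMap (C ⧸ Ideal.span {ϖ}) T (Ideal.Quotient.mk (Ideal.span {ϖ}) x) ∈ _ ↔ _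
    rw [IsLocalization.AtPrime.to_map_mem_maximal_iff T
      (m.map (Ideal.Quotient.mk (Ideal.span {ϖ})))]
    exact mem_map_mk_iff _ m hϖle x
  have hιϖ : ι ϖ = 0 := by
    show algebraMap (C ⧸ Ideal.span {ϖ}) T (Ideal.Quotient.mk (Ideal.span {ϖ}) ϖ) = 0
    rw [Ideal.Quotient.eq_zero_iff_mem.mpr (Ideal.mem_span_singleton_self ϖ), map_zero]
  -- Step 4: the maximal ideal of `T` is generated by `γ = ι γ₀`
  have hγ : IsLocalRing.maximalIdeal T = Ideal.span {ι γ₀} := by
    apply le_antisymm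
    · intro z hz
      obtain ⟨x, s, hs, hzs⟩ := hιsurj z
      have hxm : x ∈ m := by
        rw [← hιmem, ← hzs]
        exact Ideal.mul_mem_right _ _ hz
      obtain ⟨u, hu, hux⟩ := exists_notMem_mul_mem_of_reduced n hred m hm x hxm
      obtain ⟨c₁, c₂, hc⟩ := hnC _ hux
      rw [Ideal.mem_span_singleton]
      have h1 : ι γ₀ ∣ z * (ι s * ι u) := by
        refine ⟨ι c₂, ?_⟩
        calc z * (ι s * ι u) = ι (u * x) := by rw [← mul_assoc, hzs, map_mul]; ring
          _ = ι γ₀ * ι c₂ := by rw [hc, map_add, map_mul, map_mul, hιϖ]; ring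
      exact (IsUnit.dvd_mul_right ((hιunit s hs).mul (hιunit u hu))).mp h1
    · rw [Ideal.span_singleton_le_iff_mem, hιmem]
      exact hγ₀m
  -- Step 5: `T` is a domain
  have hdom : IsDomain T := by
    by_cases hπg : π ∣ g
    · -- degenerate case: `n = (π)`, `T` is a field
      have h0 : ι γ₀ = 0 := by
        obtain ⟨a, ha⟩ := hπg
        have : γ₀ = ϖ * algebraMap R C a := by rw [hγ₀, hϖ, ha, map_mul]
        rw [this, map_mul, hιϖ, zero_mul]
      rw [h0, Ideal.span_singleton_eq_bot.mpr rfl] at hγ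
      exact (IsLocalRing.isField_iff_maximalIdeal_eq.mpr hγ).isDomain
    · apply isDomain_of_maximalIdeal_eq_span_of_regular (ι γ₀) hγ
      intro z hz
      obtain ⟨x, s, hs, hzs⟩ := hιsurj z
      have h1 : ι (γ₀ * x) = 0 := by
        rw [map_mul, ← hzs, ← mul_assoc, hz, zero_mul]
      obtain ⟨u, hu, hux⟩ := (hιzero _).mp h1
      have h2 : ϖ ∣ g • (u * x) := by
        rw [Algebra.smul_def]
        have : algebraMap R C g * (u * x) = u * (γ₀ * x) := by rw [hγ₀]; ring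
        rw [this]; exact hux
      have h3 : ϖ ∣ u * x := htf g hπg _ h2
      have h4 : ι x = 0 := (hιzero x).mpr ⟨u, hu, h3⟩
      have h5 : z * ι s = 0 := by rw [hzs, h4]
      exact (IsUnit.mul_left_eq_zero (hιunit s hs)).mp h5
  exact ⟨T, inferInstance, inferInstance, hTN, hdom, ι, hιunit, hιzero, hιsurj, hιmem,
    g, hgn, hγ⟩

/-- **`m = (π, g)` locally at `m`** (the special fibre is regular of dimension `≤ 1` at `m`):
the element form of "`(C / π)_m` is a field or a discrete valuation ring with uniformizer `g`". -/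
theorem localFibre_principal [IsNoetherianRing R]
    {π : R} [IsPrincipalIdealRing (R ⧸ Ideal.span {π})]
    (htf : ∀ f : R, ¬ π ∣ f → ∀ x : C, algebraMap R C π ∣ f • x → algebraMap R C π ∣ x)
    (n : Ideal R) [n.IsMaximal] (hπn : π ∈ n)
    (hred : ∀ x : C, x ^ 2 ∈ n.map (algebraMap R C) → x ∈ n.map (algebraMap R C))
    (m : Ideal C) [m.IsMaximal] (hm : n.map (algebraMap R C) ≤ m) :
    ∃ g : R, g ∈ n ∧ ∀ x ∈ m, ∃ u : C, u ∉ m ∧ ∃ a b : C,
      u * x = algebraMap R C π * a + algebraMap R C g * b := by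
  obtain ⟨T, _, _, _, _, ι, hιunit, hιzero, hιsurj, hιmem, g, hgn, hγ⟩ :=
    exists_localFibre htf n hπn hred m hm
  refine ⟨g, hgn, fun x hx => ?_⟩
  have h1 : ι x ∈ Ideal.span {ι (algebraMap R C g)} := by rw [← hγ]; exact (hιmem x).mpr hx
  obtain ⟨z, hz⟩ := Ideal.mem_span_singleton.mp h1
  obtain ⟨y, s, hs, hzs⟩ := hιsurj z
  have h2 : ι (s * x - algebraMap R C g * y) = 0 := by
    rw [map_sub, map_mul, map_mul, hz, ← hzs]; ring
  obtain ⟨u, hu, a, ha⟩ := (hιzero _).mp h2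
  refine ⟨u * s, fun hus => ?_, a, u * y, ?_⟩
  · rcases (Ideal.IsMaximal.isPrime inferInstance).mem_or_mem hus with h | h
    · exact hu h
    · exact hs h
  · rw [← ha]; ring

/-- **N1.**  Closed fibre reduced `⇒` the special fibre `C / π` is normal at every maximal ideal
of `C` over the closed point `n`. -/
theorem normalAt_of_closedFibre_reduced [IsNoetherianRing R]
    {π : R} [IsPrincipalIdealRing (R ⧸ Ideal.span {π})]
    (htf : ∀ f : R, ¬ π ∣ f → ∀ x : C, algebraMap R C π ∣ f • x → algebraMap R C π ∣ x)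
    (n : Ideal R) [n.IsMaximal] (hπn : π ∈ n)
    (hred : ∀ x : C, x ^ 2 ∈ n.map (algebraMap R C) → x ∈ n.map (algebraMap R C))
    (m : Ideal C) [m.IsMaximal] (hm : n.map (algebraMap R C) ≤ m) :
    NormalAt C (algebraMap R C π) m := by
  obtain ⟨T, _, _, _, _, ι, hιunit, hιzero, hιsurj, hιmem, g, hgn, hγ⟩ :=
    exists_localFibre htf n hπn hred m hm
  have hmprime : m.IsPrime := Ideal.IsMaximal.isPrime inferInstance
  -- `T` is integrally closed
  have hprinc : (IsLocalRing.maximalIdeal T).IsPrincipal := ⟨⟨ι (algebraMap R C g), hγ⟩⟩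
  have hic : IsIntegrallyClosed T := by
    have h43 : (IsLocalRing.maximalIdeal T).IsPrincipal →
        (IsIntegrallyClosed T ∧
          ∀ P : Ideal T, P ≠ ⊥ → P.IsPrime → P = IsLocalRing.maximalIdeal T) :=
      ((tfae_of_isNoetherianRing_of_isLocalRing_of_isDomain (R := T)).out 4 3).mp
    exact (h43 hprinc).1
  intro a b k c hrel
  have hrelT : homRel (ι a) (ι b) k (fun i => ι (c i)) = 0 := by
    rw [← map_homRel]
    exact (hιzero _).mpr ⟨1, fun h1 => (Ideal.IsMaximal.ne_top inferInstance)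
      ((Ideal.eq_top_iff_one m).mpr h1), by rw [one_mul]; exact hrel⟩
  by_cases hb : ι b = 0
  · -- `b` vanishes at `m`: then so does `a`
    have hsum : ∑ i ∈ Finset.range k, ι (c i) * ι a ^ i * ι b ^ (k - i) = 0 := by
      refine Finset.sum_eq_zero fun i hi => ?_
      have hi' : i < k := Finset.mem_range.mp hi
      rw [hb, zero_pow (by omega), mul_zero]
    rw [homRel_def, hsum, add_zero] at hrelT
    have ha : ι a = 0 := eq_zero_of_pow_eq_zero hrelT
    obtain ⟨u, hu, hua⟩ := (hιzero a).mp ha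
    exact ⟨u, hu, 0, by rw [mul_zero, sub_zero]; exact hua⟩
  · set K := FractionRing T
    have hinj : Function.Injective (algebraMap T K) := IsFractionRing.injective _ _
    have hb0 : algebraMap T K (ι b) ≠ 0 := (map_ne_zero_iff _ hinj).mpr hb
    let f : T[X] := X ^ k + ∑ i : Fin k, Polynomial.C (ι (c i)) * X ^ (i : ℕ)
    have hf : f.Monic := monic_X_pow_add (degree_sum_fin_lt _)
    have hint : IsIntegral T (algebraMap T K (ι a) / algebraMap T K (ι b)) := by
      refine ⟨f, hf, ?_⟩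
      have h1 : eval₂ (algebraMap T K) (algebraMap T K (ι a) / algebraMap T K (ι b)) f
          * algebraMap T K (ι b) ^ k = 0 := by
        have h0 : algebraMap T K (homRel (ι a) (ι b) k (fun i => ι (c i))) = 0 := by
          rw [hrelT, map_zero]
        rw [← h0, map_homRel, homRel_def]
        simp only [f, eval₂_add, eval₂_pow, eval₂_X, eval₂_finsetSum, eval₂_mul, eval₂_C]
        rw [add_mul, div_pow, div_mul_cancel₀ _ (pow_ne_zero _ hb0), Finset.sum_mul,
          Finset.sum_range]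
        congr 1
        refine Finset.sum_congr rfl fun i _ => ?_
        have : algebraMap T K (ι b) ^ k
            = algebraMap T K (ι b) ^ (i : ℕ) * algebraMap T K (ι b) ^ (k - (i : ℕ)) := by
          rw [← pow_add]; congr 1; have := i.2; omega
        rw [this, div_pow, mul_assoc,
          ← mul_assoc (algebraMap T K (ι a) ^ (i : ℕ) / algebraMap T K (ι b) ^ (i : ℕ)),
          div_mul_cancel₀ _ (pow_ne_zero _ hb0), mul_assoc]
      exact (mul_eq_zero.mp h1).resolve_right (pow_ne_zero _ hb0)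
    obtain ⟨z, hz⟩ := (isIntegrallyClosed_iff K).mp hic hint
    have hzab : ι a = ι b * z := by
      apply hinj
      rw [map_mul, hz, mul_div_cancel₀ _ hb0]
    obtain ⟨y, s, hs, hzs⟩ := hιsurj z
    have h2 : ι (s * a - b * y) = 0 := by
      rw [map_sub, map_mul, map_mul, hzab, ← hzs]; ring
    obtain ⟨u, hu, hdiv⟩ := (hιzero _).mp h2
    refine ⟨u * s, fun hus => ?_, u * y, ?_⟩
    · rcases hmprime.mem_or_mem hus with h | h
      · exact hu h
      · exact hs h
    · have : u * s * a - b * (u * y) = u * (s * a - b * y) := by ring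
      rw [this]; exact hdiv

end Main

end Fermat.Agent.INJ.Norm


end ZBINJ_034_9

/-! ### bundled: `Fermat.Agent.INJ.NormalGood` -/
section ZBINJ_034_10

/-!
# (INJ) piece NORM, N1 for the charts: `NGoodNormalStmt`

`nGood_core` : under the hypotheses of (N-good) (`NGoodStmt`, `TSPlan.lean`) the abstract
hypotheses of `DiscLocal.lean` / `NormalLocal.lean` hold for `R = A₀[τ]`,
`C = integralClosure R Lf`, `n = m ∩ R` (continuation-passing form, so that every local
consequence of "closed fibre reduced" can be drawn from one copy of the set-up).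

* `nGoodNormalStmt : NGoodNormalStmt` — the special fibre is normal at `m`;
* `nGood_principal` — `m = (π, g)` locally at `m`, with `g ∈ A₀[τ]`.
-/

set_option autoImplicit false
set_option linter.style.haveILetI false

namespace Fermat.Agent.INJ.Norm

open Polynomial IntermediateField AlgebraicCurve Fermat.Agent.INJ

universe u

/-- **The set-up of (N-good)**, in continuation-passing form. -/
theorem nGood_core
    {A₀ E Lf : Type u} [CommRing A₀] [IsDomain A₀] [IsDiscreteValuationRing A₀]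
    [Field E] [Algebra A₀ E] [IsFractionRing A₀ E] [CharZero E]
    [Field Lf] [Algebra E Lf] [Algebra A₀ Lf] [IsScalarTower A₀ E Lf]
    (π : A₀) (hπ : Irreducible π) (τ : Lf) (hτ : Transcendental E τ) [FiniteDimensional E⟮τ⟯ Lf]
    (hgb : TSGoodBasis (E := E) π τ)
    (m : Ideal (integralClosure (Algebra.adjoin A₀ {τ}) Lf)) (hmax : m.IsMaximal)
    (hπm : algebraMap A₀ (integralClosure (Algebra.adjoin A₀ {τ}) Lf) π ∈ m)
    (hpl : ∀ (P : Place E Lf) (r : Algebra.adjoin A₀ {τ}), Irreducible r →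
        algebraMap (Algebra.adjoin A₀ {τ}) (integralClosure (Algebra.adjoin A₀ {τ}) Lf) r ∈ m →
        0 < P.ord (r : Lf) → P.ord (r : Lf) = 1)
    (Q : Prop)
    (hQ : Module.Finite ↥(Algebra.adjoin A₀ {τ}) ↥(integralClosure ↥(Algebra.adjoin A₀ {τ}) Lf) →
      IsNoetherianRing ↥(Algebra.adjoin A₀ {τ}) →
      IsPrincipalIdealRing (↥(Algebra.adjoin A₀ {τ}) ⧸
        Ideal.span {algebraMap A₀ ↥(Algebra.adjoin A₀ {τ}) π}) →
      (∀ f : ↥(Algebra.adjoin A₀ {τ}), ¬ algebraMap A₀ ↥(Algebra.adjoin A₀ {τ}) π ∣ f →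
        ∀ x : ↥(integralClosure ↥(Algebra.adjoin A₀ {τ}) Lf),
          algebraMap ↥(Algebra.adjoin A₀ {τ}) ↥(integralClosure ↥(Algebra.adjoin A₀ {τ}) Lf)
            (algebraMap A₀ ↥(Algebra.adjoin A₀ {τ}) π) ∣ f • x →
          algebraMap ↥(Algebra.adjoin A₀ {τ}) ↥(integralClosure ↥(Algebra.adjoin A₀ {τ}) Lf)
            (algebraMap A₀ ↥(Algebra.adjoin A₀ {τ}) π) ∣ x) →
      (m.comap (algebraMap ↥(Algebra.adjoin A₀ {τ})
        ↥(integralClosure ↥(Algebra.adjoin A₀ {τ}) Lf))).IsMaximal →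
      algebraMap A₀ ↥(Algebra.adjoin A₀ {τ}) π ∈
        m.comap (algebraMap ↥(Algebra.adjoin A₀ {τ})
          ↥(integralClosure ↥(Algebra.adjoin A₀ {τ}) Lf)) →
      (∀ x : ↥(integralClosure ↥(Algebra.adjoin A₀ {τ}) Lf),
        x ^ 2 ∈ (m.comap (algebraMap ↥(Algebra.adjoin A₀ {τ})
            ↥(integralClosure ↥(Algebra.adjoin A₀ {τ}) Lf))).map
          (algebraMap ↥(Algebra.adjoin A₀ {τ}) ↥(integralClosure ↥(Algebra.adjoin A₀ {τ}) Lf)) →
        x ∈ (m.comap (algebraMap ↥(Algebra.adjoin A₀ {τ})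
            ↥(integralClosure ↥(Algebra.adjoin A₀ {τ}) Lf))).map
          (algebraMap ↥(Algebra.adjoin A₀ {τ}) ↥(integralClosure ↥(Algebra.adjoin A₀ {τ}) Lf))) →
      algebraMap A₀ ↥(integralClosure ↥(Algebra.adjoin A₀ {τ}) Lf) π =
        algebraMap ↥(Algebra.adjoin A₀ {τ}) ↥(integralClosure ↥(Algebra.adjoin A₀ {τ}) Lf)
          (algebraMap A₀ ↥(Algebra.adjoin A₀ {τ}) π) →
      Q) : Q := by
  haveI := hmax
  -- the base ring `R = A₀[τ]`
  haveI hufm := chart_ufm (A₀ := A₀) (E := E) (τ := τ) hτ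
  haveI hic := chart_isIntegrallyClosed (A₀ := A₀) (E := E) (τ := τ) hτ
  haveI hnoeth := chart_isNoetherianRing (A₀ := A₀) (E := E) (τ := τ) hτ
  have hπR : Prime (algebraMap A₀ ↥(Algebra.adjoin A₀ {τ}) π) := chart_prime hτ hπ
  haveI hpir := chart_quotient_isPrincipalIdealRing (A₀ := A₀) (E := E) (τ := τ) hτ hπ
  -- the fraction field
  letI := FractionRing.liftAlgebra ↥(Algebra.adjoin A₀ {τ}) Lf
  haveI hfd := ChartGB.finiteDimensional_fractionRing (A₀ := A₀) (E := E) τ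
  haveI hsep := ChartGB.isSeparable_fractionRing (A₀ := A₀) (E := E) τ
  haveI hfin : Module.Finite ↥(Algebra.adjoin A₀ {τ})
      ↥(integralClosure ↥(Algebra.adjoin A₀ {τ}) Lf) :=
    IsIntegralClosure.finite ↥(Algebra.adjoin A₀ {τ}) (FractionRing ↥(Algebra.adjoin A₀ {τ})) Lf
      ↥(integralClosure ↥(Algebra.adjoin A₀ {τ}) Lf)
  -- `π` is regular on `C`
  have hπC0 : algebraMap ↥(Algebra.adjoin A₀ {τ}) ↥(integralClosure ↥(Algebra.adjoin A₀ {τ}) Lf)
      (algebraMap A₀ ↥(Algebra.adjoin A₀ {τ}) π) ≠ 0 := by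
    intro h0
    have := FaithfulSMul.algebraMap_injective ↥(Algebra.adjoin A₀ {τ})
      ↥(integralClosure ↥(Algebra.adjoin A₀ {τ}) Lf) (h0.trans (map_zero _).symm)
    exact hπR.ne_zero this
  have hreg : ∀ x : ↥(integralClosure ↥(Algebra.adjoin A₀ {τ}) Lf),
      algebraMap ↥(Algebra.adjoin A₀ {τ}) ↥(integralClosure ↥(Algebra.adjoin A₀ {τ}) Lf)
        (algebraMap A₀ ↥(Algebra.adjoin A₀ {τ}) π) * x = 0 → x = 0 := by
    intro x hx
    rcases mul_eq_zero.mp hx with h | h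
    · exact absurd h hπC0
    · exact h
  -- A1
  have htf : ∀ f : ↥(Algebra.adjoin A₀ {τ}), ¬ algebraMap A₀ ↥(Algebra.adjoin A₀ {τ}) π ∣ f →
      ∀ x : ↥(integralClosure ↥(Algebra.adjoin A₀ {τ}) Lf),
        algebraMap ↥(Algebra.adjoin A₀ {τ}) ↥(integralClosure ↥(Algebra.adjoin A₀ {τ}) Lf)
          (algebraMap A₀ ↥(Algebra.adjoin A₀ {τ}) π) ∣ f • x →
        algebraMap ↥(Algebra.adjoin A₀ {τ}) ↥(integralClosure ↥(Algebra.adjoin A₀ {τ}) Lf)
          (algebraMap A₀ ↥(Algebra.adjoin A₀ {τ}) π) ∣ x :=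
    fun f hf x hx => integralClosure_dvd_of_dvd_smul hπR hf x hx
  -- A2: generic trace form
  haveI hprime : (Ideal.span {algebraMap A₀ ↥(Algebra.adjoin A₀ {τ}) π}).IsPrime :=
    (Ideal.span_singleton_prime hπR.ne_zero).mpr hπR
  obtain ⟨N, b, hb⟩ := ChartGB.exists_goodBasis_of_TSGoodBasis (A₀ := A₀) (E := E) τ hτ π hgb
  have hk := fractionRing_quotient_ker
    (Ideal.span {algebraMap A₀ ↥(Algebra.adjoin A₀ {τ}) π})
  have hgen := Comp.GoodBasis.traceForm_nondegenerate hb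
    (FractionRing (↥(Algebra.adjoin A₀ {τ}) ⧸
      Ideal.span {algebraMap A₀ ↥(Algebra.adjoin A₀ {τ}) π})) hk
  -- the closed point `n = m ∩ R`
  haveI hnmax : (m.comap (algebraMap ↥(Algebra.adjoin A₀ {τ})
      ↥(integralClosure ↥(Algebra.adjoin A₀ {τ}) Lf))).IsMaximal :=
    Ideal.isMaximal_comap_of_isIntegral_of_isMaximal m
  have htower : algebraMap A₀ ↥(integralClosure ↥(Algebra.adjoin A₀ {τ}) Lf) π =
      algebraMap ↥(Algebra.adjoin A₀ {τ}) ↥(integralClosure ↥(Algebra.adjoin A₀ {τ}) Lf)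
        (algebraMap A₀ ↥(Algebra.adjoin A₀ {τ}) π) :=
    IsScalarTower.algebraMap_apply A₀ ↥(Algebra.adjoin A₀ {τ})
      ↥(integralClosure ↥(Algebra.adjoin A₀ {τ}) Lf) π
  have hπn : algebraMap A₀ ↥(Algebra.adjoin A₀ {τ}) π ∈
      m.comap (algebraMap ↥(Algebra.adjoin A₀ {τ})
        ↥(integralClosure ↥(Algebra.adjoin A₀ {τ}) Lf)) := by
    rw [Ideal.mem_comap, ← htower]
    exact hπm
  -- T2: the fibres at the height-one primes through `n`
  have hunr : ∀ f : ↥(Algebra.adjoin A₀ {τ}), Prime f →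
      f ∈ m.comap (algebraMap ↥(Algebra.adjoin A₀ {τ})
        ↥(integralClosure ↥(Algebra.adjoin A₀ {τ}) Lf)) →
      ¬ Associated f (algebraMap A₀ ↥(Algebra.adjoin A₀ {τ}) π) →
      (∀ k : ℕ, k ≠ 0 → ¬ f ∣ (k : ↥(Algebra.adjoin A₀ {τ}))) ∧
      ∀ x : ↥(integralClosure ↥(Algebra.adjoin A₀ {τ}) Lf),
        algebraMap ↥(Algebra.adjoin A₀ {τ}) ↥(integralClosure ↥(Algebra.adjoin A₀ {τ}) Lf) f
          ∣ x ^ 2 →
        ∃ a : ↥(Algebra.adjoin A₀ {τ}), ¬ f ∣ a ∧
          algebraMap ↥(Algebra.adjoin A₀ {τ}) ↥(integralClosure ↥(Algebra.adjoin A₀ {τ}) Lf) f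
            ∣ a • x := by
    intro f hfp hfn hfπ
    exact hunr_of_places hπ τ hτ hπR.irreducible f hfp hfπ
      (fun P _ hpos => hpl P f hfp.irreducible (Ideal.mem_comap.mp hfn) hpos)
  have hred := closedFibre_reduced hπR hreg htf _ hk hgen
    (m.comap (algebraMap ↥(Algebra.adjoin A₀ {τ})
      ↥(integralClosure ↥(Algebra.adjoin A₀ {τ}) Lf))) hπn hunr
  exact hQ hfin hnoeth hpir htf hnmax hπn hred htower

/-- **N1 for the charts.**  `NGoodNormalStmt` holds. -/
theorem nGoodNormalStmt : NGoodNormalStmt.{u} := by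
  intro A₀ E Lf _ _ _ _ _ _ _ _ _ _ _ π hπ τ hτ _ hgb m hmax hπm hpl
  refine nGood_core π hπ τ hτ hgb m hmax hπm hpl _ ?_
  intro hfin hnoeth hpir htf hnmax hπn hred htower
  haveI := hmax
  rw [htower]
  exact normalAt_of_closedFibre_reduced htf _ hπn hred m Ideal.map_comap_le

/-- **`m = (π, g)` locally**, at a point over which `Lf` is unramified: there is `g ∈ A₀[τ]`,
`g ∈ m`, such that every `x ∈ m` satisfies `u x = π a + g b` with `u ∉ m`. -/
theorem nGood_principal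
    {A₀ E Lf : Type u} [CommRing A₀] [IsDomain A₀] [IsDiscreteValuationRing A₀]
    [Field E] [Algebra A₀ E] [IsFractionRing A₀ E] [CharZero E]
    [Field Lf] [Algebra E Lf] [Algebra A₀ Lf] [IsScalarTower A₀ E Lf]
    (π : A₀) (hπ : Irreducible π) (τ : Lf) (hτ : Transcendental E τ) [FiniteDimensional E⟮τ⟯ Lf]
    (hgb : TSGoodBasis (E := E) π τ)
    (m : Ideal (integralClosure (Algebra.adjoin A₀ {τ}) Lf)) (hmax : m.IsMaximal)
    (hπm : algebraMap A₀ (integralClosure (Algebra.adjoin A₀ {τ}) Lf) π ∈ m)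
    (hpl : ∀ (P : Place E Lf) (r : Algebra.adjoin A₀ {τ}), Irreducible r →
        algebraMap (Algebra.adjoin A₀ {τ}) (integralClosure (Algebra.adjoin A₀ {τ}) Lf) r ∈ m →
        0 < P.ord (r : Lf) → P.ord (r : Lf) = 1) :
    ∃ g : ↥(Algebra.adjoin A₀ {τ}),
      algebraMap ↥(Algebra.adjoin A₀ {τ}) ↥(integralClosure ↥(Algebra.adjoin A₀ {τ}) Lf) g ∈ m ∧
      ∀ x ∈ m, ∃ u : ↥(integralClosure ↥(Algebra.adjoin A₀ {τ}) Lf), u ∉ m ∧
        ∃ a b : ↥(integralClosure ↥(Algebra.adjoin A₀ {τ}) Lf),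
          u * x = algebraMap A₀ ↥(integralClosure ↥(Algebra.adjoin A₀ {τ}) Lf) π * a +
            algebraMap ↥(Algebra.adjoin A₀ {τ}) ↥(integralClosure ↥(Algebra.adjoin A₀ {τ}) Lf) g
              * b := by
  refine nGood_core π hπ τ hτ hgb m hmax hπm hpl _ ?_
  intro hfin hnoeth hpir htf hnmax hπn hred htower
  haveI := hmax
  obtain ⟨g, hgn, hg⟩ := localFibre_principal htf _ hπn hred m Ideal.map_comap_le
  refine ⟨g, Ideal.mem_comap.mp hgn, fun x hx => ?_⟩
  obtain ⟨u, hu, a, b, hab⟩ := hg x hx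
  exact ⟨u, hu, a, b, by rw [htower]; exact hab⟩

end Fermat.Agent.INJ.Norm


end ZBINJ_034_10

/-! ### bundled: `Fermat.Agent.INJ.NormalDescent` -/
section ZBINJ_034_11

/-!
# (INJ) piece NORM, N2 (concrete): descent of normality along the Kummer cover `s ^ e = τ - c`

Mirror of `NTameDescent.lean` (`NTame.ntame_descent`) with `NormalAt` in place of `LocDomainAt`,
using `normalAt_under` (`NormalUnder.lean`); the order of the Galois group must be a unit of `A₀`.

* `ntame_descent_normal` — the descent;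
* `nTameNormalDescentStmt : NTameNormalDescentStmt` (statement of `NormalTame.lean`);
* `nTameNormalStmt : NTameNormalStmt` — **(N-tame), normal form, unconditional**.
-/

set_option autoImplicit false
set_option linter.style.haveILetI false

namespace Fermat.Agent.INJ.Norm

open Polynomial Fermat.Agent.INJ

universe u

/-- **N2 (descent).**  `NormalAt C' π m'` for the maximal ideals `m'` of `C'` over `m` implies
`NormalAt C π m`, when the order of the Galois group is a unit of `A₀`. -/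
theorem ntame_descent_normal
    {A₀ E Lf L' : Type u} [CommRing A₀] [IsDomain A₀]
    [Field E] [Algebra A₀ E] [Field Lf] [Algebra E Lf] [Algebra A₀ Lf] [IsScalarTower A₀ E Lf]
    [Field L'] [Algebra E L'] [Algebra Lf L'] [Algebra A₀ L']
    [IsScalarTower E Lf L'] [IsScalarTower A₀ E L'] [IsScalarTower A₀ Lf L']
    [FiniteDimensional Lf L'] [IsGalois Lf L']
    (π : A₀) (τ : Lf) (c : A₀) (e : ℕ) (he : e ≠ 0) (s : L')
    (hs : s ^ e = algebraMap Lf L' (τ - algebraMap A₀ Lf c))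
    (hcard : IsUnit ((Nat.card (L' ≃ₐ[Lf] L') : ℕ) : A₀))
    (m : Ideal (integralClosure (Algebra.adjoin A₀ {τ}) Lf)) (hm : m.IsMaximal)
    (hπm : algebraMap A₀ (integralClosure (Algebra.adjoin A₀ {τ}) Lf) π ∈ m)
    (hloc : ∀ m' : Ideal (integralClosure (Algebra.adjoin A₀ {s}) L'), m'.IsMaximal →
       algebraMap A₀ (integralClosure (Algebra.adjoin A₀ {s}) L') π ∈ m' →
       (∀ (x : integralClosure (Algebra.adjoin A₀ {τ}) Lf)
          (x' : integralClosure (Algebra.adjoin A₀ {s}) L'),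
          (x' : L') = algebraMap Lf L' (x : Lf) → (x' ∈ m' ↔ x ∈ m)) →
       NormalAt (integralClosure (Algebra.adjoin A₀ {s}) L')
         (algebraMap A₀ (integralClosure (Algebra.adjoin A₀ {s}) L') π) m') :
    NormalAt (integralClosure (Algebra.adjoin A₀ {τ}) Lf)
      (algebraMap A₀ (integralClosure (Algebra.adjoin A₀ {τ}) Lf) π) m := by
  classical
  haveI := hm
  -- integrality transfer
  have hint_up : ∀ x : Lf, IsIntegral ↥(Algebra.adjoin A₀ {τ}) x →
      IsIntegral ↥(Algebra.adjoin A₀ {s}) (algebraMap Lf L' x) := fun x hx =>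
    NTame.isIntegral_adjoin_s_of_isIntegral τ c e s hs
      (hx.map (IsScalarTower.toAlgHom ↥(Algebra.adjoin A₀ {τ}) Lf L'))
  have hint_g : ∀ (g : L' ≃ₐ[Lf] L') (x' : L'), IsIntegral ↥(Algebra.adjoin A₀ {s}) x' →
      IsIntegral ↥(Algebra.adjoin A₀ {s}) (g x') := fun g x' hx' =>
    NTame.isIntegral_adjoin_s_of_isIntegral τ c e s hs
      ((NTame.isIntegral_of_isIntegral_adjoin_s τ c e he s hs hx').map
        ((g : L' →ₐ[Lf] L').restrictScalars ↥(Algebra.adjoin A₀ {τ})))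
  -- the inclusion `C → C'`
  let ι : ↥(integralClosure ↥(Algebra.adjoin A₀ {τ}) Lf) →+*
      ↥(integralClosure ↥(Algebra.adjoin A₀ {s}) L') :=
    { toFun := fun x => ⟨algebraMap Lf L' (x : Lf), hint_up _ x.2⟩
      map_one' := Subtype.ext (by simp)
      map_mul' := fun x y => Subtype.ext (by simp)
      map_zero' := Subtype.ext (by simp)
      map_add' := fun x y => Subtype.ext (by simp) }
  have hι : ∀ x, ((ι x : ↥(integralClosure ↥(Algebra.adjoin A₀ {s}) L')) : L') =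
      algebraMap Lf L' (x : Lf) := fun _ => rfl
  letI : Algebra ↥(integralClosure ↥(Algebra.adjoin A₀ {τ}) Lf)
      ↥(integralClosure ↥(Algebra.adjoin A₀ {s}) L') := ι.toAlgebra
  have hιinj : Function.Injective ι := by
    intro x y hxy
    apply Subtype.ext
    apply (algebraMap Lf L').injective
    rw [← hι, ← hι, hxy]
  -- the group action on `C'`
  letI : MulSemiringAction (L' ≃ₐ[Lf] L') ↥(integralClosure ↥(Algebra.adjoin A₀ {s}) L') :=
    { smul := fun g x => ⟨g (x : L'), hint_g g _ x.2⟩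
      one_smul := fun x => Subtype.ext rfl
      mul_smul := fun g h x => Subtype.ext rfl
      smul_zero := fun g => Subtype.ext (map_zero g)
      smul_add := fun g x y => Subtype.ext (map_add g _ _)
      smul_one := fun g => Subtype.ext (map_one g)
      smul_mul := fun g x y => Subtype.ext (map_mul g _ _) }
  have hsmul : ∀ (g : L' ≃ₐ[Lf] L') (x : ↥(integralClosure ↥(Algebra.adjoin A₀ {s}) L')),
      ((g • x : ↥(integralClosure ↥(Algebra.adjoin A₀ {s}) L')) : L') = g (x : L') :=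
    fun _ _ => rfl
  haveI : SMulCommClass (L' ≃ₐ[Lf] L') ↥(integralClosure ↥(Algebra.adjoin A₀ {τ}) Lf)
      ↥(integralClosure ↥(Algebra.adjoin A₀ {s}) L') := by
    refine ⟨fun g x y => Subtype.ext ?_⟩
    rw [hsmul, Algebra.smul_def, Algebra.smul_def]
    show g ((ι x : L') * (y : L')) = (ι x : L') * ((g • y : _) : L')
    rw [map_mul, hι, AlgEquiv.commutes, hsmul]
  haveI : Algebra.IsInvariant ↥(integralClosure ↥(Algebra.adjoin A₀ {τ}) Lf)
      ↥(integralClosure ↥(Algebra.adjoin A₀ {s}) L') (L' ≃ₐ[Lf] L') := by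
    refine ⟨fun x' hx' => ?_⟩
    have hfix : ∀ g : L' ≃ₐ[Lf] L', g (x' : L') = (x' : L') := fun g => by
      have := congrArg Subtype.val (hx' g)
      exact this
    obtain ⟨y, hy, hyx⟩ := inv_exists_of_fixed (R := ↥(Algebra.adjoin A₀ {τ}))
      (NTame.isIntegral_of_isIntegral_adjoin_s τ c e he s hs x'.2) hfix
    exact ⟨⟨y, hy⟩, Subtype.ext hyx⟩
  -- `C ∩ π C' = π C`
  have hdesc : ∀ y : ↥(integralClosure ↥(Algebra.adjoin A₀ {τ}) Lf),
      algebraMap ↥(integralClosure ↥(Algebra.adjoin A₀ {τ}) Lf)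
          ↥(integralClosure ↥(Algebra.adjoin A₀ {s}) L')
          (algebraMap A₀ ↥(integralClosure ↥(Algebra.adjoin A₀ {τ}) Lf) π) ∣
        algebraMap ↥(integralClosure ↥(Algebra.adjoin A₀ {τ}) Lf)
          ↥(integralClosure ↥(Algebra.adjoin A₀ {s}) L') y →
      algebraMap A₀ ↥(integralClosure ↥(Algebra.adjoin A₀ {τ}) Lf) π ∣ y := by
    rintro y ⟨d', hd'⟩
    have h1 : algebraMap Lf L' (y : Lf) =
        (algebraMap A₀ ↥(Algebra.adjoin A₀ {τ}) π) • (d' : L') := by
      have h2 := congrArg Subtype.val hd'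
      have h3 : algebraMap Lf L' (y : Lf) =
          algebraMap Lf L' (algebraMap A₀ Lf π) * (d' : L') := h2
      rw [h3, Algebra.smul_def]
      rfl
    obtain ⟨d, hd, hyd⟩ := inv_dvd_descends (R := ↥(Algebra.adjoin A₀ {τ})) y.2
      (NTame.isIntegral_of_isIntegral_adjoin_s τ c e he s hs d'.2) h1
    refine ⟨⟨d, hd⟩, Subtype.ext ?_⟩
    rw [hyd, Algebra.smul_def]
    rfl
  -- a maximal ideal `m'` over `m`
  haveI : Algebra.IsIntegral ↥(integralClosure ↥(Algebra.adjoin A₀ {τ}) Lf)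
      ↥(integralClosure ↥(Algebra.adjoin A₀ {s}) L') :=
    Algebra.IsInvariant.isIntegral _ _ (L' ≃ₐ[Lf] L')
  have hker : RingHom.ker (algebraMap ↥(integralClosure ↥(Algebra.adjoin A₀ {τ}) Lf)
      ↥(integralClosure ↥(Algebra.adjoin A₀ {s}) L')) ≤ m := by
    intro x hx
    have : x = 0 := hιinj (by rw [map_zero]; exact hx)
    rw [this]; exact m.zero_mem
  obtain ⟨m', hm'max, hm'⟩ := Ideal.exists_ideal_over_maximal_of_isIntegral m hker
  haveI := hm'max
  have hcompat : ∀ (x : ↥(integralClosure ↥(Algebra.adjoin A₀ {τ}) Lf))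
      (x' : ↥(integralClosure ↥(Algebra.adjoin A₀ {s}) L')),
      (x' : L') = algebraMap Lf L' (x : Lf) → (x' ∈ m' ↔ x ∈ m) := by
    intro x x' hxx'
    have : x' = ι x := Subtype.ext hxx'
    rw [this, ← hm']
    rfl
  have hπm' : algebraMap A₀ ↥(integralClosure ↥(Algebra.adjoin A₀ {s}) L') π ∈ m' := by
    refine (hcompat (algebraMap A₀ _ π) (algebraMap A₀ _ π) ?_).mpr hπm
    show algebraMap A₀ L' π = algebraMap Lf L' (algebraMap A₀ Lf π)
    rw [← IsScalarTower.algebraMap_apply A₀ Lf L']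
  have h1 := hloc m' hm'max hπm' hcompat
  have hπeq : algebraMap ↥(integralClosure ↥(Algebra.adjoin A₀ {τ}) Lf)
      ↥(integralClosure ↥(Algebra.adjoin A₀ {s}) L')
      (algebraMap A₀ ↥(integralClosure ↥(Algebra.adjoin A₀ {τ}) Lf) π) =
      algebraMap A₀ ↥(integralClosure ↥(Algebra.adjoin A₀ {s}) L') π := by
    apply Subtype.ext
    show algebraMap Lf L' (algebraMap A₀ Lf π) = algebraMap A₀ L' π
    rw [← IsScalarTower.algebraMap_apply A₀ Lf L']
  have h2 : NormalAt ↥(integralClosure ↥(Algebra.adjoin A₀ {s}) L')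
      (algebraMap ↥(integralClosure ↥(Algebra.adjoin A₀ {τ}) Lf)
        ↥(integralClosure ↥(Algebra.adjoin A₀ {s}) L')
        (algebraMap A₀ ↥(integralClosure ↥(Algebra.adjoin A₀ {τ}) Lf) π)) m' := by
    rw [hπeq]
    exact h1
  obtain ⟨u, hu⟩ := hcard.exists_left_inv
  have hv : algebraMap A₀ ↥(integralClosure ↥(Algebra.adjoin A₀ {τ}) Lf) u *
      ((Nat.card (L' ≃ₐ[Lf] L') : ℕ) : ↥(integralClosure ↥(Algebra.adjoin A₀ {τ}) Lf)) = 1 := by
    rw [← map_natCast (algebraMap A₀ ↥(integralClosure ↥(Algebra.adjoin A₀ {τ}) Lf)),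
      ← map_mul, hu, map_one]
  have h3 := normalAt_under (L' ≃ₐ[Lf] L')
    (algebraMap A₀ ↥(integralClosure ↥(Algebra.adjoin A₀ {τ}) Lf) π) hdesc _ hv m' h2
  have hunder : m'.under ↥(integralClosure ↥(Algebra.adjoin A₀ {τ}) Lf) = m := hm'
  rw [hunder] at h3
  exact h3

/-- **N2.**  The descent statement of `NormalTame.lean`. -/
theorem nTameNormalDescentStmt : NTameNormalDescentStmt.{u} := by
  intro A₀ E Lf L' _ _ _ _ _ _ _ _ _ _ _ _ _ _ _ _ _ _ _ _ π τ c e he s hs hcard m hm hπm hloc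
  exact ntame_descent_normal (E := E) π τ c e he s hs hcard m hm hπm hloc

/-- **(N-tame), normal form.**  The special fibre is normal at the points over a tame branch
point. -/
theorem nTameNormalStmt : NTameNormalStmt.{u} :=
  nTameNormalStmt_of nGoodNormalStmt nTameNormalDescentStmt

end Fermat.Agent.INJ.Norm


end ZBINJ_034_11

/-! ### bundled: `Fermat.Agent.INJ.NormalSpec` -/
section ZBINJ_034_12

/-!
# (INJ) piece NORM, N4 (a), (b): normality of the special fibre of the chart `t`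

Under the hypotheses of the tame specialization theorem (`TameSpecStmt`):

* `chart_normalAt` : `NormalAt C π m` at every maximal ideal `m ∋ π` of the chart
  `C = integralClosure A₀[τ] Lf` (copy of `chart_locDomainAt`);
* `chart_inv_normalAt` : the same for the chart `t⁻¹` at the maximal ideals `m ∋ π, t⁻¹`
  (copy of `chart_inv_locDomainAt`);
* `tameSpec_normal` : `Normal C₁ π`;
* `tameSpec_isIntegrallyClosed` : `IsIntegrallyClosed (C₁ ⧸ Ideal.span {π})`;
* `tameSpec_isDomain` : `IsDomain (C₁ ⧸ Ideal.span {π})`.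
-/

set_option autoImplicit false
set_option linter.unusedSectionVars false
set_option linter.style.haveILetI false

namespace Fermat.Agent.INJ.Norm

open Polynomial IntermediateField AlgebraicCurve Fermat.Agent.S24 Fermat.Agent.INJ

universe u

section Local

variable {A₀ E Lf : Type u} [CommRing A₀] [IsDomain A₀] [IsDiscreteValuationRing A₀]
  [Field E] [Algebra A₀ E] [IsFractionRing A₀ E] [CharZero E]
  [Field Lf] [Algebra E Lf] [Algebra A₀ Lf] [IsScalarTower A₀ E Lf]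
  {π : A₀} {τ : Lf}

/-- **Chart `τ`, all points**: `NormalAt` at every maximal ideal containing `π`. -/
theorem chart_normalAt
    (hπ : Irreducible π) (hτ : Transcendental E τ) [FiniteDimensional E⟮τ⟯ Lf]
    (hgood : TSGoodBasis (E := E) π τ)
    (S : Finset A₀) (hS : ∀ c ∈ S, ∀ c' ∈ S, c ≠ c' → ¬ π ∣ c - c')
    (hb : TSUnramified (E := E) τ S)
    (e : ℕ) (he : IsUnit (e : A₀)) (hζ : ∃ ζ : A₀, IsPrimitiveRoot ζ e)
    (htame : ∀ P : Place E Lf, ∀ c ∈ S, 0 < P.ord (τ - algebraMap A₀ Lf c) →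
      P.ord (τ - algebraMap A₀ Lf c) ∣ (e : ℤ))
    (hP₀ : ∀ c ∈ S, ∃ P₀ : Place E Lf, P₀.ord (τ - algebraMap A₀ Lf c) = 1 ∨
      P₀.ord (τ - algebraMap A₀ Lf c) = -1)
    (m : Ideal (integralClosure (Algebra.adjoin A₀ {τ}) Lf)) (hm : m.IsMaximal)
    (hπm : algebraMap A₀ (integralClosure (Algebra.adjoin A₀ {τ}) Lf) π ∈ m) :
    NormalAt (integralClosure (Algebra.adjoin A₀ {τ}) Lf)
      (algebraMap A₀ (integralClosure (Algebra.adjoin A₀ {τ}) Lf) π) m := by
  by_cases hc : ∃ c ∈ S, chartElt hτ (X - C c) ∈ m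
  · obtain ⟨c, hcS, hcm⟩ := hc
    refine nTameNormalStmt A₀ E Lf π hπ τ hτ hgood c e he hζ (fun P hP => htame P c hcS hP)
      (hP₀ c hcS) m hm hπm ?_ ?_
    · intro r₀ hr₀
      have : r₀ = chartEquiv hτ (X - C c) := by
        apply Subtype.ext
        rw [hr₀, chartEquiv_coe, map_sub, aeval_X, aeval_C]
      rw [this]
      exact hcm
    · intro P r hr hrm hrP hPc
      refine ord_eq_one_of_unramified hτ S hb m P r hr hrm hrP ?_
      intro c' hc'S hc'm
      by_cases hcc : c = c'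
      · rw [← hcc]; exact hPc
      · exfalso
        have hsub : chartElt hτ (C (c' - c)) ∈ m := by
          have : (C (c' - c) : A₀[X]) = (X - C c) - (X - C c') := by
            rw [C_sub]; ring
          rw [this, chartElt_sub]
          exact m.sub_mem hcm hc'm
        rw [chartElt_C] at hsub
        have hdvd : π ∣ c' - c := dvd_of_algebraMap_mem hπ m hm.ne_top hsub
        exact hS c' hc'S c hcS (Ne.symm hcc) hdvd
  · refine nGoodNormalStmt A₀ E Lf π hπ τ hτ hgood m hm hπm ?_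
    intro P r hr hrm hrP
    refine ord_eq_one_of_unramified hτ S hb m P r hr hrm hrP ?_
    intro c' hc'S hc'm
    exact absurd ⟨c', hc'S, hc'm⟩ hc

/-- **Chart `t⁻¹`, points at infinity**: `NormalAt` at the maximal ideals containing
`π` and `t⁻¹`. -/
theorem chart_inv_normalAt
    (hπ : Irreducible π) {t : Lf} (ht : Transcendental E t) (hinv : Transcendental E t⁻¹)
    [FiniteDimensional E⟮t⁻¹⟯ Lf]
    (hgood : TSGoodBasis (E := E) π t⁻¹)
    (S : Finset A₀) (hb : TSUnramified (E := E) t S)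
    (e : ℕ) (he : IsUnit (e : A₀)) (hζ : ∃ ζ : A₀, IsPrimitiveRoot ζ e)
    (htame : ∀ P : Place E Lf, P.ord t < 0 → P.ord t ∣ (e : ℤ))
    (hP₀ : ∃ P₀ : Place E Lf, P₀.ord t = -1)
    (m : Ideal (integralClosure (Algebra.adjoin A₀ {t⁻¹}) Lf)) (hm : m.IsMaximal)
    (hπm : algebraMap A₀ (integralClosure (Algebra.adjoin A₀ {t⁻¹}) Lf) π ∈ m)
    (hσm : chartElt hinv X ∈ m) :
    NormalAt (integralClosure (Algebra.adjoin A₀ {t⁻¹}) Lf)
      (algebraMap A₀ (integralClosure (Algebra.adjoin A₀ {t⁻¹}) Lf) π) m := by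
  have ht0 : t ≠ 0 := by
    rintro rfl
    exact ht isAlgebraic_zero
  have hsub0 : ∀ x : Lf, x - algebraMap A₀ Lf 0 = x := fun x => by rw [map_zero, sub_zero]
  refine nTameNormalStmt A₀ E Lf π hπ t⁻¹ hinv hgood 0 e he hζ ?_ ?_ m hm hπm ?_ ?_
  · intro P hP
    rw [hsub0] at hP ⊢
    rw [P.ord_inv] at hP ⊢
    exact (Int.neg_dvd).mpr (htame P (by omega))
  · obtain ⟨P₀, hP₀⟩ := hP₀
    refine ⟨P₀, Or.inl ?_⟩
    rw [hsub0, P₀.ord_inv, hP₀]; rfl
  · intro r₀ hr₀
    have : r₀ = chartEquiv hinv X := by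
      apply Subtype.ext
      rw [hr₀, hsub0, chartEquiv_coe, aeval_X]
    rw [this]
    exact hσm
  · intro P r hr hrm hrP hPc
    rw [hsub0, P.ord_inv] at hPc
    have htP : P.ord t = 0 := by omega
    obtain ⟨f, hf, rfl⟩ := exists_irreducible_poly hinv hr
    rw [chartEquiv_coe] at hrP ⊢
    have hall : ∀ c ∈ S, P.ord (t - algebraMap A₀ Lf c) = 0 := by
      intro c hc
      by_contra hne
      have hpos : 0 < P.ord (t - algebraMap A₀ Lf c) :=
        lt_of_le_of_ne (ord_sub_const_nonneg P htP.ge c) (Ne.symm hne)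
      have hval : aeval t⁻¹ (C c * X - 1 : A₀[X]) = - (t⁻¹ * (t - algebraMap A₀ Lf c)) := by
        rw [map_sub, map_mul, aeval_C, aeval_X, map_one]
        field_simp
        ring
      have hne0 : t - algebraMap A₀ Lf c ≠ 0 := by
        intro h0; rw [h0] at hpos; simp at hpos
      have hpos' : 0 < P.ord (aeval t⁻¹ (C c * X - 1 : A₀[X])) := by
        rw [hval, PlaceAux.ord_neg, P.ord_mul (inv_ne_zero ht0) hne0, P.ord_inv, htP]
        simpa using hpos
      have hdvd : f ∣ (C c * X - 1) := centre_dvd_int P t⁻¹ hf hrP hpos'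
      have hmem : chartElt hinv (C c * X - 1) ∈ m := chartElt_mem_of_dvd hinv hdvd m hrm
      rw [chartElt_sub, chartElt_mul, chartElt_one] at hmem
      have h1 : (1 : integralClosure (Algebra.adjoin A₀ {t⁻¹}) Lf) ∈ m := by
        have h2 := m.sub_mem (m.mul_mem_left (chartElt hinv (C c)) hσm) hmem
        simpa using h2
      exact hm.ne_top ((Ideal.eq_top_iff_one m).mpr h1)
    obtain ⟨g, hg⟩ := hb P htP.ge hall
    obtain ⟨g', hg'⟩ := exists_poly_inv_ord_eq_one P ht0 htP hg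
    exact centre_ord_eq_one_int P t⁻¹ hf hrP hg'

end Local

section Global

variable {A₀ E Lf : Type u} [CommRing A₀] [IsDomain A₀] [IsDiscreteValuationRing A₀]
  [Field E] [Algebra A₀ E] [IsFractionRing A₀ E] [CharZero E]
  [Field Lf] [Algebra E Lf] [Algebra A₀ Lf] [IsScalarTower A₀ E Lf]

/-- the place at infinity serves every branch point -/
theorem exists_place_of_inf {t : Lf} (ht0 : t ≠ 0) (hP₀ : ∃ P₀ : Place E Lf, P₀.ord t = -1)
    (c : A₀) : ∃ P₀ : Place E Lf, P₀.ord (t - algebraMap A₀ Lf c) = 1 ∨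
      P₀.ord (t - algebraMap A₀ Lf c) = -1 := by
  obtain ⟨P₀, hP₀⟩ := hP₀
  refine ⟨P₀, Or.inr ?_⟩
  rcases eq_or_ne (algebraMap A₀ Lf c) 0 with h0 | h0
  · rw [h0, sub_zero]; exact hP₀
  · rw [sub_eq_add_neg]
    rw [Fermat.Agent.S24.PlaceAux.ord_add_eq_of_lt P₀ ht0 (neg_ne_zero.mpr h0)]
    · exact hP₀
    · rw [Fermat.Agent.S24.PlaceAux.ord_neg, centre_ord_algebraMap, hP₀]
      norm_num

/-- **N4 (b), element form.**  Under the hypotheses of the tame specialization theorem the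
special fibre of the chart `t` is normal. -/
theorem tameSpec_normal
    (π : A₀) (hπ : Irreducible π) (t : Lf) (ht : Transcendental E t) [FiniteDimensional E⟮t⟯ Lf]
    (hgood : TSGoodBasis (E := E) π t)
    (S : Finset A₀) (hS : ∀ c ∈ S, ∀ c' ∈ S, c ≠ c' → ¬ π ∣ c - c')
    (hb : TSUnramified (E := E) t S)
    (e : ℕ) (he : IsUnit (e : A₀)) (hζ : ∃ ζ : A₀, IsPrimitiveRoot ζ e)
    (htame : TSTame (E := E) t S e)
    (hP₀ : ∃ P₀ : Place E Lf, P₀.ord t = -1) :
    Normal (integralClosure (Algebra.adjoin A₀ {t}) Lf)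
      (algebraMap A₀ (integralClosure (Algebra.adjoin A₀ {t}) Lf) π) := by
  have ht0 : t ≠ 0 := by
    rintro rfl
    exact ht isAlgebraic_zero
  exact normal_of_forall_maximal (fun m hm hπm =>
    chart_normalAt hπ ht hgood S hS hb e he hζ htame.1
      (fun c _ => exists_place_of_inf ht0 hP₀ c) m hm hπm)

/-- **N4 (b).**  Under the hypotheses of the tame specialization theorem the special fibre
`C₁ / π` of the chart `t` is an integrally closed domain. -/
theorem tameSpec_isIntegrallyClosed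
    (π : A₀) (hπ : Irreducible π) (t : Lf) (ht : Transcendental E t) [FiniteDimensional E⟮t⟯ Lf]
    (hcl : ∀ x : Lf, IsAlgebraic E x → x ∈ (algebraMap E Lf).range)
    (hgood : TSGoodBasis (E := E) π t)
    (S : Finset A₀) (hS : ∀ c ∈ S, ∀ c' ∈ S, c ≠ c' → ¬ π ∣ c - c')
    (hb : TSUnramified (E := E) t S)
    (e : ℕ) (he : IsUnit (e : A₀)) (hζ : ∃ ζ : A₀, IsPrimitiveRoot ζ e)
    (htame : TSTame (E := E) t S e)
    (hP₀ : ∃ P₀ : Place E Lf, P₀.ord t = -1) :
    IsIntegrallyClosed (integralClosure (Algebra.adjoin A₀ {t}) Lf ⧸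
      Ideal.span {algebraMap A₀ (integralClosure (Algebra.adjoin A₀ {t}) Lf) π}) :=
  isIntegrallyClosed_quotient_of_normal
    (tameSpecStmt A₀ E Lf π hπ t ht hcl hgood S hS hb e he hζ htame hP₀)
    (tameSpec_normal π hπ t ht hgood S hS hb e he hζ htame hP₀)

/-- Under the hypotheses of the tame specialization theorem the special fibre `C₁ / π` of the
chart `t` is a domain. -/
theorem tameSpec_isDomain
    (π : A₀) (hπ : Irreducible π) (t : Lf) (ht : Transcendental E t) [FiniteDimensional E⟮t⟯ Lf]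
    (hcl : ∀ x : Lf, IsAlgebraic E x → x ∈ (algebraMap E Lf).range)
    (hgood : TSGoodBasis (E := E) π t)
    (S : Finset A₀) (hS : ∀ c ∈ S, ∀ c' ∈ S, c ≠ c' → ¬ π ∣ c - c')
    (hb : TSUnramified (E := E) t S)
    (e : ℕ) (he : IsUnit (e : A₀)) (hζ : ∃ ζ : A₀, IsPrimitiveRoot ζ e)
    (htame : TSTame (E := E) t S e)
    (hP₀ : ∃ P₀ : Place E Lf, P₀.ord t = -1) :
    IsDomain (integralClosure (Algebra.adjoin A₀ {t}) Lf ⧸
      Ideal.span {algebraMap A₀ (integralClosure (Algebra.adjoin A₀ {t}) Lf) π}) := by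
  have hp := tameSpecStmt A₀ E Lf π hπ t ht hcl hgood S hS hb e he hζ htame hP₀
  haveI : (Ideal.span {algebraMap A₀ (integralClosure (Algebra.adjoin A₀ {t}) Lf) π}).IsPrime :=
    (Ideal.span_singleton_prime hp.ne_zero).mpr hp
  exact Ideal.Quotient.isDomain _

end Global

end Fermat.Agent.INJ.Norm


end ZBINJ_034_12

/-! ### bundled: `Fermat.Agent.S15.RedPkg` -/
section ZBINJ_034_13

/-!
# S15 block RED — the reduction package of `X₀(N)` with its specialization map (S18-J1)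

`ModPRG N A hℓ hA hRedF r sp Pinf Qinf` : the package `W1.ModPR` for
`R = DEU.modPRData N A hRedF r` together with

* the specialization map `sp : J₀(N) →+ Pic⁰(F̄)`, `sp [D] = [r_* D]`, with kernel `R.J1`;
* equivariance: `r (σ P) = σ̄ (r P)`, `sp (σ x) = σ̄ (sp x)` for `σ` in the decomposition group,
  `sp (φ x) = Fr (sp x)` for a Frobenius element, `sp (σ x) = sp x` on inertia;
* **S18-J1**: `m • x = 0`, `sp x = 0`, `ℓ ∤ m` ⇒ `x = 0`;
* the cusp `∞`: `r Pinf = Qinf`, `Qinf.ord = order of the q-expansion`.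

`s15red_exists_pkg` : the package exists for `ℓ ∤ N`, `5 ≤ ℓ ∨ (5 - ℓ) ∣ N`.
-/

set_option autoImplicit false
set_option linter.unusedSectionVars false
set_option linter.style.haveILetI false
set_option synthInstance.maxHeartbeats 400000
set_option maxHeartbeats 1600000

open ModularCurve AlgebraicCurve HahnSeries Module

namespace Fermat.Agent.S15

open Fermat.Agent.ES Fermat.Agent.S24 Fermat.Agent.ES.M Fermat.Agent.W1 Fermat.Agent.PR
  Fermat.Agent.DEU Fermat.Agent.ES.R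

/-- **the reduction package of `X₀(N)` at `A ∣ ℓ` with its specialization map** -/
structure ModPRG (N : ℕ) [NeZero N] (A : ValuationSubring Kb) {ℓ : ℕ} (hℓ : ℓ.Prime)
    (hA : A.LiesOverPrime ℓ) (hRedF : StmtRedF N A)
    (r : Place Kb (FF N) → Place (kA A) ↥(modularFunctionFieldFullC (kA A) N))
    (sp : JZero N →+ JZeroC (kA A) N)
    (Pinf : Place Kb (FF N)) (Qinf : Place (kA A) ↥(modularFunctionFieldFullC (kA A) N)) :
    Prop where
  modPR : ModPR N A (gN N) (modPRData N A hRedF r) (jF N)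
  sp_mk : ∀ (D : Divisor.degZero (K := Kb) (F := FF N))
    (h : Finsupp.mapDomain r (D : Divisor Kb (FF N)) ∈
      Divisor.degZero (K := kA A) (F := ↥(modularFunctionFieldFullC (kA A) N))),
    sp (Pic0.mk D) = Pic0.mk ⟨Finsupp.mapDomain r (D : Divisor Kb (FF N)), h⟩
  sp_eq_zero_iff : ∀ x : JZero N, sp x = 0 ↔ x ∈ (modPRData N A hRedF r).J1
  r_decomp : ∀ (σ : Kb ≃ₐ[ℚ] Kb) (hσ : σ ∈ A.decompositionSubgroup ℚ) (P : Place Kb (FF N)),
    r (arithmeticGalois (modularFunctionFieldFull N) σ • P) = prSemilinear N (prResAut σ hσ) • r P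
  r_inertia : ∀ σ ∈ A.inertiaSubgroupIn ℚ, ∀ P : Place Kb (FF N),
    r (arithmeticGalois (modularFunctionFieldFull N) σ • P) = r P
  r_frob : ∀ φ : Kb ≃ₐ[ℚ] Kb, A.IsFrobeniusAt φ ℓ → ∀ P : Place Kb (FF N),
    r (arithmeticGalois (modularFunctionFieldFull N) φ • P) = prFrobA N A hℓ hA • r P
  sp_decomp : ∀ (σ : Kb ≃ₐ[ℚ] Kb) (hσ : σ ∈ A.decompositionSubgroup ℚ) (x : JZero N),
    sp (σ • x) = prSemilinear N (prResAut σ hσ) • sp x
  sp_inertia : ∀ σ ∈ A.inertiaSubgroupIn ℚ, ∀ x : JZero N, sp (σ • x) = sp x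
  sp_frob : ∀ φ : Kb ≃ₐ[ℚ] Kb, A.IsFrobeniusAt φ ℓ → ∀ x : JZero N,
    sp (φ • x) = prFrobA N A hℓ hA • sp x
  s18 : ∀ m : ℕ, ¬ ℓ ∣ m → ∀ x : JZero N, m • x = 0 → sp x = 0 → x = 0
  J1_stable : ∀ σ ∈ A.decompositionSubgroup ℚ, ∀ x ∈ (modPRData N A hRedF r).J1,
    σ • x ∈ (modPRData N A hRedF r).J1
  cusp : IsCuspInfty N Pinf
  ord_Qinf : ∀ x : ↥(modularFunctionFieldFullC (kA A) N), x ≠ 0 →
    Qinf.ord x = (x : LaurentSeries (kA A)).order
  r_cusp : r Pinf = Qinf

section Pieces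

variable {N : ℕ} [NeZero N] {A : ValuationSubring Kb} {hRedF : StmtRedF N A}
variable {Pinf : Place Kb (FF N)} {Qinf : Place (kA A) ↥(modularFunctionFieldFullC (kA A) N)}
  {n₀ : ℕ}

/-- the reduction of places of the Deuring package is a place reduction in the prelude's sense -/
theorem s15red_isPlaceReduction (H : Hyp (deuInst_redData N A hRedF) Pinf Qinf (gN N) n₀) :
    IsPlaceReductionAlong A (IsLocalRing.residue A) N H.r := by
  refine ⟨fun P => ?_, ?_⟩
  · rw [place_deg_eq_one _ (H.hresk _), place_deg_eq_one _ (H.hresF _)]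
  · intro y hy hyk hne D hD Q
    have hG : GaussRed N A ⟨coeffMap A.subtype y, hy⟩ (coeffMap (IsLocalRing.residue A) y) := by
      refine ⟨y, 1, hy, ?_, ?_, ?_, ?_⟩
      · rw [map_one]; exact one_mem _
      · rw [map_one]; exact one_ne_zero
      · rw [map_one, mul_one]
      · rw [map_one, mul_one]
    obtain ⟨hx, hred⟩ := (deuValRed_iff N A hRedF _ _).mp hG
    have hu : deuValRed N A hRedF ⟨⟨coeffMap A.subtype y, hy⟩, hx⟩ =
        ⟨coeffMap (IsLocalRing.residue A) y, hyk⟩ := Subtype.ext hred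
    have h1 := (modPR_isPR H).r_div ⟨⟨coeffMap A.subtype y, hy⟩, hx⟩
      (by
        show deuValRed N A hRedF ⟨⟨coeffMap A.subtype y, hy⟩, hx⟩ ≠ 0
        rw [hu]
        exact fun h0 => hne (congrArg Subtype.val h0)) D hD Q
    refine h1.trans ?_
    show Q.ord (deuValRed N A hRedF ⟨⟨coeffMap A.subtype y, hy⟩, hx⟩) = _
    rw [hu]

/-- **S18-J1, prime exponent**, for divisors -/
theorem s15red_principal_of_prime {ℓ : ℕ} (hℓ : ℓ.Prime) (hℓN : ¬ ℓ ∣ N)
    (hA : A.LiesOverPrime ℓ)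
    (H : Hyp (deuInst_redData N A hRedF) Pinf Qinf (gN N) n₀)
    (p : ℕ) (hp : p.Prime) (hpl : p ≠ ℓ) (D : Divisor Kb (FF N))
    (h1 : p • D ∈ Divisor.principal (K := Kb) (F := FF N))
    (h3 : Finsupp.mapDomain H.r D ∈
      Divisor.principal (K := kA A) (F := ↥(modularFunctionFieldFullC (kA A) N))) :
    D ∈ Divisor.principal (K := Kb) (F := FF N) := by
  have hinj : Fermat.Agent.S18.InjStatement N A p :=
    Fermat.Agent.S18.injStatement_of_stmtINJ A hA
      (Fermat.Agent.INJ.injAll_stmtINJAll N ℓ p (NeZero.ne N) hℓ hp hℓN (fun e => hpl e.symm))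
  exact Fermat.Agent.S18.isPrincipal_of_inj (Fermat.Agent.ES.H.hasPrincipalDivisors_FF N)
    IsLocalRing.residue_surjective (s15red_isPlaceReduction H)
    (Fermat.Agent.ES.G2.pr3_gen N ℓ hℓ hℓN A hA) p hp.ne_zero
    (fun Y₁ Y₂ hY₁ hY₂ hdiv =>
      hinj Y₁.1 Y₂.1 Y₁.2.1 Y₂.2.1 Y₁.2.2 (fun h0 => hY₁ (Subtype.ext h0))
        (congrArg Subtype.val hY₂) hdiv)
    D h1 h3

/-- **S18-J1**: the kernel of reduction has no torsion prime to `ℓ` -/
theorem s15red_s18 {ℓ : ℕ} (hℓ : ℓ.Prime) (hℓN : ¬ ℓ ∣ N) (hA : A.LiesOverPrime ℓ)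
    (H : Hyp (deuInst_redData N A hRedF) Pinf Qinf (gN N) n₀)
    (m : ℕ) (hm : ¬ ℓ ∣ m) (x : JZero N) (hmx : m • x = 0)
    (hx : x ∈ (modPRData N A hRedF H.r).J1) : x = 0 := by
  induction m using Nat.strong_induction_on generalizing x with
  | _ m ih =>
    rcases Nat.eq_zero_or_pos m with h0 | hpos
    · exact absurd (h0 ▸ dvd_zero ℓ) hm
    rcases eq_or_ne m 1 with h1 | h1
    · rw [h1, one_nsmul] at hmx
      exact hmx
    have hp := Nat.minFac_prime h1
    obtain ⟨m', hm'⟩ := Nat.minFac_dvd m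
    have hpl : m.minFac ≠ ℓ := fun h => hm (h ▸ Nat.minFac_dvd m)
    have hm'pos : 0 < m' := by
      rcases Nat.eq_zero_or_pos m' with h0 | h0
      · rw [h0, mul_zero] at hm'; omega
      · exact h0
    have hlt : m' < m := by
      have := hp.two_le
      nlinarith
    have hlm' : ¬ ℓ ∣ m' := fun hd => hm (hm' ▸ Dvd.dvd.mul_left hd _)
    have hz' : m' • x = 0 := by
      have hx' : m' • x ∈ (modPRData N A hRedF H.r).J1 := AddSubgroup.nsmul_mem _ hx m'
      have hpx' : m.minFac • (m' • x) = 0 := by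
        rw [← mul_nsmul', ← hm']
        exact hmx
      obtain ⟨D, hD, hDr⟩ := hx'
      have h2 : Pic0.mk (m.minFac • D) = 0 := by
        have : Pic0.mk (m.minFac • D) = m.minFac • Pic0.mk D := rfl
        rw [this, hD]
        exact hpx'
      rw [s15red_mk_eq_zero_iff, AddSubgroup.coe_nsmul] at h2
      have h5 := s15red_principal_of_prime hℓ hℓN hA H m.minFac hp hpl D h2 hDr
      rw [← hD, s15red_mk_eq_zero_iff]
      exact h5
    exact ih m' hlt hlm' x hz' hx

/-- the cusp `∞` reduces to the place `Qinf` -/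
theorem s15red_r_cusp (H : Hyp (deuInst_redData N A hRedF) Pinf Qinf (gN N) n₀) :
    H.r Pinf = Qinf := by
  classical
  set m : ℕ := n₀ + 2 * gN N + 1 with hm
  have hdeg : ((n₀ : ℤ) + 2 * gN N) ≤ Divisor.degree (mulPlace Pinf (m : ℤ)) := by
    rw [degree_mulPlace H.hresF, hm]
    push_cast
    omega
  have hleast := H.isLeast_mapDomain_r (mulPlace Pinf (m : ℤ)) hdeg
  have hmem : mulPlace Qinf (m : ℤ) ∈
      bounds ((deuInst_redData N A hRedF).redSpace (riemannRochSpace (mulPlace Pinf (m : ℤ)))) :=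
    H.anchor m
  have hle := hleast.2 hmem
  rw [mulPlace, Finsupp.mapDomain_single] at hle
  by_contra hne
  have h1 := Finsupp.le_def.mp hle (H.r Pinf)
  rw [Finsupp.single_eq_same, mulPlace, Finsupp.single_eq_of_ne hne] at h1
  rw [hm] at h1
  push_cast at h1
  omega

/-- the package, from the hypotheses of Deuring's count -/
theorem s15red_pkg_of_hyp {ℓ : ℕ} (hℓ : ℓ.Prime) (hℓN : ¬ ℓ ∣ N) (hA : A.LiesOverPrime ℓ)
    (H : Hyp (deuInst_redData N A hRedF) Pinf Qinf (gN N) n₀)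
    (hcusp : IsCuspInfty N Pinf)
    (hQ : ∀ x : ↥(modularFunctionFieldFullC (kA A) N), x ≠ 0 →
      Qinf.ord x = (x : LaurentSeries (kA A)).order)
    (hmod : ModPR N A (gN N) (modPRData N A hRedF H.r) (jF N)) :
    ModPRG N A hℓ hA hRedF H.r
      (s15red_sp (modPRData N A hRedF H.r) (modPR_isPR H) H.hresF H.hresk) Pinf Qinf := by
  have hleast : ∀ D : Divisor Kb (FF N), (n₀ : ℤ) + 2 * gN N ≤ Divisor.degree D →
      IsLeast (bounds ((deuInst_redData N A hRedF).redSpace (riemannRochSpace D)))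
        (Finsupp.mapDomain H.r D) := fun D hD => H.isLeast_mapDomain_r D hD
  have hdec : ∀ (σ : Kb ≃ₐ[ℚ] Kb) (hσ : σ ∈ A.decompositionSubgroup ℚ) (P : Place Kb (FF N)),
      H.r (arithmeticGalois (modularFunctionFieldFull N) σ • P)
        = prSemilinear N (prResAut σ hσ) • H.r P := fun σ hσ P =>
    deuEqMod_r_decomposition N A hRedF H.hresF ((n₀ : ℤ) + 2 * gN N) H.r hleast σ hσ P
  have hin : ∀ σ ∈ A.inertiaSubgroupIn ℚ, ∀ P : Place Kb (FF N),
      H.r (arithmeticGalois (modularFunctionFieldFull N) σ • P) = H.r P := fun σ hσ P =>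
    deuEqMod_r_inertia N A hRedF H.hresF ((n₀ : ℤ) + 2 * gN N) H.r hleast σ hσ P
  have hfr : ∀ φ : Kb ≃ₐ[ℚ] Kb, A.IsFrobeniusAt φ ℓ → ∀ P : Place Kb (FF N),
      H.r (arithmeticGalois (modularFunctionFieldFull N) φ • P) = prFrobA N A hℓ hA • H.r P :=
    fun φ hφ P =>
      deuEqMod_r_frobenius N A hRedF H.hresF ((n₀ : ℤ) + 2 * gN N) H.r hleast hℓ hA φ hφ P
  have hspdec : ∀ (σ : Kb ≃ₐ[ℚ] Kb) (hσ : σ ∈ A.decompositionSubgroup ℚ) (x : JZero N),
      s15red_sp (modPRData N A hRedF H.r) (modPR_isPR H) H.hresF H.hresk (σ • x)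
        = prSemilinear N (prResAut σ hσ) •
          s15red_sp (modPRData N A hRedF H.r) (modPR_isPR H) H.hresF H.hresk x := by
    intro σ hσ x
    rw [galois_smul_pic0_def]
    exact s15red_sp_smul (modPRData N A hRedF H.r) (modPR_isPR H) H.hresF H.hresk
      (arithmeticGalois (modularFunctionFieldFull N) σ) (prSemilinear N (prResAut σ hσ))
      (hdec σ hσ) x
  refine
    { modPR := hmod
      sp_mk := fun D h => rfl
      sp_eq_zero_iff := s15red_sp_eq_zero_iff _ _ _ _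
      r_decomp := hdec
      r_inertia := hin
      r_frob := hfr
      sp_decomp := hspdec
      sp_inertia := ?_
      sp_frob := ?_
      s18 := fun m hm x hmx hsp =>
        s15red_s18 hℓ hℓN hA H m hm x hmx ((s15red_sp_eq_zero_iff _ _ _ _ x).mp hsp)
      J1_stable := ?_
      cusp := hcusp
      ord_Qinf := hQ
      r_cusp := s15red_r_cusp H }
  · intro σ hσ x
    rw [galois_smul_pic0_def]
    have h := s15red_sp_smul (modPRData N A hRedF H.r) (modPR_isPR H) H.hresF H.hresk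
      (arithmeticGalois (modularFunctionFieldFull N) σ)
      (1 : SemilinearAut (kA A) ↥(modularFunctionFieldFullC (kA A) N))
      (fun P => by rw [one_smul]; exact hin σ hσ P) x
    rwa [one_smul] at h
  · intro φ hφ x
    rw [galois_smul_pic0_def]
    exact s15red_sp_smul (modPRData N A hRedF H.r) (modPR_isPR H) H.hresF H.hresk
      (arithmeticGalois (modularFunctionFieldFull N) φ) (prFrobA N A hℓ hA) (hfr φ hφ) x
  · intro σ hσ x hx
    rw [← s15red_sp_eq_zero_iff (modPRData N A hRedF H.r) (modPR_isPR H) H.hresF H.hresk] at hx ⊢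
    rw [hspdec σ hσ x, hx]
    exact smul_zero (A := Pic0 (kA A) ↥(modularFunctionFieldFullC (kA A) N))
      (prSemilinear N (prResAut σ hσ))

end Pieces

/-- **the package exists**, from the genus bound (I2) in characteristic `ℓ` -/
theorem s15red_exists_pkg_of_stmtI2 (N : ℕ) [NeZero N] (ℓ : ℕ) (hℓ : ℓ.Prime) (hℓN : ¬ ℓ ∣ N)
    (A : ValuationSubring Kb) (hA : A.LiesOverPrime ℓ) (hI2 : StmtI2 N A) :
    ∃ (r : Place Kb (FF N) → Place (kA A) ↥(modularFunctionFieldFullC (kA A) N))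
      (sp : JZero N →+ JZeroC (kA A) N) (Pinf : Place Kb (FF N))
      (Qinf : Place (kA A) ↥(modularFunctionFieldFullC (kA A) N)),
      ModPRG N A hℓ hA (stmtRedF N A ℓ hℓ hℓN hA) r sp Pinf Qinf := by
  obtain ⟨Pinf, Qinf, n₀, hcusp, hQ, H⟩ := deuAnchor_hyp N A (stmtRedF N A ℓ hℓ hℓN hA)
    (Fermat.Agent.ES.LR.stmtLRa N ℓ hℓ A hA) hI2 (Fermat.Agent.ES.R.stmtR N)
    (modHyp_hresk N A) (modHyp_hpdk N A hℓ hA)
  refine ⟨H.r, _, Pinf, Qinf, s15red_pkg_of_hyp hℓ hℓN hA H hcusp hQ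
    (modPR_of_hyp H hQ ?_ ?_)⟩
  · exact deuGood_good N A ℓ hℓ hℓN hA (stmtRedF N A ℓ hℓ hℓN hA) H.r
      (fun u hu D hD Q => H.mapDomain_r_principal u hu D hD Q)
  · intro ht
    exact deuRamInst_finite N A ℓ hℓ hA (stmtRedF N A ℓ hℓ hℓN hA) ht

/-- **the package exists** for `ℓ ∤ N`, `5 ≤ ℓ` or `(5 - ℓ) ∣ N` -/
theorem s15red_exists_pkg (N : ℕ) [NeZero N] (ℓ : ℕ) (hℓ : ℓ.Prime) (hℓN : ¬ ℓ ∣ N)
    (h : 5 ≤ ℓ ∨ (5 - ℓ) ∣ N) (A : ValuationSubring Kb) (hA : A.LiesOverPrime ℓ) :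
    ∃ (r : Place Kb (FF N) → Place (kA A) ↥(modularFunctionFieldFullC (kA A) N))
      (sp : JZero N →+ JZeroC (kA A) N) (Pinf : Place Kb (FF N))
      (Qinf : Place (kA A) ↥(modularFunctionFieldFullC (kA A) N)),
      ModPRG N A hℓ hA (stmtRedF N A ℓ hℓ hℓN hA) r sp Pinf Qinf := by
  rcases le_or_gt 5 ℓ with h5 | h5
  · exact s15red_exists_pkg_of_stmtI2 N ℓ hℓ hℓN A hA
      (Fermat.Agent.ES.I2.stmtI2All N ℓ hℓ h5 hℓN A hA)
  · exact s15red_exists_pkg_of_stmtI2 N ℓ hℓ hℓN A hA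
      (Fermat.Agent.ES.I2aux.stmtI2AuxAll N ℓ hℓ h5 hℓN (h.resolve_left (not_le.mpr h5)) A hA)

/-- Riemann's inequality for the reduction (for the finiteness of the Frobenius-fixed classes) -/
theorem ModPRG.lower {N : ℕ} [NeZero N] {A : ValuationSubring Kb} {ℓ : ℕ} {hℓ : ℓ.Prime}
    {hA : A.LiesOverPrime ℓ} {hRedF : StmtRedF N A}
    {r : Place Kb (FF N) → Place (kA A) ↥(modularFunctionFieldFullC (kA A) N)}
    {sp : JZero N →+ JZeroC (kA A) N} {Pinf : Place Kb (FF N)}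
    {Qinf : Place (kA A) ↥(modularFunctionFieldFullC (kA A) N)}
    (h : ModPRG N A hℓ hA hRedF r sp Pinf Qinf) :
    GPRiemannLower (kA A) ↥(modularFunctionFieldFullC (kA A) N) (gN N) :=
  h.modPR.nice_k.lower

end Fermat.Agent.S15


end ZBINJ_034_13
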