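/- GENERATED FILE (helper35, build-time optimisation, NOTES/ZB.md): verbatim concatenation of the modules
   Fermat.Agent.INJ.NormalOverlap
   Fermat.Agent.INJ.NormalSpecInv
   Fermat.Agent.UNIP.RegInstInv
   Fermat.Agent.UNIP.RegTransferGlue
   Fermat.Agent.UNIP.RegTransfer
   Do not edit; do not import together with these modules. -/
import Mathlib
import Fermat.Agent.ZB.INJ_027
import Fermat.Agent.ZB.INJ_034
import Fermat.Agent.ZB.UNIP_022
import Fermat.Agent.ZB.UNIP_027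

/-! ### bundled: `Fermat.Agent.INJ.NormalOverlap` -/
section ZBINJ_040_0

/-!
# (INJ) piece NORM, N4 (abstract): transfer of normality and primeness through an overlap

Two charts `i₁ : C₁ → B`, `i₂ : C₂ → B` of a curve with overlap `B = C₁[1/θ] = C₂[1/σ]`,
`θ σ = 1` in `B`, an element `p` (`= i₁ p₁ = i₂ p₂`) such that both charts are saturated in `B`
with respect to divisibility by `p`.  Then

* `normalAt_of_normal_overlap` : `Normal C₁ p₁` implies `NormalAt C₂ p₂ m` at every prime `m ∌ σ`;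
* `dvd_or_dvd_of_prime_overlap` : `Prime p₁` implies `p₂ ∣ x * y → p₂ ∣ x ∨ p₂ ∣ y`.

Special case `C₂ = B`, `i₂ = id`: normality and primeness pass to the localization `C₁[1/θ]`.
-/

set_option autoImplicit false
set_option linter.style.haveILetI false

namespace Fermat.Agent.INJ.Norm

variable {C₁ C₂ B : Type*} [CommRing C₁] [CommRing C₂] [CommRing B]

/-- denominators can be enlarged -/
theorem overlap_pow_up (i₁ : C₁ →+* B) (θ : C₁) {x : B} {k : ℕ} {c : C₁}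
    (hc : i₁ c = i₁ θ ^ k * x) {K : ℕ} (hK : k ≤ K) : ∃ c' : C₁, i₁ c' = i₁ θ ^ K * x := by
  refine ⟨θ ^ (K - k) * c, ?_⟩
  rw [map_mul, map_pow, hc, ← mul_assoc, ← pow_add, Nat.sub_add_cancel hK]

/-- a unit of the overlap can be cancelled in a divisibility -/
theorem overlap_dvd_cancel {p T S x : B} (hTS : T * S = 1) (k : ℕ) (h : p ∣ T ^ k * x) :
    p ∣ x := by
  have h1 : x = S ^ k * (T ^ k * x) := by
    rw [← mul_assoc, ← mul_pow, mul_comm S T, hTS, one_pow, one_mul]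
  rw [h1]
  exact Dvd.dvd.mul_left h _

/-- **Transfer of normality through the overlap.** -/
theorem normalAt_of_normal_overlap (i₁ : C₁ →+* B) (i₂ : C₂ →+* B) (p₁ : C₁) (p₂ : C₂)
    (hp : i₁ p₁ = i₂ p₂) (θ : C₁) (σ : C₂) (hθσ : i₁ θ * i₂ σ = 1)
    (hloc₁ : ∀ b : B, ∃ (k : ℕ) (c : C₁), i₁ c = i₁ θ ^ k * b)
    (hloc₂ : ∀ b : B, ∃ (k : ℕ) (c : C₂), i₂ c = i₂ σ ^ k * b)
    (hsat₁ : ∀ z : C₁, i₁ p₁ ∣ i₁ z → p₁ ∣ z)
    (hsat₂ : ∀ z : C₂, i₂ p₂ ∣ i₂ z → p₂ ∣ z)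
    (h₁ : Normal C₁ p₁) (m : Ideal C₂) [m.IsPrime] (hσ : σ ∉ m) : NormalAt C₂ p₂ m := by
  classical
  intro a b n c hrel
  have hσθ : i₂ σ * i₁ θ = 1 := by rw [mul_comm]; exact hθσ
  -- common denominator
  obtain ⟨ka, a₀, ha₀⟩ := hloc₁ (i₂ a)
  obtain ⟨kb, b₀, hb₀⟩ := hloc₁ (i₂ b)
  have hc : ∀ i : ℕ, ∃ (k : ℕ) (c₀ : C₁), i₁ c₀ = i₁ θ ^ k * i₂ (c i) := fun i => hloc₁ _
  choose kc c₀ hc₀ using hc
  set K : ℕ := ka + kb + ∑ i ∈ Finset.range n, kc i with hK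
  have hKa : ka ≤ K := by omega
  have hKb : kb ≤ K := by omega
  have hKc : ∀ i, i < n → kc i ≤ K := by
    intro i hi
    have : kc i ≤ ∑ i ∈ Finset.range n, kc i :=
      Finset.single_le_sum (f := kc) (fun _ _ => Nat.zero_le _) (Finset.mem_range.mpr hi)
    omega
  obtain ⟨a₁, ha₁⟩ := overlap_pow_up i₁ θ ha₀ hKa
  obtain ⟨b₁, hb₁⟩ := overlap_pow_up i₁ θ hb₀ hKb
  have hc' : ∀ i : ℕ, ∃ c₁ : C₁, i < n → i₁ c₁ = i₁ θ ^ K * i₂ (c i) := by
    intro i
    by_cases hi : i < n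
    · obtain ⟨c₁, hc₁⟩ := overlap_pow_up i₁ θ (hc₀ i) (hKc i hi)
      exact ⟨c₁, fun _ => hc₁⟩
    · exact ⟨0, fun h => absurd h hi⟩
  choose c₁ hc₁ using hc'
  -- the relation on the first chart
  have hrelB : i₁ (homRel (θ ^ K * a₁) b₁ n (fun i => c₁ i * θ ^ (K * (n - i - 1))))
      = i₁ θ ^ (2 * K * n) * i₂ (homRel a b n c) := by
    rw [map_homRel, map_homRel, homRel_def, homRel_def, mul_add, Finset.mul_sum]
    congr 1
    · rw [map_mul, map_pow, ha₁]; ring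
    · refine Finset.sum_congr rfl fun i hi => ?_
      have hi' : i < n := Finset.mem_range.mp hi
      obtain ⟨j, rfl⟩ : ∃ j, n = i + 1 + j := ⟨n - i - 1, by omega⟩
      have e1 : i + 1 + j - i = j + 1 := by omega
      have e2 : j + 1 - 1 = j := by omega
      rw [map_mul, map_mul, map_pow, map_pow, ha₁, hb₁, hc₁ i hi', e1, e2]
      ring
  have hdiv₁ : p₁ ∣ homRel (θ ^ K * a₁) b₁ n (fun i => c₁ i * θ ^ (K * (n - i - 1))) := by
    apply hsat₁
    rw [hrelB, hp]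
    exact Dvd.dvd.mul_left (map_dvd i₂ hrel) _
  obtain ⟨d₁, hd₁⟩ := h₁ _ _ _ _ hdiv₁
  -- back to the overlap
  have hB : i₂ p₂ ∣ i₁ θ ^ (2 * K) * (i₂ a - i₂ b * (i₂ σ ^ K * i₁ d₁)) := by
    have h2 := map_dvd i₁ hd₁
    rw [hp, map_sub, map_mul, map_mul, map_pow, ha₁, hb₁] at h2
    have h3 : i₁ θ ^ (2 * K) * (i₂ a - i₂ b * (i₂ σ ^ K * i₁ d₁))
        = i₁ θ ^ K * (i₁ θ ^ K * i₂ a) - i₁ θ ^ K * i₂ b * i₁ d₁ * (i₁ θ * i₂ σ) ^ K := by
      ring
    rw [h3, hθσ, one_pow, mul_one]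
    exact h2
  have hB' : i₂ p₂ ∣ i₂ a - i₂ b * (i₂ σ ^ K * i₁ d₁) := overlap_dvd_cancel hθσ _ hB
  obtain ⟨j, d₂, hd₂⟩ := hloc₂ (i₂ σ ^ K * i₁ d₁)
  refine ⟨σ ^ j, fun h => hσ (Ideal.IsPrime.mem_of_pow_mem inferInstance j h), d₂, ?_⟩
  apply hsat₂
  rw [map_sub, map_mul, map_mul, map_pow, hd₂]
  have : i₂ σ ^ j * i₂ a - i₂ b * (i₂ σ ^ j * (i₂ σ ^ K * i₁ d₁))
      = i₂ σ ^ j * (i₂ a - i₂ b * (i₂ σ ^ K * i₁ d₁)) := by ring
  rw [this]
  exact Dvd.dvd.mul_left hB' _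

/-- **Transfer of primeness through the overlap.** -/
theorem dvd_or_dvd_of_prime_overlap (i₁ : C₁ →+* B) (i₂ : C₂ →+* B) (p₁ : C₁) (p₂ : C₂)
    (hp : i₁ p₁ = i₂ p₂) (θ : C₁) (σ : C₂) (hθσ : i₁ θ * i₂ σ = 1)
    (hloc₁ : ∀ b : B, ∃ (k : ℕ) (c : C₁), i₁ c = i₁ θ ^ k * b)
    (hsat₁ : ∀ z : C₁, i₁ p₁ ∣ i₁ z → p₁ ∣ z)
    (hsat₂ : ∀ z : C₂, i₂ p₂ ∣ i₂ z → p₂ ∣ z)
    (h₁ : Prime p₁) {x y : C₂} (hxy : p₂ ∣ x * y) : p₂ ∣ x ∨ p₂ ∣ y := by
  obtain ⟨kx, x₁, hx₁⟩ := hloc₁ (i₂ x)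
  obtain ⟨ky, y₁, hy₁⟩ := hloc₁ (i₂ y)
  have h1 : p₁ ∣ x₁ * y₁ := by
    apply hsat₁
    rw [map_mul, hx₁, hy₁, hp]
    have : i₁ θ ^ kx * i₂ x * (i₁ θ ^ ky * i₂ y) = i₁ θ ^ kx * i₁ θ ^ ky * i₂ (x * y) := by
      rw [map_mul]; ring
    rw [this]
    exact Dvd.dvd.mul_left (map_dvd i₂ hxy) _
  rcases h₁.dvd_or_dvd h1 with h | h
  · left
    apply hsat₂
    have h2 := map_dvd i₁ h
    rw [hx₁, hp] at h2
    exact overlap_dvd_cancel hθσ _ h2
  · right
    apply hsat₂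
    have h2 := map_dvd i₁ h
    rw [hy₁, hp] at h2
    exact overlap_dvd_cancel hθσ _ h2

end Fermat.Agent.INJ.Norm


end ZBINJ_040_0

/-! ### bundled: `Fermat.Agent.INJ.NormalSpecInv` -/
section ZBINJ_040_1

/-!
# (INJ) piece NORM, N4 (c): the chart at infinity

Charts `C₁ = integralClosure A₀[t]`, `C₂ = integralClosure A₀[t⁻¹]` of `Lf`, overlap
`B = integralClosure A₀[t, t⁻¹] = C₁[1/t] = C₂[1/t⁻¹]`; both charts are saturated in `B` for
divisibility by `π` (`tsg_sat`).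

* `chart_inv_normalAt_of_normal` : `Normal C₁ π` gives `NormalAt C₂ π m` at the primes `m ∌ t⁻¹`;
* `chart_inv_normal_of` : `Normal C₁ π` and `NormalAt C₂ π m` at the maximal ideals
  `m ∋ π, t⁻¹` give `Normal C₂ π`;
* `chart_inv_prime_of` : `Prime π` in `C₁` gives `Prime π` in `C₂`;
* `chart_inv_isIntegrallyClosed_of` : hence `IsIntegrallyClosed (C₂ ⧸ span {π})`.
-/

set_option autoImplicit false
set_option linter.unusedSectionVars false
set_option linter.style.haveILetI false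

namespace Fermat.Agent.INJ.Norm

open Polynomial IntermediateField AlgebraicCurve Fermat.Agent.INJ

universe u

section Inv

variable {A₀ E Lf : Type u} [CommRing A₀] [IsDomain A₀] [IsDiscreteValuationRing A₀]
  [Field E] [Algebra A₀ E] [IsFractionRing A₀ E] [CharZero E]
  [Field Lf] [Algebra E Lf] [Algebra A₀ Lf] [IsScalarTower A₀ E Lf]
  {π : A₀}

/-- the inclusions of integral closures are compatible with the structure maps -/
theorem tsgIncl_algebraMap {R R' : Subalgebra A₀ Lf} (h : R ≤ R') (a : A₀) :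
    tsgIncl h (algebraMap A₀ (integralClosure R Lf) a)
      = algebraMap A₀ (integralClosure R' Lf) a :=
  Subtype.ext rfl

/-- the overlap is the localization of the chart `A₀[u]` at `u` -/
theorem overlap_loc {u u' : Lf} (hu : Transcendental E u) (huu' : u * u' = 1)
    {R' : Subalgebra A₀ Lf} (hR' : R' = Algebra.adjoin A₀ {u, u'})
    (hsub : Algebra.adjoin A₀ ({u} : Set Lf) ≤ R') (b : integralClosure R' Lf) :
    ∃ (k : ℕ) (c : integralClosure (Algebra.adjoin A₀ {u}) Lf),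
      tsgIncl hsub c = tsgIncl hsub (chartElt hu X) ^ k * b := by
  subst hR'
  obtain ⟨k, hk⟩ := zch_exists_pow_mul_isIntegral huu' b.2
  refine ⟨k, ⟨_, hk⟩, Subtype.ext ?_⟩
  rw [Subalgebra.coe_mul, SubmonoidClass.coe_pow, tsgIncl_coe, tsgIncl_coe, chartElt_coe,
    aeval_X]

/-- the chart `A₀[u]` is saturated in the overlap -/
theorem overlap_sat (hπ : Irreducible π) {u u' : Lf} (hu : Transcendental E u)
    (huu' : u * u' = 1)
    {R' : Subalgebra A₀ Lf} (hR' : R' = Algebra.adjoin A₀ {u, u'})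
    (hsub : Algebra.adjoin A₀ ({u} : Set Lf) ≤ R')
    (z : integralClosure (Algebra.adjoin A₀ {u}) Lf)
    (hz : tsgIncl hsub (algebraMap A₀ (integralClosure (Algebra.adjoin A₀ {u}) Lf) π) ∣
      tsgIncl hsub z) :
    algebraMap A₀ (integralClosure (Algebra.adjoin A₀ {u}) Lf) π ∣ z := by
  subst hR'
  rw [tsgIncl_algebraMap] at hz
  obtain ⟨y', hy', hzy'⟩ := (tsg_dvd_iff _ _).mp hz
  rw [tsgIncl_coe] at hzy'
  exact (tsg_dvd_iff _ _).mpr ⟨y', tsg_sat hπ hu huu' z.2 hy' hzy', hzy'⟩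

/-- the two coordinates are inverse to each other on the overlap -/
theorem overlap_mul {u u' : Lf} (hu : Transcendental E u) (hu' : Transcendental E u')
    (huu' : u * u' = 1) {R' : Subalgebra A₀ Lf}
    (hsub : Algebra.adjoin A₀ ({u} : Set Lf) ≤ R')
    (hsub' : Algebra.adjoin A₀ ({u'} : Set Lf) ≤ R') :
    tsgIncl hsub (chartElt hu X) * tsgIncl hsub' (chartElt hu' X) = 1 := by
  apply Subtype.ext
  rw [Subalgebra.coe_mul, tsgIncl_coe, tsgIncl_coe, chartElt_coe, chartElt_coe, aeval_X, aeval_X]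
  exact huu'

/-- **Chart at infinity, finite points**: `NormalAt` at the primes not containing `t⁻¹`, from
the normality of the finite chart. -/
theorem chart_inv_normalAt_of_normal (hπ : Irreducible π) {t : Lf} (ht : Transcendental E t)
    (hinv : Transcendental E t⁻¹)
    (h₁ : Normal (integralClosure (Algebra.adjoin A₀ {t}) Lf)
      (algebraMap A₀ (integralClosure (Algebra.adjoin A₀ {t}) Lf) π))
    (m : Ideal (integralClosure (Algebra.adjoin A₀ {t⁻¹}) Lf)) [m.IsPrime]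
    (hσ : chartElt hinv X ∉ m) :
    NormalAt (integralClosure (Algebra.adjoin A₀ {t⁻¹}) Lf)
      (algebraMap A₀ (integralClosure (Algebra.adjoin A₀ {t⁻¹}) Lf) π) m := by
  have ht0 : t ≠ 0 := by
    rintro rfl
    exact ht isAlgebraic_zero
  have htt' : t * t⁻¹ = 1 := mul_inv_cancel₀ ht0
  have ht't : t⁻¹ * t = 1 := inv_mul_cancel₀ ht0
  have hsub₁ : Algebra.adjoin A₀ ({t} : Set Lf) ≤ Algebra.adjoin A₀ {t, t⁻¹} :=
    Algebra.adjoin_mono (by intro x hx; exact Or.inl hx)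
  have hsub₂ : Algebra.adjoin A₀ ({t⁻¹} : Set Lf) ≤ Algebra.adjoin A₀ {t, t⁻¹} :=
    Algebra.adjoin_mono (by intro x hx; exact Or.inr hx)
  have hR₂ : Algebra.adjoin A₀ ({t, t⁻¹} : Set Lf) = Algebra.adjoin A₀ {t⁻¹, t} := by
    rw [Set.pair_comm]
  exact normalAt_of_normal_overlap (tsgIncl hsub₁) (tsgIncl hsub₂)
    (algebraMap A₀ (integralClosure (Algebra.adjoin A₀ {t}) Lf) π)
    (algebraMap A₀ (integralClosure (Algebra.adjoin A₀ {t⁻¹}) Lf) π)
    ((tsgIncl_algebraMap hsub₁ π).trans (tsgIncl_algebraMap hsub₂ π).symm)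
    (chartElt ht X) (chartElt hinv X) (overlap_mul ht hinv htt' hsub₁ hsub₂)
    (overlap_loc ht htt' rfl hsub₁) (overlap_loc hinv ht't hR₂ hsub₂)
    (overlap_sat hπ ht htt' rfl hsub₁) (overlap_sat hπ hinv ht't hR₂ hsub₂) h₁ m hσ

/-- **Chart at infinity**: `Normal C₂ π` from the normality of the finite chart and the
normality at the points at infinity. -/
theorem chart_inv_normal_of (hπ : Irreducible π) {t : Lf} (ht : Transcendental E t)
    (hinv : Transcendental E t⁻¹)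
    (h₁ : Normal (integralClosure (Algebra.adjoin A₀ {t}) Lf)
      (algebraMap A₀ (integralClosure (Algebra.adjoin A₀ {t}) Lf) π))
    (hinf : ∀ m : Ideal (integralClosure (Algebra.adjoin A₀ {t⁻¹}) Lf), m.IsMaximal →
      algebraMap A₀ (integralClosure (Algebra.adjoin A₀ {t⁻¹}) Lf) π ∈ m →
      chartElt hinv X ∈ m →
      NormalAt (integralClosure (Algebra.adjoin A₀ {t⁻¹}) Lf)
        (algebraMap A₀ (integralClosure (Algebra.adjoin A₀ {t⁻¹}) Lf) π) m) :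
    Normal (integralClosure (Algebra.adjoin A₀ {t⁻¹}) Lf)
      (algebraMap A₀ (integralClosure (Algebra.adjoin A₀ {t⁻¹}) Lf) π) := by
  refine normal_of_forall_maximal fun m hm hπm => ?_
  by_cases hσ : chartElt hinv X ∈ m
  · exact hinf m hm hπm hσ
  · haveI := hm.isPrime
    exact chart_inv_normalAt_of_normal hπ ht hinv h₁ m hσ

/-- **Chart at infinity**: `π` is prime in `C₂` if it is prime in `C₁`. -/
theorem chart_inv_prime_of (hπ : Irreducible π) {t : Lf} (ht : Transcendental E t)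
    (hinv : Transcendental E t⁻¹)
    (h₁ : Prime (algebraMap A₀ (integralClosure (Algebra.adjoin A₀ {t}) Lf) π)) :
    Prime (algebraMap A₀ (integralClosure (Algebra.adjoin A₀ {t⁻¹}) Lf) π) := by
  have ht0 : t ≠ 0 := by
    rintro rfl
    exact ht isAlgebraic_zero
  have htt' : t * t⁻¹ = 1 := mul_inv_cancel₀ ht0
  have ht't : t⁻¹ * t = 1 := inv_mul_cancel₀ ht0
  have hsub₁ : Algebra.adjoin A₀ ({t} : Set Lf) ≤ Algebra.adjoin A₀ {t, t⁻¹} :=
    Algebra.adjoin_mono (by intro x hx; exact Or.inl hx)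
  have hsub₂ : Algebra.adjoin A₀ ({t⁻¹} : Set Lf) ≤ Algebra.adjoin A₀ {t, t⁻¹} :=
    Algebra.adjoin_mono (by intro x hx; exact Or.inr hx)
  have hR₂ : Algebra.adjoin A₀ ({t, t⁻¹} : Set Lf) = Algebra.adjoin A₀ {t⁻¹, t} := by
    rw [Set.pair_comm]
  have hinj := zch_algebraMap_injective (A₀ := A₀) (E := E) (L := Lf)
  have hπ0 : algebraMap A₀ Lf π ≠ 0 := (map_ne_zero_iff _ hinj).mpr hπ.ne_zero
  refine ⟨?_, tsg_not_isUnit hinv hπ, ?_⟩
  · intro h0
    apply hπ0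
    have := congrArg Subtype.val h0
    exact this
  · intro x y hxy
    exact dvd_or_dvd_of_prime_overlap (tsgIncl hsub₁) (tsgIncl hsub₂)
      (algebraMap A₀ (integralClosure (Algebra.adjoin A₀ {t}) Lf) π)
      (algebraMap A₀ (integralClosure (Algebra.adjoin A₀ {t⁻¹}) Lf) π)
      ((tsgIncl_algebraMap hsub₁ π).trans (tsgIncl_algebraMap hsub₂ π).symm)
      (chartElt ht X) (chartElt hinv X) (overlap_mul ht hinv htt' hsub₁ hsub₂)
      (overlap_loc ht htt' rfl hsub₁)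
      (overlap_sat hπ ht htt' rfl hsub₁) (overlap_sat hπ hinv ht't hR₂ hsub₂) h₁ hxy

/-- **Chart at infinity**: the special fibre of `C₂` is an integrally closed domain. -/
theorem chart_inv_isIntegrallyClosed_of (hπ : Irreducible π) {t : Lf} (ht : Transcendental E t)
    (hinv : Transcendental E t⁻¹)
    (hp₁ : Prime (algebraMap A₀ (integralClosure (Algebra.adjoin A₀ {t}) Lf) π))
    (h₁ : Normal (integralClosure (Algebra.adjoin A₀ {t}) Lf)
      (algebraMap A₀ (integralClosure (Algebra.adjoin A₀ {t}) Lf) π))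
    (hinf : ∀ m : Ideal (integralClosure (Algebra.adjoin A₀ {t⁻¹}) Lf), m.IsMaximal →
      algebraMap A₀ (integralClosure (Algebra.adjoin A₀ {t⁻¹}) Lf) π ∈ m →
      chartElt hinv X ∈ m →
      NormalAt (integralClosure (Algebra.adjoin A₀ {t⁻¹}) Lf)
        (algebraMap A₀ (integralClosure (Algebra.adjoin A₀ {t⁻¹}) Lf) π) m) :
    IsIntegrallyClosed (integralClosure (Algebra.adjoin A₀ {t⁻¹}) Lf ⧸
      Ideal.span {algebraMap A₀ (integralClosure (Algebra.adjoin A₀ {t⁻¹}) Lf) π}) :=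
  isIntegrallyClosed_quotient_of_normal (chart_inv_prime_of hπ ht hinv hp₁)
    (chart_inv_normal_of hπ ht hinv h₁ hinf)

end Inv

end Fermat.Agent.INJ.Norm


end ZBINJ_040_1

/-! ### bundled: `Fermat.Agent.UNIP.RegInstInv` -/
section ZBINJ_040_2

/-!
# UNIP piece U5-RegInst, chart at infinity

The consequences of `TSHyp π t` for the chart `C₂ = integralClosure A₀[t⁻¹] Lf`:
`TSHyp.inv_prime`, `TSHyp.inv_isDomain`, `TSHyp.inv_isIntegrallyClosed`, `TSHyp.inv_locGen`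
(and `TSHyp.inv_transc`, `TSHyp.inv_fd`, `TSHyp.normal`, `TSHyp.inv_normal`).
-/

set_option autoImplicit false
set_option linter.style.haveILetI false
set_option linter.unusedSectionVars false
set_option synthInstance.maxHeartbeats 400000
set_option maxHeartbeats 1000000

namespace Fermat.Agent.UNIP.RegInst

open Polynomial AlgebraicCurve IntermediateField Fermat.Agent.S24 Fermat.Agent.INJ

universe u

variable {A₀ E Lf : Type u} [CommRing A₀] [IsDomain A₀] [IsDiscreteValuationRing A₀]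
  [Field E] [Algebra A₀ E] [IsFractionRing A₀ E] [CharZero E]
  [Field Lf] [Algebra E Lf] [Algebra A₀ Lf] [IsScalarTower A₀ E Lf]
  {π : A₀} {t : Lf}

theorem TSHyp.ne_zero (h : TSHyp (E := E) π t) : t ≠ 0 := by
  rintro rfl
  exact h.transc isAlgebraic_zero

theorem TSHyp.inv_transc (h : TSHyp (E := E) π t) : Transcendental E t⁻¹ :=
  zch_transcendental_inv h.transc

theorem TSHyp.inv_fd (h : TSHyp (E := E) π t) : FiniteDimensional E⟮t⁻¹⟯ Lf :=
  haveI := h.fd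
  tsg_finiteDimensional_of_eq (zch_adjoin_inv t)

theorem TSHyp.inv_good (h : TSHyp (E := E) π t) : TSGoodBasis (E := E) π t⁻¹ :=
  haveI := h.fd
  ChartInv.tsGoodBasis_inv h.irr h.transc h.good

/-- the special fibre of the chart `t` is normal (element form) -/
theorem TSHyp.normal (h : TSHyp (E := E) π t) :
    Norm.Normal (integralClosure (Algebra.adjoin A₀ {t}) Lf)
      (algebraMap A₀ (integralClosure (Algebra.adjoin A₀ {t}) Lf) π) := by
  haveI := h.fd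
  obtain ⟨S, e, hS, hb, he, hζ, htame⟩ := h.ram
  exact Norm.tameSpec_normal π h.irr t h.transc h.good S hS hb e he hζ htame h.place

/-- the special fibre of the chart `t⁻¹` is normal (element form) -/
theorem TSHyp.inv_normal (h : TSHyp (E := E) π t) :
    Norm.Normal (integralClosure (Algebra.adjoin A₀ {t⁻¹}) Lf)
      (algebraMap A₀ (integralClosure (Algebra.adjoin A₀ {t⁻¹}) Lf) π) := by
  haveI := h.fd
  haveI := h.inv_fd
  obtain ⟨S, e, hS, hb, he, hζ, htame⟩ := h.ram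
  exact Norm.chart_inv_normal_of h.irr h.transc h.inv_transc h.normal
    (fun m hm hπm hσm => Norm.chart_inv_normalAt h.irr h.transc h.inv_transc h.inv_good S hb e he
      hζ htame.2 h.place m hm hπm hσm)

/-- (R1) at infinity: `π` is a prime element of the chart `C₂ = integralClosure A₀[t⁻¹] Lf`. -/
theorem TSHyp.inv_prime (h : TSHyp (E := E) π t) :
    Prime (algebraMap A₀ (integralClosure (Algebra.adjoin A₀ {t⁻¹}) Lf) π) :=
  Norm.chart_inv_prime_of h.irr h.transc h.inv_transc h.prime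

/-- (R1) at infinity: the special fibre `C₂ / π` is a domain. -/
theorem TSHyp.inv_isDomain (h : TSHyp (E := E) π t) :
    IsDomain (integralClosure (Algebra.adjoin A₀ {t⁻¹}) Lf ⧸
      Ideal.span {algebraMap A₀ (integralClosure (Algebra.adjoin A₀ {t⁻¹}) Lf) π}) := by
  have hp := h.inv_prime
  haveI : (Ideal.span {algebraMap A₀ (integralClosure (Algebra.adjoin A₀ {t⁻¹}) Lf) π}).IsPrime :=
    (Ideal.span_singleton_prime hp.ne_zero).mpr hp
  exact Ideal.Quotient.isDomain _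

/-- (R2) at infinity: the special fibre `C₂ / π` is integrally closed. -/
theorem TSHyp.inv_isIntegrallyClosed (h : TSHyp (E := E) π t) :
    IsIntegrallyClosed (integralClosure (Algebra.adjoin A₀ {t⁻¹}) Lf ⧸
      Ideal.span {algebraMap A₀ (integralClosure (Algebra.adjoin A₀ {t⁻¹}) Lf) π}) :=
  Norm.isIntegrallyClosed_quotient_of_normal h.inv_prime h.inv_normal

/-- **Reg at infinity**: every maximal ideal `𝔫 ∋ π` of the chart `C₂` is locally generated by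
`π` and one more element. -/
theorem TSHyp.inv_locGen (h : TSHyp (E := E) π t)
    (𝔫 : Ideal (integralClosure (Algebra.adjoin A₀ {t⁻¹}) Lf)) (h𝔫 : 𝔫.IsMaximal)
    (hπ𝔫 : algebraMap A₀ (integralClosure (Algebra.adjoin A₀ {t⁻¹}) Lf) π ∈ 𝔫) :
    ∃ s ∈ 𝔫, ∀ x ∈ 𝔫, ∃ u, u ∉ 𝔫 ∧
      u * x ∈ Ideal.span {algebraMap A₀ (integralClosure (Algebra.adjoin A₀ {t⁻¹}) Lf) π, s} := by
  haveI := h.inv_fd
  haveI := h.inv_isDomain
  haveI := h.inv_isIntegrallyClosed
  exact FibreDVR.chart_locGen_of_isIntegrallyClosed (E := E) h.irr h.inv_transc 𝔫 h𝔫 hπ𝔫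

end Fermat.Agent.UNIP.RegInst


end ZBINJ_040_2

/-! ### bundled: `Fermat.Agent.UNIP.RegTransferGlue` -/
section ZBINJ_040_3
/-
UNIP (item 34, S34/S35), piece "RegTransfer" of U5, part 2 (helper20): gluing charts.

`A₀` a discrete valuation ring, uniformizer `π`, `E = Frac A₀`, `Lf / E` a field, charts
`C_x = integralClosure (adjoin A₀ {x}) Lf` for transcendental `x`.

* `regT_sat` : `C_x` is saturated in `C_x[1/f]` for divisibility by `π`, `f = F(x)`, `π ∤ F`;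
* `regT_not_dvd` : `π ∤ F(x)` in `C_x` if `π ∤ F` in `A₀[X]`;
* `regT_overlap_normalAt`, `regT_overlap_dvd_or_dvd` : transfer of normality / primeness of the
  special fibre through an overlap `C_{x₁}[1/F₁(x₁)] = C_{x₂}[1/F₂(x₂)]`, `F₁(x₁) F₂(x₂) = 1`
  (instances of `INJ.Norm.normalAt_of_normal_overlap`, `dvd_or_dvd_of_prime_overlap`);
* `regT_glue` : for `v = (t + c)⁻¹`, `c ∈ A₀`: `π` is prime in `C_v` and `C_v / π` is normal as soon
  as this holds on the two charts `C_t`, `C_{t⁻¹}`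
  (`Spec C_v = D(v) ∪ D(1 - c v)`, `C_v[1/v] = C_t[1/(t+c)]`, `C_v[1/(1-cv)] = C_{t⁻¹}[1/(1+c t⁻¹)]`).
-/

set_option autoImplicit false
set_option linter.unusedSectionVars false
set_option linter.unusedVariables false
set_option linter.style.haveILetI false
set_option linter.style.longLine false

namespace Fermat.Agent.UNIP

open Polynomial IntermediateField Fermat.Agent.INJ Fermat.Agent.INJ.Norm

universe u

section Glue

variable {A₀ E Lf : Type u} [CommRing A₀] [IsDomain A₀] [IsDiscreteValuationRing A₀]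
  [Field E] [Algebra A₀ E] [IsFractionRing A₀ E] [CharZero E]
  [Field Lf] [Algebra E Lf] [Algebra A₀ Lf] [IsScalarTower A₀ E Lf]
  {π : A₀}

/-- `π ∤ F(x)` in `A₀[x]` if `π ∤ F` in `A₀[X]` -/
theorem regT_not_dvd_chartEquiv {x : Lf} (hx : Transcendental E x) (F : A₀[X])
    (hF : ¬ C π ∣ F) :
    ¬ algebraMap A₀ (Algebra.adjoin A₀ {x}) π ∣ chartEquiv hx F := by
  intro h
  rw [← chartEquiv_C hx] at h
  obtain ⟨d, hd⟩ := h
  apply hF
  refine ⟨(chartEquiv hx).symm d, ?_⟩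
  apply (chartEquiv hx).injective
  rw [hd, map_mul, AlgEquiv.apply_symm_apply]

theorem regT_not_dvd_chartEquiv_pow (hπ : Irreducible π) {x : Lf} (hx : Transcendental E x)
    (F : A₀[X]) (hF : ¬ C π ∣ F) (k : ℕ) :
    ¬ algebraMap A₀ (Algebra.adjoin A₀ {x}) π ∣ (chartEquiv hx F) ^ k :=
  fun h => regT_not_dvd_chartEquiv hx F hF ((chart_prime hx hπ).dvd_of_dvd_pow h)

theorem regT_aeval_mem (x : Lf) (F : A₀[X]) : aeval x F ∈ Algebra.adjoin A₀ ({x} : Set Lf) := by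
  rw [Algebra.adjoin_singleton_eq_range_aeval]
  exact ⟨F, rfl⟩

/-- **Saturation.**  `z ∈ C_x`, `z = π y` with `y ∈ C_x[1/f]`, `f = F(x)`, `π ∤ F`: then
`y ∈ C_x`. -/
theorem regT_sat (hπ : Irreducible π) {x : Lf} (hx : Transcendental E x) (F : A₀[X])
    (hF : ¬ C π ∣ F) {g : Lf} (hfg : aeval x F * g = 1) {z y : Lf}
    (hz : IsIntegral (Algebra.adjoin A₀ {x}) z)
    (hy : IsIntegral (Algebra.adjoin A₀ {x, g}) y) (hzy : z = algebraMap A₀ Lf π * y) :
    IsIntegral (Algebra.adjoin A₀ {x}) y := by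
  obtain ⟨k, hk⟩ := regT_exists_pow_mul_isIntegral hfg (regT_aeval_mem x F) hy
  haveI := chart_isIntegrallyClosed (A₀ := A₀) (E := E) hx
  have hπR := chart_prime hx hπ
  have hf := regT_not_dvd_chartEquiv_pow hπ hx F hF k
  have hinj := zch_algebraMap_injective (A₀ := A₀) (E := E) (L := Lf)
  have hπ0 : algebraMap A₀ Lf π ≠ 0 := (map_ne_zero_iff _ hinj).mpr hπ.ne_zero
  have h' : ((chartEquiv hx F) ^ k) • z
      = (algebraMap A₀ (Algebra.adjoin A₀ {x}) π) • (aeval x F ^ k * y) := by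
    rw [Algebra.smul_def, Algebra.smul_def]
    have e1 : algebraMap (Algebra.adjoin A₀ {x}) Lf ((chartEquiv hx F) ^ k)
        = aeval x F ^ k := by
      rw [map_pow]
      congr 1
    have e2 : algebraMap (Algebra.adjoin A₀ {x}) Lf (algebraMap A₀ (Algebra.adjoin A₀ {x}) π)
        = algebraMap A₀ Lf π := rfl
    rw [e1, e2, hzy]
    ring
  obtain ⟨w, hw, hzw⟩ := exists_isIntegral_smul_eq hπR hf hz hk h'
  have hwy : w = y := by
    have e2 : algebraMap (Algebra.adjoin A₀ {x}) Lf (algebraMap A₀ (Algebra.adjoin A₀ {x}) π)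
        = algebraMap A₀ Lf π := rfl
    rw [Algebra.smul_def, e2, hzy] at hzw
    exact (mul_left_cancel₀ hπ0 hzw).symm
  rw [← hwy]
  exact hw

/-- `π ∤ F(x)` in the chart `C_x` if `π ∤ F` in `A₀[X]` -/
theorem regT_not_dvd (hπ : Irreducible π) {x : Lf} (hx : Transcendental E x) (F : A₀[X])
    (hF : ¬ C π ∣ F) :
    ¬ ∃ c : Lf, IsIntegral (Algebra.adjoin A₀ ({x} : Set Lf)) c ∧
      aeval x F = algebraMap A₀ Lf π * c := by
  rintro ⟨c, hc, h⟩
  haveI := chart_isIntegrallyClosed (A₀ := A₀) (E := E) hx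
  have hπR := chart_prime hx hπ
  have hf := regT_not_dvd_chartEquiv hx F hF
  have h' : (chartEquiv hx F) • (1 : Lf)
      = (algebraMap A₀ (Algebra.adjoin A₀ {x}) π) • c := by
    rw [Algebra.smul_def, Algebra.smul_def, mul_one]
    exact h
  obtain ⟨w, hw, h1⟩ := exists_isIntegral_smul_eq hπR hf isIntegral_one hc h'
  apply tsg_not_isUnit (A₀ := A₀) (E := E) hx hπ
  refine isUnit_iff_exists_inv.mpr ⟨⟨w, hw⟩, ?_⟩
  apply Subtype.ext
  rw [Algebra.smul_def] at h1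
  exact h1.symm

/-- the element `F(x)` of the chart `C_x` -/
noncomputable def regTElt (x : Lf) (F : A₀[X]) :
    integralClosure (Algebra.adjoin A₀ ({x} : Set Lf)) Lf :=
  ⟨aeval x F, isIntegral_algebraMap (R := Algebra.adjoin A₀ ({x} : Set Lf))
    (x := ⟨aeval x F, regT_aeval_mem x F⟩)⟩

theorem regTElt_coe (x : Lf) (F : A₀[X]) : ((regTElt x F : _) : Lf) = aeval x F := rfl

theorem regT_tsgIncl_algebraMap {R R' : Subalgebra A₀ Lf} (h : R ≤ R') (a : A₀) :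
    tsgIncl h (algebraMap A₀ (integralClosure R Lf) a) = algebraMap A₀ (integralClosure R' Lf) a :=
  Subtype.ext rfl

theorem regT_coe_pow_mul {R : Subalgebra A₀ Lf} (a b : integralClosure R Lf) (k : ℕ) :
    ((a ^ k * b : integralClosure R Lf) : Lf) = (a : Lf) ^ k * (b : Lf) := by
  rw [MulMemClass.coe_mul, SubmonoidClass.coe_pow]

section Overlap

variable {x₁ x₂ : Lf} (F₁ F₂ : A₀[X])

theorem regT_adjoin_pair_le_left
    (hx₂mem : x₂ ∈ Algebra.adjoin A₀ ({x₁, aeval x₂ F₂} : Set Lf)) :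
    Algebra.adjoin A₀ ({x₁, x₂} : Set Lf) ≤ Algebra.adjoin A₀ ({x₁, aeval x₂ F₂} : Set Lf) := by
  rw [Algebra.adjoin_le_iff]
  rintro w hw
  rcases hw with rfl | hw
  · exact Algebra.subset_adjoin (Set.mem_insert _ _)
  · rw [Set.mem_singleton_iff] at hw
    rw [hw]
    exact hx₂mem

theorem regT_adjoin_pair_le_right
    (hx₁mem : x₁ ∈ Algebra.adjoin A₀ ({x₂, aeval x₁ F₁} : Set Lf)) :
    Algebra.adjoin A₀ ({x₁, x₂} : Set Lf) ≤ Algebra.adjoin A₀ ({x₂, aeval x₁ F₁} : Set Lf) := by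
  rw [Algebra.adjoin_le_iff]
  rintro w hw
  rcases hw with rfl | hw
  · exact hx₁mem
  · rw [Set.mem_singleton_iff] at hw
    rw [hw]
    exact Algebra.subset_adjoin (Set.mem_insert _ _)

theorem regT_adjoin_le_pair_left :
    Algebra.adjoin A₀ ({x₁} : Set Lf) ≤ Algebra.adjoin A₀ ({x₁, x₂} : Set Lf) :=
  Algebra.adjoin_mono (by
    intro w hw
    rw [Set.mem_singleton_iff] at hw
    rw [hw]
    exact Set.mem_insert _ _)

theorem regT_adjoin_le_pair_right :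
    Algebra.adjoin A₀ ({x₂} : Set Lf) ≤ Algebra.adjoin A₀ ({x₁, x₂} : Set Lf) :=
  Algebra.adjoin_mono (by
    intro w hw
    rw [Set.mem_singleton_iff] at hw
    rw [hw]
    exact Set.mem_insert_of_mem _ (Set.mem_singleton _))

/-- localisation property of one side of an overlap -/
theorem regT_overlap_loc {x y : Lf} (F : A₀[X]) {g : Lf} (hfg : aeval x F * g = 1)
    {R' : Subalgebra A₀ Lf} (h₁ : Algebra.adjoin A₀ ({x} : Set Lf) ≤ R')
    (h₂ : R' ≤ Algebra.adjoin A₀ ({x, g} : Set Lf))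
    (b : integralClosure R' Lf) :
    ∃ (k : ℕ) (c : integralClosure (Algebra.adjoin A₀ ({x} : Set Lf)) Lf),
      tsgIncl h₁ c = tsgIncl h₁ (regTElt x F) ^ k * b := by
  obtain ⟨k, hk⟩ := regT_exists_pow_mul_isIntegral hfg (regT_aeval_mem x F)
    (regT_isIntegral_mono h₂ b.2)
  refine ⟨k, ⟨_, hk⟩, ?_⟩
  apply Subtype.ext
  rw [regT_coe_pow_mul, tsgIncl_coe, tsgIncl_coe, regTElt_coe]

/-- saturation property of one side of an overlap -/
theorem regT_overlap_sat (hπ : Irreducible π) {x : Lf} (hx : Transcendental E x) (F : A₀[X])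
    (hF : ¬ C π ∣ F) {g : Lf} (hfg : aeval x F * g = 1)
    {R' : Subalgebra A₀ Lf} (h₁ : Algebra.adjoin A₀ ({x} : Set Lf) ≤ R')
    (h₂ : R' ≤ Algebra.adjoin A₀ ({x, g} : Set Lf))
    (z : integralClosure (Algebra.adjoin A₀ ({x} : Set Lf)) Lf)
    (h : tsgIncl h₁ (algebraMap A₀ (integralClosure (Algebra.adjoin A₀ ({x} : Set Lf)) Lf) π) ∣
      tsgIncl h₁ z) :
    algebraMap A₀ (integralClosure (Algebra.adjoin A₀ ({x} : Set Lf)) Lf) π ∣ z := by
  obtain ⟨d, hd⟩ := h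
  have hd' : (z : Lf) = algebraMap A₀ Lf π * (d : Lf) := by
    have := congrArg Subtype.val hd
    rw [MulMemClass.coe_mul, tsgIncl_coe, tsgIncl_coe] at this
    exact this
  rw [regT_dvd_iff]
  exact ⟨(d : Lf), regT_sat hπ hx F hF hfg z.2 (regT_isIntegral_mono h₂ d.2) hd', hd'⟩

variable {F₁ F₂}

/-- **Transfer of normality through an overlap of two charts.** -/
theorem regT_overlap_normalAt (hπ : Irreducible π)
    (hx₁ : Transcendental E x₁) (hx₂ : Transcendental E x₂)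
    (hF₁ : ¬ C π ∣ F₁) (hF₂ : ¬ C π ∣ F₂)
    (h12 : aeval x₁ F₁ * aeval x₂ F₂ = 1)
    (hx₂mem : x₂ ∈ Algebra.adjoin A₀ ({x₁, aeval x₂ F₂} : Set Lf))
    (hx₁mem : x₁ ∈ Algebra.adjoin A₀ ({x₂, aeval x₁ F₁} : Set Lf))
    (hN : Normal (integralClosure (Algebra.adjoin A₀ ({x₁} : Set Lf)) Lf)
      (algebraMap A₀ (integralClosure (Algebra.adjoin A₀ ({x₁} : Set Lf)) Lf) π))
    (m : Ideal (integralClosure (Algebra.adjoin A₀ ({x₂} : Set Lf)) Lf)) [m.IsPrime]
    (hσ : regTElt x₂ F₂ ∉ m) :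
    NormalAt (integralClosure (Algebra.adjoin A₀ ({x₂} : Set Lf)) Lf)
      (algebraMap A₀ (integralClosure (Algebra.adjoin A₀ ({x₂} : Set Lf)) Lf) π) m := by
  have h21 : aeval x₂ F₂ * aeval x₁ F₁ = 1 := by rw [mul_comm]; exact h12
  refine normalAt_of_normal_overlap
    (tsgIncl (regT_adjoin_le_pair_left (x₁ := x₁) (x₂ := x₂)))
    (tsgIncl (regT_adjoin_le_pair_right (x₁ := x₁) (x₂ := x₂)))
    _ _ ?_ (regTElt x₁ F₁) (regTElt x₂ F₂) ?_ ?_ ?_ ?_ ?_ hN m hσ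
  · rw [regT_tsgIncl_algebraMap, regT_tsgIncl_algebraMap]
  · apply Subtype.ext
    rw [MulMemClass.coe_mul, tsgIncl_coe, tsgIncl_coe, regTElt_coe, regTElt_coe, h12]
    rfl
  · exact regT_overlap_loc (y := x₂) F₁ h12 _ (regT_adjoin_pair_le_left F₂ hx₂mem)
  · exact regT_overlap_loc (y := x₁) F₂ h21 _ (regT_adjoin_pair_le_right F₁ hx₁mem)
  · exact regT_overlap_sat hπ hx₁ F₁ hF₁ h12 _ (regT_adjoin_pair_le_left F₂ hx₂mem)
  · exact regT_overlap_sat hπ hx₂ F₂ hF₂ h21 _ (regT_adjoin_pair_le_right F₁ hx₁mem)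

/-- **Transfer of primeness through an overlap of two charts.** -/
theorem regT_overlap_dvd_or_dvd (hπ : Irreducible π)
    (hx₁ : Transcendental E x₁) (hx₂ : Transcendental E x₂)
    (hF₁ : ¬ C π ∣ F₁) (hF₂ : ¬ C π ∣ F₂)
    (h12 : aeval x₁ F₁ * aeval x₂ F₂ = 1)
    (hx₂mem : x₂ ∈ Algebra.adjoin A₀ ({x₁, aeval x₂ F₂} : Set Lf))
    (hx₁mem : x₁ ∈ Algebra.adjoin A₀ ({x₂, aeval x₁ F₁} : Set Lf))
    (hP : Prime (algebraMap A₀ (integralClosure (Algebra.adjoin A₀ ({x₁} : Set Lf)) Lf) π))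
    {a b : integralClosure (Algebra.adjoin A₀ ({x₂} : Set Lf)) Lf}
    (hab : algebraMap A₀ (integralClosure (Algebra.adjoin A₀ ({x₂} : Set Lf)) Lf) π ∣ a * b) :
    algebraMap A₀ (integralClosure (Algebra.adjoin A₀ ({x₂} : Set Lf)) Lf) π ∣ a ∨
      algebraMap A₀ (integralClosure (Algebra.adjoin A₀ ({x₂} : Set Lf)) Lf) π ∣ b := by
  have h21 : aeval x₂ F₂ * aeval x₁ F₁ = 1 := by rw [mul_comm]; exact h12
  refine dvd_or_dvd_of_prime_overlap
    (tsgIncl (regT_adjoin_le_pair_left (x₁ := x₁) (x₂ := x₂)))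
    (tsgIncl (regT_adjoin_le_pair_right (x₁ := x₁) (x₂ := x₂)))
    _ _ ?_ (regTElt x₁ F₁) (regTElt x₂ F₂) ?_ ?_ ?_ ?_ hP hab
  · rw [regT_tsgIncl_algebraMap, regT_tsgIncl_algebraMap]
  · apply Subtype.ext
    rw [MulMemClass.coe_mul, tsgIncl_coe, tsgIncl_coe, regTElt_coe, regTElt_coe, h12]
    rfl
  · exact regT_overlap_loc (y := x₂) F₁ h12 _ (regT_adjoin_pair_le_left F₂ hx₂mem)
  · exact regT_overlap_sat hπ hx₁ F₁ hF₁ h12 _ (regT_adjoin_pair_le_left F₂ hx₂mem)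
  · exact regT_overlap_sat hπ hx₂ F₂ hF₂ h21 _ (regT_adjoin_pair_le_right F₁ hx₁mem)

end Overlap

section GlueV

theorem regT_transcendental_add {t : Lf} (ht : Transcendental E t) (c : A₀) :
    Transcendental E (t + algebraMap A₀ Lf c) := by
  intro halg
  apply ht
  have h1 : IsAlgebraic E (algebraMap A₀ Lf c) := by
    rw [IsScalarTower.algebraMap_apply A₀ E Lf]
    exact isAlgebraic_algebraMap (R := E) (A := Lf) (algebraMap A₀ E c)
  have := halg.sub h1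
  rwa [add_sub_cancel_right] at this

theorem regT_not_C_dvd_of_coeff (hπ : Irreducible π) (F : A₀[X]) (i : ℕ) (hi : F.coeff i = 1) :
    ¬ C π ∣ F := by
  intro h
  rw [Polynomial.C_dvd_iff_dvd_coeff] at h
  have := h i
  rw [hi] at this
  exact hπ.not_isUnit (isUnit_of_dvd_one this)

theorem regT_glue_F1 (hπ : Irreducible π) (c : A₀) : ¬ C π ∣ (X + C c : A₀[X]) :=
  regT_not_C_dvd_of_coeff hπ _ 1 (by rw [coeff_add, coeff_X_one, coeff_C_succ, add_zero])

theorem regT_glue_F2 (hπ : Irreducible π) : ¬ C π ∣ (X : A₀[X]) :=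
  regT_not_C_dvd_of_coeff hπ _ 1 coeff_X_one

theorem regT_glue_F3 (hπ : Irreducible π) (c : A₀) : ¬ C π ∣ (1 + C c * X : A₀[X]) :=
  regT_not_C_dvd_of_coeff hπ _ 0 (by
    rw [coeff_add, coeff_one_zero, mul_coeff_zero, coeff_X_zero, mul_zero, add_zero])

theorem regT_glue_F4 (hπ : Irreducible π) (c : A₀) : ¬ C π ∣ (1 - C c * X : A₀[X]) :=
  regT_not_C_dvd_of_coeff hπ _ 0 (by
    rw [coeff_sub, coeff_one_zero, mul_coeff_zero, coeff_X_zero, mul_zero, sub_zero])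

theorem regT_glue_ne_zero {t : Lf} (ht : Transcendental E t) : t ≠ 0 := by
  rintro rfl
  exact ht isAlgebraic_zero

theorem regT_glue_add_ne_zero {t : Lf} (ht : Transcendental E t) (c : A₀) :
    t + algebraMap A₀ Lf c ≠ 0 :=
  regT_glue_ne_zero (E := E) (regT_transcendental_add ht c)

/-- **Gluing.**  For `v = (t + c)⁻¹`: `π` is prime in `C_v` and `C_v / π` is normal, if this holds
on the charts `C_t` and `C_{t⁻¹}`. -/
theorem regT_glue_prime (hπ : Irreducible π) {t : Lf} (ht : Transcendental E t) (c : A₀)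
    (hP : Prime (algebraMap A₀ (integralClosure (Algebra.adjoin A₀ ({t} : Set Lf)) Lf) π)) :
    Prime (algebraMap A₀
      (integralClosure (Algebra.adjoin A₀ ({(t + algebraMap A₀ Lf c)⁻¹} : Set Lf)) Lf) π) := by
  have hs := regT_transcendental_add ht c
  have hv : Transcendental E (t + algebraMap A₀ Lf c)⁻¹ := zch_transcendental_inv hs
  have hs0 := regT_glue_add_ne_zero (E := E) ht c
  have hinj := zch_algebraMap_injective (A₀ := A₀) (E := E) (L := Lf)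
  have hπ0 : algebraMap A₀ Lf π ≠ 0 := (map_ne_zero_iff _ hinj).mpr hπ.ne_zero
  refine ⟨?_, tsg_not_isUnit (A₀ := A₀) (E := E) hv hπ, ?_⟩
  · intro h
    apply hπ0
    have := congrArg Subtype.val h
    exact this
  · intro a b hab
    refine regT_overlap_dvd_or_dvd (F₁ := X + C c) (F₂ := X) hπ ht hv
      (regT_glue_F1 hπ c) (regT_glue_F2 hπ) ?_ ?_ ?_ hP hab
    · rw [map_add, aeval_X, aeval_C, aeval_X, mul_inv_cancel₀ hs0]
    · rw [aeval_X]
      exact Algebra.subset_adjoin (Set.mem_insert_of_mem _ (Set.mem_singleton _))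
    · have h1 : t = aeval t (X + C c : A₀[X]) - algebraMap A₀ Lf c := by
        rw [map_add, aeval_X, aeval_C, add_sub_cancel_right]
      rw [h1]
      exact Subalgebra.sub_mem _
        (Algebra.subset_adjoin (Set.mem_insert_of_mem _ (by rw [← h1]; exact Set.mem_singleton _)))
        (Subalgebra.algebraMap_mem _ c)

theorem regT_glue_normal (hπ : Irreducible π) {t : Lf} (ht : Transcendental E t) (c : A₀)
    (hN₁ : Normal (integralClosure (Algebra.adjoin A₀ ({t} : Set Lf)) Lf)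
      (algebraMap A₀ (integralClosure (Algebra.adjoin A₀ ({t} : Set Lf)) Lf) π))
    (hN₂ : Normal (integralClosure (Algebra.adjoin A₀ ({t⁻¹} : Set Lf)) Lf)
      (algebraMap A₀ (integralClosure (Algebra.adjoin A₀ ({t⁻¹} : Set Lf)) Lf) π)) :
    Normal (integralClosure (Algebra.adjoin A₀ ({(t + algebraMap A₀ Lf c)⁻¹} : Set Lf)) Lf)
      (algebraMap A₀
        (integralClosure (Algebra.adjoin A₀ ({(t + algebraMap A₀ Lf c)⁻¹} : Set Lf)) Lf) π) := by
  have hs := regT_transcendental_add ht c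
  have hv : Transcendental E (t + algebraMap A₀ Lf c)⁻¹ := zch_transcendental_inv hs
  have hu : Transcendental E t⁻¹ := zch_transcendental_inv ht
  have hs0 := regT_glue_add_ne_zero (E := E) ht c
  have ht0 := regT_glue_ne_zero (E := E) ht
  refine normal_of_forall_maximal (fun m hm hπm => ?_)
  haveI : m.IsPrime := hm.isPrime
  by_cases hvm : regTElt (t + algebraMap A₀ Lf c)⁻¹ (X : A₀[X]) ∈ m
  · -- the point lies on `v = 0`: chart `t⁻¹`
    have hσ : regTElt (t + algebraMap A₀ Lf c)⁻¹ (1 - C c * X : A₀[X]) ∉ m := by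
      intro h
      apply hm.ne_top
      rw [Ideal.eq_top_iff_one]
      have h1 : (1 : integralClosure (Algebra.adjoin A₀ ({(t + algebraMap A₀ Lf c)⁻¹} : Set Lf)) Lf)
          = regTElt (t + algebraMap A₀ Lf c)⁻¹ (1 - C c * X : A₀[X]) +
            algebraMap A₀ _ c * regTElt (t + algebraMap A₀ Lf c)⁻¹ (X : A₀[X]) := by
        apply Subtype.ext
        rw [AddMemClass.coe_add, MulMemClass.coe_mul, regTElt_coe, regTElt_coe, map_sub, map_mul,
          aeval_C, aeval_X, map_one]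
        have : ((algebraMap A₀ (integralClosure (Algebra.adjoin A₀
            ({(t + algebraMap A₀ Lf c)⁻¹} : Set Lf)) Lf) c : _) : Lf) = algebraMap A₀ Lf c := rfl
        rw [this, sub_add_cancel]
        rfl
      rw [h1]
      exact m.add_mem h (m.mul_mem_left _ hvm)
    refine regT_overlap_normalAt (F₁ := 1 + C c * X) (F₂ := 1 - C c * X) hπ hu hv
      (regT_glue_F3 hπ c) (regT_glue_F4 hπ c) ?_ ?_ ?_ hN₂ m hσ
    · simp only [map_add, map_sub, map_mul, aeval_C, aeval_X, map_one]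
      field_simp
      ring
    · have h1 : (t + algebraMap A₀ Lf c)⁻¹ =
          t⁻¹ * aeval (t + algebraMap A₀ Lf c)⁻¹ (1 - C c * X : A₀[X]) := by
        rw [map_sub, map_mul, aeval_C, aeval_X, map_one]
        field_simp
        ring
      rw [h1]
      exact Subalgebra.mul_mem _ (Algebra.subset_adjoin (Set.mem_insert _ _))
        (Algebra.subset_adjoin (Set.mem_insert_of_mem _ (by rw [← h1]; exact Set.mem_singleton _)))
    · have h1 : t⁻¹ = (t + algebraMap A₀ Lf c)⁻¹ * aeval t⁻¹ (1 + C c * X : A₀[X]) := by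
        rw [map_add, map_mul, aeval_C, aeval_X, map_one]
        field_simp
      rw [h1]
      exact Subalgebra.mul_mem _ (Algebra.subset_adjoin (Set.mem_insert _ _))
        (Algebra.subset_adjoin (Set.mem_insert_of_mem _ (by rw [← h1]; exact Set.mem_singleton _)))
  · -- the point lies on `v ≠ 0`: chart `t`
    refine regT_overlap_normalAt (F₁ := X + C c) (F₂ := X) hπ ht hv
      (regT_glue_F1 hπ c) (regT_glue_F2 hπ) ?_ ?_ ?_ hN₁ m hvm
    · rw [map_add, aeval_X, aeval_C, aeval_X, mul_inv_cancel₀ hs0]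
    · rw [aeval_X]
      exact Algebra.subset_adjoin (Set.mem_insert_of_mem _ (Set.mem_singleton _))
    · have h1 : t = aeval t (X + C c : A₀[X]) - algebraMap A₀ Lf c := by
        rw [map_add, aeval_X, aeval_C, add_sub_cancel_right]
      rw [h1]
      exact Subalgebra.sub_mem _
        (Algebra.subset_adjoin (Set.mem_insert_of_mem _ (by rw [← h1]; exact Set.mem_singleton _)))
        (Subalgebra.algebraMap_mem _ c)

end GlueV

end Glue

end Fermat.Agent.UNIP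


end ZBINJ_040_3

/-! ### bundled: `Fermat.Agent.UNIP.RegTransfer` -/
section ZBINJ_040_4
/-
UNIP (item 34, S34/S35), piece "RegTransfer" of U5, part 3 (helper20): from the Hauptmodul charts
to the `j`-charts.

`A₀` a discrete valuation ring with uniformizer `π`, `E = Frac A₀`, `Lf / E` a field,
`t, j ∈ Lf`, `t` transcendental, with the relation of `X₀(2)` resp. `X₀(3)`:
  `hm2` : `j * t ^ 2 = (t + 256) ^ 3`   (`2` a unit of `A₀`),
  `hm3` : `j * t ^ 3 = (t + 27) * (t + 243) ^ 3`   (`3` a unit of `A₀`).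
For a chart `C_τ = integralClosure (adjoin A₀ {τ}) Lf` let
  `(R1) τ` : `Prime (algebraMap A₀ C_τ π)`,  `(R2) τ` : `IsIntegrallyClosed (C_τ ⧸ span {π})`.
* `regT_hm2_j`, `regT_hm3_j` : `(R1), (R2)` for `t` imply `(R1), (R2)` for `j`
  (`C_j = C_t[1/t]`);
* `regT_hm2_jinv`, `regT_hm3_jinv` : `(R1), (R2)` for `t` and `t⁻¹` imply `(R1), (R2)` for `j⁻¹`
  (`C_{j⁻¹} = C_v[1/d]`, `v = (t + c)⁻¹`, `c = 256` resp. `27`, `d = 1` resp. `1 + 216 v`, and `C_v` is
  glued from `C_t` and `C_{t⁻¹}`, `RegTransferGlue.lean`).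
-/

set_option autoImplicit false
set_option linter.unusedSectionVars false
set_option linter.unusedVariables false
set_option linter.style.haveILetI false
set_option linter.style.longLine false

namespace Fermat.Agent.UNIP

open Polynomial IntermediateField Fermat.Agent.INJ Fermat.Agent.INJ.Norm

universe u

section Poly

variable {A₀ L : Type*} [CommRing A₀] [Field L] [Algebra A₀ L]

/-- a root of a monic cubic with coefficients in `R` is integral over `R` -/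
theorem regT_isIntegral_cubic {R : Subalgebra A₀ L} {z r₂ r₁ r₀ : L}
    (h₂ : r₂ ∈ R) (h₁ : r₁ ∈ R) (h₀ : r₀ ∈ R)
    (h : z ^ 3 + r₂ * z ^ 2 + r₁ * z + r₀ = 0) : IsIntegral R z := by
  refine ⟨X ^ 3 + (C (⟨r₂, h₂⟩ : R) * X ^ 2 + C (⟨r₁, h₁⟩ : R) * X + C (⟨r₀, h₀⟩ : R)),
    monic_X_pow_add (lt_of_le_of_lt degree_quadratic_le (by norm_num)), ?_⟩
  simp only [eval₂_add, eval₂_mul, eval₂_pow, eval₂_X, eval₂_C]
  show z ^ 3 + (r₂ * z ^ 2 + r₁ * z + r₀) = 0
  rw [← h]; ring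

/-- a root of a monic quartic with coefficients in `R` is integral over `R` -/
theorem regT_isIntegral_quartic {R : Subalgebra A₀ L} {z r₃ r₂ r₁ r₀ : L}
    (h₃ : r₃ ∈ R) (h₂ : r₂ ∈ R) (h₁ : r₁ ∈ R) (h₀ : r₀ ∈ R)
    (h : z ^ 4 + r₃ * z ^ 3 + r₂ * z ^ 2 + r₁ * z + r₀ = 0) : IsIntegral R z := by
  refine ⟨X ^ 4 + (C (⟨r₃, h₃⟩ : R) * X ^ 3 + C (⟨r₂, h₂⟩ : R) * X ^ 2 + C (⟨r₁, h₁⟩ : R) * X
      + C (⟨r₀, h₀⟩ : R)),
    monic_X_pow_add (lt_of_le_of_lt degree_cubic_le (by norm_num)), ?_⟩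
  simp only [eval₂_add, eval₂_mul, eval₂_pow, eval₂_X, eval₂_C]
  show z ^ 4 + (r₃ * z ^ 3 + r₂ * z ^ 2 + r₁ * z + r₀) = 0
  rw [← h]; ring

/-- `e z` integral, `e` from `A₀` -/
theorem regT_isIntegral_smul_of {R : Subalgebra A₀ L} {z : L} (e : A₀)
    (h : IsIntegral R z) : IsIntegral R (algebraMap A₀ L e * z) := by
  have h1 : IsIntegral R (algebraMap A₀ L e) :=
    isIntegral_algebraMap (R := R) (x := (⟨algebraMap A₀ L e, Subalgebra.algebraMap_mem R e⟩ : R))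
  exact h1.mul h

theorem regT_self_mem (x : L) : x ∈ Algebra.adjoin A₀ ({x} : Set L) :=
  Algebra.subset_adjoin (Set.mem_singleton x)

end Poly

section HM2

variable {A₀ E Lf : Type u} [CommRing A₀] [IsDomain A₀] [IsDiscreteValuationRing A₀]
  [Field E] [Algebra A₀ E] [IsFractionRing A₀ E] [CharZero E]
  [Field Lf] [Algebra E Lf] [Algebra A₀ Lf] [IsScalarTower A₀ E Lf]
  {π : A₀}

theorem regT_hm2_t_isIntegral {t j : Lf} (hrel : j * t ^ 2 = (t + 256) ^ 3) :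
    IsIntegral (Algebra.adjoin A₀ ({j} : Set Lf)) t := by
  refine regT_isIntegral_cubic (r₂ := 768 - j) (r₁ := 196608) (r₀ := 16777216) ?_ ?_ ?_ ?_
  · exact Subalgebra.sub_mem _ (ofNat_mem _ 768) (regT_self_mem j)
  · exact ofNat_mem _ 196608
  · exact ofNat_mem _ 16777216
  · linear_combination (-1 : Lf) * hrel

theorem regT_hm2_tinv_isIntegral {t j : Lf} (ht0 : t ≠ 0) (hrel : j * t ^ 2 = (t + 256) ^ 3)
    (ε : A₀) (hε : ε * 256 = 1) :
    IsIntegral (Algebra.adjoin A₀ ({j} : Set Lf)) t⁻¹ := by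
  have he : algebraMap A₀ Lf ε * 256 = 1 := by
    rw [← map_ofNat (algebraMap A₀ Lf) 256, ← map_mul, hε, map_one]
  have h1 : IsIntegral (Algebra.adjoin A₀ ({j} : Set Lf)) (256 * t⁻¹) := by
    refine regT_isIntegral_cubic (r₂ := 3) (r₁ := 3 - algebraMap A₀ Lf ε * j) (r₀ := 1)
      ?_ ?_ ?_ ?_
    · exact ofNat_mem _ 3
    · exact Subalgebra.sub_mem _ (ofNat_mem _ 3)
        (Subalgebra.mul_mem _ (Subalgebra.algebraMap_mem _ ε) (regT_self_mem j))
    · exact Subalgebra.one_mem _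
    · have h2 : (256 * t⁻¹) ^ 3 + 3 * (256 * t⁻¹) ^ 2 + (3 - algebraMap A₀ Lf ε * j) * (256 * t⁻¹)
          + 1 = (t⁻¹) ^ 3 * ((t + 256) ^ 3 - (algebraMap A₀ Lf ε * 256) * (j * t ^ 2)) := by
        field_simp
        ring
      rw [h2, he, one_mul, hrel, sub_self, mul_zero]
  have h2 : t⁻¹ = algebraMap A₀ Lf ε * (256 * t⁻¹) := by rw [← mul_assoc, he, one_mul]
  rw [h2]
  exact regT_isIntegral_smul_of ε h1

theorem regT_isUnit_256 (h2 : IsUnit (2 : A₀)) : ∃ ε : A₀, ε * 256 = 1 := by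
  have h : IsUnit ((2 : A₀) ^ 8) := h2.pow 8
  have h' : ((2 : A₀) ^ 8) = 256 := by norm_num
  rw [h'] at h
  exact isUnit_iff_exists_inv'.mp h

/-- **(T1) for `X₀(2)`**: `(R1), (R2)` pass from the chart `t` to the chart `j`. -/
theorem regT_hm2_j (hπ : Irreducible π) {t j : Lf} (ht : Transcendental E t)
    (hrel : j * t ^ 2 = (t + 256) ^ 3) (h2 : IsUnit (2 : A₀))
    (hP : Prime (algebraMap A₀ (integralClosure (Algebra.adjoin A₀ ({t} : Set Lf)) Lf) π))
    (hIC : IsIntegrallyClosed (integralClosure (Algebra.adjoin A₀ ({t} : Set Lf)) Lf ⧸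
      Ideal.span {algebraMap A₀ (integralClosure (Algebra.adjoin A₀ ({t} : Set Lf)) Lf) π})) :
    Prime (algebraMap A₀ (integralClosure (Algebra.adjoin A₀ ({j} : Set Lf)) Lf) π) ∧
    IsIntegrallyClosed (integralClosure (Algebra.adjoin A₀ ({j} : Set Lf)) Lf ⧸
      Ideal.span {algebraMap A₀ (integralClosure (Algebra.adjoin A₀ ({j} : Set Lf)) Lf) π}) := by
  obtain ⟨ε, hε⟩ := regT_isUnit_256 h2
  have ht0 : t ≠ 0 := regT_glue_ne_zero (E := E) ht
  have hy : j ∈ Algebra.adjoin A₀ ({t, t⁻¹} : Set Lf) := by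
    have h1 : j = (t + 256) ^ 3 * t⁻¹ ^ 2 := by
      rw [← hrel]
      field_simp
    rw [h1]
    refine Subalgebra.mul_mem _ (Subalgebra.pow_mem _ (Subalgebra.add_mem _
      (Algebra.subset_adjoin (Set.mem_insert _ _)) (ofNat_mem _ 256)) 3)
      (Subalgebra.pow_mem _ (Algebra.subset_adjoin
        (Set.mem_insert_of_mem _ (Set.mem_singleton _))) 2)
  have hx := regT_hm2_t_isIntegral (A₀ := A₀) hrel
  have hfi := regT_hm2_tinv_isIntegral (A₀ := A₀) ht0 hrel ε hε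
  have hfπ : ¬ ∃ c : Lf, IsIntegral (Algebra.adjoin A₀ ({t} : Set Lf)) c ∧
      t = algebraMap A₀ Lf π * c := by
    have := regT_not_dvd (E := E) hπ ht X (regT_glue_F2 hπ)
    rwa [aeval_X] at this
  exact ⟨regT_prime π ht0 (regT_self_mem t) hy hx hfi hP hfπ,
    regT_isIntegrallyClosed π ht0 (regT_self_mem t) hy hx hfi hP hfπ hIC⟩

theorem regT_hm2_v_isIntegral {t j : Lf} (ht0 : t ≠ 0) (hs0 : t + 256 ≠ 0)
    (hrel : j * t ^ 2 = (t + 256) ^ 3) (ε : A₀) (hε : ε * 256 = 1) :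
    IsIntegral (Algebra.adjoin A₀ ({j⁻¹} : Set Lf)) (t + 256)⁻¹ := by
  have he : algebraMap A₀ Lf ε * 256 = 1 := by
    rw [← map_ofNat (algebraMap A₀ Lf) 256, ← map_mul, hε, map_one]
  have hj0 : j ≠ 0 := by
    intro h
    rw [h, zero_mul] at hrel
    exact pow_ne_zero 3 hs0 hrel.symm
  have h1 : IsIntegral (Algebra.adjoin A₀ ({j⁻¹} : Set Lf)) (256 * (t + 256)⁻¹) := by
    refine regT_isIntegral_cubic (r₂ := -2) (r₁ := 1) (r₀ := -(256 * j⁻¹)) ?_ ?_ ?_ ?_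
    · exact Subalgebra.neg_mem _ (ofNat_mem _ 2)
    · exact Subalgebra.one_mem _
    · exact Subalgebra.neg_mem _ (Subalgebra.mul_mem _ (ofNat_mem _ 256) (regT_self_mem j⁻¹))
    · have h2 : (256 * (t + 256)⁻¹) ^ 3 + -2 * (256 * (t + 256)⁻¹) ^ 2 + 1 * (256 * (t + 256)⁻¹)
          + -(256 * j⁻¹) = 256 * j⁻¹ * ((t + 256)⁻¹) ^ 3 * (j * t ^ 2 - (t + 256) ^ 3) := by
        field_simp
        ring
      rw [h2, hrel, sub_self, mul_zero]
  have h2 : (t + 256)⁻¹ = algebraMap A₀ Lf ε * (256 * (t + 256)⁻¹) := by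
    rw [← mul_assoc, he, one_mul]
  rw [h2]
  exact regT_isIntegral_smul_of ε h1

theorem regT_map_256 : algebraMap A₀ Lf (256 : A₀) = 256 := map_ofNat _ 256

/-- **(T2) for `X₀(2)`**: `(R1), (R2)` pass from the charts `t`, `t⁻¹` to the chart `j⁻¹`. -/
theorem regT_hm2_jinv (hπ : Irreducible π) {t j : Lf} (ht : Transcendental E t)
    (hrel : j * t ^ 2 = (t + 256) ^ 3) (h2 : IsUnit (2 : A₀))
    (hP : Prime (algebraMap A₀ (integralClosure (Algebra.adjoin A₀ ({t} : Set Lf)) Lf) π))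
    (hIC : IsIntegrallyClosed (integralClosure (Algebra.adjoin A₀ ({t} : Set Lf)) Lf ⧸
      Ideal.span {algebraMap A₀ (integralClosure (Algebra.adjoin A₀ ({t} : Set Lf)) Lf) π}))
    (hP' : Prime (algebraMap A₀ (integralClosure (Algebra.adjoin A₀ ({t⁻¹} : Set Lf)) Lf) π))
    (hIC' : IsIntegrallyClosed (integralClosure (Algebra.adjoin A₀ ({t⁻¹} : Set Lf)) Lf ⧸
      Ideal.span {algebraMap A₀ (integralClosure (Algebra.adjoin A₀ ({t⁻¹} : Set Lf)) Lf) π})) :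
    Prime (algebraMap A₀ (integralClosure (Algebra.adjoin A₀ ({j⁻¹} : Set Lf)) Lf) π) ∧
    IsIntegrallyClosed (integralClosure (Algebra.adjoin A₀ ({j⁻¹} : Set Lf)) Lf ⧸
      Ideal.span {algebraMap A₀ (integralClosure (Algebra.adjoin A₀ ({j⁻¹} : Set Lf)) Lf) π}) := by
  obtain ⟨ε, hε⟩ := regT_isUnit_256 h2
  have ht0 : t ≠ 0 := regT_glue_ne_zero (E := E) ht
  have hs0' := regT_glue_add_ne_zero (E := E) ht (256 : A₀)
  have hs := regT_transcendental_add (E := E) ht (256 : A₀)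
  have hv' : Transcendental E (t + algebraMap A₀ Lf (256 : A₀))⁻¹ := zch_transcendental_inv hs
  have hPv' := regT_glue_prime (E := E) hπ ht (256 : A₀) hP
  have hNv' := regT_glue_normal (E := E) hπ ht (256 : A₀)
    (normal_of_isIntegrallyClosed_quotient hP hIC)
    (normal_of_isIntegrallyClosed_quotient hP' hIC')
  rw [regT_map_256] at hs0' hv' hPv' hNv'
  have hICv := isIntegrallyClosed_quotient_of_normal hPv' hNv'
  have hj0 : j ≠ 0 := by
    intro h
    rw [h, zero_mul] at hrel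
    exact pow_ne_zero 3 hs0' hrel.symm
  have hy : j⁻¹ ∈ Algebra.adjoin A₀ ({(t + 256)⁻¹, (1 : Lf)⁻¹} : Set Lf) := by
    have h1 : j⁻¹ = (t + 256)⁻¹ * (1 - 256 * (t + 256)⁻¹) ^ 2 := by
      have h3 : j = (t + 256) ^ 3 * (t⁻¹) ^ 2 := by
        rw [← hrel]
        field_simp
      rw [h3]
      field_simp
      ring
    rw [h1]
    have hvm : (t + 256)⁻¹ ∈ Algebra.adjoin A₀ ({(t + 256)⁻¹, (1 : Lf)⁻¹} : Set Lf) :=
      Algebra.subset_adjoin (Set.mem_insert _ _)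
    exact Subalgebra.mul_mem _ hvm (Subalgebra.pow_mem _ (Subalgebra.sub_mem _
      (Subalgebra.one_mem _) (Subalgebra.mul_mem _ (ofNat_mem _ 256) hvm)) 2)
  have hx := regT_hm2_v_isIntegral (A₀ := A₀) ht0 hs0' hrel ε hε
  have hfi : IsIntegral (Algebra.adjoin A₀ ({j⁻¹} : Set Lf)) (1 : Lf)⁻¹ := by
    rw [inv_one]
    exact isIntegral_one
  have hfπ : ¬ ∃ c : Lf, IsIntegral (Algebra.adjoin A₀ ({(t + 256)⁻¹} : Set Lf)) c ∧
      (1 : Lf) = algebraMap A₀ Lf π * c := by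
    have := regT_not_dvd (E := E) hπ hv' (1 : A₀[X])
      (regT_not_C_dvd_of_coeff hπ _ 0 coeff_one_zero)
    rwa [map_one] at this
  exact ⟨regT_prime π one_ne_zero (Subalgebra.one_mem _) hy hx hfi hPv' hfπ,
    regT_isIntegrallyClosed π one_ne_zero (Subalgebra.one_mem _) hy hx hfi hPv' hfπ hICv⟩

end HM2

section HM3

variable {A₀ E Lf : Type u} [CommRing A₀] [IsDomain A₀] [IsDiscreteValuationRing A₀]
  [Field E] [Algebra A₀ E] [IsFractionRing A₀ E] [CharZero E]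
  [Field Lf] [Algebra E Lf] [Algebra A₀ Lf] [IsScalarTower A₀ E Lf]
  {π : A₀}

theorem regT_hm3_t_isIntegral {t j : Lf} (hrel : j * t ^ 3 = (t + 27) * (t + 243) ^ 3) :
    IsIntegral (Algebra.adjoin A₀ ({j} : Set Lf)) t := by
  refine regT_isIntegral_quartic (r₃ := 756 - j) (r₂ := 196830) (r₁ := 19131876)
    (r₀ := 387420489) ?_ ?_ ?_ ?_ ?_
  · exact Subalgebra.sub_mem _ (ofNat_mem _ 756) (regT_self_mem j)
  · exact ofNat_mem _ 196830
  · exact ofNat_mem _ 19131876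
  · exact ofNat_mem _ 387420489
  · linear_combination (-1 : Lf) * hrel

theorem regT_map_mul_ofNat (ε : A₀) (n : ℕ) [n.AtLeastTwo] (hε : ε * (OfNat.ofNat n : A₀) = 1) :
    algebraMap A₀ Lf ε * (OfNat.ofNat n : Lf) = 1 := by
  rw [← map_ofNat (algebraMap A₀ Lf) n, ← map_mul, hε, map_one]

theorem regT_hm3_tinv_isIntegral {t j : Lf} (ht0 : t ≠ 0)
    (hrel : j * t ^ 3 = (t + 27) * (t + 243) ^ 3)
    (ε ε' : A₀) (hε : ε * 27 = 1) (hε' : ε' * 243 = 1) :
    IsIntegral (Algebra.adjoin A₀ ({j} : Set Lf)) t⁻¹ := by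
  have he : algebraMap A₀ Lf ε * 27 = 1 := regT_map_mul_ofNat ε 27 hε
  have he' : algebraMap A₀ Lf ε' * 243 = 1 := regT_map_mul_ofNat ε' 243 hε'
  have h1 : IsIntegral (Algebra.adjoin A₀ ({j} : Set Lf)) (243 * t⁻¹) := by
    refine regT_isIntegral_quartic (r₃ := 12) (r₂ := 30) (r₁ := 28 - algebraMap A₀ Lf ε * j)
      (r₀ := 9) ?_ ?_ ?_ ?_ ?_
    · exact ofNat_mem _ 12
    · exact ofNat_mem _ 30
    · exact Subalgebra.sub_mem _ (ofNat_mem _ 28)
        (Subalgebra.mul_mem _ (Subalgebra.algebraMap_mem _ ε) (regT_self_mem j))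
    · exact ofNat_mem _ 9
    · have h2 : (243 * t⁻¹) ^ 4 + 12 * (243 * t⁻¹) ^ 3 + 30 * (243 * t⁻¹) ^ 2
          + (28 - algebraMap A₀ Lf ε * j) * (243 * t⁻¹) + 9
          = (t⁻¹) ^ 4 * (9 * ((t + 27) * (t + 243) ^ 3)
              - (algebraMap A₀ Lf ε * 27) * 9 * (j * t ^ 3)) := by
        field_simp
        ring
      rw [h2, he, one_mul, hrel, sub_self, mul_zero]
  have h2 : t⁻¹ = algebraMap A₀ Lf ε' * (243 * t⁻¹) := by rw [← mul_assoc, he', one_mul]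
  rw [h2]
  exact regT_isIntegral_smul_of ε' h1

theorem regT_isUnit_pow3 (h3 : IsUnit (3 : A₀)) :
    (∃ ε : A₀, ε * 9 = 1) ∧ (∃ ε : A₀, ε * 27 = 1) ∧ (∃ ε : A₀, ε * 243 = 1) := by
  refine ⟨?_, ?_, ?_⟩
  · have h : IsUnit ((3 : A₀) ^ 2) := h3.pow 2
    have h' : ((3 : A₀) ^ 2) = 9 := by norm_num
    rw [h'] at h
    exact isUnit_iff_exists_inv'.mp h
  · have h : IsUnit ((3 : A₀) ^ 3) := h3.pow 3
    have h' : ((3 : A₀) ^ 3) = 27 := by norm_num
    rw [h'] at h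
    exact isUnit_iff_exists_inv'.mp h
  · have h : IsUnit ((3 : A₀) ^ 5) := h3.pow 5
    have h' : ((3 : A₀) ^ 5) = 243 := by norm_num
    rw [h'] at h
    exact isUnit_iff_exists_inv'.mp h

/-- **(T1) for `X₀(3)`**: `(R1), (R2)` pass from the chart `t` to the chart `j`. -/
theorem regT_hm3_j (hπ : Irreducible π) {t j : Lf} (ht : Transcendental E t)
    (hrel : j * t ^ 3 = (t + 27) * (t + 243) ^ 3) (h3 : IsUnit (3 : A₀))
    (hP : Prime (algebraMap A₀ (integralClosure (Algebra.adjoin A₀ ({t} : Set Lf)) Lf) π))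
    (hIC : IsIntegrallyClosed (integralClosure (Algebra.adjoin A₀ ({t} : Set Lf)) Lf ⧸
      Ideal.span {algebraMap A₀ (integralClosure (Algebra.adjoin A₀ ({t} : Set Lf)) Lf) π})) :
    Prime (algebraMap A₀ (integralClosure (Algebra.adjoin A₀ ({j} : Set Lf)) Lf) π) ∧
    IsIntegrallyClosed (integralClosure (Algebra.adjoin A₀ ({j} : Set Lf)) Lf ⧸
      Ideal.span {algebraMap A₀ (integralClosure (Algebra.adjoin A₀ ({j} : Set Lf)) Lf) π}) := by
  obtain ⟨-, ⟨ε, hε⟩, ⟨ε', hε'⟩⟩ := regT_isUnit_pow3 h3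
  have ht0 : t ≠ 0 := regT_glue_ne_zero (E := E) ht
  have hy : j ∈ Algebra.adjoin A₀ ({t, t⁻¹} : Set Lf) := by
    have h1 : j = (t + 27) * (t + 243) ^ 3 * t⁻¹ ^ 3 := by
      rw [← hrel]
      field_simp
    rw [h1]
    have htm : t ∈ Algebra.adjoin A₀ ({t, t⁻¹} : Set Lf) :=
      Algebra.subset_adjoin (Set.mem_insert _ _)
    refine Subalgebra.mul_mem _ (Subalgebra.mul_mem _ (Subalgebra.add_mem _ htm (ofNat_mem _ 27))
      (Subalgebra.pow_mem _ (Subalgebra.add_mem _ htm (ofNat_mem _ 243)) 3))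
      (Subalgebra.pow_mem _ (Algebra.subset_adjoin
        (Set.mem_insert_of_mem _ (Set.mem_singleton _))) 3)
  have hx := regT_hm3_t_isIntegral (A₀ := A₀) hrel
  have hfi := regT_hm3_tinv_isIntegral (A₀ := A₀) ht0 hrel ε ε' hε hε'
  have hfπ : ¬ ∃ c : Lf, IsIntegral (Algebra.adjoin A₀ ({t} : Set Lf)) c ∧
      t = algebraMap A₀ Lf π * c := by
    have := regT_not_dvd (E := E) hπ ht X (regT_glue_F2 hπ)
    rwa [aeval_X] at this
  exact ⟨regT_prime π ht0 (regT_self_mem t) hy hx hfi hP hfπ,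
    regT_isIntegrallyClosed π ht0 (regT_self_mem t) hy hx hfi hP hfπ hIC⟩

theorem regT_hm3_d_eq {t : Lf} (hs0 : t + 27 ≠ 0) :
    1 + 216 * (t + 27)⁻¹ = (t + 243) * (t + 27)⁻¹ := by
  field_simp
  ring

theorem regT_hm3_dinv_eq {t : Lf} (hs0 : t + 27 ≠ 0) :
    (1 + 216 * (t + 27)⁻¹)⁻¹ = (t + 27) * (t + 243)⁻¹ := by
  rw [regT_hm3_d_eq hs0, mul_inv, inv_inv, mul_comm]

theorem regT_hm3_v_isIntegral {t j : Lf} (ht0 : t ≠ 0) (hs0 : t + 27 ≠ 0) (hs1 : t + 243 ≠ 0)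
    (hrel : j * t ^ 3 = (t + 27) * (t + 243) ^ 3) (ε : A₀) (hε : ε * 27 = 1) :
    IsIntegral (Algebra.adjoin A₀ ({j⁻¹} : Set Lf)) (t + 27)⁻¹ := by
  have he : algebraMap A₀ Lf ε * 27 = 1 := regT_map_mul_ofNat ε 27 hε
  have hj0 : j ≠ 0 := by
    intro h
    rw [h, zero_mul] at hrel
    exact mul_ne_zero hs0 (pow_ne_zero 3 hs1) hrel.symm
  have hjm := regT_self_mem (A₀ := A₀) j⁻¹
  have h1 : IsIntegral (Algebra.adjoin A₀ ({j⁻¹} : Set Lf)) (27 * (t + 27)⁻¹) := by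
    refine regT_isIntegral_quartic (r₃ := -3 + 13824 * j⁻¹) (r₂ := 3 + 5184 * j⁻¹)
      (r₁ := -1 + 648 * j⁻¹) (r₀ := 27 * j⁻¹) ?_ ?_ ?_ ?_ ?_
    · exact Subalgebra.add_mem _ (Subalgebra.neg_mem _ (ofNat_mem _ 3))
        (Subalgebra.mul_mem _ (ofNat_mem _ 13824) hjm)
    · exact Subalgebra.add_mem _ (ofNat_mem _ 3) (Subalgebra.mul_mem _ (ofNat_mem _ 5184) hjm)
    · exact Subalgebra.add_mem _ (Subalgebra.neg_mem _ (Subalgebra.one_mem _))
        (Subalgebra.mul_mem _ (ofNat_mem _ 648) hjm)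
    · exact Subalgebra.mul_mem _ (ofNat_mem _ 27) hjm
    · have h2 : (27 * (t + 27)⁻¹) ^ 4 + (-3 + 13824 * j⁻¹) * (27 * (t + 27)⁻¹) ^ 3
          + (3 + 5184 * j⁻¹) * (27 * (t + 27)⁻¹) ^ 2 + (-1 + 648 * j⁻¹) * (27 * (t + 27)⁻¹)
          + 27 * j⁻¹
          = 27 * j⁻¹ * ((t + 27)⁻¹) ^ 4 * ((t + 27) * (t + 243) ^ 3 - j * t ^ 3) := by
        field_simp
        ring
      rw [h2, hrel, sub_self, mul_zero]
  have h2 : (t + 27)⁻¹ = algebraMap A₀ Lf ε * (27 * (t + 27)⁻¹) := by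
    rw [← mul_assoc, he, one_mul]
  rw [h2]
  exact regT_isIntegral_smul_of ε h1

theorem regT_hm3_dinv_isIntegral {t j : Lf} (ht0 : t ≠ 0) (hs0 : t + 27 ≠ 0) (hs1 : t + 243 ≠ 0)
    (hrel : j * t ^ 3 = (t + 27) * (t + 243) ^ 3) (ε : A₀) (hε : ε * 9 = 1) :
    IsIntegral (Algebra.adjoin A₀ ({j⁻¹} : Set Lf)) (1 + 216 * (t + 27)⁻¹)⁻¹ := by
  have he : algebraMap A₀ Lf ε * 9 = 1 := regT_map_mul_ofNat ε 9 hε
  have hj0 : j ≠ 0 := by
    intro h
    rw [h, zero_mul] at hrel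
    exact mul_ne_zero hs0 (pow_ne_zero 3 hs1) hrel.symm
  have hjm := regT_self_mem (A₀ := A₀) j⁻¹
  rw [regT_hm3_dinv_eq hs0]
  have h1 : IsIntegral (Algebra.adjoin A₀ ({j⁻¹} : Set Lf)) (9 * ((t + 27) * (t + 243)⁻¹)) := by
    refine regT_isIntegral_quartic (r₃ := -12) (r₂ := 30)
      (r₁ := 110592 * j⁻¹ - 28) (r₀ := 9) ?_ ?_ ?_ ?_ ?_
    · exact Subalgebra.neg_mem _ (ofNat_mem _ 12)
    · exact ofNat_mem _ 30
    · exact Subalgebra.sub_mem _ (Subalgebra.mul_mem _ (ofNat_mem _ 110592) hjm) (ofNat_mem _ 28)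
    · exact ofNat_mem _ 9
    · have h2 : (9 * ((t + 27) * (t + 243)⁻¹)) ^ 4 + -12 * (9 * ((t + 27) * (t + 243)⁻¹)) ^ 3
          + 30 * (9 * ((t + 27) * (t + 243)⁻¹)) ^ 2
          + (110592 * j⁻¹ - 28) * (9 * ((t + 27) * (t + 243)⁻¹)) + 9
          = 995328 * j⁻¹ * ((t + 243)⁻¹) ^ 4 * ((t + 27) * (t + 243) ^ 3 - j * t ^ 3) := by
        field_simp
        ring
      rw [h2, hrel, sub_self, mul_zero]
  have h2 : (t + 27) * (t + 243)⁻¹ = algebraMap A₀ Lf ε * (9 * ((t + 27) * (t + 243)⁻¹)) := by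
    rw [← mul_assoc, he, one_mul]
  rw [h2]
  exact regT_isIntegral_smul_of ε h1

theorem regT_map_ofNat (n : ℕ) [n.AtLeastTwo] :
    algebraMap A₀ Lf (OfNat.ofNat n : A₀) = (OfNat.ofNat n : Lf) := map_ofNat _ n

/-- **(T2) for `X₀(3)`**: `(R1), (R2)` pass from the charts `t`, `t⁻¹` to the chart `j⁻¹`. -/
theorem regT_hm3_jinv (hπ : Irreducible π) {t j : Lf} (ht : Transcendental E t)
    (hrel : j * t ^ 3 = (t + 27) * (t + 243) ^ 3) (h3 : IsUnit (3 : A₀))
    (hP : Prime (algebraMap A₀ (integralClosure (Algebra.adjoin A₀ ({t} : Set Lf)) Lf) π))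
    (hIC : IsIntegrallyClosed (integralClosure (Algebra.adjoin A₀ ({t} : Set Lf)) Lf ⧸
      Ideal.span {algebraMap A₀ (integralClosure (Algebra.adjoin A₀ ({t} : Set Lf)) Lf) π}))
    (hP' : Prime (algebraMap A₀ (integralClosure (Algebra.adjoin A₀ ({t⁻¹} : Set Lf)) Lf) π))
    (hIC' : IsIntegrallyClosed (integralClosure (Algebra.adjoin A₀ ({t⁻¹} : Set Lf)) Lf ⧸
      Ideal.span {algebraMap A₀ (integralClosure (Algebra.adjoin A₀ ({t⁻¹} : Set Lf)) Lf) π})) :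
    Prime (algebraMap A₀ (integralClosure (Algebra.adjoin A₀ ({j⁻¹} : Set Lf)) Lf) π) ∧
    IsIntegrallyClosed (integralClosure (Algebra.adjoin A₀ ({j⁻¹} : Set Lf)) Lf ⧸
      Ideal.span {algebraMap A₀ (integralClosure (Algebra.adjoin A₀ ({j⁻¹} : Set Lf)) Lf) π}) := by
  obtain ⟨⟨ε₉, hε₉⟩, ⟨ε, hε⟩, -⟩ := regT_isUnit_pow3 h3
  have ht0 : t ≠ 0 := regT_glue_ne_zero (E := E) ht
  have hs0' := regT_glue_add_ne_zero (E := E) ht (27 : A₀)
  have hs1' := regT_glue_add_ne_zero (E := E) ht (243 : A₀)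
  have hs := regT_transcendental_add (E := E) ht (27 : A₀)
  have hv' : Transcendental E (t + algebraMap A₀ Lf (27 : A₀))⁻¹ := zch_transcendental_inv hs
  have hPv' := regT_glue_prime (E := E) hπ ht (27 : A₀) hP
  have hNv' := regT_glue_normal (E := E) hπ ht (27 : A₀)
    (normal_of_isIntegrallyClosed_quotient hP hIC)
    (normal_of_isIntegrallyClosed_quotient hP' hIC')
  rw [regT_map_ofNat] at hs0' hs1' hv' hPv' hNv'
  have hICv := isIntegrallyClosed_quotient_of_normal hPv' hNv'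
  have hj0 : j ≠ 0 := by
    intro h
    rw [h, zero_mul] at hrel
    exact mul_ne_zero hs0' (pow_ne_zero 3 hs1') hrel.symm
  have hd0 : (1 + 216 * (t + 27)⁻¹ : Lf) ≠ 0 := by
    rw [regT_hm3_d_eq hs0']
    exact mul_ne_zero hs1' (inv_ne_zero hs0')
  have hf : (1 + 216 * (t + 27)⁻¹ : Lf) ∈ Algebra.adjoin A₀ ({(t + 27)⁻¹} : Set Lf) :=
    Subalgebra.add_mem _ (Subalgebra.one_mem _)
      (Subalgebra.mul_mem _ (ofNat_mem _ 216) (regT_self_mem _))
  have hy : j⁻¹ ∈ Algebra.adjoin A₀ ({(t + 27)⁻¹, (1 + 216 * (t + 27)⁻¹)⁻¹} : Set Lf) := by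
    have h1 : j⁻¹ = (t + 27)⁻¹ * (1 - 27 * (t + 27)⁻¹) ^ 3 * ((1 + 216 * (t + 27)⁻¹)⁻¹) ^ 3 := by
      have h3 : j = (t + 27) * (t + 243) ^ 3 * (t⁻¹) ^ 3 := by
        rw [← hrel]
        field_simp
      rw [h3, regT_hm3_dinv_eq hs0']
      field_simp
      ring
    rw [h1]
    have hvm : (t + 27)⁻¹ ∈
        Algebra.adjoin A₀ ({(t + 27)⁻¹, (1 + 216 * (t + 27)⁻¹)⁻¹} : Set Lf) :=
      Algebra.subset_adjoin (Set.mem_insert _ _)
    exact Subalgebra.mul_mem _ (Subalgebra.mul_mem _ hvm (Subalgebra.pow_mem _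
      (Subalgebra.sub_mem _ (Subalgebra.one_mem _) (Subalgebra.mul_mem _ (ofNat_mem _ 27) hvm)) 3))
      (Subalgebra.pow_mem _ (Algebra.subset_adjoin
        (Set.mem_insert_of_mem _ (Set.mem_singleton _))) 3)
  have hx := regT_hm3_v_isIntegral (A₀ := A₀) ht0 hs0' hs1' hrel ε hε
  have hfi := regT_hm3_dinv_isIntegral (A₀ := A₀) ht0 hs0' hs1' hrel ε₉ hε₉
  have hfπ : ¬ ∃ c : Lf, IsIntegral (Algebra.adjoin A₀ ({(t + 27)⁻¹} : Set Lf)) c ∧
      (1 + 216 * (t + 27)⁻¹ : Lf) = algebraMap A₀ Lf π * c := by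
    have := regT_not_dvd (E := E) hπ hv' (1 + C (216 : A₀) * X : A₀[X]) (regT_glue_F3 hπ 216)
    rwa [map_add, map_mul, aeval_C, aeval_X, map_one, regT_map_ofNat] at this
  exact ⟨regT_prime π hd0 hf hy hx hfi hPv' hfπ,
    regT_isIntegrallyClosed π hd0 hf hy hx hfi hPv' hfπ hICv⟩

end HM3

end Fermat.Agent.UNIP


end ZBINJ_040_4
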