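/- GENERATED FILE (helper35, build-time optimisation, NOTES/ZB.md): verbatim concatenation of the modules
   Fermat.Agent.UNIP.NodesFrobU
   Fermat.Agent.UNIP.NodesSwapJ
   Fermat.Agent.UNIP.NodesSwapKron
   Fermat.Agent.UNIP.NodesSwapInv
   Fermat.Agent.UNIP.NodesInstJ
   Fermat.Agent.UNIP.NodesInstJinv
   Fermat.Agent.UNIP.MGVertLoc
   Fermat.Agent.UNIP.MGVertLocMain
   Fermat.Agent.UNIP.MGVloc
   Fermat.Agent.S36.N2Val
   Fermat.Agent.RIB.MP.RedRes
   Fermat.Agent.S33.WildDeepAux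
   Do not edit; do not import together with these modules. -/
import Fermat.Agent.ZB.UNIP_011
import Fermat.Agent.ZB.S28_002
import Fermat.Agent.ZB.UNIP_012
import Fermat.Agent.ZB.UNIP_020
import Fermat.Agent.ZB.UNIP_024
import Fermat.Agent.ZB.S34_001
import Fermat.Agent.ZB.ES_002
import Fermat.Agent.ZB.RED_001
import Fermat.Agent.ZB.UNIP_037
import Fermat.Agent.ZB.S36_007
import Fermat.Agent.ZB.UNIP_015

/-! ### bundled: `Fermat.Agent.UNIP.NodesFrobU` -/
section ZBUNIP_014_0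

/-!
# UNIP, piece U5-Fr, part 2 (helper25): the inputs `hT`, `hne`, `hG4` of
`nodesHomData_of_frobenius` and transcendence, for a reduced coordinate `T ∈ k((Q))` of order `±1`

`Fr := qExpand k q : k((Q)) →+* k((Q))` (already a ring homomorphism).

* `nodesFrobU_G4`   : `∑ i : Fin q, Fr (a i) * T ^ i = 0 → ∀ i, a i = 0` if `ord T` is prime to `q`;
* `nodesFrobU_hne`  : `(T ^ q) ^ q ≠ T` if `ord T ≠ 0`, `2 ≤ q`;
* `nodesFrobU_transcendental` : `T` is transcendental over `k` if `ord T ≠ 0`;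
* instances `T = j̄` (reduction of `J`, order `-1`) and `T = j̄⁻¹` (reduction of `J⁻¹`, order `1`),
  with `hT : Fr T = T ^ q` in characteristic `q`.
-/

set_option autoImplicit false

noncomputable section

namespace Fermat.Agent.UNIP

open ModularCurve Polynomial IntermediateField Fermat.Agent.INJ

section Series

variable {k : Type*} [Field k]

/-- **(hG4)**, `Fin q`-shape, for any `T ≠ 0` whose order is prime to `q` -/
theorem nodesFrobU_G4 (q : ℕ) [NeZero q] {T : LaurentSeries k} (hT0 : T ≠ 0)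
    (hcop : IsCoprime T.order (q : ℤ)) (a : Fin q → LaurentSeries k)
    (h : ∑ i, qExpand k q (a i) * T ^ (i : ℕ) = 0) : ∀ i, a i = 0 := by
  set a' : ℕ → LaurentSeries k := fun n => if h : n < q then a ⟨n, h⟩ else 0 with ha'
  have h2 : ∑ n ∈ Finset.range q, qExpand k q (a' n) * T ^ n = 0 := by
    rw [← h, ← Fin.sum_univ_eq_sum_range (fun n => qExpand k q (a' n) * T ^ n) q]
    refine Finset.sum_congr rfl fun i _ => ?_
    simp only [ha', dif_pos i.2]
  intro i
  have h3 := Fermat.Agent.S28.eq_zero_of_sum_qExpand_mul_pow_eq_zero hT0 hcop a' h2 i i.2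
  simpa only [ha', dif_pos i.2] using h3

theorem nodesFrobU_ne_zero_of_order {T : LaurentSeries k} (hord : T.order ≠ 0) : T ≠ 0 := by
  rintro rfl
  exact hord HahnSeries.order_zero

/-- **(hne)**: `(T ^ q) ^ q ≠ T` if `ord T ≠ 0` and `2 ≤ q` -/
theorem nodesFrobU_hne {q : ℕ} (hq : 2 ≤ q) {T : LaurentSeries k} (hord : T.order ≠ 0) :
    (T ^ q) ^ q ≠ T := by
  intro h
  have h1 := congrArg HahnSeries.order h
  rw [HahnSeries.order_pow, HahnSeries.order_pow, nsmul_eq_mul, nsmul_eq_mul] at h1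
  have h2 : ((q : ℤ) * q - 1) * T.order = 0 := by linear_combination h1
  rcases mul_eq_zero.mp h2 with h3 | h3
  · have hq' : (2 : ℤ) ≤ q := by exact_mod_cast hq
    nlinarith
  · exact hord h3

theorem nodesFrobU_order_inv {T : LaurentSeries k} (hT0 : T ≠ 0) : (T⁻¹).order = -T.order := by
  have h1 := HahnSeries.order_mul hT0 (inv_ne_zero hT0)
  rw [mul_inv_cancel₀ hT0, HahnSeries.order_one] at h1
  linarith

/-- **transcendence**: a series of nonzero order is transcendental over `k` -/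
theorem nodesFrobU_transcendental {T : LaurentSeries k} (hord : T.order ≠ 0) :
    Transcendental k T := by
  have hT0 := nodesFrobU_ne_zero_of_order hord
  rcases lt_or_gt_of_ne hord with hneg | hpos
  · rw [transcendental_iff_injective]
    exact Fermat.Agent.S28.aeval_injective_of_order_neg hneg
  · have h1 : Transcendental k T⁻¹ := by
      rw [transcendental_iff_injective]
      refine Fermat.Agent.S28.aeval_injective_of_order_neg ?_
      rw [nodesFrobU_order_inv hT0]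
      linarith
    intro halg
    exact h1 halg.inv

/-- `Fr (T⁻¹) = (T⁻¹) ^ q` if `Fr T = T ^ q` -/
theorem nodesFrobU_hT_inv (q : ℕ) [NeZero q] {T : LaurentSeries k}
    (hT : qExpand k q T = T ^ q) : qExpand k q T⁻¹ = T⁻¹ ^ q := by
  rw [map_inv₀, hT, inv_pow]

/-- coprimality for order `-1` -/
theorem nodesFrobU_isCoprime_neg_one (q : ℕ) : IsCoprime (-1 : ℤ) (q : ℤ) :=
  (isCoprime_one_left (x := (q : ℤ))).neg_left

/-- coprimality for order `1` -/
theorem nodesFrobU_isCoprime_one (q : ℕ) : IsCoprime (1 : ℤ) (q : ℤ) := isCoprime_one_left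

end Series

/-! ## The two coordinates: `j̄` and `j̄⁻¹` -/

section Instances

variable (k : Type*) [Field k]

theorem nodesFrobU_order_j : (jqModC k).order = -1 := nodesFrob_order_jqModC

theorem nodesFrobU_order_jinv : ((jqModC k)⁻¹).order = 1 := by
  rw [nodesFrobU_order_inv (jqModC_ne_zero_of_nontrivial k), nodesFrob_order_jqModC, neg_neg]

theorem nodesFrobU_hT_j (q : ℕ) [hq : Fact q.Prime] [CharP k q] :
    haveI : NeZero q := ⟨hq.out.ne_zero⟩
    qExpand k q (jqModC k) = jqModC k ^ q := by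
  haveI : NeZero q := ⟨hq.out.ne_zero⟩
  have h2 := nodesFrob_qExpand_int (k := k) q (jqModC ℤ)
  rw [coeffMap_jqModC] at h2
  exact h2

theorem nodesFrobU_hT_jinv (q : ℕ) [hq : Fact q.Prime] [CharP k q] :
    haveI : NeZero q := ⟨hq.out.ne_zero⟩
    qExpand k q (jqModC k)⁻¹ = (jqModC k)⁻¹ ^ q := by
  haveI : NeZero q := ⟨hq.out.ne_zero⟩
  exact nodesFrobU_hT_inv q (nodesFrobU_hT_j k q)

theorem nodesFrobU_hne_j {q : ℕ} (hq : 2 ≤ q) : (jqModC k ^ q) ^ q ≠ jqModC k :=
  nodesFrobU_hne hq (by rw [nodesFrobU_order_j]; norm_num)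

theorem nodesFrobU_hne_jinv {q : ℕ} (hq : 2 ≤ q) :
    ((jqModC k)⁻¹ ^ q) ^ q ≠ (jqModC k)⁻¹ :=
  nodesFrobU_hne hq (by rw [nodesFrobU_order_jinv]; norm_num)

theorem nodesFrobU_G4_j (q : ℕ) [NeZero q] (a : Fin q → LaurentSeries k)
    (h : ∑ i, qExpand k q (a i) * jqModC k ^ (i : ℕ) = 0) : ∀ i, a i = 0 :=
  nodesFrobU_G4 q (jqModC_ne_zero_of_nontrivial k)
    (by rw [nodesFrobU_order_j]; exact nodesFrobU_isCoprime_neg_one q) a h

theorem nodesFrobU_G4_jinv (q : ℕ) [NeZero q] (a : Fin q → LaurentSeries k)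
    (h : ∑ i, qExpand k q (a i) * (jqModC k)⁻¹ ^ (i : ℕ) = 0) : ∀ i, a i = 0 :=
  nodesFrobU_G4 q (inv_ne_zero (jqModC_ne_zero_of_nontrivial k))
    (by rw [nodesFrobU_order_jinv]; exact nodesFrobU_isCoprime_one q) a h

theorem nodesFrobU_transcendental_j : Transcendental k (jqModC k) :=
  nodesFrobU_transcendental (by rw [nodesFrobU_order_j]; norm_num)

theorem nodesFrobU_transcendental_jinv : Transcendental k (jqModC k)⁻¹ :=
  nodesFrobU_transcendental (by rw [nodesFrobU_order_jinv]; norm_num)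

end Instances

/-! ## The reductions of `J` and `J⁻¹` -/

section Red

variable {A E k : Type*} [CommRing A] [IsDomain A] [Field E] [Algebra A E] [IsFractionRing A E]
  [Field k] (r : A →+* k)

/-- `j ∈ E((Q))` lies in the Gauss ring -/
theorem nodesFrobU_j_mem : jqModC E ∈ gaussRing (algebraMap A E) r := by
  rw [nodesFrobJ_coe' (A := A)]
  exact coeffMap_mem_gaussRing _ r _

/-- the reduction of `j` is `j̄` (for any proof of membership) -/
theorem nodesFrobU_gaussRed_j (h : jqModC E ∈ gaussRing (algebraMap A E) r) :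
    gaussRed r (IsFractionRing.injective A E) ⟨jqModC E, h⟩ = jqModC k := by
  have h1 : (⟨jqModC E, h⟩ : gaussRing (algebraMap A E) r) =
      ⟨coeffMap (algebraMap A E) (jqModC A), coeffMap_mem_gaussRing _ r _⟩ :=
    Subtype.ext (nodesFrobJ_coe' (A := A))
  rw [h1, gaussRed_coeffMap, coeffMap_jqModC]

/-- `j⁻¹ ∈ E((Q))` lies in the Gauss ring -/
theorem nodesFrobU_jinv_mem : (jqModC E)⁻¹ ∈ gaussRing (algebraMap A E) r := by
  refine inv_mem_gaussRing r (IsFractionRing.injective A E) ⟨jqModC E, nodesFrobU_j_mem r⟩ ?_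
  rw [nodesFrobU_gaussRed_j]
  exact jqModC_ne_zero_of_nontrivial k

/-- the reduction of `j⁻¹` is `j̄⁻¹` (for any proof of membership) -/
theorem nodesFrobU_gaussRed_jinv (h : (jqModC E)⁻¹ ∈ gaussRing (algebraMap A E) r) :
    gaussRed r (IsFractionRing.injective A E) ⟨(jqModC E)⁻¹, h⟩ = (jqModC k)⁻¹ := by
  have h1 := gaussRed_inv r (IsFractionRing.injective A E) ⟨jqModC E, nodesFrobU_j_mem r⟩
    (by rw [nodesFrobU_gaussRed_j]; exact jqModC_ne_zero_of_nontrivial k)
  exact h1.trans (congrArg (fun z : LaurentSeries k => z⁻¹) (nodesFrobU_gaussRed_j r _))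

/-- `j(Q^n) ∈ E((Q))` lies in the Gauss ring -/
theorem nodesFrobU_jn_mem (n : ℕ) [NeZero n] :
    qExpand E n (jqModC E) ∈ gaussRing (algebraMap A E) r :=
  nodesFrob_qExpand_mem r n (nodesFrobU_j_mem r)

/-- the reduction of `j(Q^n)` is `j̄(Q^n)` (for any proof of membership) -/
theorem nodesFrobU_gaussRed_jn (n : ℕ) [NeZero n]
    (h : qExpand E n (jqModC E) ∈ gaussRing (algebraMap A E) r) :
    gaussRed r (IsFractionRing.injective A E) ⟨qExpand E n (jqModC E), h⟩ =
      qExpand k n (jqModC k) := by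
  have h1 := nodesFrob_gaussRed_qExpand r n ⟨jqModC E, nodesFrobU_j_mem r⟩
  rw [nodesFrobU_gaussRed_j] at h1
  exact h1

/-- `j(Q^n)⁻¹ ∈ E((Q))` lies in the Gauss ring -/
theorem nodesFrobU_jninv_mem (n : ℕ) [NeZero n] :
    (qExpand E n (jqModC E))⁻¹ ∈ gaussRing (algebraMap A E) r := by
  rw [← map_inv₀]
  exact nodesFrob_qExpand_mem r n (nodesFrobU_jinv_mem r)

/-- the reduction of `j(Q^n)⁻¹` is `j̄(Q^n)⁻¹` (for any proof of membership) -/
theorem nodesFrobU_gaussRed_jninv (n : ℕ) [NeZero n]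
    (h : (qExpand E n (jqModC E))⁻¹ ∈ gaussRing (algebraMap A E) r) :
    gaussRed r (IsFractionRing.injective A E) ⟨(qExpand E n (jqModC E))⁻¹, h⟩ =
      (qExpand k n (jqModC k))⁻¹ := by
  have h1 := gaussRed_inv r (IsFractionRing.injective A E)
    ⟨qExpand E n (jqModC E), nodesFrobU_jn_mem r n⟩
    (by
      rw [nodesFrobU_gaussRed_jn]
      exact (map_ne_zero_iff _ (qExpand_injective n)).mpr (jqModC_ne_zero_of_nontrivial k))
  exact h1.trans (congrArg (fun z : LaurentSeries k => z⁻¹) (nodesFrobU_gaussRed_jn r n _))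

end Red

end Fermat.Agent.UNIP

end
end ZBUNIP_014_0

/-! ### bundled: `Fermat.Agent.UNIP.NodesSwapJ` -/
section ZBUNIP_014_1

/-!
# UNIP / U5 (Nodes), piece SWAP, part 2 (helper6): the chart `j`

Setting of `NodesSwap.lean`: `F = modularFunctionFieldFullC E (M * q)`, `w = AL.atkinLehner`,
`J = nodesFrobJ E M q`, `Jq = nodesFrobJq E M q`, `G = gaussRing (algebraMap A E) r`.

* `nodesSwap_isIntegral_Jq : IsIntegral A[J] Jq`, `nodesSwap_isIntegral_J : IsIntegral A[Jq] J`;
* `nodesSwap_w_algebraMap`, `nodesSwap_isIntegral_w` : `x` integral over `A[t]` ⟹ `w x` integral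
  over `A[w t]`;
* `nodesSwap_chartJ : IsIntegral A[J] x → IsIntegral A[J] (w x)` (`w_q` preserves the chart `j`);
* `nodesSwap_J_mem`, `nodesSwap_Jq_mem`, `nodesSwap_wJ_mem` : `J, Jq, w J ∈ G`;
* `nodesSwap_swap_J` : **(SWAP) on the chart `j`**, for every coordinate `t : F` whose series is
  `j` and any proofs `ht : t ∈ G`, `hwt : w t ∈ G`:
  `∀ b : B_t, ∃ b' : B_t, ρ b' = ρ₀ b ∧ ρ₀ b' = ρ b` with `ρ = nodesFrobChartRed … t ht`,
  `ρ₀ = nodesSwapRho₀ … w t hwt` (`b' = w b`);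
* `nodesSwap_swapGen_J` : the generator form used by `nodesHomData_of_frobenius`:
  `b₁ = Jq ∈ B_t` with `ρ b₁ = ρ₀ t`, `ρ₀ b₁ = ρ t`.
-/

set_option autoImplicit false
set_option linter.unusedSectionVars false

noncomputable section

namespace Fermat.Agent.UNIP

open ModularCurve Polynomial IntermediateField Fermat.Agent.INJ Fermat.Agent.AL Fermat.Agent.S28

section ChartJ

variable {A E k : Type*} [CommRing A] [IsDomain A] [Field E] [Algebra A E] [IsFractionRing A E]
  [Field k] (r : A →+* k) (ιC : E →+* ℂ) {π : A}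
  {q M : ℕ} [NeZero q] [NeZero M] [NeZero (M * q)] (hq : q.Prime) (hqM : ¬ q ∣ M)
  [Algebra A (modularFunctionFieldFullC E (M * q))]
  [IsScalarTower A E (modularFunctionFieldFullC E (M * q))]

/-- `Jq = j(Q^q)` is integral over `A[J]`. -/
theorem nodesSwap_isIntegral_Jq (hq : q.Prime) :
    IsIntegral (Algebra.adjoin A {nodesFrobJ E M q}) (nodesFrobJq E M q) :=
  nodesSwap_isIntegral_of_evalInt (A := A) (S := modularFunctionFieldFullC E (M * q))
    (nodesSwapPhi_monic q hq) (nodesSwapPhi_eval q hq E M)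

/-- `J = j` is integral over `A[Jq]`. -/
theorem nodesSwap_isIntegral_J (hq : q.Prime) :
    IsIntegral (Algebra.adjoin A {nodesFrobJq E M q}) (nodesFrobJ E M q) :=
  nodesSwap_isIntegral_of_evalInt (A := A) (S := modularFunctionFieldFullC E (M * q))
    (nodesSwapPhi_monic q hq) (nodesSwapPhi_eval' q hq E M)

/-- `w_q` fixes the constants of `A`. -/
theorem nodesSwap_w_algebraMap (a : A) :
    atkinLehner E ιC hq hqM (algebraMap A (modularFunctionFieldFullC E (M * q)) a) =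
      algebraMap A (modularFunctionFieldFullC E (M * q)) a := by
  rw [IsScalarTower.algebraMap_apply A E (modularFunctionFieldFullC E (M * q)),
    AlgEquiv.commutes]

/-- `x` integral over `A[t]` ⟹ `w x` integral over `A[w t]`. -/
theorem nodesSwap_isIntegral_w {t x : modularFunctionFieldFullC E (M * q)}
    (hx : IsIntegral (Algebra.adjoin A {t}) x) :
    IsIntegral (Algebra.adjoin A {atkinLehner E ιC hq hqM t}) (atkinLehner E ιC hq hqM x) :=
  cusp_isIntegral_adjoin_map (A := A) (S := modularFunctionFieldFullC E (M * q))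
    (S' := modularFunctionFieldFullC E (M * q))
    ((atkinLehner E ιC hq hqM).toRingEquiv.toRingHom)
    (fun c => nodesSwap_w_algebraMap (A := A) (E := E) (M := M) (q := q) ιC hq hqM c)
    (u := t) (y := x) hx

/-- **`w_q` preserves the chart `j`.** -/
theorem nodesSwap_chartJ {x : modularFunctionFieldFullC E (M * q)}
    (hx : IsIntegral (Algebra.adjoin A {nodesFrobJ E M q}) x) :
    IsIntegral (Algebra.adjoin A {nodesFrobJ E M q}) (atkinLehner E ιC hq hqM x) := by
  have h1 := nodesSwap_isIntegral_w (A := A) (E := E) (M := M) (q := q) ιC hq hqM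
    (t := nodesFrobJ E M q) (x := x) hx
  rw [nodesFrob_atkinLehner_J] at h1
  exact cusp_isIntegral_adjoin_trans (A := A) (F := modularFunctionFieldFullC E (M * q))
    (u := nodesFrobJ E M q) (T := nodesFrobJq E M q)
    (nodesSwap_isIntegral_Jq (A := A) (E := E) (M := M) (q := q) hq) h1

/-- `J` lies in the Gauss ring. -/
theorem nodesSwap_J_mem :
    ((nodesFrobJ E M q : modularFunctionFieldFullC E (M * q)) : LaurentSeries E) ∈
      gaussRing (algebraMap A E) r :=
  nodesFrobU_j_mem (A := A) (E := E) r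

/-- `Jq` lies in the Gauss ring. -/
theorem nodesSwap_Jq_mem :
    ((nodesFrobJq E M q : modularFunctionFieldFullC E (M * q)) : LaurentSeries E) ∈
      gaussRing (algebraMap A E) r :=
  nodesFrobU_jn_mem (A := A) (E := E) r q

/-- `w J` lies in the Gauss ring. -/
theorem nodesSwap_wJ_mem :
    (((atkinLehner E ιC hq hqM).toAlgHom (nodesFrobJ E M q) :
      modularFunctionFieldFullC E (M * q)) : LaurentSeries E) ∈ gaussRing (algebraMap A E) r := by
  show ((atkinLehner E ιC hq hqM (nodesFrobJ E M q) : modularFunctionFieldFullC E (M * q)) :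
    LaurentSeries E) ∈ gaussRing (algebraMap A E) r
  rw [nodesFrob_atkinLehner_J]
  exact nodesSwap_Jq_mem (A := A) (E := E) (M := M) (q := q) r

set_option synthInstance.maxHeartbeats 400000 in
/-- **(SWAP) on the chart `j`**: `b' = w_q b`. -/
theorem nodesSwap_swap_J [WfDvdMonoid A] (hπ0 : π ≠ 0) (hπ : ¬ IsUnit π)
    (hr : ∀ a, r a = 0 → π ∣ a) (hrπ : r π = 0)
    (t : modularFunctionFieldFullC E (M * q)) (htj : (t : LaurentSeries E) = jqModC E)
    (ht : (t : LaurentSeries E) ∈ gaussRing (algebraMap A E) r)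
    (hwt : (((atkinLehner E ιC hq hqM).toAlgHom t :
      modularFunctionFieldFullC E (M * q)) : LaurentSeries E) ∈ gaussRing (algebraMap A E) r)
    (b : integralClosure (Algebra.adjoin A {t}) (modularFunctionFieldFullC E (M * q))) :
    ∃ b' : integralClosure (Algebra.adjoin A {t}) (modularFunctionFieldFullC E (M * q)),
      nodesFrobChartRed (A := A) (E := E) r hπ0 hπ hr hrπ
          (nodesFrob_full_le (A := A) (E := E) (M * q)) t ht b' =
        nodesSwapRho₀ (A := A) (E := E) r hπ0 hπ hr hrπ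
          (nodesFrob_full_le (A := A) (E := E) (M * q))
          (atkinLehner E ιC hq hqM).toAlgHom t hwt b ∧
      nodesSwapRho₀ (A := A) (E := E) r hπ0 hπ hr hrπ
          (nodesFrob_full_le (A := A) (E := E) (M * q))
          (atkinLehner E ιC hq hqM).toAlgHom t hwt b' =
        nodesFrobChartRed (A := A) (E := E) r hπ0 hπ hr hrπ
          (nodesFrob_full_le (A := A) (E := E) (M * q)) t ht b := by
  obtain rfl : t = nodesFrobJ E M q := Subtype.ext htj
  refine ⟨⟨atkinLehner E ιC hq hqM (b : modularFunctionFieldFullC E (M * q)),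
    nodesSwap_chartJ (A := A) (E := E) (M := M) (q := q) ιC hq hqM b.2⟩, rfl, ?_⟩
  have hw : atkinLehner E ιC hq hqM (atkinLehner E ιC hq hqM
      (b : modularFunctionFieldFullC E (M * q))) = (b : modularFunctionFieldFullC E (M * q)) :=
    atkinLehner_invol E ιC hq hqM _
  show gaussRed r (IsFractionRing.injective A E)
      ⟨((atkinLehner E ιC hq hqM (atkinLehner E ιC hq hqM
        (b : modularFunctionFieldFullC E (M * q))) : modularFunctionFieldFullC E (M * q)) :
          LaurentSeries E), _⟩ =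
    gaussRed r (IsFractionRing.injective A E)
      ⟨((b : modularFunctionFieldFullC E (M * q)) : LaurentSeries E), _⟩
  congr 1
  exact Subtype.ext (congrArg (fun z : modularFunctionFieldFullC E (M * q) =>
    (z : LaurentSeries E)) hw)

set_option synthInstance.maxHeartbeats 400000 in
/-- **(SWAP) of the coordinate, chart `j`**: `b₁ = Jq` lies in the chart, `ρ b₁ = ρ₀ t` and
`ρ₀ b₁ = ρ t` (the input `b₁, hb₁, hb₁'` of `nodesHomData_of_frobenius`). -/
theorem nodesSwap_swapGen_J [WfDvdMonoid A] (hπ0 : π ≠ 0) (hπ : ¬ IsUnit π)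
    (hr : ∀ a, r a = 0 → π ∣ a) (hrπ : r π = 0)
    (t : modularFunctionFieldFullC E (M * q)) (htj : (t : LaurentSeries E) = jqModC E)
    (ht : (t : LaurentSeries E) ∈ gaussRing (algebraMap A E) r)
    (hwt : (((atkinLehner E ιC hq hqM).toAlgHom t :
      modularFunctionFieldFullC E (M * q)) : LaurentSeries E) ∈ gaussRing (algebraMap A E) r) :
    ∃ b₁ : integralClosure (Algebra.adjoin A {t}) (modularFunctionFieldFullC E (M * q)),
      ((b₁ : modularFunctionFieldFullC E (M * q)) : LaurentSeries E) = qExpand E q (jqModC E) ∧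
      nodesFrobChartRed (A := A) (E := E) r hπ0 hπ hr hrπ
          (nodesFrob_full_le (A := A) (E := E) (M * q)) t ht b₁ = qExpand k q (jqModC k) ∧
      nodesSwapRho₀ (A := A) (E := E) r hπ0 hπ hr hrπ
          (nodesFrob_full_le (A := A) (E := E) (M * q))
          (atkinLehner E ιC hq hqM).toAlgHom t hwt b₁ = jqModC k := by
  obtain rfl : t = nodesFrobJ E M q := Subtype.ext htj
  refine ⟨⟨nodesFrobJq E M q,
    nodesSwap_isIntegral_Jq (A := A) (E := E) (M := M) (q := q) hq⟩, rfl, ?_, ?_⟩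
  · exact nodesFrobU_gaussRed_jn (A := A) (E := E) r q _
  · have hw : atkinLehner E ιC hq hqM (nodesFrobJq E M q) = nodesFrobJ E M q :=
      nodesFrob_atkinLehner_Jq ιC hq hqM
    have h1 : ((atkinLehner E ιC hq hqM (nodesFrobJq E M q) :
        modularFunctionFieldFullC E (M * q)) : LaurentSeries E) = jqModC E := by
      rw [hw]; rfl
    show gaussRed r (IsFractionRing.injective A E)
      ⟨((atkinLehner E ιC hq hqM (nodesFrobJq E M q) :
        modularFunctionFieldFullC E (M * q)) : LaurentSeries E), _⟩ = jqModC k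
    have h2 : jqModC E ∈ gaussRing (algebraMap A E) r := nodesFrobU_j_mem (A := A) (E := E) r
    rw [← nodesFrobU_gaussRed_j (A := A) (E := E) r h2]
    congr 1
    exact Subtype.ext h1

end ChartJ

end Fermat.Agent.UNIP

end
end ZBUNIP_014_1

/-! ### bundled: `Fermat.Agent.UNIP.NodesSwapKron` -/
section ZBUNIP_014_2

/-!
# UNIP / U5 (Nodes), piece SWAP, part 3 (helper6): Kronecker's congruence `ℓ ≡ 1 mod q`

`ℓ = cuspEll Φ_q ∈ ℤ[X]` (the reverse of `Φ_q(X, 0)`, `Φ_q = nodesSwapPhi q hq`).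

* `nodesSwap_eval₂_int_mem_adjoin`, `nodesSwap_eval₂_int_isIntegral`, `nodesSwap_map_eval₂_int`,
  `nodesSwap_aeval_int_eq` : integer polynomials in `u` (membership in `A[u]`, ring homs);
* `nodesSwap_eval₂_mem_gaussRing`, `nodesSwap_gaussRed_eval₂` : integer polynomials in elements of
  the Gauss ring;
* `nodesSwap_cuspEll_map` : **`ℓ ≡ 1 mod q`** (`(cuspEll Φ_q).map (Int.castRingHom k) = 1` for a
  field `k` of characteristic `q`; Kronecker's congruence, `cusp_kronecker` of helper92);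
* `nodesSwap_eval₂_cuspEll`, `nodesSwap_gaussRed_cuspEll` : `ℓ(x) = 1` in every `k`-algebra,
  `ρ(ℓ(x)) = 1` for every `x` in the Gauss ring.
The chart `1/j` is in `NodesSwapInv.lean`.
-/

set_option autoImplicit false
set_option linter.unusedSectionVars false
set_option linter.style.haveILetI false

noncomputable section

namespace Fermat.Agent.UNIP

open ModularCurve Polynomial IntermediateField Fermat.Agent.INJ Fermat.Agent.AL Fermat.Agent.S28

/-! ## General lemmas on polynomials with integer coefficients -/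

section IntPoly

/-- Evaluation of an integer polynomial, `aeval` form. -/
theorem nodesSwap_aeval_int_eq {S : Type*} [CommRing S] (x : S) (p : Polynomial ℤ) :
    aeval x p = p.eval₂ (Int.castRingHom S) x := by
  rw [aeval_def, algebraMap_int_eq]

theorem nodesSwap_eval₂_int_eq_aeval {A S : Type*} [CommRing A] [CommRing S] [Algebra A S]
    (u : S) (p : Polynomial ℤ) :
    p.eval₂ (Int.castRingHom S) u = aeval u (p.map (Int.castRingHom A)) := by
  rw [aeval_def, eval₂_map]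
  congr 1
  exact RingHom.ext_int _ _

/-- A polynomial with integer coefficients in `u` lies in `A[u]`. -/
theorem nodesSwap_eval₂_int_mem_adjoin {A S : Type*} [CommRing A] [CommRing S] [Algebra A S]
    (u : S) (p : Polynomial ℤ) : p.eval₂ (Int.castRingHom S) u ∈ Algebra.adjoin A {u} := by
  rw [nodesSwap_eval₂_int_eq_aeval (A := A)]
  exact Polynomial.aeval_mem_adjoin_singleton A u

/-- A polynomial with integer coefficients in `u` is integral over `A[u]`. -/
theorem nodesSwap_eval₂_int_isIntegral {A S : Type*} [CommRing A] [CommRing S] [Algebra A S]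
    (u : S) (p : Polynomial ℤ) :
    IsIntegral (Algebra.adjoin A {u}) (p.eval₂ (Int.castRingHom S) u) := by
  have h : p.eval₂ (Int.castRingHom S) u = algebraMap (Algebra.adjoin A {u}) S
      ⟨p.eval₂ (Int.castRingHom S) u, nodesSwap_eval₂_int_mem_adjoin (A := A) u p⟩ := rfl
  rw [h]
  exact isIntegral_algebraMap

/-- Ring homomorphisms commute with the evaluation of polynomials with integer coefficients. -/
theorem nodesSwap_map_eval₂_int {R S : Type*} [CommRing R] [CommRing S] (f : R →+* S) (x : R)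
    (p : Polynomial ℤ) :
    f (p.eval₂ (Int.castRingHom R) x) = p.eval₂ (Int.castRingHom S) (f x) := by
  rw [hom_eval₂]
  congr 1
  exact RingHom.ext_int _ _

end IntPoly

/-! ## Kronecker: `ℓ ≡ 1` modulo `q` -/

section Kron

variable (k : Type*) [Field k] (q : ℕ) [NeZero q] (hq : q.Prime) [CharP k q]

/-- **`ℓ ≡ 1 mod q`**: the reduction of `ℓ = cuspEll Φ_q` to characteristic `q` is `1`. -/
theorem nodesSwap_cuspEll_map :
    (cuspEll (nodesSwapPhi q hq)).map (Int.castRingHom k) = 1 := by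
  haveI : Fact q.Prime := ⟨hq⟩
  have hm := nodesSwapPhi_monic q hq
  rw [← cuspEll_map (Int.castRingHom k) hm]
  have hev : ∀ x : LaurentSeries k,
      (((aeval x : Polynomial k →ₐ[k] LaurentSeries k) : Polynomial k →+* LaurentSeries k)).comp
        (mapRingHom (Int.castRingHom k)) = evalInt x := by
    intro x
    rw [ringHom_eq_evalInt ((((aeval x : Polynomial k →ₐ[k] LaurentSeries k) :
      Polynomial k →+* LaurentSeries k)).comp (mapRingHom (Int.castRingHom k)))]
    congr 1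
    simp
  have hT : qExpand k q (jqModC k) = jqModC k ^ q := nodesFrobU_hT_j k q
  refine cuspEll_eq_one_of_kronecker q hq.two_le _ (hm.map _)
    (by rw [hm.natDegree_map, nodesSwapPhi_natDegree]) (jqModC k)
    (nodesFrobU_transcendental_j k) ?_ ?_
  · rw [eval₂_map, hev, ← hT]
    exact nodesSwapPhi_series q hq k
  · rw [eval₂_map, hev, ← hT]
    exact nodesSwapPhi_series' q hq k

/-- `ℓ(x) = 1` for every `x` of a commutative `k`-algebra `K`, `char k = q`. -/
theorem nodesSwap_eval₂_cuspEll {K : Type*} [CommRing K] [Algebra k K] (x : K) :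
    (cuspEll (nodesSwapPhi q hq)).eval₂ (Int.castRingHom K) x = 1 := by
  have h1 : (cuspEll (nodesSwapPhi q hq)).eval₂ (Int.castRingHom K) x =
      ((cuspEll (nodesSwapPhi q hq)).map (Int.castRingHom k)).eval₂ (algebraMap k K) x := by
    rw [eval₂_map]
    congr 1
    exact RingHom.ext_int _ _
  rw [h1, nodesSwap_cuspEll_map k q hq, eval₂_one]

end Kron

/-! ## Reductions of integer polynomials in elements of the Gauss ring -/

section RedPoly

variable {A E k : Type*} [CommRing A] [IsDomain A] [Field E] [Algebra A E] [IsFractionRing A E]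
  [Field k] (r : A →+* k)

/-- An integer polynomial in an element of the Gauss ring lies in the Gauss ring. -/
theorem nodesSwap_eval₂_mem_gaussRing {x : LaurentSeries E}
    (hx : x ∈ gaussRing (algebraMap A E) r) (p : Polynomial ℤ) :
    p.eval₂ (Int.castRingHom (LaurentSeries E)) x ∈ gaussRing (algebraMap A E) r := by
  have h := nodesSwap_map_eval₂_int (gaussRing (algebraMap A E) r).subtype ⟨x, hx⟩ p
  have h2 : (gaussRing (algebraMap A E) r).subtype ⟨x, hx⟩ = x := rfl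
  rw [h2] at h
  rw [← h]
  exact (p.eval₂ (Int.castRingHom (gaussRing (algebraMap A E) r)) ⟨x, hx⟩).2

/-- The reduction of an integer polynomial in an element of the Gauss ring. -/
theorem nodesSwap_gaussRed_eval₂ {x : LaurentSeries E}
    (hx : x ∈ gaussRing (algebraMap A E) r) (p : Polynomial ℤ)
    (h : p.eval₂ (Int.castRingHom (LaurentSeries E)) x ∈ gaussRing (algebraMap A E) r) :
    gaussRed r (IsFractionRing.injective A E) ⟨_, h⟩ =
      p.eval₂ (Int.castRingHom (LaurentSeries k))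
        (gaussRed r (IsFractionRing.injective A E) ⟨x, hx⟩) := by
  have h1 : (⟨_, h⟩ : gaussRing (algebraMap A E) r) =
      p.eval₂ (Int.castRingHom (gaussRing (algebraMap A E) r)) ⟨x, hx⟩ := by
    apply Subtype.ext
    exact (nodesSwap_map_eval₂_int (gaussRing (algebraMap A E) r).subtype ⟨x, hx⟩ p).symm
  rw [h1, nodesSwap_map_eval₂_int]

/-- **`ρ(ℓ(x)) = 1`** for every `x` in the Gauss ring, in residue characteristic `q`. -/
theorem nodesSwap_gaussRed_cuspEll (q : ℕ) [NeZero q] (hq : q.Prime) [CharP k q]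
    {x : LaurentSeries E} (hx : x ∈ gaussRing (algebraMap A E) r)
    (h : (cuspEll (nodesSwapPhi q hq)).eval₂ (Int.castRingHom (LaurentSeries E)) x ∈
      gaussRing (algebraMap A E) r) :
    gaussRed r (IsFractionRing.injective A E) ⟨_, h⟩ = 1 := by
  rw [nodesSwap_gaussRed_eval₂ r hx, nodesSwap_eval₂_cuspEll k q hq]

end RedPoly

end Fermat.Agent.UNIP

end
end ZBUNIP_014_2

/-! ### bundled: `Fermat.Agent.UNIP.NodesSwapInv` -/
section ZBUNIP_014_3

/-!
# UNIP / U5 (Nodes), piece SWAP, part 4 (helper6): the chart `1/j`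

Setting of `NodesSwap.lean` / `NodesSwapJ.lean`; `u = J⁻¹`, `T = Jq⁻¹ = w u`,
`ℓ = cuspEll Φ_q ∈ ℤ[X]` (the reverse of `Φ_q(X, 0)`), `L = ℓ(u) = nodesSwapL E M q hq`.

* `nodesSwap_L_isIntegral`, `nodesSwap_LT_isIntegral` : `L` and `L · Jq⁻¹` are integral over
  `A[J⁻¹]` (`cusp_isIntegral_ell_mul_int` of helper92);
* `nodesSwap_chartInv : IsIntegral A[J⁻¹] x → ∃ N, IsIntegral A[J⁻¹] (L ^ N * w x)`;
* `nodesSwapL_mem`, `nodesSwap_gaussRed_L`, `nodesSwap_wL_mem`, `nodesSwap_gaussRed_wL` :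
  `L, w L ∈ G`, `ρ L = 1 = ρ (w L)` in residue characteristic `q`;
* `nodesSwap_swap_Jinv` : **(SWAP) on the chart `1/j`**, for every coordinate `t : F` whose series
  is `j⁻¹`: `∀ b : B_t, ∃ b' : B_t, ρ b' = ρ₀ b ∧ ρ₀ b' = ρ b` (`b' = L ^ N * w b`);
* `nodesSwap_swapGen_Jinv` : the generator form: `b₁ ∈ B_t` with `ρ b₁ = j̄(Q^q)⁻¹ (= ρ₀ t)`,
  `ρ₀ b₁ = j̄⁻¹ (= ρ t)`.
-/

set_option autoImplicit false
set_option linter.unusedSectionVars false
set_option linter.style.haveILetI false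

noncomputable section

namespace Fermat.Agent.UNIP

open ModularCurve Polynomial IntermediateField Fermat.Agent.INJ Fermat.Agent.AL Fermat.Agent.S28

section ChartInv

variable {A E k : Type*} [CommRing A] [IsDomain A] [Field E] [Algebra A E] [IsFractionRing A E]
  [Field k] (r : A →+* k) (ιC : E →+* ℂ) {π : A}
  {q M : ℕ} [NeZero q] [NeZero M] [NeZero (M * q)] (hq : q.Prime) (hqM : ¬ q ∣ M)
  [Algebra A (modularFunctionFieldFullC E (M * q))]
  [IsScalarTower A E (modularFunctionFieldFullC E (M * q))]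

/-- `L = ℓ(1/j) ∈ F_{Mq}`, `ℓ` the reverse of `Φ_q(X, 0)`. -/
def nodesSwapL (E : Type*) [Field E] (M q : ℕ) [NeZero q] [NeZero M] [NeZero (M * q)]
    (hq : q.Prime) : modularFunctionFieldFullC E (M * q) :=
  (cuspEll (nodesSwapPhi q hq)).eval₂ (Int.castRingHom (modularFunctionFieldFullC E (M * q)))
    (nodesFrobJ E M q)⁻¹

theorem nodesSwapL_coe :
    ((nodesSwapL E M q hq : modularFunctionFieldFullC E (M * q)) : LaurentSeries E) =
      (cuspEll (nodesSwapPhi q hq)).eval₂ (Int.castRingHom (LaurentSeries E)) (jqModC E)⁻¹ :=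
  nodesSwap_map_eval₂_int (modularFunctionFieldFullC E (M * q)).val.toRingHom
    (nodesFrobJ E M q)⁻¹ (cuspEll (nodesSwapPhi q hq))

theorem nodesSwap_w_L :
    atkinLehner E ιC hq hqM (nodesSwapL E M q hq) =
      (cuspEll (nodesSwapPhi q hq)).eval₂
        (Int.castRingHom (modularFunctionFieldFullC E (M * q))) (nodesFrobJq E M q)⁻¹ := by
  have h := nodesSwap_map_eval₂_int (atkinLehner E ιC hq hqM).toRingEquiv.toRingHom
    (nodesFrobJ E M q)⁻¹ (cuspEll (nodesSwapPhi q hq))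
  have h2 : (atkinLehner E ιC hq hqM).toRingEquiv.toRingHom (nodesFrobJ E M q)⁻¹ =
      (nodesFrobJq E M q)⁻¹ := by
    show atkinLehner E ιC hq hqM (nodesFrobJ E M q)⁻¹ = (nodesFrobJq E M q)⁻¹
    rw [map_inv₀, nodesFrob_atkinLehner_J]
  rw [h2] at h
  exact h

theorem nodesSwap_w_L_coe :
    ((atkinLehner E ιC hq hqM (nodesSwapL E M q hq) : modularFunctionFieldFullC E (M * q)) :
      LaurentSeries E) =
      (cuspEll (nodesSwapPhi q hq)).eval₂ (Int.castRingHom (LaurentSeries E))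
        (qExpand E q (jqModC E))⁻¹ := by
  rw [nodesSwap_w_L]
  exact nodesSwap_map_eval₂_int (modularFunctionFieldFullC E (M * q)).val.toRingHom
    (nodesFrobJq E M q)⁻¹ (cuspEll (nodesSwapPhi q hq))

theorem nodesSwap_J_ne_zero : nodesFrobJ E M q ≠ 0 := by
  intro h
  have h1 := congrArg (fun z : modularFunctionFieldFullC E (M * q) => (z : LaurentSeries E)) h
  exact jqModC_ne_zero_of_nontrivial E h1

theorem nodesSwap_Jq_ne_zero : nodesFrobJq E M q ≠ 0 := by
  intro h
  have h1 := congrArg (fun z : modularFunctionFieldFullC E (M * q) => (z : LaurentSeries E)) h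
  have h2 : qExpand E q (jqModC E) = 0 := h1
  exact jqModC_ne_zero_of_nontrivial E ((map_eq_zero_iff _ (qExpand E q).injective).mp h2)

/-- `L` is integral over `A[J⁻¹]`. -/
theorem nodesSwap_L_isIntegral :
    IsIntegral (Algebra.adjoin A {(nodesFrobJ E M q)⁻¹}) (nodesSwapL E M q hq) :=
  nodesSwap_eval₂_int_isIntegral (A := A) (S := modularFunctionFieldFullC E (M * q))
    (nodesFrobJ E M q)⁻¹ (cuspEll (nodesSwapPhi q hq))

/-- `L · Jq⁻¹` is integral over `A[J⁻¹]`. -/
theorem nodesSwap_LT_isIntegral :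
    IsIntegral (Algebra.adjoin A {(nodesFrobJ E M q)⁻¹})
      (nodesSwapL E M q hq * (nodesFrobJq E M q)⁻¹) := by
  have h := cusp_isIntegral_ell_mul_int (A := A) (F := modularFunctionFieldFullC E (M * q))
    (nodesSwapPhi q hq) (evalInt (nodesFrobJq E M q)) (b := nodesFrobJ E M q)
    (by rw [evalInt_X]; exact nodesSwap_Jq_ne_zero (E := E) (M := M) (q := q))
    (nodesSwap_J_ne_zero (E := E) (M := M) (q := q)) (nodesSwapPhi_eval' q hq E M)
  rw [evalInt_X, nodesSwap_aeval_int_eq] at h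
  exact h

/-- **The chart `1/j`**: `x` integral over `A[J⁻¹]` ⟹ `L ^ N · w x` integral over `A[J⁻¹]`. -/
theorem nodesSwap_chartInv {x : modularFunctionFieldFullC E (M * q)}
    (hx : IsIntegral (Algebra.adjoin A {(nodesFrobJ E M q)⁻¹}) x) :
    ∃ N : ℕ, IsIntegral (Algebra.adjoin A {(nodesFrobJ E M q)⁻¹})
      (nodesSwapL E M q hq ^ N * atkinLehner E ιC hq hqM x) := by
  have h1 := nodesSwap_isIntegral_w (A := A) (E := E) (M := M) (q := q) ιC hq hqM
    (t := (nodesFrobJ E M q)⁻¹) (x := x) hx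
  rw [map_inv₀, nodesFrob_atkinLehner_J] at h1
  exact cusp_exists_pow_mul_isIntegral (A := A) (F := modularFunctionFieldFullC E (M * q))
    (nodesFrobJ E M q)⁻¹ (nodesFrobJq E M q)⁻¹ (nodesSwapL E M q hq)
    (nodesSwap_L_isIntegral (A := A) (E := E) (M := M) (q := q) hq)
    (nodesSwap_LT_isIntegral (A := A) (E := E) (M := M) (q := q) hq) h1

/-- `L` lies in the Gauss ring. -/
theorem nodesSwapL_mem :
    ((nodesSwapL E M q hq : modularFunctionFieldFullC E (M * q)) : LaurentSeries E) ∈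
      gaussRing (algebraMap A E) r := by
  rw [nodesSwapL_coe]
  exact nodesSwap_eval₂_mem_gaussRing (A := A) (E := E) r
    (nodesFrobU_jinv_mem (A := A) (E := E) r) _

/-- `w L` lies in the Gauss ring. -/
theorem nodesSwap_wL_mem :
    ((atkinLehner E ιC hq hqM (nodesSwapL E M q hq) : modularFunctionFieldFullC E (M * q)) :
      LaurentSeries E) ∈ gaussRing (algebraMap A E) r := by
  rw [nodesSwap_w_L_coe]
  exact nodesSwap_eval₂_mem_gaussRing (A := A) (E := E) r
    (nodesFrobU_jninv_mem (A := A) (E := E) r q) _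

/-- **`ρ L = 1`** in residue characteristic `q`. -/
theorem nodesSwap_gaussRed_L [CharP k q]
    (h : ((nodesSwapL E M q hq : modularFunctionFieldFullC E (M * q)) : LaurentSeries E) ∈
      gaussRing (algebraMap A E) r) :
    gaussRed r (IsFractionRing.injective A E) ⟨_, h⟩ = 1 := by
  have hmem : (cuspEll (nodesSwapPhi q hq)).eval₂ (Int.castRingHom (LaurentSeries E))
      (jqModC E)⁻¹ ∈ gaussRing (algebraMap A E) r :=
    nodesSwap_eval₂_mem_gaussRing (A := A) (E := E) r (nodesFrobU_jinv_mem (A := A) (E := E) r) _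
  rw [← nodesSwap_gaussRed_cuspEll (A := A) (E := E) r q hq
    (nodesFrobU_jinv_mem (A := A) (E := E) r) hmem]
  congr 1
  exact Subtype.ext (nodesSwapL_coe (E := E) (M := M) (q := q) hq)

/-- **`ρ (w L) = 1`** in residue characteristic `q`. -/
theorem nodesSwap_gaussRed_wL [CharP k q]
    (h : ((atkinLehner E ιC hq hqM (nodesSwapL E M q hq) : modularFunctionFieldFullC E (M * q)) :
      LaurentSeries E) ∈ gaussRing (algebraMap A E) r) :
    gaussRed r (IsFractionRing.injective A E) ⟨_, h⟩ = 1 := by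
  have hmem : (cuspEll (nodesSwapPhi q hq)).eval₂ (Int.castRingHom (LaurentSeries E))
      (qExpand E q (jqModC E))⁻¹ ∈ gaussRing (algebraMap A E) r :=
    nodesSwap_eval₂_mem_gaussRing (A := A) (E := E) r
      (nodesFrobU_jninv_mem (A := A) (E := E) r q) _
  rw [← nodesSwap_gaussRed_cuspEll (A := A) (E := E) r q hq
    (nodesFrobU_jninv_mem (A := A) (E := E) r q) hmem]
  congr 1
  exact Subtype.ext (nodesSwap_w_L_coe (E := E) (M := M) (q := q) ιC hq hqM)

set_option synthInstance.maxHeartbeats 400000 in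
/-- **(SWAP) on the chart `1/j`**: `b' = L ^ N * w_q b`. -/
theorem nodesSwap_swap_Jinv [WfDvdMonoid A] [CharP k q] (hπ0 : π ≠ 0) (hπ : ¬ IsUnit π)
    (hr : ∀ a, r a = 0 → π ∣ a) (hrπ : r π = 0)
    (t : modularFunctionFieldFullC E (M * q)) (htj : (t : LaurentSeries E) = (jqModC E)⁻¹)
    (ht : (t : LaurentSeries E) ∈ gaussRing (algebraMap A E) r)
    (hwt : (((atkinLehner E ιC hq hqM).toAlgHom t :
      modularFunctionFieldFullC E (M * q)) : LaurentSeries E) ∈ gaussRing (algebraMap A E) r)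
    (b : integralClosure (Algebra.adjoin A {t}) (modularFunctionFieldFullC E (M * q))) :
    ∃ b' : integralClosure (Algebra.adjoin A {t}) (modularFunctionFieldFullC E (M * q)),
      nodesFrobChartRed (A := A) (E := E) r hπ0 hπ hr hrπ
          (nodesFrob_full_le (A := A) (E := E) (M * q)) t ht b' =
        nodesSwapRho₀ (A := A) (E := E) r hπ0 hπ hr hrπ
          (nodesFrob_full_le (A := A) (E := E) (M * q))
          (atkinLehner E ιC hq hqM).toAlgHom t hwt b ∧
      nodesSwapRho₀ (A := A) (E := E) r hπ0 hπ hr hrπ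
          (nodesFrob_full_le (A := A) (E := E) (M * q))
          (atkinLehner E ιC hq hqM).toAlgHom t hwt b' =
        nodesFrobChartRed (A := A) (E := E) r hπ0 hπ hr hrπ
          (nodesFrob_full_le (A := A) (E := E) (M * q)) t ht b := by
  obtain rfl : t = (nodesFrobJ E M q)⁻¹ := Subtype.ext htj
  obtain ⟨N, hN⟩ := nodesSwap_chartInv (A := A) (E := E) (M := M) (q := q) ιC hq hqM b.2
  have hbG : (((b : modularFunctionFieldFullC E (M * q)) : LaurentSeries E)) ∈
      gaussRing (algebraMap A E) r :=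
    nodesFrob_G1_id (A := A) (E := E) r hπ0 hπ hr hrπ
      (nodesFrob_full_le (A := A) (E := E) (M * q)) (nodesFrobJ E M q)⁻¹ ht b.2
  have hwbG : ((atkinLehner E ιC hq hqM (b : modularFunctionFieldFullC E (M * q)) :
      modularFunctionFieldFullC E (M * q)) : LaurentSeries E) ∈ gaussRing (algebraMap A E) r :=
    nodesFrob_G1 (A := A) (E := E) r hπ0 hπ hr hrπ
      (nodesFrob_full_le (A := A) (E := E) (M * q)) (atkinLehner E ιC hq hqM).toAlgHom
      (nodesFrobJ E M q)⁻¹ hwt b.2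
  have hLG := nodesSwapL_mem (A := A) (E := E) (M := M) (q := q) r hq
  have hwLG := nodesSwap_wL_mem (A := A) (E := E) (M := M) (q := q) r ιC hq hqM
  refine ⟨⟨nodesSwapL E M q hq ^ N * atkinLehner E ιC hq hqM
    (b : modularFunctionFieldFullC E (M * q)), hN⟩, ?_, ?_⟩
  · have e : ∀ h, (⟨((nodesSwapL E M q hq ^ N * atkinLehner E ιC hq hqM
        (b : modularFunctionFieldFullC E (M * q)) : modularFunctionFieldFullC E (M * q)) :
          LaurentSeries E), h⟩ : gaussRing (algebraMap A E) r) =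
        ⟨_, hLG⟩ ^ N * ⟨_, hwbG⟩ := fun h => Subtype.ext rfl
    show gaussRed r (IsFractionRing.injective A E)
        ⟨((nodesSwapL E M q hq ^ N * atkinLehner E ιC hq hqM
          (b : modularFunctionFieldFullC E (M * q)) : modularFunctionFieldFullC E (M * q)) :
            LaurentSeries E), _⟩ =
      gaussRed r (IsFractionRing.injective A E) ⟨_, hwbG⟩
    rw [e, map_mul, map_pow, nodesSwap_gaussRed_L (A := A) (E := E) (M := M) (q := q) r hq hLG,
      one_pow, one_mul]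
  · have hw : atkinLehner E ιC hq hqM (nodesSwapL E M q hq ^ N * atkinLehner E ιC hq hqM
        (b : modularFunctionFieldFullC E (M * q))) =
        atkinLehner E ιC hq hqM (nodesSwapL E M q hq) ^ N *
          (b : modularFunctionFieldFullC E (M * q)) := by
      rw [map_mul, map_pow, atkinLehner_invol]
    have e : ∀ h, (⟨((atkinLehner E ιC hq hqM (nodesSwapL E M q hq ^ N *
        atkinLehner E ιC hq hqM (b : modularFunctionFieldFullC E (M * q))) :
          modularFunctionFieldFullC E (M * q)) : LaurentSeries E), h⟩ :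
          gaussRing (algebraMap A E) r) = ⟨_, hwLG⟩ ^ N * ⟨_, hbG⟩ := fun h =>
      Subtype.ext (congrArg (fun z : modularFunctionFieldFullC E (M * q) =>
        (z : LaurentSeries E)) hw)
    show gaussRed r (IsFractionRing.injective A E)
        ⟨((atkinLehner E ιC hq hqM (nodesSwapL E M q hq ^ N *
          atkinLehner E ιC hq hqM (b : modularFunctionFieldFullC E (M * q))) :
            modularFunctionFieldFullC E (M * q)) : LaurentSeries E), _⟩ =
      gaussRed r (IsFractionRing.injective A E) ⟨_, hbG⟩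
    rw [e, map_mul, map_pow,
      nodesSwap_gaussRed_wL (A := A) (E := E) (M := M) (q := q) r ιC hq hqM hwLG,
      one_pow, one_mul]

set_option synthInstance.maxHeartbeats 400000 in
/-- **(SWAP) of the coordinate, chart `1/j`**: there is `b₁` in the chart with
`ρ b₁ = j̄(Q^q)⁻¹ (= ρ₀ t)` and `ρ₀ b₁ = j̄⁻¹ (= ρ t)`. -/
theorem nodesSwap_swapGen_Jinv [WfDvdMonoid A] [CharP k q] (hπ0 : π ≠ 0) (hπ : ¬ IsUnit π)
    (hr : ∀ a, r a = 0 → π ∣ a) (hrπ : r π = 0)
    (t : modularFunctionFieldFullC E (M * q)) (htj : (t : LaurentSeries E) = (jqModC E)⁻¹)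
    (ht : (t : LaurentSeries E) ∈ gaussRing (algebraMap A E) r)
    (hwt : (((atkinLehner E ιC hq hqM).toAlgHom t :
      modularFunctionFieldFullC E (M * q)) : LaurentSeries E) ∈ gaussRing (algebraMap A E) r) :
    ∃ b₁ : integralClosure (Algebra.adjoin A {t}) (modularFunctionFieldFullC E (M * q)),
      nodesFrobChartRed (A := A) (E := E) r hπ0 hπ hr hrπ
          (nodesFrob_full_le (A := A) (E := E) (M * q)) t ht b₁ =
        (qExpand k q (jqModC k))⁻¹ ∧
      nodesSwapRho₀ (A := A) (E := E) r hπ0 hπ hr hrπ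
          (nodesFrob_full_le (A := A) (E := E) (M * q))
          (atkinLehner E ιC hq hqM).toAlgHom t hwt b₁ = (jqModC k)⁻¹ := by
  have htB : IsIntegral (Algebra.adjoin A {t}) t := by
    have h : t = algebraMap (Algebra.adjoin A {t}) (modularFunctionFieldFullC E (M * q))
        ⟨t, Algebra.subset_adjoin rfl⟩ := rfl
    rw [h]
    exact isIntegral_algebraMap
  obtain ⟨b₁, h1, h2⟩ := nodesSwap_swap_Jinv (A := A) (E := E) (M := M) (q := q) r ιC hq hqM
    hπ0 hπ hr hrπ t htj ht hwt ⟨t, htB⟩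
  refine ⟨b₁, ?_, ?_⟩
  · rw [h1]
    have hw : ((atkinLehner E ιC hq hqM t : modularFunctionFieldFullC E (M * q)) :
        LaurentSeries E) = (qExpand E q (jqModC E))⁻¹ := by
      obtain rfl : t = (nodesFrobJ E M q)⁻¹ := Subtype.ext htj
      rw [map_inv₀, nodesFrob_atkinLehner_J]
      rfl
    have hm : (qExpand E q (jqModC E))⁻¹ ∈ gaussRing (algebraMap A E) r :=
      nodesFrobU_jninv_mem (A := A) (E := E) r q
    rw [← nodesFrobU_gaussRed_jninv (A := A) (E := E) r q hm]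
    show gaussRed r (IsFractionRing.injective A E)
      ⟨((atkinLehner E ιC hq hqM t : modularFunctionFieldFullC E (M * q)) :
        LaurentSeries E), _⟩ = _
    congr 1
    exact Subtype.ext hw
  · rw [h2]
    have hm : (jqModC E)⁻¹ ∈ gaussRing (algebraMap A E) r :=
      nodesFrobU_jinv_mem (A := A) (E := E) r
    rw [← nodesFrobU_gaussRed_jinv (A := A) (E := E) r hm]
    show gaussRed r (IsFractionRing.injective A E) ⟨(t : LaurentSeries E), _⟩ = _
    congr 1
    exact Subtype.ext htj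

end ChartInv

end Fermat.Agent.UNIP

end
end ZBUNIP_014_3

/-! ### bundled: `Fermat.Agent.UNIP.NodesInstJ` -/
section ZBUNIP_014_4

/-!
# UNIP / U5 (Nodes): `NodesHomData` in the shape of `nodes_modular_chart`; the chart `j`

* `nodesInst_hρ₀_of_hw` : `hρ₀` for `ρ₀ = nodesSwapRho₀ … w …`, `w` any coercion of `w_q`;
* `nodesInst_prime_of_isDomain` : `Prime π` in the chart from `IsDomain (C ⧸ (π))`;
* `nodesInst_homData_w` : `hd` of `nodes_modular_chart`, generic in the coordinate `t`;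
* `nodesInst_homData_J` : `hd` of `nodes_modular_chart` on the chart `t = j`, with the only
  remaining hypothesis `Prime π` (in the chart of level `M`);
* `nodesInst_swap_J` : `swap` of `nodes_modular_chart` on the chart `t = j`.
-/

set_option autoImplicit false
set_option linter.unusedSectionVars false
set_option linter.unusedVariables false
set_option synthInstance.maxHeartbeats 400000
set_option maxHeartbeats 1000000

noncomputable section

namespace Fermat.Agent.UNIP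

open ModularCurve Fermat.Agent.INJ Fermat.Agent.AL IntermediateField

section W

variable {A E k : Type*} [CommRing A] [IsDomain A] [WfDvdMonoid A] [Field E] [Algebra A E]
  [IsFractionRing A E] [Field k] (r : A →+* k) {π : A}
  (hπ0 : π ≠ 0) (hπ : ¬ IsUnit π) (hr : ∀ a, r a = 0 → π ∣ a) (hrπ : r π = 0)
  (M q : ℕ) [NeZero q] [NeZero M] [NeZero (M * q)]
  [Algebra A (modularFunctionFieldFullC E M)]
  [IsScalarTower A E (modularFunctionFieldFullC E M)]
  [Algebra A (modularFunctionFieldFullC E (M * q))]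
  [IsScalarTower A E (modularFunctionFieldFullC E (M * q))]
  (t : modularFunctionFieldFullC E M)
  (ht : (t : LaurentSeries E) ∈ gaussRing (algebraMap A E) r)
  (ιC : E →+* ℂ) (hq : q.Prime) (hqM : ¬ q ∣ M)
  (w : modularFunctionFieldFullC E (M * q) →ₐ[E] modularFunctionFieldFullC E (M * q))
  (hw : ∀ x, w x = atkinLehner E ιC hq hqM x)
  (hwt : ((w (nodesInstIncl E M q t) :
    modularFunctionFieldFullC E (M * q)) : LaurentSeries E) ∈ gaussRing (algebraMap A E) r)

include hw in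
/-- `hρ₀` for `ρ₀ = nodesSwapRho₀ … w …`, `w` any coercion of `w_q`. -/
theorem nodesInst_hρ₀_of_hw
    (b : integralClosure (Algebra.adjoin A {nodesInstIncl E M q t})
        (modularFunctionFieldFullC E (M * q)))
    (hb : ((atkinLehner E ιC hq hqM (b : modularFunctionFieldFullC E (M * q)) :
      modularFunctionFieldFullC E (M * q)) : LaurentSeries E) ∈ gaussRing (algebraMap A E) r) :
    nodesSwapRho₀ r hπ0 hπ hr hrπ (nodesFrob_full_le (M * q)) w (nodesInstIncl E M q t) hwt b =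
      gaussRed r (IsFractionRing.injective A E) ⟨_, hb⟩ := by
  obtain rfl : w = (atkinLehner E ιC hq hqM).toAlgHom := AlgHom.ext hw
  rfl

include hπ0 in
/-- `π ≠ 0` in the chart. -/
theorem nodesInst_pi_ne_zero :
    algebraMap A (integralClosure (Algebra.adjoin A {t}) (modularFunctionFieldFullC E M)) π ≠
      0 := by
  intro h0
  have h1 := congrArg (fun z : integralClosure (Algebra.adjoin A {t})
      (modularFunctionFieldFullC E M) =>
        ((z : modularFunctionFieldFullC E M) : LaurentSeries E)) h0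
  have hπcoe : (((algebraMap A (integralClosure (Algebra.adjoin A {t})
      (modularFunctionFieldFullC E M)) π : integralClosure (Algebra.adjoin A {t})
        (modularFunctionFieldFullC E M)) : modularFunctionFieldFullC E M) : LaurentSeries E) =
      HahnSeries.C (algebraMap A E π) := nodesFrob_algebraMap_coe π
  simp only [hπcoe] at h1
  have h2 : algebraMap A E π = 0 := HahnSeries.C_injective (by rw [h1, map_zero]; rfl)
  exact hπ0 ((IsFractionRing.injective A E) (by rw [h2, map_zero]))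

include hπ0 in
/-- `Prime π` in the chart from `IsDomain (C ⧸ (π))`. -/
theorem nodesInst_prime_of_isDomain
    [hdom : IsDomain (integralClosure (Algebra.adjoin A {t}) (modularFunctionFieldFullC E M) ⧸
      Ideal.span {algebraMap A
        (integralClosure (Algebra.adjoin A {t}) (modularFunctionFieldFullC E M)) π})] :
    Prime (algebraMap A
      (integralClosure (Algebra.adjoin A {t}) (modularFunctionFieldFullC E M)) π) :=
  (Ideal.span_singleton_prime (nodesInst_pi_ne_zero hπ0 M t)).1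
    ((Ideal.Quotient.isDomain_iff_prime _).1 hdom)

include hw in
/-- **`hd` of `nodes_modular_chart`**, generic in the coordinate `t`. -/
theorem nodesInst_homData_w [CharZero E]
    (htr : Transcendental k (gaussRed r (IsFractionRing.injective A E) ⟨_, ht⟩))
    (hprime : Prime (algebraMap A
      (integralClosure (Algebra.adjoin A {t}) (modularFunctionFieldFullC E M)) π))
    (halg : ∀ x : modularFunctionFieldFullC E M, IsAlgebraic (Algebra.adjoin A {t}) x)
    (swap : ∀ b : integralClosure (Algebra.adjoin A {nodesInstIncl E M q t})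
        (modularFunctionFieldFullC E (M * q)),
      ∃ b' : integralClosure (Algebra.adjoin A {nodesInstIncl E M q t})
        (modularFunctionFieldFullC E (M * q)),
        nodesFrobChartRed r hπ0 hπ hr hrπ (nodesFrob_full_le (M * q))
          (nodesInstIncl E M q t) (nodesInst_ht' r M q t ht) b' =
          nodesSwapRho₀ r hπ0 hπ hr hrπ (nodesFrob_full_le (M * q)) w
            (nodesInstIncl E M q t) hwt b ∧
        nodesSwapRho₀ r hπ0 hπ hr hrπ (nodesFrob_full_le (M * q)) w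
            (nodesInstIncl E M q t) hwt b' =
          nodesFrobChartRed r hπ0 hπ hr hrπ (nodesFrob_full_le (M * q))
            (nodesInstIncl E M q t) (nodesInst_ht' r M q t ht) b)
    (hT : qExpand k q (gaussRed r (IsFractionRing.injective A E) ⟨_, ht⟩) =
      gaussRed r (IsFractionRing.injective A E) ⟨_, ht⟩ ^ q)
    (hne : (gaussRed r (IsFractionRing.injective A E) ⟨_, ht⟩ ^ q) ^ q ≠
      gaussRed r (IsFractionRing.injective A E) ⟨_, ht⟩)
    (hG4 : ∀ a : Fin q → LaurentSeries k,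
      ∑ i, qExpand k q (a i) * gaussRed r (IsFractionRing.injective A E) ⟨_, ht⟩ ^ (i : ℕ) = 0 →
        ∀ i, a i = 0) :
    NodesHomData (nodesPhi A M q t)
      (algebraMap A (integralClosure (Algebra.adjoin A {t}) (modularFunctionFieldFullC E M)) π)
      (nodesFrobChartRed r hπ0 hπ hr hrπ (nodesFrob_full_le (M * q))
        (nodesInstIncl E M q t) (nodesInst_ht' r M q t ht))
      (nodesSwapRho₀ r hπ0 hπ hr hrπ (nodesFrob_full_le (M * q)) w
        (nodesInstIncl E M q t) hwt) q :=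
  nodesInst_homData_of_swap r hπ0 hπ hr hrπ M q t ht ιC hq hqM htr hprime halg _
    (nodesInst_hρ₀_of_hw r hπ0 hπ hr hrπ M q t ιC hq hqM w hw hwt) swap hT hne hG4

end W

section J

variable {A E k : Type*} [CommRing A] [IsDomain A] [WfDvdMonoid A] [Field E] [Algebra A E]
  [IsFractionRing A E] [Field k] (r : A →+* k) {π : A}
  (hπ0 : π ≠ 0) (hπ : ¬ IsUnit π) (hr : ∀ a, r a = 0 → π ∣ a) (hrπ : r π = 0)
  (M q : ℕ) [NeZero q] [NeZero M] [NeZero (M * q)]
  [Algebra A (modularFunctionFieldFullC E M)]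
  [IsScalarTower A E (modularFunctionFieldFullC E M)]
  [Algebra A (modularFunctionFieldFullC E (M * q))]
  [IsScalarTower A E (modularFunctionFieldFullC E (M * q))]
  (t : modularFunctionFieldFullC E M)
  (htj : (t : LaurentSeries E) = jqModC E)
  (ht : (t : LaurentSeries E) ∈ gaussRing (algebraMap A E) r)
  (ιC : E →+* ℂ) (hq : q.Prime) (hqM : ¬ q ∣ M)
  (w : modularFunctionFieldFullC E (M * q) →ₐ[E] modularFunctionFieldFullC E (M * q))
  (hw : ∀ x, w x = atkinLehner E ιC hq hqM x)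
  (hwt : ((w (nodesInstIncl E M q t) :
    modularFunctionFieldFullC E (M * q)) : LaurentSeries E) ∈ gaussRing (algebraMap A E) r)

include htj in
/-- The reduction of the coordinate `t = j` is `j̄`. -/
theorem nodesInst_red_J :
    gaussRed r (IsFractionRing.injective A E) ⟨(t : LaurentSeries E), ht⟩ = jqModC k := by
  have h1 : (⟨(t : LaurentSeries E), ht⟩ : gaussRing (algebraMap A E) r) =
      ⟨jqModC E, nodesFrobU_j_mem r⟩ := Subtype.ext htj
  rw [h1]
  exact nodesFrobU_gaussRed_j r _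

include htj hw in
/-- **`swap` of `nodes_modular_chart`** on the chart `t = j`. -/
theorem nodesInst_swap_J
    (b : integralClosure (Algebra.adjoin A {nodesInstIncl E M q t})
        (modularFunctionFieldFullC E (M * q))) :
    ∃ b' : integralClosure (Algebra.adjoin A {nodesInstIncl E M q t})
        (modularFunctionFieldFullC E (M * q)),
      nodesFrobChartRed r hπ0 hπ hr hrπ (nodesFrob_full_le (M * q))
          (nodesInstIncl E M q t) (nodesInst_ht' r M q t ht) b' =
        nodesSwapRho₀ r hπ0 hπ hr hrπ (nodesFrob_full_le (M * q)) w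
          (nodesInstIncl E M q t) hwt b ∧
      nodesSwapRho₀ r hπ0 hπ hr hrπ (nodesFrob_full_le (M * q)) w
          (nodesInstIncl E M q t) hwt b' =
        nodesFrobChartRed r hπ0 hπ hr hrπ (nodesFrob_full_le (M * q))
          (nodesInstIncl E M q t) (nodesInst_ht' r M q t ht) b := by
  obtain rfl : w = (atkinLehner E ιC hq hqM).toAlgHom := AlgHom.ext hw
  exact nodesSwap_swap_J (A := A) (E := E) (M := M) (q := q) r ιC hq hqM hπ0 hπ hr hrπ
    (nodesInstIncl E M q t) (by rw [nodesInstIncl_coe]; exact htj)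
    (nodesInst_ht' r M q t ht) hwt b

include htj hw in
/-- **`hd` of `nodes_modular_chart`** on the chart `t = j`. -/
theorem nodesInst_homData_J [CharZero E] [Fact q.Prime] [CharP k q]
    (hprime : Prime (algebraMap A
      (integralClosure (Algebra.adjoin A {t}) (modularFunctionFieldFullC E M)) π)) :
    NodesHomData (nodesPhi A M q t)
      (algebraMap A (integralClosure (Algebra.adjoin A {t}) (modularFunctionFieldFullC E M)) π)
      (nodesFrobChartRed r hπ0 hπ hr hrπ (nodesFrob_full_le (M * q))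
        (nodesInstIncl E M q t) (nodesInst_ht' r M q t ht))
      (nodesSwapRho₀ r hπ0 hπ hr hrπ (nodesFrob_full_le (M * q)) w
        (nodesInstIncl E M q t) hwt) q := by
  have hred := nodesInst_red_J r M t htj ht
  refine nodesInst_homData_w r hπ0 hπ hr hrπ M q t ht ιC hq hqM w hw hwt ?_ hprime
    (nodesInstAlg_halg_J A M t htj)
    (nodesInst_swap_J r hπ0 hπ hr hrπ M q t htj ht ιC hq hqM w hw hwt) ?_ ?_ ?_
  · rw [hred]; exact nodesFrobU_transcendental_j k
  · rw [hred]; exact nodesFrobU_hT_j k q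
  · rw [hred]; exact nodesFrobU_hne_j k hq.two_le
  · rw [hred]; exact nodesFrobU_G4_j k q

end J

section Jinv

variable {A E k : Type*} [CommRing A] [IsDomain A] [WfDvdMonoid A] [Field E] [Algebra A E]
  [IsFractionRing A E] [Field k] (r : A →+* k) {π : A}
  (hπ0 : π ≠ 0) (hπ : ¬ IsUnit π) (hr : ∀ a, r a = 0 → π ∣ a) (hrπ : r π = 0)
  (M q : ℕ) [NeZero q] [NeZero M] [NeZero (M * q)]
  [Algebra A (modularFunctionFieldFullC E M)]
  [IsScalarTower A E (modularFunctionFieldFullC E M)]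
  [Algebra A (modularFunctionFieldFullC E (M * q))]
  [IsScalarTower A E (modularFunctionFieldFullC E (M * q))]
  (t : modularFunctionFieldFullC E M)
  (htj : (t : LaurentSeries E) = (jqModC E)⁻¹)
  (ht : (t : LaurentSeries E) ∈ gaussRing (algebraMap A E) r)
  (ιC : E →+* ℂ) (hq : q.Prime) (hqM : ¬ q ∣ M)
  (w : modularFunctionFieldFullC E (M * q) →ₐ[E] modularFunctionFieldFullC E (M * q))
  (hw : ∀ x, w x = atkinLehner E ιC hq hqM x)
  (hwt : ((w (nodesInstIncl E M q t) :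
    modularFunctionFieldFullC E (M * q)) : LaurentSeries E) ∈ gaussRing (algebraMap A E) r)

include htj in
/-- The reduction of the coordinate `t = 1/j` is `1/j̄`. -/
theorem nodesInst_red_Jinv :
    gaussRed r (IsFractionRing.injective A E) ⟨(t : LaurentSeries E), ht⟩ = (jqModC k)⁻¹ := by
  have h1 : (⟨(t : LaurentSeries E), ht⟩ : gaussRing (algebraMap A E) r) =
      ⟨(jqModC E)⁻¹, nodesFrobU_jinv_mem r⟩ := Subtype.ext htj
  rw [h1]
  exact nodesFrobU_gaussRed_jinv r _

include htj hw in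
/-- **`hd` of `nodes_modular_chart`** on the chart `t = 1/j`, from `swap`. -/
theorem nodesInst_homData_Jinv [CharZero E] [Fact q.Prime] [CharP k q]
    (hprime : Prime (algebraMap A
      (integralClosure (Algebra.adjoin A {t}) (modularFunctionFieldFullC E M)) π))
    (swap : ∀ b : integralClosure (Algebra.adjoin A {nodesInstIncl E M q t})
        (modularFunctionFieldFullC E (M * q)),
      ∃ b' : integralClosure (Algebra.adjoin A {nodesInstIncl E M q t})
        (modularFunctionFieldFullC E (M * q)),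
        nodesFrobChartRed r hπ0 hπ hr hrπ (nodesFrob_full_le (M * q))
          (nodesInstIncl E M q t) (nodesInst_ht' r M q t ht) b' =
          nodesSwapRho₀ r hπ0 hπ hr hrπ (nodesFrob_full_le (M * q)) w
            (nodesInstIncl E M q t) hwt b ∧
        nodesSwapRho₀ r hπ0 hπ hr hrπ (nodesFrob_full_le (M * q)) w
            (nodesInstIncl E M q t) hwt b' =
          nodesFrobChartRed r hπ0 hπ hr hrπ (nodesFrob_full_le (M * q))
            (nodesInstIncl E M q t) (nodesInst_ht' r M q t ht) b) :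
    NodesHomData (nodesPhi A M q t)
      (algebraMap A (integralClosure (Algebra.adjoin A {t}) (modularFunctionFieldFullC E M)) π)
      (nodesFrobChartRed r hπ0 hπ hr hrπ (nodesFrob_full_le (M * q))
        (nodesInstIncl E M q t) (nodesInst_ht' r M q t ht))
      (nodesSwapRho₀ r hπ0 hπ hr hrπ (nodesFrob_full_le (M * q)) w
        (nodesInstIncl E M q t) hwt) q := by
  have hred := nodesInst_red_Jinv r M t htj ht
  refine nodesInst_homData_w r hπ0 hπ hr hrπ M q t ht ιC hq hqM w hw hwt ?_ hprime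
    (nodesInstAlg_halg_Jinv A M t htj) swap ?_ ?_ ?_
  · rw [hred]; exact nodesFrobU_transcendental_jinv k
  · rw [hred]; exact nodesFrobU_hT_jinv k q
  · rw [hred]; exact nodesFrobU_hne_jinv k hq.two_le
  · rw [hred]; exact nodesFrobU_G4_jinv k q

end Jinv

end Fermat.Agent.UNIP

end
end ZBUNIP_014_4

/-! ### bundled: `Fermat.Agent.UNIP.NodesInstJinv` -/
section ZBUNIP_014_5

/-!
# UNIP / U5 (Nodes): `swap` and `hd` of `nodes_modular_chart` on the chart `t = 1/j`

* `nodesInst_swap_Jinv` : `swap` of `nodes_modular_chart` on the chart `t = 1/j`, `w` any coercion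
  of `w_q`;
* `nodesInst_homData_Jinv_full` : `hd` of `nodes_modular_chart` on the chart `t = 1/j`, with the
  only remaining hypothesis `Prime π` (in the chart of level `M`).
-/

set_option autoImplicit false
set_option linter.unusedSectionVars false
set_option linter.unusedVariables false
set_option synthInstance.maxHeartbeats 400000
set_option maxHeartbeats 1000000

noncomputable section

namespace Fermat.Agent.UNIP

open ModularCurve Fermat.Agent.INJ Fermat.Agent.AL IntermediateField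

section JinvFull

variable {A E k : Type*} [CommRing A] [IsDomain A] [WfDvdMonoid A] [Field E] [Algebra A E]
  [IsFractionRing A E] [Field k] (r : A →+* k) {π : A}
  (hπ0 : π ≠ 0) (hπ : ¬ IsUnit π) (hr : ∀ a, r a = 0 → π ∣ a) (hrπ : r π = 0)
  (M q : ℕ) [NeZero q] [NeZero M] [NeZero (M * q)]
  [Algebra A (modularFunctionFieldFullC E M)]
  [IsScalarTower A E (modularFunctionFieldFullC E M)]
  [Algebra A (modularFunctionFieldFullC E (M * q))]
  [IsScalarTower A E (modularFunctionFieldFullC E (M * q))]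
  (t : modularFunctionFieldFullC E M)
  (htj : (t : LaurentSeries E) = (jqModC E)⁻¹)
  (ht : (t : LaurentSeries E) ∈ gaussRing (algebraMap A E) r)
  (ιC : E →+* ℂ) (hq : q.Prime) (hqM : ¬ q ∣ M)
  (w : modularFunctionFieldFullC E (M * q) →ₐ[E] modularFunctionFieldFullC E (M * q))
  (hw : ∀ x, w x = atkinLehner E ιC hq hqM x)
  (hwt : ((w (nodesInstIncl E M q t) :
    modularFunctionFieldFullC E (M * q)) : LaurentSeries E) ∈ gaussRing (algebraMap A E) r)

include htj hw in
/-- **`swap` of `nodes_modular_chart`** on the chart `t = 1/j`. -/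
theorem nodesInst_swap_Jinv [CharP k q]
    (b : integralClosure (Algebra.adjoin A {nodesInstIncl E M q t})
        (modularFunctionFieldFullC E (M * q))) :
    ∃ b' : integralClosure (Algebra.adjoin A {nodesInstIncl E M q t})
        (modularFunctionFieldFullC E (M * q)),
      nodesFrobChartRed r hπ0 hπ hr hrπ (nodesFrob_full_le (M * q))
          (nodesInstIncl E M q t) (nodesInst_ht' r M q t ht) b' =
        nodesSwapRho₀ r hπ0 hπ hr hrπ (nodesFrob_full_le (M * q)) w
          (nodesInstIncl E M q t) hwt b ∧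
      nodesSwapRho₀ r hπ0 hπ hr hrπ (nodesFrob_full_le (M * q)) w
          (nodesInstIncl E M q t) hwt b' =
        nodesFrobChartRed r hπ0 hπ hr hrπ (nodesFrob_full_le (M * q))
          (nodesInstIncl E M q t) (nodesInst_ht' r M q t ht) b := by
  obtain rfl : w = (atkinLehner E ιC hq hqM).toAlgHom := AlgHom.ext hw
  exact nodesSwap_swap_Jinv (A := A) (E := E) (M := M) (q := q) r ιC hq hqM hπ0 hπ hr hrπ
    (nodesInstIncl E M q t) (by rw [nodesInstIncl_coe]; exact htj)
    (nodesInst_ht' r M q t ht) hwt b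

include htj hw in
/-- **`hd` of `nodes_modular_chart`** on the chart `t = 1/j`. -/
theorem nodesInst_homData_Jinv_full [CharZero E] [Fact q.Prime] [CharP k q]
    (hprime : Prime (algebraMap A
      (integralClosure (Algebra.adjoin A {t}) (modularFunctionFieldFullC E M)) π)) :
    NodesHomData (nodesPhi A M q t)
      (algebraMap A (integralClosure (Algebra.adjoin A {t}) (modularFunctionFieldFullC E M)) π)
      (nodesFrobChartRed r hπ0 hπ hr hrπ (nodesFrob_full_le (M * q))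
        (nodesInstIncl E M q t) (nodesInst_ht' r M q t ht))
      (nodesSwapRho₀ r hπ0 hπ hr hrπ (nodesFrob_full_le (M * q)) w
        (nodesInstIncl E M q t) hwt) q :=
  nodesInst_homData_Jinv r hπ0 hπ hr hrπ M q t htj ht ιC hq hqM w hw hwt hprime
    (nodesInst_swap_Jinv r hπ0 hπ hr hrπ M q t htj ht ιC hq hqM w hw hwt)

end JinvFull

end Fermat.Agent.UNIP

end
end ZBUNIP_014_5

/-! ### bundled: `Fermat.Agent.UNIP.MGVertLoc` -/
section ZBUNIP_014_6

/-!
# UNIP MG-8 "Vert", part 3: `V c` is the localisation of the charts (`hVloc₁`, `hVloc₂`)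

* `vtSubRed hB e hfrac : ↥(vtSub hB e hfrac) →+* k((Q))` : the reduction map of the vertical
  valuation ring, `vtSubRed_eq_zero_iff` (kernel = maximal ideal);
* `vt_hVloc_of_ss1` : **abstract step** — chart `B_u` (integral closure of `A₀[u]`), two valuation
  rings `V true`, `V false ⊇ B_u`, (SS1), primitive polynomials in `u` are units of `V c`, and
  separating elements `z_c ∈ B_u`, `z_c ∈ 𝔪(V (!c)) ∖ 𝔪(V c)`; then every `x ∈ V c` is `b / s`,
  `b, s ∈ B_u`, `s ∉ 𝔪(V c)`;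
* `vtSub_prim` : primitive polynomials in `u` are units of `V c` if the reduction of `u` is
  transcendental;
* `vt_sep_of_red` : separating elements from a swap pair `(t, b₁)`;
* `mgv_hVloc₁`, `mgv_hVloc₂` : the hypotheses `hVloc₁`, `hVloc₂` of `mgc_main` for `V = mgvV`,
  from (SS1) on the chart `j`.
-/

set_option autoImplicit false
set_option linter.unusedSectionVars false
set_option linter.style.haveILetI false

noncomputable section

namespace Fermat.Agent.UNIP

open ModularCurve AlgebraicCurve Fermat.Agent.ES Fermat.Agent.ES.G2 Fermat.Agent.INJ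
open Fermat.Agent.AL Polynomial IntermediateField

section Red

variable {A E k : Type*} [CommRing A] [Field E] [Field k]
  {ι : A →+* E} {r : A →+* k} {π : A} {F : Type*} [Field F]
  (hB : VtBase ι r π) (e : F →+* LaurentSeries E) (hfrac : ∀ x : F, VtFrac ι (e x))

/-- The reduction map of the vertical valuation ring. -/
def vtSubRed : ↥(vtSub hB e hfrac) →+* LaurentSeries k :=
  (gaussRed r hB.inj).comp
    ((e.comp (vtSub hB e hfrac).subtype).codRestrict (gaussRing ι r) (fun x => x.2))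

theorem vtSubRed_apply (x : ↥(vtSub hB e hfrac)) :
    vtSubRed hB e hfrac x = gaussRed r hB.inj ⟨e (x : F), x.2⟩ := rfl

/-- the kernel of the reduction is the maximal ideal -/
theorem vtSubRed_eq_zero_iff (x : ↥(vtSub hB e hfrac)) :
    vtSubRed hB e hfrac x = 0 ↔ (x : F) ∈ (vtSub hB e hfrac).nonunits := by
  rw [vtSub_mem_nonunits_iff]
  exact ⟨fun h => ⟨x.2, h⟩, fun ⟨_, h⟩ => h⟩

theorem vtSubRed_of_eq {x : ↥(vtSub hB e hfrac)} {y : LaurentSeries E}
    (hxy : e (x : F) = y) (hy : y ∈ gaussRing ι r) :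
    vtSubRed hB e hfrac x = gaussRed r hB.inj ⟨y, hy⟩ := by
  rw [vtSubRed_apply]
  congr 1
  exact Subtype.ext hxy

end Red

section Units

variable {F : Type*} [Field F]

theorem vt_not_mem_nonunits_mul (V : ValuationSubring F) {a b : F} (ha : a ∈ V)
    (ha' : a ∉ V.nonunits) (hb : b ∈ V) (hb' : b ∉ V.nonunits) : a * b ∉ V.nonunits := by
  have h1 : V.valuation a = 1 := by
    rw [ValuationSubring.mem_nonunits_iff, not_lt] at ha'
    exact le_antisymm ((V.valuation_le_one_iff a).mpr ha) ha'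
  have h2 : V.valuation b = 1 := by
    rw [ValuationSubring.mem_nonunits_iff, not_lt] at hb'
    exact le_antisymm ((V.valuation_le_one_iff b).mpr hb) hb'
  rw [ValuationSubring.mem_nonunits_iff, map_mul, h1, h2, one_mul]
  exact lt_irrefl _

theorem vt_one_not_mem_nonunits (V : ValuationSubring F) : (1 : F) ∉ V.nonunits := by
  rw [ValuationSubring.mem_nonunits_iff, map_one]
  exact lt_irrefl _

end Units

section Abstract

variable {A₀ E F : Type*} [CommRing A₀] [IsDomain A₀] [IsDiscreteValuationRing A₀]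
  [Field E] [Algebra A₀ E] [IsFractionRing A₀ E] [CharZero E]
  [Field F] [Algebra E F] [Algebra A₀ F] [IsScalarTower A₀ E F]
  {π : A₀} {u : F}

/-- **hVloc, abstract step.**  Every element of `V c` is a quotient `b / s` of elements of the
chart `B_u` with `s ∉ 𝔪(V c)`. -/
theorem vt_hVloc_of_ss1 (hu : Transcendental E u) (hπ : Irreducible π)
    [FiniteDimensional E⟮u⟯ F] (V : Bool → ValuationSubring F)
    (hBV : ∀ c (b : F), IsIntegral ↥(Algebra.adjoin A₀ {u}) b → b ∈ V c)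
    (hπV : ∀ c, algebraMap A₀ F π ∈ (V c).nonunits)
    (hSS1 : ∀ b : F, IsIntegral ↥(Algebra.adjoin A₀ {u}) b → (∀ c, b ∈ (V c).nonunits) →
      ∃ b' : F, IsIntegral ↥(Algebra.adjoin A₀ {u}) b' ∧ b = algebraMap A₀ F π * b')
    (hprim : ∀ c (s : F), EIPrimeTo π u s → s ∉ (V c).nonunits)
    (hz : ∀ c, ∃ z : F, IsIntegral ↥(Algebra.adjoin A₀ {u}) z ∧ z ∉ (V c).nonunits ∧
      z ∈ (V (!c)).nonunits) :
    ∀ c (x : F), x ∈ V c → ∃ b s : F, IsIntegral ↥(Algebra.adjoin A₀ {u}) b ∧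
      IsIntegral ↥(Algebra.adjoin A₀ {u}) s ∧ s ∉ (V c).nonunits ∧ s * x = b := by
  intro c x hx
  have hπ0 : algebraMap A₀ F π ≠ 0 := ei_algebraMap_ne_zero (E := E) hπ
  obtain ⟨k, s, hs, hint⟩ := ad_exists_primeTo_pow_mul_isIntegral (E := E) hu hπ x
  have hsint : IsIntegral ↥(Algebra.adjoin A₀ {u}) s :=
    isIntegral_algebraMap (R := ↥(Algebra.adjoin A₀ {u})) (x := ⟨s, hs.1⟩)
  have hπint : IsIntegral ↥(Algebra.adjoin A₀ {u}) (algebraMap A₀ F π) :=
    isIntegral_algebraMap (R := ↥(Algebra.adjoin A₀ {u}))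
      (x := algebraMap A₀ ↥(Algebra.adjoin A₀ {u}) π)
  obtain ⟨z, hzint, hzc, hzc'⟩ := hz c
  have hzV : z ∈ V c := hBV c z hzint
  -- descend the exponent of `π`
  have key : ∀ (k : ℕ) (y : F), y ∈ V c →
      IsIntegral ↥(Algebra.adjoin A₀ {u}) (algebraMap A₀ F π ^ k * y) →
      ∃ s' : F, IsIntegral ↥(Algebra.adjoin A₀ {u}) s' ∧ s' ∉ (V c).nonunits ∧
        IsIntegral ↥(Algebra.adjoin A₀ {u}) (s' * y) := by
    intro k
    induction k with
    | zero =>
      intro y _ h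
      rw [pow_zero, one_mul] at h
      exact ⟨1, isIntegral_one, vt_one_not_mem_nonunits _, by rwa [one_mul]⟩
    | succ k ih =>
      intro y hy h
      have hb₀V : ∀ c', algebraMap A₀ F π ^ (k + 1) * y ∈ V c' := fun c' => hBV c' _ h
      have hzb : IsIntegral ↥(Algebra.adjoin A₀ {u}) (z * (algebraMap A₀ F π ^ (k + 1) * y)) :=
        hzint.mul h
      have hall : ∀ c', z * (algebraMap A₀ F π ^ (k + 1) * y) ∈ (V c').nonunits := by
        intro c'
        by_cases hc' : c' = c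
        · subst hc'
          refine vt_mul_mem_nonunits _ hzV ?_
          have e1 : algebraMap A₀ F π ^ (k + 1) * y =
              (algebraMap A₀ F π ^ k * y) * algebraMap A₀ F π := by ring
          rw [e1]
          refine vt_mul_mem_nonunits _ ((V c').mul_mem _ _ ((V c').pow_mem
            (vt_mem_of_mem_nonunits _ (hπV c')) k) hy) (hπV c')
        · have hc'' : c' = !c := by
            cases c <;> cases c' <;> simp_all
          subst hc''
          rw [mul_comm]
          exact vt_mul_mem_nonunits _ (hb₀V _) hzc'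
      obtain ⟨b', hb', hbb'⟩ := hSS1 _ hzb hall
      have e2 : algebraMap A₀ F π ^ k * (z * y) = b' := by
        apply mul_left_cancel₀ hπ0
        rw [← hbb']
        ring
      obtain ⟨s'', hs''int, hs''V, hs''y⟩ := ih (z * y) ((V c).mul_mem _ _ hzV hy)
        (by rw [e2]; exact hb')
      refine ⟨s'' * z, hs''int.mul hzint,
        vt_not_mem_nonunits_mul _ (hBV c _ hs''int) hs''V hzV hzc, ?_⟩
      rw [mul_assoc]
      exact hs''y
  have hsV : s ∈ V c := hBV c s hsint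
  obtain ⟨s', hs'int, hs'V, hs'y⟩ := key k (s * x) ((V c).mul_mem _ _ hsV hx)
    (by rw [← mul_assoc]; exact hint)
  exact ⟨s' * (s * x), s' * s, hs'y, hs'int.mul hsint,
    vt_not_mem_nonunits_mul _ (hBV c _ hs'int) hs'V hsV (hprim c s hs), by ring⟩

end Abstract

section Prim

variable {A E k : Type*} [CommRing A] [IsDomain A] [Field E] [Algebra A E] [IsFractionRing A E]
  [Field k] {r : A →+* k} {π : A} {F : Type*} [Field F] [Algebra A F]
  (hB : VtBase (algebraMap A E) r π) (e : F →+* LaurentSeries E)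
  (hfrac : ∀ x : F, VtFrac (algebraMap A E) (e x))

/-- **Primitive polynomials in `u` are units of the vertical valuation** when the reduction of
(the expansion of) `u` is transcendental over the residue field. -/
theorem vtSub_prim (he : ∀ a : A, e (algebraMap A F a) = HahnSeries.C (algebraMap A E a))
    {u : F} (hu : e u ∈ gaussRing (algebraMap A E) r)
    (htr : Transcendental k (gaussRed r (IsFractionRing.injective A E) ⟨e u, hu⟩))
    {s : F} (hs : EIPrimeTo π u s) : s ∉ (vtSub hB e hfrac).nonunits := by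
  obtain ⟨hs, hnd⟩ := hs
  rw [Algebra.adjoin_singleton_eq_range_aeval] at hs
  obtain ⟨P, rfl⟩ := hs
  intro hmem
  obtain ⟨hG, h0⟩ := (vtSub_mem_nonunits_iff hB e hfrac).mp hmem
  have hcoe : e (aeval u P) = P.eval₂ (HahnSeries.C.comp (algebraMap A E)) (e u) := by
    rw [aeval_def, Polynomial.hom_eval₂]
    congr 1
    exact RingHom.ext he
  have hPG : P.eval₂ (HahnSeries.C.comp (algebraMap A E)) (e u) ∈
      gaussRing (algebraMap A E) r := by
    rw [← hcoe]; exact hG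
  have h3 : gaussRed r (IsFractionRing.injective A E) ⟨_, hPG⟩ = 0 := by
    rw [← h0]
    congr 1
    exact Subtype.ext hcoe.symm
  rw [nodesFrob_gaussRed_eval₂ r ⟨_, hu⟩ P hPG] at h3
  have hP0 : P.map r = 0 := transcendental_iff.mp htr _ h3
  have hCdvd : Polynomial.C π ∣ P := by
    rw [Polynomial.C_dvd_iff_dvd_coeff]
    intro m
    have h5 := congrArg (fun q : Polynomial k => q.coeff m) hP0
    simp only [Polynomial.coeff_map, Polynomial.coeff_zero] at h5
    exact hB.ker _ h5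
  obtain ⟨P', rfl⟩ := hCdvd
  refine hnd (aeval u P') ?_ ?_
  · rw [Algebra.adjoin_singleton_eq_range_aeval]; exact ⟨P', rfl⟩
  · show (aeval u (Polynomial.C π * P') : F) = algebraMap A F π * aeval u P'
    rw [map_mul, Polynomial.aeval_C]

end Prim

section Sep

variable {F K : Type*} [Field F] [Field K]

/-- **Separating elements from a swap pair.**  `ρ, ρ'` the reductions of two valuation rings
`V, V'`; `t, b₁ ∈ V ∩ V'` with `ρ t = T`, `ρ b₁ = T ^ q`, `ρ' t = T ^ q`, `ρ' b₁ = T` and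
`(T ^ q) ^ q ≠ T`.  Then `t - b₁ ^ q ∈ 𝔪(V') ∖ 𝔪(V)` and `b₁ - t ^ q ∈ 𝔪(V) ∖ 𝔪(V')`. -/
theorem vt_sep_of_red {V V' : ValuationSubring F} (ρ : ↥V →+* K) (ρ' : ↥V' →+* K)
    (hρ : ∀ x : ↥V, ρ x = 0 ↔ (x : F) ∈ V.nonunits)
    (hρ' : ∀ x : ↥V', ρ' x = 0 ↔ (x : F) ∈ V'.nonunits)
    {t b₁ : F} (htV : t ∈ V) (htV' : t ∈ V') (hbV : b₁ ∈ V) (hbV' : b₁ ∈ V')
    {T : K} {q : ℕ} (h1 : ρ ⟨t, htV⟩ = T) (h2 : ρ ⟨b₁, hbV⟩ = T ^ q)
    (h3 : ρ' ⟨t, htV'⟩ = T ^ q) (h4 : ρ' ⟨b₁, hbV'⟩ = T) (hne : (T ^ q) ^ q ≠ T) :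
    (t - b₁ ^ q ∉ V.nonunits ∧ t - b₁ ^ q ∈ V'.nonunits) ∧
      (b₁ - t ^ q ∈ V.nonunits ∧ b₁ - t ^ q ∉ V'.nonunits) := by
  have e1 : ρ (⟨t, htV⟩ - ⟨b₁, hbV⟩ ^ q) = T - (T ^ q) ^ q := by
    rw [map_sub, map_pow, h1, h2]
  have e2 : ρ' (⟨t, htV'⟩ - ⟨b₁, hbV'⟩ ^ q) = 0 := by
    rw [map_sub, map_pow, h3, h4, sub_self]
  have e3 : ρ (⟨b₁, hbV⟩ - ⟨t, htV⟩ ^ q) = 0 := by
    rw [map_sub, map_pow, h1, h2, sub_self]
  have e4 : ρ' (⟨b₁, hbV'⟩ - ⟨t, htV'⟩ ^ q) = T - (T ^ q) ^ q := by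
    rw [map_sub, map_pow, h3, h4]
  have hne' : T - (T ^ q) ^ q ≠ 0 := fun h => hne (sub_eq_zero.mp h).symm
  refine ⟨⟨fun h => ?_, ?_⟩, ?_, fun h => ?_⟩
  · exact hne' (e1 ▸ (hρ (⟨t, htV⟩ - ⟨b₁, hbV⟩ ^ q)).mpr h)
  · exact (hρ' (⟨t, htV'⟩ - ⟨b₁, hbV'⟩ ^ q)).mp e2
  · exact (hρ (⟨b₁, hbV⟩ - ⟨t, htV⟩ ^ q)).mp e3
  · exact hne' (e4 ▸ (hρ' (⟨b₁, hbV'⟩ - ⟨t, htV'⟩ ^ q)).mpr h)

end Sep

section Concrete

variable {A : ValuationSubring Qb} {K₀ : IntermediateField ℚ Qb}
  [IsDiscreteValuationRing ↥(beta0Ring A K₀)] {π : ↥(beta0Ring A K₀)} (hπ : Irreducible π)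
  (ιC : ↥K₀ →+* ℂ) {q M : ℕ} [NeZero q] [NeZero M] [NeZero (M * q)]
  (hq : q.Prime) (hqM : ¬ q ∣ M)

/-- the reduction map of `mgvV … c` -/
def mgvRed (c : Bool) : ↥(mgvV hπ ιC hq hqM c) →+*
    LaurentSeries (IsLocalRing.ResidueField ↥(beta0Ring A K₀)) :=
  vtSubRed (vtBase_residue hπ) (vtEmbFam ιC hq hqM c)
    (vt_frac_fam (vtBase_residue hπ) ιC hq hqM c)

theorem mgvRed_eq_zero_iff (c : Bool) (x : ↥(mgvV hπ ιC hq hqM c)) :
    mgvRed hπ ιC hq hqM c x = 0 ↔
      (x : ↥(modularFunctionFieldFullC ↥K₀ (M * q))) ∈ (mgvV hπ ιC hq hqM c).nonunits :=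
  vtSubRed_eq_zero_iff _ _ _ x

/-- computing the reduction from the expansion -/
theorem mgvRed_of_eq (c : Bool) {x : ↥(modularFunctionFieldFullC ↥K₀ (M * q))}
    (hx : x ∈ mgvV hπ ιC hq hqM c) {y : LaurentSeries ↥K₀}
    (hxy : vtEmbFam ιC hq hqM c x = y)
    (hy : y ∈ gaussRing (algebraMap ↥(beta0Ring A K₀) ↥K₀)
      (IsLocalRing.residue ↥(beta0Ring A K₀))) :
    mgvRed hπ ιC hq hqM c ⟨x, hx⟩ =
      gaussRed (IsLocalRing.residue ↥(beta0Ring A K₀))
        (IsFractionRing.injective ↥(beta0Ring A K₀) ↥K₀) ⟨y, hy⟩ :=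
  vtSubRed_of_eq (vtBase_residue hπ) _ _ hxy hy

/-- constants -/
theorem mgv_emb_algebraMap (c : Bool) (a : ↥(beta0Ring A K₀)) :
    vtEmbFam ιC hq hqM c
        (algebraMap ↥(beta0Ring A K₀) ↥(modularFunctionFieldFullC ↥K₀ (M * q)) a) =
      HahnSeries.C (algebraMap ↥(beta0Ring A K₀) ↥K₀ a) :=
  vtEmbFam_const ιC hq hqM c _

/-! ### the expansions of `j` and `j(Q^q)` at the two cusps -/

/-- `j(Q^q)` as an element of `F_{Mq}` -/
def mgvJq (K₀ : IntermediateField ℚ Qb) (M q : ℕ) [NeZero q] [NeZero M] [NeZero (M * q)] :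
    ↥(modularFunctionFieldFullC ↥K₀ (M * q)) := nodesFrobJq ↥K₀ M q

theorem mgv_emb_J_true :
    vtEmbFam ιC hq hqM true (bgJ ↥K₀ (M * q)) = jqModC ↥K₀ := rfl

theorem mgv_emb_Jq_true :
    vtEmbFam ιC hq hqM true (mgvJq K₀ M q) = qExpand ↥K₀ q (jqModC ↥K₀) := rfl

theorem mgv_emb_J_false :
    vtEmbFam ιC hq hqM false (bgJ ↥K₀ (M * q)) = qExpand ↥K₀ q (jqModC ↥K₀) := by
  have h := nodesFrob_atkinLehner_J (E := ↥K₀) ιC hq hqM
  have e : bgJ ↥K₀ (M * q) = nodesFrobJ ↥K₀ M q := Subtype.ext rfl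
  rw [e, vtEmbFam_false, vtEmb0_apply, h]
  rfl

theorem mgv_emb_Jq_false :
    vtEmbFam ιC hq hqM false (mgvJq K₀ M q) = jqModC ↥K₀ := by
  have h := nodesFrob_atkinLehner_Jq (E := ↥K₀) ιC hq hqM
  rw [mgvJq, vtEmbFam_false, vtEmb0_apply, h]
  rfl

end Concrete

end Fermat.Agent.UNIP

end
end ZBUNIP_014_6

/-! ### bundled: `Fermat.Agent.UNIP.MGVertLocMain` -/
section ZBUNIP_014_7

/-!
# UNIP MG-8 "Vert", part 3b: `hVloc₁`, `hVloc₂` for `V = mgvV`

Setting of `MGVertInertia.lean`: `A` a valuation subring of `ℚ̄` over the prime `q`, `K₀ ⊆ ℚ̄`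
with `A ∩ K₀` a discrete valuation ring with uniformizer `π`, level `M q`, `q ∤ M`.

* `mgvRed_J_true`, … : the reductions of `j`, `j(Q^q)` at the two cusps (`T`, `T ^ q`, swapped);
* `mgv_prim_J`, `mgv_prim_Jinv` : primitive polynomials in `j` (resp. `1/j`) are units of `V c`;
* `mgv_hz_J`, `mgv_hz_Jinv` : separating elements on the charts `j`, `1/j`;
* **`mgv_hVloc₁`**, **`mgv_hVloc₂`** : the hypotheses `hVloc₁`, `hVloc₂` of `mgc_main`
  (`at_main_two`) for `V = mgvV hπ ιC hq hqM`, from the hypothesis `hSS1` of `mgc_main`.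
-/

set_option autoImplicit false
set_option linter.unusedSectionVars false
set_option linter.style.haveILetI false

noncomputable section

namespace Fermat.Agent.UNIP

open ModularCurve AlgebraicCurve Fermat.Agent.ES Fermat.Agent.ES.G2 Fermat.Agent.INJ
open Fermat.Agent.AL Polynomial IntermediateField

section ConcreteLoc

variable {A : ValuationSubring Qb} {K₀ : IntermediateField ℚ Qb}
  [IsDiscreteValuationRing ↥(beta0Ring A K₀)] {π : ↥(beta0Ring A K₀)} (hπ : Irreducible π)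
  (ιC : ↥K₀ →+* ℂ) {q M : ℕ} [NeZero q] [NeZero M] [NeZero (M * q)]
  (hq : q.Prime) (hqM : ¬ q ∣ M)

theorem mgv_Jq_mem (c : Bool) : mgvJq K₀ M q ∈ mgvV hπ ιC hq hqM c :=
  vtFam_gen_mem (vtBase_residue hπ) ιC hq hqM c (dvd_mul_left q M)

/-! ### reductions -/

theorem mgvRed_J_true :
    mgvRed hπ ιC hq hqM true ⟨bgJ ↥K₀ (M * q), mgv_T_mem hπ ιC hq hqM true⟩ =
      jqModC (IsLocalRing.ResidueField ↥(beta0Ring A K₀)) :=
  (mgvRed_of_eq hπ ιC hq hqM true _ (mgv_emb_J_true ιC hq hqM)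
    (nodesFrobU_j_mem _)).trans (nodesFrobU_gaussRed_j _ _)

theorem mgvRed_Jq_false :
    mgvRed hπ ιC hq hqM false ⟨mgvJq K₀ M q, mgv_Jq_mem hπ ιC hq hqM false⟩ =
      jqModC (IsLocalRing.ResidueField ↥(beta0Ring A K₀)) :=
  (mgvRed_of_eq hπ ιC hq hqM false _ (mgv_emb_Jq_false ιC hq hqM)
    (nodesFrobU_j_mem _)).trans (nodesFrobU_gaussRed_j _ _)

variable [Fact q.Prime] [CharP (IsLocalRing.ResidueField ↥(beta0Ring A K₀)) q]

theorem mgvRed_Jq_true :
    mgvRed hπ ιC hq hqM true ⟨mgvJq K₀ M q, mgv_Jq_mem hπ ιC hq hqM true⟩ =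
      jqModC (IsLocalRing.ResidueField ↥(beta0Ring A K₀)) ^ q :=
  ((mgvRed_of_eq hπ ιC hq hqM true _ (mgv_emb_Jq_true ιC hq hqM)
    (nodesFrobU_jn_mem _ q)).trans (nodesFrobU_gaussRed_jn _ q _)).trans
      (nodesFrobU_hT_j _ q)

theorem mgvRed_J_false :
    mgvRed hπ ιC hq hqM false ⟨bgJ ↥K₀ (M * q), mgv_T_mem hπ ιC hq hqM false⟩ =
      jqModC (IsLocalRing.ResidueField ↥(beta0Ring A K₀)) ^ q :=
  ((mgvRed_of_eq hπ ιC hq hqM false _ (mgv_emb_J_false ιC hq hqM)
    (nodesFrobU_jn_mem _ q)).trans (nodesFrobU_gaussRed_jn _ q _)).trans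
      (nodesFrobU_hT_j _ q)

/-! ### the chart `j` -/

/-- separating elements on the chart `j` -/
theorem mgv_sep_J :
    (bgJ ↥K₀ (M * q) - mgvJq K₀ M q ^ q ∉ (mgvV hπ ιC hq hqM true).nonunits ∧
        bgJ ↥K₀ (M * q) - mgvJq K₀ M q ^ q ∈ (mgvV hπ ιC hq hqM false).nonunits) ∧
      (mgvJq K₀ M q - bgJ ↥K₀ (M * q) ^ q ∈ (mgvV hπ ιC hq hqM true).nonunits ∧
        mgvJq K₀ M q - bgJ ↥K₀ (M * q) ^ q ∉ (mgvV hπ ιC hq hqM false).nonunits) :=
  vt_sep_of_red (mgvRed hπ ιC hq hqM true) (mgvRed hπ ιC hq hqM false)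
    (mgvRed_eq_zero_iff hπ ιC hq hqM true) (mgvRed_eq_zero_iff hπ ιC hq hqM false)
    (mgv_T_mem hπ ιC hq hqM true) (mgv_T_mem hπ ιC hq hqM false)
    (mgv_Jq_mem hπ ιC hq hqM true) (mgv_Jq_mem hπ ιC hq hqM false)
    (mgvRed_J_true hπ ιC hq hqM) (mgvRed_Jq_true hπ ιC hq hqM)
    (mgvRed_J_false hπ ιC hq hqM) (mgvRed_Jq_false hπ ιC hq hqM)
    (nodesFrobU_hne_j _ hq.two_le)

theorem mgv_isIntegral_J :
    IsIntegral ↥(Algebra.adjoin ↥(beta0Ring A K₀)
      ({bgJ ↥K₀ (M * q)} : Set ↥(modularFunctionFieldFullC ↥K₀ (M * q)))) (bgJ ↥K₀ (M * q)) :=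
  isIntegral_algebraMap (R := ↥(Algebra.adjoin ↥(beta0Ring A K₀)
      ({bgJ ↥K₀ (M * q)} : Set ↥(modularFunctionFieldFullC ↥K₀ (M * q)))))
    (x := ⟨bgJ ↥K₀ (M * q), Algebra.subset_adjoin rfl⟩)

include hq in
theorem mgv_isIntegral_Jq :
    IsIntegral ↥(Algebra.adjoin ↥(beta0Ring A K₀)
      ({bgJ ↥K₀ (M * q)} : Set ↥(modularFunctionFieldFullC ↥K₀ (M * q)))) (mgvJq K₀ M q) := by
  have h : IsIntegral ↥(Algebra.adjoin ↥(beta0Ring A K₀)
      ({nodesFrobJ ↥K₀ M q} : Set ↥(modularFunctionFieldFullC ↥K₀ (M * q))))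
      (nodesFrobJq ↥K₀ M q) :=
    @nodesSwap_isIntegral_Jq ↥(beta0Ring A K₀) ↥K₀ _ _ _ _ _ q M _ _ _
      (mgcInstAlgebraA (M * q) _) (mgcInstTower (M * q) _) hq
  have e : nodesFrobJ ↥K₀ M q = bgJ ↥K₀ (M * q) := rfl
  rw [e] at h
  exact h

/-- **separating elements** on the chart `j` -/
theorem mgv_hz_J (c : Bool) :
    ∃ z : ↥(modularFunctionFieldFullC ↥K₀ (M * q)),
      IsIntegral ↥(Algebra.adjoin ↥(beta0Ring A K₀)
        ({bgJ ↥K₀ (M * q)} : Set ↥(modularFunctionFieldFullC ↥K₀ (M * q)))) z ∧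
      z ∉ (mgvV hπ ιC hq hqM c).nonunits ∧ z ∈ (mgvV hπ ιC hq hqM (!c)).nonunits := by
  obtain ⟨⟨h1, h2⟩, h3, h4⟩ := mgv_sep_J hπ ιC hq hqM
  have hJ := mgv_isIntegral_J (A := A) (K₀ := K₀) (M := M) (q := q)
  have hJq := mgv_isIntegral_Jq (A := A) (K₀ := K₀) (M := M) (q := q) hq
  cases c
  · refine ⟨mgvJq K₀ M q - bgJ ↥K₀ (M * q) ^ q, ?_, h4, h3⟩
    exact IsIntegral.sub hJq (IsIntegral.pow hJ q)
  · refine ⟨bgJ ↥K₀ (M * q) - mgvJq K₀ M q ^ q, ?_, h1, h2⟩
    exact IsIntegral.sub hJ (IsIntegral.pow hJq q)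

/-- **primitive polynomials in `j` are units of `V c`** -/
theorem mgv_prim_J (c : Bool) (s : ↥(modularFunctionFieldFullC ↥K₀ (M * q)))
    (hs : EIPrimeTo π (bgJ ↥K₀ (M * q)) s) : s ∉ (mgvV hπ ιC hq hqM c).nonunits := by
  cases c
  · have hu : vtEmbFam ιC hq hqM false (bgJ ↥K₀ (M * q)) ∈
        gaussRing (algebraMap ↥(beta0Ring A K₀) ↥K₀) (IsLocalRing.residue ↥(beta0Ring A K₀)) := by
      rw [mgv_emb_J_false]; exact nodesFrobU_jn_mem _ q
    refine vtSub_prim (vtBase_residue hπ) (vtEmbFam ιC hq hqM false)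
      (vt_frac_fam (vtBase_residue hπ) ιC hq hqM false)
      (mgv_emb_algebraMap ιC hq hqM false) hu ?_ hs
    have e1 : gaussRed (IsLocalRing.residue ↥(beta0Ring A K₀))
        (IsFractionRing.injective ↥(beta0Ring A K₀) ↥K₀)
        ⟨vtEmbFam ιC hq hqM false (bgJ ↥K₀ (M * q)), hu⟩ =
        jqModC (IsLocalRing.ResidueField ↥(beta0Ring A K₀)) ^ q :=
      mgvRed_J_false hπ ιC hq hqM
    rw [e1]
    exact (nodesFrobU_transcendental_j _).pow hq.pos
  · have hu : vtEmbFam ιC hq hqM true (bgJ ↥K₀ (M * q)) ∈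
        gaussRing (algebraMap ↥(beta0Ring A K₀) ↥K₀) (IsLocalRing.residue ↥(beta0Ring A K₀)) :=
      nodesFrobU_j_mem _
    refine vtSub_prim (vtBase_residue hπ) (vtEmbFam ιC hq hqM true)
      (vt_frac_fam (vtBase_residue hπ) ιC hq hqM true)
      (mgv_emb_algebraMap ιC hq hqM true) hu ?_ hs
    have e1 : gaussRed (IsLocalRing.residue ↥(beta0Ring A K₀))
        (IsFractionRing.injective ↥(beta0Ring A K₀) ↥K₀)
        ⟨vtEmbFam ιC hq hqM true (bgJ ↥K₀ (M * q)), hu⟩ =
        jqModC (IsLocalRing.ResidueField ↥(beta0Ring A K₀)) :=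
      mgvRed_J_true hπ ιC hq hqM
    rw [e1]
    exact nodesFrobU_transcendental_j _

/-! ### the chart `1 / j` -/

omit [Fact q.Prime] [CharP (IsLocalRing.ResidueField ↥(beta0Ring A K₀)) q] in
/-- the reduction of an inverse -/
theorem mgvRed_inv (c : Bool) {x : ↥(modularFunctionFieldFullC ↥K₀ (M * q))}
    (hx : x ∈ mgvV hπ ιC hq hqM c) (hx' : x⁻¹ ∈ mgvV hπ ιC hq hqM c) (hx0 : x ≠ 0) :
    mgvRed hπ ιC hq hqM c ⟨x⁻¹, hx'⟩ = (mgvRed hπ ιC hq hqM c ⟨x, hx⟩)⁻¹ := by
  have h1 : (⟨x⁻¹, hx'⟩ : ↥(mgvV hπ ιC hq hqM c)) * ⟨x, hx⟩ = 1 :=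
    Subtype.ext (inv_mul_cancel₀ hx0)
  have h2 := congrArg (mgvRed hπ ιC hq hqM c) h1
  rw [map_mul, map_one] at h2
  exact eq_inv_of_mul_eq_one_left h2

omit [Fact q.Prime] [CharP (IsLocalRing.ResidueField ↥(beta0Ring A K₀)) q] in
theorem mgv_bgJ_ne_zero : bgJ ↥K₀ (M * q) ≠ 0 := by
  intro h
  have h1 := congrArg (fun z : ↥(modularFunctionFieldFullC ↥K₀ (M * q)) =>
    (z : LaurentSeries ↥K₀)) h
  exact jqModC_ne_zero_of_nontrivial ↥K₀ h1

omit [Fact q.Prime] [CharP (IsLocalRing.ResidueField ↥(beta0Ring A K₀)) q] in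
theorem mgvRed_Jinv_true :
    mgvRed hπ ιC hq hqM true ⟨(bgJ ↥K₀ (M * q))⁻¹, mgv_T_inv_mem hπ ιC hq hqM true⟩ =
      (jqModC (IsLocalRing.ResidueField ↥(beta0Ring A K₀)))⁻¹ := by
  rw [mgvRed_inv hπ ιC hq hqM true (mgv_T_mem hπ ιC hq hqM true) _ mgv_bgJ_ne_zero,
    mgvRed_J_true]

theorem mgvRed_Jinv_false :
    mgvRed hπ ιC hq hqM false ⟨(bgJ ↥K₀ (M * q))⁻¹, mgv_T_inv_mem hπ ιC hq hqM false⟩ =
      (jqModC (IsLocalRing.ResidueField ↥(beta0Ring A K₀)))⁻¹ ^ q := by
  rw [mgvRed_inv hπ ιC hq hqM false (mgv_T_mem hπ ιC hq hqM false) _ mgv_bgJ_ne_zero,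
    mgvRed_J_false, inv_pow]

/-- **primitive polynomials in `1 / j` are units of `V c`** -/
theorem mgv_prim_Jinv (c : Bool) (s : ↥(modularFunctionFieldFullC ↥K₀ (M * q)))
    (hs : EIPrimeTo π (bgJ ↥K₀ (M * q))⁻¹ s) : s ∉ (mgvV hπ ιC hq hqM c).nonunits := by
  cases c
  · have hu : vtEmbFam ιC hq hqM false (bgJ ↥K₀ (M * q))⁻¹ ∈
        gaussRing (algebraMap ↥(beta0Ring A K₀) ↥K₀) (IsLocalRing.residue ↥(beta0Ring A K₀)) :=
      mgv_T_inv_mem hπ ιC hq hqM false
    refine vtSub_prim (vtBase_residue hπ) (vtEmbFam ιC hq hqM false)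
      (vt_frac_fam (vtBase_residue hπ) ιC hq hqM false)
      (mgv_emb_algebraMap ιC hq hqM false) hu ?_ hs
    have e1 : gaussRed (IsLocalRing.residue ↥(beta0Ring A K₀))
        (IsFractionRing.injective ↥(beta0Ring A K₀) ↥K₀)
        ⟨vtEmbFam ιC hq hqM false (bgJ ↥K₀ (M * q))⁻¹, hu⟩ =
        (jqModC (IsLocalRing.ResidueField ↥(beta0Ring A K₀)))⁻¹ ^ q :=
      mgvRed_Jinv_false hπ ιC hq hqM
    rw [e1]
    exact (nodesFrobU_transcendental_jinv _).pow hq.pos
  · have hu : vtEmbFam ιC hq hqM true (bgJ ↥K₀ (M * q))⁻¹ ∈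
        gaussRing (algebraMap ↥(beta0Ring A K₀) ↥K₀) (IsLocalRing.residue ↥(beta0Ring A K₀)) :=
      mgv_T_inv_mem hπ ιC hq hqM true
    refine vtSub_prim (vtBase_residue hπ) (vtEmbFam ιC hq hqM true)
      (vt_frac_fam (vtBase_residue hπ) ιC hq hqM true)
      (mgv_emb_algebraMap ιC hq hqM true) hu ?_ hs
    have e1 : gaussRed (IsLocalRing.residue ↥(beta0Ring A K₀))
        (IsFractionRing.injective ↥(beta0Ring A K₀) ↥K₀)
        ⟨vtEmbFam ιC hq hqM true (bgJ ↥K₀ (M * q))⁻¹, hu⟩ =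
        (jqModC (IsLocalRing.ResidueField ↥(beta0Ring A K₀)))⁻¹ :=
      mgvRed_Jinv_true hπ ιC hq hqM
    rw [e1]
    exact nodesFrobU_transcendental_jinv _

/-- the swap element on the chart `1 / j` -/
theorem mgv_exists_swap_Jinv :
    ∃ b₁ : ↥(modularFunctionFieldFullC ↥K₀ (M * q)),
      IsIntegral ↥(Algebra.adjoin ↥(beta0Ring A K₀)
        ({(bgJ ↥K₀ (M * q))⁻¹} : Set ↥(modularFunctionFieldFullC ↥K₀ (M * q)))) b₁ ∧
      ∃ (h : b₁ ∈ mgvV hπ ιC hq hqM true) (h' : b₁ ∈ mgvV hπ ιC hq hqM false),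
        mgvRed hπ ιC hq hqM true ⟨b₁, h⟩ =
          (jqModC (IsLocalRing.ResidueField ↥(beta0Ring A K₀)))⁻¹ ^ q ∧
        mgvRed hπ ιC hq hqM false ⟨b₁, h'⟩ =
          (jqModC (IsLocalRing.ResidueField ↥(beta0Ring A K₀)))⁻¹ := by
  have hB := vtBase_residue (E := ↥K₀) hπ
  obtain ⟨b₁, H1, H2⟩ := nodesSwap_swapGen_Jinv (A := ↥(beta0Ring A K₀)) (E := ↥K₀)
    (IsLocalRing.residue ↥(beta0Ring A K₀)) ιC hq hqM hπ.ne_zero hπ.not_isUnit hB.ker hB.rπ
    (bgJ ↥K₀ (M * q))⁻¹ rfl (mgv_T_inv_mem hπ ιC hq hqM true) (mgv_T_inv_mem hπ ιC hq hqM false)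
  have hint : IsIntegral ↥(Algebra.adjoin ↥(beta0Ring A K₀)
      ({(bgJ ↥K₀ (M * q))⁻¹} : Set ↥(modularFunctionFieldFullC ↥K₀ (M * q))))
      (b₁ : ↥(modularFunctionFieldFullC ↥K₀ (M * q))) := b₁.2
  refine ⟨b₁, hint, mgv_hBV₂ hπ ιC hq hqM true _ hint, mgv_hBV₂ hπ ιC hq hqM false _ hint, ?_, ?_⟩
  · refine Eq.trans ?_ (H1.trans ?_)
    · rfl
    · rw [nodesFrobU_hT_j _ q, inv_pow]
  · exact Eq.trans rfl H2

/-- separating elements on the chart `1 / j` -/
theorem mgv_hz_Jinv (c : Bool) :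
    ∃ z : ↥(modularFunctionFieldFullC ↥K₀ (M * q)),
      IsIntegral ↥(Algebra.adjoin ↥(beta0Ring A K₀)
        ({(bgJ ↥K₀ (M * q))⁻¹} : Set ↥(modularFunctionFieldFullC ↥K₀ (M * q)))) z ∧
      z ∉ (mgvV hπ ιC hq hqM c).nonunits ∧ z ∈ (mgvV hπ ιC hq hqM (!c)).nonunits := by
  obtain ⟨b₁, hb₁, hV, hV', h2, h4⟩ := mgv_exists_swap_Jinv hπ ιC hq hqM
  obtain ⟨⟨h1', h2'⟩, h3', h4'⟩ := vt_sep_of_red (mgvRed hπ ιC hq hqM true)
    (mgvRed hπ ιC hq hqM false)
    (mgvRed_eq_zero_iff hπ ιC hq hqM true) (mgvRed_eq_zero_iff hπ ιC hq hqM false)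
    (mgv_T_inv_mem hπ ιC hq hqM true) (mgv_T_inv_mem hπ ιC hq hqM false) hV hV'
    (mgvRed_Jinv_true hπ ιC hq hqM) h2 (mgvRed_Jinv_false hπ ιC hq hqM) h4
    (nodesFrobU_hne_jinv _ hq.two_le)
  have hT : IsIntegral ↥(Algebra.adjoin ↥(beta0Ring A K₀)
      ({(bgJ ↥K₀ (M * q))⁻¹} : Set ↥(modularFunctionFieldFullC ↥K₀ (M * q))))
      (bgJ ↥K₀ (M * q))⁻¹ :=
    isIntegral_algebraMap (R := ↥(Algebra.adjoin ↥(beta0Ring A K₀)
        ({(bgJ ↥K₀ (M * q))⁻¹} : Set ↥(modularFunctionFieldFullC ↥K₀ (M * q)))))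
      (x := ⟨(bgJ ↥K₀ (M * q))⁻¹, Algebra.subset_adjoin rfl⟩)
  cases c
  · refine ⟨b₁ - (bgJ ↥K₀ (M * q))⁻¹ ^ q, ?_, h4', h3'⟩
    exact IsIntegral.sub hb₁ (IsIntegral.pow hT q)
  · refine ⟨(bgJ ↥K₀ (M * q))⁻¹ - b₁ ^ q, ?_, h1', h2'⟩
    exact IsIntegral.sub hT (IsIntegral.pow hb₁ q)

end ConcreteLoc

section Final

variable {A : ValuationSubring Qb} {K₀ : IntermediateField ℚ Qb}
  [IsDiscreteValuationRing ↥(beta0Ring A K₀)] {π : ↥(beta0Ring A K₀)} (hπ : Irreducible π)
  (ιC : ↥K₀ →+* ℂ) {q M : ℕ} [NeZero q] [NeZero M] [NeZero (M * q)]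
  (hq : q.Prime) (hqM : ¬ q ∣ M)

/-- **hVloc₁**: on the chart `j`, `V c` is the localisation of the chart at `𝔪(V c) ∩ B`. -/
theorem mgv_hVloc₁ (hA : A.LiesOverPrime q)
    (hSS1 : ∀ b : ↥(modularFunctionFieldFullC ↥K₀ (M * q)),
      IsIntegral ↥(Algebra.adjoin ↥(beta0Ring A K₀)
        ({bgJ ↥K₀ (M * q)} : Set ↥(modularFunctionFieldFullC ↥K₀ (M * q)))) b →
      (∀ c, b ∈ (mgvV hπ ιC hq hqM c).nonunits) →
      ∃ b' : ↥(modularFunctionFieldFullC ↥K₀ (M * q)),
        IsIntegral ↥(Algebra.adjoin ↥(beta0Ring A K₀)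
          ({bgJ ↥K₀ (M * q)} : Set ↥(modularFunctionFieldFullC ↥K₀ (M * q)))) b' ∧
        b = algebraMap ↥(beta0Ring A K₀) ↥(modularFunctionFieldFullC ↥K₀ (M * q)) π * b') :
    ∀ c (x : ↥(modularFunctionFieldFullC ↥K₀ (M * q))), x ∈ mgvV hπ ιC hq hqM c →
      ∃ b s : ↥(modularFunctionFieldFullC ↥K₀ (M * q)),
      IsIntegral ↥(Algebra.adjoin ↥(beta0Ring A K₀)
        ({bgJ ↥K₀ (M * q)} : Set ↥(modularFunctionFieldFullC ↥K₀ (M * q)))) b ∧
      IsIntegral ↥(Algebra.adjoin ↥(beta0Ring A K₀)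
        ({bgJ ↥K₀ (M * q)} : Set ↥(modularFunctionFieldFullC ↥K₀ (M * q)))) s ∧
      s ∉ (mgvV hπ ιC hq hqM c).nonunits ∧ s * x = b := by
  haveI : Fact q.Prime := ⟨hq⟩
  haveI : CharP (IsLocalRing.ResidueField ↥(beta0Ring A K₀)) q := frobLift_charP A K₀ hq hA
  haveI : FiniteDimensional (↥K₀)⟮bgJ ↥K₀ (M * q)⟯ ↥(modularFunctionFieldFullC ↥K₀ (M * q)) :=
    bgFin_finiteDimensional_full ↥K₀ (M * q)
  exact vt_hVloc_of_ss1 (bgConst_transcendental_bgJ ↥K₀ (M * q)) hπ (mgvV hπ ιC hq hqM)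
    (mgv_hBV₁ hπ ιC hq hqM) (mgv_hπV hπ ιC hq hqM) hSS1 (mgv_prim_J hπ ιC hq hqM)
    (mgv_hz_J hπ ιC hq hqM)

/-- **hVloc₂**: on the chart `1 / j`, `V c` is the localisation of the chart at `𝔪(V c) ∩ B`
(from (SS1) on the chart `j`). -/
theorem mgv_hVloc₂ (hA : A.LiesOverPrime q)
    (hSS1 : ∀ b : ↥(modularFunctionFieldFullC ↥K₀ (M * q)),
      IsIntegral ↥(Algebra.adjoin ↥(beta0Ring A K₀)
        ({bgJ ↥K₀ (M * q)} : Set ↥(modularFunctionFieldFullC ↥K₀ (M * q)))) b →
      (∀ c, b ∈ (mgvV hπ ιC hq hqM c).nonunits) →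
      ∃ b' : ↥(modularFunctionFieldFullC ↥K₀ (M * q)),
        IsIntegral ↥(Algebra.adjoin ↥(beta0Ring A K₀)
          ({bgJ ↥K₀ (M * q)} : Set ↥(modularFunctionFieldFullC ↥K₀ (M * q)))) b' ∧
        b = algebraMap ↥(beta0Ring A K₀) ↥(modularFunctionFieldFullC ↥K₀ (M * q)) π * b') :
    ∀ c (x : ↥(modularFunctionFieldFullC ↥K₀ (M * q))), x ∈ mgvV hπ ιC hq hqM c →
      ∃ b s : ↥(modularFunctionFieldFullC ↥K₀ (M * q)),
      IsIntegral ↥(Algebra.adjoin ↥(beta0Ring A K₀)
        ({(bgJ ↥K₀ (M * q))⁻¹} : Set ↥(modularFunctionFieldFullC ↥K₀ (M * q)))) b ∧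
      IsIntegral ↥(Algebra.adjoin ↥(beta0Ring A K₀)
        ({(bgJ ↥K₀ (M * q))⁻¹} : Set ↥(modularFunctionFieldFullC ↥K₀ (M * q)))) s ∧
      s ∉ (mgvV hπ ιC hq hqM c).nonunits ∧ s * x = b := by
  haveI : Fact q.Prime := ⟨hq⟩
  haveI : CharP (IsLocalRing.ResidueField ↥(beta0Ring A K₀)) q := frobLift_charP A K₀ hq hA
  haveI : FiniteDimensional (↥K₀)⟮bgJ ↥K₀ (M * q)⟯ ↥(modularFunctionFieldFullC ↥K₀ (M * q)) :=
    bgFin_finiteDimensional_full ↥K₀ (M * q)
  haveI : FiniteDimensional (↥K₀)⟮(bgJ ↥K₀ (M * q))⁻¹⟯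
      ↥(modularFunctionFieldFullC ↥K₀ (M * q)) :=
    at_finiteDimensional_inv (bgJ ↥K₀ (M * q))
  have ht := bgConst_transcendental_bgJ ↥K₀ (M * q)
  exact vt_hVloc_of_ss1 (zch_transcendental_inv ht) hπ (mgvV hπ ιC hq hqM)
    (mgv_hBV₂ hπ ιC hq hqM) (mgv_hπV hπ ιC hq hqM)
    (ats_SS1_inv ht hπ (mgvV hπ ιC hq hqM) (mgv_hBV₁ hπ ιC hq hqM) hSS1)
    (mgv_prim_Jinv hπ ιC hq hqM) (mgv_hz_Jinv hπ ιC hq hqM)

end Final

end Fermat.Agent.UNIP

end
end ZBUNIP_014_7

/-! ### bundled: `Fermat.Agent.UNIP.MGVloc` -/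
section ZBUNIP_014_8

/-!
# UNIP MG-8b (helper3): `hne` (`V_∞ ≠ V_0`), the separating elements, and the abstract `hVloc`

* `mgvl_pow_mul_mem`, `mgvl_vloc_abs` (generic, Mathlib only): `B` = the elements of a field `F`
  integral over `R`, `V₁ V₂ ⊇ B` valuation subrings, `p` a uniformizer of `V₁` on `B`, (SS1)
  `B ∩ 𝔪(V₁) ∩ 𝔪(V₂) ⊆ p B`, a separating element `s ∈ B ∩ 𝔪(V₂)`, `s ∉ 𝔪(V₁)`, `F = Frac B`
  ⟹ every `x ∈ V₁` has a denominator in `B ∖ 𝔪(V₁)` (the shape of `hVloc` of `at_main_two`).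
* generic base `hB : VtBase (algebraMap A E) r π`, residue characteristic `q`, level `M q`:
  `c = nodesFrobC E M q = j(Q^q) − j^q`:
  `mgvl_C_mem_true : c ∈ 𝔪(V_∞)`, `mgvl_C_not_mem_false : c ∉ 𝔪(V_0)`,
  `mgvl_wC_mem_false : w_q c ∈ 𝔪(V_0)`, `mgvl_wC_not_mem_true : w_q c ∉ 𝔪(V_∞)`,
  `mgvl_isIntegral_C`, `mgvl_isIntegral_wC` (both are integral over `A[j]`),
  **`mgvl_vtFam_ne : vtFam hB ιC hq hqM true ≠ vtFam hB ιC hq hqM false`**.
* concrete setting of `MGVertInertia.lean` (`A ∩ K₀` a DVR, `A` over `q`):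
  `mgvl_charP`, **`mgvl_hne : mgvV hπ ιC hq hqM true ≠ mgvV hπ ιC hq hqM false`**,
  `mgvl_hsep`, `mgvl_hsep'`.
-/

set_option autoImplicit false
set_option linter.unusedSectionVars false
set_option linter.style.haveILetI false

noncomputable section

namespace Fermat.Agent.UNIP

open ModularCurve AlgebraicCurve Fermat.Agent.ES Fermat.Agent.ES.G2 Fermat.Agent.INJ
open Fermat.Agent.AL

section Abs

variable {R F : Type*} [CommRing R] [Field F] [Algebra R F]

/-- a product with a non-unit factor (the other factor in `V`) is a non-unit -/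
theorem mgvl_mul_mem_nonunits (V : ValuationSubring F) {a b : F} (ha : a ∈ V)
    (hb : b ∈ V.nonunits) : a * b ∈ V.nonunits := by
  rw [ValuationSubring.mem_nonunits_iff, map_mul]
  have h1 := (V.valuation_le_one_iff a).2 ha
  have h2 := (ValuationSubring.mem_nonunits_iff (A := V)).1 hb
  calc V.valuation a * V.valuation b ≤ 1 * V.valuation b := by gcongr
    _ = V.valuation b := one_mul _
    _ < 1 := h2

/-- **Key induction.**  `B` = the elements of `F` integral over `R`, `V₁ V₂ ⊇ B`, `p ∈ 𝔪(V₁)`,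
(SS1) `B ∩ 𝔪(V₁) ∩ 𝔪(V₂) ⊆ p B`, `s ∈ B ∩ 𝔪(V₂)`: for `y ∈ B` with `y / p ^ n ∈ V₁`,
`y * s ^ n ∈ p ^ n B`. -/
theorem mgvl_pow_mul_mem (V₁ V₂ : ValuationSubring F) {p s : F}
    (hBV₁ : ∀ b : F, IsIntegral R b → b ∈ V₁) (hBV₂ : ∀ b : F, IsIntegral R b → b ∈ V₂)
    (hp0 : p ≠ 0) (hp₁ : p ∈ V₁.nonunits)
    (hSS1 : ∀ b : F, IsIntegral R b → b ∈ V₁.nonunits → b ∈ V₂.nonunits →
      ∃ b' : F, IsIntegral R b' ∧ b = p * b')
    (hs : IsIntegral R s) (hs₂ : s ∈ V₂.nonunits) :
    ∀ (n : ℕ) (y : F), IsIntegral R y → y / p ^ n ∈ V₁ →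
      ∃ y' : F, IsIntegral R y' ∧ y * s ^ n = p ^ n * y' := by
  intro n
  induction n with
  | zero =>
    intro y hy _
    exact ⟨y, hy, by simp⟩
  | succ n ih =>
    intro y hy hyV
    -- `y ∈ 𝔪(V₁)`
    have hy₁ : y ∈ V₁.nonunits := by
      have e : y = y / p ^ (n + 1) * p ^ n * p := by
        field_simp
        ring
      rw [e]
      exact mgvl_mul_mem_nonunits V₁
        (V₁.mul_mem _ _ hyV (V₁.pow_mem (V₁.nonunits_le hp₁) n)) hp₁
    have hys : IsIntegral R (y * s) := hy.mul hs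
    have h1 : y * s ∈ V₁.nonunits := by
      rw [mul_comm]
      exact mgvl_mul_mem_nonunits V₁ (hBV₁ s hs) hy₁
    have h2 : y * s ∈ V₂.nonunits := mgvl_mul_mem_nonunits V₂ (hBV₂ y hy) hs₂
    obtain ⟨z, hz, hyz⟩ := hSS1 _ hys h1 h2
    have hzV : z / p ^ n ∈ V₁ := by
      have e : z / p ^ n = y / p ^ (n + 1) * s := by
        have : z = y * s / p := by rw [hyz]; field_simp
        rw [this]
        field_simp
        ring
      rw [e]
      exact V₁.mul_mem _ _ hyV (hBV₁ s hs)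
    obtain ⟨z', hz', hzz'⟩ := ih z hz hzV
    refine ⟨z', hz', ?_⟩
    calc y * s ^ (n + 1) = (y * s) * s ^ n := by ring
      _ = p * (z * s ^ n) := by rw [hyz]; ring
      _ = p ^ (n + 1) * z' := by rw [hzz']; ring

/-- **MG-8b, abstract form of `hVloc`.**  `B` = the elements of `F` integral over `R`,
`V₁ V₂ ⊇ B` valuation subrings, `p ∈ B ∩ 𝔪(V₁)` a uniformizer of `V₁` on `B`
(`hunif`), (SS1) `B ∩ 𝔪(V₁) ∩ 𝔪(V₂) ⊆ p B`, a separating element `s ∈ B ∩ 𝔪(V₂)`,
`s ∉ 𝔪(V₁)`, and `F = Frac B` (`hfrac`).  Then every `x ∈ V₁` has a denominator in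
`B ∖ 𝔪(V₁)`. -/
theorem mgvl_vloc_abs (V₁ V₂ : ValuationSubring F) {p s : F}
    (hBV₁ : ∀ b : F, IsIntegral R b → b ∈ V₁) (hBV₂ : ∀ b : F, IsIntegral R b → b ∈ V₂)
    (hp0 : p ≠ 0) (hp₁ : p ∈ V₁.nonunits)
    (hSS1 : ∀ b : F, IsIntegral R b → b ∈ V₁.nonunits → b ∈ V₂.nonunits →
      ∃ b' : F, IsIntegral R b' ∧ b = p * b')
    (hs : IsIntegral R s) (hs₂ : s ∈ V₂.nonunits) (hs₁ : s ∉ V₁.nonunits)
    (hunif : ∀ b : F, IsIntegral R b → b ≠ 0 → ∃ n : ℕ, V₁.valuation (b / p ^ n) = 1)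
    (hfrac : ∀ x : F, ∃ a b : F, IsIntegral R a ∧ IsIntegral R b ∧ b ≠ 0 ∧ b * x = a)
    {x : F} (hx : x ∈ V₁) :
    ∃ b t : F, IsIntegral R b ∧ IsIntegral R t ∧ t ∉ V₁.nonunits ∧ t * x = b := by
  obtain ⟨a, b, ha, hb, hb0, hbx⟩ := hfrac x
  obtain ⟨n, hn⟩ := hunif b hb hb0
  have hsV : s ∈ V₁ := hBV₁ s hs
  have hs1 : V₁.valuation s = 1 := by
    have h1 := (V₁.valuation_le_one_iff s).2 hsV
    have h2 : ¬ V₁.valuation s < 1 := fun h =>
      hs₁ ((ValuationSubring.mem_nonunits_iff (A := V₁)).2 h)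
    exact le_antisymm h1 (not_lt.1 h2)
  have hbV : b / p ^ n ∈ V₁ := (V₁.valuation_le_one_iff _).1 hn.le
  obtain ⟨bn, hbn, hbbn⟩ := mgvl_pow_mul_mem V₁ V₂ hBV₁ hBV₂ hp0 hp₁ hSS1 hs hs₂ n b hb hbV
  have hpn0 : p ^ n ≠ 0 := pow_ne_zero _ hp0
  -- `bn = (b / p ^ n) * s ^ n` is a unit of `V₁`
  have hbn_eq : bn = b / p ^ n * s ^ n := by
    field_simp
    rw [hbbn]; ring
  have hbn1 : V₁.valuation bn = 1 := by
    rw [hbn_eq, map_mul, map_pow, hn, hs1, one_pow, one_mul]
  -- `y = a * s ^ n`, `y / p ^ n = x * bn ∈ V₁`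
  have hy : IsIntegral R (a * s ^ n) := ha.mul (hs.pow n)
  have hyV : a * s ^ n / p ^ n ∈ V₁ := by
    have e : a * s ^ n / p ^ n = x * bn := by
      rw [hbn_eq, ← hbx]
      field_simp
    rw [e]
    exact V₁.mul_mem _ _ hx ((V₁.valuation_le_one_iff _).1 hbn1.le)
  obtain ⟨y', hy', hyy'⟩ := mgvl_pow_mul_mem V₁ V₂ hBV₁ hBV₂ hp0 hp₁ hSS1 hs hs₂ n _ hy hyV
  refine ⟨y', bn * s ^ n, hy', hbn.mul (hs.pow n), ?_, ?_⟩
  · rw [ValuationSubring.mem_nonunits_iff, map_mul, map_pow, hbn1, hs1, one_pow, one_mul]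
    exact lt_irrefl _
  · have e : bn * s ^ n * x = a * s ^ n * s ^ n / p ^ n := by
      rw [hbn_eq, ← hbx]
      field_simp
    rw [e, hyy']
    field_simp

end Abs

section Sep

variable {A E k : Type*} [CommRing A] [IsDomain A] [Field E] [Algebra A E] [IsFractionRing A E]
  [Field k] {r : A →+* k} {π : A} (hB : VtBase (algebraMap A E) r π) (ιC : E →+* ℂ)
  {q M : ℕ} [NeZero q] [NeZero M] [NeZero (M * q)] (hq : q.Prime) (hqM : ¬ q ∣ M)

/-- `w_q (j − j(Q^q)^q) = j(Q^q) − j^q` -/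
theorem mgvl_atkinLehner_wC :
    atkinLehner E ιC hq hqM (atkinLehner E ιC hq hqM (nodesFrobC E M q)) = nodesFrobC E M q := by
  rw [nodesFrob_atkinLehner_C, map_sub, map_pow, nodesFrob_atkinLehner_J,
    nodesFrob_atkinLehner_Jq]
  rfl

variable [Fact q.Prime] [CharP k q]

/-- **(sep)** `c = j(Q^q) − j^q ∈ 𝔪(V_∞)` (Kronecker's congruence) -/
theorem mgvl_C_mem_true : nodesFrobC E M q ∈ (vtFam hB ιC hq hqM true).nonunits := by
  rw [vtFam_mem_nonunits_iff]
  exact ⟨nodesFrobC_mem r, nodesFrob_G5_infty r⟩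

/-- **(sep)** `c = j(Q^q) − j^q ∉ 𝔪(V_0)` -/
theorem mgvl_C_not_mem_false : nodesFrobC E M q ∉ (vtFam hB ιC hq hqM false).nonunits := by
  rw [vtFam_mem_nonunits_iff]
  rintro ⟨h, h0⟩
  exact nodesFrob_G5_zero r ιC hq hqM h0

/-- **(sep)** `w_q c = j − j(Q^q)^q ∈ 𝔪(V_0)` -/
theorem mgvl_wC_mem_false :
    atkinLehner E ιC hq hqM (nodesFrobC E M q) ∈ (vtFam hB ιC hq hqM false).nonunits := by
  rw [vtFam_mem_nonunits_iff]
  have e : vtEmbFam ιC hq hqM false (atkinLehner E ιC hq hqM (nodesFrobC E M q)) =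
      ((nodesFrobC E M q : modularFunctionFieldFullC E (M * q)) : LaurentSeries E) := by
    show ((atkinLehner E ιC hq hqM (atkinLehner E ιC hq hqM (nodesFrobC E M q)) :
      modularFunctionFieldFullC E (M * q)) : LaurentSeries E) = _
    rw [mgvl_atkinLehner_wC]
  have hmem : vtEmbFam ιC hq hqM false (atkinLehner E ιC hq hqM (nodesFrobC E M q)) ∈
      gaussRing (algebraMap A E) r := by
    rw [e]; exact nodesFrobC_mem r
  refine ⟨hmem, ?_⟩
  have e2 : (⟨_, hmem⟩ : gaussRing (algebraMap A E) r) =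
      ⟨_, nodesFrobC_mem (E := E) (M := M) (q := q) r⟩ := Subtype.ext e
  rw [e2]
  exact nodesFrob_G5_infty r

/-- **(sep)** `w_q c = j − j(Q^q)^q ∉ 𝔪(V_∞)` -/
theorem mgvl_wC_not_mem_true :
    atkinLehner E ιC hq hqM (nodesFrobC E M q) ∉ (vtFam hB ιC hq hqM true).nonunits := by
  rw [vtFam_mem_nonunits_iff]
  rintro ⟨h, h0⟩
  exact nodesFrob_G5_zero r ιC hq hqM h0

/-- **hne** (generic base): the two vertical valuation rings are different -/
theorem mgvl_vtFam_ne : vtFam hB ιC hq hqM true ≠ vtFam hB ιC hq hqM false := by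
  intro h
  have h1 := mgvl_C_mem_true hB ιC hq hqM
  rw [h] at h1
  exact mgvl_C_not_mem_false hB ιC hq hqM h1

end Sep

section Integral

variable {A E : Type*} [CommRing A] [IsDomain A] [Field E] [Algebra A E] [IsFractionRing A E]
  (ιC : E →+* ℂ) {q M : ℕ} [NeZero q] [NeZero M] [NeZero (M * q)] (hq : q.Prime) (hqM : ¬ q ∣ M)
  [Algebra A (modularFunctionFieldFullC E (M * q))]
  [IsScalarTower A E (modularFunctionFieldFullC E (M * q))]

theorem mgvl_isIntegral_J :
    IsIntegral (Algebra.adjoin A {nodesFrobJ E M q}) (nodesFrobJ E M q) :=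
  isIntegral_algebraMap (R := Algebra.adjoin A {nodesFrobJ E M q})
    (x := ⟨nodesFrobJ E M q, Algebra.subset_adjoin (Set.mem_singleton _)⟩)

include hq in
/-- `c = j(Q^q) − j^q` is integral over `A[j]` -/
theorem mgvl_isIntegral_C :
    IsIntegral (Algebra.adjoin A {nodesFrobJ E M q}) (nodesFrobC E M q) :=
  (nodesSwap_isIntegral_Jq (A := A) (E := E) (M := M) (q := q) hq).sub
    ((mgvl_isIntegral_J (A := A) (E := E) (M := M) (q := q)).pow q)

/-- `w_q c = j − j(Q^q)^q` is integral over `A[j]` -/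
theorem mgvl_isIntegral_wC :
    IsIntegral (Algebra.adjoin A {nodesFrobJ E M q})
      (atkinLehner E ιC hq hqM (nodesFrobC E M q)) := by
  rw [nodesFrob_atkinLehner_C]
  exact (mgvl_isIntegral_J (A := A) (E := E) (M := M) (q := q)).sub
    ((nodesSwap_isIntegral_Jq (A := A) (E := E) (M := M) (q := q) hq).pow q)

end Integral

section Concrete

variable {A : ValuationSubring Qb} {K₀ : IntermediateField ℚ Qb}

/-- the residue field of `A ∩ K₀` has characteristic `q` -/
theorem mgvl_charP {q : ℕ} (hq : q.Prime) (hA : A.LiesOverPrime q) :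
    CharP (IsLocalRing.ResidueField ↥(beta0Ring A K₀)) q := by
  apply Fermat.Agent.RED.charP_residueField (beta0Ring A K₀) hq
  rw [vt_mem_nonunits_comap, map_natCast]
  exact hA

variable [IsDiscreteValuationRing ↥(beta0Ring A K₀)] {π : ↥(beta0Ring A K₀)}
  (hπ : Irreducible π) (ιC : ↥K₀ →+* ℂ) {q M : ℕ} [NeZero q] [NeZero M] [NeZero (M * q)]
  (hq : q.Prime) (hqM : ¬ q ∣ M)

/-- **hne** in the concrete setting: `V_∞ ≠ V_0`. -/
theorem mgvl_hne (hA : A.LiesOverPrime q) :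
    mgvV hπ ιC hq hqM true ≠ mgvV hπ ιC hq hqM false := by
  haveI : Fact q.Prime := ⟨hq⟩
  haveI : CharP (IsLocalRing.ResidueField ↥(beta0Ring A K₀)) q := mgvl_charP hq hA
  exact mgvl_vtFam_ne (vtBase_residue hπ) ιC hq hqM

/-- the separating element `c = j(Q^q) − j^q`: `c ∈ 𝔪(V_∞)`, `c ∉ 𝔪(V_0)` -/
theorem mgvl_hsep (hA : A.LiesOverPrime q) :
    nodesFrobC ↥K₀ M q ∈ (mgvV hπ ιC hq hqM true).nonunits ∧
      nodesFrobC ↥K₀ M q ∉ (mgvV hπ ιC hq hqM false).nonunits := by
  haveI : Fact q.Prime := ⟨hq⟩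
  haveI : CharP (IsLocalRing.ResidueField ↥(beta0Ring A K₀)) q := mgvl_charP hq hA
  exact ⟨mgvl_C_mem_true (vtBase_residue hπ) ιC hq hqM,
    mgvl_C_not_mem_false (vtBase_residue hπ) ιC hq hqM⟩

/-- the mirrored separating element `w_q c = j − j(Q^q)^q`: `∈ 𝔪(V_0)`, `∉ 𝔪(V_∞)` -/
theorem mgvl_hsep' (hA : A.LiesOverPrime q) :
    atkinLehner ↥K₀ ιC hq hqM (nodesFrobC ↥K₀ M q) ∈ (mgvV hπ ιC hq hqM false).nonunits ∧
      atkinLehner ↥K₀ ιC hq hqM (nodesFrobC ↥K₀ M q) ∉ (mgvV hπ ιC hq hqM true).nonunits := by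
  haveI : Fact q.Prime := ⟨hq⟩
  haveI : CharP (IsLocalRing.ResidueField ↥(beta0Ring A K₀)) q := mgvl_charP hq hA
  exact ⟨mgvl_wC_mem_false (vtBase_residue hπ) ιC hq hqM,
    mgvl_wC_not_mem_true (vtBase_residue hπ) ιC hq hqM⟩

end Concrete

end Fermat.Agent.UNIP

end
end ZBUNIP_014_8

/-! ### bundled: `Fermat.Agent.S36.N2Val` -/
section ZBUNIP_014_9

/-!
# S36 / G-N2, piece N2-val: the three vertical valuation subrings of `F = F_{M q²}(E)`

Bases: `(A, E, k, r, π)` (`hB : VtBase (algebraMap A E) r π`, the small field) and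
`(A', E', k', r', π')` (`hB'`, the field `E' = E(ζ)`), `ψ : E →+* E'`, `κ : k →+* k'` compatible
(`hc : VtCompat …`), `ζ : E'ˣ` the image of a unit `z : A'ˣ`, `h : S36MidEmb E' q M ζ` (G-mid).

* embeddings `s36n2EmbA = incl`, `s36n2EmbB = incl ∘ w_{q²}` into `E((Q))`,
  `s36n2EmbC = μ ∘ base change` into `E'((Q))`;
* `s36n2VA`, `s36n2VB`, `s36n2VC : ValuationSubring F` and the family
  `s36n2V : S36Comp → ValuationSubring F` (`S36Comp = {a, b, c}`);
* restrictions to `F′ = F_{Mq}(E)` along `α` (inclusion) and `β` (`Q ↦ Q^q`):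
  `s36n2VA_comap_alpha = V′_∞`, `s36n2VC_comap_alpha = V′_∞`, `s36n2VB_comap_alpha = V′_0`,
  `s36n2VA_comap_beta = V′_∞`, `s36n2VB_comap_beta = V′_0`, `s36n2VC_comap_beta = V′_0`;
* `s36n2V_ne` (pairwise distinct), `s36n2V_const_mem`, `s36n2V_unif_mem_nonunits`,
  `s36n2V_J_valuation`, `s36n2V_mem_of_isIntegral`, `s36n2V_arch`, `s36n2V_hU_a`, `s36n2V_hU_b`,
  `s36n2V_hram`.
-/

set_option autoImplicit false
set_option linter.unusedSectionVars false
set_option linter.style.haveILetI false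

noncomputable section

namespace Fermat.Agent.S36

open ModularCurve Fermat.Agent.UNIP Fermat.Agent.INJ Fermat.Agent.AL Fermat.Agent.ES

/-! ### A. `Q ↦ Q^n` and `Q ↦ z Q` on the Gauss ring -/

section Reflect

variable {A E k : Type*} [CommRing A] [Field E] [Field k]
  {ι : A →+* E} {r : A →+* k} {π : A}

theorem s36n2_qExpand_mem (n : ℕ) [NeZero n] {x : LaurentSeries E}
    (hx : x ∈ gaussRing ι r) : qExpand E n x ∈ gaussRing ι r := by
  obtain ⟨T, b, hb, h⟩ := hx
  refine ⟨qExpand A n T, qExpand A n b, ?_, ?_⟩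
  · rw [coeffMap_qExpand]
    exact fun h0 => hb (qExpand_injective n (by rw [h0, map_zero]))
  · rw [coeffMap_qExpand, coeffMap_qExpand, ← map_mul, h]

theorem s36n2_gaussRed_qExpand (hι : Function.Injective ι) (n : ℕ) [NeZero n]
    (x : gaussRing ι r) :
    gaussRed r hι ⟨qExpand E n (x : LaurentSeries E), s36n2_qExpand_mem n x.2⟩ =
      qExpand k n (gaussRed r hι x) := by
  obtain ⟨T, b, hb, h⟩ := x.2
  have hb' : coeffMap r (qExpand A n b) ≠ 0 := by
    rw [coeffMap_qExpand]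
    exact fun h0 => hb (qExpand_injective n (by rw [h0, map_zero]))
  rw [gaussRed_eq r hι x T b hb h,
    gaussRed_eq r hι _ (qExpand A n T) (qExpand A n b) hb'
      (by
        show coeffMap ι (qExpand A n b) * qExpand E n (x : LaurentSeries E) = _
        rw [coeffMap_qExpand, coeffMap_qExpand, ← map_mul, h]),
    coeffMap_qExpand, coeffMap_qExpand, map_div₀]

/-- abstract reflection: a ring endomorphism `Φ` of `E((Q))` preserving the Gauss ring and
quotients of series over `A`, and whose reduction is injective, reflects the Gauss ring. -/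
theorem s36n2_reflect (hB : VtBase ι r π) (Φ : LaurentSeries E →+* LaurentSeries E)
    (Φk : LaurentSeries k →+* LaurentSeries k)
    (hmem : ∀ x, x ∈ gaussRing ι r → Φ x ∈ gaussRing ι r)
    (hred : ∀ (x : LaurentSeries E) (hx : x ∈ gaussRing ι r),
      gaussRed r hB.inj ⟨Φ x, hmem x hx⟩ = Φk (gaussRed r hB.inj ⟨x, hx⟩))
    {x : LaurentSeries E} (hfrac : VtFrac ι x) (hx : Φ x ∈ gaussRing ι r) :
    x ∈ gaussRing ι r := by
  rcases vt_mem_or_inv_mem (r := r) hB hfrac with h | h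
  · exact h
  · by_contra hxG
    have hx0 : x ≠ 0 := fun h0 => hxG (h0 ▸ (gaussRing ι r).zero_mem)
    -- `x⁻¹` is not a unit of the Gauss ring
    have hnu : gaussRed r hB.inj ⟨x⁻¹, h⟩ = 0 := by
      by_contra hne
      have hu : VtUnit ι r x⁻¹ := (vtUnit_iff hB.inj).mpr ⟨h, hne⟩
      have := (hu.inv hB.inj).mem
      rw [inv_inv] at this
      exact hxG this
    have h1 : (⟨Φ x, hx⟩ : gaussRing ι r) * ⟨Φ x⁻¹, hmem _ h⟩ = 1 := by
      apply Subtype.ext
      show Φ x * Φ x⁻¹ = 1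
      rw [← map_mul, mul_inv_cancel₀ hx0, map_one]
    have h2 := congrArg (gaussRed r hB.inj) h1
    rw [map_mul, map_one, hred _ h, hnu, map_zero, mul_zero] at h2
    exact zero_ne_one h2

theorem s36n2_qExpand_mem_iff (hB : VtBase ι r π) (n : ℕ) [NeZero n] {x : LaurentSeries E}
    (hfrac : VtFrac ι x) : qExpand E n x ∈ gaussRing ι r ↔ x ∈ gaussRing ι r :=
  ⟨fun hx => s36n2_reflect hB (qExpand E n) (qExpand k n) (fun _ => s36n2_qExpand_mem n)
    (fun x hx => s36n2_gaussRed_qExpand hB.inj n ⟨x, hx⟩) hfrac hx,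
   s36n2_qExpand_mem n⟩

theorem s36n2_kronRot_coeffMap (z : Aˣ) (T : LaurentSeries A) :
    kronRot (Units.map (ι : A →* E) z) (coeffMap ι T) = coeffMap ι (kronRot z T) :=
  (coeffMap_kronRot ι z T).symm

theorem s36n2_kronRot_ne_zero {R : Type*} [CommRing R] (c : Rˣ) {f : LaurentSeries R}
    (hf : f ≠ 0) : kronRot c f ≠ 0 := by
  intro h
  apply hf
  ext n
  have h1 := congrArg (fun g : LaurentSeries R => g.coeff n) h
  simp only [kronRot_coeff, HahnSeries.coeff_zero] at h1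
  rw [Units.mul_right_eq_zero] at h1
  rw [h1, HahnSeries.coeff_zero]

theorem s36n2_kronRot_mem (z : Aˣ) {x : LaurentSeries E} (hx : x ∈ gaussRing ι r) :
    kronRot (Units.map (ι : A →* E) z) x ∈ gaussRing ι r := by
  obtain ⟨T, b, hb, h⟩ := hx
  refine ⟨kronRot z T, kronRot z b, ?_, ?_⟩
  · rw [coeffMap_kronRot]
    exact s36n2_kronRot_ne_zero _ hb
  · rw [← s36n2_kronRot_coeffMap, ← s36n2_kronRot_coeffMap, ← map_mul, h]

theorem s36n2_kronRot_mem_iff (z : Aˣ) {x : LaurentSeries E} :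
    kronRot (Units.map (ι : A →* E) z) x ∈ gaussRing ι r ↔ x ∈ gaussRing ι r := by
  refine ⟨fun hx => ?_, s36n2_kronRot_mem z⟩
  have h1 := s36n2_kronRot_mem (r := r) z⁻¹ hx
  rw [kronRot_kronRot, ← map_mul, inv_mul_cancel, map_one, kronRot_one] at h1
  exact h1

theorem s36n2_kronRot_frac (z : Aˣ) {x : LaurentSeries E} (hx : VtFrac ι x) :
    VtFrac ι (kronRot (Units.map (ι : A →* E) z) x) := by
  obtain ⟨T, b, hb, h⟩ := hx
  refine ⟨kronRot z T, kronRot z b, s36n2_kronRot_ne_zero _ hb, ?_⟩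
  rw [← s36n2_kronRot_coeffMap, ← s36n2_kronRot_coeffMap, ← map_mul, h]

end Reflect

/-! ### B. The three embeddings and the three valuation subrings -/

/-- The three vertical components of the special fibre of `X₀(M q²)`: `a` (cusp `∞`),
`b` (cusp `0`), `c` (the middle cusps, multiplicity `q − 1`). -/
inductive S36Comp : Type
  | a : S36Comp
  | b : S36Comp
  | c : S36Comp

instance : Finite S36Comp :=
  Finite.of_surjective (fun i : Fin 3 => match i with
    | 0 => S36Comp.a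
    | 1 => S36Comp.b
    | 2 => S36Comp.c) (by
      intro x
      cases x
      · exact ⟨0, rfl⟩
      · exact ⟨1, rfl⟩
      · exact ⟨2, rfl⟩)

section Emb

variable {A E k A' E' k' : Type*} [CommRing A] [IsDomain A] [Field E] [Algebra A E]
  [IsFractionRing A E] [Field k] [CommRing A'] [Field E'] [Field k']
  {r : A →+* k} {π : A} {ι' : A' →+* E'} {r' : A' →+* k'} {π' : A'}
  (hB : VtBase (algebraMap A E) r π) (hB' : VtBase ι' r' π')
  (ψ : E →+* E') (ιC : E →+* ℂ)
  {q M : ℕ} [NeZero q] [NeZero M] [NeZero (M * q)] [NeZero (M * q * q)]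
  (hq : q.Prime) (hqM : ¬ q ∣ M)
  {ζ : E'ˣ} (h : S36MidEmb E' q M ζ) (z : A'ˣ) (hz : Units.map (ι' : A' →* E') z = ζ)

/-- the expansion at `0`: `incl ∘ w_{q²}` -/
def s36n2EmbB : modularFunctionFieldFullC E (M * q * q) →+* LaurentSeries E :=
  (vtEmb E (M * q * q)).comp (s36n2W E ιC hq hqM).toRingEquiv.toRingHom

theorem s36n2EmbB_apply (x : modularFunctionFieldFullC E (M * q * q)) :
    s36n2EmbB ιC hq hqM x =
      ((s36n2W E ιC hq hqM x : modularFunctionFieldFullC E (M * q * q)) : LaurentSeries E) :=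
  rfl

/-- the expansion at the middle cusp: `μ ∘ base change` -/
def s36n2EmbC : modularFunctionFieldFullC E (M * q * q) →+* LaurentSeries E' :=
  h.emb.toRingHom.comp (mgaCoeffHom ψ (M * q * q))

theorem s36n2EmbC_apply (x : modularFunctionFieldFullC E (M * q * q)) :
    s36n2EmbC ψ h x = h.emb (mgaCoeffHom ψ (M * q * q) x) := rfl

include hB' hq hz in
/-- the image of `μ` consists of quotients of series over `A'` -/
theorem s36n2_frac_emb (y : modularFunctionFieldFullC E' (M * q * q)) :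
    VtFrac ι' (h.emb y) := by
  obtain ⟨y, hy⟩ := y
  refine IntermediateField.adjoin_induction (F := E') (s := divisorExpansionsC E' (M * q * q))
    (p := fun x hx => VtFrac ι' (h.emb ⟨x, hx⟩)) ?_ ?_ ?_ ?_ ?_ hy
  · rintro x ⟨d, hne, hdvd, rfl⟩
    haveI := hne
    have e0 : ∀ (n : ℕ) [NeZero n], qExpand E' n (jqModC E') =
        coeffMap ι' (qExpand A' n (jqModC A')) := fun n _ => (coeffMap_jqNModC ι' n).symm
    rcases s36mid_divisor_cases hq hdvd with hd' | ⟨d', hd', rfl⟩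
    · rw [h.emb_low d hd', e0 d]
      exact vtFrac_coeffMap _
    · have hd0 : d' ≠ 0 := fun h0 => NeZero.ne M (by rw [h0, zero_dvd_iff] at hd'; exact hd')
      haveI : NeZero d' := ⟨hd0⟩
      rw [h.emb_high d' hd', e0 d', ← hz, s36n2_kronRot_coeffMap]
      exact vtFrac_coeffMap _
  · intro c
    show VtFrac ι' (h.emb (algebraMap E' _ c))
    rw [h.emb.commutes, algebraMap_laurentSeries_eq_single]
    exact vtFrac_C hB'.frac c
  · intro x y hx hy h1 h2
    have e : (⟨x + y, add_mem hx hy⟩ : modularFunctionFieldFullC E' (M * q * q)) =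
        ⟨x, hx⟩ + ⟨y, hy⟩ := rfl
    rw [e, map_add]
    exact h1.add hB'.inj h2
  · intro x hx h1
    have e : (⟨x⁻¹, inv_mem hx⟩ : modularFunctionFieldFullC E' (M * q * q)) = (⟨x, hx⟩)⁻¹ := rfl
    rw [e, map_inv₀]
    exact h1.inv hB'.inj
  · intro x y hx hy h1 h2
    have e : (⟨x * y, mul_mem hx hy⟩ : modularFunctionFieldFullC E' (M * q * q)) =
        ⟨x, hx⟩ * ⟨y, hy⟩ := rfl
    rw [e, map_mul]
    exact h1.mul hB'.inj h2

/-- **`V_a`**: the Gauss valuation of the expansion at `∞`. -/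
def s36n2VA : ValuationSubring (modularFunctionFieldFullC E (M * q * q)) :=
  vtInf hB (M * q * q)

/-- **`V_b = V_a.comap w_{q²}`**: the Gauss valuation of the expansion at `0`. -/
def s36n2VB : ValuationSubring (modularFunctionFieldFullC E (M * q * q)) :=
  vtSub hB (s36n2EmbB ιC hq hqM)
    (fun x => vt_frac_fullC hB (M * q * q) (s36n2W E ιC hq hqM x).2)

/-- **`V_c`**: the Gauss valuation of the expansion at the middle cusp. -/
def s36n2VC : ValuationSubring (modularFunctionFieldFullC E (M * q * q)) :=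
  vtSub hB' (s36n2EmbC ψ h) (fun _ => s36n2_frac_emb hB' hq h z hz _)

theorem mem_s36n2VA {x : modularFunctionFieldFullC E (M * q * q)} :
    x ∈ s36n2VA (q := q) (M := M) hB ↔ (x : LaurentSeries E) ∈ gaussRing (algebraMap A E) r :=
  Iff.rfl

theorem mem_s36n2VB {x : modularFunctionFieldFullC E (M * q * q)} :
    x ∈ s36n2VB hB ιC hq hqM ↔
      ((s36n2W E ιC hq hqM x : modularFunctionFieldFullC E (M * q * q)) : LaurentSeries E) ∈
        gaussRing (algebraMap A E) r := Iff.rfl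

theorem mem_s36n2VC {x : modularFunctionFieldFullC E (M * q * q)} :
    x ∈ s36n2VC hB' ψ hq h z hz ↔ h.emb (mgaCoeffHom ψ (M * q * q) x) ∈ gaussRing ι' r' :=
  Iff.rfl

theorem s36n2VB_eq_comap :
    s36n2VB hB ιC hq hqM =
      (s36n2VA hB).comap (s36n2W E ιC hq hqM).toRingEquiv.toRingHom := rfl

/-- **The three vertical valuation subrings.** -/
def s36n2V : S36Comp → ValuationSubring (modularFunctionFieldFullC E (M * q * q))
  | S36Comp.a => s36n2VA hB
  | S36Comp.b => s36n2VB hB ιC hq hqM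
  | S36Comp.c => s36n2VC hB' ψ hq h z hz

end Emb

end Fermat.Agent.S36

end


end ZBUNIP_014_9

/-! ### bundled: `Fermat.Agent.RIB.MP.RedRes` -/
section ZBUNIP_014_10
/-
Row 37, Mazur's principle, piece MP-RED, part RED-a (i) "K-RES" (helper91).

`q ∤ M` a prime, `F_M = modularFunctionFieldFullC E M ⊆ F_{Mq}`, `W = vtInf hB M` the Gauss
valuation ring of `F_M`, `V_∞ = vtFam … true`, `V_0 = vtFam … false` the two vertical valuation
rings of `F_{Mq}`.  `[F_{Mq} : F_M] = q + 1`, `V_∞` and `V_0` both dominate `W`, and the residue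
field of `V_0` has degree `≥ q` over that of `W` (`1, j_q, …, j_q^(q-1)`): hence (two-valuation
theorem `UNIP.unip_twoVal_main`) the residue field of `V_∞` is that of `W`:

* `ribmp_red_two_hom` : the abstract statement, ring homomorphism form;
* `ribmp_red_res` : `∀ x ∈ V_∞, ∃ c ∈ W, x − c ∈ 𝔪(V_∞)`.
-/

set_option autoImplicit false
set_option linter.unusedSectionVars false
set_option linter.unusedVariables false
set_option linter.style.haveILetI false
set_option linter.style.longLine false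

noncomputable section

namespace Fermat.Agent.RIB.MP

open ModularCurve Module IsLocalRing Polynomial IntermediateField
open Fermat.Agent.UNIP Fermat.Agent.S36 Fermat.Agent.INJ Fermat.Agent.AL Fermat.Agent.ES.G2
open Fermat.Agent.S28

section Mod

variable {A E k : Type*} [CommRing A] [IsDomain A] [Field E] [Algebra A E] [IsFractionRing A E]
  [Field k] {r : A →+* k} {π : A} (hB : VtBase (algebraMap A E) r π) (ιC : E →+* ℂ)
  {q M : ℕ} [NeZero q] [NeZero M] [NeZero (M * q)] (hq : q.Prime) (hqM : ¬ q ∣ M)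

/-- the inclusion `F_M ⊆ F_{Mq}` -/
def ribmpRedIncl (E : Type*) [Field E] (M q : ℕ) [NeZero M] [NeZero q] :
    modularFunctionFieldFullC E M →+* modularFunctionFieldFullC E (M * q) :=
  (IntermediateField.inclusion (nodesDeg_le E M q)).toRingHom

theorem ribmpRedIncl_coe (x : modularFunctionFieldFullC E M) :
    ((ribmpRedIncl E M q x : modularFunctionFieldFullC E (M * q)) : LaurentSeries E) =
      (x : LaurentSeries E) := by
  unfold ribmpRedIncl
  exact IntermediateField.coe_inclusion _ x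

theorem ribmpRedIncl_eq (x : modularFunctionFieldFullC E M) :
    ribmpRedIncl E M q x = ⟨(x : LaurentSeries E), al_mem_of_mem_low E x.2⟩ :=
  Subtype.ext (ribmpRedIncl_coe x)

/-- the reduction map of the Gauss valuation ring of `F_M` -/
def ribmpRedW (M : ℕ) : ↥(vtInf hB M) →+* LaurentSeries k :=
  vtSubRed hB (vtEmb E M) (fun x => vt_frac_fullC hB M x.2)

theorem ribmpRedW_eq_zero_iff (M : ℕ) (x : ↥(vtInf hB M)) :
    ribmpRedW hB M x = 0 ↔ (x : modularFunctionFieldFullC E M) ∈ (vtInf hB M).nonunits :=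
  vtSubRed_eq_zero_iff hB _ _ x

/-- the reduction maps of `V_∞`, `V_0` -/
def ribmpRedV (c : Bool) : ↥(vtFam hB ιC hq hqM c) →+* LaurentSeries k :=
  vtSubRed hB (vtEmbFam ιC hq hqM c) (vt_frac_fam hB ιC hq hqM c)

theorem ribmpRedV_eq_zero_iff (c : Bool) (x : ↥(vtFam hB ιC hq hqM c)) :
    ribmpRedV hB ιC hq hqM c x = 0 ↔
      (x : modularFunctionFieldFullC E (M * q)) ∈ (vtFam hB ιC hq hqM c).nonunits :=
  vtSubRed_eq_zero_iff hB _ _ x

theorem ribmp_red_emb_incl (z : modularFunctionFieldFullC E M) :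
    vtEmbFam ιC hq hqM true (ribmpRedIncl E M q z) = (z : LaurentSeries E) := by
  rw [vtEmbFam_true, vtEmb_apply, ribmpRedIncl_coe]

theorem ribmp_red_comap_true :
    (vtFam hB ιC hq hqM true).comap (ribmpRedIncl E M q) = vtInf hB M := by
  ext z
  rw [ValuationSubring.mem_comap, mem_vtFam, ribmp_red_emb_incl, mem_vtInf]

theorem ribmp_red_emb0_incl (z : modularFunctionFieldFullC E M) :
    vtEmbFam ιC hq hqM false (ribmpRedIncl E M q z) = qExpand E q (z : LaurentSeries E) := by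
  rw [vtEmbFam_false, vtEmb0_apply, ribmpRedIncl_eq]
  exact atkinLehner_of_mem_low E ιC hq hqM z.2

theorem ribmp_red_comap_false :
    (vtFam hB ιC hq hqM false).comap (ribmpRedIncl E M q) = vtInf hB M := by
  ext z
  rw [ValuationSubring.mem_comap, mem_vtFam, ribmp_red_emb0_incl, mem_vtInf]
  exact s36n2_qExpand_mem_iff hB q (vt_frac_fullC hB M z.2)

/-- the reduction at `V_∞` of an element of `W` -/
theorem ribmpRedV_true_incl (z : modularFunctionFieldFullC E M) (hz : z ∈ vtInf hB M)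
    (hz' : ribmpRedIncl E M q z ∈ vtFam hB ιC hq hqM true) :
    ribmpRedV hB ιC hq hqM true ⟨ribmpRedIncl E M q z, hz'⟩ = ribmpRedW hB M ⟨z, hz⟩ := by
  have h1 := vtSubRed_of_eq hB (vtEmbFam ιC hq hqM true) (vt_frac_fam hB ιC hq hqM true)
    (x := ⟨ribmpRedIncl E M q z, hz'⟩) (ribmp_red_emb_incl ιC hq hqM z) hz
  exact h1

/-- the reduction at `V_0` of an element of `W`: `Q ↦ Q^q` -/
theorem ribmpRedV_false_incl (z : modularFunctionFieldFullC E M) (hz : z ∈ vtInf hB M)
    (hz' : ribmpRedIncl E M q z ∈ vtFam hB ιC hq hqM false) :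
    ribmpRedV hB ιC hq hqM false ⟨ribmpRedIncl E M q z, hz'⟩ =
      qExpand k q (ribmpRedW hB M ⟨z, hz⟩) := by
  have h1 := vtSubRed_of_eq hB (vtEmbFam ιC hq hqM false) (vt_frac_fam hB ιC hq hqM false)
    (x := ⟨ribmpRedIncl E M q z, hz'⟩) (ribmp_red_emb0_incl ιC hq hqM z)
    (s36n2_qExpand_mem q hz)
  exact h1.trans (s36n2_gaussRed_qExpand hB.inj q ⟨(z : LaurentSeries E), hz⟩)

theorem ribmp_red_Jq_mem (c : Bool) : nodesFrobJq E M q ∈ vtFam hB ιC hq hqM c :=
  vtFam_gen_mem hB ιC hq hqM c (dvd_mul_left q M)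

/-- the reduction at `V_0` of `j(Q^q)` is `j̄` -/
theorem ribmpRedV_false_Jq :
    ribmpRedV hB ιC hq hqM false ⟨nodesFrobJq E M q, ribmp_red_Jq_mem hB ιC hq hqM false⟩ =
      jqModC k := by
  have e : vtEmbFam ιC hq hqM false (nodesFrobJq E M q) = jqModC E := by
    rw [vtEmbFam_false, vtEmb0_apply, nodesFrob_atkinLehner_Jq]
    rfl
  exact (vtSubRed_of_eq hB _ _ e (nodesFrobU_j_mem r)).trans (nodesFrobU_gaussRed_j r _)

/-- `j ∈ W` -/
theorem ribmp_red_J_mem (N : ℕ) [NeZero N] : bgJ E N ∈ vtInf hB N := by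
  rw [mem_vtInf]
  exact nodesFrobU_j_mem r

include hq in
/-- `j(Q^q)` is integral over `W` -/
theorem ribmp_red_poly_Jq :
    ∃ p : (modularFunctionFieldFullC E M)[X], p.Monic ∧ (∀ k, p.coeff k ∈ vtInf hB M) ∧
      p.eval₂ (ribmpRedIncl E M q) (nodesFrobJq E M q) = 0 := by
  refine ⟨(nodesSwapPhi q hq).map (evalInt (bgJ E M)), (nodesSwapPhi_monic q hq).map _, ?_, ?_⟩
  · intro n
    rw [Polynomial.coeff_map]
    have e : evalInt (bgJ E M) = (vtInf hB M).subtype.comp
        (evalInt (⟨bgJ E M, ribmp_red_J_mem hB M⟩ : ↥(vtInf hB M))) := by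
      rw [comp_evalInt]
      rfl
    rw [e]
    exact (evalInt (⟨bgJ E M, ribmp_red_J_mem hB M⟩ : ↥(vtInf hB M))
      ((nodesSwapPhi q hq).coeff n)).2
  · rw [Polynomial.eval₂_map, comp_evalInt]
    exact nodesSwapPhi_eval q hq E M

include hq in
/-- the separating element `c = j(Q^q) − j^q` is integral over `W` -/
theorem ribmp_red_poly_C :
    ∃ p : (modularFunctionFieldFullC E M)[X], p.Monic ∧ (∀ k, p.coeff k ∈ vtInf hB M) ∧
      p.eval₂ (ribmpRedIncl E M q) (nodesFrobC E M q) = 0 :=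
  ribmp_red_poly_sub _ _ (ribmp_red_poly_Jq hB hq)
    (ribmp_red_poly_pow _ _ (ribmp_red_poly_map (ribmpRedIncl E M q) _ (ribmp_red_J_mem hB M)) q)

variable [Fact q.Prime] [CharP k q]

/-- **independence**: `1, j_q, …, j_q^(q-1)` are independent over the residue field of `W` in the
residue field of `V_0`. -/
theorem ribmp_red_indep (c : Fin q → modularFunctionFieldFullC E M)
    (hc : ∀ i, c i ∈ vtInf hB M)
    (hsum : (∑ i, ribmpRedIncl E M q (c i) * nodesFrobJq E M q ^ (i : ℕ)) ∈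
      (vtFam hB ιC hq hqM false).nonunits) :
    ∀ i, c i ∈ (vtInf hB M).nonunits := by
  have hle : ∀ i, ribmpRedIncl E M q (c i) ∈ vtFam hB ιC hq hqM false := fun i =>
    s36n2x_le_of_comap (ribmp_red_comap_false hB ιC hq hqM) _ (hc i)
  set S : ↥(vtFam hB ιC hq hqM false) :=
    ∑ i, (⟨ribmpRedIncl E M q (c i), hle i⟩ : ↥(vtFam hB ιC hq hqM false)) *
      (⟨nodesFrobJq E M q, ribmp_red_Jq_mem hB ιC hq hqM false⟩ :
        ↥(vtFam hB ιC hq hqM false)) ^ (i : ℕ) with hS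
  have hScoe : ((S : ↥(vtFam hB ιC hq hqM false)) : modularFunctionFieldFullC E (M * q)) =
      ∑ i, ribmpRedIncl E M q (c i) * nodesFrobJq E M q ^ (i : ℕ) := by
    rw [hS, AddSubmonoidClass.coe_finsetSum]
    exact Finset.sum_congr rfl (fun i _ => rfl)
  have h0 : ribmpRedV hB ιC hq hqM false S = 0 := by
    rw [ribmpRedV_eq_zero_iff, hScoe]
    exact hsum
  rw [hS, map_sum] at h0
  simp_rw [map_mul, map_pow, ribmpRedV_false_Jq, ribmpRedV_false_incl hB ιC hq hqM _ (hc _)]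
    at h0
  have h1 := nodesFrobU_G4_j (k := k) q (fun i => ribmpRedW hB M ⟨c i, hc i⟩) h0
  intro i
  exact (ribmpRedW_eq_zero_iff hB M _).mp (h1 i)

variable [CharZero E]

/-- the hypotheses of the two-valuation theorem for `V_∞`, `V_0` over `W` -/
theorem ribmp_red_twoHom :
    RibmpTwoHom (ribmpRedIncl E M q) (vtInf hB M) (vtFam hB ιC hq hqM true)
      (vtFam hB ιC hq hqM false) q where
  le₁ := s36n2x_le_of_comap (ribmp_red_comap_true hB ιC hq hqM)
  le₂ := s36n2x_le_of_comap (ribmp_red_comap_false hB ιC hq hqM)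
  dom₁ := s36n2x_dom_of_comap (ribmp_red_comap_true hB ιC hq hqM)
  dom₂ := s36n2x_dom_of_comap (ribmp_red_comap_false hB ιC hq hqM)
  sep := ⟨nodesFrobC E M q, ribmp_red_poly_C hB hq, mgvl_C_mem_true hB ιC hq hqM,
    mgvl_C_not_mem_false hB ιC hq hqM⟩
  indep := ⟨fun i => nodesFrobJq E M q ^ (i : ℕ),
    fun i => ribmp_red_poly_pow _ _ (ribmp_red_poly_Jq hB hq) i,
    ribmp_red_indep hB ιC hq hqM⟩

/-- **K-RES**: the residue field of `V_∞` (level `M q`) is the residue field of the Gauss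
valuation ring `W` of level `M`. -/
theorem ribmp_red_res (x : modularFunctionFieldFullC E (M * q))
    (hx : x ∈ vtFam hB ιC hq hqM true) :
    ∃ c ∈ vtInf hB M, x - ribmpRedIncl E M q c ∈ (vtFam hB ιC hq hqM true).nonunits := by
  have hrel : (modularFunctionFieldFullC E M).relfinrank (modularFunctionFieldFullC E (M * q)) =
      q + 1 := hdeg_relfinrank_fullC E M q hq hqM
  have hfin : letI := (ribmpRedIncl E M q).toAlgebra
      Module.Finite (modularFunctionFieldFullC E M) (modularFunctionFieldFullC E (M * q)) :=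
    hdeg_finite_inclusion (nodesDeg_le E M q) (by rw [hrel]; exact Nat.succ_ne_zero q)
  have hsep : letI := (ribmpRedIncl E M q).toAlgebra
      Algebra.IsSeparable (modularFunctionFieldFullC E M)
        (modularFunctionFieldFullC E (M * q)) := by
    letI := (ribmpRedIncl E M q).toAlgebra
    haveI : Module.Finite (modularFunctionFieldFullC E M)
      (modularFunctionFieldFullC E (M * q)) := hfin
    haveI : CharZero (modularFunctionFieldFullC E M) :=
      charZero_of_injective_ringHom (algebraMap E (modularFunctionFieldFullC E M)).injective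
    infer_instance
  have hdeg : letI := (ribmpRedIncl E M q).toAlgebra
      Module.finrank (modularFunctionFieldFullC E M) (modularFunctionFieldFullC E (M * q)) =
        q + 1 := (hdeg_finrank_inclusion (nodesDeg_le E M q)).trans hrel
  have hW : IsDiscreteValuationRing ↥(vtInf hB M) :=
    s36n2e_vtSub_isDVR hB (vtEmb E M) (fun x => vt_frac_fullC hB M x.2)
      (c := mgaConst E M (algebraMap A E π)) (algebraMap_laurentSeries_eq_single E _)
  exact ribmp_red_two_hom (ribmpRedIncl E M q) hfin hsep hq.pos hdeg (vtInf hB M) hW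
    (ribmp_red_twoHom hB ιC hq hqM) x hx

/-- **K-RES**, reduction form: the reduction of an element of `V_∞` is the reduction of an
element of the Gauss valuation ring of level `M`. -/
theorem ribmp_red_res_red (x : ↥(vtFam hB ιC hq hqM true)) :
    ∃ c : ↥(vtInf hB M), ribmpRedV hB ιC hq hqM true x = ribmpRedW hB M c := by
  obtain ⟨c, hc, hxc⟩ := ribmp_red_res hB ιC hq hqM x.1 x.2
  have hc' : ribmpRedIncl E M q c ∈ vtFam hB ιC hq hqM true :=
    s36n2x_le_of_comap (ribmp_red_comap_true hB ιC hq hqM) _ hc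
  refine ⟨⟨c, hc⟩, ?_⟩
  have h0 : ribmpRedV hB ιC hq hqM true (x - ⟨ribmpRedIncl E M q c, hc'⟩) = 0 := by
    rw [ribmpRedV_eq_zero_iff]
    exact hxc
  rw [map_sub, sub_eq_zero] at h0
  exact h0.trans (ribmpRedV_true_incl hB ιC hq hqM c hc hc')

end Mod

end Fermat.Agent.RIB.MP

end
end ZBUNIP_014_10

/-! ### bundled: `Fermat.Agent.S33.WildDeepAux` -/
section ZBUNIP_014_11

/-!
# S33 v2, C4 / T5: small inputs of `wab_main_two` for the vertical valuations `mgvV`

* `wdb_vtSub_hunif`, `wdb_mgv_hunif` : `hunif` — every element of `𝔪(V c)` is `π · y`, `y ∈ V c`;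
* `wdb_not_le_of_sep` (generic), `wdb_mgv_h12`, `wdb_mgv_h21` : `¬ V_∞ ≤ V_0`, `¬ V_0 ≤ V_∞`.
-/

set_option autoImplicit false
set_option linter.unusedSectionVars false
set_option linter.unusedVariables false
set_option linter.style.haveILetI false

noncomputable section

namespace Fermat.Agent.S33

open ModularCurve Fermat.Agent.INJ Fermat.Agent.ES Fermat.Agent.ES.G2 Fermat.Agent.UNIP

section Gen

variable {A₀ E k : Type*} [CommRing A₀] [Field E] [Field k]
  {ι : A₀ →+* E} {r : A₀ →+* k} {π : A₀} {F : Type*} [Field F]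
  (hB : VtBase ι r π) (e : F →+* LaurentSeries E) (hfrac : ∀ x : F, VtFrac ι (e x))

/-- **`hunif`** for a vertical valuation: the maximal ideal is generated by the constant `π`. -/
theorem wdb_vtSub_hunif {c : F} (hc : e c = HahnSeries.C (ι π)) {x : F}
    (hx : x ∈ (vtSub hB e hfrac).nonunits) :
    ∃ y ∈ vtSub hB e hfrac, x = c * y := by
  obtain ⟨hmem, hred⟩ := (vtSub_mem_nonunits_iff hB e hfrac).mp hx
  obtain ⟨y, hy⟩ := (gaussRed_eq_zero_iff_dvd r hB.inj hB.rπ hB.ker ⟨e x, hmem⟩).mp hred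
  have hy' : e x = HahnSeries.C (ι π) * (y : LaurentSeries E) := hy
  have hc0 : c ≠ 0 := by
    rintro rfl
    rw [map_zero] at hc
    exact hB.Cιπ_ne hc.symm
  refine ⟨x / c, ?_, by field_simp⟩
  rw [mem_vtSub, map_div₀, hy', hc, mul_div_cancel_left₀ _ hB.Cιπ_ne]
  exact y.2

/-- a separating element: `s ∈ V₁` a unit of `V₁`, `s ∈ 𝔪(V₂)`  ⇒  `¬ V₁ ≤ V₂` -/
theorem wdb_not_le_of_sep (V₁ V₂ : ValuationSubring F) {s : F} (hs1 : s ∈ V₁)
    (hs1' : s ∉ V₁.nonunits) (hs2 : s ∈ V₂.nonunits) : ¬ V₁ ≤ V₂ := by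
  intro hle
  have hv1 : V₁.valuation s = 1 := by
    refine le_antisymm ((V₁.valuation_le_one_iff s).2 hs1) ?_
    rw [ValuationSubring.mem_nonunits_iff, not_lt] at hs1'
    exact hs1'
  have hs0 : s ≠ 0 := by
    rintro rfl
    rw [map_zero] at hv1
    exact zero_ne_one hv1
  have hinv : s⁻¹ ∈ V₁ := by
    rw [← V₁.valuation_le_one_iff, map_inv₀, hv1, inv_one]
  have hinv2 : s⁻¹ ∈ V₂ := hle hinv
  have h1 : V₂.valuation s⁻¹ ≤ 1 := (V₂.valuation_le_one_iff _).2 hinv2
  have h2 : V₂.valuation s < 1 := (ValuationSubring.mem_nonunits_iff V₂).1 hs2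
  have h3 : V₂.valuation s * V₂.valuation s⁻¹ = 1 := by
    rw [← map_mul, mul_inv_cancel₀ hs0, map_one]
  have h4 : V₂.valuation s * V₂.valuation s⁻¹ < 1 :=
    mul_lt_one_of_nonneg_of_lt_one_left zero_le h2 h1
  rw [h3] at h4
  exact lt_irrefl _ h4

end Gen

section Mgv

variable {A : ValuationSubring Qb} {K₀ : IntermediateField ℚ Qb}
  [IsDiscreteValuationRing ↥(beta0Ring A K₀)] {π : ↥(beta0Ring A K₀)} (hπ : Irreducible π)
  (ιC : ↥K₀ →+* ℂ) {q M : ℕ} [NeZero q] [NeZero M] [NeZero (M * q)]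
  (hq : q.Prime) (hqM : ¬ q ∣ M)

/-- **`hunif`** of `wab_main_two` for `mgvV` -/
theorem wdb_mgv_hunif (c : Bool) (x : ↥(modularFunctionFieldFullC ↥K₀ (M * q)))
    (hx : x ∈ (mgvV hπ ιC hq hqM c).nonunits) :
    ∃ y ∈ mgvV hπ ιC hq hqM c,
      x = algebraMap ↥(beta0Ring A K₀) ↥(modularFunctionFieldFullC ↥K₀ (M * q)) π * y :=
  wdb_vtSub_hunif (vtBase_residue hπ) (vtEmbFam ιC hq hqM c)
    (vt_frac_fam (vtBase_residue hπ) ιC hq hqM c)
    (vtEmbFam_const ιC hq hqM c (algebraMap ↥(beta0Ring A K₀) ↥K₀ π)) hx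

/-- `¬ V_∞ ≤ V_0` -/
theorem wdb_mgv_h12 (hA : A.LiesOverPrime q) :
    ¬ mgvV hπ ιC hq hqM true ≤ mgvV hπ ιC hq hqM false := by
  obtain ⟨h1, h2⟩ := mgvl_hsep' hπ ιC hq hqM hA
  refine wdb_not_le_of_sep _ _ ?_ h2 h1
  have e : nodesFrobJ ↥K₀ M q = bgJ ↥K₀ (M * q) := rfl
  have hint := mgvl_isIntegral_wC (A := ↥(beta0Ring A K₀)) (E := ↥K₀) (M := M) ιC hq hqM
  rw [e] at hint
  exact mgv_hBV₁ hπ ιC hq hqM true _ hint

/-- `¬ V_0 ≤ V_∞` -/
theorem wdb_mgv_h21 (hA : A.LiesOverPrime q) :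
    ¬ mgvV hπ ιC hq hqM false ≤ mgvV hπ ιC hq hqM true := by
  obtain ⟨h1, h2⟩ := mgvl_hsep hπ ιC hq hqM hA
  refine wdb_not_le_of_sep _ _ ?_ h2 h1
  have e : nodesFrobJ ↥K₀ M q = bgJ ↥K₀ (M * q) := rfl
  have hint := mgvl_isIntegral_C (A := ↥(beta0Ring A K₀)) (E := ↥K₀) (M := M) (q := q) hq
  rw [e] at hint
  exact mgv_hBV₁ hπ ιC hq hqM false _ hint

end Mgv

end Fermat.Agent.S33

end
end ZBUNIP_014_11
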