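/- GENERATED FILE (helper35, build-time optimisation, NOTES/ZB.md): verbatim concatenation of the modules
   Fermat.Agent.S53.Defs
   Fermat.Agent.S53.URing
   Fermat.Agent.S53.Matrix
   Fermat.Agent.S53.Tangent
   Fermat.Agent.TW.PowerSurj
   Fermat.Agent.S53.Rigid
   Fermat.Agent.S53.TestAlg
   Fermat.Agent.S53.TangentGlue
   Do not edit; do not import together with these modules. -/
import Fermat.Statements.S53
import Fermat.Agent.ZB.UNIP_028
import Mathlib
import Fermat.Agent.ZB.S53_003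

/-! ### bundled: `Fermat.Agent.S53.Defs` -/
section ZBS53_002_0
/-
S53 (universal deformation ring exists): SHARED DEFINITIONS.
Everything lives in namespace `Fermat.Agent.S53`.  Keep this file small and stable:
other S53 files import it.  (Owner: helper53.)
-/

set_option autoImplicit false

namespace Fermat.Agent.S53

open IsLocalRing

/-- The absolute Galois group of `ℚ` (as used by the prelude). -/
abbrev Gal : Type := AlgebraicClosure ℚ ≃ₐ[ℚ] AlgebraicClosure ℚ

/-- `2 × 2` matrices. -/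
abbrev M2 (A : Type) : Type := Matrix (Fin 2) (Fin 2) A

section Cont

variable (A : Type) [CommRing A] [IsLocalRing A]

/-- Adic continuity of a matrix representation: for every `n` the representation is
trivial modulo `𝔪 ^ n` on an open subgroup. -/
def MatCont (r : Gal →* M2 A) : Prop :=
  ∀ n : ℕ, ∃ L : IntermediateField ℚ (AlgebraicClosure ℚ), FiniteDimensional ℚ L ∧
    ∀ σ : Gal, (∀ x ∈ L, σ x = x) → ∀ i j, (r σ - 1) i j ∈ maximalIdeal A ^ n

variable {A}

/-- The `GaloisRepAdic` attached to a continuous matrix representation, on `V = Fin 2 → A`. -/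
noncomputable abbrev ofMatrix (r : Gal →* M2 A) (hr : MatCont A r) : GaloisRepAdic A where
  V := Fin 2 → A
  finrank_eq := by simp
  ρ := (Matrix.toLinAlgEquiv' (R := A) (n := Fin 2) : M2 A →* Module.End A (Fin 2 → A)).comp r
  isAdicContinuous := by
    intro n
    obtain ⟨L, hL, h⟩ := hr n
    refine ⟨L, hL, fun σ hσ v => ?_⟩
    have hv : (Matrix.toLinAlgEquiv' (R := A) (n := Fin 2) (r σ)) v - v
        = ∑ j, ∑ i, ((r σ - 1) i j * v j) • (Pi.single i (1 : A) : Fin 2 → A) := by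
      ext l
      simp [Matrix.toLinAlgEquiv'_apply, Fin.sum_univ_two,
        Matrix.sub_apply, Pi.single_apply, Matrix.one_apply]
      fin_cases l <;> simp <;> ring
    show (Matrix.toLinAlgEquiv' (R := A) (n := Fin 2) (r σ)) v - v ∈ _
    rw [hv]
    refine Submodule.sum_mem _ fun j _ => Submodule.sum_mem _ fun i _ => ?_
    exact Submodule.smul_mem_smul (Ideal.mul_mem_right _ _ (h σ hσ i j)) Submodule.mem_top

@[simp] lemma ofMatrix_V (r : Gal →* M2 A) (hr : MatCont A r) : (ofMatrix r hr).V = (Fin 2 → A) := rfl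

lemma ofMatrix_ρ_apply (r : Gal →* M2 A) (hr : MatCont A r) (σ : Gal) (v : Fin 2 → A) :
    (ofMatrix r hr).ρ σ v = (r σ).mulVec v := rfl

end Cont

section Lift

variable (𝒪 : Type) [CommRing 𝒪] [IsLocalRing 𝒪]
variable (A : Type) [CommRing A] [IsLocalRing A] [Algebra 𝒪 A]

/-- `A` is a local `𝒪`-algebra with the same residue field (the part of
`IsArtinianTestAlgebra` that does not mention artinianity). -/
structure IsResAlg : Prop where
  isLocalHom : IsLocalHom (algebraMap 𝒪 A)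
  residue_surjective : Function.Surjective (IsLocalRing.residue A ∘ algebraMap 𝒪 A)

variable {𝒪}

/-- `r` reduces to `ρm` modulo the maximal ideal (entrywise, through `𝒪`). -/
def Framed (ρm : Gal →* M2 (ResidueField 𝒪)) (r : Gal →* M2 A) : Prop :=
  ∀ σ i j, ∀ x : 𝒪, IsLocalRing.residue 𝒪 x = ρm σ i j →
    r σ i j - algebraMap 𝒪 A x ∈ maximalIdeal A

variable {A}

/-- Evaluate a representation on a formal `𝒪`-linear combination of group elements. -/
noncomputable def evalAt (r : Gal →* M2 A) (e : Gal →₀ 𝒪) : M2 A :=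
  e.sum fun σ c => algebraMap 𝒪 A c • r σ

/-- The rigidity normalisation (helper76's normal form): `r(e)₂₁ = 0`, `r(u)₁₁ = 0`, `r(u)₂₁ = 1`
(indices in `Fin 2 = {0,1}`: entry `₂₁` is `1 0`). -/
def Rigid (e u : Gal →₀ 𝒪) (r : Gal →* M2 A) : Prop :=
  evalAt r e 1 0 = 0 ∧ evalAt r u 0 0 = 0 ∧ evalAt r u 1 0 = 1

variable (A)

/-- A framed continuous lift of `ρm` to `A` satisfying the deformation condition `𝒟`. -/
def IsDLift (𝒟 : ∀ ⦃A : Type⦄ [CommRing A] [IsLocalRing A] [Algebra 𝒪 A], GaloisRepAdic A → Prop)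
    (ρm : Gal →* M2 (ResidueField 𝒪)) (r : Gal →* M2 A) : Prop :=
  Framed A ρm r ∧ ∃ hc : MatCont A r, 𝒟 (ofMatrix r hc)

end Lift

/-- Conjugacy of matrix representations by an invertible matrix. -/
def Conj {A : Type} [CommRing A] (r r' : Gal →* M2 A) : Prop :=
  ∃ g : M2 A, IsUnit g ∧ ∀ σ, g * r σ = r' σ * g

/-- The residual datum: `ρbar` written as a matrix representation in a basis, together with the
two rigidifying elements `e`, `u` of the group algebra with `ρm(e) = E₁₁`, `ρm(u) = E₂₁`. -/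
structure RigidDatum (𝒪 : Type) [CommRing 𝒪] [IsLocalRing 𝒪]
    (ρbar : ResidualGaloisRep (ResidueField 𝒪)) where
  /-- a basis of the residual representation space -/
  b : Module.Basis (Fin 2) (ResidueField 𝒪) ρbar.V
  /-- the matrix form of `ρbar` -/
  ρm : Gal →* M2 (ResidueField 𝒪)
  ρm_eq : ∀ σ, ρm σ = LinearMap.toMatrix b b (ρbar.ρ σ)
  e : Gal →₀ 𝒪
  u : Gal →₀ 𝒪
  /-- `ρm(e) = E₁₁` -/
  he : evalAt ρm e = Matrix.single 0 0 1
  /-- `ρm(u) = E₂₁` -/
  hu : evalAt ρm u = Matrix.single 1 0 1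

end Fermat.Agent.S53


end ZBS53_002_0

/-! ### bundled: `Fermat.Agent.S53.URing` -/
section ZBS53_002_1
/-
S53, part D0: the universal ring `URing 𝒪` of `2 × 2` matrix representations of `Gal` over `𝒪`
(polynomial ring on the matrix entries modulo the multiplicativity relations), its tautological
representation `taut`, and the classifying map `ulift r : URing 𝒪 →ₐ[𝒪] A` of a representation
`r : Gal →* M2 A`.  (Owner: helper27.)
-/

set_option autoImplicit false

noncomputable section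

namespace Fermat.Agent.S53

open IsLocalRing

/-- Push a matrix representation forward along a ring homomorphism. -/
def mapRep {A B : Type} [CommRing A] [CommRing B] (f : A →+* B) (r : Gal →* M2 A) :
    Gal →* M2 B :=
  (f.mapMatrix (m := Fin 2) : M2 A →* M2 B).comp r

@[simp] lemma mapRep_apply {A B : Type} [CommRing A] [CommRing B] (f : A →+* B)
    (r : Gal →* M2 A) (σ : Gal) (i j : Fin 2) : mapRep f r σ i j = f (r σ i j) := rfl

lemma mapRep_apply' {A B : Type} [CommRing A] [CommRing B] (f : A →+* B)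
    (r : Gal →* M2 A) (σ : Gal) : mapRep f r σ = (r σ).map f := rfl

lemma mapRep_comp {A B C : Type} [CommRing A] [CommRing B] [CommRing C] (f : A →+* B)
    (g : B →+* C) (r : Gal →* M2 A) : mapRep (g.comp f) r = mapRep g (mapRep f r) := by
  ext σ i j; rfl

lemma mapRep_id {A : Type} [CommRing A] (r : Gal →* M2 A) : mapRep (RingHom.id A) r = r := by
  ext σ i j; rfl

section

variable (𝒪 : Type) [CommRing 𝒪]

/-- The polynomial ring on the matrix entries `X (σ, i, j)`. -/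
abbrev PolyRing : Type := MvPolynomial (Gal × Fin 2 × Fin 2) 𝒪

/-- The generic matrix attached to `σ`. -/
def genMat (σ : Gal) : M2 (PolyRing 𝒪) :=
  Matrix.of fun i j => MvPolynomial.X (σ, i, j)

/-- The multiplicativity relations. -/
def relSet : Set (PolyRing 𝒪) :=
  {p | ∃ σ τ i j, p = (genMat 𝒪 (σ * τ) - genMat 𝒪 σ * genMat 𝒪 τ) i j} ∪
    {p | ∃ i j, p = (genMat 𝒪 1 - 1) i j}

/-- The ideal of multiplicativity relations. -/
def relIdeal : Ideal (PolyRing 𝒪) := Ideal.span (relSet 𝒪)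

/-- The universal ring of `2 × 2` matrix representations of `Gal` over `𝒪`. -/
abbrev URing : Type := PolyRing 𝒪 ⧸ relIdeal 𝒪

/-- The tautological representation over `URing 𝒪`. -/
def taut : Gal →* M2 (URing 𝒪) where
  toFun σ := (genMat 𝒪 σ).map (Ideal.Quotient.mk (relIdeal 𝒪))
  map_one' := by
    ext i j
    have h : (genMat 𝒪 1 - 1) i j ∈ relIdeal 𝒪 :=
      Ideal.subset_span (Or.inr ⟨i, j, rfl⟩)
    have h2 := Ideal.Quotient.eq_zero_iff_mem.mpr h
    rw [Matrix.sub_apply, map_sub, sub_eq_zero] at h2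
    rw [Matrix.map_apply, h2, Matrix.one_apply, Matrix.one_apply]
    split_ifs <;> simp
  map_mul' σ τ := by
    ext i j
    have h : (genMat 𝒪 (σ * τ) - genMat 𝒪 σ * genMat 𝒪 τ) i j ∈ relIdeal 𝒪 :=
      Ideal.subset_span (Or.inl ⟨σ, τ, i, j, rfl⟩)
    have h2 := Ideal.Quotient.eq_zero_iff_mem.mpr h
    rw [Matrix.sub_apply, map_sub, sub_eq_zero] at h2
    rw [Matrix.map_apply, h2, ← Matrix.map_mul, Matrix.map_apply]

lemma taut_apply (σ : Gal) (i j : Fin 2) :
    taut 𝒪 σ i j = Ideal.Quotient.mk (relIdeal 𝒪) (MvPolynomial.X (σ, i, j)) := rfl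

variable {𝒪}
variable {A : Type} [CommRing A] [Algebra 𝒪 A]

/-- Evaluation of polynomials at the entries of a representation. -/
def polyEval (r : Gal →* M2 A) : PolyRing 𝒪 →ₐ[𝒪] A :=
  MvPolynomial.aeval fun x : Gal × Fin 2 × Fin 2 => r x.1 x.2.1 x.2.2

lemma polyEval_X (r : Gal →* M2 A) (σ : Gal) (i j : Fin 2) :
    polyEval (𝒪 := 𝒪) r (MvPolynomial.X (σ, i, j)) = r σ i j := by
  simp [polyEval]

lemma polyEval_genMat (r : Gal →* M2 A) (σ : Gal) :
    (genMat 𝒪 σ).map (polyEval (𝒪 := 𝒪) r) = r σ := by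
  ext i j
  simp [genMat, polyEval_X]

lemma relIdeal_le_ker (r : Gal →* M2 A) :
    relIdeal 𝒪 ≤ RingHom.ker (polyEval (𝒪 := 𝒪) r : PolyRing 𝒪 →+* A) := by
  rw [relIdeal, Ideal.span_le]
  rintro p (⟨σ, τ, i, j, rfl⟩ | ⟨i, j, rfl⟩)
  · rw [SetLike.mem_coe, RingHom.mem_ker]
    have h1 : ((genMat 𝒪 (σ * τ) - genMat 𝒪 σ * genMat 𝒪 τ).map (polyEval (𝒪 := 𝒪) r)) i j = 0 := by
      rw [Matrix.map_sub (f := polyEval (𝒪 := 𝒪) r) (map_sub _),
        Matrix.map_mul, polyEval_genMat, polyEval_genMat, polyEval_genMat, map_mul, sub_self]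
      rfl
    exact h1
  · rw [SetLike.mem_coe, RingHom.mem_ker]
    have h1 : ((genMat 𝒪 1 - 1).map (polyEval (𝒪 := 𝒪) r)) i j = 0 := by
      rw [Matrix.map_sub (f := polyEval (𝒪 := 𝒪) r) (map_sub _), polyEval_genMat, map_one,
        Matrix.map_one _ (map_zero _) (map_one _), sub_self]
      rfl
    exact h1

/-- The classifying map of a representation `r : Gal →* M2 A`. -/
def ulift (r : Gal →* M2 A) : URing 𝒪 →ₐ[𝒪] A :=
  Ideal.Quotient.liftₐ (relIdeal 𝒪) (polyEval r)
    (fun _ ha => RingHom.mem_ker.mp (relIdeal_le_ker r ha))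

@[simp] lemma ulift_taut (r : Gal →* M2 A) (σ : Gal) (i j : Fin 2) :
    ulift (𝒪 := 𝒪) r (taut 𝒪 σ i j) = r σ i j := by
  rw [taut_apply]
  exact (Ideal.Quotient.liftₐ_apply _ _ _ _).trans
    ((Ideal.Quotient.lift_mk _ _ _).trans (polyEval_X r σ i j))

lemma mapRep_ulift (r : Gal →* M2 A) :
    mapRep (ulift (𝒪 := 𝒪) r : URing 𝒪 →+* A) (taut 𝒪) = r := by
  ext σ i j
  simp

/-- Two `𝒪`-algebra maps out of `URing 𝒪` agreeing on the entries of `taut` are equal. -/
lemma uring_algHom_ext {f g : URing 𝒪 →ₐ[𝒪] A}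
    (h : ∀ σ i j, f (taut 𝒪 σ i j) = g (taut 𝒪 σ i j)) : f = g := by
  apply Ideal.Quotient.algHom_ext
  apply MvPolynomial.algHom_ext
  rintro ⟨σ, i, j⟩
  exact h σ i j

lemma ulift_unique (r : Gal →* M2 A) (f : URing 𝒪 →ₐ[𝒪] A)
    (h : mapRep (f : URing 𝒪 →+* A) (taut 𝒪) = r) : f = ulift r := by
  apply uring_algHom_ext
  intro σ i j
  rw [ulift_taut, ← h]
  rfl

/-- The entries of `taut` generate `URing 𝒪` as an `𝒪`-algebra. -/
lemma adjoin_taut_eq_top :
    Algebra.adjoin 𝒪 {x : URing 𝒪 | ∃ σ i j, x = taut 𝒪 σ i j} = ⊤ := by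
  rw [eq_top_iff]
  rintro x -
  obtain ⟨p, rfl⟩ := Ideal.Quotient.mk_surjective x
  induction p using MvPolynomial.induction_on with
  | C a =>
    have : (Ideal.Quotient.mk (relIdeal 𝒪)) (MvPolynomial.C a) = algebraMap 𝒪 (URing 𝒪) a := rfl
    rw [this]
    exact Subalgebra.algebraMap_mem _ a
  | add p q hp hq =>
    rw [map_add]
    exact Subalgebra.add_mem _ hp hq
  | mul_X p x hp =>
    rw [map_mul]
    exact Subalgebra.mul_mem _ hp (Algebra.subset_adjoin ⟨x.1, x.2.1, x.2.2, rfl⟩)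

end

end Fermat.Agent.S53

end


end ZBS53_002_1

/-! ### bundled: `Fermat.Agent.S53.Matrix` -/
section ZBS53_002_2
/-
S53 part A: matrix interface between `Gal →* M2 A` and `GaloisRepAdic A`.
-/

set_option autoImplicit false

namespace Fermat.Agent.S53

open IsLocalRing TensorProduct

section MapCont

variable {A B : Type} [CommRing A] [IsLocalRing A] [CommRing B] [IsLocalRing B]

lemma map_maximalIdeal_pow_le (φ : A →+* B) (hφ : IsLocalHom φ) (n : ℕ) {a : A}
    (ha : a ∈ maximalIdeal A ^ n) : φ a ∈ maximalIdeal B ^ n := by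
  have hmap : (maximalIdeal A ^ n).map φ ≤ maximalIdeal B ^ n := by
    rw [Ideal.map_pow]
    exact Ideal.pow_right_mono (Ideal.map_le_iff_le_comap.mpr fun a ha =>
      Ideal.mem_comap.mpr (haveI := hφ; map_nonunit φ a ha)) n
  exact hmap (Ideal.mem_map_of_mem φ ha)

lemma MatCont.map {r : Gal →* M2 A} (hr : MatCont A r) (φ : A →+* B) (hφ : IsLocalHom φ) :
    MatCont B (mapRep φ r) := by
  intro n
  obtain ⟨L, hL, h⟩ := hr n
  refine ⟨L, hL, fun σ hσ i j => ?_⟩
  have := map_maximalIdeal_pow_le φ hφ n (h σ hσ i j)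
  have h2 : (mapRep φ r σ - 1) i j = φ ((r σ - 1) i j) := by
    simp only [Matrix.sub_apply, mapRep_apply, map_sub, Matrix.one_apply]
    split_ifs <;> simp
  rw [h2]; exact this

end MapCont

section BaseChange

variable {A B : Type} [CommRing A] [IsLocalRing A] [CommRing B] [IsLocalRing B]

/-- auxiliary computation for (A1) -/
lemma piScalarRight_baseChange_mulVec (φ : A →+* B) (M : M2 A) :
    letI : Algebra A B := φ.toAlgebra
    ∀ x : B ⊗[A] (Fin 2 → A),
      TensorProduct.piScalarRight A B B (Fin 2)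
        ((Matrix.toLinAlgEquiv' (R := A) (n := Fin 2) M).baseChange B x) =
      (M.map φ).mulVec (TensorProduct.piScalarRight A B B (Fin 2) x) := by
  letI : Algebra A B := φ.toAlgebra
  intro x
  induction x using TensorProduct.induction_on with
  | zero => simp only [map_zero, Matrix.mulVec_zero]
  | tmul b v =>
    rw [LinearMap.baseChange_tmul, TensorProduct.piScalarRight_apply,
      TensorProduct.piScalarRightHom_tmul, TensorProduct.piScalarRight_apply,
      TensorProduct.piScalarRightHom_tmul]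
    ext i
    have e : ∀ a : A, algebraMap A B a = φ a := fun a => rfl
    simp only [Matrix.toLinAlgEquiv'_apply, Matrix.mulVec, dotProduct, Fin.sum_univ_two,
      Matrix.map_apply, Algebra.smul_def, e, map_add, map_mul]
    ring
  | add x y hx hy => simp only [map_add, hx, hy, Matrix.mulVec_add]

/-- (A1) Base change of `ofMatrix r` is `ofMatrix (φ ∘ r)`. -/
noncomputable def ofMatrixBaseChangeEquiv (φ : A →+* B) (hφ : IsLocalHom φ) (r : Gal →* M2 A)
    (hr : MatCont A r) :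
    GaloisRepAdic.Equiv ((ofMatrix r hr).baseChangeAlong φ hφ) (ofMatrix (mapRep φ r) (hr.map φ hφ)) :=
  letI : Algebra A B := φ.toAlgebra
  { toLinearEquiv := (TensorProduct.piScalarRight A B B (Fin 2) : B ⊗[A] (Fin 2 → A) ≃ₗ[B] (Fin 2 → B))
    map_apply := fun σ x => piScalarRight_baseChange_mulVec φ (r σ) x }

lemma ofMatrix_baseChangeAlong_isEquiv (φ : A →+* B) (hφ : IsLocalHom φ) (r : Gal →* M2 A)
    (hr : MatCont A r) (hr' : MatCont B (mapRep φ r)) :
    ((ofMatrix r hr).baseChangeAlong φ hφ).IsEquiv (ofMatrix (mapRep φ r) hr') :=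
  ⟨ofMatrixBaseChangeEquiv φ hφ r hr⟩

end BaseChange

section Basis

variable {A : Type} [CommRing A] [IsLocalRing A]

lemma coord_mem_of_mem_smul_top {V : Type} [AddCommGroup V] [Module A V]
    (b : Module.Basis (Fin 2) A V) (I : Ideal A) {x : V} (hx : x ∈ I • (⊤ : Submodule A V))
    (i : Fin 2) : b.repr x i ∈ I := by
  refine Submodule.smul_induction_on (p := fun x => b.repr x i ∈ I) hx ?_ ?_
  · intro a ha w _
    simp only [map_smul, Finsupp.smul_apply, smul_eq_mul]
    exact Ideal.mul_mem_right _ _ ha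
  · intro x y hx hy
    simp only [map_add, Finsupp.add_apply]
    exact Ideal.add_mem _ hx hy

/-- The matrix representation of `ρ` in a basis. -/
noncomputable def matOfBasis (ρ : GaloisRepAdic A) (b : Module.Basis (Fin 2) A ρ.V) : Gal →* M2 A :=
  ((LinearMap.toMatrixAlgEquiv b : Module.End A ρ.V ≃ₐ[A] M2 A) : Module.End A ρ.V →* M2 A).comp ρ.ρ

lemma matOfBasis_apply (ρ : GaloisRepAdic A) (b : Module.Basis (Fin 2) A ρ.V) (σ : Gal) :
    matOfBasis ρ b σ = LinearMap.toMatrix b b (ρ.ρ σ) := rfl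

lemma matOfBasis_cont (ρ : GaloisRepAdic A) (b : Module.Basis (Fin 2) A ρ.V) :
    MatCont A (matOfBasis ρ b) := by
  intro n
  obtain ⟨L, hL, h⟩ := ρ.isAdicContinuous n
  refine ⟨L, hL, fun σ hσ i j => ?_⟩
  have := coord_mem_of_mem_smul_top b _ (h σ hσ (b j)) i
  have h2 : (matOfBasis ρ b σ - 1) i j = b.repr (ρ.ρ σ (b j) - b j) i := by
    simp only [Matrix.sub_apply, matOfBasis_apply, LinearMap.toMatrix_apply, map_sub,
      Finsupp.sub_apply, Matrix.one_apply, Module.Basis.repr_self, Finsupp.single_apply]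
    congr 1
    by_cases hij : i = j
    · simp [hij]
    · simp [hij, Ne.symm hij]
  rw [h2]; exact this

/-- (A2) `ρ` is equivalent to its matrix form in any basis. -/
noncomputable def equivOfBasis (ρ : GaloisRepAdic A) (b : Module.Basis (Fin 2) A ρ.V) :
    GaloisRepAdic.Equiv ρ (ofMatrix (matOfBasis ρ b) (matOfBasis_cont ρ b)) where
  toLinearEquiv := b.equivFun
  map_apply := fun σ x => by
    rw [ofMatrix_ρ_apply, matOfBasis_apply]
    exact (LinearMap.toMatrix_mulVec_repr b b (ρ.ρ σ) x).symm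

/-- some basis of the underlying module -/
noncomputable def someBasis (ρ : GaloisRepAdic A) : Module.Basis (Fin 2) A ρ.V :=
  Module.finBasisOfFinrankEq A ρ.V ρ.finrank_eq

lemma exists_ofMatrix_isEquiv (ρ : GaloisRepAdic A) :
    ∃ (r : Gal →* M2 A) (hr : MatCont A r), ρ.IsEquiv (ofMatrix r hr) :=
  ⟨_, _, ⟨equivOfBasis ρ (someBasis ρ)⟩⟩

end Basis

section ConjSec

variable {A : Type} [CommRing A] [IsLocalRing A]

/-- (A3), one direction. -/
lemma conj_of_isEquiv {r r' : Gal →* M2 A} {hr : MatCont A r} {hr' : MatCont A r'}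
    (h : (ofMatrix r hr).IsEquiv (ofMatrix r' hr')) : Conj r r' := by
  obtain ⟨e⟩ := h
  let E : (Fin 2 → A) ≃ₗ[A] (Fin 2 → A) := e.toLinearEquiv
  refine ⟨LinearMap.toMatrix' (E : (Fin 2 → A) →ₗ[A] (Fin 2 → A)), ?_, fun σ => ?_⟩
  · refine ⟨⟨LinearMap.toMatrix' (E : (Fin 2 → A) →ₗ[A] (Fin 2 → A)),
      LinearMap.toMatrix' (E.symm : (Fin 2 → A) →ₗ[A] (Fin 2 → A)), ?_, ?_⟩, rfl⟩
    · rw [← LinearMap.toMatrix'_comp]; simp
    · rw [← LinearMap.toMatrix'_comp]; simp
  · have h1 : ∀ x : Fin 2 → A, E ((r σ).mulVec x) = (r' σ).mulVec (E x) := fun x => e.map_apply σ x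
    apply Matrix.toLin'.injective
    apply LinearMap.ext
    intro x
    simp only [Matrix.toLin'_mul, Matrix.toLin'_toMatrix', LinearMap.comp_apply, Matrix.toLin'_apply]
    exact h1 x

/-- (A3), other direction. -/
lemma isEquiv_of_conj {r r' : Gal →* M2 A} (hr : MatCont A r) (hr' : MatCont A r')
    (h : Conj r r') : (ofMatrix r hr).IsEquiv (ofMatrix r' hr') := by
  obtain ⟨g, ⟨u, rfl⟩, hg⟩ := h
  refine ⟨{ toLinearEquiv := LinearEquiv.ofLinear (Matrix.toLin' (u : M2 A))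
              (Matrix.toLin' ((u⁻¹ : (M2 A)ˣ) : M2 A)) ?_ ?_, map_apply := ?_ }⟩
  · rw [← Matrix.toLin'_mul]; simp
  · rw [← Matrix.toLin'_mul]; simp
  · intro σ x
    show (u : M2 A).mulVec ((r σ).mulVec x) = (r' σ).mulVec ((u : M2 A).mulVec x)
    rw [Matrix.mulVec_mulVec, Matrix.mulVec_mulVec, hg σ]

lemma Conj.refl {A : Type} [CommRing A] (r : Gal →* M2 A) : Conj r r :=
  ⟨1, isUnit_one, fun σ => by simp⟩

lemma Conj.symm {A : Type} [CommRing A] {r r' : Gal →* M2 A} (h : Conj r r') : Conj r' r := by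
  obtain ⟨g, ⟨u, rfl⟩, hg⟩ := h
  refine ⟨((u⁻¹ : (M2 A)ˣ) : M2 A), ⟨u⁻¹, rfl⟩, fun σ => ?_⟩
  have := hg σ
  calc ((u⁻¹ : (M2 A)ˣ) : M2 A) * r' σ
      = ((u⁻¹ : (M2 A)ˣ) : M2 A) * (r' σ * (u : M2 A)) * ((u⁻¹ : (M2 A)ˣ) : M2 A) := by
        rw [mul_assoc, mul_assoc, Units.mul_inv, mul_one]
    _ = r σ * ((u⁻¹ : (M2 A)ˣ) : M2 A) := by
        rw [← this, ← mul_assoc, Units.inv_mul, one_mul]

lemma Conj.trans {A : Type} [CommRing A] {r r' r'' : Gal →* M2 A} (h : Conj r r')
    (h' : Conj r' r'') : Conj r r'' := by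
  obtain ⟨g, hgu, hg⟩ := h
  obtain ⟨g', hgu', hg'⟩ := h'
  refine ⟨g' * g, hgu'.mul hgu, fun σ => ?_⟩
  rw [mul_assoc, hg σ, ← mul_assoc, hg' σ, mul_assoc]

lemma Conj.map {A B : Type} [CommRing A] [IsLocalRing A] [CommRing B] [IsLocalRing B]
    {r r' : Gal →* M2 A} (h : Conj r r') (φ : A →+* B) : Conj (mapRep φ r) (mapRep φ r') := by
  obtain ⟨g, hgu, hg⟩ := h
  refine ⟨φ.mapMatrix g, hgu.map φ.mapMatrix, fun σ => ?_⟩
  show φ.mapMatrix g * φ.mapMatrix (r σ) = φ.mapMatrix (r' σ) * φ.mapMatrix g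
  rw [← map_mul, ← map_mul, hg σ]

end ConjSec

section ConjRep

variable {A : Type} [CommRing A]

/-- Conjugate a matrix representation by an invertible matrix. -/
noncomputable def conjRep (u : (M2 A)ˣ) (r : Gal →* M2 A) : Gal →* M2 A where
  toFun σ := (u : M2 A) * r σ * ((u⁻¹ : (M2 A)ˣ) : M2 A)
  map_one' := by simp
  map_mul' σ τ := by
    rw [map_mul]
    calc (u : M2 A) * (r σ * r τ) * ((u⁻¹ : (M2 A)ˣ) : M2 A)
        = (u : M2 A) * r σ * (((u⁻¹ : (M2 A)ˣ) : M2 A) * (u : M2 A)) * r τ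
            * ((u⁻¹ : (M2 A)ˣ) : M2 A) := by
          rw [Units.inv_mul, mul_one]; simp only [mul_assoc]
      _ = _ := by simp only [mul_assoc]

lemma conjRep_apply (u : (M2 A)ˣ) (r : Gal →* M2 A) (σ : Gal) :
    conjRep u r σ = (u : M2 A) * r σ * ((u⁻¹ : (M2 A)ˣ) : M2 A) := rfl

lemma conj_conjRep (u : (M2 A)ˣ) (r : Gal →* M2 A) : Conj r (conjRep u r) :=
  ⟨u, ⟨u, rfl⟩, fun σ => by rw [conjRep_apply, mul_assoc, mul_assoc, Units.inv_mul, mul_one]⟩

lemma Conj.exists_conjRep {r r' : Gal →* M2 A} (h : Conj r r') : ∃ u : (M2 A)ˣ, r' = conjRep u r := by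
  obtain ⟨g, ⟨u, rfl⟩, hg⟩ := h
  refine ⟨u, MonoidHom.ext fun σ => ?_⟩
  rw [conjRep_apply, hg σ, mul_assoc, Units.mul_inv, mul_one]

lemma matrix_mul_mem_ideal_left {I : Ideal A} (g : M2 A) {X : M2 A} (hX : ∀ i j, X i j ∈ I)
    (i j : Fin 2) : (g * X) i j ∈ I := by
  rw [Matrix.mul_apply]
  exact Ideal.sum_mem _ fun l _ => Ideal.mul_mem_left _ _ (hX l j)

lemma matrix_mul_mem_ideal_right {I : Ideal A} (g : M2 A) {X : M2 A} (hX : ∀ i j, X i j ∈ I)
    (i j : Fin 2) : (X * g) i j ∈ I := by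
  rw [Matrix.mul_apply]
  exact Ideal.sum_mem _ fun l _ => Ideal.mul_mem_right _ _ (hX i l)

lemma MatCont.conj [IsLocalRing A] {r : Gal →* M2 A} (hr : MatCont A r) (u : (M2 A)ˣ) :
    MatCont A (conjRep u r) := by
  intro n
  obtain ⟨L, hL, h⟩ := hr n
  refine ⟨L, hL, fun σ hσ i j => ?_⟩
  have h2 : conjRep u r σ - 1 = (u : M2 A) * (r σ - 1) * ((u⁻¹ : (M2 A)ˣ) : M2 A) := by
    rw [conjRep_apply, mul_sub, sub_mul, mul_one, Units.mul_inv]
  rw [h2]
  exact matrix_mul_mem_ideal_right _ (fun i j => matrix_mul_mem_ideal_left _ (h σ hσ) i j) i j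

end ConjRep

section Residual

variable {𝒪 : Type} [CommRing 𝒪] [IsLocalRing 𝒪]
variable {A : Type} [CommRing A] [IsLocalRing A] [Algebra 𝒪 A]

/-- `Framed` in terms of residue fields. -/
lemma framed_iff (ι : ResidueField 𝒪 →+* ResidueField A)
    (hι : ∀ x : 𝒪, ι (residue 𝒪 x) = residue A (algebraMap 𝒪 A x))
    (ρm : Gal →* M2 (ResidueField 𝒪)) (r : Gal →* M2 A) :
    Framed A ρm r ↔ ∀ σ, (r σ).map (residue A) = (ρm σ).map ι := by
  constructor
  · intro h σ
    ext i j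
    obtain ⟨x, hx⟩ := IsLocalRing.residue_surjective (ρm σ i j)
    have := h σ i j x hx
    rw [← residue_eq_zero_iff, map_sub, sub_eq_zero] at this
    simp only [Matrix.map_apply, this, ← hι, hx]
  · intro h σ i j x hx
    have := congrFun (congrFun (h σ) i) j
    simp only [Matrix.map_apply] at this
    rw [← residue_eq_zero_iff, map_sub, sub_eq_zero, this, ← hx, hι]

/-- auxiliary computation for the residual representation of `ofMatrix r` -/
lemma piScalarRight_residue_mulVec (M : M2 A) :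
    ∀ x : ResidueField A ⊗[A] (Fin 2 → A),
      TensorProduct.piScalarRight A (ResidueField A) (ResidueField A) (Fin 2)
        ((Matrix.toLinAlgEquiv' (R := A) (n := Fin 2) M).baseChange (ResidueField A) x) =
      (M.map (residue A)).mulVec
        (TensorProduct.piScalarRight A (ResidueField A) (ResidueField A) (Fin 2) x) := by
  intro x
  induction x using TensorProduct.induction_on with
  | zero => simp only [map_zero, Matrix.mulVec_zero]
  | tmul b v =>
    rw [LinearMap.baseChange_tmul, TensorProduct.piScalarRight_apply,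
      TensorProduct.piScalarRightHom_tmul, TensorProduct.piScalarRight_apply,
      TensorProduct.piScalarRightHom_tmul]
    ext i
    have e : ∀ a : A, algebraMap A (ResidueField A) a = residue A a := fun a => rfl
    simp only [Matrix.toLinAlgEquiv'_apply, Matrix.mulVec, dotProduct, Fin.sum_univ_two,
      Matrix.map_apply, Algebra.smul_def, e, map_add, map_mul]
    ring
  | add x y hx hy => simp only [map_add, hx, hy, Matrix.mulVec_add]

/-- (R1) the residual representation of `ofMatrix r` in matrix form -/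
noncomputable def residualMatEquiv (r : Gal →* M2 A) (hr : MatCont A r) :
    (ofMatrix r hr).residual.V ≃ₗ[ResidueField A] (Fin 2 → ResidueField A) :=
  (TensorProduct.piScalarRight A (ResidueField A) (ResidueField A) (Fin 2) :
    ResidueField A ⊗[A] (Fin 2 → A) ≃ₗ[ResidueField A] (Fin 2 → ResidueField A))

lemma residualMatEquiv_apply (r : Gal →* M2 A) (hr : MatCont A r) (σ : Gal)
    (x : (ofMatrix r hr).residual.V) :
    residualMatEquiv r hr ((ofMatrix r hr).residual.ρ σ x) =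
      ((r σ).map (residue A)).mulVec (residualMatEquiv r hr x) :=
  piScalarRight_residue_mulVec (r σ) x

variable {ρbar : ResidualGaloisRep (ResidueField 𝒪)}

/-- auxiliary computation for the base change of `ρbar` -/
lemma piScalarRight_bar_mulVec (D : RigidDatum 𝒪 ρbar) (ι : ResidueField 𝒪 →+* ResidueField A)
    (σ : Gal) :
    letI : Algebra (ResidueField 𝒪) (ResidueField A) := ι.toAlgebra
    ∀ x : ResidueField A ⊗[ResidueField 𝒪] ρbar.V,
      ((D.b.equivFun.baseChange (ResidueField 𝒪) (ResidueField A) _ _) ≪≫ₗ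
        TensorProduct.piScalarRight (ResidueField 𝒪) (ResidueField A) (ResidueField A) (Fin 2))
        ((ρbar.ρ σ).baseChange (ResidueField A) x) =
      ((D.ρm σ).map ι).mulVec
        (((D.b.equivFun.baseChange (ResidueField 𝒪) (ResidueField A) _ _) ≪≫ₗ
          TensorProduct.piScalarRight (ResidueField 𝒪) (ResidueField A) (ResidueField A) (Fin 2)) x) := by
  letI : Algebra (ResidueField 𝒪) (ResidueField A) := ι.toAlgebra
  intro x
  induction x using TensorProduct.induction_on with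
  | zero => simp only [map_zero, Matrix.mulVec_zero]
  | tmul c v =>
    simp only [LinearEquiv.trans_apply, LinearMap.baseChange_tmul, LinearEquiv.baseChange_tmul,
      TensorProduct.piScalarRight_apply, TensorProduct.piScalarRightHom_tmul]
    have hrepr : D.b.equivFun (ρbar.ρ σ v) = (D.ρm σ).mulVec (D.b.equivFun v) := by
      rw [D.ρm_eq]
      exact (LinearMap.toMatrix_mulVec_repr D.b D.b (ρbar.ρ σ) v).symm
    rw [hrepr]
    ext i
    have e : ∀ a : ResidueField 𝒪, algebraMap (ResidueField 𝒪) (ResidueField A) a = ι a :=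
      fun a => rfl
    simp only [Matrix.mulVec, dotProduct, Fin.sum_univ_two,
      Matrix.map_apply, Algebra.smul_def, e, map_add, map_mul]
    ring
  | add x y hx hy => simp only [map_add, hx, hy, Matrix.mulVec_add]

/-- (R2) the base change of `ρbar` in matrix form -/
noncomputable def barMatEquiv (D : RigidDatum 𝒪 ρbar) (ι : ResidueField 𝒪 →+* ResidueField A) :
    (ρbar.baseChangeAlong ι).V ≃ₗ[ResidueField A] (Fin 2 → ResidueField A) :=
  letI : Algebra (ResidueField 𝒪) (ResidueField A) := ι.toAlgebra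
  ((D.b.equivFun.baseChange (ResidueField 𝒪) (ResidueField A) _ _) ≪≫ₗ
        TensorProduct.piScalarRight (ResidueField 𝒪) (ResidueField A) (ResidueField A) (Fin 2))

lemma barMatEquiv_apply (D : RigidDatum 𝒪 ρbar) (ι : ResidueField 𝒪 →+* ResidueField A) (σ : Gal)
    (x : (ρbar.baseChangeAlong ι).V) :
    barMatEquiv D ι ((ρbar.baseChangeAlong ι).ρ σ x) =
      ((D.ρm σ).map ι).mulVec (barMatEquiv D ι x) :=
  piScalarRight_bar_mulVec D ι σ x

/-- (A4b) a framed matrix lift has the right residual representation -/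
lemma residual_isEquiv_of_framed (D : RigidDatum 𝒪 ρbar) (ι : ResidueField 𝒪 →+* ResidueField A)
    (hι : ∀ x : 𝒪, ι (residue 𝒪 x) = residue A (algebraMap 𝒪 A x))
    (r : Gal →* M2 A) (hr : MatCont A r) (hf : Framed A D.ρm r) :
    (ofMatrix r hr).residual.IsEquiv (ρbar.baseChangeAlong ι) := by
  refine ⟨{ toLinearEquiv := (residualMatEquiv r hr).trans (barMatEquiv D ι).symm,
            map_apply := fun σ x => ?_ }⟩
  rw [LinearEquiv.trans_apply, LinearEquiv.trans_apply, residualMatEquiv_apply,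
    (framed_iff ι hι D.ρm r).1 hf σ, LinearEquiv.symm_apply_eq, barMatEquiv_apply,
    LinearEquiv.apply_symm_apply]

lemma GaloisRepAdic_isEquiv_trans {B : Type} [CommRing B] [IsLocalRing B] {ρ₁ ρ₂ ρ₃ : GaloisRepAdic B}
    (h : ρ₁.IsEquiv ρ₂) (h' : ρ₂.IsEquiv ρ₃) : ρ₁.IsEquiv ρ₃ := by
  obtain ⟨e⟩ := h
  obtain ⟨e'⟩ := h'
  exact ⟨e.trans e'⟩

lemma GaloisRepAdic_isEquiv_symm {B : Type} [CommRing B] [IsLocalRing B] {ρ₁ ρ₂ : GaloisRepAdic B}
    (h : ρ₁.IsEquiv ρ₂) : ρ₂.IsEquiv ρ₁ := by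
  obtain ⟨e⟩ := h
  exact ⟨e.symm⟩

/-- lift an invertible matrix over the residue field to an invertible matrix -/
lemma exists_unit_lift (gbar : M2 (ResidueField A)) (hg : IsUnit gbar) :
    ∃ u : (M2 A)ˣ, (u : M2 A).map (residue A) = gbar ∧
      ((u⁻¹ : (M2 A)ˣ) : M2 A).map (residue A) * gbar = 1 := by
  have hsurj := IsLocalRing.residue_surjective (R := A)
  choose f hf using hsurj
  let g : M2 A := Matrix.of fun i j => f (gbar i j)
  have hgmap : g.map (residue A) = gbar := by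
    ext i j; simp [g, hf]
  have hdet : IsUnit g.det := by
    have h1 : residue A g.det = gbar.det := by
      rw [RingHom.map_det, RingHom.mapMatrix_apply, hgmap]
    have h2 : IsUnit gbar.det := (Matrix.isUnit_iff_isUnit_det _).1 hg
    rw [← h1] at h2
    exact isUnit_of_map_unit (residue A) _ h2
  obtain ⟨u, hu⟩ := (Matrix.isUnit_iff_isUnit_det g).2 hdet
  refine ⟨u, by rw [hu, hgmap], ?_⟩
  have h3 : ((u⁻¹ : (M2 A)ˣ) : M2 A).map (residue A) * (u : M2 A).map (residue A) = 1 := by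
    have := congrArg (fun M : M2 A => (residue A).mapMatrix M) (Units.inv_mul u)
    simpa [RingHom.mapMatrix_apply, Matrix.map_mul] using this
  rw [hu, hgmap] at h3
  exact h3

/-- (A4a) a representation with the right residual representation is equivalent to a framed
matrix representation -/
lemma exists_framed_of_residual_isEquiv (D : RigidDatum 𝒪 ρbar)
    (ι : ResidueField 𝒪 →+* ResidueField A)
    (hι : ∀ x : 𝒪, ι (residue 𝒪 x) = residue A (algebraMap 𝒪 A x))
    (ρ : GaloisRepAdic A) (h : ρ.residual.IsEquiv (ρbar.baseChangeAlong ι)) :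
    ∃ (r : Gal →* M2 A) (hr : MatCont A r), Framed A D.ρm r ∧ ρ.IsEquiv (ofMatrix r hr) := by
  obtain ⟨e⟩ := h
  set r₀ := matOfBasis ρ (someBasis ρ) with hr₀def
  have hr₀ : MatCont A r₀ := matOfBasis_cont ρ (someBasis ρ)
  have e₀ : GaloisRepAdic.Equiv ρ (ofMatrix r₀ hr₀) := equivOfBasis ρ (someBasis ρ)
  have e' : ResidualGaloisRep.Equiv (ofMatrix r₀ hr₀).residual (ρbar.baseChangeAlong ι) :=
    e₀.residual.symm.trans e
  let E : (Fin 2 → ResidueField A) ≃ₗ[ResidueField A] (Fin 2 → ResidueField A) :=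
    (residualMatEquiv r₀ hr₀).symm.trans (e'.toLinearEquiv.trans (barMatEquiv D ι))
  have hE : ∀ σ v, E (((r₀ σ).map (residue A)).mulVec v) = ((D.ρm σ).map ι).mulVec (E v) := by
    intro σ v
    obtain ⟨x, rfl⟩ := (residualMatEquiv r₀ hr₀).surjective v
    rw [← residualMatEquiv_apply]
    simp only [E, LinearEquiv.trans_apply, LinearEquiv.symm_apply_apply]
    rw [e'.map_apply, barMatEquiv_apply]
  let gbar : M2 (ResidueField A) := LinearMap.toMatrix' (E : _ →ₗ[ResidueField A] _)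
  have hgbar : IsUnit gbar := by
    refine ⟨⟨gbar, LinearMap.toMatrix' (E.symm : _ →ₗ[ResidueField A] _), ?_, ?_⟩, rfl⟩
    · rw [← LinearMap.toMatrix'_comp]; simp
    · rw [← LinearMap.toMatrix'_comp]; simp
  have hcomm : ∀ σ, gbar * (r₀ σ).map (residue A) = (D.ρm σ).map ι * gbar := by
    intro σ
    apply Matrix.toLin'.injective
    apply LinearMap.ext
    intro x
    simp only [gbar, Matrix.toLin'_mul, Matrix.toLin'_toMatrix', LinearMap.comp_apply,
      Matrix.toLin'_apply]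
    exact hE σ x
  obtain ⟨u, hu, hu'⟩ := exists_unit_lift gbar hgbar
  refine ⟨conjRep u r₀, hr₀.conj u, ?_, ?_⟩
  · rw [framed_iff ι hι]
    intro σ
    rw [conjRep_apply, Matrix.map_mul, Matrix.map_mul, hu, hcomm σ]
    have hu'' : gbar * ((u⁻¹ : (M2 A)ˣ) : M2 A).map (residue A) = 1 :=
      mul_eq_one_comm.1 hu'
    rw [mul_assoc, hu'', mul_one]
  · exact GaloisRepAdic_isEquiv_trans ⟨e₀⟩ (isEquiv_of_conj hr₀ (hr₀.conj u) (conj_conjRep u r₀))

end Residual

end Fermat.Agent.S53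


end ZBS53_002_2

/-! ### bundled: `Fermat.Agent.S53.Tangent` -/
section ZBS53_002_3
/-
S53, piece D2 (tangent bound).  Owner: helper64.

Pure commutative algebra: for a local `𝒪`-algebra `A` with residue field `k = 𝒪/𝔪` (`IsResAlg`),
the number of generators of `A` as an `𝒪`-algebra is bounded by the number of "tangent vectors"
`A → k[ε]`, and hence the cardinality of `A` is bounded in terms of the nilpotency index of `𝔪_A`
and the number of tangent vectors.
-/

set_option autoImplicit false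

namespace Fermat.Agent.S53

open IsLocalRing

section TangentDefs

variable (𝒪 : Type) [CommRing 𝒪] [IsLocalRing 𝒪]
variable (A : Type) [CommRing A] [Algebra 𝒪 A]

/-- Tangent vectors of `A` over `𝒪`: ring homs `A → k[ε]` compatible with `𝒪 → k ⊂ k[ε]`. -/
def TangentHom : Type :=
  {u : A →+* DualNumber (ResidueField 𝒪) //
    ∀ c : 𝒪, u (algebraMap 𝒪 A c) = TrivSqZeroExt.inl (residue 𝒪 c)}

end TangentDefs

section Test

variable {𝒪 : Type} [CommRing 𝒪] [IsLocalRing 𝒪]
variable {A : Type} [CommRing A] [IsLocalRing A] [Algebra 𝒪 A]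

/-- every element is congruent to an element of `𝒪` modulo `𝔪_A`. -/
lemma tangent_exists_sub_mem (hA : IsResAlg 𝒪 A) (a : A) :
    ∃ c : 𝒪, a - algebraMap 𝒪 A c ∈ maximalIdeal A := by
  obtain ⟨c, hc⟩ := hA.residue_surjective (residue A a)
  refine ⟨c, ?_⟩
  rw [← residue_eq_zero_iff, map_sub, sub_eq_zero]
  exact hc.symm

lemma tangent_algebraMap_mem_iff (hA : IsResAlg 𝒪 A) (c : 𝒪) :
    algebraMap 𝒪 A c ∈ maximalIdeal A ↔ c ∈ maximalIdeal 𝒪 := by
  haveI := hA.isLocalHom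
  simp only [mem_maximalIdeal, mem_nonunits_iff]
  exact not_congr (isUnit_map_iff (algebraMap 𝒪 A) c)

lemma tangent_resMap_bijective (hA : IsResAlg 𝒪 A) :
    haveI := hA.isLocalHom
    Function.Bijective (ResidueField.map (algebraMap 𝒪 A)) := by
  haveI := hA.isLocalHom
  refine ⟨(ResidueField.map (algebraMap 𝒪 A)).injective, ?_⟩
  intro y
  obtain ⟨a, rfl⟩ := residue_surjective y
  obtain ⟨c, hc⟩ := hA.residue_surjective (residue A a)
  exact ⟨residue 𝒪 c, by rw [ResidueField.map_residue]; exact hc⟩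

/-- The identification of residue fields. -/
noncomputable def tangentResEquiv (hA : IsResAlg 𝒪 A) : ResidueField 𝒪 ≃+* ResidueField A :=
  haveI := hA.isLocalHom
  RingEquiv.ofBijective (ResidueField.map (algebraMap 𝒪 A)) (tangent_resMap_bijective hA)

lemma tangentResEquiv_residue (hA : IsResAlg 𝒪 A) (c : 𝒪) :
    tangentResEquiv hA (residue 𝒪 c) = residue A (algebraMap 𝒪 A c) := by
  haveI := hA.isLocalHom
  exact ResidueField.map_residue (algebraMap 𝒪 A) c

/-- The residue map of `A` with values in the residue field of `𝒪`. -/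
noncomputable def tangentRes (hA : IsResAlg 𝒪 A) : A →+* ResidueField 𝒪 :=
  ((tangentResEquiv hA).symm : ResidueField A →+* ResidueField 𝒪).comp (residue A)

lemma tangentRes_apply (hA : IsResAlg 𝒪 A) (a : A) :
    tangentRes hA a = (tangentResEquiv hA).symm (residue A a) := rfl

lemma tangentRes_algebraMap (hA : IsResAlg 𝒪 A) (c : 𝒪) :
    tangentRes hA (algebraMap 𝒪 A c) = residue 𝒪 c := by
  rw [tangentRes_apply, RingEquiv.symm_apply_eq, tangentResEquiv_residue]

lemma tangentRes_eq_zero_iff (hA : IsResAlg 𝒪 A) (a : A) :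
    tangentRes hA a = 0 ↔ a ∈ maximalIdeal A := by
  rw [tangentRes_apply, map_eq_zero_iff _ (RingEquiv.injective _), residue_eq_zero_iff]

lemma tangentRes_eq_of_sub_mem (hA : IsResAlg 𝒪 A) {a : A} {c : 𝒪}
    (h : a - algebraMap 𝒪 A c ∈ maximalIdeal A) : tangentRes hA a = residue 𝒪 c := by
  rw [← tangentRes_algebraMap hA c, ← sub_eq_zero, ← map_sub, tangentRes_eq_zero_iff]
  exact h

end Test

section Cot

variable (𝒪 : Type) [CommRing 𝒪] [IsLocalRing 𝒪]
variable (A : Type) [CommRing A] [IsLocalRing A] [Algebra 𝒪 A]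

/-- `𝒪·1 + 𝔪_A² + 𝔪_𝒪 A` as an `𝒪`-submodule of `A`. -/
def tangentU : Submodule 𝒪 A :=
  ((maximalIdeal A ^ 2 ⊔ Ideal.map (algebraMap 𝒪 A) (maximalIdeal 𝒪)).restrictScalars 𝒪) ⊔
    LinearMap.range (Algebra.linearMap 𝒪 A)

/-- The relative cotangent space `𝔪_A / (𝔪_A² + 𝔪_𝒪 A)`, realised as
`A / (𝒪·1 + 𝔪_A² + 𝔪_𝒪 A)`. -/
def TangentCot : Type := A ⧸ tangentU 𝒪 A

noncomputable instance : AddCommGroup (TangentCot 𝒪 A) :=
  inferInstanceAs (AddCommGroup (A ⧸ tangentU 𝒪 A))

noncomputable instance : Module 𝒪 (TangentCot 𝒪 A) :=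
  inferInstanceAs (Module 𝒪 (A ⧸ tangentU 𝒪 A))

/-- The projection `A → TangentCot`. -/
noncomputable def tangentMk : A →ₗ[𝒪] TangentCot 𝒪 A := (tangentU 𝒪 A).mkQ

variable {𝒪 A}

lemma tangentMk_surjective : Function.Surjective (tangentMk 𝒪 A) :=
  Submodule.mkQ_surjective _

lemma tangentMk_eq_zero_iff (a : A) : tangentMk 𝒪 A a = 0 ↔ a ∈ tangentU 𝒪 A :=
  Submodule.Quotient.mk_eq_zero _

lemma tangentMk_algebraMap (c : 𝒪) : tangentMk 𝒪 A (algebraMap 𝒪 A c) = 0 := by
  rw [tangentMk_eq_zero_iff]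
  exact Submodule.mem_sup_right ⟨c, rfl⟩

lemma mem_tangentU_of_mem {a : A}
    (h : a ∈ maximalIdeal A ^ 2 ⊔ Ideal.map (algebraMap 𝒪 A) (maximalIdeal 𝒪)) :
    a ∈ tangentU 𝒪 A :=
  Submodule.mem_sup_left (show a ∈ (maximalIdeal A ^ 2 ⊔
    Ideal.map (algebraMap 𝒪 A) (maximalIdeal 𝒪)).restrictScalars 𝒪 from h)

lemma tangentMk_of_mem_sq {a : A} (h : a ∈ maximalIdeal A ^ 2) : tangentMk 𝒪 A a = 0 := by
  rw [tangentMk_eq_zero_iff]
  exact mem_tangentU_of_mem (Ideal.mem_sup_left h)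

lemma tangentMk_mul_of_mem {a b : A} (ha : a ∈ maximalIdeal A) (hb : b ∈ maximalIdeal A) :
    tangentMk 𝒪 A (a * b) = 0 :=
  tangentMk_of_mem_sq (by rw [pow_two]; exact Ideal.mul_mem_mul ha hb)

variable (𝒪 A)

lemma tangentCot_isTorsionBySet :
    Module.IsTorsionBySet 𝒪 (TangentCot 𝒪 A) (maximalIdeal 𝒪 : Set 𝒪) := by
  intro v c
  obtain ⟨a, rfl⟩ := tangentMk_surjective v
  show (c : 𝒪) • tangentMk 𝒪 A a = 0
  rw [← map_smul, tangentMk_eq_zero_iff, Algebra.smul_def]
  exact mem_tangentU_of_mem (Ideal.mem_sup_right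
    (Ideal.mul_mem_right _ _ (Ideal.mem_map_of_mem _ c.2)))

noncomputable instance : Module (ResidueField 𝒪) (TangentCot 𝒪 A) :=
  Module.IsTorsionBySet.module (tangentCot_isTorsionBySet 𝒪 A)

variable {𝒪 A}

lemma tangentCot_residue_smul (c : 𝒪) (v : TangentCot 𝒪 A) :
    (residue 𝒪 c) • v = c • v :=
  Module.IsTorsionBySet.mk_smul (tangentCot_isTorsionBySet 𝒪 A) c v

/-- Leibniz rule for the projection to the cotangent space. -/
lemma tangentMk_mul (hA : IsResAlg 𝒪 A) (a b : A) :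
    tangentMk 𝒪 A (a * b) =
      tangentRes hA a • tangentMk 𝒪 A b + tangentRes hA b • tangentMk 𝒪 A a := by
  obtain ⟨ca, hca⟩ := tangent_exists_sub_mem hA a
  obtain ⟨cb, hcb⟩ := tangent_exists_sub_mem hA b
  rw [tangentRes_eq_of_sub_mem hA hca, tangentRes_eq_of_sub_mem hA hcb,
    tangentCot_residue_smul, tangentCot_residue_smul, ← map_smul, ← map_smul, ← map_add,
    ← sub_eq_zero, ← map_sub]
  have : a * b - (ca • b + cb • a) =
      (a - algebraMap 𝒪 A ca) * (b - algebraMap 𝒪 A cb) - algebraMap 𝒪 A (ca * cb) := by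
    rw [Algebra.smul_def, Algebra.smul_def, map_mul]; ring
  rw [this, map_sub, tangentMk_mul_of_mem hca hcb, tangentMk_algebraMap, sub_zero]

/-- The tangent vector attached to a functional on the cotangent space. -/
noncomputable def tangentOfDual (hA : IsResAlg 𝒪 A)
    (ℓ : Module.Dual (ResidueField 𝒪) (TangentCot 𝒪 A)) : TangentHom 𝒪 A :=
  ⟨{ toFun := fun a => TrivSqZeroExt.inl (tangentRes hA a) +
        TrivSqZeroExt.inr (ℓ (tangentMk 𝒪 A a))
     map_one' := by
       have h1 : tangentMk 𝒪 A (1 : A) = 0 := by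
         simpa using tangentMk_algebraMap (𝒪 := 𝒪) (A := A) 1
       ext <;> simp [h1]
     map_mul' := fun a b => by
       ext
       · simp
       · simp only [TrivSqZeroExt.snd_add, TrivSqZeroExt.snd_inl, TrivSqZeroExt.snd_inr, zero_add,
           TrivSqZeroExt.snd_mul, TrivSqZeroExt.fst_add, TrivSqZeroExt.fst_inl,
           TrivSqZeroExt.fst_inr, add_zero]
         rw [tangentMk_mul hA, map_add, map_smul, map_smul]
         simp only [smul_eq_mul, MulOpposite.smul_eq_mul_unop, MulOpposite.unop_op]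
         ring
     map_zero' := by ext <;> simp
     map_add' := fun a b => by ext <;> simp }, fun c => by
    show TrivSqZeroExt.inl (tangentRes hA (algebraMap 𝒪 A c)) +
        TrivSqZeroExt.inr (ℓ (tangentMk 𝒪 A (algebraMap 𝒪 A c))) = _
    rw [tangentRes_algebraMap, tangentMk_algebraMap, map_zero, TrivSqZeroExt.inr_zero, add_zero]⟩

lemma tangentOfDual_apply_snd (hA : IsResAlg 𝒪 A)
    (ℓ : Module.Dual (ResidueField 𝒪) (TangentCot 𝒪 A)) (a : A) :
    ((tangentOfDual hA ℓ).1 a).snd = ℓ (tangentMk 𝒪 A a) := by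
  show (TrivSqZeroExt.inl (tangentRes hA a) +
    TrivSqZeroExt.inr (ℓ (tangentMk 𝒪 A a)) : DualNumber (ResidueField 𝒪)).snd = _
  simp

lemma tangentOfDual_injective (hA : IsResAlg 𝒪 A) :
    Function.Injective (tangentOfDual (𝒪 := 𝒪) (A := A) hA) := by
  intro ℓ ℓ' h
  refine LinearMap.ext fun v => ?_
  obtain ⟨a, rfl⟩ := tangentMk_surjective v
  rw [← tangentOfDual_apply_snd hA ℓ a, ← tangentOfDual_apply_snd hA ℓ' a, h]

end Cot

section Count

variable {𝒪 : Type} [CommRing 𝒪] [IsLocalRing 𝒪]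
variable {A : Type} [CommRing A] [IsLocalRing A] [Algebra 𝒪 A]

/-- A local `𝒪`-algebra with residue field `k` finite, `𝔪_A` finitely generated and nilpotent
is finite. -/
lemma tangent_finite_of_pow_eq_bot (hA : IsResAlg 𝒪 A) [Finite (ResidueField 𝒪)]
    (hfg : (maximalIdeal A).FG) {n : ℕ} (hn : maximalIdeal A ^ n = ⊥) : Finite A := by
  haveI : Finite (ResidueField A) := Finite.of_equiv _ (tangentResEquiv hA).toEquiv
  haveI : Finite (A ⧸ maximalIdeal A) := inferInstanceAs (Finite (ResidueField A))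
  have h := Ideal.finite_quotient_pow hfg n
  rw [hn] at h
  exact Finite.of_equiv _ (RingEquiv.quotientBot A).toEquiv

lemma tangent_finite_dualNumber (k : Type) [Field k] [Finite k] : Finite (DualNumber k) :=
  inferInstanceAs (Finite (k × k))

lemma tangentHom_finite [Finite A] [Finite (ResidueField 𝒪)] : Finite (TangentHom 𝒪 A) := by
  haveI := tangent_finite_dualNumber (ResidueField 𝒪)
  haveI : Finite (A →+* DualNumber (ResidueField 𝒪)) :=
    Finite.of_injective (fun u => (u : A → DualNumber (ResidueField 𝒪))) DFunLike.coe_injective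
  exact inferInstanceAs (Finite {u : A →+* DualNumber (ResidueField 𝒪) //
    ∀ c : 𝒪, u (algebraMap 𝒪 A c) = TrivSqZeroExt.inl (residue 𝒪 c)})

/-- The cotangent space has at most as many elements as there are tangent vectors. -/
lemma tangentCot_card_le (hA : IsResAlg 𝒪 A) [Finite A] [Finite (ResidueField 𝒪)] :
    Nat.card (TangentCot 𝒪 A) ≤ Nat.card (TangentHom 𝒪 A) := by
  haveI : Finite (TangentCot 𝒪 A) := Finite.of_surjective _ (tangentMk_surjective (𝒪 := 𝒪) (A := A))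
  haveI : Module.Finite (ResidueField 𝒪) (TangentCot 𝒪 A) := Module.Finite.of_finite
  haveI := tangentHom_finite (𝒪 := 𝒪) (A := A)
  calc Nat.card (TangentCot 𝒪 A)
      = Nat.card (ResidueField 𝒪) ^ Module.finrank (ResidueField 𝒪) (TangentCot 𝒪 A) :=
        Module.natCard_eq_pow_finrank
    _ = Nat.card (ResidueField 𝒪) ^
          Module.finrank (ResidueField 𝒪) (Module.Dual (ResidueField 𝒪) (TangentCot 𝒪 A)) := by
        rw [Subspace.dual_finrank_eq]
    _ = Nat.card (Module.Dual (ResidueField 𝒪) (TangentCot 𝒪 A)) :=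
        Module.natCard_eq_pow_finrank.symm
    _ ≤ Nat.card (TangentHom 𝒪 A) :=
        Nat.card_le_card_of_injective _ (tangentOfDual_injective hA)

end Count

section Generators

variable {𝒪 : Type} [CommRing 𝒪] [IsLocalRing 𝒪]
variable {A : Type} [CommRing A] [IsLocalRing A] [Algebra 𝒪 A]

/-- elements of `𝔪_𝒪 A` are congruent to elements of `𝔪_𝒪` modulo `𝔪_A²`. -/
lemma tangent_map_maximalIdeal (hA : IsResAlg 𝒪 A) {f : A}
    (hf : f ∈ Ideal.map (algebraMap 𝒪 A) (maximalIdeal 𝒪)) :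
    ∃ c ∈ maximalIdeal 𝒪, f - algebraMap 𝒪 A c ∈ maximalIdeal A ^ 2 := by
  induction hf using Submodule.span_induction with
  | mem x hx =>
    obtain ⟨c, hc, rfl⟩ := hx
    exact ⟨c, hc, by simp⟩
  | zero => exact ⟨0, Ideal.zero_mem _, by simp⟩
  | add x y _ _ hx hy =>
    obtain ⟨c, hc, hxc⟩ := hx
    obtain ⟨d, hd, hyd⟩ := hy
    refine ⟨c + d, Ideal.add_mem _ hc hd, ?_⟩
    have : x + y - algebraMap 𝒪 A (c + d) = (x - algebraMap 𝒪 A c) + (y - algebraMap 𝒪 A d) := by
      rw [map_add]; ring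
    rw [this]
    exact Ideal.add_mem _ hxc hyd
  | smul a x _ hx =>
    obtain ⟨c, hc, hxc⟩ := hx
    obtain ⟨ca, hca⟩ := tangent_exists_sub_mem hA a
    refine ⟨ca * c, Ideal.mul_mem_left _ _ hc, ?_⟩
    have : a • x - algebraMap 𝒪 A (ca * c) =
        a * (x - algebraMap 𝒪 A c) + (a - algebraMap 𝒪 A ca) * algebraMap 𝒪 A c := by
      rw [map_mul, smul_eq_mul]; ring
    rw [this]
    refine Ideal.add_mem _ (Ideal.mul_mem_left _ _ hxc) ?_
    rw [pow_two]
    exact Ideal.mul_mem_mul hca ((tangent_algebraMap_mem_iff hA c).2 hc)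

/-- If the images of the `x i ∈ 𝔪_A` cover the relative cotangent space and `𝔪_A` is nilpotent,
then the `x i` generate `A` as an `𝒪`-algebra. -/
theorem tangent_adjoin_eq_top (hA : IsResAlg 𝒪 A) {n : ℕ} (hn : maximalIdeal A ^ n = ⊥)
    {ι : Type} (x : ι → A)
    (hcov : ∀ v : TangentCot 𝒪 A, ∃ i, tangentMk 𝒪 A (x i) = v) :
    Algebra.adjoin 𝒪 (Set.range x) = ⊤ := by
  set B := Algebra.adjoin 𝒪 (Set.range x) with hB
  -- Step 1
  have step1 : ∀ m ∈ maximalIdeal A, ∃ b ∈ B, b ∈ maximalIdeal A ∧ m - b ∈ maximalIdeal A ^ 2 := by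
    intro m hm
    obtain ⟨i, hi⟩ := hcov (tangentMk 𝒪 A m)
    have h0 : tangentMk 𝒪 A (m - x i) = 0 := by rw [map_sub, hi, sub_self]
    rw [tangentMk_eq_zero_iff] at h0
    obtain ⟨y, hy, z, hz, hyz⟩ := Submodule.mem_sup.1 h0
    obtain ⟨c, rfl⟩ := hz
    have hy' : y ∈ maximalIdeal A ^ 2 ⊔ Ideal.map (algebraMap 𝒪 A) (maximalIdeal 𝒪) := hy
    obtain ⟨e, he, f, hf, rfl⟩ := Submodule.mem_sup.1 hy'
    obtain ⟨c', hc', hfc⟩ := tangent_map_maximalIdeal hA hf
    have hsq : m - (x i + algebraMap 𝒪 A (c' + c)) ∈ maximalIdeal A ^ 2 := by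
      have : m - (x i + algebraMap 𝒪 A (c' + c)) = e + (f - algebraMap 𝒪 A c') := by
        have h1 : m - x i = e + f + algebraMap 𝒪 A c := by
          rw [← hyz]; rfl
        rw [map_add]
        linear_combination h1
      rw [this]
      exact Ideal.add_mem _ he hfc
    refine ⟨x i + algebraMap 𝒪 A (c' + c), ?_, ?_, hsq⟩
    · exact Subalgebra.add_mem _ (Algebra.subset_adjoin ⟨i, rfl⟩) (Subalgebra.algebraMap_mem _ _)
    · have hle : maximalIdeal A ^ 2 ≤ maximalIdeal A := Ideal.pow_le_self (by norm_num)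
      have := Ideal.sub_mem _ hm (hle hsq)
      simpa using this
  -- Step 2
  have step2 : ∀ j : ℕ, ∀ m ∈ maximalIdeal A ^ j,
      ∃ b ∈ B, b ∈ maximalIdeal A ^ j ∧ m - b ∈ maximalIdeal A ^ (j + 1) := by
    intro j
    induction j with
    | zero =>
      intro m _
      obtain ⟨c, hc⟩ := tangent_exists_sub_mem hA m
      exact ⟨algebraMap 𝒪 A c, Subalgebra.algebraMap_mem _ _, by simp, by simpa using hc⟩
    | succ j ih =>
      intro m hm
      rw [pow_succ] at hm
      refine Submodule.mul_induction_on hm ?_ ?_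
      · intro p hp q hq
        obtain ⟨b₁, hb₁, hb₁m, hpb⟩ := ih p hp
        obtain ⟨b₂, hb₂, hb₂m, hqb⟩ := step1 q hq
        refine ⟨b₁ * b₂, Subalgebra.mul_mem _ hb₁ hb₂, ?_, ?_⟩
        · rw [pow_succ]; exact Ideal.mul_mem_mul hb₁m hb₂m
        · have : p * q - b₁ * b₂ = (p - b₁) * q + b₁ * (q - b₂) := by ring
          rw [this]
          refine Ideal.add_mem _ ?_ ?_
          · rw [pow_succ (maximalIdeal A) (j + 1)]
            exact Ideal.mul_mem_mul hpb hq
          · have : maximalIdeal A ^ (j + 1 + 1) = maximalIdeal A ^ j * maximalIdeal A ^ 2 := by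
              rw [← pow_add]
            rw [this]
            exact Ideal.mul_mem_mul hb₁m hqb
      · intro a b ha hb
        obtain ⟨b₁, hb₁, hb₁m, hab⟩ := ha
        obtain ⟨b₂, hb₂, hb₂m, hbb⟩ := hb
        refine ⟨b₁ + b₂, Subalgebra.add_mem _ hb₁ hb₂, Ideal.add_mem _ hb₁m hb₂m, ?_⟩
        have : a + b - (b₁ + b₂) = (a - b₁) + (b - b₂) := by ring
        rw [this]
        exact Ideal.add_mem _ hab hbb
  -- Step 3
  have step3 : ∀ j : ℕ, ∀ a : A, ∃ b ∈ B, a - b ∈ maximalIdeal A ^ j := by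
    intro j
    induction j with
    | zero => intro a; exact ⟨0, Subalgebra.zero_mem _, by simp⟩
    | succ j ih =>
      intro a
      obtain ⟨b, hb, hab⟩ := ih a
      obtain ⟨b', hb', -, hab'⟩ := step2 j (a - b) hab
      refine ⟨b + b', Subalgebra.add_mem _ hb hb', ?_⟩
      have : a - (b + b') = a - b - b' := by ring
      rw [this]
      exact hab'
  rw [eq_top_iff]
  intro a _
  obtain ⟨b, hb, hab⟩ := step3 n a
  rw [hn, Ideal.mem_bot, sub_eq_zero] at hab
  rw [hab]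
  exact hb

/-- A representative in `𝔪_A` of a class of the cotangent space. -/
lemma tangent_exists_rep (hA : IsResAlg 𝒪 A) (v : TangentCot 𝒪 A) :
    ∃ a ∈ maximalIdeal A, tangentMk 𝒪 A a = v := by
  obtain ⟨a, rfl⟩ := tangentMk_surjective v
  obtain ⟨c, hc⟩ := tangent_exists_sub_mem hA a
  exact ⟨a - algebraMap 𝒪 A c, hc, by rw [map_sub, tangentMk_algebraMap, sub_zero]⟩

/-- **D2, generators.** If `A` is a finite local `𝒪`-algebra with residue field `k`, nilpotent
maximal ideal, and at most `N` tangent vectors `A → k[ε]`, then `A` is generated as an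
`𝒪`-algebra by `N` elements of `𝔪_A`. -/
theorem tangent_exists_generators (hA : IsResAlg 𝒪 A) [Finite A] [Finite (ResidueField 𝒪)]
    {n : ℕ} (hn : maximalIdeal A ^ n = ⊥) {N : ℕ} (hN : Nat.card (TangentHom 𝒪 A) ≤ N) :
    ∃ x : Fin N → A, (∀ i, x i ∈ maximalIdeal A) ∧ Algebra.adjoin 𝒪 (Set.range x) = ⊤ := by
  haveI : Finite (TangentCot 𝒪 A) := Finite.of_surjective _ (tangentMk_surjective (𝒪 := 𝒪) (A := A))
  have hle : Nat.card (TangentCot 𝒪 A) ≤ N := (tangentCot_card_le hA).trans hN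
  let e := Finite.equivFin (TangentCot 𝒪 A)
  choose rep hrep hrep' using tangent_exists_rep (𝒪 := 𝒪) (A := A) hA
  let g : Fin N → TangentCot 𝒪 A := fun i =>
    if h : i.val < Nat.card (TangentCot 𝒪 A) then e.symm ⟨i.val, h⟩ else 0
  refine ⟨fun i => rep (g i), fun i => hrep _, ?_⟩
  refine tangent_adjoin_eq_top hA hn _ fun v => ?_
  refine ⟨⟨(e v).val, lt_of_lt_of_le (e v).2 hle⟩, ?_⟩
  rw [hrep']
  show (if h : (e v).val < Nat.card (TangentCot 𝒪 A) then e.symm ⟨(e v).val, h⟩ else 0) = v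
  rw [dif_pos (e v).2]
  simp

end Generators

section Bound

open MvPolynomial

variable (𝒪 : Type) [CommRing 𝒪] [IsLocalRing 𝒪]

/-- The maximal ideal `(𝔪_𝒪, X₁, …, X_N)` of `𝒪[X₁, …, X_N]`. -/
noncomputable def tangentIdeal (N : ℕ) : Ideal (MvPolynomial (Fin N) 𝒪) :=
  Ideal.span (Set.range X) ⊔ Ideal.map C (maximalIdeal 𝒪)

/-- The bound of D2: the cardinality of `𝒪[X₁, …, X_N] / (𝔪_𝒪, X)^n`. -/
noncomputable def tangentBound (N n : ℕ) : ℕ :=
  Nat.card (MvPolynomial (Fin N) 𝒪 ⧸ tangentIdeal 𝒪 N ^ n)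

lemma tangentIdeal_fg [IsNoetherianRing 𝒪] (N : ℕ) : (tangentIdeal 𝒪 N).FG :=
  Submodule.FG.sup (Submodule.fg_span (Set.finite_range _))
    (Ideal.FG.map (IsNoetherian.noetherian _) _)

lemma tangent_finite_quotient_tangentIdeal [Finite (ResidueField 𝒪)] (N : ℕ) :
    Finite (MvPolynomial (Fin N) 𝒪 ⧸ tangentIdeal 𝒪 N) := by
  let f : 𝒪 →+* MvPolynomial (Fin N) 𝒪 ⧸ tangentIdeal 𝒪 N :=
    (Ideal.Quotient.mk _).comp C
  have hf : ∀ c ∈ maximalIdeal 𝒪, f c = 0 := fun c hc =>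
    Ideal.Quotient.eq_zero_iff_mem.2 (Ideal.mem_sup_right (Ideal.mem_map_of_mem _ hc))
  let g : ResidueField 𝒪 →+* MvPolynomial (Fin N) 𝒪 ⧸ tangentIdeal 𝒪 N :=
    Ideal.Quotient.lift (maximalIdeal 𝒪) f hf
  refine Finite.of_surjective g ?_
  intro y
  obtain ⟨p, rfl⟩ := Ideal.Quotient.mk_surjective y
  refine ⟨residue 𝒪 (constantCoeff p), ?_⟩
  show Ideal.Quotient.lift (maximalIdeal 𝒪) f hf (Ideal.Quotient.mk _ (constantCoeff p)) = _
  rw [Ideal.Quotient.lift_mk]
  show Ideal.Quotient.mk _ (C (constantCoeff p)) = Ideal.Quotient.mk _ p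
  rw [eq_comm, Ideal.Quotient.eq]
  refine Ideal.mem_sup_left ?_
  have h1 : p - C (constantCoeff p) ∈ idealOfVars (Fin N) 𝒪 ^ 1 := by
    rw [mem_pow_idealOfVars_iff']
    intro x hx
    have hx0 : x = 0 := by
      have : Finsupp.degree x = 0 := by omega
      exact (Finsupp.degree_eq_zero_iff x).1 this
    subst hx0
    simp [constantCoeff_eq]
  simpa using h1

lemma tangent_finite_quotient_pow [IsNoetherianRing 𝒪] [Finite (ResidueField 𝒪)] (N n : ℕ) :
    Finite (MvPolynomial (Fin N) 𝒪 ⧸ tangentIdeal 𝒪 N ^ n) :=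
  haveI := tangent_finite_quotient_tangentIdeal 𝒪 N
  Ideal.finite_quotient_pow (tangentIdeal_fg 𝒪 N) n

variable {𝒪}
variable {A : Type} [CommRing A] [IsLocalRing A] [Algebra 𝒪 A]

/-- **D2, cardinality bound.** A finite local `𝒪`-algebra `A` with residue field `k`, with
`𝔪_A ^ n = 0` and at most `N` tangent vectors has at most `tangentBound 𝒪 N n` elements. -/
theorem tangent_card_le [IsNoetherianRing 𝒪] [Finite (ResidueField 𝒪)] (hA : IsResAlg 𝒪 A)
    [Finite A] {n : ℕ} (hn : maximalIdeal A ^ n = ⊥) {N : ℕ}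
    (hN : Nat.card (TangentHom 𝒪 A) ≤ N) : Nat.card A ≤ tangentBound 𝒪 N n := by
  obtain ⟨x, hx, hadj⟩ := tangent_exists_generators hA hn hN
  let ψ : MvPolynomial (Fin N) 𝒪 →ₐ[𝒪] A := aeval x
  have hψ : Function.Surjective ψ := by
    rw [← AlgHom.range_eq_top, ← Algebra.adjoin_range_eq_range_aeval]
    exact hadj
  have hle : tangentIdeal 𝒪 N ≤ Ideal.comap (ψ : MvPolynomial (Fin N) 𝒪 →+* A) (maximalIdeal A) := by
    refine sup_le ?_ ?_
    · rw [Ideal.span_le]
      rintro _ ⟨i, rfl⟩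
      show ψ (X i) ∈ maximalIdeal A
      simpa [ψ] using hx i
    · rw [Ideal.map_le_iff_le_comap]
      intro c hc
      show ψ (C c) ∈ maximalIdeal A
      have : ψ (C c) = algebraMap 𝒪 A c := by simp [ψ]
      rw [this]
      exact (tangent_algebraMap_mem_iff hA c).2 hc
  have hker : ∀ p ∈ tangentIdeal 𝒪 N ^ n, (ψ : MvPolynomial (Fin N) 𝒪 →+* A) p = 0 := by
    intro p hp
    have h1 : p ∈ Ideal.comap (ψ : MvPolynomial (Fin N) 𝒪 →+* A) (maximalIdeal A ^ n) :=
      Ideal.le_comap_pow _ n (Ideal.pow_right_mono hle n hp)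
    rw [hn] at h1
    simpa using h1
  haveI := tangent_finite_quotient_pow 𝒪 N n
  refine Nat.card_le_card_of_surjective
    (Ideal.Quotient.lift (tangentIdeal 𝒪 N ^ n) (ψ : MvPolynomial (Fin N) 𝒪 →+* A) hker) ?_
  intro a
  obtain ⟨p, rfl⟩ := hψ a
  exact ⟨Ideal.Quotient.mk _ p, by simp⟩

end Bound

end Fermat.Agent.S53


end ZBS53_002_3

/-! ### bundled: `Fermat.Agent.TW.PowerSurj` -/
section ZBS53_002_4
/-
S56 (Taylor–Wiles primes), piece **TW-alg** (helper26): the commutative algebra step.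

`R` a complete Noetherian local `𝒪`-algebra with residue field covered by `𝒪` (`𝒪` complete local).
* `psjEval I y hy : 𝒪⟦X⟧ →ₐ[𝒪] R`, `X i ↦ y i`, for `y i ∈ I`, `R` `I`-adically complete;
* `psj_surjective`: if `𝔪_R ≤ (y) + 𝔪_𝒪 R + 𝔪_R²` then every `γ : 𝒪⟦X⟧ →ₐ[𝒪] R` with `γ (X i) = y i`
  is surjective;
* `psj_exists_surjective_of_finrank_le`: if the relative cotangent space
  `𝔪_R / (𝔪_R² + 𝔪_𝒪 R)` (`S53.TangentCot`) has dimension `≤ r`, there is a surjection
  `𝒪⟦X₁,…,X_r⟧ ↠ R`;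
* `psj_exists_surjective_of_card_le`: the same if `R` has at most `|k|^r` tangent vectors
  `R → k[ε]` (`S53.TangentHom`), `k` finite.
-/

set_option autoImplicit false
set_option linter.unusedSectionVars false
set_option linter.style.haveILetI false

namespace Fermat.Agent.TW

open IsLocalRing MvPowerSeries Fermat.Agent.S53

section Eval

variable {𝒪 : Type*} [CommRing 𝒪] {R : Type*} [CommRing R] [Algebra 𝒪 R]
variable {σ : Type*} [Finite σ]

/-- The images of `y i ∈ I` in `R ⧸ I ^ n` are nilpotent. -/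
theorem psj_isNilpotent_mk (I : Ideal R) (y : σ → R) (hy : ∀ i, y i ∈ I) (n : ℕ) (i : σ) :
    IsNilpotent (Ideal.Quotient.mk (I ^ n) (y i)) :=
  ⟨n, by rw [← map_pow, Ideal.Quotient.eq_zero_iff_mem]; exact Ideal.pow_mem_pow (hy i) n⟩

/-- Compatibility of the evaluations modulo `I ^ n`. -/
theorem psj_compat (𝒪 : Type*) [CommRing 𝒪] {R : Type*} [CommRing R] [Algebra 𝒪 R]
    {σ : Type*} [Finite σ] (I : Ideal R) (y : σ → R) (hy : ∀ i, y i ∈ I) {m n : ℕ}
    (hle : m ≤ n) :
    (Ideal.Quotient.factorₐ 𝒪 (Ideal.pow_le_pow_right hle)).comp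
        (evNilp 𝒪 (fun i => Ideal.Quotient.mk (I ^ n) (y i)) (psj_isNilpotent_mk I y hy n)) =
      evNilp 𝒪 (fun i => Ideal.Quotient.mk (I ^ m) (y i)) (psj_isNilpotent_mk I y hy m) := by
  refine mvPowerSeries_algHom_ext_of_isNilpotent _ _ ?_ ?_
  · intro i
    have h : ((Ideal.Quotient.factorₐ 𝒪 (Ideal.pow_le_pow_right hle)).comp
        (evNilp 𝒪 (fun i => Ideal.Quotient.mk (I ^ n) (y i))
          (psj_isNilpotent_mk I y hy n))) (X i) = Ideal.Quotient.mk (I ^ m) (y i) := by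
      rw [AlgHom.comp_apply, evNilp_X]
      rfl
    rw [h]
    exact psj_isNilpotent_mk I y hy m i
  · intro i
    rw [AlgHom.comp_apply, evNilp_X, evNilp_X]
    rfl

/-- Evaluation of power series at elements `y i ∈ I` of an `I`-adically complete ring. -/
noncomputable def psjEval (𝒪 : Type*) [CommRing 𝒪] {R : Type*} [CommRing R] [Algebra 𝒪 R]
    {σ : Type*} [Finite σ] (I : Ideal R) [IsAdicComplete I R] (y : σ → R)
    (hy : ∀ i, y i ∈ I) : MvPowerSeries σ 𝒪 →ₐ[𝒪] R :=
  IsAdicComplete.liftAlgHom I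
    (fun n => evNilp 𝒪 (fun i => Ideal.Quotient.mk (I ^ n) (y i)) (psj_isNilpotent_mk I y hy n))
    (fun hle => psj_compat 𝒪 I y hy hle)

theorem psjEval_mk (I : Ideal R) [IsAdicComplete I R] (y : σ → R) (hy : ∀ i, y i ∈ I) (n : ℕ)
    (f : MvPowerSeries σ 𝒪) :
    Ideal.Quotient.mk (I ^ n) (psjEval 𝒪 I y hy f) =
      evNilp 𝒪 (fun i => Ideal.Quotient.mk (I ^ n) (y i)) (psj_isNilpotent_mk I y hy n) f :=
  IsAdicComplete.mk_liftAlgHom I
    (fun n => evNilp 𝒪 (fun i => Ideal.Quotient.mk (I ^ n) (y i)) (psj_isNilpotent_mk I y hy n))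
    (fun hle => psj_compat 𝒪 I y hy hle) n f

theorem psjEval_X (I : Ideal R) [IsAdicComplete I R] (y : σ → R) (hy : ∀ i, y i ∈ I) (i : σ) :
    psjEval 𝒪 I y hy (X i) = y i := by
  rw [← sub_eq_zero]
  refine IsHausdorff.haus (IsAdicComplete.toIsHausdorff (I := I) (M := R)) _ fun n => ?_
  rw [SModEq.sub_mem, sub_zero, smul_eq_mul, Ideal.mul_top, ← Ideal.Quotient.eq, psjEval_mk,
    evNilp_X]

/-- Existence form. -/
theorem psj_exists_algHom (I : Ideal R) [IsAdicComplete I R] (y : σ → R) (hy : ∀ i, y i ∈ I) :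
    ∃ γ : MvPowerSeries σ 𝒪 →ₐ[𝒪] R, ∀ i, γ (X i) = y i :=
  ⟨psjEval 𝒪 I y hy, psjEval_X I y hy⟩

end Eval

section Surj

variable {𝒪 : Type*} [CommRing 𝒪] [IsLocalRing 𝒪]
variable {R : Type*} [CommRing R] [IsLocalRing R] [Algebra 𝒪 R]
variable {σ : Type*} [Finite σ]

/-- If `𝒪 → R / 𝔪_R` is onto, then `𝔪_𝒪` maps into `𝔪_R`. -/
theorem psj_algebraMap_mem (hres : Function.Surjective (residue R ∘ algebraMap 𝒪 R)) {c : 𝒪}
    (hc : c ∈ maximalIdeal 𝒪) : algebraMap 𝒪 R c ∈ maximalIdeal R := by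
  by_contra hnot
  have hu : IsUnit (algebraMap 𝒪 R c) := by
    by_contra h
    exact hnot ((IsLocalRing.mem_maximalIdeal _).2 h)
  -- the kernel of `𝒪 → k_R` is a maximal ideal, so it is `𝔪_𝒪`
  let φ : 𝒪 →+* ResidueField R := (residue R).comp (algebraMap 𝒪 R)
  have hφ : Function.Surjective φ := hres
  have hker : (RingHom.ker φ).IsMaximal := RingHom.ker_isMaximal_of_surjective φ hφ
  have hle : RingHom.ker φ = maximalIdeal 𝒪 := IsLocalRing.eq_maximalIdeal hker
  have hcφ : φ c = 0 := by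
    have : c ∈ RingHom.ker φ := hle ▸ hc
    exact this
  have hcu : IsUnit (φ c) := (hu.map (residue R))
  rw [hcφ] at hcu
  exact not_isUnit_zero hcu

theorem psj_map_le (hres : Function.Surjective (residue R ∘ algebraMap 𝒪 R)) :
    (maximalIdeal 𝒪).map (algebraMap 𝒪 R) ≤ maximalIdeal R := by
  rw [Ideal.map_le_iff_le_comap]
  intro c hc
  exact psj_algebraMap_mem hres hc

/-- Every element of `R` is congruent to an element of `𝒪` modulo `𝔪_R`. -/
theorem psj_exists_sub_mem (hres : Function.Surjective (residue R ∘ algebraMap 𝒪 R)) (x : R) :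
    ∃ c : 𝒪, x - algebraMap 𝒪 R c ∈ maximalIdeal R := by
  obtain ⟨c, hc⟩ := hres (residue R x)
  refine ⟨c, ?_⟩
  rw [← Ideal.Quotient.eq]
  exact hc.symm

variable [IsNoetherianRing R]

/-- Nakayama: generators of `𝔪_R` modulo `𝔪_R²`. -/
theorem psj_maximalIdeal_le (y : σ → R)
    (hgen : maximalIdeal R ≤ Ideal.span (Set.range y) ⊔ (maximalIdeal 𝒪).map (algebraMap 𝒪 R) ⊔
      maximalIdeal R ^ 2) :
    maximalIdeal R ≤ Ideal.span (Set.range y) ⊔ (maximalIdeal 𝒪).map (algebraMap 𝒪 R) := by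
  refine Submodule.le_of_le_smul_of_le_jacobson_bot (I := maximalIdeal R)
    (IsNoetherian.noetherian _) ?_ ?_
  · rw [IsLocalRing.jacobson_eq_maximalIdeal ⊥ bot_ne_top]
  · rw [smul_eq_mul, ← pow_two]
    exact hgen

variable [IsAdicComplete (maximalIdeal 𝒪) 𝒪]

/-- `𝒪 → R ⧸ (y)` is onto. -/
theorem psj_surjective_mk_algebraMap (hres : Function.Surjective (residue R ∘ algebraMap 𝒪 R))
    (y : σ → R)
    (hgen : maximalIdeal R ≤ Ideal.span (Set.range y) ⊔ (maximalIdeal 𝒪).map (algebraMap 𝒪 R) ⊔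
      maximalIdeal R ^ 2) :
    Function.Surjective
      ((Ideal.Quotient.mk (Ideal.span (Set.range y))).comp (algebraMap 𝒪 R)) := by
  set 𝔞 : Ideal R := Ideal.span (Set.range y) with h𝔞
  set 𝔭 : Ideal R := (maximalIdeal 𝒪).map (algebraMap 𝒪 R) with h𝔭
  have hnak := psj_maximalIdeal_le y hgen
  set f : 𝒪 →+* R ⧸ 𝔞 := (Ideal.Quotient.mk 𝔞).comp (algebraMap 𝒪 R) with hf
  have hmap : (maximalIdeal 𝒪).map f = 𝔭.map (Ideal.Quotient.mk 𝔞) := by
    rw [hf, ← Ideal.map_map]
  have h1 : IsHausdorff 𝔭 (R ⧸ 𝔞) := by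
    refine IsHausdorff.of_le_jacobson 𝔭 (R ⧸ 𝔞) ?_
    rw [IsLocalRing.jacobson_eq_maximalIdeal ⊥ bot_ne_top]
    exact psj_map_le hres
  have h2 : IsHausdorff (𝔭.map (algebraMap R (R ⧸ 𝔞))) (R ⧸ 𝔞) :=
    (IsHausdorff.map_algebraMap_iff (R := R) (S := R ⧸ 𝔞) (M := R ⧸ 𝔞) (I := 𝔭)).2 h1
  haveI haus : IsHausdorff ((maximalIdeal 𝒪).map f) (R ⧸ 𝔞) := by
    rw [hmap]
    exact h2
  refine surjective_of_mk_map_comp_surjective (I := maximalIdeal 𝒪) f ?_
  intro z
  obtain ⟨z', rfl⟩ := Ideal.Quotient.mk_surjective z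
  obtain ⟨x, rfl⟩ := Ideal.Quotient.mk_surjective z'
  obtain ⟨c, hc⟩ := psj_exists_sub_mem hres x
  refine ⟨c, ?_⟩
  rw [RingHom.comp_apply, Ideal.Quotient.eq, hf, RingHom.comp_apply, ← map_sub, hmap]
  have hmem : algebraMap 𝒪 R c - x ∈ 𝔞 ⊔ 𝔭 := by
    have := hnak hc
    rw [← neg_sub]
    exact (𝔞 ⊔ 𝔭).neg_mem this
  obtain ⟨a, ha, b, hb, hab⟩ := Submodule.mem_sup.1 hmem
  rw [← hab, map_add, Ideal.Quotient.eq_zero_iff_mem.2 ha, zero_add]
  exact Ideal.mem_map_of_mem _ hb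

/-- **TW-alg, generator form.** A power series evaluation `γ : 𝒪⟦X⟧ → R`, `X i ↦ y i`, is onto as
soon as the `y i` generate `𝔪_R` modulo `𝔪_𝒪 R + 𝔪_R²`. -/
theorem psj_surjective (hres : Function.Surjective (residue R ∘ algebraMap 𝒪 R))
    (y : σ → R) (hy : ∀ i, y i ∈ maximalIdeal R)
    (hgen : maximalIdeal R ≤ Ideal.span (Set.range y) ⊔ (maximalIdeal 𝒪).map (algebraMap 𝒪 R) ⊔
      maximalIdeal R ^ 2)
    (γ : MvPowerSeries σ 𝒪 →ₐ[𝒪] R) (hγ : ∀ i, γ (X i) = y i) : Function.Surjective γ := by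
  set 𝔞 : Ideal R := Ideal.span (Set.range y) with h𝔞
  set xI : Ideal (MvPowerSeries σ 𝒪) := Ideal.span (Set.range X) with hxI
  have hmap : xI.map (γ : MvPowerSeries σ 𝒪 →+* R) = 𝔞 := by
    rw [hxI, Ideal.map_span, h𝔞]
    congr 1
    ext z
    constructor
    · rintro ⟨_, ⟨i, rfl⟩, rfl⟩
      exact ⟨i, (hγ i).symm⟩
    · rintro ⟨i, rfl⟩
      exact ⟨X i, ⟨i, rfl⟩, hγ i⟩
  have h𝔞le : 𝔞 ≤ maximalIdeal R := by
    rw [h𝔞, Ideal.span_le]
    rintro _ ⟨i, rfl⟩
    exact hy i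
  haveI haus : IsHausdorff (xI.map (γ : MvPowerSeries σ 𝒪 →+* R)) R := by
    rw [hmap]
    refine IsHausdorff.of_le_jacobson 𝔞 R ?_
    rw [IsLocalRing.jacobson_eq_maximalIdeal ⊥ bot_ne_top]
    exact h𝔞le
  have hsurj : Function.Surjective (γ : MvPowerSeries σ 𝒪 →+* R) := by
    refine surjective_of_mk_map_comp_surjective (I := xI) (γ : MvPowerSeries σ 𝒪 →+* R) ?_
    intro z
    obtain ⟨x, rfl⟩ := Ideal.Quotient.mk_surjective z
    obtain ⟨c, hc⟩ := psj_surjective_mk_algebraMap hres y hgen (Ideal.Quotient.mk 𝔞 x)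
    refine ⟨algebraMap 𝒪 (MvPowerSeries σ 𝒪) c, ?_⟩
    rw [RingHom.comp_apply, Ideal.Quotient.eq, hmap]
    have h1 : (γ : MvPowerSeries σ 𝒪 →+* R) (algebraMap 𝒪 (MvPowerSeries σ 𝒪) c) =
        algebraMap 𝒪 R c := γ.commutes c
    rw [h1, ← Ideal.Quotient.eq]
    exact hc
  exact hsurj

/-- **TW-alg, existence form.** -/
theorem psj_exists_surjective [IsAdicComplete (maximalIdeal R) R]
    (hres : Function.Surjective (residue R ∘ algebraMap 𝒪 R))
    (y : σ → R) (hy : ∀ i, y i ∈ maximalIdeal R)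
    (hgen : maximalIdeal R ≤ Ideal.span (Set.range y) ⊔ (maximalIdeal 𝒪).map (algebraMap 𝒪 R) ⊔
      maximalIdeal R ^ 2) :
    ∃ γ : MvPowerSeries σ 𝒪 →ₐ[𝒪] R, (∀ i, γ (X i) = y i) ∧ Function.Surjective γ :=
  ⟨psjEval 𝒪 (maximalIdeal R) y hy, psjEval_X _ y hy,
    psj_surjective hres y hy hgen _ (psjEval_X _ y hy)⟩

end Surj

section Tangent

variable {𝒪 : Type} [CommRing 𝒪] [IsLocalRing 𝒪]
variable {R : Type} [CommRing R] [IsLocalRing R] [Algebra 𝒪 R]

/-- `IsResAlg` from the surjectivity of `𝒪 → R / 𝔪_R`. -/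
theorem psj_isResAlg (hres : Function.Surjective (residue R ∘ algebraMap 𝒪 R)) :
    IsResAlg 𝒪 R where
  isLocalHom := ⟨fun c hc => by
    by_contra h
    have h1 : c ∈ maximalIdeal 𝒪 := (IsLocalRing.mem_maximalIdeal _).2 h
    exact (IsLocalRing.mem_maximalIdeal _).1 (psj_algebraMap_mem hres h1) hc⟩
  residue_surjective := hres

instance psj_isScalarTower : IsScalarTower 𝒪 (ResidueField 𝒪) (TangentCot 𝒪 R) :=
  IsScalarTower.of_algebraMap_smul fun c v => tangentCot_residue_smul c v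

/-- The `k`-span of the classes of a family `y` is the image of the `𝒪`-span. -/
theorem psj_mem_span_iff {ι : Type} (y : ι → R) (v : TangentCot 𝒪 R) :
    v ∈ Submodule.span (ResidueField 𝒪) (Set.range fun i => tangentMk 𝒪 R (y i)) ↔
      v ∈ Submodule.span 𝒪 (Set.range fun i => tangentMk 𝒪 R (y i)) := by
  rw [← Submodule.restrictScalars_span 𝒪 (ResidueField 𝒪)
    (IsLocalRing.residue_surjective (R := 𝒪))]
  rfl

/-- An element of the `𝒪`-span of the classes of the `y i` is the class of an element of the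
ideal generated by the `y i`. -/
theorem psj_exists_of_mem_span {ι : Type} (y : ι → R) (v : TangentCot 𝒪 R)
    (hv : v ∈ Submodule.span 𝒪 (Set.range fun i => tangentMk 𝒪 R (y i))) :
    ∃ a ∈ Ideal.span (Set.range y), tangentMk 𝒪 R a = v := by
  induction hv using Submodule.span_induction with
  | mem x hx =>
    obtain ⟨i, rfl⟩ := hx
    exact ⟨y i, Ideal.subset_span ⟨i, rfl⟩, rfl⟩
  | zero => exact ⟨0, Ideal.zero_mem _, map_zero _⟩
  | add x z _ _ hx hz =>
    obtain ⟨a, ha, rfl⟩ := hx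
    obtain ⟨b, hb, rfl⟩ := hz
    exact ⟨a + b, Ideal.add_mem _ ha hb, map_add _ _ _⟩
  | smul c x _ hx =>
    obtain ⟨a, ha, rfl⟩ := hx
    refine ⟨c • a, ?_, map_smul _ _ _⟩
    rw [Algebra.smul_def]
    exact Ideal.mul_mem_left _ _ ha

/-- If the classes of the `y i ∈ 𝔪_R` span the relative cotangent space, then the `y i` generate
`𝔪_R` modulo `𝔪_𝒪 R + 𝔪_R²`. -/
theorem psj_gen_of_span_eq_top (hres : Function.Surjective (residue R ∘ algebraMap 𝒪 R))
    {ι : Type} (y : ι → R) (hy : ∀ i, y i ∈ maximalIdeal R)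
    (hspan : Submodule.span (ResidueField 𝒪) (Set.range fun i => tangentMk 𝒪 R (y i)) = ⊤) :
    maximalIdeal R ≤ Ideal.span (Set.range y) ⊔ (maximalIdeal 𝒪).map (algebraMap 𝒪 R) ⊔
      maximalIdeal R ^ 2 := by
  have hA := psj_isResAlg hres
  intro x hx
  have hv : tangentMk 𝒪 R x ∈
      Submodule.span (ResidueField 𝒪) (Set.range fun i => tangentMk 𝒪 R (y i)) := by
    rw [hspan]; exact Submodule.mem_top
  rw [psj_mem_span_iff] at hv
  obtain ⟨a, ha, hax⟩ := psj_exists_of_mem_span y _ hv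
  have h0 : tangentMk 𝒪 R (x - a) = 0 := by rw [map_sub, hax, sub_self]
  rw [tangentMk_eq_zero_iff] at h0
  obtain ⟨u, hu, z, hz, huz⟩ := Submodule.mem_sup.1 h0
  obtain ⟨c, rfl⟩ := hz
  have hu' : u ∈ maximalIdeal R ^ 2 ⊔ Ideal.map (algebraMap 𝒪 R) (maximalIdeal 𝒪) := hu
  have hale : Ideal.span (Set.range y) ≤ maximalIdeal R := by
    rw [Ideal.span_le]
    rintro _ ⟨i, rfl⟩
    exact hy i
  have hule : maximalIdeal R ^ 2 ⊔ Ideal.map (algebraMap 𝒪 R) (maximalIdeal 𝒪) ≤
      maximalIdeal R :=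
    sup_le (Ideal.pow_le_self (by norm_num)) (psj_map_le hres)
  -- `c • 1 ∈ 𝔪_R`, hence `c ∈ 𝔪_𝒪`
  have hc1 : algebraMap 𝒪 R c = x - a - u := by
    have : (Algebra.linearMap 𝒪 R) c = algebraMap 𝒪 R c := rfl
    rw [this] at huz
    linear_combination huz
  have hcm : algebraMap 𝒪 R c ∈ maximalIdeal R := by
    rw [hc1]
    exact Ideal.sub_mem _ (Ideal.sub_mem _ hx (hale ha)) (hule hu')
  have hc : c ∈ maximalIdeal 𝒪 := (tangent_algebraMap_mem_iff hA c).1 hcm
  have hx' : x = a + u + algebraMap 𝒪 R c := by rw [hc1]; ring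
  rw [hx']
  obtain ⟨e, he, f, hf, rfl⟩ := Submodule.mem_sup.1 hu'
  have h1 : a ∈ Ideal.span (Set.range y) ⊔ (maximalIdeal 𝒪).map (algebraMap 𝒪 R) ⊔
      maximalIdeal R ^ 2 := Ideal.mem_sup_left (Ideal.mem_sup_left ha)
  have h2 : e ∈ Ideal.span (Set.range y) ⊔ (maximalIdeal 𝒪).map (algebraMap 𝒪 R) ⊔
      maximalIdeal R ^ 2 := Ideal.mem_sup_right he
  have h3 : f ∈ Ideal.span (Set.range y) ⊔ (maximalIdeal 𝒪).map (algebraMap 𝒪 R) ⊔
      maximalIdeal R ^ 2 := Ideal.mem_sup_left (Ideal.mem_sup_right hf)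
  have h4 : algebraMap 𝒪 R c ∈ Ideal.span (Set.range y) ⊔
      (maximalIdeal 𝒪).map (algebraMap 𝒪 R) ⊔ maximalIdeal R ^ 2 :=
    Ideal.mem_sup_left (Ideal.mem_sup_right (Ideal.mem_map_of_mem _ hc))
  exact Ideal.add_mem _ (Ideal.add_mem _ h1 (Ideal.add_mem _ h2 h3)) h4

variable [IsNoetherianRing R]

/-- The relative cotangent space of a Noetherian local `𝒪`-algebra with residue field `k` is
finite dimensional over `k`. -/
theorem psj_finite_tangentCot (hres : Function.Surjective (residue R ∘ algebraMap 𝒪 R)) :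
    Module.Finite (ResidueField 𝒪) (TangentCot 𝒪 R) := by
  classical
  have hA := psj_isResAlg hres
  obtain ⟨s, hs⟩ : (maximalIdeal R).FG := IsNoetherian.noetherian _
  refine ⟨⟨s.image (tangentMk 𝒪 R), ?_⟩⟩
  rw [eq_top_iff]
  rintro v -
  obtain ⟨a, ha, rfl⟩ := tangent_exists_rep hA v
  rw [← hs] at ha
  have key : ∀ m ∈ Ideal.span (s : Set R), tangentMk 𝒪 R m ∈
      Submodule.span (ResidueField 𝒪) ((s.image (tangentMk 𝒪 R) : Finset _) : Set _) := by
    intro m hm
    induction hm using Submodule.span_induction with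
    | mem x hx =>
      refine Submodule.subset_span ?_
      rw [Finset.coe_image]
      exact ⟨x, hx, rfl⟩
    | zero => rw [map_zero]; exact Submodule.zero_mem _
    | add x z _ _ hx hz => rw [map_add]; exact Submodule.add_mem _ hx hz
    | smul c x hxs hx =>
      have hxm : x ∈ maximalIdeal R := by
        rw [← hs]; exact hxs
      rw [smul_eq_mul, tangentMk_mul hA, (tangentRes_eq_zero_iff hA x).2 hxm, zero_smul,
        add_zero]
      exact Submodule.smul_mem _ _ hx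
  exact key a ha

variable [IsAdicComplete (maximalIdeal 𝒪) 𝒪] [IsAdicComplete (maximalIdeal R) R]

/-- **TW-alg, dimension form.** If the relative cotangent space `𝔪_R / (𝔪_R² + 𝔪_𝒪 R)` has
dimension at most `r` over `k`, then `R` is a quotient of `𝒪⟦X₁, …, X_r⟧`. -/
theorem psj_exists_surjective_of_finrank_le
    (hres : Function.Surjective (residue R ∘ algebraMap 𝒪 R)) (r : ℕ)
    (hr : Module.finrank (ResidueField 𝒪) (TangentCot 𝒪 R) ≤ r) :
    ∃ γ : MvPowerSeries (Fin r) 𝒪 →ₐ[𝒪] R, Function.Surjective γ := by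
  have hA := psj_isResAlg hres
  haveI := psj_finite_tangentCot (𝒪 := 𝒪) (R := R) hres
  set d := Module.finrank (ResidueField 𝒪) (TangentCot 𝒪 R) with hd
  let b := Module.finBasis (ResidueField 𝒪) (TangentCot 𝒪 R)
  let v : Fin r → TangentCot 𝒪 R := fun i => if h : i.val < d then b ⟨i.val, h⟩ else 0
  choose rep hrep hrep' using tangent_exists_rep (𝒪 := 𝒪) (A := R) hA
  let y : Fin r → R := fun i => rep (v i)
  have hy : ∀ i, y i ∈ maximalIdeal R := fun i => hrep _
  have hspan : Submodule.span (ResidueField 𝒪) (Set.range fun i => tangentMk 𝒪 R (y i)) = ⊤ := by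
    rw [eq_top_iff, ← b.span_eq, Submodule.span_le]
    rintro _ ⟨j, rfl⟩
    refine Submodule.subset_span ⟨⟨j.val, lt_of_lt_of_le j.2 hr⟩, ?_⟩
    show tangentMk 𝒪 R (rep (v ⟨j.val, _⟩)) = b j
    rw [hrep']
    show (if h : j.val < d then b ⟨j.val, h⟩ else 0) = b j
    rw [dif_pos j.2]
  obtain ⟨γ, -, hγ⟩ := psj_exists_surjective (𝒪 := 𝒪) hres y hy
    (psj_gen_of_span_eq_top hres y hy hspan)
  exact ⟨γ, hγ⟩

end Tangent

section Card

variable {𝒪 : Type} [CommRing 𝒪] [IsLocalRing 𝒪]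
variable {R : Type} [CommRing R] [IsLocalRing R] [Algebra 𝒪 R]

/-- A tangent vector `u : R → k[ε]` maps `𝔪_R` into `ε k`. -/
theorem psj_fst_eq_zero (u : TangentHom 𝒪 R) {m : R} (hm : m ∈ maximalIdeal R) :
    (u.1 m).fst = 0 := by
  by_contra h
  obtain ⟨c, hc⟩ := IsLocalRing.residue_surjective (R := 𝒪) (u.1 m).fst
  have hcu : IsUnit c := by
    by_contra hcn
    have : residue 𝒪 c = 0 := (residue_eq_zero_iff c).2 ((IsLocalRing.mem_maximalIdeal _).2 hcn)
    exact h (hc ▸ this)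
  have hxu : IsUnit (m - algebraMap 𝒪 R c) := by
    by_contra hxn
    have hx : m - algebraMap 𝒪 R c ∈ maximalIdeal R := (IsLocalRing.mem_maximalIdeal _).2 hxn
    have : algebraMap 𝒪 R c ∈ maximalIdeal R := by
      have := Ideal.sub_mem _ hm hx
      simpa using this
    exact (IsLocalRing.mem_maximalIdeal _).1 this (hcu.map (algebraMap 𝒪 R))
  have h1 : IsUnit ((u.1 (m - algebraMap 𝒪 R c)).fst) :=
    (hxu.map u.1).map (TrivSqZeroExt.fstHom (ResidueField 𝒪) (ResidueField 𝒪) (ResidueField 𝒪))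
  have h2 : (u.1 (m - algebraMap 𝒪 R c)).fst = 0 := by
    rw [map_sub, u.2 c, TrivSqZeroExt.fst_sub, TrivSqZeroExt.fst_inl, hc, sub_self]
  rw [h2] at h1
  exact not_isUnit_zero h1

/-- The first component of a tangent vector is the residue map. -/
theorem psj_fst_eq (hres : Function.Surjective (residue R ∘ algebraMap 𝒪 R))
    (u : TangentHom 𝒪 R) (a : R) : (u.1 a).fst = tangentRes (psj_isResAlg hres) a := by
  obtain ⟨c, hc⟩ := psj_exists_sub_mem hres a
  rw [tangentRes_eq_of_sub_mem (psj_isResAlg hres) hc]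
  have h := psj_fst_eq_zero u hc
  rw [map_sub, u.2 c, TrivSqZeroExt.fst_sub, TrivSqZeroExt.fst_inl, sub_eq_zero] at h
  exact h

variable [IsNoetherianRing R] [Finite (ResidueField 𝒪)]

/-- A Noetherian local `𝒪`-algebra with finite residue field `k` has finitely many tangent
vectors `R → k[ε]`. -/
theorem psj_finite_tangentHom (hres : Function.Surjective (residue R ∘ algebraMap 𝒪 R)) :
    Finite (TangentHom 𝒪 R) := by
  obtain ⟨s, hs⟩ : (maximalIdeal R).FG := IsNoetherian.noetherian _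
  haveI := tangent_finite_dualNumber (ResidueField 𝒪)
  let Φ : TangentHom 𝒪 R → (s → DualNumber (ResidueField 𝒪)) := fun u g => u.1 g
  refine Finite.of_injective Φ ?_
  intro u u' huu'
  have hs' : ∀ g ∈ s, u.1 g = u'.1 g := fun g hg => congrFun huu' ⟨g, hg⟩
  have hm : ∀ m ∈ Ideal.span (s : Set R), u.1 m = u'.1 m := by
    intro m hm
    induction hm using Submodule.span_induction with
    | mem x hx => exact hs' x hx
    | zero => rw [map_zero, map_zero]
    | add x z _ _ hx hz => rw [map_add, map_add, hx, hz]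
    | smul c x hxs hx =>
      have hxm : x ∈ maximalIdeal R := by rw [← hs]; exact hxs
      rw [smul_eq_mul, map_mul, map_mul, ← hx]
      have h0 := psj_fst_eq_zero u hxm
      have hc : (u.1 c).fst = (u'.1 c).fst := by rw [psj_fst_eq hres, psj_fst_eq hres]
      ext
      · simp [h0]
      · simp [h0, hc]
  apply Subtype.ext
  apply RingHom.ext
  intro a
  obtain ⟨c, hc⟩ := psj_exists_sub_mem hres a
  have ha : a = (a - algebraMap 𝒪 R c) + algebraMap 𝒪 R c := by ring
  rw [ha, map_add, map_add, u.2 c, u'.2 c, hm _ (hs ▸ hc)]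

/-- The dimension of the relative cotangent space is bounded by the number of tangent vectors. -/
theorem psj_finrank_le_of_card_le (hres : Function.Surjective (residue R ∘ algebraMap 𝒪 R))
    (r : ℕ) (h : Nat.card (TangentHom 𝒪 R) ≤ Nat.card (ResidueField 𝒪) ^ r) :
    Module.finrank (ResidueField 𝒪) (TangentCot 𝒪 R) ≤ r := by
  have hA := psj_isResAlg hres
  haveI := psj_finite_tangentCot (𝒪 := 𝒪) (R := R) hres
  haveI := psj_finite_tangentHom (𝒪 := 𝒪) (R := R) hres
  have h1 : Nat.card (ResidueField 𝒪) ^ Module.finrank (ResidueField 𝒪) (TangentCot 𝒪 R) ≤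
      Nat.card (ResidueField 𝒪) ^ r :=
    calc Nat.card (ResidueField 𝒪) ^ Module.finrank (ResidueField 𝒪) (TangentCot 𝒪 R)
        = Nat.card (ResidueField 𝒪) ^
          Module.finrank (ResidueField 𝒪) (Module.Dual (ResidueField 𝒪) (TangentCot 𝒪 R)) := by
          rw [Subspace.dual_finrank_eq]
      _ = Nat.card (Module.Dual (ResidueField 𝒪) (TangentCot 𝒪 R)) :=
          Module.natCard_eq_pow_finrank.symm
      _ ≤ Nat.card (TangentHom 𝒪 R) :=
          Nat.card_le_card_of_injective _ (tangentOfDual_injective hA)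
      _ ≤ Nat.card (ResidueField 𝒪) ^ r := h
  exact (Nat.pow_le_pow_iff_right Finite.one_lt_card).1 h1

variable [IsAdicComplete (maximalIdeal 𝒪) 𝒪] [IsAdicComplete (maximalIdeal R) R]

/-- **TW-alg, counting form.** If `R` has at most `|k| ^ r` tangent vectors `R → k[ε]`, then `R`
is a quotient of `𝒪⟦X₁, …, X_r⟧`. -/
theorem psj_exists_surjective_of_card_le
    (hres : Function.Surjective (residue R ∘ algebraMap 𝒪 R)) (r : ℕ)
    (h : Nat.card (TangentHom 𝒪 R) ≤ Nat.card (ResidueField 𝒪) ^ r) :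
    ∃ γ : MvPowerSeries (Fin r) 𝒪 →ₐ[𝒪] R, Function.Surjective γ :=
  psj_exists_surjective_of_finrank_le hres r (psj_finrank_le_of_card_le hres r h)

end Card

section Deformation

variable {𝒪 : Type} [CommRing 𝒪] [IsDomain 𝒪] [IsDiscreteValuationRing 𝒪]
  [IsAdicComplete (maximalIdeal 𝒪) 𝒪] [Finite (ResidueField 𝒪)]

/-- **TW-alg for deformation rings.** A universal deformation ring with at most `|k| ^ r` tangent
vectors is a quotient of `𝒪⟦X₁, …, X_r⟧`. -/
theorem psj_deformationRing_of_card_le {ρbar : ResidualGaloisRep (ResidueField 𝒪)}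
    {𝒟 : ∀ ⦃A : Type⦄ [CommRing A] [IsLocalRing A] [Algebra 𝒪 A], GaloisRepAdic A → Prop}
    (DQ : GaloisRep.DeformationRingData 𝒪 ρbar 𝒟) (r : ℕ)
    (h : Nat.card (TangentHom 𝒪 DQ.R) ≤ Nat.card (ResidueField 𝒪) ^ r) :
    ∃ γ : MvPowerSeries (Fin r) 𝒪 →ₐ[𝒪] DQ.R, Function.Surjective γ :=
  psj_exists_surjective_of_card_le DQ.residue_surjective r h

/-- The same in terms of the dimension of the relative cotangent space. -/
theorem psj_deformationRing_of_finrank_le {ρbar : ResidualGaloisRep (ResidueField 𝒪)}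
    {𝒟 : ∀ ⦃A : Type⦄ [CommRing A] [IsLocalRing A] [Algebra 𝒪 A], GaloisRepAdic A → Prop}
    (DQ : GaloisRep.DeformationRingData 𝒪 ρbar 𝒟) (r : ℕ)
    (h : Module.finrank (ResidueField 𝒪) (TangentCot 𝒪 DQ.R) ≤ r) :
    ∃ γ : MvPowerSeries (Fin r) 𝒪 →ₐ[𝒪] DQ.R, Function.Surjective γ :=
  psj_exists_surjective_of_finrank_le DQ.residue_surjective r h

end Deformation

end Fermat.Agent.TW


end ZBS53_002_4

/-! ### bundled: `Fermat.Agent.S53.Rigid` -/
section ZBS53_002_5

/-!
# S53, part C: the rigid normal form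

* `Fermat.Agent.S53.evalAt_framed` : `evalAt` is compatible with reduction mod `𝔪`.
* `Fermat.Agent.S53.Rigid.eq_of_conj` : two framed rigid lifts that are conjugate are equal.
* `Fermat.Agent.S53.exists_rigid_conj` : over a complete local ring every framed lift is conjugate
  (by a matrix `≡ 1 mod 𝔪`) to a framed rigid lift.
-/

set_option autoImplicit false

namespace Fermat.Agent.S53

open IsLocalRing

section EvalAt

variable {𝒪 : Type} [CommRing 𝒪] [IsLocalRing 𝒪]
variable {A : Type} [CommRing A] [IsLocalRing A] [Algebra 𝒪 A]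

set_option linter.unusedSectionVars false

lemma evalAt_apply (r : Gal →* M2 A) (e : Gal →₀ 𝒪) (i j : Fin 2) :
    evalAt r e i j = e.sum fun σ c => algebraMap 𝒪 A c * r σ i j := by
  unfold evalAt
  rw [Finsupp.sum, Finsupp.sum, Matrix.sum_apply]
  rfl

lemma mul_evalAt (g : M2 A) (r : Gal →* M2 A) (e : Gal →₀ 𝒪) :
    g * evalAt r e = e.sum fun σ c => algebraMap 𝒪 A c • (g * r σ) := by
  unfold evalAt
  rw [Finsupp.sum, Finsupp.sum, Finset.mul_sum]
  exact Finset.sum_congr rfl fun σ _ => by rw [Matrix.mul_smul]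

lemma evalAt_mul (g : M2 A) (r : Gal →* M2 A) (e : Gal →₀ 𝒪) :
    evalAt r e * g = e.sum fun σ c => algebraMap 𝒪 A c • (r σ * g) := by
  unfold evalAt
  rw [Finsupp.sum, Finsupp.sum, Finset.sum_mul]
  exact Finset.sum_congr rfl fun σ _ => by rw [Matrix.smul_mul]

lemma mul_evalAt_eq_evalAt_mul {g : M2 A} {r r' : Gal →* M2 A}
    (h : ∀ σ, g * r σ = r' σ * g) (e : Gal →₀ 𝒪) :
    g * evalAt r e = evalAt r' e * g := by
  rw [mul_evalAt, evalAt_mul]
  exact Finset.sum_congr rfl fun σ _ => by simp only [h]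

/-- `evalAt` is compatible with reduction modulo the maximal ideal. -/
theorem evalAt_framed (hloc : IsLocalHom (algebraMap 𝒪 A))
    {ρm : Gal →* M2 (ResidueField 𝒪)} {r : Gal →* M2 A} (hf : Framed A ρm r)
    (e : Gal →₀ 𝒪) (i j : Fin 2) (x : 𝒪)
    (hx : IsLocalRing.residue 𝒪 x = evalAt ρm e i j) :
    evalAt r e i j - algebraMap 𝒪 A x ∈ maximalIdeal A := by
  have hlift : ∀ σ : Gal, ∃ y : 𝒪, IsLocalRing.residue 𝒪 y = ρm σ i j := fun σ =>
    IsLocalRing.residue_surjective _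
  choose y hy using hlift
  set z : 𝒪 := e.sum fun σ c => c * y σ with hz
  have hzres : IsLocalRing.residue 𝒪 z = evalAt ρm e i j := by
    rw [evalAt_apply, hz, Finsupp.sum, Finsupp.sum, map_sum]
    refine Finset.sum_congr rfl fun σ _ => ?_
    rw [map_mul, hy, IsLocalRing.ResidueField.algebraMap_eq]
  have h1 : evalAt r e i j - algebraMap 𝒪 A z ∈ maximalIdeal A := by
    rw [evalAt_apply, hz, Finsupp.sum, Finsupp.sum, map_sum, ← Finset.sum_sub_distrib]
    refine Ideal.sum_mem _ fun σ _ => ?_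
    rw [map_mul, ← mul_sub]
    exact Ideal.mul_mem_left _ _ (hf σ i j (y σ) (hy σ))
  have h2 : algebraMap 𝒪 A (z - x) ∈ maximalIdeal A := by
    have hzx : z - x ∈ maximalIdeal 𝒪 := by
      rw [← IsLocalRing.residue_eq_zero_iff, map_sub, hzres, hx, sub_self]
    rw [IsLocalRing.mem_maximalIdeal, mem_nonunits_iff] at hzx ⊢
    exact fun h => hzx (hloc.map_nonunit _ h)
  have : evalAt r e i j - algebraMap 𝒪 A x =
      (evalAt r e i j - algebraMap 𝒪 A z) + algebraMap 𝒪 A (z - x) := by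
    rw [map_sub]; ring
  rw [this]
  exact Ideal.add_mem _ h1 h2

end EvalAt

section Unique

variable {𝒪 : Type} [CommRing 𝒪] [IsLocalRing 𝒪]
variable {A : Type} [CommRing A] [IsLocalRing A] [Algebra 𝒪 A]

set_option linter.unusedSectionVars false in
/-- pure matrix form of the uniqueness of the rigid normal form -/
theorem scalar_of_intertwine {g X X' U U' : M2 A}
    (hX : g * X = X' * g) (hU : g * U = U' * g)
    (hX10 : X 1 0 = 0) (hX'10 : X' 1 0 = 0)
    (hU00 : U 0 0 = 0) (hU10 : U 1 0 = 1) (hU'00 : U' 0 0 = 0) (hU'10 : U' 1 0 = 1)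
    (hunit : IsUnit (X 0 0 - X' 1 1)) :
    g = g 0 0 • (1 : M2 A) := by
  have e1 := congrFun (congrFun hX 1) 0
  have e2 := congrFun (congrFun hU 0) 0
  have e3 := congrFun (congrFun hU 1) 0
  simp only [Matrix.mul_apply, Fin.sum_univ_two, hX10, hX'10, hU00, hU10, hU'00, hU'10,
    mul_zero, zero_mul, add_zero, zero_add, mul_one, one_mul] at e1 e2 e3
  have hg10 : g 1 0 = 0 := by
    have : (X 0 0 - X' 1 1) * g 1 0 = 0 := by rw [sub_mul, mul_comm (X 0 0), e1]; ring
    exact (hunit.mul_right_eq_zero).mp this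
  rw [hg10, mul_zero] at e2
  rw [hg10, mul_zero, add_zero] at e3
  ext i j
  fin_cases i <;> fin_cases j <;>
    simp [Matrix.smul_apply, Matrix.one_apply, hg10, e2, e3]

/-- Two framed rigid lifts which are conjugate are equal. -/
theorem Rigid.eq_of_conj (hloc : IsLocalHom (algebraMap 𝒪 A))
    {ρm : Gal →* M2 (ResidueField 𝒪)} {e u : Gal →₀ 𝒪}
    (he : evalAt ρm e = Matrix.single 0 0 1)
    {r r' : Gal →* M2 A} (hf : Framed A ρm r) (hf' : Framed A ρm r')
    (hr : Rigid e u r) (hr' : Rigid e u r') (hc : Conj r r') : r = r' := by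
  obtain ⟨g, hg, hgr⟩ := hc
  have hX := mul_evalAt_eq_evalAt_mul hgr e
  have hU := mul_evalAt_eq_evalAt_mul hgr u
  have h00 : evalAt r e 0 0 - 1 ∈ maximalIdeal A := by
    have := evalAt_framed hloc hf e 0 0 1 (by rw [he]; simp)
    simpa using this
  have h11 : evalAt r' e 1 1 ∈ maximalIdeal A := by
    have := evalAt_framed hloc hf' e 1 1 0 (by rw [he]; simp)
    simpa using this
  have hunit : IsUnit (evalAt r e 0 0 - evalAt r' e 1 1) := by
    have hmem : (evalAt r e 0 0 - evalAt r' e 1 1) - 1 ∈ maximalIdeal A := by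
      have : (evalAt r e 0 0 - evalAt r' e 1 1) - 1 =
          (evalAt r e 0 0 - 1) - evalAt r' e 1 1 := by ring
      rw [this]
      exact Ideal.sub_mem _ h00 h11
    by_contra hnu
    have h1 : (evalAt r e 0 0 - evalAt r' e 1 1) ∈ maximalIdeal A := hnu
    have : (1 : A) ∈ maximalIdeal A := by
      have := Ideal.sub_mem _ h1 hmem
      simpa using this
    exact (Ideal.ne_top_iff_one _).mp (IsLocalRing.maximalIdeal.isMaximal A).ne_top this
  have hscal := scalar_of_intertwine hX hU hr.1 hr'.1 hr.2.1 hr.2.2 hr'.2.1 hr'.2.2 hunit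
  have hg00 : IsUnit (g 0 0) := by
    obtain ⟨h', hgh'⟩ := hg.exists_right_inv
    rw [hscal] at hgh'
    have := congrFun (congrFun hgh' 0) 0
    simp only [Matrix.smul_mul, Matrix.one_mul, Matrix.smul_apply, smul_eq_mul,
      Matrix.one_apply_eq] at this
    exact IsUnit.of_mul_eq_one _ this
  ext σ i j
  have h := hgr σ
  rw [hscal] at h
  simp only [Matrix.smul_mul, Matrix.one_mul, Matrix.mul_smul, Matrix.mul_one] at h
  have := congrFun (congrFun h i) j
  simp only [Matrix.smul_apply, smul_eq_mul] at this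
  exact hg00.mul_left_cancel this

end Unique

end Fermat.Agent.S53

namespace Fermat.Agent.S53

open IsLocalRing Polynomial

section MatrixAux

variable {A : Type} [CommRing A]

/-- entries in an ideal ↔ zero in the matrix ring of the quotient -/
lemma entries_mem_iff (I : Ideal A) (M : M2 A) :
    (∀ i j, M i j ∈ I) ↔ (Ideal.Quotient.mk I).mapMatrix M = 0 := by
  constructor
  · intro h
    ext i j
    simpa [Ideal.Quotient.eq_zero_iff_mem] using h i j
  · intro h i j
    have := congrFun (congrFun h i) j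
    simpa [Ideal.Quotient.eq_zero_iff_mem] using this

lemma entries_sub_one_mem_iff (I : Ideal A) (M : M2 A) :
    (∀ i j, (M - 1) i j ∈ I) ↔ (Ideal.Quotient.mk I).mapMatrix M = 1 := by
  rw [entries_mem_iff, map_sub, map_one, sub_eq_zero]

/-- conjugating by a unit which is `≡ 1` does not change anything mod `I`. -/
lemma mapMatrix_conj_eq (I : Ideal A) (G : (M2 A)ˣ)
    (hG : ∀ i j, ((G : M2 A) - 1) i j ∈ I) (M : M2 A) :
    (Ideal.Quotient.mk I).mapMatrix (((G⁻¹ : (M2 A)ˣ) : M2 A) * M * (G : M2 A)) = (Ideal.Quotient.mk I).mapMatrix M := by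
  have h1 : (Ideal.Quotient.mk I).mapMatrix (G : M2 A) = 1 :=
    (entries_sub_one_mem_iff I _).mp hG
  have h2 : (Ideal.Quotient.mk I).mapMatrix ((G⁻¹ : (M2 A)ˣ) : M2 A) = 1 := by
    have := congrArg (Ideal.Quotient.mk I).mapMatrix (Units.inv_mul G)
    rw [map_mul, h1, mul_one, map_one] at this
    exact this
  rw [map_mul, map_mul, h1, h2, one_mul, mul_one]

/-- if the first column of `M * G` is `G * col`, then the first column of `G⁻¹ * M * G` is
`col`. -/
lemma conj_col (G : (M2 A)ˣ) (M : M2 A) (col : Fin 2 → A)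
    (h : ∀ i, (M * (G : M2 A)) i 0 = (G : M2 A) i 0 * col 0 + (G : M2 A) i 1 * col 1) (i : Fin 2) :
    (((G⁻¹ : (M2 A)ˣ) : M2 A) * M * (G : M2 A)) i 0 = col i := by
  have h1 : (M * (G : M2 A)).mulVec (Pi.single 0 1) = (G : M2 A).mulVec col := by
    ext l
    rw [Matrix.mulVec_single_one, Matrix.col_apply, h l]
    simp [Matrix.mulVec, dotProduct, Fin.sum_univ_two]
  have h2 : (((G⁻¹ : (M2 A)ˣ) : M2 A) * M * (G : M2 A)).mulVec (Pi.single 0 1) = col := by
    rw [mul_assoc, ← Matrix.mulVec_mulVec, h1, Matrix.mulVec_mulVec, Units.inv_mul,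
      Matrix.one_mulVec]
  have := congrFun h2 i
  rwa [Matrix.mulVec_single_one, Matrix.col_apply] at this

end MatrixAux

section Exists

variable {A : Type} [CommRing A] [IsLocalRing A]

lemma isUnit_of_sub_one_mem {x : A} (h : x - 1 ∈ maximalIdeal A) : IsUnit x := by
  by_contra hnu
  have h1 : x ∈ maximalIdeal A := hnu
  have : (1 : A) ∈ maximalIdeal A := by
    have := Ideal.sub_mem _ h1 h
    simpa using this
  exact (Ideal.ne_top_iff_one _).mp (IsLocalRing.maximalIdeal.isMaximal A).ne_top this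

/-- The normalising matrix: pure matrix form of the existence of the rigid normal form. -/
theorem exists_normalizer [IsAdicComplete (maximalIdeal A) A] {X U : M2 A}
    (hX00 : X 0 0 - 1 ∈ maximalIdeal A) (hX10 : X 1 0 ∈ maximalIdeal A)
    (hX11 : X 1 1 ∈ maximalIdeal A)
    (hU00 : U 0 0 ∈ maximalIdeal A) (hU10 : U 1 0 - 1 ∈ maximalIdeal A) :
    ∃ G : (M2 A)ˣ, (∀ i j, ((G : M2 A) - 1) i j ∈ maximalIdeal A) ∧
      (((G⁻¹ : (M2 A)ˣ) : M2 A) * X * (G : M2 A)) 1 0 = 0 ∧ (((G⁻¹ : (M2 A)ˣ) : M2 A) * U * (G : M2 A)) 0 0 = 0 ∧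
      (((G⁻¹ : (M2 A)ˣ) : M2 A) * U * (G : M2 A)) 1 0 = 1 := by
  set a := X 0 0 with ha
  set b := X 0 1 with hb
  set c := X 1 0 with hc
  set d := X 1 1 with hd
  -- the characteristic polynomial
  let f : A[X] := (Polynomial.X - Polynomial.C a) * (Polynomial.X - Polynomial.C d) -
    Polynomial.C (b * c)
  have hfm : f.Monic := by
    refine Polynomial.Monic.sub_of_left ((monic_X_sub_C a).mul (monic_X_sub_C d)) ?_
    have h2 : ((Polynomial.X - Polynomial.C a) * (Polynomial.X - Polynomial.C d)).degree = 2 := by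
      rw [(monic_X_sub_C d).degree_mul, degree_X_sub_C, degree_X_sub_C]
      rfl
    rw [h2]
    exact lt_of_le_of_lt degree_C_le (by norm_num)
  have hfe : ∀ y : A, f.eval y = (y - a) * (y - d) - b * c := by
    intro y; simp [f]
  have hfd : f.derivative.eval 1 = (1 - d) + (1 - a) := by
    simp [f, derivative_mul]
  have h₁ : f.eval 1 ∈ maximalIdeal A := by
    rw [hfe]
    refine Ideal.sub_mem _ (Ideal.mul_mem_right _ _ ?_) (Ideal.mul_mem_left _ _ hX10)
    have : (1 : A) - a = -(a - 1) := by ring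
    rw [this]; exact neg_mem hX00
  have h₂ : IsUnit (Ideal.Quotient.mk (maximalIdeal A) (f.derivative.eval 1)) := by
    apply IsUnit.map
    apply isUnit_of_sub_one_mem
    rw [hfd]
    have : (1 - d) + (1 - a) - 1 = -d - (a - 1) := by ring
    rw [this]
    exact Ideal.sub_mem _ (neg_mem hX11) hX00
  obtain ⟨α, hα, hα1⟩ := HenselianRing.is_henselian (I := maximalIdeal A) f hfm 1 h₁ h₂
  have hα0 : (α - a) * (α - d) - b * c = 0 := by rw [← hfe]; exact hα
  -- δ = d - α is a unit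
  have hδ : IsUnit (α - d) := by
    apply isUnit_of_sub_one_mem
    have : α - d - 1 = (α - 1) - d := by ring
    rw [this]
    exact Ideal.sub_mem _ hα1 hX11
  obtain ⟨δ, hδe⟩ := hδ
  set t : A := c * ↑δ⁻¹ with ht
  have htm : t ∈ maximalIdeal A := Ideal.mul_mem_right _ _ hX10
  have htδ : t * (α - d) = c := by
    rw [ht, ← hδe, mul_assoc, Units.inv_mul, mul_one]
  -- eigenvector equations
  have hE1 : c + d * t = α * t := by
    have : α * t - d * t = c := by rw [← sub_mul, mul_comm, htδ]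
    rw [← this]; ring
  have hE2 : a + b * t = α := by
    have h : (a + b * t - α) * (α - d) = 0 := by
      have : (a + b * t - α) * (α - d) = -((α - a) * (α - d) - b * (t * (α - d))) := by ring
      rw [this, htδ, hα0, neg_zero]
    have := (IsUnit.mul_left_eq_zero ⟨δ, hδe⟩).mp h
    exact sub_eq_zero.mp this
  set p := U 0 0 with hp
  set q := U 0 1 with hq
  set s := U 1 0 with hs
  set v := U 1 1 with hv
  let g₀ : M2 A := !![1, p + q * t; t, s + v * t]
  have hdet : IsUnit g₀.det := by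
    apply isUnit_of_sub_one_mem
    rw [Matrix.det_fin_two_of]
    have : 1 * (s + v * t) - (p + q * t) * t - 1 = (s - 1) + (v - (p + q * t)) * t := by ring
    rw [this]
    exact Ideal.add_mem _ hU10 (Ideal.mul_mem_left _ _ htm)
  obtain ⟨G, hG⟩ := (Matrix.isUnit_iff_isUnit_det g₀).mpr hdet
  have hG00 : (G : M2 A) 0 0 = 1 := by rw [hG]; rfl
  have hG01 : (G : M2 A) 0 1 = p + q * t := by rw [hG]; rfl
  have hG10 : (G : M2 A) 1 0 = t := by rw [hG]; rfl
  have hG11 : (G : M2 A) 1 1 = s + v * t := by rw [hG]; rfl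
  refine ⟨G, ?_, ?_, ?_, ?_⟩
  · intro i j
    fin_cases i <;> fin_cases j
    · simp [Matrix.sub_apply, hG00]
    · simpa [Matrix.sub_apply, hG01] using
        Ideal.add_mem _ hU00 (Ideal.mul_mem_left _ q htm)
    · simpa [Matrix.sub_apply, hG10] using htm
    · have : s + v * t - 1 = (s - 1) + v * t := by ring
      simpa [Matrix.sub_apply, hG11, this] using
        Ideal.add_mem _ hU10 (Ideal.mul_mem_left _ v htm)
  · refine conj_col G X ![α, 0] ?_ 1
    intro i
    fin_cases i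
    · simp [Matrix.mul_apply, Fin.sum_univ_two, hG00, hG10, ← ha, ← hb, hE2]
    · simp [Matrix.mul_apply, Fin.sum_univ_two, hG00, hG10, ← hc, ← hd, hE1, mul_comm]
  · refine conj_col G U ![0, 1] ?_ 0
    intro i
    fin_cases i
    · simp [Matrix.mul_apply, Fin.sum_univ_two, hG00, hG10, hG01, ← hp, ← hq]
    · simp [Matrix.mul_apply, Fin.sum_univ_two, hG00, hG10, hG11, ← hs, ← hv]
  · refine conj_col G U ![0, 1] ?_ 1
    intro i
    fin_cases i
    · simp [Matrix.mul_apply, Fin.sum_univ_two, hG00, hG10, hG01, ← hp, ← hq]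
    · simp [Matrix.mul_apply, Fin.sum_univ_two, hG00, hG10, hG11, ← hs, ← hv]

end Exists

end Fermat.Agent.S53

namespace Fermat.Agent.S53

open IsLocalRing

section Conj

variable {A : Type} [CommRing A]

/-- conjugate of a matrix representation by a unit: `σ ↦ G⁻¹ r(σ) G`. -/
noncomputable def conjHom (G : (M2 A)ˣ) (r : Gal →* M2 A) : Gal →* M2 A where
  toFun σ := ((G⁻¹ : (M2 A)ˣ) : M2 A) * r σ * (G : M2 A)
  map_one' := by rw [map_one, mul_one, Units.inv_mul]
  map_mul' σ τ := by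
    rw [map_mul]
    calc ((G⁻¹ : (M2 A)ˣ) : M2 A) * (r σ * r τ) * (G : M2 A)
        = ((G⁻¹ : (M2 A)ˣ) : M2 A) * r σ * ((G : M2 A) * ((G⁻¹ : (M2 A)ˣ) : M2 A)) * r τ *
            (G : M2 A) := by rw [Units.mul_inv, mul_one]; simp only [mul_assoc]
      _ = _ := by simp only [mul_assoc]

@[simp] lemma conjHom_apply (G : (M2 A)ˣ) (r : Gal →* M2 A) (σ : Gal) :
    conjHom G r σ = ((G⁻¹ : (M2 A)ˣ) : M2 A) * r σ * (G : M2 A) := rfl

lemma conj_conjHom (G : (M2 A)ˣ) (r : Gal →* M2 A) : Conj r (conjHom G r) := by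
  refine ⟨((G⁻¹ : (M2 A)ˣ) : M2 A), (G⁻¹).isUnit, fun σ => ?_⟩
  rw [conjHom_apply, mul_assoc, mul_assoc, Units.mul_inv, mul_one]

lemma conj_conjHom' (G : (M2 A)ˣ) (r : Gal →* M2 A) : Conj (conjHom G r) r := by
  refine ⟨(G : M2 A), G.isUnit, fun σ => ?_⟩
  rw [conjHom_apply, ← mul_assoc, ← mul_assoc, Units.mul_inv, one_mul]

variable {𝒪 : Type} [CommRing 𝒪] [IsLocalRing 𝒪] [IsLocalRing A] [Algebra 𝒪 A]

lemma evalAt_conjHom (G : (M2 A)ˣ) (r : Gal →* M2 A) (e : Gal →₀ 𝒪) :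
    evalAt (conjHom G r) e = ((G⁻¹ : (M2 A)ˣ) : M2 A) * evalAt r e * (G : M2 A) := by
  rw [mul_assoc, evalAt_mul, Finsupp.sum, Finset.mul_sum]
  unfold evalAt
  rw [Finsupp.sum]
  refine Finset.sum_congr rfl fun σ _ => ?_
  rw [conjHom_apply, Matrix.mul_smul, mul_assoc]

lemma framed_conjHom {ρm : Gal →* M2 (ResidueField 𝒪)} (G : (M2 A)ˣ)
    (hG : ∀ i j, ((G : M2 A) - 1) i j ∈ maximalIdeal A) {r : Gal →* M2 A}
    (hf : Framed A ρm r) : Framed A ρm (conjHom G r) := by
  intro σ i j x hx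
  have h1 := hf σ i j x hx
  have h2 : ∀ i j, (conjHom G r σ - r σ) i j ∈ maximalIdeal A := by
    rw [entries_mem_iff, map_sub, conjHom_apply, mapMatrix_conj_eq _ G hG, sub_self]
  have : conjHom G r σ i j - algebraMap 𝒪 A x =
      (conjHom G r σ - r σ) i j + (r σ i j - algebraMap 𝒪 A x) := by
    rw [Matrix.sub_apply]; ring
  rw [this]
  exact Ideal.add_mem _ (h2 i j) h1

lemma matCont_conjHom (G : (M2 A)ˣ) {r : Gal →* M2 A} (hc : MatCont A r) :
    MatCont A (conjHom G r) := by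
  intro n
  obtain ⟨L, hL, h⟩ := hc n
  refine ⟨L, hL, fun σ hσ => ?_⟩
  have h1 := (entries_sub_one_mem_iff (maximalIdeal A ^ n) (r σ)).mp (h σ hσ)
  rw [entries_sub_one_mem_iff, conjHom_apply, map_mul, map_mul, h1, mul_one, ← map_mul,
    Units.inv_mul, map_one]

/-- Existence of the rigid normal form over a complete local ring. -/
theorem exists_rigid_conj [IsAdicComplete (maximalIdeal A) A]
    (hloc : IsLocalHom (algebraMap 𝒪 A))
    {ρm : Gal →* M2 (ResidueField 𝒪)} {e u : Gal →₀ 𝒪}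
    (he : evalAt ρm e = Matrix.single 0 0 1) (hu : evalAt ρm u = Matrix.single 1 0 1)
    {r : Gal →* M2 A} (hf : Framed A ρm r) :
    ∃ G : (M2 A)ˣ, (∀ i j, ((G : M2 A) - 1) i j ∈ maximalIdeal A) ∧
      Framed A ρm (conjHom G r) ∧ Rigid e u (conjHom G r) := by
  have hX00 : evalAt r e 0 0 - 1 ∈ maximalIdeal A := by
    have := evalAt_framed hloc hf e 0 0 1 (by rw [he]; simp)
    simpa using this
  have hX10 : evalAt r e 1 0 ∈ maximalIdeal A := by
    have := evalAt_framed hloc hf e 1 0 0 (by rw [he]; simp)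
    simpa using this
  have hX11 : evalAt r e 1 1 ∈ maximalIdeal A := by
    have := evalAt_framed hloc hf e 1 1 0 (by rw [he]; simp)
    simpa using this
  have hU00 : evalAt r u 0 0 ∈ maximalIdeal A := by
    have := evalAt_framed hloc hf u 0 0 0 (by rw [hu]; simp)
    simpa using this
  have hU10 : evalAt r u 1 0 - 1 ∈ maximalIdeal A := by
    have := evalAt_framed hloc hf u 1 0 1 (by rw [hu]; simp)
    simpa using this
  obtain ⟨G, hG, h1, h2, h3⟩ := exists_normalizer hX00 hX10 hX11 hU00 hU10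
  refine ⟨G, hG, framed_conjHom G hG hf, ?_, ?_, ?_⟩
  · rw [evalAt_conjHom]; exact h1
  · rw [evalAt_conjHom]; exact h2
  · rw [evalAt_conjHom]; exact h3

end Conj

end Fermat.Agent.S53


end ZBS53_002_5

/-! ### bundled: `Fermat.Agent.S53.TestAlg` -/
section ZBS53_002_6
/-
S53, piece T (test algebras).  Owner: helper59.
Intrinsic description of the Artinian test algebras of `GaloisRep.IsArtinianTestAlgebra`
(no `IsLocalRing` instance needed as input) and their closure properties.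
-/

set_option autoImplicit false
set_option linter.unusedSectionVars false

namespace Fermat.Agent.S53

open IsLocalRing

section TestRing

variable (𝒪 : Type) [CommRing 𝒪] [IsLocalRing 𝒪]

/-- Intrinsic form of "finite Artinian test algebra": a nontrivial finite `𝒪`-algebra in which
every element is congruent to a scalar modulo nilpotents, and `𝔪_𝒪` maps to nilpotents. -/
structure IsTestRing (A : Type) [CommRing A] [Algebra 𝒪 A] : Prop where
  nontrivial : Nontrivial A
  finite : Finite A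
  res : ∀ a : A, ∃ x : 𝒪, IsNilpotent (a - algebraMap 𝒪 A x)
  nil : ∀ x ∈ maximalIdeal 𝒪, IsNilpotent (algebraMap 𝒪 A x)

variable {𝒪}
variable {A : Type} [CommRing A] [Algebra 𝒪 A]

/-- In a test ring, an element is a unit or nilpotent. -/
theorem IsTestRing.isUnit_or_isNilpotent (h : IsTestRing 𝒪 A) (a : A) :
    IsUnit a ∨ IsNilpotent a := by
  obtain ⟨x, hx⟩ := h.res a
  by_cases hxu : IsUnit x
  · left
    have h1 : IsUnit (algebraMap 𝒪 A x) := hxu.map _
    have h2 : a = (a - algebraMap 𝒪 A x) + algebraMap 𝒪 A x := by ring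
    rw [h2]
    exact hx.isUnit_add_right_of_commute h1 (Commute.all _ _)
  · right
    have hxm : x ∈ maximalIdeal 𝒪 := (IsLocalRing.mem_maximalIdeal x).2 hxu
    have h2 : a = (a - algebraMap 𝒪 A x) + algebraMap 𝒪 A x := by ring
    rw [h2]
    exact (Commute.all _ _).isNilpotent_add hx (h.nil x hxm)

theorem IsTestRing.not_isUnit_iff_isNilpotent (h : IsTestRing 𝒪 A) (a : A) :
    ¬ IsUnit a ↔ IsNilpotent a := by
  have := h.nontrivial
  constructor
  · intro hu
    exact (h.isUnit_or_isNilpotent a).resolve_left hu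
  · intro hn hu
    exact hn.not_isUnit hu

/-- A test ring is a local ring. -/
theorem IsTestRing.isLocalRing (h : IsTestRing 𝒪 A) : IsLocalRing A := by
  have := h.nontrivial
  refine IsLocalRing.of_nonunits_add ?_
  intro a b ha hb
  have ha' : IsNilpotent a := (h.not_isUnit_iff_isNilpotent a).1 ha
  have hb' : IsNilpotent b := (h.not_isUnit_iff_isNilpotent b).1 hb
  exact (h.not_isUnit_iff_isNilpotent (a + b)).2 ((Commute.all _ _).isNilpotent_add ha' hb')

theorem IsTestRing.mem_maximalIdeal_iff [IsLocalRing A] (h : IsTestRing 𝒪 A) (a : A) :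
    a ∈ maximalIdeal A ↔ IsNilpotent a := by
  rw [IsLocalRing.mem_maximalIdeal, mem_nonunits_iff]
  exact h.not_isUnit_iff_isNilpotent a

theorem IsTestRing.maximalIdeal_eq_nilradical [IsLocalRing A] (h : IsTestRing 𝒪 A) :
    maximalIdeal A = nilradical A := by
  ext a
  rw [h.mem_maximalIdeal_iff, mem_nilradical]

theorem IsTestRing.isLocalHom [IsLocalRing A] (h : IsTestRing 𝒪 A) :
    IsLocalHom (algebraMap 𝒪 A) := by
  have := h.nontrivial
  refine ⟨fun x hx => ?_⟩
  by_contra hxu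
  have hxm : x ∈ maximalIdeal 𝒪 := (IsLocalRing.mem_maximalIdeal x).2 hxu
  exact (h.nil x hxm).not_isUnit hx

theorem IsTestRing.residue_surjective [IsLocalRing A] (h : IsTestRing 𝒪 A) :
    Function.Surjective (IsLocalRing.residue A ∘ algebraMap 𝒪 A) := by
  intro y
  obtain ⟨a, rfl⟩ := IsLocalRing.residue_surjective y
  obtain ⟨x, hx⟩ := h.res a
  refine ⟨x, ?_⟩
  have hm : a - algebraMap 𝒪 A x ∈ maximalIdeal A := (h.mem_maximalIdeal_iff _).2 hx
  have := (IsLocalRing.residue_eq_zero_iff _).2 hm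
  rw [map_sub, sub_eq_zero] at this
  exact this.symm

theorem IsTestRing.isResAlg [IsLocalRing A] (h : IsTestRing 𝒪 A) : IsResAlg 𝒪 A :=
  ⟨h.isLocalHom, h.residue_surjective⟩

/-- A test ring is an Artinian test algebra in the sense of the prelude. -/
theorem IsTestRing.isArtinianTestAlgebra [IsLocalRing A] (h : IsTestRing 𝒪 A) :
    GaloisRep.IsArtinianTestAlgebra 𝒪 A :=
  haveI := h.finite
  ⟨h.isLocalHom, h.residue_surjective, inferInstance⟩

/-- Test rings pull back along injective `𝒪`-algebra homomorphisms. -/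
theorem IsTestRing.of_injective {B : Type} [CommRing B] [Algebra 𝒪 B] (h : IsTestRing 𝒪 A)
    (φ : B →ₐ[𝒪] A) (hφ : Function.Injective φ) : IsTestRing 𝒪 B := by
  have := h.nontrivial
  have := h.finite
  refine ⟨?_, Finite.of_injective φ hφ, ?_, ?_⟩
  · exact ⟨⟨0, 1, fun h01 => zero_ne_one (α := A) (by simpa using congrArg φ h01)⟩⟩
  · intro b
    obtain ⟨x, hx⟩ := h.res (φ b)
    refine ⟨x, ?_⟩
    have : φ (b - algebraMap 𝒪 B x) = φ b - algebraMap 𝒪 A x := by simp
    rw [← this] at hx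
    exact (IsNilpotent.map_iff hφ).1 hx
  · intro x hx
    have := h.nil x hx
    rw [← φ.commutes] at this
    exact (IsNilpotent.map_iff hφ).1 this

/-- Test rings push forward along surjective `𝒪`-algebra homomorphisms onto nontrivial rings. -/
theorem IsTestRing.of_surjective {B : Type} [CommRing B] [Algebra 𝒪 B] [Nontrivial B]
    (h : IsTestRing 𝒪 A) (φ : A →ₐ[𝒪] B) (hφ : Function.Surjective φ) : IsTestRing 𝒪 B := by
  have := h.finite
  refine ⟨inferInstance, Finite.of_surjective φ hφ, ?_, ?_⟩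
  · intro b
    obtain ⟨a, rfl⟩ := hφ b
    obtain ⟨x, hx⟩ := h.res a
    refine ⟨x, ?_⟩
    have := hx.map φ
    simpa using this
  · intro x hx
    have := (h.nil x hx).map φ
    simpa using this

/-- Transport along an `𝒪`-algebra isomorphism. -/
theorem IsTestRing.of_algEquiv {B : Type} [CommRing B] [Algebra 𝒪 B]
    (h : IsTestRing 𝒪 A) (e : A ≃ₐ[𝒪] B) : IsTestRing 𝒪 B :=
  h.of_injective (e.symm : B →ₐ[𝒪] A) e.symm.injective

/-- A subalgebra of a test ring is a test ring. -/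
theorem IsTestRing.subalgebra (h : IsTestRing 𝒪 A) (S : Subalgebra 𝒪 A) : IsTestRing 𝒪 S :=
  h.of_injective S.val Subtype.val_injective

/-- The range of an `𝒪`-algebra hom into a test ring is a test ring. -/
theorem IsTestRing.range {B : Type} [CommRing B] [Algebra 𝒪 B] (h : IsTestRing 𝒪 A)
    (φ : B →ₐ[𝒪] A) : IsTestRing 𝒪 φ.range :=
  h.subalgebra φ.range

/-- The quotient of a test ring by a proper ideal is a test ring. -/
theorem IsTestRing.quotient (h : IsTestRing 𝒪 A) (I : Ideal A) (hI : I ≠ ⊤) :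
    IsTestRing 𝒪 (A ⧸ I) := by
  have : Nontrivial (A ⧸ I) := Ideal.Quotient.nontrivial_iff.mpr hI
  exact h.of_surjective (Ideal.Quotient.mkₐ 𝒪 I) (Ideal.Quotient.mkₐ_surjective 𝒪 I)

/-- The maximal ideal of a test ring is nilpotent. -/
theorem IsTestRing.exists_maximalIdeal_pow_eq_bot [IsLocalRing A] (h : IsTestRing 𝒪 A) :
    ∃ n, maximalIdeal A ^ n = ⊥ := by
  have := h.finite
  obtain ⟨n, hn⟩ := IsArtinianRing.isNilpotent_jacobson_bot (R := A)
  rw [IsLocalRing.jacobson_eq_maximalIdeal _ bot_ne_top] at hn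
  exact ⟨n, hn⟩

theorem isResAlg_of_isArtinianTestAlgebra [IsLocalRing A]
    (h : GaloisRep.IsArtinianTestAlgebra 𝒪 A) : IsResAlg 𝒪 A :=
  ⟨h.isLocalHom, h.residue_surjective⟩

/-- The residue field of a local `𝒪`-algebra with `IsResAlg` is finite if that of `𝒪` is. -/
theorem IsResAlg.finite_residueField [IsLocalRing A] [Finite (ResidueField 𝒪)]
    (h : IsResAlg 𝒪 A) : Finite (ResidueField A) := by
  have := h.isLocalHom
  refine Finite.of_surjective (IsLocalRing.ResidueField.map (algebraMap 𝒪 A)) ?_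
  intro y
  obtain ⟨x, hx⟩ := h.residue_surjective y
  exact ⟨IsLocalRing.residue 𝒪 x, by rw [IsLocalRing.ResidueField.map_residue]; exact hx⟩

/-- Elements of a local `𝒪`-algebra with `IsResAlg` are scalars modulo the maximal ideal. -/
theorem IsResAlg.exists_sub_mem [IsLocalRing A] (h : IsResAlg 𝒪 A) (a : A) :
    ∃ x : 𝒪, a - algebraMap 𝒪 A x ∈ maximalIdeal A := by
  obtain ⟨x, hx⟩ := h.residue_surjective (IsLocalRing.residue A a)
  refine ⟨x, ?_⟩
  rw [← IsLocalRing.residue_eq_zero_iff, map_sub, sub_eq_zero]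
  exact hx.symm

theorem IsResAlg.algebraMap_mem [IsLocalRing A] (h : IsResAlg 𝒪 A) {x : 𝒪}
    (hx : x ∈ maximalIdeal 𝒪) : algebraMap 𝒪 A x ∈ maximalIdeal A := by
  have := h.isLocalHom
  exact map_nonunit (algebraMap 𝒪 A) x hx

theorem IsResAlg.algebraMap_mem_iff [IsLocalRing A] (h : IsResAlg 𝒪 A) {x : 𝒪} :
    algebraMap 𝒪 A x ∈ maximalIdeal A ↔ x ∈ maximalIdeal 𝒪 := by
  refine ⟨fun hx => ?_, h.algebraMap_mem⟩
  by_contra hxm
  have hu : IsUnit x := by
    by_contra hu
    exact hxm ((IsLocalRing.mem_maximalIdeal x).2 hu)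
  exact (IsLocalRing.mem_maximalIdeal _).1 hx (hu.map _)

/-- A Noetherian local `𝒪`-algebra with `IsResAlg` and nilpotent maximal ideal is a test ring. -/
theorem isTestRing_of_isResAlg_of_pow_eq_bot [IsLocalRing A] [IsNoetherianRing A]
    [Finite (ResidueField 𝒪)] (h : IsResAlg 𝒪 A) (n : ℕ) (hn : maximalIdeal A ^ n = ⊥) :
    IsTestRing 𝒪 A := by
  have := h.finite_residueField
  refine ⟨inferInstance, ?_, ?_, ?_⟩
  · have hfin : Finite (A ⧸ (⊥ : Ideal A)) := IsLocalRing.finite_quotient_iff.2 ⟨n, hn.le⟩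
    exact Finite.of_injective (Ideal.Quotient.mk (⊥ : Ideal A))
      ((injective_iff_map_eq_zero _).2 fun a ha => by
        rwa [Ideal.Quotient.eq_zero_iff_mem, Ideal.mem_bot] at ha)
  · intro a
    obtain ⟨x, hx⟩ := h.exists_sub_mem a
    refine ⟨x, n, ?_⟩
    have := Ideal.pow_mem_pow hx n
    rwa [hn, Ideal.mem_bot] at this
  · intro x hx
    refine ⟨n, ?_⟩
    have := Ideal.pow_mem_pow (h.algebraMap_mem hx) n
    rwa [hn, Ideal.mem_bot] at this

/-- Converse: an Artinian test algebra (prelude sense) over `𝒪` with finite residue field is a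
test ring. -/
theorem isTestRing_of_isArtinianTestAlgebra [IsLocalRing A] [Finite (ResidueField 𝒪)]
    (h : GaloisRep.IsArtinianTestAlgebra 𝒪 A) : IsTestRing 𝒪 A := by
  have := h.isArtinian
  obtain ⟨n, hn⟩ := IsArtinianRing.isNilpotent_jacobson_bot (R := A)
  rw [IsLocalRing.jacobson_eq_maximalIdeal _ bot_ne_top] at hn
  exact isTestRing_of_isResAlg_of_pow_eq_bot (isResAlg_of_isArtinianTestAlgebra h) n hn

theorem isTestRing_iff_isArtinianTestAlgebra [IsLocalRing A] [Finite (ResidueField 𝒪)] :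
    IsTestRing 𝒪 A ↔ GaloisRep.IsArtinianTestAlgebra 𝒪 A :=
  ⟨fun h => h.isArtinianTestAlgebra, isTestRing_of_isArtinianTestAlgebra⟩

/-- For a Noetherian local `𝒪`-algebra `A` with the same residue field, `A ⧸ 𝔪 ^ n` (`n ≥ 1`)
is a test ring. -/
theorem isTestRing_quotient_maximalIdeal_pow [IsLocalRing A] [IsNoetherianRing A]
    [Finite (ResidueField 𝒪)] (h : IsResAlg 𝒪 A) (n : ℕ) (hn : 1 ≤ n) :
    IsTestRing 𝒪 (A ⧸ maximalIdeal A ^ n) := by
  have := h.finite_residueField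
  have hne : maximalIdeal A ^ n ≠ ⊤ := by
    intro htop
    have h1 : maximalIdeal A ^ n ≤ maximalIdeal A := Ideal.pow_le_self (by omega)
    rw [htop] at h1
    exact (IsLocalRing.maximalIdeal.isMaximal A).ne_top (top_le_iff.1 h1)
  refine ⟨Ideal.Quotient.nontrivial_iff.mpr hne, IsLocalRing.finite_quotient_iff.2 ⟨n, le_rfl⟩,
    ?_, ?_⟩
  · intro b
    obtain ⟨a, rfl⟩ := Ideal.Quotient.mk_surjective b
    obtain ⟨x, hx⟩ := h.exists_sub_mem a
    refine ⟨x, n, ?_⟩
    have h1 := Ideal.pow_mem_pow hx n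
    have h2 : (Ideal.Quotient.mk (maximalIdeal A ^ n) a -
        algebraMap 𝒪 (A ⧸ maximalIdeal A ^ n) x) ^ n =
        Ideal.Quotient.mk (maximalIdeal A ^ n) ((a - algebraMap 𝒪 A x) ^ n) := by
      rw [map_pow, map_sub]; rfl
    rw [h2]
    exact Ideal.Quotient.eq_zero_iff_mem.2 h1
  · intro x hx
    refine ⟨n, ?_⟩
    have h1 := Ideal.pow_mem_pow (h.algebraMap_mem hx) n
    have h2 : (algebraMap 𝒪 (A ⧸ maximalIdeal A ^ n) x) ^ n =
        Ideal.Quotient.mk (maximalIdeal A ^ n) ((algebraMap 𝒪 A x) ^ n) := by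
      rw [map_pow]; rfl
    rw [h2]
    exact Ideal.Quotient.eq_zero_iff_mem.2 h1

end TestRing

section Quotient

variable {𝒪 : Type} [CommRing 𝒪] [IsLocalRing 𝒪]
variable {P : Type} [CommRing P] [Algebra 𝒪 P]

theorem isNilpotent_quotient_mk_iff (J : Ideal P) (p : P) :
    IsNilpotent (Ideal.Quotient.mk J p) ↔ p ∈ J.radical := by
  constructor
  · rintro ⟨n, hn⟩
    rw [← map_pow, Ideal.Quotient.eq_zero_iff_mem] at hn
    exact ⟨n, hn⟩
  · rintro ⟨n, hn⟩
    refine ⟨n, ?_⟩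
    rw [← map_pow, Ideal.Quotient.eq_zero_iff_mem]
    exact hn

/-- Ideal-theoretic criterion for `P ⧸ J` to be a test ring. -/
theorem isTestRing_quotient_iff (J : Ideal P) :
    IsTestRing 𝒪 (P ⧸ J) ↔
      J ≠ ⊤ ∧ Finite (P ⧸ J) ∧ (∀ p : P, ∃ x : 𝒪, p - algebraMap 𝒪 P x ∈ J.radical) ∧
        ∀ x ∈ maximalIdeal 𝒪, algebraMap 𝒪 P x ∈ J.radical := by
  constructor
  · intro h
    refine ⟨?_, h.finite, ?_, ?_⟩
    · have := h.nontrivial
      exact Ideal.Quotient.nontrivial_iff.mp this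
    · intro p
      obtain ⟨x, hx⟩ := h.res (Ideal.Quotient.mk J p)
      refine ⟨x, ?_⟩
      rw [← isNilpotent_quotient_mk_iff, map_sub]
      exact hx
    · intro x hx
      rw [← isNilpotent_quotient_mk_iff]
      exact h.nil x hx
  · rintro ⟨hne, hfin, hres, hnil⟩
    refine ⟨Ideal.Quotient.nontrivial_iff.mpr hne, hfin, ?_, ?_⟩
    · intro b
      obtain ⟨p, rfl⟩ := Ideal.Quotient.mk_surjective b
      obtain ⟨x, hx⟩ := hres p
      refine ⟨x, ?_⟩
      rw [← isNilpotent_quotient_mk_iff, map_sub] at hx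
      exact hx
    · intro x hx
      have := hnil x hx
      rw [← isNilpotent_quotient_mk_iff] at this
      exact this

/-- If `P ⧸ J` and `P ⧸ J'` are test rings and `J ⊔ J' ≠ ⊤`, then `P ⧸ (J ⊓ J')` is a test ring.
(The hypothesis `J ⊔ J' ≠ ⊤` is necessary: otherwise `P ⧸ (J ⊓ J')` is a product.) -/
theorem IsTestRing.quotient_inf {J J' : Ideal P} (hJ : IsTestRing 𝒪 (P ⧸ J))
    (hJ' : IsTestRing 𝒪 (P ⧸ J')) (hne : J ⊔ J' ≠ ⊤) : IsTestRing 𝒪 (P ⧸ (J ⊓ J')) := by
  rw [isTestRing_quotient_iff] at hJ hJ' ⊢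
  obtain ⟨hJne, hJfin, hJres, hJnil⟩ := hJ
  obtain ⟨hJ'ne, hJ'fin, hJ'res, hJ'nil⟩ := hJ'
  refine ⟨fun htop => hJne (top_le_iff.1 (htop ▸ inf_le_left)), ?_, ?_, ?_⟩
  · -- finiteness: `P ⧸ (J ⊓ J')` embeds into `(P ⧸ J) × (P ⧸ J')`
    let f : P ⧸ (J ⊓ J') → (P ⧸ J) × (P ⧸ J') := fun x =>
      (Ideal.Quotient.factor (inf_le_left : J ⊓ J' ≤ J) x,
        Ideal.Quotient.factor (inf_le_right : J ⊓ J' ≤ J') x)
    refine Finite.of_injective f ?_
    intro a b hab
    obtain ⟨a, rfl⟩ := Ideal.Quotient.mk_surjective a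
    obtain ⟨b, rfl⟩ := Ideal.Quotient.mk_surjective b
    simp only [f, Prod.mk.injEq, Ideal.Quotient.factor_mk] at hab
    rw [Ideal.Quotient.eq]
    exact ⟨Ideal.Quotient.eq.1 hab.1, Ideal.Quotient.eq.1 hab.2⟩
  · intro p
    obtain ⟨x, hx⟩ := hJres p
    obtain ⟨x', hx'⟩ := hJ'res p
    refine ⟨x, ?_⟩
    rw [Ideal.radical_inf]
    refine ⟨hx, ?_⟩
    -- `x - x'` is not a unit
    have hxx : x' - x ∈ maximalIdeal 𝒪 := by
      rw [IsLocalRing.mem_maximalIdeal, mem_nonunits_iff]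
      intro hu
      have h1 : algebraMap 𝒪 P (x' - x) ∈ (J ⊔ J').radical := by
        have e : algebraMap 𝒪 P (x' - x) = (p - algebraMap 𝒪 P x) - (p - algebraMap 𝒪 P x') := by
          rw [map_sub]; ring
        rw [e]
        exact Ideal.sub_mem _ (Ideal.radical_mono le_sup_left hx)
          (Ideal.radical_mono le_sup_right hx')
      have h2 : (J ⊔ J').radical = ⊤ :=
        Ideal.eq_top_of_isUnit_mem _ h1 (hu.map _)
      exact hne (Ideal.radical_eq_top.1 h2)
    have e : p - algebraMap 𝒪 P x = (p - algebraMap 𝒪 P x') + algebraMap 𝒪 P (x' - x) := by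
      rw [map_sub]; ring
    rw [e]
    exact Ideal.add_mem _ hx' (hJ'nil _ hxx)
  · intro x hx
    rw [Ideal.radical_inf]
    exact ⟨hJnil x hx, hJ'nil x hx⟩

/-- `P ⧸ (J ⊓ J')` embeds into `(P ⧸ J) × (P ⧸ J')`. -/
theorem quotient_inf_injective (J J' : Ideal P) :
    Function.Injective (fun x : P ⧸ (J ⊓ J') =>
      (Ideal.Quotient.factorₐ 𝒪 (inf_le_left : J ⊓ J' ≤ J) x,
        Ideal.Quotient.factorₐ 𝒪 (inf_le_right : J ⊓ J' ≤ J') x)) := by
  intro a b hab
  obtain ⟨a, rfl⟩ := Ideal.Quotient.mk_surjective a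
  obtain ⟨b, rfl⟩ := Ideal.Quotient.mk_surjective b
  simp only [Prod.mk.injEq, Ideal.Quotient.factorₐ_apply_mk] at hab
  rw [Ideal.Quotient.eq]
  exact ⟨Ideal.Quotient.eq.1 hab.1, Ideal.Quotient.eq.1 hab.2⟩

/-- `P ⧸ (J ⊓ J')` is the fibre product of `P ⧸ J` and `P ⧸ J'` over `P ⧸ (J ⊔ J')`. -/
theorem quotient_inf_fibre (J J' : Ideal P) (a : P ⧸ J) (b : P ⧸ J')
    (hab : Ideal.Quotient.factorₐ 𝒪 (le_sup_left : J ≤ J ⊔ J') a =
      Ideal.Quotient.factorₐ 𝒪 (le_sup_right : J' ≤ J ⊔ J') b) :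
    ∃ x : P ⧸ (J ⊓ J'), Ideal.Quotient.factorₐ 𝒪 (inf_le_left : J ⊓ J' ≤ J) x = a ∧
      Ideal.Quotient.factorₐ 𝒪 (inf_le_right : J ⊓ J' ≤ J') x = b := by
  obtain ⟨p, rfl⟩ := Ideal.Quotient.mk_surjective a
  obtain ⟨p', rfl⟩ := Ideal.Quotient.mk_surjective b
  simp only [Ideal.Quotient.factorₐ_apply_mk] at hab
  rw [Ideal.Quotient.eq, Submodule.mem_sup] at hab
  obtain ⟨j, hj, j', hj', hjj⟩ := hab
  refine ⟨Ideal.Quotient.mk _ (p - j), ?_, ?_⟩
  · simp only [Ideal.Quotient.factorₐ_apply_mk]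
    rw [Ideal.Quotient.eq]
    have : p - j - p = -j := by ring
    rw [this]
    exact J.neg_mem hj
  · simp only [Ideal.Quotient.factorₐ_apply_mk]
    rw [Ideal.Quotient.eq]
    have : p - j - p' = j' := by linear_combination -hjj
    rw [this]
    exact hj'

/-- The two composites `P ⧸ (J ⊓ J') → P ⧸ (J ⊔ J')` agree. -/
theorem quotient_inf_comm (J J' : Ideal P) :
    (Ideal.Quotient.factorₐ 𝒪 (le_sup_left : J ≤ J ⊔ J')).comp
        (Ideal.Quotient.factorₐ 𝒪 (inf_le_left : J ⊓ J' ≤ J)) =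
      (Ideal.Quotient.factorₐ 𝒪 (le_sup_right : J' ≤ J ⊔ J')).comp
        (Ideal.Quotient.factorₐ 𝒪 (inf_le_right : J ⊓ J' ≤ J')) := by
  apply AlgHom.ext
  intro x
  obtain ⟨p, rfl⟩ := Ideal.Quotient.mk_surjective x
  simp only [AlgHom.comp_apply, Ideal.Quotient.factorₐ_apply_mk]

end Quotient

section LocalHom

variable {𝒪 : Type} [CommRing 𝒪] [IsLocalRing 𝒪]
variable {A B : Type} [CommRing A] [IsLocalRing A] [Algebra 𝒪 A]
  [CommRing B] [IsLocalRing B] [Algebra 𝒪 B]

/-- Any `𝒪`-algebra homomorphism from a local ring to a local `𝒪`-algebra with the same residue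
field as `𝒪` is a local homomorphism. -/
theorem IsResAlg.isUnit_of_map (hB : IsResAlg 𝒪 B) (φ : A →ₐ[𝒪] B) (a : A)
    (ha : IsUnit (φ a)) : IsUnit a := by
  by_contra hna
  have hm : a ∈ maximalIdeal A := (IsLocalRing.mem_maximalIdeal a).2 hna
  obtain ⟨y, hy⟩ := hB.exists_sub_mem (φ a)
  -- `y` is a unit of `𝒪`
  have hyu : IsUnit y := by
    by_contra hyn
    have hym : algebraMap 𝒪 B y ∈ maximalIdeal B :=
      hB.algebraMap_mem ((IsLocalRing.mem_maximalIdeal y).2 hyn)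
    have : φ a ∈ maximalIdeal B := by
      have e : φ a = (φ a - algebraMap 𝒪 B y) + algebraMap 𝒪 B y := by ring
      rw [e]
      exact Ideal.add_mem _ hy hym
    exact (IsLocalRing.mem_maximalIdeal _).1 this ha
  -- so `a - y` is a unit of `A`, but its image is not a unit
  have h1 : IsUnit (a - algebraMap 𝒪 A y) := by
    by_contra hn
    have hm' : a - algebraMap 𝒪 A y ∈ maximalIdeal A := (IsLocalRing.mem_maximalIdeal _).2 hn
    have : algebraMap 𝒪 A y ∈ maximalIdeal A := by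
      have e : algebraMap 𝒪 A y = a - (a - algebraMap 𝒪 A y) := by ring
      rw [e]
      exact Ideal.sub_mem _ hm hm'
    exact (IsLocalRing.mem_maximalIdeal _).1 this (hyu.map _)
  have h2 : IsUnit (φ a - algebraMap 𝒪 B y) := by
    have := h1.map φ
    simpa using this
  exact (IsLocalRing.mem_maximalIdeal _).1 hy h2

theorem IsResAlg.isLocalHom_algHom (hB : IsResAlg 𝒪 B) (φ : A →ₐ[𝒪] B) : IsLocalHom φ :=
  ⟨fun a ha => hB.isUnit_of_map φ a ha⟩

theorem IsResAlg.isLocalHom_ringHom (hB : IsResAlg 𝒪 B) (φ : A →ₐ[𝒪] B) :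
    IsLocalHom (φ : A →+* B) :=
  ⟨fun a ha => hB.isUnit_of_map φ a ha⟩

end LocalHom

end Fermat.Agent.S53


end ZBS53_002_6

/-! ### bundled: `Fermat.Agent.S53.TangentGlue` -/
section ZBS53_002_7
/-
S53, piece D2 (tangent bound), glue to deformations.  Owner: helper64.

For a finite test algebra `A` with a framed rigid `𝒟`-lift `r` whose entries generate `A`, the
number of tangent vectors `A → k[ε]` is bounded by the number of deformation classes over `k[ε]`
(finite by `TangentFinite`); hence `Nat.card A` is bounded in terms of the nilpotency index.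
-/

set_option autoImplicit false

namespace Fermat.Agent.S53

open IsLocalRing

section TangentQuot

variable (𝒪 : Type) [CommRing 𝒪] [IsLocalRing 𝒪]

/-- The `𝒪`-algebra structure on `k[ε]` used in `GaloisRep.TangentFinite`. -/
@[reducible] noncomputable def dnAlg : Algebra 𝒪 (DualNumber (ResidueField 𝒪)) :=
  ((algebraMap (ResidueField 𝒪) (DualNumber (ResidueField 𝒪))).comp
      (algebraMap 𝒪 (ResidueField 𝒪))).toAlgebra

/-- The algebra structure on the residue field of `k[ε]` used in `GaloisRep.TangentFinite`. -/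
@[reducible] noncomputable def dnResAlg :
    Algebra (ResidueField 𝒪) (ResidueField (DualNumber (ResidueField 𝒪))) :=
  ((IsLocalRing.residue (DualNumber (ResidueField 𝒪))).comp
      (algebraMap (ResidueField 𝒪) (DualNumber (ResidueField 𝒪)))).toAlgebra

variable (ρbar : ResidualGaloisRep (ResidueField 𝒪))
  (𝒟 : ∀ ⦃A : Type⦄ [CommRing A] [IsLocalRing A] [Algebra 𝒪 A], GaloisRepAdic A → Prop)

/-- The deformations to `k[ε]` of type `𝒟`. -/
def TangentSub : Type 1 :=
  letI : Algebra 𝒪 (DualNumber (ResidueField 𝒪)) := dnAlg 𝒪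
  letI : Algebra (ResidueField 𝒪) (ResidueField (DualNumber (ResidueField 𝒪))) := dnResAlg 𝒪
  {ρ : GaloisRepAdic (DualNumber (ResidueField 𝒪)) //
      𝒟 ρ ∧ ρ.residual.IsEquiv (ρbar.baseChange (ResidueField (DualNumber (ResidueField 𝒪)))) }

/-- Equivalence of deformations to `k[ε]`. -/
def tangentSetoid : Setoid (TangentSub 𝒪 ρbar 𝒟) :=
  ⟨fun ρ ρ' => ρ.1.IsEquiv ρ'.1, ⟨fun ρ => ⟨GaloisRepAdic.Equiv.refl ρ.1⟩,
        fun ⟨e⟩ => ⟨e.symm⟩, fun ⟨e⟩ ⟨e'⟩ => ⟨e.trans e'⟩⟩⟩

lemma tangentFinite_iff :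
    GaloisRep.TangentFinite 𝒪 ρbar 𝒟 ↔ Finite (Quotient (tangentSetoid 𝒪 ρbar 𝒟)) :=
  Iff.rfl

end TangentQuot

section MapLemmas

variable {𝒪 : Type} [CommRing 𝒪] [IsLocalRing 𝒪]
variable {A B : Type} [CommRing A] [IsLocalRing A] [Algebra 𝒪 A]
  [CommRing B] [IsLocalRing B] [Algebra 𝒪 B]

lemma tangent_framed_mapRep {ρm : Gal →* M2 (ResidueField 𝒪)} {r : Gal →* M2 A}
    (hf : Framed A ρm r) (φ : A →ₐ[𝒪] B) (hφ : IsLocalHom (φ : A →+* B)) :
    Framed B ρm (mapRep (φ : A →+* B) r) := by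
  intro σ i j x hx
  have h := hf σ i j x hx
  have h2 : (φ : A →+* B) (r σ i j - algebraMap 𝒪 A x) ∈ maximalIdeal B :=
    haveI := hφ
    map_nonunit (φ : A →+* B) _ h
  rw [map_sub] at h2
  simpa using h2

lemma tangent_evalAt_mapRep (r : Gal →* M2 A) (φ : A →ₐ[𝒪] B) (e : Gal →₀ 𝒪) (i j : Fin 2) :
    evalAt (mapRep (φ : A →+* B) r) e i j = φ (evalAt r e i j) := by
  rw [evalAt_apply, evalAt_apply, Finsupp.sum, Finsupp.sum, map_sum]
  refine Finset.sum_congr rfl fun σ _ => ?_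
  rw [map_mul, AlgHom.commutes]
  rfl

lemma tangent_rigid_mapRep {e u : Gal →₀ 𝒪} {r : Gal →* M2 A} (hr : Rigid e u r)
    (φ : A →ₐ[𝒪] B) : Rigid e u (mapRep (φ : A →+* B) r) := by
  obtain ⟨h1, h2, h3⟩ := hr
  refine ⟨?_, ?_, ?_⟩
  · rw [tangent_evalAt_mapRep, h1, map_zero]
  · rw [tangent_evalAt_mapRep, h2, map_zero]
  · rw [tangent_evalAt_mapRep, h3, map_one]

end MapLemmas

section Glue

variable {𝒪 : Type} [CommRing 𝒪] [IsLocalRing 𝒪]

lemma dnAlg_algebraMap (x : 𝒪) :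
    @algebraMap 𝒪 (DualNumber (ResidueField 𝒪)) _ _ (dnAlg 𝒪) x =
      TrivSqZeroExt.inl (residue 𝒪 x) := rfl

/-- `k[ε]` is a test ring. -/
lemma isTestRing_dualNumber [Finite (ResidueField 𝒪)] :
    @IsTestRing 𝒪 _ _ (DualNumber (ResidueField 𝒪)) _ (dnAlg 𝒪) := by
  letI := dnAlg 𝒪
  refine ⟨inferInstance, tangent_finite_dualNumber _, ?_, ?_⟩
  · intro a
    obtain ⟨x, hx⟩ := residue_surjective a.fst
    refine ⟨x, 2, ?_⟩
    rw [dnAlg_algebraMap, hx]
    ext <;> simp [pow_two]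
  · intro x hx
    have : algebraMap 𝒪 (DualNumber (ResidueField 𝒪)) x = 0 := by
      rw [dnAlg_algebraMap, (residue_eq_zero_iff x).2 hx, TrivSqZeroExt.inl_zero]
    rw [this]
    exact IsNilpotent.zero

variable {A : Type} [CommRing A] [IsLocalRing A] [Algebra 𝒪 A]

/-- A tangent vector as an `𝒪`-algebra homomorphism. -/
noncomputable def tangentAlgHom (u : TangentHom 𝒪 A) :
    @AlgHom 𝒪 A (DualNumber (ResidueField 𝒪)) _ _ _ _ (dnAlg 𝒪) :=
  letI := dnAlg 𝒪
  { u.1 with commutes' := fun c => by rw [dnAlg_algebraMap]; exact u.2 c }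

lemma tangentAlgHom_apply (u : TangentHom 𝒪 A) (a : A) :
    (letI := dnAlg 𝒪; (tangentAlgHom u : A →+* DualNumber (ResidueField 𝒪))) a = u.1 a := rfl

/-- Two tangent vectors agreeing on a generating set are equal. -/
lemma tangentHom_ext_of_adjoin {s : Set A} (hs : Algebra.adjoin 𝒪 s = ⊤)
    {u u' : TangentHom 𝒪 A} (h : ∀ a ∈ s, u.1 a = u'.1 a) : u = u' := by
  apply Subtype.ext
  apply RingHom.ext
  intro a
  have ha : a ∈ Algebra.adjoin 𝒪 s := by rw [hs]; trivial
  induction ha using Algebra.adjoin_induction with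
  | mem x hx => exact h x hx
  | algebraMap c => rw [u.2, u'.2]
  | add x y _ _ hx hy => rw [map_add, map_add, hx, hy]
  | mul x y _ _ hx hy => rw [map_mul, map_mul, hx, hy]

variable [Finite (ResidueField 𝒪)]
  {ρbar : ResidualGaloisRep (ResidueField 𝒪)}
  {𝒟 : ∀ ⦃A : Type⦄ [CommRing A] [IsLocalRing A] [Algebra 𝒪 A], GaloisRepAdic A → Prop}

/-- The deformation to `k[ε]` attached to a tangent vector of `A` and a `𝒟`-lift over `A`. -/
lemma tangent_exists_tangentSub (h𝒟 : GaloisRep.IsDeformationCondition 𝒪 𝒟)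
    (D : RigidDatum 𝒪 ρbar) (hA : GaloisRep.IsArtinianTestAlgebra 𝒪 A)
    (r : Gal →* M2 A) (hr : IsDLift A 𝒟 D.ρm r) (u : TangentHom 𝒪 A) :
    ∃ (t : TangentSub 𝒪 ρbar 𝒟) (hc' : MatCont (DualNumber (ResidueField 𝒪)) (mapRep u.1 r)),
      t.1 = ofMatrix (mapRep u.1 r) hc' := by
  letI := dnAlg 𝒪
  letI := dnResAlg 𝒪
  have hε : IsTestRing 𝒪 (DualNumber (ResidueField 𝒪)) := isTestRing_dualNumber
  have hεA : GaloisRep.IsArtinianTestAlgebra 𝒪 (DualNumber (ResidueField 𝒪)) :=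
    hε.isArtinianTestAlgebra
  have hεR : IsResAlg 𝒪 (DualNumber (ResidueField 𝒪)) := hε.isResAlg
  obtain ⟨hfr, hc, hD⟩ := hr
  let φ : A →ₐ[𝒪] DualNumber (ResidueField 𝒪) := tangentAlgHom u
  have hφ : IsLocalHom (φ : A →+* DualNumber (ResidueField 𝒪)) := hεR.isLocalHom_ringHom φ
  have hc' : MatCont (DualNumber (ResidueField 𝒪)) (mapRep (φ : A →+* DualNumber (ResidueField 𝒪)) r) := hc.map _ hφ
  have h1 : 𝒟 ((ofMatrix r hc).baseChangeAlong (φ : A →+* DualNumber (ResidueField 𝒪)) hφ) :=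
    h𝒟.baseChangeAlong hA hεA φ hφ hD
  have h2 : 𝒟 (ofMatrix (mapRep (φ : A →+* DualNumber (ResidueField 𝒪)) r) hc') :=
    h𝒟.of_isEquiv hεA (ofMatrix_baseChangeAlong_isEquiv _ hφ r hc hc') h1
  have hfr' : Framed (DualNumber (ResidueField 𝒪)) D.ρm (mapRep (φ : A →+* DualNumber (ResidueField 𝒪)) r) :=
    tangent_framed_mapRep hfr φ hφ
  have h3 : (ofMatrix (mapRep (φ : A →+* DualNumber (ResidueField 𝒪)) r) hc').residual.IsEquiv
      (ρbar.baseChangeAlong ((IsLocalRing.residue (DualNumber (ResidueField 𝒪))).comp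
        (algebraMap (ResidueField 𝒪) (DualNumber (ResidueField 𝒪))))) :=
    residual_isEquiv_of_framed (A := DualNumber (ResidueField 𝒪)) D
      ((IsLocalRing.residue (DualNumber (ResidueField 𝒪))).comp
        (algebraMap (ResidueField 𝒪) (DualNumber (ResidueField 𝒪)))) (fun x => rfl) _ hc' hfr'
  exact ⟨⟨ofMatrix (mapRep (φ : A →+* DualNumber (ResidueField 𝒪)) r) hc', h2, h3⟩, hc', rfl⟩

/-- **D2, glue.** The number of tangent vectors of a test algebra carrying a framed rigid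
`𝒟`-lift with generating entries is at most the number of deformation classes over `k[ε]`. -/
theorem tangentHom_card_le_of_lift (h𝒟 : GaloisRep.IsDeformationCondition 𝒪 𝒟)
    (hfin : GaloisRep.TangentFinite 𝒪 ρbar 𝒟)
    (D : RigidDatum 𝒪 ρbar) (hA : GaloisRep.IsArtinianTestAlgebra 𝒪 A)
    (r : Gal →* M2 A) (hr : IsDLift A 𝒟 D.ρm r) (hrig : Rigid D.e D.u r)
    (hgen : Algebra.adjoin 𝒪 {x : A | ∃ σ i j, x = r σ i j} = ⊤) :
    Nat.card (TangentHom 𝒪 A) ≤ Nat.card (Quotient (tangentSetoid 𝒪 ρbar 𝒟)) := by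
  haveI : Finite (Quotient (tangentSetoid 𝒪 ρbar 𝒟)) := (tangentFinite_iff 𝒪 ρbar 𝒟).1 hfin
  choose t hc' ht using tangent_exists_tangentSub h𝒟 D hA r hr
  refine Nat.card_le_card_of_injective
    (fun u => (Quotient.mk (tangentSetoid 𝒪 ρbar 𝒟) (t u))) ?_
  intro u u' huu'
  have h1 : (t u).1.IsEquiv (t u').1 := Quotient.exact huu'
  rw [ht, ht] at h1
  have hconj : Conj (mapRep u.1 r) (mapRep u'.1 r) := conj_of_isEquiv h1
  letI := dnAlg 𝒪
  have hε : IsTestRing 𝒪 (DualNumber (ResidueField 𝒪)) := isTestRing_dualNumber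
  have hεR : IsResAlg 𝒪 (DualNumber (ResidueField 𝒪)) := hε.isResAlg
  have hloc : ∀ v : TangentHom 𝒪 A,
      IsLocalHom ((tangentAlgHom v : A →ₐ[𝒪] DualNumber (ResidueField 𝒪)) :
        A →+* DualNumber (ResidueField 𝒪)) :=
    fun v => hεR.isLocalHom_ringHom (tangentAlgHom v)
  have heq : mapRep u.1 r = mapRep u'.1 r :=
    Rigid.eq_of_conj hεR.isLocalHom D.he
      (tangent_framed_mapRep hr.1 (tangentAlgHom u) (hloc u))
      (tangent_framed_mapRep hr.1 (tangentAlgHom u') (hloc u'))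
      (tangent_rigid_mapRep hrig (tangentAlgHom u))
      (tangent_rigid_mapRep hrig (tangentAlgHom u')) hconj
  refine tangentHom_ext_of_adjoin hgen ?_
  rintro _ ⟨σ, i, j, rfl⟩
  have := congrFun (congrFun (congrArg (fun f => f σ) heq) i) j
  exact this

/-- **D2, final form.** A uniform bound for the cardinality of test algebras with `𝔪 ^ n = 0`
carrying a framed rigid `𝒟`-lift with generating entries. -/
theorem tangent_card_le_of_lift [IsNoetherianRing 𝒪] (h𝒟 : GaloisRep.IsDeformationCondition 𝒪 𝒟)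
    (hfin : GaloisRep.TangentFinite 𝒪 ρbar 𝒟)
    (D : RigidDatum 𝒪 ρbar) (hA : GaloisRep.IsArtinianTestAlgebra 𝒪 A)
    (r : Gal →* M2 A) (hr : IsDLift A 𝒟 D.ρm r) (hrig : Rigid D.e D.u r)
    (hgen : Algebra.adjoin 𝒪 {x : A | ∃ σ i j, x = r σ i j} = ⊤)
    {n : ℕ} (hn : maximalIdeal A ^ n = ⊥) :
    Finite A ∧
      Nat.card A ≤ tangentBound 𝒪 (Nat.card (Quotient (tangentSetoid 𝒪 ρbar 𝒟))) n := by
  have hT : IsTestRing 𝒪 A := isTestRing_of_isArtinianTestAlgebra hA
  haveI := hT.finite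
  exact ⟨hT.finite, tangent_card_le hT.isResAlg hn
    (tangentHom_card_le_of_lift h𝒟 hfin D hA r hr hrig hgen)⟩

end Glue

end Fermat.Agent.S53


end ZBS53_002_7
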