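/- GENERATED FILE (helper35, build-time optimisation, NOTES/ZB.md): verbatim concatenation of the modules
   Fermat.Agent.S53.BurnsideTwo
   Fermat.Agent.S53.BurnsideRep
   Fermat.Agent.R38.Rep
   Fermat.Agent.S31.TraceKernel
   Fermat.Agent.S31.Reduction
   Fermat.Agent.S34.Reduction
   Fermat.Agent.S53.Burnside
   Fermat.Agent.TW.Tan
   Do not edit; do not import together with these modules. -/
import Mathlib
import Fermat.Prelude.Def_GaloisRep_Residual
import Fermat.Agent.ZB.ES_001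
import Fermat.Agent.ZB.EC_001
import Fermat.Agent.ZB.RED_001
import Fermat.Agent.ZB.EC_004
import Fermat.Agent.ZB.Cheb_002
import Fermat.Prelude.Def_GaloisRep_Adic
import Fermat.Agent.ZB.Cheb_001
import Fermat.Agent.ZB.S05_001
import Fermat.Agent.ZB.S53_002

/-! ### bundled: `Fermat.Agent.S53.BurnsideTwo` -/
section ZBS53_001_0

/-!
# S53, part B: Burnside's theorem in dimension 2

`Fermat.Agent.S53.Burnside.subalgebra_eq_top`: a subalgebra of `End_K V` (`K` algebraically closed,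
`dim V = 2`) acting irreducibly on `V` is everything.
-/

set_option autoImplicit false

namespace Fermat.Agent.S53.Burnside

open Module

variable {K V : Type*} [Field K] [AddCommGroup V] [Module K V]

/-- Burnside in dimension two: an irreducible subalgebra of `End V` is everything. -/
theorem subalgebra_eq_top [IsAlgClosed K] (hV : finrank K V = 2)
    (B : Subalgebra K (Module.End K V))
    (irr : ∀ W : Submodule K V, (∀ b ∈ B, ∀ x ∈ W, b x ∈ W) → W = ⊥ ∨ W = ⊤) :
    B = ⊤ := by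
  have : FiniteDimensional K V := Module.finite_of_finrank_eq_succ hV
  have : Nontrivial V := Module.nontrivial_of_finrank_eq_succ hV
  -- a line is never stable
  have hline : ∀ v : V, v ≠ 0 → ∃ b ∈ B, b v ∉ Submodule.span K {v} := by
    intro v hv
    by_contra hcon
    push Not at hcon
    have hst : ∀ b ∈ B, ∀ x ∈ Submodule.span K {v}, b x ∈ Submodule.span K {v} := by
      intro b hb x hx
      obtain ⟨c, rfl⟩ := Submodule.mem_span_singleton.mp hx
      rw [map_smul]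
      exact Submodule.smul_mem _ _ (hcon b hb)
    have h1 : finrank K (Submodule.span K {v}) = 1 := finrank_span_singleton hv
    rcases irr _ hst with h | h
    · rw [h] at h1; simp at h1
    · rw [h, finrank_top, hV] at h1; omega
  obtain ⟨v, hv⟩ := exists_ne (0 : V)
  obtain ⟨b₀, hb₀, hb₀v⟩ := hline v hv
  obtain ⟨μ, hμ⟩ := Module.End.exists_eigenvalue b₀
  obtain ⟨y₂, hy₂⟩ := hμ.exists_hasEigenvector
  set a : Module.End K V := b₀ - algebraMap K _ μ with ha
  have haB : a ∈ B := B.sub_mem hb₀ (B.algebraMap_mem μ)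
  have hay₂ : a y₂ = 0 := by
    have := hy₂.apply_eq_smul
    simp [ha, this]
  have hy₂0 : y₂ ≠ 0 := hy₂.2
  have hav : a v ≠ 0 := by
    intro h
    apply hb₀v
    have : b₀ v = μ • v := by
      have : b₀ v - μ • v = 0 := by simpa [ha] using h
      exact sub_eq_zero.mp this
    rw [this]
    exact Submodule.smul_mem _ _ (Submodule.mem_span_singleton_self v)
  set x₁ := a v with hx₁
  -- range of a is the line spanned by x₁
  have hrange : ∀ w : V, ∃ c : K, a w = c • x₁ := by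
    have hker : 1 ≤ finrank K (LinearMap.ker a) := by
      rw [Nat.succ_le_iff, finrank_pos_iff_exists_ne_zero]
      exact ⟨⟨y₂, hay₂⟩, fun h => hy₂0 (congrArg Subtype.val h)⟩
    have hrk := LinearMap.finrank_range_add_finrank_ker a
    rw [hV] at hrk
    have hr1 : finrank K (LinearMap.range a) ≤ 1 := by omega
    intro w
    have hx₁mem : (⟨x₁, LinearMap.mem_range_self a v⟩ : LinearMap.range a) ≠ 0 := by
      intro h; exact hav (congrArg Subtype.val h)
    have hr1' : 1 ≤ finrank K (LinearMap.range a) := by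
      rw [Nat.succ_le_iff, finrank_pos_iff_exists_ne_zero]
      exact ⟨_, hx₁mem⟩
    have hr : finrank K (LinearMap.range a) = 1 := le_antisymm hr1 hr1'
    obtain ⟨c, hc⟩ := (finrank_eq_one_iff_of_nonzero' _ hx₁mem).mp hr
      ⟨a w, LinearMap.mem_range_self a w⟩
    exact ⟨c, (congrArg Subtype.val hc).symm⟩
  obtain ⟨b₁, hb₁, hb₁x⟩ := hline x₁ hav
  -- the "dual" irreducibility
  have hU : ∃ b₂ ∈ B, a (b₂ y₂) ≠ 0 := by
    by_contra hcon
    push Not at hcon
    let U : Submodule K V :=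
      { carrier := {w | ∀ b ∈ B, a (b w) = 0}
        add_mem' := by
          intro w w' hw hw' b hb
          rw [map_add, map_add, hw b hb, hw' b hb, add_zero]
        zero_mem' := by intro b _; simp
        smul_mem' := by
          intro c w hw b hb
          rw [map_smul, map_smul, hw b hb, smul_zero] }
    have hUst : ∀ b ∈ B, ∀ x ∈ U, b x ∈ U := by
      intro b hb x hx b' hb'
      have := hx (b' * b) (B.mul_mem hb' hb)
      simpa using this
    rcases irr U hUst with h | h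
    · have : y₂ ∈ U := hcon
      rw [h] at this
      exact hy₂0 ((Submodule.mem_bot K).mp this)
    · have : v ∈ U := by rw [h]; trivial
      have := this 1 B.one_mem
      exact hav (by simpa using this)
  obtain ⟨b₂, hb₂, hz⟩ := hU
  obtain ⟨d, hd⟩ := hrange (b₂ y₂)
  have hd0 : d ≠ 0 := by
    intro h; apply hz; rw [hd, h, zero_smul]
  -- x₁, b₁ x₁ are linearly independent
  have hli : ∀ α β : K, α • x₁ + β • b₁ x₁ = 0 → α = 0 ∧ β = 0 := by
    intro α β h
    have hβ : β = 0 := by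
      by_contra hβ
      apply hb₁x
      have : b₁ x₁ = (-(β⁻¹ * α)) • x₁ := by
        have h' : β • b₁ x₁ = -(α • x₁) := eq_neg_of_add_eq_zero_right h
        calc b₁ x₁ = β⁻¹ • (β • b₁ x₁) := by rw [smul_smul, inv_mul_cancel₀ hβ, one_smul]
          _ = (-(β⁻¹ * α)) • x₁ := by rw [h', smul_neg, smul_smul, neg_smul]
      rw [this]
      exact Submodule.smul_mem _ _ (Submodule.mem_span_singleton_self x₁)
    refine ⟨?_, hβ⟩
    rw [hβ, zero_smul, add_zero] at h
    exact (smul_eq_zero.mp h).resolve_right hav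
  -- four linearly independent elements of B
  have hfour : LinearIndependent K ![a, b₁ * a, a * b₂, b₁ * a * b₂] := by
    rw [Fintype.linearIndependent_iff]
    intro g hg
    simp only [Fin.sum_univ_four, Matrix.cons_val_zero, Matrix.cons_val_one,
      Matrix.cons_val] at hg
    have e2 := congrArg (fun f : Module.End K V => f y₂) hg
    simp only [LinearMap.add_apply, LinearMap.smul_apply, Module.End.mul_apply, hay₂, map_zero,
      smul_zero, zero_add, LinearMap.zero_apply, hd, map_smul] at e2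
    have h34 := hli (g 2 * d) (g 3 * d) (by
      rw [← e2]; simp only [smul_smul])
    have hg2 : g 2 = 0 := (mul_eq_zero.mp h34.1).resolve_right hd0
    have hg3 : g 3 = 0 := (mul_eq_zero.mp h34.2).resolve_right hd0
    have e1 := congrArg (fun f : Module.End K V => f v) hg
    simp only [LinearMap.add_apply, LinearMap.smul_apply, Module.End.mul_apply, hg2, hg3,
      zero_smul, add_zero, LinearMap.zero_apply] at e1
    have h12 := hli (g 0) (g 1) e1
    intro i
    fin_cases i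
    · exact h12.1
    · exact h12.2
    · exact hg2
    · exact hg3
  have hmem : ∀ i, ![a, b₁ * a, a * b₂, b₁ * a * b₂] i ∈ Subalgebra.toSubmodule B := by
    intro i
    fin_cases i
    · exact haB
    · exact B.mul_mem hb₁ haB
    · exact B.mul_mem haB hb₂
    · exact B.mul_mem (B.mul_mem hb₁ haB) hb₂
  have hspan : Submodule.span K (Set.range ![a, b₁ * a, a * b₂, b₁ * a * b₂]) ≤
      Subalgebra.toSubmodule B := Submodule.span_le.mpr (by rintro _ ⟨i, rfl⟩; exact hmem i)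
  have hfr : finrank K (Submodule.span K (Set.range ![a, b₁ * a, a * b₂, b₁ * a * b₂])) = 4 := by
    rw [finrank_span_eq_card hfour]; simp
  have hEnd : finrank K (Module.End K V) = 4 := by
    rw [Module.finrank_linearMap, hV]
  have htop : Submodule.span K (Set.range ![a, b₁ * a, a * b₂, b₁ * a * b₂]) = ⊤ :=
    Submodule.eq_top_of_finrank_eq (by rw [hfr, hEnd])
  rw [htop] at hspan
  exact Subalgebra.toSubmodule_injective (by rw [Algebra.top_toSubmodule]; exact top_le_iff.mp hspan)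

end Fermat.Agent.S53.Burnside


end ZBS53_001_0

/-! ### bundled: `Fermat.Agent.S53.BurnsideRep` -/
section ZBS53_001_1

/-!
# S53, part B: Burnside for an absolutely irreducible residual representation

* `Fermat.Agent.S53.Burnside.span_range_eq_top`: the `k`-span of `ρbar(G)` is all of `End_k V`.
* `Fermat.Agent.S53.Burnside.exists_finsupp_eq`: every endomorphism is a finite `k`-combination of
  `ρbar(g)`'s.
-/

set_option autoImplicit false

namespace Fermat.Agent.S53.Burnside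

open Module TensorProduct

variable {k : Type} [Field k]

/-- descent of "span = ⊤" along a field extension, via dimension count -/
theorem span_eq_top_of_baseChange {k K V : Type*} [Field k] [Field K] [Algebra k K]
    [AddCommGroup V] [Module k V] [Module.Finite k V] {ι : Type*} (r : ι → Module.End k V)
    (h : Submodule.span K (Set.range fun i => (r i).baseChange K) = ⊤) :
    Submodule.span k (Set.range r) = ⊤ := by
  set S := Submodule.span k (Set.range r) with hS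
  by_contra hne
  have hlt : finrank k S < finrank k (Module.End k V) :=
    Submodule.finrank_lt hne
  let bS := Module.finBasis k S
  -- the base changes of the basis vectors span everything
  have hle : Submodule.span K (Set.range fun i => (r i).baseChange K) ≤
      Submodule.span K (Set.range fun j => ((bS j : Module.End k V)).baseChange K) := by
    rw [Submodule.span_le]
    rintro _ ⟨i, rfl⟩
    have hri : r i ∈ S := Submodule.subset_span ⟨i, rfl⟩
    have hsum : r i = ∑ j, (bS.repr ⟨r i, hri⟩ j) • (bS j : Module.End k V) := by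
      have h0 := congrArg Subtype.val (bS.sum_repr ⟨r i, hri⟩)
      simp only [AddSubmonoidClass.coe_finsetSum, SetLike.val_smul] at h0
      exact h0.symm
    have hbc : (r i).baseChange K =
        ∑ j, (algebraMap k K (bS.repr ⟨r i, hri⟩ j)) •
          ((bS j : Module.End k V)).baseChange K := by
      conv_lhs => rw [hsum]
      rw [← LinearMap.baseChangeHom_apply k K, map_sum]
      refine Finset.sum_congr rfl fun j _ => ?_
      rw [map_smul, LinearMap.baseChangeHom_apply, algebraMap_smul]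
    change (r i).baseChange K ∈ _
    rw [hbc]
    exact Submodule.sum_mem _ fun j _ =>
      Submodule.smul_mem _ _ (Submodule.subset_span ⟨j, rfl⟩)
  rw [h, top_le_iff] at hle
  have h1 : finrank K (Submodule.span K
      (Set.range fun j => ((bS j : Module.End k V)).baseChange K)) ≤ finrank k S := by
    refine (finrank_range_le_card _).trans ?_
    simp
  rw [hle, finrank_top] at h1
  have h2 : finrank K (K ⊗[k] V →ₗ[K] K ⊗[k] V) = finrank k (V →ₗ[k] V) := by
    rw [Module.finrank_linearMap, Module.finrank_linearMap, Module.finrank_baseChange]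
  have h3 : finrank k S < finrank k (V →ₗ[k] V) := hlt
  have h4 : finrank K (K ⊗[k] V →ₗ[K] K ⊗[k] V) ≤ finrank k S := h1
  omega

/-- Burnside: the span of the image of an absolutely irreducible residual representation is
everything. -/
theorem span_range_eq_top (ρbar : ResidualGaloisRep k) (habs : ρbar.IsAbsolutelyIrreducible) :
    Submodule.span k (Set.range ρbar.ρ) = ⊤ := by
  set K := AlgebraicClosure k
  apply span_eq_top_of_baseChange (K := K)
  have hV : finrank K (K ⊗[k] ρbar.V) = 2 := by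
    rw [Module.finrank_baseChange, ρbar.finrank_eq]
  let ρK : (AlgebraicClosure ℚ ≃ₐ[ℚ] AlgebraicClosure ℚ) →* Module.End K (K ⊗[k] ρbar.V) :=
    (ρbar.baseChange K).ρ
  have hρK : ∀ σ, ρK σ = (ρbar.ρ σ).baseChange K := fun σ => rfl
  have key := subalgebra_eq_top hV (Algebra.adjoin K (Set.range ρK)) (by
    intro W hW
    exact habs W fun σ x hx => hW _ (Algebra.subset_adjoin ⟨σ, rfl⟩) x hx)
  have h2 : Subalgebra.toSubmodule (Algebra.adjoin K (Set.range ρK)) =
      Submodule.span K (Set.range ρK) := by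
    rw [Algebra.adjoin_eq_span]
    congr 1
    have : Set.range ρK = ((MonoidHom.mrange ρK : Submonoid _) : Set _) := by
      ext x; simp
    rw [this, Submonoid.closure_eq]
  rw [key, Algebra.top_toSubmodule] at h2
  rw [h2]
  rfl

/-- every endomorphism of `ρbar.V` is a finite linear combination of `ρbar(g)`'s. -/
theorem exists_finsupp_eq (ρbar : ResidualGaloisRep k) (habs : ρbar.IsAbsolutelyIrreducible)
    (t : Module.End k ρbar.V) :
    ∃ c : (AlgebraicClosure ℚ ≃ₐ[ℚ] AlgebraicClosure ℚ) →₀ k,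
      (c.sum fun g a => a • ρbar.ρ g) = t := by
  have h : t ∈ Submodule.span k (Set.range ρbar.ρ) := by
    rw [span_range_eq_top ρbar habs]; trivial
  exact Finsupp.mem_span_range_iff_exists_finsupp.mp h

end Fermat.Agent.S53.Burnside


end ZBS53_001_1

/-! ### bundled: `Fermat.Agent.R38.Rep` -/
section ZBS53_001_2

/-!
# R38-REP: a copy of `E[p]` in the Jacobian

`stmtRep : StmtRep`.  In a `p`-adic Eichler–Shimura module `J` of level `M p`, the eigen-space
`U ⊆ J[p]` of the system `a_ℓ(W)` (good `ℓ`) is a `G_ℚ`-module on which every `σ` satisfies the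
characteristic polynomial of `ρ̄_E(σ)` (weak Chebotarev, Eichler–Shimura relation, Lucas recursion).
As `ρ̄_E` is absolutely irreducible (`p` odd: irreducible + odd), the action on `U` factors through
`End E[p]` (`r38rep_exists_algHom`), and every nonzero vector of `U` gives an equivariant embedding
`E[p] ↪ U` (`r38rep_embed`).
-/

set_option autoImplicit false

noncomputable section

namespace Fermat.Agent.R38

open ModularCurve Fermat.Agent.ES Fermat.Agent.S42 Fermat.Agent.RED Fermat.Agent.EC.DetChar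
open WeierstrassCurve WeierstrassCurve.Affine WeierstrassCurve.Affine.Point

/-! ### absolute irreducibility of `E[p]` -/

/-- the image of `G_ℚ` spans `End E[p]` (`p` odd, `E[p]` irreducible) -/
theorem r38rep_span (W : WeierstrassCurve ℤ) (hΔ : W.Δ ≠ 0) (p : ℕ) [hpF : Fact p.Prime]
    (hp2 : p ≠ 2) (hirr : W.ModRepIsIrreducible p) :
    Submodule.span (ZMod p) (Set.range (rhoBar (W.map (Int.castRingHom ℚ)) p)) = ⊤ := by
  have hp : p.Prime := hpF.out
  have hcard := card_torsQbar W hΔ hp.ne_zero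
  have hfin : Finite (TorsQbar (W.map (Int.castRingHom ℚ)) p) := finite_of_card hcard
  have hker : GaloisFactorsThroughFiniteLevel
      (galoisRepModuleEnd (K := AlgebraicClosure ℚ) ℚ (W.map (Int.castRingHom ℚ)) p) := by
    obtain ⟨E₀, hE₀, h⟩ := finite_level_of_finite_torsion (W.map (Int.castRingHom ℚ)) p hfin
    refine ⟨E₀, hE₀, fun σ hσ => ?_⟩
    apply LinearMap.ext
    intro x
    exact h σ hσ x
  let ρres : ResidualGaloisRep (ZMod p) :=
    (W.map (Int.castRingHom ℚ)).residualGaloisRepOf p hcard hker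
  have hirr' : ρres.IsIrreducible := fun N hN => hirr.2 N fun σ x hx => hN σ x hx
  have hodd : ρres.IsOdd := by
    intro c hcc hc1
    have h := det_of_model W hΔ hirr c
    have hc : cycloChar p c = -1 :=
      Fermat.Agent.EC.modularCyclotomicCharacter_involution (cyclo_card p) c hcc hc1
    rw [hc, Units.val_neg, Units.val_one] at h
    exact h
  have h2 : (2 : ZMod p) ≠ 0 := by
    intro h
    have h' : ((2 : ℕ) : ZMod p) = 0 := by exact_mod_cast h
    rw [ZMod.natCast_eq_zero_iff] at h'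
    exact hp2 ((Nat.prime_dvd_prime_iff_eq hp Nat.prime_two).1 h')
  have habs := Fermat.Agent.EC.isAbsolutelyIrreducible_of_isOdd h2 ρres hirr' hodd
  exact Fermat.Agent.S53.Burnside.span_range_eq_top ρres habs

/-! ### the eigen-space -/

section Eigen

variable (W : WeierstrassCurve ℤ) (M p : ℕ) (J : Type) [AddCommGroup J] [Module HeckeAlg J]

/-- the eigen-space of the system `a_ℓ(W)` in `J[p]` -/
def r38repU : AddSubgroup J where
  carrier := {x | p • x = 0 ∧
    ∀ ℓ ∈ goodFor W M p, heckeGen ℓ • x = (W.apOfModel ℓ : ℤ) • x}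
  zero_mem' := ⟨smul_zero _, fun ℓ _ => by rw [smul_zero, smul_zero]⟩
  add_mem' := by
    rintro x y ⟨hx, hx'⟩ ⟨hy, hy'⟩
    refine ⟨by rw [smul_add, hx, hy, add_zero], fun ℓ hℓ => ?_⟩
    rw [smul_add, smul_add, hx' ℓ hℓ, hy' ℓ hℓ]
  neg_mem' := by
    rintro x ⟨hx, hx'⟩
    refine ⟨by rw [smul_neg, hx, _root_.neg_zero], fun ℓ hℓ => ?_⟩
    rw [smul_neg, smul_neg, hx' ℓ hℓ]

variable {W M p J}

theorem r38rep_mem_U {x : J} : x ∈ r38repU W M p J ↔ p • x = 0 ∧
    ∀ ℓ ∈ goodFor W M p, heckeGen ℓ • x = (W.apOfModel ℓ : ℤ) • x := Iff.rfl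

instance r38repUModule : Module (ZMod p) (r38repU W M p J) :=
  AddCommGroup.zmodModule fun x => Subtype.ext (by
    rw [AddSubgroup.coe_nsmul, AddSubgroup.coe_zero]
    exact x.2.1)

variable [DistribMulAction GQ J]

theorem r38rep_stable (hcomm : ∀ (σ : GQ) (t : HeckeAlg) (x : J), σ • t • x = t • σ • x)
    (σ : GQ) {x : J} (hx : x ∈ r38repU W M p J) : σ • x ∈ r38repU W M p J := by
  refine ⟨?_, fun ℓ hℓ => ?_⟩
  · have := map_nsmul (DistribSMul.toAddMonoidHom J σ) p x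
    simp only [DistribSMul.toAddMonoidHom_apply] at this
    rw [← this, hx.1, smul_zero]
  · rw [← hcomm, hx.2 ℓ hℓ]
    have := map_zsmul (DistribSMul.toAddMonoidHom J σ) (W.apOfModel ℓ) x
    simpa only [DistribSMul.toAddMonoidHom_apply] using this

/-- the action of `G_ℚ` on the eigen-space -/
def r38repTheta (hcomm : ∀ (σ : GQ) (t : HeckeAlg) (x : J), σ • t • x = t • σ • x) :
    GQ →* Module.End (ZMod p) (r38repU W M p J) where
  toFun σ := AddMonoidHom.toZModLinearMap p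
    { toFun := fun x => ⟨σ • (x : J), r38rep_stable hcomm σ x.2⟩
      map_zero' := Subtype.ext (smul_zero σ)
      map_add' := fun x y => Subtype.ext (smul_add σ (x : J) (y : J)) }
  map_one' := by
    apply LinearMap.ext
    intro x
    exact Subtype.ext (one_smul GQ (x : J))
  map_mul' σ τ := by
    apply LinearMap.ext
    intro x
    exact Subtype.ext (mul_smul σ τ (x : J))

@[simp] theorem r38rep_theta_apply
    (hcomm : ∀ (σ : GQ) (t : HeckeAlg) (x : J), σ • t • x = t • σ • x) (σ : GQ)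
    (x : r38repU W M p J) :
    ((r38repTheta hcomm σ x : r38repU W M p J) : J) = σ • (x : J) := rfl

end Eigen

/-! ### the characteristic polynomials -/

section Main

variable {W : WeierstrassCurve ℤ} {M p : ℕ} {J : Type} [AddCommGroup J] [Module HeckeAlg J]
  [DistribMulAction GQ J]

/-- the Eichler–Shimura relation on the eigen-space, for a Frobenius at a good prime, in terms of
the trace and the determinant on `E[p]` -/
theorem r38rep_frob_rel [hpF : Fact p.Prime] (hΔ : W.Δ ≠ 0) (hirr : W.ModRepIsIrreducible p)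
    (hM : 0 < M) (hES : ESDataInf (M * p) p J) {ℓ : ℕ} (hℓ : ℓ.Prime)
    (hℓS : ℓ ∉ excSet W p ∪ (M * p).primeFactors)
    {A : ValuationSubring (AlgebraicClosure ℚ)} (hA : A.LiesOverPrime ℓ) {τ : GQ}
    (hτ : A.IsFrobeniusAt τ ℓ) :
    r38repTheta (W := W) (M := M) (p := p) hES.smul_comm τ * r38repTheta hES.smul_comm τ
      - LinearMap.trace (ZMod p) (TorsQbar (W.map (Int.castRingHom ℚ)) p)
          (rhoBar (W.map (Int.castRingHom ℚ)) p τ) • r38repTheta hES.smul_comm τ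
      + LinearMap.det (rhoBar (W.map (Int.castRingHom ℚ)) p τ)
          • (1 : Module.End (ZMod p) (r38repU W M p J)) = 0 := by
  have hp : p.Prime := hpF.out
  obtain ⟨h2, hd, hg⟩ := (not_mem_excSet_iff W hΔ hp.ne_zero hℓ).1
    (fun h => hℓS (Finset.mem_union_left _ h))
  have hℓMp : ¬ ℓ ∣ M * p := fun h => hℓS (Finset.mem_union_right _
    (Nat.mem_primeFactors.mpr ⟨hℓ, h, Nat.mul_ne_zero hM.ne' hp.ne_zero⟩))
  have hℓp : ℓ ≠ p := by
    rintro rfl
    exact hd dvd_rfl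
  have hℓMpp : ¬ ℓ ∣ M * p * p := fun h => (hℓ.dvd_mul.mp h).elim hℓMp hd
  have htr : LinearMap.trace (ZMod p) (TorsQbar (W.map (Int.castRingHom ℚ)) p)
      (rhoBar (W.map (Int.castRingHom ℚ)) p τ) = (W.apOfModel ℓ : ZMod p) :=
    galoisTrace_frob_of_model W hΔ hirr hℓ h2 hℓp hg hA hτ
  have hdet : LinearMap.det (rhoBar (W.map (Int.castRingHom ℚ)) p τ) = (ℓ : ZMod p) := by
    rw [det_of_model W hΔ hirr τ, cycloChar_frob p hp ℓ hℓ hℓp A hA τ hτ]
  rw [htr, hdet]
  apply LinearMap.ext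
  intro x
  apply Subtype.ext
  rw [LinearMap.add_apply, LinearMap.sub_apply, Module.End.mul_apply, LinearMap.smul_apply,
    LinearMap.smul_apply, Module.End.one_apply, LinearMap.zero_apply, Int.cast_smul_eq_zsmul,
    Nat.cast_smul_eq_nsmul, AddSubgroup.coe_add, AddSubgroup.coe_sub, AddSubgroup.coe_zsmul,
    AddSubgroup.coe_nsmul, AddSubgroup.coe_zero, r38rep_theta_apply, r38rep_theta_apply]
  have hfrob := hES.frob ℓ hℓ hℓMpp A hA τ hτ (x : J) ⟨1, by rw [pow_one]; exact x.2.1⟩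
  have heig := (r38rep_stable hES.smul_comm τ x.2).2 ⟨ℓ, hℓ⟩ ⟨hℓMpp, hg⟩
  rw [heig] at hfrob
  exact hfrob

/-- a common finite level of `E[p]` and of the eigen-space -/
theorem r38rep_level [hpF : Fact p.Prime] (hΔ : W.Δ ≠ 0) (hES : ESDataInf (M * p) p J) :
    ∃ F : IntermediateField ℚ (AlgebraicClosure ℚ), FiniteDimensional ℚ F ∧ IsGalois ℚ F ∧
      ∀ σ σ' : GQ, (∀ x ∈ F, σ x = σ' x) →
        rhoBar (W.map (Int.castRingHom ℚ)) p σ = rhoBar (W.map (Int.castRingHom ℚ)) p σ' ∧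
        r38repTheta (W := W) (M := M) (p := p) hES.smul_comm σ = r38repTheta hES.smul_comm σ' := by
  classical
  have hp : p.Prime := hpF.out
  have hcard := card_torsQbar W hΔ hp.ne_zero
  obtain ⟨F₁, hF₁fin, -, hρ, -⟩ := exists_level (finite_of_card hcard) p
  -- the levels of the points of `J[p]`
  have hJfin : Finite {x : J | p ^ 1 • x = 0} := (hES.finite 1).to_subtype
  let _ : Fintype {x : J | p ^ 1 • x = 0} := Fintype.ofFinite _
  have hlev : ∀ x : {x : J | p ^ 1 • x = 0}, ∃ E : IntermediateField ℚ (AlgebraicClosure ℚ),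
      FiniteDimensional ℚ E ∧ ∀ σ : GQ, (∀ a ∈ E, σ a = a) → σ • (x : J) = x :=
    fun x => hES.finite_level x ⟨1, x.2⟩
  choose Ev hEvfin hEv using hlev
  obtain ⟨F, hFfin, hFnorm, hFle⟩ := stmtHull (insert F₁ (Finset.univ.image Ev)) (by
    intro E hE
    rcases Finset.mem_insert.mp hE with rfl | hE
    · exact hF₁fin
    obtain ⟨v, -, rfl⟩ := Finset.mem_image.mp hE
    exact hEvfin v)
  have hF₁ : F₁ ≤ F := hFle _ (Finset.mem_insert_self _ _)
  have hFv : ∀ v, Ev v ≤ F := fun v => hFle _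
    (Finset.mem_insert_of_mem (Finset.mem_image_of_mem Ev (Finset.mem_univ v)))
  refine ⟨F, hFfin, IsGalois.mk, fun σ σ' h => ⟨hρ σ σ' fun x hx => h x (hF₁ hx), ?_⟩⟩
  apply LinearMap.ext
  intro x
  apply Subtype.ext
  rw [r38rep_theta_apply, r38rep_theta_apply]
  have hx : (x : J) ∈ {x : J | p ^ 1 • x = 0} := by
    show p ^ 1 • (x : J) = 0
    rw [pow_one]
    exact x.2.1
  have hfix : ∀ a ∈ Ev ⟨x, hx⟩, (σ'⁻¹ * σ) a = a := by
    intro a ha
    rw [AlgEquiv.mul_apply, h a (hFv _ ha)]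
    exact σ'.symm_apply_apply a
  have := hEv ⟨x, hx⟩ _ hfix
  rw [mul_smul, inv_smul_eq_iff] at this
  exact this

/-- **every `σ` satisfies, on the eigen-space, the characteristic polynomial of `ρ̄_E(σ)`** -/
theorem r38rep_hrel [hpF : Fact p.Prime] (hΔ : W.Δ ≠ 0) (hirr : W.ModRepIsIrreducible p)
    (hM : 0 < M) (hES : ESDataInf (M * p) p J) (σ : GQ) :
    r38repTheta (W := W) (M := M) (p := p) hES.smul_comm σ * r38repTheta hES.smul_comm σ
      - LinearMap.trace (ZMod p) (TorsQbar (W.map (Int.castRingHom ℚ)) p)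
          (rhoBar (W.map (Int.castRingHom ℚ)) p σ) • r38repTheta hES.smul_comm σ
      + LinearMap.det (rhoBar (W.map (Int.castRingHom ℚ)) p σ)
          • (1 : Module.End (ZMod p) (r38repU W M p J)) = 0 := by
  have hp : p.Prime := hpF.out
  have hcard := card_torsQbar W hΔ hp.ne_zero
  have hdim := finrank_of_card hcard
  obtain ⟨F, hFfin, hFgal, hlev⟩ := r38rep_level (W := W) (M := M) hΔ hES
  obtain ⟨ℓ, A, τ, m, hℓ, hℓS, hA, hτ, hm⟩ :=
    Fermat.Agent.Cheb.exists_frobenius_pow_eq F (excSet W p ∪ (M * p).primeFactors) σ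
  obtain ⟨h1, h2⟩ := hlev (τ ^ m) σ hm
  rw [← h1, ← h2, map_pow, map_pow]
  have hfr := r38rep_frob_rel hΔ hirr hM hES hℓ hℓS hA hτ
  refine r38rep_rel_pow hdim (rhoBar (W.map (Int.castRingHom ℚ)) p τ)
    (rhoBar (W.map (Int.castRingHom ℚ)) p τ⁻¹) ?_ ?_ (r38repTheta hES.smul_comm τ)
    (r38repTheta hES.smul_comm τ⁻¹) ?_ ?_ hfr m
  · rw [← map_mul, mul_inv_cancel, map_one]
  · rw [← map_mul, inv_mul_cancel, map_one]
  · rw [← map_mul, mul_inv_cancel, map_one]
  · rw [← map_mul, inv_mul_cancel, map_one]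

end Main

/-! ### R38-REP -/

/-- **R38-REP**. -/
theorem stmtRep : StmtRep := by
  intro W hΔ p hp hp2 hirr M hM J _ _ _ hES v hv0 hpv heig
  have hpF : Fact p.Prime := ⟨hp⟩
  have hcard := card_torsQbar W hΔ hp.ne_zero
  have hdim := finrank_of_card hcard
  have h2 : (2 : ZMod p) ≠ 0 := by
    intro h
    have h' : ((2 : ℕ) : ZMod p) = 0 := by exact_mod_cast h
    rw [ZMod.natCast_eq_zero_iff] at h'
    exact hp2 ((Nat.prime_dvd_prime_iff_eq hp Nat.prime_two).1 h')
  have hvU : v ∈ r38repU W M p J := ⟨hpv, heig⟩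
  have hu : (⟨v, hvU⟩ : r38repU W M p J) ≠ 0 := fun h => hv0 (congrArg Subtype.val h)
  obtain ⟨φ, hφinj, hφ⟩ := r38rep_embed h2 hdim (rhoBar (W.map (Int.castRingHom ℚ)) p)
    (r38repTheta (W := W) (M := M) (p := p) hES.smul_comm) (r38rep_hrel hΔ hirr hM hES)
    (r38rep_span W hΔ p hp2 hirr) ⟨v, hvU⟩ hu
  -- the embedding into `J`
  let ψ : TorsQbar (W.map (Int.castRingHom ℚ)) p →+ J :=
    (r38repU W M p J).subtype.comp φ.toAddMonoidHom
  have hψ : ∀ y, ψ y = ((φ y : r38repU W M p J) : J) := fun _ => rfl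
  have hψinj : Function.Injective ψ := fun y y' h => hφinj (Subtype.ext h)
  have hψσ : ∀ (σ : GQ) y, ψ (σ • y) = σ • ψ y := by
    intro σ y
    have := congrArg Subtype.val (hφ σ y)
    rw [r38rep_theta_apply] at this
    exact this
  refine ⟨ψ.range, (AddMonoidHom.ofInjective hψinj).symm, ?_, ?_, ?_, ?_⟩
  · rintro x ⟨y, rfl⟩
    exact (φ y).2.1
  · rintro x ⟨y, rfl⟩ ℓ hℓ
    exact (φ y).2.2 ℓ hℓ
  · rintro σ x ⟨y, rfl⟩
    exact ⟨σ • y, hψσ σ y⟩
  · intro σ x
    rw [AddEquiv.symm_apply_eq]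
    apply Subtype.ext
    rw [AddMonoidHom.ofInjective_apply, hψσ]
    have hx : ψ ((AddMonoidHom.ofInjective hψinj).symm x) = (x : J) := by
      rw [← AddMonoidHom.ofInjective_apply hψinj, AddEquiv.apply_symm_apply]
    rw [hx]

end Fermat.Agent.R38

end
end ZBS53_001_2

/-! ### bundled: `Fermat.Agent.S31.TraceKernel` -/
section ZBS53_001_3

/-!
# S31, algebra part 1: the trace-kernel lemma

Let `ρ : GaloisRepAdic A` (`A` a local ring) have absolutely irreducible residual representation.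
* `Fermat.Agent.S31.span_range_toMatrix_eq_top`: the matrices of `ρ(g)` span `M₂(A)` over `A`
  (Burnside residually, then Nakayama).
* `Fermat.Agent.S31.rho_eq_one_of_trace`: if `tr ρ(σ g) = tr ρ(g)` for all `g`, then `ρ(σ) = 1`.
-/

set_option autoImplicit false

namespace Fermat.Agent.S31

open Module IsLocalRing

/-- a matrix with all entries in an ideal `J` lies in `J • ⊤` -/
theorem matrix_mem_smul_top {A : Type} [CommRing A] {n : Type} [Fintype n] [DecidableEq n]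
    (J : Ideal A)
    (Y : Matrix n n A) (h : ∀ i j, Y i j ∈ J) :
    Y ∈ J • (⊤ : Submodule A (Matrix n n A)) := by
  rw [Matrix.matrix_eq_sum_single Y]
  refine Submodule.sum_mem _ fun i _ => Submodule.sum_mem _ fun j _ => ?_
  have h1 : Matrix.single i j (Y i j) = (Y i j) • Matrix.single i j (1 : A) := by
    rw [Matrix.smul_single, smul_eq_mul, mul_one]
  rw [h1]
  exact Submodule.smul_mem_smul (h i j) Submodule.mem_top

variable {A : Type} [CommRing A] [IsLocalRing A]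

/-- Burnside + Nakayama: the matrices of `ρ(g)` span all `2 × 2` matrices. -/
theorem span_range_toMatrix_eq_top (ρ : GaloisRepAdic A)
    (habs : ρ.residual.IsAbsolutelyIrreducible) (b : Basis (Fin 2) A ρ.V) :
    Submodule.span A (Set.range fun g : AlgebraicClosure ℚ ≃ₐ[ℚ] AlgebraicClosure ℚ =>
      LinearMap.toMatrix b b (ρ.ρ g)) = ⊤ := by
  classical
  set R : (AlgebraicClosure ℚ ≃ₐ[ℚ] AlgebraicClosure ℚ) → Matrix (Fin 2) (Fin 2) A :=
    fun g => LinearMap.toMatrix b b (ρ.ρ g) with hR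
  set N := Submodule.span A (Set.range R) with hN
  have hfg : (⊤ : Submodule A (Matrix (Fin 2) (Fin 2) A)).FG := Module.Finite.fg_top
  refine top_le_iff.mp (Submodule.le_of_le_smul_of_le_jacobson_bot hfg
    (I := maximalIdeal A) ?_ ?_)
  · rw [IsLocalRing.jacobson_eq_maximalIdeal ⊥ bot_ne_top]
  · intro Y _
    let k := ResidueField A
    let bk : Basis (Fin 2) k (TensorProduct A k ρ.V) := Algebra.TensorProduct.basis k b
    -- the target residual endomorphism
    let t : TensorProduct A k ρ.V →ₗ[k] TensorProduct A k ρ.V :=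
      (LinearMap.toMatrix bk bk).symm (Y.map (algebraMap A k))
    obtain ⟨c, hc0⟩ := Fermat.Agent.S53.Burnside.exists_finsupp_eq ρ.residual habs t
    have hc : (∑ g ∈ c.support, c g • ((ρ.ρ g).baseChange k :
        TensorProduct A k ρ.V →ₗ[k] TensorProduct A k ρ.V)) = t := hc0
    -- lift the coefficients
    have hsurj : Function.Surjective (algebraMap A k) := IsLocalRing.residue_surjective
    choose a ha using hsurj
    let Z : Matrix (Fin 2) (Fin 2) A := ∑ g ∈ c.support, a (c g) • R g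
    have hZN : Z ∈ N := Submodule.sum_mem _ fun g _ =>
      Submodule.smul_mem _ _ (Submodule.subset_span ⟨g, rfl⟩)
    have hres : ∀ g, LinearMap.toMatrix bk bk ((ρ.ρ g).baseChange k) =
        (R g).map (algebraMap A k) :=
      fun g => LinearMap.toMatrix_baseChange k (ρ.ρ g) b b
    have hYmap : Y.map (algebraMap A k) = Z.map (algebraMap A k) := by
      have h1 : LinearMap.toMatrix bk bk t = Y.map (algebraMap A k) :=
        (LinearMap.toMatrix bk bk).apply_symm_apply _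
      rw [← h1, ← hc, map_sum]
      have h2 : Z.map (algebraMap A k) = (algebraMap A k).mapMatrix Z := rfl
      rw [h2, map_sum]
      refine Finset.sum_congr rfl fun g _ => ?_
      rw [map_smul, hres g]
      ext i j
      simp only [Matrix.smul_apply, Matrix.map_apply, RingHom.mapMatrix_apply, smul_eq_mul,
        map_mul, ha]
    have hdiff : Y - Z ∈ maximalIdeal A • (⊤ : Submodule A (Matrix (Fin 2) (Fin 2) A)) := by
      refine matrix_mem_smul_top _ _ fun i j => ?_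
      have h3 := congrFun (congrFun hYmap i) j
      simp only [Matrix.map_apply] at h3
      rw [Matrix.sub_apply, ← IsLocalRing.residue_eq_zero_iff, map_sub, sub_eq_zero]
      exact h3
    have : Y = Z + (Y - Z) := by abel
    rw [this]
    exact Submodule.add_mem_sup hZN hdiff

/-- **Trace-kernel lemma.** If the residual representation is absolutely irreducible and
`tr ρ(σ g) = tr ρ(g)` for all `g`, then `ρ(σ) = 1`. -/
theorem rho_eq_one_of_trace (ρ : GaloisRepAdic A) (habs : ρ.residual.IsAbsolutelyIrreducible)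
    (σ : AlgebraicClosure ℚ ≃ₐ[ℚ] AlgebraicClosure ℚ)
    (h : ∀ g : AlgebraicClosure ℚ ≃ₐ[ℚ] AlgebraicClosure ℚ,
      LinearMap.trace A ρ.V (ρ.ρ (σ * g)) = LinearMap.trace A ρ.V (ρ.ρ g)) :
    ρ.ρ σ = 1 := by
  classical
  let b : Basis (Fin 2) A ρ.V := Module.finBasisOfFinrankEq A ρ.V ρ.finrank_eq
  set X : Matrix (Fin 2) (Fin 2) A := LinearMap.toMatrix b b (ρ.ρ σ) - 1 with hX
  -- the functional `Y ↦ tr (X * Y)`
  let L : Matrix (Fin 2) (Fin 2) A →ₗ[A] A :=
    (Matrix.traceLinearMap (Fin 2) A A).comp (LinearMap.mulLeft A X)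
  have hL : ∀ Y, L Y = (X * Y).trace := fun Y => rfl
  have hLrange : ∀ g : AlgebraicClosure ℚ ≃ₐ[ℚ] AlgebraicClosure ℚ,
      L (LinearMap.toMatrix b b (ρ.ρ g)) = 0 := by
    intro g
    rw [hL, hX, sub_mul, one_mul, Matrix.trace_sub, ← LinearMap.toMatrix_mul, ← map_mul,
      ← LinearMap.trace_eq_matrix_trace, ← LinearMap.trace_eq_matrix_trace, h g, sub_self]
  have hLzero : L = 0 := by
    apply LinearMap.ext_on_range (span_range_toMatrix_eq_top ρ habs b)
    intro g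
    rw [hLrange g, LinearMap.zero_apply]
  have hX0 : X = 0 := by
    ext i j
    have h1 : L (Matrix.single j i (1 : A)) = 0 := by rw [hLzero, LinearMap.zero_apply]
    rw [hL, Matrix.trace_mul_single] at h1
    simpa using h1
  have h2 : LinearMap.toMatrix b b (ρ.ρ σ) = LinearMap.toMatrix b b (1 : Module.End A ρ.V) := by
    rw [LinearMap.toMatrix_one]
    exact sub_eq_zero.mp hX0
  exact (LinearMap.toMatrix b b).injective h2

end Fermat.Agent.S31


end ZBS53_001_3

/-! ### bundled: `Fermat.Agent.S31.Reduction` -/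
section ZBS53_001_4

/-!
# S31 from weak Chebotarev and the faithful `p`-adic Eichler–Shimura package

`unramified_of_pkg`: the statement of S31, under the two hypotheses
`Fermat.Agent.Cheb.WeakChebotarev` and `ESPkgFaith N p`.

Proof. Let `σ` be in an inertia group at `q ∉ S`. By the trace-kernel lemma
(`rho_eq_one_of_trace`) it suffices to show `tr ρ(σ g) = tr ρ(g)` for all `g`, and as `T` is
separated, to show this modulo `𝔪ᵏ` for all `k`. Choose `n` for `k` by faithfulness and a finite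
Galois `F/ℚ` containing a field of definition of `J[pⁿ]`, of `ρ mod 𝔪ᵏ`, and `μ_{pⁿ}`. By weak
Chebotarev `g = τᵐ` and `σ g = τ'ᵐ'` on `F`, with Frobenius elements `τ, τ'` at `ℓ, ℓ' ∉ S`. Then
`D = s_m(T_ℓ, ℓ) − s_{m'}(T_ℓ', ℓ')` kills `J[pⁿ]` (`lucas_diff_kills`), so its image in `T` lies
in `pᵏ T ⊆ 𝔪ᵏ`; and `tr ρ(g) ≡ tr ρ(τ)ᵐ = s_m(π T_ℓ, ℓ)`, `tr ρ(σ g) ≡ s_{m'}(π T_ℓ', ℓ')`.
-/

set_option autoImplicit false

namespace Fermat.Agent.S31

open ModularCurve Fermat.Agent.ES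

section congr

variable {T : Type} [CommRing T] [IsLocalRing T]

/-- if `γ` and `g` agree on a field of definition of `ρ mod 𝔪ᵏ`, the traces of `ρ(γ)` and `ρ(g)`
are congruent modulo `𝔪ᵏ` -/
theorem trace_congr_of_agree (ρ : GaloisRepAdic T) (k : ℕ)
    (L : IntermediateField ℚ (AlgebraicClosure ℚ))
    (hL : ∀ σ : AlgebraicClosure ℚ ≃ₐ[ℚ] AlgebraicClosure ℚ, (∀ x ∈ L, σ x = x) →
      ∀ v : ρ.V, ρ.ρ σ v - v ∈ (IsLocalRing.maximalIdeal T ^ k) • (⊤ : Submodule T ρ.V))
    (γ g : AlgebraicClosure ℚ ≃ₐ[ℚ] AlgebraicClosure ℚ) (h : ∀ a ∈ L, γ a = g a) :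
    LinearMap.trace T ρ.V (ρ.ρ g) - LinearMap.trace T ρ.V (ρ.ρ γ) ∈
      IsLocalRing.maximalIdeal T ^ k := by
  set u : AlgebraicClosure ℚ ≃ₐ[ℚ] AlgebraicClosure ℚ := γ⁻¹ * g with hu
  have huL : ∀ a ∈ L, u a = a := by
    intro a ha
    rw [hu, AlgEquiv.mul_apply, ← h a ha, ← AlgEquiv.mul_apply, inv_mul_cancel,
      AlgEquiv.one_apply]
  have hg : g = γ * u := by rw [hu, mul_inv_cancel_left]
  have e : ρ.ρ g - ρ.ρ γ = ρ.ρ γ * (ρ.ρ u - 1) := by
    rw [hg, map_mul, mul_sub, mul_one]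
  rw [← map_sub, e]
  apply trace_mem_of_forall_mem
  intro v
  rw [Module.End.mul_apply, LinearMap.sub_apply, Module.End.one_apply]
  exact map_mem_smul_top _ _ (hL u huL v)

end congr

variable {p : ℕ} {N : ℕ} [NeZero N] {S : Finset ℕ}
  {𝒪 : Type} [CommRing 𝒪] [IsDomain 𝒪] [IsDiscreteValuationRing 𝒪]
  [IsAdicComplete (IsLocalRing.maximalIdeal 𝒪) 𝒪]
  {θ : CuspForm.heckeAlgebra N 2 (↑S : Set ℕ) →+* IsLocalRing.ResidueField 𝒪}
  {T : Type} [CommRing T] [IsLocalRing T] [IsNoetherianRing T]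
  [IsAdicComplete (IsLocalRing.maximalIdeal T) T] [Algebra 𝒪 T] [IsLocalHom (algebraMap 𝒪 T)]
  [Module.Finite 𝒪 T] [Module.Free 𝒪 T]

omit [IsDomain 𝒪] [IsDiscreteValuationRing 𝒪] [IsAdicComplete (IsLocalRing.maximalIdeal 𝒪) 𝒪]
  [IsNoetherianRing T] [IsAdicComplete (IsLocalRing.maximalIdeal T) T] [Module.Finite 𝒪 T]
  [Module.Free 𝒪 T] in
/-- `p` lies in the maximal ideal of `T` -/
theorem natCast_mem_maximalIdeal [IsLocalRing 𝒪] (hp𝒪 : (p : 𝒪) ∈ IsLocalRing.maximalIdeal 𝒪) :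
    (p : T) ∈ IsLocalRing.maximalIdeal T := by
  have := map_nonunit (algebraMap 𝒪 T) (p : 𝒪) hp𝒪
  rwa [map_natCast] at this

/-- **S31, reduced** to weak Chebotarev and the faithful `p`-adic Eichler–Shimura package. -/
theorem unramified_of_pkg (hcheb : Cheb.WeakChebotarev) (hpkg : ESPkgFaith N p) (hp : p.Prime)
    (hp𝒪 : (p : 𝒪) ∈ IsLocalRing.maximalIdeal 𝒪) (hpS : p ∈ S)
    (hNS : ∀ q : ℕ, q.Prime → q ∣ N → q ∈ S)
    (H : CuspForm.HeckeGaloisRepDatum N (↑S : Set ℕ) 𝒪 θ T)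
    (q : ℕ) (hq : q.Prime) (hqS : q ∉ S) :
    H.ρ.IsUnramifiedAt q := by
  obtain ⟨J, _, _, _, hJ, hfaith⟩ := hpkg
  intro P hP σ hσ
  apply rho_eq_one_of_trace H.ρ H.residual_absIrr σ
  intro g
  -- the primes outside `S` are good
  have hgoodN : ∀ r : ℕ, r.Prime → r ∉ S → ¬ r ∣ N := fun r hr hrS h => hrS (hNS r hr h)
  have hgood : ∀ r : ℕ, r.Prime → r ∉ S → ¬ r ∣ N * p := by
    intro r hr hrS h
    rcases (Nat.Prime.dvd_mul hr).mp h with h | h
    · exact hrS (hNS r hr h)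
    · have : r = p := (Nat.prime_dvd_prime_iff_eq hr hp).mp h
      exact hrS (this ▸ hpS)
  -- it suffices to prove the congruence modulo every power of the maximal ideal
  suffices hkey : ∀ k : ℕ, LinearMap.trace T H.ρ.V (H.ρ.ρ (σ * g)) -
      LinearMap.trace T H.ρ.V (H.ρ.ρ g) ∈ IsLocalRing.maximalIdeal T ^ k by
    have hbot : ⨅ k, IsLocalRing.maximalIdeal T ^ k = ⊥ :=
      Ideal.iInf_pow_eq_bot_of_isLocalRing _ (Ideal.IsMaximal.ne_top inferInstance)
    have hmem : LinearMap.trace T H.ρ.V (H.ρ.ρ (σ * g)) - LinearMap.trace T H.ρ.V (H.ρ.ρ g) ∈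
        (⊥ : Ideal T) := by
      rw [← hbot]
      exact (Ideal.mem_iInf).mpr hkey
    exact sub_eq_zero.mp ((Ideal.mem_bot).mp hmem)
  intro k
  -- the variables outside `S`
  set Sg : Set Nat.Primes := outsideVars (↑S : Set ℕ) with hSgdef
  have hSg : Sg ⊆ goodPrimes N p := fun r hr => hgood r r.2 hr
  have hSg' : ∀ r ∈ Sg, ¬ (r : ℕ) ∣ N ∧ (r : ℕ) ∉ (↑S : Set ℕ) := fun r hr =>
    ⟨hgoodN r r.2 hr, hr⟩
  obtain ⟨n, hn⟩ := hfaith Sg hSg k
  -- the fields
  obtain ⟨E, hEfin, hE⟩ := exists_common_field hJ n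
  obtain ⟨L, hLfin, hL⟩ := H.ρ.isAdicContinuous k
  have hM0 : p ^ n ≠ 0 := pow_ne_zero n hp.ne_zero
  have : NeZero ((p ^ n : ℕ) : AlgebraicClosure ℚ) := ⟨Nat.cast_ne_zero.mpr hM0⟩
  obtain ⟨ζ, hζ⟩ := HasEnoughRootsOfUnity.exists_primitiveRoot (AlgebraicClosure ℚ) (p ^ n)
  have hζfin : FiniteDimensional ℚ (IntermediateField.adjoin ℚ {ζ}) :=
    IntermediateField.adjoin.finiteDimensional ((hζ.isIntegral (Nat.pos_of_ne_zero hM0)).tower_top)
  obtain ⟨F, hFfin, hFgal, hEF, hLF, hζF⟩ :=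
    exists_galois_hull E L (IntermediateField.adjoin ℚ {ζ})
  have hζF' : ζ ∈ F := hζF (IntermediateField.mem_adjoin_simple_self ℚ ζ)
  have hF : ∀ σ : GQ, (∀ a ∈ F, σ a = a) → ∀ x : J, p ^ n • x = 0 → σ • x = x :=
    fun σ h => hE σ fun a ha => h a (hEF ha)
  -- weak Chebotarev, twice
  obtain ⟨ℓ, A, τ, m, hℓ, hℓS, hA, hτ, hg⟩ := hcheb F S g
  obtain ⟨ℓ', A', τ', m', hℓ', hℓ'S, hA', hτ', hg'⟩ := hcheb F S (σ * g)
  have hℓS' : ℓ ∉ (↑S : Set ℕ) := hℓS
  have hℓ'S' : ℓ' ∉ (↑S : Set ℕ) := hℓ'S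
  -- the difference of the Lucas polynomials
  set D : HeckeAlg := lucasS (heckeGen ⟨ℓ, hℓ⟩) (ℓ : HeckeAlg) m -
      lucasS (heckeGen ⟨ℓ', hℓ'⟩) (ℓ' : HeckeAlg) m' with hD
  have hDsupp : D ∈ MvPolynomial.supported ℤ Sg := by
    refine sub_mem (lucasS_mem_subalgebra _ ?_ (natCast_mem _ ℓ) m)
      (lucasS_mem_subalgebra _ ?_ (natCast_mem _ ℓ') m')
    · exact (MvPolynomial.X_mem_supported (R := ℤ)).mpr hℓS'
    · exact (MvPolynomial.X_mem_supported (R := ℤ)).mpr hℓ'S'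
  have hDkill : ∀ x : J, p ^ n • x = 0 → D • x = 0 :=
    lucas_diff_kills hJ hp n hζ F hζF' hF hq (hgood q hq hqS) hP hσ g hℓ (hgood ℓ hℓ hℓS) hA hτ m hg
      hℓ' (hgood ℓ' hℓ' hℓ'S) hA' hτ' m' hg'
  obtain ⟨s, hs, hDs⟩ := hn D hDsupp hDkill
  -- the image of `D` in the Hecke algebra is divisible by `pᵏ`
  have hev : evalS N (↑S : Set ℕ) D = (p : ℤ) ^ k • evalS N (↑S : Set ℕ) s := by
    apply Subtype.ext
    rw [coe_evalS_eq hSg' hDsupp, hDs]
    have := coe_evalS_eq hSg' hs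
    rw [Subalgebra.coe_smul, Subalgebra.coe_smul, this]
  have hπmem : H.π (evalS N (↑S : Set ℕ) D) ∈ IsLocalRing.maximalIdeal T ^ k := by
    rw [hev, map_zsmul, zsmul_eq_mul, Int.cast_pow, Int.cast_natCast]
    exact Ideal.mul_mem_right _ _ (Ideal.pow_mem_pow (natCast_mem_maximalIdeal hp𝒪) k)
  -- its value
  have hval : ∀ (r : ℕ) (hr : r.Prime) (hrS : r ∉ (↑S : Set ℕ)) (hrN : ¬ r ∣ N) (j : ℕ),
      H.π (evalS N (↑S : Set ℕ) (lucasS (heckeGen ⟨r, hr⟩) (r : HeckeAlg) j)) =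
        lucasS (H.π (CuspForm.heckeAlgebra.T hr hrN hrS)) (r : T) j := by
    intro r hr hrS hrN j
    have := lucasS_map (H.π.comp (evalS N (↑S : Set ℕ)).toRingHom) (heckeGen ⟨r, hr⟩)
      (r : HeckeAlg) j
    simp only [RingHom.comp_apply, AlgHom.toRingHom_eq_coe, RingHom.coe_coe, map_natCast] at this
    rw [this, evalS_heckeGen hr hrN hrS]
  have hπD : H.π (evalS N (↑S : Set ℕ) D) =
      lucasS (H.π (CuspForm.heckeAlgebra.T hℓ (hgoodN ℓ hℓ hℓS) hℓS')) (ℓ : T) m -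
        lucasS (H.π (CuspForm.heckeAlgebra.T hℓ' (hgoodN ℓ' hℓ' hℓ'S) hℓ'S')) (ℓ' : T) m' := by
    rw [hD, map_sub, map_sub, hval ℓ hℓ hℓS' (hgoodN ℓ hℓ hℓS) m,
      hval ℓ' hℓ' hℓ'S' (hgoodN ℓ' hℓ' hℓ'S) m']
  -- the traces of the powers of the Frobenius elements
  have htr : LinearMap.trace T H.ρ.V (H.ρ.ρ (τ ^ m)) =
      lucasS (H.π (CuspForm.heckeAlgebra.T hℓ (hgoodN ℓ hℓ hℓS) hℓS')) (ℓ : T) m := by
    rw [map_pow]
    exact trace_pow_eq_lucasS H.ρ.finrank_eq (H.ρ.ρ τ) _ _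
      (H.charpoly_frob ℓ hℓ (hgoodN ℓ hℓ hℓS) hℓS' A hA τ hτ) m
  have htr' : LinearMap.trace T H.ρ.V (H.ρ.ρ (τ' ^ m')) =
      lucasS (H.π (CuspForm.heckeAlgebra.T hℓ' (hgoodN ℓ' hℓ' hℓ'S) hℓ'S')) (ℓ' : T) m' := by
    rw [map_pow]
    exact trace_pow_eq_lucasS H.ρ.finrank_eq (H.ρ.ρ τ') _ _
      (H.charpoly_frob ℓ' hℓ' (hgoodN ℓ' hℓ' hℓ'S) hℓ'S' A' hA' τ' hτ') m'
  -- continuity
  have hc1 := trace_congr_of_agree H.ρ k L hL (τ ^ m) g fun a ha => hg a (hLF ha)
  have hc2 := trace_congr_of_agree H.ρ k L hL (τ' ^ m') (σ * g) fun a ha => hg' a (hLF ha)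
  rw [htr] at hc1
  rw [htr'] at hc2
  rw [hπD] at hπmem
  have hfinal : LinearMap.trace T H.ρ.V (H.ρ.ρ (σ * g)) - LinearMap.trace T H.ρ.V (H.ρ.ρ g) =
      (LinearMap.trace T H.ρ.V (H.ρ.ρ (σ * g)) -
          lucasS (H.π (CuspForm.heckeAlgebra.T hℓ' (hgoodN ℓ' hℓ' hℓ'S) hℓ'S')) (ℓ' : T) m') -
        (LinearMap.trace T H.ρ.V (H.ρ.ρ g) -
          lucasS (H.π (CuspForm.heckeAlgebra.T hℓ (hgoodN ℓ hℓ hℓS) hℓS')) (ℓ : T) m) -
        (lucasS (H.π (CuspForm.heckeAlgebra.T hℓ (hgoodN ℓ hℓ hℓS) hℓS')) (ℓ : T) m -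
          lucasS (H.π (CuspForm.heckeAlgebra.T hℓ' (hgoodN ℓ' hℓ' hℓ'S) hℓ'S')) (ℓ' : T) m') := by
    ring
  rw [hfinal]
  exact sub_mem (sub_mem hc2 hc1) hπmem

end Fermat.Agent.S31


end ZBS53_001_4

/-! ### bundled: `Fermat.Agent.S34.Reduction` -/
section ZBS53_001_5

/-!
# S34 from weak Chebotarev and the faithful `p`-adic Eichler–Shimura package with unipotent inertia

`unipotent_of_pkg`: the statement of S34 under the hypotheses `Cheb.WeakChebotarev` and
`ESPkgUnip N p`.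

Proof. `IsUnipotentOnInertiaAt` asks `charpoly ρ(σ) = (X − 1)²`, i.e. `det ρ(σ) = 1` and
`tr ρ(σ) = 2`, for `σ` in an inertia group at `q`. Both are proved modulo `𝔪ᵏ` for all `k`.
Weak Chebotarev gives `σ = τᵐ` on a large finite Galois extension `F`, `τ` a Frobenius at `ℓ ∉ S`.
As `σ` fixes `μ_{pⁿ}`, `ℓᵐ ≡ 1 mod pⁿ`; so `det ρ(σ) ≡ det ρ(τ)ᵐ = ℓᵐ ≡ 1`. On `J[pⁿ]`
`s_m(T_ℓ, ℓ) = τᵐ + ℓᵐ τ⁻ᵐ = σ + σ⁻¹ = 2`, so by faithfulness
`tr ρ(σ) ≡ s_m(π T_ℓ, ℓ) ≡ 2`.
-/

set_option autoImplicit false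

namespace Fermat.Agent.S34

open ModularCurve Fermat.Agent.ES Fermat.Agent.S31 Polynomial

section rank2

variable {A V : Type*} [CommRing A] [Nontrivial A] [AddCommGroup V] [Module A V]
  [Module.Free A V] [Module.Finite A V]

/-- the characteristic polynomial in rank 2 -/
theorem charpoly_eq_of_finrank_two (hV : Module.finrank A V = 2) (f : Module.End A V) :
    LinearMap.charpoly f = X ^ 2 - C (LinearMap.trace A V f) * X + C (LinearMap.det f) := by
  classical
  let b : Module.Basis (Fin 2) A V := Module.finBasisOfFinrankEq A V hV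
  rw [← LinearMap.charpoly_toMatrix f b, Matrix.charpoly_fin_two,
    LinearMap.trace_eq_matrix_trace A b f, ← LinearMap.det_toMatrix b f]

/-- the determinant from the characteristic polynomial in rank 2 -/
theorem det_of_charpoly (hV : Module.finrank A V = 2) (f : Module.End A V) (a d : A)
    (h : LinearMap.charpoly f = X ^ 2 - C a * X + C d) : LinearMap.det f = d := by
  have h1 := charpoly_eq_of_finrank_two hV f
  rw [h] at h1
  have h2 := congrArg (fun P : A[X] => P.coeff 0) h1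
  simpa using h2.symm

/-- an endomorphism congruent to `1` modulo `I` has determinant congruent to `1` -/
theorem det_sub_one_mem (hV : Module.finrank A V = 2) (I : Ideal A) (h : Module.End A V)
    (hh : ∀ v : V, h v - v ∈ I • (⊤ : Submodule A V)) : LinearMap.det h - 1 ∈ I := by
  classical
  let b : Module.Basis (Fin 2) A V := Module.finBasisOfFinrankEq A V hV
  have hent : ∀ i j : Fin 2, LinearMap.toMatrix b b h i j - (1 : Matrix (Fin 2) (Fin 2) A) i j ∈ I := by
    intro i j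
    have := functional_mem_of_mem_smul_top I (b.coord i) (hh (b j))
    rw [map_sub, Module.Basis.coord_apply, Module.Basis.coord_apply, Module.Basis.repr_self,
      ← LinearMap.toMatrix_apply] at this
    rw [Matrix.one_apply]
    convert this using 2
    rw [Finsupp.single_apply]
    simp only [eq_comm]
  rw [← LinearMap.det_toMatrix b h, Matrix.det_fin_two]
  have h00 := hent 0 0
  have h01 := hent 0 1
  have h10 := hent 1 0
  have h11 := hent 1 1
  simp only [Matrix.one_apply_eq, Matrix.one_apply_ne, ne_eq, Fin.isValue, zero_ne_one,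
    one_ne_zero, not_false_eq_true, sub_zero] at h00 h01 h10 h11
  set M := LinearMap.toMatrix b b h
  have e : M 0 0 * M 1 1 - M 0 1 * M 1 0 - 1 =
      (M 0 0 - 1) * M 1 1 + (M 1 1 - 1) - M 0 1 * M 1 0 := by ring
  rw [e]
  exact I.sub_mem (I.add_mem (I.mul_mem_right _ h00) h11) (I.mul_mem_right _ h01)

end rank2

section congr

variable {T : Type} [CommRing T] [IsLocalRing T]

/-- if `γ` and `g` agree on a field of definition of `ρ mod 𝔪ᵏ`, the determinants of `ρ(γ)` and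
`ρ(g)` are congruent modulo `𝔪ᵏ` -/
theorem det_congr_of_agree (ρ : GaloisRepAdic T) (k : ℕ)
    (L : IntermediateField ℚ (AlgebraicClosure ℚ))
    (hL : ∀ σ : AlgebraicClosure ℚ ≃ₐ[ℚ] AlgebraicClosure ℚ, (∀ x ∈ L, σ x = x) →
      ∀ v : ρ.V, ρ.ρ σ v - v ∈ (IsLocalRing.maximalIdeal T ^ k) • (⊤ : Submodule T ρ.V))
    (γ g : AlgebraicClosure ℚ ≃ₐ[ℚ] AlgebraicClosure ℚ) (h : ∀ a ∈ L, γ a = g a) :
    LinearMap.det (ρ.ρ g) - LinearMap.det (ρ.ρ γ) ∈ IsLocalRing.maximalIdeal T ^ k := by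
  set u : AlgebraicClosure ℚ ≃ₐ[ℚ] AlgebraicClosure ℚ := γ⁻¹ * g with hu
  have huL : ∀ a ∈ L, u a = a := by
    intro a ha
    rw [hu, AlgEquiv.mul_apply, ← h a ha, ← AlgEquiv.mul_apply, inv_mul_cancel,
      AlgEquiv.one_apply]
  have hg : g = γ * u := by rw [hu, mul_inv_cancel_left]
  have e : LinearMap.det (ρ.ρ g) - LinearMap.det (ρ.ρ γ) =
      LinearMap.det (ρ.ρ γ) * (LinearMap.det (ρ.ρ u) - 1) := by
    rw [hg, map_mul, map_mul, mul_sub, mul_one]
  rw [e]
  exact Ideal.mul_mem_left _ _ (det_sub_one_mem ρ.finrank_eq _ _ (hL u huL))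

end congr

/-- `ℓᵐ ≡ 1 mod pⁿ` if `τᵐ` (τ a Frobenius at `ℓ ≠ p`) agrees on `μ_{pⁿ}` with an element of an
inertia group at `q ≠ p`. -/
theorem cyclo_congr_one {p : ℕ} (hp : p.Prime) (n : ℕ) {ζ : AlgebraicClosure ℚ}
    (hζ : IsPrimitiveRoot ζ (p ^ n))
    (F : IntermediateField ℚ (AlgebraicClosure ℚ)) (hζF : ζ ∈ F)
    {q : ℕ} (hq : q.Prime) (hqp : q ≠ p) {P : ValuationSubring (AlgebraicClosure ℚ)}
    (hP : P.LiesOverPrime q) {σ : GQ} (hσ : σ ∈ P.inertiaSubgroupIn ℚ)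
    {ℓ : ℕ} (hℓ : ℓ.Prime) (hℓp : ℓ ≠ p)
    {A : ValuationSubring (AlgebraicClosure ℚ)} (hA : A.LiesOverPrime ℓ)
    {τ : GQ} (hτ : A.IsFrobeniusAt τ ℓ) (m : ℕ) (hg : ∀ a ∈ F, (τ ^ m) a = σ a) :
    ℓ ^ m ≡ 1 [MOD p ^ n] := by
  have hM0 : p ^ n ≠ 0 := pow_ne_zero n hp.ne_zero
  have hζ1 : ζ ^ (p ^ n) = 1 := hζ.pow_eq_one
  have h1 : (τ ^ m) ζ = ζ ^ (ℓ ^ m) :=
    frob_pow_rootOfUnity A (natCast_pow_not_mem_nonunits A hp hℓ hℓp hA n) hM0 hτ hζ1 m
  have h2 : σ ζ = ζ :=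
    inertia_rootOfUnity P (natCast_pow_not_mem_nonunits P hp hq hqp hP n) hM0 hσ hζ1
  have h3 : ζ ^ (ℓ ^ m) = ζ ^ 1 := by
    rw [← h1, hg ζ hζF, h2, pow_one]
  have h4 := (hζ.isOfFinOrder hM0).pow_eq_pow_iff_modEq.mp h3
  rw [← hζ.eq_orderOf] at h4
  exact h4

variable {p : ℕ} {N : ℕ} [NeZero N] {S : Finset ℕ}
  {𝒪 : Type} [CommRing 𝒪] [IsDomain 𝒪] [IsDiscreteValuationRing 𝒪]
  [IsAdicComplete (IsLocalRing.maximalIdeal 𝒪) 𝒪]
  {θ : CuspForm.heckeAlgebra N 2 (↑S : Set ℕ) →+* IsLocalRing.ResidueField 𝒪}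
  {T : Type} [CommRing T] [IsLocalRing T] [IsNoetherianRing T]
  [IsAdicComplete (IsLocalRing.maximalIdeal T) T] [Algebra 𝒪 T] [IsLocalHom (algebraMap 𝒪 T)]
  [Module.Finite 𝒪 T] [Module.Free 𝒪 T]

omit [IsAdicComplete (IsLocalRing.maximalIdeal T) T] in
/-- an element of all the powers of the maximal ideal is zero -/
theorem eq_zero_of_forall_mem_pow {x : T} (h : ∀ k : ℕ, x ∈ IsLocalRing.maximalIdeal T ^ k) :
    x = 0 := by
  have hbot : ⨅ k, IsLocalRing.maximalIdeal T ^ k = ⊥ :=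
    Ideal.iInf_pow_eq_bot_of_isLocalRing _ (Ideal.IsMaximal.ne_top inferInstance)
  have hmem : x ∈ (⊥ : Ideal T) := by
    rw [← hbot]
    exact (Ideal.mem_iInf).mpr h
  exact (Ideal.mem_bot).mp hmem

/-- **S34, reduced** to weak Chebotarev and the faithful `p`-adic Eichler–Shimura package with
unipotent inertia. -/
theorem unipotent_of_pkg (hcheb : Cheb.WeakChebotarev) (hpkg : ESPkgUnip N p) (hp : p.Prime)
    (hp𝒪 : (p : 𝒪) ∈ IsLocalRing.maximalIdeal 𝒪) (hpS : p ∈ S)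
    (hNS : ∀ q : ℕ, q.Prime → q ∣ N → q ∈ S)
    (H : CuspForm.HeckeGaloisRepDatum N (↑S : Set ℕ) 𝒪 θ T)
    (q : ℕ) (hq : q.Prime) (hqp : q ≠ p) (hqN : q ∣ N) (hq2 : ¬ q ^ 2 ∣ N) :
    H.ρ.IsUnipotentOnInertiaAt q := by
  obtain ⟨J, _, _, _, hJ, hfaith, hunip⟩ := hpkg
  intro P hP σ hσ
  -- the primes outside `S` are good
  have hgoodN : ∀ r : ℕ, r.Prime → r ∉ S → ¬ r ∣ N := fun r hr hrS h => hrS (hNS r hr h)
  have hgoodp : ∀ r : ℕ, r.Prime → r ∉ S → r ≠ p := fun r _ hrS h => hrS (h ▸ hpS)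
  have hgood : ∀ r : ℕ, r.Prime → r ∉ S → ¬ r ∣ N * p := by
    intro r hr hrS h
    rcases (Nat.Prime.dvd_mul hr).mp h with h | h
    · exact hrS (hNS r hr h)
    · exact hgoodp r hr hrS ((Nat.prime_dvd_prime_iff_eq hr hp).mp h)
  have hpT : (p : T) ∈ IsLocalRing.maximalIdeal T := natCast_mem_maximalIdeal hp𝒪
  -- the common set-up for a given `k`
  have hsetup : ∀ k : ℕ, ∃ (n : ℕ) (ℓ : ℕ) (hℓ : ℓ.Prime) (hℓS : ℓ ∉ (↑S : Set ℕ)) (m : ℕ),
      k ≤ n ∧ ℓ ^ m ≡ 1 [MOD p ^ n] ∧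
      LinearMap.det (H.ρ.ρ σ) - (ℓ : T) ^ m ∈ IsLocalRing.maximalIdeal T ^ k ∧
      LinearMap.trace T H.ρ.V (H.ρ.ρ σ) -
        lucasS (H.π (CuspForm.heckeAlgebra.T hℓ (hgoodN ℓ hℓ hℓS) hℓS)) (ℓ : T) m ∈
          IsLocalRing.maximalIdeal T ^ k ∧
      lucasS (H.π (CuspForm.heckeAlgebra.T hℓ (hgoodN ℓ hℓ hℓS) hℓS)) (ℓ : T) m - 2 ∈
          IsLocalRing.maximalIdeal T ^ k := by
    intro k
    set Sg : Set Nat.Primes := outsideVars (↑S : Set ℕ) with hSgdef
    have hSg : Sg ⊆ goodPrimes N p := fun r hr => hgood r r.2 hr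
    have hSg' : ∀ r ∈ Sg, ¬ (r : ℕ) ∣ N ∧ (r : ℕ) ∉ (↑S : Set ℕ) := fun r hr =>
      ⟨hgoodN r r.2 hr, hr⟩
    obtain ⟨n₀, hn₀⟩ := hfaith Sg hSg k
    -- enlarge `n₀` to `n ≥ k`
    set n : ℕ := max n₀ k with hn_def
    have hn : ∀ t ∈ MvPolynomial.supported ℤ Sg, (∀ x : J, p ^ n • x = 0 → t • x = 0) →
        ∃ s ∈ MvPolynomial.supported ℤ Sg,
          CuspForm.heckeEvalForms N 2 t = (p : ℤ) ^ k • CuspForm.heckeEvalForms N 2 s := by
      intro t ht hkill
      refine hn₀ t ht fun x hx => hkill x ?_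
      have : p ^ n = p ^ (n - n₀) * p ^ n₀ := by
        rw [← pow_add, Nat.sub_add_cancel (le_max_left n₀ k)]
      rw [this, mul_smul, hx, smul_zero]
    obtain ⟨E, hEfin, hE⟩ := exists_common_field hJ n
    obtain ⟨L, hLfin, hL⟩ := H.ρ.isAdicContinuous k
    have hM0 : p ^ n ≠ 0 := pow_ne_zero n hp.ne_zero
    have : NeZero ((p ^ n : ℕ) : AlgebraicClosure ℚ) := ⟨Nat.cast_ne_zero.mpr hM0⟩
    obtain ⟨ζ, hζ⟩ := HasEnoughRootsOfUnity.exists_primitiveRoot (AlgebraicClosure ℚ) (p ^ n)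
    have hζfin : FiniteDimensional ℚ (IntermediateField.adjoin ℚ {ζ}) :=
      IntermediateField.adjoin.finiteDimensional
        ((hζ.isIntegral (Nat.pos_of_ne_zero hM0)).tower_top)
    obtain ⟨F, hFfin, hFgal, hEF, hLF, hζF⟩ :=
      exists_galois_hull E L (IntermediateField.adjoin ℚ {ζ})
    have hζF' : ζ ∈ F := hζF (IntermediateField.mem_adjoin_simple_self ℚ ζ)
    have hF : ∀ σ : GQ, (∀ a ∈ F, σ a = a) → ∀ x : J, p ^ n • x = 0 → σ • x = x :=
      fun σ h => hE σ fun a ha => h a (hEF ha)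
    obtain ⟨ℓ, A, τ, m, hℓ, hℓS, hA, hτ, hg⟩ := hcheb F S σ
    have hℓS' : ℓ ∉ (↑S : Set ℕ) := hℓS
    have hcyc : ℓ ^ m ≡ 1 [MOD p ^ n] :=
      cyclo_congr_one hp n hζ F hζF' hq hqp hP hσ hℓ (hgoodp ℓ hℓ hℓS) hA hτ m hg
    refine ⟨n, ℓ, hℓ, hℓS', m, le_max_right n₀ k, hcyc, ?_, ?_, ?_⟩
    · -- determinant
      have h1 := det_congr_of_agree H.ρ k L hL (τ ^ m) σ fun a ha => hg a (hLF ha)
      rw [map_pow, map_pow, det_of_charpoly H.ρ.finrank_eq (H.ρ.ρ τ) _ _
        (H.charpoly_frob ℓ hℓ (hgoodN ℓ hℓ hℓS) hℓS' A hA τ hτ)] at h1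
      exact h1
    · -- trace
      have h1 := trace_congr_of_agree H.ρ k L hL (τ ^ m) σ fun a ha => hg a (hLF ha)
      rw [map_pow, trace_pow_eq_lucasS H.ρ.finrank_eq (H.ρ.ρ τ) _ _
        (H.charpoly_frob ℓ hℓ (hgoodN ℓ hℓ hℓS) hℓS' A hA τ hτ) m] at h1
      exact h1
    · -- the Lucas polynomial minus 2 kills `J[pⁿ]`
      set D : HeckeAlg := lucasS (heckeGen ⟨ℓ, hℓ⟩) (ℓ : HeckeAlg) m - 2 with hD
      have hDsupp : D ∈ MvPolynomial.supported ℤ Sg := by
        refine sub_mem (lucasS_mem_subalgebra _ ?_ (natCast_mem _ ℓ) m) (ofNat_mem _ 2)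
        exact (MvPolynomial.X_mem_supported (R := ℤ)).mpr hℓS'
      have hDkill : ∀ x : J, p ^ n • x = 0 → D • x = 0 := by
        intro x hx
        have h1 := lucas_galois hJ n F hF hℓ (hgood ℓ hℓ hℓS) hA hτ m σ hg hx
        have h2 : (ℓ ^ m) • (σ⁻¹ • x) = 1 • (σ⁻¹ • x) :=
          nsmul_eq_of_modEq hcyc (torsion_smul n σ⁻¹ hx)
        have h3 := hunip q hq hqp hqN hq2 P hP σ hσ (σ⁻¹ • x) ⟨n, torsion_smul n σ⁻¹ hx⟩
        rw [smul_inv_smul] at h3
        rw [h2, one_smul] at h1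
        rw [hD, sub_smul, ← h1, ofNat_smul_eq_nsmul HeckeAlg 2 x]
        rw [← h3]
        abel
      obtain ⟨s, hs, hDs⟩ := hn D hDsupp hDkill
      have hev : evalS N (↑S : Set ℕ) D = (p : ℤ) ^ k • evalS N (↑S : Set ℕ) s := by
        apply Subtype.ext
        rw [coe_evalS_eq hSg' hDsupp, hDs]
        have := coe_evalS_eq hSg' hs
        rw [Subalgebra.coe_smul, Subalgebra.coe_smul, this]
      have hπmem : H.π (evalS N (↑S : Set ℕ) D) ∈ IsLocalRing.maximalIdeal T ^ k := by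
        rw [hev, map_zsmul, zsmul_eq_mul, Int.cast_pow, Int.cast_natCast]
        exact Ideal.mul_mem_right _ _ (Ideal.pow_mem_pow hpT k)
      have hval : H.π (evalS N (↑S : Set ℕ) D) =
          lucasS (H.π (CuspForm.heckeAlgebra.T hℓ (hgoodN ℓ hℓ hℓS) hℓS')) (ℓ : T) m - 2 := by
        have := lucasS_map (H.π.comp (evalS N (↑S : Set ℕ)).toRingHom) (heckeGen ⟨ℓ, hℓ⟩)
          (ℓ : HeckeAlg) m
        simp only [RingHom.comp_apply, AlgHom.toRingHom_eq_coe, RingHom.coe_coe,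
          map_natCast] at this
        rw [hD, map_sub, map_sub, this, evalS_heckeGen hℓ (hgoodN ℓ hℓ hℓS) hℓS', map_ofNat,
          map_ofNat]
      rw [hval] at hπmem
      exact hπmem
  -- `ℓᵐ − 1 ∈ 𝔪ᵏ`
  have hpow : ∀ (k n ℓ m : ℕ), k ≤ n → ℓ ^ m ≡ 1 [MOD p ^ n] →
      (ℓ : T) ^ m - 1 ∈ IsLocalRing.maximalIdeal T ^ k := by
    intro k n ℓ m hkn hmod
    have h1 : ((p ^ n : ℕ) : ℤ) ∣ ((ℓ ^ m : ℕ) : ℤ) - ((1 : ℕ) : ℤ) :=
      (Nat.modEq_iff_dvd.mp hmod.symm)
    obtain ⟨c, hc⟩ := h1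
    have h2 : (ℓ : T) ^ m - 1 = (p : T) ^ n * (c : T) := by
      have := congrArg (fun z : ℤ => (z : T)) hc
      simpa using this
    rw [h2]
    exact Ideal.mul_mem_right _ _ (Ideal.pow_le_pow_right hkn (Ideal.pow_mem_pow hpT n))
  -- determinant and trace
  have hdet : LinearMap.det (H.ρ.ρ σ) = 1 := by
    have : LinearMap.det (H.ρ.ρ σ) - 1 = 0 := by
      apply eq_zero_of_forall_mem_pow
      intro k
      obtain ⟨n, ℓ, hℓ, hℓS, m, hkn, hcyc, h1, -, -⟩ := hsetup k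
      have h2 := hpow k n ℓ m hkn hcyc
      have e : LinearMap.det (H.ρ.ρ σ) - 1 =
          (LinearMap.det (H.ρ.ρ σ) - (ℓ : T) ^ m) + ((ℓ : T) ^ m - 1) := by ring
      rw [e]
      exact Ideal.add_mem _ h1 h2
    exact sub_eq_zero.mp this
  have htr : LinearMap.trace T H.ρ.V (H.ρ.ρ σ) = 2 := by
    have : LinearMap.trace T H.ρ.V (H.ρ.ρ σ) - 2 = 0 := by
      apply eq_zero_of_forall_mem_pow
      intro k
      obtain ⟨n, ℓ, hℓ, hℓS, m, hkn, hcyc, -, h1, h2⟩ := hsetup k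
      have e : LinearMap.trace T H.ρ.V (H.ρ.ρ σ) - 2 =
          (LinearMap.trace T H.ρ.V (H.ρ.ρ σ) -
            lucasS (H.π (CuspForm.heckeAlgebra.T hℓ (hgoodN ℓ hℓ hℓS) hℓS)) (ℓ : T) m) +
          (lucasS (H.π (CuspForm.heckeAlgebra.T hℓ (hgoodN ℓ hℓ hℓS) hℓS)) (ℓ : T) m - 2) := by
        ring
      rw [e]
      exact Ideal.add_mem _ h1 h2
    exact sub_eq_zero.mp this
  rw [charpoly_eq_of_finrank_two H.ρ.finrank_eq, htr, hdet]
  have : (C (2 : T) : T[X]) = 2 := by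
    rw [← map_ofNat (C : T →+* T[X]) 2]
  rw [this, map_one]
  ring

end Fermat.Agent.S34


end ZBS53_001_5

/-! ### bundled: `Fermat.Agent.S53.Burnside` -/
section ZBS53_001_6

/-!
# S53, part B: existence of a rigid datum

`Fermat.Agent.S53.nonempty_rigidDatum`: for an absolutely irreducible `ρbar` there are a basis and
elements `e u` of the group algebra `𝒪[G]` with `ρbar(e) = E₁₁`, `ρbar(u) = E₂₁`.
-/

set_option autoImplicit false

namespace Fermat.Agent.S53

open IsLocalRing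

variable {𝒪 : Type} [CommRing 𝒪] [IsLocalRing 𝒪]

/-- a zero-preserving set-theoretic section of the residue map -/
noncomputable def Burnside.liftRes (x : ResidueField 𝒪) : 𝒪 :=
  open Classical in if x = 0 then 0 else Function.surjInv (IsLocalRing.residue_surjective) x

lemma Burnside.liftRes_zero : Burnside.liftRes (0 : ResidueField 𝒪) = 0 := by
  simp [Burnside.liftRes]

lemma Burnside.residue_liftRes (x : ResidueField 𝒪) :
    IsLocalRing.residue 𝒪 (Burnside.liftRes x) = x := by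
  unfold Burnside.liftRes
  split_ifs with h
  · simp [h]
  · exact Function.surjInv_eq _ x

/-- `evalAt` of the matrix form of `ρbar` at a lifted finsupp. -/
lemma Burnside.evalAt_mapRange (ρbar : ResidualGaloisRep (ResidueField 𝒪))
    (b : Module.Basis (Fin 2) (ResidueField 𝒪) ρbar.V)
    (ρm : Gal →* M2 (ResidueField 𝒪)) (hρm : ∀ σ, ρm σ = LinearMap.toMatrix b b (ρbar.ρ σ))
    (c : Gal →₀ ResidueField 𝒪) :
    evalAt ρm (c.mapRange Burnside.liftRes Burnside.liftRes_zero) =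
      LinearMap.toMatrix b b (c.sum fun g a => a • ρbar.ρ g) := by
  unfold evalAt
  rw [Finsupp.sum_mapRange_index (by intro σ; simp)]
  rw [Finsupp.sum, Finsupp.sum, map_sum]
  refine Finset.sum_congr rfl fun σ _ => ?_
  rw [map_smul, hρm, IsLocalRing.ResidueField.algebraMap_eq, Burnside.residue_liftRes]

theorem nonempty_rigidDatum (ρbar : ResidualGaloisRep (ResidueField 𝒪))
    (habs : ρbar.IsAbsolutelyIrreducible) : Nonempty (RigidDatum 𝒪 ρbar) := by
  classical
  let b : Module.Basis (Fin 2) (ResidueField 𝒪) ρbar.V :=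
    Module.finBasisOfFinrankEq _ _ ρbar.finrank_eq
  let ρm : Gal →* M2 (ResidueField 𝒪) :=
    ((LinearMap.toMatrixAlgEquiv b : Module.End (ResidueField 𝒪) ρbar.V ≃ₐ[ResidueField 𝒪]
      M2 (ResidueField 𝒪)) : Module.End (ResidueField 𝒪) ρbar.V →* M2 (ResidueField 𝒪)).comp
      ρbar.ρ
  have hρm : ∀ σ, ρm σ = LinearMap.toMatrix b b (ρbar.ρ σ) := fun σ => rfl
  obtain ⟨ce, hce⟩ := Burnside.exists_finsupp_eq ρbar habs
    ((LinearMap.toMatrix b b).symm (Matrix.single 0 0 1))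
  obtain ⟨cu, hcu⟩ := Burnside.exists_finsupp_eq ρbar habs
    ((LinearMap.toMatrix b b).symm (Matrix.single 1 0 1))
  refine ⟨{ b := b, ρm := ρm, ρm_eq := hρm
            e := ce.mapRange Burnside.liftRes Burnside.liftRes_zero
            u := cu.mapRange Burnside.liftRes Burnside.liftRes_zero
            he := ?_, hu := ?_ }⟩
  · rw [Burnside.evalAt_mapRange ρbar b ρm hρm, hce, LinearEquiv.apply_symm_apply]
  · rw [Burnside.evalAt_mapRange ρbar b ρm hρm, hcu, LinearEquiv.apply_symm_apply]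

end Fermat.Agent.S53


end ZBS53_001_6

/-! ### bundled: `Fermat.Agent.TW.Tan` -/
section ZBS53_001_7

/-!
# S56, piece TW-tan: from a bound for the deformations to `k[ε]` to `𝒪⟦X₁..X_r⟧ ↠ R`

`DQ : DeformationRingData 𝒪 ρbar 𝒟`.  If `𝒟` passes to the base change of `DQ.ρ` along every
SURJECTIVE local `𝒪`-algebra map `DQ.R → k[ε]` (`TwTanBC`), and every family of pairwise
inequivalent deformations of `ρbar` to `k[ε]` of type `𝒟` has at most `|k| ^ r` members
(`TwTanCard`), and `|k| > 2`, then `DQ.R` is a quotient of `𝒪⟦X₁, …, X_r⟧`.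

Proof: a nonzero functional `ℓ` on the relative cotangent space gives a surjective tangent vector
`u_ℓ : DQ.R → k[ε]`; the base changes of `DQ.ρ` along the `u_ℓ` are pairwise inequivalent by the
uniqueness part of the universal property; so `|k|^d - 1 ≤ |k|^r`, hence `d ≤ r`, and TW-alg
(`psj_deformationRing_of_finrank_le`) applies.
-/

set_option autoImplicit false

namespace Fermat.Agent.TW

open IsLocalRing Fermat.Agent.S53

section Residual

variable {𝒪 : Type} [CommRing 𝒪] [IsLocalRing 𝒪]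
variable {ρbar : ResidualGaloisRep (ResidueField 𝒪)}
variable {A B : Type} [CommRing A] [IsLocalRing A] [Algebra 𝒪 A]
  [CommRing B] [IsLocalRing B] [Algebra 𝒪 B]

/-- The residual representation of a base change of a deformation of `ρbar` is again `ρbar`
(for any identification `ι` of the residue fields). -/
theorem twtan_residual_baseChange (D : RigidDatum 𝒪 ρbar)
    (ιA : ResidueField 𝒪 →+* ResidueField A)
    (hιA : ∀ x : 𝒪, ιA (residue 𝒪 x) = residue A (algebraMap 𝒪 A x))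
    (ιB : ResidueField 𝒪 →+* ResidueField B)
    (hιB : ∀ x : 𝒪, ιB (residue 𝒪 x) = residue B (algebraMap 𝒪 B x))
    (φ : A →ₐ[𝒪] B) (hφ : IsLocalHom (φ : A →+* B)) (ρ : GaloisRepAdic A)
    (h : ρ.residual.IsEquiv (ρbar.baseChangeAlong ιA)) :
    (ρ.baseChangeAlong (φ : A →+* B) hφ).residual.IsEquiv (ρbar.baseChangeAlong ιB) := by
  obtain ⟨r, hr, hfr, ⟨e⟩⟩ := exists_framed_of_residual_isEquiv D ιA hιA ρ h
  have e1 := e.baseChangeAlong (φ : A →+* B) hφ
  have e2 := ofMatrixBaseChangeEquiv (φ : A →+* B) hφ r hr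
  have e3 := (e1.trans e2).residual
  obtain ⟨e4⟩ := residual_isEquiv_of_framed D ιB hιB (mapRep (φ : A →+* B) r)
    (hr.map (φ : A →+* B) hφ) (tangent_framed_mapRep hfr φ hφ)
  exact ⟨e3.trans e4⟩

end Residual

section Universal

variable {𝒪 : Type} [CommRing 𝒪] [IsDomain 𝒪] [IsDiscreteValuationRing 𝒪]
  [IsAdicComplete (maximalIdeal 𝒪) 𝒪] [Finite (ResidueField 𝒪)]
variable {ρbar : ResidualGaloisRep (ResidueField 𝒪)}
  {𝒟 : ∀ ⦃A : Type⦄ [CommRing A] [IsLocalRing A] [Algebra 𝒪 A], GaloisRepAdic A → Prop}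

/-- `𝒟` passes to the base change of the universal deformation along every surjective local
`𝒪`-algebra map `DQ.R → k[ε]`. -/
def TwTanBC (DQ : GaloisRep.DeformationRingData 𝒪 ρbar 𝒟) : Prop :=
  letI : Algebra 𝒪 (DualNumber (ResidueField 𝒪)) := dnAlg 𝒪
  ∀ (q : DQ.R →ₐ[𝒪] DualNumber (ResidueField 𝒪))
    (hq : IsLocalHom (q : DQ.R →+* DualNumber (ResidueField 𝒪))), Function.Surjective q →
    𝒟 (DQ.ρ.baseChangeAlong (q : DQ.R →+* DualNumber (ResidueField 𝒪)) hq)

variable (𝒪 ρbar 𝒟) in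
/-- Every family of pairwise inequivalent deformations of `ρbar` to `k[ε]` of type `𝒟` has at
most `N` members. -/
def TwTanCard (N : ℕ) : Prop :=
  ∀ (ι : Type) [Finite ι] (t : ι → TangentSub 𝒪 ρbar 𝒟),
    (∀ i j, (t i).1.IsEquiv (t j).1 → i = j) → Nat.card ι ≤ N

/-- `TwTanCard` from a bound for the number of classes of deformations to `k[ε]`. -/
theorem twTanCard_of_card_le (hfin : GaloisRep.TangentFinite 𝒪 ρbar 𝒟) (N : ℕ)
    (h : Nat.card (Quotient (tangentSetoid 𝒪 ρbar 𝒟)) ≤ N) : TwTanCard 𝒪 ρbar 𝒟 N := by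
  intro ι _ t ht
  have : Finite (Quotient (tangentSetoid 𝒪 ρbar 𝒟)) := (tangentFinite_iff 𝒪 ρbar 𝒟).1 hfin
  refine le_trans (Nat.card_le_card_of_injective
    (fun i => Quotient.mk (tangentSetoid 𝒪 ρbar 𝒟) (t i)) ?_) h
  intro i j hij
  exact ht i j (Quotient.exact hij)

/-- Two local `𝒪`-algebra maps `DQ.R → k[ε]` with equivalent base changes of the universal
deformation are equal, if the first base change is of type `𝒟`. -/
theorem twtan_eq_of_isEquiv (DQ : GaloisRep.DeformationRingData 𝒪 ρbar 𝒟)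
    (q q' : @AlgHom 𝒪 DQ.R (DualNumber (ResidueField 𝒪)) _ _ _ _ (dnAlg 𝒪))
    (hq : IsLocalHom (q : DQ.R →+* DualNumber (ResidueField 𝒪)))
    (hq' : IsLocalHom (q' : DQ.R →+* DualNumber (ResidueField 𝒪)))
    (h𝒟 : @𝒟 (DualNumber (ResidueField 𝒪)) _ _ (dnAlg 𝒪)
      (DQ.ρ.baseChangeAlong (q : DQ.R →+* DualNumber (ResidueField 𝒪)) hq))
    (he : (DQ.ρ.baseChangeAlong (q : DQ.R →+* DualNumber (ResidueField 𝒪)) hq).IsEquiv
      (DQ.ρ.baseChangeAlong (q' : DQ.R →+* DualNumber (ResidueField 𝒪)) hq')) : q = q' := by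
  letI : Algebra 𝒪 (DualNumber (ResidueField 𝒪)) := dnAlg 𝒪
  have hε : IsTestRing 𝒪 (DualNumber (ResidueField 𝒪)) := isTestRing_dualNumber
  have : Finite (DualNumber (ResidueField 𝒪)) := hε.finite
  have : IsLocalHom (algebraMap 𝒪 (DualNumber (ResidueField 𝒪))) := hε.isLocalHom
  obtain ⟨D⟩ := nonempty_rigidDatum (𝒪 := 𝒪) ρbar DQ.absIrr
  have hres : (DQ.ρ.baseChangeAlong (q : DQ.R →+* DualNumber (ResidueField 𝒪)) hq).residual.IsEquiv
      (ρbar.baseChangeAlong
        (IsLocalRing.ResidueField.map (algebraMap 𝒪 (DualNumber (ResidueField 𝒪))))) :=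
    twtan_residual_baseChange (A := DQ.R) (B := DualNumber (ResidueField 𝒪)) D
      (IsLocalRing.ResidueField.map (algebraMap 𝒪 DQ.R)) (fun _ => rfl)
      (IsLocalRing.ResidueField.map (algebraMap 𝒪 (DualNumber (ResidueField 𝒪)))) (fun _ => rfl)
      q hq DQ.ρ DQ.residual_isEquiv
  obtain ⟨φ, -, huniq⟩ := DQ.universal (DualNumber (ResidueField 𝒪)) hε.residue_surjective
    (DQ.ρ.baseChangeAlong (q : DQ.R →+* DualNumber (ResidueField 𝒪)) hq) h𝒟 hres
  have h1 : q = φ := huniq q ⟨hq, ⟨GaloisRepAdic.Equiv.refl _⟩⟩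
  have h2 : q' = φ := by
    obtain ⟨e⟩ := he
    exact huniq q' ⟨hq', ⟨e.symm⟩⟩
  exact h1.trans h2.symm

end Universal

section Surj

variable {𝒪 : Type} [CommRing 𝒪] [IsLocalRing 𝒪]
variable {A : Type} [CommRing A] [IsLocalRing A] [Algebra 𝒪 A]

/-- The tangent vector of a nonzero functional is surjective. -/
theorem twtan_tangentOfDual_surjective (hA : IsResAlg 𝒪 A)
    (ℓ : Module.Dual (ResidueField 𝒪) (TangentCot 𝒪 A)) (hℓ : ℓ ≠ 0) :
    Function.Surjective (tangentOfDual hA ℓ).1 := by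
  have hex : ∃ v, ℓ v ≠ 0 := by
    by_contra h
    exact hℓ (LinearMap.ext fun v => not_not.1 fun hv => h ⟨v, hv⟩)
  obtain ⟨v, hv⟩ := hex
  intro z
  -- an element of the maximal ideal with prescribed second component
  obtain ⟨b, hb⟩ := tangentMk_surjective (𝒪 := 𝒪) (A := A) ((z.snd / ℓ v) • v)
  obtain ⟨c', hc'⟩ := tangent_exists_sub_mem hA b
  obtain ⟨c, hc⟩ := IsLocalRing.residue_surjective (R := 𝒪) z.fst
  have hm1 : tangentMk 𝒪 A (b - algebraMap 𝒪 A c') = (z.snd / ℓ v) • v := by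
    rw [map_sub, tangentMk_algebraMap, sub_zero, hb]
  have hval : ∀ a : A, (tangentOfDual hA ℓ).1 a =
      TrivSqZeroExt.inl (tangentRes hA a) + TrivSqZeroExt.inr (ℓ (tangentMk 𝒪 A a)) :=
    fun _ => rfl
  refine ⟨algebraMap 𝒪 A c + (b - algebraMap 𝒪 A c'), ?_⟩
  rw [hval, map_add, map_add, tangentMk_algebraMap, zero_add, hm1, tangentRes_algebraMap,
    (tangentRes_eq_zero_iff hA _).2 hc', add_zero, hc, map_smul, smul_eq_mul,
    div_mul_cancel₀ _ hv]
  ext <;> simp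

end Surj

section Count

variable {𝒪 : Type} [CommRing 𝒪] [IsDomain 𝒪] [IsDiscreteValuationRing 𝒪]
  [IsAdicComplete (maximalIdeal 𝒪) 𝒪] [Finite (ResidueField 𝒪)]
variable {ρbar : ResidualGaloisRep (ResidueField 𝒪)}
  {𝒟 : ∀ ⦃A : Type⦄ [CommRing A] [IsLocalRing A] [Algebra 𝒪 A], GaloisRepAdic A → Prop}

/-- The deformation to `k[ε]` attached to a surjective tangent vector of the universal ring. -/
theorem twtan_exists_tangentSub (DQ : GaloisRep.DeformationRingData 𝒪 ρbar 𝒟)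
    (hbc : TwTanBC DQ) (u : TangentHom 𝒪 DQ.R) (hu : Function.Surjective u.1) :
    ∃ (t : TangentSub 𝒪 ρbar 𝒟)
      (hq : IsLocalHom ((tangentAlgHom u :
        @AlgHom 𝒪 DQ.R (DualNumber (ResidueField 𝒪)) _ _ _ _ (dnAlg 𝒪)) :
          DQ.R →+* DualNumber (ResidueField 𝒪))),
      t.1 = DQ.ρ.baseChangeAlong ((tangentAlgHom u :
        @AlgHom 𝒪 DQ.R (DualNumber (ResidueField 𝒪)) _ _ _ _ (dnAlg 𝒪)) :
          DQ.R →+* DualNumber (ResidueField 𝒪)) hq := by
  letI : Algebra 𝒪 (DualNumber (ResidueField 𝒪)) := dnAlg 𝒪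
  letI : Algebra (ResidueField 𝒪) (ResidueField (DualNumber (ResidueField 𝒪))) := dnResAlg 𝒪
  have hε : IsTestRing 𝒪 (DualNumber (ResidueField 𝒪)) := isTestRing_dualNumber
  have hεR : IsResAlg 𝒪 (DualNumber (ResidueField 𝒪)) := hε.isResAlg
  have hq : IsLocalHom ((tangentAlgHom u : DQ.R →ₐ[𝒪] DualNumber (ResidueField 𝒪)) :
      DQ.R →+* DualNumber (ResidueField 𝒪)) := hεR.isLocalHom_ringHom (tangentAlgHom u)
  obtain ⟨D⟩ := nonempty_rigidDatum (𝒪 := 𝒪) ρbar DQ.absIrr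
  have h1 : 𝒟 (DQ.ρ.baseChangeAlong ((tangentAlgHom u : DQ.R →ₐ[𝒪] DualNumber (ResidueField 𝒪)) :
      DQ.R →+* DualNumber (ResidueField 𝒪)) hq) := hbc (tangentAlgHom u) hq hu
  have h2 : (DQ.ρ.baseChangeAlong ((tangentAlgHom u : DQ.R →ₐ[𝒪] DualNumber (ResidueField 𝒪)) :
      DQ.R →+* DualNumber (ResidueField 𝒪)) hq).residual.IsEquiv
      (ρbar.baseChangeAlong ((IsLocalRing.residue (DualNumber (ResidueField 𝒪))).comp
        (algebraMap (ResidueField 𝒪) (DualNumber (ResidueField 𝒪))))) :=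
    twtan_residual_baseChange (A := DQ.R) (B := DualNumber (ResidueField 𝒪)) D
      (IsLocalRing.ResidueField.map (algebraMap 𝒪 DQ.R)) (fun _ => rfl)
      ((IsLocalRing.residue (DualNumber (ResidueField 𝒪))).comp
        (algebraMap (ResidueField 𝒪) (DualNumber (ResidueField 𝒪)))) (fun _ => rfl)
      (tangentAlgHom u) hq DQ.ρ DQ.residual_isEquiv
  exact ⟨⟨_, h1, h2⟩, hq, rfl⟩

/-- **TW-tan, dimension form.** -/
theorem twtan_finrank_le (DQ : GaloisRep.DeformationRingData 𝒪 ρbar 𝒟) (hbc : TwTanBC DQ)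
    (r : ℕ) (hk : 2 < Nat.card (ResidueField 𝒪))
    (hcard : TwTanCard 𝒪 ρbar 𝒟 (Nat.card (ResidueField 𝒪) ^ r)) :
    Module.finrank (ResidueField 𝒪) (TangentCot 𝒪 DQ.R) ≤ r := by
  classical
  have hres := DQ.residue_surjective
  have hA : IsResAlg 𝒪 DQ.R := psj_isResAlg hres
  haveI : Module.Finite (ResidueField 𝒪) (TangentCot 𝒪 DQ.R) := psj_finite_tangentCot hres
  haveI : Finite (Module.Dual (ResidueField 𝒪) (TangentCot 𝒪 DQ.R)) :=
    Module.finite_of_finite (ResidueField 𝒪)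
  -- the family indexed by the nonzero functionals
  have key := fun ℓ : {ℓ : Module.Dual (ResidueField 𝒪) (TangentCot 𝒪 DQ.R) // ℓ ≠ 0} =>
    twtan_exists_tangentSub DQ hbc (tangentOfDual hA ℓ.1)
      (twtan_tangentOfDual_surjective hA ℓ.1 ℓ.2)
  choose t hq ht using key
  have hinj : ∀ i j, (t i).1.IsEquiv (t j).1 → i = j := by
    intro i j hij
    rw [ht i, ht j] at hij
    have h𝒟 := (t i).2.1
    rw [ht i] at h𝒟
    have h1 := twtan_eq_of_isEquiv DQ _ _ (hq i) (hq j) h𝒟 hij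
    have h2 : tangentOfDual hA i.1 = tangentOfDual hA j.1 := by
      apply Subtype.ext
      apply RingHom.ext
      intro a
      have := congrArg (fun q : @AlgHom 𝒪 DQ.R (DualNumber (ResidueField 𝒪)) _ _ _ _ (dnAlg 𝒪) =>
        (q : DQ.R →+* DualNumber (ResidueField 𝒪)) a) h1
      exact this
    exact Subtype.ext (tangentOfDual_injective hA h2)
  have hle := hcard _ t hinj
  -- count
  have hcount : Nat.card (Module.Dual (ResidueField 𝒪) (TangentCot 𝒪 DQ.R)) ≤
      Nat.card {ℓ : Module.Dual (ResidueField 𝒪) (TangentCot 𝒪 DQ.R) // ℓ ≠ 0} + 1 := by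
    have h1 : Nat.card (Option {ℓ : Module.Dual (ResidueField 𝒪) (TangentCot 𝒪 DQ.R) // ℓ ≠ 0}) =
        Nat.card {ℓ : Module.Dual (ResidueField 𝒪) (TangentCot 𝒪 DQ.R) // ℓ ≠ 0} + 1 :=
      Finite.card_option
    rw [← h1]
    refine Nat.card_le_card_of_injective
      (fun ℓ : Module.Dual (ResidueField 𝒪) (TangentCot 𝒪 DQ.R) =>
        if h : ℓ = 0 then none else some ⟨ℓ, h⟩) ?_
    intro a b hab
    by_cases ha : a = 0 <;> by_cases hb : b = 0
    · rw [ha, hb]
    · simp [ha, hb] at hab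
    · simp [ha, hb] at hab
    · simpa [ha, hb] using hab
  have hdual : Nat.card (Module.Dual (ResidueField 𝒪) (TangentCot 𝒪 DQ.R)) =
      Nat.card (ResidueField 𝒪) ^ Module.finrank (ResidueField 𝒪) (TangentCot 𝒪 DQ.R) := by
    rw [Module.natCard_eq_pow_finrank (K := ResidueField 𝒪), Subspace.dual_finrank_eq]
  rw [hdual] at hcount
  by_contra hlt
  have hlt' : r + 1 ≤ Module.finrank (ResidueField 𝒪) (TangentCot 𝒪 DQ.R) := by omega
  have h3 : Nat.card (ResidueField 𝒪) ^ (r + 1) ≤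
      Nat.card (ResidueField 𝒪) ^ Module.finrank (ResidueField 𝒪) (TangentCot 𝒪 DQ.R) :=
    Nat.pow_le_pow_right (by omega) hlt'
  have h4 : 0 < Nat.card (ResidueField 𝒪) ^ r := Nat.pow_pos (by omega)
  have h5 : 3 * Nat.card (ResidueField 𝒪) ^ r ≤ Nat.card (ResidueField 𝒪) ^ (r + 1) := by
    rw [pow_succ, mul_comm]
    exact Nat.mul_le_mul_left _ hk
  omega

/-- **TW-tan.** If `𝒟` passes to the base changes of the universal deformation along surjections
`DQ.R → k[ε]`, every family of pairwise inequivalent deformations of `ρbar` to `k[ε]` of type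
`𝒟` has at most `|k| ^ r` members, and `|k| > 2`, then `DQ.R` is a quotient of `𝒪⟦X₁, …, X_r⟧`. -/
theorem twtan_exists_surjective (DQ : GaloisRep.DeformationRingData 𝒪 ρbar 𝒟) (hbc : TwTanBC DQ)
    (r : ℕ) (hk : 2 < Nat.card (ResidueField 𝒪))
    (hcard : TwTanCard 𝒪 ρbar 𝒟 (Nat.card (ResidueField 𝒪) ^ r)) :
    ∃ γ : MvPowerSeries (Fin r) 𝒪 →ₐ[𝒪] DQ.R, Function.Surjective γ :=
  psj_deformationRing_of_finrank_le DQ r (twtan_finrank_le DQ hbc r hk hcard)

/-- For `p` odd the residue field has more than two elements. -/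
theorem twtan_two_lt_card (p : ℕ) [hp : Fact p.Prime] (hp2 : p ≠ 2)
    (hp𝒪 : (p : 𝒪) ∈ maximalIdeal 𝒪) : 2 < Nat.card (ResidueField 𝒪) := by
  have h0 : ((p : ℕ) : ResidueField 𝒪) = 0 := by
    have h1 : residue 𝒪 (p : 𝒪) = 0 := (residue_eq_zero_iff _).2 hp𝒪
    rw [map_natCast] at h1
    exact h1
  haveI : CharP (ResidueField 𝒪) p := by
    refine (CharP.charP_iff_prime_eq_zero hp.out).2 h0
  have hinj : Function.Injective (ZMod.castHom (dvd_refl p) (ResidueField 𝒪)) :=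
    RingHom.injective _
  have hle := Nat.card_le_card_of_injective _ hinj
  rw [Nat.card_zmod] at hle
  have h3 : 3 ≤ p := by
    have := hp.out.two_le
    omega
  omega

/-- **TW-tan** for `p` odd. -/
theorem twtan_exists_surjective_of_odd (p : ℕ) [Fact p.Prime] (hp2 : p ≠ 2)
    (hp𝒪 : (p : 𝒪) ∈ maximalIdeal 𝒪) (DQ : GaloisRep.DeformationRingData 𝒪 ρbar 𝒟)
    (hbc : TwTanBC DQ) (r : ℕ)
    (hcard : TwTanCard 𝒪 ρbar 𝒟 (Nat.card (ResidueField 𝒪) ^ r)) :
    ∃ γ : MvPowerSeries (Fin r) 𝒪 →ₐ[𝒪] DQ.R, Function.Surjective γ :=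
  twtan_exists_surjective DQ hbc r (twtan_two_lt_card p hp2 hp𝒪) hcard

end Count

end Fermat.Agent.TW


end ZBS53_001_7
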