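/- GENERATED FILE (helper35, build-time optimisation, NOTES/ZB.md): verbatim concatenation of the modules
   Fermat.Agent.TW.W.GBAbs
   Do not edit; do not import together with these modules. -/
import Mathlib
import Fermat.Agent.ZB.EC_004

/-! ### bundled: `Fermat.Agent.TW.W.GBAbs` -/
section ZBTW_002_0
/-
TW-W, block (GB) (captain helper67): the ABSTRACT interface of the count (Mathlib only).

`G` a group acting on an additive group `Ω`;  `N ⊴ G` of finite index prime to `p` ("`G_T`"),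
`I ⊴ G` ("inertia"), `J = I ⊓ N` ("`I_T`"), `𝒩 ≤ G` ("`𝒩_T`");  `Fil t ≤ Ω` a decreasing filtration
("`Fil t = 𝔪_T^t`", `Fil 0 = 𝒪_T`, `Fil e' = (ζ - 1)𝒪_T`);  `κ τ x ∈ 𝔽_p` the Kummer symbol
(`τ α = ζ^κ α` for `α ^ p = 1 + p x`);  `F` the residue field of `T`, `actF` the action of `G` on it,
`r t x = x / π ^ t mod 𝔪` on `Fil t`, `u γ = γ π / π mod 𝔪` (so `u = θ` on inertia).

* `GBAbsKum`  : what the Kummer symbol satisfies (piece K1);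
* `GBAbsTame` : what the filtration satisfies (piece K4);
* `gbEig`     : `E_i = {v ∈ F ⊗ W | (1 ⊗ σ) v = u(σ)^i v for all σ ∈ I}`;
* `StmtGBAlg` : the abstract count `dim Hom_G(J/(J ∩ 𝒩), W) ≤ Σ_{1 ≤ i ≤ e'} dim_F E_i`.
-/

set_option autoImplicit false

open scoped TensorProduct

namespace Fermat.Agent.TW.W

/-- The hypotheses on the Kummer symbol `κ : G → Ω → 𝔽_p` (`J = I_T`, `O = 𝒪_T`,
`Λ = (ζ - 1) 𝒪_T`). -/
structure GBAbsKum (p : ℕ) {G Ω : Type} [Group G] [AddCommGroup Ω] [DistribMulAction G Ω]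
    (J 𝒩 : Subgroup G) (O Λ : AddSubgroup Ω) (ω : G →* (ZMod p)ˣ) (κ : G → Ω → ZMod p) :
    Prop where
  /-- additive in `x` -/
  add_right : ∀ τ ∈ J, ∀ x ∈ O, ∀ y ∈ O, κ τ (x + y) = κ τ x + κ τ y
  /-- additive in `τ` -/
  mul_left : ∀ σ ∈ J, ∀ τ ∈ J, ∀ x ∈ O, κ (σ * τ) x = κ σ x + κ τ x
  /-- vanishing on `Λ` -/
  vanish : ∀ τ ∈ J, ∀ x ∈ Λ, κ τ x = 0
  /-- equivariance -/
  conj : ∀ (γ : G), ∀ τ ∈ J, ∀ x ∈ O, κ (γ * τ * γ⁻¹) (γ • x) = ((ω γ : (ZMod p)ˣ) : ZMod p) * κ τ x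
  /-- the left kernel is contained in `𝒩` -/
  detect : ∀ τ ∈ J, (∀ x ∈ O, κ τ x = 0) → τ ∈ 𝒩

/-- The hypotheses on the filtration `Fil` of `𝒪_T` and its graded pieces. -/
structure GBAbsTame (p : ℕ) {G Ω : Type} [Group G] [AddCommGroup Ω] [DistribMulAction G Ω]
    (N I : Subgroup G) (ω : G →* (ZMod p)ˣ)
    (F : Type) [Field F] [Algebra (ZMod p) F] (actF : G →* RingAut F) (u : G → F) (e' : ℕ)
    (Fil : ℕ → AddSubgroup Ω) (r : ℕ → Ω → F) : Prop where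
  finite : Finite F
  anti : ∀ t, Fil (t + 1) ≤ Fil t
  stable : ∀ (γ : G) (t : ℕ), ∀ x ∈ Fil t, γ • x ∈ Fil t
  fixN : ∀ γ ∈ N, ∀ x ∈ Fil 0, γ • x = x
  p_smul : ∀ x ∈ Fil 0, p • x ∈ Fil e'
  r_add : ∀ t < e', ∀ x ∈ Fil t, ∀ y ∈ Fil t, r t (x + y) = r t x + r t y
  r_ker : ∀ t < e', ∀ x ∈ Fil t, (r t x = 0 ↔ x ∈ Fil (t + 1))
  r_surj : ∀ t < e', ∀ a : F, ∃ x ∈ Fil t, r t x = a
  r_smul : ∀ (γ : G), ∀ t < e', ∀ x ∈ Fil t, r t (γ • x) = u γ ^ t * actF γ (r t x)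
  act_inert : ∀ σ ∈ I, actF σ = 1
  act_fix : ∀ a : F, (∀ γ : G, actF γ a = a) → ∃ c : ZMod p, algebraMap (ZMod p) F c = a
  omega : ∀ σ ∈ I, algebraMap (ZMod p) F ((ω σ : (ZMod p)ˣ) : ZMod p) = u σ ^ e'
  omegaN : ∀ γ ∈ N, ω γ = 1

/-- `E_i(W) ⊆ F ⊗_{𝔽_p} W`: the vectors on which every `σ ∈ I` acts (through `W`) by the scalar
`u(σ) ^ i`. -/
def gbEig (p : ℕ) {G : Type} [Group G] (F : Type) [Field F] [Algebra (ZMod p) F]
    {W : Type} [AddCommGroup W] [Module (ZMod p) W] (ρ : Representation (ZMod p) G W)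
    (I : Subgroup G) (u : G → F) (i : ℕ) : Submodule F (F ⊗[ZMod p] W) where
  carrier := {v | ∀ σ ∈ I, (ρ σ).baseChange F v = u σ ^ i • v}
  add_mem' := by
    intro a b ha hb σ hσ
    rw [map_add, ha σ hσ, hb σ hσ, smul_add]
  zero_mem' := by
    intro σ _
    rw [map_zero, smul_zero]
  smul_mem' := by
    intro c v hv σ hσ
    rw [map_smul, hv σ hσ, smul_comm]

lemma mem_gbEig (p : ℕ) {G : Type} [Group G] (F : Type) [Field F] [Algebra (ZMod p) F]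
    {W : Type} [AddCommGroup W] [Module (ZMod p) W] (ρ : Representation (ZMod p) G W)
    (I : Subgroup G) (u : G → F) (i : ℕ) (v : F ⊗[ZMod p] W) :
    v ∈ gbEig p F ρ I u i ↔ ∀ σ ∈ I, (ρ σ).baseChange F v = u σ ^ i • v := Iff.rfl

/-- **GB-ALG** (the abstract count).  Under `GBAbsKum` and `GBAbsTame`, every space `S` of functions
`h : G → W` supported on `J = I ⊓ N`, additive on `J`, vanishing on `𝒩` and `G`-equivariant is
finite-dimensional of dimension `≤ Σ_{1 ≤ i ≤ e'} dim_F E_i(W)`.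
(`A = Fil 0 / Fil e'`, a finite `𝔽_p[G/N]`-module; `κ` embeds `J/(J ∩ 𝒩)` into `A^∨(ω)`; Maschke
(`p ∤ [G : N]`): `dim S ≤ dim Hom_G(A^∨(ω), W) = dim (A ⊗ W(ω⁻¹))^G`; left exactness along
`Fil t / Fil e'`; on `gr^t ⊗ W ≅ F ⊗ W` the group acts semilinearly, `I` acts `F`-linearly with
invariants `E_{e' - t}`, and `dim_{𝔽_p} V^G ≤ dim_F V` for a semilinear action with fixed field
`𝔽_p` (`wk3_finrank_fixed_le`).) -/
def StmtGBAlg : Prop :=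
  ∀ (p : ℕ) [Fact p.Prime] (G Ω : Type) [Group G] [AddCommGroup Ω] [DistribMulAction G Ω]
    (N I 𝒩 : Subgroup G), N.Normal → I.Normal → N.index ≠ 0 → ¬ p ∣ N.index →
    ∀ (ω : G →* (ZMod p)ˣ) (κ : G → Ω → ZMod p)
    (F : Type) [Field F] [Algebra (ZMod p) F] (actF : G →* RingAut F) (u : G → F) (e' : ℕ)
    (Fil : ℕ → AddSubgroup Ω) (r : ℕ → Ω → F),
    GBAbsKum p (I ⊓ N) 𝒩 (Fil 0) (Fil e') ω κ →
    GBAbsTame p N I ω F actF u e' Fil r →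
    ∀ (W : Type) [AddCommGroup W] [Module (ZMod p) W] [Module.Finite (ZMod p) W]
      (ρ : Representation (ZMod p) G W), (∀ γ ∈ N, ρ γ = 1) →
    ∀ S : Submodule (ZMod p) (G → W),
      (∀ h ∈ S, (∀ σ, σ ∉ I ⊓ N → h σ = 0) ∧
        (∀ σ τ, σ ∈ I ⊓ N → τ ∈ I ⊓ N → h (σ * τ) = h σ + h τ) ∧
        (∀ τ ∈ 𝒩, h τ = 0) ∧
        ∀ (γ τ : G), τ ∈ I ⊓ N → h (γ * τ * γ⁻¹) = ρ γ (h τ)) →
      Module.Finite (ZMod p) S ∧
        Module.finrank (ZMod p) S ≤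
          ∑ i ∈ Finset.Icc 1 e', Module.finrank F (gbEig p F ρ I u i)

end Fermat.Agent.TW.W


end ZBTW_002_0
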