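/- GENERATED FILE (helper35, build-time optimisation, NOTES/ZB.md): verbatim concatenation of the modules
   Fermat.Agent.TW.W.KummerCore
   Do not edit; do not import together with these modules. -/
import Mathlib
import Fermat.Agent.ZB.TW_002

/-! ### bundled: `Fermat.Agent.TW.W.KummerCore` -/
section ZBTW_003_0

/-!
# TW-W (K1): the Kummer symbol, abstract part (Mathlib only)

`Ω` an algebraically closed field, `F ⊂ Ω`, `ζ ∈ Ω` a primitive `p`-th root of unity.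
For `g ∈ Aut(Ω/F)` fixing `ζ` and `u ≠ 0`:  `twkMu p g u = g α / α` for every `α` with `α ^ p = u`.
-/

set_option autoImplicit false
set_option linter.style.haveILetI false
set_option linter.unusedSectionVars false

namespace Fermat.Agent.TW.W

section Core

variable {F Ω : Type*} [Field F] [Field Ω] [Algebra F Ω] [IsAlgClosed Ω] (p : ℕ) [Fact p.Prime]

/-- A chosen `p`-th root. -/
noncomputable def twkRoot (u : Ω) : Ω :=
  (IsAlgClosed.exists_pow_nat_eq u (Fact.out : p.Prime).pos).choose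

theorem twkRoot_pow (u : Ω) : twkRoot p u ^ p = u :=
  (IsAlgClosed.exists_pow_nat_eq u (Fact.out : p.Prime).pos).choose_spec

theorem twkRoot_ne_zero {u : Ω} (hu : u ≠ 0) : twkRoot p u ≠ 0 := by
  intro h
  apply hu
  rw [← twkRoot_pow p u, h, zero_pow (Fact.out : p.Prime).ne_zero]

/-- The (multiplicative) Kummer symbol `g α / α`, `α ^ p = u`. -/
noncomputable def twkMu (g : Ω ≃ₐ[F] Ω) (u : Ω) : Ω := g (twkRoot p u) / twkRoot p u

theorem twkMu_pow (g : Ω ≃ₐ[F] Ω) {u : Ω} (hu : u ≠ 0) (hgu : g u = u) :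
    twkMu p g u ^ p = 1 := by
  unfold twkMu
  rw [div_pow, ← map_pow, twkRoot_pow, hgu, div_self hu]

theorem twkMu_ne_zero (g : Ω ≃ₐ[F] Ω) {u : Ω} (hu : u ≠ 0) : twkMu p g u ≠ 0 := by
  unfold twkMu
  apply div_ne_zero _ (twkRoot_ne_zero p hu)
  rw [Ne, map_eq_zero_iff g g.injective]
  exact twkRoot_ne_zero p hu

variable {p}

/-- The `p`-th roots of unity are the powers of `ζ`. -/
theorem twk_exists_pow {ζ : Ω} (hζ1 : ζ ≠ 1) (hζp : ζ ^ p = 1) {x : Ω} (hx : x ^ p = 1) :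
    ∃ i : ℕ, i < p ∧ x = ζ ^ i := by
  have hp : p.Prime := Fact.out
  haveI : NeZero p := ⟨hp.ne_zero⟩
  have hprim : IsPrimitiveRoot ζ p := by
    rw [IsPrimitiveRoot.iff_def]
    refine ⟨hζp, fun l hl => ?_⟩
    have h1 : orderOf ζ = p := orderOf_eq_prime hζp hζ1
    rw [← h1]
    exact orderOf_dvd_of_pow_eq_one hl
  obtain ⟨i, hi, hix⟩ := hprim.eq_pow_of_pow_eq_one hx
  exact ⟨i, hi, hix.symm⟩

theorem twk_isPrimitiveRoot {ζ : Ω} (hζ1 : ζ ≠ 1) (hζp : ζ ^ p = 1) : IsPrimitiveRoot ζ p := by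
  have hp : p.Prime := Fact.out
  rw [IsPrimitiveRoot.iff_def]
  refine ⟨hζp, fun l hl => ?_⟩
  have h1 : orderOf ζ = p := orderOf_eq_prime hζp hζ1
  rw [← h1]
  exact orderOf_dvd_of_pow_eq_one hl

/-- A root of unity is fixed by `g` if `ζ` is. -/
theorem twk_fix_of_pow {ζ : Ω} (hζ1 : ζ ≠ 1) (hζp : ζ ^ p = 1) (g : Ω ≃ₐ[F] Ω) (hgζ : g ζ = ζ)
    {x : Ω} (hx : x ^ p = 1) : g x = x := by
  obtain ⟨i, -, rfl⟩ := twk_exists_pow hζ1 hζp hx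
  rw [map_pow, hgζ]

/-- Independence of the root. -/
theorem twkMu_spec {ζ : Ω} (hζ1 : ζ ≠ 1) (hζp : ζ ^ p = 1) (g : Ω ≃ₐ[F] Ω) (hgζ : g ζ = ζ)
    {u : Ω} (hu : u ≠ 0) {α : Ω} (hα : α ^ p = u) : g α = twkMu p g u * α := by
  have hα0 : twkRoot p u ≠ 0 := twkRoot_ne_zero p hu
  have h1 : (α / twkRoot p u) ^ p = 1 := by
    rw [div_pow, hα, twkRoot_pow, div_self hu]
  have h2 := twk_fix_of_pow hζ1 hζp g hgζ h1
  have h3 : α = (α / twkRoot p u) * twkRoot p u := by field_simp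
  have h4 : g α = (α / twkRoot p u) * g (twkRoot p u) := by
    conv_lhs => rw [h3]
    rw [map_mul, h2]
  rw [h4]
  unfold twkMu
  field_simp

/-- Characterisation of the symbol. -/
theorem twkMu_eq_of {ζ : Ω} (hζ1 : ζ ≠ 1) (hζp : ζ ^ p = 1) (g : Ω ≃ₐ[F] Ω) (hgζ : g ζ = ζ)
    {u : Ω} (hu : u ≠ 0) {α μ : Ω} (hα : α ^ p = u) (hμ : g α = μ * α) : twkMu p g u = μ := by
  have h1 := twkMu_spec hζ1 hζp g hgζ hu hα
  have hα0 : α ≠ 0 := by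
    intro h
    apply hu
    rw [← hα, h, zero_pow (Fact.out : p.Prime).ne_zero]
  rw [hμ] at h1
  exact (mul_right_cancel₀ hα0 h1).symm

theorem twkMu_eq_one_iff {ζ : Ω} (hζ1 : ζ ≠ 1) (hζp : ζ ^ p = 1) (g : Ω ≃ₐ[F] Ω)
    (hgζ : g ζ = ζ) {u : Ω} (hu : u ≠ 0) :
    twkMu p g u = 1 ↔ ∀ α : Ω, α ^ p = u → g α = α := by
  constructor
  · intro h α hα
    rw [twkMu_spec hζ1 hζp g hgζ hu hα, h, one_mul]
  · intro h
    exact twkMu_eq_of hζ1 hζp g hgζ hu (twkRoot_pow p u) (by rw [h _ (twkRoot_pow p u), one_mul])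

/-- Multiplicativity in `g`. -/
theorem twkMu_mul_left {ζ : Ω} (hζ1 : ζ ≠ 1) (hζp : ζ ^ p = 1) (g g' : Ω ≃ₐ[F] Ω)
    (hgζ : g ζ = ζ) (hgζ' : g' ζ = ζ) {u : Ω} (hu : u ≠ 0) (hgu' : g' u = u) :
    twkMu p (g * g') u = twkMu p g u * twkMu p g' u := by
  have hgg : (g * g') ζ = ζ := by rw [AlgEquiv.mul_apply, hgζ', hgζ]
  apply twkMu_eq_of hζ1 hζp (g * g') hgg hu (twkRoot_pow p u)
  rw [AlgEquiv.mul_apply, twkMu_spec hζ1 hζp g' hgζ' hu (twkRoot_pow p u), map_mul,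
    twk_fix_of_pow hζ1 hζp g hgζ (twkMu_pow p g' hu hgu'),
    twkMu_spec hζ1 hζp g hgζ hu (twkRoot_pow p u)]
  ring

/-- Multiplicativity in `u`. -/
theorem twkMu_mul_right {ζ : Ω} (hζ1 : ζ ≠ 1) (hζp : ζ ^ p = 1) (g : Ω ≃ₐ[F] Ω)
    (hgζ : g ζ = ζ) {u u' : Ω} (hu : u ≠ 0) (hu' : u' ≠ 0) :
    twkMu p g (u * u') = twkMu p g u * twkMu p g u' := by
  apply twkMu_eq_of hζ1 hζp g hgζ (mul_ne_zero hu hu')
    (α := twkRoot p u * twkRoot p u') (by rw [mul_pow, twkRoot_pow, twkRoot_pow])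
  rw [map_mul, twkMu_spec hζ1 hζp g hgζ hu (twkRoot_pow p u),
    twkMu_spec hζ1 hζp g hgζ hu' (twkRoot_pow p u')]
  ring

/-- The symbol of a `p`-th power of a fixed element is trivial. -/
theorem twkMu_pow_self {ζ : Ω} (hζ1 : ζ ≠ 1) (hζp : ζ ^ p = 1) (g : Ω ≃ₐ[F] Ω)
    (hgζ : g ζ = ζ) {v : Ω} (hv : v ≠ 0) (hgv : g v = v) : twkMu p g (v ^ p) = 1 :=
  twkMu_eq_of hζ1 hζp g hgζ (pow_ne_zero p hv) rfl (by rw [hgv, one_mul])

theorem twkMu_one {ζ : Ω} (hζ1 : ζ ≠ 1) (hζp : ζ ^ p = 1) (g : Ω ≃ₐ[F] Ω)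
    (hgζ : g ζ = ζ) : twkMu p g (1 : Ω) = 1 :=
  twkMu_eq_of hζ1 hζp g hgζ one_ne_zero (one_pow p) (by rw [map_one, one_mul])

theorem twkMu_one_left {ζ : Ω} (hζ1 : ζ ≠ 1) (hζp : ζ ^ p = 1) {u : Ω} (hu : u ≠ 0) :
    twkMu p (1 : Ω ≃ₐ[F] Ω) u = 1 :=
  twkMu_eq_of hζ1 hζp 1 rfl hu (twkRoot_pow p u) (by rw [AlgEquiv.one_apply, one_mul])

/-- Equivariance. -/
theorem twkMu_conj {ζ : Ω} (hζ1 : ζ ≠ 1) (hζp : ζ ^ p = 1) (γ g : Ω ≃ₐ[F] Ω)
    (hgζ : g ζ = ζ) (hγgζ : (γ * g * γ⁻¹) ζ = ζ) {u : Ω} (hu : u ≠ 0) :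
    twkMu p (γ * g * γ⁻¹) (γ u) = γ (twkMu p g u) := by
  have hγu : γ u ≠ 0 := by
    rw [Ne, map_eq_zero_iff γ γ.injective]; exact hu
  apply twkMu_eq_of hζ1 hζp _ hγgζ hγu (α := γ (twkRoot p u))
    (by rw [← map_pow, twkRoot_pow])
  have h1 : γ⁻¹ (γ (twkRoot p u)) = twkRoot p u := by
    change (γ⁻¹ * γ) (twkRoot p u) = _
    rw [inv_mul_cancel, AlgEquiv.one_apply]
  rw [AlgEquiv.mul_apply, AlgEquiv.mul_apply, h1,
    twkMu_spec hζ1 hζp g hgζ hu (twkRoot_pow p u), map_mul]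

end Core

section Log

variable {Ω : Type*} [Field Ω] (p : ℕ) [Fact p.Prime]

/-- The discrete logarithm of a `p`-th root of unity with respect to `ζ`. -/
noncomputable def twkLog (ζ x : Ω) : ZMod p :=
  open Classical in if h : ∃ i : ZMod p, x = ζ ^ i.val then h.choose else 0

variable {p}

theorem twk_pow_val_add {ζ : Ω} (hζp : ζ ^ p = 1) (i j : ZMod p) :
    ζ ^ (i + j).val = ζ ^ i.val * ζ ^ j.val := by
  rw [← pow_add, ZMod.val_add, ← Nat.mod_add_div (i.val + j.val) p]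
  simp only [Nat.add_mul_mod_self_left, Nat.mod_mod]
  rw [pow_add (ζ) ((i.val + j.val) % p), pow_mul, hζp, one_pow, mul_one]

theorem twkLog_spec {ζ : Ω} (hζ1 : ζ ≠ 1) (hζp : ζ ^ p = 1) {x : Ω} (hx : x ^ p = 1) :
    x = ζ ^ (twkLog p ζ x).val := by
  have hp : p.Prime := Fact.out
  haveI : NeZero p := ⟨hp.ne_zero⟩
  have hprim : IsPrimitiveRoot ζ p := by
    rw [IsPrimitiveRoot.iff_def]
    refine ⟨hζp, fun l hl => ?_⟩
    have h1 : orderOf ζ = p := orderOf_eq_prime hζp hζ1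
    rw [← h1]
    exact orderOf_dvd_of_pow_eq_one hl
  obtain ⟨i, hi, hix⟩ := hprim.eq_pow_of_pow_eq_one hx
  have hex : ∃ j : ZMod p, x = ζ ^ j.val :=
    ⟨(i : ZMod p), by rw [ZMod.val_natCast, Nat.mod_eq_of_lt hi, hix]⟩
  unfold twkLog
  rw [dif_pos hex]
  exact hex.choose_spec

theorem twkLog_unique {ζ : Ω} (hζ1 : ζ ≠ 1) (hζp : ζ ^ p = 1) (i : ZMod p) :
    twkLog p ζ (ζ ^ i.val) = i := by
  have hp : p.Prime := Fact.out
  haveI : NeZero p := ⟨hp.ne_zero⟩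
  have hprim : IsPrimitiveRoot ζ p := by
    rw [IsPrimitiveRoot.iff_def]
    refine ⟨hζp, fun l hl => ?_⟩
    have h1 : orderOf ζ = p := orderOf_eq_prime hζp hζ1
    rw [← h1]
    exact orderOf_dvd_of_pow_eq_one hl
  have hx : (ζ ^ i.val) ^ p = 1 := by rw [← pow_mul, mul_comm, pow_mul, hζp, one_pow]
  have h1 := twkLog_spec hζ1 hζp hx
  have h2 := hprim.pow_inj (ZMod.val_lt i) (ZMod.val_lt _) h1
  exact (ZMod.val_injective p h2).symm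

theorem twkLog_mul {ζ : Ω} (hζ1 : ζ ≠ 1) (hζp : ζ ^ p = 1) {x y : Ω} (hx : x ^ p = 1)
    (hy : y ^ p = 1) : twkLog p ζ (x * y) = twkLog p ζ x + twkLog p ζ y := by
  have h1 := twkLog_spec hζ1 hζp hx
  have h2 := twkLog_spec hζ1 hζp hy
  have h3 : x * y = ζ ^ (twkLog p ζ x + twkLog p ζ y).val := by
    rw [twk_pow_val_add hζp, ← h1, ← h2]
  rw [h3, twkLog_unique hζ1 hζp]

theorem twkLog_one {ζ : Ω} (hζ1 : ζ ≠ 1) (hζp : ζ ^ p = 1) : twkLog p ζ (1 : Ω) = 0 := by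
  have h := twkLog_unique hζ1 hζp (0 : ZMod p)
  rwa [ZMod.val_zero, pow_zero] at h

theorem twkLog_eq_zero_iff {ζ : Ω} (hζ1 : ζ ≠ 1) (hζp : ζ ^ p = 1) {x : Ω} (hx : x ^ p = 1) :
    twkLog p ζ x = 0 ↔ x = 1 := by
  constructor
  · intro h
    have h1 := twkLog_spec hζ1 hζp hx
    rw [h, ZMod.val_zero, pow_zero] at h1
    exact h1
  · rintro rfl
    exact twkLog_one hζ1 hζp

theorem twkLog_pow {ζ : Ω} (hζ1 : ζ ≠ 1) (hζp : ζ ^ p = 1) {x : Ω} (hx : x ^ p = 1) (n : ℕ) :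
    twkLog p ζ (x ^ n) = (n : ZMod p) * twkLog p ζ x := by
  induction n with
  | zero => simp [twkLog_one hζ1 hζp]
  | succ n ih =>
    have hxn : (x ^ n) ^ p = 1 := by rw [← pow_mul, mul_comm, pow_mul, hx, one_pow]
    rw [pow_succ, twkLog_mul hζ1 hζp hxn hx, ih]
    push_cast
    ring

end Log

end Fermat.Agent.TW.W


end ZBTW_003_0
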