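/- GENERATED FILE (helper35, build-time optimisation, NOTES/ZB.md): verbatim concatenation of the modules
   Fermat.Agent.UNIP.NodeCoord
   Fermat.Agent.UNIP.Coord
   Fermat.Agent.UNIP.CoordGen
   Fermat.Agent.UNIP.CoordChart
   Fermat.Agent.STB.LocalFactor
   Do not edit; do not import together with these modules. -/
import Mathlib
import Fermat.Agent.ZB.PT_006
import Fermat.Agent.ZB.UNIP_008
import Fermat.Agent.ZB.UNIP_005
import Fermat.Prelude.Def_AlgebraicCurve_BaseChangeGalois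
import Fermat.Agent.ZB.UNIP_007

/-! ### bundled: `Fermat.Agent.UNIP.NodeCoord` -/
section ZBUNIP_009_0
/-
UNIP (S34/S35), abstract local piece "Lemma N" (helper95).

`R` = local ring of a model at a closed point `𝔫` of the special fibre (an `A`-algebra, `A` a DVR
or any base ring), `X Y G : R`, `q : A` with `X * Y = q * G`, and `R = A[X, Y] + 𝔫 ^ N` for all `N`
(`unip_dense_of_span`: true as soon as `𝔫 = (π, X, Y)` and `A → R ⧸ 𝔫` is onto).
`S` = a discrete valuation ring receiving the points of the tube of `𝔫`: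
`A`-algebra homomorphisms `ev : R → S` with `ev 𝔫 ⊆ 𝔪_S`.

* `unip_node_eval_eq`   : two points of the tube with the same `X`-coordinate `a`, where
  `q = a * t`, `t ∈ 𝔪_S`, `a ≠ 0` (i.e. `v(a) < v(q)`), are EQUAL.
* `unip_node_deriv_eq_zero` : at such a point a tangent vector (an `ev`-derivation `R → S`) killing
  `X` is zero, i.e. `X - a` has a simple zero.
* `unip_disc_eval_eq`, `unip_disc_deriv_eq_zero` : the same at a smooth point, `𝔫 = (π, s)`.
No thickness, no regularity, no completion.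
-/

set_option autoImplicit false

namespace Fermat.Agent.UNIP

open IsLocalRing

section Dense

variable {A R : Type*} [CommRing A] [CommRing R] [Algebra A R]

/-- `R = A[T] + 𝔫 ^ N` for every `N`, if `𝔫` is generated by `π ∈ A` and the finite set `T`, and
`A → R ⧸ 𝔫` is onto. -/
theorem unip_dense_of_span (𝔫 : Ideal R) (π : A) (T : Set R)
    (hn : 𝔫 = Ideal.span (insert (algebraMap A R π) T))
    (hres : ∀ b : R, ∃ α : A, b - algebraMap A R α ∈ 𝔫) :
    ∀ (N : ℕ) (b : R), ∃ c ∈ Algebra.adjoin A T, b - c ∈ 𝔫 ^ N := by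
  intro N
  induction N with
  | zero =>
    intro b
    exact ⟨0, Subalgebra.zero_mem _, by simp⟩
  | succ N ih =>
    -- the set of `b` that can be approximated is an additive subgroup containing `A` and
    -- `g * b'` for generators `g` and approximable (one level lower) `b'`
    have key : ∀ x ∈ 𝔫, ∃ c ∈ Algebra.adjoin A T, x - c ∈ 𝔫 ^ (N + 1) := by
      intro x hx
      rw [hn] at hx
      induction hx using Submodule.span_induction with
      | mem g hg =>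
        rcases hg with rfl | hg
        · exact ⟨algebraMap A R π, Subalgebra.algebraMap_mem _ _, by simp⟩
        · exact ⟨g, Algebra.subset_adjoin hg, by simp⟩
      | zero => exact ⟨0, Subalgebra.zero_mem _, by simp⟩
      | add x y _ _ hx hy =>
        obtain ⟨c, hc, hxc⟩ := hx
        obtain ⟨d, hd, hyd⟩ := hy
        refine ⟨c + d, Subalgebra.add_mem _ hc hd, ?_⟩
        have : x + y - (c + d) = (x - c) + (y - d) := by ring
        rw [this]
        exact Ideal.add_mem _ hxc hyd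
      | smul r x hxmem hx =>
        obtain ⟨c, hc, hxc⟩ := hx
        obtain ⟨d, hd, hrd⟩ := ih r
        refine ⟨d * c, Subalgebra.mul_mem _ hd hc, ?_⟩
        have hxn : x ∈ 𝔫 := by rw [hn]; exact hxmem
        have hcn : c ∈ 𝔫 := by
          have h1 : x - c ∈ 𝔫 := Ideal.pow_le_self (Nat.succ_ne_zero N) hxc
          have : c = x - (x - c) := by ring
          rw [this]
          exact Ideal.sub_mem _ hxn h1
        have : r • x - d * c = r * (x - c) + (r - d) * c := by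
          simp only [smul_eq_mul]; ring
        rw [this]
        refine Ideal.add_mem _ (Ideal.mul_mem_left _ _ hxc) ?_
        rw [pow_succ]
        exact Ideal.mul_mem_mul hrd hcn
    intro b
    obtain ⟨α, hα⟩ := hres b
    obtain ⟨c, hc, hxc⟩ := key _ hα
    refine ⟨algebraMap A R α + c, Subalgebra.add_mem _ (Subalgebra.algebraMap_mem _ _) hc, ?_⟩
    have : b - (algebraMap A R α + c) = b - algebraMap A R α - c := by ring
    rw [this]
    exact hxc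

end Dense

section DVR

variable {S : Type*} [CommRing S] [IsDomain S] [IsDiscreteValuationRing S]

/-- principal ideals of a DVR are closed for the `𝔪`-adic topology -/
theorem unip_mem_span_of_forall (d x : S)
    (h : ∀ N : ℕ, ∃ y ∈ Ideal.span ({d} : Set S), x - y ∈ maximalIdeal S ^ N) :
    x ∈ Ideal.span ({d} : Set S) := by
  by_cases hd : d = 0
  · subst hd
    have hx : x ∈ (⨅ N : ℕ, maximalIdeal S ^ N : Ideal S) := by
      rw [Ideal.mem_iInf]
      intro N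
      obtain ⟨y, hy, hxy⟩ := h N
      have hy0 : y = 0 := by simpa using hy
      simpa [hy0] using hxy
    rw [Ideal.iInf_pow_eq_bot_of_isLocalRing (maximalIdeal S) Ideal.IsPrime.ne_top'] at hx
    have : x = 0 := by simpa using hx
    rw [this]
    exact Ideal.zero_mem _
  · obtain ⟨ϖ, hϖ⟩ := IsDiscreteValuationRing.exists_irreducible S
    obtain ⟨k, hk⟩ := IsDiscreteValuationRing.associated_pow_irreducible hd hϖ
    have hm : maximalIdeal S ^ k = Ideal.span ({d} : Set S) := by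
      rw [hϖ.maximalIdeal_eq, Ideal.span_singleton_pow]
      exact (Ideal.span_singleton_eq_span_singleton.mpr hk).symm
    obtain ⟨y, hy, hxy⟩ := h k
    rw [hm] at hxy
    have : x = (x - y) + y := by ring
    rw [this]
    exact Ideal.add_mem _ hxy hy

end DVR

section Node

variable {A R S : Type*} [CommRing A] [CommRing R] [Algebra A R]
  [CommRing S] [IsDomain S] [IsDiscreteValuationRing S] [Algebra A S]

omit [IsDomain S] [IsDiscreteValuationRing S] in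
/-- a point of the tube maps `𝔫 ^ N` into `𝔪 ^ N` -/
theorem unip_map_pow_mem [IsLocalRing S] (𝔫 : Ideal R) (ev : R →ₐ[A] S)
    (h : ∀ b ∈ 𝔫, ev b ∈ maximalIdeal S) (N : ℕ) {x : R} (hx : x ∈ 𝔫 ^ N) :
    ev x ∈ maximalIdeal S ^ N := by
  have h1 : (𝔫 ^ N).map (ev : R →+* S) ≤ maximalIdeal S ^ N := by
    rw [Ideal.map_pow]
    exact Ideal.pow_right_mono
      (Ideal.map_le_iff_le_comap.mpr fun b hb => Ideal.mem_comap.mpr (h b hb)) N
  exact h1 (Ideal.mem_map_of_mem _ hx)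

omit [IsDomain S] [IsDiscreteValuationRing S] in
/-- difference of two evaluations on `A[T]`, when the two points agree on `T ∖ {Y}` -/
theorem unip_eval_sub_mem (evP evQ : R →ₐ[A] S) (T : Set R) (Y : R)
    (hT : ∀ x ∈ T, x = Y ∨ evP x = evQ x) {c : R} (hc : c ∈ Algebra.adjoin A T) :
    evP c - evQ c ∈ Ideal.span ({evP Y - evQ Y} : Set S) := by
  induction hc using Algebra.adjoin_induction with
  | mem x hx =>
    rcases hT x hx with rfl | h
    · exact Ideal.subset_span rfl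
    · rw [h, sub_self]; exact Ideal.zero_mem _
  | algebraMap r =>
    rw [AlgHom.commutes, AlgHom.commutes, sub_self]; exact Ideal.zero_mem _
  | add x y _ _ hx hy =>
    have : evP (x + y) - evQ (x + y) = (evP x - evQ x) + (evP y - evQ y) := by
      rw [map_add, map_add]; ring
    rw [this]; exact Ideal.add_mem _ hx hy
  | mul x y _ _ hx hy =>
    have : evP (x * y) - evQ (x * y) = evP x * (evP y - evQ y) + (evP x - evQ x) * evQ y := by
      rw [map_mul, map_mul]; ring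
    rw [this]
    exact Ideal.add_mem _ (Ideal.mul_mem_left _ _ hy) (Ideal.mul_mem_right _ _ hx)

/-- two points of the tube of `𝔫` which agree on `T ∖ {Y}` differ, on every `b ∈ R`, by a multiple
of the difference of their `Y`-coordinates -/
theorem unip_eval_sub_mem_of_dense (𝔫 : Ideal R) (T : Set R) (Y : R)
    (hd : ∀ (N : ℕ) (b : R), ∃ c ∈ Algebra.adjoin A T, b - c ∈ 𝔫 ^ N)
    (evP evQ : R →ₐ[A] S)
    (hP : ∀ b ∈ 𝔫, evP b ∈ maximalIdeal S) (hQ : ∀ b ∈ 𝔫, evQ b ∈ maximalIdeal S)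
    (hT : ∀ x ∈ T, x = Y ∨ evP x = evQ x) (b : R) :
    evP b - evQ b ∈ Ideal.span ({evP Y - evQ Y} : Set S) := by
  apply unip_mem_span_of_forall
  intro N
  obtain ⟨c, hc, hbc⟩ := hd N b
  refine ⟨evP c - evQ c, unip_eval_sub_mem evP evQ T Y hT hc, ?_⟩
  have hPN : evP (b - c) ∈ maximalIdeal S ^ N := unip_map_pow_mem 𝔫 evP hP N hbc
  have hQN : evQ (b - c) ∈ maximalIdeal S ^ N := unip_map_pow_mem 𝔫 evQ hQ N hbc
  have : evP b - evQ b - (evP c - evQ c) = evP (b - c) - evQ (b - c) := by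
    rw [map_sub, map_sub]; ring
  rw [this]
  exact Ideal.sub_mem _ hPN hQN

/-- **Lemma N (points).** `X * Y = q * G`, `R = A[X, Y] + 𝔫 ^ N`.  Two points of the tube of `𝔫`
with the same `X`-coordinate `a ≠ 0` such that `q = a * t`, `t ∈ 𝔪_S`, are equal. -/
theorem unip_node_eval_eq (𝔫 : Ideal R) (X Y G : R) (q : A)
    (hd : ∀ (N : ℕ) (b : R), ∃ c ∈ Algebra.adjoin A ({X, Y} : Set R), b - c ∈ 𝔫 ^ N)
    (hXY : X * Y = algebraMap A R q * G)
    (evP evQ : R →ₐ[A] S)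
    (hP : ∀ b ∈ 𝔫, evP b ∈ maximalIdeal S) (hQ : ∀ b ∈ 𝔫, evQ b ∈ maximalIdeal S)
    (hX : evP X = evQ X) (ha : evP X ≠ 0)
    (t : S) (ht : t ∈ maximalIdeal S) (hq : algebraMap A S q = evP X * t) :
    evP = evQ := by
  have hT : ∀ x ∈ ({X, Y} : Set R), x = Y ∨ evP x = evQ x := by
    intro x hx
    rcases hx with rfl | rfl
    · exact Or.inr hX
    · exact Or.inl rfl
  have key := unip_eval_sub_mem_of_dense 𝔫 {X, Y} Y hd evP evQ hP hQ hT
  -- `a * ΔY = q * ΔG`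
  have e1 : evP X * evP Y = algebraMap A S q * evP G := by
    rw [← map_mul, hXY, map_mul, AlgHom.commutes]
  have e2 : evP X * evQ Y = algebraMap A S q * evQ G := by
    rw [hX, ← map_mul, hXY, map_mul, AlgHom.commutes]
  obtain ⟨r, hr⟩ := Ideal.mem_span_singleton'.mp (key G)
  have e3 : evP X * ((1 - t * r) * (evP Y - evQ Y)) = 0 := by
    have : evP X * (evP Y - evQ Y) = evP X * t * (evP G - evQ G) := by
      rw [mul_sub, e1, e2, hq]; ring
    rw [← hr] at this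
    linear_combination this
  have hu : IsUnit (1 - t * r) := by
    have : t * r ∈ maximalIdeal S := Ideal.mul_mem_right _ _ ht
    by_contra hnu
    have h1 : (1 - t * r) ∈ maximalIdeal S := (mem_maximalIdeal _).mpr hnu
    have : (1 : S) ∈ maximalIdeal S := by
      have := Ideal.add_mem _ h1 this
      simp at this
    exact (Ideal.ne_top_iff_one _).mp Ideal.IsPrime.ne_top' this
  have hΔ : evP Y - evQ Y = 0 := by
    rcases mul_eq_zero.mp e3 with h | h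
    · exact absurd h ha
    · rcases mul_eq_zero.mp h with h | h
      · exact absurd h hu.ne_zero
      · exact h
  apply AlgHom.ext
  intro b
  have := key b
  rw [hΔ] at this
  have h0 : evP b - evQ b = 0 := by simpa using this
  exact sub_eq_zero.mp h0

/-- **Lemma N, smooth point.** `R = A[s] + 𝔫 ^ N`: a point of the tube of `𝔫` is determined by
its `s`-coordinate. -/
theorem unip_disc_eval_eq (𝔫 : Ideal R) (s : R)
    (hd : ∀ (N : ℕ) (b : R), ∃ c ∈ Algebra.adjoin A ({s} : Set R), b - c ∈ 𝔫 ^ N)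
    (evP evQ : R →ₐ[A] S)
    (hP : ∀ b ∈ 𝔫, evP b ∈ maximalIdeal S) (hQ : ∀ b ∈ 𝔫, evQ b ∈ maximalIdeal S)
    (hs : evP s = evQ s) : evP = evQ := by
  have hT : ∀ x ∈ ({s} : Set R), x = s ∨ evP x = evQ x := by
    intro x hx
    exact Or.inl hx
  have key := unip_eval_sub_mem_of_dense 𝔫 {s} s hd evP evQ hP hQ hT
  apply AlgHom.ext
  intro b
  have := key b
  rw [hs, sub_self] at this
  have h0 : evP b - evQ b = 0 := by simpa using this
  exact sub_eq_zero.mp h0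

omit [IsDomain S] [IsDiscreteValuationRing S] in
/-- general form: if two points agree on the generators `T` modulo an ideal `J`, they agree
modulo `J` on `A[T]` -/
theorem unip_eval_sub_mem_ideal (evP evQ : R →ₐ[A] S) (T : Set R) (J : Ideal S)
    (hT : ∀ x ∈ T, evP x - evQ x ∈ J) {c : R} (hc : c ∈ Algebra.adjoin A T) :
    evP c - evQ c ∈ J := by
  induction hc using Algebra.adjoin_induction with
  | mem x hx => exact hT x hx
  | algebraMap r =>
    rw [AlgHom.commutes, AlgHom.commutes, sub_self]; exact Ideal.zero_mem _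
  | add x y _ _ hx hy =>
    have : evP (x + y) - evQ (x + y) = (evP x - evQ x) + (evP y - evQ y) := by
      rw [map_add, map_add]; ring
    rw [this]; exact Ideal.add_mem _ hx hy
  | mul x y _ _ hx hy =>
    have : evP (x * y) - evQ (x * y) = evP x * (evP y - evQ y) + (evP x - evQ x) * evQ y := by
      rw [map_mul, map_mul]; ring
    rw [this]
    exact Ideal.add_mem _ (Ideal.mul_mem_left _ _ hy) (Ideal.mul_mem_right _ _ hx)

/-- general form with density: two points of the tube whose coordinates (`T`) agree modulo `d`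
agree modulo `d` on all of `R`.  (Used for the uniqueness of the "central" point of a thick
node: apply it with `d = qⁿ` for all `n`.) -/
theorem unip_eval_sub_mem_span_of_dense (𝔫 : Ideal R) (T : Set R) (d : S)
    (hd : ∀ (N : ℕ) (b : R), ∃ c ∈ Algebra.adjoin A T, b - c ∈ 𝔫 ^ N)
    (evP evQ : R →ₐ[A] S)
    (hP : ∀ b ∈ 𝔫, evP b ∈ maximalIdeal S) (hQ : ∀ b ∈ 𝔫, evQ b ∈ maximalIdeal S)
    (hT : ∀ x ∈ T, evP x - evQ x ∈ Ideal.span ({d} : Set S)) (b : R) :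
    evP b - evQ b ∈ Ideal.span ({d} : Set S) := by
  apply unip_mem_span_of_forall
  intro N
  obtain ⟨c, hc, hbc⟩ := hd N b
  refine ⟨evP c - evQ c, unip_eval_sub_mem_ideal evP evQ T _ hT hc, ?_⟩
  have hPN : evP (b - c) ∈ maximalIdeal S ^ N := unip_map_pow_mem 𝔫 evP hP N hbc
  have hQN : evQ (b - c) ∈ maximalIdeal S ^ N := unip_map_pow_mem 𝔫 evQ hQ N hbc
  have : evP b - evQ b - (evP c - evQ c) = evP (b - c) - evQ (b - c) := by
    rw [map_sub, map_sub]; ring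
  rw [this]
  exact Ideal.sub_mem _ hPN hQN

omit [IsDomain S] [IsDiscreteValuationRing S] [Algebra A S] in
/-- one Morse step at a thick node: if `X * Y = c * G` and `G = a₀ * π + a₁ * X + a₂ * Y`, then
`(X - c a₂) (Y - c a₁) = (c π) (a₀ + (c/π) a₁ a₂)`; stated without division. -/
theorem unip_node_step (X Y G a₀ a₁ a₂ : R) (c π e : A) (hc : c = π * e)
    (hXY : X * Y = algebraMap A R c * G)
    (hG : G = a₀ * algebraMap A R π + a₁ * X + a₂ * Y) :
    (X - algebraMap A R c * a₂) * (Y - algebraMap A R c * a₁)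
      = algebraMap A R (c * π) * (a₀ + algebraMap A R e * a₁ * a₂) := by
  have h1 : algebraMap A R c = algebraMap A R π * algebraMap A R e := by
    rw [hc, map_mul]
  have h2 : algebraMap A R (c * π) = algebraMap A R c * algebraMap A R π := by
    rw [map_mul]
  rw [h2]
  have h3 : X * Y = algebraMap A R c * (a₀ * algebraMap A R π + a₁ * X + a₂ * Y) := by
    rw [hXY, hG]
  have h4 : algebraMap A R c * algebraMap A R c * a₁ * a₂ =
      algebraMap A R c * algebraMap A R π * (algebraMap A R e * a₁ * a₂) := by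
    rw [h1]; ring
  linear_combination h3 + h4

/-- a tangent vector at the point `ev`: an additive map with the Leibniz rule, killing `A` -/
structure UnipDeriv (ev : R →ₐ[A] S) where
  /-- the underlying additive map -/
  toFun : R →+ S
  leibniz : ∀ b c : R, toFun (b * c) = ev b * toFun c + ev c * toFun b
  map_algebraMap : ∀ a : A, toFun (algebraMap A R a) = 0

omit [IsDomain S] [IsDiscreteValuationRing S] in
theorem unip_deriv_pow_mem [IsLocalRing S] (𝔫 : Ideal R) (ev : R →ₐ[A] S) (D : UnipDeriv ev)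
    (h : ∀ b ∈ 𝔫, ev b ∈ maximalIdeal S) :
    ∀ (N : ℕ) {x : R}, x ∈ 𝔫 ^ (N + 1) → D.toFun x ∈ maximalIdeal S ^ N := by
  intro N
  induction N with
  | zero => intro x _; simp
  | succ N ih =>
    intro x hx
    rw [pow_succ] at hx
    refine Submodule.mul_induction_on hx ?_ ?_
    · intro m hm n hn
      rw [D.leibniz]
      refine Ideal.add_mem _ ?_ ?_
      · exact Ideal.mul_mem_right _ _ (unip_map_pow_mem 𝔫 ev h (N + 1) hm)
      · rw [pow_succ']
        exact Ideal.mul_mem_mul (h n hn) (ih hm)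
    · intro x y hx hy
      rw [map_add]; exact Ideal.add_mem _ hx hy

omit [IsDomain S] [IsDiscreteValuationRing S] in
theorem unip_deriv_mem_span (ev : R →ₐ[A] S) (D : UnipDeriv ev) (T : Set R) (Y : R)
    (hT : ∀ x ∈ T, x = Y ∨ D.toFun x = 0) {c : R} (hc : c ∈ Algebra.adjoin A T) :
    D.toFun c ∈ Ideal.span ({D.toFun Y} : Set S) := by
  induction hc using Algebra.adjoin_induction with
  | mem x hx =>
    rcases hT x hx with rfl | h
    · exact Ideal.subset_span rfl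
    · rw [h]; exact Ideal.zero_mem _
  | algebraMap r => rw [D.map_algebraMap]; exact Ideal.zero_mem _
  | add x y _ _ hx hy => rw [map_add]; exact Ideal.add_mem _ hx hy
  | mul x y _ _ hx hy =>
    rw [D.leibniz]
    exact Ideal.add_mem _ (Ideal.mul_mem_left _ _ hy) (Ideal.mul_mem_left _ _ hx)

theorem unip_deriv_mem_span_of_dense (𝔫 : Ideal R) (T : Set R) (Y : R)
    (hd : ∀ (N : ℕ) (b : R), ∃ c ∈ Algebra.adjoin A T, b - c ∈ 𝔫 ^ N)
    (ev : R →ₐ[A] S) (D : UnipDeriv ev) (h : ∀ b ∈ 𝔫, ev b ∈ maximalIdeal S)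
    (hT : ∀ x ∈ T, x = Y ∨ D.toFun x = 0) (b : R) :
    D.toFun b ∈ Ideal.span ({D.toFun Y} : Set S) := by
  apply unip_mem_span_of_forall
  intro N
  obtain ⟨c, hc, hbc⟩ := hd (N + 1) b
  refine ⟨D.toFun c, unip_deriv_mem_span ev D T Y hT hc, ?_⟩
  have : D.toFun b - D.toFun c = D.toFun (b - c) := by rw [map_sub]
  rw [this]
  exact unip_deriv_pow_mem 𝔫 ev D h N hbc

/-- **Lemma N (tangent vectors).** At a point of the tube with `q = a * t`, `a = X(P) ≠ 0`,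
`t ∈ 𝔪_S`, a tangent vector killing `X` is zero: `X - a` has a simple zero at `P`. -/
theorem unip_node_deriv_eq_zero (𝔫 : Ideal R) (X Y G : R) (q : A)
    (hd : ∀ (N : ℕ) (b : R), ∃ c ∈ Algebra.adjoin A ({X, Y} : Set R), b - c ∈ 𝔫 ^ N)
    (hXY : X * Y = algebraMap A R q * G)
    (ev : R →ₐ[A] S) (D : UnipDeriv ev) (h : ∀ b ∈ 𝔫, ev b ∈ maximalIdeal S)
    (hX : D.toFun X = 0) (ha : ev X ≠ 0)
    (t : S) (ht : t ∈ maximalIdeal S) (hq : algebraMap A S q = ev X * t) (b : R) :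
    D.toFun b = 0 := by
  have hT : ∀ x ∈ ({X, Y} : Set R), x = Y ∨ D.toFun x = 0 := by
    intro x hx
    rcases hx with rfl | rfl
    · exact Or.inr hX
    · exact Or.inl rfl
  have key := unip_deriv_mem_span_of_dense 𝔫 {X, Y} Y hd ev D h hT
  obtain ⟨r, hr⟩ := Ideal.mem_span_singleton'.mp (key G)
  have e1 : ev X * D.toFun Y = algebraMap A S q * D.toFun G := by
    have h1 : D.toFun (X * Y) = ev X * D.toFun Y := by
      rw [D.leibniz, hX, mul_zero, add_zero]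
    have h2 : D.toFun (algebraMap A R q * G) = algebraMap A S q * D.toFun G := by
      rw [D.leibniz, D.map_algebraMap, mul_zero, add_zero, AlgHom.commutes]
    rw [← h1, hXY, h2]
  have e3 : ev X * ((1 - t * r) * D.toFun Y) = 0 := by
    rw [hq, ← hr] at e1
    linear_combination e1
  have hu : IsUnit (1 - t * r) := by
    have : t * r ∈ maximalIdeal S := Ideal.mul_mem_right _ _ ht
    by_contra hnu
    have h1 : (1 - t * r) ∈ maximalIdeal S := (mem_maximalIdeal _).mpr hnu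
    have : (1 : S) ∈ maximalIdeal S := by
      have := Ideal.add_mem _ h1 this
      simp at this
    exact (Ideal.ne_top_iff_one _).mp Ideal.IsPrime.ne_top' this
  have hΔ : D.toFun Y = 0 := by
    rcases mul_eq_zero.mp e3 with h | h
    · exact absurd h ha
    · rcases mul_eq_zero.mp h with h | h
      · exact absurd h hu.ne_zero
      · exact h
  have := key b
  rw [hΔ] at this
  simpa using this

/-- **Lemma N (tangent vectors), smooth point.** A tangent vector killing `s` is zero. -/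
theorem unip_disc_deriv_eq_zero (𝔫 : Ideal R) (s : R)
    (hd : ∀ (N : ℕ) (b : R), ∃ c ∈ Algebra.adjoin A ({s} : Set R), b - c ∈ 𝔫 ^ N)
    (ev : R →ₐ[A] S) (D : UnipDeriv ev) (h : ∀ b ∈ 𝔫, ev b ∈ maximalIdeal S)
    (hs : D.toFun s = 0) (b : R) : D.toFun b = 0 := by
  have hT : ∀ x ∈ ({s} : Set R), x = s ∨ D.toFun x = 0 := by
    intro x hx
    exact Or.inl hx
  have := unip_deriv_mem_span_of_dense 𝔫 {s} s hd ev D h hT b
  rw [hs] at this
  simpa using this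

end Node

end Fermat.Agent.UNIP


end ZBUNIP_009_0

/-! ### bundled: `Fermat.Agent.UNIP.Coord` -/
section ZBUNIP_009_1

/-!
# UNIP / AT-c2 — Coord: coordinate functions at the moved points of a tube (`hcoord`)

Produces the hypothesis `hcoord` of `ls_local_factor_chart` (D3) from the local data of U5
(`NodesLocGen`), INCLUDING THICK NODES (`X * Y = q * G` with `G ∈ 𝔫`).

* `unip_morse_step`, `unip_morse_iter` (pure algebra): from `NodesLocGen 𝔫 {q, X, Y}`,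
  `X * Y = q * G`, stage data `X_n Y_n = q ^ n' G_n`, `NodesLocGen 𝔫 {q, X_n, Y_n}`,
  `n ≤ n' ∨ G_n ∉ 𝔫` for every `n ≥ 1`.
* `unip_coord_disc` : smooth point, `f = s - s(P)`.
* `unip_coord_node` : crossing point; for a rational point `P` of the tube with `g • P ≠ P`
  (`g` fixing the coordinates of all stages) there is a stage `n` and a coordinate `c ∈ {X_n, Y_n}`
  such that `f = c - c(P)` has a simple zero at `P` and no other zero in the tube.
-/

set_option autoImplicit false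
set_option linter.style.haveILetI false
set_option linter.unusedSectionVars false

namespace Fermat.Agent.UNIP

open AlgebraicCurve IntermediateField Polynomial Fermat.Agent.S24 Fermat.Agent.INJ

section Morse

variable {B : Type*} [CommRing B]

/-- **One Morse step** (denominators cleared).  Stage data `X * Y = q ^ n * G` with
`NodesLocGen 𝔫 {q, X, Y}` and `G ∈ 𝔫` give stage data for `n + 1`. -/
theorem unip_morse_step (𝔫 : Ideal B) [𝔫.IsPrime] (q : B) (hq : q ∈ 𝔫) (n : ℕ) (hn : 1 ≤ n)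
    (X Y G : B) (hX : X ∈ 𝔫) (hY : Y ∈ 𝔫) (hXY : X * Y = q ^ n * G)
    (hgen : NodesLocGen 𝔫 {q, X, Y}) (hG : G ∈ 𝔫) :
    ∃ X' Y' G' : B, X' ∈ 𝔫 ∧ Y' ∈ 𝔫 ∧ X' * Y' = q ^ (n + 1) * G' ∧
      NodesLocGen 𝔫 {q, X', Y'} ∧
      ∃ u a₁ a₂ : B, u ∉ 𝔫 ∧ X' = u * X - q ^ n * a₂ ∧ Y' = u * Y - q ^ n * a₁ := by
  obtain ⟨u, hu, huG⟩ := hgen G hG
  rw [Ideal.mem_span_insert] at huG
  obtain ⟨a₀, z, hz, huG⟩ := huG
  rw [Ideal.mem_span_pair] at hz
  obtain ⟨a₁, a₂, rfl⟩ := hz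
  obtain ⟨k, rfl⟩ : ∃ k, n = k + 1 := ⟨n - 1, by omega⟩
  have hqn : q ^ (k + 1) ∈ 𝔫 := Ideal.pow_mem_of_mem _ hq _ (Nat.succ_pos k)
  refine ⟨u * X - q ^ (k + 1) * a₂, u * Y - q ^ (k + 1) * a₁, u * a₀ + q ^ k * a₁ * a₂,
    ?_, ?_, ?_, ?_, u, a₁, a₂, hu, rfl, rfl⟩
  · exact Ideal.sub_mem _ (Ideal.mul_mem_left _ _ hX) (Ideal.mul_mem_right _ _ hqn)
  · exact Ideal.sub_mem _ (Ideal.mul_mem_left _ _ hY) (Ideal.mul_mem_right _ _ hqn)
  · have e1 : (u * X - q ^ (k + 1) * a₂) * (u * Y - q ^ (k + 1) * a₁) =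
        u ^ 2 * (X * Y) - q ^ (k + 1) * u * (a₁ * X + a₂ * Y) + q ^ (k + 1) * q ^ (k + 1) * a₁ * a₂ := by
      ring
    have e2 : a₁ * X + a₂ * Y = u * G - a₀ * q := by
      rw [huG]; ring
    rw [e1, hXY, e2]
    ring
  · intro b hb
    obtain ⟨v, hv, hvb⟩ := hgen b hb
    rw [Ideal.mem_span_insert] at hvb
    obtain ⟨c₀, z, hz, hvb⟩ := hvb
    rw [Ideal.mem_span_pair] at hz
    obtain ⟨c₁, c₂, rfl⟩ := hz
    refine ⟨u * v, fun h => ?_, ?_⟩
    · rcases Ideal.IsPrime.mem_or_mem inferInstance h with h' | h'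
      · exact hu h'
      · exact hv h'
    · have e : u * v * b = (c₀ * u + c₁ * q ^ k * a₂ + c₂ * q ^ k * a₁) * q +
          c₁ * (u * X - q ^ (k + 1) * a₂) + c₂ * (u * Y - q ^ (k + 1) * a₁) := by
        rw [mul_assoc, hvb]; ring
      rw [e]
      refine Ideal.add_mem _ (Ideal.add_mem _ ?_ ?_) ?_
      · exact Ideal.mul_mem_left _ _ (Ideal.subset_span (by simp))
      · exact Ideal.mul_mem_left _ _ (Ideal.subset_span (by simp))
      · exact Ideal.mul_mem_left _ _ (Ideal.subset_span (by simp))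

/-- **Morse iteration.**  From `NodesLocGen 𝔫 {q, X, Y}` and `q ∣ X * Y`: for every `n ≥ 1`
stage data of exponent `n'` with `n ≤ n'`, or thin stage data (`G ∉ 𝔫`).  All stage coordinates
lie in any subring `B₀ ∋ q, X, Y, …` containing the multipliers; here they are elements of `B`. -/
theorem unip_morse_iter (𝔫 : Ideal B) [𝔫.IsPrime] (q : B) (hq : q ∈ 𝔫)
    (X Y : B) (hX : X ∈ 𝔫) (hY : Y ∈ 𝔫) (hXY : q ∣ X * Y)
    (hgen : NodesLocGen 𝔫 {q, X, Y}) :
    ∀ n : ℕ, 1 ≤ n → ∃ (n' : ℕ) (X' Y' G' : B), 1 ≤ n' ∧ X' ∈ 𝔫 ∧ Y' ∈ 𝔫 ∧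
      X' * Y' = q ^ n' * G' ∧ NodesLocGen 𝔫 {q, X', Y'} ∧ (n ≤ n' ∨ G' ∉ 𝔫) := by
  intro n hn
  induction n, hn using Nat.le_induction with
  | base =>
    obtain ⟨G, hG⟩ := hXY
    exact ⟨1, X, Y, G, le_rfl, hX, hY, by rw [pow_one, hG], hgen, Or.inl le_rfl⟩
  | succ n hn ih =>
    obtain ⟨n', X', Y', G', hn', hX', hY', hXY', hgen', h⟩ := ih
    by_cases hG : G' ∈ 𝔫
    · have hle : n ≤ n' := h.resolve_right (fun h' => h' hG)
      obtain ⟨X'', Y'', G'', hX'', hY'', hXY'', hgen'', -⟩ :=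
        unip_morse_step 𝔫 q hq n' hn' X' Y' G' hX' hY' hXY' hgen' hG
      exact ⟨n' + 1, X'', Y'', G'', by omega, hX'', hY'', hXY'', hgen'', Or.inl (by omega)⟩
    · exact ⟨n', X', Y', G', hn', hX', hY', hXY', hgen', Or.inr hG⟩

end Morse

section PlaceEq

variable {A₀ E Lf B : Type*} [CommRing A₀] [IsDomain A₀] [IsDiscreteValuationRing A₀]
  [Field E] [CharZero E] [Algebra A₀ E] [IsFractionRing A₀ E]
  [Field Lf] [Algebra E Lf] [Algebra A₀ Lf] [IsScalarTower A₀ E Lf]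
  [CommRing B] [Algebra B Lf]

/-- Two places with `0 ≤ ord τ` such that the centre of `P` on the chart `B` is contained in the
centre of `Q` are equal. -/
theorem unip_place_eq_of_le {π : A₀} (hπ : Irreducible π) (τ : Lf)
    (hτ : Transcendental E τ) [FiniteDimensional E⟮τ⟯ Lf]
    (hB : ∀ x : Lf, x ∈ (algebraMap B Lf).range ↔ IsIntegral (Algebra.adjoin A₀ {τ}) x)
    (P Q : Place E Lf) (hP : 0 ≤ P.ord τ) (hQ : 0 ≤ Q.ord τ)
    (h : ∀ b : B, 0 < P.ord (algebraMap B Lf b) → 0 < Q.ord (algebraMap B Lf b)) : Q = P := by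
  classical
  letI := polyAlgebra (K := E) τ
  obtain ⟨hDed, hFrac, -⟩ := intClosure_facts (K := E) τ hτ
  haveI := hDed
  haveI := hFrac
  have hK := PlacesAux.hK (K := E) τ
  have hRP : ∀ P' : Place E Lf, 0 ≤ P'.ord τ → ∀ r : intClosure (K := E) τ,
      algebraMap (intClosure (K := E) τ) Lf r ∈ P'.toValuationSubring :=
    fun P' h => PlacesAux.le_place τ P' (PlaceAux.mem_of_ord_nonneg P' h)
  have hπ0 : algebraMap A₀ Lf π ≠ 0 := unip_algebraMap_irreducible_ne_zero E hπ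
  have hlift : ∀ r : intClosure (K := E) τ, r ≠ 0 → ∃ b : B,
      ∀ Q : Place E Lf, Q.ord (algebraMap B Lf b) =
        Q.ord (algebraMap (intClosure (K := E) τ) Lf r) := by
    intro r hr
    obtain ⟨k, hk⟩ := exists_pow_mul_isIntegral hπ τ
      (algebraMap (intClosure (K := E) τ) Lf r) r.2
    obtain ⟨b, hb⟩ := (hB _).mpr hk
    have hr0 : algebraMap (intClosure (K := E) τ) Lf r ≠ 0 := fun h => hr (Subtype.ext h)
    have hb' : algebraMap B Lf b =
        algebraMap A₀ Lf π ^ k * algebraMap (intClosure (K := E) τ) Lf r := hb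
    refine ⟨b, fun Q => ?_⟩
    rw [hb', Place.ord_mul Q (pow_ne_zero k hπ0) hr0, ← map_pow,
      IsScalarTower.algebraMap_apply A₀ E Lf, PlaceAux.ord_algebraMap, zero_add]
  have hconv : ∀ (w : IsDedekindDomain.HeightOneSpectrum (intClosure (K := E) τ)) (x : Lf),
      x ≠ 0 → (0 < (placeOfPrime (K := E) hK w).ord x ↔ w.valuation Lf x < 1) := by
    intro w x hx
    have hv : w.valuation Lf x ≠ 0 := (Valuation.ne_zero_iff _).mpr hx
    rw [placeOfPrime_ord hK w hx]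
    constructor
    · intro h
      rw [← WithZero.exp_log hv, ← WithZero.exp_zero, WithZero.exp_lt_exp]
      omega
    · intro h
      rw [← WithZero.exp_log hv, ← WithZero.exp_zero, WithZero.exp_lt_exp] at h
      omega
  obtain ⟨wP, hwP⟩ := exists_placeOfPrime_eq hK P (hRP P hP)
  obtain ⟨wQ, hwQ⟩ := exists_placeOfPrime_eq hK Q (hRP Q hQ)
  have hle : wP.asIdeal ≤ wQ.asIdeal := by
    intro r hr
    by_cases hr0 : r = 0
    · rw [hr0]; exact Ideal.zero_mem _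
    have hrL : algebraMap (intClosure (K := E) τ) Lf r ≠ 0 := fun h =>
      hr0 ((IsFractionRing.injective (intClosure (K := E) τ) Lf) (by rw [h, map_zero]))
    have h1 : 0 < P.ord (algebraMap (intClosure (K := E) τ) Lf r) := by
      rw [← hwP, hconv wP _ hrL]
      exact (wP.valuation_lt_one_iff_mem (K := Lf) r).mpr hr
    obtain ⟨b, hbord⟩ := hlift r hr0
    have h2 := h b (by rw [hbord]; exact h1)
    rw [hbord, ← hwQ, hconv wQ _ hrL] at h2
    exact (wQ.valuation_lt_one_iff_mem (K := Lf) r).mp h2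
  have heq : wP.asIdeal = wQ.asIdeal :=
    Ideal.IsMaximal.eq_of_le wP.isMaximal wQ.isPrime.ne_top hle
  have : wP = wQ := IsDedekindDomain.HeightOneSpectrum.ext heq
  rw [← hwQ, ← hwP, this]

end PlaceEq

section Smul

variable {A₀ E Lf B : Type*} [CommRing A₀] [IsDomain A₀] [IsDiscreteValuationRing A₀]
  [Field E] [CharZero E] [Algebra A₀ E] [IsFractionRing A₀ E]
  [Field Lf] [Algebra E Lf] [Algebra A₀ Lf] [IsScalarTower A₀ E Lf]
  [CommRing B] [Algebra B Lf] [Algebra A₀ B] [IsScalarTower A₀ B Lf]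

/-- `g` maps the maximal ideal of `P` into the maximal ideal of `g • P` -/
theorem unip_smul_mem_nonunits (g : SemilinearAut E Lf) (P : Place E Lf) {y : Lf}
    (hy : y ∈ P.toValuationSubring.nonunits) :
    g • y ∈ (g • P).toValuationSubring.nonunits := by
  rcases (unip_mem_nonunits_iff P y).mp hy with h | h
  · rw [h, smul_zero]
    exact (g • P).toValuationSubring.nonunits.zero_mem
  · exact (unip_mem_nonunits_iff (g • P) _).mpr (Or.inr (by rw [SemilinearAut.ord_smul]; exact h))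

/-- the translate of a rational point of the tube is a rational point of the tube -/
theorem UnipTubePoint.smul (hinj : Function.Injective (algebraMap B Lf)) {τ : Lf}
    {𝔫 : Ideal B} (g : SemilinearAut E Lf) (hgτ : g • τ = τ)
    (hgB : ∀ b : B, b ∈ 𝔫 → ∃ b' : B, b' ∈ 𝔫 ∧ g • algebraMap B Lf b = algebraMap B Lf b')
    (hgB₀' : ∀ b : B, ∃ b' : B, g⁻¹ • algebraMap B Lf b = algebraMap B Lf b')
    {P : Place E Lf} (hP : UnipTubePoint τ 𝔫 P) : UnipTubePoint τ 𝔫 (g • P) := by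
  refine ⟨?_, ?_, ?_⟩
  · have := SemilinearAut.ord_smul g P τ
    rw [hgτ] at this
    rw [this]
    exact hP.ord_nonneg
  · intro b hb
    obtain ⟨b', hb'⟩ := hgB₀' b
    have h1 : g • algebraMap B Lf b' = algebraMap B Lf b := by
      rw [← hb', smul_inv_smul]
    have h2 : 0 < P.ord (algebraMap B Lf b') := by
      rw [← SemilinearAut.ord_smul g P, h1]
      exact hb
    obtain ⟨b'', hb''𝔫, hb''⟩ := hgB b' (hP.centre b' h2)
    have : b'' = b := hinj (by rw [← hb'', h1])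
    rw [← this]
    exact hb''𝔫
  · intro f hf
    have hf' : g⁻¹ • f ∈ P.toValuationSubring := by
      apply PlaceAux.mem_of_ord_nonneg
      have h1 := SemilinearAut.ord_smul g P (g⁻¹ • f)
      rw [smul_inv_smul] at h1
      rw [← h1]
      by_cases hf0 : f = 0
      · rw [hf0, Place.ord_zero]
      · exact (PlaceAux.ord_nonneg_iff (g • P) hf0).mpr hf
    obtain ⟨c, hc⟩ := hP.rational _ hf'
    refine ⟨SemilinearAut.baseAut g c, ?_⟩
    have := unip_smul_mem_nonunits g P hc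
    rwa [smul_sub, smul_inv_smul, SemilinearAut.smul_algebraMap] at this

end Smul

section Main

variable {A₀ E Lf B : Type*} [CommRing A₀] [IsDomain A₀] [IsDiscreteValuationRing A₀]
  [Field E] [CharZero E] [Algebra A₀ E] [IsFractionRing A₀ E]
  [Field Lf] [Algebra E Lf] [Algebra A₀ Lf] [IsScalarTower A₀ E Lf]
  [CommRing B] [Algebra B Lf] [Algebra A₀ B] [IsScalarTower A₀ B Lf]

/-- in a DVR: either `v(a) < v(c)` or `c ∣ a` -/
theorem unip_dvr_dichotomy {π : A₀} (hπ : Irreducible π) (a c : A₀) (hc : c ≠ 0) :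
    (a ≠ 0 ∧ ∃ t : A₀, π ∣ t ∧ c = a * t) ∨ c ∣ a := by
  by_cases ha : a = 0
  · exact Or.inr (ha ▸ dvd_zero c)
  obtain ⟨i, ua, hua⟩ := IsDiscreteValuationRing.associated_pow_irreducible ha hπ
  obtain ⟨j, uc, huc⟩ := IsDiscreteValuationRing.associated_pow_irreducible hc hπ
  have ha' : a = π ^ i * (ua⁻¹ : A₀ˣ) := by
    rw [← hua, mul_assoc, Units.mul_inv, mul_one]
  have hc' : c = π ^ j * (uc⁻¹ : A₀ˣ) := by
    rw [← huc, mul_assoc, Units.mul_inv, mul_one]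
  rcases lt_or_ge i j with hij | hji
  · left
    refine ⟨ha, (ua : A₀) * π ^ (j - i) * (uc⁻¹ : A₀ˣ), ?_, ?_⟩
    · refine Dvd.dvd.mul_right (Dvd.dvd.mul_left ?_ _) _
      exact dvd_pow_self π (by omega)
    · have hj : j = i + (j - i) := by omega
      have e1 : a * ((ua : A₀) * π ^ (j - i) * (uc⁻¹ : A₀ˣ)) =
          (a * ua) * π ^ (j - i) * (uc⁻¹ : A₀ˣ) := by ring
      rw [hc', e1, hua, ← pow_add, ← hj]
  · right
    refine ⟨(uc : A₀) * π ^ (i - j) * (ua⁻¹ : A₀ˣ), ?_⟩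
    have hi : i = j + (i - j) := by omega
    have e1 : c * ((uc : A₀) * π ^ (i - j) * (ua⁻¹ : A₀ˣ)) =
        (c * uc) * π ^ (i - j) * (ua⁻¹ : A₀ˣ) := by ring
    rw [e1, huc, ← pow_add, ← hi]
    exact ha'

/-- `π ∣ ev b → b ∈ 𝔫` -/
theorem unip_tubeEv_mem_of_dvd {π : A₀} {τ : Lf}
    (hinj : Function.Injective (algebraMap B Lf))
    {𝔫 : Ideal B} (hπ𝔫 : algebraMap A₀ B π ∈ 𝔫) {P : Place E Lf} (hP : UnipTubePoint τ 𝔫 P)
    (ev : B →ₐ[A₀] A₀)
    (hev : ∀ b : B,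
      algebraMap B Lf b - algebraMap A₀ Lf (ev b) ∈ P.toValuationSubring.nonunits)
    (b : B) (hb : π ∣ ev b) : b ∈ 𝔫 := by
  have h1 : b - algebraMap A₀ B (ev b) ∈ 𝔫 := by
    apply unip_tubeEv_ker hinj hP ev hev
    rw [map_sub, AlgHom.commutes, Algebra.algebraMap_self_apply, sub_self]
  have h2 : algebraMap A₀ B (ev b) ∈ 𝔫 := by
    obtain ⟨c, hc⟩ := hb
    rw [hc, map_mul]
    exact Ideal.mul_mem_right _ _ hπ𝔫
  have : b = (b - algebraMap A₀ B (ev b)) + algebraMap A₀ B (ev b) := by ring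
  rw [this]
  exact Ideal.add_mem _ h1 h2

/-- density of `A₀[T]` at a closed point carrying a rational point of the tube, from local
generation -/
theorem unip_dense_of_tubePoint {π : A₀} (hπ : Irreducible π) (τ : Lf)
    (hinj : Function.Injective (algebraMap B Lf))
    (hB : ∀ x : Lf, x ∈ (algebraMap B Lf).range ↔ IsIntegral (Algebra.adjoin A₀ {τ}) x)
    (𝔫 : Ideal B) [𝔫.IsPrime] (hπ𝔫 : algebraMap A₀ B π ∈ 𝔫)
    (P : Place E Lf) (hP : UnipTubePoint τ 𝔫 P)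
    (T : Set B) (hT : ∀ x ∈ T, x ∈ 𝔫)
    (hgen : NodesLocGen 𝔫 (insert (algebraMap A₀ B π) T)) :
    ∀ (N : ℕ) (b : B), ∃ c ∈ Algebra.adjoin A₀ T, b - c ∈ 𝔫 ^ N := by
  obtain ⟨ev, hev⟩ := unip_exists_tubeEv hπ τ hinj hB 𝔫 hπ𝔫 P hP
  refine unip_dense_of_locGen 𝔫 π T hπ𝔫 hT hgen (fun b => ⟨ev b, ?_⟩) (fun α hα => ?_)
  · apply unip_tubeEv_ker hinj hP ev hev
    rw [map_sub, AlgHom.commutes, Algebra.algebraMap_self_apply, sub_self]
  · have hu : IsUnit α := by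
      by_contra hnu
      have : α ∈ IsLocalRing.maximalIdeal A₀ := (IsLocalRing.mem_maximalIdeal _).mpr hnu
      rw [hπ.maximalIdeal_eq, Ideal.mem_span_singleton] at this
      obtain ⟨c, rfl⟩ := this
      apply hα
      rw [map_mul]
      exact Ideal.mul_mem_right _ _ hπ𝔫
    obtain ⟨β, hβ⟩ := hu.exists_right_inv
    exact ⟨β, hβ⟩

/-- **Coord, smooth point.**  `𝔫 = (π, s)` locally: `f = s - s(P)` is a coordinate function at
every rational point `P` of the tube. -/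
theorem unip_coord_disc [IsNoetherianRing B] {π : A₀} (hπ : Irreducible π) (τ : Lf)
    (hτ : Transcendental E τ) [FiniteDimensional E⟮τ⟯ Lf]
    (hinj : Function.Injective (algebraMap B Lf))
    (hB : ∀ x : Lf, x ∈ (algebraMap B Lf).range ↔ IsIntegral (Algebra.adjoin A₀ {τ}) x)
    (𝔫 : Ideal B) [𝔫.IsPrime] (hπ𝔫 : algebraMap A₀ B π ∈ 𝔫)
    (s : B) (hs : s ∈ 𝔫) (hgen : NodesLocGen 𝔫 {algebraMap A₀ B π, s})
    (P : Place E Lf) (hP : UnipTubePoint τ 𝔫 P) :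
    ∃ f : Lf, f ≠ 0 ∧ P.ord f = 1 ∧
      ∀ Q : Place E Lf, 0 ≤ Q.ord τ → (∀ b : B, 0 < Q.ord (algebraMap B Lf b) → b ∈ 𝔫) →
        Q ≠ P → Q.ord f = 0 := by
  obtain ⟨ev, hev⟩ := unip_exists_tubeEv hπ τ hinj hB 𝔫 hπ𝔫 P hP
  have hd := unip_dense_of_tubePoint hπ τ hinj hB 𝔫 hπ𝔫 P hP {s}
    (fun x hx => by rw [Set.mem_singleton_iff] at hx; rw [hx]; exact hs) hgen
  obtain ⟨h1, h2⟩ := unip_tubeOrd_disc hπ τ hτ hinj hB 𝔫 hπ𝔫 s (ev s) hd P hP (hev s)
  refine ⟨_, fun h0 => ?_, h1, h2⟩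
  rw [h0, Place.ord_zero] at h1
  exact zero_ne_one h1

/-- **One stage.**  Either stage data give a coordinate function at `P`, or both coordinates of
`P` are divisible by `q ^ n'` and the node is thick at this stage (`G ∈ 𝔫`). -/
theorem unip_coord_stage [IsNoetherianRing B] {π : A₀} (hπ : Irreducible π) (τ : Lf)
    (hτ : Transcendental E τ) [FiniteDimensional E⟮τ⟯ Lf]
    (hinj : Function.Injective (algebraMap B Lf))
    (hB : ∀ x : Lf, x ∈ (algebraMap B Lf).range ↔ IsIntegral (Algebra.adjoin A₀ {τ}) x)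
    (𝔫 : Ideal B) [𝔫.IsPrime] (hπ𝔫 : algebraMap A₀ B π ∈ 𝔫)
    (q : A₀) (hq0 : q ≠ 0) (n' : ℕ)
    (X Y G : B) (hX : X ∈ 𝔫) (hY : Y ∈ 𝔫) (hXY : X * Y = algebraMap A₀ B q ^ n' * G)
    (hgen : NodesLocGen 𝔫 {algebraMap A₀ B π, X, Y})
    (P : Place E Lf) (hP : UnipTubePoint τ 𝔫 P) (ev : B →ₐ[A₀] A₀)
    (hev : ∀ b : B,
      algebraMap B Lf b - algebraMap A₀ Lf (ev b) ∈ P.toValuationSubring.nonunits) :
    (∃ f : Lf, f ≠ 0 ∧ P.ord f = 1 ∧
      ∀ Q : Place E Lf, 0 ≤ Q.ord τ → (∀ b : B, 0 < Q.ord (algebraMap B Lf b) → b ∈ 𝔫) →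
        Q ≠ P → Q.ord f = 0) ∨
    (q ^ n' ∣ ev X ∧ q ^ n' ∣ ev Y ∧ G ∈ 𝔫) := by
  have hd := unip_dense_of_tubePoint hπ τ hinj hB 𝔫 hπ𝔫 P hP {X, Y}
    (fun x hx => by
      rcases hx with rfl | rfl
      · exact hX
      · exact hY) hgen
  have hd' : ∀ (N : ℕ) (b : B), ∃ c ∈ Algebra.adjoin A₀ ({Y, X} : Set B), b - c ∈ 𝔫 ^ N := by
    rw [Set.pair_comm]
    exact hd
  have hc0 : q ^ n' ≠ 0 := pow_ne_zero n' hq0
  have hXY' : X * Y = algebraMap A₀ B (q ^ n') * G := by rw [map_pow]; exact hXY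
  have hYX' : Y * X = algebraMap A₀ B (q ^ n') * G := by rw [mul_comm]; exact hXY'
  have hfin : ∀ f : Lf, P.ord f = 1 → f ≠ 0 := by
    intro f h1 h0
    rw [h0, Place.ord_zero] at h1
    exact zero_ne_one h1
  rcases unip_dvr_dichotomy hπ (ev X) (q ^ n') hc0 with ⟨ha, t, ht, hct⟩ | hdX
  · left
    obtain ⟨h1, h2⟩ := unip_tubeOrd_node hπ τ hτ hinj hB 𝔫 hπ𝔫 X Y G (q ^ n') (ev X) t hct ht ha
      hXY' hd P hP (hev X)
    exact ⟨_, hfin _ h1, h1, h2⟩
  rcases unip_dvr_dichotomy hπ (ev Y) (q ^ n') hc0 with ⟨ha, t, ht, hct⟩ | hdY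
  · left
    obtain ⟨h1, h2⟩ := unip_tubeOrd_node hπ τ hτ hinj hB 𝔫 hπ𝔫 Y X G (q ^ n') (ev Y) t hct ht ha
      hYX' hd' P hP (hev Y)
    exact ⟨_, hfin _ h1, h1, h2⟩
  right
  refine ⟨hdX, hdY, ?_⟩
  apply unip_tubeEv_mem_of_dvd hinj hπ𝔫 hP ev hev
  obtain ⟨x₁, hx₁⟩ := hdX
  have h1 : ev X * ev Y = q ^ n' * ev G := by
    have := congrArg ev hXY'
    rwa [map_mul, map_mul, AlgHom.commutes, Algebra.algebraMap_self_apply] at this
  have h2 : ev G = x₁ * ev Y := by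
    apply mul_left_cancel₀ hc0
    rw [← h1, hx₁]
    ring
  rw [h2]
  exact Dvd.dvd.mul_left (unip_tubeEv_dvd hπ hinj hP ev hev Y hY) _

/-- evaluation at `g • P` of a `g`-invariant element of the chart -/
theorem unip_tubeEv_smul (g : SemilinearAut E Lf)
    (hgA : ∀ α : A₀, ∃ α' : A₀, g • algebraMap A₀ Lf α = algebraMap A₀ Lf α')
    (P : Place E Lf) (evP evQ : B →ₐ[A₀] A₀)
    (hevP : ∀ b : B,
      algebraMap B Lf b - algebraMap A₀ Lf (evP b) ∈ P.toValuationSubring.nonunits)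
    (hevQ : ∀ b : B,
      algebraMap B Lf b - algebraMap A₀ Lf (evQ b) ∈ (g • P).toValuationSubring.nonunits)
    (b : B) (hb : g • algebraMap B Lf b = algebraMap B Lf b) :
    g • algebraMap A₀ Lf (evP b) = algebraMap A₀ Lf (evQ b) := by
  obtain ⟨α', hα'⟩ := hgA (evP b)
  have h1 := unip_smul_mem_nonunits g P (hevP b)
  rw [smul_sub, hb, hα'] at h1
  rw [hα', unip_value_unique (g • P) (hevQ b) h1]

/-- divisibility by a power of a `g`-fixed constant is preserved by `g` -/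
theorem unip_dvd_of_smul (g : SemilinearAut E Lf)
    (hgA : ∀ α : A₀, ∃ α' : A₀, g • algebraMap A₀ Lf α = algebraMap A₀ Lf α')
    (q : A₀) (hgq : g • algebraMap A₀ Lf q = algebraMap A₀ Lf q) (n : ℕ) {α β : A₀}
    (hαβ : g • algebraMap A₀ Lf α = algebraMap A₀ Lf β) (h : q ^ n ∣ α) : q ^ n ∣ β := by
  obtain ⟨c, rfl⟩ := h
  obtain ⟨c', hc'⟩ := hgA c
  refine ⟨c', ?_⟩
  apply unip_algebraMap_injective E (A₀ := A₀) (Lf := Lf)
  rw [← hαβ, map_mul, map_mul, map_pow, smul_mul', smul_pow', hgq, hc']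

/-- **Coord, crossing point (thick nodes included).**  Stage data for every `n ≥ 1`
(`unip_morse_iter` over the unramified chart, transported to `B`), with coordinates fixed by `g`.
Every rational point `P` of the tube of `𝔫` with `g • P ≠ P` has a coordinate function. -/
theorem unip_coord_node [IsNoetherianRing B] {π : A₀} (hπ : Irreducible π) (τ : Lf)
    (hτ : Transcendental E τ) [FiniteDimensional E⟮τ⟯ Lf]
    (hinj : Function.Injective (algebraMap B Lf))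
    (hB : ∀ x : Lf, x ∈ (algebraMap B Lf).range ↔ IsIntegral (Algebra.adjoin A₀ {τ}) x)
    (𝔫 : Ideal B) [𝔫.IsPrime] (hπ𝔫 : algebraMap A₀ B π ∈ 𝔫)
    (g : SemilinearAut E Lf) (hgτ : g • τ = τ)
    (hgB : ∀ b : B, b ∈ 𝔫 → ∃ b' : B, b' ∈ 𝔫 ∧ g • algebraMap B Lf b = algebraMap B Lf b')
    (hgB₀' : ∀ b : B, ∃ b' : B, g⁻¹ • algebraMap B Lf b = algebraMap B Lf b')
    (hgA : ∀ α : A₀, ∃ α' : A₀, g • algebraMap A₀ Lf α = algebraMap A₀ Lf α')
    (q : A₀) (hq0 : q ≠ 0) (hqπ : π ∣ q)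
    (hgq : g • algebraMap A₀ Lf q = algebraMap A₀ Lf q)
    (hstage : ∀ n : ℕ, 1 ≤ n → ∃ (n' : ℕ) (X Y G : B), X ∈ 𝔫 ∧ Y ∈ 𝔫 ∧
      X * Y = algebraMap A₀ B q ^ n' * G ∧ NodesLocGen 𝔫 {algebraMap A₀ B π, X, Y} ∧
      g • algebraMap B Lf X = algebraMap B Lf X ∧ g • algebraMap B Lf Y = algebraMap B Lf Y ∧
      (n ≤ n' ∨ G ∉ 𝔫))
    (P : Place E Lf) (hP : UnipTubePoint τ 𝔫 P) (hgP : g • P ≠ P) :
    ∃ f : Lf, f ≠ 0 ∧ P.ord f = 1 ∧
      ∀ Q : Place E Lf, 0 ≤ Q.ord τ → (∀ b : B, 0 < Q.ord (algebraMap B Lf b) → b ∈ 𝔫) →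
        Q ≠ P → Q.ord f = 0 := by
  have hP' : UnipTubePoint τ 𝔫 (g • P) := hP.smul hinj g hgτ hgB hgB₀'
  obtain ⟨evP, hevP⟩ := unip_exists_tubeEv hπ τ hinj hB 𝔫 hπ𝔫 P hP
  obtain ⟨evQ, hevQ⟩ := unip_exists_tubeEv hπ τ hinj hB 𝔫 hπ𝔫 (g • P) hP'
  by_contra hcon
  have hmaxP : ∀ b ∈ 𝔫, evP b ∈ IsLocalRing.maximalIdeal A₀ := fun b hb => by
    rw [hπ.maximalIdeal_eq, Ideal.mem_span_singleton]
    exact unip_tubeEv_dvd hπ hinj hP evP hevP b hb
  have hmaxQ : ∀ b ∈ 𝔫, evQ b ∈ IsLocalRing.maximalIdeal A₀ := fun b hb => by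
    rw [hπ.maximalIdeal_eq, Ideal.mem_span_singleton]
    exact unip_tubeEv_dvd hπ hinj hP' evQ hevQ b hb
  have key : ∀ n : ℕ, 1 ≤ n → ∀ b : B, evP b - evQ b ∈ Ideal.span ({q ^ n} : Set A₀) := by
    intro n hn b
    obtain ⟨n', X, Y, G, hX, hY, hXY, hgen, hgX, hgY, hthin⟩ := hstage n hn
    rcases unip_coord_stage hπ τ hτ hinj hB 𝔫 hπ𝔫 q hq0 n' X Y G hX hY hXY hgen P hP evP hevP
      with h | ⟨hdX, hdY, hG⟩
    · exact absurd h hcon
    have hle : n ≤ n' := hthin.resolve_right (fun h => h hG)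
    have hdX' : q ^ n ∣ evP X := (pow_dvd_pow q hle).trans hdX
    have hdY' : q ^ n ∣ evP Y := (pow_dvd_pow q hle).trans hdY
    have hdXQ : q ^ n ∣ evQ X :=
      unip_dvd_of_smul g hgA q hgq n (unip_tubeEv_smul g hgA P evP evQ hevP hevQ X hgX) hdX'
    have hdYQ : q ^ n ∣ evQ Y :=
      unip_dvd_of_smul g hgA q hgq n (unip_tubeEv_smul g hgA P evP evQ hevP hevQ Y hgY) hdY'
    have hd := unip_dense_of_tubePoint hπ τ hinj hB 𝔫 hπ𝔫 P hP {X, Y}
      (fun x hx => by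
        rcases hx with rfl | rfl
        · exact hX
        · exact hY) hgen
    refine unip_eval_sub_mem_span_of_dense 𝔫 {X, Y} (q ^ n) hd evP evQ hmaxP hmaxQ
      (fun x hx => ?_) b
    rw [Ideal.mem_span_singleton]
    rcases hx with rfl | rfl
    · exact dvd_sub hdX' hdXQ
    · exact dvd_sub hdY' hdYQ
  have heq : ∀ b : B, evP b = evQ b := by
    intro b
    have h0 : evP b - evQ b ∈ (⨅ i : ℕ, IsLocalRing.maximalIdeal A₀ ^ i : Ideal A₀) := by
      rw [Ideal.mem_iInf]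
      intro n
      rcases Nat.eq_zero_or_pos n with h | h
      · rw [h, pow_zero, Ideal.one_eq_top]; exact Submodule.mem_top
      · have h1 := key n h b
        rw [Ideal.mem_span_singleton] at h1
        obtain ⟨c, hc⟩ := h1
        obtain ⟨q₁, hq₁⟩ := hqπ
        rw [hc, hq₁, mul_pow, hπ.maximalIdeal_eq, Ideal.span_singleton_pow]
        exact Ideal.mem_span_singleton.mpr ⟨q₁ ^ n * c, by ring⟩
    rw [Ideal.iInf_pow_eq_bot_of_isLocalRing (IsLocalRing.maximalIdeal A₀)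
      Ideal.IsPrime.ne_top'] at h0
    exact sub_eq_zero.mp (by simpa using h0)
  apply hgP
  refine unip_place_eq_of_le hπ τ hτ hB P (g • P) hP.ord_nonneg hP'.ord_nonneg (fun b hb => ?_)
  have hb0 : algebraMap B Lf b ≠ 0 := by
    intro h0
    rw [h0, Place.ord_zero] at hb
    exact lt_irrefl _ hb
  have h1 : evP b = 0 :=
    (unip_tubeEv_eq_zero_iff P evP hevP b).mpr ((unip_mem_nonunits_iff P _).mpr (Or.inr hb))
  have h2 : evQ b = 0 := by rw [← heq b, h1]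
  have h3 := (unip_tubeEv_eq_zero_iff (g • P) evQ hevQ b).mp h2
  rcases (unip_mem_nonunits_iff (g • P) _).mp h3 with h | h
  · exact absurd h hb0
  · exact h

end Main

end Fermat.Agent.UNIP


end ZBUNIP_009_1

/-! ### bundled: `Fermat.Agent.UNIP.CoordGen` -/
section ZBUNIP_009_2

/-!
# UNIP / STB-L — Coord for a general automorphism `g` (thick nodes included)

`unip_coord_node` (Coord.lean) needs stage coordinates FIXED by `g` (true for inertia, the
coordinates coming from the unramified chart).  For `g = Φ = φ²` (phase 2, S35) the coordinates are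
not fixed.  Here the hypothesis is replaced by: `g` preserves the two vertical valuations
(`hgV`, exactly the hypothesis of `ls_local_factor_chart`).

* `unip_morse_iter_vert` : Morse iteration, tracking `X ∈ 𝔭₁ ∖ 𝔭₂`, `Y ∈ 𝔭₂ ∖ 𝔭₁`.
* `unip_vert_locGen`     : `𝔭₁ = (π, X)` locally at `𝔫`.
* `unip_vert_ev_dvd`     : intrinsic depth: if `P` is deep at the stage (`π ^ N ∣ ev X`,
  `X * Y = π ^ N * G`), then `π ^ k ∣ ev b` for all `b ∈ B ∩ π ^ k B_{𝔭₁}`, `k ≤ N`.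
* `unip_coord_node_gen`  : every rational point `P` of the tube with `g • P ≠ P` has a coordinate
  function.
-/

set_option autoImplicit false
set_option linter.style.haveILetI false
set_option linter.unusedSectionVars false

namespace Fermat.Agent.UNIP

open AlgebraicCurve IntermediateField Polynomial Fermat.Agent.S24 Fermat.Agent.INJ

section MorseVert

variable {B : Type*} [CommRing B]

/-- **Morse iteration with the two branches.**  As `unip_morse_iter`, tracking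
`X ∈ 𝔭₁ ∖ 𝔭₂`, `Y ∈ 𝔭₂ ∖ 𝔭₁`. -/
theorem unip_morse_iter_vert (𝔫 : Ideal B) [𝔫.IsPrime] (𝔭₁ 𝔭₂ : Ideal B) [𝔭₁.IsPrime]
    [𝔭₂.IsPrime] (h1 : 𝔭₁ ≤ 𝔫) (h2 : 𝔭₂ ≤ 𝔫) (q : B) (hq1 : q ∈ 𝔭₁) (hq2 : q ∈ 𝔭₂)
    (X Y : B) (hX1 : X ∈ 𝔭₁) (hY2 : Y ∈ 𝔭₂) (hX2 : X ∉ 𝔭₂) (hY1 : Y ∉ 𝔭₁)
    (hXY : q ∣ X * Y) (hgen : NodesLocGen 𝔫 {q, X, Y}) :
    ∀ n : ℕ, 1 ≤ n → ∃ (n' : ℕ) (X' Y' G' : B), 1 ≤ n' ∧ X' ∈ 𝔭₁ ∧ Y' ∈ 𝔭₂ ∧ X' ∉ 𝔭₂ ∧
      Y' ∉ 𝔭₁ ∧ X' * Y' = q ^ n' * G' ∧ NodesLocGen 𝔫 {q, X', Y'} ∧ (n ≤ n' ∨ G' ∉ 𝔫) := by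
  intro n hn
  induction n, hn using Nat.le_induction with
  | base =>
    obtain ⟨G, hG⟩ := hXY
    exact ⟨1, X, Y, G, le_rfl, hX1, hY2, hX2, hY1, by rw [pow_one, hG], hgen, Or.inl le_rfl⟩
  | succ n hn ih =>
    obtain ⟨n', X', Y', G', hn', hX1', hY2', hX2', hY1', hXY', hgen', h⟩ := ih
    by_cases hG : G' ∈ 𝔫
    · have hle : n ≤ n' := h.resolve_right (fun h' => h' hG)
      obtain ⟨X'', Y'', G'', -, -, hXY'', hgen'', u, a₁, a₂, hu, rfl, rfl⟩ :=
        unip_morse_step 𝔫 q (h1 hq1) n' hn' X' Y' G' (h1 hX1') (h2 hY2') hXY' hgen' hG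
      have hqn1 : q ^ n' ∈ 𝔭₁ := Ideal.pow_mem_of_mem _ hq1 _ (by omega)
      have hqn2 : q ^ n' ∈ 𝔭₂ := Ideal.pow_mem_of_mem _ hq2 _ (by omega)
      refine ⟨n' + 1, _, _, G'', by omega, ?_, ?_, ?_, ?_, hXY'', hgen'', Or.inl (by omega)⟩
      · exact Ideal.sub_mem _ (Ideal.mul_mem_left _ _ hX1') (Ideal.mul_mem_right _ _ hqn1)
      · exact Ideal.sub_mem _ (Ideal.mul_mem_left _ _ hY2') (Ideal.mul_mem_right _ _ hqn2)
      · intro hmem
        have : u * X' ∈ 𝔭₂ := by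
          have := Ideal.add_mem _ hmem (Ideal.mul_mem_right a₂ _ hqn2)
          simpa using this
        rcases Ideal.IsPrime.mem_or_mem inferInstance this with h' | h'
        · exact hu (h2 h')
        · exact hX2' h'
      · intro hmem
        have : u * Y' ∈ 𝔭₁ := by
          have := Ideal.add_mem _ hmem (Ideal.mul_mem_right a₁ _ hqn1)
          simpa using this
        rcases Ideal.IsPrime.mem_or_mem inferInstance this with h' | h'
        · exact hu (h1 h')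
        · exact hY1' h'
    · exact ⟨n', X', Y', G', hn', hX1', hY2', hX2', hY1', hXY', hgen', Or.inr hG⟩

end MorseVert

section VertDepth

variable {A B : Type*} [CommRing A] [CommRing B] [Algebra A B]

/-- **(A)** the branch `𝔭` is generated by `ϖ` and `X` locally at `𝔫`. -/
theorem unip_vert_locGen [IsNoetherianRing B] (𝔫 : Ideal B) [𝔫.IsPrime] (𝔭 : Ideal B)
    [𝔭.IsPrime] (h𝔭 : 𝔭 ≤ 𝔫) (ϖ X Y : B) (hϖ : ϖ ∈ 𝔭) (hX : X ∈ 𝔭) (hY : Y ∉ 𝔭) (hY𝔫 : Y ∈ 𝔫)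
    (hgen : NodesLocGen 𝔫 {ϖ, X, Y})
    (hres : ∀ u : B, u ∉ 𝔫 → ∃ u' : B, u * u' - 1 ∈ 𝔫) :
    ∀ b ∈ 𝔭, ∃ u : B, u ∉ 𝔫 ∧ u * b ∈ Ideal.span ({ϖ, X} : Set B) := by
  set I : Ideal B := Ideal.span ({ϖ, X} : Set B) with hI
  have hϖI : ϖ ∈ I := Ideal.subset_span (by simp)
  have hXI : X ∈ I := Ideal.subset_span (by simp)
  have hstep : 𝔭 ≤ I ⊔ 𝔫 * 𝔭 := by
    intro b hb
    obtain ⟨u, hu, hub⟩ := hgen b (h𝔭 hb)
    rw [Ideal.mem_span_insert] at hub
    obtain ⟨c₀, z, hz, hub⟩ := hub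
    rw [Ideal.mem_span_pair] at hz
    obtain ⟨c₁, c₂, rfl⟩ := hz
    have hc₂ : c₂ ∈ 𝔭 := by
      have h1 : c₂ * Y ∈ 𝔭 := by
        have e : c₂ * Y = u * b - c₀ * ϖ - c₁ * X := by rw [hub]; ring
        rw [e]
        exact Ideal.sub_mem _ (Ideal.sub_mem _ (Ideal.mul_mem_left _ _ hb)
          (Ideal.mul_mem_left _ _ hϖ)) (Ideal.mul_mem_left _ _ hX)
      exact (Ideal.IsPrime.mem_or_mem inferInstance h1).resolve_right hY
    obtain ⟨u', hu'⟩ := hres u hu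
    have e : b = u' * (c₀ * ϖ + c₁ * X) + ((u' * Y) * c₂ - (u * u' - 1) * b) := by
      have : u' * (u * b) = u' * (c₀ * ϖ + (c₁ * X + c₂ * Y)) := by rw [hub]
      linear_combination this
    rw [e]
    refine Ideal.add_mem _ (Ideal.mem_sup_left (Ideal.mul_mem_left _ _
      (Ideal.add_mem _ (Ideal.mul_mem_left _ _ hϖI) (Ideal.mul_mem_left _ _ hXI))))
      (Ideal.mem_sup_right (Ideal.sub_mem _ ?_ ?_))
    · exact Ideal.mul_mem_mul (Ideal.mul_mem_left _ _ hY𝔫) hc₂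
    · exact Ideal.mul_mem_mul hu' hb
  have hpow : ∀ N : ℕ, 𝔭 ≤ I ⊔ 𝔫 ^ N * 𝔭 := by
    intro N
    induction N with
    | zero => rw [pow_zero, one_mul]; exact le_sup_right
    | succ N ih =>
      calc 𝔭 ≤ I ⊔ 𝔫 ^ N * 𝔭 := ih
        _ ≤ I ⊔ 𝔫 ^ N * (I ⊔ 𝔫 * 𝔭) := sup_le_sup_left (Ideal.mul_mono_right hstep) _
        _ = I ⊔ (𝔫 ^ N * I ⊔ 𝔫 ^ N * (𝔫 * 𝔭)) := by rw [Ideal.mul_sup]
        _ ≤ I ⊔ 𝔫 ^ (N + 1) * 𝔭 := by
          refine sup_le le_sup_left (sup_le (le_sup_of_le_left Ideal.mul_le_right) ?_)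
          rw [← mul_assoc, ← pow_succ]
          exact le_sup_right
  intro b hb
  have hall : ∀ N : ℕ, b ∈ 𝔫 ^ N ⊔ I := by
    intro N
    have h1 := hpow N hb
    rw [sup_comm]
    have h2 : I ⊔ 𝔫 ^ N * 𝔭 ≤ I ⊔ 𝔫 ^ N := sup_le_sup_left Ideal.mul_le_left _
    exact h2 h1
  obtain ⟨r, hr, hrb⟩ := unip_krull_mem 𝔫 I b hall
  refine ⟨1 - r, fun h => ?_, hrb⟩
  have h1 : (1 : B) ∈ 𝔫 := by
    have := Ideal.add_mem _ h hr
    simpa using this
  exact (Ideal.IsPrime.ne_top inferInstance) ((Ideal.eq_top_iff_one _).mpr h1)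

/-- **(B) intrinsic depth.**  `ev` a section through `𝔫`; stage data `X * Y = π ^ N * G`,
`𝔫 = (π, X, Y)` locally, `X ∈ 𝔭`, `Y ∉ 𝔭`; the point is deep: `π ^ N ∣ ev X`.  Then every
`b ∈ B ∩ π ^ k B_𝔭` (`k ≤ N`) has `π ^ k ∣ ev b`. -/
theorem unip_vert_ev_dvd [IsNoetherianRing B] [IsDomain B] (𝔫 : Ideal B) [𝔫.IsPrime]
    (𝔭 : Ideal B) [𝔭.IsPrime] (h𝔭 : 𝔭 ≤ 𝔫) (π : A) (hπ0 : algebraMap A B π ≠ 0)
    (hπ𝔭 : algebraMap A B π ∈ 𝔭)
    (ev : B →ₐ[A] A) (hev𝔫 : ∀ b : B, π ∣ ev b → b ∈ 𝔫)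
    (hunit : ∀ α : A, ¬ π ∣ α → IsUnit α)
    (X Y G : B) (N : ℕ) (hX : X ∈ 𝔭) (hY : Y ∉ 𝔭) (hY𝔫 : Y ∈ 𝔫)
    (hXY : X * Y = algebraMap A B (π ^ N) * G)
    (hgen : NodesLocGen 𝔫 {algebraMap A B π, X, Y})
    (hdeep : π ^ N ∣ ev X) :
    ∀ k : ℕ, k ≤ N → ∀ b s b' : B, s ∉ 𝔭 → s * b = algebraMap A B (π ^ k) * b' →
      π ^ k ∣ ev b := by
  have hevA : ∀ α : A, ev (algebraMap A B α) = α := fun α => by
    rw [AlgHom.commutes, Algebra.algebraMap_self_apply]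
  have hevu : ∀ u : B, u ∉ 𝔫 → IsUnit (ev u) := fun u hu =>
    hunit _ (fun h => hu (hev𝔫 u h))
  have hres : ∀ u : B, u ∉ 𝔫 → ∃ u' : B, u * u' - 1 ∈ 𝔫 := by
    intro u hu
    obtain ⟨β, hβ⟩ := (hevu u hu).exists_right_inv
    refine ⟨algebraMap A B β, hev𝔫 _ ?_⟩
    rw [map_sub, map_mul, hevA, hβ, map_one, sub_self]
    exact dvd_zero π
  have hA := unip_vert_locGen 𝔫 𝔭 h𝔭 (algebraMap A B π) X Y hπ𝔭 hX hY hY𝔫 hgen hres
  intro k
  induction k with
  | zero =>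
    intro _ b s b' _ _
    rw [pow_zero]
    exact one_dvd _
  | succ k ih =>
    intro hk b s b' hs hsb
    have hb : b ∈ 𝔭 := by
      have h1 : s * b ∈ 𝔭 := by
        rw [hsb, map_pow, pow_succ]
        exact Ideal.mul_mem_right _ _ (Ideal.mul_mem_left _ _ hπ𝔭)
      exact (Ideal.IsPrime.mem_or_mem inferInstance h1).resolve_left hs
    obtain ⟨u, hu, hub⟩ := hA b hb
    rw [Ideal.mem_span_pair] at hub
    obtain ⟨c₀, c₁, hub⟩ := hub
    have hN : N = (k + 1) + (N - (k + 1)) := by omega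
    have key : (s * Y) * c₀ = algebraMap A B (π ^ k) *
        (Y * u * b' - s * c₁ * algebraMap A B (π ^ (N - (k + 1))) * G) := by
      apply mul_left_cancel₀ hπ0
      have e1 : algebraMap A B (π ^ N) =
          algebraMap A B π * algebraMap A B (π ^ k) * algebraMap A B (π ^ (N - (k + 1))) := by
        rw [← map_mul, ← map_mul]
        congr 1
        conv_lhs => rw [hN]
        rw [pow_add, pow_succ]
        ring
      have e2 : algebraMap A B (π ^ (k + 1)) = algebraMap A B π * algebraMap A B (π ^ k) := by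
        rw [← map_mul, pow_succ]
        congr 1
        ring
      rw [e2] at hsb
      rw [e1] at hXY
      linear_combination (s * Y) * hub + (Y * u) * hsb - (s * c₁) * hXY
    have hsY : s * Y ∉ 𝔭 := fun h =>
      (Ideal.IsPrime.mem_or_mem inferInstance h).elim hs hY
    have h1 : π ^ k ∣ ev c₀ := ih (by omega) c₀ (s * Y) _ hsY key
    have h2 : ev u * ev b = ev c₀ * π + ev c₁ * ev X := by
      have := congrArg ev hub
      rw [map_add, map_mul, map_mul, hevA, map_mul] at this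
      exact this.symm
    have h3 : π ^ (k + 1) ∣ ev u * ev b := by
      rw [h2]
      refine dvd_add ?_ (Dvd.dvd.mul_left ((pow_dvd_pow π hk).trans hdeep) _)
      rw [pow_succ]
      exact mul_dvd_mul_right h1 π
    exact ((hevu u hu).dvd_mul_left).mp h3

end VertDepth

section MainGen

variable {A₀ E Lf B : Type*} [CommRing A₀] [IsDomain A₀] [IsDiscreteValuationRing A₀]
  [Field E] [CharZero E] [Algebra A₀ E] [IsFractionRing A₀ E]
  [Field Lf] [Algebra E Lf] [Algebra A₀ Lf] [IsScalarTower A₀ E Lf]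
  [CommRing B] [Algebra B Lf] [Algebra A₀ B] [IsScalarTower A₀ B Lf]

/-- evaluation at `g • P` of `b = g • b'` -/
theorem unip_tubeEv_smul_gen (g : SemilinearAut E Lf)
    (hgA : ∀ α : A₀, ∃ α' : A₀, g • algebraMap A₀ Lf α = algebraMap A₀ Lf α')
    (P : Place E Lf) (evP evQ : B →ₐ[A₀] A₀)
    (hevP : ∀ b : B,
      algebraMap B Lf b - algebraMap A₀ Lf (evP b) ∈ P.toValuationSubring.nonunits)
    (hevQ : ∀ b : B,
      algebraMap B Lf b - algebraMap A₀ Lf (evQ b) ∈ (g • P).toValuationSubring.nonunits)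
    (b b' : B) (hb : g • algebraMap B Lf b' = algebraMap B Lf b) :
    g • algebraMap A₀ Lf (evP b') = algebraMap A₀ Lf (evQ b) := by
  obtain ⟨α', hα'⟩ := hgA (evP b')
  have h1 := unip_smul_mem_nonunits g P (hevP b')
  rw [smul_sub, hb, hα'] at h1
  rw [hα', unip_value_unique (g • P) (hevQ b) h1]

/-- a `g`-translate of a deep coordinate is deep: the core of `unip_coord_node_gen`. -/
theorem unip_deep_smul [IsNoetherianRing B] {π : A₀} (hπ : Irreducible π) (τ : Lf)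
    (hinj : Function.Injective (algebraMap B Lf))
    (𝔫 : Ideal B) [𝔫.IsPrime] (hπ𝔫 : algebraMap A₀ B π ∈ 𝔫)
    (𝔭 : Ideal B) [𝔭.IsPrime] (h𝔭 : 𝔭 ≤ 𝔫) (hπ𝔭 : algebraMap A₀ B π ∈ 𝔭)
    (g : SemilinearAut E Lf)
    (hgB₀' : ∀ b : B, ∃ b' : B, g⁻¹ • algebraMap B Lf b = algebraMap B Lf b')
    (hgA : ∀ α : A₀, ∃ α' : A₀, g • algebraMap A₀ Lf α = algebraMap A₀ Lf α')
    (hgV : ∀ f : Lf, f ≠ 0 →
      ∃ s s' : B, s ∉ 𝔭 ∧ s' ∉ 𝔭 ∧ algebraMap B Lf s * (g • f / f) = algebraMap B Lf s')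
    (q : A₀) (hq0 : q ≠ 0) (hgq : g • algebraMap A₀ Lf q = algebraMap A₀ Lf q) (n' : ℕ)
    (X Y G : B) (hX : X ∈ 𝔭) (hY : Y ∉ 𝔭) (hY𝔫 : Y ∈ 𝔫)
    (hXY : X * Y = algebraMap A₀ B q ^ n' * G)
    (hgen : NodesLocGen 𝔫 {algebraMap A₀ B π, X, Y})
    (P : Place E Lf) (hP : UnipTubePoint τ 𝔫 P) (evP evQ : B →ₐ[A₀] A₀)
    (hevP : ∀ b : B,
      algebraMap B Lf b - algebraMap A₀ Lf (evP b) ∈ P.toValuationSubring.nonunits)
    (hevQ : ∀ b : B,
      algebraMap B Lf b - algebraMap A₀ Lf (evQ b) ∈ (g • P).toValuationSubring.nonunits)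
    (hdeep : q ^ n' ∣ evP X) : q ^ n' ∣ evQ X := by
  haveI : IsDomain B := hinj.isDomain (algebraMap B Lf)
  have hπ0 : algebraMap A₀ B π ≠ 0 := by
    intro h
    apply unip_algebraMap_irreducible_ne_zero (E) (Lf := Lf) hπ
    rw [IsScalarTower.algebraMap_apply A₀ B Lf, h, map_zero]
  -- `q ^ n'` is associated to a power of `π`
  obtain ⟨e, w, hw⟩ := IsDiscreteValuationRing.associated_pow_irreducible hq0 hπ
  -- hw : q * w = π ^ e
  have hqπ : q ^ n' * ((w : A₀) ^ n') = π ^ (e * n') := by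
    rw [← mul_pow, hw, ← pow_mul]
  have hπq : π ^ (e * n') * (((w⁻¹ : A₀ˣ) : A₀) ^ n') = q ^ n' := by
    rw [← hqπ, mul_assoc, ← mul_pow, Units.mul_inv, one_pow, mul_one]
  have hXY' : X * Y = algebraMap A₀ B (π ^ (e * n')) *
      (algebraMap A₀ B (((w⁻¹ : A₀ˣ) : A₀) ^ n') * G) := by
    rw [← mul_assoc, ← map_mul, hπq, map_pow]
    exact hXY
  have hdeep' : π ^ (e * n') ∣ evP X := by
    rw [← hqπ]
    exact (Units.mul_right_dvd (u := w ^ n') (a := q ^ n') (b := evP X)).mpr hdeep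
  have hB := unip_vert_ev_dvd (A := A₀) 𝔫 𝔭 h𝔭 π hπ0 hπ𝔭 evP
    (fun b hb => unip_tubeEv_mem_of_dvd hinj hπ𝔫 hP evP hevP b hb)
    (fun α hα => by
      by_contra hnu
      have : α ∈ IsLocalRing.maximalIdeal A₀ := (IsLocalRing.mem_maximalIdeal _).mpr hnu
      rw [hπ.maximalIdeal_eq, Ideal.mem_span_singleton] at this
      exact hα this)
    X Y _ (e * n') hX hY hY𝔫 hXY' hgen hdeep' (e * n') le_rfl
  -- the translate `g⁻¹ X`
  obtain ⟨Xg, hXg⟩ := hgB₀' X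
  have hgXg : g • algebraMap B Lf Xg = algebraMap B Lf X := by
    rw [← hXg, smul_inv_smul]
  by_cases hX0 : X = 0
  · -- degenerate: `X = 0`, then `Xg = 0`
    have : Xg = 0 := by
      apply hinj
      rw [← hXg, hX0, map_zero, smul_zero]
    have h1 := unip_tubeEv_smul_gen g hgA P evP evQ hevP hevQ X Xg hgXg
    rw [this, map_zero, map_zero, smul_zero] at h1
    have : evQ X = 0 := unip_algebraMap_injective E (A₀ := A₀) (Lf := Lf) (by rw [← h1, map_zero])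
    rw [this]
    exact dvd_zero _
  have hXgL : algebraMap B Lf Xg ≠ 0 := by
    intro h
    apply hX0
    apply hinj
    rw [← hgXg, h, smul_zero, map_zero]
  obtain ⟨s, s', hs, hs', hss⟩ := hgV (algebraMap B Lf Xg) hXgL
  rw [hgXg] at hss
  have hss' : s * X = s' * Xg := by
    apply hinj
    rw [map_mul, map_mul, ← hss]
    field_simp
  have hdvdXg : π ^ (e * n') ∣ evP Xg := by
    refine hB Xg (s' * Y) (s * (algebraMap A₀ B (((w⁻¹ : A₀ˣ) : A₀) ^ n') * G)) ?_ ?_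
    · exact fun h => (Ideal.IsPrime.mem_or_mem inferInstance h).elim hs' hY
    · linear_combination (-Y) * hss' + s * hXY'
  have hdvdXg' : q ^ n' ∣ evP Xg := by
    rw [← hπq]
    exact (Units.mul_right_dvd (u := (w⁻¹) ^ n') (a := π ^ (e * n')) (b := evP Xg)).mpr hdvdXg
  exact unip_dvd_of_smul g hgA q hgq n'
    (unip_tubeEv_smul_gen g hgA P evP evQ hevP hevQ X Xg hgXg) hdvdXg'

/-- **Coord, crossing point, general `g` (thick nodes included).**  `g` preserves the tube of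
`𝔫`, the constants `A₀`, `q`, and the valuations of the two branches `𝔭₁, 𝔭₂` through `𝔫`
(`hgV₁`, `hgV₂`: the hypothesis `hgV` of `ls_local_factor_chart`).  Stage data for every `n ≥ 1`
(`unip_morse_iter_vert` over the unramified chart, transported to `B`).  Then every rational
point `P` of the tube of `𝔫` with `g • P ≠ P` has a coordinate function. -/
theorem unip_coord_node_gen [IsNoetherianRing B] {π : A₀} (hπ : Irreducible π) (τ : Lf)
    (hτ : Transcendental E τ) [FiniteDimensional E⟮τ⟯ Lf]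
    (hinj : Function.Injective (algebraMap B Lf))
    (hB : ∀ x : Lf, x ∈ (algebraMap B Lf).range ↔ IsIntegral (Algebra.adjoin A₀ {τ}) x)
    (𝔫 : Ideal B) [𝔫.IsPrime] (hπ𝔫 : algebraMap A₀ B π ∈ 𝔫)
    (𝔭₁ 𝔭₂ : Ideal B) [𝔭₁.IsPrime] [𝔭₂.IsPrime] (h1 : 𝔭₁ ≤ 𝔫) (h2 : 𝔭₂ ≤ 𝔫)
    (hπ1 : algebraMap A₀ B π ∈ 𝔭₁) (hπ2 : algebraMap A₀ B π ∈ 𝔭₂)
    (g : SemilinearAut E Lf) (hgτ : g • τ = τ)
    (hgB : ∀ b : B, b ∈ 𝔫 → ∃ b' : B, b' ∈ 𝔫 ∧ g • algebraMap B Lf b = algebraMap B Lf b')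
    (hgB₀' : ∀ b : B, ∃ b' : B, g⁻¹ • algebraMap B Lf b = algebraMap B Lf b')
    (hgA : ∀ α : A₀, ∃ α' : A₀, g • algebraMap A₀ Lf α = algebraMap A₀ Lf α')
    (hgV₁ : ∀ f : Lf, f ≠ 0 →
      ∃ s s' : B, s ∉ 𝔭₁ ∧ s' ∉ 𝔭₁ ∧ algebraMap B Lf s * (g • f / f) = algebraMap B Lf s')
    (hgV₂ : ∀ f : Lf, f ≠ 0 →
      ∃ s s' : B, s ∉ 𝔭₂ ∧ s' ∉ 𝔭₂ ∧ algebraMap B Lf s * (g • f / f) = algebraMap B Lf s')
    (q : A₀) (hq0 : q ≠ 0) (hqπ : π ∣ q)
    (hgq : g • algebraMap A₀ Lf q = algebraMap A₀ Lf q)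
    (hstage : ∀ n : ℕ, 1 ≤ n → ∃ (n' : ℕ) (X Y G : B), X ∈ 𝔭₁ ∧ Y ∈ 𝔭₂ ∧ X ∉ 𝔭₂ ∧ Y ∉ 𝔭₁ ∧
      X * Y = algebraMap A₀ B q ^ n' * G ∧ NodesLocGen 𝔫 {algebraMap A₀ B π, X, Y} ∧
      (n ≤ n' ∨ G ∉ 𝔫))
    (P : Place E Lf) (hP : UnipTubePoint τ 𝔫 P) (hgP : g • P ≠ P) :
    ∃ f : Lf, f ≠ 0 ∧ P.ord f = 1 ∧
      ∀ Q : Place E Lf, 0 ≤ Q.ord τ → (∀ b : B, 0 < Q.ord (algebraMap B Lf b) → b ∈ 𝔫) →
        Q ≠ P → Q.ord f = 0 := by
  have hP' : UnipTubePoint τ 𝔫 (g • P) := hP.smul hinj g hgτ hgB hgB₀'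
  obtain ⟨evP, hevP⟩ := unip_exists_tubeEv hπ τ hinj hB 𝔫 hπ𝔫 P hP
  obtain ⟨evQ, hevQ⟩ := unip_exists_tubeEv hπ τ hinj hB 𝔫 hπ𝔫 (g • P) hP'
  by_contra hcon
  have hmaxP : ∀ b ∈ 𝔫, evP b ∈ IsLocalRing.maximalIdeal A₀ := fun b hb => by
    rw [hπ.maximalIdeal_eq, Ideal.mem_span_singleton]
    exact unip_tubeEv_dvd hπ hinj hP evP hevP b hb
  have hmaxQ : ∀ b ∈ 𝔫, evQ b ∈ IsLocalRing.maximalIdeal A₀ := fun b hb => by
    rw [hπ.maximalIdeal_eq, Ideal.mem_span_singleton]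
    exact unip_tubeEv_dvd hπ hinj hP' evQ hevQ b hb
  have key : ∀ n : ℕ, 1 ≤ n → ∀ b : B, evP b - evQ b ∈ Ideal.span ({q ^ n} : Set A₀) := by
    intro n hn b
    obtain ⟨n', X, Y, G, hX1, hY2, hX2, hY1, hXY, hgen, hthin⟩ := hstage n hn
    have hX : X ∈ 𝔫 := h1 hX1
    have hY : Y ∈ 𝔫 := h2 hY2
    rcases unip_coord_stage hπ τ hτ hinj hB 𝔫 hπ𝔫 q hq0 n' X Y G hX hY hXY hgen P hP evP hevP
      with h | ⟨hdX, hdY, hG⟩
    · exact absurd h hcon
    have hle : n ≤ n' := hthin.resolve_right (fun h => h hG)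
    have hgen' : NodesLocGen 𝔫 {algebraMap A₀ B π, Y, X} := by
      have : ({algebraMap A₀ B π, Y, X} : Set B) = {algebraMap A₀ B π, X, Y} := by
        rw [Set.pair_comm Y X]
      rw [this]
      exact hgen
    have hYX : Y * X = algebraMap A₀ B q ^ n' * G := by rw [mul_comm]; exact hXY
    have hdXQ' : q ^ n' ∣ evQ X :=
      unip_deep_smul hπ τ hinj 𝔫 hπ𝔫 𝔭₁ h1 hπ1 g hgB₀' hgA hgV₁ q hq0 hgq n' X Y G hX1 hY1 hY
        hXY hgen P hP evP evQ hevP hevQ hdX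
    have hdYQ' : q ^ n' ∣ evQ Y :=
      unip_deep_smul hπ τ hinj 𝔫 hπ𝔫 𝔭₂ h2 hπ2 g hgB₀' hgA hgV₂ q hq0 hgq n' Y X G hY2 hX2 hX
        hYX hgen' P hP evP evQ hevP hevQ hdY
    have hdX' : q ^ n ∣ evP X := (pow_dvd_pow q hle).trans hdX
    have hdY' : q ^ n ∣ evP Y := (pow_dvd_pow q hle).trans hdY
    have hdXQ : q ^ n ∣ evQ X := (pow_dvd_pow q hle).trans hdXQ'
    have hdYQ : q ^ n ∣ evQ Y := (pow_dvd_pow q hle).trans hdYQ'
    have hd := unip_dense_of_tubePoint hπ τ hinj hB 𝔫 hπ𝔫 P hP {X, Y}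
      (fun x hx => by
        rcases hx with rfl | rfl
        · exact hX
        · exact hY) hgen
    refine unip_eval_sub_mem_span_of_dense 𝔫 {X, Y} (q ^ n) hd evP evQ hmaxP hmaxQ
      (fun x hx => ?_) b
    rw [Ideal.mem_span_singleton]
    rcases hx with rfl | rfl
    · exact dvd_sub hdX' hdXQ
    · exact dvd_sub hdY' hdYQ
  have heq : ∀ b : B, evP b = evQ b := by
    intro b
    have h0 : evP b - evQ b ∈ (⨅ i : ℕ, IsLocalRing.maximalIdeal A₀ ^ i : Ideal A₀) := by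
      rw [Ideal.mem_iInf]
      intro n
      rcases Nat.eq_zero_or_pos n with h | h
      · rw [h, pow_zero, Ideal.one_eq_top]; exact Submodule.mem_top
      · have h1 := key n h b
        rw [Ideal.mem_span_singleton] at h1
        obtain ⟨c, hc⟩ := h1
        obtain ⟨q₁, hq₁⟩ := hqπ
        rw [hc, hq₁, mul_pow, hπ.maximalIdeal_eq, Ideal.span_singleton_pow]
        exact Ideal.mem_span_singleton.mpr ⟨q₁ ^ n * c, by ring⟩
    rw [Ideal.iInf_pow_eq_bot_of_isLocalRing (IsLocalRing.maximalIdeal A₀)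
      Ideal.IsPrime.ne_top'] at h0
    exact sub_eq_zero.mp (by simpa using h0)
  apply hgP
  refine unip_place_eq_of_le hπ τ hτ hB P (g • P) hP.ord_nonneg hP'.ord_nonneg (fun b hb => ?_)
  have hb0 : algebraMap B Lf b ≠ 0 := by
    intro h0
    rw [h0, Place.ord_zero] at hb
    exact lt_irrefl _ hb
  have h1 : evP b = 0 :=
    (unip_tubeEv_eq_zero_iff P evP hevP b).mpr ((unip_mem_nonunits_iff P _).mpr (Or.inr hb))
  have h2 : evQ b = 0 := by rw [← heq b, h1]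
  have h3 := (unip_tubeEv_eq_zero_iff (g • P) evQ hevQ b).mp h2
  rcases (unip_mem_nonunits_iff (g • P) _).mp h3 with h | h
  · exact absurd h hb0
  · exact h

end MainGen

end Fermat.Agent.UNIP


end ZBUNIP_009_2

/-! ### bundled: `Fermat.Agent.UNIP.CoordChart` -/
section ZBUNIP_009_3

/-!
# UNIP / AT-c2, STB-L — `hcoord` of `at_main_two` / `at_local_factor` on the charts `zchClosure {u}`

The hypotheses `hcoord` of helper84's `at_local_factor`, `at_main`, `at_main_two`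
(AbstractT.lean), in their exact shape, from the local data of U5:

* `unip_hcoord_disc` : at a smooth point, `𝔫 = (π, s)` locally;
* `unip_hcoord_node` : at a crossing point of the components `V c₁`, `V c₂`, from stage data
  (`unip_morse_iter_vert`), for ANY `g` preserving the tube, the constants and the two vertical
  valuations (thick nodes included; the coordinates need not be fixed by `g`).

Rationality of the moved points in the support (`hrat`, D8) is a hypothesis.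
-/

set_option autoImplicit false
set_option linter.style.haveILetI false
set_option linter.unusedSectionVars false
set_option linter.unusedVariables false

namespace Fermat.Agent.UNIP

open Polynomial IntermediateField Fermat.Agent.INJ AlgebraicCurve

section CoordChart

variable {A₀ E F : Type*} [CommRing A₀] [IsDomain A₀] [IsDiscreteValuationRing A₀]
  [Field E] [Algebra A₀ E] [IsFractionRing A₀ E] [CharZero E]
  [Field F] [Algebra E F] [Algebra A₀ F] [IsScalarTower A₀ E F]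
  {π : A₀} {κ : Type*}

/-- the chart facts `hinj`, `hB` for `B_u = zchClosure {u}` -/
theorem unip_chart_range (u : F) (y : F) :
    y ∈ (algebraMap ↥(zchClosure (A₀ := A₀) ({u} : Set F)) F).range ↔
      IsIntegral (Algebra.adjoin A₀ {u}) y := by
  constructor
  · rintro ⟨b, rfl⟩
    exact mem_zchClosure.mp b.2
  · intro hy
    exact ⟨⟨y, mem_zchClosure.mpr hy⟩, rfl⟩

/-- **`hcoord` at a smooth point** of the chart `u`. -/
theorem unip_hcoord_disc (hπ : Irreducible π) {u : F} (hu : Transcendental E u)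
    [FiniteDimensional E⟮u⟯ F] [IsNoetherianRing ↥(zchClosure (A₀ := A₀) ({u} : Set F))]
    (𝔫 : Ideal ↥(zchClosure (A₀ := A₀) ({u} : Set F))) [𝔫.IsPrime]
    (hπ𝔫 : algebraMap A₀ ↥(zchClosure (A₀ := A₀) ({u} : Set F)) π ∈ 𝔫)
    (s : ↥(zchClosure (A₀ := A₀) ({u} : Set F))) (hs : s ∈ 𝔫)
    (hgen : NodesLocGen 𝔫 {algebraMap A₀ ↥(zchClosure (A₀ := A₀) ({u} : Set F)) π, s})
    (g : SemilinearAut E F) {x : F}
    (hrat : ∀ P : Place E F, LsTube ↥(zchClosure (A₀ := A₀) ({u} : Set F)) u 𝔫 P →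
      g • P ≠ P → P.ord x ≠ 0 → ∀ f ∈ P.toValuationSubring,
        ∃ c : E, f - algebraMap E F c ∈ P.toValuationSubring.nonunits) :
    ∀ P : Place E F, LsTube ↥(zchClosure (A₀ := A₀) ({u} : Set F)) u 𝔫 P →
      g • P ≠ P → P.ord x ≠ 0 → ∃ f : F, f ≠ 0 ∧ P.ord f = 1 ∧
        ∀ Q : Place E F, LsTube ↥(zchClosure (A₀ := A₀) ({u} : Set F)) u 𝔫 Q → g • Q ≠ Q →
          Q ≠ P → Q.ord f = 0 := by
  intro P hP hgP hPx
  have hinj : Function.Injective (algebraMap ↥(zchClosure (A₀ := A₀) ({u} : Set F)) F) :=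
    Subtype.val_injective
  obtain ⟨f, hf0, hf1, hf⟩ := unip_coord_disc hπ u hu hinj (unip_chart_range u) 𝔫 hπ𝔫 s hs hgen P
    ⟨hP.1, hP.2, hrat P hP hgP hPx⟩
  exact ⟨f, hf0, hf1, fun Q hQ _ hQP => hf Q hQ.1 hQ.2 hQP⟩

/-- **`hcoord` at a crossing point** of the chart `u` (components `V c₁`, `V c₂`), general `g`,
thick nodes included. -/
theorem unip_hcoord_node (hπ : Irreducible π) {u : F} (hu : Transcendental E u)
    [FiniteDimensional E⟮u⟯ F] [IsNoetherianRing ↥(zchClosure (A₀ := A₀) ({u} : Set F))]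
    (V : κ → ValuationSubring F)
    (hBV : ∀ c (b : F), IsIntegral ↥(Algebra.adjoin A₀ {u}) b → b ∈ V c)
    (hπV : ∀ c, algebraMap A₀ F π ∈ (V c).nonunits)
    (hVloc : ∀ c (x : F), x ∈ V c → ∃ b s : F, IsIntegral ↥(Algebra.adjoin A₀ {u}) b ∧
      IsIntegral ↥(Algebra.adjoin A₀ {u}) s ∧ s ∉ (V c).nonunits ∧ s * x = b)
    (g : SemilinearAut E F) (hgu : g • u = u)
    (𝔫 : Ideal ↥(zchClosure (A₀ := A₀) ({u} : Set F))) [𝔫.IsPrime]
    (hπ𝔫 : algebraMap A₀ ↥(zchClosure (A₀ := A₀) ({u} : Set F)) π ∈ 𝔫)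
    (hgB : ∀ b : ↥(zchClosure (A₀ := A₀) ({u} : Set F)), b ∈ 𝔫 →
      ∃ b' : ↥(zchClosure (A₀ := A₀) ({u} : Set F)), b' ∈ 𝔫 ∧ g • (b : F) = b')
    (hgB₀' : ∀ b : F, IsIntegral ↥(Algebra.adjoin A₀ {u}) b →
      IsIntegral ↥(Algebra.adjoin A₀ {u}) (g⁻¹ • b))
    (hgV : ∀ c (f : F), f ≠ 0 → (V c).valuation (g • f / f) = 1)
    (hgA : ∀ α : A₀, ∃ α' : A₀, g • algebraMap A₀ F α = algebraMap A₀ F α')
    (q : A₀) (hq0 : q ≠ 0) (hqπ : π ∣ q) (hgq : g • algebraMap A₀ F q = algebraMap A₀ F q)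
    (c₁ c₂ : κ)
    (hc₁ : ∀ b : ↥(zchClosure (A₀ := A₀) ({u} : Set F)), (b : F) ∈ (V c₁).nonunits → b ∈ 𝔫)
    (hc₂ : ∀ b : ↥(zchClosure (A₀ := A₀) ({u} : Set F)), (b : F) ∈ (V c₂).nonunits → b ∈ 𝔫)
    (hstage : ∀ n : ℕ, 1 ≤ n → ∃ (n' : ℕ) (X Y G : ↥(zchClosure (A₀ := A₀) ({u} : Set F))),
      (X : F) ∈ (V c₁).nonunits ∧ (Y : F) ∈ (V c₂).nonunits ∧
      (X : F) ∉ (V c₂).nonunits ∧ (Y : F) ∉ (V c₁).nonunits ∧
      X * Y = algebraMap A₀ ↥(zchClosure (A₀ := A₀) ({u} : Set F)) q ^ n' * G ∧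
      NodesLocGen 𝔫 {algebraMap A₀ ↥(zchClosure (A₀ := A₀) ({u} : Set F)) π, X, Y} ∧
      (n ≤ n' ∨ G ∉ 𝔫))
    {x : F}
    (hrat : ∀ P : Place E F, LsTube ↥(zchClosure (A₀ := A₀) ({u} : Set F)) u 𝔫 P →
      g • P ≠ P → P.ord x ≠ 0 → ∀ f ∈ P.toValuationSubring,
        ∃ c : E, f - algebraMap E F c ∈ P.toValuationSubring.nonunits) :
    ∀ P : Place E F, LsTube ↥(zchClosure (A₀ := A₀) ({u} : Set F)) u 𝔫 P →
      g • P ≠ P → P.ord x ≠ 0 → ∃ f : F, f ≠ 0 ∧ P.ord f = 1 ∧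
        ∀ Q : Place E F, LsTube ↥(zchClosure (A₀ := A₀) ({u} : Set F)) u 𝔫 Q → g • Q ≠ Q →
          Q ≠ P → Q.ord f = 0 := by
  intro P hP hgP hPx
  set B := ↥(zchClosure (A₀ := A₀) ({u} : Set F)) with hBdef
  have hinj : Function.Injective (algebraMap B F) := Subtype.val_injective
  haveI h1p := at_crossingIdeal_isPrime (A₀ := A₀) (S := {u}) (V c₁) (hBV c₁)
  haveI h2p := at_crossingIdeal_isPrime (A₀ := A₀) (S := {u}) (V c₂) (hBV c₂)
  have hgB₁' : ∀ b : B, ∃ b' : B, g⁻¹ • algebraMap B F b = algebraMap B F b' := fun b =>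
    ⟨⟨g⁻¹ • (b : F), mem_zchClosure.mpr (hgB₀' _ (mem_zchClosure.mp b.2))⟩, rfl⟩
  have hgV' : ∀ c : κ, ∀ f : F, f ≠ 0 →
      ∃ s s' : B, s ∉ crossingIdeal (A₀ := A₀) {u} (V c) (hBV c) ∧
        s' ∉ crossingIdeal (A₀ := A₀) {u} (V c) (hBV c) ∧
        algebraMap B F s * (g • f / f) = algebraMap B F s' := by
    intro c f hf
    haveI := at_crossingIdeal_isPrime (A₀ := A₀) (S := {u}) (V c) (hBV c)
    refine ls_vertical_unit_of_valuation hinj _ (V c) ?_ (hgV c f hf)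
    intro y hy
    obtain ⟨b, s, hb, hs, hsV, hsy⟩ := hVloc c y hy
    exact ⟨⟨b, mem_zchClosure.mpr hb⟩, ⟨s, mem_zchClosure.mpr hs⟩, hsV, hsy⟩
  obtain ⟨f, hf0, hf1, hf⟩ := unip_coord_node_gen hπ u hu hinj (unip_chart_range u) 𝔫 hπ𝔫
    (crossingIdeal (A₀ := A₀) {u} (V c₁) (hBV c₁)) (crossingIdeal (A₀ := A₀) {u} (V c₂) (hBV c₂))
    (fun b hb => hc₁ b hb) (fun b hb => hc₂ b hb) (hπV c₁) (hπV c₂) g hgu hgB hgB₁' hgA
    (hgV' c₁) (hgV' c₂) q hq0 hqπ hgq hstage P ⟨hP.1, hP.2, hrat P hP hgP hPx⟩ hgP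
  exact ⟨f, hf0, hf1, fun Q hQ _ hQP => hf Q hQ.1 hQ.2 hQP⟩

end CoordChart

end Fermat.Agent.UNIP


end ZBUNIP_009_3

/-! ### bundled: `Fermat.Agent.STB.LocalFactor` -/
section ZBUNIP_009_4

/-!
# STB-L — the local factorisation (F) at a crossing point, for a general automorphism `g`

Phase 2 (S35) of item 34, plan STB, step (B2): `g := Φ = φ²` fixes the crossing point `𝔫`,
preserves the chart, the constants `A₀`, `q` and the two vertical valuations.  If the places of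
the tube of `𝔫` moved by `g` in the support of `x` have multiplicity divisible by `m` and are
rational, then

  `g x / x = ε · γ ^ m`,  `ε ∈ O_𝔫^×`,  `γ = g g₀ / g₀`.

`at_local_factor` (AT-c1, helper84) with `hcoord` from `unip_hcoord_node` (thick nodes included,
no `g`-fixed coordinates needed).  `stb_local_factor_disc` : the same at a smooth point.
-/

set_option autoImplicit false
set_option linter.style.haveILetI false
set_option linter.unusedSectionVars false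
set_option linter.unusedVariables false

namespace Fermat.Agent.STB

open Polynomial IntermediateField Fermat.Agent.INJ AlgebraicCurve Fermat.Agent.UNIP

section LocalFactor

variable {A₀ E F : Type*} [CommRing A₀] [IsDomain A₀] [IsDiscreteValuationRing A₀]
  [Field E] [Algebra A₀ E] [IsFractionRing A₀ E] [CharZero E]
  [Field F] [Algebra E F] [Algebra A₀ F] [IsScalarTower A₀ E F]
  {π : A₀} {κ : Type*}

/-- from the conclusion of `at_local_factor` to the form (F): `g x / x = ε γ ^ m` -/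
theorem stb_factor_form (g : SemilinearAut E F) {x g₀ e : F} (hx : x ≠ 0) (hg₀ : g₀ ≠ 0)
    (m : ℕ) (h : (g • (x / g₀ ^ m)) / (x / g₀ ^ m) = e) :
    g • g₀ / g₀ ≠ 0 ∧ g • x / x = e * (g • g₀ / g₀) ^ m := by
  have hgg₀ : g • g₀ ≠ 0 := by
    intro h0
    apply hg₀
    have := congrArg (fun y => g⁻¹ • y) h0
    simpa using this
  have hgx : g • (x / g₀ ^ m) = g • x / (g • g₀) ^ m := by
    rw [div_eq_mul_inv, div_eq_mul_inv, smul_mul', smul_inv'', smul_pow']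
  refine ⟨div_ne_zero hgg₀ hg₀, ?_⟩
  rw [← h, hgx, div_pow]
  have h1 : g₀ ^ m ≠ 0 := pow_ne_zero m hg₀
  have h2 : (g • g₀) ^ m ≠ 0 := pow_ne_zero m hgg₀
  field_simp

/-- **STB-L, (F) at a crossing point.** -/
theorem stb_local_factor (hπ : Irreducible π) {u : F} (hu : Transcendental E u)
    [FiniteDimensional E⟮u⟯ F] [Finite κ]
    [IsNoetherianRing ↥(zchClosure (A₀ := A₀) ({u} : Set F))]
    (V : κ → ValuationSubring F)
    (hBV : ∀ c (b : F), IsIntegral ↥(Algebra.adjoin A₀ {u}) b → b ∈ V c)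
    (hπV : ∀ c, algebraMap A₀ F π ∈ (V c).nonunits)
    (hSS1 : ∀ b : F, IsIntegral ↥(Algebra.adjoin A₀ {u}) b → (∀ c, b ∈ (V c).nonunits) →
      ∃ b' : F, IsIntegral ↥(Algebra.adjoin A₀ {u}) b' ∧ b = algebraMap A₀ F π * b')
    (hVloc : ∀ c (x : F), x ∈ V c → ∃ b s : F, IsIntegral ↥(Algebra.adjoin A₀ {u}) b ∧
      IsIntegral ↥(Algebra.adjoin A₀ {u}) s ∧ s ∉ (V c).nonunits ∧ s * x = b)
    (g : SemilinearAut E F) (hgu : g • u = u)
    (𝔫 : Ideal ↥(zchClosure (A₀ := A₀) ({u} : Set F))) [𝔫.IsPrime]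
    (hπ𝔫 : algebraMap A₀ ↥(zchClosure (A₀ := A₀) ({u} : Set F)) π ∈ 𝔫)
    (hgB : ∀ b : ↥(zchClosure (A₀ := A₀) ({u} : Set F)), b ∈ 𝔫 →
      ∃ b' : ↥(zchClosure (A₀ := A₀) ({u} : Set F)), b' ∈ 𝔫 ∧ g • (b : F) = b')
    (hgB' : ∀ b : ↥(zchClosure (A₀ := A₀) ({u} : Set F)), b ∈ 𝔫 →
      ∃ b' : ↥(zchClosure (A₀ := A₀) ({u} : Set F)), b' ∈ 𝔫 ∧ g⁻¹ • (b : F) = b')
    (hgB₀ : ∀ b : F, IsIntegral ↥(Algebra.adjoin A₀ {u}) b →
      IsIntegral ↥(Algebra.adjoin A₀ {u}) (g • b))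
    (hgB₀' : ∀ b : F, IsIntegral ↥(Algebra.adjoin A₀ {u}) b →
      IsIntegral ↥(Algebra.adjoin A₀ {u}) (g⁻¹ • b))
    (hgV : ∀ c (f : F), f ≠ 0 → (V c).valuation (g • f / f) = 1)
    (hgA : ∀ α : A₀, ∃ α' : A₀, g • algebraMap A₀ F α = algebraMap A₀ F α')
    (q : A₀) (hq0 : q ≠ 0) (hqπ : π ∣ q) (hgq : g • algebraMap A₀ F q = algebraMap A₀ F q)
    (c₁ c₂ : κ)
    (hc₁ : ∀ b : ↥(zchClosure (A₀ := A₀) ({u} : Set F)), (b : F) ∈ (V c₁).nonunits → b ∈ 𝔫)
    (hc₂ : ∀ b : ↥(zchClosure (A₀ := A₀) ({u} : Set F)), (b : F) ∈ (V c₂).nonunits → b ∈ 𝔫)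
    (hstage : ∀ n : ℕ, 1 ≤ n → ∃ (n' : ℕ) (X Y G : ↥(zchClosure (A₀ := A₀) ({u} : Set F))),
      (X : F) ∈ (V c₁).nonunits ∧ (Y : F) ∈ (V c₂).nonunits ∧
      (X : F) ∉ (V c₂).nonunits ∧ (Y : F) ∉ (V c₁).nonunits ∧
      X * Y = algebraMap A₀ ↥(zchClosure (A₀ := A₀) ({u} : Set F)) q ^ n' * G ∧
      NodesLocGen 𝔫 {algebraMap A₀ ↥(zchClosure (A₀ := A₀) ({u} : Set F)) π, X, Y} ∧
      (n ≤ n' ∨ G ∉ 𝔫))
    {x : F} (hx : x ≠ 0) (m : ℕ)
    (hfin : {P : Place E F | LsTube ↥(zchClosure (A₀ := A₀) ({u} : Set F)) u 𝔫 P ∧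
      g • P ≠ P ∧ P.ord x ≠ 0}.Finite)
    (hm : ∀ P : Place E F, LsTube ↥(zchClosure (A₀ := A₀) ({u} : Set F)) u 𝔫 P → g • P ≠ P →
      (m : ℤ) ∣ P.ord x)
    (hrat : ∀ P : Place E F, LsTube ↥(zchClosure (A₀ := A₀) ({u} : Set F)) u 𝔫 P →
      g • P ≠ P → P.ord x ≠ 0 → ∀ f ∈ P.toValuationSubring,
        ∃ c : E, f - algebraMap E F c ∈ P.toValuationSubring.nonunits) :
    ∃ γ ε : F, γ ≠ 0 ∧ ε ∈ ls_localSubring (F := F) 𝔫 ∧ ε⁻¹ ∈ ls_localSubring (F := F) 𝔫 ∧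
      g • x / x = ε * γ ^ m := by
  obtain ⟨g₀, e, hg₀, he, he', h⟩ := at_local_factor hπ hu V hBV hπV hSS1 hVloc g hgu 𝔫 hgB hgB'
    hgB₀ hgB₀' hgV hx m hfin hm
    (unip_hcoord_node hπ hu V hBV hπV hVloc g hgu 𝔫 hπ𝔫 hgB hgB₀' hgV hgA q hq0 hqπ hgq c₁ c₂
      hc₁ hc₂ hstage hrat)
  obtain ⟨hγ, hform⟩ := stb_factor_form g hx hg₀ m h
  exact ⟨_, e, hγ, he, he', hform⟩

/-- **STB-L, (F) at a smooth point fixed by `g`** (`𝔫 = (π, s)` locally). -/
theorem stb_local_factor_disc (hπ : Irreducible π) {u : F} (hu : Transcendental E u)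
    [FiniteDimensional E⟮u⟯ F] [Finite κ]
    [IsNoetherianRing ↥(zchClosure (A₀ := A₀) ({u} : Set F))]
    (V : κ → ValuationSubring F)
    (hBV : ∀ c (b : F), IsIntegral ↥(Algebra.adjoin A₀ {u}) b → b ∈ V c)
    (hπV : ∀ c, algebraMap A₀ F π ∈ (V c).nonunits)
    (hSS1 : ∀ b : F, IsIntegral ↥(Algebra.adjoin A₀ {u}) b → (∀ c, b ∈ (V c).nonunits) →
      ∃ b' : F, IsIntegral ↥(Algebra.adjoin A₀ {u}) b' ∧ b = algebraMap A₀ F π * b')
    (hVloc : ∀ c (x : F), x ∈ V c → ∃ b s : F, IsIntegral ↥(Algebra.adjoin A₀ {u}) b ∧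
      IsIntegral ↥(Algebra.adjoin A₀ {u}) s ∧ s ∉ (V c).nonunits ∧ s * x = b)
    (g : SemilinearAut E F) (hgu : g • u = u)
    (𝔫 : Ideal ↥(zchClosure (A₀ := A₀) ({u} : Set F))) [𝔫.IsPrime]
    (hπ𝔫 : algebraMap A₀ ↥(zchClosure (A₀ := A₀) ({u} : Set F)) π ∈ 𝔫)
    (hgB : ∀ b : ↥(zchClosure (A₀ := A₀) ({u} : Set F)), b ∈ 𝔫 →
      ∃ b' : ↥(zchClosure (A₀ := A₀) ({u} : Set F)), b' ∈ 𝔫 ∧ g • (b : F) = b')
    (hgB' : ∀ b : ↥(zchClosure (A₀ := A₀) ({u} : Set F)), b ∈ 𝔫 →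
      ∃ b' : ↥(zchClosure (A₀ := A₀) ({u} : Set F)), b' ∈ 𝔫 ∧ g⁻¹ • (b : F) = b')
    (hgB₀ : ∀ b : F, IsIntegral ↥(Algebra.adjoin A₀ {u}) b →
      IsIntegral ↥(Algebra.adjoin A₀ {u}) (g • b))
    (hgB₀' : ∀ b : F, IsIntegral ↥(Algebra.adjoin A₀ {u}) b →
      IsIntegral ↥(Algebra.adjoin A₀ {u}) (g⁻¹ • b))
    (hgV : ∀ c (f : F), f ≠ 0 → (V c).valuation (g • f / f) = 1)
    (s : ↥(zchClosure (A₀ := A₀) ({u} : Set F))) (hs : s ∈ 𝔫)
    (hgen : NodesLocGen 𝔫 {algebraMap A₀ ↥(zchClosure (A₀ := A₀) ({u} : Set F)) π, s})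
    {x : F} (hx : x ≠ 0) (m : ℕ)
    (hfin : {P : Place E F | LsTube ↥(zchClosure (A₀ := A₀) ({u} : Set F)) u 𝔫 P ∧
      g • P ≠ P ∧ P.ord x ≠ 0}.Finite)
    (hm : ∀ P : Place E F, LsTube ↥(zchClosure (A₀ := A₀) ({u} : Set F)) u 𝔫 P → g • P ≠ P →
      (m : ℤ) ∣ P.ord x)
    (hrat : ∀ P : Place E F, LsTube ↥(zchClosure (A₀ := A₀) ({u} : Set F)) u 𝔫 P →
      g • P ≠ P → P.ord x ≠ 0 → ∀ f ∈ P.toValuationSubring,
        ∃ c : E, f - algebraMap E F c ∈ P.toValuationSubring.nonunits) :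
    ∃ γ ε : F, γ ≠ 0 ∧ ε ∈ ls_localSubring (F := F) 𝔫 ∧ ε⁻¹ ∈ ls_localSubring (F := F) 𝔫 ∧
      g • x / x = ε * γ ^ m := by
  obtain ⟨g₀, e, hg₀, he, he', h⟩ := at_local_factor hπ hu V hBV hπV hSS1 hVloc g hgu 𝔫 hgB hgB'
    hgB₀ hgB₀' hgV hx m hfin hm (unip_hcoord_disc hπ hu 𝔫 hπ𝔫 s hs hgen g hrat)
  obtain ⟨hγ, hform⟩ := stb_factor_form g hx hg₀ m h
  exact ⟨_, e, hγ, he, he', hform⟩

end LocalFactor

end Fermat.Agent.STB


end ZBUNIP_009_4
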