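/- GENERATED FILE (helper35, build-time optimisation, NOTES/ZB.md): verbatim concatenation of the modules
   Fermat.Agent.UNIP.MGMain
   Fermat.Agent.UNIP.MGFinal
   Do not edit; do not import together with these modules. -/
import Fermat.Agent.ZB.UNIP_007
import Fermat.Agent.ZB.UNIP_034

/-! ### bundled: `Fermat.Agent.UNIP.MGMain` -/
section ZBUNIP_032_0

/-!
# UNIP MG-5, part 2: `at_main_two` in the concrete setting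

* `mg_place_eq_of_ord` : a place of `F_N(K₀) / K₀` is determined by its `ord`.
* `mg_hfin` : **hfin** — the divisor of `u₀ ∈ F_N(K₀)^×` has finite support.
* `mgc_main` : `at_main_two` at `A₀ := A′`, `E := E′`, `F := F′`, `t := j`, with the base
  hypotheses (G1) and the hypotheses on places (G4) discharged.
-/

set_option autoImplicit false
set_option linter.style.haveILetI false
set_option linter.unusedSectionVars false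
set_option linter.unusedVariables false

noncomputable section

namespace Fermat.Agent.UNIP

open ModularCurve AlgebraicCurve Fermat.Agent.ES Fermat.Agent.ES.G2 Fermat.Agent.INJ
open IntermediateField

section Places

variable (K₀ : IntermediateField ℚ NfQb) (N : ℕ)

/-- a place is determined by its order function -/
theorem mg_place_eq_of_ord {K F : Type*} [Field K] [Field F] [Algebra K F] {P Q : Place K F}
    (h : ∀ y : F, P.ord y = Q.ord y) : P = Q := by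
  apply Place.ext
  ext y
  by_cases hy : y = 0
  · subst hy
    simp
  · rw [← Fermat.Agent.S24.PlaceAux.ord_nonneg_iff P hy,
      ← Fermat.Agent.S24.PlaceAux.ord_nonneg_iff Q hy, h y]

/-- **hfin**: the divisor of a non-zero element of `F_N(K₀)` has finite support. -/
theorem mg_hfin [NeZero N] (u₀ : modularFunctionFieldFullC K₀ N) (hu : u₀ ≠ 0) :
    {P : Place K₀ (modularFunctionFieldFullC K₀ N) | P.ord u₀ ≠ 0}.Finite := by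
  classical
  have hu' : nfEmb K₀ N u₀ ≠ 0 := (map_ne_zero (nfEmb K₀ N)).mpr hu
  haveI := Fermat.Agent.ES.H.hasPrincipalDivisors_FF N
  obtain ⟨D, hD, -⟩ := HasPrincipalDivisors.exists_divisor (K := NfQb)
    (F := modularFunctionFieldBar N) (nfEmb K₀ N u₀) hu'
  choose e he using fun Q : Place K₀ (modularFunctionFieldFullC K₀ N) => mg_place_extend K₀ N Q
  have hinj : Function.Injective e := by
    intro P Q hPQ
    apply mg_place_eq_of_ord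
    intro y
    rw [← he P y, ← he Q y, hPQ]
  refine Set.Finite.subset (Set.Finite.preimage (hinj.injOn) D.support.finite_toSet) ?_
  intro P hP
  simp only [Set.mem_preimage, Finset.mem_coe, Finsupp.mem_support_iff]
  rw [hD (e P), he P u₀]
  exact hP

end Places

section Main

variable {A : ValuationSubring Qb} {K₁ : IntermediateField ℚ Qb} {N : ℕ} [NeZero N]
  [IsDiscreteValuationRing ↥(mgcA A K₁)]

/-- **`at_main_two` in the concrete setting** `A₀ := A′ = A ∩ E′`, `E := E′ = ℚ̄^I · K₁`,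
`F := F′ = F_N(E′)`, `t := j`; the base hypotheses (G1) and the hypotheses on places (G4) are
discharged; the hypotheses on the vertical valuations (G2), on the action of `σ`, `τ` on the
charts (G3) and on the coordinates (G5) remain. -/
theorem mgc_main {q : ℕ} (hq : q.Prime) (hA : A.LiesOverPrime q)
    {π : ↥(mgcA A K₁)} (hπ : Irreducible π)
    {p : ℕ} (hp : p.Prime) (hpq : p ≠ q)
    {κ : Type*} [Finite κ] (V : κ → ValuationSubring ↥(mgcF A K₁ N)) (c₁ c₂ : κ)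
    (hκ : ∀ c, c = c₁ ∨ c = c₂)
    (hBV₁ : ∀ c (b : ↥(mgcF A K₁ N)),
      IsIntegral ↥(Algebra.adjoin ↥(mgcA A K₁) {mgcT A K₁ N}) b → b ∈ V c)
    (hBV₂ : ∀ c (b : ↥(mgcF A K₁ N)),
      IsIntegral ↥(Algebra.adjoin ↥(mgcA A K₁) {(mgcT A K₁ N)⁻¹}) b → b ∈ V c)
    (hπV : ∀ c, algebraMap ↥(mgcA A K₁) ↥(mgcF A K₁ N) π ∈ (V c).nonunits)
    (hSS1 : ∀ b : ↥(mgcF A K₁ N),
      IsIntegral ↥(Algebra.adjoin ↥(mgcA A K₁) {mgcT A K₁ N}) b →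
      (∀ c, b ∈ (V c).nonunits) →
      ∃ b' : ↥(mgcF A K₁ N), IsIntegral ↥(Algebra.adjoin ↥(mgcA A K₁) {mgcT A K₁ N}) b' ∧
        b = algebraMap ↥(mgcA A K₁) ↥(mgcF A K₁ N) π * b')
    (harch : ∀ c (a x : ↥(mgcF A K₁ N)), a ∈ (V c).nonunits →
      ∃ n : ℕ, a ^ n * x ∈ (V c).nonunits)
    (hVloc₁ : ∀ c (x : ↥(mgcF A K₁ N)), x ∈ V c → ∃ b s : ↥(mgcF A K₁ N),
      IsIntegral ↥(Algebra.adjoin ↥(mgcA A K₁) {mgcT A K₁ N}) b ∧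
      IsIntegral ↥(Algebra.adjoin ↥(mgcA A K₁) {mgcT A K₁ N}) s ∧
      s ∉ (V c).nonunits ∧ s * x = b)
    (hVloc₂ : ∀ c (x : ↥(mgcF A K₁ N)), x ∈ V c → ∃ b s : ↥(mgcF A K₁ N),
      IsIntegral ↥(Algebra.adjoin ↥(mgcA A K₁) {(mgcT A K₁ N)⁻¹}) b ∧
      IsIntegral ↥(Algebra.adjoin ↥(mgcA A K₁) {(mgcT A K₁ N)⁻¹}) s ∧
      s ∉ (V c).nonunits ∧ s * x = b)
    (σ τ : Qb ≃ₐ[ℚ] Qb) (hσ : ∀ x ∈ mgcE A K₁, σ x ∈ mgcE A K₁)
    (hτ : ∀ x ∈ mgcE A K₁, τ x ∈ mgcE A K₁)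
    (hσB₁ : AtTrivMod π (mgcT A K₁ N) (mgcGal N σ hσ))
    (hσB₁' : AtTrivMod π (mgcT A K₁ N) (mgcGal N σ hσ)⁻¹)
    (hσB₂ : AtTrivMod π (mgcT A K₁ N)⁻¹ (mgcGal N σ hσ))
    (hσB₂' : AtTrivMod π (mgcT A K₁ N)⁻¹ (mgcGal N σ hσ)⁻¹)
    (hτB₁ : AtTrivMod π (mgcT A K₁ N) (mgcGal N τ hτ))
    (hτB₂ : AtTrivMod π (mgcT A K₁ N)⁻¹ (mgcGal N τ hτ))
    (hσV : ∀ c (f : ↥(mgcF A K₁ N)), f ≠ 0 →
      (V c).valuation (mgcGal N σ hσ • f / f) = 1)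
    (hτV : ∀ c (x : ↥(mgcF A K₁ N)), x ∈ V c → mgcGal N τ hτ • x - x ∈ (V c).nonunits)
    {u₀ : ↥(mgcF A K₁ N)} (hu : u₀ ≠ 0) (r : ℕ)
    (hdiv : ∀ P : Place NfQb (modularFunctionFieldBar N),
      ((p ^ r : ℕ) : ℤ) ∣ P.ord (nfEmb (mgcE A K₁) N u₀))
    (hcoord₁ : ∀ 𝔫 : AtPt (F := ↥(mgcF A K₁ N)) π (mgcT A K₁ N),
      ∀ P : Place ↥(mgcE A K₁) ↥(mgcF A K₁ N),
      LsTube ↥(zchClosure (A₀ := ↥(mgcA A K₁)) ({mgcT A K₁ N} : Set ↥(mgcF A K₁ N)))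
        (mgcT A K₁ N) 𝔫.1 P →
      mgcGal N σ hσ • P ≠ P → P.ord u₀ ≠ 0 →
      ∃ f : ↥(mgcF A K₁ N), f ≠ 0 ∧ P.ord f = 1 ∧
        ∀ Q : Place ↥(mgcE A K₁) ↥(mgcF A K₁ N),
        LsTube ↥(zchClosure (A₀ := ↥(mgcA A K₁)) ({mgcT A K₁ N} : Set ↥(mgcF A K₁ N)))
          (mgcT A K₁ N) 𝔫.1 Q →
        mgcGal N σ hσ • Q ≠ Q → Q ≠ P → Q.ord f = 0)
    (hcoord₂ : ∀ 𝔫 : AtPt (F := ↥(mgcF A K₁ N)) π (mgcT A K₁ N)⁻¹,
      ∀ P : Place ↥(mgcE A K₁) ↥(mgcF A K₁ N),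
      LsTube ↥(zchClosure (A₀ := ↥(mgcA A K₁)) ({(mgcT A K₁ N)⁻¹} : Set ↥(mgcF A K₁ N)))
        (mgcT A K₁ N)⁻¹ 𝔫.1 P →
      mgcGal N σ hσ • P ≠ P → P.ord u₀ ≠ 0 →
      ∃ f : ↥(mgcF A K₁ N), f ≠ 0 ∧ P.ord f = 1 ∧
        ∀ Q : Place ↥(mgcE A K₁) ↥(mgcF A K₁ N),
        LsTube ↥(zchClosure (A₀ := ↥(mgcA A K₁)) ({(mgcT A K₁ N)⁻¹} : Set ↥(mgcF A K₁ N)))
          (mgcT A K₁ N)⁻¹ 𝔫.1 Q →
        mgcGal N σ hσ • Q ≠ Q → Q ≠ P → Q.ord f = 0) :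
    ∃ k : ↥(mgcF A K₁ N), k ^ (p ^ r) = mgDD (mgcE A K₁) N σ τ hσ hτ u₀ := by
  haveI := mgc_finiteDimensional A K₁ N
  have hM : ((p : ℕ) : Qb) ∉ A.nonunits := by
    have := Fermat.Agent.S31.natCast_pow_not_mem_nonunits A hp hq (Ne.symm hpq) hA 1
    rwa [pow_one] at this
  have hE : beta0Field A ≤ mgcE A K₁ := le_sup_left
  obtain ⟨ζ, hζ⟩ := beta0Ring_exists_primitiveRoot (A := A) (K₀ := mgcE A K₁) hE hp.ne_zero hM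
  have hpu : IsUnit ((p : ℕ) : ↥(mgcA A K₁)) := beta0Ring_hpu hM
  have hunit := beta0Ring_hunit (A := A) (K₀ := mgcE A K₁) hq hA hE hp.ne_zero hM
  rw [← mgc_mgDD_eq]
  exact at_main_two hπ (mgc_transcendental A K₁ N) (mgc_hcl A K₁ N) hp hpu hζ hunit V c₁ c₂ hκ
    hBV₁ hBV₂ hπV hSS1 harch hVloc₁ hVloc₂ (mgcGal N σ hσ) (mgcGal N τ hτ)
    (mgc_smul_T N σ hσ) hσB₁ hσB₁' hσB₂ hσB₂' hτB₁ hτB₂ hσV hτV hu r
    (mg_hfin (mgcE A K₁) N u₀ hu) (mg_dvd_ord (mgcE A K₁) N _ u₀ hdiv) hcoord₁ hcoord₂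

end Main

end Fermat.Agent.UNIP

end
end ZBUNIP_032_0

/-! ### bundled: `Fermat.Agent.UNIP.MGFinal` -/
section ZBUNIP_032_1

/-!
# UNIP MG-5, part 3 (G6): `StmtUnipFieldPP` from the special-fibre data

* `MgcRat A K₁ N u₀` : the places in the Galois orbit of the support of `div u₀` are rational
  (conclusion of D8, `rat_exists_field_rational`).
* `MgcData A K₁ N σ τ hσ hτ` : the special-fibre inputs of `mgc_main` at `(A, K₁, σ, τ)`: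
  a uniformizer `π` of `A′`, the two vertical valuation rings `V true`, `V false` of `F′` with
  the hypotheses of `at_main_two` (MG-8), the triviality of `σ`, `τ` on the charts modulo `π`
  (G3), and the coordinates (G5) for every `u₀` with rational support.
* `stmtUnipFieldPP_of_data` : `MgcData` at every `(A, K₁, σ, τ)` ⇒ `StmtUnipFieldPP N q`.
-/

set_option autoImplicit false
set_option linter.style.haveILetI false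
set_option linter.unusedSectionVars false
set_option linter.unusedVariables false

noncomputable section

namespace Fermat.Agent.UNIP

open ModularCurve AlgebraicCurve Fermat.Agent.ES Fermat.Agent.ES.G2 Fermat.Agent.INJ
open IntermediateField

section Data

variable (A : ValuationSubring Qb) (K₁ : IntermediateField ℚ Qb) (N : ℕ) [NeZero N]

/-- the places in the Galois orbit of the support of `div u₀` are rational -/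
def MgcRat (u₀ : ↥(mgcF A K₁ N)) : Prop :=
  ∀ (Q : Place ↥(mgcE A K₁) ↥(mgcF A K₁ N)) (s : ↥(mgcE A K₁) ≃+* ↥(mgcE A K₁))
    (σ : Qb ≃ₐ[ℚ] Qb), (∀ a : ↥(mgcE A K₁), σ (a : Qb) = ((s a : ↥(mgcE A K₁)) : Qb)) →
    (mgGal N s • Q).ord u₀ ≠ 0 →
    ∀ f ∈ Q.toValuationSubring, ∃ c : ↥(mgcE A K₁),
      f - algebraMap ↥(mgcE A K₁) ↥(mgcF A K₁ N) c ∈ Q.toValuationSubring.nonunits

variable [IsDiscreteValuationRing ↥(mgcA A K₁)]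

/-- the special-fibre inputs of `mgc_main` at `(A, K₁, σ, τ)` -/
def MgcData (σ τ : Qb ≃ₐ[ℚ] Qb) (hσ : ∀ x ∈ mgcE A K₁, σ x ∈ mgcE A K₁)
    (hτ : ∀ x ∈ mgcE A K₁, τ x ∈ mgcE A K₁) : Prop :=
  ∃ (π : ↥(mgcA A K₁)) (V : Bool → ValuationSubring ↥(mgcF A K₁ N)),
    Irreducible π ∧
    (∀ c (b : ↥(mgcF A K₁ N)),
      IsIntegral ↥(Algebra.adjoin ↥(mgcA A K₁) {mgcT A K₁ N}) b → b ∈ V c) ∧
    (∀ c (b : ↥(mgcF A K₁ N)),
      IsIntegral ↥(Algebra.adjoin ↥(mgcA A K₁) {(mgcT A K₁ N)⁻¹}) b → b ∈ V c) ∧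
    (∀ c, algebraMap ↥(mgcA A K₁) ↥(mgcF A K₁ N) π ∈ (V c).nonunits) ∧
    (∀ b : ↥(mgcF A K₁ N),
      IsIntegral ↥(Algebra.adjoin ↥(mgcA A K₁) {mgcT A K₁ N}) b →
      (∀ c, b ∈ (V c).nonunits) →
      ∃ b' : ↥(mgcF A K₁ N), IsIntegral ↥(Algebra.adjoin ↥(mgcA A K₁) {mgcT A K₁ N}) b' ∧
        b = algebraMap ↥(mgcA A K₁) ↥(mgcF A K₁ N) π * b') ∧
    (∀ c (a x : ↥(mgcF A K₁ N)), a ∈ (V c).nonunits →
      ∃ n : ℕ, a ^ n * x ∈ (V c).nonunits) ∧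
    (∀ c (x : ↥(mgcF A K₁ N)), x ∈ V c → ∃ b s : ↥(mgcF A K₁ N),
      IsIntegral ↥(Algebra.adjoin ↥(mgcA A K₁) {mgcT A K₁ N}) b ∧
      IsIntegral ↥(Algebra.adjoin ↥(mgcA A K₁) {mgcT A K₁ N}) s ∧
      s ∉ (V c).nonunits ∧ s * x = b) ∧
    (∀ c (x : ↥(mgcF A K₁ N)), x ∈ V c → ∃ b s : ↥(mgcF A K₁ N),
      IsIntegral ↥(Algebra.adjoin ↥(mgcA A K₁) {(mgcT A K₁ N)⁻¹}) b ∧
      IsIntegral ↥(Algebra.adjoin ↥(mgcA A K₁) {(mgcT A K₁ N)⁻¹}) s ∧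
      s ∉ (V c).nonunits ∧ s * x = b) ∧
    AtTrivMod π (mgcT A K₁ N) (mgcGal N σ hσ) ∧
    AtTrivMod π (mgcT A K₁ N) (mgcGal N σ hσ)⁻¹ ∧
    AtTrivMod π (mgcT A K₁ N)⁻¹ (mgcGal N σ hσ) ∧
    AtTrivMod π (mgcT A K₁ N)⁻¹ (mgcGal N σ hσ)⁻¹ ∧
    AtTrivMod π (mgcT A K₁ N) (mgcGal N τ hτ) ∧
    AtTrivMod π (mgcT A K₁ N)⁻¹ (mgcGal N τ hτ) ∧
    (∀ c (f : ↥(mgcF A K₁ N)), f ≠ 0 → (V c).valuation (mgcGal N σ hσ • f / f) = 1) ∧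
    (∀ c (x : ↥(mgcF A K₁ N)), x ∈ V c → mgcGal N τ hτ • x - x ∈ (V c).nonunits) ∧
    ∀ u₀ : ↥(mgcF A K₁ N), u₀ ≠ 0 → MgcRat A K₁ N u₀ →
      (∀ 𝔫 : AtPt (F := ↥(mgcF A K₁ N)) π (mgcT A K₁ N),
        ∀ P : Place ↥(mgcE A K₁) ↥(mgcF A K₁ N),
        LsTube ↥(zchClosure (A₀ := ↥(mgcA A K₁)) ({mgcT A K₁ N} : Set ↥(mgcF A K₁ N)))
          (mgcT A K₁ N) 𝔫.1 P →
        mgcGal N σ hσ • P ≠ P → P.ord u₀ ≠ 0 →
        ∃ f : ↥(mgcF A K₁ N), f ≠ 0 ∧ P.ord f = 1 ∧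
          ∀ Q : Place ↥(mgcE A K₁) ↥(mgcF A K₁ N),
          LsTube ↥(zchClosure (A₀ := ↥(mgcA A K₁)) ({mgcT A K₁ N} : Set ↥(mgcF A K₁ N)))
            (mgcT A K₁ N) 𝔫.1 Q →
          mgcGal N σ hσ • Q ≠ Q → Q ≠ P → Q.ord f = 0) ∧
      (∀ 𝔫 : AtPt (F := ↥(mgcF A K₁ N)) π (mgcT A K₁ N)⁻¹,
        ∀ P : Place ↥(mgcE A K₁) ↥(mgcF A K₁ N),
        LsTube ↥(zchClosure (A₀ := ↥(mgcA A K₁)) ({(mgcT A K₁ N)⁻¹} : Set ↥(mgcF A K₁ N)))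
          (mgcT A K₁ N)⁻¹ 𝔫.1 P →
        mgcGal N σ hσ • P ≠ P → P.ord u₀ ≠ 0 →
        ∃ f : ↥(mgcF A K₁ N), f ≠ 0 ∧ P.ord f = 1 ∧
          ∀ Q : Place ↥(mgcE A K₁) ↥(mgcF A K₁ N),
          LsTube ↥(zchClosure (A₀ := ↥(mgcA A K₁)) ({(mgcT A K₁ N)⁻¹} : Set ↥(mgcF A K₁ N)))
            (mgcT A K₁ N)⁻¹ 𝔫.1 Q →
          mgcGal N σ hσ • Q ≠ Q → Q ≠ P → Q.ord f = 0)

end Data

/-- **G6.**  `StmtUnipFieldPP N q` from the special-fibre data at every `(A, K₁, σ, τ)`. -/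
theorem stmtUnipFieldPP_of_data (N : ℕ) [NeZero N] (q : ℕ) (hq : q.Prime)
    (h : ∀ (A : ValuationSubring Qb) (hA : A.LiesOverPrime q) (K₁ : IntermediateField ℚ Qb)
      [NumberField K₁] [IsGalois ℚ K₁] [IsDiscreteValuationRing ↥(mgcA A K₁)]
      (σ : Qb ≃ₐ[ℚ] Qb) (_ : σ ∈ A.inertiaSubgroupIn ℚ)
      (τ : Qb ≃ₐ[ℚ] Qb) (_ : τ ∈ A.inertiaSubgroupIn ℚ)
      (hσ : ∀ x ∈ mgcE A K₁, σ x ∈ mgcE A K₁) (hτ : ∀ x ∈ mgcE A K₁, τ x ∈ mgcE A K₁),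
      MgcData A K₁ N σ τ hσ hτ) : StmtUnipFieldPP N q := by
  intro A hA p hp hpq r σ hσI τ hτI u hu hdiv
  -- a number field of definition of `u`
  obtain ⟨K', hK'fin, -, hK'⟩ := mg_exists_descent (N := N) ∅ u.2
  -- rationality of the support (D8)
  obtain ⟨K₁, hK'K₁, hK₁fin, hK₁gal, hrat⟩ := rat_exists_field_rational N u hu K' hK'fin
  haveI : NumberField K₁ := @NumberField.mk _ _ inferInstance hK₁fin
  haveI : IsGalois ℚ K₁ := hK₁gal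
  haveI : Normal ℚ K₁ := hK₁gal.to_normal
  haveI : IsDiscreteValuationRing ↥(mgcA A K₁) := beta0Ring_isDVR_sup K₁ hq hA
  have hK₁E : K₁ ≤ mgcE A K₁ := le_sup_right
  obtain ⟨u₀, hu₀⟩ := hK' (mgcE A K₁) (hK'K₁.trans hK₁E)
  have hu₀' : nfEmb (mgcE A K₁) N u₀ = u := hu₀
  have hσ : ∀ x ∈ mgcE A K₁, σ x ∈ mgcE A K₁ := mga_stable_beta0_sup hσI K₁
  have hτ : ∀ x ∈ mgcE A K₁, τ x ∈ mgcE A K₁ := mga_stable_beta0_sup hτI K₁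
  have hu₀0 : u₀ ≠ 0 := by
    rintro rfl
    apply hu
    rw [← hu₀', map_zero]
  obtain ⟨π, V, hπ, hBV₁, hBV₂, hπV, hSS1, harch, hVloc₁, hVloc₂, hσB₁, hσB₁', hσB₂, hσB₂',
    hτB₁, hτB₂, hσV, hτV, hcoord⟩ := h A hA K₁ σ hσI τ hτI hσ hτ
  have hR : MgcRat A K₁ N u₀ := fun Q s σ' hs hQ f hf =>
    hrat (mgcE A K₁) hK₁E u₀ hu₀' Q s σ' hs hQ f hf
  obtain ⟨hc₁, hc₂⟩ := hcoord u₀ hu₀0 hR
  refine ⟨mgcE A K₁, hσ, hτ, u₀, hu₀', ?_⟩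
  exact mgc_main hq hA hπ hp hpq V true false
    (fun c => by cases c <;> simp) hBV₁ hBV₂ hπV hSS1 harch hVloc₁ hVloc₂ σ τ hσ hτ
    hσB₁ hσB₁' hσB₂ hσB₂' hτB₁ hτB₂ hσV hτV hu₀0 r (by rw [hu₀']; exact hdiv) hc₁ hc₂

/-- **MG-5, final form.**  `StmtUnipKummer` from the special-fibre data at the levels `N`,
`q ∥ N`, where the base line of the INJ/KEY route exists. -/
theorem stmtUnipKummer_of_data
    (h : ∀ (N : ℕ) [NeZero N] (q : ℕ), q.Prime → q ∣ N → ¬ q ^ 2 ∣ N →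
      (q = 2 → 3 ∣ N) → (q = 3 → 2 ∣ N) →
      ∀ (A : ValuationSubring Qb) (hA : A.LiesOverPrime q) (K₁ : IntermediateField ℚ Qb)
      [NumberField K₁] [IsGalois ℚ K₁] [IsDiscreteValuationRing ↥(mgcA A K₁)]
      (σ : Qb ≃ₐ[ℚ] Qb) (_ : σ ∈ A.inertiaSubgroupIn ℚ)
      (τ : Qb ≃ₐ[ℚ] Qb) (_ : τ ∈ A.inertiaSubgroupIn ℚ)
      (hσ : ∀ x ∈ mgcE A K₁, σ x ∈ mgcE A K₁) (hτ : ∀ x ∈ mgcE A K₁, τ x ∈ mgcE A K₁),
      MgcData A K₁ N σ τ hσ hτ) : StmtUnipKummer :=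
  stmtUnipKummer_of_fieldPP fun N _ q hq hqN hq2 h2 h3 =>
    stmtUnipFieldPP_of_data N q hq fun A hA K₁ _ _ _ σ hσI τ hτI hσ hτ =>
      h N q hq hqN hq2 h2 h3 A hA K₁ σ hσI τ hτI hσ hτ

end Fermat.Agent.UNIP

end
end ZBUNIP_032_1
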