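/- GENERATED FILE (helper35, build-time optimisation, NOTES/ZB.md): verbatim concatenation of the modules
   Fermat.Agent.W1.HopfLinAlg
   Fermat.Agent.W1.HopfOfLattice
   Fermat.Agent.W1.LocalToGlobal
   Fermat.Agent.W1.LocalToGlobalFinal
   Fermat.Agent.W1.SubQuotBasic
   Fermat.Agent.W1.SubQuotLin
   Fermat.Agent.W1.SubQuotQuot
   Fermat.Agent.W1.SubQuot
   Do not edit; do not import together with these modules. -/
import Mathlib
import Fermat.Agent.ZB.UNIP_032
import Fermat.Agent.ZB.W1_001
import Fermat.Agent.ZB.S28_005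
import Fermat.Prelude.Def_GaloisRep_Flat

/-! ### bundled: `Fermat.Agent.W1.HopfLinAlg` -/
section ZBW1_003_0

/-!
# W1-GL(a), linear algebra: Artin's lemma for equivariant functions, products, interpolation

`K = AlgebraicClosure ℚ`, `G = K ≃ₐ[ℚ] K`.

* `linearIndependent_qbar_of_rat` : a family of Galois equivariant functions `X → K` that is
  linearly independent over `ℚ` is linearly independent over `K`.
* `linearIndependent_prod_fun` : products `(x, y) ↦ f i x * g j y` of two linearly independent
  families of functions are linearly independent.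
* `span_eq_top_of_separates` : over a finite set, a `K`-subspace of functions that is closed under
  multiplication, contains `1` and separates points is everything.
-/

set_option autoImplicit false

namespace Fermat.Agent.W1

/-- `ℚ̄/ℚ` is Galois, for the `Algebra ℚ ℚ̄` instance found by unification. -/
theorem w1_qbar_isGalois : IsGalois ℚ (AlgebraicClosure ℚ) := by
  have h1 : @IsGalois ℚ _ (AlgebraicClosure ℚ) _ (AlgebraicClosure.instAlgebra ℚ) :=
    inferInstance
  convert h1
  exact Subsingleton.elim _ _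

/-- An element of `ℚ̄` fixed by the whole Galois group is rational. -/
theorem w1_exists_rat_of_fixed (x : AlgebraicClosure ℚ)
    (hx : ∀ σ : AlgebraicClosure ℚ ≃ₐ[ℚ] AlgebraicClosure ℚ, σ x = x) :
    ∃ q : ℚ, algebraMap ℚ (AlgebraicClosure ℚ) q = x := by
  have := w1_qbar_isGalois
  exact (InfiniteGalois.mem_range_algebraMap_iff_fixed x).2 hx

/-- **Artin's lemma** for equivariant functions: linear independence over `ℚ` implies linear
independence over `ℚ̄`. -/
theorem linearIndependent_qbar_of_rat {X ι : Type*}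
    (act : (AlgebraicClosure ℚ ≃ₐ[ℚ] AlgebraicClosure ℚ) → X → X)
    (h : ι → X → AlgebraicClosure ℚ)
    (hequiv : ∀ i (σ : AlgebraicClosure ℚ ≃ₐ[ℚ] AlgebraicClosure ℚ) (x : X),
      h i (act σ x) = σ (h i x))
    (hQ : LinearIndependent ℚ h) : LinearIndependent (AlgebraicClosure ℚ) h := by
  classical
  rw [linearIndependent_iff']
  intro s
  induction s using Finset.induction_on with
  | empty => intro g _ i hi; simp at hi
  | insert a s has ih =>
    intro g hg
    -- twisting a relation by `σ`
    have twist : ∀ (t : Finset ι) (c : ι → AlgebraicClosure ℚ),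
        ∑ i ∈ t, c i • h i = 0 →
        ∀ σ : AlgebraicClosure ℚ ≃ₐ[ℚ] AlgebraicClosure ℚ, ∑ i ∈ t, (σ (c i)) • h i = 0 := by
      intro t c hc σ
      funext x
      have h1 := congrFun hc (act σ.symm x)
      simp only [Finset.sum_apply, Pi.smul_apply, smul_eq_mul, Pi.zero_apply] at h1 ⊢
      have h2 := congrArg σ h1
      simp only [map_sum, map_mul, map_zero] at h2
      rw [← h2]
      refine Finset.sum_congr rfl fun i _ => ?_
      rw [hequiv i σ.symm x]
      simp
    by_cases hga : g a = 0
    · -- reduce to `s`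
      have hs : ∑ i ∈ s, g i • h i = 0 := by
        rw [Finset.sum_insert has, hga, zero_smul, zero_add] at hg
        exact hg
      intro i hi
      rcases Finset.mem_insert.1 hi with rfl | hi
      · exact hga
      · exact ih g hs i hi
    · exfalso
      -- normalise
      set c : ι → AlgebraicClosure ℚ := fun i => (g a)⁻¹ * g i with hc
      have hca : c a = 1 := by simp [hc, hga]
      have hcrel : ∑ i ∈ insert a s, c i • h i = 0 := by
        have : ∑ i ∈ insert a s, c i • h i = (g a)⁻¹ • ∑ i ∈ insert a s, g i • h i := by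
          rw [Finset.smul_sum]
          refine Finset.sum_congr rfl fun i _ => ?_
          simp [hc, mul_smul]
        rw [this, hg, smul_zero]
      -- all coefficients are fixed
      have hfix : ∀ i ∈ insert a s, ∀ σ : AlgebraicClosure ℚ ≃ₐ[ℚ] AlgebraicClosure ℚ,
          σ (c i) = c i := by
        intro i hi σ
        have h1 := twist _ c hcrel σ
        have h2 : ∑ i ∈ s, (σ (c i) - c i) • h i = 0 := by
          have h3 : ∑ i ∈ insert a s, (σ (c i) - c i) • h i = 0 := by
            simp only [sub_smul, Finset.sum_sub_distrib, h1, hcrel, sub_zero]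
          rw [Finset.sum_insert has, hca, map_one, sub_self, zero_smul, zero_add] at h3
          exact h3
        rcases Finset.mem_insert.1 hi with rfl | hi
        · rw [hca, map_one]
        · exact sub_eq_zero.1 (ih _ h2 i hi)
      choose! q hq using fun i (hi : i ∈ insert a s) =>
        w1_exists_rat_of_fixed (c i) (hfix i hi)
      have hqrel : ∑ i ∈ insert a s, q i • h i = 0 := by
        rw [← hcrel]
        refine Finset.sum_congr rfl fun i hi => ?_
        rw [← hq i hi]
        funext x
        simp [Algebra.smul_def]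
      have := linearIndependent_iff'.1 hQ _ q hqrel a (Finset.mem_insert_self a s)
      have h1 := hq a (Finset.mem_insert_self a s)
      rw [this, map_zero, hca] at h1
      exact zero_ne_one h1

/-- Products of two linearly independent families of functions are linearly independent. -/
theorem linearIndependent_prod_fun {K X Y ι κ : Type*} [Field K]
    (f : ι → X → K) (g : κ → Y → K)
    (hf : LinearIndependent K f) (hg : LinearIndependent K g) :
    LinearIndependent K (fun ij : ι × κ => fun xy : X × Y => f ij.1 xy.1 * g ij.2 xy.2) := by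
  classical
  rw [linearIndependent_iff']
  intro s c hc ij hij
  -- enlarge `s` to a product
  set s1 := s.image Prod.fst
  set s2 := s.image Prod.snd
  set c' : ι × κ → K := fun p => if p ∈ s then c p else 0 with hc'
  have hsub : s ⊆ s1 ×ˢ s2 := by
    intro p hp
    exact Finset.mem_product.2 ⟨Finset.mem_image_of_mem _ hp, Finset.mem_image_of_mem _ hp⟩
  have hrel : ∀ x y, ∑ i ∈ s1, (∑ j ∈ s2, c' (i, j) * g j y) * f i x = 0 := by
    intro x y
    have h1 := congrFun hc (x, y)
    simp only [Finset.sum_apply, Pi.smul_apply, smul_eq_mul, Pi.zero_apply] at h1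
    have h2 : ∑ p ∈ s1 ×ˢ s2, c' p * (f p.1 x * g p.2 y) = 0 := by
      rw [← h1]
      symm
      refine Finset.sum_subset_zero_on_sdiff hsub ?_ ?_
      · intro p hp
        have : p ∉ s := (Finset.mem_sdiff.1 hp).2
        simp [hc', this]
      · intro p hp
        simp [hc', hp]
    rw [Finset.sum_product] at h2
    rw [← h2]
    refine Finset.sum_congr rfl fun i _ => ?_
    rw [Finset.sum_mul]
    refine Finset.sum_congr rfl fun j _ => ?_
    ring
  -- first use independence of `f`
  have h3 : ∀ y, ∀ i ∈ s1, ∑ j ∈ s2, c' (i, j) * g j y = 0 := by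
    intro y
    refine linearIndependent_iff'.1 hf s1 (fun i => ∑ j ∈ s2, c' (i, j) * g j y) ?_
    funext x
    simpa [Finset.sum_apply] using hrel x y
  -- then independence of `g`
  have h4 : ∀ i ∈ s1, ∀ j ∈ s2, c' (i, j) = 0 := by
    intro i hi
    refine linearIndependent_iff'.1 hg s2 (fun j => c' (i, j)) ?_
    funext y
    simpa [Finset.sum_apply] using h3 y i hi
  have h5 := h4 ij.1 (Finset.mem_image_of_mem _ hij) ij.2 (Finset.mem_image_of_mem _ hij)
  simpa [hc', hij] using h5

end Fermat.Agent.W1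


end ZBW1_003_0

/-! ### bundled: `Fermat.Agent.W1.HopfOfLattice` -/
section ZBW1_003_1

/-!
# W1-GL(a): a Hopf lattice of equivariant functions is a finite flat Hopf algebra

Proof of `HopfOfLatticeStatement` (see `PlanGL.lean`).

Plan: an `R`-basis of the lattice `H` is linearly independent over `ℚ̄` (Artin), hence the
multiplication maps `H ⊗ H → Map(M × M, ℚ̄)`, `H ⊗ (H ⊗ H) → Map(M × (M × M), ℚ̄)` are injective.
All Hopf algebra identities are then checked pointwise on functions.
-/

set_option autoImplicit false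
set_option linter.unusedSectionVars false
set_option linter.unusedSimpArgs false
set_option linter.style.haveILetI false

open TensorProduct

namespace Fermat.Agent.W1

section Pull

variable (R : Subring ℚ)

/-- Pull-back of functions along a map, as an algebra homomorphism. -/
noncomputable def pullFn {X Y : Type} (p : Y → X) :
    (X → AlgebraicClosure ℚ) →ₐ[R] (Y → AlgebraicClosure ℚ) :=
  AlgHom.pi (fun y => Pi.evalAlgHom R (fun _ : X => AlgebraicClosure ℚ) (p y))

@[simp] theorem pullFn_apply {X Y : Type} (p : Y → X) (f : X → AlgebraicClosure ℚ) (y : Y) :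
    pullFn R p f y = f (p y) := rfl

end Pull

section Main

variable {R : Subring ℚ} {M : Type} [AddCommGroup M]
  {act : (AlgebraicClosure ℚ ≃ₐ[ℚ] AlgebraicClosure ℚ) → M → M}
  {H : Subalgebra R (M → AlgebraicClosure ℚ)}

/-- The algebra map `R → ℚ̄` is injective. -/
theorem algebraMap_R_injective :
    Function.Injective (algebraMap R (AlgebraicClosure ℚ)) := by
  intro x y hxy
  rw [IsScalarTower.algebraMap_apply R ℚ (AlgebraicClosure ℚ),
    IsScalarTower.algebraMap_apply R ℚ (AlgebraicClosure ℚ)] at hxy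
  exact Subtype.ext ((algebraMap ℚ (AlgebraicClosure ℚ)).injective hxy)

/-- The lattice is torsion free. -/
theorem isTorsionFree_lattice (H : Subalgebra R (M → AlgebraicClosure ℚ)) :
    Module.IsTorsionFree R H := by
  refine Module.IsTorsionFree.of_smul_eq_zero fun r h hrh => ?_
  by_cases hr : r = 0
  · exact Or.inl hr
  · right
    apply Subtype.ext
    funext P
    have h1 : r • ((h : M → AlgebraicClosure ℚ) P) = 0 :=
      congrArg (fun x : H => (x : M → AlgebraicClosure ℚ) P) hrh
    rw [Algebra.smul_def] at h1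
    rcases mul_eq_zero.1 h1 with h2 | h2
    · exact absurd (algebraMap_R_injective (by simpa using h2)) hr
    · simpa using h2

/-- The evaluation at a point, an algebra homomorphism `H → ℚ̄`. -/
noncomputable def evPt (H : Subalgebra R (M → AlgebraicClosure ℚ)) (P : M) :
    H →ₐ[R] AlgebraicClosure ℚ :=
  (Pi.evalAlgHom R (fun _ : M => AlgebraicClosure ℚ) P).comp H.val

@[simp] theorem evPt_apply (P : M) (h : H) : evPt H P h = (h : M → AlgebraicClosure ℚ) P := rfl

/-- The multiplication map `H ⊗ H → Map(M × M, ℚ̄)`. -/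
noncomputable def mu2 (H : Subalgebra R (M → AlgebraicClosure ℚ)) :
    H ⊗[R] H →ₐ[R] (M × M → AlgebraicClosure ℚ) :=
  Algebra.TensorProduct.lift ((pullFn R (Prod.fst : M × M → M)).comp H.val)
    ((pullFn R (Prod.snd : M × M → M)).comp H.val) (fun _ _ => Commute.all _ _)

@[simp] theorem mu2_tmul (a b : H) (PQ : M × M) :
    mu2 H (a ⊗ₜ[R] b) PQ = (a : M → AlgebraicClosure ℚ) PQ.1 * (b : M → AlgebraicClosure ℚ) PQ.2 := by
  simp [mu2, Algebra.TensorProduct.lift_tmul]

/-- The multiplication map `H ⊗ (H ⊗ H) → Map(M × (M × M), ℚ̄)`. -/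
noncomputable def mu3 (H : Subalgebra R (M → AlgebraicClosure ℚ)) :
    H ⊗[R] (H ⊗[R] H) →ₐ[R] (M × (M × M) → AlgebraicClosure ℚ) :=
  Algebra.TensorProduct.lift ((pullFn R (Prod.fst : M × (M × M) → M)).comp H.val)
    ((pullFn R (Prod.snd : M × (M × M) → M × M)).comp (mu2 H)) (fun _ _ => Commute.all _ _)

@[simp] theorem mu3_tmul (a : H) (t : H ⊗[R] H) (x : M × (M × M)) :
    mu3 H (a ⊗ₜ[R] t) x = (a : M → AlgebraicClosure ℚ) x.1 * mu2 H t x.2 := by
  simp [mu3, Algebra.TensorProduct.lift_tmul]

/-- A linear map to functions which sends a basis to a family linearly independent over `ℚ̄`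
is injective. -/
theorem injective_of_basis_indep {V : Type} [AddCommGroup V] [Module R V] {ι : Type}
    [Fintype ι] (b : Module.Basis ι R V) {X : Type} (f : V →ₗ[R] (X → AlgebraicClosure ℚ))
    (hf : LinearIndependent (AlgebraicClosure ℚ) (fun i => f (b i))) : Function.Injective f := by
  rw [injective_iff_map_eq_zero]
  intro t ht
  have h1 : t = ∑ i, b.repr t i • b i := (b.sum_repr t).symm
  have h2 : ∑ i, (algebraMap R (AlgebraicClosure ℚ) (b.repr t i)) • f (b i) = 0 := by
    rw [← ht]
    conv_rhs => rw [h1]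
    rw [map_sum]
    refine Finset.sum_congr rfl fun i _ => ?_
    rw [map_smul]
    funext x
    simp [Algebra.smul_def]
  have h3 := Fintype.linearIndependent_iff.1 hf _ h2
  have h4 : ∀ i, b.repr t i = 0 := fun i =>
    algebraMap_R_injective (by rw [h3 i, map_zero])
  rw [h1]
  simp [h4]

variable [IsPrincipalIdealRing R] [IsFractionRing R ℚ]

/-- A Hopf lattice has an `R`-basis which is linearly independent over `ℚ̄`. -/
theorem exists_basis_linearIndependent (hH : IsHopfLattice R act H) :
    ∃ (n : ℕ) (b : Module.Basis (Fin n) R H),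
      LinearIndependent (AlgebraicClosure ℚ)
        (fun i => ((b i : H) : M → AlgebraicClosure ℚ)) := by
  haveI : Module.Finite R H := Module.Finite.iff_fg.2 hH.fg
  haveI : Module.IsTorsionFree R H := isTorsionFree_lattice H
  haveI : Module.Free R H := Module.free_of_finite_type_torsion_free'
  refine ⟨_, Module.finBasis R H, ?_⟩
  set b := Module.finBasis R H
  have h1 : LinearIndependent R (fun i => ((b i : H) : M → AlgebraicClosure ℚ)) := by
    have := b.linearIndependent.map' (Subalgebra.toSubmodule H).subtype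
      (Submodule.ker_subtype _)
    exact this
  have h2 : LinearIndependent ℚ (fun i => ((b i : H) : M → AlgebraicClosure ℚ)) :=
    (LinearIndependent.iff_fractionRing R ℚ).1 h1
  exact linearIndependent_qbar_of_rat act _ (fun i σ x => hH.equivariant _ (b i).2 σ x) h2

/-- `mu2` is injective. -/
theorem mu2_injective (hH : IsHopfLattice R act H) : Function.Injective (mu2 H) := by
  obtain ⟨n, b, hb⟩ := exists_basis_linearIndependent hH
  have hK := linearIndependent_prod_fun _ _ hb hb
  have hinj : Function.Injective (mu2 H).toLinearMap := by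
    refine injective_of_basis_indep (V := H ⊗[R] H) (b.tensorProduct b) _ ?_
    convert hK using 1
    funext ⟨i, j⟩ PQ
    simp [Module.Basis.tensorProduct_apply]
  exact hinj

/-- `mu3` is injective. -/
theorem mu3_injective (hH : IsHopfLattice R act H) : Function.Injective (mu3 H) := by
  obtain ⟨n, b, hb⟩ := exists_basis_linearIndependent hH
  have hK2 := linearIndependent_prod_fun _ _ hb hb
  have hK := linearIndependent_prod_fun _ _ hb hK2
  have hinj : Function.Injective (mu3 H).toLinearMap := by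
    refine injective_of_basis_indep (V := H ⊗[R] (H ⊗[R] H))
      (b.tensorProduct (b.tensorProduct b)) _ ?_
    convert hK using 1
    funext ⟨i, j, k⟩ x
    simp [Module.Basis.tensorProduct_apply]
  exact hinj

/-- `(P, Q) ↦ h (P + Q)`. -/
noncomputable def addFn (H : Subalgebra R (M → AlgebraicClosure ℚ)) :
    H →ₐ[R] (M × M → AlgebraicClosure ℚ) :=
  (pullFn R (fun PQ : M × M => PQ.1 + PQ.2)).comp H.val

@[simp] theorem addFn_apply (h : H) (PQ : M × M) :
    addFn H h PQ = (h : M → AlgebraicClosure ℚ) (PQ.1 + PQ.2) := rfl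

theorem addFn_mem_range (hH : IsHopfLattice R act H) (h : H) : addFn H h ∈ (mu2 H).range := by
  have h1 := hH.comul_mem h.1 h.2
  have h2 : Submodule.span R {F : M × M → AlgebraicClosure ℚ |
      ∃ a ∈ H, ∃ b ∈ H, F = fun PQ => a PQ.1 * b PQ.2} ≤
      Subalgebra.toSubmodule (mu2 H).range := by
    rw [Submodule.span_le]
    rintro F ⟨a, ha, b, hb, rfl⟩
    refine ⟨(⟨a, ha⟩ : H) ⊗ₜ[R] (⟨b, hb⟩ : H), ?_⟩
    funext PQ
    simp
  exact h2 h1

/-- The comultiplication of a Hopf lattice. -/
noncomputable def comulAlg (hH : IsHopfLattice R act H) : H →ₐ[R] H ⊗[R] H :=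
  ((AlgEquiv.ofInjective (mu2 H) (mu2_injective hH)).symm : (mu2 H).range →ₐ[R] H ⊗[R] H).comp
    ((addFn H).codRestrict (mu2 H).range (addFn_mem_range hH))

theorem mu2_comulAlg (hH : IsHopfLattice R act H) (h : H) :
    mu2 H (comulAlg hH h) = addFn H h := by
  have h1 : (AlgEquiv.ofInjective (mu2 H) (mu2_injective hH)) (comulAlg hH h) =
      (addFn H).codRestrict (mu2 H).range (addFn_mem_range hH) h := by
    simp [comulAlg]
  exact congrArg Subtype.val h1

theorem mu2_comulAlg_apply (hH : IsHopfLattice R act H) (h : H) (P Q : M) :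
    mu2 H (comulAlg hH h) (P, Q) = (h : M → AlgebraicClosure ℚ) (P + Q) := by
  rw [mu2_comulAlg]; rfl

theorem evZero_mem_range (hH : IsHopfLattice R act H) (h : H) :
    evPt H 0 h ∈ (Algebra.ofId R (AlgebraicClosure ℚ)).range := by
  obtain ⟨r, hr⟩ := hH.counit_mem h.1 h.2
  exact ⟨r, hr.symm⟩

/-- The counit of a Hopf lattice. -/
noncomputable def counitAlg (hH : IsHopfLattice R act H) : H →ₐ[R] R :=
  ((AlgEquiv.ofInjective (Algebra.ofId R (AlgebraicClosure ℚ)) algebraMap_R_injective).symm :
      (Algebra.ofId R (AlgebraicClosure ℚ)).range →ₐ[R] R).comp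
    ((evPt H 0).codRestrict (Algebra.ofId R (AlgebraicClosure ℚ)).range (evZero_mem_range hH))

theorem algebraMap_counitAlg (hH : IsHopfLattice R act H) (h : H) :
    algebraMap R (AlgebraicClosure ℚ) (counitAlg hH h) = (h : M → AlgebraicClosure ℚ) 0 := by
  have h1 : (AlgEquiv.ofInjective (Algebra.ofId R (AlgebraicClosure ℚ)) algebraMap_R_injective)
      (counitAlg hH h) =
      (evPt H 0).codRestrict (Algebra.ofId R (AlgebraicClosure ℚ)).range
        (evZero_mem_range hH) h := by
    simp [counitAlg]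
  exact congrArg Subtype.val h1

theorem mu3_assoc_tmul (u : H ⊗[R] H) (b : H) (P Q S : M) :
    mu3 H (Algebra.TensorProduct.assoc R R R H H H (u ⊗ₜ[R] b)) (P, (Q, S)) =
      mu2 H u (P, Q) * (b : M → AlgebraicClosure ℚ) S := by
  induction u using TensorProduct.induction_on with
  | zero => simp
  | tmul a a' => simp [mul_assoc]
  | add x y hx hy => simp only [TensorProduct.add_tmul, map_add, Pi.add_apply, hx, hy, add_mul]

theorem mu3_assoc_map_comul (hH : IsHopfLattice R act H) (t : H ⊗[R] H) (P Q S : M) :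
    mu3 H (Algebra.TensorProduct.assoc R R R H H H
      (Algebra.TensorProduct.map (comulAlg hH) (AlgHom.id R H) t)) (P, (Q, S)) =
      mu2 H t (P + Q, S) := by
  induction t using TensorProduct.induction_on with
  | zero => simp
  | tmul a b =>
    rw [Algebra.TensorProduct.map_tmul, mu3_assoc_tmul, mu2_comulAlg_apply]
    simp
  | add x y hx hy => simp only [map_add, Pi.add_apply, hx, hy]

theorem mu3_map_id_comul (hH : IsHopfLattice R act H) (t : H ⊗[R] H) (P Q S : M) :
    mu3 H (Algebra.TensorProduct.map (AlgHom.id R H) (comulAlg hH) t) (P, (Q, S)) =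
      mu2 H t (P, Q + S) := by
  induction t using TensorProduct.induction_on with
  | zero => simp
  | tmul a b =>
    rw [Algebra.TensorProduct.map_tmul, mu3_tmul, mu2_comulAlg_apply]
    simp
  | add x y hx hy => simp only [map_add, Pi.add_apply, hx, hy]

theorem lid_map_counit (hH : IsHopfLattice R act H) (t : H ⊗[R] H) (P : M) :
    ((Algebra.TensorProduct.lid R H
      (Algebra.TensorProduct.map (counitAlg hH) (AlgHom.id R H) t) : H) :
        M → AlgebraicClosure ℚ) P = mu2 H t (0, P) := by
  induction t using TensorProduct.induction_on with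
  | zero => simp
  | tmul a b =>
    rw [Algebra.TensorProduct.map_tmul, Algebra.TensorProduct.lid_tmul, mu2_tmul]
    simp only [AlgHom.coe_id, id_eq, Subalgebra.coe_smul, Pi.smul_apply]
    rw [Algebra.smul_def, algebraMap_counitAlg]
  | add x y hx hy => simp only [map_add, Subalgebra.coe_add, Pi.add_apply, hx, hy]

theorem rid_map_counit (hH : IsHopfLattice R act H) (t : H ⊗[R] H) (P : M) :
    ((Algebra.TensorProduct.rid R R H
      (Algebra.TensorProduct.map (AlgHom.id R H) (counitAlg hH) t) : H) :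
        M → AlgebraicClosure ℚ) P = mu2 H t (P, 0) := by
  induction t using TensorProduct.induction_on with
  | zero => simp
  | tmul a b =>
    rw [Algebra.TensorProduct.map_tmul, Algebra.TensorProduct.rid_tmul, mu2_tmul]
    simp only [AlgHom.coe_id, id_eq, Subalgebra.coe_smul, Pi.smul_apply]
    rw [Algebra.smul_def, algebraMap_counitAlg, mul_comm]
  | add x y hx hy => simp only [map_add, Subalgebra.coe_add, Pi.add_apply, hx, hy]

/-- The bialgebra structure of a Hopf lattice. -/
@[instance_reducible]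
noncomputable def bialgebraOfLattice (hH : IsHopfLattice R act H) : Bialgebra R H :=
  Bialgebra.ofAlgHom (comulAlg hH) (counitAlg hH)
    (by
      apply AlgHom.ext
      intro h
      apply mu3_injective hH
      funext ⟨P, Q, S⟩
      refine (mu3_assoc_map_comul hH (comulAlg hH h) P Q S).trans ?_
      refine Eq.trans ?_ (mu3_map_id_comul hH (comulAlg hH h) P Q S).symm
      rw [mu2_comulAlg_apply, mu2_comulAlg_apply, add_assoc])
    (by
      apply AlgHom.ext
      intro h
      apply (Algebra.TensorProduct.lid R H).injective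
      apply Subtype.ext
      funext P
      refine (lid_map_counit hH (comulAlg hH h) P).trans ?_
      rw [mu2_comulAlg_apply, zero_add]
      exact congrArg (fun x : H => (x : M → AlgebraicClosure ℚ) P)
        ((Algebra.TensorProduct.lid R H).apply_symm_apply h).symm)
    (by
      apply AlgHom.ext
      intro h
      apply (Algebra.TensorProduct.rid R R H).injective
      apply Subtype.ext
      funext P
      refine (rid_map_counit hH (comulAlg hH h) P).trans ?_
      rw [mu2_comulAlg_apply, add_zero]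
      exact congrArg (fun x : H => (x : M → AlgebraicClosure ℚ) P)
        ((Algebra.TensorProduct.rid R R H).apply_symm_apply h).symm)

/-- The antipode of a Hopf lattice. -/
noncomputable def antipodeAlg (hH : IsHopfLattice R act H) : H →ₐ[R] H :=
  ((pullFn R (fun P : M => -P)).comp H.val).codRestrict H (fun h => hH.antipode_mem h.1 h.2)

theorem antipodeAlg_apply (hH : IsHopfLattice R act H) (h : H) (P : M) :
    ((antipodeAlg hH h : H) : M → AlgebraicClosure ℚ) P = (h : M → AlgebraicClosure ℚ) (-P) :=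
  rfl

theorem lift_antipode_id (hH : IsHopfLattice R act H) (t : H ⊗[R] H) (P : M) :
    ((Algebra.TensorProduct.lift (antipodeAlg hH) (AlgHom.id R H) (fun _ _ => Commute.all _ _) t
      : H) : M → AlgebraicClosure ℚ) P = mu2 H t (-P, P) := by
  induction t using TensorProduct.induction_on with
  | zero => simp
  | tmul a b =>
    rw [Algebra.TensorProduct.lift_tmul, mu2_tmul]
    simp [antipodeAlg_apply]
  | add x y hx hy => simp only [map_add, Subalgebra.coe_add, Pi.add_apply, hx, hy]

theorem lift_id_antipode (hH : IsHopfLattice R act H) (t : H ⊗[R] H) (P : M) :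
    ((Algebra.TensorProduct.lift (AlgHom.id R H) (antipodeAlg hH) (fun _ _ => Commute.all _ _) t
      : H) : M → AlgebraicClosure ℚ) P = mu2 H t (P, -P) := by
  induction t using TensorProduct.induction_on with
  | zero => simp
  | tmul a b =>
    rw [Algebra.TensorProduct.lift_tmul, mu2_tmul]
    simp [antipodeAlg_apply]
  | add x y hx hy => simp only [map_add, Subalgebra.coe_add, Pi.add_apply, hx, hy]

theorem mu2_comm (t : H ⊗[R] H) (P Q : M) :
    mu2 H (TensorProduct.comm R H H t) (P, Q) = mu2 H t (Q, P) := by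
  induction t using TensorProduct.induction_on with
  | zero => simp
  | tmul a b => simp [mul_comm]
  | add x y hx hy => simp only [map_add, Pi.add_apply, hx, hy]

/-- The Hopf algebra structure of a Hopf lattice. -/
@[instance_reducible]
noncomputable def hopfAlgebraOfLattice (hH : IsHopfLattice R act H) : HopfAlgebra R H :=
  letI := bialgebraOfLattice hH
  HopfAlgebra.ofAlgHom (antipodeAlg hH)
    (by
      apply AlgHom.ext
      intro h
      apply Subtype.ext
      funext P
      refine (lift_antipode_id hH (comulAlg hH h) P).trans ?_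
      rw [mu2_comulAlg_apply, neg_add_cancel]
      exact (algebraMap_counitAlg hH h).symm)
    (by
      apply AlgHom.ext
      intro h
      apply Subtype.ext
      funext P
      refine (lift_id_antipode hH (comulAlg hH h) P).trans ?_
      rw [mu2_comulAlg_apply, add_neg_cancel]
      exact (algebraMap_counitAlg hH h).symm)

theorem comul_hopfAlgebraOfLattice (hH : IsHopfLattice R act H) (h : H) :
    letI := hopfAlgebraOfLattice hH
    Coalgebra.comul (R := R) h = comulAlg hH h := rfl

theorem isCocomm_hopfAlgebraOfLattice (hH : IsHopfLattice R act H) :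
    letI := hopfAlgebraOfLattice hH
    Coalgebra.IsCocomm R H := by
  letI := hopfAlgebraOfLattice hH
  refine ⟨?_⟩
  apply LinearMap.ext
  intro h
  apply mu2_injective hH
  funext ⟨P, Q⟩
  refine (mu2_comm (comulAlg hH h) P Q).trans ?_
  rw [mu2_comulAlg_apply, add_comm]
  exact (mu2_comulAlg_apply hH h P Q).symm

theorem evPt_injective (hH : IsHopfLattice R act H) : Function.Injective (evPt H) := by
  intro P Q hPQ
  refine hH.separates P Q fun h hh => ?_
  exact congrArg (fun φ : H →ₐ[R] AlgebraicClosure ℚ => φ ⟨h, hh⟩) hPQ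

theorem evPt_bijective [Finite M] (hH : IsHopfLattice R act H) :
    Function.Bijective (evPt H) := by
  classical
  haveI : Fintype M := Fintype.ofFinite M
  haveI : Module.Finite R H := Module.Finite.iff_fg.2 hH.fg
  haveI : Module.IsTorsionFree R H := isTorsionFree_lattice H
  haveI : Module.Free R H := Module.free_of_finite_type_torsion_free'
  haveI : Finite (H →ₐ[R] AlgebraicClosure ℚ) := Finite.algHom R H (AlgebraicClosure ℚ)
  refine Function.Injective.bijective_of_nat_card_le (evPt_injective hH) ?_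
  refine (card_algHom_le_finrank R H (AlgebraicClosure ℚ)).trans ?_
  -- an `R`-basis of `H` is linearly independent over `ℚ̄` inside `M → ℚ̄`
  have h1 : LinearIndependent (AlgebraicClosure ℚ)
      (fun i => ((Module.finBasis R H i : H) : M → AlgebraicClosure ℚ)) := by
    have h2 : LinearIndependent R
        (fun i => ((Module.finBasis R H i : H) : M → AlgebraicClosure ℚ)) :=
      (Module.finBasis R H).linearIndependent.map' (Subalgebra.toSubmodule H).subtype
        (Submodule.ker_subtype _)
    have h3 : LinearIndependent ℚ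
        (fun i => ((Module.finBasis R H i : H) : M → AlgebraicClosure ℚ)) :=
      (LinearIndependent.iff_fractionRing R ℚ).1 h2
    exact linearIndependent_qbar_of_rat act _
      (fun i σ x => hH.equivariant _ (Module.finBasis R H i).2 σ x) h3
  have h4 := h1.fintype_card_le_finrank
  simpa [Nat.card_eq_fintype_card] using h4

/-- The points of a Hopf lattice. -/
noncomputable def pointsEquiv [Finite M] (hH : IsHopfLattice R act H) :
    WithConv (H →ₐ[R] AlgebraicClosure ℚ) ≃ M :=
  (WithConv.equiv _).trans (Equiv.ofBijective (evPt H) (evPt_bijective hH)).symm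

theorem pointsEquiv_eq_iff [Finite M] (hH : IsHopfLattice R act H)
    (f : WithConv (H →ₐ[R] AlgebraicClosure ℚ)) (P : M) :
    pointsEquiv hH f = P ↔ ∀ h : H, f.ofConv h = (h : M → AlgebraicClosure ℚ) P := by
  constructor
  · rintro rfl h
    have h1 : evPt H (pointsEquiv hH f) = f.ofConv :=
      (Equiv.ofBijective (evPt H) (evPt_bijective hH)).apply_symm_apply f.ofConv
    rw [← evPt_apply (H := H), h1]
  · intro hf
    have h1 : f.ofConv = evPt H P := AlgHom.ext hf
    show (Equiv.ofBijective (evPt H) (evPt_bijective hH)).symm f.ofConv = P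
    rw [h1]
    exact (Equiv.ofBijective (evPt H) (evPt_bijective hH)).symm_apply_apply P

theorem lift_ofConv (P Q : M) (t : H ⊗[R] H) :
    Algebra.TensorProduct.lift (evPt H P) (evPt H Q) (fun _ _ => Commute.all _ _) t =
      mu2 H t (P, Q) := by
  induction t using TensorProduct.induction_on with
  | zero => simp
  | tmul a b => simp
  | add x y hx hy => simp only [map_add, Pi.add_apply, hx, hy]

/-- **W1-GL(a)**: a Hopf lattice gives a finite flat model. -/
theorem hasFiniteFlatModel_of_isHopfLattice [Finite M] (hH : IsHopfLattice R act H) :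
    HasFiniteFlatModel R M act := by
  haveI : Module.Finite R H := Module.Finite.iff_fg.2 hH.fg
  haveI : Module.IsTorsionFree R H := isTorsionFree_lattice H
  haveI : Module.Free R H := Module.free_of_finite_type_torsion_free'
  letI := hopfAlgebraOfLattice hH
  refine ⟨H, inferInstance, hopfAlgebraOfLattice hH, inferInstance, inferInstance,
    isCocomm_hopfAlgebraOfLattice hH, pointsEquiv hH, ?_, ?_⟩
  · intro f g
    rw [pointsEquiv_eq_iff]
    intro h
    rw [AlgHom.convMul_apply]
    have hf := (pointsEquiv_eq_iff hH f _).1 rfl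
    have hg := (pointsEquiv_eq_iff hH g _).1 rfl
    have hf' : f.ofConv = evPt H (pointsEquiv hH f) := AlgHom.ext hf
    have hg' : g.ofConv = evPt H (pointsEquiv hH g) := AlgHom.ext hg
    have h1 : Algebra.TensorProduct.lift f.ofConv g.ofConv (fun _ _ => Commute.all _ _)
        (Coalgebra.comul (R := R) h) =
        Algebra.TensorProduct.lift (evPt H (pointsEquiv hH f)) (evPt H (pointsEquiv hH g))
          (fun _ _ => Commute.all _ _) (comulAlg hH h) := by
      congr 1
      · congr 1
    rw [h1, lift_ofConv, mu2_comulAlg_apply]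
  · intro σ f g hfg
    rw [pointsEquiv_eq_iff]
    intro h
    rw [hfg h, (pointsEquiv_eq_iff hH f _).1 rfl h]
    exact (hH.equivariant _ h.2 σ _).symm

/-- The statement of `PlanGL.lean`. -/
theorem hopfOfLatticeStatement : HopfOfLatticeStatement := by
  intro R hR hF M hM hfin act H hH
  exact hasFiniteFlatModel_of_isHopfLattice hH

end Main

end Fermat.Agent.W1


end ZBW1_003_1

/-! ### bundled: `Fermat.Agent.W1.LocalToGlobal` -/
section ZBW1_003_2

/-!
# W1 ALG-A: assembly of the Galois descent

`descAssembly_of_pid`: from the three bricks P1 (Lagrange), P2 (`I → D`), P3 (`D → G`) of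
`PlanDescent.lean` (and `ℤ_(p)` principal), a local Hopf lattice `Ht` over `A` gives the Hopf
lattice `H := Ht ∩ Map_G(M, ℚ̄)` over `ℤ_(p)`.

Steps (`𝓜_k := p^k · Map(M, A)`, `SH :=` the `A`-span of `H`):
1. `p^N₀ · Map(M, A) ⊂ Ht` (P1);
2. `Ht ⊂ SH + 𝓜_k` for every `k` (inertia_span, P2, P3);
3. `𝓜_{N₀} ⊂ SH` (Nakayama), hence `Ht = SH`;
4. `H` is finitely generated over `ℤ_(p)` (a `ℚ̄`-basis of functions inside `H`, bounded
   denominators, rational coefficients), separates points;
5. `comul`: coefficients in an `ℤ_(p)`-basis of `H` are in `A ∩ ℚ = ℤ_(p)`.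
-/

set_option autoImplicit false

namespace Fermat.Agent.W1

local notation "Qb" => AlgebraicClosure ℚ
local notation "GQ" => (AlgebraicClosure ℚ ≃ₐ[ℚ] AlgebraicClosure ℚ)

section Defs

variable (A : ValuationSubring Qb) {M : Type}

theorem ltg_smul_apply (a : A) (F : M → Qb) (P : M) : (a • F) P = (a : Qb) * F P := rfl

/-- The `A`-module `p^k · Map(M, A)`. -/
def ltgBall (M : Type) (p k : ℕ) : Submodule A (M → Qb) where
  carrier := {F | ∀ P, ∃ a ∈ A, F P = (p : Qb) ^ k * a}
  zero_mem' := fun P => ⟨0, A.zero_mem, by simp⟩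
  add_mem' := by
    intro F G hF hG P
    obtain ⟨a, ha, hFa⟩ := hF P
    obtain ⟨b, hb, hGb⟩ := hG P
    exact ⟨a + b, A.add_mem _ _ ha hb, by rw [Pi.add_apply, hFa, hGb]; ring⟩
  smul_mem' := by
    intro c F hF P
    obtain ⟨a, ha, hFa⟩ := hF P
    exact ⟨c * a, A.mul_mem _ _ c.2 ha, by rw [ltg_smul_apply, hFa]; ring⟩

theorem mem_ltgBall {p k : ℕ} {F : M → Qb} :
    F ∈ ltgBall A M p k ↔ ∀ P, ∃ a ∈ A, F P = (p : Qb) ^ k * a := Iff.rfl

theorem mem_ltgBall_zero {p : ℕ} {F : M → Qb} :
    F ∈ ltgBall A M p 0 ↔ ∀ P, F P ∈ A := by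
  rw [mem_ltgBall]
  refine forall_congr' fun P => ?_
  constructor
  · rintro ⟨a, ha, h⟩
    rw [h, pow_zero, one_mul]; exact ha
  · intro h
    exact ⟨F P, h, by rw [pow_zero, one_mul]⟩

theorem ltgBall_fg [Finite M] (p : ℕ) : (ltgBall A M p 0).FG := by
  classical
  haveI := Fintype.ofFinite M
  refine ⟨Finset.univ.image fun P : M => (Pi.single P (1 : Qb) : M → Qb), ?_⟩
  apply le_antisymm
  · rw [Submodule.span_le]
    intro F hF
    simp only [Finset.coe_image, Finset.coe_univ, Set.image_univ, Set.mem_range] at hF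
    obtain ⟨P, rfl⟩ := hF
    rw [SetLike.mem_coe, mem_ltgBall_zero]
    intro Q
    by_cases h : Q = P
    · subst h; simp [A.one_mem]
    · simp [Pi.single_eq_of_ne h, A.zero_mem]
  · intro F hF
    rw [mem_ltgBall_zero] at hF
    have hsum : F = ∑ P : M, (⟨F P, hF P⟩ : A) • (Pi.single P (1 : Qb) : M → Qb) := by
      funext Q
      rw [Finset.sum_apply, Finset.sum_eq_single Q]
      · rw [ltg_smul_apply]; simp
      · intro P _ hPQ
        rw [ltg_smul_apply, Pi.single_eq_of_ne (Ne.symm hPQ), mul_zero]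
      · intro h; exact absurd (Finset.mem_univ Q) h
    rw [hsum]
    refine Submodule.sum_mem _ fun P _ => Submodule.smul_mem _ _ (Submodule.subset_span ?_)
    simp

end Defs

section Global

variable {p : ℕ} (A : ValuationSubring Qb) {M : Type}
  (act : GQ → M → M)

theorem ltg_algebraMap_apply (r : GaloisRep.ratLocalizedAt p) (P : M) :
    algebraMap (GaloisRep.ratLocalizedAt p) (M → Qb) r P = algebraMap ℚ Qb (r : ℚ) := rfl

/-- The global lattice `H = Ht ∩ Map_G(M, ℚ̄)`. -/
def ltgH (hp : p.Prime) (hA : A.LiesOverPrime p) (Ht : Subalgebra A (M → Qb)) :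
    Subalgebra (GaloisRep.ratLocalizedAt p) (M → Qb) where
  carrier := {h | h ∈ Ht ∧ ∀ (σ : GQ) (P : M), h (act σ P) = σ (h P)}
  mul_mem' := by
    rintro f g ⟨hf, hf'⟩ ⟨hg, hg'⟩
    exact ⟨Ht.mul_mem hf hg, fun σ P => by simp [hf' σ P, hg' σ P]⟩
  add_mem' := by
    rintro f g ⟨hf, hf'⟩ ⟨hg, hg'⟩
    exact ⟨Ht.add_mem hf hg, fun σ P => by simp [hf' σ P, hg' σ P]⟩
  algebraMap_mem' := by
    intro r
    refine ⟨?_, fun σ P => ?_⟩
    · exact desc_const_mem Ht ((desc_rat_mem_iff hp A hA (r : ℚ)).mpr r.2)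
    · rw [ltg_algebraMap_apply, ltg_algebraMap_apply]
      exact (σ.commutes _).symm

theorem mem_ltgH (hp : p.Prime) (hA : A.LiesOverPrime p) (Ht : Subalgebra A (M → Qb))
    {h : M → Qb} : h ∈ ltgH A act hp hA Ht ↔
      h ∈ Ht ∧ ∀ (σ : GQ) (P : M), h (act σ P) = σ (h P) := Iff.rfl

end Global

section Steps

variable {p : ℕ} {A : ValuationSubring Qb} {M : Type}

theorem ltgBall_anti (M : Type) (p : ℕ) {k k' : ℕ} (h : k ≤ k') :
    ltgBall A M p k' ≤ ltgBall A M p k := by
  intro F hF P
  obtain ⟨a, ha, hFa⟩ := hF P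
  refine ⟨(p : Qb) ^ (k' - k) * a, A.mul_mem _ _ (desc_p_pow_mem A _) ha, ?_⟩
  rw [hFa, ← mul_assoc, ← pow_add, Nat.add_sub_cancel' h]

/-- Step 1 in submodule form. -/
theorem ltgBall_le_of_lagrange {Ht : Subalgebra A (M → Qb)} {N₀ : ℕ}
    (hN₀ : ∀ F : M → Qb, (∀ P, F P ∈ A) → (fun P => (p : Qb) ^ N₀ * F P) ∈ Ht)
    {k : ℕ} (hk : N₀ ≤ k) : ltgBall A M p k ≤ Subalgebra.toSubmodule Ht := by
  intro F hF
  have hF' := ltgBall_anti (A := A) M p hk hF
  choose a ha hFa using hF'
  have := hN₀ a ha
  have heq : (fun P => (p : Qb) ^ N₀ * a P) = F := by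
    funext P; exact (hFa P).symm
  rw [heq] at this
  exact this

variable [AddCommGroup M] [Finite M] {act : GQ → M → M}

/-- Step 2: `Ht ⊂ A·H + p^k · Map(M, A)`. -/
theorem ltg_step2 (hp : p.Prime) (hA : A.LiesOverPrime p) (hact : IsContAction act)
    {Ht : Subalgebra A (M → Qb)} (hloc : IsLocalHopfLattice A act Ht)
    (hP1 : DescLagrangeStatement) (hP2 : DescInertiaStatement) (hP3 : DescApproxStatement)
    (k : ℕ) :
    Subalgebra.toSubmodule Ht ≤
      Submodule.span A (ltgH A act hp hA Ht : Set (M → Qb)) ⊔ ltgBall A M p k := by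
  obtain ⟨N₀, hN₀⟩ := hP1 p hp A hA M inferInstance Ht hloc.integral hloc.separates
  intro h hh
  refine Submodule.span_le.mpr ?_ (hloc.inertia_span h hh)
  rintro f ⟨hf, hfI⟩
  have h2 := hP2 p hp A hA M inferInstance inferInstance act hact Ht hloc.decomp_stable f hf hfI
  refine Submodule.span_le.mpr ?_ h2
  rintro g ⟨hg, hgD⟩
  obtain ⟨h', hh'G, hh'⟩ := hP3 p hp A hA M inferInstance inferInstance act hact g
    (hloc.integral g hg) hgD (max k N₀)
  have hdiff : h' - g ∈ ltgBall A M p (max k N₀) := fun P => by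
    obtain ⟨a, ha, hPa⟩ := hh' P
    exact ⟨a, ha, by rw [Pi.sub_apply, hPa]⟩
  have hh'Ht : h' ∈ Ht := by
    have h1 : h' - g ∈ Subalgebra.toSubmodule Ht :=
      ltgBall_le_of_lagrange hN₀ (le_max_right k N₀) hdiff
    have h3 : h' = g + (h' - g) := by abel
    rw [h3]
    exact Ht.add_mem hg h1
  have hh'H : h' ∈ ltgH A act hp hA Ht := ⟨hh'Ht, hh'G⟩
  have h4 : g = h' - (h' - g) := by abel
  rw [SetLike.mem_coe, h4]
  exact Submodule.sub_mem _ (Submodule.mem_sup_left (Submodule.subset_span hh'H))
    (Submodule.mem_sup_right (ltgBall_anti M p (le_max_left k N₀) hdiff))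

/-- `p` as an element of `A`. -/
noncomputable def ltgP (A : ValuationSubring Qb) (p : ℕ) : A := ⟨(p : Qb), desc_natCast_mem A p⟩

theorem ltgP_mem_jacobson (hA : A.LiesOverPrime p) :
    Ideal.span {ltgP A p} ≤ Ideal.jacobson (⊥ : Ideal A) := by
  rw [IsLocalRing.jacobson_eq_maximalIdeal ⊥ bot_ne_top, Ideal.span_le,
    Set.singleton_subset_iff, SetLike.mem_coe]
  obtain ⟨h1, h2⟩ := (ValuationSubring.mem_nonunits_iff_exists_mem_maximalIdeal).mp hA
  exact h2

/-- Step 3 (Nakayama): `p^N₀ · Map(M, A) ⊂ A·H`. -/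
theorem ltg_step3 (hp : p.Prime) (hA : A.LiesOverPrime p) (hact : IsContAction act)
    {Ht : Subalgebra A (M → Qb)} (hloc : IsLocalHopfLattice A act Ht)
    (hP1 : DescLagrangeStatement) (hP2 : DescInertiaStatement) (hP3 : DescApproxStatement) :
    ∃ N₀ : ℕ, ltgBall A M p N₀ ≤ Submodule.span A (ltgH A act hp hA Ht : Set (M → Qb)) := by
  obtain ⟨N₀, hN₀⟩ := hP1 p hp A hA M inferInstance Ht hloc.integral hloc.separates
  refine ⟨N₀, ?_⟩
  set SH := Submodule.span A (ltgH A act hp hA Ht : Set (M → Qb)) with hSH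
  set c : A := ltgP A p ^ N₀ with hc
  have hcF : ∀ (F : M → Qb) (P : M), (c • F) P = (p : Qb) ^ N₀ * F P := fun F P => by
    rw [ltg_smul_apply, hc]; rfl
  -- the submodule `𝓝 = {F | p^N₀ F ∈ SH}`
  set 𝓝 : Submodule A (M → Qb) := SH.comap (c • (LinearMap.id : (M → Qb) →ₗ[A] (M → Qb)))
    with h𝓝
  have hmem𝓝 : ∀ F, F ∈ 𝓝 ↔ c • F ∈ SH := fun F => Iff.rfl
  have key : ltgBall A M p 0 ≤ 𝓝 ⊔ Ideal.span {ltgP A p} • ltgBall A M p 0 := by
    intro F hF
    have hF0 := (mem_ltgBall_zero A).mp hF
    have h1 : c • F ∈ Subalgebra.toSubmodule Ht := hN₀ F hF0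
    have h2 := ltg_step2 hp hA hact hloc hP1 hP2 hP3 (N₀ + 1) h1
    obtain ⟨x, hx, y, hy, hxy⟩ := Submodule.mem_sup.mp h2
    choose a ha hya using hy
    -- `y = c • (p • a)`
    have ha0 : a ∈ ltgBall A M p 0 := (mem_ltgBall_zero A).mpr ha
    have hF' : F - ltgP A p • a ∈ 𝓝 := by
      rw [hmem𝓝]
      have : c • (F - ltgP A p • a) = x := by
        funext P
        have h3 := congrFun hxy P
        rw [Pi.add_apply, hcF, hya P] at h3
        rw [hcF, Pi.sub_apply, ltg_smul_apply]
        have h4 : ((ltgP A p : A) : Qb) = (p : Qb) := rfl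
        rw [h4]
        have h5 : x P = (p : Qb) ^ N₀ * F P - (p : Qb) ^ (N₀ + 1) * a P := by
          rw [← h3]; ring
        rw [h5]; ring
      rw [this]; exact hx
    have h6 : F = (F - ltgP A p • a) + ltgP A p • a := by abel
    rw [h6]
    exact Submodule.add_mem _ (Submodule.mem_sup_left hF')
      (Submodule.mem_sup_right
        (Submodule.smul_mem_smul (Ideal.subset_span (Set.mem_singleton _)) ha0))
  have hle : ltgBall A M p 0 ≤ 𝓝 :=
    Submodule.le_of_le_smul_of_le_jacobson_bot (ltgBall_fg A p) (ltgP_mem_jacobson hA) key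
  intro F hF
  choose a ha hFa using hF
  have ha0 : a ∈ 𝓝 := hle ((mem_ltgBall_zero A).mpr ha)
  rw [hmem𝓝] at ha0
  have : c • a = F := by
    funext P
    rw [hcF, hFa P]
  rw [← this]
  exact ha0

/-- Step 4: `Ht` is the `A`-span of `H`. -/
theorem ltg_step4 (hp : p.Prime) (hA : A.LiesOverPrime p) (hact : IsContAction act)
    {Ht : Subalgebra A (M → Qb)} (hloc : IsLocalHopfLattice A act Ht)
    (hP1 : DescLagrangeStatement) (hP2 : DescInertiaStatement) (hP3 : DescApproxStatement) :
    Submodule.span A (ltgH A act hp hA Ht : Set (M → Qb)) = Subalgebra.toSubmodule Ht := by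
  apply le_antisymm
  · rw [Submodule.span_le]
    intro h hh
    exact hh.1
  · obtain ⟨N₀, hN₀⟩ := ltg_step3 hp hA hact hloc hP1 hP2 hP3
    exact (ltg_step2 hp hA hact hloc hP1 hP2 hP3 N₀).trans (sup_le le_rfl hN₀)

theorem ltg_act_inv (hact : IsContAction act) (σ : GQ) (P : M) :
    act σ (act σ⁻¹ P) = P := by
  rw [← hact.mul, mul_inv_cancel, hact.one]

theorem ltg_act_zero (hact : IsContAction act) (σ : GQ) : act σ 0 = 0 := by
  have h := hact.add σ 0 0
  rw [add_zero] at h
  exact left_eq_add.mp h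

/-- Step 5: `H` separates the points. -/
theorem ltg_separates (hp : p.Prime) (hA : A.LiesOverPrime p) (hact : IsContAction act)
    {Ht : Subalgebra A (M → Qb)} (hloc : IsLocalHopfLattice A act Ht)
    (hP1 : DescLagrangeStatement) (hP2 : DescInertiaStatement) (hP3 : DescApproxStatement)
    (P Q : M) (h : ∀ f ∈ ltgH A act hp hA Ht, f P = f Q) : P = Q := by
  refine hloc.separates P Q fun f hf => ?_
  have hf' : f ∈ Submodule.span A (ltgH A act hp hA Ht : Set (M → Qb)) := by
    rw [ltg_step4 hp hA hact hloc hP1 hP2 hP3]; exact hf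
  let L : (M → Qb) →ₗ[A] Qb :=
    (LinearMap.proj P : (M → Qb) →ₗ[A] Qb) - (LinearMap.proj Q : (M → Qb) →ₗ[A] Qb)
  have hker : Submodule.span A (ltgH A act hp hA Ht : Set (M → Qb)) ≤ LinearMap.ker L := by
    rw [Submodule.span_le]
    intro g hg
    rw [SetLike.mem_coe, LinearMap.mem_ker]
    show g P - g Q = 0
    rw [h g hg, sub_self]
  have := hker hf'
  rw [LinearMap.mem_ker] at this
  exact sub_eq_zero.mp this

/-- Rationality of the coefficients of an equivariant function in an equivariant family which is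
linearly independent over `ℚ̄`. -/
theorem ltg_coeff_rat {X κ : Type} [Fintype κ] (actX : GQ → X → X)
    (hinv : ∀ σ x, actX σ (actX σ⁻¹ x) = x) (e : κ → X → Qb)
    (he : ∀ k σ x, e k (actX σ x) = σ (e k x)) (hli : LinearIndependent Qb e)
    (c : κ → Qb) (F : X → Qb) (hF : ∀ σ x, F (actX σ x) = σ (F x))
    (hsum : F = ∑ k, c k • e k) (k : κ) : ∃ q : ℚ, algebraMap ℚ Qb q = c k := by
  apply w1_exists_rat_of_fixed
  intro σ
  have hFx : ∀ x, F x = ∑ k, c k * e k x := fun x => by
    rw [hsum]; simp [Finset.sum_apply]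
  have h1 : ∑ k, (σ (c k) - c k) • e k = 0 := by
    funext x
    have hx : F x = ∑ k, σ (c k) * e k x := by
      calc F x = F (actX σ (actX σ⁻¹ x)) := by rw [hinv]
        _ = σ (F (actX σ⁻¹ x)) := hF _ _
        _ = ∑ k, σ (c k) * σ (e k (actX σ⁻¹ x)) := by rw [hFx]; simp [map_sum]
        _ = ∑ k, σ (c k) * e k x := by
            refine Finset.sum_congr rfl fun k _ => ?_
            rw [← he, hinv]
    simp only [Finset.sum_apply, Pi.smul_apply, smul_eq_mul, sub_mul, Finset.sum_sub_distrib,
      Pi.zero_apply]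
    rw [← hx, ← hFx, sub_self]
  have := Fintype.linearIndependent_iff.mp hli _ h1 k
  exact sub_eq_zero.mp this

/-- Bounded denominators for a finite family. -/
theorem ltg_arch_family (hp : p.Prime) (hA : A.LiesOverPrime p) {ι : Type} [Finite ι]
    (c : ι → Qb) : ∃ N : ℕ, ∀ i, (p : Qb) ^ N * c i ∈ A := by
  classical
  haveI := Fintype.ofFinite ι
  have h1 : ∀ i, ∃ N : ℕ, (p : Qb) ^ N * c i ∈ A := by
    intro i
    by_cases hc : c i = 0
    · exact ⟨0, by rw [hc, mul_zero]; exact A.zero_mem⟩
    · obtain ⟨N, a, ha, hNa⟩ := desc_arch hp A hA (inv_ne_zero hc)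
      refine ⟨N, ?_⟩
      rw [hNa, mul_assoc, mul_comm a, ← mul_assoc, inv_mul_cancel₀ hc, one_mul]
      exact ha
  choose Nf hNf using h1
  refine ⟨Finset.univ.sup Nf, fun i => ?_⟩
  have hle : Nf i ≤ Finset.univ.sup Nf := Finset.le_sup (Finset.mem_univ i)
  have : (p : Qb) ^ Finset.univ.sup Nf * c i =
      (p : Qb) ^ (Finset.univ.sup Nf - Nf i) * ((p : Qb) ^ Nf i * c i) := by
    rw [← mul_assoc, ← pow_add, Nat.sub_add_cancel hle]
  rw [this]
  exact A.mul_mem _ _ (desc_p_pow_mem A _) (hNf i)

/-- The `ℚ̄`-span of `H` is everything. -/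
theorem ltg_span_top (hp : p.Prime) (hA : A.LiesOverPrime p) (hact : IsContAction act)
    {Ht : Subalgebra A (M → Qb)} (hloc : IsLocalHopfLattice A act Ht)
    (hP1 : DescLagrangeStatement) (hP2 : DescInertiaStatement) (hP3 : DescApproxStatement) :
    Submodule.span Qb (ltgH A act hp hA Ht : Set (M → Qb)) = ⊤ := by
  classical
  haveI := Fintype.ofFinite M
  obtain ⟨N₀, hN₀⟩ := ltg_step3 hp hA hact hloc hP1 hP2 hP3
  rw [eq_top_iff]
  intro F _
  have hp0 : (p : Qb) ^ N₀ ≠ 0 := pow_ne_zero _ (Nat.cast_ne_zero.mpr hp.ne_zero)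
  have hδ : ∀ P : M, (fun Q => (p : Qb) ^ N₀ * (Pi.single P (1 : Qb) : M → Qb) Q) ∈
      Submodule.span Qb (ltgH A act hp hA Ht : Set (M → Qb)) := by
    intro P
    have h1 : (fun Q => (p : Qb) ^ N₀ * (Pi.single P (1 : Qb) : M → Qb) Q) ∈
        ltgBall A M p N₀ := fun Q => ⟨(Pi.single P (1 : Qb) : M → Qb) Q, by
          by_cases h : Q = P
          · subst h; simp [A.one_mem]
          · simp [Pi.single_eq_of_ne h, A.zero_mem], rfl⟩
    exact Submodule.span_le_restrictScalars A Qb _ (hN₀ h1)
  have hF : F = ∑ P : M, (F P / (p : Qb) ^ N₀) •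
      (fun Q => (p : Qb) ^ N₀ * (Pi.single P (1 : Qb) : M → Qb) Q) := by
    funext Q
    rw [Finset.sum_apply, Finset.sum_eq_single Q]
    · simp only [Pi.smul_apply, Pi.single_eq_same, mul_one, smul_eq_mul]
      field_simp
    · intro P _ hPQ
      simp [Pi.single_eq_of_ne (Ne.symm hPQ)]
    · intro h; exact absurd (Finset.mem_univ Q) h
  rw [hF]
  exact Submodule.sum_mem _ fun P _ => Submodule.smul_mem _ _ (hδ P)

theorem ltg_R_smul_apply (r : GaloisRep.ratLocalizedAt p) (F : M → Qb) (P : M) :
    (r • F) P = algebraMap ℚ Qb (r : ℚ) * F P := by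
  rw [Pi.smul_apply, Algebra.smul_def]
  rfl

/-- Step 6: `H` is a finitely generated `ℤ_(p)`-module. -/
theorem ltg_fg (hp : p.Prime) (hA : A.LiesOverPrime p) (hact : IsContAction act)
    [IsNoetherianRing (GaloisRep.ratLocalizedAt p)]
    {Ht : Subalgebra A (M → Qb)} (hloc : IsLocalHopfLattice A act Ht)
    (hP1 : DescLagrangeStatement) (hP2 : DescInertiaStatement) (hP3 : DescApproxStatement) :
    (Subalgebra.toSubmodule (ltgH A act hp hA Ht)).FG := by
  classical
  haveI := Fintype.ofFinite M
  have hspan := ltg_span_top hp hA hact hloc hP1 hP2 hP3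
  obtain ⟨b, hbH, hbspan, hbli⟩ :=
    exists_linearIndependent Qb (ltgH A act hp hA Ht : Set (M → Qb))
  haveI : Finite b := hbli.finite_of_isNoetherian
  haveI := Fintype.ofFinite b
  let B : Module.Basis b Qb (M → Qb) :=
    Module.Basis.mk hbli (by rw [Subtype.range_coe, hbspan, hspan])
  have hB : ∀ i : b, B i = (i : M → Qb) := fun i => by simp [B]
  -- bounded denominators
  obtain ⟨N₁, hN₁⟩ := ltg_arch_family (A := A) hp hA
    (fun x : M × b => B.repr (Pi.single x.1 (1 : Qb)) x.2)
  have hp0 : (p : Qb) ^ N₁ ≠ 0 := pow_ne_zero _ (Nat.cast_ne_zero.mpr hp.ne_zero)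
  refine Submodule.FG.of_le (Submodule.fg_span
    (Set.finite_range fun i : b => (((p : Qb) ^ N₁)⁻¹ • (i : M → Qb)))) ?_
  intro h hh
  have hhH : h ∈ ltgH A act hp hA Ht := hh
  have hsum : h = ∑ i, B.repr h i • (i : M → Qb) := by
    have := B.sum_repr h
    simp only [hB] at this
    exact this.symm
  have hrat : ∀ i, ∃ q : ℚ, algebraMap ℚ Qb q = B.repr h i :=
    ltg_coeff_rat act (ltg_act_inv hact) (fun i : b => (i : M → Qb))
      (fun i σ x => (hbH i.2).2 σ x) hbli _ h hhH.2 hsum
  have hint : ∀ i, (p : Qb) ^ N₁ * B.repr h i ∈ A := by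
    intro i
    have hh' : h = ∑ P : M, h P • (Pi.single P (1 : Qb) : M → Qb) := by
      funext Q
      rw [Finset.sum_apply, Finset.sum_eq_single Q]
      · simp
      · intro P _ hPQ
        simp [Pi.single_eq_of_ne (Ne.symm hPQ)]
      · intro h'; exact absurd (Finset.mem_univ Q) h'
    have h1 : B.repr h i = ∑ P : M, h P * B.repr (Pi.single P (1 : Qb)) i := by
      conv_lhs => rw [hh']
      rw [map_sum, Finsupp.coe_finset_sum, Finset.sum_apply]
      refine Finset.sum_congr rfl fun P _ => ?_
      rw [map_smul, Finsupp.smul_apply, smul_eq_mul]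
    rw [h1, Finset.mul_sum]
    refine Subring.sum_mem A.toSubring fun P _ => ?_
    have h2 : (p : Qb) ^ N₁ * (h P * B.repr (Pi.single P (1 : Qb)) i) =
        h P * ((p : Qb) ^ N₁ * B.repr (Pi.single P (1 : Qb)) i) := by ring
    rw [h2]
    exact A.mul_mem _ _ (hloc.integral h hhH.1 P) (hN₁ (P, i))
  -- the coefficients in `ℤ_(p)`
  have hR : ∀ i, ∃ r : GaloisRep.ratLocalizedAt p,
      algebraMap ℚ Qb (r : ℚ) = (p : Qb) ^ N₁ * B.repr h i := by
    intro i
    obtain ⟨q, hq⟩ := hrat i
    have hmem : algebraMap ℚ Qb ((p : ℚ) ^ N₁ * q) ∈ A := by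
      rw [map_mul, map_pow, map_natCast, hq]; exact hint i
    exact ⟨⟨(p : ℚ) ^ N₁ * q, (desc_rat_mem_iff hp A hA _).mp hmem⟩, by
      rw [map_mul, map_pow, map_natCast, hq]⟩
  choose r hr using hR
  have hfinal : h = ∑ i, r i • (((p : Qb) ^ N₁)⁻¹ • (i : M → Qb)) := by
    conv_lhs => rw [hsum]
    refine Finset.sum_congr rfl fun i _ => ?_
    funext P
    rw [ltg_R_smul_apply, hr i]
    simp only [Pi.smul_apply, smul_eq_mul]
    field_simp
  rw [hfinal]
  exact Submodule.sum_mem _ fun i _ =>
    Submodule.smul_mem _ _ (Submodule.subset_span (Set.mem_range_self i))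

theorem ltg_R_smul_apply' {X : Type} (r : GaloisRep.ratLocalizedAt p) (F : X → Qb) (x : X) :
    (r • F) x = algebraMap ℚ Qb (r : ℚ) * F x := by
  rw [Pi.smul_apply, Algebra.smul_def]
  rfl

theorem ltg_A_smul_apply' {X : Type} (a : A) (F : X → Qb) (x : X) :
    (a • F) x = (a : Qb) * F x := rfl

/-- Step 7: `H` is closed under the comultiplication, with coefficients in `ℤ_(p)`. -/
theorem ltg_comul (hp : p.Prime) (hA : A.LiesOverPrime p) (hact : IsContAction act)
    [IsPrincipalIdealRing (GaloisRep.ratLocalizedAt p)]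
    [IsFractionRing (GaloisRep.ratLocalizedAt p) ℚ]
    {Ht : Subalgebra A (M → Qb)} (hloc : IsLocalHopfLattice A act Ht)
    (hP1 : DescLagrangeStatement) (hP2 : DescInertiaStatement) (hP3 : DescApproxStatement)
    (h : M → Qb) (hh : h ∈ ltgH A act hp hA Ht) :
    (fun PQ : M × M => h (PQ.1 + PQ.2)) ∈
      Submodule.span (GaloisRep.ratLocalizedAt p) {F : M × M → Qb |
        ∃ a ∈ ltgH A act hp hA Ht, ∃ b ∈ ltgH A act hp hA Ht,
          F = fun PQ => a PQ.1 * b PQ.2} := by
  classical
  set R := GaloisRep.ratLocalizedAt p with hRdef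
  set H := ltgH A act hp hA Ht with hHdef
  have hfg := ltg_fg hp hA hact hloc hP1 hP2 hP3
  haveI : Module.Finite R H := Module.Finite.iff_fg.2 hfg
  haveI : Module.IsTorsionFree R H := isTorsionFree_lattice H
  haveI : Module.Free R H := Module.free_of_finite_type_torsion_free'
  set β := Module.finBasis R H with hβ
  set n := Module.finrank R H with hn
  set βf : Fin n → M → Qb := fun i => ((β i : H) : M → Qb) with hβf
  have hβH : ∀ i, βf i ∈ H := fun i => (β i).2
  have hliR : LinearIndependent R βf := by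
    have := β.linearIndependent.map' (Subalgebra.toSubmodule H).subtype
      (Submodule.ker_subtype _)
    exact this
  have hliQ : LinearIndependent ℚ βf := (LinearIndependent.iff_fractionRing R ℚ).1 hliR
  have hli : LinearIndependent Qb βf :=
    linearIndependent_qbar_of_rat act _ (fun i σ x => (hβH i).2 σ x) hliQ
  -- `Ht` is the `A`-span of the `βf i`
  have hspanR : Submodule.span R (Set.range βf) = Subalgebra.toSubmodule H := by
    have h1 := β.span_eq
    have h2 := congrArg (Submodule.map (Subalgebra.toSubmodule H).subtype) h1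
    rw [Submodule.map_span, Submodule.map_top, Submodule.range_subtype, ← Set.range_comp] at h2
    exact h2
  have hHt : ∀ a ∈ Ht, ∃ c : Fin n → A, a = ∑ i, c i • βf i := by
    intro a ha
    have h1 : a ∈ Submodule.span A (H : Set (M → Qb)) := by
      rw [ltg_step4 hp hA hact hloc hP1 hP2 hP3]; exact ha
    have h2 : Submodule.span A (H : Set (M → Qb)) ≤ Submodule.span A (Set.range βf) := by
      rw [Submodule.span_le]
      intro f hf
      have hf' : f ∈ Submodule.span R (Set.range βf) := by rw [hspanR]; exact hf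
      obtain ⟨c, hc⟩ := (Submodule.mem_span_range_iff_exists_fun R).mp hf'
      rw [SetLike.mem_coe, ← hc]
      refine Submodule.sum_mem _ fun i _ => ?_
      have hci : algebraMap ℚ Qb ((c i : R) : ℚ) ∈ A :=
        (desc_rat_mem_iff hp A hA _).mpr (c i).2
      have : c i • βf i = (⟨_, hci⟩ : A) • βf i := by
        funext P
        rw [ltg_R_smul_apply', ltg_A_smul_apply']
      rw [this]
      exact Submodule.smul_mem _ _ (Submodule.subset_span (Set.mem_range_self i))
    obtain ⟨c, hc⟩ := (Submodule.mem_span_range_iff_exists_fun A).mp (h2 h1)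
    exact ⟨c, hc.symm⟩
  -- the products
  set e : Fin n × Fin n → M × M → Qb := fun ij PQ => βf ij.1 PQ.1 * βf ij.2 PQ.2 with he
  have heli : LinearIndependent Qb e := linearIndependent_prod_fun βf βf hli hli
  have hΔ : (fun PQ : M × M => h (PQ.1 + PQ.2)) ∈ Submodule.span A (Set.range e) := by
    refine Submodule.span_le.mpr ?_ (hloc.comul_mem h hh.1)
    rintro F ⟨a, ha, b, hb, rfl⟩
    obtain ⟨ca, hca⟩ := hHt a ha
    obtain ⟨cb, hcb⟩ := hHt b hb
    have : (fun PQ : M × M => a PQ.1 * b PQ.2) =
        ∑ ij : Fin n × Fin n, (ca ij.1 * cb ij.2) • e ij := by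
      funext PQ
      rw [hca, hcb, Finset.sum_apply, Finset.sum_apply, Finset.sum_mul_sum,
        Finset.sum_apply, ← Finset.sum_product']
      refine Finset.sum_congr rfl fun ij _ => ?_
      simp only [ltg_A_smul_apply', he]
      push_cast
      ring
    rw [SetLike.mem_coe, this]
    exact Submodule.sum_mem _ fun ij _ =>
      Submodule.smul_mem _ _ (Submodule.subset_span (Set.mem_range_self ij))
  obtain ⟨c, hc⟩ := (Submodule.mem_span_range_iff_exists_fun A).mp hΔ
  -- rationality
  have hsum : (fun PQ : M × M => h (PQ.1 + PQ.2)) = ∑ ij, ((c ij : A) : Qb) • e ij := by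
    rw [← hc]
    refine Finset.sum_congr rfl fun ij _ => ?_
    funext PQ
    rw [ltg_A_smul_apply']
    rfl
  have hrat : ∀ ij, ∃ q : ℚ, algebraMap ℚ Qb q = ((c ij : A) : Qb) :=
    ltg_coeff_rat (fun σ (PQ : M × M) => (act σ PQ.1, act σ PQ.2))
      (fun σ PQ => by
        show (act σ (act σ⁻¹ PQ.1), act σ (act σ⁻¹ PQ.2)) = PQ
        rw [ltg_act_inv hact, ltg_act_inv hact])
      e (fun ij σ PQ => by
        show βf ij.1 (act σ PQ.1) * βf ij.2 (act σ PQ.2) = σ (βf ij.1 PQ.1 * βf ij.2 PQ.2)
        rw [(hβH ij.1).2, (hβH ij.2).2, map_mul])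
      heli _ _ (fun σ PQ => by
        show h (act σ PQ.1 + act σ PQ.2) = σ (h (PQ.1 + PQ.2))
        rw [← hact.add, hh.2]) hsum
  have hR : ∀ ij, ∃ r : R, algebraMap ℚ Qb (r : ℚ) = ((c ij : A) : Qb) := by
    intro ij
    obtain ⟨q, hq⟩ := hrat ij
    exact ⟨⟨q, (desc_rat_mem_iff hp A hA q).mp (by rw [hq]; exact (c ij).2)⟩, hq⟩
  choose r hr using hR
  have hfinal : (fun PQ : M × M => h (PQ.1 + PQ.2)) = ∑ ij, r ij • e ij := by
    rw [hsum]
    refine Finset.sum_congr rfl fun ij _ => ?_
    funext PQ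
    rw [ltg_R_smul_apply', hr ij]
    rfl
  rw [hfinal]
  exact Submodule.sum_mem _ fun ij _ => Submodule.smul_mem _ _
    (Submodule.subset_span ⟨βf ij.1, hβH ij.1, βf ij.2, hβH ij.2, rfl⟩)

end Steps

/-- **ALG-A, assembly**: P1 + P2 + P3 ⇒ `LocalToGlobalStatement`. -/
theorem descAssembly : DescAssemblyStatement := by
  intro hP1 hP2 hP3 p hp A hA M _ _ act hact Ht hloc
  haveI : Fact p.Prime := ⟨hp⟩
  exact ⟨ltgH A act hp hA Ht, IsHopfLattice.of_core
    (ltg_fg hp hA hact hloc hP1 hP2 hP3) (fun h hh => hh.2)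
    (ltg_separates hp hA hact hloc hP1 hP2 hP3)
    (ltg_comul hp hA hact hloc hP1 hP2 hP3) (ltg_act_zero hact)⟩

end Fermat.Agent.W1


end ZBW1_003_2

/-! ### bundled: `Fermat.Agent.W1.LocalToGlobalFinal` -/
section ZBW1_003_3

/-!
# W1 ALG-A: `LocalToGlobalStatement` (final)

The Galois descent of a local Hopf lattice: P1 (`descLagrange`), P2 (`DI.descInertiaStatement`,
helper15), P3 (`descApprox`, helper33) and the assembly `descAssembly`.
-/

set_option autoImplicit false

namespace Fermat.Agent.W1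

/-- **ALG-A**: a local Hopf lattice over a valuation ring `A` of `ℚ̄` over `p` descends to a Hopf
lattice over `ℤ_(p)`. -/
theorem localToGlobalStatement : LocalToGlobalStatement :=
  descAssembly descLagrange DI.descInertiaStatement descApprox

end Fermat.Agent.W1


end ZBW1_003_3

/-! ### bundled: `Fermat.Agent.W1.SubQuotBasic` -/
section ZBW1_003_4

/-!
# W1-SQ, part 1: calculus of pure tensors, sub-objects and products of Hopf lattices

* `sqPureAlg H` : the subalgebra of functions on `M × M` generated by `a(P)` and `b(Q)`,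
  `a b ∈ H`; its underlying module is the span of the pure tensors (`sq_span_pure_eq`).
* `sq_sub`  : (SQ1) pull-back of a Hopf lattice along an injective equivariant additive map.
* `sq_prod` : (SQ3) the product of two Hopf lattices.
-/

set_option autoImplicit false
set_option linter.unusedSectionVars false
set_option linter.unusedSimpArgs false

namespace Fermat.Agent.W1

section Pure

variable {R : Subring ℚ} {M : Type}

/-- The subalgebra of functions on `M × M` generated by the `a (P)` and the `b (Q)`. -/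
noncomputable def sqPureAlg (H : Subalgebra R (M → AlgebraicClosure ℚ)) :
    Subalgebra R (M × M → AlgebraicClosure ℚ) :=
  H.map (pullFn R (Prod.fst : M × M → M)) ⊔ H.map (pullFn R (Prod.snd : M × M → M))

theorem sq_span_pure_eq (H : Subalgebra R (M → AlgebraicClosure ℚ)) :
    Submodule.span R {F : M × M → AlgebraicClosure ℚ |
      ∃ a ∈ H, ∃ b ∈ H, F = fun PQ => a PQ.1 * b PQ.2} =
      Subalgebra.toSubmodule (sqPureAlg H) := by
  rw [sqPureAlg, ← Subalgebra.mul_toSubmodule]
  apply le_antisymm
  · rw [Submodule.span_le]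
    rintro F ⟨a, ha, b, hb, rfl⟩
    have h1 : pullFn R (Prod.fst : M × M → M) a ∈
        Subalgebra.toSubmodule (H.map (pullFn R (Prod.fst : M × M → M))) := ⟨a, ha, rfl⟩
    have h2 : pullFn R (Prod.snd : M × M → M) b ∈
        Subalgebra.toSubmodule (H.map (pullFn R (Prod.snd : M × M → M))) := ⟨b, hb, rfl⟩
    exact Submodule.mul_mem_mul h1 h2
  · rw [Submodule.mul_le]
    rintro _ ⟨a, ha, rfl⟩ _ ⟨b, hb, rfl⟩
    exact Submodule.subset_span ⟨a, ha, b, hb, rfl⟩

theorem sq_mem_span_pure_iff (H : Subalgebra R (M → AlgebraicClosure ℚ))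
    (F : M × M → AlgebraicClosure ℚ) :
    F ∈ Submodule.span R {F : M × M → AlgebraicClosure ℚ |
      ∃ a ∈ H, ∃ b ∈ H, F = fun PQ => a PQ.1 * b PQ.2} ↔ F ∈ sqPureAlg H := by
  rw [sq_span_pure_eq]
  exact Iff.rfl

/-- Functoriality of `sqPureAlg` for pull-backs. -/
theorem sq_pureAlg_map {M' : Type} (H : Subalgebra R (M → AlgebraicClosure ℚ)) (ι : M' → M) :
    sqPureAlg (H.map (pullFn R ι)) =
      (sqPureAlg H).map (pullFn R (Prod.map ι ι)) := by
  simp only [sqPureAlg, Algebra.map_sup, Subalgebra.map_map]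
  rfl

end Pure

section Sub

variable {R : Subring ℚ} {M M' : Type} [AddCommGroup M] [AddCommGroup M']
  {act : (AlgebraicClosure ℚ ≃ₐ[ℚ] AlgebraicClosure ℚ) → M → M}
  {act' : (AlgebraicClosure ℚ ≃ₐ[ℚ] AlgebraicClosure ℚ) → M' → M'}
  {H : Subalgebra R (M → AlgebraicClosure ℚ)}

/-- **(SQ1)** The pull-back of a Hopf lattice along an injective equivariant additive map is a
Hopf lattice (restriction of functions to a sub-object). -/
theorem sq_sub (hH : IsHopfLattice R act H) (ι : M' →+ M) (hι : Function.Injective ι)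
    (hequiv : ∀ σ P, ι (act' σ P) = act σ (ι P)) :
    IsHopfLattice R act' (H.map (pullFn R ι)) where
  fg := by
    rw [Subalgebra.map_toSubmodule]
    exact hH.fg.map _
  equivariant := by
    rintro _ ⟨h, hh, rfl⟩ σ P
    show h (ι (act' σ P)) = σ (h (ι P))
    rw [hequiv]
    exact hH.equivariant h hh σ _
  separates := by
    intro P Q hPQ
    refine hι (hH.separates _ _ fun h hh => ?_)
    exact hPQ _ ⟨h, hh, rfl⟩
  comul_mem := by
    rintro _ ⟨h, hh, rfl⟩
    rw [sq_mem_span_pure_iff, sq_pureAlg_map]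
    refine ⟨_, (sq_mem_span_pure_iff H _).1 (hH.comul_mem h hh), ?_⟩
    funext PQ
    show h (ι PQ.1 + ι PQ.2) = h (ι (PQ.1 + PQ.2))
    rw [map_add]
  antipode_mem := by
    rintro _ ⟨h, hh, rfl⟩
    refine ⟨_, hH.antipode_mem h hh, ?_⟩
    funext P
    show h (-ι P) = h (ι (-P))
    rw [map_neg]
  counit_mem := by
    rintro _ ⟨h, hh, rfl⟩
    obtain ⟨r, hr⟩ := hH.counit_mem h hh
    refine ⟨r, ?_⟩
    show h (ι 0) = _
    rw [map_zero, hr]

end Sub

section Equiv

variable (R : Subring ℚ) {X : Type}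

/-- Galois automorphisms fix the image of `R`. -/
theorem sq_galois_algebraMap (σ : AlgebraicClosure ℚ ≃ₐ[ℚ] AlgebraicClosure ℚ) (r : R) :
    σ (algebraMap R (AlgebraicClosure ℚ) r) = algebraMap R (AlgebraicClosure ℚ) r := by
  rw [IsScalarTower.algebraMap_apply R ℚ (AlgebraicClosure ℚ)]
  exact σ.commutes _

/-- The subalgebra of Galois equivariant functions. -/
noncomputable def sqEquivAlg
    (act : (AlgebraicClosure ℚ ≃ₐ[ℚ] AlgebraicClosure ℚ) → X → X) :
    Subalgebra R (X → AlgebraicClosure ℚ) where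
  carrier := {f | ∀ (σ : AlgebraicClosure ℚ ≃ₐ[ℚ] AlgebraicClosure ℚ) (P : X),
    f (act σ P) = σ (f P)}
  mul_mem' := by
    intro f g hf hg σ P
    simp only [Pi.mul_apply, map_mul, hf σ P, hg σ P]
  add_mem' := by
    intro f g hf hg σ P
    simp only [Pi.add_apply, map_add, hf σ P, hg σ P]
  algebraMap_mem' := by
    intro r σ P
    simp only [Pi.algebraMap_apply]
    exact (sq_galois_algebraMap R σ r).symm

theorem sq_mem_equivAlg {act : (AlgebraicClosure ℚ ≃ₐ[ℚ] AlgebraicClosure ℚ) → X → X}
    {f : X → AlgebraicClosure ℚ} :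
    f ∈ sqEquivAlg R act ↔
      ∀ (σ : AlgebraicClosure ℚ ≃ₐ[ℚ] AlgebraicClosure ℚ) (P : X), f (act σ P) = σ (f P) :=
  Iff.rfl

end Equiv

section Prod

variable {R : Subring ℚ} {M₁ M₂ : Type} [AddCommGroup M₁] [AddCommGroup M₂]
  {act₁ : (AlgebraicClosure ℚ ≃ₐ[ℚ] AlgebraicClosure ℚ) → M₁ → M₁}
  {act₂ : (AlgebraicClosure ℚ ≃ₐ[ℚ] AlgebraicClosure ℚ) → M₂ → M₂}
  {H₁ : Subalgebra R (M₁ → AlgebraicClosure ℚ)}
  {H₂ : Subalgebra R (M₂ → AlgebraicClosure ℚ)}

/-- The product lattice: functions on `M₁ × M₂` generated by `a (P₁)` and `b (P₂)`. -/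
noncomputable def sqProdAlg (H₁ : Subalgebra R (M₁ → AlgebraicClosure ℚ))
    (H₂ : Subalgebra R (M₂ → AlgebraicClosure ℚ)) :
    Subalgebra R (M₁ × M₂ → AlgebraicClosure ℚ) :=
  H₁.map (pullFn R (Prod.fst : M₁ × M₂ → M₁)) ⊔ H₂.map (pullFn R (Prod.snd : M₁ × M₂ → M₂))

theorem sq_pureAlg_mono {M : Type} {H H' : Subalgebra R (M → AlgebraicClosure ℚ)}
    (h : H ≤ H') : sqPureAlg H ≤ sqPureAlg H' :=
  sup_le_sup (Subalgebra.map_mono h) (Subalgebra.map_mono h)

/-- **(SQ3)** The product of two Hopf lattices is a Hopf lattice. -/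
theorem sq_prod (h₁ : IsHopfLattice R act₁ H₁) (h₂ : IsHopfLattice R act₂ H₂) :
    IsHopfLattice R (fun σ (P : M₁ × M₂) => (act₁ σ P.1, act₂ σ P.2)) (sqProdAlg H₁ H₂) where
  fg := by
    rw [sqProdAlg, ← Subalgebra.mul_toSubmodule, Subalgebra.map_toSubmodule,
      Subalgebra.map_toSubmodule]
    exact (h₁.fg.map _).mul (h₂.fg.map _)
  equivariant := by
    have h : sqProdAlg H₁ H₂ ≤
        sqEquivAlg R (fun σ (P : M₁ × M₂) => (act₁ σ P.1, act₂ σ P.2)) := by
      refine sup_le ?_ ?_
      · rintro _ ⟨a, ha, rfl⟩ σ P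
        exact h₁.equivariant a ha σ P.1
      · rintro _ ⟨b, hb, rfl⟩ σ P
        exact h₂.equivariant b hb σ P.2
    intro f hf σ P
    exact h hf σ P
  separates := by
    intro P Q hPQ
    refine Prod.ext (h₁.separates _ _ fun a ha => ?_) (h₂.separates _ _ fun b hb => ?_)
    · exact hPQ _ (Algebra.mem_sup_left ⟨a, ha, rfl⟩)
    · exact hPQ _ (Algebra.mem_sup_right ⟨b, hb, rfl⟩)
  comul_mem := by
    have h : sqProdAlg H₁ H₂ ≤ (sqPureAlg (sqProdAlg H₁ H₂)).comap
        (pullFn R (fun PQ : (M₁ × M₂) × (M₁ × M₂) => PQ.1 + PQ.2)) := by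
      refine sup_le ?_ ?_
      · rintro _ ⟨a, ha, rfl⟩
        have h3 : sqPureAlg (H₁.map (pullFn R (Prod.fst : M₁ × M₂ → M₁))) ≤
            sqPureAlg (sqProdAlg H₁ H₂) := sq_pureAlg_mono le_sup_left
        rw [sq_pureAlg_map] at h3
        exact h3 ⟨_, (sq_mem_span_pure_iff H₁ _).1 (h₁.comul_mem a ha), rfl⟩
      · rintro _ ⟨b, hb, rfl⟩
        have h3 : sqPureAlg (H₂.map (pullFn R (Prod.snd : M₁ × M₂ → M₂))) ≤
            sqPureAlg (sqProdAlg H₁ H₂) := sq_pureAlg_mono le_sup_right
        rw [sq_pureAlg_map] at h3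
        exact h3 ⟨_, (sq_mem_span_pure_iff H₂ _).1 (h₂.comul_mem b hb), rfl⟩
    intro f hf
    rw [sq_mem_span_pure_iff]
    exact h hf
  antipode_mem := by
    have h : sqProdAlg H₁ H₂ ≤ (sqProdAlg H₁ H₂).comap
        (pullFn R (fun P : M₁ × M₂ => -P)) := by
      refine sup_le ?_ ?_
      · rintro _ ⟨a, ha, rfl⟩
        exact Algebra.mem_sup_left ⟨_, h₁.antipode_mem a ha, rfl⟩
      · rintro _ ⟨b, hb, rfl⟩
        exact Algebra.mem_sup_right ⟨_, h₂.antipode_mem b hb, rfl⟩
    intro f hf
    exact h hf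
  counit_mem := by
    have h : sqProdAlg H₁ H₂ ≤ (⊥ : Subalgebra R (AlgebraicClosure ℚ)).comap
        (Pi.evalAlgHom R (fun _ : M₁ × M₂ => AlgebraicClosure ℚ) 0) := by
      refine sup_le ?_ ?_
      · rintro _ ⟨a, ha, rfl⟩
        obtain ⟨r, hr⟩ := h₁.counit_mem a ha
        exact Algebra.mem_bot.2 ⟨r, hr.symm⟩
      · rintro _ ⟨b, hb, rfl⟩
        obtain ⟨r, hr⟩ := h₂.counit_mem b hb
        exact Algebra.mem_bot.2 ⟨r, hr.symm⟩
    intro f hf
    obtain ⟨r, hr⟩ := Algebra.mem_bot.1 (h hf)
    exact ⟨r, hr.symm⟩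

end Prod

end Fermat.Agent.W1


end ZBW1_003_4

/-! ### bundled: `Fermat.Agent.W1.SubQuotLin` -/
section ZBW1_003_5

/-!
# W1-SQ, part 2: linear algebra of a separating lattice of equivariant functions

For a finite set `M` and an `R`-subalgebra `H ⊂ Map(M, ℚ̄)` (`R ⊂ ℚ` a PID with fraction field `ℚ`)
which is finitely generated, Galois equivariant and separates points:

* `sq_span_top`      : the `ℚ̄`-span of `H` is the space of all functions;
* `sq_exists_basis`  : `H` has an `R`-basis which is linearly independent over `ℚ̄`;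
* `sq_exists_smul_mem` : every Galois equivariant function has a non-zero integer multiple in `H`
  (`ℚ H = Map_G(M, ℚ̄)`).
-/

set_option autoImplicit false
set_option linter.unusedSectionVars false
set_option linter.unusedSimpArgs false
set_option linter.style.haveILetI false

namespace Fermat.Agent.W1

section SpanTop

variable {R : Subring ℚ} {M : Type}

/-- The `ℚ̄`-span of a subalgebra is a `ℚ̄`-subalgebra. -/
theorem sq_span_eq_adjoin (H : Subalgebra R (M → AlgebraicClosure ℚ)) :
    Submodule.span (AlgebraicClosure ℚ) (H : Set (M → AlgebraicClosure ℚ)) =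
      Subalgebra.toSubmodule
        (Algebra.adjoin (AlgebraicClosure ℚ) (H : Set (M → AlgebraicClosure ℚ))) := by
  rw [Algebra.adjoin_eq_span]
  congr 1
  have h1 : ((H.toSubsemiring.toSubmonoid : Submonoid (M → AlgebraicClosure ℚ)) :
      Set (M → AlgebraicClosure ℚ)) = (H : Set (M → AlgebraicClosure ℚ)) := rfl
  rw [← h1, Submonoid.closure_eq]

/-- Over a finite set, the `ℚ̄`-span of a separating subalgebra is everything. -/
theorem sq_span_top [Finite M] (H : Subalgebra R (M → AlgebraicClosure ℚ))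
    (hsep : ∀ P Q : M, (∀ h ∈ H, h P = h Q) → P = Q) :
    Submodule.span (AlgebraicClosure ℚ) (H : Set (M → AlgebraicClosure ℚ)) = ⊤ := by
  classical
  haveI : Fintype M := Fintype.ofFinite M
  rw [sq_span_eq_adjoin]
  set A := Algebra.adjoin (AlgebraicClosure ℚ) (H : Set (M → AlgebraicClosure ℚ)) with hA
  -- separating functions
  have hex : ∀ P Q : M, P ≠ Q → ∃ h ∈ H, h P ≠ h Q := by
    intro P Q hPQ
    by_contra hcon
    refine hPQ (hsep P Q fun h hh => ?_)
    by_contra hne
    exact hcon ⟨h, hh, hne⟩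
  -- the indicator functions
  have hind : ∀ P : M, (fun x => if x = P then (1 : AlgebraicClosure ℚ) else 0) ∈ A := by
    intro P
    -- a factor for every `Q ≠ P`
    have hfac : ∀ Q : M, ∃ g ∈ A, g P = 1 ∧ (Q ≠ P → g Q = 0) := by
      intro Q
      by_cases hQ : Q = P
      · exact ⟨1, A.one_mem, rfl, fun h => absurd hQ h⟩
      · obtain ⟨h, hh, hne⟩ := hex P Q (Ne.symm hQ)
        have hne' : h P - h Q ≠ 0 := sub_ne_zero.2 hne
        refine ⟨(h P - h Q)⁻¹ • (h - algebraMap (AlgebraicClosure ℚ) _ (h Q)),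
          A.smul_mem (A.sub_mem (Algebra.subset_adjoin hh) (A.algebraMap_mem _)) _, ?_, ?_⟩
        · simp [Pi.algebraMap_apply, hne']
        · intro _
          simp [Pi.algebraMap_apply]
    choose g hgA hgP hgQ using hfac
    have h1 : (∏ Q ∈ Finset.univ.erase P, g Q) ∈ A := A.prod_mem fun Q _ => hgA Q
    convert h1 using 1
    funext x
    rw [Finset.prod_apply]
    by_cases hx : x = P
    · subst hx
      rw [if_pos rfl]
      symm
      refine Finset.prod_eq_one fun Q hQ => ?_
      by_cases hQx : Q = x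
      · exact absurd hQx (Finset.ne_of_mem_erase hQ)
      · -- `g Q x` where `x = P`
        exact hgP Q
    · rw [if_neg hx]
      symm
      refine Finset.prod_eq_zero (Finset.mem_erase.2 ⟨hx, Finset.mem_univ x⟩) ?_
      exact hgQ x hx
  rw [eq_top_iff]
  intro f _
  have hf : f = ∑ P : M, f P • (fun x => if x = P then (1 : AlgebraicClosure ℚ) else 0) := by
    funext x
    simp [Finset.sum_apply]
  rw [hf]
  exact (Subalgebra.mem_toSubmodule A).2 (A.sum_mem fun P _ => A.smul_mem (hind P) _)

end SpanTop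

section Basis

variable {R : Subring ℚ} {M : Type} [AddCommGroup M]
  {act : (AlgebraicClosure ℚ ≃ₐ[ℚ] AlgebraicClosure ℚ) → M → M}
  {H : Subalgebra R (M → AlgebraicClosure ℚ)}
  [IsPrincipalIdealRing R] [IsFractionRing R ℚ]

/-- A finitely generated lattice of equivariant functions has an `R`-basis which is linearly
independent over `ℚ̄`. -/
theorem sq_exists_basis (hfg : (Subalgebra.toSubmodule H).FG)
    (hequiv : ∀ h ∈ H, ∀ (σ : AlgebraicClosure ℚ ≃ₐ[ℚ] AlgebraicClosure ℚ) (P : M),
      h (act σ P) = σ (h P)) :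
    ∃ (n : ℕ) (b : Module.Basis (Fin n) R H),
      LinearIndependent (AlgebraicClosure ℚ)
        (fun i => ((b i : H) : M → AlgebraicClosure ℚ)) := by
  haveI : Module.Finite R H := Module.Finite.iff_fg.2 hfg
  haveI : Module.IsTorsionFree R H := isTorsionFree_lattice H
  haveI : Module.Free R H := Module.free_of_finite_type_torsion_free'
  refine ⟨_, Module.finBasis R H, ?_⟩
  set b := Module.finBasis R H
  have h1 : LinearIndependent R (fun i => ((b i : H) : M → AlgebraicClosure ℚ)) := by
    have := b.linearIndependent.map' (Subalgebra.toSubmodule H).subtype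
      (Submodule.ker_subtype _)
    exact this
  have h2 : LinearIndependent ℚ (fun i => ((b i : H) : M → AlgebraicClosure ℚ)) :=
    (LinearIndependent.iff_fractionRing R ℚ).1 h1
  exact linearIndependent_qbar_of_rat act _ (fun i σ x => hequiv _ (b i).2 σ x) h2

/-- An `R`-basis of a separating lattice spans all functions over `ℚ̄`. -/
theorem sq_basis_span_top [Finite M] (hsep : ∀ P Q : M, (∀ h ∈ H, h P = h Q) → P = Q)
    {n : ℕ} (b : Module.Basis (Fin n) R H) :
    Submodule.span (AlgebraicClosure ℚ)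
      (Set.range fun i => ((b i : H) : M → AlgebraicClosure ℚ)) = ⊤ := by
  rw [eq_top_iff, ← sq_span_top H hsep, Submodule.span_le]
  intro h hh
  have h1 : (⟨h, hh⟩ : H) = ∑ i, b.repr ⟨h, hh⟩ i • b i := (b.sum_repr _).symm
  have h2 : h = ∑ i, (algebraMap R (AlgebraicClosure ℚ) (b.repr ⟨h, hh⟩ i)) •
      ((b i : H) : M → AlgebraicClosure ℚ) := by
    have h3 := congrArg (fun x : H => (x : M → AlgebraicClosure ℚ)) h1
    simp only [AddSubmonoidClass.coe_finsetSum] at h3
    refine h3.trans ?_
    refine Finset.sum_congr rfl fun i _ => ?_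
    funext x
    simp [Algebra.smul_def]
  rw [h2]
  exact Submodule.sum_mem _ fun i _ =>
    Submodule.smul_mem _ _ (Submodule.subset_span ⟨i, rfl⟩)

/-- **`ℚ H = Map_G(M, ℚ̄)`**: every Galois equivariant function has a non-zero integer multiple
in a separating lattice `H`. -/
theorem sq_exists_smul_mem [Finite M] (hfg : (Subalgebra.toSubmodule H).FG)
    (hequiv : ∀ h ∈ H, ∀ (σ : AlgebraicClosure ℚ ≃ₐ[ℚ] AlgebraicClosure ℚ) (P : M),
      h (act σ P) = σ (h P))
    (hsep : ∀ P Q : M, (∀ h ∈ H, h P = h Q) → P = Q)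
    (f : M → AlgebraicClosure ℚ)
    (hf : ∀ (σ : AlgebraicClosure ℚ ≃ₐ[ℚ] AlgebraicClosure ℚ) (P : M),
      f (act σ P) = σ (f P)) :
    ∃ d : ℕ, d ≠ 0 ∧ d • f ∈ H := by
  classical
  obtain ⟨n, b, hli⟩ := sq_exists_basis hfg hequiv
  have hspan := sq_basis_span_top hsep b
  set v : Fin n → M → AlgebraicClosure ℚ := fun i => ((b i : H) : M → AlgebraicClosure ℚ)
    with hv
  have hfmem : f ∈ Submodule.span (AlgebraicClosure ℚ) (Set.range v) := by
    rw [hspan]; trivial
  obtain ⟨c, hc⟩ := (Submodule.mem_span_range_iff_exists_fun (AlgebraicClosure ℚ)).1 hfmem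
  -- the coefficients are Galois invariant
  have hfix : ∀ (σ : AlgebraicClosure ℚ ≃ₐ[ℚ] AlgebraicClosure ℚ) (i : Fin n),
      σ (c i) = c i := by
    intro σ
    have h1 : ∑ i, σ (c i) • v i = f := by
      funext x
      have h2 := congrFun hc (act σ.symm x)
      simp only [Finset.sum_apply, Pi.smul_apply, smul_eq_mul] at h2 ⊢
      have h3 := congrArg σ h2
      rw [hf σ.symm x] at h3
      simp only [map_sum, map_mul, AlgEquiv.apply_symm_apply] at h3
      rw [← h3]
      refine Finset.sum_congr rfl fun i _ => ?_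
      have h5 : v i (act σ.symm x) = σ.symm (v i x) := hequiv _ (b i).2 σ.symm x
      rw [h5]
      simp
    have h4 : ∑ i, (σ (c i) - c i) • v i = 0 := by
      simp only [sub_smul, Finset.sum_sub_distrib, h1, hc, sub_self]
    intro i
    exact sub_eq_zero.1 (Fintype.linearIndependent_iff.1 hli _ h4 i)
  choose q hq using fun i => w1_exists_rat_of_fixed (c i) (fun σ => hfix σ i)
  -- clear denominators
  refine ⟨∏ i, (q i).den, ?_, ?_⟩
  · exact Finset.prod_ne_zero_iff.2 fun i _ => (q i).den_ne_zero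
  · set d : ℕ := ∏ i, (q i).den with hd
    have hz : ∀ i, ∃ z : ℤ, (d : ℚ) * q i = z := by
      intro i
      obtain ⟨e, he⟩ : (q i).den ∣ d := Finset.dvd_prod_of_mem _ (Finset.mem_univ i)
      refine ⟨e * (q i).num, ?_⟩
      rw [he]
      push_cast
      have := Rat.den_mul_eq_num (q i)
      calc ((q i).den : ℚ) * e * q i = e * ((q i).den * q i) := by ring
        _ = e * (q i).num := by rw [this]
    choose z hz using hz
    have h5 : d • f = ∑ i, z i • v i := by
      rw [← hc, Finset.smul_sum]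
      refine Finset.sum_congr rfl fun i _ => ?_
      funext x
      simp only [Pi.smul_apply, smul_eq_mul, nsmul_eq_mul, zsmul_eq_mul]
      rw [← hq i]
      have h6 := congrArg (algebraMap ℚ (AlgebraicClosure ℚ)) (hz i)
      simp only [map_mul, map_natCast, map_intCast] at h6
      rw [← mul_assoc, h6]
    rw [h5]
    exact H.sum_mem fun i _ => H.zsmul_mem (b i).2 _

end Basis

end Fermat.Agent.W1


end ZBW1_003_5

/-! ### bundled: `Fermat.Agent.W1.SubQuotQuot` -/
section ZBW1_003_6

/-!
# W1-SQ, part 3: quotients of Hopf lattices (SQ2)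

`sq_quot`: if `H` is a Hopf lattice on the finite group `M` and `π : M → M''` is a surjective
equivariant additive map, then `H'' = {φ : M'' → ℚ̄ | φ ∘ π ∈ H}` is a Hopf lattice on `M''`.

* finitely generated: `R` is noetherian;
* separation: the traces `P'' ↦ ∑_{π x = P''} h x` are equivariant, hence have a multiple in
  `H''` (`sq_exists_smul_mem`), and they separate points because `H` spans all functions;
* comultiplication: `H''` is saturated in `H`; expand `(P, Q) ↦ h (P + Q)` in `ℚ̄`-linearly
  independent `R`-bases and use the invariance under the kernel of `π` in each variable.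
-/

set_option autoImplicit false
set_option linter.unusedSectionVars false
set_option linter.unusedSimpArgs false
set_option linter.style.haveILetI false

namespace Fermat.Agent.W1

section Quot

variable {R : Subring ℚ} {M M'' : Type} [AddCommGroup M] [AddCommGroup M'']
  {act : (AlgebraicClosure ℚ ≃ₐ[ℚ] AlgebraicClosure ℚ) → M → M}
  {act'' : (AlgebraicClosure ℚ ≃ₐ[ℚ] AlgebraicClosure ℚ) → M'' → M''}
  {H : Subalgebra R (M → AlgebraicClosure ℚ)}

/-- Pull-back along a surjective map is injective. -/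
theorem sq_pull_injective {π : M → M''} (hπ : Function.Surjective π) :
    Function.Injective (pullFn R π) := by
  intro f g hfg
  funext P''
  obtain ⟨P, rfl⟩ := hπ P''
  exact congrFun hfg P

theorem sq_mem_comap {π : M → M''} {φ : M'' → AlgebraicClosure ℚ} :
    φ ∈ H.comap (pullFn R π) ↔ (fun P => φ (π P)) ∈ H := Iff.rfl

/-- The action is by permutations (1). -/
theorem sq_act_symm_act
    (hequiv : ∀ h ∈ H, ∀ (σ : AlgebraicClosure ℚ ≃ₐ[ℚ] AlgebraicClosure ℚ) (P : M),
      h (act σ P) = σ (h P))
    (hsep : ∀ P Q : M, (∀ h ∈ H, h P = h Q) → P = Q)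
    (σ : AlgebraicClosure ℚ ≃ₐ[ℚ] AlgebraicClosure ℚ) (P : M) :
    act σ.symm (act σ P) = P := by
  refine hsep _ _ fun h hh => ?_
  rw [hequiv h hh, hequiv h hh]
  simp

/-- The action is by permutations (2). -/
theorem sq_act_act_symm
    (hequiv : ∀ h ∈ H, ∀ (σ : AlgebraicClosure ℚ ≃ₐ[ℚ] AlgebraicClosure ℚ) (P : M),
      h (act σ P) = σ (h P))
    (hsep : ∀ P Q : M, (∀ h ∈ H, h P = h Q) → P = Q)
    (σ : AlgebraicClosure ℚ ≃ₐ[ℚ] AlgebraicClosure ℚ) (P : M) :
    act σ (act σ.symm P) = P := by
  refine hsep _ _ fun h hh => ?_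
  rw [hequiv h hh, hequiv h hh]
  simp

/-- The sum of a function over the fibres of `π`. -/
noncomputable def sqTrace [Fintype M] [DecidableEq M''] (π : M → M'')
    (h : M → AlgebraicClosure ℚ) : M'' → AlgebraicClosure ℚ :=
  fun P'' => ∑ x ∈ Finset.univ.filter (fun x => π x = P''), h x

/-- The trace of an element of `H` is equivariant. -/
theorem sq_trace_equivariant [Fintype M] [DecidableEq M'']
    (hequiv : ∀ h ∈ H, ∀ (σ : AlgebraicClosure ℚ ≃ₐ[ℚ] AlgebraicClosure ℚ) (P : M),
      h (act σ P) = σ (h P))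
    (hsep : ∀ P Q : M, (∀ h ∈ H, h P = h Q) → P = Q)
    {π : M → M''} (hπ : Function.Surjective π)
    (hπequiv : ∀ σ P, π (act σ P) = act'' σ (π P))
    (h : M → AlgebraicClosure ℚ) (hh : h ∈ H)
    (σ : AlgebraicClosure ℚ ≃ₐ[ℚ] AlgebraicClosure ℚ) (P'' : M'') :
    sqTrace π h (act'' σ P'') = σ (sqTrace π h P'') := by
  unfold sqTrace
  rw [map_sum]
  symm
  refine Finset.sum_nbij' (fun x => act σ x) (fun y => act σ.symm y) ?_ ?_ ?_ ?_ ?_
  · intro a ha
    simp only [Finset.mem_filter, Finset.mem_univ, true_and] at ha ⊢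
    rw [hπequiv, ha]
  · intro y hy
    simp only [Finset.mem_filter, Finset.mem_univ, true_and] at hy ⊢
    obtain ⟨x₀, rfl⟩ := hπ P''
    rw [hπequiv, hy, ← hπequiv, ← hπequiv, sq_act_symm_act hequiv hsep]
  · intro a _
    exact sq_act_symm_act hequiv hsep σ a
  · intro y _
    exact sq_act_act_symm hequiv hsep σ y
  · intro a _
    exact (hequiv h hh σ a).symm

variable [IsPrincipalIdealRing R] [IsFractionRing R ℚ]

/-- The quotient lattice is finitely generated. -/
theorem sq_quot_fg (hfg : (Subalgebra.toSubmodule H).FG) {π : M → M''}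
    (hπ : Function.Surjective π) :
    (Subalgebra.toSubmodule (H.comap (pullFn R π))).FG := by
  haveI : IsNoetherian R (Subalgebra.toSubmodule H) := isNoetherian_of_fg_of_noetherian _ hfg
  refine Submodule.fg_of_fg_map_injective (pullFn R π).toLinearMap
    (sq_pull_injective (R := R) hπ) ?_
  have hle : (Subalgebra.toSubmodule (H.comap (pullFn R π))).map (pullFn R π).toLinearMap ≤
      Subalgebra.toSubmodule H := by
    rintro _ ⟨f, hf, rfl⟩
    exact hf
  exact isNoetherian_submodule.1 inferInstance _ hle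

/-- The quotient lattice is equivariant. -/
theorem sq_quot_equivariant
    (hequiv : ∀ h ∈ H, ∀ (σ : AlgebraicClosure ℚ ≃ₐ[ℚ] AlgebraicClosure ℚ) (P : M),
      h (act σ P) = σ (h P))
    {π : M → M''} (hπ : Function.Surjective π)
    (hπequiv : ∀ σ P, π (act σ P) = act'' σ (π P)) :
    ∀ φ ∈ H.comap (pullFn R π), ∀ (σ : AlgebraicClosure ℚ ≃ₐ[ℚ] AlgebraicClosure ℚ) (P : M''),
      φ (act'' σ P) = σ (φ P) := by
  intro φ hφ σ P''
  obtain ⟨P, rfl⟩ := hπ P''
  rw [← hπequiv]
  exact hequiv _ hφ σ P

/-- The quotient lattice separates points. -/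
theorem sq_quot_separates [Finite M] (hfg : (Subalgebra.toSubmodule H).FG)
    (hequiv : ∀ h ∈ H, ∀ (σ : AlgebraicClosure ℚ ≃ₐ[ℚ] AlgebraicClosure ℚ) (P : M),
      h (act σ P) = σ (h P))
    (hsep : ∀ P Q : M, (∀ h ∈ H, h P = h Q) → P = Q)
    {π : M → M''} (hπ : Function.Surjective π)
    (hπequiv : ∀ σ P, π (act σ P) = act'' σ (π P)) :
    ∀ P Q : M'', (∀ φ ∈ H.comap (pullFn R π), φ P = φ Q) → P = Q := by
  classical
  haveI : Fintype M := Fintype.ofFinite M
  intro P'' Q'' hPQ
  by_contra hne
  -- traces agree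
  have htr : ∀ h ∈ H, sqTrace π h P'' = sqTrace π h Q'' := by
    intro h hh
    have he : ∀ (σ : AlgebraicClosure ℚ ≃ₐ[ℚ] AlgebraicClosure ℚ) (P : M),
        (fun P => sqTrace π h (π P)) (act σ P) = σ ((fun P => sqTrace π h (π P)) P) := by
      intro σ P
      show sqTrace π h (π (act σ P)) = σ (sqTrace π h (π P))
      rw [hπequiv]
      exact sq_trace_equivariant hequiv hsep hπ hπequiv h hh σ (π P)
    obtain ⟨d, hd0, hd⟩ := sq_exists_smul_mem hfg hequiv hsep
      (fun P => sqTrace π h (π P)) he
    have h1 : d • sqTrace π h ∈ H.comap (pullFn R π) := by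
      rw [sq_mem_comap]
      exact hd
    have h2 := hPQ _ h1
    simp only [Pi.smul_apply, nsmul_eq_mul] at h2
    have hdK : (d : AlgebraicClosure ℚ) ≠ 0 := Nat.cast_ne_zero.2 hd0
    exact mul_left_cancel₀ hdK h2
  -- the linear functional
  let L : (M → AlgebraicClosure ℚ) →ₗ[AlgebraicClosure ℚ] AlgebraicClosure ℚ :=
    { toFun := fun f => sqTrace π f P'' - sqTrace π f Q''
      map_add' := by
        intro f g
        simp only [sqTrace, Pi.add_apply, Finset.sum_add_distrib]
        ring
      map_smul' := by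
        intro c f
        simp only [sqTrace, Pi.smul_apply, smul_eq_mul, ← Finset.mul_sum, RingHom.id_apply]
        ring }
  have hL : Submodule.span (AlgebraicClosure ℚ) (H : Set (M → AlgebraicClosure ℚ)) ≤
      LinearMap.ker L := by
    rw [Submodule.span_le]
    intro h hh
    rw [SetLike.mem_coe, LinearMap.mem_ker]
    show sqTrace π h P'' - sqTrace π h Q'' = 0
    rw [htr h hh, sub_self]
  rw [sq_span_top H hsep] at hL
  have h3 : L (fun x => if π x = P'' then 1 else 0) = 0 :=
    LinearMap.mem_ker.1 (hL trivial)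
  have h4 : L (fun x => if π x = P'' then 1 else 0) =
      ((Finset.univ.filter (fun x => π x = P'')).card : AlgebraicClosure ℚ) := by
    show sqTrace π _ P'' - sqTrace π _ Q'' = _
    have h5 : sqTrace π (fun x => if π x = P'' then (1 : AlgebraicClosure ℚ) else 0) P'' =
        ((Finset.univ.filter (fun x => π x = P'')).card : AlgebraicClosure ℚ) := by
      unfold sqTrace
      rw [Finset.sum_congr rfl (g := fun _ => (1 : AlgebraicClosure ℚ))]
      · simp
      · intro x hx
        simp only [Finset.mem_filter, Finset.mem_univ, true_and] at hx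
        show (if π x = P'' then (1 : AlgebraicClosure ℚ) else 0) = 1
        rw [if_pos hx]
    have h6 : sqTrace π (fun x => if π x = P'' then (1 : AlgebraicClosure ℚ) else 0) Q'' = 0 := by
      unfold sqTrace
      refine Finset.sum_eq_zero fun x hx => ?_
      simp only [Finset.mem_filter, Finset.mem_univ, true_and] at hx
      show (if π x = P'' then (1 : AlgebraicClosure ℚ) else 0) = 0
      rw [if_neg]
      intro h7
      exact hne (h7.symm.trans hx)
    rw [h5, h6, sub_zero]
  rw [h4] at h3
  obtain ⟨x₀, hx₀⟩ := hπ P''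
  have h8 : (Finset.univ.filter (fun x => π x = P'')).card ≠ 0 := by
    refine Finset.card_ne_zero.2 ⟨x₀, ?_⟩
    simp [hx₀]
  exact h8 (Nat.cast_eq_zero.1 h3)

omit [IsPrincipalIdealRing R] [IsFractionRing R ℚ] [AddCommGroup M] in
/-- Evaluation of a scalar multiple in a lattice. -/
theorem sq_coe_smul_apply (H : Subalgebra R (M → AlgebraicClosure ℚ)) (r : R) (h : H) (Q : M) :
    ((r • h : H) : M → AlgebraicClosure ℚ) Q =
      algebraMap R (AlgebraicClosure ℚ) r * (h : M → AlgebraicClosure ℚ) Q := by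
  show (r • (h : M → AlgebraicClosure ℚ)) Q = _
  rw [Pi.smul_apply, Algebra.smul_def]

/-- Comparison of coefficients with respect to a linearly independent family. -/
theorem sq_coeff_eq {X Y : Type} {n : ℕ} (v : Fin n → Y → AlgebraicClosure ℚ)
    (hv : LinearIndependent (AlgebraicClosure ℚ) v)
    (g : Fin n → X → AlgebraicClosure ℚ) (x x' : X)
    (h : ∀ y, ∑ j, g j x * v j y = ∑ j, g j x' * v j y) : ∀ j, g j x = g j x' := by
  have h1 : ∑ j, (g j x - g j x') • v j = 0 := by
    funext y
    simp only [Finset.sum_apply, Pi.smul_apply, smul_eq_mul, Pi.zero_apply, sub_mul,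
      Finset.sum_sub_distrib]
    rw [h y, sub_self]
  intro j
  exact sub_eq_zero.1 (Fintype.linearIndependent_iff.1 hv _ h1 j)

/-- A function invariant under translation by the kernel of `π` factors through `π`. -/
theorem sq_descend (π : M →+ M'') (hπ : Function.Surjective π)
    (g : M → AlgebraicClosure ℚ)
    (hinv : ∀ P m, π m = 0 → g (P + m) = g P) :
    ∃ g'' : M'' → AlgebraicClosure ℚ, ∀ P, g'' (π P) = g P := by
  refine ⟨fun P'' => g (Function.surjInv hπ P''), fun P => ?_⟩
  have h1 : π (Function.surjInv hπ (π P)) = π P := Function.surjInv_eq hπ _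
  have h2 : π (P - Function.surjInv hπ (π P)) = 0 := by rw [map_sub, h1, sub_self]
  have h3 := hinv (Function.surjInv hπ (π P)) _ h2
  rw [add_sub_cancel] at h3
  exact h3.symm

/-- The quotient lattice is closed under the comultiplication. -/
theorem sq_quot_comul [Finite M] (hH : IsHopfLattice R act H) (π : M →+ M'')
    (hπ : Function.Surjective π) (hπequiv : ∀ σ P, π (act σ P) = act'' σ (π P)) :
    ∀ φ ∈ H.comap (pullFn R π), (fun PQ : M'' × M'' => φ (PQ.1 + PQ.2)) ∈
      Submodule.span R {F : M'' × M'' → AlgebraicClosure ℚ |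
        ∃ a ∈ H.comap (pullFn R π), ∃ b ∈ H.comap (pullFn R π),
          F = fun PQ => a PQ.1 * b PQ.2} := by
  classical
  intro φ hφ
  obtain ⟨n, y, hy⟩ := sq_exists_basis hH.fg hH.equivariant
  have hfg'' := sq_quot_fg hH.fg hπ
  have hequiv'' := sq_quot_equivariant (act'' := act'') hH.equivariant hπ hπequiv
  obtain ⟨k, u, hu⟩ := sq_exists_basis hfg'' hequiv''
  -- the pulled back basis of `H''` is linearly independent on `M`
  have hu' : LinearIndependent (AlgebraicClosure ℚ)
      (fun i => fun P : M => ((u i : H.comap (pullFn R π)) : M'' → AlgebraicClosure ℚ) (π P)) := by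
    have h1 := hu.map' (LinearMap.funLeft (AlgebraicClosure ℚ) (AlgebraicClosure ℚ) π)
      (LinearMap.ker_eq_bot.2 (LinearMap.funLeft_injective_of_surjective _ _ π hπ))
    exact h1
  -- Step 1: expansion of `F` in the second variable
  have hstep1 : ∀ F ∈ Submodule.span R {F : M × M → AlgebraicClosure ℚ |
      ∃ a ∈ H, ∃ b ∈ H, F = fun PQ => a PQ.1 * b PQ.2},
      ∃ g : Fin n → M → AlgebraicClosure ℚ, (∀ j, g j ∈ H) ∧
        ∀ P Q, F (P, Q) = ∑ j, g j P * ((y j : H) : M → AlgebraicClosure ℚ) Q := by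
    intro F hF
    induction hF using Submodule.span_induction with
    | mem F hF =>
      obtain ⟨a, ha, b, hb, rfl⟩ := hF
      refine ⟨fun j => y.repr ⟨b, hb⟩ j • a, fun j => H.smul_mem ha _, fun P Q => ?_⟩
      have h1 : (⟨b, hb⟩ : H) = ∑ j, y.repr ⟨b, hb⟩ j • y j := (y.sum_repr _).symm
      have h2 := congrArg (fun x : H => (x : M → AlgebraicClosure ℚ) Q) h1
      simp only [AddSubmonoidClass.coe_finsetSum, Finset.sum_apply] at h2
      show a P * b Q = _
      rw [h2, Finset.mul_sum]
      refine Finset.sum_congr rfl fun j _ => ?_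
      rw [sq_coe_smul_apply]
      show _ = (y.repr ⟨b, hb⟩ j • a) P * _
      rw [Pi.smul_apply, Algebra.smul_def]
      ring
    | zero =>
      exact ⟨fun _ => 0, fun _ => H.zero_mem, fun P Q => by simp⟩
    | add F G _ _ hF hG =>
      obtain ⟨g, hg, hgF⟩ := hF
      obtain ⟨g', hg', hgG⟩ := hG
      refine ⟨fun j => g j + g' j, fun j => H.add_mem (hg j) (hg' j), fun P Q => ?_⟩
      simp only [Pi.add_apply, hgF, hgG, add_mul, Finset.sum_add_distrib]
    | smul r F _ hF =>
      obtain ⟨g, hg, hgF⟩ := hF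
      refine ⟨fun j => r • g j, fun j => H.smul_mem (hg j) _, fun P Q => ?_⟩
      simp only [Pi.smul_apply, hgF, Algebra.smul_def]
      rw [Finset.mul_sum]
      refine Finset.sum_congr rfl fun j _ => ?_
      ring
  obtain ⟨g, hg, hgF⟩ := hstep1 _ (hH.comul_mem _ hφ)
  have hF : ∀ P Q : M, φ (π (P + Q)) = ∑ j, g j P * ((y j : H) : M → AlgebraicClosure ℚ) Q :=
    fun P Q => hgF P Q
  -- Step 2: the `g j` are invariant under the kernel
  have hginv : ∀ j P m, π m = 0 → g j (P + m) = g j P := by
    intro j P m hm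
    refine sq_coeff_eq _ hy g (P + m) P (fun Q => ?_) j
    rw [← hF, ← hF]
    congr 1
    rw [map_add, map_add, map_add, hm, add_zero]
  choose g'' hg'' using fun j => sq_descend π hπ (g j) (hginv j)
  have hg''mem : ∀ j, g'' j ∈ H.comap (pullFn R π) := by
    intro j
    rw [sq_mem_comap]
    have : (fun P => g'' j (π P)) = g j := funext (hg'' j)
    rw [this]
    exact hg j
  -- Step 3: expansion in the basis of `H''`
  have hexp : ∀ j (P'' : M''), g'' j P'' =
      ∑ i, algebraMap R (AlgebraicClosure ℚ) (u.repr ⟨g'' j, hg''mem j⟩ i) *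
        ((u i : H.comap (pullFn R π)) : M'' → AlgebraicClosure ℚ) P'' := by
    intro j P''
    have h1 : (⟨g'' j, hg''mem j⟩ : H.comap (pullFn R π)) =
        ∑ i, u.repr ⟨g'' j, hg''mem j⟩ i • u i := (u.sum_repr _).symm
    have h2 := congrArg
      (fun x : H.comap (pullFn R π) => (x : M'' → AlgebraicClosure ℚ) P'') h1
    simp only [AddSubmonoidClass.coe_finsetSum, Finset.sum_apply] at h2
    refine h2.trans ?_
    refine Finset.sum_congr rfl fun i _ => ?_
    exact sq_coe_smul_apply _ _ _ _
  set kk : Fin k → M → AlgebraicClosure ℚ := fun i =>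
    ∑ j, u.repr ⟨g'' j, hg''mem j⟩ i • ((y j : H) : M → AlgebraicClosure ℚ) with hkk
  have hkkmem : ∀ i, kk i ∈ H := fun i =>
    H.sum_mem fun j _ => H.smul_mem (y j).2 _
  have hF2 : ∀ P Q : M, φ (π (P + Q)) =
      ∑ i, kk i Q * ((u i : H.comap (pullFn R π)) : M'' → AlgebraicClosure ℚ) (π P) := by
    intro P Q
    rw [hF]
    have h1 : ∀ j, g j P = ∑ i, algebraMap R (AlgebraicClosure ℚ) (u.repr ⟨g'' j, hg''mem j⟩ i) *
        ((u i : H.comap (pullFn R π)) : M'' → AlgebraicClosure ℚ) (π P) := by
      intro j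
      rw [← hg'' j P, hexp]
    simp only [h1, hkk, Finset.sum_apply, Pi.smul_apply, Algebra.smul_def, Finset.sum_mul]
    rw [Finset.sum_comm]
    refine Finset.sum_congr rfl fun i _ => ?_
    refine Finset.sum_congr rfl fun j _ => ?_
    rw [Pi.mul_apply, Pi.algebraMap_apply]
    ring
  -- Step 4: the `kk i` are invariant under the kernel
  have hkinv : ∀ i Q m, π m = 0 → kk i (Q + m) = kk i Q := by
    intro i Q m hm
    refine sq_coeff_eq _ hu' kk (Q + m) Q (fun P => ?_) i
    show ∑ i, kk i (Q + m) * ((u i : H.comap (pullFn R π)) : M'' → AlgebraicClosure ℚ) (π P) =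
      ∑ i, kk i Q * ((u i : H.comap (pullFn R π)) : M'' → AlgebraicClosure ℚ) (π P)
    rw [← hF2, ← hF2]
    congr 1
    rw [map_add, map_add, map_add, hm, add_zero]
  choose k'' hk'' using fun i => sq_descend π hπ (kk i) (hkinv i)
  have hk''mem : ∀ i, k'' i ∈ H.comap (pullFn R π) := by
    intro i
    rw [sq_mem_comap]
    have : (fun P => k'' i (π P)) = kk i := funext (hk'' i)
    rw [this]
    exact hkkmem i
  -- Step 5
  have hfinal : (fun PQ : M'' × M'' => φ (PQ.1 + PQ.2)) =
      ∑ i, (fun PQ : M'' × M'' =>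
        ((u i : H.comap (pullFn R π)) : M'' → AlgebraicClosure ℚ) PQ.1 * k'' i PQ.2) := by
    funext ⟨P'', Q''⟩
    obtain ⟨P, rfl⟩ := hπ P''
    obtain ⟨Q, rfl⟩ := hπ Q''
    rw [Finset.sum_apply]
    show φ (π P + π Q) = _
    rw [← map_add, hF2]
    refine Finset.sum_congr rfl fun i _ => ?_
    rw [hk'' i Q, mul_comm]
  rw [hfinal]
  exact Submodule.sum_mem _ fun i _ =>
    Submodule.subset_span ⟨_, (u i).2, _, hk''mem i, rfl⟩

/-- **(SQ2)** The quotient of a Hopf lattice by an equivariant surjection is a Hopf lattice. -/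
theorem sq_quot [Finite M] (hH : IsHopfLattice R act H) (π : M →+ M'')
    (hπ : Function.Surjective π) (hπequiv : ∀ σ P, π (act σ P) = act'' σ (π P)) :
    IsHopfLattice R act'' (H.comap (pullFn R π)) where
  fg := sq_quot_fg hH.fg hπ
  equivariant := sq_quot_equivariant hH.equivariant hπ hπequiv
  separates := sq_quot_separates hH.fg hH.equivariant hH.separates hπ hπequiv
  comul_mem := sq_quot_comul hH π hπ hπequiv
  antipode_mem := by
    intro φ hφ
    rw [sq_mem_comap] at hφ ⊢
    have h1 := hH.antipode_mem _ hφ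
    convert h1 using 2 with P
    rw [map_neg]
  counit_mem := by
    intro φ hφ
    rw [sq_mem_comap] at hφ
    obtain ⟨r, hr⟩ := hH.counit_mem _ hφ
    refine ⟨r, ?_⟩
    rw [← hr]
    show φ 0 = φ (π 0)
    rw [map_zero]

end Quot

end Fermat.Agent.W1


end ZBW1_003_6

/-! ### bundled: `Fermat.Agent.W1.SubQuot` -/
section ZBW1_003_7

/-!
# W1-SQ: sub-objects, quotients and products of finite flat models (no Raynaud)

Main results (`R ⊂ ℚ` a PID with fraction field `ℚ`, `M` a finite abelian group with a map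
`act : G_ℚ → M → M`):

* `sq_lattice_of_model` : `HasFiniteFlatModel R M act → ∃ H, IsHopfLattice R act H`
  (converse of `hasFiniteFlatModel_of_isHopfLattice`);
* `hasFiniteFlatModel_of_injective` : (SQ1) a sub-object of a group with a finite flat model has a
  finite flat model;
* `hasFiniteFlatModel_of_surjective` : (SQ2) a quotient has one;
* `hasFiniteFlatModel_prod` : (SQ3) a product has one;
* `sq_isFlatAt_iff` : the prelude's `GaloisRepAdic.IsFlatAt` in terms of `HasFiniteFlatModel`.
-/

set_option autoImplicit false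
set_option linter.unusedSectionVars false
set_option linter.unusedSimpArgs false
set_option linter.style.haveILetI false

open TensorProduct

namespace Fermat.Agent.W1

section Model

variable {R : Subring ℚ} {M : Type} [AddCommGroup M]
  {act : (AlgebraicClosure ℚ ≃ₐ[ℚ] AlgebraicClosure ℚ) → M → M}

/-- A finite flat model gives a Hopf lattice of functions. -/
theorem sq_lattice_of_model [Finite M] (hM : HasFiniteFlatModel R M act) :
    ∃ H : Subalgebra R (M → AlgebraicClosure ℚ), IsHopfLattice R act H := by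
  obtain ⟨Ha, instCR, instHopf, hfin, hflat, hcocomm, e, hadd, hgal⟩ := hM
  -- the functions attached to the elements of `Ha`
  let Φ : Ha →ₐ[R] (M → AlgebraicClosure ℚ) :=
    AlgHom.pi (fun P => (e.symm P).ofConv)
  have hΦ : ∀ (a : Ha) (P : M), Φ a P = (e.symm P).ofConv a := fun a P => rfl
  have hmul : ∀ P Q : M, e.symm (P + Q) = e.symm P * e.symm Q := by
    intro P Q
    apply e.injective
    rw [hadd, e.apply_symm_apply, e.apply_symm_apply, e.apply_symm_apply]
  have hone : e.symm 0 = 1 := by
    apply e.injective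
    rw [e.apply_symm_apply]
    have h1 := hadd 1 1
    rw [mul_one] at h1
    exact (add_eq_left.1 h1.symm).symm
  have hcomul : ∀ h ∈ Φ.range, (fun PQ : M × M => h (PQ.1 + PQ.2)) ∈
      Submodule.span R {F : M × M → AlgebraicClosure ℚ |
        ∃ a ∈ Φ.range, ∃ b ∈ Φ.range, F = fun PQ => a PQ.1 * b PQ.2} := by
    rintro _ ⟨a, rfl⟩
    have key : ∀ t : Ha ⊗[R] Ha, (fun PQ : M × M =>
        Algebra.TensorProduct.lift (e.symm PQ.1).ofConv (e.symm PQ.2).ofConv
          (fun _ _ => Commute.all _ _) t) ∈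
        Submodule.span R {F : M × M → AlgebraicClosure ℚ |
          ∃ a ∈ Φ.range, ∃ b ∈ Φ.range, F = fun PQ => a PQ.1 * b PQ.2} := by
      intro t
      induction t using TensorProduct.induction_on with
      | zero =>
        convert Submodule.zero_mem _ using 1
        funext PQ
        simp
      | tmul x y =>
        refine Submodule.subset_span ⟨Φ x, ⟨x, rfl⟩, Φ y, ⟨y, rfl⟩, ?_⟩
        funext PQ
        simp [hΦ]
      | add x y hx hy =>
        convert Submodule.add_mem _ hx hy using 1
        funext PQ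
        simp
    convert key (Coalgebra.comul (R := R) a) using 1
    funext PQ
    show (e.symm (PQ.1 + PQ.2)).ofConv a = _
    rw [hmul, AlgHom.convMul_apply]
  refine ⟨Φ.range, ?_⟩
  refine
    { fg := ?_
      equivariant := ?_
      separates := ?_
      comul_mem := hcomul
      antipode_mem := core_antipode_mem hcomul
      counit_mem := ?_ }
  · rw [← Algebra.map_top, Subalgebra.map_toSubmodule, Algebra.top_toSubmodule]
    exact (Module.Finite.fg_top).map _
  · rintro _ ⟨a, rfl⟩ σ P
    show Φ a (act σ P) = σ (Φ a P)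
    rw [hΦ, hΦ]
    set f := e.symm P with hf
    set g : WithConv (Ha →ₐ[R] AlgebraicClosure ℚ) :=
      WithConv.toConv ((AlgHom.restrictScalars R
        (σ : AlgebraicClosure ℚ →ₐ[ℚ] AlgebraicClosure ℚ)).comp f.ofConv) with hg
    have h1 : e g = act σ (e f) := hgal σ f g (fun h => rfl)
    rw [hf, e.apply_symm_apply] at h1
    rw [← h1, e.symm_apply_apply]
    rfl
  · intro P Q hPQ
    apply e.symm.injective
    apply WithConv.ofConv_injective
    refine AlgHom.ext fun a => ?_
    exact hPQ (Φ a) ⟨a, rfl⟩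
  · rintro _ ⟨a, rfl⟩
    refine ⟨Coalgebra.counit (R := R) a, ?_⟩
    show Φ a 0 = _
    rw [hΦ, hone]
    rfl

end Model

section Closure

variable {R : Subring ℚ} [IsPrincipalIdealRing R] [IsFractionRing R ℚ]
  {M M' : Type} [AddCommGroup M] [AddCommGroup M']
  {act : (AlgebraicClosure ℚ ≃ₐ[ℚ] AlgebraicClosure ℚ) → M → M}
  {act' : (AlgebraicClosure ℚ ≃ₐ[ℚ] AlgebraicClosure ℚ) → M' → M'}

/-- **(SQ1)** A sub-object of a group with a finite flat model has a finite flat model. -/
theorem hasFiniteFlatModel_of_injective [Finite M] (hM : HasFiniteFlatModel R M act)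
    (ι : M' →+ M) (hι : Function.Injective ι) (hequiv : ∀ σ P, ι (act' σ P) = act σ (ι P)) :
    HasFiniteFlatModel R M' act' := by
  obtain ⟨H, hH⟩ := sq_lattice_of_model hM
  haveI : Finite M' := Finite.of_injective ι hι
  exact hasFiniteFlatModel_of_isHopfLattice (sq_sub hH ι hι hequiv)

/-- **(SQ2)** A quotient of a group with a finite flat model has a finite flat model. -/
theorem hasFiniteFlatModel_of_surjective [Finite M] (hM : HasFiniteFlatModel R M act)
    (π : M →+ M') (hπ : Function.Surjective π) (hequiv : ∀ σ P, π (act σ P) = act' σ (π P)) :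
    HasFiniteFlatModel R M' act' := by
  obtain ⟨H, hH⟩ := sq_lattice_of_model hM
  haveI : Finite M' := Finite.of_surjective π hπ
  exact hasFiniteFlatModel_of_isHopfLattice (sq_quot hH π hπ hequiv)

/-- **(SQ3)** A product of groups with finite flat models has a finite flat model. -/
theorem hasFiniteFlatModel_prod [Finite M] [Finite M'] (hM : HasFiniteFlatModel R M act)
    (hM' : HasFiniteFlatModel R M' act') :
    HasFiniteFlatModel R (M × M') (fun σ P => (act σ P.1, act' σ P.2)) := by
  obtain ⟨H, hH⟩ := sq_lattice_of_model hM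
  obtain ⟨H', hH'⟩ := sq_lattice_of_model hM'
  exact hasFiniteFlatModel_of_isHopfLattice (sq_prod hH hH')

/-- Transport of a finite flat model along an equivariant additive bijection. -/
theorem hasFiniteFlatModel_of_equiv [Finite M] (hM : HasFiniteFlatModel R M act)
    (ε : M ≃+ M') (hequiv : ∀ σ P, ε (act σ P) = act' σ (ε P)) :
    HasFiniteFlatModel R M' act' :=
  hasFiniteFlatModel_of_surjective hM ε.toAddMonoidHom ε.surjective hequiv

/-- **Sub-quotients**: if `M'` is a quotient of a sub-object `N` of `M`, it has a finite flat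
model as soon as `M` has one. -/
theorem hasFiniteFlatModel_of_subquotient [Finite M] (hM : HasFiniteFlatModel R M act)
    {N : Type} [AddCommGroup N]
    (actN : (AlgebraicClosure ℚ ≃ₐ[ℚ] AlgebraicClosure ℚ) → N → N)
    (ι : N →+ M) (hι : Function.Injective ι) (hιequiv : ∀ σ P, ι (actN σ P) = act σ (ι P))
    (π : N →+ M') (hπ : Function.Surjective π) (hπequiv : ∀ σ P, π (actN σ P) = act' σ (π P)) :
    HasFiniteFlatModel R M' act' := by
  haveI : Finite N := Finite.of_injective ι hι
  exact hasFiniteFlatModel_of_surjective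
    (hasFiniteFlatModel_of_injective hM ι hι hιequiv) π hπ hπequiv

/-- (SQ1) for an `act`-stable subgroup. -/
theorem hasFiniteFlatModel_addSubgroup [Finite M] (hM : HasFiniteFlatModel R M act)
    (N : AddSubgroup M) (hN : ∀ σ, ∀ x ∈ N, act σ x ∈ N) :
    HasFiniteFlatModel R N (fun σ x => ⟨act σ x.1, hN σ x.1 x.2⟩) :=
  hasFiniteFlatModel_of_injective hM N.subtype N.subtype_injective (fun _ _ => rfl)

/-- (SQ2) for the quotient by a subgroup, with any action compatible with the projection. -/
theorem hasFiniteFlatModel_quotient [Finite M] (hM : HasFiniteFlatModel R M act)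
    (N : AddSubgroup M)
    (actQ : (AlgebraicClosure ℚ ≃ₐ[ℚ] AlgebraicClosure ℚ) → M ⧸ N → M ⧸ N)
    (hQ : ∀ σ (x : M), actQ σ (QuotientAddGroup.mk x) = QuotientAddGroup.mk (act σ x)) :
    HasFiniteFlatModel R (M ⧸ N) actQ :=
  hasFiniteFlatModel_of_surjective hM (QuotientAddGroup.mk' N)
    (QuotientAddGroup.mk'_surjective N) (fun σ x => (hQ σ x).symm)

end Closure

section Pi

variable {R : Subring ℚ} [IsPrincipalIdealRing R] [IsFractionRing R ℚ]
  {M : Type} [AddCommGroup M]
  {act : (AlgebraicClosure ℚ ≃ₐ[ℚ] AlgebraicClosure ℚ) → M → M}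

omit [IsPrincipalIdealRing R] [IsFractionRing R ℚ] in
/-- The lattice of constants on a trivial group. -/
theorem sq_isHopfLattice_bot [Subsingleton M] :
    IsHopfLattice R act (⊥ : Subalgebra R (M → AlgebraicClosure ℚ)) where
  fg := by
    rw [Algebra.toSubmodule_bot, Submodule.one_eq_span]
    exact Submodule.fg_span_singleton (R := R) (1 : M → AlgebraicClosure ℚ)
  equivariant := by
    intro h hh σ P
    obtain ⟨r, rfl⟩ := Algebra.mem_bot.1 hh
    simp only [Pi.algebraMap_apply]
    exact (sq_galois_algebraMap R σ r).symm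
  separates := fun P Q _ => Subsingleton.elim P Q
  comul_mem := by
    intro h hh
    obtain ⟨r, rfl⟩ := Algebra.mem_bot.1 hh
    have h1 : (fun PQ : M × M => (algebraMap R (M → AlgebraicClosure ℚ) r) (PQ.1 + PQ.2)) =
        r • (fun PQ : M × M => (1 : M → AlgebraicClosure ℚ) PQ.1 *
          (1 : M → AlgebraicClosure ℚ) PQ.2) := by
      funext PQ
      simp [Algebra.smul_def]
    rw [h1]
    exact Submodule.smul_mem _ _ (Submodule.subset_span
      ⟨1, Subalgebra.one_mem _, 1, Subalgebra.one_mem _, rfl⟩)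
  antipode_mem := by
    intro h hh
    obtain ⟨r, rfl⟩ := Algebra.mem_bot.1 hh
    exact Algebra.mem_bot.2 ⟨r, rfl⟩
  counit_mem := by
    intro h hh
    obtain ⟨r, rfl⟩ := Algebra.mem_bot.1 hh
    exact ⟨r, rfl⟩

/-- A trivial group has a finite flat model. -/
theorem hasFiniteFlatModel_of_subsingleton [Subsingleton M] : HasFiniteFlatModel R M act :=
  hasFiniteFlatModel_of_isHopfLattice (sq_isHopfLattice_bot (R := R) (act := act))

/-- **(SQ3')** Finite powers of a group with a finite flat model have a finite flat model. -/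
theorem hasFiniteFlatModel_fin [Finite M] (hM : HasFiniteFlatModel R M act) (n : ℕ) :
    HasFiniteFlatModel R (Fin n → M) (fun σ f i => act σ (f i)) := by
  induction n with
  | zero => exact hasFiniteFlatModel_of_subsingleton
  | succ n ih =>
    have h1 := hasFiniteFlatModel_prod hM ih
    let π : M × (Fin n → M) →+ (Fin (n + 1) → M) :=
      { toFun := fun x => Fin.cons x.1 x.2
        map_zero' := by
          funext i
          refine Fin.cases ?_ (fun j => ?_) i <;> simp
        map_add' := by
          intro x y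
          funext i
          refine Fin.cases ?_ (fun j => ?_) i <;> simp }
    refine hasFiniteFlatModel_of_surjective h1 π ?_ ?_
    · intro f
      refine ⟨(f 0, fun j => f j.succ), ?_⟩
      funext i
      refine Fin.cases ?_ (fun j => ?_) i <;> simp [π]
    · intro σ x
      funext i
      refine Fin.cases ?_ (fun j => ?_) i <;> simp [π]

/-- **(SQ3'')** Finite powers indexed by a finite type. -/
theorem hasFiniteFlatModel_pi [Finite M] (hM : HasFiniteFlatModel R M act)
    (ι : Type) [Finite ι] :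
    HasFiniteFlatModel R (ι → M) (fun σ f i => act σ (f i)) := by
  obtain ⟨n, ⟨ε⟩⟩ := Finite.exists_equiv_fin ι
  let π : (Fin n → M) →+ (ι → M) :=
    { toFun := fun f i => f (ε i)
      map_zero' := rfl
      map_add' := fun _ _ => rfl }
  refine hasFiniteFlatModel_of_surjective (hasFiniteFlatModel_fin hM n) π ?_ ?_
  · intro f
    refine ⟨fun j => f (ε.symm j), ?_⟩
    funext i
    simp [π]
  · intro σ f
    rfl

end Pi

section Flat

variable {A : Type} [CommRing A] [IsLocalRing A]

/-- The prelude's `IsFlatAt` in terms of `HasFiniteFlatModel`. -/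
theorem sq_isFlatAt_iff (ρ : GaloisRepAdic A) (p : ℕ) :
    ρ.IsFlatAt p ↔ Finite (IsLocalRing.ResidueField A) ∧
      ∀ I : Ideal A, Finite (A ⧸ I) →
        HasFiniteFlatModel (GaloisRep.ratLocalizedAt p)
          (ρ.V ⧸ (I • (⊤ : Submodule A ρ.V))) (fun σ => ρ.levelAction I σ) :=
  Iff.rfl

end Flat

end Fermat.Agent.W1


end ZBW1_003_7
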