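/- GENERATED FILE (helper35, build-time optimisation, NOTES/ZB.md): verbatim concatenation of the modules
   Fermat.Agent.TW.W.Inj
   Fermat.Agent.TW.W.GrHensel
   Fermat.Agent.TW.W.GrNorm
   Fermat.Agent.TW.W.Lift
   Fermat.Agent.TW.W.InjVal
   Fermat.Agent.TW.W.T2
   Fermat.Agent.TW.W.LiftLat
   Fermat.Agent.TW.W.T2Loc
   Fermat.Agent.TW.W.PmCore
   Fermat.Agent.TW.W.PmField
   Fermat.Agent.TW.W.GrInert
   Fermat.Agent.TW.W.GrFrob
   Fermat.Agent.TW.W.GrTame
   Do not edit; do not import together with these modules. -/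
import Mathlib
import Fermat.Agent.ZB.PT_004
import Mathlib.NumberTheory.Padics.Complex
import Fermat.Agent.ZB.W1_003
import Fermat.Agent.ZB.W1_001
import Fermat.Agent.ZB.S28_005
import Fermat.Prelude.Def_GaloisRep_CompletionBridge
import Fermat.Agent.ZB.PT_003
import Fermat.Agent.ZB.Cheb_001

/-! ### bundled: `Fermat.Agent.TW.W.Inj` -/
section ZBTW_004_0

/-!
# TW-W (INJ): injectivity of reduction on `p`-torsion points

Abstract form (Mathlib only).  `B` a commutative ring, `ϖ ∈ B` a non-zero-divisor with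
`ϖ ^ e = p * w`, `e < (p - 1) * a`.  If `(1 + y) ^ p = 1` and `ϖ ^ a ∣ y` then `ϖ ^ n ∣ y` for all `n`.
-/

namespace Fermat.Agent.TW.W

open Polynomial

/-- The binomial expansion for a prime exponent, with the linear term made explicit:
`(1 + X) ^ p = 1 + p X (1 + X c) + X ^ p` in `ℤ[X]`. -/
theorem tww_inj_binom_poly (p : ℕ) (hp : p.Prime) :
    ∃ c : ℤ[X], (1 + X : ℤ[X]) ^ p = 1 + (p : ℤ[X]) * X * (1 + X * c) + X ^ p := by
  obtain ⟨r, hr⟩ := exists_add_pow_prime_eq hp (1 : ℤ[X]) X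
  have h2 : 2 ≤ p := hp.two_le
  -- coefficient of `X` on both sides
  have hc1 : ((1 + X : ℤ[X]) ^ p).coeff 1 = p := by
    rw [add_comm, coeff_X_add_one_pow]
    simp
  have hc2 : ((1 : ℤ[X]) ^ p + X ^ p + (p : ℤ[X]) * 1 * X * r).coeff 1 = p * r.coeff 0 := by
    have e1 : ((p : ℤ[X]) * 1 * X * r) = C (p : ℤ) * (r * X) := by
      simp only [mul_one, map_natCast]; ring
    rw [e1, coeff_add, coeff_add, coeff_C_mul, coeff_mul_X, one_pow, coeff_one, coeff_X_pow]
    have : (1 : ℕ) ≠ p := by omega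
    simp [this]
  have hr0 : r.coeff 0 = 1 := by
    have := hc1
    rw [hr, hc2] at this
    have hp0 : (p : ℤ) ≠ 0 := by exact_mod_cast hp.ne_zero
    exact mul_left_cancel₀ hp0 (by rw [this, mul_one])
  have hdvd : (X : ℤ[X]) ∣ r - 1 := by
    rw [X_dvd_iff]; simp [hr0]
  obtain ⟨c, hc⟩ := hdvd
  refine ⟨c, ?_⟩
  rw [hr, ← hc]; ring

/-- The binomial expansion for a prime exponent in any commutative ring. -/
theorem tww_inj_binom {B : Type*} [CommRing B] (p : ℕ) (hp : p.Prime) (y : B) :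
    ∃ c : B, (1 + y) ^ p = 1 + (p : B) * y * (1 + y * c) + y ^ p := by
  obtain ⟨c, hc⟩ := tww_inj_binom_poly p hp
  refine ⟨aeval y c, ?_⟩
  have := congrArg (aeval y) hc
  simpa using this

/-- One step: from `ϖ ^ n ∣ y` (with `a ≤ n`) to `ϖ ^ (n + 1) ∣ y`. -/
theorem tww_inj_step {B : Type*} [CommRing B] (p : ℕ) (hp : p.Prime) (ϖ w y : B) (e a n : ℕ)
    (hϖ : ϖ ∈ nonZeroDivisors B) (hpw : ϖ ^ e = (p : B) * w) (ha : e < (p - 1) * a)
    (han : a ≤ n) (hy : ϖ ^ n ∣ y) (hx : (1 + y) ^ p = 1) : ϖ ^ (n + 1) ∣ y := by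
  obtain ⟨y₁, rfl⟩ := hy
  obtain ⟨c, hc⟩ := tww_inj_binom p hp (ϖ ^ n * y₁)
  have h2 : 2 ≤ p := hp.two_le
  have hn1 : 1 ≤ n := by
    rcases Nat.eq_zero_or_pos a with h0 | h0
    · subst h0; simp at ha
    · omega
  -- exponent bookkeeping: `p * n = (e + n) + d + 1`
  have hle : (p - 1) * a ≤ (p - 1) * n := Nat.mul_le_mul_left _ han
  have hpn : p * n = (p - 1) * n + n := by
    conv_lhs => rw [show p = (p - 1) + 1 by omega]
    rw [add_mul, one_mul]
  obtain ⟨d, hd⟩ : ∃ d, p * n = (e + n) + (d + 1) := ⟨p * n - (e + n) - 1, by omega⟩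
  -- the relation `p y u + y ^ p = 0`
  have h0 : (p : B) * (ϖ ^ n * y₁) * (1 + ϖ ^ n * y₁ * c) + (ϖ ^ n * y₁) ^ p = 0 := by
    have := hc
    rw [hx] at this
    linear_combination -this
  have h1 : ϖ ^ (e + n) * (y₁ * (1 + ϖ ^ n * y₁ * c) + w * ϖ ^ (d + 1) * y₁ ^ p) = 0 := by
    have e1 : (ϖ ^ n * y₁) ^ p = ϖ ^ (e + n) * (ϖ ^ (d + 1) * y₁ ^ p) := by
      rw [mul_pow, ← pow_mul, mul_comm n p, hd, pow_add, mul_assoc]
    rw [e1] at h0
    linear_combination w * h0 + (ϖ ^ n * y₁ * (1 + ϖ ^ n * y₁ * c)) * hpw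
  have h3 : y₁ * (1 + ϖ ^ n * y₁ * c) + w * ϖ ^ (d + 1) * y₁ ^ p = 0 :=
    (mul_left_mem_nonZeroDivisors_eq_zero_iff (pow_mem hϖ (e + n))).mp h1
  have h4 : ϖ ∣ y₁ := by
    obtain ⟨m, hm⟩ : ∃ m, n = m + 1 := ⟨n - 1, by omega⟩
    refine ⟨-(ϖ ^ m * y₁ * c * y₁ + w * ϖ ^ d * y₁ ^ p), ?_⟩
    rw [hm] at h3
    linear_combination h3
  obtain ⟨z, hz⟩ := h4
  exact ⟨z, by rw [hz, pow_succ]; ring⟩

/-- **(INJ), abstract form.** -/
theorem tww_inj_pow_dvd {B : Type*} [CommRing B] (p : ℕ) (hp : p.Prime) (ϖ w y : B) (e a : ℕ)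
    (hϖ : ϖ ∈ nonZeroDivisors B) (hpw : ϖ ^ e = (p : B) * w) (ha : e < (p - 1) * a)
    (hy : ϖ ^ a ∣ y) (hx : (1 + y) ^ p = 1) : ∀ n, ϖ ^ n ∣ y := by
  have key : ∀ k, ϖ ^ (a + k) ∣ y := by
    intro k
    induction k with
    | zero => simpa using hy
    | succ k ih =>
      have := tww_inj_step p hp ϖ w y e a (a + k) hϖ hpw ha (Nat.le_add_right _ _) ih hx
      simpa [add_assoc] using this
  intro n
  exact (pow_dvd_pow ϖ (Nat.le_add_left n a)).trans (by simpa [add_comm] using key n)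

/-- (INJ) with separatedness: the element is zero. -/
theorem tww_inj_eq_zero {B : Type*} [CommRing B] (p : ℕ) (hp : p.Prime) (ϖ w y : B) (e a : ℕ)
    (hϖ : ϖ ∈ nonZeroDivisors B) (hpw : ϖ ^ e = (p : B) * w) (ha : e < (p - 1) * a)
    (hsep : ∀ z : B, (∀ n, ϖ ^ n ∣ z) → z = 0)
    (hy : ϖ ^ a ∣ y) (hx : (1 + y) ^ p = 1) : y = 0 :=
  hsep y (tww_inj_pow_dvd p hp ϖ w y e a hϖ hpw ha hy hx)

/-- (INJ) for two elements with the same `p`-th power, one of them invertible. -/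
theorem tww_inj_eq_of_pow_eq {B : Type*} [CommRing B] (p : ℕ) (hp : p.Prime) (ϖ w : B) (e a : ℕ)
    (hϖ : ϖ ∈ nonZeroDivisors B) (hpw : ϖ ^ e = (p : B) * w) (ha : e < (p - 1) * a)
    (hsep : ∀ z : B, (∀ n, ϖ ^ n ∣ z) → z = 0)
    (x x' : B) (hu : IsUnit x') (hpow : x ^ p = x' ^ p) (hy : ϖ ^ a ∣ x - x') : x = x' := by
  obtain ⟨u, rfl⟩ := hu
  set v : B := ((u⁻¹ : Bˣ) : B) with hv
  have huv : (u : B) * v = 1 := by simp [hv]
  have h1 : (1 + (x - u) * v) = x * v := by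
    linear_combination (-1 : B) * huv
  have h2 : (1 + (x - u) * v) ^ p = 1 := by
    rw [h1, mul_pow, hpow, ← mul_pow, huv, one_pow]
  have h3 : ϖ ^ a ∣ (x - u) * v := Dvd.dvd.mul_right hy v
  have h4 := tww_inj_eq_zero p hp ϖ w _ e a hϖ hpw ha hsep h3 h2
  have h5 : x - u = 0 := by
    have := congrArg (fun t => t * (u : B)) h4
    simp only [zero_mul] at this
    rw [mul_assoc, mul_comm v, huv, mul_one] at this
    exact this
  exact sub_eq_zero.mp h5

section Conv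

open WithConv

variable {R C S : Type*} [CommRing R] [AddCommGroup C] [Module R C] [Coalgebra R C]
  [CommRing S] [Algebra R S]

theorem tww_inj_algebraMap_mul_apply (s : S) (g : WithConv (C →ₗ[R] S)) (h : C) :
    (algebraMap S (WithConv (C →ₗ[R] S)) s * g) h = s * g h := by
  rw [← Algebra.smul_def]
  rfl

/-- Pointwise divisibility by a non-zero-divisor is divisibility in the convolution ring. -/
theorem tww_inj_dvd_of_pointwise (s : S) (hs : s ∈ nonZeroDivisors S)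
    (x : WithConv (C →ₗ[R] S)) (hx : ∀ c : C, s ∣ x c) :
    algebraMap S (WithConv (C →ₗ[R] S)) s ∣ x := by
  classical
  choose g hg using hx
  have hcanc : ∀ u t : S, s * u = s * t → u = t := fun u t hst =>
    (mul_cancel_left_mem_nonZeroDivisors hs).mp hst
  let gl : C →ₗ[R] S :=
    { toFun := g
      map_add' := by
        intro h h'
        apply hcanc
        rw [mul_add, ← hg, ← hg, ← hg, map_add]
      map_smul' := by
        intro r h
        apply hcanc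
        rw [RingHom.id_apply, mul_smul_comm, ← hg, ← hg, map_smul] }
  refine ⟨toConv gl, ?_⟩
  ext h
  rw [tww_inj_algebraMap_mul_apply]
  exact hg h

theorem tww_inj_pointwise_of_dvd (s : S) (x : WithConv (C →ₗ[R] S))
    (hx : algebraMap S (WithConv (C →ₗ[R] S)) s ∣ x) (c : C) : s ∣ x c := by
  obtain ⟨g, rfl⟩ := hx
  exact ⟨g c, tww_inj_algebraMap_mul_apply s g c⟩

theorem tww_inj_algebraMap_mem_nonZeroDivisors [Coalgebra.IsCocomm R C] (s : S)
    (hs : s ∈ nonZeroDivisors S) :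
    algebraMap S (WithConv (C →ₗ[R] S)) s ∈ nonZeroDivisors (WithConv (C →ₗ[R] S)) := by
  rw [mem_nonZeroDivisors_iff_right]
  intro g hg
  rw [mul_comm] at hg
  ext h
  have h0 : (algebraMap S (WithConv (C →ₗ[R] S)) s * g) h = (0 : WithConv (C →ₗ[R] S)) h := by
    rw [hg]
  rw [tww_inj_algebraMap_mul_apply] at h0
  exact (mul_left_mem_nonZeroDivisors_eq_zero_iff hs).mp h0

/-- **(INJ), convolution-ring form**: in the convolution ring `Hom_R(C, S)` of a cocommutative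
coalgebra, two elements with the same `p`-th power (one of them invertible) which are pointwise
congruent modulo `ϖ ^ a` (`(p - 1) a > e = v_ϖ(p)`) are equal. -/
theorem tww_inj_conv [Coalgebra.IsCocomm R C] (p : ℕ) (hp : p.Prime) (ϖ w : S) (e a : ℕ)
    (hϖ : ϖ ∈ nonZeroDivisors S) (hpw : ϖ ^ e = (p : S) * w) (ha : e < (p - 1) * a)
    (hsep : ∀ z : S, (∀ n, ϖ ^ n ∣ z) → z = 0)
    (x x' : WithConv (C →ₗ[R] S)) (hu : IsUnit x') (hpow : x ^ p = x' ^ p)
    (hcong : ∀ c : C, ϖ ^ a ∣ x c - x' c) : x = x' := by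
  have hpowB : ∀ n, (algebraMap S (WithConv (C →ₗ[R] S)) ϖ) ^ n =
      algebraMap S (WithConv (C →ₗ[R] S)) (ϖ ^ n) := fun n => (map_pow _ _ _).symm
  have h1 : algebraMap S (WithConv (C →ₗ[R] S)) ϖ ∈ nonZeroDivisors (WithConv (C →ₗ[R] S)) :=
    tww_inj_algebraMap_mem_nonZeroDivisors ϖ hϖ
  have h2 : (algebraMap S (WithConv (C →ₗ[R] S)) ϖ) ^ e =
      (p : WithConv (C →ₗ[R] S)) * algebraMap S (WithConv (C →ₗ[R] S)) w := by
    rw [hpowB, hpw, map_mul, map_natCast]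
  have h3 : ∀ z : WithConv (C →ₗ[R] S),
      (∀ n, (algebraMap S (WithConv (C →ₗ[R] S)) ϖ) ^ n ∣ z) → z = 0 := by
    intro z hz
    ext h
    apply hsep
    intro n
    have := hz n
    rw [hpowB] at this
    exact tww_inj_pointwise_of_dvd _ z this h
  have hd : (algebraMap S (WithConv (C →ₗ[R] S)) ϖ) ^ a ∣ x - x' := by
    rw [hpowB]
    exact tww_inj_dvd_of_pointwise _ (pow_mem hϖ a) _ hcong
  exact tww_inj_eq_of_pow_eq p hp _ (algebraMap S (WithConv (C →ₗ[R] S)) w) e a h1 h2 ha h3 _ _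
    hu hpow hd

end Conv

section Points

open WithConv

variable {R H S : Type*} [CommRing R] [Ring H] [Bialgebra R H] [CommRing S] [Algebra R S]

/-- The linear map underlying a point, as an element of the convolution ring. -/
noncomputable def twwInjLin (ψ : WithConv (H →ₐ[R] S)) : WithConv (H →ₗ[R] S) :=
  toConv ψ.ofConv.toLinearMap

theorem twwInjLin_injective :
    Function.Injective (twwInjLin : WithConv (H →ₐ[R] S) → WithConv (H →ₗ[R] S)) :=
  toConv_injective.comp <| AlgHom.toLinearMap_injective.comp ofConv_injective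

theorem twwInjLin_pow (ψ : WithConv (H →ₐ[R] S)) (n : ℕ) :
    twwInjLin (ψ ^ n) = twwInjLin ψ ^ n :=
  AlgHom.toLinearMap_convPow ψ n

theorem twwInjLin_mul (ψ ψ' : WithConv (H →ₐ[R] S)) :
    twwInjLin (ψ * ψ') = twwInjLin ψ * twwInjLin ψ' :=
  AlgHom.toLinearMap_convMul ψ ψ'

theorem twwInjLin_one : twwInjLin (1 : WithConv (H →ₐ[R] S)) = 1 :=
  AlgHom.toLinearMap_convOne

theorem twwInjLin_apply (ψ : WithConv (H →ₐ[R] S)) (h : H) :
    twwInjLin ψ h = ψ h := rfl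

/-- **(INJ), points form**: two points of a cocommutative bialgebra killed by `p`, with
values in `S`, which are congruent modulo `ϖ ^ a` (`(p - 1) a > e = v_ϖ(p)`) are equal. -/
theorem tww_inj_algHom [Coalgebra.IsCocomm R H] (p : ℕ) (hp : p.Prime) (ϖ w : S) (e a : ℕ)
    (hϖ : ϖ ∈ nonZeroDivisors S) (hpw : ϖ ^ e = (p : S) * w) (ha : e < (p - 1) * a)
    (hsep : ∀ z : S, (∀ n, ϖ ^ n ∣ z) → z = 0)
    (ψ ψ' : WithConv (H →ₐ[R] S)) (hψ : ψ ^ p = 1) (hψ' : ψ' ^ p = 1)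
    (hcong : ∀ h : H, ϖ ^ a ∣ ψ h - ψ' h) : ψ = ψ' := by
  apply twwInjLin_injective
  have hx : twwInjLin ψ ^ p = twwInjLin ψ' ^ p := by
    rw [← twwInjLin_pow, ← twwInjLin_pow, hψ, hψ']
  have hu : IsUnit (twwInjLin ψ') := by
    have h2p : 2 ≤ p := hp.two_le
    refine IsUnit.of_mul_eq_one (twwInjLin ψ' ^ (p - 1)) ?_
    rw [← pow_succ', show p - 1 + 1 = p by omega, ← twwInjLin_pow, hψ', twwInjLin_one]
  exact tww_inj_conv p hp ϖ w e a hϖ hpw ha hsep _ _ hu hx hcong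

end Points

end Fermat.Agent.TW.W


end ZBTW_004_0

/-! ### bundled: `Fermat.Agent.TW.W.GrHensel` -/
section ZBTW_004_1
/-
TW-W, piece W-gr (helper65), part 1: SHARP HENSEL for `p`-th powers in a local field (PT-L API).

`F` a finite extension of `ℚ_p`, `w = wv p` its unnormalised valuation (`w(p) = [F : ℚ_p]`).
* `wgr_root_of_high` : `(p - 1) w(x) > w(p)` ⇒ `1 + p x = t ^ p` with `t = 1 + x y`, `y` integral.
-/

set_option autoImplicit false
set_option linter.unusedSectionVars false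
set_option linter.style.haveILetI false

open Polynomial

namespace Fermat.Agent.TW.W

open Fermat.Agent.PT.L

section Hensel

variable (q : ℕ) [Fact q.Prime] {F : Type} [Field F] [Algebra ℚ_[q] F]
  [FiniteDimensional ℚ_[q] F]

theorem wgr_natCast_eq : ((q : ℕ) : F) = qEl q F := by
  unfold qEl
  rw [map_natCast]

theorem wgr_wv_natCast : wv q ((q : ℕ) : F) = Module.finrank ℚ_[q] F := by
  rw [wgr_natCast_eq, wv_qEl]

theorem wgr_natCast_ne_zero : ((q : ℕ) : F) ≠ 0 := by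
  rw [wgr_natCast_eq]
  exact qEl_ne_zero q

/-- **Sharp Hensel for `p`-th powers**: if `(p - 1) w(x) > w(p)` then `1 + p x` is a `p`-th
power, of the form `(1 + x y) ^ p` with `y` integral. -/
theorem wgr_root_of_high {x : F}
    (hx : x = 0 ∨ (Module.finrank ℚ_[q] F : ℤ) < ((q : ℤ) - 1) * wv q x) :
    ∃ y : F, IsInt q y ∧ (1 + x * y) ^ q = 1 + (q : F) * x := by
  have hq : q.Prime := Fact.out
  rcases eq_or_ne x 0 with rfl | hx0
  · exact ⟨0, Or.inl rfl, by simp⟩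
  have hx := hx.resolve_left hx0
  have hn : (0 : ℤ) < Module.finrank ℚ_[q] F := by exact_mod_cast Module.finrank_pos
  have hq2 : (2 : ℤ) ≤ q := by exact_mod_cast hq.two_le
  have hwx : 0 < wv q x := by
    by_contra hcon
    rw [not_lt] at hcon
    have : ((q : ℤ) - 1) * wv q x ≤ 0 := mul_nonpos_of_nonneg_of_nonpos (by omega) hcon
    omega
  have hxO : x ∈ UE.OV q stmtWAdd F := Or.inr hwx.le
  set x' : UE.OV q stmtWAdd F := ⟨x, hxO⟩ with hx'
  have hx'm : x' ∈ IsLocalRing.maximalIdeal (UE.OV q stmtWAdd F) := by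
    rw [UE.mem_maximalIdeal_iff]
    exact Or.inr hwx
  -- `d = x^(q-1) / q`
  have hq0 : ((q : ℕ) : F) ≠ 0 := wgr_natCast_ne_zero q
  have hdv : wv q (x ^ (q - 1) / (q : F)) = ((q : ℤ) - 1) * wv q x - Module.finrank ℚ_[q] F := by
    rw [l0b_wv_div q (pow_ne_zero _ hx0) hq0, l0b_wv_pow, wgr_wv_natCast]
    have : ((q - 1 : ℕ) : ℤ) = (q : ℤ) - 1 := by
      have := hq.one_le
      push_cast [Nat.cast_sub this]
      ring
    rw [this]
  have hdO : x ^ (q - 1) / (q : F) ∈ UE.OV q stmtWAdd F := Or.inr (by rw [hdv]; omega)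
  set d : UE.OV q stmtWAdd F := ⟨x ^ (q - 1) / (q : F), hdO⟩ with hd
  have hdm : d ∈ IsLocalRing.maximalIdeal (UE.OV q stmtWAdd F) := by
    rw [UE.mem_maximalIdeal_iff]
    right
    show 1 ≤ wv q (x ^ (q - 1) / (q : F))
    rw [hdv]; omega
  obtain ⟨c, hc⟩ := tww_inj_binom_poly q hq
  set R : (UE.OV q stmtWAdd F)[X] :=
    X ^ 2 * (c.map (Int.castRingHom (UE.OV q stmtWAdd F))).comp (C x' * X) with hR
  set G : (UE.OV q stmtWAdd F)[X] := X + C x' * R + C d * X ^ q - 1 with hG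
  have hG1 : G.eval 1 ∈ IsLocalRing.maximalIdeal (UE.OV q stmtWAdd F) := by
    have : G.eval 1 = x' * R.eval 1 + d := by
      simp only [hG, eval_sub, eval_add, eval_mul, eval_C, eval_X, eval_pow, eval_one, one_pow,
        mul_one]
      ring
    rw [this]
    exact Ideal.add_mem _ (Ideal.mul_mem_right _ _ hx'm) hdm
  have hG' : IsUnit (G.derivative.eval 1) := by
    have : G.derivative.eval 1 = 1 + (x' * R.derivative.eval 1 + d * (q : UE.OV q stmtWAdd F)) := by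
      simp only [hG, derivative_sub, derivative_add, derivative_mul, derivative_C, derivative_X,
        derivative_X_pow, derivative_one, eval_add, eval_mul, eval_C, eval_X, eval_pow,
        eval_one, one_pow, mul_one, zero_mul, zero_add, sub_zero]
      ring
    rw [this]
    have hm : x' * R.derivative.eval 1 + d * (q : UE.OV q stmtWAdd F) ∈
        IsLocalRing.maximalIdeal (UE.OV q stmtWAdd F) :=
      Ideal.add_mem _ (Ideal.mul_mem_right _ _ hx'm) (Ideal.mul_mem_right _ _ hdm)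
    by_contra hnu
    have h1 : (1 : UE.OV q stmtWAdd F) + (x' * R.derivative.eval 1 + d * (q : UE.OV q stmtWAdd F)) ∈
        IsLocalRing.maximalIdeal (UE.OV q stmtWAdd F) := by
      rw [IsLocalRing.mem_maximalIdeal, mem_nonunits_iff]
      exact hnu
    have h2 := Ideal.sub_mem _ h1 hm
    rw [add_sub_cancel_right] at h2
    exact (Ideal.ne_top_iff_one _).1 (IsLocalRing.maximalIdeal.isMaximal _).ne_top h2
  obtain ⟨w, hw0, -⟩ := UE.hensel q stmtWAdd G stmtWComplete hG1 hG'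
  refine ⟨(w : F), w.2, ?_⟩
  -- the identity in `X`
  have hcX := congrArg (eval₂ (Int.castRingHom F) (x * (w : F))) hc
  simp only [eval₂_add, eval₂_mul, eval₂_pow, eval₂_one, eval₂_X, eval₂_natCast] at hcX
  -- `G(w) = 0` in `X`
  have hGX : (w : F) + x * ((w : F) ^ 2 * eval₂ (Int.castRingHom F) (x * (w : F)) c) +
      x ^ (q - 1) / (q : F) * (w : F) ^ q - 1 = 0 := by
    have h1 : G.eval w = w + x' * (w ^ 2 * (c.map (Int.castRingHom (UE.OV q stmtWAdd F))).eval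
        (x' * w)) + d * w ^ q - 1 := by
      simp only [hG, hR, eval_sub, eval_add, eval_mul, eval_C, eval_X, eval_pow, eval_one,
        eval_comp]
    rw [h1, eval_map] at hw0
    have h2 := congrArg (fun z : UE.OV q stmtWAdd F => (z : F)) hw0
    have h3 : ((eval₂ (Int.castRingHom (UE.OV q stmtWAdd F)) (x' * w) c :
        UE.OV q stmtWAdd F) : F) = eval₂ (Int.castRingHom F) (x * (w : F)) c := by
      have := Polynomial.hom_eval₂ c (Int.castRingHom (UE.OV q stmtWAdd F))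
        (UE.OV q stmtWAdd F).subtype (x' * w)
      rw [RingHom.eq_intCast' ((UE.OV q stmtWAdd F).subtype.comp
        (Int.castRingHom (UE.OV q stmtWAdd F)))] at this
      exact this
    push_cast at h2
    rw [h3] at h2
    exact h2
  have hxd : (q : F) * x * (x ^ (q - 1) / (q : F)) = x ^ q := by
    have : x ^ q = x ^ (q - 1) * x := by
      rw [← pow_succ]
      congr 1
      have := hq.one_le
      omega
    rw [this]
    field_simp
  rw [hcX]
  have : (x * (w : F)) ^ q = (q : F) * x * (x ^ (q - 1) / (q : F)) * (w : F) ^ q := by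
    rw [hxd, mul_pow]
  rw [this]
  linear_combination ((q : F) * x) * hGX

/-- `1 + x` is a unit when `w(x) > 0`, and so is every `p`-th root of it. -/
theorem wgr_one_add_unit {x : F} (hx : geW q 1 x) : (1 + x ≠ 0) ∧ wv q (1 + x) = 0 :=
  wv_one_add q hx

/-- **(Gr-add)**, valuation form: `(1 + p x)(1 + p y) = (1 + p (x + y)) t ^ p` for integral
`x`, `y`, `p` odd. -/
theorem wgr_add_wv (hq2 : q ≠ 2) {x y : F} (hx : IsInt q x) (hy : IsInt q y) :
    ∃ t : F, t ≠ 0 ∧ (1 + (q : F) * x) * (1 + (q : F) * y) = (1 + (q : F) * (x + y)) * t ^ q := by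
  have hq : q.Prime := Fact.out
  have hn : (0 : ℤ) < Module.finrank ℚ_[q] F := by exact_mod_cast Module.finrank_pos
  have hq3 : (3 : ℤ) ≤ q := by
    have := hq.two_le
    have : 3 ≤ q := by omega
    exact_mod_cast this
  have hqg : geW q (Module.finrank ℚ_[q] F) ((q : ℕ) : F) := Or.inr (wgr_wv_natCast q).ge
  have hxy : geW q 0 (x + y) := geW_add q hx hy
  have h1 : geW q 1 ((q : F) * (x + y)) := by
    have := geW_mul q hqg hxy
    exact geW_mono q (by omega) this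
  obtain ⟨hu0, huv⟩ := wv_one_add q h1
  set u : F := 1 + (q : F) * (x + y) with hu
  set z : F := (q : F) * x * y / u with hz
  have hzg : geW q (Module.finrank ℚ_[q] F) z := by
    rcases eq_or_ne z 0 with h0 | h0
    · exact Or.inl h0
    right
    have hxy0 : (q : F) * x * y ≠ 0 := by
      intro h
      apply h0
      rw [hz, h, zero_div]
    rw [hz, l0b_wv_div q hxy0 hu0, huv, sub_zero]
    have := geW_mul q (geW_mul q hqg hx) hy
    have := this.resolve_left hxy0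
    omega
  have hzhigh : z = 0 ∨ (Module.finrank ℚ_[q] F : ℤ) < ((q : ℤ) - 1) * wv q z := by
    rcases hzg with h | h
    · exact Or.inl h
    · right
      nlinarith
  obtain ⟨w, -, hw⟩ := wgr_root_of_high q hzhigh
  refine ⟨1 + z * w, ?_, ?_⟩
  · intro h
    rw [h, zero_pow hq.ne_zero] at hw
    have h2 : geW q 1 ((q : F) * z) := by
      have := geW_mul q hqg hzg
      exact geW_mono q (by omega) this
    exact (wv_one_add q h2).1 hw.symm
  · rw [hw, hz]
    field_simp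
    ring

/-- integral polynomials take integral values at integral arguments -/
theorem wgr_eval_int (c : ℤ[X]) {y : F} (hy : geW q 0 y) :
    geW q 0 (eval₂ (Int.castRingHom F) y c) := by
  have h1 := Polynomial.hom_eval₂ c (Int.castRingHom (UE.OV q stmtWAdd F))
    (UE.OV q stmtWAdd F).subtype ⟨y, hy⟩
  rw [RingHom.eq_intCast' ((UE.OV q stmtWAdd F).subtype.comp
    (Int.castRingHom (UE.OV q stmtWAdd F)))] at h1
  have h2 : eval₂ (Int.castRingHom F) y c =
      ((eval₂ (Int.castRingHom (UE.OV q stmtWAdd F)) ⟨y, hy⟩ c : UE.OV q stmtWAdd F) : F) :=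
    h1.symm
  rw [h2]
  exact (eval₂ (Int.castRingHom (UE.OV q stmtWAdd F)) ⟨y, hy⟩ c).2

theorem wgr_pow_int {y : F} (hy : geW q 0 y) (i : ℕ) : geW q 0 (y ^ i) :=
  (UE.OV q stmtWAdd F).pow_mem hy i

/-- The valuation of `ζ - 1`: `(p - 1) w(ζ - 1) = w(p)`, and the relation
`(ζ - 1) ^ (p - 1) = - p (1 + (ζ - 1) c)`. -/
theorem wgr_zeta_sub_one {ζ : F} (hζ1 : ζ ≠ 1) (hζp : ζ ^ q = 1) :
    0 < wv q (ζ - 1) ∧ ((q : ℤ) - 1) * wv q (ζ - 1) = Module.finrank ℚ_[q] F ∧
      ∃ c : ℤ[X], (ζ - 1) ^ (q - 1) =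
        -((q : F) * (1 + (ζ - 1) * eval₂ (Int.castRingHom F) (ζ - 1) c)) ∧
        (1 + X : ℤ[X]) ^ q = 1 + (q : ℤ[X]) * X * (1 + X * c) + X ^ q := by
  have hq : q.Prime := Fact.out
  have hn : (0 : ℤ) < Module.finrank ℚ_[q] F := by exact_mod_cast Module.finrank_pos
  obtain ⟨c, hc⟩ := tww_inj_binom_poly q hq
  set l : F := ζ - 1 with hl
  have hl0 : l ≠ 0 := sub_ne_zero.2 hζ1
  have hζ0 : ζ ≠ 0 := by
    intro h
    rw [h, zero_pow hq.ne_zero] at hζp
    exact zero_ne_one hζp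
  have hζw : wv q ζ = 0 := by
    have := l0b_wv_pow q ζ q
    rw [hζp, l0b_wv_one] at this
    have hq0 : (q : ℤ) ≠ 0 := by exact_mod_cast hq.ne_zero
    rcases mul_eq_zero.1 this.symm with h | h
    · exact absurd h hq0
    · exact h
  have hlint : geW q 0 l := geW_sub q (Or.inr hζw.ge) (geW_one q)
  have hcX := congrArg (eval₂ (Int.castRingHom F) l) hc
  simp only [eval₂_add, eval₂_mul, eval₂_pow, eval₂_one, eval₂_X, eval₂_natCast] at hcX
  have h1l : (1 : F) + l = ζ := by rw [hl]; ring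
  rw [h1l, hζp] at hcX
  set cl : F := eval₂ (Int.castRingHom F) l c with hcl
  have hclint : geW q 0 cl := by
    have h1 := Polynomial.hom_eval₂ c (Int.castRingHom (UE.OV q stmtWAdd F))
      (UE.OV q stmtWAdd F).subtype ⟨l, hlint⟩
    rw [RingHom.eq_intCast' ((UE.OV q stmtWAdd F).subtype.comp
      (Int.castRingHom (UE.OV q stmtWAdd F)))] at h1
    have h2 : cl = ((eval₂ (Int.castRingHom (UE.OV q stmtWAdd F)) ⟨l, hlint⟩ c :
        UE.OV q stmtWAdd F) : F) := h1.symm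
    rw [h2]
    exact (eval₂ (Int.castRingHom (UE.OV q stmtWAdd F)) ⟨l, hlint⟩ c).2
  have hpow : l ^ (q - 1) = -((q : F) * (1 + l * cl)) := by
    have h2 : l ^ q = l ^ (q - 1) * l := by
      rw [← pow_succ]
      congr 1
      have := hq.one_le
      omega
    have h3 : l * (l ^ (q - 1) + (q : F) * (1 + l * cl)) = 0 := by
      rw [h2] at hcX
      linear_combination -hcX
    rcases mul_eq_zero.1 h3 with h | h
    · exact absurd h hl0
    · linear_combination h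
  have hq0 : ((q : ℕ) : F) ≠ 0 := wgr_natCast_ne_zero q
  have hqm1 : ((q - 1 : ℕ) : ℤ) = (q : ℤ) - 1 := by
    have := hq.one_le
    push_cast [Nat.cast_sub this]
    ring
  -- positivity of `w(l)`
  have hlpos : 0 < wv q l := by
    by_contra hcon
    rw [not_lt] at hcon
    have hl0w : wv q l = 0 := le_antisymm hcon (hlint.resolve_left hl0)
    have h4 : wv q (l ^ (q - 1)) = 0 := by rw [l0b_wv_pow, hl0w, mul_zero]
    have h5 : geW q (Module.finrank ℚ_[q] F) (-((q : F) * (1 + l * cl))) := by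
      apply geW_neg
      have hqg : geW q (Module.finrank ℚ_[q] F) ((q : ℕ) : F) := Or.inr (wgr_wv_natCast q).ge
      have := geW_mul q hqg (geW_add q (geW_one q) (by simpa using geW_mul q hlint hclint))
      simpa using this
    rw [← hpow] at h5
    rcases h5 with h | h
    · exact pow_ne_zero _ hl0 h
    · omega
  refine ⟨hlpos, ?_, c, hpow, hc⟩
  have h6 : geW q 1 (l * cl) := by
    have := geW_mul q (Or.inr le_rfl : geW q (wv q l) l) hclint
    exact geW_mono q (by omega) this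
  obtain ⟨h7, h8⟩ := wv_one_add q h6
  have h9 := congrArg (wv q) hpow
  rw [l0b_wv_pow, geW_wv_neg, l0b_wv_mul q hq0 h7, h8, wgr_wv_natCast, add_zero, hqm1] at h9
  exact h9

/-- **(Gr-AS)**, valuation form: `1 + p (ζ - 1) (b - b ^ p)` is a `p`-th power for integral `b`
(`p` odd). -/
theorem wgr_as_wv (hq2 : q ≠ 2) {ζ : F} (hζ1 : ζ ≠ 1) (hζp : ζ ^ q = 1) {b : F}
    (hb : IsInt q b) :
    ∃ t : F, t ^ q = 1 + (q : F) * (ζ - 1) * (b - b ^ q) := by
  have hq : q.Prime := Fact.out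
  have hn : (0 : ℤ) < Module.finrank ℚ_[q] F := by exact_mod_cast Module.finrank_pos
  have hq3 : (3 : ℤ) ≤ q := by
    have := hq.two_le
    have : 3 ≤ q := by omega
    exact_mod_cast this
  obtain ⟨hlpos, hlval, c, hpow, hc⟩ := wgr_zeta_sub_one q hζ1 hζp
  set l : F := ζ - 1 with hl
  have hl0 : l ≠ 0 := sub_ne_zero.2 hζ1
  have hlint : geW q 0 l := Or.inr hlpos.le
  set cl : F := eval₂ (Int.castRingHom F) l c with hcl
  set cb : F := eval₂ (Int.castRingHom F) (l * b) c with hcb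
  have hlb : geW q 0 (l * b) := by simpa using geW_mul q hlint hb
  have hclint : geW q 0 cl := wgr_eval_int q c hlint
  have hcbint : geW q 0 cb := wgr_eval_int q c hlb
  have hcX := congrArg (eval₂ (Int.castRingHom F) (l * b)) hc
  simp only [eval₂_add, eval₂_mul, eval₂_pow, eval₂_one, eval₂_X, eval₂_natCast] at hcX
  have hlq : l ^ q = -((q : F) * l * (1 + l * cl)) := by
    have h2 : l ^ q = l ^ (q - 1) * l := by
      rw [← pow_succ]
      congr 1
      have := hq.one_le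
      omega
    rw [h2, hpow]
    ring
  set m : F := b ^ 2 * cb - cl * b ^ q with hm
  have hmint : geW q 0 m := by
    apply geW_sub q
    · simpa using geW_mul q (wgr_pow_int q hb 2) hcbint
    · simpa using geW_mul q hclint (wgr_pow_int q hb q)
  have hexp : (1 + l * b) ^ q = 1 + (q : F) * l * (b - b ^ q) + (q : F) * l ^ 2 * m := by
    rw [hcX, mul_pow, hlq, hm]
    ring
  have hlb1 : geW q 1 (l * b) := by
    have := geW_mul q (Or.inr le_rfl : geW q (wv q l) l) hb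
    exact geW_mono q (by omega) this
  obtain ⟨hv0, hvw⟩ := wv_one_add q hlb1
  have hvq0 : (1 + l * b) ^ q ≠ 0 := pow_ne_zero _ hv0
  have hvqw : wv q ((1 + l * b) ^ q) = 0 := by rw [l0b_wv_pow, hvw, mul_zero]
  set z : F := -(l ^ 2 * m) / (1 + l * b) ^ q with hz
  have hzhigh : z = 0 ∨ (Module.finrank ℚ_[q] F : ℤ) < ((q : ℤ) - 1) * wv q z := by
    rcases eq_or_ne z 0 with h0 | h0
    · exact Or.inl h0
    right
    have hnum0 : -(l ^ 2 * m) ≠ 0 := by
      intro h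
      apply h0
      rw [hz, h, zero_div]
    have hm0 : m ≠ 0 := by
      intro h
      apply hnum0
      rw [h, mul_zero, neg_zero]
    rw [hz, l0b_wv_div q hnum0 hvq0, hvqw, sub_zero, geW_wv_neg,
      l0b_wv_mul q (pow_ne_zero _ hl0) hm0, l0b_wv_pow]
    have := hmint.resolve_left hm0
    push_cast
    nlinarith
  obtain ⟨w, -, hw⟩ := wgr_root_of_high q hzhigh
  refine ⟨(1 + l * b) * (1 + z * w), ?_⟩
  rw [mul_pow, hw, hz]
  field_simp
  rw [hexp]
  ring

end Hensel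

end Fermat.Agent.TW.W


end ZBTW_004_1

/-! ### bundled: `Fermat.Agent.TW.W.GrNorm` -/
section ZBTW_004_2
/-
TW-W, piece W-gr (helper65), part 2: the unit filtration of a finite extension `T ⊂ ℚ̄_p` in the
language of `TW/W/Plan.lean` (norm of `PadicAlgCl p`).

* `wgr_norm_pow`   : bridge `‖x‖ ^ [T : ℚ_p] = p ^ (- w(x))` between the norm and PT-L's `wv`;
* `wgr_add`  (Gr-add) : `(1 + p x)(1 + p y) = (1 + p (x + y)) t ^ p`, `x, y ∈ 𝒪_T`;
* `wgr_hi`   (Gr-hi)  : `‖x‖ < ‖ζ - 1‖ ⇒ 1 + p x ∈ T^{×p}`  (`1 + p 𝔪^{e'+1} ⊂ T^{×p}`);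
* `wgr_as`   (Gr-AS)  : `1 + p (ζ - 1)(b - b ^ p) ∈ T^{×p}`, `b ∈ 𝒪_T` (Artin–Schreier top piece).
-/

set_option autoImplicit false
set_option linter.unusedSectionVars false
set_option linter.style.haveILetI false

open Polynomial

namespace Fermat.Agent.TW.W

open Fermat.Agent.PT.L

section Norm

variable (p : ℕ) [Fact p.Prime] (T : IntermediateField ℚ_[p] (PadicAlgCl p))
  [FiniteDimensional ℚ_[p] T]

/-- the bridge between the norm of `ℚ̄_p` and the valuation `wv` of `T` -/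
theorem wgr_norm_pow (x : T) (hx : x ≠ 0) :
    ‖(x : PadicAlgCl p)‖ ^ Module.finrank ℚ_[p] T = (p : ℝ) ^ (-(wv p x)) := by
  have h1 : ‖(x : PadicAlgCl p)‖ = spectralNorm ℚ_[p] T x := by
    rw [← PadicAlgCl.spectralNorm_eq]
    exact (spectralNorm.eq_of_tower (K := ℚ_[p]) (L := PadicAlgCl p) (E := T) x).symm
  rw [h1, ← l0a_norm_eq_spectralNorm_pow p T x]
  have hN : Algebra.norm ℚ_[p] x ≠ 0 := Algebra.norm_ne_zero_iff.mpr hx
  rw [Padic.norm_eq_zpow_neg_valuation hN]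
  rfl

theorem wgr_norm_pos (x : T) (hx : x ≠ 0) : 0 < ‖(x : PadicAlgCl p)‖ := by
  rw [norm_pos_iff]
  exact fun h => hx (Subtype.ext h)

/-- comparison of norms in terms of `wv` -/
theorem wgr_norm_le_iff (x y : T) (hx : x ≠ 0) (hy : y ≠ 0) :
    ‖(x : PadicAlgCl p)‖ ≤ ‖(y : PadicAlgCl p)‖ ↔ wv p y ≤ wv p x := by
  have hn : Module.finrank ℚ_[p] T ≠ 0 := Module.finrank_pos.ne'
  have h1p : 1 < (p : ℝ) := by exact_mod_cast (Fact.out : p.Prime).one_lt
  rw [← pow_le_pow_iff_left₀ (norm_nonneg _) (norm_nonneg _) hn, wgr_norm_pow p T x hx,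
    wgr_norm_pow p T y hy, zpow_le_zpow_iff_right₀ h1p]
  omega

theorem wgr_norm_lt_iff (x y : T) (hx : x ≠ 0) (hy : y ≠ 0) :
    ‖(x : PadicAlgCl p)‖ < ‖(y : PadicAlgCl p)‖ ↔ wv p y < wv p x := by
  rw [← not_le, wgr_norm_le_iff p T y x hy hx, not_le]

theorem wgr_norm_le_one_iff (x : T) : ‖(x : PadicAlgCl p)‖ ≤ 1 ↔ IsInt p x := by
  rcases eq_or_ne x 0 with rfl | hx
  · simp [IsInt]
  · have h := wgr_norm_le_iff p T x 1 hx one_ne_zero
    have h1 : ((1 : T) : PadicAlgCl p) = 1 := rfl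
    rw [h1, norm_one, l0b_wv_one] at h
    rw [h]
    constructor
    · intro h; exact Or.inr h
    · intro h; exact h.resolve_left hx

theorem wgr_coe_natCast : (((p : ℕ) : T) : PadicAlgCl p) = (p : PadicAlgCl p) := rfl

/-- `‖x‖ ^ (p - 1) < ‖p‖` in terms of `wv` -/
theorem wgr_high_iff (x : T) (hx : x ≠ 0) :
    ‖(x : PadicAlgCl p)‖ ^ (p - 1) < ‖(p : PadicAlgCl p)‖ ↔
      (Module.finrank ℚ_[p] T : ℤ) < ((p : ℤ) - 1) * wv p x := by
  have hq : p.Prime := Fact.out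
  have hp0 : ((p : ℕ) : T) ≠ 0 := wgr_natCast_ne_zero p
  have hxp : x ^ (p - 1) ≠ 0 := pow_ne_zero _ hx
  have h := wgr_norm_lt_iff p T (x ^ (p - 1)) ((p : ℕ) : T) hxp hp0
  have hqm1 : ((p - 1 : ℕ) : ℤ) = (p : ℤ) - 1 := by
    have := hq.one_le
    push_cast [Nat.cast_sub this]
    ring
  rw [wgr_wv_natCast, l0b_wv_pow, hqm1] at h
  rw [← h]
  push_cast
  rw [norm_pow]

/-- **(Gr-add)**: `(1 + p x)(1 + p y) = (1 + p (x + y)) t ^ p` for `x, y ∈ 𝒪_T`, `p` odd. -/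
theorem wgr_add (hp2 : p ≠ 2) {x y : PadicAlgCl p} (hx : x ∈ T) (hy : y ∈ T)
    (hx1 : ‖x‖ ≤ 1) (hy1 : ‖y‖ ≤ 1) :
    ∃ t ∈ T, t ≠ 0 ∧ (1 + (p : PadicAlgCl p) * x) * (1 + (p : PadicAlgCl p) * y) =
      (1 + (p : PadicAlgCl p) * (x + y)) * t ^ p := by
  have hxi : IsInt p (⟨x, hx⟩ : T) := (wgr_norm_le_one_iff p T ⟨x, hx⟩).1 hx1
  have hyi : IsInt p (⟨y, hy⟩ : T) := (wgr_norm_le_one_iff p T ⟨y, hy⟩).1 hy1
  obtain ⟨t, ht0, ht⟩ := wgr_add_wv p hp2 hxi hyi
  refine ⟨(t : PadicAlgCl p), t.2, fun h => ht0 (Subtype.ext h), ?_⟩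
  have := congrArg (fun z : T => (z : PadicAlgCl p)) ht
  simpa using this

/-- **(Gr-hi)**, intrinsic form: `‖x‖ ^ (p - 1) < ‖p‖ ⇒ 1 + p x = t ^ p` with `t ∈ T`,
`‖t - 1‖ ≤ ‖x‖`. -/
theorem wgr_hi' {x : PadicAlgCl p} (hx : x ∈ T) (hlt : ‖x‖ ^ (p - 1) < ‖(p : PadicAlgCl p)‖) :
    ∃ t ∈ T, t ^ p = 1 + (p : PadicAlgCl p) * x ∧ ‖t - 1‖ ≤ ‖x‖ := by
  have hhigh : (⟨x, hx⟩ : T) = 0 ∨
      (Module.finrank ℚ_[p] T : ℤ) < ((p : ℤ) - 1) * wv p (⟨x, hx⟩ : T) := by
    rcases eq_or_ne (⟨x, hx⟩ : T) 0 with h | h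
    · exact Or.inl h
    · exact Or.inr ((wgr_high_iff p T ⟨x, hx⟩ h).1 hlt)
  obtain ⟨y, hy, hxy⟩ := wgr_root_of_high p hhigh
  refine ⟨((1 + (⟨x, hx⟩ : T) * y : T) : PadicAlgCl p), (1 + (⟨x, hx⟩ : T) * y : T).2, ?_, ?_⟩
  · have := congrArg (fun z : T => (z : PadicAlgCl p)) hxy
    simpa using this
  · have hy1 : ‖(y : PadicAlgCl p)‖ ≤ 1 := (wgr_norm_le_one_iff p T y).2 hy
    have e : ((1 + (⟨x, hx⟩ : T) * y : T) : PadicAlgCl p) - 1 = x * (y : PadicAlgCl p) := by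
      push_cast
      ring
    rw [e, norm_mul]
    exact mul_le_of_le_one_right (norm_nonneg _) hy1

section Zeta

variable {ζ : PadicAlgCl p} (hζT : ζ ∈ T) (hζ1 : ζ ≠ 1) (hζp : ζ ^ p = 1)

include hζT hζ1 hζp

/-- `‖ζ - 1‖ ^ (p - 1) = ‖p‖`, `0 < ‖ζ - 1‖ < 1` -/
theorem wgr_norm_zeta_sub_one :
    ‖ζ - 1‖ ^ (p - 1) = ‖(p : PadicAlgCl p)‖ ∧ 0 < ‖ζ - 1‖ ∧ ‖ζ - 1‖ < 1 := by
  have hq : p.Prime := Fact.out
  have hζ1' : (⟨ζ, hζT⟩ : T) ≠ 1 := fun h => hζ1 (congrArg Subtype.val h)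
  have hζp' : (⟨ζ, hζT⟩ : T) ^ p = 1 := Subtype.ext (by simpa using hζp)
  obtain ⟨hpos, hval, -⟩ := wgr_zeta_sub_one p hζ1' hζp'
  have hl0 : (⟨ζ, hζT⟩ : T) - 1 ≠ 0 := sub_ne_zero.2 hζ1'
  have hp0 : ((p : ℕ) : T) ≠ 0 := wgr_natCast_ne_zero p
  have hqm1 : ((p - 1 : ℕ) : ℤ) = (p : ℤ) - 1 := by
    have := hq.one_le
    push_cast [Nat.cast_sub this]
    ring
  have hcoe : (((⟨ζ, hζT⟩ : T) - 1 : T) : PadicAlgCl p) = ζ - 1 := rfl
  refine ⟨?_, ?_, ?_⟩
  · apply le_antisymm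
    · have := (wgr_norm_le_iff p T (((⟨ζ, hζT⟩ : T) - 1) ^ (p - 1)) ((p : ℕ) : T)
        (pow_ne_zero _ hl0) hp0).2 (by rw [wgr_wv_natCast, l0b_wv_pow, hqm1, hval])
      simpa [hcoe] using this
    · have := (wgr_norm_le_iff p T ((p : ℕ) : T) (((⟨ζ, hζT⟩ : T) - 1) ^ (p - 1))
        hp0 (pow_ne_zero _ hl0)).2 (by rw [wgr_wv_natCast, l0b_wv_pow, hqm1, hval])
      simpa [hcoe] using this
  · rw [norm_pos_iff]
    exact sub_ne_zero.2 hζ1
  · have := (wgr_norm_lt_iff p T ((⟨ζ, hζT⟩ : T) - 1) 1 hl0 one_ne_zero).2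
      (by rw [l0b_wv_one]; exact hpos)
    have h1 : ((1 : T) : PadicAlgCl p) = 1 := rfl
    rw [hcoe, h1, norm_one] at this
    exact this

/-- **(Gr-hi)**: `‖x‖ < ‖ζ - 1‖ ⇒ 1 + p x ∈ T^{×p}`, i.e. `1 + p 𝔪^{e'+1} ⊂ T^{×p}`. -/
theorem wgr_hi {x : PadicAlgCl p} (hx : x ∈ T) (hlt : ‖x‖ < ‖ζ - 1‖) :
    ∃ t ∈ T, t ^ p = 1 + (p : PadicAlgCl p) * x ∧ ‖t - 1‖ ≤ ‖x‖ := by
  have hq : p.Prime := Fact.out
  apply wgr_hi' p T hx
  rw [← (wgr_norm_zeta_sub_one p T hζT hζ1 hζp).1]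
  have hne : p - 1 ≠ 0 := by
    have := hq.two_le
    omega
  exact pow_lt_pow_left₀ hlt (norm_nonneg _) hne

/-- **(Gr-AS)**: `1 + p (ζ - 1)(b - b ^ p) ∈ T^{×p}` for `b ∈ 𝒪_T` (`p` odd). -/
theorem wgr_as (hp2 : p ≠ 2) {b : PadicAlgCl p} (hb : b ∈ T) (hb1 : ‖b‖ ≤ 1) :
    ∃ t ∈ T, t ^ p = 1 + (p : PadicAlgCl p) * (ζ - 1) * (b - b ^ p) := by
  have hζ1' : (⟨ζ, hζT⟩ : T) ≠ 1 := fun h => hζ1 (congrArg Subtype.val h)
  have hζp' : (⟨ζ, hζT⟩ : T) ^ p = 1 := Subtype.ext (by simpa using hζp)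
  have hbi : IsInt p (⟨b, hb⟩ : T) := (wgr_norm_le_one_iff p T ⟨b, hb⟩).1 hb1
  obtain ⟨t, ht⟩ := wgr_as_wv p hp2 hζ1' hζp' hbi
  refine ⟨(t : PadicAlgCl p), t.2, ?_⟩
  have := congrArg (fun z : T => (z : PadicAlgCl p)) ht
  simpa using this

end Zeta

end Norm

end Fermat.Agent.TW.W


end ZBTW_004_2

/-! ### bundled: `Fermat.Agent.TW.W.Lift` -/
section ZBTW_004_3

/-!
# TW-W (T3): the lifting lemma (Fontaine's lifting step, Cartier-dual form, no exp/log)

`H` a commutative cocommutative `R`-bialgebra killed by `p`, `S` a commutative `R`-algebra which is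
`ϖ`-adically separated and complete, `ϖ ^ e = p * w`, `e < (p - 1) * a`.  Every `R`-linear map
`x₀ : H → S` which is an algebra homomorphism modulo `p * ϖ ^ a` is congruent modulo `ϖ ^ a` to a
genuine algebra homomorphism `H → S`.
-/

set_option linter.style.haveILetI false
set_option linter.unusedSectionVars false

namespace Fermat.Agent.TW.W

/-- `(1 + ϖ^a s)^p = 1 + p ϖ^a s (1 + ϖ c)` when `ϖ ^ e = p w`, `e < (p - 1) a`. -/
theorem tww_lift_binom {B : Type*} [CommRing B] (p : ℕ) (hp : p.Prime) (ϖ w : B) (e a : ℕ)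
    (hpw : ϖ ^ e = (p : B) * w) (ha : e < (p - 1) * a) (s : B) :
    ∃ c : B, (1 + ϖ ^ a * s) ^ p = 1 + (p : B) * (ϖ ^ a * s) * (1 + ϖ * c) := by
  obtain ⟨c, hc⟩ := tww_inj_binom p hp (ϖ ^ a * s)
  have h2 : 2 ≤ p := hp.two_le
  have ha1 : 1 ≤ a := by
    rcases Nat.eq_zero_or_pos a with h0 | h0
    · subst h0; simp at ha
    · omega
  obtain ⟨d, hd⟩ : ∃ d, (p - 1) * a = e + d + 1 := ⟨(p - 1) * a - e - 1, by omega⟩
  obtain ⟨a', rfl⟩ : ∃ a', a = a' + 1 := ⟨a - 1, by omega⟩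
  obtain ⟨p', rfl⟩ : ∃ p', p = p' + 1 := ⟨p - 1, by omega⟩
  have hpa : (ϖ ^ (a' + 1)) ^ p' = (((p' + 1 : ℕ) : B) * w) * ϖ ^ (d + 1) := by
    rw [← pow_mul, ← hpw, ← pow_add]
    congr 1
    simp only [Nat.add_sub_cancel] at hd
    rw [mul_comm]; omega
  refine ⟨ϖ ^ a' * s * c + w * ϖ ^ d * s ^ p', ?_⟩
  rw [hc]
  have : (ϖ ^ (a' + 1) * s) ^ (p' + 1) =
      (ϖ ^ (a' + 1)) ^ p' * (ϖ ^ (a' + 1) * s * s ^ p') := by ring
  rw [this, hpa]
  ring

/-- **Existence of `p`-th roots of unity near an approximate one** (successive approximation):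
if `z₀ ^ p ≡ 1 mod p ϖ^a` then there is `z ≡ z₀ mod ϖ^a` with `z ^ p = 1`. -/
theorem tww_lift_root {B : Type*} [CommRing B] (p : ℕ) (hp : p.Prime) (ϖ w : B) (e a : ℕ)
    (hpw : ϖ ^ e = (p : B) * w) (ha : e < (p - 1) * a)
    (hsep : ∀ z : B, (∀ n, ϖ ^ n ∣ z) → z = 0)
    (hpre : ∀ f : ℕ → B, (∀ n, ϖ ^ n ∣ f (n + 1) - f n) → ∃ L, ∀ n, ϖ ^ n ∣ L - f n)
    (z₀ : B) (hz₀ : (p : B) * ϖ ^ a ∣ z₀ ^ p - 1) :
    ∃ z : B, z ^ p = 1 ∧ ϖ ^ a ∣ z - z₀ := by
  classical
  -- the error term at stage `n`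
  let err : ℕ → B → B := fun n u =>
    if h : (p : B) * ϖ ^ a * ϖ ^ n ∣ (z₀ + ϖ ^ a * u) ^ p - 1 then h.choose else 0
  let step : ℕ → B → B := fun n u => u - (z₀ + ϖ ^ a * u) * ϖ ^ n * err n u
  let u : ℕ → B := fun n => Nat.rec 0 (fun n u => step n u) n
  have hu0 : u 0 = 0 := rfl
  have husucc : ∀ n, u (n + 1) = u n - (z₀ + ϖ ^ a * u n) * ϖ ^ n * err n (u n) := fun n => rfl
  have ha1 : 1 ≤ a := by
    rcases Nat.eq_zero_or_pos a with h0 | h0
    · subst h0; simp at ha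
    · omega
  obtain ⟨a', ha'⟩ : ∃ a', a = a' + 1 := ⟨a - 1, by omega⟩
  have hdiv : ∀ n, (p : B) * ϖ ^ a * ϖ ^ n ∣ (z₀ + ϖ ^ a * u n) ^ p - 1 := by
    intro n
    induction n with
    | zero => simpa [hu0] using hz₀
    | succ n ih =>
      have herr : (z₀ + ϖ ^ a * u n) ^ p - 1 = (p : B) * ϖ ^ a * ϖ ^ n * err n (u n) := by
        simp only [err, dif_pos ih]
        exact ih.choose_spec
      set ε := err n (u n) with hε
      set z := z₀ + ϖ ^ a * u n with hz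
      obtain ⟨c, hc⟩ := tww_lift_binom p hp ϖ w e a hpw ha (-(ϖ ^ n * ε))
      have hz' : z₀ + ϖ ^ a * u (n + 1) = z * (1 + ϖ ^ a * (-(ϖ ^ n * ε))) := by
        rw [husucc]; ring
      rw [hz', mul_pow, hc]
      refine ⟨ε * (-c - (p : B) * ϖ ^ a' * ϖ ^ n * ε * (1 + ϖ * c)), ?_⟩
      have hzp : z ^ p = 1 + (p : B) * ϖ ^ a * ϖ ^ n * ε := by
        rw [← herr]; ring
      rw [hzp, ha']
      ring
  have hcauchy : ∀ n, ϖ ^ n ∣ u (n + 1) - u n := by
    intro n
    rw [husucc]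
    exact ⟨-((z₀ + ϖ ^ a * u n) * err n (u n)), by ring⟩
  obtain ⟨L, hL⟩ := hpre u hcauchy
  refine ⟨z₀ + ϖ ^ a * L, ?_, ⟨L, by ring⟩⟩
  have h0 : (z₀ + ϖ ^ a * L) ^ p - 1 = 0 := by
    apply hsep
    intro n
    have h1 : ϖ ^ n ∣ (z₀ + ϖ ^ a * L) ^ p - (z₀ + ϖ ^ a * u n) ^ p := by
      refine Dvd.dvd.trans ?_ (sub_dvd_pow_sub_pow _ _ p)
      obtain ⟨k, hk⟩ := hL n
      exact ⟨ϖ ^ a * k, by linear_combination (ϖ ^ a) * hk⟩
    have h2 : ϖ ^ n ∣ (z₀ + ϖ ^ a * u n) ^ p - 1 :=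
      Dvd.dvd.trans ⟨(p : B) * ϖ ^ a, by ring⟩ (hdiv n)
    have := dvd_add h1 h2
    simpa using this
  exact sub_eq_zero.mp h0

section Conv

open WithConv

variable {R C S : Type*} [CommRing R] [AddCommGroup C] [Module R C] [Coalgebra R C]
  [CommRing S] [Algebra R S] [Coalgebra.IsCocomm R C]

theorem tww_lift_algebraMap_pow (ϖ : S) (n : ℕ) :
    (algebraMap S (WithConv (C →ₗ[R] S)) ϖ) ^ n = algebraMap S (WithConv (C →ₗ[R] S)) (ϖ ^ n) :=
  (map_pow _ _ _).symm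

/-- The convolution ring is `ϖ`-adically separated if `S` is. -/
theorem tww_lift_conv_sep (ϖ : S) (hsep : ∀ z : S, (∀ n, ϖ ^ n ∣ z) → z = 0)
    (z : WithConv (C →ₗ[R] S))
    (hz : ∀ n, (algebraMap S (WithConv (C →ₗ[R] S)) ϖ) ^ n ∣ z) : z = 0 := by
  ext h
  apply hsep
  intro n
  have := hz n
  rw [tww_lift_algebraMap_pow] at this
  exact tww_inj_pointwise_of_dvd _ z this h

/-- The convolution ring is `ϖ`-adically complete if `S` is (pointwise limits). -/
theorem tww_lift_conv_pre (ϖ : S) (hϖ : ϖ ∈ nonZeroDivisors S)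
    (hsep : ∀ z : S, (∀ n, ϖ ^ n ∣ z) → z = 0)
    (hpre : ∀ f : ℕ → S, (∀ n, ϖ ^ n ∣ f (n + 1) - f n) → ∃ L, ∀ n, ϖ ^ n ∣ L - f n)
    (f : ℕ → WithConv (C →ₗ[R] S))
    (hf : ∀ n, (algebraMap S (WithConv (C →ₗ[R] S)) ϖ) ^ n ∣ f (n + 1) - f n) :
    ∃ L : WithConv (C →ₗ[R] S), ∀ n, (algebraMap S (WithConv (C →ₗ[R] S)) ϖ) ^ n ∣ L - f n := by
  classical
  have hpt : ∀ c : C, ∀ n, ϖ ^ n ∣ f (n + 1) c - f n c := by
    intro c n
    have := hf n
    rw [tww_lift_algebraMap_pow] at this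
    exact tww_inj_pointwise_of_dvd _ _ this c
  have hex : ∀ c : C, ∃ L : S, ∀ n, ϖ ^ n ∣ L - f n c := fun c => hpre (fun n => f n c) (hpt c)
  choose g hg using hex
  let gl : C →ₗ[R] S :=
    { toFun := g
      map_add' := by
        intro h h'
        have : g (h + h') - (g h + g h') = 0 := by
          apply hsep
          intro n
          have e1 : g (h + h') - (g h + g h') =
              (g (h + h') - f n (h + h')) - (g h - f n h) - (g h' - f n h') := by
            have : f n (h + h') = f n h + f n h' := map_add (f n).ofConv h h'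
            rw [this]; ring
          rw [e1]
          exact dvd_sub (dvd_sub (hg _ n) (hg _ n)) (hg _ n)
        exact sub_eq_zero.mp this
      map_smul' := by
        intro r h
        have : g (r • h) - r • g h = 0 := by
          apply hsep
          intro n
          have e1 : g (r • h) - r • g h =
              (g (r • h) - f n (r • h)) - algebraMap R S r * (g h - f n h) := by
            have : f n (r • h) = r • f n h := map_smul (f n).ofConv r h
            rw [this, Algebra.smul_def, Algebra.smul_def]; ring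
          rw [e1]
          exact dvd_sub (hg _ n) (Dvd.dvd.mul_left (hg _ n) _)
        simpa using sub_eq_zero.mp this }
  refine ⟨toConv gl, fun n => ?_⟩
  rw [tww_lift_algebraMap_pow]
  refine tww_inj_dvd_of_pointwise _ (pow_mem hϖ n) _ (fun c => ?_)
  exact hg c n

/-- Composition with an algebra map commutes with convolution powers. -/
theorem tww_lift_comp_pow {T : Type*} [CommRing T] [Algebra R T] (q : S →ₐ[R] T)
    (f : WithConv (C →ₗ[R] S)) (n : ℕ) :
    toConv (q.toLinearMap ∘ₗ (f ^ n).ofConv) = (toConv (q.toLinearMap ∘ₗ f.ofConv)) ^ n := by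
  induction n with
  | zero =>
    rw [pow_zero, pow_zero]
    ext c
    simp
  | succ n ih =>
    rw [pow_succ, pow_succ, ← ih]
    apply ofConv_injective
    rw [ofConv_toConv]
    exact LinearMap.algHom_comp_convMul_distrib q (f ^ n) f

end Conv

section Main

open WithConv TensorProduct

variable {R H S : Type*} [CommRing R] [CommRing H] [Bialgebra R H] [Coalgebra.IsCocomm R H]
  [CommRing S] [Algebra R S]

/-- Pull-back along the multiplication `H ⊗ H → H`. -/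
noncomputable def twwLiftM (f : WithConv (H →ₗ[R] S)) : WithConv (H ⊗[R] H →ₗ[R] S) :=
  toConv (f.ofConv ∘ₗ LinearMap.mul' R H)

/-- The external square `h ⊗ h' ↦ f h * f h'`. -/
noncomputable def twwLiftE (f : WithConv (H →ₗ[R] S)) : WithConv (H ⊗[R] H →ₗ[R] S) :=
  toConv (LinearMap.mul' R S ∘ₗ TensorProduct.map f.ofConv f.ofConv)

omit [Coalgebra.IsCocomm R H] in
theorem twwLiftM_apply (f : WithConv (H →ₗ[R] S)) (h h' : H) :
    twwLiftM f (h ⊗ₜ[R] h') = f (h * h') := rfl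

omit [Coalgebra.IsCocomm R H] in
theorem twwLiftE_apply (f : WithConv (H →ₗ[R] S)) (h h' : H) :
    twwLiftE f (h ⊗ₜ[R] h') = f h * f h' := rfl

omit [Coalgebra.IsCocomm R H] in
theorem twwLiftM_one : twwLiftM (1 : WithConv (H →ₗ[R] S)) = 1 := by
  apply ofConv_injective
  apply TensorProduct.ext'
  intro h h'
  change (1 : WithConv (H →ₗ[R] S)) (h * h') = (1 : WithConv (H ⊗[R] H →ₗ[R] S)) (h ⊗ₜ[R] h')
  simp [mul_comm]

omit [Coalgebra.IsCocomm R H] in
theorem twwLiftM_mul (f g : WithConv (H →ₗ[R] S)) :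
    twwLiftM (f * g) = twwLiftM f * twwLiftM g := by
  apply ofConv_injective
  exact LinearMap.convMul_comp_coalgHom_distrib f g (Bialgebra.mulCoalgHom R H)

omit [Coalgebra.IsCocomm R H] in
theorem twwLiftM_pow (f : WithConv (H →ₗ[R] S)) (n : ℕ) :
    twwLiftM (f ^ n) = twwLiftM f ^ n := by
  induction n with
  | zero => rw [pow_zero, pow_zero, twwLiftM_one]
  | succ n ih => rw [pow_succ, pow_succ, twwLiftM_mul, ih]

omit [Coalgebra.IsCocomm R H] in
theorem twwLiftE_one : twwLiftE (1 : WithConv (H →ₗ[R] S)) = 1 := by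
  apply ofConv_injective
  apply TensorProduct.ext'
  intro h h'
  change (1 : WithConv (H →ₗ[R] S)) h * (1 : WithConv (H →ₗ[R] S)) h' =
    (1 : WithConv (H ⊗[R] H →ₗ[R] S)) (h ⊗ₜ[R] h')
  simp [mul_comm]

omit [Coalgebra.IsCocomm R H] in
theorem twwLiftE_mul (f g : WithConv (H →ₗ[R] S)) :
    twwLiftE (f * g) = twwLiftE f * twwLiftE g := by
  have h1 := TensorProduct.map_convMul_map (R := R) (f := f) (h := g) (g := f) (k := g)
  have h2 := LinearMap.algHom_comp_convMul_distrib (Algebra.TensorProduct.lmul' R (S := S))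
    (toConv (TensorProduct.map f.ofConv f.ofConv)) (toConv (TensorProduct.map g.ofConv g.ofConv))
  apply ofConv_injective
  rw [h1] at h2
  exact h2

omit [Coalgebra.IsCocomm R H] in
theorem twwLiftE_pow (f : WithConv (H →ₗ[R] S)) (n : ℕ) :
    twwLiftE (f ^ n) = twwLiftE f ^ n := by
  induction n with
  | zero => rw [pow_zero, pow_zero, twwLiftE_one]
  | succ n ih => rw [pow_succ, pow_succ, twwLiftE_mul, ih]

/-- Convolution powers of a point are the point composed with `[n]`. -/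
theorem tww_lift_algHom_pow {T : Type*} [CommRing T] [Algebra R T] (φ : H →ₐ[R] T) (n : ℕ) :
    (toConv φ : WithConv (H →ₐ[R] T)) ^ n =
      toConv (φ.comp ((toConv (AlgHom.id R H) : WithConv (H →ₐ[R] H)) ^ n).ofConv) := by
  induction n with
  | zero =>
    rw [pow_zero, pow_zero]
    apply ofConv_injective
    ext h
    simp [AlgHom.convOne_def]
  | succ n ih =>
    rw [pow_succ, pow_succ, AlgHom.comp_convMul_distrib, ← ih]
    simp

/-- A point of a bialgebra killed by `p` is killed by `p`. -/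
theorem tww_lift_algHom_pow_eq_one {T : Type*} [CommRing T] [Algebra R T] (p : ℕ)
    (hkill : (toConv (AlgHom.id R H) : WithConv (H →ₐ[R] H)) ^ p = 1) (φ : H →ₐ[R] T) :
    (toConv φ : WithConv (H →ₐ[R] T)) ^ p = 1 := by
  rw [tww_lift_algHom_pow, hkill]
  apply ofConv_injective
  ext h
  simp [AlgHom.convOne_def]

/-- Evaluation at `1` is multiplicative on the convolution ring. -/
theorem tww_lift_pow_apply_one (f : WithConv (H →ₗ[R] S)) (n : ℕ) :
    (f ^ n) (1 : H) = (f (1 : H)) ^ n := by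
  induction n with
  | zero => simp
  | succ n ih =>
    rw [pow_succ, pow_succ, ← ih, LinearMap.convMul_apply, Bialgebra.comul_one,
      Algebra.TensorProduct.one_def]
    simp

/-- **(T3), abstract form: the lifting lemma.**  `H` a commutative cocommutative bialgebra over
`R` killed by `p`; `S` a commutative `R`-algebra, `ϖ`-adically separated and complete, with
`ϖ ^ e = p * w` and `e < (p - 1) * a` (i.e. `v(ϖ ^ a) > v(p) / (p - 1)`).  Every `R`-linear map
`x₀ : H → S` which is unital and multiplicative modulo `p * ϖ ^ a` is congruent modulo `ϖ ^ a`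
to an `R`-algebra homomorphism `H → S`. -/
theorem tww_lift (p : ℕ) (hp : p.Prime)
    (hkill : (toConv (AlgHom.id R H) : WithConv (H →ₐ[R] H)) ^ p = 1)
    (ϖ w : S) (e a : ℕ) (hϖ : ϖ ∈ nonZeroDivisors S) (hpw : ϖ ^ e = (p : S) * w)
    (ha : e < (p - 1) * a)
    (hsep : ∀ z : S, (∀ n, ϖ ^ n ∣ z) → z = 0)
    (hpre : ∀ f : ℕ → S, (∀ n, ϖ ^ n ∣ f (n + 1) - f n) → ∃ L, ∀ n, ϖ ^ n ∣ L - f n)
    (x₀ : H →ₗ[R] S) (h1 : (p : S) * ϖ ^ a ∣ x₀ 1 - 1)
    (hmul : ∀ h h' : H, (p : S) * ϖ ^ a ∣ x₀ (h * h') - x₀ h * x₀ h') :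
    ∃ x : H →ₐ[R] S, ∀ h : H, ϖ ^ a ∣ x h - x₀ h := by
  classical
  -- Step 1: `x₀ ^ p ≡ 1` pointwise modulo `p ϖ^a`
  have hstep1 : ∀ h : H,
      (p : S) * ϖ ^ a ∣ ((toConv x₀ : WithConv (H →ₗ[R] S)) ^ p - 1) h := by
    let I : Ideal S := Ideal.span {(p : S) * ϖ ^ a}
    let q : S →ₐ[R] S ⧸ I := Ideal.Quotient.mkₐ R I
    have hq : ∀ s : S, q s = 0 ↔ (p : S) * ϖ ^ a ∣ s := by
      intro s
      change Ideal.Quotient.mk I s = 0 ↔ _
      rw [Ideal.Quotient.eq_zero_iff_mem, Ideal.mem_span_singleton]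
    let φ : H →ₐ[R] S ⧸ I := AlgHom.ofLinearMap (q.toLinearMap ∘ₗ x₀)
      (by
        change q (x₀ 1) = 1
        have := (hq (x₀ 1 - 1)).mpr h1
        rw [map_sub q, map_one q, sub_eq_zero] at this
        exact this)
      (by
        intro h h'
        change q (x₀ (h * h')) = q (x₀ h) * q (x₀ h')
        have := (hq _).mpr (hmul h h')
        rw [map_sub q, map_mul q, sub_eq_zero] at this
        exact this)
    have hφ : (toConv φ : WithConv (H →ₐ[R] S ⧸ I)) ^ p = 1 :=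
      tww_lift_algHom_pow_eq_one p hkill φ
    have hφ' : (toConv (q.toLinearMap ∘ₗ x₀) : WithConv (H →ₗ[R] S ⧸ I)) ^ p = 1 := by
      have := congrArg twwInjLin hφ
      rw [twwInjLin_pow, twwInjLin_one] at this
      exact this
    have h3 := tww_lift_comp_pow q (toConv x₀ : WithConv (H →ₗ[R] S)) p
    rw [ofConv_toConv, hφ'] at h3
    intro h
    rw [← hq]
    have h4 : q (((toConv x₀ : WithConv (H →ₗ[R] S)) ^ p) h) =
        (1 : WithConv (H →ₗ[R] S ⧸ I)) h := by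
      rw [← h3]; rfl
    have h5 : ((toConv x₀ : WithConv (H →ₗ[R] S)) ^ p - 1) h =
        ((toConv x₀ : WithConv (H →ₗ[R] S)) ^ p) h - (1 : WithConv (H →ₗ[R] S)) h := rfl
    rw [h5, map_sub, h4]
    simp
  -- Step 2: pass to the convolution ring and extract the root
  have hpnzd : (p : S) * ϖ ^ a ∈ nonZeroDivisors S := by
    have hp' : (p : S) ∈ nonZeroDivisors S := by
      have : (p : S) * w ∈ nonZeroDivisors S := hpw ▸ pow_mem hϖ e
      exact (mul_mem_nonZeroDivisors.mp this).1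
    exact mul_mem hp' (pow_mem hϖ a)
  have hz₀ : (p : WithConv (H →ₗ[R] S)) * (algebraMap S (WithConv (H →ₗ[R] S)) ϖ) ^ a ∣
      (toConv x₀ : WithConv (H →ₗ[R] S)) ^ p - 1 := by
    have : (p : WithConv (H →ₗ[R] S)) * (algebraMap S (WithConv (H →ₗ[R] S)) ϖ) ^ a =
        algebraMap S (WithConv (H →ₗ[R] S)) ((p : S) * ϖ ^ a) := by
      rw [map_mul, map_pow, map_natCast]
    rw [this]
    exact tww_inj_dvd_of_pointwise _ hpnzd _ hstep1
  have hpwB : (algebraMap S (WithConv (H →ₗ[R] S)) ϖ) ^ e =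
      (p : WithConv (H →ₗ[R] S)) * algebraMap S (WithConv (H →ₗ[R] S)) w := by
    rw [← map_pow, hpw, map_mul, map_natCast]
  obtain ⟨x, hxp, hxd⟩ := tww_lift_root p hp (algebraMap S (WithConv (H →ₗ[R] S)) ϖ)
    (algebraMap S (WithConv (H →ₗ[R] S)) w) e a hpwB ha
    (tww_lift_conv_sep ϖ hsep) (tww_lift_conv_pre ϖ hϖ hsep hpre) (toConv x₀) hz₀
  have hxpt : ∀ h, ϖ ^ a ∣ x h - x₀ h := by
    intro h
    rw [tww_lift_algebraMap_pow] at hxd
    exact tww_inj_pointwise_of_dvd _ _ hxd h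
  -- Step 3: `x 1 = 1`
  have hx1 : x (1 : H) = 1 := by
    have hp1 : (x (1 : H)) ^ p = (1 : S) ^ p := by
      rw [← tww_lift_pow_apply_one, hxp, one_pow]
      simp
    refine tww_inj_eq_of_pow_eq p hp ϖ w e a hϖ hpw ha hsep _ _ isUnit_one hp1 ?_
    have : x 1 - 1 = (x 1 - x₀ 1) + (x₀ 1 - 1) := by ring
    rw [this]
    exact dvd_add (hxpt 1) (Dvd.dvd.trans ⟨(p : S), by ring⟩ h1)
  -- Step 4: multiplicativity, by uniqueness of `p`-th roots of unity in `Hom(H ⊗ H, S)`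
  have hME : twwLiftM x = twwLiftE x := by
    have hEp : twwLiftE x ^ p = 1 := by rw [← twwLiftE_pow, hxp, twwLiftE_one]
    have hMp : twwLiftM x ^ p = 1 := by rw [← twwLiftM_pow, hxp, twwLiftM_one]
    have hu : IsUnit (twwLiftE x) := by
      have h2p : 2 ≤ p := hp.two_le
      refine IsUnit.of_mul_eq_one (twwLiftE x ^ (p - 1)) ?_
      rw [← pow_succ', show p - 1 + 1 = p by omega, hEp]
    refine tww_inj_conv p hp ϖ w e a hϖ hpw ha hsep _ _ hu (hMp.trans hEp.symm) ?_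
    intro t
    induction t using TensorProduct.induction_on with
    | zero => simp
    | tmul h h' =>
      rw [twwLiftM_apply, twwLiftE_apply]
      obtain ⟨d1, hd1⟩ := hxpt (h * h')
      obtain ⟨d2, hd2⟩ := hxpt h
      obtain ⟨d3, hd3⟩ := hxpt h'
      obtain ⟨d4, hd4⟩ := hmul h h'
      refine ⟨d1 + (p : S) * d4 - x h' * d2 - x₀ h * d3, ?_⟩
      linear_combination hd1 + hd4 - x h' * hd2 - x₀ h * hd3
    | add t t' ht ht' =>
      have e1 : twwLiftM x (t + t') - twwLiftE x (t + t') =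
          (twwLiftM x t - twwLiftE x t) + (twwLiftM x t' - twwLiftE x t') := by
        have h1 : twwLiftM x (t + t') = twwLiftM x t + twwLiftM x t' :=
          map_add (twwLiftM x).ofConv t t'
        have h2 : twwLiftE x (t + t') = twwLiftE x t + twwLiftE x t' :=
          map_add (twwLiftE x).ofConv t t'
        rw [h1, h2]; ring
      rw [e1]
      exact dvd_add ht ht'
  refine ⟨AlgHom.ofLinearMap x.ofConv hx1 (fun h h' => ?_), fun h => hxpt h⟩
  have := congrArg (fun g : WithConv (H ⊗[R] H →ₗ[R] S) => g (h ⊗ₜ[R] h')) hME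
  simpa [twwLiftM_apply, twwLiftE_apply] using this

/-- Separatedness in divisibility form, from Mathlib's `IsHausdorff`. -/
theorem tww_lift_sep_of_isHausdorff (ϖ : S) [hH : IsHausdorff (Ideal.span {ϖ}) S] :
    ∀ z : S, (∀ n, ϖ ^ n ∣ z) → z = 0 := by
  intro z hz
  apply hH.haus z
  intro n
  rw [SModEq.zero, smul_eq_mul, Ideal.mul_top, Ideal.span_singleton_pow,
    Ideal.mem_span_singleton]
  exact hz n

/-- Completeness in divisibility form, from Mathlib's `IsPrecomplete`. -/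
theorem tww_lift_pre_of_isPrecomplete (ϖ : S) [hP : IsPrecomplete (Ideal.span {ϖ}) S] :
    ∀ f : ℕ → S, (∀ n, ϖ ^ n ∣ f (n + 1) - f n) → ∃ L, ∀ n, ϖ ^ n ∣ L - f n := by
  intro f hf
  have hmn : ∀ m n, m ≤ n → ϖ ^ m ∣ f n - f m := by
    intro m n hmn
    induction n, hmn using Nat.le_induction with
    | base => simp
    | succ n hmn ih =>
      have : f (n + 1) - f m = (f (n + 1) - f n) + (f n - f m) := by ring
      rw [this]
      exact dvd_add ((pow_dvd_pow ϖ hmn).trans (hf n)) ih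
  obtain ⟨L, hL⟩ := hP.prec (f := f) (by
    intro m n hmn'
    rw [SModEq.sub_mem, smul_eq_mul, Ideal.mul_top, Ideal.span_singleton_pow,
      Ideal.mem_span_singleton]
    have := hmn m n hmn'
    rwa [← dvd_neg, neg_sub] at this)
  refine ⟨L, fun n => ?_⟩
  have := hL n
  rw [SModEq.sub_mem, smul_eq_mul, Ideal.mul_top, Ideal.span_singleton_pow,
    Ideal.mem_span_singleton] at this
  rwa [← dvd_neg, neg_sub] at this

/-- **(T3)** for a `ϖ`-adically complete ring in Mathlib's sense. -/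
theorem tww_lift_of_isAdicComplete (p : ℕ) (hp : p.Prime)
    (hkill : (toConv (AlgHom.id R H) : WithConv (H →ₐ[R] H)) ^ p = 1)
    (ϖ w : S) (e a : ℕ) (hϖ : ϖ ∈ nonZeroDivisors S) (hpw : ϖ ^ e = (p : S) * w)
    (ha : e < (p - 1) * a) [IsAdicComplete (Ideal.span {ϖ}) S]
    (x₀ : H →ₗ[R] S) (h1 : (p : S) * ϖ ^ a ∣ x₀ 1 - 1)
    (hmul : ∀ h h' : H, (p : S) * ϖ ^ a ∣ x₀ (h * h') - x₀ h * x₀ h') :
    ∃ x : H →ₐ[R] S, ∀ h : H, ϖ ^ a ∣ x h - x₀ h :=
  tww_lift p hp hkill ϖ w e a hϖ hpw ha (tww_lift_sep_of_isHausdorff ϖ)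
    (tww_lift_pre_of_isPrecomplete ϖ) x₀ h1 hmul

/-- **(T3), quotient form**: an `R`-algebra homomorphism `H → S ⧸ (p ϖ^a)` which has an
`R`-linear lift (automatic if `H` is projective over `R`) is congruent modulo `ϖ ^ a` to an
`R`-algebra homomorphism `H → S`. -/
theorem tww_lift_quot (p : ℕ) (hp : p.Prime)
    (hkill : (toConv (AlgHom.id R H) : WithConv (H →ₐ[R] H)) ^ p = 1)
    (ϖ w : S) (e a : ℕ) (hϖ : ϖ ∈ nonZeroDivisors S) (hpw : ϖ ^ e = (p : S) * w)
    (ha : e < (p - 1) * a)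
    (hsep : ∀ z : S, (∀ n, ϖ ^ n ∣ z) → z = 0)
    (hpre : ∀ f : ℕ → S, (∀ n, ϖ ^ n ∣ f (n + 1) - f n) → ∃ L, ∀ n, ϖ ^ n ∣ L - f n)
    (ξ : H →ₐ[R] S ⧸ Ideal.span {(p : S) * ϖ ^ a}) (x₀ : H →ₗ[R] S)
    (hx₀ : ∀ h, Ideal.Quotient.mk (Ideal.span {(p : S) * ϖ ^ a}) (x₀ h) = ξ h) :
    ∃ x : H →ₐ[R] S, ∀ h : H,
      Ideal.Quotient.mk (Ideal.span {ϖ ^ a}) (x h) =
        Ideal.Quotient.factor (Ideal.span_singleton_le_span_singleton.mpr
          (Dvd.intro_left (p : S) rfl)) (ξ h) := by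
  have hq : ∀ s : S, Ideal.Quotient.mk (Ideal.span {(p : S) * ϖ ^ a}) s = 0 ↔
      (p : S) * ϖ ^ a ∣ s := by
    intro s
    rw [Ideal.Quotient.eq_zero_iff_mem, Ideal.mem_span_singleton]
  have h1 : (p : S) * ϖ ^ a ∣ x₀ 1 - 1 := by
    rw [← hq, map_sub, hx₀, map_one, map_one, sub_self]
  have hmul : ∀ h h' : H, (p : S) * ϖ ^ a ∣ x₀ (h * h') - x₀ h * x₀ h' := by
    intro h h'
    rw [← hq, map_sub, hx₀, map_mul (Ideal.Quotient.mk _), hx₀, hx₀, map_mul ξ, sub_self]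
  obtain ⟨x, hx⟩ := tww_lift p hp hkill ϖ w e a hϖ hpw ha hsep hpre x₀ h1 hmul
  refine ⟨x, fun h => ?_⟩
  rw [← hx₀, Ideal.Quotient.factor_mk, Ideal.Quotient.eq, Ideal.mem_span_singleton]
  exact hx h

end Main

end Fermat.Agent.TW.W


end ZBTW_004_3

/-! ### bundled: `Fermat.Agent.TW.W.InjVal` -/
section ZBTW_004_4

/-!
# TW-W (INJ), valuation form: no small `p`-torsion in a convolution ring

`K` a field, `A ⊂ K` a valuation subring (any rank), `v = A.valuation`, `R → A`, `C` a cocommutative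
`R`-coalgebra, finitely generated as an `R`-module.  If `x ∈ Hom_R(C, K)` satisfies `x ^ p = 1`
(convolution power) and `v (x h - 1 h) ≤ v c` for all `h`, where `c ^ (p - 1) = p * t` with `t` a
non-unit of `A` (i.e. `v(c) > v(p)/(p-1)` additively), then `x = 1`.

No discreteness, no completeness, no separatedness is needed: the proof looks at a generator of
`C` where `x - 1` has the largest absolute value.
-/

set_option linter.unusedSectionVars false

namespace Fermat.Agent.TW.W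

open WithConv Coalgebra

section Bdd

variable {K : Type*} [Field K] (A : ValuationSubring K)
variable {R C : Type*} [CommRing R] [Algebra R K] [AddCommGroup C] [Module R C] [Coalgebra R C]

/-- `z ∈ Hom_R(C, K)` is bounded by `g`: `v (z h) ≤ g` for all `h`. -/
def TwwBdd (z : WithConv (C →ₗ[R] K)) (g : A.ValueGroup) : Prop :=
  ∀ h : C, A.valuation (z h) ≤ g

variable {A}

theorem TwwBdd.mono {z : WithConv (C →ₗ[R] K)} {g g' : A.ValueGroup} (hz : TwwBdd A z g)
    (hg : g ≤ g') : TwwBdd A z g' := fun h => (hz h).trans hg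

theorem TwwBdd.add {z z' : WithConv (C →ₗ[R] K)} {g : A.ValueGroup} (hz : TwwBdd A z g)
    (hz' : TwwBdd A z' g) : TwwBdd A (z + z') g := fun h =>
  (A.valuation).map_add_le (hz h) (hz' h)

theorem TwwBdd.neg {z : WithConv (C →ₗ[R] K)} {g : A.ValueGroup} (hz : TwwBdd A z g) :
    TwwBdd A (-z) g := fun h => by
  have : (-z) h = -(z h) := rfl
  rw [this, Valuation.map_neg]; exact hz h

theorem TwwBdd.sub {z z' : WithConv (C →ₗ[R] K)} {g : A.ValueGroup} (hz : TwwBdd A z g)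
    (hz' : TwwBdd A z' g) : TwwBdd A (z - z') g := by
  rw [sub_eq_add_neg]; exact hz.add hz'.neg

theorem TwwBdd.zero (g : A.ValueGroup) : TwwBdd A (0 : WithConv (C →ₗ[R] K)) g := fun h => by
  have : (0 : WithConv (C →ₗ[R] K)) h = 0 := rfl
  rw [this, map_zero]; exact zero_le

theorem TwwBdd.mul {z z' : WithConv (C →ₗ[R] K)} {g g' : A.ValueGroup} (hz : TwwBdd A z g)
    (hz' : TwwBdd A z' g') : TwwBdd A (z * z') (g * g') := fun h => by
  rw [(ℛ R h).convMul_apply]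
  refine (A.valuation).map_sum_le fun i _ => ?_
  rw [map_mul]
  exact mul_le_mul' (hz _) (hz' _)

theorem TwwBdd.one (hRA : ∀ r : R, algebraMap R K r ∈ A) :
    TwwBdd A (1 : WithConv (C →ₗ[R] K)) 1 := fun h => by
  rw [LinearMap.convOne_apply]
  exact (A.valuation_le_one_iff _).mpr (hRA _)

theorem TwwBdd.pow (hRA : ∀ r : R, algebraMap R K r ∈ A) {z : WithConv (C →ₗ[R] K)}
    {g : A.ValueGroup} (hz : TwwBdd A z g) (n : ℕ) : TwwBdd A (z ^ n) (g ^ n) := by
  induction n with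
  | zero => simpa using TwwBdd.one hRA
  | succ n ih => rw [pow_succ, pow_succ]; exact ih.mul hz

theorem TwwBdd.smul {z : WithConv (C →ₗ[R] K)} {g : A.ValueGroup} (hz : TwwBdd A z g) (a : K) :
    TwwBdd A (a • z) (A.valuation a * g) := fun h => by
  have : (a • z) h = a * z h := rfl
  rw [this, map_mul]
  exact mul_le_mul' le_rfl (hz h)

variable (A) (R C) in
/-- The subring of `A`-valued elements of the convolution ring. -/
def twwBddSubring [IsCocomm R C] (hRA : ∀ r : R, algebraMap R K r ∈ A) :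
    Subring (WithConv (C →ₗ[R] K)) where
  carrier := {z | TwwBdd A z 1}
  mul_mem' hz hz' := by simpa using TwwBdd.mul hz hz'
  one_mem' := TwwBdd.one hRA
  add_mem' hz hz' := TwwBdd.add hz hz'
  zero_mem' := TwwBdd.zero 1
  neg_mem' hz := TwwBdd.neg hz

theorem mem_twwBddSubring [IsCocomm R C] (hRA : ∀ r : R, algebraMap R K r ∈ A)
    (z : WithConv (C →ₗ[R] K)) : z ∈ twwBddSubring A R C hRA ↔ TwwBdd A z 1 := Iff.rfl

/-- The binomial expansion with an `A`-valued cofactor. -/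
theorem tww_injv_binom [IsCocomm R C] (hRA : ∀ r : R, algebraMap R K r ∈ A)
    (p : ℕ) (hp : p.Prime) (y : WithConv (C →ₗ[R] K)) (hy : TwwBdd A y 1) :
    ∃ c₀ : WithConv (C →ₗ[R] K), TwwBdd A c₀ 1 ∧
      (1 + y) ^ p = 1 + (p : WithConv (C →ₗ[R] K)) * y * (1 + y * c₀) + y ^ p := by
  obtain ⟨c₀, hc₀⟩ := tww_inj_binom p hp (⟨y, hy⟩ : twwBddSubring A R C hRA)
  refine ⟨c₀.1, c₀.2, ?_⟩
  have := congrArg (Subtype.val : twwBddSubring A R C hRA → WithConv (C →ₗ[R] K)) hc₀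
  simpa using this

/-- Boundedness can be checked on a spanning set. -/
theorem TwwBdd.of_span (hRA : ∀ r : R, algebraMap R K r ∈ A) {z : WithConv (C →ₗ[R] K)}
    {g : A.ValueGroup} (S : Set C) (hS : Submodule.span R S = ⊤)
    (hz : ∀ s ∈ S, A.valuation (z s) ≤ g) : TwwBdd A z g := by
  intro h
  have hh : h ∈ Submodule.span R S := by rw [hS]; trivial
  induction hh using Submodule.span_induction with
  | mem s hs => exact hz s hs
  | zero =>
    have : z (0 : C) = 0 := map_zero z.ofConv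
    rw [this, map_zero]; exact zero_le
  | add a b _ _ ha hb =>
    have : z (a + b) = z a + z b := map_add z.ofConv a b
    rw [this]; exact (A.valuation).map_add_le ha hb
  | smul r a _ ha =>
    have : z (r • a) = algebraMap R K r * z a := by
      have := map_smul z.ofConv r a
      rw [Algebra.smul_def] at this
      exact this
    rw [this, map_mul]
    calc A.valuation (algebraMap R K r) * A.valuation (z a) ≤ 1 * g :=
          mul_le_mul' ((A.valuation_le_one_iff _).mpr (hRA r)) ha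
      _ = g := one_mul g

end Bdd

section Main

variable {K : Type*} [Field K] (A : ValuationSubring K)
variable {R C : Type*} [CommRing R] [Algebra R K] [AddCommGroup C] [Module R C] [Coalgebra R C]
  [IsCocomm R C] [Module.Finite R C]

/-- **(INJ), valuation form.**  `x ^ p = 1` and `x ≡ 1` modulo `c`, `c ^ (p - 1) ∈ p 𝔪_A`,
imply `x = 1`. -/
theorem tww_injv_eq_one (hRA : ∀ r : R, algebraMap R K r ∈ A)
    (p : ℕ) (hp : p.Prime) (hpK : (p : K) ≠ 0) (c t : K) (hct : c ^ (p - 1) = (p : K) * t)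
    (ht : t ∈ A.nonunits)
    (x : WithConv (C →ₗ[R] K)) (hx : x ^ p = 1)
    (hcong : ∀ h : C, A.valuation (x h - (1 : WithConv (C →ₗ[R] K)) h) ≤ A.valuation c) :
    x = 1 := by
  classical
  have h2 : 2 ≤ p := hp.two_le
  set v := A.valuation with hv
  have hvp1 : v (p : K) ≤ 1 := (A.valuation_le_one_iff _).mpr (natCast_mem A p)
  have hvp0 : v (p : K) ≠ 0 := (Valuation.ne_zero_iff v).mpr hpK
  have hvt : v t < 1 := (ValuationSubring.mem_nonunits_iff (A := A)).mp ht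
  -- `v c < 1`
  have hvc : v c < 1 := by
    by_contra hcon
    rw [not_lt] at hcon
    have h1 : (1 : A.ValueGroup) ≤ v c ^ (p - 1) := one_le_pow_of_one_le' hcon _
    rw [← map_pow, hct, map_mul] at h1
    have h3 : v (p : K) * v t < 1 := by
      calc v (p : K) * v t ≤ 1 * v t := mul_le_mul' hvp1 le_rfl
        _ = v t := one_mul _
        _ < 1 := hvt
    exact absurd h1 (not_le.mpr h3)
  -- `y = x - 1`
  set y : WithConv (C →ₗ[R] K) := x - 1 with hy
  have hyc : TwwBdd A y (v c) := fun h => hcong h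
  have hy1 : TwwBdd A y 1 := hyc.mono hvc.le
  by_contra hne
  have hy0 : y ≠ 0 := fun h => hne (sub_eq_zero.mp h)
  -- a finite spanning set and a point of maximal absolute value
  obtain ⟨S, hS⟩ := (Module.finite_def.mp (inferInstance : Module.Finite R C))
  have hSne : S.Nonempty := by
    by_contra hcon
    rw [Finset.not_nonempty_iff_eq_empty] at hcon
    apply hy0
    have hb : TwwBdd A y 0 := TwwBdd.of_span hRA (↑S) hS (by simp [hcon])
    ext h
    have := hb h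
    have h0 : v (y h) = 0 := le_antisymm this zero_le
    exact (Valuation.zero_iff v).mp h0
  obtain ⟨s₀, hs₀, hmax⟩ := Finset.exists_max_image S (fun s => v (y s)) hSne
  set γ : K := y s₀ with hγ
  have hyγ : TwwBdd A y (v γ) := TwwBdd.of_span hRA (↑S) hS (fun s hs => hmax s hs)
  have hγ0 : v γ ≠ 0 := by
    intro h0
    apply hy0
    ext h
    have := hyγ h
    rw [h0] at this
    exact (Valuation.zero_iff v).mp (le_antisymm this zero_le)
  have hγc : v γ ≤ v c := hyc s₀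
  have hγ1 : v γ < 1 := lt_of_le_of_lt hγc hvc
  -- the binomial relation, evaluated at `s₀`
  obtain ⟨c₀, hc₀, hbin⟩ := tww_injv_binom hRA p hp y hy1
  have hx' : (1 + y) ^ p = 1 := by rw [hy, add_sub_cancel]; exact hx
  rw [hx'] at hbin
  have hrel : (p : WithConv (C →ₗ[R] K)) * y = -((p : WithConv (C →ₗ[R] K)) * (y * y * c₀) + y ^ p) := by
    linear_combination -hbin
  have hpy : ∀ z : WithConv (C →ₗ[R] K), ((p : WithConv (C →ₗ[R] K)) * z) s₀ = (p : K) * z s₀ := by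
    intro z
    have : (p : WithConv (C →ₗ[R] K)) * z = (p : ℕ) • z := by rw [nsmul_eq_mul]
    rw [this]
    have h' : ((p : ℕ) • z) s₀ = (p : ℕ) • z s₀ := rfl
    rw [h', nsmul_eq_mul]
  have heval : (p : K) * γ = -((p : K) * (y * y * c₀) s₀ + (y ^ p) s₀) := by
    have := congrArg (fun z : WithConv (C →ₗ[R] K) => z s₀) hrel
    rw [hpy] at this
    rw [this]
    have hneg : ∀ z : WithConv (C →ₗ[R] K), (-z) s₀ = -(z s₀) := fun z => rfl
    have hadd : ∀ z z' : WithConv (C →ₗ[R] K), (z + z') s₀ = z s₀ + z' s₀ := fun z z' => rfl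
    rw [hneg, hadd, hpy]
  have hb1 : v ((y * y * c₀) s₀) ≤ v γ * v γ := by
    have := ((hyγ.mul hyγ).mul hc₀) s₀
    simpa using this
  have hb2 : v ((y ^ p) s₀) ≤ v γ ^ p := (hyγ.pow hRA p) s₀
  have hle : v (p : K) * v γ ≤ max (v (p : K) * (v γ * v γ)) (v γ ^ p) := by
    have h1 : v ((p : K) * γ) = v (p : K) * v γ := map_mul _ _ _
    rw [← h1, heval, Valuation.map_neg]
    refine (v.map_add _ _).trans (max_le_max ?_ hb2)
    rw [map_mul]
    exact mul_le_mul' le_rfl hb1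
  rcases le_max_iff.mp hle with h1 | h1
  · -- `v p * v γ ≤ v p * v γ ^ 2` forces `1 ≤ v γ`
    have h3 : v (p : K) * v γ * 1 ≤ v (p : K) * v γ * v γ := by
      rw [mul_one, mul_assoc]; exact h1
    have h4 : (1 : A.ValueGroup) ≤ v γ :=
      le_of_mul_le_mul_left h3 (zero_lt_iff.mpr (mul_ne_zero hvp0 hγ0))
    exact absurd h4 (not_le.mpr hγ1)
  · -- `v p * v γ ≤ v γ ^ p` forces `v p ≤ v γ ^ (p - 1) ≤ v p * v t < v p`
    have hpp : v γ ^ p = v γ ^ (p - 1) * v γ := by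
      rw [← pow_succ, show p - 1 + 1 = p by omega]
    rw [hpp] at h1
    have h3 : v (p : K) ≤ v γ ^ (p - 1) :=
      le_of_mul_le_mul_right h1 (zero_lt_iff.mpr hγ0)
    have h4 : v γ ^ (p - 1) ≤ v c ^ (p - 1) := pow_le_pow_left' hγc _
    have h5 : v c ^ (p - 1) = v (p : K) * v t := by rw [← map_pow, hct, map_mul]
    have h6 : v (p : K) * v t < v (p : K) * 1 :=
      mul_lt_mul_of_pos_left hvt (zero_lt_iff.mpr hvp0)
    rw [mul_one] at h6
    exact absurd (h3.trans (h4.trans h5.le)) (not_le.mpr h6)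

/-- **(INJ), valuation form, two elements.** -/
theorem tww_injv_eq (hRA : ∀ r : R, algebraMap R K r ∈ A)
    (p : ℕ) (hp : p.Prime) (hpK : (p : K) ≠ 0) (c t : K) (hct : c ^ (p - 1) = (p : K) * t)
    (ht : t ∈ A.nonunits)
    (x x' x'' : WithConv (C →ₗ[R] K)) (hinv : x' * x'' = 1) (hx'' : TwwBdd A x'' 1)
    (hpow : x ^ p = x' ^ p)
    (hcong : ∀ h : C, A.valuation (x h - x' h) ≤ A.valuation c) : x = x' := by
  have h1 : (x * x'') ^ p = 1 := by
    rw [mul_pow, hpow, ← mul_pow, hinv, one_pow]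
  have h2 : TwwBdd A (x * x'' - 1) (A.valuation c) := by
    have e1 : x * x'' - 1 = (x - x') * x'' := by rw [sub_mul, hinv]
    rw [e1]
    have hd : TwwBdd A (x - x') (A.valuation c) := fun h => hcong h
    simpa using hd.mul hx''
  have h3 := tww_injv_eq_one A hRA p hp hpK c t hct ht (x * x'') h1 (fun h => h2 h)
  calc x = x * (x' * x'') := by rw [hinv, mul_one]
    _ = (x * x'') * x' := by ring
    _ = x' := by rw [h3, one_mul]

end Main

section Points

variable {K : Type*} [Field K] (A : ValuationSubring K)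
variable {R H : Type*} [CommRing R] [Algebra R K] [Ring H] [Bialgebra R H]
  [IsCocomm R H] [Module.Finite R H]

/-- **(INJ), valuation form, points.**  Two `K`-points of a finite cocommutative bialgebra,
both killed by `p`, one of them `A`-valued, which are congruent modulo `c` with
`c ^ (p - 1) ∈ p 𝔪_A`, are equal. -/
theorem tww_injv_algHom (hRA : ∀ r : R, algebraMap R K r ∈ A)
    (p : ℕ) (hp : p.Prime) (hpK : (p : K) ≠ 0) (c t : K) (hct : c ^ (p - 1) = (p : K) * t)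
    (ht : t ∈ A.nonunits)
    (ψ ψ' : WithConv (H →ₐ[R] K)) (hψ : ψ ^ p = 1) (hψ' : ψ' ^ p = 1)
    (hψ'A : ∀ h : H, ψ' h ∈ A)
    (hcong : ∀ h : H, A.valuation (ψ h - ψ' h) ≤ A.valuation c) : ψ = ψ' := by
  apply twwInjLin_injective
  have h2p : 2 ≤ p := hp.two_le
  have hx : twwInjLin ψ ^ p = twwInjLin ψ' ^ p := by
    rw [← twwInjLin_pow, ← twwInjLin_pow, hψ, hψ']
  have hinv : twwInjLin ψ' * twwInjLin ψ' ^ (p - 1) = 1 := by
    rw [← pow_succ', show p - 1 + 1 = p by omega, ← twwInjLin_pow, hψ', twwInjLin_one]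
  have hb : TwwBdd A (twwInjLin ψ') 1 := fun h => (A.valuation_le_one_iff _).mpr (hψ'A h)
  have hb' : TwwBdd A (twwInjLin ψ' ^ (p - 1)) 1 := by
    simpa using hb.pow hRA (p - 1)
  exact tww_injv_eq A hRA p hp hpK c t hct ht _ _ _ hinv hb' hx hcong

end Points

end Fermat.Agent.TW.W


end ZBTW_004_4

/-! ### bundled: `Fermat.Agent.TW.W.T2` -/
section ZBTW_004_5

/-!
# TW-W (T2): no small torsion on a Hopf lattice

`H ⊂ Map(M, ℚ̄)` a Hopf lattice over `R ⊂ ℚ` (`W1.IsHopfLattice`), `A ⊂ ℚ̄` a valuation subring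
containing `R`, `v = A.valuation`, `c ^ (p - 1) = p * t` with `t` a non-unit of `A`
(additively: `v(c) > v(p) / (p - 1)`).

* `tww_t2_eq`   : `p • m = 0`, `p • m' = 0` and `v (h m - h m') ≤ v c` for all `h ∈ H` ⇒ `m = m'`;
* `tww_t2_zero` : `p • m = 0` and `v (h m) ≤ v c` for all `h ∈ H` with `h 0 = 0` ⇒ `m = 0`;
* `tww_t2_val_mem` : the values of a Hopf lattice lie in `A`.
-/

set_option autoImplicit false
set_option linter.unusedSectionVars false
set_option linter.style.haveILetI false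

namespace Fermat.Agent.TW.W

open Fermat.Agent.W1 WithConv

local notation "Qb" => AlgebraicClosure ℚ

section T2

variable {R : Subring ℚ} [IsPrincipalIdealRing R] [IsFractionRing R ℚ]
  {M : Type} [AddCommGroup M] [Finite M]
  {act : (Qb ≃ₐ[ℚ] Qb) → M → M} {H : Subalgebra R (M → Qb)}

/-- The points of a Hopf lattice add up. -/
theorem tww_t2_pointsEquiv_mul (hH : IsHopfLattice R act H) :
    letI := hopfAlgebraOfLattice hH
    ∀ f g : WithConv (H →ₐ[R] Qb),
      pointsEquiv hH (f * g) = pointsEquiv hH f + pointsEquiv hH g := by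
  letI := hopfAlgebraOfLattice hH
  intro f g
  rw [pointsEquiv_eq_iff]
  intro h
  rw [AlgHom.convMul_apply]
  have hf := (pointsEquiv_eq_iff hH f _).1 rfl
  have hg := (pointsEquiv_eq_iff hH g _).1 rfl
  have hf' : f.ofConv = evPt H (pointsEquiv hH f) := AlgHom.ext hf
  have hg' : g.ofConv = evPt H (pointsEquiv hH g) := AlgHom.ext hg
  have h1 : Algebra.TensorProduct.lift f.ofConv g.ofConv (fun _ _ => Commute.all _ _)
      (Coalgebra.comul (R := R) h) =
      Algebra.TensorProduct.lift (evPt H (pointsEquiv hH f)) (evPt H (pointsEquiv hH g))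
        (fun _ _ => Commute.all _ _) (comulAlg hH h) := by
    congr 1
    · congr 1
  rw [h1, lift_ofConv, mu2_comulAlg_apply]

theorem tww_t2_pointsEquiv_one (hH : IsHopfLattice R act H) :
    letI := hopfAlgebraOfLattice hH
    pointsEquiv hH (1 : WithConv (H →ₐ[R] Qb)) = 0 := by
  letI := hopfAlgebraOfLattice hH
  have h1 := tww_t2_pointsEquiv_mul hH 1 1
  rw [mul_one] at h1
  exact (add_eq_left.1 h1.symm)

theorem tww_t2_pointsEquiv_pow (hH : IsHopfLattice R act H) :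
    letI := hopfAlgebraOfLattice hH
    ∀ (f : WithConv (H →ₐ[R] Qb)) (n : ℕ),
      pointsEquiv hH (f ^ n) = n • pointsEquiv hH f := by
  letI := hopfAlgebraOfLattice hH
  intro f n
  induction n with
  | zero => rw [pow_zero, zero_smul]; exact tww_t2_pointsEquiv_one hH
  | succ n ih => rw [pow_succ, tww_t2_pointsEquiv_mul hH, ih, add_smul, one_smul]

theorem tww_t2_pointsEquiv_evPt (hH : IsHopfLattice R act H) (m : M) :
    pointsEquiv hH (toConv (evPt H m)) = m := by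
  rw [pointsEquiv_eq_iff]
  intro h
  rfl

/-- A point killed by `p` gives a convolution `p`-torsion element. -/
theorem tww_t2_evPt_pow (hH : IsHopfLattice R act H) (p : ℕ) (m : M) (hpm : p • m = 0) :
    letI := hopfAlgebraOfLattice hH
    (toConv (evPt H m) : WithConv (H →ₐ[R] Qb)) ^ p = 1 := by
  letI := hopfAlgebraOfLattice hH
  apply (pointsEquiv hH).injective
  rw [tww_t2_pointsEquiv_pow hH, tww_t2_pointsEquiv_evPt, hpm, tww_t2_pointsEquiv_one hH]

omit [IsPrincipalIdealRing R] [IsFractionRing R ℚ] [Finite M] in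
/-- The values of a Hopf lattice are integral, hence lie in every valuation subring over `R`. -/
theorem tww_t2_val_mem (hH : IsHopfLattice R act H) (A : ValuationSubring Qb)
    (hRA : ∀ r : R, algebraMap R Qb r ∈ A) (h : M → Qb) (hh : h ∈ H) (m : M) : h m ∈ A := by
  haveI : Module.Finite R H := Module.Finite.iff_fg.2 hH.fg
  have hint : IsIntegral R (⟨h, hh⟩ : H) := Algebra.IsIntegral.isIntegral _
  have hint0 : IsIntegral R (h m) :=
    hint.map ((Pi.evalAlgHom R (fun _ : M => Qb) m).comp H.val)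
  obtain ⟨P, hP, hPx⟩ := hint0
  let φ : R →+* A := (algebraMap R Qb).codRestrict A.toSubring hRA
  have h1 : IsIntegral A (h m) := by
    refine ⟨P.map φ, hP.map _, ?_⟩
    rw [Polynomial.eval₂_map]
    have : (algebraMap A Qb).comp φ = algebraMap R Qb := by
      ext z; rfl
    rw [this]; exact hPx
  obtain ⟨y, hy⟩ := IsIntegrallyClosed.isIntegral_iff.mp h1
  rw [← hy]
  exact y.2

/-- **(T2), two points.** -/
theorem tww_t2_eq (hH : IsHopfLattice R act H) (A : ValuationSubring Qb)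
    (hRA : ∀ r : R, algebraMap R Qb r ∈ A)
    (p : ℕ) (hp : p.Prime) (c t : Qb) (hct : c ^ (p - 1) = (p : Qb) * t) (ht : t ∈ A.nonunits)
    (m m' : M) (hpm : p • m = 0) (hpm' : p • m' = 0)
    (hm : ∀ h ∈ H, A.valuation (h m - h m') ≤ A.valuation c) : m = m' := by
  letI := hopfAlgebraOfLattice hH
  haveI : Coalgebra.IsCocomm R H := isCocomm_hopfAlgebraOfLattice hH
  haveI : Module.Finite R H := Module.Finite.iff_fg.2 hH.fg
  have hpK : (p : Qb) ≠ 0 := by exact_mod_cast hp.ne_zero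
  have key := tww_injv_algHom A hRA p hp hpK c t hct ht
    (toConv (evPt H m)) (toConv (evPt H m')) (tww_t2_evPt_pow hH p m hpm)
    (tww_t2_evPt_pow hH p m' hpm')
    (fun h => tww_t2_val_mem hH A hRA h.1 h.2 m')
    (fun h => hm h.1 h.2)
  exact evPt_injective hH (toConv_injective key)

/-- **(T2)**: no small torsion. -/
theorem tww_t2_zero (hH : IsHopfLattice R act H) (A : ValuationSubring Qb)
    (hRA : ∀ r : R, algebraMap R Qb r ∈ A)
    (p : ℕ) (hp : p.Prime) (c t : Qb) (hct : c ^ (p - 1) = (p : Qb) * t) (ht : t ∈ A.nonunits)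
    (m : M) (hpm : p • m = 0)
    (hm : ∀ h ∈ H, h 0 = 0 → A.valuation (h m) ≤ A.valuation c) : m = 0 := by
  refine tww_t2_eq hH A hRA p hp c t hct ht m 0 hpm (smul_zero _) ?_
  intro h hh
  obtain ⟨r, hr⟩ := hH.counit_mem h hh
  have h1 : h - algebraMap R (M → Qb) r ∈ H := H.sub_mem hh (H.algebraMap_mem r)
  have h2 : (h - algebraMap R (M → Qb) r) 0 = 0 := by
    rw [Pi.sub_apply, hr]
    simp [Pi.algebraMap_apply]
  have h3 := hm _ h1 h2
  have h4 : (h - algebraMap R (M → Qb) r) m = h m - h 0 := by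
    rw [Pi.sub_apply, hr]
    simp [Pi.algebraMap_apply]
  rwa [h4] at h3

end T2

end Fermat.Agent.TW.W


end ZBTW_004_5

/-! ### bundled: `Fermat.Agent.TW.W.LiftLat` -/
section ZBTW_004_6

/-!
# TW-W (T3) on a Hopf lattice

`H ⊂ Map(M, ℚ̄)` a Hopf lattice over `R ⊂ ℚ` (`W1.IsHopfLattice`), `p • M = 0`.

* `tww_liftlat_kill`   : the Hopf algebra of the lattice is killed by `p` (`[p] = unit ∘ counit`);
* `tww_liftlat_points` : for every field `F` with an embedding `ι : ℚ̄ → F`, the `F`-points of `H`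
  are the `ι ∘ ev_m`, `m ∈ M`;
* `tww_liftlat`        : **(T3)**: an `R`-linear map `x₀ : H → S` (`S ⊂ F` complete) which is
  multiplicative modulo `p ϖ^a` is congruent modulo `ϖ^a` to `ι ∘ ev_m` for some `m ∈ M`, all of
  whose coordinates `ι (h m)` lie in `S`.
-/

set_option autoImplicit false
set_option linter.unusedSectionVars false
set_option linter.style.haveILetI false

namespace Fermat.Agent.TW.W

open Fermat.Agent.W1 WithConv

local notation "Qb" => AlgebraicClosure ℚ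

section LiftLat

variable {R : Subring ℚ} [IsPrincipalIdealRing R] [IsFractionRing R ℚ]
  {M : Type} [AddCommGroup M] [Finite M]
  {act : (Qb ≃ₐ[ℚ] Qb) → M → M} {H : Subalgebra R (M → Qb)}

/-- A Hopf lattice on a group killed by `p` is killed by `p`. -/
theorem tww_liftlat_kill (hH : IsHopfLattice R act H) (p : ℕ) (hpM : ∀ m : M, p • m = 0) :
    letI := hopfAlgebraOfLattice hH
    (toConv (AlgHom.id R H) : WithConv (H →ₐ[R] H)) ^ p = 1 := by
  letI := hopfAlgebraOfLattice hH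
  haveI : Coalgebra.IsCocomm R H := isCocomm_hopfAlgebraOfLattice hH
  apply ofConv_injective
  apply AlgHom.ext
  intro h
  apply Subtype.ext
  funext m
  have h1 := tww_lift_algHom_pow (R := R) (H := H) (evPt H m) p
  have h2 := tww_t2_evPt_pow hH p m (hpM m)
  rw [h1] at h2
  have h3 := congrArg (fun f : WithConv (H →ₐ[R] Qb) => f.ofConv h) h2
  have h4 : ((1 : WithConv (H →ₐ[R] H)).ofConv h : M → Qb) m =
      (1 : WithConv (H →ₐ[R] Qb)).ofConv h := by
    change ((algebraMap R H (Coalgebra.counit (R := R) h) : H) : M → Qb) m =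
      algebraMap R Qb (Coalgebra.counit (R := R) h)
    rfl
  rw [h4]
  exact h3

/-- The rank of a Hopf lattice is at most the order of the group. -/
theorem tww_liftlat_finrank_le (hH : IsHopfLattice R act H) :
    Module.finrank R H ≤ Nat.card M := by
  classical
  haveI : Fintype M := Fintype.ofFinite M
  haveI : Module.Finite R H := Module.Finite.iff_fg.2 hH.fg
  haveI : Module.IsTorsionFree R H := isTorsionFree_lattice H
  haveI : Module.Free R H := Module.free_of_finite_type_torsion_free'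
  have h1 : LinearIndependent (AlgebraicClosure ℚ)
      (fun i => ((Module.finBasis R H i : H) : M → AlgebraicClosure ℚ)) := by
    have h2 : LinearIndependent R
        (fun i => ((Module.finBasis R H i : H) : M → AlgebraicClosure ℚ)) :=
      (Module.finBasis R H).linearIndependent.map' (Subalgebra.toSubmodule H).subtype
        (Submodule.ker_subtype _)
    have h3 : LinearIndependent ℚ
        (fun i => ((Module.finBasis R H i : H) : M → AlgebraicClosure ℚ)) :=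
      (LinearIndependent.iff_fractionRing R ℚ).1 h2
    exact linearIndependent_qbar_of_rat act _
      (fun i σ x => hH.equivariant _ (Module.finBasis R H i).2 σ x) h3
  have h4 := h1.fintype_card_le_finrank
  simpa [Nat.card_eq_fintype_card] using h4

/-- The points of a Hopf lattice with values in a field `F ⊇ ℚ̄` are the evaluations at the
elements of `M`. -/
theorem tww_liftlat_points (hH : IsHopfLattice R act H) {F : Type*} [Field F] [Algebra R F]
    (ι : Qb →ₐ[R] F) (y : H →ₐ[R] F) : ∃ m : M, ∀ h : H, y h = ι ((h : M → Qb) m) := by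
  classical
  haveI : Module.Finite R H := Module.Finite.iff_fg.2 hH.fg
  haveI : Module.IsTorsionFree R H := isTorsionFree_lattice H
  haveI : Module.Free R H := Module.free_of_finite_type_torsion_free'
  haveI : Finite (H →ₐ[R] F) := Finite.algHom R H F
  let Φ : M → (H →ₐ[R] F) := fun m => ι.comp (evPt H m)
  have hΦ : Function.Injective Φ := by
    intro m m' hmm
    apply evPt_injective hH
    apply AlgHom.ext
    intro h
    have := congrArg (fun f : H →ₐ[R] F => f h) hmm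
    exact ι.toRingHom.injective this
  have hbij : Function.Bijective Φ :=
    Function.Injective.bijective_of_nat_card_le hΦ
      ((card_algHom_le_finrank R H F).trans (tww_liftlat_finrank_le hH))
  obtain ⟨m, hm⟩ := hbij.2 y
  exact ⟨m, fun h => by rw [← hm]; rfl⟩

/-- **(T3) on a Hopf lattice.** -/
theorem tww_liftlat (hH : IsHopfLattice R act H) (p : ℕ) (hp : p.Prime)
    (hpM : ∀ m : M, p • m = 0)
    {F : Type*} [Field F] [Algebra R F] (ι : Qb →ₐ[R] F)
    {S : Type*} [CommRing S] [Algebra R S] [Algebra S F] [IsScalarTower R S F]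
    (ϖ w : S) (e a : ℕ) (hϖ : ϖ ∈ nonZeroDivisors S) (hpw : ϖ ^ e = (p : S) * w)
    (ha : e < (p - 1) * a)
    (hsep : ∀ z : S, (∀ n, ϖ ^ n ∣ z) → z = 0)
    (hpre : ∀ f : ℕ → S, (∀ n, ϖ ^ n ∣ f (n + 1) - f n) → ∃ L, ∀ n, ϖ ^ n ∣ L - f n)
    (x₀ : H →ₗ[R] S) (h1 : (p : S) * ϖ ^ a ∣ x₀ 1 - 1)
    (hmul : ∀ h h' : H, (p : S) * ϖ ^ a ∣ x₀ (h * h') - x₀ h * x₀ h') :
    ∃ m : M, ∀ h : H, ∃ s : S, algebraMap S F s = ι ((h : M → Qb) m) ∧ ϖ ^ a ∣ s - x₀ h := by
  letI := hopfAlgebraOfLattice hH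
  haveI : Coalgebra.IsCocomm R H := isCocomm_hopfAlgebraOfLattice hH
  obtain ⟨x, hx⟩ := tww_lift p hp (tww_liftlat_kill hH p hpM) ϖ w e a hϖ hpw ha hsep hpre
    x₀ h1 hmul
  obtain ⟨m, hm⟩ := tww_liftlat_points hH ι ((IsScalarTower.toAlgHom R S F).comp x)
  exact ⟨m, fun h => ⟨x h, by rw [← hm]; rfl, hx h⟩⟩

end LiftLat

end Fermat.Agent.TW.W


end ZBTW_004_6

/-! ### bundled: `Fermat.Agent.TW.W.T2Loc` -/
section ZBTW_004_7

/-!
# TW-W (T2) over `ℤ_(p)`: no small torsion, for a place of `ℚ̄` over `p`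

Specialisation of `T2.lean` to `R = GaloisRep.ratLocalizedAt p` and a valuation subring
`A ⊂ ℚ̄` with `A.LiesOverPrime p`; divisibility forms of the hypotheses.
-/

set_option autoImplicit false
set_option linter.unusedSectionVars false

namespace Fermat.Agent.TW.W

open Fermat.Agent.W1 GaloisRep

local notation "Qb" => AlgebraicClosure ℚ

/-- `ℤ_(p) ⊂ A` for a valuation subring over `p`. -/
theorem tww_ratLoc_mem {p : ℕ} (hp : p.Prime) (A : ValuationSubring Qb)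
    (hA : A.LiesOverPrime p) (r : ratLocalizedAt p) : algebraMap (ratLocalizedAt p) Qb r ∈ A := by
  have h1 : algebraMap (ratLocalizedAt p) Qb r = algebraMap ℚ Qb (r : ℚ) := rfl
  rw [h1, desc_rat_mem_iff hp A hA]
  exact r.2

/-- Divisibility in `A` in terms of the valuation. -/
theorem tww_val_le_iff {K : Type*} [Field K] (A : ValuationSubring K) (x c : K) :
    A.valuation x ≤ A.valuation c ↔ ∃ s ∈ A, x = c * s := by
  constructor
  · intro h
    by_cases hc : c = 0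
    · subst hc
      rw [map_zero] at h
      have : x = 0 := (Valuation.zero_iff _).mp (le_antisymm h zero_le)
      exact ⟨0, A.zero_mem, by simp [this]⟩
    · refine ⟨x / c, ?_, by field_simp⟩
      rw [← A.valuation_le_one_iff, map_div₀]
      have hvc : A.valuation c ≠ 0 := (Valuation.ne_zero_iff _).mpr hc
      exact (div_le_one₀ (zero_lt_iff.mpr hvc)).mpr h
  · rintro ⟨s, hs, rfl⟩
    rw [map_mul]
    calc A.valuation c * A.valuation s ≤ A.valuation c * 1 :=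
          mul_le_mul' le_rfl ((A.valuation_le_one_iff s).mpr hs)
      _ = A.valuation c := mul_one _

section T2Loc

variable {p : ℕ} {M : Type} [AddCommGroup M] [Finite M]
  {act : (Qb ≃ₐ[ℚ] Qb) → M → M} {H : Subalgebra (ratLocalizedAt p) (M → Qb)}

/-- **(T2) over `ℤ_(p)`, two points, divisibility form.**  `c ^ (p - 1) = p t`, `t ∈ 𝔪_A`. -/
theorem tww_t2_eq_loc [Fact p.Prime] (hH : IsHopfLattice (ratLocalizedAt p) act H)
    (A : ValuationSubring Qb) (hA : A.LiesOverPrime p)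
    (c t : Qb) (hct : c ^ (p - 1) = (p : Qb) * t) (ht : t ∈ A.nonunits)
    (m m' : M) (hpm : p • m = 0) (hpm' : p • m' = 0)
    (hm : ∀ h ∈ H, ∃ s ∈ A, h m - h m' = c * s) : m = m' :=
  tww_t2_eq hH A (tww_ratLoc_mem (Fact.out) A hA) p Fact.out c t hct ht m m' hpm hpm'
    (fun h hh => (tww_val_le_iff A _ _).mpr (hm h hh))

/-- **(T2) over `ℤ_(p)`, divisibility form.** -/
theorem tww_t2_zero_loc [Fact p.Prime] (hH : IsHopfLattice (ratLocalizedAt p) act H)
    (A : ValuationSubring Qb) (hA : A.LiesOverPrime p)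
    (c t : Qb) (hct : c ^ (p - 1) = (p : Qb) * t) (ht : t ∈ A.nonunits)
    (m : M) (hpm : p • m = 0)
    (hm : ∀ h ∈ H, h 0 = 0 → ∃ s ∈ A, h m = c * s) : m = 0 :=
  tww_t2_zero hH A (tww_ratLoc_mem (Fact.out) A hA) p Fact.out c t hct ht m hpm
    (fun h hh h0 => (tww_val_le_iff A _ _).mpr (hm h hh h0))

/-- **(T2) for `c = p`** (`p` odd): a point killed by `p` all of whose coordinates `h m`
(`h ∈ H`, `h 0 = 0`) are divisible by `p` in `A` is zero.  [This is what (RED) uses for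
inertia-fixed points.] -/
theorem tww_t2_zero_p [Fact p.Prime] (hp2 : p ≠ 2) (hH : IsHopfLattice (ratLocalizedAt p) act H)
    (A : ValuationSubring Qb) (hA : A.LiesOverPrime p)
    (m : M) (hpm : p • m = 0)
    (hm : ∀ h ∈ H, h 0 = 0 → ∃ s ∈ A, h m = (p : Qb) * s) : m = 0 := by
  have hp : p.Prime := Fact.out
  have h3 : 3 ≤ p := by
    have := hp.two_le
    omega
  refine tww_t2_zero_loc hH A hA (p : Qb) ((p : Qb) ^ (p - 2)) ?_ ?_ m hpm hm
  · rw [← pow_succ', show p - 2 + 1 = p - 1 by omega]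
  · have hpA : (p : Qb) ∈ A.nonunits := hA
    rw [ValuationSubring.mem_nonunits_iff] at hpA ⊢
    rw [map_pow]
    exact pow_lt_one' hpA (by omega)

end T2Loc

end Fermat.Agent.TW.W


end ZBTW_004_7

/-! ### bundled: `Fermat.Agent.TW.W.PmCore` -/
section ZBTW_004_8

/-!
# TW-W (P_m), abstract core

`H ⊂ Map(M, ℚ̄)` a Hopf lattice over `ℤ_(p)`, `p • M = 0`; `S` ("`𝒪_E`") a complete ring inside a
field `F ⊇ ℚ̄`; for every `m ∈ M` a ring homomorphism `g m : H → S ⧸ (p ϖ^a)` ("`η ∘ ev_m`") such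
that `g m₁ h ≡ g m₂ h mod ϖ^a` forces `h m₁ - h m₂ ∈ c A` (`v(c) > 1/(p-1)`).  Then all the
coordinates `ι (h m)` lie in `S`.
-/

set_option autoImplicit false
set_option linter.unusedSectionVars false
set_option linter.style.haveILetI false

namespace Fermat.Agent.TW.W

open Fermat.Agent.W1 GaloisRep WithConv

local notation "Qb" => AlgebraicClosure ℚ

/-- Ring homomorphisms out of `ℤ_(p)` are unique. -/
theorem tww_pm_ratLoc_hom_ext {p : ℕ} {Q : Type*} [Ring Q] (φ ψ : ratLocalizedAt p →+* Q) :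
    φ = ψ := by
  ext r
  have hden : ((r : ℚ).den : ℚ) ≠ 0 := by exact_mod_cast (r : ℚ).den_nz
  let d : ratLocalizedAt p := ((r : ℚ).den : ratLocalizedAt p)
  have hdinv_mem : (((r : ℚ).den : ℚ)⁻¹) ∈ ratLocalizedAt p := by
    change ((((r : ℚ).den : ℚ)⁻¹).den).Coprime p
    have h1 : (((r : ℚ).den : ℚ)⁻¹).den = (r : ℚ).den := by
      rw [Rat.inv_natCast_den]
      simp [(r : ℚ).den_nz]
    rw [h1]
    exact r.2
  let dinv : ratLocalizedAt p := ⟨_, hdinv_mem⟩
  have h1 : d * dinv = 1 := by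
    apply Subtype.ext
    change (((r : ℚ).den : ratLocalizedAt p) : ℚ) * (((r : ℚ).den : ℚ)⁻¹) = 1
    rw [show (((r : ℚ).den : ratLocalizedAt p) : ℚ) = ((r : ℚ).den : ℚ) from rfl]
    exact mul_inv_cancel₀ hden
  have h2 : r * d = ((r : ℚ).num : ratLocalizedAt p) := by
    apply Subtype.ext
    change (r : ℚ) * (((r : ℚ).den : ratLocalizedAt p) : ℚ) =
      (((r : ℚ).num : ratLocalizedAt p) : ℚ)
    rw [show (((r : ℚ).den : ratLocalizedAt p) : ℚ) = ((r : ℚ).den : ℚ) from rfl,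
      show (((r : ℚ).num : ratLocalizedAt p) : ℚ) = ((r : ℚ).num : ℚ) from rfl]
    exact Rat.mul_den_eq_num (r : ℚ)
  have h3 : φ r * φ d = ψ r * ψ d := by
    rw [← map_mul, ← map_mul, h2, map_intCast, map_intCast]
  have h4 : φ d = ψ d := by
    rw [map_natCast, map_natCast]
  have h5 : ψ d * ψ dinv = 1 := by rw [← map_mul, h1, map_one]
  calc φ r = φ r * (ψ d * ψ dinv) := by rw [h5, mul_one]
    _ = (φ r * φ d) * ψ dinv := by rw [h4, mul_assoc]
    _ = (ψ r * ψ d) * ψ dinv := by rw [h3]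
    _ = ψ r := by rw [mul_assoc, h5, mul_one]

section Core

variable {p : ℕ} {M : Type} [AddCommGroup M] [Finite M]
  {act : (Qb ≃ₐ[ℚ] Qb) → M → M} {H : Subalgebra (ratLocalizedAt p) (M → Qb)}

/-- A ring homomorphism from a Hopf lattice to a quotient of an `ℤ_(p)`-algebra has an
`ℤ_(p)`-linear lift. -/
theorem tww_pm_linear_lift [Fact p.Prime] (hH : IsHopfLattice (ratLocalizedAt p) act H)
    {S : Type*} [CommRing S] [Algebra (ratLocalizedAt p) S] (I : Ideal S)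
    (g : H →+* S ⧸ I) :
    ∃ x₀ : H →ₗ[ratLocalizedAt p] S, ∀ h : H, Ideal.Quotient.mk I (x₀ h) = g h := by
  classical
  haveI : Module.Finite (ratLocalizedAt p) H := Module.Finite.iff_fg.2 hH.fg
  haveI : Module.IsTorsionFree (ratLocalizedAt p) H := isTorsionFree_lattice H
  haveI : Module.Free (ratLocalizedAt p) H := Module.free_of_finite_type_torsion_free'
  have hg : ∀ r : ratLocalizedAt p,
      g (algebraMap (ratLocalizedAt p) H r) = algebraMap (ratLocalizedAt p) (S ⧸ I) r := by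
    intro r
    have := tww_pm_ratLoc_hom_ext (g.comp (algebraMap (ratLocalizedAt p) H))
      (algebraMap (ratLocalizedAt p) (S ⧸ I))
    exact congrArg (fun f : ratLocalizedAt p →+* S ⧸ I => f r) this
  let g' : H →ₗ[ratLocalizedAt p] S ⧸ I :=
    { toFun := g
      map_add' := map_add g
      map_smul' := by
        intro r h
        rw [Algebra.smul_def, map_mul, hg, RingHom.id_apply, Algebra.smul_def] }
  obtain ⟨x₀, hx₀⟩ := Module.projective_lifting_property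
    (Ideal.Quotient.mkₐ (ratLocalizedAt p) I).toLinearMap g'
    (Ideal.Quotient.mkₐ_surjective (ratLocalizedAt p) I)
  refine ⟨x₀, fun h => ?_⟩
  have := congrArg (fun f : H →ₗ[ratLocalizedAt p] S ⧸ I => f h) hx₀
  exact this

/-- **(P_m), abstract core.** -/
theorem tww_pm_core [Fact p.Prime] (hH : IsHopfLattice (ratLocalizedAt p) act H)
    (hpM : ∀ m : M, p • m = 0)
    (A : ValuationSubring Qb) (hA : A.LiesOverPrime p)
    (c t : Qb) (hct : c ^ (p - 1) = (p : Qb) * t) (ht : t ∈ A.nonunits)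
    {F : Type*} [Field F] [Algebra (ratLocalizedAt p) F] (ι : Qb →ₐ[ratLocalizedAt p] F)
    {S : Type*} [CommRing S] [Algebra (ratLocalizedAt p) S] [Algebra S F]
    [IsScalarTower (ratLocalizedAt p) S F]
    (hSF : Function.Injective (algebraMap S F))
    (ϖ w : S) (e a : ℕ) (hϖ : ϖ ∈ nonZeroDivisors S) (hpw : ϖ ^ e = (p : S) * w)
    (ha : e < (p - 1) * a)
    (hsep : ∀ z : S, (∀ n, ϖ ^ n ∣ z) → z = 0)
    (hpre : ∀ f : ℕ → S, (∀ n, ϖ ^ n ∣ f (n + 1) - f n) → ∃ L, ∀ n, ϖ ^ n ∣ L - f n)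
    (g : M → H →+* S ⧸ Ideal.span {(p : S) * ϖ ^ a})
    (hval : ∀ (m₁ m₂ : M) (h : H) (s : S),
      g m₁ h - g m₂ h = Ideal.Quotient.mk (Ideal.span {(p : S) * ϖ ^ a}) (ϖ ^ a * s) →
        ∃ z ∈ A, (h : M → Qb) m₁ - (h : M → Qb) m₂ = c * z) :
    ∀ (m : M) (h : H), ∃ s : S, algebraMap S F s = ι ((h : M → Qb) m) := by
  classical
  have hq : ∀ s : S, Ideal.Quotient.mk (Ideal.span {(p : S) * ϖ ^ a}) s = 0 ↔
      (p : S) * ϖ ^ a ∣ s := by
    intro s
    rw [Ideal.Quotient.eq_zero_iff_mem, Ideal.mem_span_singleton]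
  -- linear lifts
  have hlift := fun m => tww_pm_linear_lift hH (Ideal.span {(p : S) * ϖ ^ a}) (g m)
  choose x₀ hx₀ using hlift
  -- the lifted points
  have hT3 : ∀ m : M, ∃ m' : M, ∀ h : H, ∃ s : S,
      algebraMap S F s = ι ((h : M → Qb) m') ∧ ϖ ^ a ∣ s - x₀ m h := by
    intro m
    refine tww_liftlat hH p Fact.out hpM ι ϖ w e a hϖ hpw ha hsep hpre (x₀ m) ?_ ?_
    · rw [← hq, map_sub, hx₀, map_one, map_one, sub_self]
    · intro h h'
      rw [← hq, map_sub, hx₀, map_mul (Ideal.Quotient.mk _), hx₀, hx₀, map_mul (g m), sub_self]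
  choose τ hτ using hT3
  have hτinj : Function.Injective τ := by
    intro m₁ m₂ h12
    refine tww_t2_eq_loc hH A hA c t hct ht m₁ m₂ (hpM _) (hpM _) ?_
    intro h hh
    obtain ⟨s₁, hs₁, hd₁⟩ := hτ m₁ ⟨h, hh⟩
    obtain ⟨s₂, hs₂, hd₂⟩ := hτ m₂ ⟨h, hh⟩
    have hs : s₁ = s₂ := by
      apply hSF
      rw [hs₁, hs₂, h12]
    subst hs
    obtain ⟨d₁, hd₁⟩ := hd₁
    obtain ⟨d₂, hd₂⟩ := hd₂
    refine hval m₁ m₂ ⟨h, hh⟩ (d₂ - d₁) ?_
    rw [← hx₀, ← hx₀, ← map_sub]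
    congr 1
    linear_combination hd₂ - hd₁
  have hτsurj : Function.Surjective τ := Finite.injective_iff_surjective.mp hτinj
  intro m h
  obtain ⟨m₀, rfl⟩ := hτsurj m
  obtain ⟨s, hs, -⟩ := hτ m₀ h
  exact ⟨s, hs⟩

end Core

end Fermat.Agent.TW.W


end ZBTW_004_8

/-! ### bundled: `Fermat.Agent.TW.W.PmField` -/
section ZBTW_004_9

/-!
# TW-W (P_m): Fontaine's property for the field of points of a flat group scheme killed by `p`

`(M, act, H)` a Hopf lattice over `ℤ_(p)`, `p • M = 0`; `L`, `E` local fields (PT-L sense) with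
embeddings `jL`, `jE` into `PadicAlgCl p`, all the coordinates `ι (h m)` of the points lying in
`jL(L)`; `k` with `(p - 1) k > p [E : ℚ_p]` (i.e. `{w ≥ k} = {v_p ≥ m}` with `m > p / (p - 1)`).
If there is a ring homomorphism `η : 𝒪_L → 𝒪_E ⧸ {w ≥ k}` then all the coordinates `ι (h m)` lie
in `jE(E)` (`tww_pm_field`); hence `L` embeds into `E` if `L` is generated by them
(`tww_pm_embed`).
-/

set_option autoImplicit false
set_option linter.unusedSectionVars false
set_option linter.style.haveILetI false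

namespace Fermat.Agent.TW.W

open Fermat.Agent.W1 Fermat.Agent.PT.L GaloisRep

local notation "Qb" => AlgebraicClosure ℚ

section Place

variable (p : ℕ) [Fact p.Prime]

theorem tww_pmf_mem_nonunits (x : Qb) (h : ‖padicEmbedding p x‖ < 1) :
    x ∈ (padicPlace p).nonunits := by
  rw [ValuationSubring.mem_nonunits_iff]
  refine lt_of_not_ge (fun h1 => ?_)
  rcases eq_or_ne x 0 with rfl | hx0
  · simp at h1
  have h2 : (padicPlace p).valuation x⁻¹ ≤ 1 :=
    ((padicPlace p).valuation.one_le_val_iff hx0).mp h1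
  rw [ValuationSubring.valuation_le_one_iff, mem_padicPlace_iff, map_inv₀] at h2
  have h3 : ‖(padicEmbedding p x)⁻¹‖ ≤ 1 := by exact_mod_cast h2
  rw [norm_inv] at h3
  have hne : padicEmbedding p x ≠ 0 := by
    rw [Ne, map_eq_zero]; exact hx0
  have hpos : 0 < ‖padicEmbedding p x‖ := norm_pos_iff.mpr hne
  have h4 := (inv_le_one₀ hpos).mp h3
  linarith

theorem tww_pmf_mem_place (x : Qb) (h : ‖padicEmbedding p x‖ ≤ 1) : x ∈ padicPlace p := by
  rw [mem_padicPlace_iff]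
  exact_mod_cast h

theorem tww_pmf_norm_le_of_mem_place (x : Qb) (h : x ∈ padicPlace p) :
    ‖padicEmbedding p x‖ ≤ 1 := by
  rw [mem_padicPlace_iff] at h
  exact_mod_cast h

theorem tww_pmf_liesOver : (padicPlace p).LiesOverPrime p := by
  apply tww_pmf_mem_nonunits
  rw [map_natCast, tww_pmd_norm_p]
  have hp1 : (1 : ℝ) < p := by exact_mod_cast (Fact.out : p.Prime).one_lt
  exact inv_lt_one_of_one_lt₀ hp1

end Place

section RatToOV

variable (p : ℕ) [Fact p.Prime] (E : Type) [Field E] [Algebra ℚ_[p] E]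
  [FiniteDimensional ℚ_[p] E]

theorem tww_pmf_rat_mem (r : ratLocalizedAt p) :
    (algebraMap ℚ_[p] E) ((algebraMap ℚ ℚ_[p]) (r : ℚ)) ∈ UE.OV p stmtWAdd E := by
  rw [UE.mem_OV]
  rcases eq_or_ne ((algebraMap ℚ ℚ_[p]) (r : ℚ)) 0 with h0 | h0
  · left
    rw [h0, map_zero]
  · right
    rw [l0b_wv_algebraMap]
    have h1 : ‖(algebraMap ℚ ℚ_[p]) (r : ℚ)‖ ≤ 1 := by
      rw [eq_ratCast]
      apply Padic.norm_rat_le_one
      have hr : ((r : ℚ).den).Coprime p := r.2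
      exact (Nat.Prime.coprime_iff_not_dvd (Fact.out : p.Prime)).mp hr.symm
    have h2 := (Padic.norm_le_one_iff_val_nonneg _).mp h1
    positivity

/-- `ℤ_(p) → 𝒪_E`. -/
noncomputable def twwPmRatToOV : ratLocalizedAt p →+* UE.OV p stmtWAdd E :=
  RingHom.codRestrict
    ((algebraMap ℚ_[p] E).comp ((algebraMap ℚ ℚ_[p]).comp (ratLocalizedAt p).subtype))
    (UE.OV p stmtWAdd E) (fun r => tww_pmf_rat_mem p E r)

end RatToOV

section Step

variable (p : ℕ) [Fact p.Prime] {L E : Type} [Field L] [Algebra ℚ_[p] L]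
  [FiniteDimensional ℚ_[p] L] [Field E] [Algebra ℚ_[p] E] [FiniteDimensional ℚ_[p] E]

/-- The valuation step of (P_m): if `η y ≡ 0 mod ϖ^a` then `v_p(y) ≥ a / e`. -/
theorem tww_pmf_val_step (jL : L →ₐ[ℚ_[p]] PadicAlgCl p) (k : ℕ)
    (hkE : Module.finrank ℚ_[p] E < k)
    (η : UE.OV p stmtWAdd L →+* UE.OV p stmtWAdd E ⧸ UE.lvl p stmtWAdd k)
    {π : E} (hπ : IsUnif p π) (e a : ℕ) (he0 : e ≠ 0)
    (haf : (a : ℤ) * wv p π ≤ k) (hef : (e : ℤ) * wv p π = Module.finrank ℚ_[p] E)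
    (J : Ideal (UE.OV p stmtWAdd E)) (hIJ : UE.lvl p stmtWAdd k = J)
    (y : UE.OV p stmtWAdd L) (s : UE.OV p stmtWAdd E)
    (hgs : Ideal.quotEquivOfEq hIJ (η y) = Ideal.Quotient.mk J ((twwPmUnif p hπ) ^ a * s))
    (c : PadicAlgCl p) (hc : c ^ e = ((p : ℕ) : PadicAlgCl p) ^ a) :
    ‖jL (y : L)‖ ≤ ‖c‖ := by
  subst hIJ
  have hf : 0 < wv p π := hπ.2.1
  have h2 : η y = Ideal.Quotient.mk (UE.lvl p stmtWAdd k) ((twwPmUnif p hπ) ^ a * s) := by
    obtain ⟨z, hz⟩ := Ideal.Quotient.mk_surjective (η y)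
    rw [← hz, Ideal.quotEquivOfEq_mk] at hgs
    rw [← hz]
    exact hgs
  obtain ⟨j, hj⟩ : ∃ j : ℕ, (j : ℤ) = (a : ℤ) * wv p π :=
    ⟨((a : ℤ) * wv p π).toNat, Int.toNat_of_nonneg (by positivity)⟩
  have hjk : j ≤ k := by
    have : (j : ℤ) ≤ (k : ℤ) := by rw [hj]; exact haf
    exact_mod_cast this
  have hY : geW p (j : ℤ) ((((twwPmUnif p hπ) ^ a * s : UE.OV p stmtWAdd E)) : E) := by
    rw [hj, ← tww_pmv_pow_dvd_iff p hπ]
    exact Dvd.intro _ rfl
  have h3 := tww_pmv_val p k hkE η y _ h2.symm j hjk hY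
  have h4 : (y : L) = 0 ∨
      (a : ℤ) * Module.finrank ℚ_[p] L ≤ wv p (y : L) * e := by
    rcases h3 with h3 | h3
    · exact Or.inl h3
    · right
      rw [hj, ← hef] at h3
      have h5 : ((a : ℤ) * Module.finrank ℚ_[p] L) * wv p π ≤
          (wv p (y : L) * e) * wv p π := by
        calc ((a : ℤ) * Module.finrank ℚ_[p] L) * wv p π
            = (a : ℤ) * wv p π * Module.finrank ℚ_[p] L := by ring
          _ ≤ wv p (y : L) * ((e : ℤ) * wv p π) := h3
          _ = _ := by ring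
      exact le_of_mul_le_mul_right h5 hf
  exact tww_pmd_norm_le p jL (y : L) c e a he0 hc h4

end Step

section Field

variable {p : ℕ} [Fact p.Prime] {M : Type} [AddCommGroup M] [Finite M]
  {act : (Qb ≃ₐ[ℚ] Qb) → M → M} {H : Subalgebra (ratLocalizedAt p) (M → Qb)}

/-- **(P_m)**, coordinate form. -/
theorem tww_pm_field (hH : IsHopfLattice (ratLocalizedAt p) act H) (hpM : ∀ m : M, p • m = 0)
    (L E : Type) [Field L] [Algebra ℚ_[p] L] [FiniteDimensional ℚ_[p] L]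
    [Field E] [Algebra ℚ_[p] E] [FiniteDimensional ℚ_[p] E]
    (jL : L →ₐ[ℚ_[p]] PadicAlgCl p) (jE : E →ₐ[ℚ_[p]] PadicAlgCl p)
    (hvalL : ∀ h ∈ H, ∀ m : M, ∃ y : L, jL y = padicEmbedding p (h m))
    (k : ℕ) (hk : p * Module.finrank ℚ_[p] E < (p - 1) * k)
    (η : UE.OV p stmtWAdd L →+* UE.OV p stmtWAdd E ⧸ UE.lvl p stmtWAdd k) :
    ∀ h ∈ H, ∀ m : M, ∃ y : E, jE y = padicEmbedding p (h m) := by
  classical
  have hp : p.Prime := Fact.out
  -- instances
  letI algRS : Algebra (ratLocalizedAt p) (UE.OV p stmtWAdd E) := (twwPmRatToOV p E).toAlgebra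
  letI algSΩ : Algebra (UE.OV p stmtWAdd E) (PadicAlgCl p) :=
    (jE.toRingHom.comp (UE.OV p stmtWAdd E).subtype).toAlgebra
  have hQ : (algebraMap ℚ_[p] (PadicAlgCl p)).comp (algebraMap ℚ ℚ_[p]) =
      algebraMap ℚ (PadicAlgCl p) := Subsingleton.elim _ _
  haveI tower : IsScalarTower (ratLocalizedAt p) (UE.OV p stmtWAdd E) (PadicAlgCl p) := by
    refine IsScalarTower.of_algebraMap_eq (fun r => ?_)
    change algebraMap ℚ (PadicAlgCl p) (r : ℚ) =
      jE ((algebraMap ℚ_[p] E) ((algebraMap ℚ ℚ_[p]) (r : ℚ)))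
    rw [AlgHom.commutes, ← hQ]
    rfl
  let ι : Qb →ₐ[ratLocalizedAt p] PadicAlgCl p :=
    { (padicEmbedding p).toRingHom with
      commutes' := fun r => (padicEmbedding p).commutes (r : ℚ) }
  have hι : ∀ x : Qb, ι x = padicEmbedding p x := fun x => rfl
  have hSF : Function.Injective (algebraMap (UE.OV p stmtWAdd E) (PadicAlgCl p)) := by
    intro x y hxy
    apply Subtype.ext
    exact jE.injective hxy
  -- data
  obtain ⟨π, hπ, w, e, a, hpw, hea, hlvl, haf, hef⟩ := tww_pmv_data p (E := E) k hk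
  have hf : 0 < wv p π := hπ.2.1
  have hnE : 0 < Module.finrank ℚ_[p] E := Module.finrank_pos
  have he0 : e ≠ 0 := by
    rintro rfl
    simp at hef
    omega
  have hIJ : UE.lvl p stmtWAdd k =
      Ideal.span {((p : ℕ) : UE.OV p stmtWAdd E) * (twwPmUnif p hπ) ^ a} := by
    ext x
    rw [hlvl, Ideal.mem_span_singleton]
  have hkE : Module.finrank ℚ_[p] E < k := by
    by_contra hcon
    have h1 : k ≤ Module.finrank ℚ_[p] E := not_lt.mp hcon
    have h2 : (p - 1) * k ≤ (p - 1) * Module.finrank ℚ_[p] E := Nat.mul_le_mul_left _ h1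
    have h3 : (p - 1) * Module.finrank ℚ_[p] E ≤ p * Module.finrank ℚ_[p] E :=
      Nat.mul_le_mul_right _ (by omega)
    omega
  -- the constant `c`
  obtain ⟨c, hc⟩ := IsAlgClosed.exists_pow_nat_eq (((p : ℕ) : Qb) ^ a) (Nat.pos_of_ne_zero he0)
  have hpQ : ((p : ℕ) : Qb) ≠ 0 := by exact_mod_cast hp.ne_zero
  have hc0 : c ≠ 0 := by
    intro h
    rw [h, zero_pow he0] at hc
    exact pow_ne_zero a hpQ hc.symm
  have hcΩ : (padicEmbedding p c) ^ e = ((p : ℕ) : PadicAlgCl p) ^ a := by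
    rw [← map_pow, hc, map_pow, map_natCast]
  have hct : c ^ (p - 1) = ((p : ℕ) : Qb) * (c ^ (p - 1) / (p : ℕ)) := by
    field_simp
  have ht : c ^ (p - 1) / ((p : ℕ) : Qb) ∈ (padicPlace p).nonunits := by
    apply tww_pmf_mem_nonunits
    have hp1 : (1 : ℝ) < p := by exact_mod_cast hp.one_lt
    have hpinv0 : (0 : ℝ) < (p : ℝ)⁻¹ := by positivity
    have hpinv1 : (p : ℝ)⁻¹ < 1 := inv_lt_one_of_one_lt₀ hp1
    have hnc : ‖padicEmbedding p c‖ ^ e = ((p : ℝ)⁻¹) ^ a := by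
      rw [← norm_pow, hcΩ, norm_pow, tww_pmd_norm_p]
    have hN : ‖padicEmbedding p (c ^ (p - 1) / ((p : ℕ) : Qb))‖ =
        ‖padicEmbedding p c‖ ^ (p - 1) / (p : ℝ)⁻¹ := by
      rw [map_div₀, map_pow, map_natCast, norm_div, norm_pow, tww_pmd_norm_p]
    have h1 : ‖padicEmbedding p (c ^ (p - 1) / ((p : ℕ) : Qb))‖ ^ e * ((p : ℝ)⁻¹) ^ e =
        ((p : ℝ)⁻¹) ^ ((p - 1) * a) := by
      rw [hN, div_pow, div_mul_cancel₀ _ (pow_ne_zero e hpinv0.ne'), ← pow_mul,
        mul_comm (p - 1) e, pow_mul, hnc, ← pow_mul, mul_comm a (p - 1)]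
    by_contra hcon
    have h3 : 1 ≤ ‖padicEmbedding p (c ^ (p - 1) / ((p : ℕ) : Qb))‖ := not_lt.mp hcon
    have h4 : (1 : ℝ) ≤ ‖padicEmbedding p (c ^ (p - 1) / ((p : ℕ) : Qb))‖ ^ e :=
      one_le_pow₀ h3
    have h5 : ((p : ℝ)⁻¹) ^ ((p - 1) * a) < ((p : ℝ)⁻¹) ^ e :=
      pow_lt_pow_right_of_lt_one₀ hpinv0 hpinv1 hea
    have h6 : ((p : ℝ)⁻¹) ^ e ≤
        ‖padicEmbedding p (c ^ (p - 1) / ((p : ℕ) : Qb))‖ ^ e * ((p : ℝ)⁻¹) ^ e := by
      have h7 : (0 : ℝ) ≤ ((p : ℝ)⁻¹) ^ e := by positivity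
      nlinarith
    linarith
  -- the evaluation maps `H → 𝒪_L`
  have hRA : ∀ r : ratLocalizedAt p, algebraMap (ratLocalizedAt p) Qb r ∈ padicPlace p :=
    tww_ratLoc_mem hp (padicPlace p) (tww_pmf_liesOver p)
  have hex : ∀ (m : M) (h : H), ∃ y : UE.OV p stmtWAdd L,
      jL (y : L) = padicEmbedding p ((h : M → Qb) m) := by
    intro m h
    obtain ⟨y, hy⟩ := hvalL h.1 h.2 m
    refine ⟨⟨y, ?_⟩, hy⟩
    rw [tww_pmd_mem_OV_iff p jL, hy]
    exact tww_pmf_norm_le_of_mem_place p _ (tww_t2_val_mem hH (padicPlace p) hRA h.1 h.2 m)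
  choose ev hev using hex
  have hjL : Function.Injective (jL : L → PadicAlgCl p) := jL.toRingHom.injective
  let evR : M → H →+* UE.OV p stmtWAdd L := fun m =>
    { toFun := ev m
      map_one' := by
        apply Subtype.ext
        apply hjL
        rw [hev]
        change padicEmbedding p 1 = jL 1
        rw [map_one, map_one]
      map_mul' := by
        intro x y
        apply Subtype.ext
        apply hjL
        rw [hev]
        change padicEmbedding p ((x : M → Qb) m * (y : M → Qb) m) =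
          jL ((ev m x : L) * (ev m y : L))
        rw [map_mul, map_mul, hev, hev]
      map_zero' := by
        apply Subtype.ext
        apply hjL
        rw [hev]
        change padicEmbedding p 0 = jL 0
        rw [map_zero, map_zero]
      map_add' := by
        intro x y
        apply Subtype.ext
        apply hjL
        rw [hev]
        change padicEmbedding p ((x : M → Qb) m + (y : M → Qb) m) =
          jL ((ev m x : L) + (ev m y : L))
        rw [map_add, map_add, hev, hev] }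
  have hevR : ∀ m h, evR m h = ev m h := fun m h => rfl
  let g : M → H →+* UE.OV p stmtWAdd E ⧸
      Ideal.span {((p : ℕ) : UE.OV p stmtWAdd E) * (twwPmUnif p hπ) ^ a} := fun m =>
    (Ideal.quotEquivOfEq hIJ).toRingHom.comp (η.comp (evR m))
  have key := tww_pm_core hH hpM (padicPlace p) (tww_pmf_liesOver p) c
    (c ^ (p - 1) / ((p : ℕ) : Qb)) hct ht ι hSF (twwPmUnif p hπ) w e a
    (twwPmUnif_mem_nonZeroDivisors p hπ) hpw hea (tww_pmv_sep p hπ) (tww_pmv_pre p hπ) g ?_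
  · intro h hh m
    obtain ⟨s, hs⟩ := key m ⟨h, hh⟩
    exact ⟨(s : E), hs⟩
  · intro m₁ m₂ h s hgs
    have h6 := tww_pmf_val_step p jL k hkE η hπ e a he0 haf hef _ hIJ (ev m₁ h - ev m₂ h) s
      (by rw [map_sub, map_sub]; exact hgs) (padicEmbedding p c) hcΩ
    have h7 : jL ((ev m₁ h - ev m₂ h : UE.OV p stmtWAdd L) : L) =
        padicEmbedding p ((h : M → Qb) m₁ - (h : M → Qb) m₂) := by
      change jL ((ev m₁ h : L) - (ev m₂ h : L)) = _
      rw [map_sub, map_sub, hev, hev]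
    rw [h7] at h6
    refine ⟨((h : M → Qb) m₁ - (h : M → Qb) m₂) / c, ?_, by field_simp⟩
    apply tww_pmf_mem_place
    rw [map_div₀, norm_div]
    have hcpos : 0 < ‖padicEmbedding p c‖ := by
      apply norm_pos_iff.mpr
      rw [Ne, map_eq_zero]
      exact hc0
    exact (div_le_one hcpos).mpr h6

/-- The set of coordinates of the points of `M` in `PadicAlgCl p`. -/
def twwPmCoords (p : ℕ) [Fact p.Prime] {M : Type} [AddCommGroup M]
    (H : Subalgebra (ratLocalizedAt p) (M → Qb)) : Set (PadicAlgCl p) :=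
  {z | ∃ h ∈ H, ∃ m : M, z = padicEmbedding p (h m)}

/-- **(P_m)**: Fontaine's property for the field `L = ℚ_p(M)` generated by the coordinates of
the points of a flat group scheme killed by `p`: a ring homomorphism
`𝒪_L → 𝒪_E ⧸ {w ≥ k}`, `(p - 1) k > p [E : ℚ_p]`, forces an embedding `L → E`. -/
theorem tww_pm_embed (hH : IsHopfLattice (ratLocalizedAt p) act H) (hpM : ∀ m : M, p • m = 0)
    (L E : Type) [Field L] [Algebra ℚ_[p] L] [FiniteDimensional ℚ_[p] L]
    [Field E] [Algebra ℚ_[p] E] [FiniteDimensional ℚ_[p] E]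
    (jL : L →ₐ[ℚ_[p]] PadicAlgCl p)
    (hvalL : ∀ h ∈ H, ∀ m : M, ∃ y : L, jL y = padicEmbedding p (h m))
    (hgen : ∀ x : L, jL x ∈ IntermediateField.adjoin ℚ_[p] (twwPmCoords p H))
    (k : ℕ) (hk : p * Module.finrank ℚ_[p] E < (p - 1) * k)
    (η : UE.OV p stmtWAdd L →+* UE.OV p stmtWAdd E ⧸ UE.lvl p stmtWAdd k) :
    Nonempty (L →ₐ[ℚ_[p]] E) := by
  let jE : E →ₐ[ℚ_[p]] PadicAlgCl p := IsAlgClosed.lift
  have h1 := tww_pm_field hH hpM L E jL jE hvalL k hk η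
  have h2 : IntermediateField.adjoin ℚ_[p] (twwPmCoords p H) ≤ jE.fieldRange := by
    rw [IntermediateField.adjoin_le_iff]
    rintro z ⟨h, hh, m, rfl⟩
    obtain ⟨y, hy⟩ := h1 h hh m
    exact ⟨y, hy⟩
  have h3 : ∀ x : L, jL x ∈ jE.range := by
    intro x
    obtain ⟨y, hy⟩ := h2 (hgen x)
    exact ⟨y, hy⟩
  exact ⟨(AlgEquiv.ofInjective jE jE.toRingHom.injective).symm.toAlgHom.comp
    (jL.codRestrict jE.range h3)⟩

end Field

end Fermat.Agent.TW.W


end ZBTW_004_9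

/-! ### bundled: `Fermat.Agent.TW.W.GrInert` -/
section ZBTW_004_10
/-
TW-W, piece W-gr (helper65), part 4: INERTIA in the language of the norm of `ℚ̄_p`.

* `wgr_dense`      : `ι(ℚ̄)` is dense in `ℚ̄_p` (`ι = padicEmbedding p`);
* `wgr_inert_iff`  (Gr-inert) : `τ ∈ inertiaQ p ↔ ∀ z, ‖z‖ ≤ 1 → ‖τ z - z‖ < 1`;
* `wgr_inert_scale`: `τ` inertial, `‖x‖ ≤ ‖y‖`, `τ y = y` ⇒ `‖τ x - x‖ < ‖y‖` (`y ≠ 0`);
* `wgr_theta`      (Gr-theta) : `σ` inertial, `‖x‖ ≤ ‖π‖ ^ t` ⇒ `‖σ x - (σ π / π) ^ t * x‖ < ‖π‖ ^ t`.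
-/

set_option autoImplicit false
set_option linter.unusedSectionVars false
set_option linter.style.haveILetI false

namespace Fermat.Agent.TW.W

open Fermat.Agent.PT.L Fermat.Agent.PT.B Fermat.Agent.TW.L Polynomial

section Inert

variable (p : ℕ) [Fact p.Prime]

/-- `ι(ℚ̄)` is dense in `ℚ̄_p`. -/
theorem wgr_dense (a : PadicAlgCl p) {δ : ℝ} (δpos : 0 < δ) :
    ∃ b₀ : AlgebraicClosure ℚ, ‖a - padicEmbedding p b₀‖ < δ := by
  have hint : IsIntegral ℚ_[p] a := (PadicAlgCl.isAlgebraic p).isAlgebraic a |>.isIntegral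
  set f : Polynomial ℚ_[p] := minpoly ℚ_[p] a with hf
  have fmon : f.Monic := minpoly.monic hint
  have firr : Irreducible f := minpoly.irreducible hint
  have fa0 : Polynomial.aeval a f = 0 := minpoly.aeval _ _
  have fnatdeg0 : f.natDegree ≠ 0 := (Irreducible.natDegree_pos firr).ne'
  have hε : (δ / (max ‖a‖ 1)) ^ f.natDegree / (f.natDegree + 1) > 0 := by positivity
  have hi : DenseRange (algebraMap ℚ ℚ_[p]) := Padic.denseRange_ratCast p
  obtain ⟨g, gmon, gdeg, gcoeff⟩ :=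
    exists_monic_and_natDegree_eq_and_norm_map_algebraMap_coeff_sub_lt hi fmon hε
  obtain ⟨b, hb, hab⟩ := exists_aroots_norm_sub_lt_of_norm_coeff_sub_lt
      (L := PadicAlgCl p) hε fa0 fmon (gmon.map _) (gdeg ▸ (g.natDegree_map _)) gcoeff
      (IsAlgClosed.splits _)
  have hab : ‖a - b‖ < δ := by
    rw [← Real.rpow_natCast, ← mul_comm_div, div_self, one_mul,
        ← Real.rpow_mul (div_pos δpos (by positivity)).le, mul_inv_cancel₀] at hab
    · simpa [mul_assoc, div_mul_cancel₀ _ (by positivity : (max ‖a‖ 1) > 0).ne'] using hab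
    · simp [fnatdeg0]
    · positivity
  simp only [Polynomial.mem_roots', ne_eq, Polynomial.map_eq_zero, Polynomial.IsRoot.def,
    Polynomial.eval_map_algebraMap] at hb
  have hgb : Polynomial.aeval b g = 0 := by
    have := hb.2
    rwa [Polynomial.aeval_map_algebraMap] at this
  obtain ⟨b₀, -, hb₀⟩ := kras_root_mem_range p g gmon.ne_zero b hgb
  exact ⟨b₀, by rw [hb₀]; exact hab⟩

/-- membership in the maximal ideal of `padicPlace p`, in terms of the norm -/
theorem wgr_mem_nonunits_iff (x : AlgebraicClosure ℚ) :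
    x ∈ (padicPlace p).nonunits ↔ ‖padicEmbedding p x‖ < 1 := by
  rw [ValuationSubring.mem_nonunits_iff_or]
  constructor
  · rintro (rfl | h)
    · simp
    · rw [mem_padicPlace_iff, map_inv₀, nnnorm_inv, not_le] at h
      have hx : padicEmbedding p x ≠ 0 := by
        intro h0
        rw [h0, nnnorm_zero, inv_zero] at h
        exact absurd h (by simp)
      have h2 : (1 : ℝ) < ‖padicEmbedding p x‖⁻¹ := by exact_mod_cast h
      have h3 : 0 < ‖padicEmbedding p x‖ := norm_pos_iff.2 hx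
      rw [one_lt_inv₀ h3] at h2
      exact h2
  · intro h
    rcases eq_or_ne x 0 with rfl | hx
    · exact Or.inl rfl
    · right
      rw [mem_padicPlace_iff, map_inv₀, nnnorm_inv, not_le]
      have hx' : padicEmbedding p x ≠ 0 := by
        intro h0
        exact hx ((padicEmbedding p).toRingHom.injective (h0.trans (map_zero _).symm))
      have h3 : 0 < ‖padicEmbedding p x‖ := norm_pos_iff.2 hx'
      have h2 : (1 : ℝ) < ‖padicEmbedding p x‖⁻¹ := by
        rw [one_lt_inv₀ h3]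
        exact h
      exact_mod_cast h2

theorem wgr_mem_padicPlace_iff (x : AlgebraicClosure ℚ) :
    x ∈ padicPlace p ↔ ‖padicEmbedding p x‖ ≤ 1 := by
  rw [mem_padicPlace_iff]
  exact Iff.rfl

/-- `Gal(ℚ̄_p/ℚ_p)` acts by isometries -/
theorem wgr_norm_map (τ : GQq p) (y : PadicAlgCl p) : ‖τ y‖ = ‖y‖ :=
  congrArg (fun r : NNReal => (r : ℝ)) (nnnorm_padicAlgCl_algEquiv p τ y)

/-- the ultrametric inequality in `ℚ̄_p`, in the form we use -/
theorem wgr_norm_add_le (x y : PadicAlgCl p) : ‖x + y‖ ≤ max ‖x‖ ‖y‖ :=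
  PadicAlgCl.isNonarchimedean p x y

theorem wgr_norm_sub_le (x y : PadicAlgCl p) : ‖x - y‖ ≤ max ‖x‖ ‖y‖ := by
  have := wgr_norm_add_le p x (-y)
  rwa [← sub_eq_add_neg, norm_neg] at this

/-- **(Gr-inert)**: the inertia subgroup of `G_{ℚ_p}` (defined through the global place
`padicPlace p`) is the group of automorphisms acting trivially on the residue field of `ℚ̄_p`. -/
theorem wgr_inert_iff (τ : GQq p) :
    τ ∈ inertiaQ p ↔ ∀ z : PadicAlgCl p, ‖z‖ ≤ 1 → ‖τ z - z‖ < 1 := by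
  rw [mem_inertiaQ, mem_inertiaSubgroupIn_iff]
  constructor
  · rintro ⟨-, h⟩ z hz
    obtain ⟨b₀, hb₀⟩ := wgr_dense p z (δ := 1) one_pos
    have hb1 : ‖padicEmbedding p b₀‖ ≤ 1 := by
      have h1 : padicEmbedding p b₀ = z - (z - padicEmbedding p b₀) := by ring
      rw [h1]
      exact (wgr_norm_sub_le p _ _).trans (max_le hz hb₀.le)
    have h2 := h b₀ ((wgr_mem_padicPlace_iff p b₀).2 hb1)
    rw [wgr_mem_nonunits_iff, map_sub, padicEmbedding_localGaloisToGlobal] at h2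
    have h3 : τ z - z = (τ (z - padicEmbedding p b₀) - (z - padicEmbedding p b₀))
        + (τ (padicEmbedding p b₀) - padicEmbedding p b₀) := by
      rw [map_sub]; ring
    rw [h3]
    refine lt_of_le_of_lt (wgr_norm_add_le p _ _) (max_lt ?_ h2)
    refine lt_of_le_of_lt (wgr_norm_sub_le p _ _) (max_lt ?_ hb₀)
    rw [wgr_norm_map]
    exact hb₀
  · intro h
    refine ⟨localGaloisToGlobal_mem_decompositionSubgroup p τ, fun x hx => ?_⟩
    rw [wgr_mem_nonunits_iff, map_sub, padicEmbedding_localGaloisToGlobal]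
    exact h _ ((wgr_mem_padicPlace_iff p x).1 hx)

/-- inertia acts trivially modulo `y 𝔪` on `y 𝒪` when `y` is fixed -/
theorem wgr_inert_scale {τ : GQq p} (hτ : τ ∈ inertiaQ p) {x y : PadicAlgCl p} (hy : y ≠ 0)
    (hτy : τ y = y) (hxy : ‖x‖ ≤ ‖y‖) : ‖τ x - x‖ < ‖y‖ := by
  have hy0 : 0 < ‖y‖ := norm_pos_iff.2 hy
  have h1 : ‖x / y‖ ≤ 1 := by
    rw [norm_div]
    exact div_le_one_of_le₀ hxy (norm_nonneg _)
  have h2 := (wgr_inert_iff p τ).1 hτ (x / y) h1
  have h3 : τ x - x = y * (τ (x / y) - x / y) := by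
    rw [map_div₀, hτy]
    field_simp
  rw [h3, norm_mul]
  calc ‖y‖ * ‖τ (x / y) - x / y‖ < ‖y‖ * 1 := by
        exact mul_lt_mul_of_pos_left h2 hy0
    _ = ‖y‖ := mul_one _

/-- **(Gr-theta)**: for `σ` inertial and `π ≠ 0`: `σ` acts on `π^t 𝒪 / π^t 𝔪` through
multiplication by `(σ π / π) ^ t`. -/
theorem wgr_theta {σ : GQq p} (hσ : σ ∈ inertiaQ p) {π x : PadicAlgCl p} (hπ : π ≠ 0) (t : ℕ)
    (hx : ‖x‖ ≤ ‖π‖ ^ t) : ‖σ x - (σ π / π) ^ t * x‖ < ‖π‖ ^ t := by
  have hπ0 : 0 < ‖π‖ := norm_pos_iff.2 hπ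
  have hπt : π ^ t ≠ 0 := pow_ne_zero _ hπ
  have h1 : ‖x / π ^ t‖ ≤ 1 := by
    rw [norm_div, norm_pow]
    exact div_le_one_of_le₀ hx (by positivity)
  have h2 := (wgr_inert_iff p σ).1 hσ (x / π ^ t) h1
  have hσπ : ‖σ π‖ = ‖π‖ := wgr_norm_map p σ π
  have h3 : σ x - (σ π / π) ^ t * x = (σ π) ^ t * (σ (x / π ^ t) - x / π ^ t) := by
    rw [map_div₀, map_pow]
    have : σ π ≠ 0 := by rwa [Ne, map_eq_zero_iff _ σ.injective]
    rw [div_pow]
    field_simp
  rw [h3, norm_mul, norm_pow, hσπ]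
  calc ‖π‖ ^ t * ‖σ (x / π ^ t) - x / π ^ t‖ < ‖π‖ ^ t * 1 := by
        exact mul_lt_mul_of_pos_left h2 (by positivity)
    _ = ‖π‖ ^ t := mul_one _

end Inert

end Fermat.Agent.TW.W


end ZBTW_004_10

/-! ### bundled: `Fermat.Agent.TW.W.GrFrob` -/
section ZBTW_004_11
/-
TW-W, block (GB) (helper67): the FROBENIUS dictionary in the language of the norm of `ℚ̄_p`
(companion of `wgr_inert_iff`, `TW/W/GrInert.lean`).

* `wgr_pow_sub_pow_lt` : `‖b‖, ‖z‖ ≤ 1`, `‖b - z‖ < 1` ⇒ `‖b ^ n - z ^ n‖ < 1`;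
* `wgr_frob_dict` (F-dict) : `IsFrobQ p φ`, `‖z‖ ≤ 1` ⇒ `‖φ z - z ^ p‖ < 1`;
* `wgr_inertiaQ_normal` : `inertiaQ p` is a normal subgroup of `G_p`.
-/

set_option autoImplicit false
set_option linter.unusedSectionVars false
set_option linter.style.haveILetI false

namespace Fermat.Agent.TW.W

open Fermat.Agent.PT.L Fermat.Agent.PT.B Fermat.Agent.TW.L

section Frob

variable (p : ℕ) [Fact p.Prime]

theorem wgr_pow_sub_pow_lt {b z : PadicAlgCl p} (hb : ‖b‖ ≤ 1) (hz : ‖z‖ ≤ 1)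
    (hbz : ‖b - z‖ < 1) (n : ℕ) : ‖b ^ n - z ^ n‖ < 1 := by
  induction n with
  | zero => simp
  | succ n ih =>
    have e : b ^ (n + 1) - z ^ (n + 1) = b * (b ^ n - z ^ n) + (b - z) * z ^ n := by ring
    rw [e]
    refine lt_of_le_of_lt (wgr_norm_add_le p _ _) (max_lt ?_ ?_)
    · rw [norm_mul]
      calc ‖b‖ * ‖b ^ n - z ^ n‖ ≤ 1 * ‖b ^ n - z ^ n‖ :=
            mul_le_mul_of_nonneg_right hb (norm_nonneg _)
        _ < 1 := by rw [one_mul]; exact ih
    · rw [norm_mul, norm_pow]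
      calc ‖b - z‖ * ‖z‖ ^ n ≤ ‖b - z‖ * 1 :=
            mul_le_mul_of_nonneg_left (pow_le_one₀ (norm_nonneg _) hz) (norm_nonneg _)
        _ < 1 := by rw [mul_one]; exact hbz

/-- **(F-dict)**: a Frobenius element of `G_p` acts as `z ↦ z ^ p` on the residue field of
`ℚ̄_p`. -/
theorem wgr_frob_dict {φ : GQq p} (hφ : IsFrobQ p φ) (z : PadicAlgCl p) (hz : ‖z‖ ≤ 1) :
    ‖φ z - z ^ p‖ < 1 := by
  obtain ⟨b₀, hb₀⟩ := wgr_dense p z (δ := 1) one_pos
  have hb1 : ‖padicEmbedding p b₀‖ ≤ 1 := by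
    have h1 : padicEmbedding p b₀ = z - (z - padicEmbedding p b₀) := by ring
    rw [h1]
    exact (wgr_norm_sub_le p _ _).trans (max_le hz hb₀.le)
  have h2 := Fermat.Agent.Cheb.sub_pow_mem_nonunits_of_isFrobeniusAt (padicPlace p)
    (localGaloisToGlobal p φ) p hφ b₀ ((wgr_mem_padicPlace_iff p b₀).2 hb1)
  rw [wgr_mem_nonunits_iff, map_sub, padicEmbedding_localGaloisToGlobal, map_pow] at h2
  have hbz : ‖padicEmbedding p b₀ - z‖ < 1 := by
    rw [← norm_neg, neg_sub]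
    exact hb₀
  have h3 : φ z - z ^ p = (φ (z - padicEmbedding p b₀))
      + ((φ (padicEmbedding p b₀) - padicEmbedding p b₀ ^ p)
        + (padicEmbedding p b₀ ^ p - z ^ p)) := by
    rw [map_sub]; ring
  rw [h3]
  refine lt_of_le_of_lt (wgr_norm_add_le p _ _) (max_lt ?_ ?_)
  · rw [wgr_norm_map]
    exact hb₀
  · exact lt_of_le_of_lt (wgr_norm_add_le p _ _)
      (max_lt h2 (wgr_pow_sub_pow_lt p hb1 hz hbz p))

/-- `inertiaQ p` is normal in `G_p`. -/
theorem wgr_inertiaQ_normal : (inertiaQ p).Normal := by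
  constructor
  intro τ hτ γ
  rw [wgr_inert_iff] at hτ ⊢
  intro z hz
  have h1 : ‖γ⁻¹ z‖ ≤ 1 := by rw [wgr_norm_map]; exact hz
  have h2 := hτ (γ⁻¹ z) h1
  have h3 : (γ * τ * γ⁻¹) z - z = γ (τ (γ⁻¹ z) - γ⁻¹ z) := by
    rw [map_sub]
    have h4 : γ (γ⁻¹ z) = z := by
      have : (γ * γ⁻¹) z = z := by rw [mul_inv_cancel]; rfl
      exact this
    rw [h4]
    rfl
  rw [h3, wgr_norm_map]
  exact h2

end Frob

end Fermat.Agent.TW.W


end ZBTW_004_11

/-! ### bundled: `Fermat.Agent.TW.W.GrTame` -/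
section ZBTW_004_12
/-
TW-W, piece W-gr / K4 (helper65), part 5: THE TAME CHARACTER HAS EXACT ORDER `e`.

PT-L language (`wv`, `IsUnif`, `IsInertial`); `L/ℚ_q` finite Galois of degree `n` prime to `q`,
`π` a uniformiser, `a = wv π` (`= f`), `H ⊆ Gal(L/ℚ_q)` the inertial automorphisms.

* `wk4_isUnif_q`   : `q` is a uniformiser of `ℚ_q`;
* `wk4_wv_add`     : `wv (A + B) = wv A` if `w(B) > w(A)`;
* `wk4_core`       : `∃ e > 0, e · wv π = n` and, for every `s`: if every inertial `σ` satisfies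
                     `σ(π^s) ≡ π^s mod π^s 𝔪` then `e ∣ s`.
  (`K₀ := L^H`; `L/K₀` has only inertial automorphisms, so by `stmtRes` a uniformiser of `K₀` has the
  same `wv` as `π`;  `Tr_{L/K₀}(π^s) = Σ_{σ ∈ H} σ(π^s) ≡ |H| π^s`, and `q ∤ |H|`, so
  `s · a = wv_L(Tr) = |H| · wv_{K₀}(Tr) ∈ |H| · a · ℤ`.)
-/

set_option autoImplicit false
set_option linter.unusedSectionVars false
set_option linter.style.haveILetI false

namespace Fermat.Agent.TW.W

open Fermat.Agent.PT.L Fermat.Agent.PT.B Fermat.Agent.TW.L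

section Core

variable (q : ℕ) [Fact q.Prime]

/-- `wv` on `ℚ_q` itself is the `q`-adic valuation -/
theorem wk4_wv_self (x : ℚ_[q]) : wv q x = Padic.valuation x := by
  unfold wv
  have : Algebra.norm ℚ_[q] x = x := by simp
  rw [this]

/-- `q` is a uniformiser of `ℚ_q` -/
theorem wk4_isUnif_q : IsUnif q ((q : ℕ) : ℚ_[q]) := by
  have hq : ((q : ℕ) : ℚ_[q]) ≠ 0 := Nat.cast_ne_zero.2 (Fact.out : q.Prime).ne_zero
  have h1 : wv q ((q : ℕ) : ℚ_[q]) = 1 := by
    rw [wk4_wv_self, Padic.valuation_p]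
  refine ⟨hq, by rw [h1]; exact one_pos, fun x _ => ?_⟩
  rw [h1]
  exact one_dvd _

variable {F : Type} [Field F] [Algebra ℚ_[q] F] [FiniteDimensional ℚ_[q] F]

/-- isosceles: a summand of strictly larger valuation does not change the valuation -/
theorem wk4_wv_add {A B : F} (hA : A ≠ 0) (hB : geW q (wv q A + 1) B) :
    A + B ≠ 0 ∧ wv q (A + B) = wv q A := by
  have h1 : geW q 1 (B / A) := by
    rcases hB with hB | hB
    · left; rw [hB, zero_div]
    · by_cases hB0 : B = 0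
      · left; rw [hB0, zero_div]
      · right
        rw [l0b_wv_div q hB0 hA]
        omega
  obtain ⟨h2, h3⟩ := wv_one_add q h1
  have h4 : A + B = A * (1 + B / A) := by field_simp
  rw [h4]
  refine ⟨mul_ne_zero hA h2, ?_⟩
  rw [l0b_wv_mul q hA h2, h3, add_zero]

/-- a natural number prime to `q` is a unit -/
theorem wk4_wv_natCast {m : ℕ} (hm : ¬ q ∣ m) : ((m : ℕ) : F) ≠ 0 ∧ wv q ((m : ℕ) : F) = 0 := by
  have hm0 : m ≠ 0 := by
    rintro rfl
    exact hm (dvd_zero _)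
  have h1 : ((m : ℕ) : F) = algebraMap ℚ_[q] F ((m : ℕ) : ℚ_[q]) := by
    rw [map_natCast]
  have hm1 : ((m : ℕ) : ℚ_[q]) ≠ 0 := Nat.cast_ne_zero.2 hm0
  refine ⟨?_, ?_⟩
  · rw [h1]
    intro h
    exact hm1 ((algebraMap ℚ_[q] F).injective (h.trans (map_zero _).symm))
  · rw [h1, l0b_wv_algebraMap, Padic.valuation_natCast, padicValNat.eq_zero_of_not_dvd hm]
    simp

end Core

section Main

variable (q : ℕ) [Fact q.Prime] (L : Type) [Field L] [Algebra ℚ_[q] L]
  [FiniteDimensional ℚ_[q] L] [IsGalois ℚ_[q] L]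

/-- `e · f = n`: the number `e` of inertial automorphisms times `wv π` is the degree. -/
theorem wk4_card {π : L} (hπ : IsUnif q π) :
    ∃ e : ℕ, 0 < e ∧ e ∣ Module.finrank ℚ_[q] L ∧
      (e : ℤ) * wv q π = Module.finrank ℚ_[q] L := by
  classical
  obtain ⟨C, hCg, hCc, ρ, hsurj, hker, hcard⟩ := stmtRes q ℚ_[q] L
  have ha : (Nat.card C : ℤ) = wv q π := by
    have h1 := hcard _ π (wk4_isUnif_q q) hπ
    rw [wk4_wv_self, Padic.valuation_p, mul_one] at h1
    exact h1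
  have hn : Nat.card (L ≃ₐ[ℚ_[q]] L) = Module.finrank ℚ_[q] L :=
    IsGalois.card_aut_eq_finrank ℚ_[q] L
  have hidx : Nat.card ρ.ker * Nat.card C = Module.finrank ℚ_[q] L := by
    rw [← hn, ← Subgroup.card_mul_index ρ.ker, Subgroup.index_ker,
      MonoidHom.range_eq_top.2 hsurj]
    congr 1
    exact (Nat.card_congr (Subgroup.topEquiv (G := C)).toEquiv).symm
  refine ⟨Nat.card ρ.ker, Nat.card_pos, ⟨Nat.card C, hidx.symm⟩, ?_⟩
  rw [← ha]
  exact_mod_cast hidx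

/-- **K4, first half**: an element fixed by all inertial automorphisms has valuation divisible
by the degree (the fixed field of the inertial automorphisms is unramified). -/
theorem wk4_fixed {x : L} (hx0 : x ≠ 0)
    (hx : ∀ σ : L ≃ₐ[ℚ_[q]] L, IsInertial q σ → σ x = x) :
    (Module.finrank ℚ_[q] L : ℤ) ∣ wv q x := by
  classical
  obtain ⟨C, hCg, hCc, ρ, hsurj, hker, hcard⟩ := stmtRes q ℚ_[q] L
  set H : Subgroup (L ≃ₐ[ℚ_[q]] L) := ρ.ker with hH
  have hHmem : ∀ σ, σ ∈ H ↔ IsInertial q σ := fun σ => by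
    rw [hH, MonoidHom.mem_ker]
    exact hker σ
  obtain ⟨π, hπ⟩ := stmtWUnif q L
  have hapos : 0 < wv q π := hπ.2.1
  have ha : (Nat.card C : ℤ) = wv q π := by
    have h1 := hcard _ π (wk4_isUnif_q q) hπ
    rw [wk4_wv_self, Padic.valuation_p, mul_one] at h1
    exact h1
  have hn : Nat.card (L ≃ₐ[ℚ_[q]] L) = Module.finrank ℚ_[q] L :=
    IsGalois.card_aut_eq_finrank ℚ_[q] L
  have hidx : Nat.card H * Nat.card C = Module.finrank ℚ_[q] L := by
    rw [← hn, ← Subgroup.card_mul_index H, hH, Subgroup.index_ker,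
      MonoidHom.range_eq_top.2 hsurj]
    congr 1
    exact (Nat.card_congr (Subgroup.topEquiv (G := C)).toEquiv).symm
  set K₀ : IntermediateField ℚ_[q] L := IntermediateField.fixedField H with hK₀
  have hfix : K₀.fixingSubgroup = H := IntermediateField.fixingSubgroup_fixedField H
  have hdeg : Module.finrank K₀ L = Nat.card H := IntermediateField.finrank_fixedField_eq_card H
  have hall : ∀ σ' : L ≃ₐ[K₀] L, IsInertial q (σ'.restrictScalars ℚ_[q]) := by
    intro σ'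
    have h1 : (σ'.restrictScalars ℚ_[q]) ∈ K₀.fixingSubgroup := by
      rw [IntermediateField.mem_fixingSubgroup_iff]
      intro x hx
      exact σ'.commutes ⟨x, hx⟩
    rw [hfix, hHmem] at h1
    exact h1
  obtain ⟨C₀, hC₀g, hC₀c, ρ₀, hsurj₀, hker₀, hcard₀⟩ := stmtRes q K₀ L
  have hC₀ : Nat.card C₀ = 1 := by
    haveI : Subsingleton C₀ := ⟨fun x y => by
      obtain ⟨σ, rfl⟩ := hsurj₀ x
      obtain ⟨τ, rfl⟩ := hsurj₀ y
      rw [(hker₀ σ).2 (hall σ), (hker₀ τ).2 (hall τ)]⟩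
    exact Nat.card_unique
  obtain ⟨π₀, hπ₀⟩ := stmtWUnif q K₀
  have hπ₀a : wv q π₀ = wv q π := by
    have h1 := hcard₀ π₀ π hπ₀ hπ
    rw [hC₀] at h1
    simpa using h1
  have hxK : x ∈ K₀ := by
    rw [hK₀, IntermediateField.mem_fixedField_iff]
    intro σ hσ
    exact hx σ ((hHmem σ).1 hσ)
  set y : K₀ := ⟨x, hxK⟩ with hy
  have hy0 : y ≠ 0 := fun h => hx0 (congrArg Subtype.val h)
  have hxy : x = algebraMap K₀ L y := rfl
  obtain ⟨m, hm⟩ := hπ₀.2.2 y hy0
  rw [hxy, wv_algebraMap_tower, hdeg, hm, hπ₀a, ← hidx]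
  refine ⟨m, ?_⟩
  push_cast
  rw [← ha]
  ring

/-- **K4, second half** (the trace argument): `C` a group of automorphisms of `L/ℚ_q` whose fixed
elements have valuation divisible by the degree; if every `σ ∈ C` satisfies
`σ(π^s) ≡ π^s mod π^s 𝔪` then `n ∣ s · wv π`. -/
theorem wk4_trace (htame : ¬ q ∣ Module.finrank ℚ_[q] L) {π : L} (hπ0 : π ≠ 0)
    (C : Subgroup (L ≃ₐ[ℚ_[q]] L))
    (hC : ∀ x : L, x ≠ 0 → (∀ σ ∈ C, σ x = x) → (Module.finrank ℚ_[q] L : ℤ) ∣ wv q x)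
    (s : ℕ) (hs : ∀ σ ∈ C, geW q (s * wv q π + 1) (σ (π ^ s) - π ^ s)) :
    (Module.finrank ℚ_[q] L : ℤ) ∣ s * wv q π := by
  classical
  letI : Fintype C := Fintype.ofFinite C
  have hn : Nat.card (L ≃ₐ[ℚ_[q]] L) = Module.finrank ℚ_[q] L :=
    IsGalois.card_aut_eq_finrank ℚ_[q] L
  have hCq : ¬ q ∣ Nat.card C := fun h =>
    htame (hn ▸ h.trans (Subgroup.card_subgroup_dvd_card C))
  set Tr : L := ∑ σ : C, (σ : L ≃ₐ[ℚ_[q]] L) (π ^ s) with hTr
  have hfixed : ∀ c ∈ C, c Tr = Tr := by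
    intro c hc
    rw [hTr, map_sum]
    exact Fintype.sum_equiv (Equiv.mulLeft (⟨c, hc⟩ : C)) _ _ (fun σ => rfl)
  have hsum2 : Tr = ((Nat.card C : ℕ) : L) * π ^ s +
      ∑ σ : C, ((σ : L ≃ₐ[ℚ_[q]] L) (π ^ s) - π ^ s) := by
    rw [hTr, Finset.sum_sub_distrib, Finset.sum_const, Finset.card_univ, nsmul_eq_mul,
      Nat.card_eq_fintype_card]
    ring
  obtain ⟨hc0, hcw⟩ := wk4_wv_natCast (F := L) q hCq
  have hπs : π ^ s ≠ 0 := pow_ne_zero _ hπ0
  have hA0 : ((Nat.card C : ℕ) : L) * π ^ s ≠ 0 := mul_ne_zero hc0 hπs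
  have hAw : wv q (((Nat.card C : ℕ) : L) * π ^ s) = s * wv q π := by
    rw [l0b_wv_mul q hc0 hπs, hcw, zero_add, l0b_wv_pow]
  have hB : geW q (s * wv q π + 1) (∑ σ : C, ((σ : L ≃ₐ[ℚ_[q]] L) (π ^ s) - π ^ s)) :=
    geW_sum q _ _ _ (fun σ _ => hs σ σ.2)
  obtain ⟨h0, hw⟩ := wk4_wv_add q hA0 (by rw [hAw]; exact hB)
  rw [← hsum2, hAw] at hw
  rw [← hw]
  exact hC Tr (hsum2 ▸ h0) hfixed

/-- **K4, core**: the tame character of a tamely ramified Galois extension `L/ℚ_q` has exact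
order `e = e(L/ℚ_q)`. -/
theorem wk4_core (htame : ¬ q ∣ Module.finrank ℚ_[q] L) {π : L} (hπ : IsUnif q π) :
    ∃ e : ℕ, 0 < e ∧ (e : ℤ) * wv q π = Module.finrank ℚ_[q] L ∧
      ∀ s : ℕ, (∀ σ : L ≃ₐ[ℚ_[q]] L, IsInertial q σ →
          geW q (s * wv q π + 1) (σ (π ^ s) - π ^ s)) → e ∣ s := by
  obtain ⟨e, he0, -, he⟩ := wk4_card q L hπ
  refine ⟨e, he0, he, fun s hs => ?_⟩
  -- the group of inertial automorphisms
  obtain ⟨C, hCg, hCc, ρ, hsurj, hker, hcard⟩ := stmtRes q ℚ_[q] L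
  have h1 := wk4_trace q L htame hπ.1 ρ.ker
    (fun x hx0 hx => wk4_fixed q L hx0 (fun σ hσ => hx σ ((hker σ).2 hσ))) s
    (fun σ hσ => hs σ ((hker σ).1 hσ))
  rw [← he] at h1
  have h2 : (e : ℤ) ∣ s := by
    obtain ⟨m, hm⟩ := h1
    refine ⟨m, ?_⟩
    have h3 : wv q π * (s : ℤ) = wv q π * (e * m) := by linear_combination hm
    exact mul_left_cancel₀ hπ.2.1.ne' h3
  exact Int.natCast_dvd_natCast.1 h2

end Main

section NormLayer

variable (p : ℕ) [Fact p.Prime] (T : IntermediateField ℚ_[p] (PadicAlgCl p))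

/-- `σ ∈ G_{ℚ_p}` acts trivially on the residue field of `T` (`T`-inertial). -/
def wgrInertT (σ : GQq p) : Prop := ∀ x ∈ T, ‖x‖ ≤ 1 → ‖σ x - x‖ < 1

/-- `π` is a uniformiser of `T`, in the language of the norm. -/
def wgrIsUnif (π : PadicAlgCl p) : Prop :=
  π ∈ T ∧ π ≠ 0 ∧ ‖π‖ < 1 ∧ ∀ x ∈ T, ‖x‖ < 1 → ‖x‖ ≤ ‖π‖

variable {p T}

theorem wgrInertT_of_inertiaQ {σ : GQq p} (hσ : σ ∈ inertiaQ p) : wgrInertT p T σ :=
  fun x _ hx => (wgr_inert_iff p σ).1 hσ x hx

theorem wgrInertT_one : wgrInertT p T 1 := fun x _ _ => by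
  simp

variable [FiniteDimensional ℚ_[p] T]

theorem wgr_norm_lt_one_iff (x : T) (hx : x ≠ 0) : ‖(x : PadicAlgCl p)‖ < 1 ↔ 0 < wv p x := by
  have h := wgr_norm_lt_iff p T x 1 hx one_ne_zero
  have h1 : ((1 : T) : PadicAlgCl p) = 1 := rfl
  rw [h1, norm_one, l0b_wv_one] at h
  exact h

/-- the two notions of uniformiser agree -/
theorem wgr_isUnif_iff (π : T) : wgrIsUnif p T (π : PadicAlgCl p) ↔ IsUnif p π := by
  constructor
  · rintro ⟨-, hπ0, hπ1, hmax⟩
    have hπ0' : π ≠ 0 := fun h => hπ0 (by rw [h]; rfl)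
    have hpos : 0 < wv p π := (wgr_norm_lt_one_iff π hπ0').1 hπ1
    obtain ⟨π', hπ'0, hπ'pos, hπ'dvd⟩ := stmtWUnif p T
    have h1 : ‖(π' : PadicAlgCl p)‖ ≤ ‖(π : PadicAlgCl p)‖ :=
      hmax _ π'.2 ((wgr_norm_lt_one_iff π' hπ'0).2 hπ'pos)
    have h2 : wv p π ≤ wv p π' := (wgr_norm_le_iff p T π' π hπ'0 hπ0').1 h1
    have h3 : wv p π' ≤ wv p π := Int.le_of_dvd hpos (hπ'dvd π hπ0')
    have h4 : wv p π = wv p π' := le_antisymm h2 h3
    exact ⟨hπ0', hpos, fun x hx => h4 ▸ hπ'dvd x hx⟩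
  · rintro ⟨hπ0, hpos, hdvd⟩
    refine ⟨π.2, fun h => hπ0 (Subtype.ext h), (wgr_norm_lt_one_iff π hπ0).2 hpos, ?_⟩
    intro x hx hx1
    rcases eq_or_ne x 0 with rfl | hx0
    · rw [norm_zero]; exact norm_nonneg _
    have hx0' : (⟨x, hx⟩ : T) ≠ 0 := fun h => hx0 (congrArg Subtype.val h)
    have h1 : 0 < wv p (⟨x, hx⟩ : T) := (wgr_norm_lt_one_iff ⟨x, hx⟩ hx0').1 hx1
    have h2 : wv p π ≤ wv p (⟨x, hx⟩ : T) := Int.le_of_dvd h1 (hdvd _ hx0')
    exact (wgr_norm_le_iff p T ⟨x, hx⟩ π hx0' hπ0).2 h2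

variable (p T) in
/-- a uniformiser exists -/
theorem wgr_exists_unif : ∃ π : PadicAlgCl p, wgrIsUnif p T π := by
  obtain ⟨π, hπ⟩ := stmtWUnif p T
  exact ⟨π, (wgr_isUnif_iff π).2 hπ⟩

/-- the norm of every nonzero element of `T` is a power of the norm of a uniformiser -/
theorem wgr_unif_norm {π : PadicAlgCl p} (hπ : wgrIsUnif p T π) {x : PadicAlgCl p} (hx : x ∈ T)
    (hx0 : x ≠ 0) : ∃ k : ℤ, ‖x‖ = ‖π‖ ^ k := by
  have hU : IsUnif p (⟨π, hπ.1⟩ : T) := (wgr_isUnif_iff ⟨π, hπ.1⟩).1 hπ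
  have hx0' : (⟨x, hx⟩ : T) ≠ 0 := fun h => hx0 (congrArg Subtype.val h)
  obtain ⟨k, hk⟩ := hU.2.2 _ hx0'
  refine ⟨k, ?_⟩
  have hn : Module.finrank ℚ_[p] T ≠ 0 := Module.finrank_pos.ne'
  have h1 := wgr_norm_pow p T ⟨x, hx⟩ hx0'
  have h2 := wgr_norm_pow p T ⟨π, hπ.1⟩ hU.1
  have hp0 : (0 : ℝ) < p := by exact_mod_cast (Fact.out : p.Prime).pos
  have h3 : ‖x‖ ^ Module.finrank ℚ_[p] T = (‖π‖ ^ k) ^ Module.finrank ℚ_[p] T := by
    have e1 : (‖π‖ ^ k) ^ Module.finrank ℚ_[p] T = (‖π‖ ^ Module.finrank ℚ_[p] T) ^ k := by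
      rw [← zpow_natCast, ← zpow_natCast, ← zpow_mul, ← zpow_mul, mul_comm]
    rw [e1]
    show ‖((⟨x, hx⟩ : T) : PadicAlgCl p)‖ ^ Module.finrank ℚ_[p] T =
      (‖((⟨π, hπ.1⟩ : T) : PadicAlgCl p)‖ ^ Module.finrank ℚ_[p] T) ^ k
    rw [h1, h2, hk, ← zpow_mul]
    congr 1
    ring
  exact (pow_left_inj₀ (norm_nonneg _) (zpow_nonneg (norm_nonneg _) _) hn).1 h3

/-- **(Gr-theta)** for `T`-inertial elements. -/
theorem wgr_thetaT {σ : GQq p} (hσ : wgrInertT p T σ) {π x : PadicAlgCl p} (hπT : π ∈ T)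
    (hπ : π ≠ 0) (t : ℕ) (hxT : x ∈ T) (hx : ‖x‖ ≤ ‖π‖ ^ t) :
    ‖σ x - (σ π / π) ^ t * x‖ < ‖π‖ ^ t := by
  have hπ0 : 0 < ‖π‖ := norm_pos_iff.2 hπ
  have hπt : π ^ t ≠ 0 := pow_ne_zero _ hπ
  have h1 : ‖x / π ^ t‖ ≤ 1 := by
    rw [norm_div, norm_pow]
    exact div_le_one_of_le₀ hx (by positivity)
  have h2 := hσ (x / π ^ t) (div_mem hxT (pow_mem hπT t)) h1
  have hσπ : ‖σ π‖ = ‖π‖ := wgr_norm_map p σ π
  have h3 : σ x - (σ π / π) ^ t * x = (σ π) ^ t * (σ (x / π ^ t) - x / π ^ t) := by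
    rw [map_div₀, map_pow]
    have : σ π ≠ 0 := by rwa [Ne, map_eq_zero_iff _ σ.injective]
    rw [div_pow]
    field_simp
  rw [h3, norm_mul, norm_pow, hσπ]
  calc ‖π‖ ^ t * ‖σ (x / π ^ t) - x / π ^ t‖ < ‖π‖ ^ t * 1 := by
        exact mul_lt_mul_of_pos_left h2 (by positivity)
    _ = ‖π‖ ^ t := mul_one _

/-- **K4, main**: if `θ ^ s = 1` on the `T`-inertial elements then `e ∣ s`
(`T/ℚ_p` Galois of degree prime to `p`, `‖π‖ ^ e = ‖p‖`). -/
theorem wgr_tame_order [IsGalois ℚ_[p] T] (htame : ¬ p ∣ Module.finrank ℚ_[p] T)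
    {π : PadicAlgCl p} (hπ : wgrIsUnif p T π) {e : ℕ} (he : ‖π‖ ^ e = ‖(p : PadicAlgCl p)‖)
    (s : ℕ) (hs : ∀ σ : GQq p, wgrInertT p T σ → ‖σ (π ^ s) - π ^ s‖ < ‖π‖ ^ s) : e ∣ s := by
  set π' : T := ⟨π, hπ.1⟩ with hπ'
  have hU : IsUnif p π' := (wgr_isUnif_iff π').1 hπ
  obtain ⟨e₀, he₀pos, he₀, hdiv⟩ := wk4_core p T htame hU
  -- `e = e₀`
  have hp0 : ((p : ℕ) : T) ≠ 0 := wgr_natCast_ne_zero p
  have hπe : π' ^ e ≠ 0 := pow_ne_zero _ hU.1
  have hcoe : ((π' ^ e : T) : PadicAlgCl p) = π ^ e := rfl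
  have h1 : wv p (π' ^ e) = wv p ((p : ℕ) : T) := by
    apply le_antisymm
    · apply (wgr_norm_le_iff p T _ _ hp0 hπe).1
      rw [hcoe, norm_pow, he]
      exact le_of_eq rfl
    · apply (wgr_norm_le_iff p T _ _ hπe hp0).1
      rw [hcoe, norm_pow, he]
      exact le_of_eq rfl
  rw [l0b_wv_pow, wgr_wv_natCast, ← he₀] at h1
  have hee : e = e₀ := by
    have h2 : (e : ℤ) = e₀ := mul_right_cancel₀ hU.2.1.ne' h1
    exact_mod_cast h2
  rw [hee]
  apply hdiv s
  intro σ₀ hσ₀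
  set σ : GQq p := σ₀.liftNormal (PadicAlgCl p) with hσ
  have hcomm : ∀ x : T, σ (x : PadicAlgCl p) = ((σ₀ x : T) : PadicAlgCl p) :=
    fun x => σ₀.liftNormal_commutes (PadicAlgCl p) x
  have hin : wgrInertT p T σ := by
    intro x hx hx1
    have hxi : IsInt p (⟨x, hx⟩ : T) := (wgr_norm_le_one_iff p T ⟨x, hx⟩).1 hx1
    have h2 := hσ₀ _ hxi
    have h3 : σ x - x = ((σ₀ ⟨x, hx⟩ - ⟨x, hx⟩ : T) : PadicAlgCl p) := by
      have := hcomm ⟨x, hx⟩
      push_cast
      rw [← this]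
    rw [h3]
    rcases h2 with h2 | h2
    · rw [h2, sub_self]
      simp
    · by_cases h0 : σ₀ ⟨x, hx⟩ - ⟨x, hx⟩ = 0
      · rw [h0]; simp
      · exact (wgr_norm_lt_one_iff _ h0).2 (by omega)
  have h4 := hs σ hin
  have h5 : σ (π ^ s) - π ^ s = ((σ₀ (π' ^ s) - π' ^ s : T) : PadicAlgCl p) := by
    have := hcomm (π' ^ s)
    push_cast
    rw [← this]
    rfl
  rw [h5] at h4
  by_cases h0 : σ₀ (π' ^ s) - π' ^ s = 0
  · exact Or.inl h0
  · right
    have hπs : π' ^ s ≠ 0 := pow_ne_zero _ hU.1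
    have hcoe2 : ‖π‖ ^ s = ‖((π' ^ s : T) : PadicAlgCl p)‖ := by
      rw [← norm_pow]; rfl
    rw [hcoe2] at h4
    have h6 := (wgr_norm_lt_iff p T _ _ h0 hπs).1 h4
    rw [l0b_wv_pow] at h6
    omega

end NormLayer

end Fermat.Agent.TW.W


end ZBTW_004_12
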