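/- GENERATED FILE (helper35, build-time optimisation, NOTES/ZB.md): verbatim concatenation of the modules
   Fermat.Agent.TW.S.Ad
   Fermat.Agent.TW.S.Defs
   Fermat.Agent.TW.W.Plan
   Fermat.Agent.TW.W.Plan2
   Fermat.Agent.TW.W.Plan3
   Fermat.Agent.TW.W.GrKum
   Fermat.Agent.TW.W.GBPlan
   Fermat.Agent.R38.EPeuPlan
   Fermat.Agent.TW.W.LevelPlan
   Fermat.Agent.TW.W.LvDict
   Fermat.Agent.R38.EPeuCore
   Fermat.Agent.R38.EPeuPow
   Fermat.Agent.TW.W.LvKum
   Fermat.Agent.TW.W.LvTowerPlan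
   Fermat.Agent.TW.W.LvtCyc
   Fermat.Agent.TW.W.GB1
   Fermat.Agent.TW.W.Kummer
   Fermat.Agent.R38.EPeuDict
   Fermat.Agent.TW.S.Plan
   Fermat.Agent.TW.S.ConjPlaces
   Fermat.Agent.R38.EPTeich
   Fermat.Agent.TW.W.GrOmega
   Fermat.Agent.R38.EPRoot
   Fermat.Agent.TW.S.CycloRam
   Fermat.Agent.TW.W.StrCyc
   Fermat.Agent.R38.EPVal
   Fermat.Agent.R38.EPGood
   Do not edit; do not import together with these modules. -/
import Mathlib
import Fermat.Prelude.Def_GaloisRep_Residual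
import Fermat.Agent.ZB.PT_003
import Fermat.Agent.ZB.S53_002
import Fermat.Agent.ZB.W1_001
import Fermat.Prelude.Def_GaloisRep_Flat
import Fermat.Agent.ZB.TW_004
import Fermat.Agent.ZB.TW_002
import Fermat.Agent.ZB.TW_003
import Fermat.Agent.ZB.ES_001
import Fermat.Agent.ZB.PT_006
import Fermat.Agent.ZB.PT_004
import Fermat.Agent.ZB.S53_001
import Fermat.Prelude.Def_GaloisRep_StrictOrdinary
import Fermat.Agent.ZB.S05_001
import Fermat.Agent.ZB.Common_003
import Fermat.Agent.ZB.TW_006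

/-! ### bundled: `Fermat.Agent.TW.S.Ad` -/
section ZBTW_001_0
/-
TW-S (S56, from deformations to Selmer classes) — the packaging of `ad⁰ ρ̄`.
Sub-captain: helper54.  Project TW (captain helper63), plan NOTES/S56-plan.md §2, NOTES/TW-S.md.

* `ad0Sub ρbar`      : the trace-zero `k`-endomorphisms of `V̄`, a `k`-subspace of `End_k V̄`;
* `Ad0 p ρbar`       : the same set as an `𝔽_p`-vector space (`CharP k p`);
* `ad0Rep p ρbar`    : `ad⁰ ρ̄` as a `Rep (ZMod p) G_ℚ` (conjugation action);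
* `adRep p ρbar`     : `End_k V̄` as a `Rep (ZMod p) G_ℚ` and the inclusion `ad0Incl`.
-/

set_option autoImplicit false
set_option linter.unusedSectionVars false

noncomputable section

namespace Fermat.Agent.TW.S

open CategoryTheory

/-- `G_ℚ` -/
abbrev GQ' : Type := AlgebraicClosure ℚ ≃ₐ[ℚ] AlgebraicClosure ℚ

variable {k : Type} [Field k] (p : ℕ) [Fact p.Prime] [CharP k p] (ρbar : ResidualGaloisRep k)

/-- The trace-zero endomorphisms of `V̄`. -/
def ad0Sub : Submodule k (Module.End k ρbar.V) := LinearMap.ker (LinearMap.trace k ρbar.V)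

lemma mem_ad0Sub (X : Module.End k ρbar.V) :
    X ∈ ad0Sub ρbar ↔ LinearMap.trace k ρbar.V X = 0 := LinearMap.mem_ker

/-- `ρ̄(g) ρ̄(g⁻¹) = 1`. -/
lemma rho_mul_inv (g : GQ') : ρbar.ρ g * ρbar.ρ g⁻¹ = 1 := by
  rw [← map_mul, mul_inv_cancel, map_one]

lemma rho_inv_mul (g : GQ') : ρbar.ρ g⁻¹ * ρbar.ρ g = 1 := by
  rw [← map_mul, inv_mul_cancel, map_one]

/-- Conjugation preserves the trace. -/
lemma trace_conj (g : GQ') (X : Module.End k ρbar.V) :
    LinearMap.trace k ρbar.V (ρbar.ρ g * X * ρbar.ρ g⁻¹) = LinearMap.trace k ρbar.V X := by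
  rw [LinearMap.trace_mul_comm, ← mul_assoc, rho_inv_mul, one_mul]

/-- The carrier of `End_k V̄` as an `𝔽_p`-vector space. -/
def Ad (_p : ℕ) (ρbar : ResidualGaloisRep k) : Type := Module.End k ρbar.V

/-- The carrier of `ad⁰ ρ̄` as an `𝔽_p`-vector space. -/
def Ad0 (_p : ℕ) (ρbar : ResidualGaloisRep k) : Type := ↥(ad0Sub ρbar)

instance : AddCommGroup (Ad p ρbar) := inferInstanceAs (AddCommGroup (Module.End k ρbar.V))

instance : AddCommGroup (Ad0 p ρbar) := inferInstanceAs (AddCommGroup ↥(ad0Sub ρbar))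

/-- the underlying endomorphism -/
def Ad.toEnd : Ad p ρbar →+ Module.End k ρbar.V := AddMonoidHom.id _

/-- an endomorphism as an element of `Ad` -/
def Ad.ofEnd : Module.End k ρbar.V →+ Ad p ρbar := AddMonoidHom.id _

@[simp] lemma Ad.toEnd_ofEnd (X : Module.End k ρbar.V) :
    Ad.toEnd p ρbar (Ad.ofEnd p ρbar X) = X := rfl

@[simp] lemma Ad.ofEnd_toEnd (x : Ad p ρbar) : Ad.ofEnd p ρbar (Ad.toEnd p ρbar x) = x := rfl

lemma Ad.toEnd_injective : Function.Injective (Ad.toEnd p ρbar) := fun _ _ h => h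

/-- the underlying endomorphism -/
def Ad0.toEnd : Ad0 p ρbar →+ Module.End k ρbar.V := (ad0Sub ρbar).subtype.toAddMonoidHom

lemma Ad0.toEnd_injective : Function.Injective (Ad0.toEnd p ρbar) :=
  Subtype.val_injective

lemma Ad0.trace_toEnd (x : Ad0 p ρbar) :
    LinearMap.trace k ρbar.V (Ad0.toEnd p ρbar x) = 0 := (mem_ad0Sub ρbar _).1 x.2

/-- a trace-zero endomorphism as an element of `Ad0` -/
def Ad0.mk (X : Module.End k ρbar.V) (hX : LinearMap.trace k ρbar.V X = 0) : Ad0 p ρbar :=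
  ⟨X, (mem_ad0Sub ρbar X).2 hX⟩

@[simp] lemma Ad0.toEnd_mk (X : Module.End k ρbar.V) (hX : LinearMap.trace k ρbar.V X = 0) :
    Ad0.toEnd p ρbar (Ad0.mk p ρbar X hX) = X := rfl

lemma end_nsmul_eq_zero (X : Module.End k ρbar.V) : p • X = 0 := by
  rw [← Nat.cast_smul_eq_nsmul k, CharP.cast_eq_zero, zero_smul]

lemma Ad.nsmul_eq_zero (x : Ad p ρbar) : p • x = 0 :=
  end_nsmul_eq_zero p ρbar x

lemma Ad0.nsmul_eq_zero (x : Ad0 p ρbar) : p • x = 0 := by
  apply Ad0.toEnd_injective p ρbar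
  rw [map_nsmul, map_zero]
  exact Ad.nsmul_eq_zero p ρbar (Ad0.toEnd p ρbar x)

instance : Module (ZMod p) (Ad p ρbar) := AddCommGroup.zmodModule (Ad.nsmul_eq_zero p ρbar)

instance : Module (ZMod p) (Ad0 p ρbar) := AddCommGroup.zmodModule (Ad0.nsmul_eq_zero p ρbar)

/-- conjugation by `ρ̄(g)` on `End_k V̄`, additively -/
def adConj (g : GQ') : Ad p ρbar →+ Ad p ρbar where
  toFun x := Ad.ofEnd p ρbar (ρbar.ρ g * Ad.toEnd p ρbar x * ρbar.ρ g⁻¹)
  map_zero' := by simp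
  map_add' x y := by
    show ρbar.ρ g * (Ad.toEnd p ρbar x + Ad.toEnd p ρbar y) * ρbar.ρ g⁻¹ = _
    rw [mul_add, add_mul]
    rfl

/-- conjugation by `ρ̄(g)` on `ad⁰`, additively -/
def ad0Conj (g : GQ') : Ad0 p ρbar →+ Ad0 p ρbar where
  toFun x := Ad0.mk p ρbar (ρbar.ρ g * Ad0.toEnd p ρbar x * ρbar.ρ g⁻¹)
    (by rw [trace_conj]; exact Ad0.trace_toEnd p ρbar x)
  map_zero' := by
    apply Ad0.toEnd_injective p ρbar
    simp
  map_add' x y := by
    apply Ad0.toEnd_injective p ρbar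
    show ρbar.ρ g * Ad0.toEnd p ρbar (x + y) * ρbar.ρ g⁻¹ =
      ρbar.ρ g * Ad0.toEnd p ρbar x * ρbar.ρ g⁻¹ + ρbar.ρ g * Ad0.toEnd p ρbar y * ρbar.ρ g⁻¹
    rw [map_add, mul_add, add_mul]

/-- The conjugation representation on `End_k V̄` (over `𝔽_p`). -/
def adRho : Representation (ZMod p) GQ' (Ad p ρbar) where
  toFun g := AddMonoidHom.toZModLinearMap p (adConj p ρbar g)
  map_one' := by
    ext x
    show ρbar.ρ 1 * Ad.toEnd p ρbar x * ρbar.ρ 1⁻¹ = _
    rw [inv_one, map_one, one_mul, mul_one]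
    rfl
  map_mul' g h := by
    ext x
    show ρbar.ρ (g * h) * Ad.toEnd p ρbar x * ρbar.ρ (g * h)⁻¹ =
      ρbar.ρ g * (ρbar.ρ h * Ad.toEnd p ρbar x * ρbar.ρ h⁻¹) * ρbar.ρ g⁻¹
    rw [mul_inv_rev, map_mul, map_mul]
    simp only [mul_assoc]

/-- The conjugation representation on `ad⁰ ρ̄` (over `𝔽_p`). -/
def ad0Rho : Representation (ZMod p) GQ' (Ad0 p ρbar) where
  toFun g := AddMonoidHom.toZModLinearMap p (ad0Conj p ρbar g)
  map_one' := by
    ext x
    apply Ad0.toEnd_injective p ρbar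
    show ρbar.ρ 1 * Ad0.toEnd p ρbar x * ρbar.ρ 1⁻¹ = _
    rw [inv_one, map_one, one_mul, mul_one]
    rfl
  map_mul' g h := by
    ext x
    apply Ad0.toEnd_injective p ρbar
    show ρbar.ρ (g * h) * Ad0.toEnd p ρbar x * ρbar.ρ (g * h)⁻¹ =
      ρbar.ρ g * (ρbar.ρ h * Ad0.toEnd p ρbar x * ρbar.ρ h⁻¹) * ρbar.ρ g⁻¹
    rw [mul_inv_rev, map_mul, map_mul]
    simp only [mul_assoc]

/-- **`End_k V̄`** as a representation of `G_ℚ` over `𝔽_p`. -/
def adRep : Rep.{0} (ZMod p) GQ' := Rep.of (adRho p ρbar)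

/-- **`ad⁰ ρ̄`** as a representation of `G_ℚ` over `𝔽_p`. -/
def ad0Rep : Rep.{0} (ZMod p) GQ' := Rep.of (ad0Rho p ρbar)

/-- the endomorphism underlying an element of `adRep` -/
def adVal : (adRep p ρbar).V →+ Module.End k ρbar.V := Ad.toEnd p ρbar

/-- the endomorphism underlying an element of `ad0Rep` -/
def ad0Val : (ad0Rep p ρbar).V →+ Module.End k ρbar.V := Ad0.toEnd p ρbar

lemma adVal_injective : Function.Injective (adVal p ρbar) := Ad.toEnd_injective p ρbar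

lemma ad0Val_injective : Function.Injective (ad0Val p ρbar) := Ad0.toEnd_injective p ρbar

lemma trace_ad0Val (x : (ad0Rep p ρbar).V) : LinearMap.trace k ρbar.V (ad0Val p ρbar x) = 0 :=
  Ad0.trace_toEnd p ρbar x

lemma exists_ad0Val_eq (X : Module.End k ρbar.V) (hX : LinearMap.trace k ρbar.V X = 0) :
    ∃ x : (ad0Rep p ρbar).V, ad0Val p ρbar x = X := ⟨Ad0.mk p ρbar X hX, rfl⟩

lemma exists_adVal_eq (X : Module.End k ρbar.V) :
    ∃ x : (adRep p ρbar).V, adVal p ρbar x = X := ⟨Ad.ofEnd p ρbar X, rfl⟩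

@[simp] lemma adVal_ρ (g : GQ') (x : (adRep p ρbar).V) :
    adVal p ρbar ((adRep p ρbar).ρ g x) = ρbar.ρ g * adVal p ρbar x * ρbar.ρ g⁻¹ := rfl

@[simp] lemma ad0Val_ρ (g : GQ') (x : (ad0Rep p ρbar).V) :
    ad0Val p ρbar ((ad0Rep p ρbar).ρ g x) = ρbar.ρ g * ad0Val p ρbar x * ρbar.ρ g⁻¹ := rfl

/-- the inclusion `ad⁰ ⊆ End` as a morphism of representations -/
def ad0Incl : ad0Rep p ρbar ⟶ adRep p ρbar :=
  Rep.ofHom ⟨AddMonoidHom.toZModLinearMap p
    ((Ad.ofEnd p ρbar).comp (Ad0.toEnd p ρbar)), fun _ => rfl⟩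

@[simp] lemma adVal_ad0Incl (x : (ad0Rep p ρbar).V) :
    adVal p ρbar ((ad0Incl p ρbar).hom x) = ad0Val p ρbar x := rfl

end Fermat.Agent.TW.S

end


end ZBTW_001_0

/-! ### bundled: `Fermat.Agent.TW.S.Defs` -/
section ZBTW_001_1
/-
TW-S (S56, from deformations to Selmer classes) — CORE DEFINITIONS.
Sub-captain: helper54.  Project TW (captain helper63), plan NOTES/S56-plan.md §2, NOTES/TW-S.md.

`k = ResidueField 𝒪` of characteristic `p`, `ρbar : ResidualGaloisRep k`, `D : S53.RigidDatum 𝒪 ρbar`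
(a basis `D.b` of `V̄` and the matrix form `D.ρm` of `ρ̄`; exists by `S53` (Burnside) when `ρ̄` is
absolutely irreducible).

* `adMat p D x`       : the matrix of `x ∈ End_k V̄` in the basis `D.b`;
* `liftMat p D c σ`   : the matrix `(1 + ε c(σ)) ρ̄(σ)` over `k[ε]`;
* `IsCocOf p D ρ c`   : the deformation `ρ` over `k[ε]` is equivalent to the matrix representation
                         `σ ↦ (1 + ε c(σ)) ρ̄(σ)`   (THE dictionary deformation ↔ cocycle);
* `locRep q A`        : the restriction of a `G_ℚ`-representation to `G_{ℚ_q}` (along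
                         `localGaloisToGlobal q`), a `Rep` of `GQq q`;
* `IsOrdLine`, `ordSub`: the ordinary line of `ρ̄` at `p` and `N = Hom(V̄/L̄, L̄) ⊆ ad⁰`.
-/

set_option autoImplicit false
set_option linter.unusedSectionVars false

noncomputable section

namespace Fermat.Agent.TW.S

open CategoryTheory groupCohomology IsLocalRing
open Fermat.Agent.PT Fermat.Agent.PT.B Fermat.Agent.S53 ExtCitation

section Cocycle

variable {𝒪 : Type} [CommRing 𝒪] [IsLocalRing 𝒪] (p : ℕ) [Fact p.Prime]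
  [CharP (ResidueField 𝒪) p] {ρbar : ResidualGaloisRep (ResidueField 𝒪)}
  (D : RigidDatum 𝒪 ρbar)

/-- The matrix of an element of `End_k V̄` (as an element of `adRep`) in the basis `D.b`. -/
def adMat (x : (adRep p ρbar).V) : M2 (ResidueField 𝒪) :=
  LinearMap.toMatrix D.b D.b (adVal p ρbar x)

/-- The matrix `(1 + ε c(σ)) ρ̄(σ)` over the dual numbers. -/
def liftMat (c : GQ → (adRep p ρbar).V) (σ : GQ) : M2 (DualNumber (ResidueField 𝒪)) :=
  (D.ρm σ).map (TrivSqZeroExt.inl : ResidueField 𝒪 → DualNumber (ResidueField 𝒪)) +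
    (adMat p D (c σ) * D.ρm σ).map
      (TrivSqZeroExt.inr : ResidueField 𝒪 → DualNumber (ResidueField 𝒪))

/-- **`c` is a cocycle of the deformation `ρ`**: `ρ` is equivalent to the matrix representation
`σ ↦ (1 + ε c(σ)) ρ̄(σ)` (matrices in the basis `D.b`). -/
def IsCocOf (ρ : GaloisRepAdic (DualNumber (ResidueField 𝒪))) (c : GQ → (adRep p ρbar).V) :
    Prop :=
  ∃ (r : Gal →* M2 (DualNumber (ResidueField 𝒪))) (hr : MatCont (DualNumber (ResidueField 𝒪)) r),
    ρ.IsEquiv (ofMatrix r hr) ∧ ∀ σ, r σ = liftMat p D c σ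

end Cocycle

section Local

variable {R : Type} [CommRing R] (q : ℕ) [Fact q.Prime]

/-- The restriction of a representation of `G_ℚ` to `G_{ℚ_q}`. -/
abbrev locRep (A : Rep.{0} R GQ) : Rep.{0} R (GQq q) := Rep.res (localGaloisToGlobal q) A

/-- The restriction of a function on `G_ℚ` to `G_{ℚ_q}`. -/
def locFun {X : Type*} (c : GQ → X) : GQq q → X := fun τ => c (localGaloisToGlobal q τ)

end Local

section Ord

variable {k : Type} [Field k] (p : ℕ) [Fact p.Prime] [CharP k p] (ρbar : ResidualGaloisRep k)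

/-- `Lbar` is an ordinary line of `ρ̄` at the place `padicPlace p`: a line, stable under the
decomposition group, with trivial action of inertia on the quotient. -/
def IsOrdLine (Lbar : Submodule k ρbar.V) : Prop :=
  Module.finrank k Lbar = 1 ∧
  (∀ σ ∈ (padicPlace p).decompositionSubgroup ℚ, ∀ v ∈ Lbar, ρbar.ρ σ v ∈ Lbar) ∧
  (∀ σ ∈ (padicPlace p).inertiaSubgroupIn ℚ, ∀ v : ρbar.V, ρbar.ρ σ v - v ∈ Lbar)

/-- `N = Hom(V̄/L̄, L̄)`: the endomorphisms with image in `L̄` which kill `L̄`, as a subgroup of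
`ad⁰`. -/
def ordSub (Lbar : Submodule k ρbar.V) : Submodule (ZMod p) (ad0Rep p ρbar).V where
  carrier := {x | (∀ v : ρbar.V, ad0Val p ρbar x v ∈ Lbar) ∧ ∀ v ∈ Lbar, ad0Val p ρbar x v = 0}
  add_mem' := by
    rintro x y ⟨h1, h2⟩ ⟨h1', h2'⟩
    refine ⟨fun v => ?_, fun v hv => ?_⟩
    · rw [map_add, LinearMap.add_apply]
      exact Lbar.add_mem (h1 v) (h1' v)
    · rw [map_add, LinearMap.add_apply, h2 v hv, h2' v hv, add_zero]
  zero_mem' := by
    refine ⟨fun v => ?_, fun v _ => ?_⟩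
    · rw [map_zero, LinearMap.zero_apply]
      exact Lbar.zero_mem
    · rw [map_zero, LinearMap.zero_apply]
  smul_mem' := by
    rintro a x ⟨h1, h2⟩
    have ha : a • x = a.val • x := by
      conv_lhs => rw [← ZMod.natCast_zmod_val a]
      exact Nat.cast_smul_eq_nsmul (ZMod p) a.val x
    refine ⟨fun v => ?_, fun v hv => ?_⟩
    · rw [ha, map_nsmul, LinearMap.smul_apply]
      exact Lbar.nsmul_mem (h1 v) _
    · rw [ha, map_nsmul, LinearMap.smul_apply, h2 v hv, smul_zero]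

lemma mem_ordSub (Lbar : Submodule k ρbar.V) (x : (ad0Rep p ρbar).V) :
    x ∈ ordSub p ρbar Lbar ↔
      (∀ v : ρbar.V, ad0Val p ρbar x v ∈ Lbar) ∧ ∀ v ∈ Lbar, ad0Val p ρbar x v = 0 := Iff.rfl

/-- The level cocycles of `G_{ℚ_q}` with values in `N = ordSub` (used for `q = p`). -/
def ordCocycles (Lbar : Submodule k ρbar.V) (q : ℕ) [Fact q.Prime] :
    Submodule (ZMod p) (cocycles₁ (locRep q (ad0Rep p ρbar))) where
  carrier := {c | IsLevel₁ (towerLoc q) (c : GQq q → (ad0Rep p ρbar).V) ∧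
    ∀ τ, (c : GQq q → (ad0Rep p ρbar).V) τ ∈ ordSub p ρbar Lbar}
  add_mem' := by
    rintro c c' ⟨h1, h2⟩ ⟨h1', h2'⟩
    exact ⟨h1.add h1', fun τ => (ordSub p ρbar Lbar).add_mem (h2 τ) (h2' τ)⟩
  zero_mem' := ⟨isLevel₁_const (towerLoc q) (0 : (ad0Rep p ρbar).V),
    fun _ => (ordSub p ρbar Lbar).zero_mem⟩
  smul_mem' := by
    rintro a c ⟨h1, h2⟩
    exact ⟨(h1.comp (a • ·) :), fun τ => (ordSub p ρbar Lbar).smul_mem a (h2 τ)⟩

/-- **The ordinary local condition** `L_p^{ord} ⊆ H¹(G_p, ad⁰)`: the classes of level cocycles with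
values in `N = Hom(V̄/L̄, L̄)`.  (Stated at any prime `q`; used for `q = p`.) -/
def ordH1 (Lbar : Submodule k ρbar.V) (q : ℕ) [Fact q.Prime] :
    Submodule (ZMod p) (H1 (locRep q (ad0Rep p ρbar))) :=
  (ordCocycles p ρbar Lbar q).map (H1π (locRep q (ad0Rep p ρbar))).hom

lemma mem_ordH1 (Lbar : Submodule k ρbar.V) (q : ℕ) [Fact q.Prime]
    (x : H1 (locRep q (ad0Rep p ρbar))) :
    x ∈ ordH1 p ρbar Lbar q ↔ ∃ c : cocycles₁ (locRep q (ad0Rep p ρbar)),
      IsLevel₁ (towerLoc q) (c : GQq q → (ad0Rep p ρbar).V) ∧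
      (∀ τ, (c : GQq q → (ad0Rep p ρbar).V) τ ∈ ordSub p ρbar Lbar) ∧
      (H1π (locRep q (ad0Rep p ρbar))).hom c = x := by
  simp only [ordH1, Submodule.mem_map]
  constructor
  · rintro ⟨c, ⟨h1, h2⟩, h3⟩
    exact ⟨c, h1, h2, h3⟩
  · rintro ⟨c, h1, h2, h3⟩
    exact ⟨c, ⟨h1, h2⟩, h3⟩

end Ord

end Fermat.Agent.TW.S

end


end ZBTW_001_1

/-! ### bundled: `Fermat.Agent.TW.W.Plan` -/
section ZBTW_001_2
/-
TW-W (S56, the FLAT local bound "W-flat") — INTERFACE FILE of the sub-captain (helper74).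
Project TW = Taylor–Wiles primes (S56), captain helper63, plan NOTES/S56-plan.md §5; route and
piece table: NOTES/TW-W.md.  Definitions and statements only.

Every `Stmt…` below is a `Prop`; the piece `X` is DONE when `theorem stmtX : StmtX` (or
`stmtX_of : deps → StmtX`) is landed, sorry-free, in its own file `Fermat/Agent/TW/W/<File>.lean`,
namespace `Fermat.Agent.TW.W`, private names prefixed by the piece id.

SHAPE OF THE PROOF.  `L_p^{flat} := flatH1 p D` = the `𝔽_p`-span of the classes `res_p [c]` of the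
flat deformations of `ρ̄` to `k[ε]` (so "S-flat" is trivial: `flatClass_mem_flatH1`), and

  `StmtWFlat`  ⇐  `StmtAdd` (flat classes are closed under addition: Baer sum + W1-SQ)
               +  `StmtBridge` (a flat deformation satisfies the GALOIS-THEORETIC necessary
                   conditions `PLev`, `PEt1`, `PEt2`;  from `StmtLev`, `StmtEt1`, `StmtEt2`)
               +  `StmtCount` (PURE local Galois theory: an additively closed set of classes whose
                   cocycles satisfy `PLev`, `PEt1`, `PEt2` spans at most `f + h⁰` dimensions).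

* `StmtLev`  = Fontaine's bound in Kummer form (chain INJ → T2 → T3 → (P_m) → EIS → LEVEL).
* `StmtEt1`, `StmtEt2` = the étale quotient is the maximal unramified quotient (RED + quotient
  lattices over the inertia field); used by `StmtCount` ONLY for `p = 3`.
-/

set_option autoImplicit false

noncomputable section

namespace Fermat.Agent.TW.W

open CategoryTheory groupCohomology IsLocalRing Polynomial
open Fermat.Agent.PT Fermat.Agent.PT.B Fermat.Agent.TW.L Fermat.Agent.TW.S Fermat.Agent.S53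
  Fermat.Agent.W1 ExtCitation

/-! ### Good fields and the subgroup `𝒩_T` -/

section Fields

variable (p : ℕ) [Fact p.Prime]

/-- A GOOD field: a finite Galois extension `T ⊂ ℚ̄_p` of `ℚ_p` of degree prime to `p` (hence
tamely ramified) containing the `p`-th roots of unity. -/
structure IsGoodField (T : IntermediateField ℚ_[p] (PadicAlgCl p)) : Prop where
  finite : FiniteDimensional ℚ_[p] T
  galois : IsGalois ℚ_[p] T
  tame : ¬ p ∣ Module.finrank ℚ_[p] T
  zeta : ∃ ζ ∈ T, ζ ≠ 1 ∧ ζ ^ p = 1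

/-- `𝒩_T ⊆ G_T`: the elements of `G_T` fixing every `p`-th root of every element of
`T ∩ (1 + p 𝒪)`, i.e. `𝒩_T = Gal(ℚ̄_p / T((1 + p𝒪_T)^{1/p}))`.  (`‖p‖ = p⁻¹`.) -/
def lvN (T : IntermediateField ℚ_[p] (PadicAlgCl p)) : Subgroup (GQq p) where
  carrier := {τ | τ ∈ T.fixingSubgroup ∧
    ∀ α : PadicAlgCl p, α ^ p ∈ T → ‖α ^ p - 1‖ ≤ ‖(p : PadicAlgCl p)‖ → τ α = α}
  mul_mem' := by
    rintro σ τ ⟨h1, h2⟩ ⟨h1', h2'⟩
    refine ⟨mul_mem h1 h1', fun α hα hα' => ?_⟩
    rw [AlgEquiv.mul_apply, h2' α hα hα', h2 α hα hα']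
  one_mem' := ⟨one_mem _, fun _ _ _ => rfl⟩
  inv_mem' := by
    rintro σ ⟨h1, h2⟩
    refine ⟨inv_mem h1, fun α hα hα' => ?_⟩
    have h := h2 α hα hα'
    calc σ⁻¹ α = σ⁻¹ (σ α) := by rw [h]
      _ = (σ⁻¹ * σ) α := rfl
      _ = α := by rw [inv_mul_cancel]; rfl

lemma mem_lvN (T : IntermediateField ℚ_[p] (PadicAlgCl p)) (τ : GQq p) :
    τ ∈ lvN p T ↔ τ ∈ T.fixingSubgroup ∧
      ∀ α : PadicAlgCl p, α ^ p ∈ T → ‖α ^ p - 1‖ ≤ ‖(p : PadicAlgCl p)‖ → τ α = α := Iff.rfl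

lemma lvN_le (T : IntermediateField ℚ_[p] (PadicAlgCl p)) : lvN p T ≤ T.fixingSubgroup :=
  fun _ h => h.1

/-- `χ` is a homomorphism on `G_T`. -/
def IsHomOn (T : IntermediateField ℚ_[p] (PadicAlgCl p)) (χ : GQq p → ZMod p) : Prop :=
  ∀ σ τ : GQq p, σ ∈ T.fixingSubgroup → τ ∈ T.fixingSubgroup → χ (σ * τ) = χ σ + χ τ

end Fields

/-! ### Chain A: Fontaine's bound in Kummer form -/

/-- **W-LEV** (Fontaine's ramification bound, Kummer form).  `(M, act, H)` flat, `p M = 0`,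
`T` a good field.  Every `χ : G_p → 𝔽_p` which is a homomorphism on `G_T` and vanishes on the
elements of `G_T` acting trivially on `M` vanishes on `𝒩_T`.
(LEVEL′ of helper57: `u ∈ Tˣ ∩ (T·ℚ_p(M))^{×p} ⇒ u ∈ (1 + p𝒪_T) T^{×p}`, and Mathlib's Kummer
theory: the fixed field of `ker χ ∩ G_T` is `T(u^{1/p})`.) -/
def StmtLev : Prop :=
  ∀ (p : ℕ) [Fact p.Prime], p ≠ 2 → ∀ (M : Type) [AddCommGroup M] [Finite M]
    (act : GQ → M → M)
    (H : Subalgebra (GaloisRep.ratLocalizedAt p) (M → AlgebraicClosure ℚ)),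
    IsHopfLattice (GaloisRep.ratLocalizedAt p) act H → (∀ m : M, p • m = 0) →
    ∀ T : IntermediateField ℚ_[p] (PadicAlgCl p), IsGoodField p T →
    ∀ χ : GQq p → ZMod p, IsHomOn p T χ →
      (∀ σ ∈ T.fixingSubgroup, (∀ m : M, act (localGaloisToGlobal p σ) m = m) → χ σ = 0) →
      ∀ τ ∈ lvN p T, χ τ = 0

/-! ### Chain B: the étale quotient is the maximal unramified quotient (needed for `p = 3`) -/

/-- `I_aug · M`: the subgroup generated by the `σ m - m`, `σ` in the inertia group at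
`padicPlace p`. -/
def iAug (p : ℕ) [Fact p.Prime] {M : Type} [AddCommGroup M] (act : GQ → M → M) :
    AddSubgroup M :=
  AddSubgroup.closure {x | ∃ σ ∈ (padicPlace p).inertiaSubgroupIn ℚ, ∃ m : M, x = act σ m - m}

/-- **W-et1** (RED + (∗)): for `(M, act, H)` flat, `p M = 0`: `(I_aug M)^I = 0`.
(`M⁰ ∩ M^I = 0` is `tww_red_inter_fixed`; (∗): `M⁰ = I_aug M`, i.e. `M⁰ ⊆ Y` for every `I`-stable
subgroup `Y` with trivial `I`-action on `M/Y`: RED for the QUOTIENT lattice of `M/Y` over the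
inertia field.) -/
def StmtEt1 : Prop :=
  ∀ (p : ℕ) [Fact p.Prime], p ≠ 2 → ∀ (M : Type) [AddCommGroup M] [Finite M]
    (act : GQ → M → M)
    (H : Subalgebra (GaloisRep.ratLocalizedAt p) (M → AlgebraicClosure ℚ)),
    IsHopfLattice (GaloisRep.ratLocalizedAt p) act H → (∀ m : M, p • m = 0) →
    ∀ m ∈ iAug p act, (∀ σ ∈ (padicPlace p).inertiaSubgroupIn ℚ, act σ m = m) → m = 0

/-- **W-et2** ((∗) for `M` and for a subgroup): for `(M, act, H)` flat, `p M = 0`, and `X ⊆ M` a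
`G_ℚ`-stable subgroup: `X ∩ I_aug M = I_aug X`  (the functor `M ↦ M_I` is left exact on flat
modules: `X⁰ = X ∩ M⁰` by definition of `M⁰`, and (∗) for `M` and for `X`). -/
def StmtEt2 : Prop :=
  ∀ (p : ℕ) [Fact p.Prime], p ≠ 2 → ∀ (M : Type) [AddCommGroup M] [Finite M]
    (act : GQ → M → M)
    (H : Subalgebra (GaloisRep.ratLocalizedAt p) (M → AlgebraicClosure ℚ)),
    IsHopfLattice (GaloisRep.ratLocalizedAt p) act H → (∀ m : M, p • m = 0) →
    ∀ X : AddSubgroup M, (∀ σ : GQ, ∀ x ∈ X, act σ x ∈ X) →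
    ∀ x ∈ X, x ∈ iAug p act →
      x ∈ AddSubgroup.closure
        {y | ∃ σ ∈ (padicPlace p).inertiaSubgroupIn ℚ, ∃ m ∈ X, y = act σ m - m}

/-! ### The Galois-theoretic necessary conditions on a local cocycle -/

section Conditions

variable (p : ℕ) [Fact p.Prime] {k : Type} [Field k] (ρbar : ResidualGaloisRep k)

/-- `ρ̄` on `G_{ℚ_p}`. -/
def rhoLoc (τ : GQq p) : Module.End k ρbar.V := ρbar.ρ (localGaloisToGlobal p τ)

/-- **(LEV)** for the `G_p`-module `V_c = V̄ ⊕ ε V̄`, `σ ↦ (1 + ε c(σ)) ρ̄(σ)`: every `χ` which is a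
homomorphism on `G_T` (`T` good) and vanishes on the elements of `G_T` acting trivially on `V_c`
(i.e. `ρ̄(σ) = 1`, `c(σ) = 0`) vanishes on `𝒩_T`. -/
def PLev (c : GQq p → Module.End k ρbar.V) : Prop :=
  ∀ T : IntermediateField ℚ_[p] (PadicAlgCl p), IsGoodField p T →
    ∀ χ : GQq p → ZMod p, IsHomOn p T χ →
      (∀ σ ∈ T.fixingSubgroup, rhoLoc p ρbar σ = 1 → c σ = 0 → χ σ = 0) →
      ∀ τ ∈ lvN p T, χ τ = 0

/-- `I_aug · V̄` (local form). -/
def iAugBar : AddSubgroup ρbar.V :=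
  AddSubgroup.closure {v | ∃ σ ∈ inertiaQ p, ∃ w : ρbar.V, v = rhoLoc p ρbar σ w - w}

/-- **(E1)**: `(I_aug V̄)^I = 0`. -/
def PEt1 : Prop :=
  ∀ v ∈ iAugBar p ρbar, (∀ σ ∈ inertiaQ p, rhoLoc p ρbar σ v = v) → v = 0

/-- The action of `G_p` on `V_c = V̄ × V̄` (`(v, w) = v + ε w`): `σ ↦ (1 + ε c(σ)) ρ̄(σ)`. -/
def vcAct (c : GQq p → Module.End k ρbar.V) (σ : GQq p) (x : ρbar.V × ρbar.V) :
    ρbar.V × ρbar.V :=
  (rhoLoc p ρbar σ x.1, rhoLoc p ρbar σ x.2 + c σ (rhoLoc p ρbar σ x.1))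

/-- `I_aug · V_c`. -/
def iAugVc (c : GQq p → Module.End k ρbar.V) : AddSubgroup (ρbar.V × ρbar.V) :=
  AddSubgroup.closure {x | ∃ σ ∈ inertiaQ p, ∃ y : ρbar.V × ρbar.V, x = vcAct p ρbar c σ y - y}

/-- **(E2)**: `ε V̄ ∩ I_aug V_c = ε · I_aug V̄`, i.e. `(ε V̄)_I → (V_c)_I` is injective. -/
def PEt2 (c : GQq p → Module.End k ρbar.V) : Prop :=
  ∀ w : ρbar.V, ((0, w) : ρbar.V × ρbar.V) ∈ iAugVc p ρbar c → w ∈ iAugBar p ρbar

end Conditions

/-! ### The flat classes and `L_p^{flat}` -/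

section Flat

variable (p : ℕ) [Fact p.Prime] {𝒪 : Type} [CommRing 𝒪] [IsLocalRing 𝒪]
  [CharP (ResidueField 𝒪) p] {ρbar : ResidualGaloisRep (ResidueField 𝒪)}
  (D : RigidDatum 𝒪 ρbar)

/-- `c` is the (global) cocycle of a FLAT deformation of `ρ̄` to `k[ε]` with cyclotomic
determinant. -/
def IsFlatCoc (c : cocycles₁ (ad0Rep p ρbar)) : Prop :=
  ∃ ρ : GaloisRepAdic (DualNumber (ResidueField 𝒪)),
    IsCocOf p D ρ (fun σ => (ad0Incl p ρbar).hom ((c : GQ → (ad0Rep p ρbar).V) σ)) ∧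
      ρ.DetIsCyclotomic p ∧ ρ.IsFlatAt p

/-- restriction `H¹(G_ℚ, ad⁰) → H¹(G_p, ad⁰)` -/
def resP : H1 (ad0Rep p ρbar) →ₗ[ZMod p] H1 (locRep p (ad0Rep p ρbar)) :=
  (groupCohomology.map (localGaloisToGlobal p) (𝟙 (locRep p (ad0Rep p ρbar))) 1).hom

/-- The classes in `H¹(G_p, ad⁰)` of the flat deformations. -/
def flatClasses : Set (H1 (locRep p (ad0Rep p ρbar))) :=
  {x | ∃ c : cocycles₁ (ad0Rep p ρbar), IsFlatCoc p D c ∧
    resP p ((H1π (ad0Rep p ρbar)).hom c) = x}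

/-- **`L_p^{flat}`**: the `𝔽_p`-span of the flat classes. -/
def flatH1 : Submodule (ZMod p) (H1 (locRep p (ad0Rep p ρbar))) :=
  Submodule.span (ZMod p) (flatClasses p D)

/-- **S-flat** (the hypothesis `hflat` of `TW.S.StmtSelCardFlat` for `Lp = flatH1 p D`). -/
theorem flatClass_mem_flatH1
    (ρ : GaloisRepAdic (DualNumber (ResidueField 𝒪))) (c : cocycles₁ (ad0Rep p ρbar))
    (hc : IsCocOf p D ρ (fun σ => (ad0Incl p ρbar).hom ((c : GQ → (ad0Rep p ρbar).V) σ)))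
    (hdet : ρ.DetIsCyclotomic p) (hflat : ρ.IsFlatAt p) :
    (groupCohomology.map (localGaloisToGlobal p) (𝟙 (locRep p (ad0Rep p ρbar))) 1).hom
        ((H1π (ad0Rep p ρbar)).hom c) ∈ flatH1 p D :=
  Submodule.subset_span ⟨c, ⟨ρ, hc, hdet, hflat⟩, rfl⟩

end Flat

/-! ### The pieces of the final assembly -/

/-- **W-add**: the flat cocycles are closed under addition.
(Baer sum: `V_{c+c'}` is the sub-quotient `{(x, x') ∈ V_c × V_{c'} | x ≡ x' mod ε} / {(εv, -εv)}`
of `V_c × V_{c'}`, `G_ℚ`-stable; `W1.hasFiniteFlatModel_prod`, `_of_subquotient`; the three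
ideals of `k[ε]`; `det (1 + ε(c + c')) ρ̄ = det ρ̄` as `tr c = tr c' = 0`.) -/
def StmtAdd : Prop :=
  ∀ (p : ℕ) [Fact p.Prime], p ≠ 2 → ∀ (𝒪 : Type) [CommRing 𝒪] [IsLocalRing 𝒪]
    [CharP (ResidueField 𝒪) p] [Finite (ResidueField 𝒪)]
    (ρbar : ResidualGaloisRep (ResidueField 𝒪)) (D : RigidDatum 𝒪 ρbar)
    (c c' : cocycles₁ (ad0Rep p ρbar)),
    IsFlatCoc p D c → IsFlatCoc p D c' → IsFlatCoc p D (c + c')

/-- **W-bridge**: the local cocycle of a flat deformation satisfies `PLev`, `PEt1`, `PEt2`, and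
is a level cocycle.
(`StmtLev`, `StmtEt1`, `StmtEt2` for `M = ρ.V / (⊥ • ⊤) ≅ V_c` (`sq_isFlatAt_iff`, `I = ⊥`), for
its quotient `V̄` and its subgroup `ε V̄`; `IsCocOf` gives the isomorphism `ρ.V ≅ V_c`;
`D_P = r(G_p)`: `TW.L.stmtDecFull`; level: `ρ` is continuous, `k[ε]` is finite.) -/
def StmtBridge : Prop :=
  ∀ (p : ℕ) [Fact p.Prime], p ≠ 2 → ∀ (𝒪 : Type) [CommRing 𝒪] [IsLocalRing 𝒪]
    [CharP (ResidueField 𝒪) p] [Finite (ResidueField 𝒪)]
    (ρbar : ResidualGaloisRep (ResidueField 𝒪)) (D : RigidDatum 𝒪 ρbar)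
    (c : cocycles₁ (ad0Rep p ρbar)), IsFlatCoc p D c →
    IsLevel₁ (towerLoc p) (locFun p (c : GQ → (ad0Rep p ρbar).V)) ∧
    PLev p ρbar (fun τ => ad0Val p ρbar ((c : GQ → (ad0Rep p ρbar).V) (localGaloisToGlobal p τ))) ∧
    PEt1 p ρbar ∧
    PEt2 p ρbar (fun τ => ad0Val p ρbar ((c : GQ → (ad0Rep p ρbar).V) (localGaloisToGlobal p τ)))

/-- **W-count** (PURE local Galois theory — no group schemes).  `ρ̄ : G_ℚ → GL₂(k)` with
cyclotomic determinant and split characteristic polynomials; `F ⊆ H¹(G_p, ad⁰)` closed under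
addition, every element represented by a level cocycle `z` with `PLev`, `PEt1`, `PEt2`.
Then `dim_{𝔽_p} span F ≤ f + h⁰(G_p, ad⁰)`.   (NOTES/TW-W.md §6: (STR), (GB), (GB-char), (GB-I),
(DEV).) -/
def StmtCount : Prop :=
  ∀ (p : ℕ) [Fact p.Prime], p ≠ 2 → ∀ (k : Type) [Field k] [CharP k p] [Algebra (ZMod p) k]
    [Finite k] (ρbar : ResidualGaloisRep k),
    (GaloisRepAdic.ofResidualGaloisRep ρbar).DetIsCyclotomic p →
    (∀ σ : GQ, ∃ α β : k, LinearMap.charpoly (ρbar.ρ σ) = (X - C α) * (X - C β)) →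
    ∀ F : Set (H1 (locRep p (ad0Rep p ρbar))),
      (∀ x ∈ F, ∀ y ∈ F, x + y ∈ F) →
      (∀ x ∈ F, ∃ z : cocycles₁ (locRep p (ad0Rep p ρbar)),
        (H1π (locRep p (ad0Rep p ρbar))).hom z = x ∧
        IsLevel₁ (towerLoc p) (z : GQq p → (ad0Rep p ρbar).V) ∧
        PLev p ρbar (fun τ => ad0Val p ρbar ((z : GQq p → (ad0Rep p ρbar).V) τ)) ∧
        PEt1 p ρbar ∧
        PEt2 p ρbar (fun τ => ad0Val p ρbar ((z : GQq p → (ad0Rep p ρbar).V) τ))) →
      Module.Finite (ZMod p) (Submodule.span (ZMod p) F) ∧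
        Module.finrank (ZMod p) (Submodule.span (ZMod p) F) ≤
          Module.finrank (ZMod p) k +
            Module.finrank (ZMod p) (locRep p (ad0Rep p ρbar)).ρ.invariants

/-- **W-flat** (THE deliverable of TW-W): `L_p^{flat} = flatH1 p D` consists of level classes and
`dim_{𝔽_p} L_p^{flat} ≤ f + h⁰(G_p, ad⁰ ρ̄)`. -/
def StmtWFlat : Prop :=
  ∀ (p : ℕ) [Fact p.Prime], p ≠ 2 → ∀ (𝒪 : Type) [CommRing 𝒪] [IsLocalRing 𝒪]
    [CharP (ResidueField 𝒪) p] [Algebra (ZMod p) (ResidueField 𝒪)] [Finite (ResidueField 𝒪)]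
    (ρbar : ResidualGaloisRep (ResidueField 𝒪)) (D : RigidDatum 𝒪 ρbar),
    (GaloisRepAdic.ofResidualGaloisRep ρbar).DetIsCyclotomic p →
    (∀ σ : GQ, ∃ α β : ResidueField 𝒪,
      LinearMap.charpoly (ρbar.ρ σ) = (X - C α) * (X - C β)) →
    flatH1 p D ≤ levH1 (towerLoc p) (locRep p (ad0Rep p ρbar)) ∧
    Module.Finite (ZMod p) (flatH1 p D) ∧
      Module.finrank (ZMod p) (flatH1 p D) ≤
        Module.finrank (ZMod p) (ResidueField 𝒪) +
          Module.finrank (ZMod p) (locRep p (ad0Rep p ρbar)).ρ.invariants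

end Fermat.Agent.TW.W

end


end ZBTW_001_2

/-! ### bundled: `Fermat.Agent.TW.W.Plan2` -/
section ZBTW_001_3
/-
TW-W (S56, flat local bound) — INTERFACE FILE 2 (helper74): the GALOIS SIDE = the count
`StmtCount` of `TW/W/Plan.lean`, split into pieces.  Route: NOTES/TW-W.md §6.

`T` good (`IsGoodField`), `Γ = Gal(T/ℚ_p)` (order prime to `p`), `C ⊆ Γ` the inertia subgroup,
`e = |C|`, `e' = e/(p-1)`, `θ : C → 𝔽_Tˣ` the tame character (`θ(σ) = σπ/π`), `ω|_C = θ^{e'}`.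
For a finite `𝔽_p[G_p]`-module `W`:

* `levFlatH1 p W ⊆ H¹(G_p, W)` : classes of level cocycles which vanish on `𝒩_T` for every good
  `T` with `G_T` acting trivially on `W`;
* (GB)  `dim levFlatH1 W ≤ h⁰(W) + Σ_{1 ≤ i ≤ e'} mult_{θ^i}(W ⊗_{𝔽_p} 𝔽_T |_C)`
  [`levFlatH1 ∩ unrH1` has dimension `≤ h⁰` (`TW.L.stmtUnrLe`); modulo unramified classes a class
  is determined by `h = c|_{I_T} ∈ Hom_Γ(𝔊_I, W)`, `𝔊_I = I_T/(I_T ∩ 𝒩_T) ↪ Hom(Y, 𝔽_p)` (Kummer
  pairing, trivial half), `Y = ` image of `1 + p𝒪_T` in `Tˣ/(Tˣᵖ · unramified classes)`, a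
  `Γ`-quotient of `𝒪_T/𝔪_T^{e'}` via `x ↦ 1 + p x`; Maschke; graded pieces `𝔽_T π^t` with `C`
  acting by `θ^t`; Frobenius-semilinear fixed points: `dim_{𝔽_p} V^{Gal(𝔽_T/𝔽_p)} ≤ dim_{𝔽_T} V`].
-/

set_option autoImplicit false

noncomputable section

namespace Fermat.Agent.TW.W

open CategoryTheory groupCohomology IsLocalRing Polynomial
open Fermat.Agent.PT Fermat.Agent.PT.B Fermat.Agent.TW.L Fermat.Agent.TW.S Fermat.Agent.S53
  Fermat.Agent.W1 ExtCitation

section Defs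

variable (p : ℕ) [Fact p.Prime]

/-- The level cocycles of `G_p` with values in `W` which vanish on `𝒩_T` for every good field `T`
such that `G_T` acts trivially on `W`. -/
def levFlatCocycles (W : Rep.{0} (ZMod p) (GQq p)) : Submodule (ZMod p) (cocycles₁ W) where
  carrier := {c | IsLevel₁ (towerLoc p) (c : GQq p → W) ∧
    ∀ T : IntermediateField ℚ_[p] (PadicAlgCl p), IsGoodField p T →
      (∀ σ ∈ T.fixingSubgroup, W.ρ σ = 1) → ∀ τ ∈ lvN p T, (c : GQq p → W) τ = 0}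
  add_mem' := by
    rintro c c' ⟨h1, h2⟩ ⟨h1', h2'⟩
    refine ⟨h1.add h1', fun T hT hW τ hτ => ?_⟩
    show (c : GQq p → W) τ + (c' : GQq p → W) τ = 0
    rw [h2 T hT hW τ hτ, h2' T hT hW τ hτ, add_zero]
  zero_mem' := ⟨isLevel₁_const (towerLoc p) (0 : W), fun _ _ _ _ _ => rfl⟩
  smul_mem' := by
    rintro a c ⟨h1, h2⟩
    refine ⟨(h1.comp (a • ·) :), fun T hT hW τ hτ => ?_⟩
    show a • (c : GQq p → W) τ = 0
    rw [h2 T hT hW τ hτ, smul_zero]

lemma mem_levFlatCocycles (W : Rep.{0} (ZMod p) (GQq p)) (c : cocycles₁ W) :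
    c ∈ levFlatCocycles p W ↔ IsLevel₁ (towerLoc p) (c : GQq p → W) ∧
      ∀ T : IntermediateField ℚ_[p] (PadicAlgCl p), IsGoodField p T →
        (∀ σ ∈ T.fixingSubgroup, W.ρ σ = 1) → ∀ τ ∈ lvN p T, (c : GQq p → W) τ = 0 := Iff.rfl

/-- `H¹_f`-candidate: the classes of the cocycles in `levFlatCocycles`. -/
def levFlatH1 (W : Rep.{0} (ZMod p) (GQq p)) : Submodule (ZMod p) (H1 W) :=
  (levFlatCocycles p W).map (H1π W).hom

lemma mem_levFlatH1 (W : Rep.{0} (ZMod p) (GQq p)) (x : H1 W) :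
    x ∈ levFlatH1 p W ↔ ∃ c ∈ levFlatCocycles p W, (H1π W).hom c = x := by
  simp only [levFlatH1, Submodule.mem_map]

variable {k : Type} [Field k] [Algebra (ZMod p) k]

/-- The representation of `G_p` on `k` through a character `ψ`, over `𝔽_p`. -/
def charRho (ψ : GQq p →* kˣ) : Representation (ZMod p) (GQq p) k where
  toFun σ := ((ψ σ : k) • (LinearMap.id : k →ₗ[k] k)).restrictScalars (ZMod p)
  map_one' := by
    ext x
    simp
  map_mul' σ τ := by
    ext x
    simp [mul_assoc]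

/-- `k(ψ)` as a `Rep (ZMod p) G_p`. -/
def charRep (ψ : GQq p →* kˣ) : Rep.{0} (ZMod p) (GQq p) := Rep.of (charRho p ψ)

@[simp] lemma charRep_ρ_apply (ψ : GQq p →* kˣ) (σ : GQq p) (x : k) :
    (charRep p ψ).ρ σ x = (ψ σ : k) * x := rfl

/-- `ψ` coincides with the mod `p` cyclotomic character on inertia. -/
def IsCycOnInertia (ψ : GQq p →* kˣ) : Prop :=
  ∀ σ ∈ inertiaQ p, (ψ σ : k) =
    algebraMap (ZMod p) k ((cycloChar p (localGaloisToGlobal p σ) : (ZMod p)ˣ) : ZMod p)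

/-- `ρ̄|_{G_p}` is irreducible over `k`. -/
def IsLocIrr (ρbar : ResidualGaloisRep k) : Prop :=
  ∀ W : Submodule k ρbar.V, (∀ σ : GQq p, ∀ x ∈ W, rhoLoc p ρbar σ x ∈ W) → W = ⊥ ∨ W = ⊤

end Defs

/-! ### The pieces of the count -/

/-- **W-gbchar** ((GB) for a character of `G_p`).  `ψ : G_p → kˣ` a level character.
* the flat classes of `k(ψ)` form a finite-dimensional space;
* if `ψ ≠ ω` on inertia they are all unramified;
* if `ψ = ω` on inertia they span at most `f` dimensions.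
(`T := ` the field cut out by `ψ` and `ω`: good, abelian of degree prime to `p`; a character of
`G_p` is a power of `ω` on the inertia group of `Γ`, so one may even take `e = p - 1`, `e' = 1`:
only the level `i = 1`, `θ = ω`, occurs.) -/
def StmtGBChar : Prop :=
  ∀ (p : ℕ) [Fact p.Prime], p ≠ 2 → ∀ (k : Type) [Field k] [CharP k p] [Algebra (ZMod p) k]
    [Finite k] (ψ : GQq p →* kˣ), (∃ U ∈ (towerLoc p).lev, ∀ s ∈ U, ψ s = 1) →
    Module.Finite (ZMod p) (levFlatH1 p (charRep p ψ)) ∧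
    (¬ IsCycOnInertia p ψ → levFlatH1 p (charRep p ψ) ≤ unrH1 p (charRep p ψ)) ∧
    (IsCycOnInertia p ψ →
      Module.finrank (ZMod p) (levFlatH1 p (charRep p ψ)) ≤ Module.finrank (ZMod p) k)

/-- **W-gbirr** ((GB) in the irreducible case).  `ρ̄|_{G_p}` irreducible, `det ρ̄ = ω`, split
characteristic polynomials: the flat classes of `ad⁰ ρ̄` span at most `f` dimensions.
((STR): wild inertia acts trivially, tame inertia through `ψ ⊕ ψ^p`, `ψ^{p+1} = ω`, so
`ρ̄(G_p) ⊆ N(torus)` has order prime to `p` and `T = ℚ_p(V̄, ζ_p)` is good, `e ∣ p² - 1`;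
`ad⁰ = k X₀ ⊕ k X₊ ⊕ k X₋` with characters `1, (ψ^{p-1})^{±1}`; among the levels `1 ≤ i ≤ e'`
only one of `ψ^{p-1}`, `ψ^{1-p}` occurs, for `f/2 + f/2` embeddings `k → 𝔽̄_p`; `h⁰ = 0`.) -/
def StmtGBIrr : Prop :=
  ∀ (p : ℕ) [Fact p.Prime], p ≠ 2 → ∀ (k : Type) [Field k] [CharP k p] [Algebra (ZMod p) k]
    [Finite k] (ρbar : ResidualGaloisRep k),
    (GaloisRepAdic.ofResidualGaloisRep ρbar).DetIsCyclotomic p →
    (∀ σ : GQ, ∃ α β : k, LinearMap.charpoly (ρbar.ρ σ) = (X - C α) * (X - C β)) →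
    IsLocIrr p ρbar →
    Module.Finite (ZMod p) (levFlatH1 p (locRep p (ad0Rep p ρbar))) ∧
      Module.finrank (ZMod p) (levFlatH1 p (locRep p (ad0Rep p ρbar))) ≤
        Module.finrank (ZMod p) k

/-- **W-dev** (dévissage in the reducible case + assembly of the count): `StmtCount` from
(GB) for characters, (GB) in the irreducible case and `TW.L.StmtUnrLe`.
(`PLev c ⇒ c ∈ levFlatCocycles` for `ad⁰` and for its sub-quotients `k(χ^{±1})`, `k`;
reducible split, `p ≥ 5`: `ad⁰ = k ⊕ k(χ) ⊕ k(χ⁻¹)`, at most one of `χ, χ⁻¹` is `ω` on inertia;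
`p = 3`: `PEt1`, `PEt2` kill the lower left entry; non-split: `δ(X₀) = ∓2[ρ̄]` kills the line
`H¹_lev(k(χ))`.) -/
def StmtDev : Prop := StmtGBChar → StmtGBIrr → StmtUnrLe → StmtCount

end Fermat.Agent.TW.W

end


end ZBTW_001_3

/-! ### bundled: `Fermat.Agent.TW.W.Plan3` -/
section ZBTW_001_4
/-
TW-W (S56, flat local bound) — INTERFACE FILE 3 (helper74): structure inputs of the dévissage
(`W-dev`) and the sub-pieces of (GB).  Route: NOTES/TW-W.md §7.

* `StmtNoSqrt`  : the mod `p` cyclotomic character is not, on inertia, the square of a character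
                  of `G_p` (so the two diagonal characters of a reducible `ρ̄|_{G_p}` with
                  `det = ω` are distinct).
* `StmtTameGen` : `TW.L.StmtTameGrp` for every exponent prime to the residue characteristic.
* `StmtCycloRamFull` : `ω` maps the inertia group at `p` ONTO `𝔽_pˣ`.
* `inT`, `gbHom`, `StmtGBRed` : the cohomological reduction (GB1) of (GB).
* `StmtDev2`    : the dévissage `W-dev` with its exact inputs.
-/

set_option autoImplicit false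

noncomputable section

namespace Fermat.Agent.TW.W

open CategoryTheory groupCohomology IsLocalRing Polynomial
open Fermat.Agent.PT Fermat.Agent.PT.B Fermat.Agent.TW.L Fermat.Agent.TW.S Fermat.Agent.S53
  Fermat.Agent.W1 ExtCitation

/-! ### Structure of inertia (STR) -/

/-- **STR-tame** (`TW.L.StmtTameGrp` for a general exponent `n` prime to `q`; also for `q = p`):
modulo every level, every homomorphism from the inertia group of `G_{ℚ_q}` to a group of
exponent `n` prime to `q` factors through a cyclic quotient generated by one element `t`, on which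
Frobenius acts by `t ↦ t ^ q`.
(Proof of `TW.L.ltame_abstract`/`ltame_global`/`stmtTameGrp` verbatim, `gcd (q ^ m) n = 1`.) -/
def StmtTameGen : Prop :=
  ∀ (q : ℕ) [Fact q.Prime] (n : ℕ), Nat.Coprime q n → ∀ V ∈ (towerLoc q).lev,
    ∃ t : ↥(inertiaQ q), ∀ (A : Type) [Group A] (h : ↥(inertiaQ q) →* A),
      (∀ a : A, a ^ n = 1) → (∀ x : ↥(inertiaQ q), (x : GQq q) ∈ V → h x = 1) →
      (∀ x : ↥(inertiaQ q), ∃ m : ℕ, h x = h t ^ m) ∧
      ∀ φ : GQq q, IsFrobQ q φ → ∀ hmem : φ * (t : GQq q) * φ⁻¹ ∈ inertiaQ q,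
        h ⟨φ * (t : GQq q) * φ⁻¹, hmem⟩ = h t ^ q

/-- **STR-cyc** (`ℚ_p(ζ_p)/ℚ_p` is totally ramified): every value of the mod `p` cyclotomic
character is taken on the inertia group at `padicPlace p`.
(Proof of `TW.S.stmtCycloRam` with `ζ ↦ ζ ^ a` instead of `ζ ↦ ζ ^ 2`.) -/
def StmtCycloRamFull : Prop :=
  ∀ (p : ℕ) [Fact p.Prime] (a : (ZMod p)ˣ),
    ∃ σ ∈ (padicPlace p).inertiaSubgroupIn ℚ, cycloChar p σ = a

/-- **STR-sqrt**: no smooth character `η : G_p → kˣ` (`char k = p` odd) satisfies `η² = ω` on the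
inertia group.
(`StmtTameGen` for `n = |η(I)|·(p - 1)`, `h = (η, ω)`: `h(φ t φ⁻¹) = h(t)^p` and `h` extends to the
abelianisation of `G_p`, so `η(t)^{p-1} = 1`, hence `ω(x)^{(p-1)/2} = η(x)^{p-1} = 1` for all
`x ∈ I`; `StmtCycloRamFull` gives `x` with `ω(x)` a generator of `𝔽_pˣ`.) -/
def StmtNoSqrt : Prop :=
  ∀ (p : ℕ) [Fact p.Prime], p ≠ 2 → ∀ (k : Type) [Field k] [CharP k p] [Algebra (ZMod p) k]
    (η : GQq p →* kˣ), (∃ U ∈ (towerLoc p).lev, ∀ s ∈ U, η s = 1) →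
    ¬ ∀ σ ∈ inertiaQ p, ((η σ : kˣ) : k) ^ 2 =
        algebraMap (ZMod p) k ((cycloChar p (localGaloisToGlobal p σ) : (ZMod p)ˣ) : ZMod p)

/-! ### (GB1): the cohomological reduction -/

section GB

variable (p : ℕ) [Fact p.Prime]

/-- `I_T = I ∩ G_T`. -/
def inT (T : IntermediateField ℚ_[p] (PadicAlgCl p)) : Subgroup (GQq p) :=
  inertiaQ p ⊓ T.fixingSubgroup

/-- `Hom_{G_p}(I_T / (I_T ∩ 𝒩_T), W)`, as functions on `G_p` supported on `I_T`. -/
def gbHom (T : IntermediateField ℚ_[p] (PadicAlgCl p)) (W : Rep.{0} (ZMod p) (GQq p)) :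
    Submodule (ZMod p) (GQq p → W) where
  carrier := {h | (∀ σ, σ ∉ inT p T → h σ = 0) ∧
    (∀ σ τ, σ ∈ inT p T → τ ∈ inT p T → h (σ * τ) = h σ + h τ) ∧
    (∀ τ ∈ lvN p T, h τ = 0) ∧
    ∀ (γ τ : GQq p), τ ∈ inT p T → h (γ * τ * γ⁻¹) = W.ρ γ (h τ)}
  add_mem' := by
    rintro h h' ⟨h1, h2, h3, h4⟩ ⟨h1', h2', h3', h4'⟩
    refine ⟨fun σ hσ => ?_, fun σ τ hσ hτ => ?_, fun τ hτ => ?_, fun γ τ hτ => ?_⟩
    · show h σ + h' σ = 0
      rw [h1 σ hσ, h1' σ hσ, add_zero]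
    · show h (σ * τ) + h' (σ * τ) = h σ + h' σ + (h τ + h' τ)
      rw [h2 σ τ hσ hτ, h2' σ τ hσ hτ]
      abel
    · show h τ + h' τ = 0
      rw [h3 τ hτ, h3' τ hτ, add_zero]
    · show h (γ * τ * γ⁻¹) + h' (γ * τ * γ⁻¹) = W.ρ γ (h τ + h' τ)
      rw [h4 γ τ hτ, h4' γ τ hτ, map_add]
  zero_mem' := by
    refine ⟨fun _ _ => rfl, fun _ _ _ _ => ?_, fun _ _ => rfl, fun γ _ _ => ?_⟩
    · show (0 : W) = 0 + 0
      rw [add_zero]
    · show (0 : W) = W.ρ γ 0
      rw [map_zero]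
  smul_mem' := by
    rintro a h ⟨h1, h2, h3, h4⟩
    refine ⟨fun σ hσ => ?_, fun σ τ hσ hτ => ?_, fun τ hτ => ?_, fun γ τ hτ => ?_⟩
    · show a • h σ = 0
      rw [h1 σ hσ, smul_zero]
    · show a • h (σ * τ) = a • h σ + a • h τ
      rw [h2 σ τ hσ hτ, smul_add]
    · show a • h τ = 0
      rw [h3 τ hτ, smul_zero]
    · show a • h (γ * τ * γ⁻¹) = W.ρ γ (a • h τ)
      rw [h4 γ τ hτ, map_smul]

lemma mem_gbHom (T : IntermediateField ℚ_[p] (PadicAlgCl p)) (W : Rep.{0} (ZMod p) (GQq p))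
    (h : GQq p → W) :
    h ∈ gbHom p T W ↔ (∀ σ, σ ∉ inT p T → h σ = 0) ∧
      (∀ σ τ, σ ∈ inT p T → τ ∈ inT p T → h (σ * τ) = h σ + h τ) ∧
      (∀ τ ∈ lvN p T, h τ = 0) ∧
      ∀ (γ τ : GQq p), τ ∈ inT p T → h (γ * τ * γ⁻¹) = W.ρ γ (h τ) := Iff.rfl

end GB

/-- **GB0**: for a good field `T`, `G_T` is a normal subgroup of `G_p` of finite index prime to
`p`. -/
def StmtGoodIndex : Prop :=
  ∀ (p : ℕ) [Fact p.Prime] (T : IntermediateField ℚ_[p] (PadicAlgCl p)), IsGoodField p T →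
    (T.fixingSubgroup : Subgroup (GQq p)).Normal ∧
      (T.fixingSubgroup : Subgroup (GQq p)).index ≠ 0 ∧
      ¬ p ∣ (T.fixingSubgroup : Subgroup (GQq p)).index

/-- **GB1** (pure cohomology): for `W` finite and smooth, `T` good with `G_T` acting trivially on
`W`: `dim levFlatH1 W ≤ h⁰(W) + dim gbHom T W`, and `gbHom T W = 0` forces all flat classes to be
unramified.
(`c ↦ c · 1_{I_T}` maps `levFlatCocycles` to `gbHom`, kills coboundaries; if `c|_{I_T} = 0` then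
`c|_I` is inflated from `I/I_T`, of order prime to `p`, hence a coboundary `∂m` on `I`, and
`c - ∂m` is an unramified cocycle; `TW.L.stmtUnrLe`.) -/
def StmtGBRed : Prop :=
  StmtUnrLe → StmtGoodIndex →
  ∀ (p : ℕ) [Fact p.Prime] (W : Rep.{0} (ZMod p) (GQq p)) [FiniteDimensional (ZMod p) W],
    IsSmoothQ p W → ∀ T : IntermediateField ℚ_[p] (PadicAlgCl p), IsGoodField p T →
    (∀ σ ∈ T.fixingSubgroup, W.ρ σ = 1) → Module.Finite (ZMod p) (gbHom p T W) →
    (Module.Finite (ZMod p) (levFlatH1 p W) ∧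
      Module.finrank (ZMod p) (levFlatH1 p W) ≤
        Module.finrank (ZMod p) W.ρ.invariants + Module.finrank (ZMod p) (gbHom p T W)) ∧
    (gbHom p T W = ⊥ → levFlatH1 p W ≤ unrH1 p W)

/-! ### The dévissage with its exact inputs -/

/-- **W-dev** (final form): `StmtCount` from (GB) for characters, (GB) in the irreducible case,
`TW.L.StmtUnrLe` and `StmtNoSqrt` (`TW.L.stmtTame` for `(q, p) = (p, 2)` and `TW.S.stmtCycloRam`
are used directly). -/
def StmtDev2 : Prop := StmtGBChar → StmtGBIrr → StmtUnrLe → StmtNoSqrt → StmtCount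

end Fermat.Agent.TW.W

end


end ZBTW_001_4

/-! ### bundled: `Fermat.Agent.TW.W.GrKum` -/
section ZBTW_001_5
/-
TW-W, piece W-gr (helper65), part 3 (= K1): the KUMMER SYMBOL on `ℚ̄_p` and the duality
`G_T / 𝒩_T ≅ Hom((1 + p𝒪_T) T^{×p} / T^{×p}, μ_p)`.

`ζ` a primitive `p`-th root of unity; for `τ ∈ G_{ℚ_p}` and `α ∈ ℚ̄_pˣ` with `τ(α^p) = α^p`:
`wgrKum p ζ τ α = j ∈ ZMod p` iff `τ α = ζ^j α`.

* `wgrKum_spec`, `wgrKum_eq` : characterisation;
* `wgrKum_mul_left`, `wgrKum_mul_right`, `wgrKum_of_fixed` : bilinearity;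
* `wgrKum_conj` (Gr-conj) : `κ(γ τ γ⁻¹, γ α) = ω(γ) κ(τ, α)`;
(The duality statement built on this symbol is in `TW/W/Kummer*.lean`, helper67.)
-/

set_option autoImplicit false
set_option linter.unusedSectionVars false
set_option linter.style.haveILetI false

namespace Fermat.Agent.TW.W

open Fermat.Agent.PT.L Fermat.Agent.PT.B

section Symbol

variable (p : ℕ) [Fact p.Prime]

/-- the Kummer symbol `κ_ζ(τ, α) ∈ ZMod p`: `τ α = ζ ^ κ · α` (and `0` if there is no such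
exponent). -/
noncomputable def wgrKum (ζ : PadicAlgCl p) (τ : GQq p) (α : PadicAlgCl p) : ZMod p :=
  open Classical in if h : ∃ j : ZMod p, τ α = ζ ^ j.val * α then h.choose else 0

variable {p} {ζ : PadicAlgCl p} (hζ1 : ζ ≠ 1) (hζp : ζ ^ p = 1)

include hζ1 hζp

theorem wgr_orderOf : orderOf ζ = p := orderOf_eq_prime hζp hζ1

theorem wgr_zeta_ne_zero : ζ ≠ 0 := by
  intro h
  rw [h, zero_pow (Fact.out : p.Prime).ne_zero] at hζp
  exact zero_ne_one hζp

theorem wgr_zeta_pow_eq_iff (i j : ℕ) : ζ ^ i = ζ ^ j ↔ i ≡ j [MOD p] := by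
  have h0 := wgr_zeta_ne_zero hζ1 hζp
  have h1 : orderOf (Units.mk0 ζ h0) = p := by
    apply orderOf_eq_prime
    · ext; simpa using hζp
    · intro h
      apply hζ1
      have := congrArg Units.val h
      simpa using this
  have h2 : (Units.mk0 ζ h0) ^ i = (Units.mk0 ζ h0) ^ j ↔ i ≡ j [MOD p] := by
    rw [pow_eq_pow_iff_modEq, h1]
  rw [← h2]
  constructor
  · intro h
    ext
    simpa using h
  · intro h
    have := congrArg Units.val h
    simpa using this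

theorem wgr_zeta_pow_val_inj (i j : ZMod p) (h : ζ ^ i.val = ζ ^ j.val) : i = j := by
  have h1 := (wgr_zeta_pow_eq_iff hζ1 hζp _ _).1 h
  have h2 := (ZMod.natCast_eq_natCast_iff _ _ _).2 h1
  rwa [ZMod.natCast_zmod_val, ZMod.natCast_zmod_val] at h2

theorem wgr_zeta_pow_natCast (n : ℕ) : ζ ^ ((n : ZMod p)).val = ζ ^ n := by
  rw [wgr_zeta_pow_eq_iff hζ1 hζp, ZMod.val_natCast]
  exact Nat.mod_modEq n p

theorem wgr_zeta_pow_add (i j : ZMod p) : ζ ^ (i + j).val = ζ ^ i.val * ζ ^ j.val := by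
  rw [← pow_add, wgr_zeta_pow_eq_iff hζ1 hζp, ZMod.val_add]
  exact Nat.mod_modEq _ p

theorem wgr_zeta_pow_mul (i j : ZMod p) : ζ ^ (i * j).val = (ζ ^ i.val) ^ j.val := by
  rw [← pow_mul, wgr_zeta_pow_eq_iff hζ1 hζp, ZMod.val_mul]
  exact Nat.mod_modEq _ p

/-- every `p`-th root of unity is a power of `ζ` -/
theorem wgr_exists_pow {ξ : PadicAlgCl p} (hξ : ξ ^ p = 1) : ∃ j : ZMod p, ξ = ζ ^ j.val := by
  have hprim : IsPrimitiveRoot ζ p := by
    have := IsPrimitiveRoot.orderOf ζ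
    rwa [wgr_orderOf hζ1 hζp] at this
  obtain ⟨i, -, hi⟩ := hprim.eq_pow_of_pow_eq_one hξ
  exact ⟨(i : ZMod p), by rw [wgr_zeta_pow_natCast hζ1 hζp, hi]⟩

/-- existence of the exponent -/
theorem wgr_kum_exists {τ : GQq p} {α : PadicAlgCl p} (hα : α ≠ 0) (hτ : τ (α ^ p) = α ^ p) :
    ∃ j : ZMod p, τ α = ζ ^ j.val * α := by
  have h1 : (τ α / α) ^ p = 1 := by
    rw [div_pow, ← map_pow, hτ, div_self (pow_ne_zero _ hα)]
  obtain ⟨j, hj⟩ := wgr_exists_pow hζ1 hζp h1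
  exact ⟨j, by rw [← hj]; field_simp⟩

theorem wgrKum_spec {τ : GQq p} {α : PadicAlgCl p} (hα : α ≠ 0) (hτ : τ (α ^ p) = α ^ p) :
    τ α = ζ ^ (wgrKum p ζ τ α).val * α := by
  have h := wgr_kum_exists hζ1 hζp hα hτ
  unfold wgrKum
  rw [dif_pos h]
  exact h.choose_spec

theorem wgrKum_eq {τ : GQq p} {α : PadicAlgCl p} (hα : α ≠ 0) {j : ZMod p}
    (h : τ α = ζ ^ j.val * α) : wgrKum p ζ τ α = j := by
  have hτ : τ (α ^ p) = α ^ p := by
    rw [map_pow, h, mul_pow, ← pow_mul, mul_comm j.val p, pow_mul, hζp, one_pow, one_mul]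
  have h2 := wgrKum_spec hζ1 hζp hα hτ
  rw [h] at h2
  have h3 : ζ ^ j.val = ζ ^ (wgrKum p ζ τ α).val := mul_right_cancel₀ hα h2
  exact (wgr_zeta_pow_val_inj hζ1 hζp _ _ h3).symm

/-- the symbol vanishes iff `τ` fixes `α` -/
theorem wgrKum_eq_zero_iff {τ : GQq p} {α : PadicAlgCl p} (hα : α ≠ 0)
    (hτ : τ (α ^ p) = α ^ p) : wgrKum p ζ τ α = 0 ↔ τ α = α := by
  constructor
  · intro h
    have := wgrKum_spec hζ1 hζp hα hτ
    rw [h, ZMod.val_zero, pow_zero, one_mul] at this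
    exact this
  · intro h
    apply wgrKum_eq hζ1 hζp hα
    rw [ZMod.val_zero, pow_zero, one_mul, h]

/-- additivity in `τ` -/
theorem wgrKum_mul_left {σ τ : GQq p} {α : PadicAlgCl p} (hα : α ≠ 0)
    (hσ : σ (α ^ p) = α ^ p) (hτ : τ (α ^ p) = α ^ p) (hσζ : σ ζ = ζ) :
    wgrKum p ζ (σ * τ) α = wgrKum p ζ σ α + wgrKum p ζ τ α := by
  apply wgrKum_eq hζ1 hζp hα
  rw [AlgEquiv.mul_apply, wgrKum_spec hζ1 hζp hα hτ, map_mul, map_pow, hσζ,
    wgrKum_spec hζ1 hζp hα hσ, wgr_zeta_pow_add hζ1 hζp]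
  ring

/-- additivity in `α` -/
theorem wgrKum_mul_right {τ : GQq p} {α β : PadicAlgCl p} (hα : α ≠ 0) (hβ : β ≠ 0)
    (hτα : τ (α ^ p) = α ^ p) (hτβ : τ (β ^ p) = β ^ p) :
    wgrKum p ζ τ (α * β) = wgrKum p ζ τ α + wgrKum p ζ τ β := by
  apply wgrKum_eq hζ1 hζp (mul_ne_zero hα hβ)
  rw [map_mul, wgrKum_spec hζ1 hζp hα hτα, wgrKum_spec hζ1 hζp hβ hτβ,
    wgr_zeta_pow_add hζ1 hζp]
  ring

theorem wgrKum_pow_right {τ : GQq p} {α : PadicAlgCl p} (hα : α ≠ 0)
    (hτα : τ (α ^ p) = α ^ p) (n : ℕ) :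
    wgrKum p ζ τ (α ^ n) = (n : ZMod p) * wgrKum p ζ τ α := by
  induction n with
  | zero =>
    rw [pow_zero, Nat.cast_zero, zero_mul]
    apply wgrKum_eq hζ1 hζp one_ne_zero
    rw [ZMod.val_zero, pow_zero, one_mul, map_one]
  | succ n ih =>
    have h1 : τ ((α ^ n) ^ p) = (α ^ n) ^ p := by
      rw [← pow_mul, mul_comm, pow_mul, map_pow, hτα]
    rw [pow_succ, wgrKum_mul_right hζ1 hζp (pow_ne_zero _ hα) hα h1 hτα, ih]
    push_cast
    ring

/-- the symbol of a fixed element vanishes -/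
theorem wgrKum_of_fixed {τ : GQq p} {t : PadicAlgCl p} (ht0 : t ≠ 0) (ht : τ t = t) :
    wgrKum p ζ τ t = 0 := by
  apply wgrKum_eq hζ1 hζp ht0
  rw [ZMod.val_zero, pow_zero, one_mul, ht]

/-- **(Gr-conj)**: `κ(γ τ γ⁻¹, γ α) = w · κ(τ, α)` if `γ ζ = ζ ^ w`. -/
theorem wgrKum_conj {γ τ : GQq p} {α : PadicAlgCl p} (hα : α ≠ 0) (hτ : τ (α ^ p) = α ^ p)
    {w : ZMod p} (hγ : γ ζ = ζ ^ w.val) :
    wgrKum p ζ (γ * τ * γ⁻¹) (γ α) = w * wgrKum p ζ τ α := by
  have hγα : γ α ≠ 0 := by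
    rwa [Ne, map_eq_zero_iff _ γ.injective]
  apply wgrKum_eq hζ1 hζp hγα
  have h1 : (γ * τ * γ⁻¹) (γ α) = γ (τ α) := by
    rw [AlgEquiv.mul_apply, AlgEquiv.mul_apply]
    congr 2
    show γ⁻¹ (γ α) = α
    have : (γ⁻¹ * γ) α = α := by rw [inv_mul_cancel]; rfl
    exact this
  rw [h1, wgrKum_spec hζ1 hζp hα hτ, map_mul, map_pow, hγ, wgr_zeta_pow_mul hζ1 hζp]

end Symbol

end Fermat.Agent.TW.W


end ZBTW_001_5

/-! ### bundled: `Fermat.Agent.TW.W.GBPlan` -/
section ZBTW_001_6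
/-
TW-W, block (GB) = `StmtGBChar`, `StmtGBIrr` of `TW/W/Plan2.lean` — INTERFACE FILE of the block
captain (helper67).  Route: NOTES/TW-W.md §7; abstract interface: `TW/W/GBAbs.lean`.

  `StmtGBChar` ⇐ `StmtGBRed` (GB1 ✓) + `StmtGBGen` + `StmtGBCharT` (CHAR-T) + `StmtGBCharCount`
  `StmtGBIrr`  ⇐ `StmtGBRed` (GB1 ✓) + `StmtGBGen` + `StmtGBIrrStr` (IRR-STR) + `StmtGBIrrCount`
  `StmtGBGen`  ⇐ `StmtGBKum` (K1) + `StmtGBTame` (K4) + `StmtGBAlg` (GB-ALG, abstract)

Every `Stmt…` is a `Prop`; the piece `X` is DONE when `theorem stmtX : StmtX` (or `stmtX_of`) is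
landed, sorry-free, in its own file `Fermat/Agent/TW/W/GB<X>.lean`, namespace
`Fermat.Agent.TW.W`.
-/

set_option autoImplicit false

noncomputable section

open scoped TensorProduct

namespace Fermat.Agent.TW.W

open CategoryTheory groupCohomology IsLocalRing Polynomial
open Fermat.Agent.PT Fermat.Agent.PT.B Fermat.Agent.TW.L Fermat.Agent.TW.S Fermat.Agent.S53
  Fermat.Agent.W1 ExtCitation

section Defs

variable (p : ℕ) [Fact p.Prime]

/-- The mod `p` cyclotomic character of `G_p`. -/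
def gbOmega : GQq p →* (ZMod p)ˣ := (cycloChar p).comp (localGaloisToGlobal p)

lemma gbOmega_apply (σ : GQq p) : gbOmega p σ = cycloChar p (localGaloisToGlobal p σ) := rfl

/-- `{x ∈ T | ‖x‖ ≤ ‖y‖}` (so `gbBall p T 1 = 𝒪_T`, `gbBall p T (π ^ t) = 𝔪_T ^ t`,
`gbBall p T (ζ - 1) = (ζ - 1) 𝒪_T`). -/
def gbBall (T : IntermediateField ℚ_[p] (PadicAlgCl p)) (y : PadicAlgCl p) :
    AddSubgroup (PadicAlgCl p) where
  carrier := {x | x ∈ T ∧ ‖x‖ ≤ ‖y‖}
  add_mem' := by
    rintro a b ⟨ha, ha'⟩ ⟨hb, hb'⟩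
    exact ⟨add_mem ha hb, (PadicAlgCl.isNonarchimedean p a b).trans (max_le ha' hb')⟩
  zero_mem' := ⟨zero_mem _, by rw [norm_zero]; exact norm_nonneg _⟩
  neg_mem' := by
    rintro a ⟨ha, ha'⟩
    exact ⟨neg_mem ha, by rwa [norm_neg]⟩

lemma mem_gbBall (T : IntermediateField ℚ_[p] (PadicAlgCl p)) (y x : PadicAlgCl p) :
    x ∈ gbBall p T y ↔ x ∈ T ∧ ‖x‖ ≤ ‖y‖ := Iff.rfl

/-- **The Kummer symbol in `x`-form**: `κ_ζ(τ, x) = j` iff `τ α = ζ ^ j α` for the `p`-th roots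
`α` of `1 + p x`. -/
def gbKappa (ζ : PadicAlgCl p) (τ : GQq p) (x : PadicAlgCl p) : ZMod p :=
  wgrKum p ζ τ (twkRoot p (1 + (p : PadicAlgCl p) * x))

end Defs

/-! ### The pieces -/

/-- **K1** (the Kummer symbol; owner helper67).  For a good field `T ∋ ζ`: the symbol `gbKappa` on
`I_T × 𝒪_T` is bi-additive, vanishes for `‖x‖ ≤ ‖ζ - 1‖`, is equivariant up to `ω`, and its left
kernel is contained in `𝒩_T`. -/
def StmtGBKum : Prop :=
  ∀ (p : ℕ) [Fact p.Prime], p ≠ 2 → ∀ T : IntermediateField ℚ_[p] (PadicAlgCl p),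
    IsGoodField p T → ∀ ζ ∈ T, ζ ≠ 1 → ζ ^ p = 1 →
    GBAbsKum p (inT p T) (lvN p T) (gbBall p T 1) (gbBall p T (ζ - 1)) (gbOmega p) (gbKappa p ζ)

/-- **K4** (θ-theory; owner helper65).  For a good field `T ∋ ζ` there are: the residue field `F`
of `T` with the action `actF` of `G_p`, a uniformiser `π` of `T`, `e'` with `‖π‖ ^ e' = ‖ζ - 1‖`,
the maps `r t x = x / π ^ t mod 𝔪` and `u γ = γ π / π mod 𝔪`, satisfying `GBAbsTame`, and
* (θ3) `θ = u|_I` is FAITHFUL: `θ ^ t ≠ 1` on inertia for `0 < t < (p - 1) e'`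
  (`(p - 1) e' = e` is the ramification index of `T`);
* Frobenius elements act on `F` by `a ↦ a ^ p`. -/
def StmtGBTame : Prop :=
  ∀ (p : ℕ) [Fact p.Prime], p ≠ 2 → ∀ T : IntermediateField ℚ_[p] (PadicAlgCl p),
    IsGoodField p T → ∀ ζ ∈ T, ζ ≠ 1 → ζ ^ p = 1 →
    ∃ (F : Type) (_ : Field F) (_ : Algebra (ZMod p) F) (actF : GQq p →* RingAut F)
      (u : GQq p → F) (e' : ℕ) (π : PadicAlgCl p) (r : ℕ → PadicAlgCl p → F),
      GBAbsTame p T.fixingSubgroup (inertiaQ p) (gbOmega p) F actF u e'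
        (fun t => gbBall p T (π ^ t)) r ∧
      ‖π‖ ^ e' = ‖ζ - 1‖ ∧
      (∀ t : ℕ, 0 < t → t < (p - 1) * e' → ∃ σ ∈ inertiaQ p, u σ ^ t ≠ 1) ∧
      (∀ φ : GQq p, IsFrobQ p φ → ∀ a : F, actF φ a = a ^ p)

/-- **GB-GEN** (the general bound; assembly K1 + K4 + GB-ALG, owner helper67).  For a good field
`T` there are a field `F ⊇ 𝔽_p`, `e'` and `u : G_p → F` with `u ^ e' = ω` on inertia, `u` faithful
of order `(p - 1) e'` on inertia, such that for every finite `W` on which `G_T` acts trivially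
`dim gbHom T W ≤ Σ_{1 ≤ i ≤ e'} dim_F E_i(W)`. -/
def StmtGBGen : Prop :=
  ∀ (p : ℕ) [Fact p.Prime], p ≠ 2 → ∀ T : IntermediateField ℚ_[p] (PadicAlgCl p),
    IsGoodField p T →
    ∃ (F : Type) (_ : Field F) (_ : Algebra (ZMod p) F) (u : GQq p → F) (e' : ℕ),
      (∀ σ ∈ inertiaQ p,
        algebraMap (ZMod p) F ((gbOmega p σ : (ZMod p)ˣ) : ZMod p) = u σ ^ e') ∧
      (∀ t : ℕ, 0 < t → t < (p - 1) * e' → ∃ σ ∈ inertiaQ p, u σ ^ t ≠ 1) ∧
      ∀ (W : Rep.{0} (ZMod p) (GQq p)) [FiniteDimensional (ZMod p) W],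
        (∀ σ ∈ T.fixingSubgroup, W.ρ σ = 1) →
        Module.Finite (ZMod p) (gbHom p T W) ∧
          Module.finrank (ZMod p) (gbHom p T W) ≤
            ∑ i ∈ Finset.Icc 1 e', Module.finrank F (gbEig p F W.ρ (inertiaQ p) u i)

/-- **CHAR-T** (owner helper48): the field cut out by a level character `ψ` and `ω` is good;
`k(ψ)` is smooth and finite; `ψ ^ (p - 1) = 1` on inertia; no invariants if `ψ = ω` on inertia. -/
def StmtGBCharT : Prop :=
  ∀ (p : ℕ) [Fact p.Prime], p ≠ 2 → ∀ (k : Type) [Field k] [CharP k p] [Algebra (ZMod p) k]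
    [Finite k] (ψ : GQq p →* kˣ), (∃ U ∈ (towerLoc p).lev, ∀ s ∈ U, ψ s = 1) →
    (∃ T : IntermediateField ℚ_[p] (PadicAlgCl p), IsGoodField p T ∧
      ∀ σ ∈ T.fixingSubgroup, (charRep p ψ).ρ σ = 1) ∧
    IsSmoothQ p (charRep p ψ) ∧ Module.Finite (ZMod p) (charRep p ψ) ∧
    (∀ σ ∈ inertiaQ p, ((ψ σ : kˣ) : k) ^ (p - 1) = 1) ∧
    (IsCycOnInertia p ψ → Module.finrank (ZMod p) (charRep p ψ).ρ.invariants = 0)

/-- **CHAR-count** (linear algebra in `F ⊗ k`): for a character `ψ` with `ψ ^ (p - 1) = 1` on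
inertia and `(F, u, e')` as in `StmtGBGen`: `Σ_{1 ≤ i ≤ e'} dim_F E_i(k(ψ)) ≤ f`, and every
`E_i = 0` if `ψ ≠ ω` on inertia.
(`E_i` is the annihilator in `R = F ⊗ k` of the ideal `𝔞_i` generated by the
`1 ⊗ ψ(σ) - u(σ)^i ⊗ 1`; `𝔞_i + 𝔞_j ∋ (u(σ)^j - u(σ)^i) ⊗ 1`, a unit for suitable `σ`, so the
annihilators are independent in `R`, `dim_F R = f`.  If `E_i ≠ 0` then `ψ = u ^ i` on inertia
(`ψ(σ) ∈ 𝔽_p`), so `u ^ (i (p - 1)) = 1`, `i = e'` and `ψ = ω`.) -/
def StmtGBCharCount : Prop :=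
  ∀ (p : ℕ) [Fact p.Prime], p ≠ 2 → ∀ (k : Type) [Field k] [CharP k p] [Algebra (ZMod p) k]
    [Finite k] (ψ : GQq p →* kˣ), (∀ σ ∈ inertiaQ p, ((ψ σ : kˣ) : k) ^ (p - 1) = 1) →
    ∀ (F : Type) [Field F] [Algebra (ZMod p) F] (u : GQq p → F) (e' : ℕ),
      (∀ σ ∈ inertiaQ p,
        algebraMap (ZMod p) F ((gbOmega p σ : (ZMod p)ˣ) : ZMod p) = u σ ^ e') →
      (∀ t : ℕ, 0 < t → t < (p - 1) * e' → ∃ σ ∈ inertiaQ p, u σ ^ t ≠ 1) →
      ∑ i ∈ Finset.Icc 1 e', Module.finrank F (gbEig p F (charRep p ψ).ρ (inertiaQ p) u i) ≤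
          Module.finrank (ZMod p) k ∧
        (¬ IsCycOnInertia p ψ →
          ∀ i ∈ Finset.Icc 1 e', gbEig p F (charRep p ψ).ρ (inertiaQ p) u i = ⊥)

/-- The structure of an irreducible `ρ̄|_{G_p}` on inertia: two eigenlines with characters
`ψ₁ ≠ ψ₂`, `ψ₂ = ψ₁ ^ p`, `ψ₁ = ψ₂ ^ p`, `ψ₁ ψ₂ = ω`. -/
def IsIrrInertia (p : ℕ) [Fact p.Prime] {k : Type} [Field k] [Algebra (ZMod p) k]
    (ρbar : ResidualGaloisRep k) : Prop :=
  ∃ (v₁ v₂ : ρbar.V) (ψ₁ ψ₂ : GQq p → k), LinearIndependent k ![v₁, v₂] ∧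
    (∀ σ ∈ inertiaQ p, rhoLoc p ρbar σ v₁ = ψ₁ σ • v₁ ∧ rhoLoc p ρbar σ v₂ = ψ₂ σ • v₂) ∧
    (∃ σ₀ ∈ inertiaQ p, ψ₁ σ₀ ≠ ψ₂ σ₀) ∧
    (∀ σ ∈ inertiaQ p, ψ₂ σ = ψ₁ σ ^ p ∧ ψ₁ σ = ψ₂ σ ^ p) ∧
    ∀ σ ∈ inertiaQ p,
      ψ₁ σ * ψ₂ σ = algebraMap (ZMod p) k ((gbOmega p σ : (ZMod p)ˣ) : ZMod p)

/-- **IRR-STR**: `ρ̄|_{G_p}` irreducible, `det ρ̄ = ω`, split characteristic polynomials.  Then the
field cut out by `ρ̄|_{G_p}` is good (`ρ̄(G_p) ⊆ N(torus)` has order prime to `p`), `ad⁰` is smooth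
with no invariants, and inertia acts through two characters `ψ₁ ≠ ψ₂ = ψ₁ ^ p`.
(Wild inertia acts trivially [`V̄^P ≠ 0` is stable]; `StmtTameGen` for `h = ρ̄|_I` mod `P`: `ρ̄(I)`
cyclic, generated by `s` with eigenvalues in `k`; `s` scalar ⇒ an eigenline of `ρ̄(φ)` is stable
(`StmtFrobGen`); so `s` has two eigenlines, permuted by `G_p`, swapped by `φ`;
`h(φ σ φ⁻¹) = h(σ) ^ p`.) -/
def StmtGBIrrStr : Prop :=
  ∀ (p : ℕ) [Fact p.Prime], p ≠ 2 → ∀ (k : Type) [Field k] [CharP k p] [Algebra (ZMod p) k]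
    [Finite k] (ρbar : ResidualGaloisRep k),
    (GaloisRepAdic.ofResidualGaloisRep ρbar).DetIsCyclotomic p →
    (∀ σ : GQ, ∃ α β : k, LinearMap.charpoly (ρbar.ρ σ) = (X - C α) * (X - C β)) →
    IsLocIrr p ρbar →
    (∃ T : IntermediateField ℚ_[p] (PadicAlgCl p), IsGoodField p T ∧
      ∀ σ ∈ T.fixingSubgroup, rhoLoc p ρbar σ = 1) ∧
    IsSmoothQ p (locRep p (ad0Rep p ρbar)) ∧
    Module.finrank (ZMod p) (locRep p (ad0Rep p ρbar)).ρ.invariants = 0 ∧
    IsIrrInertia p ρbar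

/-- **IRR-count** (linear algebra in `F ⊗ ad⁰`): if inertia acts on `V̄` through `ψ₁ ≠ ψ₂ = ψ₁^p`,
`ψ₁ ψ₂ = ω`, and `(F, u, e')` is as in `StmtGBGen`, then `Σ_{1 ≤ i ≤ e'} dim_F E_i(ad⁰) ≤ f`.
(`ad⁰ = k X₀ ⊕ k X₊ ⊕ k X₋` with characters `1, η, η⁻¹`, `η = ψ₁/ψ₂`; `E_i ∩ (F ⊗ k X₀) = 0` as
`u^i ≠ 1`; the `2e'` spaces `E_i ∩ (F ⊗ k X_±)` are annihilators in `R = F ⊗ k` of pairwise
comaximal ideals [`(i,+)` and `(j,-)` in one maximal ideal ⇒ `u^{i+j} = 1` ⇒ `p = 3`, `i = j = e'`,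
`η = ω = ψ₁ψ₂`, `ψ₂² = 1`, `ψ₁ = ψ₂^3 = ψ₂`], so their dimensions add up to `≤ dim_F R = f`.) -/
def StmtGBIrrCount : Prop :=
  ∀ (p : ℕ) [Fact p.Prime], p ≠ 2 → ∀ (k : Type) [Field k] [CharP k p] [Algebra (ZMod p) k]
    [Finite k] (ρbar : ResidualGaloisRep k), IsIrrInertia p ρbar →
    ∀ (F : Type) [Field F] [Algebra (ZMod p) F] (u : GQq p → F) (e' : ℕ),
      (∀ σ ∈ inertiaQ p,
        algebraMap (ZMod p) F ((gbOmega p σ : (ZMod p)ˣ) : ZMod p) = u σ ^ e') →
      (∀ t : ℕ, 0 < t → t < (p - 1) * e' → ∃ σ ∈ inertiaQ p, u σ ^ t ≠ 1) →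
      ∑ i ∈ Finset.Icc 1 e',
          Module.finrank F (gbEig p F (locRep p (ad0Rep p ρbar)).ρ (inertiaQ p) u i) ≤
        Module.finrank (ZMod p) k

end Fermat.Agent.TW.W

end


end ZBTW_001_6

/-! ### bundled: `Fermat.Agent.R38.EPeuPlan` -/
section ZBTW_001_7
/-
ROW 38, piece R38-EPEU (helper64): INTERFACE of the sub-pieces.

`StmtEPeu` (R38/Plan.lean) ⇐ `TW.W.stmtLev` (landed) + E-flat (landed) + the four LOCAL statements
below + assembly (helper64, `R38/EPeu*.lean`).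

Notation: `Ω = PadicAlgCl p`, `ι = padicEmbedding p : ℚ̄ → Ω`, `I = inertiaQ p ⊂ G_p = GQq p`
(`τ ∈ I ↔ ∀ z, ‖z‖ ≤ 1 → ‖τ z - z‖ < 1`, `TW.W.wgr_inert_iff`), `ω = gbOmega p`.

* `StmtEPTeich` (TEICH): every `x ∈ 𝒪_Ω` is congruent mod `𝔪_Ω` to `ι b₀`, `b₀ ∈ ℚ̄` integral at
  `padicPlace p` and fixed by the global inertia group.
  (`x ∈ T := ℚ_p(x)`, residue field finite with `q` elements, `‖x^q - x‖ < 1`;
  `x^q - x = ∏_{b^q = b} (x - b)`, so `‖x - b‖ < 1` for a root `b` of `X^q - X`; `b = ι b₀`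
  (`PT.B.kras_root_mem_range`); `g b₀ / b₀` is a root of unity of order prime to `p`, `≡ 1`, so `= 1`.)
* `StmtEPVal` (VAL): `y ∈ Ω` fixed by `I ∩ ker ω`, `‖y‖ < 1` ⇒ `‖y‖ ≤ ‖ζ - 1‖`.
  (`g_a ∈ I` with `ω(g_a) = a` (`TW.W.stmtCycloRamFull`); `N := ∏_a g_a y` is fixed by `I`, so
  `‖N‖ ∈ p^ℤ` (`TW.W.wgr_unr`), `‖N‖ = ‖y‖^(p-1) < 1`, hence `‖y‖^(p-1) ≤ ‖p‖ = ‖ζ - 1‖^(p-1)`.)
* `StmtEPRoot` (ROOT): `τ ∈ I`, `τ ζ = ζ`, `τ y = y`, `‖y‖ ≤ ‖ζ - 1‖`, `t^p = 1 + p y` ⇒ `τ t = t`.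
  (the proof of the clause `vanish` of `TW.W.stmtGBKum`, `TW/W/Kummer.lean`, without the field `T`:
  `twk_exists_close_root` gives `‖t ζ^i - 1‖ ≤ ‖ζ - 1‖`, so `t = 1 + (ζ - 1) w`, `‖w‖ ≤ 1`;
  `τ t = t ζ^j` and `‖τ t - t‖ = ‖ζ - 1‖ ‖τ w - w‖ < ‖ζ - 1‖` force `j = 0`.)
* `StmtEPGood` (GOOD): a normal subgroup `N ⊂ G_p` containing some `Gal(Ω/E)`, `E/ℚ_p` finite,
  contained in `ker ω`, with `τ^(p-1) ∈ N` for all `τ`, is `Gal(Ω/T)` for a good field `T`.
  (`TW/W/GBCharT.lean` verbatim for `T := fixedField N`; `p ∤ [G_p : N]` by Cauchy.)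
-/

set_option autoImplicit false

noncomputable section

namespace Fermat.Agent.R38

open Fermat.Agent.PT Fermat.Agent.PT.B Fermat.Agent.TW.L Fermat.Agent.TW.W

/-- **TEICH** -/
def StmtEPTeich : Prop :=
  ∀ (p : ℕ) [Fact p.Prime] (x : PadicAlgCl p), ‖x‖ ≤ 1 →
    ∃ b₀ : AlgebraicClosure ℚ, ‖padicEmbedding p b₀‖ ≤ 1 ∧
      (∀ g ∈ (padicPlace p).inertiaSubgroupIn ℚ, g b₀ = b₀) ∧
      ‖x - padicEmbedding p b₀‖ < 1

/-- **VAL** -/
def StmtEPVal : Prop :=
  ∀ (p : ℕ) [Fact p.Prime] (ζ y : PadicAlgCl p), ζ ≠ 1 → ζ ^ p = 1 →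
    (∀ τ ∈ inertiaQ p, τ ζ = ζ → τ y = y) → ‖y‖ < 1 → ‖y‖ ≤ ‖ζ - 1‖

/-- **ROOT** -/
def StmtEPRoot : Prop :=
  ∀ (p : ℕ) [Fact p.Prime] (ζ y t : PadicAlgCl p) (τ : GQq p), ζ ≠ 1 → ζ ^ p = 1 →
    τ ∈ inertiaQ p → τ ζ = ζ → τ y = y → ‖y‖ ≤ ‖ζ - 1‖ →
    t ^ p = 1 + (p : PadicAlgCl p) * y → τ t = t

/-- **GOOD** -/
def StmtEPGood : Prop :=
  ∀ (p : ℕ) [Fact p.Prime] (N : Subgroup (GQq p)), N.Normal →
    (∃ E : IntermediateField ℚ_[p] (PadicAlgCl p), FiniteDimensional ℚ_[p] E ∧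
      E.fixingSubgroup ≤ N) →
    (∀ τ : GQq p, τ ^ (p - 1) ∈ N) → (∀ τ ∈ N, gbOmega p τ = 1) →
    ∃ T : IntermediateField ℚ_[p] (PadicAlgCl p), IsGoodField p T ∧ T.fixingSubgroup = N

end Fermat.Agent.R38

end
end ZBTW_001_7

/-! ### bundled: `Fermat.Agent.TW.W.LevelPlan` -/
section ZBTW_001_8
/-
TW-W chain A, last leg (helper57): INTERFACE for `(P_m) ⇒ StmtLev`.

`L₀ := lvCoordField p H = ℚ_p(coordinates of the points of M) ⊂ ℚ̄_p`.

* `StmtLvDict`  (DICT)  : `L₀/ℚ_p` is finite and normal, and `σ ∈ G_{L₀}` acts trivially on `M`.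
* `StmtLvKum`   (KUM)   : Hilbert 90: a character `χ` of `G_T` killing `G_{M₁}` (`T ⊂ M₁` finite
                          normal over `ℚ_p`, `ζ_p ∈ T`) has a Kummer generator `α ∈ M₁`, `α^p ∈ T`.
* `StmtLvTower` (TOWER) : the auxiliary tower `K ⊂ T' ⊂ M' = T' L₀` (`K/ℚ_p` unramified, `T'/K` and
                          `M'/T'` totally ramified, `T'/T` unramified, residue field large).
* `StmtLevPrime` (LEVEL′): `u ∈ Tˣ ∩ (T L₀)^{×p} ⇒ u ∈ (1 + p 𝒪_T) T^{×p}`.
* `stmtLev_of : StmtLvDict → StmtLvKum → StmtLevPrime → StmtLev`   (proved here).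
-/

set_option autoImplicit false
set_option linter.unusedSectionVars false
set_option linter.style.haveILetI false

noncomputable section

namespace Fermat.Agent.TW.W

open Fermat.Agent.PT Fermat.Agent.PT.B Fermat.Agent.PT.L Fermat.Agent.W1 GaloisRep IsLocalRing

/-- `L₀ = ℚ_p(M)`: the field generated by the coordinates of the points. -/
def lvCoordField (p : ℕ) [Fact p.Prime] {M : Type} [AddCommGroup M]
    (H : Subalgebra (ratLocalizedAt p) (M → AlgebraicClosure ℚ)) :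
    IntermediateField ℚ_[p] (PadicAlgCl p) :=
  IntermediateField.adjoin ℚ_[p] (twwPmCoords p H)

/-- **DICT**: `L₀/ℚ_p` is finite and normal and `G_{L₀}` acts trivially on `M`. -/
def StmtLvDict : Prop :=
  ∀ (p : ℕ) [Fact p.Prime] (M : Type) [AddCommGroup M] [Finite M]
    (act : GQ → M → M)
    (H : Subalgebra (ratLocalizedAt p) (M → AlgebraicClosure ℚ)),
    IsHopfLattice (ratLocalizedAt p) act H →
      FiniteDimensional ℚ_[p] (lvCoordField p H) ∧ Normal ℚ_[p] (lvCoordField p H) ∧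
      ∀ σ : GQq p, σ ∈ (lvCoordField p H).fixingSubgroup →
        ∀ m : M, act (localGaloisToGlobal p σ) m = m

/-- **KUM** (Hilbert 90 for `M₁/T`). -/
def StmtLvKum : Prop :=
  ∀ (p : ℕ) [Fact p.Prime] (T M₁ : IntermediateField ℚ_[p] (PadicAlgCl p)), T ≤ M₁ →
    FiniteDimensional ℚ_[p] M₁ → Normal ℚ_[p] M₁ → (∃ ζ ∈ T, ζ ≠ 1 ∧ ζ ^ p = 1) →
    ∀ χ : GQq p → ZMod p, IsHomOn p T χ → (∀ σ ∈ M₁.fixingSubgroup, χ σ = 0) →
      ∃ α ∈ M₁, α ≠ 0 ∧ α ^ p ∈ T ∧ ∀ σ ∈ T.fixingSubgroup, σ α = α → χ σ = 0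

/-- **(LEVEL′)**: `u = α^p ∈ T`, `α ∈ T L₀`  ⇒  `u ∈ (1 + p 𝒪_T) · T^{×p}`. -/
def StmtLevPrime : Prop :=
  ∀ (p : ℕ) [Fact p.Prime], p ≠ 2 → ∀ (M : Type) [AddCommGroup M] [Finite M]
    (act : GQ → M → M)
    (H : Subalgebra (ratLocalizedAt p) (M → AlgebraicClosure ℚ)),
    IsHopfLattice (ratLocalizedAt p) act H → (∀ m : M, p • m = 0) →
    ∀ T : IntermediateField ℚ_[p] (PadicAlgCl p), IsGoodField p T →
    ∀ α : PadicAlgCl p, α ≠ 0 → α ∈ T ⊔ lvCoordField p H → α ^ p ∈ T →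
      ∃ c ∈ T, ∃ t ∈ T, ‖c‖ ≤ 1 ∧ t ≠ 0 ∧ α ^ p = (1 + (p : PadicAlgCl p) * c) * t ^ p

/-- **TOWER**: for `T`, `L₀` finite normal over `ℚ_p` there are `K ≤ T'`, `T ≤ T'`, with
`K/ℚ_p` unramified, `T'/K` and `T' L₀/T'` totally ramified, `T'/T` unramified, `T'/ℚ_p` finite
normal, and the residue field of `T'` has more than `p ^ [L₀ : ℚ_p]` elements. -/
def StmtLvTower : Prop :=
  ∀ (p : ℕ) [Fact p.Prime] (T L₀ : IntermediateField ℚ_[p] (PadicAlgCl p)),
    FiniteDimensional ℚ_[p] T → Normal ℚ_[p] T →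
    FiniteDimensional ℚ_[p] L₀ → Normal ℚ_[p] L₀ →
    ∃ (K T' : IntermediateField ℚ_[p] (PadicAlgCl p)) (_ : FiniteDimensional ℚ_[p] T')
      (hTT' : T ≤ T'), K ≤ T' ∧ Normal ℚ_[p] T' ∧
      IsUnif p (((p : ℕ) : ℚ_[p]) • (1 : K)) ∧
      (∃ π : T', IsUnif p π ∧ wv p π = wv p (((p : ℕ) : ℚ_[p]) • (1 : K)) ∧
        ∃ π' : ↥(T' ⊔ L₀), IsUnif p π' ∧ wv p π' = wv p π) ∧
      (∃ π : T, IsUnif p π ∧ IsUnif p (IntermediateField.inclusion hTT' π)) ∧
      p ^ Module.finrank ℚ_[p] L₀ < Nat.card (ResidueField (UE.OV p stmtWAdd T'))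

/-- The final assembly of chain A. -/
theorem stmtLev_of (hD : StmtLvDict) (hK : StmtLvKum) (hL : StmtLevPrime) : StmtLev := by
  intro p _ hp2 M _ _ act H hH hpM T hT χ hχ hχM τ hτ
  obtain ⟨hfin, hnor, htriv⟩ := hD p M act H hH
  haveI := hfin
  haveI := hnor
  haveI := hT.finite
  haveI : Normal ℚ_[p] T := hT.galois.to_normal
  have hle : T ≤ T ⊔ lvCoordField p H := le_sup_left
  have hfix : ∀ σ ∈ (T ⊔ lvCoordField p H).fixingSubgroup, χ σ = 0 := by
    intro σ hσ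
    have h1 : σ ∈ T.fixingSubgroup :=
      IntermediateField.fixingSubgroup_antitone hle hσ
    have h2 : σ ∈ (lvCoordField p H).fixingSubgroup :=
      IntermediateField.fixingSubgroup_antitone le_sup_right hσ
    exact hχM σ h1 (htriv σ h2)
  obtain ⟨α, hαM, hα0, hαT, hαχ⟩ := hK p T (T ⊔ lvCoordField p H) hle inferInstance
    inferInstance hT.zeta χ hχ hfix
  obtain ⟨c, hcT, t, htT, hc1, ht0, hu⟩ := hL p hp2 M act H hH hpM T hT α hα0 hαM hαT
  have hτT : τ ∈ T.fixingSubgroup := hτ.1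
  have hτt : τ t = t := by
    have := (IntermediateField.mem_fixingSubgroup_iff T τ).1 hτT t htT
    simpa using this
  -- β = α / t
  have hβp : (α / t) ^ p = 1 + (p : PadicAlgCl p) * c := by
    rw [div_pow, hu, mul_div_assoc, div_self (pow_ne_zero p ht0), mul_one]
  have hβT : (α / t) ^ p ∈ T := by
    rw [hβp]
    exact add_mem (one_mem _) (mul_mem (natCast_mem _ p) hcT)
  have hβn : ‖(α / t) ^ p - 1‖ ≤ ‖(p : PadicAlgCl p)‖ := by
    rw [hβp, add_sub_cancel_left, norm_mul]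
    calc ‖(p : PadicAlgCl p)‖ * ‖c‖ ≤ ‖(p : PadicAlgCl p)‖ * 1 :=
          mul_le_mul_of_nonneg_left hc1 (norm_nonneg _)
      _ = ‖(p : PadicAlgCl p)‖ := mul_one _
  have hτβ : τ (α / t) = α / t := hτ.2 (α / t) hβT hβn
  have hτα : τ α = α := by
    have h1 : α = (α / t) * t := by rw [div_mul_cancel₀ _ ht0]
    calc τ α = τ ((α / t) * t) := by rw [← h1]
      _ = τ (α / t) * τ t := map_mul _ _ _
      _ = (α / t) * t := by rw [hτβ, hτt]
      _ = α := h1.symm
  exact hαχ τ hτT hτα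

end Fermat.Agent.TW.W

end
end ZBTW_001_8

/-! ### bundled: `Fermat.Agent.TW.W.LvDict` -/
section ZBTW_001_9

/-!
# TW-W chain A / DICT (helper64): the coordinate field of a Hopf lattice

`stmtLvDict : StmtLvDict`.  For a Hopf lattice `H` on `M`: the field
`L₀ = ℚ_p(ι(h m) : h ∈ H, m ∈ M)` is finite and normal over `ℚ_p`, and `G_{L₀}` acts trivially on
`M`.
-/

set_option autoImplicit false
set_option linter.unusedSectionVars false
set_option linter.style.haveILetI false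

noncomputable section

namespace Fermat.Agent.TW.W

open Fermat.Agent.PT Fermat.Agent.PT.B Fermat.Agent.W1 GaloisRep

section

variable (p : ℕ) [Fact p.Prime] {M : Type} [AddCommGroup M]
  (act : GQ → M → M) (H : Subalgebra (ratLocalizedAt p) (M → AlgebraicClosure ℚ))

/-- the coordinates are stable under `G_p` -/
theorem lvd_coords_stable (hH : IsHopfLattice (ratLocalizedAt p) act H) (σ : GQq p)
    (z : PadicAlgCl p) (hz : z ∈ twwPmCoords p H) : σ z ∈ twwPmCoords p H := by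
  obtain ⟨h, hh, m, rfl⟩ := hz
  refine ⟨h, hh, act (localGaloisToGlobal p σ) m, ?_⟩
  rw [hH.equivariant h hh, padicEmbedding_localGaloisToGlobal]

/-- the image of a rational scalar lies in every intermediate field -/
theorem lvd_scalar_mem (K : IntermediateField ℚ_[p] (PadicAlgCl p)) (r : ratLocalizedAt p) :
    padicEmbedding p (algebraMap (ratLocalizedAt p) (AlgebraicClosure ℚ) r) ∈ K := by
  have h1 : algebraMap (ratLocalizedAt p) (AlgebraicClosure ℚ) r =
      algebraMap ℚ (AlgebraicClosure ℚ) (r : ℚ) := rfl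
  rw [h1, AlgHom.commutes]
  have h2 : algebraMap ℚ (PadicAlgCl p) (r : ℚ) =
      algebraMap ℚ_[p] (PadicAlgCl p) ((r : ℚ) : ℚ_[p]) := by
    rw [IsScalarTower.algebraMap_apply ℚ ℚ_[p] (PadicAlgCl p) (r : ℚ), eq_ratCast]
  rw [h2]
  exact K.algebraMap_mem _

end

/-- **DICT** -/
theorem stmtLvDict : StmtLvDict := by
  intro p _ M _ _ act H hH
  classical
  haveI : Algebra.IsAlgebraic ℚ_[p] (PadicAlgCl p) := AlgebraicClosure.isAlgebraic ℚ_[p]
  haveI : IsAlgClosure ℚ_[p] (PadicAlgCl p) := ⟨inferInstance, inferInstance⟩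
  haveI : Normal ℚ_[p] (PadicAlgCl p) := IsAlgClosure.normal ℚ_[p] (PadicAlgCl p)
  refine ⟨?_, ?_, ?_⟩
  · -- finite
    obtain ⟨G₀, hG₀⟩ := hH.fg
    let S₀ : Set (PadicAlgCl p) :=
      (fun x : (M → AlgebraicClosure ℚ) × M => padicEmbedding p (x.1 x.2)) ''
        ((G₀ : Set (M → AlgebraicClosure ℚ)) ×ˢ (Set.univ : Set M))
    have hS₀fin : S₀.Finite :=
      Set.Finite.image _ (Set.Finite.prod G₀.finite_toSet Set.finite_univ)
    haveI : Finite S₀ := hS₀fin
    haveI hfd : FiniteDimensional ℚ_[p] (IntermediateField.adjoin ℚ_[p] S₀) :=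
      IntermediateField.finiteDimensional_adjoin
        (fun x _ => (Algebra.IsAlgebraic.isAlgebraic x).isIntegral)
    have hle : lvCoordField p H ≤ IntermediateField.adjoin ℚ_[p] S₀ := by
      unfold lvCoordField
      rw [IntermediateField.adjoin_le_iff]
      rintro z ⟨h, hh, m, rfl⟩
      have hmem : h ∈ Submodule.span (ratLocalizedAt p) (G₀ : Set (M → AlgebraicClosure ℚ)) := by
        rw [hG₀]
        exact hh
      revert m
      refine Submodule.span_induction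
        (p := fun h _ => ∀ m : M, padicEmbedding p (h m) ∈
          (IntermediateField.adjoin ℚ_[p] S₀ : Set (PadicAlgCl p))) ?_ ?_ ?_ ?_ hmem
      · intro g hg m
        exact IntermediateField.subset_adjoin _ _ ⟨(g, m), ⟨hg, Set.mem_univ _⟩, rfl⟩
      · intro m
        show padicEmbedding p ((0 : M → AlgebraicClosure ℚ) m) ∈ IntermediateField.adjoin ℚ_[p] S₀
        rw [Pi.zero_apply, map_zero]
        exact zero_mem _
      · intro x y _ _ hx hy m
        show padicEmbedding p ((x + y) m) ∈ IntermediateField.adjoin ℚ_[p] S₀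
        rw [Pi.add_apply, map_add]
        exact add_mem (hx m) (hy m)
      · intro r x _ hx m
        show padicEmbedding p ((r • x) m) ∈ IntermediateField.adjoin ℚ_[p] S₀
        rw [Pi.smul_apply, Algebra.smul_def, map_mul]
        exact mul_mem (lvd_scalar_mem p _ r) (hx m)
    exact FiniteDimensional.of_injective (IntermediateField.inclusion hle).toLinearMap
      (IntermediateField.inclusion hle).toRingHom.injective
  · -- normal
    rw [IntermediateField.normal_iff_forall_map_le']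
    intro σ
    unfold lvCoordField
    rw [IntermediateField.adjoin_map, IntermediateField.adjoin_le_iff]
    rintro _ ⟨z, hz, rfl⟩
    exact IntermediateField.subset_adjoin _ _ (lvd_coords_stable p act H hH σ z hz)
  · -- trivial action
    intro σ hσ m
    apply hH.separates
    intro h hh
    have h1 : padicEmbedding p (h m) ∈ lvCoordField p H :=
      IntermediateField.subset_adjoin _ _ ⟨h, hh, m, rfl⟩
    have h2 : σ (padicEmbedding p (h m)) = padicEmbedding p (h m) :=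
      (IntermediateField.mem_fixingSubgroup_iff _ σ).1 hσ _ h1
    rw [← padicEmbedding_localGaloisToGlobal, ← hH.equivariant h hh] at h2
    exact (padicEmbedding p).toRingHom.injective h2

end Fermat.Agent.TW.W

end


end ZBTW_001_9

/-! ### bundled: `Fermat.Agent.R38.EPeuCore` -/
section ZBTW_001_10
/-
ROW 38, piece R38-EPEU (helper64), part 1: the inertia span `C`, the subgroup `N ⊂ G_p` and its
properties.

`M` a finite `G_ℚ`-module killed by `p` with a Hopf lattice, `C = I_aug M` (inertia at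
`padicPlace p`), on which inertia acts through `ω`.
`N := {τ ∈ G_p : ω τ = 1, τ = 1 on C and on M/C}`.
-/

set_option autoImplicit false
set_option linter.unusedSectionVars false
set_option linter.style.haveILetI false

noncomputable section

namespace Fermat.Agent.R38

open Fermat.Agent.PT Fermat.Agent.PT.B Fermat.Agent.TW.L Fermat.Agent.TW.W Fermat.Agent.W1
  ExtCitation GaloisRep

section Core

variable (p : ℕ) [Fact p.Prime] (M : Type) [AddCommGroup M] [DistribMulAction GQ M]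

/-- the action as a plain map -/
def r38epAct : GQ → M → M := fun σ m => σ • m

/-- the inertia span `C = I_aug M` -/
def r38epC : AddSubgroup M := iAug p (r38epAct M)

variable {M}

theorem r38ep_sub_mem_C {σ : GQ} (hσ : σ ∈ (padicPlace p).inertiaSubgroupIn ℚ) (m : M) :
    σ • m - m ∈ r38epC p M :=
  AddSubgroup.subset_closure ⟨σ, hσ, m, rfl⟩

/-- global inertia at `padicPlace p` comes from local inertia -/
theorem r38ep_inertia_lift (σ : GQ) (hσ : σ ∈ (padicPlace p).inertiaSubgroupIn ℚ) :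
    ∃ τ ∈ inertiaQ p, localGaloisToGlobal p τ = σ := by
  have hdec : σ ∈ (padicPlace p).decompositionSubgroup ℚ := by
    obtain ⟨x, -, rfl⟩ := Subgroup.mem_map.1 hσ
    exact x.2
  obtain ⟨τ, hτ⟩ := stmtDecFull p σ hdec
  refine ⟨τ, ?_, hτ⟩
  rw [mem_inertiaQ, hτ]
  exact hσ

/-- `C` is stable under the decomposition group -/
theorem r38ep_C_stable (γ : GQq p) {c : M} (hc : c ∈ r38epC p M) :
    localGaloisToGlobal p γ • c ∈ r38epC p M := by
  unfold r38epC iAug at hc ⊢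
  induction hc using AddSubgroup.closure_induction with
  | mem x hx =>
    obtain ⟨σ, hσ, m, rfl⟩ := hx
    obtain ⟨τ, hτ, rfl⟩ := r38ep_inertia_lift p σ hσ
    have hn : γ * τ * γ⁻¹ ∈ inertiaQ p := (wgr_inertiaQ_normal p).conj_mem τ hτ γ
    rw [mem_inertiaQ] at hn
    have e : localGaloisToGlobal p γ • (r38epAct M (localGaloisToGlobal p τ) m - m) =
        localGaloisToGlobal p (γ * τ * γ⁻¹) • (localGaloisToGlobal p γ • m) -
          localGaloisToGlobal p γ • m := by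
      unfold r38epAct
      rw [smul_sub, map_mul, map_mul, map_inv, mul_smul, mul_smul, inv_smul_smul]
    rw [e]
    exact AddSubgroup.subset_closure ⟨_, hn, _, rfl⟩
  | zero =>
    rw [smul_zero]
    exact zero_mem _
  | add x y _ _ hx hy =>
    rw [smul_add]
    exact add_mem hx hy
  | neg x _ hx =>
    rw [smul_neg]
    exact neg_mem hx

/-- the hypothesis of (EPEU) at `padicPlace p` -/
def R38EPHyp : Prop :=
  ∀ σ ∈ (padicPlace p).inertiaSubgroupIn ℚ, ∀ τ ∈ (padicPlace p).inertiaSubgroupIn ℚ,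
    ∀ x : M, τ • (σ • x - x) = cycloExp p τ • (σ • x - x)

variable {p}

/-- inertia acts through `ω` on `C` -/
theorem r38ep_act_C (hω : R38EPHyp p (M := M)) {τ : GQ}
    (hτ : τ ∈ (padicPlace p).inertiaSubgroupIn ℚ) {c : M} (hc : c ∈ r38epC p M) :
    τ • c = cycloExp p τ • c := by
  unfold r38epC iAug at hc
  induction hc using AddSubgroup.closure_induction with
  | mem x hx =>
    obtain ⟨σ, hσ, m, rfl⟩ := hx
    exact hω σ hσ τ hτ m
  | zero => rw [smul_zero, smul_zero]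
  | add x y _ _ hx hy => rw [smul_add, hx, hy, smul_add]
  | neg x _ hx => rw [smul_neg, hx, smul_neg]

/-- `cycloExp = 1` if `ω = 1` -/
theorem r38ep_cycloExp_eq_one {σ : GQ} (h : cycloChar p σ = 1) : cycloExp p σ = 1 := by
  haveI : Fact (1 < p) := ⟨(Fact.out : p.Prime).one_lt⟩
  rw [← val_cycloChar, h, Units.val_one, ZMod.val_one]

variable (p M)

/-- `N`: the elements of `G_p` acting trivially on `μ_p`, on `C` and on `M/C` -/
def r38epN : Subgroup (GQq p) where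
  carrier := {τ | gbOmega p τ = 1 ∧ (∀ c ∈ r38epC p M, localGaloisToGlobal p τ • c = c) ∧
    ∀ m : M, localGaloisToGlobal p τ • m - m ∈ r38epC p M}
  one_mem' := by
    refine ⟨map_one _, fun c _ => ?_, fun m => ?_⟩
    · rw [map_one, one_smul]
    · rw [map_one, one_smul, sub_self]
      exact zero_mem _
  mul_mem' := by
    rintro σ τ ⟨h1, h2, h3⟩ ⟨h1', h2', h3'⟩
    refine ⟨by rw [map_mul, h1, h1', one_mul], fun c hc => ?_, fun m => ?_⟩
    · rw [map_mul, mul_smul, h2' c hc, h2 c hc]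
    · have e : localGaloisToGlobal p (σ * τ) • m - m =
          (localGaloisToGlobal p σ • (localGaloisToGlobal p τ • m - m)) +
            (localGaloisToGlobal p σ • m - m) := by
        rw [map_mul, mul_smul, smul_sub]
        abel
      rw [e, h2 _ (h3' m)]
      exact add_mem (h3' m) (h3 m)
  inv_mem' := by
    rintro σ ⟨h1, h2, h3⟩
    refine ⟨by rw [map_inv, h1, inv_one], fun c hc => ?_, fun m => ?_⟩
    · have := h2 c hc
      rw [map_inv, inv_smul_eq_iff, this]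
    · have h := h3 ((localGaloisToGlobal p σ)⁻¹ • m)
      rw [smul_inv_smul] at h
      have e : localGaloisToGlobal p σ⁻¹ • m - m =
          -(m - (localGaloisToGlobal p σ)⁻¹ • m) := by
        rw [map_inv]
        abel
      rw [e]
      exact neg_mem h

theorem r38ep_mem_N (τ : GQq p) :
    τ ∈ r38epN p M ↔ gbOmega p τ = 1 ∧ (∀ c ∈ r38epC p M, localGaloisToGlobal p τ • c = c) ∧
      ∀ m : M, localGaloisToGlobal p τ • m - m ∈ r38epC p M := Iff.rfl

instance r38epN_normal : (r38epN p M).Normal := by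
  constructor
  rintro τ ⟨h1, h2, h3⟩ γ
  refine ⟨?_, fun c hc => ?_, fun m => ?_⟩
  · rw [map_mul, map_mul, h1, mul_one, map_inv, mul_inv_cancel]
  · have hc' : localGaloisToGlobal p γ⁻¹ • c ∈ r38epC p M := r38ep_C_stable p γ⁻¹ hc
    rw [map_mul, map_mul, mul_smul, mul_smul, h2 _ hc', ← mul_smul, ← map_mul, mul_inv_cancel,
      map_one, one_smul]
  · have h := h3 (localGaloisToGlobal p γ⁻¹ • m)
    have h' := r38ep_C_stable p γ h
    have e : localGaloisToGlobal p (γ * τ * γ⁻¹) • m - m =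
        localGaloisToGlobal p γ •
          (localGaloisToGlobal p τ • (localGaloisToGlobal p γ⁻¹ • m) -
            localGaloisToGlobal p γ⁻¹ • m) := by
      rw [smul_sub, map_mul, map_mul, mul_smul, mul_smul, ← mul_smul (localGaloisToGlobal p γ)
        (localGaloisToGlobal p γ⁻¹), ← map_mul, mul_inv_cancel, map_one, one_smul]
    rw [e]
    exact h'

variable {p M}

/-- `I ∩ ker ω ⊆ N` -/
theorem r38ep_inertia_mem_N (hω : R38EPHyp p (M := M)) {τ : GQq p} (hτ : τ ∈ inertiaQ p)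
    (hτω : gbOmega p τ = 1) : τ ∈ r38epN p M := by
  rw [mem_inertiaQ] at hτ
  refine ⟨hτω, fun c hc => ?_, fun m => r38ep_sub_mem_C p hτ m⟩
  rw [r38ep_act_C hω hτ hc, r38ep_cycloExp_eq_one (by rwa [gbOmega_apply] at hτω), one_smul]

/-- `N` contains `Gal(Ω/E)` for a finite extension `E/ℚ_p` -/
theorem r38ep_exists_le [Finite M] (H : Subalgebra (ratLocalizedAt p) (M → AlgebraicClosure ℚ))
    (hH : IsHopfLattice (ratLocalizedAt p) (r38epAct M) H) :
    ∃ E : IntermediateField ℚ_[p] (PadicAlgCl p), FiniteDimensional ℚ_[p] E ∧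
      E.fixingSubgroup ≤ r38epN p M := by
  obtain ⟨hfin, -, htriv⟩ := stmtLvDict p M (r38epAct M) H hH
  haveI := hfin
  haveI : NeZero p := ⟨(Fact.out : p.Prime).ne_zero⟩
  haveI : FiniteDimensional ℚ_[p] (localField p (cycloField p)) :=
    stmtLocalFinite p _ inferInstance
  refine ⟨lvCoordField p H ⊔ localField p (cycloField p), inferInstance, fun σ hσ => ?_⟩
  rw [IntermediateField.fixingSubgroup_sup] at hσ
  have h1 : ∀ m : M, localGaloisToGlobal p σ • m = m := htriv σ hσ.1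
  have h2 : localGaloisToGlobal p σ ∈ (cycloField p).fixingSubgroup :=
    (stmtLocalLevel p _ σ).2 hσ.2
  refine ⟨?_, fun c _ => h1 c, fun m => ?_⟩
  · rw [gbOmega_apply]
    exact (cycloChar_eq_one_iff p _).2 h2
  · rw [h1 m, sub_self]
    exact zero_mem _

end Core

end Fermat.Agent.R38

end
end ZBTW_001_10

/-! ### bundled: `Fermat.Agent.R38.EPeuPow` -/
section ZBTW_001_11
/-
ROW 38, piece R38-EPEU (helper64), part 2: `τ ^ (p - 1) ∈ N` when `|C| = p = |M/C|`.
-/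

set_option autoImplicit false
set_option linter.unusedSectionVars false
set_option linter.style.haveILetI false

noncomputable section

namespace Fermat.Agent.R38

open Fermat.Agent.PT Fermat.Agent.PT.B Fermat.Agent.TW.L Fermat.Agent.TW.W Fermat.Agent.W1
  ExtCitation GaloisRep

/-- an injective endomorphism of a group of prime order `p` has order dividing `p - 1` -/
theorem r38ep_end_pow {X : Type} [AddCommGroup X] {p : ℕ} [Fact p.Prime] (hX : Nat.card X = p)
    (φ : X →+ X) (hφ : Function.Injective φ) (x : X) : φ^[p - 1] x = x := by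
  classical
  have hp : p.Prime := Fact.out
  haveI : Finite X := Nat.finite_of_card_ne_zero (by rw [hX]; exact hp.ne_zero)
  haveI : Nontrivial X := Finite.one_lt_card_iff_nontrivial.1 (by rw [hX]; exact hp.one_lt)
  obtain ⟨x₀, hx₀⟩ := exists_ne (0 : X)
  have htop : AddSubgroup.zmultiples x₀ = ⊤ := zmultiples_eq_top_of_prime_card hX hx₀
  have hpx : ∀ y : X, p • y = 0 := fun y => by
    rw [← hX]
    exact card_nsmul_eq_zero'
  have hmem : ∀ y : X, y ∈ AddSubgroup.zmultiples x₀ := fun y => by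
    rw [htop]
    exact AddSubgroup.mem_top y
  obtain ⟨a, ha⟩ := AddSubgroup.mem_zmultiples_iff.1 (hmem (φ x₀))
  have hφa : ∀ y, φ y = a • y := by
    intro y
    obtain ⟨k, rfl⟩ := AddSubgroup.mem_zmultiples_iff.1 (hmem y)
    rw [map_zsmul, ← ha, smul_comm]
  have hiter : ∀ n : ℕ, ∀ y, φ^[n] y = (a ^ n) • y := by
    intro n
    induction n with
    | zero =>
      intro y
      rw [Function.iterate_zero, id, pow_zero, one_smul]
    | succ n ih =>
      intro y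
      rw [Function.iterate_succ_apply', ih, hφa, smul_smul, pow_succ, mul_comm]
  have hndvd : ¬ (p : ℤ) ∣ a := by
    rintro ⟨b, rfl⟩
    have h0 : φ x₀ = 0 := by
      rw [← ha, mul_smul, natCast_zsmul, hpx]
    exact hx₀ (hφ (h0.trans (map_zero φ).symm))
  have hcop : IsCoprime a (p : ℤ) :=
    (IsCoprime.symm ((Prime.coprime_iff_not_dvd (Nat.prime_iff_prime_int.mp hp)).2 hndvd))
  have hmod := Int.ModEq.pow_card_sub_one_eq_one hp hcop
  obtain ⟨k, hk⟩ := Int.modEq_iff_dvd.1 hmod.symm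
  have e : a ^ (p - 1) = 1 + (p : ℤ) * k := by linarith
  rw [hiter, e, add_smul, one_smul, mul_smul, natCast_zsmul, hpx, add_zero]

section Pow

variable {p : ℕ} [Fact p.Prime] {M : Type} [AddCommGroup M] [DistribMulAction GQ M]

/-- the action of `γ ∈ G_p` on `C` -/
def r38epEndC (γ : GQq p) : r38epC p M →+ r38epC p M :=
  AddMonoidHom.mk' (fun c => ⟨localGaloisToGlobal p γ • (c : M), r38ep_C_stable p γ c.2⟩)
    (fun _ _ => Subtype.ext (smul_add _ _ _))

theorem r38epEndC_iterate (γ : GQq p) (n : ℕ) (c : r38epC p M) :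
    (((r38epEndC γ)^[n] c : r38epC p M) : M) = localGaloisToGlobal p (γ ^ n) • (c : M) := by
  induction n with
  | zero => rw [Function.iterate_zero, id, pow_zero, map_one, one_smul]
  | succ n ih =>
    rw [Function.iterate_succ_apply', pow_succ', map_mul, mul_smul, ← ih]
    rfl

theorem r38epEndC_injective (γ : GQq p) : Function.Injective (r38epEndC (M := M) γ) := by
  intro a b hab
  have h := congrArg Subtype.val hab
  have h' : localGaloisToGlobal p γ • (a : M) = localGaloisToGlobal p γ • (b : M) := h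
  exact Subtype.ext (smul_left_cancel _ h')

/-- `τ ^ (p - 1)` acts trivially on `C` -/
theorem r38ep_pow_fix_C (hcard : Nat.card (r38epC p M) = p) (τ : GQq p) {c : M}
    (hc : c ∈ r38epC p M) : localGaloisToGlobal p (τ ^ (p - 1)) • c = c := by
  have h := r38ep_end_pow hcard (r38epEndC τ) (r38epEndC_injective τ) ⟨c, hc⟩
  have h2 := r38epEndC_iterate τ (p - 1) (⟨c, hc⟩ : r38epC p M)
  rw [h] at h2
  exact h2.symm

/-- the action of `γ ∈ G_p` on `M/C` -/
def r38epEndQ (γ : GQq p) : (M ⧸ r38epC p M) →+ (M ⧸ r38epC p M) :=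
  QuotientAddGroup.map (r38epC p M) (r38epC p M)
    (DistribSMul.toAddMonoidHom M (localGaloisToGlobal p γ))
    (fun _ hc => r38ep_C_stable p γ hc)

theorem r38epEndQ_mk (γ : GQq p) (m : M) :
    r38epEndQ γ (QuotientAddGroup.mk m) =
      QuotientAddGroup.mk (localGaloisToGlobal p γ • m) := rfl

theorem r38epEndQ_iterate (γ : GQq p) (n : ℕ) (m : M) :
    (r38epEndQ γ)^[n] (QuotientAddGroup.mk m) =
      (QuotientAddGroup.mk (localGaloisToGlobal p (γ ^ n) • m) : M ⧸ r38epC p M) := by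
  induction n with
  | zero => rw [Function.iterate_zero, id, pow_zero, map_one, one_smul]
  | succ n ih =>
    rw [Function.iterate_succ_apply', ih, r38epEndQ_mk, pow_succ', map_mul, mul_smul]

theorem r38epEndQ_injective (γ : GQq p) : Function.Injective (r38epEndQ (M := M) γ) := by
  rw [injective_iff_map_eq_zero]
  intro a ha
  obtain ⟨m, rfl⟩ := QuotientAddGroup.mk_surjective a
  rw [r38epEndQ_mk, QuotientAddGroup.eq_zero_iff] at ha
  rw [QuotientAddGroup.eq_zero_iff]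
  have h := r38ep_C_stable p γ⁻¹ ha
  rwa [map_inv, inv_smul_smul] at h

/-- `τ ^ (p - 1)` acts trivially on `M/C` -/
theorem r38ep_pow_fix_Q (hidx : (r38epC p M).index = p) (τ : GQq p) (m : M) :
    localGaloisToGlobal p (τ ^ (p - 1)) • m - m ∈ r38epC p M := by
  have h := r38ep_end_pow (X := M ⧸ r38epC p M) hidx (r38epEndQ τ) (r38epEndQ_injective τ)
    (QuotientAddGroup.mk m)
  rw [r38epEndQ_iterate] at h
  rw [← QuotientAddGroup.eq_zero_iff, QuotientAddGroup.mk_sub, h, sub_self]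

/-- `τ ^ (p - 1) ∈ N` -/
theorem r38ep_pow_mem_N (hcard : Nat.card (r38epC p M) = p) (hidx : (r38epC p M).index = p)
    (τ : GQq p) : τ ^ (p - 1) ∈ r38epN p M := by
  refine ⟨?_, fun c hc => r38ep_pow_fix_C hcard τ hc, fun m => r38ep_pow_fix_Q hidx τ m⟩
  rw [map_pow]
  exact ZMod.units_pow_card_sub_one_eq_one p _

end Pow

end Fermat.Agent.R38

end
end ZBTW_001_11

/-! ### bundled: `Fermat.Agent.TW.W.LvKum` -/
section ZBTW_001_12

/-!
# TW-W chain A / KUM (helper64): Hilbert 90 in resolvent form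

`stmtLvKum : StmtLvKum`.  `T ≤ M₁` intermediate fields of `ℚ̄_p/ℚ_p`, `M₁` finite normal,
`ζ ∈ T` a primitive `p`-th root of unity, `χ : G_p → 𝔽_p` a homomorphism on `G_T` vanishing on
`G_{M₁}`.  The Lagrange resolvent `α = Σ_g ζ^{-χ(g)} g(θ)` (sum over the `g ∈ Gal(M₁/ℚ_p)` fixing
`T`) satisfies `σ α = ζ^{χ(σ)} α` for `σ ∈ G_T`, and is `≠ 0` for a suitable `θ` (Dedekind).
-/

set_option autoImplicit false
set_option linter.unusedSectionVars false
set_option linter.style.haveILetI false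

noncomputable section

namespace Fermat.Agent.TW.W

open Fermat.Agent.PT Fermat.Agent.PT.B

section Pow

variable {K : Type} [Field K] (p : ℕ) [Fact p.Prime]

/-- `ζ ^ n` for `n : ZMod p` -/
def lvkPow (ζ : K) (n : ZMod p) : K := ζ ^ n.val

theorem lvkPow_add (ζ : K) (hζ : ζ ^ p = 1) (a b : ZMod p) :
    lvkPow p ζ (a + b) = lvkPow p ζ a * lvkPow p ζ b := by
  unfold lvkPow
  rw [← pow_add, ZMod.val_add, ← pow_eq_pow_mod _ hζ]

theorem lvkPow_zero (ζ : K) : lvkPow p ζ 0 = 1 := by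
  unfold lvkPow
  rw [ZMod.val_zero, pow_zero]

theorem lvkPow_ne_zero (ζ : K) (hζ : ζ ^ p = 1) (a : ZMod p) : lvkPow p ζ a ≠ 0 := by
  unfold lvkPow
  have h0 : ζ ≠ 0 := by
    rintro rfl
    rw [zero_pow (Fact.out : p.Prime).ne_zero] at hζ
    exact zero_ne_one hζ
  exact pow_ne_zero _ h0

theorem lvkPow_pow (ζ : K) (hζ : ζ ^ p = 1) (a : ZMod p) : (lvkPow p ζ a) ^ p = 1 := by
  unfold lvkPow
  rw [← pow_mul, mul_comm, pow_mul, hζ, one_pow]

theorem lvkPow_eq_one (ζ : K) (hζ : ζ ^ p = 1) (hζ1 : ζ ≠ 1) (a : ZMod p)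
    (h : lvkPow p ζ a = 1) : a = 0 := by
  unfold lvkPow at h
  have hord : orderOf ζ = p := orderOf_eq_prime hζ hζ1
  have hdvd : p ∣ a.val := by
    have := orderOf_dvd_of_pow_eq_one h
    rwa [hord] at this
  have hlt : a.val < p := ZMod.val_lt a
  have h0 : a.val = 0 := Nat.eq_zero_of_dvd_of_lt hdvd hlt
  exact (ZMod.val_eq_zero a).1 h0

end Pow

/-- **KUM** -/
theorem stmtLvKum : StmtLvKum := by
  intro p _ T M₁ hTM hfin hnor hζ χ hχ hχM
  obtain ⟨ζ, hζT, hζ1, hζp⟩ := hζ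
  classical
  haveI := hfin
  haveI := hnor
  haveI : IsAlgClosure ℚ_[p] (PadicAlgCl p) :=
    ⟨inferInstance, AlgebraicClosure.isAlgebraic ℚ_[p]⟩
  haveI : IsGalois ℚ_[p] (PadicAlgCl p) := inferInstance
  haveI : Fintype (M₁ ≃ₐ[ℚ_[p]] M₁) := Fintype.ofFinite _
  -- restriction to `M₁`
  have hres_surj : Function.Surjective
      (AlgEquiv.restrictNormalHom (F := ℚ_[p]) (K₁ := PadicAlgCl p) M₁) :=
    AlgEquiv.restrictNormalHom_surjective (PadicAlgCl p)
  have hres : ∀ (σ : GQq p) (x : M₁),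
      ((AlgEquiv.restrictNormalHom (F := ℚ_[p]) (K₁ := PadicAlgCl p) M₁ σ x : M₁) :
        PadicAlgCl p) = σ (x : PadicAlgCl p) :=
    fun σ x => AlgEquiv.restrictNormal_commutes σ M₁ x
  set res : GQq p →* (M₁ ≃ₐ[ℚ_[p]] M₁) :=
    AlgEquiv.restrictNormalHom (F := ℚ_[p]) (K₁ := PadicAlgCl p) M₁ with hresdef
  -- elements fixing `T`
  let FixT : (M₁ ≃ₐ[ℚ_[p]] M₁) → Prop := fun g =>
    ∀ (t : PadicAlgCl p) (ht : t ∈ T), g ⟨t, hTM ht⟩ = ⟨t, hTM ht⟩
  have hF1 : ∀ σ ∈ T.fixingSubgroup, FixT (res σ) := by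
    intro σ hσ t ht
    apply Subtype.ext
    rw [hres]
    exact (IntermediateField.mem_fixingSubgroup_iff T σ).1 hσ t ht
  have hmemT : ∀ σ : GQq p, (∀ t ∈ T, σ t = t) → σ ∈ T.fixingSubgroup :=
    fun σ h => (IntermediateField.mem_fixingSubgroup_iff T σ).2 h
  have hF2 : ∀ σ : GQq p, FixT (res σ) → σ ∈ T.fixingSubgroup := by
    intro σ h
    apply hmemT
    intro t ht
    have := congrArg (Subtype.val) (h t ht)
    rw [hres] at this
    exact this
  -- the lift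
  let lift : (M₁ ≃ₐ[ℚ_[p]] M₁) → GQq p := fun g => Classical.choose (hres_surj g)
  have hlift : ∀ g, res (lift g) = g := fun g => Classical.choose_spec (hres_surj g)
  have hχ1 : χ 1 = 0 := by
    have := hχ 1 1 (one_mem _) (one_mem _)
    rw [mul_one] at this
    exact left_eq_add.mp this
  have hχinv : ∀ σ ∈ T.fixingSubgroup, χ σ⁻¹ = - χ σ := by
    intro σ hσ
    have := hχ σ σ⁻¹ hσ (inv_mem hσ)
    rw [mul_inv_cancel, hχ1] at this
    exact eq_neg_of_add_eq_zero_right this.symm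
  -- `χ` on `Gal(M₁/ℚ_p)`
  let χ' : (M₁ ≃ₐ[ℚ_[p]] M₁) → ZMod p := fun g => χ (lift g)
  have hF3 : ∀ σ ∈ T.fixingSubgroup, χ' (res σ) = χ σ := by
    intro σ hσ
    have h1 : lift (res σ) ∈ T.fixingSubgroup := by
      apply hF2
      rw [hlift]
      exact hF1 σ hσ
    have h2 : σ⁻¹ * lift (res σ) ∈ M₁.fixingSubgroup := by
      rw [IntermediateField.mem_fixingSubgroup_iff]
      intro x hx
      have h3 : lift (res σ) x = σ x := by
        have := hres (lift (res σ)) ⟨x, hx⟩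
        rw [hlift, hres] at this
        exact this.symm
      show σ⁻¹ (lift (res σ) x) = x
      rw [h3]
      show (σ⁻¹ * σ) x = x
      rw [inv_mul_cancel]
      rfl
    have h4 : lift (res σ) = σ * (σ⁻¹ * lift (res σ)) := by
      rw [← mul_assoc, mul_inv_cancel, one_mul]
    show χ (lift (res σ)) = χ σ
    rw [h4, hχ σ _ hσ (mul_mem (inv_mem hσ) h1), hχM _ h2, add_zero]
  -- the coefficients
  let ζ₁ : M₁ := ⟨ζ, hTM hζT⟩
  have hζ₁p : ζ₁ ^ p = 1 := Subtype.ext (by simpa using hζp)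
  have hζ₁1 : ζ₁ ≠ 1 := fun h => hζ1 (congrArg Subtype.val h)
  let c : (M₁ ≃ₐ[ℚ_[p]] M₁) → M₁ := fun g => if FixT g then lvkPow p ζ₁ (- χ' g) else 0
  have hc1 : c 1 ≠ 0 := by
    have : FixT 1 := fun t ht => rfl
    show (if FixT 1 then lvkPow p ζ₁ (- χ' 1) else 0) ≠ 0
    rw [if_pos this]
    exact lvkPow_ne_zero p ζ₁ hζ₁p _
  -- Dedekind
  have hind : LinearIndependent M₁ (fun g : (M₁ ≃ₐ[ℚ_[p]] M₁) => ((g : M₁ →* M₁) : M₁ → M₁)) := by
    have h0 := linearIndependent_monoidHom M₁ M₁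
    refine h0.comp (fun g : (M₁ ≃ₐ[ℚ_[p]] M₁) => (g : M₁ →* M₁)) ?_
    intro g g' hgg'
    apply AlgEquiv.ext
    intro x
    exact DFunLike.congr_fun hgg' x
  obtain ⟨θ, hθ⟩ : ∃ θ : M₁, (∑ g : (M₁ ≃ₐ[ℚ_[p]] M₁), c g * g θ) ≠ 0 := by
    by_contra hcon
    have hall : ∀ θ : M₁, (∑ g : (M₁ ≃ₐ[ℚ_[p]] M₁), c g * g θ) = 0 := by
      intro θ
      by_contra h
      exact hcon ⟨θ, h⟩
    have hsum : (∑ g : (M₁ ≃ₐ[ℚ_[p]] M₁), c g • ((g : M₁ →* M₁) : M₁ → M₁)) = 0 := by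
      funext θ
      rw [Finset.sum_apply]
      simpa using hall θ
    exact hc1 (Fintype.linearIndependent_iff.1 hind c hsum 1)
  set R : M₁ := ∑ g : (M₁ ≃ₐ[ℚ_[p]] M₁), c g * g θ with hR
  -- the twist
  have hFixmul : ∀ h g, FixT h → FixT g → FixT (h * g) := by
    intro h g hh hg t ht
    show h (g ⟨t, hTM ht⟩) = _
    rw [hg t ht, hh t ht]
  have hFixinv : ∀ h, FixT h → FixT h⁻¹ := by
    intro h hh t ht
    have := hh t ht
    calc h⁻¹ ⟨t, hTM ht⟩ = h⁻¹ (h ⟨t, hTM ht⟩) := by rw [this]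
      _ = (h⁻¹ * h) ⟨t, hTM ht⟩ := rfl
      _ = ⟨t, hTM ht⟩ := by rw [inv_mul_cancel]; rfl
  have hcfix : ∀ h g, FixT h → h (c g) = c g := by
    intro h g hh
    show h (if FixT g then lvkPow p ζ₁ (- χ' g) else 0) =
      (if FixT g then lvkPow p ζ₁ (- χ' g) else 0)
    by_cases hg : FixT g
    · rw [if_pos hg]
      unfold lvkPow
      rw [map_pow]
      have : h ζ₁ = ζ₁ := hh ζ hζT
      rw [this]
    · rw [if_neg hg]
      exact map_zero h
  have htwist : ∀ τ ∈ T.fixingSubgroup, res τ R = lvkPow p ζ₁ (χ τ) * R := by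
    intro τ hτ
    have hh := hF1 τ hτ
    rw [hR, map_sum, Finset.mul_sum]
    have h1 : ∀ g, res τ (c g * g θ) = c g * (res τ * g) θ := by
      intro g
      rw [map_mul, hcfix _ g hh]
      rfl
    simp only [h1]
    rw [← Equiv.sum_comp (Equiv.mulLeft (res τ))
      (fun g => lvkPow p ζ₁ (χ τ) * (c g * g θ))]
    refine Finset.sum_congr rfl (fun g _ => ?_)
    show c g * (res τ * g) θ = lvkPow p ζ₁ (χ τ) * (c (res τ * g) * (res τ * g) θ)
    have h2 : c g = lvkPow p ζ₁ (χ τ) * c (res τ * g) := by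
      show (if FixT g then lvkPow p ζ₁ (- χ' g) else 0) =
        lvkPow p ζ₁ (χ τ) * (if FixT (res τ * g) then lvkPow p ζ₁ (- χ' (res τ * g)) else 0)
      by_cases hg : FixT g
      · have hg' : FixT (res τ * g) := hFixmul _ _ hh hg
        rw [if_pos hg, if_pos hg', ← lvkPow_add p ζ₁ hζ₁p]
        congr 1
        -- `χ' (res τ * g) = χ τ + χ' g`
        have h3 : lift g ∈ T.fixingSubgroup := by
          apply hF2
          rw [hlift]
          exact hg
        have h4 : χ' (res τ * g) = χ τ + χ' g := by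
          have h5 : res τ * g = res (τ * lift g) := by
            rw [map_mul, hlift]
          rw [h5, hF3 _ (mul_mem hτ h3), hχ τ _ hτ h3]
        rw [h4]
        ring
      · have hg' : ¬ FixT (res τ * g) := by
          intro hcon
          apply hg
          have := hFixmul _ _ (hFixinv _ hh) hcon
          rwa [← mul_assoc, inv_mul_cancel, one_mul] at this
        rw [if_neg hg, if_neg hg', mul_zero]
    rw [h2]
    ring
  -- conclusion
  have hR0 : R ≠ 0 := hθ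
  have hσα : ∀ σ ∈ T.fixingSubgroup,
      σ (R : PadicAlgCl p) = ((lvkPow p ζ₁ (χ σ) : M₁) : PadicAlgCl p) * (R : PadicAlgCl p) := by
    intro σ hσ
    rw [← hres σ R, htwist σ hσ]
    rfl
  refine ⟨(R : PadicAlgCl p), R.2, fun h => hR0 (Subtype.ext h), ?_, ?_⟩
  · -- `α ^ p ∈ T`
    have hfix : (R : PadicAlgCl p) ^ p ∈ IntermediateField.fixedField T.fixingSubgroup := by
      rw [IntermediateField.mem_fixedField_iff]
      intro σ hσ
      rw [map_pow, hσα σ hσ, mul_pow]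
      have : (((lvkPow p ζ₁ (χ σ) : M₁) : PadicAlgCl p)) ^ p = 1 := by
        have := congrArg (Subtype.val) (lvkPow_pow p ζ₁ hζ₁p (χ σ))
        simpa using this
      rw [this, one_mul]
    rwa [InfiniteGalois.fixedField_fixingSubgroup] at hfix
  · intro σ hσ hfixα
    have h1 := hσα σ hσ
    rw [hfixα] at h1
    have hR0' : (R : PadicAlgCl p) ≠ 0 := fun h => hR0 (Subtype.ext h)
    have h2 : ((lvkPow p ζ₁ (χ σ) : M₁) : PadicAlgCl p) = 1 := by
      have h3 : (1 : PadicAlgCl p) * (R : PadicAlgCl p) =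
          ((lvkPow p ζ₁ (χ σ) : M₁) : PadicAlgCl p) * (R : PadicAlgCl p) := by
        rw [one_mul]
        exact h1
      exact (mul_right_cancel₀ hR0' h3).symm
    have h4 : lvkPow p ζ₁ (χ σ) = 1 := Subtype.ext h2
    exact lvkPow_eq_one p ζ₁ hζ₁p hζ₁1 _ h4

end Fermat.Agent.TW.W

end


end ZBTW_001_12

/-! ### bundled: `Fermat.Agent.TW.W.LvTowerPlan` -/
section ZBTW_001_13
/-
TW-W chain A, TOWER (helper57): INTERFACE + ASSEMBLY.

`StmtLvTower` (LevelPlan.lean) ⇐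
* `StmtLvtCyc`     : an unramified finite normal `U/ℚ_p` (`U = ℚ_p(ζ_m)`, `m = p^(d+1) - 1`) such that
                     every finite `T' ⊇ U` has a residue field with more than `p^d` elements;
* `StmtLvtInertia` : the maximal unramified subextension `K` of a finite normal `F/ℚ_p`
                     (fixed field of the inertial automorphisms): `p` is a uniformiser of `K`,
                     `F/K` is totally ramified, `K` is normal and contains every unramified normal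
                     `U ≤ F`;
* `StmtLvtMid`     : `K ≤ N ≤ F`, `N`, `F` normal over `ℚ_p`, `F/K` totally ramified ⇒ `N/K` totally
                     ramified;
* `StmtLvtUnr`     : `K/ℚ_p` normal with uniformiser `p`, `T/ℚ_p` normal ⇒ a uniformiser of `T` is
                     a uniformiser of `T ⊔ K`.
-/

set_option autoImplicit false
set_option linter.unusedSectionVars false
set_option linter.style.haveILetI false

noncomputable section

namespace Fermat.Agent.TW.W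

open Fermat.Agent.PT Fermat.Agent.PT.B Fermat.Agent.PT.L IsLocalRing

/-- **CYC**: an unramified normal extension with large residue field. -/
def StmtLvtCyc : Prop :=
  ∀ (p : ℕ) [Fact p.Prime] (d : ℕ),
    ∃ (U : IntermediateField ℚ_[p] (PadicAlgCl p)) (_ : FiniteDimensional ℚ_[p] U),
      Normal ℚ_[p] U ∧ IsUnram p ℚ_[p] U ∧
      ∀ (T' : IntermediateField ℚ_[p] (PadicAlgCl p)) (_ : FiniteDimensional ℚ_[p] T'),
        U ≤ T' → p ^ d < Nat.card (ResidueField (UE.OV p stmtWAdd T'))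

/-- **INERTIA**: the maximal unramified subextension of a finite normal extension. -/
def StmtLvtInertia : Prop :=
  ∀ (p : ℕ) [Fact p.Prime] (F : IntermediateField ℚ_[p] (PadicAlgCl p)),
    FiniteDimensional ℚ_[p] F → Normal ℚ_[p] F →
    ∃ K : IntermediateField ℚ_[p] (PadicAlgCl p), K ≤ F ∧ Normal ℚ_[p] K ∧
      IsUnif p ((p : ℕ) : K) ∧ (∃ π : F, IsUnif p π ∧ wv p π = wv p ((p : ℕ) : K)) ∧
      ∀ U : IntermediateField ℚ_[p] (PadicAlgCl p), U ≤ F → Normal ℚ_[p] U →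
        IsUnram p ℚ_[p] U → U ≤ K

/-- **MID**: intermediate fields of a totally ramified extension. -/
def StmtLvtMid : Prop :=
  ∀ (p : ℕ) [Fact p.Prime] (K N F : IntermediateField ℚ_[p] (PadicAlgCl p)), K ≤ N → N ≤ F →
    FiniteDimensional ℚ_[p] F → Normal ℚ_[p] N → Normal ℚ_[p] F →
    ∀ (πK : K) (πF : F), IsUnif p πK → IsUnif p πF → wv p πF = wv p πK →
      ∃ πN : N, IsUnif p πN ∧ wv p πN = wv p πK

/-- **UNR**: the compositum with an unramified extension is unramified. -/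
def StmtLvtUnr : Prop :=
  ∀ (p : ℕ) [Fact p.Prime] (T K : IntermediateField ℚ_[p] (PadicAlgCl p)),
    FiniteDimensional ℚ_[p] T → Normal ℚ_[p] T → FiniteDimensional ℚ_[p] K → Normal ℚ_[p] K →
    IsUnif p ((p : ℕ) : K) →
    ∃ π : T, IsUnif p π ∧ IsUnif p (IntermediateField.inclusion (le_sup_left : T ≤ T ⊔ K) π)

/-- the assembly of TOWER -/
theorem stmtLvTower_of (hC : StmtLvtCyc) (hI : StmtLvtInertia) (hM : StmtLvtMid)
    (hU : StmtLvtUnr) : StmtLvTower := by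
  intro p _ T L₀ hTf hTn hLf hLn
  haveI := hTf
  haveI := hTn
  haveI := hLf
  haveI := hLn
  obtain ⟨U, hUf, hUn, hUu, hbig⟩ := hC p (Module.finrank ℚ_[p] L₀)
  haveI := hUf
  haveI := hUn
  -- the big field
  obtain ⟨K, hKF, hKn, hKu, ⟨πF, hπF, hπFK⟩, hmax⟩ := hI p (T ⊔ L₀ ⊔ U) inferInstance inferInstance
  haveI := hKn
  have hUK : U ≤ K := hmax U le_sup_right hUn hUu
  haveI hKf : FiniteDimensional ℚ_[p] K :=
    FiniteDimensional.of_injective (IntermediateField.inclusion hKF).toLinearMap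
      (IntermediateField.inclusion_injective hKF)
  have hTF : T ≤ T ⊔ L₀ ⊔ U := le_sup_left.trans le_sup_left
  have hLF : L₀ ≤ T ⊔ L₀ ⊔ U := le_sup_right.trans le_sup_left
  have hT'F : T ⊔ K ≤ T ⊔ L₀ ⊔ U := sup_le hTF hKF
  have hM'F : T ⊔ K ⊔ L₀ ≤ T ⊔ L₀ ⊔ U := sup_le hT'F hLF
  have hKeq : (((p : ℕ) : ℚ_[p]) • (1 : K)) = ((p : ℕ) : K) := by
    rw [Algebra.smul_def, mul_one, map_natCast]
  obtain ⟨πT', hπT', hπT'K⟩ := hM p K (T ⊔ K) (T ⊔ L₀ ⊔ U) le_sup_right hT'F inferInstance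
    inferInstance inferInstance _ πF hKu hπF hπFK
  obtain ⟨πM', hπM', hπM'K⟩ := hM p K (T ⊔ K ⊔ L₀) (T ⊔ L₀ ⊔ U)
    (le_sup_right.trans le_sup_left) hM'F inferInstance inferInstance inferInstance _ πF hKu hπF
    hπFK
  refine ⟨K, T ⊔ K, inferInstance, le_sup_left, le_sup_right, inferInstance, ?_, ?_, ?_, ?_⟩
  · rw [hKeq]
    exact hKu
  · rw [hKeq]
    exact ⟨πT', hπT', hπT'K, πM', hπM', hπM'K.trans hπT'K.symm⟩
  · exact hU p T K inferInstance inferInstance inferInstance inferInstance hKu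
  · exact hbig (T ⊔ K) inferInstance (hUK.trans le_sup_right)

end Fermat.Agent.TW.W

end
end ZBTW_001_13

/-! ### bundled: `Fermat.Agent.TW.W.LvtCyc` -/
section ZBTW_001_14
/-
TW-W chain A, TOWER piece CYC (helper64): `stmtLvtCyc : StmtLvtCyc`.

`U := ℚ_p(ζ)`, `ζ` a primitive `m`-th root of unity, `m = p^(d+1) - 1`: finite, normal, unramified
(`gbq_isUnram`), and in every finite `T' ⊇ U` the `m + 1` elements `0, 1, ζ, …, ζ^(m-1)` have
pairwise distinct residues.
-/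

set_option autoImplicit false
set_option linter.unusedSectionVars false
set_option linter.style.haveILetI false

noncomputable section

namespace Fermat.Agent.TW.W

open Fermat.Agent.PT Fermat.Agent.PT.B Fermat.Agent.PT.L Fermat.Agent.PT.G3 IsLocalRing Polynomial

section

variable (p : ℕ) [Fact p.Prime]

/-- the residue field of a finite extension of `ℚ_p` containing a primitive `m`-th root of unity,
`p ∤ m`, has at least `m + 1` elements -/
theorem lvtc_card_residue {F : Type} [Field F] [Algebra ℚ_[p] F] [FiniteDimensional ℚ_[p] F]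
    {m : ℕ} (hm : m ≠ 0) (hpm : ¬ p ∣ m) (ζ : F) (hζ : IsPrimitiveRoot ζ m) :
    m + 1 ≤ Nat.card (ResidueField (UE.OV p stmtWAdd F)) := by
  classical
  haveI := UE.finite_residueField p stmtWAdd (X := F) stmtWFinite
  have hζm : ζ ^ m = 1 := hζ.pow_eq_one
  let t : UE.OV p stmtWAdd F := ⟨ζ, gbq_mem_OV_of_pow_eq_one p hm hζm⟩
  have htm : t ^ m = 1 := Subtype.ext hζm
  have hunit : ∀ i : ℕ, residue (UE.OV p stmtWAdd F) (t ^ i) ≠ 0 := by
    intro i h
    have h1 : residue (UE.OV p stmtWAdd F) (t ^ i) ^ m = 1 := by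
      rw [← map_pow, ← pow_mul, mul_comm, pow_mul, htm, one_pow, map_one]
    rw [h, zero_pow hm] at h1
    exact zero_ne_one h1
  have hkey : ∀ i j : ℕ, i ≤ j → j < m →
      residue (UE.OV p stmtWAdd F) (t ^ i) = residue (UE.OV p stmtWAdd F) (t ^ j) → i = j := by
    intro i j hij hjm h
    have h1 : t ^ j = t ^ i * t ^ (j - i) := by
      rw [← pow_add, Nat.add_sub_cancel' hij]
    rw [h1, map_mul] at h
    have h2 : residue (UE.OV p stmtWAdd F) (t ^ (j - i)) = 1 := by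
      have h3 := mul_left_cancel₀ (hunit i) ((mul_one _).trans h)
      exact h3.symm
    have h4 : t ^ (j - i) = 1 :=
      gbq_eq_one_of_residue_eq_one p hm hpm (t ^ (j - i))
        (by rw [← pow_mul, mul_comm, pow_mul, htm, one_pow]) h2
    have h5 : ζ ^ (j - i) = 1 := by
      have := congrArg Subtype.val h4
      simpa [t] using this
    have h6 : m ∣ j - i := (hζ.pow_eq_one_iff_dvd _).1 h5
    have h7 : j - i = 0 := Nat.eq_zero_of_dvd_of_lt h6 (by omega)
    omega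
  let f : Option (Fin m) → ResidueField (UE.OV p stmtWAdd F) := fun o =>
    match o with
    | none => 0
    | some i => residue (UE.OV p stmtWAdd F) (t ^ (i : ℕ))
  have hinj : Function.Injective f := by
    intro a b hab
    cases a with
    | none =>
      cases b with
      | none => rfl
      | some j => exact absurd hab.symm (hunit j)
    | some i =>
      cases b with
      | none => exact absurd hab (hunit i)
      | some j =>
        have hab' : residue (UE.OV p stmtWAdd F) (t ^ (i : ℕ)) =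
            residue (UE.OV p stmtWAdd F) (t ^ (j : ℕ)) := hab
        rcases le_total (i : ℕ) (j : ℕ) with h | h
        · have := hkey i j h j.2 hab'
          exact congrArg some (Fin.ext this)
        · have := hkey j i h i.2 hab'.symm
          exact congrArg some (Fin.ext this.symm)
  have hcard := Nat.card_le_card_of_injective f hinj
  have h0 : Nat.card (Option (Fin m)) = m + 1 := by
    rw [Nat.card_eq_fintype_card, Fintype.card_option, Fintype.card_fin]
  rwa [h0] at hcard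

/-- every element of `ℚ_p(ζ)` is a polynomial in `ζ` -/
theorem lvtc_gen (ζ : PadicAlgCl p) (hint : IsIntegral ℚ_[p] ζ)
    (y : IntermediateField.adjoin ℚ_[p] ({ζ} : Set (PadicAlgCl p))) :
    ∃ P : ℚ_[p][X], eval₂ (algebraMap ℚ_[p] (IntermediateField.adjoin ℚ_[p]
      ({ζ} : Set (PadicAlgCl p))))
      (⟨ζ, IntermediateField.mem_adjoin_simple_self ℚ_[p] ζ⟩ :
        IntermediateField.adjoin ℚ_[p] ({ζ} : Set (PadicAlgCl p))) P = y := by
  have h1 : (y : PadicAlgCl p) ∈ (IntermediateField.adjoin ℚ_[p]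
      ({ζ} : Set (PadicAlgCl p))).toSubalgebra := y.2
  rw [IntermediateField.adjoin_simple_toSubalgebra_of_isAlgebraic hint.isAlgebraic,
    Algebra.adjoin_singleton_eq_range_aeval] at h1
  obtain ⟨P, hP⟩ := h1
  refine ⟨P, ?_⟩
  apply Subtype.ext
  have h2 := Polynomial.aeval_algHom_apply
    (IntermediateField.adjoin ℚ_[p] ({ζ} : Set (PadicAlgCl p))).val
    (⟨ζ, IntermediateField.mem_adjoin_simple_self ℚ_[p] ζ⟩ :
        IntermediateField.adjoin ℚ_[p] ({ζ} : Set (PadicAlgCl p))) P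
  have h3 : ((IntermediateField.adjoin ℚ_[p] ({ζ} : Set (PadicAlgCl p))).val
      (aeval (⟨ζ, IntermediateField.mem_adjoin_simple_self ℚ_[p] ζ⟩ :
        IntermediateField.adjoin ℚ_[p] ({ζ} : Set (PadicAlgCl p))) P)) = aeval ζ P := h2.symm
  exact h3.trans hP

end

/-- **CYC** -/
theorem stmtLvtCyc : StmtLvtCyc := by
  intro p _ d
  classical
  have hp : p.Prime := Fact.out
  haveI : Algebra.IsAlgebraic ℚ_[p] (PadicAlgCl p) := AlgebraicClosure.isAlgebraic ℚ_[p]
  haveI : IsAlgClosure ℚ_[p] (PadicAlgCl p) := ⟨inferInstance, inferInstance⟩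
  haveI : Normal ℚ_[p] (PadicAlgCl p) := IsAlgClosure.normal ℚ_[p] (PadicAlgCl p)
  have hpow : 2 ≤ p ^ (d + 1) :=
    hp.two_le.trans (Nat.le_self_pow (Nat.succ_ne_zero d) p)
  obtain ⟨m, hm1⟩ : ∃ m : ℕ, m + 1 = p ^ (d + 1) := ⟨p ^ (d + 1) - 1, by omega⟩
  have hm0 : m ≠ 0 := by omega
  have hpm : ¬ p ∣ m := by
    intro h
    have h1 : p ∣ m + 1 := by
      rw [hm1]
      exact dvd_pow_self p (Nat.succ_ne_zero d)
    have h2 : p ∣ 1 := (Nat.dvd_add_right h).1 h1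
    exact hp.one_lt.ne' (Nat.dvd_one.1 h2)
  haveI : NeZero ((m : ℕ) : ℚ_[p]) := ⟨by exact_mod_cast hm0⟩
  haveI : NeZero m := ⟨hm0⟩
  obtain ⟨ζ, hζ⟩ := HasEnoughRootsOfUnity.exists_primitiveRoot (PadicAlgCl p) m
  have hint : IsIntegral ℚ_[p] ζ := Algebra.IsIntegral.isIntegral ζ
  have hζU : ζ ∈ IntermediateField.adjoin ℚ_[p] ({ζ} : Set (PadicAlgCl p)) :=
    IntermediateField.mem_adjoin_simple_self ℚ_[p] ζ
  haveI hfin : FiniteDimensional ℚ_[p] (IntermediateField.adjoin ℚ_[p]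
      ({ζ} : Set (PadicAlgCl p))) := IntermediateField.adjoin.finiteDimensional hint
  have hnor : Normal ℚ_[p] (IntermediateField.adjoin ℚ_[p] ({ζ} : Set (PadicAlgCl p))) := by
    rw [IntermediateField.normal_iff_forall_map_le']
    intro σ
    rw [IntermediateField.adjoin_map, IntermediateField.adjoin_le_iff]
    rintro _ ⟨z, hz, rfl⟩
    rw [Set.mem_singleton_iff] at hz
    subst hz
    have h1 : (σ z) ^ m = 1 := by
      rw [← map_pow, hζ.pow_eq_one, map_one]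
    obtain ⟨i, -, hi⟩ := hζ.eq_pow_of_pow_eq_one h1
    have h2 : z ^ i ∈ IntermediateField.adjoin ℚ_[p] ({z} : Set (PadicAlgCl p)) :=
      pow_mem hζU i
    rw [hi] at h2
    exact h2
  haveI := hnor
  haveI : IsGalois ℚ_[p] (IntermediateField.adjoin ℚ_[p] ({ζ} : Set (PadicAlgCl p))) := ⟨⟩
  refine ⟨IntermediateField.adjoin ℚ_[p] ({ζ} : Set (PadicAlgCl p)), hfin, hnor, ?_, ?_⟩
  · exact gbq_isUnram p hm0 hpm
      (⟨ζ, hζU⟩ : IntermediateField.adjoin ℚ_[p] ({ζ} : Set (PadicAlgCl p)))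
      (Subtype.ext hζ.pow_eq_one) (lvtc_gen p ζ hint)
  · intro T' hT' hUT'
    haveI := hT'
    have hζT' : IsPrimitiveRoot (⟨ζ, hUT' hζU⟩ : T') m := by
      have h1 : IsPrimitiveRoot (T'.val (⟨ζ, hUT' hζU⟩ : T')) m := hζ
      exact IsPrimitiveRoot.of_map_of_injective (f := T'.val) h1 T'.val.toRingHom.injective
    have h1 := lvtc_card_residue p hm0 hpm (⟨ζ, hUT' hζU⟩ : T') hζT'
    have h2 : p ^ d < p ^ (d + 1) := Nat.pow_lt_pow_right hp.one_lt (Nat.lt_succ_self d)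
    omega

end Fermat.Agent.TW.W

end
end ZBTW_001_14

/-! ### bundled: `Fermat.Agent.TW.W.GB1` -/
section ZBTW_001_15
/-
TW-W / GB0 + GB1 (helper48): the cohomological reduction of (GB).

* `stmtGoodIndex : StmtGoodIndex` (GB0): for a good field `T`, `G_T` is normal in `G_p`, of finite
  index prime to `p` (`IntermediateField.finrank_eq_fixingSubgroup_index`).
* `stmtGBRed : StmtGBRed` (GB1): `dim levFlatH1 W ≤ h⁰(W) + dim gbHom T W`, and `gbHom T W = 0`
  forces all flat classes to be unramified.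

Proof of GB1.  `c ↦ c · 1_{I_T}` is a linear map `wgb1Res : levFlatCocycles W → gbHom T W`.  If
`c|_{I_T} = 0` then `c|_I` is right-invariant under `I_T`; averaging over the finite quotient
`I / I_T`, whose order divides `[G_p : G_T]` and is prime to `p`, gives `m` with `c = ∂m` on `I`
(`wgb1_avg`); `c - ∂m` is an unramified level cocycle in the class of `c`.  Linear algebra
(`wgb1_finrank_le`) and `TW.L.StmtUnrLe` conclude.
-/

set_option autoImplicit false
set_option linter.style.haveILetI false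
set_option linter.unusedSectionVars false

noncomputable section

namespace Fermat.Agent.TW.W

open CategoryTheory groupCohomology
open Fermat.Agent.PT Fermat.Agent.PT.B Fermat.Agent.TW.L

/-! ### GB0 -/

/-- **GB0**. -/
theorem stmtGoodIndex : StmtGoodIndex := by
  intro p _ T hT
  haveI := hT.finite
  haveI := hT.galois
  have hidx : Module.finrank ℚ_[p] T = (T.fixingSubgroup : Subgroup (GQq p)).index :=
    IntermediateField.finrank_eq_fixingSubgroup_index (PadicAlgCl p) T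
  refine ⟨(InfiniteGalois.normal_iff_isGalois T).2 hT.galois, ?_, ?_⟩
  · rw [← hidx]
    exact (Module.finrank_pos).ne'
  · rw [← hidx]
    exact hT.tame

/-! ### Averaging over a finite quotient of order invertible in `k` -/

section Avg

variable {k : Type} [CommRing k] {G : Type} [Group G] (M : Rep.{0} k G)

/-- A function `c` with the cocycle relation which vanishes on `I ⊓ N`, where the index of
`I ⊓ N` in `I` is finite and invertible in `k`, is a coboundary on `I`. -/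
theorem wgb1_avg (c : G → M) (hc : ∀ g h : G, c (g * h) = M.ρ g (c h) + c g)
    (I N : Subgroup G) (hfin : (N.subgroupOf I).index ≠ 0) (u : k)
    (hu : u * ((N.subgroupOf I).index : k) = 1) (hN : ∀ τ ∈ I ⊓ N, c τ = 0) :
    ∃ m : M, ∀ σ ∈ I, c σ = M.ρ σ m - m := by
  classical
  haveI : (N.subgroupOf I).FiniteIndex := ⟨hfin⟩
  haveI : Finite (↥I ⧸ N.subgroupOf I) := Subgroup.finite_quotient_of_finiteIndex
  letI : Fintype (↥I ⧸ N.subgroupOf I) := Fintype.ofFinite _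
  -- `c` is right-invariant under `I ⊓ N` on `I`
  have hinv : ∀ x y : ↥I, x⁻¹ * y ∈ N.subgroupOf I → c (x : G) = c (y : G) := by
    intro x y hxy
    have h1 : (y : G) = (x : G) * ((x : G)⁻¹ * (y : G)) := by group
    have h2 : (x : G)⁻¹ * (y : G) ∈ I ⊓ N := by
      refine ⟨I.mul_mem (I.inv_mem x.2) y.2, ?_⟩
      have := Subgroup.mem_subgroupOf.1 hxy
      simpa using this
    rw [h1, hc, hN _ h2, map_zero, zero_add]
  obtain ⟨f, hf⟩ : ∃ f : ↥I ⧸ N.subgroupOf I → M,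
      ∀ x : ↥I, f (QuotientGroup.mk x) = c (x : G) :=
    ⟨Quotient.lift (fun x : ↥I => c (x : G))
      (fun x y hxy => hinv x y (QuotientGroup.leftRel_apply.1 hxy)), fun _ => rfl⟩
  have hfσ : ∀ (σ : ↥I) (q : ↥I ⧸ N.subgroupOf I),
      f (σ • q) = M.ρ (σ : G) (f q) + c (σ : G) := by
    intro σ q
    induction q using QuotientGroup.induction_on with
    | H x =>
      have h1 : σ • (QuotientGroup.mk x : ↥I ⧸ N.subgroupOf I) = QuotientGroup.mk (σ * x) := rfl
      rw [h1, hf, hf, Subgroup.coe_mul, hc]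
  have hcard : Fintype.card (↥I ⧸ N.subgroupOf I) = (N.subgroupOf I).index := by
    rw [Subgroup.index, Nat.card_eq_fintype_card]
  refine ⟨-(u • ∑ q : ↥I ⧸ N.subgroupOf I, f q), fun σ hσ => ?_⟩
  have hsum : ∑ q : ↥I ⧸ N.subgroupOf I, f q =
      M.ρ σ (∑ q : ↥I ⧸ N.subgroupOf I, f q) + ((N.subgroupOf I).index : k) • c σ := by
    have h1 : ∑ q : ↥I ⧸ N.subgroupOf I, f ((⟨σ, hσ⟩ : ↥I) • q) =
        ∑ q : ↥I ⧸ N.subgroupOf I, f q :=
      Fintype.sum_equiv (MulAction.toPerm (⟨σ, hσ⟩ : ↥I)) _ _ (fun _ => rfl)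
    have h2 : ∑ q : ↥I ⧸ N.subgroupOf I, f ((⟨σ, hσ⟩ : ↥I) • q) =
        M.ρ σ (∑ q : ↥I ⧸ N.subgroupOf I, f q) + ((N.subgroupOf I).index : k) • c σ := by
      simp only [hfσ, Finset.sum_add_distrib, Finset.sum_const, Finset.card_univ, hcard, map_sum,
        Nat.cast_smul_eq_nsmul]
    rw [← h2, h1]
  have h2 : c σ = u • (((N.subgroupOf I).index : k) • c σ) := by
    rw [smul_smul, hu, one_smul]
  have h3 : ((N.subgroupOf I).index : k) • c σ =
      ∑ q : ↥I ⧸ N.subgroupOf I, f q - M.ρ σ (∑ q : ↥I ⧸ N.subgroupOf I, f q) :=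
    eq_sub_of_add_eq' hsum.symm
  rw [h2, h3, map_neg, map_smul, smul_sub]
  abel

end Avg

/-! ### Linear algebra -/

/-- If the kernel of `R` is mapped into `U` by `π` then
`dim (range π) ≤ dim U + dim (target of R)`. -/
theorem wgb1_finrank_le {K : Type*} [Field K] {Z H D : Type*} [AddCommGroup Z] [Module K Z]
    [AddCommGroup H] [Module K H] [AddCommGroup D] [Module K D] [Module.Finite K D]
    (π : Z →ₗ[K] H) (R : Z →ₗ[K] D) (U : Submodule K H) [Module.Finite K U]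
    (hker : ∀ z, R z = 0 → π z ∈ U) :
    Module.Finite K (LinearMap.range π) ∧
      Module.finrank K (LinearMap.range π) ≤ Module.finrank K U + Module.finrank K D := by
  obtain ⟨s, hs⟩ := LinearMap.exists_rightInverse_of_surjective R.rangeRestrict
    (LinearMap.range_rangeRestrict R)
  have hs' : ∀ y : LinearMap.range R, R (s y) = (y : D) := by
    intro y
    have := congrArg (fun g => ((g y : LinearMap.range R) : D)) hs
    simpa using this
  set P : Submodule K H := LinearMap.range (π ∘ₗ s) with hP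
  haveI : Module.Finite K (LinearMap.range R) := inferInstance
  haveI : Module.Finite K P := Module.Finite.range (π ∘ₗ s)
  have hle : LinearMap.range π ≤ U ⊔ P := by
    rintro _ ⟨z, rfl⟩
    have h1 : R (z - s (R.rangeRestrict z)) = 0 := by
      rw [map_sub, hs']
      exact sub_self _
    have h2 : π z = π (z - s (R.rangeRestrict z)) + (π ∘ₗ s) (R.rangeRestrict z) := by
      rw [LinearMap.comp_apply, ← map_add, sub_add_cancel]
    rw [h2]
    exact Submodule.add_mem_sup (hker _ h1) (LinearMap.mem_range_self _ _)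
  haveI : Module.Finite K ↥(U ⊔ P) := inferInstance
  haveI : Module.Finite K (LinearMap.range π) := Submodule.finiteDimensional_of_le hle
  refine ⟨inferInstance, ?_⟩
  calc Module.finrank K (LinearMap.range π) ≤ Module.finrank K ↥(U ⊔ P) :=
        Submodule.finrank_mono hle
    _ ≤ Module.finrank K U + Module.finrank K P :=
        Submodule.finrank_add_le_finrank_add_finrank U P
    _ ≤ Module.finrank K U + Module.finrank K D := by
        have h1 : Module.finrank K P ≤ Module.finrank K (LinearMap.range R) :=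
          LinearMap.finrank_range_le (π ∘ₗ s)
        have h2 : Module.finrank K (LinearMap.range R) ≤ Module.finrank K D :=
          Submodule.finrank_le _
        omega

/-! ### The restriction map to `gbHom` -/

section Main

variable (p : ℕ) [Fact p.Prime] (T : IntermediateField ℚ_[p] (PadicAlgCl p))
  (W : Rep.{0} (ZMod p) (GQq p))

/-- `I_T` is normal in `G_p` when `G_T` is. -/
theorem wgb1_conj_mem_inT (hn : (T.fixingSubgroup : Subgroup (GQq p)).Normal) (γ : GQq p)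
    {τ : GQq p} (hτ : τ ∈ inT p T) : γ * τ * γ⁻¹ ∈ inT p T :=
  ⟨ltw_conj_mem_inertiaQ γ hτ.1, hn.conj_mem τ hτ.2 γ⟩

open Classical in
/-- `c · 1_{I_T}` -/
def wgb1ResFun (c : GQq p → W) : GQq p → W := fun σ => if σ ∈ inT p T then c σ else 0

lemma wgb1ResFun_of_mem (c : GQq p → W) {σ : GQq p} (hσ : σ ∈ inT p T) :
    wgb1ResFun p T W c σ = c σ := by
  simp only [wgb1ResFun, if_pos hσ]

lemma wgb1ResFun_of_not_mem (c : GQq p → W) {σ : GQq p} (hσ : σ ∉ inT p T) :
    wgb1ResFun p T W c σ = 0 := by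
  simp only [wgb1ResFun, if_neg hσ]

lemma wgb1ResFun_add (c c' : GQq p → W) :
    wgb1ResFun p T W (c + c') = wgb1ResFun p T W c + wgb1ResFun p T W c' := by
  funext σ
  by_cases hσ : σ ∈ inT p T
  · simp only [Pi.add_apply, wgb1ResFun_of_mem p T W _ hσ]
  · simp only [Pi.add_apply, wgb1ResFun_of_not_mem p T W _ hσ, add_zero]

lemma wgb1ResFun_smul (a : ZMod p) (c : GQq p → W) :
    wgb1ResFun p T W (a • c) = a • wgb1ResFun p T W c := by
  funext σ
  by_cases hσ : σ ∈ inT p T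
  · simp only [Pi.smul_apply, wgb1ResFun_of_mem p T W _ hσ]
  · simp only [Pi.smul_apply, wgb1ResFun_of_not_mem p T W _ hσ, smul_zero]

variable {p T W}

/-- the restriction of a flat level cocycle to `I_T` lies in `gbHom` -/
theorem wgb1_res_mem (hT : IsGoodField p T)
    (hn : (T.fixingSubgroup : Subgroup (GQq p)).Normal)
    (hW : ∀ σ ∈ T.fixingSubgroup, W.ρ σ = 1) {c : cocycles₁ W}
    (hc : c ∈ levFlatCocycles p W) :
    wgb1ResFun p T W (c : GQq p → W) ∈ gbHom p T W := by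
  have hcoc := (mem_cocycles₁_iff (c : GQq p → W)).1 c.2
  refine ⟨fun σ hσ => wgb1ResFun_of_not_mem p T W _ hσ, fun σ τ hσ hτ => ?_, fun τ hτ => ?_,
    fun γ τ hτ => ?_⟩
  · rw [wgb1ResFun_of_mem p T W _ hσ, wgb1ResFun_of_mem p T W _ hτ,
      wgb1ResFun_of_mem p T W _ ((inT p T).mul_mem hσ hτ), hcoc, hW σ hσ.2,
      Module.End.one_apply, add_comm]
  · have h0 : (c : GQq p → W) τ = 0 := hc.2 T hT hW τ hτ
    by_cases hτ' : τ ∈ inT p T
    · rw [wgb1ResFun_of_mem p T W _ hτ', h0]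
    · exact wgb1ResFun_of_not_mem p T W _ hτ'
  · rw [wgb1ResFun_of_mem p T W _ hτ, wgb1ResFun_of_mem p T W _ (wgb1_conj_mem_inT p T hn γ hτ)]
    exact ltw_cocycle_conj W c γ τ (hW τ hτ.2)

/-- **the restriction map** `levFlatCocycles W → gbHom T W`, `c ↦ c · 1_{I_T}` -/
def wgb1Res (hT : IsGoodField p T) (hn : (T.fixingSubgroup : Subgroup (GQq p)).Normal)
    (hW : ∀ σ ∈ T.fixingSubgroup, W.ρ σ = 1) :
    ↥(levFlatCocycles p W) →ₗ[ZMod p] ↥(gbHom p T W) where
  toFun c := ⟨wgb1ResFun p T W ((c : cocycles₁ W) : GQq p → W), wgb1_res_mem hT hn hW c.2⟩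
  map_add' _ _ := Subtype.ext (wgb1ResFun_add p T W _ _)
  map_smul' a _ := Subtype.ext (wgb1ResFun_smul p T W a _)

lemma wgb1Res_apply (hT : IsGoodField p T) (hn : (T.fixingSubgroup : Subgroup (GQq p)).Normal)
    (hW : ∀ σ ∈ T.fixingSubgroup, W.ρ σ = 1) (c : ↥(levFlatCocycles p W)) (σ : GQq p)
    (hσ : σ ∈ inT p T) :
    ((wgb1Res hT hn hW c : ↥(gbHom p T W)) : GQq p → W) σ =
      ((c : cocycles₁ W) : GQq p → W) σ :=
  wgb1ResFun_of_mem p T W _ hσ

/-- the coboundary of `m` as a cocycle -/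
def wgb1Cob (W : Rep.{0} (ZMod p) (GQq p)) (m : W) : cocycles₁ W :=
  ⟨fun g => W.ρ g m - m, by
    rw [mem_cocycles₁_iff]
    intro g h
    simp only [map_mul, Module.End.mul_apply, map_sub]
    abel⟩

lemma wgb1Cob_apply (m : W) (g : GQq p) : (wgb1Cob W m : GQq p → W) g = W.ρ g m - m := rfl

lemma wgb1_H1π_sub_cob (c : cocycles₁ W) (m : W) :
    (H1π W).hom (c - wgb1Cob W m) = (H1π W).hom c := by
  have h : H1π W (c - wgb1Cob W m) = H1π W c := by
    rw [H1π_eq_iff]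
    have : (⇑(c - wgb1Cob W m) - ⇑c : GQq p → W) = -(fun g => W.ρ g m - m) := by
      funext g
      show (c : GQq p → W) g - (W.ρ g m - m) - (c : GQq p → W) g = -(W.ρ g m - m)
      abel
    rw [this]
    exact (coboundaries₁ W).neg_mem ⟨m, rfl⟩
  exact h

/-- **kernel of the restriction**: a flat level cocycle vanishing on `I_T` is unramified. -/
theorem wgb1_ker_unr (hsm : IsSmoothQ p W)
    (hn : (T.fixingSubgroup : Subgroup (GQq p)).Normal)
    (hidx : (T.fixingSubgroup : Subgroup (GQq p)).index ≠ 0)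
    (hp : ¬ p ∣ (T.fixingSubgroup : Subgroup (GQq p)).index)
    {c : cocycles₁ W} (hlev : IsLevel₁ (towerLoc p) (c : GQq p → W))
    (h0 : ∀ σ ∈ inT p T, (c : GQq p → W) σ = 0) :
    (H1π W).hom c ∈ unrH1 p W := by
  have hcoc := (mem_cocycles₁_iff (c : GQq p → W)).1 c.2
  haveI := hn
  have hdvd : ((T.fixingSubgroup : Subgroup (GQq p)).subgroupOf (inertiaQ p)).index ∣
      (T.fixingSubgroup : Subgroup (GQq p)).index :=
    Subgroup.relIndex_dvd_index_of_normal _ _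
  have hfin : ((T.fixingSubgroup : Subgroup (GQq p)).subgroupOf (inertiaQ p)).index ≠ 0 :=
    fun h => hidx (Nat.eq_zero_of_zero_dvd (h ▸ hdvd))
  have hpn : ¬ p ∣ ((T.fixingSubgroup : Subgroup (GQq p)).subgroupOf (inertiaQ p)).index :=
    fun h => hp (h.trans hdvd)
  have hne : ((((T.fixingSubgroup : Subgroup (GQq p)).subgroupOf (inertiaQ p)).index : ℕ) :
      ZMod p) ≠ 0 := by
    rw [Ne, ZMod.natCast_eq_zero_iff]
    exact hpn
  obtain ⟨m, hm⟩ := wgb1_avg W (c : GQq p → W) hcoc (inertiaQ p) T.fixingSubgroup hfin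
    (((((T.fixingSubgroup : Subgroup (GQq p)).subgroupOf (inertiaQ p)).index : ℕ) : ZMod p)⁻¹)
    (inv_mul_cancel₀ hne) h0
  rw [← wgb1_H1π_sub_cob c m, mem_unrH1]
  refine ⟨c - wgb1Cob W m, ?_, fun τ hτ => ?_, rfl⟩
  · obtain ⟨U, hU, hcU⟩ := hlev
    obtain ⟨V, hV, hρ⟩ := hsm
    refine ⟨U ⊓ V, (towerLoc p).inf_mem U V hU hV, fun g s hs => ?_⟩
    show (c : GQq p → W) (g * s) - (W.ρ (g * s) m - m) = (c : GQq p → W) g - (W.ρ g m - m)
    rw [hcU g s hs.1, map_mul, hρ s hs.2, mul_one]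
  · show (c : GQq p → W) τ - (W.ρ τ m - m) = 0
    rw [hm τ hτ, sub_self]

end Main

/-! ### GB1 -/

/-- **GB1**. -/
theorem stmtGBRed : StmtGBRed := by
  intro hUnr hGI p _ W _ hsm T hT hW hfin
  obtain ⟨hn, hidx, hp⟩ := hGI p T hT
  obtain ⟨hUfin, hUle⟩ := hUnr p p W hsm
  haveI := hfin
  haveI := hUfin
  have hker : ∀ z : ↥(levFlatCocycles p W), wgb1Res hT hn hW z = 0 →
      ((H1π W).hom ∘ₗ (levFlatCocycles p W).subtype) z ∈ unrH1 p W := by
    intro z hz
    refine wgb1_ker_unr hsm hn hidx hp z.2.1 (fun σ hσ => ?_)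
    have h1 := wgb1Res_apply hT hn hW z σ hσ
    rw [hz] at h1
    exact h1.symm
  have hrange : LinearMap.range ((H1π W).hom ∘ₗ (levFlatCocycles p W).subtype) =
      levFlatH1 p W := by
    rw [LinearMap.range_comp, Submodule.range_subtype]
    rfl
  refine ⟨?_, fun hbot => ?_⟩
  · have h := wgb1_finrank_le ((H1π W).hom ∘ₗ (levFlatCocycles p W).subtype)
      (wgb1Res hT hn hW) (unrH1 p W) hker
    rw [hrange] at h
    exact ⟨h.1, h.2.trans (Nat.add_le_add_right hUle _)⟩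
  · rintro _ ⟨c, hc, rfl⟩
    refine wgb1_ker_unr hsm hn hidx hp hc.1 (fun σ hσ => ?_)
    have h1 : (wgb1Res hT hn hW ⟨c, hc⟩ : GQq p → W) = 0 :=
      (Submodule.eq_bot_iff _).1 hbot _ (wgb1Res hT hn hW ⟨c, hc⟩).2
    have h2 := wgb1Res_apply hT hn hW ⟨c, hc⟩ σ hσ
    rw [h1] at h2
    exact h2.symm

end Fermat.Agent.TW.W

end


end ZBTW_001_15

/-! ### bundled: `Fermat.Agent.TW.W.Kummer` -/
section ZBTW_001_16
/-
TW-W, block (GB), piece K1 (helper67): the Kummer symbol `gbKappa` on `I_T × 𝒪_T` satisfies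
`GBAbsKum`: bi-additive, vanishing on `(ζ - 1) 𝒪_T`, equivariant up to `ω`, left kernel in `𝒩_T`.

`theorem stmtGBKum : StmtGBKum`.
-/

set_option autoImplicit false
set_option linter.unusedSectionVars false
set_option linter.style.haveILetI false

namespace Fermat.Agent.TW.W

open Fermat.Agent.PT.L Fermat.Agent.PT.B Fermat.Agent.TW.L ExtCitation

section K1

variable (p : ℕ) [Fact p.Prime]

/-- dictionary: `γ ζ = ζ ^ ω(γ)` for a `p`-th root of unity `ζ ∈ ℚ̄_p`. -/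
theorem twk_omega_spec {ζ : PadicAlgCl p} (hζp : ζ ^ p = 1) (γ : GQq p) :
    γ ζ = ζ ^ (((gbOmega p γ : (ZMod p)ˣ) : ZMod p)).val := by
  haveI : NeZero p := ⟨(Fact.out : p.Prime).ne_zero⟩
  obtain ⟨ζ₀, hζ₀⟩ := HasEnoughRootsOfUnity.exists_primitiveRoot (AlgebraicClosure ℚ) p
  have hspec : ∀ τ : AlgebraicClosure ℚ ≃ₐ[ℚ] AlgebraicClosure ℚ,
      τ ζ₀ = ζ₀ ^ ((cycloChar p τ : (ZMod p)ˣ) : ZMod p).val := by
    intro τ
    have h := modularCyclotomicCharacter.spec (AlgebraicClosure ℚ) (card_rootsOfUnity_eq_self p)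
      (τ : AlgebraicClosure ℚ ≃+* AlgebraicClosure ℚ)
      (t := hζ₀.toRootsOfUnity) (SetLike.coe_mem hζ₀.toRootsOfUnity)
    simpa [cycloChar] using h
  have hinj : Function.Injective (padicEmbedding p) := (padicEmbedding p).toRingHom.injective
  have hξ1 : padicEmbedding p ζ₀ ≠ 1 := by
    intro h
    have h1 : ζ₀ = 1 := hinj (by rw [h, map_one])
    exact hζ₀.ne_one (Fact.out : p.Prime).one_lt h1
  have hξp : padicEmbedding p ζ₀ ^ p = 1 := by
    rw [← map_pow, hζ₀.pow_eq_one, map_one]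
  obtain ⟨j, hj⟩ := wgr_exists_pow hξ1 hξp hζp
  have hγξ : γ (padicEmbedding p ζ₀) =
      padicEmbedding p ζ₀ ^ (((gbOmega p γ : (ZMod p)ˣ) : ZMod p)).val := by
    rw [← padicEmbedding_localGaloisToGlobal, hspec, map_pow]
    rfl
  rw [hj, map_pow, hγξ, ← pow_mul, ← pow_mul, mul_comm]

/-- `‖ξ‖ = 1` for a root of unity -/
theorem twk_norm_root_one {ξ : PadicAlgCl p} (hξ : ξ ^ p = 1) : ‖ξ‖ = 1 := by
  have h : ‖ξ‖ ^ p = 1 := by rw [← norm_pow, hξ, norm_one]
  exact (pow_eq_one_iff_of_nonneg (norm_nonneg _) (Fact.out : p.Prime).ne_zero).1 h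

variable {p}
variable {T : IntermediateField ℚ_[p] (PadicAlgCl p)} {ζ : PadicAlgCl p}

/-- `1 + p x ≠ 0` for `‖x‖ ≤ 1`, given `‖p‖ < 1`. -/
theorem twk_unit_ne_zero (hp1 : ‖(p : PadicAlgCl p)‖ < 1) {x : PadicAlgCl p} (hx : ‖x‖ ≤ 1) :
    1 + (p : PadicAlgCl p) * x ≠ 0 := by
  intro h
  have h1 : (p : PadicAlgCl p) * x = -1 := by
    linear_combination h
  have h2 : ‖(p : PadicAlgCl p) * x‖ = 1 := by rw [h1, norm_neg, norm_one]
  rw [norm_mul] at h2
  have h3 : ‖(p : PadicAlgCl p)‖ * ‖x‖ < 1 := by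
    calc ‖(p : PadicAlgCl p)‖ * ‖x‖ ≤ ‖(p : PadicAlgCl p)‖ * 1 :=
          mul_le_mul_of_nonneg_left hx (norm_nonneg _)
      _ < 1 := by rw [mul_one]; exact hp1
  exact absurd h2 (ne_of_lt h3)

/-- elements of `G_T` fix `1 + p x`, `x ∈ T` -/
theorem twk_fix_unit {τ : GQq p} (hτ : τ ∈ T.fixingSubgroup) {x : PadicAlgCl p} (hx : x ∈ T) :
    τ (1 + (p : PadicAlgCl p) * x) = 1 + (p : PadicAlgCl p) * x := by
  have h := (IntermediateField.mem_fixingSubgroup_iff T τ).1 hτ x hx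
  rw [map_add, map_one, map_mul, map_natCast, h]

/-- independence of the root: `κ(τ, x)` may be computed with any `p`-th root of `1 + p x`. -/
theorem twk_kappa_eq (hζ1 : ζ ≠ 1) (hζp : ζ ^ p = 1) {τ : GQq p} (hτζ : τ ζ = ζ)
    {x β : PadicAlgCl p} (hβ : β ^ p = 1 + (p : PadicAlgCl p) * x)
    (hu : 1 + (p : PadicAlgCl p) * x ≠ 0)
    (hτu : τ (1 + (p : PadicAlgCl p) * x) = 1 + (p : PadicAlgCl p) * x) :
    gbKappa p ζ τ x = wgrKum p ζ τ β := by
  have hpne : p ≠ 0 := (Fact.out : p.Prime).ne_zero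
  set α := twkRoot p (1 + (p : PadicAlgCl p) * x) with hα
  have hαp : α ^ p = 1 + (p : PadicAlgCl p) * x := twkRoot_pow p _
  have hα0 : α ≠ 0 := twkRoot_ne_zero p hu
  have hβ0 : β ≠ 0 := by
    intro h
    rw [h, zero_pow hpne] at hβ
    exact hu hβ.symm
  have h1 : (β / α) ^ p = 1 := by
    rw [div_pow, hβ, hαp, div_self hu]
  obtain ⟨j, hj⟩ := wgr_exists_pow hζ1 hζp h1
  have hβα : β = ζ ^ j.val * α := by
    rw [← hj]
    field_simp
  have hζ0 : ζ ^ j.val ≠ 0 := pow_ne_zero _ (wgr_zeta_ne_zero hζ1 hζp)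
  have hτζj : τ (ζ ^ j.val) = ζ ^ j.val := by rw [map_pow, hτζ]
  have hτζjp : τ ((ζ ^ j.val) ^ p) = (ζ ^ j.val) ^ p := by rw [map_pow, hτζj]
  have hταp : τ (α ^ p) = α ^ p := by rw [hαp]; exact hτu
  show wgrKum p ζ τ α = wgrKum p ζ τ β
  rw [hβα, wgrKum_mul_right hζ1 hζp hζ0 hα0 hτζjp hταp, wgrKum_of_fixed hζ1 hζp hζ0 hτζj,
    zero_add]

/-- `G_p` preserves a good field. -/
theorem twk_map_mem (hn : (T.fixingSubgroup : Subgroup (GQq p)).Normal) (γ : GQq p)
    {x : PadicAlgCl p} (hx : x ∈ T) : γ x ∈ T := by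
  have hT : IntermediateField.fixedField T.fixingSubgroup = T :=
    InfiniteGalois.fixedField_fixingSubgroup T
  rw [← hT, IntermediateField.mem_fixedField_iff]
  intro τ hτ
  have h1 : γ⁻¹ * τ * γ ∈ T.fixingSubgroup := by
    have := hn.conj_mem τ hτ γ⁻¹
    rwa [inv_inv] at this
  have h2 := (IntermediateField.mem_fixingSubgroup_iff T _).1 h1 x hx
  have h3 : (γ⁻¹ * τ * γ) x = γ⁻¹ (τ (γ x)) := rfl
  rw [h3] at h2
  have h4 : γ (γ⁻¹ (τ (γ x))) = τ (γ x) := by
    have : (γ * γ⁻¹) (τ (γ x)) = τ (γ x) := by rw [mul_inv_cancel]; rfl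
    exact this
  rw [← h4, h2]

/-- some `p`-th root of `u` is close to `1` when `‖u - 1‖ ≤ ‖ζ - 1‖ ^ p`. -/
theorem twk_exists_close_root (hζ1 : ζ ≠ 1) (hζp : ζ ^ p = 1) {α : PadicAlgCl p}
    (hα : ‖α ^ p - 1‖ ≤ ‖ζ - 1‖ ^ p) :
    ∃ β : PadicAlgCl p, β ^ p = α ^ p ∧ ‖β - 1‖ ≤ ‖ζ - 1‖ := by
  have hpp : p.Prime := Fact.out
  haveI : NeZero p := ⟨hpp.ne_zero⟩
  have hprim : IsPrimitiveRoot ζ p := by
    have := IsPrimitiveRoot.orderOf ζ
    rwa [wgr_orderOf hζ1 hζp] at this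
  have hprod : α ^ p - 1 = ∏ ξ ∈ Polynomial.nthRootsFinset p (1 : PadicAlgCl p), (α - ξ) := by
    have h := hprim.pow_sub_pow_eq_prod_sub_mul α 1 hpp.pos
    simpa using h
  by_contra hcon
  simp only [not_exists, not_and, not_le] at hcon
  -- every factor is large
  have hbig : ∀ ξ ∈ Polynomial.nthRootsFinset p (1 : PadicAlgCl p), ‖ζ - 1‖ < ‖α - ξ‖ := by
    intro ξ hξ
    have hξp : ξ ^ p = 1 := (Polynomial.mem_nthRootsFinset hpp.pos 1).1 hξ
    have hξn : ‖ξ‖ = 1 := twk_norm_root_one p hξp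
    have hξ0 : ξ ≠ 0 := by
      intro h
      rw [h, norm_zero] at hξn
      exact zero_ne_one hξn
    have h1 := hcon (α / ξ) (by rw [div_pow, hξp, div_one])
    have h2 : α / ξ - 1 = (α - ξ) / ξ := by field_simp
    rwa [h2, norm_div, hξn, div_one] at h1
  have hne : (Polynomial.nthRootsFinset p (1 : PadicAlgCl p)).Nonempty :=
    ⟨1, (Polynomial.mem_nthRootsFinset hpp.pos 1).2 (one_pow _)⟩
  have hcard : (Polynomial.nthRootsFinset p (1 : PadicAlgCl p)).card = p :=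
    hprim.card_nthRootsFinset
  have hlt : ∏ _ξ ∈ Polynomial.nthRootsFinset p (1 : PadicAlgCl p), ‖ζ - 1‖ <
      ∏ ξ ∈ Polynomial.nthRootsFinset p (1 : PadicAlgCl p), ‖α - ξ‖ :=
    Finset.prod_lt_prod_of_nonempty
      (fun _ _ => norm_pos_iff.2 (sub_ne_zero.2 hζ1)) hbig hne
  rw [Finset.prod_const, hcard, ← norm_prod, ← hprod] at hlt
  exact absurd hα (not_le.2 hlt)

end K1

/-- **K1**. -/
theorem stmtGBKum : StmtGBKum := by
  intro p _ hp2 T hT ζ hζT hζ1 hζp
  have hpp : p.Prime := Fact.out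
  haveI := hT.finite
  obtain ⟨hlpow, hlpos, hllt⟩ := wgr_norm_zeta_sub_one p T hζT hζ1 hζp
  have hn : (T.fixingSubgroup : Subgroup (GQq p)).Normal := (stmtGoodIndex p T hT).1
  have hpm1 : p - 1 ≠ 0 := by
    have := hpp.two_le
    omega
  have hp1 : ‖(p : PadicAlgCl p)‖ < 1 := by
    rw [← hlpow]
    exact pow_lt_one₀ (norm_nonneg _) hllt hpm1
  have hp0 : (p : PadicAlgCl p) ≠ 0 := by
    intro h
    rw [h, norm_zero] at hlpow
    exact (pow_pos hlpos _).ne' hlpow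
  have hfixζ : ∀ τ ∈ T.fixingSubgroup, τ ζ = ζ := fun τ hτ =>
    (IntermediateField.mem_fixingSubgroup_iff T τ).1 hτ ζ hζT
  refine ⟨?_, ?_, ?_, ?_, ?_⟩
  · -- additivity in `x`
    rintro τ ⟨-, hτ⟩ x ⟨hx, hx1⟩ y ⟨hy, hy1⟩
    rw [norm_one] at hx1 hy1
    obtain ⟨t, htT, ht0, ht⟩ := wgr_add p T hp2 hx hy hx1 hy1
    have hxy1 : ‖x + y‖ ≤ 1 := (wgr_norm_add_le p x y).trans (max_le hx1 hy1)
    have hux := twk_unit_ne_zero hp1 hx1
    have huy := twk_unit_ne_zero hp1 hy1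
    have huxy := twk_unit_ne_zero hp1 hxy1
    set a := twkRoot p (1 + (p : PadicAlgCl p) * x) with ha
    set b := twkRoot p (1 + (p : PadicAlgCl p) * y) with hb
    have hap : a ^ p = 1 + (p : PadicAlgCl p) * x := twkRoot_pow p _
    have hbp : b ^ p = 1 + (p : PadicAlgCl p) * y := twkRoot_pow p _
    have ha0 : a ≠ 0 := twkRoot_ne_zero p hux
    have hb0 : b ≠ 0 := twkRoot_ne_zero p huy
    have htp0 : t ^ p ≠ 0 := pow_ne_zero _ ht0
    have hβ : (a * b * t⁻¹) ^ p = 1 + (p : PadicAlgCl p) * (x + y) := by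
      rw [mul_pow, mul_pow, hap, hbp, ht, inv_pow]
      field_simp
    have hτt : τ t⁻¹ = t⁻¹ := by
      rw [map_inv₀, (IntermediateField.mem_fixingSubgroup_iff T τ).1 hτ t htT]
    have hτa : τ (a ^ p) = a ^ p := by rw [hap]; exact twk_fix_unit hτ hx
    have hτb : τ (b ^ p) = b ^ p := by rw [hbp]; exact twk_fix_unit hτ hy
    have hτab : τ ((a * b) ^ p) = (a * b) ^ p := by
      rw [mul_pow, map_mul, hτa, hτb]
    have hτtp : τ ((t⁻¹) ^ p) = (t⁻¹) ^ p := by rw [map_pow, hτt]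
    rw [twk_kappa_eq hζ1 hζp (hfixζ τ hτ) hβ huxy (twk_fix_unit hτ (add_mem hx hy)),
      wgrKum_mul_right hζ1 hζp (mul_ne_zero ha0 hb0) (inv_ne_zero ht0) hτab hτtp,
      wgrKum_mul_right hζ1 hζp ha0 hb0 hτa hτb,
      wgrKum_of_fixed hζ1 hζp (inv_ne_zero ht0) hτt, add_zero]
    rfl
  · -- additivity in `τ`
    rintro σ ⟨-, hσ⟩ τ ⟨-, hτ⟩ x ⟨hx, hx1⟩
    rw [norm_one] at hx1
    have hux := twk_unit_ne_zero hp1 hx1
    have hap : (twkRoot p (1 + (p : PadicAlgCl p) * x)) ^ p = 1 + (p : PadicAlgCl p) * x :=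
      twkRoot_pow p _
    have ha0 : twkRoot p (1 + (p : PadicAlgCl p) * x) ≠ 0 := twkRoot_ne_zero p hux
    exact wgrKum_mul_left hζ1 hζp ha0 (by rw [hap]; exact twk_fix_unit hσ hx)
      (by rw [hap]; exact twk_fix_unit hτ hx) (hfixζ σ hσ)
  · -- vanishing on `(ζ - 1) 𝒪_T`
    rintro τ ⟨hτI, hτ⟩ x ⟨hx, hxl⟩
    have hx1 : ‖x‖ ≤ 1 := hxl.trans hllt.le
    have hux := twk_unit_ne_zero hp1 hx1
    set a := twkRoot p (1 + (p : PadicAlgCl p) * x) with ha
    have hap : a ^ p = 1 + (p : PadicAlgCl p) * x := twkRoot_pow p _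
    have hclose : ‖a ^ p - 1‖ ≤ ‖ζ - 1‖ ^ p := by
      rw [hap, add_sub_cancel_left, norm_mul, ← hlpow]
      calc ‖ζ - 1‖ ^ (p - 1) * ‖x‖ ≤ ‖ζ - 1‖ ^ (p - 1) * ‖ζ - 1‖ :=
            mul_le_mul_of_nonneg_left hxl (pow_nonneg (norm_nonneg _) _)
        _ = ‖ζ - 1‖ ^ p := by
            rw [← pow_succ]
            congr 1
            omega
    obtain ⟨β, hβp, hβ1⟩ := twk_exists_close_root hζ1 hζp hclose
    rw [hap] at hβp
    rw [twk_kappa_eq hζ1 hζp (hfixζ τ hτ) hβp hux (twk_fix_unit hτ hx)]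
    have hβ0 : β ≠ 0 := by
      intro h
      rw [h, zero_pow hpp.ne_zero] at hβp
      exact hux hβp.symm
    have hτβp : τ (β ^ p) = β ^ p := by rw [hβp]; exact twk_fix_unit hτ hx
    by_contra hj
    have hspec := wgrKum_spec hζ1 hζp hβ0 hτβp
    set j := wgrKum p ζ τ β with hjdef
    -- `ζ ^ j` is a nontrivial root of unity in `T`
    have hζj1 : ζ ^ j.val ≠ 1 := by
      intro h
      apply hj
      apply wgr_zeta_pow_val_inj hζ1 hζp
      rw [h, ZMod.val_zero, pow_zero]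
    have hζjp : (ζ ^ j.val) ^ p = 1 := by rw [← pow_mul, mul_comm, pow_mul, hζp, one_pow]
    have hζjT : ζ ^ j.val ∈ T := pow_mem hζT _
    obtain ⟨hlpow', -, -⟩ := wgr_norm_zeta_sub_one p T hζjT hζj1 hζjp
    have hnormeq : ‖ζ ^ j.val - 1‖ = ‖ζ - 1‖ := by
      have h : ‖ζ ^ j.val - 1‖ ^ (p - 1) = ‖ζ - 1‖ ^ (p - 1) := by rw [hlpow', hlpow]
      exact (pow_left_inj₀ (norm_nonneg _) (norm_nonneg _) hpm1).1 h
    -- the norm of `β` is one
    have hβn : ‖β‖ = 1 := by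
      have h1 : ‖β‖ ^ p = 1 := by
        rw [← norm_pow, hβp]
        have h2 : ‖(p : PadicAlgCl p) * x‖ < 1 := by
          rw [norm_mul]
          calc ‖(p : PadicAlgCl p)‖ * ‖x‖ ≤ ‖(p : PadicAlgCl p)‖ * 1 :=
                mul_le_mul_of_nonneg_left hx1 (norm_nonneg _)
            _ < 1 := by rw [mul_one]; exact hp1
        have h3 : ‖1 + (p : PadicAlgCl p) * x‖ ≤ 1 :=
          (wgr_norm_add_le p _ _).trans (max_le (by rw [norm_one]) h2.le)
        have h4 : (1 : ℝ) ≤ ‖1 + (p : PadicAlgCl p) * x‖ := by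
          have h5 : (1 : PadicAlgCl p) = (1 + (p : PadicAlgCl p) * x) - (p : PadicAlgCl p) * x := by
            ring
          have h6 := wgr_norm_sub_le p (1 + (p : PadicAlgCl p) * x) ((p : PadicAlgCl p) * x)
          rw [← h5, norm_one] at h6
          rcases le_max_iff.1 h6 with h7 | h7
          · exact h7
          · exact absurd h7 (not_le.2 h2)
        exact le_antisymm h3 h4
      exact (pow_eq_one_iff_of_nonneg (norm_nonneg _) hpp.ne_zero).1 h1
    -- inertia moves `β` by less than `‖ζ - 1‖`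
    have hl0 : ζ - 1 ≠ 0 := sub_ne_zero.2 hζ1
    have hτl : τ (ζ - 1) = ζ - 1 := by rw [map_sub, map_one, hfixζ τ hτ]
    have hsmall := wgr_inert_scale p hτI hl0 hτl hβ1
    have hmove : τ (β - 1) - (β - 1) = (ζ ^ j.val - 1) * β := by
      rw [map_sub, map_one, hspec]
      ring
    rw [hmove, norm_mul, hβn, mul_one, hnormeq] at hsmall
    exact lt_irrefl _ hsmall
  · -- equivariance
    rintro γ τ ⟨-, hτ⟩ x ⟨hx, hx1⟩
    rw [norm_one] at hx1
    have hux := twk_unit_ne_zero hp1 hx1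
    set a := twkRoot p (1 + (p : PadicAlgCl p) * x) with ha
    have hap : a ^ p = 1 + (p : PadicAlgCl p) * x := twkRoot_pow p _
    have ha0 : a ≠ 0 := twkRoot_ne_zero p hux
    have hγx : γ • x = γ x := rfl
    have hγxT : γ x ∈ T := twk_map_mem hn γ hx
    have hγx1 : ‖γ x‖ ≤ 1 := by rw [wgr_norm_map]; exact hx1
    have hτ' : γ * τ * γ⁻¹ ∈ T.fixingSubgroup := hn.conj_mem τ hτ γ
    have hβ : (γ a) ^ p = 1 + (p : PadicAlgCl p) * γ x := by
      rw [← map_pow, hap, map_add, map_one, map_mul, map_natCast]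
    rw [hγx, twk_kappa_eq hζ1 hζp (hfixζ _ hτ') hβ (twk_unit_ne_zero hp1 hγx1)
      (twk_fix_unit hτ' hγxT)]
    exact wgrKum_conj hζ1 hζp ha0 (by rw [hap]; exact twk_fix_unit hτ hx)
      (twk_omega_spec p hζp γ)
  · -- the left kernel is in `𝒩_T`
    rintro τ ⟨-, hτ⟩ hker
    refine ⟨hτ, fun α hαT hα1 => ?_⟩
    set x := (α ^ p - 1) / (p : PadicAlgCl p) with hx
    have hxT : x ∈ T := div_mem (sub_mem hαT (one_mem _)) (natCast_mem _ p)
    have hx1 : ‖x‖ ≤ 1 := by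
      rw [hx, norm_div]
      exact div_le_one_of_le₀ hα1 (norm_nonneg _)
    have hαp : α ^ p = 1 + (p : PadicAlgCl p) * x := by
      rw [hx]
      field_simp
      ring
    have hux := twk_unit_ne_zero hp1 hx1
    have hα0 : α ≠ 0 := by
      intro h
      rw [h, zero_pow hpp.ne_zero] at hαp
      exact hux hαp.symm
    have h0 := hker x ⟨hxT, by rw [norm_one]; exact hx1⟩
    rw [twk_kappa_eq hζ1 hζp (hfixζ τ hτ) hαp hux (twk_fix_unit hτ hxT)] at h0
    exact (wgrKum_eq_zero_iff hζ1 hζp hα0 (by rw [hαp]; exact twk_fix_unit hτ hxT)).1 h0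

end Fermat.Agent.TW.W


end ZBTW_001_16

/-! ### bundled: `Fermat.Agent.R38.EPeuDict` -/
section ZBTW_001_17
/-
ROW 38, piece R38-EPEU (helper64), part 4: the DICTIONARY
`σ ∈ peuSubgroup (padicPlace p) p ⇒ σ = image of some τ ∈ 𝒩_T`  (`G_T = N`),
from (TEICH), (VAL), (ROOT).
-/

set_option autoImplicit false
set_option linter.unusedSectionVars false
set_option linter.style.haveILetI false

noncomputable section

namespace Fermat.Agent.R38

open Fermat.Agent.PT Fermat.Agent.PT.B Fermat.Agent.TW.L Fermat.Agent.TW.W Fermat.Agent.W1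
  ExtCitation GaloisRep

section Norm

variable (p : ℕ) [Fact p.Prime]

theorem r38ep_norm_p : ‖(p : PadicAlgCl p)‖ = (p : ℝ)⁻¹ := by
  rw [← map_natCast (algebraMap ℚ_[p] (PadicAlgCl p)), PadicAlgCl.norm_extends]
  exact Padic.norm_p

theorem r38ep_norm_p_lt_one : ‖(p : PadicAlgCl p)‖ < 1 := by
  rw [r38ep_norm_p]
  exact inv_lt_one_of_one_lt₀ (by exact_mod_cast (Fact.out : p.Prime).one_lt)

theorem r38ep_p_ne_zero : (p : PadicAlgCl p) ≠ 0 := by
  intro h
  have := r38ep_norm_p p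
  rw [h, norm_zero] at this
  have hp : (0 : ℝ) < (p : ℝ)⁻¹ := inv_pos.2 (by exact_mod_cast (Fact.out : p.Prime).pos)
  linarith

variable {p}

theorem r38ep_norm_one_add {z : PadicAlgCl p} (hz : ‖z‖ < 1) : ‖1 + z‖ = 1 := by
  apply le_antisymm
  · have := wgr_norm_add_le p 1 z
    rw [norm_one] at this
    exact this.trans (max_le le_rfl hz.le)
  · by_contra hlt
    rw [not_le] at hlt
    have h1 : (1 : PadicAlgCl p) = (1 + z) - z := by ring
    have h2 := wgr_norm_sub_le p (1 + z) z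
    rw [← h1, norm_one] at h2
    have h3 : max ‖1 + z‖ ‖z‖ < 1 := max_lt hlt hz
    linarith

/-- `τ ζ = ζ ⇒ ω τ = 1` -/
theorem r38ep_omega_of_fix {ζ : PadicAlgCl p} (hζ1 : ζ ≠ 1) (hζp : ζ ^ p = 1) {τ : GQq p}
    (hτ : τ ζ = ζ) : gbOmega p τ = 1 := by
  haveI : Fact (1 < p) := ⟨(Fact.out : p.Prime).one_lt⟩
  have h := twk_omega_spec p hζp τ
  rw [hτ] at h
  have h2 : ζ ^ (((gbOmega p τ : (ZMod p)ˣ) : ZMod p)).val = ζ ^ ((1 : ZMod p)).val := by
    rw [← h, ZMod.val_one, pow_one]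
  have h3 := wgr_zeta_pow_val_inj hζ1 hζp _ _ h2
  exact Units.ext h3

end Norm

section Dict

variable {p : ℕ} [Fact p.Prime] {M : Type} [AddCommGroup M] [DistribMulAction GQ M]

/-- elements of the peu subgroup fix the `p`-th roots of unity -/
theorem r38ep_peu_fix_root {σ : GQ} (hσ : σ ∈ peuSubgroup (padicPlace p) p) {y : Qb}
    (hy : y ^ p = 1) : σ y = y := by
  refine hσ.2 y ?_ ?_ ?_
  · rw [hy]
    exact one_mem _
  · rw [hy, inv_one]
    exact one_mem _
  · intro τ _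
    rw [hy, map_one]

theorem r38ep_peu_cycloChar {σ : GQ} (hσ : σ ∈ peuSubgroup (padicPlace p) p) :
    cycloChar p σ = 1 := by
  rw [cycloChar_eq_one_iff, mem_fixingSubgroup_cycloField_iff]
  intro x hx
  exact r38ep_peu_fix_root hσ hx

/-- **DICT** -/
theorem r38ep_dict (hT : StmtEPTeich) (hV : StmtEPVal) (hR : StmtEPRoot)
    (hω : R38EPHyp p (M := M)) (T : IntermediateField ℚ_[p] (PadicAlgCl p))
    (hTN : T.fixingSubgroup = r38epN p M) (σ : GQ) (hσ : σ ∈ peuSubgroup (padicPlace p) p) :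
    ∃ τ ∈ lvN p T, localGaloisToGlobal p τ = σ := by
  have hp : p.Prime := Fact.out
  haveI : NeZero p := ⟨hp.ne_zero⟩
  obtain ⟨τ, hτI, hτσ⟩ := r38ep_inertia_lift p σ hσ.1
  refine ⟨τ, ?_, hτσ⟩
  -- the root of unity
  obtain ⟨ζ₀, hζ₀⟩ := cycloField_exists_primitiveRoot p
  have hinj : Function.Injective (padicEmbedding p) := (padicEmbedding p).toRingHom.injective
  set ζ : PadicAlgCl p := padicEmbedding p ζ₀ with hζdef
  have hζ1 : ζ ≠ 1 := by
    intro h
    have h1 : ζ₀ = 1 := hinj (by rw [← hζdef, h, map_one])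
    exact hζ₀.ne_one hp.one_lt h1
  have hζp : ζ ^ p = 1 := by
    rw [hζdef, ← map_pow, hζ₀.pow_eq_one, map_one]
  have hτω : gbOmega p τ = 1 := by
    rw [gbOmega_apply, hτσ]
    exact r38ep_peu_cycloChar hσ
  have hτζ : τ ζ = ζ := by
    rw [hζdef, ← padicEmbedding_localGaloisToGlobal, hτσ,
      r38ep_peu_fix_root hσ hζ₀.pow_eq_one]
  have hτN : τ ∈ r38epN p M := r38ep_inertia_mem_N hω hτI hτω
  have hτT : τ ∈ T.fixingSubgroup := by rwa [hTN]
  refine ⟨hτT, fun α hαT hαn => ?_⟩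
  have hp0 := r38ep_p_ne_zero p
  have hp1 := r38ep_norm_p_lt_one p
  have hpn0 : ‖(p : PadicAlgCl p)‖ ≠ 0 := norm_ne_zero_iff.2 hp0
  -- `x`
  set x : PadicAlgCl p := (α ^ p - 1) / (p : PadicAlgCl p) with hx
  have hxT : x ∈ T := div_mem (sub_mem hαT (one_mem _)) (natCast_mem _ p)
  have hx1 : ‖x‖ ≤ 1 := by
    rw [hx, norm_div]
    exact div_le_one_of_le₀ hαn (norm_nonneg _)
  have hαx : α ^ p = 1 + (p : PadicAlgCl p) * x := by
    rw [hx, mul_div_cancel₀ _ hp0]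
    ring
  obtain ⟨b₀, hb₀1, hb₀I, hxb⟩ := hT p x hx1
  set b : PadicAlgCl p := padicEmbedding p b₀ with hb
  have hpb : ‖(p : PadicAlgCl p) * b‖ < 1 := by
    rw [norm_mul]
    calc ‖(p : PadicAlgCl p)‖ * ‖b‖ ≤ ‖(p : PadicAlgCl p)‖ * 1 :=
          mul_le_mul_of_nonneg_left hb₀1 (norm_nonneg _)
      _ < 1 := by rw [mul_one]; exact hp1
  have hu1 : ‖1 + (p : PadicAlgCl p) * b‖ = 1 := r38ep_norm_one_add hpb
  have hu0 : 1 + (p : PadicAlgCl p) * b ≠ 0 := by
    intro h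
    rw [h, norm_zero] at hu1
    exact zero_ne_one hu1
  -- `y`
  set y : PadicAlgCl p := (x - b) / (1 + (p : PadicAlgCl p) * b) with hy
  have hy1 : ‖y‖ < 1 := by
    rw [hy, norm_div, hu1, div_one]
    exact hxb
  have hyfix : ∀ γ ∈ inertiaQ p, γ ζ = ζ → γ y = y := by
    intro γ hγ hγζ
    have hγN : γ ∈ r38epN p M :=
      r38ep_inertia_mem_N hω hγ (r38ep_omega_of_fix hζ1 hζp hγζ)
    have hγT : γ ∈ T.fixingSubgroup := by rwa [hTN]
    have hγx : γ x = x := (IntermediateField.mem_fixingSubgroup_iff T γ).1 hγT x hxT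
    have hγb : γ b = b := by
      rw [hb, ← padicEmbedding_localGaloisToGlobal, hb₀I _ ((mem_inertiaQ p γ).1 hγ)]
    rw [hy, map_div₀, map_sub, map_add, map_one, map_mul, map_natCast, hγx, hγb]
  have hyζ : ‖y‖ ≤ ‖ζ - 1‖ := hV p ζ y hζ1 hζp hyfix hy1
  -- the root of `1 + p b₀`
  obtain ⟨a₀, ha₀⟩ := IsAlgClosed.exists_pow_nat_eq (1 + (p : Qb) * b₀) hp.pos
  have hιa : padicEmbedding p a₀ ^ p = 1 + (p : PadicAlgCl p) * b := by
    rw [← map_pow, ha₀, map_add, map_one, map_mul, map_natCast]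
  have hσa : σ a₀ = a₀ := by
    refine hσ.2 a₀ ?_ ?_ ?_
    · rw [mem_padicPlace_iff, map_pow, hιa]
      have : ‖1 + (p : PadicAlgCl p) * b‖₊ = 1 := by
        ext
        exact hu1
      rw [this]
    · rw [mem_padicPlace_iff, map_inv₀, map_pow, hιa, nnnorm_inv]
      have : ‖1 + (p : PadicAlgCl p) * b‖₊ = 1 := by
        ext
        exact hu1
      rw [this, inv_one]
    · intro g hg
      rw [ha₀, map_add, map_one, map_mul, map_natCast, hb₀I g hg]
  have hτa : τ (padicEmbedding p a₀) = padicEmbedding p a₀ := by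
    rw [← padicEmbedding_localGaloisToGlobal, hτσ, hσa]
  have hιa0 : padicEmbedding p a₀ ≠ 0 := by
    intro h
    rw [h, zero_pow hp.ne_zero] at hιa
    exact hu0 hιa.symm
  -- `t`
  set t : PadicAlgCl p := α / padicEmbedding p a₀ with ht
  have htp : t ^ p = 1 + (p : PadicAlgCl p) * y := by
    rw [ht, div_pow, hιa, hαx, hy]
    field_simp
    ring
  have hτy : τ y = y := hyfix τ hτI hτζ
  have hτt : τ t = t := hR p ζ y t τ hζ1 hζp hτI hτζ hτy hyζ htp
  have hα : α = t * padicEmbedding p a₀ := by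
    rw [ht, div_mul_cancel₀ _ hιa0]
  rw [hα, map_mul, hτt, hτa]

end Dict

end Fermat.Agent.R38

end
end ZBTW_001_17

/-! ### bundled: `Fermat.Agent.TW.S.Plan` -/
section ZBTW_001_18
/-
TW-S (S56, from deformations to Selmer classes) — INTERFACE FILE of the sub-captain (helper54).
Project TW = Taylor–Wiles primes (S56), captain helper63, plan NOTES/S56-plan.md §2; piece table
NOTES/TW-S.md.  Definitions and statements only.

Every `Stmt…` below is a `Prop`; the piece `X` is DONE when `theorem stmtX : StmtX` (or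
`stmtX_of : deps → StmtX`) is landed, sorry-free, in its own file `Fermat/Agent/TW/S/<File>.lean`,
namespace `Fermat.Agent.TW.S`, private names prefixed by the piece id.

THE DICTIONARY (TW/S/Defs.lean): `IsCocOf p D ρ c` — the deformation `ρ` of `ρ̄` to `k[ε]` is
equivalent to the matrix representation `σ ↦ (1 + ε c(σ)) ρ̄(σ)`, `c : G_ℚ → End_k V̄ = adRep`.
-/

set_option autoImplicit false
set_option linter.unusedSectionVars false

noncomputable section

namespace Fermat.Agent.TW.S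

open CategoryTheory groupCohomology IsLocalRing
open Fermat.Agent.PT Fermat.Agent.PT.B Fermat.Agent.S53 Fermat.Agent.TW.L ExtCitation

/-! ### Global dictionary -/

/-- **S-frame**: every deformation of `ρ̄` to `k[ε]` has a cocycle.
(`S53.exists_framed_of_residual_isEquiv`; `c(σ) := ε-part of r(σ) · ρ̄(σ)⁻¹`.) -/
def StmtFrame : Prop :=
  ∀ (𝒪 : Type) [CommRing 𝒪] [IsLocalRing 𝒪] (p : ℕ) [Fact p.Prime] [CharP (ResidueField 𝒪) p]
    (ρbar : ResidualGaloisRep (ResidueField 𝒪)) (D : RigidDatum 𝒪 ρbar)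
    (ρ : GaloisRepAdic (DualNumber (ResidueField 𝒪))),
    (letI : Algebra (ResidueField 𝒪) (ResidueField (DualNumber (ResidueField 𝒪))) := dnResAlg 𝒪
     ρ.residual.IsEquiv (ρbar.baseChange (ResidueField (DualNumber (ResidueField 𝒪))))) →
    ∃ c : GQ → (adRep p ρbar).V, IsCocOf p D ρ c

/-- **S-coc**: a cocycle of a deformation is a 1-cocycle of `G_ℚ` with values in `End_k V̄`
(conjugation action), constant modulo `Gal(ℚ̄/F)` for some finite `F/ℚ`.
(`r(gh) = r(g) r(h)`; `MatCont` with `n = 2`, `𝔪² = 0` in `k[ε]`.) -/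
def StmtCoc : Prop :=
  ∀ (𝒪 : Type) [CommRing 𝒪] [IsLocalRing 𝒪] (p : ℕ) [Fact p.Prime] [CharP (ResidueField 𝒪) p]
    (ρbar : ResidualGaloisRep (ResidueField 𝒪)) (D : RigidDatum 𝒪 ρbar)
    (ρ : GaloisRepAdic (DualNumber (ResidueField 𝒪))) (c : GQ → (adRep p ρbar).V),
    IsCocOf p D ρ c →
    (∀ g h : GQ, c (g * h) = (adRep p ρbar).ρ g (c h) + c g) ∧
      ∃ F : QbarField, FiniteDimensional ℚ F ∧ ∀ g s : GQ, s ∈ F.fixingSubgroup → c (g * s) = c g

/-- **S-unr**: where the deformation is trivial, so are `ρ̄` and the cocycle. -/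
def StmtUnr : Prop :=
  ∀ (𝒪 : Type) [CommRing 𝒪] [IsLocalRing 𝒪] (p : ℕ) [Fact p.Prime] [CharP (ResidueField 𝒪) p]
    (ρbar : ResidualGaloisRep (ResidueField 𝒪)) (D : RigidDatum 𝒪 ρbar)
    (ρ : GaloisRepAdic (DualNumber (ResidueField 𝒪))) (c : GQ → (adRep p ρbar).V),
    IsCocOf p D ρ c → ∀ σ : GQ, ρ.ρ σ = 1 → ρbar.ρ σ = 1 ∧ c σ = 0

/-- **S-trace**: if the determinant of the deformation is cyclotomic, the cocycle has trace `0`.
(`det((1 + εc)ρ̄) = det ρ̄ · (1 + ε tr c)` and `det ρ(σ) = a ∈ 𝔽_p`: `p = 0` in `k[ε]`, so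
`(p^1) = 0`; every `σ` acts on `μ_p` by some `a`-th power.) -/
def StmtTrace : Prop :=
  ∀ (𝒪 : Type) [CommRing 𝒪] [IsLocalRing 𝒪] (p : ℕ) [Fact p.Prime] [CharP (ResidueField 𝒪) p]
    (ρbar : ResidualGaloisRep (ResidueField 𝒪)) (D : RigidDatum 𝒪 ρbar)
    (ρ : GaloisRepAdic (DualNumber (ResidueField 𝒪))) (c : GQ → (adRep p ρbar).V),
    IsCocOf p D ρ c → ρ.DetIsCyclotomic p →
    ∀ σ : GQ, LinearMap.trace (ResidueField 𝒪) ρbar.V (adVal p ρbar (c σ)) = 0

/-- **S-iso**: cohomologous cocycles belong to equivalent deformations.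
(Conjugate by `1 + εX`.) -/
def StmtIso : Prop :=
  ∀ (𝒪 : Type) [CommRing 𝒪] [IsLocalRing 𝒪] (p : ℕ) [Fact p.Prime] [CharP (ResidueField 𝒪) p]
    (ρbar : ResidualGaloisRep (ResidueField 𝒪)) (D : RigidDatum 𝒪 ρbar)
    (ρ ρ' : GaloisRepAdic (DualNumber (ResidueField 𝒪))) (c c' : GQ → (adRep p ρbar).V),
    IsCocOf p D ρ c → IsCocOf p D ρ' c' →
    (∃ x : (adRep p ρbar).V, ∀ σ : GQ, c σ - c' σ = (adRep p ρbar).ρ σ x - x) →
    ρ.IsEquiv ρ'

/-- **S-lev**: the cocycle of a deformation unramified outside `T` is constant modulo a level of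
the tower `towerS T`.  (`PT.B.stmtKernelField` for the `k`-representation `V_ρ`, then S-unr and
the cocycle identity.) -/
def StmtLev : Prop :=
  ∀ (𝒪 : Type) [CommRing 𝒪] [IsLocalRing 𝒪] (p : ℕ) [Fact p.Prime] [CharP (ResidueField 𝒪) p]
    [Finite (ResidueField 𝒪)]
    (ρbar : ResidualGaloisRep (ResidueField 𝒪)) (D : RigidDatum 𝒪 ρbar)
    (ρ : GaloisRepAdic (DualNumber (ResidueField 𝒪))) (c : GQ → (adRep p ρbar).V)
    (T : Finset Nat.Primes),
    IsCocOf p D ρ c → (∀ q : Nat.Primes, q ∉ T → ρ.IsUnramifiedAt (q : ℕ)) →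
    IsLevel₁ (towerS T) c

/-! ### Local conditions -/

/-- **S-min**: at `v ≠ p` where `ρ̄` is ramified, the cocycle of a deformation which is unipotent
on inertia is a coboundary on inertia: `c(τ) = τ·x - x` for `τ ∈ I_v`, with one `x ∈ ad⁰`.
(The image of `I_v` under `ρ` has exponent `p` (`(u - 1)² = 0`), so it is generated by `u = ρ(t)`
(`TW.L.StmtTameGrp`); `ρ̄(t) = 1 + N`, `N ≠ 0`, `N² = 0`; `tr(c(t)) = 0 = tr(c(t) ρ̄(t))` gives
`c(t) = (a b; 0 -a)` in a basis with `N = (0 1; 0 0)`, which is `t·x - x`; then the cocycle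
identity.) -/
def StmtMin : Prop :=
  ∀ (𝒪 : Type) [CommRing 𝒪] [IsLocalRing 𝒪] (p : ℕ) [Fact p.Prime] [CharP (ResidueField 𝒪) p]
    (ρbar : ResidualGaloisRep (ResidueField 𝒪)) (D : RigidDatum 𝒪 ρbar)
    (ρ : GaloisRepAdic (DualNumber (ResidueField 𝒪))) (c : GQ → (adRep p ρbar).V)
    (v : ℕ) [Fact v.Prime], p ≠ 2 → v ≠ p →
    IsCocOf p D ρ c →
    (∀ σ : GQ, LinearMap.trace (ResidueField 𝒪) ρbar.V (adVal p ρbar (c σ)) = 0) →
    (∀ σ ∈ (padicPlace v).inertiaSubgroupIn ℚ,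
      LinearMap.charpoly (ρ.ρ σ) = (Polynomial.X - 1) ^ 2) →
    (∃ σ ∈ (padicPlace v).inertiaSubgroupIn ℚ, ρbar.ρ σ ≠ 1) →
    ∃ x : (ad0Rep p ρbar).V, ∀ τ ∈ inertiaQ v,
      c (localGaloisToGlobal v τ) =
        (adRep p ρbar).ρ (localGaloisToGlobal v τ) ((ad0Incl p ρbar).hom x) -
          (ad0Incl p ρbar).hom x

/-- **S-conj**: ramification of `ρ̄` at `v` is seen at the place `padicPlace v`.
(All places over `v` are conjugate, inertia groups are conjugate.) -/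
def StmtConj : Prop :=
  ∀ (k : Type) [Field k] (ρbar : ResidualGaloisRep k) (v : ℕ) [Fact v.Prime],
    ¬ ρbar.IsUnramifiedAt v → ∃ σ ∈ (padicPlace v).inertiaSubgroupIn ℚ, ρbar.ρ σ ≠ 1

/-- **S-cycram**: the mod `p` cyclotomic character is ramified at `p` (`p` odd). -/
def StmtCycloRam : Prop :=
  ∀ (p : ℕ) [Fact p.Prime], p ≠ 2 →
    ∃ σ ∈ (padicPlace p).inertiaSubgroupIn ℚ, cycloChar p σ ≠ 1

/-- **S-line**: the ordinary line of `ρ̄` at `p` is unique when `det ρ̄` is cyclotomic.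
(Two lines ⇒ inertia acts trivially on `V̄` ⇒ `χ̄|_I = 1`, against S-cycram.) -/
def StmtLine : Prop :=
  ∀ (p : ℕ) [Fact p.Prime], p ≠ 2 → ∀ (k : Type) [Field k] [CharP k p]
    (ρbar : ResidualGaloisRep k),
    (GaloisRepAdic.ofResidualGaloisRep ρbar).DetIsCyclotomic p →
    ∀ L₁ L₂ : Submodule k ρbar.V, IsOrdLine p ρbar L₁ → IsOrdLine p ρbar L₂ → L₁ = L₂

/-- **S-ord**: the cocycle of a strictly ordinary deformation with cyclotomic determinant is, on
`G_{ℚ_p}`, cohomologous to a cocycle with values in `N = Hom(V̄/L̄, L̄)`: there is `x ∈ ad⁰`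
with `c(τ) - (τ·x - x) ∈ N` for all `τ ∈ G_{ℚ_p}`.
(In a basis adapted to the line `L ⊂ V_ρ`: `ρ(σ) = (χ̄ z, *; 0, z)` on `D_p`, and
`x = a z`, `x z = a` give `z² = 1`, so `z ∈ {±1} ⊂ k`, `x ∈ k`; the line `L` reduces to `L̄`
(S-line); move `L` to the constant line by `1 + εX`.) -/
def StmtOrd : Prop :=
  ∀ (𝒪 : Type) [CommRing 𝒪] [IsLocalRing 𝒪] (p : ℕ) [Fact p.Prime] [CharP (ResidueField 𝒪) p]
    (ρbar : ResidualGaloisRep (ResidueField 𝒪)) (D : RigidDatum 𝒪 ρbar)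
    (ρ : GaloisRepAdic (DualNumber (ResidueField 𝒪))) (c : GQ → (adRep p ρbar).V)
    (Lbar : Submodule (ResidueField 𝒪) ρbar.V), p ≠ 2 →
    IsCocOf p D ρ c → ρ.DetIsCyclotomic p → ρ.IsStrictOrdinaryAt p → IsOrdLine p ρbar Lbar →
    ∃ x : (ad0Rep p ρbar).V, ∀ τ : GQq p, ∃ n ∈ ordSub p ρbar Lbar,
      c (localGaloisToGlobal p τ) =
        (adRep p ρbar).ρ (localGaloisToGlobal p τ) ((ad0Incl p ρbar).hom x) -
          (ad0Incl p ρbar).hom x + (ad0Incl p ρbar).hom n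

/-- **S-res** (ordinary part of TW-res): if a strictly ordinary deformation with cyclotomic
determinant exists, `ρ̄` has an ordinary line at `p`. -/
def StmtResOrd : Prop :=
  ∀ (𝒪 : Type) [CommRing 𝒪] [IsLocalRing 𝒪] (p : ℕ) [Fact p.Prime] [CharP (ResidueField 𝒪) p]
    (ρbar : ResidualGaloisRep (ResidueField 𝒪))
    (ρ : GaloisRepAdic (DualNumber (ResidueField 𝒪))),
    (letI : Algebra (ResidueField 𝒪) (ResidueField (DualNumber (ResidueField 𝒪))) := dnResAlg 𝒪
     ρ.residual.IsEquiv (ρbar.baseChange (ResidueField (DualNumber (ResidueField 𝒪))))) →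
    ρ.IsStrictOrdinaryAt p → ∃ Lbar : Submodule (ResidueField 𝒪) ρbar.V, IsOrdLine p ρbar Lbar

/-- **S-tow** (change of tower): a level class for the big tower `towerS T'` of a representation
which is trivial on a level of the small tower `towerS T`, and which is unramified at the
primes of `T' ∖ T`, is a level class for `towerS T`.
(`U := {g ∈ G_K | c(g) = 0}` is normal in `G_ℚ`, of finite index, and contains the inertia groups
at all places outside `T`; `PT.B.isTowerField_fixedField_of_normal`.) -/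
def StmtTow : Prop :=
  ∀ (p : ℕ) [Fact p.Prime] (T T' : Finset Nat.Primes), T ⊆ T' →
    ∀ (A : Rep.{0} (ZMod p) GQ) [FiniteDimensional (ZMod p) A],
    (∃ U ∈ (towerS T).lev, ∀ s ∈ U, A.ρ s = 1) →
    ∀ x ∈ levH1 (towerS T') A,
    (∀ q : Nat.Primes, q ∈ T' → q ∉ T →
      letI : Fact ((q : Nat.Primes) : ℕ).Prime := ⟨q.2⟩
      (groupCohomology.map (localGaloisToGlobal (q : ℕ)) (𝟙 (locRep (q : ℕ) A)) 1).hom x ∈
        unrH1 (q : ℕ) (locRep (q : ℕ) A)) →
    x ∈ levH1 (towerS T) A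

/-! ### The Selmer group and the count -/

section Selmer

variable (p : ℕ) [Fact p.Prime] {k : Type} [Field k] [CharP k p] (ρbar : ResidualGaloisRep k)

/-- The primes of a finite set of natural numbers. -/
def primesOf (T : Finset ℕ) : Finset Nat.Primes := T.subtype Nat.Prime

/-- The local condition at a prime `q`, for a given condition `Lp` at `p`:
`Lp` at `q = p`; unramified classes at `q ∈ Smin`, `q ≠ p`; all level classes otherwise. -/
def locCond (Smin : Finset ℕ)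
    (Lp : Submodule (ZMod p) (H1 (locRep p (ad0Rep p ρbar)))) (q : ℕ) [Fact q.Prime] :
    Submodule (ZMod p) (H1 (locRep q (ad0Rep p ρbar))) :=
  open Classical in
  if h : q = p then
    (by subst h; exact Lp)
  else if q ∈ Smin then unrH1 q (locRep q (ad0Rep p ρbar))
  else levH1 (towerLoc q) (locRep q (ad0Rep p ρbar))

lemma locCond_self (Smin : Finset ℕ)
    (Lp : Submodule (ZMod p) (H1 (locRep p (ad0Rep p ρbar)))) :
    locCond p ρbar Smin Lp p = Lp := by
  unfold locCond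
  rw [dif_pos rfl]

lemma locCond_of_mem (Smin : Finset ℕ)
    (Lp : Submodule (ZMod p) (H1 (locRep p (ad0Rep p ρbar)))) (q : ℕ) [Fact q.Prime]
    (hq : q ≠ p) (hmem : q ∈ Smin) :
    locCond p ρbar Smin Lp q = unrH1 q (locRep q (ad0Rep p ρbar)) := by
  unfold locCond
  rw [dif_neg hq, if_pos hmem]

lemma locCond_of_not_mem (Smin : Finset ℕ)
    (Lp : Submodule (ZMod p) (H1 (locRep p (ad0Rep p ρbar)))) (q : ℕ) [Fact q.Prime]
    (hq : q ≠ p) (hmem : q ∉ Smin) :
    locCond p ρbar Smin Lp q = levH1 (towerLoc q) (locRep q (ad0Rep p ρbar)) := by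
  unfold locCond
  rw [dif_neg hq, if_neg hmem]

/-- The Selmer structure on the concrete datum for `T`. -/
def selCond (Smin : Finset ℕ) (Lp : Submodule (ZMod p) (H1 (locRep p (ad0Rep p ρbar))))
    (T : Finset Nat.Primes) :
    ∀ v : ↥T, Submodule (ZMod p) (H1 (Rep.res (rS T v) (ad0Rep p ρbar))) := fun v =>
  letI : Fact ((v : Nat.Primes) : ℕ).Prime := ⟨(v : Nat.Primes).2⟩
  locCond p ρbar Smin Lp ((v : Nat.Primes) : ℕ)

/-- **The Selmer group** `Sel ⊆ H¹(G_ℚ, ad⁰)`: level classes for `towerS T` with the local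
conditions `selCond`. -/
def selGroup (Smin : Finset ℕ) (Lp : Submodule (ZMod p) (H1 (locRep p (ad0Rep p ρbar))))
    (T : Finset Nat.Primes) : Submodule (ZMod p) (H1 (ad0Rep p ρbar)) :=
  levH1 (towerS T) (ad0Rep p ρbar) ⊓
    groupCohomology.selmer (rS T) (ad0Rep p ρbar) (selCond p ρbar Smin Lp T)

end Selmer

/-- The ordinary deformation condition of S56 for the set `Smin ∪ Q`. -/
def condOrd (𝒪 : Type) [CommRing 𝒪] (p : ℕ) (Smin Q : Finset ℕ) :
    ∀ ⦃A : Type⦄ [CommRing A] [IsLocalRing A] [Algebra 𝒪 A], GaloisRepAdic A → Prop :=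
  fun _A _ _ _ ρ => GaloisRep.strictOrdinaryCondition 𝒪 p (Smin ∪ Q) ρ ∧
    ∀ q ∈ Smin, q.Prime → q ≠ p → ρ.IsUnipotentOnInertiaAt q

/-- The flat deformation condition of S56 for the set `Smin ∪ Q`. -/
def condFlat (𝒪 : Type) [CommRing 𝒪] (p : ℕ) (Smin Q : Finset ℕ) :
    ∀ ⦃A : Type⦄ [CommRing A] [IsLocalRing A] [Algebra 𝒪 A], GaloisRepAdic A → Prop :=
  fun _A _ _ _ ρ => GaloisRep.flatCondition 𝒪 p (Smin ∪ Q) ρ ∧
    ∀ q ∈ Smin, q.Prime → q ≠ p → ρ.IsUnipotentOnInertiaAt q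

/-- **S-asm (ord)**: the number of pairwise inequivalent strictly ordinary deformations of type
`Smin ∪ Q` is at most the order of the Selmer group with the ordinary condition at `p`.
(S-frame, S-coc, S-trace, S-lev, S-min, S-conj, S-ord give a class in `selGroup`; S-iso gives
injectivity.) -/
def StmtSelCardOrd : Prop :=
  ∀ (𝒪 : Type) [CommRing 𝒪] [IsDomain 𝒪] [IsDiscreteValuationRing 𝒪]
    [IsAdicComplete (maximalIdeal 𝒪) 𝒪] (p : ℕ) [Fact p.Prime] [CharP (ResidueField 𝒪) p]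
    [Finite (ResidueField 𝒪)]
    (ρbar : ResidualGaloisRep (ResidueField 𝒪)), p ≠ 2 → ρbar.IsAbsolutelyIrreducible →
    ∀ (Smin Q : Finset ℕ), p ∈ Smin →
    (∀ q : ℕ, q.Prime → q ≠ p → (q ∈ Smin ↔ ¬ ρbar.IsUnramifiedAt q)) →
    ∀ (Lbar : Submodule (ResidueField 𝒪) ρbar.V), IsOrdLine p ρbar Lbar →
    Finite ↥(selGroup p ρbar Smin (ordH1 p ρbar Lbar p) (primesOf (Smin ∪ Q))) →
    TwTanCard 𝒪 ρbar (condOrd 𝒪 p Smin Q)
      (Nat.card ↥(selGroup p ρbar Smin (ordH1 p ρbar Lbar p) (primesOf (Smin ∪ Q))))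

/-- **S-asm (flat)**: the same for the flat condition, for ANY subspace `Lp ⊆ H¹(G_p, ad⁰)` which
contains the classes of the flat deformations (hypothesis `hflat`, to be supplied by TW-W). -/
def StmtSelCardFlat : Prop :=
  ∀ (𝒪 : Type) [CommRing 𝒪] [IsDomain 𝒪] [IsDiscreteValuationRing 𝒪]
    [IsAdicComplete (maximalIdeal 𝒪) 𝒪] (p : ℕ) [Fact p.Prime] [CharP (ResidueField 𝒪) p]
    [Finite (ResidueField 𝒪)]
    (ρbar : ResidualGaloisRep (ResidueField 𝒪)) (D : RigidDatum 𝒪 ρbar), p ≠ 2 →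
    ∀ (Smin Q : Finset ℕ), p ∈ Smin →
    (∀ q : ℕ, q.Prime → q ≠ p → (q ∈ Smin ↔ ¬ ρbar.IsUnramifiedAt q)) →
    ∀ (Lp : Submodule (ZMod p) (H1 (locRep p (ad0Rep p ρbar)))),
    (∀ (ρ : GaloisRepAdic (DualNumber (ResidueField 𝒪))) (c : cocycles₁ (ad0Rep p ρbar)),
      IsCocOf p D ρ (fun σ => (ad0Incl p ρbar).hom ((c : GQ → (ad0Rep p ρbar).V) σ)) →
      ρ.DetIsCyclotomic p → ρ.IsFlatAt p →
      (groupCohomology.map (localGaloisToGlobal p) (𝟙 (locRep p (ad0Rep p ρbar))) 1).hom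
        ((H1π (ad0Rep p ρbar)).hom c) ∈ Lp) →
    Finite ↥(selGroup p ρbar Smin Lp (primesOf (Smin ∪ Q))) →
    TwTanCard 𝒪 ρbar (condFlat 𝒪 p Smin Q)
      (Nat.card ↥(selGroup p ρbar Smin Lp (primesOf (Smin ∪ Q))))

end Fermat.Agent.TW.S

end


end ZBTW_001_18

/-! ### bundled: `Fermat.Agent.TW.S.ConjPlaces` -/
section ZBTW_001_19
/-
TW-S / conjugacy of places (helper32): any two places of `ℚ̄` over `v` are conjugate under `G_ℚ`
(`sconjp_exists_smul_eq`), and a representation trivial on the inertia group of ONE place over `v`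
is unramified at `v` (`sconjp_isUnramifiedAt`).  (`stmtConj` itself is in `TW/S/Conj.lean`, helper87.)

Proof: a valuation subring `A` of `ℚ̄` over `v` contains exactly the rational numbers with
denominator prime to `v` (`sconjp_rat_mem_iff`), so any two such places have the same trace on `ℚ`
and are conjugate under `G_ℚ` (`S14.exists_fixing_smul_eq` with `F = ⊥`); the inertia groups are
conjugate (`PT.B.conj_mem_inertiaSubgroupIn`) and `ρ̄` is a homomorphism.
-/

set_option autoImplicit false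
set_option linter.unusedSectionVars false

namespace Fermat.Agent.TW.S

open scoped Pointwise
open Fermat.Agent.PT Fermat.Agent.PT.B

section Rat

variable {L : Type*} [Field L] [CharZero L] (A : ValuationSubring L) {v : ℕ}

/-- integers are in `A` -/
lemma sconjp_intCast_mem (n : ℤ) : (n : L) ∈ A := by
  exact intCast_mem A n

/-- integers prime to `v` are not in the maximal ideal -/
lemma sconjp_intCast_not_mem_nonunits (hv : v.Prime) (hA : A.LiesOverPrime v) {n : ℤ}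
    (h : ¬ (v : ℤ) ∣ n) : (n : L) ∉ A.nonunits := by
  intro hn
  have hcop : IsCoprime (v : ℤ) n :=
    (Prime.coprime_iff_not_dvd (Nat.prime_iff_prime_int.mp hv)).mpr h
  obtain ⟨a, b, hab⟩ := hcop
  have h1 : (a : L) * ((v : ℕ) : L) + (b : L) * (n : L) = 1 := by
    have := congrArg (fun t : ℤ => (t : L)) hab
    simpa using this
  have hv' : ((v : ℕ) : L) ∈ A.nonunits := hA
  rw [ValuationSubring.mem_nonunits_iff] at hv' hn
  have ha : A.valuation (a : L) ≤ 1 := (A.valuation_le_one_iff _).2 (sconjp_intCast_mem A a)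
  have hb : A.valuation (b : L) ≤ 1 := (A.valuation_le_one_iff _).2 (sconjp_intCast_mem A b)
  have h2 : A.valuation ((a : L) * ((v : ℕ) : L) + (b : L) * (n : L)) < 1 := by
    refine lt_of_le_of_lt (Valuation.map_add _ _ _) (max_lt ?_ ?_)
    · rw [map_mul]
      exact mul_lt_one_of_nonneg_of_lt_one_right ha zero_le hv'
    · rw [map_mul]
      exact mul_lt_one_of_nonneg_of_lt_one_right hb zero_le hn
  rw [h1, map_one] at h2
  exact lt_irrefl _ h2

/-- the inverse of an integer prime to `v` is in `A` -/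
lemma sconjp_inv_intCast_mem (hv : v.Prime) (hA : A.LiesOverPrime v) {n : ℤ}
    (h : ¬ (v : ℤ) ∣ n) : ((n : L))⁻¹ ∈ A := by
  have h1 := sconjp_intCast_not_mem_nonunits A hv hA h
  rw [ValuationSubring.mem_nonunits_iff, not_lt] at h1
  rw [← ValuationSubring.valuation_le_one_iff, map_inv₀]
  exact inv_le_one_of_one_le₀ h1

/-- **The trace on `ℚ` of a place over `v`**: `r ∈ A ↔ v ∤ den r`. -/
lemma sconjp_rat_mem_iff (hv : v.Prime) (hA : A.LiesOverPrime v) (r : ℚ) :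
    ((r : ℚ) : L) ∈ A ↔ ¬ (v : ℤ) ∣ (r.den : ℤ) := by
  have hr : ((r : ℚ) : L) = (r.num : L) * ((r.den : ℤ) : L)⁻¹ := by
    rw [Rat.cast_def, div_eq_mul_inv]
    simp
  constructor
  · intro hmem hdvd
    -- `v ∤ num`
    have hnum : ¬ (v : ℤ) ∣ r.num := by
      intro hn
      have h1 : (v : ℤ) ∣ Int.gcd r.num (r.den : ℤ) := Int.dvd_coe_gcd hn hdvd
      have h2 : Int.gcd r.num (r.den : ℤ) = 1 := by
        have := r.reduced
        simpa [Nat.Coprime, Int.gcd] using this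
      rw [h2] at h1
      have h3 : (v : ℤ) = 1 ∨ (v : ℤ) = -1 := Int.isUnit_iff.mp (isUnit_of_dvd_one h1)
      have hv1 := hv.one_lt
      omega
    have hden0 : ((r.den : ℤ) : L) ≠ 0 := by
      have := r.den_ne_zero
      exact_mod_cast this
    have hnum0 : (r.num : L) ≠ 0 := by
      intro h
      apply hnum
      have : r.num = 0 := by exact_mod_cast h
      rw [this]
      exact dvd_zero _
    -- `den⁻¹ = r * num⁻¹ ∈ A`
    have h1 : (((r.den : ℤ) : L))⁻¹ = ((r : ℚ) : L) * ((r.num : L))⁻¹ := by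
      rw [hr]
      field_simp
    have h2 : (((r.den : ℤ) : L))⁻¹ ∈ A := by
      rw [h1]
      exact A.mul_mem _ _ hmem (sconjp_inv_intCast_mem A hv hA hnum)
    -- so `den` is a unit, but it is in the maximal ideal
    have h3 : ((r.den : ℤ) : L) ∈ A.nonunits := by
      obtain ⟨m, hm⟩ := hdvd
      have hv' : ((v : ℕ) : L) ∈ A.nonunits := hA
      rw [ValuationSubring.mem_nonunits_iff] at hv' ⊢
      have e : ((r.den : ℤ) : L) = (m : L) * ((v : ℕ) : L) := by
        rw [hm]; push_cast; ring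
      rw [e, map_mul]
      exact mul_lt_one_of_nonneg_of_lt_one_right
        ((A.valuation_le_one_iff _).2 (sconjp_intCast_mem A m)) zero_le hv'
    rw [ValuationSubring.mem_nonunits_iff] at h3
    rw [← ValuationSubring.valuation_le_one_iff, map_inv₀] at h2
    have h4 : 1 ≤ A.valuation ((r.den : ℤ) : L) := by
      have hne : A.valuation ((r.den : ℤ) : L) ≠ 0 := (Valuation.ne_zero_iff _).2 hden0
      exact (inv_le_one₀ (zero_lt_iff.mpr hne)).mp h2
    exact absurd h3 (not_lt.mpr h4)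
  · intro h
    rw [hr]
    exact A.mul_mem _ _ (sconjp_intCast_mem A _) (sconjp_inv_intCast_mem A hv hA h)

end Rat

/-- Any two places of `ℚ̄` over `v` are conjugate under `G_ℚ`. -/
theorem sconjp_exists_smul_eq (v : ℕ) (hv : v.Prime)
    (A A' : ValuationSubring (AlgebraicClosure ℚ)) (hA : A.LiesOverPrime v)
    (hA' : A'.LiesOverPrime v) :
    ∃ g : AlgebraicClosure ℚ ≃ₐ[ℚ] AlgebraicClosure ℚ, g • A = A' := by
  obtain ⟨g, -, hg⟩ := Fermat.Agent.S14.exists_fixing_smul_eq ⊥ A A' (fun x hx => by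
    obtain ⟨r, rfl⟩ := IntermediateField.mem_bot.1 hx
    have e : algebraMap ℚ (AlgebraicClosure ℚ) r = ((r : ℚ) : AlgebraicClosure ℚ) :=
      (eq_ratCast (algebraMap ℚ (AlgebraicClosure ℚ)) r)
    rw [e, sconjp_rat_mem_iff A hv hA, sconjp_rat_mem_iff A' hv hA'])
  exact ⟨g, hg⟩

/-- If `ρ̄` is trivial on the inertia group of one place over `v`, it is unramified at `v`. -/
theorem sconjp_isUnramifiedAt {k : Type} [Field k] (ρbar : ResidualGaloisRep k) (v : ℕ)
    (hv : v.Prime) (P : ValuationSubring (AlgebraicClosure ℚ)) (hP : P.LiesOverPrime v)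
    (h : ∀ σ ∈ P.inertiaSubgroupIn ℚ, ρbar.ρ σ = 1) : ρbar.IsUnramifiedAt v := by
  intro A hA σ hσ
  obtain ⟨g, hg⟩ := sconjp_exists_smul_eq v hv A P hA hP
  have h1 : g * σ * g⁻¹ ∈ (g • A).inertiaSubgroupIn ℚ := conj_mem_inertiaSubgroupIn A g σ hσ
  rw [hg] at h1
  have h2 := h _ h1
  rw [map_mul, map_mul] at h2
  have h3 : ρbar.ρ g⁻¹ * ρbar.ρ g = 1 := by rw [← map_mul, inv_mul_cancel, map_one]
  calc ρbar.ρ σ = (ρbar.ρ g⁻¹ * ρbar.ρ g) * ρbar.ρ σ * (ρbar.ρ g⁻¹ * ρbar.ρ g) := by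
        rw [h3, one_mul, mul_one]
    _ = ρbar.ρ g⁻¹ * (ρbar.ρ g * ρbar.ρ σ * ρbar.ρ g⁻¹) * ρbar.ρ g := by
        simp only [mul_assoc]
    _ = 1 := by rw [h2, mul_one, h3]

end Fermat.Agent.TW.S


end ZBTW_001_19

/-! ### bundled: `Fermat.Agent.R38.EPTeich` -/
section ZBTW_001_20
/-
ROW 38, piece R38-EPEU / TEICH (helper22): `stmtEPTeich : StmtEPTeich`.

Every `x ∈ 𝒪_Ω` (`Ω = PadicAlgCl p`) is congruent mod `𝔪_Ω` to `ι b₀` with `b₀ ∈ ℚ̄` integral at
`padicPlace p` and fixed by the global inertia group of `padicPlace p`.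

Route:
* `r38ept_integral`   : `‖x‖ ≤ 1` ⇒ `x` is a root of a monic polynomial over `ℤ_p`
  (spectral norm: the minimal polynomial has coefficients of norm `≤ 1`);
* `r38ept_pow_card`   : an element of a field of characteristic `p` which is integral over `𝔽_p`
  satisfies `a ^ (p ^ f) = a` for some `f > 0`;
* `r38ept_exists_pow` : `‖x‖ ≤ 1` ⇒ `‖x ^ (p ^ f) - x‖ < 1` for some `f > 0`
  (residue field of the valuation ring `padicIntegers p`);
* `r38ept_exists_close_root` : `‖P(x)‖ < 1`, `P` monic ⇒ a root `b` of `P` with `‖x - b‖ < 1`;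
* `r38ept_unique`     : in a local ring with `q ∈ 𝔪`: `b ^ q = b`, `(b + y) ^ q = b + y`, `y ∈ 𝔪`
  ⇒ `y = 0` (Taylor expansion of `X ^ q - X`, whose derivative is a unit);
* `stmtEPTeich`       : assembly (`PT.B.kras_root_mem_range`, `PT.B.mem_inertiaSubgroupIn_iff`).
-/

set_option autoImplicit false
set_option linter.style.haveILetI false
set_option linter.unusedSectionVars false

namespace Fermat.Agent.R38

open Polynomial Fermat.Agent.PT.B Fermat.Agent.TW.W

/-- Teichmüller uniqueness in a local ring: `b ^ q = b`, `(b + y) ^ q = b + y`, `q, y ∈ 𝔪`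
⇒ `y = 0`. -/
theorem r38ept_unique {R : Type*} [CommRing R] [IsLocalRing R] (q : ℕ)
    (hq : (q : R) ∈ IsLocalRing.maximalIdeal R) {b y : R} (hb : b ^ q = b)
    (hb' : (b + y) ^ q = b + y) (hy : y ∈ IsLocalRing.maximalIdeal R) : y = 0 := by
  obtain ⟨k, hk⟩ := Polynomial.binomExpansion (X ^ q - X : R[X]) b y
  simp only [eval_sub, eval_pow, eval_X, derivative_sub, derivative_X_pow, derivative_X,
    eval_mul, eval_C, eval_one] at hk
  have h0 : (1 - ((q : R) * b ^ (q - 1) + k * y)) * y = 0 := by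
    linear_combination hk - hb' + hb
  have hm : (q : R) * b ^ (q - 1) + k * y ∈ IsLocalRing.maximalIdeal R :=
    Ideal.add_mem _ (Ideal.mul_mem_right _ _ hq) (Ideal.mul_mem_left _ _ hy)
  have hu : IsUnit (1 - ((q : R) * b ^ (q - 1) + k * y)) :=
    IsLocalRing.isUnit_one_sub_self_of_mem_nonunits _ hm
  exact (hu.mul_right_eq_zero).1 h0

/-- an element of a field of characteristic `p`, integral over `𝔽_p`, is fixed by a power of
Frobenius -/
theorem r38ept_pow_card (p : ℕ) [Fact p.Prime] {k : Type*} [Field k] [Algebra (ZMod p) k]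
    (a : k) (ha : IsIntegral (ZMod p) a) : ∃ f : ℕ, 0 < f ∧ a ^ (p ^ f) = a := by
  haveI : FiniteDimensional (ZMod p) (IntermediateField.adjoin (ZMod p) {a}) :=
    IntermediateField.adjoin.finiteDimensional ha
  haveI : Finite (IntermediateField.adjoin (ZMod p) {a}) :=
    Module.finite_of_finite (ZMod p)
  letI : Fintype (IntermediateField.adjoin (ZMod p) {a}) := Fintype.ofFinite _
  haveI : CharP (IntermediateField.adjoin (ZMod p) {a}) p :=
    (Algebra.charP_iff (ZMod p) _ p).1 inferInstance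
  obtain ⟨n, -, hn⟩ := FiniteField.card (IntermediateField.adjoin (ZMod p) {a}) p
  refine ⟨n, n.pos, ?_⟩
  have h1 := FiniteField.pow_card
    (⟨a, IntermediateField.mem_adjoin_simple_self (ZMod p) a⟩ :
      IntermediateField.adjoin (ZMod p) {a})
  rw [hn] at h1
  exact congrArg Subtype.val h1

/-- if the norm of a product `∏ (x - b)` is `< 1`, one of the factors has norm `< 1` -/
theorem r38ept_exists_factor_lt {L : Type*} [NormedField L] (x : L) (s : Multiset L)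
    (h : ‖(s.map fun b => x - b).prod‖ < 1) : ∃ b ∈ s, ‖x - b‖ < 1 := by
  induction s using Multiset.induction_on with
  | empty => simp at h
  | cons a s ih =>
    rw [Multiset.map_cons, Multiset.prod_cons, norm_mul] at h
    by_cases ha : ‖x - a‖ < 1
    · exact ⟨a, Multiset.mem_cons_self a s, ha⟩
    · have ha' : 1 ≤ ‖x - a‖ := not_lt.1 ha
      have hs : ‖(s.map fun b => x - b).prod‖ < 1 := by
        by_contra hcon
        have h1 : 1 ≤ ‖(s.map fun b => x - b).prod‖ := not_lt.1 hcon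
        have : (1 : ℝ) ≤ ‖x - a‖ * ‖(s.map fun b => x - b).prod‖ := by
          calc (1 : ℝ) = 1 * 1 := (one_mul 1).symm
            _ ≤ ‖x - a‖ * ‖(s.map fun b => x - b).prod‖ :=
              mul_le_mul ha' h1 zero_le_one (zero_le_one.trans ha')
        exact absurd h (not_lt.2 this)
      obtain ⟨b, hb, hxb⟩ := ih hs
      exact ⟨b, Multiset.mem_cons_of_mem hb, hxb⟩

/-- `P` monic over an algebraically closed normed field, `‖P(x)‖ < 1` ⇒ some root `b` of `P`
has `‖x - b‖ < 1` -/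
theorem r38ept_exists_close_root {L : Type*} [NormedField L] [IsAlgClosed L] (P : L[X])
    (hP : P.Monic) (x : L) (h : ‖P.eval x‖ < 1) : ∃ b : L, P.eval b = 0 ∧ ‖x - b‖ < 1 := by
  rw [(IsAlgClosed.splits P).eval_eq_prod_roots_of_monic hP x] at h
  obtain ⟨b, hb, hxb⟩ := r38ept_exists_factor_lt x P.roots h
  exact ⟨b, (Polynomial.mem_roots hP.ne_zero).1 hb, hxb⟩

section Local

variable (p : ℕ) [hp : Fact p.Prime]

/-- `‖x‖ ≤ 1` in `ℚ̄_p` ⇒ `x` is integral over `ℤ_p` -/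
theorem r38ept_integral (x : PadicAlgCl p) (hx : ‖x‖ ≤ 1) :
    ∃ Q : ℤ_[p][X], Q.Monic ∧
      eval₂ ((algebraMap ℚ_[p] (PadicAlgCl p)).comp (PadicInt.Coe.ringHom (p := p))) x Q = 0 := by
  have hint : IsIntegral ℚ_[p] x := Algebra.IsIntegral.isIntegral x
  have hmon : (minpoly ℚ_[p] x).Monic := minpoly.monic hint
  have hx' : spectralValue (minpoly ℚ_[p] x) ≤ 1 := hx
  have hco := (spectralValue_le_one_iff hmon).mp hx'
  have hl : minpoly ℚ_[p] x ∈ Polynomial.lifts (PadicInt.Coe.ringHom (p := p)) := by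
    rw [Polynomial.lifts_iff_coeff_lifts]
    intro n
    exact ⟨⟨_, hco n⟩, rfl⟩
  obtain ⟨Q, hQ, -, hQm⟩ := Polynomial.lifts_and_natDegree_eq_and_monic hl hmon
  refine ⟨Q, hQm, ?_⟩
  rw [← eval₂_map, hQ]
  exact minpoly.aeval ℚ_[p] x

/-- `‖p‖ < 1` in `ℚ̄_p` -/
theorem r38ept_norm_p_lt : ‖(p : PadicAlgCl p)‖ < 1 := by
  have h : (p : PadicAlgCl p) = algebraMap ℚ_[p] (PadicAlgCl p) (p : ℚ_[p]) :=
    (map_natCast _ p).symm
  rw [h, PadicAlgCl.norm_extends]
  exact Padic.norm_p_lt_one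

/-- membership in the maximal ideal of `padicIntegers p`, in terms of the norm -/
theorem r38ept_mem_maximalIdeal_iff (y : padicIntegers p) :
    y ∈ IsLocalRing.maximalIdeal (padicIntegers p) ↔ ‖(y : PadicAlgCl p)‖ < 1 := by
  rw [ValuationSubring.valuation_lt_one_iff,
    ← (Valuation.isEquiv_valuation_valuationSubring
      (Valued.v : Valuation (PadicAlgCl p) NNReal)).lt_one_iff_lt_one]
  rw [PadicAlgCl.valuation_def, ← NNReal.coe_lt_one, coe_nnnorm]

/-- **Frobenius periodicity mod `𝔪`**: `‖x‖ ≤ 1` ⇒ `‖x ^ (p ^ f) - x‖ < 1` for some `f > 0` -/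
theorem r38ept_exists_pow (x : PadicAlgCl p) (hx : ‖x‖ ≤ 1) :
    ∃ f : ℕ, 0 < f ∧ ‖x ^ (p ^ f) - x‖ < 1 := by
  classical
  obtain ⟨Q, hQm, hQx⟩ := r38ept_integral p x hx
  have hxA : x ∈ padicIntegers p := by
    rw [mem_padicIntegers_iff, ← NNReal.coe_le_one, coe_nnnorm]
    exact hx
  have hjmem : ∀ z : ℤ_[p],
      ((algebraMap ℚ_[p] (PadicAlgCl p)).comp (PadicInt.Coe.ringHom (p := p))) z ∈
        padicIntegers p := by
    intro z
    rw [mem_padicIntegers_iff, ← NNReal.coe_le_one, coe_nnnorm]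
    show ‖algebraMap ℚ_[p] (PadicAlgCl p) (z : ℚ_[p])‖ ≤ 1
    rw [PadicAlgCl.norm_extends]
    exact PadicInt.norm_le_one z
  let j : ℤ_[p] →+* padicIntegers p :=
    ((algebraMap ℚ_[p] (PadicAlgCl p)).comp (PadicInt.Coe.ringHom (p := p))).codRestrict
      (padicIntegers p) hjmem
  let res : padicIntegers p →+* IsLocalRing.ResidueField (padicIntegers p) :=
    IsLocalRing.residue (padicIntegers p)
  have hresp : ((p : ℕ) : IsLocalRing.ResidueField (padicIntegers p)) = 0 := by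
    have h1 : res ((p : ℕ) : padicIntegers p) = 0 := by
      rw [IsLocalRing.residue_eq_zero_iff, r38ept_mem_maximalIdeal_iff]
      push_cast
      exact r38ept_norm_p_lt p
    rw [← h1, map_natCast]
  haveI : CharP (IsLocalRing.ResidueField (padicIntegers p)) p :=
    (CharP.charP_iff_prime_eq_zero hp.out).mpr hresp
  letI : Algebra (ZMod p) (IsLocalRing.ResidueField (padicIntegers p)) := ZMod.algebra _ p
  have hφ : (algebraMap (ZMod p) (IsLocalRing.ResidueField (padicIntegers p))).comp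
      (PadicInt.toZMod (p := p)) = res.comp j := by
    ext z
    have hspec := PadicInt.toZMod_spec (p := p) z
    rw [PadicInt.maximalIdeal_eq_span_p, Ideal.mem_span_singleton] at hspec
    obtain ⟨w, hw⟩ := hspec
    have hz : z = (ZMod.cast (PadicInt.toZMod z) : ℤ_[p]) + (p : ℤ_[p]) * w := by
      rw [← hw]; ring
    have h2 : res (j z) = res (j (ZMod.cast (PadicInt.toZMod z) : ℤ_[p])) := by
      conv_lhs => rw [hz]
      rw [map_add, map_add, map_mul, map_mul, map_natCast, map_natCast, hresp, zero_mul,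
        add_zero]
    show algebraMap (ZMod p) _ (PadicInt.toZMod z) = res (j z)
    rw [h2, ← ZMod.natCast_val (PadicInt.toZMod z), map_natCast, map_natCast]
    have h3 : algebraMap (ZMod p) (IsLocalRing.ResidueField (padicIntegers p))
        (PadicInt.toZMod z) =
        algebraMap (ZMod p) (IsLocalRing.ResidueField (padicIntegers p))
          (((PadicInt.toZMod z).val : ℕ) : ZMod p) := by
      rw [ZMod.natCast_zmod_val]
    rw [h3, map_natCast]
  have hjx : eval₂ (res.comp j) (res ⟨x, hxA⟩) Q = 0 := by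
    have h1 : eval₂ j (⟨x, hxA⟩ : padicIntegers p) Q = 0 := by
      apply Subtype.ext
      have h2 : ((eval₂ j (⟨x, hxA⟩ : padicIntegers p) Q : padicIntegers p) : PadicAlgCl p) =
          eval₂ ((algebraMap ℚ_[p] (PadicAlgCl p)).comp (PadicInt.Coe.ringHom (p := p))) x Q := by
        have := Polynomial.hom_eval₂ Q j (padicIntegers p).subtype (⟨x, hxA⟩ : padicIntegers p)
        exact this
      rw [h2, hQx]
      rfl
    rw [← Polynomial.hom_eval₂, h1, map_zero]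
  have hint : IsIntegral (ZMod p) (res ⟨x, hxA⟩) := by
    refine ⟨Q.map (PadicInt.toZMod (p := p)), hQm.map _, ?_⟩
    rw [eval₂_map, hφ]
    exact hjx
  obtain ⟨f, hf, hpow⟩ := r38ept_pow_card p _ hint
  refine ⟨f, hf, ?_⟩
  have h1 : res ((⟨x, hxA⟩ : padicIntegers p) ^ (p ^ f) - ⟨x, hxA⟩) = 0 := by
    rw [map_sub, map_pow, hpow, sub_self]
  rw [IsLocalRing.residue_eq_zero_iff, r38ept_mem_maximalIdeal_iff] at h1
  exact h1

end Local

/-- **TEICH** -/
theorem stmtEPTeich : StmtEPTeich := by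
  intro p _ x hx
  obtain ⟨f, hf, hpow⟩ := r38ept_exists_pow p x hx
  have hq2 : 1 < p ^ f := Nat.one_lt_pow hf.ne' (Fact.out : p.Prime).one_lt
  have hPmonic : (X ^ (p ^ f) - X : (PadicAlgCl p)[X]).Monic :=
    monic_X_pow_sub (by rw [degree_X]; exact_mod_cast hq2)
  obtain ⟨b, hbroot, hxb⟩ := r38ept_exists_close_root _ hPmonic x (by simpa using hpow)
  have hQne : (X ^ (p ^ f) - X : ℚ[X]) ≠ 0 :=
    (monic_X_pow_sub (by rw [degree_X]; exact_mod_cast hq2)).ne_zero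
  obtain ⟨b₀, hb₀, rfl⟩ := kras_root_mem_range p (X ^ (p ^ f) - X : ℚ[X]) hQne b
    (by simpa using hbroot)
  have hb₀q : b₀ ^ (p ^ f) = b₀ := by
    have : b₀ ^ (p ^ f) - b₀ = 0 := by simpa using hb₀
    exact sub_eq_zero.1 this
  have hnorm : ‖padicEmbedding p b₀‖ ≤ 1 := by
    have h1 : padicEmbedding p b₀ = x - (x - padicEmbedding p b₀) := by ring
    rw [h1]
    exact (wgr_norm_sub_le p _ _).trans (max_le hx hxb.le)
  refine ⟨b₀, hnorm, ?_, hxb⟩
  intro g hg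
  rw [mem_inertiaSubgroupIn_iff] at hg
  obtain ⟨-, hI⟩ := hg
  have hb₀A : b₀ ∈ padicPlace p := (wgr_mem_padicPlace_iff p b₀).2 hnorm
  have hy := hI b₀ hb₀A
  rw [ValuationSubring.mem_nonunits_iff_exists_mem_maximalIdeal] at hy
  obtain ⟨hyA, hym⟩ := hy
  have hpm : ((p ^ f : ℕ) : padicPlace p) ∈ IsLocalRing.maximalIdeal (padicPlace p) := by
    have h1 : ((p : ℕ) : AlgebraicClosure ℚ) ∈ (padicPlace p).nonunits := by
      rw [wgr_mem_nonunits_iff, map_natCast]
      exact r38ept_norm_p_lt p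
    rw [ValuationSubring.mem_nonunits_iff_exists_mem_maximalIdeal] at h1
    obtain ⟨h2, h3⟩ := h1
    have h4 : ((p ^ f : ℕ) : padicPlace p) =
        (⟨((p : ℕ) : AlgebraicClosure ℚ), h2⟩ : padicPlace p) ^ f := by
      apply Subtype.ext
      push_cast
      rfl
    rw [h4]
    exact Ideal.pow_mem_of_mem _ h3 f hf
  have key := r38ept_unique (R := padicPlace p) (p ^ f) hpm
    (b := ⟨b₀, hb₀A⟩) (y := ⟨g b₀ - b₀, hyA⟩)
    (Subtype.ext (by push_cast; exact hb₀q))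
    (Subtype.ext (by
      show (b₀ + (g b₀ - b₀)) ^ (p ^ f) = b₀ + (g b₀ - b₀)
      have h1 : b₀ + (g b₀ - b₀) = g b₀ := by ring
      rw [h1, ← map_pow, hb₀q]))
    hym
  have h0 : g b₀ - b₀ = 0 := congrArg Subtype.val key
  exact sub_eq_zero.1 h0

end Fermat.Agent.R38


end ZBTW_001_20

/-! ### bundled: `Fermat.Agent.TW.W.GrOmega` -/
section ZBTW_001_21
/-
TW-W, block (GB), piece K4 (helper57 for helper65): the tame character `θ_{e'}` of inertia on
`π^{e'} 𝒪 / π^{e'} 𝔪` with `‖π‖ ^ e' = ‖ζ - 1‖` is the mod-`p` cyclotomic character `ω`: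

`wgr_omega_theta : ‖(σ π / π) ^ e' - ω(σ)‖ < 1` for `σ` inertial.
-/

set_option autoImplicit false
set_option linter.unusedSectionVars false
set_option linter.style.haveILetI false

namespace Fermat.Agent.TW.W

open Fermat.Agent.PT.L Fermat.Agent.PT.B Fermat.Agent.TW.L ExtCitation

section Omega

variable (p : ℕ) [Fact p.Prime]

/-- `‖ζ - 1‖ < 1` for a `p`-th root of unity `ζ ≠ 1` of `ℚ̄_p` (no field `T` needed). -/
theorem wgr_omega_norm_lt {ζ : PadicAlgCl p} (hζ1 : ζ ≠ 1) (hζp : ζ ^ p = 1) : ‖ζ - 1‖ < 1 := by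
  have hint : IsIntegral ℚ_[p] ζ := Algebra.IsIntegral.isIntegral ζ
  haveI : FiniteDimensional ℚ_[p] (IntermediateField.adjoin ℚ_[p] {ζ}) :=
    IntermediateField.adjoin.finiteDimensional hint
  exact (wgr_norm_zeta_sub_one p (IntermediateField.adjoin ℚ_[p] {ζ})
    (IntermediateField.mem_adjoin_simple_self ℚ_[p] ζ) hζ1 hζp).2.2

/-- `‖Σ_{i<a} b^i - a‖ < 1` when `‖b - 1‖ < 1`, `‖b‖ ≤ 1`. -/
theorem wgr_omega_geom {b : PadicAlgCl p} (hb : ‖b‖ ≤ 1) (hb1 : ‖b - 1‖ < 1) (a : ℕ) :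
    ‖(∑ i ∈ Finset.range a, b ^ i) - (a : PadicAlgCl p)‖ < 1 := by
  induction a with
  | zero => simp
  | succ a ih =>
    have e : (∑ i ∈ Finset.range (a + 1), b ^ i) - ((a + 1 : ℕ) : PadicAlgCl p)
        = ((∑ i ∈ Finset.range a, b ^ i) - (a : PadicAlgCl p)) + (b ^ a - 1 ^ a) := by
      rw [Finset.sum_range_succ]
      push_cast
      ring
    rw [e]
    refine lt_of_le_of_lt (wgr_norm_add_le p _ _) (max_lt ih ?_)
    exact wgr_pow_sub_pow_lt p hb (by simp) hb1 a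

/-- **(K4, ω = θ_{e'})**: for `σ` inertial and `‖π‖ ^ e' = ‖ζ - 1‖`, the tame character
`(σ π / π) ^ e'` reduces to the mod-`p` cyclotomic character `ω(σ)`. -/
theorem wgr_omega_theta {ζ π : PadicAlgCl p} (hζ1 : ζ ≠ 1) (hζp : ζ ^ p = 1)
    (hπ : π ≠ 0) {e' : ℕ} (he' : ‖π‖ ^ e' = ‖ζ - 1‖) {σ : GQq p} (hσ : σ ∈ inertiaQ p) :
    ‖(σ π / π) ^ e' - ((((gbOmega p σ : (ZMod p)ˣ) : ZMod p).val : ℕ) : PadicAlgCl p)‖ < 1 := by
  have hl0 : ζ - 1 ≠ 0 := sub_ne_zero.2 hζ1
  have hlpos : 0 < ‖ζ - 1‖ := norm_pos_iff.2 hl0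
  have hl1 : ‖ζ - 1‖ < 1 := wgr_omega_norm_lt p hζ1 hζp
  have hζn : ‖ζ‖ ≤ 1 := (twk_norm_root_one p hζp).le
  have hS := wgr_omega_geom p hζn hl1 (((gbOmega p σ : (ZMod p)ˣ) : ZMod p).val)
  have hσζ := twk_omega_spec p hζp σ
  have hσl : σ (ζ - 1) = (ζ - 1) *
      ∑ i ∈ Finset.range (((gbOmega p σ : (ZMod p)ˣ) : ZMod p).val), ζ ^ i := by
    rw [map_sub, map_one, hσζ, mul_geom_sum]
  have hth := wgr_theta p hσ (x := ζ - 1) hπ e' he'.ge
  rw [he', hσl] at hth
  have e1 : (ζ - 1) * ∑ i ∈ Finset.range (((gbOmega p σ : (ZMod p)ˣ) : ZMod p).val), ζ ^ i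
      - (σ π / π) ^ e' * (ζ - 1)
      = (ζ - 1) * ((∑ i ∈ Finset.range (((gbOmega p σ : (ZMod p)ˣ) : ZMod p).val), ζ ^ i)
        - (σ π / π) ^ e') := by ring
  rw [e1, norm_mul] at hth
  have h2 : ‖(∑ i ∈ Finset.range (((gbOmega p σ : (ZMod p)ˣ) : ZMod p).val), ζ ^ i)
      - (σ π / π) ^ e'‖ < 1 := by
    by_contra hcon
    have hge : 1 ≤ ‖(∑ i ∈ Finset.range (((gbOmega p σ : (ZMod p)ˣ) : ZMod p).val), ζ ^ i)
      - (σ π / π) ^ e'‖ := not_lt.1 hcon
    have := mul_le_mul_of_nonneg_left hge hlpos.le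
    rw [mul_one] at this
    exact absurd hth (not_lt.2 this)
  have e2 : (σ π / π) ^ e' - ((((gbOmega p σ : (ZMod p)ˣ) : ZMod p).val : ℕ) : PadicAlgCl p)
      = -((∑ i ∈ Finset.range (((gbOmega p σ : (ZMod p)ˣ) : ZMod p).val), ζ ^ i)
          - (σ π / π) ^ e')
        + ((∑ i ∈ Finset.range (((gbOmega p σ : (ZMod p)ˣ) : ZMod p).val), ζ ^ i)
          - ((((gbOmega p σ : (ZMod p)ˣ) : ZMod p).val : ℕ) : PadicAlgCl p)) := by ring
  rw [e2]
  refine lt_of_le_of_lt (wgr_norm_add_le p _ _) (max_lt ?_ hS)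
  rw [norm_neg]
  exact h2

end Omega

end Fermat.Agent.TW.W


end ZBTW_001_21

/-! ### bundled: `Fermat.Agent.R38.EPRoot` -/
section ZBTW_001_22
/-
ROW 38, piece R38-EPEU / ROOT (helper65).

`theorem stmtEPRoot : StmtEPRoot`: an inertia element `τ` fixing `ζ` and `y`, `‖y‖ ≤ ‖ζ - 1‖`,
fixes every `p`-th root of `1 + p y`.
(The clause `vanish` of `TW.W.stmtGBKum` without the field `T`.)
-/

set_option autoImplicit false
set_option linter.unusedSectionVars false
set_option linter.style.haveILetI false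

namespace Fermat.Agent.R38

open Fermat.Agent.PT.L Fermat.Agent.PT.B Fermat.Agent.TW.L Fermat.Agent.TW.W ExtCitation

/-- `‖ζ - 1‖ ^ (p - 1) = ‖p‖` for a nontrivial `p`-th root of unity in `ℚ̄_p` (no field). -/
theorem r38epr_norm_zeta (p : ℕ) [Fact p.Prime] {ζ : PadicAlgCl p} (hζ1 : ζ ≠ 1)
    (hζp : ζ ^ p = 1) :
    ‖ζ - 1‖ ^ (p - 1) = ‖(p : PadicAlgCl p)‖ ∧ 0 < ‖ζ - 1‖ ∧ ‖ζ - 1‖ < 1 := by
  have hint : IsIntegral ℚ_[p] ζ := Algebra.IsIntegral.isIntegral ζ
  haveI : FiniteDimensional ℚ_[p] (IntermediateField.adjoin ℚ_[p] {ζ}) :=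
    IntermediateField.adjoin.finiteDimensional hint
  exact wgr_norm_zeta_sub_one p (IntermediateField.adjoin ℚ_[p] {ζ})
    (IntermediateField.mem_adjoin_simple_self ℚ_[p] ζ) hζ1 hζp

/-- **ROOT**. -/
theorem stmtEPRoot : StmtEPRoot := by
  intro p _ ζ y t τ hζ1 hζp hτI hτζ hτy hyl ht
  have hpp : p.Prime := Fact.out
  obtain ⟨hlpow, hlpos, hllt⟩ := r38epr_norm_zeta p hζ1 hζp
  have hpm1 : p - 1 ≠ 0 := by
    have := hpp.two_le
    omega
  have hp1 : ‖(p : PadicAlgCl p)‖ < 1 := by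
    rw [← hlpow]
    exact pow_lt_one₀ (norm_nonneg _) hllt hpm1
  have hy1 : ‖y‖ ≤ 1 := hyl.trans hllt.le
  have hu := twk_unit_ne_zero hp1 hy1
  have hτu : τ (1 + (p : PadicAlgCl p) * y) = 1 + (p : PadicAlgCl p) * y := by
    rw [map_add, map_one, map_mul, map_natCast, hτy]
  have hclose : ‖t ^ p - 1‖ ≤ ‖ζ - 1‖ ^ p := by
    rw [ht, add_sub_cancel_left, norm_mul, ← hlpow]
    calc ‖ζ - 1‖ ^ (p - 1) * ‖y‖ ≤ ‖ζ - 1‖ ^ (p - 1) * ‖ζ - 1‖ :=
          mul_le_mul_of_nonneg_left hyl (pow_nonneg (norm_nonneg _) _)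
      _ = ‖ζ - 1‖ ^ p := by
          rw [← pow_succ]
          congr 1
          omega
  obtain ⟨β, hβp, hβ1⟩ := twk_exists_close_root hζ1 hζp hclose
  rw [ht] at hβp
  have hβ0 : β ≠ 0 := by
    intro h
    rw [h, zero_pow hpp.ne_zero] at hβp
    exact hu hβp.symm
  have ht0 : t ≠ 0 := by
    intro h
    rw [h, zero_pow hpp.ne_zero] at ht
    exact hu ht.symm
  have hτβp : τ (β ^ p) = β ^ p := by rw [hβp]; exact hτu
  -- `τ β = β`
  have hτβ : τ β = β := by
    rw [← wgrKum_eq_zero_iff hζ1 hζp hβ0 hτβp]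
    by_contra hj
    have hspec := wgrKum_spec hζ1 hζp hβ0 hτβp
    set j := wgrKum p ζ τ β with hjdef
    have hζj1 : ζ ^ j.val ≠ 1 := by
      intro h
      apply hj
      apply wgr_zeta_pow_val_inj hζ1 hζp
      rw [h, ZMod.val_zero, pow_zero]
    have hζjp : (ζ ^ j.val) ^ p = 1 := by rw [← pow_mul, mul_comm, pow_mul, hζp, one_pow]
    obtain ⟨hlpow', -, -⟩ := r38epr_norm_zeta p hζj1 hζjp
    have hnormeq : ‖ζ ^ j.val - 1‖ = ‖ζ - 1‖ := by
      have h : ‖ζ ^ j.val - 1‖ ^ (p - 1) = ‖ζ - 1‖ ^ (p - 1) := by rw [hlpow', hlpow]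
      exact (pow_left_inj₀ (norm_nonneg _) (norm_nonneg _) hpm1).1 h
    have hβn : ‖β‖ = 1 := by
      have h1 : ‖β‖ ^ p = 1 := by
        rw [← norm_pow, hβp]
        have h2 : ‖(p : PadicAlgCl p) * y‖ < 1 := by
          rw [norm_mul]
          calc ‖(p : PadicAlgCl p)‖ * ‖y‖ ≤ ‖(p : PadicAlgCl p)‖ * 1 :=
                mul_le_mul_of_nonneg_left hy1 (norm_nonneg _)
            _ < 1 := by rw [mul_one]; exact hp1
        have h3 : ‖1 + (p : PadicAlgCl p) * y‖ ≤ 1 :=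
          (wgr_norm_add_le p _ _).trans (max_le (by rw [norm_one]) h2.le)
        have h4 : (1 : ℝ) ≤ ‖1 + (p : PadicAlgCl p) * y‖ := by
          have h5 : (1 : PadicAlgCl p) = (1 + (p : PadicAlgCl p) * y) - (p : PadicAlgCl p) * y := by
            ring
          have h6 := wgr_norm_sub_le p (1 + (p : PadicAlgCl p) * y) ((p : PadicAlgCl p) * y)
          rw [← h5, norm_one] at h6
          rcases le_max_iff.1 h6 with h7 | h7
          · exact h7
          · exact absurd h7 (not_le.2 h2)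
        exact le_antisymm h3 h4
      exact (pow_eq_one_iff_of_nonneg (norm_nonneg _) hpp.ne_zero).1 h1
    have hl0 : ζ - 1 ≠ 0 := sub_ne_zero.2 hζ1
    have hτl : τ (ζ - 1) = ζ - 1 := by rw [map_sub, map_one, hτζ]
    have hsmall := wgr_inert_scale p hτI hl0 hτl hβ1
    have hmove : τ (β - 1) - (β - 1) = (ζ ^ j.val - 1) * β := by
      rw [map_sub, map_one, hspec]
      ring
    rw [hmove, norm_mul, hβn, mul_one, hnormeq] at hsmall
    exact lt_irrefl _ hsmall
  -- `t = ξ β` with `ξ` a `p`-th root of unity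
  have h1 : (t / β) ^ p = 1 := by
    rw [div_pow, ht, hβp, div_self hu]
  obtain ⟨i, hi⟩ := wgr_exists_pow hζ1 hζp h1
  have htβ : t = ζ ^ i.val * β := by
    rw [← hi]
    field_simp
  rw [htβ, map_mul, map_pow, hτζ, hτβ]

end Fermat.Agent.R38


end ZBTW_001_22

/-! ### bundled: `Fermat.Agent.TW.S.CycloRam` -/
section ZBTW_001_23
/-
TW-S piece S-cycram (helper87): the mod `p` cyclotomic character is ramified at `p` (`p` odd).

`stmtCycloRam : StmtCycloRam`: there is `σ` in the inertia group of `padicPlace p` with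
`χ̄(σ) ≠ 1`.

Proof.  `σ₂` with `σ₂ ζ = ζ²` (irreducibility of the cyclotomic polynomial).  The integers of
`ℚ(ζ)` are `ℤ[ζ]` (Mathlib), and `ζ ≡ 1` modulo the maximal ideal of any place over `p`, so
`σ₂ x ≡ x` for every integer `x` of `ℚ(ζ)`; by the inertia lifting lemma
(`Common.exists_mem_inertiaSubgroupIn_of_congr`) some `σ'` in the inertia group agrees with `σ₂`
on `ℚ(ζ)`.
-/

set_option autoImplicit false
set_option linter.style.haveILetI false

noncomputable section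

namespace Fermat.Agent.TW.S

open Polynomial ExtCitation Fermat.Agent.TW.L

/-- A `p`-th root of unity is `≡ 1` modulo the maximal ideal of a place over `p`. -/
theorem scyc_sub_one_mem_nonunits (p : ℕ) [hp : Fact p.Prime]
    (A : ValuationSubring (AlgebraicClosure ℚ)) (hA : A.LiesOverPrime p)
    {ζ : AlgebraicClosure ℚ} (hζ : ζ ^ p = 1) : ζ - 1 ∈ A.nonunits := by
  -- `ζ ∈ A`
  have hζA : ζ ∈ A := by
    rcases A.mem_or_inv_mem ζ with h | h
    · exact h
    · have hζ0 : ζ ≠ 0 := by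
        rintro rfl
        rw [zero_pow hp.out.ne_zero] at hζ
        exact zero_ne_one hζ
      have h1 : ζ = ζ⁻¹ ^ (p - 1) := by
        have : ζ * ζ ^ (p - 1) = 1 := by
          rw [← pow_succ', Nat.sub_add_cancel hp.out.one_le, hζ]
        rw [inv_pow]
        exact eq_inv_of_mul_eq_one_left this
      rw [h1]
      exact pow_mem h _
  -- the residue field has characteristic `p`
  have hp0 : IsLocalRing.residue A (p : A) = 0 := by
    rw [IsLocalRing.residue_eq_zero_iff]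
    obtain ⟨hmem, hmax⟩ := (A.mem_nonunits_iff_exists_mem_maximalIdeal).mp hA
    have : (⟨(p : AlgebraicClosure ℚ), hmem⟩ : A) = (p : A) := Subtype.ext (by simp)
    rwa [this] at hmax
  haveI : CharP (IsLocalRing.ResidueField A) p := by
    rw [CharP.charP_iff_prime_eq_zero hp.out]
    simpa using hp0
  set z : A := ⟨ζ, hζA⟩ with hz
  have hzp : z ^ p = 1 := Subtype.ext (by simpa [hz] using hζ)
  have h1 : (IsLocalRing.residue A z - 1) ^ p = 0 := by
    rw [sub_pow_char, one_pow, ← map_pow, hzp, map_one, sub_self]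
  have h2 : IsLocalRing.residue A (z - 1) = 0 := by
    rw [map_sub, map_one]
    exact pow_eq_zero_iff (hp.out.ne_zero) |>.mp h1
  rw [IsLocalRing.residue_eq_zero_iff] at h2
  rw [A.mem_nonunits_iff_exists_mem_maximalIdeal]
  exact ⟨sub_mem hζA (one_mem A), h2⟩

/-- The elements `x ∈ A` with `σ x ≡ x` form a subring. -/
def scycRing (A : ValuationSubring (AlgebraicClosure ℚ))
    (σ : AlgebraicClosure ℚ ≃ₐ[ℚ] AlgebraicClosure ℚ) : Subring (AlgebraicClosure ℚ) where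
  carrier := {x | x ∈ A ∧ σ x - x ∈ A.nonunits}
  mul_mem' := by
    rintro x y ⟨hx, hx'⟩ ⟨hy, hy'⟩
    refine ⟨mul_mem hx hy, ?_⟩
    have hσx : σ x ∈ A := by
      have : σ x = x + (σ x - x) := by ring
      rw [this]
      exact add_mem hx (A.nonunits_le hx')
    have e : σ (x * y) - x * y = σ x * (σ y - y) + (σ x - x) * y := by
      rw [map_mul]; ring
    rw [e, ValuationSubring.mem_nonunits_iff] at *
    refine lt_of_le_of_lt (A.valuation.map_add _ _) (max_lt ?_ ?_)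
    · rw [map_mul]
      exact mul_lt_one_of_nonneg_of_lt_one_right ((A.valuation_le_one_iff _).mpr hσx)
        zero_le hy'
    · rw [map_mul]
      exact mul_lt_one_of_nonneg_of_lt_one_left zero_le hx'
        ((A.valuation_le_one_iff _).mpr hy)
  one_mem' := by
    refine ⟨one_mem A, ?_⟩
    rw [map_one, sub_self, ValuationSubring.mem_nonunits_iff, map_zero]
    exact zero_lt_one
  add_mem' := by
    rintro x y ⟨hx, hx'⟩ ⟨hy, hy'⟩
    refine ⟨add_mem hx hy, ?_⟩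
    have e : σ (x + y) - (x + y) = (σ x - x) + (σ y - y) := by
      rw [map_add]; ring
    rw [e, ValuationSubring.mem_nonunits_iff] at *
    exact lt_of_le_of_lt (A.valuation.map_add _ _) (max_lt hx' hy')
  zero_mem' := by
    refine ⟨zero_mem A, ?_⟩
    rw [map_zero, sub_self, ValuationSubring.mem_nonunits_iff, map_zero]
    exact zero_lt_one
  neg_mem' := by
    rintro x ⟨hx, hx'⟩
    refine ⟨neg_mem hx, ?_⟩
    have e : σ (-x) - (-x) = -(σ x - x) := by
      rw [map_neg]; ring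
    rw [e, ValuationSubring.mem_nonunits_iff, Valuation.map_neg] at *
    exact hx'

theorem scyc_intCast_mem (A : ValuationSubring (AlgebraicClosure ℚ))
    (σ : AlgebraicClosure ℚ ≃ₐ[ℚ] AlgebraicClosure ℚ) (n : ℤ) :
    (n : AlgebraicClosure ℚ) ∈ scycRing A σ := intCast_mem _ n

/-- **S-cycram**. -/
theorem stmtCycloRam : StmtCycloRam := by
  intro p _ hp2
  have hp : p.Prime := Fact.out
  haveI : NeZero p := ⟨hp.ne_zero⟩
  haveI : NeZero (p : AlgebraicClosure ℚ) := ⟨Nat.cast_ne_zero.mpr hp.ne_zero⟩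
  obtain ⟨ζ, hζ⟩ := HasEnoughRootsOfUnity.exists_primitiveRoot (AlgebraicClosure ℚ) p
  obtain ⟨σ, hσ⟩ := lglob1_exists_cycloChar_eq_two p hp2
  have h2p : 2 < p := lt_of_le_of_ne hp.two_le (Ne.symm hp2)
  have hspec : ∀ τ : AlgebraicClosure ℚ ≃ₐ[ℚ] AlgebraicClosure ℚ,
      τ ζ = ζ ^ ((cycloChar p τ : (ZMod p)ˣ) : ZMod p).val := by
    intro τ
    have h := modularCyclotomicCharacter.spec (AlgebraicClosure ℚ) (card_rootsOfUnity_eq_self p)
      (τ : AlgebraicClosure ℚ ≃+* AlgebraicClosure ℚ)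
      (t := hζ.toRootsOfUnity) (SetLike.coe_mem hζ.toRootsOfUnity)
    simpa [cycloChar] using h
  have hval2 : (2 : ZMod p).val = 2 := by
    have : ((2 : ℕ) : ZMod p).val = 2 := ZMod.val_natCast_of_lt h2p
    simpa using this
  have hσζ : σ ζ = ζ ^ 2 := by
    rw [hspec σ, hσ, hval2]
  have hA : (padicPlace p).LiesOverPrime p := lfrobex_liesOverPrime p
  -- `ζ` lies in the subring
  have h1 := scyc_sub_one_mem_nonunits p (padicPlace p) hA hζ.pow_eq_one
  have hζA : ζ ∈ padicPlace p := by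
    have : ζ = 1 + (ζ - 1) := by ring
    rw [this]
    exact add_mem (one_mem _) ((padicPlace p).nonunits_le h1)
  have hζB : ζ ∈ scycRing (padicPlace p) σ := by
    refine ⟨hζA, ?_⟩
    rw [hσζ]
    have e : ζ ^ 2 - ζ = ζ * (ζ - 1) := by ring
    rw [e, ValuationSubring.mem_nonunits_iff, map_mul]
    exact mul_lt_one_of_nonneg_of_lt_one_right
      (((padicPlace p).valuation_le_one_iff _).mpr hζA) zero_le
      (((padicPlace p).mem_nonunits_iff).mp h1)
  -- the cyclotomic field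
  haveI hnorm : Normal ℚ (AlgebraicClosure ℚ) := lglob1_qbar_normal
  haveI : Algebra.IsIntegral ℚ (AlgebraicClosure ℚ) := ⟨fun x => (hnorm.isAlgebraic x).isIntegral⟩
  haveI hcyc : IsCyclotomicExtension {p} ℚ (IntermediateField.adjoin ℚ {ζ}) :=
    hζ.intermediateField_adjoin_isCyclotomicExtension ℚ
  haveI : IsGalois ℚ (IntermediateField.adjoin ℚ {ζ}) :=
    IsCyclotomicExtension.isGalois {p} ℚ (IntermediateField.adjoin ℚ {ζ})
  have hcong : ∀ x ∈ IntermediateField.adjoin ℚ {ζ}, IsIntegral ℤ x →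
      σ x - x ∈ (padicPlace p).nonunits := by
    intro x hx hint
    let ζF : IntermediateField.adjoin ℚ {ζ} := ⟨ζ, IntermediateField.mem_adjoin_simple_self ℚ ζ⟩
    have hζF : IsPrimitiveRoot ζF p :=
      IsPrimitiveRoot.of_map_of_injective
        (f := algebraMap (IntermediateField.adjoin ℚ {ζ}) (AlgebraicClosure ℚ))
        (show IsPrimitiveRoot
          (algebraMap (IntermediateField.adjoin ℚ {ζ}) (AlgebraicClosure ℚ) ζF) p from hζ)
        (algebraMap (IntermediateField.adjoin ℚ {ζ}) (AlgebraicClosure ℚ)).injective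
    have hic := IsCyclotomicExtension.Rat.isIntegralClosure_adjoin_singleton_of_prime hζF
    have hintF : IsIntegral ℤ (⟨x, hx⟩ : IntermediateField.adjoin ℚ {ζ}) :=
      (isIntegral_algebraMap_iff
        (algebraMap (IntermediateField.adjoin ℚ {ζ}) (AlgebraicClosure ℚ)).injective).mp hint
    obtain ⟨y, hy⟩ := hic.isIntegral_iff.mp hintF
    have key : ∀ z ∈ Algebra.adjoin ℤ ({ζF} : Set (IntermediateField.adjoin ℚ {ζ})),
        ((z : IntermediateField.adjoin ℚ {ζ}) : AlgebraicClosure ℚ) ∈ scycRing (padicPlace p) σ := by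
      intro z hz
      induction hz using Algebra.adjoin_induction with
      | mem z hz =>
        rw [Set.mem_singleton_iff] at hz
        subst hz
        exact hζB
      | algebraMap r =>
        have : ((algebraMap ℤ (IntermediateField.adjoin ℚ {ζ}) r :
            IntermediateField.adjoin ℚ {ζ}) : AlgebraicClosure ℚ) = (r : AlgebraicClosure ℚ) := by
          simp
        rw [this]
        exact scyc_intCast_mem _ _ r
      | add a b _ _ ha hb =>
        have : ((a + b : IntermediateField.adjoin ℚ {ζ}) : AlgebraicClosure ℚ)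
            = (a : AlgebraicClosure ℚ) + b := rfl
        rw [this]
        exact add_mem ha hb
      | mul a b _ _ ha hb =>
        have : ((a * b : IntermediateField.adjoin ℚ {ζ}) : AlgebraicClosure ℚ)
            = (a : AlgebraicClosure ℚ) * b := rfl
        rw [this]
        exact mul_mem ha hb
    have hxy : x = ((y : IntermediateField.adjoin ℚ {ζ}) : AlgebraicClosure ℚ) := by
      have := congrArg (fun t : IntermediateField.adjoin ℚ {ζ} => (t : AlgebraicClosure ℚ)) hy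
      exact this.symm
    rw [hxy]
    exact (key y y.2).2
  obtain ⟨σ', hσ'I, hσ'F⟩ := Fermat.Agent.Common.exists_mem_inertiaSubgroupIn_of_congr
    (IntermediateField.adjoin ℚ {ζ}) p hp (padicPlace p) hA σ hcong
  refine ⟨σ', hσ'I, ?_⟩
  intro h1'
  have h3 : σ' ζ = ζ := by
    rw [hspec σ', h1', Units.val_one]
    have : (1 : ZMod p).val = 1 := by
      haveI : Fact (1 < p) := ⟨hp.one_lt⟩
      exact ZMod.val_one p
    rw [this, pow_one]
  have h4 : σ' ζ = ζ ^ 2 := by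
    rw [hσ'F ζ (IntermediateField.mem_adjoin_simple_self ℚ ζ), hσζ]
  rw [h3] at h4
  have h5 : ζ ^ 1 = ζ ^ 2 := by rw [pow_one]; exact h4
  have := hζ.pow_inj hp.one_lt h2p h5
  omega

end Fermat.Agent.TW.S

end


end ZBTW_001_23

/-! ### bundled: `Fermat.Agent.TW.W.StrCyc` -/
section ZBTW_001_24
/-
TW-W / STR-cyc (helper86): `stmtCycloRamFull : StmtCycloRamFull`.

`ℚ_p(ζ_p)/ℚ_p` is totally ramified: every value of the mod `p` cyclotomic character is taken on
the inertia group at `padicPlace p`.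

Proof: that of `TW.S.stmtCycloRam` (helper87) with `ζ ↦ ζ ^ a` instead of `ζ ↦ ζ ^ 2`.
-/

set_option autoImplicit false
set_option linter.style.haveILetI false

noncomputable section

namespace Fermat.Agent.TW.W

open Polynomial ExtCitation Fermat.Agent.TW.L Fermat.Agent.TW.S

/-- The mod `p` cyclotomic character through its action on a primitive `p`-th root of unity. -/
theorem wstr_cyclo_spec (p : ℕ) [hp : Fact p.Prime] {ζ : AlgebraicClosure ℚ}
    (hζ : IsPrimitiveRoot ζ p) (τ : AlgebraicClosure ℚ ≃ₐ[ℚ] AlgebraicClosure ℚ) :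
    τ ζ = ζ ^ ((cycloChar p τ : (ZMod p)ˣ) : ZMod p).val := by
  haveI : NeZero p := ⟨hp.out.ne_zero⟩
  haveI : NeZero (p : AlgebraicClosure ℚ) := ⟨Nat.cast_ne_zero.mpr hp.out.ne_zero⟩
  have h := modularCyclotomicCharacter.spec (AlgebraicClosure ℚ) (card_rootsOfUnity_eq_self p)
    (τ : AlgebraicClosure ℚ ≃+* AlgebraicClosure ℚ)
    (t := hζ.toRootsOfUnity) (SetLike.coe_mem hζ.toRootsOfUnity)
  simpa [cycloChar] using h

/-- `τ ζ = ζ ^ a` determines the value of the cyclotomic character. -/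
theorem wstr_cyclo_eq (p : ℕ) [hp : Fact p.Prime] {ζ : AlgebraicClosure ℚ}
    (hζ : IsPrimitiveRoot ζ p) (τ : AlgebraicClosure ℚ ≃ₐ[ℚ] AlgebraicClosure ℚ)
    (a : (ZMod p)ˣ) (h : τ ζ = ζ ^ ((a : (ZMod p)ˣ) : ZMod p).val) : cycloChar p τ = a := by
  haveI : NeZero p := ⟨hp.out.ne_zero⟩
  have h1 := wstr_cyclo_spec p hζ τ
  rw [h] at h1
  have hv := hζ.pow_inj (ZMod.val_lt _) (ZMod.val_lt _) h1
  apply Units.ext
  exact (ZMod.val_injective p hv).symm

/-- Every value of the mod `p` cyclotomic character is taken on `G_ℚ`. -/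
theorem wstr_exists_cycloChar_eq (p : ℕ) [hp : Fact p.Prime] (a : (ZMod p)ˣ)
    {ζ : AlgebraicClosure ℚ} (hζ : IsPrimitiveRoot ζ p) :
    ∃ σ : AlgebraicClosure ℚ ≃ₐ[ℚ] AlgebraicClosure ℚ,
      σ ζ = ζ ^ ((a : (ZMod p)ˣ) : ZMod p).val := by
  haveI : NeZero p := ⟨hp.out.ne_zero⟩
  have hcop : Nat.Coprime ((a : (ZMod p)ˣ) : ZMod p).val p := ZMod.val_coe_unit_coprime a
  have hζa : IsPrimitiveRoot (ζ ^ ((a : (ZMod p)ˣ) : ZMod p).val) p := hζ.pow_of_coprime _ hcop
  have hmin : minpoly ℚ ζ = cyclotomic p ℚ := (cyclotomic_eq_minpoly_rat hζ hp.out.pos).symm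
  have hroot : Polynomial.aeval (ζ ^ ((a : (ZMod p)ˣ) : ZMod p).val) (minpoly ℚ ζ) = 0 := by
    rw [hmin]
    have := hζa.isRoot_cyclotomic hp.out.pos
    rw [← map_cyclotomic p (algebraMap ℚ (AlgebraicClosure ℚ))] at this
    simpa [aeval_def, eval₂_eq_eval_map, IsRoot.def] using this
  haveI := lglob1_qbar_normal
  have halg : IsAlgebraic ℚ ζ := (lglob1_qbar_normal.isAlgebraic ζ)
  exact minpoly.exists_algEquiv_of_root' halg hroot

/-- **STR-cyc**. -/
theorem stmtCycloRamFull : StmtCycloRamFull := by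
  intro p _ a
  have hp : p.Prime := Fact.out
  haveI : NeZero p := ⟨hp.ne_zero⟩
  haveI : NeZero (p : AlgebraicClosure ℚ) := ⟨Nat.cast_ne_zero.mpr hp.ne_zero⟩
  obtain ⟨ζ, hζ⟩ := HasEnoughRootsOfUnity.exists_primitiveRoot (AlgebraicClosure ℚ) p
  obtain ⟨σ, hσζ⟩ := wstr_exists_cycloChar_eq p a hζ
  set m : ℕ := ((a : (ZMod p)ˣ) : ZMod p).val with hm
  have hA : (padicPlace p).LiesOverPrime p := lfrobex_liesOverPrime p
  -- `ζ` lies in the subring
  have h1 := scyc_sub_one_mem_nonunits p (padicPlace p) hA hζ.pow_eq_one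
  have h1m : ζ ^ m - 1 ∈ (padicPlace p).nonunits := by
    refine scyc_sub_one_mem_nonunits p (padicPlace p) hA ?_
    rw [← pow_mul, mul_comm, pow_mul, hζ.pow_eq_one, one_pow]
  have hζA : ζ ∈ padicPlace p := by
    have : ζ = 1 + (ζ - 1) := by ring
    rw [this]
    exact add_mem (one_mem _) ((padicPlace p).nonunits_le h1)
  have hζB : ζ ∈ scycRing (padicPlace p) σ := by
    refine ⟨hζA, ?_⟩
    rw [hσζ]
    have e : ζ ^ m - ζ = (ζ ^ m - 1) - (ζ - 1) := by ring
    rw [e, ValuationSubring.mem_nonunits_iff]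
    refine lt_of_le_of_lt (Valuation.map_sub _ _ _) (max_lt ?_ ?_)
    · exact ((padicPlace p).mem_nonunits_iff).mp h1m
    · exact ((padicPlace p).mem_nonunits_iff).mp h1
  -- the cyclotomic field
  haveI hnorm : Normal ℚ (AlgebraicClosure ℚ) := lglob1_qbar_normal
  haveI : Algebra.IsIntegral ℚ (AlgebraicClosure ℚ) := ⟨fun x => (hnorm.isAlgebraic x).isIntegral⟩
  haveI hcyc : IsCyclotomicExtension {p} ℚ (IntermediateField.adjoin ℚ {ζ}) :=
    hζ.intermediateField_adjoin_isCyclotomicExtension ℚ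
  haveI : IsGalois ℚ (IntermediateField.adjoin ℚ {ζ}) :=
    IsCyclotomicExtension.isGalois {p} ℚ (IntermediateField.adjoin ℚ {ζ})
  have hcong : ∀ x ∈ IntermediateField.adjoin ℚ {ζ}, IsIntegral ℤ x →
      σ x - x ∈ (padicPlace p).nonunits := by
    intro x hx hint
    let ζF : IntermediateField.adjoin ℚ {ζ} := ⟨ζ, IntermediateField.mem_adjoin_simple_self ℚ ζ⟩
    have hζF : IsPrimitiveRoot ζF p :=
      IsPrimitiveRoot.of_map_of_injective
        (f := algebraMap (IntermediateField.adjoin ℚ {ζ}) (AlgebraicClosure ℚ))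
        (show IsPrimitiveRoot
          (algebraMap (IntermediateField.adjoin ℚ {ζ}) (AlgebraicClosure ℚ) ζF) p from hζ)
        (algebraMap (IntermediateField.adjoin ℚ {ζ}) (AlgebraicClosure ℚ)).injective
    have hic := IsCyclotomicExtension.Rat.isIntegralClosure_adjoin_singleton_of_prime hζF
    have hintF : IsIntegral ℤ (⟨x, hx⟩ : IntermediateField.adjoin ℚ {ζ}) :=
      (isIntegral_algebraMap_iff
        (algebraMap (IntermediateField.adjoin ℚ {ζ}) (AlgebraicClosure ℚ)).injective).mp hint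
    obtain ⟨y, hy⟩ := hic.isIntegral_iff.mp hintF
    have key : ∀ z ∈ Algebra.adjoin ℤ ({ζF} : Set (IntermediateField.adjoin ℚ {ζ})),
        ((z : IntermediateField.adjoin ℚ {ζ}) : AlgebraicClosure ℚ) ∈ scycRing (padicPlace p) σ := by
      intro z hz
      induction hz using Algebra.adjoin_induction with
      | mem z hz =>
        rw [Set.mem_singleton_iff] at hz
        subst hz
        exact hζB
      | algebraMap r =>
        have : ((algebraMap ℤ (IntermediateField.adjoin ℚ {ζ}) r :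
            IntermediateField.adjoin ℚ {ζ}) : AlgebraicClosure ℚ) = (r : AlgebraicClosure ℚ) := by
          simp
        rw [this]
        exact scyc_intCast_mem _ _ r
      | add a b _ _ ha hb =>
        have : ((a + b : IntermediateField.adjoin ℚ {ζ}) : AlgebraicClosure ℚ)
            = (a : AlgebraicClosure ℚ) + b := rfl
        rw [this]
        exact add_mem ha hb
      | mul a b _ _ ha hb =>
        have : ((a * b : IntermediateField.adjoin ℚ {ζ}) : AlgebraicClosure ℚ)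
            = (a : AlgebraicClosure ℚ) * b := rfl
        rw [this]
        exact mul_mem ha hb
    have hxy : x = ((y : IntermediateField.adjoin ℚ {ζ}) : AlgebraicClosure ℚ) := by
      have := congrArg (fun t : IntermediateField.adjoin ℚ {ζ} => (t : AlgebraicClosure ℚ)) hy
      exact this.symm
    rw [hxy]
    exact (key y y.2).2
  obtain ⟨σ', hσ'I, hσ'F⟩ := Fermat.Agent.Common.exists_mem_inertiaSubgroupIn_of_congr
    (IntermediateField.adjoin ℚ {ζ}) p hp (padicPlace p) hA σ hcong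
  refine ⟨σ', hσ'I, ?_⟩
  apply wstr_cyclo_eq p hζ σ' a
  rw [hσ'F ζ (IntermediateField.mem_adjoin_simple_self ℚ ζ), hσζ]

end Fermat.Agent.TW.W

end


end ZBTW_001_24

/-! ### bundled: `Fermat.Agent.R38.EPVal` -/
section ZBTW_001_25
/-
ROW 38, piece R38-EPEU / VAL (helper65).

`theorem stmtEPVal : StmtEPVal`: `y ∈ ℚ̄_p` fixed by `I ∩ ker ω` with `‖y‖ < 1` has
`‖y‖ ≤ ‖ζ - 1‖` (the value group of `ℚ_p^{ur}(ζ_p)` is generated by `v(ζ - 1)`).
Norm trick: `N = ∏_a g_a y` (`g_a ∈ I`, `ω(g_a) = a`) is fixed by `I`, so `‖N‖ ∈ p^ℤ`.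
-/

set_option autoImplicit false
set_option linter.unusedSectionVars false
set_option linter.style.haveILetI false

namespace Fermat.Agent.R38

open Fermat.Agent.PT.L Fermat.Agent.PT.B Fermat.Agent.TW.L Fermat.Agent.TW.W ExtCitation

section Val

variable (p : ℕ) [Fact p.Prime]

/-- local inertia elements with prescribed value of `ω`. -/
theorem r38epv_exists_omega (a : (ZMod p)ˣ) : ∃ g ∈ inertiaQ p, gbOmega p g = a := by
  obtain ⟨σ, hσ, hσa⟩ := stmtCycloRamFull p a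
  have hσD : σ ∈ (padicPlace p).decompositionSubgroup ℚ := by
    obtain ⟨x, -, rfl⟩ := hσ
    exact x.2
  obtain ⟨g, hg⟩ := stmtDecFull p σ hσD
  refine ⟨g, ?_, ?_⟩
  · rw [mem_inertiaQ, hg]
    exact hσ
  · show cycloChar p (localGaloisToGlobal p g) = a
    rw [hg, hσa]

/-- `ω γ = 1` means that `γ` fixes the `p`-th roots of unity. -/
theorem r38epv_fix_zeta {ζ : PadicAlgCl p} (hζp : ζ ^ p = 1) {γ : GQq p}
    (hγ : gbOmega p γ = 1) : γ ζ = ζ := by
  have h := twk_omega_spec p hζp γ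
  rw [hγ] at h
  have h1 : (((1 : (ZMod p)ˣ) : ZMod p)).val = 1 := by
    haveI : Fact (1 < p) := ⟨(Fact.out : p.Prime).one_lt⟩
    rw [Units.val_one, ZMod.val_one]
  rw [h1, pow_one] at h
  exact h

/-- the norm of `p`. -/
theorem r38epv_norm_p : ‖((p : ℕ) : PadicAlgCl p)‖ = (p : ℝ)⁻¹ := by
  have h1 : ((p : ℕ) : PadicAlgCl p) = algebraMap ℚ_[p] (PadicAlgCl p) (p : ℚ_[p]) := by
    rw [map_natCast]
  rw [h1, ← PadicAlgCl.spectralNorm_eq, spectralNorm_extends]
  exact Padic.norm_p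

end Val

/-- **VAL**. -/
theorem stmtEPVal : StmtEPVal := by
  intro p _ ζ y hζ1 hζp hfix hy1
  have hpp : p.Prime := Fact.out
  haveI : NeZero p := ⟨hpp.ne_zero⟩
  obtain ⟨hlpow, hlpos, hllt⟩ := r38epr_norm_zeta p hζ1 hζp
  have hpm1 : p - 1 ≠ 0 := by
    have := hpp.two_le
    omega
  rcases eq_or_ne y 0 with rfl | hy0
  · rw [norm_zero]
    exact hlpos.le
  choose g hgI hgω using r38epv_exists_omega p
  set N : PadicAlgCl p := ∏ a : (ZMod p)ˣ, g a y with hN
  have hN0 : N ≠ 0 := by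
    rw [hN, Finset.prod_ne_zero_iff]
    intro a _
    rwa [Ne, map_eq_zero_iff _ (g a).injective]
  -- `N` is fixed by inertia
  have hNfix : ∀ τ ∈ inertiaQ p, τ N = N := by
    intro τ hτ
    have hmove : ∀ a : (ZMod p)ˣ, τ (g a y) = g (gbOmega p τ * a) y := by
      intro a
      set b := gbOmega p τ * a with hb
      have hγI : (g b)⁻¹ * τ * g a ∈ inertiaQ p :=
        mul_mem (mul_mem (inv_mem (hgI b)) hτ) (hgI a)
      have hγω : gbOmega p ((g b)⁻¹ * τ * g a) = 1 := by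
        rw [map_mul, map_mul, map_inv, hgω, hgω, hb]
        group
      have h1 := hfix _ hγI (r38epv_fix_zeta p hζp hγω)
      have h2 : ((g b)⁻¹ * τ * g a) y = (g b)⁻¹ (τ (g a y)) := rfl
      rw [h2] at h1
      have h3 : g b ((g b)⁻¹ (τ (g a y))) = τ (g a y) := by
        have : (g b * (g b)⁻¹) (τ (g a y)) = τ (g a y) := by rw [mul_inv_cancel]; rfl
        exact this
      rw [← h3, h1]
    rw [hN, map_prod]
    rw [Finset.prod_congr rfl (fun a _ => hmove a)]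
    exact Fintype.prod_equiv (Equiv.mulLeft (gbOmega p τ)) _ _ (fun a => rfl)
  obtain ⟨m, hm⟩ := wgr_unr p hN0 hNfix
  -- `‖N‖ = ‖y‖ ^ (p - 1)`
  have hNn : ‖N‖ = ‖y‖ ^ (p - 1) := by
    rw [hN, norm_prod, Finset.prod_congr rfl (fun a _ => wgr_norm_map p (g a) y),
      Finset.prod_const, Finset.card_univ, ZMod.card_units_eq_totient, Nat.totient_prime hpp]
  have hp1 : (1 : ℝ) < p := by exact_mod_cast hpp.one_lt
  have hp0 : (0 : ℝ) < p := by linarith
  have hNlt : ‖N‖ < 1 := by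
    rw [hNn]
    exact pow_lt_one₀ (norm_nonneg _) hy1 hpm1
  have hm0 : m < 0 := by
    by_contra h
    have h' : 0 ≤ m := not_lt.1 h
    have : (1 : ℝ) ≤ (p : ℝ) ^ m := one_le_zpow₀ hp1.le h'
    rw [hm] at hNlt
    linarith
  have hNle : ‖N‖ ≤ ‖(p : PadicAlgCl p)‖ := by
    rw [hm, r38epv_norm_p, ← zpow_neg_one]
    exact zpow_le_zpow_right₀ hp1.le (by omega)
  rw [hNn, ← hlpow] at hNle
  exact (pow_le_pow_iff_left₀ (norm_nonneg _) (norm_nonneg _) hpm1).1 hNle

end Fermat.Agent.R38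


end ZBTW_001_25

/-! ### bundled: `Fermat.Agent.R38.EPGood` -/
section ZBTW_001_26
/-
ROW 38, piece R38-EPEU / EP-GOOD (helper74).

`stmtEPGood : StmtEPGood`: a normal subgroup `N ⊂ G_p` containing some `Gal(Ω/E)`, `E/ℚ_p`
finite, contained in `ker ω`, with `τ^(p-1) ∈ N` for all `τ`, is `Gal(Ω/T)` for a good field `T`
(`T := ` the fixed field of `N`; `p ∤ [G_p : N]` by Cauchy).
-/

set_option autoImplicit false
set_option linter.unusedSectionVars false

noncomputable section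

namespace Fermat.Agent.R38

open Fermat.Agent.PT Fermat.Agent.PT.B Fermat.Agent.TW.L Fermat.Agent.TW.W ExtCitation

/-- A finite group killed by `p - 1` has order prime to `p` (Cauchy). -/
theorem r38epg_not_dvd_card (p : ℕ) [Fact p.Prime] (Γ : Type*) [Group Γ] [Finite Γ]
    (h : ∀ x : Γ, x ^ (p - 1) = 1) : ¬ p ∣ Nat.card Γ := by
  intro hdvd
  obtain ⟨x, hx⟩ := exists_prime_orderOf_dvd_card' p hdvd
  have h1 : orderOf x ∣ p - 1 := orderOf_dvd_of_pow_eq_one (h x)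
  rw [hx] at h1
  have hp1 : 1 < p := (Fact.out : p.Prime).one_lt
  have := Nat.le_of_dvd (by omega) h1
  omega

/-- **EP-GOOD**. -/
theorem stmtEPGood : StmtEPGood := by
  intro p _ N hN hE hpow hω
  obtain ⟨E, hEf, hle⟩ := hE
  have hEf' : FiniteDimensional ℚ_[p] E := hEf
  have hopen : IsOpen (N : Set (GQq p)) :=
    Subgroup.isOpen_mono hle E.fixingSubgroup_isOpen
  have hclosed : IsClosed (N : Set (GQq p)) := Subgroup.isClosed_of_isOpen _ hopen
  have hfix : (IntermediateField.fixedField N).fixingSubgroup = N :=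
    InfiniteGalois.fixingSubgroup_fixedField ⟨N, hclosed⟩
  refine ⟨IntermediateField.fixedField N, ?_, hfix⟩
  have hTE : IntermediateField.fixedField N ≤ E := by
    have h1 : IntermediateField.fixedField N ≤
        IntermediateField.fixedField E.fixingSubgroup := IntermediateField.fixedField_le hle
    rwa [InfiniteGalois.fixedField_fixingSubgroup] at h1
  have hfin : FiniteDimensional ℚ_[p] (IntermediateField.fixedField N) :=
    FiniteDimensional.of_injective (IntermediateField.inclusion hTE).toLinearMap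
      (IntermediateField.inclusion hTE).injective
  have hnormal : ((IntermediateField.fixedField N).fixingSubgroup :
      Subgroup (GQq p)).Normal := by
    rw [hfix]
    exact hN
  have hidx : Module.finrank ℚ_[p] (IntermediateField.fixedField N) = N.index := by
    rw [IntermediateField.finrank_eq_fixingSubgroup_index (PadicAlgCl p)
      (IntermediateField.fixedField N), hfix]
  refine ⟨hfin, (InfiniteGalois.normal_iff_isGalois _).1 hnormal, ?_, ?_⟩
  · rw [hidx]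
    have hne : N.index ≠ 0 := by
      rw [← hidx]
      exact (Module.finrank_pos (R := ℚ_[p])
        (M := (IntermediateField.fixedField N))).ne'
    have hfi : N.FiniteIndex := ⟨hne⟩
    have hfinq : Finite (GQq p ⧸ N) := Subgroup.finite_quotient_of_finiteIndex
    rw [Subgroup.index_eq_card]
    apply r38epg_not_dvd_card p (GQq p ⧸ N)
    intro x
    obtain ⟨τ, rfl⟩ := QuotientGroup.mk_surjective x
    rw [← QuotientGroup.mk_pow]
    exact (QuotientGroup.eq_one_iff _).2 (hpow τ)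
  · have hp0 : NeZero p := ⟨(Fact.out : p.Prime).ne_zero⟩
    obtain ⟨ζ₀, hζ₀⟩ := cycloField_exists_primitiveRoot p
    refine ⟨padicEmbedding p ζ₀, ?_, ?_, ?_⟩
    · rw [IntermediateField.mem_fixedField_iff]
      intro σ hσ
      have h1 : cycloChar p (localGaloisToGlobal p σ) = 1 := hω σ hσ
      have h2 := (cycloChar_eq_one_iff p _).1 h1
      have h3 := (mem_fixingSubgroup_cycloField_iff _).1 h2 ζ₀ hζ₀.pow_eq_one
      rw [← padicEmbedding_localGaloisToGlobal, h3]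
    · intro h
      have hinj : Function.Injective (padicEmbedding p) := (padicEmbedding p).toRingHom.injective
      have h1 : ζ₀ = 1 := hinj (by rw [h, map_one])
      exact hζ₀.ne_one (Fact.out : p.Prime).one_lt h1
    · rw [← map_pow, hζ₀.pow_eq_one, map_one]

end Fermat.Agent.R38

end


end ZBTW_001_26
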