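/- GENERATED FILE (helper35, build-time optimisation, NOTES/ZB.md): verbatim concatenation of the modules
   Fermat.Agent.EC.TateAbs
   Fermat.Agent.EC.Tate
   Fermat.Agent.EC.TateLocal
   Fermat.Agent.EC.Flat.Chart
   Fermat.Agent.R38.EPM.LiftNode
   Fermat.Agent.EC.Flat.Final
   Fermat.Agent.R38.EPeu
   Fermat.Agent.R38.EPeuFinal
   Do not edit; do not import together with these modules. -/
import Mathlib
import Fermat.Prelude.Def_GaloisRep_Adic
import Fermat.Prelude.Def_FLTPrelim_GaloisRep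
import Fermat.Agent.ZB.S05_001
import Fermat.Agent.ZB.EC_002
import Fermat.Prelude.Def_GaloisRep_LocalConditions
import Fermat.Prelude.Def_FLTPrelim_Modularity
import Fermat.Agent.ZB.RED_001
import Fermat.Agent.ZB.EC_006
import Fermat.Agent.ZB.W1_002
import Fermat.Agent.ZB.W1_001
import Fermat.Agent.ZB.S05_002
import Fermat.Agent.ZB.W1_003
import Fermat.Agent.ZB.S28_005
import Fermat.Agent.ZB.Common_001
import Fermat.Prelude.Def_GaloisRep_Flat
import Fermat.Agent.ZB.TW_005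
import Fermat.Agent.ZB.TW_001

/-! ### bundled: `Fermat.Agent.EC.TateAbs` -/
section ZBEC_007_0

/-!
# The `ℓ`-adic Tate module of an abelian group, abstractly (EC package, brick EC-adic (a), part 1)

Mathlib only.  Let `M` be an abelian group, `ℓ` a prime and `r : ℕ`.

* `TateSys M ℓ r` : a compatible system of bases `P n i` (`i : Fin r`) of the `ℓ ^ n`-torsion of `M`
  (`ℓ • P (n+1) i = P n i`, independence modulo `ℓ ^ n`, spanning).
* `exists_tateSys` : such a system exists as soon as `#M[ℓ^n] = ℓ^(r n)` for all `n` and the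
  `ℓ`-power torsion of `M` is `ℓ`-divisible.
* `TateSys.lev S n : (Fin r → ℤ_[ℓ]) →+ M` : the level maps `v ↦ ∑ (v i mod ℓ^n) • P n i`;
  they are onto `M[ℓ^n]`, with kernel `ℓ^n V`, compatible (`ℓ • lev (n+1) v = lev n v`),
  jointly injective, and every compatible sequence of torsion points comes from a unique `v`.
* `TateSys.tateEnd S : AddMonoid.End M →+* Module.End ℤ_[ℓ] (Fin r → ℤ_[ℓ])` : functoriality, a RING
  homomorphism, characterised by `S.lev n (S.tateEnd g v) = g (S.lev n v)`.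
-/

namespace Fermat.Agent.EC

open scoped BigOperators

universe u

/-- A compatible system of bases of the `ℓ ^ n`-torsion of `M`, `n = 0, 1, 2, …`. -/
structure TateSys (M : Type u) [AddCommGroup M] (ℓ : ℕ) (r : ℕ) where
  /-- the basis of level `n` -/
  P : ℕ → Fin r → M
  zero : ∀ i, P 0 i = 0
  compat : ∀ n i, ℓ • P (n + 1) i = P n i
  indep : ∀ (n : ℕ) (a : Fin r → ℤ), ∑ i, a i • P n i = 0 → ∀ i, ((ℓ : ℤ) ^ n) ∣ a i
  span : ∀ (n : ℕ) (R : M), ℓ ^ n • R = 0 → ∃ a : Fin r → ℤ, R = ∑ i, a i • P n i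

namespace TateSys

variable {M : Type u} [AddCommGroup M] {ℓ : ℕ} {r : ℕ} (S : TateSys M ℓ r)

lemma pow_smul_P (n : ℕ) (i : Fin r) : ℓ ^ n • S.P n i = 0 := by
  induction n with
  | zero => rw [pow_zero, one_smul]; exact S.zero i
  | succ n ih => rw [pow_succ, mul_smul, S.compat, ih]

lemma pow_smul_sum (n : ℕ) (a : Fin r → ℤ) : ℓ ^ n • ∑ i, a i • S.P n i = 0 := by
  rw [Finset.smul_sum]
  refine Finset.sum_eq_zero fun i _ => ?_
  rw [smul_comm, S.pow_smul_P, smul_zero]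

lemma smul_sum_succ (n : ℕ) (a : Fin r → ℤ) :
    ℓ • ∑ i, a i • S.P (n + 1) i = ∑ i, a i • S.P n i := by
  rw [Finset.smul_sum]
  refine Finset.sum_congr rfl fun i _ => ?_
  rw [smul_comm, S.compat]

/-- Two integer combinations of the level-`n` basis agree iff the coefficients agree mod `ℓ^n`. -/
lemma sum_eq_sum_iff (n : ℕ) (a b : Fin r → ℤ) :
    ∑ i, a i • S.P n i = ∑ i, b i • S.P n i ↔ ∀ i, ((ℓ : ℤ) ^ n) ∣ a i - b i := by
  constructor
  · intro h
    refine S.indep n (fun i => a i - b i) ?_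
    simp only [sub_smul, Finset.sum_sub_distrib, h, sub_self]
  · intro h
    rw [← sub_eq_zero, ← Finset.sum_sub_distrib]
    refine Finset.sum_eq_zero fun i _ => ?_
    obtain ⟨c, hc⟩ := h i
    rw [← sub_smul, hc, mul_smul]
    have := S.pow_smul_P n i
    rw [smul_comm, ← Nat.cast_pow, natCast_zsmul, this, smul_zero]

/-! ### The level maps -/

variable [hℓ : Fact ℓ.Prime]

/-- An integer representative of the reduction mod `ℓ ^ n` of a `ℓ`-adic integer. -/
noncomputable def rep (n : ℕ) (c : ℤ_[ℓ]) : ℤ := ((PadicInt.toZModPow n c).cast : ℤ)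

omit [AddCommGroup M] in
lemma cast_rep (n : ℕ) (c : ℤ_[ℓ]) : ((rep n c : ℤ) : ZMod (ℓ ^ n)) = PadicInt.toZModPow n c :=
  ZMod.intCast_zmod_cast _

/-- `a : ℤ` represents `c` at level `n`. -/
def IsRep (n : ℕ) (c : ℤ_[ℓ]) (a : ℤ) : Prop := ((a : ℤ) : ZMod (ℓ ^ n)) = PadicInt.toZModPow n c

lemma isRep_rep (n : ℕ) (c : ℤ_[ℓ]) : IsRep n c (rep n c) := cast_rep n c

lemma IsRep.dvd_sub {n : ℕ} {c : ℤ_[ℓ]} {a b : ℤ} (ha : IsRep n c a) (hb : IsRep n c b) :
    ((ℓ : ℤ) ^ n) ∣ a - b := by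
  have h : ((b : ℤ) : ZMod (ℓ ^ n)) = (a : ℤ) := hb.trans ha.symm
  rw [ZMod.intCast_eq_intCast_iff_dvd_sub] at h
  simpa using h

lemma IsRep.add {n : ℕ} {c d : ℤ_[ℓ]} {a b : ℤ} (ha : IsRep n c a) (hb : IsRep n d b) :
    IsRep n (c + d) (a + b) := by
  unfold IsRep at *
  rw [Int.cast_add, map_add, ha, hb]

lemma IsRep.mul {n : ℕ} {c d : ℤ_[ℓ]} {a b : ℤ} (ha : IsRep n c a) (hb : IsRep n d b) :
    IsRep n (c * d) (a * b) := by
  unfold IsRep at *
  rw [Int.cast_mul, map_mul, ha, hb]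

lemma isRep_intCast (n : ℕ) (a : ℤ) : IsRep (ℓ := ℓ) n (a : ℤ_[ℓ]) a := by
  unfold IsRep
  rw [map_intCast]

lemma IsRep.pred {n : ℕ} {c : ℤ_[ℓ]} {a : ℤ} (ha : IsRep (n + 1) c a) : IsRep n c a := by
  unfold IsRep at *
  rw [← PadicInt.cast_toZModPow n (n + 1) (Nat.le_succ n) c, ← ha]
  exact (ZMod.cast_intCast (pow_dvd_pow ℓ (Nat.le_succ n)) a).symm

lemma isRep_zero_iff {n : ℕ} {c : ℤ_[ℓ]} {a : ℤ} (ha : IsRep n c a) :
    PadicInt.toZModPow n c = 0 ↔ ((ℓ : ℤ) ^ n) ∣ a := by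
  unfold IsRep at ha
  rw [← ha, ZMod.intCast_zmod_eq_zero_iff_dvd]
  simp

/-- The level-`n` map of a Tate system, as a function. -/
noncomputable def levFun (n : ℕ) (v : Fin r → ℤ_[ℓ]) : M := ∑ i, rep n (v i) • S.P n i

lemma levFun_eq (n : ℕ) (v : Fin r → ℤ_[ℓ]) (a : Fin r → ℤ) (ha : ∀ i, IsRep n (v i) (a i)) :
    S.levFun n v = ∑ i, a i • S.P n i := by
  unfold levFun
  rw [S.sum_eq_sum_iff]
  exact fun i => (isRep_rep n (v i)).dvd_sub (ha i)

/-- The level-`n` map `V = (ℤ_ℓ)^r → M[ℓ^n]`, `v ↦ ∑ (v i mod ℓ^n) • P n i`. -/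
noncomputable def lev (n : ℕ) : (Fin r → ℤ_[ℓ]) →+ M where
  toFun := S.levFun n
  map_zero' := by
    rw [S.levFun_eq n 0 (fun _ => 0) (fun i => by simpa using isRep_intCast (ℓ := ℓ) n 0)]
    simp
  map_add' v w := by
    rw [S.levFun_eq n (v + w) (fun i => rep n (v i) + rep n (w i))
      (fun i => (isRep_rep n (v i)).add (isRep_rep n (w i)))]
    simp only [add_smul, Finset.sum_add_distrib]
    rfl

lemma lev_eq (n : ℕ) (v : Fin r → ℤ_[ℓ]) (a : Fin r → ℤ) (ha : ∀ i, IsRep n (v i) (a i)) :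
    S.lev n v = ∑ i, a i • S.P n i := S.levFun_eq n v a ha

lemma lev_intCast (n : ℕ) (a : Fin r → ℤ) :
    S.lev n (fun i => (a i : ℤ_[ℓ])) = ∑ i, a i • S.P n i :=
  S.lev_eq n _ a fun i => isRep_intCast n (a i)

lemma pow_smul_lev (n : ℕ) (v : Fin r → ℤ_[ℓ]) : ℓ ^ n • S.lev n v = 0 := by
  rw [S.lev_eq n v _ fun i => isRep_rep n (v i)]
  exact S.pow_smul_sum n _

lemma lev_zero_level (v : Fin r → ℤ_[ℓ]) : S.lev 0 v = 0 := by
  have := S.pow_smul_lev 0 v
  rwa [pow_zero, one_smul] at this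

/-- Compatibility of the level maps. -/
lemma smul_lev_succ (n : ℕ) (v : Fin r → ℤ_[ℓ]) : ℓ • S.lev (n + 1) v = S.lev n v := by
  rw [S.lev_eq (n + 1) v _ fun i => isRep_rep (n + 1) (v i),
    S.lev_eq n v _ fun i => (isRep_rep (n + 1) (v i)).pred, S.smul_sum_succ]

lemma pow_smul_lev_add (n k : ℕ) (v : Fin r → ℤ_[ℓ]) : ℓ ^ k • S.lev (n + k) v = S.lev n v := by
  induction k with
  | zero => rw [pow_zero, one_smul]; rfl
  | succ k ih => rw [pow_succ, mul_smul, ← add_assoc, S.smul_lev_succ, ih]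

/-- The level maps are onto the `ℓ ^ n`-torsion. -/
lemma lev_surjective (n : ℕ) (R : M) (hR : ℓ ^ n • R = 0) : ∃ v : Fin r → ℤ_[ℓ], S.lev n v = R := by
  obtain ⟨a, ha⟩ := S.span n R hR
  exact ⟨fun i => (a i : ℤ_[ℓ]), by rw [S.lev_intCast, ha]⟩

lemma lev_eq_zero_iff (n : ℕ) (v : Fin r → ℤ_[ℓ]) :
    S.lev n v = 0 ↔ ∀ i, PadicInt.toZModPow n (v i) = 0 := by
  rw [S.lev_eq n v _ fun i => isRep_rep n (v i)]
  constructor
  · intro h i
    rw [isRep_zero_iff (isRep_rep n (v i))]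
    exact S.indep n _ h i
  · intro h
    refine Finset.sum_eq_zero fun i _ => ?_
    obtain ⟨c, hc⟩ := (isRep_zero_iff (isRep_rep n (v i))).1 (h i)
    rw [hc, mul_smul, smul_comm, ← Nat.cast_pow, natCast_zsmul, S.pow_smul_P, smul_zero]

/-- The level maps are jointly injective. -/
lemma lev_ext {v w : Fin r → ℤ_[ℓ]} (h : ∀ n, S.lev n v = S.lev n w) : v = w := by
  funext i
  rw [← sub_eq_zero]
  refine PadicInt.ext_of_toZModPow.1 fun n => ?_
  have h0 : S.lev n (v - w) = 0 := by rw [map_sub, h n, sub_self]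
  rw [map_zero]
  exact (S.lev_eq_zero_iff n (v - w)).1 h0 i

/-- Scalars: `lev n (c • v) = (c mod ℓ^n) • lev n v`. -/
lemma lev_smul (n : ℕ) (c : ℤ_[ℓ]) (v : Fin r → ℤ_[ℓ]) (a : ℤ) (ha : IsRep n c a) :
    S.lev n (c • v) = a • S.lev n v := by
  rw [S.lev_eq n (c • v) (fun i => a * rep n (v i)) fun i => ha.mul (isRep_rep n (v i)),
    S.lev_eq n v _ fun i => isRep_rep n (v i), Finset.smul_sum]
  simp only [mul_smul]

lemma lev_smul_val (n : ℕ) (c : ℤ_[ℓ]) (v : Fin r → ℤ_[ℓ]) :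
    S.lev n (c • v) = (PadicInt.toZModPow n c).val • S.lev n v := by
  rw [S.lev_smul n c v ((PadicInt.toZModPow n c).val : ℤ), natCast_zsmul]
  unfold IsRep
  rw [Int.cast_natCast, ZMod.natCast_zmod_val]

/-! ### The kernel of the level map is `ℓ ^ n • V` -/

omit [AddCommGroup M] in
lemma mem_span_smul_top_iff (n : ℕ) (v : Fin r → ℤ_[ℓ]) :
    v ∈ (Ideal.span {(ℓ : ℤ_[ℓ]) ^ n}) • (⊤ : Submodule ℤ_[ℓ] (Fin r → ℤ_[ℓ])) ↔
      ∀ i, PadicInt.toZModPow n (v i) = 0 := by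
  constructor
  · intro hv
    refine Submodule.smul_induction_on hv ?_ ?_
    · intro c hc w _ i
      rw [← PadicInt.ker_toZModPow] at hc
      rw [Pi.smul_apply, smul_eq_mul, map_mul, (RingHom.mem_ker).1 hc, zero_mul]
    · intro x y hx hy i
      rw [Pi.add_apply, map_add, hx i, hy i, add_zero]
  · intro h
    classical
    rw [pi_eq_sum_univ v]
    refine Submodule.sum_mem _ fun i _ => ?_
    refine Submodule.smul_mem_smul ?_ Submodule.mem_top
    rw [← PadicInt.ker_toZModPow]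
    exact (RingHom.mem_ker).2 (h i)

lemma lev_eq_zero_iff_mem (n : ℕ) (v : Fin r → ℤ_[ℓ]) :
    S.lev n v = 0 ↔
      v ∈ (Ideal.span {(ℓ : ℤ_[ℓ]) ^ n}) • (⊤ : Submodule ℤ_[ℓ] (Fin r → ℤ_[ℓ])) := by
  rw [S.lev_eq_zero_iff, mem_span_smul_top_iff]

lemma lev_eq_zero_iff_mem_maximalIdeal (n : ℕ) (v : Fin r → ℤ_[ℓ]) :
    S.lev n v = 0 ↔
      v ∈ (IsLocalRing.maximalIdeal ℤ_[ℓ] ^ n) • (⊤ : Submodule ℤ_[ℓ] (Fin r → ℤ_[ℓ])) := by
  rw [S.lev_eq_zero_iff_mem, PadicInt.maximalIdeal_eq_span_p, Ideal.span_singleton_pow]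

/-! ### Lifting compatible sequences -/

/-- Every compatible sequence of torsion points comes from an element of `V`. -/
lemma exists_lev_eq (R : ℕ → M) (h0 : R 0 = 0) (hR : ∀ n, ℓ • R (n + 1) = R n) :
    ∃ v : Fin r → ℤ_[ℓ], ∀ n, S.lev n v = R n := by
  have htors : ∀ n, ℓ ^ n • R n = 0 := by
    intro n
    induction n with
    | zero => rw [pow_zero, one_smul]; exact h0
    | succ n ih => rw [pow_succ, mul_smul, hR, ih]
  choose a ha using fun n => S.span n (R n) (htors n)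
  have hcompat : ∀ i n, ((ℓ : ℤ) ^ n) ∣ a (n + 1) i - a n i := by
    intro i n
    have h1 : ∑ i, a (n + 1) i • S.P n i = ∑ i, a n i • S.P n i := by
      rw [← S.smul_sum_succ, ← ha (n + 1), hR, ha n]
    exact (S.sum_eq_sum_iff n _ _).1 h1 i
  refine ⟨fun i => PadicInt.ofIntSeq _
    (PadicInt.isCauSeq_padicNorm_of_pow_dvd_sub (fun n => a n i) ℓ (hcompat i)), fun n => ?_⟩
  rw [S.lev_eq n _ (a n), ← ha n]
  intro i
  exact (PadicInt.toZModPow_ofIntSeq_of_pow_dvd_sub (fun n => a n i) ℓ (hcompat i) n).symm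

/-! ### Functoriality: the ring homomorphism `End M → End V` -/

lemma exists_lev_comp (g : AddMonoid.End M) (v : Fin r → ℤ_[ℓ]) :
    ∃ w : Fin r → ℤ_[ℓ], ∀ n, S.lev n w = g (S.lev n v) := by
  refine S.exists_lev_eq (fun n => g (S.lev n v)) ?_ ?_
  · rw [S.lev_zero_level, map_zero]
  · intro n
    rw [← map_nsmul, S.smul_lev_succ]

/-- The action of an endomorphism of `M` on the Tate module, as a function. -/
noncomputable def tateFun (g : AddMonoid.End M) (v : Fin r → ℤ_[ℓ]) : Fin r → ℤ_[ℓ] :=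
  Classical.choose (S.exists_lev_comp g v)

lemma lev_tateFun (g : AddMonoid.End M) (v : Fin r → ℤ_[ℓ]) (n : ℕ) :
    S.lev n (S.tateFun g v) = g (S.lev n v) :=
  Classical.choose_spec (S.exists_lev_comp g v) n

/-- The action of an endomorphism of `M` on the Tate module, as a `ℤ_ℓ`-linear map. -/
noncomputable def tateLin (g : AddMonoid.End M) : Module.End ℤ_[ℓ] (Fin r → ℤ_[ℓ]) where
  toFun := S.tateFun g
  map_add' v w := S.lev_ext fun n => by
    rw [map_add, S.lev_tateFun, S.lev_tateFun, S.lev_tateFun, map_add, map_add]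
  map_smul' c v := S.lev_ext fun n => by
    rw [RingHom.id_apply, S.lev_tateFun, S.lev_smul n c v _ (isRep_rep n c),
      S.lev_smul n c _ _ (isRep_rep n c), S.lev_tateFun, map_zsmul]

lemma lev_tateLin (g : AddMonoid.End M) (v : Fin r → ℤ_[ℓ]) (n : ℕ) :
    S.lev n (S.tateLin g v) = g (S.lev n v) := S.lev_tateFun g v n

/-- **Functoriality of the Tate module**: the ring homomorphism `End M → End_{ℤ_ℓ} V`,
characterised by `S.lev n (S.tateEnd g v) = g (S.lev n v)`. -/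
noncomputable def tateEnd : AddMonoid.End M →+* Module.End ℤ_[ℓ] (Fin r → ℤ_[ℓ]) where
  toFun g := S.tateLin g
  map_one' := LinearMap.ext fun v => S.lev_ext fun n => by
    rw [S.lev_tateLin]; rfl
  map_mul' g h := LinearMap.ext fun v => S.lev_ext fun n => by
    rw [S.lev_tateLin, Module.End.mul_apply, S.lev_tateLin, S.lev_tateLin]; rfl
  map_zero' := LinearMap.ext fun v => S.lev_ext fun n => by
    rw [S.lev_tateLin, LinearMap.zero_apply, map_zero]; rfl
  map_add' g h := LinearMap.ext fun v => S.lev_ext fun n => by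
    rw [S.lev_tateLin, LinearMap.add_apply, map_add, S.lev_tateLin, S.lev_tateLin]; rfl

@[simp]
lemma lev_tateEnd (g : AddMonoid.End M) (v : Fin r → ℤ_[ℓ]) (n : ℕ) :
    S.lev n (S.tateEnd g v) = g (S.lev n v) := S.lev_tateFun g v n

/-- An endomorphism killing all `ℓ`-power torsion acts as `0` on the Tate module. -/
lemma tateEnd_eq_zero (g : AddMonoid.End M) (hg : ∀ n (R : M), ℓ ^ n • R = 0 → g R = 0) :
    S.tateEnd g = 0 :=
  LinearMap.ext fun v => S.lev_ext fun n => by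
    rw [S.lev_tateEnd, LinearMap.zero_apply, map_zero]
    exact hg n _ (S.pow_smul_lev n v)

/-- Two endomorphisms agreeing on all `ℓ`-power torsion act in the same way on the Tate module. -/
lemma tateEnd_congr (g h : AddMonoid.End M) (hg : ∀ n (R : M), ℓ ^ n • R = 0 → g R = h R) :
    S.tateEnd g = S.tateEnd h :=
  LinearMap.ext fun v => S.lev_ext fun n => by
    rw [S.lev_tateEnd, S.lev_tateEnd]
    exact hg n _ (S.pow_smul_lev n v)

/-- An endomorphism fixing the `ℓ ^ n`-torsion pointwise is `≡ 1 mod 𝔪 ^ n` on the Tate module. -/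
lemma tateEnd_sub_mem (g : AddMonoid.End M) (n : ℕ) (hg : ∀ R : M, ℓ ^ n • R = 0 → g R = R)
    (v : Fin r → ℤ_[ℓ]) :
    S.tateEnd g v - v ∈
      (IsLocalRing.maximalIdeal ℤ_[ℓ] ^ n) • (⊤ : Submodule ℤ_[ℓ] (Fin r → ℤ_[ℓ])) := by
  rw [← S.lev_eq_zero_iff_mem_maximalIdeal, map_sub, S.lev_tateEnd,
    hg _ (S.pow_smul_lev n v), sub_self]

/-- Conversely, the action on the `ℓ ^ n`-torsion is determined by the Tate module mod `ℓ ^ n`. -/
lemma apply_eq_of_tateEnd_sub_mem (g : AddMonoid.End M) (n : ℕ)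
    (hg : ∀ v : Fin r → ℤ_[ℓ], S.tateEnd g v - v ∈
      (IsLocalRing.maximalIdeal ℤ_[ℓ] ^ n) • (⊤ : Submodule ℤ_[ℓ] (Fin r → ℤ_[ℓ])))
    (R : M) (hR : ℓ ^ n • R = 0) : g R = R := by
  obtain ⟨v, rfl⟩ := S.lev_surjective n R hR
  have := (S.lev_eq_zero_iff_mem_maximalIdeal n _).2 (hg v)
  rw [map_sub, S.lev_tateEnd, sub_eq_zero] at this
  exact this

end TateSys

/-! ### Existence of a Tate system -/

section Exists

variable (M : Type u) [AddCommGroup M] (ℓ : ℕ) [hℓ : Fact ℓ.Prime] (r : ℕ)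

/-- A basis of the `ℓ`-torsion, from its cardinality. -/
lemma exists_basis_one (hcard : Nat.card {P : M // ℓ • P = 0} = ℓ ^ r) :
    ∃ b : Fin r → M, (∀ i, ℓ • b i = 0) ∧
      ∀ a : Fin r → ℤ, ∑ i, a i • b i = 0 → ∀ i, (ℓ : ℤ) ∣ a i := by
  classical
  let T : AddSubgroup M := (nsmulAddMonoidHom ℓ : M →+ M).ker
  have hmem : ∀ P : M, P ∈ T ↔ ℓ • P = 0 := fun P => by
    rw [AddMonoidHom.mem_ker, nsmulAddMonoidHom_apply]
  have hcardT : Nat.card T = ℓ ^ r := by
    rw [← hcard]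
    exact Nat.card_congr (Equiv.subtypeEquivRight hmem)
  have instMod : Module (ZMod ℓ) T := AddCommGroup.zmodModule fun x => Subtype.ext (by
    rw [AddSubgroup.coe_nsmul]
    exact (hmem _).1 x.2)
  have instFin : Finite T := Nat.finite_of_card_ne_zero (by
    rw [hcardT]; exact pow_ne_zero _ hℓ.out.ne_zero)
  have : Fintype T := Fintype.ofFinite T
  have instMF : Module.Finite (ZMod ℓ) T := Module.Finite.of_finite
  have hfin : Module.finrank (ZMod ℓ) T = r := by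
    have h1 := Module.card_eq_pow_finrank (K := ZMod ℓ) (V := T)
    rw [ZMod.card, ← Nat.card_eq_fintype_card, hcardT] at h1
    exact (Nat.pow_right_injective hℓ.out.two_le h1).symm
  have bs : Module.Basis (Fin r) (ZMod ℓ) T := Module.finBasisOfFinrankEq (ZMod ℓ) T hfin
  refine ⟨fun i => (bs i : M), fun i => (hmem _).1 (bs i).2, fun a ha i => ?_⟩
  have hli := Fintype.linearIndependent_iff.1 bs.linearIndependent (fun i => (a i : ZMod ℓ)) (by
    apply Subtype.ext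
    simp only [Int.cast_smul_eq_zsmul]
    rw [AddSubgroup.coe_zero, ← ha]
    simp) i
  exact (ZMod.intCast_zmod_eq_zero_iff_dvd (a i) ℓ).1 hli

/-- The recursive choice of `ℓ`-division points above a level-one basis. -/
noncomputable def sysSeq (b : Fin r → M) (next : M → M) : ℕ → Fin r → M
  | 0 => fun _ => 0
  | 1 => b
  | (n + 2) => fun i => next (sysSeq b next (n + 1) i)

/-- **Existence of a Tate system**: if `#M[ℓ^n] = ℓ^(r n)` for all `n` and the `ℓ`-power torsion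
of `M` is `ℓ`-divisible, then `M` has a compatible system of bases of its `ℓ^n`-torsion. -/
theorem exists_tateSys (hcard : ∀ n : ℕ, Nat.card {P : M // ℓ ^ n • P = 0} = ℓ ^ (r * n))
    (hdiv : ∀ P : M, (∃ n : ℕ, ℓ ^ n • P = 0) → ∃ Q : M, ℓ • Q = P) :
    Nonempty (TateSys M ℓ r) := by
  classical
  obtain ⟨b, hb0, hbind⟩ := exists_basis_one M ℓ r (by
    have := hcard 1
    simpa using this)
  let next : M → M := fun P => if h : ∃ Q : M, ℓ • Q = P then Classical.choose h else 0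
  have hnext : ∀ P : M, (∃ n : ℕ, ℓ ^ n • P = 0) → ℓ • next P = P := by
    intro P hP
    have h := hdiv P hP
    simp only [next, dif_pos h]
    exact Classical.choose_spec h
  let P : ℕ → Fin r → M := sysSeq M r b next
  have hP0 : ∀ i, P 0 i = 0 := fun i => rfl
  have hP1 : ∀ i, P 1 i = b i := fun i => rfl
  have hP2 : ∀ n i, P (n + 2) i = next (P (n + 1) i) := fun n i => rfl
  -- torsion and compatibility, simultaneously
  have hboth : ∀ n i, ℓ ^ n • P n i = 0 ∧ ℓ • P (n + 1) i = P n i := by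
    intro n
    induction n with
    | zero =>
      intro i
      refine ⟨by rw [hP0, smul_zero], ?_⟩
      rw [hP1, hP0, hb0]
    | succ n ih =>
      intro i
      have ht : ℓ ^ (n + 1) • P (n + 1) i = 0 := by
        rw [pow_succ, mul_smul, (ih i).2, (ih i).1]
      exact ⟨ht, by rw [hP2]; exact hnext _ ⟨n + 1, ht⟩⟩
  have htors : ∀ n i, ℓ ^ n • P n i = 0 := fun n i => (hboth n i).1
  have hcompat : ∀ n i, ℓ • P (n + 1) i = P n i := fun n i => (hboth n i).2
  have hpow : ∀ k n i, ℓ ^ k • P (n + k) i = P n i := by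
    intro k
    induction k with
    | zero => intro n i; rw [pow_zero, one_smul]; rfl
    | succ k ih =>
      intro n i
      rw [pow_succ, mul_smul, ← add_assoc, hcompat, ih]
  -- independence
  have hindep : ∀ (n : ℕ) (a : Fin r → ℤ), ∑ i, a i • P n i = 0 → ∀ i, ((ℓ : ℤ) ^ n) ∣ a i := by
    intro n
    induction n with
    | zero => intro a _ i; rw [pow_zero]; exact one_dvd _
    | succ n ih =>
      intro a ha
      -- multiply by `ℓ ^ n` to land in level 1
      have h1 : ∑ i, a i • b i = 0 := by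
        have h2 := congrArg (fun x => ℓ ^ n • x) ha
        simp only [smul_zero, Finset.smul_sum] at h2
        rw [← h2]
        refine Finset.sum_congr rfl fun i _ => ?_
        rw [smul_comm, ← hP1 i]
        congr 1
        have := hpow n 1 i
        rw [add_comm] at this
        exact this.symm
      have hdvd := hbind a h1
      choose a' ha' using hdvd
      have h3 : ∑ i, a' i • P n i = 0 := by
        rw [← ha]
        refine Finset.sum_congr rfl fun i _ => ?_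
        rw [ha' i, mul_smul, ← hcompat n i, natCast_zsmul, smul_comm]
      intro i
      rw [ha' i, pow_succ, mul_comm]
      exact mul_dvd_mul_left _ (ih a' h3 i)
  -- spanning, by counting
  have hspan : ∀ (n : ℕ) (R : M), ℓ ^ n • R = 0 → ∃ a : Fin r → ℤ, R = ∑ i, a i • P n i := by
    intro n R hR
    have htorsum : ∀ a : Fin r → ℤ, ℓ ^ n • ∑ i, a i • P n i = 0 := by
      intro a
      rw [Finset.smul_sum]
      refine Finset.sum_eq_zero fun i _ => ?_
      rw [smul_comm, htors, smul_zero]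
    let φ : (Fin r → ZMod (ℓ ^ n)) → {R : M // ℓ ^ n • R = 0} := fun x =>
      ⟨∑ i, ((x i).cast : ℤ) • P n i, htorsum _⟩
    have hinj : Function.Injective φ := by
      intro x y hxy
      have h1 : ∑ i, ((x i).cast : ℤ) • P n i = ∑ i, ((y i).cast : ℤ) • P n i :=
        congrArg Subtype.val hxy
      have h2 : ∑ i, (((x i).cast : ℤ) - ((y i).cast : ℤ)) • P n i = 0 := by
        simp only [sub_smul, Finset.sum_sub_distrib, h1, sub_self]
      funext i
      have h3 := hindep n _ h2 i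
      have h4 : (((y i).cast : ℤ) : ZMod (ℓ ^ n)) = (((x i).cast : ℤ) : ZMod (ℓ ^ n)) := by
        rw [ZMod.intCast_eq_intCast_iff_dvd_sub]
        simpa using h3
      rw [ZMod.intCast_zmod_cast, ZMod.intCast_zmod_cast] at h4
      exact h4.symm
    have : Finite {R : M // ℓ ^ n • R = 0} := Nat.finite_of_card_ne_zero (by
      rw [hcard n]; exact pow_ne_zero _ hℓ.out.ne_zero)
    have hle : Nat.card {R : M // ℓ ^ n • R = 0} ≤ Nat.card (Fin r → ZMod (ℓ ^ n)) := by
      rw [hcard n, Nat.card_fun, Nat.card_zmod, Nat.card_fin, ← pow_mul, mul_comm]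
    obtain ⟨x, hx⟩ := (hinj.bijective_of_nat_card_le hle).2 ⟨R, hR⟩
    exact ⟨fun i => ((x i).cast : ℤ), (congrArg Subtype.val hx).symm⟩
  exact ⟨⟨P, hP0, hcompat, hindep, hspan⟩⟩

end Exists

end Fermat.Agent.EC


end ZBEC_007_0

/-! ### bundled: `Fermat.Agent.EC.Tate` -/
section ZBEC_007_1

/-!
# The `ℓ`-adic Tate representation of an elliptic curve over `ℚ` (EC package, brick EC-adic (a))

For `W : WeierstrassCurve ℚ` with `W.Δ ≠ 0` and a prime `ℓ`:

* `tateRep W hΔ ℓ : GaloisRepAdic ℤ_[ℓ]`, with `V = Fin 2 → ℤ_[ℓ]`;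
* `tateLevel W hΔ ℓ n : V →+ E[ℓ^n](ℚ̄)` : onto, kernel `ℓ^n V`, `ℤ_ℓ`- and Galois-equivariant,
  compatible (`ℓ • tateLevel (n+1) v = tateLevel n v`);
* `tateRep_level` : the existential packaging asked for by the S58 plan;
* transfer of relations: `tateRep_rho_eq_one`, `tateRep_rho_quadratic`, `tateRep_rho_unipotent`.
-/

set_option autoImplicit false

namespace Fermat.Agent.EC

open WeierstrassCurve WeierstrassCurve.Affine WeierstrassCurve.Affine.Point

/-- `ℚ̄` -/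
local notation "Qbar" => AlgebraicClosure ℚ
/-- `G_ℚ` -/
local notation "GQ" => (AlgebraicClosure ℚ ≃ₐ[ℚ] AlgebraicClosure ℚ)

section Setup

variable (W : WeierstrassCurve ℚ)

lemma tate_Δ_ne_zero (hΔ : W.Δ ≠ 0) : (W⁄Qbar).Δ ≠ 0 := by
  change (W.map (algebraMap ℚ Qbar)).Δ ≠ 0
  rw [WeierstrassCurve.map_Δ]
  exact fun h => hΔ ((map_eq_zero _).1 h)

lemma tate_two_ne_zero : (2 : Qbar) ≠ 0 := two_ne_zero

lemma tate_cast_ne_zero {n : ℕ} (hn : n ≠ 0) : ((n : ℕ) : Qbar) ≠ 0 := by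
  exact_mod_cast hn

variable (ℓ : ℕ) [hℓ : Fact ℓ.Prime]

lemma tate_card (hΔ : W.Δ ≠ 0) (n : ℕ) :
    Nat.card {P : (W⁄Qbar).Point // ℓ ^ n • P = 0} = ℓ ^ (2 * n) := by
  have h := ec_card_torsion (W := W⁄Qbar) (tate_Δ_ne_zero W hΔ) tate_two_ne_zero
    (n := ℓ ^ n) (tate_cast_ne_zero (pow_ne_zero n hℓ.out.ne_zero))
  rw [pow_mul, pow_right_comm]
  rw [← pow_mul, mul_comm, pow_mul] at h ⊢
  exact h

lemma tate_div (hΔ : W.Δ ≠ 0) (P : (W⁄Qbar).Point) : ∃ Q : (W⁄Qbar).Point, ℓ • Q = P :=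
  ec_nsmul_surjective (W := W⁄Qbar) (tate_Δ_ne_zero W hΔ) tate_two_ne_zero
    (n := ℓ) (tate_cast_ne_zero hℓ.out.ne_zero) P

/-- A compatible system of bases of the `E[ℓ^n](ℚ̄)`. -/
noncomputable def tateSys (hΔ : W.Δ ≠ 0) : TateSys (W⁄Qbar).Point ℓ 2 :=
  Classical.choice (exists_tateSys (W⁄Qbar).Point ℓ 2 (tate_card W ℓ hΔ)
    (fun P _ => tate_div W ℓ hΔ P))

end Setup

section Rep

variable (W : WeierstrassCurve ℚ) (hΔ : W.Δ ≠ 0) (ℓ : ℕ) [hℓ : Fact ℓ.Prime]

/-- The Galois action on `E(ℚ̄)`, as a monoid homomorphism to the additive endomorphisms. -/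
noncomputable def tateGal : GQ →* AddMonoid.End (W⁄Qbar).Point :=
  DistribMulAction.toAddMonoidEnd GQ (W⁄Qbar).Point

lemma tateGal_apply (σ : GQ) (P : (W⁄Qbar).Point) : tateGal W σ P = σ • P := rfl

/-- The action of `G_ℚ` on the Tate module `(ℤ_ℓ)²`. -/
noncomputable def tateRho : GQ →* Module.End ℤ_[ℓ] (Fin 2 → ℤ_[ℓ]) :=
  ((tateSys W ℓ hΔ).tateEnd : AddMonoid.End (W⁄Qbar).Point →* _).comp (tateGal W)

lemma lev_tateRho (σ : GQ) (v : Fin 2 → ℤ_[ℓ]) (n : ℕ) :
    (tateSys W ℓ hΔ).lev n (tateRho W hΔ ℓ σ v) = σ • (tateSys W ℓ hΔ).lev n v :=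
  (tateSys W ℓ hΔ).lev_tateEnd (tateGal W σ) v n

/-- the coordinates of a point (`∅` for the point at infinity) -/
noncomputable def tateCoords {W' : WeierstrassCurve Qbar} : W'.toAffine.Point → Set Qbar
  | .zero => ∅
  | .some x y _ => {x, y}

lemma tateCoords_finite {W' : WeierstrassCurve Qbar} (P : W'.toAffine.Point) :
    (tateCoords P).Finite := by
  cases P with
  | zero => exact Set.finite_empty
  | some x y h =>
    change ({x, y} : Set Qbar).Finite
    exact Set.toFinite _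

/-- The field generated by the coordinates of `E[m]` is a finite extension of `ℚ`, and every
`σ` fixing it fixes `E[m]` pointwise. -/
theorem tate_finite_level (W : WeierstrassCurve ℚ) (hΔ : W.Δ ≠ 0) {m : ℕ} (hm : m ≠ 0) :
    ∃ L : IntermediateField ℚ Qbar, FiniteDimensional ℚ L ∧
      ∀ σ : GQ, (∀ x ∈ L, σ x = x) → ∀ P : (W⁄Qbar).Point, m • P = 0 → σ • P = P := by
  classical
  have hfin : Finite {P : (W⁄Qbar).Point // m • P = 0} :=
    ec_finite_torsion (W := W⁄Qbar) (tate_Δ_ne_zero W hΔ) tate_two_ne_zero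
      (n := m) (tate_cast_ne_zero hm)
  let S : Set Qbar := ⋃ x : {P : (W⁄Qbar).Point // m • P = 0}, tateCoords x.1
  have hS : S.Finite := Set.finite_iUnion fun x => tateCoords_finite _
  have hSf : Finite S := hS.to_subtype
  have halg := Fermat.Agent.S05.isAlgebraic_rat_qbar_of inferInstance
  refine ⟨IntermediateField.adjoin ℚ S, ?_, ?_⟩
  · exact IntermediateField.finiteDimensional_adjoin
      (fun x _ => (halg.isAlgebraic x).isIntegral)
  · intro σ hσ P hP
    have hmem : ∀ z ∈ tateCoords P, σ z = z := by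
      intro z hz
      apply hσ
      apply IntermediateField.subset_adjoin
      exact Set.mem_iUnion.mpr ⟨⟨P, hP⟩, hz⟩
    clear hP
    cases P with
    | zero => rfl
    | some a b h =>
      exact Fermat.Agent.S05.galois_smul_some_eq_self σ h
        (hmem a (by simp [tateCoords])) (hmem b (by simp [tateCoords]))

/-- **The `ℓ`-adic Tate representation** of an elliptic curve over `ℚ`. -/
noncomputable def tateRep : GaloisRepAdic ℤ_[ℓ] where
  V := Fin 2 → ℤ_[ℓ]
  finrank_eq := by simp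
  ρ := tateRho W hΔ ℓ
  isAdicContinuous := by
    intro n
    obtain ⟨L, hL, hfix⟩ := tate_finite_level W hΔ (m := ℓ ^ n) (pow_ne_zero n hℓ.out.ne_zero)
    refine ⟨L, hL, fun σ hσ v => ?_⟩
    exact (tateSys W ℓ hΔ).tateEnd_sub_mem (tateGal W σ) n (fun R hR => hfix σ hσ R hR) v

@[simp] lemma tateRep_V : (tateRep W hΔ ℓ).V = (Fin 2 → ℤ_[ℓ]) := rfl

lemma tateRep_rho (σ : GQ) : (tateRep W hΔ ℓ).ρ σ = tateRho W hΔ ℓ σ := rfl

/-! ### The level maps -/

/-- The level map `T_ℓ E → E[ℓ^n](ℚ̄)`. -/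
noncomputable def tateLevel (n : ℕ) :
    (tateRep W hΔ ℓ).V →+ Submodule.torsionBy ℤ (W⁄Qbar).Point ((ℓ ^ n : ℕ) : ℤ) where
  toFun v := ⟨(tateSys W ℓ hΔ).lev n v, by
    rw [Submodule.mem_torsionBy_iff, natCast_zsmul]
    exact (tateSys W ℓ hΔ).pow_smul_lev n v⟩
  map_zero' := Subtype.ext (map_zero _)
  map_add' v w := Subtype.ext (map_add _ v w)

lemma coe_tateLevel (n : ℕ) (v : (tateRep W hΔ ℓ).V) :
    ((tateLevel W hΔ ℓ n v : Submodule.torsionBy ℤ (W⁄Qbar).Point ((ℓ ^ n : ℕ) : ℤ)) :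
      (W⁄Qbar).Point) = (tateSys W ℓ hΔ).lev n v := rfl

/-- The level maps are onto. -/
theorem tateLevel_surjective (n : ℕ) : Function.Surjective (tateLevel W hΔ ℓ n) := by
  rintro ⟨R, hR⟩
  rw [Submodule.mem_torsionBy_iff, natCast_zsmul] at hR
  obtain ⟨v, hv⟩ := (tateSys W ℓ hΔ).lev_surjective n R hR
  exact ⟨v, Subtype.ext hv⟩

/-- The kernel of the level-`n` map is `ℓ^n V`. -/
theorem tateLevel_eq_zero_iff (n : ℕ) (v : (tateRep W hΔ ℓ).V) :
    tateLevel W hΔ ℓ n v = 0 ↔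
      v ∈ (Ideal.span {(ℓ : ℤ_[ℓ]) ^ n}) • (⊤ : Submodule ℤ_[ℓ] (tateRep W hΔ ℓ).V) := by
  have key := (tateSys W ℓ hΔ).lev_eq_zero_iff_mem n v
  exact ⟨fun h => key.1 (congrArg Subtype.val h), fun h => Subtype.ext (key.2 h)⟩

/-- The kernel of the level-`n` map is `𝔪^n V`. -/
theorem tateLevel_eq_zero_iff_maximalIdeal (n : ℕ) (v : (tateRep W hΔ ℓ).V) :
    tateLevel W hΔ ℓ n v = 0 ↔
      v ∈ (IsLocalRing.maximalIdeal ℤ_[ℓ] ^ n) • (⊤ : Submodule ℤ_[ℓ] (tateRep W hΔ ℓ).V) := by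
  have key := (tateSys W ℓ hΔ).lev_eq_zero_iff_mem_maximalIdeal n v
  exact ⟨fun h => key.1 (congrArg Subtype.val h), fun h => Subtype.ext (key.2 h)⟩

/-- The level maps are `ℤ_ℓ`-equivariant. -/
theorem tateLevel_smul (n : ℕ) (a : ℤ_[ℓ]) (v : (tateRep W hΔ ℓ).V) :
    tateLevel W hΔ ℓ n (a • v) = (PadicInt.toZModPow n a).val • tateLevel W hΔ ℓ n v :=
  Subtype.ext ((tateSys W ℓ hΔ).lev_smul_val n a v)

/-- The level maps are Galois-equivariant. -/
theorem tateLevel_rho (n : ℕ) (σ : GQ) (v : (tateRep W hΔ ℓ).V) :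
    tateLevel W hΔ ℓ n ((tateRep W hΔ ℓ).ρ σ v) = σ • tateLevel W hΔ ℓ n v :=
  Subtype.ext (lev_tateRho W hΔ ℓ σ v n)

/-- The level maps are compatible. -/
theorem tateLevel_compat (n : ℕ) (v : (tateRep W hΔ ℓ).V) :
    ℓ • (tateLevel W hΔ ℓ (n + 1) v : (W⁄Qbar).Point) = (tateLevel W hΔ ℓ n v : (W⁄Qbar).Point) :=
  (tateSys W ℓ hΔ).smul_lev_succ n v

/-- The level maps are jointly injective. -/
theorem tateLevel_ext {v w : (tateRep W hΔ ℓ).V}
    (h : ∀ n, tateLevel W hΔ ℓ n v = tateLevel W hΔ ℓ n w) : v = w :=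
  (tateSys W ℓ hΔ).lev_ext fun n => congrArg Subtype.val (h n)

/-- **EC-adic (a)**, in the shape of the S58 plan: the level structure of the Tate
representation. -/
theorem tateRep_level (n : ℕ) :
    ∃ π : (tateRep W hΔ ℓ).V →+ Submodule.torsionBy ℤ (W⁄Qbar).Point ((ℓ ^ n : ℕ) : ℤ),
      Function.Surjective π ∧
      (∀ v, π v = 0 ↔
        v ∈ (Ideal.span {(ℓ : ℤ_[ℓ]) ^ n}) • (⊤ : Submodule ℤ_[ℓ] (tateRep W hΔ ℓ).V)) ∧
      (∀ (a : ℤ_[ℓ]) v, π (a • v) = (PadicInt.toZModPow n a).val • π v) ∧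
      (∀ (σ : GQ) v, π ((tateRep W hΔ ℓ).ρ σ v) = σ • π v) :=
  ⟨tateLevel W hΔ ℓ n, tateLevel_surjective W hΔ ℓ n, tateLevel_eq_zero_iff W hΔ ℓ n,
    tateLevel_smul W hΔ ℓ n, tateLevel_rho W hΔ ℓ n⟩

/-! ### Transfer of relations from the torsion points to the Tate module -/

lemma tateRho_eq_tateEnd (σ : GQ) :
    tateRho W hΔ ℓ σ = (tateSys W ℓ hΔ).tateEnd (tateGal W σ) := rfl

lemma tateRho_eq_one (σ : GQ)
    (h : ∀ (n : ℕ) (P : (W⁄Qbar).Point), ℓ ^ n • P = 0 → σ • P = P) :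
    tateRho W hΔ ℓ σ = 1 := by
  rw [tateRho_eq_tateEnd, ← map_one (tateSys W ℓ hΔ).tateEnd]
  exact (tateSys W ℓ hΔ).tateEnd_congr _ _ fun n R hR => h n R hR

lemma tateRho_quadratic (σ : GQ) (t d : ℤ)
    (h : ∀ (n : ℕ) (P : (W⁄Qbar).Point), ℓ ^ n • P = 0 → σ • σ • P - t • σ • P + d • P = 0) :
    tateRho W hΔ ℓ σ * tateRho W hΔ ℓ σ - t • tateRho W hΔ ℓ σ
      + d • (1 : Module.End ℤ_[ℓ] (Fin 2 → ℤ_[ℓ])) = 0 := by
  have key : (tateSys W ℓ hΔ).tateEnd (tateGal W σ) * (tateSys W ℓ hΔ).tateEnd (tateGal W σ)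
      - t • (tateSys W ℓ hΔ).tateEnd (tateGal W σ) + d • (1 : Module.End ℤ_[ℓ] (Fin 2 → ℤ_[ℓ]))
      = (tateSys W ℓ hΔ).tateEnd (tateGal W σ * tateGal W σ - t • tateGal W σ + d • 1) := by
    rw [map_add, map_sub, map_mul, map_zsmul, map_zsmul, map_one]
  rw [tateRho_eq_tateEnd, key]
  refine (tateSys W ℓ hΔ).tateEnd_eq_zero _ fun n R hR => ?_
  exact h n R hR

lemma tateRho_unipotent (σ : GQ)
    (h : ∀ (n : ℕ) (P : (W⁄Qbar).Point), ℓ ^ n • P = 0 →
      σ • (σ • P - P) - (σ • P - P) = 0) :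
    (tateRho W hΔ ℓ σ - 1) * (tateRho W hΔ ℓ σ - 1) = 0 := by
  have key : ((tateSys W ℓ hΔ).tateEnd (tateGal W σ) - 1) *
      ((tateSys W ℓ hΔ).tateEnd (tateGal W σ) - 1)
      = (tateSys W ℓ hΔ).tateEnd ((tateGal W σ - 1) * (tateGal W σ - 1)) := by
    rw [map_mul, map_sub, map_one]
  rw [tateRho_eq_tateEnd, key]
  refine (tateSys W ℓ hΔ).tateEnd_eq_zero _ fun n R hR => ?_
  exact h n R hR

/-- If `σ` fixes every `ℓ`-power torsion point then `ρ σ = 1`. -/
theorem tateRep_rho_eq_one (σ : GQ)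
    (h : ∀ (n : ℕ) (P : (W⁄Qbar).Point), ℓ ^ n • P = 0 → σ • P = P) :
    (tateRep W hΔ ℓ).ρ σ = 1 :=
  tateRho_eq_one W hΔ ℓ σ h

/-- `ρ σ = 1` iff `σ` fixes every `ℓ`-power torsion point. -/
theorem tateRep_rho_eq_one_iff (σ : GQ) :
    (tateRep W hΔ ℓ).ρ σ = 1 ↔
      ∀ (n : ℕ) (P : (W⁄Qbar).Point), ℓ ^ n • P = 0 → σ • P = P := by
  refine ⟨fun h n P hP => ?_, tateRep_rho_eq_one W hΔ ℓ σ⟩
  obtain ⟨v, rfl⟩ := (tateSys W ℓ hΔ).lev_surjective n P hP
  have h1 : tateRho W hΔ ℓ σ = 1 := h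
  rw [← lev_tateRho, h1]
  rfl

/-- A quadratic relation `σ² − tσ + d = 0` on all `ℓ`-power torsion points holds on the Tate
module. -/
theorem tateRep_rho_quadratic (σ : GQ) (t d : ℤ)
    (h : ∀ (n : ℕ) (P : (W⁄Qbar).Point), ℓ ^ n • P = 0 → σ • σ • P - t • σ • P + d • P = 0) :
    (tateRep W hΔ ℓ).ρ σ * (tateRep W hΔ ℓ).ρ σ - t • (tateRep W hΔ ℓ).ρ σ
      + d • (1 : Module.End ℤ_[ℓ] (tateRep W hΔ ℓ).V) = 0 :=
  tateRho_quadratic W hΔ ℓ σ t d h

/-- A relation `(σ − 1)² = 0` on all `ℓ`-power torsion points holds on the Tate module. -/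
theorem tateRep_rho_unipotent (σ : GQ)
    (h : ∀ (n : ℕ) (P : (W⁄Qbar).Point), ℓ ^ n • P = 0 →
      σ • (σ • P - P) - (σ • P - P) = 0) :
    ((tateRep W hΔ ℓ).ρ σ - 1) * ((tateRep W hΔ ℓ).ρ σ - 1) = 0 :=
  tateRho_unipotent W hΔ ℓ σ h

end Rep

end Fermat.Agent.EC


end ZBEC_007_1

/-! ### bundled: `Fermat.Agent.EC.TateLocal` -/
section ZBEC_007_2

/-!
# Local properties of the Tate representation (EC package, bricks EC-adic (d) and (c), adic level)

* `charpoly_eq_X_sub_one_sq` : over a domain, `(f - 1)² = 0` on a free module of rank 2 implies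
  `charpoly f = (X - 1)²`.
* `tateRepInt W hΔ ℓ` : the Tate representation of an integral model.
* `tateRepInt_isUnramifiedAt` : unramified at good primes `q ≠ ℓ` (from `RED/Unram.lean`).
* `tateRepInt_isUnipotentOnInertiaAt_of_torsion` : unipotent on inertia at `q` as soon as
  `(σ - 1)² = 0` on all `E[ℓ^n]` for `σ` in the inertia groups at `q`.
-/

set_option autoImplicit false

namespace Fermat.Agent.EC

open WeierstrassCurve WeierstrassCurve.Affine WeierstrassCurve.Affine.Point Polynomial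

/-- `ℚ̄` -/
local notation "Qbar" => AlgebraicClosure ℚ
/-- `G_ℚ` -/
local notation "GQ" => (AlgebraicClosure ℚ ≃ₐ[ℚ] AlgebraicClosure ℚ)

section LinAlg

variable {R : Type*} [CommRing R] [IsDomain R] {V : Type*} [AddCommGroup V] [Module R V]
  [Module.Free R V] [Module.Finite R V]

/-- A nilpotent endomorphism of a finite free module over a domain has characteristic
polynomial `X ^ rank`. -/
lemma charpoly_eq_X_pow_of_isNilpotent (N : Module.End R V) (hN : IsNilpotent N) :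
    N.charpoly = X ^ Module.finrank R V := by
  classical
  let b := Module.Free.chooseBasis R V
  have h1 : IsNilpotent (LinearMap.toMatrixAlgEquiv b N) := hN.map (LinearMap.toMatrixAlgEquiv b)
  have h2 := Matrix.isNilpotent_charpoly_sub_pow_of_isNilpotent h1
  have h3 : (LinearMap.toMatrixAlgEquiv b N).charpoly = N.charpoly := by
    exact LinearMap.charpoly_toMatrix N b
  rw [h3, ← Module.finrank_eq_card_chooseBasisIndex] at h2
  exact sub_eq_zero.1 (IsNilpotent.eq_zero h2)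

/-- Over a domain, `(f - 1)² = 0` on a free module of rank `2` implies
`charpoly f = (X - 1)²`. -/
lemma charpoly_eq_X_sub_one_sq (hrk : Module.finrank R V = 2) (f : Module.End R V)
    (hf : (f - 1) * (f - 1) = 0) : f.charpoly = (X - 1) ^ 2 := by
  have hN : IsNilpotent (f - (1 : R) • (1 : Module.End R V)) := by
    rw [one_smul]
    exact ⟨2, by rw [pow_two, hf]⟩
  have h1 := charpoly_eq_X_pow_of_isNilpotent _ hN
  rw [LinearMap.charpoly_sub_smul, hrk] at h1
  have h2 := congrArg (fun p : R[X] => p.comp (X - C (1 : R))) h1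
  simp only [Polynomial.comp_assoc] at h2
  have h3 : (X + C (1 : R)).comp (X - C (1 : R)) = X := by
    simp
  rw [h3, Polynomial.comp_X] at h2
  rw [h2]
  simp

end LinAlg

section Int

variable (W : WeierstrassCurve ℤ) (hΔ : W.Δ ≠ 0) (ℓ : ℕ) [hℓ : Fact ℓ.Prime]

lemma tate_map_Δ_ne_zero (W : WeierstrassCurve ℤ) (hΔ : W.Δ ≠ 0) :
    (W.map (Int.castRingHom ℚ)).Δ ≠ 0 := by
  rw [WeierstrassCurve.map_Δ]
  intro h
  apply hΔ
  have h' : ((W.Δ : ℤ) : ℚ) = 0 := h
  exact_mod_cast h'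

/-- The `ℓ`-adic Tate representation of (the generic fibre of) an integral Weierstrass model. -/
noncomputable def tateRepInt : GaloisRepAdic ℤ_[ℓ] :=
  tateRep (W.map (Int.castRingHom ℚ)) (tate_map_Δ_ne_zero W hΔ) ℓ

/-- **EC-adic (d)**: the Tate representation is unramified at every good prime `q ≠ ℓ`. -/
theorem tateRepInt_isUnramifiedAt {q : ℕ} (hq : q.Prime) (hgood : W.IsGoodPrimeFor q)
    (hne : q ≠ ℓ) : (tateRepInt W hΔ ℓ).IsUnramifiedAt q := by
  intro A hA σ hσ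
  refine tateRep_rho_eq_one _ _ ℓ σ fun n P hP => ?_
  refine Fermat.Agent.RED.inertia_smul_eq_of_good W hq hgood A hA hσ (n := ℓ ^ n) ?_ P hP
  intro hdvd
  exact hne ((Nat.prime_dvd_prime_iff_eq hq hℓ.out).1 (hq.dvd_of_dvd_pow hdvd))

/-- **EC-adic (c)**, adic step: if `(σ - 1)² = 0` on every `E[ℓ^n]` for all `σ` in the inertia
groups at `q`, then the Tate representation is unipotent on inertia at `q`. -/
theorem tateRepInt_isUnipotentOnInertiaAt_of_torsion {q : ℕ}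
    (h : ∀ A : ValuationSubring Qbar, A.LiesOverPrime q → ∀ σ ∈ A.inertiaSubgroupIn ℚ,
      ∀ (n : ℕ) (P : ((W.map (Int.castRingHom ℚ))⁄Qbar).Point), ℓ ^ n • P = 0 →
        σ • (σ • P - P) - (σ • P - P) = 0) :
    (tateRepInt W hΔ ℓ).IsUnipotentOnInertiaAt q := by
  intro A hA σ hσ
  exact charpoly_eq_X_sub_one_sq (tateRepInt W hΔ ℓ).finrank_eq _
    (tateRep_rho_unipotent _ _ ℓ σ (h A hA σ hσ))

/-- Unramified implies unipotent on inertia. -/
theorem tateRepInt_isUnipotentOnInertiaAt_of_good {q : ℕ} (hq : q.Prime)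
    (hgood : W.IsGoodPrimeFor q) (hne : q ≠ ℓ) :
    (tateRepInt W hΔ ℓ).IsUnipotentOnInertiaAt q := by
  intro A hA σ hσ
  rw [tateRepInt_isUnramifiedAt W hΔ ℓ hq hgood hne A hA σ hσ]
  exact charpoly_eq_X_sub_one_sq (tateRepInt W hΔ ℓ).finrank_eq _ (by simp)

end Int

end Fermat.Agent.EC


end ZBEC_007_2

/-! ### bundled: `Fermat.Agent.EC.Flat.Chart` -/
section ZBEC_007_3

/-!
# E-side flatness, part 7: the kernel chart of an elliptic curve with good reduction

`W : WeierstrassCurve ℤ`, `p` a prime of good reduction, `A` a valuation subring of `ℚ̄` over `p`.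
`ecflat_kernelChart` : the kernel of reduction `J1 ⊂ E(ℚ̄)` with the coordinate `z = -x/y` is a
`W1.KernelChart` (with `g = 1`).
-/

set_option autoImplicit false

namespace Fermat.Agent.EC

open WeierstrassCurve WeierstrassCurve.Affine Fermat.Agent.RED

/-- `ℚ̄` -/
local notation "Qbar" => AlgebraicClosure ℚ
/-- `G_ℚ` -/
local notation "GQ" => (AlgebraicClosure ℚ ≃ₐ[ℚ] AlgebraicClosure ℚ)

section Coeff

variable (W : WeierstrassCurve ℤ) (A : ValuationSubring Qbar)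

theorem ecflat_a₁_mem : ((W.map (Int.castRingHom ℚ))⁄Qbar).a₁ ∈ A := by
  rw [baseChange_eq_curveK W A]; exact curveK_a₁_mem A _

theorem ecflat_a₂_mem : ((W.map (Int.castRingHom ℚ))⁄Qbar).a₂ ∈ A := by
  rw [baseChange_eq_curveK W A]; exact curveK_a₂_mem A _

theorem ecflat_a₃_mem : ((W.map (Int.castRingHom ℚ))⁄Qbar).a₃ ∈ A := by
  rw [baseChange_eq_curveK W A]; exact curveK_a₃_mem A _

theorem ecflat_a₄_mem : ((W.map (Int.castRingHom ℚ))⁄Qbar).a₄ ∈ A := by
  rw [baseChange_eq_curveK W A]; exact curveK_a₄_mem A _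

theorem ecflat_a₆_mem : ((W.map (Int.castRingHom ℚ))⁄Qbar).a₆ ∈ A := by
  rw [baseChange_eq_curveK W A]; exact curveK_a₆_mem A _

theorem ecflat_a₁_fix (σ : GQ) :
    σ ((W.map (Int.castRingHom ℚ))⁄Qbar).a₁ = ((W.map (Int.castRingHom ℚ))⁄Qbar).a₁ :=
  σ.commutes _

theorem ecflat_a₂_fix (σ : GQ) :
    σ ((W.map (Int.castRingHom ℚ))⁄Qbar).a₂ = ((W.map (Int.castRingHom ℚ))⁄Qbar).a₂ :=
  σ.commutes _

theorem ecflat_a₃_fix (σ : GQ) :
    σ ((W.map (Int.castRingHom ℚ))⁄Qbar).a₃ = ((W.map (Int.castRingHom ℚ))⁄Qbar).a₃ :=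
  σ.commutes _

theorem ecflat_a₄_fix (σ : GQ) :
    σ ((W.map (Int.castRingHom ℚ))⁄Qbar).a₄ = ((W.map (Int.castRingHom ℚ))⁄Qbar).a₄ :=
  σ.commutes _

theorem ecflat_a₆_fix (σ : GQ) :
    σ ((W.map (Int.castRingHom ℚ))⁄Qbar).a₆ = ((W.map (Int.castRingHom ℚ))⁄Qbar).a₆ :=
  σ.commutes _

end Coeff

section Unit

variable {K : Type*} [Field K] {A : ValuationSubring K} {W₀ : WeierstrassCurve A}

/-- Good reduction: at an integral point one of the two partial derivatives is a unit. -/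
theorem ecflat_unit_of_good (hΔ : IsUnit W₀.Δ) {x y : K} (hx : x ∈ A) (hy : y ∈ A)
    (h : (curveK A W₀).toAffine.Equation x y) :
    2 * y + (curveK A W₀).a₁ * x + (curveK A W₀).a₃ ∉ A.nonunits ∨
      3 * x ^ 2 + 2 * (curveK A W₀).a₂ * x + (curveK A W₀).a₄ - (curveK A W₀).a₁ * y
        ∉ A.nonunits := by
  have hns := nonsingular_res hΔ (a := ⟨x, hx⟩) (b := ⟨y, hy⟩) h
  rw [Affine.nonsingular_iff'] at hns
  rcases hns.2 with h' | h'
  · right
    intro hm
    apply h'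
    have e : 3 * x ^ 2 + 2 * (curveK A W₀).a₂ * x + (curveK A W₀).a₄ - (curveK A W₀).a₁ * y
        = ((3 * (⟨x, hx⟩ : A) ^ 2 + 2 * W₀.a₂ * ⟨x, hx⟩ + W₀.a₄ - W₀.a₁ * ⟨y, hy⟩ : A) : K) := by
      push_cast; rfl
    rw [e, ValuationSubring.coe_mem_nonunits_iff, ← IsLocalRing.residue_eq_zero_iff] at hm
    have : (curveRes A W₀).a₁ * IsLocalRing.residue A ⟨y, hy⟩
        - (3 * IsLocalRing.residue A ⟨x, hx⟩ ^ 2
          + 2 * (curveRes A W₀).a₂ * IsLocalRing.residue A ⟨x, hx⟩ + (curveRes A W₀).a₄)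
        = -IsLocalRing.residue A
          (3 * (⟨x, hx⟩ : A) ^ 2 + 2 * W₀.a₂ * ⟨x, hx⟩ + W₀.a₄ - W₀.a₁ * ⟨y, hy⟩) := by
      simp only [map_sub, map_add, map_mul, map_pow, map_ofNat]
      have e₂ : (curveRes A W₀).a₂ = IsLocalRing.residue A W₀.a₂ := rfl
      have e₄ : (curveRes A W₀).a₄ = IsLocalRing.residue A W₀.a₄ := rfl
      have e₁ : (curveRes A W₀).a₁ = IsLocalRing.residue A W₀.a₁ := rfl
      rw [e₁, e₂, e₄]
      ring
    rw [this, hm, neg_zero]
  · left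
    intro hm
    apply h'
    have e : 2 * y + (curveK A W₀).a₁ * x + (curveK A W₀).a₃
        = ((2 * (⟨y, hy⟩ : A) + W₀.a₁ * ⟨x, hx⟩ + W₀.a₃ : A) : K) := by
      push_cast; rfl
    rw [e, ValuationSubring.coe_mem_nonunits_iff, ← IsLocalRing.residue_eq_zero_iff] at hm
    have : 2 * IsLocalRing.residue A ⟨y, hy⟩ + (curveRes A W₀).a₁ * IsLocalRing.residue A ⟨x, hx⟩
        + (curveRes A W₀).a₃
        = IsLocalRing.residue A (2 * (⟨y, hy⟩ : A) + W₀.a₁ * ⟨x, hx⟩ + W₀.a₃) := by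
      simp only [map_add, map_mul, map_ofNat]
      rfl
    rw [this, hm]

end Unit

section Main

variable (W : WeierstrassCurve ℤ) {p : ℕ} [Fact p.Prime]
  (A : ValuationSubring Qbar)

/-- `redQ` vanishes exactly on the kernel predicate -/
theorem ecflat_redQ_eq_zero_iff [DecidableEq (IsLocalRing.ResidueField A)]
    [Algebra (ZMod p) (IsLocalRing.ResidueField A)] (hΔ : IsUnit (modelA W A).Δ)
    (P : ((W.map (Int.castRingHom ℚ))⁄Qbar).Point) :
    redQ (ℓ := p) hΔ P = 0 ↔ ecflat_InKer A P := by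
  rcases P with _ | ⟨x, y, h⟩
  · exact ⟨fun _ => trivial, fun _ => map_zero _⟩
  · by_cases hx : x ∈ A
    · obtain ⟨hy, h', e⟩ := redQ_some_of_mem (ℓ := p) hΔ h hx
      rw [e]
      exact ⟨fun h0 => absurd h0 (Affine.Point.some_ne_zero _), fun hk => absurd hx hk⟩
    · rw [redQ_some_of_not_mem (ℓ := p) hΔ h hx]
      exact ⟨fun _ => hx, fun _ => rfl⟩

/-- the kernel of reduction, as a subgroup of `E(ℚ̄)` -/
noncomputable def ecflatJ1 (hA : A.LiesOverPrime p) (hgood : W.IsGoodPrimeFor p) :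
    AddSubgroup ((W.map (Int.castRingHom ℚ))⁄Qbar).Point where
  carrier := {P | ecflat_InKer A P}
  zero_mem' := trivial
  add_mem' := by
    intro P Q hP hQ
    have hp : p.Prime := Fact.out
    let _ : DecidableEq (IsLocalRing.ResidueField A) := Classical.decEq _
    have : CharP (IsLocalRing.ResidueField A) p := charP_residueField A hp hA
    let _ : Algebra (ZMod p) (IsLocalRing.ResidueField A) := ZMod.algebra _ p
    have hΔ : IsUnit (modelA W A).Δ := isUnit_Δ_modelA hp hA hgood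
    have h1 := (ecflat_redQ_eq_zero_iff (p := p) W A hΔ P).2 hP
    have h2 := (ecflat_redQ_eq_zero_iff (p := p) W A hΔ Q).2 hQ
    apply (ecflat_redQ_eq_zero_iff (p := p) W A hΔ (P + Q)).1
    rw [map_add, h1, h2, add_zero]
  neg_mem' := by
    intro P hP
    rcases P with _ | ⟨x, y, h⟩
    · exact hP
    · exact hP

theorem mem_ecflatJ1 (hA : A.LiesOverPrime p) (hgood : W.IsGoodPrimeFor p)
    (P : ((W.map (Int.castRingHom ℚ))⁄Qbar).Point) :
    P ∈ ecflatJ1 W A hA hgood ↔ ecflat_InKer A P := Iff.rfl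

/-- **Lifting**: every point of `E(ℚ̄)` is congruent modulo the kernel of reduction to a point
fixed by the inertia group. -/
theorem ecflat_lift (hA : A.LiesOverPrime p) (hgood : W.IsGoodPrimeFor p)
    (P : ((W.map (Int.castRingHom ℚ))⁄Qbar).Point) :
    ∃ b : ((W.map (Int.castRingHom ℚ))⁄Qbar).Point,
      (∀ σ ∈ A.inertiaSubgroupIn ℚ, σ • b = b) ∧ P - b ∈ ecflatJ1 W A hA hgood := by
  classical
  have hp : p.Prime := Fact.out
  let _ : DecidableEq (IsLocalRing.ResidueField A) := Classical.decEq _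
  have : CharP (IsLocalRing.ResidueField A) p := charP_residueField A hp hA
  let _ : Algebra (ZMod p) (IsLocalRing.ResidueField A) := ZMod.algebra _ p
  have hΔ : IsUnit (modelA W A).Δ := isUnit_Δ_modelA hp hA hgood
  have h₁ := ecflat_a₁_mem W A
  have h₂ := ecflat_a₂_mem W A
  have h₃ := ecflat_a₃_mem W A
  have h₄ := ecflat_a₄_mem W A
  have h₆ := ecflat_a₆_mem W A
  by_cases hK : ecflat_InKer A P
  · refine ⟨0, fun σ _ => rfl, ?_⟩
    rw [sub_zero]; exact hK
  rcases P with _ | ⟨x, y, h⟩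
  · exact absurd trivial hK
  have hx : x ∈ A := by
    by_contra hx
    exact hK hx
  have hy : y ∈ A := ecflat_y_mem h₁ h₂ h₃ h₄ h₆ h.1 hx
  obtain ⟨S, hS⟩ := Fermat.Agent.W1.stmtTeich p hp A hA
  -- the unit condition
  have hunit : 2 * y + ((W.map (Int.castRingHom ℚ))⁄Qbar).a₁ * x
        + ((W.map (Int.castRingHom ℚ))⁄Qbar).a₃ ∉ A.nonunits ∨
      3 * x ^ 2 + 2 * ((W.map (Int.castRingHom ℚ))⁄Qbar).a₂ * x
        + ((W.map (Int.castRingHom ℚ))⁄Qbar).a₄
        - ((W.map (Int.castRingHom ℚ))⁄Qbar).a₁ * y ∉ A.nonunits := by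
    have h2 : (curveK A (modelA W A)).toAffine.Equation x y := (baseChange_eq_curveK W A) ▸ h.1
    have := ecflat_unit_of_good hΔ hx hy h2
    rw [← baseChange_eq_curveK W A] at this
    exact this
  have hΔ0 : W.Δ ≠ 0 := by
    intro h0
    apply hgood
    rw [h0]
    exact dvd_zero _
  have hΔQ : ((W.map (Int.castRingHom ℚ))⁄Qbar).Δ ≠ 0 :=
    tate_Δ_ne_zero _ (tate_map_Δ_ne_zero W hΔ0)
  -- the point `b` with coordinates `x', y'`
  suffices hb : ∃ x' y' : Qbar, x' ∈ A ∧ y' ∈ A ∧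
      ((W.map (Int.castRingHom ℚ))⁄Qbar).Equation x' y' ∧ x' - x ∈ A.nonunits ∧
      y' - y ∈ A.nonunits ∧ ∀ σ ∈ A.inertiaSubgroupIn ℚ, σ x' = x' ∧ σ y' = y' by
    obtain ⟨x', y', hx', hy', hE, hxx, hyy, hfix⟩ := hb
    have hns : ((W.map (Int.castRingHom ℚ))⁄Qbar).Nonsingular x' y' :=
      (Affine.equation_iff_nonsingular_of_Δ_ne_zero hΔQ).1 hE
    refine ⟨Point.some x' y' hns, fun σ hσ => ?_, ?_⟩
    · exact Fermat.Agent.S05.galois_smul_some_eq_self σ hns (hfix σ hσ).1 (hfix σ hσ).2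
    · rw [mem_ecflatJ1]
      apply (ecflat_redQ_eq_zero_iff (p := p) W A hΔ _).1
      rw [map_sub, sub_eq_zero]
      obtain ⟨hy1, hn1, e1⟩ := redQ_some_of_mem (ℓ := p) hΔ h hx
      obtain ⟨hy2, hn2, e2⟩ := redQ_some_of_mem (ℓ := p) hΔ hns hx'
      rw [e1, e2]
      refine some_congr _ _ ?_ ?_
      · rw [residue_eq_iff_sub_mem_nonunits]
        have := neg_mem hxx
        rwa [neg_sub] at this
      · rw [residue_eq_iff_sub_mem_nonunits]
        have := neg_mem hyy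
        rwa [neg_sub] at this
  have hinert : ∀ σ ∈ A.inertiaSubgroupIn ℚ, ∀ a ∈ A,
      (σ : Qbar ≃ₐ[ℚ] Qbar).toRingEquiv.toRingHom a - a ∈ A.nonunits :=
    fun σ hσ a ha => Fermat.Agent.S05.inertia_apply_sub_mem_nonunits hσ ha
  rcases hunit with hu | hu
  · -- lift `x` by a Teichmüller representative and solve for `y`
    obtain ⟨s, hsS, hs⟩ := hS.surj (IsLocalRing.residue A ⟨x, hx⟩)
    have hsx : (s : Qbar) - x ∈ A.nonunits := by
      have := (residue_eq_iff_sub_mem_nonunits (a := s) (b := ⟨x, hx⟩)).1 hs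
      exact this
    obtain ⟨y₁, hy₁, hE, hyy⟩ := ecflat_exists_Y h₁ h₂ h₃ h₄ h₆ h.1 hx s.2 hsx
    refine ⟨s, y₁, s.2, hy₁, hE, hsx, hyy, fun σ hσ => ⟨hS.fixed σ hσ s hsS, ?_⟩⟩
    exact ecflat_fix_Y (σ : Qbar ≃ₐ[ℚ] Qbar).toRingEquiv.toRingHom (hinert σ hσ)
      (ecflat_a₁_fix W σ) (ecflat_a₂_fix W σ) (ecflat_a₃_fix W σ) (ecflat_a₄_fix W σ)
      (ecflat_a₆_fix W σ) h₁ hy₁ hsx hyy (hS.fixed σ hσ s hsS) hE hu
  · -- lift `y` by a Teichmüller representative and solve for `x`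
    obtain ⟨s, hsS, hs⟩ := hS.surj (IsLocalRing.residue A ⟨y, hy⟩)
    have hsy : (s : Qbar) - y ∈ A.nonunits := by
      have := (residue_eq_iff_sub_mem_nonunits (a := s) (b := ⟨y, hy⟩)).1 hs
      exact this
    obtain ⟨x₁, hx₁, hE, hxx⟩ := ecflat_exists_X h₁ h₂ h₃ h₄ h₆ h.1 hx s.2 hsy
    refine ⟨x₁, s, hx₁, s.2, hE, hxx, hsy, fun σ hσ => ⟨?_, hS.fixed σ hσ s hsS⟩⟩
    exact ecflat_fix_X (σ : Qbar ≃ₐ[ℚ] Qbar).toRingEquiv.toRingHom (hinert σ hσ)
      (ecflat_a₁_fix W σ) (ecflat_a₂_fix W σ) (ecflat_a₃_fix W σ) (ecflat_a₄_fix W σ)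
      (ecflat_a₆_fix W σ) h₁ h₂ hx hx₁ hsy hxx (hS.fixed σ hσ s hsS) hE hu

/-- the coordinate `z = -x/y`, as a map to `Fin 1 → ℚ̄` -/
noncomputable def ecflatZ (P : ((W.map (Int.castRingHom ℚ))⁄Qbar).Point) : Fin 1 → Qbar :=
  fun _ => ecflat_z P

/-- **The kernel chart** of `E` at a place of good reduction (`g = 1`, `z = -x/y`). -/
theorem ecflat_kernelChart (hA : A.LiesOverPrime p) (hgood : W.IsGoodPrimeFor p) :
    Fermat.Agent.W1.KernelChart A ((W.map (Int.castRingHom ℚ))⁄Qbar).Point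
      (ecflatJ1 W A hA hgood) 1 (ecflatZ W) where
  decomp_stable := by
    intro σ hσ P hP
    rw [mem_ecflatJ1] at hP ⊢
    rcases P with _ | ⟨x, y, h⟩
    · exact trivial
    · rw [Fermat.Agent.S05.galois_smul_some]
      intro hx
      exact hP ((Fermat.Agent.S05.apply_mem_iff_of_mem_decomposition hσ x).1 hx)
  mem_nonunits := by
    intro P hP i
    exact ecflat_z_mem_nonunits A (ecflat_a₁_mem W A) (ecflat_a₂_mem W A) (ecflat_a₃_mem W A)
      (ecflat_a₄_mem W A) (ecflat_a₆_mem W A) hP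
  injOn := by
    intro P hP Q hQ hz
    exact ecflat_z_injOn A (ecflat_a₁_mem W A) (ecflat_a₂_mem W A) (ecflat_a₃_mem W A)
      (ecflat_a₄_mem W A) (ecflat_a₆_mem W A) hP hQ (congrFun hz 0)
  inertia_equivariant := by
    intro σ _ P _ i
    rcases P with _ | ⟨x, y, h⟩
    · show (0 : Qbar) = σ 0
      rw [map_zero]
    · rw [Fermat.Agent.S05.galois_smul_some]
      show -(σ x) / σ y = σ (-x / y)
      rw [map_div₀, map_neg]
  add_approx := by
    intro ϖ hϖ _ n
    obtain ⟨F, hF, hadd⟩ := ecflat_add_approx A (ecflat_a₁_mem W A) (ecflat_a₂_mem W A)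
      (ecflat_a₃_mem W A) (ecflat_a₄_mem W A) (ecflat_a₆_mem W A) hϖ n
    refine ⟨fun _ => F, fun _ m => hF m, fun P hP Q hQ hzP hzQ i => ?_⟩
    exact hadd P Q hP hQ (hzP 0) (hzQ 0)
  lift := fun x _ => ecflat_lift W A hA hgood x

end Main

end Fermat.Agent.EC


end ZBEC_007_3

/-! ### bundled: `Fermat.Agent.R38.EPM.LiftNode` -/
section ZBEC_007_4
/-
ROW 38, piece EPEU-MULT / EPM-LIFT (helper68), part 1: lifting at the node, coordinates.

`E` a Weierstrass curve over `ℚ̄` with coefficients in `A` fixed by the inertia group `I` of `A`,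
`2` a unit, the 2-division cubic `4 (x - r₁)(x - r₁ - e₂)(x - r₁ - e₃)` with a node at `r₁`
(`v e₂ < 1 = v e₃`).  If `(x, y)` is a point with `v e₂ < v (x - r₁) < 1` and `v (x - r₁) = v c`
for an `I`-fixed `c`, there is an `I`-fixed point `(x', y')` with `v (x' - x) < v (x - r₁)` and
the same tangent direction `η/(x - r₁)` modulo `𝔪` (the hypotheses of `S05.key_node`).
-/

set_option autoImplicit false
set_option linter.unusedSectionVars false
set_option linter.unusedVariables false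

namespace Fermat.Agent.R38

open WeierstrassCurve WeierstrassCurve.Affine Fermat.Agent.S05 Fermat.Agent.EC Fermat.Agent.W1

section Coord

variable {A : ValuationSubring Qb} {E : WeierstrassCurve Qb}

/-- a root `y'` over an inertia-fixed `x'` is inertia-fixed if `η'/(x' - r)` is a unit -/
theorem epml_fix_root {σ : Qb ≃ₐ[ℚ] Qb} (hσ : σ ∈ A.inertiaSubgroupIn ℚ)
    (f₁ : σ E.a₁ = E.a₁) (f₂ : σ E.a₂ = E.a₂) (f₃ : σ E.a₃ = E.a₃) (f₄ : σ E.a₄ = E.a₄)
    (f₆ : σ E.a₆ = E.a₆) (h2 : A.valuation (2 : Qb) = 1)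
    {x' y' r : Qb} (hE : E.toAffine.Equation x' y') (fx : σ x' = x') (fr : σ r = r)
    (ht : A.valuation (eta E x' y' / (x' - r)) = 1) : σ y' = y' := by
  have heq := (Affine.equation_iff _ _).1 hE
  have heq' : σ y' ^ 2 + E.a₁ * x' * σ y' + E.a₃ * σ y'
      = x' ^ 3 + E.a₂ * x' ^ 2 + E.a₄ * x' + E.a₆ := by
    have := congrArg σ heq
    simp only [map_add, map_mul, map_pow, f₁, f₂, f₃, f₄, f₆, fx] at this
    exact this
  have hprod : (σ y' - y') * (σ y' + y' + E.a₁ * x' + E.a₃) = 0 := by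
    linear_combination heq' - heq
  rcases mul_eq_zero.1 hprod with h | h
  · exact sub_eq_zero.1 h
  · exfalso
    have hσy : σ y' = -y' - E.a₁ * x' - E.a₃ := by linear_combination h
    have hση : σ (eta E x' y') = -eta E x' y' := by
      simp only [eta, map_add, map_mul, map_ofNat, f₁, f₃, fx, hσy]
      ring
    have hσt : σ (eta E x' y' / (x' - r)) = -(eta E x' y' / (x' - r)) := by
      rw [map_div₀, map_sub, fx, fr, hση, neg_div]
    have htA : eta E x' y' / (x' - r) ∈ A := (A.valuation_le_one_iff _).1 ht.le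
    have hm := inertia_apply_sub_mem_nonunits hσ htA
    rw [hσt] at hm
    have e : -(eta E x' y' / (x' - r)) - eta E x' y' / (x' - r)
        = -(2 * (eta E x' y' / (x' - r))) := by ring
    rw [e, ValuationSubring.mem_nonunits_iff, Valuation.map_neg, map_mul, h2, ht, one_mul] at hm
    exact lt_irrefl _ hm

/-- the square of the tangent direction at the node is `≡ -4 e₃` -/
theorem epml_tangent_sq (h2 : A.valuation (2 : Qb) = 1)
    {r₁ e₂ e₃ : Qb} (hr : RootData E r₁ e₂ e₃)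
    (he₃ : A.valuation e₃ = 1) (he₂ : A.valuation e₂ < 1)
    {x y : Qb} (h : E.toAffine.Equation x y)
    (hlow : A.valuation e₂ < A.valuation (x - r₁)) (hlt : A.valuation (x - r₁) < 1) :
    A.valuation ((eta E x y / (x - r₁)) ^ 2 + 4 * e₃) < 1 ∧
      A.valuation (eta E x y / (x - r₁)) = 1 := by
  classical
  have hX0 : x - r₁ ≠ 0 := by
    intro h0
    rw [h0, map_zero] at hlow
    exact not_lt_zero hlow
  have h4 : A.valuation (4 : Qb) = 1 := key_val_four _ h2
  have hη : eta E x y ^ 2 = 4 * (x - r₁) * (x - r₁ - e₂) * (x - r₁ - e₃) := by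
    rw [eta_sq _ h, hr.cub_eq]
  have e : (eta E x y / (x - r₁)) ^ 2 + 4 * e₃
      = 4 * ((x - r₁) - e₂ + e₂ / (x - r₁) * e₃) := by
    rw [div_pow, hη]
    field_simp
    ring
  have hq : A.valuation (e₂ / (x - r₁)) < 1 := by
    rw [map_div₀]
    exact (div_lt_one₀ (zero_lt_iff.2 ((Valuation.ne_zero_iff _).2 hX0))).2 hlow
  have h1 : A.valuation ((x - r₁) - e₂ + e₂ / (x - r₁) * e₃) < 1 := by
    refine lt_of_le_of_lt (Valuation.map_add _ _ _) (max_lt ?_ ?_)
    · exact lt_of_le_of_lt (Valuation.map_sub _ _ _) (max_lt hlt he₂)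
    · rw [map_mul, he₃, mul_one]; exact hq
  have hlt1 : A.valuation ((eta E x y / (x - r₁)) ^ 2 + 4 * e₃) < 1 := by
    rw [e, map_mul, h4, one_mul]; exact h1
  refine ⟨hlt1, ?_⟩
  have h4e : A.valuation (4 * e₃) = 1 := by rw [map_mul, h4, he₃, one_mul]
  have hsq : A.valuation ((eta E x y / (x - r₁)) ^ 2) = 1 := by
    have e2 : (eta E x y / (x - r₁)) ^ 2
        = ((eta E x y / (x - r₁)) ^ 2 + 4 * e₃) - 4 * e₃ := by ring
    have h3 := Valuation.map_sub_eq_of_lt_right A.valuation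
      (x := (eta E x y / (x - r₁)) ^ 2 + 4 * e₃) (y := 4 * e₃) (by rw [h4e]; exact hlt1)
    rw [← e2, h4e] at h3
    exact h3
  rw [map_pow] at hsq
  exact (pow_eq_one_iff_of_nonneg zero_le (by norm_num)).1 hsq

/-- **Lifting at the node** (coordinates). -/
theorem epml_lift_node {S : Set A} (hS : IsTeich A S)
    (h₁ : E.a₁ ∈ A) (h₂ : E.a₂ ∈ A) (h₃ : E.a₃ ∈ A) (h₄ : E.a₄ ∈ A) (h₆ : E.a₆ ∈ A)
    (f : ∀ σ ∈ A.inertiaSubgroupIn ℚ, σ E.a₁ = E.a₁ ∧ σ E.a₂ = E.a₂ ∧ σ E.a₃ = E.a₃ ∧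
      σ E.a₄ = E.a₄ ∧ σ E.a₆ = E.a₆)
    (h2 : A.valuation (2 : Qb) = 1)
    {r₁ e₂ e₃ : Qb} (hr : RootData E r₁ e₂ e₃) (hr₁ : r₁ ∈ A)
    (fr : ∀ σ ∈ A.inertiaSubgroupIn ℚ, σ r₁ = r₁)
    (he₃ : A.valuation e₃ = 1) (he₂ : A.valuation e₂ < 1)
    {x y : Qb} (h : E.toAffine.Equation x y)
    (hlow : A.valuation e₂ < A.valuation (x - r₁)) (hlt : A.valuation (x - r₁) < 1)
    {c : Qb} (fc : ∀ σ ∈ A.inertiaSubgroupIn ℚ, σ c = c)
    (hval : A.valuation (x - r₁) = A.valuation c) :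
    ∃ x' y' : Qb, E.toAffine.Equation x' y' ∧ x' ∈ A ∧
      (∀ σ ∈ A.inertiaSubgroupIn ℚ, σ x' = x' ∧ σ y' = y') ∧
      A.valuation (x' - x) < A.valuation (x - r₁) ∧
      A.valuation (eta E x y / (x - r₁)) = 1 ∧
      A.valuation (eta E x' y' / (x' - r₁) - eta E x y / (x - r₁)) < 1 := by
  classical
  have hX0 : x - r₁ ≠ 0 := by
    intro h0
    rw [h0, map_zero] at hlow
    exact not_lt_zero hlow
  have hvX0 : A.valuation (x - r₁) ≠ 0 := (Valuation.ne_zero_iff _).2 hX0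
  have hvc0 : A.valuation c ≠ 0 := hval ▸ hvX0
  have hc0 : c ≠ 0 := (Valuation.ne_zero_iff _).1 hvc0
  -- the unit `u₀ = (x - r₁)/c` and its Teichmüller representative
  have hu₀ : A.valuation ((x - r₁) / c) = 1 := by
    rw [map_div₀, hval, div_self hvc0]
  have hu₀A : (x - r₁) / c ∈ A := (A.valuation_le_one_iff _).1 hu₀.le
  obtain ⟨s, hsS, hs⟩ := hS.surj (IsLocalRing.residue A ⟨(x - r₁) / c, hu₀A⟩)
  have hsu : (s : Qb) - (x - r₁) / c ∈ A.nonunits :=
    (Fermat.Agent.RED.residue_eq_iff_sub_mem_nonunits (a := s) (b := ⟨(x - r₁) / c, hu₀A⟩)).1 hs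
  have hsu' : A.valuation ((s : Qb) - (x - r₁) / c) < 1 := (A.mem_nonunits_iff).1 hsu
  -- the new abscissa
  set x' : Qb := r₁ + c * s with hx'
  have hxx : x' - x = c * ((s : Qb) - (x - r₁) / c) := by
    rw [hx']; field_simp; ring
  have hvxx : A.valuation (x' - x) < A.valuation (x - r₁) := by
    rw [hxx, map_mul, hval]
    calc A.valuation c * A.valuation ((s : Qb) - (x - r₁) / c)
        < A.valuation c * 1 := by
          exact mul_lt_mul_of_pos_left hsu' (zero_lt_iff.2 hvc0)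
      _ = A.valuation c := mul_one _
  have hX' : x' - r₁ = (x - r₁) + (x' - x) := by ring
  have hvX' : A.valuation (x' - r₁) = A.valuation (x - r₁) := by
    rw [hX', Valuation.map_add_eq_of_lt_left _ hvxx]
  have hx'A : x' ∈ A := by
    have : x' = r₁ + (x' - r₁) := by ring
    rw [this]
    exact add_mem hr₁ ((A.valuation_le_one_iff _).1 (hvX'.trans_le hlt.le))
  have fx' : ∀ σ ∈ A.inertiaSubgroupIn ℚ, σ x' = x' := by
    intro σ hσ
    rw [hx', map_add, map_mul, fr σ hσ, fc σ hσ, hS.fixed σ hσ s hsS]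
  have hlow' : A.valuation e₂ < A.valuation (x' - r₁) := by rw [hvX']; exact hlow
  have hlt' : A.valuation (x' - r₁) < 1 := by rw [hvX']; exact hlt
  obtain ⟨hT, htu⟩ := epml_tangent_sq h2 hr he₃ he₂ h hlow hlt
  -- a root over `x'` with the right tangent direction
  have hroot : ∃ y' : Qb, E.toAffine.Equation x' y' ∧
      A.valuation (eta E x' y' / (x' - r₁) - eta E x y / (x - r₁)) < 1 := by
    obtain ⟨y₀, hy₀⟩ := ecflat_exists_root_quadratic (E.a₁ * x' + E.a₃)
      (-(x' ^ 3 + E.a₂ * x' ^ 2 + E.a₄ * x' + E.a₆))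
    have hE₀ : E.toAffine.Equation x' y₀ := by
      rw [Affine.equation_iff]; linear_combination hy₀
    have hE₁ : E.toAffine.Equation x' (-y₀ - E.a₁ * x' - E.a₃) := by
      rw [Affine.equation_iff]; linear_combination hy₀
    obtain ⟨hT₀, htu₀⟩ := epml_tangent_sq h2 hr he₃ he₂ hE₀ hlow' hlt'
    have hη₁ : eta E x' (-y₀ - E.a₁ * x' - E.a₃) = -eta E x' y₀ := by
      simp only [eta]; ring
    -- `(t₀ - t)(t₀ + t) ∈ 𝔪`
    have hprod : (eta E x' y₀ / (x' - r₁) - eta E x y / (x - r₁)) *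
        (eta E x' y₀ / (x' - r₁) + eta E x y / (x - r₁)) ∈ A.nonunits := by
      have e : (eta E x' y₀ / (x' - r₁) - eta E x y / (x - r₁)) *
          (eta E x' y₀ / (x' - r₁) + eta E x y / (x - r₁))
          = ((eta E x' y₀ / (x' - r₁)) ^ 2 + 4 * e₃)
            - ((eta E x y / (x - r₁)) ^ 2 + 4 * e₃) := by ring
      rw [e]
      exact sub_mem ((A.mem_nonunits_iff).2 hT₀) ((A.mem_nonunits_iff).2 hT)
    have htA : eta E x y / (x - r₁) ∈ A := (A.valuation_le_one_iff _).1 htu.le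
    have ht₀A : eta E x' y₀ / (x' - r₁) ∈ A := (A.valuation_le_one_iff _).1 htu₀.le
    rcases vs_prime A (sub_mem ht₀A htA) (add_mem ht₀A htA) hprod with hm | hm
    · exact ⟨y₀, hE₀, (A.mem_nonunits_iff).1 hm⟩
    · refine ⟨-y₀ - E.a₁ * x' - E.a₃, hE₁, ?_⟩
      rw [hη₁]
      have e : -eta E x' y₀ / (x' - r₁) - eta E x y / (x - r₁)
          = -(eta E x' y₀ / (x' - r₁) + eta E x y / (x - r₁)) := by ring
      rw [e, Valuation.map_neg]
      exact (A.mem_nonunits_iff).1 hm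
  obtain ⟨y', hE', htt⟩ := hroot
  obtain ⟨-, htu'⟩ := epml_tangent_sq h2 hr he₃ he₂ hE' hlow' hlt'
  refine ⟨x', y', hE', hx'A, fun σ hσ => ⟨fx' σ hσ, ?_⟩, hvxx, htu, htt⟩
  obtain ⟨f₁, f₂, f₃, f₄, f₆⟩ := f σ hσ
  exact epml_fix_root hσ f₁ f₂ f₃ f₄ f₆ h2 hE' (fx' σ hσ) (fr σ hσ) htu'

end Coord

end Fermat.Agent.R38


end ZBEC_007_4

/-! ### bundled: `Fermat.Agent.EC.Flat.Final` -/
section ZBEC_007_5

/-!
# E-side flatness, final part: `E[p^k]` is finite flat at a prime of good reduction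

`W : WeierstrassCurve ℤ`, `p` a prime of good reduction.

* `ecflat_hasFiniteFlatModel` : `E[p^k](ℚ̄)` with its Galois action has a finite flat model over
  `ℤ_(p)` (a commutative cocommutative Hopf algebra, finite and flat over `ℤ_(p)`, whose
  `ℚ̄`-points are `E[p^k]`, additively and Galois equivariantly);
* `tateRepInt_isFlatAt` : `(tateRepInt W hΔ p).IsFlatAt p` (the prelude's flatness condition).
-/

set_option autoImplicit false

namespace Fermat.Agent.EC

open WeierstrassCurve WeierstrassCurve.Affine Fermat.Agent.W1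

/-- `ℚ̄` -/
local notation "Qbar" => AlgebraicClosure ℚ
/-- `G_ℚ` -/
local notation "GQ" => (AlgebraicClosure ℚ ≃ₐ[ℚ] AlgebraicClosure ℚ)

section Tors

variable (W : WeierstrassCurve ℤ) (hΔ : W.Δ ≠ 0)

include hΔ in
/-- `E[n](ℚ̄)` is finite -/
theorem ecflat_finite_torsionBy {n : ℕ} (hn : n ≠ 0) :
    Finite (Submodule.torsionBy ℤ ((W.map (Int.castRingHom ℚ))⁄Qbar).Point (n : ℤ)) := by
  classical
  have hfin : Finite {P : ((W.map (Int.castRingHom ℚ))⁄Qbar).Point // n • P = 0} :=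
    ec_finite_torsion (W := (W.map (Int.castRingHom ℚ))⁄Qbar)
      (tate_Δ_ne_zero _ (tate_map_Δ_ne_zero W hΔ)) tate_two_ne_zero (n := n)
      (tate_cast_ne_zero hn)
  let f : Submodule.torsionBy ℤ ((W.map (Int.castRingHom ℚ))⁄Qbar).Point (n : ℤ) →
      {P : ((W.map (Int.castRingHom ℚ))⁄Qbar).Point // n • P = 0} :=
    fun x => ⟨x.1, by
      have := x.2
      rw [Submodule.mem_torsionBy_iff, natCast_zsmul] at this
      exact this⟩
  exact Finite.of_injective f (fun x y hxy => Subtype.ext (congrArg Subtype.val hxy))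

include hΔ in
/-- the Galois action on `E[n](ℚ̄)` is continuous -/
theorem ecflat_isContAction {n : ℕ} (hn : n ≠ 0) :
    IsContAction (torsAct ((W.map (Int.castRingHom ℚ))⁄Qbar).Point (n : ℤ)) where
  one := fun P => Subtype.ext (one_smul _ _)
  mul := fun σ τ P => Subtype.ext (mul_smul σ τ _)
  add := fun σ P Q => Subtype.ext (smul_add σ _ _)
  open_stab := by
    intro P
    obtain ⟨L, hL, hfix⟩ := tate_finite_level (W.map (Int.castRingHom ℚ))
      (tate_map_Δ_ne_zero W hΔ) (m := n) hn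
    refine ⟨L, hL, fun σ hσ => Subtype.ext ?_⟩
    have hP := P.2
    rw [Submodule.mem_torsionBy_iff, natCast_zsmul] at hP
    exact hfix σ hσ P.1 hP

end Tors

section Model

variable (W : WeierstrassCurve ℤ) (hΔ : W.Δ ≠ 0) (p : ℕ) [hp : Fact p.Prime]

include hΔ in
/-- **`E[p^k]` is finite flat** at a prime `p` of good reduction. -/
theorem ecflat_hasFiniteFlatModel (hgood : W.IsGoodPrimeFor p) (k : ℕ) :
    HasFiniteFlatModel (GaloisRep.ratLocalizedAt p)
      (Submodule.torsionBy ℤ ((W.map (Int.castRingHom ℚ))⁄Qbar).Point ((p ^ k : ℕ) : ℤ))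
      (torsAct ((W.map (Int.castRingHom ℚ))⁄Qbar).Point ((p ^ k : ℕ) : ℤ)) := by
  classical
  obtain ⟨A, hA⟩ := Fermat.Agent.Common.exists_liesOverPrime p hp.out
  have hpos : 0 < p ^ k := pow_pos hp.out.pos k
  have hne : p ^ k ≠ 0 := hpos.ne'
  have hfin := ecflat_finite_torsionBy W hΔ hne
  have hcont := ecflat_isContAction W hΔ hne
  obtain ⟨Ht, hHt⟩ := chartToLocalStatement p hp.out A hA _ inferInstance inferInstance
    (ecflatJ1 W A hA hgood) 1 (ecflatZ W) (ecflat_kernelChart W A hA hgood) (p ^ k) hpos hfin hcont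
  obtain ⟨H, hH⟩ := localToGlobalStatement p hp.out A hA _ inferInstance hfin _ hcont Ht hHt
  have := Fermat.Agent.S28.ratLoc_isFractionRing p
  have := Fermat.Agent.W1.ratLoc_isPrincipalIdealRing p
  exact hasFiniteFlatModel_of_isHopfLattice hH

/-- **The Tate representation of an elliptic curve is flat at a prime of good reduction.** -/
theorem tateRepInt_isFlatAt (hgood : W.IsGoodPrimeFor p) : (tateRepInt W hΔ p).IsFlatAt p := by
  classical
  rw [sq_isFlatAt_iff]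
  refine ⟨?_, fun I hI => ?_⟩
  · exact Finite.of_equiv _ (PadicInt.residueField (p := p)).symm.toEquiv
  · -- `I = (p^k)`
    have hI0 : I ≠ ⊥ := by
      rintro rfl
      have e : ℤ_[p] ≃ (ℤ_[p] ⧸ (⊥ : Ideal ℤ_[p])) :=
        (RingEquiv.quotientBot ℤ_[p]).symm.toEquiv
      have : Finite ℤ_[p] := Finite.of_equiv _ e.symm
      exact not_finite ℤ_[p]
    obtain ⟨k, hk⟩ := PadicInt.ideal_eq_span_pow_p hI0
    have hne : p ^ k ≠ 0 := pow_ne_zero k hp.out.ne_zero
    have hfin := ecflat_finite_torsionBy W hΔ hne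
    have := Fermat.Agent.S28.ratLoc_isFractionRing p
    have := Fermat.Agent.W1.ratLoc_isPrincipalIdealRing p
    have hker : ∀ v : (tateRepInt W hΔ p).V,
        v ∈ I • (⊤ : Submodule ℤ_[p] (tateRepInt W hΔ p).V) ↔
          tateLevel (W.map (Int.castRingHom ℚ)) (tate_map_Δ_ne_zero W hΔ) p k v = 0 := by
      intro v
      rw [hk]
      exact (tateLevel_eq_zero_iff (W.map (Int.castRingHom ℚ)) (tate_map_Δ_ne_zero W hΔ) p k
        v).symm
    -- the induced map on the quotient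
    let ι : ((tateRepInt W hΔ p).V ⧸ (I • (⊤ : Submodule ℤ_[p] (tateRepInt W hΔ p).V))) →+
        Submodule.torsionBy ℤ ((W.map (Int.castRingHom ℚ))⁄Qbar).Point ((p ^ k : ℕ) : ℤ) :=
      QuotientAddGroup.lift
        (I • (⊤ : Submodule ℤ_[p] (tateRepInt W hΔ p).V)).toAddSubgroup
        (tateLevel (W.map (Int.castRingHom ℚ)) (tate_map_Δ_ne_zero W hΔ) p k)
        (fun v hv => (hker v).1 hv)
    have hι : ∀ v : (tateRepInt W hΔ p).V, ι (Submodule.Quotient.mk v)
        = tateLevel (W.map (Int.castRingHom ℚ)) (tate_map_Δ_ne_zero W hΔ) p k v :=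
      fun v => rfl
    refine hasFiniteFlatModel_of_injective (ecflat_hasFiniteFlatModel W hΔ p hgood k) ι ?_ ?_
    · intro x y hxy
      obtain ⟨v, rfl⟩ := Submodule.Quotient.mk_surjective _ x
      obtain ⟨w, rfl⟩ := Submodule.Quotient.mk_surjective _ y
      rw [hι, hι] at hxy
      rw [Submodule.Quotient.eq, hker]
      have e := (tateLevel (W.map (Int.castRingHom ℚ)) (tate_map_Δ_ne_zero W hΔ) p k).map_sub v w
      exact e.trans (by rw [hxy, sub_self])
    · intro σ x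
      obtain ⟨v, rfl⟩ := Submodule.Quotient.mk_surjective _ x
      show ι (Submodule.Quotient.mk ((tateRepInt W hΔ p).ρ σ v)) = _
      rw [hι, hι]
      exact tateLevel_rho (W.map (Int.castRingHom ℚ)) (tate_map_Δ_ne_zero W hΔ) p k σ v

end Model

end Fermat.Agent.EC


end ZBEC_007_5

/-! ### bundled: `Fermat.Agent.R38.EPeu` -/
section ZBEC_007_6
/-
ROW 38, piece R38-EPEU (helper64), part 5: ASSEMBLY.

`stmtEPeu_of : StmtEPTeich → StmtEPVal → StmtEPRoot → StmtEPGood → StmtEPeu`.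
-/

set_option autoImplicit false
set_option linter.unusedSectionVars false
set_option linter.style.haveILetI false

noncomputable section

namespace Fermat.Agent.R38

open Fermat.Agent.PT Fermat.Agent.PT.B Fermat.Agent.TW.L Fermat.Agent.TW.W Fermat.Agent.W1
  ExtCitation GaloisRep
open scoped Pointwise

section Core

variable {p : ℕ} [Fact p.Prime] {M : Type} [AddCommGroup M] [DistribMulAction GQ M] [Finite M]

/-- **(EPEU) at `padicPlace p`**, abstract form. -/
theorem r38ep_core (hp2 : p ≠ 2) (hT : StmtEPTeich) (hV : StmtEPVal) (hR : StmtEPRoot)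
    (hG : StmtEPGood) (H : Subalgebra (ratLocalizedAt p) (M → AlgebraicClosure ℚ))
    (hH : IsHopfLattice (ratLocalizedAt p) (r38epAct M) H) (hpM : ∀ m : M, p • m = 0)
    (hcardM : Nat.card M = p ^ 2) (hω : R38EPHyp p (M := M)) :
    ∀ σ ∈ peuSubgroup (padicPlace p) p, ∀ x : M, σ • x = x := by
  intro σ hσ x
  have hp : p.Prime := Fact.out
  have hσI : σ ∈ (padicPlace p).inertiaSubgroupIn ℚ := hσ.1
  have hσC : ∀ c ∈ r38epC p M, σ • c = c := by
    intro c hc
    rw [r38ep_act_C hω hσI hc, r38ep_cycloExp_eq_one (r38ep_peu_cycloChar hσ), one_smul]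
  have hmul := AddSubgroup.card_mul_index (r38epC p M)
  rw [hcardM] at hmul
  have hdvd : Nat.card (r38epC p M) ∣ p ^ 2 := Dvd.intro _ hmul
  obtain ⟨k, hk, hCk⟩ := (Nat.dvd_prime_pow hp).1 hdvd
  have hk3 : k = 0 ∨ k = 1 ∨ k = 2 := by omega
  rcases hk3 with rfl | rfl | rfl
  · -- `C = 0`
    rw [pow_zero] at hCk
    have hbot : r38epC p M = ⊥ := (AddSubgroup.card_eq_one).1 hCk
    have h := r38ep_sub_mem_C p hσI x
    rw [hbot, AddSubgroup.mem_bot] at h
    exact sub_eq_zero.1 h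
  · -- `|C| = p`
    rw [pow_one] at hCk
    have hidx : (r38epC p M).index = p := by
      rw [hCk] at hmul
      have h2 : p * (r38epC p M).index = p * p := by rw [hmul, sq]
      exact Nat.eq_of_mul_eq_mul_left hp.pos h2
    obtain ⟨T, hTgood, hTN⟩ := hG p (r38epN p M) inferInstance (r38ep_exists_le H hH)
      (r38ep_pow_mem_N hCk hidx) (fun τ hτ => hτ.1)
    obtain ⟨τ, hτ, rfl⟩ := r38ep_dict hT hV hR hω T hTN σ hσ
    exact r38ep_lvN_trivial hp2 H hH hpM hCk T hTgood hTN τ hτ x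
  · -- `C = M`
    have htop : r38epC p M = ⊤ := by
      apply AddSubgroup.eq_top_of_card_eq
      rw [hCk, hcardM]
    exact hσC x (by rw [htop]; exact AddSubgroup.mem_top x)

end Core

section Conj

variable {p : ℕ} [Fact p.Prime]

/-- conjugation of the peu subgroup -/
theorem r38ep_conj_mem_peu (P : ValuationSubring Qb) (g σ : GQ)
    (hσ : σ ∈ peuSubgroup (g • P) p) : g⁻¹ * σ * g ∈ peuSubgroup P p := by
  obtain ⟨hσI, hσy⟩ := hσ
  refine ⟨?_, fun y h1 h2 h3 => ?_⟩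
  · have h := conj_mem_inertiaSubgroupIn (g • P) g⁻¹ σ hσI
    rwa [inv_smul_smul, inv_inv] at h
  · have hgy : σ (g y) = g y := by
      refine hσy (g y) ?_ ?_ ?_
      · rw [← map_pow, mem_smul_valuationSubring_iff]
        have : g⁻¹ (g (y ^ p)) = y ^ p := g.symm_apply_apply _
        rw [this]
        exact h1
      · rw [← map_pow, ← map_inv₀, mem_smul_valuationSubring_iff]
        have : g⁻¹ (g (y ^ p)⁻¹) = (y ^ p)⁻¹ := g.symm_apply_apply _
        rw [this]
        exact h2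
      · intro τ hτ
        have hτ' := conj_mem_inertiaSubgroupIn (g • P) g⁻¹ τ hτ
        rw [inv_smul_smul, inv_inv] at hτ'
        have h := h3 _ hτ'
        have e : (g⁻¹ * τ * g) (y ^ p) = g⁻¹ (τ (g (y ^ p))) := rfl
        rw [e] at h
        have h' := congrArg g h
        have e2 : g (g⁻¹ (τ (g (y ^ p)))) = τ (g (y ^ p)) := g.apply_symm_apply _
        rw [e2] at h'
        rw [← map_pow]
        exact h'
    show g⁻¹ (σ (g y)) = y
    rw [hgy]
    exact g.symm_apply_apply y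

theorem r38ep_cycloExp_conj (g τ : GQ) : cycloExp p (g * τ * g⁻¹) = cycloExp p τ := by
  rw [← val_cycloChar, ← val_cycloChar, map_mul, map_mul, map_inv, mul_comm, inv_mul_cancel_left]

end Conj

/-- **R38-EPEU** from the four local statements. -/
theorem stmtEPeu_of (hT : StmtEPTeich) (hV : StmtEPVal) (hR : StmtEPRoot) (hG : StmtEPGood) :
    StmtEPeu := by
  intro W hΔ p hpf hp2 hgood hirr A hA hωA σ hσ x
  classical
  have hp : p.Prime := hpf.out
  -- the Hopf lattice of `E[p]`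
  obtain ⟨A₀, hA₀⟩ := Fermat.Agent.Common.exists_liesOverPrime p hp
  have hfin := Fermat.Agent.EC.ecflat_finite_torsionBy W hΔ hp.ne_zero
  have hcont := Fermat.Agent.EC.ecflat_isContAction W hΔ hp.ne_zero
  obtain ⟨Ht, hHt⟩ := chartToLocalStatement p hp A₀ hA₀ _ inferInstance inferInstance
    (Fermat.Agent.EC.ecflatJ1 W A₀ hA₀ hgood) 1 (Fermat.Agent.EC.ecflatZ W)
    (Fermat.Agent.EC.ecflat_kernelChart W A₀ hA₀ hgood) p hp.pos hfin hcont
  obtain ⟨H, hH⟩ := localToGlobalStatement p hp A₀ hA₀ _ inferInstance hfin _ hcont Ht hHt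
  haveI : Finite (ETors W p) := hfin
  have hH' : IsHopfLattice (ratLocalizedAt p) (r38epAct (ETors W p)) H := hH
  have hpM : ∀ m : ETors W p, p • m = 0 := by
    intro m
    have h := Submodule.smul_torsionBy ((p : ℕ) : ℤ) m
    rwa [natCast_zsmul] at h
  have hcardM : Nat.card (ETors W p) = p ^ 2 := Fermat.Agent.RED.card_torsQbar W hΔ hp.ne_zero
  -- conjugation to `padicPlace p`
  obtain ⟨g, hg⟩ := Fermat.Agent.TW.S.sconjp_exists_smul_eq p hp (padicPlace p) A
    (lfrobex_liesOverPrime p) hA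
  subst hg
  have hω : R38EPHyp p (M := ETors W p) := by
    intro σ₁ hσ₁ τ₁ hτ₁ y
    have h1 := conj_mem_inertiaSubgroupIn (padicPlace p) g σ₁ hσ₁
    have h2 := conj_mem_inertiaSubgroupIn (padicPlace p) g τ₁ hτ₁
    have h := hωA _ h1 _ h2 (g • y)
    rw [r38ep_cycloExp_conj] at h
    have e1 : (g * σ₁ * g⁻¹) • (g • y) - g • y = g • (σ₁ • y - y) := by
      rw [mul_smul, mul_smul, inv_smul_smul, smul_sub]
    rw [e1, mul_smul, mul_smul, inv_smul_smul] at h
    have e2 : cycloExp p τ₁ • g • (σ₁ • y - y) = g • (cycloExp p τ₁ • (σ₁ • y - y)) := by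
      rw [smul_comm]
    rw [e2] at h
    exact smul_left_cancel g h
  have hmain := r38ep_core hp2 hT hV hR hG H hH' hpM hcardM hω (g⁻¹ * σ * g)
    (r38ep_conj_mem_peu (padicPlace p) g σ hσ) (g⁻¹ • x)
  rw [mul_smul, mul_smul, smul_inv_smul] at hmain
  exact smul_left_cancel g⁻¹ hmain

end Fermat.Agent.R38

end
end ZBEC_007_6

/-! ### bundled: `Fermat.Agent.R38.EPeuFinal` -/
section ZBEC_007_7
/-
ROW 38, piece R38-EPEU (helper64): FINAL.

`stmtEPeu : StmtEPeu` — good reduction at `p` and inertia acting through `ω` on the inertia span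
of `E[p]` ⇒ the peu ramifié subgroup acts trivially on `E[p]`.
Inputs: `TW.W.stmtLev` (Fontaine's bound, Kummer form), the Hopf lattice of `E[p]` (EC flat),
(TEICH) helper22/helper57/helper78, (VAL) + (ROOT) helper65, (GOOD) helper74.
-/

set_option autoImplicit false

namespace Fermat.Agent.R38

/-- **R38-EPEU**. -/
theorem stmtEPeu : StmtEPeu := stmtEPeu_of stmtEPTeich stmtEPVal stmtEPRoot stmtEPGood

end Fermat.Agent.R38


end ZBEC_007_7
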