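/- GENERATED FILE (helper35, build-time optimisation, NOTES/ZB.md): verbatim concatenation of the modules
   Fermat.Agent.S33.WildPoly
   Fermat.Agent.S33.WildIdem
   Fermat.Agent.S33.WildAlg
   Fermat.Agent.S33.WildGlue
   Fermat.Agent.S33.WildAdapter
   Do not edit; do not import together with these modules. -/
import Mathlib
import Fermat.Agent.ZB.EC_006
import Fermat.Agent.ZB.INJ_031
import Fermat.Agent.ZB.UNIP_007

/-! ### bundled: `Fermat.Agent.S33.WildPoly` -/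
section ZBS33_003_0

/-!
# S33 v2, C4 (WILD), piece T1, part 0: the Fermat identity

`wi_prod_sub`: in every commutative ring, `∏_{k < p} (z − k) = z ^ p − z + p · q` for some `q`
(`p` prime), from `X ^ p − X = ∏_{a ∈ 𝔽_p} (X − a)`.
-/

set_option autoImplicit false

namespace Fermat.Agent.S33

open Polynomial

/-- `∏_{k < p} (X − k) = X ^ p − X` over `𝔽_p`. -/
theorem wi_zmod_prod (p : ℕ) [hp : Fact p.Prime] :
    ∏ k ∈ Finset.range p, (X - C ((k : ℕ) : ZMod p)) = (X ^ p - X : (ZMod p)[X]) := by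
  classical
  have hmonic : (X ^ p - X : (ZMod p)[X]).Monic := by
    apply monic_X_pow_sub
    rw [degree_X]
    exact_mod_cast hp.out.one_lt
  have hroots : (X ^ p - X : (ZMod p)[X]).roots = Finset.univ.val := by
    have := FiniteField.roots_X_pow_card_sub_X (ZMod p)
    rwa [ZMod.card] at this
  have hdeg : (X ^ p - X : (ZMod p)[X]).natDegree = p :=
    FiniteField.X_pow_card_sub_X_natDegree_eq (ZMod p) hp.out.one_lt
  have hcard : Multiset.card (X ^ p - X : (ZMod p)[X]).roots =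
      (X ^ p - X : (ZMod p)[X]).natDegree := by
    rw [hroots, hdeg]
    simp [ZMod.card]
  have h1 := prod_multiset_X_sub_C_of_monic_of_roots_card_eq hmonic hcard
  rw [hroots] at h1
  rw [← h1]
  -- reindex
  have h2 : (Finset.univ.val.map fun a : ZMod p => X - C a).prod =
      ∏ a : ZMod p, (X - C a) := rfl
  rw [h2]
  refine Finset.prod_bij (fun k _ => ((k : ℕ) : ZMod p)) (fun _ _ => Finset.mem_univ _) ?_ ?_
    (fun _ _ => rfl)
  · intro a ha b hb hab
    rw [Finset.mem_range] at ha hb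
    have := (ZMod.natCast_eq_natCast_iff' a b p).mp hab
    rwa [Nat.mod_eq_of_lt ha, Nat.mod_eq_of_lt hb] at this
  · intro a _
    refine ⟨a.val, Finset.mem_range.mpr (ZMod.val_lt a), ?_⟩
    exact ZMod.natCast_zmod_val a

/-- the same identity over `ℤ`, modulo `p` -/
theorem wi_int_prod (p : ℕ) [hp : Fact p.Prime] :
    ∃ Q : ℤ[X], ∏ k ∈ Finset.range p, (X - C ((k : ℕ) : ℤ)) = X ^ p - X + C (p : ℤ) * Q := by
  have hmap : (∏ k ∈ Finset.range p, (X - C ((k : ℕ) : ℤ)) - (X ^ p - X) : ℤ[X]).map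
      (Int.castRingHom (ZMod p)) = 0 := by
    rw [Polynomial.map_sub, Polynomial.map_prod, Polynomial.map_sub, Polynomial.map_pow, map_X]
    have : ∀ k ∈ Finset.range p, (X - C ((k : ℕ) : ℤ) : ℤ[X]).map (Int.castRingHom (ZMod p)) =
        X - C ((k : ℕ) : ZMod p) := by
      intro k _
      rw [Polynomial.map_sub, map_X, map_C]
      simp
    rw [Finset.prod_congr rfl this, wi_zmod_prod, sub_self]
  have hdvd : C (p : ℤ) ∣ (∏ k ∈ Finset.range p, (X - C ((k : ℕ) : ℤ)) - (X ^ p - X) : ℤ[X]) := by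
    rw [C_dvd_iff_dvd_coeff]
    intro i
    have := congrArg (fun f : (ZMod p)[X] => f.coeff i) hmap
    simp only [coeff_map, coeff_zero] at this
    exact (ZMod.intCast_zmod_eq_zero_iff_dvd _ p).mp this
  obtain ⟨Q, hQ⟩ := hdvd
  exact ⟨Q, by rw [← hQ]; ring⟩

/-- **Fermat's identity** in a commutative ring. -/
theorem wi_prod_sub {p : ℕ} (hp : p.Prime) {R : Type*} [CommRing R] (z : R) :
    ∃ q : R, ∏ k ∈ Finset.range p, (z - (k : R)) = z ^ p - z + (p : R) * q := by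
  have hfact : Fact p.Prime := ⟨hp⟩
  obtain ⟨Q, hQ⟩ := wi_int_prod p
  refine ⟨Q.eval₂ (Int.castRingHom R) z, ?_⟩
  have := congrArg (fun f : ℤ[X] => f.eval₂ (Int.castRingHom R) z) hQ
  simp only [eval₂_finsetProd, eval₂_sub, eval₂_X, eval₂_add, eval₂_pow, eval₂_mul,
    eq_intCast, Int.cast_natCast, eval₂_natCast] at this
  exact this

end Fermat.Agent.S33


end ZBS33_003_0

/-! ### bundled: `Fermat.Agent.S33.WildIdem` -/
section ZBS33_003_1

/-!
# S33 v2, C4 (WILD), piece T1, part 1: Artin–Schreier idempotents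

Wild twin of `UNIP/ExplicitIdem.lean` (`ei_dichotomy`, `ei_main`, `ei_false_of_aut`).
Setting of `INJ.zariski_connected_charts`: `A₀` a DVR with uniformizer `π`, `E = Frac A₀` of
characteristic `0`, `L / E(t)` finite, `E` algebraically closed in `L`, charts `C₁`, `C₂`.
Here the prime `p` is NOT invertible in `A₀` (`p ∈ π A₀`).

* `wi_dichotomy` / `wi_main`: if `z ^ p ≡ z` on the special fibre and `z` has local
  approximations at every closed point of the special fibre of both charts, then `z ≡ 0` or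
  `z ^ (p − 1) ≡ 1` on the special fibre (the idempotent is `1 − z ^ (p − 1)`).
* `wi_false_of_aut`: if moreover a ring endomorphism `ρ` of `L` fixes `A₀` and `t` and
  `ρ z ≡ z − 1` on the special fibre, this is impossible
  (`∏_{k<p} (z − k) ≡ z ^ p − z ≡ 0`, while every `(z − k) ^ (p − 1) ≡ 1`).
-/

set_option autoImplicit false
set_option linter.unusedSectionVars false
set_option linter.style.haveILetI false

namespace Fermat.Agent.S33

open Polynomial IntermediateField Fermat.Agent.INJ Fermat.Agent.UNIP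

section Main

variable {A₀ E L : Type*} [CommRing A₀] [IsDomain A₀] [IsDiscreteValuationRing A₀]
  [Field E] [Algebra A₀ E] [IsFractionRing A₀ E] [CharZero E]
  [Field L] [Algebra E L] [Algebra A₀ L] [IsScalarTower A₀ E L]
  {π : A₀} {t : L}

/-- **Wild Step 2 (c)+(d), integral form.**  `z₁ ∈ C₁`, `z₂ ∈ C₂` with `z_i ^ p ≡ z_i mod π C_i`,
`z₁ ≡ z₂ mod π C₁₂`.  Then `z₁ ≡ 0` or `z₁ ^ (p − 1) ≡ 1` modulo `π C₁`. -/
theorem wi_dichotomy (hπ : Irreducible π) (ht : Transcendental E t)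
    [FiniteDimensional (IntermediateField.adjoin E {t}) L]
    (hcl : ∀ x : L, IsAlgebraic E x → x ∈ (algebraMap E L).range)
    {p : ℕ} (hp2 : 2 ≤ p) {z₁ z₂ : L}
    (hz₁ : IsIntegral (Algebra.adjoin A₀ {t}) z₁)
    (hz₂ : IsIntegral (Algebra.adjoin A₀ {t⁻¹}) z₂)
    (h₁ : EIPiInt π t (z₁ ^ p - z₁)) (h₂ : EIPiInt π t⁻¹ (z₂ ^ p - z₂))
    (h₁₂ : ∃ c : L, IsIntegral (Algebra.adjoin A₀ {t, t⁻¹}) c ∧
      z₁ - z₂ = algebraMap A₀ L π * c) :
    EIPiInt π t z₁ ∨ EIPiInt π t (z₁ ^ (p - 1) - 1) := by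
  obtain ⟨m, rfl⟩ : ∃ m, p = m + 2 := ⟨p - 2, by omega⟩
  obtain ⟨c₁, hc₁, hc₁e⟩ := h₁
  obtain ⟨c₂, hc₂, hc₂e⟩ := h₂
  obtain ⟨c, hc, hce⟩ := h₁₂
  have hm1 : m + 2 - 1 = m + 1 := by omega
  -- the idempotents `1 − z ^ (m + 1)`
  have hid : ∀ (S : Set L) (z c : L), IsIntegral (Algebra.adjoin A₀ S) z →
      IsIntegral (Algebra.adjoin A₀ S) c → z ^ (m + 2) - z = algebraMap A₀ L π * c →
      ∃ c' : L, IsIntegral (Algebra.adjoin A₀ S) c' ∧
        (1 - z ^ (m + 1)) * (1 - z ^ (m + 1)) - (1 - z ^ (m + 1)) = algebraMap A₀ L π * c' := by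
    intro S z c hz hc hzc
    refine ⟨z ^ m * c, (hz.pow m).mul hc, ?_⟩
    linear_combination (z ^ m) * hzc
  have hcomp : ∃ c' : L, IsIntegral (Algebra.adjoin A₀ {t, t⁻¹}) c' ∧
      (1 - z₁ ^ (m + 1)) - (1 - z₂ ^ (m + 1)) = algebraMap A₀ L π * c' := by
    have hz₁' := zch_isIntegral_mono (ei_adjoin_le_pair_left (A₀ := A₀) t) hz₁
    have hz₂' := zch_isIntegral_mono (ei_adjoin_le_pair_right (A₀ := A₀) t) hz₂
    refine ⟨-(∑ i ∈ Finset.range (m + 1), z₁ ^ i * z₂ ^ (m + 1 - 1 - i)) * c,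
      (IsIntegral.neg (IsIntegral.sum _ (fun i _ => (hz₁'.pow i).mul (hz₂'.pow _)))).mul hc, ?_⟩
    have key := geom_sum₂_mul z₁ z₂ (m + 1)
    rw [hce] at key
    linear_combination key
  have he₁ : IsIntegral (Algebra.adjoin A₀ {t}) (1 - z₁ ^ (m + 1)) :=
    isIntegral_one.sub (hz₁.pow _)
  have he₂ : IsIntegral (Algebra.adjoin A₀ {t⁻¹}) (1 - z₂ ^ (m + 1)) :=
    isIntegral_one.sub (hz₂.pow _)
  rcases zariski_connected_charts hπ ht hcl he₁ he₂
    (hid _ z₁ c₁ hz₁ hc₁ hc₁e) (hid _ z₂ c₂ hz₂ hc₂ hc₂e) hcomp with ⟨y, hy, hye⟩ | ⟨y, hy, hye⟩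
  · right
    rw [hm1]
    refine ⟨-y, hy.neg, ?_⟩
    linear_combination -hye
  · left
    refine ⟨-(z₁ * y) - c₁, (hz₁.mul hy).neg.sub hc₁, ?_⟩
    linear_combination -z₁ * hye - hc₁e

/-- **Wild Step 2 (b)+(c)+(d).**  If `z ^ p ≡ z` on the special fibre and `z` has local
approximations at every closed point of the special fibre of both charts, then `z ≡ 0` or
`z ^ (p − 1) ≡ 1` on the special fibre. -/
theorem wi_main (hπ : Irreducible π) (ht : Transcendental E t)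
    [FiniteDimensional (IntermediateField.adjoin E {t}) L]
    (hcl : ∀ x : L, IsAlgebraic E x → x ∈ (algebraMap E L).range)
    {p : ℕ} (hp2 : 2 ≤ p) {z : L} (hz : z ∈ eiLoc ht hπ)
    (hz1 : EIPiLoc ht hπ (z ^ p - z))
    (hloc₁ : ∀ 𝔑 : Ideal ↥(zchClosure (A₀ := A₀) ({t} : Set L)), 𝔑.IsMaximal →
      algebraMap A₀ ↥(zchClosure (A₀ := A₀) ({t} : Set L)) π ∈ 𝔑 →
      ∃ b T : ↥(zchClosure (A₀ := A₀) ({t} : Set L)),
        b ∉ 𝔑 ∧ EIPiLoc ht hπ ((b : L) * z - (T : L)))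
    (hloc₂ : ∀ 𝔑 : Ideal ↥(zchClosure (A₀ := A₀) ({t⁻¹} : Set L)), 𝔑.IsMaximal →
      algebraMap A₀ ↥(zchClosure (A₀ := A₀) ({t⁻¹} : Set L)) π ∈ 𝔑 →
      ∃ b T : ↥(zchClosure (A₀ := A₀) ({t⁻¹} : Set L)),
        b ∉ 𝔑 ∧ EIPiLoc (zch_transcendental_inv ht) hπ ((b : L) * z - (T : L))) :
    EIPiLoc ht hπ z ∨ EIPiLoc ht hπ (z ^ (p - 1) - 1) := by
  have ht' := zch_transcendental_inv ht
  have hz' : z ∈ eiLoc ht' hπ := by rw [eiLoc_inv_eq ht hπ]; exact hz
  have hz1' : EIPiLoc ht' hπ (z ^ p - z) := (eiPiLoc_inv_iff ht hπ).mpr hz1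
  obtain ⟨z₁, hz₁, hd₁⟩ := ei_exists_global ht hπ hz hloc₁
  obtain ⟨z₂, hz₂, hd₂⟩ := ei_exists_global ht' hπ hz' hloc₂
  -- `z_i ^ p ≡ z_i`
  have hpow : ∀ {u : L} (hu : Transcendental E u) {z' : L},
      IsIntegral (Algebra.adjoin A₀ {u}) z' → EIPiLoc hu hπ (z ^ p - z) →
      EIPiLoc hu hπ (z - z') → EIPiInt π u (z' ^ p - z') := by
    intro u hu z' hz' hzz hd
    have h1 := hd.pow_sub_pow hu hπ (eiLoc_of_isIntegral hu hπ hz') p
    have h2 := (hzz.sub hu hπ h1).add hu hπ hd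
    have e : z ^ p - z - (z ^ p - z' ^ p) + (z - z') = z' ^ p - z' := by ring
    rw [e] at h2
    exact h2.piInt hu hπ ((hz'.pow p).sub hz')
  have hp₁ := hpow ht hz₁ hz1 hd₁
  have hp₂ := hpow ht' hz₂ hz1' hd₂
  have hov : ∃ c : L, IsIntegral (Algebra.adjoin A₀ {t, t⁻¹}) c ∧
      z₁ - z₂ = algebraMap A₀ L π * c := by
    obtain ⟨w₁, hw₁, hw₁e⟩ := hd₁
    obtain ⟨w₂, hw₂, hw₂e⟩ := hd₂
    refine ei_overlap ht hπ hz₁ hz₂ hw₁ hw₂ ?_
    linear_combination hw₂e - hw₁e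
  rcases wi_dichotomy hπ ht hcl hp2 hz₁ hz₂ hp₁ hp₂ hov with h | h
  · left
    have := hd₁.add ht hπ (h.piLoc ht hπ)
    have e : z - z₁ + z₁ = z := by ring
    rwa [e] at this
  · right
    have h1 := hd₁.pow_sub_pow ht hπ (eiLoc_of_isIntegral ht hπ hz₁) (p - 1)
    have := h1.add ht hπ (h.piLoc ht hπ)
    have e : z ^ (p - 1) - z₁ ^ (p - 1) + (z₁ ^ (p - 1) - 1) = z ^ (p - 1) - 1 := by ring
    rwa [e] at this

/-- products of elements `≡ 1` are `≡ 1` -/
theorem wi_prod_congr_one (hπ : Irreducible π) (ht : Transcendental E t) {ι : Type*}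
    (s : Finset ι) (f : ι → L) (h : ∀ i ∈ s, EIPiLoc ht hπ (f i - 1)) :
    EIPiLoc ht hπ (∏ i ∈ s, f i - 1) := by
  classical
  induction s using Finset.induction_on with
  | empty => simpa using eiPiLoc_zero ht hπ
  | insert a s ha ih =>
    rw [Finset.prod_insert ha]
    have h1 := h a (Finset.mem_insert_self a s)
    have h2 := ih fun i hi => h i (Finset.mem_insert_of_mem hi)
    have hfa : f a ∈ eiLoc ht hπ := by
      have := Subring.add_mem _ (h1.mem_loc ht hπ) (Subring.one_mem _)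
      simpa using this
    have h3 := (h2.mul_left ht hπ hfa).add ht hπ h1
    have e : f a * (∏ i ∈ s, f i - 1) + (f a - 1) = f a * ∏ i ∈ s, f i - 1 := by ring
    rwa [e] at h3

/-- **Wild Step 2, final form.**  In the setting of `wi_main`, with `p ∈ π A₀`, a ring
endomorphism `ρ` of `L` fixing `A₀` and `t` with `ρ z ≡ z − 1` on the special fibre cannot
exist. -/
theorem wi_false_of_aut (hπ : Irreducible π) (ht : Transcendental E t)
    [FiniteDimensional (IntermediateField.adjoin E {t}) L]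
    (hcl : ∀ x : L, IsAlgebraic E x → x ∈ (algebraMap E L).range)
    {p : ℕ} (hp : p.Prime) (hpπ : π ∣ (p : A₀)) {z : L} (hz : z ∈ eiLoc ht hπ)
    (hz1 : EIPiLoc ht hπ (z ^ p - z))
    (hloc₁ : ∀ 𝔑 : Ideal ↥(zchClosure (A₀ := A₀) ({t} : Set L)), 𝔑.IsMaximal →
      algebraMap A₀ ↥(zchClosure (A₀ := A₀) ({t} : Set L)) π ∈ 𝔑 →
      ∃ b T : ↥(zchClosure (A₀ := A₀) ({t} : Set L)),
        b ∉ 𝔑 ∧ EIPiLoc ht hπ ((b : L) * z - (T : L)))
    (hloc₂ : ∀ 𝔑 : Ideal ↥(zchClosure (A₀ := A₀) ({t⁻¹} : Set L)), 𝔑.IsMaximal →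
      algebraMap A₀ ↥(zchClosure (A₀ := A₀) ({t⁻¹} : Set L)) π ∈ 𝔑 →
      ∃ b T : ↥(zchClosure (A₀ := A₀) ({t⁻¹} : Set L)),
        b ∉ 𝔑 ∧ EIPiLoc (zch_transcendental_inv ht) hπ ((b : L) * z - (T : L)))
    (ρ : L →+* L) (hρA : ∀ a : A₀, ρ (algebraMap A₀ L a) = algebraMap A₀ L a) (hρt : ρ t = t)
    (hρz : EIPiLoc ht hπ (ρ z - z + 1)) : False := by
  -- `p ≡ 0`
  have hpL : EIPiLoc ht hπ ((p : L)) := by
    obtain ⟨q, hq⟩ := hpπ
    refine ⟨algebraMap A₀ L q, eiLoc_algebraMap ht hπ q, ?_⟩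
    rw [← map_mul, ← hq, map_natCast]
  rcases wi_main hπ ht hcl hp.two_le hz hz1 hloc₁ hloc₂ with h | h
  · -- `z ≡ 0`
    have h1 := h.map ht hπ ρ hρA hρt
    have h2 := (hρz.sub ht hπ h1).add ht hπ h
    have e : ρ z - z + 1 - ρ z + z = 1 := by ring
    rw [e] at h2
    exact ei_not_piLoc_one ht hπ h2
  · -- `z ^ (p − 1) ≡ 1`
    -- the iterates of `ρ`
    have hiter : ∀ j : ℕ, (∀ a : A₀, (ρ ^ j) (algebraMap A₀ L a) = algebraMap A₀ L a) ∧
        (ρ ^ j) t = t ∧ EIPiLoc ht hπ ((ρ ^ j) z - (z - (j : L))) := by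
      intro j
      induction j with
      | zero =>
        refine ⟨fun a => rfl, rfl, ?_⟩
        have e : (ρ ^ 0) z - (z - ((0 : ℕ) : L)) = 0 := by
          rw [pow_zero, Nat.cast_zero, sub_zero]
          exact sub_self _
        rw [e]
        exact eiPiLoc_zero ht hπ
      | succ j ih =>
        obtain ⟨h1, h2, h3⟩ := ih
        refine ⟨fun a => ?_, ?_, ?_⟩
        · rw [pow_succ', RingHom.mul_def, RingHom.comp_apply, h1, hρA]
        · rw [pow_succ', RingHom.mul_def, RingHom.comp_apply, h2, hρt]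
        · have h4 := h3.map ht hπ ρ hρA hρt
          have h5 := h4.add ht hπ hρz
          have e : ρ ((ρ ^ j) z - (z - (j : L))) + (ρ z - z + 1) =
              (ρ ^ (j + 1)) z - (z - ((j + 1 : ℕ) : L)) := by
            rw [pow_succ', RingHom.mul_def, RingHom.comp_apply, map_sub, map_sub, map_natCast]
            push_cast
            ring
          rwa [e] at h5
    have hU : ∀ j ∈ Finset.range p, EIPiLoc ht hπ ((z - (j : L)) ^ (p - 1) - 1) := by
      intro j _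
      obtain ⟨h1, h2, h3⟩ := hiter j
      have h4 := h.map ht hπ (ρ ^ j) h1 h2
      rw [map_sub, map_pow, map_one] at h4
      have hzj : z - (j : L) ∈ eiLoc ht hπ :=
        Subring.sub_mem _ hz (by
          have := eiLoc_algebraMap (L := L) ht hπ ((j : ℕ) : A₀)
          rwa [map_natCast] at this)
      have h5 := h3.pow_sub_pow ht hπ hzj (p - 1)
      have h6 := h4.sub ht hπ h5
      have e : (ρ ^ j) z ^ (p - 1) - 1 - ((ρ ^ j) z ^ (p - 1) - (z - (j : L)) ^ (p - 1)) =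
          (z - (j : L)) ^ (p - 1) - 1 := by ring
      rwa [e] at h6
    have hprod := wi_prod_congr_one hπ ht (Finset.range p) (fun j => (z - (j : L)) ^ (p - 1)) hU
    rw [Finset.prod_pow] at hprod
    -- Fermat's identity in the semilocal ring
    obtain ⟨q, hq⟩ := wi_prod_sub hp (⟨z, hz⟩ : ↥(eiLoc ht hπ))
    have hq' : ∏ k ∈ Finset.range p, (z - (k : L)) = z ^ p - z + (p : L) * (q : L) := by
      have := congrArg (fun x : ↥(eiLoc ht hπ) => (x : L)) hq
      simpa using this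
    have h0 : EIPiLoc ht hπ (∏ k ∈ Finset.range p, (z - (k : L))) := by
      rw [hq']
      exact hz1.add ht hπ (hpL.mul_right ht hπ q.2)
    have h0' : EIPiLoc ht hπ ((∏ k ∈ Finset.range p, (z - (k : L))) ^ (p - 1)) := by
      obtain ⟨n, hn⟩ : ∃ n, p - 1 = n + 1 := ⟨p - 2, by have := hp.two_le; omega⟩
      rw [hn, pow_succ]
      exact h0.mul_left ht hπ (Subring.pow_mem _ (h0.mem_loc ht hπ) n)
    have h1 := h0'.sub ht hπ hprod
    have e : (∏ k ∈ Finset.range p, (z - (k : L))) ^ (p - 1) -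
        ((∏ k ∈ Finset.range p, (z - (k : L))) ^ (p - 1) - 1) = 1 := by ring
    rw [e] at h1
    exact ei_not_piLoc_one ht hπ h1

end Main

end Fermat.Agent.S33


end ZBS33_003_1

/-! ### bundled: `Fermat.Agent.S33.WildAlg` -/
section ZBS33_003_2

/-!
# S33 v2, C4 (WILD), piece T1, part 2: the Kummer / Artin–Schreier substitution

`ζ` a primitive `p`-th root of unity, `lam = ζ − 1`, `η_k = 1 + ζ + ⋯ + ζ^{k−1}`.

* `wk_prod_sub_pow`  : `∏_{k<p} (Y − S ζ^k) = Y^p − S^p`;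
* `wk_prod_eta`      : if `lam · T = Y − S` then `lam^p · ∏_{k<p} (T − S η_k) = Y^p − S^p`
  (so `z = (y − 1)/lam` satisfies `∏ (z − η_k) = (y^p − 1)/lam^p`);
* `wk_isIntegral_of_prod` : a root of `∏_{k<p} (Z − c_k) − d` with `c_k`, `d` integral is integral.
-/

set_option autoImplicit false

namespace Fermat.Agent.S33

open Polynomial

section Roots

variable {K : Type*} [Field K]

/-- `η_k (ζ − 1) = ζ^k − 1` -/
theorem wk_eta_mul {R : Type*} [CommRing R] (ζ : R) (k : ℕ) :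
    (∑ i ∈ Finset.range k, ζ ^ i) * (ζ - 1) = ζ ^ k - 1 :=
  geom_sum_mul ζ k

/-- `∏_{k<p} (h − ζ^k) = h^p − 1`. -/
theorem wk_prod_sub_one {p : ℕ} (hp : 0 < p) {ζ : K} (hζ : IsPrimitiveRoot ζ p) (h : K) :
    ∏ k ∈ Finset.range p, (h - ζ ^ k) = h ^ p - 1 := by
  have key := X_pow_sub_C_eq_prod hζ hp (one_pow p)
  have := congrArg (Polynomial.eval h) key
  simp only [eval_sub, eval_pow, eval_X, eval_C, eval_prod, mul_one] at this
  exact this.symm

/-- `∏_{k<p} (Y − S ζ^k) = Y^p − S^p`. -/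
theorem wk_prod_sub_pow {p : ℕ} (hp : 0 < p) {ζ : K} (hζ : IsPrimitiveRoot ζ p) (Y S : K) :
    ∏ k ∈ Finset.range p, (Y - S * ζ ^ k) = Y ^ p - S ^ p := by
  by_cases hS : S = 0
  · subst hS
    simp [zero_pow hp.ne']
  · have h1 := wk_prod_sub_one hp hζ (Y / S)
    have h2 : ∀ k ∈ Finset.range p, Y - S * ζ ^ k = S * (Y / S - ζ ^ k) := by
      intro k _
      field_simp
    rw [Finset.prod_congr rfl h2, Finset.prod_mul_distrib, h1, Finset.prod_const,
      Finset.card_range, mul_sub, mul_one, div_pow, mul_div_cancel₀ _ (pow_ne_zero p hS)]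

/-- **The Kummer / Artin–Schreier substitution.** -/
theorem wk_prod_eta {p : ℕ} (hp : 0 < p) {ζ : K} (hζ : IsPrimitiveRoot ζ p) {Y S T : K}
    (hT : (ζ - 1) * T = Y - S) :
    (ζ - 1) ^ p * ∏ k ∈ Finset.range p, (T - S * ∑ i ∈ Finset.range k, ζ ^ i) =
      Y ^ p - S ^ p := by
  rw [← wk_prod_sub_pow hp hζ Y S]
  have h2 : ∀ k ∈ Finset.range p, Y - S * ζ ^ k =
      (ζ - 1) * (T - S * ∑ i ∈ Finset.range k, ζ ^ i) := by
    intro k _
    have := wk_eta_mul ζ k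
    linear_combination -hT + S * this
  rw [Finset.prod_congr rfl h2, Finset.prod_mul_distrib, Finset.prod_const, Finset.card_range]

end Roots

section Integral

variable {R L : Type*} [CommRing R] [CommRing L] [Algebra R L]

/-- A root of `∏_{k<p} (Z − c_k) − d`, with `c_k` and `d` integral over `R`, is integral. -/
theorem wk_isIntegral_of_prod {p : ℕ} (hp : 0 < p) (c : ℕ → L) (d T : L)
    (hc : ∀ k, IsIntegral R (c k)) (hd : IsIntegral R d)
    (h : ∏ k ∈ Finset.range p, (T - c k) = d) : IsIntegral R T := by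
  classical
  nontriviality L
  have hnt : Nontrivial ↥(integralClosure R L) :=
    ⟨⟨0, 1, fun h => zero_ne_one (α := L) (congrArg Subtype.val h)⟩⟩
  set c' : ℕ → ↥(integralClosure R L) := fun k => ⟨c k, hc k⟩ with hc'
  set d' : ↥(integralClosure R L) := ⟨d, hd⟩ with hd'
  set q : (↥(integralClosure R L))[X] := ∏ k ∈ Finset.range p, (X - C (c' k)) - C d' with hq
  have hmon1 : (∏ k ∈ Finset.range p, (X - C (c' k))).Monic := monic_prod_X_sub_C _ _
  have hdeg1 : (∏ k ∈ Finset.range p, (X - C (c' k))).natDegree = p := by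
    rw [natDegree_prod_of_monic _ _ (fun k _ => monic_X_sub_C (c' k))]
    simp
  have hmon : q.Monic := by
    refine hmon1.sub_of_left ?_
    refine lt_of_le_of_lt degree_C_le ?_
    rw [degree_eq_natDegree hmon1.ne_zero, hdeg1]
    exact_mod_cast hp
  have heval : q.eval₂ (algebraMap ↥(integralClosure R L) L) T = 0 := by
    rw [hq, eval₂_sub, eval₂_finsetProd, eval₂_C]
    simp only [eval₂_sub, eval₂_X, eval₂_C]
    show ∏ k ∈ Finset.range p, (T - c k) - d = 0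
    rw [h, sub_self]
  exact isIntegral_trans (A := ↥(integralClosure R L)) T ⟨q, hmon, heval⟩

end Integral

end Fermat.Agent.S33


end ZBS33_003_2

/-! ### bundled: `Fermat.Agent.S33.WildGlue` -/
section ZBS33_003_3

/-!
# S33 v2, C4 (WILD), piece T1 = W6: the wild Kummer glue

Wild twin of `UNIP/KummerSplit.lean` (`ks_main_gen`).  Chart setting of
`INJ.zariski_connected_charts` for a field `F` (`A₀` DVR, `π`, `E = Frac A₀` of characteristic `0`,
`t : F` transcendental, `F / E(t)` finite, `E` algebraically closed in `F`).  Here `p` is a prime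
with `p ∈ π A₀` (NOT invertible), `ζ ∈ A₀` a primitive `p`-th root of unity, `lam := ζ − 1 ∈ π A₀`.

`wk_main_gen`: let `w ∈ F^×` with

* (G) `w ≡ 1 mod lam^p · π` on the special fibre: `w − 1 = lam^p · x`, `EIPiLoc x`;
* (L) `WKLocal` on both charts: at every closed point `𝔫 ∋ π` there are `s ∉ 𝔫` and `g ∈ F` with
  `(g^p w − s^p) / lam^p` integral over the chart and `s ≡ g mod lam · π` on the special fibre.
  (From a local shape `w = ε γ^p`, `ε ∈ 1 + lam^p R_𝔫`, `γ ≡ 1 mod lam π` at the vertical primes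
  through `𝔫`: `g := s / γ`, `s ∉ 𝔫` a denominator vanishing to high order on the other vertical
  primes.)

Then `w = c · h ^ p` with a constant `c ∈ E^×`.

Proof: `L := F[X]/(X^p − w)`, `y` the root, `z := (y − 1)/lam`.  `∏_{k<p} (z − η_k) = x`
(`wk_prod_eta`), so `z` is semilocally integral and `z^p − z ≡ 0` on the special fibre; local
approximations `T := (g y − s)/lam` of `s z` (root of `∏ (Z − s η_k) − (g^p w − s^p)/lam^p`);
`ρ : y ↦ ζ⁻¹ y` has `ρ z − z + 1 = lam ζ⁻¹ (1 − z) ≡ 0`; `wi_false_of_aut`.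
-/

set_option autoImplicit false
set_option linter.unusedSectionVars false
set_option linter.style.haveILetI false

namespace Fermat.Agent.S33

open Polynomial IntermediateField Fermat.Agent.INJ Fermat.Agent.UNIP

section Loc

variable {A₀ E L : Type*} [CommRing A₀] [IsDomain A₀] [IsDiscreteValuationRing A₀]
  [Field E] [Algebra A₀ E] [IsFractionRing A₀ E] [CharZero E]
  [Field L] [Algebra E L] [Algebra A₀ L] [IsScalarTower A₀ E L]
  {π : A₀} {u : L}

/-- constants are integral over the chart -/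
theorem wk_isIntegral_const (u : L) (a : A₀) :
    IsIntegral (Algebra.adjoin A₀ ({u} : Set L)) (algebraMap A₀ L a) :=
  isIntegral_algebraMap (R := ↥(Algebra.adjoin A₀ ({u} : Set L)))
    (x := algebraMap A₀ ↥(Algebra.adjoin A₀ ({u} : Set L)) a)

/-- multiples of `π` in `A₀` vanish on the special fibre -/
theorem wk_piLoc_const (hu : Transcendental E u) (hπ : Irreducible π) {a : A₀} (ha : π ∣ a) :
    EIPiLoc hu hπ (algebraMap A₀ L a) := by
  obtain ⟨q, rfl⟩ := ha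
  exact ⟨algebraMap A₀ L q, eiLoc_algebraMap hu hπ q, map_mul _ _ _⟩

/-- products of congruent factors are congruent -/
theorem wk_prod_congr (hu : Transcendental E u) (hπ : Irreducible π) {ι : Type*}
    (s : Finset ι) (a b : ι → L) (hb : ∀ i ∈ s, b i ∈ eiLoc hu hπ)
    (h : ∀ i ∈ s, EIPiLoc hu hπ (a i - b i)) :
    EIPiLoc hu hπ (∏ i ∈ s, a i - ∏ i ∈ s, b i) := by
  classical
  induction s using Finset.induction_on with
  | empty => simpa using eiPiLoc_zero hu hπ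
  | insert c s hc ih =>
    rw [Finset.prod_insert hc, Finset.prod_insert hc]
    have h1 := h c (Finset.mem_insert_self c s)
    have hbc := hb c (Finset.mem_insert_self c s)
    have h2 := ih (fun i hi => hb i (Finset.mem_insert_of_mem hi))
      (fun i hi => h i (Finset.mem_insert_of_mem hi))
    have hac : a c ∈ eiLoc hu hπ := by
      have := Subring.add_mem _ (h1.mem_loc hu hπ) hbc
      simpa using this
    have hpb : ∏ i ∈ s, b i ∈ eiLoc hu hπ :=
      Subring.prod_mem _ fun i hi => hb i (Finset.mem_insert_of_mem hi)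
    have h3 := (h2.mul_left hu hπ hac).add hu hπ (h1.mul_right hu hπ hpb)
    have e : a c * (∏ i ∈ s, a i - ∏ i ∈ s, b i) + (a c - b c) * ∏ i ∈ s, b i =
        a c * ∏ i ∈ s, a i - b c * ∏ i ∈ s, b i := by ring
    rwa [e] at h3

/-- the geometric sums `η_k` are `≡ k` modulo `ζ − 1` -/
theorem wk_eta_sub_dvd (ζ : A₀) (k : ℕ) :
    (ζ - 1) ∣ (∑ i ∈ Finset.range k, ζ ^ i) - (k : A₀) := by
  have h1 : (∑ i ∈ Finset.range k, ζ ^ i) - (k : A₀) = ∑ i ∈ Finset.range k, (ζ ^ i - 1) := by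
    rw [Finset.sum_sub_distrib]
    simp
  rw [h1]
  refine Finset.dvd_sum fun i _ => ?_
  have := sub_dvd_pow_sub_pow ζ 1 i
  rwa [one_pow] at this

/-- **Semilocal integrality and the Artin–Schreier congruence.**  If `lam z = y − 1` and
`y ^ p − 1 = lam ^ p · x` with `x ≡ 0` on the special fibre, then `z` is semilocally integral and
`z ^ p ≡ z` on the special fibre (`lam = ζ − 1`, `π ∣ lam`, `π ∣ p`). -/
theorem wk_artinSchreier (hu : Transcendental E u) (hπ : Irreducible π)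
    {p : ℕ} (hp : p.Prime) (hpπ : π ∣ (p : A₀)) {ζ : A₀} (hζ : IsPrimitiveRoot ζ p)
    (hlam : π ∣ ζ - 1) {y z x : L}
    (hz : algebraMap A₀ L (ζ - 1) * z = y - 1)
    (hx : EIPiLoc hu hπ x) (hyx : y ^ p - 1 = algebraMap A₀ L (ζ - 1) ^ p * x) :
    z ∈ eiLoc hu hπ ∧ EIPiLoc hu hπ (z ^ p - z) := by
  have hinj : Function.Injective (algebraMap A₀ L) :=
    zch_algebraMap_injective (A₀ := A₀) (E := E)
  have hζL : IsPrimitiveRoot (algebraMap A₀ L ζ) p := hζ.map_of_injective hinj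
  have hlam0 : algebraMap A₀ L (ζ - 1) ≠ 0 := by
    rw [Ne, map_eq_zero_iff _ hinj, sub_eq_zero]
    exact hζ.ne_one hp.one_lt
  have hlamL : algebraMap A₀ L (ζ - 1) = algebraMap A₀ L ζ - 1 := by
    rw [map_sub, map_one]
  -- the Kummer / Artin–Schreier substitution
  have hprod : ∏ k ∈ Finset.range p,
      (z - algebraMap A₀ L (∑ i ∈ Finset.range k, ζ ^ i)) = x := by
    have h1 := wk_prod_eta hp.pos hζL (Y := y) (S := 1) (T := z) (by rw [← hlamL]; exact hz)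
    rw [one_pow, hyx, ← hlamL] at h1
    have h2 := mul_left_cancel₀ (pow_ne_zero p hlam0) h1
    rw [← h2]
    refine Finset.prod_congr rfl fun k _ => ?_
    rw [one_mul, map_sum]
    simp only [map_pow]
  -- `z` is semilocally integral
  have hzloc : z ∈ eiLoc hu hπ := by
    obtain ⟨s₀, hs₀, hs₀x⟩ := hx.mem_loc hu hπ
    have hs₀int : IsIntegral (Algebra.adjoin A₀ {u}) s₀ :=
      isIntegral_algebraMap (R := ↥(Algebra.adjoin A₀ ({u} : Set L))) (x := ⟨s₀, hs₀.1⟩)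
    refine ⟨s₀, hs₀, ?_⟩
    refine wk_isIntegral_of_prod hp.pos
      (fun k => s₀ * algebraMap A₀ L (∑ i ∈ Finset.range k, ζ ^ i)) (s₀ ^ (p - 1) * (s₀ * x))
      (s₀ * z) (fun k => hs₀int.mul (wk_isIntegral_const u _)) ((hs₀int.pow _).mul hs₀x) ?_
    have h1 : ∀ k ∈ Finset.range p,
        s₀ * z - s₀ * algebraMap A₀ L (∑ i ∈ Finset.range k, ζ ^ i) =
          s₀ * (z - algebraMap A₀ L (∑ i ∈ Finset.range k, ζ ^ i)) := fun k _ => by ring
    rw [Finset.prod_congr rfl h1, Finset.prod_mul_distrib, hprod, Finset.prod_const,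
      Finset.card_range]
    obtain ⟨n, hn⟩ : ∃ n, p = n + 1 := ⟨p - 1, by have := hp.pos; omega⟩
    rw [hn, Nat.add_sub_cancel]
    ring
  refine ⟨hzloc, ?_⟩
  -- `∏ (z − k) ≡ ∏ (z − η_k) = x ≡ 0`
  have hnat : ∀ k : ℕ, ((k : ℕ) : L) = algebraMap A₀ L (k : A₀) := fun k => by
    rw [map_natCast]
  have hcongr : EIPiLoc hu hπ (∏ k ∈ Finset.range p, (z - (k : L)) -
      ∏ k ∈ Finset.range p, (z - algebraMap A₀ L (∑ i ∈ Finset.range k, ζ ^ i))) := by
    refine wk_prod_congr hu hπ _ _ _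
      (fun k _ => Subring.sub_mem _ hzloc (eiLoc_algebraMap hu hπ _)) fun k _ => ?_
    have e : z - (k : L) - (z - algebraMap A₀ L (∑ i ∈ Finset.range k, ζ ^ i)) =
        algebraMap A₀ L ((∑ i ∈ Finset.range k, ζ ^ i) - (k : A₀)) := by
      rw [map_sub, map_natCast]
      ring
    rw [e]
    exact wk_piLoc_const hu hπ (dvd_trans hlam (wk_eta_sub_dvd ζ k))
  rw [hprod] at hcongr
  have h0 : EIPiLoc hu hπ (∏ k ∈ Finset.range p, (z - (k : L))) := by
    have := hcongr.add hu hπ hx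
    rwa [sub_add_cancel] at this
  -- Fermat's identity in the semilocal ring
  obtain ⟨q, hq⟩ := wi_prod_sub hp (⟨z, hzloc⟩ : ↥(eiLoc hu hπ))
  have hq' : ∏ k ∈ Finset.range p, (z - (k : L)) = z ^ p - z + (p : L) * (q : L) := by
    have := congrArg (fun x : ↥(eiLoc hu hπ) => (x : L)) hq
    simpa using this
  have hpL : EIPiLoc hu hπ ((p : L)) := by
    have := wk_piLoc_const (L := L) hu hπ hpπ
    rwa [map_natCast] at this
  have h1 := h0.sub hu hπ (hpL.mul_right hu hπ q.2)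
  rw [hq'] at h1
  have e : z ^ p - z + (p : L) * (q : L) - (p : L) * (q : L) = z ^ p - z := by ring
  rwa [e] at h1

end Loc

section Transport

variable {A₀ E F L : Type*} [CommRing A₀] [IsDomain A₀] [IsDiscreteValuationRing A₀]
  [Field E] [Algebra A₀ E] [IsFractionRing A₀ E] [CharZero E]
  [Field F] [Algebra E F] [Algebra A₀ F] [IsScalarTower A₀ E F]
  [Field L] [Algebra E L] [Algebra A₀ L] [IsScalarTower A₀ E L]
  [Algebra F L] [IsScalarTower E F L] [IsScalarTower A₀ F L]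
  {π : A₀} {u : F}

/-- **The wild local hypothesis (L)** at the chart `u` of `F`: at every closed point `𝔫 ∋ π` of
the chart there are `s ∉ 𝔫` and `g ∈ F` with `(g ^ p w − s ^ p) / lam ^ p` integral over the chart
and `s ≡ g mod lam · π` on the special fibre. -/
def WKLocal (hu : Transcendental E u) (hπ : Irreducible π) (p : ℕ) (lam : A₀) (w : F) : Prop :=
  ∀ 𝔫 : Ideal ↥(zchClosure (A₀ := A₀) ({u} : Set F)), 𝔫.IsMaximal →
    algebraMap A₀ ↥(zchClosure (A₀ := A₀) ({u} : Set F)) π ∈ 𝔫 →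
    ∃ s : ↥(zchClosure (A₀ := A₀) ({u} : Set F)), s ∉ 𝔫 ∧ ∃ g β x : F,
      g ^ p * w - (s : F) ^ p = algebraMap A₀ F lam ^ p * β ∧
      IsIntegral (Algebra.adjoin A₀ {u}) β ∧
      EIPiLoc hu hπ x ∧ (s : F) - g = algebraMap A₀ F lam * x

/-- Transport of the wild local data from `F` to `L = F(y)`, `y ^ p = w`, `lam z = y − 1`:
`b := s`, `T := (g y − s) / lam`. -/
theorem wk_local (hu : Transcendental E u) (hπ : Irreducible π) {p : ℕ} (hp : p.Prime)
    {ζ : A₀} (hζ : IsPrimitiveRoot ζ p) {w : F}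
    (hloc : WKLocal hu hπ p (ζ - 1) w) {y z : L} (hy : y ^ p = algebraMap F L w)
    (hz : algebraMap A₀ L (ζ - 1) * z = y - 1)
    {uL : L} (huL : algebraMap F L u = uL) (huLt : Transcendental E uL)
    (hyloc : y ∈ eiLoc huLt hπ) :
    ∀ 𝔑 : Ideal ↥(zchClosure (A₀ := A₀) ({uL} : Set L)), 𝔑.IsMaximal →
      algebraMap A₀ ↥(zchClosure (A₀ := A₀) ({uL} : Set L)) π ∈ 𝔑 →
      ∃ b T : ↥(zchClosure (A₀ := A₀) ({uL} : Set L)),
        b ∉ 𝔑 ∧ EIPiLoc huLt hπ ((b : L) * z - (T : L)) := by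
  subst huL
  intro 𝔑 h𝔑 hπ𝔑
  have hinj : Function.Injective (algebraMap A₀ L) :=
    zch_algebraMap_injective (A₀ := A₀) (E := E)
  have hζL : IsPrimitiveRoot (algebraMap A₀ L ζ) p := hζ.map_of_injective hinj
  have hlam0 : algebraMap A₀ L (ζ - 1) ≠ 0 := by
    rw [Ne, map_eq_zero_iff _ hinj, sub_eq_zero]
    exact hζ.ne_one hp.one_lt
  have hlamL : algebraMap A₀ L (ζ - 1) = algebraMap A₀ L ζ - 1 := by
    rw [map_sub, map_one]
  have hne : 𝔑.comap (ksClosureMap (A₀ := A₀) (L := L) u) ≠ ⊤ :=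
    Ideal.comap_ne_top _ h𝔑.ne_top
  obtain ⟨𝔫, h𝔫, hle⟩ := Ideal.exists_le_maximal _ hne
  have hπ𝔫 : algebraMap A₀ ↥(zchClosure (A₀ := A₀) ({u} : Set F)) π ∈ 𝔫 := by
    apply hle
    rw [Ideal.mem_comap]
    have : ksClosureMap (A₀ := A₀) (L := L) u
        (algebraMap A₀ ↥(zchClosure (A₀ := A₀) ({u} : Set F)) π)
        = algebraMap A₀ ↥(zchClosure (A₀ := A₀) ({algebraMap F L u} : Set L)) π :=
      Subtype.ext (ks_algebraMap_comm π)
    rw [this]
    exact hπ𝔑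
  obtain ⟨s, hs, g, β, x, hgw, hβ, hx, hsg⟩ := hloc 𝔫 h𝔫 hπ𝔫
  set sL : L := algebraMap F L (s : F) with hsL
  set gL : L := algebraMap F L g with hgL
  have hsLint : IsIntegral (Algebra.adjoin A₀ {algebraMap F L u}) sL :=
    ks_isIntegral (mem_zchClosure.mp s.2)
  -- the approximation `T₀ = (g y − s) / lam`
  set T₀ : L := (algebraMap A₀ L (ζ - 1))⁻¹ * (gL * y - sL) with hT₀
  have hT₀lam : (algebraMap A₀ L ζ - 1) * T₀ = gL * y - sL := by
    rw [hT₀, ← hlamL, mul_inv_cancel_left₀ hlam0]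
  have hprod : ∏ k ∈ Finset.range p,
      (T₀ - sL * algebraMap A₀ L (∑ i ∈ Finset.range k, ζ ^ i)) = algebraMap F L β := by
    have h1 := wk_prod_eta hp.pos hζL hT₀lam
    have h2 : (gL * y) ^ p - sL ^ p = algebraMap A₀ L (ζ - 1) ^ p * algebraMap F L β := by
      rw [mul_pow, hy, hgL, hsL, ← map_pow, ← map_pow, ← map_mul, ← map_sub, hgw, map_mul,
        map_pow, ks_algebraMap_comm]
    rw [h2, ← hlamL] at h1
    have h3 := mul_left_cancel₀ (pow_ne_zero p hlam0) h1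
    rw [← h3]
    refine Finset.prod_congr rfl fun k _ => ?_
    rw [map_sum]
    simp only [map_pow]
  have hT₀int : IsIntegral (Algebra.adjoin A₀ {algebraMap F L u}) T₀ :=
    wk_isIntegral_of_prod hp.pos
      (fun k => sL * algebraMap A₀ L (∑ i ∈ Finset.range k, ζ ^ i)) (algebraMap F L β) T₀
      (fun k => hsLint.mul (wk_isIntegral_const _ _)) (ks_isIntegral hβ) hprod
  refine ⟨ksClosureMap (A₀ := A₀) (L := L) u s, ⟨T₀, mem_zchClosure.mpr hT₀int⟩, ?_, ?_⟩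
  · intro hmem
    exact hs (hle (Ideal.mem_comap.mpr hmem))
  · have e2 : sL * z - T₀ = algebraMap F L x * y := by
      have h4 : algebraMap A₀ L (ζ - 1) * (sL * z - T₀) =
          algebraMap A₀ L (ζ - 1) * (algebraMap F L x * y) := by
        have h5 : sL - gL = algebraMap A₀ L (ζ - 1) * algebraMap F L x := by
          rw [hsL, hgL, ← map_sub, hsg, map_mul, ks_algebraMap_comm]
        rw [hlamL] at h5 hz ⊢
        linear_combination sL * hz - hT₀lam + y * h5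
      exact mul_left_cancel₀ hlam0 h4
    change EIPiLoc huLt hπ (sL * z - T₀)
    rw [e2]
    exact (ks_piLoc hu hπ hx).mul_right _ hπ hyloc

end Transport

section Main

variable {A₀ E F : Type*} [CommRing A₀] [IsDomain A₀] [IsDiscreteValuationRing A₀]
  [Field E] [Algebra A₀ E] [IsFractionRing A₀ E] [CharZero E]
  [Field F] [Algebra E F] [Algebra A₀ F] [IsScalarTower A₀ E F]
  {π : A₀} {t : F}

/-- **Wild Kummer glue** (S33 C4, T1 = W6).  In the chart setting for `F`, with `p` a prime,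
`π ∣ p`, `ζ ∈ A₀` a primitive `p`-th root of unity, `lam := ζ − 1 ∈ π A₀`: a function `w ∈ F^×`
with `w ≡ 1 mod lam ^ p π` on the special fibre (`hG`) and with the wild local shape `WKLocal` at
every closed point of the special fibre of both charts is a constant times a `p`-th power. -/
theorem wk_main_gen (hπ : Irreducible π) (ht : Transcendental E t)
    [FiniteDimensional (IntermediateField.adjoin E {t}) F]
    (hcl : ∀ x : F, IsAlgebraic E x → x ∈ (algebraMap E F).range)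
    {p : ℕ} (hp : p.Prime) (hpπ : π ∣ (p : A₀)) {ζ : A₀} (hζ : IsPrimitiveRoot ζ p)
    (hlam : π ∣ ζ - 1)
    {w : F} (hw : w ≠ 0)
    (hG : ∃ x : F, EIPiLoc ht hπ x ∧ w - 1 = algebraMap A₀ F (ζ - 1) ^ p * x)
    (hL₁ : WKLocal ht hπ p (ζ - 1) w)
    (hL₂ : WKLocal (zch_transcendental_inv ht) hπ p (ζ - 1) w) :
    ∃ c : E, c ≠ 0 ∧ ∃ h : F, w = algebraMap E F c * h ^ p := by
  classical
  by_cases hirr : Irreducible (X ^ p - C w : F[X])
  swap
  · rw [X_pow_sub_C_irreducible_iff_of_prime hp] at hirr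
    simp only [not_forall, not_not] at hirr
    obtain ⟨b, hb⟩ := hirr
    exact ⟨1, one_ne_zero, b, by rw [map_one, one_mul, hb]⟩
  haveI : Fact (Irreducible (X ^ p - C w : F[X])) := ⟨hirr⟩
  have hy : AdjoinRoot.root (X ^ p - C w : F[X]) ^ p
      = algebraMap F (AdjoinRoot (X ^ p - C w : F[X])) w := by
    rw [root_X_pow_sub_C_pow, AdjoinRoot.algebraMap_eq]
  -- the inverse root of unity
  have hcop : Nat.Coprime (p - 1) p := by
    refine ((Nat.Prime.coprime_iff_not_dvd hp).mpr fun h => ?_).symm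
    have h1 := Nat.le_of_dvd (by have := hp.two_le; omega) h
    have := hp.two_le
    omega
  have hζ' : IsPrimitiveRoot (ζ ^ (p - 1)) p := hζ.pow_of_coprime (p - 1) hcop
  have hζζ' : ζ * ζ ^ (p - 1) = 1 := by
    rw [← pow_succ', Nat.sub_add_cancel hp.one_le, hζ.pow_eq_one]
  have hζE : IsPrimitiveRoot (algebraMap A₀ E (ζ ^ (p - 1))) p :=
    hζ'.map_of_injective (IsFractionRing.injective A₀ E)
  have hζF : IsPrimitiveRoot (algebraMap E F (algebraMap A₀ E (ζ ^ (p - 1)))) p :=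
    hζE.map_of_injective (algebraMap E F).injective
  -- the Kummer automorphism `y ↦ ζ⁻¹ y`
  have hρwd : (X ^ p - C w : F[X]).eval₂ (Algebra.ofId F (AdjoinRoot (X ^ p - C w : F[X])))
      (algebraMap F (AdjoinRoot (X ^ p - C w : F[X]))
          (algebraMap E F (algebraMap A₀ E (ζ ^ (p - 1)))) *
        AdjoinRoot.root (X ^ p - C w : F[X])) = 0 := by
    rw [eval₂_sub, eval₂_pow, eval₂_X, eval₂_C, mul_pow, hy, ← map_pow, hζF.pow_eq_one, map_one,
      one_mul]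
    exact sub_self _
  set ρ : AdjoinRoot (X ^ p - C w : F[X]) →ₐ[F] AdjoinRoot (X ^ p - C w : F[X]) :=
    AdjoinRoot.liftAlgHom (X ^ p - C w : F[X])
      (Algebra.ofId F (AdjoinRoot (X ^ p - C w : F[X])))
      (algebraMap F (AdjoinRoot (X ^ p - C w : F[X]))
          (algebraMap E F (algebraMap A₀ E (ζ ^ (p - 1)))) *
        AdjoinRoot.root (X ^ p - C w : F[X])) hρwd with hρdef
  have hρ : ρ (AdjoinRoot.root (X ^ p - C w : F[X]))
      = algebraMap E (AdjoinRoot (X ^ p - C w : F[X])) (algebraMap A₀ E (ζ ^ (p - 1))) *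
        AdjoinRoot.root (X ^ p - C w : F[X]) := by
    rw [hρdef, AdjoinRoot.liftAlgHom_root, ← IsScalarTower.algebraMap_apply]
  rcases ks_dichotomy hcl hp hζE hw hy (ks_gen hp.pos w) ρ hρ with hclL | hres
  swap
  · exact hres
  exfalso
  haveI : FiniteDimensional F (AdjoinRoot (X ^ p - C w : F[X])) :=
    (AdjoinRoot.powerBasis hirr.ne_zero).finite
  haveI := ks_finiteDimensional (E := E) (L := AdjoinRoot (X ^ p - C w : F[X])) t
  have htL := ks_transcendental (L := AdjoinRoot (X ^ p - C w : F[X])) ht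
  have hinjA : Function.Injective (algebraMap A₀ (AdjoinRoot (X ^ p - C w : F[X]))) :=
    zch_algebraMap_injective (A₀ := A₀) (E := E)
  have hlam0 : algebraMap A₀ (AdjoinRoot (X ^ p - C w : F[X])) (ζ - 1) ≠ 0 := by
    rw [Ne, map_eq_zero_iff _ hinjA, sub_eq_zero]
    exact hζ.ne_one hp.one_lt
  have hρA : ∀ a : A₀, ρ (algebraMap A₀ (AdjoinRoot (X ^ p - C w : F[X])) a)
      = algebraMap A₀ (AdjoinRoot (X ^ p - C w : F[X])) a := by
    intro a
    rw [IsScalarTower.algebraMap_apply A₀ F (AdjoinRoot (X ^ p - C w : F[X])), AlgHom.commutes]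
  -- the Artin–Schreier coordinate
  set y : AdjoinRoot (X ^ p - C w : F[X]) := AdjoinRoot.root (X ^ p - C w : F[X]) with hydef
  set z : AdjoinRoot (X ^ p - C w : F[X]) :=
    (algebraMap A₀ (AdjoinRoot (X ^ p - C w : F[X])) (ζ - 1))⁻¹ * (y - 1) with hzdef
  have hz : algebraMap A₀ (AdjoinRoot (X ^ p - C w : F[X])) (ζ - 1) * z = y - 1 := by
    rw [hzdef, mul_inv_cancel_left₀ hlam0]
  obtain ⟨x, hx, hwx⟩ := hG
  have hxL := ks_piLoc (L := AdjoinRoot (X ^ p - C w : F[X])) ht hπ hx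
  have hyx : y ^ p - 1 = algebraMap A₀ (AdjoinRoot (X ^ p - C w : F[X])) (ζ - 1) ^ p *
      algebraMap F (AdjoinRoot (X ^ p - C w : F[X])) x := by
    rw [hy, ← map_one (algebraMap F (AdjoinRoot (X ^ p - C w : F[X]))), ← map_sub, hwx, map_mul,
      map_pow, ks_algebraMap_comm]
  obtain ⟨hzloc, hz1⟩ := wk_artinSchreier htL hπ hp hpπ hζ hlam hz hxL hyx
  have hyloc : y ∈ eiLoc htL hπ := by
    have e : y = 1 + algebraMap A₀ (AdjoinRoot (X ^ p - C w : F[X])) (ζ - 1) * z := by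
      rw [hz]; ring
    rw [e]
    exact add_mem (one_mem _) (mul_mem (eiLoc_algebraMap htL hπ _) hzloc)
  have hyloc' : y ∈ eiLoc (zch_transcendental_inv htL) hπ := by
    rw [eiLoc_inv_eq htL hπ]
    exact hyloc
  refine wi_false_of_aut hπ htL hclL hp hpπ hzloc hz1 ?_ ?_ ρ.toRingHom hρA ?_ ?_
  · exact wk_local ht hπ hp hζ hL₁ hy hz rfl htL hyloc
  · exact wk_local (zch_transcendental_inv ht) hπ hp hζ hL₂ hy hz (map_inv₀ _ t)
      (zch_transcendental_inv htL) hyloc'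
  · change ρ (algebraMap F (AdjoinRoot (X ^ p - C w : F[X])) t) = _
    rw [AlgHom.commutes]
  · -- `ρ z − z + 1 = lam ζ⁻¹ (1 − z)`
    change EIPiLoc htL hπ (ρ z - z + 1)
    have hρy : ρ y = algebraMap A₀ (AdjoinRoot (X ^ p - C w : F[X])) (ζ ^ (p - 1)) * y := by
      rw [hydef, hρ, ← IsScalarTower.algebraMap_apply]
    have hρz : algebraMap A₀ (AdjoinRoot (X ^ p - C w : F[X])) (ζ - 1) * ρ z
        = algebraMap A₀ (AdjoinRoot (X ^ p - C w : F[X])) (ζ ^ (p - 1)) * y - 1 := by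
      have := congrArg ρ hz
      rwa [map_mul, hρA, map_sub ρ, map_one ρ, hρy] at this
    have h1 : algebraMap A₀ (AdjoinRoot (X ^ p - C w : F[X])) ζ *
        algebraMap A₀ (AdjoinRoot (X ^ p - C w : F[X])) (ζ ^ (p - 1)) = 1 := by
      rw [← map_mul, hζζ', map_one]
    have hlamL : algebraMap A₀ (AdjoinRoot (X ^ p - C w : F[X])) (ζ - 1)
        = algebraMap A₀ (AdjoinRoot (X ^ p - C w : F[X])) ζ - 1 := by
      rw [map_sub, map_one]
    have e : ρ z - z + 1 = algebraMap A₀ (AdjoinRoot (X ^ p - C w : F[X]))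
        ((ζ - 1) * ζ ^ (p - 1)) * (1 - z) := by
      apply mul_left_cancel₀ hlam0
      rw [map_mul (algebraMap A₀ (AdjoinRoot (X ^ p - C w : F[X]))) (ζ - 1)]
      rw [hlamL] at hz hρz ⊢
      linear_combination hρz - hz +
        (algebraMap A₀ (AdjoinRoot (X ^ p - C w : F[X])) ζ - 1) *
          algebraMap A₀ (AdjoinRoot (X ^ p - C w : F[X])) (ζ ^ (p - 1)) * hz +
        (y - algebraMap A₀ (AdjoinRoot (X ^ p - C w : F[X])) ζ + 1) * h1
    rw [e]
    exact (wk_piLoc_const htL hπ (Dvd.dvd.mul_right hlam _)).mul_right _ hπ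
      (sub_mem (one_mem _) hzloc)

end Main

end Fermat.Agent.S33


end ZBS33_003_3

/-! ### bundled: `Fermat.Agent.S33.WildAdapter` -/
section ZBS33_003_4

/-!
# S33 v2, C4 (WILD): the adapter "wild shape ⇒ wild Kummer glue"  (abstract theorem (T′)-wild)

Wild twin of `UNIP/Adapter.lean` (`ad_ksLocal_point`, `ad_ksLocal'`, `ad_hP`) and of
`UNIP.at_hP`.  Chart setting for `F / E(t)` over the DVR `A₀` (uniformizer `π`, `π ∣ p`,
`ζ ∈ A₀` a primitive `p`-th root of unity, `lam = ζ − 1 ∈ π A₀`), `V c` the vertical valuation rings.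

* `WkShape V O inc p lam w` : the **wild local shape**:
  (G) `w − 1 = lam ^ p · x` with `x ∈ 𝔪(V c)` for all `c`;
  (L) at every point `i`: `w = ε · γ ^ p` with `ε − 1 = lam ^ p · r`, `r ∈ O i`, and
      `γ − 1 = lam · x`, `x ∈ 𝔪(V c)` for the components `c` through `i`.
* `wka_local_point` : the adapter at one closed point of a chart.
* `wka_local`       : `WkShape ⇒ WKLocal` at the chart `u`.
* `wka_hP`          : **(T′)-wild**: `WkShape ⇒ w ∈ E^× · F^{× p}`.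
* `wka_hP_at`       : the same for the canonical points `ι = AtPt π t ⊕ AtPt π t⁻¹`,
  `O = atO π t`, `inc = atInc π t V` of `UNIP/AbstractT.lean`.
-/

set_option autoImplicit false
set_option linter.unusedSectionVars false
set_option linter.unusedVariables false
set_option linter.style.haveILetI false

namespace Fermat.Agent.S33

open Polynomial IntermediateField Fermat.Agent.INJ Fermat.Agent.UNIP

section Shape

variable {F : Type*} [Field F] {ι κ : Type*}

/-- The **wild local shape** of `w` for the prime `p` and the depth parameter `lam = ζ − 1`: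
`w ≡ 1 mod lam ^ p 𝔪` at every vertical valuation, and at every closed point `w = ε · γ ^ p` with
`ε ≡ 1 mod lam ^ p O i` and `γ ≡ 1 mod lam 𝔪` at the vertical valuations through the point. -/
def WkShape (V : κ → ValuationSubring F) (O : ι → Subring F) (inc : ι → κ → Prop)
    (p : ℕ) (lam w : F) : Prop :=
  (∃ x : F, (∀ c, x ∈ (V c).nonunits) ∧ w - 1 = lam ^ p * x) ∧
    ∀ i, ∃ ε γ r : F, r ∈ O i ∧ ε - 1 = lam ^ p * r ∧
      (∀ c, inc i c → ∃ x ∈ (V c).nonunits, γ - 1 = lam * x) ∧ w = ε * γ ^ p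

end Shape

section Adapter

variable {A₀ E F : Type*} [CommRing A₀] [IsDomain A₀] [IsDiscreteValuationRing A₀]
  [Field E] [Algebra A₀ E] [IsFractionRing A₀ E] [CharZero E]
  [Field F] [Algebra E F] [Algebra A₀ F] [IsScalarTower A₀ E F]
  {π : A₀} {u : F} {κ ι : Type*}

/-- **WILD ADAPTER at one closed point.**  `𝔫` a prime of the chart `B_u`, `thr c` = "the
component `c` passes through `𝔫`"; for the other components there is `b ∈ B_u ∖ 𝔫` vanishing on
`c`.  A datum `w = ε · γ ^ p` with `ε − 1 = lam ^ p r`, `r ∈ B_𝔫`, and `γ ≡ 1 mod lam 𝔪(V c)` at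
the components through `𝔫` gives the data of `WKLocal` at `𝔫`. -/
theorem wka_local_point (hu : Transcendental E u) (hπ : Irreducible π)
    [Finite κ] (V : κ → ValuationSubring F)
    (hBV : ∀ c (b : F), IsIntegral ↥(Algebra.adjoin A₀ {u}) b → b ∈ V c)
    (hdict : ∀ x : F, (∀ c, x ∈ (V c).nonunits) → EIPiLoc hu hπ x)
    (harch : ∀ c (a x : F), a ∈ (V c).nonunits → ∃ N : ℕ, a ^ N * x ∈ (V c).nonunits)
    (𝔫 : Ideal ↥(zchClosure (A₀ := A₀) ({u} : Set F))) [h𝔫 : 𝔫.IsPrime]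
    (thr : κ → Prop)
    (hthr : ∀ c, ¬ thr c →
      ∃ b : ↥(zchClosure (A₀ := A₀) ({u} : Set F)), b ∉ 𝔫 ∧ (b : F) ∈ (V c).nonunits)
    {p : ℕ} (hp : 0 < p) {lam : A₀} (hlam : lam ≠ 0) {w ε γ r : F} (hγ0 : γ ≠ 0)
    (hε : ε - 1 = algebraMap A₀ F lam ^ p * r)
    (hr : ∃ b s₁ : ↥(zchClosure (A₀ := A₀) ({u} : Set F)), s₁ ∉ 𝔫 ∧ (s₁ : F) * r = b)
    (hγ : ∀ c, thr c → ∃ x ∈ (V c).nonunits, γ - 1 = algebraMap A₀ F lam * x)
    (hw : w = ε * γ ^ p) :
    ∃ s : ↥(zchClosure (A₀ := A₀) ({u} : Set F)), s ∉ 𝔫 ∧ ∃ g β x : F,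
      g ^ p * w - (s : F) ^ p = algebraMap A₀ F lam ^ p * β ∧
      IsIntegral (Algebra.adjoin A₀ {u}) β ∧
      EIPiLoc hu hπ x ∧ (s : F) - g = algebraMap A₀ F lam * x := by
  classical
  haveI : Fintype κ := Fintype.ofFinite κ
  obtain ⟨b, s₁, hs₁, hsb⟩ := hr
  have hinj : Function.Injective (algebraMap A₀ F) :=
    zch_algebraMap_injective (A₀ := A₀) (E := E)
  have hlamF : algebraMap A₀ F lam ≠ 0 := by
    rwa [Ne, map_eq_zero_iff _ hinj]
  have hlamV : ∀ c, algebraMap A₀ F lam ∈ V c := fun c =>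
    hBV c _ (wk_isIntegral_const u lam)
  have h1𝔫 : (1 : ↥(zchClosure (A₀ := A₀) ({u} : Set F))) ∉ 𝔫 := fun h =>
    h𝔫.ne_top ((Ideal.eq_top_iff_one 𝔫).mpr h)
  -- the multipliers
  have hmult : ∀ c, ∃ bc : ↥(zchClosure (A₀ := A₀) ({u} : Set F)), bc ∉ 𝔫 ∧
      (bc : F) * ((γ - 1) / (algebraMap A₀ F lam * γ)) ∈ (V c).nonunits := by
    intro c
    by_cases hc : thr c
    · refine ⟨1, h1𝔫, ?_⟩
      obtain ⟨x, hx, hγx⟩ := hγ c hc
      have h1 : γ - 1 ∈ (V c).nonunits := by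
        rw [hγx]
        exact pwi_mul_mem_nonunits (V c) (hlamV c) hx
      have h2 : (V c).valuation γ = 1 := pwi_val_eq_one (V c) h1
      have e : (γ - 1) / (algebraMap A₀ F lam * γ) = x / γ := by
        rw [hγx]
        field_simp
      rw [e]
      rw [ValuationSubring.mem_nonunits_iff] at hx ⊢
      push_cast
      rw [one_mul, map_div₀, h2, div_one]
      exact hx
    · obtain ⟨b', hb', hb'V⟩ := hthr c hc
      obtain ⟨N, hN⟩ := harch c (b' : F) ((γ - 1) / (algebraMap A₀ F lam * γ)) hb'V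
      refine ⟨b' ^ N, fun h => hb' (h𝔫.mem_of_pow_mem N h), ?_⟩
      push_cast
      exact hN
  choose bc hbc hbcV using hmult
  set b₀ : ↥(zchClosure (A₀ := A₀) ({u} : Set F)) := ∏ c, bc c with hb₀
  have hb₀𝔫 : b₀ ∉ 𝔫 := by
    intro h
    obtain ⟨c, -, hc⟩ := (Ideal.IsPrime.prod_mem_iff).mp h
    exact hbc c hc
  have hmemV : ∀ (x : ↥(zchClosure (A₀ := A₀) ({u} : Set F))) (c : κ), (x : F) ∈ V c :=
    fun x c => hBV c _ (mem_zchClosure.mp x.2)
  refine ⟨b₀ * s₁, fun h => ?_, ((b₀ * s₁ : ↥(zchClosure (A₀ := A₀) ({u} : Set F))) : F) / γ,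
    ((b₀ ^ p * s₁ ^ (p - 1) * b : ↥(zchClosure (A₀ := A₀) ({u} : Set F))) : F),
    ((b₀ * s₁ : ↥(zchClosure (A₀ := A₀) ({u} : Set F))) : F) *
      ((γ - 1) / (algebraMap A₀ F lam * γ)), ?_, ?_, ?_, ?_⟩
  · rcases h𝔫.mem_or_mem h with h' | h'
    · exact hb₀𝔫 h'
    · exact hs₁ h'
  · -- `g ^ p * w − s ^ p = lam ^ p * (b₀ ^ p * s₁ ^ (p - 1) * b)`
    have h2 : (s₁ : F) ^ p = (s₁ : F) ^ (p - 1) * (s₁ : F) := by
      rw [← pow_succ, Nat.sub_add_cancel hp]
    have h3 : ε = 1 + algebraMap A₀ F lam ^ p * r := by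
      rw [← hε]; ring
    push_cast
    rw [hw, div_pow, mul_pow, h2, ← hsb, h3]
    field_simp
    ring
  · exact mem_zchClosure.mp (b₀ ^ p * s₁ ^ (p - 1) * b).2
  · apply hdict
    intro c
    have e : ((b₀ * s₁ : ↥(zchClosure (A₀ := A₀) ({u} : Set F))) : F) *
          ((γ - 1) / (algebraMap A₀ F lam * γ))
        = ((s₁ * ∏ c' ∈ Finset.univ.erase c, bc c' :
            ↥(zchClosure (A₀ := A₀) ({u} : Set F))) : F) *
          ((bc c : F) * ((γ - 1) / (algebraMap A₀ F lam * γ))) := by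
      have hprod : b₀ = bc c * ∏ c' ∈ Finset.univ.erase c, bc c' := by
        rw [hb₀, Finset.mul_prod_erase _ _ (Finset.mem_univ c)]
      rw [hprod]
      push_cast
      ring
    rw [e]
    exact pwi_mul_mem_nonunits (V c) (hmemV _ c) (hbcV c)
  · field_simp

/-- **WILD ADAPTER** `WkShape ⇒ WKLocal` at the chart `u`.  `hcov`: every maximal ideal `𝔫 ∋ π`
of `B_u` is a point `i` of the shape, with `O i ⊆ B_𝔫`, and every component `c` with `¬ inc i c`
carries some `b ∈ B_u ∖ 𝔫` vanishing on `c`. -/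
theorem wka_local (hu : Transcendental E u) (hπ : Irreducible π)
    [Finite κ] (V : κ → ValuationSubring F) (O : ι → Subring F) (inc : ι → κ → Prop)
    (hBV : ∀ c (b : F), IsIntegral ↥(Algebra.adjoin A₀ {u}) b → b ∈ V c)
    (hdict : ∀ x : F, (∀ c, x ∈ (V c).nonunits) → EIPiLoc hu hπ x)
    (harch : ∀ c (a x : F), a ∈ (V c).nonunits → ∃ N : ℕ, a ^ N * x ∈ (V c).nonunits)
    (hcov : ∀ 𝔫 : Ideal ↥(zchClosure (A₀ := A₀) ({u} : Set F)), 𝔫.IsMaximal →
      algebraMap A₀ ↥(zchClosure (A₀ := A₀) ({u} : Set F)) π ∈ 𝔫 → ∃ i : ι,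
        (∀ x ∈ O i, ∃ b s : ↥(zchClosure (A₀ := A₀) ({u} : Set F)), s ∉ 𝔫 ∧ (s : F) * x = b) ∧
        (∀ c, ¬ inc i c →
          ∃ b : ↥(zchClosure (A₀ := A₀) ({u} : Set F)), b ∉ 𝔫 ∧ (b : F) ∈ (V c).nonunits))
    {p : ℕ} (hp : 0 < p) {lam : A₀} (hlam : lam ≠ 0) {w : F} (hw0 : w ≠ 0)
    (hw : WkShape V O inc p (algebraMap A₀ F lam) w) :
    WKLocal hu hπ p lam w := by
  intro 𝔫 h𝔫 hπ𝔫
  haveI := h𝔫.isPrime
  obtain ⟨i, hOi, hinc⟩ := hcov 𝔫 h𝔫 hπ𝔫
  obtain ⟨ε, γ, r, hr, hε, hγ, hwε⟩ := hw.2 i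
  have hγ0 : γ ≠ 0 := by
    rintro rfl
    rw [zero_pow hp.ne', mul_zero] at hwε
    exact hw0 hwε
  exact wka_local_point hu hπ V hBV hdict harch 𝔫 (inc i) hinc hp hlam hγ0 hε (hOi r hr) hγ hwε

/-- **(T′)-wild.**  In the chart setting for `F` (charts `t`, `t⁻¹`), under the dictionary
hypotheses, every `w ≠ 0` of wild shape is a constant times a `p`-th power. -/
theorem wka_hP (hπ : Irreducible π) {t : F} (ht : Transcendental E t)
    [FiniteDimensional E⟮t⟯ F]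
    (hcl : ∀ x : F, IsAlgebraic E x → x ∈ (algebraMap E F).range)
    {p : ℕ} (hp : p.Prime) (hpπ : π ∣ (p : A₀)) {ζ : A₀} (hζ : IsPrimitiveRoot ζ p)
    (hlam : π ∣ ζ - 1)
    [Finite κ] (V : κ → ValuationSubring F) (O : ι → Subring F) (inc : ι → κ → Prop)
    (hBV₁ : ∀ c (b : F), IsIntegral ↥(Algebra.adjoin A₀ {t}) b → b ∈ V c)
    (hBV₂ : ∀ c (b : F), IsIntegral ↥(Algebra.adjoin A₀ {t⁻¹}) b → b ∈ V c)
    (hSS1 : ∀ b : F, IsIntegral ↥(Algebra.adjoin A₀ {t}) b → (∀ c, b ∈ (V c).nonunits) →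
      ∃ b' : F, IsIntegral ↥(Algebra.adjoin A₀ {t}) b' ∧ b = algebraMap A₀ F π * b')
    (harch : ∀ c (a x : F), a ∈ (V c).nonunits → ∃ N : ℕ, a ^ N * x ∈ (V c).nonunits)
    (hcov₁ : ∀ 𝔫 : Ideal ↥(zchClosure (A₀ := A₀) ({t} : Set F)), 𝔫.IsMaximal →
      algebraMap A₀ ↥(zchClosure (A₀ := A₀) ({t} : Set F)) π ∈ 𝔫 → ∃ i : ι,
        (∀ x ∈ O i, ∃ b s : ↥(zchClosure (A₀ := A₀) ({t} : Set F)), s ∉ 𝔫 ∧ (s : F) * x = b) ∧
        (∀ c, ¬ inc i c →
          ∃ b : ↥(zchClosure (A₀ := A₀) ({t} : Set F)), b ∉ 𝔫 ∧ (b : F) ∈ (V c).nonunits))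
    (hcov₂ : ∀ 𝔫 : Ideal ↥(zchClosure (A₀ := A₀) ({t⁻¹} : Set F)), 𝔫.IsMaximal →
      algebraMap A₀ ↥(zchClosure (A₀ := A₀) ({t⁻¹} : Set F)) π ∈ 𝔫 → ∃ i : ι,
        (∀ x ∈ O i, ∃ b s : ↥(zchClosure (A₀ := A₀) ({t⁻¹} : Set F)), s ∉ 𝔫 ∧ (s : F) * x = b) ∧
        (∀ c, ¬ inc i c →
          ∃ b : ↥(zchClosure (A₀ := A₀) ({t⁻¹} : Set F)), b ∉ 𝔫 ∧ (b : F) ∈ (V c).nonunits))
    {w : F} (hw0 : w ≠ 0) (hw : WkShape V O inc p (algebraMap A₀ F (ζ - 1)) w) :
    ∃ c : E, c ≠ 0 ∧ ∃ h : F, w = algebraMap E F c * h ^ p := by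
  have hdict₁ : ∀ x : F, (∀ c, x ∈ (V c).nonunits) → EIPiLoc ht hπ x := fun x hx =>
    ad_piLoc_of_vertical ht hπ V hBV₁ hSS1 hx
  have hdict₂ : ∀ x : F, (∀ c, x ∈ (V c).nonunits) →
      EIPiLoc (zch_transcendental_inv ht) hπ x := fun x hx =>
    (eiPiLoc_inv_iff ht hπ).mpr (hdict₁ x hx)
  have hlam0 : ζ - 1 ≠ 0 := sub_ne_zero.mpr (hζ.ne_one hp.one_lt)
  obtain ⟨x, hx, hwx⟩ := hw.1
  exact wk_main_gen hπ ht hcl hp hpπ hζ hlam hw0 ⟨x, hdict₁ x hx, hwx⟩
    (wka_local ht hπ V O inc hBV₁ hdict₁ harch hcov₁ hp.pos hlam0 hw0 hw)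
    (wka_local (zch_transcendental_inv ht) hπ V O inc hBV₂ hdict₂ harch hcov₂ hp.pos hlam0 hw0 hw)

/-- **(T′)-wild at the canonical points** `ι = AtPt π t ⊕ AtPt π t⁻¹`, `O = atO π t` (the local
rings of the closed points of the special fibre of the two charts), `inc = atInc π t V`. -/
theorem wka_hP_at (hπ : Irreducible π) {t : F} (ht : Transcendental E t)
    [FiniteDimensional E⟮t⟯ F]
    (hcl : ∀ x : F, IsAlgebraic E x → x ∈ (algebraMap E F).range)
    {p : ℕ} (hp : p.Prime) (hpπ : π ∣ (p : A₀)) {ζ : A₀} (hζ : IsPrimitiveRoot ζ p)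
    (hlam : π ∣ ζ - 1)
    [Finite κ] (V : κ → ValuationSubring F)
    (hBV₁ : ∀ c (b : F), IsIntegral ↥(Algebra.adjoin A₀ {t}) b → b ∈ V c)
    (hBV₂ : ∀ c (b : F), IsIntegral ↥(Algebra.adjoin A₀ {t⁻¹}) b → b ∈ V c)
    (hSS1 : ∀ b : F, IsIntegral ↥(Algebra.adjoin A₀ {t}) b → (∀ c, b ∈ (V c).nonunits) →
      ∃ b' : F, IsIntegral ↥(Algebra.adjoin A₀ {t}) b' ∧ b = algebraMap A₀ F π * b')
    (harch : ∀ c (a x : F), a ∈ (V c).nonunits → ∃ N : ℕ, a ^ N * x ∈ (V c).nonunits)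
    {w : F} (hw0 : w ≠ 0)
    (hw : WkShape V (atO π t) (atInc π t V) p (algebraMap A₀ F (ζ - 1)) w) :
    ∃ c : E, c ≠ 0 ∧ ∃ h : F, w = algebraMap E F c * h ^ p := by
  refine wka_hP hπ ht hcl hp hpπ hζ hlam V (atO π t) (atInc π t V) hBV₁ hBV₂ hSS1 harch ?_ ?_
    hw0 hw
  · intro 𝔫 h𝔫 hπ𝔫
    refine ⟨Sum.inl ⟨𝔫, h𝔫, hπ𝔫⟩, fun x hx => ?_, fun c hc => ats_cov (V c) 𝔫 hc⟩
    obtain ⟨b, s, hs, hsx⟩ := hx
    exact ⟨b, s, hs, hsx⟩
  · intro 𝔫 h𝔫 hπ𝔫
    refine ⟨Sum.inr ⟨𝔫, h𝔫, hπ𝔫⟩, fun x hx => ?_, fun c hc => ats_cov (V c) 𝔫 hc⟩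
    obtain ⟨b, s, hs, hsx⟩ := hx
    exact ⟨b, s, hs, hsx⟩

end Adapter

end Fermat.Agent.S33


end ZBS33_003_4
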