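/- GENERATED FILE (helper35, build-time optimisation, NOTES/ZB.md): verbatim concatenation of the modules
   Fermat.Agent.S05.TropNP
   Fermat.Agent.S05.TropDefs
   Fermat.Agent.S05.TropQP
   Fermat.Agent.S05.TropDup
   Fermat.Agent.S05.TropQPDup
   Fermat.Agent.S05.TropInd
   Fermat.Agent.S05.Tropical
   Fermat.Agent.R38.EPM.LiftPt
   Do not edit; do not import together with these modules. -/
import Mathlib
import Fermat.Agent.ZB.S05_002
import Fermat.Agent.ZB.S05_005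
import Fermat.Agent.ZB.EC_007

/-! ### bundled: `Fermat.Agent.S05.TropNP` -/
section ZBS05_004_0
/-
S05, tropical step (helper5): Newton-polygon lemmas for a quadratic and the interior-interior
case of the quasi-parallelogram law. Pure valuation theory, no curves.
-/

set_option autoImplicit false

namespace Fermat.Agent.S05

section Val

variable {K : Type*} [Field K] {Γ₀ : Type*} [LinearOrderedCommGroupWithZero Γ₀]
  (v : Valuation K Γ₀)

/-- Newton polygon, balanced case. -/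
lemma np_balanced {s t : K} (h : v (s + t) ^ 2 ≤ v (s * t)) : v s = v t := by
  by_contra hne
  rcases lt_or_gt_of_ne hne with hlt | hlt
  · have h1 : v (s + t) = v t := Valuation.map_add_eq_of_lt_right v hlt
    have ht0 : 0 < v t := lt_of_le_of_lt zero_le hlt
    have : v (s * t) < v (s + t) ^ 2 := by
      rw [h1, map_mul, sq]
      exact mul_lt_mul_of_pos_right hlt ht0
    exact absurd h (not_le.mpr this)
  · have h1 : v (s + t) = v s := Valuation.map_add_eq_of_lt_left v hlt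
    have hs0 : 0 < v s := lt_of_le_of_lt zero_le hlt
    have : v (s * t) < v (s + t) ^ 2 := by
      rw [h1, map_mul, sq, mul_comm (v s) (v t)]
      exact mul_lt_mul_of_pos_right hlt hs0
    exact absurd h (not_le.mpr this)

/-- Newton polygon, unbalanced case. -/
lemma np_unbalanced {s t : K} (h : v (s * t) < v (s + t) ^ 2) :
    (v s = v (s + t) ∧ v t * v (s + t) = v (s * t)) ∨
    (v t = v (s + t) ∧ v s * v (s + t) = v (s * t)) := by
  rcases lt_trichotomy (v s) (v t) with hlt | heq | hlt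
  · right
    have h1 : v (s + t) = v t := Valuation.map_add_eq_of_lt_right v hlt
    exact ⟨h1.symm, by rw [h1, map_mul]⟩
  · exfalso
    have h1 : v (s + t) ≤ v s := by
      refine Valuation.map_add_le v le_rfl (le_of_eq heq.symm)
    have : v (s + t) ^ 2 ≤ v (s * t) := by
      rw [map_mul, sq]
      exact mul_le_mul' h1 (heq ▸ h1)
    exact absurd h (not_lt.mpr this)
  · left
    have h1 : v (s + t) = v s := Valuation.map_add_eq_of_lt_left v hlt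
    exact ⟨h1.symm, by rw [h1, map_mul, mul_comm]⟩

variable {e₂ e₃ X₁ X₂ Xs Xd : K}

/-- Both points in the interior region: the cancellation case. -/
theorem trop_int_int (h2 : v 2 = 1) (he₃ : v e₃ = 1) (he₂0 : e₂ ≠ 0) (hne : X₁ ≠ X₂)
    (hS : (Xs + Xd) * (X₁ - X₂) ^ 2 =
      2 * ((X₁ + X₂) * (X₁ * X₂ + e₂ * e₃) - 2 * (e₂ + e₃) * (X₁ * X₂)))
    (hP : Xs * Xd * (X₁ - X₂) ^ 2 = (X₁ * X₂ - e₂ * e₃) ^ 2)
    (h₁l : v e₂ < v X₁) (h₁u : v X₁ < 1) (h₂l : v e₂ < v X₂) (h₂u : v X₂ < 1) :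
    ∃ A B : Γ₀, ((v Xs = A ∧ v Xd = B) ∨ (v Xs = B ∧ v Xd = A)) ∧
      A * v (X₁ - X₂) ^ 2 = v X₁ * v X₂ ∧
      B * (v X₁ * v X₂) = v (X₁ * X₂ - e₂ * e₃) ^ 2 := by
  set a := v X₁ with ha
  set b := v X₂ with hb
  set ε := v e₂ with hε
  have hε0 : 0 < ε := by rw [hε]; exact zero_lt_iff.mpr ((Valuation.ne_zero_iff v).mpr he₂0)
  have ha0 : 0 < a := lt_trans hε0 h₁l
  have hb0 : 0 < b := lt_trans hε0 h₂l
  have hab0 : 0 < a * b := mul_pos ha0 hb0
  have hD0 : X₁ - X₂ ≠ 0 := sub_ne_zero.mpr hne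
  set δ := v (X₁ - X₂) with hδ
  have hδ0 : 0 < δ := by rw [hδ]; exact zero_lt_iff.mpr ((Valuation.ne_zero_iff v).mpr hD0)
  -- `max a b < 1`, and `ε < a`, `ε < b`
  have hδle : δ ≤ max a b := Valuation.map_sub v X₁ X₂
  have hMlt : max a b < 1 := max_lt h₁u h₂u
  have hsum : v (X₁ + X₂) ≤ max a b := Valuation.map_add v X₁ X₂
  -- key bound: `max a b * max (a*b) ε < a * b`
  have key : max a b * max (a * b) ε < a * b := by
    rcases le_total a b with hle | hle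
    · rw [max_eq_right hle]
      rcases le_total (a * b) ε with h' | h'
      · rw [max_eq_right h', mul_comm]
        exact mul_lt_mul_of_pos_right h₁l hb0
      · rw [max_eq_left h']
        calc b * (a * b) < 1 * (a * b) := mul_lt_mul_of_pos_right h₂u hab0
          _ = a * b := one_mul _
    · rw [max_eq_left hle]
      rcases le_total (a * b) ε with h' | h'
      · rw [max_eq_right h']
        calc a * ε < a * b := by
              rw [mul_comm a ε, mul_comm a b]; exact mul_lt_mul_of_pos_right h₂l ha0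
          _ = a * b := rfl
      · rw [max_eq_left h']
        calc a * (a * b) < 1 * (a * b) := mul_lt_mul_of_pos_right h₁u hab0
          _ = a * b := one_mul _
  have hπle : v (X₁ * X₂ - e₂ * e₃) ≤ max (a * b) ε := by
    refine le_trans (Valuation.map_sub v _ _) ?_
    rw [map_mul, map_mul, he₃, mul_one]
  have hπle' : v (X₁ * X₂ + e₂ * e₃) ≤ max (a * b) ε := by
    refine le_trans (Valuation.map_add v _ _) ?_
    rw [map_mul, map_mul, he₃, mul_one]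
  -- Step 1: valuation of the numerator of the sum
  have hN : v ((X₁ + X₂) * (X₁ * X₂ + e₂ * e₃) - 2 * (e₂ + e₃) * (X₁ * X₂)) = a * b := by
    have e1 : (X₁ + X₂) * (X₁ * X₂ + e₂ * e₃) - 2 * (e₂ + e₃) * (X₁ * X₂) =
        ((X₁ + X₂) * (X₁ * X₂ + e₂ * e₃) - 2 * e₂ * (X₁ * X₂)) - 2 * e₃ * (X₁ * X₂) := by ring
    have hmain : v (2 * e₃ * (X₁ * X₂)) = a * b := by
      rw [map_mul, map_mul, map_mul, h2, he₃, one_mul, one_mul]
    have hR : v ((X₁ + X₂) * (X₁ * X₂ + e₂ * e₃) - 2 * e₂ * (X₁ * X₂)) < a * b := by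
      refine Valuation.map_sub_lt v ?_ ?_
      · rw [map_mul]
        exact lt_of_le_of_lt (mul_le_mul' hsum hπle') key
      · rw [map_mul, map_mul, map_mul, h2, one_mul]
        calc ε * (a * b) < 1 * (a * b) := mul_lt_mul_of_pos_right (lt_trans h₁l h₁u) hab0
          _ = a * b := one_mul _
    rw [e1, Valuation.map_sub_eq_of_lt_right v (hmain ▸ hR), hmain]
  have hSv : v (Xs + Xd) * δ ^ 2 = a * b := by
    have := congrArg v hS
    rw [map_mul, map_pow, map_mul, h2, one_mul, hN] at this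
    exact this
  have hPv : v (Xs * Xd) * δ ^ 2 = v (X₁ * X₂ - e₂ * e₃) ^ 2 := by
    have := congrArg v hP
    rw [map_mul, map_pow, map_pow] at this
    exact this
  -- Step 3: unbalanced
  have hunb : v (Xs * Xd) < v (Xs + Xd) ^ 2 := by
    have hδ2 : 0 < δ ^ 2 := pow_pos hδ0 2
    have hδ4 : 0 < δ ^ 2 * δ ^ 2 := mul_pos hδ2 hδ2
    have h1 : v (Xs * Xd) * (δ ^ 2 * δ ^ 2) < v (Xs + Xd) ^ 2 * (δ ^ 2 * δ ^ 2) := by
      have e2 : v (Xs + Xd) ^ 2 * (δ ^ 2 * δ ^ 2) = (a * b) ^ 2 := by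
        rw [← hSv, mul_pow, sq (δ ^ 2)]
      have e3 : v (Xs * Xd) * (δ ^ 2 * δ ^ 2) = (v (X₁ * X₂ - e₂ * e₃) * δ) ^ 2 := by
        rw [← mul_assoc, hPv, mul_pow]
      rw [e2, e3]
      refine pow_lt_pow_left₀ ?_ zero_le two_ne_zero
      calc v (X₁ * X₂ - e₂ * e₃) * δ ≤ max (a * b) ε * max a b := mul_le_mul' hπle hδle
        _ = max a b * max (a * b) ε := mul_comm _ _
        _ < a * b := key
    exact lt_of_mul_lt_mul_right h1 zero_le
  -- Step 4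
  have hSv0 : v (Xs + Xd) ≠ 0 := by
    intro h0
    rw [h0, zero_mul] at hSv
    exact (ne_of_gt hab0) hSv.symm
  rcases np_unbalanced v hunb with ⟨h1, h2'⟩ | ⟨h1, h2'⟩
  · refine ⟨v (Xs + Xd), v Xd, Or.inl ⟨h1, rfl⟩, hSv, ?_⟩
    rw [← hSv, ← mul_assoc, h2', hPv]
  · refine ⟨v (Xs + Xd), v Xs, Or.inr ⟨rfl, h1⟩, hSv, ?_⟩
    rw [← hSv, ← mul_assoc, h2', hPv]

end Val

end Fermat.Agent.S05


end ZBS05_004_0

/-! ### bundled: `Fermat.Agent.S05.TropDefs` -/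
section ZBS05_004_1
/-
S05, tropical step (helper5): definitions and basic lemmas.
* `clip ε γ`  : clip `γ` to the interval `[ε, 1]`;
* `Sim ε a b` : `a = b·ε^{2k}` or `a·b = ε^{2k}` (i.e. `a ≡ ±b` mod `ε^{2ℤ}`, multiplicatively);
* `nu v r₁ ε P` : the clipped valuation of `x(P) - r₁` (`1` at the origin).
-/

set_option autoImplicit false

namespace Fermat.Agent.S05

open WeierstrassCurve WeierstrassCurve.Affine

section ClipSec

variable {Γ₀ : Type*} [LinearOrderedCommGroupWithZero Γ₀]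

/-- clip to the interval `[ε, 1]` -/
def clip (ε γ : Γ₀) : Γ₀ := min 1 (max ε γ)

lemma clip_of_ge {ε γ : Γ₀} (h : 1 ≤ γ) : clip ε γ = 1 :=
  min_eq_left (le_trans h (le_max_right _ _))

lemma clip_of_mid {ε γ : Γ₀} (hl : ε ≤ γ) (hu : γ ≤ 1) : clip ε γ = γ := by
  rw [clip, max_eq_right hl, min_eq_right hu]

lemma clip_of_le {ε γ : Γ₀} (hε : ε ≤ 1) (h : γ ≤ ε) : clip ε γ = ε := by
  rw [clip, max_eq_left h, min_eq_right hε]

lemma clip_le_one (ε γ : Γ₀) : clip ε γ ≤ 1 := min_le_left _ _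

lemma le_clip {ε : Γ₀} (hε : ε ≤ 1) (γ : Γ₀) : ε ≤ clip ε γ := le_min hε (le_max_left _ _)

/-- `a ∼ b`: `a = b·ε^{2k}` or `a·b = ε^{2k}` for some integer `k`
(i.e. `a ≡ ±b` modulo `ε^{2ℤ}`, written multiplicatively). -/
def Sim (ε a b : Γ₀) : Prop := ∃ k : ℤ, a = b * ε ^ (2 * k) ∨ a * b = ε ^ (2 * k)

lemma Sim.refl (ε a : Γ₀) : Sim ε a a := ⟨0, Or.inl (by simp)⟩

lemma Sim.of_eq {ε a b : Γ₀} (h : a = b) : Sim ε a b := h ▸ Sim.refl ε a

lemma Sim.of_mul_eq_one {ε a b : Γ₀} (h : a * b = 1) : Sim ε a b := ⟨0, Or.inr (by simpa using h)⟩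

lemma Sim.of_mul_eq_sq {ε a b : Γ₀} (h : a * b = ε ^ 2) : Sim ε a b :=
  ⟨1, Or.inr (by rw [h]; norm_cast)⟩

lemma Sim.symm {ε a b : Γ₀} (hε : ε ≠ 0) (h : Sim ε a b) : Sim ε b a := by
  obtain ⟨k, h | h⟩ := h
  · refine ⟨-k, Or.inl ?_⟩
    rw [h, mul_assoc, ← zpow_add₀ hε]
    simp
  · exact ⟨k, Or.inr (by rw [mul_comm]; exact h)⟩

lemma Sim.trans {ε a b c : Γ₀} (hε : ε ≠ 0) (h₁ : Sim ε a b) (h₂ : Sim ε b c) : Sim ε a c := by
  obtain ⟨k, h₁ | h₁⟩ := h₁ <;> obtain ⟨j, h₂ | h₂⟩ := h₂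
  · refine ⟨j + k, Or.inl ?_⟩
    rw [h₁, h₂, mul_assoc, ← zpow_add₀ hε]
    congr 2; ring
  · refine ⟨j + k, Or.inr ?_⟩
    rw [h₁, mul_right_comm, h₂, ← zpow_add₀ hε]
    congr 1; ring
  · refine ⟨k - j, Or.inr ?_⟩
    have hj : ε ^ (2 * j) ≠ 0 := zpow_ne_zero _ hε
    apply mul_right_cancel₀ hj
    rw [mul_assoc, ← h₂, h₁, ← zpow_add₀ hε]
    congr 1; ring
  · refine ⟨k - j, Or.inl ?_⟩
    have hj : ε ^ (2 * j) ≠ 0 := zpow_ne_zero _ hε
    apply mul_right_cancel₀ hj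
    rw [mul_assoc, ← zpow_add₀ hε, ← h₂, ← mul_assoc, h₁, mul_comm]
    congr 2; ring

/-- The induction step in exponent form. -/
lemma Sim.step {ε ν a : Γ₀} (hν : ν ≠ 0) (m : ℤ) (h : Sim ε a (ν ^ m)) :
    (Sim ε (a * ν) (ν ^ (m + 1)) ∧ Sim ε (a / ν) (ν ^ (m - 1))) ∨
    (Sim ε (a * ν) (ν ^ (m - 1)) ∧ Sim ε (a / ν) (ν ^ (m + 1))) := by
  obtain ⟨k, h | h⟩ := h
  · left
    refine ⟨⟨k, Or.inl ?_⟩, ⟨k, Or.inl ?_⟩⟩
    · rw [h, zpow_add_one₀ hν]; ac_rfl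
    · rw [h, zpow_sub_one₀ hν, div_eq_mul_inv]; ac_rfl
  · right
    refine ⟨⟨k, Or.inr ?_⟩, ⟨k, Or.inr ?_⟩⟩
    · rw [zpow_sub_one₀ hν, ← h]
      calc a * ν * (ν ^ m * ν⁻¹) = a * ν ^ m * (ν * ν⁻¹) := by ac_rfl
        _ = a * ν ^ m := by rw [mul_inv_cancel₀ hν, mul_one]
    · rw [zpow_add_one₀ hν, ← h, div_eq_mul_inv]
      calc a * ν⁻¹ * (ν ^ m * ν) = a * ν ^ m * (ν⁻¹ * ν) := by ac_rfl
        _ = a * ν ^ m := by rw [inv_mul_cancel₀ hν, mul_one]


/-- interior × interior: the `A`-value (quotient). -/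
lemma sim_quot {ε a b δ A : Γ₀} (hε0 : 0 < ε) (ha : ε < a) (ha1 : a < 1) (hb : ε < b)
    (hb1 : b < 1) (hδ0 : 0 < δ) (hδ : (a < b → δ = b) ∧ (b < a → δ = a) ∧ (a = b → δ ≤ a))
    (hA : A * δ ^ 2 = a * b) : Sim ε (clip ε A) (a / b) := by
  have ha0 : 0 < a := lt_trans hε0 ha
  have hb0 : 0 < b := lt_trans hε0 hb
  rcases lt_trichotomy a b with hlt | heq | hlt
  · -- δ = b, A = a / b
    have hδb := hδ.1 hlt
    have hAb : A * b = a := by
      rw [hδb, sq, ← mul_assoc] at hA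
      exact mul_right_cancel₀ (ne_of_gt hb0) hA
    have hA' : A = a / b := eq_div_of_mul_eq (ne_of_gt hb0) hAb
    have hA1 : A ≤ 1 := by
      by_contra h; rw [not_le] at h
      have : b < A * b := by
        calc b = 1 * b := (one_mul b).symm
          _ < A * b := mul_lt_mul_of_pos_right h hb0
      rw [hAb] at this
      exact absurd hlt (not_lt.mpr this.le)
    have hAε : ε ≤ A := by
      by_contra h; rw [not_le] at h
      have : A * b < a := by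
        calc A * b ≤ A * 1 := mul_le_mul' le_rfl hb1.le
          _ = A := mul_one A
          _ < ε := h
          _ < a := ha
      rw [hAb] at this
      exact lt_irrefl _ this
    rw [clip_of_mid hAε hA1]
    exact Sim.of_eq hA'
  · -- δ ≤ a, A ≥ 1
    have hδa := hδ.2.2 heq
    have hA1 : 1 ≤ A := by
      by_contra h; rw [not_le] at h
      have h1 : A * δ ^ 2 < 1 * δ ^ 2 := mul_lt_mul_of_pos_right h (pow_pos hδ0 2)
      rw [one_mul, hA, ← heq, ← sq] at h1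
      have h2 : δ ^ 2 ≤ a ^ 2 := pow_le_pow_left₀ zero_le hδa 2
      exact absurd h1 (not_lt.mpr h2)
    rw [clip_of_ge hA1, heq, div_self (ne_of_gt hb0)]
    exact Sim.refl _ _
  · -- δ = a, A = b / a
    have hδa := hδ.2.1 hlt
    have hAa : A * a = b := by
      rw [hδa, sq, ← mul_assoc, mul_comm a b] at hA
      exact mul_right_cancel₀ (ne_of_gt ha0) hA
    have hA1 : A ≤ 1 := by
      by_contra h; rw [not_le] at h
      have : a < A * a := by
        calc a = 1 * a := (one_mul a).symm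
          _ < A * a := mul_lt_mul_of_pos_right h ha0
      rw [hAa] at this
      exact absurd hlt (not_lt.mpr this.le)
    have hAε : ε ≤ A := by
      by_contra h; rw [not_le] at h
      have : A * a < b := by
        calc A * a ≤ A * 1 := mul_le_mul' le_rfl ha1.le
          _ = A := mul_one A
          _ < ε := h
          _ < b := hb
      rw [hAa] at this
      exact lt_irrefl _ this
    rw [clip_of_mid hAε hA1]
    refine Sim.of_mul_eq_one ?_
    rw [div_eq_mul_inv, ← mul_assoc, hAa, mul_inv_cancel₀ (ne_of_gt hb0)]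

/-- interior × interior: the `B`-value (product). -/
lemma sim_prod {ε a b π B : Γ₀} (hε0 : 0 < ε) (ha : ε < a) (ha1 : a < 1) (hb : ε < b)
    (hb1 : b < 1)
    (hπ : (ε < a * b → π = a * b) ∧ (a * b < ε → π = ε) ∧ (a * b = ε → π ≤ ε))
    (hB : B * (a * b) = π ^ 2) : Sim ε (clip ε B) (a * b) := by
  have ha0 : 0 < a := lt_trans hε0 ha
  have hb0 : 0 < b := lt_trans hε0 hb
  have hab0 : 0 < a * b := mul_pos ha0 hb0
  have hε1 : ε < 1 := lt_trans ha ha1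
  have hab1 : a * b ≤ 1 := by
    calc a * b ≤ 1 * 1 := mul_le_mul' ha1.le hb1.le
      _ = 1 := one_mul 1
  have hεε : ε * ε < a * b := by
    calc ε * ε < a * ε := mul_lt_mul_of_pos_right ha hε0
      _ = ε * a := mul_comm _ _
      _ < b * a := mul_lt_mul_of_pos_right hb ha0
      _ = a * b := mul_comm _ _
  rcases lt_trichotomy (a * b) ε with hlt | heq | hlt
  · have hπε := hπ.2.1 hlt
    rw [hπε] at hB
    have hBε : ε ≤ B := by
      by_contra h; rw [not_le] at h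
      have : B * (a * b) < ε ^ 2 := by
        calc B * (a * b) ≤ ε * (a * b) := mul_le_mul' h.le le_rfl
          _ = (a * b) * ε := mul_comm _ _
          _ < ε * ε := mul_lt_mul_of_pos_right hlt hε0
          _ = ε ^ 2 := (sq ε).symm
      rw [hB] at this
      exact lt_irrefl _ this
    have hB1 : B ≤ 1 := by
      by_contra h; rw [not_le] at h
      have : ε ^ 2 < B * (a * b) := by
        calc ε ^ 2 = ε * ε := sq ε
          _ < a * b := hεε
          _ = 1 * (a * b) := (one_mul _).symm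
          _ < B * (a * b) := mul_lt_mul_of_pos_right h hab0
      rw [hB] at this
      exact lt_irrefl _ this
    rw [clip_of_mid hBε hB1]
    exact Sim.of_mul_eq_sq hB
  · have hπε := hπ.2.2 heq
    have hBε : B ≤ ε := by
      have h1 : B * (a * b) ≤ ε * (a * b) := by
        rw [hB, heq, sq]
        exact mul_le_mul' hπε hπε
      exact le_of_mul_le_mul_right h1 hab0
    rw [clip_of_le hε1.le hBε]
    exact Sim.of_eq heq.symm
  · have hπab := hπ.1 hlt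
    rw [hπab, sq] at hB
    have hB' : B = a * b := mul_right_cancel₀ (ne_of_gt hab0) hB
    rw [hB', clip_of_mid hlt.le hab1]
    exact Sim.refl _ _

end ClipSec

section NuSec
variable {K : Type*} [Field K] {Γ₀ : Type*} [LinearOrderedCommGroupWithZero Γ₀]
  (v : Valuation K Γ₀) {W : WeierstrassCurve K} (r₁ : K) (ε : Γ₀)

/-- The clipped valuation of `x(P) - r₁`: `1` on `E₀`, `ε` on `T₀`, `v (x - r₁)` in between. -/
noncomputable def nu : W.toAffine.Point → Γ₀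
  | .zero => 1
  | .some x _ _ => clip ε (v (x - r₁))

@[simp] lemma nu_zero : nu v r₁ ε (0 : W.toAffine.Point) = 1 := rfl

lemma nu_some {x y : K} (h : W.toAffine.Nonsingular x y) :
    nu v r₁ ε (Point.some x y h) = clip ε (v (x - r₁)) := rfl

lemma nu_neg (P : W.toAffine.Point) : nu v r₁ ε (-P) = nu v r₁ ε P := by
  cases P <;> rfl

lemma nu_le_one (P : W.toAffine.Point) : nu v r₁ ε P ≤ 1 := by
  cases P
  · exact le_rfl
  · exact clip_le_one _ _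

lemma le_nu (hε : ε ≤ 1) (P : W.toAffine.Point) : ε ≤ nu v r₁ ε P := by
  cases P
  · exact hε
  · exact le_clip hε _

lemma nu_of_ge {x y : K} (h : W.toAffine.Nonsingular x y) (hx : 1 ≤ v (x - r₁)) :
    nu v r₁ ε (Point.some x y h) = 1 := by
  rw [nu_some, clip_of_ge hx]

lemma nu_of_mid {x y : K} (h : W.toAffine.Nonsingular x y) (hl : ε ≤ v (x - r₁))
    (hu : v (x - r₁) ≤ 1) : nu v r₁ ε (Point.some x y h) = v (x - r₁) := by
  rw [nu_some, clip_of_mid hl hu]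

lemma nu_of_le {x y : K} (hε : ε ≤ 1) (h : W.toAffine.Nonsingular x y) (hx : v (x - r₁) ≤ ε) :
    nu v r₁ ε (Point.some x y h) = ε := by
  rw [nu_some, clip_of_le hε hx]

/-- If `nu P < 1` then `P` is affine with `v (x - r₁) < 1`. -/
lemma exists_of_nu_lt_one {P : W.toAffine.Point} (hP : nu v r₁ ε P < 1) :
    ∃ (x y : K) (h : W.toAffine.Nonsingular x y), P = Point.some x y h ∧ v (x - r₁) < 1 := by
  cases P with
  | zero => exact absurd hP (lt_irrefl _)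
  | some x y h =>
    refine ⟨x, y, h, rfl, ?_⟩
    rw [nu_some] at hP
    by_contra hx
    rw [not_lt] at hx
    rw [clip_of_ge hx] at hP
    exact lt_irrefl _ hP

end NuSec

end Fermat.Agent.S05


end ZBS05_004_1

/-! ### bundled: `Fermat.Agent.S05.TropQP` -/
section ZBS05_004_2
/-
S05, tropical step (helper5): the quasi-parallelogram law for the clipped valuation `nu`,
case `x₁ ≠ x₂` (six region cases), from the pure valuation lemmas of
`TropNP`, `TropCases` and the translated `x`-only identities of `TropAlg`.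
-/

set_option autoImplicit false

namespace Fermat.Agent.S05

open WeierstrassCurve WeierstrassCurve.Affine

section QP

variable {K : Type*} [Field K] [DecidableEq K] {Γ₀ : Type*} [LinearOrderedCommGroupWithZero Γ₀]
  (v : Valuation K Γ₀) {W : WeierstrassCurve K} {r₁ e₂ e₃ : K}

omit [DecidableEq K] in
lemma tropQP_two_ne_zero (h2 : v (2 : K) = 1) : (2 : K) ≠ 0 := by
  intro h
  rw [h, map_zero] at h2
  exact zero_ne_one h2

/-- `Sim ε 1 (ε * ε)`. -/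
lemma sim_one_sq {ε : Γ₀} (hε : ε ≠ 0) : Sim ε 1 (ε * ε) :=
  Sim.symm hε ⟨1, Or.inl (by rw [one_mul, ← sq]; norm_cast)⟩

/-- From `A * b = ε` with `ε < b < 1`: `ε ≤ A ≤ 1`. -/
lemma tropQP_mid_of_mul {ε A b : Γ₀} (hb0 : 0 < b) (hεb : ε < b) (hb1 : b < 1)
    (hA : A * b = ε) : ε ≤ A ∧ A ≤ 1 := by
  constructor
  · calc ε = A * b := hA.symm
      _ ≤ A * 1 := mul_le_mul' le_rfl hb1.le
      _ = A := mul_one A
  · by_contra h; rw [not_le] at h
    have : b < A * b := by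
      calc b = 1 * b := (one_mul b).symm
        _ < A * b := mul_lt_mul_of_pos_right h hb0
    rw [hA] at this
    exact absurd hεb (not_lt.mpr this.le)

/-- The quasi-parallelogram law, case `x₁ ≠ x₂`. -/
theorem qp_of_X_ne (hb₂ : W.b₂ = -4 * (3 * r₁ + e₂ + e₃))
    (hb₄ : W.b₄ = 2 * (r₁ * (r₁ + e₂) + r₁ * (r₁ + e₃) + (r₁ + e₂) * (r₁ + e₃)))
    (hb₆ : W.b₆ = -4 * (r₁ * (r₁ + e₂) * (r₁ + e₃)))
    (h2 : v (2 : K) = 1) (he₃ : v e₃ = 1) (he₂ : v e₂ < 1) (he₂0 : e₂ ≠ 0)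
    {x₁ y₁ x₂ y₂ : K} (h₁ : W.toAffine.Nonsingular x₁ y₁) (h₂ : W.toAffine.Nonsingular x₂ y₂)
    (hx : x₁ ≠ x₂) (hx₂ : v (x₂ - r₁) < 1) :
    (Sim (v e₂) (nu v r₁ (v e₂) (Point.some x₁ y₁ h₁ + Point.some x₂ y₂ h₂))
        (nu v r₁ (v e₂) (Point.some x₁ y₁ h₁) * nu v r₁ (v e₂) (Point.some x₂ y₂ h₂)) ∧
      Sim (v e₂) (nu v r₁ (v e₂) (Point.some x₁ y₁ h₁ - Point.some x₂ y₂ h₂))
        (nu v r₁ (v e₂) (Point.some x₁ y₁ h₁) / nu v r₁ (v e₂) (Point.some x₂ y₂ h₂))) ∨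
    (Sim (v e₂) (nu v r₁ (v e₂) (Point.some x₁ y₁ h₁ + Point.some x₂ y₂ h₂))
        (nu v r₁ (v e₂) (Point.some x₁ y₁ h₁) / nu v r₁ (v e₂) (Point.some x₂ y₂ h₂)) ∧
      Sim (v e₂) (nu v r₁ (v e₂) (Point.some x₁ y₁ h₁ - Point.some x₂ y₂ h₂))
        (nu v r₁ (v e₂) (Point.some x₁ y₁ h₁) * nu v r₁ (v e₂) (Point.some x₂ y₂ h₂))) := by
  have h2' := tropQP_two_ne_zero v h2
  obtain ⟨xs, ys, hs, xd, yd, hd, hadd, hsub, hS, hP⟩ := add_sub_X h2' h₁ h₂ hx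
  have hS' := sum_identity' hb₂ hb₄ hb₆ hS
  have hP' := prod_identity' h2' hb₂ hb₄ hb₆ hS hP
  rw [hadd, hsub]
  have hne : x₁ - r₁ ≠ x₂ - r₁ := fun h => hx (sub_left_injective h)
  set ε := v e₂ with hε
  have hε0 : 0 < ε := by rw [hε]; exact zero_lt_iff.mpr ((Valuation.ne_zero_iff v).mpr he₂0)
  have hεne : ε ≠ 0 := ne_of_gt hε0
  -- symmetric versions of the identities
  have hS'' : ((xs - r₁) + (xd - r₁)) * ((x₂ - r₁) - (x₁ - r₁)) ^ 2 =
      2 * (((x₂ - r₁) + (x₁ - r₁)) * ((x₂ - r₁) * (x₁ - r₁) + e₂ * e₃)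
        - 2 * (e₂ + e₃) * ((x₂ - r₁) * (x₁ - r₁))) := by
    linear_combination hS'
  have hP'' : (xs - r₁) * (xd - r₁) * ((x₂ - r₁) - (x₁ - r₁)) ^ 2 =
      ((x₂ - r₁) * (x₁ - r₁) - e₂ * e₃) ^ 2 := by
    linear_combination hP'
  rcases le_or_gt 1 (v (x₁ - r₁)) with h1 | h1
  · -- P₁ ∈ E₀
    rw [nu_of_ge v r₁ ε h₁ h1]
    rcases lt_or_ge ε (v (x₂ - r₁)) with h2l | h2l
    · -- (E₀, int)
      obtain ⟨e1, e2⟩ := trop_E0_int v h2 he₃ he₂ he₂0 hne hS' hP' h1 h2l hx₂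
      have hb0 : v (x₂ - r₁) ≠ 0 := ne_of_gt (lt_trans hε0 h2l)
      rw [nu_of_mid v r₁ ε h₂ h2l.le hx₂.le, nu_of_mid v r₁ ε hs (e1 ▸ h2l.le) (e1 ▸ hx₂.le),
        nu_of_mid v r₁ ε hd (e2 ▸ h2l.le) (e2 ▸ hx₂.le), e1, e2]
      left
      exact ⟨Sim.of_eq (one_mul _).symm, Sim.of_mul_eq_one (by rw [one_div, mul_inv_cancel₀ hb0])⟩
    · -- (E₀, T₀)
      obtain ⟨e1, e2⟩ := trop_E0_T0 v h2 he₃ he₂ he₂0 hne hS' hP' h1 h2l
      rw [nu_of_le v r₁ ε he₂.le h₂ h2l, nu_of_le v r₁ ε he₂.le hs e1,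
        nu_of_le v r₁ ε he₂.le hd e2]
      left
      exact ⟨Sim.of_eq (one_mul _).symm, Sim.of_mul_eq_one (by rw [one_div, mul_inv_cancel₀ hεne])⟩
  · rcases lt_or_ge ε (v (x₁ - r₁)) with h1l | h1l
    · -- P₁ interior
      have ha0 : 0 < v (x₁ - r₁) := lt_trans hε0 h1l
      rw [nu_of_mid v r₁ ε h₁ h1l.le h1.le]
      rcases lt_or_ge ε (v (x₂ - r₁)) with h2l | h2l
      · -- (int, int)
        have hb0 : 0 < v (x₂ - r₁) := lt_trans hε0 h2l
        rw [nu_of_mid v r₁ ε h₂ h2l.le hx₂.le]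
        obtain ⟨A, B, hAB, hA, hB⟩ :=
          trop_int_int v h2 he₃ he₂0 hne hS' hP' h1l h1 h2l hx₂
        have hδ0 : 0 < v ((x₁ - r₁) - (x₂ - r₁)) :=
          zero_lt_iff.mpr ((Valuation.ne_zero_iff v).mpr (sub_ne_zero.mpr hne))
        have hδ : (v (x₁ - r₁) < v (x₂ - r₁) → v ((x₁ - r₁) - (x₂ - r₁)) = v (x₂ - r₁)) ∧
            (v (x₂ - r₁) < v (x₁ - r₁) → v ((x₁ - r₁) - (x₂ - r₁)) = v (x₁ - r₁)) ∧
            (v (x₁ - r₁) = v (x₂ - r₁) → v ((x₁ - r₁) - (x₂ - r₁)) ≤ v (x₁ - r₁)) :=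
          ⟨fun h => Valuation.map_sub_eq_of_lt_right v h,
           fun h => Valuation.map_sub_eq_of_lt_left v h,
           fun h => Valuation.map_sub_le v le_rfl h.symm.le⟩
        have hee : v (e₂ * e₃) = ε := by rw [map_mul, he₃, mul_one]
        have hπ : (ε < v (x₁ - r₁) * v (x₂ - r₁) →
              v ((x₁ - r₁) * (x₂ - r₁) - e₂ * e₃) = v (x₁ - r₁) * v (x₂ - r₁)) ∧
            (v (x₁ - r₁) * v (x₂ - r₁) < ε → v ((x₁ - r₁) * (x₂ - r₁) - e₂ * e₃) = ε) ∧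
            (v (x₁ - r₁) * v (x₂ - r₁) = ε → v ((x₁ - r₁) * (x₂ - r₁) - e₂ * e₃) ≤ ε) := by
          refine ⟨fun h => ?_, fun h => ?_, fun h => ?_⟩
          · rw [Valuation.map_sub_eq_of_lt_left v (by rw [hee, map_mul]; exact h), map_mul]
          · rw [Valuation.map_sub_eq_of_lt_right v (by rw [hee, map_mul]; exact h), hee]
          · exact Valuation.map_sub_le v (by rw [map_mul]; exact h.le) hee.le
        have sA := sim_quot hε0 h1l h1 h2l hx₂ hδ0 hδ hA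
        have sB := sim_prod hε0 h1l h1 h2l hx₂ hπ hB
        rcases hAB with ⟨e1, e2⟩ | ⟨e1, e2⟩
        · right
          rw [nu_some, nu_some, e1, e2]
          exact ⟨sA, sB⟩
        · left
          rw [nu_some, nu_some, e1, e2]
          exact ⟨sB, sA⟩
      · -- (int, T₀): swap the roles
        obtain ⟨e1, e2⟩ := trop_T0_int v h2 he₃ he₂ he₂0 hne.symm hS'' hP'' h2l h1l h1
        obtain ⟨m1, m1'⟩ := tropQP_mid_of_mul ha0 h1l h1 e1
        obtain ⟨m2, m2'⟩ := tropQP_mid_of_mul ha0 h1l h1 e2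
        rw [nu_of_le v r₁ ε he₂.le h₂ h2l, nu_of_mid v r₁ ε hs m1 m1',
          nu_of_mid v r₁ ε hd m2 m2']
        left
        refine ⟨Sim.of_mul_eq_sq ?_, Sim.of_mul_eq_one ?_⟩
        · rw [← mul_assoc, e1, sq]
        · rw [div_eq_mul_inv, ← mul_assoc, e2, mul_inv_cancel₀ hεne]
    · -- P₁ ∈ T₀
      rw [nu_of_le v r₁ ε he₂.le h₁ h1l]
      rcases lt_or_ge ε (v (x₂ - r₁)) with h2l | h2l
      · -- (T₀, int)
        have hb0 : 0 < v (x₂ - r₁) := lt_trans hε0 h2l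
        obtain ⟨e1, e2⟩ := trop_T0_int v h2 he₃ he₂ he₂0 hne hS' hP' h1l h2l hx₂
        obtain ⟨m1, m1'⟩ := tropQP_mid_of_mul hb0 h2l hx₂ e1
        obtain ⟨m2, m2'⟩ := tropQP_mid_of_mul hb0 h2l hx₂ e2
        rw [nu_of_mid v r₁ ε h₂ h2l.le hx₂.le, nu_of_mid v r₁ ε hs m1 m1',
          nu_of_mid v r₁ ε hd m2 m2']
        left
        refine ⟨Sim.of_mul_eq_sq ?_, Sim.of_eq ?_⟩
        · rw [mul_comm ε, ← mul_assoc, e1, sq]
        · exact eq_div_of_mul_eq (ne_of_gt hb0) e2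
      · -- (T₀, T₀)
        obtain ⟨e1, e2⟩ := trop_T0_T0 v h2 he₃ he₂ he₂0 hne hS' hP' h1l h2l
        rw [nu_of_le v r₁ ε he₂.le h₂ h2l, nu_of_ge v r₁ ε hs e1, nu_of_ge v r₁ ε hd e2]
        left
        exact ⟨sim_one_sq hεne, Sim.of_eq (div_self hεne).symm⟩

end QP

end Fermat.Agent.S05


end ZBS05_004_2

/-! ### bundled: `Fermat.Agent.S05.TropDup` -/
section ZBS05_004_3
/-
S05, tropical step (helper99, statements by helper5): the duplication case.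
Pure valuation theory, no curves.  Multiplicative valuations: `v X < 1` means "reduces to the node",
`v X ≤ v e₂` is the region of the 2-torsion point `T`, `v e₂ < v X < 1` is the interior region.
-/

set_option autoImplicit false

namespace Fermat.Agent.S05

section ValDup

variable {K : Type*} [Field K] {Γ₀ : Type*} [LinearOrderedCommGroupWithZero Γ₀]
  (v : Valuation K Γ₀) {e₂ e₃ X X₃ η : K}

/-- `v 4 = 1` from `v 2 = 1`. -/
lemma tropDup_v_four (h2 : v 2 = 1) : v (4 : K) = 1 := by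
  have : (4 : K) = 2 * 2 := by norm_num
  rw [this, map_mul, h2, one_mul]

/-- `v (X - e₃) = 1` when `v X < 1 = v e₃`. -/
lemma tropDup_v_sub_e₃ (he₃ : v e₃ = 1) (hX : v X < 1) : v (X - e₃) = 1 := by
  rw [Valuation.map_sub_eq_of_lt_right v (by rw [he₃]; exact hX), he₃]

/-- Duplication of a point in the region of `T`: the double lies in `E₀`. -/
theorem trop_dup_T0 (h2 : v 2 = 1) (he₃ : v e₃ = 1) (he₂ : v e₂ < 1) (he₂0 : e₂ ≠ 0)
    (hη : η ^ 2 = 4 * (X * (X - e₂) * (X - e₃)))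
    (hD : X₃ * η ^ 2 = (X ^ 2 - e₂ * e₃) ^ 2) (hη0 : η ≠ 0)
    (hX : v X ≤ v e₂) : 1 ≤ v X₃ := by
  set ε := v e₂ with hε
  have hε0 : 0 < ε := by rw [hε]; exact zero_lt_iff.mpr ((Valuation.ne_zero_iff v).mpr he₂0)
  have hXlt : v X < 1 := lt_of_le_of_lt hX he₂
  -- valuation of the numerator
  have hX2 : v (X ^ 2) < ε := by
    rw [map_pow, sq]
    calc v X * v X ≤ ε * v X := mul_le_mul' hX le_rfl
      _ ≤ ε * ε := mul_le_mul' le_rfl hX
      _ < 1 * ε := mul_lt_mul_of_pos_right he₂ hε0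
      _ = ε := one_mul _
  have hee : v (e₂ * e₃) = ε := by rw [map_mul, he₃, mul_one]
  have hnum : v (X ^ 2 - e₂ * e₃) = ε := by
    rw [Valuation.map_sub_eq_of_lt_right v (by rw [hee]; exact hX2), hee]
  -- valuation of `η ^ 2`
  have hηv : v (η ^ 2) ≤ ε ^ 2 := by
    rw [hη, map_mul, map_mul, map_mul, tropDup_v_four v h2, one_mul,
      tropDup_v_sub_e₃ v he₃ hXlt, mul_one, sq]
    refine mul_le_mul' hX ?_
    exact le_trans (Valuation.map_sub v _ _) (max_le hX le_rfl)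
  have hη2pos : 0 < v (η ^ 2) :=
    zero_lt_iff.mpr ((Valuation.ne_zero_iff v).mpr (pow_ne_zero 2 hη0))
  have hDv : v X₃ * v (η ^ 2) = ε ^ 2 := by
    have := congrArg v hD
    rw [map_mul, map_pow (v) (X ^ 2 - e₂ * e₃), hnum] at this
    exact this
  by_contra hlt
  rw [not_le] at hlt
  have : v X₃ * v (η ^ 2) < ε ^ 2 :=
    calc v X₃ * v (η ^ 2) < 1 * v (η ^ 2) := mul_lt_mul_of_pos_right hlt hη2pos
      _ = v (η ^ 2) := one_mul _
      _ ≤ ε ^ 2 := hηv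
  exact absurd hDv (ne_of_lt this)

/-- Duplication of a point in the interior region. -/
theorem trop_dup_int (h2 : v 2 = 1) (he₃ : v e₃ = 1) (he₂ : v e₂ < 1) (he₂0 : e₂ ≠ 0)
    (hη : η ^ 2 = 4 * (X * (X - e₂) * (X - e₃)))
    (hD : X₃ * η ^ 2 = (X ^ 2 - e₂ * e₃) ^ 2) (hη0 : η ≠ 0)
    (hXl : v e₂ < v X) (hXu : v X < 1) :
    (v e₂ < v X ^ 2 → v X₃ = v X ^ 2) ∧
    (v X ^ 2 < v e₂ → v X₃ * v X ^ 2 = v e₂ ^ 2) ∧
    (v X ^ 2 = v e₂ → v X₃ ≤ v e₂) := by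
  set ε := v e₂ with hε
  set a := v X with ha
  have hε0 : 0 < ε := by rw [hε]; exact zero_lt_iff.mpr ((Valuation.ne_zero_iff v).mpr he₂0)
  have ha0 : 0 < a := lt_trans hε0 hXl
  have ha2 : 0 < a ^ 2 := pow_pos ha0 2
  have hee : v (e₂ * e₃) = ε := by rw [map_mul, he₃, mul_one]
  have hXe₂ : v (X - e₂) = a := Valuation.map_sub_eq_of_lt_left v hXl
  have hηv : v (η ^ 2) = a ^ 2 := by
    rw [hη, map_mul, map_mul, map_mul, tropDup_v_four v h2, one_mul,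
      tropDup_v_sub_e₃ v he₃ hXu, mul_one, hXe₂, sq]
  have hDv : v X₃ * a ^ 2 = v (X ^ 2 - e₂ * e₃) ^ 2 := by
    have := congrArg v hD
    rw [map_mul, map_pow (v) (X ^ 2 - e₂ * e₃), hηv] at this
    exact this
  refine ⟨fun h => ?_, fun h => ?_, fun h => ?_⟩
  · -- `ε < a ^ 2`
    have hnum : v (X ^ 2 - e₂ * e₃) = a ^ 2 := by
      rw [Valuation.map_sub_eq_of_lt_left v (by rw [hee, map_pow]; exact h), map_pow]
    rw [hnum] at hDv
    have h3 : v X₃ * a ^ 2 = a ^ 2 * a ^ 2 := by rw [hDv, sq (a ^ 2)]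
    exact mul_right_cancel₀ (ne_of_gt ha2) h3
  · -- `a ^ 2 < ε`
    have hnum : v (X ^ 2 - e₂ * e₃) = ε := by
      rw [Valuation.map_sub_eq_of_lt_right v (by rw [hee, map_pow]; exact h), hee]
    rw [hnum] at hDv
    exact hDv
  · -- `a ^ 2 = ε`
    have hnum : v (X ^ 2 - e₂ * e₃) ≤ ε := by
      refine le_trans (Valuation.map_sub v _ _) (max_le ?_ (le_of_eq hee))
      rw [map_pow]; exact le_of_eq h
    have h3 : v X₃ * a ^ 2 ≤ ε * a ^ 2 := by
      rw [hDv, sq, h]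
      exact mul_le_mul' hnum hnum
    exact le_of_mul_le_mul_right h3 ha2

end ValDup

end Fermat.Agent.S05


end ZBS05_004_3

/-! ### bundled: `Fermat.Agent.S05.TropQPDup` -/
section ZBS05_004_4
/-
S05, tropical step (helper99, statement by helper5): the quasi-parallelogram law for doubling,
at the level of points: `ν(2P) ∼ ν(P)²` for every affine point `P` reducing to the node.
-/

set_option autoImplicit false

namespace Fermat.Agent.S05

open WeierstrassCurve WeierstrassCurve.Affine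

section QPDup

variable {K : Type*} [Field K] [DecidableEq K] {Γ₀ : Type*} [LinearOrderedCommGroupWithZero Γ₀]
  (v : Valuation K Γ₀) {W : WeierstrassCurve K} {r₁ e₂ e₃ : K}

omit [DecidableEq K] in
/-- The cubic in translated coordinates. -/
lemma qpDup_cub_eq (hb₂ : W.b₂ = -4 * (3 * r₁ + e₂ + e₃))
    (hb₄ : W.b₄ = 2 * (r₁ * (r₁ + e₂) + r₁ * (r₁ + e₃) + (r₁ + e₂) * (r₁ + e₃)))
    (hb₆ : W.b₆ = -4 * (r₁ * (r₁ + e₂) * (r₁ + e₃))) (x : K) :
    cub W x = 4 * ((x - r₁) * ((x - r₁) - e₂) * ((x - r₁) - e₃)) := by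
  rw [cub, hb₂, hb₄, hb₆]; ring

omit [DecidableEq K] in
/-- The duplication identity in translated coordinates. -/
lemma qpDup_identity (h4 : (4 : K) ≠ 0) (hb₂ : W.b₂ = -4 * (3 * r₁ + e₂ + e₃))
    (hb₄ : W.b₄ = 2 * (r₁ * (r₁ + e₂) + r₁ * (r₁ + e₃) + (r₁ + e₂) * (r₁ + e₃)))
    (hb₆ : W.b₆ = -4 * (r₁ * (r₁ + e₂) * (r₁ + e₃))) {x x₃ η : K}
    (hη : η ^ 2 = cub W x) (hD : x₃ * η ^ 2 = dupNum W x) :
    (x₃ - r₁) * η ^ 2 = ((x - r₁) ^ 2 - e₂ * e₃) ^ 2 := by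
  have hb₈ := W.b_relation
  simp only [cub] at hη
  simp only [dupNum] at hD
  rw [hb₂, hb₄, hb₆] at hη hb₈
  rw [hb₄, hb₆] at hD
  have : 4 * ((x₃ - r₁) * η ^ 2 - ((x - r₁) ^ 2 - e₂ * e₃) ^ 2) = 0 := by
    linear_combination 4 * hD - 4 * r₁ * hη - hb₈
  exact sub_eq_zero.mp ((mul_eq_zero.mp this).resolve_left h4)

/-- `1 ∼ ε · ε`. -/
lemma qpDup_sim_one {ε : Γ₀} : Sim ε 1 (ε * ε) :=
  Sim.of_mul_eq_sq (by rw [one_mul, sq])

/-- Quasi-parallelogram law, doubling case: `ν(2P) ∼ ν(P)²`. -/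
theorem qp_dup (hb₂ : W.b₂ = -4 * (3 * r₁ + e₂ + e₃))
    (hb₄ : W.b₄ = 2 * (r₁ * (r₁ + e₂) + r₁ * (r₁ + e₃) + (r₁ + e₂) * (r₁ + e₃)))
    (hb₆ : W.b₆ = -4 * (r₁ * (r₁ + e₂) * (r₁ + e₃)))
    (h2 : v 2 = 1) (he₃ : v e₃ = 1) (he₂ : v e₂ < 1) (he₂0 : e₂ ≠ 0)
    {x y : K} (h : W.toAffine.Nonsingular x y) (hx : v (x - r₁) < 1) :
    Sim (v e₂) (nu v r₁ (v e₂) (Point.some x y h + Point.some x y h))
      (nu v r₁ (v e₂) (Point.some x y h) * nu v r₁ (v e₂) (Point.some x y h)) := by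
  set ε := v e₂ with hε
  set X := x - r₁ with hX
  have hε0 : 0 < ε := by rw [hε]; exact zero_lt_iff.mpr ((Valuation.ne_zero_iff v).mpr he₂0)
  have hv4 : v (4 : K) = 1 := tropDup_v_four v h2
  have h4 : (4 : K) ≠ 0 := by
    intro h0
    rw [h0, map_zero] at hv4
    exact zero_ne_one hv4
  have hηsq : eta W x y ^ 2 = 4 * (X * (X - e₂) * (X - e₃)) := by
    rw [eta_sq W h.1, qpDup_cub_eq hb₂ hb₄ hb₆]
  -- the value of `ν(P)` in the two regions
  have hT0 : v X ≤ ε → nu v r₁ ε (Point.some x y h) = ε := fun hle => nu_of_le v r₁ ε he₂.le h hle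
  by_cases hη0 : eta W x y = 0
  · -- `2P = 0`
    rw [add_self_of_eta_eq h hη0, nu_zero]
    have hprod : X * (X - e₂) * (X - e₃) = 0 := by
      have : 4 * (X * (X - e₂) * (X - e₃)) = 0 := by rw [← hηsq, hη0]; ring
      exact (mul_eq_zero.mp this).resolve_left h4
    have hXle : v X ≤ ε := by
      rcases mul_eq_zero.mp hprod with h' | h'
      · rcases mul_eq_zero.mp h' with h'' | h''
        · rw [h'', map_zero]; exact hε0.le
        · rw [sub_eq_zero.mp h'']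
      · exfalso
        rw [sub_eq_zero.mp h', he₃] at hx
        exact lt_irrefl _ hx
    rw [hT0 hXle]
    exact qpDup_sim_one
  · obtain ⟨x₃, y₃, h₃, hadd, hdup⟩ := add_self_of_eta_ne h hη0
    rw [hadd]
    have hD : (x₃ - r₁) * eta W x y ^ 2 = (X ^ 2 - e₂ * e₃) ^ 2 :=
      qpDup_identity h4 hb₂ hb₄ hb₆ (eta_sq W h.1) hdup
    rcases le_or_gt (v X) ε with hle | hgt
    · -- region of `T`
      have h1 : 1 ≤ v (x₃ - r₁) := trop_dup_T0 v h2 he₃ he₂ he₂0 hηsq hD hη0 hle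
      rw [nu_of_ge v r₁ ε h₃ h1, hT0 hle]
      exact qpDup_sim_one
    · -- interior
      have ha : nu v r₁ ε (Point.some x y h) = v X := nu_of_mid v r₁ ε h hgt.le hx.le
      rw [ha]
      obtain ⟨c1, c2, c3⟩ := trop_dup_int v h2 he₃ he₂ he₂0 hηsq hD hη0 hgt hx
      have ha0 : 0 < v X := lt_trans hε0 hgt
      have ha2 : 0 < v X ^ 2 := pow_pos ha0 2
      have ha21 : v X ^ 2 ≤ 1 := pow_le_one₀ zero_le hx.le
      rcases lt_trichotomy ε (v X ^ 2) with hlt | heq | hlt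
      · have e := c1 hlt
        rw [nu_of_mid v r₁ ε h₃ (by rw [e]; exact hlt.le) (by rw [e]; exact ha21), e]
        exact Sim.of_eq (sq _)
      · have e := c3 heq.symm
        rw [nu_of_le v r₁ ε he₂.le h₃ e]
        exact Sim.of_eq (by rw [heq, sq])
      · have e := c2 hlt
        -- `ε < v X₃ < 1`
        have hlo : ε ≤ v (x₃ - r₁) := by
          by_contra hcon
          rw [not_le] at hcon
          have : v (x₃ - r₁) * v X ^ 2 < ε ^ 2 := by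
            calc v (x₃ - r₁) * v X ^ 2 ≤ ε * v X ^ 2 := mul_le_mul' hcon.le le_rfl
              _ = v X ^ 2 * ε := mul_comm _ _
              _ < ε * ε := mul_lt_mul_of_pos_right hlt hε0
              _ = ε ^ 2 := (sq ε).symm
          exact absurd e (ne_of_lt this)
        have hhi : v (x₃ - r₁) ≤ 1 := by
          by_contra hcon
          rw [not_le] at hcon
          have : ε ^ 2 < v (x₃ - r₁) * v X ^ 2 := by
            calc ε ^ 2 < v X ^ 2 := pow_lt_pow_left₀ hgt zero_le two_ne_zero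
              _ = 1 * v X ^ 2 := (one_mul _).symm
              _ < v (x₃ - r₁) * v X ^ 2 := mul_lt_mul_of_pos_right hcon ha2
          exact absurd e (ne_of_gt this)
        rw [nu_of_mid v r₁ ε h₃ hlo hhi]
        exact Sim.of_mul_eq_sq (by rw [← sq]; exact e)

end QPDup

end Fermat.Agent.S05


end ZBS05_004_4

/-! ### bundled: `Fermat.Agent.S05.TropInd` -/
section ZBS05_004_5
/-
S05, tropical step (helper63): the induction `ν(m•P) ∼ ν(P)^m` from the quasi-parallelogram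
law (taken as a hypothesis `hqp`), and the resulting statement on odd torsion points.
-/

set_option autoImplicit false

namespace Fermat.Agent.S05

open WeierstrassCurve WeierstrassCurve.Affine

section TropIndSec

variable {K : Type*} [Field K] [DecidableEq K] {Γ₀ : Type*} [LinearOrderedCommGroupWithZero Γ₀]

/-- The induction: from the quasi-parallelogram law, `ν(m•P) ∼ ν(P)^m` for all `m`. -/
theorem tropInd_sim_nsmul (v : Valuation K Γ₀) {W : WeierstrassCurve K} {r₁ e₂ : K}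
    (he₂0 : e₂ ≠ 0)
    (hqp : ∀ P₁ P₂ : W.toAffine.Point, nu v r₁ (v e₂) P₂ < 1 →
       (Sim (v e₂) (nu v r₁ (v e₂) (P₁ + P₂)) (nu v r₁ (v e₂) P₁ * nu v r₁ (v e₂) P₂) ∧
         Sim (v e₂) (nu v r₁ (v e₂) (P₁ - P₂)) (nu v r₁ (v e₂) P₁ / nu v r₁ (v e₂) P₂)) ∨
       (Sim (v e₂) (nu v r₁ (v e₂) (P₁ + P₂)) (nu v r₁ (v e₂) P₁ / nu v r₁ (v e₂) P₂) ∧
         Sim (v e₂) (nu v r₁ (v e₂) (P₁ - P₂)) (nu v r₁ (v e₂) P₁ * nu v r₁ (v e₂) P₂)))
    (P : W.toAffine.Point) (hP : nu v r₁ (v e₂) P < 1) (hP0 : nu v r₁ (v e₂) P ≠ 0) (m : ℕ) :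
    Sim (v e₂) (nu v r₁ (v e₂) (m • P)) (nu v r₁ (v e₂) P ^ (m : ℤ)) ∧
      Sim (v e₂) (nu v r₁ (v e₂) ((m + 1) • P)) (nu v r₁ (v e₂) P ^ ((m : ℤ) + 1)) := by
  have hε : v e₂ ≠ 0 := (Valuation.ne_zero_iff v).mpr he₂0
  induction m with
  | zero =>
    refine ⟨?_, ?_⟩
    · rw [zero_smul, nu_zero]
      exact Sim.of_eq (by simp)
    · rw [zero_add, one_smul]
      exact Sim.of_eq (by simp)
  | succ m ih =>
    obtain ⟨ih0, ih1⟩ := ih
    refine ⟨by exact_mod_cast ih1, ?_⟩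
    have hsum : (m + 1 + 1) • P = (m + 1) • P + P := succ_nsmul P (m + 1)
    have hdiff : (m + 1) • P - P = m • P := by
      rw [succ_nsmul]; abel
    have hcast : (((m + 1 : ℕ) : ℤ) + 1) = (m : ℤ) + 1 + 1 := by push_cast; ring
    have hm1 : ((m : ℤ) + 1 - 1) = (m : ℤ) := by ring
    rw [hsum, hcast]
    have hstep := Sim.step (ε := v e₂) hP0 ((m : ℤ) + 1) ih1
    rw [hm1] at hstep
    rcases hqp ((m + 1) • P) P hP with ⟨hA1, hA2⟩ | ⟨hB1, hB2⟩
    · rcases hstep with ⟨hi1, _⟩ | ⟨hii1, hii2⟩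
      · exact Sim.trans hε hA1 hi1
      · rw [hdiff] at hA2
        -- N((m+2)P) ∼ a*ν ∼ ν^m ∼ N(mP) ∼ a/ν ∼ ν^(m+2)
        exact Sim.trans hε (Sim.trans hε (Sim.trans hε (Sim.trans hε hA1 hii1)
          (Sim.symm hε ih0)) hA2) hii2
    · rcases hstep with ⟨hi1, hi2⟩ | ⟨_, hii2⟩
      · rw [hdiff] at hB2
        -- N((m+2)P) ∼ a/ν ∼ ν^m ∼ N(mP) ∼ a*ν ∼ ν^(m+2)
        exact Sim.trans hε (Sim.trans hε (Sim.trans hε (Sim.trans hε hB1 hi2)
          (Sim.symm hε ih0)) hB2) hi1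
      · exact Sim.trans hε hB1 hii2

/-- **Tropical step from the quasi-parallelogram law.** An odd-torsion point with
`v (x - r₁) < 1` satisfies `v e₂ < v (x - r₁)` and `v (x - r₁) ^ p ∈ (v e₂) ^ (2ℤ)`. -/
theorem tropical_torsion_of_qp (v : Valuation K Γ₀) {W : WeierstrassCurve K} {r₁ e₂ : K}
    (he₂ : v e₂ < 1) (he₂0 : e₂ ≠ 0)
    (hqp : ∀ P₁ P₂ : W.toAffine.Point, nu v r₁ (v e₂) P₂ < 1 →
       (Sim (v e₂) (nu v r₁ (v e₂) (P₁ + P₂)) (nu v r₁ (v e₂) P₁ * nu v r₁ (v e₂) P₂) ∧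
         Sim (v e₂) (nu v r₁ (v e₂) (P₁ - P₂)) (nu v r₁ (v e₂) P₁ / nu v r₁ (v e₂) P₂)) ∨
       (Sim (v e₂) (nu v r₁ (v e₂) (P₁ + P₂)) (nu v r₁ (v e₂) P₁ / nu v r₁ (v e₂) P₂) ∧
         Sim (v e₂) (nu v r₁ (v e₂) (P₁ - P₂)) (nu v r₁ (v e₂) P₁ * nu v r₁ (v e₂) P₂)))
    {p : ℕ} (hp : Odd p) {x y : K} (h : W.toAffine.Nonsingular x y)
    (htors : p • (Point.some x y h) = 0) (hx : v (x - r₁) < 1) :
    v e₂ < v (x - r₁) ∧ ∃ k : ℤ, v (x - r₁) ^ p = v e₂ ^ (2 * k) := by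
  have hε : v e₂ ≠ 0 := (Valuation.ne_zero_iff v).mpr he₂0
  have hε0 : 0 < v e₂ := zero_lt_iff.mpr hε
  -- ν := N P
  have hν1 : nu v r₁ (v e₂) (Point.some x y h) < 1 := by
    rw [nu_some, clip]
    exact lt_of_le_of_lt (min_le_right _ _) (max_lt he₂ hx)
  have hνε : v e₂ ≤ nu v r₁ (v e₂) (Point.some x y h) := le_nu v r₁ (v e₂) he₂.le _
  have hν0 : nu v r₁ (v e₂) (Point.some x y h) ≠ 0 := ne_of_gt (lt_of_lt_of_le hε0 hνε)
  have hind := (tropInd_sim_nsmul v he₂0 hqp (Point.some x y h) hν1 hν0 p).1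
  rw [htors, nu_zero] at hind
  -- ν ^ p = ε ^ (2k)
  have hpow : ∃ k : ℤ, nu v r₁ (v e₂) (Point.some x y h) ^ (p : ℤ) = v e₂ ^ (2 * k) := by
    obtain ⟨k, hk | hk⟩ := hind
    · refine ⟨-k, ?_⟩
      have hk0 : v e₂ ^ (2 * k) ≠ 0 := zpow_ne_zero _ hε
      apply mul_right_cancel₀ hk0
      rw [← hk, ← zpow_add₀ hε]
      have : 2 * -k + 2 * k = 0 := by ring
      rw [this, zpow_zero]
    · exact ⟨k, by rw [← hk, one_mul]⟩
  have hlt : v e₂ < v (x - r₁) := by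
    by_contra hcon
    rw [not_lt] at hcon
    rw [nu_of_le v r₁ (v e₂) he₂.le h hcon] at hpow
    obtain ⟨k, hk⟩ := hpow
    have hinj : (p : ℤ) = 2 * k := by
      rcases lt_trichotomy (p : ℤ) (2 * k) with hlt' | heq | hgt
      · exact absurd hk (ne_of_gt (zpow_lt_zpow_right_of_lt_one₀ hε0 he₂ hlt'))
      · exact heq
      · exact absurd hk (ne_of_lt (zpow_lt_zpow_right_of_lt_one₀ hε0 he₂ hgt))
    obtain ⟨j, hj⟩ := hp
    rw [hj] at hinj
    push_cast at hinj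
    omega
  refine ⟨hlt, ?_⟩
  rw [nu_of_mid v r₁ (v e₂) h hlt.le hx.le] at hpow
  obtain ⟨k, hk⟩ := hpow
  exact ⟨k, by rw [← hk, zpow_natCast]⟩

end TropIndSec

end Fermat.Agent.S05


end ZBS05_004_5

/-! ### bundled: `Fermat.Agent.S05.Tropical` -/
section ZBS05_004_6
/-
S05, tropical step (helper5; pieces by helper63 and helper99): for a Weierstrass curve `W` over a
valued field whose 2-division cubic is `4 (x - r₁) (x - r₁ - e₂) (x - r₁ - e₃)` with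
`v 2 = 1 = v e₃`, `0 < v e₂ < 1` (a node at `x ≡ r₁`), an odd `p` and a `p`-torsion point `(x, y)`
with `v (x - r₁) < 1`:   `v e₂ < v (x - r₁)`  and  `v (x - r₁) ^ p ∈ v e₂ ^ (2ℤ)`.

Route: `x`-only (Kummer) identities for `x(P₁ ± P₂)` (`Coords`, `TropAlg`) ⇒ quasi-parallelogram law
`qp` for the clipped valuation `nu` (`TropNP`, `TropCases`, `TropDup`, `TropQP`, `TropQPDup`)
⇒ induction `nu (m • P) ∼ nu P ^ m` (`TropInd`).
-/

set_option autoImplicit false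

namespace Fermat.Agent.S05

open WeierstrassCurve WeierstrassCurve.Affine

section Full

variable {K : Type*} [Field K] [DecidableEq K] {Γ₀ : Type*} [LinearOrderedCommGroupWithZero Γ₀]
  (v : Valuation K Γ₀) {W : WeierstrassCurve K} {r₁ e₂ e₃ : K}

/-- The quasi-parallelogram law for the clipped valuation `nu`. -/
theorem qp (hb₂ : W.b₂ = -4 * (3 * r₁ + e₂ + e₃))
    (hb₄ : W.b₄ = 2 * (r₁ * (r₁ + e₂) + r₁ * (r₁ + e₃) + (r₁ + e₂) * (r₁ + e₃)))
    (hb₆ : W.b₆ = -4 * (r₁ * (r₁ + e₂) * (r₁ + e₃)))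
    (h2 : v (2 : K) = 1) (he₃ : v e₃ = 1) (he₂ : v e₂ < 1) (he₂0 : e₂ ≠ 0)
    (P₁ P₂ : W.toAffine.Point) (hP₂ : nu v r₁ (v e₂) P₂ < 1) :
    (Sim (v e₂) (nu v r₁ (v e₂) (P₁ + P₂)) (nu v r₁ (v e₂) P₁ * nu v r₁ (v e₂) P₂) ∧
      Sim (v e₂) (nu v r₁ (v e₂) (P₁ - P₂)) (nu v r₁ (v e₂) P₁ / nu v r₁ (v e₂) P₂)) ∨
    (Sim (v e₂) (nu v r₁ (v e₂) (P₁ + P₂)) (nu v r₁ (v e₂) P₁ / nu v r₁ (v e₂) P₂) ∧
      Sim (v e₂) (nu v r₁ (v e₂) (P₁ - P₂)) (nu v r₁ (v e₂) P₁ * nu v r₁ (v e₂) P₂)) := by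
  have hε0 : 0 < v e₂ := zero_lt_iff.mpr ((Valuation.ne_zero_iff v).mpr he₂0)
  have hν0 : nu v r₁ (v e₂) P₂ ≠ 0 := ne_of_gt (lt_of_lt_of_le hε0 (le_nu v r₁ (v e₂) he₂.le P₂))
  obtain ⟨x₂, y₂, h₂, rfl, hx₂⟩ := exists_of_nu_lt_one v r₁ (v e₂) hP₂
  cases P₁ with
  | zero =>
    left
    rw [show (Point.zero : W.toAffine.Point) = 0 from rfl, zero_add, zero_sub, nu_neg, nu_zero]
    exact ⟨Sim.of_eq (one_mul _).symm, Sim.of_mul_eq_one (by rw [one_div, mul_inv_cancel₀ hν0])⟩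
  | some x₁ y₁ h₁ =>
    by_cases hx : x₁ = x₂
    · subst hx
      have hnu : nu v r₁ (v e₂) (Point.some x₁ y₁ h₁) = nu v r₁ (v e₂) (Point.some x₁ y₂ h₂) :=
        rfl
      have hdup := qp_dup v hb₂ hb₄ hb₆ h2 he₃ he₂ he₂0 h₂ hx₂
      rcases Affine.Y_eq_of_X_eq h₁.1 h₂.1 rfl with hy | hy
      · subst hy
        left
        rw [sub_self, nu_zero]
        exact ⟨hdup, Sim.of_eq (div_self hν0).symm⟩
      · have hneg : Point.some x₁ y₁ h₁ = -Point.some x₁ y₂ h₂ := by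
          rw [Point.neg_some]
          congr
        right
        rw [hnu]
        rw [hneg, neg_add_cancel, nu_zero, ← neg_add', nu_neg]
        exact ⟨Sim.of_eq (div_self hν0).symm, hdup⟩
    · exact qp_of_X_ne v hb₂ hb₄ hb₆ h2 he₃ he₂ he₂0 h₁ h₂ hx hx₂


/-- **Tropical step.** A `p`-torsion point (`p` odd) reducing to the node has
`v e₂ < v (x - r₁)` and `v (x - r₁) ^ p ∈ v e₂ ^ (2ℤ)`. -/
theorem tropical_torsion (hb₂ : W.b₂ = -4 * (3 * r₁ + e₂ + e₃))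
    (hb₄ : W.b₄ = 2 * (r₁ * (r₁ + e₂) + r₁ * (r₁ + e₃) + (r₁ + e₂) * (r₁ + e₃)))
    (hb₆ : W.b₆ = -4 * (r₁ * (r₁ + e₂) * (r₁ + e₃)))
    (h2 : v (2 : K) = 1) (he₃ : v e₃ = 1) (he₂ : v e₂ < 1) (he₂0 : e₂ ≠ 0)
    {p : ℕ} (hp : Odd p) {x y : K} (h : W.toAffine.Nonsingular x y)
    (htors : p • (Point.some x y h) = 0) (hx : v (x - r₁) < 1) :
    v e₂ < v (x - r₁) ∧ ∃ k : ℤ, v (x - r₁) ^ p = v e₂ ^ (2 * k) :=
  tropical_torsion_of_qp v he₂ he₂0
    (fun P₁ P₂ hP₂ => qp v hb₂ hb₄ hb₆ h2 he₃ he₂ he₂0 P₁ P₂ hP₂) hp h htors hx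

/-- Variant with `v e₂ = v d ^ p`: then `v (x - r₁) = v d ^ (2k)` for some integer `k`. -/
theorem tropical_torsion_root (hb₂ : W.b₂ = -4 * (3 * r₁ + e₂ + e₃))
    (hb₄ : W.b₄ = 2 * (r₁ * (r₁ + e₂) + r₁ * (r₁ + e₃) + (r₁ + e₂) * (r₁ + e₃)))
    (hb₆ : W.b₆ = -4 * (r₁ * (r₁ + e₂) * (r₁ + e₃)))
    (h2 : v (2 : K) = 1) (he₃ : v e₃ = 1) (he₂ : v e₂ < 1) (he₂0 : e₂ ≠ 0)
    {p : ℕ} (hp : Odd p) {d : K} (hd : v e₂ = v d ^ p) {x y : K}
    (h : W.toAffine.Nonsingular x y)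
    (htors : p • (Point.some x y h) = 0) (hx : v (x - r₁) < 1) :
    v e₂ < v (x - r₁) ∧ ∃ k : ℤ, v (x - r₁) = v (d ^ (2 * k)) := by
  obtain ⟨h1, k, hk⟩ := tropical_torsion v hb₂ hb₄ hb₆ h2 he₃ he₂ he₂0 hp h htors hx
  refine ⟨h1, k, ?_⟩
  have hp0 : p ≠ 0 := by
    rintro rfl
    exact Nat.not_odd_zero hp
  rw [map_zpow₀]
  have : v (x - r₁) ^ p = (v d ^ (2 * k)) ^ p := by
    rw [hk, hd, ← zpow_natCast (v d) p, ← zpow_mul, ← zpow_natCast (v d ^ (2 * k)) p, ← zpow_mul]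
    congr 1; ring
  exact (pow_left_inj₀ zero_le zero_le hp0).mp this

end Full

end Fermat.Agent.S05


end ZBS05_004_6

/-! ### bundled: `Fermat.Agent.R38.EPM.LiftPt` -/
section ZBS05_004_7
/-
ROW 38, piece EPEU-MULT / EPM-LIFT (helper68), part 2: lifting of torsion points.

`epml_lift_nonsing` : lifting at a point with nonsingular reduction (coordinates; the proof of
`EC.ecflat_lift` without good reduction).
`epml_local_lift`  : `W₀` over `ℚ`, integral at `A`, 2-division cubic with at most a node at `r₁`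
(`v e₂ ≤ 1 = v e₃ = v (e₃ - e₂)`), and `v e₂ = v d ^ p` (`d ∈ ℚ`) in the node case: every point
`P` killed by the odd number `p` is congruent modulo the kernel of reduction to a point fixed by
the inertia group.
-/

set_option autoImplicit false
set_option linter.unusedSectionVars false
set_option linter.unusedVariables false

namespace Fermat.Agent.R38

open WeierstrassCurve WeierstrassCurve.Affine Fermat.Agent.S05 Fermat.Agent.EC Fermat.Agent.W1

section Coord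

variable {A : ValuationSubring Qb} {E : WeierstrassCurve Qb}

/-- **Lifting at a point with nonsingular reduction** (coordinates). -/
theorem epml_lift_nonsing {S : Set A} (hS : IsTeich A S)
    (h₁ : E.a₁ ∈ A) (h₂ : E.a₂ ∈ A) (h₃ : E.a₃ ∈ A) (h₄ : E.a₄ ∈ A) (h₆ : E.a₆ ∈ A)
    (f : ∀ σ ∈ A.inertiaSubgroupIn ℚ, σ E.a₁ = E.a₁ ∧ σ E.a₂ = E.a₂ ∧ σ E.a₃ = E.a₃ ∧
      σ E.a₄ = E.a₄ ∧ σ E.a₆ = E.a₆)
    (h2 : A.valuation (2 : Qb) = 1)
    {x y : Qb} (h : E.toAffine.Equation x y) (hx : x ∈ A)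
    (hns : A.valuation (eta E x y) = 1 ∨ A.valuation (dcub E x) = 1) :
    ∃ x' y' : Qb, E.toAffine.Equation x' y' ∧ x' ∈ A ∧
      (∀ σ ∈ A.inertiaSubgroupIn ℚ, σ x' = x' ∧ σ y' = y') ∧
      A.valuation (x' - x) < 1 ∧ A.valuation (eta E x' y' - eta E x y) < 1 := by
  classical
  have hy : y ∈ A := ecflat_y_mem h₁ h₂ h₃ h₄ h₆ h hx
  have h2A : (2 : Qb) ∈ A := (A.valuation_le_one_iff _).1 h2.le
  have hinert : ∀ σ ∈ A.inertiaSubgroupIn ℚ, ∀ a ∈ A,
      (σ : Qb ≃ₐ[ℚ] Qb).toRingEquiv.toRingHom a - a ∈ A.nonunits :=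
    fun σ hσ a ha => inertia_apply_sub_mem_nonunits hσ ha
  -- the conclusion from the two congruences
  have hfin : ∀ x' y' : Qb, x' - x ∈ A.nonunits → y' - y ∈ A.nonunits →
      A.valuation (x' - x) < 1 ∧ A.valuation (eta E x' y' - eta E x y) < 1 := by
    intro x' y' hxx hyy
    refine ⟨(A.mem_nonunits_iff).1 hxx, (A.mem_nonunits_iff).1 ?_⟩
    have e : eta E x' y' - eta E x y = 2 * (y' - y) + E.a₁ * (x' - x) := by
      simp only [eta]; ring
    rw [e]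
    exact add_mem (vs_mul_mem_nonunits A h2A hyy) (vs_mul_mem_nonunits A h₁ hxx)
  by_cases hu : 2 * y + E.a₁ * x + E.a₃ ∈ A.nonunits
  · -- `η ∈ 𝔪`: the derivative in the `x`-direction is a unit
    have hd : A.valuation (dcub E x) = 1 := by
      rcases hns with h' | h'
      · exfalso
        have : A.valuation (eta E x y) < 1 := (A.mem_nonunits_iff).1 hu
        rw [h'] at this
        exact lt_irrefl _ this
      · exact h'
    have hu' : 3 * x ^ 2 + 2 * E.a₂ * x + E.a₄ - E.a₁ * y ∉ A.nonunits := by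
      intro hm
      have e : dcub E x = 2 * (3 * x ^ 2 + 2 * E.a₂ * x + E.a₄ - E.a₁ * y)
          + E.a₁ * (2 * y + E.a₁ * x + E.a₃) := by
        simp only [dcub, WeierstrassCurve.b₂, WeierstrassCurve.b₄]; ring
      have hm' : dcub E x ∈ A.nonunits := by
        rw [e]
        exact add_mem (vs_mul_mem_nonunits A h2A hm) (vs_mul_mem_nonunits A h₁ hu)
      rw [ValuationSubring.mem_nonunits_iff, hd] at hm'
      exact lt_irrefl _ hm'
    obtain ⟨s, hsS, hs⟩ := hS.surj (IsLocalRing.residue A ⟨y, hy⟩)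
    have hsy : (s : Qb) - y ∈ A.nonunits :=
      (Fermat.Agent.RED.residue_eq_iff_sub_mem_nonunits (a := s) (b := ⟨y, hy⟩)).1 hs
    obtain ⟨x₁, hx₁, hE, hxx⟩ := ecflat_exists_X h₁ h₂ h₃ h₄ h₆ h hx s.2 hsy
    obtain ⟨k1, k2⟩ := hfin x₁ s hxx hsy
    refine ⟨x₁, s, hE, hx₁, fun σ hσ => ⟨?_, hS.fixed σ hσ s hsS⟩, k1, k2⟩
    obtain ⟨f₁, f₂, f₃, f₄, f₆⟩ := f σ hσ
    exact ecflat_fix_X (σ : Qb ≃ₐ[ℚ] Qb).toRingEquiv.toRingHom (hinert σ hσ)
      f₁ f₂ f₃ f₄ f₆ h₁ h₂ hx hx₁ hsy hxx (hS.fixed σ hσ s hsS) hE hu'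
  · -- `η` is a unit
    obtain ⟨s, hsS, hs⟩ := hS.surj (IsLocalRing.residue A ⟨x, hx⟩)
    have hsx : (s : Qb) - x ∈ A.nonunits :=
      (Fermat.Agent.RED.residue_eq_iff_sub_mem_nonunits (a := s) (b := ⟨x, hx⟩)).1 hs
    obtain ⟨y₁, hy₁, hE, hyy⟩ := ecflat_exists_Y h₁ h₂ h₃ h₄ h₆ h hx s.2 hsx
    obtain ⟨k1, k2⟩ := hfin s y₁ hsx hyy
    refine ⟨s, y₁, hE, s.2, fun σ hσ => ⟨hS.fixed σ hσ s hsS, ?_⟩, k1, k2⟩
    obtain ⟨f₁, f₂, f₃, f₄, f₆⟩ := f σ hσ
    exact ecflat_fix_Y (σ : Qb ≃ₐ[ℚ] Qb).toRingEquiv.toRingHom (hinert σ hσ)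
      f₁ f₂ f₃ f₄ f₆ h₁ hy₁ hsx hyy (hS.fixed σ hσ s hsS) hE hu

end Coord

section Pt

variable (A : ValuationSubring Qb)

/-- **Lifting of `p`-torsion points** modulo the kernel of reduction (at most a node at `r₁`,
`v e₂ = v d ^ p` in the node case). -/
theorem epml_local_lift {S : Set A} (hS : IsTeich A S) (W₀ : WeierstrassCurve ℚ)
    (h₁ : (W₀.baseChange Qb).a₁ ∈ A) (h₂ : (W₀.baseChange Qb).a₂ ∈ A)
    (h₃ : (W₀.baseChange Qb).a₃ ∈ A) (h₄ : (W₀.baseChange Qb).a₄ ∈ A)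
    (h₆ : (W₀.baseChange Qb).a₆ ∈ A)
    (h2 : A.valuation (2 : Qb) = 1) (hΔ : (W₀.baseChange Qb).Δ ≠ 0)
    {p : ℕ} (hp : Odd p)
    (r₁ e₂ e₃ : Qb) (fr : ∀ σ : Qb ≃ₐ[ℚ] Qb, σ r₁ = r₁) (hr₁ : r₁ ∈ A)
    (hr : RootData (W₀.baseChange Qb) r₁ e₂ e₃)
    (he₃ : A.valuation e₃ = 1) (he₂₃ : A.valuation (e₃ - e₂) = 1) (he₂ : A.valuation e₂ ≤ 1)
    (hnode : A.valuation e₂ < 1 →
      e₂ ≠ 0 ∧ ∃ d : ℚ, A.valuation e₂ = A.valuation (algebraMap ℚ Qb d) ^ p)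
    (P : (W₀⁄Qb).Point) (htors : p • P = 0) :
    ∃ b : (W₀⁄Qb).Point, (∀ σ ∈ A.inertiaSubgroupIn ℚ, σ • b = b) ∧ ecflat_InKer A (P - b) := by
  classical
  have f : ∀ σ ∈ A.inertiaSubgroupIn ℚ, σ (W₀.baseChange Qb).a₁ = (W₀.baseChange Qb).a₁ ∧
      σ (W₀.baseChange Qb).a₂ = (W₀.baseChange Qb).a₂ ∧
      σ (W₀.baseChange Qb).a₃ = (W₀.baseChange Qb).a₃ ∧
      σ (W₀.baseChange Qb).a₄ = (W₀.baseChange Qb).a₄ ∧
      σ (W₀.baseChange Qb).a₆ = (W₀.baseChange Qb).a₆ :=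
    fun σ _ => ⟨σ.commutes _, σ.commutes _, σ.commutes _, σ.commutes _, σ.commutes _⟩
  obtain ⟨hb₂, hb₄, hb₆, hb₈⟩ := kernel_b_mem A h₁ h₂ h₃ h₄ h₆
  have hvb₂ : A.valuation (W₀.baseChange Qb).b₂ ≤ 1 := (A.valuation_le_one_iff _).2 hb₂
  have hvb₄ : A.valuation (W₀.baseChange Qb).b₄ ≤ 1 := (A.valuation_le_one_iff _).2 hb₄
  rcases P with _ | ⟨x, y, h⟩
  · refine ⟨0, fun σ _ => rfl, ?_⟩
    rw [sub_zero]
    exact trivial
  by_cases hxA : x ∈ A
  swap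
  · refine ⟨0, fun σ _ => rfl, ?_⟩
    rw [sub_zero]
    exact hxA
  have hyA : y ∈ A := ecflat_y_mem h₁ h₂ h₃ h₄ h₆ h.1 hxA
  have hvx : A.valuation x ≤ 1 := (A.valuation_le_one_iff _).2 hxA
  have hηA : eta (W₀.baseChange Qb) x y ∈ A := by
    simp only [eta]
    exact add_mem (add_mem (mul_mem (ofNat_mem A 2) hyA) (mul_mem h₁ hxA)) h₃
  have hvη : A.valuation (eta (W₀.baseChange Qb) x y) ≤ 1 := (A.valuation_le_one_iff _).2 hηA
  -- the endgame
  suffices hmain : ∃ (x' y' : Qb) (h' : (W₀.baseChange Qb).toAffine.Nonsingular x' y'),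
      (∀ σ ∈ A.inertiaSubgroupIn ℚ, σ x' = x' ∧ σ y' = y') ∧
      ((Point.some x' y' h' : (W₀⁄Qb).Point) ≠ Point.some x y h →
        ∃ (x'' y'' : Qb) (h'' : (W₀.baseChange Qb).toAffine.Nonsingular x'' y''),
          (Point.some x' y' h' : (W₀⁄Qb).Point) - Point.some x y h = Point.some x'' y'' h'' ∧
            1 < A.valuation x'') by
    obtain ⟨x', y', h', hfix, hsub⟩ := hmain
    refine ⟨Point.some x' y' h', fun σ hσ =>
      galois_smul_some_eq_self σ h' (hfix σ hσ).1 (hfix σ hσ).2, ?_⟩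
    by_cases hne : (Point.some x' y' h' : (W₀⁄Qb).Point) = Point.some x y h
    · rw [hne, sub_self]
      exact trivial
    · obtain ⟨x'', y'', h'', hQ, hlt⟩ := hsub hne
      have e : (Point.some x y h : (W₀⁄Qb).Point) - Point.some x' y' h'
          = -(Point.some x'' y'' h'') := by rw [← hQ, neg_sub]
      rw [e, Point.neg_some]
      show x'' ∉ A
      intro hx''
      exact absurd ((A.valuation_le_one_iff _).2 hx'') (not_le.2 hlt)
  -- nonsingular reduction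
  have hnonsing : (A.valuation (eta (W₀.baseChange Qb) x y) = 1 ∨
      A.valuation (dcub (W₀.baseChange Qb) x) = 1) →
      ∃ (x' y' : Qb) (h' : (W₀.baseChange Qb).toAffine.Nonsingular x' y'),
      (∀ σ ∈ A.inertiaSubgroupIn ℚ, σ x' = x' ∧ σ y' = y') ∧
      ((Point.some x' y' h' : (W₀⁄Qb).Point) ≠ Point.some x y h →
        ∃ (x'' y'' : Qb) (h'' : (W₀.baseChange Qb).toAffine.Nonsingular x'' y''),
          (Point.some x' y' h' : (W₀⁄Qb).Point) - Point.some x y h = Point.some x'' y'' h'' ∧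
            1 < A.valuation x'') := by
    intro hns
    obtain ⟨x', y', hE', hx'A, hfix, hxx, hηη⟩ :=
      epml_lift_nonsing hS h₁ h₂ h₃ h₄ h₆ f h2 h.1 hxA hns
    have h' : (W₀.baseChange Qb).toAffine.Nonsingular x' y' :=
      (Affine.equation_iff_nonsingular_of_Δ_ne_zero hΔ).1 hE'
    exact ⟨x', y', h', hfix, fun hne =>
      key_nonsing _ hvb₂ hvb₄ h2 h h' hvx hvη hxx hηη hne hns⟩
  have hη_sq : eta (W₀.baseChange Qb) x y ^ 2 = 4 * (x - r₁) * (x - r₁ - e₂) * (x - r₁ - e₃) := by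
    rw [eta_sq _ h.1, hr.cub_eq]
  have hdc := hr.dcub_eq x
  have hs₁ : A.valuation (x - r₁) ≤ 1 := (A.valuation_le_one_iff _).2 (sub_mem hxA hr₁)
  have he₂A : e₂ ∈ A := (A.valuation_le_one_iff _).1 he₂
  have he₃A : e₃ ∈ A := (A.valuation_le_one_iff _).1 he₃.le
  have hs₂ : A.valuation (x - r₁ - e₂) ≤ 1 :=
    (A.valuation_le_one_iff _).2 (sub_mem (sub_mem hxA hr₁) he₂A)
  have hs₃ : A.valuation (x - r₁ - e₃) ≤ 1 :=
    (A.valuation_le_one_iff _).2 (sub_mem (sub_mem hxA hr₁) he₃A)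
  rcases hs₁.lt_or_eq with hlt | heq
  · -- `x ≡ r₁`
    have hs₃' : A.valuation (x - r₁ - e₃) = 1 := by
      rw [Valuation.map_sub_eq_of_lt_right _ (by rw [he₃]; exact hlt), he₃]
    rcases he₂.lt_or_eq with he₂lt | he₂eq
    · -- the node
      obtain ⟨he₂0, d, hd⟩ := hnode he₂lt
      obtain ⟨hlow, k, hk⟩ := tropical_torsion_root A.valuation hr.hb₂ hr.hb₄ hr.hb₆ h2 he₃
        he₂lt he₂0 hp hd h htors hlt
      obtain ⟨x', y', hE', hx'A, hfix, hxx, ht, htt⟩ :=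
        epml_lift_node hS h₁ h₂ h₃ h₄ h₆ f h2 hr hr₁ (fun σ _ => fr σ) he₃ he₂lt h.1 hlow hlt
          (c := (algebraMap ℚ Qb d) ^ (2 * k))
          (fun σ _ => by rw [map_zpow₀, σ.commutes]) hk
      have h' : (W₀.baseChange Qb).toAffine.Nonsingular x' y' :=
        (Affine.equation_iff_nonsingular_of_Δ_ne_zero hΔ).1 hE'
      have hX0 : x - r₁ ≠ 0 := by
        intro h0
        rw [h0, map_zero] at hlow
        exact not_lt_zero hlow
      exact ⟨x', y', h', hfix, fun hne =>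
        key_node _ hvb₂ h2 h h' r₁ hvx ((A.valuation_le_one_iff _).2 hx'A) hX0 hxx ht htt hne⟩
    · -- `e₂` is a unit: no node
      have hs₂' : A.valuation (x - r₁ - e₂) = 1 := by
        rw [Valuation.map_sub_eq_of_lt_right _ (by rw [he₂eq]; exact hlt), he₂eq]
      exact hnonsing (hns_of_two_units A.valuation h2 (η := eta (W₀.baseChange Qb) x y)
        (c := 0) (d := dcub (W₀.baseChange Qb) x) (u₁ := x - r₁ - e₂) (u₂ := x - r₁ - e₃)
        (s := x - r₁) (hη_sq.trans (by ring)) (hdc.trans (by ring)) hs₂' hs₃' hs₁)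
  · -- `x ≢ r₁`
    rcases hs₂.lt_or_eq with hlt₂ | heq₂
    · have hs₃' : A.valuation (x - r₁ - e₃) = 1 := by
        have e : x - r₁ - e₃ = (x - r₁ - e₂) - (e₃ - e₂) := by ring
        rw [e, Valuation.map_sub_eq_of_lt_right _ (by rw [he₂₃]; exact hlt₂), he₂₃]
      exact hnonsing (hns_of_two_units A.valuation h2 (η := eta (W₀.baseChange Qb) x y)
        (c := 0) (d := dcub (W₀.baseChange Qb) x) (u₁ := x - r₁) (u₂ := x - r₁ - e₃)
        (s := x - r₁ - e₂) (hη_sq.trans (by ring)) (hdc.trans (by ring)) heq hs₃' hs₂)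
    · exact hnonsing (hns_of_two_units A.valuation h2 (η := eta (W₀.baseChange Qb) x y)
        (c := 0) (d := dcub (W₀.baseChange Qb) x) (u₁ := x - r₁) (u₂ := x - r₁ - e₂)
        (s := x - r₁ - e₃) (hη_sq.trans (by ring)) (hdc.trans (by ring)) heq heq₂ hs₃)

end Pt

end Fermat.Agent.R38


end ZBS05_004_7
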