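/- GENERATED FILE (helper35, build-time optimisation, NOTES/ZB.md): verbatim concatenation of the modules
   Fermat.Agent.S04.FreyInt
   Fermat.Agent.R38.Glue5
   Fermat.Agent.R38.EPM.LiftFrey
   Do not edit; do not import together with these modules. -/
import Mathlib
import Fermat.Prelude.Def_FLTPrelim_FreyPackage
import Fermat.Prelude.Def_FLTPrelim_Modularity
import Fermat.Agent.ZB.RED_001
import Fermat.Agent.ZB.STB_002
import Fermat.Agent.ZB.INJ_034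
import Fermat.Agent.ZB.W1_001
import Fermat.Agent.ZB.RIB_001
import Fermat.Agent.ZB.EC_002
import Fermat.Agent.ZB.EC_003
import Fermat.Agent.ZB.S05_004
import Fermat.Agent.ZB.EC_007

/-! ### bundled: `Fermat.Agent.S04.FreyInt` -/
section ZBS04_001_0

/-!
# Elementary facts about the integral Frey curve (helper for S04 and friends)

* `Fermat.Agent.S04.freyCurveInt_map` : `P.freyCurveInt.map (Int.castRingHom ℚ) = P.freyCurve`
* `Fermat.Agent.S04.freyCurveInt_Δ_ne_zero`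
* `Fermat.Agent.S04.freyCurveInt_isSemistableModel`
* `Fermat.Agent.S04.frey_isModular_of_semistable_modular` : S04 from the statement of S60.
-/

set_option autoImplicit false

namespace Fermat.Agent.S04

open WeierstrassCurve

/-- `a ^ p ≡ 3 mod 4`. -/
lemma frey_a_pow_mod_four (P : FreyPackage) : ((P.a ^ P.p : ℤ) : ZMod 4) = 3 := by
  have h := P.ha4
  obtain ⟨k, hk⟩ := P.hp_odd
  push_cast
  rw [h, hk, pow_succ, pow_mul]
  have : (3 : ZMod 4) ^ 2 = 1 := by decide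
  rw [this, one_pow, one_mul]

/-- `32 ∣ b ^ p`. -/
lemma frey_thirtytwo_dvd_b_pow (P : FreyPackage) : (32 : ℤ) ∣ P.b ^ P.p := by
  have h2 : (2 : ℤ) ∣ P.b := (ZMod.intCast_zmod_eq_zero_iff_dvd P.b 2).1 P.hb2
  have h5 : (2 : ℤ) ^ 5 ∣ P.b ^ P.p :=
    (pow_dvd_pow_of_dvd h2 5).trans (pow_dvd_pow _ P.hp5)
  simpa using h5

/-- `4 ∣ b ^ p - 1 - a ^ p`. -/
lemma frey_four_dvd (P : FreyPackage) : (4 : ℤ) ∣ P.b ^ P.p - 1 - P.a ^ P.p := by
  have hA := frey_a_pow_mod_four P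
  have hB : (4 : ℤ) ∣ P.b ^ P.p := Dvd.dvd.trans (by norm_num) (frey_thirtytwo_dvd_b_pow P)
  have hB' : ((P.b ^ P.p : ℤ) : ZMod 4) = 0 :=
    (ZMod.intCast_zmod_eq_zero_iff_dvd _ 4).2 hB
  apply (ZMod.intCast_zmod_eq_zero_iff_dvd _ 4).1
  rw [Int.cast_sub, Int.cast_sub, hA, hB']
  decide

/-- `16 ∣ -(a ^ p) * b ^ p`. -/
lemma frey_sixteen_dvd (P : FreyPackage) : (16 : ℤ) ∣ -(P.a ^ P.p) * (P.b ^ P.p) := by
  have hB : (16 : ℤ) ∣ P.b ^ P.p := Dvd.dvd.trans (by norm_num) (frey_thirtytwo_dvd_b_pow P)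
  exact Dvd.dvd.mul_left hB _

/-- The integral Frey curve is a model of the rational Frey curve (on the nose). -/
theorem freyCurveInt_map (P : FreyPackage) :
    P.freyCurveInt.map (Int.castRingHom ℚ) = P.freyCurve := by
  obtain ⟨m, hm⟩ := frey_four_dvd P
  obtain ⟨n, hn⟩ := frey_sixteen_dvd P
  have h2 : (P.b ^ P.p - 1 - P.a ^ P.p) / 4 = m := by
    rw [hm]; exact Int.mul_ediv_cancel_left _ (by norm_num)
  have h4 : -(P.a ^ P.p) * (P.b ^ P.p) / 16 = n := by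
    rw [hn]; exact Int.mul_ediv_cancel_left _ (by norm_num)
  have hmQ : ((P.b : ℚ) ^ P.p - 1 - (P.a : ℚ) ^ P.p) / 4 = m := by
    have : ((P.b ^ P.p - 1 - P.a ^ P.p : ℤ) : ℚ) = ((4 * m : ℤ) : ℚ) := by rw [hm]
    push_cast at this
    rw [this]; field_simp
  have hnQ : -((P.a : ℚ) ^ P.p) * ((P.b : ℚ) ^ P.p) / 16 = n := by
    have : ((-(P.a ^ P.p) * (P.b ^ P.p) : ℤ) : ℚ) = ((16 * n : ℤ) : ℚ) := by rw [hn]
    push_cast at this
    rw [this]; field_simp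
  ext
  · simp [FreyPackage.freyCurveInt, FreyPackage.freyCurve, WeierstrassCurve.map]
  · simp only [FreyPackage.freyCurveInt, FreyPackage.freyCurve, WeierstrassCurve.map]
    rw [h2, hmQ]; simp
  · simp [FreyPackage.freyCurveInt, FreyPackage.freyCurve, WeierstrassCurve.map]
  · simp only [FreyPackage.freyCurveInt, FreyPackage.freyCurve, WeierstrassCurve.map]
    rw [h4, hnQ]; simp
  · simp [FreyPackage.freyCurveInt, FreyPackage.freyCurve, WeierstrassCurve.map]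

/-- `2 ^ 8 * Δ = (a^p)^2 (b^p)^2 (c^p)^2` for the integral Frey curve. -/
theorem freyCurveInt_Δ (P : FreyPackage) :
    2 ^ 8 * P.freyCurveInt.Δ = (P.a ^ P.p) ^ 2 * (P.b ^ P.p) ^ 2 * (P.c ^ P.p) ^ 2 := by
  obtain ⟨m, hm⟩ := frey_four_dvd P
  obtain ⟨n, hn⟩ := frey_sixteen_dvd P
  have h2 : (P.b ^ P.p - 1 - P.a ^ P.p) / 4 = m := by
    rw [hm]; exact Int.mul_ediv_cancel_left _ (by norm_num)
  have h4 : -(P.a ^ P.p) * (P.b ^ P.p) / 16 = n := by
    rw [hn]; exact Int.mul_ediv_cancel_left _ (by norm_num)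
  have hC := P.hFLT
  simp only [FreyPackage.freyCurveInt, WeierstrassCurve.Δ, WeierstrassCurve.b₂,
    WeierstrassCurve.b₄, WeierstrassCurve.b₆, WeierstrassCurve.b₈]
  rw [h2, h4, ← hC]
  generalize P.a ^ P.p = A at *
  generalize P.b ^ P.p = B at *
  have hB : B = 4 * m + 1 + A := by linarith
  subst hB
  have hn' : 16 * n = -(A * (4 * m + 1 + A)) := by linarith
  have key : (2 : ℤ) ^ 8 * (-(1 ^ 2 + 4 * m) ^ 2 * (1 ^ 2 * 0 + 4 * m * 0 - 1 * 0 * n + m * 0 ^ 2 - n ^ 2)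
      - 8 * (2 * n + 1 * 0) ^ 3 - 27 * (0 ^ 2 + 4 * 0) ^ 2
      + 9 * (1 ^ 2 + 4 * m) * (2 * n + 1 * 0) * (0 ^ 2 + 4 * 0))
      = (16 * n) ^ 2 * ((1 + 4 * m) ^ 2 - 4 * (16 * n)) := by ring
  rw [key, hn']
  ring

/-- `c₄ = A² + AB + B²` for the integral Frey curve. -/
theorem freyCurveInt_c₄ (P : FreyPackage) :
    P.freyCurveInt.c₄ = (P.a ^ P.p) ^ 2 + P.a ^ P.p * P.b ^ P.p + (P.b ^ P.p) ^ 2 := by
  obtain ⟨m, hm⟩ := frey_four_dvd P
  obtain ⟨n, hn⟩ := frey_sixteen_dvd P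
  have h2 : (P.b ^ P.p - 1 - P.a ^ P.p) / 4 = m := by
    rw [hm]; exact Int.mul_ediv_cancel_left _ (by norm_num)
  have h4 : -(P.a ^ P.p) * (P.b ^ P.p) / 16 = n := by
    rw [hn]; exact Int.mul_ediv_cancel_left _ (by norm_num)
  simp only [FreyPackage.freyCurveInt, WeierstrassCurve.c₄, WeierstrassCurve.b₂,
    WeierstrassCurve.b₄]
  rw [h2, h4]
  generalize P.a ^ P.p = A at *
  generalize P.b ^ P.p = B at *
  have hB : B = 4 * m + 1 + A := by linarith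
  subst hB
  have hn' : 16 * n = -(A * (4 * m + 1 + A)) := by linarith
  linear_combination (-3 : ℤ) * hn'

theorem freyCurveInt_Δ_ne_zero (P : FreyPackage) : P.freyCurveInt.Δ ≠ 0 := by
  intro h
  have h1 := freyCurveInt_Δ P
  rw [h, mul_zero] at h1
  have ha : P.a ^ P.p ≠ 0 := pow_ne_zero _ P.ha0
  have hb : P.b ^ P.p ≠ 0 := pow_ne_zero _ P.hb0
  have hc : P.c ^ P.p ≠ 0 := pow_ne_zero _ P.hc0
  exact (mul_ne_zero (mul_ne_zero (pow_ne_zero 2 ha) (pow_ne_zero 2 hb)) (pow_ne_zero 2 hc)) h1.symm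

theorem freyCurveInt_isSemistableModel (P : FreyPackage) : P.freyCurveInt.IsSemistableModel := by
  intro ℓ hℓ hΔ hc4
  have hℓ' : Prime (ℓ : ℤ) := Nat.prime_iff_prime_int.mp hℓ
  have h1 := freyCurveInt_Δ P
  have hdvd : (ℓ : ℤ) ∣ (P.a ^ P.p) ^ 2 * (P.b ^ P.p) ^ 2 * (P.c ^ P.p) ^ 2 := by
    rw [← h1]; exact Dvd.dvd.mul_left hΔ _
  rw [freyCurveInt_c₄] at hc4
  have hab : IsCoprime P.a P.b :=
    (gcd_isUnit_iff _ _).mp (by rw [P.hgcdab]; exact isUnit_one)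
  have hac : IsCoprime P.a P.c :=
    (gcd_isUnit_iff _ _).mp (by rw [P.hgcdac]; exact isUnit_one)
  have hbc : IsCoprime P.b P.c :=
    (gcd_isUnit_iff _ _).mp (by rw [P.hgcdbc]; exact isUnit_one)
  have hnot : ∀ x y : ℤ, IsCoprime x y → (ℓ : ℤ) ∣ x → (ℓ : ℤ) ∣ y → False := by
    intro x y hxy hx hy
    exact hℓ'.not_isUnit (hxy.isUnit_of_dvd' hx hy)
  rcases hℓ'.dvd_or_dvd hdvd with h | h
  · rcases hℓ'.dvd_or_dvd h with h | h
    · -- ℓ ∣ a
      have ha : (ℓ : ℤ) ∣ P.a := hℓ'.dvd_of_dvd_pow (hℓ'.dvd_of_dvd_pow h)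
      have hA : (ℓ : ℤ) ∣ P.a ^ P.p := Dvd.dvd.pow ha P.hp0
      have : (ℓ : ℤ) ∣ (P.b ^ P.p) ^ 2 := by
        have h3 : (ℓ : ℤ) ∣ (P.a ^ P.p) ^ 2 + P.a ^ P.p * P.b ^ P.p :=
          Dvd.dvd.add (Dvd.dvd.pow hA two_ne_zero) (Dvd.dvd.mul_right hA _)
        exact (Int.dvd_add_right h3).mp hc4
      exact hnot _ _ hab ha (hℓ'.dvd_of_dvd_pow (hℓ'.dvd_of_dvd_pow this))
    · -- ℓ ∣ b
      have hb : (ℓ : ℤ) ∣ P.b := hℓ'.dvd_of_dvd_pow (hℓ'.dvd_of_dvd_pow h)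
      have hB : (ℓ : ℤ) ∣ P.b ^ P.p := Dvd.dvd.pow hb P.hp0
      have : (ℓ : ℤ) ∣ (P.a ^ P.p) ^ 2 := by
        have h3 : (ℓ : ℤ) ∣ P.a ^ P.p * P.b ^ P.p + (P.b ^ P.p) ^ 2 :=
          Dvd.dvd.add (Dvd.dvd.mul_left hB _) (Dvd.dvd.pow hB two_ne_zero)
        rw [add_assoc] at hc4
        exact (Int.dvd_add_left h3).mp hc4
      exact hnot _ _ hab (hℓ'.dvd_of_dvd_pow (hℓ'.dvd_of_dvd_pow this)) hb
  · -- ℓ ∣ c
    have hc : (ℓ : ℤ) ∣ P.c := hℓ'.dvd_of_dvd_pow (hℓ'.dvd_of_dvd_pow h)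
    have hC : (ℓ : ℤ) ∣ P.c ^ P.p := Dvd.dvd.pow hc P.hp0
    have hid : (P.a ^ P.p) ^ 2 + P.a ^ P.p * P.b ^ P.p + (P.b ^ P.p) ^ 2
        = (P.c ^ P.p) ^ 2 - P.a ^ P.p * P.b ^ P.p := by
      rw [← P.hFLT]; ring
    rw [hid] at hc4
    have : (ℓ : ℤ) ∣ P.a ^ P.p * P.b ^ P.p := by
      have h3 : (ℓ : ℤ) ∣ (P.c ^ P.p) ^ 2 := Dvd.dvd.pow hC two_ne_zero
      exact (dvd_sub_right h3).mp hc4
    rcases hℓ'.dvd_or_dvd this with h | h
    · exact hnot _ _ hac (hℓ'.dvd_of_dvd_pow h) hc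
    · exact hnot _ _ hbc (hℓ'.dvd_of_dvd_pow h) hc

/-- S04 from (the statement of) S60. -/
theorem frey_isModular_of_semistable_modular
    (h60 : ∀ W : WeierstrassCurve ℤ, W.Δ ≠ 0 → W.IsSemistableModel →
      (W.map (Int.castRingHom ℚ)).IsModular)
    (P : FreyPackage) : P.freyCurve.IsModular := by
  rw [← freyCurveInt_map]
  exact h60 _ (freyCurveInt_Δ_ne_zero P) (freyCurveInt_isSemistableModel P)

end Fermat.Agent.S04


end ZBS04_001_0

/-! ### bundled: `Fermat.Agent.R38.Glue5` -/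
section ZBS04_001_1
/-
ROW 38, GLUE for the target S44 (helper44).

* `AtPCore5`, `StmtPkgCore5` : the package at `p ≥ 5`, whose clause `tres` carries the LINE
  hypothesis (`∃ z₀, ∀ σ ∈ I, σ x − x ∈ ℤ z₀`);  `stmtPkgCore5_of : StmtToricP → StmtTresP5 →
  StmtPkgCore5` (concrete `J = PDiv (M p) p`).
* `EPeuAt W p` : "`E[p]` is peu ramifié at `p`" in the form used by the glue.
* `glue5_core` : Mazur's argument (copy of `stmtGlue`) with the line supplied by the glue: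
  `#E[p] = p²`, TORIC ⇒ inertia acts by `ω` on the inertia span, EDET ⇒ the span is proper, so
  it is cyclic.
* `stmtS40p5_of` : the statement of S40 for `p ≥ 5`.
* `stmtP_of` : `RIB.StmtP` (= the frozen S44) from the pieces.
-/

set_option autoImplicit false
set_option linter.style.haveILetI false
set_option linter.unusedSectionVars false

noncomputable section

namespace Fermat.Agent.R38

open ModularCurve Fermat.Agent.ES Fermat.Agent.STB ExtCitation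
open scoped WeierstrassCurve.Affine

/-! ### The package with the line hypothesis -/

/-- **The structure of `J₀(Mp)[p]` at `p`, `p ≥ 5`, with the line hypothesis in `tres`.** -/
structure AtPCore5 (M p : ℕ) [NeZero M] [Fact p.Prime] (J : Type) [AddCommGroup J]
    [Module HeckeAlg J] [DistribMulAction GQ J] : Prop where
  /-- the Eichler–Shimura package at level `M * p` -/
  es : ESDataInf (M * p) p J
  /-- **TORIC** -/
  toric : ∀ A : ValuationSubring Qb, A.LiesOverPrime p → ∀ x : J, p • x = 0 →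
    ∀ t₀ ∈ MvPolynomial.supported ℤ (goodPrimes (M * p) p), KillsForms M t₀ →
      ∀ n₀ : ℤ, t₀ • x = n₀ • x → ¬ (p : ℤ) ∣ n₀ →
    ∀ σ ∈ A.inertiaSubgroupIn ℚ, ∀ τ ∈ A.inertiaSubgroupIn ℚ,
      τ • (σ • x - x) = cycloExp p τ • (σ • x - x)
  /-- **TRÈS**, with the line hypothesis -/
  tres : ∀ A : ValuationSubring Qb, A.LiesOverPrime p → ∀ x : J, p • x = 0 →
    ∀ t₀ ∈ MvPolynomial.supported ℤ (goodPrimes (M * p) p), KillsForms M t₀ →
      ∀ n₀ : ℤ, t₀ • x = n₀ • x → ¬ (p : ℤ) ∣ n₀ →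
    ∀ ℓ₁ ∈ goodPrimes (M * p) p, ∀ n₁ : ℤ, heckeGen ℓ₁ • x = n₁ • x →
      ¬ (p : ℤ) ∣ n₁ - ((ℓ₁ : ℕ) + 1) →
    (∀ σ ∈ peuSubgroup A p, σ • x = x) →
    (∃ z₀ : J, ∀ σ ∈ A.inertiaSubgroupIn ℚ, ∃ k : ℤ, σ • x - x = k • z₀) →
    ∀ τ ∈ A.inertiaSubgroupIn ℚ, τ • x = cycloExp p τ • x

/-- **R38-PKG for `p ≥ 5`**. -/
def StmtPkgCore5 : Prop :=
  ∀ (M p : ℕ) [NeZero M] [Fact p.Prime], 5 ≤ p → ¬ p ∣ M →
    ∃ (J : Type) (_ : AddCommGroup J) (_ : Module HeckeAlg J) (_ : DistribMulAction GQ J),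
      AtPCore5 M p J

/-- the package for the concrete `J = PDiv (M * p) p` -/
theorem stmtPkgCore5_of (hT : StmtToricP) (hR : StmtTresP5) : StmtPkgCore5 := by
  intro M p _ hpF h5 hpM
  haveI : NeZero p := ⟨hpF.out.ne_zero⟩
  have hp2 : p ≠ 2 := by omega
  letI := pDivModule (M * p) p
  letI := pDivGalois (M * p) p
  refine ⟨PDiv (M * p) p, inferInstance, pDivModule (M * p) p, pDivGalois (M * p) p,
    r38pkg_es M p, ?_, ?_⟩
  · intro A hA x hx t₀ ht₀ hK n₀ hn₀ hpn₀ σ hσ τ hτ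
    obtain ⟨ha, hb⟩ := r38pkg_newF M p hpM x hx t₀ ht₀ hK n₀ hn₀ hpn₀
    exact hT M p hp2 hpM A hA x hx ha hb σ hσ τ hτ
  · intro A hA x hx t₀ ht₀ hK n₀ hn₀ hpn₀ ℓ₁ hℓ₁ n₁ hn₁ hpn₁ hpeu hline τ hτ
    obtain ⟨ha, hb⟩ := r38pkg_newF M p hpM x hx t₀ ht₀ hK n₀ hn₀ hpn₀
    exact hR M p h5 hpM A hA x hx ha hb t₀ ht₀ hK n₀ hn₀ hpn₀ ℓ₁ hℓ₁ n₁ hn₁ hpn₁ hpeu hline
      τ hτ

/-! ### A proper subgroup of a group of order `p²` is cyclic -/

theorem glue5_cyclic_of_proper {G : Type*} [AddCommGroup G] {p : ℕ} (hp : p.Prime)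
    (hcard : Nat.card G = p ^ 2) (H : AddSubgroup G) (hH : H ≠ ⊤) :
    ∃ z : G, ∀ x ∈ H, ∃ k : ℤ, x = k • z := by
  haveI : Finite G := Nat.finite_of_card_ne_zero (by rw [hcard]; exact pow_ne_zero 2 hp.ne_zero)
  have hdvd : Nat.card H ∣ p ^ 2 := hcard ▸ AddSubgroup.card_addSubgroup_dvd_card H
  obtain ⟨k, hk, hHk⟩ := (Nat.dvd_prime_pow hp).1 hdvd
  have hk2 : k ≠ 2 := by
    rintro rfl
    exact hH (AddSubgroup.eq_top_of_card_eq H (by rw [hHk, hcard]))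
  have hk1 : k = 0 ∨ k = 1 := by omega
  rcases hk1 with rfl | rfl
  · -- trivial subgroup
    rw [pow_zero] at hHk
    have hbot : H = ⊥ := (AddSubgroup.card_eq_one).1 hHk
    refine ⟨0, fun x hx => ⟨0, ?_⟩⟩
    rw [hbot, AddSubgroup.mem_bot] at hx
    rw [hx, zero_smul]
  · rw [pow_one] at hHk
    haveI : Fact p.Prime := ⟨hp⟩
    haveI : IsAddCyclic H := isAddCyclic_of_prime_card hHk
    obtain ⟨g, hg⟩ := IsAddCyclic.exists_generator (α := H)
    refine ⟨(g : G), fun x hx => ?_⟩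
    obtain ⟨n, hn⟩ := AddSubgroup.mem_zmultiples_iff.1 (hg ⟨x, hx⟩)
    refine ⟨n, ?_⟩
    have := congrArg Subtype.val hn
    simpa using this.symm

/-! ### `E[p]` -/

/-- "`E[p]` is peu ramifié at `p`" (conclusion of `StmtEPeu` and of `StmtEpmFrey`). -/
def EPeuAt (W : WeierstrassCurve ℤ) (p : ℕ) [Fact p.Prime] : Prop :=
  ∀ A : ValuationSubring Qb, A.LiesOverPrime p →
    (∀ σ ∈ A.inertiaSubgroupIn ℚ, ∀ τ ∈ A.inertiaSubgroupIn ℚ, ∀ x : ETors W p,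
      τ • (σ • x - x) = cycloExp p τ • (σ • x - x)) →
    ∀ σ ∈ peuSubgroup A p, ∀ x : ETors W p, σ • x = x

/-- `#E[p] = p²` -/
theorem glue5_card (W : WeierstrassCurve ℤ) (hΔ : W.Δ ≠ 0) {p : ℕ} (hp : p.Prime) :
    Nat.card (ETors W p) = p ^ 2 := by
  have hΔ' : ((W.map (Int.castRingHom ℚ))⁄Qb).Δ ≠ 0 := by
    change ((W.map (Int.castRingHom ℚ)).map (algebraMap ℚ Qb)).Δ ≠ 0
    rw [WeierstrassCurve.map_Δ, WeierstrassCurve.map_Δ]
    simpa using hΔ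
  exact Fermat.Agent.EC.ec_card_torsionBy hΔ' two_ne_zero (Nat.cast_ne_zero.2 hp.ne_zero)

/-- the line: if inertia acts through `ω` on the inertia span of `E[p]` and not on all of
`E[p]`, the inertia span is cyclic -/
theorem glue5_line (W : WeierstrassCurve ℤ) (hΔ : W.Δ ≠ 0) {p : ℕ} [hpF : Fact p.Prime]
    (A : ValuationSubring Qb)
    (htor : ∀ σ ∈ A.inertiaSubgroupIn ℚ, ∀ τ ∈ A.inertiaSubgroupIn ℚ, ∀ x : ETors W p,
      τ • (σ • x - x) = cycloExp p τ • (σ • x - x))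
    (hdet : ∃ σ ∈ A.inertiaSubgroupIn ℚ, ∃ x : ETors W p, σ • x ≠ cycloExp p σ • x) :
    ∃ z : ETors W p, ∀ σ ∈ A.inertiaSubgroupIn ℚ, ∀ x : ETors W p, ∃ k : ℤ,
      σ • x - x = k • z := by
  classical
  let S : Set (ETors W p) := {w | ∃ σ ∈ A.inertiaSubgroupIn ℚ, ∃ x : ETors W p, w = σ • x - x}
  let H : AddSubgroup (ETors W p) := AddSubgroup.closure S
  have hact : ∀ w ∈ H, ∀ τ ∈ A.inertiaSubgroupIn ℚ, τ • w = cycloExp p τ • w := by
    intro w hw τ hτ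
    induction hw using AddSubgroup.closure_induction with
    | mem w hw =>
      obtain ⟨σ, hσ, x, rfl⟩ := hw
      exact htor σ hσ τ hτ x
    | zero => rw [smul_zero, smul_zero]
    | add a b _ _ ha hb => rw [smul_add, ha, hb, smul_add]
    | neg a _ ha => rw [smul_neg, ha, smul_neg]
  have hH : H ≠ ⊤ := by
    intro htop
    obtain ⟨σ, hσ, x, hx⟩ := hdet
    exact hx (hact x (htop ▸ AddSubgroup.mem_top x) σ hσ)
  obtain ⟨z, hz⟩ := glue5_cyclic_of_proper hpF.out (glue5_card W hΔ hpF.out) H hH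
  exact ⟨z, fun σ hσ x => hz _ (AddSubgroup.subset_closure ⟨σ, hσ, x, rfl⟩)⟩

/-! ### Mazur's argument with the line -/

/-- **The core of the glue**, `p ≥ 5`: if `E[p]` is irreducible and peu ramifié at `p` and the
eigen-system of `W` mod `p` occurs at level `M' p` (`p ∤ M'`), it occurs at level `M'`. -/
theorem glue5_core (hLift : StmtLift) (hRep : StmtRep) (hEDet : StmtEDet) (hPkg : StmtPkgCore5)
    (W : WeierstrassCurve ℤ) (hΔ : W.Δ ≠ 0) {p : ℕ} [hpF : Fact p.Prime] (h5 : 5 ≤ p)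
    (hirr : W.ModRepIsIrreducible p) (hpeu : EPeuAt W p)
    {M' : ℕ} (hM' : 0 < M') (hpM' : ¬ p ∣ M')
    (hmod : W.IsResiduallyModularOfLevel p (M' * p)) :
    W.IsResiduallyModularOfLevel p M' := by
  have hp : p.Prime := hpF.out
  have hp2 : p ≠ 2 := by omega
  have : NeZero M' := ⟨hM'.ne'⟩
  by_cases hold : ∀ t ∈ MvPolynomial.supported ℤ (goodFor W M' p), KillsForms M' t →
      (p : ℤ) ∣ MvPolynomial.aeval (fun ℓ : Nat.Primes => W.apOfModel ℓ) t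
  · -- OLD case
    obtain ⟨g, 𝔪, hg, hm, hpm, hcong⟩ := hLift M' p hp (goodFor W M' p) _
      (fun ℓ hℓ h => hℓ.1 (Dvd.dvd.mul_right (Dvd.dvd.mul_right h p) p)) hold
    refine ⟨g, 𝔪, hg, hm, hpm, fun ℓ hℓ hgℓ hℓM hℓp => ?_⟩
    refine hcong ⟨ℓ, hℓ⟩ ⟨?_, hgℓ⟩
    intro h
    rcases (Nat.Prime.dvd_mul hℓ).1 h with h | h
    · rcases (Nat.Prime.dvd_mul hℓ).1 h with h | h
      · exact hℓM h
      · exact hℓp ((Nat.prime_dvd_prime_iff_eq hℓ hp).1 h)
    · exact hℓp ((Nat.prime_dvd_prime_iff_eq hℓ hp).1 h)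
  · -- NEW case
    exfalso
    push Not at hold
    obtain ⟨t₀, ht₀S, ht₀K, hn₀⟩ := hold
    obtain ⟨J, _, _, _, hJ⟩ := hPkg M' p h5 hpM'
    obtain ⟨v, hv0, hpv, hv⟩ := glue_exists_eigenvector W hJ.es hmod
    obtain ⟨V₀, e, hV₀p, hV₀eig, hst, he⟩ :=
      hRep W hΔ p hp hp2 hirr M' hM' J _ _ _ hJ.es v hv0 hpv hv
    have ht₀g : t₀ ∈ MvPolynomial.supported ℤ (goodPrimes (M' * p) p) :=
      MvPolynomial.supported_mono (goodFor_subset W M' p) ht₀S
    have hpoly := glue_poly_eigen V₀ (goodFor W M' p) (fun ℓ : Nat.Primes => W.apOfModel ℓ)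
      hV₀eig
    -- a place over `p`
    obtain ⟨A, hA⟩ := Fermat.Agent.Common.exists_liesOverPrime p hp
    set n₀ : ℤ := MvPolynomial.aeval (fun ℓ : Nat.Primes => W.apOfModel ℓ) t₀ with hn₀def
    -- toric on `E[p]`
    have htorE : ∀ σ ∈ A.inertiaSubgroupIn ℚ, ∀ τ ∈ A.inertiaSubgroupIn ℚ, ∀ y : ETors W p,
        τ • (σ • y - y) = cycloExp p τ • (σ • y - y) := by
      intro σ hσ τ hτ y
      obtain ⟨x, rfl⟩ := e.surjective y
      have h1 := hJ.toric A hA x (hV₀p x x.2) t₀ ht₀g ht₀K n₀ (hpoly t₀ ht₀S x x.2) hn₀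
        σ hσ τ hτ
      have hmem : σ • (x : J) - x ∈ V₀ := V₀.sub_mem (hst σ x x.2) x.2
      have h2 : σ • e x - e x = e ⟨σ • (x : J) - x, hmem⟩ := by
        rw [← he σ x, ← map_sub]
        rfl
      rw [h2, ← he τ ⟨_, hmem⟩, ← map_nsmul]
      congr 1
      exact Subtype.ext h1
    -- the peu ramifié subgroup fixes `V₀`
    have hpeuE := hpeu A hA htorE
    have hpeuV : ∀ σ ∈ peuSubgroup A p, ∀ x ∈ V₀, σ • x = x := by
      intro σ hσ x hx
      have h := hpeuE σ hσ (e ⟨x, hx⟩)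
      rw [← he σ ⟨x, hx⟩] at h
      exact congrArg Subtype.val (e.injective h)
    -- the determinant
    have hdet := hEDet W hΔ p hp2 hirr A hA
    -- the line
    obtain ⟨z, hz⟩ := glue5_line W hΔ A htorE hdet
    have hlineV : ∀ x ∈ V₀, ∃ z₀ : J, ∀ σ ∈ A.inertiaSubgroupIn ℚ, ∃ k : ℤ,
        σ • x - x = k • z₀ := by
      intro x hx
      refine ⟨((e.symm z : V₀) : J), fun σ hσ => ?_⟩
      obtain ⟨k, hk⟩ := hz σ hσ (e ⟨x, hx⟩)
      refine ⟨k, ?_⟩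
      have hmem : σ • x - x ∈ V₀ := V₀.sub_mem (hst σ x hx) hx
      have h2 : σ • e ⟨x, hx⟩ - e ⟨x, hx⟩ = e ⟨σ • x - x, hmem⟩ := by
        rw [← he σ ⟨x, hx⟩, ← map_sub]
        rfl
      rw [h2] at hk
      have h3 : (⟨σ • x - x, hmem⟩ : V₀) = k • e.symm z := by
        apply e.injective
        rw [hk, map_zsmul, AddEquiv.apply_symm_apply]
      have := congrArg Subtype.val h3
      simpa using this
    -- a non-Eisenstein prime
    obtain ⟨ℓ, hℓ, hℓS, -, hℓp, hℓg, -, hℓE⟩ :=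
      Fermat.Agent.RED.exists_prime_not_dvd_of_model W hΔ hp2 hirr (M' * p * p).primeFactors
        (M := 1) one_pos
    have hℓmem : (⟨ℓ, hℓ⟩ : Nat.Primes) ∈ goodFor W M' p := by
      refine ⟨fun h => hℓS ?_, hℓg⟩
      rw [Nat.mem_primeFactors]
      exact ⟨hℓ, h, (Nat.mul_pos (Nat.mul_pos hM' hp.pos) hp.pos).ne'⟩
    -- très: inertia acts on `V₀` through `ω`
    have htresV : ∀ τ ∈ A.inertiaSubgroupIn ℚ, ∀ x ∈ V₀, τ • x = cycloExp p τ • x := by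
      intro τ hτ x hx
      exact hJ.tres A hA x (hV₀p x hx) t₀ ht₀g ht₀K n₀ (hpoly t₀ ht₀S x hx) hn₀
        ⟨ℓ, hℓ⟩ (goodFor_subset W M' p hℓmem) (W.apOfModel ℓ) (hV₀eig x hx _ hℓmem) hℓE
        (fun σ hσ => hpeuV σ hσ x hx) (hlineV x hx) τ hτ
    -- contradiction with the determinant
    obtain ⟨σ, hσ, y, hy⟩ := hdet
    apply hy
    obtain ⟨x, rfl⟩ := e.surjective y
    rw [← he σ x, ← map_nsmul]
    congr 1
    exact Subtype.ext (htresV σ hσ x x.2)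

/-! ### S40 for `p ≥ 5` -/

/-- the statement of S40 for `p ≥ 5` -/
def StmtS40p5 : Prop :=
  ∀ (W : WeierstrassCurve ℤ), W.Δ ≠ 0 → ∀ {p : ℕ}, p.Prime → 5 ≤ p → W.IsGoodPrimeFor p →
    W.ModRepIsIrreducible p → ∀ {M : ℕ}, 0 < M → p ∣ M → ¬ p ^ 2 ∣ M →
    W.IsResiduallyModularOfLevel p M → W.IsResiduallyModularOfLevel p (M / p)

theorem stmtS40p5_of (hLift : StmtLift) (hRep : StmtRep) (hEDet : StmtEDet) (hEPeu : StmtEPeu)
    (hPkg : StmtPkgCore5) : StmtS40p5 := by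
  intro W hΔ p hp h5 hgood hirr M hM hpM hp2M hmod
  haveI : Fact p.Prime := ⟨hp⟩
  have hp2 : p ≠ 2 := by omega
  obtain ⟨M', rfl⟩ : ∃ M', M = M' * p := ⟨M / p, (Nat.div_mul_cancel hpM).symm⟩
  have hM' : 0 < M' := Nat.pos_of_ne_zero (by rintro rfl; simp at hM)
  have hpM' : ¬ p ∣ M' := by
    rintro ⟨k, rfl⟩
    exact hp2M ⟨k, by ring⟩
  rw [Nat.mul_div_cancel _ hp.pos]
  exact glue5_core hLift hRep hEDet hPkg W hΔ h5 hirr
    (fun A hA htor => hEPeu W hΔ p hp2 hgood hirr A hA htor) hM' hpM' hmod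

/-! ### The Frey form: `RIB.StmtP` (= the frozen S44) -/

section Transport

open WeierstrassCurve WeierstrassCurve.Affine.Point

/-- irreducibility of the mod `n` representation is invariant under a change of variables
over `ℚ` -/
theorem glue5_irr_transport (E₁ E₂ : WeierstrassCurve ℚ) (C : WeierstrassCurve.VariableChange ℚ)
    (h : C • E₂ = E₁) (n : ℕ)
    (hirr : GaloisRepIsIrreducible (K := AlgebraicClosure ℚ) ℚ E₂ n) :
    GaloisRepIsIrreducible (K := AlgebraicClosure ℚ) ℚ E₁ n := by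
  obtain ⟨e, he⟩ := Fermat.Agent.EC.vc_transport (K := AlgebraicClosure ℚ) E₁ E₂ C h
  -- the induced equivalence on torsion
  have hmem : ∀ P : (E₁⁄Qb).Point,
      P ∈ Submodule.torsionBy ℤ (E₁⁄Qb).Point n ↔
        e P ∈ Submodule.torsionBy ℤ (E₂⁄Qb).Point n := by
    intro P
    rw [Submodule.mem_torsionBy_iff, Submodule.mem_torsionBy_iff, ← map_zsmul]
    exact (map_eq_zero_iff e e.injective).symm
  let f : Submodule.torsionBy ℤ (E₁⁄Qb).Point n →+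
      Submodule.torsionBy ℤ (E₂⁄Qb).Point n :=
    { toFun := fun P => ⟨e (P : (E₁⁄Qb).Point), (hmem P).1 P.2⟩
      map_zero' := Subtype.ext (_root_.map_zero e)
      map_add' := fun P Q => Subtype.ext (map_add e (P : (E₁⁄Qb).Point) (Q : (E₁⁄Qb).Point)) }
  have hfinj : Function.Injective f := by
    intro P Q hPQ
    apply Subtype.ext
    exact e.injective (congrArg Subtype.val hPQ)
  have hfsurj : Function.Surjective f := by
    intro Q
    obtain ⟨P, hP⟩ := e.surjective (Q : (E₂⁄Qb).Point)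
    refine ⟨⟨P, (hmem P).2 (by rw [hP]; exact Q.2)⟩, Subtype.ext hP⟩
  have hfσ : ∀ (σ : AlgebraicClosure ℚ ≃ₐ[ℚ] AlgebraicClosure ℚ)
      (P : Submodule.torsionBy ℤ (E₁⁄Qb).Point n), f (σ • P) = σ • f P := by
    intro σ P
    apply Subtype.ext
    exact he σ (P : (E₁⁄Qb).Point)
  let fl : Submodule.torsionBy ℤ (E₁⁄Qb).Point n →ₗ[ZMod n]
      Submodule.torsionBy ℤ (E₂⁄Qb).Point n := f.toZModLinearMap n
  have hfl : ∀ P, fl P = f P := fun _ => rfl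
  obtain ⟨hnt, hN⟩ := hirr
  refine ⟨?_, fun N hNst => ?_⟩
  · obtain ⟨a, b, hab⟩ := hnt
    obtain ⟨a', rfl⟩ := hfsurj a
    obtain ⟨b', rfl⟩ := hfsurj b
    exact ⟨a', b', fun h' => hab (by rw [h'])⟩
  · have hst : IsGaloisStable ℚ (N.map fl) := by
      rintro σ _ ⟨x, hx, rfl⟩
      refine ⟨σ • x, hNst σ x hx, ?_⟩
      rw [hfl, hfl, hfσ]
    rcases hN (N.map fl) hst with h0 | h1
    · left
      rw [eq_bot_iff]
      intro x hx
      have hx' : fl x ∈ N.map fl := Submodule.mem_map_of_mem hx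
      rw [h0, Submodule.mem_bot] at hx'
      rw [Submodule.mem_bot]
      apply hfinj
      rw [_root_.map_zero]
      exact hx'
    · right
      rw [eq_top_iff]
      intro x _
      have hx : fl x ∈ N.map fl := h1 ▸ Submodule.mem_top
      obtain ⟨x', hx', hxx⟩ := hx
      have : x' = x := hfinj hxx
      exact this ▸ hx'

end Transport

/-- **`RIB.StmtP` (the shape of the frozen S44) from the pieces.** -/
theorem stmtP_of (hLift : StmtLift) (hRep : StmtRep) (hEDet : StmtEDet) (hEpm : StmtEpmFrey)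
    (hPkg : StmtPkgCore5) : Fermat.Agent.RIB.StmtP := by
  intro P N hcond hpN hirr hmod
  obtain ⟨f, W, 𝔪, hf, hW, hm, hpm, hcong⟩ := hmod
  haveI : Fact P.p.Prime := ⟨P.pp⟩
  have hp : P.p.Prime := P.pp
  obtain ⟨M', rfl⟩ : ∃ M', N = M' * P.p := ⟨N / P.p, (Nat.div_mul_cancel hpN).symm⟩
  have hM' : 0 < M' := Nat.pos_of_ne_zero (by
    rintro rfl
    have := hcond.pos
    simp at this)
  have hpM' : ¬ P.p ∣ M' := by
    rintro ⟨k, rfl⟩
    exact hcond.sq_not_dvd hp ⟨k, by ring⟩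
  -- the integral model
  obtain ⟨C, hC⟩ := hW
  have hΔE : P.freyCurve.Δ ≠ 0 := by
    rw [← Fermat.Agent.S04.freyCurveInt_map P, WeierstrassCurve.map_Δ]
    simpa using Fermat.Agent.S04.freyCurveInt_Δ_ne_zero P
  have hΔ : W.Δ ≠ 0 := by
    intro h0
    have h1 : (C • P.freyCurve).Δ = 0 := by
      rw [hC, WeierstrassCurve.map_Δ, h0, _root_.map_zero]
    rw [WeierstrassCurve.variableChange_Δ] at h1
    have hu : ((C.u⁻¹ : ℚˣ) : ℚ) ^ 12 ≠ 0 := pow_ne_zero _ (Units.ne_zero _)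
    exact hΔE ((mul_eq_zero.1 h1).resolve_left hu)
  have hirrW : W.ModRepIsIrreducible P.p :=
    glue5_irr_transport (W.map (Int.castRingHom ℚ)) P.freyCurve C hC P.p hirr
  have hpabc : (P.p : ℤ) ∣ P.a * P.b * P.c := hcond.p_dvd_abc hpN
  have hmodW : W.IsResiduallyModularOfLevel P.p (M' * P.p) := ⟨f, 𝔪, hf, hm, hpm, hcong⟩
  have key := glue5_core hLift hRep hEDet hPkg W hΔ P.hp5 hirrW
    (fun A hA htor => hEpm P W ⟨C, hC⟩ hpabc A hA htor) hM' hpM' hmodW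
  obtain ⟨g, 𝔪', hg, hm', hpm', hcong'⟩ := key
  exact ⟨M', Dvd.intro _ rfl, hpM', g, W, 𝔪', hg, ⟨C, hC⟩, hm', hpm', hcong'⟩

end Fermat.Agent.R38

end


end ZBS04_001_1

/-! ### bundled: `Fermat.Agent.R38.EPM.LiftFrey` -/
section ZBS04_001_2
/-
ROW 38, piece EPEU-MULT / EPM-LIFT (helper68), part 3: the Frey curve.

`epml_frey_lift` : for the Frey curve over `ℚ̄` and a place `A` over an odd prime `q`, every point
killed by `P.p` is congruent modulo the kernel of reduction at `A` to a point fixed by the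
inertia group of `A`.  (Good reduction if `q ∤ abc`; a node with `v e₂ = v d ^ p`, `d ∈ {a, b, c}`,
if `q ∣ abc`.  The case `q = P.p` is allowed.)
-/

set_option autoImplicit false
set_option linter.unusedSectionVars false
set_option linter.unusedVariables false

namespace Fermat.Agent.R38

open WeierstrassCurve WeierstrassCurve.Affine Fermat.Agent.S05 Fermat.Agent.EC Fermat.Agent.W1

/-- the discriminant of the Frey curve over `ℚ̄` is nonzero -/
theorem epml_frey_Δ_ne_zero (P : FreyPackage) : (P.freyCurve.baseChange Qb).Δ ≠ 0 := by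
  have h := tate_Δ_ne_zero (W := P.freyCurveInt.map (Int.castRingHom ℚ))
    (tate_map_Δ_ne_zero P.freyCurveInt (Fermat.Agent.S04.freyCurveInt_Δ_ne_zero P))
  rw [Fermat.Agent.S04.freyCurveInt_map] at h
  exact h

/-- **EPM-LIFT for the Frey curve.** -/
theorem epml_frey_lift (P : FreyPackage) {q : ℕ} (hq : q.Prime) (hq2 : q ≠ 2)
    (A : ValuationSubring Qb) (hA : A.LiesOverPrime q)
    (x : (P.freyCurve⁄Qb).Point) (htors : P.p • x = 0) :
    ∃ b : (P.freyCurve⁄Qb).Point,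
      (∀ σ ∈ A.inertiaSubgroupIn ℚ, σ • b = b) ∧ ecflat_InKer A (x - b) := by
  classical
  have hchar := charZero_of_algebraRat Qb
  obtain ⟨S, hS⟩ := stmtTeich q hq A hA
  obtain ⟨h₁, h₂, h₃, h₄, h₆⟩ := frey_coeff_mem P A hq hq2 hA
  have h2 : A.valuation (2 : Qb) = 1 := valuation_two_eq_one A hq hA hq2
  have h4 : A.valuation (4 : Qb) = 1 := valuation_four_eq_one A hq hA hq2
  have hΔ := epml_frey_Δ_ne_zero P
  have hflt := frey_flt_cast P Qb
  have hσint : ∀ (n : ℤ) (σ : Qb ≃ₐ[ℚ] Qb), σ ((n : Qb) ^ P.p / 4) = (n : Qb) ^ P.p / 4 := by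
    intro n σ
    rw [map_div₀, map_pow, galois_fixes_int, map_ofNat]
  have hmem : ∀ n : ℤ, (n : Qb) ^ P.p / 4 ∈ A := by
    intro n
    rw [← A.valuation_le_one_iff, valuation_div_of_eq_one A h4, A.valuation_le_one_iff]
    exact pow_mem (intCast_mem A n) _
  have hvpow : ∀ n : ℤ, A.valuation ((n : Qb) ^ P.p / 4) = A.valuation (n : Qb) ^ P.p := by
    intro n
    rw [valuation_div_of_eq_one A h4, map_pow]
  have hvnpow : ∀ n : ℤ, A.valuation (-((n : Qb) ^ P.p) / 4) = A.valuation (n : Qb) ^ P.p := by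
    intro n
    rw [valuation_div_of_eq_one A h4, Valuation.map_neg, map_pow]
  -- the node hypothesis
  have hnodeHyp : ∀ (n : ℤ) (e₂ : Qb), A.valuation e₂ ≠ 0 →
      A.valuation e₂ = A.valuation (n : Qb) ^ P.p →
      e₂ ≠ 0 ∧ ∃ d : ℚ, A.valuation e₂ = A.valuation (algebraMap ℚ Qb d) ^ P.p := by
    intro n e₂ h0 hval
    refine ⟨(Valuation.ne_zero_iff _).1 h0, (n : ℚ), ?_⟩
    rw [hval]
    congr 2
  rcases frey_cases P hq with ⟨ha, hb, hc⟩ | ⟨ha, hb, hc⟩ | ⟨ha, hb, hc⟩ | ⟨ha, hb, hc⟩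
  · -- good reduction
    refine epml_local_lift A hS P.freyCurve h₁ h₂ h₃ h₄ h₆ h2 hΔ P.hp_odd 0
      ((P.a : Qb) ^ P.p / 4) (-((P.b : Qb) ^ P.p) / 4) (fun σ => map_zero σ) (zero_mem A)
      (frey_rootData_a P Qb) (valuation_neg_pow_div_four_eq_one A hq hq2 hA hb _) ?_
      (valuation_pow_div_four_eq_one A hq hq2 hA ha _).le ?_ x htors
    · have e : -((P.b : Qb) ^ P.p) / 4 - (P.a : Qb) ^ P.p / 4 = -((P.c : Qb) ^ P.p) / 4 := by
        rw [← hflt]; ring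
      rw [e]
      exact valuation_neg_pow_div_four_eq_one A hq hq2 hA hc _
    · intro hlt
      rw [valuation_pow_div_four_eq_one A hq hq2 hA ha _] at hlt
      exact absurd hlt (lt_irrefl _)
  · -- `q ∣ a`
    refine epml_local_lift A hS P.freyCurve h₁ h₂ h₃ h₄ h₆ h2 hΔ P.hp_odd 0
      ((P.a : Qb) ^ P.p / 4) (-((P.b : Qb) ^ P.p) / 4) (fun σ => map_zero σ) (zero_mem A)
      (frey_rootData_a P Qb) (valuation_neg_pow_div_four_eq_one A hq hq2 hA hb _) ?_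
      (valuation_pow_div_four_lt_one A hq hq2 hA P.ha0 ha P.hp0).2.le ?_ x htors
    · have e : -((P.b : Qb) ^ P.p) / 4 - (P.a : Qb) ^ P.p / 4 = -((P.c : Qb) ^ P.p) / 4 := by
        rw [← hflt]; ring
      rw [e]
      exact valuation_neg_pow_div_four_eq_one A hq hq2 hA hc _
    · intro _
      exact hnodeHyp P.a _ (valuation_pow_div_four_lt_one A hq hq2 hA P.ha0 ha P.hp0).1
        (hvpow _)
  · -- `q ∣ b`
    refine epml_local_lift A hS P.freyCurve h₁ h₂ h₃ h₄ h₆ h2 hΔ P.hp_odd 0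
      (-((P.b : Qb) ^ P.p) / 4) ((P.a : Qb) ^ P.p / 4) (fun σ => map_zero σ) (zero_mem A)
      (frey_rootData_b P Qb) (valuation_pow_div_four_eq_one A hq hq2 hA ha _) ?_
      (valuation_neg_pow_div_four_lt_one A hq hq2 hA P.hb0 hb P.hp0).2.le ?_ x htors
    · have e : (P.a : Qb) ^ P.p / 4 - -((P.b : Qb) ^ P.p) / 4 = (P.c : Qb) ^ P.p / 4 := by
        rw [← hflt]; ring
      rw [e]
      exact valuation_pow_div_four_eq_one A hq hq2 hA hc _
    · intro _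
      exact hnodeHyp P.b _ (valuation_neg_pow_div_four_lt_one A hq hq2 hA P.hb0 hb P.hp0).1
        (hvnpow _)
  · -- `q ∣ c`
    refine epml_local_lift A hS P.freyCurve h₁ h₂ h₃ h₄ h₆ h2 hΔ P.hp_odd
      ((P.a : Qb) ^ P.p / 4) (-((P.c : Qb) ^ P.p) / 4) (-((P.a : Qb) ^ P.p) / 4)
      (hσint _) (hmem _) (frey_rootData_c P Qb)
      (valuation_neg_pow_div_four_eq_one A hq hq2 hA ha _) ?_
      (valuation_neg_pow_div_four_lt_one A hq hq2 hA P.hc0 hc P.hp0).2.le ?_ x htors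
    · have e : -((P.a : Qb) ^ P.p) / 4 - -((P.c : Qb) ^ P.p) / 4 = (P.b : Qb) ^ P.p / 4 := by
        rw [← hflt]; ring
      rw [e]
      exact valuation_pow_div_four_eq_one A hq hq2 hA hb _
    · intro _
      exact hnodeHyp P.c _ (valuation_neg_pow_div_four_lt_one A hq hq2 hA P.hc0 hc P.hp0).1
        (hvnpow _)

end Fermat.Agent.R38


end ZBS04_001_2
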