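/- GENERATED FILE (helper35, build-time optimisation, NOTES/ZB.md): verbatim concatenation of the modules
   Fermat.Agent.S49.LyingOver
   Fermat.Agent.R38.Lift
   Do not edit; do not import together with these modules. -/
import Mathlib
import Fermat.Agent.ZB.EC_003
import Fermat.Agent.ZB.ES_001
import Fermat.Agent.ZB.S49_001
import Fermat.Agent.ZB.S49_002
import Fermat.Agent.ZB.S49_003

/-! ### bundled: `Fermat.Agent.S49.LyingOver` -/
section ZBS49_004_0

set_option autoImplicit false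

namespace Fermat.Agent.S49

/-- Lying-over step of the Deligne–Serre lifting lemma: a ring homomorphism `ψ : T → ℂ` from a ring
integral over `ℤ` lands in `ℤ̄ = integralClosure ℤ ℂ`, and every maximal ideal of `T` containing
`ker ψ` is the contraction of a maximal ideal of `ℤ̄`. -/
theorem exists_maximal_over {T : Type*} [CommRing T] [Algebra.IsIntegral ℤ T] (ψ : T →+* ℂ)
    (𝔪₁ : Ideal T) [𝔪₁.IsMaximal] (hker : RingHom.ker ψ ≤ 𝔪₁) :
    ∃ (ψ' : T →+* integralClosure ℤ ℂ) (𝔪' : Ideal (integralClosure ℤ ℂ)),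
      (∀ t, ((ψ' t : integralClosure ℤ ℂ) : ℂ) = ψ t) ∧ 𝔪'.IsMaximal ∧ 𝔪'.comap ψ' = 𝔪₁ := by
  classical
  -- `ψ` lands in the integral closure
  have hint : ∀ t : T, ψ t ∈ (integralClosure ℤ ℂ).toSubring := fun t =>
    map_isIntegral_int ψ (Algebra.IsIntegral.isIntegral t)
  let ψ' : T →+* integralClosure ℤ ℂ := ψ.codRestrict (integralClosure ℤ ℂ).toSubring hint
  have hψ' : ∀ t, ((ψ' t : integralClosure ℤ ℂ) : ℂ) = ψ t := fun t => rfl
  letI : Algebra T (integralClosure ℤ ℂ) := ψ'.toAlgebra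
  haveI : IsScalarTower ℤ T (integralClosure ℤ ℂ) :=
    IsScalarTower.of_algebraMap_eq fun n => by
      simp [RingHom.algebraMap_toAlgebra]
  haveI : Algebra.IsIntegral T (integralClosure ℤ ℂ) :=
    Algebra.IsIntegral.tower_top (R := ℤ)
  have hker' : RingHom.ker (algebraMap T (integralClosure ℤ ℂ)) ≤ 𝔪₁ := by
    intro t ht
    apply hker
    rw [RingHom.mem_ker] at ht ⊢
    have : ((ψ' t : integralClosure ℤ ℂ) : ℂ) = 0 := by
      have h0 : ψ' t = 0 := ht
      rw [h0]; rfl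
    rw [← hψ' t, this]
  obtain ⟨Q, hQmax, hQ⟩ := Ideal.exists_ideal_over_maximal_of_isIntegral
    (S := integralClosure ℤ ℂ) 𝔪₁ hker'
  exact ⟨ψ', Q, hψ', hQmax, hQ⟩

end Fermat.Agent.S49


end ZBS49_004_0

/-! ### bundled: `Fermat.Agent.R38.Lift` -/
section ZBS49_004_1
/-
ROW 38, piece R38-LIFT (helper44): the Deligne–Serre lifting lemma from the Hecke algebra of
level `M`, `stmtLift : StmtLift`; and `killsLevel_of_forms`.
Tools: S22 (`moduleFinite_heckeAlgebra`), S42/Int (`heckeTLin_apply_eq_smul`), S49 (eigenvector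
with kernel in a prime, lying over, normalisation).
-/

set_option autoImplicit false

noncomputable section

namespace Fermat.Agent.R38

open ModularCurve Fermat.Agent.ES ModularFormClass CongruenceSubgroup

variable {M : ℕ} [NeZero M]

theorem r38lift_eval_X {ℓ : Nat.Primes} (h : ¬ (ℓ : ℕ) ∣ M) :
    CuspForm.heckeEvalForms M 2 (MvPolynomial.X ℓ) =
      CuspForm.heckeAlgebra.T ℓ.2 h (Set.notMem_empty _) :=
  CuspForm.heckeEvalForms_heckeGen_of_not_dvd h

/-- a normalised eigenform is an eigenvector of the good Hecke polynomials -/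
theorem r38lift_eval_eigen (S : Set Nat.Primes) (hS : ∀ ℓ ∈ S, ¬ (ℓ : ℕ) ∣ M)
    (g : CuspForm (Gamma0 M) 2) (hg : g.IsNormalizedEigenform) :
    ∀ t ∈ MvPolynomial.supported ℤ S,
      ((CuspForm.heckeEvalForms M 2 t : CuspForm.heckeAlgebra M 2 ∅) :
        Module.End ℂ (CuspForm (Gamma0 M) 2)) g = heckeValue g t • g := by
  intro t ht
  rw [MvPolynomial.supported] at ht
  induction ht using Algebra.adjoin_induction with
  | mem t ht =>
    obtain ⟨ℓ, hℓ, rfl⟩ := ht
    rw [r38lift_eval_X (hS ℓ hℓ), heckeValue, MvPolynomial.aeval_X, CuspForm.heckeAlgebra.coe_T]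
    exact Fermat.Agent.S42.heckeTLin_apply_eq_smul g hg ℓ.2 (hS ℓ hℓ)
  | algebraMap n =>
    rw [MvPolynomial.algebraMap_eq, CuspForm.heckeEvalForms_C, heckeValue, MvPolynomial.aeval_C]
    simp only [Subalgebra.coe_algebraMap, Module.algebraMap_end_apply, eq_intCast]
    exact (Int.cast_smul_eq_zsmul ℂ n g).symm
  | add t s _ _ iht ihs =>
    rw [map_add, heckeValue, map_add, add_smul, ← heckeValue, ← heckeValue, ← iht, ← ihs]
    rfl
  | mul t s _ _ iht ihs =>
    rw [map_mul, heckeValue, map_mul, ← heckeValue, ← heckeValue]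
    have : ((CuspForm.heckeEvalForms M 2 t * CuspForm.heckeEvalForms M 2 s :
        CuspForm.heckeAlgebra M 2 ∅) : Module.End ℂ (CuspForm (Gamma0 M) 2)) g =
        ((CuspForm.heckeEvalForms M 2 t : CuspForm.heckeAlgebra M 2 ∅) :
          Module.End ℂ (CuspForm (Gamma0 M) 2))
        (((CuspForm.heckeEvalForms M 2 s : CuspForm.heckeAlgebra M 2 ∅) :
          Module.End ℂ (CuspForm (Gamma0 M) 2)) g) := rfl
    rw [this, ihs, map_smul, iht, smul_smul, mul_comm]

/-- a good Hecke polynomial acting as zero on the forms vanishes on every eigen-system -/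
theorem killsLevel_of_forms (S : Set Nat.Primes) (hS : ∀ ℓ ∈ S, ¬ (ℓ : ℕ) ∣ M)
    {t : HeckeAlg} (ht : t ∈ MvPolynomial.supported ℤ S) (h : KillsForms M t) :
    KillsLevel M t := by
  intro g hg
  have h1 := r38lift_eval_eigen S hS g hg t ht
  rw [show CuspForm.heckeEvalForms M 2 t = 0 from h] at h1
  have h3 : heckeValue g t • g = 0 := h1.symm
  rcases smul_eq_zero.1 h3 with h | h
  · exact h
  · exact absurd h (Fermat.Agent.S42.normalizedEigenform_ne_zero g hg)

theorem stmtLift : StmtLift := by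
  intro M p _ hp S a hS hhyp
  classical
  haveI : Fact p.Prime := ⟨hp⟩
  haveI : Module.Finite ℤ (CuspForm.heckeAlgebra M 2 ∅) :=
    Fermat.Agent.S22.moduleFinite_heckeAlgebra M 2 ∅
  haveI : Algebra.IsIntegral ℤ (CuspForm.heckeAlgebra M 2 ∅) := Algebra.IsIntegral.of_finite _ _
  -- `A := ℤ[S]`
  let φS : MvPolynomial.supported ℤ S →+* CuspForm.heckeAlgebra M 2 ∅ :=
    (CuspForm.heckeEvalForms M 2).comp (MvPolynomial.supported ℤ S).val.toRingHom
  let ev : MvPolynomial.supported ℤ S →+* ZMod p :=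
    (Int.castRingHom (ZMod p)).comp
      ((MvPolynomial.aeval a : HeckeAlg →ₐ[ℤ] ℤ).comp (MvPolynomial.supported ℤ S).val).toRingHom
  have hev : ∀ t : MvPolynomial.supported ℤ S,
      ev t = ((MvPolynomial.aeval a (t : HeckeAlg) : ℤ) : ZMod p) := fun t => rfl
  have hφS : ∀ t : MvPolynomial.supported ℤ S,
      φS t = CuspForm.heckeEvalForms M 2 (t : HeckeAlg) := fun t => rfl
  have hev_surj : Function.Surjective ev := by
    intro z
    obtain ⟨n, rfl⟩ := ZMod.intCast_surjective z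
    refine ⟨algebraMap ℤ _ n, ?_⟩
    rw [hev]
    simp
  have h𝔫max : (RingHom.ker ev).IsMaximal := RingHom.ker_isMaximal_of_surjective ev hev_surj
  have hmem : ∀ t : MvPolynomial.supported ℤ S,
      t ∈ RingHom.ker ev ↔ (p : ℤ) ∣ MvPolynomial.aeval a (t : HeckeAlg) := by
    intro t
    rw [RingHom.mem_ker, hev]
    exact ZMod.intCast_zmod_eq_zero_iff_dvd _ p
  have hker : RingHom.ker φS ≤ RingHom.ker ev := by
    intro t ht
    rw [hmem]
    exact hhyp t t.2 ht
  -- lying over in the Hecke algebra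
  letI : Algebra (MvPolynomial.supported ℤ S) (CuspForm.heckeAlgebra M 2 ∅) := φS.toAlgebra
  haveI : IsScalarTower ℤ (MvPolynomial.supported ℤ S) (CuspForm.heckeAlgebra M 2 ∅) :=
    IsScalarTower.of_algebraMap_eq' (RingHom.ext_int _ _)
  haveI : Algebra.IsIntegral (MvPolynomial.supported ℤ S) (CuspForm.heckeAlgebra M 2 ∅) :=
    Algebra.IsIntegral.tower_top (R := ℤ)
  obtain ⟨Q, hQmax, hQ⟩ := Ideal.exists_ideal_over_maximal_of_isIntegral
    (S := CuspForm.heckeAlgebra M 2 ∅) (RingHom.ker ev) hker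
  have hQmem : ∀ t : MvPolynomial.supported ℤ S, t ∈ RingHom.ker ev → φS t ∈ Q := by
    intro t ht
    rw [← hQ] at ht
    exact ht
  -- the eigenform
  have hfd : FiniteDimensional ℂ (CuspForm (Gamma0 M) 2) :=
    Fermat.Agent.S49.finiteDimensional_cuspForm M 2
  have hQprime : Q.IsPrime := hQmax.isPrime
  obtain ⟨v, ψ, hv, hψ, hkerψ⟩ := Fermat.Agent.S49.exists_eigenvector_of_injective (K := ℂ)
    ((CuspForm.heckeAlgebra M 2 ∅).val.toRingHom) Subtype.val_injective Q
  obtain ⟨ψ', 𝔪', hψ', h𝔪', hcomap⟩ := Fermat.Agent.S49.exists_maximal_over ψ Q hkerψ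
  obtain ⟨f, hf, hfℓ⟩ := Fermat.Agent.S49.exists_normalized_eigenform v hv ψ (fun t => hψ t)
  refine ⟨f, 𝔪', hf, h𝔪', ?_, ?_⟩
  · -- `p ∈ 𝔪'`
    have h1 : φS (p : MvPolynomial.supported ℤ S) ∈ Q := by
      apply hQmem
      rw [hmem]
      simp
    rw [map_natCast, ← hcomap, Ideal.mem_comap, map_natCast] at h1
    exact h1
  · intro ℓ hℓ
    have hℓM := hS ℓ hℓ
    refine ⟨ψ' (CuspForm.heckeAlgebra.T ℓ.2 hℓM (Set.notMem_empty _)), ?_, ?_⟩
    · rw [hψ', hfℓ ℓ ℓ.2 hℓM]
    · have hX : (MvPolynomial.X ℓ : HeckeAlg) ∈ MvPolynomial.supported ℤ S :=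
        MvPolynomial.X_mem_supported.2 hℓ
      have h1 : φS (⟨MvPolynomial.X ℓ, hX⟩ - ((a ℓ : ℤ) : MvPolynomial.supported ℤ S)) ∈ Q := by
        apply hQmem
        rw [hmem]
        simp
      rw [map_sub, map_intCast, hφS, r38lift_eval_X hℓM, ← hcomap, Ideal.mem_comap, map_sub,
        map_intCast] at h1
      exact h1

end Fermat.Agent.R38

end


end ZBS49_004_1
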