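/- GENERATED FILE (helper35, build-time optimisation, NOTES/ZB.md): verbatim concatenation of the modules
   Fermat.Agent.S13.TorsionCount
   Fermat.Agent.S13.Torsion
   Fermat.Agent.R38.EPM.Asm
   Fermat.Agent.R38.EPM.Final
   Do not edit; do not import together with these modules. -/
import Mathlib
import Fermat.Prelude.Def_FLTPrelim_GaloisRep
import Fermat.Agent.ZB.S49_004
import Fermat.Agent.ZB.S13_001
import Fermat.Agent.ZB.W1_001
import Fermat.Agent.ZB.EC_007
import Fermat.Agent.ZB.EC_003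
import Fermat.Agent.ZB.S04_001
import Fermat.Agent.ZB.S13_004

/-! ### bundled: `Fermat.Agent.S13.TorsionCount` -/
section ZBS13_005_0

/-!
# S13, piece P2: consequences of the division-polynomial criterion

Input (hypothesis `OddCriterion W n`): for every nonsingular affine point `P = (x, y)` of `W`,
`n • P = 0 ↔ (W.preΨ n).eval x = 0` (`n` odd, so `ψ_n = preΨ_n` is a polynomial in `X` alone).

Output: `E[n]` is finite with at most `n ^ 2` elements, it is nontrivial over an algebraically
closed field, and the roots of `preΨ n` are exactly the `x`-coordinates of the nonzero `n`-torsion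
points.  Module-theoretic corollaries for `n = p` prime are at the end.
-/

set_option autoImplicit false

namespace Fermat.Agent.S13

open WeierstrassCurve WeierstrassCurve.Affine Polynomial

section general

variable {F : Type*} [Field F] (W : WeierstrassCurve.Affine F)

/-- On the curve, the bivariate `ψ n` and `Ψ n` take the same value. -/
theorem tc_evalEval_ψ_eq_Ψ (n : ℤ) {x y : F} (h : W.Equation x y) :
    (W.ψ n).evalEval x y = (W.Ψ n).evalEval x y := by
  have h1 := WeierstrassCurve.Affine.CoordinateRing.mk_ψ W n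
  rw [WeierstrassCurve.Affine.CoordinateRing.mk, AdjoinRoot.mk_eq_mk] at h1
  obtain ⟨q, hq⟩ := h1
  have h2 : W.ψ n = W.Ψ n + W.polynomial * q := by rw [← hq]; ring
  rw [h2, evalEval_add, evalEval_mul]
  have : W.polynomial.evalEval x y = 0 := h
  rw [this, zero_mul, add_zero]

/-- For odd `n`, on the curve, the bivariate `ψ n` evaluates to `preΨ n`. -/
theorem tc_evalEval_ψ_of_odd {n : ℕ} (hn : Odd n) {x y : F} (h : W.Equation x y) :
    (W.ψ (n : ℤ)).evalEval x y = (W.preΨ (n : ℤ)).eval x := by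
  have hne : ¬ Even (n : ℤ) := by
    rw [Int.not_even_iff_odd]
    exact_mod_cast hn
  rw [tc_evalEval_ψ_eq_Ψ W _ h, WeierstrassCurve.Ψ, if_neg hne, mul_one]
  simp [Polynomial.evalEval]

variable [DecidableEq F]

/-- The division polynomial criterion for odd `n`, in terms of the univariate `preΨ n`. -/
def OddCriterion (n : ℕ) : Prop :=
  ∀ (x y : F) (h : W.Nonsingular x y),
    (n : ℤ) • Point.some x y h = 0 ↔ (W.preΨ (n : ℤ)).eval x = 0

/-- Adapter: the criterion in terms of the bivariate `ψ n` gives `OddCriterion` for odd `n`. -/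
theorem oddCriterion_of_ψ {n : ℕ} (hn : Odd n)
    (hcrit : ∀ (x y : F) (h : W.Nonsingular x y),
      (n : ℤ) • Point.some x y h = 0 ↔ (W.ψ (n : ℤ)).evalEval x y = 0) :
    OddCriterion W n := by
  intro x y h
  rw [hcrit x y h, tc_evalEval_ψ_of_odd W hn h.1]

omit [DecidableEq F] in
/-- Degree bound for `preΨ n`, `n` odd. -/
theorem tc_natDegree_preΨ_le {n : ℕ} (hn : Odd n) :
    (W.preΨ (n : ℤ)).natDegree ≤ (n ^ 2 - 1) / 2 := by
  have hne : ¬ Even (n : ℤ) := by
    rw [Int.not_even_iff_odd]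
    exact_mod_cast hn
  have := W.natDegree_preΨ_le (n : ℤ)
  rwa [if_neg hne, Int.natAbs_natCast] at this

omit [DecidableEq F] in
/-- The monic quadratic in `Y` cutting out the points of the curve above `x`. -/
theorem tc_exists_quad (x : F) : ∃ q : F[X], q.natDegree = 2 ∧ q ≠ 0 ∧
    ∀ y : F, q.eval y = 0 ↔ W.Equation x y := by
  refine ⟨X ^ 2 + C (W.a₁ * x + W.a₃) * X - C (x ^ 3 + W.a₂ * x ^ 2 + W.a₄ * x + W.a₆), ?_, ?_, ?_⟩
  · compute_degree!
  · intro h
    have h2 : (X ^ 2 + C (W.a₁ * x + W.a₃) * X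
        - C (x ^ 3 + W.a₂ * x ^ 2 + W.a₄ * x + W.a₆) : F[X]).natDegree = 2 := by
      compute_degree!
    rw [h, natDegree_zero] at h2
    exact absurd h2 (by norm_num)
  · intro y
    rw [equation_iff]
    simp only [eval_sub, eval_add, eval_mul, eval_pow, eval_X, eval_C]
    constructor
    · intro h; linear_combination h
    · intro h; linear_combination h

/-- The quadratic of `tc_exists_quad`, chosen. -/
noncomputable def tc_quad (x : F) : F[X] := (tc_exists_quad W x).choose

omit [DecidableEq F] in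
theorem tc_quad_natDegree (x : F) : (tc_quad W x).natDegree = 2 :=
  (tc_exists_quad W x).choose_spec.1

omit [DecidableEq F] in
theorem tc_quad_ne_zero (x : F) : tc_quad W x ≠ 0 :=
  (tc_exists_quad W x).choose_spec.2.1

omit [DecidableEq F] in
theorem tc_quad_eval (x y : F) : (tc_quad W x).eval y = 0 ↔ W.Equation x y :=
  (tc_exists_quad W x).choose_spec.2.2 y

/-- The finite set of all `(x, y)` on the curve with `f(x) = 0`. -/
noncomputable def tc_pairs (f : F[X]) : Finset (F × F) :=
  f.roots.toFinset.biUnion fun x => (tc_quad W x).roots.toFinset.image fun y => (x, y)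

omit [DecidableEq F] in
theorem tc_mem_pairs [DecidableEq F] {f : F[X]} (hf : f ≠ 0) {x y : F} (hx : f.eval x = 0)
    (h : W.Equation x y) : (x, y) ∈ tc_pairs W f := by
  unfold tc_pairs
  rw [Finset.mem_biUnion]
  refine ⟨x, ?_, ?_⟩
  · rw [Multiset.mem_toFinset, mem_roots hf]
    exact hx
  · rw [Finset.mem_image]
    refine ⟨y, ?_, rfl⟩
    rw [Multiset.mem_toFinset, mem_roots (tc_quad_ne_zero W x)]
    exact (tc_quad_eval W x y).2 h

theorem tc_card_pairs_le (f : F[X]) : (tc_pairs W f).card ≤ 2 * f.natDegree := by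
  unfold tc_pairs
  refine le_trans Finset.card_biUnion_le ?_
  have h1 : ∀ x ∈ f.roots.toFinset,
      ((tc_quad W x).roots.toFinset.image fun y => (x, y)).card ≤ 2 := by
    intro x _
    refine le_trans Finset.card_image_le ?_
    refine le_trans (Multiset.toFinset_card_le _) ?_
    refine le_trans (card_roots' _) ?_
    rw [tc_quad_natDegree]
  refine le_trans (Finset.sum_le_card_nsmul _ _ 2 h1) ?_
  have h2 : f.roots.toFinset.card ≤ f.natDegree :=
    le_trans (Multiset.toFinset_card_le _) (card_roots' _)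
  rw [smul_eq_mul]
  omega

/-- The finite set of "codes" of the points whose `x`-coordinate is a root of `f`. -/
noncomputable def tc_codes (f : F[X]) : Finset (Option (F × F)) :=
  insert none ((tc_pairs W f).image some)

theorem tc_card_codes_le (f : F[X]) : (tc_codes W f).card ≤ 2 * f.natDegree + 1 := by
  unfold tc_codes
  refine le_trans (Finset.card_insert_le _ _) ?_
  have := le_trans (Finset.card_image_le (f := (some : F × F → Option (F × F)))
    (s := tc_pairs W f)) (tc_card_pairs_le W f)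
  omega

/-- The code of a point. -/
def tc_code : W.Point → Option (F × F)
  | .zero => none
  | .some x y _ => some (x, y)

omit [DecidableEq F] in
theorem tc_code_injective : Function.Injective (tc_code W) := by
  intro P Q h
  cases P with
  | zero =>
    cases Q with
    | zero => rfl
    | some x y h' => simp [tc_code] at h
  | some x y hP =>
    cases Q with
    | zero => simp [tc_code] at h
    | some x' y' hQ =>
      simp only [tc_code, Option.some.injEq, Prod.mk.injEq] at h
      obtain ⟨rfl, rfl⟩ := h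
      rfl

/-- If the `x`-coordinates of all nonzero points of a set `S` are roots of `f ≠ 0`, then `S` is
finite with at most `2 deg f + 1` elements. -/
theorem tc_finite_of_roots {f : F[X]} (hf : f ≠ 0) (S : Set W.Point)
    (hS : ∀ (x y : F) (h : W.Nonsingular x y), Point.some x y h ∈ S → f.eval x = 0) :
    S.Finite ∧ Nat.card S ≤ 2 * f.natDegree + 1 := by
  have hmaps : ∀ P ∈ S, tc_code W P ∈ tc_codes W f := by
    intro P hP
    cases P with
    | zero => simp [tc_code, tc_codes]
    | some x y h =>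
      have hx := hS x y h hP
      simp only [tc_code, tc_codes, Finset.mem_insert, reduceCtorEq, Finset.mem_image,
        Option.some.injEq, exists_eq_right, false_or]
      exact tc_mem_pairs W hf hx h.1
  have hinj : Function.Injective
      (fun P : S => (⟨tc_code W P.1, hmaps P.1 P.2⟩ : {c // c ∈ tc_codes W f})) := by
    intro P Q hPQ
    have := congrArg Subtype.val hPQ
    exact Subtype.ext (tc_code_injective W this)
  have hfin : Finite S := Finite.of_injective _ hinj
  refine ⟨Set.toFinite S, ?_⟩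
  have hcard := Nat.card_le_card_of_injective _ hinj
  refine le_trans hcard ?_
  rw [Nat.card_eq_fintype_card, Fintype.card_coe]
  exact tc_card_codes_le W f

/-- **P2 (finiteness and cardinality).**  Under the criterion, `E[n]` is finite with at most
`n ^ 2` elements (`n` odd, invertible in `F`). -/
theorem tc_torsion_finite_card_le {n : ℕ} (hodd : Odd n) (hn : (n : F) ≠ 0)
    (hcrit : OddCriterion W n) :
    Finite (Submodule.torsionBy ℤ W.Point (n : ℤ)) ∧
      Nat.card (Submodule.torsionBy ℤ W.Point (n : ℤ)) ≤ n ^ 2 := by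
  have hf : W.preΨ (n : ℤ) ≠ 0 := W.preΨ_ne_zero (by exact_mod_cast hn)
  have key := tc_finite_of_roots W hf
    (S := (Submodule.torsionBy ℤ W.Point (n : ℤ) : Set W.Point)) (by
      intro x y h hP
      rw [SetLike.mem_coe, Submodule.mem_torsionBy_iff] at hP
      exact (hcrit x y h).1 hP)
  refine ⟨key.1, le_trans key.2 ?_⟩
  have hdeg := tc_natDegree_preΨ_le W hodd
  obtain ⟨k, rfl⟩ := hodd
  have h1 : (2 * k + 1) ^ 2 - 1 = 2 * (2 * k ^ 2 + 2 * k) := by
    have : (2 * k + 1) ^ 2 = 2 * (2 * k ^ 2 + 2 * k) + 1 := by ring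
    omega
  rw [h1, Nat.mul_div_cancel_left _ (by norm_num : 0 < 2)] at hdeg
  have h2 : (2 * k + 1) ^ 2 = 2 * (2 * k ^ 2 + 2 * k) + 1 := by ring
  omega

/-- **P2 (roots are `x`-coordinates).**  Over an algebraically closed field, every root of
`preΨ n` is the `x`-coordinate of a nonzero `n`-torsion point. -/
theorem tc_exists_point_of_root [IsAlgClosed F] (hΔ : W.Δ ≠ 0) {n : ℕ}
    (hcrit : OddCriterion W n) {ξ : F} (hξ : (W.preΨ (n : ℤ)).eval ξ = 0) :
    ∃ (y : F) (h : W.Nonsingular ξ y), (n : ℤ) • Point.some ξ y h = 0 := by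
  have hq : (tc_quad W ξ).degree ≠ 0 := by
    rw [degree_eq_natDegree (tc_quad_ne_zero W ξ), tc_quad_natDegree]
    norm_num
  obtain ⟨y, hy⟩ := IsAlgClosed.exists_root (tc_quad W ξ) hq
  have heq : W.Equation ξ y := (tc_quad_eval W ξ y).1 hy
  have hns : W.Nonsingular ξ y := (W.equation_iff_nonsingular_of_Δ_ne_zero hΔ).1 heq
  exact ⟨y, hns, (hcrit ξ y hns).2 hξ⟩

/-- **P2 (`x`-coordinates are roots).** -/
theorem tc_root_of_point {n : ℕ} (hcrit : OddCriterion W n) {x y : F} (h : W.Nonsingular x y)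
    (hP : (n : ℤ) • Point.some x y h = 0) : (W.preΨ (n : ℤ)).eval x = 0 :=
  (hcrit x y h).1 hP

/-- **P2 (roots ↔ torsion).**  Over an algebraically closed field, the roots of `preΨ n` are
exactly the `x`-coordinates of the nonzero points of `E[n]`. -/
theorem tc_root_iff [IsAlgClosed F] (hΔ : W.Δ ≠ 0) {n : ℕ} (hcrit : OddCriterion W n) (ξ : F) :
    (W.preΨ (n : ℤ)).eval ξ = 0 ↔
      ∃ (y : F) (h : W.Nonsingular ξ y),
        Point.some ξ y h ∈ Submodule.torsionBy ℤ W.Point (n : ℤ) := by
  constructor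
  · intro hξ
    obtain ⟨y, h, hP⟩ := tc_exists_point_of_root W hΔ hcrit hξ
    exact ⟨y, h, (Submodule.mem_torsionBy_iff _ _).2 hP⟩
  · rintro ⟨y, h, hP⟩
    exact tc_root_of_point W hcrit h ((Submodule.mem_torsionBy_iff _ _).1 hP)

/-- **P2 (nontriviality).**  Over an algebraically closed field in which `n ≥ 3` (odd) is
invertible, `E[n]` is nontrivial. -/
theorem tc_torsion_nontrivial [IsAlgClosed F] (hΔ : W.Δ ≠ 0) {n : ℕ} (h3 : 3 ≤ n)
    (hn : (n : F) ≠ 0) (hcrit : OddCriterion W n) :
    Nontrivial (Submodule.torsionBy ℤ W.Point (n : ℤ)) := by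
  have hpos : 0 < (W.preΨ (n : ℤ)).natDegree :=
    W.natDegree_preΨ_pos (by rw [Int.natAbs_natCast]; omega) (by exact_mod_cast hn)
  have hdeg : (W.preΨ (n : ℤ)).degree ≠ 0 := by
    rw [degree_eq_natDegree (W.preΨ_ne_zero (by exact_mod_cast hn))]
    exact_mod_cast hpos.ne'
  obtain ⟨ξ, hξ⟩ := IsAlgClosed.exists_root (W.preΨ (n : ℤ)) hdeg
  obtain ⟨y, h, hP⟩ := tc_exists_point_of_root W hΔ hcrit hξ
  refine ⟨⟨⟨Point.some ξ y h, (Submodule.mem_torsionBy_iff _ _).2 hP⟩, 0, ?_⟩⟩
  intro h0
  have := congrArg Subtype.val h0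
  exact Point.some_ne_zero h this

end general

/-! ### Module-theoretic corollaries -/

section module

variable {p : ℕ} [Fact p.Prime] {M : Type*} [AddCommGroup M] [Module (ZMod p) M]

/-- A nontrivial `ZMod p`-module with at most `p ^ 2` elements and a proper nonzero submodule `N`
has exactly `p ^ 2` elements, and `N` has exactly `p` elements. -/
theorem tc_card_of_proper [Finite M] (hcard : Nat.card M ≤ p ^ 2)
    (N : Submodule (ZMod p) M) (hbot : N ≠ ⊥) (htop : N ≠ ⊤) :
    Nat.card M = p ^ 2 ∧ Nat.card N = p ∧ Module.finrank (ZMod p) M = 2 ∧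
      Module.finrank (ZMod p) N = 1 := by
  have hp : p.Prime := Fact.out
  have hM := Module.natCard_eq_pow_finrank (K := ZMod p) (V := M)
  have hN := Module.natCard_eq_pow_finrank (K := ZMod p) (V := N)
  rw [Nat.card_zmod] at hM hN
  have h2 : Module.finrank (ZMod p) M ≤ 2 := by
    rw [hM] at hcard
    exact (Nat.pow_le_pow_iff_right hp.one_lt).1 hcard
  have hlt : Module.finrank (ZMod p) N < Module.finrank (ZMod p) M :=
    Submodule.finrank_lt htop
  have hpos : 0 < Module.finrank (ZMod p) N := by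
    rw [Module.finrank_pos_iff]
    exact (Submodule.nontrivial_iff_ne_bot).2 hbot
  have hN1 : Module.finrank (ZMod p) N = 1 := by omega
  have hM2 : Module.finrank (ZMod p) M = 2 := by omega
  refine ⟨by rw [hM, hM2], by rw [hN, hN1, pow_one], hM2, hN1⟩

/-- In the situation of `tc_card_of_proper`, `N` is spanned by any of its nonzero elements. -/
theorem tc_line_eq_span [Finite M] (hcard : Nat.card M ≤ p ^ 2)
    (N : Submodule (ZMod p) M) (hbot : N ≠ ⊥) (htop : N ≠ ⊤) {x : M} (hx : x ∈ N) (hx0 : x ≠ 0) :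
    N = Submodule.span (ZMod p) {x} := by
  have h1 := (tc_card_of_proper hcard N hbot htop).2.2.2
  symm
  apply Submodule.eq_of_le_of_finrank_eq
  · rw [Submodule.span_le]
    exact Set.singleton_subset_iff.2 hx
  · rw [h1]
    exact finrank_span_singleton hx0

/-- In the situation of `tc_card_of_proper`, every element of `N` is a multiple of any given
nonzero element of `N`. -/
theorem tc_line_exists_smul [Finite M] (hcard : Nat.card M ≤ p ^ 2)
    (N : Submodule (ZMod p) M) (hbot : N ≠ ⊥) (htop : N ≠ ⊤) {x : M} (hx : x ∈ N) (hx0 : x ≠ 0)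
    {z : M} (hz : z ∈ N) : ∃ k : ZMod p, z = k • x := by
  rw [tc_line_eq_span hcard N hbot htop hx hx0, Submodule.mem_span_singleton] at hz
  obtain ⟨k, hk⟩ := hz
  exact ⟨k, hk.symm⟩

/-- In the situation of `tc_card_of_proper`, the quotient `M ⧸ N` is a line: modulo `N`, every
element is a multiple of any given element outside `N`. -/
theorem tc_quot_exists_smul [Finite M] (hcard : Nat.card M ≤ p ^ 2)
    (N : Submodule (ZMod p) M) (hbot : N ≠ ⊥) (htop : N ≠ ⊤) {x : M} (hx : x ∉ N) (z : M) :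
    ∃ k : ZMod p, z - k • x ∈ N := by
  obtain ⟨_, _, hM2, hN1⟩ := tc_card_of_proper hcard N hbot htop
  have hq : Module.finrank (ZMod p) (M ⧸ N) = 1 := by
    have := Submodule.finrank_quotient_add_finrank N
    omega
  have hx' : N.mkQ x ≠ 0 := by
    intro h
    exact hx ((Submodule.Quotient.mk_eq_zero N).1 h)
  have hspan : Submodule.span (ZMod p) {N.mkQ x} = ⊤ := by
    apply Submodule.eq_top_of_finrank_eq
    rw [hq]
    exact finrank_span_singleton hx'
  have hz : N.mkQ z ∈ Submodule.span (ZMod p) {N.mkQ x} := by rw [hspan]; trivial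
  rw [Submodule.mem_span_singleton] at hz
  obtain ⟨k, hk⟩ := hz
  refine ⟨k, ?_⟩
  rw [← Submodule.Quotient.mk_eq_zero N]
  have : N.mkQ (z - k • x) = 0 := by
    rw [map_sub, map_smul, hk, sub_self]
  exact this

end module

end Fermat.Agent.S13


end ZBS13_005_0

/-! ### bundled: `Fermat.Agent.S13.Torsion` -/
section ZBS13_005_1

/-!
# S13, piece P2 for the Frey curve: `StmtNontrivial` and `StmtCard`

Both are deduced from the division polynomial criterion for the Frey curve over `ℚ̄`
(`p • (x, y) = 0 ↔ preΨ_p(x) = 0`), which is taken as a hypothesis (piece P1c).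
The general statements (any Weierstrass curve over any field) are in `TorsionCount.lean`.
-/

set_option autoImplicit false

namespace Fermat.Agent.S13

open WeierstrassCurve WeierstrassCurve.Affine WeierstrassCurve.Affine.Point Polynomial

/-- The discriminant of the Frey curve is `(a^p b^p c^p)^2 / 256`. -/
theorem frey_Δ_eq (P : FreyPackage) :
    P.freyCurve.Δ = ((P.a : ℚ) ^ P.p * (P.b : ℚ) ^ P.p * (P.c : ℚ) ^ P.p) ^ 2 / 256 := by
  have hflt : (P.a : ℚ) ^ P.p + (P.b : ℚ) ^ P.p = (P.c : ℚ) ^ P.p := by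
    exact_mod_cast P.hFLT
  simp only [WeierstrassCurve.Δ, WeierstrassCurve.b₂, WeierstrassCurve.b₄, WeierstrassCurve.b₆,
    WeierstrassCurve.b₈, FreyPackage.freyCurve]
  rw [← hflt]
  ring

theorem frey_Δ_ne_zero (P : FreyPackage) : P.freyCurve.Δ ≠ 0 := by
  rw [frey_Δ_eq]
  have ha : (P.a : ℚ) ≠ 0 := by exact_mod_cast P.ha0
  have hb : (P.b : ℚ) ≠ 0 := by exact_mod_cast P.hb0
  have hc : (P.c : ℚ) ≠ 0 := by exact_mod_cast P.hc0
  positivity

/-- The discriminant of the Frey curve over any field extension of `ℚ` is nonzero. -/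
theorem frey_baseChange_Δ_ne_zero (P : FreyPackage) (K : Type*) [Field K] [Algebra ℚ K] :
    (P.freyCurve.baseChange K).Δ ≠ 0 := by
  rw [WeierstrassCurve.baseChange, WeierstrassCurve.map_Δ]
  intro h
  exact frey_Δ_ne_zero P ((map_eq_zero_iff _ (algebraMap ℚ K).injective).1 h)

/-- The criterion in the `ℕ`-scalar form used in the interface gives `OddCriterion`. -/
theorem frey_oddCriterion (P : FreyPackage)
    (hcrit : ∀ (x y : Qbar) (h : (P.freyCurve⁄Qbar).Nonsingular x y),
      P.p • (Point.some x y h : (P.freyCurve⁄Qbar).Point) = 0 ↔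
        ((P.freyCurve.baseChange Qbar).preΨ P.p).eval x = 0) :
    OddCriterion (P.freyCurve.baseChange Qbar) P.p := by
  intro x y h
  rw [natCast_zsmul]
  exact hcrit x y h

/-- **P2 for the Frey curve.**  Given the division polynomial criterion for the Frey curve over
`ℚ̄`, the module `E[p](ℚ̄)` is nontrivial and finite with at most `p ^ 2` elements. -/
theorem frey_torsion_nontrivial_card (P : FreyPackage)
    (hcrit : ∀ (x y : Qbar) (h : (P.freyCurve⁄Qbar).Nonsingular x y),
      P.p • (Point.some x y h : (P.freyCurve⁄Qbar).Point) = 0 ↔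
        ((P.freyCurve.baseChange Qbar).preΨ P.p).eval x = 0) :
    Nontrivial (Tors P) ∧ Finite (Tors P) ∧ Nat.card (Tors P) ≤ P.p ^ 2 := by
  have hp : ((P.p : ℕ) : Qbar) ≠ 0 := by
    exact_mod_cast P.hp0
  have hΔ := frey_baseChange_Δ_ne_zero P Qbar
  have h3 : 3 ≤ P.p := le_trans (by norm_num) P.hp5
  have hc := frey_oddCriterion P hcrit
  have h1 := tc_torsion_nontrivial (P.freyCurve.baseChange Qbar) hΔ h3 hp hc
  have h2 := tc_torsion_finite_card_le (P.freyCurve.baseChange Qbar) P.hp_odd hp hc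
  exact ⟨h1, h2.1, h2.2⟩

/-- **P2a**: `StmtNontrivial` from the criterion. -/
theorem stmtNontrivial_of_criterion
    (hcrit : ∀ (P : FreyPackage) (x y : Qbar) (h : (P.freyCurve⁄Qbar).Nonsingular x y),
      P.p • (Point.some x y h : (P.freyCurve⁄Qbar).Point) = 0 ↔
        ((P.freyCurve.baseChange Qbar).preΨ P.p).eval x = 0) :
    StmtNontrivial :=
  fun P => (frey_torsion_nontrivial_card P (hcrit P)).1

/-- **P2b**: `StmtCard` from the criterion. -/
theorem stmtCard_of_criterion
    (hcrit : ∀ (P : FreyPackage) (x y : Qbar) (h : (P.freyCurve⁄Qbar).Nonsingular x y),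
      P.p • (Point.some x y h : (P.freyCurve⁄Qbar).Point) = 0 ↔
        ((P.freyCurve.baseChange Qbar).preΨ P.p).eval x = 0) :
    StmtCard :=
  fun P => (frey_torsion_nontrivial_card P (hcrit P)).2

/-- Every root of `preΨ_p` over `ℚ̄` is the `x`-coordinate of a nonzero point of `E[p]`, and
conversely (for the Frey curve). -/
theorem frey_root_iff (P : FreyPackage)
    (hcrit : ∀ (x y : Qbar) (h : (P.freyCurve⁄Qbar).Nonsingular x y),
      P.p • (Point.some x y h : (P.freyCurve⁄Qbar).Point) = 0 ↔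
        ((P.freyCurve.baseChange Qbar).preΨ P.p).eval x = 0) (ξ : Qbar) :
    ((P.freyCurve.baseChange Qbar).preΨ P.p).eval ξ = 0 ↔
      ∃ (y : Qbar) (h : (P.freyCurve⁄Qbar).Nonsingular ξ y),
        (Point.some ξ y h : (P.freyCurve⁄Qbar).Point) ∈
          Submodule.torsionBy ℤ (P.freyCurve⁄Qbar).Point P.p :=
  tc_root_iff (P.freyCurve.baseChange Qbar) (frey_baseChange_Δ_ne_zero P Qbar)
    (frey_oddCriterion P hcrit) ξ

/-- Degree of `preΨ_p` for the Frey curve over `ℚ̄`. -/
theorem frey_natDegree_preΨ (P : FreyPackage) :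
    ((P.freyCurve.baseChange Qbar).preΨ P.p).natDegree = (P.p ^ 2 - 1) / 2 := by
  have hp : (((P.p : ℕ) : ℤ) : Qbar) ≠ 0 := by
    exact_mod_cast P.hp0
  have hne : ¬ Even ((P.p : ℕ) : ℤ) := by
    rw [Int.not_even_iff_odd]
    exact_mod_cast P.hp_odd
  have := (P.freyCurve.baseChange Qbar).natDegree_preΨ hp
  rwa [if_neg hne, Int.natAbs_natCast] at this

/-- Leading coefficient of `preΨ_p` for the Frey curve over `ℚ̄`. -/
theorem frey_leadingCoeff_preΨ (P : FreyPackage) :
    ((P.freyCurve.baseChange Qbar).preΨ P.p).leadingCoeff = (P.p : Qbar) := by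
  have hp : (((P.p : ℕ) : ℤ) : Qbar) ≠ 0 := by
    exact_mod_cast P.hp0
  have hne : ¬ Even ((P.p : ℕ) : ℤ) := by
    rw [Int.not_even_iff_odd]
    exact_mod_cast P.hp_odd
  have := (P.freyCurve.baseChange Qbar).leadingCoeff_preΨ hp
  rw [if_neg hne] at this
  rw [this]
  push_cast
  ring

end Fermat.Agent.S13


end ZBS13_005_1

/-! ### bundled: `Fermat.Agent.R38.EPM.Asm` -/
section ZBS13_005_2
/-
ROW 38, piece EPEU-MULT / EPM-ASM (helper64): ASSEMBLY.

`stmtEpmAsm : StmtEpmAsm`  (= `StmtEpmCTL → StmtEpmFreyChart → StmtEpmFrey`).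

* `epmasm_chart_transport` : transport of an `EpmChartAt` along an equivariant isomorphism;
* `epmasm_Δ_ne_zero`       : an integral model of the Frey curve has nonzero discriminant;
* `epmasm_of_lattice`      : the second half of `stmtEPeu_of` (R38/EPeu.lean), for ANY integral
                             Weierstrass curve `W` with `Δ ≠ 0` whose `E[p]` has a Hopf lattice
                             over `ℤ_(p)`: toric hypothesis at `A` ⇒ the peu ramifié subgroup of
                             `A` acts trivially on `E[p]`;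
* `stmtEpmAsm`.
-/

set_option autoImplicit false
set_option linter.unusedSectionVars false
set_option linter.style.haveILetI false

noncomputable section

namespace Fermat.Agent.R38

open Fermat.Agent.PT Fermat.Agent.PT.B Fermat.Agent.TW.L Fermat.Agent.TW.W Fermat.Agent.W1
  ExtCitation GaloisRep
open scoped Pointwise WeierstrassCurve.Affine

/-- **Transport of a chart** along an equivariant isomorphism. -/
theorem epmasm_chart_transport {A : ValuationSubring Qb} {J J' : Type} [AddCommGroup J]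
    [AddCommGroup J'] [DistribMulAction (Qb ≃ₐ[ℚ] Qb) J] [DistribMulAction (Qb ≃ₐ[ℚ] Qb) J']
    (e : J ≃+ J') (he : ∀ (σ : Qb ≃ₐ[ℚ] Qb) (x : J), e (σ • x) = σ • e x)
    {J1 : AddSubgroup J} {g : ℕ} {z : J → Fin g → Qb} {n : ℕ} (h : EpmChartAt A J J1 g z n) :
    EpmChartAt A J' (J1.map e.toAddMonoidHom) g (fun x => z (e.symm x)) n where
  decomp_stable := by
    rintro σ hσ _ ⟨y, hy, rfl⟩
    exact ⟨σ • y, h.decomp_stable σ hσ y hy, he σ y⟩
  mem_nonunits := by
    rintro _ ⟨y, hy, rfl⟩ i
    show z (e.symm (e y)) i ∈ A.nonunits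
    rw [e.symm_apply_apply]
    exact h.mem_nonunits y hy i
  injOn := by
    rintro _ ⟨y, hy, rfl⟩ _ ⟨y', hy', rfl⟩ hz
    have hz' : z (e.symm (e y)) = z (e.symm (e y')) := hz
    rw [e.symm_apply_apply, e.symm_apply_apply] at hz'
    show e y = e y'
    rw [h.injOn y hy y' hy' hz']
  inertia_equivariant := by
    rintro σ hσ _ ⟨y, hy, rfl⟩ i
    show z (e.symm (σ • e y)) i = σ (z (e.symm (e y)) i)
    rw [← he, e.symm_apply_apply, e.symm_apply_apply]
    exact h.inertia_equivariant σ hσ y hy i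
  add_approx := by
    intro ϖ hϖ hϖ0 m
    obtain ⟨F, hF, hF'⟩ := h.add_approx ϖ hϖ hϖ0 m
    refine ⟨F, hF, ?_⟩
    rintro _ ⟨y, hy, rfl⟩ _ ⟨y', hy', rfl⟩ h1 h2 i
    have e1 : e.symm (e y) = y := e.symm_apply_apply y
    have e2 : e.symm (e y') = y' := e.symm_apply_apply y'
    have e3 : e.symm (e y + e y') = y + y' := by
      rw [← map_add, e.symm_apply_apply]
    show ∃ a ∈ A, z (e.symm (e y + e y')) i -
      MvPolynomial.eval (Sum.elim (z (e.symm (e y))) (z (e.symm (e y')))) (F i) = ϖ ^ m * a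
    rw [e1, e2, e3]
    refine hF' y hy y' hy' ?_ ?_ i
    · intro i
      have h3 : ∃ a ∈ A, z (e.symm (e y)) i = ϖ * a := h1 i
      rwa [e1] at h3
    · intro i
      have h3 : ∃ a ∈ A, z (e.symm (e y')) i = ϖ * a := h2 i
      rwa [e2] at h3
  lift := by
    intro x hx
    have hx' : n • e.symm x = 0 := by
      rw [← map_nsmul, hx, map_zero]
    obtain ⟨b, hb, hxb⟩ := h.lift (e.symm x) hx'
    refine ⟨e b, fun σ hσ => ?_, ⟨e.symm x - b, hxb, ?_⟩⟩
    · rw [← he, hb σ hσ]
    · show e (e.symm x - b) = x - e b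
      rw [map_sub, e.apply_symm_apply]

/-- An integral model of the Frey curve has nonzero discriminant. -/
theorem epmasm_Δ_ne_zero (P : FreyPackage) (W : WeierstrassCurve ℤ)
    (hW : W.IsIntegralModelOf P.freyCurve) : W.Δ ≠ 0 := by
  obtain ⟨C, hC⟩ := hW
  intro h0
  have h1 : (C • P.freyCurve).Δ = 0 := by
    rw [hC, WeierstrassCurve.map_Δ, h0, _root_.map_zero]
  rw [WeierstrassCurve.variableChange_Δ] at h1
  have hu : ((C.u⁻¹ : ℚˣ) : ℚ) ^ 12 ≠ 0 := pow_ne_zero _ (Units.ne_zero _)
  exact Fermat.Agent.S13.frey_Δ_ne_zero P ((mul_eq_zero.1 h1).resolve_left hu)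

/-- **The second half of `stmtEPeu_of`**: a Hopf lattice of `E[p]` over `ℤ_(p)` and the toric
hypothesis at `A` give the triviality of the peu ramifié subgroup of `A` on `E[p]`. -/
theorem epmasm_of_lattice (W : WeierstrassCurve ℤ) (hΔ : W.Δ ≠ 0) (p : ℕ) [Fact p.Prime]
    (hp2 : p ≠ 2)
    (H : Subalgebra (ratLocalizedAt p) (ETors W p → AlgebraicClosure ℚ))
    (hH : IsHopfLattice (ratLocalizedAt p) (r38epAct (ETors W p)) H)
    (A : ValuationSubring Qb) (hA : A.LiesOverPrime p)
    (hωA : ∀ σ ∈ A.inertiaSubgroupIn ℚ, ∀ τ ∈ A.inertiaSubgroupIn ℚ, ∀ x : ETors W p,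
        τ • (σ • x - x) = cycloExp p τ • (σ • x - x)) :
    ∀ σ ∈ peuSubgroup A p, ∀ x : ETors W p, σ • x = x := by
  intro σ hσ x
  classical
  have hp : p.Prime := Fact.out
  have hfin := Fermat.Agent.EC.ecflat_finite_torsionBy W hΔ hp.ne_zero
  haveI : Finite (ETors W p) := hfin
  have hpM : ∀ m : ETors W p, p • m = 0 := by
    intro m
    have h := Submodule.smul_torsionBy ((p : ℕ) : ℤ) m
    rwa [natCast_zsmul] at h
  have hcardM : Nat.card (ETors W p) = p ^ 2 := Fermat.Agent.RED.card_torsQbar W hΔ hp.ne_zero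
  -- conjugation to `padicPlace p`
  obtain ⟨g, hg⟩ := Fermat.Agent.TW.S.sconjp_exists_smul_eq p hp (padicPlace p) A
    (lfrobex_liesOverPrime p) hA
  subst hg
  have hω : R38EPHyp p (M := ETors W p) := by
    intro σ₁ hσ₁ τ₁ hτ₁ y
    have h1 := conj_mem_inertiaSubgroupIn (padicPlace p) g σ₁ hσ₁
    have h2 := conj_mem_inertiaSubgroupIn (padicPlace p) g τ₁ hτ₁
    have h := hωA _ h1 _ h2 (g • y)
    rw [r38ep_cycloExp_conj] at h
    have e1 : (g * σ₁ * g⁻¹) • (g • y) - g • y = g • (σ₁ • y - y) := by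
      rw [mul_smul, mul_smul, inv_smul_smul, smul_sub]
    rw [e1, mul_smul, mul_smul, inv_smul_smul] at h
    have e2 : cycloExp p τ₁ • g • (σ₁ • y - y) = g • (cycloExp p τ₁ • (σ₁ • y - y)) := by
      rw [smul_comm]
    rw [e2] at h
    exact smul_left_cancel g h
  have hmain := r38ep_core hp2 stmtEPTeich stmtEPVal stmtEPRoot stmtEPGood H hH hpM hcardM hω
    (g⁻¹ * σ * g) (r38ep_conj_mem_peu (padicPlace p) g σ hσ) (g⁻¹ • x)
  rw [mul_smul, mul_smul, smul_inv_smul] at hmain
  exact smul_left_cancel g⁻¹ hmain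

/-- **EPM-ASM**. -/
theorem stmtEpmAsm : StmtEpmAsm := by
  intro hCTL hChart P W hW hdvd
  haveI : Fact P.p.Prime := ⟨P.pp⟩
  intro A hA hωA
  have hp : P.p.Prime := P.pp
  have hp2 : P.p ≠ 2 := by
    have := P.hp5
    omega
  have hΔ : W.Δ ≠ 0 := epmasm_Δ_ne_zero P W hW
  -- the chart of the Frey curve, transported to the model `W`
  obtain ⟨J1, z, hK⟩ := hChart P hdvd A hA
  obtain ⟨C, hC⟩ := hW
  obtain ⟨e, he⟩ := Fermat.Agent.EC.vc_transport (K := Qb) (W.map (Int.castRingHom ℚ))
    P.freyCurve C hC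
  have hK' := epmasm_chart_transport e.symm (fun σ x => by
    apply e.injective
    rw [he, e.apply_symm_apply, e.apply_symm_apply]) hK
  -- the Hopf lattice of `E[p]`
  have hfin := Fermat.Agent.EC.ecflat_finite_torsionBy W hΔ hp.ne_zero
  have hcont := Fermat.Agent.EC.ecflat_isContAction W hΔ hp.ne_zero
  obtain ⟨Ht, hHt⟩ := hCTL P.p hp A hA _ inferInstance inferInstance _ 1 _ P.p hK' hp.pos
    hfin hcont
  obtain ⟨H, hH⟩ := localToGlobalStatement P.p hp A hA _ inferInstance hfin _ hcont Ht hHt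
  exact epmasm_of_lattice W hΔ P.p hp2 H hH A hA hωA

end Fermat.Agent.R38

end


end ZBS13_005_2

/-! ### bundled: `Fermat.Agent.R38.EPM.Final` -/
section ZBS13_005_3
/-
ROW 38, piece EPEU-MULT (helper68): FINAL.

* `epml_chart`       : the kernel chart (`z = -x/y` on the kernel of reduction) of a Weierstrass
                       curve over `ℚ`, integral at `A`, from the lifting property at `n`;
* `stmtEpmFreyChart` : EPM-LIFT for the Frey curve;
* `stmtEpmFrey`      : **EPEU-MULT** — for any integral model `W` of the Frey curve with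
                       `p ∣ abc`, the peu ramifié subgroup at `p` acts trivially on `E[p]`.
-/

set_option autoImplicit false
set_option linter.unusedSectionVars false
set_option linter.unusedVariables false

namespace Fermat.Agent.R38

open WeierstrassCurve WeierstrassCurve.Affine Fermat.Agent.S05 Fermat.Agent.EC Fermat.Agent.W1
open scoped WeierstrassCurve.Affine

section Chart

variable (W₀ : WeierstrassCurve ℚ) (A : ValuationSubring Qb)

/-- the kernel of reduction of `W₀⁄ℚ̄` at `A` -/
noncomputable def epmlJ1 (h₁ : (W₀.baseChange Qb).a₁ ∈ A) (h₂ : (W₀.baseChange Qb).a₂ ∈ A)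
    (h₃ : (W₀.baseChange Qb).a₃ ∈ A) (h₄ : (W₀.baseChange Qb).a₄ ∈ A)
    (h₆ : (W₀.baseChange Qb).a₆ ∈ A) : AddSubgroup (W₀⁄Qb).Point where
  carrier := {P | ecflat_InKer A P}
  zero_mem' := trivial
  add_mem' := by
    intro P Q hP hQ
    classical
    have hW : Fermat.Agent.S15.N3Int A (W₀.baseChange Qb) := ⟨h₁, h₂, h₃, h₄, h₆⟩
    have key : ∀ R : (W₀⁄Qb).Point, ecflat_InKer A R ↔ Fermat.Agent.S15.n3subInKer A R := by
      intro R
      cases R with
      | zero => exact Iff.rfl
      | some x y h => exact Iff.rfl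
    exact (key _).2 (Fermat.Agent.S15.n3sub_inKer_add hW ((key P).1 hP) ((key Q).1 hQ))
  neg_mem' := by
    intro P hP
    rcases P with _ | ⟨x, y, h⟩
    · exact hP
    · exact hP

/-- **The kernel chart** from the lifting property. -/
theorem epml_chart (h₁ : (W₀.baseChange Qb).a₁ ∈ A) (h₂ : (W₀.baseChange Qb).a₂ ∈ A)
    (h₃ : (W₀.baseChange Qb).a₃ ∈ A) (h₄ : (W₀.baseChange Qb).a₄ ∈ A)
    (h₆ : (W₀.baseChange Qb).a₆ ∈ A) (n : ℕ)
    (hlift : ∀ x : (W₀⁄Qb).Point, n • x = 0 →
      ∃ b : (W₀⁄Qb).Point, (∀ σ ∈ A.inertiaSubgroupIn ℚ, σ • b = b) ∧ ecflat_InKer A (x - b)) :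
    EpmChartAt A (W₀⁄Qb).Point (epmlJ1 W₀ A h₁ h₂ h₃ h₄ h₆) 1 (fun P _ => ecflat_z P) n where
  decomp_stable := by
    intro σ hσ P hP
    change ecflat_InKer A P at hP
    change ecflat_InKer A (σ • P)
    rcases P with _ | ⟨x, y, h⟩
    · exact trivial
    · rw [galois_smul_some]
      intro hx
      exact hP ((apply_mem_iff_of_mem_decomposition hσ x).1 hx)
  mem_nonunits := by
    intro P hP i
    exact ecflat_z_mem_nonunits A h₁ h₂ h₃ h₄ h₆ hP
  injOn := by
    intro P hP Q hQ hz
    exact ecflat_z_injOn A h₁ h₂ h₃ h₄ h₆ hP hQ (congrFun hz 0)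
  inertia_equivariant := by
    intro σ _ P _ i
    rcases P with _ | ⟨x, y, h⟩
    · show (0 : Qb) = σ 0
      rw [map_zero]
    · rw [galois_smul_some]
      show -(σ x) / σ y = σ (-x / y)
      rw [map_div₀, map_neg]
  add_approx := by
    intro ϖ hϖ _ m
    classical
    obtain ⟨F, hF, hadd⟩ := ecflat_add_approx A h₁ h₂ h₃ h₄ h₆ hϖ m
    refine ⟨fun _ => F, fun _ c => hF c, fun P hP Q hQ hzP hzQ i => ?_⟩
    exact hadd P Q hP hQ (hzP 0) (hzQ 0)
  lift := hlift

end Chart

/-- **EPM-LIFT**: the kernel chart of the Frey curve at `p` (the hypothesis `p ∣ abc` is not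
needed). -/
theorem stmtEpmFreyChart : StmtEpmFreyChart := by
  intro P _ A hA
  have hq2 : P.p ≠ 2 := by
    have := P.hp5
    omega
  obtain ⟨h₁, h₂, h₃, h₄, h₆⟩ := frey_coeff_mem P A P.pp hq2 hA
  exact ⟨_, _, epml_chart P.freyCurve A h₁ h₂ h₃ h₄ h₆ P.p
    (fun x hx => epml_frey_lift P P.pp hq2 A hA x hx)⟩

/-- **EPEU-MULT.** -/
theorem stmtEpmFrey : StmtEpmFrey := stmtEpmAsm stmtEpmCTL stmtEpmFreyChart

end Fermat.Agent.R38


end ZBS13_005_3
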