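/- GENERATED FILE (helper35, build-time optimisation, NOTES/ZB.md): verbatim concatenation of the modules
   Fermat.Agent.UNIP.NodesFinal
   Do not edit; do not import together with these modules. -/
import Fermat.Agent.ZB.UNIP_013
import Fermat.Agent.ZB.UNIP_014
import Fermat.Agent.ZB.INJ_040

/-! ### bundled: `Fermat.Agent.UNIP.NodesFinal` -/
section ZBUNIP_023_0

/-!
# UNIP / U5 (Nodes): the instantiation of the modular assembly (for MG)

`nodes_modular_chart` (`NodesModular.lean`) with its three level-`M` inputs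
(`IsDomain (C ⧸ π)`, `IsIntegrallyClosed (C ⧸ π)`, `reg`) discharged by `RegInst.TSHyp`:

* `nodesFinal_chart`     : chart `t`,   from `h : TSHyp π t`   (`t : F_M(E)` any coordinate);
* `nodesFinal_chart_inv` : chart `t⁻¹`, from `h : TSHyp π t`;
* `nodesFinal_vert`      : **(SS1)** in the `vert` form of D2 / `mgg_vert`:
  `vert = {ker ρ, ker ρ₀}` are primes containing `π` and `(∀ 𝔭 ∈ vert, y ∈ 𝔭) → π ∣ y`;
* `nodesFinal_chart_J`, `nodesFinal_chart_Jinv`, `nodesFinal_vert_J`, `nodesFinal_vert_Jinv` :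
  the charts `j`, `1/j` of `F_{Mq}(K₀)`, `K₀ ⊆ ℚ̄`, with the data of `tsHyp_jline`
  (`6 ∣ e`, `M ∣ e`, `e ∈ A₀ˣ`, `μ_e ⊆ A₀`); on the chart `j` the `swap` input is discharged by
  `nodesSwap_swap_J`.
-/

set_option autoImplicit false
set_option linter.style.haveILetI false
set_option linter.unusedSectionVars false
set_option linter.unusedVariables false
set_option linter.style.longLine false
set_option synthInstance.maxHeartbeats 400000
set_option maxHeartbeats 1000000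

noncomputable section

namespace Fermat.Agent.UNIP

open ModularCurve Polynomial IntermediateField Fermat.Agent.INJ Fermat.Agent.AL

section Generic

universe u

variable {A E : Type u} {k : Type*} [CommRing A] [IsDomain A] [IsDiscreteValuationRing A]
  [Field E] [CharZero E] [Algebra A E] [IsFractionRing A E] [Field k] (r : A →+* k) {π : A}
  (ιC : E →+* ℂ)
  {q M : ℕ} [NeZero q] [NeZero M] [NeZero (M * q)] (hq : q.Prime) (hqM : ¬ q ∣ M)
  (ψA : A →+* A) (ψE : E →+* E) (θ : k →+* k)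
  [Algebra A (modularFunctionFieldFullC E M)]
  [IsScalarTower A E (modularFunctionFieldFullC E M)]
  [Algebra A (modularFunctionFieldFullC E (M * q))]
  [IsScalarTower A E (modularFunctionFieldFullC E (M * q))]

/-- **(SS2) ∨ (SS3) on the chart `t`** of level `M q`, the level-`M` inputs coming from the
hypotheses of the tame specialization theorem for `F_M` and `t`. -/
theorem nodesFinal_chart [Fact q.Prime] [CharP k q]
    (hπ0 : π ≠ 0) (hπ : ¬ IsUnit π) (hr : ∀ a, r a = 0 → π ∣ a) (hrπ : r π = 0)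
    (hψ : ∀ a, ψE (algebraMap A E a) = algebraMap A E (ψA a))
    (hθ : ∀ a, r (ψA a) = θ (r a)) (hθq : ∀ x, θ x ^ q = x)
    (w : (modularFunctionFieldFullC E (M * q)) →ₐ[E] (modularFunctionFieldFullC E (M * q)))
    (hw : ∀ x, w x = atkinLehner E ιC hq hqM x)
    (t : (modularFunctionFieldFullC E M))
    (h : RegInst.TSHyp (E := E) π t)
    (ht : ((t : (modularFunctionFieldFullC E M)) : LaurentSeries E) ∈ gaussRing (algebraMap A E) r)
    (hτ : coeffMap ψE ((t : (modularFunctionFieldFullC E M)) : LaurentSeries E) = ((t : (modularFunctionFieldFullC E M)) : LaurentSeries E))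
    (hwt : ((w (nodesInstIncl E M q t) : (modularFunctionFieldFullC E (M * q))) : LaurentSeries E) ∈
      gaussRing (algebraMap A E) r)
    (hd : NodesHomData (nodesPhi A M q t)
      (algebraMap A (integralClosure (Algebra.adjoin A {t}) (modularFunctionFieldFullC E M)) π)
      (nodesFrobChartRed r hπ0 hπ hr hrπ (nodesFrob_full_le (M * q)) (nodesInstIncl E M q t) (nodesInst_ht' r M q t ht))
      (nodesSwapRho₀ r hπ0 hπ hr hrπ (nodesFrob_full_le (M * q)) w (nodesInstIncl E M q t) hwt) q)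
    (swap : ∀ b : (integralClosure (Algebra.adjoin A {nodesInstIncl E M q t}) (modularFunctionFieldFullC E (M * q))), ∃ b' : (integralClosure (Algebra.adjoin A {nodesInstIncl E M q t}) (modularFunctionFieldFullC E (M * q))),
      (nodesFrobChartRed r hπ0 hπ hr hrπ (nodesFrob_full_le (M * q)) (nodesInstIncl E M q t) (nodesInst_ht' r M q t ht)) b' = (nodesSwapRho₀ r hπ0 hπ hr hrπ (nodesFrob_full_le (M * q)) w (nodesInstIncl E M q t) hwt) b ∧
      (nodesSwapRho₀ r hπ0 hπ hr hrπ (nodesFrob_full_le (M * q)) w (nodesInstIncl E M q t) hwt) b' = (nodesFrobChartRed r hπ0 hπ hr hrπ (nodesFrob_full_le (M * q)) (nodesInstIncl E M q t) (nodesInst_ht' r M q t ht)) b)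
    (𝔫 : Ideal (integralClosure (Algebra.adjoin A {nodesInstIncl E M q t}) (modularFunctionFieldFullC E (M * q))))
    (h𝔫 : 𝔫.IsMaximal)
    (hπ𝔫 : (algebraMap A (integralClosure (Algebra.adjoin A {nodesInstIncl E M q t}) (modularFunctionFieldFullC E (M * q))) π) ∈ 𝔫) :
    (∃ s ∈ 𝔫, NodesLocGen 𝔫 {(algebraMap A (integralClosure (Algebra.adjoin A {nodesInstIncl E M q t}) (modularFunctionFieldFullC E (M * q))) π), s}) ∨
    ((∀ x, (nodesFrobChartRed r hπ0 hπ hr hrπ (nodesFrob_full_le (M * q)) (nodesInstIncl E M q t) (nodesInst_ht' r M q t ht)) x = 0 → x ∈ 𝔫) ∧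
      (∀ x, (nodesSwapRho₀ r hπ0 hπ hr hrπ (nodesFrob_full_le (M * q)) w (nodesInstIncl E M q t) hwt) x = 0 → x ∈ 𝔫) ∧
      ∃ X Y : (integralClosure (Algebra.adjoin A {nodesInstIncl E M q t}) (modularFunctionFieldFullC E (M * q))),
        (nodesFrobChartRed r hπ0 hπ hr hrπ (nodesFrob_full_le (M * q)) (nodesInstIncl E M q t) (nodesInst_ht' r M q t ht)) X = 0 ∧
        (nodesSwapRho₀ r hπ0 hπ hr hrπ (nodesFrob_full_le (M * q)) w (nodesInstIncl E M q t) hwt) Y = 0 ∧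
        NodesSmoothAt (nodesSwapRho₀ r hπ0 hπ hr hrπ (nodesFrob_full_le (M * q)) w (nodesInstIncl E M q t) hwt) 𝔫 X ∧
        NodesSmoothAt (nodesFrobChartRed r hπ0 hπ hr hrπ (nodesFrob_full_le (M * q)) (nodesInstIncl E M q t) (nodesInst_ht' r M q t ht)) 𝔫 Y ∧
        (algebraMap A (integralClosure (Algebra.adjoin A {nodesInstIncl E M q t}) (modularFunctionFieldFullC E (M * q))) π) ∣ X * Y ∧
        NodesLocGen 𝔫 {(algebraMap A (integralClosure (Algebra.adjoin A {nodesInstIncl E M q t}) (modularFunctionFieldFullC E (M * q))) π), X, Y}) := by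
  haveI := h.isDomain
  haveI := h.isIntegrallyClosed
  exact nodes_modular_chart r ιC hq hqM ψA ψE θ hπ0 hπ hr hrπ hψ hθ hθq w hw t ht hτ hwt
    (fun 𝔪 h𝔪 hπ𝔪 => h.locGen 𝔪 h𝔪 hπ𝔪) hd swap 𝔫 h𝔫 hπ𝔫

/-- **(SS2) ∨ (SS3) on the chart `t⁻¹`** of level `M q`, the level-`M` inputs coming from the
hypotheses of the tame specialization theorem for `F_M` and `t`. -/
theorem nodesFinal_chart_inv [Fact q.Prime] [CharP k q]
    (hπ0 : π ≠ 0) (hπ : ¬ IsUnit π) (hr : ∀ a, r a = 0 → π ∣ a) (hrπ : r π = 0)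
    (hψ : ∀ a, ψE (algebraMap A E a) = algebraMap A E (ψA a))
    (hθ : ∀ a, r (ψA a) = θ (r a)) (hθq : ∀ x, θ x ^ q = x)
    (w : (modularFunctionFieldFullC E (M * q)) →ₐ[E] (modularFunctionFieldFullC E (M * q)))
    (hw : ∀ x, w x = atkinLehner E ιC hq hqM x)
    (t : (modularFunctionFieldFullC E M))
    (h : RegInst.TSHyp (E := E) π t)
    (ht : ((t⁻¹ : (modularFunctionFieldFullC E M)) : LaurentSeries E) ∈ gaussRing (algebraMap A E) r)
    (hτ : coeffMap ψE ((t⁻¹ : (modularFunctionFieldFullC E M)) : LaurentSeries E) = ((t⁻¹ : (modularFunctionFieldFullC E M)) : LaurentSeries E))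
    (hwt : ((w (nodesInstIncl E M q t⁻¹) : (modularFunctionFieldFullC E (M * q))) : LaurentSeries E) ∈
      gaussRing (algebraMap A E) r)
    (hd : NodesHomData (nodesPhi A M q t⁻¹)
      (algebraMap A (integralClosure (Algebra.adjoin A {t⁻¹}) (modularFunctionFieldFullC E M)) π)
      (nodesFrobChartRed r hπ0 hπ hr hrπ (nodesFrob_full_le (M * q)) (nodesInstIncl E M q t⁻¹) (nodesInst_ht' r M q t⁻¹ ht))
      (nodesSwapRho₀ r hπ0 hπ hr hrπ (nodesFrob_full_le (M * q)) w (nodesInstIncl E M q t⁻¹) hwt) q)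
    (swap : ∀ b : (integralClosure (Algebra.adjoin A {nodesInstIncl E M q t⁻¹}) (modularFunctionFieldFullC E (M * q))), ∃ b' : (integralClosure (Algebra.adjoin A {nodesInstIncl E M q t⁻¹}) (modularFunctionFieldFullC E (M * q))),
      (nodesFrobChartRed r hπ0 hπ hr hrπ (nodesFrob_full_le (M * q)) (nodesInstIncl E M q t⁻¹) (nodesInst_ht' r M q t⁻¹ ht)) b' = (nodesSwapRho₀ r hπ0 hπ hr hrπ (nodesFrob_full_le (M * q)) w (nodesInstIncl E M q t⁻¹) hwt) b ∧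
      (nodesSwapRho₀ r hπ0 hπ hr hrπ (nodesFrob_full_le (M * q)) w (nodesInstIncl E M q t⁻¹) hwt) b' = (nodesFrobChartRed r hπ0 hπ hr hrπ (nodesFrob_full_le (M * q)) (nodesInstIncl E M q t⁻¹) (nodesInst_ht' r M q t⁻¹ ht)) b)
    (𝔫 : Ideal (integralClosure (Algebra.adjoin A {nodesInstIncl E M q t⁻¹}) (modularFunctionFieldFullC E (M * q))))
    (h𝔫 : 𝔫.IsMaximal)
    (hπ𝔫 : (algebraMap A (integralClosure (Algebra.adjoin A {nodesInstIncl E M q t⁻¹}) (modularFunctionFieldFullC E (M * q))) π) ∈ 𝔫) :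
    (∃ s ∈ 𝔫, NodesLocGen 𝔫 {(algebraMap A (integralClosure (Algebra.adjoin A {nodesInstIncl E M q t⁻¹}) (modularFunctionFieldFullC E (M * q))) π), s}) ∨
    ((∀ x, (nodesFrobChartRed r hπ0 hπ hr hrπ (nodesFrob_full_le (M * q)) (nodesInstIncl E M q t⁻¹) (nodesInst_ht' r M q t⁻¹ ht)) x = 0 → x ∈ 𝔫) ∧
      (∀ x, (nodesSwapRho₀ r hπ0 hπ hr hrπ (nodesFrob_full_le (M * q)) w (nodesInstIncl E M q t⁻¹) hwt) x = 0 → x ∈ 𝔫) ∧
      ∃ X Y : (integralClosure (Algebra.adjoin A {nodesInstIncl E M q t⁻¹}) (modularFunctionFieldFullC E (M * q))),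
        (nodesFrobChartRed r hπ0 hπ hr hrπ (nodesFrob_full_le (M * q)) (nodesInstIncl E M q t⁻¹) (nodesInst_ht' r M q t⁻¹ ht)) X = 0 ∧
        (nodesSwapRho₀ r hπ0 hπ hr hrπ (nodesFrob_full_le (M * q)) w (nodesInstIncl E M q t⁻¹) hwt) Y = 0 ∧
        NodesSmoothAt (nodesSwapRho₀ r hπ0 hπ hr hrπ (nodesFrob_full_le (M * q)) w (nodesInstIncl E M q t⁻¹) hwt) 𝔫 X ∧
        NodesSmoothAt (nodesFrobChartRed r hπ0 hπ hr hrπ (nodesFrob_full_le (M * q)) (nodesInstIncl E M q t⁻¹) (nodesInst_ht' r M q t⁻¹ ht)) 𝔫 Y ∧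
        (algebraMap A (integralClosure (Algebra.adjoin A {nodesInstIncl E M q t⁻¹}) (modularFunctionFieldFullC E (M * q))) π) ∣ X * Y ∧
        NodesLocGen 𝔫 {(algebraMap A (integralClosure (Algebra.adjoin A {nodesInstIncl E M q t⁻¹}) (modularFunctionFieldFullC E (M * q))) π), X, Y}) := by
  haveI := h.inv_isDomain
  haveI := h.inv_isIntegrallyClosed
  exact nodes_modular_chart r ιC hq hqM ψA ψE θ hπ0 hπ hr hrπ hψ hθ hθq w hw t⁻¹ ht hτ hwt
    (fun 𝔪 h𝔪 hπ𝔪 => h.inv_locGen 𝔪 h𝔪 hπ𝔪) hd swap 𝔫 h𝔫 hπ𝔫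

omit [CharZero E] in
/-- **(SS1) in the `vert` form** (D2, `mgg_vert`): the two vertical primes `ker ρ`, `ker ρ₀` of
the chart contain `π` and their intersection is `π B`. -/
theorem nodesFinal_vert
    (hπ0 : π ≠ 0) (hπ : ¬ IsUnit π) (hr : ∀ a, r a = 0 → π ∣ a) (hrπ : r π = 0)
    (w : (modularFunctionFieldFullC E (M * q)) →ₐ[E] (modularFunctionFieldFullC E (M * q)))
    (t : (modularFunctionFieldFullC E M))
    (ht : (t : LaurentSeries E) ∈ gaussRing (algebraMap A E) r)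
    (hwt : ((w (nodesInstIncl E M q t) : (modularFunctionFieldFullC E (M * q))) : LaurentSeries E) ∈
      gaussRing (algebraMap A E) r)
    (hd : NodesHomData (nodesPhi A M q t)
      (algebraMap A (integralClosure (Algebra.adjoin A {t}) (modularFunctionFieldFullC E M)) π)
      (nodesFrobChartRed r hπ0 hπ hr hrπ (nodesFrob_full_le (M * q)) (nodesInstIncl E M q t) (nodesInst_ht' r M q t ht))
      (nodesSwapRho₀ r hπ0 hπ hr hrπ (nodesFrob_full_le (M * q)) w (nodesInstIncl E M q t) hwt) q) :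
    ∃ vert : Finset (Ideal (integralClosure (Algebra.adjoin A {nodesInstIncl E M q t}) (modularFunctionFieldFullC E (M * q)))),
      vert = {RingHom.ker (nodesFrobChartRed r hπ0 hπ hr hrπ (nodesFrob_full_le (M * q)) (nodesInstIncl E M q t) (nodesInst_ht' r M q t ht)), RingHom.ker (nodesSwapRho₀ r hπ0 hπ hr hrπ (nodesFrob_full_le (M * q)) w (nodesInstIncl E M q t) hwt)} ∧
      (∀ 𝔭 ∈ vert, 𝔭.IsPrime) ∧ (∀ 𝔭 ∈ vert, (algebraMap A (integralClosure (Algebra.adjoin A {nodesInstIncl E M q t}) (modularFunctionFieldFullC E (M * q))) π) ∈ 𝔭) ∧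
      (∀ y : (integralClosure (Algebra.adjoin A {nodesInstIncl E M q t}) (modularFunctionFieldFullC E (M * q))), (∀ 𝔭 ∈ vert, y ∈ 𝔭) → (algebraMap A (integralClosure (Algebra.adjoin A {nodesInstIncl E M q t}) (modularFunctionFieldFullC E (M * q))) π) ∣ y) := by
  classical
  have hρπ : (nodesFrobChartRed r hπ0 hπ hr hrπ (nodesFrob_full_le (M * q)) (nodesInstIncl E M q t) (nodesInst_ht' r M q t ht)) (algebraMap A (integralClosure (Algebra.adjoin A {nodesInstIncl E M q t}) (modularFunctionFieldFullC E (M * q))) π) = 0 := by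
    have h1 := nodesInst_rho_phi_pi r hπ0 hπ hr hrπ M q t ht
    rwa [nodesModular_phi_algebraMap] at h1
  have hρ₀π : (nodesSwapRho₀ r hπ0 hπ hr hrπ (nodesFrob_full_le (M * q)) w (nodesInstIncl E M q t) hwt) (algebraMap A (integralClosure (Algebra.adjoin A {nodesInstIncl E M q t}) (modularFunctionFieldFullC E (M * q))) π) = 0 := by
    have hcoe : ((w (((algebraMap A (integralClosure (Algebra.adjoin A {nodesInstIncl E M q t}) (modularFunctionFieldFullC E (M * q))) π) : (integralClosure (Algebra.adjoin A {nodesInstIncl E M q t}) (modularFunctionFieldFullC E (M * q)))) : (modularFunctionFieldFullC E (M * q))) : (modularFunctionFieldFullC E (M * q))) : LaurentSeries E) =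
        HahnSeries.C (algebraMap A E π) := by
      have h2 : (((algebraMap A (integralClosure (Algebra.adjoin A {nodesInstIncl E M q t}) (modularFunctionFieldFullC E (M * q))) π) : (integralClosure (Algebra.adjoin A {nodesInstIncl E M q t}) (modularFunctionFieldFullC E (M * q)))) : (modularFunctionFieldFullC E (M * q))) = algebraMap A (modularFunctionFieldFullC E (M * q)) π := rfl
      rw [h2, IsScalarTower.algebraMap_apply A E (modularFunctionFieldFullC E (M * q)), AlgHom.commutes,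
        ← IsScalarTower.algebraMap_apply A E (modularFunctionFieldFullC E (M * q))]
      exact nodesFrob_algebraMap_coe π
    have hG : ((w (((algebraMap A (integralClosure (Algebra.adjoin A {nodesInstIncl E M q t}) (modularFunctionFieldFullC E (M * q))) π) : (integralClosure (Algebra.adjoin A {nodesInstIncl E M q t}) (modularFunctionFieldFullC E (M * q)))) : (modularFunctionFieldFullC E (M * q))) : (modularFunctionFieldFullC E (M * q))) : LaurentSeries E) ∈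
        gaussRing (algebraMap A E) r := by
      rw [hcoe]; exact hahnC_mem_gaussRing r π
    rw [nodesSwapRho₀_apply r hπ0 hπ hr hrπ (nodesFrob_full_le (M * q)) w
      (nodesInstIncl E M q t) hwt _ hG,
      gaussRed_eq_zero_iff_dvd r (IsFractionRing.injective A E) hrπ hr]
    exact ⟨1, by rw [hcoe]; simp⟩
  refine ⟨_, rfl, ?_, ?_, ?_⟩
  · intro 𝔭 h𝔭
    rw [Finset.mem_insert, Finset.mem_singleton] at h𝔭
    rcases h𝔭 with rfl | rfl
    · exact RingHom.ker_isPrime _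
    · exact RingHom.ker_isPrime _
  · intro 𝔭 h𝔭
    rw [Finset.mem_insert, Finset.mem_singleton] at h𝔭
    rcases h𝔭 with rfl | rfl
    · exact (RingHom.mem_ker).mpr hρπ
    · exact (RingHom.mem_ker).mpr hρ₀π
  · intro y hy
    refine nodes_modular_ker r hπ0 hπ hr hrπ w t ht hwt hd y ?_ ?_
    · exact (RingHom.mem_ker).mp (hy _ (Finset.mem_insert_self _ _))
    · exact (RingHom.mem_ker).mp (hy _ (Finset.mem_insert_of_mem (Finset.mem_singleton_self _)))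

end Generic

section JCharts

variable (K₀ : IntermediateField ℚ NfQb) {A₀ : Type} [CommRing A₀] [IsDomain A₀]
  [IsDiscreteValuationRing A₀] [Algebra A₀ K₀] [IsFractionRing A₀ K₀]
  {k : Type*} [Field k] (r : A₀ →+* k) {π : A₀} (ιC : K₀ →+* ℂ)
  {q M : ℕ} [NeZero q] [NeZero M] [NeZero (M * q)] (hq : q.Prime) (hqM : ¬ q ∣ M)
  (ψA : A₀ →+* A₀) (ψE : K₀ →+* K₀) (θ : k →+* k)
  [Algebra A₀ (modularFunctionFieldFullC K₀ M)]
  [IsScalarTower A₀ K₀ (modularFunctionFieldFullC K₀ M)]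
  [Algebra A₀ (modularFunctionFieldFullC K₀ (M * q))]
  [IsScalarTower A₀ K₀ (modularFunctionFieldFullC K₀ (M * q))]

/-- `j ∈ F_M(K₀)` lies in the Gauss ring. -/
theorem nodesFinal_J_mem :
    (((bgJ K₀ M) : (modularFunctionFieldFullC K₀ M)) : LaurentSeries K₀) ∈ gaussRing (algebraMap A₀ K₀) r :=
  nodesFrobInst_J_mem r

/-- `1/j ∈ F_M(K₀)` lies in the Gauss ring. -/
theorem nodesFinal_Jinv_mem :
    (((bgJ K₀ M)⁻¹ : (modularFunctionFieldFullC K₀ M)) : LaurentSeries K₀) ∈ gaussRing (algebraMap A₀ K₀) r :=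
  nodesFrobInst_Jinv_mem r

/-- `j` is fixed by the Frobenius lift. -/
theorem nodesFinal_J_fixed :
    coeffMap ψE (((bgJ K₀ M) : (modularFunctionFieldFullC K₀ M)) : LaurentSeries K₀) = (((bgJ K₀ M) : (modularFunctionFieldFullC K₀ M)) : LaurentSeries K₀) :=
  nodesFrobInst_J_fixed ψE

/-- `1/j` is fixed by the Frobenius lift. -/
theorem nodesFinal_Jinv_fixed :
    coeffMap ψE (((bgJ K₀ M)⁻¹ : (modularFunctionFieldFullC K₀ M)) : LaurentSeries K₀) =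
      (((bgJ K₀ M)⁻¹ : (modularFunctionFieldFullC K₀ M)) : LaurentSeries K₀) :=
  nodesFrobInst_Jinv_fixed ψE

/-- the coordinate `j` of level `M q` is the image of the coordinate `j` of level `M` -/
theorem nodesFinal_incl_J : nodesInstIncl K₀ M q (bgJ K₀ M) = nodesFrobJ K₀ M q :=
  Subtype.ext (nodesInstIncl_coe M q (bgJ K₀ M))

/-- `w_q j = j(Q^q)` lies in the Gauss ring. -/
theorem nodesFinal_wJ_mem :
    (((atkinLehner K₀ ιC hq hqM).toAlgHom (nodesInstIncl K₀ M q (bgJ K₀ M)) : (modularFunctionFieldFullC K₀ (M * q))) : LaurentSeries K₀) ∈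
      gaussRing (algebraMap A₀ K₀) r := by
  rw [nodesFinal_incl_J]
  exact nodesSwap_wJ_mem (A := A₀) (E := K₀) (M := M) (q := q) r ιC hq hqM

/-- `w_q (1/j) = 1/j(Q^q)` lies in the Gauss ring. -/
theorem nodesFinal_wJinv_mem :
    (((atkinLehner K₀ ιC hq hqM).toAlgHom (nodesInstIncl K₀ M q (bgJ K₀ M)⁻¹) : (modularFunctionFieldFullC K₀ (M * q))) : LaurentSeries K₀) ∈
      gaussRing (algebraMap A₀ K₀) r := by
  rw [map_inv₀, map_inv₀, nodesFinal_incl_J]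
  show ((((atkinLehner K₀ ιC hq hqM) (nodesFrobJ K₀ M q))⁻¹ : (modularFunctionFieldFullC K₀ (M * q))) : LaurentSeries K₀) ∈
      gaussRing (algebraMap A₀ K₀) r
  rw [nodesFrob_atkinLehner_J]
  exact nodesFrobU_jninv_mem (A := A₀) (E := K₀) r q

/-- **Chart `j` of `F_{Mq}(K₀)`: (SS2) ∨ (SS3)** at every maximal ideal `𝔫 ∋ π`. -/
theorem nodesFinal_chart_J [Fact q.Prime] [CharP k q] [PerfectRing k q]
    (hπ : Irreducible π) (hr : ∀ a, r a = 0 → π ∣ a) (hrπ : r π = 0)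
    (hψ : ∀ a, ψE (algebraMap A₀ K₀ a) = algebraMap A₀ K₀ (ψA a))
    (hθ : ∀ a, r (ψA a) = θ (r a)) (hθq : ∀ x, θ x ^ q = x)
    (e : ℕ) (h6 : 6 ∣ e) (hM : M ∣ e) (he : IsUnit (e : A₀))
    (hζ : ∃ ζ : A₀, IsPrimitiveRoot ζ e)
    (hd : NodesHomData (nodesPhi A₀ M q (bgJ K₀ M))
      (algebraMap A₀ (integralClosure (Algebra.adjoin A₀ {(bgJ K₀ M)}) (modularFunctionFieldFullC K₀ M)) π)
      (nodesFrobChartRed r hπ.ne_zero hπ.not_isUnit hr hrπ (nodesFrob_full_le (M * q)) (nodesInstIncl K₀ M q (bgJ K₀ M)) (nodesInst_ht' r M q (bgJ K₀ M) (nodesFinal_J_mem K₀ r)))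
      (nodesSwapRho₀ r hπ.ne_zero hπ.not_isUnit hr hrπ (nodesFrob_full_le (M * q)) (atkinLehner K₀ ιC hq hqM).toAlgHom (nodesInstIncl K₀ M q (bgJ K₀ M)) (nodesFinal_wJ_mem K₀ r ιC hq hqM)) q)
    (𝔫 : Ideal (integralClosure (Algebra.adjoin A₀ {nodesInstIncl K₀ M q (bgJ K₀ M)}) (modularFunctionFieldFullC K₀ (M * q))))
    (h𝔫 : 𝔫.IsMaximal)
    (hπ𝔫 : (algebraMap A₀ (integralClosure (Algebra.adjoin A₀ {nodesInstIncl K₀ M q (bgJ K₀ M)}) (modularFunctionFieldFullC K₀ (M * q))) π) ∈ 𝔫) :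
    (∃ s ∈ 𝔫, NodesLocGen 𝔫 {(algebraMap A₀ (integralClosure (Algebra.adjoin A₀ {nodesInstIncl K₀ M q (bgJ K₀ M)}) (modularFunctionFieldFullC K₀ (M * q))) π), s}) ∨
    ((∀ x, (nodesFrobChartRed r hπ.ne_zero hπ.not_isUnit hr hrπ (nodesFrob_full_le (M * q)) (nodesInstIncl K₀ M q (bgJ K₀ M)) (nodesInst_ht' r M q (bgJ K₀ M) (nodesFinal_J_mem K₀ r))) x = 0 → x ∈ 𝔫) ∧
      (∀ x, (nodesSwapRho₀ r hπ.ne_zero hπ.not_isUnit hr hrπ (nodesFrob_full_le (M * q)) (atkinLehner K₀ ιC hq hqM).toAlgHom (nodesInstIncl K₀ M q (bgJ K₀ M)) (nodesFinal_wJ_mem K₀ r ιC hq hqM)) x = 0 → x ∈ 𝔫) ∧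
      ∃ X Y : (integralClosure (Algebra.adjoin A₀ {nodesInstIncl K₀ M q (bgJ K₀ M)}) (modularFunctionFieldFullC K₀ (M * q))),
        (nodesFrobChartRed r hπ.ne_zero hπ.not_isUnit hr hrπ (nodesFrob_full_le (M * q)) (nodesInstIncl K₀ M q (bgJ K₀ M)) (nodesInst_ht' r M q (bgJ K₀ M) (nodesFinal_J_mem K₀ r))) X = 0 ∧
        (nodesSwapRho₀ r hπ.ne_zero hπ.not_isUnit hr hrπ (nodesFrob_full_le (M * q)) (atkinLehner K₀ ιC hq hqM).toAlgHom (nodesInstIncl K₀ M q (bgJ K₀ M)) (nodesFinal_wJ_mem K₀ r ιC hq hqM)) Y = 0 ∧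
        NodesSmoothAt (nodesSwapRho₀ r hπ.ne_zero hπ.not_isUnit hr hrπ (nodesFrob_full_le (M * q)) (atkinLehner K₀ ιC hq hqM).toAlgHom (nodesInstIncl K₀ M q (bgJ K₀ M)) (nodesFinal_wJ_mem K₀ r ιC hq hqM)) 𝔫 X ∧
        NodesSmoothAt (nodesFrobChartRed r hπ.ne_zero hπ.not_isUnit hr hrπ (nodesFrob_full_le (M * q)) (nodesInstIncl K₀ M q (bgJ K₀ M)) (nodesInst_ht' r M q (bgJ K₀ M) (nodesFinal_J_mem K₀ r))) 𝔫 Y ∧
        (algebraMap A₀ (integralClosure (Algebra.adjoin A₀ {nodesInstIncl K₀ M q (bgJ K₀ M)}) (modularFunctionFieldFullC K₀ (M * q))) π) ∣ X * Y ∧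
        NodesLocGen 𝔫 {(algebraMap A₀ (integralClosure (Algebra.adjoin A₀ {nodesInstIncl K₀ M q (bgJ K₀ M)}) (modularFunctionFieldFullC K₀ (M * q))) π), X, Y}) := by
  have h := RegInst.tsHyp_jline K₀ M r hπ hr hrπ q e h6 hM he hζ
  refine nodesFinal_chart r ιC hq hqM ψA ψE θ hπ.ne_zero hπ.not_isUnit hr hrπ hψ hθ hθq
    (atkinLehner K₀ ιC hq hqM).toAlgHom (fun _ => rfl) (bgJ K₀ M) h (nodesFinal_J_mem K₀ r) (nodesFinal_J_fixed K₀ ψE) (nodesFinal_wJ_mem K₀ r ιC hq hqM) hd ?_ 𝔫 h𝔫 hπ𝔫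
  intro b
  exact nodesSwap_swap_J (A := A₀) (E := K₀) r ιC hq hqM hπ.ne_zero hπ.not_isUnit hr hrπ
    (nodesInstIncl K₀ M q (bgJ K₀ M)) (nodesInstIncl_coe M q (bgJ K₀ M))
    (nodesInst_ht' r M q (bgJ K₀ M) (nodesFinal_J_mem K₀ r)) (nodesFinal_wJ_mem K₀ r ιC hq hqM) b

/-- **Chart `1/j` of `F_{Mq}(K₀)`: (SS2) ∨ (SS3)** at every maximal ideal `𝔫 ∋ π`
(`hd`, `swap` on the chart `1/j` as hypotheses). -/
theorem nodesFinal_chart_Jinv [Fact q.Prime] [CharP k q] [PerfectRing k q]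
    (hπ : Irreducible π) (hr : ∀ a, r a = 0 → π ∣ a) (hrπ : r π = 0)
    (hψ : ∀ a, ψE (algebraMap A₀ K₀ a) = algebraMap A₀ K₀ (ψA a))
    (hθ : ∀ a, r (ψA a) = θ (r a)) (hθq : ∀ x, θ x ^ q = x)
    (e : ℕ) (h6 : 6 ∣ e) (hM : M ∣ e) (he : IsUnit (e : A₀))
    (hζ : ∃ ζ : A₀, IsPrimitiveRoot ζ e)
    (hd : NodesHomData (nodesPhi A₀ M q (bgJ K₀ M)⁻¹)
      (algebraMap A₀ (integralClosure (Algebra.adjoin A₀ {(bgJ K₀ M)⁻¹}) (modularFunctionFieldFullC K₀ M)) π)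
      (nodesFrobChartRed r hπ.ne_zero hπ.not_isUnit hr hrπ (nodesFrob_full_le (M * q)) (nodesInstIncl K₀ M q (bgJ K₀ M)⁻¹) (nodesInst_ht' r M q (bgJ K₀ M)⁻¹ (nodesFinal_Jinv_mem K₀ r)))
      (nodesSwapRho₀ r hπ.ne_zero hπ.not_isUnit hr hrπ (nodesFrob_full_le (M * q)) (atkinLehner K₀ ιC hq hqM).toAlgHom (nodesInstIncl K₀ M q (bgJ K₀ M)⁻¹) (nodesFinal_wJinv_mem K₀ r ιC hq hqM)) q)
    (swap : ∀ b : (integralClosure (Algebra.adjoin A₀ {nodesInstIncl K₀ M q (bgJ K₀ M)⁻¹}) (modularFunctionFieldFullC K₀ (M * q))), ∃ b' : (integralClosure (Algebra.adjoin A₀ {nodesInstIncl K₀ M q (bgJ K₀ M)⁻¹}) (modularFunctionFieldFullC K₀ (M * q))),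
      (nodesFrobChartRed r hπ.ne_zero hπ.not_isUnit hr hrπ (nodesFrob_full_le (M * q)) (nodesInstIncl K₀ M q (bgJ K₀ M)⁻¹) (nodesInst_ht' r M q (bgJ K₀ M)⁻¹ (nodesFinal_Jinv_mem K₀ r))) b' = (nodesSwapRho₀ r hπ.ne_zero hπ.not_isUnit hr hrπ (nodesFrob_full_le (M * q)) (atkinLehner K₀ ιC hq hqM).toAlgHom (nodesInstIncl K₀ M q (bgJ K₀ M)⁻¹) (nodesFinal_wJinv_mem K₀ r ιC hq hqM)) b ∧
      (nodesSwapRho₀ r hπ.ne_zero hπ.not_isUnit hr hrπ (nodesFrob_full_le (M * q)) (atkinLehner K₀ ιC hq hqM).toAlgHom (nodesInstIncl K₀ M q (bgJ K₀ M)⁻¹) (nodesFinal_wJinv_mem K₀ r ιC hq hqM)) b' = (nodesFrobChartRed r hπ.ne_zero hπ.not_isUnit hr hrπ (nodesFrob_full_le (M * q)) (nodesInstIncl K₀ M q (bgJ K₀ M)⁻¹) (nodesInst_ht' r M q (bgJ K₀ M)⁻¹ (nodesFinal_Jinv_mem K₀ r))) b)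
    (𝔫 : Ideal (integralClosure (Algebra.adjoin A₀ {nodesInstIncl K₀ M q (bgJ K₀ M)⁻¹}) (modularFunctionFieldFullC K₀ (M * q))))
    (h𝔫 : 𝔫.IsMaximal)
    (hπ𝔫 : (algebraMap A₀ (integralClosure (Algebra.adjoin A₀ {nodesInstIncl K₀ M q (bgJ K₀ M)⁻¹}) (modularFunctionFieldFullC K₀ (M * q))) π) ∈ 𝔫) :
    (∃ s ∈ 𝔫, NodesLocGen 𝔫 {(algebraMap A₀ (integralClosure (Algebra.adjoin A₀ {nodesInstIncl K₀ M q (bgJ K₀ M)⁻¹}) (modularFunctionFieldFullC K₀ (M * q))) π), s}) ∨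
    ((∀ x, (nodesFrobChartRed r hπ.ne_zero hπ.not_isUnit hr hrπ (nodesFrob_full_le (M * q)) (nodesInstIncl K₀ M q (bgJ K₀ M)⁻¹) (nodesInst_ht' r M q (bgJ K₀ M)⁻¹ (nodesFinal_Jinv_mem K₀ r))) x = 0 → x ∈ 𝔫) ∧
      (∀ x, (nodesSwapRho₀ r hπ.ne_zero hπ.not_isUnit hr hrπ (nodesFrob_full_le (M * q)) (atkinLehner K₀ ιC hq hqM).toAlgHom (nodesInstIncl K₀ M q (bgJ K₀ M)⁻¹) (nodesFinal_wJinv_mem K₀ r ιC hq hqM)) x = 0 → x ∈ 𝔫) ∧
      ∃ X Y : (integralClosure (Algebra.adjoin A₀ {nodesInstIncl K₀ M q (bgJ K₀ M)⁻¹}) (modularFunctionFieldFullC K₀ (M * q))),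
        (nodesFrobChartRed r hπ.ne_zero hπ.not_isUnit hr hrπ (nodesFrob_full_le (M * q)) (nodesInstIncl K₀ M q (bgJ K₀ M)⁻¹) (nodesInst_ht' r M q (bgJ K₀ M)⁻¹ (nodesFinal_Jinv_mem K₀ r))) X = 0 ∧
        (nodesSwapRho₀ r hπ.ne_zero hπ.not_isUnit hr hrπ (nodesFrob_full_le (M * q)) (atkinLehner K₀ ιC hq hqM).toAlgHom (nodesInstIncl K₀ M q (bgJ K₀ M)⁻¹) (nodesFinal_wJinv_mem K₀ r ιC hq hqM)) Y = 0 ∧
        NodesSmoothAt (nodesSwapRho₀ r hπ.ne_zero hπ.not_isUnit hr hrπ (nodesFrob_full_le (M * q)) (atkinLehner K₀ ιC hq hqM).toAlgHom (nodesInstIncl K₀ M q (bgJ K₀ M)⁻¹) (nodesFinal_wJinv_mem K₀ r ιC hq hqM)) 𝔫 X ∧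
        NodesSmoothAt (nodesFrobChartRed r hπ.ne_zero hπ.not_isUnit hr hrπ (nodesFrob_full_le (M * q)) (nodesInstIncl K₀ M q (bgJ K₀ M)⁻¹) (nodesInst_ht' r M q (bgJ K₀ M)⁻¹ (nodesFinal_Jinv_mem K₀ r))) 𝔫 Y ∧
        (algebraMap A₀ (integralClosure (Algebra.adjoin A₀ {nodesInstIncl K₀ M q (bgJ K₀ M)⁻¹}) (modularFunctionFieldFullC K₀ (M * q))) π) ∣ X * Y ∧
        NodesLocGen 𝔫 {(algebraMap A₀ (integralClosure (Algebra.adjoin A₀ {nodesInstIncl K₀ M q (bgJ K₀ M)⁻¹}) (modularFunctionFieldFullC K₀ (M * q))) π), X, Y}) := by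
  have h := RegInst.tsHyp_jline K₀ M r hπ hr hrπ q e h6 hM he hζ
  exact nodesFinal_chart_inv r ιC hq hqM ψA ψE θ hπ.ne_zero hπ.not_isUnit hr hrπ hψ hθ hθq
    (atkinLehner K₀ ιC hq hqM).toAlgHom (fun _ => rfl) (bgJ K₀ M) h (nodesFinal_Jinv_mem K₀ r) (nodesFinal_Jinv_fixed K₀ ψE) (nodesFinal_wJinv_mem K₀ r ιC hq hqM) hd swap 𝔫 h𝔫 hπ𝔫

/-- **(SS1), `vert` form, chart `j`.** -/
theorem nodesFinal_vert_J
    (hπ : Irreducible π) (hr : ∀ a, r a = 0 → π ∣ a) (hrπ : r π = 0)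
    (hd : NodesHomData (nodesPhi A₀ M q (bgJ K₀ M))
      (algebraMap A₀ (integralClosure (Algebra.adjoin A₀ {(bgJ K₀ M)}) (modularFunctionFieldFullC K₀ M)) π)
      (nodesFrobChartRed r hπ.ne_zero hπ.not_isUnit hr hrπ (nodesFrob_full_le (M * q)) (nodesInstIncl K₀ M q (bgJ K₀ M)) (nodesInst_ht' r M q (bgJ K₀ M) (nodesFinal_J_mem K₀ r)))
      (nodesSwapRho₀ r hπ.ne_zero hπ.not_isUnit hr hrπ (nodesFrob_full_le (M * q)) (atkinLehner K₀ ιC hq hqM).toAlgHom (nodesInstIncl K₀ M q (bgJ K₀ M)) (nodesFinal_wJ_mem K₀ r ιC hq hqM)) q) :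
    ∃ vert : Finset (Ideal (integralClosure (Algebra.adjoin A₀ {nodesInstIncl K₀ M q (bgJ K₀ M)}) (modularFunctionFieldFullC K₀ (M * q)))),
      vert = {RingHom.ker (nodesFrobChartRed r hπ.ne_zero hπ.not_isUnit hr hrπ (nodesFrob_full_le (M * q)) (nodesInstIncl K₀ M q (bgJ K₀ M)) (nodesInst_ht' r M q (bgJ K₀ M) (nodesFinal_J_mem K₀ r))), RingHom.ker (nodesSwapRho₀ r hπ.ne_zero hπ.not_isUnit hr hrπ (nodesFrob_full_le (M * q)) (atkinLehner K₀ ιC hq hqM).toAlgHom (nodesInstIncl K₀ M q (bgJ K₀ M)) (nodesFinal_wJ_mem K₀ r ιC hq hqM))} ∧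
      (∀ 𝔭 ∈ vert, 𝔭.IsPrime) ∧ (∀ 𝔭 ∈ vert, (algebraMap A₀ (integralClosure (Algebra.adjoin A₀ {nodesInstIncl K₀ M q (bgJ K₀ M)}) (modularFunctionFieldFullC K₀ (M * q))) π) ∈ 𝔭) ∧
      (∀ y : (integralClosure (Algebra.adjoin A₀ {nodesInstIncl K₀ M q (bgJ K₀ M)}) (modularFunctionFieldFullC K₀ (M * q))), (∀ 𝔭 ∈ vert, y ∈ 𝔭) → (algebraMap A₀ (integralClosure (Algebra.adjoin A₀ {nodesInstIncl K₀ M q (bgJ K₀ M)}) (modularFunctionFieldFullC K₀ (M * q))) π) ∣ y) :=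
  nodesFinal_vert r hπ.ne_zero hπ.not_isUnit hr hrπ (atkinLehner K₀ ιC hq hqM).toAlgHom (bgJ K₀ M) (nodesFinal_J_mem K₀ r) (nodesFinal_wJ_mem K₀ r ιC hq hqM) hd

/-- **(SS1), `vert` form, chart `1/j`.** -/
theorem nodesFinal_vert_Jinv
    (hπ : Irreducible π) (hr : ∀ a, r a = 0 → π ∣ a) (hrπ : r π = 0)
    (hd : NodesHomData (nodesPhi A₀ M q (bgJ K₀ M)⁻¹)
      (algebraMap A₀ (integralClosure (Algebra.adjoin A₀ {(bgJ K₀ M)⁻¹}) (modularFunctionFieldFullC K₀ M)) π)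
      (nodesFrobChartRed r hπ.ne_zero hπ.not_isUnit hr hrπ (nodesFrob_full_le (M * q)) (nodesInstIncl K₀ M q (bgJ K₀ M)⁻¹) (nodesInst_ht' r M q (bgJ K₀ M)⁻¹ (nodesFinal_Jinv_mem K₀ r)))
      (nodesSwapRho₀ r hπ.ne_zero hπ.not_isUnit hr hrπ (nodesFrob_full_le (M * q)) (atkinLehner K₀ ιC hq hqM).toAlgHom (nodesInstIncl K₀ M q (bgJ K₀ M)⁻¹) (nodesFinal_wJinv_mem K₀ r ιC hq hqM)) q) :
    ∃ vert : Finset (Ideal (integralClosure (Algebra.adjoin A₀ {nodesInstIncl K₀ M q (bgJ K₀ M)⁻¹}) (modularFunctionFieldFullC K₀ (M * q)))),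
      vert = {RingHom.ker (nodesFrobChartRed r hπ.ne_zero hπ.not_isUnit hr hrπ (nodesFrob_full_le (M * q)) (nodesInstIncl K₀ M q (bgJ K₀ M)⁻¹) (nodesInst_ht' r M q (bgJ K₀ M)⁻¹ (nodesFinal_Jinv_mem K₀ r))), RingHom.ker (nodesSwapRho₀ r hπ.ne_zero hπ.not_isUnit hr hrπ (nodesFrob_full_le (M * q)) (atkinLehner K₀ ιC hq hqM).toAlgHom (nodesInstIncl K₀ M q (bgJ K₀ M)⁻¹) (nodesFinal_wJinv_mem K₀ r ιC hq hqM))} ∧
      (∀ 𝔭 ∈ vert, 𝔭.IsPrime) ∧ (∀ 𝔭 ∈ vert, (algebraMap A₀ (integralClosure (Algebra.adjoin A₀ {nodesInstIncl K₀ M q (bgJ K₀ M)⁻¹}) (modularFunctionFieldFullC K₀ (M * q))) π) ∈ 𝔭) ∧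
      (∀ y : (integralClosure (Algebra.adjoin A₀ {nodesInstIncl K₀ M q (bgJ K₀ M)⁻¹}) (modularFunctionFieldFullC K₀ (M * q))), (∀ 𝔭 ∈ vert, y ∈ 𝔭) → (algebraMap A₀ (integralClosure (Algebra.adjoin A₀ {nodesInstIncl K₀ M q (bgJ K₀ M)⁻¹}) (modularFunctionFieldFullC K₀ (M * q))) π) ∣ y) :=
  nodesFinal_vert r hπ.ne_zero hπ.not_isUnit hr hrπ (atkinLehner K₀ ιC hq hqM).toAlgHom (bgJ K₀ M)⁻¹ (nodesFinal_Jinv_mem K₀ r) (nodesFinal_wJinv_mem K₀ r ιC hq hqM) hd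

end JCharts

end Fermat.Agent.UNIP

end
end ZBUNIP_023_0
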