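/- GENERATED FILE (helper35, build-time optimisation, NOTES/ZB.md): verbatim concatenation of the modules
   Fermat.Agent.UNIP.NodesFinalFull
   Do not edit; do not import together with these modules. -/
import Fermat.Agent.ZB.UNIP_023
import Fermat.Agent.ZB.UNIP_014

/-! ### bundled: `Fermat.Agent.UNIP.NodesFinalFull` -/
section ZBUNIP_025_0

/-!
# UNIP / U5 (Nodes): the charts `j`, `1/j` of `F_{Mq}(K₀)`, all inputs discharged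

`K₀ ⊆ ℚ̄` any intermediate field, `A₀ ⊆ K₀` a discrete valuation ring with fraction field `K₀`,
uniformizer `π`, `r : A₀ → k` with `ker r = (π)`, `k` perfect of characteristic `q ∤ M`, `e` with
`6 ∣ e`, `M ∣ e`, `e ∈ A₀ˣ`, `μ_e ⊆ A₀` (the data of `RegInst.tsHyp_jline`; so `q ≥ 5`), a
Frobenius lift `(ψA, ψE, θ)`.  With `ρ`, `ρ₀` the two reductions of the chart
`B = integralClosure A₀[j^{±1}] F_{Mq}(K₀)`:

* `nodesFinal_hd_J`, `nodesFinal_hd_Jinv` : `NodesHomData` (helper90's `nodesInst_homData_J`,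
  `nodesInst_homData_Jinv_full` with `hprime` from `TSHyp`);
* `nodesFull_chart_J`, `nodesFull_chart_Jinv` : **(SS2) ∨ (SS3)** at every maximal ideal `𝔫 ∋ π`;
* `nodesFull_vert_J`, `nodesFull_vert_Jinv` : **(SS1)** in the `vert` form;
* `nodesFull_ker_J`, `nodesFull_ker_Jinv` : **(SS1)** `ρ x = 0 → ρ₀ x = 0 → π ∣ x`.
-/

set_option autoImplicit false
set_option linter.style.haveILetI false
set_option linter.unusedSectionVars false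
set_option linter.unusedVariables false
set_option linter.style.longLine false
set_option synthInstance.maxHeartbeats 400000
set_option maxHeartbeats 1000000

noncomputable section

namespace Fermat.Agent.UNIP

open ModularCurve Polynomial IntermediateField Fermat.Agent.INJ Fermat.Agent.AL

section JCharts

variable (K₀ : IntermediateField ℚ NfQb) {A₀ : Type} [CommRing A₀] [IsDomain A₀]
  [IsDiscreteValuationRing A₀] [Algebra A₀ K₀] [IsFractionRing A₀ K₀]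
  {k : Type*} [Field k] (r : A₀ →+* k) {π : A₀} (ιC : K₀ →+* ℂ)
  {q M : ℕ} [NeZero q] [NeZero M] [NeZero (M * q)] (hq : q.Prime) (hqM : ¬ q ∣ M)
  (ψA : A₀ →+* A₀) (ψE : K₀ →+* K₀) (θ : k →+* k)
  [Algebra A₀ (modularFunctionFieldFullC K₀ M)]
  [IsScalarTower A₀ K₀ (modularFunctionFieldFullC K₀ M)]
  [Algebra A₀ (modularFunctionFieldFullC K₀ (M * q))]
  [IsScalarTower A₀ K₀ (modularFunctionFieldFullC K₀ (M * q))]

/-- **`hd` on the chart `j`.** -/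
theorem nodesFinal_hd_J [Fact q.Prime] [CharP k q] [PerfectRing k q]
    (hπ : Irreducible π) (hr : ∀ a, r a = 0 → π ∣ a) (hrπ : r π = 0)
    (e : ℕ) (h6 : 6 ∣ e) (hM : M ∣ e) (he : IsUnit (e : A₀))
    (hζ : ∃ ζ : A₀, IsPrimitiveRoot ζ e) :
    NodesHomData (nodesPhi A₀ M q (bgJ K₀ M))
      (algebraMap A₀ (integralClosure (Algebra.adjoin A₀ {(bgJ K₀ M)}) (modularFunctionFieldFullC K₀ M)) π)
      (nodesFrobChartRed r hπ.ne_zero hπ.not_isUnit hr hrπ (nodesFrob_full_le (M * q)) (nodesInstIncl K₀ M q (bgJ K₀ M)) (nodesInst_ht' r M q (bgJ K₀ M) (nodesFinal_J_mem K₀ r)))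
      (nodesSwapRho₀ r hπ.ne_zero hπ.not_isUnit hr hrπ (nodesFrob_full_le (M * q)) (atkinLehner K₀ ιC hq hqM).toAlgHom (nodesInstIncl K₀ M q (bgJ K₀ M)) (nodesFinal_wJ_mem K₀ r ιC hq hqM)) q :=
  nodesInst_homData_J r hπ.ne_zero hπ.not_isUnit hr hrπ M q (bgJ K₀ M) rfl (nodesFinal_J_mem K₀ r) ιC hq hqM
    (atkinLehner K₀ ιC hq hqM).toAlgHom (fun _ => rfl) (nodesFinal_wJ_mem K₀ r ιC hq hqM)
    (RegInst.tsHyp_jline K₀ M r hπ hr hrπ q e h6 hM he hζ).prime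

/-- **`hd` on the chart `1/j`.** -/
theorem nodesFinal_hd_Jinv [Fact q.Prime] [CharP k q] [PerfectRing k q]
    (hπ : Irreducible π) (hr : ∀ a, r a = 0 → π ∣ a) (hrπ : r π = 0)
    (e : ℕ) (h6 : 6 ∣ e) (hM : M ∣ e) (he : IsUnit (e : A₀))
    (hζ : ∃ ζ : A₀, IsPrimitiveRoot ζ e) :
    NodesHomData (nodesPhi A₀ M q (bgJ K₀ M)⁻¹)
      (algebraMap A₀ (integralClosure (Algebra.adjoin A₀ {(bgJ K₀ M)⁻¹}) (modularFunctionFieldFullC K₀ M)) π)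
      (nodesFrobChartRed r hπ.ne_zero hπ.not_isUnit hr hrπ (nodesFrob_full_le (M * q)) (nodesInstIncl K₀ M q (bgJ K₀ M)⁻¹) (nodesInst_ht' r M q (bgJ K₀ M)⁻¹ (nodesFinal_Jinv_mem K₀ r)))
      (nodesSwapRho₀ r hπ.ne_zero hπ.not_isUnit hr hrπ (nodesFrob_full_le (M * q)) (atkinLehner K₀ ιC hq hqM).toAlgHom (nodesInstIncl K₀ M q (bgJ K₀ M)⁻¹) (nodesFinal_wJinv_mem K₀ r ιC hq hqM)) q :=
  nodesInst_homData_Jinv_full r hπ.ne_zero hπ.not_isUnit hr hrπ M q (bgJ K₀ M)⁻¹ rfl (nodesFinal_Jinv_mem K₀ r) ιC hq hqM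
    (atkinLehner K₀ ιC hq hqM).toAlgHom (fun _ => rfl) (nodesFinal_wJinv_mem K₀ r ιC hq hqM)
    (RegInst.tsHyp_jline K₀ M r hπ hr hrπ q e h6 hM he hζ).inv_prime

/-- **Chart `j` of `F_{Mq}(K₀)`: (SS2) ∨ (SS3)** at every maximal ideal `𝔫 ∋ π`. -/
theorem nodesFull_chart_J [Fact q.Prime] [CharP k q] [PerfectRing k q]
    (hπ : Irreducible π) (hr : ∀ a, r a = 0 → π ∣ a) (hrπ : r π = 0)
    (e : ℕ) (h6 : 6 ∣ e) (hM : M ∣ e) (he : IsUnit (e : A₀))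
    (hζ : ∃ ζ : A₀, IsPrimitiveRoot ζ e)
    (hψ : ∀ a, ψE (algebraMap A₀ K₀ a) = algebraMap A₀ K₀ (ψA a))
    (hθ : ∀ a, r (ψA a) = θ (r a)) (hθq : ∀ x, θ x ^ q = x)
    (𝔫 : Ideal (integralClosure (Algebra.adjoin A₀ {nodesInstIncl K₀ M q (bgJ K₀ M)}) (modularFunctionFieldFullC K₀ (M * q))))
    (h𝔫 : 𝔫.IsMaximal)
    (hπ𝔫 : (algebraMap A₀ (integralClosure (Algebra.adjoin A₀ {nodesInstIncl K₀ M q (bgJ K₀ M)}) (modularFunctionFieldFullC K₀ (M * q))) π) ∈ 𝔫) :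
    (∃ s ∈ 𝔫, NodesLocGen 𝔫 {(algebraMap A₀ (integralClosure (Algebra.adjoin A₀ {nodesInstIncl K₀ M q (bgJ K₀ M)}) (modularFunctionFieldFullC K₀ (M * q))) π), s}) ∨
    ((∀ x, (nodesFrobChartRed r hπ.ne_zero hπ.not_isUnit hr hrπ (nodesFrob_full_le (M * q)) (nodesInstIncl K₀ M q (bgJ K₀ M)) (nodesInst_ht' r M q (bgJ K₀ M) (nodesFinal_J_mem K₀ r))) x = 0 → x ∈ 𝔫) ∧
      (∀ x, (nodesSwapRho₀ r hπ.ne_zero hπ.not_isUnit hr hrπ (nodesFrob_full_le (M * q)) (atkinLehner K₀ ιC hq hqM).toAlgHom (nodesInstIncl K₀ M q (bgJ K₀ M)) (nodesFinal_wJ_mem K₀ r ιC hq hqM)) x = 0 → x ∈ 𝔫) ∧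
      ∃ X Y : (integralClosure (Algebra.adjoin A₀ {nodesInstIncl K₀ M q (bgJ K₀ M)}) (modularFunctionFieldFullC K₀ (M * q))),
        (nodesFrobChartRed r hπ.ne_zero hπ.not_isUnit hr hrπ (nodesFrob_full_le (M * q)) (nodesInstIncl K₀ M q (bgJ K₀ M)) (nodesInst_ht' r M q (bgJ K₀ M) (nodesFinal_J_mem K₀ r))) X = 0 ∧
        (nodesSwapRho₀ r hπ.ne_zero hπ.not_isUnit hr hrπ (nodesFrob_full_le (M * q)) (atkinLehner K₀ ιC hq hqM).toAlgHom (nodesInstIncl K₀ M q (bgJ K₀ M)) (nodesFinal_wJ_mem K₀ r ιC hq hqM)) Y = 0 ∧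
        NodesSmoothAt (nodesSwapRho₀ r hπ.ne_zero hπ.not_isUnit hr hrπ (nodesFrob_full_le (M * q)) (atkinLehner K₀ ιC hq hqM).toAlgHom (nodesInstIncl K₀ M q (bgJ K₀ M)) (nodesFinal_wJ_mem K₀ r ιC hq hqM)) 𝔫 X ∧
        NodesSmoothAt (nodesFrobChartRed r hπ.ne_zero hπ.not_isUnit hr hrπ (nodesFrob_full_le (M * q)) (nodesInstIncl K₀ M q (bgJ K₀ M)) (nodesInst_ht' r M q (bgJ K₀ M) (nodesFinal_J_mem K₀ r))) 𝔫 Y ∧
        (algebraMap A₀ (integralClosure (Algebra.adjoin A₀ {nodesInstIncl K₀ M q (bgJ K₀ M)}) (modularFunctionFieldFullC K₀ (M * q))) π) ∣ X * Y ∧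
        NodesLocGen 𝔫 {(algebraMap A₀ (integralClosure (Algebra.adjoin A₀ {nodesInstIncl K₀ M q (bgJ K₀ M)}) (modularFunctionFieldFullC K₀ (M * q))) π), X, Y}) :=
  nodesFinal_chart_J K₀ r ιC hq hqM ψA ψE θ hπ hr hrπ hψ hθ hθq e h6 hM he hζ
    (nodesFinal_hd_J K₀ r ιC hq hqM hπ hr hrπ e h6 hM he hζ) 𝔫 h𝔫 hπ𝔫

/-- **Chart `1/j` of `F_{Mq}(K₀)`: (SS2) ∨ (SS3)** at every maximal ideal `𝔫 ∋ π`. -/
theorem nodesFull_chart_Jinv [Fact q.Prime] [CharP k q] [PerfectRing k q]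
    (hπ : Irreducible π) (hr : ∀ a, r a = 0 → π ∣ a) (hrπ : r π = 0)
    (e : ℕ) (h6 : 6 ∣ e) (hM : M ∣ e) (he : IsUnit (e : A₀))
    (hζ : ∃ ζ : A₀, IsPrimitiveRoot ζ e)
    (hψ : ∀ a, ψE (algebraMap A₀ K₀ a) = algebraMap A₀ K₀ (ψA a))
    (hθ : ∀ a, r (ψA a) = θ (r a)) (hθq : ∀ x, θ x ^ q = x)
    (𝔫 : Ideal (integralClosure (Algebra.adjoin A₀ {nodesInstIncl K₀ M q (bgJ K₀ M)⁻¹}) (modularFunctionFieldFullC K₀ (M * q))))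
    (h𝔫 : 𝔫.IsMaximal)
    (hπ𝔫 : (algebraMap A₀ (integralClosure (Algebra.adjoin A₀ {nodesInstIncl K₀ M q (bgJ K₀ M)⁻¹}) (modularFunctionFieldFullC K₀ (M * q))) π) ∈ 𝔫) :
    (∃ s ∈ 𝔫, NodesLocGen 𝔫 {(algebraMap A₀ (integralClosure (Algebra.adjoin A₀ {nodesInstIncl K₀ M q (bgJ K₀ M)⁻¹}) (modularFunctionFieldFullC K₀ (M * q))) π), s}) ∨
    ((∀ x, (nodesFrobChartRed r hπ.ne_zero hπ.not_isUnit hr hrπ (nodesFrob_full_le (M * q)) (nodesInstIncl K₀ M q (bgJ K₀ M)⁻¹) (nodesInst_ht' r M q (bgJ K₀ M)⁻¹ (nodesFinal_Jinv_mem K₀ r))) x = 0 → x ∈ 𝔫) ∧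
      (∀ x, (nodesSwapRho₀ r hπ.ne_zero hπ.not_isUnit hr hrπ (nodesFrob_full_le (M * q)) (atkinLehner K₀ ιC hq hqM).toAlgHom (nodesInstIncl K₀ M q (bgJ K₀ M)⁻¹) (nodesFinal_wJinv_mem K₀ r ιC hq hqM)) x = 0 → x ∈ 𝔫) ∧
      ∃ X Y : (integralClosure (Algebra.adjoin A₀ {nodesInstIncl K₀ M q (bgJ K₀ M)⁻¹}) (modularFunctionFieldFullC K₀ (M * q))),
        (nodesFrobChartRed r hπ.ne_zero hπ.not_isUnit hr hrπ (nodesFrob_full_le (M * q)) (nodesInstIncl K₀ M q (bgJ K₀ M)⁻¹) (nodesInst_ht' r M q (bgJ K₀ M)⁻¹ (nodesFinal_Jinv_mem K₀ r))) X = 0 ∧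
        (nodesSwapRho₀ r hπ.ne_zero hπ.not_isUnit hr hrπ (nodesFrob_full_le (M * q)) (atkinLehner K₀ ιC hq hqM).toAlgHom (nodesInstIncl K₀ M q (bgJ K₀ M)⁻¹) (nodesFinal_wJinv_mem K₀ r ιC hq hqM)) Y = 0 ∧
        NodesSmoothAt (nodesSwapRho₀ r hπ.ne_zero hπ.not_isUnit hr hrπ (nodesFrob_full_le (M * q)) (atkinLehner K₀ ιC hq hqM).toAlgHom (nodesInstIncl K₀ M q (bgJ K₀ M)⁻¹) (nodesFinal_wJinv_mem K₀ r ιC hq hqM)) 𝔫 X ∧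
        NodesSmoothAt (nodesFrobChartRed r hπ.ne_zero hπ.not_isUnit hr hrπ (nodesFrob_full_le (M * q)) (nodesInstIncl K₀ M q (bgJ K₀ M)⁻¹) (nodesInst_ht' r M q (bgJ K₀ M)⁻¹ (nodesFinal_Jinv_mem K₀ r))) 𝔫 Y ∧
        (algebraMap A₀ (integralClosure (Algebra.adjoin A₀ {nodesInstIncl K₀ M q (bgJ K₀ M)⁻¹}) (modularFunctionFieldFullC K₀ (M * q))) π) ∣ X * Y ∧
        NodesLocGen 𝔫 {(algebraMap A₀ (integralClosure (Algebra.adjoin A₀ {nodesInstIncl K₀ M q (bgJ K₀ M)⁻¹}) (modularFunctionFieldFullC K₀ (M * q))) π), X, Y}) :=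
  nodesFinal_chart_Jinv K₀ r ιC hq hqM ψA ψE θ hπ hr hrπ hψ hθ hθq e h6 hM he hζ
    (nodesFinal_hd_Jinv K₀ r ιC hq hqM hπ hr hrπ e h6 hM he hζ)
    (nodesInst_swap_Jinv r hπ.ne_zero hπ.not_isUnit hr hrπ M q (bgJ K₀ M)⁻¹ rfl (nodesFinal_Jinv_mem K₀ r) ιC hq hqM
      (atkinLehner K₀ ιC hq hqM).toAlgHom (fun _ => rfl) (nodesFinal_wJinv_mem K₀ r ιC hq hqM)) 𝔫 h𝔫 hπ𝔫

/-- **(SS1), `vert` form, chart `j`.** -/
theorem nodesFull_vert_J [Fact q.Prime] [CharP k q] [PerfectRing k q]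
    (hπ : Irreducible π) (hr : ∀ a, r a = 0 → π ∣ a) (hrπ : r π = 0)
    (e : ℕ) (h6 : 6 ∣ e) (hM : M ∣ e) (he : IsUnit (e : A₀))
    (hζ : ∃ ζ : A₀, IsPrimitiveRoot ζ e) :
    ∃ vert : Finset (Ideal (integralClosure (Algebra.adjoin A₀ {nodesInstIncl K₀ M q (bgJ K₀ M)}) (modularFunctionFieldFullC K₀ (M * q)))),
      vert = {RingHom.ker (nodesFrobChartRed r hπ.ne_zero hπ.not_isUnit hr hrπ (nodesFrob_full_le (M * q)) (nodesInstIncl K₀ M q (bgJ K₀ M)) (nodesInst_ht' r M q (bgJ K₀ M) (nodesFinal_J_mem K₀ r))), RingHom.ker (nodesSwapRho₀ r hπ.ne_zero hπ.not_isUnit hr hrπ (nodesFrob_full_le (M * q)) (atkinLehner K₀ ιC hq hqM).toAlgHom (nodesInstIncl K₀ M q (bgJ K₀ M)) (nodesFinal_wJ_mem K₀ r ιC hq hqM))} ∧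
      (∀ 𝔭 ∈ vert, 𝔭.IsPrime) ∧ (∀ 𝔭 ∈ vert, (algebraMap A₀ (integralClosure (Algebra.adjoin A₀ {nodesInstIncl K₀ M q (bgJ K₀ M)}) (modularFunctionFieldFullC K₀ (M * q))) π) ∈ 𝔭) ∧
      (∀ y : (integralClosure (Algebra.adjoin A₀ {nodesInstIncl K₀ M q (bgJ K₀ M)}) (modularFunctionFieldFullC K₀ (M * q))), (∀ 𝔭 ∈ vert, y ∈ 𝔭) → (algebraMap A₀ (integralClosure (Algebra.adjoin A₀ {nodesInstIncl K₀ M q (bgJ K₀ M)}) (modularFunctionFieldFullC K₀ (M * q))) π) ∣ y) :=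
  nodesFinal_vert_J K₀ r ιC hq hqM hπ hr hrπ
    (nodesFinal_hd_J K₀ r ιC hq hqM hπ hr hrπ e h6 hM he hζ)

/-- **(SS1), `vert` form, chart `1/j`.** -/
theorem nodesFull_vert_Jinv [Fact q.Prime] [CharP k q] [PerfectRing k q]
    (hπ : Irreducible π) (hr : ∀ a, r a = 0 → π ∣ a) (hrπ : r π = 0)
    (e : ℕ) (h6 : 6 ∣ e) (hM : M ∣ e) (he : IsUnit (e : A₀))
    (hζ : ∃ ζ : A₀, IsPrimitiveRoot ζ e) :
    ∃ vert : Finset (Ideal (integralClosure (Algebra.adjoin A₀ {nodesInstIncl K₀ M q (bgJ K₀ M)⁻¹}) (modularFunctionFieldFullC K₀ (M * q)))),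
      vert = {RingHom.ker (nodesFrobChartRed r hπ.ne_zero hπ.not_isUnit hr hrπ (nodesFrob_full_le (M * q)) (nodesInstIncl K₀ M q (bgJ K₀ M)⁻¹) (nodesInst_ht' r M q (bgJ K₀ M)⁻¹ (nodesFinal_Jinv_mem K₀ r))), RingHom.ker (nodesSwapRho₀ r hπ.ne_zero hπ.not_isUnit hr hrπ (nodesFrob_full_le (M * q)) (atkinLehner K₀ ιC hq hqM).toAlgHom (nodesInstIncl K₀ M q (bgJ K₀ M)⁻¹) (nodesFinal_wJinv_mem K₀ r ιC hq hqM))} ∧
      (∀ 𝔭 ∈ vert, 𝔭.IsPrime) ∧ (∀ 𝔭 ∈ vert, (algebraMap A₀ (integralClosure (Algebra.adjoin A₀ {nodesInstIncl K₀ M q (bgJ K₀ M)⁻¹}) (modularFunctionFieldFullC K₀ (M * q))) π) ∈ 𝔭) ∧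
      (∀ y : (integralClosure (Algebra.adjoin A₀ {nodesInstIncl K₀ M q (bgJ K₀ M)⁻¹}) (modularFunctionFieldFullC K₀ (M * q))), (∀ 𝔭 ∈ vert, y ∈ 𝔭) → (algebraMap A₀ (integralClosure (Algebra.adjoin A₀ {nodesInstIncl K₀ M q (bgJ K₀ M)⁻¹}) (modularFunctionFieldFullC K₀ (M * q))) π) ∣ y) :=
  nodesFinal_vert_Jinv K₀ r ιC hq hqM hπ hr hrπ
    (nodesFinal_hd_Jinv K₀ r ιC hq hqM hπ hr hrπ e h6 hM he hζ)

/-- **(SS1), chart `j`**: `ker ρ ∩ ker ρ₀ = π B`. -/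
theorem nodesFull_ker_J [Fact q.Prime] [CharP k q] [PerfectRing k q]
    (hπ : Irreducible π) (hr : ∀ a, r a = 0 → π ∣ a) (hrπ : r π = 0)
    (e : ℕ) (h6 : 6 ∣ e) (hM : M ∣ e) (he : IsUnit (e : A₀))
    (hζ : ∃ ζ : A₀, IsPrimitiveRoot ζ e)
    (x : (integralClosure (Algebra.adjoin A₀ {nodesInstIncl K₀ M q (bgJ K₀ M)}) (modularFunctionFieldFullC K₀ (M * q))))
    (hx : (nodesFrobChartRed r hπ.ne_zero hπ.not_isUnit hr hrπ (nodesFrob_full_le (M * q)) (nodesInstIncl K₀ M q (bgJ K₀ M)) (nodesInst_ht' r M q (bgJ K₀ M) (nodesFinal_J_mem K₀ r))) x = 0)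
    (hx₀ : (nodesSwapRho₀ r hπ.ne_zero hπ.not_isUnit hr hrπ (nodesFrob_full_le (M * q)) (atkinLehner K₀ ιC hq hqM).toAlgHom (nodesInstIncl K₀ M q (bgJ K₀ M)) (nodesFinal_wJ_mem K₀ r ιC hq hqM)) x = 0) :
    (algebraMap A₀ (integralClosure (Algebra.adjoin A₀ {nodesInstIncl K₀ M q (bgJ K₀ M)}) (modularFunctionFieldFullC K₀ (M * q))) π) ∣ x :=
  nodes_modular_ker r hπ.ne_zero hπ.not_isUnit hr hrπ (atkinLehner K₀ ιC hq hqM).toAlgHom (bgJ K₀ M) (nodesFinal_J_mem K₀ r) (nodesFinal_wJ_mem K₀ r ιC hq hqM)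
    (nodesFinal_hd_J K₀ r ιC hq hqM hπ hr hrπ e h6 hM he hζ) x hx hx₀

/-- **(SS1), chart `1/j`**: `ker ρ ∩ ker ρ₀ = π B`. -/
theorem nodesFull_ker_Jinv [Fact q.Prime] [CharP k q] [PerfectRing k q]
    (hπ : Irreducible π) (hr : ∀ a, r a = 0 → π ∣ a) (hrπ : r π = 0)
    (e : ℕ) (h6 : 6 ∣ e) (hM : M ∣ e) (he : IsUnit (e : A₀))
    (hζ : ∃ ζ : A₀, IsPrimitiveRoot ζ e)
    (x : (integralClosure (Algebra.adjoin A₀ {nodesInstIncl K₀ M q (bgJ K₀ M)⁻¹}) (modularFunctionFieldFullC K₀ (M * q))))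
    (hx : (nodesFrobChartRed r hπ.ne_zero hπ.not_isUnit hr hrπ (nodesFrob_full_le (M * q)) (nodesInstIncl K₀ M q (bgJ K₀ M)⁻¹) (nodesInst_ht' r M q (bgJ K₀ M)⁻¹ (nodesFinal_Jinv_mem K₀ r))) x = 0)
    (hx₀ : (nodesSwapRho₀ r hπ.ne_zero hπ.not_isUnit hr hrπ (nodesFrob_full_le (M * q)) (atkinLehner K₀ ιC hq hqM).toAlgHom (nodesInstIncl K₀ M q (bgJ K₀ M)⁻¹) (nodesFinal_wJinv_mem K₀ r ιC hq hqM)) x = 0) :
    (algebraMap A₀ (integralClosure (Algebra.adjoin A₀ {nodesInstIncl K₀ M q (bgJ K₀ M)⁻¹}) (modularFunctionFieldFullC K₀ (M * q))) π) ∣ x :=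
  nodes_modular_ker r hπ.ne_zero hπ.not_isUnit hr hrπ (atkinLehner K₀ ιC hq hqM).toAlgHom (bgJ K₀ M)⁻¹ (nodesFinal_Jinv_mem K₀ r) (nodesFinal_wJinv_mem K₀ r ιC hq hqM)
    (nodesFinal_hd_Jinv K₀ r ιC hq hqM hπ hr hrπ e h6 hM he hζ) x hx hx₀

end JCharts

end Fermat.Agent.UNIP

end
end ZBUNIP_025_0
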