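/- GENERATED FILE (helper35, build-time optimisation, NOTES/ZB.md): verbatim concatenation of the modules
   Fermat.Agent.UNIP.NodesFinalReg
   Fermat.Agent.UNIP.U5Red
   Do not edit; do not import together with these modules. -/
import Fermat.Agent.ZB.UNIP_025
import Fermat.Agent.ZB.UNIP_028

/-! ### bundled: `Fermat.Agent.UNIP.NodesFinalReg` -/
section ZBUNIP_029_0
/-
UNIP (item 34, S34/S35), U5 (Nodes): the charts `j`, `1/j` of `F_{Mq}(K₀)` with the level-`M`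
input in the form `RegChart` (helper20) — so that `q ≥ 5` AND `q ∈ {2, 3}` are covered.

Same statements as `NodesFinalFull.lean` (helper3: `nodesFinal_hd_J`, `nodesFull_chart_J`, …), but the
data `e, 6 ∣ e, M ∣ e, e ∈ A₀ˣ, μ_e ⊆ A₀` of `RegInst.tsHyp_jline` (which force `q ≥ 5`) are replaced
by ONE hypothesis
  `h : RegChart (E := K₀) π (bgJ K₀ M)`   resp.   `h : RegChart (E := K₀) π (bgJ K₀ M)⁻¹`.
Sources of `h` (`RegTransferMod.lean`):
  `regChart_J`, `regChart_Jinv`        (`6 ∣ e`, `M ∣ e`: `q ≥ 5`),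
  `regChart_h2_J`, `regChart_h2_Jinv`  (`2 ∣ M ∣ e`: for `q = 3`),
  `regChart_h3_J`, `regChart_h3_Jinv`  (`3 ∣ M ∣ e`: for `q = 2`).

* `nodesReg_chart` : generic coordinate `t` (copy of `nodesFinal_chart`, `h : RegChart π t`);
* `nodesReg_hd_J`, `nodesReg_hd_Jinv`, `nodesReg_chart_J`, `nodesReg_chart_Jinv`,
  `nodesReg_vert_J`, `nodesReg_vert_Jinv`, `nodesReg_ker_J`, `nodesReg_ker_Jinv`.
-/

set_option autoImplicit false
set_option linter.style.haveILetI false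
set_option linter.unusedSectionVars false
set_option linter.unusedVariables false
set_option linter.style.longLine false
set_option synthInstance.maxHeartbeats 400000
set_option maxHeartbeats 1000000

noncomputable section

namespace Fermat.Agent.UNIP

open ModularCurve Polynomial IntermediateField Fermat.Agent.INJ Fermat.Agent.AL

section Generic

universe u

variable {A E : Type u} {k : Type*} [CommRing A] [IsDomain A] [IsDiscreteValuationRing A]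
  [Field E] [CharZero E] [Algebra A E] [IsFractionRing A E] [Field k] (r : A →+* k) {π : A}
  (ιC : E →+* ℂ)
  {q M : ℕ} [NeZero q] [NeZero M] [NeZero (M * q)] (hq : q.Prime) (hqM : ¬ q ∣ M)
  (ψA : A →+* A) (ψE : E →+* E) (θ : k →+* k)
  [Algebra A (modularFunctionFieldFullC E M)]
  [IsScalarTower A E (modularFunctionFieldFullC E M)]
  [Algebra A (modularFunctionFieldFullC E (M * q))]
  [IsScalarTower A E (modularFunctionFieldFullC E (M * q))]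

/-- **(SS2) ∨ (SS3) on the chart `t`** of level `M q`, the level-`M` inputs coming from
`RegChart π t`. -/
theorem nodesReg_chart [Fact q.Prime] [CharP k q]
    (hπ0 : π ≠ 0) (hπ : ¬ IsUnit π) (hr : ∀ a, r a = 0 → π ∣ a) (hrπ : r π = 0)
    (hψ : ∀ a, ψE (algebraMap A E a) = algebraMap A E (ψA a))
    (hθ : ∀ a, r (ψA a) = θ (r a)) (hθq : ∀ x, θ x ^ q = x)
    (w : (modularFunctionFieldFullC E (M * q)) →ₐ[E] (modularFunctionFieldFullC E (M * q)))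
    (hw : ∀ x, w x = atkinLehner E ιC hq hqM x)
    (t : (modularFunctionFieldFullC E M))
    (h : RegChart (E := E) π t)
    (ht : ((t : (modularFunctionFieldFullC E M)) : LaurentSeries E) ∈ gaussRing (algebraMap A E) r)
    (hτ : coeffMap ψE ((t : (modularFunctionFieldFullC E M)) : LaurentSeries E) = ((t : (modularFunctionFieldFullC E M)) : LaurentSeries E))
    (hwt : ((w (nodesInstIncl E M q t) : (modularFunctionFieldFullC E (M * q))) : LaurentSeries E) ∈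
      gaussRing (algebraMap A E) r)
    (hd : NodesHomData (nodesPhi A M q t)
      (algebraMap A (integralClosure (Algebra.adjoin A {t}) (modularFunctionFieldFullC E M)) π)
      (nodesFrobChartRed r hπ0 hπ hr hrπ (nodesFrob_full_le (M * q)) (nodesInstIncl E M q t) (nodesInst_ht' r M q t ht))
      (nodesSwapRho₀ r hπ0 hπ hr hrπ (nodesFrob_full_le (M * q)) w (nodesInstIncl E M q t) hwt) q)
    (swap : ∀ b : (integralClosure (Algebra.adjoin A {nodesInstIncl E M q t}) (modularFunctionFieldFullC E (M * q))), ∃ b' : (integralClosure (Algebra.adjoin A {nodesInstIncl E M q t}) (modularFunctionFieldFullC E (M * q))),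
      (nodesFrobChartRed r hπ0 hπ hr hrπ (nodesFrob_full_le (M * q)) (nodesInstIncl E M q t) (nodesInst_ht' r M q t ht)) b' = (nodesSwapRho₀ r hπ0 hπ hr hrπ (nodesFrob_full_le (M * q)) w (nodesInstIncl E M q t) hwt) b ∧
      (nodesSwapRho₀ r hπ0 hπ hr hrπ (nodesFrob_full_le (M * q)) w (nodesInstIncl E M q t) hwt) b' = (nodesFrobChartRed r hπ0 hπ hr hrπ (nodesFrob_full_le (M * q)) (nodesInstIncl E M q t) (nodesInst_ht' r M q t ht)) b)
    (𝔫 : Ideal (integralClosure (Algebra.adjoin A {nodesInstIncl E M q t}) (modularFunctionFieldFullC E (M * q))))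
    (h𝔫 : 𝔫.IsMaximal)
    (hπ𝔫 : (algebraMap A (integralClosure (Algebra.adjoin A {nodesInstIncl E M q t}) (modularFunctionFieldFullC E (M * q))) π) ∈ 𝔫) :
    (∃ s ∈ 𝔫, NodesLocGen 𝔫 {(algebraMap A (integralClosure (Algebra.adjoin A {nodesInstIncl E M q t}) (modularFunctionFieldFullC E (M * q))) π), s}) ∨
    ((∀ x, (nodesFrobChartRed r hπ0 hπ hr hrπ (nodesFrob_full_le (M * q)) (nodesInstIncl E M q t) (nodesInst_ht' r M q t ht)) x = 0 → x ∈ 𝔫) ∧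
      (∀ x, (nodesSwapRho₀ r hπ0 hπ hr hrπ (nodesFrob_full_le (M * q)) w (nodesInstIncl E M q t) hwt) x = 0 → x ∈ 𝔫) ∧
      ∃ X Y : (integralClosure (Algebra.adjoin A {nodesInstIncl E M q t}) (modularFunctionFieldFullC E (M * q))),
        (nodesFrobChartRed r hπ0 hπ hr hrπ (nodesFrob_full_le (M * q)) (nodesInstIncl E M q t) (nodesInst_ht' r M q t ht)) X = 0 ∧
        (nodesSwapRho₀ r hπ0 hπ hr hrπ (nodesFrob_full_le (M * q)) w (nodesInstIncl E M q t) hwt) Y = 0 ∧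
        NodesSmoothAt (nodesSwapRho₀ r hπ0 hπ hr hrπ (nodesFrob_full_le (M * q)) w (nodesInstIncl E M q t) hwt) 𝔫 X ∧
        NodesSmoothAt (nodesFrobChartRed r hπ0 hπ hr hrπ (nodesFrob_full_le (M * q)) (nodesInstIncl E M q t) (nodesInst_ht' r M q t ht)) 𝔫 Y ∧
        (algebraMap A (integralClosure (Algebra.adjoin A {nodesInstIncl E M q t}) (modularFunctionFieldFullC E (M * q))) π) ∣ X * Y ∧
        NodesLocGen 𝔫 {(algebraMap A (integralClosure (Algebra.adjoin A {nodesInstIncl E M q t}) (modularFunctionFieldFullC E (M * q))) π), X, Y}) := by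
  haveI := h.isDomain
  haveI := h.isIntegrallyClosed
  exact nodes_modular_chart r ιC hq hqM ψA ψE θ hπ0 hπ hr hrπ hψ hθ hθq w hw t ht hτ hwt
    (fun 𝔪 h𝔪 hπ𝔪 => h.locGen 𝔪 h𝔪 hπ𝔪) hd swap 𝔫 h𝔫 hπ𝔫

end Generic

section JCharts

variable (K₀ : IntermediateField ℚ NfQb) {A₀ : Type} [CommRing A₀] [IsDomain A₀]
  [IsDiscreteValuationRing A₀] [Algebra A₀ K₀] [IsFractionRing A₀ K₀]
  {k : Type*} [Field k] (r : A₀ →+* k) {π : A₀} (ιC : K₀ →+* ℂ)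
  {q M : ℕ} [NeZero q] [NeZero M] [NeZero (M * q)] (hq : q.Prime) (hqM : ¬ q ∣ M)
  (ψA : A₀ →+* A₀) (ψE : K₀ →+* K₀) (θ : k →+* k)
  [Algebra A₀ (modularFunctionFieldFullC K₀ M)]
  [IsScalarTower A₀ K₀ (modularFunctionFieldFullC K₀ M)]
  [Algebra A₀ (modularFunctionFieldFullC K₀ (M * q))]
  [IsScalarTower A₀ K₀ (modularFunctionFieldFullC K₀ (M * q))]

/-- **`hd` on the chart `j`.** -/
theorem nodesReg_hd_J [Fact q.Prime] [CharP k q]
    (hπ : Irreducible π) (hr : ∀ a, r a = 0 → π ∣ a) (hrπ : r π = 0)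
    (h : RegChart (E := K₀) π (bgJ K₀ M)) :
    NodesHomData (nodesPhi A₀ M q (bgJ K₀ M))
      (algebraMap A₀ (integralClosure (Algebra.adjoin A₀ {(bgJ K₀ M)}) (modularFunctionFieldFullC K₀ M)) π)
      (nodesFrobChartRed r hπ.ne_zero hπ.not_isUnit hr hrπ (nodesFrob_full_le (M * q)) (nodesInstIncl K₀ M q (bgJ K₀ M)) (nodesInst_ht' r M q (bgJ K₀ M) (nodesFinal_J_mem K₀ r)))
      (nodesSwapRho₀ r hπ.ne_zero hπ.not_isUnit hr hrπ (nodesFrob_full_le (M * q)) (atkinLehner K₀ ιC hq hqM).toAlgHom (nodesInstIncl K₀ M q (bgJ K₀ M)) (nodesFinal_wJ_mem K₀ r ιC hq hqM)) q :=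
  nodesInst_homData_J r hπ.ne_zero hπ.not_isUnit hr hrπ M q (bgJ K₀ M) rfl (nodesFinal_J_mem K₀ r) ιC hq hqM
    (atkinLehner K₀ ιC hq hqM).toAlgHom (fun _ => rfl) (nodesFinal_wJ_mem K₀ r ιC hq hqM)
    h.prime

/-- **`hd` on the chart `1/j`.** -/
theorem nodesReg_hd_Jinv [Fact q.Prime] [CharP k q]
    (hπ : Irreducible π) (hr : ∀ a, r a = 0 → π ∣ a) (hrπ : r π = 0)
    (h : RegChart (E := K₀) π (bgJ K₀ M)⁻¹) :
    NodesHomData (nodesPhi A₀ M q (bgJ K₀ M)⁻¹)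
      (algebraMap A₀ (integralClosure (Algebra.adjoin A₀ {(bgJ K₀ M)⁻¹}) (modularFunctionFieldFullC K₀ M)) π)
      (nodesFrobChartRed r hπ.ne_zero hπ.not_isUnit hr hrπ (nodesFrob_full_le (M * q)) (nodesInstIncl K₀ M q (bgJ K₀ M)⁻¹) (nodesInst_ht' r M q (bgJ K₀ M)⁻¹ (nodesFinal_Jinv_mem K₀ r)))
      (nodesSwapRho₀ r hπ.ne_zero hπ.not_isUnit hr hrπ (nodesFrob_full_le (M * q)) (atkinLehner K₀ ιC hq hqM).toAlgHom (nodesInstIncl K₀ M q (bgJ K₀ M)⁻¹) (nodesFinal_wJinv_mem K₀ r ιC hq hqM)) q :=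
  nodesInst_homData_Jinv_full r hπ.ne_zero hπ.not_isUnit hr hrπ M q (bgJ K₀ M)⁻¹ rfl (nodesFinal_Jinv_mem K₀ r) ιC hq hqM
    (atkinLehner K₀ ιC hq hqM).toAlgHom (fun _ => rfl) (nodesFinal_wJinv_mem K₀ r ιC hq hqM)
    h.prime

/-- **Chart `j` of `F_{Mq}(K₀)`: (SS2) ∨ (SS3)** at every maximal ideal `𝔫 ∋ π`. -/
theorem nodesReg_chart_J [Fact q.Prime] [CharP k q]
    (hπ : Irreducible π) (hr : ∀ a, r a = 0 → π ∣ a) (hrπ : r π = 0)
    (h : RegChart (E := K₀) π (bgJ K₀ M))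
    (hψ : ∀ a, ψE (algebraMap A₀ K₀ a) = algebraMap A₀ K₀ (ψA a))
    (hθ : ∀ a, r (ψA a) = θ (r a)) (hθq : ∀ x, θ x ^ q = x)
    (𝔫 : Ideal (integralClosure (Algebra.adjoin A₀ {nodesInstIncl K₀ M q (bgJ K₀ M)}) (modularFunctionFieldFullC K₀ (M * q))))
    (h𝔫 : 𝔫.IsMaximal)
    (hπ𝔫 : (algebraMap A₀ (integralClosure (Algebra.adjoin A₀ {nodesInstIncl K₀ M q (bgJ K₀ M)}) (modularFunctionFieldFullC K₀ (M * q))) π) ∈ 𝔫) :
    (∃ s ∈ 𝔫, NodesLocGen 𝔫 {(algebraMap A₀ (integralClosure (Algebra.adjoin A₀ {nodesInstIncl K₀ M q (bgJ K₀ M)}) (modularFunctionFieldFullC K₀ (M * q))) π), s}) ∨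
    ((∀ x, (nodesFrobChartRed r hπ.ne_zero hπ.not_isUnit hr hrπ (nodesFrob_full_le (M * q)) (nodesInstIncl K₀ M q (bgJ K₀ M)) (nodesInst_ht' r M q (bgJ K₀ M) (nodesFinal_J_mem K₀ r))) x = 0 → x ∈ 𝔫) ∧
      (∀ x, (nodesSwapRho₀ r hπ.ne_zero hπ.not_isUnit hr hrπ (nodesFrob_full_le (M * q)) (atkinLehner K₀ ιC hq hqM).toAlgHom (nodesInstIncl K₀ M q (bgJ K₀ M)) (nodesFinal_wJ_mem K₀ r ιC hq hqM)) x = 0 → x ∈ 𝔫) ∧
      ∃ X Y : (integralClosure (Algebra.adjoin A₀ {nodesInstIncl K₀ M q (bgJ K₀ M)}) (modularFunctionFieldFullC K₀ (M * q))),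
        (nodesFrobChartRed r hπ.ne_zero hπ.not_isUnit hr hrπ (nodesFrob_full_le (M * q)) (nodesInstIncl K₀ M q (bgJ K₀ M)) (nodesInst_ht' r M q (bgJ K₀ M) (nodesFinal_J_mem K₀ r))) X = 0 ∧
        (nodesSwapRho₀ r hπ.ne_zero hπ.not_isUnit hr hrπ (nodesFrob_full_le (M * q)) (atkinLehner K₀ ιC hq hqM).toAlgHom (nodesInstIncl K₀ M q (bgJ K₀ M)) (nodesFinal_wJ_mem K₀ r ιC hq hqM)) Y = 0 ∧
        NodesSmoothAt (nodesSwapRho₀ r hπ.ne_zero hπ.not_isUnit hr hrπ (nodesFrob_full_le (M * q)) (atkinLehner K₀ ιC hq hqM).toAlgHom (nodesInstIncl K₀ M q (bgJ K₀ M)) (nodesFinal_wJ_mem K₀ r ιC hq hqM)) 𝔫 X ∧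
        NodesSmoothAt (nodesFrobChartRed r hπ.ne_zero hπ.not_isUnit hr hrπ (nodesFrob_full_le (M * q)) (nodesInstIncl K₀ M q (bgJ K₀ M)) (nodesInst_ht' r M q (bgJ K₀ M) (nodesFinal_J_mem K₀ r))) 𝔫 Y ∧
        (algebraMap A₀ (integralClosure (Algebra.adjoin A₀ {nodesInstIncl K₀ M q (bgJ K₀ M)}) (modularFunctionFieldFullC K₀ (M * q))) π) ∣ X * Y ∧
        NodesLocGen 𝔫 {(algebraMap A₀ (integralClosure (Algebra.adjoin A₀ {nodesInstIncl K₀ M q (bgJ K₀ M)}) (modularFunctionFieldFullC K₀ (M * q))) π), X, Y}) :=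
  nodesReg_chart r ιC hq hqM ψA ψE θ hπ.ne_zero hπ.not_isUnit hr hrπ hψ hθ hθq
    (atkinLehner K₀ ιC hq hqM).toAlgHom (fun _ => rfl) (bgJ K₀ M) h (nodesFinal_J_mem K₀ r)
    (nodesFinal_J_fixed K₀ ψE) (nodesFinal_wJ_mem K₀ r ιC hq hqM)
    (nodesReg_hd_J K₀ r ιC hq hqM hπ hr hrπ h)
    (fun b => nodesSwap_swap_J (A := A₀) (E := K₀) r ιC hq hqM hπ.ne_zero hπ.not_isUnit hr hrπ
      (nodesInstIncl K₀ M q (bgJ K₀ M)) (nodesInstIncl_coe M q (bgJ K₀ M))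
      (nodesInst_ht' r M q (bgJ K₀ M) (nodesFinal_J_mem K₀ r)) (nodesFinal_wJ_mem K₀ r ιC hq hqM) b)
    𝔫 h𝔫 hπ𝔫

/-- **Chart `1/j` of `F_{Mq}(K₀)`: (SS2) ∨ (SS3)** at every maximal ideal `𝔫 ∋ π`. -/
theorem nodesReg_chart_Jinv [Fact q.Prime] [CharP k q]
    (hπ : Irreducible π) (hr : ∀ a, r a = 0 → π ∣ a) (hrπ : r π = 0)
    (h : RegChart (E := K₀) π (bgJ K₀ M)⁻¹)
    (hψ : ∀ a, ψE (algebraMap A₀ K₀ a) = algebraMap A₀ K₀ (ψA a))
    (hθ : ∀ a, r (ψA a) = θ (r a)) (hθq : ∀ x, θ x ^ q = x)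
    (𝔫 : Ideal (integralClosure (Algebra.adjoin A₀ {nodesInstIncl K₀ M q (bgJ K₀ M)⁻¹}) (modularFunctionFieldFullC K₀ (M * q))))
    (h𝔫 : 𝔫.IsMaximal)
    (hπ𝔫 : (algebraMap A₀ (integralClosure (Algebra.adjoin A₀ {nodesInstIncl K₀ M q (bgJ K₀ M)⁻¹}) (modularFunctionFieldFullC K₀ (M * q))) π) ∈ 𝔫) :
    (∃ s ∈ 𝔫, NodesLocGen 𝔫 {(algebraMap A₀ (integralClosure (Algebra.adjoin A₀ {nodesInstIncl K₀ M q (bgJ K₀ M)⁻¹}) (modularFunctionFieldFullC K₀ (M * q))) π), s}) ∨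
    ((∀ x, (nodesFrobChartRed r hπ.ne_zero hπ.not_isUnit hr hrπ (nodesFrob_full_le (M * q)) (nodesInstIncl K₀ M q (bgJ K₀ M)⁻¹) (nodesInst_ht' r M q (bgJ K₀ M)⁻¹ (nodesFinal_Jinv_mem K₀ r))) x = 0 → x ∈ 𝔫) ∧
      (∀ x, (nodesSwapRho₀ r hπ.ne_zero hπ.not_isUnit hr hrπ (nodesFrob_full_le (M * q)) (atkinLehner K₀ ιC hq hqM).toAlgHom (nodesInstIncl K₀ M q (bgJ K₀ M)⁻¹) (nodesFinal_wJinv_mem K₀ r ιC hq hqM)) x = 0 → x ∈ 𝔫) ∧
      ∃ X Y : (integralClosure (Algebra.adjoin A₀ {nodesInstIncl K₀ M q (bgJ K₀ M)⁻¹}) (modularFunctionFieldFullC K₀ (M * q))),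
        (nodesFrobChartRed r hπ.ne_zero hπ.not_isUnit hr hrπ (nodesFrob_full_le (M * q)) (nodesInstIncl K₀ M q (bgJ K₀ M)⁻¹) (nodesInst_ht' r M q (bgJ K₀ M)⁻¹ (nodesFinal_Jinv_mem K₀ r))) X = 0 ∧
        (nodesSwapRho₀ r hπ.ne_zero hπ.not_isUnit hr hrπ (nodesFrob_full_le (M * q)) (atkinLehner K₀ ιC hq hqM).toAlgHom (nodesInstIncl K₀ M q (bgJ K₀ M)⁻¹) (nodesFinal_wJinv_mem K₀ r ιC hq hqM)) Y = 0 ∧
        NodesSmoothAt (nodesSwapRho₀ r hπ.ne_zero hπ.not_isUnit hr hrπ (nodesFrob_full_le (M * q)) (atkinLehner K₀ ιC hq hqM).toAlgHom (nodesInstIncl K₀ M q (bgJ K₀ M)⁻¹) (nodesFinal_wJinv_mem K₀ r ιC hq hqM)) 𝔫 X ∧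
        NodesSmoothAt (nodesFrobChartRed r hπ.ne_zero hπ.not_isUnit hr hrπ (nodesFrob_full_le (M * q)) (nodesInstIncl K₀ M q (bgJ K₀ M)⁻¹) (nodesInst_ht' r M q (bgJ K₀ M)⁻¹ (nodesFinal_Jinv_mem K₀ r))) 𝔫 Y ∧
        (algebraMap A₀ (integralClosure (Algebra.adjoin A₀ {nodesInstIncl K₀ M q (bgJ K₀ M)⁻¹}) (modularFunctionFieldFullC K₀ (M * q))) π) ∣ X * Y ∧
        NodesLocGen 𝔫 {(algebraMap A₀ (integralClosure (Algebra.adjoin A₀ {nodesInstIncl K₀ M q (bgJ K₀ M)⁻¹}) (modularFunctionFieldFullC K₀ (M * q))) π), X, Y}) :=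
  nodesReg_chart r ιC hq hqM ψA ψE θ hπ.ne_zero hπ.not_isUnit hr hrπ hψ hθ hθq
    (atkinLehner K₀ ιC hq hqM).toAlgHom (fun _ => rfl) (bgJ K₀ M)⁻¹ h (nodesFinal_Jinv_mem K₀ r)
    (nodesFinal_Jinv_fixed K₀ ψE) (nodesFinal_wJinv_mem K₀ r ιC hq hqM)
    (nodesReg_hd_Jinv K₀ r ιC hq hqM hπ hr hrπ h)
    (nodesInst_swap_Jinv r hπ.ne_zero hπ.not_isUnit hr hrπ M q (bgJ K₀ M)⁻¹ rfl (nodesFinal_Jinv_mem K₀ r) ιC hq hqM
      (atkinLehner K₀ ιC hq hqM).toAlgHom (fun _ => rfl) (nodesFinal_wJinv_mem K₀ r ιC hq hqM)) 𝔫 h𝔫 hπ𝔫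

/-- **(SS1), `vert` form, chart `j`.** -/
theorem nodesReg_vert_J [Fact q.Prime] [CharP k q]
    (hπ : Irreducible π) (hr : ∀ a, r a = 0 → π ∣ a) (hrπ : r π = 0)
    (h : RegChart (E := K₀) π (bgJ K₀ M)) :
    ∃ vert : Finset (Ideal (integralClosure (Algebra.adjoin A₀ {nodesInstIncl K₀ M q (bgJ K₀ M)}) (modularFunctionFieldFullC K₀ (M * q)))),
      vert = {RingHom.ker (nodesFrobChartRed r hπ.ne_zero hπ.not_isUnit hr hrπ (nodesFrob_full_le (M * q)) (nodesInstIncl K₀ M q (bgJ K₀ M)) (nodesInst_ht' r M q (bgJ K₀ M) (nodesFinal_J_mem K₀ r))), RingHom.ker (nodesSwapRho₀ r hπ.ne_zero hπ.not_isUnit hr hrπ (nodesFrob_full_le (M * q)) (atkinLehner K₀ ιC hq hqM).toAlgHom (nodesInstIncl K₀ M q (bgJ K₀ M)) (nodesFinal_wJ_mem K₀ r ιC hq hqM))} ∧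
      (∀ 𝔭 ∈ vert, 𝔭.IsPrime) ∧ (∀ 𝔭 ∈ vert, (algebraMap A₀ (integralClosure (Algebra.adjoin A₀ {nodesInstIncl K₀ M q (bgJ K₀ M)}) (modularFunctionFieldFullC K₀ (M * q))) π) ∈ 𝔭) ∧
      (∀ y : (integralClosure (Algebra.adjoin A₀ {nodesInstIncl K₀ M q (bgJ K₀ M)}) (modularFunctionFieldFullC K₀ (M * q))), (∀ 𝔭 ∈ vert, y ∈ 𝔭) → (algebraMap A₀ (integralClosure (Algebra.adjoin A₀ {nodesInstIncl K₀ M q (bgJ K₀ M)}) (modularFunctionFieldFullC K₀ (M * q))) π) ∣ y) :=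
  nodesFinal_vert_J K₀ r ιC hq hqM hπ hr hrπ
    (nodesReg_hd_J K₀ r ιC hq hqM hπ hr hrπ h)

/-- **(SS1), `vert` form, chart `1/j`.** -/
theorem nodesReg_vert_Jinv [Fact q.Prime] [CharP k q]
    (hπ : Irreducible π) (hr : ∀ a, r a = 0 → π ∣ a) (hrπ : r π = 0)
    (h : RegChart (E := K₀) π (bgJ K₀ M)⁻¹) :
    ∃ vert : Finset (Ideal (integralClosure (Algebra.adjoin A₀ {nodesInstIncl K₀ M q (bgJ K₀ M)⁻¹}) (modularFunctionFieldFullC K₀ (M * q)))),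
      vert = {RingHom.ker (nodesFrobChartRed r hπ.ne_zero hπ.not_isUnit hr hrπ (nodesFrob_full_le (M * q)) (nodesInstIncl K₀ M q (bgJ K₀ M)⁻¹) (nodesInst_ht' r M q (bgJ K₀ M)⁻¹ (nodesFinal_Jinv_mem K₀ r))), RingHom.ker (nodesSwapRho₀ r hπ.ne_zero hπ.not_isUnit hr hrπ (nodesFrob_full_le (M * q)) (atkinLehner K₀ ιC hq hqM).toAlgHom (nodesInstIncl K₀ M q (bgJ K₀ M)⁻¹) (nodesFinal_wJinv_mem K₀ r ιC hq hqM))} ∧
      (∀ 𝔭 ∈ vert, 𝔭.IsPrime) ∧ (∀ 𝔭 ∈ vert, (algebraMap A₀ (integralClosure (Algebra.adjoin A₀ {nodesInstIncl K₀ M q (bgJ K₀ M)⁻¹}) (modularFunctionFieldFullC K₀ (M * q))) π) ∈ 𝔭) ∧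
      (∀ y : (integralClosure (Algebra.adjoin A₀ {nodesInstIncl K₀ M q (bgJ K₀ M)⁻¹}) (modularFunctionFieldFullC K₀ (M * q))), (∀ 𝔭 ∈ vert, y ∈ 𝔭) → (algebraMap A₀ (integralClosure (Algebra.adjoin A₀ {nodesInstIncl K₀ M q (bgJ K₀ M)⁻¹}) (modularFunctionFieldFullC K₀ (M * q))) π) ∣ y) :=
  nodesFinal_vert_Jinv K₀ r ιC hq hqM hπ hr hrπ
    (nodesReg_hd_Jinv K₀ r ιC hq hqM hπ hr hrπ h)

/-- **(SS1), chart `j`**: `ker ρ ∩ ker ρ₀ = π B`. -/
theorem nodesReg_ker_J [Fact q.Prime] [CharP k q]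
    (hπ : Irreducible π) (hr : ∀ a, r a = 0 → π ∣ a) (hrπ : r π = 0)
    (h : RegChart (E := K₀) π (bgJ K₀ M))
    (x : (integralClosure (Algebra.adjoin A₀ {nodesInstIncl K₀ M q (bgJ K₀ M)}) (modularFunctionFieldFullC K₀ (M * q))))
    (hx : (nodesFrobChartRed r hπ.ne_zero hπ.not_isUnit hr hrπ (nodesFrob_full_le (M * q)) (nodesInstIncl K₀ M q (bgJ K₀ M)) (nodesInst_ht' r M q (bgJ K₀ M) (nodesFinal_J_mem K₀ r))) x = 0)
    (hx₀ : (nodesSwapRho₀ r hπ.ne_zero hπ.not_isUnit hr hrπ (nodesFrob_full_le (M * q)) (atkinLehner K₀ ιC hq hqM).toAlgHom (nodesInstIncl K₀ M q (bgJ K₀ M)) (nodesFinal_wJ_mem K₀ r ιC hq hqM)) x = 0) :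
    (algebraMap A₀ (integralClosure (Algebra.adjoin A₀ {nodesInstIncl K₀ M q (bgJ K₀ M)}) (modularFunctionFieldFullC K₀ (M * q))) π) ∣ x :=
  nodes_modular_ker r hπ.ne_zero hπ.not_isUnit hr hrπ (atkinLehner K₀ ιC hq hqM).toAlgHom (bgJ K₀ M) (nodesFinal_J_mem K₀ r) (nodesFinal_wJ_mem K₀ r ιC hq hqM)
    (nodesReg_hd_J K₀ r ιC hq hqM hπ hr hrπ h) x hx hx₀

/-- **(SS1), chart `1/j`**: `ker ρ ∩ ker ρ₀ = π B`. -/
theorem nodesReg_ker_Jinv [Fact q.Prime] [CharP k q]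
    (hπ : Irreducible π) (hr : ∀ a, r a = 0 → π ∣ a) (hrπ : r π = 0)
    (h : RegChart (E := K₀) π (bgJ K₀ M)⁻¹)
    (x : (integralClosure (Algebra.adjoin A₀ {nodesInstIncl K₀ M q (bgJ K₀ M)⁻¹}) (modularFunctionFieldFullC K₀ (M * q))))
    (hx : (nodesFrobChartRed r hπ.ne_zero hπ.not_isUnit hr hrπ (nodesFrob_full_le (M * q)) (nodesInstIncl K₀ M q (bgJ K₀ M)⁻¹) (nodesInst_ht' r M q (bgJ K₀ M)⁻¹ (nodesFinal_Jinv_mem K₀ r))) x = 0)
    (hx₀ : (nodesSwapRho₀ r hπ.ne_zero hπ.not_isUnit hr hrπ (nodesFrob_full_le (M * q)) (atkinLehner K₀ ιC hq hqM).toAlgHom (nodesInstIncl K₀ M q (bgJ K₀ M)⁻¹) (nodesFinal_wJinv_mem K₀ r ιC hq hqM)) x = 0) :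
    (algebraMap A₀ (integralClosure (Algebra.adjoin A₀ {nodesInstIncl K₀ M q (bgJ K₀ M)⁻¹}) (modularFunctionFieldFullC K₀ (M * q))) π) ∣ x :=
  nodes_modular_ker r hπ.ne_zero hπ.not_isUnit hr hrπ (atkinLehner K₀ ιC hq hqM).toAlgHom (bgJ K₀ M)⁻¹ (nodesFinal_Jinv_mem K₀ r) (nodesFinal_wJinv_mem K₀ r ιC hq hqM)
    (nodesReg_hd_Jinv K₀ r ιC hq hqM hπ hr hrπ h) x hx hx₀

end JCharts

end Fermat.Agent.UNIP

end
end ZBUNIP_029_0

/-! ### bundled: `Fermat.Agent.UNIP.U5Red` -/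
section ZBUNIP_029_1
/-
UNIP / U5 (helper18): the special fibre of the charts `j`, `1/j` of `F_{Mq}(K₀)` is REDUCED and
nonempty — the form consumed by `mgcData_of` (`UNIP/MGData.lean`: `hπu₁`, `hred₁`, `hπu₂`, `hred₂`).

Generic base (`K₀ ⊆ ℚ̄`, `A₀ ⊆ K₀` a discrete valuation ring, uniformizer `π`, `r : A₀ → k` with
`ker r = (π)`, `char k = q ∤ M`), the level-`M` input in the form `RegChart` (helper20):

* `u5g_incl_J`, `u5g_incl_Jinv` : the coordinate `j^{±1}` of level `M q` is the image of the one of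
  level `M`;
* `u5g_notUnit_J`, `u5g_notUnit_Jinv` : `π` is not a unit of the chart;
* `u5g_reduced_J`, `u5g_reduced_Jinv` : `π ∣ c ^ 2 → π ∣ c` on the chart.
-/

set_option autoImplicit false
set_option linter.style.haveILetI false
set_option linter.unusedSectionVars false
set_option linter.unusedVariables false
set_option linter.style.longLine false
set_option synthInstance.maxHeartbeats 400000
set_option maxHeartbeats 1000000

noncomputable section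

namespace Fermat.Agent.UNIP

open ModularCurve Polynomial IntermediateField Fermat.Agent.INJ Fermat.Agent.AL

section Incl

variable (E : Type*) [Field E] (M q : ℕ) [NeZero q] [NeZero M] [NeZero (M * q)]

/-- the coordinate `j` of level `M q` is the image of the coordinate `j` of level `M` -/
theorem u5g_incl_J : nodesInstIncl E M q (bgJ E M) = bgJ E (M * q) :=
  Subtype.ext (nodesInstIncl_coe M q (bgJ E M))

/-- the coordinate `1/j` of level `M q` is the image of the coordinate `1/j` of level `M` -/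
theorem u5g_incl_Jinv : nodesInstIncl E M q (bgJ E M)⁻¹ = (bgJ E (M * q))⁻¹ := by
  rw [map_inv₀, u5g_incl_J]

end Incl

section JCharts

variable (K₀ : IntermediateField ℚ NfQb) {A₀ : Type} [CommRing A₀] [IsDomain A₀]
  [IsDiscreteValuationRing A₀] [Algebra A₀ K₀] [IsFractionRing A₀ K₀]
  {k : Type*} [Field k] (r : A₀ →+* k) {π : A₀} (ιC : K₀ →+* ℂ)
  {q M : ℕ} [NeZero q] [NeZero M] [NeZero (M * q)] (hq : q.Prime) (hqM : ¬ q ∣ M)
  [Algebra A₀ (modularFunctionFieldFullC K₀ M)]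
  [IsScalarTower A₀ K₀ (modularFunctionFieldFullC K₀ M)]
  [Algebra A₀ (modularFunctionFieldFullC K₀ (M * q))]
  [IsScalarTower A₀ K₀ (modularFunctionFieldFullC K₀ (M * q))]

include ιC hq hqM

omit ιC hq hqM in
/-- transport of `¬ IsUnit π` along an equality of coordinates -/
theorem u5g_notUnit_congr {t t' : modularFunctionFieldFullC K₀ (M * q)} (h : t = t')
    (H : ¬ IsUnit (algebraMap A₀ (integralClosure (Algebra.adjoin A₀ {t}) (modularFunctionFieldFullC K₀ (M * q))) π)) :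
    ¬ IsUnit (algebraMap A₀ (integralClosure (Algebra.adjoin A₀ {t'}) (modularFunctionFieldFullC K₀ (M * q))) π) := by
  subst h; exact H

omit ιC hq hqM in
/-- transport of reducedness along an equality of coordinates -/
theorem u5g_reduced_congr {t t' : modularFunctionFieldFullC K₀ (M * q)} (h : t = t')
    (H : ∀ c : integralClosure (Algebra.adjoin A₀ {t}) (modularFunctionFieldFullC K₀ (M * q)),
      algebraMap A₀ (integralClosure (Algebra.adjoin A₀ {t}) (modularFunctionFieldFullC K₀ (M * q))) π ∣ c ^ 2 →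
      algebraMap A₀ (integralClosure (Algebra.adjoin A₀ {t}) (modularFunctionFieldFullC K₀ (M * q))) π ∣ c) :
    ∀ c : integralClosure (Algebra.adjoin A₀ {t'}) (modularFunctionFieldFullC K₀ (M * q)),
      algebraMap A₀ (integralClosure (Algebra.adjoin A₀ {t'}) (modularFunctionFieldFullC K₀ (M * q))) π ∣ c ^ 2 →
      algebraMap A₀ (integralClosure (Algebra.adjoin A₀ {t'}) (modularFunctionFieldFullC K₀ (M * q))) π ∣ c := by
  subst h; exact H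

/-- `π` is not a unit of the chart `j` of level `M q` (image-coordinate form). -/
theorem u5g_notUnit_J' [Fact q.Prime] [CharP k q]
    (hπ : Irreducible π) (hr : ∀ a, r a = 0 → π ∣ a) (hrπ : r π = 0)
    (h : RegChart (E := K₀) π (bgJ K₀ M)) :
    ¬ IsUnit (algebraMap A₀ (integralClosure (Algebra.adjoin A₀ {nodesInstIncl K₀ M q (bgJ K₀ M)}) (modularFunctionFieldFullC K₀ (M * q))) π) := by
  classical
  obtain ⟨vert, rfl, hp, hmem, -⟩ := nodesReg_vert_J K₀ r ιC hq hqM hπ hr hrπ h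
  intro hu
  have h1 := hmem _ (Finset.mem_insert_self _ _)
  have h2 := hp _ (Finset.mem_insert_self _ _)
  exact h2.ne_top (Ideal.eq_top_of_isUnit_mem _ h1 hu)

/-- the special fibre of the chart `j` of level `M q` is reduced (image-coordinate form). -/
theorem u5g_reduced_J' [Fact q.Prime] [CharP k q]
    (hπ : Irreducible π) (hr : ∀ a, r a = 0 → π ∣ a) (hrπ : r π = 0)
    (h : RegChart (E := K₀) π (bgJ K₀ M))
    (c : integralClosure (Algebra.adjoin A₀ {nodesInstIncl K₀ M q (bgJ K₀ M)}) (modularFunctionFieldFullC K₀ (M * q)))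
    (hc : algebraMap A₀ (integralClosure (Algebra.adjoin A₀ {nodesInstIncl K₀ M q (bgJ K₀ M)}) (modularFunctionFieldFullC K₀ (M * q))) π ∣ c ^ 2) :
    algebraMap A₀ (integralClosure (Algebra.adjoin A₀ {nodesInstIncl K₀ M q (bgJ K₀ M)}) (modularFunctionFieldFullC K₀ (M * q))) π ∣ c := by
  classical
  obtain ⟨vert, rfl, hp, hmem, hker⟩ := nodesReg_vert_J K₀ r ιC hq hqM hπ hr hrπ h
  refine hker c fun 𝔭 h𝔭 => ?_
  exact (hp 𝔭 h𝔭).mem_of_pow_mem 2 (Ideal.mem_of_dvd _ hc (hmem 𝔭 h𝔭))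

/-- `π` is not a unit of the chart `1/j` of level `M q` (image-coordinate form). -/
theorem u5g_notUnit_Jinv' [Fact q.Prime] [CharP k q]
    (hπ : Irreducible π) (hr : ∀ a, r a = 0 → π ∣ a) (hrπ : r π = 0)
    (h : RegChart (E := K₀) π (bgJ K₀ M)⁻¹) :
    ¬ IsUnit (algebraMap A₀ (integralClosure (Algebra.adjoin A₀ {nodesInstIncl K₀ M q (bgJ K₀ M)⁻¹}) (modularFunctionFieldFullC K₀ (M * q))) π) := by
  classical
  obtain ⟨vert, rfl, hp, hmem, -⟩ := nodesReg_vert_Jinv K₀ r ιC hq hqM hπ hr hrπ h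
  intro hu
  have h1 := hmem _ (Finset.mem_insert_self _ _)
  have h2 := hp _ (Finset.mem_insert_self _ _)
  exact h2.ne_top (Ideal.eq_top_of_isUnit_mem _ h1 hu)

/-- the special fibre of the chart `1/j` of level `M q` is reduced (image-coordinate form). -/
theorem u5g_reduced_Jinv' [Fact q.Prime] [CharP k q]
    (hπ : Irreducible π) (hr : ∀ a, r a = 0 → π ∣ a) (hrπ : r π = 0)
    (h : RegChart (E := K₀) π (bgJ K₀ M)⁻¹)
    (c : integralClosure (Algebra.adjoin A₀ {nodesInstIncl K₀ M q (bgJ K₀ M)⁻¹}) (modularFunctionFieldFullC K₀ (M * q)))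
    (hc : algebraMap A₀ (integralClosure (Algebra.adjoin A₀ {nodesInstIncl K₀ M q (bgJ K₀ M)⁻¹}) (modularFunctionFieldFullC K₀ (M * q))) π ∣ c ^ 2) :
    algebraMap A₀ (integralClosure (Algebra.adjoin A₀ {nodesInstIncl K₀ M q (bgJ K₀ M)⁻¹}) (modularFunctionFieldFullC K₀ (M * q))) π ∣ c := by
  classical
  obtain ⟨vert, rfl, hp, hmem, hker⟩ := nodesReg_vert_Jinv K₀ r ιC hq hqM hπ hr hrπ h
  refine hker c fun 𝔭 h𝔭 => ?_
  exact (hp 𝔭 h𝔭).mem_of_pow_mem 2 (Ideal.mem_of_dvd _ hc (hmem 𝔭 h𝔭))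

/-- **`π` is not a unit of the chart `j` of `F_{Mq}(K₀)`.** -/
theorem u5g_notUnit_J [Fact q.Prime] [CharP k q]
    (hπ : Irreducible π) (hr : ∀ a, r a = 0 → π ∣ a) (hrπ : r π = 0)
    (h : RegChart (E := K₀) π (bgJ K₀ M)) :
    ¬ IsUnit (algebraMap A₀ (integralClosure (Algebra.adjoin A₀ {bgJ K₀ (M * q)}) (modularFunctionFieldFullC K₀ (M * q))) π) := by
  exact u5g_notUnit_congr K₀ (u5g_incl_J K₀ M q) (u5g_notUnit_J' K₀ r ιC hq hqM hπ hr hrπ h)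

/-- **The special fibre of the chart `j` of `F_{Mq}(K₀)` is reduced.** -/
theorem u5g_reduced_J [Fact q.Prime] [CharP k q]
    (hπ : Irreducible π) (hr : ∀ a, r a = 0 → π ∣ a) (hrπ : r π = 0)
    (h : RegChart (E := K₀) π (bgJ K₀ M)) :
    ∀ c : integralClosure (Algebra.adjoin A₀ {bgJ K₀ (M * q)}) (modularFunctionFieldFullC K₀ (M * q)),
      algebraMap A₀ (integralClosure (Algebra.adjoin A₀ {bgJ K₀ (M * q)}) (modularFunctionFieldFullC K₀ (M * q))) π ∣ c ^ 2 →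
      algebraMap A₀ (integralClosure (Algebra.adjoin A₀ {bgJ K₀ (M * q)}) (modularFunctionFieldFullC K₀ (M * q))) π ∣ c := by
  exact u5g_reduced_congr K₀ (u5g_incl_J K₀ M q) (u5g_reduced_J' K₀ r ιC hq hqM hπ hr hrπ h)

/-- **`π` is not a unit of the chart `1/j` of `F_{Mq}(K₀)`.** -/
theorem u5g_notUnit_Jinv [Fact q.Prime] [CharP k q]
    (hπ : Irreducible π) (hr : ∀ a, r a = 0 → π ∣ a) (hrπ : r π = 0)
    (h : RegChart (E := K₀) π (bgJ K₀ M)⁻¹) :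
    ¬ IsUnit (algebraMap A₀ (integralClosure (Algebra.adjoin A₀ {(bgJ K₀ (M * q))⁻¹}) (modularFunctionFieldFullC K₀ (M * q))) π) := by
  exact u5g_notUnit_congr K₀ (u5g_incl_Jinv K₀ M q) (u5g_notUnit_Jinv' K₀ r ιC hq hqM hπ hr hrπ h)

/-- **The special fibre of the chart `1/j` of `F_{Mq}(K₀)` is reduced.** -/
theorem u5g_reduced_Jinv [Fact q.Prime] [CharP k q]
    (hπ : Irreducible π) (hr : ∀ a, r a = 0 → π ∣ a) (hrπ : r π = 0)
    (h : RegChart (E := K₀) π (bgJ K₀ M)⁻¹) :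
    ∀ c : integralClosure (Algebra.adjoin A₀ {(bgJ K₀ (M * q))⁻¹}) (modularFunctionFieldFullC K₀ (M * q)),
      algebraMap A₀ (integralClosure (Algebra.adjoin A₀ {(bgJ K₀ (M * q))⁻¹}) (modularFunctionFieldFullC K₀ (M * q))) π ∣ c ^ 2 →
      algebraMap A₀ (integralClosure (Algebra.adjoin A₀ {(bgJ K₀ (M * q))⁻¹}) (modularFunctionFieldFullC K₀ (M * q))) π ∣ c := by
  exact u5g_reduced_congr K₀ (u5g_incl_Jinv K₀ M q) (u5g_reduced_Jinv' K₀ r ιC hq hqM hπ hr hrπ h)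

end JCharts

end Fermat.Agent.UNIP

end
end ZBUNIP_029_1
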