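/- GENERATED FILE (helper35, build-time optimisation, NOTES/ZB.md): verbatim concatenation of the modules
   Fermat.Agent.STB.FrobFix
   Fermat.Agent.STB.FrobPoint
   Fermat.Agent.STB.FrobChart
   Fermat.Agent.STB.FrobChartJ
   Fermat.Agent.STB.FrobChartReg
   Fermat.Agent.STB.FrobLift
   Fermat.Agent.STB.FrobReg
   Fermat.Agent.UNIP.U5Concrete
   Do not edit; do not import together with these modules. -/
import Mathlib
import Fermat.Agent.ZB.UNIP_013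
import Fermat.Agent.ZB.INJ_003
import Fermat.Agent.ZB.UNIP_001
import Fermat.Agent.ZB.UNIP_014
import Fermat.Agent.ZB.UNIP_025
import Fermat.Agent.ZB.S34_001
import Fermat.Agent.ZB.UNIP_029
import Fermat.Agent.ZB.RED_001
import Fermat.Agent.ZB.UNIP_007

/-! ### bundled: `Fermat.Agent.STB.FrobFix` -/
section ZBSTB_004_0

/-!
# STB-X (`FrobFix`), abstract part: the square of a Frobenius lift fixes every crossing point

S35 phase 2 (plan `NOTES/S35-plan.md`, step (B1)).  Pure commutative algebra (Mathlib only).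

Setting (that of `UNIP/NodesChartHom.lean`): `B` the chart of level `N = M₁ q`, `φ : C →+* B` the
chart of level `M₁`, `ρ, ρ₀ : B →+* K` the two reductions (`ker ρ = 𝔭_∞`, `ker ρ₀ = 𝔭_0`),
`w : B ≃+* B` the Atkin–Lehner involution (`ρ₀ = ρ ∘ w`), `Ψ : B ≃+* B` the coefficientwise action
of a Frobenius lift.  `StbFrobData φ ρ ρ₀ w Ψ q` collects

* `hw   : ρ₀ b = ρ (w b)`, `hww : w (w b) = b`, `hΨw : Ψ (w b) = w (Ψ b)`;
* `hΨρ  : ρ (Ψ.symm b) = 0 ↔ ρ b = 0`          (`ρ ∘ Ψ⁻¹ = θ ∘ ρ`, `θ` injective);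
* `hsurj : ∀ b, ∃ c, ρ (φ c) = ρ b`             (`ρ(B) = ρ(C)`, `NodesRankData.exists_eq`);
* `hfrob : ρ₀ (φ c) = ρ (Ψ.symm (φ c)) ^ q`     (Frobenius congruence (G3) with `c′ = Ψ⁻¹ c`).

A *crossing point* is a prime `𝔫` of `B` containing `ker ρ` and `ker ρ₀`.

Main results (`h : StbFrobData …`, `𝔫` a crossing point, `q ≠ 0`):
* `StbFrobData.mem_iff_swap`    : `y ∈ 𝔫 ↔ w (Ψ.symm y) ∈ 𝔫`        (`𝔫 = Ψ w 𝔫`);
* `StbFrobData.swap_mem_iff`    : `w y ∈ 𝔫 ↔ Ψ.symm y ∈ 𝔫`          (`w 𝔫 = Ψ⁻¹ 𝔫`);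
* `StbFrobData.frobSq_mem_iff`  : `Ψ (Ψ y) ∈ 𝔫 ↔ y ∈ 𝔫`             (**`Φ 𝔫 = 𝔫`**, `Φ = Ψ²`);
* `StbFrobData.comap_frobSq`, `StbFrobData.map_frobSq` : the same as equalities of ideals;
* `StbFrobData.ker_frob_iff`, `StbFrobData.ker₀_frob_iff` : `Ψ` preserves `𝔭_∞` and `𝔭_0`;
* `StbFrobData.swap_cross` : `w 𝔫` is again a crossing point;
* `stb_frobSq_sub_pow_mem` : **`Φ̄ = (·)^{q²}` on `B ⧸ 𝔫`** when the point is rational over the
  constants and `Ψ a ≡ a ^ q` on the constants.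
-/

set_option autoImplicit false
set_option linter.style.haveILetI false

namespace Fermat.Agent.STB

section Abstract

variable {B C K : Type*} [CommRing B] [CommRing C] [Field K]

/-- The hypotheses on a Frobenius lift `Ψ` acting on a chart `B` of level `M₁ q`. -/
structure StbFrobData (φ : C →+* B) (ρ ρ₀ : B →+* K) (w Ψ : B ≃+* B) (q : ℕ) : Prop where
  hw : ∀ b : B, ρ₀ b = ρ (w b)
  hww : ∀ b : B, w (w b) = b
  hΨw : ∀ b : B, Ψ (w b) = w (Ψ b)
  hΨρ : ∀ b : B, ρ (Ψ.symm b) = 0 ↔ ρ b = 0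
  hsurj : ∀ b : B, ∃ c : C, ρ (φ c) = ρ b
  hfrob : ∀ c : C, ρ₀ (φ c) = ρ (Ψ.symm (φ c)) ^ q

namespace StbFrobData

variable {φ : C →+* B} {ρ ρ₀ : B →+* K} {w Ψ : B ≃+* B} {q : ℕ}

theorem hw' (h : StbFrobData φ ρ ρ₀ w Ψ q) (b : B) : ρ₀ (w b) = ρ b := by
  rw [h.hw, h.hww]

theorem symm_swap (h : StbFrobData φ ρ ρ₀ w Ψ q) (b : B) : Ψ.symm (w b) = w (Ψ.symm b) := by
  apply Ψ.injective
  rw [RingEquiv.apply_symm_apply, h.hΨw, RingEquiv.apply_symm_apply]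

/-- `Ψ` preserves `𝔭_∞ = ker ρ`. -/
theorem ker_frob_iff (h : StbFrobData φ ρ ρ₀ w Ψ q) (b : B) : ρ (Ψ b) = 0 ↔ ρ b = 0 := by
  have := h.hΨρ (Ψ b)
  rw [RingEquiv.symm_apply_apply] at this
  exact this.symm

/-- `Ψ⁻¹` preserves `𝔭_0 = ker ρ₀`. -/
theorem ker₀_symm_iff (h : StbFrobData φ ρ ρ₀ w Ψ q) (b : B) :
    ρ₀ (Ψ.symm b) = 0 ↔ ρ₀ b = 0 := by
  rw [h.hw, h.hw, ← h.symm_swap, h.hΨρ]

/-- `Ψ` preserves `𝔭_0 = ker ρ₀`. -/
theorem ker₀_frob_iff (h : StbFrobData φ ρ ρ₀ w Ψ q) (b : B) : ρ₀ (Ψ b) = 0 ↔ ρ₀ b = 0 := by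
  have := h.ker₀_symm_iff (Ψ b)
  rw [RingEquiv.symm_apply_apply] at this
  exact this.symm

/-- The image `w 𝔫` of a crossing point is a crossing point. -/
theorem swap_cross (h : StbFrobData φ ρ ρ₀ w Ψ q) (𝔫 : Ideal B)
    (hinf : ∀ x : B, ρ x = 0 → x ∈ 𝔫) (h0 : ∀ x : B, ρ₀ x = 0 → x ∈ 𝔫) :
    (∀ x : B, ρ x = 0 → x ∈ 𝔫.comap (w : B →+* B)) ∧
      (∀ x : B, ρ₀ x = 0 → x ∈ 𝔫.comap (w : B →+* B)) := by
  refine ⟨fun x hx => ?_, fun x hx => ?_⟩
  · rw [Ideal.mem_comap]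
    exact h0 _ (by rw [RingEquiv.coe_toRingHom, h.hw', hx])
  · rw [Ideal.mem_comap]
    exact hinf _ (by rw [RingEquiv.coe_toRingHom, ← h.hw, hx])

/-- Only `ker ρ₀ ≤ 𝔫` is used: on the chart of level `M₁`, `c ∈ 𝔫 ↔ w (Ψ⁻¹ c) ∈ 𝔫`. -/
theorem mem_iff_swap_low (h : StbFrobData φ ρ ρ₀ w Ψ q) (hq : q ≠ 0)
    (𝔫 : Ideal B) [h𝔫 : 𝔫.IsPrime] (h0 : ∀ x : B, ρ₀ x = 0 → x ∈ 𝔫) (c : C) :
    φ c ∈ 𝔫 ↔ w (Ψ.symm (φ c)) ∈ 𝔫 := by
  have hker : φ c - w (Ψ.symm (φ c)) ^ q ∈ 𝔫 := by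
    apply h0
    rw [map_sub, map_pow, h.hw', h.hfrob, sub_self]
  constructor
  · intro hc
    have h1 : w (Ψ.symm (φ c)) ^ q ∈ 𝔫 := by
      have := 𝔫.sub_mem hc hker
      rwa [sub_sub_cancel] at this
    exact h𝔫.mem_of_pow_mem q h1
  · intro hz
    have h1 : w (Ψ.symm (φ c)) ^ q ∈ 𝔫 := 𝔫.pow_mem_of_mem hz q (Nat.pos_of_ne_zero hq)
    have := 𝔫.add_mem hker h1
    rwa [sub_add_cancel] at this

/-- **`𝔫 = Ψ w 𝔫`** for a crossing point `𝔫`. -/
theorem mem_iff_swap (h : StbFrobData φ ρ ρ₀ w Ψ q) (hq : q ≠ 0)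
    (𝔫 : Ideal B) [𝔫.IsPrime] (hinf : ∀ x : B, ρ x = 0 → x ∈ 𝔫)
    (h0 : ∀ x : B, ρ₀ x = 0 → x ∈ 𝔫) (y : B) :
    y ∈ 𝔫 ↔ w (Ψ.symm y) ∈ 𝔫 := by
  obtain ⟨c, hc⟩ := h.hsurj y
  have hd : ρ (y - φ c) = 0 := by rw [map_sub, hc, sub_self]
  have h1 : y - φ c ∈ 𝔫 := hinf _ hd
  have h2 : w (Ψ.symm y) - w (Ψ.symm (φ c)) ∈ 𝔫 := by
    apply h0
    rw [← map_sub, ← map_sub, h.hw', h.hΨρ]
    exact hd
  have e1 : y ∈ 𝔫 ↔ φ c ∈ 𝔫 := by
    constructor
    · intro hy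
      have := 𝔫.sub_mem hy h1
      rwa [sub_sub_cancel] at this
    · intro hc'
      have := 𝔫.add_mem h1 hc'
      rwa [sub_add_cancel] at this
  have e2 : w (Ψ.symm y) ∈ 𝔫 ↔ w (Ψ.symm (φ c)) ∈ 𝔫 := by
    constructor
    · intro hy
      have := 𝔫.sub_mem hy h2
      rwa [sub_sub_cancel] at this
    · intro hc'
      have := 𝔫.add_mem h2 hc'
      rwa [sub_add_cancel] at this
  rw [e1, e2]
  exact h.mem_iff_swap_low hq 𝔫 h0 c

/-- **`w 𝔫 = Ψ⁻¹ 𝔫`** for a crossing point `𝔫`. -/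
theorem swap_mem_iff (h : StbFrobData φ ρ ρ₀ w Ψ q) (hq : q ≠ 0)
    (𝔫 : Ideal B) [h𝔫 : 𝔫.IsPrime] (hinf : ∀ x : B, ρ x = 0 → x ∈ 𝔫)
    (h0 : ∀ x : B, ρ₀ x = 0 → x ∈ 𝔫) (y : B) :
    w y ∈ 𝔫 ↔ Ψ.symm y ∈ 𝔫 := by
  haveI : (𝔫.comap (w : B →+* B)).IsPrime := Ideal.comap_isPrime _ _
  obtain ⟨hinf', h0'⟩ := h.swap_cross 𝔫 hinf h0
  have := h.mem_iff_swap hq (𝔫.comap (w : B →+* B)) hinf' h0' y
  rw [Ideal.mem_comap, Ideal.mem_comap, RingEquiv.coe_toRingHom, h.hww] at this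
  exact this

/-- **`Ψ 𝔫 = w 𝔫`** for a crossing point `𝔫`. -/
theorem frob_mem_iff_swap (h : StbFrobData φ ρ ρ₀ w Ψ q) (hq : q ≠ 0)
    (𝔫 : Ideal B) [h𝔫 : 𝔫.IsPrime] (hinf : ∀ x : B, ρ x = 0 → x ∈ 𝔫)
    (h0 : ∀ x : B, ρ₀ x = 0 → x ∈ 𝔫) (y : B) :
    Ψ y ∈ 𝔫 ↔ w y ∈ 𝔫 := by
  have := h.mem_iff_swap hq 𝔫 hinf h0 (Ψ y)
  rw [RingEquiv.symm_apply_apply] at this
  exact this

/-- **The square of the Frobenius lift fixes every crossing point**, inverse form. -/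
theorem frobSq_symm_mem_iff (h : StbFrobData φ ρ ρ₀ w Ψ q) (hq : q ≠ 0)
    (𝔫 : Ideal B) [h𝔫 : 𝔫.IsPrime] (hinf : ∀ x : B, ρ x = 0 → x ∈ 𝔫)
    (h0 : ∀ x : B, ρ₀ x = 0 → x ∈ 𝔫) (y : B) :
    Ψ.symm (Ψ.symm y) ∈ 𝔫 ↔ y ∈ 𝔫 := by
  rw [h.mem_iff_swap hq 𝔫 hinf h0 y, h.swap_mem_iff hq 𝔫 hinf h0]

/-- **The square of the Frobenius lift fixes every crossing point: `Φ 𝔫 = 𝔫`.** -/
theorem frobSq_mem_iff (h : StbFrobData φ ρ ρ₀ w Ψ q) (hq : q ≠ 0)
    (𝔫 : Ideal B) [h𝔫 : 𝔫.IsPrime] (hinf : ∀ x : B, ρ x = 0 → x ∈ 𝔫)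
    (h0 : ∀ x : B, ρ₀ x = 0 → x ∈ 𝔫) (y : B) :
    Ψ (Ψ y) ∈ 𝔫 ↔ y ∈ 𝔫 := by
  have := h.frobSq_symm_mem_iff hq 𝔫 hinf h0 (Ψ (Ψ y))
  rw [RingEquiv.symm_apply_apply, RingEquiv.symm_apply_apply] at this
  exact this.symm

theorem comap_frobSq (h : StbFrobData φ ρ ρ₀ w Ψ q) (hq : q ≠ 0)
    (𝔫 : Ideal B) [h𝔫 : 𝔫.IsPrime] (hinf : ∀ x : B, ρ x = 0 → x ∈ 𝔫)
    (h0 : ∀ x : B, ρ₀ x = 0 → x ∈ 𝔫) :
    𝔫.comap ((Ψ.trans Ψ : B ≃+* B) : B →+* B) = 𝔫 := by
  ext y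
  rw [Ideal.mem_comap]
  exact h.frobSq_mem_iff hq 𝔫 hinf h0 y

theorem map_frobSq (h : StbFrobData φ ρ ρ₀ w Ψ q) (hq : q ≠ 0)
    (𝔫 : Ideal B) [h𝔫 : 𝔫.IsPrime] (hinf : ∀ x : B, ρ x = 0 → x ∈ 𝔫)
    (h0 : ∀ x : B, ρ₀ x = 0 → x ∈ 𝔫) :
    𝔫.map ((Ψ.trans Ψ : B ≃+* B) : B →+* B) = 𝔫 := by
  have h1 := h.comap_frobSq hq 𝔫 hinf h0
  conv_lhs => rw [← h1]
  exact Ideal.map_comap_of_surjective _ (Ψ.trans Ψ).surjective 𝔫

end StbFrobData

end Abstract

section Residue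

variable {B A' : Type*} [CommRing B] [CommRing A']

/-- If `Ψ a ≡ a ^ q` modulo a `Ψ`-stable ideal `J` for the constants `a`, then
`Ψ² a ≡ a ^ (q²)` modulo `J`. -/
theorem stb_frobSq_const (ι : A' →+* B) (Ψ : B →+* B) (J : Ideal B) (q : ℕ)
    (hJ : ∀ x ∈ J, Ψ x ∈ J) (hΨ : ∀ a : A', Ψ (ι a) - ι a ^ q ∈ J) (a : A') :
    Ψ (Ψ (ι a)) - ι a ^ (q ^ 2) ∈ J := by
  have h1 : Ψ (Ψ (ι a) - ι a ^ q) ∈ J := hJ _ (hΨ a)
  have h2 : Ψ (ι a) ^ q - (ι a ^ q) ^ q ∈ J := by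
    obtain ⟨z, hz⟩ := sub_dvd_pow_sub_pow (Ψ (ι a)) (ι a ^ q) q
    rw [hz]
    exact J.mul_mem_right _ (hΨ a)
  have e : Ψ (Ψ (ι a)) - ι a ^ (q ^ 2) =
      Ψ (Ψ (ι a) - ι a ^ q) + (Ψ (ι a) ^ q - (ι a ^ q) ^ q) := by
    rw [map_sub, map_pow, ← pow_mul, pow_two]
    ring
  rw [e]
  exact J.add_mem h1 h2

/-- **`Φ̄ = (·)^{q²}` on `B ⧸ 𝔫`**: if `𝔫` is `Φ`-stable, rational over the constants, and
`Ψ a ≡ a ^ q` modulo a `Ψ`-stable ideal `J ≤ 𝔫` on the constants, then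
`Φ b ≡ b ^ (q²)` modulo `𝔫` for every `b`. -/
theorem stb_frobSq_sub_pow_mem (ι : A' →+* B) (Ψ : B →+* B) (J 𝔫 : Ideal B) (q : ℕ)
    (hJ𝔫 : J ≤ 𝔫) (hJ : ∀ x ∈ J, Ψ x ∈ J) (hΨ : ∀ a : A', Ψ (ι a) - ι a ^ q ∈ J)
    (hΦ : ∀ x ∈ 𝔫, Ψ (Ψ x) ∈ 𝔫) (hrat : ∀ b : B, ∃ a : A', b - ι a ∈ 𝔫) (b : B) :
    Ψ (Ψ b) - b ^ (q ^ 2) ∈ 𝔫 := by
  obtain ⟨a, ha⟩ := hrat b
  have h1 : Ψ (Ψ (b - ι a)) ∈ 𝔫 := hΦ _ ha
  have h2 : Ψ (Ψ (ι a)) - ι a ^ (q ^ 2) ∈ 𝔫 := hJ𝔫 (stb_frobSq_const ι Ψ J q hJ hΨ a)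
  have h3 : b ^ (q ^ 2) - ι a ^ (q ^ 2) ∈ 𝔫 := by
    obtain ⟨z, hz⟩ := sub_dvd_pow_sub_pow b (ι a) (q ^ 2)
    rw [hz]
    exact 𝔫.mul_mem_right _ ha
  have e : Ψ (Ψ b) - b ^ (q ^ 2) =
      Ψ (Ψ (b - ι a)) + (Ψ (Ψ (ι a)) - ι a ^ (q ^ 2)) - (b ^ (q ^ 2) - ι a ^ (q ^ 2)) := by
    rw [map_sub, map_sub]
    ring
  rw [e]
  exact 𝔫.sub_mem (𝔫.add_mem h1 h2) h3

end Residue

end Fermat.Agent.STB


end ZBSTB_004_0

/-! ### bundled: `Fermat.Agent.STB.FrobPoint` -/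
section ZBSTB_004_1

/-!
# STB-X (`FrobFix`), part 2a: the square of a Frobenius lift fixes every crossing point
## valuation form, no `w`-stability of the chart needed

S35 phase 2 (plan `NOTES/S35-plan.md`, step (B1)).  Pure algebra (Mathlib only).

`F` a field (the function field `F_N(E′)`), `B ⊆ F` a subring (a chart), `Vinf`, `V0` two valuation
subrings containing `B` (the vertical valuation rings), `w, Ψ : F ≃+* F` (Atkin–Lehner, Frobenius
lift).  A *point* of `B` is given by its prime ideal, here as a subset `N ⊆ F` (`StbPt B N`); it is a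
*crossing point* if `B ∩ 𝔪(Vinf) ⊆ N` and `B ∩ 𝔪(V0) ⊆ N`.

Hypotheses (`StbFrobVal`):
* `w² = 1`, `Ψ w = w Ψ`, `w` swaps `𝔪(Vinf)` and `𝔪(V0)`, `Ψ⁻¹` preserves `𝔪(Vinf)`, `Ψ^{±1} B ⊆ B`;
* `hwB` : for `b ∈ B` there is `e ∈ B`, `e ≡ 1` at `Vinf`, with `e · w b ∈ B`
  (`e = 1` on the chart `j`; `e = ℓ(1/j)ⁿ`, `ℓ ≡ 1 mod q`, on the chart `1/j`);
* `hkey` : every `b ∈ B` is congruent at `Vinf` to some `c ∈ B` satisfying the Frobenius congruence
  `w c ≡ (Ψ⁻¹ c) ^ q` at `Vinf`   (`ρ(B) = ρ(C)` and (G3) on the chart `C` of level `M₁`).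

Main result: `StbFrobVal.frobSq_mem_iff` : `y ∈ N ↔ Ψ⁻¹ (Ψ⁻¹ y) ∈ N` for a crossing point `N`.
-/

set_option autoImplicit false
set_option linter.unusedSectionVars false
set_option linter.unusedVariables false

namespace Fermat.Agent.STB

variable {F : Type*} [Field F]

/-- A prime ideal of the subring `B ⊆ F`, as a subset of `F`. -/
structure StbPt (B : Subring F) (N : Set F) : Prop where
  sub : ∀ x ∈ N, x ∈ B
  zero : (0 : F) ∈ N
  add : ∀ x ∈ N, ∀ y ∈ N, x + y ∈ N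
  mul : ∀ a ∈ B, ∀ x ∈ N, a * x ∈ N
  one : (1 : F) ∉ N
  prime : ∀ a ∈ B, ∀ b ∈ B, a * b ∈ N → a ∈ N ∨ b ∈ N

/-- the local ring `B_N ⊆ F` -/
def stbLoc (B : Subring F) (N : Set F) : Set F := {x | ∃ s ∈ B, s ∉ N ∧ s * x ∈ B}

/-- the maximal ideal `N B_N ⊆ F` -/
def stbLocMax (B : Subring F) (N : Set F) : Set F := {x | ∃ s ∈ B, s ∉ N ∧ s * x ∈ N}

namespace StbPt

variable {B : Subring F} {N : Set F}

theorem neg (h : StbPt B N) {x : F} (hx : x ∈ N) : -x ∈ N := by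
  have := h.mul (-1) (B.neg_mem B.one_mem) x hx
  rwa [neg_one_mul] at this

theorem sub' (h : StbPt B N) {x y : F} (hx : x ∈ N) (hy : y ∈ N) : x - y ∈ N := by
  rw [sub_eq_add_neg]
  exact h.add _ hx _ (h.neg hy)

theorem mem_iff_of_sub (h : StbPt B N) {x y : F} (hxy : x - y ∈ N) : x ∈ N ↔ y ∈ N := by
  constructor
  · intro hx
    have := h.sub' hx hxy
    rwa [sub_sub_cancel] at this
  · intro hy
    have := h.add _ hxy _ hy
    rwa [sub_add_cancel] at this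

theorem not_mem_mul (h : StbPt B N) {s t : F} (hs : s ∈ B) (ht : t ∈ B) (hsN : s ∉ N)
    (htN : t ∉ N) : s * t ∉ N := fun hst => (h.prime s hs t ht hst).elim hsN htN

theorem loc_of_mem (h : StbPt B N) {b : F} (hb : b ∈ B) : b ∈ stbLoc B N :=
  ⟨1, B.one_mem, h.one, by rw [one_mul]; exact hb⟩

theorem locMax_le_loc (h : StbPt B N) {x : F} (hx : x ∈ stbLocMax B N) : x ∈ stbLoc B N := by
  obtain ⟨s, hs, hsN, hsx⟩ := hx
  exact ⟨s, hs, hsN, h.sub _ hsx⟩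

theorem locMax_add (h : StbPt B N) {x y : F} (hx : x ∈ stbLocMax B N)
    (hy : y ∈ stbLocMax B N) : x + y ∈ stbLocMax B N := by
  obtain ⟨s, hs, hsN, hsx⟩ := hx
  obtain ⟨t, ht, htN, hty⟩ := hy
  refine ⟨s * t, B.mul_mem hs ht, h.not_mem_mul hs ht hsN htN, ?_⟩
  have e : s * t * (x + y) = t * (s * x) + s * (t * y) := by ring
  rw [e]
  exact h.add _ (h.mul t ht _ hsx) _ (h.mul s hs _ hty)

theorem locMax_neg (h : StbPt B N) {x : F} (hx : x ∈ stbLocMax B N) : -x ∈ stbLocMax B N := by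
  obtain ⟨s, hs, hsN, hsx⟩ := hx
  refine ⟨s, hs, hsN, ?_⟩
  rw [mul_neg]
  exact h.neg hsx

theorem locMax_mem_iff_of_sub (h : StbPt B N) {x y : F} (hxy : x - y ∈ stbLocMax B N) :
    x ∈ stbLocMax B N ↔ y ∈ stbLocMax B N := by
  constructor
  · intro hx
    have := h.locMax_add hx (h.locMax_neg hxy)
    rwa [neg_sub, add_sub_cancel] at this
  · intro hy
    have := h.locMax_add hxy hy
    rwa [sub_add_cancel] at this

theorem locMax_mul (h : StbPt B N) {x y : F} (hx : x ∈ stbLoc B N)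
    (hy : y ∈ stbLocMax B N) : x * y ∈ stbLocMax B N := by
  obtain ⟨s, hs, hsN, hsx⟩ := hx
  obtain ⟨t, ht, htN, hty⟩ := hy
  refine ⟨s * t, B.mul_mem hs ht, h.not_mem_mul hs ht hsN htN, ?_⟩
  have e : s * t * (x * y) = (s * x) * (t * y) := by ring
  rw [e]
  exact h.mul _ hsx _ hty

theorem locMax_prime (h : StbPt B N) {x y : F} (hx : x ∈ stbLoc B N) (hy : y ∈ stbLoc B N)
    (hxy : x * y ∈ stbLocMax B N) : x ∈ stbLocMax B N ∨ y ∈ stbLocMax B N := by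
  obtain ⟨s, hs, hsN, hsx⟩ := hx
  obtain ⟨t, ht, htN, hty⟩ := hy
  obtain ⟨r, hr, hrN, hrxy⟩ := hxy
  have e : r * ((s * x) * (t * y)) = (s * t) * (r * (x * y)) := by ring
  have h1 : r * ((s * x) * (t * y)) ∈ N := by
    rw [e]
    exact h.mul _ (B.mul_mem hs ht) _ hrxy
  have h2 : (s * x) * (t * y) ∈ N :=
    (h.prime r hr _ (B.mul_mem hsx hty) h1).resolve_left hrN
  rcases h.prime _ hsx _ hty h2 with h3 | h3
  · exact Or.inl ⟨s, hs, hsN, h3⟩
  · exact Or.inr ⟨t, ht, htN, h3⟩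

theorem one_not_mem_locMax (h : StbPt B N) : (1 : F) ∉ stbLocMax B N := by
  rintro ⟨s, hs, hsN, hs1⟩
  rw [mul_one] at hs1
  exact hsN hs1

theorem loc_mul (h : StbPt B N) {x y : F} (hx : x ∈ stbLoc B N) (hy : y ∈ stbLoc B N) :
    x * y ∈ stbLoc B N := by
  obtain ⟨s, hs, hsN, hsx⟩ := hx
  obtain ⟨t, ht, htN, hty⟩ := hy
  refine ⟨s * t, B.mul_mem hs ht, h.not_mem_mul hs ht hsN htN, ?_⟩
  have e : s * t * (x * y) = (s * x) * (t * y) := by ring
  rw [e]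
  exact B.mul_mem hsx hty

theorem loc_pow (h : StbPt B N) {x : F} (hx : x ∈ stbLoc B N) (n : ℕ) :
    x ^ n ∈ stbLoc B N := by
  induction n with
  | zero => rw [pow_zero]; exact h.loc_of_mem B.one_mem
  | succ n ih => rw [pow_succ]; exact h.loc_mul ih hx

theorem locMax_of_pow (h : StbPt B N) {x : F} (hx : x ∈ stbLoc B N) {n : ℕ}
    (hxn : x ^ n ∈ stbLocMax B N) : x ∈ stbLocMax B N := by
  induction n with
  | zero => rw [pow_zero] at hxn; exact absurd hxn h.one_not_mem_locMax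
  | succ n ih =>
    rw [pow_succ] at hxn
    rcases h.locMax_prime (h.loc_pow hx n) hx hxn with h1 | h1
    · exact ih h1
    · exact h1

theorem locMax_pow (h : StbPt B N) {x : F} (hx : x ∈ stbLocMax B N) {n : ℕ} (hn : n ≠ 0) :
    x ^ n ∈ stbLocMax B N := by
  obtain ⟨m, rfl⟩ := Nat.exists_eq_succ_of_ne_zero hn
  rw [pow_succ]
  exact h.locMax_mul (h.loc_pow (h.locMax_le_loc hx) m) hx

theorem mem_locMax_iff (h : StbPt B N) {b : F} (hb : b ∈ B) : b ∈ stbLocMax B N ↔ b ∈ N := by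
  constructor
  · rintro ⟨s, hs, hsN, hsb⟩
    exact (h.prime s hs b hb hsb).resolve_left hsN
  · intro hbN
    exact ⟨1, B.one_mem, h.one, by rw [one_mul]; exact hbN⟩

/-- a component through the point: elements of the local ring which are nonunits of `V` lie in
the maximal ideal -/
theorem locMax_of_nonunits (h : StbPt B N) (V : ValuationSubring F) (hBV : ∀ b ∈ B, b ∈ V)
    (hthr : ∀ b ∈ B, b ∈ V.nonunits → b ∈ N) {x : F} (hx : x ∈ stbLoc B N)
    (hxV : x ∈ V.nonunits) : x ∈ stbLocMax B N := by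
  obtain ⟨s, hs, hsN, hsx⟩ := hx
  refine ⟨s, hs, hsN, hthr _ hsx ?_⟩
  rw [ValuationSubring.mem_nonunits_iff] at hxV ⊢
  rw [map_mul]
  have h1 : V.valuation s ≤ 1 := (V.valuation_le_one_iff s).mpr (hBV s hs)
  calc V.valuation s * V.valuation x ≤ 1 * V.valuation x := mul_le_mul_left h1 _
    _ = V.valuation x := one_mul _
    _ < 1 := hxV

end StbPt

/-- The hypotheses on a Frobenius lift `Ψ` and the Atkin–Lehner involution `w` acting on the
function field `F`, relative to a chart `B` and the vertical valuation rings `Vinf`, `V0`. -/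
structure StbFrobVal (B : Subring F) (Vinf V0 : ValuationSubring F) (w Ψ : F ≃+* F) (q : ℕ) :
    Prop where
  hBinf : ∀ b ∈ B, b ∈ Vinf
  hB0 : ∀ b ∈ B, b ∈ V0
  hww : ∀ x : F, w (w x) = x
  hΨw : ∀ x : F, Ψ (w x) = w (Ψ x)
  hV0 : ∀ x : F, x ∈ V0.nonunits ↔ w x ∈ Vinf.nonunits
  hΨV : ∀ x : F, x ∈ Vinf.nonunits → Ψ.symm x ∈ Vinf.nonunits
  hΨB : ∀ b ∈ B, Ψ b ∈ B
  hΨB' : ∀ b ∈ B, Ψ.symm b ∈ B
  hwB : ∀ b ∈ B, ∃ e ∈ B, e - 1 ∈ Vinf.nonunits ∧ e * w b ∈ B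
  hkey : ∀ b ∈ B, ∃ c ∈ B, b - c ∈ Vinf.nonunits ∧ w c - (Ψ.symm c) ^ q ∈ Vinf.nonunits

/-- a crossing point: both components pass through `N` -/
structure StbCrossPt (B : Subring F) (Vinf V0 : ValuationSubring F) (N : Set F) : Prop
    extends StbPt B N where
  thrInf : ∀ b ∈ B, b ∈ Vinf.nonunits → b ∈ N
  thr0 : ∀ b ∈ B, b ∈ V0.nonunits → b ∈ N

namespace StbFrobVal

variable {B : Subring F} {Vinf V0 : ValuationSubring F} {w Ψ : F ≃+* F} {q : ℕ} {N : Set F}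

theorem symm_swap (h : StbFrobVal B Vinf V0 w Ψ q) (x : F) : Ψ.symm (w x) = w (Ψ.symm x) := by
  apply Ψ.injective
  rw [RingEquiv.apply_symm_apply, h.hΨw, RingEquiv.apply_symm_apply]

theorem swap_mem_V0 (h : StbFrobVal B Vinf V0 w Ψ q) {x : F} (hx : x ∈ Vinf.nonunits) :
    w x ∈ V0.nonunits := by
  rw [h.hV0, h.hww]
  exact hx

theorem swap_mem_Vinf (h : StbFrobVal B Vinf V0 w Ψ q) {x : F} (hx : x ∈ V0.nonunits) :
    w x ∈ Vinf.nonunits := (h.hV0 x).mp hx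

/-- `Ψ⁻¹` preserves `𝔪(V0)` -/
theorem symm_mem_V0 (h : StbFrobVal B Vinf V0 w Ψ q) {x : F} (hx : x ∈ V0.nonunits) :
    Ψ.symm x ∈ V0.nonunits := by
  rw [h.hV0, ← h.symm_swap]
  exact h.hΨV _ ((h.hV0 x).mp hx)

/-- the multiplier `e` of `hwB` is a unit at every crossing point -/
theorem unit_not_mem (h : StbFrobVal B Vinf V0 w Ψ q) (hN : StbCrossPt B Vinf V0 N) {e : F}
    (he : e ∈ B) (he1 : e - 1 ∈ Vinf.nonunits) : e ∉ N := by
  intro heN
  have h1 : e - 1 ∈ N := hN.thrInf _ (B.sub_mem he B.one_mem) he1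
  have h2 := hN.toStbPt.sub' heN h1
  rw [sub_sub_cancel] at h2
  exact hN.one h2

/-- `w B ⊆ B_N` at every crossing point -/
theorem swap_mem_loc (h : StbFrobVal B Vinf V0 w Ψ q) (hN : StbCrossPt B Vinf V0 N) {b : F}
    (hb : b ∈ B) : w b ∈ stbLoc B N := by
  obtain ⟨e, he, he1, hew⟩ := h.hwB b hb
  exact ⟨e, he, h.unit_not_mem hN he he1, hew⟩

/-- the point `w N` -/
def swapPt (B : Subring F) (w : F ≃+* F) (N : Set F) : Set F :=
  {b | b ∈ B ∧ w b ∈ stbLocMax B N}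

theorem swapPt_crossPt (h : StbFrobVal B Vinf V0 w Ψ q) (hN : StbCrossPt B Vinf V0 N) :
    StbCrossPt B Vinf V0 (swapPt B w N) where
  sub := fun x hx => hx.1
  zero := ⟨B.zero_mem, by
    rw [map_zero]
    exact (hN.toStbPt.mem_locMax_iff B.zero_mem).mpr hN.zero⟩
  add := fun x hx y hy => ⟨B.add_mem hx.1 hy.1, by
    rw [map_add]
    exact hN.toStbPt.locMax_add hx.2 hy.2⟩
  mul := fun a ha x hx => ⟨B.mul_mem ha hx.1, by
    rw [map_mul]
    exact hN.toStbPt.locMax_mul (h.swap_mem_loc hN ha) hx.2⟩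
  one := fun h1 => by
    have := h1.2
    rw [map_one] at this
    exact hN.toStbPt.one_not_mem_locMax this
  prime := fun a ha b hb hab => by
    have h1 := hab.2
    rw [map_mul] at h1
    rcases hN.toStbPt.locMax_prime (h.swap_mem_loc hN ha) (h.swap_mem_loc hN hb) h1 with h2 | h2
    · exact Or.inl ⟨ha, h2⟩
    · exact Or.inr ⟨hb, h2⟩
  thrInf := fun b hb hbV => ⟨hb,
    hN.toStbPt.locMax_of_nonunits V0 h.hB0 hN.thr0 (h.swap_mem_loc hN hb) (h.swap_mem_V0 hbV)⟩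
  thr0 := fun b hb hbV => ⟨hb,
    hN.toStbPt.locMax_of_nonunits Vinf h.hBinf hN.thrInf (h.swap_mem_loc hN hb)
      (h.swap_mem_Vinf hbV)⟩

/-- **Step 1: `N = Ψ w N`.**  For `y ∈ B`: `y ∈ N ↔ w (Ψ⁻¹ y) ∈ N B_N`. -/
theorem mem_iff_swap (h : StbFrobVal B Vinf V0 w Ψ q) (hq : q ≠ 0)
    (hN : StbCrossPt B Vinf V0 N) {y : F} (hy : y ∈ B) :
    y ∈ N ↔ w (Ψ.symm y) ∈ stbLocMax B N := by
  obtain ⟨c, hc, hyc, hfrob⟩ := h.hkey y hy
  have hP := hN.toStbPt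
  -- `y ∈ N ↔ c ∈ N`
  have e1 : y ∈ N ↔ c ∈ N := hP.mem_iff_of_sub (hN.thrInf _ (B.sub_mem hy hc) hyc)
  -- `z = w (Ψ⁻¹ c)`
  have hzO : w (Ψ.symm c) ∈ stbLoc B N := h.swap_mem_loc hN (h.hΨB' c hc)
  have hzq : w (Ψ.symm c) ^ q ∈ stbLoc B N := hP.loc_pow hzO q
  have hcO : c ∈ stbLoc B N := hP.loc_of_mem hc
  -- `c - z ^ q ∈ 𝔪(V0) ∩ B_N`
  have h1 : c - w (Ψ.symm c) ^ q ∈ V0.nonunits := by
    have := h.swap_mem_V0 hfrob
    rwa [map_sub, h.hww, map_pow] at this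
  have h1O : c - w (Ψ.symm c) ^ q ∈ stbLoc B N := by
    obtain ⟨s, hs, hsN, hsz⟩ := hzq
    refine ⟨s, hs, hsN, ?_⟩
    rw [mul_sub]
    exact B.sub_mem (B.mul_mem hs hc) hsz
  have h2 : c - w (Ψ.symm c) ^ q ∈ stbLocMax B N :=
    hP.locMax_of_nonunits V0 h.hB0 hN.thr0 h1O h1
  have e2 : c ∈ N ↔ w (Ψ.symm c) ∈ stbLocMax B N := by
    rw [← hP.mem_locMax_iff hc, hP.locMax_mem_iff_of_sub h2]
    exact ⟨fun hz => hP.locMax_of_pow hzO hz, fun hz => hP.locMax_pow hz hq⟩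
  -- `w (Ψ⁻¹ y) - z ∈ 𝔪(V0) ∩ B_N`
  have h3 : w (Ψ.symm y) - w (Ψ.symm c) ∈ V0.nonunits := by
    rw [← map_sub, ← map_sub]
    exact h.swap_mem_V0 (h.hΨV _ hyc)
  have h3O : w (Ψ.symm y) - w (Ψ.symm c) ∈ stbLoc B N := by
    rw [← map_sub, ← map_sub]
    exact h.swap_mem_loc hN (h.hΨB' _ (B.sub_mem hy hc))
  have h4 : w (Ψ.symm y) - w (Ψ.symm c) ∈ stbLocMax B N :=
    hP.locMax_of_nonunits V0 h.hB0 hN.thr0 h3O h3
  rw [e1, e2, hP.locMax_mem_iff_of_sub h4]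

/-- **Step 2: `w N = Ψ⁻¹ N`.**  For `y ∈ B`: `w y ∈ N B_N ↔ Ψ⁻¹ y ∈ N`. -/
theorem swap_mem_iff (h : StbFrobVal B Vinf V0 w Ψ q) (hq : q ≠ 0)
    (hN : StbCrossPt B Vinf V0 N) {y : F} (hy : y ∈ B) :
    w y ∈ stbLocMax B N ↔ Ψ.symm y ∈ N := by
  have hP := hN.toStbPt
  have hN' := h.swapPt_crossPt hN
  have key := h.mem_iff_swap hq hN' hy
  have hΨy : Ψ.symm y ∈ B := h.hΨB' y hy
  have e1 : y ∈ swapPt B w N ↔ w y ∈ stbLocMax B N := ⟨fun hh => hh.2, fun hh => ⟨hy, hh⟩⟩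
  rw [← e1, key]
  constructor
  · rintro ⟨s, hs, hsN, hsx⟩
    -- `w s · Ψ⁻¹ y ∈ N B_N`, `w s ∉ N B_N`
    have h1 : w (s * w (Ψ.symm y)) ∈ stbLocMax B N := hsx.2
    rw [map_mul, h.hww] at h1
    have h2 : w s ∉ stbLocMax B N := fun hh => hsN ⟨hs, hh⟩
    have h3 := (hP.locMax_prime (h.swap_mem_loc hN hs) (hP.loc_of_mem hΨy) h1).resolve_left h2
    exact (hP.mem_locMax_iff hΨy).mp h3
  · intro hΨN
    obtain ⟨e, he, he1, hew⟩ := h.hwB _ hΨy
    refine ⟨e, he, h.unit_not_mem hN' he he1, hew, ?_⟩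
    rw [map_mul, h.hww]
    exact hP.locMax_mul (h.swap_mem_loc hN he) ((hP.mem_locMax_iff hΨy).mpr hΨN)

/-- **The square of the Frobenius lift fixes every crossing point**, inverse form:
`y ∈ N ↔ Ψ⁻¹ (Ψ⁻¹ y) ∈ N`. -/
theorem frobSq_symm_mem_iff (h : StbFrobVal B Vinf V0 w Ψ q) (hq : q ≠ 0)
    (hN : StbCrossPt B Vinf V0 N) {y : F} (hy : y ∈ B) :
    Ψ.symm (Ψ.symm y) ∈ N ↔ y ∈ N := by
  rw [h.mem_iff_swap hq hN hy, h.swap_mem_iff hq hN (h.hΨB' y hy)]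

/-- **The square of the Frobenius lift fixes every crossing point: `Φ N = N`.** -/
theorem frobSq_mem_iff (h : StbFrobVal B Vinf V0 w Ψ q) (hq : q ≠ 0)
    (hN : StbCrossPt B Vinf V0 N) {y : F} (hy : y ∈ B) :
    Ψ (Ψ y) ∈ N ↔ y ∈ N := by
  have := h.frobSq_symm_mem_iff hq hN (h.hΨB _ (h.hΨB y hy))
  rw [RingEquiv.symm_apply_apply, RingEquiv.symm_apply_apply] at this
  exact this.symm

/-- `Ψ N = w N` -/
theorem frob_mem_iff_swap (h : StbFrobVal B Vinf V0 w Ψ q) (hq : q ≠ 0)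
    (hN : StbCrossPt B Vinf V0 N) {y : F} (hy : y ∈ B) :
    Ψ y ∈ N ↔ w y ∈ stbLocMax B N := by
  have := h.mem_iff_swap hq hN (h.hΨB y hy)
  rw [RingEquiv.symm_apply_apply] at this
  exact this

end StbFrobVal


/-! ## Ideals of a subalgebra -/

section Ideal

variable {R : Type*} [CommRing R] [Algebra R F] (S : Subalgebra R F)

/-- an ideal of the subalgebra `S ⊆ F`, as a subset of `F` -/
def stbIdealSet (𝔫 : Ideal S) : Set F := {x | ∃ h : x ∈ S, (⟨x, h⟩ : S) ∈ 𝔫}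

variable {S}

theorem coe_mem_stbIdealSet {𝔫 : Ideal S} (b : S) : (b : F) ∈ stbIdealSet S 𝔫 ↔ b ∈ 𝔫 :=
  ⟨fun ⟨_, h⟩ => h, fun h => ⟨b.2, h⟩⟩

theorem stbPt_of_isPrime (𝔫 : Ideal S) [h𝔫 : 𝔫.IsPrime] :
    StbPt S.toSubring (stbIdealSet S 𝔫) where
  sub := fun x hx => hx.1
  zero := ⟨S.zero_mem, 𝔫.zero_mem⟩
  add := fun x hx y hy => ⟨S.add_mem hx.1 hy.1, 𝔫.add_mem hx.2 hy.2⟩
  mul := fun a ha x hx => ⟨S.mul_mem ha hx.1, 𝔫.mul_mem_left ⟨a, ha⟩ hx.2⟩
  one := fun h1 => h𝔫.ne_top ((Ideal.eq_top_iff_one 𝔫).mpr h1.2)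
  prime := fun a ha b hb hab => by
    have h1 : (⟨a, ha⟩ : S) * ⟨b, hb⟩ ∈ 𝔫 := hab.2
    rcases h𝔫.mem_or_mem h1 with h2 | h2
    · exact Or.inl ⟨ha, h2⟩
    · exact Or.inr ⟨hb, h2⟩

theorem stbCrossPt_of_isPrime (𝔫 : Ideal S) [h𝔫 : 𝔫.IsPrime] (Vinf V0 : ValuationSubring F)
    (hc₁ : ∀ b : S, (b : F) ∈ Vinf.nonunits → b ∈ 𝔫)
    (hc₂ : ∀ b : S, (b : F) ∈ V0.nonunits → b ∈ 𝔫) :
    StbCrossPt S.toSubring Vinf V0 (stbIdealSet S 𝔫) where
  toStbPt := stbPt_of_isPrime 𝔫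
  thrInf := fun b hb hbV => ⟨hb, hc₁ ⟨b, hb⟩ hbV⟩
  thr0 := fun b hb hbV => ⟨hb, hc₂ ⟨b, hb⟩ hbV⟩

variable {Vinf V0 : ValuationSubring F} {w Ψ : F ≃+* F} {q : ℕ}

/-- **`Φ 𝔫 = 𝔫` at a crossing point `𝔫` of the chart `S`** (`Φ = Ψ²`). -/
theorem stb_cross_frobSq_mem_iff (h : StbFrobVal S.toSubring Vinf V0 w Ψ q) (hq : q ≠ 0)
    (𝔫 : Ideal S) [𝔫.IsPrime]
    (hc₁ : ∀ b : S, (b : F) ∈ Vinf.nonunits → b ∈ 𝔫)
    (hc₂ : ∀ b : S, (b : F) ∈ V0.nonunits → b ∈ 𝔫) (b : S) :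
    (⟨Ψ (Ψ (b : F)), h.hΨB _ (h.hΨB _ b.2)⟩ : S) ∈ 𝔫 ↔ b ∈ 𝔫 := by
  have := h.frobSq_mem_iff hq (stbCrossPt_of_isPrime 𝔫 Vinf V0 hc₁ hc₂) (y := (b : F)) b.2
  rw [coe_mem_stbIdealSet] at this
  rw [← this]
  exact (coe_mem_stbIdealSet (𝔫 := 𝔫) ⟨Ψ (Ψ (b : F)), h.hΨB _ (h.hΨB _ b.2)⟩).symm

theorem stb_cross_frobSq_symm_mem_iff (h : StbFrobVal S.toSubring Vinf V0 w Ψ q) (hq : q ≠ 0)
    (𝔫 : Ideal S) [𝔫.IsPrime]
    (hc₁ : ∀ b : S, (b : F) ∈ Vinf.nonunits → b ∈ 𝔫)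
    (hc₂ : ∀ b : S, (b : F) ∈ V0.nonunits → b ∈ 𝔫) (b : S) :
    (⟨Ψ.symm (Ψ.symm (b : F)), h.hΨB' _ (h.hΨB' _ b.2)⟩ : S) ∈ 𝔫 ↔ b ∈ 𝔫 := by
  have := h.frobSq_symm_mem_iff hq (stbCrossPt_of_isPrime 𝔫 Vinf V0 hc₁ hc₂) (y := (b : F)) b.2
  rw [coe_mem_stbIdealSet] at this
  rw [← this]
  exact (coe_mem_stbIdealSet (𝔫 := 𝔫)
    ⟨Ψ.symm (Ψ.symm (b : F)), h.hΨB' _ (h.hΨB' _ b.2)⟩).symm

/-- the shape `hgB` of `at_local_factor` / `stb_local_factor`, for `Φ = Ψ²` -/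
theorem stb_cross_hgB (h : StbFrobVal S.toSubring Vinf V0 w Ψ q) (hq : q ≠ 0)
    (𝔫 : Ideal S) [𝔫.IsPrime]
    (hc₁ : ∀ b : S, (b : F) ∈ Vinf.nonunits → b ∈ 𝔫)
    (hc₂ : ∀ b : S, (b : F) ∈ V0.nonunits → b ∈ 𝔫) (b : S) (hb : b ∈ 𝔫) :
    ∃ b' : S, b' ∈ 𝔫 ∧ Ψ (Ψ (b : F)) = (b' : F) :=
  ⟨_, (stb_cross_frobSq_mem_iff h hq 𝔫 hc₁ hc₂ b).mpr hb, rfl⟩

/-- the shape `hgB'` of `at_local_factor` / `stb_local_factor`, for `Φ = Ψ²` -/
theorem stb_cross_hgB' (h : StbFrobVal S.toSubring Vinf V0 w Ψ q) (hq : q ≠ 0)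
    (𝔫 : Ideal S) [𝔫.IsPrime]
    (hc₁ : ∀ b : S, (b : F) ∈ Vinf.nonunits → b ∈ 𝔫)
    (hc₂ : ∀ b : S, (b : F) ∈ V0.nonunits → b ∈ 𝔫) (b : S) (hb : b ∈ 𝔫) :
    ∃ b' : S, b' ∈ 𝔫 ∧ Ψ.symm (Ψ.symm (b : F)) = (b' : F) :=
  ⟨_, (stb_cross_frobSq_symm_mem_iff h hq 𝔫 hc₁ hc₂ b).mpr hb, rfl⟩

/-- restriction of a ring endomorphism of `F` to a stable subalgebra -/
def stbRestrict (S : Subalgebra R F) (Ψ : F →+* F) (hΨ : ∀ b ∈ S, Ψ b ∈ S) : S →+* S where
  toFun b := ⟨Ψ b, hΨ _ b.2⟩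
  map_one' := Subtype.ext (map_one Ψ)
  map_mul' x y := Subtype.ext (map_mul Ψ _ _)
  map_zero' := Subtype.ext (map_zero Ψ)
  map_add' x y := Subtype.ext (map_add Ψ _ _)

@[simp] theorem stbRestrict_coe (Ψ : F →+* F) (hΨ : ∀ b ∈ S, Ψ b ∈ S) (b : S) :
    ((stbRestrict S Ψ hΨ b : S) : F) = Ψ b := rfl

/-- **`Φ̄ = (·)^{q²}` on `S ⧸ 𝔫` at a crossing point** (shape `hfrobB` of `stb_glue_frob_chart`):
`Φ b = b ^ (q²) + c`, `c ∈ 𝔫`.  `π ∈ 𝔫` is the uniformizer of the base `R`, `Ψ a ≡ a ^ q mod π` on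
`R`, and the point is rational (`hrat`). -/
theorem stb_cross_hfrobB (h : StbFrobVal S.toSubring Vinf V0 w Ψ q) (hq : q ≠ 0)
    (𝔫 : Ideal S) [𝔫.IsPrime]
    (hc₁ : ∀ b : S, (b : F) ∈ Vinf.nonunits → b ∈ 𝔫)
    (hc₂ : ∀ b : S, (b : F) ∈ V0.nonunits → b ∈ 𝔫)
    (π : R) (hπ : algebraMap R S π ∈ 𝔫)
    (hΨR : ∀ a : R, ∃ c : R, Ψ (algebraMap R F a) = algebraMap R F (a ^ q + π * c))
    (hrat : ∀ b : S, ∃ a : R, b - algebraMap R S a ∈ 𝔫) (b : S) :
    ∃ c : S, c ∈ 𝔫 ∧ Ψ (Ψ (b : F)) = (b : F) ^ (q ^ 2) + (c : F) := by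
  set Ψ' : S →+* S := stbRestrict S (Ψ : F →+* F) h.hΨB with hΨ'
  have hJ : ∀ x ∈ Ideal.span {algebraMap R S π}, Ψ' x ∈ Ideal.span {algebraMap R S π} := by
    intro x hx
    obtain ⟨z, rfl⟩ := Ideal.mem_span_singleton.mp hx
    obtain ⟨c, hc⟩ := hΨR π
    rw [Ideal.mem_span_singleton]
    refine ⟨algebraMap R S (π ^ (q - 1) + c) * Ψ' z, ?_⟩
    apply Subtype.ext
    show Ψ (algebraMap R F π * (z : F)) =
      algebraMap R F π * (algebraMap R F (π ^ (q - 1) + c) * Ψ (z : F))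
    rw [map_mul, hc, ← mul_assoc, ← map_mul]
    congr 2
    have : π ^ q = π * π ^ (q - 1) := by
      rw [← pow_succ', Nat.sub_add_cancel (Nat.pos_of_ne_zero hq)]
    rw [this]
    ring
  have hΨ : ∀ a : R, Ψ' (algebraMap R S a) - algebraMap R S a ^ q ∈
      Ideal.span {algebraMap R S π} := by
    intro a
    obtain ⟨c, hc⟩ := hΨR a
    rw [Ideal.mem_span_singleton]
    refine ⟨algebraMap R S c, ?_⟩
    apply Subtype.ext
    show Ψ (algebraMap R F a) - algebraMap R F a ^ q = algebraMap R F π * algebraMap R F c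
    rw [hc, map_add, map_mul, map_pow]
    ring
  have hΦ : ∀ x ∈ 𝔫, Ψ' (Ψ' x) ∈ 𝔫 := fun x hx =>
    (stb_cross_frobSq_mem_iff h hq 𝔫 hc₁ hc₂ x).mpr hx
  have key := stb_frobSq_sub_pow_mem (algebraMap R S) Ψ' (Ideal.span {algebraMap R S π}) 𝔫 q
    ((Ideal.span_singleton_le_iff_mem 𝔫).mpr hπ) hJ hΨ hΦ hrat b
  refine ⟨_, key, ?_⟩
  show Ψ (Ψ (b : F)) = (b : F) ^ (q ^ 2) + (Ψ (Ψ (b : F)) - (b : F) ^ (q ^ 2))
  ring

end Ideal

/-! ## Preservation of a discrete valuation -/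

section Val

/-- `σ` preserves the valuation of `V` as soon as `σ V ⊆ V` and there is a uniformizer `ϖ`
(every `f ≠ 0` is `ϖ ^ (-k) · unit`) with `σ ϖ / ϖ` a unit.  (No triviality on the residue field
needed: this is the form of `ls_valuation_map_div_eq_one` for a Frobenius lift.) -/
theorem stb_valuation_map_div_eq_one (V : ValuationSubring F) (σ : F →+* F)
    (hσ : ∀ x ∈ V, σ x ∈ V) (ϖ : F) (hϖ : V.valuation (σ ϖ / ϖ) = 1)
    {f : F} (k : ℤ) (hf : V.valuation (f * ϖ ^ k) = 1) :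
    V.valuation (σ f / f) = 1 := by
  have hϖ0 : ϖ ≠ 0 := by
    intro h
    rw [h, map_zero, div_zero, map_zero] at hϖ
    exact zero_ne_one hϖ
  have hσϖ0 : σ ϖ ≠ 0 := (map_ne_zero σ).mpr hϖ0
  set x := f * ϖ ^ k with hxdef
  have hx0 : x ≠ 0 := by
    intro h
    rw [h, map_zero] at hf
    exact zero_ne_one hf
  have hf0 : f ≠ 0 := by
    intro h
    apply hx0
    rw [hxdef, h, zero_mul]
  have hσf0 : σ f ≠ 0 := (map_ne_zero σ).mpr hf0
  have hxmem : x ∈ V := (V.valuation_le_one_iff x).mp hf.le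
  have hxinv : x⁻¹ ∈ V := by
    rw [← V.valuation_le_one_iff, map_inv₀, hf, inv_one]
  have h1 : V.valuation (σ x) ≤ 1 := (V.valuation_le_one_iff _).mpr (hσ x hxmem)
  have h2 : V.valuation (σ x)⁻¹ ≤ 1 := by
    have := (V.valuation_le_one_iff _).mpr (hσ _ hxinv)
    rwa [map_inv₀] at this
  have hσx0 : σ x ≠ 0 := (map_ne_zero σ).mpr hx0
  have hvσx0 : V.valuation (σ x) ≠ 0 := (Valuation.ne_zero_iff _).mpr hσx0
  have h3 : V.valuation (σ x) = 1 := by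
    apply le_antisymm h1
    rw [map_inv₀] at h2
    have := inv_le_one₀ (zero_lt_iff.mpr hvσx0) |>.mp h2
    exact this
  -- `σ f / f = (σ x / x) * (σ ϖ / ϖ) ^ (-k)`
  have e : σ f / f = (σ x / x) * ((σ ϖ / ϖ) ^ k)⁻¹ := by
    rw [hxdef, map_mul, map_zpow₀]
    have hϖk : ϖ ^ k ≠ 0 := zpow_ne_zero k hϖ0
    have hσϖk : σ ϖ ^ k ≠ 0 := zpow_ne_zero k hσϖ0
    rw [div_zpow]
    field_simp
  rw [e, map_mul, map_div₀, h3, hf, map_inv₀, map_zpow₀, hϖ, one_zpow, div_one, inv_one, mul_one]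

/-- a ring automorphism preserving `V` (together with its inverse) preserves `𝔪(V)` -/
theorem stb_map_mem_nonunits (V : ValuationSubring F) (σ : F ≃+* F)
    (hσ' : ∀ x ∈ V, σ.symm x ∈ V) {x : F} (hx : x ∈ V.nonunits) (hσx : σ x ∈ V) :
    σ x ∈ V.nonunits := by
  rw [ValuationSubring.mem_nonunits_iff] at hx ⊢
  by_contra hcon
  have h1 : V.valuation (σ x) = 1 :=
    le_antisymm ((V.valuation_le_one_iff _).mpr hσx) (not_lt.mp hcon)
  have hσx0 : σ x ≠ 0 := by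
    intro h0
    rw [h0, map_zero] at h1
    exact zero_ne_one h1
  have h2 : (σ x)⁻¹ ∈ V := by
    rw [← V.valuation_le_one_iff, map_inv₀, h1, inv_one]
  have h3 := hσ' _ h2
  rw [map_inv₀, RingEquiv.symm_apply_apply] at h3
  have h4 : V.valuation x⁻¹ ≤ 1 := (V.valuation_le_one_iff _).mpr h3
  rw [map_inv₀] at h4
  have hx0 : x ≠ 0 := fun h0 => hσx0 (by rw [h0, map_zero])
  have hvx0 : V.valuation x ≠ 0 := (Valuation.ne_zero_iff _).mpr hx0
  have h5 : 1 ≤ V.valuation x := (inv_le_one₀ (zero_lt_iff.mpr hvx0)).mp h4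
  exact absurd hx (not_lt.mpr h5)

end Val

end Fermat.Agent.STB


end ZBSTB_004_1

/-! ### bundled: `Fermat.Agent.STB.FrobChart` -/
section ZBSTB_004_2

/-!
# STB-X (`FrobFix`), part 2d: `StbFrobVal` on the charts of `F_{Mq}(E)`

Base convention of `NodesFrob.lean` / `NodesGauss.lean`: `A` a domain, `E = Frac A`,
`r : A →+* k`, `GaussBase r π`; `F = modularFunctionFieldFullC E (M * q)`.

* `stbVinf hB N`  : the Gauss valuation ring `F_N(E) ∩ gaussRing` (`gaussVS`);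
* `stbAtk ιC hq hqM` : the Atkin–Lehner involution as a ring automorphism of `F`;
* `stbV0 hB ιC hq hqM := (stbVinf hB (M * q)).comap w`;
* `stb_frobVal_chart` : **`StbFrobVal B Vinf V0 w Ψ q`** for the chart `B` of a coordinate `u` and
  `Ψ = mgRingAut (M * q) s`, `s : E ≃+* E` a Frobenius lift.
-/

set_option autoImplicit false
set_option linter.style.haveILetI false
set_option linter.unusedSectionVars false
set_option linter.unusedVariables false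
set_option synthInstance.maxHeartbeats 400000
set_option maxHeartbeats 1000000

noncomputable section

namespace Fermat.Agent.STB

open ModularCurve Polynomial IntermediateField Fermat.Agent.INJ Fermat.Agent.AL Fermat.Agent.UNIP

section Val

variable {K L : Type*} [Field K] [Field L]

/-- nonunits of a pulled-back valuation subring -/
theorem stb_mem_nonunits_comap (V : ValuationSubring L) (f : K →+* L) (x : K) :
    x ∈ (V.comap f).nonunits ↔ f x ∈ V.nonunits := by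
  rw [ValuationSubring.mem_nonunits_iff_or, ValuationSubring.mem_nonunits_iff_or,
    ValuationSubring.mem_comap, map_inv₀, map_eq_zero]

end Val

section Base

variable {A E k : Type*} [CommRing A] [IsDomain A] [WfDvdMonoid A] [Field E] [Algebra A E]
  [IsFractionRing A E] [Field k] {r : A →+* k} {π : A}

theorem stb_full_le_gaussFrac (N : ℕ) [NeZero N] :
    modularFunctionFieldFullC E N ≤ gaussFracField A :=
  fun _ hx => nodesFrob_full_le (A := A) N hx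

/-- the Gauss valuation ring `V_∞` of `F_N(E)` -/
def stbVinf (hB : GaussBase r π) (N : ℕ) [NeZero N] :
    ValuationSubring (modularFunctionFieldFullC E N) :=
  gaussVS hB (modularFunctionFieldFullC E N) (stb_full_le_gaussFrac N)

theorem mem_stbVinf (hB : GaussBase r π) (N : ℕ) [NeZero N] {x : modularFunctionFieldFullC E N} :
    x ∈ stbVinf hB N ↔ (x : LaurentSeries E) ∈ gaussRing (algebraMap A E) r := Iff.rfl

theorem mem_nonunits_stbVinf (hB : GaussBase r π) (N : ℕ) [NeZero N]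
    {x : modularFunctionFieldFullC E N} :
    x ∈ (stbVinf hB N).nonunits ↔
      ∃ hx : (x : LaurentSeries E) ∈ gaussRing (algebraMap A E) r,
        gaussRed r (IsFractionRing.injective A E) ⟨(x : LaurentSeries E), hx⟩ = 0 :=
  mem_nonunits_gaussVS hB _ _

end Base

section AL

variable {E : Type*} [Field E] (ιC : E →+* ℂ)
  {q M : ℕ} [NeZero q] [NeZero M] [NeZero (M * q)] (hq : q.Prime) (hqM : ¬ q ∣ M)

/-- the Atkin–Lehner involution `w_q` as a ring automorphism of `F_{Mq}(E)` -/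
def stbAtk : modularFunctionFieldFullC E (M * q) ≃+* modularFunctionFieldFullC E (M * q) :=
  (atkinLehner E ιC hq hqM).toRingEquiv

@[simp] theorem stbAtk_apply (x : modularFunctionFieldFullC E (M * q)) :
    stbAtk ιC hq hqM x = atkinLehner E ιC hq hqM x := rfl

theorem stbAtk_invol (x : modularFunctionFieldFullC E (M * q)) :
    stbAtk ιC hq hqM (stbAtk ιC hq hqM x) = x :=
  atkinLehner_invol E ιC hq hqM x

/-- `Ψ w = w Ψ` for the coefficientwise action `Ψ` of an automorphism of `E` -/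
theorem stbAtk_mgRingAut (s : E ≃+* E) (x : modularFunctionFieldFullC E (M * q)) :
    mgRingAut (M * q) s (stbAtk ιC hq hqM x) = stbAtk ιC hq hqM (mgRingAut (M * q) s x) := by
  apply Subtype.ext
  exact (atkinLehner_coeffMap E ιC hq hqM (s : E →+* E) x).symm

end AL

section Main

variable {A E k : Type*} [CommRing A] [IsDomain A] [WfDvdMonoid A] [Field E] [Algebra A E]
  [IsFractionRing A E] [Field k] {r : A →+* k} {π : A} (hB : GaussBase r π) (ιC : E →+* ℂ)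
  {q M : ℕ} [NeZero q] [NeZero M] [NeZero (M * q)] (hq : q.Prime) (hqM : ¬ q ∣ M)
  [Algebra A (modularFunctionFieldFullC E (M * q))]
  [IsScalarTower A E (modularFunctionFieldFullC E (M * q))]

/-- the valuation ring `V_0 = V_∞ ∘ w_q` -/
def stbV0 : ValuationSubring (modularFunctionFieldFullC E (M * q)) :=
  (stbVinf hB (M * q)).comap
    (stbAtk ιC hq hqM : modularFunctionFieldFullC E (M * q) →+* modularFunctionFieldFullC E (M * q))

theorem mem_stbV0 {x : modularFunctionFieldFullC E (M * q)} :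
    x ∈ stbV0 hB ιC hq hqM ↔ stbAtk ιC hq hqM x ∈ stbVinf hB (M * q) := Iff.rfl

theorem mem_nonunits_stbV0 (x : modularFunctionFieldFullC E (M * q)) :
    x ∈ (stbV0 hB ιC hq hqM).nonunits ↔ stbAtk ιC hq hqM x ∈ (stbVinf hB (M * q)).nonunits :=
  stb_mem_nonunits_comap _ _ x

/-- the coefficientwise action of a ring automorphism `s` of `E` preserving `A` preserves
`𝔪(V_∞)` -/
theorem stb_mgRingAut_mem_nonunits (s : E ≃+* E) (ψA : A →+* A) (θ : k →+* k)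
    (hψ : ∀ a, s (algebraMap A E a) = algebraMap A E (ψA a))
    (hθ : ∀ a, r (ψA a) = θ (r a)) (N : ℕ) [NeZero N]
    {x : modularFunctionFieldFullC E N} (hx : x ∈ (stbVinf hB N).nonunits) :
    mgRingAut N s x ∈ (stbVinf hB N).nonunits := by
  rw [mem_nonunits_stbVinf] at hx ⊢
  obtain ⟨hxG, hx0⟩ := hx
  refine ⟨frStab_mem_gaussRing (algebraMap A E) r ψA (s : E →+* E) θ hψ hθ hxG, ?_⟩
  have := frStab_gaussRed r ψA (s : E →+* E) θ (IsFractionRing.injective A E) hψ hθ ⟨_, hxG⟩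
  rw [hx0, map_zero] at this
  exact this

/-- the coefficientwise action preserves `V_∞` -/
theorem stb_mgRingAut_mem (s : E ≃+* E) (ψA : A →+* A) (θ : k →+* k)
    (hψ : ∀ a, s (algebraMap A E a) = algebraMap A E (ψA a))
    (hθ : ∀ a, r (ψA a) = θ (r a)) (N : ℕ) [NeZero N]
    {x : modularFunctionFieldFullC E N} (hx : x ∈ stbVinf hB N) :
    mgRingAut N s x ∈ stbVinf hB N :=
  frStab_mem_gaussRing (algebraMap A E) r ψA (s : E →+* E) θ hψ hθ hx

/-- the coefficientwise action preserves the chart of a fixed coordinate `u` -/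
theorem stb_mgRingAut_isIntegral (s : E ≃+* E) (ψA : A →+* A)
    (hψ : ∀ a, s (algebraMap A E a) = algebraMap A E (ψA a))
    (u : modularFunctionFieldFullC E (M * q))
    (hsu : coeffMap (s : E →+* E) (u : LaurentSeries E) = (u : LaurentSeries E))
    {x : modularFunctionFieldFullC E (M * q)} (hx : IsIntegral (Algebra.adjoin A {u}) x) :
    IsIntegral (Algebra.adjoin A {u}) (mgRingAut (M * q) s x) :=
  frStab_chart (M * q) (s : E →+* E) ψA hψ u hsu hx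

theorem stb_coeffMap_symm_fixed (s : E ≃+* E) {u : LaurentSeries E}
    (hsu : coeffMap (s : E →+* E) u = u) : coeffMap (s.symm : E →+* E) u = u := by
  conv_lhs => rw [← hsu]
  rw [coeffMap_coeffMap,
    coeffMap_congr (g := RingHom.id E) (RingHom.ext fun a => s.symm_apply_apply a) u, coeffMap_id]

/-- **The Frobenius congruence (G3) at `V_∞`**: for `c ∈ F_M(E)` in the Gauss ring,
`w c - (Ψ⁻¹ c) ^ q ∈ 𝔪(V_∞)`, `Ψ⁻¹` the coefficientwise action of an inverse Frobenius lift. -/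
theorem stb_frob_G3 [Fact q.Prime] [CharP k q]
    (s : E ≃+* E) (ψA' : A →+* A) (θ : k →+* k)
    (hψ' : ∀ a, s.symm (algebraMap A E a) = algebraMap A E (ψA' a))
    (hθ : ∀ a, r (ψA' a) = θ (r a)) (hθq : ∀ x, θ x ^ q = x)
    (c : modularFunctionFieldFullC E (M * q))
    (hcM : (c : LaurentSeries E) ∈ modularFunctionFieldFullC E M)
    (hcG : (c : LaurentSeries E) ∈ gaussRing (algebraMap A E) r) :
    stbAtk ιC hq hqM c - ((mgRingAut (M * q) s).symm c) ^ q ∈ (stbVinf hB (M * q)).nonunits := by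
  have h1 := nodesFrob_G3_mem r ιC hq hqM hcM hcG
  have h2 : coeffMap (s.symm : E →+* E) (c : LaurentSeries E) ∈ gaussRing (algebraMap A E) r :=
    frStab_mem_gaussRing (algebraMap A E) r ψA' (s.symm : E →+* E) θ hψ' hθ hcG
  have key := nodesFrobInst_raw r ιC hq hqM ψA' (s.symm : E →+* E) θ hψ' hθ hθq hcM hcG h1 h2
  rw [mem_nonunits_stbVinf]
  have hc : c = ⟨(c : LaurentSeries E), al_mem_of_mem_low E hcM⟩ := rfl
  have hmem : ((stbAtk ιC hq hqM c - ((mgRingAut (M * q) s).symm c) ^ q :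
      modularFunctionFieldFullC E (M * q)) : LaurentSeries E) ∈ gaussRing (algebraMap A E) r := by
    refine Subring.sub_mem _ ?_ (Subring.pow_mem _ h2 q)
    rw [stbAtk_apply]
    exact h1
  refine ⟨hmem, ?_⟩
  have e : (⟨_, hmem⟩ : gaussRing (algebraMap A E) r) =
      ⟨_, h1⟩ - (⟨_, h2⟩ : gaussRing (algebraMap A E) r) ^ q := Subtype.ext rfl
  rw [e, map_sub, map_pow, key, sub_self]

/-- **`StbFrobVal` on the chart of the coordinate `u` of `F_{Mq}(E)`**, `Ψ` the coefficientwise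
action of a Frobenius lift `s` of `E` (`s⁻¹` reduces to `θ = Frob⁻¹` on `k`).

Inputs from U5: `hwB` (`nodesSwap_chartJ`, `nodesSwap_chartInv`) and `hsurj`
(`ρ(B) = ρ(C)`, `NodesRankData.exists_eq`). -/
theorem stb_frobVal_chart [Fact q.Prime] [CharP k q]
    (s : E ≃+* E) (ψA ψA' : A →+* A) (θ : k →+* k)
    (hψ : ∀ a, s (algebraMap A E a) = algebraMap A E (ψA a))
    (hψ' : ∀ a, s.symm (algebraMap A E a) = algebraMap A E (ψA' a))
    (hθ : ∀ a, r (ψA' a) = θ (r a)) (hθq : ∀ x, θ x ^ q = x)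
    (u : modularFunctionFieldFullC E (M * q))
    (hu : (u : LaurentSeries E) ∈ gaussRing (algebraMap A E) r)
    (hwu : ((atkinLehner E ιC hq hqM u : modularFunctionFieldFullC E (M * q)) :
      LaurentSeries E) ∈ gaussRing (algebraMap A E) r)
    (hsu : coeffMap (s : E →+* E) (u : LaurentSeries E) = (u : LaurentSeries E))
    (hwB : ∀ b : modularFunctionFieldFullC E (M * q), IsIntegral (Algebra.adjoin A {u}) b →
      ∃ e : modularFunctionFieldFullC E (M * q), IsIntegral (Algebra.adjoin A {u}) e ∧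
        e - 1 ∈ (stbVinf hB (M * q)).nonunits ∧
        IsIntegral (Algebra.adjoin A {u}) (e * atkinLehner E ιC hq hqM b))
    (hsurj : ∀ b : modularFunctionFieldFullC E (M * q), IsIntegral (Algebra.adjoin A {u}) b →
      ∃ c : modularFunctionFieldFullC E (M * q), IsIntegral (Algebra.adjoin A {u}) c ∧
        (c : LaurentSeries E) ∈ modularFunctionFieldFullC E M ∧
        b - c ∈ (stbVinf hB (M * q)).nonunits) :
    StbFrobVal
      ((integralClosure (Algebra.adjoin A {u}) (modularFunctionFieldFullC E (M * q))).restrictScalars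
        A).toSubring
      (stbVinf hB (M * q)) (stbV0 hB ιC hq hqM) (stbAtk ιC hq hqM) (mgRingAut (M * q) s) q where
  hBinf := fun b hb =>
    nodesFrob_G1_id r hB.ne_zero hB.not_unit hB.ker hB.map_pi (nodesFrob_full_le (M * q)) u hu hb
  hB0 := fun b hb =>
    nodesFrob_G1 r hB.ne_zero hB.not_unit hB.ker hB.map_pi (nodesFrob_full_le (M * q))
      (atkinLehner E ιC hq hqM).toAlgHom u hwu hb
  hww := stbAtk_invol ιC hq hqM
  hΨw := stbAtk_mgRingAut ιC hq hqM s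
  hV0 := mem_nonunits_stbV0 hB ιC hq hqM
  hΨV := fun x hx => stb_mgRingAut_mem_nonunits hB s.symm ψA' θ hψ' hθ (M * q) hx
  hΨB := fun b hb => stb_mgRingAut_isIntegral s ψA hψ u hsu hb
  hΨB' := fun b hb =>
    stb_mgRingAut_isIntegral s.symm ψA' hψ' u (stb_coeffMap_symm_fixed s hsu) hb
  hwB := hwB
  hkey := fun b hb => by
    obtain ⟨c, hc, hcM, hbc⟩ := hsurj b hb
    have hcG : (c : LaurentSeries E) ∈ gaussRing (algebraMap A E) r :=
      nodesFrob_G1_id r hB.ne_zero hB.not_unit hB.ker hB.map_pi (nodesFrob_full_le (M * q))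
        u hu hc
    exact ⟨c, hc, hbc, stb_frob_G3 hB ιC hq hqM s ψA' θ hψ' hθ hθq c hcM hcG⟩

end Main

/-! ## `hsurj` from the rank data of U5 -/

section Surj

variable {B C K : Type*} [CommRing B] [CommRing C] [Field K]

/-- **`ρ(B) = ρ(C)`** (hom form of `NodesRankData.exists_eq`). -/
theorem stb_exists_eq_of_homData {φ : C →+* B} {π' : C} {ρ ρ₀ : B →+* K} {q : ℕ}
    (hd : NodesHomData φ π' ρ ρ₀ q)
    (icl : ∀ x : K, IsIntegral (ρ.comp φ).range x → ∀ c₁ c₂ : C, ρ (φ c₂) ≠ 0 →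
      ρ (φ c₂) * x = ρ (φ c₁) → ∃ c : C, ρ (φ c) = x)
    (hint : ∀ b : B, IsIntegral (ρ.comp φ).range (ρ b)) (b : B) :
    ∃ c : C, ρ (φ c) = ρ b := by
  have hrange : φ.range.map ρ = (ρ.comp φ).range := RingHom.map_range ρ φ
  obtain ⟨_, ⟨c, rfl⟩, hr⟩ := hd.toRankData.exists_eq
    (by
      intro x hx r₁ hr₁ r₂ hr₂ hne hrel
      obtain ⟨c₁, rfl⟩ := hr₁
      obtain ⟨c₂, rfl⟩ := hr₂
      have hx' : IsIntegral (ρ.comp φ).range x := by
        rw [← hrange]; exact hx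
      obtain ⟨c, hc⟩ := icl x hx' c₁ c₂ hne hrel
      exact ⟨φ c, ⟨c, rfl⟩, hc⟩)
    (by
      intro b
      rw [hrange]
      exact hint b) b
  exact ⟨c, hr⟩

end Surj

section Modular

variable {A E k : Type*} [CommRing A] [IsDomain A] [WfDvdMonoid A] [Field E] [Algebra A E]
  [IsFractionRing A E] [Field k] {r : A →+* k} {π : A} (hB : GaussBase r π) (ιC : E →+* ℂ)
  {q M : ℕ} [NeZero q] [NeZero M] [NeZero (M * q)] (hq : q.Prime) (hqM : ¬ q ∣ M)
  [Algebra A (modularFunctionFieldFullC E M)]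
  [IsScalarTower A E (modularFunctionFieldFullC E M)]
  [Algebra A (modularFunctionFieldFullC E (M * q))]
  [IsScalarTower A E (modularFunctionFieldFullC E (M * q))]

/-- **`hsurj` of `stb_frobVal_chart`** from the inputs of `nodes_modular_chart`
(`hd : NodesHomData`, normality of the special fibre of the chart of level `M`). -/
theorem stb_hsurj_modular
    (w : modularFunctionFieldFullC E (M * q) →ₐ[E] modularFunctionFieldFullC E (M * q))
    (t : modularFunctionFieldFullC E M)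
    (ht : (t : LaurentSeries E) ∈ gaussRing (algebraMap A E) r)
    (hwt : ((w (nodesInstIncl E M q t) :
      modularFunctionFieldFullC E (M * q)) : LaurentSeries E) ∈ gaussRing (algebraMap A E) r)
    [IsDomain (integralClosure (Algebra.adjoin A {t}) (modularFunctionFieldFullC E M) ⧸
      Ideal.span {algebraMap A
        (integralClosure (Algebra.adjoin A {t}) (modularFunctionFieldFullC E M)) π})]
    [IsIntegrallyClosed
      (integralClosure (Algebra.adjoin A {t}) (modularFunctionFieldFullC E M) ⧸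
      Ideal.span {algebraMap A
        (integralClosure (Algebra.adjoin A {t}) (modularFunctionFieldFullC E M)) π})]
    (hd : NodesHomData (nodesPhi A M q t)
      (algebraMap A (integralClosure (Algebra.adjoin A {t}) (modularFunctionFieldFullC E M)) π)
      (nodesFrobChartRed r hB.ne_zero hB.not_unit hB.ker hB.map_pi (nodesFrob_full_le (M * q))
        (nodesInstIncl E M q t) (nodesInst_ht' r M q t ht))
      (nodesSwapRho₀ r hB.ne_zero hB.not_unit hB.ker hB.map_pi (nodesFrob_full_le (M * q))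
        w (nodesInstIncl E M q t) hwt) q)
    (b : modularFunctionFieldFullC E (M * q))
    (hb : IsIntegral (Algebra.adjoin A {nodesInstIncl E M q t}) b) :
    ∃ c : modularFunctionFieldFullC E (M * q),
      IsIntegral (Algebra.adjoin A {nodesInstIncl E M q t}) c ∧
      (c : LaurentSeries E) ∈ modularFunctionFieldFullC E M ∧
      b - c ∈ (stbVinf hB (M * q)).nonunits := by
  have hφint := nodesModular_phi_isIntegral (A := A) M q t
  have hρπ := nodesInst_rho_phi_pi r hB.ne_zero hB.not_unit hB.ker hB.map_pi M q t ht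
  obtain ⟨c, hc⟩ := stb_exists_eq_of_homData hd
    (nodes_icl_of_isIntegrallyClosed _ _ hρπ hd.ker_sub)
    (nodes_hint_of_isIntegral _ hφint) ⟨b, hb⟩
  refine ⟨(nodesPhi A M q t c : integralClosure (Algebra.adjoin A {nodesInstIncl E M q t})
      (modularFunctionFieldFullC E (M * q))), (nodesPhi A M q t c).2, ?_, ?_⟩
  · rw [nodesPhi_coe_coe]
    exact (c : modularFunctionFieldFullC E M).2
  · rw [mem_nonunits_stbVinf]
    have hbG := nodesFrob_G1_id r hB.ne_zero hB.not_unit hB.ker hB.map_pi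
      (nodesFrob_full_le (M * q)) (nodesInstIncl E M q t) (nodesInst_ht' r M q t ht) hb
    have hcG := nodesFrob_G1_id r hB.ne_zero hB.not_unit hB.ker hB.map_pi
      (nodesFrob_full_le (M * q)) (nodesInstIncl E M q t) (nodesInst_ht' r M q t ht)
      (nodesPhi A M q t c).2
    have hmem : ((b - (nodesPhi A M q t c : integralClosure
        (Algebra.adjoin A {nodesInstIncl E M q t}) (modularFunctionFieldFullC E (M * q))) :
        modularFunctionFieldFullC E (M * q)) : LaurentSeries E) ∈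
        gaussRing (algebraMap A E) r := Subring.sub_mem _ hbG hcG
    refine ⟨hmem, ?_⟩
    have e : (⟨_, hmem⟩ : gaussRing (algebraMap A E) r) =
        ⟨_, hbG⟩ - (⟨_, hcG⟩ : gaussRing (algebraMap A E) r) := Subtype.ext rfl
    rw [e, map_sub, sub_eq_zero]
    have h1 := nodesFrobChartRed_apply r hB.ne_zero hB.not_unit hB.ker hB.map_pi
      (nodesFrob_full_le (M * q)) (nodesInstIncl E M q t) (nodesInst_ht' r M q t ht) ⟨b, hb⟩ hbG
    have h2 := nodesFrobChartRed_apply r hB.ne_zero hB.not_unit hB.ker hB.map_pi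
      (nodesFrob_full_le (M * q)) (nodesInstIncl E M q t) (nodesInst_ht' r M q t ht)
      (nodesPhi A M q t c) hcG
    rw [← h1, ← h2]
    exact hc.symm

/-- **`StbFrobVal` on a chart of `F_{Mq}(E)`, from the inputs of `nodes_modular_chart`.** -/
theorem stb_frobVal_modular [Fact q.Prime] [CharP k q]
    (s : E ≃+* E) (ψA ψA' : A →+* A) (θ : k →+* k)
    (hψ : ∀ a, s (algebraMap A E a) = algebraMap A E (ψA a))
    (hψ' : ∀ a, s.symm (algebraMap A E a) = algebraMap A E (ψA' a))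
    (hθ : ∀ a, r (ψA' a) = θ (r a)) (hθq : ∀ x, θ x ^ q = x)
    (t : modularFunctionFieldFullC E M)
    (ht : (t : LaurentSeries E) ∈ gaussRing (algebraMap A E) r)
    (hτ : coeffMap (s : E →+* E) (t : LaurentSeries E) = (t : LaurentSeries E))
    (hwt : (((atkinLehner E ιC hq hqM).toAlgHom (nodesInstIncl E M q t) :
      modularFunctionFieldFullC E (M * q)) : LaurentSeries E) ∈ gaussRing (algebraMap A E) r)
    [IsDomain (integralClosure (Algebra.adjoin A {t}) (modularFunctionFieldFullC E M) ⧸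
      Ideal.span {algebraMap A
        (integralClosure (Algebra.adjoin A {t}) (modularFunctionFieldFullC E M)) π})]
    [IsIntegrallyClosed
      (integralClosure (Algebra.adjoin A {t}) (modularFunctionFieldFullC E M) ⧸
      Ideal.span {algebraMap A
        (integralClosure (Algebra.adjoin A {t}) (modularFunctionFieldFullC E M)) π})]
    (hd : NodesHomData (nodesPhi A M q t)
      (algebraMap A (integralClosure (Algebra.adjoin A {t}) (modularFunctionFieldFullC E M)) π)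
      (nodesFrobChartRed r hB.ne_zero hB.not_unit hB.ker hB.map_pi (nodesFrob_full_le (M * q))
        (nodesInstIncl E M q t) (nodesInst_ht' r M q t ht))
      (nodesSwapRho₀ r hB.ne_zero hB.not_unit hB.ker hB.map_pi (nodesFrob_full_le (M * q))
        (atkinLehner E ιC hq hqM).toAlgHom (nodesInstIncl E M q t) hwt) q)
    (hwB : ∀ b : modularFunctionFieldFullC E (M * q),
      IsIntegral (Algebra.adjoin A {nodesInstIncl E M q t}) b →
      ∃ e : modularFunctionFieldFullC E (M * q),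
        IsIntegral (Algebra.adjoin A {nodesInstIncl E M q t}) e ∧
        e - 1 ∈ (stbVinf hB (M * q)).nonunits ∧
        IsIntegral (Algebra.adjoin A {nodesInstIncl E M q t})
          (e * atkinLehner E ιC hq hqM b)) :
    StbFrobVal
      ((integralClosure (Algebra.adjoin A {nodesInstIncl E M q t})
        (modularFunctionFieldFullC E (M * q))).restrictScalars A).toSubring
      (stbVinf hB (M * q)) (stbV0 hB ιC hq hqM) (stbAtk ιC hq hqM) (mgRingAut (M * q) s) q :=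
  stb_frobVal_chart hB ιC hq hqM s ψA ψA' θ hψ hψ' hθ hθq (nodesInstIncl E M q t)
    (nodesInst_ht' r M q t ht) hwt (by rw [nodesInstIncl_coe]; exact hτ) hwB
    (fun b hb => stb_hsurj_modular hB (atkinLehner E ιC hq hqM).toAlgHom t ht hwt hd b hb)

end Modular

end Fermat.Agent.STB

end
end ZBSTB_004_2

/-! ### bundled: `Fermat.Agent.STB.FrobChartJ` -/
section ZBSTB_004_3

/-!
# STB-X (`FrobFix`), part 2e: `StbFrobVal` on the charts `j`, `1/j` of `F_{Mq}(K₀)`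

* `stb_hwB_J`, `stb_hwB_Jinv` : the input `hwB` of `stb_frobVal_chart` on the charts `j` (`e = 1`)
  and `1/j` (`e = ℓ(1/j) ^ N`, `ℓ ≡ 1 mod q`);
* `stb_gaussBase_of_vtBase`, `stbVinf_eq_vtInf`, `stbV0_eq_vtFam` : the Gauss valuation rings of
  `FrobChart.lean` are the vertical valuation rings `vtFam` of MG-8 (`UNIP/MGVert.lean`);
* `StbFrobVal.congr_val` : transport along equalities of the valuation rings;
* **`stb_frobVal_J`**, **`stb_frobVal_Jinv`** : `StbFrobVal (chart) (vtFam true) (vtFam false) w_q Ψ q`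
  for the charts `j`, `1/j` of `F_{Mq}(K₀)`, in the setting of `NodesFinalFull.lean`
  (`A₀` a discrete valuation ring with fraction field `K₀ ⊆ ℚ̄`, the data of `tsHyp_jline`).
-/

set_option autoImplicit false
set_option linter.style.haveILetI false
set_option linter.unusedSectionVars false
set_option linter.unusedVariables false
set_option linter.style.longLine false
set_option synthInstance.maxHeartbeats 400000
set_option maxHeartbeats 1000000

noncomputable section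

namespace Fermat.Agent.STB

open ModularCurve Polynomial IntermediateField Fermat.Agent.INJ Fermat.Agent.AL Fermat.Agent.UNIP

section Transport

variable {F : Type*} [Field F]

/-- transport of `StbFrobVal` along equalities of the two valuation rings -/
theorem StbFrobVal.congr_val {B : Subring F} {Vinf V0 Vinf' V0' : ValuationSubring F}
    {w Ψ : F ≃+* F} {q : ℕ} (h : StbFrobVal B Vinf V0 w Ψ q) (h1 : Vinf = Vinf') (h2 : V0 = V0') :
    StbFrobVal B Vinf' V0' w Ψ q := by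
  subst h1 h2
  exact h

end Transport

section Base

variable {A E k : Type*} [CommRing A] [IsDomain A] [WfDvdMonoid A] [Field E] [Algebra A E]
  [IsFractionRing A E] [Field k] {r : A →+* k} {π : A}

/-- a base of MG-8 is a Gauss base of U5 -/
theorem stb_gaussBase_of_vtBase (hV : VtBase (algebraMap A E) r π) : GaussBase r π where
  ne_zero := hV.ne
  not_unit := fun h => by
    have h1 : IsUnit (r π) := h.map r
    rw [hV.rπ] at h1
    exact not_isUnit_zero h1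
  ker := hV.ker
  map_pi := hV.rπ

theorem stbVinf_eq_vtInf (hB : GaussBase r π) (hV : VtBase (algebraMap A E) r π) (N : ℕ)
    [NeZero N] : stbVinf hB N = vtInf hV N :=
  SetLike.ext fun _ => Iff.rfl

variable (ιC : E →+* ℂ) {q M : ℕ} [NeZero q] [NeZero M] [NeZero (M * q)] (hq : q.Prime)
  (hqM : ¬ q ∣ M)
  [Algebra A (modularFunctionFieldFullC E (M * q))]
  [IsScalarTower A E (modularFunctionFieldFullC E (M * q))]

theorem stbVinf_eq_vtFam (hB : GaussBase r π) (hV : VtBase (algebraMap A E) r π) :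
    stbVinf hB (M * q) = vtFam hV ιC hq hqM true :=
  SetLike.ext fun _ => Iff.rfl

theorem stbV0_eq_vtFam (hB : GaussBase r π) (hV : VtBase (algebraMap A E) r π) :
    stbV0 hB ιC hq hqM = vtFam hV ιC hq hqM false :=
  SetLike.ext fun _ => Iff.rfl

/-- **`hwB` on the chart `j`**: `w_q` preserves the chart. -/
theorem stb_hwB_J (hB : GaussBase r π) (b : modularFunctionFieldFullC E (M * q))
    (hb : IsIntegral (Algebra.adjoin A {nodesFrobJ E M q}) b) :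
    ∃ e : modularFunctionFieldFullC E (M * q),
      IsIntegral (Algebra.adjoin A {nodesFrobJ E M q}) e ∧
      e - 1 ∈ (stbVinf hB (M * q)).nonunits ∧
      IsIntegral (Algebra.adjoin A {nodesFrobJ E M q}) (e * atkinLehner E ιC hq hqM b) := by
  refine ⟨1, isIntegral_one, ?_, ?_⟩
  · rw [sub_self, ValuationSubring.mem_nonunits_iff, map_zero]
    exact zero_lt_one
  · rw [one_mul]
    exact nodesSwap_chartJ ιC hq hqM hb

/-- **`hwB` on the chart `1/j`**: `e = L ^ N`, `L = ℓ(1/j) ≡ 1`. -/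
theorem stb_hwB_Jinv [CharP k q] (hB : GaussBase r π) (b : modularFunctionFieldFullC E (M * q))
    (hb : IsIntegral (Algebra.adjoin A {(nodesFrobJ E M q)⁻¹}) b) :
    ∃ e : modularFunctionFieldFullC E (M * q),
      IsIntegral (Algebra.adjoin A {(nodesFrobJ E M q)⁻¹}) e ∧
      e - 1 ∈ (stbVinf hB (M * q)).nonunits ∧
      IsIntegral (Algebra.adjoin A {(nodesFrobJ E M q)⁻¹}) (e * atkinLehner E ιC hq hqM b) := by
  obtain ⟨N, hN⟩ := nodesSwap_chartInv (A := A) (E := E) (M := M) (q := q) ιC hq hqM hb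
  have hLG := nodesSwapL_mem (A := A) (E := E) (M := M) (q := q) r hq
  refine ⟨nodesSwapL E M q hq ^ N,
    (nodesSwap_L_isIntegral (A := A) (E := E) (M := M) (q := q) hq).pow N, ?_, hN⟩
  rw [mem_nonunits_stbVinf]
  have hmem : ((nodesSwapL E M q hq ^ N - 1 : modularFunctionFieldFullC E (M * q)) :
      LaurentSeries E) ∈ gaussRing (algebraMap A E) r :=
    Subring.sub_mem _ (Subring.pow_mem _ hLG N) (Subring.one_mem _)
  refine ⟨hmem, ?_⟩
  have e : (⟨_, hmem⟩ : gaussRing (algebraMap A E) r) =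
      (⟨_, hLG⟩ : gaussRing (algebraMap A E) r) ^ N - 1 := Subtype.ext rfl
  rw [e, map_sub, map_pow, map_one,
    nodesSwap_gaussRed_L (A := A) (E := E) (M := M) (q := q) r hq hLG, one_pow, sub_self]

end Base

section JCharts

variable (K₀ : IntermediateField ℚ NfQb) {A₀ : Type} [CommRing A₀] [IsDomain A₀]
  [IsDiscreteValuationRing A₀] [Algebra A₀ K₀] [IsFractionRing A₀ K₀]
  {k : Type*} [Field k] {r : A₀ →+* k} {π : A₀} (ιC : K₀ →+* ℂ)
  {q M : ℕ} [NeZero q] [NeZero M] [NeZero (M * q)] (hq : q.Prime) (hqM : ¬ q ∣ M)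
  [Algebra A₀ (modularFunctionFieldFullC K₀ M)]
  [IsScalarTower A₀ K₀ (modularFunctionFieldFullC K₀ M)]
  [Algebra A₀ (modularFunctionFieldFullC K₀ (M * q))]
  [IsScalarTower A₀ K₀ (modularFunctionFieldFullC K₀ (M * q))]

theorem stb_incl_J : nodesInstIncl K₀ M q (bgJ K₀ M) = bgJ K₀ (M * q) :=
  Subtype.ext (nodesInstIncl_coe M q (bgJ K₀ M))

theorem stb_incl_Jinv : nodesInstIncl K₀ M q (bgJ K₀ M)⁻¹ = (bgJ K₀ (M * q))⁻¹ := by
  rw [map_inv₀, stb_incl_J]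

theorem stb_bgJ_eq : bgJ K₀ (M * q) = nodesFrobJ K₀ M q := Subtype.ext rfl

/-- **`StbFrobVal` on the chart `j` of `F_{Mq}(K₀)`**; `Ψ` the coefficientwise action of a
Frobenius lift `s` of `K₀` (`ψA`, `ψA'` the restrictions of `s`, `s⁻¹` to `A₀`, `θ = Frob⁻¹`). -/
theorem stb_frobVal_J [Fact q.Prime] [CharP k q] [PerfectRing k q]
    (hV : VtBase (algebraMap A₀ K₀) r π) (hπ : Irreducible π)
    (e : ℕ) (h6 : 6 ∣ e) (hM : M ∣ e) (he : IsUnit (e : A₀))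
    (hζ : ∃ ζ : A₀, IsPrimitiveRoot ζ e)
    (s : K₀ ≃+* K₀) (ψA ψA' : A₀ →+* A₀) (θ : k →+* k)
    (hψ : ∀ a, s (algebraMap A₀ K₀ a) = algebraMap A₀ K₀ (ψA a))
    (hψ' : ∀ a, s.symm (algebraMap A₀ K₀ a) = algebraMap A₀ K₀ (ψA' a))
    (hθ : ∀ a, r (ψA' a) = θ (r a)) (hθq : ∀ x, θ x ^ q = x) :
    StbFrobVal
      ((integralClosure (Algebra.adjoin A₀ {bgJ K₀ (M * q)})
        (modularFunctionFieldFullC K₀ (M * q))).restrictScalars A₀).toSubring
      (vtFam hV ιC hq hqM true) (vtFam hV ιC hq hqM false) (stbAtk ιC hq hqM)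
      (mgRingAut (M * q) s) q := by
  have hB : GaussBase r π := stb_gaussBase_of_vtBase hV
  have hts := RegInst.tsHyp_jline K₀ M r hπ hV.ker hV.rπ q e h6 hM he hζ
  haveI := hts.isDomain
  haveI := hts.isIntegrallyClosed
  have hd := nodesFinal_hd_J K₀ r ιC hq hqM hπ hV.ker hV.rπ e h6 hM he hζ
  have key := stb_frobVal_modular hB ιC hq hqM s ψA ψA' θ hψ hψ' hθ hθq (bgJ K₀ M)
    (nodesFinal_J_mem K₀ r) (nodesFinal_J_fixed K₀ (s : K₀ →+* K₀))
    (nodesFinal_wJ_mem K₀ r ιC hq hqM) hd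
    (by
      rw [nodesFinal_incl_J]
      exact fun b hb => stb_hwB_J ιC hq hqM hB b hb)
  rw [stb_incl_J] at key
  exact key.congr_val (stbVinf_eq_vtFam ιC hq hqM hB hV) (stbV0_eq_vtFam ιC hq hqM hB hV)

/-- **`StbFrobVal` on the chart `1/j` of `F_{Mq}(K₀)`**. -/
theorem stb_frobVal_Jinv [Fact q.Prime] [CharP k q] [PerfectRing k q]
    (hV : VtBase (algebraMap A₀ K₀) r π) (hπ : Irreducible π)
    (e : ℕ) (h6 : 6 ∣ e) (hM : M ∣ e) (he : IsUnit (e : A₀))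
    (hζ : ∃ ζ : A₀, IsPrimitiveRoot ζ e)
    (s : K₀ ≃+* K₀) (ψA ψA' : A₀ →+* A₀) (θ : k →+* k)
    (hψ : ∀ a, s (algebraMap A₀ K₀ a) = algebraMap A₀ K₀ (ψA a))
    (hψ' : ∀ a, s.symm (algebraMap A₀ K₀ a) = algebraMap A₀ K₀ (ψA' a))
    (hθ : ∀ a, r (ψA' a) = θ (r a)) (hθq : ∀ x, θ x ^ q = x) :
    StbFrobVal
      ((integralClosure (Algebra.adjoin A₀ {(bgJ K₀ (M * q))⁻¹})
        (modularFunctionFieldFullC K₀ (M * q))).restrictScalars A₀).toSubring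
      (vtFam hV ιC hq hqM true) (vtFam hV ιC hq hqM false) (stbAtk ιC hq hqM)
      (mgRingAut (M * q) s) q := by
  have hB : GaussBase r π := stb_gaussBase_of_vtBase hV
  have hts := RegInst.tsHyp_jline K₀ M r hπ hV.ker hV.rπ q e h6 hM he hζ
  haveI := hts.inv_isDomain
  haveI := hts.inv_isIntegrallyClosed
  have hd := nodesFinal_hd_Jinv K₀ r ιC hq hqM hπ hV.ker hV.rπ e h6 hM he hζ
  have key := stb_frobVal_modular hB ιC hq hqM s ψA ψA' θ hψ hψ' hθ hθq (bgJ K₀ M)⁻¹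
    (nodesFinal_Jinv_mem K₀ r) (nodesFinal_Jinv_fixed K₀ (s : K₀ →+* K₀))
    (nodesFinal_wJinv_mem K₀ r ιC hq hqM) hd
    (by
      rw [stb_incl_Jinv, stb_bgJ_eq]
      exact fun b hb => stb_hwB_Jinv ιC hq hqM hB b hb)
  rw [stb_incl_Jinv] at key
  exact key.congr_val (stbVinf_eq_vtFam ιC hq hqM hB hV) (stbV0_eq_vtFam ιC hq hqM hB hV)

end JCharts

end Fermat.Agent.STB

end
end ZBSTB_004_3

/-! ### bundled: `Fermat.Agent.STB.FrobChartReg` -/
section ZBSTB_004_4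

/-!
# STB-X (`FrobFix`), part 2f: `StbFrobVal` on the charts `j`, `1/j`, level-`M` input `RegChart`

Same statements as `stb_frobVal_J`, `stb_frobVal_Jinv` (`FrobChartJ.lean`), with the data of
`RegInst.tsHyp_jline` (which force `q ≥ 5`) replaced by ONE hypothesis
`h : RegChart (E := K₀) π (bgJ K₀ M)` resp. `h : RegChart (E := K₀) π (bgJ K₀ M)⁻¹`
(helper20, `UNIP/RegTransferMod.lean`: `regChart_J`, `regChart_h2_J`, `regChart_h3_J`, … — so that
`q ∈ {2, 3}` are covered), as in `UNIP/NodesFinalReg.lean`.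

* **`stb_frobVal_reg_J`**, **`stb_frobVal_reg_Jinv`**.
-/

set_option autoImplicit false
set_option linter.style.haveILetI false
set_option linter.unusedSectionVars false
set_option linter.unusedVariables false
set_option linter.style.longLine false
set_option synthInstance.maxHeartbeats 400000
set_option maxHeartbeats 1000000

noncomputable section

namespace Fermat.Agent.STB

open ModularCurve Polynomial IntermediateField Fermat.Agent.INJ Fermat.Agent.AL Fermat.Agent.UNIP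

section JCharts

variable (K₀ : IntermediateField ℚ NfQb) {A₀ : Type} [CommRing A₀] [IsDomain A₀]
  [IsDiscreteValuationRing A₀] [Algebra A₀ K₀] [IsFractionRing A₀ K₀]
  {k : Type*} [Field k] {r : A₀ →+* k} {π : A₀} (ιC : K₀ →+* ℂ)
  {q M : ℕ} [NeZero q] [NeZero M] [NeZero (M * q)] (hq : q.Prime) (hqM : ¬ q ∣ M)
  [Algebra A₀ (modularFunctionFieldFullC K₀ M)]
  [IsScalarTower A₀ K₀ (modularFunctionFieldFullC K₀ M)]
  [Algebra A₀ (modularFunctionFieldFullC K₀ (M * q))]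
  [IsScalarTower A₀ K₀ (modularFunctionFieldFullC K₀ (M * q))]

/-- **`StbFrobVal` on the chart `j` of `F_{Mq}(K₀)`** (level-`M` input: `RegChart`); `Ψ` the
coefficientwise action of a Frobenius lift `s` of `K₀` (`ψA`, `ψA'` the restrictions of `s`,
`s⁻¹` to `A₀`, `θ = Frob⁻¹`). -/
theorem stb_frobVal_reg_J [Fact q.Prime] [CharP k q]
    (hV : VtBase (algebraMap A₀ K₀) r π) (hπ : Irreducible π)
    (h : RegChart (E := K₀) π (bgJ K₀ M))
    (s : K₀ ≃+* K₀) (ψA ψA' : A₀ →+* A₀) (θ : k →+* k)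
    (hψ : ∀ a, s (algebraMap A₀ K₀ a) = algebraMap A₀ K₀ (ψA a))
    (hψ' : ∀ a, s.symm (algebraMap A₀ K₀ a) = algebraMap A₀ K₀ (ψA' a))
    (hθ : ∀ a, r (ψA' a) = θ (r a)) (hθq : ∀ x, θ x ^ q = x) :
    StbFrobVal
      ((integralClosure (Algebra.adjoin A₀ {bgJ K₀ (M * q)})
        (modularFunctionFieldFullC K₀ (M * q))).restrictScalars A₀).toSubring
      (vtFam hV ιC hq hqM true) (vtFam hV ιC hq hqM false) (stbAtk ιC hq hqM)
      (mgRingAut (M * q) s) q := by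
  have hB : GaussBase r π := stb_gaussBase_of_vtBase hV
  haveI := h.isDomain
  haveI := h.isIntegrallyClosed
  have hd := nodesReg_hd_J K₀ r ιC hq hqM hπ hV.ker hV.rπ h
  have key := stb_frobVal_modular hB ιC hq hqM s ψA ψA' θ hψ hψ' hθ hθq (bgJ K₀ M)
    (nodesFinal_J_mem K₀ r) (nodesFinal_J_fixed K₀ (s : K₀ →+* K₀))
    (nodesFinal_wJ_mem K₀ r ιC hq hqM) hd
    (by
      rw [nodesFinal_incl_J]
      exact fun b hb => stb_hwB_J ιC hq hqM hB b hb)
  rw [stb_incl_J] at key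
  exact key.congr_val (stbVinf_eq_vtFam ιC hq hqM hB hV) (stbV0_eq_vtFam ιC hq hqM hB hV)

/-- **`StbFrobVal` on the chart `1/j` of `F_{Mq}(K₀)`** (level-`M` input: `RegChart`). -/
theorem stb_frobVal_reg_Jinv [Fact q.Prime] [CharP k q]
    (hV : VtBase (algebraMap A₀ K₀) r π) (hπ : Irreducible π)
    (h : RegChart (E := K₀) π (bgJ K₀ M)⁻¹)
    (s : K₀ ≃+* K₀) (ψA ψA' : A₀ →+* A₀) (θ : k →+* k)
    (hψ : ∀ a, s (algebraMap A₀ K₀ a) = algebraMap A₀ K₀ (ψA a))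
    (hψ' : ∀ a, s.symm (algebraMap A₀ K₀ a) = algebraMap A₀ K₀ (ψA' a))
    (hθ : ∀ a, r (ψA' a) = θ (r a)) (hθq : ∀ x, θ x ^ q = x) :
    StbFrobVal
      ((integralClosure (Algebra.adjoin A₀ {(bgJ K₀ (M * q))⁻¹})
        (modularFunctionFieldFullC K₀ (M * q))).restrictScalars A₀).toSubring
      (vtFam hV ιC hq hqM true) (vtFam hV ιC hq hqM false) (stbAtk ιC hq hqM)
      (mgRingAut (M * q) s) q := by
  have hB : GaussBase r π := stb_gaussBase_of_vtBase hV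
  haveI := h.isDomain
  haveI := h.isIntegrallyClosed
  have hd := nodesReg_hd_Jinv K₀ r ιC hq hqM hπ hV.ker hV.rπ h
  have key := stb_frobVal_modular hB ιC hq hqM s ψA ψA' θ hψ hψ' hθ hθq (bgJ K₀ M)⁻¹
    (nodesFinal_Jinv_mem K₀ r) (nodesFinal_Jinv_fixed K₀ (s : K₀ →+* K₀))
    (nodesFinal_wJinv_mem K₀ r ιC hq hqM) hd
    (by
      rw [stb_incl_Jinv, stb_bgJ_eq]
      exact fun b hb => stb_hwB_Jinv ιC hq hqM hB b hb)
  rw [stb_incl_Jinv] at key
  exact key.congr_val (stbVinf_eq_vtFam ιC hq hqM hB hV) (stbV0_eq_vtFam ιC hq hqM hB hV)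

end JCharts

end Fermat.Agent.STB

end
end ZBSTB_004_4

/-! ### bundled: `Fermat.Agent.STB.FrobLift` -/
section ZBSTB_004_5

/-!
# STB-X (`FrobFix`), part 2g: the concrete Frobenius lift and the concrete `StbFrobVal`

Setting of `UNIP/MGVertInertia.lean`: `A` a valuation subring of `ℚ̄` over `q`, `K₀ ⊆ ℚ̄` an
intermediate field with `A′ = beta0Ring A K₀ = A ∩ K₀` a discrete valuation ring, uniformizer
`π`; `φ` a Frobenius element at `A` with `φ K₀ ⊆ K₀`; `V = mgvV hπ ιC hq hqM`.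

* `stbLiftA hφF hφ : A′ ≃+* A′` (restriction of `φ`), `stbLiftTheta hφF hφ : k′ →+* k′` (the map
  induced by `φ⁻¹` on the residue field `k′` of `A′`), with `stbLift_hψ`, `stbLift_hψ'`,
  `stbLift_hθ`, `stbLift_hθq` (the Frobenius-lift hypotheses of `stb_frobVal_chart`,
  `nodesReg_chart_J`, … for `s = mgaRestrictEquiv K₀ φ hφ`, `r = residue`);
* **`stb_frobVal_conc_J`**, **`stb_frobVal_conc_Jinv`** : `StbFrobVal` for the charts
  `zchClosure {j}`, `zchClosure {j⁻¹}` of `F_{Mq}(K₀)` over `A′`, `V_∞ = mgvV … true`,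
  `V_0 = mgvV … false`, `w = w_q`, `Ψ = mgRingAut (M * q) (mgaRestrictEquiv K₀ φ hφ)`
  (`= mgAct K₀ (M * q) φ hφ` by `rfl`), the only input being `RegChart π (bgJ K₀ M)` resp.
  `RegChart π (bgJ K₀ M)⁻¹`.
-/

set_option autoImplicit false
set_option linter.style.haveILetI false
set_option linter.unusedSectionVars false
set_option linter.unusedVariables false
set_option linter.style.longLine false
set_option synthInstance.maxHeartbeats 400000
set_option maxHeartbeats 1000000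

noncomputable section

namespace Fermat.Agent.STB

open ModularCurve Polynomial IntermediateField Fermat.Agent.INJ Fermat.Agent.AL Fermat.Agent.UNIP
open Fermat.Agent.ES Fermat.Agent.ES.G2

section Lift

variable {A : ValuationSubring Qb} {K₀ : IntermediateField ℚ Qb} {q : ℕ}
  {φ : Qb ≃ₐ[ℚ] Qb}

/-- the restriction of the Frobenius element `φ` to `A′ = A ∩ K₀` -/
def stbLiftA (hφF : A.IsFrobeniusAt φ q) (hφ : ∀ x ∈ K₀, φ x ∈ K₀) :
    ↥(beta0Ring A K₀) ≃+* ↥(beta0Ring A K₀) :=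
  stbRingEquiv K₀ hφF.mem_decompositionSubgroup hφ

theorem stbLift_hψ (hφF : A.IsFrobeniusAt φ q) (hφ : ∀ x ∈ K₀, φ x ∈ K₀)
    (a : ↥(beta0Ring A K₀)) :
    mgaRestrictEquiv K₀ φ hφ (algebraMap ↥(beta0Ring A K₀) ↥K₀ a) =
      algebraMap ↥(beta0Ring A K₀) ↥K₀ ((stbLiftA hφF hφ : ↥(beta0Ring A K₀) →+* _) a) := rfl

theorem stbLift_hψ' (hφF : A.IsFrobeniusAt φ q) (hφ : ∀ x ∈ K₀, φ x ∈ K₀)
    (a : ↥(beta0Ring A K₀)) :
    (mgaRestrictEquiv K₀ φ hφ).symm (algebraMap ↥(beta0Ring A K₀) ↥K₀ a) =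
      algebraMap ↥(beta0Ring A K₀) ↥K₀
        (((stbLiftA hφF hφ).symm : ↥(beta0Ring A K₀) →+* _) a) := by
  rw [RingEquiv.symm_apply_eq]
  have h := stbLift_hψ hφF hφ ((stbLiftA hφF hφ).symm a)
  exact (h.trans (congrArg (algebraMap ↥(beta0Ring A K₀) ↥K₀)
    ((stbLiftA hφF hφ).apply_symm_apply a))).symm

/-- `residue (φ b) = (residue b) ^ q` -/
theorem stbLift_residue [IsDiscreteValuationRing ↥(beta0Ring A K₀)]
    (hφF : A.IsFrobeniusAt φ q) (hφ : ∀ x ∈ K₀, φ x ∈ K₀) (b : ↥(beta0Ring A K₀)) :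
    IsLocalRing.residue ↥(beta0Ring A K₀) (stbLiftA hφF hφ b) =
      IsLocalRing.residue ↥(beta0Ring A K₀) b ^ q := by
  rw [← map_pow, ← sub_eq_zero, ← map_sub, IsLocalRing.residue_eq_zero_iff,
    beta0Ring_mem_maximalIdeal_iff]
  exact stb_frob_congr hφF b.2

instance stbLift_isLocalHom (hφF : A.IsFrobeniusAt φ q) (hφ : ∀ x ∈ K₀, φ x ∈ K₀) :
    IsLocalHom (((stbLiftA hφF hφ).symm : ↥(beta0Ring A K₀) ≃+* ↥(beta0Ring A K₀)) :
      ↥(beta0Ring A K₀) →+* ↥(beta0Ring A K₀)) :=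
  ⟨fun a ha => by
    have h := ha.map (stbLiftA hφF hφ : ↥(beta0Ring A K₀) →+* ↥(beta0Ring A K₀))
    have e : (stbLiftA hφF hφ : ↥(beta0Ring A K₀) →+* ↥(beta0Ring A K₀))
        ((((stbLiftA hφF hφ).symm : ↥(beta0Ring A K₀) ≃+* ↥(beta0Ring A K₀)) :
          ↥(beta0Ring A K₀) →+* ↥(beta0Ring A K₀)) a) = a :=
      (stbLiftA hφF hφ).apply_symm_apply a
    rwa [e] at h⟩

/-- the map induced by `φ⁻¹` on the residue field of `A′` (the inverse of the Frobenius) -/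
def stbLiftTheta (hφF : A.IsFrobeniusAt φ q) (hφ : ∀ x ∈ K₀, φ x ∈ K₀) :
    IsLocalRing.ResidueField ↥(beta0Ring A K₀) →+* IsLocalRing.ResidueField ↥(beta0Ring A K₀) :=
  IsLocalRing.ResidueField.map
    (((stbLiftA hφF hφ).symm : ↥(beta0Ring A K₀) ≃+* ↥(beta0Ring A K₀)) :
      ↥(beta0Ring A K₀) →+* ↥(beta0Ring A K₀))

theorem stbLift_hθ (hφF : A.IsFrobeniusAt φ q) (hφ : ∀ x ∈ K₀, φ x ∈ K₀)
    (a : ↥(beta0Ring A K₀)) :
    IsLocalRing.residue ↥(beta0Ring A K₀)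
        (((stbLiftA hφF hφ).symm : ↥(beta0Ring A K₀) →+* _) a) =
      stbLiftTheta hφF hφ (IsLocalRing.residue ↥(beta0Ring A K₀) a) := rfl

theorem stbLift_hθq [IsDiscreteValuationRing ↥(beta0Ring A K₀)]
    (hφF : A.IsFrobeniusAt φ q) (hφ : ∀ x ∈ K₀, φ x ∈ K₀)
    (x : IsLocalRing.ResidueField ↥(beta0Ring A K₀)) :
    stbLiftTheta hφF hφ x ^ q = x := by
  obtain ⟨a, rfl⟩ := IsLocalRing.residue_surjective x
  rw [← stbLift_hθ, ← stbLift_residue hφF hφ]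
  congr 1
  exact (stbLiftA hφF hφ).apply_symm_apply a

end Lift

section Concrete

variable {A : ValuationSubring Qb} {K₀ : IntermediateField ℚ Qb}
  [IsDiscreteValuationRing ↥(beta0Ring A K₀)] {π : ↥(beta0Ring A K₀)} (hπ : Irreducible π)
  (ιC : ↥K₀ →+* ℂ) {q M : ℕ} [NeZero q] [NeZero M] [NeZero (M * q)]
  (hq : q.Prime) (hqM : ¬ q ∣ M)

/-- **The concrete `StbFrobVal`, chart `j`** of `F_{Mq}(K₀)` over `A′ = A ∩ K₀`. -/
theorem stb_frobVal_conc_J (hA : A.LiesOverPrime q) {φ : Qb ≃ₐ[ℚ] Qb}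
    (hφF : A.IsFrobeniusAt φ q) (hφ : ∀ x ∈ K₀, φ x ∈ K₀)
    (h : RegChart (E := ↥K₀) π (bgJ ↥K₀ M)) :
    StbFrobVal
      (zchClosure (A₀ := ↥(beta0Ring A K₀))
        ({bgJ ↥K₀ (M * q)} : Set ↥(modularFunctionFieldFullC ↥K₀ (M * q)))).toSubring
      (mgvV hπ ιC hq hqM true) (mgvV hπ ιC hq hqM false) (stbAtk ιC hq hqM)
      (mgRingAut (M * q) (mgaRestrictEquiv K₀ φ hφ)) q := by
  haveI : Fact q.Prime := ⟨hq⟩
  haveI : CharP (IsLocalRing.ResidueField ↥(beta0Ring A K₀)) q := frobLift_charP A K₀ hq hA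
  exact stb_frobVal_reg_J K₀ ιC hq hqM (vtBase_residue hπ) hπ h (mgaRestrictEquiv K₀ φ hφ)
    (stbLiftA hφF hφ : ↥(beta0Ring A K₀) →+* ↥(beta0Ring A K₀))
    ((stbLiftA hφF hφ).symm : ↥(beta0Ring A K₀) →+* ↥(beta0Ring A K₀))
    (stbLiftTheta hφF hφ) (stbLift_hψ hφF hφ) (stbLift_hψ' hφF hφ) (stbLift_hθ hφF hφ)
    (stbLift_hθq hφF hφ)

/-- **The concrete `StbFrobVal`, chart `1/j`** of `F_{Mq}(K₀)` over `A′ = A ∩ K₀`. -/
theorem stb_frobVal_conc_Jinv (hA : A.LiesOverPrime q) {φ : Qb ≃ₐ[ℚ] Qb}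
    (hφF : A.IsFrobeniusAt φ q) (hφ : ∀ x ∈ K₀, φ x ∈ K₀)
    (h : RegChart (E := ↥K₀) π (bgJ ↥K₀ M)⁻¹) :
    StbFrobVal
      (zchClosure (A₀ := ↥(beta0Ring A K₀))
        ({(bgJ ↥K₀ (M * q))⁻¹} : Set ↥(modularFunctionFieldFullC ↥K₀ (M * q)))).toSubring
      (mgvV hπ ιC hq hqM true) (mgvV hπ ιC hq hqM false) (stbAtk ιC hq hqM)
      (mgRingAut (M * q) (mgaRestrictEquiv K₀ φ hφ)) q := by
  haveI : Fact q.Prime := ⟨hq⟩
  haveI : CharP (IsLocalRing.ResidueField ↥(beta0Ring A K₀)) q := frobLift_charP A K₀ hq hA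
  exact stb_frobVal_reg_Jinv K₀ ιC hq hqM (vtBase_residue hπ) hπ h (mgaRestrictEquiv K₀ φ hφ)
    (stbLiftA hφF hφ : ↥(beta0Ring A K₀) →+* ↥(beta0Ring A K₀))
    ((stbLiftA hφF hφ).symm : ↥(beta0Ring A K₀) →+* ↥(beta0Ring A K₀))
    (stbLiftTheta hφF hφ) (stbLift_hψ hφF hφ) (stbLift_hψ' hφF hφ) (stbLift_hθ hφF hφ)
    (stbLift_hθq hφF hφ)

end Concrete

end Fermat.Agent.STB

end
end ZBSTB_004_5

/-! ### bundled: `Fermat.Agent.STB.FrobReg` -/
section ZBSTB_004_6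

/-!
# STB-X (`FrobFix`), part 2h: `RegChart` over the concrete (possibly ramified) base, and the
unconditional concrete `StbFrobVal`

`A` a valuation subring of `ℚ̄` over `q`, `K₀ ⊇ beta0Field A` with `A′ = A ∩ K₀` a discrete
valuation ring (e.g. `K₀ = mgcE A K₁`), `M` prime to `q`, and `3 ∣ M` if `q = 2`, `2 ∣ M` if
`q = 3`.

* `stb_regChart_conc_J`, `stb_regChart_conc_Jinv` : `RegChart π (bgJ K₀ M)`,
  `RegChart π (bgJ K₀ M)⁻¹` (the level-`M` charts are regular along their special fibre) from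
  `regChart_J`, `regChart_h2_J`, `regChart_h3_J`, … of `UNIP/RegTransferMod.lean`;
* **`stb_frobVal_all_J`**, **`stb_frobVal_all_Jinv`** : the concrete `StbFrobVal` of
  `FrobLift.lean` without the hypothesis `RegChart`.
-/

set_option autoImplicit false
set_option linter.style.haveILetI false
set_option linter.unusedSectionVars false
set_option linter.unusedVariables false
set_option linter.style.longLine false
set_option synthInstance.maxHeartbeats 400000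
set_option maxHeartbeats 1000000

noncomputable section

namespace Fermat.Agent.STB

open ModularCurve Polynomial IntermediateField Fermat.Agent.INJ Fermat.Agent.AL Fermat.Agent.UNIP
open Fermat.Agent.ES Fermat.Agent.ES.G2

section Reg

variable {A : ValuationSubring Qb} {K₀ : IntermediateField ℚ Qb}
  [IsDiscreteValuationRing ↥(beta0Ring A K₀)] {π : ↥(beta0Ring A K₀)}
  {q : ℕ} (M : ℕ) [NeZero M]

/-- `ker (residue) = (π)` -/
theorem stb_residue_ker (hπ : Irreducible π) (a : ↥(beta0Ring A K₀))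
    (ha : IsLocalRing.residue ↥(beta0Ring A K₀) a = 0) : π ∣ a := by
  rw [IsLocalRing.residue_eq_zero_iff, hπ.maximalIdeal_eq, Ideal.mem_span_singleton] at ha
  exact ha

theorem stb_residue_pi (hπ : Irreducible π) :
    IsLocalRing.residue ↥(beta0Ring A K₀) π = 0 := by
  rw [IsLocalRing.residue_eq_zero_iff, hπ.maximalIdeal_eq, Ideal.mem_span_singleton]

/-- a natural number prime to `q` is a unit at a valuation subring over `q` -/
theorem stb_natCast_not_mem_nonunits {L : Type*} [Field L] (B : ValuationSubring L)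
    (hq : q.Prime) (hB : B.LiesOverPrime q) {e : ℕ} (hqe : ¬ q ∣ e) :
    ((e : ℕ) : L) ∉ B.nonunits := by
  intro h
  have hcop : Nat.Coprime e q := ((Nat.Prime.coprime_iff_not_dvd hq).mpr hqe).symm
  obtain ⟨u, v, huv⟩ := Nat.Coprime.isCoprime hcop
  have h1 : ((u : L) * ((e : ℕ) : L) + (v : L) * (q : L)) = 1 := by
    have := congrArg (fun z : ℤ => (z : L)) huv
    simpa using this
  have hu : (u : L) ∈ B := intCast_mem B u
  have hv : (v : L) ∈ B := intCast_mem B v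
  have h2 : B.valuation ((u : L) * ((e : ℕ) : L) + (v : L) * (q : L)) < 1 := by
    apply Valuation.map_add_lt
    · rw [map_mul]
      calc B.valuation (u : L) * B.valuation ((e : ℕ) : L)
          ≤ 1 * B.valuation ((e : ℕ) : L) :=
            mul_le_mul_left ((B.valuation_le_one_iff _).mpr hu) _
        _ = B.valuation ((e : ℕ) : L) := one_mul _
        _ < 1 := B.mem_nonunits_iff.mp h
    · rw [map_mul]
      calc B.valuation (v : L) * B.valuation (q : L)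
          ≤ 1 * B.valuation (q : L) :=
            mul_le_mul_left ((B.valuation_le_one_iff _).mpr hv) _
        _ = B.valuation (q : L) := one_mul _
        _ < 1 := B.mem_nonunits_iff.mp hB
  rw [h1, map_one] at h2
  exact lt_irrefl _ h2

/-- units and roots of unity of order prime to `q` in `A′` -/
theorem stb_unit_data (hq : q.Prime) (hA : A.LiesOverPrime q) (hE : beta0Field A ≤ K₀)
    {e : ℕ} (he0 : e ≠ 0) (hqe : ¬ q ∣ e) :
    IsUnit ((e : ℕ) : ↥(beta0Ring A K₀)) ∧ ∃ ζ : ↥(beta0Ring A K₀), IsPrimitiveRoot ζ e := by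
  have hM : ((e : ℕ) : Qb) ∉ A.nonunits := stb_natCast_not_mem_nonunits A hq hA hqe
  exact ⟨beta0Ring_hpu hM, beta0Ring_exists_primitiveRoot hE he0 hM⟩

theorem stb_perfect_residue (hq : q.Prime) (hA : A.LiesOverPrime q) (hE : beta0Field A ≤ K₀) :
    PerfectRing (IsLocalRing.ResidueField ↥(beta0Ring A K₀)) q := by
  haveI : CharP (IsLocalRing.ResidueField ↥(beta0Ring A K₀)) q := frobLift_charP A K₀ hq hA
  haveI : ExpChar (IsLocalRing.ResidueField ↥(beta0Ring A K₀)) q := ExpChar.prime hq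
  haveI : IsAlgClosed (IsLocalRing.ResidueField ↥(beta0Ring A K₀)) :=
    stb_isAlgClosed_residue hq hA hE
  infer_instance

theorem stb_not_dvd_six_mul (hq : q.Prime) (hqM : ¬ q ∣ M) (h2 : q ≠ 2) (h3 : q ≠ 3) :
    ¬ q ∣ 6 * M := by
  intro h
  rcases (Nat.Prime.dvd_mul hq).mp h with h6 | hM
  · have h6' : q ∣ 2 * 3 := by simpa using h6
    rcases (Nat.Prime.dvd_mul hq).mp h6' with h | h
    · exact h2 ((Nat.prime_dvd_prime_iff_eq hq Nat.prime_two).mp h)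
    · exact h3 ((Nat.prime_dvd_prime_iff_eq hq Nat.prime_three).mp h)
  · exact hqM hM

/-- **`RegChart` for the chart `j` of level `M`** over `A′`. -/
theorem stb_regChart_conc_J (hq : q.Prime) (hA : A.LiesOverPrime q) (hE : beta0Field A ≤ K₀)
    (hπ : Irreducible π) (hqM : ¬ q ∣ M) (h2 : q = 2 → 3 ∣ M) (h3 : q = 3 → 2 ∣ M) :
    RegChart (E := ↥K₀) π (bgJ ↥K₀ M) := by
  haveI : Fact q.Prime := ⟨hq⟩
  haveI : CharP (IsLocalRing.ResidueField ↥(beta0Ring A K₀)) q := frobLift_charP A K₀ hq hA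
  haveI := stb_perfect_residue (K₀ := K₀) hq hA hE
  have hM0 : M ≠ 0 := NeZero.ne M
  by_cases hq2 : q = 2
  · obtain ⟨he, hζ⟩ := stb_unit_data (K₀ := K₀) hq hA hE hM0 hqM
    exact regChart_h3_J K₀ M (IsLocalRing.residue ↥(beta0Ring A K₀)) (h2 hq2) hπ
      (stb_residue_ker hπ) (stb_residue_pi hπ) q M dvd_rfl he hζ
  by_cases hq3 : q = 3
  · obtain ⟨he, hζ⟩ := stb_unit_data (K₀ := K₀) hq hA hE hM0 hqM
    exact regChart_h2_J K₀ M (IsLocalRing.residue ↥(beta0Ring A K₀)) (h3 hq3) hπ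
      (stb_residue_ker hπ) (stb_residue_pi hπ) q M dvd_rfl he hζ
  · obtain ⟨he, hζ⟩ := stb_unit_data (K₀ := K₀) hq hA hE
      (mul_ne_zero (by norm_num) hM0) (stb_not_dvd_six_mul M hq hqM hq2 hq3)
    exact regChart_J K₀ M (IsLocalRing.residue ↥(beta0Ring A K₀)) hπ
      (stb_residue_ker hπ) (stb_residue_pi hπ) q (6 * M) (dvd_mul_right 6 M)
      (dvd_mul_left M 6) he hζ

/-- **`RegChart` for the chart `1/j` of level `M`** over `A′`. -/
theorem stb_regChart_conc_Jinv (hq : q.Prime) (hA : A.LiesOverPrime q)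
    (hE : beta0Field A ≤ K₀)
    (hπ : Irreducible π) (hqM : ¬ q ∣ M) (h2 : q = 2 → 3 ∣ M) (h3 : q = 3 → 2 ∣ M) :
    RegChart (E := ↥K₀) π (bgJ ↥K₀ M)⁻¹ := by
  haveI : Fact q.Prime := ⟨hq⟩
  haveI : CharP (IsLocalRing.ResidueField ↥(beta0Ring A K₀)) q := frobLift_charP A K₀ hq hA
  haveI := stb_perfect_residue (K₀ := K₀) hq hA hE
  have hM0 : M ≠ 0 := NeZero.ne M
  by_cases hq2 : q = 2
  · obtain ⟨he, hζ⟩ := stb_unit_data (K₀ := K₀) hq hA hE hM0 hqM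
    exact regChart_h3_Jinv K₀ M (IsLocalRing.residue ↥(beta0Ring A K₀)) (h2 hq2) hπ
      (stb_residue_ker hπ) (stb_residue_pi hπ) q M dvd_rfl he hζ
  by_cases hq3 : q = 3
  · obtain ⟨he, hζ⟩ := stb_unit_data (K₀ := K₀) hq hA hE hM0 hqM
    exact regChart_h2_Jinv K₀ M (IsLocalRing.residue ↥(beta0Ring A K₀)) (h3 hq3) hπ
      (stb_residue_ker hπ) (stb_residue_pi hπ) q M dvd_rfl he hζ
  · obtain ⟨he, hζ⟩ := stb_unit_data (K₀ := K₀) hq hA hE
      (mul_ne_zero (by norm_num) hM0) (stb_not_dvd_six_mul M hq hqM hq2 hq3)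
    exact regChart_Jinv K₀ M (IsLocalRing.residue ↥(beta0Ring A K₀)) hπ
      (stb_residue_ker hπ) (stb_residue_pi hπ) q (6 * M) (dvd_mul_right 6 M)
      (dvd_mul_left M 6) he hζ

end Reg

section All

variable {A : ValuationSubring Qb} {K₀ : IntermediateField ℚ Qb}
  [IsDiscreteValuationRing ↥(beta0Ring A K₀)] {π : ↥(beta0Ring A K₀)} (hπ : Irreducible π)
  (ιC : ↥K₀ →+* ℂ) {q M : ℕ} [NeZero q] [NeZero M] [NeZero (M * q)]
  (hq : q.Prime) (hqM : ¬ q ∣ M)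

/-- **The concrete `StbFrobVal`, chart `j`**, all inputs discharged. -/
theorem stb_frobVal_all_J (hA : A.LiesOverPrime q) (hE : beta0Field A ≤ K₀)
    (h2 : q = 2 → 3 ∣ M) (h3 : q = 3 → 2 ∣ M) {φ : Qb ≃ₐ[ℚ] Qb}
    (hφF : A.IsFrobeniusAt φ q) (hφ : ∀ x ∈ K₀, φ x ∈ K₀) :
    StbFrobVal
      (zchClosure (A₀ := ↥(beta0Ring A K₀))
        ({bgJ ↥K₀ (M * q)} : Set ↥(modularFunctionFieldFullC ↥K₀ (M * q)))).toSubring
      (mgvV hπ ιC hq hqM true) (mgvV hπ ιC hq hqM false) (stbAtk ιC hq hqM)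
      (mgRingAut (M * q) (mgaRestrictEquiv K₀ φ hφ)) q :=
  stb_frobVal_conc_J hπ ιC hq hqM hA hφF hφ (stb_regChart_conc_J M hq hA hE hπ hqM h2 h3)

/-- **The concrete `StbFrobVal`, chart `1/j`**, all inputs discharged. -/
theorem stb_frobVal_all_Jinv (hA : A.LiesOverPrime q) (hE : beta0Field A ≤ K₀)
    (h2 : q = 2 → 3 ∣ M) (h3 : q = 3 → 2 ∣ M) {φ : Qb ≃ₐ[ℚ] Qb}
    (hφF : A.IsFrobeniusAt φ q) (hφ : ∀ x ∈ K₀, φ x ∈ K₀) :
    StbFrobVal
      (zchClosure (A₀ := ↥(beta0Ring A K₀))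
        ({(bgJ ↥K₀ (M * q))⁻¹} : Set ↥(modularFunctionFieldFullC ↥K₀ (M * q)))).toSubring
      (mgvV hπ ιC hq hqM true) (mgvV hπ ιC hq hqM false) (stbAtk ιC hq hqM)
      (mgRingAut (M * q) (mgaRestrictEquiv K₀ φ hφ)) q :=
  stb_frobVal_conc_Jinv hπ ιC hq hqM hA hφF hφ
    (stb_regChart_conc_Jinv M hq hA hE hπ hqM h2 h3)

end All

end Fermat.Agent.STB

end
end ZBSTB_004_6

/-! ### bundled: `Fermat.Agent.UNIP.U5Concrete` -/
section ZBSTB_004_7
/-
UNIP / U5-concrete (helper18): the special fibre of the charts `j`, `1/j` of `F_{Mq}(K₀)` over the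
concrete base `A′ = beta0Ring A K₀ = A ∩ K₀` (`K₀ ⊇ beta0Field A = ℚ̄^I`, `A′` a discrete valuation
ring, `π` ANY uniformizer) is nonempty and REDUCED; `q ∤ M`, `(q = 2 → 3 ∣ M)`, `(q = 3 → 2 ∣ M)`.

* `u5c_notUnit_J`, `u5c_reduced_J`, `u5c_notUnit_Jinv`, `u5c_reduced_Jinv` : general `K₀`, `π`;
* `u5c_hπu₁`, `u5c_hred₁`, `u5c_hπu₂`, `u5c_hred₂` : the base `K₀ = beta0Field A`, `π = q`, in the
  EXACT shape of the hypotheses `hπu₁ hred₁ hπu₂ hred₂` of `mgcData_of` (`UNIP/MGData.lean`).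

Inputs: `u5g_*` (`UNIP/U5Red.lean`: generic base, from `RegChart` by `nodesReg_vert_J`),
`stb_regChart_conc_J/_Jinv` (helper45, `STB/FrobReg.lean`).
-/

set_option autoImplicit false
set_option linter.style.haveILetI false
set_option linter.unusedSectionVars false
set_option linter.unusedVariables false
set_option linter.style.longLine false
set_option synthInstance.maxHeartbeats 400000
set_option maxHeartbeats 1000000

noncomputable section

namespace Fermat.Agent.UNIP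

open ModularCurve Polynomial IntermediateField Fermat.Agent.INJ Fermat.Agent.AL Fermat.Agent.ES
open Fermat.Agent.ES.G2

/-- some complex embedding of an intermediate field of `ℚ̄ / ℚ` (only used to name `w_q`) -/
def u5cIota (K₀ : IntermediateField ℚ Qb) : ↥K₀ →+* ℂ :=
  letI : Algebra ℚ Qb := AlgebraicClosure.instAlgebra (k := ℚ) (R := ℚ)
  haveI : Algebra.IsAlgebraic ℚ Qb := AlgebraicClosure.isAlgebraic ℚ
  ((IsAlgClosed.lift (R := ℚ) (S := Qb) (M := ℂ)).toRingHom).comp (algebraMap ↥K₀ Qb)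

section General

variable {A : ValuationSubring Qb} {K₀ : IntermediateField ℚ Qb}
  [IsDiscreteValuationRing ↥(beta0Ring A K₀)] {π : ↥(beta0Ring A K₀)}
  {q M : ℕ} [NeZero q] [NeZero M] [NeZero (M * q)]

/-- **`π` is not a unit of the chart `j` of `F_{Mq}(K₀)` over `A ∩ K₀`.** -/
theorem u5c_notUnit_J (hq : q.Prime) (hA : A.LiesOverPrime q) (hE : beta0Field A ≤ K₀)
    (hπ : Irreducible π) (hqM : ¬ q ∣ M) (h2 : q = 2 → 3 ∣ M) (h3 : q = 3 → 2 ∣ M) :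
    ¬ IsUnit (algebraMap ↥(beta0Ring A K₀)
      (integralClosure (Algebra.adjoin ↥(beta0Ring A K₀) {bgJ ↥K₀ (M * q)})
        (modularFunctionFieldFullC ↥K₀ (M * q))) π) := by
  haveI : Fact q.Prime := ⟨hq⟩
  haveI : CharP (IsLocalRing.ResidueField ↥(beta0Ring A K₀)) q := frobLift_charP A K₀ hq hA
  exact u5g_notUnit_J K₀ (IsLocalRing.residue ↥(beta0Ring A K₀)) (u5cIota K₀) hq hqM hπ
    (Fermat.Agent.STB.stb_residue_ker hπ) (Fermat.Agent.STB.stb_residue_pi hπ)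
    (Fermat.Agent.STB.stb_regChart_conc_J M hq hA hE hπ hqM h2 h3)

/-- **The special fibre of the chart `j` of `F_{Mq}(K₀)` over `A ∩ K₀` is reduced.** -/
theorem u5c_reduced_J (hq : q.Prime) (hA : A.LiesOverPrime q) (hE : beta0Field A ≤ K₀)
    (hπ : Irreducible π) (hqM : ¬ q ∣ M) (h2 : q = 2 → 3 ∣ M) (h3 : q = 3 → 2 ∣ M) :
    ∀ c : integralClosure (Algebra.adjoin ↥(beta0Ring A K₀) {bgJ ↥K₀ (M * q)})
        (modularFunctionFieldFullC ↥K₀ (M * q)),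
      algebraMap ↥(beta0Ring A K₀)
        (integralClosure (Algebra.adjoin ↥(beta0Ring A K₀) {bgJ ↥K₀ (M * q)})
          (modularFunctionFieldFullC ↥K₀ (M * q))) π ∣ c ^ 2 →
      algebraMap ↥(beta0Ring A K₀)
        (integralClosure (Algebra.adjoin ↥(beta0Ring A K₀) {bgJ ↥K₀ (M * q)})
          (modularFunctionFieldFullC ↥K₀ (M * q))) π ∣ c := by
  haveI : Fact q.Prime := ⟨hq⟩
  haveI : CharP (IsLocalRing.ResidueField ↥(beta0Ring A K₀)) q := frobLift_charP A K₀ hq hA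
  exact u5g_reduced_J K₀ (IsLocalRing.residue ↥(beta0Ring A K₀)) (u5cIota K₀) hq hqM hπ
    (Fermat.Agent.STB.stb_residue_ker hπ) (Fermat.Agent.STB.stb_residue_pi hπ)
    (Fermat.Agent.STB.stb_regChart_conc_J M hq hA hE hπ hqM h2 h3)

/-- **`π` is not a unit of the chart `1/j` of `F_{Mq}(K₀)` over `A ∩ K₀`.** -/
theorem u5c_notUnit_Jinv (hq : q.Prime) (hA : A.LiesOverPrime q) (hE : beta0Field A ≤ K₀)
    (hπ : Irreducible π) (hqM : ¬ q ∣ M) (h2 : q = 2 → 3 ∣ M) (h3 : q = 3 → 2 ∣ M) :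
    ¬ IsUnit (algebraMap ↥(beta0Ring A K₀)
      (integralClosure (Algebra.adjoin ↥(beta0Ring A K₀) {(bgJ ↥K₀ (M * q))⁻¹})
        (modularFunctionFieldFullC ↥K₀ (M * q))) π) := by
  haveI : Fact q.Prime := ⟨hq⟩
  haveI : CharP (IsLocalRing.ResidueField ↥(beta0Ring A K₀)) q := frobLift_charP A K₀ hq hA
  exact u5g_notUnit_Jinv K₀ (IsLocalRing.residue ↥(beta0Ring A K₀)) (u5cIota K₀) hq hqM hπ
    (Fermat.Agent.STB.stb_residue_ker hπ) (Fermat.Agent.STB.stb_residue_pi hπ)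
    (Fermat.Agent.STB.stb_regChart_conc_Jinv M hq hA hE hπ hqM h2 h3)

/-- **The special fibre of the chart `1/j` of `F_{Mq}(K₀)` over `A ∩ K₀` is reduced.** -/
theorem u5c_reduced_Jinv (hq : q.Prime) (hA : A.LiesOverPrime q) (hE : beta0Field A ≤ K₀)
    (hπ : Irreducible π) (hqM : ¬ q ∣ M) (h2 : q = 2 → 3 ∣ M) (h3 : q = 3 → 2 ∣ M) :
    ∀ c : integralClosure (Algebra.adjoin ↥(beta0Ring A K₀) {(bgJ ↥K₀ (M * q))⁻¹})
        (modularFunctionFieldFullC ↥K₀ (M * q)),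
      algebraMap ↥(beta0Ring A K₀)
        (integralClosure (Algebra.adjoin ↥(beta0Ring A K₀) {(bgJ ↥K₀ (M * q))⁻¹})
          (modularFunctionFieldFullC ↥K₀ (M * q))) π ∣ c ^ 2 →
      algebraMap ↥(beta0Ring A K₀)
        (integralClosure (Algebra.adjoin ↥(beta0Ring A K₀) {(bgJ ↥K₀ (M * q))⁻¹})
          (modularFunctionFieldFullC ↥K₀ (M * q))) π ∣ c := by
  haveI : Fact q.Prime := ⟨hq⟩
  haveI : CharP (IsLocalRing.ResidueField ↥(beta0Ring A K₀)) q := frobLift_charP A K₀ hq hA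
  exact u5g_reduced_Jinv K₀ (IsLocalRing.residue ↥(beta0Ring A K₀)) (u5cIota K₀) hq hqM hπ
    (Fermat.Agent.STB.stb_residue_ker hπ) (Fermat.Agent.STB.stb_residue_pi hπ)
    (Fermat.Agent.STB.stb_regChart_conc_Jinv M hq hA hE hπ hqM h2 h3)

end General

section Base

variable {A : ValuationSubring Qb} {q M : ℕ} [NeZero q] [NeZero M] [NeZero (M * q)]

/-- **`hπu₁` of `mgcData_of`.** -/
theorem u5c_hπu₁ (hq : q.Prime) (hA : A.LiesOverPrime q) (hqM : ¬ q ∣ M)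
    (h2 : q = 2 → 3 ∣ M) (h3 : q = 3 → 2 ∣ M) :
    ¬ IsUnit (algebraMap ↥(beta0Ring A (beta0Field A))
      (integralClosure
        (Algebra.adjoin ↥(beta0Ring A (beta0Field A)) {bgJ ↥(beta0Field A) (M * q)})
        (modularFunctionFieldFullC ↥(beta0Field A) (M * q)))
      ((q : ℕ) : ↥(beta0Ring A (beta0Field A)))) := by
  haveI := beta0Ring_isDVR_base hq hA
  exact u5c_notUnit_J hq hA le_rfl (beta0Ring_irreducible_q hq hA) hqM h2 h3

/-- **`hred₁` of `mgcData_of`.** -/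
theorem u5c_hred₁ (hq : q.Prime) (hA : A.LiesOverPrime q) (hqM : ¬ q ∣ M)
    (h2 : q = 2 → 3 ∣ M) (h3 : q = 3 → 2 ∣ M) :
    ∀ c : integralClosure
        (Algebra.adjoin ↥(beta0Ring A (beta0Field A)) {bgJ ↥(beta0Field A) (M * q)})
        (modularFunctionFieldFullC ↥(beta0Field A) (M * q)),
      algebraMap ↥(beta0Ring A (beta0Field A)) (integralClosure
        (Algebra.adjoin ↥(beta0Ring A (beta0Field A)) {bgJ ↥(beta0Field A) (M * q)})
        (modularFunctionFieldFullC ↥(beta0Field A) (M * q)))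
          ((q : ℕ) : ↥(beta0Ring A (beta0Field A))) ∣ c ^ 2 →
      algebraMap ↥(beta0Ring A (beta0Field A)) (integralClosure
        (Algebra.adjoin ↥(beta0Ring A (beta0Field A)) {bgJ ↥(beta0Field A) (M * q)})
        (modularFunctionFieldFullC ↥(beta0Field A) (M * q)))
          ((q : ℕ) : ↥(beta0Ring A (beta0Field A))) ∣ c := by
  haveI := beta0Ring_isDVR_base hq hA
  exact u5c_reduced_J hq hA le_rfl (beta0Ring_irreducible_q hq hA) hqM h2 h3

/-- **`hπu₂` of `mgcData_of`.** -/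
theorem u5c_hπu₂ (hq : q.Prime) (hA : A.LiesOverPrime q) (hqM : ¬ q ∣ M)
    (h2 : q = 2 → 3 ∣ M) (h3 : q = 3 → 2 ∣ M) :
    ¬ IsUnit (algebraMap ↥(beta0Ring A (beta0Field A))
      (integralClosure
        (Algebra.adjoin ↥(beta0Ring A (beta0Field A)) {(bgJ ↥(beta0Field A) (M * q))⁻¹})
        (modularFunctionFieldFullC ↥(beta0Field A) (M * q)))
      ((q : ℕ) : ↥(beta0Ring A (beta0Field A)))) := by
  haveI := beta0Ring_isDVR_base hq hA
  exact u5c_notUnit_Jinv hq hA le_rfl (beta0Ring_irreducible_q hq hA) hqM h2 h3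

/-- **`hred₂` of `mgcData_of`.** -/
theorem u5c_hred₂ (hq : q.Prime) (hA : A.LiesOverPrime q) (hqM : ¬ q ∣ M)
    (h2 : q = 2 → 3 ∣ M) (h3 : q = 3 → 2 ∣ M) :
    ∀ c : integralClosure
        (Algebra.adjoin ↥(beta0Ring A (beta0Field A)) {(bgJ ↥(beta0Field A) (M * q))⁻¹})
        (modularFunctionFieldFullC ↥(beta0Field A) (M * q)),
      algebraMap ↥(beta0Ring A (beta0Field A)) (integralClosure
        (Algebra.adjoin ↥(beta0Ring A (beta0Field A)) {(bgJ ↥(beta0Field A) (M * q))⁻¹})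
        (modularFunctionFieldFullC ↥(beta0Field A) (M * q)))
          ((q : ℕ) : ↥(beta0Ring A (beta0Field A))) ∣ c ^ 2 →
      algebraMap ↥(beta0Ring A (beta0Field A)) (integralClosure
        (Algebra.adjoin ↥(beta0Ring A (beta0Field A)) {(bgJ ↥(beta0Field A) (M * q))⁻¹})
        (modularFunctionFieldFullC ↥(beta0Field A) (M * q)))
          ((q : ℕ) : ↥(beta0Ring A (beta0Field A))) ∣ c := by
  haveI := beta0Ring_isDVR_base hq hA
  exact u5c_reduced_Jinv hq hA le_rfl (beta0Ring_irreducible_q hq hA) hqM h2 h3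

end Base

end Fermat.Agent.UNIP

end
end ZBSTB_004_7
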