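/- GENERATED FILE (helper35, build-time optimisation, NOTES/ZB.md): verbatim concatenation of the modules
   Fermat.Agent.UNIP.MGChartsGen
   Fermat.Agent.UNIP.CoordTransport
   Fermat.Agent.UNIP.MGChartsMain
   Fermat.Agent.UNIP.MGChartsInst
   Fermat.Agent.UNIP.MGChartsStage
   Fermat.Agent.UNIP.MGChartsBeta0Reg
   Fermat.Agent.UNIP.MGCoord
   Fermat.Agent.UNIP.MGChartsBeta0RegU5
   Do not edit; do not import together with these modules. -/
import Fermat.Agent.ZB.UNIP_005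
import Mathlib
import Fermat.Agent.ZB.UNIP_009
import Fermat.Agent.ZB.UNIP_004
import Fermat.Agent.ZB.INJ_020
import Fermat.Agent.ZB.INJ_031
import Fermat.Agent.ZB.UNIP_007
import Fermat.Agent.ZB.UNIP_012
import Fermat.Agent.ZB.STB_004

/-! ### bundled: `Fermat.Agent.UNIP.MGChartsGen` -/
section ZBUNIP_010_0
/-
UNIP / MG-4 (helper16), generic abstract part: a chart `R'` over the ramified base which has
"the same special fibre" as the chart `R` over the unramified base.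

`j : R →+* R'` (= `B₀ → B'`), `ϖ : R'` (= `π'`), `p : R` (= `q`).
`MgcRamified j ϖ p` :  `ϖ ∣ j p`,  `R' = j R + ϖ R'`,  `ϖ ∣ j c → p ∣ c`.
(For the charts of the modular curve this is U8; see `MGChartsMain.lean`.)

* `mggEquiv : R ⧸ (p) ≃+* R' ⧸ (ϖ)`;
* `mggExt h ρ hρ : R' →+* S` : the extension of `ρ : R →+* S`, `ρ p = 0`, with `ϖ ↦ 0`;
* `mggPrime h 𝔭 : Ideal R'` : the prime of `R'` over a prime `𝔭 ∋ p` of `R`
  (`x = j c + ϖ z ∈ mggPrime h 𝔭 ↔ c ∈ 𝔭`);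
* `mgg_ker` (SS1)' for two maps, `mgg_vert` (SS1)' in the `vert` form of D2;
* `mgg_comap_isMaximal`, `mgg_mem_comap`;
* `mgg_locGen` (SS2)'/(SS3)' : `NodesLocGen (𝔫'.comap j) (insert p T) →
    NodesLocGen 𝔫' (insert ϖ (j '' T))`.
-/

set_option autoImplicit false

namespace Fermat.Agent.UNIP

/-- The chart `R'` over the ramified base has the same special fibre as `R`. -/
structure MgcRamified {R R' : Type*} [CommRing R] [CommRing R'] (j : R →+* R') (ϖ : R')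
    (p : R) : Prop where
  dvd : ϖ ∣ j p
  decomp : ∀ x : R', ∃ c : R, ∃ z : R', x = j c + ϖ * z
  cancel : ∀ c : R, ϖ ∣ j c → p ∣ c

/-- "`R / p` is reduced" from (SS1) in the two-components form. -/
theorem mgc_hred_of_ker {R S : Type*} [CommRing R] [CommRing S] [IsReduced S] {p : R}
    {f g : R →+* S} (hf : f p = 0) (hg : g p = 0)
    (hker : ∀ x : R, f x = 0 → g x = 0 → p ∣ x) (c : R) (hc : p ∣ c ^ 2) : p ∣ c := by
  obtain ⟨d, hd⟩ := hc
  refine hker c ?_ ?_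
  · have : f c ^ 2 = 0 := by rw [← map_pow, hd, map_mul, hf, zero_mul]
    exact pow_eq_zero_iff (two_ne_zero) |>.1 this
  · have : g c ^ 2 = 0 := by rw [← map_pow, hd, map_mul, hg, zero_mul]
    exact pow_eq_zero_iff (two_ne_zero) |>.1 this

/-- "`R / p` is reduced" from (SS1) in the `vert` form. -/
theorem mgc_hred_of_vert {R : Type*} [CommRing R] {p : R} (vert : Finset (Ideal R))
    (hprime : ∀ 𝔭 ∈ vert, 𝔭.IsPrime) (hpv : ∀ 𝔭 ∈ vert, p ∈ 𝔭)
    (hSS1 : ∀ y : R, (∀ 𝔭 ∈ vert, y ∈ 𝔭) → p ∣ y) (c : R) (hc : p ∣ c ^ 2) : p ∣ c := by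
  obtain ⟨d, hd⟩ := hc
  refine hSS1 c fun 𝔭 h𝔭 => ?_
  have := hprime 𝔭 h𝔭
  refine Ideal.IsPrime.mem_of_pow_mem this 2 ?_
  rw [hd]
  exact Ideal.mul_mem_right _ _ (hpv 𝔭 h𝔭)

/-- `p` is not a unit if it is killed by a map to a nontrivial ring. -/
theorem mgc_not_isUnit_of_map_eq_zero {R S : Type*} [CommRing R] [CommRing S] [Nontrivial S]
    {p : R} (f : R →+* S) (hf : f p = 0) : ¬ IsUnit p := fun h => by
  have := h.map f
  rw [hf] at this
  exact not_isUnit_zero this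

namespace MgcRamified

variable {R R' S : Type*} [CommRing R] [CommRing R'] [CommRing S]
  {j : R →+* R'} {ϖ : R'} {p : R}

/-- The map `R / p → R' / ϖ`. -/
noncomputable def fibreHom (h : MgcRamified j ϖ p) :
    R ⧸ Ideal.span {p} →+* R' ⧸ Ideal.span {ϖ} :=
  Ideal.Quotient.lift _ ((Ideal.Quotient.mk _).comp j) (by
    intro a ha
    obtain ⟨b, rfl⟩ := Ideal.mem_span_singleton.1 ha
    rw [RingHom.comp_apply, Ideal.Quotient.eq_zero_iff_mem, Ideal.mem_span_singleton, map_mul]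
    exact Dvd.dvd.mul_right h.dvd _)

@[simp] theorem fibreHom_mk (h : MgcRamified j ϖ p) (c : R) :
    h.fibreHom (Ideal.Quotient.mk _ c) = Ideal.Quotient.mk _ (j c) := rfl

theorem fibreHom_bijective (h : MgcRamified j ϖ p) : Function.Bijective h.fibreHom := by
  constructor
  · rw [injective_iff_map_eq_zero]
    intro x hx
    obtain ⟨c, rfl⟩ := Ideal.Quotient.mk_surjective x
    rw [fibreHom_mk, Ideal.Quotient.eq_zero_iff_mem, Ideal.mem_span_singleton] at hx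
    rw [Ideal.Quotient.eq_zero_iff_mem, Ideal.mem_span_singleton]
    exact h.cancel c hx
  · intro y
    obtain ⟨x, rfl⟩ := Ideal.Quotient.mk_surjective y
    obtain ⟨c, z, rfl⟩ := h.decomp x
    refine ⟨Ideal.Quotient.mk _ c, ?_⟩
    rw [fibreHom_mk, Ideal.Quotient.eq, Ideal.mem_span_singleton]
    exact ⟨-z, by ring⟩

/-- **Same special fibre**: `R / p ≃+* R' / ϖ`. -/
noncomputable def mggEquiv (h : MgcRamified j ϖ p) :
    R ⧸ Ideal.span {p} ≃+* R' ⧸ Ideal.span {ϖ} :=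
  RingEquiv.ofBijective h.fibreHom h.fibreHom_bijective

@[simp] theorem mggEquiv_mk (h : MgcRamified j ϖ p) (c : R) :
    h.mggEquiv (Ideal.Quotient.mk _ c) = Ideal.Quotient.mk _ (j c) := rfl

/-- The extension of `ρ : R →+* S` (`ρ p = 0`) to `R'` with `ϖ ↦ 0`. -/
noncomputable def mggExt (h : MgcRamified j ϖ p) (ρ : R →+* S) (hρ : ρ p = 0) : R' →+* S :=
  (Ideal.Quotient.lift (Ideal.span {p}) ρ (fun a ha => by
    obtain ⟨b, rfl⟩ := Ideal.mem_span_singleton.1 ha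
    rw [map_mul, hρ, zero_mul])).comp
    ((h.mggEquiv.symm : _ →+* _).comp (Ideal.Quotient.mk (Ideal.span {ϖ})))

theorem mggExt_j (h : MgcRamified j ϖ p) (ρ : R →+* S) (hρ : ρ p = 0) (c : R) :
    h.mggExt ρ hρ (j c) = ρ c := by
  have h1 : h.mggEquiv.symm (Ideal.Quotient.mk (Ideal.span {ϖ}) (j c)) =
      Ideal.Quotient.mk (Ideal.span {p}) c := by
    rw [← h.mggEquiv_mk c, RingEquiv.symm_apply_apply]
  unfold mggExt
  rw [RingHom.comp_apply, RingHom.comp_apply, RingHom.coe_coe, h1, Ideal.Quotient.lift_mk]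

theorem mggExt_unif (h : MgcRamified j ϖ p) (ρ : R →+* S) (hρ : ρ p = 0) :
    h.mggExt ρ hρ ϖ = 0 := by
  unfold mggExt
  rw [RingHom.comp_apply, RingHom.comp_apply,
    Ideal.Quotient.eq_zero_iff_mem.2 (Ideal.mem_span_singleton_self _), map_zero, map_zero]

theorem mggExt_add_mul (h : MgcRamified j ϖ p) (ρ : R →+* S) (hρ : ρ p = 0) (c : R) (z : R') :
    h.mggExt ρ hρ (j c + ϖ * z) = ρ c := by
  rw [map_add, map_mul, mggExt_unif, zero_mul, add_zero, mggExt_j]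

/-- the extension is unique -/
theorem mggExt_unique (h : MgcRamified j ϖ p) (ρ : R →+* S) (hρ : ρ p = 0) (ρ' : R' →+* S)
    (h1 : ∀ c, ρ' (j c) = ρ c) (h2 : ρ' ϖ = 0) : ρ' = h.mggExt ρ hρ := by
  ext x
  obtain ⟨c, z, rfl⟩ := h.decomp x
  rw [mggExt_add_mul, map_add, map_mul, h2, zero_mul, add_zero, h1]

theorem mggExt_surjective (h : MgcRamified j ϖ p) (ρ : R →+* S) (hρ : ρ p = 0)
    (hs : Function.Surjective ρ) : Function.Surjective (h.mggExt ρ hρ) := fun y => by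
  obtain ⟨c, rfl⟩ := hs y
  exact ⟨j c, h.mggExt_j ρ hρ c⟩

/-- **(SS1)'**: the two components over the ramified base cut out `(ϖ)`. -/
theorem mgg_ker (h : MgcRamified j ϖ p) {f g : R →+* S} (hf : f p = 0) (hg : g p = 0)
    (hker : ∀ x : R, f x = 0 → g x = 0 → p ∣ x)
    (x : R') (hfx : h.mggExt f hf x = 0) (hgx : h.mggExt g hg x = 0) : ϖ ∣ x := by
  obtain ⟨c, z, rfl⟩ := h.decomp x
  rw [mggExt_add_mul] at hfx hgx
  obtain ⟨d, rfl⟩ := hker c hfx hgx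
  rw [map_mul]
  exact dvd_add (Dvd.dvd.mul_right h.dvd _) (dvd_mul_right _ _)

/-- The ideal of `R'` over an ideal `𝔭 ∋ p` of `R`. -/
noncomputable def mggPrime (h : MgcRamified j ϖ p) (𝔭 : Ideal R) (hp : p ∈ 𝔭) : Ideal R' :=
  RingHom.ker (h.mggExt (Ideal.Quotient.mk 𝔭) (Ideal.Quotient.eq_zero_iff_mem.2 hp))

theorem mem_mggPrime (h : MgcRamified j ϖ p) (𝔭 : Ideal R) (hp : p ∈ 𝔭) (c : R) (z : R') :
    j c + ϖ * z ∈ h.mggPrime 𝔭 hp ↔ c ∈ 𝔭 := by
  unfold mggPrime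
  rw [RingHom.mem_ker, mggExt_add_mul, Ideal.Quotient.eq_zero_iff_mem]

theorem unif_mem_mggPrime (h : MgcRamified j ϖ p) (𝔭 : Ideal R) (hp : p ∈ 𝔭) :
    ϖ ∈ h.mggPrime 𝔭 hp := by
  unfold mggPrime
  rw [RingHom.mem_ker, mggExt_unif]

theorem j_mem_mggPrime (h : MgcRamified j ϖ p) (𝔭 : Ideal R) (hp : p ∈ 𝔭) (c : R) :
    j c ∈ h.mggPrime 𝔭 hp ↔ c ∈ 𝔭 := by
  have := h.mem_mggPrime 𝔭 hp c 0
  rwa [mul_zero, add_zero] at this

theorem comap_mggPrime (h : MgcRamified j ϖ p) (𝔭 : Ideal R) (hp : p ∈ 𝔭) :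
    (h.mggPrime 𝔭 hp).comap j = 𝔭 := by
  ext c
  rw [Ideal.mem_comap, j_mem_mggPrime]

instance mggPrime_isPrime (h : MgcRamified j ϖ p) (𝔭 : Ideal R) (hp : p ∈ 𝔭) [𝔭.IsPrime] :
    (h.mggPrime 𝔭 hp).IsPrime :=
  RingHom.ker_isPrime _

/-- an ideal of `R'` containing `ϖ` is the ideal over its contraction -/
theorem mggPrime_comap (h : MgcRamified j ϖ p) (𝔫' : Ideal R') (hϖ : ϖ ∈ 𝔫')
    (hp : p ∈ 𝔫'.comap j) : h.mggPrime (𝔫'.comap j) hp = 𝔫' := by
  ext x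
  obtain ⟨c, z, rfl⟩ := h.decomp x
  rw [mem_mggPrime, Ideal.mem_comap]
  constructor
  · intro hc
    exact 𝔫'.add_mem hc (𝔫'.mul_mem_right _ hϖ)
  · intro hx
    have : j c = (j c + ϖ * z) - ϖ * z := by ring
    rw [this]
    exact 𝔫'.sub_mem hx (𝔫'.mul_mem_right _ hϖ)

/-- `p` lies in the contraction of an ideal containing `ϖ`. -/
theorem mgg_mem_comap (h : MgcRamified j ϖ p) {𝔫' : Ideal R'} (hϖ : ϖ ∈ 𝔫') :
    p ∈ 𝔫'.comap j := by
  obtain ⟨w, hw⟩ := h.dvd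
  rw [Ideal.mem_comap, hw]
  exact Ideal.mul_mem_right _ _ hϖ

/-- **(SS1)' in the `vert` form of D2**: if `(p) = ⋂ vert` in `R` then `(ϖ) = ⋂ vert'` in `R'`,
`vert'` = the primes over the members of `vert`. -/
theorem mgg_vert (h : MgcRamified j ϖ p) (vert : Finset (Ideal R))
    (hprime : ∀ 𝔭 ∈ vert, 𝔭.IsPrime) (hpv : ∀ 𝔭 ∈ vert, p ∈ 𝔭)
    (hSS1 : ∀ y : R, (∀ 𝔭 ∈ vert, y ∈ 𝔭) → p ∣ y) :
    ∃ vert' : Finset (Ideal R'), (∀ 𝔭' ∈ vert', 𝔭'.IsPrime) ∧ (∀ 𝔭' ∈ vert', ϖ ∈ 𝔭') ∧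
      (∀ y : R', (∀ 𝔭' ∈ vert', y ∈ 𝔭') → ϖ ∣ y) ∧
      (∀ 𝔭' ∈ vert', 𝔭'.comap j ∈ vert) ∧
      (∀ 𝔭 ∈ vert, ∃ 𝔭' ∈ vert', 𝔭'.comap j = 𝔭) := by
  classical
  refine ⟨vert.attach.image (fun 𝔭 => h.mggPrime 𝔭.1 (hpv 𝔭.1 𝔭.2)), ?_, ?_, ?_, ?_, ?_⟩
  · intro 𝔭' h𝔭'
    obtain ⟨𝔭, -, rfl⟩ := Finset.mem_image.1 h𝔭'
    have := hprime 𝔭.1 𝔭.2
    infer_instance
  · intro 𝔭' h𝔭'
    obtain ⟨𝔭, -, rfl⟩ := Finset.mem_image.1 h𝔭'
    exact h.unif_mem_mggPrime _ _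
  · intro y hy
    obtain ⟨c, z, rfl⟩ := h.decomp y
    have hc : ∀ 𝔭 ∈ vert, c ∈ 𝔭 := by
      intro 𝔭 h𝔭
      have := hy (h.mggPrime 𝔭 (hpv 𝔭 h𝔭))
        (Finset.mem_image.2 ⟨⟨𝔭, h𝔭⟩, Finset.mem_attach _ _, rfl⟩)
      rwa [mem_mggPrime] at this
    obtain ⟨d, rfl⟩ := hSS1 c hc
    rw [map_mul]
    exact dvd_add (Dvd.dvd.mul_right h.dvd _) (dvd_mul_right _ _)
  · intro 𝔭' h𝔭'
    obtain ⟨𝔭, -, rfl⟩ := Finset.mem_image.1 h𝔭'
    rw [comap_mggPrime]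
    exact 𝔭.2
  · intro 𝔭 h𝔭
    exact ⟨h.mggPrime 𝔭 (hpv 𝔭 h𝔭), Finset.mem_image.2 ⟨⟨𝔭, h𝔭⟩, Finset.mem_attach _ _, rfl⟩,
      h.comap_mggPrime _ _⟩

/-- The contraction of a maximal ideal `𝔫' ∋ ϖ` of `R'` is a maximal ideal of `R`. -/
theorem mgg_comap_isMaximal (h : MgcRamified j ϖ p) (𝔫' : Ideal R') [h𝔫 : 𝔫'.IsMaximal]
    (hϖ : ϖ ∈ 𝔫') : (𝔫'.comap j).IsMaximal := by
  rw [Ideal.isMaximal_iff]
  refine ⟨fun h1 => ?_, fun J c hJ hc hcJ => ?_⟩
  · rw [Ideal.mem_comap, map_one] at h1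
    exact h𝔫.ne_top ((Ideal.eq_top_iff_one _).2 h1)
  · have hc' : j c ∉ 𝔫' := fun hh => hc (Ideal.mem_comap.2 hh)
    obtain ⟨y, w, hw, hyw⟩ := h𝔫.exists_inv hc'
    obtain ⟨d, z, rfl⟩ := h.decomp y
    -- `1 - d * c ∈ 𝔫' ∩ R`
    have h1 : j (1 - d * c) ∈ 𝔫' := by
      have : j (1 - d * c) = ϖ * (z * j c) + w := by
        rw [map_sub, map_one, map_mul, ← hyw]; ring
      rw [this]
      exact 𝔫'.add_mem (𝔫'.mul_mem_right _ hϖ) hw
    have h2 : 1 - d * c ∈ J := hJ (Ideal.mem_comap.2 h1)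
    have h3 : (1 : R) = (1 - d * c) + d * c := by ring
    rw [h3]
    exact J.add_mem h2 (J.mul_mem_left _ hcJ)

/-- **(SS2)'/(SS3)'**: local generators over the ramified base. -/
theorem mgg_locGen (h : MgcRamified j ϖ p) {𝔫' : Ideal R'} (hϖ : ϖ ∈ 𝔫') (T : Set R)
    (hT : NodesLocGen (𝔫'.comap j) (insert p T)) :
    NodesLocGen 𝔫' (insert ϖ (j '' T)) := by
  intro b hb
  obtain ⟨c, z, rfl⟩ := h.decomp b
  have hc : c ∈ 𝔫'.comap j := by
    rw [Ideal.mem_comap]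
    have : j c = (j c + ϖ * z) - ϖ * z := by ring
    rw [this]
    exact 𝔫'.sub_mem hb (𝔫'.mul_mem_right _ hϖ)
  obtain ⟨u, hu, huc⟩ := hT c hc
  refine ⟨j u, fun hu' => hu (Ideal.mem_comap.2 hu'), ?_⟩
  rw [mul_add]
  refine Ideal.add_mem _ ?_ ?_
  · rw [← map_mul]
    have h1 : j (u * c) ∈ Ideal.map j (Ideal.span (insert p T)) := Ideal.mem_map_of_mem _ huc
    rw [Ideal.map_span] at h1
    refine (Ideal.span_le.2 ?_) h1
    rintro _ ⟨t, ht, rfl⟩
    rcases ht with rfl | ht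
    · obtain ⟨w, hw⟩ := h.dvd
      rw [SetLike.mem_coe, hw]
      exact Ideal.mul_mem_right _ _ (Ideal.subset_span (Set.mem_insert _ _))
    · exact Ideal.subset_span (Set.mem_insert_of_mem _ ⟨t, ht, rfl⟩)
  · rw [mul_left_comm]
    exact Ideal.mul_mem_right _ _ (Ideal.subset_span (Set.mem_insert _ _))

/-- (SS2)' with an explicit parameter. -/
theorem mgg_locGen_pair (h : MgcRamified j ϖ p) {𝔫' : Ideal R'} (hϖ : ϖ ∈ 𝔫') (s : R)
    (hT : NodesLocGen (𝔫'.comap j) {p, s}) : NodesLocGen 𝔫' {ϖ, j s} := by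
  have := h.mgg_locGen hϖ {s} hT
  rwa [Set.image_singleton] at this

/-- (SS3)' with explicit parameters. -/
theorem mgg_locGen_triple (h : MgcRamified j ϖ p) {𝔫' : Ideal R'} (hϖ : ϖ ∈ 𝔫') (X Y : R)
    (hT : NodesLocGen (𝔫'.comap j) {p, X, Y}) : NodesLocGen 𝔫' {ϖ, j X, j Y} := by
  have := h.mgg_locGen hϖ {X, Y} hT
  rwa [Set.image_pair] at this

/-- The residue field at `𝔫'` is the residue field at `𝔫' ∩ R`: every element of `R'` is
congruent modulo `𝔫'` to an element of `j R`. -/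
theorem mgg_exists_sub_mem (h : MgcRamified j ϖ p) {𝔫' : Ideal R'} (hϖ : ϖ ∈ 𝔫') (x : R') :
    ∃ c : R, x - j c ∈ 𝔫' := by
  obtain ⟨c, z, rfl⟩ := h.decomp x
  refine ⟨c, ?_⟩
  have : j c + ϖ * z - j c = ϖ * z := by ring
  rw [this]
  exact 𝔫'.mul_mem_right _ hϖ

/-- **The dichotomy over the ramified base.**  If the maximal ideal `𝔫 = 𝔫' ∩ R` is a smooth
point `(p, s)` or a crossing `(p, X, Y)`, `p ∣ X Y`, then `𝔫'` is a smooth point `(ϖ, j s)` or
a crossing `(ϖ, j X, j Y)` with `j X * j Y = j p * G`. -/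
theorem mgg_nodes (h : MgcRamified j ϖ p) {𝔫' : Ideal R'} (hϖ : ϖ ∈ 𝔫')
    (hn : (∃ s ∈ 𝔫'.comap j, NodesLocGen (𝔫'.comap j) {p, s}) ∨
      (∃ X Y : R, X ∈ 𝔫'.comap j ∧ Y ∈ 𝔫'.comap j ∧ p ∣ X * Y ∧
        NodesLocGen (𝔫'.comap j) {p, X, Y})) :
    (∃ s : R, j s ∈ 𝔫' ∧ NodesLocGen 𝔫' {ϖ, j s}) ∨
      (∃ X Y G : R, j X ∈ 𝔫' ∧ j Y ∈ 𝔫' ∧ j X * j Y = j p * j G ∧
        NodesLocGen 𝔫' {ϖ, j X, j Y}) := by
  rcases hn with ⟨s, hs, hgen⟩ | ⟨X, Y, hX, hY, ⟨G, hG⟩, hgen⟩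
  · exact Or.inl ⟨s, Ideal.mem_comap.1 hs, h.mgg_locGen_pair hϖ s hgen⟩
  · refine Or.inr ⟨X, Y, G, Ideal.mem_comap.1 hX, Ideal.mem_comap.1 hY, ?_,
      h.mgg_locGen_triple hϖ X Y hgen⟩
    rw [← map_mul, ← map_mul, hG]

end MgcRamified

end Fermat.Agent.UNIP


end ZBUNIP_010_0

/-! ### bundled: `Fermat.Agent.UNIP.CoordTransport` -/
section ZBUNIP_010_1

/-!
# UNIP / MG-hcoord — `hcoord` of `at_main_two` from the output of U5 on the unramified chart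

`R` = the chart over the unramified base (U5: `nodes_chart`), `B' = zchClosure {u}` the chart over
the ramified base `A₀ = A′`, `j : R →+* B'` with `MgcRamified j ϖ p` (MG-4, helper16),
`j p = q`.  At a prime `𝔫 ∋ ϖ` of `B'`:

* `unip_stage_or_disc` (pure algebra on `R`): crossing data `X ∈ 𝔭₁`, `Y ∈ 𝔭₂`,
  `𝔫 = (p, X, Y)` locally + (SS1) give either a smooth point or stage data for all `n`
  (with `X ∉ 𝔭₂`, `Y ∉ 𝔭₁`).
* `unip_hcoord_of_nodes` : the hypothesis `hcoord` of `at_local_factor` / `at_main_two` at `𝔫`,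
  from the dichotomy of U5 at `𝔫.comap j`, for ANY `g` as in `unip_hcoord_node`.
-/

set_option autoImplicit false
set_option linter.style.haveILetI false
set_option linter.unusedSectionVars false
set_option linter.unusedVariables false

namespace Fermat.Agent.UNIP

open Polynomial IntermediateField Fermat.Agent.INJ AlgebraicCurve

section StageOrDisc

variable {R : Type*} [CommRing R]

/-- `NodesLocGen` drops a generator divisible by another one -/
theorem unip_locGen_drop (𝔫 : Ideal R) (p s z : R) (hz : p ∣ z)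
    (hgen : NodesLocGen 𝔫 {p, s, z}) : NodesLocGen 𝔫 {p, s} := by
  intro b hb
  obtain ⟨u, hu, hub⟩ := hgen b hb
  refine ⟨u, hu, ?_⟩
  have hle : Ideal.span ({p, s, z} : Set R) ≤ Ideal.span ({p, s} : Set R) := by
    rw [Ideal.span_le]
    intro x hx
    rcases hx with rfl | rfl | rfl
    · exact Ideal.subset_span (by simp)
    · exact Ideal.subset_span (by simp)
    · obtain ⟨c, rfl⟩ := hz
      exact Ideal.mul_mem_right _ _ (Ideal.subset_span (by simp))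
  exact hle hub

/-- **Smooth point or stage data.**  Crossing data of U5 on the unramified chart and (SS1). -/
theorem unip_stage_or_disc (𝔫 : Ideal R) [𝔫.IsPrime] (𝔭₁ 𝔭₂ : Ideal R) [𝔭₁.IsPrime]
    [𝔭₂.IsPrime] (h1 : 𝔭₁ ≤ 𝔫) (h2 : 𝔭₂ ≤ 𝔫) (p : R) (hp1 : p ∈ 𝔭₁) (hp2 : p ∈ 𝔭₂)
    (hSS1 : ∀ x : R, x ∈ 𝔭₁ → x ∈ 𝔭₂ → p ∣ x)
    (X Y : R) (hX1 : X ∈ 𝔭₁) (hY2 : Y ∈ 𝔭₂) (hgen : NodesLocGen 𝔫 {p, X, Y}) :
    (∃ s : R, s ∈ 𝔫 ∧ NodesLocGen 𝔫 {p, s}) ∨
    (∀ n : ℕ, 1 ≤ n → ∃ (n' : ℕ) (X' Y' G' : R), 1 ≤ n' ∧ X' ∈ 𝔭₁ ∧ Y' ∈ 𝔭₂ ∧ X' ∉ 𝔭₂ ∧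
      Y' ∉ 𝔭₁ ∧ X' * Y' = p ^ n' * G' ∧ NodesLocGen 𝔫 {p, X', Y'} ∧ (n ≤ n' ∨ G' ∉ 𝔫)) := by
  by_cases hX2 : X ∈ 𝔭₂
  · left
    refine ⟨Y, h2 hY2, unip_locGen_drop 𝔫 p Y X (hSS1 X hX1 hX2) ?_⟩
    have : ({p, Y, X} : Set R) = {p, X, Y} := by rw [Set.pair_comm Y X]
    rw [this]
    exact hgen
  by_cases hY1 : Y ∈ 𝔭₁
  · left
    exact ⟨X, h1 hX1, unip_locGen_drop 𝔫 p X Y (hSS1 Y hY1 hY2) hgen⟩
  right
  exact unip_morse_iter_vert 𝔫 𝔭₁ 𝔭₂ h1 h2 p hp1 hp2 X Y hX1 hY2 hX2 hY1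
    (hSS1 _ (Ideal.mul_mem_right _ _ hX1) (Ideal.mul_mem_left _ _ hY2)) hgen

end StageOrDisc

section Transport

variable {A₀ E F : Type*} [CommRing A₀] [IsDomain A₀] [IsDiscreteValuationRing A₀]
  [Field E] [Algebra A₀ E] [IsFractionRing A₀ E] [CharZero E]
  [Field F] [Algebra E F] [Algebra A₀ F] [IsScalarTower A₀ E F]
  {π : A₀} {κ : Type*}

/-- **MG-hcoord.**  `hcoord` of `at_local_factor` / `at_main_two` at a prime `𝔫 ∋ π` of the chart
`B' = zchClosure {u}` over the ramified base, from the output of U5 at `𝔫.comap j` on the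
unramified chart `R` (`MgcRamified j π p`, `j p = q`), for any `g` preserving `𝔫`, the chart,
the constants, `q` and the vertical valuations. -/
theorem unip_hcoord_of_nodes (hπ : Irreducible π) {u : F} (hu : Transcendental E u)
    [FiniteDimensional E⟮u⟯ F] [IsNoetherianRing ↥(zchClosure (A₀ := A₀) ({u} : Set F))]
    (V : κ → ValuationSubring F)
    (hBV : ∀ c (b : F), IsIntegral ↥(Algebra.adjoin A₀ {u}) b → b ∈ V c)
    (hπV : ∀ c, algebraMap A₀ F π ∈ (V c).nonunits)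
    (hSS1 : ∀ b : F, IsIntegral ↥(Algebra.adjoin A₀ {u}) b → (∀ c, b ∈ (V c).nonunits) →
      ∃ b' : F, IsIntegral ↥(Algebra.adjoin A₀ {u}) b' ∧ b = algebraMap A₀ F π * b')
    (hVloc : ∀ c (x : F), x ∈ V c → ∃ b s : F, IsIntegral ↥(Algebra.adjoin A₀ {u}) b ∧
      IsIntegral ↥(Algebra.adjoin A₀ {u}) s ∧ s ∉ (V c).nonunits ∧ s * x = b)
    (g : SemilinearAut E F) (hgu : g • u = u)
    (𝔫 : Ideal ↥(zchClosure (A₀ := A₀) ({u} : Set F))) [𝔫.IsPrime]
    (hπ𝔫 : algebraMap A₀ ↥(zchClosure (A₀ := A₀) ({u} : Set F)) π ∈ 𝔫)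
    (hgB : ∀ b : ↥(zchClosure (A₀ := A₀) ({u} : Set F)), b ∈ 𝔫 →
      ∃ b' : ↥(zchClosure (A₀ := A₀) ({u} : Set F)), b' ∈ 𝔫 ∧ g • (b : F) = b')
    (hgB₀' : ∀ b : F, IsIntegral ↥(Algebra.adjoin A₀ {u}) b →
      IsIntegral ↥(Algebra.adjoin A₀ {u}) (g⁻¹ • b))
    (hgV : ∀ c (f : F), f ≠ 0 → (V c).valuation (g • f / f) = 1)
    (hgA : ∀ α : A₀, ∃ α' : A₀, g • algebraMap A₀ F α = algebraMap A₀ F α')
    (q : A₀) (hq0 : q ≠ 0) (hqπ : π ∣ q) (hgq : g • algebraMap A₀ F q = algebraMap A₀ F q)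
    {R : Type*} [CommRing R] (j : R →+* ↥(zchClosure (A₀ := A₀) ({u} : Set F))) (p : R)
    (hram : MgcRamified j (algebraMap A₀ ↥(zchClosure (A₀ := A₀) ({u} : Set F)) π) p)
    (hjp : j p = algebraMap A₀ ↥(zchClosure (A₀ := A₀) ({u} : Set F)) q)
    (c₁ c₂ : κ) (hκ : ∀ c, c = c₁ ∨ c = c₂)
    (hnode : (∃ s : R, j s ∈ 𝔫 ∧ NodesLocGen (𝔫.comap j) {p, s}) ∨
      ((∀ x : R, ((j x : ↥(zchClosure (A₀ := A₀) ({u} : Set F))) : F) ∈ (V c₁).nonunits →
          j x ∈ 𝔫) ∧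
       (∀ x : R, ((j x : ↥(zchClosure (A₀ := A₀) ({u} : Set F))) : F) ∈ (V c₂).nonunits →
          j x ∈ 𝔫) ∧
       ∃ X Y : R, ((j X : ↥(zchClosure (A₀ := A₀) ({u} : Set F))) : F) ∈ (V c₁).nonunits ∧
         ((j Y : ↥(zchClosure (A₀ := A₀) ({u} : Set F))) : F) ∈ (V c₂).nonunits ∧
         NodesLocGen (𝔫.comap j) {p, X, Y}))
    {x : F}
    (hrat : ∀ P : Place E F, LsTube ↥(zchClosure (A₀ := A₀) ({u} : Set F)) u 𝔫 P →
      g • P ≠ P → P.ord x ≠ 0 → ∀ f ∈ P.toValuationSubring,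
        ∃ c : E, f - algebraMap E F c ∈ P.toValuationSubring.nonunits) :
    ∀ P : Place E F, LsTube ↥(zchClosure (A₀ := A₀) ({u} : Set F)) u 𝔫 P →
      g • P ≠ P → P.ord x ≠ 0 → ∃ f : F, f ≠ 0 ∧ P.ord f = 1 ∧
        ∀ Q : Place E F, LsTube ↥(zchClosure (A₀ := A₀) ({u} : Set F)) u 𝔫 Q → g • Q ≠ Q →
          Q ≠ P → Q.ord f = 0 := by
  set B := ↥(zchClosure (A₀ := A₀) ({u} : Set F)) with hBdef
  -- the smooth case
  have hdisc : ∀ s : R, j s ∈ 𝔫 → NodesLocGen (𝔫.comap j) {p, s} →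
      ∀ P : Place E F, LsTube B u 𝔫 P →
      g • P ≠ P → P.ord x ≠ 0 → ∃ f : F, f ≠ 0 ∧ P.ord f = 1 ∧
        ∀ Q : Place E F, LsTube B u 𝔫 Q → g • Q ≠ Q → Q ≠ P → Q.ord f = 0 :=
    fun s hs hgen => unip_hcoord_disc hπ hu 𝔫 hπ𝔫 (j s) hs (hram.mgg_locGen_pair hπ𝔫 s hgen) g hrat
  rcases hnode with ⟨s, hs, hgen⟩ | ⟨hthr₁, hthr₂, X, Y, hX, hY, hgen⟩
  · exact hdisc s hs hgen
  -- the two branches on `R`
  haveI h1p := at_crossingIdeal_isPrime (A₀ := A₀) (S := {u}) (V c₁) (hBV c₁)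
  haveI h2p := at_crossingIdeal_isPrime (A₀ := A₀) (S := {u}) (V c₂) (hBV c₂)
  set 𝔭₁ : Ideal R := (crossingIdeal (A₀ := A₀) {u} (V c₁) (hBV c₁)).comap j with h𝔭₁
  set 𝔭₂ : Ideal R := (crossingIdeal (A₀ := A₀) {u} (V c₂) (hBV c₂)).comap j with h𝔭₂
  haveI : 𝔭₁.IsPrime := Ideal.comap_isPrime j _
  haveI : 𝔭₂.IsPrime := Ideal.comap_isPrime j _
  haveI : (𝔫.comap j).IsPrime := Ideal.comap_isPrime j _
  have hϖ1 : algebraMap A₀ B π ∈ crossingIdeal (A₀ := A₀) {u} (V c₁) (hBV c₁) := hπV c₁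
  have hϖ2 : algebraMap A₀ B π ∈ crossingIdeal (A₀ := A₀) {u} (V c₂) (hBV c₂) := hπV c₂
  have hp1 : p ∈ 𝔭₁ := by
    rw [h𝔭₁, Ideal.mem_comap]
    obtain ⟨z, hz⟩ := hram.dvd
    rw [hz]
    exact Ideal.mul_mem_right _ _ hϖ1
  have hp2 : p ∈ 𝔭₂ := by
    rw [h𝔭₂, Ideal.mem_comap]
    obtain ⟨z, hz⟩ := hram.dvd
    rw [hz]
    exact Ideal.mul_mem_right _ _ hϖ2
  have hSS1R : ∀ y : R, y ∈ 𝔭₁ → y ∈ 𝔭₂ → p ∣ y := by
    intro y hy1 hy2
    apply hram.cancel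
    obtain ⟨b', hb', hyb'⟩ := hSS1 ((j y : B) : F) (mem_zchClosure.mp (j y).2) (fun c => by
      rcases hκ c with rfl | rfl
      · exact hy1
      · exact hy2)
    exact ⟨⟨b', mem_zchClosure.mpr hb'⟩, Subtype.ext hyb'⟩
  rcases unip_stage_or_disc (𝔫.comap j) 𝔭₁ 𝔭₂ (fun y hy => hthr₁ y hy) (fun y hy => hthr₂ y hy)
    p hp1 hp2 hSS1R X Y hX hY hgen with ⟨s, hs, hgen'⟩ | hstage
  · exact hdisc s hs hgen'
  -- "through" on `B`
  have hthrB : ∀ c : κ, (∀ y : R, ((j y : B) : F) ∈ (V c).nonunits → j y ∈ 𝔫) →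
      ∀ b : B, (b : F) ∈ (V c).nonunits → b ∈ 𝔫 := by
    intro c hthr b hb
    obtain ⟨y, z, rfl⟩ := hram.decomp b
    have hϖz : algebraMap A₀ B π * z ∈ crossingIdeal (A₀ := A₀) {u} (V c) (hBV c) :=
      Ideal.mul_mem_right _ _ (hπV c)
    have hjy : j y ∈ crossingIdeal (A₀ := A₀) {u} (V c) (hBV c) := by
      have : j y = (j y + algebraMap A₀ B π * z) - algebraMap A₀ B π * z := by ring
      rw [this]
      exact Ideal.sub_mem _ hb hϖz
    exact Ideal.add_mem _ (hthr y hjy) (Ideal.mul_mem_right _ _ hπ𝔫)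
  refine unip_hcoord_node hπ hu V hBV hπV hVloc g hgu 𝔫 hπ𝔫 hgB hgB₀' hgV hgA q hq0 hqπ hgq c₁ c₂
    (hthrB c₁ hthr₁) (hthrB c₂ hthr₂) ?_ hrat
  intro n hn
  obtain ⟨n', X', Y', G', -, hX1', hY2', hX2', hY1', hXY', hgen', hthin⟩ := hstage n hn
  refine ⟨n', j X', j Y', j G', hX1', hY2', hX2', hY1', ?_,
    hram.mgg_locGen_triple hπ𝔫 X' Y' hgen', ?_⟩
  · rw [← map_mul, hXY', map_mul, map_pow, hjp]
  · rcases hthin with h | h
    · exact Or.inl h
    · exact Or.inr (fun hG => h (Ideal.mem_comap.mpr hG))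

end Transport

end Fermat.Agent.UNIP


end ZBUNIP_010_1

/-! ### bundled: `Fermat.Agent.UNIP.MGChartsMain` -/
section ZBUNIP_010_2
/-
UNIP / MG-4 (helper16), concrete part: the chart over the ramified base.

Setting of INJ / D2 (`UnitCrit`): `A₀` a DVR, `E₀ = Frac A₀` (char 0), `K / E₀(τ)` finite,
`B₀ := integralClosure (Algebra.adjoin A₀ {τ}) K`  (the chart over `A₀`).
`A'` a domain, integral over `A₀`, `π' ∈ A'` with `π' ^ e ∣ π`, root of a monic `g ∈ A₀[X]` of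
degree `≤ e`; `L ⊇ K` a field with `L = K[π']`; `B'` ANY ring with an injective
`algebraMap B' L` whose image is the set of elements integral over `A'[τ]` (the shape of AT/D2).

`mgc_ramified` : if `B₀ / π` is reduced, there is `j : B₀ →+* B'` (the inclusion) with
`MgcRamified j π' π`, i.e. `B' = j B₀ + π' B'`, `π' ∣ j π`, `π' ∣ j c → π ∣ c`.
All consequences ((SS1)', `NodesLocGen` over `A'`, …) are in `MGChartsGen.lean`.
-/

set_option autoImplicit false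
set_option linter.style.haveILetI false
set_option linter.unusedSectionVars false

open Polynomial IntermediateField Fermat.Agent.INJ

namespace Fermat.Agent.UNIP

section Main

universe u

variable {A₀ E₀ K : Type u} [CommRing A₀] [IsDomain A₀] [IsDiscreteValuationRing A₀]
  [Field E₀] [CharZero E₀] [Algebra A₀ E₀] [IsFractionRing A₀ E₀]
  [Field K] [Algebra E₀ K] [Algebra A₀ K] [IsScalarTower A₀ E₀ K]

/-- The chart `B₀` has fraction field `K`. -/
theorem mgc_chart_isFractionRing (τ : K) [FiniteDimensional E₀⟮τ⟯ K] :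
    IsFractionRing (integralClosure (Algebra.adjoin A₀ {τ}) K) K := by
  letI := FractionRing.liftAlgebra ↥(Algebra.adjoin A₀ {τ}) K
  haveI := ChartGB.finiteDimensional_fractionRing (A₀ := A₀) (E := E₀) τ
  exact integralClosure.isFractionRing_of_finite_extension (FractionRing ↥(Algebra.adjoin A₀ {τ})) K

/-- The chart `B₀` is integrally closed. -/
theorem mgc_chart_isIntegrallyClosed (τ : K) [FiniteDimensional E₀⟮τ⟯ K] :
    IsIntegrallyClosed (integralClosure (Algebra.adjoin A₀ {τ}) K) := by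
  letI := FractionRing.liftAlgebra ↥(Algebra.adjoin A₀ {τ}) K
  haveI := ChartGB.finiteDimensional_fractionRing (A₀ := A₀) (E := E₀) τ
  exact integralClosure.isIntegrallyClosedOfFiniteExtension (FractionRing ↥(Algebra.adjoin A₀ {τ}))

variable {A' L : Type*} [CommRing A'] [IsDomain A'] [Field L] [Algebra A' L]
  [Algebra A₀ A'] [Algebra K L] [Algebra A₀ L] [IsScalarTower A₀ K L] [IsScalarTower A₀ A' L]

/-- Integrality over a subalgebra only depends on the underlying set (different base rings). -/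
theorem mgc_isIntegral_of_subset {R₁ R₂ : Type*} [CommRing R₁] [CommRing R₂] [Algebra R₁ L]
    [Algebra R₂ L] (S : Subalgebra R₁ L) (C : Subalgebra R₂ L) (hSC : ∀ s ∈ S, s ∈ C) {x : L}
    (hx : IsIntegral S x) : IsIntegral C x := by
  obtain ⟨p, hp, hpx⟩ := hx
  let ι : S →+* C :=
    { toFun := fun s => ⟨s.1, hSC s.1 s.2⟩
      map_one' := rfl
      map_mul' := fun _ _ => rfl
      map_zero' := rfl
      map_add' := fun _ _ => rfl }
  refine ⟨p.map ι, hp.map ι, ?_⟩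
  rw [Polynomial.eval₂_map]
  exact hpx

/-- `A'[τ]` is integral over `B₀`. -/
theorem mgc_adjoin_le_integralClosure [Algebra.IsIntegral A₀ A'] (τ : K) :
    ∀ s ∈ Algebra.adjoin A' ({algebraMap K L τ} : Set L),
      s ∈ integralClosure (integralClosure (Algebra.adjoin A₀ {τ}) K) L := by
  intro s hs
  induction hs using Algebra.adjoin_induction with
  | mem x hx =>
    rw [Set.mem_singleton_iff] at hx
    rw [hx]
    have hτ : τ ∈ integralClosure (Algebra.adjoin A₀ {τ}) K :=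
      isIntegral_algebraMap (R := Algebra.adjoin A₀ ({τ} : Set K))
        (x := ⟨τ, Algebra.subset_adjoin (Set.mem_singleton τ)⟩)
    exact isIntegral_algebraMap (R := integralClosure (Algebra.adjoin A₀ {τ}) K) (x := ⟨τ, hτ⟩)
  | algebraMap a =>
    have h1 : IsIntegral A₀ a := Algebra.IsIntegral.isIntegral a
    have h2 : IsIntegral A₀ (algebraMap A' L a) := h1.map (IsScalarTower.toAlgHom A₀ A' L)
    exact h2.tower_top
  | add x y _ _ hx hy => exact Subalgebra.add_mem _ hx hy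
  | mul x y _ _ hx hy => exact Subalgebra.mul_mem _ hx hy

/-- The image of `A₀[τ]` lies in `A'[τ]`. -/
theorem mgc_algebraMap_mem_adjoin (τ : K) {r : K} (hr : r ∈ Algebra.adjoin A₀ ({τ} : Set K)) :
    algebraMap K L r ∈ Algebra.adjoin A' ({algebraMap K L τ} : Set L) := by
  induction hr using Algebra.adjoin_induction with
  | mem x hx =>
    rw [Set.mem_singleton_iff] at hx
    rw [hx]
    exact Algebra.subset_adjoin (Set.mem_singleton _)
  | algebraMap a =>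
    rw [← IsScalarTower.algebraMap_apply A₀ K L, IsScalarTower.algebraMap_apply A₀ A' L]
    exact Subalgebra.algebraMap_mem _ _
  | add x y _ _ hx hy =>
    rw [map_add]
    exact Subalgebra.add_mem _ hx hy
  | mul x y _ _ hx hy =>
    rw [map_mul]
    exact Subalgebra.mul_mem _ hx hy

/-- The image of `B₀` is integral over `A'[τ]`. -/
theorem mgc_isIntegral_algebraMap (τ : K) (b : integralClosure (Algebra.adjoin A₀ {τ}) K) :
    IsIntegral (Algebra.adjoin A' ({algebraMap K L τ} : Set L)) (algebraMap K L (b : K)) := by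
  obtain ⟨p, hp, hpb⟩ := b.2
  let ι : Algebra.adjoin A₀ ({τ} : Set K) →+* Algebra.adjoin A' ({algebraMap K L τ} : Set L) :=
    { toFun := fun r => ⟨algebraMap K L r.1, mgc_algebraMap_mem_adjoin τ r.2⟩
      map_one' := Subtype.ext (map_one _)
      map_mul' := fun _ _ => Subtype.ext (map_mul _ _ _)
      map_zero' := Subtype.ext (map_zero _)
      map_add' := fun _ _ => Subtype.ext (map_add _ _ _) }
  refine ⟨p.map ι, hp.map ι, ?_⟩
  rw [Polynomial.eval₂_map]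
  have h1 : (algebraMap (Algebra.adjoin A' ({algebraMap K L τ} : Set L)) L).comp ι =
      (algebraMap K L).comp (algebraMap (Algebra.adjoin A₀ ({τ} : Set K)) K) :=
    RingHom.ext fun _ => rfl
  rw [h1, ← Polynomial.hom_eval₂, hpb, map_zero]

/-- **MG-4, normality in chart form.**  The elements of `L` integral over `A'[τ]` are exactly
the elements of `B₀[π']`. -/
theorem mgc_isIntegral_iff {π : A₀} (hπ : Irreducible π) (τ : K) [FiniteDimensional E₀⟮τ⟯ K]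
    (hπu : ¬ IsUnit (algebraMap A₀ (integralClosure (Algebra.adjoin A₀ {τ}) K) π))
    (hred : ∀ c : integralClosure (Algebra.adjoin A₀ {τ}) K,
      algebraMap A₀ (integralClosure (Algebra.adjoin A₀ {τ}) K) π ∣ c ^ 2 →
        algebraMap A₀ (integralClosure (Algebra.adjoin A₀ {τ}) K) π ∣ c)
    [Algebra.IsIntegral A₀ A']
    {π' : A'} (hπ'0 : π' ≠ 0) (hπ'u : ¬ IsUnit π') {e : ℕ}
    (hram : π' ^ e ∣ algebraMap A₀ A' π)
    (g : A₀[X]) (hgm : g.Monic) (hroot : aeval π' g = 0) (hdeg : g.natDegree ≤ e)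
    (htop : Algebra.adjoin K ({algebraMap A' L π'} : Set L) = ⊤) (x : L) :
    IsIntegral (Algebra.adjoin A' ({algebraMap K L τ} : Set L)) x ↔
      x ∈ Algebra.adjoin (integralClosure (Algebra.adjoin A₀ {τ}) K)
        ({algebraMap A' L π'} : Set L) := by
  haveI := mgc_chart_isFractionRing (A₀ := A₀) (E₀ := E₀) τ
  haveI := mgc_chart_isIntegrallyClosed (A₀ := A₀) (E₀ := E₀) τ
  have hinjK : Function.Injective (algebraMap A₀ K) := by
    rw [IsScalarTower.algebraMap_eq A₀ E₀ K]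
    exact (algebraMap E₀ K).injective.comp (IsFractionRing.injective A₀ E₀)
  have hπ0 : algebraMap A₀ (integralClosure (Algebra.adjoin A₀ {τ}) K) π ≠ 0 := by
    intro h0
    have h1 : algebraMap A₀ K π = 0 := by
      rw [IsScalarTower.algebraMap_apply A₀ (integralClosure (Algebra.adjoin A₀ {τ}) K) K, h0,
        map_zero]
    exact hπ.ne_zero (hinjK (by rw [h1, map_zero]))
  have hintA : IsIntegral A₀ (algebraMap A' L π') :=
    (Algebra.IsIntegral.isIntegral (R := A₀) π').map (IsScalarTower.toAlgHom A₀ A' L)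
  have hintK : IsIntegral K (algebraMap A' L π') := hintA.tower_top
  let B : PowerBasis K L := PowerBasis.ofAdjoinEqTop hintK htop
  have hBgen : B.gen = algebraMap A' L π' := PowerBasis.ofAdjoinEqTop_gen hintK htop
  haveI : Module.Finite K L := B.finite
  haveI : CharZero K := charZero_of_injective_algebraMap (algebraMap E₀ K).injective
  haveI : Algebra.IsSeparable K L := inferInstance
  obtain ⟨hcl, -⟩ := normalBC_tot (R := integralClosure (Algebra.adjoin A₀ {τ}) K) (K := K)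
    (L := L) hπ hπ0 hπu hred hπ'0 hπ'u hram g hgm hroot hdeg B hBgen
  constructor
  · intro hx
    have h1 : IsIntegral (integralClosure (integralClosure (Algebra.adjoin A₀ {τ}) K) L) x :=
      mgc_isIntegral_of_subset _ _ (mgc_adjoin_le_integralClosure τ) hx
    have h2 : IsIntegral (integralClosure (Algebra.adjoin A₀ {τ}) K) x :=
      isIntegral_trans (R := integralClosure (Algebra.adjoin A₀ {τ}) K)
        (A := integralClosure (integralClosure (Algebra.adjoin A₀ {τ}) K) L) x h1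
    rw [← hcl]
    exact h2
  · intro hx
    induction hx using Algebra.adjoin_induction with
    | mem y hy =>
      rw [Set.mem_singleton_iff] at hy
      rw [hy]
      exact isIntegral_algebraMap (R := Algebra.adjoin A' ({algebraMap K L τ} : Set L))
        (x := ⟨algebraMap A' L π', Subalgebra.algebraMap_mem _ _⟩)
    | algebraMap b => exact mgc_isIntegral_algebraMap τ b
    | add y z _ _ hy hz => exact hy.add hz
    | mul y z _ _ hy hz => exact hy.mul hz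

variable {B' : Type*} [CommRing B'] [Algebra B' L] [Algebra A' B'] [IsScalarTower A' B' L]

/-- The inclusion of the chart `B₀` into a chart `B'` whose image in `L` contains the image
of `B₀`. -/
noncomputable def mgcIncl (τ : K) (hinj : Function.Injective (algebraMap B' L))
    (hrange : ∀ b : integralClosure (Algebra.adjoin A₀ {τ}) K,
      algebraMap (integralClosure (Algebra.adjoin A₀ {τ}) K) L b ∈ (algebraMap B' L).range) :
    integralClosure (Algebra.adjoin A₀ {τ}) K →+* B' :=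
  ((RingEquiv.ofBijective (algebraMap B' L).rangeRestrict
      ⟨fun _ _ hxy => hinj (congrArg Subtype.val hxy),
        (algebraMap B' L).rangeRestrict_surjective⟩).symm : (algebraMap B' L).range →+* B').comp
    ((algebraMap (integralClosure (Algebra.adjoin A₀ {τ}) K) L).codRestrict
      (algebraMap B' L).range hrange)

theorem mgcIncl_spec (τ : K) (hinj : Function.Injective (algebraMap B' L))
    (hrange : ∀ b : integralClosure (Algebra.adjoin A₀ {τ}) K,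
      algebraMap (integralClosure (Algebra.adjoin A₀ {τ}) K) L b ∈ (algebraMap B' L).range)
    (b : integralClosure (Algebra.adjoin A₀ {τ}) K) :
    algebraMap B' L (mgcIncl τ hinj hrange b) = algebraMap K L (b : K) := by
  unfold mgcIncl
  rw [RingHom.comp_apply]
  set e := RingEquiv.ofBijective (algebraMap B' L).rangeRestrict
      ⟨fun _ _ hxy => hinj (congrArg Subtype.val hxy),
        (algebraMap B' L).rangeRestrict_surjective⟩ with he
  set y := (algebraMap (integralClosure (Algebra.adjoin A₀ {τ}) K) L).codRestrict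
      (algebraMap B' L).range hrange b with hy
  have h1 : e (e.symm y) = y := e.apply_symm_apply y
  calc algebraMap B' L (e.symm y) = ((e (e.symm y) : (algebraMap B' L).range) : L) := rfl
    _ = (y : L) := by rw [h1]
    _ = algebraMap K L (b : K) := rfl

/-- **MG-4, main theorem.**  The chart `B'` over the ramified base `A'` has the same special
fibre as the chart `B₀` over `A₀`:  `B' = j B₀ + π' B'`, `π' ∣ j π`, `π' ∣ j c → π ∣ c`. -/
theorem mgc_ramified_of_incl {π : A₀} (hπ : Irreducible π) (τ : K) [FiniteDimensional E₀⟮τ⟯ K]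
    (hπu : ¬ IsUnit (algebraMap A₀ (integralClosure (Algebra.adjoin A₀ {τ}) K) π))
    (hred : ∀ c : integralClosure (Algebra.adjoin A₀ {τ}) K,
      algebraMap A₀ (integralClosure (Algebra.adjoin A₀ {τ}) K) π ∣ c ^ 2 →
        algebraMap A₀ (integralClosure (Algebra.adjoin A₀ {τ}) K) π ∣ c)
    [Algebra.IsIntegral A₀ A']
    {π' : A'} (hπ'0 : π' ≠ 0) (hπ'u : ¬ IsUnit π') {e : ℕ}
    (hram : π' ^ e ∣ algebraMap A₀ A' π)
    (g : A₀[X]) (hgm : g.Monic) (hroot : aeval π' g = 0) (hdeg : g.natDegree ≤ e)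
    (htop : Algebra.adjoin K ({algebraMap A' L π'} : Set L) = ⊤)
    (hinj : Function.Injective (algebraMap B' L))
    (hB : ∀ x : L, x ∈ (algebraMap B' L).range ↔
      IsIntegral (Algebra.adjoin A' ({algebraMap K L τ} : Set L)) x)
    (j : integralClosure (Algebra.adjoin A₀ {τ}) K →+* B')
    (hj : ∀ b, algebraMap B' L (j b) = algebraMap K L (b : K)) :
    MgcRamified j (algebraMap A' B' π')
      (algebraMap A₀ (integralClosure (Algebra.adjoin A₀ {τ}) K) π) := by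
  haveI := mgc_chart_isFractionRing (A₀ := A₀) (E₀ := E₀) τ
  haveI := mgc_chart_isIntegrallyClosed (A₀ := A₀) (E₀ := E₀) τ
  have hiff := mgc_isIntegral_iff (E₀ := E₀) (L := L) hπ τ hπu hred hπ'0 hπ'u hram g hgm hroot
    hdeg htop
  have hinjK : Function.Injective (algebraMap A₀ K) := by
    rw [IsScalarTower.algebraMap_eq A₀ E₀ K]
    exact (algebraMap E₀ K).injective.comp (IsFractionRing.injective A₀ E₀)
  have hπ0 : algebraMap A₀ (integralClosure (Algebra.adjoin A₀ {τ}) K) π ≠ 0 := by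
    intro h0
    have h1 : algebraMap A₀ K π = 0 := by
      rw [IsScalarTower.algebraMap_apply A₀ (integralClosure (Algebra.adjoin A₀ {τ}) K) K, h0,
        map_zero]
    exact hπ.ne_zero (hinjK (by rw [h1, map_zero]))
  obtain ⟨hE, hge⟩ := nbc_ram_isEisensteinAt hπ hπ'0 hπ'u hram g hgm hroot hdeg
  have hgdeg : 0 < g.natDegree := by
    rcases Nat.eq_zero_or_pos g.natDegree with h0 | h0
    · exfalso
      have h1 : g = 1 := hgm.natDegree_eq_zero.1 h0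
      rw [h1] at hroot
      simp at hroot
    · exact h0
  have hrootL : aeval (algebraMap A' L π') g = 0 := nbc_aeval_algebraMap_eq_zero g hroot
  -- the two descriptions of the image of `B'`
  have hmem : ∀ x : B', algebraMap B' L x ∈
      Algebra.adjoin (integralClosure (Algebra.adjoin A₀ {τ}) K)
        ({algebraMap A' L π'} : Set L) := fun x =>
    (hiff _).1 ((hB _).1 ⟨x, rfl⟩)
  have hsurj : ∀ y ∈ Algebra.adjoin (integralClosure (Algebra.adjoin A₀ {τ}) K)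
      ({algebraMap A' L π'} : Set L), ∃ x : B', algebraMap B' L x = y := fun y hy =>
    (hB y).2 ((hiff y).2 hy)
  have hϖ : algebraMap B' L (algebraMap A' B' π') = algebraMap A' L π' :=
    (IsScalarTower.algebraMap_apply A' B' L π').symm
  refine ⟨?_, ?_, ?_⟩
  · -- `π' ∣ j π`
    have hroot' : aeval (algebraMap A' L π')
        (g.map (algebraMap A₀ (integralClosure (Algebra.adjoin A₀ {τ}) K))) = 0 := by
      rw [aeval_map_algebraMap]; exact hrootL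
    obtain ⟨z', hz', hz⟩ := nbc_gen_dvd (algebraMap A' L π') hroot'
      (nbc_coeff_zero_eq (R := integralClosure (Algebra.adjoin A₀ {τ}) K) hπ g hE hgdeg)
    obtain ⟨zB, rfl⟩ := hsurj z' hz'
    refine ⟨zB, hinj ?_⟩
    rw [hj, map_mul, hϖ, ← hz]
    rfl
  · -- decomposition
    intro x
    obtain ⟨c, z', hz', hxz⟩ := nbc_exists_eq_add_mul (algebraMap A' L π') (hmem x)
    obtain ⟨zB, rfl⟩ := hsurj z' hz'
    refine ⟨c, zB, hinj ?_⟩
    rw [hxz, map_add, map_mul, hϖ, hj]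
    rfl
  · -- cancellation
    rintro c ⟨w, hw⟩
    have h1 : algebraMap (integralClosure (Algebra.adjoin A₀ {τ}) K) L c =
        algebraMap A' L π' * algebraMap B' L w := by
      have := congrArg (algebraMap B' L) hw
      rw [hj, map_mul, hϖ] at this
      exact this
    have h2 : nbcGen (integralClosure (Algebra.adjoin A₀ {τ}) K) (algebraMap A' L π') ∣
        algebraMap (integralClosure (Algebra.adjoin A₀ {τ}) K)
          (Algebra.adjoin (integralClosure (Algebra.adjoin A₀ {τ}) K)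
            ({algebraMap A' L π'} : Set L)) c :=
      (nbcGen_dvd_iff _ _).2 ⟨algebraMap B' L w, hmem w, h1⟩
    exact (normalBC_gen_dvd_iff K hπ hπ0 hπu hred g hgm hE hgdeg hrootL c).1 h2

/-- **MG-4, main theorem (existence form).** -/
theorem mgc_ramified {π : A₀} (hπ : Irreducible π) (τ : K) [FiniteDimensional E₀⟮τ⟯ K]
    (hπu : ¬ IsUnit (algebraMap A₀ (integralClosure (Algebra.adjoin A₀ {τ}) K) π))
    (hred : ∀ c : integralClosure (Algebra.adjoin A₀ {τ}) K,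
      algebraMap A₀ (integralClosure (Algebra.adjoin A₀ {τ}) K) π ∣ c ^ 2 →
        algebraMap A₀ (integralClosure (Algebra.adjoin A₀ {τ}) K) π ∣ c)
    [Algebra.IsIntegral A₀ A']
    {π' : A'} (hπ'0 : π' ≠ 0) (hπ'u : ¬ IsUnit π') {e : ℕ}
    (hram : π' ^ e ∣ algebraMap A₀ A' π)
    (g : A₀[X]) (hgm : g.Monic) (hroot : aeval π' g = 0) (hdeg : g.natDegree ≤ e)
    (htop : Algebra.adjoin K ({algebraMap A' L π'} : Set L) = ⊤)
    (hinj : Function.Injective (algebraMap B' L))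
    (hB : ∀ x : L, x ∈ (algebraMap B' L).range ↔
      IsIntegral (Algebra.adjoin A' ({algebraMap K L τ} : Set L)) x) :
    ∃ j : integralClosure (Algebra.adjoin A₀ {τ}) K →+* B',
      (∀ b, algebraMap B' L (j b) = algebraMap K L (b : K)) ∧
      MgcRamified j (algebraMap A' B' π')
        (algebraMap A₀ (integralClosure (Algebra.adjoin A₀ {τ}) K) π) := by
  have hrange : ∀ b : integralClosure (Algebra.adjoin A₀ {τ}) K,
      algebraMap (integralClosure (Algebra.adjoin A₀ {τ}) K) L b ∈ (algebraMap B' L).range :=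
    fun b => (hB _).2 (mgc_isIntegral_algebraMap τ b)
  exact ⟨mgcIncl τ hinj hrange, mgcIncl_spec τ hinj hrange,
    mgc_ramified_of_incl (E₀ := E₀) hπ τ hπu hred hπ'0 hπ'u hram g hgm hroot hdeg htop hinj hB _
      (mgcIncl_spec τ hinj hrange)⟩

end Main

end Fermat.Agent.UNIP


end ZBUNIP_010_2

/-! ### bundled: `Fermat.Agent.UNIP.MGChartsInst` -/
section ZBUNIP_010_3
/-
UNIP / MG-4c (helper16): `B' := MgcChart B₀ π' = B₀[π']` is a legal chart for AT / D2 over `A'`.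

Setting of `MGChartsMain.lean`.  `B₀ := integralClosure (Algebra.adjoin A₀ {τ}) K`,
`α := algebraMap A' L π'`, `B' := MgcChart B₀ α = Algebra.adjoin B₀ {α} ⊆ L`.

* `mgci_range_iff` : `hB` of D2/AT — `x ∈ range (B' → L) ↔ IsIntegral (A'[τ]) x`;
* `mgciAlgebra`, `mgci_isScalarTower` : `Algebra A' B'`, `IsScalarTower A' B' L`;
* `mgci_isNoetherianRing` : `B'` is noetherian;
* `mgci_mem_zchClosure_iff` : `x ∈ INJ.zchClosure (A₀ := A') {τ} ↔ x ∈ B'`;
* `mgci_ramified` : `MgcRamified (algebraMap B₀ B') (nbcGen B₀ α) π` (the MgcChart instance of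
  `mgc_ramified`), so that all of `MGChartsGen.lean` applies to `B' = MgcChart B₀ α`.
-/

set_option autoImplicit false
set_option linter.style.haveILetI false
set_option linter.unusedSectionVars false

open Polynomial IntermediateField Fermat.Agent.INJ

namespace Fermat.Agent.UNIP

section Inst

universe u

variable {A₀ E₀ K : Type u} [CommRing A₀] [IsDomain A₀] [IsDiscreteValuationRing A₀]
  [Field E₀] [CharZero E₀] [Algebra A₀ E₀] [IsFractionRing A₀ E₀]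
  [Field K] [Algebra E₀ K] [Algebra A₀ K] [IsScalarTower A₀ E₀ K]
  {A' L : Type*} [CommRing A'] [IsDomain A'] [Field L] [Algebra A' L]
  [Algebra A₀ A'] [Algebra K L] [Algebra A₀ L] [IsScalarTower A₀ K L] [IsScalarTower A₀ A' L]

/-- `hB` of D2 / AT for the chart `B' = B₀[π']`. -/
theorem mgci_range_iff {π : A₀} (hπ : Irreducible π) (τ : K) [FiniteDimensional E₀⟮τ⟯ K]
    (hπu : ¬ IsUnit (algebraMap A₀ (integralClosure (Algebra.adjoin A₀ {τ}) K) π))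
    (hred : ∀ c : integralClosure (Algebra.adjoin A₀ {τ}) K,
      algebraMap A₀ (integralClosure (Algebra.adjoin A₀ {τ}) K) π ∣ c ^ 2 →
        algebraMap A₀ (integralClosure (Algebra.adjoin A₀ {τ}) K) π ∣ c)
    [Algebra.IsIntegral A₀ A']
    {π' : A'} (hπ'0 : π' ≠ 0) (hπ'u : ¬ IsUnit π') {e : ℕ}
    (hram : π' ^ e ∣ algebraMap A₀ A' π)
    (g : A₀[X]) (hgm : g.Monic) (hroot : aeval π' g = 0) (hdeg : g.natDegree ≤ e)
    (htop : Algebra.adjoin K ({algebraMap A' L π'} : Set L) = ⊤) (x : L) :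
    x ∈ RingHom.range (R := ↥(MgcChart (integralClosure (Algebra.adjoin A₀ {τ}) K)
        (algebraMap A' L π'))) (S := L) (algebraMap _ _) ↔
      IsIntegral (Algebra.adjoin A' ({algebraMap K L τ} : Set L)) x := by
  rw [mgc_isIntegral_iff (E₀ := E₀) hπ τ hπu hred hπ'0 hπ'u hram g hgm hroot hdeg htop x]
  constructor
  · rintro ⟨b, rfl⟩
    exact b.2
  · intro hx
    exact ⟨⟨x, hx⟩, rfl⟩

/-- The constants `A'` lie in `B₀[π']`. -/
theorem mgci_algebraMap_mem {π : A₀} (hπ : Irreducible π) (τ : K) [FiniteDimensional E₀⟮τ⟯ K]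
    (hπu : ¬ IsUnit (algebraMap A₀ (integralClosure (Algebra.adjoin A₀ {τ}) K) π))
    (hred : ∀ c : integralClosure (Algebra.adjoin A₀ {τ}) K,
      algebraMap A₀ (integralClosure (Algebra.adjoin A₀ {τ}) K) π ∣ c ^ 2 →
        algebraMap A₀ (integralClosure (Algebra.adjoin A₀ {τ}) K) π ∣ c)
    [Algebra.IsIntegral A₀ A']
    {π' : A'} (hπ'0 : π' ≠ 0) (hπ'u : ¬ IsUnit π') {e : ℕ}
    (hram : π' ^ e ∣ algebraMap A₀ A' π)
    (g : A₀[X]) (hgm : g.Monic) (hroot : aeval π' g = 0) (hdeg : g.natDegree ≤ e)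
    (htop : Algebra.adjoin K ({algebraMap A' L π'} : Set L) = ⊤) (a : A') :
    algebraMap A' L a ∈ MgcChart (integralClosure (Algebra.adjoin A₀ {τ}) K)
      (algebraMap A' L π') :=
  (mgc_isIntegral_iff (E₀ := E₀) hπ τ hπu hred hπ'0 hπ'u hram g hgm hroot hdeg htop _).1
    (isIntegral_algebraMap (R := Algebra.adjoin A' ({algebraMap K L τ} : Set L))
      (x := ⟨algebraMap A' L a, Subalgebra.algebraMap_mem _ _⟩))

/-- The algebra structure of `B' = B₀[π']` over `A'`, from `hA' : A' ⊆ B'`. -/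
@[reducible]
noncomputable def mgciAlgebra {R : Type*} [CommRing R] [Algebra R L] (α : L)
    (hA' : ∀ a : A', algebraMap A' L a ∈ MgcChart R α) : Algebra A' (MgcChart R α) :=
  ((algebraMap A' L).codRestrict (MgcChart R α) hA').toAlgebra

theorem mgci_isScalarTower {R : Type*} [CommRing R] [Algebra R L] (α : L)
    (hA' : ∀ a : A', algebraMap A' L a ∈ MgcChart R α) :
    letI := mgciAlgebra (A' := A') α hA'
    IsScalarTower A' (MgcChart R α) L := by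
  letI := mgciAlgebra (A' := A') α hA'
  apply IsScalarTower.of_algebraMap_eq
  intro a
  rfl

theorem mgciAlgebra_algebraMap {R : Type*} [CommRing R] [Algebra R L] (α : L)
    (hA' : ∀ a : A', algebraMap A' L a ∈ MgcChart R α) (a : A') :
    letI := mgciAlgebra (A' := A') α hA'
    ((algebraMap A' (MgcChart R α) a : MgcChart R α) : L) = algebraMap A' L a := rfl

/-- `B' = B₀[π']` is a noetherian ring. -/
theorem mgci_isNoetherianRing {τ : K} (hτ : Transcendental E₀ τ) [FiniteDimensional E₀⟮τ⟯ K]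
    (α : L) :
    IsNoetherianRing (MgcChart (integralClosure (Algebra.adjoin A₀ {τ}) K) α) := by
  haveI := chart_closure_isNoetherianRing (A₀ := A₀) (E := E₀) (Lf := K) hτ
  exact isNoetherianRing_of_fg (Subalgebra.fg_def.2 ⟨{α}, Set.finite_singleton α, rfl⟩)

/-- The chart `zchClosure {τ}` over `A'` is `B₀[π']`. -/
theorem mgci_mem_zchClosure_iff {π : A₀} (hπ : Irreducible π) (τ : K)
    [FiniteDimensional E₀⟮τ⟯ K]
    (hπu : ¬ IsUnit (algebraMap A₀ (integralClosure (Algebra.adjoin A₀ {τ}) K) π))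
    (hred : ∀ c : integralClosure (Algebra.adjoin A₀ {τ}) K,
      algebraMap A₀ (integralClosure (Algebra.adjoin A₀ {τ}) K) π ∣ c ^ 2 →
        algebraMap A₀ (integralClosure (Algebra.adjoin A₀ {τ}) K) π ∣ c)
    [Algebra.IsIntegral A₀ A']
    {π' : A'} (hπ'0 : π' ≠ 0) (hπ'u : ¬ IsUnit π') {e : ℕ}
    (hram : π' ^ e ∣ algebraMap A₀ A' π)
    (g : A₀[X]) (hgm : g.Monic) (hroot : aeval π' g = 0) (hdeg : g.natDegree ≤ e)
    (htop : Algebra.adjoin K ({algebraMap A' L π'} : Set L) = ⊤) (x : L) :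
    x ∈ (integralClosure (Algebra.adjoin A' ({algebraMap K L τ} : Set L)) L) ↔
      x ∈ MgcChart (integralClosure (Algebra.adjoin A₀ {τ}) K) (algebraMap A' L π') :=
  mgc_isIntegral_iff (E₀ := E₀) hπ τ hπu hred hπ'0 hπ'u hram g hgm hroot hdeg htop x

/-- **MG-4c.**  `B' = MgcChart B₀ π'` has the same special fibre as `B₀`. -/
theorem mgci_ramified {π : A₀} (hπ : Irreducible π) (τ : K) [FiniteDimensional E₀⟮τ⟯ K]
    (hπu : ¬ IsUnit (algebraMap A₀ (integralClosure (Algebra.adjoin A₀ {τ}) K) π))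
    (hred : ∀ c : integralClosure (Algebra.adjoin A₀ {τ}) K,
      algebraMap A₀ (integralClosure (Algebra.adjoin A₀ {τ}) K) π ∣ c ^ 2 →
        algebraMap A₀ (integralClosure (Algebra.adjoin A₀ {τ}) K) π ∣ c)
    {π' : A'} (hπ'0 : π' ≠ 0) (hπ'u : ¬ IsUnit π') {e : ℕ}
    (hram : π' ^ e ∣ algebraMap A₀ A' π)
    (g : A₀[X]) (hgm : g.Monic) (hroot : aeval π' g = 0) (hdeg : g.natDegree ≤ e) :
    MgcRamified
      (algebraMap (integralClosure (Algebra.adjoin A₀ {τ}) K)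
        (MgcChart (integralClosure (Algebra.adjoin A₀ {τ}) K) (algebraMap A' L π')))
      (nbcGen (integralClosure (Algebra.adjoin A₀ {τ}) K) (algebraMap A' L π'))
      (algebraMap A₀ (integralClosure (Algebra.adjoin A₀ {τ}) K) π) := by
  haveI := mgc_chart_isFractionRing (A₀ := A₀) (E₀ := E₀) τ
  haveI := mgc_chart_isIntegrallyClosed (A₀ := A₀) (E₀ := E₀) τ
  have hinjK : Function.Injective (algebraMap A₀ K) := by
    rw [IsScalarTower.algebraMap_eq A₀ E₀ K]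
    exact (algebraMap E₀ K).injective.comp (IsFractionRing.injective A₀ E₀)
  have hπ0 : algebraMap A₀ (integralClosure (Algebra.adjoin A₀ {τ}) K) π ≠ 0 := by
    intro h0
    have h1 : algebraMap A₀ K π = 0 := by
      rw [IsScalarTower.algebraMap_apply A₀ (integralClosure (Algebra.adjoin A₀ {τ}) K) K, h0,
        map_zero]
    exact hπ.ne_zero (hinjK (by rw [h1, map_zero]))
  obtain ⟨hE, -⟩ := nbc_ram_isEisensteinAt hπ hπ'0 hπ'u hram g hgm hroot hdeg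
  have hgdeg : 0 < g.natDegree := by
    rcases Nat.eq_zero_or_pos g.natDegree with h0 | h0
    · exfalso
      have h1 : g = 1 := hgm.natDegree_eq_zero.1 h0
      rw [h1] at hroot
      simp at hroot
    · exact h0
  have hrootL : aeval (algebraMap A' L π') g = 0 := nbc_aeval_algebraMap_eq_zero g hroot
  have hdvd := normalBC_gen_dvd_iff K hπ hπ0 hπu hred g hgm hE hgdeg hrootL
  refine ⟨(hdvd _).2 dvd_rfl, fun x => ?_, fun c hc => (hdvd c).1 hc⟩
  exact mgc_exists_eq_add_mul (algebraMap A' L π') x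

end Inst

end Fermat.Agent.UNIP


end ZBUNIP_010_3

/-! ### bundled: `Fermat.Agent.UNIP.MGChartsStage` -/
section ZBUNIP_010_4
/-
UNIP (S34/S35), direct route, piece MG-5a "chart hypotheses of (T′)", abstract stage (helper16).

Setting of MG-4 (`MGChartsMain`): `A₀ ⊆ A'` discrete valuation rings with uniformizers `π`, `π'`,
`K / E₀` and `L / E'` function fields, `L = K(π')`, `τ : K` a coordinate,
`B₀ = integralClosure A₀[τ] K`, `B' = zchClosure {τ}` (the chart of (T′) over `A'`), `B' = B₀[π']`.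
`g` a semilinear automorphism of `L / E'` which is the identity on the image of `K`
(an element of the inertia group).

* `mgs_trivMod` : `AtTrivMod π' τ g` (the hypotheses `hσB₁ … hτB₂` of `at_main_two`), from
  `g π' = π' + π' c`, `c ∈ A'`.
* `mgs_stage`   : the stage data of `unip_coord_node` at a closed point `𝔫' ∋ π'` of `B'` from a
  crossing `(π, X, Y)` at `𝔫' ∩ B₀` (`unip_morse_iter` over `B₀`, transported by MG-4).
* `mgs_hcoord`  : **the hypothesis `hcoord` of `at_main_two`** for the chart `τ`, from U5's output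
  over `A₀` (smooth point or crossing at every closed point of the special fibre of `B₀`).
* `mgs_u5_of_nodes` : the output of `nodes_chart` / `nodes_chart_hom` in the form used here.
* `mgs_SS1`     : (SS1) over `A'` in the `vert` form, from (SS1) over `A₀` in the two-maps form.
-/

set_option autoImplicit false
set_option linter.style.haveILetI false
set_option linter.unusedSectionVars false
set_option linter.unusedVariables false

open Polynomial IntermediateField Fermat.Agent.INJ AlgebraicCurve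

namespace Fermat.Agent.UNIP

section Stage

universe u v

variable {A₀ E₀ K : Type u} [CommRing A₀] [IsDomain A₀] [IsDiscreteValuationRing A₀]
  [Field E₀] [CharZero E₀] [Algebra A₀ E₀] [IsFractionRing A₀ E₀]
  [Field K] [Algebra E₀ K] [Algebra A₀ K] [IsScalarTower A₀ E₀ K]

variable {A' E' L : Type v} [CommRing A'] [IsDomain A'] [IsDiscreteValuationRing A']
  [Field E'] [Algebra A' E'] [IsFractionRing A' E'] [CharZero E']
  [Field L] [Algebra E' L] [Algebra A' L] [IsScalarTower A' E' L]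
  [Algebra A₀ A'] [Algebra K L] [Algebra A₀ L] [IsScalarTower A₀ K L] [IsScalarTower A₀ A' L]

/-- **MG-5a, triviality modulo `π'`.**  A semilinear automorphism which is the identity on the
image of `K` and satisfies `g π' = π' + π' c` with `c ∈ A'` is trivial modulo `π'` on the chart
`τ` over `A'`. -/
theorem mgs_trivMod {π : A₀} (hπ : Irreducible π) (τ : K) [FiniteDimensional E₀⟮τ⟯ K]
    (hπu : ¬ IsUnit (algebraMap A₀ (integralClosure (Algebra.adjoin A₀ {τ}) K) π))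
    (hred : ∀ c : integralClosure (Algebra.adjoin A₀ {τ}) K,
      algebraMap A₀ (integralClosure (Algebra.adjoin A₀ {τ}) K) π ∣ c ^ 2 →
        algebraMap A₀ (integralClosure (Algebra.adjoin A₀ {τ}) K) π ∣ c)
    [Algebra.IsIntegral A₀ A']
    {π' : A'} (hπ'0 : π' ≠ 0) (hπ'u : ¬ IsUnit π') {e : ℕ}
    (hram : π' ^ e ∣ algebraMap A₀ A' π)
    (g₀ : A₀[X]) (hgm : g₀.Monic) (hroot : aeval π' g₀ = 0) (hdeg : g₀.natDegree ≤ e)
    (htop : Algebra.adjoin K ({algebraMap A' L π'} : Set L) = ⊤)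
    (g : SemilinearAut E' L)
    (hgK : ∀ x : K, g • algebraMap K L x = algebraMap K L x)
    (hgπ : ∃ c : A', g • algebraMap A' L π' =
      algebraMap A' L π' + algebraMap A' L π' * algebraMap A' L c) :
    AtTrivMod π' (algebraMap K L τ) g := by
  intro b hb
  have hb' := (mgc_isIntegral_iff (E₀ := E₀) hπ τ hπu hred hπ'0 hπ'u hram g₀ hgm hroot hdeg
    htop b).1 hb
  obtain ⟨c₀, hc₀⟩ := hgπ
  have hα : ∃ c ∈ Algebra.adjoin (integralClosure (Algebra.adjoin A₀ {τ}) K)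
      ({algebraMap A' L π'} : Set L),
      (SemilinearAut.toRingAut g : L ≃+* L).toRingHom (algebraMap A' L π') =
        algebraMap A' L π' + algebraMap A' L π' * c :=
    ⟨algebraMap A' L c₀, mgci_algebraMap_mem (E₀ := E₀) hπ τ hπu hred hπ'0 hπ'u hram g₀ hgm
      hroot hdeg htop c₀, hc₀⟩
  obtain ⟨c, hc, hgc⟩ := mga_adjoin_tau (R := integralClosure (Algebra.adjoin A₀ {τ}) K)
    (SemilinearAut.toRingAut g : L ≃+* L).toRingHom (algebraMap A' L π')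
    (fun r => hgK (r : K)) hα b hb'
  exact ⟨c, (mgc_isIntegral_iff (E₀ := E₀) hπ τ hπu hred hπ'0 hπ'u hram g₀ hgm hroot hdeg
    htop c).2 hc, hgc⟩

/-- The ramification index is positive: `π' ∣ π` in `A'`. -/
theorem mgs_unif_dvd {π : A₀} {π' : A'} {e : ℕ} (hram : π' ^ e ∣ algebraMap A₀ A' π)
    (g₀ : A₀[X]) (hgm : g₀.Monic) (hroot : aeval π' g₀ = 0) (hdeg : g₀.natDegree ≤ e) :
    π' ∣ algebraMap A₀ A' π := by
  have hgdeg : 0 < g₀.natDegree := by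
    rcases Nat.eq_zero_or_pos g₀.natDegree with h0 | h0
    · exfalso
      have h1 : g₀ = 1 := hgm.natDegree_eq_zero.1 h0
      rw [h1] at hroot
      simp at hroot
    · exact h0
  have he : 1 ≤ e := hgdeg.trans_le hdeg
  exact (dvd_pow_self π' (Nat.one_le_iff_ne_zero.1 he)).trans hram

/-- `A₀ → L` is injective. -/
theorem mgs_algebraMap_injective (E₀ K : Type u) [Field E₀] [Algebra A₀ E₀] [IsFractionRing A₀ E₀]
    [Field K] [Algebra E₀ K] [Algebra A₀ K] [IsScalarTower A₀ E₀ K]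
    (L : Type v) [Field L] [Algebra K L] [Algebra A₀ L] [IsScalarTower A₀ K L] :
    Function.Injective (algebraMap A₀ L) := by
  rw [IsScalarTower.algebraMap_eq A₀ K L, IsScalarTower.algebraMap_eq A₀ E₀ K]
  exact (algebraMap K L).injective.comp
    ((algebraMap E₀ K).injective.comp (IsFractionRing.injective A₀ E₀))

/-- **MG-5a, stage data.**  `B'` a chart over `A'` with the same special fibre as the chart
`B₀` over `A₀` (`MgcRamified j ϖ p`, MG-4), `𝔫' ∋ ϖ` a prime of `B'` whose contraction to `B₀` is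
a crossing `(p, X, Y)`, `p ∣ X Y`.  Then for every `n ≥ 1` there are stage data
`X' Y' = p ^ n' G'` in the image of `B₀`, with `NodesLocGen 𝔫' {ϖ, X', Y'}` and
`n ≤ n' ∨ G' ∉ 𝔫'`. -/
theorem mgs_stage {R R' : Type*} [CommRing R] [CommRing R'] {j : R →+* R'} {ϖ : R'} {p : R}
    (h : MgcRamified j ϖ p) (𝔫' : Ideal R') [𝔫'.IsPrime] (hϖ : ϖ ∈ 𝔫')
    (X Y : R) (hX : j X ∈ 𝔫') (hY : j Y ∈ 𝔫') (hXY : p ∣ X * Y)
    (hgen : NodesLocGen (𝔫'.comap j) {p, X, Y}) (n : ℕ) (hn : 1 ≤ n) :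
    ∃ (n' : ℕ) (X' Y' G' : R), 1 ≤ n' ∧ j X' ∈ 𝔫' ∧ j Y' ∈ 𝔫' ∧
      j X' * j Y' = j p ^ n' * j G' ∧ NodesLocGen 𝔫' {ϖ, j X', j Y'} ∧
      (n ≤ n' ∨ j G' ∉ 𝔫') := by
  obtain ⟨n', X', Y', G', hn', hX', hY', hXY', hgen', hthin⟩ :=
    unip_morse_iter (𝔫'.comap j) p (h.mgg_mem_comap hϖ) X Y (Ideal.mem_comap.2 hX)
      (Ideal.mem_comap.2 hY) hXY hgen n hn
  refine ⟨n', X', Y', G', hn', Ideal.mem_comap.1 hX', Ideal.mem_comap.1 hY', ?_,
    h.mgg_locGen_triple hϖ X' Y' hgen', hthin.imp id (fun hG hG' => hG (Ideal.mem_comap.2 hG'))⟩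
  rw [← map_mul, hXY', map_mul, map_pow]

/-- **MG-5a, the hypothesis `hcoord` of (T′)** (`at_main_two`, `at_local_factor`) on the chart
`τ` over the ramified base `A'`, from U5's output over `A₀`: every closed point of the special
fibre of `B₀ = integralClosure A₀[τ] K` is a smooth point `(π, s)` or a crossing `(π, X, Y)`,
`π ∣ X Y`.  `g` is the identity on the image of `K`, preserves `A'` and is trivial modulo `π'`
on the chart together with `g⁻¹` (`mgs_trivMod`); `P` is a rational point of the tube of `𝔫`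
moved by `g`. -/
theorem mgs_hcoord {π : A₀} (hπ : Irreducible π) (τ : K) [FiniteDimensional E₀⟮τ⟯ K]
    (hπu : ¬ IsUnit (algebraMap A₀ (integralClosure (Algebra.adjoin A₀ {τ}) K) π))
    (hred : ∀ c : integralClosure (Algebra.adjoin A₀ {τ}) K,
      algebraMap A₀ (integralClosure (Algebra.adjoin A₀ {τ}) K) π ∣ c ^ 2 →
        algebraMap A₀ (integralClosure (Algebra.adjoin A₀ {τ}) K) π ∣ c)
    [Algebra.IsIntegral A₀ A']
    {π' : A'} (hπ' : Irreducible π') {e : ℕ}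
    (hram : π' ^ e ∣ algebraMap A₀ A' π)
    (g₀ : A₀[X]) (hgm : g₀.Monic) (hroot : aeval π' g₀ = 0) (hdeg : g₀.natDegree ≤ e)
    (htop : Algebra.adjoin K ({algebraMap A' L π'} : Set L) = ⊤)
    (ht : Transcendental E' (algebraMap K L τ)) [FiniteDimensional E'⟮algebraMap K L τ⟯ L]
    (hU5 : ∀ 𝔫 : Ideal (integralClosure (Algebra.adjoin A₀ {τ}) K), 𝔫.IsMaximal →
      algebraMap A₀ (integralClosure (Algebra.adjoin A₀ {τ}) K) π ∈ 𝔫 →
      (∃ s ∈ 𝔫, NodesLocGen 𝔫 {algebraMap A₀ (integralClosure (Algebra.adjoin A₀ {τ}) K) π, s}) ∨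
      (∃ X Y : integralClosure (Algebra.adjoin A₀ {τ}) K, X ∈ 𝔫 ∧ Y ∈ 𝔫 ∧
        algebraMap A₀ (integralClosure (Algebra.adjoin A₀ {τ}) K) π ∣ X * Y ∧
        NodesLocGen 𝔫 {algebraMap A₀ (integralClosure (Algebra.adjoin A₀ {τ}) K) π, X, Y}))
    (g : SemilinearAut E' L)
    (hgK : ∀ x : K, g • algebraMap K L x = algebraMap K L x)
    (hgA : ∀ α : A', ∃ α' : A', g • algebraMap A' L α = algebraMap A' L α')
    (hg : AtTrivMod π' (algebraMap K L τ) g) (hg' : AtTrivMod π' (algebraMap K L τ) g⁻¹)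
    (𝔫 : AtPt (F := L) π' (algebraMap K L τ)) (P : Place E' L)
    (hP : LsTube ↥(zchClosure (A₀ := A') ({algebraMap K L τ} : Set L)) (algebraMap K L τ) 𝔫.1 P)
    (hgP : g • P ≠ P)
    (hrat : ∀ f ∈ P.toValuationSubring,
      ∃ c : E', f - algebraMap E' L c ∈ P.toValuationSubring.nonunits) :
    ∃ f : L, f ≠ 0 ∧ P.ord f = 1 ∧ ∀ Q : Place E' L,
      LsTube ↥(zchClosure (A₀ := A') ({algebraMap K L τ} : Set L)) (algebraMap K L τ) 𝔫.1 Q →
        g • Q ≠ Q → Q ≠ P → Q.ord f = 0 := by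
  classical
  have hinj : Function.Injective
      (algebraMap ↥(zchClosure (A₀ := A') ({algebraMap K L τ} : Set L)) L) :=
    Subtype.val_injective
  have hB : ∀ y : L,
      y ∈ (algebraMap ↥(zchClosure (A₀ := A') ({algebraMap K L τ} : Set L)) L).range ↔
        IsIntegral (Algebra.adjoin A' ({algebraMap K L τ} : Set L)) y := by
    intro y
    constructor
    · rintro ⟨b, rfl⟩
      exact mem_zchClosure.mp b.2
    · intro hy
      exact ⟨⟨y, mem_zchClosure.mpr hy⟩, rfl⟩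
  haveI : IsNoetherianRing ↥(zchClosure (A₀ := A') ({algebraMap K L τ} : Set L)) :=
    chart_closure_isNoetherianRing (A₀ := A') (E := E') ht
  obtain ⟨j, hj, hR⟩ := mgc_ramified (E₀ := E₀)
    (B' := ↥(zchClosure (A₀ := A') ({algebraMap K L τ} : Set L))) hπ τ hπu hred hπ'.ne_zero
    hπ'.not_isUnit hram g₀ hgm hroot hdeg htop hinj hB
  haveI h𝔫max : 𝔫.1.IsMaximal := 𝔫.2.1
  haveI h𝔫prime : 𝔫.1.IsPrime := h𝔫max.isPrime
  have hϖ : algebraMap A' ↥(zchClosure (A₀ := A') ({algebraMap K L τ} : Set L)) π' ∈ 𝔫.1 := 𝔫.2.2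
  have hmax := hR.mgg_comap_isMaximal 𝔫.1 hϖ
  have hp𝔫 := hR.mgg_mem_comap hϖ
  have hPt : UnipTubePoint (algebraMap K L τ) 𝔫.1 P := ⟨hP.1, hP.2, hrat⟩
  have hgB := hg.mem 𝔫.1 hϖ
  have hgB₀' : ∀ b : ↥(zchClosure (A₀ := A') ({algebraMap K L τ} : Set L)),
      ∃ b' : ↥(zchClosure (A₀ := A') ({algebraMap K L τ} : Set L)),
        g⁻¹ • algebraMap ↥(zchClosure (A₀ := A') ({algebraMap K L τ} : Set L)) L b =
          algebraMap ↥(zchClosure (A₀ := A') ({algebraMap K L τ} : Set L)) L b' := fun b =>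
    ⟨⟨g⁻¹ • (b : L), mem_zchClosure.mpr (hg'.isIntegral (mem_zchClosure.mp b.2))⟩, rfl⟩
  rcases hU5 _ hmax hp𝔫 with ⟨s, hs, hgen⟩ | ⟨X, Y, hX, hY, hXY, hgen⟩
  · obtain ⟨f, hf0, hf1, hfQ⟩ := unip_coord_disc hπ' (algebraMap K L τ) ht hinj hB 𝔫.1 hϖ (j s)
      (Ideal.mem_comap.1 hs) (hR.mgg_locGen_pair hϖ s hgen) P hPt
    exact ⟨f, hf0, hf1, fun Q hQ _ hQP => hfQ Q hQ.1 hQ.2 hQP⟩
  · -- the image of `π` in `B'`
    have hjp : j (algebraMap A₀ (integralClosure (Algebra.adjoin A₀ {τ}) K) π) =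
        algebraMap A' ↥(zchClosure (A₀ := A') ({algebraMap K L τ} : Set L))
          (algebraMap A₀ A' π) := by
      apply hinj
      rw [hj, ← IsScalarTower.algebraMap_apply A' _ L, ← IsScalarTower.algebraMap_apply A₀ A' L,
        IsScalarTower.algebraMap_apply A₀ K L]
      rfl
    have hq0 : algebraMap A₀ A' π ≠ 0 := by
      intro h0
      have h1 : algebraMap A₀ L π = 0 := by
        rw [IsScalarTower.algebraMap_apply A₀ A' L, h0, map_zero]
      exact hπ.ne_zero (mgs_algebraMap_injective E₀ K L (by rw [h1, map_zero]))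
    have hgq : g • algebraMap A' L (algebraMap A₀ A' π) = algebraMap A' L (algebraMap A₀ A' π) := by
      rw [← IsScalarTower.algebraMap_apply A₀ A' L, IsScalarTower.algebraMap_apply A₀ K L]
      exact hgK _
    have hstage : ∀ n : ℕ, 1 ≤ n → ∃ (n' : ℕ)
        (X Y G : ↥(zchClosure (A₀ := A') ({algebraMap K L τ} : Set L))), X ∈ 𝔫.1 ∧ Y ∈ 𝔫.1 ∧
        X * Y = algebraMap A' ↥(zchClosure (A₀ := A') ({algebraMap K L τ} : Set L))
          (algebraMap A₀ A' π) ^ n' * G ∧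
        NodesLocGen 𝔫.1
          {algebraMap A' ↥(zchClosure (A₀ := A') ({algebraMap K L τ} : Set L)) π', X, Y} ∧
        g • algebraMap ↥(zchClosure (A₀ := A') ({algebraMap K L τ} : Set L)) L X =
          algebraMap ↥(zchClosure (A₀ := A') ({algebraMap K L τ} : Set L)) L X ∧
        g • algebraMap ↥(zchClosure (A₀ := A') ({algebraMap K L τ} : Set L)) L Y =
          algebraMap ↥(zchClosure (A₀ := A') ({algebraMap K L τ} : Set L)) L Y ∧
        (n ≤ n' ∨ G ∉ 𝔫.1) := by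
      intro n hn
      obtain ⟨n', X', Y', G', -, hX', hY', hXY', hgen', hthin⟩ :=
        mgs_stage hR 𝔫.1 hϖ X Y (Ideal.mem_comap.1 hX) (Ideal.mem_comap.1 hY) hXY hgen n hn
      refine ⟨n', j X', j Y', j G', hX', hY', ?_, hgen', ?_, ?_, hthin⟩
      · rw [hXY', hjp]
      · rw [hj]; exact hgK _
      · rw [hj]; exact hgK _
    obtain ⟨f, hf0, hf1, hfQ⟩ := unip_coord_node hπ' (algebraMap K L τ) ht hinj hB 𝔫.1 hϖ g
      (hgK τ) hgB hgB₀' hgA (algebraMap A₀ A' π) hq0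
      (mgs_unif_dvd hram g₀ hgm hroot hdeg) hgq hstage P hPt hgP
    exact ⟨f, hf0, hf1, fun Q hQ _ hQP => hfQ Q hQ.1 hQ.2 hQP⟩

/-- The output of `nodes_chart` / `nodes_chart_hom` (U5), in the form of the hypothesis `hU5` of
`mgs_hcoord`. -/
theorem mgs_u5_of_nodes {B S : Type*} [CommRing B] [CommRing S] {p : B} {ρ ρ₀ : B →+* S}
    {𝔫 : Ideal B}
    (h : (∃ s ∈ 𝔫, NodesLocGen 𝔫 {p, s}) ∨
      ((∀ x : B, ρ x = 0 → x ∈ 𝔫) ∧ (∀ x : B, ρ₀ x = 0 → x ∈ 𝔫) ∧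
        ∃ X Y : B, ρ X = 0 ∧ ρ₀ Y = 0 ∧ NodesSmoothAt ρ₀ 𝔫 X ∧ NodesSmoothAt ρ 𝔫 Y ∧
          p ∣ X * Y ∧ NodesLocGen 𝔫 {p, X, Y})) :
    (∃ s ∈ 𝔫, NodesLocGen 𝔫 {p, s}) ∨
      (∃ X Y : B, X ∈ 𝔫 ∧ Y ∈ 𝔫 ∧ p ∣ X * Y ∧ NodesLocGen 𝔫 {p, X, Y}) := by
  rcases h with h | ⟨h1, h2, X, Y, hX, hY, -, -, hXY, hgen⟩
  · exact Or.inl h
  · exact Or.inr ⟨X, Y, h1 X hX, h2 Y hY, hXY, hgen⟩

/-- **MG-5a, (SS1) over the ramified base**, in the form of the hypothesis `hSS1` of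
`at_main_two`: from (SS1) over `A₀` for the traces on `K` of the vertical valuation rings `V c`
of `L`. -/
theorem mgs_SS1 {π : A₀} (hπ : Irreducible π) (τ : K) [FiniteDimensional E₀⟮τ⟯ K]
    (hπu : ¬ IsUnit (algebraMap A₀ (integralClosure (Algebra.adjoin A₀ {τ}) K) π))
    (hred : ∀ c : integralClosure (Algebra.adjoin A₀ {τ}) K,
      algebraMap A₀ (integralClosure (Algebra.adjoin A₀ {τ}) K) π ∣ c ^ 2 →
        algebraMap A₀ (integralClosure (Algebra.adjoin A₀ {τ}) K) π ∣ c)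
    [Algebra.IsIntegral A₀ A']
    {π' : A'} (hπ'0 : π' ≠ 0) (hπ'u : ¬ IsUnit π') {e : ℕ}
    (hram : π' ^ e ∣ algebraMap A₀ A' π)
    (g₀ : A₀[X]) (hgm : g₀.Monic) (hroot : aeval π' g₀ = 0) (hdeg : g₀.natDegree ≤ e)
    (htop : Algebra.adjoin K ({algebraMap A' L π'} : Set L) = ⊤)
    {κ : Type*} (V : κ → ValuationSubring L)
    (hBV : ∀ c (b : L), IsIntegral ↥(Algebra.adjoin A' {algebraMap K L τ}) b → b ∈ V c)
    (hπV : ∀ c, algebraMap A' L π' ∈ (V c).nonunits)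
    (hSS1₀ : ∀ x : integralClosure (Algebra.adjoin A₀ {τ}) K,
      (∀ c, algebraMap K L (x : K) ∈ (V c).nonunits) →
        algebraMap A₀ (integralClosure (Algebra.adjoin A₀ {τ}) K) π ∣ x) :
    ∀ b : L, IsIntegral ↥(Algebra.adjoin A' {algebraMap K L τ}) b →
      (∀ c, b ∈ (V c).nonunits) →
      ∃ b' : L, IsIntegral ↥(Algebra.adjoin A' {algebraMap K L τ}) b' ∧
        b = algebraMap A' L π' * b' := by
  intro b hb hbV
  have hinj : Function.Injective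
      (algebraMap ↥(zchClosure (A₀ := A') ({algebraMap K L τ} : Set L)) L) :=
    Subtype.val_injective
  have hB : ∀ y : L,
      y ∈ (algebraMap ↥(zchClosure (A₀ := A') ({algebraMap K L τ} : Set L)) L).range ↔
        IsIntegral (Algebra.adjoin A' ({algebraMap K L τ} : Set L)) y := by
    intro y
    constructor
    · rintro ⟨b, rfl⟩
      exact mem_zchClosure.mp b.2
    · intro hy
      exact ⟨⟨y, mem_zchClosure.mpr hy⟩, rfl⟩
  obtain ⟨j, hj, hR⟩ := mgc_ramified (E₀ := E₀)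
    (B' := ↥(zchClosure (A₀ := A') ({algebraMap K L τ} : Set L))) hπ τ hπu hred hπ'0
    hπ'u hram g₀ hgm hroot hdeg htop hinj hB
  obtain ⟨c, z, hcz⟩ := hR.decomp ⟨b, mem_zchClosure.mpr hb⟩
  have hcz' : b = algebraMap K L (c : K) + algebraMap A' L π' * (z : L) := by
    have := congrArg (algebraMap ↥(zchClosure (A₀ := A') ({algebraMap K L τ} : Set L)) L) hcz
    rw [map_add, map_mul, hj, ← IsScalarTower.algebraMap_apply A' _ L] at this
    exact this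
  have hc : ∀ k, algebraMap K L (c : K) ∈ (V k).nonunits := by
    intro k
    have h1 : algebraMap K L (c : K) = b - algebraMap A' L π' * (z : L) := by
      rw [hcz']; ring
    rw [h1]
    have hz : (z : L) ∈ V k := hBV k _ (mem_zchClosure.mp z.2)
    have h2 : algebraMap A' L π' * (z : L) ∈ (V k).nonunits := by
      rw [ValuationSubring.mem_nonunits_iff, map_mul]
      have h3 := (ValuationSubring.mem_nonunits_iff (A := V k)).1 (hπV k)
      have h4 := ((V k).valuation_le_one_iff _).2 hz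
      calc (V k).valuation (algebraMap A' L π') * (V k).valuation (z : L)
          ≤ (V k).valuation (algebraMap A' L π') * 1 := by gcongr
        _ = (V k).valuation (algebraMap A' L π') := mul_one _
        _ < 1 := h3
    rw [ValuationSubring.mem_nonunits_iff] at h2 ⊢
    have h5 := (ValuationSubring.mem_nonunits_iff (A := V k)).1 (hbV k)
    exact lt_of_le_of_lt ((V k).valuation.map_sub _ _) (max_lt h5 h2)
  obtain ⟨c', hc'⟩ := hSS1₀ c hc
  obtain ⟨w, hw⟩ := hR.dvd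
  refine ⟨((w * j c' + z : ↥(zchClosure (A₀ := A') ({algebraMap K L τ} : Set L))) : L),
    mem_zchClosure.mp (w * j c' + z).2, ?_⟩
  have h6 : j c = algebraMap A' ↥(zchClosure (A₀ := A') ({algebraMap K L τ} : Set L)) π' *
      (w * j c') := by
    rw [hc', map_mul, hw]; ring
  have h7 := congrArg (algebraMap ↥(zchClosure (A₀ := A') ({algebraMap K L τ} : Set L)) L) h6
  rw [hj, map_mul, ← IsScalarTower.algebraMap_apply A' _ L] at h7
  have h8 : algebraMap K L (c : K) = algebraMap A' L π' *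
      ((w * j c' : ↥(zchClosure (A₀ := A') ({algebraMap K L τ} : Set L))) : L) := h7
  have h9 : ((w * j c' + z : ↥(zchClosure (A₀ := A') ({algebraMap K L τ} : Set L))) : L) =
      ((w * j c' : ↥(zchClosure (A₀ := A') ({algebraMap K L τ} : Set L))) : L) + (z : L) := rfl
  rw [hcz', h8, h9, mul_add]

end Stage

end Fermat.Agent.UNIP


end ZBUNIP_010_4

/-! ### bundled: `Fermat.Agent.UNIP.MGChartsBeta0Reg` -/
section ZBUNIP_010_5
/-
UNIP (S34/S35), direct route, piece MG-5a "chart hypotheses of (T′)", U5 plugged in (helper16).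

Setting of `MGVertInertia.lean` / `STB/FrobLift.lean`: `A` a valuation subring of `ℚ̄` over `q`,
`K₀ ⊆ ℚ̄` an intermediate field with `A₀ = beta0Ring A K₀ = A ∩ K₀` a discrete valuation ring,
uniformizer `π`, level `M q`, `V = mgvV hπ ιC hq hqM`.  From `h : RegChart π (bgJ K₀ M)`
(resp. `RegChart π (bgJ K₀ M)⁻¹`; `STB/FrobReg.lean`: `stb_regChart_conc_J/_Jinv`) and a Frobenius
element `φ` at `A` with `φ K₀ ⊆ K₀`:

* `mgcb_reg_ker_J`, `mgcb_reg_ker_Jinv` : (SS1) on the charts `j`, `1/j` of `F_{Mq}(K₀)` for the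
  vertical valuations: `(∀ c, x ∈ 𝔪(V c)) → π ∣ x`;
* `mgcb_reg_SS1_J`, `mgcb_reg_SS1_Jinv` : the same in the shape `hSS1` of `at_main_two` /
  `MgcData` / `StbdInputs`;
(the three U5 inputs `hπu`, `hred`, `hU5` are in `MGChartsBeta0RegU5.lean`).
-/

set_option autoImplicit false
set_option linter.style.haveILetI false
set_option linter.unusedSectionVars false
set_option linter.unusedVariables false
set_option linter.style.longLine false
set_option synthInstance.maxHeartbeats 400000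
set_option maxHeartbeats 1000000

noncomputable section

namespace Fermat.Agent.UNIP

open ModularCurve Polynomial IntermediateField Fermat.Agent.INJ Fermat.Agent.AL
open Fermat.Agent.ES Fermat.Agent.ES.G2 Fermat.Agent.STB

section Reg

variable {A : ValuationSubring Qb} {K₀ : IntermediateField ℚ Qb}
  [IsDiscreteValuationRing ↥(beta0Ring A K₀)] {π : ↥(beta0Ring A K₀)} (hπ : Irreducible π)
  (ιC : ↥K₀ →+* ℂ) {q M : ℕ} [NeZero q] [NeZero M] [NeZero (M * q)]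
  (hq : q.Prime) (hqM : ¬ q ∣ M)

/-- the chart `j` of level `M q` is the image of the chart `j` of level `M` -/
theorem mgcb_incl_bgJ : nodesInstIncl ↥K₀ M q (bgJ ↥K₀ M) = bgJ ↥K₀ (M * q) := rfl

/-- the chart `1 / j` of level `M q` is the image of the chart `1 / j` of level `M` -/
theorem mgcb_incl_bgJ_inv :
    nodesInstIncl ↥K₀ M q (bgJ ↥K₀ M)⁻¹ = (bgJ ↥K₀ (M * q))⁻¹ := by
  rw [map_inv₀, mgcb_incl_bgJ]

include ιC hq hqM in
/-- `ρ π = 0` -/
theorem mgcb_rho_unif (t : ↥(modularFunctionFieldFullC ↥K₀ (M * q)))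
    (ht : (t : LaurentSeries ↥K₀) ∈ gaussRing (algebraMap ↥(beta0Ring A K₀) ↥K₀)
      (IsLocalRing.residue ↥(beta0Ring A K₀))) :
    nodesFrobChartRed (IsLocalRing.residue ↥(beta0Ring A K₀)) hπ.ne_zero hπ.not_isUnit
      (stb_residue_ker hπ) (stb_residue_pi hπ) (nodesFrob_full_le (M * q)) t ht
      (algebraMap ↥(beta0Ring A K₀) (integralClosure (Algebra.adjoin ↥(beta0Ring A K₀) {t})
        ↥(modularFunctionFieldFullC ↥K₀ (M * q))) π) = 0 :=
  (mgcb_rho_eq_zero_iff_mgvV hπ ιC hq hqM _ (stb_residue_ker hπ) (stb_residue_pi hπ) t ht _).mpr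
    (mgv_hπV hπ ιC hq hqM true)

/-- `ρ₀ π = 0` -/
theorem mgcb_rho₀_unif (t : ↥(modularFunctionFieldFullC ↥K₀ (M * q)))
    (hwt : (((atkinLehner ↥K₀ ιC hq hqM).toAlgHom t : ↥(modularFunctionFieldFullC ↥K₀ (M * q))) :
      LaurentSeries ↥K₀) ∈ gaussRing (algebraMap ↥(beta0Ring A K₀) ↥K₀)
        (IsLocalRing.residue ↥(beta0Ring A K₀))) :
    nodesSwapRho₀ (IsLocalRing.residue ↥(beta0Ring A K₀)) hπ.ne_zero hπ.not_isUnit
      (stb_residue_ker hπ) (stb_residue_pi hπ) (nodesFrob_full_le (M * q))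
      (atkinLehner ↥K₀ ιC hq hqM).toAlgHom t hwt
      (algebraMap ↥(beta0Ring A K₀) (integralClosure (Algebra.adjoin ↥(beta0Ring A K₀) {t})
        ↥(modularFunctionFieldFullC ↥K₀ (M * q))) π) = 0 :=
  (mgcb_rho₀_eq_zero_iff_mgvV hπ ιC hq hqM _ (stb_residue_ker hπ) (stb_residue_pi hπ) t hwt
    _).mpr (mgv_hπV hπ ιC hq hqM false)

/-! ### (SS1) -/

theorem mgcb_reg_ker_J_aux (hA : A.LiesOverPrime q) (h : RegChart (E := ↥K₀) π (bgJ ↥K₀ M))
    (t : ↥(modularFunctionFieldFullC ↥K₀ (M * q)))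
    (e : nodesInstIncl ↥K₀ M q (bgJ ↥K₀ M) = t)
    (x : integralClosure (Algebra.adjoin ↥(beta0Ring A K₀) {t})
      ↥(modularFunctionFieldFullC ↥K₀ (M * q)))
    (hx : ∀ c, (x : ↥(modularFunctionFieldFullC ↥K₀ (M * q))) ∈
      (mgvV hπ ιC hq hqM c).nonunits) :
    algebraMap ↥(beta0Ring A K₀) (integralClosure (Algebra.adjoin ↥(beta0Ring A K₀) {t})
      ↥(modularFunctionFieldFullC ↥K₀ (M * q))) π ∣ x := by
  subst e
  haveI : Fact q.Prime := ⟨hq⟩
  haveI : CharP (IsLocalRing.ResidueField ↥(beta0Ring A K₀)) q := frobLift_charP A K₀ hq hA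
  exact mgcb_SS1_base hπ ιC hq hqM (IsLocalRing.residue ↥(beta0Ring A K₀))
    (stb_residue_ker hπ) (stb_residue_pi hπ) _ _ _
    (fun y hy hy₀ => nodesReg_ker_J K₀ (IsLocalRing.residue ↥(beta0Ring A K₀)) ιC hq hqM hπ
      (stb_residue_ker hπ) (stb_residue_pi hπ) h y hy hy₀) x hx

theorem mgcb_reg_ker_Jinv_aux (hA : A.LiesOverPrime q)
    (h : RegChart (E := ↥K₀) π (bgJ ↥K₀ M)⁻¹)
    (t : ↥(modularFunctionFieldFullC ↥K₀ (M * q)))
    (e : nodesInstIncl ↥K₀ M q (bgJ ↥K₀ M)⁻¹ = t)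
    (x : integralClosure (Algebra.adjoin ↥(beta0Ring A K₀) {t})
      ↥(modularFunctionFieldFullC ↥K₀ (M * q)))
    (hx : ∀ c, (x : ↥(modularFunctionFieldFullC ↥K₀ (M * q))) ∈
      (mgvV hπ ιC hq hqM c).nonunits) :
    algebraMap ↥(beta0Ring A K₀) (integralClosure (Algebra.adjoin ↥(beta0Ring A K₀) {t})
      ↥(modularFunctionFieldFullC ↥K₀ (M * q))) π ∣ x := by
  subst e
  haveI : Fact q.Prime := ⟨hq⟩
  haveI : CharP (IsLocalRing.ResidueField ↥(beta0Ring A K₀)) q := frobLift_charP A K₀ hq hA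
  exact mgcb_SS1_base hπ ιC hq hqM (IsLocalRing.residue ↥(beta0Ring A K₀))
    (stb_residue_ker hπ) (stb_residue_pi hπ) _ _ _
    (fun y hy hy₀ => nodesReg_ker_Jinv K₀ (IsLocalRing.residue ↥(beta0Ring A K₀)) ιC hq hqM hπ
      (stb_residue_ker hπ) (stb_residue_pi hπ) h y hy hy₀) x hx

/-- **(SS1) on the chart `j`** of `F_{Mq}(K₀)` over `A ∩ K₀`, for the vertical valuations. -/
theorem mgcb_reg_ker_J (hA : A.LiesOverPrime q) (h : RegChart (E := ↥K₀) π (bgJ ↥K₀ M))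
    (x : integralClosure (Algebra.adjoin ↥(beta0Ring A K₀) {bgJ ↥K₀ (M * q)})
      ↥(modularFunctionFieldFullC ↥K₀ (M * q)))
    (hx : ∀ c, (x : ↥(modularFunctionFieldFullC ↥K₀ (M * q))) ∈
      (mgvV hπ ιC hq hqM c).nonunits) :
    algebraMap ↥(beta0Ring A K₀) (integralClosure
      (Algebra.adjoin ↥(beta0Ring A K₀) {bgJ ↥K₀ (M * q)})
      ↥(modularFunctionFieldFullC ↥K₀ (M * q))) π ∣ x :=
  mgcb_reg_ker_J_aux hπ ιC hq hqM hA h _ mgcb_incl_bgJ x hx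

/-- **(SS1) on the chart `1 / j`** of `F_{Mq}(K₀)` over `A ∩ K₀`, for the vertical
valuations. -/
theorem mgcb_reg_ker_Jinv (hA : A.LiesOverPrime q)
    (h : RegChart (E := ↥K₀) π (bgJ ↥K₀ M)⁻¹)
    (x : integralClosure (Algebra.adjoin ↥(beta0Ring A K₀) {(bgJ ↥K₀ (M * q))⁻¹})
      ↥(modularFunctionFieldFullC ↥K₀ (M * q)))
    (hx : ∀ c, (x : ↥(modularFunctionFieldFullC ↥K₀ (M * q))) ∈
      (mgvV hπ ιC hq hqM c).nonunits) :
    algebraMap ↥(beta0Ring A K₀) (integralClosure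
      (Algebra.adjoin ↥(beta0Ring A K₀) {(bgJ ↥K₀ (M * q))⁻¹})
      ↥(modularFunctionFieldFullC ↥K₀ (M * q))) π ∣ x :=
  mgcb_reg_ker_Jinv_aux hπ ιC hq hqM hA h _ mgcb_incl_bgJ_inv x hx

/-- **`hSS1` of `at_main_two` / `MgcData` / `StbdInputs`** (chart `j`), for ANY intermediate
field `K₀` with `A ∩ K₀` a discrete valuation ring, from `RegChart π (bgJ K₀ M)`. -/
theorem mgcb_reg_SS1_J (hA : A.LiesOverPrime q) (h : RegChart (E := ↥K₀) π (bgJ ↥K₀ M)) :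
    ∀ b : ↥(modularFunctionFieldFullC ↥K₀ (M * q)),
      IsIntegral ↥(Algebra.adjoin ↥(beta0Ring A K₀)
        ({bgJ ↥K₀ (M * q)} : Set ↥(modularFunctionFieldFullC ↥K₀ (M * q)))) b →
      (∀ c, b ∈ (mgvV hπ ιC hq hqM c).nonunits) →
      ∃ b' : ↥(modularFunctionFieldFullC ↥K₀ (M * q)),
        IsIntegral ↥(Algebra.adjoin ↥(beta0Ring A K₀)
          ({bgJ ↥K₀ (M * q)} : Set ↥(modularFunctionFieldFullC ↥K₀ (M * q)))) b' ∧
        b = algebraMap ↥(beta0Ring A K₀) ↥(modularFunctionFieldFullC ↥K₀ (M * q)) π * b' := by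
  intro b hb hbV
  obtain ⟨c, hc⟩ := mgcb_reg_ker_J hπ ιC hq hqM hA h ⟨b, hb⟩ hbV
  exact ⟨(c : ↥(modularFunctionFieldFullC ↥K₀ (M * q))), c.2, congrArg Subtype.val hc⟩

/-- **`hSS1`, chart `1 / j`.** -/
theorem mgcb_reg_SS1_Jinv (hA : A.LiesOverPrime q)
    (h : RegChart (E := ↥K₀) π (bgJ ↥K₀ M)⁻¹) :
    ∀ b : ↥(modularFunctionFieldFullC ↥K₀ (M * q)),
      IsIntegral ↥(Algebra.adjoin ↥(beta0Ring A K₀)
        ({(bgJ ↥K₀ (M * q))⁻¹} : Set ↥(modularFunctionFieldFullC ↥K₀ (M * q)))) b →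
      (∀ c, b ∈ (mgvV hπ ιC hq hqM c).nonunits) →
      ∃ b' : ↥(modularFunctionFieldFullC ↥K₀ (M * q)),
        IsIntegral ↥(Algebra.adjoin ↥(beta0Ring A K₀)
          ({(bgJ ↥K₀ (M * q))⁻¹} : Set ↥(modularFunctionFieldFullC ↥K₀ (M * q)))) b' ∧
        b = algebraMap ↥(beta0Ring A K₀) ↥(modularFunctionFieldFullC ↥K₀ (M * q)) π * b' := by
  intro b hb hbV
  obtain ⟨c, hc⟩ := mgcb_reg_ker_Jinv hπ ιC hq hqM hA h ⟨b, hb⟩ hbV
  exact ⟨(c : ↥(modularFunctionFieldFullC ↥K₀ (M * q))), c.2, congrArg Subtype.val hc⟩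

end Reg

end Fermat.Agent.UNIP

end
end ZBUNIP_010_5

/-! ### bundled: `Fermat.Agent.UNIP.MGCoord` -/
section ZBUNIP_010_6
/-
UNIP / MG-5c (helper23): the hypotheses `hcoord₁` / `hcoord₂` of `at_main_two`
(`UNIP/AbstractT.lean`) from the output of U5 on the unramified chart.

Abstract part (setting of `unip_hcoord_of_nodes`, `UNIP/CoordTransport.lean`): `A₀` = the ramified
base `A′` (uniformizer `π = π′`), `B′ = zchClosure {u}` the chart over `A′`, `R` = the chart over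
the unramified base, `j : R →+* B′` with `MgcRamified j π′ p` (MG-4), `V c₁`, `V c₂` the two
vertical valuation rings, `ρ₁`, `ρ₂` the two reduction maps of U5 on `R`
(`V c_i`-nonunits of `j R` = `ker ρ_i`).

* `mgcoord_hnode`        : the output of U5 at `𝔫.comap j` (weak shape) ⇒ `hnode` of
                           `unip_hcoord_of_nodes` at `𝔫`;
* `mgcoord_u5_weaken`    : the exact shape of `nodes_modular_chart` ⇒ the weak shape;
* `mgcoord_hcoord`       : `hcoord` of `at_main_two` for the chart `u`, at every `𝔫 : AtPt π u`;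
* `mgcoord_hcoord_inv`   : the same for the chart `t⁻¹`, with the hypotheses stated for `t`
                           where `at_main_two` states them for `t`.
-/

set_option autoImplicit false
set_option linter.style.haveILetI false
set_option linter.unusedSectionVars false
set_option linter.unusedVariables false

namespace Fermat.Agent.UNIP

open Polynomial IntermediateField Fermat.Agent.INJ AlgebraicCurve

section Weaken

variable {R : Type*} [CommRing R]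

/-- The exact shape of the conclusion of `nodes_modular_chart` (U5) implies the weak shape used
below (drop `NodesSmoothAt` and `p ∣ X * Y`). -/
theorem mgcoord_u5_weaken {S₁ S₂ : Type*} [CommRing S₁] [CommRing S₂] (ρ₁ : R →+* S₁)
    (ρ₂ : R →+* S₂) (p : R) (𝔪 : Ideal R)
    (h : (∃ s ∈ 𝔪, NodesLocGen 𝔪 {p, s}) ∨
      ((∀ x, ρ₁ x = 0 → x ∈ 𝔪) ∧ (∀ x, ρ₂ x = 0 → x ∈ 𝔪) ∧
        ∃ X Y : R, ρ₁ X = 0 ∧ ρ₂ Y = 0 ∧ NodesSmoothAt ρ₂ 𝔪 X ∧ NodesSmoothAt ρ₁ 𝔪 Y ∧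
          p ∣ X * Y ∧ NodesLocGen 𝔪 {p, X, Y})) :
    (∃ s ∈ 𝔪, NodesLocGen 𝔪 {p, s}) ∨
      ((∀ x, ρ₁ x = 0 → x ∈ 𝔪) ∧ (∀ x, ρ₂ x = 0 → x ∈ 𝔪) ∧
        ∃ X Y : R, ρ₁ X = 0 ∧ ρ₂ Y = 0 ∧ NodesLocGen 𝔪 {p, X, Y}) := by
  rcases h with h | ⟨h1, h2, X, Y, hX, hY, -, -, -, hgen⟩
  · exact Or.inl h
  · exact Or.inr ⟨h1, h2, X, Y, hX, hY, hgen⟩

end Weaken

section Abs

variable {A₀ E F : Type*} [CommRing A₀] [IsDomain A₀] [IsDiscreteValuationRing A₀]
  [Field E] [Algebra A₀ E] [IsFractionRing A₀ E] [CharZero E]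
  [Field F] [Algebra E F] [Algebra A₀ F] [IsScalarTower A₀ E F]
  {π : A₀} {κ : Type*}

/-- **`hnode`.**  The output of U5 at the maximal ideal `𝔫.comap j ∋ p` of the unramified chart
`R` gives the hypothesis `hnode` of `unip_hcoord_of_nodes` at `𝔫`. -/
theorem mgcoord_hnode {u : F} (V : κ → ValuationSubring F)
    {R : Type*} [CommRing R] (j : R →+* ↥(zchClosure (A₀ := A₀) ({u} : Set F))) (p : R)
    (hram : MgcRamified j (algebraMap A₀ ↥(zchClosure (A₀ := A₀) ({u} : Set F)) π) p)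
    {S₁ S₂ : Type*} [CommRing S₁] [CommRing S₂] (ρ₁ : R →+* S₁) (ρ₂ : R →+* S₂) (c₁ c₂ : κ)
    (hρ₁ : ∀ x : R, ((j x : ↥(zchClosure (A₀ := A₀) ({u} : Set F))) : F) ∈ (V c₁).nonunits ↔
      ρ₁ x = 0)
    (hρ₂ : ∀ x : R, ((j x : ↥(zchClosure (A₀ := A₀) ({u} : Set F))) : F) ∈ (V c₂).nonunits ↔
      ρ₂ x = 0)
    (hU5 : ∀ 𝔪 : Ideal R, 𝔪.IsMaximal → p ∈ 𝔪 →
      (∃ s ∈ 𝔪, NodesLocGen 𝔪 {p, s}) ∨
      ((∀ x, ρ₁ x = 0 → x ∈ 𝔪) ∧ (∀ x, ρ₂ x = 0 → x ∈ 𝔪) ∧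
        ∃ X Y : R, ρ₁ X = 0 ∧ ρ₂ Y = 0 ∧ NodesLocGen 𝔪 {p, X, Y}))
    (𝔫 : Ideal ↥(zchClosure (A₀ := A₀) ({u} : Set F))) (h𝔫 : 𝔫.IsMaximal)
    (hπ𝔫 : algebraMap A₀ ↥(zchClosure (A₀ := A₀) ({u} : Set F)) π ∈ 𝔫) :
    (∃ s : R, j s ∈ 𝔫 ∧ NodesLocGen (𝔫.comap j) {p, s}) ∨
      ((∀ x : R, ((j x : ↥(zchClosure (A₀ := A₀) ({u} : Set F))) : F) ∈ (V c₁).nonunits →
          j x ∈ 𝔫) ∧
       (∀ x : R, ((j x : ↥(zchClosure (A₀ := A₀) ({u} : Set F))) : F) ∈ (V c₂).nonunits →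
          j x ∈ 𝔫) ∧
       ∃ X Y : R, ((j X : ↥(zchClosure (A₀ := A₀) ({u} : Set F))) : F) ∈ (V c₁).nonunits ∧
         ((j Y : ↥(zchClosure (A₀ := A₀) ({u} : Set F))) : F) ∈ (V c₂).nonunits ∧
         NodesLocGen (𝔫.comap j) {p, X, Y}) := by
  haveI := h𝔫
  have hmax : (𝔫.comap j).IsMaximal := hram.mgg_comap_isMaximal 𝔫 hπ𝔫
  have hp : p ∈ 𝔫.comap j := hram.mgg_mem_comap hπ𝔫
  rcases hU5 (𝔫.comap j) hmax hp with ⟨s, hs, hgen⟩ | ⟨h1, h2, X, Y, hX, hY, hgen⟩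
  · exact Or.inl ⟨s, Ideal.mem_comap.1 hs, hgen⟩
  · refine Or.inr ⟨fun x hx => Ideal.mem_comap.1 (h1 x ((hρ₁ x).1 hx)),
      fun x hx => Ideal.mem_comap.1 (h2 x ((hρ₂ x).1 hx)), X, Y, (hρ₁ X).2 hX, (hρ₂ Y).2 hY, hgen⟩

/-- **MG-5c, abstract form.**  The hypothesis `hcoord` of `at_main_two` / `at_pwiShape` for the
chart `u` over the ramified base, at every closed point `𝔫 : AtPt π u`, from the output of U5 on
the unramified chart `R` and the rationality of the places in the support of `div x` (D8). -/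
theorem mgcoord_hcoord (hπ : Irreducible π) {u : F} (hu : Transcendental E u)
    [FiniteDimensional E⟮u⟯ F] [IsNoetherianRing ↥(zchClosure (A₀ := A₀) ({u} : Set F))]
    (V : κ → ValuationSubring F)
    (hBV : ∀ c (b : F), IsIntegral ↥(Algebra.adjoin A₀ {u}) b → b ∈ V c)
    (hπV : ∀ c, algebraMap A₀ F π ∈ (V c).nonunits)
    (hSS1 : ∀ b : F, IsIntegral ↥(Algebra.adjoin A₀ {u}) b → (∀ c, b ∈ (V c).nonunits) →
      ∃ b' : F, IsIntegral ↥(Algebra.adjoin A₀ {u}) b' ∧ b = algebraMap A₀ F π * b')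
    (hVloc : ∀ c (x : F), x ∈ V c → ∃ b s : F, IsIntegral ↥(Algebra.adjoin A₀ {u}) b ∧
      IsIntegral ↥(Algebra.adjoin A₀ {u}) s ∧ s ∉ (V c).nonunits ∧ s * x = b)
    (g : SemilinearAut E F) (hgu : g • u = u)
    (hgB : AtTrivMod π u g) (hgB' : AtTrivMod π u g⁻¹)
    (hgV : ∀ c (f : F), f ≠ 0 → (V c).valuation (g • f / f) = 1)
    (hgA : ∀ α : A₀, ∃ α' : A₀, g • algebraMap A₀ F α = algebraMap A₀ F α')
    (q : A₀) (hq0 : q ≠ 0) (hqπ : π ∣ q) (hgq : g • algebraMap A₀ F q = algebraMap A₀ F q)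
    {R : Type*} [CommRing R] (j : R →+* ↥(zchClosure (A₀ := A₀) ({u} : Set F))) (p : R)
    (hram : MgcRamified j (algebraMap A₀ ↥(zchClosure (A₀ := A₀) ({u} : Set F)) π) p)
    (hjp : j p = algebraMap A₀ ↥(zchClosure (A₀ := A₀) ({u} : Set F)) q)
    (c₁ c₂ : κ) (hκ : ∀ c, c = c₁ ∨ c = c₂)
    {S₁ S₂ : Type*} [CommRing S₁] [CommRing S₂] (ρ₁ : R →+* S₁) (ρ₂ : R →+* S₂)
    (hρ₁ : ∀ x : R, ((j x : ↥(zchClosure (A₀ := A₀) ({u} : Set F))) : F) ∈ (V c₁).nonunits ↔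
      ρ₁ x = 0)
    (hρ₂ : ∀ x : R, ((j x : ↥(zchClosure (A₀ := A₀) ({u} : Set F))) : F) ∈ (V c₂).nonunits ↔
      ρ₂ x = 0)
    (hU5 : ∀ 𝔪 : Ideal R, 𝔪.IsMaximal → p ∈ 𝔪 →
      (∃ s ∈ 𝔪, NodesLocGen 𝔪 {p, s}) ∨
      ((∀ x, ρ₁ x = 0 → x ∈ 𝔪) ∧ (∀ x, ρ₂ x = 0 → x ∈ 𝔪) ∧
        ∃ X Y : R, ρ₁ X = 0 ∧ ρ₂ Y = 0 ∧ NodesLocGen 𝔪 {p, X, Y}))
    {x : F}
    (hrat : ∀ P : Place E F, P.ord x ≠ 0 → ∀ f ∈ P.toValuationSubring,
      ∃ c : E, f - algebraMap E F c ∈ P.toValuationSubring.nonunits) :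
    ∀ 𝔫 : AtPt (F := F) π u, ∀ P : Place E F,
      LsTube ↥(zchClosure (A₀ := A₀) ({u} : Set F)) u 𝔫.1 P → g • P ≠ P → P.ord x ≠ 0 →
      ∃ f : F, f ≠ 0 ∧ P.ord f = 1 ∧ ∀ Q : Place E F,
        LsTube ↥(zchClosure (A₀ := A₀) ({u} : Set F)) u 𝔫.1 Q → g • Q ≠ Q → Q ≠ P →
          Q.ord f = 0 := by
  intro 𝔫
  haveI := 𝔫.2.1.isPrime
  exact unip_hcoord_of_nodes hπ hu V hBV hπV hSS1 hVloc g hgu 𝔫.1 𝔫.2.2
    (hgB.mem 𝔫.1 𝔫.2.2) (fun b hb => hgB'.isIntegral hb) hgV hgA q hq0 hqπ hgq j p hram hjp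
    c₁ c₂ hκ
    (mgcoord_hnode V j p hram ρ₁ ρ₂ c₁ c₂ hρ₁ hρ₂ hU5 𝔫.1 𝔫.2.1 𝔫.2.2)
    (fun P _ _ hP => hrat P hP)

/-- **MG-5c, abstract form, chart `t⁻¹`.**  As `mgcoord_hcoord` for `u = t⁻¹`, with the
hypotheses on `t` in the form in which `at_main_two` has them (`ht`, `hσt`, `hSS1` for the
chart `t`). -/
theorem mgcoord_hcoord_inv (hπ : Irreducible π) {t : F} (ht : Transcendental E t)
    [FiniteDimensional E⟮t⟯ F] [IsNoetherianRing ↥(zchClosure (A₀ := A₀) ({t⁻¹} : Set F))]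
    (V : κ → ValuationSubring F)
    (hBV₁ : ∀ c (b : F), IsIntegral ↥(Algebra.adjoin A₀ {t}) b → b ∈ V c)
    (hBV₂ : ∀ c (b : F), IsIntegral ↥(Algebra.adjoin A₀ {t⁻¹}) b → b ∈ V c)
    (hπV : ∀ c, algebraMap A₀ F π ∈ (V c).nonunits)
    (hSS1 : ∀ b : F, IsIntegral ↥(Algebra.adjoin A₀ {t}) b → (∀ c, b ∈ (V c).nonunits) →
      ∃ b' : F, IsIntegral ↥(Algebra.adjoin A₀ {t}) b' ∧ b = algebraMap A₀ F π * b')
    (hVloc₂ : ∀ c (x : F), x ∈ V c → ∃ b s : F, IsIntegral ↥(Algebra.adjoin A₀ {t⁻¹}) b ∧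
      IsIntegral ↥(Algebra.adjoin A₀ {t⁻¹}) s ∧ s ∉ (V c).nonunits ∧ s * x = b)
    (g : SemilinearAut E F) (hgt : g • t = t)
    (hgB : AtTrivMod π t⁻¹ g) (hgB' : AtTrivMod π t⁻¹ g⁻¹)
    (hgV : ∀ c (f : F), f ≠ 0 → (V c).valuation (g • f / f) = 1)
    (hgA : ∀ α : A₀, ∃ α' : A₀, g • algebraMap A₀ F α = algebraMap A₀ F α')
    (q : A₀) (hq0 : q ≠ 0) (hqπ : π ∣ q) (hgq : g • algebraMap A₀ F q = algebraMap A₀ F q)
    {R : Type*} [CommRing R] (j : R →+* ↥(zchClosure (A₀ := A₀) ({t⁻¹} : Set F))) (p : R)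
    (hram : MgcRamified j (algebraMap A₀ ↥(zchClosure (A₀ := A₀) ({t⁻¹} : Set F)) π) p)
    (hjp : j p = algebraMap A₀ ↥(zchClosure (A₀ := A₀) ({t⁻¹} : Set F)) q)
    (c₁ c₂ : κ) (hκ : ∀ c, c = c₁ ∨ c = c₂)
    {S₁ S₂ : Type*} [CommRing S₁] [CommRing S₂] (ρ₁ : R →+* S₁) (ρ₂ : R →+* S₂)
    (hρ₁ : ∀ x : R, ((j x : ↥(zchClosure (A₀ := A₀) ({t⁻¹} : Set F))) : F) ∈ (V c₁).nonunits ↔
      ρ₁ x = 0)
    (hρ₂ : ∀ x : R, ((j x : ↥(zchClosure (A₀ := A₀) ({t⁻¹} : Set F))) : F) ∈ (V c₂).nonunits ↔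
      ρ₂ x = 0)
    (hU5 : ∀ 𝔪 : Ideal R, 𝔪.IsMaximal → p ∈ 𝔪 →
      (∃ s ∈ 𝔪, NodesLocGen 𝔪 {p, s}) ∨
      ((∀ x, ρ₁ x = 0 → x ∈ 𝔪) ∧ (∀ x, ρ₂ x = 0 → x ∈ 𝔪) ∧
        ∃ X Y : R, ρ₁ X = 0 ∧ ρ₂ Y = 0 ∧ NodesLocGen 𝔪 {p, X, Y}))
    {x : F}
    (hrat : ∀ P : Place E F, P.ord x ≠ 0 → ∀ f ∈ P.toValuationSubring,
      ∃ c : E, f - algebraMap E F c ∈ P.toValuationSubring.nonunits) :
    ∀ 𝔫 : AtPt (F := F) π t⁻¹, ∀ P : Place E F,
      LsTube ↥(zchClosure (A₀ := A₀) ({t⁻¹} : Set F)) t⁻¹ 𝔫.1 P → g • P ≠ P → P.ord x ≠ 0 →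
      ∃ f : F, f ≠ 0 ∧ P.ord f = 1 ∧ ∀ Q : Place E F,
        LsTube ↥(zchClosure (A₀ := A₀) ({t⁻¹} : Set F)) t⁻¹ 𝔫.1 Q → g • Q ≠ Q → Q ≠ P →
          Q.ord f = 0 := by
  haveI : FiniteDimensional E⟮t⁻¹⟯ F := at_finiteDimensional_inv t
  exact mgcoord_hcoord hπ (zch_transcendental_inv ht) V hBV₂ hπV
    (ats_SS1_inv ht hπ V hBV₁ hSS1) hVloc₂ g (at_smul_inv hgt) hgB hgB' hgV hgA q hq0 hqπ hgq
    j p hram hjp c₁ c₂ hκ ρ₁ ρ₂ hρ₁ hρ₂ hU5 hrat

end Abs

end Fermat.Agent.UNIP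


end ZBUNIP_010_6

/-! ### bundled: `Fermat.Agent.UNIP.MGChartsBeta0RegU5` -/
section ZBUNIP_010_7
/-
UNIP (S34/S35), direct route, piece MG-5a "chart hypotheses of (T′)", U5 plugged in, part 2
(helper16).

* `mgcb_gen_hU5_J`, `mgcb_gen_hU5_Jinv` (generic setting of `NodesFinalReg.lean`) : the
  dichotomy smooth point / crossing `hU5` of `mgcb_G5`, `mgcc_hcoord`, `mgs_hcoord`, `MgcBase`
  at a maximal ideal `𝔫 ∋ π` of the chart `j` (resp. `1 / j`) of `F_{Mq}(K₀)`, from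
  `RegChart π (bgJ K₀ M)` (resp. `(bgJ K₀ M)⁻¹`) and a Frobenius lift `(ψA, ψE, θ)`;
* `mgcb_reg_hU5_J`, `mgcb_reg_hU5_Jinv` : the same in the setting of `MGVertInertia.lean`
  (`A₀ = beta0Ring A K₀`, `r =` residue map), for a Frobenius element `φ` at `A` with
  `φ K₀ ⊆ K₀`.
-/

set_option autoImplicit false
set_option linter.style.haveILetI false
set_option linter.unusedSectionVars false
set_option linter.unusedVariables false
set_option linter.style.longLine false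
set_option synthInstance.maxHeartbeats 400000
set_option maxHeartbeats 8000000

noncomputable section

namespace Fermat.Agent.UNIP

open ModularCurve Polynomial IntermediateField Fermat.Agent.INJ Fermat.Agent.AL
open Fermat.Agent.ES Fermat.Agent.ES.G2 Fermat.Agent.STB

section Generic

variable (K₀ : IntermediateField ℚ NfQb) {A₀ : Type} [CommRing A₀] [IsDomain A₀]
  [IsDiscreteValuationRing A₀] [Algebra A₀ K₀] [IsFractionRing A₀ K₀]
  {k : Type*} [Field k] (r : A₀ →+* k) {π : A₀} (ιC : K₀ →+* ℂ)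
  {q M : ℕ} [NeZero q] [NeZero M] [NeZero (M * q)] (hq : q.Prime) (hqM : ¬ q ∣ M)
  (ψA : A₀ →+* A₀) (ψE : K₀ →+* K₀) (θ : k →+* k)
  [Algebra A₀ (modularFunctionFieldFullC K₀ M)]
  [IsScalarTower A₀ K₀ (modularFunctionFieldFullC K₀ M)]
  [Algebra A₀ (modularFunctionFieldFullC K₀ (M * q))]
  [IsScalarTower A₀ K₀ (modularFunctionFieldFullC K₀ (M * q))]

include r ιC hq hqM ψA ψE θ in
/-- **`hU5` on the chart `j`**, generic. -/
theorem mgcb_gen_hU5_J [Fact q.Prime] [CharP k q]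
    (hπ : Irreducible π) (hr : ∀ a, r a = 0 → π ∣ a) (hrπ : r π = 0)
    (h : RegChart (E := K₀) π (bgJ K₀ M))
    (hψ : ∀ a, ψE (algebraMap A₀ K₀ a) = algebraMap A₀ K₀ (ψA a))
    (hθ : ∀ a, r (ψA a) = θ (r a)) (hθq : ∀ x, θ x ^ q = x)
    (t : modularFunctionFieldFullC K₀ (M * q))
    (e : nodesInstIncl K₀ M q (bgJ K₀ M) = t)
    (𝔫 : Ideal (integralClosure (Algebra.adjoin A₀ {t}) (modularFunctionFieldFullC K₀ (M * q))))
    (h𝔫 : 𝔫.IsMaximal)
    (hπ𝔫 : algebraMap A₀ (integralClosure (Algebra.adjoin A₀ {t})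
      (modularFunctionFieldFullC K₀ (M * q))) π ∈ 𝔫) :
    (∃ s ∈ 𝔫, NodesLocGen 𝔫 {algebraMap A₀ (integralClosure (Algebra.adjoin A₀ {t})
      (modularFunctionFieldFullC K₀ (M * q))) π, s}) ∨
    (∃ X Y : integralClosure (Algebra.adjoin A₀ {t}) (modularFunctionFieldFullC K₀ (M * q)),
      X ∈ 𝔫 ∧ Y ∈ 𝔫 ∧
      algebraMap A₀ (integralClosure (Algebra.adjoin A₀ {t})
        (modularFunctionFieldFullC K₀ (M * q))) π ∣ X * Y ∧
      NodesLocGen 𝔫 {algebraMap A₀ (integralClosure (Algebra.adjoin A₀ {t})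
        (modularFunctionFieldFullC K₀ (M * q))) π, X, Y}) := by
  subst e
  rcases nodesReg_chart_J K₀ r ιC hq hqM ψA ψE θ hπ hr hrπ h hψ hθ hθq 𝔫 h𝔫 hπ𝔫 with
    h0 | ⟨h1, h2, X, Y, hX, hY, -, -, hXY, hgen⟩
  · exact Or.inl h0
  · exact Or.inr ⟨X, Y, h1 X hX, h2 Y hY, hXY, hgen⟩

include r ιC hq hqM ψA ψE θ in
/-- **`hU5` on the chart `1 / j`**, generic. -/
theorem mgcb_gen_hU5_Jinv [Fact q.Prime] [CharP k q]
    (hπ : Irreducible π) (hr : ∀ a, r a = 0 → π ∣ a) (hrπ : r π = 0)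
    (h : RegChart (E := K₀) π (bgJ K₀ M)⁻¹)
    (hψ : ∀ a, ψE (algebraMap A₀ K₀ a) = algebraMap A₀ K₀ (ψA a))
    (hθ : ∀ a, r (ψA a) = θ (r a)) (hθq : ∀ x, θ x ^ q = x)
    (t : modularFunctionFieldFullC K₀ (M * q))
    (e : nodesInstIncl K₀ M q (bgJ K₀ M)⁻¹ = t)
    (𝔫 : Ideal (integralClosure (Algebra.adjoin A₀ {t}) (modularFunctionFieldFullC K₀ (M * q))))
    (h𝔫 : 𝔫.IsMaximal)
    (hπ𝔫 : algebraMap A₀ (integralClosure (Algebra.adjoin A₀ {t})
      (modularFunctionFieldFullC K₀ (M * q))) π ∈ 𝔫) :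
    (∃ s ∈ 𝔫, NodesLocGen 𝔫 {algebraMap A₀ (integralClosure (Algebra.adjoin A₀ {t})
      (modularFunctionFieldFullC K₀ (M * q))) π, s}) ∨
    (∃ X Y : integralClosure (Algebra.adjoin A₀ {t}) (modularFunctionFieldFullC K₀ (M * q)),
      X ∈ 𝔫 ∧ Y ∈ 𝔫 ∧
      algebraMap A₀ (integralClosure (Algebra.adjoin A₀ {t})
        (modularFunctionFieldFullC K₀ (M * q))) π ∣ X * Y ∧
      NodesLocGen 𝔫 {algebraMap A₀ (integralClosure (Algebra.adjoin A₀ {t})
        (modularFunctionFieldFullC K₀ (M * q))) π, X, Y}) := by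
  subst e
  rcases nodesReg_chart_Jinv K₀ r ιC hq hqM ψA ψE θ hπ hr hrπ h hψ hθ hθq 𝔫 h𝔫 hπ𝔫 with
    h0 | ⟨h1, h2, X, Y, hX, hY, -, -, hXY, hgen⟩
  · exact Or.inl h0
  · exact Or.inr ⟨X, Y, h1 X hX, h2 Y hY, hXY, hgen⟩

end Generic

section Reg

variable {A : ValuationSubring Qb} {K₀ : IntermediateField ℚ Qb}
  [IsDiscreteValuationRing ↥(beta0Ring A K₀)] {π : ↥(beta0Ring A K₀)} (hπ : Irreducible π)
  (ιC : ↥K₀ →+* ℂ) {q M : ℕ} [NeZero q] [NeZero M] [NeZero (M * q)]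
  (hq : q.Prime) (hqM : ¬ q ∣ M)

include hπ ιC hq hqM in
/-- **`hU5` on the chart `j`** of `F_{Mq}(K₀)` over `A ∩ K₀`. -/
theorem mgcb_reg_hU5_J (hA : A.LiesOverPrime q) {φ : Qb ≃ₐ[ℚ] Qb}
    (hφF : A.IsFrobeniusAt φ q) (hφ : ∀ x ∈ K₀, φ x ∈ K₀)
    (h : RegChart (E := ↥K₀) π (bgJ ↥K₀ M))
    (𝔫 : Ideal (integralClosure (Algebra.adjoin ↥(beta0Ring A K₀) {bgJ ↥K₀ (M * q)})
      ↥(modularFunctionFieldFullC ↥K₀ (M * q))))
    (h𝔫 : 𝔫.IsMaximal)
    (hπ𝔫 : algebraMap ↥(beta0Ring A K₀) (integralClosure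
      (Algebra.adjoin ↥(beta0Ring A K₀) {bgJ ↥K₀ (M * q)})
      ↥(modularFunctionFieldFullC ↥K₀ (M * q))) π ∈ 𝔫) :
    (∃ s ∈ 𝔫, NodesLocGen 𝔫 {algebraMap ↥(beta0Ring A K₀) (integralClosure
      (Algebra.adjoin ↥(beta0Ring A K₀) {bgJ ↥K₀ (M * q)})
      ↥(modularFunctionFieldFullC ↥K₀ (M * q))) π, s}) ∨
    (∃ X Y : integralClosure (Algebra.adjoin ↥(beta0Ring A K₀) {bgJ ↥K₀ (M * q)})
        ↥(modularFunctionFieldFullC ↥K₀ (M * q)),
      X ∈ 𝔫 ∧ Y ∈ 𝔫 ∧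
      algebraMap ↥(beta0Ring A K₀) (integralClosure
        (Algebra.adjoin ↥(beta0Ring A K₀) {bgJ ↥K₀ (M * q)})
        ↥(modularFunctionFieldFullC ↥K₀ (M * q))) π ∣ X * Y ∧
      NodesLocGen 𝔫 {algebraMap ↥(beta0Ring A K₀) (integralClosure
        (Algebra.adjoin ↥(beta0Ring A K₀) {bgJ ↥K₀ (M * q)})
        ↥(modularFunctionFieldFullC ↥K₀ (M * q))) π, X, Y}) := by
  haveI : Fact q.Prime := ⟨hq⟩
  haveI : CharP (IsLocalRing.ResidueField ↥(beta0Ring A K₀)) q := frobLift_charP A K₀ hq hA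
  exact mgcb_gen_hU5_J K₀ (IsLocalRing.residue ↥(beta0Ring A K₀)) ιC hq hqM
    ((stbLiftA hφF hφ).symm : ↥(beta0Ring A K₀) →+* ↥(beta0Ring A K₀))
    ((mgaRestrictEquiv K₀ φ hφ).symm : ↥K₀ →+* ↥K₀)
    (stbLiftTheta hφF hφ) hπ (stb_residue_ker hπ) (stb_residue_pi hπ) h
    (stbLift_hψ' hφF hφ) (stbLift_hθ hφF hφ) (stbLift_hθq hφF hφ)
    (bgJ ↥K₀ (M * q)) mgcb_incl_bgJ 𝔫 h𝔫 hπ𝔫

include hπ ιC hq hqM in
/-- **`hU5` on the chart `1 / j`** of `F_{Mq}(K₀)` over `A ∩ K₀`. -/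
theorem mgcb_reg_hU5_Jinv (hA : A.LiesOverPrime q) {φ : Qb ≃ₐ[ℚ] Qb}
    (hφF : A.IsFrobeniusAt φ q) (hφ : ∀ x ∈ K₀, φ x ∈ K₀)
    (h : RegChart (E := ↥K₀) π (bgJ ↥K₀ M)⁻¹)
    (𝔫 : Ideal (integralClosure (Algebra.adjoin ↥(beta0Ring A K₀) {(bgJ ↥K₀ (M * q))⁻¹})
      ↥(modularFunctionFieldFullC ↥K₀ (M * q))))
    (h𝔫 : 𝔫.IsMaximal)
    (hπ𝔫 : algebraMap ↥(beta0Ring A K₀) (integralClosure
      (Algebra.adjoin ↥(beta0Ring A K₀) {(bgJ ↥K₀ (M * q))⁻¹})
      ↥(modularFunctionFieldFullC ↥K₀ (M * q))) π ∈ 𝔫) :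
    (∃ s ∈ 𝔫, NodesLocGen 𝔫 {algebraMap ↥(beta0Ring A K₀) (integralClosure
      (Algebra.adjoin ↥(beta0Ring A K₀) {(bgJ ↥K₀ (M * q))⁻¹})
      ↥(modularFunctionFieldFullC ↥K₀ (M * q))) π, s}) ∨
    (∃ X Y : integralClosure (Algebra.adjoin ↥(beta0Ring A K₀) {(bgJ ↥K₀ (M * q))⁻¹})
        ↥(modularFunctionFieldFullC ↥K₀ (M * q)),
      X ∈ 𝔫 ∧ Y ∈ 𝔫 ∧
      algebraMap ↥(beta0Ring A K₀) (integralClosure
        (Algebra.adjoin ↥(beta0Ring A K₀) {(bgJ ↥K₀ (M * q))⁻¹})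
        ↥(modularFunctionFieldFullC ↥K₀ (M * q))) π ∣ X * Y ∧
      NodesLocGen 𝔫 {algebraMap ↥(beta0Ring A K₀) (integralClosure
        (Algebra.adjoin ↥(beta0Ring A K₀) {(bgJ ↥K₀ (M * q))⁻¹})
        ↥(modularFunctionFieldFullC ↥K₀ (M * q))) π, X, Y}) := by
  haveI : Fact q.Prime := ⟨hq⟩
  haveI : CharP (IsLocalRing.ResidueField ↥(beta0Ring A K₀)) q := frobLift_charP A K₀ hq hA
  exact mgcb_gen_hU5_Jinv K₀ (IsLocalRing.residue ↥(beta0Ring A K₀)) ιC hq hqM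
    ((stbLiftA hφF hφ).symm : ↥(beta0Ring A K₀) →+* ↥(beta0Ring A K₀))
    ((mgaRestrictEquiv K₀ φ hφ).symm : ↥K₀ →+* ↥K₀)
    (stbLiftTheta hφF hφ) hπ (stb_residue_ker hπ) (stb_residue_pi hπ) h
    (stbLift_hψ' hφF hφ) (stbLift_hθ hφF hφ) (stbLift_hθq hφF hφ)
    (bgJ ↥K₀ (M * q))⁻¹ mgcb_incl_bgJ_inv 𝔫 h𝔫 hπ𝔫

end Reg

end Fermat.Agent.UNIP

end
end ZBUNIP_010_7
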